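import Mathlib
import Fermat.Prelude.Def_EllipticCurve_FrobeniusTrace
import Fermat.Statements.S22
import Fermat.Prelude.Thm_ModularForm_sturm_bound_Gamma0
import Fermat.Prelude.Thm_CongruenceSubgroup_one_mem_strictPeriods_Gamma0
import Fermat.Prelude.Def_GaloisRep_Adic
import Mathlib.NumberTheory.ModularForms.LevelOne.GradedRing
import Mathlib.NumberTheory.ModularForms.Derivative
import Mathlib.NumberTheory.ModularForms.QExpansion
import Mathlib.Analysis.Complex.TaylorSeries
import Fermat.Prelude.Def_AlgebraicCurve_Correspondence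

-- ===== PACK-BEGIN Lib/Cheb/Spec.lean
section



/-!
# Shared library CHEB — frozen interface statements

Tier 1 ("FROB", Frobenius' density theorem, qualitative): every `σ ∈ Gal(ℚ̄/ℚ)` generates, on any
finite extension, the same cyclic group as some Frobenius element at a prime outside a given
finite set.  Needs only the simple pole of Dedekind zeta functions.

Tier 2 (exact qualitative Chebotarev): `σ` itself is a Frobenius.  Needs Dirichlet `L`-series
over number fields (statement `CycStatement`).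

All blocks prove one of the `Prop`s below, e.g. `theorem primeSum : Spec.PrimeSumStatement`.
Plan, owners, status: `coord/CHEB.md` on branch `origin/helper993`.
-/

set_option autoImplicit false

open NumberField
open scoped Pointwise

namespace Fermat.Agent.Lib.Cheb.Spec

/-- `ℚ̄`. -/
abbrev Qb : Type := AlgebraicClosure ℚ

/-- `Gal(ℚ̄/ℚ)`. -/
abbrev GQ : Type := Qb ≃ₐ[ℚ] Qb

/-- Number of prime ideals of `𝓞 F` of absolute norm `p` (the degree-one primes above `p`). -/
noncomputable def primeCount (F : Type) [Field F] [NumberField F] (p : ℕ) : ℕ :=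
  Nat.card {𝔮 : Ideal (𝓞 F) // 𝔮.IsPrime ∧ Ideal.absNorm 𝔮 = p}

/-- The decomposition group of a prime `P` of `𝓞 L` in `Gal(L/ℚ)`. -/
abbrev decomp (L : Type) [Field L] [NumberField L] (P : Ideal (𝓞 L)) :
    Subgroup (L ≃ₐ[ℚ] L) :=
  MulAction.stabilizer (L ≃ₐ[ℚ] L) P

/-- The primes `P` of `𝓞 L` above `p` whose decomposition group is contained in `H`. -/
def primesLe (L : Type) [Field L] [NumberField L] (H : Subgroup (L ≃ₐ[ℚ] L)) (p : ℕ) :
    Set (Ideal (𝓞 L)) :=
  {P | P.IsPrime ∧ (p : 𝓞 L) ∈ P ∧ decomp L P ≤ H}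

/-- `∑_{P ∣ p, D_P ≤ H} |D_P|`. -/
noncomputable def decompWeight (L : Type) [Field L] [NumberField L]
    (H : Subgroup (L ≃ₐ[ℚ] L)) (p : ℕ) : ℕ :=
  ∑ᶠ P : primesLe L H p, Nat.card (decomp L P.1)

/-- The inertia group of `P` is trivial. -/
def InertiaTrivial (L : Type) [Field L] [NumberField L] (P : Ideal (𝓞 L)) : Prop :=
  ∀ ι : L ≃ₐ[ℚ] L, (∀ x : 𝓞 L, ι • x - x ∈ P) → ι = 1

/-! ## Tier 1 -/

/-- (Z) = F1 = W1: prime sums of degree-one primes, any number field. -/
def PrimeSumStatement : Prop :=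
  ∀ (F : Type) [Field F] [NumberField F], ∃ C : ℝ, ∀ s : ℝ, 1 < s → s ≤ 2 →
    |(∑' p : Nat.Primes, (primeCount F p : ℝ) * (p : ℝ) ^ (-s)) - Real.log (1 / (s - 1))| ≤ C

/-- (B0): at most `[F:ℚ]` primes of norm `p`. -/
def PrimeCountBoundStatement : Prop :=
  ∀ (F : Type) [Field F] [NumberField F] (p : ℕ), primeCount F p ≤ Module.finrank ℚ F

/-- (A) = F2+F3: degree-one primes of the fixed field `L^H` versus decomposition groups. -/
def CountStatement : Prop :=
  ∀ (L : Type) [Field L] [NumberField L] [IsGalois ℚ L] (H : Subgroup (L ≃ₐ[ℚ] L)),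
    ∃ B : Finset ℕ, ∀ p : ℕ, p.Prime → p ∉ B →
      primeCount (IntermediateField.fixedField H) p * Nat.card H = decompWeight L H p

/-- (D) = F5: outside a finite set of primes the decomposition group is generated by an
arithmetic Frobenius and the inertia group is trivial. -/
def FrobStatement : Prop :=
  ∀ (L : Type) [Field L] [NumberField L] [IsGalois ℚ L],
    ∃ B : Finset ℕ, ∀ p : ℕ, p.Prime → p ∉ B →
      ∀ P : Ideal (𝓞 L), P.IsPrime → (p : 𝓞 L) ∈ P →
        InertiaTrivial L P ∧
        ∃ τ : L ≃ₐ[ℚ] L, IsArithFrobAt ℤ τ P ∧ decomp L P = Subgroup.zpowers τ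

/-- (M) = F4: finite-level Frobenius density theorem (qualitative). -/
def FrobFiniteStatement : Prop :=
  ∀ (L : Type) [Field L] [NumberField L] [IsGalois ℚ L] (σ : L ≃ₐ[ℚ] L) (S : Finset ℕ),
    ∃ (p : ℕ) (P : Ideal (𝓞 L)) (τ : L ≃ₐ[ℚ] L),
      p.Prime ∧ p ∉ S ∧ P.IsPrime ∧ (p : 𝓞 L) ∈ P ∧ InertiaTrivial L P ∧
      IsArithFrobAt ℤ τ P ∧ Subgroup.zpowers τ = Subgroup.zpowers σ

/-- FROB, Prelude level: on every finite extension `E` of `ℚ` inside `ℚ̄`, `σ` and some Frobenius
element `τ` (at a prime `ℓ ∉ S`, with inertia acting trivially on `E`) are powers of each other. -/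
def FrobeniusDivisionStatement : Prop :=
  ∀ (E : IntermediateField ℚ Qb), FiniteDimensional ℚ E → ∀ (σ : GQ) (S : Finset ℕ),
    ∃ (ℓ : ℕ) (A : ValuationSubring Qb) (τ : GQ) (k j : ℕ),
      ℓ.Prime ∧ ℓ ∉ S ∧ A.LiesOverPrime ℓ ∧ A.IsFrobeniusAt τ ℓ ∧
      (∀ ι ∈ A.inertiaSubgroupIn ℚ, ∀ x ∈ E, ι x = x) ∧
      (∀ x ∈ E, τ x = (σ ^ k) x) ∧ (∀ x ∈ E, (τ ^ j) x = σ x)

/-- F6 = W5 (bridge), Tier 1. -/
def BridgeDivisionStatement : Prop :=
  FrobFiniteStatement → FrobeniusDivisionStatement

/-! ## Tier 2 -/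

/-- Number of ideals of `𝓞 F` of absolute norm `n`. -/
noncomputable def idealCount (F : Type) [Field F] [NumberField F] (n : ℕ) : ℕ :=
  Nat.card {I : Ideal (𝓞 F) // Ideal.absNorm I = n}

/-- (AN) analytic core of Tier 2: for a Dirichlet character `χ` mod `m` such that `χ ∘ N` is not
trivial on the ideals of `𝓞 F` prime to `m`, the series `L_F(s, χ ∘ N) = ∑_I χ(N I) N I ^ (-s)`
has a limit as `s → 1⁺`. -/
def DirichletLimitStatement : Prop :=
  ∀ (F : Type) [Field F] [NumberField F] (m : ℕ) [NeZero m] (χ : DirichletCharacter ℂ m),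
    (∃ I : Ideal (𝓞 F), χ (Ideal.absNorm I : ZMod m) ≠ 0 ∧ χ (Ideal.absNorm I : ZMod m) ≠ 1) →
    ∃ c : ℂ, Filter.Tendsto
      (fun s : ℝ => LSeries (fun n => χ (n : ZMod m) * (idealCount F n : ℂ)) (s : ℂ))
      (nhdsWithin 1 (Set.Ioi 1)) (nhds c)

/-- (CYC) cyclotomic case, stated inside a Galois number field `L ∋ ζ_m`: if the cyclic group
`⟨g⟩` acts faithfully on `ζ`, then `g` is an arithmetic Frobenius at a prime outside `S`. -/
def CycStatement : Prop :=
  ∀ (L : Type) [Field L] [NumberField L] [IsGalois ℚ L] (m : ℕ) (ζ : L), 0 < m →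
    IsPrimitiveRoot ζ m → ∀ g : L ≃ₐ[ℚ] L, (∀ k : ℕ, (g ^ k) ζ = ζ → g ^ k = 1) →
    ∀ S : Finset ℕ, ∃ (p : ℕ) (P : Ideal (𝓞 L)),
      p.Prime ∧ p ∉ S ∧ P.IsPrime ∧ (p : 𝓞 L) ∈ P ∧ InertiaTrivial L P ∧ IsArithFrobAt ℤ g P

/-- Finite-level qualitative Chebotarev. -/
def ChebFiniteStatement : Prop :=
  ∀ (L : Type) [Field L] [NumberField L] [IsGalois ℚ L] (σ : L ≃ₐ[ℚ] L) (S : Finset ℕ),
    ∃ (p : ℕ) (P : Ideal (𝓞 L)),
      p.Prime ∧ p ∉ S ∧ P.IsPrime ∧ (p : 𝓞 L) ∈ P ∧ InertiaTrivial L P ∧ IsArithFrobAt ℤ σ P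

/-- (CROSS) field crossing (may use (D) to discard ramified primes). -/
def CrossStatement : Prop :=
  FrobStatement → CycStatement → ChebFiniteStatement

/-- Qualitative Chebotarev, Prelude level. -/
def ChebotarevStatement : Prop :=
  ∀ (E : IntermediateField ℚ Qb), FiniteDimensional ℚ E → ∀ (σ : GQ) (S : Finset ℕ),
    ∃ (ℓ : ℕ) (A : ValuationSubring Qb) (τ : GQ),
      ℓ.Prime ∧ ℓ ∉ S ∧ A.LiesOverPrime ℓ ∧ A.IsFrobeniusAt τ ℓ ∧
      (∀ ι ∈ A.inertiaSubgroupIn ℚ, ∀ x ∈ E, ι x = x) ∧ (∀ x ∈ E, τ x = σ x)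

/-- Bridge, Tier 2. -/
def BridgeStatement : Prop :=
  ChebFiniteStatement → ChebotarevStatement

end Fermat.Agent.Lib.Cheb.Spec

end
-- ===== PACK-END Lib/Cheb/Spec.lean

-- ===== PACK-BEGIN S59/H540/DetCong.lean
section


/-!
# S59 / G-DET, algebra part (helper540) — Mathlib only

* `mem_of_forall_mem_sup_pow` : in a noetherian local ring every ideal is closed for the
  `𝔪`-adic topology (Krull's intersection theorem for `A ⧸ J`).
* `det_sub_one_mem` : an endomorphism of a finite free module which is congruent to the identity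
  modulo `I` has determinant congruent to `1` modulo `I`.
* `det_eq_coeff_zero_of_charpoly` : the determinant of an endomorphism of a free module of rank `2`
  with characteristic polynomial `X² - tX + d` is `d`.
-/

set_option autoImplicit false

namespace Fermat.Agent.S59.H540

open IsLocalRing

/-- In a noetherian local ring, an element lying in `J ⊔ 𝔪 ^ k` for every `k` lies in `J`. -/
theorem mem_of_forall_mem_sup_pow {A : Type*} [CommRing A] [IsLocalRing A] [IsNoetherianRing A]
    (J : Ideal A) (x : A) (h : ∀ k : ℕ, x ∈ J ⊔ maximalIdeal A ^ k) : x ∈ J := by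
  have hbot := Ideal.iInf_pow_smul_eq_bot_of_isLocalRing (R := A) (M := A ⧸ J)
    (maximalIdeal A) (Ideal.IsPrime.ne_top')
  have hx : (Ideal.Quotient.mk J x : A ⧸ J) ∈
      (⨅ i : ℕ, maximalIdeal A ^ i • (⊤ : Submodule A (A ⧸ J))) := by
    rw [Submodule.mem_iInf]
    intro k
    obtain ⟨j, hj, t, ht, rfl⟩ := Submodule.mem_sup.mp (h k)
    have e : (Ideal.Quotient.mk J (j + t) : A ⧸ J) = t • (1 : A ⧸ J) := by
      rw [map_add, Ideal.Quotient.eq_zero_iff_mem.mpr hj, zero_add, Algebra.smul_def, mul_one]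
      rfl
    rw [e]
    exact Submodule.smul_mem_smul ht Submodule.mem_top
  rw [hbot] at hx
  exact Ideal.Quotient.eq_zero_iff_mem.mp ((Submodule.mem_bot A).mp hx)

/-- Coordinates of an element of `I • ⊤` lie in `I`. -/
theorem repr_mem_of_mem_smul_top {A : Type*} [CommRing A] {V : Type*} [AddCommGroup V]
    [Module A V] {ι : Type*} (b : Module.Basis ι A V) (I : Ideal A) {x : V}
    (hx : x ∈ I • (⊤ : Submodule A V)) (i : ι) : b.repr x i ∈ I := by
  refine Submodule.smul_induction_on (p := fun x => b.repr x i ∈ I) hx ?_ ?_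
  · intro r hr m _
    rw [map_smul, Finsupp.smul_apply, smul_eq_mul]
    exact I.mul_mem_right _ hr
  · intro x y hx hy
    rw [map_add, Finsupp.add_apply]
    exact I.add_mem hx hy

/-- An endomorphism congruent to the identity modulo `I` has determinant `≡ 1` modulo `I`. -/
theorem det_sub_one_mem {A : Type*} [CommRing A] {V : Type*} [AddCommGroup V] [Module A V]
    [Module.Free A V] [Module.Finite A V] (I : Ideal A) (f : V →ₗ[A] V)
    (hf : ∀ v : V, f v - v ∈ I • (⊤ : Submodule A V)) : LinearMap.det f - 1 ∈ I := by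
  classical
  let b := Module.Free.chooseBasis A V
  have hM : (Ideal.Quotient.mk I).mapMatrix (LinearMap.toMatrix b b f) = 1 := by
    ext i j
    rw [RingHom.mapMatrix_apply, Matrix.map_apply, LinearMap.toMatrix_apply, Matrix.one_apply]
    have h1 : b.repr (f (b j)) i = b.repr (f (b j) - b j) i + b.repr (b j) i := by
      rw [map_sub, Finsupp.sub_apply, sub_add_cancel]
    have h2 : b.repr (f (b j) - b j) i ∈ I := repr_mem_of_mem_smul_top b I (hf (b j)) i
    rw [h1, map_add, Ideal.Quotient.eq_zero_iff_mem.mpr h2, zero_add, Module.Basis.repr_self,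
      Finsupp.single_apply]
    by_cases hij : i = j
    · subst hij; simp
    · have hji : ¬ j = i := fun h => hij h.symm
      simp [hij, hji]
  have hdet : Ideal.Quotient.mk I (LinearMap.det f) = 1 := by
    rw [← LinearMap.det_toMatrix b f, RingHom.map_det, hM, Matrix.det_one]
  rw [← Ideal.Quotient.eq_zero_iff_mem, map_sub, hdet, map_one, sub_self]

/-- Determinant from a characteristic polynomial of the shape `X² - t X + d`. -/
theorem det_eq_of_charpoly {A : Type*} [CommRing A] [Nontrivial A] {V : Type*} [AddCommGroup V]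
    [Module A V] [Module.Free A V] [Module.Finite A V] (hrank : Module.finrank A V = 2)
    (f : V →ₗ[A] V) (t d : A)
    (h : LinearMap.charpoly f = Polynomial.X ^ 2 - Polynomial.C t * Polynomial.X + Polynomial.C d) :
    LinearMap.det f = d := by
  rw [LinearMap.det_eq_sign_charpoly_coeff, hrank, h]
  simp [Polynomial.coeff_X, Polynomial.coeff_C]

end Fermat.Agent.S59.H540

end
-- ===== PACK-END S59/H540/DetCong.lean

-- ===== PACK-BEGIN Lib/Cheb/H764/Orbit.lean
section


/-!
# CHEB / piece A: decomposition groups and primes of a fixed field (orbit count)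

Abstract setting: `R ⊆ T ⊆ S` Dedekind-like rings, `G` a finite Galois group of `S/R`,
`H ≤ G` a Galois group of `S/T`.
-/

set_option autoImplicit false
set_option linter.unusedSectionVars false

namespace Fermat.Agent.Lib.Cheb.H764

open Ideal MulAction
open scoped Pointwise

section abstract

variable {R T S : Type*} [CommRing R] [CommRing T] [CommRing S]
  [IsDomain R] [IsDomain T] [IsDomain S]
  [Algebra R T] [Algebra T S] [Algebra R S] [IsScalarTower R T S]
  [Module.Finite R S] [Module.Finite T S]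
  [Module.Flat R S] [Module.Flat T S]
  {G : Type*} [Group G] [Finite G] [MulSemiringAction G S] [IsGaloisGroup G R S]
  (H : Subgroup G) [IsGaloisGroup H T S]

/-- the stabilizer in the subgroup is the intersection with the subgroup -/
lemma stabilizer_subgroup_eq (Q : Ideal S) :
    stabilizer H Q = (stabilizer G Q).subgroupOf H := by
  ext h
  simp [Subgroup.mem_subgroupOf, Subgroup.smul_def]

lemma card_stabilizer_eq_mul (p : Ideal R) [p.IsPrime] [PerfectField p.ResidueField]
    (Q : Ideal S) [Q.IsPrime] [Q.LiesOver p] :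
    Nat.card (stabilizer G Q) = Q.ramificationIdx R * Q.inertiaDeg R := by
  rw [Ideal.card_stabilizer_eq (G := G) p Q, ramificationIdxIn_eq_ramificationIdx p Q G,
    inertiaDegIn_eq_inertiaDeg p Q G]

/-- `|D_Q(G)| = e(𝔮|p) f(𝔮|p) |D_Q(H)|` for `𝔮 = Q ∩ T`. -/
lemma card_stabilizer_eq_mul_card_stabilizer (p : Ideal R) [p.IsPrime]
    [PerfectField p.ResidueField]
    (q : Ideal T) [q.IsPrime] [q.LiesOver p] [PerfectField q.ResidueField]
    (Q : Ideal S) [Q.IsPrime] [Q.LiesOver q] [Q.LiesOver p] :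
    Nat.card (stabilizer G Q) =
      (q.ramificationIdx R * q.inertiaDeg R) * Nat.card (stabilizer H Q) := by
  have h1 : Nat.card (stabilizer H Q) = Q.ramificationIdx T * Q.inertiaDeg T :=
    card_stabilizer_eq_mul (G := H) q Q
  rw [card_stabilizer_eq_mul (G := G) p Q, h1,
    ramificationIdx_tower (R := R) q Q, inertiaDeg_tower (R := R) q Q]
  ring

lemma card_subgroupOf_eq_iff (A B : Subgroup G) :
    Nat.card (A.subgroupOf B) = Nat.card A ↔ A ≤ B := by
  constructor
  · intro h
    have h1 : Nat.card (A.subgroupOf B) = Nat.card (A ⊓ B : Subgroup G) := by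
      rw [← Subgroup.inf_subgroupOf_right]
      exact Nat.card_congr (Subgroup.subgroupOfEquivOfLe inf_le_right).toEquiv
    rw [h1] at h
    have h2 : (A ⊓ B : Subgroup G) = A :=
      Subgroup.eq_of_le_of_card_ge inf_le_left h.ge
    rw [← h2]
    exact inf_le_right
  · intro h
    exact Nat.card_congr (Subgroup.subgroupOfEquivOfLe h).toEquiv

/-- `e(𝔮|p) f(𝔮|p) = 1` iff the decomposition group of `Q` is contained in `H`. -/
lemma ramificationIdx_mul_inertiaDeg_eq_one_iff (p : Ideal R) [p.IsPrime]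
    [PerfectField p.ResidueField]
    (q : Ideal T) [q.IsPrime] [q.LiesOver p] [PerfectField q.ResidueField]
    (Q : Ideal S) [Q.IsPrime] [Q.LiesOver q] [Q.LiesOver p] :
    q.ramificationIdx R * q.inertiaDeg R = 1 ↔ stabilizer G Q ≤ H := by
  have key := card_stabilizer_eq_mul_card_stabilizer H p q Q
  have hpos : 0 < Nat.card (stabilizer H Q) := Nat.card_pos
  rw [stabilizer_subgroup_eq H Q] at key hpos
  rw [← card_subgroupOf_eq_iff]
  constructor
  · intro h
    rw [key, h, one_mul]
  · intro h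
    rw [← h] at key
    have h3 : 1 * Nat.card ((stabilizer G Q).subgroupOf H) =
        (q.ramificationIdx R * q.inertiaDeg R) * Nat.card ((stabilizer G Q).subgroupOf H) := by
      rw [one_mul]; exact key
    exact (Nat.eq_of_mul_eq_mul_right hpos h3).symm

/-- orbit-stabilizer for the primes above `p` -/
lemma ncard_primesOver_mul_card_stabilizer_aux
    (p : Ideal R) [p.IsPrime] (P : Ideal S) [P.IsPrime] [P.LiesOver p] :
    (p.primesOver S).ncard * Nat.card (stabilizer G P) = Nat.card G := by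
  rw [← Algebra.IsInvariant.orbit_eq_primesOver R S G p P]
  simpa using Nat.card_congr (MulAction.orbitProdStabilizerEquivGroup G P)

/-- the number of primes of `S` above `𝔮` times the order of the decomposition group in `H` -/
lemma ncard_primesOver_mul_card_stabilizer
    (q : Ideal T) [q.IsPrime] (Q : Ideal S) [Q.IsPrime] [Q.LiesOver q] :
    (q.primesOver S).ncard * Nat.card (stabilizer H Q) = Nat.card H :=
  ncard_primesOver_mul_card_stabilizer_aux (G := H) q Q

/-- inner sum of the orbit count: the primes of `S` above a prime `𝔮` of `T` with `e f = 1`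
contribute `|H|`. -/
lemma finsum_card_stabilizer_primesOver (p : Ideal R) [p.IsPrime] [PerfectField p.ResidueField]
    (q : Ideal T) [q.IsPrime] [q.LiesOver p] [PerfectField q.ResidueField]
    (hq : q.ramificationIdx R * q.inertiaDeg R = 1) (hfin : (q.primesOver S).Finite)
    (hne : (q.primesOver S).Nonempty) :
    ∑ᶠ Q ∈ q.primesOver S, Nat.card (stabilizer G Q) = Nat.card H := by
  classical
  have key : ∀ Q ∈ q.primesOver S,
      (q.primesOver S).ncard * Nat.card (stabilizer G Q) = Nat.card H := by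
    intro Q hQ
    haveI : Q.IsPrime := hQ.1
    haveI : Q.LiesOver q := hQ.2
    haveI : Q.LiesOver p := LiesOver.trans Q q p
    rw [card_stabilizer_eq_mul_card_stabilizer H p q Q, hq, one_mul]
    exact ncard_primesOver_mul_card_stabilizer H q Q
  have hn : 0 < (q.primesOver S).ncard := (Set.ncard_pos hfin).mpr hne
  have hconst : ∀ Q ∈ q.primesOver S,
      Nat.card (stabilizer G Q) = Nat.card H / (q.primesOver S).ncard := by
    intro Q hQ
    rw [← key Q hQ, Nat.mul_div_cancel_left _ hn]
  rw [finsum_mem_congr rfl hconst, finsum_mem_eq_finite_toFinset_sum _ hfin, Finset.sum_const,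
    _root_.smul_eq_mul, ← Set.ncard_eq_toFinset_card _ hfin]
  obtain ⟨Q, hQ⟩ := hne
  rw [← hconst Q hQ]
  exact key Q hQ

end abstract

end Fermat.Agent.Lib.Cheb.H764

end
-- ===== PACK-END Lib/Cheb/H764/Orbit.lean

-- ===== PACK-BEGIN S31/H262/Reduced.lean
section


/-!
# S31 / SS6 (helper262): `ℚ_[p] ⊗[ℤ] B` is reduced for a reduced ring `B`, finite over `ℤ`

Route: `ℚ ⊗[ℤ] B` is a localisation of `B`, hence reduced; it is a finite-dimensional reduced
`ℚ`-algebra, hence a finite product of (separable) field extensions of `ℚ`, hence formally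
unramified over `ℚ`; base change to `ℚ_[p]` stays formally unramified, hence reduced.
-/

set_option autoImplicit false
set_option linter.unusedSectionVars false
set_option linter.style.haveILetI false

noncomputable section

namespace Fermat.Agent.S31.H262

open scoped TensorProduct

section Reduced

variable (B : Type) [CommRing B] [Module.Finite ℤ B] [IsReduced B]

attribute [local instance] Algebra.TensorProduct.rightAlgebra in
theorem isReduced_rat_tensor : IsReduced (ℚ ⊗[ℤ] B) := by
  haveI : IsLocalization (Algebra.algebraMapSubmonoid B (nonZeroDivisors ℤ)) (ℚ ⊗[ℤ] B) :=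
    IsLocalization.tensorRight (R := ℤ) (S := B) ℚ (nonZeroDivisors ℤ)
  exact isReduced_localizationPreserves
    (Algebra.algebraMapSubmonoid B (nonZeroDivisors ℤ)) (ℚ ⊗[ℤ] B) inferInstance

theorem isArtinianRing_rat_tensor : IsArtinianRing (ℚ ⊗[ℤ] B) :=
  isArtinian_of_tower ℚ inferInstance

attribute [local instance] IsArtinianRing.fieldOfSubtypeIsMaximal in
theorem formallyEtale_rat_tensor : Algebra.FormallyEtale ℚ (ℚ ⊗[ℤ] B) := by
  haveI := isReduced_rat_tensor B
  haveI := isArtinianRing_rat_tensor B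
  rw [Algebra.FormallyEtale.iff_exists_algEquiv_prod]
  exact ⟨MaximalSpectrum (ℚ ⊗[ℤ] B), inferInstance, fun I => (ℚ ⊗[ℤ] B) ⧸ I.asIdeal,
    inferInstance, inferInstance, (IsArtinianRing.equivPi (ℚ ⊗[ℤ] B)).restrictScalars ℚ,
    fun I => inferInstance⟩

variable (K : Type) [Field K] [CharZero K]

/-- `K ⊗[ℤ] B` is reduced for every field `K` of characteristic zero. -/
theorem isReduced_field_tensor : IsReduced (K ⊗[ℤ] B) := by
  letI : Algebra ℚ K := DivisionRing.toRatAlgebra
  haveI := formallyEtale_rat_tensor B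
  haveI : Algebra.FormallyUnramified K (K ⊗[ℚ] (ℚ ⊗[ℤ] B)) := inferInstance
  haveI : IsReduced (K ⊗[ℚ] (ℚ ⊗[ℤ] B)) :=
    Algebra.FormallyUnramified.isReduced_of_field K (K ⊗[ℚ] (ℚ ⊗[ℤ] B))
  exact isReduced_of_injective
    (Algebra.TensorProduct.cancelBaseChange ℤ ℚ K K B).symm.toRingEquiv
    (Algebra.TensorProduct.cancelBaseChange ℤ ℚ K K B).symm.injective

end Reduced

end Fermat.Agent.S31.H262

end
end
-- ===== PACK-END S31/H262/Reduced.lean

-- ===== PACK-BEGIN S22/H262/Glue.lean
section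


set_option autoImplicit false

/-!
# S22 glue: a finitely generated, Hecke-stable, separating lattice of functionals
forces the Hecke algebra to be a finite `ℤ`-module.
-/

namespace Fermat.Agent.S22.H262

open CuspForm

section Abstract

variable {V : Type*} [AddCommGroup V] [Module ℂ V]

/-- The `ℤ`-subalgebra of endomorphisms `t` such that `l ∘ t ∈ Λ` for all `l ∈ Λ`. -/
def stabAlg (Λ : Submodule ℤ (Module.Dual ℂ V)) : Subalgebra ℤ (Module.End ℂ V) where
  carrier := {t | ∀ l ∈ Λ, l ∘ₗ t ∈ Λ}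
  mul_mem' := by
    intro a b ha hb l hl
    have : l ∘ₗ (a * b) = (l ∘ₗ a) ∘ₗ b := rfl
    rw [this]
    exact hb _ (ha _ hl)
  one_mem' := by
    intro l hl
    have : l ∘ₗ (1 : Module.End ℂ V) = l := rfl
    rw [this]
    exact hl
  add_mem' := by
    intro a b ha hb l hl
    rw [LinearMap.comp_add]
    exact Λ.add_mem (ha _ hl) (hb _ hl)
  zero_mem' := by
    intro l _
    rw [LinearMap.comp_zero]
    exact Λ.zero_mem
  algebraMap_mem' := by
    intro n l hl
    have : l ∘ₗ (algebraMap ℤ (Module.End ℂ V) n) = n • l := by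
      ext v
      simp
    rw [this]
    exact Λ.smul_mem n hl

theorem mem_stabAlg {Λ : Submodule ℤ (Module.Dual ℂ V)} {t : Module.End ℂ V} :
    t ∈ stabAlg Λ ↔ ∀ l ∈ Λ, l ∘ₗ t ∈ Λ := Iff.rfl

/-- The transpose action of the stabiliser algebra on the lattice, as a `ℤ`-linear map. -/
def stabAct (Λ : Submodule ℤ (Module.Dual ℂ V)) : stabAlg Λ →ₗ[ℤ] (Λ →ₗ[ℤ] Λ) where
  toFun t :=
    { toFun := fun l => ⟨(l : Module.Dual ℂ V) ∘ₗ (t : Module.End ℂ V), t.2 _ l.2⟩
      map_add' := fun l l' => Subtype.ext (by simp [LinearMap.add_comp])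
      map_smul' := fun n l => Subtype.ext (by
        ext v
        simp) }
  map_add' := fun t t' => LinearMap.ext fun l => Subtype.ext (by
    simp [LinearMap.comp_add])
  map_smul' := fun n t => LinearMap.ext fun l => Subtype.ext (by
    ext v
    simp)

theorem stabAct_injective (Λ : Submodule ℤ (Module.Dual ℂ V))
    (hsep : ∀ v : V, (∀ l ∈ Λ, l v = 0) → v = 0) : Function.Injective (stabAct Λ) := by
  rw [injective_iff_map_eq_zero]
  intro t ht
  apply Subtype.ext
  apply LinearMap.ext
  intro v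
  apply hsep
  intro l hl
  have := congrArg (fun (φ : Λ →ₗ[ℤ] Λ) => ((φ ⟨l, hl⟩ : Λ) : Module.Dual ℂ V) v) ht
  simpa [stabAct] using this

theorem moduleFinite_stabAlg (Λ : Submodule ℤ (Module.Dual ℂ V)) (hfg : Λ.FG)
    (hsep : ∀ v : V, (∀ l ∈ Λ, l v = 0) → v = 0) : Module.Finite ℤ (stabAlg Λ) := by
  have : Module.Finite ℤ Λ := Module.Finite.iff_fg.mpr hfg
  have : IsAddTorsionFree (Module.Dual ℂ V) := .of_isTorsionFree ℂ _
  have : Module.Free ℤ Λ := Module.free_of_finite_type_torsion_free'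
  have : Module.Finite ℤ (Λ →ₗ[ℤ] Λ) := Module.Finite.linearMap ℤ ℤ Λ Λ
  exact Module.Finite.of_injective (stabAct Λ) (stabAct_injective Λ hsep)

end Abstract

/-- **Glue lemma**: a finitely generated `ℤ`-lattice of functionals on `S_k(Γ₀(N))` which is
stable under precomposition with the Hecke generators and separates points
forces the Hecke algebra to be module-finite over `ℤ`. -/
theorem moduleFinite_heckeAlgebra_of_lattice {N : ℕ} [NeZero N] {k : ℤ} {S : Set ℕ}
    (Λ : Submodule ℤ (Module.Dual ℂ (CuspForm (CongruenceSubgroup.Gamma0 N) k)))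
    (hfg : Λ.FG)
    (hstab : ∀ T ∈ heckeGenerators N k S, ∀ l ∈ Λ, l ∘ₗ T ∈ Λ)
    (hsep : ∀ f : CuspForm (CongruenceSubgroup.Gamma0 N) k, (∀ l ∈ Λ, l f = 0) → f = 0) :
    Module.Finite ℤ (heckeAlgebra N k S) := by
  have hle : heckeAlgebra N k S ≤ stabAlg Λ := Algebra.adjoin_le fun T hT => hstab T hT
  have := moduleFinite_stabAlg Λ hfg hsep
  exact Module.Finite.of_injective (Subalgebra.inclusion hle).toLinearMap
    (Subalgebra.inclusion_injective hle)

/-- If the space of cusp forms is trivial, the Hecke algebra is module-finite. -/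
theorem moduleFinite_heckeAlgebra_of_subsingleton {N : ℕ} [NeZero N] {k : ℤ} {S : Set ℕ}
    (h : ∀ f : CuspForm (CongruenceSubgroup.Gamma0 N) k, f = 0) :
    Module.Finite ℤ (heckeAlgebra N k S) :=
  moduleFinite_heckeAlgebra_of_lattice ⊥ Submodule.fg_bot
    (fun T _ l hl => by
      rw [Submodule.mem_bot] at hl ⊢
      rw [hl, LinearMap.zero_comp])
    (fun f _ => h f)

end Fermat.Agent.S22.H262

end
-- ===== PACK-END S22/H262/Glue.lean

-- ===== PACK-BEGIN S22/H262/EasyCases.lean
section




set_option autoImplicit false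

/-!
# S22: cusp forms of weight `k ≤ 1` on `Γ₀(N)` vanish.
-/

namespace Fermat.Agent.S22.H262

open CuspForm UpperHalfPlane
open scoped MatrixGroups

/-- Cusp forms of non-positive weight on `Γ₀(N)` vanish (Sturm bound from the prelude). -/
theorem cuspForm_eq_zero_of_nonpos {N : ℕ} [NeZero N] {k : ℤ} (hk : k ≤ 0)
    (f : CuspForm (CongruenceSubgroup.Gamma0 N) k) : f = 0 := by
  have h0 : (CuspForm.toModularFormₗ f) = 0 := by
    apply ModularForm.sturm_bound_Gamma0 N
    intro n hn
    have hz : (k * ((CongruenceSubgroup.Gamma0 N).index : ℤ)).toNat = 0 := by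
      rw [Int.toNat_eq_zero]
      exact mul_nonpos_of_nonpos_of_nonneg hk (by positivity)
    rw [hz, Nat.zero_div, Nat.le_zero] at hn
    subst hn
    exact CuspFormClass.qExpansion_coeff_zero (f := f) one_pos
      (CongruenceSubgroup.one_mem_strictPeriods_Gamma0 N)
  exact CuspForm.toModularFormₗ_injective (by rw [h0, map_zero])

/-- Cusp forms of odd weight on `Γ₀(N)` vanish, since `-1 ∈ Γ₀(N)`. -/
theorem cuspForm_eq_zero_of_odd {N : ℕ} {k : ℤ} (hk : Odd k)
    (f : CuspForm (CongruenceSubgroup.Gamma0 N) k) : f = 0 := by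
  have hmem : (-1 : GL (Fin 2) ℝ) ∈
      (Subgroup.map (Matrix.SpecialLinearGroup.mapGL ℝ) (CongruenceSubgroup.Gamma0 N)) := by
    refine ⟨-1, ?_, ?_⟩
    · simp [CongruenceSubgroup.Gamma0_mem]
    · ext i j
      simp
  have h0 : (CuspForm.toModularFormₗ f) = 0 :=
    ModularForm.eq_zero_of_neg_one_mem hmem hk _
  exact CuspForm.toModularFormₗ_injective (by rw [h0, map_zero])

/-- Cusp forms of weight `k ≤ 1` on `Γ₀(N)` vanish. -/
theorem cuspForm_eq_zero_of_le_one {N : ℕ} [NeZero N] {k : ℤ} (hk : k ≤ 1)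
    (f : CuspForm (CongruenceSubgroup.Gamma0 N) k) : f = 0 := by
  rcases hk.lt_or_eq with h | h
  · exact cuspForm_eq_zero_of_nonpos (by omega) f
  · exact cuspForm_eq_zero_of_odd (by rw [h]; exact odd_one) f

end Fermat.Agent.S22.H262

end
-- ===== PACK-END S22/H262/EasyCases.lean

-- ===== PACK-BEGIN S22/H262/Prim.lean
section


set_option autoImplicit false

/-!
# Primitive towers on the upper half plane

For a holomorphic periodic function `h` on `ℍ` vanishing at `i∞` we construct the tower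
`E 0 = h`, `(E (r+1))' = E r`, with every `E (r+1)` vanishing at `i∞`, and prove uniqueness.
(The one-step primitive lemma is due to helper502.)
-/

open Complex Filter Function Metric Set
open UpperHalfPlane hiding I
open scoped Real Topology Manifold

namespace Fermat.Agent.S22.H262

/-- One-step primitive: a holomorphic `h`-periodic function on `ℍ` that is zero at `i∞` has a
holomorphic `h`-periodic primitive that is zero at `i∞`. -/
theorem exists_primitive_isZeroAtImInfty {f : ℍ → ℂ} {h : ℝ} (hh : 0 < h)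
    (hfper : Periodic (f ∘ ofComplex) h) (hfhol : MDiff f) (hfzero : IsZeroAtImInfty f) :
    ∃ F : ℍ → ℂ, Periodic (F ∘ ofComplex) h ∧ MDiff F ∧ IsZeroAtImInfty F ∧
      ∀ τ : ℍ, HasDerivAt (F ∘ ofComplex) (f τ) (τ : ℂ) := by
  set φ := cuspFunction h f with hφ
  have hφd : DifferentiableOn ℂ φ (ball 0 1) :=
    differentiableOn_cuspFunction_ball hh hfper hfhol hfzero.isBoundedAtImInfty
  have hφ0 : φ 0 = 0 := hfzero.cuspFunction_apply_zero hh
  have hball : ball (0 : ℂ) 1 ∈ 𝓝 (0 : ℂ) := ball_mem_nhds _ one_pos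
  have hψd : DifferentiableOn ℂ (dslope φ 0) (ball 0 1) :=
    (differentiableOn_dslope hball).2 hφd
  obtain ⟨Ψ, hΨ0, hΨ⟩ := (hψd.isExactOn_ball).with_val_at 0 0
  have hq : ∀ z : ℂ, 0 < z.im → Periodic.qParam h z ∈ ball (0 : ℂ) 1 := fun z hz ↦ by
    simpa using Periodic.norm_qParam_lt_one hh hz
  -- the primitive as a function on `ℂ`
  set G : ℂ → ℂ := fun z ↦ (h / (2 * π * _root_.Complex.I)) * Ψ (Periodic.qParam h z) with hG
  have hGderiv : ∀ τ : ℍ, HasDerivAt G (f τ) (τ : ℂ) := by
    intro τ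
    have hqτ := hq τ τ.im_pos
    have h1 : HasDerivAt (Periodic.qParam h) (Periodic.qParam h τ * (2 * π * _root_.Complex.I / h)) (τ : ℂ) := by
      simpa only [id_eq, mul_one] using!
        (((hasDerivAt_id (τ : ℂ)).const_mul (2 * π * _root_.Complex.I)).div_const (h : ℂ)).cexp
    have h2 := (hΨ _ hqτ).comp (τ : ℂ) h1
    have h3 := h2.const_mul ((h : ℂ) / (2 * π * _root_.Complex.I))
    have hne : Periodic.qParam h (τ : ℂ) ≠ 0 := Periodic.qParam_ne_zero _
    have hval : (h : ℂ) / (2 * π * _root_.Complex.I) *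
        (dslope φ 0 (Periodic.qParam h τ) * (Periodic.qParam h τ * (2 * π * _root_.Complex.I / h))) = f τ := by
      rw [dslope_of_ne _ hne, slope_def_field, hφ0, sub_zero, sub_zero]
      have hh' : (h : ℂ) ≠ 0 := by exact_mod_cast hh.ne'
      have : φ (Periodic.qParam h τ) = f τ := eq_cuspFunction τ hh.ne' hfper
      rw [this]
      field_simp [two_pi_I_ne_zero]
    rw [← hval]
    exact h3
  refine ⟨fun τ ↦ G τ, ?_, ?_, ?_, ?_⟩
  · intro w
    by_cases hw : 0 < _root_.Complex.im w
    · have hw' : 0 < _root_.Complex.im (w + h) := by simpa using hw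
      simp only [comp_apply, ofComplex_apply_of_im_pos hw', ofComplex_apply_of_im_pos hw, hG]
      congr 2
      simp only [Periodic.qParam]
      have hh' : (h : ℂ) ≠ 0 := by exact_mod_cast hh.ne'
      rw [show 2 * π * _root_.Complex.I * (w + h) / h = 2 * π * _root_.Complex.I * w / h + 2 * π * _root_.Complex.I by field_simp,
        Complex.exp_add, Complex.exp_two_pi_mul_I, mul_one]
    · have hw' : _root_.Complex.im (w + h) ≤ 0 := by simpa using not_lt.mp hw
      simp [ofComplex_apply_of_im_nonpos hw', ofComplex_apply_of_im_nonpos (not_lt.mp hw)]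
  · rw [UpperHalfPlane.mdifferentiable_iff]
    intro z hz
    have := hGderiv ⟨z, hz⟩
    refine (this.differentiableAt.differentiableWithinAt).congr ?_ ?_
    · intro w hw
      simp [ofComplex_apply_of_im_pos hw]
    · simp [ofComplex_apply_of_im_pos hz]
  · have hΨc : ContinuousAt Ψ 0 := (hΨ 0 (mem_ball_self one_pos)).continuousAt
    have h1 : Tendsto (fun τ : ℍ ↦ Ψ (Periodic.qParam h τ)) atImInfty (𝓝 0) := by
      have := hΨc.tendsto.comp (qParam_tendsto_atImInfty hh)
      rwa [hΨ0] at this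
    have h2 := h1.const_mul ((h : ℂ) / (2 * π * _root_.Complex.I))
    rw [mul_zero] at h2
    exact h2
  · intro τ
    refine (hGderiv τ).congr_of_eventuallyEq ?_
    have hopen : {z : ℂ | 0 < z.im} ∈ 𝓝 (τ : ℂ) :=
      (isOpen_lt continuous_const Complex.continuous_im).mem_nhds τ.im_pos
    filter_upwards [hopen] with z hz
    simp [ofComplex_apply_of_im_pos hz]

/-- A *primitive tower* of `h`: `E 0 = h`, `E (r+1)` is a primitive of `E r` on `ℍ`
which vanishes at `i∞`. -/
structure IsTower (h : ℍ → ℂ) (E : ℕ → ℍ → ℂ) : Prop where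
  zero : E 0 = h
  hasDeriv : ∀ (r : ℕ) (z : ℍ), HasDerivAt (E (r + 1) ∘ ofComplex) (E r z) (z : ℂ)
  isZero : ∀ r : ℕ, IsZeroAtImInfty (E (r + 1))

/-- A function on `ℍ` with vanishing derivative everywhere is constant. -/
theorem const_of_hasDerivAt_zero {D : ℍ → ℂ}
    (hD : ∀ z : ℍ, HasDerivAt (D ∘ ofComplex) 0 (z : ℂ)) (z w : ℍ) : D z = D w := by
  have hopen : IsOpen {z : ℂ | 0 < z.im} := isOpen_lt continuous_const Complex.continuous_im
  have hconv : Convex ℝ {z : ℂ | 0 < z.im} := by
    intro x hx y hy a b ha hb hab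
    simp only [Set.mem_ofPred_eq, add_im, smul_im] at *
    rcases ha.eq_or_lt with rfl | ha'
    · simp only [zero_add] at hab
      subst hab
      simpa using hy
    · have : 0 < a * x.im := mul_pos ha' hx
      have : 0 ≤ b * y.im := mul_nonneg hb hy.le
      simpa using by linarith
  have hdiff : DifferentiableOn ℂ (D ∘ ofComplex) {z : ℂ | 0 < z.im} := fun z hz =>
    (hD ⟨z, hz⟩).differentiableAt.differentiableWithinAt
  have hderiv : EqOn (deriv (D ∘ ofComplex)) 0 {z : ℂ | 0 < z.im} := fun z hz =>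
    (hD ⟨z, hz⟩).deriv
  have := hopen.is_const_of_deriv_eq_zero hconv.isPreconnected hdiff hderiv z.im_pos w.im_pos
  simpa using this

/-- A function on `ℍ` with vanishing derivative which tends to zero at `i∞` is zero. -/
theorem eq_zero_of_hasDerivAt_zero_of_isZero {D : ℍ → ℂ}
    (hD : ∀ z : ℍ, HasDerivAt (D ∘ ofComplex) 0 (z : ℂ)) (h0 : IsZeroAtImInfty D) : D = 0 := by
  funext z
  have hconst : D = fun _ => D z := funext fun w => const_of_hasDerivAt_zero hD w z
  have h1 : Tendsto D atImInfty (𝓝 0) := h0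
  have h2 : Tendsto D atImInfty (𝓝 (D z)) := by
    conv => enter [1]; rw [hconst]
    exact tendsto_const_nhds
  exact tendsto_nhds_unique h2 h1

theorem IsTower.unique {h : ℍ → ℂ} {E E' : ℕ → ℍ → ℂ} (hE : IsTower h E) (hE' : IsTower h E') :
    E = E' := by
  funext r
  induction r with
  | zero => rw [hE.zero, hE'.zero]
  | succ r ih =>
    have hD : ∀ z : ℍ, HasDerivAt ((E (r + 1) - E' (r + 1)) ∘ ofComplex) 0 (z : ℂ) := by
      intro z
      have := (hE.hasDeriv r z).sub (hE'.hasDeriv r z)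
      rw [ih, sub_self] at this
      exact this
    have h0 : IsZeroAtImInfty (E (r + 1) - E' (r + 1)) := by
      have : Tendsto (fun z => E (r + 1) z - E' (r + 1) z) atImInfty (𝓝 (0 - 0)) :=
        Tendsto.sub (hE.isZero r) (hE'.isZero r)
      rw [sub_zero] at this
      exact this
    have := eq_zero_of_hasDerivAt_zero_of_isZero hD h0
    exact sub_eq_zero.mp this

theorem IsTower.mdiff {h : ℍ → ℂ} {E : ℕ → ℍ → ℂ} (hE : IsTower h E) (r : ℕ) :
    MDiff (E (r + 1)) := by
  rw [UpperHalfPlane.mdifferentiable_iff]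
  intro z hz
  exact (hE.hasDeriv r ⟨z, hz⟩).differentiableAt.differentiableWithinAt

theorem IsTower.add {h₁ h₂ : ℍ → ℂ} {E₁ E₂ : ℕ → ℍ → ℂ} (h1 : IsTower h₁ E₁)
    (h2 : IsTower h₂ E₂) : IsTower (h₁ + h₂) (E₁ + E₂) where
  zero := by rw [Pi.add_apply, h1.zero, h2.zero]
  hasDeriv r z := (h1.hasDeriv r z).add (h2.hasDeriv r z)
  isZero r := by
    have : Tendsto (fun z => E₁ (r + 1) z + E₂ (r + 1) z) atImInfty (𝓝 (0 + 0)) :=
      Tendsto.add (h1.isZero r) (h2.isZero r)
    rw [add_zero] at this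
    exact this

theorem IsTower.smul {h : ℍ → ℂ} {E : ℕ → ℍ → ℂ} (hE : IsTower h E) (c : ℂ) :
    IsTower (c • h) (c • E) where
  zero := by rw [Pi.smul_apply, hE.zero]
  hasDeriv r z := (hE.hasDeriv r z).const_smul c
  isZero r := by
    have : Tendsto (fun z => c * E (r + 1) z) atImInfty (𝓝 (c * 0)) :=
      (hE.isZero r).const_mul c
    rw [mul_zero] at this
    exact this

theorem isTower_zero : IsTower 0 0 where
  zero := rfl
  hasDeriv _ z := by
    have : ((0 : ℕ → ℍ → ℂ) 0 ∘ ofComplex) = fun _ => (0 : ℂ) := rfl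
    simp
  isZero _ := tendsto_const_nhds

/-- Existence of towers for holomorphic periodic functions vanishing at `i∞`. -/
theorem exists_isTower {h : ℍ → ℂ} {p : ℝ} (hp : 0 < p)
    (hper : Periodic (h ∘ ofComplex) p) (hhol : MDiff h) (hzero : IsZeroAtImInfty h) :
    ∃ E : ℕ → ℍ → ℂ, IsTower h E := by
  classical
  let X := {F : ℍ → ℂ // Periodic (F ∘ ofComplex) p ∧ MDiff F ∧ IsZeroAtImInfty F}
  have step : ∀ F : X, ∃ F' : X, ∀ τ : ℍ, HasDerivAt (F'.1 ∘ ofComplex) (F.1 τ) (τ : ℂ) := by
    rintro ⟨F, h1, h2, h3⟩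
    obtain ⟨F', h1', h2', h3', h4'⟩ := exists_primitive_isZeroAtImInfty hp h1 h2 h3
    exact ⟨⟨F', h1', h2', h3'⟩, h4'⟩
  choose next hnext using step
  let E : ℕ → X := fun r => Nat.rec ⟨h, hper, hhol, hzero⟩ (fun _ F => next F) r
  refine ⟨fun r => (E r).1, rfl, fun r z => ?_, fun r => ?_⟩
  · exact hnext (E r) z
  · exact (E (r + 1)).2.2.2

/-- The chosen tower of a function (junk value `0` if no tower exists). -/
noncomputable def tower (h : ℍ → ℂ) : ℕ → ℍ → ℂ :=
  open Classical in if hex : ∃ E, IsTower h E then hex.choose else 0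

/-- `h` admits a tower. -/
def HasTower (h : ℍ → ℂ) : Prop := ∃ E, IsTower h E

theorem HasTower.isTower {h : ℍ → ℂ} (hh : HasTower h) : IsTower h (tower h) := by
  unfold tower
  have hh' : ∃ E, IsTower h E := hh
  rw [dif_pos hh']
  exact hh'.choose_spec

theorem IsTower.tower_eq {h : ℍ → ℂ} {E : ℕ → ℍ → ℂ} (hE : IsTower h E) : tower h = E :=
  (HasTower.isTower ⟨E, hE⟩).unique hE

theorem HasTower.add {h₁ h₂ : ℍ → ℂ} (h1 : HasTower h₁) (h2 : HasTower h₂) :
    HasTower (h₁ + h₂) := ⟨_, h1.isTower.add h2.isTower⟩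

theorem HasTower.smul {h : ℍ → ℂ} (hh : HasTower h) (c : ℂ) : HasTower (c • h) :=
  ⟨_, hh.isTower.smul c⟩

theorem hasTower_zero : HasTower 0 := ⟨_, isTower_zero⟩

theorem tower_add {h₁ h₂ : ℍ → ℂ} (h1 : HasTower h₁) (h2 : HasTower h₂) :
    tower (h₁ + h₂) = tower h₁ + tower h₂ :=
  (h1.isTower.add h2.isTower).tower_eq

theorem tower_smul {h : ℍ → ℂ} (hh : HasTower h) (c : ℂ) : tower (c • h) = c • tower h :=
  (hh.isTower.smul c).tower_eq

theorem tower_zero_fun : tower 0 = 0 := isTower_zero.tower_eq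

theorem tower_sum {ι : Type*} (s : Finset ι) (h : ι → ℍ → ℂ) (hh : ∀ i ∈ s, HasTower (h i)) :
    HasTower (∑ i ∈ s, h i) ∧ tower (∑ i ∈ s, h i) = ∑ i ∈ s, tower (h i) := by
  classical
  induction s using Finset.induction_on with
  | empty => exact ⟨by simpa using hasTower_zero, by simpa using tower_zero_fun⟩
  | insert a s ha ih =>
    have ih' := ih fun i hi => hh i (Finset.mem_insert_of_mem hi)
    have ha' := hh a (Finset.mem_insert_self a s)
    rw [Finset.sum_insert ha, Finset.sum_insert ha]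
    exact ⟨ha'.add ih'.1, by rw [tower_add ha' ih'.1, ih'.2]⟩

end Fermat.Agent.S22.H262

end
-- ===== PACK-END S22/H262/Prim.lean

-- ===== PACK-BEGIN S30/H330/AdicAlg.lean
section
/-
S30 -- ADIC MODULE LAYER, piece 1 (pure algebra).  helper330.

For a complete discrete valuation ring `O` (char 0, residue characteristic `p`, finite residue
field), `L = Frac O`, and an abelian group `J` with finite `p`-torsion, the group
`Hom_ℤ(L/O, J)` with `O` acting through the source is a finite free `O`-module.  Its simultaneous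
eigen-submodule `M` for a family of endomorphisms of `J` inherits a Galois action which is
adically continuous, and relations valid on `J[p^∞]` pass to `M`.
-/



set_option autoImplicit false

noncomputable section

namespace Fermat.Agent.S30.H330

/-! ### `Hom_ℤ(Frac O, J)` as an `O`-module through the source -/

section SrcHom

variable (O : Type) [CommRing O] (J : Type) [AddCommGroup J]

/-- `Hom_ℤ(Frac O, J)`, with `O` acting by multiplication on the source. -/
def SrcHom : Type := FractionRing O →+ J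

namespace SrcHom

variable {O J}

/-- The underlying additive map. -/
def hom (g : SrcHom O J) : FractionRing O →+ J := g

/-- Constructor. -/
def of (g : FractionRing O →+ J) : SrcHom O J := g

@[simp] theorem hom_of (g : FractionRing O →+ J) : (of g : SrcHom O J).hom = g := rfl

@[ext] theorem ext {g h : SrcHom O J} (H : ∀ x, g.hom x = h.hom x) : g = h :=
  AddMonoidHom.ext H

instance : AddCommGroup (SrcHom O J) := inferInstanceAs (AddCommGroup (FractionRing O →+ J))

@[simp] theorem hom_add (g h : SrcHom O J) (x : FractionRing O) :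
    (g + h).hom x = g.hom x + h.hom x := rfl

@[simp] theorem hom_zero (x : FractionRing O) : (0 : SrcHom O J).hom x = 0 := rfl

@[simp] theorem hom_neg (g : SrcHom O J) (x : FractionRing O) : (-g).hom x = -g.hom x := rfl

@[simp] theorem hom_sub (g h : SrcHom O J) (x : FractionRing O) :
    (g - h).hom x = g.hom x - h.hom x := rfl

instance : SMul O (SrcHom O J) :=
  ⟨fun a g => of (g.hom.comp (AddMonoidHom.mulLeft (algebraMap O (FractionRing O) a)))⟩

@[simp] theorem hom_smul (a : O) (g : SrcHom O J) (x : FractionRing O) :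
    (a • g).hom x = g.hom (algebraMap O (FractionRing O) a * x) := rfl

instance : Module O (SrcHom O J) where
  one_smul g := by ext x; simp
  mul_smul a b g := by
    ext x
    simp only [hom_smul, map_mul]
    congr 1
    ring
  smul_zero a := by ext x; simp
  smul_add a g h := by ext x; simp
  add_smul a b g := by ext x; simp [add_mul]
  zero_smul g := by ext x; simp

end SrcHom

end SrcHom

/-! ### Precompleteness of finite powers -/

open Submodule in
/-- Finite powers of a precomplete ring are precomplete. -/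
theorem isPrecomplete_pi {R : Type*} [CommRing R] (I : Ideal R) [IsPrecomplete I R]
    (k : ℕ) : IsPrecomplete I (Fin k → R) := by
  refine ⟨fun f hf => ?_⟩
  have hcomp : ∀ (n : ℕ) (g : Fin k → R), g ∈ (I ^ n • ⊤ : Submodule R (Fin k → R)) →
      ∀ i, g i ∈ (I ^ n • ⊤ : Submodule R R) := by
    intro n g hg i
    refine Submodule.smul_induction_on hg (fun r hr m _ => ?_) (fun x y hx hy => ?_)
    · exact Submodule.smul_mem_smul hr trivial
    · exact Submodule.add_mem _ hx hy
  have hC : ∀ i, ∃ L : R, ∀ n, f n i ≡ L [SMOD (I ^ n • ⊤ : Submodule R R)] := by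
    intro i
    refine IsPrecomplete.prec ‹_› (f := fun n => f n i) ?_
    intro m n hmn
    have := hf hmn
    rw [SModEq.sub_mem] at this ⊢
    exact hcomp m _ this i
  choose L hL using hC
  refine ⟨L, fun n => ?_⟩
  rw [SModEq.sub_mem]
  have hsum : f n - L = ∑ i, (f n i - L i) • (Pi.single i (1 : R) : Fin k → R) := by
    funext j
    simp [Finset.sum_apply, Pi.single_apply]
  rw [hsum]
  refine Submodule.sum_mem _ fun i _ => ?_
  have hi := hL i n
  rw [SModEq.sub_mem] at hi
  have hi' : f n i - L i ∈ I ^ n := by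
    simpa using hi
  exact Submodule.smul_mem_smul hi' trivial

/-! ### The eigen-submodule -/

section Main

variable {O : Type} [CommRing O]
variable {J : Type} [AddCommGroup J]
variable {ι : Type} (t : ι → J →+ J) (a : ι → O)

/-- The simultaneous eigen-submodule of `Hom_ℤ(L/O, J)`. -/
def eigenSub : Submodule O (SrcHom O J) where
  carrier := {g | (∀ r : O, g.hom (algebraMap O (FractionRing O) r) = 0) ∧
    ∀ i x, t i (g.hom x) = g.hom (algebraMap O (FractionRing O) (a i) * x)}
  add_mem' := by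
    rintro g h ⟨g0, ge⟩ ⟨h0, he⟩
    refine ⟨fun r => by simp [g0, h0], fun i x => ?_⟩
    simp only [SrcHom.hom_add, map_add, ge, he]
  zero_mem' := ⟨fun r => rfl, fun i x => by simp⟩
  smul_mem' := by
    rintro c g ⟨g0, ge⟩
    refine ⟨fun r => ?_, fun i x => ?_⟩
    · rw [SrcHom.hom_smul, ← _root_.map_mul]; exact g0 _
    · rw [SrcHom.hom_smul, SrcHom.hom_smul, ge]
      congr 1
      ring

theorem mem_eigenSub {g : SrcHom O J} : g ∈ eigenSub t a ↔
    (∀ r : O, g.hom (algebraMap O (FractionRing O) r) = 0) ∧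
    ∀ i x, t i (g.hom x) = g.hom (algebraMap O (FractionRing O) (a i) * x) := Iff.rfl

variable {t a}
variable [IsDomain O] [IsDiscreteValuationRing O]

/-- Every element of `L` is `y / ϖ ^ n`. -/
theorem exists_eq_div_pow {ϖ : O} (hϖ : Irreducible ϖ) (x : FractionRing O) :
    ∃ (n : ℕ) (y : O), x = algebraMap O (FractionRing O) y /
      algebraMap O (FractionRing O) ϖ ^ n := by
  obtain ⟨c, d, hd, rfl⟩ := IsFractionRing.div_surjective O x
  have hd0 : d ≠ 0 := nonZeroDivisors.ne_zero hd
  obtain ⟨n, u, hu⟩ := IsDiscreteValuationRing.associated_pow_irreducible hd0 hϖ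
  refine ⟨n, c * u, ?_⟩
  have hϖ0 : algebraMap O (FractionRing O) ϖ ≠ 0 := by
    simpa using hϖ.ne_zero
  have hd0' : algebraMap O (FractionRing O) d ≠ 0 := by
    simpa using hd0
  rw [div_eq_div_iff hd0' (pow_ne_zero _ hϖ0), ← _root_.map_pow, ← hu]
  simp only [_root_.map_mul]
  ring

/-- Division lemma: an element of the eigen-submodule killing `ϖ⁻ⁿ O` is divisible by `ϖ ^ n`. -/
theorem exists_eq_pow_smul {ϖ : O} (hϖ : Irreducible ϖ) (n : ℕ) {g : SrcHom O J}
    (hg : g ∈ eigenSub t a)
    (hkill : ∀ y : O, g.hom (algebraMap O (FractionRing O) y /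
      algebraMap O (FractionRing O) ϖ ^ n) = 0) :
    ∃ g' ∈ eigenSub t a, g = ϖ ^ n • g' := by
  have hϖ0 : algebraMap O (FractionRing O) ϖ ≠ 0 := by
    simpa using hϖ.ne_zero
  have hpow : algebraMap O (FractionRing O) ϖ ^ n ≠ 0 := pow_ne_zero _ hϖ0
  refine ⟨SrcHom.of (g.hom.comp (AddMonoidHom.mulLeft ((algebraMap O (FractionRing O) ϖ ^ n)⁻¹))),
    ⟨fun r => ?_, fun i x => ?_⟩, ?_⟩
  · show g.hom ((algebraMap O (FractionRing O) ϖ ^ n)⁻¹ * algebraMap O (FractionRing O) r) = 0
    rw [_root_.mul_comm, ← div_eq_mul_inv]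
    exact hkill r
  · show t i (g.hom ((algebraMap O (FractionRing O) ϖ ^ n)⁻¹ * x)) =
      g.hom ((algebraMap O (FractionRing O) ϖ ^ n)⁻¹ * (algebraMap O (FractionRing O) (a i) * x))
    rw [hg.2]
    congr 1
    ring
  · ext x
    show g.hom x = g.hom ((algebraMap O (FractionRing O) ϖ ^ n)⁻¹ *
      (algebraMap O (FractionRing O) (ϖ ^ n) * x))
    congr 1
    rw [_root_.map_pow]
    field_simp

end Main

/-! ### Separatedness and torsion-freeness -/

section Finite

variable {O : Type} [CommRing O] [IsDomain O] [IsDiscreteValuationRing O]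
variable {J : Type} [AddCommGroup J]
variable {ι : Type} {t : ι → J →+ J} {a : ι → O}

omit [IsDomain O] [IsDiscreteValuationRing O] in
theorem algebraMap_irreducible_ne_zero {ϖ : O} (hϖ : Irreducible ϖ) :
    algebraMap O (FractionRing O) ϖ ≠ 0 := by
  simpa using hϖ.ne_zero

/-- Elements of `𝔪ⁿ M` kill `ϖ⁻ⁿ O`. -/
theorem kill_of_mem_pow_smul_top {ϖ : O} (hϖ : Irreducible ϖ) (n : ℕ)
    {x : eigenSub t a}
    (hx : x ∈ (IsLocalRing.maximalIdeal O ^ n • ⊤ : Submodule O (eigenSub t a))) (y : O) :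
    x.1.hom (algebraMap O (FractionRing O) y / algebraMap O (FractionRing O) ϖ ^ n) = 0 := by
  have hϖ0 := algebraMap_irreducible_ne_zero hϖ
  revert y
  refine Submodule.smul_induction_on hx (fun r hr m _ y => ?_) (fun u v hu hv y => ?_)
  · rw [hϖ.maximalIdeal_eq, Ideal.span_singleton_pow, Ideal.mem_span_singleton'] at hr
    obtain ⟨b, rfl⟩ := hr
    show (m.1).hom (algebraMap O (FractionRing O) (b * ϖ ^ n) *
      (algebraMap O (FractionRing O) y / algebraMap O (FractionRing O) ϖ ^ n)) = 0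
    have : algebraMap O (FractionRing O) (b * ϖ ^ n) *
        (algebraMap O (FractionRing O) y / algebraMap O (FractionRing O) ϖ ^ n) =
        algebraMap O (FractionRing O) (b * y) := by
      simp only [_root_.map_mul, _root_.map_pow]
      field_simp
    rw [this]
    exact m.2.1 _
  · show (u.1 + v.1).hom _ = 0
    rw [SrcHom.hom_add, hu y, hv y, add_zero]

/-- Conversely, elements killing `ϖ⁻ⁿ O` lie in `𝔪ⁿ M`. -/
theorem mem_pow_smul_top_of_kill {ϖ : O} (hϖ : Irreducible ϖ) (n : ℕ)
    {x : eigenSub t a}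
    (hx : ∀ y : O, x.1.hom (algebraMap O (FractionRing O) y /
      algebraMap O (FractionRing O) ϖ ^ n) = 0) :
    x ∈ (IsLocalRing.maximalIdeal O ^ n • ⊤ : Submodule O (eigenSub t a)) := by
  obtain ⟨g', hg', hgg'⟩ := exists_eq_pow_smul hϖ n x.2 hx
  have hxe : x = ϖ ^ n • (⟨g', hg'⟩ : eigenSub t a) := Subtype.ext hgg'
  rw [hxe]
  refine Submodule.smul_mem_smul ?_ trivial
  exact Ideal.pow_mem_pow (hϖ.maximalIdeal_eq ▸ Ideal.mem_span_singleton_self ϖ) n

/-- The eigen-submodule is `𝔪`-adically separated. -/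
theorem isHausdorff_eigenSub : IsHausdorff (IsLocalRing.maximalIdeal O) (eigenSub t a) := by
  obtain ⟨ϖ, hϖ⟩ := IsDiscreteValuationRing.exists_irreducible O
  refine ⟨fun x hx => ?_⟩
  apply Subtype.ext
  apply SrcHom.ext
  intro z
  obtain ⟨n, y, rfl⟩ := exists_eq_div_pow hϖ z
  have h := hx n
  rw [SModEq.zero] at h
  exact kill_of_mem_pow_smul_top hϖ n h y

/-- The eigen-submodule is torsion-free. -/
theorem isTorsionFree_eigenSub : Module.IsTorsionFree O (eigenSub t a) := by
  refine ⟨fun r hr x y hxy => ?_⟩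
  have hr0 : r ≠ 0 := hr.ne_zero
  have hr0' : algebraMap O (FractionRing O) r ≠ 0 := by simpa using hr0
  apply Subtype.ext
  apply SrcHom.ext
  intro z
  have h := congrArg (fun w : eigenSub t a => w.1.hom ((algebraMap O (FractionRing O) r)⁻¹ * z)) hxy
  simp only [Submodule.coe_smul, SrcHom.hom_smul] at h
  rwa [mul_inv_cancel_left₀ hr0'] at h

end Finite

/-! ### Finiteness of `M / 𝔪 M` -/

section Finiteness

variable {O : Type} [CommRing O] [IsDomain O] [IsDiscreteValuationRing O]
variable {J : Type} [AddCommGroup J]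
variable {ι : Type} {t : ι → J →+ J} {a : ι → O}

/-- Values on `ϖ⁻ⁿ O` are killed by `pⁿ`. -/
theorem pow_smul_hom_div_eq_zero {p : ℕ} (hpO : (p : O) ∈ IsLocalRing.maximalIdeal O)
    {ϖ : O} (hϖ : Irreducible ϖ) (n : ℕ) {g : SrcHom O J} (hg : g ∈ eigenSub t a) (y : O) :
    p ^ n • g.hom (algebraMap O (FractionRing O) y / algebraMap O (FractionRing O) ϖ ^ n) = 0 := by
  have hϖ0 := algebraMap_irreducible_ne_zero hϖ
  rw [hϖ.maximalIdeal_eq, Ideal.mem_span_singleton'] at hpO
  obtain ⟨b, hb⟩ := hpO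
  rw [← map_nsmul]
  have : p ^ n • (algebraMap O (FractionRing O) y / algebraMap O (FractionRing O) ϖ ^ n) =
      algebraMap O (FractionRing O) (b ^ n * y) := by
    rw [nsmul_eq_mul]
    have hp : ((p ^ n : ℕ) : FractionRing O) = algebraMap O (FractionRing O) ((b * ϖ) ^ n) := by
      rw [hb]; simp
    rw [hp]
    simp only [_root_.map_mul, _root_.map_pow]
    field_simp
    ring
  rw [this]
  exact hg.1 _

/-- Every value of an element of the eigen-submodule is `p`-power torsion. -/
theorem exists_pow_smul_hom_eq_zero {p : ℕ} (hpO : (p : O) ∈ IsLocalRing.maximalIdeal O)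
    {g : SrcHom O J} (hg : g ∈ eigenSub t a) (z : FractionRing O) :
    ∃ n : ℕ, p ^ n • g.hom z = 0 := by
  obtain ⟨ϖ, hϖ⟩ := IsDiscreteValuationRing.exists_irreducible O
  obtain ⟨n, y, rfl⟩ := exists_eq_div_pow hϖ z
  exact ⟨n, pow_smul_hom_div_eq_zero hpO hϖ n hg y⟩

variable [Finite (IsLocalRing.ResidueField O)]

/-- `M / 𝔪 M` is finite when `J[p]` is. -/
theorem finite_quotient_eigenSub {p : ℕ} (hpO : (p : O) ∈ IsLocalRing.maximalIdeal O)
    (hfin : {x : J | p • x = 0}.Finite) :
    Finite ((eigenSub t a) ⧸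
      (IsLocalRing.maximalIdeal O • ⊤ : Submodule O (eigenSub t a))) := by
  classical
  obtain ⟨ϖ, hϖ⟩ := IsDiscreteValuationRing.exists_irreducible O
  have hϖ0 := algebraMap_irreducible_ne_zero hϖ
  have : Finite {x : J | p • x = 0} := hfin.to_subtype
  -- a section of the residue map
  let sec : IsLocalRing.ResidueField O → O := Function.surjInv IsLocalRing.residue_surjective
  have hsec : ∀ x, IsLocalRing.residue O (sec x) = x :=
    Function.surjInv_eq IsLocalRing.residue_surjective
  -- the restriction map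
  let res : eigenSub t a → (IsLocalRing.ResidueField O → {x : J | p • x = 0}) := fun g x =>
    ⟨g.1.hom (algebraMap O (FractionRing O) (sec x) / algebraMap O (FractionRing O) ϖ ^ 1), by
      have := pow_smul_hom_div_eq_zero hpO hϖ 1 g.2 (sec x)
      simpa using this⟩
  have hres : ∀ g h : eigenSub t a, res g = res h →
      (Submodule.Quotient.mk g : (eigenSub t a) ⧸
        (IsLocalRing.maximalIdeal O • ⊤ : Submodule O (eigenSub t a))) =
        Submodule.Quotient.mk h := by
    intro g h hgh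
    rw [Submodule.Quotient.eq]
    have hpow : (IsLocalRing.maximalIdeal O • ⊤ : Submodule O (eigenSub t a)) =
        (IsLocalRing.maximalIdeal O ^ 1 • ⊤ : Submodule O (eigenSub t a)) := by
      rw [_root_.pow_one]
    rw [hpow]
    apply mem_pow_smul_top_of_kill hϖ 1
    intro y
    -- y = sec (residue y) + ϖ z
    have hy : y - sec (IsLocalRing.residue O y) ∈ IsLocalRing.maximalIdeal O := by
      rw [← Ideal.Quotient.eq_zero_iff_mem]
      change IsLocalRing.residue O (y - sec (IsLocalRing.residue O y)) = 0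
      rw [map_sub, hsec, sub_self]
    rw [hϖ.maximalIdeal_eq, Ideal.mem_span_singleton'] at hy
    obtain ⟨z, hz⟩ := hy
    have hyz : algebraMap O (FractionRing O) y / algebraMap O (FractionRing O) ϖ ^ 1 =
        algebraMap O (FractionRing O) (sec (IsLocalRing.residue O y)) /
          algebraMap O (FractionRing O) ϖ ^ 1 + algebraMap O (FractionRing O) z := by
      have : y = sec (IsLocalRing.residue O y) + z * ϖ := by rw [hz]; ring
      conv_lhs => rw [this]
      simp only [map_add, _root_.map_mul, _root_.pow_one]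
      field_simp
    have hval := congrArg (fun F => (F (IsLocalRing.residue O y) : J)) hgh
    simp only [res] at hval
    show ((g : SrcHom O J) - (h : SrcHom O J)).hom _ = 0
    rw [SrcHom.hom_sub, hyz, map_add, map_add, g.2.1, h.2.1, hval]
    simp
  let F : Set.range res → (eigenSub t a) ⧸
      (IsLocalRing.maximalIdeal O • ⊤ : Submodule O (eigenSub t a)) :=
    fun v => Submodule.Quotient.mk (Classical.choose v.2)
  refine Finite.of_surjective F ?_
  intro q
  obtain ⟨g, rfl⟩ := Submodule.Quotient.mk_surjective _ q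
  refine ⟨⟨res g, g, rfl⟩, ?_⟩
  exact hres _ _ (Classical.choose_spec (⟨g, rfl⟩ : res g ∈ Set.range res))

end Finiteness

/-! ### Finite generation and freeness -/

section FiniteFree

variable {O : Type} [CommRing O] [IsDomain O] [IsDiscreteValuationRing O]
  [IsAdicComplete (IsLocalRing.maximalIdeal O) O] [Finite (IsLocalRing.ResidueField O)]
variable {J : Type} [AddCommGroup J]
variable {ι : Type} {t : ι → J →+ J} {a : ι → O}

/-- The eigen-submodule is a finitely generated `O`-module. -/
theorem finite_eigenSub {p : ℕ} (hpO : (p : O) ∈ IsLocalRing.maximalIdeal O)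
    (hfin : {x : J | p • x = 0}.Finite) : Module.Finite O (eigenSub t a) := by
  classical
  have hq := finite_quotient_eigenSub (t := t) (a := a) hpO hfin
  obtain ⟨k, ⟨e⟩⟩ := Finite.exists_equiv_fin ((eigenSub t a) ⧸
      (IsLocalRing.maximalIdeal O • ⊤ : Submodule O (eigenSub t a)))
  let s : Fin k → eigenSub t a := fun i => Quotient.out (e.symm i)
  have hs : ∀ i, (Submodule.Quotient.mk (s i) : (eigenSub t a) ⧸
      (IsLocalRing.maximalIdeal O • ⊤ : Submodule O (eigenSub t a))) = e.symm i := fun i =>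
    Quotient.out_eq (e.symm i)
  let φ : (Fin k → O) →ₗ[O] eigenSub t a := Fintype.linearCombination O s
  have hsurj : Function.Surjective
      ((IsLocalRing.maximalIdeal O • ⊤ : Submodule O (eigenSub t a)).mkQ ∘ₗ φ) := by
    intro q
    refine ⟨Pi.single (e q) 1, ?_⟩
    simp only [LinearMap.coe_comp, Function.comp_apply, Submodule.mkQ_apply, φ]
    rw [Fintype.linearCombination_apply_single, _root_.one_smul, hs, Equiv.symm_apply_apply]
  have h1 : IsPrecomplete (IsLocalRing.maximalIdeal O) (Fin k → O) :=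
    isPrecomplete_pi (IsLocalRing.maximalIdeal O) k
  have h2 : IsHausdorff (IsLocalRing.maximalIdeal O) (eigenSub t a) := isHausdorff_eigenSub
  have := surjective_of_mkQ_comp_surjective (I := IsLocalRing.maximalIdeal O) hsurj
  exact Module.Finite.of_surjective φ this

/-- The eigen-submodule is free. -/
theorem free_eigenSub {p : ℕ} (hpO : (p : O) ∈ IsLocalRing.maximalIdeal O)
    (hfin : {x : J | p • x = 0}.Finite) : Module.Free O (eigenSub t a) := by
  have h1 : Module.Finite O (eigenSub t a) := finite_eigenSub hpO hfin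
  have h2 : Module.IsTorsionFree O (eigenSub t a) := isTorsionFree_eigenSub
  exact Module.free_of_finite_type_torsion_free'

end FiniteFree

/-- Finiteness of `J[pⁿ]` from finiteness of `J[p]`. -/
theorem finite_pow_torsion {J : Type} [AddCommGroup J] {p : ℕ}
    (hfin : {x : J | p • x = 0}.Finite) (n : ℕ) : {x : J | p ^ n • x = 0}.Finite := by
  induction n with
  | zero =>
    refine (Set.finite_singleton (0 : J)).subset ?_
    intro x hx
    simpa using hx
  | succ n ih =>
    have hsub : {x : J | p ^ (n + 1) • x = 0} ⊆ (fun x : J => p • x) ⁻¹' {x : J | p ^ n • x = 0} := by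
      intro x hx
      simp only [Set.mem_preimage, Set.mem_ofPred_eq] at hx ⊢
      rw [← _root_.SemigroupAction.mul_smul, ← _root_.pow_succ]
      exact hx
    refine (Set.Finite.preimage' ih fun b _ => ?_).subset hsub
    by_cases hb : ∃ x₀ : J, p • x₀ = b
    · obtain ⟨x₀, hx₀⟩ := hb
      refine (hfin.image (fun z => x₀ + z)).subset ?_
      intro x hx
      simp only [Set.mem_preimage, Set.mem_singleton_iff] at hx
      refine ⟨x - x₀, ?_, by simp⟩
      simp only [Set.mem_ofPred_eq, smul_sub, hx, hx₀, sub_self]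
    · refine Set.Finite.subset Set.finite_empty ?_
      intro x hx
      exact (hb ⟨x, hx⟩).elim

/-! ### The Galois action and the main theorem -/

section Galois

variable {O : Type} [CommRing O]
variable {J : Type} [AddCommGroup J]
variable {G : Type} [Monoid G] [DistribMulAction G J]
variable {ι : Type} {t : ι → J →+ J} {a : ι → O}

/-- The action of `G` on `Hom_ℤ(L, J)` through the target. -/
def galSrc (σ : G) (g : SrcHom O J) : SrcHom O J :=
  SrcHom.of ((DistribSMul.toAddMonoidHom J σ).comp g.hom)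

@[simp] theorem galSrc_hom (σ : G) (g : SrcHom O J) (x : FractionRing O) :
    (galSrc σ g).hom x = σ • g.hom x := rfl

theorem galSrc_mem (ht : ∀ i (σ : G) (x : J), σ • t i x = t i (σ • x)) (σ : G)
    {g : SrcHom O J} (hg : g ∈ eigenSub t a) : galSrc σ g ∈ eigenSub t a := by
  refine ⟨fun r => ?_, fun i x => ?_⟩
  · rw [galSrc_hom, hg.1, smul_zero]
  · rw [galSrc_hom, galSrc_hom, ← ht, hg.2]

/-- The action of `G` on the eigen-submodule, as `O`-linear endomorphisms. -/
def galEnd (ht : ∀ i (σ : G) (x : J), σ • t i x = t i (σ • x)) (σ : G) :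
    Module.End O (eigenSub t a) where
  toFun g := ⟨galSrc σ g.1, galSrc_mem ht σ g.2⟩
  map_add' g h := by
    apply Subtype.ext
    apply SrcHom.ext
    intro x
    simp [smul_add]
  map_smul' c g := by
    apply Subtype.ext
    apply SrcHom.ext
    intro x
    simp

@[simp] theorem galEnd_hom (ht : ∀ i (σ : G) (x : J), σ • t i x = t i (σ • x)) (σ : G)
    (g : eigenSub t a) (x : FractionRing O) :
    ((galEnd ht σ g : eigenSub t a) : SrcHom O J).hom x = σ • (g : SrcHom O J).hom x := rfl

/-- The representation of `G` on the eigen-submodule. -/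
def galRep (ht : ∀ i (σ : G) (x : J), σ • t i x = t i (σ • x)) :
    G →* Module.End O (eigenSub t a) where
  toFun := galEnd ht
  map_one' := by
    apply LinearMap.ext
    intro g
    apply Subtype.ext
    apply SrcHom.ext
    intro x
    simp
  map_mul' σ τ := by
    apply LinearMap.ext
    intro g
    apply Subtype.ext
    apply SrcHom.ext
    intro x
    simp [_root_.SemigroupAction.mul_smul]

@[simp] theorem galRep_hom (ht : ∀ i (σ : G) (x : J), σ • t i x = t i (σ • x)) (σ : G)
    (g : eigenSub t a) (x : FractionRing O) :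
    ((galRep ht σ g : eigenSub t a) : SrcHom O J).hom x = σ • (g : SrcHom O J).hom x := rfl

end Galois

/-- PIECE 1 of the adic module layer (pure algebra). -/
theorem adicModule_of_torsion
    {p : ℕ} (_hp : p.Prime)
    {O : Type} [CommRing O] [IsDomain O] [IsDiscreteValuationRing O]
    [IsAdicComplete (IsLocalRing.maximalIdeal O) O] [Finite (IsLocalRing.ResidueField O)]
    [CharZero O] (hpO : (p : O) ∈ IsLocalRing.maximalIdeal O)
    {J : Type} [AddCommGroup J]
    [DistribMulAction (AlgebraicClosure ℚ ≃ₐ[ℚ] AlgebraicClosure ℚ) J]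
    (hsm : ∀ x : J, ∃ L : IntermediateField ℚ (AlgebraicClosure ℚ), FiniteDimensional ℚ L ∧
      ∀ σ : AlgebraicClosure ℚ ≃ₐ[ℚ] AlgebraicClosure ℚ, (∀ y ∈ L, σ y = y) → σ • x = x)
    (hfin : {x : J | p • x = 0}.Finite)
    {ι : Type} (t : ι → J →+ J)
    (ht : ∀ i (σ : AlgebraicClosure ℚ ≃ₐ[ℚ] AlgebraicClosure ℚ) (x : J), σ • t i x = t i (σ • x))
    (a : ι → O)
    (f : FractionRing O →+ J) (hf0 : ∀ r : O, f (algebraMap O (FractionRing O) r) = 0)
    (hf : f ≠ 0)
    (hfe : ∀ i x, t i (f x) = f (algebraMap O (FractionRing O) (a i) * x)) :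
    ∃ (M : Type) (_ : AddCommGroup M) (_ : Module O M) (_ : Module.Free O M)
      (_ : Module.Finite O M)
      (ρ : (AlgebraicClosure ℚ ≃ₐ[ℚ] AlgebraicClosure ℚ) →* Module.End O M),
      Nontrivial M ∧ GaloisActionIsAdicContinuous O ρ ∧
      (∀ σ : AlgebraicClosure ℚ ≃ₐ[ℚ] AlgebraicClosure ℚ,
        (∀ x : J, (∃ n : ℕ, p ^ n • x = 0) → σ • x = x) → ρ σ = 1) ∧
      (∀ (i : ι) (n : ℕ) (σ : AlgebraicClosure ℚ ≃ₐ[ℚ] AlgebraicClosure ℚ),
        (∀ x : J, (∃ k : ℕ, p ^ k • x = 0) → σ • σ • x - t i (σ • x) + n • x = 0) →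
        ρ σ * ρ σ - a i • ρ σ + (n : O) • (1 : Module.End O M) = 0) := by
  classical
  obtain ⟨ϖ, hϖ⟩ := IsDiscreteValuationRing.exists_irreducible O
  refine ⟨eigenSub t a, inferInstance, inferInstance, free_eigenSub hpO hfin,
    finite_eigenSub hpO hfin, galRep ht, ?_, ?_, ?_, ?_⟩
  · -- nontrivial
    have hfm : SrcHom.of f ∈ eigenSub t a := ⟨hf0, hfe⟩
    refine ⟨⟨⟨SrcHom.of f, hfm⟩, 0, ?_⟩⟩
    intro h
    apply hf
    have := congrArg (fun w : eigenSub t a => (w : SrcHom O J)) h
    exact this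
  · -- adic continuity
    intro n
    have hfinn := finite_pow_torsion hfin n
    choose Lx hLx using hsm
    have hfd : ∀ x, FiniteDimensional ℚ (Lx x) := fun x => (hLx x).1
    refine ⟨⨆ x ∈ hfinn.toFinset, Lx x,
      IntermediateField.finiteDimensional_iSup_of_finset, ?_⟩
    intro σ hσ v
    have hfix : ∀ x : J, p ^ n • x = 0 → σ • x = x := by
      intro x hx
      refine (hLx x).2 σ fun y hy => hσ y ?_
      have hle : Lx x ≤ ⨆ x ∈ hfinn.toFinset, Lx x := by
        refine le_iSup₂_of_le x ?_ le_rfl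
        simpa using hx
      exact hle hy
    have hmem : galRep ht σ v - v ∈
        (IsLocalRing.maximalIdeal O ^ n • ⊤ : Submodule O (eigenSub t a)) := by
      apply mem_pow_smul_top_of_kill hϖ n
      intro y
      show ((galRep ht σ v : eigenSub t a) : SrcHom O J).hom _ - (v : SrcHom O J).hom _ = 0
      rw [galRep_hom, hfix _ (pow_smul_hom_div_eq_zero hpO hϖ n v.2 y), sub_self]
    exact hmem
  · -- unramified
    intro σ hσ
    apply LinearMap.ext
    intro g
    apply Subtype.ext
    apply SrcHom.ext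
    intro x
    rw [galRep_hom]
    exact hσ _ (exists_pow_smul_hom_eq_zero hpO g.2 x)
  · -- quadratic relation
    intro i n σ hσ
    apply LinearMap.ext
    intro g
    simp only [LinearMap.add_apply, LinearMap.sub_apply, LinearMap.smul_apply,
      Module.End.mul_apply, Module.End.one_apply, LinearMap.zero_apply]
    apply Subtype.ext
    apply SrcHom.ext
    intro x
    have h := hσ _ (exists_pow_smul_hom_eq_zero hpO g.2 x)
    show σ • σ • (g : SrcHom O J).hom x -
          σ • (g : SrcHom O J).hom (algebraMap O (FractionRing O) (a i) * x) +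
          (g : SrcHom O J).hom (algebraMap O (FractionRing O) (n : O) * x) = 0
    rw [← g.2.2, ht]
    have e2 : (g : SrcHom O J).hom (algebraMap O (FractionRing O) (n : O) * x) =
        n • (g : SrcHom O J).hom x := by
      rw [map_natCast, ← nsmul_eq_mul, map_nsmul]
    rw [e2]
    exact h

end Fermat.Agent.S30.H330

end
end
-- ===== PACK-END S30/H330/AdicAlg.lean

-- ===== PACK-BEGIN S24/Deg/H648Conj.lean
section


/-!
# S24 / M6-AN (helper648): function-level conjugate product

For a holomorphic `Γ₀(N)`-invariant function `f` on `ℍ` whose `SL₂(ℤ)`-translates have at most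
exponential growth at `i∞`, the polynomial `∏ₓ (Y - f ∘ gₓ⁻¹)` (product over
`x ∈ SL₂(ℤ)/Γ₀(N)`) has holomorphic, `SL₂(ℤ)`-invariant coefficients of exponential growth.
-/

set_option autoImplicit false

noncomputable section

open UpperHalfPlane ModularGroup CongruenceSubgroup Polynomial
open scoped MatrixGroups Manifold Modular Real

namespace Fermat.Agent.S24.H648

/-- At most exponential growth at `i∞` (on `im τ ≥ 1`). -/
def ExpGrowth (f : ℍ → ℂ) : Prop :=
  ∃ (C : ℝ) (m : ℕ), ∀ τ : ℍ, 1 ≤ τ.im → ‖f τ‖ ≤ C * Real.exp (2 * π * m * τ.im)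

lemma ExpGrowth.mono {f : ℍ → ℂ} {C : ℝ} {m : ℕ}
    (h : ∀ τ : ℍ, 1 ≤ τ.im → ‖f τ‖ ≤ C * Real.exp (2 * π * m * τ.im)) {C' : ℝ} {m' : ℕ}
    (hC : C ≤ C') (hC0 : 0 ≤ C') (hm : m ≤ m') (τ : ℍ) (hτ : 1 ≤ τ.im) :
    ‖f τ‖ ≤ C' * Real.exp (2 * π * m' * τ.im) := by
  refine (h τ hτ).trans ?_
  have h1 : Real.exp (2 * π * m * τ.im) ≤ Real.exp (2 * π * m' * τ.im) := by
    apply Real.exp_le_exp.mpr
    have : (m : ℝ) ≤ m' := by exact_mod_cast hm
    have hpi := Real.pi_pos
    have := τ.im_pos
    gcongr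
  calc C * Real.exp (2 * π * m * τ.im) ≤ C' * Real.exp (2 * π * m * τ.im) := by
        gcongr
    _ ≤ C' * Real.exp (2 * π * m' * τ.im) := by gcongr

lemma expGrowth_const (c : ℂ) : ExpGrowth (fun _ => c) := by
  refine ⟨‖c‖, 0, fun τ _ => ?_⟩
  simp

lemma ExpGrowth.add {f g : ℍ → ℂ} (hf : ExpGrowth f) (hg : ExpGrowth g) :
    ExpGrowth (f + g) := by
  obtain ⟨C, m, h⟩ := hf
  obtain ⟨C', m', h'⟩ := hg
  refine ⟨|C| + |C'|, max m m', fun τ hτ => ?_⟩
  have h1 := ExpGrowth.mono h (C' := |C|) (m' := max m m') (le_abs_self C) (abs_nonneg C)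
    (le_max_left _ _) τ hτ
  have h2 := ExpGrowth.mono h' (C' := |C'|) (m' := max m m') (le_abs_self C') (abs_nonneg C')
    (le_max_right _ _) τ hτ
  calc ‖(f + g) τ‖ ≤ ‖f τ‖ + ‖g τ‖ := norm_add_le _ _
    _ ≤ _ := by rw [add_mul]; exact add_le_add h1 h2

lemma ExpGrowth.mul {f g : ℍ → ℂ} (hf : ExpGrowth f) (hg : ExpGrowth g) :
    ExpGrowth (f * g) := by
  obtain ⟨C, m, h⟩ := hf
  obtain ⟨C', m', h'⟩ := hg
  refine ⟨|C| * |C'|, m + m', fun τ hτ => ?_⟩
  have h1 := ExpGrowth.mono h (C' := |C|) (m' := m) (le_abs_self C) (abs_nonneg C) le_rfl τ hτ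
  have h2 := ExpGrowth.mono h' (C' := |C'|) (m' := m') (le_abs_self C') (abs_nonneg C') le_rfl τ hτ
  have : Real.exp (2 * π * (m + m' : ℕ) * τ.im)
      = Real.exp (2 * π * m * τ.im) * Real.exp (2 * π * m' * τ.im) := by
    rw [← Real.exp_add]; push_cast; ring_nf
  calc ‖(f * g) τ‖ = ‖f τ‖ * ‖g τ‖ := norm_mul _ _
    _ ≤ (|C| * Real.exp (2 * π * m * τ.im)) * (|C'| * Real.exp (2 * π * m' * τ.im)) :=
        mul_le_mul h1 h2 (norm_nonneg _) (by positivity)
    _ = _ := by rw [this]; ring

/-- Holomorphic functions on `ℍ` of at most exponential growth at `i∞`. -/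
def niceRing : Subalgebra ℂ (ℍ → ℂ) where
  carrier := {f | MDifferentiable 𝓘(ℂ) 𝓘(ℂ) f ∧ ExpGrowth f}
  mul_mem' := fun ⟨h1, h2⟩ ⟨h1', h2'⟩ => ⟨h1.mul h1', h2.mul h2'⟩
  add_mem' := fun ⟨h1, h2⟩ ⟨h1', h2'⟩ => ⟨h1.add h1', h2.add h2'⟩
  algebraMap_mem' := fun c => ⟨mdifferentiable_const, expGrowth_const c⟩


lemma mem_niceRing {f : ℍ → ℂ} :
    f ∈ niceRing ↔ MDifferentiable 𝓘(ℂ) 𝓘(ℂ) f ∧ ExpGrowth f := Iff.rfl

variable (N : ℕ)

/-- Holomorphic `Γ₀(N)`-invariant functions all of whose `SL₂(ℤ)`-translates have at most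
exponential growth at `i∞`. -/
def goodRing : Subalgebra ℂ (ℍ → ℂ) where
  carrier := {f | MDifferentiable 𝓘(ℂ) 𝓘(ℂ) f ∧ (∀ γ ∈ Gamma0 N, ∀ τ : ℍ, f (γ • τ) = f τ) ∧
      ∀ g : SL(2, ℤ), ExpGrowth (fun τ => f (g • τ))}
  mul_mem' := by
    rintro f g ⟨h1, h2, h3⟩ ⟨h1', h2', h3'⟩
    refine ⟨h1.mul h1', fun γ hγ τ => ?_, fun g => ?_⟩
    · show f (γ • τ) * g (γ • τ) = f τ * g τ
      rw [h2 γ hγ τ, h2' γ hγ τ]
    · exact (h3 g).mul (h3' g)
  add_mem' := by
    rintro f g ⟨h1, h2, h3⟩ ⟨h1', h2', h3'⟩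
    refine ⟨h1.add h1', fun γ hγ τ => ?_, fun g => ?_⟩
    · show f (γ • τ) + g (γ • τ) = f τ + g τ
      rw [h2 γ hγ τ, h2' γ hγ τ]
    · exact (h3 g).add (h3' g)
  algebraMap_mem' := fun c =>
    ⟨mdifferentiable_const, fun _ _ _ => rfl, fun _ => expGrowth_const c⟩

lemma mem_goodRing {f : ℍ → ℂ} :
    f ∈ goodRing N ↔ MDifferentiable 𝓘(ℂ) 𝓘(ℂ) f ∧ (∀ γ ∈ Gamma0 N, ∀ τ : ℍ, f (γ • τ) = f τ) ∧
      ∀ g : SL(2, ℤ), ExpGrowth (fun τ => f (g • τ)) := Iff.rfl

/-- The conjugate `f ∘ gₓ⁻¹` of `f` attached to the coset `x = gₓ Γ₀(N)`. -/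
def conj (f : ℍ → ℂ) (x : SL(2, ℤ) ⧸ Gamma0 N) : ℍ → ℂ :=
  fun τ => f ((Quotient.out x)⁻¹ • τ)

variable {N}

lemma conj_mk {f : ℍ → ℂ} (hf : ∀ γ ∈ Gamma0 N, ∀ τ : ℍ, f (γ • τ) = f τ) (g : SL(2, ℤ))
    (τ : ℍ) : conj N f (g : SL(2, ℤ) ⧸ Gamma0 N) τ = f (g⁻¹ • τ) := by
  obtain ⟨h, hh⟩ := QuotientGroup.mk_out_eq_mul (Gamma0 N) g
  unfold conj
  rw [hh, mul_inv_rev, mul_smul]
  exact hf _ (inv_mem h.2) _

lemma conj_smul {f : ℍ → ℂ} (hf : ∀ γ ∈ Gamma0 N, ∀ τ : ℍ, f (γ • τ) = f τ) (γ : SL(2, ℤ))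
    (x : SL(2, ℤ) ⧸ Gamma0 N) (τ : ℍ) : conj N f x (γ • τ) = conj N f (γ⁻¹ • x) τ := by
  induction x using QuotientGroup.induction_on with
  | H g =>
    rw [conj_mk hf, MulAction.Quotient.smul_mk, conj_mk hf, smul_eq_mul, mul_inv_rev, inv_inv,
      mul_smul]

lemma conj_one_coset {f : ℍ → ℂ} (hf : ∀ γ ∈ Gamma0 N, ∀ τ : ℍ, f (γ • τ) = f τ) (τ : ℍ) :
    conj N f ((1 : SL(2, ℤ)) : SL(2, ℤ) ⧸ Gamma0 N) τ = f τ := by
  rw [conj_mk hf]; simp

lemma mdifferentiable_comp_smul {f : ℍ → ℂ} (hf : MDifferentiable 𝓘(ℂ) 𝓘(ℂ) f)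
    (g : SL(2, ℤ)) : MDifferentiable 𝓘(ℂ) 𝓘(ℂ) (fun τ : ℍ => f (g • τ)) := by
  have h : MDifferentiable 𝓘(ℂ) 𝓘(ℂ) (fun τ : ℍ => (g : GL (Fin 2) ℝ) • τ) :=
    UpperHalfPlane.mdifferentiable_smul (by simp)
  exact hf.comp h

lemma conj_mem_niceRing {f : ℍ → ℂ} (hf : f ∈ goodRing N) (x : SL(2, ℤ) ⧸ Gamma0 N) :
    conj N f x ∈ niceRing :=
  ⟨mdifferentiable_comp_smul hf.1 _, hf.2.2 _⟩


/-- Coefficients of a finite product `∏ (Y - aₓ)` with `aₓ` in `niceRing` are in `niceRing`. -/
lemma coeff_prod_mem_niceRing {ι : Type*} (a : ι → ℍ → ℂ) (ha : ∀ i, a i ∈ niceRing)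
    (s : Finset ι) (k : ℕ) :
    (fun τ => (∏ i ∈ s, (X - C (a i τ))).coeff k) ∈ niceRing := by
  classical
  induction s using Finset.induction_on generalizing k with
  | empty =>
    have : (fun τ : ℍ => (∏ i ∈ (∅ : Finset ι), (X - C (a i τ))).coeff k)
        = algebraMap ℂ (ℍ → ℂ) (if k = 0 then 1 else 0) := by
      funext τ
      simp [Polynomial.coeff_one]
    rw [this]
    exact Subalgebra.algebraMap_mem _ _
  | insert i s hi ih =>
    cases k with
    | zero =>
      have : (fun τ : ℍ => (∏ j ∈ insert i s, (X - C (a j τ))).coeff 0)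
          = - (a i * fun τ => (∏ j ∈ s, (X - C (a j τ))).coeff 0) := by
        funext τ
        rw [Finset.prod_insert hi, sub_mul, Polynomial.coeff_sub, Polynomial.coeff_X_mul_zero,
          Polynomial.coeff_C_mul]
        simp
      rw [this]
      exact Subalgebra.neg_mem _ (Subalgebra.mul_mem _ (ha i) (ih 0))
    | succ k =>
      have : (fun τ : ℍ => (∏ j ∈ insert i s, (X - C (a j τ))).coeff (k + 1))
          = (fun τ => (∏ j ∈ s, (X - C (a j τ))).coeff k)
            - (a i * fun τ => (∏ j ∈ s, (X - C (a j τ))).coeff (k + 1)) := by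
        funext τ
        rw [Finset.prod_insert hi, sub_mul, Polynomial.coeff_sub, Polynomial.coeff_X_mul,
          Polynomial.coeff_C_mul]
        simp
      rw [this]
      exact Subalgebra.sub_mem _ (ih k) (Subalgebra.mul_mem _ (ha i) (ih (k + 1)))

variable (N) in
/-- The "characteristic polynomial" `∏ₓ (Y - f ∘ gₓ⁻¹)` evaluated at `τ`. -/
def charPolyAt [Fintype (SL(2, ℤ) ⧸ Gamma0 N)] (f : ℍ → ℂ) (τ : ℍ) : ℂ[X] :=
  ∏ x : SL(2, ℤ) ⧸ Gamma0 N, (X - C (conj N f x τ))

section charPoly

variable [Fintype (SL(2, ℤ) ⧸ Gamma0 N)]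

lemma charPolyAt_monic (f : ℍ → ℂ) (τ : ℍ) : (charPolyAt N f τ).Monic :=
  Polynomial.monic_prod_of_monic _ _ fun _ _ => Polynomial.monic_X_sub_C _

lemma charPolyAt_natDegree (f : ℍ → ℂ) (τ : ℍ) :
    (charPolyAt N f τ).natDegree = Fintype.card (SL(2, ℤ) ⧸ Gamma0 N) := by
  unfold charPolyAt
  rw [Polynomial.natDegree_prod_of_monic _ _ fun _ _ => Polynomial.monic_X_sub_C _]
  simp

lemma charPolyAt_smul {f : ℍ → ℂ} (hf : ∀ γ ∈ Gamma0 N, ∀ τ : ℍ, f (γ • τ) = f τ)
    (γ : SL(2, ℤ)) (τ : ℍ) : charPolyAt N f (γ • τ) = charPolyAt N f τ := by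
  unfold charPolyAt
  refine Fintype.prod_equiv (MulAction.toPerm γ⁻¹) _ _ fun x => ?_
  rw [conj_smul hf]
  rfl

lemma charPolyAt_eval_self {f : ℍ → ℂ} (hf : ∀ γ ∈ Gamma0 N, ∀ τ : ℍ, f (γ • τ) = f τ)
    (τ : ℍ) : (charPolyAt N f τ).eval (f τ) = 0 := by
  unfold charPolyAt
  rw [Polynomial.eval_prod]
  refine Finset.prod_eq_zero (Finset.mem_univ ((1 : SL(2, ℤ)) : SL(2, ℤ) ⧸ Gamma0 N)) ?_
  rw [conj_one_coset hf]
  simp

lemma charPolyAt_eval_conj (f : ℍ → ℂ) (x : SL(2, ℤ) ⧸ Gamma0 N)
    (τ : ℍ) : (charPolyAt N f τ).eval (conj N f x τ) = 0 := by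
  unfold charPolyAt
  rw [Polynomial.eval_prod]
  refine Finset.prod_eq_zero (Finset.mem_univ x) ?_
  simp

lemma coeff_charPolyAt_mem_niceRing {f : ℍ → ℂ} (hf : f ∈ goodRing N) (k : ℕ) :
    (fun τ => (charPolyAt N f τ).coeff k) ∈ niceRing :=
  coeff_prod_mem_niceRing (conj N f) (conj_mem_niceRing hf) Finset.univ k

/-- **Main theorem (M6-AN).**  Given the polynomiality principle (D5) for `J`, the conjugate
product `∏ₓ (Y - f ∘ gₓ⁻¹)` of a good function `f` has coefficients in `ℂ[J]`. -/
theorem exists_charPoly (J : ℍ → ℂ)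
    (hD5 : ∀ F : ℍ → ℂ, MDifferentiable 𝓘(ℂ) 𝓘(ℂ) F →
      (∀ (γ : SL(2, ℤ)) (τ : ℍ), F (γ • τ) = F τ) → ExpGrowth F →
      ∃ p : ℂ[X], ∀ τ, F τ = p.eval (J τ))
    {f : ℍ → ℂ} (hf : f ∈ goodRing N) :
    ∃ P : (ℂ[X])[X], P.Monic ∧ P.natDegree = Fintype.card (SL(2, ℤ) ⧸ Gamma0 N) ∧
      ∀ τ : ℍ, P.map (Polynomial.evalRingHom (J τ)) = charPolyAt N f τ := by
  classical
  set n := Fintype.card (SL(2, ℤ) ⧸ Gamma0 N) with hn
  have key : ∀ k : ℕ, ∃ p : ℂ[X], ∀ τ, (charPolyAt N f τ).coeff k = p.eval (J τ) := by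
    intro k
    have h := coeff_charPolyAt_mem_niceRing hf k
    exact hD5 _ h.1 (fun γ τ => by rw [charPolyAt_smul hf.2.1]) h.2
  choose p hp using key
  set Q : (ℂ[X])[X] := ∑ i ∈ Finset.range n, C (p i) * X ^ i with hQ
  have hQdeg : Q.degree < n := by
    rw [Polynomial.degree_lt_iff_coeff_zero]
    intro m hm
    rw [hQ, Polynomial.finsetSum_coeff]
    refine Finset.sum_eq_zero fun i hi => ?_
    rw [Polynomial.coeff_C_mul_X_pow, if_neg]
    have := Finset.mem_range.mp hi
    omega
  refine ⟨X ^ n + Q, Polynomial.monic_X_pow_add hQdeg, ?_, fun τ => ?_⟩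
  · rw [Polynomial.natDegree_add_eq_left_of_degree_lt (by rwa [Polynomial.degree_X_pow]),
      Polynomial.natDegree_X_pow]
  · have h1 := (charPolyAt_monic (N := N) f τ).as_sum
    rw [charPolyAt_natDegree] at h1
    rw [h1, Polynomial.map_add, Polynomial.map_pow, Polynomial.map_X, hQ, Polynomial.map_sum]
    congr 1
    refine Finset.sum_congr rfl fun i _ => ?_
    rw [Polynomial.map_mul, Polynomial.map_pow, Polynomial.map_X, Polynomial.map_C,
      Polynomial.coe_evalRingHom, ← hp i τ]

/-- Corollary: function-level `HYP(n)`. -/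
theorem exists_charPoly_eval_eq_zero (J : ℍ → ℂ)
    (hD5 : ∀ F : ℍ → ℂ, MDifferentiable 𝓘(ℂ) 𝓘(ℂ) F →
      (∀ (γ : SL(2, ℤ)) (τ : ℍ), F (γ • τ) = F τ) → ExpGrowth F →
      ∃ p : ℂ[X], ∀ τ, F τ = p.eval (J τ))
    {f : ℍ → ℂ} (hf : f ∈ goodRing N) :
    ∃ P : (ℂ[X])[X], P.Monic ∧ P.natDegree = Fintype.card (SL(2, ℤ) ⧸ Gamma0 N) ∧
      ∀ τ : ℍ, (P.map (Polynomial.evalRingHom (J τ))).eval (f τ) = 0 := by
  obtain ⟨P, h1, h2, h3⟩ := exists_charPoly J hD5 hf
  exact ⟨P, h1, h2, fun τ => by rw [h3, charPolyAt_eval_self hf.2.1]⟩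

end charPoly

end Fermat.Agent.S24.H648

end
end
-- ===== PACK-END S24/Deg/H648Conj.lean

-- ===== PACK-BEGIN S24/JFun/Basic.lean
section



/-!
# The analytic `j`-function on the upper half plane (shared analytic core for S24 / S28)

`jFun τ = E₄ τ ^ 3 / Δ τ`.  Basic properties: holomorphy, `SL(2,ℤ)`-invariance, periodicity.
-/

set_option autoImplicit false

namespace Fermat.Agent.S24.JFun

open UpperHalfPlane ModularForm EisensteinSeries MatrixGroups Complex
open scoped Manifold

/-- The analytic `j`-function `E₄³ / Δ` on the upper half plane. -/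
noncomputable def jFun (τ : ℍ) : ℂ := E₄ τ ^ 3 / ModularForm.discriminant τ

theorem jFun_def (τ : ℍ) : jFun τ = E₄ τ ^ 3 / ModularForm.discriminant τ := rfl

theorem jFun_mul_discriminant (τ : ℍ) : jFun τ * ModularForm.discriminant τ = E₄ τ ^ 3 := by
  rw [jFun, div_mul_cancel₀ _ (discriminant_ne_zero τ)]

theorem E₄_smul (γ : SL(2, ℤ)) (τ : ℍ) : E₄ (γ • τ) = denom γ τ ^ (4 : ℤ) * E₄ τ := by
  have h := SlashInvariantForm.slash_action_eqn'' E₄
    (show ((γ : SL(2, ℤ)) : GL (Fin 2) ℝ) ∈ 𝒮ℒ from ⟨γ, rfl⟩) τ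
  simpa using h

theorem E₆_smul (γ : SL(2, ℤ)) (τ : ℍ) : E₆ (γ • τ) = denom γ τ ^ (6 : ℤ) * E₆ τ := by
  have h := SlashInvariantForm.slash_action_eqn'' E₆
    (show ((γ : SL(2, ℤ)) : GL (Fin 2) ℝ) ∈ 𝒮ℒ from ⟨γ, rfl⟩) τ
  simpa using h

theorem discriminant_smul (γ : SL(2, ℤ)) (τ : ℍ) :
    ModularForm.discriminant (γ • τ) = denom γ τ ^ (12 : ℤ) * ModularForm.discriminant τ := by
  have h := SlashInvariantForm.slash_action_eqn'' CuspForm.discriminant
    (show ((γ : SL(2, ℤ)) : GL (Fin 2) ℝ) ∈ 𝒮ℒ from ⟨γ, rfl⟩) τ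
  simpa using h

/-- `j` is invariant under `SL(2,ℤ)`. -/
theorem jFun_smul (γ : SL(2, ℤ)) (τ : ℍ) : jFun (γ • τ) = jFun τ := by
  have hd : denom γ τ ≠ 0 := denom_ne_zero _ _
  rw [jFun, jFun, E₄_smul, discriminant_smul, mul_pow, ← zpow_natCast, ← zpow_mul]
  have h12 : ((4 : ℤ) * ((3 : ℕ) : ℤ)) = 12 := by norm_num
  rw [h12, mul_div_mul_left _ _ (zpow_ne_zero _ hd)]

/-- `j` is holomorphic on the upper half plane. -/
theorem jFun_mdifferentiable : MDiff jFun := by
  have h4 : MDiff (fun τ : ℍ => E₄ τ ^ 3) := by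
    have := (E₄.holo'.pow 3)
    exact this
  exact h4.div CuspForm.discriminant.holo' discriminant_ne_zero

theorem jFun_eq_zero_iff (τ : ℍ) : jFun τ = 0 ↔ E₄ τ = 0 := by
  rw [jFun, div_eq_zero_iff]
  simp [discriminant_ne_zero τ]

theorem jFun_sub_1728 (τ : ℍ) :
    jFun τ - 1728 = E₆ τ ^ 2 / ModularForm.discriminant τ := by
  have hΔ := discriminant_ne_zero τ
  have h := discriminant_eq_E₄_cube_sub_E₆_sq τ
  rw [jFun]
  field_simp
  rw [h]
  ring

theorem jFun_eq_1728_iff (τ : ℍ) : jFun τ = 1728 ↔ E₆ τ = 0 := by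
  rw [← sub_eq_zero, jFun_sub_1728, div_eq_zero_iff]
  simp [discriminant_ne_zero τ]

end Fermat.Agent.S24.JFun

end
-- ===== PACK-END S24/JFun/Basic.lean

-- ===== PACK-BEGIN S24/JFun/QFun.lean
section



/-!
# Functions on the upper half plane of the form `τ ↦ g (q(τ))`

For `g` holomorphic on the open unit disc, `ofQ g τ = g (exp (2πiτ))` is `1`-periodic, holomorphic,
bounded at `i∞`, and its `q`-expansion is the Taylor series of `g` at `0`.
-/

set_option autoImplicit false

namespace Fermat.Agent.S24.JFun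

open Filter Topology Complex Metric Function
open UpperHalfPlane hiding I
open scoped Manifold

local notation "𝕢" => Function.Periodic.qParam

/-- The function `τ ↦ g (exp (2πiτ))` on the upper half plane. -/
noncomputable def ofQ (g : ℂ → ℂ) : ℍ → ℂ := fun τ => g (𝕢 1 τ)

theorem ofQ_apply (g : ℂ → ℂ) (τ : ℍ) : ofQ g τ = g (𝕢 1 τ) := rfl

theorem norm_qParam_one_lt_one (τ : ℍ) : ‖𝕢 1 (τ : ℂ)‖ < 1 :=
  Function.Periodic.norm_qParam_lt_one one_pos τ.im_pos

theorem qParam_one_mem_ball (τ : ℍ) : 𝕢 1 (τ : ℂ) ∈ ball (0 : ℂ) 1 := by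
  simpa using norm_qParam_one_lt_one τ

/-- A function on `ℍ` invariant under `τ ↦ τ + 1` gives a `1`-periodic function on `ℂ`. -/
theorem periodic_comp_ofComplex_of_vadd {f : ℍ → ℂ} (hf : ∀ τ : ℍ, f ((1 : ℝ) +ᵥ τ) = f τ) :
    Periodic (f ∘ ofComplex) ((1 : ℝ) : ℂ) := by
  intro w
  by_cases hw : 0 < _root_.Complex.im w
  · have hw1 : 0 < _root_.Complex.im (w + ((1 : ℝ) : ℂ)) := by simpa using hw
    simp only [comp_apply, ofComplex_apply_of_im_pos hw1, ofComplex_apply_of_im_pos hw]
    rw [← hf ⟨w, hw⟩]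
    congr 1
    ext
    simp [add_comm]
  · have hw' : _root_.Complex.im w ≤ 0 := not_lt.mp hw
    have hw1 : _root_.Complex.im (w + ((1 : ℝ) : ℂ)) ≤ 0 := by simpa using hw'
    simp only [comp_apply]
    rw [ofComplex_apply_eq_of_im_nonpos hw1 hw']

theorem qParam_one_add_one (z : ℂ) : 𝕢 1 (z + 1) = 𝕢 1 z := by
  unfold Function.Periodic.qParam
  have h : 2 * (Real.pi : ℂ) * _root_.Complex.I * (z + 1) / ((1 : ℝ) : ℂ)
      = 2 * (Real.pi : ℂ) * _root_.Complex.I * z / ((1 : ℝ) : ℂ) + 2 * (Real.pi : ℂ) * _root_.Complex.I := by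
    simp
    ring
  rw [h, Complex.exp_add, Complex.exp_two_pi_mul_I, mul_one]

theorem qParam_one_vadd (τ : ℍ) : 𝕢 1 (((1 : ℝ) +ᵥ τ : ℍ) : ℂ) = 𝕢 1 (τ : ℂ) := by
  have h := qParam_one_add_one (τ : ℂ)
  rw [← h]
  congr 1
  simp [add_comm]

theorem ofQ_vadd (g : ℂ → ℂ) (τ : ℍ) : ofQ g ((1 : ℝ) +ᵥ τ) = ofQ g τ := by
  rw [ofQ_apply, ofQ_apply, qParam_one_vadd]

theorem ofQ_periodic (g : ℂ → ℂ) : Periodic (ofQ g ∘ ofComplex) ((1 : ℝ) : ℂ) :=
  periodic_comp_ofComplex_of_vadd (ofQ_vadd g)

theorem ofQ_mdiff {g : ℂ → ℂ} (hg : DifferentiableOn ℂ g (ball 0 1)) : MDiff (ofQ g) := by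
  rw [UpperHalfPlane.mdifferentiable_iff]
  have h1 : DifferentiableOn ℂ (fun z : ℂ => g (𝕢 1 z)) {z : ℂ | 0 < z.im} := by
    intro z hz
    have hq : 𝕢 1 z ∈ ball (0 : ℂ) 1 := by
      simpa using Function.Periodic.norm_qParam_lt_one one_pos hz
    have hgz : DifferentiableAt ℂ g (𝕢 1 z) := hg.differentiableAt (isOpen_ball.mem_nhds hq)
    have hqz : DifferentiableAt ℂ (𝕢 1) z := by
      unfold Function.Periodic.qParam
      fun_prop
    exact (hgz.comp z hqz).differentiableWithinAt
  refine h1.congr fun z hz => ?_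
  simp [ofQ, ofComplex_apply_of_im_pos hz]

theorem ofQ_tendsto {g : ℂ → ℂ} (hg : DifferentiableOn ℂ g (ball 0 1)) :
    Tendsto (ofQ g) atImInfty (𝓝 (g 0)) := by
  have h0 : ContinuousAt g 0 :=
    (hg.differentiableAt (isOpen_ball.mem_nhds (mem_ball_self one_pos))).continuousAt
  exact h0.tendsto.comp (UpperHalfPlane.qParam_tendsto_atImInfty one_pos)

theorem ofQ_bdd {g : ℂ → ℂ} (hg : DifferentiableOn ℂ g (ball 0 1)) :
    IsBoundedAtImInfty (ofQ g) :=
  (ofQ_tendsto hg).isBigO_one ℝ

theorem ofQ_analyticAt {g : ℂ → ℂ} (hg : DifferentiableOn ℂ g (ball 0 1)) :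
    AnalyticAt ℂ (cuspFunction 1 (ofQ g)) 0 :=
  analyticAt_cuspFunction_zero one_pos (ofQ_periodic g) (ofQ_mdiff hg) (ofQ_bdd hg)

theorem ofQ_hasSum {g : ℂ → ℂ} (hg : DifferentiableOn ℂ g (ball 0 1)) (τ : ℍ) :
    HasSum (fun m : ℕ => (((m.factorial : ℂ))⁻¹ * iteratedDeriv m g 0) • 𝕢 1 (τ : ℂ) ^ m)
      (ofQ g τ) := by
  have h := Complex.hasSum_taylorSeries_on_ball (f := g) (c := 0) (r := 1) hg
    (z := 𝕢 1 (τ : ℂ)) (by simpa using norm_qParam_one_lt_one τ)
  have heq : (fun n : ℕ => ((n.factorial : ℂ))⁻¹ • (𝕢 1 (τ : ℂ) - 0) ^ n • iteratedDeriv n g 0)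
      = fun m : ℕ => (((m.factorial : ℂ))⁻¹ * iteratedDeriv m g 0) • 𝕢 1 (τ : ℂ) ^ m := by
    funext m
    simp only [sub_zero, smul_eq_mul]
    ring
  rw [heq] at h
  exact h

/-- Uniqueness of `q`-expansion coefficients, for plain functions on `ℍ`. -/
theorem qExpansion_coeff_unique_fun {f : ℍ → ℂ} {c : ℕ → ℂ}
    (hfanalytic : AnalyticAt ℂ (cuspFunction 1 f) 0)
    (hf : ∀ τ : ℍ, HasSum (fun m : ℕ => c m • 𝕢 1 (τ : ℂ) ^ m) (f τ)) (m : ℕ) :
    (qExpansion 1 f).coeff m = c m := by
  have h1 := (hasFPowerSeriesOnBall_cuspFunction one_pos hfanalytic hf).hasFPowerSeriesAt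
  have h2 := hfanalytic.hasFPowerSeriesAt
  have h3 := congr_arg (FormalMultilinearSeries.coeff · m) (h1.eq_formalMultilinearSeries h2)
  simp only [FormalMultilinearSeries.coeff_ofScalars] at h3
  rw [qExpansion_coeff, h3, div_eq_inv_mul]

/-- The `q`-expansion of `τ ↦ g (q(τ))` is the Taylor expansion of `g` at `0`. -/
theorem qExpansion_ofQ_coeff {g : ℂ → ℂ} (hg : DifferentiableOn ℂ g (ball 0 1)) (m : ℕ) :
    (qExpansion 1 (ofQ g)).coeff m = ((m.factorial : ℂ))⁻¹ * iteratedDeriv m g 0 :=
  qExpansion_coeff_unique_fun (ofQ_analyticAt hg) (ofQ_hasSum hg) m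

end Fermat.Agent.S24.JFun

end
-- ===== PACK-END S24/JFun/QFun.lean

-- ===== PACK-BEGIN S24/H84/LaurentDeriv.lean
section


/-!
# `d/dz` on Laurent series as a derivation (helper84, S24 piece KD3)

Mathlib has `LaurentSeries.derivative` only as a linear map.  We prove the Leibniz rule,
package it as a `Derivation`, and compute orders.
-/

set_option autoImplicit false

noncomputable section

namespace Fermat.Agent.S24.H84

open HahnSeries

section Ring

variable {C : Type*} [CommRing C]

theorem laurent_derivative_coeff (f : LaurentSeries C) (n : ℤ) :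
    (LaurentSeries.derivative C f).coeff n = ((n + 1 : ℤ) : C) * f.coeff (n + 1) := by
  rw [LaurentSeries.derivative_apply, LaurentSeries.hasseDeriv_coeff]
  simp [zsmul_eq_mul]

theorem laurent_derivative_ofPowerSeries (P : PowerSeries C) :
    LaurentSeries.derivative C (P : LaurentSeries C) =
      ((PowerSeries.derivative C P : PowerSeries C) : LaurentSeries C) := by
  ext n
  rw [laurent_derivative_coeff, PowerSeries.coeff_coe, PowerSeries.coeff_coe]
  by_cases hn : n < 0
  · rw [if_pos hn]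
    by_cases hn1 : n + 1 < 0
    · rw [if_pos hn1, mul_zero]
    · have : n + 1 = 0 := by omega
      rw [this]; simp
  · rw [if_neg hn, if_neg (by omega)]
    obtain ⟨k, rfl⟩ := Int.eq_ofNat_of_zero_le (not_lt.mp hn)
    have h1 : ((k : ℤ) + 1).natAbs = k + 1 := by omega
    rw [h1, Int.natAbs_natCast, PowerSeries.coeff_derivative]
    push_cast
    ring

theorem laurent_derivative_single_mul (n : ℤ) (h : LaurentSeries C) :
    LaurentSeries.derivative C (single n (1 : C) * h) =
      (n : C) • (single (n - 1) (1 : C) * h) + single n (1 : C) * LaurentSeries.derivative C h := by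
  ext k
  rw [laurent_derivative_coeff, HahnSeries.coeff_add, HahnSeries.coeff_smul,
    coeff_single_mul, coeff_single_mul, coeff_single_mul, laurent_derivative_coeff]
  have e1 : k - (n - 1) = k + 1 - n := by ring
  have e2 : k - n + 1 = k + 1 - n := by ring
  rw [e1, e2]
  simp only [one_mul, smul_eq_mul]
  push_cast
  ring

theorem laurent_derivative_mul (f g : LaurentSeries C) :
    LaurentSeries.derivative C (f * g) =
      f * LaurentSeries.derivative C g + g * LaurentSeries.derivative C f := by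
  obtain ⟨a, P, rfl⟩ : ∃ (a : ℤ) (P : PowerSeries C), f = single a (1 : C) * (P : LaurentSeries C) :=
    ⟨_, _, (LaurentSeries.single_order_mul_powerSeriesPart f).symm⟩
  obtain ⟨b, Q, rfl⟩ : ∃ (b : ℤ) (Q : PowerSeries C), g = single b (1 : C) * (Q : LaurentSeries C) :=
    ⟨_, _, (LaurentSeries.single_order_mul_powerSeriesPart g).symm⟩
  have hfg : single a (1 : C) * (P : LaurentSeries C) * (single b (1 : C) * (Q : LaurentSeries C))
      = single (a + b) (1 : C) * ((P * Q : PowerSeries C) : LaurentSeries C) := by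
    have : single (a + b) (1 : C) = single a (1 : C) * single b (1 : C) := by
      rw [single_mul_single, one_mul]
    rw [this]
    push_cast
    ring
  rw [hfg, laurent_derivative_single_mul, laurent_derivative_single_mul,
    laurent_derivative_single_mul, laurent_derivative_ofPowerSeries,
    laurent_derivative_ofPowerSeries, laurent_derivative_ofPowerSeries,
    Derivation.leibniz, smul_eq_mul, smul_eq_mul]
  have h1 : single (a + b - 1) (1 : C) = single (a - 1) (1 : C) * single b (1 : C) := by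
    rw [single_mul_single, one_mul, show a - 1 + b = a + b - 1 by omega]
  have h2 : single (a + b - 1) (1 : C) = single a (1 : C) * single (b - 1) (1 : C) := by
    rw [single_mul_single, one_mul, show a + (b - 1) = a + b - 1 by omega]
  have h3 : single (a + b) (1 : C) = single a (1 : C) * single b (1 : C) := by
    rw [single_mul_single, one_mul]
  simp only [← HahnSeries.C_mul_eq_smul, PowerSeries.coe_add, PowerSeries.coe_mul]
  push_cast
  rw [h3]
  have h4 : (HahnSeries.C ((a : C) + (b : C)) : LaurentSeries C) * single (a + b - 1) (1 : C)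
      = HahnSeries.C (a : C) * (single (a - 1) (1 : C) * single b (1 : C))
        + HahnSeries.C (b : C) * (single a (1 : C) * single (b - 1) (1 : C)) := by
    rw [← h1, ← h2, _root_.map_add]; ring
  linear_combination ((P : LaurentSeries C) * (Q : LaurentSeries C)) * h4

theorem laurent_algebraMap_eq_C (c : C) :
    algebraMap C (LaurentSeries C) c = HahnSeries.C c := by
  rw [HahnSeries.algebraMap_apply', ← HahnSeries.ofPowerSeries_C]
  rfl

/-- The two `C`-actions on `C((z))` (via `Algebra.toModule` and via `HahnSeries.instModule`)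
agree. -/
theorem laurent_algebra_smul_eq (c : C) (f : LaurentSeries C) :
    (@HSMul.hSMul C (LaurentSeries C) _
      (@instHSMul C (LaurentSeries C) (Algebra.toModule.toSMul)) c f) = HahnSeries.C c * f := by
  rw [Algebra.smul_def, laurent_algebraMap_eq_C]

/-- `d/dz` on `C((z))` as a `C`-derivation. -/
def laurentD (C : Type*) [CommRing C] : Derivation C (LaurentSeries C) (LaurentSeries C) where
  toFun f := LaurentSeries.derivative C f
  map_add' f g := _root_.map_add _ f g
  map_smul' c f := by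
    ext n
    simp only [RingHom.id_apply, laurent_derivative_coeff]
    rw [laurent_algebra_smul_eq,
      HahnSeries.C_mul_eq_smul, HahnSeries.coeff_smul,
      HahnSeries.coeff_smul, laurent_derivative_coeff]
    simp only [smul_eq_mul]
    ring
  map_one_eq_zero' := by
    ext n
    show (LaurentSeries.derivative C (1 : LaurentSeries C)).coeff n = _
    rw [laurent_derivative_coeff]
    by_cases hn : n + 1 = 0
    · rw [hn]; simp
    · rw [HahnSeries.coeff_one, if_neg hn]; simp
  leibniz' f g := by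
    show LaurentSeries.derivative C (f * g) = _
    rw [laurent_derivative_mul]
    simp [smul_eq_mul]

@[simp] theorem laurentD_apply (f : LaurentSeries C) :
    laurentD C f = LaurentSeries.derivative C f := rfl

theorem laurentD_coeff (f : LaurentSeries C) (n : ℤ) :
    (laurentD C f).coeff n = ((n + 1 : ℤ) : C) * f.coeff (n + 1) :=
  laurent_derivative_coeff f n

theorem laurentD_C (c : C) : laurentD C (HahnSeries.C c) = 0 := by
  ext n
  rw [laurentD_coeff, HahnSeries.C_apply, HahnSeries.coeff_single]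
  by_cases hn : n + 1 = 0
  · rw [hn]; simp
  · rw [if_neg hn]; simp

end Ring

section Field

variable {C : Type*} [Field C] [CharZero C]

/-- In characteristic zero, `ord (df/dz) = ord f - 1` whenever `ord f ≠ 0`. -/
theorem laurentD_order {f : LaurentSeries C} (hf : f.order ≠ 0) :
    (laurentD C f).order = f.order - 1 := by
  have hf0 : f ≠ 0 := by rintro rfl; simp at hf
  have hc : (laurentD C f).coeff (f.order - 1) ≠ 0 := by
    rw [laurentD_coeff, sub_add_cancel]
    refine mul_ne_zero (by exact_mod_cast hf) ?_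
    rw [← HahnSeries.leadingCoeff_eq]
    exact HahnSeries.leadingCoeff_ne_zero.2 hf0
  have hne : laurentD C f ≠ 0 := by
    intro h; rw [h] at hc; simp at hc
  refine le_antisymm (HahnSeries.order_le_of_coeff_ne_zero hc) ?_
  by_contra hlt
  rw [not_le] at hlt
  have h2 : (laurentD C f).coeff (laurentD C f).order ≠ 0 := by
    rw [← HahnSeries.leadingCoeff_eq]
    exact HahnSeries.leadingCoeff_ne_zero.2 hne
  apply h2
  rw [laurentD_coeff, HahnSeries.coeff_eq_zero_of_lt_order (by omega), mul_zero]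

theorem laurentD_ne_zero {f : LaurentSeries C} (hf : f.order ≠ 0) : laurentD C f ≠ 0 := by
  have hf0 : f ≠ 0 := by rintro rfl; simp at hf
  intro h
  have hc : (laurentD C f).coeff (f.order - 1) ≠ 0 := by
    rw [laurentD_coeff, sub_add_cancel]
    refine mul_ne_zero (by exact_mod_cast hf) ?_
    rw [← HahnSeries.leadingCoeff_eq]
    exact HahnSeries.leadingCoeff_ne_zero.2 hf0
  rw [h] at hc
  simp at hc

omit [CharZero C] in
/-- In general `ord (df/dz) ≥ ord f - 1` (when `df/dz ≠ 0`). -/
theorem laurentD_order_ge {f : LaurentSeries C} (hdf : laurentD C f ≠ 0) :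
    f.order - 1 ≤ (laurentD C f).order := by
  by_contra hlt
  rw [not_le] at hlt
  have h2 : (laurentD C f).coeff (laurentD C f).order ≠ 0 := by
    rw [← HahnSeries.leadingCoeff_eq]
    exact HahnSeries.leadingCoeff_ne_zero.2 hdf
  apply h2
  rw [laurentD_coeff, HahnSeries.coeff_eq_zero_of_lt_order (by omega), mul_zero]

/-- `df/dz = 0` iff `f` is constant (characteristic zero). -/
theorem laurentD_eq_zero_iff {f : LaurentSeries C} :
    laurentD C f = 0 ↔ f = HahnSeries.C (f.coeff 0) := by
  constructor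
  · intro h
    ext n
    rw [HahnSeries.C_apply, HahnSeries.coeff_single]
    by_cases hn : n = 0
    · rw [if_pos hn, hn]
    · rw [if_neg hn]
      have := congrArg (fun g : LaurentSeries C => g.coeff (n - 1)) h
      simp only [laurentD_coeff, sub_add_cancel, HahnSeries.coeff_zero] at this
      rcases mul_eq_zero.1 this with h1 | h1
      · exact absurd (by exact_mod_cast h1) hn
      · exact h1
  · intro h
    rw [h, laurentD_C]

end Field

end Fermat.Agent.S24.H84

end
end
-- ===== PACK-END S24/H84/LaurentDeriv.lean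

-- ===== PACK-BEGIN S29/H571/Equivariant.lean
section


/-!
# Equivariance of pull-back / push-forward / correspondences of divisors
under semilinear automorphisms (helper571, piece GEQ of the S29 route)

If `φ : F →ₐ[K] F'` and semilinear automorphisms `g` of `F`, `g'` of `F'` satisfy
`g' (φ x) = φ (g x)` (`SemilinearAut.IntertwinesAlong`), then restriction of places,
ramification indices, inertia degrees, pull-back and push-forward of divisors along `φ`
commute with the actions of `g`, `g'`.  Consequently a correspondence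
`Pic0.correspondence φ ψ` commutes with `(g, g')` as soon as both legs intertwine.
-/

set_option autoImplicit false
set_option linter.style.haveILetI false

noncomputable section

namespace Fermat.Agent.S29.H571

open AlgebraicCurve
open scoped Pointwise

variable {K F F' : Type*} [Field K] [Field F] [Field F'] [Algebra K F] [Algebra K F']

section PlaceLemmas

variable (φ : F →ₐ[K] F') (hφ : φ.toRingHom.IsIntegral)
  {g : SemilinearAut K F} {g' : SemilinearAut K F'}

theorem mem_restrictAlong_iff (w : Place K F') (x : F) :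
    x ∈ (w.restrictAlong φ hφ).toValuationSubring ↔ φ x ∈ w.toValuationSubring :=
  Iff.rfl

theorem restrictAlong_smul (h : SemilinearAut.IntertwinesAlong (φ : F →+* F') g g')
    (w : Place K F') :
    (g' • w).restrictAlong φ hφ = g • (w.restrictAlong φ hφ) := by
  apply Place.ext
  ext x
  rw [mem_restrictAlong_iff, SemilinearAut.smul_toValuationSubring,
    SemilinearAut.smul_toValuationSubring,
    ValuationSubring.mem_pointwise_smul_iff_inv_smul_mem,
    ValuationSubring.mem_pointwise_smul_iff_inv_smul_mem, mem_restrictAlong_iff]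
  have := h.inv x
  rw [show (φ : F →+* F') x = φ x from rfl] at this
  rw [this]
  rfl

theorem ord_smul_apply (h : SemilinearAut.IntertwinesAlong (φ : F →+* F') g g')
    (w : Place K F') (f : F) :
    (g' • w).ord (φ (g • f)) = w.ord (φ f) := by
  have h1 : φ (g • f) = g' • (φ f) := (h f).symm
  rw [h1, SemilinearAut.ord_smul]

theorem ramificationIndexAlong_smul
    (h : SemilinearAut.IntertwinesAlong (φ : F →+* F') g g') (w : Place K F') :
    (g' • w).ramificationIndexAlong φ = w.ramificationIndexAlong φ := by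
  unfold Place.ramificationIndexAlong Place.ramificationIndex
  congr 1
  ext n
  simp only [Set.mem_ofPred_eq]
  constructor
  · rintro ⟨hn, f, hf, hfn⟩
    refine ⟨hn, g⁻¹ • f, by simpa using hf, ?_⟩
    rw [← hfn]
    have := ord_smul_apply φ h w (g⁻¹ • f)
    rw [smul_inv_smul] at this
    exact this.symm
  · rintro ⟨hn, f, hf, hfn⟩
    refine ⟨hn, g • f, by simpa using hf, ?_⟩
    rw [← hfn]
    exact ord_smul_apply φ h w f

/-- The ring isomorphism between the valuation rings of `w.restrictAlong φ` and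
`(g' • w).restrictAlong φ` induced by `g`. -/
def restrictSMulEquiv (h : SemilinearAut.IntertwinesAlong (φ : F →+* F') g g')
    (w : Place K F') :
    (w.restrictAlong φ hφ).toValuationSubring ≃+*
      ((g' • w).restrictAlong φ hφ).toValuationSubring where
  toFun x := ⟨g • (x : F), by
    rw [mem_restrictAlong_iff, SemilinearAut.smul_toValuationSubring,
      show φ (g • (x : F)) = g' • φ (x : F) from (h (x : F)).symm]
    exact ValuationSubring.smul_mem_pointwise_smul g' _ _ ((mem_restrictAlong_iff φ hφ w _).mp x.2)⟩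
  invFun y := ⟨g⁻¹ • (y : F), by
    rw [mem_restrictAlong_iff,
      show φ (g⁻¹ • (y : F)) = g'⁻¹ • φ (y : F) from (h.inv (y : F)).symm]
    have hy := (mem_restrictAlong_iff φ hφ (g' • w) _).mp y.2
    rw [SemilinearAut.smul_toValuationSubring,
      ValuationSubring.mem_pointwise_smul_iff_inv_smul_mem] at hy
    exact hy⟩
  left_inv x := Subtype.ext (inv_smul_smul g (x : F))
  right_inv y := Subtype.ext (smul_inv_smul g (y : F))
  map_mul' x y := Subtype.ext (smul_mul' g (x : F) (y : F))
  map_add' x y := Subtype.ext (smul_add g (x : F) (y : F))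

@[simp]
theorem coe_restrictSMulEquiv_apply (h : SemilinearAut.IntertwinesAlong (φ : F →+* F') g g')
    (w : Place K F') (x : (w.restrictAlong φ hφ).toValuationSubring) :
    ((restrictSMulEquiv φ hφ h w x :
      ((g' • w).restrictAlong φ hφ).toValuationSubring) : F) = g • (x : F) := rfl

theorem inertiaDegAlong_smul (h : SemilinearAut.IntertwinesAlong (φ : F →+* F') g g')
    (w : Place K F') :
    (g' • w).inertiaDegAlong φ hφ = w.inertiaDegAlong φ hφ := by
  letI := algebraAlong φ
  haveI := isScalarTower_along φ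
  haveI := isIntegral_along φ hφ
  show Module.finrank ((g' • w).restrict F).ResidueField (g' • w).ResidueField
    = Module.finrank (w.restrict F).ResidueField w.ResidueField
  symm
  let e : (Place.restrict F w).toValuationSubring ≃+*
      (Place.restrict F (g' • w)).toValuationSubring := restrictSMulEquiv φ hφ h w
  refine Algebra.finrank_eq_of_equiv_equiv
    (IsLocalRing.ResidueField.mapEquiv e)
    (SemilinearAut.smulResidueRingEquiv g' w) ?_
  refine Ideal.Quotient.ringHom_ext (RingHom.ext fun x => ?_)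
  show algebraMap ((g' • w).restrict F).ResidueField (g' • w).ResidueField
      (IsLocalRing.ResidueField.mapEquiv e
        (IsLocalRing.residue (Place.restrict F w).toValuationSubring x))
    = SemilinearAut.smulResidueRingEquiv g' w
        (algebraMap (w.restrict F).ResidueField w.ResidueField
          (IsLocalRing.residue (Place.restrict F w).toValuationSubring x))
  rw [IsLocalRing.ResidueField.mapEquiv_apply, IsLocalRing.ResidueField.map_residue,
    Place.algebraMap_residueField_eq, Place.algebraMap_residueField_eq,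
    Place.restrictResidueMap_residue, Place.restrictResidueMap_residue]
  show IsLocalRing.residue _ _ = IsLocalRing.ResidueField.mapEquiv _ (IsLocalRing.residue _ _)
  rw [IsLocalRing.ResidueField.mapEquiv_apply, IsLocalRing.ResidueField.map_residue]
  refine congrArg _ (Subtype.ext ?_)
  exact (h (x : F)).symm

end PlaceLemmas

section DivisorLemmas

variable (φ : F →ₐ[K] F') (hφ : φ.toRingHom.IsIntegral)
  {g : SemilinearAut K F} {g' : SemilinearAut K F'}

theorem pushforwardAlong_smul (h : SemilinearAut.IntertwinesAlong (φ : F →+* F') g g')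
    (D : Divisor K F') :
    Divisor.pushforwardAlong φ hφ (g' • D) = g • Divisor.pushforwardAlong φ hφ D := by
  induction D using Finsupp.induction with
  | zero => simp
  | single_add w n D _ _ ih =>
    rw [smul_add, map_add, map_add, smul_add, ih, SemilinearAut.smul_single,
      Divisor.pushforwardAlong_single, Divisor.pushforwardAlong_single,
      SemilinearAut.smul_single, restrictAlong_smul φ hφ h, inertiaDegAlong_smul φ hφ h]

theorem pullbackAlong_smul [HasPrincipalDivisors K F']
    (h : SemilinearAut.IntertwinesAlong (φ : F →+* F') g g') (D : Divisor K F) :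
    Divisor.pullbackAlong φ hφ (g • D) = g' • Divisor.pullbackAlong φ hφ D := by
  ext w
  rw [Divisor.pullbackAlong_apply, SemilinearAut.divisor_smul_apply,
    SemilinearAut.divisor_smul_apply, Divisor.pullbackAlong_apply,
    restrictAlong_smul φ hφ h.inv, ramificationIndexAlong_smul φ h.inv]

end DivisorLemmas

section CorrespondenceLemmas

variable [HasPrincipalDivisors K F']
variable (φ ψ : F →ₐ[K] F') (hφ : φ.toRingHom.IsIntegral) (hψ : ψ.toRingHom.IsIntegral)
  {g : SemilinearAut K F} {g' : SemilinearAut K F'}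

theorem divisor_correspondence_smul
    (h₁ : SemilinearAut.IntertwinesAlong (φ : F →+* F') g g')
    (h₂ : SemilinearAut.IntertwinesAlong (ψ : F →+* F') g g') (D : Divisor K F) :
    Divisor.correspondence φ ψ hφ hψ (g • D) = g • Divisor.correspondence φ ψ hφ hψ D := by
  rw [Divisor.correspondence_apply, Divisor.correspondence_apply,
    pullbackAlong_smul φ hφ h₁, pushforwardAlong_smul ψ hψ h₂]

theorem pic0_correspondence_smul
    (hFI : FundamentalIdentityAlong K φ hφ)
    (hfin : FiniteAlong K ψ) (hN : NormFormulaAlong K ψ hfin)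
    (h₁ : SemilinearAut.IntertwinesAlong (φ : F →+* F') g g')
    (h₂ : SemilinearAut.IntertwinesAlong (ψ : F →+* F') g g') (x : Pic0 K F) :
    Pic0.correspondence φ ψ hφ hψ hFI hfin hN (g • x)
      = g • Pic0.correspondence φ ψ hφ hψ hFI hfin hN x := by
  obtain ⟨D, rfl⟩ := Pic0.mk_surjective x
  rw [SemilinearAut.pic0_smul_mk, Pic0.correspondence_mk, Pic0.correspondence_mk,
    SemilinearAut.pic0_smul_mk]
  refine congrArg Pic0.mk (Subtype.ext ?_)
  rw [Pic0.coe_degZeroCorrespondence, SemilinearAut.coe_degZeroSMulHom,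
    SemilinearAut.coe_degZeroSMulHom, Pic0.coe_degZeroCorrespondence]
  exact divisor_correspondence_smul φ ψ hφ hψ h₁ h₂ (D : Divisor K F)

end CorrespondenceLemmas

end Fermat.Agent.S29.H571

end
end
-- ===== PACK-END S29/H571/Equivariant.lean

-- ===== PACK-BEGIN S30/H709/EigenAlg.lean
section


/-!
# S30-OCC, algebra: a ring homomorphism from a faithfully acting commutative ring occurs

`T` a commutative ring acting faithfully on a finitely generated module `L`, `χ : T →+* K` a ring
homomorphism to a field: there is a nonzero additive `μ : L → K` with `μ (t • x) = χ t * μ x`.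
No hypothesis on the kernel of `χ` (maximality is not needed), no characteristic hypothesis.

Lattice form: if `L` is a free `ℤ`-module of finite rank with basis `b`, and `χ` takes values in a
domain `A`, there is a nonzero vector `w` of elements of `A` which is a left eigenvector with
eigenvalue `χ t` of the integer matrix of every `t` in the basis `b`.
-/

set_option autoImplicit false

namespace Fermat.Agent.S30.H709

open scoped TensorProduct

/-- A ring homomorphism `χ : T →+* K` to a field occurs in every faithful finitely generated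
`T`-module: there is a nonzero `χ`-semilinear additive functional. -/
theorem exists_semilinear_functional {T : Type*} [CommRing T] {L : Type*} [AddCommGroup L]
    [Module T L] [Module.Finite T L] (hfaith : ∀ t : T, (∀ x : L, t • x = 0) → t = 0)
    {K : Type*} [Field K] (χ : T →+* K) :
    ∃ μ : L →+ K, μ ≠ 0 ∧ ∀ (t : T) (x : L), μ (t • x) = χ t * μ x := by
  classical
  let 𝔭 : Ideal T := RingHom.ker χ
  have h𝔭 : 𝔭.IsPrime := RingHom.ker_isPrime χ
  let P : PrimeSpectrum T := ⟨𝔭, h𝔭⟩
  have hsupp : P ∈ Module.support T L := by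
    rw [Module.mem_support_iff_of_finite]
    intro t ht
    rw [Module.mem_annihilator] at ht
    rw [hfaith t ht]
    exact zero_mem _
  have hnt : Nontrivial (𝔭.ResidueField ⊗[T] L) :=
    (Module.mem_support_iff_nontrivial_residueField_tensorProduct P).mp hsupp
  obtain ⟨v, hv⟩ := exists_ne (0 : 𝔭.ResidueField ⊗[T] L)
  obtain ⟨φ, hφ⟩ := Module.Projective.exists_dual_ne_zero 𝔭.ResidueField hv
  have hunit : 𝔭.primeCompl ≤ (IsUnit.submonoid K).comap χ := by
    intro t ht
    rw [Submonoid.mem_comap, IsUnit.mem_submonoid_iff]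
    exact IsUnit.mk0 _ (fun h => ht (RingHom.mem_ker.mpr h))
  let ι : 𝔭.ResidueField →+* K := Ideal.ResidueField.lift 𝔭 χ le_rfl hunit
  have hι : ∀ t : T, ι (algebraMap T 𝔭.ResidueField t) = χ t := fun t =>
    Ideal.ResidueField.lift_algebraMap 𝔭 χ le_rfl hunit t
  let μ : L →+ K :=
    { toFun := fun x => ι (φ ((1 : 𝔭.ResidueField) ⊗ₜ[T] x))
      map_zero' := by rw [TensorProduct.tmul_zero, map_zero, map_zero]
      map_add' := fun x y => by rw [TensorProduct.tmul_add, map_add, map_add] }
  have hμ : ∀ x, μ x = ι (φ ((1 : 𝔭.ResidueField) ⊗ₜ[T] x)) := fun _ => rfl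
  refine ⟨μ, ?_, ?_⟩
  · intro h0
    apply hφ
    have hzero : ∀ x : L, φ ((1 : 𝔭.ResidueField) ⊗ₜ[T] x) = 0 := by
      intro x
      have := congrArg (fun m : L →+ K => m x) h0
      simp only [hμ, AddMonoidHom.zero_apply] at this
      exact (map_eq_zero ι).mp this
    have hall : ∀ w : 𝔭.ResidueField ⊗[T] L, φ w = 0 := by
      intro w
      induction w using TensorProduct.induction_on with
      | zero => exact map_zero φ
      | tmul a x =>
        have : a ⊗ₜ[T] x = a • ((1 : 𝔭.ResidueField) ⊗ₜ[T] x) := by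
          rw [TensorProduct.smul_tmul', smul_eq_mul, mul_one]
        rw [this, map_smul, hzero, _root_.smul_zero]
      | add x y hx hy => rw [map_add, hx, hy, add_zero]
    exact hall v
  · intro t x
    rw [hμ, hμ, ← hι t, ← _root_.map_mul]
    congr 1
    have : (1 : 𝔭.ResidueField) ⊗ₜ[T] (t • x)
        = (algebraMap T 𝔭.ResidueField t) • ((1 : 𝔭.ResidueField) ⊗ₜ[T] x) := by
      rw [TensorProduct.tmul_smul, TensorProduct.smul_tmul', TensorProduct.smul_tmul',
        smul_eq_mul, mul_one, _root_.Algebra.smul_def, mul_one]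
    rw [this, map_smul, smul_eq_mul]

/-- Auxiliary form of `exists_eigen_coeffs` with an arbitrary fraction field. -/
theorem exists_eigen_coeffs_aux {T : Type*} [CommRing T] {L : Type*} [AddCommGroup L]
    (ρ : T →+* Module.End ℤ L) (hρ : Function.Injective ρ)
    {ι : Type*} [Fintype ι] (b : Module.Basis ι ℤ L)
    {A : Type*} [CommRing A] [IsDomain A] (K : Type*) [Field K] [Algebra A K]
    [IsFractionRing A K] (χ : T →+* A) :
    ∃ w : ι → A, w ≠ 0 ∧
      ∀ (t : T) (k : ι), ∑ j, w j * ((b.repr (ρ t (b k)) j : ℤ) : A) = χ t * w k := by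
  classical
  let _ : Module T L := Module.compHom L ρ
  have hsmul : ∀ (t : T) (x : L), t • x = ρ t x := fun _ _ => rfl
  have : Module.Finite T L := by
    refine ⟨⟨Finset.univ.image b, ?_⟩⟩
    rw [eq_top_iff]
    intro x _
    rw [← b.sum_repr x]
    refine Submodule.sum_mem _ fun j _ => ?_
    have hb : b j ∈ Submodule.span T ((Finset.univ.image b : Finset L) : Set L) :=
      Submodule.subset_span (by simp)
    have : (b.repr x j) • b j = ((b.repr x j : ℤ) : T) • b j := by
      rw [hsmul, map_intCast]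
      rfl
    rw [this]
    exact Submodule.smul_mem _ _ hb
  have hfaith : ∀ t : T, (∀ x : L, t • x = 0) → t = 0 := by
    intro t ht
    apply hρ
    rw [map_zero]
    exact LinearMap.ext fun x => ht x
  obtain ⟨μ, hμ0, hμ⟩ := exists_semilinear_functional hfaith ((algebraMap A K).comp χ)
  obtain ⟨d, hd⟩ := IsLocalization.exist_integer_multiples_of_finite (nonZeroDivisors A)
    (fun j : ι => μ (b j))
  choose w hw using hd
  have hd0 : algebraMap A K (d : A) ≠ 0 := by
    intro h
    exact nonZeroDivisors.coe_ne_zero d ((IsFractionRing.injective A K) (by rw [h, map_zero]))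
  have hw' : ∀ j, algebraMap A K (w j) = algebraMap A K (d : A) * μ (b j) := by
    intro j
    rw [hw j, _root_.Algebra.smul_def]
  refine ⟨w, ?_, ?_⟩
  · intro hw0
    apply hμ0
    have hb0 : ∀ j, μ (b j) = 0 := by
      intro j
      have h1 := hw' j
      rw [hw0, Pi.zero_apply, map_zero] at h1
      rcases mul_eq_zero.mp h1.symm with h | h
      · exact absurd h hd0
      · exact h
    have hall : ∀ x : L, μ x = 0 := by
      intro x
      rw [← b.sum_repr x, map_sum]
      refine Finset.sum_eq_zero fun j _ => ?_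
      rw [map_zsmul, hb0, _root_.smul_zero]
    exact AddMonoidHom.ext hall
  · intro t k
    apply IsFractionRing.injective A K
    have h1 : μ (ρ t (b k)) = algebraMap A K (χ t) * μ (b k) := hμ t (b k)
    have h2 : μ (ρ t (b k)) = ∑ j, ((b.repr (ρ t (b k)) j : ℤ) : K) * μ (b j) := by
      conv_lhs => rw [← b.sum_repr (ρ t (b k))]
      rw [map_sum]
      refine Finset.sum_congr rfl fun j _ => ?_
      rw [map_zsmul, zsmul_eq_mul]
    rw [map_sum, _root_.map_mul, hw' k]
    calc ∑ j, algebraMap A K (w j * ((b.repr (ρ t (b k)) j : ℤ) : A))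
        = ∑ j, algebraMap A K (d : A) * (((b.repr (ρ t (b k)) j : ℤ) : K) * μ (b j)) := by
          refine Finset.sum_congr rfl fun j _ => ?_
          rw [_root_.map_mul, hw' j, map_intCast]
          ring
      _ = algebraMap A K (d : A) * μ (ρ t (b k)) := by rw [h2, Finset.mul_sum]
      _ = algebraMap A K (χ t) * (algebraMap A K (d : A) * μ (b k)) := by rw [h1]; ring

/-- Lattice form of `exists_semilinear_functional`: a commutative ring `T` acting faithfully
(through `ρ`) on a free abelian group `L` of finite rank with basis `b`, and a ring homomorphism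
`χ` from `T` to a domain `A`.  There is a nonzero `w : ι → A` with
`∑ j, w j * [ρ t]_{j k} = χ t * w k` for all `t`, where `[ρ t]_{j k} = b.repr (ρ t (b k)) j`. -/
theorem exists_eigen_coeffs {T : Type*} [CommRing T] {L : Type*} [AddCommGroup L]
    (ρ : T →+* Module.End ℤ L) (hρ : Function.Injective ρ)
    {ι : Type*} [Fintype ι] (b : Module.Basis ι ℤ L)
    {A : Type*} [CommRing A] [IsDomain A] (χ : T →+* A) :
    ∃ w : ι → A, w ≠ 0 ∧
      ∀ (t : T) (k : ι), ∑ j, w j * ((b.repr (ρ t (b k)) j : ℤ) : A) = χ t * w k :=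
  exists_eigen_coeffs_aux ρ hρ b (FractionRing A) χ

end Fermat.Agent.S30.H709

end
-- ===== PACK-END S30/H709/EigenAlg.lean

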