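import Mathlib
import Fermat.Prelude.Def_GaloisRep_Flat
import Fermat.Prelude.Def_ModularCurve_ArithmeticGalois
import Fermat.Prelude.Def_CuspForm_HeckeGaloisRepDatum
import Mathlib.RingTheory.SimpleModule.Basic
import Mathlib.RepresentationTheory.AlgebraRepresentation.Basic
import Mathlib.LinearAlgebra.FiniteDimensional.Basic
import Mathlib.Algebra.Algebra.Subalgebra.Basic
import Fermat.Prelude.Def_GaloisRep_DeformationRingData
import Fermat.Prelude.Def_GaloisRep_DeformationCondition
import Fermat.Prelude.Def_GaloisRep_LocalConditions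
import Fermat.Prelude.Def_GaloisRep_StrictOrdinary
import Fermat.Prelude.Def_GaloisRep_Residual
import Fermat.Statements.S21
import Fermat.Statements.S24
import Mathlib.NumberTheory.ModularForms.QExpansion
import Mathlib.RingTheory.LaurentSeries
import Mathlib.NumberTheory.ModularForms.LevelOne.GradedRing
import Mathlib.Analysis.Complex.LocallyUniformLimit
import Mathlib.Analysis.Complex.TaylorSeries
import Mathlib.Analysis.Calculus.Deriv.Polynomial
import Mathlib.RingTheory.PowerSeries.PiTopology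
import Fermat.Prelude.Def_ModularCurve_X0
import Fermat.Prelude.Def_AlgebraicCurve_DivisorClassGroup
import Fermat.Prelude.Def_AlgebraicCurve_Repartitions

-- ===== PACK-BEGIN S19/Defs.lean
section




/-!
# Cell A3 (S19) — FROZEN top-level interface (row-lead helper15)

Route Z (origin/helper15:coord/A3.md, origin/helper19:coord/A3-route-helper19.md):

    frozen S19  <==  FIN (torsion finite)  +  ORDER (an `OrderDatum` for the torsion)
    ORD block   :  `OrdStatement`   : OrderDatum  ==>  HopfModel          (pure algebra)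
    glue        :  `S19_of_hopfModel` (file `Glue.lean`)                  (unfolding)

Everything here is definitions only.  Interfaces are frozen; ask helper15 (note kind 'interface')
before proposing a change.
-/

set_option autoImplicit false

noncomputable section

namespace Fermat.Agent.S19

/-- `Q̄`. -/
abbrev Qb : Type := AlgebraicClosure ℚ

/-- `Gal(Q̄/Q)`. -/
abbrev GalQ : Type := Qb ≃ₐ[ℚ] Qb

/-- `Z_(ℓ)` as a subring of `ℚ` (the Prelude ring). -/
abbrev Rl (ℓ : ℕ) : Subring ℚ := GaloisRep.ratLocalizedAt ℓ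

/-- The integral closure of `Z_(ℓ)` in `Q̄`. -/
abbrev Zb (ℓ : ℕ) : Subalgebra (Rl ℓ) Qb := integralClosure (Rl ℓ) Qb

/-- The S19-shaped conclusion for an abstract module `M` with a map `act : Gal → M → M`:
a finite flat commutative cocommutative Hopf algebra over `Z_(ℓ)` whose `Q̄`-points are `M`,
additively and Galois-equivariantly. -/
def HopfModel (ℓ : ℕ) (M : Type) [AddCommGroup M] (act : GalQ → M → M) : Prop :=
  ∃ (H : Type) (_ : CommRing H) (_ : HopfAlgebra (Rl ℓ) H),
    Module.Finite (Rl ℓ) H ∧ Module.Flat (Rl ℓ) H ∧ Coalgebra.IsCocomm (Rl ℓ) H ∧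
    ∃ e : WithConv (H →ₐ[Rl ℓ] Qb) ≃ M,
      (∀ f g, e (f * g) = e f + e g) ∧
      ∀ (σ : GalQ) (f g : WithConv (H →ₐ[Rl ℓ] Qb)),
        (∀ h : H, g h = σ (f h)) → e g = act σ (e f)

/-- The two families of "coordinate functions" on `M × M` coming from a set of functions on `M`. -/
def coordFunctions {M : Type} (S : Set (M → Qb)) : Set (M × M → Qb) :=
  {g | ∃ h ∈ S, g = fun p => h p.1} ∪ {g | ∃ h ∈ S, g = fun p => h p.2}

/-- **ORDER datum** (route Z, §0): a set `gens` of functions `M → Q̄` which are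
Galois-equivariant, have values integral over `Z_(ℓ)`, separate the points of `M`, and whose
translates `(s,t) ↦ f (s+t)` are `Z̄_(ℓ)`-polynomial in the coordinate functions
`(s,t) ↦ h s`, `(s,t) ↦ h t`  (`h ∈ gens`).

* The only axiom on `act` is additivity `act_add` (v2, 18:30Z: without it `OrdStatement` is
  false — counterexamples by helper979, helper259, helper79); no finiteness of `gens`, no
  closure of `gens` under anything.
* `add_mem` is over `Zb ℓ` (integral closure in `Q̄`), which is WEAKER than over `Z_(ℓ)`;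
  the ORD block proves that it implies the statement over `Z_(ℓ)`. -/
structure OrderDatum (ℓ : ℕ) (M : Type) [AddCommGroup M] (act : GalQ → M → M) where
  act_add : ∀ (σ : GalQ) (a b : M), act σ (a + b) = act σ a + act σ b
  gens : Set (M → Qb)
  equivariant : ∀ f ∈ gens, ∀ (σ : GalQ) (m : M), f (act σ m) = σ (f m)
  integral : ∀ f ∈ gens, ∀ m : M, IsIntegral (Rl ℓ) (f m)
  separates : ∀ m m' : M, (∀ f ∈ gens, f m = f m') → m = m'
  add_mem : ∀ f ∈ gens, (fun p : M × M => f (p.1 + p.2)) ∈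
    Algebra.adjoin (Zb ℓ) (coordFunctions gens)

/-- **ORD block** (pure algebra): an order datum on a finite module gives a Hopf model. -/
def OrdStatement : Prop :=
  ∀ (ℓ : ℕ) [Fact ℓ.Prime] (M : Type) [AddCommGroup M] [Finite M] (act : GalQ → M → M),
    Nonempty (OrderDatum ℓ M act) → HopfModel ℓ M act

/-- The torsion module of S19 with its Galois action. -/
abbrev Tors (N ℓ k : ℕ) : Type := ↥(Submodule.torsionBy ℤ (ModularCurve.JZero N) ((ℓ : ℤ) ^ k))

/-- Galois action on the torsion. -/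
def torsAct (N ℓ k : ℕ) (σ : GalQ) (m : Tors N ℓ k) : Tors N ℓ k :=
  ⟨σ • (m : ModularCurve.JZero N), by
    have h := m.2
    rw [Submodule.mem_torsionBy_iff] at h ⊢
    have h2 := (DistribSMul.toAddMonoidHom (ModularCurve.JZero N) σ).map_zsmul
      ((ℓ : ℤ) ^ k) (m : ModularCurve.JZero N)
    rw [h, map_zero] at h2
    exact h2.symm⟩

@[simp] theorem coe_torsAct (N ℓ k : ℕ) (σ : GalQ) (m : Tors N ℓ k) :
    ((torsAct N ℓ k σ m : Tors N ℓ k) : ModularCurve.JZero N) = σ • (m : ModularCurve.JZero N) :=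
  rfl

/-- **FIN block**: the torsion is finite. -/
def FinStatement : Prop :=
  ∀ (N : ℕ) [NeZero N] (ℓ : ℕ) [Fact ℓ.Prime] (k : ℕ), Finite (Tors N ℓ k)

theorem torsAct_add (N ℓ k : ℕ) (σ : GalQ) (a b : Tors N ℓ k) :
    torsAct N ℓ k σ (a + b) = torsAct N ℓ k σ a + torsAct N ℓ k σ b :=
  Subtype.ext (smul_add σ (a : ModularCurve.JZero N) (b : ModularCurve.JZero N))

/-- **ORDER block** (the geometric wall): the torsion carries an order datum. -/
def OrderStatement : Prop :=
  ∀ (N : ℕ) [NeZero N] (ℓ : ℕ) [Fact ℓ.Prime], ¬ ℓ ∣ N → ∀ k : ℕ,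
    Nonempty (OrderDatum ℓ (Tors N ℓ k) (torsAct N ℓ k))

end Fermat.Agent.S19

end

end
-- ===== PACK-END S19/Defs.lean

-- ===== PACK-BEGIN S30/H990/Interface.lean
section
/-
S30 top glue (helper990): interface.

`ChebWeak`       : weak qualitative Chebotarev (hypothesis, to be supplied by the CHEB library).
`AdicEigenModule`: the output expected from the Galois tower for an eigencharacter `χ`:
                   a nonzero finite free `𝒪`-module with continuous Galois action, unramified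
                   outside `N p`, on which Frobenius elements satisfy the Eichler–Shimura relation.
-/


set_option autoImplicit false

namespace Fermat.Agent.S30.H990

/-- The absolute Galois group of `ℚ`. -/
abbrev GQ : Type := AlgebraicClosure ℚ ≃ₐ[ℚ] AlgebraicClosure ℚ

/-- Weak qualitative Chebotarev: for every finite subextension `L`, every `σ` and every finite set
`T` of primes there is a Frobenius element `τ` at a prime `ℓ ∉ T` such that `σ` agrees on `L`
with a power of `τ`.  (The usual qualitative Chebotarev theorem gives `j = 1`.) -/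
def ChebWeak : Prop :=
  ∀ L : IntermediateField ℚ (AlgebraicClosure ℚ), FiniteDimensional ℚ L →
    ∀ (σ : GQ) (T : Finset ℕ),
      ∃ ℓ : ℕ, ℓ.Prime ∧ ℓ ∉ T ∧
        ∃ A : ValuationSubring (AlgebraicClosure ℚ), A.LiesOverPrime ℓ ∧
          ∃ τ : GQ, A.IsFrobeniusAt τ ℓ ∧ ∃ j : ℕ, ∀ x ∈ L, σ x = (τ ^ j) x

/-- The adic eigenmodule attached to an eigencharacter `χ` of the Hecke algebra away from `S`. -/
structure AdicEigenModule (p N : ℕ) [NeZero N] (S : Finset ℕ)
    (𝒪 : Type) [CommRing 𝒪] [IsLocalRing 𝒪]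
    (χ : CuspForm.heckeAlgebra N 2 (↑S : Set ℕ) →+* 𝒪) : Type 1 where
  M : Type
  [instAddCommGroup : AddCommGroup M]
  [instModule : Module 𝒪 M]
  [instFree : Module.Free 𝒪 M]
  [instFinite : Module.Finite 𝒪 M]
  [instNontrivial : Nontrivial M]
  ρ : GQ →* Module.End 𝒪 M
  cont : GaloisActionIsAdicContinuous 𝒪 ρ
  unram : ∀ q : ℕ, q.Prime → ¬ q ∣ N → q ≠ p →
    ∀ P : ValuationSubring (AlgebraicClosure ℚ), P.LiesOverPrime q →
      ∀ σ ∈ P.inertiaSubgroupIn ℚ, ρ σ = 1
  frob : ∀ (ℓ : ℕ) (hℓ : ℓ.Prime) (hℓN : ¬ ℓ ∣ N) (hℓS : ℓ ∉ (↑S : Set ℕ)),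
    ∀ A : ValuationSubring (AlgebraicClosure ℚ), A.LiesOverPrime ℓ →
      ∀ σ : GQ, A.IsFrobeniusAt σ ℓ →
        ρ σ * ρ σ - χ (CuspForm.heckeAlgebra.T hℓ hℓN hℓS) • ρ σ + (ℓ : 𝒪) • 1 = 0

attribute [instance] AdicEigenModule.instAddCommGroup AdicEigenModule.instModule
  AdicEigenModule.instFree AdicEigenModule.instFinite AdicEigenModule.instNontrivial

/-- The tower hypothesis: every eigencharacter has an adic eigenmodule. -/
def HasAdicEigenModules : Prop :=
  ∀ (p : ℕ) [Fact p.Prime] (N : ℕ) [NeZero N] (S : Finset ℕ)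
    (_hpS : p ∈ S) (_hNS : ∀ q : ℕ, q.Prime → q ∣ N → q ∈ S)
    (𝒪' : Type) [CommRing 𝒪'] [IsDomain 𝒪'] [IsDiscreteValuationRing 𝒪']
    [IsAdicComplete (IsLocalRing.maximalIdeal 𝒪') 𝒪'] [Finite (IsLocalRing.ResidueField 𝒪')]
    [CharZero 𝒪'] (_hp𝒪' : (p : 𝒪') ∈ IsLocalRing.maximalIdeal 𝒪')
    (χ : CuspForm.heckeAlgebra N 2 (↑S : Set ℕ) →+* 𝒪'),
    Nonempty (AdicEigenModule p N S 𝒪' χ)

end Fermat.Agent.S30.H990

end
-- ===== PACK-END S30/H990/Interface.lean

-- ===== PACK-BEGIN S29/H872/Burnside.lean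
section





/-!
# Burnside's theorem (from Mathlib's Schur lemma + Jacobson density)

A subalgebra of `End_K(U)` (`K` algebraically closed, `U` finite dimensional, nonzero) without
nontrivial invariant subspaces is everything.
-/

set_option autoImplicit false

namespace Fermat.Agent.S29.H872

open Module

variable {K : Type*} [Field K] {U : Type*} [AddCommGroup U] [Module K U]

section Burnside

variable (A : Subalgebra K (Module.End K U))

theorem subalgebra_smul_def (a : A) (u : U) : a • u = (a : Module.End K U) u := rfl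

instance instIsScalarTowerSubalgebraEnd : IsScalarTower K A U :=
  ⟨fun c a u => by
    rw [subalgebra_smul_def, subalgebra_smul_def]
    simp⟩

theorem isSimpleModule_of_irr [Nontrivial U]
    (hirr : ∀ W : Submodule K U, (∀ a ∈ A, W ≤ W.comap a) → W = ⊥ ∨ W = ⊤) :
    IsSimpleModule A U := by
  rw [isSimpleModule_iff]
  have : Nontrivial (Submodule A U) := inferInstance
  refine ⟨fun W => ?_⟩
  have h := hirr (W.restrictScalars K) (fun a ha w hw => by
    change (a : Module.End K U) w ∈ W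
    exact W.smul_mem (⟨a, ha⟩ : A) hw)
  rcases h with h | h
  · left
    exact Submodule.restrictScalars_injective K A U (by rw [h]; rfl)
  · right
    exact Submodule.restrictScalars_injective K A U (by rw [h]; rfl)

variable [IsAlgClosed K] [FiniteDimensional K U]

/-- **Burnside's theorem.** -/
theorem burnside [Nontrivial U]
    (hirr : ∀ W : Submodule K U, (∀ a ∈ A, W ≤ W.comap a) → W = ⊥ ∨ W = ⊤) :
    A = ⊤ := by
  have : IsSimpleModule A U := isSimpleModule_of_irr A hirr
  have hschur : Function.Bijective (algebraMap K (Module.End A U)) :=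
    IsSimpleModule.algebraMap_end_bijective_of_isAlgClosed K
  have : Module.Finite (Module.End A U) U :=
    Module.Finite.of_restrictScalars_finite K (Module.End A U) U
  have hdens := Module.Finite.toModuleEnd_moduleEnd_surjective (R := A) (M := U)
  rw [eq_top_iff]
  intro f _
  -- `f` is linear over `End_A(U) = K`
  let f' : Module.End (Module.End A U) U :=
    { toFun := f
      map_add' := f.map_add
      map_smul' := fun e u => by
        obtain ⟨c, rfl⟩ := hschur.2 e
        simp }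
  obtain ⟨a, ha⟩ := hdens f'
  have : (a : Module.End K U) = f := by
    ext u
    have := congrArg (fun g : Module.End (Module.End A U) U => g u) ha
    have h2 : a • u = f u := by simpa [f'] using this
    exact h2
  rw [← this]
  exact a.2

end Burnside

end Fermat.Agent.S29.H872

end
-- ===== PACK-END S29/H872/Burnside.lean

-- ===== PACK-BEGIN Lib/Cheb/H761/Sieve.lean
section


/-!
# Euler products over the prime ideals of a Dedekind domain, sieve form

Let `R` be a Dedekind domain and `f : Ideal R → 𝕜` a summable, completely multiplicative function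
(`f (I * J) = f I * f J`, `f ⊤ = 1`).  For a set `S` of nonzero primes let `sieveSet S` be the set
of nonzero ideals divisible by no prime of `S`.  Then

* `tsum_sieve_finset` : `∑_{I ∈ sieveSet T} f I = ∏_{𝔭 ∈ T} (1 - f 𝔭) * ∑_{I ≠ 0} f I`
  for every finite set `T` of primes;
* `tendsto_tsum_sieve` : `∑_{I ∈ sieveSet T} f I → 1` along `T → all primes`;
* `tendsto_prod_one_sub` : `∏_{𝔭 ∈ T} (1 - f 𝔭) → (∑_{I ≠ 0} f I)⁻¹`, and `∑_{I ≠ 0} f I ≠ 0`.
-/

set_option autoImplicit false

namespace Fermat.Agent.Lib.Cheb.H761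

open IsDedekindDomain Filter Topology

section Sieve

set_option linter.unusedSectionVars false

variable {R : Type*} [CommRing R] [IsDedekindDomain R]

/-- nonzero ideals not divisible by any prime of `S` -/
def sieveSet (S : Set (HeightOneSpectrum R)) : Set (Ideal R) :=
  {I | I ≠ ⊥ ∧ ∀ 𝔭 ∈ S, ¬ I ≤ 𝔭.asIdeal}

lemma mem_sieveSet {S : Set (HeightOneSpectrum R)} {I : Ideal R} :
    I ∈ sieveSet S ↔ I ≠ ⊥ ∧ ∀ 𝔭 ∈ S, ¬ I ≤ 𝔭.asIdeal := Iff.rfl

lemma mem_sieveSet_empty {I : Ideal R} :
    I ∈ sieveSet (∅ : Set (HeightOneSpectrum R)) ↔ I ≠ ⊥ := by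
  simp [sieveSet]

lemma top_mem_sieveSet (S : Set (HeightOneSpectrum R)) : (⊤ : Ideal R) ∈ sieveSet S := by
  refine ⟨top_ne_bot, fun 𝔭 _ h => ?_⟩
  exact 𝔭.isPrime.ne_top (top_le_iff.mp h)

lemma sieveSet_anti {S T : Set (HeightOneSpectrum R)} (h : S ⊆ T) : sieveSet T ⊆ sieveSet S :=
  fun _ hI => ⟨hI.1, fun 𝔭 h𝔭 => hI.2 𝔭 (h h𝔭)⟩

lemma mul_mem_sieveSet {S : Set (HeightOneSpectrum R)} {𝔭 : HeightOneSpectrum R} (h𝔭 : 𝔭 ∉ S)
    {J : Ideal R} (hJ : J ∈ sieveSet S) : 𝔭.asIdeal * J ∈ sieveSet S := by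
  refine ⟨?_, fun 𝔮 h𝔮 hle => ?_⟩
  · rw [← Ideal.zero_eq_bot]
    exact mul_ne_zero (by rw [Ideal.zero_eq_bot]; exact 𝔭.ne_bot)
      (by rw [Ideal.zero_eq_bot]; exact hJ.1)
  · rcases 𝔮.isPrime.mul_le.mp hle with h | h
    · have : 𝔭 = 𝔮 := by
        apply HeightOneSpectrum.ext
        exact (𝔭.isMaximal.eq_of_le 𝔮.isPrime.ne_top h)
      exact h𝔭 (this ▸ h𝔮)
    · exact hJ.2 𝔮 h𝔮 h

lemma sieveSet_eq_union (S : Set (HeightOneSpectrum R)) {𝔭 : HeightOneSpectrum R} (h𝔭 : 𝔭 ∉ S) :
    sieveSet S = sieveSet (insert 𝔭 S) ∪ (fun I => 𝔭.asIdeal * I) '' sieveSet S := by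
  ext I
  constructor
  · intro hI
    by_cases hle : I ≤ 𝔭.asIdeal
    · right
      obtain ⟨J, rfl⟩ := Ideal.dvd_iff_le.mpr hle
      refine ⟨J, ⟨?_, fun 𝔮 h𝔮 hJ => ?_⟩, rfl⟩
      · rintro rfl
        exact hI.1 (by simp)
      · exact hI.2 𝔮 h𝔮 (Ideal.mul_le_right.trans hJ)
    · left
      refine ⟨hI.1, fun 𝔮 h𝔮 => ?_⟩
      rcases Set.mem_insert_iff.mp h𝔮 with rfl | h
      · exact hle
      · exact hI.2 𝔮 h
  · rintro (hI | ⟨J, hJ, rfl⟩)
    · exact sieveSet_anti (Set.subset_insert _ _) hI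
    · exact mul_mem_sieveSet h𝔭 hJ

lemma disjoint_sieveSet_image (S : Set (HeightOneSpectrum R)) (𝔭 : HeightOneSpectrum R) :
    Disjoint (sieveSet (insert 𝔭 S)) ((fun I => 𝔭.asIdeal * I) '' sieveSet S) := by
  rw [Set.disjoint_left]
  rintro I hI ⟨J, -, rfl⟩
  exact hI.2 𝔭 (Set.mem_insert _ _) (show 𝔭.asIdeal * J ≤ 𝔭.asIdeal from Ideal.mul_le_left)

lemma injOn_mul (S : Set (HeightOneSpectrum R)) (𝔭 : HeightOneSpectrum R) :
    Set.InjOn (fun I => 𝔭.asIdeal * I) (sieveSet S) := by
  intro I _ J _ h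
  have h0 : 𝔭.asIdeal ≠ 0 := by rw [Ideal.zero_eq_bot]; exact 𝔭.ne_bot
  exact mul_left_cancel₀ h0 h

variable {𝕜 : Type*} [NormedField 𝕜] [CompleteSpace 𝕜] {f : Ideal R → 𝕜}

/-- One sieve step. -/
theorem tsum_sieve_insert (hf : Summable f) (hmul : ∀ I J, f (I * J) = f I * f J)
    (S : Set (HeightOneSpectrum R)) {𝔭 : HeightOneSpectrum R} (h𝔭 : 𝔭 ∉ S) :
    ∑' I : sieveSet (insert 𝔭 S), f I = (1 - f 𝔭.asIdeal) * ∑' I : sieveSet S, f I := by
  have h1 : ∑' I : sieveSet S, f I =
      ∑' I : ↥(sieveSet (insert 𝔭 S) ∪ (fun I => 𝔭.asIdeal * I) '' sieveSet S), f I :=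
    tsum_congr_set_coe f (sieveSet_eq_union S h𝔭)
  rw [(hf.subtype _).tsum_union_disjoint (disjoint_sieveSet_image S 𝔭) (hf.subtype _),
    tsum_image f (injOn_mul S 𝔭)] at h1
  simp only [hmul] at h1
  rw [tsum_mul_left] at h1
  linear_combination -h1

/-- Finitely many sieve steps. -/
theorem tsum_sieve_finset (hf : Summable f) (hmul : ∀ I J, f (I * J) = f I * f J)
    (T : Finset (HeightOneSpectrum R)) :
    ∑' I : sieveSet (T : Set (HeightOneSpectrum R)), f I =
      (∏ 𝔭 ∈ T, (1 - f 𝔭.asIdeal)) * ∑' I : sieveSet (∅ : Set (HeightOneSpectrum R)), f I := by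
  classical
  induction T using Finset.induction_on with
  | empty =>
    rw [Finset.prod_empty, one_mul]
    exact tsum_congr_set_coe f (by rw [Finset.coe_empty])
  | insert 𝔭 T h𝔭 ih =>
    rw [Finset.coe_insert, tsum_sieve_insert hf hmul _ (by simpa using h𝔭), ih,
      Finset.prod_insert h𝔭, mul_assoc]

/-- Every nonzero proper ideal is contained in a nonzero prime. -/
lemma exists_le_heightOneSpectrum {I : Ideal R} (h0 : I ≠ ⊥) (h1 : I ≠ ⊤) :
    ∃ 𝔭 : HeightOneSpectrum R, I ≤ 𝔭.asIdeal := by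
  obtain ⟨M, hM, hle⟩ := Ideal.exists_le_maximal I h1
  refine ⟨⟨M, hM.isPrime, ?_⟩, hle⟩
  rintro rfl
  exact h0 (le_bot_iff.mp hle)

/-- The sieved sums tend to `1`. -/
theorem tendsto_tsum_sieve (hf : Summable f) (h1 : f ⊤ = 1) :
    Tendsto (fun T : Finset (HeightOneSpectrum R) =>
      ∑' I : sieveSet (T : Set (HeightOneSpectrum R)), f I) atTop (𝓝 1) := by
  classical
  rw [_root_.tendsto_nhds]
  intro e he_open he1
  have he0 : (fun x : 𝕜 => 1 + x) ⁻¹' e ∈ 𝓝 (0 : 𝕜) := by
    apply (continuous_const.add continuous_id).continuousAt.preimage_mem_nhds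
    simpa using he_open.mem_nhds he1
  obtain ⟨A, hA⟩ := hf.tsum_vanishing he0
  -- a prime above each nonzero proper ideal of `A`
  let g : Ideal R → Finset (HeightOneSpectrum R) := fun I =>
    if h : I ≠ ⊥ ∧ I ≠ ⊤ then {(exists_le_heightOneSpectrum h.1 h.2).choose} else ∅
  have hg : ∀ I, I ≠ ⊥ → I ≠ ⊤ → ∃ 𝔭 ∈ g I, I ≤ 𝔭.asIdeal := by
    intro I h0 h1
    refine ⟨(exists_le_heightOneSpectrum h0 h1).choose, ?_,
      (exists_le_heightOneSpectrum h0 h1).choose_spec⟩
    simp only [g, dif_pos (And.intro h0 h1), Finset.mem_singleton]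
  rw [Filter.mem_atTop_sets]
  refine ⟨A.biUnion g, fun T hT => ?_⟩
  rw [Set.mem_preimage]
  -- split off the unit ideal
  have hsplit : sieveSet (T : Set (HeightOneSpectrum R)) =
      {⊤} ∪ (sieveSet (T : Set (HeightOneSpectrum R)) \ {⊤}) := by
    rw [Set.union_sdiff_self, Set.union_eq_self_of_subset_left]
    exact Set.singleton_subset_iff.mpr (top_mem_sieveSet _)
  have hdisj : Disjoint ({⊤} : Set (Ideal R))
      (sieveSet (T : Set (HeightOneSpectrum R)) \ {⊤}) := Set.disjoint_sdiff_right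
  have hsum : ∑' I : sieveSet (T : Set (HeightOneSpectrum R)), f I =
      1 + ∑' I : ↥(sieveSet (T : Set (HeightOneSpectrum R)) \ {⊤}), f I := by
    rw [tsum_congr_set_coe f hsplit,
      (hf.subtype _).tsum_union_disjoint hdisj (hf.subtype _), tsum_singleton (⊤ : Ideal R) f, h1]
  rw [hsum]
  apply hA
  rw [Set.disjoint_left]
  rintro I ⟨hI, hItop⟩ hIA
  obtain ⟨𝔭, h𝔭, hle⟩ := hg I hI.1 (by simpa using hItop)
  exact hI.2 𝔭 (Finset.mem_coe.mpr (hT (Finset.mem_biUnion.mpr ⟨I, hIA, h𝔭⟩))) hle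

/-- The sum over all nonzero ideals is nonzero. -/
theorem tsum_sieve_empty_ne_zero (hf : Summable f) (hmul : ∀ I J, f (I * J) = f I * f J)
    (h1 : f ⊤ = 1) : ∑' I : sieveSet (∅ : Set (HeightOneSpectrum R)), f I ≠ 0 := by
  intro h0
  have h := tendsto_tsum_sieve hf h1
  simp only [tsum_sieve_finset hf hmul, h0, mul_zero] at h
  exact zero_ne_one (tendsto_nhds_unique tendsto_const_nhds h)

/-- **Euler product**: the finite products `∏_{𝔭 ∈ T} (1 - f 𝔭)` tend to the inverse of the sum of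
`f` over all nonzero ideals. -/
theorem tendsto_prod_one_sub (hf : Summable f) (hmul : ∀ I J, f (I * J) = f I * f J)
    (h1 : f ⊤ = 1) :
    Tendsto (fun T : Finset (HeightOneSpectrum R) => ∏ 𝔭 ∈ T, (1 - f 𝔭.asIdeal)) atTop
      (𝓝 (∑' I : sieveSet (∅ : Set (HeightOneSpectrum R)), f I)⁻¹) := by
  have hZ := tsum_sieve_empty_ne_zero hf hmul h1
  have h := (tendsto_tsum_sieve hf h1).mul_const
    (∑' I : sieveSet (∅ : Set (HeightOneSpectrum R)), f I)⁻¹
  simp only [tsum_sieve_finset hf hmul, one_mul] at h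
  refine h.congr fun T => ?_
  rw [mul_assoc, mul_inv_cancel₀ hZ, mul_one]

/-- **Euler product**, `HasProd` form. -/
theorem hasProd_one_sub (hf : Summable f) (hmul : ∀ I J, f (I * J) = f I * f J)
    (h1 : f ⊤ = 1) :
    HasProd (fun 𝔭 : HeightOneSpectrum R => 1 - f 𝔭.asIdeal)
      (∑' I : sieveSet (∅ : Set (HeightOneSpectrum R)), f I)⁻¹ := by
  simpa [HasProd] using tendsto_prod_one_sub hf hmul h1

end Sieve

end Fermat.Agent.Lib.Cheb.H761

end
-- ===== PACK-END Lib/Cheb/H761/Sieve.lean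

-- ===== PACK-BEGIN Lib/Cheb/H221/LogEuler.lean
section
/-
CHEB shared library, piece A (helper221): abstract Euler products and their logarithms.

`P` is an index set of "primes", `N : P → ℝ` their norms (`2 ≤ N r`), `c : P → ℂ` unimodular
coefficients.  We study `Λ c s = ∑' r, log (1 - c r * N r ^ (-s))⁻¹`.
-/


set_option autoImplicit false

namespace Fermat.Agent.Lib.Cheb.H221

open Filter Topology Complex

variable {P : Type*}

/-- The basic quantity `N r ^ (-s)`. -/
noncomputable def xs (N : P → ℝ) (s : ℝ) (r : P) : ℝ := N r ^ (-s)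

lemma xs_pos {N : P → ℝ} (hN : ∀ r, 2 ≤ N r) (s : ℝ) (r : P) : 0 < xs N s r :=
  Real.rpow_pos_of_pos (by linarith [hN r]) _

lemma xs_le_half {N : P → ℝ} (hN : ∀ r, 2 ≤ N r) {s : ℝ} (hs : 1 ≤ s) (r : P) :
    xs N s r ≤ 1 / 2 := by
  unfold xs
  have h2 : (0 : ℝ) < 2 := by norm_num
  calc N r ^ (-s) ≤ (2 : ℝ) ^ (-s) :=
        Real.rpow_le_rpow_of_nonpos h2 (hN r) (by linarith)
    _ ≤ (2 : ℝ) ^ (-1 : ℝ) :=
        Real.rpow_le_rpow_of_exponent_le (by norm_num) (by linarith)
    _ = 1 / 2 := by rw [Real.rpow_neg_one]; norm_num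

lemma xs_anti {N : P → ℝ} (hN : ∀ r, 2 ≤ N r) {s t : ℝ} (hst : s ≤ t) (r : P) :
    xs N t r ≤ xs N s r := by
  unfold xs
  exact Real.rpow_le_rpow_of_exponent_le (by linarith [hN r]) (by linarith)

/-- The logarithmic Euler factor. -/
noncomputable def logFactor (N : P → ℝ) (c : P → ℂ) (s : ℝ) (r : P) : ℂ :=
  Complex.log (1 - c r * (xs N s r : ℂ))⁻¹

/-- The logarithm of the Euler product. -/
noncomputable def logEuler (N : P → ℝ) (c : P → ℂ) (s : ℝ) : ℂ :=
  ∑' r, logFactor N c s r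

lemma norm_z_le {N : P → ℝ} (hN : ∀ r, 2 ≤ N r) {c : P → ℂ} (hc : ∀ r, ‖c r‖ ≤ 1)
    (s : ℝ) (r : P) : ‖c r * (xs N s r : ℂ)‖ ≤ xs N s r := by
  rw [_root_.norm_mul, Complex.norm_real, Real.norm_of_nonneg (xs_pos hN s r).le]
  calc ‖c r‖ * xs N s r ≤ 1 * xs N s r :=
        mul_le_mul_of_nonneg_right (hc r) (xs_pos hN s r).le
    _ = xs N s r := one_mul _

lemma norm_z_lt_one {N : P → ℝ} (hN : ∀ r, 2 ≤ N r) {c : P → ℂ} (hc : ∀ r, ‖c r‖ ≤ 1)
    {s : ℝ} (hs : 1 ≤ s) (r : P) : ‖c r * (xs N s r : ℂ)‖ < 1 :=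
  lt_of_le_of_lt (norm_z_le hN hc s r) (by linarith [xs_le_half hN hs r])

/-- `‖log (1 - z)⁻¹ - z‖ ≤ x²` for the Euler factors. -/
lemma norm_logFactor_sub_le {N : P → ℝ} (hN : ∀ r, 2 ≤ N r) {c : P → ℂ} (hc : ∀ r, ‖c r‖ ≤ 1)
    {s : ℝ} (hs : 1 ≤ s) (r : P) :
    ‖logFactor N c s r - c r * (xs N s r : ℂ)‖ ≤ xs N s r ^ 2 := by
  have hz := norm_z_lt_one hN hc hs r
  have hzle := norm_z_le hN hc s r
  have hx := xs_le_half hN hs r
  have hxpos := xs_pos hN s r
  have h1 := Complex.norm_log_one_sub_inv_sub_self_le hz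
  refine le_trans h1 ?_
  have hnn : 0 ≤ ‖c r * (xs N s r : ℂ)‖ := _root_.norm_nonneg _
  have hinv : (1 - ‖c r * (xs N s r : ℂ)‖)⁻¹ ≤ 2 := by
    rw [inv_le_comm₀ (by linarith) (by norm_num)]
    linarith
  have hsq : ‖c r * (xs N s r : ℂ)‖ ^ 2 ≤ xs N s r ^ 2 :=
    pow_le_pow_left₀ hnn hzle 2
  calc ‖c r * (xs N s r : ℂ)‖ ^ 2 * (1 - ‖c r * (xs N s r : ℂ)‖)⁻¹ / 2
      ≤ xs N s r ^ 2 * 2 / 2 := by
        apply div_le_div_of_nonneg_right _ (by norm_num : (0 : ℝ) ≤ 2)
        exact mul_le_mul hsq hinv (inv_nonneg.mpr (by linarith)) (by positivity)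
    _ = xs N s r ^ 2 := by ring

lemma norm_logFactor_le {N : P → ℝ} (hN : ∀ r, 2 ≤ N r) {c : P → ℂ} (hc : ∀ r, ‖c r‖ ≤ 1)
    {s : ℝ} (hs : 1 ≤ s) (r : P) :
    ‖logFactor N c s r‖ ≤ 2 * xs N s r := by
  have h1 := norm_logFactor_sub_le hN hc hs r
  have h2 := norm_z_le hN hc s r
  have hx := xs_le_half hN hs r
  have hxpos := xs_pos hN s r
  have h3 : ‖logFactor N c s r‖ ≤ ‖logFactor N c s r - c r * (xs N s r : ℂ)‖
      + ‖c r * (xs N s r : ℂ)‖ := by
    have := norm_add_le (logFactor N c s r - c r * (xs N s r : ℂ)) (c r * (xs N s r : ℂ))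
    simpa using this
  have h4 : xs N s r ^ 2 ≤ xs N s r := by
    rw [pow_two]
    calc xs N s r * xs N s r ≤ 1 * xs N s r :=
          mul_le_mul_of_nonneg_right (by linarith) hxpos.le
      _ = xs N s r := one_mul _
  linarith


section summable

variable {N : P → ℝ} (hN : ∀ r, 2 ≤ N r) (hsum : ∀ s : ℝ, 1 < s → Summable (xs N s))
  {c : P → ℂ} (hc : ∀ r, ‖c r‖ ≤ 1)

include hN hsum hc

lemma summable_logFactor {s : ℝ} (hs : 1 < s) : Summable (logFactor N c s) := by
  refine Summable.of_norm_bounded ((hsum s hs).mul_left 2) ?_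
  intro r
  exact norm_logFactor_le hN hc hs.le r

lemma hasSum_logEuler {s : ℝ} (hs : 1 < s) :
    HasSum (logFactor N c s) (logEuler N c s) :=
  (summable_logFactor hN hsum hc hs).hasSum

/-- The Euler product is the exponential of `logEuler`. -/
lemma hasProd_exp_logEuler {s : ℝ} (hs : 1 < s) :
    HasProd (fun r => (1 - c r * (xs N s r : ℂ))⁻¹) (Complex.exp (logEuler N c s)) := by
  have h := (hasSum_logEuler hN hsum hc hs).cexp
  have e : (Complex.exp ∘ logFactor N c s) = fun r => (1 - c r * (xs N s r : ℂ))⁻¹ := by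
    funext r
    simp only [Function.comp, logFactor]
    apply Complex.exp_log
    apply inv_ne_zero
    intro h0
    have hz := norm_z_lt_one hN hc hs.le r
    have : c r * (xs N s r : ℂ) = 1 := by linear_combination -h0
    rw [this, norm_one] at hz
    exact lt_irrefl _ hz
  rwa [e] at h

/-- Uniqueness: any value of the Euler product is `exp (logEuler)`. -/
lemma exp_logEuler_eq {s : ℝ} (hs : 1 < s) {L : ℂ}
    (hL : HasProd (fun r => (1 - c r * (xs N s r : ℂ))⁻¹) L) :
    Complex.exp (logEuler N c s) = L :=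
  (hasProd_exp_logEuler hN hsum hc hs).unique hL

/-- Continuity of the logarithm of the Euler product on `(1, ∞)`. -/
lemma continuousOn_logEuler : ContinuousOn (logEuler N c) (Set.Ioi 1) := by
  intro s hs
  have hs1 : (1 : ℝ) < s := hs
  -- work on the neighbourhood `Ioi s₀`, `s₀ = (1 + s) / 2`
  obtain ⟨s₀, hs₀1, hs₀s⟩ : ∃ s₀ : ℝ, 1 < s₀ ∧ s₀ < s := ⟨(1 + s) / 2, by linarith, by linarith⟩
  have hcont : ContinuousOn (logEuler N c) (Set.Ioi s₀) := by
    unfold logEuler
    refine continuousOn_tsum (u := fun r => 2 * xs N s₀ r) ?_ ((hsum s₀ hs₀1).mul_left 2) ?_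
    · intro r
      -- continuity of each factor
      have hx : ContinuousOn (fun t : ℝ => (xs N t r : ℂ)) (Set.Ioi s₀) := by
        apply Continuous.continuousOn
        unfold xs
        have hpos : 0 < N r := by linarith [hN r]
        exact Complex.continuous_ofReal.comp
          ((Real.continuous_const_rpow hpos.ne').comp continuous_neg)
      have hw : ContinuousOn (fun t : ℝ => (1 - c r * (xs N t r : ℂ))⁻¹) (Set.Ioi s₀) := by
        refine ContinuousOn.inv₀ (continuousOn_const.sub (continuousOn_const.mul hx)) ?_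
        intro t ht h0
        have ht1 : (1 : ℝ) ≤ t := le_of_lt (lt_trans hs₀1 ht)
        have hz := norm_z_lt_one hN hc ht1 r
        have : c r * (xs N t r : ℂ) = 1 := by linear_combination -h0
        rw [this, norm_one] at hz
        exact lt_irrefl _ hz
      refine ContinuousOn.clog hw ?_
      intro t ht
      have ht1 : (1 : ℝ) ≤ t := le_of_lt (lt_trans hs₀1 ht)
      have hz := norm_z_lt_one hN hc ht1 r
      -- `(1 - z)⁻¹` lies in the slit plane: its real part is positive
      have hre : 0 < (1 - c r * (xs N t r : ℂ)).re := by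
        have h1 : (c r * (xs N t r : ℂ)).re ≤ ‖c r * (xs N t r : ℂ)‖ := Complex.re_le_norm _
        rw [Complex.sub_re, Complex.one_re]
        linarith
      have hne : (1 - c r * (xs N t r : ℂ)) ≠ 0 := by
        intro h0
        rw [h0] at hre
        simp at hre
      rw [Complex.mem_slitPlane_iff]
      left
      rw [Complex.inv_re]
      exact div_pos hre (Complex.normSq_pos.mpr hne)
    · intro r t ht
      have ht1 : (1 : ℝ) ≤ t := le_of_lt (lt_trans hs₀1 ht)
      refine le_trans (norm_logFactor_le hN hc ht1 r) ?_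
      have := xs_anti hN (le_of_lt ht) r
      linarith
  exact (hcont.continuousAt (Ioi_mem_nhds hs₀s)).continuousWithinAt

end summable

end Fermat.Agent.Lib.Cheb.H221

end
-- ===== PACK-END Lib/Cheb/H221/LogEuler.lean

-- ===== PACK-BEGIN S56/Defs.lean
section








/-!
# Row S56 (Taylor–Wiles primes) — FROZEN definitions (row-lead helper956)

Everything here is sorry-free.  Pieces import THIS file and prove the `Prop`s of
`Fermat/Agent/S56/Spec.lean` verbatim.  Plan: `coord/S56.md` on `origin/helper956`.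

Conventions.  `k` is the residue field, `ρbar : ResidualGaloisRep k`, `V = ρbar.V`.
Cocycles are plain functions `c : G_ℚ → End_k V`:

* `Z1tw ρbar p`  — twisted trace-zero cocycles = `Z¹(G_ℚ, ad⁰ρ̄(1))`:
  `tr c(σ) = 0`,  `c(στ) = c(σ) + ε(σ) · ρ̄(σ) c(τ) ρ̄(σ)⁻¹`,  `c` factors through a finite level.
  The mod-`p` cyclotomic character is encoded by `IsCycExp p σ a` (`σ μ = μ ^ a` on `μ_p`).
* `B1tw ρbar p`  — the coboundaries `σ ↦ ε(σ) ρ̄(σ) m ρ̄(σ)⁻¹ − m`, `tr m = 0`.
* `LocTrivAt ρbar p q c` — `c` restricted to SOME decomposition group over `q` is a coboundary.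
* `IsTWPrime ρbar p S q` — `q ∉ S` prime, `q ≡ 1 mod p`, every Frobenius over `q` has distinct
  eigenvalues in `k`.
* `ordCond`, `flatCond` — the two deformation conditions of the frozen statement, as functions of
  the auxiliary set `Q`.
-/

set_option autoImplicit false

open Polynomial IsLocalRing

noncomputable section

namespace Fermat.Agent.S56

/-- `ℚ̄`. -/
abbrev Qb : Type := AlgebraicClosure ℚ

/-- `Gal(ℚ̄/ℚ)`. -/
abbrev GQ : Type := AlgebraicClosure ℚ ≃ₐ[ℚ] AlgebraicClosure ℚ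

/-- `a` is an exponent of the action of `σ` on the `p`-th roots of unity. -/
def IsCycExp (p : ℕ) (σ : GQ) (a : ℕ) : Prop :=
  ∀ μ : Qb, μ ^ p = 1 → σ μ = μ ^ a

section Cocycles

variable {k : Type} [Field k] (ρbar : ResidualGaloisRep k) (p : ℕ)

/-- The twisted adjoint action `m ↦ a · ρ̄(σ) m ρ̄(σ)⁻¹` (with `a` a cyclotomic exponent of `σ`). -/
def twAd (σ : GQ) (a : ℕ) (m : Module.End k ρbar.V) : Module.End k ρbar.V :=
  (a : k) • (ρbar.ρ σ * m * ρbar.ρ σ⁻¹)

/-- `c` is a twisted cocycle with values in trace-zero endomorphisms, of finite level. -/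
structure IsTwCocycle (c : GQ → Module.End k ρbar.V) : Prop where
  trace_eq_zero : ∀ σ, LinearMap.trace k ρbar.V (c σ) = 0
  map_mul : ∀ σ τ a, IsCycExp p σ a → c (σ * τ) = c σ + twAd ρbar σ a (c τ)
  level : ∃ L : IntermediateField ℚ Qb, FiniteDimensional ℚ L ∧
    ∀ σ τ : GQ, (∀ x ∈ L, τ x = x) → c (σ * τ) = c σ

/-- `c` is the twisted coboundary of the trace-zero endomorphism `m` on the subgroup `H`. -/
def IsTwCoboundaryOn (H : Subgroup GQ) (c : GQ → Module.End k ρbar.V)
    (m : Module.End k ρbar.V) : Prop :=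
  LinearMap.trace k ρbar.V m = 0 ∧ ∀ σ ∈ H, ∀ a, IsCycExp p σ a → c σ = twAd ρbar σ a m - m

/-- `c` is locally trivial at `q`: on some decomposition group over `q` it is a coboundary. -/
def LocTrivAt (q : ℕ) (c : GQ → Module.End k ρbar.V) : Prop :=
  ∃ P : ValuationSubring Qb, P.LiesOverPrime q ∧
    ∃ m, IsTwCoboundaryOn ρbar p (P.decompositionSubgroup ℚ) c m

/-- `c` is a (global) twisted coboundary. -/
def IsTwCoboundary (c : GQ → Module.End k ρbar.V) : Prop :=
  ∃ m, IsTwCoboundaryOn ρbar p ⊤ c m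

/-- Taylor–Wiles primes (relative to `S`): `q ∉ S`, `q ≡ 1 mod p`, and every Frobenius element
over `q` has distinct eigenvalues in `k`. -/
def IsTWPrime (S : Finset ℕ) (q : ℕ) : Prop :=
  q.Prime ∧ q ∉ S ∧ p ∣ q - 1 ∧
    ∀ P : ValuationSubring Qb, P.LiesOverPrime q → ∀ φ : GQ, P.IsFrobeniusAt φ q →
      ∃ α β : k, α ≠ β ∧ LinearMap.charpoly (ρbar.ρ φ) = (X - C α) * (X - C β)

/-- A *dual Selmer frame*: a finite-dimensional `k`-space `D` of twisted cocycles which contains
no nonzero coboundary. -/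
structure IsDualFrame (D : Submodule k (GQ → Module.End k ρbar.V)) : Prop where
  isTwCocycle : ∀ c ∈ D, IsTwCocycle ρbar p c
  finite : Module.Finite k D
  inj : ∀ c ∈ D, IsTwCoboundary ρbar p c → c = 0

/-- The set `Q` kills the frame `D`: no nonzero `c ∈ D` is locally trivial at all `q ∈ Q`. -/
def Kills (D : Submodule k (GQ → Module.End k ρbar.V)) (Q : Finset ℕ) : Prop :=
  ∀ c ∈ D, (∀ q ∈ Q, LocTrivAt ρbar p q c) → c = 0

end Cocycles

section Conditions

/-- The type of deformation conditions. -/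
abbrev DefCond (𝒪 : Type) [CommRing 𝒪] : Type 1 :=
  ∀ ⦃A : Type⦄ [CommRing A] [IsLocalRing A] [Algebra 𝒪 A], GaloisRepAdic A → Prop

/-- The strict-ordinary condition of the frozen statement, with auxiliary set `Q`. -/
def ordCond (𝒪 : Type) [CommRing 𝒪] (p : ℕ) (Smin Q : Finset ℕ) : DefCond 𝒪 :=
  fun _A _ _ _ ρ =>
    GaloisRep.strictOrdinaryCondition 𝒪 p (Smin ∪ Q) ρ ∧
      ∀ q ∈ Smin, q.Prime → q ≠ p → ρ.IsUnipotentOnInertiaAt q

/-- The flat condition of the frozen statement, with auxiliary set `Q`. -/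
def flatCond (𝒪 : Type) [CommRing 𝒪] (p : ℕ) (Smin Q : Finset ℕ) : DefCond 𝒪 :=
  fun _A _ _ _ ρ =>
    GaloisRep.flatCondition 𝒪 p (Smin ∪ Q) ρ ∧
      ∀ q ∈ Smin, q.Prime → q ≠ p → ρ.IsUnipotentOnInertiaAt q

variable (𝒪 : Type) [CommRing 𝒪] [IsLocalRing 𝒪]

/-- The `𝒪`-algebra structure on the dual numbers `k[ε]` over the residue field (the one of the
Prelude's `TangentFinite` and of `Fermat.Agent.S53.dualAlgebra`). -/
@[reducible] noncomputable def tanAlgebra : Algebra 𝒪 (DualNumber (ResidueField 𝒪)) :=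
  ((algebraMap (ResidueField 𝒪) (DualNumber (ResidueField 𝒪))).comp
    (algebraMap 𝒪 (ResidueField 𝒪))).toAlgebra

/-- The tangent vectors of an `𝒪`-algebra `R`: `𝒪`-algebra homomorphisms `R → k[ε]`. -/
abbrev TanHom (R : Type) [CommRing R] [Algebra 𝒪 R] : Type :=
  @AlgHom 𝒪 R (DualNumber (ResidueField 𝒪)) _ _ _ _ (tanAlgebra 𝒪)

end Conditions

end Fermat.Agent.S56

end

end
-- ===== PACK-END S56/Defs.lean

-- ===== PACK-BEGIN S55/H413/WRPow.lean
section


/-!
# S55, leaf WR, part 3b: `1 + p^m ℤ_p ⊆ (ℤ_pˣ)^{φ(p^m)}` for odd `p`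

Every `p`-adic unit which is `≡ 1 mod p ^ m` is a `φ(p ^ m)`-th power (`p` odd, `m ≥ 1`).
Proof: it is a `φ(p^m)`-th power modulo `p ^ (2 m)` because `(ℤ/p^{2m})ˣ` is cyclic, and then
Hensel's lemma applies.
-/

set_option autoImplicit false

namespace Fermat.Agent.S55.H413

open Polynomial

/-- In a finite cyclic group `C` with a surjection `f` onto a group of order `N`, every element
of the kernel of `f` is an `N`-th power. -/
theorem exists_pow_eq_of_mem_ker_of_isCyclic {C D : Type*} [Group C] [Group D] [Finite C]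
    [IsCyclic C] (f : C →* D) (hf : Function.Surjective f) (x : C) (hx : x ∈ f.ker) :
    ∃ y : C, y ^ Nat.card D = x := by
  classical
  set N := Nat.card D with hN
  set k := Nat.card f.ker with hk
  have hcard : k * N = Nat.card C := by
    have h1 := Subgroup.card_mul_index f.ker
    rw [Subgroup.index_ker, MonoidHom.range_eq_top.mpr hf] at h1
    have h2 : Nat.card (⊤ : Subgroup D) = Nat.card D := Subgroup.card_top
    rw [h2] at h1
    exact h1
  have hkpos : 0 < k := Nat.card_pos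
  have hxk : x ^ k = 1 := by
    have h1 : (⟨x, hx⟩ : f.ker) ^ k = 1 := pow_card_eq_one' (G := f.ker) (x := ⟨x, hx⟩)
    have h2 := congrArg (Subtype.val) h1
    rwa [Subgroup.coe_pow, Subgroup.coe_one] at h2
  obtain ⟨g, hg⟩ := IsCyclic.exists_generator (α := C)
  obtain ⟨j, hj⟩ := Subgroup.mem_zpowers_iff.mp (hg x)
  have hord : orderOf g = Nat.card C := orderOf_eq_card_of_forall_mem_zpowers hg
  have h1 : g ^ (j * (k : ℤ)) = 1 := by
    rw [zpow_mul, hj, zpow_natCast, hxk]
  have h2 : ((orderOf g : ℕ) : ℤ) ∣ j * (k : ℤ) := orderOf_dvd_iff_zpow_eq_one.mpr h1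
  rw [hord, ← hcard] at h2
  have h3 : (N : ℤ) ∣ j := by
    have h4 : (N : ℤ) * (k : ℤ) ∣ j * (k : ℤ) := by
      have : ((k * N : ℕ) : ℤ) = (N : ℤ) * (k : ℤ) := by push_cast; ring
      rwa [this] at h2
    exact Int.dvd_of_mul_dvd_mul_right (by exact_mod_cast hkpos.ne') h4
  obtain ⟨t, ht⟩ := h3
  refine ⟨g ^ t, ?_⟩
  rw [← zpow_natCast, ← zpow_mul, mul_comm, ← ht, hj]

variable (p : ℕ) [hp : Fact p.Prime]

lemma toZModPow_comp_castHom (m n : ℕ) (h : m ≤ n) (x : ℤ_[p]) :
    ZMod.castHom (pow_dvd_pow p h) (ZMod (p ^ m)) (PadicInt.toZModPow n x) =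
      PadicInt.toZModPow m x := by
  have := PadicInt.zmod_cast_comp_toZModPow (p := p) m n h
  exact congrArg (fun f => f x) this

/-- Every `p`-adic unit `≡ 1 mod p ^ m` is a `φ(p ^ m)`-th power (`p` odd, `m ≥ 1`). -/
theorem exists_pow_totient_eq (hp2 : p ≠ 2) (m : ℕ) (hm : 0 < m) (u : ℤ_[p]ˣ)
    (hu : PadicInt.toZModPow m (u : ℤ_[p]) = 1) :
    ∃ w : ℤ_[p]ˣ, w ^ (p ^ m).totient = u := by
  classical
  set N := (p ^ m).totient with hN
  have hNpos : 0 < N := Nat.totient_pos.mpr (pow_pos hp.out.pos m)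
  have hNlt : N < p ^ m := Nat.totient_lt _ (Nat.one_lt_pow hm.ne' hp.out.one_lt)
  have : IsCyclic (ZMod (p ^ (2 * m)))ˣ := ZMod.isCyclic_units_of_prime_pow p hp.out hp2 (2 * m)
  have : NeZero (p ^ m) := ⟨(pow_pos hp.out.pos m).ne'⟩
  have : NeZero (p ^ (2 * m)) := ⟨(pow_pos hp.out.pos _).ne'⟩
  have hdvd : p ^ m ∣ p ^ (2 * m) := pow_dvd_pow p (by omega)
  -- the image of `u` modulo `p ^ (2 m)`
  set ubar : (ZMod (p ^ (2 * m)))ˣ :=
    Units.map (PadicInt.toZModPow (2 * m) : ℤ_[p] →+* ZMod (p ^ (2 * m))).toMonoidHom u with hubar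
  have hker : ubar ∈ (ZMod.unitsMap hdvd).ker := by
    rw [MonoidHom.mem_ker]
    apply Units.ext
    simp only [ZMod.unitsMap, Units.coe_map, Units.val_one, hubar, MonoidHom.coe_coe,
      RingHom.toMonoidHom_eq_coe]
    rw [toZModPow_comp_castHom p m (2 * m) (by omega), hu]
  obtain ⟨y, hy⟩ := exists_pow_eq_of_mem_ker_of_isCyclic (ZMod.unitsMap hdvd)
    (ZMod.unitsMap_surjective hdvd) ubar hker
  have hcardD : Nat.card (ZMod (p ^ m))ˣ = N := by
    rw [Nat.card_eq_fintype_card, ZMod.card_units_eq_totient]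
  rw [hcardD] at hy
  -- a lift of `y`
  set a : ℤ_[p] := ((y : ZMod (p ^ (2 * m))).val : ℤ_[p]) with ha
  have hay : PadicInt.toZModPow (2 * m) a = (y : ZMod (p ^ (2 * m))) := by
    rw [ha, _root_.map_natCast, ZMod.natCast_zmod_val]
  have hFa : ‖a ^ N - (u : ℤ_[p])‖ ≤ (p : ℝ) ^ (-((2 * m : ℕ) : ℤ)) := by
    rw [PadicInt.norm_le_pow_iff_mem_span_pow, ← PadicInt.ker_toZModPow, RingHom.mem_ker,
      _root_.map_sub, _root_.map_pow, hay]
    have : ((y ^ N : (ZMod (p ^ (2 * m)))ˣ) : ZMod (p ^ (2 * m))) = (ubar : ZMod (p ^ (2 * m))) := by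
      rw [hy]
    rw [Units.val_pow_eq_pow_val] at this
    rw [this, hubar]
    simp
  have hp1 : (1 : ℝ) < p := by exact_mod_cast hp.out.one_lt
  have hp0 : (0 : ℝ) < p := by linarith
  have hsmall : (p : ℝ) ^ (-((2 * m : ℕ) : ℤ)) < 1 := by
    apply zpow_lt_one_of_neg₀ hp1
    have : (0 : ℤ) < ((2 * m : ℕ) : ℤ) := by exact_mod_cast (by omega : 0 < 2 * m)
    omega
  have hnu : ‖(u : ℤ_[p])‖ = 1 := PadicInt.norm_units u
  have haN : ‖a ^ N‖ = 1 := by
    refine le_antisymm (PadicInt.norm_le_one _) ?_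
    by_contra hlt
    rw [not_le] at hlt
    have h1 : ‖(u : ℤ_[p])‖ ≤ max ‖a ^ N‖ ‖a ^ N - (u : ℤ_[p])‖ := by
      have := PadicInt.nonarchimedean (a ^ N) (-(a ^ N - (u : ℤ_[p])))
      rw [norm_neg] at this
      have e : a ^ N + -(a ^ N - (u : ℤ_[p])) = u := by ring
      rwa [e] at this
    have h2 : max ‖a ^ N‖ ‖a ^ N - (u : ℤ_[p])‖ < 1 := max_lt hlt (lt_of_le_of_lt hFa hsmall)
    rw [hnu] at h1
    exact absurd h1 (not_le.mpr h2)
  have ha1 : ‖a‖ = 1 := by
    rw [norm_pow] at haN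
    exact (pow_eq_one_iff_of_nonneg (norm_nonneg a) hNpos.ne').mp haN
  -- the norm of `N`
  have hNnorm : (p : ℝ) ^ (-(m : ℤ)) < ‖(N : ℤ_[p])‖ := by
    by_contra hle
    rw [not_lt] at hle
    rw [PadicInt.norm_le_pow_iff_mem_span_pow, Ideal.mem_span_singleton] at hle
    have h1 : ((p : ℤ_[p]) ^ m) ∣ ((N : ℤ) : ℤ_[p]) := by simpa using hle
    rw [PadicInt.pow_p_dvd_int_iff] at h1
    have h2 : p ^ m ∣ N := by exact_mod_cast h1
    exact absurd (Nat.le_of_dvd hNpos h2) (not_le.mpr hNlt)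
  -- Hensel
  set F : ℤ_[p][X] := X ^ N - C (u : ℤ_[p]) with hF
  have hFeval : aeval a F = a ^ N - (u : ℤ_[p]) := by simp [hF]
  have hF'eval : aeval a (derivative F) = (N : ℤ_[p]) * a ^ (N - 1) := by
    simp [hF, derivative_X_pow]
  have hF'norm : ‖aeval a (derivative F)‖ = ‖(N : ℤ_[p])‖ := by
    rw [hF'eval, norm_mul, norm_pow, ha1, one_pow, mul_one]
  have hhens : ‖aeval a F‖ < ‖aeval a (derivative F)‖ ^ 2 := by
    rw [hFeval, hF'norm]
    calc ‖a ^ N - (u : ℤ_[p])‖ ≤ (p : ℝ) ^ (-((2 * m : ℕ) : ℤ)) := hFa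
      _ = ((p : ℝ) ^ (-(m : ℤ))) ^ 2 := by
          rw [← zpow_natCast ((p : ℝ) ^ (-(m : ℤ))) 2, ← zpow_mul]
          congr 1
          push_cast
          ring
      _ < ‖(N : ℤ_[p])‖ ^ 2 := by
          apply pow_lt_pow_left₀ hNnorm (zpow_nonneg hp0.le _) (by norm_num)
  obtain ⟨z, hz, -⟩ := hensels_lemma hhens
  have hzN : z ^ N = (u : ℤ_[p]) := by
    have : aeval z F = z ^ N - (u : ℤ_[p]) := by simp [hF]
    rw [this, sub_eq_zero] at hz
    exact hz
  have hzunit : IsUnit z := by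
    have : IsUnit (z ^ N) := by rw [hzN]; exact u.isUnit
    exact (isUnit_pow_iff hNpos.ne').mp this
  refine ⟨hzunit.unit, ?_⟩
  apply Units.ext
  rw [Units.val_pow_eq_pow_val, IsUnit.unit_spec, hzN]

end Fermat.Agent.S55.H413

end
-- ===== PACK-END S55/H413/WRPow.lean

-- ===== PACK-BEGIN S30/H990/Quad.lean
section
/-
S30 top glue (helper990): pure algebra, part 1.

* `lucas`           : `h² - a h + b = 0`  ⟹  `(h^j)² - t (h^j) + b^j = 0` for some scalar `t`.
* `anticomm_of_rel` : quadratic relations for `x`, `x y` with `y² = 1` and "determinants" `d`, `-d`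
                      give `x y + y x = a' + a y`.
* `Matrix` lemmas for `2 × 2` matrices satisfying a quadratic relation.
-/


set_option autoImplicit false

namespace Fermat.Agent.S30.H990

section Lucas

variable {R A : Type*} [CommRing R] [Ring A] [Algebra R A]

/-- If `h` satisfies `X² - aX + b`, then `h ^ j` satisfies `X² - tX + b ^ j` for some `t`. -/
theorem lucas (h : A) (a b : R) (hrel : h * h - a • h + b • (1 : A) = 0) (j : ℕ) :
    ∃ t : R, h ^ j * h ^ j - t • h ^ j + (b ^ j) • (1 : A) = 0 := by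
  -- the "conjugate" of `h`
  set k : A := a • (1 : A) - h with hk
  have hcomm : Commute h k := by
    have : Commute h (a • (1 : A)) := (Commute.one_right h).smul_right a
    exact this.sub_right (Commute.refl h)
  have hhk : h * k = b • (1 : A) := by
    have : h * k = a • h - h * h := by
      rw [hk, mul_sub, mul_smul_comm, mul_one]
    rw [this]
    calc a • h - h * h = b • (1 : A) - (h * h - a • h + b • (1 : A)) := by abel
      _ = b • (1 : A) := by rw [hrel, sub_zero]
  have hsum : h + k = a • (1 : A) := by rw [hk]; abel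
  -- power sums are scalars
  have key : ∀ n : ℕ, (∃ t : R, h ^ n + k ^ n = t • (1 : A)) ∧
      (∃ t : R, h ^ (n + 1) + k ^ (n + 1) = t • (1 : A)) := by
    intro n
    induction n with
    | zero =>
      refine ⟨⟨2, ?_⟩, ⟨a, ?_⟩⟩
      · rw [pow_zero, pow_zero, two_smul]
      · rw [zero_add, pow_one, pow_one, hsum]
    | succ n ih =>
      obtain ⟨⟨t0, h0⟩, ⟨t1, h1⟩⟩ := ih
      refine ⟨⟨t1, h1⟩, ⟨a * t1 - b * t0, ?_⟩⟩
      have e1 : h ^ (n + 1 + 1) + k ^ (n + 1 + 1)
          = (h + k) * (h ^ (n + 1) + k ^ (n + 1)) - (h * k) * (h ^ n + k ^ n) := by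
        have c1 : k * h ^ (n + 1) = (h * k) * h ^ n := by
          rw [pow_succ', ← mul_assoc, hcomm.eq]
        have c2 : h * k ^ (n + 1) = (h * k) * k ^ n := by
          rw [pow_succ', ← mul_assoc]
        rw [add_mul, mul_add, mul_add, mul_add, c1, c2, pow_succ' h (n + 1), pow_succ' k (n + 1)]
        abel
      rw [e1, hsum, hhk, h1, h0]
      simp only [mul_smul_comm, mul_one, smul_smul, sub_smul]
      rw [mul_comm t1 a, mul_comm t0 b]
  obtain ⟨t, ht⟩ := (key j).1
  refine ⟨t, ?_⟩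
  have hprod : h ^ j * k ^ j = (b ^ j) • (1 : A) := by
    rw [← hcomm.mul_pow, hhk, smul_pow, one_pow]
  have : h ^ j * h ^ j - t • h ^ j + (b ^ j) • (1 : A) = h ^ j * (h ^ j + k ^ j - t • (1 : A)) := by
    rw [mul_sub, mul_add, hprod, mul_smul_comm, mul_one]
    abel
  rw [this, ht, sub_self, mul_zero]

end Lucas

section Anticomm

variable {R A : Type*} [CommRing R] [Ring A] [Algebra R A]

/-- The anticommutator identity. -/
theorem anticomm_of_rel (x y : A) (a a' : R) (d : Rˣ) (hy : y * y = 1)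
    (hx : x * x - a • x + (d : R) • (1 : A) = 0)
    (hxy : (x * y) * (x * y) - a' • (x * y) + (-(d : R)) • (1 : A) = 0) :
    x * y + y * x = a' • (1 : A) + a • y := by
  -- `x y x = a' x + d y`
  have h1 : x * y * x = a' • x + (d : R) • y := by
    have := congrArg (· * y) hxy
    simp only [zero_mul, add_mul, sub_mul, smul_mul_assoc, neg_smul, neg_mul, one_mul] at this
    have e : x * y * (x * y) * y = x * y * x := by
      rw [mul_assoc (x * y) (x * y) y, mul_assoc x y y, hy, mul_one]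
    have e' : x * y * y = x := by rw [mul_assoc, hy, mul_one]
    rw [e, e'] at this
    calc x * y * x = (x * y * x - a' • x + -((d : R) • y)) + (a' • x + (d : R) • y) := by abel
      _ = a' • x + (d : R) • y := by rw [this, zero_add]
  -- `(a - x) x = d`
  have h2 : (a • (1 : A) - x) * x = (d : R) • (1 : A) := by
    rw [sub_mul, smul_mul_assoc, one_mul]
    calc a • x - x * x = (d : R) • (1 : A) - (x * x - a • x + (d : R) • (1 : A)) := by abel
      _ = (d : R) • (1 : A) := by rw [hx, sub_zero]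
  have h3 : (d : R) • (y * x) = (d : R) • (a' • (1 : A) + a • y - x * y) := by
    have : (a • (1 : A) - x) * (x * y * x) = (d : R) • (y * x) := by
      rw [← mul_assoc, ← mul_assoc, h2, smul_mul_assoc, one_mul, smul_mul_assoc]
    rw [← this, h1, mul_add, mul_smul_comm, mul_smul_comm, h2, sub_mul, smul_mul_assoc, one_mul]
    simp only [smul_add, smul_sub, smul_smul]
    rw [mul_comm a' (d : R), mul_comm (d : R) a]
    abel
  have h4 : y * x = a' • (1 : A) + a • y - x * y := by
    have := congrArg (fun z => ((d⁻¹ : Rˣ) : R) • z) h3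
    simpa only [smul_smul, Units.inv_mul, one_smul] using this
  rw [h4]; abel

end Anticomm

end Fermat.Agent.S30.H990

namespace Fermat.Agent.S30.H990

section Mat2

open Matrix

variable {R : Type*} [CommRing R]

/-- Cayley–Hamilton for `2 × 2` matrices, by hand. -/
theorem mat2_cayley (X : Matrix (Fin 2) (Fin 2) R) :
    X * X - X.trace • X + X.det • (1 : Matrix (Fin 2) (Fin 2) R) = 0 := by
  ext i j
  fin_cases i <;> fin_cases j <;>
    simp [Matrix.mul_apply, Fin.sum_univ_two, Matrix.trace_fin_two, Matrix.det_fin_two] <;> ring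

variable [IsDomain R]

/-- A `2 × 2` matrix satisfying `X² - aX + d = 0` has trace `a` and determinant `d`,
or it is a scalar matrix. -/
theorem mat2_dichotomy (X : Matrix (Fin 2) (Fin 2) R) (a d : R)
    (h : X * X - a • X + d • (1 : Matrix (Fin 2) (Fin 2) R) = 0) :
    (X.trace = a ∧ X.det = d) ∨ ∃ l : R, X = l • (1 : Matrix (Fin 2) (Fin 2) R) := by
  have hc := mat2_cayley X
  have key : (X.trace - a) • X = (X.det - d) • (1 : Matrix (Fin 2) (Fin 2) R) := by
    have : (X.trace - a) • X - (X.det - d) • (1 : Matrix (Fin 2) (Fin 2) R)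
        = (X * X - a • X + d • (1 : Matrix (Fin 2) (Fin 2) R))
          - (X * X - X.trace • X + X.det • (1 : Matrix (Fin 2) (Fin 2) R)) := by
      simp only [sub_smul]; abel
    rw [h, hc, sub_zero] at this
    exact sub_eq_zero.mp this
  by_cases ht : X.trace = a
  · left
    refine ⟨ht, ?_⟩
    have h00 := congrFun (congrFun key 0) 0
    simp only [ht, sub_self, Matrix.smul_apply, Matrix.one_apply_eq,
      smul_eq_mul, _root_.mul_one, _root_.MulZeroClass.zero_mul] at h00
    exact (sub_eq_zero.mp h00.symm)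
  · right
    have hne : X.trace - a ≠ 0 := sub_ne_zero.mpr ht
    have h00 := congrFun (congrFun key 0) 0
    have h01 := congrFun (congrFun key 0) 1
    have h10 := congrFun (congrFun key 1) 0
    have h11 := congrFun (congrFun key 1) 1
    simp only [Matrix.smul_apply, smul_eq_mul, Matrix.one_apply_eq, _root_.mul_one] at h00 h11
    simp only [Matrix.smul_apply, smul_eq_mul, ne_eq, zero_ne_one, not_false_eq_true,
      Matrix.one_apply_ne, _root_.MulZeroClass.mul_zero, mul_eq_zero, hne, false_or] at h01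
    simp only [Matrix.smul_apply, smul_eq_mul, ne_eq, one_ne_zero, not_false_eq_true,
      Matrix.one_apply_ne, _root_.MulZeroClass.mul_zero, mul_eq_zero, hne, false_or] at h10
    have hd : X 0 0 = X 1 1 := mul_left_cancel₀ hne (h00.trans h11.symm)
    refine ⟨X 0 0, ?_⟩
    ext i j
    fin_cases i <;> fin_cases j <;> simp [h01, h10, hd]

/-- If `l • C` is scalar with `l ≠ 0`, then `C` is scalar. -/
theorem mat2_scalar_of_smul_scalar (C : Matrix (Fin 2) (Fin 2) R) (l m : R) (hl : l ≠ 0)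
    (h : l • C = m • (1 : Matrix (Fin 2) (Fin 2) R)) :
    ∃ n : R, C = n • (1 : Matrix (Fin 2) (Fin 2) R) := by
  have h00 := congrFun (congrFun h 0) 0
  have h01 := congrFun (congrFun h 0) 1
  have h10 := congrFun (congrFun h 1) 0
  have h11 := congrFun (congrFun h 1) 1
  simp only [Matrix.smul_apply, smul_eq_mul, Matrix.one_apply_eq, _root_.mul_one] at h00 h11
  simp only [Matrix.smul_apply, smul_eq_mul, ne_eq, zero_ne_one, not_false_eq_true,
    Matrix.one_apply_ne, _root_.MulZeroClass.mul_zero, mul_eq_zero, hl, false_or] at h01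
  simp only [Matrix.smul_apply, smul_eq_mul, ne_eq, one_ne_zero, not_false_eq_true,
    Matrix.one_apply_ne, _root_.MulZeroClass.mul_zero, mul_eq_zero, hl, false_or] at h10
  have hd : C 0 0 = C 1 1 := mul_left_cancel₀ hl (h00.trans h11.symm)
  refine ⟨C 0 0, ?_⟩
  ext i j
  fin_cases i <;> fin_cases j <;> simp [h01, h10, hd]

/-- Trace and determinant of a two-dimensional matrix representation all of whose elements
satisfy quadratic relations with multiplicative constant term, in the presence of a non-scalar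
element `c` with `d c = -1`. -/
theorem mat2_trace_det_of_rel {G : Type*} [Group G] (A : G →* Matrix (Fin 2) (Fin 2) R)
    (d : G →* Rˣ)
    (hrel : ∀ g, ∃ a : R, A g * A g - a • A g + ((d g : Rˣ) : R) • 1 = 0)
    (c : G) (hdc : d c = -1) (hcns : ¬ ∃ l : R, A c = l • (1 : Matrix (Fin 2) (Fin 2) R))
    (g : G) (a : R) (hg : A g * A g - a • A g + ((d g : Rˣ) : R) • 1 = 0) :
    (A g).trace = a ∧ (A g).det = ((d g : Rˣ) : R) := by
  rcases mat2_dichotomy (A g) a _ hg with h | ⟨l, hl⟩
  · exact h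
  -- scalar case
  have hdetc : (A c).det = -1 := by
    obtain ⟨ac, hac⟩ := hrel c
    rcases mat2_dichotomy (A c) ac _ hac with h | h
    · rw [h.2, hdc]; simp
    · exact absurd h hcns
  have hl0 : l ≠ 0 := by
    intro h0
    have h1 : A g * A g⁻¹ = 1 := by rw [← _root_.map_mul, mul_inv_cancel, _root_.map_one]
    rw [hl, h0, zero_smul, _root_.MulZeroClass.zero_mul] at h1
    exact zero_ne_one h1
  have hgc : A (g * c) = l • A c := by rw [_root_.map_mul, hl, smul_mul_assoc, _root_.one_mul]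
  obtain ⟨a', ha'⟩ := hrel (g * c)
  have hdetgc : (A (g * c)).det = -((d g : Rˣ) : R) := by
    rcases mat2_dichotomy (A (g * c)) a' _ ha' with h | ⟨m, hm⟩
    · rw [h.2, _root_.map_mul, hdc]; simp
    · rw [hgc] at hm
      exact absurd (mat2_scalar_of_smul_scalar (A c) l m hl0 hm) hcns
  have hd : ((d g : Rˣ) : R) = l ^ 2 := by
    rw [hgc, Matrix.det_smul, hdetc, Fintype.card_fin] at hdetgc
    linear_combination hdetgc
  have ha : a = 2 * l := by
    have h00 := congrFun (congrFun hg 0) 0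
    rw [hl, hd] at h00
    simp only [Matrix.add_apply, Matrix.sub_apply, Matrix.mul_apply, Fin.sum_univ_two,
      Matrix.smul_apply, Matrix.one_apply_eq, smul_eq_mul, _root_.mul_one, Matrix.zero_apply, ne_eq,
      zero_ne_one, not_false_eq_true, Matrix.one_apply_ne, _root_.MulZeroClass.mul_zero, add_zero] at h00
    have : l * (2 * l - a) = 0 := by linear_combination h00
    rcases mul_eq_zero.mp this with h | h
    · exact absurd h hl0
    · exact (sub_eq_zero.mp h).symm
  constructor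
  · rw [hl, Matrix.trace_fin_two]; simp [ha]; ring
  · rw [hl, hd, Matrix.det_fin_two]; simp; ring

end Mat2

end Fermat.Agent.S30.H990

end
-- ===== PACK-END S30/H990/Quad.lean

-- ===== PACK-BEGIN Lib/Ribet/H223/BLRCore.lean
section


/-!
# Boston–Lenstra–Ribet: quotients of group rings arising from two-dimensional representations
(helper223, row RIBET, piece P2 = (R1))

Let `k` be a field with `2 ≠ 0`, `G` a group, `ρ : G →* E` with `k[G] → E` surjective
(`E = M₂(k)`: `ρ` absolutely irreducible), `τ : E → k` a linear "trace", `d : G →* k` a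
"determinant" with `ρ g ^ 2 - τ (ρ g) ρ g + d g = 0`.  If `π : G →* B` satisfies the same quadratic
relations `π g ^ 2 - τ (ρ g) π g + d g = 0`, then `π` factors through `ρ`: there is an algebra
homomorphism `Ψ : E →ₐ[k] B` with `Ψ (ρ g) = π g`.
-/

set_option autoImplicit false

namespace Fermat.Agent.Lib.Ribet.H223

section abstract

variable {k : Type*} [Field k] {A E B : Type*} [Ring A] [Algebra k A] [Ring E] [Algebra k E]
  [Ring B] [Algebra k B]

/-- **Abstract core.**  `A` carries an anti-multiplicative map `σ` which both `P` and `Q` turn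
into `u ↦ T u - u`, the "trace" `T` factors through `P`, and `E` has two elements whose
commutator squares to `1`.  Then `ker P ⊆ ker Q`. -/
theorem ker_le_ker_of_antiInvolution (hk2 : (2 : k) ≠ 0) (P : A →ₐ[k] E) (Q : A →ₐ[k] B)
    (T : A → k) (σ : A → A) (hσmul : ∀ u v, σ (u * v) = σ v * σ u)
    (hσQ : ∀ u, Q (σ u) = algebraMap k B (T u) - Q u)
    (hT : ∀ u, P u = 0 → T u = 0) (hsurj : Function.Surjective P)
    (hcomm : ∃ y z : E, (y * z - z * y) * (y * z - z * y) = 1) :
    ∀ u, P u = 0 → Q u = 0 := by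
  -- Step 1
  have step1 : ∀ u, P u = 0 → ∀ v, Q u * Q v = Q (σ v) * Q u := by
    intro u hu v
    have huv : P (u * v) = 0 := by rw [map_mul, hu, zero_mul]
    have h1 : Q (σ (u * v)) = - (Q u * Q v) := by
      rw [hσQ, hT _ huv, map_zero, zero_sub, map_mul]
    have h2 : Q (σ (u * v)) = - (Q (σ v) * Q u) := by
      rw [hσmul, map_mul, hσQ u, hT u hu, map_zero, zero_sub, mul_neg]
    exact neg_injective (h1.symm.trans h2)
  -- Step 2
  have step2 : ∀ u, P u = 0 → ∀ v w, Q u * Q (v * w - w * v) = 0 := by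
    intro u hu v w
    have h1 : Q u * Q (v * w) = Q u * Q w * Q v := by
      rw [step1 u hu (v * w), hσmul, map_mul, mul_assoc, ← step1 u hu v, ← mul_assoc,
        ← step1 u hu w]
    have h2 : Q u * Q (w * v) = Q u * Q w * Q v := by rw [map_mul, mul_assoc]
    rw [map_sub, mul_sub, h1, h2, sub_self]
  obtain ⟨y, z, hyz⟩ := hcomm
  obtain ⟨v, rfl⟩ := hsurj y
  obtain ⟨w, rfl⟩ := hsurj z
  set c : A := (v * w - w * v) * (v * w - w * v) with hc
  have hPc : P c = 1 := by
    rw [hc, map_mul, map_sub, map_mul, map_mul]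
    exact hyz
  have hκ : P (c - 1) = 0 := by rw [map_sub, hPc, map_one, sub_self]
  have huc : ∀ u, P u = 0 → Q u * Q c = 0 := by
    intro u hu
    rw [hc, map_mul, ← mul_assoc, step2 u hu v w, zero_mul]
  -- `Q κ = 0`
  have h3 : Q (c - 1) * Q (c - 1) = - (Q (c - 1) * Q (c - 1)) := by
    have := step1 (c - 1) hκ (c - 1)
    rw [hσQ, hT _ hκ, map_zero, zero_sub, neg_mul] at this
    exact this
  have h4 : Q (c - 1) * Q (c - 1) = 0 := by
    have h5 : (2 : k) • (Q (c - 1) * Q (c - 1)) = 0 := by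
      rw [two_smul]
      nth_rewrite 1 [h3]
      exact neg_add_cancel _
    exact (smul_eq_zero.mp h5).resolve_left hk2
  have h6 : Q (c - 1) = 0 := by
    have h7 := huc (c - 1) hκ
    have h8 : Q c = Q (c - 1) + 1 := by rw [map_sub, map_one, sub_add_cancel]
    rw [h8, mul_add, h4, zero_add, mul_one] at h7
    exact h7
  have hQc : Q c = 1 := by
    have h8 : Q c = Q (c - 1) + 1 := by rw [map_sub, map_one, sub_add_cancel]
    rw [h8, h6, zero_add]
  intro u hu
  have := huc u hu
  rwa [hQc, mul_one] at this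

/-- A surjective algebra homomorphism `P` and an algebra homomorphism `Q` with
`ker P ⊆ ker Q` give an algebra homomorphism `E →ₐ[k] B`. -/
noncomputable def liftOfKerLe (P : A →ₐ[k] E) (Q : A →ₐ[k] B) (hsurj : Function.Surjective P)
    (hker : ∀ u, P u = 0 → Q u = 0) : E →ₐ[k] B :=
  have key : ∀ u v, P u = P v → Q u = Q v := fun u v h => by
    have := hker (u - v) (by rw [map_sub, h, sub_self])
    rwa [map_sub, sub_eq_zero] at this
  { toFun := fun e => Q (Function.surjInv hsurj e)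
    map_one' := by
      rw [← map_one Q]
      exact key _ _ (by rw [Function.surjInv_eq hsurj, map_one])
    map_mul' := fun x y => by
      rw [← map_mul Q]
      exact key _ _ (by rw [map_mul, Function.surjInv_eq hsurj, Function.surjInv_eq hsurj,
        Function.surjInv_eq hsurj])
    map_zero' := by
      rw [← map_zero Q]
      exact key _ _ (by rw [Function.surjInv_eq hsurj, map_zero])
    map_add' := fun x y => by
      rw [← map_add Q]
      exact key _ _ (by rw [map_add, Function.surjInv_eq hsurj, Function.surjInv_eq hsurj,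
        Function.surjInv_eq hsurj])
    commutes' := fun r => by
      rw [← AlgHom.commutes Q r]
      exact key _ _ (by rw [Function.surjInv_eq hsurj, AlgHom.commutes]) }

theorem liftOfKerLe_apply (P : A →ₐ[k] E) (Q : A →ₐ[k] B) (hsurj : Function.Surjective P)
    (hker : ∀ u, P u = 0 → Q u = 0) (u : A) : liftOfKerLe P Q hsurj hker (P u) = Q u := by
  have := hker (Function.surjInv hsurj (P u) - u)
    (by rw [map_sub, Function.surjInv_eq hsurj, sub_self])
  rw [map_sub, sub_eq_zero] at this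
  exact this

end abstract

section groupRing

variable {k : Type*} [Field k] {G : Type*} [Group G] {E B : Type*} [Ring E] [Algebra k E]
  [Ring B] [Algebra k B]

/-- `g ↦ d(g) g⁻¹`, as a monoid homomorphism into the opposite of the group algebra. -/
noncomputable def conjHom (d : G →* k) : G →* (MonoidAlgebra k G)ᵐᵒᵖ where
  toFun g := MulOpposite.op (MonoidAlgebra.single g⁻¹ (d g))
  map_one' := by
    rw [inv_one, map_one]
    rfl
  map_mul' g h := by
    rw [← MulOpposite.op_mul, MonoidAlgebra.single_mul_single, mul_inv_rev, map_mul, mul_comm]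

/-- The anti-involution `∑ a_g g ↦ ∑ a_g d(g) g⁻¹` of `k[G]`. -/
noncomputable def conj (d : G →* k) (u : MonoidAlgebra k G) : MonoidAlgebra k G :=
  MulOpposite.unop (MonoidAlgebra.lift k (MonoidAlgebra k G)ᵐᵒᵖ G (conjHom d) u)

theorem conj_mul (d : G →* k) (u v : MonoidAlgebra k G) :
    conj d (u * v) = conj d v * conj d u := by
  unfold conj
  rw [map_mul, MulOpposite.unop_mul]

theorem conj_add (d : G →* k) (u v : MonoidAlgebra k G) :
    conj d (u + v) = conj d u + conj d v := by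
  unfold conj
  rw [map_add, MulOpposite.unop_add]

theorem conj_smul (d : G →* k) (r : k) (u : MonoidAlgebra k G) :
    conj d (r • u) = r • conj d u := by
  unfold conj
  rw [map_smul, MulOpposite.unop_smul]

theorem conj_of (d : G →* k) (g : G) :
    conj d (MonoidAlgebra.of k G g) = MonoidAlgebra.single g⁻¹ (d g) := by
  unfold conj
  rw [MonoidAlgebra.lift_of]
  rfl

/-- `Q ∘ conj = T - Q` when the quadratic relations hold. -/
theorem lift_conj (π : G →* B) (d : G →* k) (t : G → k)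
    (hπ : ∀ g, π g * π g - t g • π g + d g • 1 = 0)
    (T : MonoidAlgebra k G →ₗ[k] k) (hT : ∀ g, T (MonoidAlgebra.of k G g) = t g)
    (u : MonoidAlgebra k G) :
    MonoidAlgebra.lift k B G π (conj d u) =
      algebraMap k B (T u) - MonoidAlgebra.lift k B G π u := by
  induction u using MonoidAlgebra.induction_on with
  | of g =>
    rw [conj_of, MonoidAlgebra.lift_single, MonoidAlgebra.lift_of, hT, Algebra.algebraMap_eq_smul_one]
    have h1 := hπ g
    have h2 : (π g * π g - t g • π g + d g • 1) * π g⁻¹ = 0 := by rw [h1, zero_mul]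
    have h3 : π g * π g⁻¹ = 1 := by rw [← map_mul, mul_inv_cancel, map_one]
    rw [add_mul, sub_mul, mul_assoc, h3, mul_one, smul_mul_assoc, h3, smul_mul_assoc,
      one_mul] at h2
    rw [← sub_eq_zero, ← h2]
    abel
  | add x y hx hy =>
    simp only [conj_add, map_add, hx, hy]
    abel
  | smul r x hx =>
    simp only [conj_smul, map_smul, hx, smul_sub, smul_eq_mul, map_mul]
    rw [Algebra.smul_def]

/-- **Boston–Lenstra–Ribet**, kernel form. -/
theorem blr_ker (hk2 : (2 : k) ≠ 0) (ρ : G →* E) (π : G →* B) (d : G →* k) (τ : E →ₗ[k] k)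
    (hπ : ∀ g, π g * π g - τ (ρ g) • π g + d g • 1 = 0)
    (hsurj : Function.Surjective (MonoidAlgebra.lift k E G ρ))
    (hcomm : ∃ y z : E, (y * z - z * y) * (y * z - z * y) = 1) :
    ∀ u, MonoidAlgebra.lift k E G ρ u = 0 → MonoidAlgebra.lift k B G π u = 0 := by
  have hT : ∀ g, (τ ∘ₗ (MonoidAlgebra.lift k E G ρ).toLinearMap) (MonoidAlgebra.of k G g) =
      τ (ρ g) := by
    intro g
    rw [LinearMap.comp_apply, AlgHom.toLinearMap_apply, MonoidAlgebra.lift_of]
  refine ker_le_ker_of_antiInvolution hk2 (MonoidAlgebra.lift k E G ρ)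
    (MonoidAlgebra.lift k B G π)
    (fun u => (τ ∘ₗ (MonoidAlgebra.lift k E G ρ).toLinearMap) u) (conj d) (_root_.Fermat.Agent.Lib.Ribet.H223.conj_mul d)
    ?_ ?_ hsurj hcomm
  · intro u
    exact lift_conj π d (fun g => τ (ρ g)) hπ _ hT u
  · intro u hu
    rw [LinearMap.comp_apply, AlgHom.toLinearMap_apply, hu, map_zero]

/-- **Boston–Lenstra–Ribet**: `π` factors through `ρ`. -/
theorem blr_exists_algHom (hk2 : (2 : k) ≠ 0) (ρ : G →* E) (π : G →* B) (d : G →* k)
    (τ : E →ₗ[k] k) (hπ : ∀ g, π g * π g - τ (ρ g) • π g + d g • 1 = 0)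
    (hsurj : Function.Surjective (MonoidAlgebra.lift k E G ρ))
    (hcomm : ∃ y z : E, (y * z - z * y) * (y * z - z * y) = 1) :
    ∃ Ψ : E →ₐ[k] B, (∀ u, Ψ (MonoidAlgebra.lift k E G ρ u) = MonoidAlgebra.lift k B G π u) ∧
      ∀ g, Ψ (ρ g) = π g := by
  have hker := blr_ker hk2 ρ π d τ hπ hsurj hcomm
  refine ⟨liftOfKerLe _ _ hsurj hker, fun u => liftOfKerLe_apply _ _ hsurj hker u, fun g => ?_⟩
  have := liftOfKerLe_apply _ _ hsurj hker (MonoidAlgebra.of k G g)
  rwa [MonoidAlgebra.lift_of, MonoidAlgebra.lift_of] at this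

end groupRing

section endo

variable {k : Type*} [Field k] {G : Type*} [Group G] {W₀ V : Type*} [AddCommGroup W₀]
  [Module k W₀] [AddCommGroup V] [Module k V]

/-- In `M₂(k)` there are two elements whose commutator squares to `1`. -/
theorem exists_commutator_sq_eq_one_matrix :
    ∃ y z : Matrix (Fin 2) (Fin 2) k, (y * z - z * y) * (y * z - z * y) = 1 := by
  refine ⟨!![0, 1; 0, 0], !![0, 0; 1, 0], ?_⟩
  ext i j
  fin_cases i <;> fin_cases j <;> simp [Matrix.mul_apply, Fin.sum_univ_two]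

/-- In `End(W₀)`, `dim W₀ = 2`, there are two elements whose commutator squares to `1`. -/
theorem exists_commutator_sq_eq_one (h : Module.finrank k W₀ = 2) :
    ∃ y z : Module.End k W₀, (y * z - z * y) * (y * z - z * y) = 1 := by
  have : Module.Finite k W₀ := Module.finite_of_finrank_eq_succ h
  let b : Module.Basis (Fin 2) k W₀ := Module.finBasisOfFinrankEq k W₀ h
  let e := LinearMap.toMatrixAlgEquiv b
  obtain ⟨y, z, hyz⟩ := exists_commutator_sq_eq_one_matrix (k := k)
  refine ⟨e.symm y, e.symm z, ?_⟩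
  rw [← map_mul, ← map_mul, ← map_sub, ← map_mul, hyz, map_one]

/-- **Boston–Lenstra–Ribet**, embedding form: if every `g` satisfies on `V ≠ 0` the
characteristic polynomial of `ρ g` (`ρ` two-dimensional with `k[G] → End W₀` surjective), then
`ρ` embeds into `V`. -/
theorem blr_exists_embedding (hk2 : (2 : k) ≠ 0) (h2 : Module.finrank k W₀ = 2)
    (ρ : G →* Module.End k W₀) (π : G →* Module.End k V) (d : G →* k)
    (hsurj : Function.Surjective (MonoidAlgebra.lift k (Module.End k W₀) G ρ))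
    (hπ : ∀ g, π g * π g - LinearMap.trace k W₀ (ρ g) • π g + d g • 1 = 0) [Nontrivial V] :
    ∃ φ : W₀ →ₗ[k] V, Function.Injective φ ∧ ∀ g w, φ (ρ g w) = π g (φ w) := by
  classical
  have hfin : Module.Finite k W₀ := Module.finite_of_finrank_eq_succ h2
  obtain ⟨Ψ, hΨ, hΨg⟩ := blr_exists_algHom hk2 ρ π d (LinearMap.trace k W₀) hπ hsurj
    (exists_commutator_sq_eq_one h2)
  let b : Module.Basis (Fin 2) k W₀ := Module.finBasisOfFinrankEq k W₀ h2
  -- `a i w` is the endomorphism `x ↦ (i-th coordinate of x) • w`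
  let a : Fin 2 → W₀ →ₗ[k] Module.End k W₀ := fun i =>
    { toFun := fun w => (b.coord i).smulRight w
      map_add' := fun w w' => by
        ext x
        simp only [LinearMap.smulRight_apply, LinearMap.add_apply, smul_add]
      map_smul' := fun r w => by
        ext x
        simp only [LinearMap.smulRight_apply, LinearMap.smul_apply, RingHom.id_apply]
        exact smul_comm _ _ _ }
  have ha_apply : ∀ i w x, a i w x = b.coord i x • w := fun i w x => rfl
  have hsum : a 0 (b 0) + a 1 (b 1) = 1 := by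
    apply b.ext
    intro j
    fin_cases j <;> simp [ha_apply]
  obtain ⟨v, hv⟩ := exists_ne (0 : V)
  have hex : ∃ i, Ψ (a i (b i)) v ≠ 0 := by
    by_contra hcon
    push Not at hcon
    apply hv
    have h1 : Ψ (a 0 (b 0) + a 1 (b 1)) v = v := by rw [hsum, map_one]; rfl
    rw [map_add, LinearMap.add_apply, hcon 0, hcon 1, add_zero] at h1
    exact h1.symm
  obtain ⟨i, hi⟩ := hex
  set v₁ := Ψ (a i (b i)) v with hv₁
  let φ : W₀ →ₗ[k] V :=
    { toFun := fun w => Ψ (a i w) v₁
      map_add' := fun w w' => by rw [map_add, map_add, LinearMap.add_apply]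
      map_smul' := fun r w => by
        rw [map_smul, map_smul, LinearMap.smul_apply, RingHom.id_apply] }
  have hφ : ∀ w, φ w = Ψ (a i w) v₁ := fun w => rfl
  have hidem : a i (b i) * a i (b i) = a i (b i) := by
    apply LinearMap.ext
    intro x
    simp [ha_apply]
  have hφb : φ (b i) = v₁ := by
    rw [hφ, hv₁, ← Module.End.mul_apply, ← map_mul, hidem]
  have hcomp : ∀ (f : Module.End k W₀) (w : W₀), a i (f w) = f * a i w := by
    intro f w
    apply LinearMap.ext
    intro x
    simp [ha_apply]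
  have hequiv : ∀ (f : Module.End k W₀) (w : W₀), φ (f w) = Ψ f (φ w) := by
    intro f w
    rw [hφ, hφ, hcomp, map_mul, Module.End.mul_apply]
  refine ⟨φ, ?_, fun g w => ?_⟩
  · rw [← LinearMap.ker_eq_bot, Submodule.eq_bot_iff]
    intro w hw
    by_contra hw0
    rw [LinearMap.mem_ker] at hw
    -- some coordinate of `w` is nonzero
    have hcoord : ∃ j, b.coord j w ≠ 0 := by
      by_contra hcon
      push Not at hcon
      apply hw0
      apply b.ext_elem
      intro j
      rw [map_zero, Finsupp.zero_apply]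
      exact hcon j
    obtain ⟨j, hj⟩ := hcoord
    have h1 : (a j ((b.coord j w)⁻¹ • b i)) w = b i := by
      rw [ha_apply, smul_smul, mul_inv_cancel₀ hj, one_smul]
    have h2 := hequiv (a j ((b.coord j w)⁻¹ • b i)) w
    rw [h1, hφb, hw, map_zero] at h2
    exact hi h2
  · rw [hequiv, hΨg]

end endo

end Fermat.Agent.Lib.Ribet.H223

end
-- ===== PACK-END Lib/Ribet/H223/BLRCore.lean

-- ===== PACK-BEGIN S21/Defs.lean
section


/-!
# S21 — common definitions for the Hodge (Dirichlet principle) part D'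
-/

set_option autoImplicit false

open UpperHalfPlane
open scoped MatrixGroups

namespace Fermat.Agent.S21

/-- The upper half plane as an open subset of `ℂ`. -/
def Uhp : Set ℂ := {z : ℂ | 0 < z.im}

theorem mem_Uhp {z : ℂ} : z ∈ Uhp ↔ 0 < z.im := Iff.rfl

theorem isOpen_Uhp : IsOpen Uhp := isOpen_lt continuous_const Complex.continuous_im

theorem coe_mem_Uhp (z : ℍ) : (z : ℂ) ∈ Uhp := z.im_pos

/-- `2 ∂/∂z = ∂_x - i ∂_y` of a real-valued function on `ℂ`. -/
noncomputable def dz (u : ℂ → ℝ) (z : ℂ) : ℂ :=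
  ((fderiv ℝ u z 1 : ℝ) : ℂ) - Complex.I * ((fderiv ℝ u z Complex.I : ℝ) : ℂ)

/-- The Möbius action of `SL(2,ℤ)` written on `ℂ` (junk value off the upper half plane). -/
noncomputable def mob (g : SL(2, ℤ)) (z : ℂ) : ℂ := ((g • ofComplex z : ℍ) : ℂ)

/-- The automorphy factor `c z + d`. -/
def cd (g : SL(2, ℤ)) (z : ℂ) : ℂ := ((g 1 0 : ℤ) : ℂ) * z + ((g 1 1 : ℤ) : ℂ)

/-- The compact cusp strip `{ |Re z| ≤ 1, 2 ≤ Im z ≤ Y }`. -/
def strip (Y : ℝ) : Set ℂ := {z : ℂ | |z.re| ≤ 1 ∧ 2 ≤ z.im ∧ z.im ≤ Y}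

end Fermat.Agent.S21

end
-- ===== PACK-END S21/Defs.lean

-- ===== PACK-BEGIN S24/Defs.lean
section


/-!
# S24 — shared interface definitions

`LocalData` packages, for a local parameter `t` of the rational subfield `K(t) ⊆ F`,
a full set of `K(t)`-embeddings of `F` into a Laurent series field together with the
"monodromy" permutation.  See `Fermat/Agent/S24/Alg.lean` (algebraic side) and
`Fermat/Agent/S24/Mod.lean` (modular side).
-/

set_option autoImplicit false

noncomputable section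

open AlgebraicCurve ModularCurve
open scoped MatrixGroups

namespace Fermat.Agent.S24

/-- Number of orbits (cycles, fixed points included) of a permutation. -/
def numOrbits {X : Type*} (π : Equiv.Perm X) : ℕ :=
  Nat.card (MulAction.orbitRel.Quotient (Subgroup.zpowers π) X)

/-- Local uniformisation data of `F/K` at the zero of `t`: a family `σ x` (`x : X`) of pairwise
distinct field embeddings `F → C((z))`, all restricting to the same embedding of `K(t)`, with
`ord_z (σ x t) = m > 0`, and a permutation `perm` of `X` realising `z ↦ ζ z`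
(`ζ` a primitive `m`-th root of unity). -/
structure LocalData (K F : Type*) [Field K] [Field F] [Algebra K F] (C : Type*) [Field C]
    (X : Type*) (t : F) where
  m : ℕ
  m_pos : 0 < m
  ζ : C
  hζ : IsPrimitiveRoot ζ m
  ι : K →+* C
  perm : Equiv.Perm X
  σ : X → (F →+* LaurentSeries C)
  σ_inj : Function.Injective σ
  σ_const : ∀ (x : X) (c : K), σ x (algebraMap K F c) = HahnSeries.C (ι c)
  σ_t_eq : ∀ x y : X, σ x t = σ y t
  σ_t_order : ∀ x : X, (σ x t).order = (m : ℤ)
  σ_perm_order : ∀ (x : X) (f : F), (σ (perm x) f).order = (σ x f).order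
  σ_perm_leadingCoeff : ∀ (x : X) (f : F),
    (σ (perm x) f).leadingCoeff = ζ ^ (σ x f).order * (σ x f).leadingCoeff

section Modular

variable (N : ℕ) [NeZero N]

/-- The base field `ℚ̄`. -/
abbrev Kbar : Type := AlgebraicClosure ℚ

/-- The function field of `X₀(N)` over `ℚ̄` (as a type). -/
abbrev FF : Type := ↥(modularFunctionFieldBar N)

/-- The `j`-function as an element of the function field of `X₀(N)` over `ℚ̄`. -/
def jF : FF N :=
  ⟨coeffEmb Kbar jq,
    coeffEmb_mem_laurentBaseChange Kbar (modularFunctionField_le_full N (jq_mem N))⟩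

/-- The coset space `SL₂(ℤ) / Γ₀(N)`. -/
abbrev XX : Type := SL(2, ℤ) ⧸ CongruenceSubgroup.Gamma0 N

/-- The permutation of `SL₂(ℤ) / Γ₀(N)` induced by left multiplication by `g`. -/
def permOf (g : SL(2, ℤ)) : Equiv.Perm (XX N) := MulAction.toPerm g

end Modular

end Fermat.Agent.S24

end
end
-- ===== PACK-END S24/Defs.lean

-- ===== PACK-BEGIN S24/Mod/H708QInf.lean
section



/-!
# S24 / MOD-QINF (helper708): Laurent `q^(1/h)`-expansions at `i∞`

For `h : ℕ`, `h ≠ 0`, we consider functions `f : ℍ → ℂ` which are holomorphic, `h`-periodic and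
meromorphic at `i∞` (`f * q_h ^ M` bounded at `i∞` for some `M`, `q_h τ = exp (2 π i τ / h)`).
They form a subalgebra `merInf h`, and the Laurent expansion in `q_h` is an injective algebra
homomorphism `qexpInf h : merInf h →ₐ[ℂ] LaurentSeries ℂ`.

Everything is over `ℂ`, Mathlib only.
-/

set_option autoImplicit false
set_option linter.unusedSectionVars false

noncomputable section

namespace Fermat.Agent.S24.H708

open Complex Function Filter
open UpperHalfPlane hiding I
open scoped Manifold Real Topology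

/-- The local parameter `q_h τ = exp (2 π i τ / h)` at `i∞`, as a function on `ℍ`. -/
def qh (h : ℕ) : ℍ → ℂ := fun τ => Function.Periodic.qParam (h : ℝ) (τ : ℂ)

lemma qh_apply (h : ℕ) (τ : ℍ) : qh h τ = Function.Periodic.qParam (h : ℝ) (τ : ℂ) := rfl

lemma qh_ne_zero (h : ℕ) (τ : ℍ) : qh h τ ≠ 0 := Function.Periodic.qParam_ne_zero _

lemma qh_pow_ne_zero (h : ℕ) (M : ℕ) (τ : ℍ) : (qh h ^ M) τ ≠ 0 := by
  simpa using pow_ne_zero M (qh_ne_zero h τ)

section basic

variable (h : ℕ) [NeZero h]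

lemma hpos : (0 : ℝ) < (h : ℝ) := by exact_mod_cast Nat.pos_of_ne_zero (NeZero.ne h)

lemma norm_qh_lt_one (τ : ℍ) : ‖qh h τ‖ < 1 :=
  Function.Periodic.norm_qParam_lt_one (hpos h) τ.im_pos

omit [NeZero h] in
lemma mdiff_qh : MDiff (qh h) := by
  rw [UpperHalfPlane.mdifferentiable_iff]
  have hd : DifferentiableOn ℂ (Function.Periodic.qParam (h : ℝ)) {z : ℂ | 0 < z.im} :=
    (Function.Periodic.differentiable_qParam (h := (h : ℝ))).differentiableOn
  refine hd.congr ?_
  intro z hz
  simp only [comp_apply, qh_apply, ofComplex_apply_of_im_pos hz]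

lemma periodic_qh : Periodic (qh h ∘ ofComplex) (h : ℝ) := by
  intro w
  by_cases hw : 0 < _root_.Complex.im w
  · have hw' : 0 < _root_.Complex.im (w + (h : ℝ)) := by simpa using hw
    simp only [comp_apply, qh_apply, ofComplex_apply_of_im_pos hw',
      ofComplex_apply_of_im_pos hw]
    simp only [Function.Periodic.qParam]
    have hh : ((h : ℝ) : ℂ) ≠ 0 := by
      exact_mod_cast (NeZero.ne h)
    rw [show 2 * (π : ℂ) * _root_.Complex.I * (w + ((h : ℝ) : ℂ)) / ((h : ℝ) : ℂ)
        = 2 * (π : ℂ) * _root_.Complex.I * w / ((h : ℝ) : ℂ) + 2 * π * _root_.Complex.I by field_simp]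
    rw [Complex.exp_add, Complex.exp_two_pi_mul_I, mul_one]
  · have hw0 : _root_.Complex.im w ≤ 0 := not_lt.mp hw
    have hw' : _root_.Complex.im (w + (h : ℝ)) ≤ 0 := by simpa using hw0
    simp only [comp_apply]
    rw [ofComplex_apply_of_im_nonpos hw', ofComplex_apply_of_im_nonpos hw0]

lemma isBounded_qh : IsBoundedAtImInfty (qh h) := by
  rw [UpperHalfPlane.isBoundedAtImInfty_iff]
  exact ⟨1, 0, fun τ _ => (norm_qh_lt_one h τ).le⟩

end basic

/-- The class of holomorphic `h`-periodic functions bounded at `i∞`. -/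
structure IsHolInf (h : ℕ) (f : ℍ → ℂ) : Prop where
  hol : MDiff f
  per : Periodic (f ∘ ofComplex) (h : ℝ)
  bdd : IsBoundedAtImInfty f

namespace IsHolInf

variable {h : ℕ} {f g : ℍ → ℂ}

lemma mul (hf : IsHolInf h f) (hg : IsHolInf h g) : IsHolInf h (f * g) :=
  ⟨hf.hol.mul hg.hol, hf.per.mul hg.per, hf.bdd.mul hg.bdd⟩

lemma add (hf : IsHolInf h f) (hg : IsHolInf h g) : IsHolInf h (f + g) :=
  ⟨hf.hol.add hg.hol, hf.per.add hg.per, hf.bdd.add hg.bdd⟩

lemma const (h : ℕ) (c : ℂ) : IsHolInf h (fun _ => c) :=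
  ⟨mdifferentiable_const, fun _ => rfl, Filter.const_boundedAtFilter _ c⟩

lemma one (h : ℕ) : IsHolInf h (1 : ℍ → ℂ) := const h 1

lemma qh (h : ℕ) [NeZero h] : IsHolInf h (_root_.Fermat.Agent.S24.H708.qh h) :=
  ⟨mdiff_qh h, periodic_qh h, isBounded_qh h⟩

lemma pow (hf : IsHolInf h f) (n : ℕ) : IsHolInf h (f ^ n) := by
  induction n with
  | zero => simpa using one h
  | succ n ih => rw [pow_succ]; exact ih.mul hf

lemma analyticAt [NeZero h] (hf : IsHolInf h f) : AnalyticAt ℂ (cuspFunction (h : ℝ) f) 0 :=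
  analyticAt_cuspFunction_zero (hpos h) hf.per hf.hol hf.bdd

lemma qExpansion_mul [NeZero h] (hf : IsHolInf h f) (hg : IsHolInf h g) :
    qExpansion (h : ℝ) (f * g) = qExpansion (h : ℝ) f * qExpansion (h : ℝ) g :=
  UpperHalfPlane.qExpansion_mul hf.analyticAt hg.analyticAt

lemma qExpansion_add [NeZero h] (hf : IsHolInf h f) (hg : IsHolInf h g) :
    qExpansion (h : ℝ) (f + g) = qExpansion (h : ℝ) f + qExpansion (h : ℝ) g :=
  UpperHalfPlane.qExpansion_add hf.analyticAt hg.analyticAt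

lemma hasSum [NeZero h] (hf : IsHolInf h f) (τ : ℍ) :
    HasSum (fun m : ℕ => (qExpansion (h : ℝ) f).coeff m * H708.qh h τ ^ m) (f τ) := by
  simpa [smul_eq_mul, qh_apply] using hasSum_qExpansion (hpos h) hf.per hf.hol hf.bdd τ

lemma qExpansion_eq_zero_iff [NeZero h] (hf : IsHolInf h f) :
    qExpansion (h : ℝ) f = 0 ↔ f = 0 :=
  UpperHalfPlane.qExpansion_eq_zero_iff (hpos h) hf.per hf.hol hf.bdd

end IsHolInf


section qExpansion_qh

variable (h : ℕ) [NeZero h]

omit [NeZero h] in
/-- `UpperHalfPlane.qExpansion_coeff_unique` for plain functions. -/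
lemma qExpansion_coeff_unique_fun {g : ℍ → ℂ} (hh : (0 : ℝ) < (h : ℝ)) (hcont : Continuous g)
    {c : ℕ → ℂ} (hg : AnalyticAt ℂ (cuspFunction (h : ℝ) g) 0)
    (hs : ∀ τ : ℍ, HasSum (fun m ↦ c m • Function.Periodic.qParam (h : ℝ) (τ : ℂ) ^ m) (g τ))
    (m : ℕ) : c m = (qExpansion (h : ℝ) g).coeff m :=
  UpperHalfPlane.qExpansion_coeff_unique (ContinuousMap.mk g hcont) hh hg hs m

omit [NeZero h] in
lemma hasSum_qh_aux (τ : ℍ) : HasSum (fun m : ℕ => (if m = 1 then (1 : ℂ) else 0) •
      Function.Periodic.qParam (h : ℝ) (τ : ℂ) ^ m) (qh h τ) := by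
  have h1 := hasSum_ite_eq (1 : ℕ) (qh h τ)
  have h2 : (fun m : ℕ => (if m = 1 then (1 : ℂ) else 0) •
      Function.Periodic.qParam (h : ℝ) (τ : ℂ) ^ m) = fun m : ℕ => if m = 1 then qh h τ else 0 := by
    funext m
    by_cases hm : m = 1
    · subst hm; simp [qh_apply]
    · simp [hm]
  rw [h2]
  exact h1

lemma qExpansion_qh : qExpansion (h : ℝ) (qh h) = PowerSeries.X := by
  ext m
  have h3 := qExpansion_coeff_unique_fun h (hpos h) (mdiff_qh h).continuous
    (IsHolInf.qh h).analyticAt (hasSum_qh_aux h) m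
  rw [PowerSeries.coeff_X]
  exact h3.symm

end qExpansion_qh

/-- `f` is holomorphic on `ℍ`, `h`-periodic, and meromorphic at `i∞`. -/
structure IsMerInf (h : ℕ) (f : ℍ → ℂ) : Prop where
  hol : MDiff f
  per : Periodic (f ∘ ofComplex) (h : ℝ)
  bdd : ∃ M : ℕ, IsBoundedAtImInfty (f * qh h ^ M)

/-- The candidate Laurent expansion of `f` computed with pole order bound `M`. -/
def lau (h : ℕ) (M : ℕ) (f : ℍ → ℂ) : LaurentSeries ℂ :=
  HahnSeries.single (-(M : ℤ)) (1 : ℂ) *
    HahnSeries.ofPowerSeries ℤ ℂ (qExpansion (h : ℝ) (f * qh h ^ M))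

namespace IsMerInf

variable {h : ℕ} {f g : ℍ → ℂ}

lemma isHolInf_mul_pow [NeZero h] (hf : IsMerInf h f) {M : ℕ}
    (hM : IsBoundedAtImInfty (f * qh h ^ M)) : IsHolInf h (f * qh h ^ M) :=
  ⟨hf.hol.mul ((mdiff_qh h).pow M), hf.per.mul ((IsHolInf.qh h).pow M).per, hM⟩

lemma of_isHolInf [NeZero h] (hf : IsHolInf h f) : IsMerInf h f :=
  ⟨hf.hol, hf.per, 0, by simpa using hf.bdd⟩

lemma bdd_succ [NeZero h] {M : ℕ}
    (hM : IsBoundedAtImInfty (f * qh h ^ M)) : IsBoundedAtImInfty (f * qh h ^ (M + 1)) := by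
  rw [pow_succ, ← mul_assoc]
  exact hM.mul (isBounded_qh h)

lemma bdd_of_le [NeZero h] {M M' : ℕ} (hle : M ≤ M')
    (hM : IsBoundedAtImInfty (f * qh h ^ M)) : IsBoundedAtImInfty (f * qh h ^ M') := by
  induction M', hle using Nat.le_induction with
  | base => exact hM
  | succ n _ ih => exact bdd_succ ih

lemma lau_succ [NeZero h] (hf : IsMerInf h f) {M : ℕ}
    (hM : IsBoundedAtImInfty (f * qh h ^ M)) : lau h (M + 1) f = lau h M f := by
  unfold lau
  have h1 : f * qh h ^ (M + 1) = (f * qh h ^ M) * qh h := by rw [pow_succ, mul_assoc]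
  rw [h1, (hf.isHolInf_mul_pow hM).qExpansion_mul (IsHolInf.qh h), qExpansion_qh, _root_.map_mul,
    HahnSeries.ofPowerSeries_X, mul_comm (HahnSeries.ofPowerSeries ℤ ℂ _), ← mul_assoc,
    HahnSeries.single_mul_single]
  have h2 : (-((M + 1 : ℕ) : ℤ) + 1) = -(M : ℤ) := by push_cast; ring1
  rw [h2, mul_one]

lemma lau_of_le [NeZero h] (hf : IsMerInf h f) {M M' : ℕ} (hle : M ≤ M')
    (hM : IsBoundedAtImInfty (f * qh h ^ M)) : lau h M' f = lau h M f := by
  induction M', hle using Nat.le_induction with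
  | base => rfl
  | succ n hn ih => rw [hf.lau_succ (bdd_of_le hn hM), ih]

lemma lau_eq [NeZero h] (hf : IsMerInf h f) {M M' : ℕ}
    (hM : IsBoundedAtImInfty (f * qh h ^ M)) (hM' : IsBoundedAtImInfty (f * qh h ^ M')) :
    lau h M f = lau h M' f := by
  rcases le_total M M' with hle | hle
  · exact (hf.lau_of_le hle hM).symm
  · exact hf.lau_of_le hle hM'


lemma mul [NeZero h] (hf : IsMerInf h f) (hg : IsMerInf h g) : IsMerInf h (f * g) := by
  obtain ⟨M, hM⟩ := hf.bdd
  obtain ⟨M', hM'⟩ := hg.bdd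
  refine ⟨hf.hol.mul hg.hol, hf.per.mul hg.per, M + M', ?_⟩
  have : f * g * qh h ^ (M + M') = (f * qh h ^ M) * (g * qh h ^ M') := by
    rw [pow_add]; ring1
  rw [this]
  exact hM.mul hM'

lemma add [NeZero h] (hf : IsMerInf h f) (hg : IsMerInf h g) : IsMerInf h (f + g) := by
  obtain ⟨M, hM⟩ := hf.bdd
  obtain ⟨M', hM'⟩ := hg.bdd
  refine ⟨hf.hol.add hg.hol, hf.per.add hg.per, max M M', ?_⟩
  rw [add_mul]
  exact (bdd_of_le (le_max_left _ _) hM).add (bdd_of_le (le_max_right _ _) hM')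

lemma const (h : ℕ) [NeZero h] (c : ℂ) : IsMerInf h (fun _ => c) :=
  of_isHolInf (IsHolInf.const h c)

lemma one (h : ℕ) [NeZero h] : IsMerInf h (1 : ℍ → ℂ) := const h 1

lemma zero (h : ℕ) [NeZero h] : IsMerInf h (0 : ℍ → ℂ) := const h 0

lemma neg [NeZero h] (hf : IsMerInf h f) : IsMerInf h (-f) := by
  have := (const h (-1)).mul hf
  convert this using 1
  ext τ; simp

lemma sub [NeZero h] (hf : IsMerInf h f) (hg : IsMerInf h g) : IsMerInf h (f - g) := by
  rw [sub_eq_add_neg]; exact hf.add hg.neg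

lemma pow [NeZero h] (hf : IsMerInf h f) (n : ℕ) : IsMerInf h (f ^ n) := by
  induction n with
  | zero => simpa using one h
  | succ n ih => rw [pow_succ]; exact ih.mul hf

end IsMerInf

/-- The Laurent `q_h`-expansion of a function (junk value `0` outside `IsMerInf`). -/
def qexpFun (h : ℕ) (f : ℍ → ℂ) : LaurentSeries ℂ := by
  classical
  exact if hf : IsMerInf h f then lau h hf.bdd.choose f else 0

section qexpFun

variable {h : ℕ} [NeZero h] {f g : ℍ → ℂ}

lemma qexpFun_eq_lau (hf : IsMerInf h f) {M : ℕ} (hM : IsBoundedAtImInfty (f * qh h ^ M)) :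
    qexpFun h f = lau h M f := by
  classical
  rw [qexpFun, dif_pos hf]
  exact hf.lau_eq hf.bdd.choose_spec hM

lemma qexpFun_of_isHolInf (hf : IsHolInf h f) :
    qexpFun h f = HahnSeries.ofPowerSeries ℤ ℂ (qExpansion (h : ℝ) f) := by
  have hb : IsBoundedAtImInfty (f * qh h ^ 0) := by simpa using hf.bdd
  rw [qexpFun_eq_lau (IsMerInf.of_isHolInf hf) hb, lau]
  simp

lemma qexpFun_mul (hf : IsMerInf h f) (hg : IsMerInf h g) :
    qexpFun h (f * g) = qexpFun h f * qexpFun h g := by
  obtain ⟨M, hM⟩ := hf.bdd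
  obtain ⟨M', hM'⟩ := hg.bdd
  have hfg : f * g * qh h ^ (M + M') = (f * qh h ^ M) * (g * qh h ^ M') := by
    rw [pow_add]; ring1
  have hb : IsBoundedAtImInfty (f * g * qh h ^ (M + M')) := by
    rw [hfg]; exact hM.mul hM'
  rw [qexpFun_eq_lau (hf.mul hg) hb, qexpFun_eq_lau hf hM, qexpFun_eq_lau hg hM']
  unfold lau
  rw [hfg, (hf.isHolInf_mul_pow hM).qExpansion_mul (hg.isHolInf_mul_pow hM'), _root_.map_mul]
  have hs : (HahnSeries.single (-((M + M' : ℕ) : ℤ)) (1 : ℂ) : LaurentSeries ℂ)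
      = HahnSeries.single (-(M : ℤ)) 1 * HahnSeries.single (-(M' : ℤ)) 1 := by
    rw [HahnSeries.single_mul_single, mul_one]
    have h2 : (-((M + M' : ℕ) : ℤ)) = -(M : ℤ) + -(M' : ℤ) := by push_cast; ring1
    rw [h2]
  rw [hs]
  ring1

lemma qexpFun_add (hf : IsMerInf h f) (hg : IsMerInf h g) :
    qexpFun h (f + g) = qexpFun h f + qexpFun h g := by
  obtain ⟨M, hM⟩ := hf.bdd
  obtain ⟨M', hM'⟩ := hg.bdd
  have hM1 := IsMerInf.bdd_of_le (le_max_left M M') hM
  have hM2 := IsMerInf.bdd_of_le (le_max_right M M') hM'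
  have hb : IsBoundedAtImInfty ((f + g) * qh h ^ (max M M')) := by
    rw [add_mul]; exact hM1.add hM2
  rw [qexpFun_eq_lau (hf.add hg) hb, qexpFun_eq_lau hf hM1, qexpFun_eq_lau hg hM2]
  unfold lau
  rw [add_mul, (hf.isHolInf_mul_pow hM1).qExpansion_add (hg.isHolInf_mul_pow hM2), map_add,
    mul_add]

lemma qExpansion_const (h : ℕ) [NeZero h] (c : ℂ) :
    qExpansion (h : ℝ) (fun _ : ℍ => c) = PowerSeries.C c := by
  have h1 : (fun _ : ℍ => c) = c • (1 : ℍ → ℂ) := by
    ext τ; simp
  rw [h1, UpperHalfPlane.qExpansion_smul (IsHolInf.one h).analyticAt, qExpansion_one]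
  ext n
  simp [PowerSeries.coeff_C, PowerSeries.coeff_one]

lemma qexpFun_const (h : ℕ) [NeZero h] (c : ℂ) :
    qexpFun h (fun _ : ℍ => c) = HahnSeries.C c := by
  rw [qexpFun_of_isHolInf (IsHolInf.const h c), qExpansion_const, HahnSeries.ofPowerSeries_C]

lemma qexpFun_eq_zero_iff (hf : IsMerInf h f) : qexpFun h f = 0 ↔ f = 0 := by
  obtain ⟨M, hM⟩ := hf.bdd
  rw [qexpFun_eq_lau hf hM, lau]
  have hne : (HahnSeries.single (-(M : ℤ)) (1 : ℂ) : LaurentSeries ℂ) ≠ 0 := by
    simp
  rw [mul_eq_zero, or_iff_right hne, map_eq_zero_iff _ HahnSeries.ofPowerSeries_injective,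
    (hf.isHolInf_mul_pow hM).qExpansion_eq_zero_iff]
  constructor
  · intro h0
    ext τ
    have := congrFun h0 τ
    simp only [Pi.mul_apply, Pi.zero_apply, mul_eq_zero] at this
    exact this.resolve_right (qh_pow_ne_zero h M τ)
  · rintro rfl; simp

end qexpFun

/-- The algebra of holomorphic `h`-periodic functions on `ℍ`, meromorphic at `i∞`. -/
def merInf (h : ℕ) [NeZero h] : Subalgebra ℂ (ℍ → ℂ) where
  carrier := {f | IsMerInf h f}
  mul_mem' := fun hf hg => IsMerInf.mul hf hg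
  add_mem' := fun hf hg => IsMerInf.add hf hg
  algebraMap_mem' := fun c => IsMerInf.const h c

lemma mem_merInf {h : ℕ} [NeZero h] {f : ℍ → ℂ} : f ∈ merInf h ↔ IsMerInf h f := Iff.rfl

/-- The Laurent expansion in `q_h = exp (2 π i τ / h)` at `i∞`. -/
def qexpInf (h : ℕ) [NeZero h] : merInf h →ₐ[ℂ] LaurentSeries ℂ where
  toFun f := qexpFun h (f : ℍ → ℂ)
  map_one' := by
    show qexpFun h (1 : ℍ → ℂ) = 1
    have := qexpFun_const h (1 : ℂ)
    rw [show (1 : ℍ → ℂ) = fun _ => (1 : ℂ) from rfl, this]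
    simp
  map_mul' f g := qexpFun_mul f.2 g.2
  map_zero' := by
    show qexpFun h (0 : ℍ → ℂ) = 0
    exact (qexpFun_eq_zero_iff (IsMerInf.zero h)).mpr rfl
  map_add' f g := qexpFun_add f.2 g.2
  commutes' c := by
    show qexpFun h (fun _ : ℍ => c) = algebraMap ℂ (LaurentSeries ℂ) c
    rw [qexpFun_const]
    have h1 : algebraMap ℂ (PowerSeries ℂ) c = PowerSeries.C c := by simp
    rw [HahnSeries.algebraMap_apply', h1, HahnSeries.ofPowerSeries_C]

lemma qexpInf_apply {h : ℕ} [NeZero h] (f : merInf h) : qexpInf h f = qexpFun h (f : ℍ → ℂ) := rfl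

lemma qexpInf_injective (h : ℕ) [NeZero h] : Function.Injective (qexpInf h) := by
  rw [injective_iff_map_eq_zero]
  intro f hf
  have := (qexpFun_eq_zero_iff f.2).mp hf
  exact Subtype.ext this


/-! ### Convergence of the Laurent expansion and uniqueness -/

section hasSum

/-- Reindexing a Laurent-type sum over `ℤ` (vanishing below `-M`) as a sum over `ℕ`. -/
lemma hasSum_int_iff_nat (φ : ℤ → ℂ) (M : ℕ) (hφ : ∀ n : ℤ, n < -(M : ℤ) → φ n = 0)
    (x : ℂ) (hx : x ≠ 0) (s : ℂ) :
    HasSum (fun n : ℤ => φ n * x ^ n) s ↔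
      HasSum (fun m : ℕ => φ ((m : ℤ) - M) * x ^ m) (s * x ^ M) := by
  have hinj : Function.Injective (fun m : ℕ => (m : ℤ) - (M : ℤ)) := by
    intro a b hab
    simp only [sub_left_inj] at hab
    exact_mod_cast hab
  have hrange : ∀ n : ℤ, n ∉ Set.range (fun m : ℕ => (m : ℤ) - (M : ℤ)) →
      (fun n : ℤ => φ n * x ^ n) n = 0 := by
    intro n hn
    have hlt : n < -(M : ℤ) := by
      by_contra hge
      rw [not_lt] at hge
      apply hn
      refine ⟨(n + M).toNat, ?_⟩
      simp only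
      rw [Int.toNat_of_nonneg (by omega)]
      ring
    simp [hφ n hlt]
  rw [← hinj.hasSum_iff hrange]
  have hxM : x ^ M ≠ 0 := pow_ne_zero M hx
  rw [← hasSum_mul_right_iff hxM]
  have hfun : (fun i : ℕ => ((fun n : ℤ => φ n * x ^ n) ∘ fun m : ℕ => (m : ℤ) - (M : ℤ)) i * x ^ M)
      = fun m : ℕ => φ ((m : ℤ) - M) * x ^ m := by
    funext m
    simp only [comp_apply]
    rw [zpow_sub₀ hx, zpow_natCast, zpow_natCast]
    field_simp
  rw [hfun]

variable {h : ℕ} [NeZero h] {f : ℍ → ℂ}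

lemma lau_coeff (M : ℕ) (f : ℍ → ℂ) (n : ℤ) :
    (lau h M f).coeff n = (HahnSeries.ofPowerSeries ℤ ℂ
      (qExpansion (h : ℝ) (f * qh h ^ M))).coeff (n + M) := by
  rw [lau, HahnSeries.coeff_single_mul, one_mul, sub_neg_eq_add]

lemma lau_coeff_of_lt (M : ℕ) (f : ℍ → ℂ) {n : ℤ} (hn : n < -(M : ℤ)) :
    (lau h M f).coeff n = 0 := by
  rw [lau_coeff, PowerSeries.coeff_coe, if_pos (by omega)]

lemma lau_coeff_natCast_sub (M : ℕ) (f : ℍ → ℂ) (m : ℕ) :
    (lau h M f).coeff ((m : ℤ) - M) = (qExpansion (h : ℝ) (f * qh h ^ M)).coeff m := by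
  rw [lau_coeff, sub_add_cancel, HahnSeries.ofPowerSeries_apply_coeff]

/-- The Laurent expansion converges to `f` on all of `ℍ`. -/
theorem hasSum_qexpFun (hf : IsMerInf h f) (τ : ℍ) :
    HasSum (fun n : ℤ => (qexpFun h f).coeff n * qh h τ ^ n) (f τ) := by
  obtain ⟨M, hM⟩ := hf.bdd
  rw [qexpFun_eq_lau hf hM,
    hasSum_int_iff_nat _ M (fun n hn => lau_coeff_of_lt M f hn) _ (qh_ne_zero h τ)]
  have := (hf.isHolInf_mul_pow hM).hasSum τ
  simpa [lau_coeff_natCast_sub] using this

/-- If a Laurent series converges to a holomorphic `f` on all of `ℍ`, then `f` is `h`-periodic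
and meromorphic at `i∞`. -/
theorem IsMerInf.of_hasSum (hol : MDiff f) (φ : LaurentSeries ℂ)
    (hs : ∀ τ : ℍ, HasSum (fun n : ℤ => φ.coeff n * qh h τ ^ n) (f τ)) : IsMerInf h f := by
  refine ⟨hol, ?_, ?_⟩
  · intro w
    by_cases hw : 0 < _root_.Complex.im w
    · have hw' : 0 < _root_.Complex.im (w + (h : ℝ)) := by simpa using hw
      have hq : qh h (ofComplex (w + (h : ℝ))) = qh h (ofComplex w) := periodic_qh h w
      have h1 := hs (ofComplex (w + (h : ℝ)))
      rw [hq] at h1
      exact h1.unique (hs (ofComplex w))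
    · have hw0 : _root_.Complex.im w ≤ 0 := not_lt.mp hw
      have hw' : _root_.Complex.im (w + (h : ℝ)) ≤ 0 := by simpa using hw0
      simp only [comp_apply]
      rw [ofComplex_apply_of_im_nonpos hw', ofComplex_apply_of_im_nonpos hw0]
  · refine ⟨(-φ.order).toNat, ?_⟩
    set M := (-φ.order).toNat with hMdef
    have hφ : ∀ n : ℤ, n < -(M : ℤ) → φ.coeff n = 0 := by
      intro n hn
      apply HahnSeries.coeff_eq_zero_of_lt_order
      have : -φ.order ≤ (M : ℤ) := by rw [hMdef]; exact Int.self_le_toNat _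
      omega
    have hs' : ∀ τ : ℍ, HasSum (fun m : ℕ => φ.coeff ((m : ℤ) - M) •
        Function.Periodic.qParam (h : ℝ) (τ : ℂ) ^ m) ((f * qh h ^ M) τ) := by
      intro τ
      have := (hasSum_int_iff_nat _ M hφ _ (qh_ne_zero h τ) _).mp (hs τ)
      simpa [smul_eq_mul, qh_apply] using this
    exact isBoundedAtImInfty_of_hasSum_qExpansion (hpos h) hs'

/-- Uniqueness of the Laurent expansion. -/
theorem qexpFun_eq_of_hasSum (hol : MDiff f) (φ : LaurentSeries ℂ)
    (hs : ∀ τ : ℍ, HasSum (fun n : ℤ => φ.coeff n * qh h τ ^ n) (f τ)) : qexpFun h f = φ := by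
  have hf := IsMerInf.of_hasSum hol φ hs
  obtain ⟨M₀, hM₀⟩ := hf.bdd
  set M := max M₀ (-φ.order).toNat with hMdef
  have hM : IsBoundedAtImInfty (f * qh h ^ M) := IsMerInf.bdd_of_le (le_max_left _ _) hM₀
  have hφ : ∀ n : ℤ, n < -(M : ℤ) → φ.coeff n = 0 := by
    intro n hn
    apply HahnSeries.coeff_eq_zero_of_lt_order
    have h1 : -φ.order ≤ ((-φ.order).toNat : ℤ) := Int.self_le_toNat _
    have h2 : ((-φ.order).toNat : ℤ) ≤ (M : ℤ) := by
      exact_mod_cast le_max_right M₀ (-φ.order).toNat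
    omega
  have hs' : ∀ τ : ℍ, HasSum (fun m : ℕ => φ.coeff ((m : ℤ) - M) •
      Function.Periodic.qParam (h : ℝ) (τ : ℂ) ^ m) ((f * qh h ^ M) τ) := by
    intro τ
    have := (hasSum_int_iff_nat _ M hφ _ (qh_ne_zero h τ) _).mp (hs τ)
    simpa [smul_eq_mul, qh_apply] using this
  have hco := qExpansion_coeff_unique_fun h (hpos h)
    (hf.isHolInf_mul_pow hM).hol.continuous (hf.isHolInf_mul_pow hM).analyticAt hs'
  rw [qexpFun_eq_lau hf hM]
  ext n
  by_cases hn : n < -(M : ℤ)
  · rw [lau_coeff_of_lt M f hn, hφ n hn]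
  · rw [not_lt] at hn
    obtain ⟨m, rfl⟩ : ∃ m : ℕ, n = (m : ℤ) - M := ⟨(n + M).toNat, by
      rw [Int.toNat_of_nonneg (by omega)]; ring⟩
    rw [lau_coeff_natCast_sub, ← hco m]

end hasSum

/-- `HasQExp h f φ`: `f` is holomorphic on `ℍ`, `h`-periodic, meromorphic at `i∞` and `φ` is its
Laurent expansion in `q_h = exp (2 π i τ / h)`. -/
def HasQExp (h : ℕ) (f : ℍ → ℂ) (φ : LaurentSeries ℂ) : Prop :=
  IsMerInf h f ∧ qexpFun h f = φ

namespace HasQExp

variable {h : ℕ} [NeZero h] {f g : ℍ → ℂ} {φ ψ : LaurentSeries ℂ}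

lemma isMerInf (hf : HasQExp h f φ) : IsMerInf h f := hf.1

lemma qexpFun_eq (hf : HasQExp h f φ) : qexpFun h f = φ := hf.2

lemma mdiff (hf : HasQExp h f φ) : MDiff f := hf.1.hol

lemma of_isMerInf (hf : IsMerInf h f) : HasQExp h f (qexpFun h f) := ⟨hf, rfl⟩

lemma hasSum (hf : HasQExp h f φ) (τ : ℍ) :
    HasSum (fun n : ℤ => φ.coeff n * qh h τ ^ n) (f τ) := by
  have := hasSum_qexpFun hf.1 τ
  rwa [hf.2] at this

lemma of_hasSum (hol : MDiff f)
    (hs : ∀ τ : ℍ, HasSum (fun n : ℤ => φ.coeff n * qh h τ ^ n) (f τ)) : HasQExp h f φ :=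
  ⟨IsMerInf.of_hasSum hol φ hs, qexpFun_eq_of_hasSum hol φ hs⟩

lemma iff_hasSum (hol : MDiff f) :
    HasQExp h f φ ↔ ∀ τ : ℍ, HasSum (fun n : ℤ => φ.coeff n * qh h τ ^ n) (f τ) :=
  ⟨fun hf => hf.hasSum, of_hasSum hol⟩

lemma mul (hf : HasQExp h f φ) (hg : HasQExp h g ψ) : HasQExp h (f * g) (φ * ψ) :=
  ⟨hf.1.mul hg.1, by rw [qexpFun_mul hf.1 hg.1, hf.2, hg.2]⟩

lemma add (hf : HasQExp h f φ) (hg : HasQExp h g ψ) : HasQExp h (f + g) (φ + ψ) :=
  ⟨hf.1.add hg.1, by rw [qexpFun_add hf.1 hg.1, hf.2, hg.2]⟩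

lemma const (h : ℕ) [NeZero h] (c : ℂ) : HasQExp h (fun _ => c) (HahnSeries.C c) :=
  ⟨IsMerInf.const h c, qexpFun_const h c⟩

lemma one (h : ℕ) [NeZero h] : HasQExp h (1 : ℍ → ℂ) 1 := by
  have := const h 1
  rwa [_root_.map_one] at this

lemma zero (h : ℕ) [NeZero h] : HasQExp h (0 : ℍ → ℂ) 0 := by
  have := const h 0
  rwa [map_zero] at this

lemma neg (hf : HasQExp h f φ) : HasQExp h (-f) (-φ) := by
  have := (const h (-1)).mul hf
  have e1 : (fun _ : ℍ => (-1 : ℂ)) * f = -f := by ext τ; simp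
  have e2 : (HahnSeries.C (-1 : ℂ) : LaurentSeries ℂ) * φ = -φ := by
    rw [map_neg, _root_.map_one, neg_one_mul]
  rwa [e1, e2] at this

lemma sub (hf : HasQExp h f φ) (hg : HasQExp h g ψ) : HasQExp h (f - g) (φ - ψ) := by
  rw [sub_eq_add_neg, sub_eq_add_neg]; exact hf.add hg.neg

lemma pow (hf : HasQExp h f φ) (n : ℕ) : HasQExp h (f ^ n) (φ ^ n) := by
  induction n with
  | zero => simpa using one h
  | succ n ih => rw [pow_succ, pow_succ]; exact ih.mul hf

/-- The expansion determines the function. -/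
lemma eq_of_eq (hf : HasQExp h f φ) (hg : HasQExp h g φ) : f = g := by
  ext τ
  exact (hf.hasSum τ).unique (hg.hasSum τ)

/-- The function determines the expansion. -/
lemma unique (hf : HasQExp h f φ) (hg : HasQExp h f ψ) : φ = ψ := hf.2.symm.trans hg.2

lemma eq_zero_iff (hf : HasQExp h f φ) : φ = 0 ↔ f = 0 := by
  rw [← hf.2]; exact qexpFun_eq_zero_iff hf.1

lemma qexpInf_eq (hf : HasQExp h f φ) : qexpInf h ⟨f, hf.1⟩ = φ := hf.2

end HasQExp

lemma hasQExp_qh (h : ℕ) [NeZero h] : HasQExp h (qh h) (HahnSeries.single 1 1) := by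
  refine ⟨IsMerInf.of_isHolInf (IsHolInf.qh h), ?_⟩
  rw [qexpFun_of_isHolInf (IsHolInf.qh h), qExpansion_qh, HahnSeries.ofPowerSeries_X]

end Fermat.Agent.S24.H708

end
end
-- ===== PACK-END S24/Mod/H708QInf.lean

-- ===== PACK-BEGIN S24/JFun/EtaProd.lean
section







/-!
# Formal versus analytic Euler product

The Taylor coefficients at `0` of the analytic function `q ↦ ∏' n, (1 - q ^ (n + 1))` on the unit
disc are the coefficients of the formal product `ModularCurve.etaProd`.
-/

set_option autoImplicit false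

namespace Fermat.Agent.S24.JFun

open Filter Topology Complex Metric
open scoped PowerSeries.WithPiTopology

/-- Iterated derivatives of a locally uniform limit of holomorphic functions. -/
theorem tendstoLocallyUniformlyOn_iteratedDeriv {ι : Type*} {φ : Filter ι} {F : ι → ℂ → ℂ}
    {f : ℂ → ℂ} {U : Set ℂ} (hU : IsOpen U) (hf : TendstoLocallyUniformlyOn F f φ U)
    (hF : ∀ᶠ n in φ, DifferentiableOn ℂ (F n) U) (m : ℕ) :
    TendstoLocallyUniformlyOn (fun n => iteratedDeriv m (F n)) (iteratedDeriv m f) φ U ∧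
      ∀ᶠ n in φ, DifferentiableOn ℂ (iteratedDeriv m (F n)) U := by
  induction m with
  | zero => simpa [iteratedDeriv_zero] using And.intro hf hF
  | succ m ih =>
    obtain ⟨h1, h2⟩ := ih
    refine ⟨?_, ?_⟩
    · have := h1.deriv h2 hU
      simpa [iteratedDeriv_succ, Function.comp_def] using this
    · filter_upwards [h2] with n hn
      rw [iteratedDeriv_succ]
      exact hn.deriv hU

theorem iteratedDeriv_polynomial_eval (P : Polynomial ℂ) (m : ℕ) :
    iteratedDeriv m (fun x : ℂ => P.eval x) = fun x => (Polynomial.derivative^[m] P).eval x := by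
  induction m generalizing P with
  | zero => simp [iteratedDeriv_zero]
  | succ m ih =>
    rw [iteratedDeriv_succ', Function.iterate_succ_apply]
    have : deriv (fun x : ℂ => P.eval x) = fun x => (Polynomial.derivative P).eval x := by
      funext x
      exact Polynomial.deriv P
    rw [this, ih]

theorem iteratedDeriv_polynomial_eval_zero (P : Polynomial ℂ) (m : ℕ) :
    iteratedDeriv m (fun x : ℂ => P.eval x) 0 = (m.factorial : ℂ) * P.coeff m := by
  rw [iteratedDeriv_polynomial_eval]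
  simp only
  rw [← Polynomial.coeff_zero_eq_eval_zero, Polynomial.coeff_iterate_derivative]
  simp [Nat.descFactorial_self, nsmul_eq_mul]

/-- The partial Euler products as integer polynomials. -/
noncomputable def eulerPartial (s : Finset ℕ) : Polynomial ℤ :=
  ∏ n ∈ s, (1 - Polynomial.X ^ (n + 1))

theorem eval_map_eulerPartial (s : Finset ℕ) (q : ℂ) :
    ((eulerPartial s).map (Int.castRingHom ℂ)).eval q = ∏ n ∈ s, (1 - q ^ (n + 1)) := by
  simp [eulerPartial, Polynomial.map_prod, Polynomial.eval_prod]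

theorem coe_eulerPartial (s : Finset ℕ) :
    ((eulerPartial s : Polynomial ℤ) : PowerSeries ℤ) = ∏ n ∈ s, (1 - PowerSeries.X ^ (n + 1)) := by
  have h := _root_.map_prod (Polynomial.coeToPowerSeries.ringHom (R := ℤ))
    (fun n : ℕ => (1 - Polynomial.X ^ (n + 1) : Polynomial ℤ)) s
  rw [eulerPartial]
  refine h.trans (Finset.prod_congr rfl fun n _ => ?_)
  simp

theorem tendsto_coeff_eulerPartial (m : ℕ) :
    Tendsto (fun s : Finset ℕ => (((eulerPartial s).coeff m : ℤ) : ℂ)) atTop
      (𝓝 ((ModularCurve.etaProd.coeff m : ℤ) : ℂ)) := by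
  have h1 : HasProd (fun n : ℕ => (1 - PowerSeries.X ^ (n + 1) : PowerSeries ℤ))
      ModularCurve.etaProd :=
    (PowerSeries.WithPiTopology.multipliable_one_sub_X_pow ℤ).hasProd
  have h2 : Tendsto (fun s : Finset ℕ => ∏ n ∈ s, (1 - PowerSeries.X ^ (n + 1) : PowerSeries ℤ))
      atTop (𝓝 ModularCurve.etaProd) := h1
  have h3 := (PowerSeries.WithPiTopology.tendsto_iff_coeff_tendsto ℤ _ _ _).1 h2 m
  have h4 : Continuous (fun z : ℤ => (z : ℂ)) := continuous_of_discreteTopology
  have h5 := (h4.tendsto _).comp h3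
  refine h5.congr (fun s => ?_)
  simp only [Function.comp_apply]
  rw [← coe_eulerPartial, Polynomial.coeff_coe]

/-- The Taylor coefficients at `0` of the analytic Euler product are the coefficients of the
formal Euler product `ModularCurve.etaProd`. -/
theorem iteratedDeriv_tprod_one_sub_pow (m : ℕ) :
    iteratedDeriv m (fun q : ℂ => ∏' n : ℕ, (1 - q ^ (n + 1))) 0
      = (m.factorial : ℂ) * ((ModularCurve.etaProd.coeff m : ℤ) : ℂ) := by
  have hU : IsOpen (ball (0 : ℂ) 1) := isOpen_ball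
  have h0 : (0 : ℂ) ∈ ball (0 : ℂ) 1 := mem_ball_self one_pos
  have hloc : TendstoLocallyUniformlyOn
      (fun (s : Finset ℕ) (q : ℂ) => ∏ n ∈ s, (1 - q ^ (n + 1)))
      (fun q : ℂ => ∏' n : ℕ, (1 - q ^ (n + 1))) atTop (ball (0 : ℂ) 1) := by
    have := ModularForm.multipliableLocallyUniformlyOn_one_sub_pow.hasProdLocallyUniformlyOn
    exact this
  have hF : ∀ᶠ s : Finset ℕ in atTop,
      DifferentiableOn ℂ (fun q : ℂ => ∏ n ∈ s, (1 - q ^ (n + 1))) (ball (0 : ℂ) 1) :=
    Eventually.of_forall fun s => by fun_prop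
  have key := (tendstoLocallyUniformlyOn_iteratedDeriv hU hloc hF m).1.tendsto_at h0
  have hval : ∀ s : Finset ℕ,
      iteratedDeriv m (fun q : ℂ => ∏ n ∈ s, (1 - q ^ (n + 1))) 0
        = (m.factorial : ℂ) * (((eulerPartial s).coeff m : ℤ) : ℂ) := by
    intro s
    have : (fun q : ℂ => ∏ n ∈ s, (1 - q ^ (n + 1)))
        = fun q => ((eulerPartial s).map (Int.castRingHom ℂ)).eval q := by
      funext q
      rw [eval_map_eulerPartial]
    rw [this, iteratedDeriv_polynomial_eval_zero, Polynomial.coeff_map]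
    simp
  have key2 : Tendsto (fun s : Finset ℕ =>
      (m.factorial : ℂ) * (((eulerPartial s).coeff m : ℤ) : ℂ)) atTop
      (𝓝 (iteratedDeriv m (fun q : ℂ => ∏' n : ℕ, (1 - q ^ (n + 1))) 0)) :=
    key.congr hval
  exact tendsto_nhds_unique key2 ((tendsto_coeff_eulerPartial m).const_mul _)

/-- The analytic Euler product is the sum of the formal Euler product on the open unit disc. -/
theorem hasSum_etaProd {q : ℂ} (hq : ‖q‖ < 1) :
    HasSum (fun m : ℕ => ((ModularCurve.etaProd.coeff m : ℤ) : ℂ) * q ^ m)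
      (∏' n : ℕ, (1 - q ^ (n + 1))) := by
  have h := Complex.hasSum_taylorSeries_on_ball
    (f := fun q : ℂ => ∏' n : ℕ, (1 - q ^ (n + 1))) (c := 0) (r := 1)
    ModularForm.differentiableOn_tprod_one_sub_pow (z := q) (by simpa using hq)
  have heq : (fun n : ℕ => ((n.factorial : ℂ))⁻¹ • (q - 0) ^ n •
      iteratedDeriv n (fun q : ℂ => ∏' n : ℕ, (1 - q ^ (n + 1))) 0)
      = fun m : ℕ => ((ModularCurve.etaProd.coeff m : ℤ) : ℂ) * q ^ m := by
    funext m
    rw [iteratedDeriv_tprod_one_sub_pow]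
    have hm : (m.factorial : ℂ) ≠ 0 := by exact_mod_cast Nat.factorial_ne_zero m
    simp only [sub_zero, smul_eq_mul]
    field_simp
  rw [heq] at h
  exact h

end Fermat.Agent.S24.JFun

end
-- ===== PACK-END S24/JFun/EtaProd.lean

-- ===== PACK-BEGIN S24/FFBasic.lean
section



/-!
# S24 / FF layer: basic facts on `AlgebraicCurve.Place`

Embedding-free algebraic core (helper804).
-/

set_option autoImplicit false

namespace Fermat.Agent.S24.FF

open AlgebraicCurve

variable {K F : Type*} [Field K] [Field F] [Algebra K F]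

section Basic

variable (v : Place K F)

theorem exists_irreducible_coe :
    ∃ π : v.toValuationSubring, Irreducible π ∧ v.ord (π : F) = 1 := by
  obtain ⟨π, hπ⟩ := IsDiscreteValuationRing.exists_irreducible v.toValuationSubring
  exact ⟨π, hπ, v.ord_coe_irreducible hπ⟩

theorem mem_of_ord_nonneg {f : F} (h : 0 ≤ v.ord f) : f ∈ v.toValuationSubring := by
  rcases eq_or_ne f 0 with rfl | hf
  · exact zero_mem _
  obtain ⟨π, hπ⟩ := IsDiscreteValuationRing.exists_irreducible v.toValuationSubring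
  obtain ⟨u, hu⟩ := v.exists_unit_mul_zpow hf hπ
  rw [hu]
  refine mul_mem (u : v.toValuationSubring).2 ?_
  obtain ⟨n, hn⟩ := Int.eq_ofNat_of_zero_le h
  rw [hn, zpow_natCast]
  exact pow_mem π.2 n

theorem ord_nonneg_of_mem {f : F} (h : f ∈ v.toValuationSubring) : 0 ≤ v.ord f := by
  rcases eq_or_ne f 0 with rfl | hf
  · simp
  by_contra hneg
  rw [not_le] at hneg
  obtain ⟨π, hπ⟩ := IsDiscreteValuationRing.exists_irreducible v.toValuationSubring
  obtain ⟨u, hu⟩ := v.exists_unit_mul_zpow hf hπ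
  have hπF : (π : F) ≠ 0 := by
    simpa [ne_eq, ZeroMemClass.coe_eq_zero] using hπ.ne_zero
  -- `f * π ^ (-ord f) = u`
  obtain ⟨n, hn⟩ := Int.eq_ofNat_of_zero_le (show 0 ≤ -v.ord f - 1 by omega)
  have hord : v.ord f = -((n : ℤ) + 1) := by omega
  have key : f * (π : F) ^ (n + 1) = ((u : v.toValuationSubring) : F) := by
    conv_lhs => rw [hu, hord]
    rw [zpow_neg, mul_assoc, ← zpow_natCast (π : F) (n + 1)]
    push_cast
    rw [inv_mul_cancel₀ (zpow_ne_zero _ hπF), mul_one]
  have hmem : (⟨f, h⟩ : v.toValuationSubring) * π ^ (n + 1) = (u : v.toValuationSubring) :=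
    Subtype.ext (by simpa using key)
  have hunit : IsUnit ((⟨f, h⟩ : v.toValuationSubring) * π ^ (n + 1)) := hmem ▸ u.isUnit
  have := (IsUnit.mul_iff.mp hunit).2
  rw [pow_succ] at this
  exact hπ.not_isUnit (IsUnit.mul_iff.mp this).2

theorem mem_iff_ord_nonneg {f : F} : f ∈ v.toValuationSubring ↔ 0 ≤ v.ord f :=
  ⟨ord_nonneg_of_mem v, mem_of_ord_nonneg v⟩

theorem ord_algebraMap (a : K) : v.ord (algebraMap K F a) = 0 := by
  rcases eq_or_ne a 0 with rfl | ha
  · simp
  have h1 := ord_nonneg_of_mem v (v.algebraMap_mem' a)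
  have h2 := ord_nonneg_of_mem v (v.algebraMap_mem' a⁻¹)
  rw [map_inv₀, v.ord_inv] at h2
  omega

theorem ord_pos_iff_mem_nonunits {f : F} (hf : f ≠ 0) :
    0 < v.ord f ↔ f ∈ v.toValuationSubring.nonunits := by
  rw [ValuationSubring.mem_nonunits_iff_exists_mem_maximalIdeal]
  constructor
  · intro h
    refine ⟨mem_of_ord_nonneg v h.le, ?_⟩
    rw [IsLocalRing.mem_maximalIdeal, mem_nonunits_iff]
    intro hu
    have := v.ord_coe_unit hu.unit
    simp only [IsUnit.unit_spec] at this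
    omega
  · rintro ⟨hmem, hmax⟩
    have h0 := ord_nonneg_of_mem v hmem
    rcases h0.lt_or_eq with h | h
    · exact h
    exfalso
    have hinv : f⁻¹ ∈ v.toValuationSubring := mem_of_ord_nonneg v (by rw [v.ord_inv]; omega)
    rw [IsLocalRing.mem_maximalIdeal, mem_nonunits_iff] at hmax
    apply hmax
    refine IsUnit.of_mul_eq_one (⟨f⁻¹, hinv⟩ : v.toValuationSubring) (Subtype.ext ?_)
    simp [hf]

theorem ord_add_ge {f g : F} (hfg : f + g ≠ 0) :
    min (v.ord f) (v.ord g) ≤ v.ord (f + g) := by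
  rcases eq_or_ne f 0 with rfl | hf
  · simp
  rcases eq_or_ne g 0 with rfl | hg
  · simp
  obtain ⟨π, hπ⟩ := IsDiscreteValuationRing.exists_irreducible v.toValuationSubring
  have hπF : (π : F) ≠ 0 := by
    simpa [ne_eq, ZeroMemClass.coe_eq_zero] using hπ.ne_zero
  set m := min (v.ord f) (v.ord g) with hm
  have hf' : (π : F) ^ (-m) * f ∈ v.toValuationSubring := by
    apply mem_of_ord_nonneg v
    rw [v.ord_mul (zpow_ne_zero _ hπF) hf, v.ord_zpow, v.ord_coe_irreducible hπ]
    have := min_le_left (v.ord f) (v.ord g)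
    omega
  have hg' : (π : F) ^ (-m) * g ∈ v.toValuationSubring := by
    apply mem_of_ord_nonneg v
    rw [v.ord_mul (zpow_ne_zero _ hπF) hg, v.ord_zpow, v.ord_coe_irreducible hπ]
    have := min_le_right (v.ord f) (v.ord g)
    omega
  have hsum := ord_nonneg_of_mem v (add_mem hf' hg')
  rw [← mul_add, v.ord_mul (zpow_ne_zero _ hπF) hfg, v.ord_zpow, v.ord_coe_irreducible hπ] at hsum
  omega

end Basic

end Fermat.Agent.S24.FF

end
-- ===== PACK-END S24/FFBasic.lean

-- ===== PACK-BEGIN Lib/RR/Defs.lean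
section




/-!
# Shared library RR: Riemann's theorem and the Riemann–Roch theorem for function fields

Language: the Prelude's `AlgebraicCurve.Place`, `Divisor`, `riemannRochSpace`, `repartitions`,
`repartitionsOf`, `principalRepartitions`, `H1`, `genusFF`.

Standing hypotheses (`FF1 K F`): every nonzero function has a divisor of degree `0`
(`HasPrincipalDivisors`), every place has degree one (e.g. `K` algebraically closed and finite
residue fields), there is at least one place, and `F` is finite over `K(x)` for some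
transcendental `x`.
-/

set_option autoImplicit false

noncomputable section

open AlgebraicCurve

namespace Fermat.Agent.Lib.RR

variable (K F : Type*) [Field K] [Field F] [Algebra K F]

/-- Standing hypotheses of the RR library: a function field of one variable over `K`, all of whose
places have degree one. -/
class FF1 : Prop where
  /-- every nonzero function has a divisor, of degree zero -/
  hpd : HasPrincipalDivisors K F
  /-- every place has degree one -/
  deg_eq_one : ∀ v : Place K F, v.deg = 1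
  /-- there is a place -/
  nonempty_place : Nonempty (Place K F)
  /-- `F` is a finite extension of a rational function field -/
  exists_finite : ∃ x : F, Transcendental K x ∧
    FiniteDimensional (IntermediateField.adjoin K {x}) F

variable {K F}

/-- `ℓ(D) = dim_K L(D)`. -/
def ell (D : Divisor K F) : ℕ := Module.finrank K (riemannRochSpace D)

/-- The prime divisor of a place. -/
def prim (v : Place K F) : Divisor K F := Finsupp.single v 1

end Fermat.Agent.Lib.RR

end
end
-- ===== PACK-END Lib/RR/Defs.lean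

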