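import Mathlib
import Fermat.Prelude.Def_EllipticCurve_FrobeniusTrace
import Fermat.Prelude.Def_GroupCohomology_ContinuousUnramified
import Fermat.Prelude.Def_ExtEndgame_ProductionDatum
import Fermat.Prelude.Thm_ModularForm_sturm_bound_Gamma0
import Fermat.Prelude.Thm_IsLocalRing_isAdicComplete_of_module_finite
import Fermat.Prelude.Thm_Algebra_finite_maximalSpectrum_and_bijective_localization_of_module_finite
import Fermat.Prelude.Def_GaloisRep_Residual
import Fermat.Prelude.Def_ModularCurve_PeriodHomPair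

-- ===== PACK-BEGIN S31/H202/MatOrth.lean
section


/-!
# S31 / ALG-1, matrix core (helper202)

`A` a local ring, `r : A →+* K` a ring hom to a field killing the maximal ideal, `F : G → Mₙ(A)` a
family of matrices whose reductions span `Mₙ(K)`.  Then

* `mat_eq_zero_of_trace_orth`: `tr (F g * X) = 0` for all `g` implies `X = 0`;
* `span_eq_top_of_span_map_eq_top`: the `F g` span `Mₙ(A)` over `A`.
-/

set_option autoImplicit false

namespace Fermat.Agent.S31.H202

open Matrix

section Core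

variable {A K : Type*} [CommRing A] [IsLocalRing A] [Field K] (r : A →+* K)
variable {ι G : Type*} [Fintype ι] [DecidableEq ι]

/-- the reductions of a spanning family contain a family indexed by `ι × ι` whose coefficient matrix
is invertible. -/
theorem exists_invertible_coeff (hr : ∀ a ∈ IsLocalRing.maximalIdeal A, r a = 0)
    (F : G → Matrix ι ι A)
    (hspan : Submodule.span K (Set.range fun g => (F g).map r) = ⊤) :
    ∃ f : ι × ι → G, IsUnit (Matrix.of fun (a b : ι × ι) => F (f a) b.1 b.2) := by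
  classical
  set s : Set (Matrix ι ι K) := Set.range fun g => (F g).map r with hs
  obtain ⟨f0, hf0, -, hli⟩ := Submodule.exists_fun_fin_finrank_span_eq K s
  have hcard : Module.finrank K (Submodule.span K s) = Fintype.card (ι × ι) := by
    rw [hspan, finrank_top, Module.finrank_matrix, Module.finrank_self, _root_.mul_one,
      Fintype.card_prod]
  let e : ι × ι ≃ Fin (Module.finrank K (Submodule.span K s)) :=
    (Fintype.equivFinOfCardEq hcard.symm)
  choose f1 hf1 using hf0
  refine ⟨fun a => f1 (e a), ?_⟩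
  set P : Matrix (ι × ι) (ι × ι) A := Matrix.of fun (a b : ι × ι) => F (f1 (e a)) b.1 b.2 with hP
  -- the reduction of `P` has linearly independent rows
  have hrow : LinearIndependent K (P.map r).row := by
    have h1 : LinearIndependent K (f0 ∘ e) := hli.comp _ e.injective
    have h2 := h1.map' ((LinearEquiv.curry K K ι ι).symm : (ι → ι → K) →ₗ[K] (ι × ι → K))
      (LinearEquiv.ker _)
    have heq : (P.map r).row
        = ((LinearEquiv.curry K K ι ι).symm : (ι → ι → K) →ₗ[K] (ι × ι → K)) ∘ (f0 ∘ e) := by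
      funext a
      funext b
      have := hf1 (e a)
      show r (F (f1 (e a)) b.1 b.2) = (f0 (e a)) b.1 b.2
      rw [← this]
      rfl
    rw [heq]
    exact h2
  have hunit : IsUnit (P.map r) := Matrix.linearIndependent_rows_iff_isUnit.mp hrow
  rw [Matrix.isUnit_iff_isUnit_det] at hunit ⊢
  have hdet : (P.map r).det = r P.det := by
    rw [← RingHom.mapMatrix_apply, ← RingHom.map_det]
  rw [hdet] at hunit
  by_contra hnu
  have : P.det ∈ IsLocalRing.maximalIdeal A := (IsLocalRing.mem_maximalIdeal _).mpr hnu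
  exact hunit.ne_zero (hr _ this)

/-- **Trace orthogonality**: if the reductions of `F g` span `Mₙ(K)` and `tr (F g * X) = 0` for all
`g`, then `X = 0`. -/
theorem mat_eq_zero_of_trace_orth (hr : ∀ a ∈ IsLocalRing.maximalIdeal A, r a = 0)
    (F : G → Matrix ι ι A)
    (hspan : Submodule.span K (Set.range fun g => (F g).map r) = ⊤)
    (X : Matrix ι ι A) (hX : ∀ g, Matrix.trace (F g * X) = 0) : X = 0 := by
  classical
  obtain ⟨f, hf⟩ := exists_invertible_coeff r hr F hspan
  set P : Matrix (ι × ι) (ι × ι) A := Matrix.of fun (a b : ι × ι) => F (f a) b.1 b.2 with hP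
  have hPx : P *ᵥ (fun b : ι × ι => X b.2 b.1) = 0 := by
    funext a
    have := hX (f a)
    simp only [Matrix.trace, Matrix.diag, Matrix.mul_apply] at this
    simp only [Matrix.mulVec, dotProduct, hP, Matrix.of_apply, Pi.zero_apply]
    rw [Fintype.sum_prod_type]
    exact this
  have hx : (fun b : ι × ι => X b.2 b.1) = 0 := by
    have := Matrix.mulVec_injective_of_isUnit hf
    exact this (by rw [hPx, Matrix.mulVec_zero])
  ext i j
  have := congrFun hx (j, i)
  simpa using this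

/-- **Lifting a spanning family**: if the reductions of `F g` span `Mₙ(K)` over `K`, then the
`F g` span `Mₙ(A)` over `A`. -/
theorem span_eq_top_of_span_map_eq_top (hr : ∀ a ∈ IsLocalRing.maximalIdeal A, r a = 0)
    (F : G → Matrix ι ι A)
    (hspan : Submodule.span K (Set.range fun g => (F g).map r) = ⊤) :
    Submodule.span A (Set.range F) = ⊤ := by
  classical
  obtain ⟨f, hf⟩ := exists_invertible_coeff r hr F hspan
  set P : Matrix (ι × ι) (ι × ι) A := Matrix.of fun (a b : ι × ι) => F (f a) b.1 b.2 with hP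
  obtain ⟨Q, hQ⟩ : ∃ Q : Matrix (ι × ι) (ι × ι) A, Q * P = 1 := by
    obtain ⟨u, hu⟩ := hf
    exact ⟨(u⁻¹ : (Matrix (ι × ι) (ι × ι) A)ˣ), by rw [← hu]; exact Units.inv_mul u⟩
  rw [eq_top_iff]
  intro M _
  -- `M = ∑_a (∑_b M b * Q b a) • F (f a)`
  have hM : M = ∑ a : ι × ι, (∑ b : ι × ι, M b.1 b.2 * Q b a) • F (f a) := by
    ext i j
    rw [Matrix.sum_apply]
    simp only [Matrix.smul_apply, smul_eq_mul]
    have h1 : ∀ a : ι × ι, (∑ b : ι × ι, M b.1 b.2 * Q b a) * F (f a) i j
        = ∑ b : ι × ι, M b.1 b.2 * (Q b a * P a (i, j)) := by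
      intro a
      rw [Finset.sum_mul]
      refine Finset.sum_congr rfl fun b _ => ?_
      rw [hP, Matrix.of_apply, _root_.mul_assoc]
    simp_rw [h1]
    rw [Finset.sum_comm]
    have h2 : ∀ b : ι × ι, ∑ a : ι × ι, M b.1 b.2 * (Q b a * P a (i, j))
        = M b.1 b.2 * (1 : Matrix (ι × ι) (ι × ι) A) b (i, j) := by
      intro b
      rw [← hQ, Matrix.mul_apply, Finset.mul_sum]
    simp_rw [h2]
    rw [Finset.sum_eq_single (i, j)]
    · simp
    · intro b _ hb
      rw [Matrix.one_apply_ne hb, _root_.MulZeroClass.mul_zero]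
    · intro h
      exact absurd (Finset.mem_univ _) h
  rw [hM]
  refine Submodule.sum_mem _ fun a _ => Submodule.smul_mem _ _ (Submodule.subset_span ⟨f a, rfl⟩)

end Core

end Fermat.Agent.S31.H202

end
-- ===== PACK-END S31/H202/MatOrth.lean

-- ===== PACK-BEGIN Lib/Cheb/H341/Abstract.lean
section


/-!
# CHEB piece M, abstract part (helper341)

Prime Dirichlet sums `pSum b s = ∑' p, b p * p ^ (-s)` of bounded coefficient functions,
the relation `Near b c` (`pSum b s = c * log (1/(s-1)) + O(1)` on `(1, 2]`), and the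
subgroup induction: if for every subgroup `H` of a finite group the sum over `X ≤ H` of `g X`
is `Near (card H)`, then each `g X` is `Near (psi X)`, `psi X` = number of generators of `X`.
-/

set_option autoImplicit false

namespace Fermat.Agent.Lib.Cheb.H341

open Finset

/-- `ell s = log (1 / (s - 1))`. -/
noncomputable def ell (s : ℝ) : ℝ := Real.log (1 / (s - 1))

/-- The prime Dirichlet sum of a coefficient function. -/
noncomputable def pSum (b : Nat.Primes → ℝ) (s : ℝ) : ℝ :=
  ∑' p : Nat.Primes, b p * (p : ℝ) ^ (-s)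

/-- Bounded coefficient function. -/
def Bdd (b : Nat.Primes → ℝ) : Prop := ∃ K : ℝ, ∀ p, |b p| ≤ K

/-- `pSum b s = c * ell s + O(1)` on `(1, 2]`. -/
def Near (b : Nat.Primes → ℝ) (c : ℝ) : Prop :=
  ∃ C : ℝ, ∀ s : ℝ, 1 < s → s ≤ 2 → |pSum b s - c * ell s| ≤ C

theorem Bdd.add {b₁ b₂ : Nat.Primes → ℝ} (h₁ : Bdd b₁) (h₂ : Bdd b₂) :
    Bdd (fun p => b₁ p + b₂ p) := by
  obtain ⟨K₁, hK₁⟩ := h₁
  obtain ⟨K₂, hK₂⟩ := h₂
  exact ⟨K₁ + K₂, fun p => (abs_add_le _ _).trans (add_le_add (hK₁ p) (hK₂ p))⟩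

theorem Bdd.neg {b : Nat.Primes → ℝ} (h : Bdd b) : Bdd (fun p => - b p) := by
  obtain ⟨K, hK⟩ := h
  exact ⟨K, fun p => by rw [abs_neg]; exact hK p⟩

theorem Bdd.sub {b₁ b₂ : Nat.Primes → ℝ} (h₁ : Bdd b₁) (h₂ : Bdd b₂) :
    Bdd (fun p => b₁ p - b₂ p) := by
  simpa [sub_eq_add_neg] using h₁.add h₂.neg

theorem Bdd.const_mul {b : Nat.Primes → ℝ} (h : Bdd b) (k : ℝ) : Bdd (fun p => k * b p) := by
  obtain ⟨K, hK⟩ := h
  refine ⟨|k| * K, fun p => ?_⟩
  rw [abs_mul]
  exact mul_le_mul_of_nonneg_left (hK p) (abs_nonneg k)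

theorem bdd_zero : Bdd (fun _ => 0) := ⟨0, fun _ => by simp⟩

theorem Bdd.finset_sum {ι : Type*} (t : Finset ι) (b : ι → Nat.Primes → ℝ)
    (h : ∀ i ∈ t, Bdd (b i)) : Bdd (fun p => ∑ i ∈ t, b i p) := by
  classical
  induction t using Finset.induction_on with
  | empty => simpa using bdd_zero
  | insert a t ha ih =>
    have h1 : Bdd (b a) := h a (mem_insert_self a t)
    have h2 : Bdd (fun p => ∑ i ∈ t, b i p) := ih (fun i hi => h i (mem_insert_of_mem hi))
    obtain ⟨K, hK⟩ := h1.add h2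
    refine ⟨K, fun p => ?_⟩
    simpa [sum_insert ha] using hK p

theorem summable_of_bdd {b : Nat.Primes → ℝ} (hb : Bdd b) {s : ℝ} (hs : 1 < s) :
    Summable (fun p : Nat.Primes => b p * (p : ℝ) ^ (-s)) := by
  obtain ⟨K, hK⟩ := hb
  have h1 : Summable (fun p : Nat.Primes => K * (p : ℝ) ^ (-s)) :=
    (Nat.Primes.summable_rpow.mpr (by linarith)).mul_left K
  refine Summable.of_norm_bounded h1 (fun p => ?_)
  rw [Real.norm_eq_abs, abs_mul]
  have hp : (0:ℝ) ≤ (p : ℝ) ^ (-s) := Real.rpow_nonneg (Nat.cast_nonneg _) _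
  rw [abs_of_nonneg hp]
  exact mul_le_mul_of_nonneg_right (hK p) hp

theorem pSum_add {b₁ b₂ : Nat.Primes → ℝ} (h₁ : Bdd b₁) (h₂ : Bdd b₂) {s : ℝ} (hs : 1 < s) :
    pSum (fun p => b₁ p + b₂ p) s = pSum b₁ s + pSum b₂ s := by
  unfold pSum
  rw [← (summable_of_bdd h₁ hs).tsum_add (summable_of_bdd h₂ hs)]
  exact tsum_congr (fun p => by ring)

theorem pSum_neg (b : Nat.Primes → ℝ) (s : ℝ) :
    pSum (fun p => - b p) s = - pSum b s := by
  unfold pSum
  rw [← tsum_neg]
  exact tsum_congr (fun p => by ring)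

theorem pSum_sub {b₁ b₂ : Nat.Primes → ℝ} (h₁ : Bdd b₁) (h₂ : Bdd b₂) {s : ℝ} (hs : 1 < s) :
    pSum (fun p => b₁ p - b₂ p) s = pSum b₁ s - pSum b₂ s := by
  have := pSum_add h₁ h₂.neg hs
  simp only [pSum_neg] at this
  simpa [sub_eq_add_neg] using this

theorem pSum_const_mul (b : Nat.Primes → ℝ) (k : ℝ) (s : ℝ) :
    pSum (fun p => k * b p) s = k * pSum b s := by
  unfold pSum
  rw [← tsum_mul_left]
  exact tsum_congr (fun p => by ring)

theorem pSum_zero (s : ℝ) : pSum (fun _ => 0) s = 0 := by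
  unfold pSum
  simp

theorem Near.add {b₁ b₂ : Nat.Primes → ℝ} {c₁ c₂ : ℝ} (hb₁ : Bdd b₁) (hb₂ : Bdd b₂)
    (h₁ : Near b₁ c₁) (h₂ : Near b₂ c₂) : Near (fun p => b₁ p + b₂ p) (c₁ + c₂) := by
  obtain ⟨C₁, hC₁⟩ := h₁
  obtain ⟨C₂, hC₂⟩ := h₂
  refine ⟨C₁ + C₂, fun s hs hs2 => ?_⟩
  rw [pSum_add hb₁ hb₂ hs]
  have e : pSum b₁ s + pSum b₂ s - (c₁ + c₂) * ell s =
      (pSum b₁ s - c₁ * ell s) + (pSum b₂ s - c₂ * ell s) := by ring
  rw [e]
  exact (abs_add_le _ _).trans (add_le_add (hC₁ s hs hs2) (hC₂ s hs hs2))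

theorem Near.neg {b : Nat.Primes → ℝ} {c : ℝ} (h : Near b c) : Near (fun p => - b p) (-c) := by
  obtain ⟨C, hC⟩ := h
  refine ⟨C, fun s hs hs2 => ?_⟩
  rw [pSum_neg]
  have e : -pSum b s - -c * ell s = -(pSum b s - c * ell s) := by ring
  rw [e, abs_neg]
  exact hC s hs hs2

theorem Near.sub {b₁ b₂ : Nat.Primes → ℝ} {c₁ c₂ : ℝ} (hb₁ : Bdd b₁) (hb₂ : Bdd b₂)
    (h₁ : Near b₁ c₁) (h₂ : Near b₂ c₂) : Near (fun p => b₁ p - b₂ p) (c₁ - c₂) := by
  simpa [sub_eq_add_neg] using Near.add hb₁ hb₂.neg h₁ h₂.neg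

theorem Near.const_mul {b : Nat.Primes → ℝ} {c : ℝ} (h : Near b c) (k : ℝ) :
    Near (fun p => k * b p) (k * c) := by
  obtain ⟨C, hC⟩ := h
  refine ⟨|k| * C, fun s hs hs2 => ?_⟩
  rw [pSum_const_mul]
  have e : k * pSum b s - k * c * ell s = k * (pSum b s - c * ell s) := by ring
  rw [e, abs_mul]
  exact mul_le_mul_of_nonneg_left (hC s hs hs2) (abs_nonneg k)

theorem near_zero : Near (fun _ => 0) 0 :=
  ⟨0, fun s _ _ => by simp [pSum_zero]⟩

theorem Near.finset_sum {ι : Type*} (t : Finset ι) (b : ι → Nat.Primes → ℝ) (c : ι → ℝ)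
    (hb : ∀ i ∈ t, Bdd (b i)) (h : ∀ i ∈ t, Near (b i) (c i)) :
    Near (fun p => ∑ i ∈ t, b i p) (∑ i ∈ t, c i) := by
  classical
  induction t using Finset.induction_on with
  | empty => simpa using near_zero
  | insert a t ha ih =>
    have h1 : Near (b a) (c a) := h a (mem_insert_self a t)
    have hb1 : Bdd (b a) := hb a (mem_insert_self a t)
    have hb2 : Bdd (fun p => ∑ i ∈ t, b i p) :=
      Bdd.finset_sum t b (fun i hi => hb i (mem_insert_of_mem hi))
    have h2 := ih (fun i hi => hb i (mem_insert_of_mem hi)) (fun i hi => h i (mem_insert_of_mem hi))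
    have := Near.add hb1 hb2 h1 h2
    rw [sum_insert ha]
    refine ⟨this.choose, fun s hs hs2 => ?_⟩
    have e : (fun p => ∑ i ∈ insert a t, b i p) = fun p => b a p + ∑ i ∈ t, b i p := by
      funext p
      rw [sum_insert ha]
    rw [e]
    exact this.choose_spec s hs hs2

/-- A finitely supported coefficient function has bounded prime sum. -/
theorem near_zero_of_finite_support {b : Nat.Primes → ℝ} (T : Finset Nat.Primes)
    (h : ∀ p, p ∉ T → b p = 0) : Near b 0 := by
  refine ⟨∑ p ∈ T, |b p|, fun s hs _ => ?_⟩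
  have e : pSum b s = ∑ p ∈ T, b p * (p : ℝ) ^ (-s) := by
    unfold pSum
    exact tsum_eq_sum (fun p hp => by rw [h p hp, zero_mul])
  rw [e, zero_mul, sub_zero]
  refine (abs_sum_le_sum_abs _ _).trans (sum_le_sum (fun p _ => ?_))
  rw [abs_mul]
  have hp0 : (0:ℝ) ≤ (p : ℝ) ^ (-s) := Real.rpow_nonneg (Nat.cast_nonneg _) _
  rw [abs_of_nonneg hp0]
  have hp1 : (p : ℝ) ^ (-s) ≤ 1 := by
    have h1 : (1:ℝ) ≤ (p : ℝ) := by exact_mod_cast p.2.one_lt.le
    exact Real.rpow_le_one_of_one_le_of_nonpos h1 (by linarith)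
  calc |b p| * (p : ℝ) ^ (-s) ≤ |b p| * 1 := mul_le_mul_of_nonneg_left hp1 (abs_nonneg _)
    _ = |b p| := mul_one _

theorem bdd_of_finite_support {b : Nat.Primes → ℝ} (T : Finset Nat.Primes)
    (h : ∀ p, p ∉ T → b p = 0) : Bdd b := by
  refine ⟨∑ p ∈ T, |b p|, fun p => ?_⟩
  by_cases hp : p ∈ T
  · exact single_le_sum (f := fun p => |b p|) (fun i _ => abs_nonneg _) hp
  · rw [h p hp, abs_zero]
    exact sum_nonneg (fun i _ => abs_nonneg _)

/-- Changing a bounded coefficient function on a finite set does not change `Near`. -/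
theorem Near.congr_off_finite {b b' : Nat.Primes → ℝ} {c : ℝ} (hb : Bdd b) (h : Near b c)
    (T : Finset Nat.Primes) (hT : ∀ p, p ∉ T → b' p = b p) : Near b' c := by
  have hd : ∀ p, p ∉ T → (fun p => b' p - b p) p = 0 := fun p hp => by simp [hT p hp]
  have h1 := near_zero_of_finite_support T hd
  have hb1 := bdd_of_finite_support T hd
  have := Near.add hb hb1 h h1
  have e : (fun p => b p + (b' p - b p)) = b' := by funext p; ring
  rw [e, add_zero] at this
  exact this

theorem ell_unbounded (M : ℝ) : ∃ s : ℝ, 1 < s ∧ s ≤ 2 ∧ M < ell s := by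
  refine ⟨1 + Real.exp (-(_root_.Max.max M 0 + 1)), ?_, ?_, ?_⟩
  · have := Real.exp_pos (-(_root_.Max.max M 0 + 1))
    linarith
  · have : Real.exp (-(_root_.Max.max M 0 + 1)) ≤ 1 := by
      rw [Real.exp_le_one_iff]
      have := le_max_right M 0
      linarith
    linarith
  · unfold ell
    have e : (1 + Real.exp (-(_root_.Max.max M 0 + 1)) - 1) = Real.exp (-(_root_.Max.max M 0 + 1)) := by ring
    rw [e, one_div, ← Real.exp_neg, Real.log_exp]
    have := le_max_left M 0
    linarith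

/-- If `pSum b = c * ell + O(1)` with `c ≠ 0`, then `b` is not identically zero. -/
theorem Near.exists_ne_zero {b : Nat.Primes → ℝ} {c : ℝ} (h : Near b c) (hc : c ≠ 0) :
    ∃ p, b p ≠ 0 := by
  by_contra hcon
  push Not at hcon
  obtain ⟨C, hC⟩ := h
  have hb : b = fun _ => 0 := funext hcon
  obtain ⟨s, hs, hs2, hM⟩ := ell_unbounded (C / |c|)
  have := hC s hs hs2
  rw [hb, pSum_zero, zero_sub, abs_neg, abs_mul] at this
  have hcpos : 0 < |c| := abs_pos.mpr hc
  have h2 : C / |c| < |ell s| := lt_of_lt_of_le hM (le_abs_self _)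
  rw [div_lt_iff₀ hcpos] at h2
  linarith [mul_comm |c| |ell s|]

/-! ## Subgroup induction -/

section Group

variable {G : Type*} [Group G] [Finite G]

/-- Number of generators of the subgroup `X`. -/
noncomputable def psi (X : Subgroup G) : ℕ := Nat.card {x : G // Subgroup.zpowers x = X}

/-- The finite set of subgroups contained in `H`. -/
noncomputable def subLe (H : Subgroup G) : Finset (Subgroup G) :=
  (Set.toFinite {X : Subgroup G | X ≤ H}).toFinset

/-- The finite set of subgroups strictly contained in `H`. -/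
noncomputable def subLt (H : Subgroup G) : Finset (Subgroup G) :=
  (Set.toFinite {X : Subgroup G | X < H}).toFinset

@[simp] theorem mem_subLe {H X : Subgroup G} : X ∈ subLe H ↔ X ≤ H := by
  simp [subLe]

@[simp] theorem mem_subLt {H X : Subgroup G} : X ∈ subLt H ↔ X < H := by
  simp [subLt]

theorem subLe_eq_insert (X : Subgroup G) [DecidableEq (Subgroup G)] :
    subLe X = insert X (subLt X) := by
  ext Y
  simp only [mem_subLe, mem_insert, mem_subLt]
  constructor
  · intro hY
    rcases eq_or_lt_of_le hY with h1 | h1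
    · exact Or.inl h1
    · exact Or.inr h1
  · rintro (h1 | h1)
    · exact h1.le
    · exact h1.le

theorem sum_psi (H : Subgroup G) : ∑ X ∈ subLe H, psi X = Nat.card H := by
  classical
  have : Fintype G := Fintype.ofFinite _
  have h1 : ∀ X : Subgroup G,
      psi X = (Finset.univ.filter (fun x : G => Subgroup.zpowers x = X)).card := by
    intro X
    unfold psi
    rw [Nat.card_eq_fintype_card, Fintype.card_subtype]
  have h2 : Nat.card H = (Finset.univ.filter (fun x : G => x ∈ H)).card := by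
    rw [Nat.card_eq_fintype_card, Fintype.card_subtype]
  rw [h2]
  simp only [h1]
  rw [← Finset.card_biUnion]
  · congr 1
    ext x
    simp only [mem_biUnion, mem_filter, mem_univ, true_and, mem_subLe]
    constructor
    · rintro ⟨X, hX, rfl⟩
      exact hX (Subgroup.mem_zpowers x)
    · intro hx
      exact ⟨Subgroup.zpowers x, (Subgroup.zpowers_le).mpr hx, rfl⟩
  · intro X _ Y _ hXY
    rw [Function.onFun, Finset.disjoint_left]
    intro x hx hy
    simp only [mem_filter, mem_univ, true_and] at hx hy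
    exact hXY (hx.symm.trans hy)

/-- **Subgroup induction.** -/
theorem near_psi_of_near_card (g : Subgroup G → Nat.Primes → ℝ) (hb : ∀ X, Bdd (g X))
    (h : ∀ H : Subgroup G, Near (fun p => ∑ X ∈ subLe H, g X p) (Nat.card H)) :
    ∀ X : Subgroup G, Near (g X) (psi X) := by
  classical
  intro X
  induction X using WellFoundedLT.induction with
  | ind X ih =>
    have hsplit := subLe_eq_insert X
    have hnot : X ∉ subLt X := by simp
    have hlow : Near (fun p => ∑ Y ∈ subLt X, g Y p) (∑ Y ∈ subLt X, (psi Y : ℝ)) :=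
      Near.finset_sum _ g (fun Y => (psi Y : ℝ)) (fun Y _ => hb Y)
        (fun Y hY => ih Y (by simpa using hY))
    have hblow : Bdd (fun p => ∑ Y ∈ subLt X, g Y p) :=
      Bdd.finset_sum _ g (fun Y _ => hb Y)
    have hball : Bdd (fun p => ∑ Y ∈ subLe X, g Y p) :=
      Bdd.finset_sum _ g (fun Y _ => hb Y)
    have hsub := Near.sub hball hblow (h X) hlow
    have e1 : (fun p => (∑ Y ∈ subLe X, g Y p) - ∑ Y ∈ subLt X, g Y p) = g X := by
      funext p
      rw [hsplit, sum_insert hnot]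
      ring
    have e2 : ((Nat.card X : ℝ) - ∑ Y ∈ subLt X, (psi Y : ℝ)) = psi X := by
      have := sum_psi X
      rw [hsplit, sum_insert hnot] at this
      have h3 : ((psi X : ℝ) + ∑ Y ∈ subLt X, (psi Y : ℝ)) = (Nat.card X : ℝ) := by
        exact_mod_cast this
      linarith
    rw [e1, e2] at hsub
    exact hsub

theorem psi_zpowers_pos (σ : G) : 0 < psi (Subgroup.zpowers σ) := by
  unfold psi
  have : _root_.Nonempty {x : G // Subgroup.zpowers x = Subgroup.zpowers σ} := ⟨⟨σ, rfl⟩⟩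
  exact Nat.card_pos

end Group

end Fermat.Agent.Lib.Cheb.H341

end
-- ===== PACK-END Lib/Cheb/H341/Abstract.lean

-- ===== PACK-BEGIN Lib/Cheb/H223/Crossing.lean
section


/-!
# Chebotarev field crossing: the Galois-theoretic part (helper223, shared lib CHEB)

Let `L / ℚ` be a finite Galois extension inside `ℚ̄` and `σ ∈ Gal(ℚ̄/ℚ)`.  We produce a prime `ℓ`
(as large as we like), a primitive `ℓ`-th root of unity `ζ` and `g ∈ Gal(ℚ̄/ℚ)` such that
`g = σ` on `L`, `g ζ = ζ ^ t`, and every power of `g` fixing `ζ` fixes `L` pointwise.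
-/

set_option autoImplicit false
set_option linter.style.haveILetI false


namespace Fermat.Agent.Lib.Cheb.H223

open IntermediateField Polynomial

set_option backward.isDefEq.respectTransparency false in
/-- Two cyclotomic fields of distinct prime levels inside a field of characteristic zero
meet in `ℚ`. -/
theorem cyclo_inf_eq_bot {K : Type*} [Field K] [CharZero K] [Algebra.IsAlgebraic ℚ K]
    {p₁ p₂ : ℕ} (hp₁ : p₁.Prime) (hp₂ : p₂.Prime) (hne : p₁ ≠ p₂) {ζ₁ ζ₂ : K}
    (h₁ : IsPrimitiveRoot ζ₁ p₁) (h₂ : IsPrimitiveRoot ζ₂ p₂) :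
    ℚ⟮ζ₁⟯ ⊓ ℚ⟮ζ₂⟯ = ⊥ := by
  haveI : NeZero p₁ := ⟨hp₁.ne_zero⟩
  haveI : NeZero p₂ := ⟨hp₂.ne_zero⟩
  haveI : Algebra.IsIntegral ℚ K := Algebra.IsAlgebraic.isIntegral
  haveI c₁ : IsCyclotomicExtension {p₁} ℚ ℚ⟮ζ₁⟯ := h₁.intermediateField_adjoin_isCyclotomicExtension ℚ
  haveI c₂ : IsCyclotomicExtension {p₂} ℚ ℚ⟮ζ₂⟯ := h₂.intermediateField_adjoin_isCyclotomicExtension ℚ
  haveI : FiniteDimensional ℚ ℚ⟮ζ₁⟯ := IsCyclotomicExtension.finiteDimensional {p₁} ℚ _
  haveI : FiniteDimensional ℚ ℚ⟮ζ₂⟯ := IsCyclotomicExtension.finiteDimensional {p₂} ℚ _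
  have hcop : Nat.Coprime p₁ p₂ := (Nat.coprime_primes hp₁ hp₂).mpr hne
  haveI : NeZero (p₁.lcm p₂) := ⟨Nat.lcm_ne_zero hp₁.ne_zero hp₂.ne_zero⟩
  haveI c₃ : IsCyclotomicExtension {p₁.lcm p₂} ℚ ↥(ℚ⟮ζ₁⟯ ⊔ ℚ⟮ζ₂⟯) :=
    IntermediateField.isCyclotomicExtension_lcm_sup ℚ K p₁ p₂ ℚ⟮ζ₁⟯ ℚ⟮ζ₂⟯
  have f₁ : Module.finrank ℚ ℚ⟮ζ₁⟯ = p₁.totient :=
    IsCyclotomicExtension.finrank _ (cyclotomic.irreducible_rat hp₁.pos)
  have f₂ : Module.finrank ℚ ℚ⟮ζ₂⟯ = p₂.totient :=
    IsCyclotomicExtension.finrank _ (cyclotomic.irreducible_rat hp₂.pos)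
  have f₃ : Module.finrank ℚ ↥(ℚ⟮ζ₁⟯ ⊔ ℚ⟮ζ₂⟯) = (p₁.lcm p₂).totient :=
    IsCyclotomicExtension.finrank _ (cyclotomic.irreducible_rat (Nat.pos_of_ne_zero (NeZero.ne _)))
  have hld : (ℚ⟮ζ₁⟯).LinearDisjoint ℚ⟮ζ₂⟯ := by
    apply LinearDisjoint.of_finrank_sup
    rw [f₁, f₂, f₃, hcop.lcm_eq_mul, Nat.totient_mul hcop]
  exact hld.inf_eq_bot

/-- For a finite extension `L / ℚ` inside `K` there are arbitrarily large primes `ℓ ≡ 1 (mod n)`
whose cyclotomic field meets `L` in `ℚ`. -/
theorem exists_prime_disjoint {K : Type*} [Field K] [CharZero K] [Algebra.IsAlgebraic ℚ K]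
    (hroots : ∀ m : ℕ, m ≠ 0 → ∃ ζ : K, IsPrimitiveRoot ζ m)
    (L : IntermediateField ℚ K) [FiniteDimensional ℚ L] {n : ℕ} (hn : n ≠ 0) (B : ℕ) :
    ∃ (ℓ : ℕ) (ζ : K), ℓ.Prime ∧ B < ℓ ∧ ℓ ≡ 1 [MOD n] ∧ IsPrimitiveRoot ζ ℓ ∧
      L ⊓ ℚ⟮ζ⟯ = ⊥ := by
  classical
  have hfin : Finite (IntermediateField ℚ L) :=
    Field.finite_intermediateField_of_exists_primitive_element ℚ L
      (Field.exists_primitive_element ℚ L)
  -- choose primitive roots
  have hroots' : ∀ m : ℕ, ∃ ζ : K, m ≠ 0 → IsPrimitiveRoot ζ m := fun m => by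
    by_cases hm : m = 0
    · exact ⟨1, fun h => absurd hm h⟩
    · obtain ⟨ζ, hζ⟩ := hroots m hm
      exact ⟨ζ, fun _ => hζ⟩
  choose z hz using hroots'
  let f : ℕ → IntermediateField ℚ L := fun p =>
    IntermediateField.restrict (inf_le_left : L ⊓ ℚ⟮z p⟯ ≤ L)
  have hinf : ({p : ℕ | p.Prime ∧ p ≡ 1 [MOD n]} \ Set.Iic B).Infinite :=
    (Nat.infinite_setOfPred_prime_modEq_one hn).sdiff (Set.finite_Iic B)
  obtain ⟨p₁, hp₁, p₂, hp₂, hne, hf⟩ :=
    hinf.exists_ne_map_eq_of_mapsTo (f := f) (t := Set.univ) (fun _ _ => Set.mem_univ _)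
      Set.finite_univ
  have hf' : L ⊓ ℚ⟮z p₁⟯ = L ⊓ ℚ⟮z p₂⟯ := by
    have := congrArg IntermediateField.lift hf
    simpa only [f, IntermediateField.lift_restrict] using this
  refine ⟨p₁, z p₁, hp₁.1.1, ?_, hp₁.1.2, hz p₁ hp₁.1.1.ne_zero, ?_⟩
  · have := hp₁.2
    simpa using this
  · have h1 : L ⊓ ℚ⟮z p₁⟯ ≤ ℚ⟮z p₁⟯ ⊓ ℚ⟮z p₂⟯ :=
      le_inf inf_le_right (hf' ▸ inf_le_right)
    rw [cyclo_inf_eq_bot hp₁.1.1 hp₂.1.1 hne (hz p₁ hp₁.1.1.ne_zero)
      (hz p₂ hp₂.1.1.ne_zero)] at h1
    exact le_bot_iff.mp h1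

/-- `ℚ̄ / ℚ` is Galois. -/
theorem isGalois_Qb : IsGalois ℚ (AlgebraicClosure ℚ) := by
  haveI : Algebra.IsAlgebraic ℚ (AlgebraicClosure ℚ) := AlgebraicClosure.isAlgebraic ℚ
  haveI : IsAlgClosure ℚ (AlgebraicClosure ℚ) := ⟨inferInstance, inferInstance⟩
  haveI : Normal ℚ (AlgebraicClosure ℚ) := IsAlgClosure.normal ℚ (AlgebraicClosure ℚ)
  exact isGalois_iff.mpr ⟨inferInstance, inferInstance⟩

/-- If `L ∩ C = ℚ` with `C / ℚ` finite Galois, every pair `(σ|_L, τ)` with `τ ∈ Gal(C/ℚ)` is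
induced by an element of `Gal(ℚ̄/ℚ)`. -/
theorem exists_common_extension (L C : IntermediateField ℚ (AlgebraicClosure ℚ))
    [FiniteDimensional ℚ C] [IsGalois ℚ C] (h : L ⊓ C = ⊥)
    (σ : AlgebraicClosure ℚ ≃ₐ[ℚ] AlgebraicClosure ℚ) (τ : C ≃ₐ[ℚ] C) :
    ∃ g : AlgebraicClosure ℚ ≃ₐ[ℚ] AlgebraicClosure ℚ,
      (∀ x ∈ L, g x = σ x) ∧ AlgEquiv.restrictNormalHom C g = τ := by
  haveI := isGalois_Qb
  set H : Subgroup (C ≃ₐ[ℚ] C) := L.fixingSubgroup.map (AlgEquiv.restrictNormalHom C) with hH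
  have hfix : IntermediateField.fixedField H = ⊥ := by
    rw [eq_bot_iff]
    intro x hx
    rw [IntermediateField.mem_fixedField_iff] at hx
    have hxL : (x : AlgebraicClosure ℚ) ∈ L := by
      rw [← InfiniteGalois.fixedField_fixingSubgroup L, IntermediateField.mem_fixedField_iff]
      intro f hf
      have := hx (AlgEquiv.restrictNormalHom C f) (Subgroup.mem_map_of_mem _ hf)
      have h2 := congrArg (Subtype.val) this
      exact (AlgEquiv.restrictNormal_commutes f C x).symm.trans h2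
    have hxLC : (x : AlgebraicClosure ℚ) ∈ L ⊓ C := ⟨hxL, x.2⟩
    rw [h, IntermediateField.mem_bot] at hxLC
    obtain ⟨q, hq⟩ := hxLC
    rw [IntermediateField.mem_bot]
    exact ⟨q, Subtype.ext hq⟩
  have htop : H = ⊤ := by
    rw [← IntermediateField.fixingSubgroup_fixedField H, hfix,
      IntermediateField.fixingSubgroup_bot]
  have hmem : (AlgEquiv.restrictNormalHom C σ)⁻¹ * τ ∈ H := htop ▸ Subgroup.mem_top _
  obtain ⟨f, hf, hfτ⟩ := Subgroup.mem_map.mp hmem
  refine ⟨σ * f, fun x hx => ?_, ?_⟩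
  · rw [AlgEquiv.mul_apply, (IntermediateField.mem_fixingSubgroup_iff L f).mp hf x hx]
  · rw [_root_.map_mul, hfτ, mul_inv_cancel_left]

/-- primitive roots of unity exist in `ℚ̄` -/
theorem exists_primitiveRoot_Qb (m : ℕ) (hm : m ≠ 0) :
    ∃ ζ : AlgebraicClosure ℚ, IsPrimitiveRoot ζ m := by
  haveI : NeZero m := ⟨hm⟩
  haveI : NeZero (m : AlgebraicClosure ℚ) := ⟨by exact_mod_cast hm⟩
  exact HasEnoughRootsOfUnity.exists_primitiveRoot _ m

/-- a unit of prescribed order dividing `ℓ - 1` modulo a prime `ℓ` -/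
theorem exists_unit_orderOf {ℓ n : ℕ} (hℓ : ℓ.Prime) (h : ℓ ≡ 1 [MOD n]) :
    ∃ u : (ZMod ℓ)ˣ, orderOf u = n := by
  haveI : Fact ℓ.Prime := ⟨hℓ⟩
  obtain ⟨r, hr⟩ := IsCyclic.exists_ofOrder_eq_natCard (α := (ZMod ℓ)ˣ)
  have hcard : Nat.card (ZMod ℓ)ˣ = ℓ - 1 := by
    rw [Nat.card_eq_fintype_card, ZMod.card_units_eq_totient, Nat.totient_prime hℓ]
  have hdvd : n ∣ ℓ - 1 := (Nat.modEq_iff_dvd' hℓ.one_lt.le).mp h.symm
  obtain ⟨c, hc⟩ := hdvd
  have hc0 : c ≠ 0 := by
    rintro rfl
    have := hℓ.one_lt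
    omega
  refine ⟨r ^ c, ?_⟩
  rw [orderOf_pow_of_dvd hc0 (by rw [hr, hcard, hc]; exact dvd_mul_left c n), hr, hcard, hc]
  exact Nat.mul_div_cancel _ (Nat.pos_of_ne_zero hc0)

set_option backward.isDefEq.respectTransparency false in
/-- **Field crossing.** -/
theorem exists_crossing (L : IntermediateField ℚ (AlgebraicClosure ℚ)) [FiniteDimensional ℚ L]
    [IsGalois ℚ L] (σ : AlgebraicClosure ℚ ≃ₐ[ℚ] AlgebraicClosure ℚ) (B : ℕ) :
    ∃ (ℓ : ℕ) (ζ : AlgebraicClosure ℚ) (g : AlgebraicClosure ℚ ≃ₐ[ℚ] AlgebraicClosure ℚ)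
      (t : ℕ), ℓ.Prime ∧ B < ℓ ∧ IsPrimitiveRoot ζ ℓ ∧ (∀ x ∈ L, g x = σ x) ∧ g ζ = ζ ^ t ∧
        ∀ k : ℕ, ζ ^ t ^ k = ζ → ∀ x ∈ L, (g ^ k) x = x := by
  haveI : Algebra.IsAlgebraic ℚ (AlgebraicClosure ℚ) := AlgebraicClosure.isAlgebraic ℚ
  haveI : Algebra.IsIntegral ℚ (AlgebraicClosure ℚ) := Algebra.IsAlgebraic.isIntegral
  set s₀ := AlgEquiv.restrictNormalHom L σ with hs₀
  set n := orderOf s₀
  have hn0 : n ≠ 0 := (orderOf_pos s₀).ne'
  obtain ⟨ℓ, ζ, hℓ, hB, hmod, hζ, hdisj⟩ := exists_prime_disjoint exists_primitiveRoot_Qb L hn0 B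
  haveI : NeZero ℓ := ⟨hℓ.ne_zero⟩
  haveI : Fact ℓ.Prime := ⟨hℓ⟩
  haveI hcyc : IsCyclotomicExtension {ℓ} ℚ ℚ⟮ζ⟯ :=
    hζ.intermediateField_adjoin_isCyclotomicExtension ℚ
  haveI : NumberField ℚ⟮ζ⟯ := IsCyclotomicExtension.numberField {ℓ} ℚ _
  haveI : IsGalois ℚ ℚ⟮ζ⟯ := IsCyclotomicExtension.isGalois {ℓ} ℚ _
  haveI : FiniteDimensional ℚ ℚ⟮ζ⟯ := IsCyclotomicExtension.finiteDimensional {ℓ} ℚ _
  obtain ⟨u, hu⟩ := exists_unit_orderOf hℓ hmod
  set τ := (IsCyclotomicExtension.Rat.galEquivZMod ℓ ℚ⟮ζ⟯).symm u with hτ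
  obtain ⟨g, hgL, hgC⟩ := exists_common_extension L ℚ⟮ζ⟯ hdisj σ τ
  set t := (u : ZMod ℓ).val with ht
  have hgζ : g ζ = ζ ^ t := by
    let ζC : ℚ⟮ζ⟯ := ⟨ζ, mem_adjoin_simple_self ℚ ζ⟩
    have h1 : ζC ^ ℓ = 1 := Subtype.ext (by simpa using hζ.pow_eq_one)
    have h2 := IsCyclotomicExtension.Rat.galEquivZMod_apply_of_pow_eq ℓ ℚ⟮ζ⟯ τ h1
    rw [hτ, MulEquiv.apply_symm_apply] at h2
    have h3 := congrArg Subtype.val h2
    rw [← hτ, ← hgC] at h3
    have h4 := AlgEquiv.restrictNormal_commutes g ℚ⟮ζ⟯ ζC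
    have h3' : (((AlgEquiv.restrictNormalHom ↥ℚ⟮ζ⟯) g) ζC : AlgebraicClosure ℚ) = ζ ^ t := by
      simpa using h3
    exact h4.symm.trans h3'
  refine ⟨ℓ, ζ, g, t, hℓ, hB, hζ, hgL, hgζ, ?_⟩
  intro k hk x hx
  -- `t ^ k ≡ 1 mod ℓ`
  have ht0 : t ≠ 0 := by
    intro h0
    have : (u : ZMod ℓ) = 0 := (ZMod.val_eq_zero _).mp h0
    exact u.ne_zero this
  have htk : 1 ≤ t ^ k := Nat.one_le_pow _ _ (Nat.pos_of_ne_zero ht0)
  have h1 : ζ ^ (t ^ k - 1) = 1 := by
    have : ζ * ζ ^ (t ^ k - 1) = ζ * 1 := by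
      rw [← pow_succ', Nat.sub_add_cancel htk, mul_one, hk]
    exact mul_left_cancel₀ (hζ.ne_zero hℓ.ne_zero) this
  have h2 : ℓ ∣ t ^ k - 1 := (hζ.pow_eq_one_iff_dvd _).mp h1
  have h3 : ((t : ZMod ℓ)) ^ k = 1 := by
    have : ((t ^ k - 1 : ℕ) : ZMod ℓ) = 0 := (ZMod.natCast_eq_zero_iff _ _).mpr h2
    rw [Nat.cast_sub htk] at this
    push_cast at this
    exact sub_eq_zero.mp this
  have h4 : u ^ k = 1 := by
    apply Units.ext
    rw [Units.val_pow_eq_pow_val, Units.val_one, ← h3, ht, ZMod.natCast_zmod_val]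
  have h5 : n ∣ k := by rw [← hu]; exact orderOf_dvd_iff_pow_eq_one.mpr h4
  have h6 : s₀ ^ k = 1 := orderOf_dvd_iff_pow_eq_one.mp h5
  have h7 : AlgEquiv.restrictNormalHom L g = s₀ := by
    apply AlgEquiv.ext
    intro y
    apply Subtype.ext
    have e1 := AlgEquiv.restrictNormal_commutes g L y
    have e2 := AlgEquiv.restrictNormal_commutes σ L y
    exact e1.trans ((hgL y y.2).trans e2.symm)
  have h8 : AlgEquiv.restrictNormalHom L (g ^ k) = 1 := by rw [_root_.map_pow, h7, h6]
  have e3 := AlgEquiv.restrictNormal_commutes (g ^ k) L ⟨x, hx⟩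
  have e4 : (AlgEquiv.restrictNormalHom L (g ^ k)) ⟨x, hx⟩ = ⟨x, hx⟩ := by rw [h8]; rfl
  exact e3.symm.trans (congrArg Subtype.val e4)

end Fermat.Agent.Lib.Cheb.H223

end
-- ===== PACK-END Lib/Cheb/H223/Crossing.lean

-- ===== PACK-BEGIN S54/FrobLift.lean
section


set_option autoImplicit false
set_option linter.style.haveILetI false

open scoped Pointwise

namespace Fermat.Agent.S54

/-- The absolute Galois group acts continuously on the (discrete) ring of all algebraic
integers. -/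
theorem continuousSMul_integralClosure :
    letI : TopologicalSpace (integralClosure ℤ (AlgebraicClosure ℚ)) := ⊥
    ContinuousSMul (AlgebraicClosure ℚ ≃ₐ[ℚ] AlgebraicClosure ℚ)
      (integralClosure ℤ (AlgebraicClosure ℚ)) := by
  letI : TopologicalSpace (integralClosure ℤ (AlgebraicClosure ℚ)) := ⊥
  haveI : DiscreteTopology (integralClosure ℤ (AlgebraicClosure ℚ)) := ⟨rfl⟩
  haveI : Algebra.IsAlgebraic ℚ (AlgebraicClosure ℚ) := AlgebraicClosure.isAlgebraic ℚ
  refine ⟨?_⟩
  rw [continuous_prod_of_discrete_right]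
  intro b
  rw [continuous_discrete_rng]
  intro c
  rw [isOpen_iff_mem_nhds]
  intro g hg
  let E : IntermediateField ℚ (AlgebraicClosure ℚ) :=
    IntermediateField.adjoin ℚ {(b : AlgebraicClosure ℚ)}
  haveI : FiniteDimensional ℚ E :=
    IntermediateField.adjoin.finiteDimensional (Algebra.IsIntegral.isIntegral _)
  have hopen : IsOpen ((g • (E.fixingSubgroup : Set (AlgebraicClosure ℚ ≃ₐ[ℚ] AlgebraicClosure ℚ)))) :=
    (E.fixingSubgroup_isOpen).smul g
  refine Filter.mem_of_superset (hopen.mem_nhds ⟨1, one_mem _, by simp⟩) ?_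
  rintro _ ⟨h, hh, rfl⟩
  simp only [Set.mem_preimage, Set.mem_singleton_iff] at hg ⊢
  rw [← hg]
  apply Subtype.ext
  have hb : h (b : AlgebraicClosure ℚ) = b := by
    have := (IntermediateField.mem_fixingSubgroup_iff E h).mp hh b
      (IntermediateField.subset_adjoin ℚ _ (Set.mem_singleton _))
    exact this
  show (g * h) (b : AlgebraicClosure ℚ) = g (b : AlgebraicClosure ℚ)
  rw [AlgEquiv.mul_apply, hb]

/-- `ℚ̄/ℚ` is Galois. -/
theorem isGalois_algebraicClosure_rat : IsGalois ℚ (AlgebraicClosure ℚ) := by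
  haveI : Algebra.IsAlgebraic ℚ (AlgebraicClosure ℚ) := AlgebraicClosure.isAlgebraic ℚ
  haveI : IsAlgClosure ℚ (AlgebraicClosure ℚ) := ⟨inferInstance, inferInstance⟩
  haveI : Normal ℚ (AlgebraicClosure ℚ) := IsAlgClosure.normal ℚ (AlgebraicClosure ℚ)
  exact isGalois_iff.mpr ⟨inferInstance, inferInstance⟩

/-- The algebraic integers fixed by the whole absolute Galois group are the rational
integers. -/
theorem isInvariant_integralClosure :
    Algebra.IsInvariant ℤ (integralClosure ℤ (AlgebraicClosure ℚ))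
      (AlgebraicClosure ℚ ≃ₐ[ℚ] AlgebraicClosure ℚ) := by
  haveI := isGalois_algebraicClosure_rat
  refine ⟨fun b hb => ?_⟩
  have hfix : (b : AlgebraicClosure ℚ) ∈
      IntermediateField.fixedField (⊤ : Subgroup (AlgebraicClosure ℚ ≃ₐ[ℚ] AlgebraicClosure ℚ)) := by
    rintro ⟨g, -⟩
    exact congrArg Subtype.val (hb g)
  rw [InfiniteGalois.fixedField_bot, IntermediateField.mem_bot] at hfix
  obtain ⟨q, hq⟩ := hfix
  have hint : IsIntegral ℤ (b : AlgebraicClosure ℚ) := b.2
  rw [← hq, isIntegral_algebraMap_iff (FaithfulSMul.algebraMap_injective ℚ (AlgebraicClosure ℚ))]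
    at hint
  obtain ⟨n, hn⟩ := IsIntegrallyClosed.algebraMap_eq_of_integral hint
  refine ⟨n, Subtype.ext ?_⟩
  rw [← hq, ← hn]
  simp

/-- Existence of Frobenius lifts on the ring of all algebraic integers: for every prime ideal
`Q` of `ℤ̄` containing the prime number `ℓ` there is `σ ∈ Gal(ℚ̄/ℚ)` stabilising `Q` and
inducing `x ↦ x ^ ℓ` on `ℤ̄ / Q`. -/
theorem exists_frob_integralClosure (ℓ : ℕ) (hℓ : ℓ.Prime)
    (Q : Ideal (integralClosure ℤ (AlgebraicClosure ℚ))) [Q.IsPrime]
    (hQ : (ℓ : integralClosure ℤ (AlgebraicClosure ℚ)) ∈ Q) :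
    ∃ σ : AlgebraicClosure ℚ ≃ₐ[ℚ] AlgebraicClosure ℚ,
      σ • Q = Q ∧
      ∀ x : integralClosure ℤ (AlgebraicClosure ℚ), σ • x - x ^ ℓ ∈ Q := by
  haveI := isGalois_algebraicClosure_rat
  haveI : Algebra.IsAlgebraic ℚ (AlgebraicClosure ℚ) := AlgebraicClosure.isAlgebraic ℚ
  letI : TopologicalSpace (integralClosure ℤ (AlgebraicClosure ℚ)) := ⊥
  haveI : DiscreteTopology (integralClosure ℤ (AlgebraicClosure ℚ)) := ⟨rfl⟩
  haveI := continuousSMul_integralClosure
  haveI := isInvariant_integralClosure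
  haveI hℓfact : Fact ℓ.Prime := ⟨hℓ⟩
  -- the prime `P = (ℓ)` of `ℤ`
  let P : Ideal ℤ := Ideal.span {(ℓ : ℤ)}
  haveI hPmax : P.IsMaximal :=
    PrincipalIdealRing.isMaximal_of_irreducible
      (Nat.prime_iff_prime_int.mp hℓ).irreducible
  haveI hlies : Q.LiesOver P := by
    refine ⟨?_⟩
    have hle : P ≤ Q.under ℤ := by
      rw [Ideal.span_le, Set.singleton_subset_iff]
      show algebraMap ℤ (integralClosure ℤ (AlgebraicClosure ℚ)) (ℓ : ℤ) ∈ Q
      simpa using hQ
    have hne : Q.under ℤ ≠ ⊤ := (Ideal.IsPrime.under ℤ Q).ne_top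
    exact (hPmax.eq_of_le hne hle)
  -- characteristic of the quotient
  haveI : IsDomain (integralClosure ℤ (AlgebraicClosure ℚ) ⧸ Q) := Ideal.Quotient.isDomain Q
  have hzero : ((ℓ : ℕ) : integralClosure ℤ (AlgebraicClosure ℚ) ⧸ Q) = 0 := by
    have : (Ideal.Quotient.mk Q) (ℓ : integralClosure ℤ (AlgebraicClosure ℚ)) = 0 :=
      Ideal.Quotient.eq_zero_iff_mem.mpr hQ
    simpa using this
  haveI hchar : CharP (integralClosure ℤ (AlgebraicClosure ℚ) ⧸ Q) ℓ :=
    (CharP.charP_iff_prime_eq_zero hℓ).mpr hzero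
  -- the Frobenius as an algebra automorphism
  let f : (integralClosure ℤ (AlgebraicClosure ℚ) ⧸ Q) →ₐ[ℤ ⧸ P]
      (integralClosure ℤ (AlgebraicClosure ℚ) ⧸ Q) :=
    { toRingHom := frobenius (integralClosure ℤ (AlgebraicClosure ℚ) ⧸ Q) ℓ
      commutes' := by
        intro y
        obtain ⟨n, rfl⟩ := Ideal.Quotient.mk_surjective y
        show frobenius _ ℓ (algebraMap (ℤ ⧸ P) _ (Ideal.Quotient.mk P n)) =
          algebraMap (ℤ ⧸ P) _ (Ideal.Quotient.mk P n)
        have h1 : algebraMap (ℤ ⧸ P) (integralClosure ℤ (AlgebraicClosure ℚ) ⧸ Q)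
            (Ideal.Quotient.mk P n) = ((n : ℤ) : integralClosure ℤ (AlgebraicClosure ℚ) ⧸ Q) := by
          rw [← Ideal.Quotient.algebraMap_eq, ← IsScalarTower.algebraMap_apply]
          simp
        rw [h1, map_intCast] }
  have hinj : Function.Injective f := frobenius_inj _ ℓ
  have hsurj : Function.Surjective f := by
    intro y
    obtain ⟨b, rfl⟩ := Ideal.Quotient.mk_surjective y
    obtain ⟨c, hc⟩ := IsAlgClosed.exists_pow_nat_eq (b : AlgebraicClosure ℚ) hℓ.pos
    have hcint : IsIntegral ℤ c := by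
      have hb : IsIntegral ℤ (c ^ ℓ) := hc ▸ b.2
      exact IsIntegral.of_pow hℓ.pos hb
    refine ⟨Ideal.Quotient.mk Q ⟨c, hcint⟩, ?_⟩
    show frobenius _ ℓ (Ideal.Quotient.mk Q ⟨c, hcint⟩) = _
    rw [frobenius_def, ← map_pow]
    congr 1
    exact Subtype.ext hc
  let e : (integralClosure ℤ (AlgebraicClosure ℚ) ⧸ Q) ≃ₐ[ℤ ⧸ P]
      (integralClosure ℤ (AlgebraicClosure ℚ) ⧸ Q) :=
    AlgEquiv.ofBijective f ⟨hinj, hsurj⟩
  obtain ⟨σ, hσ⟩ := Ideal.Quotient.stabilizerHom_surjective_of_profinite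
    (G := AlgebraicClosure ℚ ≃ₐ[ℚ] AlgebraicClosure ℚ) P Q e
  refine ⟨σ.1, σ.2, fun x => ?_⟩
  have h2 := congrArg (fun t => t (Ideal.Quotient.mk Q x)) hσ
  simp only [Ideal.Quotient.stabilizerHom_apply] at h2
  have h3 : e (Ideal.Quotient.mk Q x) = Ideal.Quotient.mk Q (x ^ ℓ) := by
    show frobenius _ ℓ (Ideal.Quotient.mk Q x) = _
    rw [frobenius_def, map_pow]
  rw [h3] at h2
  rw [← Ideal.Quotient.eq]
  exact h2

end Fermat.Agent.S54

end
-- ===== PACK-END S54/FrobLift.lean

-- ===== PACK-BEGIN S54/ValRing.lean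
section



set_option autoImplicit false

namespace Fermat.Agent.S54

open Polynomial

/-- Valuation subrings contain all algebraic integers. -/
theorem isIntegral_mem_valuationSubring {K : Type*} [Field K] (A : ValuationSubring K)
    {b : K} (hb : IsIntegral ℤ b) : b ∈ A := by
  have h1 : IsIntegral A.toSubring b := by
    obtain ⟨p, hp, hpb⟩ := hb
    refine ⟨p.map (algebraMap ℤ A.toSubring), hp.map _, ?_⟩
    rw [Polynomial.eval₂_map]
    have : (algebraMap A.toSubring K).comp (algebraMap ℤ A.toSubring) = algebraMap ℤ K := by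
      ext; simp
    rw [this]
    exact hpb
  have h2 := (IsIntegrallyClosed.isIntegral_iff (R := A) (K := K)).mp h1
  obtain ⟨y, hy⟩ := h2
  rw [← hy]
  exact y.2

/-- An element lying in every valuation subring is integral over `ℤ`. -/
theorem isIntegral_of_forall_mem_valuationSubring {K : Type*} [Field K] (y : K)
    (H : ∀ V : ValuationSubring K, y ∈ V) : IsIntegral ℤ y := by
  by_contra hy
  let R : Subring K := (integralClosure ℤ K).toSubring
  have hyR : y ∉ R := hy
  have : IsIntegrallyClosedIn R K := inferInstanceAs (IsIntegrallyClosedIn (integralClosure ℤ K) K)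
  obtain ⟨V, -, hV⟩ := R.exists_le_valuationSubring_of_isIntegrallyClosedIn hyR
  exact hV (H V)

theorem aeval_mem_valuationSubring {K : Type*} [Field K] (V : ValuationSubring K) {x : K}
    (hx : x ∈ V) (q : ℤ[X]) : aeval x q ∈ V := by
  induction q using Polynomial.induction_on with
  | C a => simp
  | add p q hp hq => rw [_root_.map_add]; exact V.add_mem _ _ hp hq
  | monomial n a h =>
    rw [pow_succ, ← mul_assoc, _root_.map_mul, aeval_X]
    exact V.mul_mem _ _ h hx

theorem coeff_iterate_divX (p : ℤ[X]) (r n : ℕ) :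
    ((divX^[r]) p).coeff n = p.coeff (n + r) := by
  induction r generalizing n with
  | zero => simp
  | succ r ih =>
    rw [Function.iterate_succ_apply', coeff_divX, ih]
    congr 1
    ring

/-- The Horner recursion for the tails `divX^[r] p` of a polynomial. -/
theorem aeval_iterate_divX {K : Type*} [Field K] (x : K) (p : ℤ[X]) (r : ℕ) :
    aeval x ((divX^[r]) p) = aeval x ((divX^[r + 1]) p) * x + (p.coeff r : K) := by
  conv_lhs => rw [← divX_mul_X_add ((divX^[r]) p)]
  rw [_root_.map_add, _root_.map_mul, aeval_X, aeval_C, coeff_iterate_divX, zero_add,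
    Function.iterate_succ_apply']
  simp

/-- The Horner tails of an integer polynomial killing `x` lie in every valuation subring. -/
theorem horner_mem_valuationSubring {K : Type*} [Field K] (x : K) (p : ℤ[X])
    (hp : aeval x p = 0) (V : ValuationSubring K) (r : ℕ) :
    aeval x ((divX^[r]) p) ∈ V := by
  rcases V.mem_or_inv_mem x with hx | hx
  · exact aeval_mem_valuationSubring V hx _
  · induction r with
    | zero => simp [hp]
    | succ r ih =>
      have h := aeval_iterate_divX x p r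
      by_cases hx0 : x = 0
      · exact aeval_mem_valuationSubring V (hx0 ▸ V.zero_mem) _
      have : aeval x ((divX^[r + 1]) p) = x⁻¹ * (aeval x ((divX^[r]) p) - (p.coeff r : K)) := by
        rw [h]; field_simp; ring
      rw [this]
      exact V.mul_mem _ _ hx (sub_mem ih (intCast_mem V _))

theorem horner_isIntegral {K : Type*} [Field K] (x : K) (p : ℤ[X])
    (hp : aeval x p = 0) (r : ℕ) :
    IsIntegral ℤ (aeval x ((divX^[r]) p)) :=
  isIntegral_of_forall_mem_valuationSubring _ fun V => horner_mem_valuationSubring x p hp V r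

theorem horner_mul_isIntegral {K : Type*} [Field K] (x : K) (p : ℤ[X])
    (hp : aeval x p = 0) (r : ℕ) :
    IsIntegral ℤ (x * aeval x ((divX^[r + 1]) p)) := by
  have h := aeval_iterate_divX x p r
  have : x * aeval x ((divX^[r + 1]) p) = aeval x ((divX^[r]) p) - (p.coeff r : K) := by
    rw [h]; ring
  rw [this]
  exact (horner_isIntegral x p hp r).sub isIntegral_algebraMap

/-- An integer which is a non-unit of a valuation subring over `ℓ` is divisible by `ℓ`. -/
theorem dvd_of_intCast_mem_nonunits {K : Type*} [Field K] (A : ValuationSubring K) (ℓ : ℕ)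
    (hℓ : ℓ.Prime) (hA : A.LiesOverPrime ℓ) (a : ℤ) (ha : (a : K) ∈ A.nonunits) :
    (ℓ : ℤ) ∣ a := by
  by_contra hdvd
  have hcop : IsCoprime (ℓ : ℤ) a :=
    (Nat.prime_iff_prime_int.mp hℓ).coprime_iff_not_dvd.mpr hdvd
  obtain ⟨u, v, huv⟩ := hcop
  have h1 : ((u * ℓ + v * a : ℤ) : K) ∈ A.nonunits := by
    push_cast
    refine A.nonunits.add_mem ?_ ?_
    · obtain ⟨h1, h2⟩ := ValuationSubring.mem_nonunits_iff_exists_mem_maximalIdeal.mp hA
      have := Ideal.mul_mem_left _ (⟨(u : K), intCast_mem A u⟩ : A) h2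
      exact ValuationSubring.mem_nonunits_iff_exists_mem_maximalIdeal.mpr ⟨_, this⟩
    · obtain ⟨h1, h2⟩ := ValuationSubring.mem_nonunits_iff_exists_mem_maximalIdeal.mp ha
      have := Ideal.mul_mem_left _ (⟨(v : K), intCast_mem A v⟩ : A) h2
      exact ValuationSubring.mem_nonunits_iff_exists_mem_maximalIdeal.mpr ⟨_, this⟩
  rw [huv, ValuationSubring.mem_nonunits_iff] at h1
  simp at h1

/-- (4b) A valuation subring over `ℓ` of an algebraic extension of `ℚ` is the localisation of
the ring of algebraic integers at the prime below it. -/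
theorem mem_valuationSubring_iff {K : Type*} [Field K] [CharZero K] [Algebra.IsAlgebraic ℚ K]
    (A : ValuationSubring K) (ℓ : ℕ)
    (hℓ : ℓ.Prime) (hA : A.LiesOverPrime ℓ) (x : K) :
    x ∈ A ↔ ∃ b s, IsIntegral ℤ b ∧ IsIntegral ℤ s ∧ s ∉ A.nonunits ∧ x * s = b := by
  constructor
  · intro hx
    -- a primitive integer polynomial killing `x`
    have halg : IsAlgebraic ℤ x :=
      (IsFractionRing.isAlgebraic_iff ℤ ℚ K).mpr (Algebra.IsAlgebraic.isAlgebraic x)
    obtain ⟨f, hf0, hfx⟩ := halg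
    set p := f.primPart with hp
    have hpprim : p.IsPrimitive := f.isPrimitive_primPart
    have hpx : aeval x p = 0 := by
      have h1 : f = C f.content * p := f.eq_C_content_mul_primPart
      rw [h1, _root_.map_mul, aeval_C] at hfx
      rcases mul_eq_zero.mp hfx with h | h
      · exfalso
        have : f.content = 0 := by simpa using h
        exact hf0 (Polynomial.content_eq_zero_iff.mp this)
      · exact h
    -- some coefficient is not in the maximal ideal
    have hcoeff : ∃ i, ((p.coeff i : ℤ) : K) ∉ A.nonunits := by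
      by_contra hcon
      push Not at hcon
      have hdvd : C (ℓ : ℤ) ∣ p := by
        rw [Polynomial.C_dvd_iff_dvd_coeff]
        intro i
        exact dvd_of_intCast_mem_nonunits A ℓ hℓ hA _ (hcon i)
      have hu := hpprim _ hdvd
      rw [Int.isUnit_iff] at hu
      have := hℓ.one_lt
      omega
    -- some Horner tail is a unit
    have hex : ∃ r, aeval x ((divX^[r + 1]) p) ∉ A.nonunits := by
      by_contra hcon
      push Not at hcon
      obtain ⟨i, hi⟩ := hcoeff
      apply hi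
      have h := aeval_iterate_divX x p i
      have h2 : ((p.coeff i : ℤ) : K) =
          aeval x ((divX^[i]) p) - aeval x ((divX^[i + 1]) p) * x := by
        rw [h]; ring
      rw [h2]
      have hmul : aeval x ((divX^[i + 1]) p) * x ∈ A.nonunits := by
        obtain ⟨h1, h2⟩ := ValuationSubring.mem_nonunits_iff_exists_mem_maximalIdeal.mp (hcon i)
        have := Ideal.mul_mem_right (⟨x, hx⟩ : A) _ h2
        exact ValuationSubring.mem_nonunits_iff_exists_mem_maximalIdeal.mpr ⟨_, this⟩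
      refine A.nonunits.sub_mem ?_ hmul
      rcases i with _ | i
      · simp [hpx, A.nonunits.zero_mem]
      · exact hcon i
    obtain ⟨r, hr⟩ := hex
    exact ⟨x * aeval x ((divX^[r + 1]) p), aeval x ((divX^[r + 1]) p),
      horner_mul_isIntegral x p hpx r, horner_isIntegral x p hpx (r + 1), hr, rfl⟩
  · rintro ⟨b, s, hb, hs, hsA, hxs⟩
    have hbA : b ∈ A := isIntegral_mem_valuationSubring A hb
    have hs0 : s ≠ 0 := fun h => hsA (h ▸ A.nonunits.zero_mem)
    have hsinv : s⁻¹ ∈ A := by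
      by_contra h
      exact hsA (A.mem_nonunits_iff_or.mpr (Or.inr h))
    have : x = b * s⁻¹ := by
      rw [← hxs]; field_simp
    rw [this]
    exact A.mul_mem _ _ hbA hsinv

end Fermat.Agent.S54

end
-- ===== PACK-END S54/ValRing.lean

-- ===== PACK-BEGIN S14/H74/Defs.lean
section


/-!
# S14, analytic block N1 (helper74): definitions

Partial zeta functions of ideal classes and the smoothed lattice sums used to compare them.
-/

namespace Fermat.Agent.S14.H74

open NumberField NumberField.mixedEmbedding NumberField.Units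
  NumberField.Units.dirichletUnitTheorem

open scoped nonZeroDivisors

variable (K : Type*) [Field K] [NumberField K]

/-- The partial zeta function of the ideal class `C`, for a real argument `s`. -/
noncomputable def classZeta (C : ClassGroup (𝓞 K)) (s : ℝ) : ℝ :=
  ∑' I : {I : (Ideal (𝓞 K))⁰ // ClassGroup.mk0 I = C},
    (Ideal.absNorm (I.1 : Ideal (𝓞 K)) : ℝ) ^ (-s)

/-- The sum over all nonzero ideals of `N(I)^(-s)`. -/
noncomputable def idealZeta (s : ℝ) : ℝ :=
  ∑' I : (Ideal (𝓞 K))⁰, (Ideal.absNorm (I : Ideal (𝓞 K)) : ℝ) ^ (-s)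

/-- The tent function `max 0 (1 - |c|)`. -/
noncomputable def tent (c : ℝ) : ℝ := max 0 (1 - |c|)

open scoped Classical in
/-- Coordinates of `logMap x` in the real basis of `logSpace K` given by the unit lattice. -/
noncomputable def logCoord (x : mixedSpace K) (j : Fin (rank K)) : ℝ :=
  ((basisUnitLattice K).ofZLatticeBasis ℝ (unitLattice K)).repr (logMap x) j

/-- The smooth cut-off: a partition of unity for the action of the units. -/
noncomputable def rho (x : mixedSpace K) : ℝ :=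
  if mixedEmbedding.norm x = 0 then 0 else ∏ j, tent (logCoord K x j)

/-- The summand `ρ(x) N(x)^(-s)`. -/
noncomputable def fS (s : ℝ) (x : mixedSpace K) : ℝ :=
  rho K x * (mixedEmbedding.norm x) ^ (-s)

end Fermat.Agent.S14.H74

end
-- ===== PACK-END S14/H74/Defs.lean

-- ===== PACK-BEGIN S55/Bridge/Level.lean
section



/-!
# S55 bridge, part B2a: a representation as in S55 factors through a finite Galois level
unramified outside `S`.
-/

set_option autoImplicit false

namespace Fermat.Agent.S55.Bridge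

open IntermediateField

/-- `ℚ̄/ℚ` is algebraic (for the `Algebra ℚ ℚ̄` instance found by instance search). -/
theorem isAlgebraic_Qbar : Algebra.IsAlgebraic ℚ (AlgebraicClosure ℚ) :=
  AlgebraicClosure.isAlgebraic ℚ

/-- `ℚ̄/ℚ` is Galois (for the `Algebra ℚ ℚ̄` instance found by instance search). -/
theorem isGalois_Qbar : IsGalois ℚ (AlgebraicClosure ℚ) := by
  haveI : Algebra.IsAlgebraic ℚ (AlgebraicClosure ℚ) := isAlgebraic_Qbar
  haveI : IsAlgClosure ℚ (AlgebraicClosure ℚ) := ⟨inferInstance, inferInstance⟩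
  haveI : Normal ℚ (AlgebraicClosure ℚ) := IsAlgClosure.normal ℚ (AlgebraicClosure ℚ)
  exact isGalois_iff.mpr ⟨inferInstance, inferInstance⟩

attribute [local instance] isAlgebraic_Qbar isGalois_Qbar

/-- A subgroup of `G_ℚ` containing `G_F` for a finite `F/ℚ` and all inertia groups outside `S`
is `G_L` for a finite `L/ℚ` unramified outside `S`. -/
theorem exists_level_of_subgroup (S : Finset Nat.Primes)
    (N : Subgroup (AlgebraicClosure ℚ ≃ₐ[ℚ] AlgebraicClosure ℚ))
    (F : IntermediateField ℚ (AlgebraicClosure ℚ)) (hFfin : FiniteDimensional ℚ F)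
    (hF : F.fixingSubgroup ≤ N)
    (hur : ∀ q : Nat.Primes, q ∉ S → ∀ A : ValuationSubring (AlgebraicClosure ℚ),
      A.LiesOverPrime (q : ℕ) → A.inertiaSubgroupIn ℚ ≤ N) :
    ∃ L : IntermediateField ℚ (AlgebraicClosure ℚ),
      L.IsUnramifiedOutside S ∧ L.fixingSubgroup = N ∧ L ≤ F := by
  have hopenF : IsOpen (F.fixingSubgroup : Set (AlgebraicClosure ℚ ≃ₐ[ℚ] AlgebraicClosure ℚ)) :=
    IntermediateField.fixingSubgroup_isOpen F
  have hopen : IsOpen (N : Set (AlgebraicClosure ℚ ≃ₐ[ℚ] AlgebraicClosure ℚ)) :=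
    Subgroup.isOpen_mono hF hopenF
  have hclosed : IsClosed (N : Set (AlgebraicClosure ℚ ≃ₐ[ℚ] AlgebraicClosure ℚ)) :=
    Subgroup.isClosed_of_isOpen N hopen
  have hfix : (IntermediateField.fixedField N).fixingSubgroup = N :=
    InfiniteGalois.fixingSubgroup_fixedField ⟨N, hclosed⟩
  have hle : IntermediateField.fixedField N ≤ F := by
    rw [← InfiniteGalois.fixedField_fixingSubgroup F]
    exact IntermediateField.fixedField_antitone hF
  refine ⟨IntermediateField.fixedField N, ⟨?_, ?_⟩, hfix, hle⟩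
  · exact FiniteDimensional.of_injective (IntermediateField.inclusion hle).toLinearMap
      (IntermediateField.inclusion_injective hle)
  · intro q hq A hA
    rw [hfix]
    exact hur q hq A hA

/-- If moreover the subgroup is normal, the level is Galois over `ℚ`. -/
theorem exists_galois_level_of_subgroup (S : Finset Nat.Primes)
    (N : Subgroup (AlgebraicClosure ℚ ≃ₐ[ℚ] AlgebraicClosure ℚ)) [N.Normal]
    (F : IntermediateField ℚ (AlgebraicClosure ℚ)) (hFfin : FiniteDimensional ℚ F)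
    (hF : F.fixingSubgroup ≤ N)
    (hur : ∀ q : Nat.Primes, q ∉ S → ∀ A : ValuationSubring (AlgebraicClosure ℚ),
      A.LiesOverPrime (q : ℕ) → A.inertiaSubgroupIn ℚ ≤ N) :
    ∃ L : IntermediateField ℚ (AlgebraicClosure ℚ),
      L.IsUnramifiedOutside S ∧ IsGalois ℚ L ∧ L.fixingSubgroup = N ∧ L ≤ F := by
  obtain ⟨L, hL, hfix, hle⟩ := exists_level_of_subgroup S N F hFfin hF hur
  refine ⟨L, hL, ?_, hfix, hle⟩
  have h := (InfiniteGalois.normal_iff_isGalois L).1 (by rw [hfix]; infer_instance)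
  convert h
  exact Subsingleton.elim _ _

section Rep

variable {k : Type} [Field k]
  (M : Rep k (AlgebraicClosure ℚ ≃ₐ[ℚ] AlgebraicClosure ℚ)) [FiniteDimensional k M]

/-- Pointwise smoothness plus finite-dimensionality gives a uniform finite level. -/
theorem exists_finite_level_of_smooth
    (hsm : ∀ m : M, ∃ F : IntermediateField ℚ (AlgebraicClosure ℚ), FiniteDimensional ℚ F ∧
      ∀ s ∈ F.fixingSubgroup, M.ρ s m = m) :
    ∃ F : IntermediateField ℚ (AlgebraicClosure ℚ), FiniteDimensional ℚ F ∧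
      ∀ s ∈ F.fixingSubgroup, M.ρ s = 1 := by
  classical
  choose F hFfin hFfix using hsm
  let b := Module.finBasis k M
  refine ⟨⨆ i, F (b i), ?_, ?_⟩
  · haveI : ∀ i, FiniteDimensional ℚ (F (b i)) := fun i => hFfin (b i)
    exact IntermediateField.finiteDimensional_iSup_of_finite
  · intro s hs
    apply b.ext
    intro i
    have hle : F (b i) ≤ ⨆ i, F (b i) := le_iSup (fun i => F (b i)) i
    exact hFfix (b i) s (IntermediateField.fixingSubgroup_antitone hle hs)

/-- **B2a.** The representation `M` of S55 factors through `Gal(L/ℚ)` for a finite Galois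
extension `L/ℚ` unramified outside `S`; in fact `G_L = ker ρ`. -/
theorem exists_galois_level_of_rep (S : Finset Nat.Primes)
    (hsm : ∀ m : M, ∃ F : IntermediateField ℚ (AlgebraicClosure ℚ), FiniteDimensional ℚ F ∧
      ∀ s ∈ F.fixingSubgroup, M.ρ s m = m)
    (hMur : ∀ q : Nat.Primes, q ∉ S → ∀ A : ValuationSubring (AlgebraicClosure ℚ),
      A.LiesOverPrime (q : ℕ) → ∀ g ∈ A.inertiaSubgroupIn ℚ, M.ρ g = 1) :
    ∃ L : IntermediateField ℚ (AlgebraicClosure ℚ),
      L.IsUnramifiedOutside S ∧ IsGalois ℚ L ∧ ∀ s, s ∈ L.fixingSubgroup ↔ M.ρ s = 1 := by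
  obtain ⟨F, hFfin, hF⟩ := exists_finite_level_of_smooth M hsm
  obtain ⟨L, hL, hgal, hfix, -⟩ := exists_galois_level_of_subgroup S (MonoidHom.ker M.ρ) F hFfin
    (fun s hs => MonoidHom.mem_ker.2 (hF s hs))
    (fun q hq A hA g hg => MonoidHom.mem_ker.2 (hMur q hq A hA g hg))
  refine ⟨L, hL, hgal, fun s => ?_⟩
  rw [hfix, MonoidHom.mem_ker]

end Rep

end Fermat.Agent.S55.Bridge

end
-- ===== PACK-END S55/Bridge/Level.lean

-- ===== PACK-BEGIN S55/Bridge/Krasner.lean
section




/-!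
# S55 bridge, part B5: Krasner — the local Galois group and its global levels

* `exists_global_generator`: every `x ∈ ℚ̄_q` lies in `ℚ_q(ι b)` for some `b ∈ ℚ̄`
  (`ι = padicEmbedding q`).
* `localGaloisToGlobal_injective`: restriction `Gal(ℚ̄_q/ℚ_q) → Gal(ℚ̄/ℚ)` is injective.
* `exists_global_level_of_local`: every finite subextension `E/ℚ_q` of `ℚ̄_q` is "covered" by a
  finite global level `F/ℚ`: `localGaloisToGlobal q τ ∈ G_F → τ ∈ G_E`.
-/

set_option autoImplicit false

namespace Fermat.Agent.S55.Bridge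

open Polynomial IntermediateField

variable (q : ℕ) [Fact q.Prime]

/-- Elements of `ℚ̄_q` algebraic over `ℚ` are in the image of `padicEmbedding q`. -/
theorem mem_range_padicEmbedding_of_root (g : Polynomial ℚ) (hg : g ≠ 0) (b : PadicAlgCl q)
    (hb : Polynomial.aeval b g = 0) : ∃ b' : AlgebraicClosure ℚ, padicEmbedding q b' = b := by
  have hsplit : (g.map (algebraMap ℚ (AlgebraicClosure ℚ))).Splits := IsAlgClosed.splits _
  have hmap : (g.map (algebraMap ℚ (AlgebraicClosure ℚ))).map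
      ((padicEmbedding q : AlgebraicClosure ℚ →ₐ[ℚ] PadicAlgCl q) : AlgebraicClosure ℚ →+* PadicAlgCl q)
      = g.map (algebraMap ℚ (PadicAlgCl q)) := by
    rw [Polynomial.map_map]
    congr 1
    exact (padicEmbedding q).comp_algebraMap
  have hroot : b ∈ (g.map (algebraMap ℚ (PadicAlgCl q))).roots := by
    rw [Polynomial.mem_roots (Polynomial.map_ne_zero hg), Polynomial.IsRoot.def,
      Polynomial.eval_map_algebraMap]
    exact hb
  rw [← hmap, hsplit.roots_map, Multiset.mem_map] at hroot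
  obtain ⟨b', -, hb'⟩ := hroot
  exact ⟨b', hb'⟩

/-- `ι(ℚ̄)` is dense in `ℚ̄_q`: every element is approximated by elements of `ι(ℚ̄)`. -/
theorem exists_global_near (x : PadicAlgCl q) {δ : ℝ} (δpos : 0 < δ) :
    ∃ b : AlgebraicClosure ℚ, ‖x - padicEmbedding q b‖ < δ := by
  have hxint : IsIntegral ℚ_[q] x := Algebra.IsIntegral.isIntegral x
  set f : Polynomial ℚ_[q] := minpoly ℚ_[q] x with hf
  have fmon : f.Monic := minpoly.monic hxint
  have fa0 : Polynomial.aeval x f = 0 := minpoly.aeval _ _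
  have fnatdeg0 : f.natDegree ≠ 0 := (minpoly.natDegree_pos hxint).ne'
  have hε : (δ / (max ‖x‖ 1)) ^ f.natDegree / (f.natDegree + 1) > 0 := by positivity
  have hd : DenseRange (algebraMap ℚ ℚ_[q]) := by
    have h := Padic.denseRange_ratCast q
    have heq : (algebraMap ℚ ℚ_[q] : ℚ → ℚ_[q]) = ((↑) : ℚ → ℚ_[q]) := by
      funext r
      exact eq_ratCast _ r
    rw [heq]
    exact h
  obtain ⟨g, gmon, gdeg, gcoeff⟩ :=
    exists_monic_and_natDegree_eq_and_norm_map_algebraMap_coeff_sub_lt hd fmon hε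
  obtain ⟨b, hb, hab⟩ := exists_aroots_norm_sub_lt_of_norm_coeff_sub_lt
      hε fa0 fmon (gmon.map _) (gdeg ▸ (g.natDegree_map _)) gcoeff (IsAlgClosed.splits _)
  have hab : ‖x - b‖ < δ := by
    rw [← Real.rpow_natCast, ← mul_comm_div, div_self, one_mul,
        ← Real.rpow_mul (div_pos δpos (by positivity)).le, mul_inv_cancel₀] at hab
    · simpa [mul_assoc, div_mul_cancel₀ _ (by positivity : (max ‖x‖ 1) > 0).ne'] using hab
    · simp [fnatdeg0]
    · positivity
  have hgb : Polynomial.aeval b g = 0 := by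
    rw [Polynomial.mem_aroots] at hb
    have h2 := hb.2
    rwa [Polynomial.aeval_map_algebraMap] at h2
  obtain ⟨b', hb'⟩ := mem_range_padicEmbedding_of_root q g gmon.ne_zero b hgb
  exact ⟨b', by rw [hb']; exact hab⟩

/-- **Krasner.** Every element of `ℚ̄_q` lies in `ℚ_q(ι b)` for some `b ∈ ℚ̄`. -/
theorem exists_global_generator (x : PadicAlgCl q) :
    ∃ b : AlgebraicClosure ℚ, x ∈ IntermediateField.adjoin ℚ_[q] {padicEmbedding q b} := by
  classical
  have hxint : IsIntegral ℚ_[q] x := Algebra.IsIntegral.isIntegral x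
  set f : Polynomial ℚ_[q] := minpoly ℚ_[q] x with hf
  have firr : Irreducible f := minpoly.irreducible hxint
  let T : Finset (PadicAlgCl q) := {y ∈ (f.rootSet (PadicAlgCl q)).toFinset | y ≠ x}
  let δ : ℝ := if hT : T.Nonempty then Finset.min' (T.image fun y => ‖x - y‖)
      (Finset.image_nonempty.mpr hT) else 1
  have norm_sub_le : ∀ a' : PadicAlgCl q, IsConjRoot ℚ_[q] x a' → x ≠ a' → δ ≤ ‖x - a'‖ := by
    intro a' conj ne
    by_cases hT : T.Nonempty <;> simp only [hT, ↓reduceDIte, δ]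
    · apply Finset.min'_le (T.image fun y => ‖x - y‖) (‖x - a'‖)
      apply Finset.mem_image_of_mem
      simp only [Finset.mem_filter, Set.mem_toFinset, T]
      rw [hf, ← (isConjRoot_iff_mem_minpoly_rootSet hxint)]
      exact ⟨conj, ne.symm⟩
    · simp only [ne_eq, Finset.not_nonempty_iff_eq_empty, Finset.filter_eq_empty_iff,
        Set.mem_toFinset, not_not, T] at hT
      rw [isConjRoot_iff_mem_minpoly_rootSet hxint] at conj
      exact (ne (hT conj).symm).elim
  have δpos : δ > 0 := by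
    by_cases hT : T.Nonempty <;> simp only [hT, ↓reduceDIte, δ]
    · simp only [gt_iff_lt, Finset.lt_min'_iff, Finset.mem_image, forall_exists_index, and_imp,
        forall_apply_eq_imp_iff₂]
      rintro a' ha'
      simp only [Finset.mem_filter, Set.mem_toFinset, T] at ha'
      rw [norm_pos_iff, sub_ne_zero]
      exact ha'.2.symm
    · linarith
  obtain ⟨b', hab⟩ := exists_global_near q x δpos
  refine ⟨b', ?_⟩
  have hbint : IsIntegral ℚ_[q] (padicEmbedding q b') := Algebra.IsIntegral.isIntegral _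
  exact IsKrasner.krasner (K := ℚ_[q]) (L := PadicAlgCl q) firr.separable
    (IsAlgClosed.splits _) hbint
    (fun a' h1 h2 => lt_of_lt_of_le hab (norm_sub_le a' h1 h2))

/-- If `τ` restricts to an element fixing `b ∈ ℚ̄`, then `τ` fixes `ℚ_q(ι b)` pointwise. -/
theorem fixes_adjoin_of_fixes (τ : PadicAlgCl q ≃ₐ[ℚ_[q]] PadicAlgCl q) (b : AlgebraicClosure ℚ)
    (hb : localGaloisToGlobal q τ b = b) (x : PadicAlgCl q)
    (hx : x ∈ IntermediateField.adjoin ℚ_[q] {padicEmbedding q b}) : τ x = x := by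
  have hτb : τ (padicEmbedding q b) = padicEmbedding q b := by
    rw [← padicEmbedding_localGaloisToGlobal, hb]
  have hle : IntermediateField.adjoin ℚ_[q] {padicEmbedding q b}
      ≤ IntermediateField.fixedField (Subgroup.zpowers τ) := by
    rw [IntermediateField.adjoin_le_iff]
    rintro y hy
    rw [Set.mem_singleton_iff] at hy
    subst hy
    rintro ⟨σ, hσ⟩
    obtain ⟨n, rfl⟩ := Subgroup.mem_zpowers_iff.1 hσ
    show (τ ^ n) (padicEmbedding q b) = padicEmbedding q b
    have hfix : τ ∈ MulAction.stabilizer (PadicAlgCl q ≃ₐ[ℚ_[q]] PadicAlgCl q)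
        (padicEmbedding q b) := hτb
    exact (Subgroup.zpow_mem _ hfix n : _)
  exact hle hx ⟨τ, Subgroup.mem_zpowers τ⟩

/-- **Restriction `Gal(ℚ̄_q/ℚ_q) → Gal(ℚ̄/ℚ)` is injective.** -/
theorem localGaloisToGlobal_injective : Function.Injective (localGaloisToGlobal q) := by
  rw [injective_iff_map_eq_one]
  intro τ hτ
  apply AlgEquiv.ext
  intro x
  obtain ⟨b, hb⟩ := exists_global_generator q x
  have := fixes_adjoin_of_fixes q τ b (by rw [hτ]; rfl) x hb
  simpa using this

/-- Every finite subextension `E/ℚ_q` of `ℚ̄_q` is covered by a finite global level. -/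
theorem exists_global_level_of_local (E : IntermediateField ℚ_[q] (PadicAlgCl q))
    [FiniteDimensional ℚ_[q] E] :
    ∃ F : IntermediateField ℚ (AlgebraicClosure ℚ), FiniteDimensional ℚ F ∧
      ∀ τ : PadicAlgCl q ≃ₐ[ℚ_[q]] PadicAlgCl q,
        localGaloisToGlobal q τ ∈ F.fixingSubgroup → τ ∈ E.fixingSubgroup := by
  obtain ⟨α, hα⟩ := Field.exists_primitive_element ℚ_[q] E
  obtain ⟨b, hb⟩ := exists_global_generator q (α : PadicAlgCl q)
  haveI : Algebra.IsAlgebraic ℚ (AlgebraicClosure ℚ) := AlgebraicClosure.isAlgebraic ℚ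
  refine ⟨IntermediateField.adjoin ℚ {b},
    IntermediateField.adjoin.finiteDimensional (Algebra.IsIntegral.isIntegral b), ?_⟩
  intro τ hτ
  have hτb : localGaloisToGlobal q τ b = b :=
    (IntermediateField.mem_fixingSubgroup_iff _ _).1 hτ b
      (IntermediateField.subset_adjoin ℚ _ (Set.mem_singleton b))
  have hτα : τ (α : PadicAlgCl q) = α := fixes_adjoin_of_fixes q τ b hτb _ hb
  rw [IntermediateField.mem_fixingSubgroup_iff]
  intro y hy
  -- `y ∈ E = ℚ_q(α)`
  have hy' : (⟨y, hy⟩ : E) ∈ IntermediateField.adjoin ℚ_[q] {α} := by rw [hα]; trivial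
  have hle : IntermediateField.adjoin ℚ_[q] {(α : PadicAlgCl q)}
      ≤ IntermediateField.fixedField (Subgroup.zpowers τ) := by
    rw [IntermediateField.adjoin_le_iff]
    rintro z hz
    rw [Set.mem_singleton_iff] at hz
    subst hz
    rintro ⟨σ, hσ⟩
    obtain ⟨n, rfl⟩ := Subgroup.mem_zpowers_iff.1 hσ
    show (τ ^ n) (α : PadicAlgCl q) = α
    have hfix : τ ∈ MulAction.stabilizer (PadicAlgCl q ≃ₐ[ℚ_[q]] PadicAlgCl q)
        (α : PadicAlgCl q) := hτα
    exact (Subgroup.zpow_mem _ hfix n : _)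
  have hyα : y ∈ IntermediateField.adjoin ℚ_[q] {(α : PadicAlgCl q)} := by
    have h1 : IntermediateField.lift (IntermediateField.adjoin ℚ_[q] {α})
        = IntermediateField.adjoin ℚ_[q] {(α : PadicAlgCl q)} := by
      rw [IntermediateField.lift_adjoin, Set.image_singleton]
    rw [← h1]
    exact (IntermediateField.mem_lift (⟨y, hy⟩ : E)).2 hy'
  exact hle hyα ⟨τ, Subgroup.mem_zpowers τ⟩

/-- Conversely every finite global level is covered by a finite local extension. -/
theorem exists_local_level_of_global (F : IntermediateField ℚ (AlgebraicClosure ℚ))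
    [FiniteDimensional ℚ F] :
    ∃ E : IntermediateField ℚ_[q] (PadicAlgCl q), FiniteDimensional ℚ_[q] E ∧
      ∀ τ : PadicAlgCl q ≃ₐ[ℚ_[q]] PadicAlgCl q,
        τ ∈ E.fixingSubgroup → localGaloisToGlobal q τ ∈ F.fixingSubgroup := by
  obtain ⟨β, hβ⟩ := Field.exists_primitive_element ℚ F
  refine ⟨IntermediateField.adjoin ℚ_[q] {padicEmbedding q (β : AlgebraicClosure ℚ)},
    IntermediateField.adjoin.finiteDimensional (Algebra.IsIntegral.isIntegral _), ?_⟩
  intro τ hτ
  have hτβ : τ (padicEmbedding q (β : AlgebraicClosure ℚ)) = padicEmbedding q β :=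
    (IntermediateField.mem_fixingSubgroup_iff _ _).1 hτ _
      (IntermediateField.subset_adjoin ℚ_[q] _ (Set.mem_singleton _))
  have hgβ : localGaloisToGlobal q τ (β : AlgebraicClosure ℚ) = β := by
    have hinj : Function.Injective (padicEmbedding q) := (padicEmbedding q).injective
    apply hinj
    rw [padicEmbedding_localGaloisToGlobal, hτβ]
  rw [IntermediateField.mem_fixingSubgroup_iff]
  intro y hy
  have hy' : (⟨y, hy⟩ : F) ∈ IntermediateField.adjoin ℚ {β} := by rw [hβ]; trivial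
  have hle : IntermediateField.adjoin ℚ {(β : AlgebraicClosure ℚ)}
      ≤ IntermediateField.fixedField (Subgroup.zpowers (localGaloisToGlobal q τ)) := by
    rw [IntermediateField.adjoin_le_iff]
    rintro z hz
    rw [Set.mem_singleton_iff] at hz
    subst hz
    rintro ⟨σ, hσ⟩
    obtain ⟨n, rfl⟩ := Subgroup.mem_zpowers_iff.1 hσ
    show ((localGaloisToGlobal q τ) ^ n) (β : AlgebraicClosure ℚ) = β
    have hfix : localGaloisToGlobal q τ ∈ MulAction.stabilizer
        (AlgebraicClosure ℚ ≃ₐ[ℚ] AlgebraicClosure ℚ) (β : AlgebraicClosure ℚ) := hgβ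
    exact (Subgroup.zpow_mem _ hfix n : _)
  have hyβ : y ∈ IntermediateField.adjoin ℚ {(β : AlgebraicClosure ℚ)} := by
    have h1 : IntermediateField.lift (IntermediateField.adjoin ℚ {β})
        = IntermediateField.adjoin ℚ {(β : AlgebraicClosure ℚ)} := by
      rw [IntermediateField.lift_adjoin, Set.image_singleton]
    rw [← h1]
    exact (IntermediateField.mem_lift (⟨y, hy⟩ : F)).2 hy'
  exact hle hyβ ⟨localGaloisToGlobal q τ, Subgroup.mem_zpowers _⟩

section LevelConstant

open groupCohomology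

/-- Prelude level-constancy on the local Galois group (levels pulled back from finite global
extensions) is the same as level-constancy for finite extensions of `ℚ_q`. -/
theorem isLevelConstant₁_local_iff {X : Type*}
    (f : (PadicAlgCl q ≃ₐ[ℚ_[q]] PadicAlgCl q) → X) :
    IsLevelConstant₁ (localGaloisToGlobal q) f ↔
      ∃ E : IntermediateField ℚ_[q] (PadicAlgCl q), FiniteDimensional ℚ_[q] E ∧
        ∀ g s : PadicAlgCl q ≃ₐ[ℚ_[q]] PadicAlgCl q, s ∈ E.fixingSubgroup → f (g * s) = f g := by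
  constructor
  · rintro ⟨F, hF, h⟩
    haveI := hF
    obtain ⟨E, hE, hEF⟩ := exists_local_level_of_global q F
    exact ⟨E, hE, fun g s hs => h g s (hEF s hs)⟩
  · rintro ⟨E, hE, h⟩
    haveI := hE
    obtain ⟨F, hF, hFE⟩ := exists_global_level_of_local q E
    exact ⟨F, hF, fun g s hs => h g s (hFE s hs)⟩

/-- Same for 2-cochains. -/
theorem isLevelConstant₂_local_iff {X : Type*}
    (f : (PadicAlgCl q ≃ₐ[ℚ_[q]] PadicAlgCl q) × (PadicAlgCl q ≃ₐ[ℚ_[q]] PadicAlgCl q) → X) :
    IsLevelConstant₂ (localGaloisToGlobal q) f ↔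
      ∃ E : IntermediateField ℚ_[q] (PadicAlgCl q), FiniteDimensional ℚ_[q] E ∧
        ∀ g g' s s' : PadicAlgCl q ≃ₐ[ℚ_[q]] PadicAlgCl q, s ∈ E.fixingSubgroup →
          s' ∈ E.fixingSubgroup → f (g * s, g' * s') = f (g, g') := by
  constructor
  · rintro ⟨F, hF, h⟩
    haveI := hF
    obtain ⟨E, hE, hEF⟩ := exists_local_level_of_global q F
    exact ⟨E, hE, fun g g' s s' hs hs' => h g g' s s' (hEF s hs) (hEF s' hs')⟩
  · rintro ⟨E, hE, h⟩
    haveI := hE
    obtain ⟨F, hF, hFE⟩ := exists_global_level_of_local q E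
    exact ⟨F, hF, fun g g' s s' hs hs' => h g g' s s' (hFE s hs) (hFE s' hs')⟩

end LevelConstant

/-- `primeLocalToGlobal` is injective. -/
theorem primeLocalToGlobal_injective (q : Nat.Primes) :
    Function.Injective (ExtCitation.primeLocalToGlobal q) := by
  letI : Fact (q : ℕ).Prime := ⟨q.2⟩
  exact localGaloisToGlobal_injective (q : ℕ)

end Fermat.Agent.S55.Bridge

end
-- ===== PACK-END S55/Bridge/Krasner.lean

-- ===== PACK-BEGIN S32/H152/EmbCoord.lean
section
/-
S32 / EMB (helper152) — coordinates: for a free `R`-module `V` with finite basis `b` and a ring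
homomorphism `f : R → K` into a field, the `f`-semilinear coordinate map `V → Kⁿ` and the ring
homomorphism `End_R V → End_K (Kⁿ)` (matrix in the basis `b`, entries mapped by `f`).
Mathlib-only.
-/


set_option autoImplicit false
set_option linter.unusedSectionVars false

noncomputable section

namespace Fermat.Agent.S32.H152

open Matrix

section Coord

variable {R K : Type*} [CommRing R] [Field K] (f : R →+* K) {n : Type*} [Fintype n]
  [DecidableEq n] {V : Type*} [AddCommGroup V] [Module R V] (b : Module.Basis n R V)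

/-- The `f`-semilinear coordinate map. -/
def embCoord : V →+ (n → K) where
  toFun v := fun i => f (b.repr v i)
  map_zero' := by
    funext i
    simp
  map_add' v w := by
    funext i
    simp

theorem embCoord_apply (v : V) (i : n) : embCoord f b v i = f (b.repr v i) := rfl

theorem embCoord_smul (r : R) (v : V) : embCoord f b (r • v) = f r • embCoord f b v := by
  funext i
  simp [embCoord_apply]

theorem embCoord_basis (i : n) : embCoord f b (b i) = Pi.single i 1 := by
  funext j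
  rw [embCoord_apply, Module.Basis.repr_self, Finsupp.single_apply, Pi.single_apply]
  by_cases h : i = j
  · subst h
    simp
  · rw [if_neg h, if_neg (Ne.symm h), _root_.map_zero]

theorem embCoord_injective (hf : Function.Injective f) : Function.Injective (embCoord f b) := by
  intro v w h
  apply b.repr.injective
  ext i
  apply hf
  exact congrFun h i

/-- The ring homomorphism `End_R V → End_K (Kⁿ)`. -/
def embEnd : Module.End R V →+* Module.End K (n → K) :=
  ((Matrix.toLinAlgEquiv' : Matrix n n K ≃ₐ[K] _) : Matrix n n K →+* _).comp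
    ((f.mapMatrix).comp ((LinearMap.toMatrixAlgEquiv b : _ ≃ₐ[R] Matrix n n R) : _ →+* _))

theorem embEnd_apply (E : Module.End R V) (x : n → K) :
    embEnd f b E x = ((LinearMap.toMatrix b b E).map f) *ᵥ x := rfl

theorem embEnd_eq (E : Module.End R V) :
    embEnd f b E = Matrix.toLin' ((LinearMap.toMatrix b b E).map f) := rfl

theorem embEnd_coord (E : Module.End R V) (v : V) :
    embEnd f b E (embCoord f b v) = embCoord f b (E v) := by
  funext i
  rw [embEnd_apply, embCoord_apply, ← LinearMap.toMatrix_mulVec_repr b b E v]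
  exact (RingHom.map_mulVec f _ _ i).symm

theorem embEnd_smul (r : R) (E : Module.End R V) :
    embEnd f b (r • E) = f r • embEnd f b E := by
  rw [embEnd_eq, embEnd_eq, _root_.map_smul, ← _root_.map_smul]
  ext i j
  simp [Matrix.map_apply]

theorem embEnd_trace (E : Module.End R V) :
    LinearMap.trace K (n → K) (embEnd f b E) = f (LinearMap.trace R V E) := by
  rw [LinearMap.trace_eq_matrix_trace R b E, embEnd_eq,
    LinearMap.trace_eq_matrix_trace K (Pi.basisFun K n), LinearMap.toMatrix_eq_toMatrix',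
    LinearMap.toMatrix'_toLin']
  exact (AddMonoidHom.map_trace (f : R →+ K) _).symm

/-- The image of the matrix unit. -/
theorem embEnd_single (i j : n) :
    embEnd f b ((LinearMap.toMatrixAlgEquiv b).symm (Matrix.single i j (1 : R)))
      = Matrix.toLin' (Matrix.single i j (1 : K)) := by
  rw [embEnd_eq]
  congr 1
  have h : LinearMap.toMatrix b b ((LinearMap.toMatrixAlgEquiv b).symm (Matrix.single i j (1 : R)))
      = Matrix.single i j (1 : R) :=
    (LinearMap.toMatrixAlgEquiv b).apply_symm_apply _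
  rw [h]
  ext k l
  simp [Matrix.single_apply, apply_ite f]

end Coord

/-- Coordinates of an element of `I • ⊤` lie in `I`. -/
theorem embCoord_repr_mem {O M n : Type*} [CommRing O] [AddCommGroup M] [Module O M]
    (c : Module.Basis n O M) (I : Ideal O) {x : M} (hx : x ∈ I • (⊤ : Submodule O M)) (j : n) :
    c.repr x j ∈ I := by
  refine Submodule.smul_induction_on (p := fun x => c.repr x j ∈ I) hx ?_ ?_
  · intro a ha y _
    rw [_root_.map_smul, Finsupp.smul_apply, smul_eq_mul]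
    exact I.mul_mem_right _ ha
  · intro x y hx hy
    rw [_root_.map_add, Finsupp.add_apply]
    exact I.add_mem hx hy

/-- Cancelling a nonzero factor in a discrete valuation ring costs a bounded power of `𝔪`. -/
theorem embCoord_dvr_cancel {O : Type*} [CommRing O] [IsDomain O] [IsDiscreteValuationRing O]
    {δ : O} (hδ : δ ≠ 0) :
    ∃ k : ℕ, ∀ (m : ℕ) (a : O), δ * a ∈ IsLocalRing.maximalIdeal O ^ (m + k) →
      a ∈ IsLocalRing.maximalIdeal O ^ m := by
  obtain ⟨ϖ, hϖ⟩ := IsDiscreteValuationRing.exists_irreducible O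
  obtain ⟨k, u, hu⟩ := IsDiscreteValuationRing.eq_unit_mul_pow_irreducible hδ hϖ
  refine ⟨k, fun m a h => ?_⟩
  rw [hϖ.maximalIdeal_eq, Ideal.span_singleton_pow, Ideal.mem_span_singleton] at h ⊢
  rw [hu, pow_add] at h
  have h1 : ϖ ^ k * ϖ ^ m ∣ ϖ ^ k * ((u : O) * a) := by
    have e1 : ϖ ^ k * ϖ ^ m = ϖ ^ m * ϖ ^ k := mul_comm _ _
    have e2 : ϖ ^ k * ((u : O) * a) = (u : O) * ϖ ^ k * a := by ring
    rw [e1, e2]
    exact h
  have h2 := (mul_dvd_mul_iff_left (pow_ne_zero k hϖ.ne_zero)).mp h1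
  exact (Units.dvd_mul_left (u := u)).mp h2

end Fermat.Agent.S32.H152

end
end
-- ===== PACK-END S32/H152/EmbCoord.lean

-- ===== PACK-BEGIN S22/H262/WeightNonpos.lean
section



set_option autoImplicit false

/-! Function-level vanishing in weight `≤ 0` (proof by helper442). -/

namespace Fermat.Agent.S22.H262

open UpperHalfPlane ModularForm CongruenceSubgroup Matrix.SpecialLinearGroup
open scoped MatrixGroups Manifold

/-- Function-level vanishing in weight `≤ 0`: a holomorphic function on `ℍ`, invariant under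
`Γ₀(N)` for the weight `k ≤ 0` slash action, and such that every `SL(2,ℤ)`-translate is zero at
`i∞`, vanishes identically. -/
theorem eq_zero_of_weight_nonpos (N : ℕ) [NeZero N] {k : ℤ} (hk : k ≤ 0) (G : ℍ → ℂ)
    (hol : MDiff G)
    (inv : ∀ γ ∈ (Gamma0 N : Subgroup (GL (Fin 2) ℝ)), G ∣[k] γ = G)
    (cusp : ∀ g : SL(2, ℤ), IsZeroAtImInfty (G ∣[k] g)) : G = 0 := by
  have hG0 : IsZeroAtImInfty G := by
    have := cusp 1
    simpa using this
  let F : ModularForm (Gamma0 N : Subgroup (GL (Fin 2) ℝ)) k :=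
    { toFun := G
      slash_action_eq' := inv
      holo' := hol
      bdd_at_cusps' := fun {c} hc => by
        have hc' : IsCusp c 𝒮ℒ := (Subgroup.IsArithmetic.isCusp_iff_isCusp_SL2Z _).mp hc
        rw [OnePoint.isBoundedAt_iff_forall_SL2Z hc']
        intro γ _
        exact (cusp γ).isBoundedAtImInfty }
  have hF : F = 0 := by
    apply ModularForm.sturm_bound_Gamma0 N F
    intro n hn
    have h0 : (k * ((Gamma0 N).index : ℤ)).toNat = 0 := by
      apply Int.toNat_of_nonpos
      exact mul_nonpos_of_nonpos_of_nonneg hk (by positivity)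
    rw [h0] at hn
    have hn0 : n = 0 := by omega
    subst hn0
    have h1 : (1 : ℝ) ∈ (Gamma0 N : Subgroup (GL (Fin 2) ℝ)).strictPeriods := by
      simp
    have hper : Function.Periodic ((F : ℍ → ℂ) ∘ UpperHalfPlane.ofComplex) 1 := by
      have := SlashInvariantFormClass.periodic_comp_ofComplex F h1
      simpa using this
    have han : AnalyticAt ℂ (cuspFunction 1 (F : ℍ → ℂ)) 0 :=
      ModularFormClass.analyticAt_cuspFunction_zero F one_pos h1
    rw [UpperHalfPlane.qExpansion_coeff_zero one_pos han hper]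
    exact hG0.valueAtInfty_eq_zero
  have : (F : ℍ → ℂ) = 0 := by rw [hF]; rfl
  exact this

end Fermat.Agent.S22.H262

end
-- ===== PACK-END S22/H262/WeightNonpos.lean

-- ===== PACK-BEGIN S59/G4/H109/PointsDVR.lean
section




/-!
# Row S59, layer G4, piece POINTS — part 1 (helper109)

The integral closure of a complete discrete valuation ring `𝒪` of characteristic zero in a finite
extension `L` of its fraction field `K` is again a complete discrete valuation ring, finite over
`𝒪`, with `𝒪 → integralClosure 𝒪 L` a local homomorphism.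
(Port of `S31/H262/PadicDVR.lean` (helper262) from `ℤ_[p]` to a general `𝒪`.)
-/

set_option autoImplicit false
set_option linter.unusedSectionVars false
set_option linter.style.haveILetI false

noncomputable section

namespace Fermat.Agent.S59.G4.H109

open IsLocalRing

section DVR

variable (𝒪 : Type) [CommRing 𝒪] [IsDomain 𝒪] [IsDiscreteValuationRing 𝒪]
  [IsAdicComplete (maximalIdeal 𝒪) 𝒪] [CharZero 𝒪]
variable (K : Type) [Field K] [Algebra 𝒪 K] [IsFractionRing 𝒪 K]
variable (L : Type) [Field L] [Algebra K L] [Algebra 𝒪 L] [IsScalarTower 𝒪 K L]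
  [FiniteDimensional K L]

/-- The ring of integers of `L`. -/
abbrev intRingO : Subalgebra 𝒪 L := integralClosure 𝒪 L

include 𝒪 in
theorem charZero_K : CharZero K :=
  charZero_of_injective_algebraMap (IsFractionRing.injective 𝒪 K)

include 𝒪 K in
theorem charZero_L : CharZero L :=
  haveI := charZero_K 𝒪 K
  charZero_of_injective_algebraMap (algebraMap K L).injective

include K in
theorem intRingO_isDedekindDomain : IsDedekindDomain (intRingO 𝒪 L) :=
  haveI := charZero_K 𝒪 K
  integralClosure.isDedekindDomain 𝒪 K L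

include K in
theorem intRingO_moduleFinite : Module.Finite 𝒪 (intRingO 𝒪 L) :=
  haveI := charZero_K 𝒪 K
  IsIntegralClosure.finite 𝒪 K L (intRingO 𝒪 L)

include K in
theorem intRingO_isNoetherianRing : IsNoetherianRing (intRingO 𝒪 L) :=
  haveI := charZero_K 𝒪 K
  IsIntegralClosure.isNoetherianRing 𝒪 K L (intRingO 𝒪 L)

include K in
theorem algebraMap_O_L_injective : Function.Injective (algebraMap 𝒪 L) := by
  rw [IsScalarTower.algebraMap_eq 𝒪 K L]
  exact (algebraMap K L).injective.comp (IsFractionRing.injective 𝒪 K)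

include K in
theorem algebraMap_intRingO_injective : Function.Injective (algebraMap 𝒪 (intRingO 𝒪 L)) := by
  intro a b h
  apply algebraMap_O_L_injective 𝒪 K L
  have := congrArg (fun x : intRingO 𝒪 L => (x : L)) h
  exact this

include K in
theorem intRingO_charZero : CharZero (intRingO 𝒪 L) :=
  charZero_of_injective_algebraMap (algebraMap_intRingO_injective 𝒪 K L)

include K in
/-- `𝒪 → integralClosure 𝒪 L` is a local homomorphism. -/
theorem intRingO_isLocalHom : IsLocalHom (algebraMap 𝒪 (intRingO 𝒪 L)) := by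
  apply RingHom.IsIntegral.isLocalHom _ (algebraMap_intRingO_injective 𝒪 K L)
  intro x
  have hx : IsIntegral 𝒪 (x : L) := x.2
  obtain ⟨q, hq, hq0⟩ := hx
  refine ⟨q, hq, ?_⟩
  apply Subtype.ext
  have h1 : ((Polynomial.eval₂ (algebraMap 𝒪 (intRingO 𝒪 L)) x q : intRingO 𝒪 L) : L)
      = Polynomial.eval₂ (algebraMap 𝒪 L) (x : L) q := by
    rw [← Polynomial.aeval_def, ← Polynomial.aeval_def]
    exact (Polynomial.aeval_algHom_apply (intRingO 𝒪 L).val x q).symm
  rw [h1, hq0]
  rfl

include K in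
theorem intRingO_not_isField : ¬ IsField (intRingO 𝒪 L) := by
  intro hF
  obtain ⟨ϖ, hϖ⟩ := IsDiscreteValuationRing.exists_irreducible 𝒪
  have h0 : algebraMap 𝒪 (intRingO 𝒪 L) ϖ ≠ 0 := by
    intro h
    exact hϖ.ne_zero (algebraMap_intRingO_injective 𝒪 K L (by rw [h, map_zero]))
  obtain ⟨b, hb⟩ := hF.mul_inv_cancel h0
  have hu : IsUnit (algebraMap 𝒪 (intRingO 𝒪 L) ϖ) := IsUnit.of_mul_eq_one _ hb
  haveI := intRingO_isLocalHom 𝒪 K L
  exact hϖ.not_isUnit (isUnit_of_map_unit (algebraMap 𝒪 (intRingO 𝒪 L)) ϖ hu)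

include K in
/-- The ring of integers is a local ring (it is a domain, finite over the complete local ring
`𝒪`, hence it is the product of its localisations at its finitely many maximal ideals). -/
theorem intRingO_isLocalRing : IsLocalRing (intRingO 𝒪 L) := by
  classical
  haveI := intRingO_moduleFinite 𝒪 K L
  obtain ⟨-, hbij, -, -⟩ :=
    Algebra.finite_maximalSpectrum_and_bijective_localization_of_module_finite (𝒪 := 𝒪)
      (intRingO 𝒪 L)
  -- at most one maximal ideal
  have huniq : ∀ I J : MaximalSpectrum (intRingO 𝒪 L), I = J := by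
    intro I J
    by_contra hIJ
    obtain ⟨e, he⟩ := hbij.2 (Function.update
      (0 : ∀ K' : MaximalSpectrum (intRingO 𝒪 L), Localization.AtPrime K'.asIdeal) I 1)
    have hI : algebraMap (intRingO 𝒪 L) (Localization.AtPrime I.asIdeal) e = 1 := by
      have := congrFun he I
      simpa using this
    have hJ : algebraMap (intRingO 𝒪 L) (Localization.AtPrime J.asIdeal) e = 0 := by
      have := congrFun he J
      simpa [Function.update_of_ne (Ne.symm hIJ)] using this
    have hprod : e * (1 - e) = 0 := by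
      apply hbij.1
      funext K'
      simp only [RingHom.pi_apply, map_mul, map_sub, map_one, map_zero]
      by_cases hK : K' = I
      · subst hK; rw [hI]; simp
      · have : algebraMap (intRingO 𝒪 L) (Localization.AtPrime K'.asIdeal) e = 0 := by
          have := congrFun he K'
          simpa [Function.update_of_ne hK] using this
        rw [this]; simp
    rcases mul_eq_zero.mp hprod with h0 | h1
    · rw [h0, map_zero] at hI
      exact zero_ne_one hI
    · have : e = 1 := (sub_eq_zero.mp h1).symm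
      rw [this, map_one] at hJ
      exact one_ne_zero hJ
  obtain ⟨M, hM⟩ := Ideal.exists_maximal (intRingO 𝒪 L)
  refine IsLocalRing.of_unique_max_ideal ⟨M, hM, fun J hJ => ?_⟩
  exact congrArg MaximalSpectrum.asIdeal (huniq ⟨J, hJ⟩ ⟨M, hM⟩)

include K in
theorem intRingO_isDiscreteValuationRing : IsDiscreteValuationRing (intRingO 𝒪 L) :=
  haveI := intRingO_isLocalRing 𝒪 K L
  haveI := intRingO_isNoetherianRing 𝒪 K L
  ((IsDiscreteValuationRing.TFAE (intRingO 𝒪 L) (intRingO_not_isField 𝒪 K L)).out 0 2).mpr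
    (intRingO_isDedekindDomain 𝒪 K L)

include K in
theorem intRingO_isAdicComplete :
    haveI := intRingO_isLocalRing 𝒪 K L
    IsAdicComplete (maximalIdeal (intRingO 𝒪 L)) (intRingO 𝒪 L) := by
  haveI := intRingO_isLocalRing 𝒪 K L
  haveI := intRingO_moduleFinite 𝒪 K L
  haveI := intRingO_isLocalHom 𝒪 K L
  exact IsLocalRing.isAdicComplete_of_module_finite (𝒪 := 𝒪)

include K in
theorem intRingO_finite_residueField [Finite (ResidueField 𝒪)] :
    haveI := intRingO_isLocalRing 𝒪 K L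
    Finite (ResidueField (intRingO 𝒪 L)) := by
  haveI := intRingO_isLocalRing 𝒪 K L
  haveI := intRingO_moduleFinite 𝒪 K L
  haveI := intRingO_isLocalHom 𝒪 K L
  exact Module.finite_of_finite (ResidueField 𝒪)

include K in
/-- Powers of the maximal ideal are cofinal with the powers of any nonzero element. -/
theorem exists_maximalIdeal_pow_le_span_pow (ϖ : 𝒪) (hϖ : ϖ ≠ 0) (n : ℕ) :
    haveI := intRingO_isLocalRing 𝒪 K L
    ∃ m : ℕ, maximalIdeal (intRingO 𝒪 L) ^ m
      ≤ Ideal.span {algebraMap 𝒪 (intRingO 𝒪 L) ϖ ^ n} := by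
  haveI := intRingO_isLocalRing 𝒪 K L
  haveI := intRingO_isNoetherianRing 𝒪 K L
  have hp0 : algebraMap 𝒪 (intRingO 𝒪 L) ϖ ≠ 0 := by
    intro h
    exact hϖ (algebraMap_intRingO_injective 𝒪 K L (by rw [h, map_zero]))
  have hne : Ideal.span {algebraMap 𝒪 (intRingO 𝒪 L) ϖ} ≠ ⊥ := by
    rw [Ne, Ideal.span_singleton_eq_bot]
    exact hp0
  have hall : ∀ I : Ideal (intRingO 𝒪 L), I ≠ ⊥ → ∃ n, I = maximalIdeal (intRingO 𝒪 L) ^ n :=
    ((IsDiscreteValuationRing.TFAE (intRingO 𝒪 L) (intRingO_not_isField 𝒪 K L)).out 0 6).mp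
      (intRingO_isDiscreteValuationRing 𝒪 K L)
  obtain ⟨e, he⟩ := hall _ hne
  refine ⟨e * n, ?_⟩
  rw [pow_mul, ← he, Ideal.span_singleton_pow]

end DVR

end Fermat.Agent.S59.G4.H109

end
end
-- ===== PACK-END S59/G4/H109/PointsDVR.lean

-- ===== PACK-BEGIN S29/Defs.lean
section
/-
S29 row — FROZEN interface definitions (row-lead helper269).
Namespace `Fermat.Agent.S29`.  Do not edit; propose changes via a note kind='question' stmt='S29'.
-/



set_option autoImplicit false

namespace Fermat.Agent.S29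

open Polynomial

/-- The absolute Galois group of `ℚ`, as used by every frozen statement. -/
abbrev GQ : Type := AlgebraicClosure ℚ ≃ₐ[ℚ] AlgebraicClosure ℚ

/-- Valuation subrings of `ℚ̄` (the "places" of the frozen statements). -/
abbrev VQ : Type := ValuationSubring (AlgebraicClosure ℚ)

section Module

variable {F : Type} [Field F] {M : Type} [AddCommGroup M] [Module F M]

/-- Every vector is fixed by an open subgroup `Gal(ℚ̄/L)`, `L/ℚ` finite. -/
def IsSmoothRep (ρ : GQ →* Module.End F M) : Prop :=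
  ∀ x : M, ∃ L : IntermediateField ℚ (AlgebraicClosure ℚ), FiniteDimensional ℚ L ∧
    ∀ σ : GQ, (∀ y ∈ L, σ y = y) → ρ σ x = x

/-- Inertia at every prime `ℓ ∤ S` (all places above `ℓ`) acts trivially. -/
def IsUnramOutside (ρ : GQ →* Module.End F M) (S : ℕ) : Prop :=
  ∀ ℓ : ℕ, ℓ.Prime → ¬ ℓ ∣ S → ∀ A : VQ, A.LiesOverPrime ℓ →
    ∀ σ ∈ A.inertiaSubgroupIn ℚ, ρ σ = 1

/-- Every Frobenius element at every place above every prime `ℓ ∤ S` satisfies
`σ² - a ℓ • σ + ℓ = 0` on the module. -/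
def IsFrobQuadratic (ρ : GQ →* Module.End F M) (S : ℕ) (a : ℕ → F) : Prop :=
  ∀ ℓ : ℕ, ℓ.Prime → ¬ ℓ ∣ S → ∀ A : VQ, A.LiesOverPrime ℓ →
    ∀ σ : GQ, A.IsFrobeniusAt σ ℓ →
      ρ σ * ρ σ - a ℓ • ρ σ + (ℓ : F) • (1 : Module.End F M) = 0

end Module

/-- (UNUSED since skeleton v2: the assembly consumes CHEB Tier 1
`Fermat.Agent.Lib.Cheb.Spec.FrobeniusDivisionStatement` instead.)  Qualitative Chebotarev:
every element of `Gal(L/ℚ)` (`L/ℚ` finite) is the restriction of a Frobenius element at a place over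
some prime `ℓ ∤ S`. -/
def ChebStatement : Prop :=
  ∀ (L : IntermediateField ℚ (AlgebraicClosure ℚ)), FiniteDimensional ℚ L →
    ∀ (σ : GQ) (S : ℕ), S ≠ 0 →
      ∃ (ℓ : ℕ) (A : VQ) (τ : GQ), ℓ.Prime ∧ ¬ ℓ ∣ S ∧ A.LiesOverPrime ℓ ∧
        A.IsFrobeniusAt τ ℓ ∧ ∀ x ∈ L, τ x = σ x

/-- The conclusion of the assembly layer for a coefficient field `F` and a system `a`. -/
def HasAttachedRep (F : Type) [Field F] (S : ℕ) (a : ℕ → F) : Prop :=
  ∃ r : ResidualGaloisRep F,
    (∀ ℓ : ℕ, ℓ.Prime → ¬ ℓ ∣ S → ∀ A : VQ, A.LiesOverPrime ℓ →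
      ∀ σ : GQ, A.IsFrobeniusAt σ ℓ →
        LinearMap.charpoly (r.ρ σ) = X ^ 2 - C (a ℓ) * X + C ((ℓ : F))) ∧
    (∀ ℓ : ℕ, ℓ.Prime → ¬ ℓ ∣ S → r.IsUnramifiedAt ℓ)

/-- The output of the module layer ("torsion module"): a nonzero smooth `F[G_ℚ]`-module,
unramified outside `S`, on which all Frobenii at `ℓ ∤ S` satisfy the Eichler–Shimura relation. -/
def HasFrobModule (F : Type) [Field F] (S : ℕ) (a : ℕ → F) : Prop :=
  ∃ (M : Type) (_ : AddCommGroup M) (_ : Module F M) (ρ : GQ →* Module.End F M),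
    Nontrivial M ∧ IsSmoothRep ρ ∧ IsUnramOutside ρ S ∧ IsFrobQuadratic ρ S a

end Fermat.Agent.S29

end
-- ===== PACK-END S29/Defs.lean

-- ===== PACK-BEGIN S30/H529/TateCore.lean
section


/-!
# S30 helper (helper529): abstract Tate modules, core algebra

For a module `X` over a complete discrete valuation ring `O`, an element `ϖ ≠ 0` of the maximal
ideal, `O`-linear operators `t i` and scalars `a i`, the module `tateEigen ϖ t a` of compatible
sequences `v n ∈ X[ϖ ^ (n + 1)]`, `ϖ • v (n + 1) = v n`, `t i (v n) = a i • v n` is torsion free,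
separated, and finitely generated (hence free) as soon as `X[ϖ]` is finitely generated.
-/

set_option autoImplicit false
set_option linter.unusedSectionVars false

namespace Fermat.Agent.S30.H529

open IsLocalRing

noncomputable section

/-! ### Precompleteness of finite free modules -/

section Pi

variable {R : Type*} [CommRing R] (I : Ideal R) {r : ℕ}

theorem mem_smul_top_pi (x : Fin r → R) :
    x ∈ (I • ⊤ : Submodule R (Fin r → R)) ↔ ∀ i, x i ∈ I := by
  constructor
  · intro hx i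
    refine Submodule.smul_induction_on hx ?_ ?_
    · intro a ha m _
      simp only [Pi.smul_apply, smul_eq_mul]
      exact Ideal.mul_mem_right _ _ ha
    · intro y z hy hz
      simp only [Pi.add_apply]
      exact I.add_mem hy hz
  · intro hx
    have h1 : x = ∑ i, x i • (Pi.single i (1 : R) : Fin r → R) := by
      funext j
      simp [Finset.sum_apply, Pi.single_apply]
    rw [h1]
    exact Submodule.sum_mem _ fun i _ => Submodule.smul_mem_smul (hx i) Submodule.mem_top

theorem isPrecomplete_pi [IsPrecomplete I R] : IsPrecomplete I (Fin r → R) := by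
  constructor
  intro f hf
  have hcomp : ∀ i : Fin r, ∃ L : R, ∀ n, f n i ≡ L [SMOD (I ^ n • ⊤ : Submodule R R)] := by
    intro i
    apply IsPrecomplete.prec' (fun n => f n i)
    intro m n hmn
    have h1 := hf hmn
    rw [SModEq.sub_mem] at h1 ⊢
    rw [mem_smul_top_pi] at h1
    have h2 := h1 i
    simp only [smul_eq_mul, Ideal.mul_top]
    simpa using h2
  choose L hL using hcomp
  refine ⟨L, fun n => ?_⟩
  rw [SModEq.sub_mem, mem_smul_top_pi]
  intro i
  have h1 := hL i n
  rw [SModEq.sub_mem] at h1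
  simpa using h1

/-- Topological Nakayama: a Hausdorff module over a precomplete ring is finitely generated
if its reduction is. -/
theorem finite_of_finite_quotient (M : Type*) [AddCommGroup M] [Module R M] [IsPrecomplete I R]
    [IsHausdorff I M] (h : Module.Finite R (M ⧸ (I • ⊤ : Submodule R M))) :
    Module.Finite R M := by
  obtain ⟨r, g, hg⟩ := Module.Finite.exists_fin' R (M ⧸ (I • ⊤ : Submodule R M))
  have hlift : ∀ i : Fin r, ∃ m : M, (I • ⊤ : Submodule R M).mkQ m
      = g (Pi.single i (1 : R)) :=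
    fun i => Submodule.mkQ_surjective _ _
  choose m hm using hlift
  let f : (Fin r → R) →ₗ[R] M := (Pi.basisFun R (Fin r)).constr R m
  have hfg : (I • ⊤ : Submodule R M).mkQ ∘ₗ f = g := by
    apply (Pi.basisFun R (Fin r)).ext
    intro i
    have h1 : f ((Pi.basisFun R (Fin r)) i) = m i := Module.Basis.constr_basis _ _ _ _
    rw [LinearMap.comp_apply, h1, hm i, Pi.basisFun_apply]
  have := isPrecomplete_pi (r := r) I
  have hsurj : Function.Surjective f := by
    apply surjective_of_mkQ_comp_surjective (I := I)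
    rw [hfg]
    exact hg
  exact Module.Finite.of_surjective f hsurj

end Pi

/-! ### Discrete valuation rings -/

section DVR

variable {O : Type*} [CommRing O] [IsDomain O] [IsDiscreteValuationRing O]

theorem exists_pow_maximalIdeal_le_span {x : O} (hx : x ≠ 0) :
    ∃ N : ℕ, maximalIdeal O ^ N ≤ Ideal.span {x} := by
  obtain ⟨π, hπ⟩ := IsDiscreteValuationRing.exists_irreducible O
  obtain ⟨n, u, rfl⟩ := IsDiscreteValuationRing.eq_unit_mul_pow_irreducible hx hπ
  refine ⟨n, ?_⟩
  rw [hπ.maximalIdeal_eq, Ideal.span_singleton_pow, Ideal.span_singleton_le_span_singleton]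
  exact ⟨(u⁻¹ : Oˣ), by rw [mul_comm, ← mul_assoc, Units.inv_mul, one_mul]⟩

theorem exists_dvd_pow_of_mem_maximalIdeal {ϖ : O} (hϖ : ϖ ∈ maximalIdeal O) {r : O}
    (hr : r ≠ 0) : ∃ k : ℕ, r ∣ ϖ ^ k := by
  obtain ⟨π, hπ⟩ := IsDiscreteValuationRing.exists_irreducible O
  obtain ⟨n, u, rfl⟩ := IsDiscreteValuationRing.eq_unit_mul_pow_irreducible hr hπ
  rw [hπ.maximalIdeal_eq, Ideal.mem_span_singleton] at hϖ
  refine ⟨n, ?_⟩
  obtain ⟨c, hc⟩ := pow_dvd_pow_of_dvd hϖ n
  refine ⟨(u⁻¹ : Oˣ) * c, ?_⟩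
  have h1 : (u : O) * π ^ n * (((u⁻¹ : Oˣ) : O) * c) = ((u : O) * ((u⁻¹ : Oˣ) : O)) * (π ^ n * c) := by
    ring
  rw [h1, Units.mul_inv, one_mul, hc]

end DVR

/-! ### The Tate module -/

section Tate

variable {O : Type*} [CommRing O]
variable {X : Type*} [AddCommGroup X] [Module O X]
variable {ι : Type*}
variable (ϖ : O) (t : ι → X →ₗ[O] X) (a : ι → O)

/-- The eigen-part of the Tate module of `X` with respect to `ϖ`: compatible sequences
`v n ∈ X[ϖ ^ (n + 1)]` with `t i (v n) = a i • v n`. -/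
def tateEigen : Submodule O (ℕ → X) where
  carrier := {v | ϖ • v 0 = 0 ∧ (∀ n, ϖ • v (n + 1) = v n) ∧ ∀ i n, t i (v n) = a i • v n}
  zero_mem' := by simp
  add_mem' := by
    rintro v w ⟨hv0, hv1, hv2⟩ ⟨hw0, hw1, hw2⟩
    refine ⟨?_, ?_, ?_⟩
    · simp [smul_add, hv0, hw0]
    · intro n
      simp [smul_add, hv1 n, hw1 n]
    · intro i n
      simp [map_add, hv2 i n, hw2 i n, smul_add]
  smul_mem' := by
    rintro c v ⟨hv0, hv1, hv2⟩
    refine ⟨?_, ?_, ?_⟩
    · simp [smul_comm ϖ c, hv0]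
    · intro n
      simp [smul_comm ϖ c, hv1 n]
    · intro i n
      simp [map_smul, hv2 i n, smul_comm (a i) c]

variable {ϖ t a}

theorem mem_tateEigen {v : ℕ → X} :
    v ∈ tateEigen ϖ t a ↔
      ϖ • v 0 = 0 ∧ (∀ n, ϖ • v (n + 1) = v n) ∧ ∀ i n, t i (v n) = a i • v n :=
  Iff.rfl

theorem tate_pow_smul {v : ℕ → X} (hv : v ∈ tateEigen ϖ t a) (k n : ℕ) :
    ϖ ^ k • v (n + k) = v n := by
  induction k with
  | zero => simp
  | succ k ih =>
    rw [pow_succ, mul_smul, ← add_assoc, hv.2.1 (n + k), ih]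

theorem tate_pow_succ_smul {v : ℕ → X} (hv : v ∈ tateEigen ϖ t a) (n : ℕ) :
    ϖ ^ (n + 1) • v n = 0 := by
  have h := tate_pow_smul hv n 0
  rw [zero_add] at h
  rw [pow_succ', mul_smul, h, hv.1]

theorem tate_pow_smul_eq_zero {v : ℕ → X} (hv : v ∈ tateEigen ϖ t a) {m n : ℕ} (hmn : m < n) :
    ϖ ^ n • v m = 0 := by
  obtain ⟨k, rfl⟩ : ∃ k, n = k + (m + 1) := ⟨n - (m + 1), by omega⟩
  rw [pow_add, mul_smul, tate_pow_succ_smul hv, smul_zero]

/-- The shifted sequence. -/
theorem tate_shift_mem {v : ℕ → X} (hv : v ∈ tateEigen ϖ t a) (k : ℕ)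
    (hk : ∀ m, m < k → v m = 0) : (fun n => v (n + k)) ∈ tateEigen ϖ t a := by
  refine ⟨?_, ?_, ?_⟩
  · rcases Nat.eq_zero_or_pos k with rfl | hk0
    · exact hv.1
    · obtain ⟨j, rfl⟩ : ∃ j, k = j + 1 := ⟨k - 1, by omega⟩
      show ϖ • v (0 + (j + 1)) = 0
      rw [zero_add, hv.2.1 j]
      exact hk j (by omega)
  · intro n
    show ϖ • v (n + 1 + k) = v (n + k)
    rw [show n + 1 + k = (n + k) + 1 by omega]
    exact hv.2.1 (n + k)
  · intro i n
    exact hv.2.2 i (n + k)

theorem tate_eq_pow_smul_shift {v : ℕ → X} (hv : v ∈ tateEigen ϖ t a) (k : ℕ) :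
    v = ϖ ^ k • (fun n => v (n + k)) := by
  funext n
  simp only [Pi.smul_apply]
  exact (tate_pow_smul hv k n).symm

/-- Elements vanishing in degrees `< k` are divisible by `ϖ ^ k`. -/
theorem tate_exists_eq_pow_smul {v : ℕ → X} (hv : v ∈ tateEigen ϖ t a) (k : ℕ)
    (hk : ∀ m, m < k → v m = 0) : ∃ w ∈ tateEigen ϖ t a, v = ϖ ^ k • w :=
  ⟨_, tate_shift_mem hv k hk, tate_eq_pow_smul_shift hv k⟩

end Tate

/-! ### Structure of the Tate module over a complete discrete valuation ring -/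

section Structure

variable {O : Type*} [CommRing O] [IsDomain O] [IsDiscreteValuationRing O]
variable {X : Type*} [AddCommGroup X] [Module O X]
variable {ι : Type*}
variable {ϖ : O} {t : ι → X →ₗ[O] X} {a : ι → O}

theorem tateEigen_isTorsionFree (hϖ : ϖ ∈ maximalIdeal O) :
    Module.IsTorsionFree O (tateEigen ϖ t a) := by
  apply Module.IsTorsionFree.of_smul_eq_zero
  intro r v hrv
  by_cases hr : r = 0
  · exact Or.inl hr
  right
  obtain ⟨k, c, hc⟩ := exists_dvd_pow_of_mem_maximalIdeal hϖ hr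
  have h1 : (ϖ ^ k) • (v : ℕ → X) = 0 := by
    have h2 : r • (v : ℕ → X) = 0 := by
      have := congrArg (Subtype.val) hrv
      simpa using this
    rw [hc, mul_comm, mul_smul, h2, smul_zero]
  apply Subtype.ext
  funext n
  have h3 := tate_pow_smul v.2 k n
  have h4 := congrFun h1 (n + k)
  simp only [Pi.smul_apply, Pi.zero_apply] at h4
  rw [← h3, h4]
  rfl

/-- Evaluation at the `m`-th component. -/
def tateEval (ϖ : O) (t : ι → X →ₗ[O] X) (a : ι → O) (m : ℕ) : tateEigen ϖ t a →ₗ[O] X :=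
  (LinearMap.proj m).comp (tateEigen ϖ t a).subtype

@[simp] theorem tateEval_apply (m : ℕ) (v : tateEigen ϖ t a) :
    tateEval ϖ t a m v = (v : ℕ → X) m := rfl

theorem tateEigen_isHausdorff (hϖ0 : ϖ ≠ 0) :
    IsHausdorff (maximalIdeal O) (tateEigen ϖ t a) := by
  constructor
  intro x hx
  apply Subtype.ext
  funext m
  obtain ⟨N, hN⟩ := exists_pow_maximalIdeal_le_span (pow_ne_zero (m + 1) hϖ0)
  have h1 : (maximalIdeal O ^ N • ⊤ : Submodule O (tateEigen ϖ t a))
      ≤ LinearMap.ker (tateEval ϖ t a m) := by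
    rw [Submodule.smul_le]
    intro c hc v _
    obtain ⟨b, rfl⟩ := Ideal.mem_span_singleton'.mp (hN hc)
    rw [LinearMap.mem_ker, map_smul, tateEval_apply, mul_smul, tate_pow_succ_smul v.2,
      smul_zero]
  have h2 := hx N
  rw [SModEq.zero] at h2
  exact LinearMap.mem_ker.mp (h1 h2)

theorem tateEval_zero_ker_le (hϖ : ϖ ∈ maximalIdeal O) :
    LinearMap.ker (tateEval ϖ t a 0)
      ≤ (maximalIdeal O • ⊤ : Submodule O (tateEigen ϖ t a)) := by
  intro v hv
  rw [LinearMap.mem_ker, tateEval_apply] at hv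
  obtain ⟨w, hw, hvw⟩ := tate_exists_eq_pow_smul v.2 1 (fun m hm => by
    obtain rfl : m = 0 := by omega
    exact hv)
  have h1 : v = ϖ • (⟨w, hw⟩ : tateEigen ϖ t a) := by
    apply Subtype.ext
    rw [hvw, pow_one]
    rfl
  rw [h1]
  exact Submodule.smul_mem_smul hϖ Submodule.mem_top

theorem tateEigen_finite [IsAdicComplete (maximalIdeal O) O] (hϖ : ϖ ∈ maximalIdeal O)
    (hϖ0 : ϖ ≠ 0) (hX : ∃ Y : Submodule O X, Y.FG ∧ ∀ x : X, ϖ • x = 0 → x ∈ Y) :
    Module.Finite O (tateEigen ϖ t a) := by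
  obtain ⟨Y, hY, hYX⟩ := hX
  have := tateEigen_isHausdorff (t := t) (a := a) hϖ0
  apply finite_of_finite_quotient (maximalIdeal O)
  -- the range of the evaluation at `0` is finitely generated
  have hrange : LinearMap.range (tateEval ϖ t a 0) ≤ Y := by
    rintro _ ⟨v, rfl⟩
    exact hYX _ v.2.1
  have hYn : IsNoetherian O Y := isNoetherian_of_fg_of_noetherian Y hY
  have hfg : (LinearMap.range (tateEval ϖ t a 0)).FG := by
    have h1 : (Submodule.comap Y.subtype (LinearMap.range (tateEval ϖ t a 0))).FG :=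
      IsNoetherian.noetherian _
    have h2 := h1.map Y.subtype
    rwa [Submodule.map_comap_subtype, inf_eq_right.mpr hrange] at h2
  have hfin1 : Module.Finite O (LinearMap.range (tateEval ϖ t a 0)) :=
    Module.Finite.of_fg hfg
  have hfin2 : Module.Finite O (tateEigen ϖ t a ⧸ LinearMap.ker (tateEval ϖ t a 0)) :=
    Module.Finite.equiv (LinearMap.quotKerEquivRange (tateEval ϖ t a 0)).symm
  exact Module.Finite.of_surjective
    (Submodule.factor (tateEval_zero_ker_le (t := t) (a := a) hϖ))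
    (Submodule.factor_surjective _)

theorem tateEigen_free [IsAdicComplete (maximalIdeal O) O] (hϖ : ϖ ∈ maximalIdeal O)
    (hϖ0 : ϖ ≠ 0) (hX : ∃ Y : Submodule O X, Y.FG ∧ ∀ x : X, ϖ • x = 0 → x ∈ Y) :
    Module.Free O (tateEigen ϖ t a) := by
  have := tateEigen_finite (t := t) (a := a) hϖ hϖ0 hX
  have := tateEigen_isTorsionFree (t := t) (a := a) hϖ
  exact Module.free_of_finite_type_torsion_free'

end Structure

/-! ### The induced action -/

section Action

variable {O : Type*} [CommRing O]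
variable {X : Type*} [AddCommGroup X] [Module O X]
variable {ι : Type*}
variable {ϖ : O} {t : ι → X →ₗ[O] X} {a : ι → O}

/-- The map induced on the Tate module by an endomorphism commuting with the operators. -/
def tateMap (g : X →ₗ[O] X) (hg : ∀ i x, g (t i x) = t i (g x)) :
    tateEigen ϖ t a →ₗ[O] tateEigen ϖ t a where
  toFun v := ⟨fun n => g ((v : ℕ → X) n), by
    refine ⟨?_, ?_, ?_⟩
    · rw [← map_smul, v.2.1, map_zero]
    · intro n
      rw [← map_smul, v.2.2.1 n]
    · intro i n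
      rw [← hg, v.2.2.2 i n, map_smul]⟩
  map_add' v w := by
    apply Subtype.ext
    funext n
    simp
  map_smul' c v := by
    apply Subtype.ext
    funext n
    simp

@[simp] theorem tateMap_apply_coe (g : X →ₗ[O] X) (hg : ∀ i x, g (t i x) = t i (g x))
    (v : tateEigen ϖ t a) (n : ℕ) :
    ((tateMap g hg v : tateEigen ϖ t a) : ℕ → X) n = g ((v : ℕ → X) n) := rfl

variable {G : Type*} [Monoid G] (ρ : G →* Module.End O X)
  (hρ : ∀ (γ : G) (i : ι) (x : X), ρ γ (t i x) = t i (ρ γ x))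

/-- The representation on the Tate module. -/
def tateRep : G →* Module.End O (tateEigen ϖ t a) where
  toFun γ := tateMap (ρ γ) (hρ γ)
  map_one' := by
    apply LinearMap.ext
    intro v
    apply Subtype.ext
    funext n
    simp
  map_mul' γ δ := by
    apply LinearMap.ext
    intro v
    apply Subtype.ext
    funext n
    simp

@[simp] theorem tateRep_apply_coe (γ : G) (v : tateEigen ϖ t a) (n : ℕ) :
    ((tateRep ρ hρ γ v : tateEigen ϖ t a) : ℕ → X) n = ρ γ ((v : ℕ → X) n) := rfl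

theorem tateRep_eq_one (γ : G) (hγ : ∀ x : X, (∃ n : ℕ, ϖ ^ n • x = 0) → ρ γ x = x) :
    tateRep (ϖ := ϖ) (a := a) ρ hρ γ = 1 := by
  apply LinearMap.ext
  intro v
  apply Subtype.ext
  funext n
  rw [tateRep_apply_coe]
  exact hγ _ ⟨n + 1, tate_pow_succ_smul v.2 n⟩

theorem tateRep_quadratic (γ : G) (i : ι) (c : O)
    (hγ : ∀ x : X, (∃ n : ℕ, ϖ ^ n • x = 0) → ρ γ (ρ γ x) - t i (ρ γ x) + c • x = 0) :
    tateRep (ϖ := ϖ) (a := a) ρ hρ γ * tateRep ρ hρ γ - a i • tateRep ρ hρ γ
      + c • (1 : Module.End O (tateEigen ϖ t a)) = 0 := by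
  apply LinearMap.ext
  intro v
  apply Subtype.ext
  funext n
  have h1 := hγ ((v : ℕ → X) n) ⟨n + 1, tate_pow_succ_smul v.2 n⟩
  have h2 : t i (ρ γ ((v : ℕ → X) n)) = a i • ρ γ ((v : ℕ → X) n) := by
    rw [← hρ, v.2.2.2 i n, map_smul]
  rw [h2] at h1
  simpa using h1

theorem tateRep_sub_mem [IsLocalRing O] (hϖ : ϖ ∈ maximalIdeal O) (n : ℕ) (γ : G)
    (hγ : ∀ x : X, ϖ ^ n • x = 0 → ρ γ x = x) (v : tateEigen ϖ t a) :
    tateRep ρ hρ γ v - v ∈ (maximalIdeal O ^ n • ⊤ : Submodule O (tateEigen ϖ t a)) := by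
  set w : tateEigen ϖ t a := tateRep ρ hρ γ v - v with hw
  have hw0 : ∀ m, m < n → (w : ℕ → X) m = 0 := by
    intro m hm
    have h1 : (w : ℕ → X) m = ρ γ ((v : ℕ → X) m) - (v : ℕ → X) m := rfl
    rw [h1, hγ _ (tate_pow_smul_eq_zero v.2 hm), sub_self]
  obtain ⟨w', hw', hww'⟩ := tate_exists_eq_pow_smul w.2 n hw0
  have h2 : w = ϖ ^ n • (⟨w', hw'⟩ : tateEigen ϖ t a) := by
    apply Subtype.ext
    rw [hww']
    rfl
  rw [h2]
  exact Submodule.smul_mem_smul (Ideal.pow_mem_pow hϖ n) Submodule.mem_top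

end Action

end

end Fermat.Agent.S30.H529

end
-- ===== PACK-END S30/H529/TateCore.lean

-- ===== PACK-BEGIN S24/H624/HoloRing.lean
section


/-!
# The ring of holomorphic functions on the upper half-plane and Taylor expansions

Architecture-independent analytic foundation for the S24 / S28 long shots.
-/

set_option autoImplicit false

namespace Fermat.Agent.S24.H624

open UpperHalfPlane Complex
open scoped Manifold Topology

/-- The `ℂ`-algebra of holomorphic functions on the upper half-plane. -/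
def holoRing : Subalgebra ℂ (ℍ → ℂ) where
  carrier := {f | MDiff f}
  mul_mem' := fun hf hg => hf.mul hg
  add_mem' := fun hf hg => hf.add hg
  algebraMap_mem' := fun _ => mdifferentiable_const

theorem mem_holoRing {f : ℍ → ℂ} : f ∈ holoRing ↔ MDiff f := Iff.rfl

/-- A holomorphic function on `ℍ`, extended by junk to `ℂ`, is analytic at every point of `ℍ`. -/
theorem analyticAt_of_mdiff {f : ℍ → ℂ} (hf : MDiff f) (τ : ℍ) :
    AnalyticAt ℂ (f ∘ ofComplex) (τ : ℂ) :=
  ((UpperHalfPlane.mdifferentiable_iff.mp hf).analyticOnNhd isOpen_upperHalfPlaneSet) _ τ.im_pos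

theorem analyticAt_of_mdiff' {f : ℍ → ℂ} (hf : MDiff f) {z : ℂ} (hz : 0 < z.im) :
    AnalyticAt ℂ (f ∘ ofComplex) z :=
  ((UpperHalfPlane.mdifferentiable_iff.mp hf).analyticOnNhd isOpen_upperHalfPlaneSet) _ hz

/-- Order of vanishing at `τ` of a function on the upper half-plane. -/
noncomputable def ordAt (τ : ℍ) (f : ℍ → ℂ) : ℕ∞ := analyticOrderAt (f ∘ ofComplex) (τ : ℂ)

theorem ordAt_def (τ : ℍ) (f : ℍ → ℂ) : ordAt τ f = analyticOrderAt (f ∘ ofComplex) (τ : ℂ) := rfl

theorem eq_zero_of_eventually_zero {f : ℍ → ℂ} (hf : MDiff f) {τ : ℍ}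
    (h : ∀ᶠ z in 𝓝 (τ : ℂ), (f ∘ ofComplex) z = 0) : f = 0 := by
  have han := (UpperHalfPlane.mdifferentiable_iff.mp hf).analyticOnNhd isOpen_upperHalfPlaneSet
  have hpre : IsPreconnected {z : ℂ | 0 < z.im} :=
    (Complex.isConnected_of_upperHalfPlane subset_rfl
      (fun z (hz : 0 < z.im) => le_of_lt hz)).isPreconnected
  have := han.eqOn_zero_of_preconnected_of_eventuallyEq_zero hpre τ.im_pos h
  funext w
  have hw := this w.im_pos
  simpa [Function.comp_apply, ofComplex_apply] using hw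

theorem ordAt_eq_top_iff {f : ℍ → ℂ} (hf : MDiff f) (τ : ℍ) : ordAt τ f = ⊤ ↔ f = 0 := by
  constructor
  · intro h
    exact eq_zero_of_eventually_zero hf (analyticOrderAt_eq_top.mp h)
  · rintro rfl
    rw [ordAt_def, analyticOrderAt_eq_top]
    exact Filter.Eventually.of_forall fun z => rfl

theorem ordAt_ne_top {f : ℍ → ℂ} (hf : MDiff f) (hf0 : f ≠ 0) (τ : ℍ) : ordAt τ f ≠ ⊤ :=
  fun h => hf0 ((ordAt_eq_top_iff hf τ).mp h)

theorem ordAt_mul {f g : ℍ → ℂ} (hf : MDiff f) (hg : MDiff g) (τ : ℍ) :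
    ordAt τ (f * g) = ordAt τ f + ordAt τ g :=
  analyticOrderAt_mul (analyticAt_of_mdiff hf τ) (analyticAt_of_mdiff hg τ)

theorem ordAt_eq_zero_iff {f : ℍ → ℂ} (hf : MDiff f) (τ : ℍ) : ordAt τ f = 0 ↔ f τ ≠ 0 := by
  rw [ordAt_def, (analyticAt_of_mdiff hf τ).analyticOrderAt_eq_zero]
  simp [Function.comp_apply, ofComplex_apply]

theorem le_ordAt_add {f g : ℍ → ℂ} (τ : ℍ) :
    min (ordAt τ f) (ordAt τ g) ≤ ordAt τ (f + g) :=
  le_analyticOrderAt_add

theorem ordAt_zero (τ : ℍ) : ordAt τ (0 : ℍ → ℂ) = ⊤ := by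
  rw [ordAt_def, analyticOrderAt_eq_top]
  exact Filter.Eventually.of_forall fun z => rfl

theorem mul_eq_zero_of_mdiff {f g : ℍ → ℂ} (hf : MDiff f) (hg : MDiff g) (h : f * g = 0) :
    f = 0 ∨ g = 0 := by
  by_contra hcon
  rw [not_or] at hcon
  have h1 := ordAt_mul hf hg UpperHalfPlane.I
  rw [h, ordAt_zero] at h1
  have h3 := ordAt_ne_top hf hcon.1 UpperHalfPlane.I
  have h4 := ordAt_ne_top hg hcon.2 UpperHalfPlane.I
  exact (WithTop.add_ne_top.mpr ⟨h3, h4⟩) h1.symm

instance instNontrivialHoloRing : Nontrivial holoRing :=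
  ⟨⟨0, 1, fun h => by
    have := congrArg (fun f : holoRing => (f : ℍ → ℂ) UpperHalfPlane.I) h
    simp at this⟩⟩

instance instNoZeroDivisorsHoloRing : NoZeroDivisors holoRing :=
  ⟨by
    intro a b hab
    have h2 : ((a : ℍ → ℂ) * (b : ℍ → ℂ)) = 0 := by
      have := congrArg (Subtype.val) hab
      simpa using this
    rcases mul_eq_zero_of_mdiff a.2 b.2 h2 with h | h
    · exact Or.inl (Subtype.ext h)
    · exact Or.inr (Subtype.ext h)⟩

instance instIsDomainHoloRing : IsDomain holoRing := NoZeroDivisors.to_isDomain _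

end Fermat.Agent.S24.H624

end
-- ===== PACK-END S24/H624/HoloRing.lean

-- ===== PACK-BEGIN S21/H381/Primitive.lean
section



/-!
# S21, piece A (part 1): decaying primitives of periodic holomorphic functions on `ℍ`

`exists_disc_primitive`: if `g : ℍ → ℂ` is holomorphic, `h`-periodic and tends to `0` at `i∞`,
there is `Ψ` holomorphic on the open unit disc with `Ψ 0 = 0` such that `z ↦ Ψ (𝕢 h z)` is a
primitive of `g` on `ℍ`.
-/

set_option autoImplicit false

namespace Fermat.Agent.S21.H381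

open Filter Topology Function Complex
open UpperHalfPlane hiding I
open scoped Manifold

/-- On the upper half plane, `G ∘ ofComplex` and `G' := fun z => Ψ (𝕢 h z)` agree near any point
as soon as `G τ = Ψ (𝕢 h τ)` on `ℍ`. -/
theorem comp_ofComplex_eventuallyEq {G : ℍ → ℂ} {P : ℂ → ℂ} (hGP : ∀ τ : ℍ, G τ = P ↑τ)
    (τ : ℍ) : G ∘ ofComplex =ᶠ[𝓝 (τ : ℂ)] P := by
  have hopen : IsOpen {z : ℂ | 0 < z.im} := isOpen_lt continuous_const Complex.continuous_im
  filter_upwards [hopen.mem_nhds τ.2] with z hz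
  simp only [Function.comp_apply, ofComplex_apply_of_im_pos hz, hGP]

/-- **One-step decaying primitive.** -/
theorem exists_disc_primitive {g : ℍ → ℂ} {h : ℝ} (hh : 0 < h)
    (hper : Periodic (g ∘ ofComplex) h) (hhol : MDiff g) (hzero : IsZeroAtImInfty g) :
    ∃ Ψ : ℂ → ℂ, DifferentiableOn ℂ Ψ (Metric.ball 0 1) ∧ Ψ 0 = 0 ∧
      ∀ τ : ℍ, HasDerivAt (fun z : ℂ => (h / (2 * Real.pi * _root_.Complex.I)) * Ψ (Periodic.qParam h z))
        (g τ) ↑τ := by
  have hbdd : IsBoundedAtImInfty g := hzero.isBoundedAtImInfty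
  set φ : ℂ → ℂ := cuspFunction h g with hφ
  have hφdiff : DifferentiableOn ℂ φ (Metric.ball 0 1) :=
    differentiableOn_cuspFunction_ball hh hper hhol hbdd
  have hφ0 : φ 0 = 0 := by
    have h1 := cuspFunction_apply_zero hh
      (analyticAt_cuspFunction_zero hh hper hhol hbdd) hper
    rw [hφ, h1]
    exact hzero.valueAtInfty_eq_zero
  have hball : Metric.ball (0 : ℂ) 1 ∈ 𝓝 (0 : ℂ) := Metric.ball_mem_nhds 0 one_pos
  have hψdiff : DifferentiableOn ℂ (dslope φ 0) (Metric.ball 0 1) :=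
    (Complex.differentiableOn_dslope hball).2 hφdiff
  obtain ⟨Ψ, hΨ0, hΨ⟩ := (hψdiff.isExactOn_ball).with_val_at 0 0
  refine ⟨Ψ, ?_, hΨ0, ?_⟩
  · intro z hz
    exact (hΨ z hz).differentiableAt.differentiableWithinAt
  · intro τ
    set q : ℂ := Periodic.qParam h ↑τ with hq
    have hqball : q ∈ Metric.ball (0 : ℂ) 1 := by
      rw [mem_ball_zero_iff]
      exact Periodic.norm_qParam_lt_one hh τ.2
    have hq0 : q ≠ 0 := Periodic.qParam_ne_zero _
    have hqd : HasDerivAt (Periodic.qParam h) (q * (2 * Real.pi * _root_.Complex.I / h)) ↑τ := by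
      have hs : HasStrictDerivAt (Periodic.qParam h) (q * (2 * Real.pi * _root_.Complex.I / h)) (τ : ℂ) := by
        simpa only [id_eq, mul_one] using!
          (((hasStrictDerivAt_id (τ : ℂ)).const_mul _).div_const _).cexp
      exact hs.hasDerivAt
    have hcomp := (hΨ q hqball).comp (τ : ℂ) hqd
    have hval : (h / (2 * Real.pi * _root_.Complex.I) : ℂ) * (dslope φ 0 q * (q * (2 * Real.pi * _root_.Complex.I / h)))
        = g τ := by
      have hφq : φ q = g τ := eq_cuspFunction τ hh.ne' hper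
      rw [dslope_of_ne _ hq0, slope_def_field, hφ0, sub_zero, sub_zero, hφq]
      have hh' : (h : ℂ) ≠ 0 := by exact_mod_cast hh.ne'
      have hpi : (2 * Real.pi * _root_.Complex.I : ℂ) ≠ 0 := Complex.two_pi_I_ne_zero
      field_simp
    have h3 := hcomp.const_mul (h / (2 * Real.pi * _root_.Complex.I) : ℂ)
    rw [hval] at h3
    exact h3

end Fermat.Agent.S21.H381

end
-- ===== PACK-END S21/H381/Primitive.lean

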