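import Mathlib
import Fermat.Prelude.Def_CuspForm_HeckeAlgebra
import Fermat.Prelude.Def_AlgebraicCurve_Correspondence
import Mathlib.NumberTheory.ModularForms.Derivative
import Mathlib.NumberTheory.ModularForms.LevelOne.DimensionFormula
import Mathlib.NumberTheory.ModularForms.LevelOne.GradedRing
import Mathlib.Analysis.Complex.Liouville
import Fermat.Prelude.Def_ModularCurve_X0
import Fermat.Prelude.Def_ModularCurve_LaurentCoeff

-- ===== PACK-BEGIN S33/Alg.lean
section
/-
Row S33 (ordinary at `p`), TOP GLUE — algebra (helper409).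

Pure linear algebra over a local ring `T` (Mathlib only):

* `exists_basis_range_eq_span`: a nontrivial idempotent endomorphism of a free module of rank 2
  has image spanned by the first vector of a basis.
* `exists_ordinary_line`: let `f₀` be an automorphism of a free module `V` of rank 2 with
  `c₀ := det f₀`, `c₀ - 1` a unit and `(f₀ - c₀)(f₀ - 1) = 0`.  Then `L := range (f₀ - 1)
  = ker (f₀ - c₀)` is spanned by the first vector of a basis of `V`.
-/


set_option autoImplicit false
set_option linter.style.haveILetI false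

noncomputable section

namespace Fermat.Agent.S33

open IsLocalRing

section Algebra

variable {T : Type} [CommRing T] [IsLocalRing T] {V : Type} [AddCommGroup V] [Module T V]
  [Module.Free T V] [Module.Finite T V]

/-- A nontrivial idempotent endomorphism of a free module of rank 2 over a local ring has image
spanned by the first vector of a basis. -/
theorem exists_basis_range_eq_span (hV : Module.finrank T V = 2) (e : Module.End T V)
    (he : IsIdempotentElem e) (he0 : e ≠ 0) (he1 : e ≠ 1) :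
    ∃ b : Module.Basis (Fin 2) T V, LinearMap.range e = T ∙ b 0 := by
  have hc : IsCompl (LinearMap.range e) (LinearMap.ker e) :=
    LinearMap.IsIdempotentElem.isCompl he
  let φ : (LinearMap.range e × LinearMap.ker e) ≃ₗ[T] V := Submodule.prodEquivOfIsCompl _ _ hc
  haveI hP : Module.Projective T (LinearMap.range e × LinearMap.ker e) :=
    Module.Projective.of_equiv φ.symm
  haveI hP1 : Module.Projective T (LinearMap.range e) :=
    Module.Projective.of_split (LinearMap.inl T _ (LinearMap.ker e)) (LinearMap.fst T _ _)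
      (by ext x; simp)
  haveI hP2 : Module.Projective T (LinearMap.ker e) :=
    Module.Projective.of_split (LinearMap.inr T (LinearMap.range e) _) (LinearMap.snd T _ _)
      (by ext x; simp)
  haveI hF1 : Module.Finite T (LinearMap.range e) :=
    Module.Finite.of_surjective (e.rangeRestrict) (LinearMap.surjective_rangeRestrict e)
  haveI hF2 : Module.Finite T (LinearMap.ker e) := by
    have hk : LinearMap.ker e = LinearMap.range (1 - e) :=
      LinearMap.IsIdempotentElem.ker_eq_range_one_sub he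
    rw [hk]
    exact Module.Finite.of_surjective ((1 - e).rangeRestrict)
      (LinearMap.surjective_rangeRestrict _)
  haveI hFr1 : Module.Free T (LinearMap.range e) := Module.free_of_flat_of_isLocalRing
  haveI hFr2 : Module.Free T (LinearMap.ker e) := Module.free_of_flat_of_isLocalRing
  have hsum : Module.finrank T (LinearMap.range e) + Module.finrank T (LinearMap.ker e) = 2 := by
    rw [← Module.finrank_prod, φ.finrank_eq, hV]
  have h1 : Module.finrank T (LinearMap.range e) ≠ 0 := by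
    intro h
    haveI : Subsingleton (LinearMap.range e) :=
      (Module.finrank_eq_zero_iff_of_free (R := T) (M := LinearMap.range e)).mp h
    apply he0
    ext v
    have : (⟨e v, LinearMap.mem_range_self e v⟩ : LinearMap.range e) = 0 :=
      Subsingleton.elim _ _
    simpa using congrArg Subtype.val this
  have h2 : Module.finrank T (LinearMap.ker e) ≠ 0 := by
    intro h
    haveI : Subsingleton (LinearMap.ker e) :=
      (Module.finrank_eq_zero_iff_of_free (R := T) (M := LinearMap.ker e)).mp h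
    apply he1
    ext v
    have hmem : v - e v ∈ LinearMap.ker e := by
      rw [LinearMap.mem_ker, map_sub]
      have : e (e v) = e v := by
        have := congrArg (fun f : Module.End T V => f v) he.eq
        simpa using this
      rw [this, sub_self]
    have : (⟨v - e v, hmem⟩ : LinearMap.ker e) = 0 := Subsingleton.elim _ _
    have h3 : v - e v = 0 := by simpa using congrArg Subtype.val this
    simpa using (sub_eq_zero.mp h3).symm
  have hr1 : Module.finrank T (LinearMap.range e) = 1 := by omega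
  have hr2 : Module.finrank T (LinearMap.ker e) = 1 := by omega
  let b1 : Module.Basis (Fin 1) T (LinearMap.range e) := Module.finBasisOfFinrankEq T _ hr1
  let b2 : Module.Basis (Fin 1) T (LinearMap.ker e) := Module.finBasisOfFinrankEq T _ hr2
  let b : Module.Basis (Fin 2) T V :=
    ((b1.prod b2).map φ).reindex (finSumFinEquiv (m := 1) (n := 1))
  have hb0 : b 0 = (b1 0 : V) := by
    have h0 : (finSumFinEquiv (m := 1) (n := 1)).symm 0 = Sum.inl 0 := by
      rw [Equiv.symm_apply_eq]; rfl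
    simp only [b, Module.Basis.reindex_apply, h0, Module.Basis.map_apply]
    simp [φ, Submodule.coe_prodEquivOfIsCompl']
  refine ⟨b, ?_⟩
  rw [hb0]
  apply le_antisymm
  · intro v hv
    have hrep := b1.sum_repr ⟨v, hv⟩
    rw [Fin.sum_univ_one] at hrep
    rw [Submodule.mem_span_singleton]
    refine ⟨b1.repr ⟨v, hv⟩ 0, ?_⟩
    have := congrArg Subtype.val hrep
    simpa using this
  · rw [Submodule.span_singleton_le_iff_mem]
    exact (b1 0).2


/-- Let `f₀` be an endomorphism of a free module `V` of rank 2 over a local ring with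
`det f₀ = c₀` a unit, `c₀ - 1` a unit and `(f₀ - c₀)(f₀ - 1) = 0`.  Then
`range (f₀ - 1) = ker (f₀ - c₀)` is spanned by the first vector of a basis of `V`. -/
theorem exists_ordinary_line (hV : Module.finrank T V = 2) (f₀ : Module.End T V) (c₀ : T)
    (hdet : LinearMap.det f₀ = c₀) (hc₀ : IsUnit c₀) (hu : IsUnit (c₀ - 1))
    (h : (f₀ - c₀ • 1) * (f₀ - 1) = 0) :
    ∃ b : Module.Basis (Fin 2) T V,
      T ∙ b 0 = LinearMap.range (f₀ - 1) ∧ T ∙ b 0 = LinearMap.ker (f₀ - c₀ • 1) := by
  obtain ⟨u, hu'⟩ := hu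
  have huu : (↑u⁻¹ : T) * (c₀ - 1) = 1 := by rw [← hu', Units.inv_mul]
  have hsq : (f₀ - 1) * (f₀ - 1) = (c₀ - 1) • (f₀ - 1) := by
    have e1 : (f₀ - 1) * (f₀ - 1) = (f₀ - c₀ • 1) * (f₀ - 1) + (c₀ - 1) • (f₀ - 1) := by
      rw [sub_smul, one_smul, sub_mul (f₀) (c₀ • (1 : Module.End T V)), smul_mul_assoc, one_mul,
        sub_mul f₀ 1 (f₀ - 1), one_mul]
      abel
    rw [e1, h, zero_add]
  set e : Module.End T V := (↑u⁻¹ : T) • (f₀ - 1) with he
  have hidem : IsIdempotentElem e := by
    show e * e = e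
    rw [he, smul_mul_smul_comm, hsq, smul_smul, mul_assoc, huu, mul_one]
  have hf₀ : f₀ - 1 = (c₀ - 1) • e := by
    rw [he, smul_smul, mul_comm, huu, one_smul]
  have h1e : 1 - e = (-(↑u⁻¹ : T)) • (f₀ - c₀ • 1) := by
    have e2 : f₀ - c₀ • 1 = (f₀ - 1) - (c₀ - 1) • (1 : Module.End T V) := by
      rw [sub_smul, one_smul]; abel
    rw [e2, smul_sub, smul_smul, neg_mul, huu, neg_smul, neg_smul, one_smul, ← he]
    abel
  have he0 : e ≠ 0 := by
    intro h0
    have h1 : f₀ = 1 := by
      have := hf₀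
      rw [h0, smul_zero, sub_eq_zero] at this
      exact this
    have h2 : c₀ = 1 := by rw [← hdet, h1, map_one]
    have h3 : (u : T) = 0 := by rw [hu', h2, sub_self]
    exact u.ne_zero h3
  have he1 : e ≠ 1 := by
    intro h1
    have h2 : f₀ = c₀ • 1 := by
      have := hf₀
      rw [h1, sub_smul, one_smul] at this
      have h3 : f₀ = c₀ • (1 : Module.End T V) - 1 + 1 := by rw [← this]; abel
      rw [h3]; abel
    have h3 : c₀ = c₀ ^ 2 := by
      have := hdet
      rw [h2, LinearMap.det_smul, hV, map_one, mul_one] at this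
      exact this.symm
    have h4 : c₀ * (c₀ - 1) = 0 := by rw [mul_sub, mul_one, ← sq, ← h3, sub_self]
    have h5 : (u : T) = 0 := by
      rw [hu']
      exact (hc₀.mul_right_eq_zero).mp h4
    exact u.ne_zero h5
  obtain ⟨b, hb⟩ := exists_basis_range_eq_span hV e hidem he0 he1
  have hr : LinearMap.range e = LinearMap.range (f₀ - 1) := by
    apply le_antisymm
    · rintro _ ⟨v, rfl⟩
      refine ⟨(↑u⁻¹ : T) • v, ?_⟩
      rw [he, LinearMap.smul_apply, map_smul]
    · rintro _ ⟨v, rfl⟩
      refine ⟨(c₀ - 1) • v, ?_⟩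
      show e ((c₀ - 1) • v) = (f₀ - 1) v
      rw [he, LinearMap.smul_apply, map_smul, smul_smul, huu, one_smul]
  have hk : LinearMap.range e = LinearMap.ker (f₀ - c₀ • 1) := by
    rw [LinearMap.IsIdempotentElem.range_eq_ker_one_sub hidem, h1e]
    ext v
    rw [LinearMap.mem_ker, LinearMap.mem_ker, LinearMap.smul_apply]
    constructor
    · intro hv
      have h6 := congrArg (fun w => (-(c₀ - 1)) • w) hv
      simp only [smul_smul, smul_zero] at h6
      rw [neg_mul_neg, mul_comm, huu, one_smul] at h6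
      exact h6
    · intro hv
      rw [hv, smul_zero]
  exact ⟨b, by rw [← hb, hr], by rw [← hb, hk]⟩

end Algebra

end Fermat.Agent.S33

end
end
-- ===== PACK-END S33/Alg.lean

-- ===== PACK-BEGIN Lib/NormL/Cop.lean
section


/-!
# `NormL`, block COP: coprime representatives of ideal classes (helper704)

Every ideal class of the ring of integers of a number field contains an integral ideal whose
absolute norm is coprime to a given integer `m ≠ 0`.

The statement is true in every Dedekind domain in the form "every ideal class contains an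
integral ideal coprime to a given nonzero ideal" (`exists_mk0_eq_and_sup_eq_top`).
-/

set_option autoImplicit false

namespace Fermat.Agent.Lib.NormL

open NumberField
open scoped nonZeroDivisors

namespace Cop

section Dedekind

variable {R : Type*} [CommRing R] [IsDedekindDomain R]

/-- In a Dedekind domain, for nonzero ideals `J₀`, `M` there are an element `a` and an ideal `J`
with `J₀ * J = (a)` and `J` coprime to `M`. -/
theorem exists_mul_eq_span_singleton_and_sup_eq_top {J₀ M : Ideal R} (hJ₀ : J₀ ≠ ⊥)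
    (hM : M ≠ ⊥) :
    ∃ (a : R) (J : Ideal R), J₀ * J = Ideal.span {a} ∧ J ⊔ M = ⊤ := by
  have hle : J₀ * M ≤ J₀ := Ideal.mul_le_left
  have hne : J₀ * M ≠ 0 := by
    rw [Ideal.zero_eq_bot]
    exact mul_ne_zero hJ₀ hM
  obtain ⟨a, ha⟩ := IsDedekindDomain.exists_sup_span_eq hle hne
  have haJ : Ideal.span {a} ≤ J₀ := by
    rw [← ha]
    exact le_sup_right
  obtain ⟨J, hJ⟩ := Ideal.dvd_iff_le.mpr haJ
  refine ⟨a, J, hJ.symm, ?_⟩
  have h1 : J₀ * (J ⊔ M) = J₀ * ⊤ := by
    rw [Ideal.mul_top, Ideal.mul_sup, ← hJ, sup_comm]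
    exact ha
  exact mul_left_cancel₀ (a := J₀) (by simpa using hJ₀) h1

/-- In a Dedekind domain every ideal class contains an integral ideal which is coprime to a
given nonzero ideal. -/
theorem exists_mk0_eq_and_sup_eq_top (C : ClassGroup R) {M : Ideal R} (hM : M ≠ ⊥) :
    ∃ J : (Ideal R)⁰, ClassGroup.mk0 J = C ∧ (J : Ideal R) ⊔ M = ⊤ := by
  obtain ⟨J₀, hJ₀⟩ := ClassGroup.mk0_surjective C⁻¹
  have hJ₀ne : (J₀ : Ideal R) ≠ ⊥ := by
    have := mem_nonZeroDivisors_iff_ne_zero.mp J₀.2
    simpa using this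
  by_cases hMtop : M = ⊤
  · obtain ⟨J, hJ⟩ := ClassGroup.mk0_surjective C
    exact ⟨J, hJ, by rw [hMtop]; exact sup_top_eq _⟩
  obtain ⟨a, J, hJ, hcop⟩ := exists_mul_eq_span_singleton_and_sup_eq_top hJ₀ne hM
  have hJne : J ≠ ⊥ := by
    rintro rfl
    rw [bot_sup_eq] at hcop
    exact hMtop hcop
  have hJmem : J ∈ (Ideal R)⁰ := mem_nonZeroDivisors_iff_ne_zero.mpr (by simpa using hJne)
  refine ⟨⟨J, hJmem⟩, ?_, hcop⟩
  have hprod : ClassGroup.mk0 (J₀ * ⟨J, hJmem⟩) = 1 := by
    rw [ClassGroup.mk0_eq_one_iff]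
    exact ⟨⟨a, by simpa using hJ⟩⟩
  rw [map_mul, hJ₀] at hprod
  exact (inv_mul_eq_one.mp hprod).symm

end Dedekind

section NumberField

variable (K : Type*) [Field K] [NumberField K]

/-- If a nonzero ideal `I` of `𝓞 K` is coprime to the ideal generated by the integer `m`, then
its absolute norm is coprime to `m`. -/
theorem absNorm_coprime_of_sup_span_eq_top {I : Ideal (𝓞 K)} (hI : I ≠ ⊥) {m : ℕ}
    (h : I ⊔ Ideal.span {(m : 𝓞 K)} = ⊤) : (Ideal.absNorm I).Coprime m := by
  rw [Nat.coprime_iff_gcd_eq_one]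
  by_contra hg
  obtain ⟨p, hp, hpg⟩ := Nat.exists_prime_and_dvd hg
  have hpI : p ∣ Ideal.absNorm I := hpg.trans (Nat.gcd_dvd_left _ _)
  obtain ⟨k, hk⟩ : p ∣ m := hpg.trans (Nat.gcd_dvd_right _ _)
  have : Fact p.Prime := ⟨hp⟩
  -- the quotient is a finite group whose cardinality is divisible by `p`
  have hcard : Nat.card (𝓞 K ⧸ I) = Ideal.absNorm I := by
    rw [Ideal.absNorm_apply, Submodule.cardQuot_apply]
  have hpos : Ideal.absNorm I ≠ 0 := fun h0 => hI (Ideal.absNorm_eq_zero_iff.mp h0)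
  have hfin : Finite (𝓞 K ⧸ I) := Nat.finite_of_card_ne_zero (by rwa [hcard])
  obtain ⟨x, hx⟩ := exists_prime_addOrderOf_dvd_card' (G := 𝓞 K ⧸ I) p (by rwa [hcard])
  -- but `p` is invertible in the quotient
  obtain ⟨i, hi, y, hy, hiy⟩ := Submodule.mem_sup.mp ((Ideal.eq_top_iff_one _).mp h)
  obtain ⟨r, rfl⟩ := Ideal.mem_span_singleton'.mp hy
  have hx0 : x ≠ 0 := by
    intro hx0
    rw [hx0, addOrderOf_zero] at hx
    exact hp.one_lt.ne hx
  have hpx : p • x = 0 := by
    rw [← hx]
    exact addOrderOf_nsmul_eq_zero x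
  apply hx0
  have h1 : (Ideal.Quotient.mk I (r * (k : 𝓞 K))) * (p : 𝓞 K ⧸ I) = 1 := by
    have : (Ideal.Quotient.mk I) (i + r * (m : 𝓞 K)) = 1 := by rw [hiy, map_one]
    rw [map_add, Ideal.Quotient.eq_zero_iff_mem.mpr hi, zero_add, hk] at this
    rw [← this]
    push_cast
    simp only [map_mul, map_natCast]
    ring
  calc x = (Ideal.Quotient.mk I (r * (k : 𝓞 K)) * (p : 𝓞 K ⧸ I)) * x := by rw [h1, one_mul]
    _ = Ideal.Quotient.mk I (r * (k : 𝓞 K)) * (p • x) := by
        rw [nsmul_eq_mul, mul_assoc]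
    _ = 0 := by rw [hpx, mul_zero]

end NumberField

end Cop

section NumberField

variable (K : Type*) [Field K] [NumberField K]

/-- COP: every ideal class contains an integral ideal of norm coprime to `m`. -/
theorem exists_mk0_eq_and_coprime (m : ℕ) [NeZero m] (C : ClassGroup (𝓞 K)) :
    ∃ J : (Ideal (𝓞 K))⁰, ClassGroup.mk0 J = C ∧
      (Ideal.absNorm (J : Ideal (𝓞 K))).Coprime m := by
  have hM : Ideal.span {(m : 𝓞 K)} ≠ ⊥ := by
    rw [Ne, Ideal.span_singleton_eq_bot]
    exact_mod_cast NeZero.ne m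
  obtain ⟨J, hJ, hcop⟩ := Cop.exists_mk0_eq_and_sup_eq_top C hM
  refine ⟨J, hJ, Cop.absNorm_coprime_of_sup_span_eq_top K ?_ hcop⟩
  have := mem_nonZeroDivisors_iff_ne_zero.mp J.2
  simpa using this

end NumberField

end Fermat.Agent.Lib.NormL

end
-- ===== PACK-END Lib/NormL/Cop.lean

-- ===== PACK-BEGIN Lib/EulerProd/EulerUFM.lean
section


/-!
# Euler products over a unique factorization monoid with trivial units

`Fermat.Agent.Lib.EulerProd.hasProd_one_sub_inv`: if `M` is a commutative monoid with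
zero which is a unique factorization monoid with trivial unit group (e.g. the ideals of a
Dedekind domain), `F` is a complete normed field and `f : M → F` is completely multiplicative
(`f 0 = 0`, `f 1 = 1`, `f (a * b) = f a * f b`) and norm-summable, then
`∏ p prime, (1 - f p)⁻¹ = ∑ m, f m`.

The proof follows `Mathlib/NumberTheory/EulerProduct/Basic.lean` (the case `M = ℕ`).
-/

set_option autoImplicit false
set_option linter.unusedSectionVars false
set_option linter.overlappingInstances false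

namespace Fermat.Agent.Lib.EulerProd

open Finset

variable {M : Type*} [CommMonoidWithZero M] [UniqueFactorizationMonoid M]
  [Subsingleton Mˣ] [_root_.Nontrivial M]

/-- The nonzero elements of `M` all of whose prime divisors lie in `T`. -/
def smoothSet (T : Set M) : Set M := {m | m ≠ 0 ∧ ∀ p, Prime p → p ∣ m → p ∈ T}

theorem mem_smoothSet {T : Set M} {m : M} :
    m ∈ smoothSet T ↔ m ≠ 0 ∧ ∀ p, Prime p → p ∣ m → p ∈ T := Iff.rfl

theorem smoothSet_mono {T T' : Set M} (h : T ⊆ T') : smoothSet T ⊆ smoothSet T' :=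
  fun _ hm => ⟨hm.1, fun p hp hpm => h (hm.2 p hp hpm)⟩

theorem zero_notMem_smoothSet (T : Set M) : (0 : M) ∉ smoothSet T := fun h => h.1 rfl

theorem eq_one_of_forall_prime_not_dvd {m : M} (hm : m ≠ 0) (h : ∀ p, Prime p → ¬ p ∣ m) :
    m = 1 := by
  by_contra hne
  have hu : ¬ IsUnit m := fun hu => hne (by
    obtain ⟨u, rfl⟩ := hu
    rw [Subsingleton.elim u 1, Units.val_one])
  obtain ⟨i, hi, hdvd⟩ := WfDvdMonoid.exists_irreducible_factor hu hm
  exact h i (UniqueFactorizationMonoid.irreducible_iff_prime.mp hi) hdvd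

theorem smoothSet_empty : smoothSet (∅ : Set M) = {1} := by
  ext m
  simp only [mem_smoothSet, Set.mem_empty_iff_false, imp_false, Set.mem_singleton_iff]
  constructor
  · rintro ⟨hm, h⟩
    exact eq_one_of_forall_prime_not_dvd hm h
  · rintro rfl
    exact ⟨one_ne_zero, fun p hp hdvd => hp.not_isUnit (isUnit_of_dvd_one hdvd)⟩

/-- Inserting a non-prime does not change the smooth set. -/
theorem smoothSet_insert_of_not_prime {T : Set M} {p : M} (hp : ¬ Prime p) :
    smoothSet (insert p T) = smoothSet T := by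
  ext m
  simp only [mem_smoothSet, Set.mem_insert_iff]
  refine and_congr_right fun _ => forall_congr' fun q => ?_
  constructor
  · intro h hq hqm
    rcases h hq hqm with rfl | h'
    · exact absurd hq hp
    · exact h'
  · intro h hq hqm
    exact Or.inr (h hq hqm)

theorem pow_mul_mem_smoothSet {T : Set M} {p : M} (hp : Prime p) (e : ℕ) {m : M}
    (hm : m ∈ smoothSet T) : p ^ e * m ∈ smoothSet (insert p T) := by
  refine ⟨mul_ne_zero (pow_ne_zero _ hp.ne_zero) hm.1, fun q hq hqd => ?_⟩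
  rcases hq.dvd_or_dvd hqd with h | h
  · have := hq.dvd_of_dvd_pow h
    exact Or.inl ((prime_dvd_prime_iff_eq hq hp).mp this)
  · exact Or.inr (hm.2 q hq h)

/-- The bijection `(e, m) ↦ p ^ e * m`. -/
theorem bijective_pow_mul {T : Set M} {p : M} (hp : Prime p) (hpT : p ∉ T) :
    Function.Bijective (fun x : ℕ × smoothSet T =>
      (⟨p ^ x.1 * x.2.1, pow_mul_mem_smoothSet hp x.1 x.2.2⟩ : smoothSet (insert p T))) := by
  have hnd : ∀ m ∈ smoothSet T, ¬ p ∣ m := fun m hm hd => hpT (hm.2 p hp hd)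
  have key : ∀ (e e' : ℕ) (m m' : M), m ∈ smoothSet T → m' ∈ smoothSet T → e ≤ e' →
      p ^ e * m = p ^ e' * m' → e = e' ∧ m = m' := by
    intro e e' m m' hm hm' hle h
    obtain ⟨k, rfl⟩ := Nat.exists_eq_add_of_le hle
    rw [pow_add, mul_assoc] at h
    have h2 : m = p ^ k * m' := mul_left_cancel₀ (pow_ne_zero _ hp.ne_zero) h
    rcases Nat.eq_zero_or_pos k with rfl | hk
    · simpa using h2
    · exfalso
      apply hnd m hm
      rw [h2]
      exact Dvd.dvd.mul_right (dvd_pow_self p hk.ne') _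
  constructor
  · rintro ⟨e, m, hm⟩ ⟨e', m', hm'⟩ h
    simp only [Subtype.mk.injEq] at h
    rcases le_total e e' with hle | hle
    · obtain ⟨rfl, rfl⟩ := key e e' m m' hm hm' hle h
      rfl
    · obtain ⟨rfl, rfl⟩ := key e' e m' m hm' hm hle h.symm
      rfl
  · rintro ⟨m, hm⟩
    have hfin : FiniteMultiplicity p m := FiniteMultiplicity.of_not_isUnit hp.not_isUnit hm.1
    obtain ⟨c, hc, hnd'⟩ := hfin.exists_eq_pow_mul_and_not_dvd
    have hc0 : c ≠ 0 := by
      rintro rfl
      exact hm.1 (by rw [hc, mul_zero])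
    have hcs : c ∈ smoothSet T := by
      refine ⟨hc0, fun q hq hqc => ?_⟩
      have hqm : q ∣ m := by
        rw [hc]
        exact Dvd.dvd.mul_left hqc _
      rcases hm.2 q hq hqm with rfl | h
      · exact absurd hqc hnd'
      · exact h
    exact ⟨(multiplicity p m, ⟨c, hcs⟩), Subtype.ext hc.symm⟩

/-- The equivalence `ℕ × smoothSet T ≃ smoothSet (insert p T)`, `(e, m) ↦ p ^ e * m`. -/
noncomputable def equivProdNatSmooth {T : Set M} {p : M} (hp : Prime p) (hpT : p ∉ T) :
    ℕ × smoothSet T ≃ smoothSet (insert p T) :=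
  Equiv.ofBijective _ (bijective_pow_mul hp hpT)

@[simp]
theorem equivProdNatSmooth_apply {T : Set M} {p : M} (hp : Prime p) (hpT : p ∉ T)
    (x : ℕ × smoothSet T) : ((equivProdNatSmooth hp hpT x : smoothSet (insert p T)) : M) =
      p ^ x.1 * x.2.1 := rfl


/-! ### The analytic part -/

section Analytic

variable {F : Type*} [NormedField F] [CompleteSpace F] {f : M → F}

open Classical in
/-- A finite product over primes in `T` is the sum over `T`-smooth elements. -/
theorem summable_and_hasSum_smoothSet (hf₁ : f 1 = 1) (hmul : ∀ a b, f (a * b) = f a * f b)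
    (hlt : ∀ p, Prime p → ‖f p‖ < 1) (T : Finset M) :
    Summable (fun m : smoothSet (T : Set M) ↦ ‖f m‖) ∧
      HasSum (fun m : smoothSet (T : Set M) ↦ f m) (∏ p ∈ T with Prime p, (1 - f p)⁻¹) := by
  induction T using Finset.induction with
  | empty =>
    rw [Finset.coe_empty, smoothSet_empty]
    simp only [Finset.filter_empty, Finset.prod_empty]
    exact ⟨(Set.finite_singleton 1).summable (‖f ·‖), hf₁ ▸ hasSum_singleton 1 f⟩
  | insert p T hp ih =>
    rw [Finset.coe_insert, Finset.filter_insert]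
    split_ifs with hpp
    · have hpT : p ∉ (T : Set M) := by simpa using hp
      have hpow : ∀ e : ℕ, f (p ^ e) = f p ^ e := by
        intro e
        induction e with
        | zero => simp [hf₁]
        | succ e ihe => rw [pow_succ, hmul, ihe, pow_succ]
      have hgeo : Summable (fun e : ℕ => ‖f p ^ e‖) := by
        simp only [norm_pow]
        exact summable_geometric_of_lt_one (norm_nonneg _) (hlt p hpp)
      constructor
      · rw [← (equivProdNatSmooth hpp hpT).summable_iff]
        simp only [Function.comp_def, equivProdNatSmooth_apply, hmul, hpow]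
        refine Summable.of_nonneg_of_le (fun _ ↦ norm_nonneg _) (fun _ ↦ norm_mul_le ..) ?_
        apply Summable.mul_of_nonneg hgeo ih.1 <;> exact fun n ↦ norm_nonneg _
      · have hp' : p ∉ {p ∈ T | Prime p} := mt (Finset.mem_of_mem_filter p) hp
        rw [Finset.prod_insert hp', ← (equivProdNatSmooth hpp hpT).hasSum_iff, Function.comp_def]
        simp only [equivProdNatSmooth_apply, hmul, hpow]
        apply (hasSum_geometric_of_norm_lt_one (hlt p hpp)).mul ih.2
        apply summable_mul_of_summable_norm hgeo ih.1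
    · rwa [smoothSet_insert_of_not_prime hpp]


open Classical in
/-- Finitely many elements are simultaneously smooth for a finite set of primes. -/
theorem exists_finset_smooth (S : Finset M) :
    ∃ T : Finset M, ∀ m ∈ S, m ≠ 0 → m ∈ smoothSet (T : Set M) := by
  refine ⟨S.biUnion fun m => (UniqueFactorizationMonoid.factors m).toFinset, fun m hm hm0 => ?_⟩
  refine ⟨hm0, fun p hp hpm => ?_⟩
  obtain ⟨q, hq, hpq⟩ := UniqueFactorizationMonoid.exists_mem_factors_of_dvd hm0 hp.irreducible hpm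
  rw [associated_iff_eq] at hpq
  subst hpq
  simp only [Finset.coe_biUnion, Set.mem_iUnion, Finset.mem_coe, Multiset.mem_toFinset]
  exact ⟨m, hm, hq⟩

/-- Summing over `T`-smooth elements for `T` large gets arbitrarily close to the full sum. -/
theorem norm_tsum_smoothSet_sub_tsum_lt (hsum : Summable f) (hf₀ : f 0 = 0) {ε : ℝ}
    (εpos : 0 < ε) :
    ∃ T₀ : Finset M, ∀ T : Finset M, T₀ ⊆ T →
      ‖(∑' m : M, f m) - ∑' m : smoothSet (T : Set M), f m‖ < ε := by
  obtain ⟨S, hS⟩ := hsum.tsum_vanishing (Metric.ball_mem_nhds 0 εpos)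
  obtain ⟨T₀, hT₀⟩ := exists_finset_smooth S
  refine ⟨T₀, fun T hT => ?_⟩
  have hdisj : Disjoint ((smoothSet (T : Set M))ᶜ \ {0}) (S : Set M) := by
    rw [Set.disjoint_left]
    rintro m ⟨hm, hm0⟩ hmS
    exact hm (smoothSet_mono (by exact_mod_cast hT) (hT₀ m hmS hm0))
  have := hS _ hdisj
  rw [mem_ball_zero_iff] at this
  rwa [← hsum.tsum_subtype_add_tsum_subtype_compl (smoothSet (T : Set M)),
    add_sub_cancel_left, tsum_eq_tsum_sdiff_singleton (smoothSet (T : Set M))ᶜ hf₀]

theorem norm_lt_one_of_summable (hf₁ : f 1 = 1) (hmul : ∀ a b, f (a * b) = f a * f b)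
    (hsum : Summable (‖f ·‖)) {p : M} (hp : Prime p) : ‖f p‖ < 1 := by
  have hpow : ∀ e : ℕ, f (p ^ e) = f p ^ e := by
    intro e
    induction e with
    | zero => simp [hf₁]
    | succ e ihe => rw [pow_succ, hmul, ihe, pow_succ]
  have h1 : Summable (fun e : ℕ => ‖f (p ^ e)‖) :=
    hsum.comp_injective (pow_injective_of_not_isUnit hp.not_isUnit hp.ne_zero)
  simp only [hpow, norm_pow] at h1
  have := summable_geometric_iff_norm_lt_one.mp h1
  simpa using this

open Classical in
/-- **Euler product** for a completely multiplicative norm-summable function on a unique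
factorization monoid with trivial units. -/
theorem hasProd_one_sub_inv (hf₀ : f 0 = 0) (hf₁ : f 1 = 1)
    (hmul : ∀ a b, f (a * b) = f a * f b) (hsum : Summable (‖f ·‖)) :
    HasProd (fun p : {p : M // Prime p} ↦ (1 - f p)⁻¹) (∑' m, f m) := by
  have hlt : ∀ p, Prime p → ‖f p‖ < 1 := fun p hp => norm_lt_one_of_summable hf₁ hmul hsum hp
  let G : M → F := fun p ↦ (1 - f p)⁻¹
  change HasProd (G ∘ Subtype.val (p := (· ∈ {x | Prime x}))) _
  rw [hasProd_subtype_iff_mulIndicator, HasProd, SummationFilter.unconditional,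
    Metric.tendsto_atTop]
  intro ε hε
  obtain ⟨T₀, hT₀⟩ := norm_tsum_smoothSet_sub_tsum_lt hsum.of_norm hf₀ hε
  refine ⟨T₀, fun T hT ↦ ?_⟩
  have : ∏ p ∈ T, {p | Prime p}.mulIndicator G p = ∏ p ∈ T with Prime p, G p :=
    Finset.prod_mulIndicator_eq_prod_filter T (fun _ ↦ G) _ id
  rw [this, dist_eq_norm, ← (summable_and_hasSum_smoothSet hf₁ hmul hlt T).2.tsum_eq,
    norm_sub_rev]
  exact hT₀ T hT

/-- Finite partial Euler products are sums over smooth elements. -/
theorem prod_one_sub_inv_eq_tsum_smoothSet (hf₁ : f 1 = 1)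
    (hmul : ∀ a b, f (a * b) = f a * f b) (hsum : Summable (‖f ·‖)) (T : Finset M)
    (hT : ∀ p ∈ T, Prime p) :
    ∏ p ∈ T, (1 - f p)⁻¹ = ∑' m : smoothSet (T : Set M), f m := by
  classical
  have hlt : ∀ p, Prime p → ‖f p‖ < 1 := fun p hp => norm_lt_one_of_summable hf₁ hmul hsum hp
  rw [(summable_and_hasSum_smoothSet hf₁ hmul hlt T).2.tsum_eq, Finset.filter_true_of_mem hT]

end Analytic

end Fermat.Agent.Lib.EulerProd

end
-- ===== PACK-END Lib/EulerProd/EulerUFM.lean

-- ===== PACK-BEGIN S55/H414/CycloOrder.lean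
section


/-!
# S55, leaf CYC-INF (helper414), part 2: orders of integers modulo `p ^ n`

Elementary number theory: if `q ≥ 2` then the `p`-part of the multiplicative order of `q`
modulo `p ^ n` tends to infinity with `n`.
-/

set_option autoImplicit false

namespace Fermat.Agent.S55.H414

/-- If `o ∣ (p - 1) * p ^ m` and `p ^ k ∤ o` (with `k ≥ 1`), then `o ∣ (p - 1) * p ^ (k - 1)`. -/
theorem dvd_pred_mul_pow_of_not_pow_dvd {p : ℕ} (hp : p.Prime) {o m k : ℕ}
    (ho : o ∣ (p - 1) * p ^ m) (hk : ¬ p ^ k ∣ o) : o ∣ (p - 1) * p ^ (k - 1) := by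
  have ho0 : o ≠ 0 := by
    rintro rfl
    exact hk (dvd_zero _)
  obtain ⟨j, a, ha, rfl⟩ := Nat.exists_eq_pow_mul_and_not_dvd ho0 p hp.ne_one
  have hcop : Nat.Coprime a (p ^ m) := Nat.Coprime.pow_right _
    ((Nat.Prime.coprime_iff_not_dvd hp).2 ha).symm
  have ha1 : a ∣ p - 1 := by
    have : a ∣ (p - 1) * p ^ m := (Dvd.intro_left _ rfl).trans ho
    exact hcop.dvd_of_dvd_mul_right this
  have hj : j < k := by
    by_contra hjk
    exact hk ((pow_dvd_pow p (Nat.le_of_not_lt hjk)).trans (Dvd.intro _ rfl))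
  have hj' : p ^ j ∣ p ^ (k - 1) := pow_dvd_pow p (by omega)
  rw [mul_comm (p - 1)]
  exact Nat.mul_dvd_mul hj' ha1

/-- For `q ≥ 2` and every `k`, for all large `n`, every unit of `ZMod (p ^ n)` which is the class
of `q` has order divisible by `p ^ k`. -/
theorem exists_forall_pow_dvd_orderOf (p q : ℕ) (hp : p.Prime) (hq : 2 ≤ q) (k : ℕ) :
    ∃ n₀ : ℕ, ∀ n, n₀ ≤ n → ∀ u : (ZMod (p ^ n))ˣ, (u : ZMod (p ^ n)) = (q : ZMod (p ^ n)) →
      p ^ k ∣ orderOf u := by
  set E : ℕ := (p - 1) * p ^ (k - 1) with hE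
  have hE0 : 0 < E := Nat.mul_pos (Nat.sub_pos_of_lt hp.one_lt) (pow_pos hp.pos _)
  set m : ℕ := q ^ E with hm
  have hm2 : 2 ≤ m := by
    calc 2 ≤ q := hq
      _ = q ^ 1 := (pow_one q).symm
      _ ≤ q ^ E := Nat.pow_le_pow_right (by omega) hE0
  refine ⟨m, fun n hn u hu => ?_⟩
  by_contra hk
  haveI : NeZero (p ^ n) := ⟨pow_ne_zero _ hp.ne_zero⟩
  have hn0 : n ≠ 0 := by
    rintro rfl
    omega
  have hcard : Nat.card (ZMod (p ^ n))ˣ = (p - 1) * p ^ (n - 1) := by
    rw [Nat.card_eq_fintype_card, ZMod.card_units_eq_totient,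
      Nat.totient_prime_pow hp (Nat.pos_of_ne_zero hn0), mul_comm]
  have ho : orderOf u ∣ (p - 1) * p ^ (n - 1) := by
    rw [← hcard]
    exact orderOf_dvd_natCard u
  have hoE : orderOf u ∣ E := dvd_pred_mul_pow_of_not_pow_dvd hp ho hk
  have h1 : u ^ E = 1 := orderOf_dvd_iff_pow_eq_one.1 hoE
  have h2 : ((m : ℕ) : ZMod (p ^ n)) = 1 := by
    have := congrArg (fun v : (ZMod (p ^ n))ˣ => (v : ZMod (p ^ n))) h1
    simp only [Units.val_pow_eq_pow_val, Units.val_one, hu] at this
    rw [hm, Nat.cast_pow]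
    exact this
  have h3 : ((m - 1 : ℕ) : ZMod (p ^ n)) = 0 := by
    rw [Nat.cast_sub (by omega), h2]
    simp
  have h4 : p ^ n ∣ m - 1 := (ZMod.natCast_eq_zero_iff _ _).1 h3
  have h5 : p ^ n ≤ m - 1 := Nat.le_of_dvd (by omega) h4
  have h6 : m < p ^ m := Nat.lt_pow_self hp.one_lt
  have h7 : p ^ m ≤ p ^ n := Nat.pow_le_pow_right hp.pos hn
  omega

end Fermat.Agent.S55.H414

end
-- ===== PACK-END S55/H414/CycloOrder.lean

-- ===== PACK-BEGIN S14/H894/ValSum.lean
section


/-!
# S14 / H894 : valuation of a sum with pairwise distinct valuations; power expansions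
-/

set_option autoImplicit false

namespace Fermat.Agent.S14.H894

open Polynomial

/-- If the nonzero terms of a finite sum have pairwise distinct valuations, the valuation of the
sum is the maximum of the valuations of the terms. -/
theorem valuation_sum_eq_sup {F Γ ι : Type*} [Field F] [LinearOrderedCommGroupWithZero Γ]
    (v : Valuation F Γ) (s : Finset ι) (f : ι → F)
    (h : ∀ i ∈ s, ∀ j ∈ s, i ≠ j → f i ≠ 0 → v (f i) ≠ v (f j)) :
    v (∑ i ∈ s, f i) = s.sup (fun i => v (f i)) := by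
  classical
  induction s using Finset.induction_on with
  | empty => simp [bot_eq_zero]
  | insert a s ha ih =>
    rw [Finset.sum_insert ha, Finset.sup_insert]
    have ih' := ih (fun i hi j hj => h i (Finset.mem_insert_of_mem hi) j
      (Finset.mem_insert_of_mem hj))
    by_cases hfa : f a = 0
    · rw [hfa, zero_add, _root_.map_zero, ih']
      exact (sup_of_le_right zero_le).symm
    · have hne : v (f a) ≠ v (∑ i ∈ s, f i) := by
        rw [ih']
        intro heq
        have hpos : (0 : Γ) < v (f a) := by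
          rw [Valuation.pos_iff]; exact hfa
        rcases s.eq_empty_or_nonempty with hs | hs
        · subst hs
          rw [Finset.sup_empty, bot_eq_zero] at heq
          exact hpos.ne' heq
        · obtain ⟨j, hj, hjs⟩ := Finset.exists_mem_eq_sup s hs (fun i => v (f i))
          rw [hjs] at heq
          refine h a (Finset.mem_insert_self a s) j (Finset.mem_insert_of_mem hj) ?_ hfa heq
          rintro rfl
          exact ha hj
      rw [Valuation.map_add_of_distinct_val v hne, ih']

theorem valuation_sum_le_one_iff {F Γ ι : Type*} [Field F] [LinearOrderedCommGroupWithZero Γ]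
    (v : Valuation F Γ) (s : Finset ι) (f : ι → F)
    (h : ∀ i ∈ s, ∀ j ∈ s, i ≠ j → f i ≠ 0 → v (f i) ≠ v (f j)) :
    v (∑ i ∈ s, f i) ≤ 1 ↔ ∀ i ∈ s, v (f i) ≤ 1 := by
  rw [valuation_sum_eq_sup v s f h, Finset.sup_le_iff]

theorem valuation_sum_lt_one_iff {F Γ ι : Type*} [Field F] [LinearOrderedCommGroupWithZero Γ]
    (v : Valuation F Γ) (s : Finset ι) (f : ι → F)
    (h : ∀ i ∈ s, ∀ j ∈ s, i ≠ j → f i ≠ 0 → v (f i) ≠ v (f j)) :
    v (∑ i ∈ s, f i) < 1 ↔ ∀ i ∈ s, v (f i) < 1 := by
  rw [valuation_sum_eq_sup v s f h, Finset.sup_lt_iff (by rw [bot_eq_zero]; exact zero_lt_one)]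

end Fermat.Agent.S14.H894

end
-- ===== PACK-END S14/H894/ValSum.lean

-- ===== PACK-BEGIN S56/H734/Hilbert90Level.lean
section


/-!
# S56 / H734 : Hilbert 90 for cocycles of finite level on an infinite Galois group

`Ω / K` Galois (possibly infinite), `f : Gal(Ω/K) → Ω` a nowhere vanishing `1`-cocycle,
`f (σ τ) = f σ · σ (f τ)`, which is right-invariant under the fixing subgroup of a finite
subextension `E` ("finite level").  Then `f σ = σ α / α` for some `α ≠ 0`.
Proof: Poincaré series over `Gal(E'/K)`, `E'` the normal closure of `E`, and Dedekind's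
independence of characters.  Mathlib only.
-/

set_option autoImplicit false
set_option linter.style.haveILetI false

namespace Fermat.Agent.S56.H734

open IntermediateField

/-- **Hilbert 90 at finite level.** -/
theorem hilbert90_of_level {K Ω : Type*} [Field K] [Field Ω] [Algebra K Ω] [IsGalois K Ω]
    (f : (Ω ≃ₐ[K] Ω) → Ω) (hf0 : ∀ σ, f σ ≠ 0)
    (hf : ∀ σ τ, f (σ * τ) = f σ * σ (f τ))
    (E : IntermediateField K Ω) [FiniteDimensional K E]
    (hlev : ∀ σ τ : Ω ≃ₐ[K] Ω, (∀ x ∈ E, τ x = x) → f (σ * τ) = f σ) :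
    ∃ α : Ω, α ≠ 0 ∧ ∀ σ : Ω ≃ₐ[K] Ω, f σ * σ α = α := by
  classical
  -- pass to the normal closure
  let E' : IntermediateField K Ω := IntermediateField.normalClosure K E Ω
  have : Normal K E' := normalClosure.normal K E Ω
  have : FiniteDimensional K E' := normalClosure.is_finiteDimensional K E Ω
  have hEE' : E ≤ E' := E.le_normalClosure
  let res : (Ω ≃ₐ[K] Ω) →* (E' ≃ₐ[K] E') := AlgEquiv.restrictNormalHom E'
  have hres : Function.Surjective res := AlgEquiv.restrictNormalHom_surjective Ω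
  let s : (E' ≃ₐ[K] E') → (Ω ≃ₐ[K] Ω) := Function.surjInv hres
  have hs : ∀ γ, res (s γ) = γ := Function.surjInv_eq hres
  have hres_apply : ∀ (σ : Ω ≃ₐ[K] Ω) (x : E'), ((res σ x : E') : Ω) = σ (x : Ω) :=
    fun σ x => AlgEquiv.restrictNormal_commutes σ E' x
  -- `f` depends only on the restriction to `E'`
  have hdep : ∀ σ σ' : Ω ≃ₐ[K] Ω, res σ = res σ' → f σ = f σ' := by
    intro σ σ' h
    have h0 : σ' = σ * (σ⁻¹ * σ') := by group
    rw [h0]
    symm
    apply hlev
    intro x hx
    have h1 : res (σ⁻¹ * σ') = 1 := by rw [map_mul, map_inv, h, inv_mul_cancel]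
    have h2 := hres_apply (σ⁻¹ * σ') ⟨x, hEE' hx⟩
    rw [h1] at h2
    exact h2.symm
  letI : Fintype (E' ≃ₐ[K] E') := Fintype.ofFinite _
  -- Dedekind independence of the characters `γ : E' → Ω`
  let χ : (E' ≃ₐ[K] E') → (E' →* Ω) := fun γ =>
    ((algebraMap E' Ω).comp ((γ : E' →ₐ[K] E') : E' →+* E') : E' →+* Ω)
  have hχ : Function.Injective χ := by
    intro γ γ' h
    apply AlgEquiv.ext
    intro x
    have := DFunLike.congr_fun h x
    exact (algebraMap E' Ω).injective this
  have hli : LinearIndependent Ω (fun γ : E' ≃ₐ[K] E' => (χ γ : E' → Ω)) :=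
    (linearIndependent_monoidHom E' Ω).comp χ hχ
  have hne : ∑ γ : E' ≃ₐ[K] E', f (s γ) • (χ γ : E' → Ω) ≠ 0 := by
    intro h
    have := Fintype.linearIndependent_iff.1 hli (fun γ => f (s γ)) h 1
    exact hf0 _ this
  obtain ⟨θ, hθ⟩ : ∃ θ : E', ∑ γ : E' ≃ₐ[K] E', f (s γ) * ((γ θ : E') : Ω) ≠ 0 := by
    by_contra hcon
    push Not at hcon
    apply hne
    funext θ
    simpa [χ] using hcon θ
  refine ⟨_, hθ, fun τ => ?_⟩
  rw [map_sum, Finset.mul_sum]
  have key : ∀ γ : E' ≃ₐ[K] E', f τ * τ (f (s γ) * ((γ θ : E') : Ω)) =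
      f (s (res τ * γ)) * (((res τ * γ) θ : E') : Ω) := by
    intro γ
    have h1 : f (s (res τ * γ)) = f (τ * s γ) := by
      apply hdep
      rw [hs, map_mul, hs]
    rw [h1, hf, map_mul, ← mul_assoc]
    congr 1
    rw [AlgEquiv.mul_apply, hres_apply]
  simp only [key]
  exact Fintype.sum_bijective (fun γ => res τ * γ) (Group.mulLeft_bijective _) _ _ (fun γ => rfl)

end Fermat.Agent.S56.H734

end
-- ===== PACK-END S56/H734/Hilbert90Level.lean

-- ===== PACK-BEGIN S30/H990/Sat.lean
section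
/-
S30 top glue (helper990): pure algebra, part 2: saturation of a submodule of a torsion-free module
and the rank of the saturation of a free submodule.
-/


set_option autoImplicit false

namespace Fermat.Agent.S30.H990

open Module

section Sat

variable {R M : Type*} [CommRing R] [IsDomain R] [AddCommGroup M] [Module R M]

/-- The saturation of a submodule: all `m` some nonzero multiple of which lies in `N`. -/
def sat (N : Submodule R M) : Submodule R M where
  carrier := {m | ∃ r : R, r ≠ 0 ∧ r • m ∈ N}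
  zero_mem' := ⟨1, one_ne_zero, by simp⟩
  add_mem' := by
    rintro x y ⟨r, hr, hx⟩ ⟨s, hs, hy⟩
    refine ⟨r * s, mul_ne_zero hr hs, ?_⟩
    rw [smul_add]
    refine N.add_mem ?_ ?_
    · rw [mul_comm, mul_smul]; exact N.smul_mem s hx
    · rw [mul_smul]; exact N.smul_mem r hy
  smul_mem' := by
    rintro c x ⟨r, hr, hx⟩
    exact ⟨r, hr, by rw [smul_comm]; exact N.smul_mem c hx⟩

theorem mem_sat {N : Submodule R M} {m : M} : m ∈ sat N ↔ ∃ r : R, r ≠ 0 ∧ r • m ∈ N := Iff.rfl

theorem le_sat (N : Submodule R M) : N ≤ sat N := fun x hx => ⟨1, one_ne_zero, by simpa using hx⟩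

/-- The saturation is saturated. -/
theorem mem_sat_of_smul_mem {N : Submodule R M} {r : R} (hr : r ≠ 0) {m : M}
    (h : r • m ∈ sat N) : m ∈ sat N := by
  obtain ⟨s, hs, hm⟩ := h
  exact ⟨s * r, mul_ne_zero hs hr, by rwa [mul_smul]⟩

/-- A linear map sending `N` into `sat N` preserves `sat N`. -/
theorem map_mem_sat {N : Submodule R M} (f : M →ₗ[R] M) (hf : ∀ x ∈ N, f x ∈ sat N)
    {m : M} (hm : m ∈ sat N) : f m ∈ sat N := by
  obtain ⟨r, hr, hrm⟩ := hm
  have := hf _ hrm
  rw [map_smul] at this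
  exact mem_sat_of_smul_mem hr this

/-- To check that `f` maps `span s` into `sat (span s)` it suffices to check generators. -/
theorem map_span_le_sat {s : Set M} (f : M →ₗ[R] M) (hf : ∀ x ∈ s, f x ∈ sat (Submodule.span R s))
    {x : M} (hx : x ∈ Submodule.span R s) : f x ∈ sat (Submodule.span R s) := by
  induction hx using Submodule.span_induction with
  | mem x hx => exact hf x hx
  | zero => rw [map_zero]; exact Submodule.zero_mem _
  | add x y _ _ hx hy => rw [map_add]; exact Submodule.add_mem _ hx hy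
  | smul a x _ hx => rw [map_smul]; exact Submodule.smul_mem _ a hx

/-- A finitely generated submodule of `sat N` is carried into `N` by a single nonzero scalar. -/
theorem exists_smul_le_of_fg {N : Submodule R M} {P : Submodule R M} (hP : P.FG) (hle : P ≤ sat N) :
    ∃ r : R, r ≠ 0 ∧ ∀ x ∈ P, r • x ∈ N := by
  classical
  obtain ⟨S, rfl⟩ := hP
  induction S using Finset.induction_on with
  | empty =>
    refine ⟨1, one_ne_zero, fun x hx => ?_⟩
    simp only [Finset.coe_empty, Submodule.span_empty, Submodule.mem_bot] at hx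
    rw [hx, smul_zero]; exact N.zero_mem
  | insert a S _ ih =>
    have hS : Submodule.span R (S : Set M) ≤ sat N :=
      (Submodule.span_mono (by simp)).trans hle
    obtain ⟨r, hr, hrS⟩ := ih hS
    have ha : a ∈ sat N := hle (Submodule.subset_span (by simp))
    obtain ⟨s, hs, hsa⟩ := ha
    refine ⟨r * s, mul_ne_zero hr hs, fun x hx => ?_⟩
    rw [Finset.coe_insert, Submodule.mem_span_insert] at hx
    obtain ⟨c, y, hy, rfl⟩ := hx
    rw [smul_add]
    refine N.add_mem ?_ ?_
    · rw [smul_comm, mul_smul]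
      exact N.smul_mem _ (N.smul_mem _ hsa)
    · rw [mul_comm, mul_smul]
      exact N.smul_mem _ (hrS y hy)

end Sat

section Rank

variable {R M : Type*} [CommRing R] [IsDomain R] [IsPrincipalIdealRing R]
  [AddCommGroup M] [Module R M] [Module.Finite R M] [Module.Free R M]

/-- The saturation of the span of a linearly independent family of `n` vectors is free of
rank `n`. -/
theorem finrank_sat_span {n : ℕ} (v : Fin n → M) (hv : LinearIndependent R v) :
    Module.finrank R (sat (Submodule.span R (Set.range v))) = n := by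
  set N := Submodule.span R (Set.range v) with hN
  set Λ := sat N with hΛ
  have hvN : ∀ i, v i ∈ N := fun i => Submodule.subset_span (Set.mem_range_self i)
  apply le_antisymm
  · -- upper bound
    have hfg : Λ.FG := IsNoetherian.noetherian Λ
    obtain ⟨r, hr, hrΛ⟩ := exists_smul_le_of_fg hfg (le_refl Λ)
    let f : Λ →ₗ[R] N :=
      { toFun := fun x => ⟨r • (x : M), hrΛ x x.2⟩
        map_add' := fun x y => by ext; simp [smul_add]
        map_smul' := fun c x => by ext; simp [smul_comm r c] }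
    have hf : Function.Injective f := by
      intro x y hxy
      have : r • (x : M) = r • (y : M) := congrArg Subtype.val hxy
      exact Subtype.ext (smul_right_injective M hr this)
    have h1 := LinearMap.finrank_le_finrank_of_injective hf
    have h2 : Module.finrank R N = n := by
      rw [hN, finrank_span_eq_card hv, Fintype.card_fin]
    omega
  · -- lower bound
    let v' : Fin n → Λ := fun i => ⟨v i, le_sat N (hvN i)⟩
    have hv' : LinearIndependent R v' := by
      apply LinearIndependent.of_comp Λ.subtype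
      exact hv
    have := hv'.fintype_card_le_finrank
    simpa using this

end Rank

end Fermat.Agent.S30.H990

end
-- ===== PACK-END S30/H990/Sat.lean

-- ===== PACK-BEGIN Lib/Cheb/H993/LogAsymp.lean
section


/-!
# `f = a · log (1/(s-1)) + O(1)` on `(1, 2]`, and prime Dirichlet sums

Small calculus used by the glue piece `M` of the shared library CHEB.
-/

set_option autoImplicit false

namespace Fermat.Agent.Lib.Cheb.H993

noncomputable section

/-- The main term `log (1 / (s - 1))`. -/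
def ell (s : ℝ) : ℝ := Real.log (1 / (s - 1))

/-- `f = a · ell + O(1)` on `(1, 2]`. -/
def LogAsymp (f : ℝ → ℝ) (a : ℝ) : Prop :=
  ∃ C : ℝ, ∀ s : ℝ, 1 < s → s ≤ 2 → |f s - a * ell s| ≤ C

theorem LogAsymp.congr {f g : ℝ → ℝ} {a : ℝ} (hf : LogAsymp f a)
    (h : ∀ s : ℝ, 1 < s → s ≤ 2 → g s = f s) : LogAsymp g a := by
  obtain ⟨C, hC⟩ := hf
  exact ⟨C, fun s h1 h2 => by rw [h s h1 h2]; exact hC s h1 h2⟩

theorem LogAsymp.add {f g : ℝ → ℝ} {a b : ℝ} (hf : LogAsymp f a) (hg : LogAsymp g b) :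
    LogAsymp (fun s => f s + g s) (a + b) := by
  obtain ⟨C, hC⟩ := hf
  obtain ⟨D, hD⟩ := hg
  refine ⟨C + D, fun s h1 h2 => ?_⟩
  have e : f s + g s - (a + b) * ell s = (f s - a * ell s) + (g s - b * ell s) := by ring
  rw [e]
  exact (abs_add_le _ _).trans (add_le_add (hC s h1 h2) (hD s h1 h2))

theorem LogAsymp.sub {f g : ℝ → ℝ} {a b : ℝ} (hf : LogAsymp f a) (hg : LogAsymp g b) :
    LogAsymp (fun s => f s - g s) (a - b) := by
  obtain ⟨C, hC⟩ := hf
  obtain ⟨D, hD⟩ := hg
  refine ⟨C + D, fun s h1 h2 => ?_⟩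
  have e : f s - g s - (a - b) * ell s = (f s - a * ell s) - (g s - b * ell s) := by ring
  rw [e]
  exact (abs_sub _ _).trans (add_le_add (hC s h1 h2) (hD s h1 h2))

theorem LogAsymp.const_mul {f : ℝ → ℝ} {a : ℝ} (c : ℝ) (hf : LogAsymp f a) :
    LogAsymp (fun s => c * f s) (c * a) := by
  obtain ⟨C, hC⟩ := hf
  refine ⟨|c| * C, fun s h1 h2 => ?_⟩
  have e : c * f s - c * a * ell s = c * (f s - a * ell s) := by ring
  rw [e, abs_mul]
  exact mul_le_mul_of_nonneg_left (hC s h1 h2) (abs_nonneg c)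

theorem LogAsymp.zero_of_bounded {f : ℝ → ℝ} {K : ℝ}
    (h : ∀ s : ℝ, 1 < s → s ≤ 2 → |f s| ≤ K) : LogAsymp f 0 :=
  ⟨K, fun s h1 h2 => by simpa using h s h1 h2⟩

theorem LogAsymp.sum {ι : Type*} (t : Finset ι) {f : ι → ℝ → ℝ} {a : ι → ℝ}
    (h : ∀ i ∈ t, LogAsymp (f i) (a i)) :
    LogAsymp (fun s => ∑ i ∈ t, f i s) (∑ i ∈ t, a i) := by
  classical
  induction t using Finset.induction_on with
  | empty =>
    exact ⟨0, fun s _ _ => by simp⟩
  | insert i t hi ih =>
    have h1 := h i (Finset.mem_insert_self i t)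
    have h2 := ih (fun j hj => h j (Finset.mem_insert_of_mem hj))
    have h3 := h1.add h2
    rw [Finset.sum_insert hi]
    exact h3.congr (fun s _ _ => Finset.sum_insert hi)

/-- `ell` is unbounded above on `(1, 2]`. -/
theorem exists_ell_gt (M : ℝ) : ∃ s : ℝ, 1 < s ∧ s ≤ 2 ∧ M < ell s := by
  refine ⟨1 + Real.exp (-(|M| + 1)), ?_, ?_, ?_⟩
  · have := Real.exp_pos (-(|M| + 1)); linarith
  · have h : Real.exp (-(|M| + 1)) ≤ 1 := by
      rw [Real.exp_le_one_iff]; have := abs_nonneg M; linarith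
    linarith
  · unfold ell
    have e : (1 + Real.exp (-(|M| + 1)) - 1) = Real.exp (-(|M| + 1)) := by ring
    rw [e, one_div, ← Real.exp_neg, Real.log_exp]
    have := le_abs_self M
    linarith

/-- If `f = a · ell + O(1)` with `a > 0` then `f` takes arbitrarily large values. -/
theorem LogAsymp.exists_gt {f : ℝ → ℝ} {a : ℝ} (hf : LogAsymp f a) (ha : 0 < a) (M : ℝ) :
    ∃ s : ℝ, 1 < s ∧ s ≤ 2 ∧ M < f s := by
  obtain ⟨C, hC⟩ := hf
  obtain ⟨s, h1, h2, hs⟩ := exists_ell_gt ((M + C) / a)
  refine ⟨s, h1, h2, ?_⟩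
  have := (abs_le.mp (hC s h1 h2)).1
  have h3 : M + C < a * ell s := by
    rw [div_lt_iff₀ ha] at hs
    linarith
  linarith

/-- The prime Dirichlet sum `∑_p a(p) p^{-s}`. -/
def pSum (a : ℕ → ℝ) (s : ℝ) : ℝ := ∑' p : Nat.Primes, a p * ((p : ℕ) : ℝ) ^ (-s)

theorem summable_pSum {a : ℕ → ℝ} {K : ℝ} (h0 : ∀ p, 0 ≤ a p) (hK : ∀ p, a p ≤ K)
    {s : ℝ} (hs : 1 < s) : Summable (fun p : Nat.Primes => a p * ((p : ℕ) : ℝ) ^ (-s)) := by
  have hsum : Summable (fun p : Nat.Primes => K * ((p : ℕ) : ℝ) ^ (-s)) :=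
    (Nat.Primes.summable_rpow.mpr (by linarith)).mul_left K
  refine Summable.of_nonneg_of_le (fun p => ?_) (fun p => ?_) hsum
  · exact mul_nonneg (h0 p) (Real.rpow_nonneg (Nat.cast_nonneg _) _)
  · exact mul_le_mul_of_nonneg_right (hK p) (Real.rpow_nonneg (Nat.cast_nonneg _) _)

theorem pSum_nonneg {a : ℕ → ℝ} (h0 : ∀ p, 0 ≤ a p) (s : ℝ) : 0 ≤ pSum a s :=
  tsum_nonneg fun p => mul_nonneg (h0 p) (Real.rpow_nonneg (Nat.cast_nonneg _) _)

theorem pSum_finset_sum {ι : Type*} (t : Finset ι) {a : ι → ℕ → ℝ} {K : ℝ}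
    (h0 : ∀ i p, 0 ≤ a i p) (hK : ∀ i p, a i p ≤ K) {s : ℝ} (hs : 1 < s) :
    pSum (fun p => ∑ i ∈ t, a i p) s = ∑ i ∈ t, pSum (a i) s := by
  unfold pSum
  rw [← Summable.tsum_finsetSum (fun i _ => summable_pSum (h0 i) (hK i) hs)]
  congr 1
  funext p
  rw [Finset.sum_mul]

/-- A prime sum supported on a finite set of primes is bounded. -/
theorem abs_pSum_le_of_support {a : ℕ → ℝ} {K : ℝ} (B : Finset ℕ) (h0 : ∀ p, 0 ≤ a p)
    (hK : ∀ p, a p ≤ K) (hB : ∀ p, p ∉ B → a p = 0) {s : ℝ} (hs : 1 < s) :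
    |pSum a s| ≤ K * B.card := by
  have hK0 : 0 ≤ K := (h0 0).trans (hK 0)
  rw [abs_of_nonneg (pSum_nonneg h0 s)]
  unfold pSum
  -- compare with the finite sum over `B`
  let T : Finset Nat.Primes := (B.filter Nat.Prime).attach.map
    ⟨fun p => ⟨p.1, (Finset.mem_filter.mp p.2).2⟩, fun p q h => by
      apply Subtype.ext; simpa using congrArg Subtype.val h⟩
  have hT : ∀ p : Nat.Primes, p ∉ T → a p * ((p : ℕ) : ℝ) ^ (-s) = 0 := by
    intro p hp
    have : (p : ℕ) ∉ B := by
      intro hpB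
      apply hp
      simp only [T, Finset.mem_map, Finset.mem_attach, true_and]
      exact ⟨⟨p.1, Finset.mem_filter.mpr ⟨hpB, p.2⟩⟩, rfl⟩
    rw [hB _ this, zero_mul]
  rw [tsum_eq_sum hT]
  have hcard : T.card ≤ B.card := by
    simp only [T, Finset.card_map, Finset.card_attach]
    exact Finset.card_filter_le _ _
  calc ∑ p ∈ T, a p * ((p : ℕ) : ℝ) ^ (-s) ≤ ∑ _p ∈ T, K := by
        refine Finset.sum_le_sum fun p _ => ?_
        have h1 : ((p : ℕ) : ℝ) ^ (-s) ≤ 1 := by
          apply Real.rpow_le_one_of_one_le_of_nonpos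
          · exact_mod_cast p.2.one_lt.le
          · linarith
        calc a p * ((p : ℕ) : ℝ) ^ (-s) ≤ K * 1 :=
              mul_le_mul (hK p) h1 (Real.rpow_nonneg (Nat.cast_nonneg _) _) hK0
          _ = K := mul_one K
    _ = K * T.card := by rw [Finset.sum_const, nsmul_eq_mul, mul_comm]
    _ ≤ K * B.card := by
        apply mul_le_mul_of_nonneg_left _ hK0
        exact_mod_cast hcard

end

end Fermat.Agent.Lib.Cheb.H993

end
-- ===== PACK-END Lib/Cheb/H993/LogAsymp.lean

-- ===== PACK-BEGIN S31/H862/Cosets.lean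
section



/-!
# S31 / SS (helper862) — coset combinatorics of the Hecke double coset `Γ₀(N) diag(1,p) Γ₀(N)`

`Φ (γ, x) = γ · β_x` (`β_x` the Prelude representatives `heckeRep p x`, `x ∈ ℙ¹(𝔽_p)`) is
injective, and there is an involution `σ` of `Γ₀(N) × ℙ¹(𝔽_p)` with
`Φ (σ y) * Φ y = p · 1` (the adjugate).
-/

set_option autoImplicit false

open UpperHalfPlane CongruenceSubgroup Matrix.SpecialLinearGroup
open scoped MatrixGroups ModularForm

open P2MW.S_ModularForm_heckeT_slash_eq_self_of_mem_Gamma0.ModularForm.HeckeSlashInvariance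

namespace Fermat.Agent.S31.H862

variable {p : ℕ} [Fact p.Prime] {N : ℕ}

/-- `Φ (γ, x) = γ · β_x`. -/
noncomputable def cosetMap (p N : ℕ) (y : Gamma0 N × OnePoint (ZMod p)) : GL (Fin 2) ℝ :=
  mapGL ℝ (y.1 : SL(2, ℤ)) * heckeRep p y.2

theorem p_ne_zero' : p ≠ 0 := (Fact.out : p.Prime).ne_zero

theorem mapGL_val_apply (g : SL(2, ℤ)) (i j : Fin 2) :
    ((mapGL ℝ g : GL (Fin 2) ℝ) : Matrix (Fin 2) (Fin 2) ℝ) i j = ((g i j : ℤ) : ℝ) := by
  simp

theorem sl_det_eq (g : SL(2, ℤ)) : g 0 0 * g 1 1 - g 0 1 * g 1 0 = 1 := by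
  have h := g.det_coe
  rwa [Matrix.det_fin_two] at h

theorem sl_ext_entries {g h : SL(2, ℤ)} (h00 : g 0 0 = h 0 0) (h01 : g 0 1 = h 0 1)
    (h10 : g 1 0 = h 1 0) (h11 : g 1 1 = h 1 1) : g = h := by
  ext i j
  fin_cases i <;> fin_cases j <;> assumption

/-- entries of `g · β_j` -/
theorem entries_mul_heckeMatrix (g : SL(2, ℤ)) (j : ℕ) (a b : Fin 2) :
    ((mapGL ℝ g * ModularForm.heckeMatrix p j : GL (Fin 2) ℝ) : Matrix (Fin 2) (Fin 2) ℝ) a b =
      (((!![g 0 0, g 0 0 * j + g 0 1 * p; g 1 0, g 1 0 * j + g 1 1 * p] :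
        Matrix (Fin 2) (Fin 2) ℤ) a b : ℤ) : ℝ) := by
  have hp : p ≠ 0 := p_ne_zero'
  fin_cases a <;> fin_cases b <;>
    simp [Matrix.mul_apply, Fin.sum_univ_two, ModularForm.val_heckeMatrix hp]

/-- entries of `g · β_∞` -/
theorem entries_mul_heckeDiagMatrix (g : SL(2, ℤ)) (a b : Fin 2) :
    ((mapGL ℝ g * ModularForm.heckeDiagMatrix p : GL (Fin 2) ℝ) : Matrix (Fin 2) (Fin 2) ℝ) a b =
      (((!![g 0 0 * p, g 0 1; g 1 0 * p, g 1 1] :
        Matrix (Fin 2) (Fin 2) ℤ) a b : ℤ) : ℝ) := by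
  have hp : p ≠ 0 := p_ne_zero'
  fin_cases a <;> fin_cases b <;>
    simp [Matrix.mul_apply, Fin.sum_univ_two, ModularForm.val_heckeDiagMatrix hp]

theorem entries_heckeMatrix (j : ℕ) (a b : Fin 2) :
    ((ModularForm.heckeMatrix p j : GL (Fin 2) ℝ) : Matrix (Fin 2) (Fin 2) ℝ) a b =
      (((!![1, (j : ℤ); 0, (p : ℤ)] : Matrix (Fin 2) (Fin 2) ℤ) a b : ℤ) : ℝ) := by
  have hp : p ≠ 0 := p_ne_zero'
  fin_cases a <;> fin_cases b <;> simp [ModularForm.val_heckeMatrix hp]

theorem entries_heckeDiagMatrix (a b : Fin 2) :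
    ((ModularForm.heckeDiagMatrix p : GL (Fin 2) ℝ) : Matrix (Fin 2) (Fin 2) ℝ) a b =
      (((!![(p : ℤ), 0; 0, 1] : Matrix (Fin 2) (Fin 2) ℤ) a b : ℤ) : ℝ) := by
  have hp : p ≠ 0 := p_ne_zero'
  fin_cases a <;> fin_cases b <;> simp [ModularForm.val_heckeDiagMatrix hp]

theorem p_two_le : (2 : ℤ) ≤ p := by exact_mod_cast (Fact.out : p.Prime).two_le

/-- `g β_j = β_j'` forces `g = 1`, `j = j'`. -/
theorem eq_of_mul_heckeMatrix_eq (g : SL(2, ℤ)) (j j' : ZMod p)
    (h : mapGL ℝ g * ModularForm.heckeMatrix p j.val = ModularForm.heckeMatrix p j'.val) :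
    g = 1 ∧ j = j' := by
  have hp2 := p_two_le (p := p)
  have hE : ∀ a b : Fin 2,
      (!![g 0 0, g 0 0 * (j.val : ℤ) + g 0 1 * p; g 1 0, g 1 0 * (j.val : ℤ) + g 1 1 * p] :
        Matrix (Fin 2) (Fin 2) ℤ) a b =
      (!![1, (j'.val : ℤ); 0, (p : ℤ)] : Matrix (Fin 2) (Fin 2) ℤ) a b := by
    intro a b
    have h1 := congrArg (fun M : GL (Fin 2) ℝ => (M : Matrix (Fin 2) (Fin 2) ℝ) a b) h
    simp only [entries_mul_heckeMatrix, entries_heckeMatrix] at h1
    exact_mod_cast h1
  have h00 : g 0 0 = 1 := by simpa using hE 0 0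
  have h10 : g 1 0 = 0 := by simpa using hE 1 0
  have h01 : g 0 0 * (j.val : ℤ) + g 0 1 * p = j'.val := by simpa using hE 0 1
  have h11 : g 1 0 * (j.val : ℤ) + g 1 1 * p = p := by simpa using hE 1 1
  rw [h00, one_mul] at h01
  rw [h10, zero_mul, zero_add] at h11
  have hp0 : (p : ℤ) ≠ 0 := by positivity
  have h11' : g 1 1 = 1 := by
    have : (g 1 1 - 1) * (p : ℤ) = 0 := by linear_combination h11
    rcases mul_eq_zero.mp this with h | h
    · linarith
    · exact absurd h hp0
  have hjj : j = j' := by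
    have h2 := congrArg (Int.cast : ℤ → ZMod p) h01
    push_cast at h2
    rw [ZMod.natCast_zmod_val, ZMod.natCast_zmod_val, ZMod.natCast_self, mul_zero, add_zero] at h2
    exact h2
  subst hjj
  have h01' : g 0 1 = 0 := by
    have : g 0 1 * (p : ℤ) = 0 := by linear_combination h01
    rcases mul_eq_zero.mp this with h | h
    · exact h
    · exact absurd h hp0
  refine ⟨sl_ext_entries ?_ ?_ ?_ ?_, rfl⟩ <;> simp [h00, h01', h10, h11']

/-- `g β_∞ = β_∞` forces `g = 1`. -/
theorem eq_of_mul_heckeDiagMatrix_eq (g : SL(2, ℤ))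
    (h : mapGL ℝ g * ModularForm.heckeDiagMatrix p = ModularForm.heckeDiagMatrix p) :
    g = 1 := by
  have hp2 := p_two_le (p := p)
  have hE : ∀ a b : Fin 2,
      (!![g 0 0 * p, g 0 1; g 1 0 * p, g 1 1] : Matrix (Fin 2) (Fin 2) ℤ) a b =
      (!![(p : ℤ), 0; 0, 1] : Matrix (Fin 2) (Fin 2) ℤ) a b := by
    intro a b
    have h1 := congrArg (fun M : GL (Fin 2) ℝ => (M : Matrix (Fin 2) (Fin 2) ℝ) a b) h
    simp only [entries_mul_heckeDiagMatrix, entries_heckeDiagMatrix] at h1
    exact_mod_cast h1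
  have h00 : g 0 0 * p = p := by simpa using hE 0 0
  have h10 : g 1 0 * p = 0 := by simpa using hE 1 0
  have h01 : g 0 1 = 0 := by simpa using hE 0 1
  have h11 : g 1 1 = 1 := by simpa using hE 1 1
  have hp0 : (p : ℤ) ≠ 0 := by positivity
  have h00' : g 0 0 = 1 := by
    have : (g 0 0 - 1) * (p : ℤ) = 0 := by linear_combination h00
    rcases mul_eq_zero.mp this with h | h
    · linarith
    · exact absurd h hp0
  have h10' : g 1 0 = 0 := by
    rcases mul_eq_zero.mp h10 with h | h
    · exact h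
    · exact absurd h hp0
  exact sl_ext_entries (by simp [h00']) (by simp [h01]) (by simp [h10']) (by simp [h11])

/-- `g β_j ≠ β_∞`. -/
theorem mul_heckeMatrix_ne (g : SL(2, ℤ)) (j : ℕ) :
    mapGL ℝ g * ModularForm.heckeMatrix p j ≠ ModularForm.heckeDiagMatrix p := by
  intro h
  have hp2 := p_two_le (p := p)
  have hE : ∀ a b : Fin 2,
      (!![g 0 0, g 0 0 * (j : ℤ) + g 0 1 * p; g 1 0, g 1 0 * (j : ℤ) + g 1 1 * p] :
        Matrix (Fin 2) (Fin 2) ℤ) a b =
      (!![(p : ℤ), 0; 0, 1] : Matrix (Fin 2) (Fin 2) ℤ) a b := by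
    intro a b
    have h1 := congrArg (fun M : GL (Fin 2) ℝ => (M : Matrix (Fin 2) (Fin 2) ℝ) a b) h
    simp only [entries_mul_heckeMatrix, entries_heckeDiagMatrix] at h1
    exact_mod_cast h1
  have h00 : g 0 0 = p := by simpa using hE 0 0
  have h10 : g 1 0 = 0 := by simpa using hE 1 0
  have hdet := sl_det_eq g
  rw [h00, h10, mul_zero, sub_zero] at hdet
  have hdvd : (p : ℤ) ∣ 1 := ⟨g 1 1, hdet.symm⟩
  have := Int.le_of_dvd one_pos hdvd
  omega

/-- `g β_∞ ≠ β_j`. -/
theorem mul_heckeDiagMatrix_ne (g : SL(2, ℤ)) (j : ℕ) :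
    mapGL ℝ g * ModularForm.heckeDiagMatrix p ≠ ModularForm.heckeMatrix p j := by
  intro h
  have hp2 := p_two_le (p := p)
  have hE : ∀ a b : Fin 2,
      (!![g 0 0 * p, g 0 1; g 1 0 * p, g 1 1] : Matrix (Fin 2) (Fin 2) ℤ) a b =
      (!![1, (j : ℤ); 0, (p : ℤ)] : Matrix (Fin 2) (Fin 2) ℤ) a b := by
    intro a b
    have h1 := congrArg (fun M : GL (Fin 2) ℝ => (M : Matrix (Fin 2) (Fin 2) ℝ) a b) h
    simp only [entries_mul_heckeDiagMatrix, entries_heckeMatrix] at h1
    exact_mod_cast h1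
  have h00 : g 0 0 * p = 1 := by simpa using hE 0 0
  have hdvd : (p : ℤ) ∣ 1 := ⟨g 0 0, by rw [mul_comm]; exact h00.symm⟩
  have := Int.le_of_dvd one_pos hdvd
  omega

theorem eq_of_mul_heckeRep_eq (g : SL(2, ℤ)) (x x' : OnePoint (ZMod p))
    (h : mapGL ℝ g * heckeRep p x = heckeRep p x') : g = 1 ∧ x = x' := by
  induction x using OnePoint.rec with
  | infty =>
    induction x' using OnePoint.rec with
    | infty => exact ⟨eq_of_mul_heckeDiagMatrix_eq g h, rfl⟩
    | coe j' => exact absurd h (mul_heckeDiagMatrix_ne g _)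
  | coe j =>
    induction x' using OnePoint.rec with
    | infty => exact absurd h (mul_heckeMatrix_ne g _)
    | coe j' =>
      obtain ⟨h1, h2⟩ := eq_of_mul_heckeMatrix_eq g j j' h
      exact ⟨h1, by rw [h2]⟩

theorem cosetMap_injective : Function.Injective (cosetMap p N) := by
  rintro ⟨γ, x⟩ ⟨γ', x'⟩ h
  simp only [cosetMap] at h
  have h2 : mapGL ℝ ((γ' : SL(2, ℤ))⁻¹ * (γ : SL(2, ℤ))) * heckeRep p x = heckeRep p x' := by
    rw [map_mul, map_inv, mul_assoc, h, ← mul_assoc, inv_mul_cancel, one_mul]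
  obtain ⟨h3, h4⟩ := eq_of_mul_heckeRep_eq _ x x' h2
  have h5 : (γ : SL(2, ℤ)) = γ' := by
    have := congrArg (fun t => (γ' : SL(2, ℤ)) * t) h3
    simpa using this
  exact Prod.ext (Subtype.ext h5) h4

/-- The scalar matrix `p · 1`. -/
noncomputable def scalarP (p : ℕ) [Fact p.Prime] : GL (Fin 2) ℝ :=
  Matrix.GeneralLinearGroup.scalar (Fin 2)
    (Units.mk0 (p : ℝ) (Nat.cast_ne_zero.mpr (Fact.out : p.Prime).ne_zero))

theorem entries_scalarP (a b : Fin 2) :
    ((scalarP p : GL (Fin 2) ℝ) : Matrix (Fin 2) (Fin 2) ℝ) a b =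
      (((!![(p : ℤ), 0; 0, (p : ℤ)] : Matrix (Fin 2) (Fin 2) ℤ) a b : ℤ) : ℝ) := by
  rw [scalarP, Matrix.GeneralLinearGroup.coe_scalar, Matrix.scalar_apply,
    Matrix.diagonal_apply]
  fin_cases a <;> fin_cases b <;> simp

/-- the unipotent matrix `(1, -j; 0, 1)` -/
def unipNeg (j : ℤ) : SL(2, ℤ) :=
  ⟨!![1, -j; 0, 1], by simp [Matrix.det_fin_two_of]⟩

theorem unipNeg_apply_zero_zero (j : ℤ) : unipNeg j 0 0 = 1 := rfl

theorem unipNeg_apply_zero_one (j : ℤ) : unipNeg j 0 1 = -j := rfl

theorem unipNeg_apply_one_zero (j : ℤ) : unipNeg j 1 0 = 0 := rfl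

theorem unipNeg_apply_one_one (j : ℤ) : unipNeg j 1 1 = 1 := rfl

theorem unipNeg_mem (N : ℕ) (j : ℤ) : unipNeg j ∈ Gamma0 N := by
  rw [Gamma0_mem, unipNeg_apply_one_zero]
  simp

theorem heckeRep_zero_mul_diag :
    heckeRep p ((0 : ZMod p) : OnePoint (ZMod p)) * ModularForm.heckeDiagMatrix p = scalarP p := by
  have hp : p ≠ 0 := p_ne_zero'
  ext a b
  rw [entries_scalarP]
  fin_cases a <;> fin_cases b <;>
    simp [Matrix.mul_apply, Fin.sum_univ_two, ModularForm.val_heckeDiagMatrix hp,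
      ModularForm.val_heckeMatrix hp]

theorem unipNeg_mul_diag_mul_heckeMatrix (j : ℕ) :
    mapGL ℝ (unipNeg (j : ℤ)) * ModularForm.heckeDiagMatrix p * ModularForm.heckeMatrix p j
      = scalarP p := by
  have hp : p ≠ 0 := p_ne_zero'
  ext a b
  rw [entries_scalarP]
  rw [mul_assoc]
  have h : ∀ a b : Fin 2, ((mapGL ℝ (unipNeg (j : ℤ)) *
      (ModularForm.heckeDiagMatrix p * ModularForm.heckeMatrix p j) : GL (Fin 2) ℝ) :
        Matrix (Fin 2) (Fin 2) ℝ) a b =
      ((unipNeg (j : ℤ) a 0 : ℤ) : ℝ) * ((ModularForm.heckeDiagMatrix p *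
        ModularForm.heckeMatrix p j : GL (Fin 2) ℝ) : Matrix (Fin 2) (Fin 2) ℝ) 0 b +
      ((unipNeg (j : ℤ) a 1 : ℤ) : ℝ) * ((ModularForm.heckeDiagMatrix p *
        ModularForm.heckeMatrix p j : GL (Fin 2) ℝ) : Matrix (Fin 2) (Fin 2) ℝ) 1 b := by
    intro a b
    rw [Units.val_mul, Matrix.mul_apply, Fin.sum_univ_two, mapGL_val_apply, mapGL_val_apply]
  rw [h]
  fin_cases a <;> fin_cases b <;>
    simp [Matrix.mul_apply, Fin.sum_univ_two, ModularForm.val_heckeDiagMatrix hp,
      ModularForm.val_heckeMatrix hp, unipNeg_apply_zero_zero, unipNeg_apply_zero_one,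
      unipNeg_apply_one_zero, unipNeg_apply_one_one]
  ring

/-- the adjugate of `β_x` is `τ β_{x₀}` with `τ` unipotent upper triangular -/
theorem exists_adj_heckeRep (N : ℕ) (x : OnePoint (ZMod p)) :
    ∃ (τ : SL(2, ℤ)) (x₀ : OnePoint (ZMod p)), τ ∈ Gamma0 N ∧
      mapGL ℝ τ * heckeRep p x₀ * heckeRep p x = scalarP p := by
  induction x using OnePoint.rec with
  | infty =>
    refine ⟨1, ((0 : ZMod p) : OnePoint (ZMod p)), one_mem _, ?_⟩
    rw [map_one, one_mul]
    exact heckeRep_zero_mul_diag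
  | coe j =>
    exact ⟨unipNeg (j.val : ℤ), OnePoint.infty, unipNeg_mem N _,
      unipNeg_mul_diag_mul_heckeMatrix j.val⟩

theorem Gamma0_dvd {N : ℕ} {g : SL(2, ℤ)} : g ∈ Gamma0 N ↔ (N : ℤ) ∣ g 1 0 := by
  rw [Gamma0_mem, ZMod.intCast_zmod_eq_zero_iff_dvd]

theorem exists_adj_partner (hpN : ¬ p ∣ N) (y : Gamma0 N × OnePoint (ZMod p)) :
    ∃ y' : Gamma0 N × OnePoint (ZMod p), cosetMap p N y' * cosetMap p N y = scalarP p := by
  obtain ⟨γ, x⟩ := y
  obtain ⟨τ, x₀, hτ, hτx⟩ := exists_adj_heckeRep N x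
  have hγinv : ((γ : SL(2, ℤ))⁻¹) ∈ Gamma0 N := inv_mem γ.2
  obtain ⟨g', hg', hmul⟩ := heckeRep_mul hpN ((γ : SL(2, ℤ))⁻¹) (Gamma0_dvd.mp hγinv) x₀
  have hg'mem : g' ∈ Gamma0 N := Gamma0_dvd.mpr hg'
  refine ⟨(⟨τ * g', mul_mem hτ hg'mem⟩, redMatrix p ((γ : SL(2, ℤ))⁻¹) • x₀), ?_⟩
  simp only [cosetMap]
  calc mapGL ℝ (τ * g') * heckeRep p (redMatrix p ((γ : SL(2, ℤ))⁻¹) • x₀)
        * (mapGL ℝ (γ : SL(2, ℤ)) * heckeRep p x)
      = mapGL ℝ τ * (mapGL ℝ g' * heckeRep p (redMatrix p ((γ : SL(2, ℤ))⁻¹) • x₀))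
        * mapGL ℝ (γ : SL(2, ℤ)) * heckeRep p x := by
        rw [map_mul]; group
    _ = mapGL ℝ τ * (heckeRep p x₀ * mapGL ℝ ((γ : SL(2, ℤ))⁻¹))
        * mapGL ℝ (γ : SL(2, ℤ)) * heckeRep p x := by rw [hmul]
    _ = mapGL ℝ τ * heckeRep p x₀ * heckeRep p x := by
        rw [map_inv]; group
    _ = scalarP p := hτx

/-- The adjugate involution on `Γ₀(N) × ℙ¹(𝔽_p)`. -/
noncomputable def adjFun (hpN : ¬ p ∣ N) (y : Gamma0 N × OnePoint (ZMod p)) :
    Gamma0 N × OnePoint (ZMod p) :=
  Classical.choose (exists_adj_partner hpN y)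

theorem adjFun_spec (hpN : ¬ p ∣ N) (y : Gamma0 N × OnePoint (ZMod p)) :
    cosetMap p N (adjFun hpN y) * cosetMap p N y = scalarP p :=
  Classical.choose_spec (exists_adj_partner hpN y)

theorem adjFun_involutive (hpN : ¬ p ∣ N) : Function.Involutive (adjFun (N := N) hpN) := by
  intro y
  apply cosetMap_injective
  have h1 := adjFun_spec hpN y
  have h2 := adjFun_spec hpN (adjFun hpN y)
  have hc : scalarP p * cosetMap p N y = cosetMap p N y * scalarP p :=
    Matrix.GeneralLinearGroup.scalar_commute _ _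
  have h3 : cosetMap p N (adjFun hpN (adjFun hpN y)) * scalarP p
      = cosetMap p N y * scalarP p := by
    calc cosetMap p N (adjFun hpN (adjFun hpN y)) * scalarP p
        = cosetMap p N (adjFun hpN (adjFun hpN y)) *
            (cosetMap p N (adjFun hpN y) * cosetMap p N y) := by rw [h1]
      _ = (cosetMap p N (adjFun hpN (adjFun hpN y)) * cosetMap p N (adjFun hpN y)) *
            cosetMap p N y := (mul_assoc _ _ _).symm
      _ = scalarP p * cosetMap p N y := by rw [h2]
      _ = cosetMap p N y * scalarP p := hc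
  exact mul_right_cancel h3

/-- The adjugate involution as a permutation. -/
noncomputable def adjPerm (hpN : ¬ p ∣ N) : Equiv.Perm (Gamma0 N × OnePoint (ZMod p)) :=
  (adjFun_involutive hpN).toPerm

theorem adjPerm_apply (hpN : ¬ p ∣ N) (y : Gamma0 N × OnePoint (ZMod p)) :
    adjPerm hpN y = adjFun hpN y := rfl

omit [Fact p.Prime] in
theorem det_cosetMap_pos (y : Gamma0 N × OnePoint (ZMod p)) : 0 < (cosetMap p N y).det.val := by
  obtain ⟨γ, x⟩ := y
  simp only [cosetMap, map_mul, Units.val_mul]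
  have h1 : ((mapGL ℝ (γ : SL(2, ℤ))).det : ℝˣ) = 1 := by simp
  rw [h1, Units.val_one, one_mul]
  induction x using OnePoint.rec with
  | infty => exact ModularForm.det_heckeDiagMatrix_pos p
  | coe j => exact ModularForm.det_heckeMatrix_pos p _

end Fermat.Agent.S31.H862

end
-- ===== PACK-END S31/H862/Cosets.lean

-- ===== PACK-BEGIN S29/H455/KummerCorr.lean
section


/-!
# Kummer classes in `Pic⁰` and correspondences (Prelude language)

`IsKummerClass n f x` : the class `x ∈ Pic⁰(F)` is represented by a degree-zero divisor `D` with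
`n • D = div f`.  Main results:

* `exists_isKummerClass_of_zsmul_eq_zero` : every `n`-torsion class is a Kummer class;
* `IsKummerClass.unique`, `.add`, `.neg`, `.mul_pow`, `.eq_zero_iff` ;
* `IsKummerClass.correspondence` : the correspondence `ψ_* φ^*` (Prelude `Pic0.correspondence`,
  e.g. the Hecke operator `T_ℓ = α_* β^*`) sends the Kummer class of `f` to the Kummer class of
  `Norm_ψ (φ f)`;
* `IsKummerClass.smul` : semilinear automorphisms send the Kummer class of `f` to that of `g • f`.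
-/

set_option autoImplicit false
set_option linter.style.haveILetI false
set_option linter.unusedSectionVars false

noncomputable section

namespace Fermat.Agent.S29.H455

open AlgebraicCurve

variable {K F F' : Type*} [Field K] [Field F] [Field F'] [Algebra K F] [Algebra K F']

/-- The norm along an algebra homomorphism `ψ : F → F'` (Prelude `algebraAlong`). -/
def normAlong (ψ : F →ₐ[K] F') (y : F') : F :=
  letI := algebraAlong ψ
  Algebra.norm F y

theorem normAlong_ne_zero (ψ : F →ₐ[K] F') (hfin : FiniteAlong K ψ) {y : F'} (hy : y ≠ 0) :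
    normAlong ψ y ≠ 0 := by
  letI := algebraAlong ψ
  haveI : Module.Finite F F' := hfin
  exact Algebra.norm_ne_zero_iff.mpr hy

theorem normAlong_mul (ψ : F →ₐ[K] F') (y z : F') :
    normAlong ψ (y * z) = normAlong ψ y * normAlong ψ z := by
  letI := algebraAlong ψ
  exact map_mul (Algebra.norm F) y z

theorem normAlong_pow (ψ : F →ₐ[K] F') (y : F') (n : ℕ) :
    normAlong ψ (y ^ n) = normAlong ψ y ^ n := by
  letI := algebraAlong ψ
  exact map_pow (Algebra.norm F) y n

section Divisors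

variable [HasPrincipalDivisors K F']
variable (φ ψ : F →ₐ[K] F') (hφ : φ.toRingHom.IsIntegral) (hψ : ψ.toRingHom.IsIntegral)

theorem pullbackAlong_apply_of_ord {f : F} {D : Divisor K F}
    (hD : ∀ v : Place K F, D v = v.ord f) (w : Place K F') :
    Divisor.pullbackAlong φ hφ D w = w.ord (φ f) := by
  letI := algebraAlong φ
  haveI := isScalarTower_along φ
  haveI := isIntegral_along φ hφ
  exact Divisor.pullback_apply_eq_ord hD w

theorem pushforwardAlong_apply_of_ord (hfin : FiniteAlong K ψ) (hN : NormFormulaAlong K ψ hfin)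
    {g : F'} (hg : g ≠ 0) {D : Divisor K F'} (hD : ∀ w : Place K F', D w = w.ord g)
    (v : Place K F) :
    Divisor.pushforwardAlong ψ hψ D v = v.ord (normAlong ψ g) := by
  letI := algebraAlong ψ
  haveI := isScalarTower_along ψ
  haveI := isIntegral_along ψ hψ
  haveI : Module.Finite F F' := hfin
  exact hN g hg D hD v

/-- The correspondence `ψ_* φ^*` sends `div f` to `div (Norm_ψ (φ f))`. -/
theorem correspondence_apply_of_ord (hfin : FiniteAlong K ψ) (hN : NormFormulaAlong K ψ hfin)
    {f : F} (hf : f ≠ 0) {D : Divisor K F} (hD : ∀ v : Place K F, D v = v.ord f)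
    (v : Place K F) :
    Divisor.correspondence φ ψ hφ hψ D v = v.ord (normAlong ψ (φ f)) := by
  rw [Divisor.correspondence_apply]
  refine pushforwardAlong_apply_of_ord ψ hψ hfin hN ?_ (fun w => ?_) v
  · exact (map_ne_zero φ).mpr hf
  · exact pullbackAlong_apply_of_ord φ hφ hD w

/-- If `n • D = div f` then `n • (ψ_* φ^* D) = div (Norm_ψ (φ f))`. -/
theorem correspondence_kummer (hfin : FiniteAlong K ψ) (hN : NormFormulaAlong K ψ hfin)
    {n : ℤ} {f : F} (hf : f ≠ 0) {D : Divisor K F}
    (hD : ∀ v : Place K F, n * D v = v.ord f) (v : Place K F) :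
    n * Divisor.correspondence φ ψ hφ hψ D v = v.ord (normAlong ψ (φ f)) := by
  have h := correspondence_apply_of_ord φ ψ hφ hψ hfin hN hf (D := n • D)
    (fun v => by rw [Finsupp.smul_apply, smul_eq_mul, hD]) v
  rw [map_zsmul, Finsupp.smul_apply, smul_eq_mul] at h
  exact h

end Divisors

/-! ### The Kummer relation -/

/-- `x` is the `n`-Kummer class of `f`: `x = [D]` with `D` of degree zero and `n • D = div f`. -/
def IsKummerClass (n : ℤ) (f : F) (x : Pic0 K F) : Prop :=
  f ≠ 0 ∧ ∃ D : Divisor.degZero (K := K) (F := F),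
    Pic0.mk D = x ∧ ∀ v : Place K F, n * (D : Divisor K F) v = v.ord f

namespace IsKummerClass

variable {n : ℤ} {f g : F} {x y : Pic0 K F}

theorem ne_zero (h : IsKummerClass n f x) : f ≠ 0 := h.1

/-- A Kummer class is `n`-torsion. -/
theorem zsmul_eq_zero (h : IsKummerClass n f x) : n • x = 0 := by
  obtain ⟨hf, D, rfl, hD⟩ := h
  have h1 : n • Pic0.mk D = Pic0.mk (n • D) := rfl
  rw [h1]
  refine (QuotientAddGroup.eq_zero_iff _).mpr ?_
  rw [AddSubgroup.mem_addSubgroupOf]
  refine ⟨f, hf, fun v => ?_⟩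
  rw [← hD v]
  simp

theorem add (hx : IsKummerClass n f x) (hy : IsKummerClass n g y) :
    IsKummerClass n (f * g) (x + y) := by
  obtain ⟨hf, D, rfl, hD⟩ := hx
  obtain ⟨hg, E, rfl, hE⟩ := hy
  refine ⟨mul_ne_zero hf hg, D + E, rfl, fun v => ?_⟩
  rw [Place.ord_mul v hf hg, ← hD v, ← hE v]
  simp [mul_add]

theorem neg (hx : IsKummerClass n f x) : IsKummerClass n f⁻¹ (-x) := by
  obtain ⟨hf, D, rfl, hD⟩ := hx
  refine ⟨inv_ne_zero hf, -D, rfl, fun v => ?_⟩
  rw [Place.ord_inv, ← hD v]
  simp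

theorem zero : IsKummerClass n (1 : F) (0 : Pic0 K F) :=
  ⟨one_ne_zero, 0, rfl, fun v => by simp⟩

/-- Changing `f` by an `n`-th power changes the divisor by a principal divisor. -/
theorem mul_zpow [HasPrincipalDivisors K F] (hx : IsKummerClass n f x) (hg : g ≠ 0) :
    IsKummerClass n (f * g ^ n) x := by
  obtain ⟨hf, D, rfl, hD⟩ := hx
  obtain ⟨E, hE, hE0⟩ := HasPrincipalDivisors.exists_divisor (K := K) g hg
  refine ⟨mul_ne_zero hf (zpow_ne_zero n hg), D + ⟨E, hE0⟩, ?_, fun v => ?_⟩
  · rw [Pic0.mk_add]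
    have : Pic0.mk (⟨E, hE0⟩ : Divisor.degZero (K := K) (F := F)) = 0 := by
      refine (QuotientAddGroup.eq_zero_iff _).mpr ?_
      rw [AddSubgroup.mem_addSubgroupOf]
      exact ⟨g, hg, hE⟩
    rw [this, add_zero]
  · rw [Place.ord_mul v hf (zpow_ne_zero n hg), Place.ord_zpow, ← hD v]
    simp [mul_add, hE v]

/-- The Kummer class of `f` is unique (for `n ≠ 0`). -/
theorem unique (hn : n ≠ 0) (hx : IsKummerClass n f x) (hy : IsKummerClass n f y) : x = y := by
  obtain ⟨-, D, rfl, hD⟩ := hx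
  obtain ⟨-, E, rfl, hE⟩ := hy
  congr 1
  apply Subtype.ext
  apply Finsupp.ext
  intro v
  have := (hD v).trans (hE v).symm
  exact mul_left_cancel₀ hn this

/-- The Kummer class of `f` vanishes iff `div f = n • div g` for some `g`. -/
theorem eq_zero_iff (hn : n ≠ 0) (hx : IsKummerClass n f x) :
    x = 0 ↔ ∃ g : F, g ≠ 0 ∧ ∀ v : Place K F, v.ord f = n * v.ord g := by
  obtain ⟨hf, D, rfl, hD⟩ := hx
  constructor
  · intro h
    have h1 := (QuotientAddGroup.eq_zero_iff _).mp h
    rw [AddSubgroup.mem_addSubgroupOf] at h1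
    obtain ⟨g, hg, hDg⟩ := h1
    exact ⟨g, hg, fun v => by rw [← hD v, hDg v]⟩
  · rintro ⟨g, hg, hfg⟩
    refine (QuotientAddGroup.eq_zero_iff _).mpr ?_
    rw [AddSubgroup.mem_addSubgroupOf]
    refine ⟨g, hg, fun v => ?_⟩
    have := (hD v).trans (hfg v)
    exact mul_left_cancel₀ hn this

/-- **Correspondences on Kummer classes**: `ψ_* φ^*` sends the Kummer class of `f` to the
Kummer class of `Norm_ψ (φ f)`. -/
theorem correspondence [HasPrincipalDivisors K F'] (φ ψ : F →ₐ[K] F')
    (hφ : φ.toRingHom.IsIntegral) (hψ : ψ.toRingHom.IsIntegral)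
    (hFI : FundamentalIdentityAlong K φ hφ) (hfin : FiniteAlong K ψ)
    (hN : NormFormulaAlong K ψ hfin) (hx : IsKummerClass n f x) :
    IsKummerClass n (normAlong ψ (φ f)) (Pic0.correspondence φ ψ hφ hψ hFI hfin hN x) := by
  obtain ⟨hf, D, rfl, hD⟩ := hx
  refine ⟨normAlong_ne_zero ψ hfin ((map_ne_zero φ).mpr hf),
    Pic0.degZeroCorrespondence φ ψ hφ hψ hFI D, (Pic0.correspondence_mk _ _ _ _ _ _ _ D).symm,
    fun v => ?_⟩
  rw [Pic0.coe_degZeroCorrespondence]
  exact correspondence_kummer φ ψ hφ hψ hfin hN hf hD v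

/-- **Semilinear automorphisms on Kummer classes**. -/
theorem smul (σ : SemilinearAut K F) (hx : IsKummerClass n f x) :
    IsKummerClass n (σ • f) (σ • x) := by
  obtain ⟨hf, D, rfl, hD⟩ := hx
  refine ⟨?_, SemilinearAut.degZeroSMulHom σ D, (SemilinearAut.pic0_smul_mk σ D).symm,
    fun v => ?_⟩
  · rw [SemilinearAut.smul_def]
    exact (map_ne_zero _).mpr hf
  · rw [SemilinearAut.coe_degZeroSMulHom, SemilinearAut.divisor_smul_apply, hD (σ⁻¹ • v)]
    have h := SemilinearAut.ord_smul σ (σ⁻¹ • v) f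
    rw [smul_inv_smul] at h
    exact h.symm

end IsKummerClass

/-- Every `n`-torsion class is a Kummer class. -/
theorem exists_isKummerClass_of_zsmul_eq_zero {n : ℤ} {x : Pic0 K F} (hx : n • x = 0) :
    ∃ f : F, IsKummerClass n f x := by
  obtain ⟨D, rfl⟩ := Pic0.mk_surjective x
  have h1 : n • Pic0.mk D = Pic0.mk (n • D) := rfl
  rw [h1] at hx
  have h2 := (QuotientAddGroup.eq_zero_iff _).mp hx
  rw [AddSubgroup.mem_addSubgroupOf] at h2
  obtain ⟨f, hf, hDf⟩ := h2
  refine ⟨f, hf, D, rfl, fun v => ?_⟩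
  rw [← hDf v]
  simp

end Fermat.Agent.S29.H455

end
end
-- ===== PACK-END S29/H455/KummerCorr.lean

-- ===== PACK-BEGIN S24/Deg/H457_Bound.lean
section


/-!
# S24 / DEG-ALG (helper457), part 2: bounded degree ⇒ bounded dimension

If every element of a field extension `F/k` (char. 0) is algebraic of degree `≤ n`, then
`F/k` is finite of degree `≤ n` (primitive element theorem).
-/

set_option autoImplicit false

noncomputable section

open Polynomial Module

namespace Fermat.Agent.S24.Deg457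

/-- In characteristic zero, an extension all of whose elements are algebraic of degree `≤ n`
is finite-dimensional of dimension `≤ n`. -/
theorem finiteDimensional_and_finrank_le_of_forall_natDegree_minpoly_le
    {k F : Type*} [Field k] [Field F] [Algebra k F] [CharZero k] (n : ℕ)
    (h : ∀ x : F, IsIntegral k x ∧ (minpoly k x).natDegree ≤ n) :
    FiniteDimensional k F ∧ finrank k F ≤ n := by
  haveI : Algebra.IsAlgebraic k F := ⟨fun x => (h x).1.isAlgebraic⟩
  have key : ∀ L : IntermediateField k F, FiniteDimensional k L → finrank k L ≤ n := by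
    intro L hL
    obtain ⟨α, hα⟩ := Field.exists_primitive_element k L
    have h1 : finrank k L = (minpoly k α).natDegree := by
      rw [← IntermediateField.adjoin.finrank (IsIntegral.of_finite k α), hα]
      exact (IntermediateField.finrank_top').symm
    rw [h1]
    have h2 : minpoly k (α : F) = minpoly k α :=
      (minpoly.algebraMap_eq (algebraMap L F).injective α)
    rw [← h2]
    exact (h (α : F)).2
  have hfd : FiniteDimensional k F := by
    by_contra hnot
    obtain ⟨L, hL, hlt⟩ := IntermediateField.exists_lt_finrank_of_infinite_dimensional hnot n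
    exact absurd (key L hL) (not_le.mpr hlt)
  refine ⟨hfd, ?_⟩
  have := key ⊤ inferInstance
  rwa [IntermediateField.finrank_top'] at this

end Fermat.Agent.S24.Deg457

end
end
-- ===== PACK-END S24/Deg/H457_Bound.lean

-- ===== PACK-BEGIN S20/L1/Ramanujan.lean
section





/-!
# Level-one input for S20: Ramanujan identities and simple zeros

(helper140) Serre derivative of a level-one modular form is a level-one modular form;
Ramanujan identities for `E₄`, `E₆`, `Δ`; simple zeros.
-/

set_option autoImplicit false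

open UpperHalfPlane ModularForm EisensteinSeries Derivative Filter Topology
open scoped MatrixGroups Manifold

noncomputable section

namespace Fermat.Agent.S20.L1

/-- If `F` is holomorphic on `ℍ` and bounded at `i∞`, then its derivative tends to zero
at `i∞` (Cauchy estimate on discs of growing radius). -/
theorem isZeroAtImInfty_normalizedDeriv {F : ℍ → ℂ} (hF : MDiff F)
    (hb : IsBoundedAtImInfty F) : IsZeroAtImInfty (D F) := by
  rw [isBoundedAtImInfty_iff] at hb
  obtain ⟨M, A, hMA⟩ := hb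
  rw [isZeroAtImInfty_iff]
  intro ε hε
  -- we may assume `M ≥ 0` and `A ≥ 1`
  set M' : ℝ := max M 0 with hM'
  set A' : ℝ := max A 1 with hA'
  have hM'0 : 0 ≤ M' := le_max_right _ _
  set R : ℝ := M' / ε + 1 with hR
  have hRpos : 0 < R := by positivity
  refine ⟨A' + R, fun z hz ↦ ?_⟩
  have hdiff : DifferentiableOn ℂ (F ∘ ofComplex) upperHalfPlaneSet :=
    _root_.UpperHalfPlane.mdifferentiable_iff.mp hF
  have hsub : Metric.closedBall (z : ℂ) R ⊆ upperHalfPlaneSet := by
    intro w hw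
    have h1 : |w.im - (z : ℂ).im| ≤ R := by
      have := Complex.abs_im_le_norm (w - z)
      rw [Complex.sub_im] at this
      exact this.trans (by simpa [dist_eq_norm] using hw)
    have h2 : (z : ℂ).im = z.im := rfl
    have h3 : A' + R ≤ (z : ℂ).im := by simpa using hz
    have h4 : (1 : ℝ) ≤ A' := le_max_right _ _
    have h5 := abs_le.mp h1
    show 0 < w.im
    linarith [h5.1]
  have hd : DiffContOnCl ℂ (F ∘ ofComplex) (Metric.ball (z : ℂ) R) := by
    refine DifferentiableOn.diffContOnCl ?_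
    rw [closure_ball _ hRpos.ne']
    exact hdiff.mono hsub
  have hC : ∀ w ∈ Metric.sphere (z : ℂ) R, ‖(F ∘ ofComplex) w‖ ≤ M' := by
    intro w hw
    have hwU : w ∈ upperHalfPlaneSet := hsub (Metric.sphere_subset_closedBall hw)
    have h1 : |w.im - (z : ℂ).im| ≤ R := by
      have := Complex.abs_im_le_norm (w - z)
      rw [Complex.sub_im] at this
      exact this.trans (by simpa [dist_eq_norm] using (Metric.sphere_subset_closedBall hw))
    have h3 : A' + R ≤ (z : ℂ).im := by simpa using hz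
    have h5 := abs_le.mp h1
    have hA : A ≤ (ofComplex w).im := by
      rw [ofComplex_apply_of_im_pos hwU]
      show A ≤ w.im
      have : A ≤ A' := le_max_left _ _
      linarith [h5.1]
    exact (hMA _ hA).trans (le_max_left _ _)
  have key := Complex.norm_deriv_le_of_forall_mem_sphere_norm_le hRpos hd hC
  have h2pi : ‖(2 * (Real.pi : ℂ) * Complex.I)‖ = 2 * Real.pi := by
    simp [abs_of_pos Real.pi_pos]
  rw [normalizedDerivOfComplex, norm_mul, norm_inv, h2pi]
  have hpi : (1 : ℝ) ≤ 2 * Real.pi := by linarith [Real.two_le_pi]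
  have hMR : M' / R ≤ ε := by
    rw [div_le_iff₀ hRpos, hR]
    have : M' = ε * (M' / ε) := by field_simp
    nlinarith
  calc (2 * Real.pi)⁻¹ * ‖deriv (F ∘ ofComplex) ↑z‖
      ≤ 1 * ‖deriv (F ∘ ofComplex) ↑z‖ := by
        gcongr
        exact inv_le_one_of_one_le₀ hpi
    _ ≤ ε := by rw [one_mul]; exact key.trans hMR

/-- Build a level-one modular form from function-level data. -/
def mkLevelOne (k : ℤ) (F : ℍ → ℂ) (hol : MDiff F) (inv : ∀ γ : SL(2, ℤ), F ∣[k] γ = F)
    (bdd : IsBoundedAtImInfty F) : ModularForm 𝒮ℒ k where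
  toFun := F
  slash_action_eq' A hA := by
    obtain ⟨A, rfl⟩ := hA
    exact inv A
  holo' := hol
  bdd_at_cusps' hc := by
    rw [Subgroup.IsArithmetic.isCusp_iff_isCusp_SL2Z] at hc
    rw [OnePoint.isBoundedAt_iff_forall_SL2Z hc]
    intro γ _
    rw [inv γ]
    exact bdd

@[simp]
lemma coe_mkLevelOne (k : ℤ) (F : ℍ → ℂ) (hol : MDiff F) (inv : ∀ γ : SL(2, ℤ), F ∣[k] γ = F)
    (bdd : IsBoundedAtImInfty F) : ⇑(mkLevelOne k F hol inv bdd) = F := rfl

lemma levelOne_slash_eq {k : ℤ} (f : ModularForm 𝒮ℒ k) (γ : SL(2, ℤ)) :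
    (f : ℍ → ℂ) ∣[k] γ = f :=
  SlashInvariantFormClass.slash_action_eq f _ ⟨γ, rfl⟩

lemma levelOne_isBoundedAtImInfty {k : ℤ} (f : ModularForm 𝒮ℒ k) :
    IsBoundedAtImInfty (f : ℍ → ℂ) := by
  have := ModularFormClass.bdd_at_infty_slash f (1 : SL(2, ℤ))
  simpa using this

/-- The Serre derivative of a level-one modular form is bounded at `i∞`. -/
lemma isBoundedAtImInfty_serreDerivative {k : ℤ} (f : ModularForm 𝒮ℒ k) :
    IsBoundedAtImInfty (serreDerivative (k : ℂ) (f : ℍ → ℂ)) := by
  have h1 : IsBoundedAtImInfty (D (f : ℍ → ℂ)) :=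
    (isZeroAtImInfty_normalizedDeriv f.holo' (levelOne_isBoundedAtImInfty f)).isBoundedAtImInfty
  have h2 : IsBoundedAtImInfty (fun z ↦ (k : ℂ) * 12⁻¹ * E2 z * f z) := by
    have h3 : IsBoundedAtImInfty (fun z ↦ E2 z * f z) :=
      isBoundedAtImInfty_E2.mul (levelOne_isBoundedAtImInfty f)
    have h4 := h3.const_mul_left ((k : ℂ) * 12⁻¹)
    refine h4.congr_left ?_ |>.trans (Asymptotics.isBigO_refl _ _) 
    intro z
    simp [mul_assoc]
  rw [serreDerivative_eq]
  exact h1.sub h2

/-- The Serre derivative of a level-one modular form, as a modular form of weight `k + 2`. -/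
def serreDerivativeForm {k : ℤ} (f : ModularForm 𝒮ℒ k) : ModularForm 𝒮ℒ (k + 2) :=
  mkLevelOne (k + 2) (serreDerivative (k : ℂ) (f : ℍ → ℂ))
    (serreDerivative_mdifferentiable _ f.holo')
    (fun γ ↦ serreDerivative_slash_invariant f.holo' (levelOne_slash_eq f γ))
    (isBoundedAtImInfty_serreDerivative f)

@[simp]
lemma serreDerivativeForm_apply {k : ℤ} (f : ModularForm 𝒮ℒ k) (z : ℍ) :
    serreDerivativeForm f z = D (f : ℍ → ℂ) z - (k : ℂ) * 12⁻¹ * E2 z * f z := rfl

/-- A periodic holomorphic function bounded at `i∞` tends to the value of its cusp function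
at `0`. -/
lemma tendsto_atImInfty_cuspFunction {f : ℍ → ℂ} {h : ℝ} (hh : 0 < h)
    (hfper : Function.Periodic (f ∘ ofComplex) h) (hfhol : MDiff f)
    (hfbdd : IsBoundedAtImInfty f) :
    Tendsto f atImInfty (𝓝 (cuspFunction h f 0)) := by
  have han := analyticAt_cuspFunction_zero hh hfper hfhol hfbdd
  have : (cuspFunction h f ∘ fun τ : ℍ ↦ Function.Periodic.qParam h τ : ℍ → ℂ) = f := by
    funext τ
    simpa using eq_cuspFunction τ hh.ne' hfper
  simpa [this] using han.continuousAt.tendsto.comp (qParam_tendsto_atImInfty hh)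

/-- A level-one modular form tends to its zeroth `q`-expansion coefficient at `i∞`. -/
lemma levelOne_tendsto_atImInfty {k : ℤ} (f : ModularForm 𝒮ℒ k) :
    Tendsto (f : ℍ → ℂ) atImInfty (𝓝 ((qExpansion 1 f).coeff 0)) := by
  have hper := SlashInvariantFormClass.periodic_comp_ofComplex f one_mem_strictPeriods_SL
  have h1 := tendsto_atImInfty_cuspFunction one_pos hper f.holo' (levelOne_isBoundedAtImInfty f)
  have han := analyticAt_cuspFunction_zero one_pos hper f.holo' (levelOne_isBoundedAtImInfty f)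
  rwa [qExpansion_coeff_zero one_pos han hper, ← cuspFunction_apply_zero one_pos han hper]

lemma tendsto_E₄ : Tendsto (E₄ : ℍ → ℂ) atImInfty (𝓝 1) := by
  simpa [E_qExpansion_coeff_zero (by norm_num : 3 ≤ 4) ⟨2, rfl⟩] using levelOne_tendsto_atImInfty E₄

lemma tendsto_E₆ : Tendsto (E₆ : ℍ → ℂ) atImInfty (𝓝 1) := by
  simpa [E_qExpansion_coeff_zero (by norm_num : 3 ≤ 6) ⟨3, rfl⟩] using levelOne_tendsto_atImInfty E₆

lemma E2_periodic : Function.Periodic (E2 ∘ ofComplex) 1 := by
  intro w
  simp only [Function.comp_apply]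
  by_cases hw : 0 < w.im
  · have hw' : 0 < (w + 1).im := by simpa using hw
    rw [ofComplex_apply_of_im_pos hw, ofComplex_apply_of_im_pos hw']
    have h1 := (hasSum_qExpansion_E2 (z := ⟨w + 1, hw'⟩)).tsum_eq
    have h2 := (hasSum_qExpansion_E2 (z := ⟨w, hw⟩)).tsum_eq
    rw [← h1, ← h2]
    congr 1
    funext m
    congr 2
    rw [mul_add, Complex.exp_add]
    simp
  · have hw' : ¬ 0 < (w + 1).im := by simpa using hw
    rw [ofComplex_apply_of_im_nonpos (not_lt.mp hw), ofComplex_apply_of_im_nonpos (not_lt.mp hw')]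

lemma tendsto_E2 : Tendsto E2 atImInfty (𝓝 1) := by
  have h1 := tendsto_atImInfty_cuspFunction one_pos E2_periodic E2_mdifferentiable
    isBoundedAtImInfty_E2
  have han := analyticAt_cuspFunction_zero one_pos E2_periodic E2_mdifferentiable
    isBoundedAtImInfty_E2
  have hps := hasFPowerSeriesOnBall_cuspFunction (f := E2)
    (c := fun m : ℕ ↦ (if m = 0 then 1 else -24 * ArithmeticFunction.sigma 1 m : ℂ)) one_pos han
    (fun τ ↦ by
      simpa only [Function.Periodic.qParam, Complex.ofReal_one, div_one] using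
        hasSum_qExpansion_E2 (z := τ))
  have h0 := hps.coeff_zero 1
  simp [FormalMultilinearSeries.ofScalars] at h0
  rwa [← h0] at h1

lemma tendsto_serreDerivativeForm {k : ℤ} (f : ModularForm 𝒮ℒ k) {a : ℂ}
    (hf : Tendsto (f : ℍ → ℂ) atImInfty (𝓝 a)) :
    Tendsto (serreDerivativeForm f : ℍ → ℂ) atImInfty (𝓝 (-((k : ℂ) * 12⁻¹ * a))) := by
  have h1 : Tendsto (D (f : ℍ → ℂ)) atImInfty (𝓝 0) :=
    isZeroAtImInfty_normalizedDeriv f.holo' (levelOne_isBoundedAtImInfty f)
  have h2 : Tendsto (fun z ↦ (k : ℂ) * 12⁻¹ * E2 z * f z) atImInfty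
      (𝓝 ((k : ℂ) * 12⁻¹ * 1 * a)) :=
    (tendsto_E2.const_mul _).mul hf
  have h3 := h1.sub h2
  simp only [mul_one, zero_sub] at h3
  exact h3

/-- If two level-one forms of the same weight are proportional and we know their limits
at `i∞`, we can read off the constant. -/
lemma eq_smul_of_rank_one {k : ℤ} (hrank : Module.rank ℂ (ModularForm 𝒮ℒ k) = 1)
    (g f : ModularForm 𝒮ℒ k) {a b : ℂ} (hb : b ≠ 0)
    (hg : Tendsto (g : ℍ → ℂ) atImInfty (𝓝 a)) (hf : Tendsto (f : ℍ → ℂ) atImInfty (𝓝 b)) :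
    ∀ z, g z = a / b * f z := by
  have hf0 : f ≠ 0 := by
    rintro rfl
    have : Tendsto (fun _ : ℍ ↦ (0 : ℂ)) atImInfty (𝓝 b) := hf
    exact hb (tendsto_nhds_unique this tendsto_const_nhds)
  obtain ⟨c, hc⟩ := (finrank_eq_one_iff_of_nonzero' f hf0).mp
    (Module.rank_eq_one_iff_finrank_eq_one.mp hrank) g
  have hcz : ∀ z, g z = c * f z := fun z ↦ by rw [← hc]; rfl
  have hlim : Tendsto (g : ℍ → ℂ) atImInfty (𝓝 (c * b)) := by
    have := hf.const_mul c
    refine this.congr fun z ↦ (hcz z).symm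
  have hab : a = c * b := tendsto_nhds_unique hg hlim
  intro z
  rw [hcz z, hab]
  field_simp

lemma levelOne_weight_eight_rank_one : Module.rank ℂ (ModularForm 𝒮ℒ 8) = 1 := by
  have := dimension_level_one 8 ⟨4, rfl⟩
  simpa [Nat.ModEq] using this

/-- Ramanujan's identity for `E₄`: `D E₄ = (E₂ E₄ - E₆) / 3`. -/
theorem ramanujan_E₄ (z : ℍ) : D (E₄ : ℍ → ℂ) z = 3⁻¹ * (E2 z * E₄ z - E₆ z) := by
  have h := eq_smul_of_rank_one levelOne_weight_six_rank_one
    (mcast (by norm_num) (serreDerivativeForm E₄)) E₆ one_ne_zero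
    (by simpa using tendsto_serreDerivativeForm E₄ tendsto_E₄) tendsto_E₆ z
  simp only [coe_mcast, serreDerivativeForm_apply] at h
  push_cast at h
  linear_combination h

/-- Ramanujan's identity for `E₆`: `D E₆ = (E₂ E₆ - E₄²) / 2`. -/
theorem ramanujan_E₆ (z : ℍ) : D (E₆ : ℍ → ℂ) z = 2⁻¹ * (E2 z * E₆ z - E₄ z ^ 2) := by
  have hE4sq : Tendsto ((E₄.mul E₄ : ModularForm 𝒮ℒ (4 + 4)) : ℍ → ℂ) atImInfty (𝓝 (1 * 1)) :=
    tendsto_E₄.mul tendsto_E₄
  have h := eq_smul_of_rank_one levelOne_weight_eight_rank_one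
    (mcast (by norm_num) (serreDerivativeForm E₆)) (mcast (by norm_num) (E₄.mul E₄))
    (b := 1) one_ne_zero
    (by simpa using tendsto_serreDerivativeForm E₆ tendsto_E₆) (by simpa using hE4sq) z
  simp only [coe_mcast, serreDerivativeForm_apply, ModularForm.coe_mul, Pi.mul_apply] at h
  push_cast at h
  linear_combination h

/-- Ramanujan's identity for `Δ`: `D Δ = E₂ Δ`. -/
theorem ramanujan_discriminant (z : ℍ) :
    D ModularForm.discriminant z = E2 z * ModularForm.discriminant z := by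
  have hη : DifferentiableAt ℂ ModularForm.eta (z : ℂ) :=
    ModularForm.differentiableAt_eta_of_mem_upperHalfPlaneSet z.2
  have hη0 : ModularForm.eta (z : ℂ) ≠ 0 := by
    have := ModularForm.discriminant_ne_zero z
    intro h
    exact this (by simp [ModularForm.discriminant, h])
  have hlog := ModularForm.logDeriv_eta_eq_E2 z
  rw [logDeriv_apply, div_eq_iff hη0] at hlog
  have hev : (ModularForm.discriminant ∘ ofComplex) =ᶠ[𝓝 (z : ℂ)]
      fun w ↦ ModularForm.eta w ^ 24 := by
    filter_upwards [isOpen_upperHalfPlaneSet.mem_nhds z.im_pos] with w hw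
    simp [ModularForm.discriminant, ofComplex_apply_of_im_pos hw]
  have hd : HasDerivAt (fun w ↦ ModularForm.eta w ^ 24)
      (24 * ModularForm.eta (z : ℂ) ^ 23 * deriv ModularForm.eta (z : ℂ)) (z : ℂ) := by
    have := hη.hasDerivAt.fun_pow 24
    simpa using this
  have hderiv := (hd.congr_of_eventuallyEq hev).deriv
  simp only [normalizedDerivOfComplex, hderiv, hlog, ModularForm.discriminant]
  have hpi : (2 * (Real.pi : ℂ) * Complex.I) ≠ 0 := by
    simp [Real.pi_ne_zero]
  field_simp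
  ring

local notation "Δ" => ModularForm.discriminant

lemma mdiff_discriminant : MDiff (Δ : ℍ → ℂ) := CuspForm.discriminant.holo'

lemma mdiff_E₄ : MDiff (E₄ : ℍ → ℂ) := ModularFormClass.holo E₄

lemma mdiff_E₆ : MDiff (E₆ : ℍ → ℂ) := ModularFormClass.holo E₆

lemma E₄_cube_sub_E₆_sq (z : ℍ) : E₄ z ^ 3 - E₆ z ^ 2 = 1728 * Δ z := by
  rw [discriminant_eq_E₄_cube_sub_E₆_sq z]; ring

lemma E₆_ne_zero_of_E₄_eq_zero {z : ℍ} (h : E₄ z = 0) : E₆ z ≠ 0 := by
  intro h6
  have := E₄_cube_sub_E₆_sq z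
  rw [h, h6] at this
  have hΔ := discriminant_ne_zero z
  apply hΔ
  have : (1728 : ℂ) * Δ z = 0 := by rw [← this]; ring
  simpa using this

lemma E₄_ne_zero_of_E₆_eq_zero {z : ℍ} (h : E₆ z = 0) : E₄ z ≠ 0 := by
  intro h4
  exact E₆_ne_zero_of_E₄_eq_zero h4 h

/-- Zeros of `E₄` are simple. -/
theorem D_E₄_ne_zero {z : ℍ} (h : E₄ z = 0) : D (E₄ : ℍ → ℂ) z ≠ 0 := by
  rw [ramanujan_E₄, h]
  have := E₆_ne_zero_of_E₄_eq_zero h
  simpa using this

/-- Zeros of `E₆` are simple. -/
theorem D_E₆_ne_zero {z : ℍ} (h : E₆ z = 0) : D (E₆ : ℍ → ℂ) z ≠ 0 := by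
  rw [ramanujan_E₆, h]
  have := E₄_ne_zero_of_E₆_eq_zero h
  simpa using this

/-- The numerator `E₄(z)³ Δ(z₀) − E₄(z₀)³ Δ(z)` of `j(z) − j(z₀)`, a level one form of
weight 12 in `z`. -/
def jDiff (z₀ : ℍ) : ℍ → ℂ := fun z ↦ E₄ z ^ 3 * Δ z₀ - E₄ z₀ ^ 3 * Δ z

lemma jDiff_self (z₀ : ℍ) : jDiff z₀ z₀ = 0 := by simp [jDiff]

lemma jDiff_eq (z₀ : ℍ) :
    jDiff z₀ = (Δ z₀) • ((E₄ : ℍ → ℂ) ^ 3) - (E₄ z₀ ^ 3) • (Δ : ℍ → ℂ) := by
  funext z
  simp [jDiff, mul_comm]

lemma mdiff_jDiff (z₀ : ℍ) : MDiff (jDiff z₀) := by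
  rw [jDiff_eq]
  exact ((mdiff_E₄.pow 3).const_smul _).sub (mdiff_discriminant.const_smul _)

theorem D_jDiff (z₀ z : ℍ) :
    D (jDiff z₀) z = E2 z * jDiff z₀ z - E₄ z ^ 2 * E₆ z * Δ z₀ := by
  have h1 : MDiff ((E₄ : ℍ → ℂ) ^ 3) := mdiff_E₄.pow 3
  rw [jDiff_eq, normalizedDerivOfComplex_sub _ _ (h1.const_smul _)
    (mdiff_discriminant.const_smul _), normalizedDerivOfComplex_smul _ _ h1,
    normalizedDerivOfComplex_smul _ _ mdiff_discriminant,
    normalizedDerivOfComplex_pow _ _ mdiff_E₄]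
  simp only [Pi.sub_apply, Pi.smul_apply, Pi.mul_apply, Pi.pow_apply, smul_eq_mul,
    ramanujan_E₄, ramanujan_discriminant, Nat.cast_ofNat, Pi.ofNat_apply]
  ring

/-- Zeros of `jDiff z₀` at points where `E₄ E₆ ≠ 0` are simple. -/
theorem D_jDiff_ne_zero {z₀ z : ℍ} (h : jDiff z₀ z = 0) (h4 : E₄ z ≠ 0) (h6 : E₆ z ≠ 0) :
    D (jDiff z₀) z ≠ 0 := by
  rw [D_jDiff, h, mul_zero, zero_sub, neg_ne_zero]
  exact _root_.mul_ne_zero (_root_.mul_ne_zero (pow_ne_zero _ h4) h6) (discriminant_ne_zero z₀)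

/-- The `j`-invariant `E₄³ / Δ` (normalised so that `j = 1/q + ...`). -/
def jFun (z : ℍ) : ℂ := E₄ z ^ 3 / Δ z

lemma jFun_eq_iff (z z' : ℍ) : jFun z = jFun z' ↔ jDiff z' z = 0 := by
  rw [jFun, jFun, div_eq_div_iff (discriminant_ne_zero z) (discriminant_ne_zero z'), jDiff,
    sub_eq_zero]

lemma jFun_eq_zero_iff (z : ℍ) : jFun z = 0 ↔ E₄ z = 0 := by
  simp [jFun, discriminant_ne_zero z]

lemma jFun_eq_1728_iff (z : ℍ) : jFun z = 1728 ↔ E₆ z = 0 := by
  rw [jFun, div_eq_iff (discriminant_ne_zero z)]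
  have := E₄_cube_sub_E₆_sq z
  constructor
  · intro h
    have : E₆ z ^ 2 = 0 := by linear_combination h - this
    simpa using this
  · intro h
    rw [h] at this
    linear_combination this

lemma mdiff_jFun : MDiff jFun :=
  (mdiff_E₄.pow 3).div mdiff_discriminant discriminant_ne_zero

theorem D_jFun (z : ℍ) : D jFun z = - (E₄ z ^ 2 * E₆ z / Δ z) := by
  -- `jFun * Δ = E₄ ^ 3`
  have hmul : jFun * (Δ : ℍ → ℂ) = (E₄ : ℍ → ℂ) ^ 3 := by
    funext w
    simp [jFun, div_mul_cancel₀ _ (discriminant_ne_zero w)]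
  have h := congrFun (congrArg D hmul) z
  rw [normalizedDerivOfComplex_mul _ _ mdiff_jFun mdiff_discriminant,
    normalizedDerivOfComplex_pow _ _ mdiff_E₄] at h
  simp only [Pi.add_apply, Pi.mul_apply, Pi.pow_apply, ramanujan_E₄, ramanujan_discriminant,
    Nat.cast_ofNat, Pi.ofNat_apply] at h
  have hΔ := discriminant_ne_zero z
  have hj : jFun z = E₄ z ^ 3 / Δ z := rfl
  rw [hj] at h
  field_simp at h ⊢
  linear_combination h

theorem D_jFun_ne_zero {z : ℍ} (h4 : E₄ z ≠ 0) (h6 : E₆ z ≠ 0) : D jFun z ≠ 0 := by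
  rw [D_jFun, neg_ne_zero]
  exact div_ne_zero (_root_.mul_ne_zero (pow_ne_zero _ h4) h6) (discriminant_ne_zero z)

end Fermat.Agent.S20.L1

end
end
-- ===== PACK-END S20/L1/Ramanujan.lean

-- ===== PACK-BEGIN S24/Inf/Twist.lean
section



/-!
# S24 / MOD-INF — formal operations on Laurent series

* `infTwist u` : the ring endomorphism `∑ aₙ zⁿ ↦ ∑ aₙ uⁿ zⁿ` of `LaurentSeries R` (`u` a unit);
* order / leading coefficient of `infTwist u φ` and of `ModularCurve.qExpand R e φ`.
-/

set_option autoImplicit false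

noncomputable section

open HahnSeries ModularCurve

namespace Fermat.Agent.S24

section General

variable {R : Type*} [CommRing R]

/-- A Hahn series over `ℤ` whose coefficients below `n` vanish and whose `n`-th coefficient is
nonzero has order `n`. -/
theorem inf_order_eq_of_coeff {x : LaurentSeries R} {n : ℤ} (hn : x.coeff n ≠ 0)
    (hlt : ∀ m < n, x.coeff m = 0) : x.order = n := by
  apply le_antisymm (order_le_of_coeff_ne_zero hn)
  by_contra h
  rw [not_le] at h
  have hx : x ≠ 0 := ne_zero_of_coeff_ne_zero hn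
  exact (coeff_order_eq_zero.not.mpr hx) (hlt _ h)

theorem inf_leadingCoeff_eq_of_coeff {x : LaurentSeries R} {n : ℤ} (hn : x.coeff n ≠ 0)
    (hlt : ∀ m < n, x.coeff m = 0) : x.leadingCoeff = x.coeff n := by
  rw [leadingCoeff_eq, inf_order_eq_of_coeff hn hlt]

/-- The underlying function of the twist. -/
def infTwistFun (u : Rˣ) (x : LaurentSeries R) : LaurentSeries R where
  coeff n := x.coeff n * ((u ^ n : Rˣ) : R)
  isPWO_support' := x.isPWO_support.mono (fun n hn => by
    simp only [Function.mem_support, ne_eq] at hn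
    rw [mem_support]
    intro h
    exact hn (by rw [h, zero_mul]))

@[simp]
theorem infTwistFun_coeff (u : Rˣ) (x : LaurentSeries R) (n : ℤ) :
    (infTwistFun u x).coeff n = x.coeff n * ((u ^ n : Rˣ) : R) := rfl

theorem infTwistFun_support (u : Rˣ) (x : LaurentSeries R) :
    (infTwistFun u x).support = x.support := by
  ext n
  simp only [mem_support, infTwistFun_coeff, ne_eq]
  constructor
  · intro h h0
    exact h (by rw [h0, zero_mul])
  · intro h h0
    exact h ((Units.mul_left_eq_zero _).mp h0)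

/-- The twist `∑ aₙ zⁿ ↦ ∑ aₙ uⁿ zⁿ` as a ring homomorphism. -/
def infTwist (u : Rˣ) : LaurentSeries R →+* LaurentSeries R where
  toFun := infTwistFun u
  map_zero' := by
    ext n
    simp
  map_one' := by
    ext n
    simp only [infTwistFun_coeff, coeff_one]
    split_ifs with h
    · subst h
      simp
    · simp
  map_add' x y := by
    ext n
    simp [add_mul]
  map_mul' x y := by
    ext n
    simp only [infTwistFun_coeff, coeff_mul]
    rw [Finset.sum_mul]
    refine Finset.sum_congr ?_ ?_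
    · ext ij
      simp only [Finset.mem_antidiagonal, infTwistFun_support]
    · intro ij hij
      have h : ij.1 + ij.2 = n := (Finset.mem_antidiagonal.mp hij).2.2
      rw [← h, zpow_add, Units.val_mul]
      ring

@[simp]
theorem infTwist_coeff (u : Rˣ) (x : LaurentSeries R) (n : ℤ) :
    (infTwist u x).coeff n = x.coeff n * ((u ^ n : Rˣ) : R) := rfl

theorem infTwist_support (u : Rˣ) (x : LaurentSeries R) :
    (infTwist u x).support = x.support := infTwistFun_support u x

theorem infTwist_eq_zero_iff (u : Rˣ) (x : LaurentSeries R) : infTwist u x = 0 ↔ x = 0 := by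
  rw [← support_eq_empty_iff, infTwist_support, support_eq_empty_iff]

theorem infTwist_injective (u : Rˣ) : Function.Injective (infTwist (R := R) u) :=
  (injective_iff_map_eq_zero _).mpr fun x hx => (infTwist_eq_zero_iff u x).mp hx

@[simp]
theorem infTwist_one (x : LaurentSeries R) : infTwist (1 : Rˣ) x = x := by
  ext n
  simp

theorem infTwist_mul (u v : Rˣ) (x : LaurentSeries R) :
    infTwist (u * v) x = infTwist u (infTwist v x) := by
  ext n
  simp only [infTwist_coeff, mul_zpow, Units.val_mul]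
  ring

@[simp]
theorem infTwist_single (u : Rˣ) (k : ℤ) (r : R) :
    infTwist u (single k r) = single k (r * ((u ^ k : Rˣ) : R)) := by
  ext n
  rcases eq_or_ne n k with rfl | hn
  · simp
  · simp [coeff_single_of_ne hn]

@[simp]
theorem infTwist_C (u : Rˣ) (r : R) : infTwist u (HahnSeries.C r) = HahnSeries.C r := by
  rw [C_apply, infTwist_single]
  simp

theorem infTwist_order (u : Rˣ) (x : LaurentSeries R) : (infTwist u x).order = x.order := by
  rcases eq_or_ne x 0 with rfl | hx
  · simp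
  · refine inf_order_eq_of_coeff ?_ ?_
    · rw [infTwist_coeff]
      intro h
      exact (coeff_order_eq_zero.not.mpr hx) ((Units.mul_left_eq_zero _).mp h)
    · intro m hm
      rw [infTwist_coeff, coeff_eq_zero_of_lt_order hm, zero_mul]

theorem infTwist_leadingCoeff (u : Rˣ) (x : LaurentSeries R) :
    (infTwist u x).leadingCoeff = x.leadingCoeff * ((u ^ x.order : Rˣ) : R) := by
  rw [leadingCoeff_eq, leadingCoeff_eq, infTwist_order, infTwist_coeff]

end General

section QExpand

variable {R : Type*} [CommRing R] (e : ℕ) [NeZero e]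

theorem inf_qExpand_eq_zero_iff (x : LaurentSeries R) : qExpand R e x = 0 ↔ x = 0 :=
  ⟨fun h => qExpand_injective e (by rw [h, _root_.map_zero]), fun h => by rw [h, _root_.map_zero]⟩

theorem inf_qExpand_order (x : LaurentSeries R) :
    (qExpand R e x).order = (e : ℤ) * x.order := by
  rcases eq_or_ne x 0 with rfl | hx
  · simp
  · have he : (0 : ℤ) < e := by exact_mod_cast Nat.pos_of_ne_zero (NeZero.ne e)
    refine inf_order_eq_of_coeff ?_ ?_
    · rw [qExpand_coeff_mul]
      exact coeff_order_eq_zero.not.mpr hx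
    · intro m hm
      by_cases hdvd : (e : ℤ) ∣ m
      · obtain ⟨k, rfl⟩ := hdvd
        rw [qExpand_coeff_mul]
        exact coeff_eq_zero_of_lt_order (lt_of_mul_lt_mul_left hm he.le)
      · exact qExpand_coeff_of_not_dvd e x hdvd

theorem inf_qExpand_leadingCoeff (x : LaurentSeries R) :
    (qExpand R e x).leadingCoeff = x.leadingCoeff := by
  rw [leadingCoeff_eq, leadingCoeff_eq, inf_qExpand_order, qExpand_coeff_mul]

end QExpand

section CoeffMap

variable {R S : Type*} [CommRing R] [CommRing S]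

theorem inf_coeffMap_injective {f : R →+* S} (hf : Function.Injective f) :
    Function.Injective (coeffMap f) := by
  intro x y h
  ext n
  apply hf
  have := congrArg (fun z => z.coeff n) h
  simpa using this

theorem inf_coeffMap_order {f : R →+* S} (hf : Function.Injective f) (x : LaurentSeries R) :
    (coeffMap f x).order = x.order := by
  rcases eq_or_ne x 0 with rfl | hx
  · simp
  · refine inf_order_eq_of_coeff ?_ ?_
    · rw [coeffMap_coeff]
      intro h
      exact (coeff_order_eq_zero.not.mpr hx) (hf (by rw [h, _root_.map_zero]))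
    · intro m hm
      rw [coeffMap_coeff, coeff_eq_zero_of_lt_order hm, _root_.map_zero]

theorem inf_coeffMap_leadingCoeff {f : R →+* S} (hf : Function.Injective f)
    (x : LaurentSeries R) : (coeffMap f x).leadingCoeff = f x.leadingCoeff := by
  rw [leadingCoeff_eq, leadingCoeff_eq, inf_coeffMap_order hf, coeffMap_coeff]

end CoeffMap

end Fermat.Agent.S24

end
end
-- ===== PACK-END S24/Inf/Twist.lean

-- ===== PACK-BEGIN S24/H84/Kaehler.lean
section


/-!
# Kähler differentials of a function field in one variable (helper84, S24 piece KD1)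

`K` a field of characteristic zero, `F/K` a field extension, `x : F` with `F` algebraic over
`K(x)`.  Then `Ω[F⁄K]` is spanned by `D x`.
-/

set_option autoImplicit false

open KaehlerDifferential Polynomial IntermediateField TensorProduct

namespace Fermat.Agent.S24.H84

section Kaehler

variable {K F : Type*} [Field K] [Field F] [Algebra K F]

/-- `D e ∈ span {D x}` for `e ∈ K⟮x⟯`. -/
theorem D_mem_span_of_mem_adjoin_simple (x : F) {e : F} (he : e ∈ K⟮x⟯) :
    D K F e ∈ Submodule.span F {D K F x} := by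
  obtain ⟨r, s, rfl⟩ := (IntermediateField.mem_adjoin_simple_iff K e).1 he
  rw [Derivation.leibniz_div, Derivation.map_aeval, Derivation.map_aeval]
  refine Submodule.smul_mem _ _ (Submodule.sub_mem _ ?_ ?_) <;>
  exact Submodule.smul_mem _ _ (Submodule.smul_mem _ _ (Submodule.mem_span_singleton_self _))

theorem map_mem_span_D (x : F) (y : Ω[K⟮x⟯⁄K]) :
    KaehlerDifferential.map K K K⟮x⟯ F y ∈ Submodule.span F {D K F x} := by
  have hy : y ∈ Submodule.span K⟮x⟯ (Set.range (D K K⟮x⟯)) := by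
    rw [span_range_derivation]; trivial
  induction hy using Submodule.span_induction with
  | mem z hz =>
    obtain ⟨e, rfl⟩ := hz
    rw [map_D]
    exact D_mem_span_of_mem_adjoin_simple x e.2
  | zero => simp
  | add u v _ _ hu hv => rw [_root_.map_add]; exact Submodule.add_mem _ hu hv
  | smul c u _ hu =>
    rw [_root_.map_smul, ← algebraMap_smul F c]
    exact Submodule.smul_mem _ _ hu

theorem mapBaseChange_mem_span_D (x : F) (t : F ⊗[K⟮x⟯] Ω[K⟮x⟯⁄K]) :
    KaehlerDifferential.mapBaseChange K K⟮x⟯ F t ∈ Submodule.span F {D K F x} := by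
  induction t using TensorProduct.induction_on with
  | zero => simp
  | tmul b y =>
    rw [mapBaseChange_tmul]
    exact Submodule.smul_mem _ _ (map_mem_span_D x y)
  | add a b ha hb => rw [_root_.map_add]; exact Submodule.add_mem _ ha hb

/-- If `F` is algebraic over `K⟮x⟯` (characteristic zero), then `D x` spans `Ω[F⁄K]`. -/
theorem span_D_eq_top [CharZero K] (x : F) [Algebra.IsAlgebraic K⟮x⟯ F] :
    Submodule.span F {D K F x} = ⊤ := by
  have : CharZero K⟮x⟯ := charZero_of_injective_algebraMap (algebraMap K K⟮x⟯).injective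
  have : Algebra.IsSeparable K⟮x⟯ F := Algebra.IsAlgebraic.isSeparable_of_perfectField
  have : Algebra.FormallyUnramified K⟮x⟯ F := Algebra.FormallyUnramified.of_isSeparable _ _
  have : Subsingleton Ω[F⁄K⟮x⟯] := Algebra.FormallyUnramified.subsingleton_kaehlerDifferential
  rw [eq_top_iff]
  intro ω _
  have hex := KaehlerDifferential.exact_mapBaseChange_map K K⟮x⟯ F
  have h0 : KaehlerDifferential.map K K⟮x⟯ F F ω = 0 := Subsingleton.elim _ _
  obtain ⟨t, rfl⟩ := (hex ω).1 h0
  exact mapBaseChange_mem_span_D x t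

end Kaehler

end Fermat.Agent.S24.H84

end
-- ===== PACK-END S24/H84/Kaehler.lean

-- ===== PACK-BEGIN S24/H117/OrbitCount.lean
section


/-!
# S24 / H117 — an abstract orbit-counting squeeze

Let `perm` be a permutation of a finite set `X`, `φ : X → β` a `perm`-invariant map and
`e : β → ℕ` such that `e (φ x)` divides every period of `x`.  If `#X ≤ ∑_{v ∈ range φ} e v`, then
`φ` induces a bijection between the cycles of `perm` and `range φ`, and the cycle through `x`
has exactly `e (φ x)` elements.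
-/

set_option autoImplicit false

noncomputable section

open MulAction

namespace Fermat.Agent.S24.H117

variable {X β : Type*}

theorem map_eq_of_mem_orbit_zpowers (perm : Equiv.Perm X) (φ : X → β)
    (hperm : ∀ x, φ (perm x) = φ x) {x y : X}
    (h : y ∈ orbit (Subgroup.zpowers perm) x) : φ y = φ x := by
  obtain ⟨⟨g, hg⟩, rfl⟩ := h
  obtain ⟨k, rfl⟩ := Subgroup.mem_zpowers_iff.mp hg
  show φ ((perm ^ k) x) = φ x
  have hinv : ∀ z, φ (perm⁻¹ z) = φ z := fun z => by
    have := hperm (perm⁻¹ z)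
    simpa using this.symm
  induction k using Int.induction_on generalizing x with
  | zero => simp
  | succ n ih =>
    rw [zpow_add_one, Equiv.Perm.mul_apply, ih (x := perm x), hperm]
    exact Subgroup.zpow_mem _ (Subgroup.mem_zpowers perm) _
  | pred n ih =>
    rw [zpow_sub_one, Equiv.Perm.mul_apply, ih (x := perm⁻¹ x), hinv]
    exact Subgroup.zpow_mem _ (Subgroup.mem_zpowers perm) _

theorem orbit_count_squeeze [Fintype X] [DecidableEq β] (perm : Equiv.Perm X) (φ : X → β)
    (e : β → ℕ)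
    (hperm : ∀ x, φ (perm x) = φ x)
    (hdiv : ∀ x (i : ℕ), (perm ^ i) x = x → e (φ x) ∣ i)
    (hsum : Fintype.card X ≤ ∑ v ∈ Finset.univ.image φ, e v) :
    Nat.card (orbitRel.Quotient (Subgroup.zpowers perm) X) = (Finset.univ.image φ).card ∧
      (∀ x, Nat.card (orbit (Subgroup.zpowers perm) x) = e (φ x)) ∧
      (∑ v ∈ Finset.univ.image φ, e v = Fintype.card X) := by
  classical
  -- orbit sizes
  have hper : ∀ x, e (φ x) ≤ Fintype.card (orbit (Subgroup.zpowers perm) x) := by
    intro x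
    have h1 : Function.minimalPeriod (perm • ·) x
        = Fintype.card (orbit (Subgroup.zpowers perm) x) := minimalPeriod_eq_card perm x
    have h2 : (perm ^ Function.minimalPeriod (perm • ·) x) x = x := by
      have := Function.iterate_minimalPeriod (f := (perm • ·)) (x := x)
      rw [smul_iterate] at this
      exact this
    have h3 := hdiv x _ h2
    rw [h1] at h3
    have : Nonempty (orbit (Subgroup.zpowers perm) x) := (nonempty_orbit x).to_subtype
    exact Nat.le_of_dvd Fintype.card_pos h3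
  -- the orbit is inside the fibre
  have hsub : ∀ x, (Finset.univ.filter (fun y : X => y ∈ orbit (Subgroup.zpowers perm) x))
      ⊆ Finset.univ.filter (fun y : X => φ y = φ x) := by
    intro x y hy
    simp only [Finset.mem_filter, Finset.mem_univ, true_and] at hy ⊢
    exact map_eq_of_mem_orbit_zpowers perm φ hperm hy
  have hcardO : ∀ x, (Finset.univ.filter (fun y : X => y ∈ orbit (Subgroup.zpowers perm) x)).card
      = Fintype.card (orbit (Subgroup.zpowers perm) x) := by
    intro x
    rw [Fintype.card_subtype]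
  have hle : ∀ v ∈ Finset.univ.image φ, e v ≤ (Finset.univ.filter (fun y : X => φ y = v)).card := by
    intro v hv
    obtain ⟨x, -, rfl⟩ := Finset.mem_image.mp hv
    calc e (φ x) ≤ Fintype.card (orbit (Subgroup.zpowers perm) x) := hper x
      _ = _ := (hcardO x).symm
      _ ≤ _ := Finset.card_le_card (hsub x)
  have htot : Fintype.card X = ∑ v ∈ Finset.univ.image φ, (Finset.univ.filter (fun y : X => φ y = v)).card := by
    rw [← Finset.card_univ]
    exact Finset.card_eq_sum_card_fiberwise (fun x _ => Finset.mem_image_of_mem φ (Finset.mem_univ x))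
  have hsumeq : ∑ v ∈ Finset.univ.image φ, e v
      = ∑ v ∈ Finset.univ.image φ, (Finset.univ.filter (fun y : X => φ y = v)).card := by
    apply le_antisymm (Finset.sum_le_sum hle)
    rw [← htot]
    exact hsum
  have hfib : ∀ v ∈ Finset.univ.image φ, e v = (Finset.univ.filter (fun y : X => φ y = v)).card :=
    (Finset.sum_eq_sum_iff_of_le hle).mp hsumeq
  have hOeq : ∀ x, (Finset.univ.filter (fun y : X => y ∈ orbit (Subgroup.zpowers perm) x))
      = Finset.univ.filter (fun y : X => φ y = φ x) := by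
    intro x
    apply Finset.eq_of_subset_of_card_le (hsub x)
    rw [← hfib _ (Finset.mem_image_of_mem φ (Finset.mem_univ x)), hcardO]
    exact hper x
  refine ⟨?_, ?_, ?_⟩
  · -- bijection between orbits and the image
    let Φ : orbitRel.Quotient (Subgroup.zpowers perm) X → (Finset.univ.image φ : Finset β) :=
      fun ω => Quotient.liftOn' ω
        (fun x => (⟨φ x, Finset.mem_image_of_mem φ (Finset.mem_univ x)⟩ :
          (Finset.univ.image φ : Finset β)))
        (fun a b hab => Subtype.ext (map_eq_of_mem_orbit_zpowers perm φ hperm hab))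
    have hΦbij : Function.Bijective Φ := by
      constructor
      · intro ω₁ ω₂ h
        induction ω₁ using Quotient.inductionOn' with | _ x
        induction ω₂ using Quotient.inductionOn' with | _ y
        have hxy : φ x = φ y := congrArg Subtype.val h
        apply Quotient.sound'
        show x ∈ orbit (Subgroup.zpowers perm) y
        have : x ∈ Finset.univ.filter (fun z : X => φ z = φ y) := by simp [hxy]
        rw [← hOeq y] at this
        simpa using this
      · rintro ⟨v, hv⟩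
        obtain ⟨x, -, rfl⟩ := Finset.mem_image.mp hv
        exact ⟨Quotient.mk'' x, rfl⟩
    rw [Nat.card_congr (Equiv.ofBijective Φ hΦbij), Nat.card_eq_fintype_card, Fintype.card_coe]
  · intro x
    rw [Nat.card_eq_fintype_card, ← hcardO, hOeq, hfib _ (Finset.mem_image_of_mem φ (Finset.mem_univ x))]
  · rw [hsumeq, ← htot]

end Fermat.Agent.S24.H117

end
end
-- ===== PACK-END S24/H117/OrbitCount.lean

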