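import Mathlib
import Fermat.Prelude.Def_ModularCurve_PeriodHomPair
import Fermat.Prelude.Def_ModularCurve_X0ModL
import Mathlib.NumberTheory.ModularForms.LevelOne.GradedRing
import Fermat.Prelude.Def_AlgebraicCurve_DivisorClassGroup
import Fermat.Prelude.Def_ModularCurve_LaurentCoeff
import Fermat.Prelude.Def_ModularCurve_X0
import Mathlib.NumberTheory.ModularForms.LevelOne.DimensionFormula
import Mathlib.NumberTheory.ModularForms.EisensteinSeries.QExpansion
import Mathlib.Analysis.Complex.LocallyUniformLimit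
import Fermat.Prelude.Def_ModularCurve_ReductionModL
import Mathlib.NumberTheory.ModularForms.CongruenceSubgroups
import Mathlib.LinearAlgebra.Matrix.SpecialLinearGroup
import Mathlib.GroupTheory.GroupAction.Quotient
import Mathlib.Data.ZMod.Basic
import Fermat.Prelude.Def_ModularCurve_GenusNumerics
import Mathlib.Data.ZMod.QuotientGroup
import Mathlib.GroupTheory.GroupAction.FixedPoints
import Mathlib.Dynamics.PeriodicPts.Defs
import Mathlib.SetTheory.Cardinal.Finite
import Mathlib.Tactic.Ring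
import Mathlib.Data.Nat.Prime.Basic

-- ===== PACK-BEGIN S21/H81/InjCore.lean
section



/-!
# S21, piece C (core): a holomorphic function on `ℍ` whose real part is `Γ₀(N)`-invariant and
which has a limit at every cusp has vanishing derivative.
-/

set_option autoImplicit false

open UpperHalfPlane CongruenceSubgroup Filter Topology Complex
open scoped MatrixGroups Manifold

namespace Fermat.Agent.S21.H81

/-- `SL(2,ℤ)` acts holomorphically on `ℍ`. -/
theorem injCore_mdiff_smul (g : SL(2, ℤ)) : MDiff (fun τ : ℍ => g • τ) := by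
  have h : (0 : ℝ) < ((g : GL (Fin 2) ℝ).det : ℝ) := by simp
  exact mdifferentiable_smul h

theorem injCore_mdiff_of_differentiableAt {A : ℍ → ℂ}
    (hol : ∀ τ : ℍ, DifferentiableAt ℂ (A ∘ ofComplex) (τ : ℂ)) : MDiff A := by
  intro τ
  exact UpperHalfPlane.mdifferentiableAt_iff.mpr (hol τ)

/-- `T ^ N` conjugated by anything lies in `Γ₀(N)`. -/
theorem injCore_conj_T_pow_mem (N : ℕ) (δ : SL(2, ℤ)) :
    δ * ModularGroup.T ^ (N : ℤ) * δ⁻¹ ∈ Gamma0 N := by
  have h1 : ModularGroup.T ^ (N : ℤ) ∈ CongruenceSubgroup.Gamma N := by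
    rw [Gamma_mem, ModularGroup.coe_T_zpow]
    simp
  have h2 : δ * ModularGroup.T ^ (N : ℤ) * δ⁻¹ ∈ CongruenceSubgroup.Gamma N :=
    (Gamma_normal N).conj_mem _ h1 δ
  exact Gamma0_mem.mpr (Gamma_mem.mp h2).2.2.1

theorem injCore_tendsto_vadd (x : ℝ) :
    Tendsto (fun w : ℍ => x +ᵥ w) atImInfty atImInfty := by
  rw [atImInfty, tendsto_comap_iff]
  have : (UpperHalfPlane.im ∘ fun w : ℍ => x +ᵥ w) = UpperHalfPlane.im := by
    funext w; simp
  rw [this]
  exact tendsto_comap


section core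

variable {N : ℕ} {A : ℍ → ℂ}

theorem injCore_vadd_eq
    (hinv : ∀ γ ∈ Gamma0 N, ∃ c : ℂ, c.re = 0 ∧ ∀ z : ℍ, A (γ • z) - A z = c)
    (hcusp : ∀ δ : SL(2, ℤ), ∃ L : ℂ, Tendsto (fun w : ℍ => A (δ • w)) atImInfty (𝓝 L))
    (δ : SL(2, ℤ)) (w : ℍ) : A (δ • ((N : ℝ) +ᵥ w)) = A (δ • w) := by
  obtain ⟨c, -, hc⟩ := hinv _ (injCore_conj_T_pow_mem N δ)
  have key : ∀ w : ℍ, A (δ • ((N : ℝ) +ᵥ w)) - A (δ • w) = c := by
    intro w
    have h := hc (δ • w)
    have e : (δ * ModularGroup.T ^ (N : ℤ) * δ⁻¹) • (δ • w) = δ • ((N : ℝ) +ᵥ w) := by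
      rw [mul_smul, mul_smul, inv_smul_smul, modular_T_zpow_smul]
      simp
    rwa [e] at h
  obtain ⟨L, hL⟩ := hcusp δ
  have h1 : Tendsto (fun w : ℍ => A (δ • ((N : ℝ) +ᵥ w))) atImInfty (𝓝 L) :=
    hL.comp (injCore_tendsto_vadd (N : ℝ))
  have h2 : Tendsto (fun w : ℍ => A (δ • ((N : ℝ) +ᵥ w)) - A (δ • w)) atImInfty (𝓝 (L - L)) :=
    h1.sub hL
  have h3 : Tendsto (fun _ : ℍ => c) atImInfty (𝓝 (L - L)) := by
    refine h2.congr ?_
    intro w
    exact key w
  have hc0 : c = 0 := by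
    have := tendsto_nhds_unique h3 tendsto_const_nhds
    simpa using this.symm
  have := key w
  rw [hc0, sub_eq_zero] at this
  exact this

/-- The functions `E δ w = exp (A (δ • w))`. -/
noncomputable def injCoreE (A : ℍ → ℂ) (δ : SL(2, ℤ)) : ℍ → ℂ := fun w => cexp (A (δ • w))

theorem injCoreE_mdiff (hA : MDiff A) (δ : SL(2, ℤ)) : MDiff (injCoreE A δ) := by
  have h1 : MDiff (fun w : ℍ => A (δ • w)) := hA.comp (injCore_mdiff_smul δ)
  exact (Complex.differentiable_exp.mdifferentiable).comp h1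

theorem injCoreE_periodic [NeZero N]
    (hinv : ∀ γ ∈ Gamma0 N, ∃ c : ℂ, c.re = 0 ∧ ∀ z : ℍ, A (γ • z) - A z = c)
    (hcusp : ∀ δ : SL(2, ℤ), ∃ L : ℂ, Tendsto (fun w : ℍ => A (δ • w)) atImInfty (𝓝 L))
    (δ : SL(2, ℤ)) : Function.Periodic (injCoreE A δ ∘ ofComplex) ((N : ℝ) : ℂ) := by
  intro w
  by_cases hw : 0 < _root_.Complex.im w
  · have hw' : 0 < _root_.Complex.im (w + ((N : ℝ) : ℂ)) := by simpa using hw
    simp only [Function.comp_apply, ofComplex_apply_of_im_pos hw', ofComplex_apply_of_im_pos hw]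
    have e : (⟨w + ((N : ℝ) : ℂ), hw'⟩ : ℍ) = (N : ℝ) +ᵥ (⟨w, hw⟩ : ℍ) := by
      ext
      simp [add_comm]
    rw [e]
    unfold injCoreE
    rw [injCore_vadd_eq hinv hcusp δ]
  · have hw' : _root_.Complex.im (w + ((N : ℝ) : ℂ)) ≤ 0 := by simpa using not_lt.mp hw
    simp only [Function.comp_apply]
    rw [ofComplex_apply_of_im_nonpos hw', ofComplex_apply_of_im_nonpos (not_lt.mp hw)]

theorem injCoreE_bdd
    (hcusp : ∀ δ : SL(2, ℤ), ∃ L : ℂ, Tendsto (fun w : ℍ => A (δ • w)) atImInfty (𝓝 L))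
    (δ : SL(2, ℤ)) : IsBoundedAtImInfty (injCoreE A δ) := by
  obtain ⟨L, hL⟩ := hcusp δ
  have h : Tendsto (injCoreE A δ) atImInfty (𝓝 (cexp L)) :=
    (Complex.continuous_exp.tendsto L).comp hL
  exact h.isBigO_one ℝ


theorem injCore_norm_qParam_le (hN : (0 : ℝ) < N) {w : ℍ} (hw : 1 / 2 ≤ w.im) :
    ‖Function.Periodic.qParam (N : ℝ) (w : ℂ)‖ ≤ Real.exp (-Real.pi / N) := by
  rw [Function.Periodic.norm_qParam, Real.exp_le_exp]
  have hpi := Real.pi_pos
  rw [div_le_div_iff_of_pos_right hN]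
  have : (w : ℂ).im = w.im := rfl
  rw [this]
  nlinarith

theorem injCore_exp_const [NeZero N] (hol : MDiff A)
    (hinv : ∀ γ ∈ Gamma0 N, ∃ c : ℂ, c.re = 0 ∧ ∀ z : ℍ, A (γ • z) - A z = c)
    (hcusp : ∀ δ : SL(2, ℤ), ∃ L : ℂ, Tendsto (fun w : ℍ => A (δ • w)) atImInfty (𝓝 L)) :
    ∃ K : ℂ, ∀ z : ℍ, cexp (A z) = K := by
  have hNpos : (0 : ℝ) < N := Nat.cast_pos.mpr (NeZero.pos N)
  set r := Real.exp (-Real.pi / N) with hr
  have hr0 : 0 ≤ r := (Real.exp_pos _).le
  have hr1 : r < 1 := by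
    rw [hr, ← Real.exp_zero, Real.exp_lt_exp]
    exact div_neg_of_neg_of_pos (neg_lt_zero.mpr Real.pi_pos) hNpos
  -- cusp functions
  let Et : SL(2, ℤ) → ℂ → ℂ := fun δ => cuspFunction (N : ℝ) (injCoreE A δ)
  have hdiff : ∀ δ, DifferentiableOn ℂ (Et δ) (Metric.ball 0 1) := fun δ =>
    differentiableOn_cuspFunction_ball hNpos (injCoreE_periodic hinv hcusp δ)
      (injCoreE_mdiff hol δ) (injCoreE_bdd hcusp δ)
  have heq : ∀ δ (w : ℍ), Et δ (Function.Periodic.qParam (N : ℝ) (w : ℂ)) = cexp (A (δ • w)) :=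
    fun δ w => eq_cuspFunction w hNpos.ne' (injCoreE_periodic hinv hcusp δ)
  -- maxima on the closed ball
  have hmax : ∀ δ, ∃ q ∈ Metric.closedBall (0 : ℂ) r,
      IsMaxOn (norm ∘ Et δ) (Metric.closedBall 0 r) q := fun δ =>
    (isCompact_closedBall 0 r).exists_isMaxOn (Metric.nonempty_closedBall.mpr hr0)
      ((hdiff δ).continuousOn.mono (Metric.closedBall_subset_ball hr1)).norm
  choose qmax hqmem hqmax using hmax
  -- finite quotient
  let δof : SL(2, ℤ) ⧸ Gamma0 N → SL(2, ℤ) := fun c => (Quotient.out c)⁻¹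
  obtain ⟨c₀, hc₀⟩ := Finite.exists_max
    (fun c : SL(2, ℤ) ⧸ Gamma0 N => ‖Et (δof c) (qmax (δof c))‖)
  -- key bound
  have hbound : ∀ z : ℍ, ‖cexp (A z)‖ ≤ ‖Et (δof c₀) (qmax (δof c₀))‖ := by
    intro z
    obtain ⟨g, hg⟩ := ModularGroup.exists_smul_mem_fd z
    have him : 1 / 2 ≤ (g • z).im := by
      have := ModularGroup.three_le_four_mul_im_sq_of_mem_fd hg
      nlinarith [(g • z).im_pos]
    set c : SL(2, ℤ) ⧸ Gamma0 N := (g : SL(2, ℤ) ⧸ Gamma0 N) with hcdef
    have hγ : (Quotient.out c)⁻¹ * g ∈ Gamma0 N :=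
      QuotientGroup.eq.mp (QuotientGroup.out_eq' c)
    obtain ⟨c', hc're, hc'⟩ := hinv _ ((Gamma0 N).inv_mem hγ)
    have hz : ((Quotient.out c)⁻¹ * g)⁻¹ • (δof c • (g • z)) = z := by
      simp only [δof, mul_inv_rev, inv_inv, mul_smul, smul_inv_smul, inv_smul_smul]
    have h1 := hc' (δof c • (g • z))
    rw [hz] at h1
    have hre : (A z).re = (A (δof c • (g • z))).re := by
      have := congrArg Complex.re h1
      simp only [Complex.sub_re] at this
      linarith
    have hnorm : ‖cexp (A z)‖ = ‖cexp (A (δof c • (g • z)))‖ := by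
      rw [Complex.norm_exp, Complex.norm_exp, hre]
    rw [hnorm, ← heq]
    have hmem : Function.Periodic.qParam (N : ℝ) ((g • z : ℍ) : ℂ) ∈ Metric.closedBall (0 : ℂ) r := by
      rw [mem_closedBall_zero_iff]
      exact injCore_norm_qParam_le hNpos him
    exact (hqmax (δof c) hmem).trans (hc₀ c)
  -- max on the open ball
  have hmaxball : IsMaxOn (norm ∘ Et (δof c₀)) (Metric.ball 0 1) (qmax (δof c₀)) := by
    intro q hq
    show ‖Et (δof c₀) q‖ ≤ ‖Et (δof c₀) (qmax (δof c₀))‖
    by_cases hq0 : q = 0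
    · subst hq0
      exact hqmax _ (Metric.mem_closedBall_self hr0)
    · have him := Function.Periodic.im_invQParam_pos_of_norm_lt_one hNpos
        (mem_ball_zero_iff.mp hq) hq0
      have h2 := heq (δof c₀) ⟨_, him⟩
      rw [UpperHalfPlane.coe_mk, Function.Periodic.qParam_right_inv hNpos.ne' hq0] at h2
      rw [h2]
      exact hbound _
  have hconst := Complex.eq_const_of_exists_max (hdiff (δof c₀))
    (Metric.closedBall_subset_ball hr1 (hqmem _)) hmaxball
  refine ⟨Et (δof c₀) (qmax (δof c₀)), fun z => ?_⟩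
  have h3 := heq (δof c₀) ((δof c₀)⁻¹ • z)
  rw [smul_inv_smul] at h3
  rw [← h3]
  refine hconst ?_
  rw [mem_ball_zero_iff]
  exact Function.Periodic.norm_qParam_lt_one hNpos (UpperHalfPlane.im_pos _)

/-- **Core of the injectivity argument.** A holomorphic function on `ℍ` whose real part is
`Γ₀(N)`-invariant and which has a limit at every cusp has vanishing derivative. -/
theorem injCore_deriv_eq_zero [NeZero N]
    (hol : ∀ τ : ℍ, DifferentiableAt ℂ (A ∘ ofComplex) (τ : ℂ))
    (hinv : ∀ γ ∈ Gamma0 N, ∃ c : ℂ, c.re = 0 ∧ ∀ z : ℍ, A (γ • z) - A z = c)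
    (hcusp : ∀ δ : SL(2, ℤ), ∃ L : ℂ, Tendsto (fun w : ℍ => A (δ • w)) atImInfty (𝓝 L))
    (τ : ℍ) : deriv (A ∘ ofComplex) (τ : ℂ) = 0 := by
  obtain ⟨K, hK⟩ := injCore_exp_const (injCore_mdiff_of_differentiableAt hol) hinv hcusp
  have h1 : (fun z : ℂ => cexp ((A ∘ ofComplex) z)) =ᶠ[𝓝 (τ : ℂ)] fun _ => K := by
    have hopen : {z : ℂ | 0 < z.im} ∈ 𝓝 (τ : ℂ) :=
      isOpen_upperHalfPlaneSet.mem_nhds τ.im_pos
    filter_upwards [hopen] with z hz
    simp only [Function.comp_apply]
    exact hK _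
  have h2 : deriv (fun z : ℂ => cexp ((A ∘ ofComplex) z)) (τ : ℂ) = 0 := by
    rw [h1.deriv_eq]
    simp
  have h3 : HasDerivAt (fun z : ℂ => cexp ((A ∘ ofComplex) z))
      (cexp ((A ∘ ofComplex) (τ : ℂ)) * deriv (A ∘ ofComplex) (τ : ℂ)) (τ : ℂ) :=
    (hol τ).hasDerivAt.cexp
  rw [h3.deriv] at h2
  exact (mul_eq_zero.mp h2).resolve_left (Complex.exp_ne_zero _)

end core

end Fermat.Agent.S21.H81

end
-- ===== PACK-END S21/H81/InjCore.lean

-- ===== PACK-BEGIN S28/H565/TExp.lean
section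



/-!
# S28 analytic bridge, part 1: convergent `t`-expansions (helper565)

`HasTExp h f φ` says that the function `f : ℍ → ℂ` is given, at every point of the upper
half plane, by the (absolutely) convergent Laurent expansion `φ` in the local parameter
`t = exp (2 π i τ / h)`.  We prove that this relation is compatible with the ring operations,
that `φ` is determined by `f`, and that it is compatible with `qExpand`.
-/

set_option autoImplicit false

noncomputable section

open UpperHalfPlane Complex Function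
open scoped Real

namespace Fermat.Agent.S28.H565

local notation "𝕢" => Periodic.qParam

/-- `f` is given on all of `ℍ` by the convergent power series `P` in `t = exp (2πiτ/h)`. -/
def HasPExp (h : ℝ) (f : ℍ → ℂ) (P : PowerSeries ℂ) : Prop :=
  ∀ τ : ℍ, HasSum (fun n : ℕ => PowerSeries.coeff n P * 𝕢 h τ ^ n) (f τ)

/-- `f` is given on all of `ℍ` by the convergent Laurent series `φ` in `t = exp (2πiτ/h)`. -/
def HasTExp (h : ℝ) (f : ℍ → ℂ) (φ : LaurentSeries ℂ) : Prop :=
  ∀ τ : ℍ, HasSum (fun n : ℤ => φ.coeff n * 𝕢 h τ ^ n) (f τ)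

section PExp

variable {h : ℝ} {f g : ℍ → ℂ} {P Q : PowerSeries ℂ}

theorem HasPExp.congr (hf : HasPExp h f P) (hfg : ∀ τ, f τ = g τ) : HasPExp h g P :=
  fun τ => hfg τ ▸ hf τ

theorem HasPExp.add (hf : HasPExp h f P) (hg : HasPExp h g Q) : HasPExp h (f + g) (P + Q) := by
  intro τ
  have := (hf τ).add (hg τ)
  simpa [add_mul] using this

theorem HasPExp.zero : HasPExp h 0 0 := by
  intro τ
  simp [hasSum_zero]

theorem HasPExp.const (c : ℂ) : HasPExp h (fun _ => c) (PowerSeries.C c) := by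
  intro τ
  have := hasSum_ite_eq (0 : ℕ) c
  refine this.congr_fun ?_ |>.mono_left le_rfl
  intro n
  by_cases hn : n = 0
  · subst hn; simp
  · simp [PowerSeries.coeff_C, hn]

theorem HasPExp.smul (c : ℂ) (hf : HasPExp h f P) : HasPExp h (c • f) (c • P) := by
  intro τ
  have := (hf τ).mul_left c
  simpa [mul_assoc] using this

theorem HasPExp.neg (hf : HasPExp h f P) : HasPExp h (-f) (-P) := by
  intro τ
  have := (hf τ).neg
  simpa using this

theorem HasPExp.sub (hf : HasPExp h f P) (hg : HasPExp h g Q) : HasPExp h (f - g) (P - Q) := by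
  intro τ
  have := (hf τ).sub (hg τ)
  simpa [sub_mul] using this

theorem HasPExp.mul (hf : HasPExp h f P) (hg : HasPExp h g Q) : HasPExp h (f * g) (P * Q) := by
  intro τ
  have h1 := hf τ
  have h2 := hg τ
  have n1 : Summable fun n : ℕ => ‖PowerSeries.coeff n P * 𝕢 h τ ^ n‖ := h1.summable.norm
  have n2 : Summable fun n : ℕ => ‖PowerSeries.coeff n Q * 𝕢 h τ ^ n‖ := h2.summable.norm
  have key := tsum_mul_tsum_eq_tsum_sum_antidiagonal_of_summable_norm n1 n2
  have hs := (summable_norm_sum_mul_antidiagonal_of_summable_norm n1 n2).of_norm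
  rw [h1.tsum_eq, h2.tsum_eq] at key
  have hfun : (fun n : ℕ => PowerSeries.coeff n (P * Q) * 𝕢 h τ ^ n) =
      fun n => ∑ kl ∈ Finset.HasAntidiagonal.antidiagonal n,
        (PowerSeries.coeff kl.1 P * 𝕢 h τ ^ kl.1) * (PowerSeries.coeff kl.2 Q * 𝕢 h τ ^ kl.2) := by
    funext n
    rw [PowerSeries.coeff_mul, Finset.sum_mul]
    refine Finset.sum_congr rfl fun kl hkl => ?_
    rw [Finset.HasAntidiagonal.mem_antidiagonal] at hkl
    rw [← hkl, pow_add]
    ring
  rw [hfun]
  simpa [Pi.mul_apply, key] using hs.hasSum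

theorem HasPExp.X : HasPExp h (fun τ => 𝕢 h τ) PowerSeries.X := by
  intro τ
  have := hasSum_ite_eq (1 : ℕ) (𝕢 h τ)
  refine this.congr_fun ?_ |>.mono_left le_rfl
  intro n
  by_cases hn : n = 1
  · subst hn; simp
  · simp [PowerSeries.coeff_X, hn]

theorem HasPExp.pow (hf : HasPExp h f P) (n : ℕ) : HasPExp h (f ^ n) (P ^ n) := by
  induction n with
  | zero =>
    have := HasPExp.const (h := h) 1
    rw [map_one] at this
    rw [pow_zero, pow_zero]
    exact this
  | succ n ih =>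
    rw [pow_succ, pow_succ]
    exact ih.mul hf

theorem cuspFunction_zero_fun (h : ℝ) : cuspFunction h (0 : ℍ → ℂ) = 0 := by
  simpa [cuspFunction, Periodic.cuspFunction]
      using! (tendsto_const_nhds.mono_left nhdsWithin_le_nhds).limUnder_eq

theorem coeff_eq_zero_of_hasSum_zero {h : ℝ} (hh : 0 < h) (c : ℕ → ℂ)
    (H : ∀ τ : ℍ, HasSum (fun n : ℕ => c n * 𝕢 h τ ^ n) 0) (m : ℕ) : c m = 0 := by
  have han : AnalyticAt ℂ (cuspFunction h (0 : ℍ → ℂ)) 0 := by
    rw [cuspFunction_zero_fun]; exact analyticAt_const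
  have H' : ∀ τ : ℍ, HasSum (fun n : ℕ => c n • 𝕢 h τ ^ n) ((0 : ℍ → ℂ) τ) := fun τ => H τ
  have h1 := (hasFPowerSeriesOnBall_cuspFunction hh han H').hasFPowerSeriesAt
  rw [cuspFunction_zero_fun] at h1
  have h2 := h1.eq_zero
  have h3 := congrArg (fun p => FormalMultilinearSeries.coeff p m) h2
  simp only [FormalMultilinearSeries.coeff_ofScalars] at h3
  rw [h3]
  rfl

theorem HasPExp.eq_zero (hh : 0 < h) (H : HasPExp h 0 P) : P = 0 := by
  ext m
  simpa using coeff_eq_zero_of_hasSum_zero hh (fun n => PowerSeries.coeff n P) (fun τ => H τ) m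

theorem HasPExp.unique (hh : 0 < h) (hP : HasPExp h f P) (hQ : HasPExp h f Q) : P = Q := by
  have := (hP.sub hQ)
  rw [sub_self] at this
  exact sub_eq_zero.mp (this.eq_zero hh)

/-- A function with a convergent power series expansion is bounded at `i∞`. -/
theorem HasPExp.isBoundedAtImInfty (hh : 0 < h) (hf : HasPExp h f P) :
    IsBoundedAtImInfty f :=
  UpperHalfPlane.isBoundedAtImInfty_of_hasSum_qExpansion (c := fun n => PowerSeries.coeff n P) hh
    (fun τ => by simpa using hf τ)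

end PExp

section TExp

variable {h : ℝ} {f g : ℍ → ℂ} {φ ψ : LaurentSeries ℂ}

theorem HasTExp.congr (hf : HasTExp h f φ) (hfg : ∀ τ, f τ = g τ) : HasTExp h g φ :=
  fun τ => hfg τ ▸ hf τ

theorem HasTExp.add (hf : HasTExp h f φ) (hg : HasTExp h g ψ) : HasTExp h (f + g) (φ + ψ) := by
  intro τ
  have := (hf τ).add (hg τ)
  simpa [add_mul] using this

theorem HasTExp.zero : HasTExp h 0 0 := by
  intro τ
  simp [hasSum_zero]

theorem HasTExp.neg (hf : HasTExp h f φ) : HasTExp h (-f) (-φ) := by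
  intro τ
  have := (hf τ).neg
  simpa using this

theorem HasTExp.sub (hf : HasTExp h f φ) (hg : HasTExp h g ψ) : HasTExp h (f - g) (φ - ψ) := by
  intro τ
  have := (hf τ).sub (hg τ)
  simpa [sub_mul] using this

theorem HasTExp.smul (c : ℂ) (hf : HasTExp h f φ) : HasTExp h (c • f) (c • φ) := by
  intro τ
  have := (hf τ).mul_left c
  simpa [mul_assoc] using this

/-- Key bridge between Laurent and power series expansions. -/
theorem hasTExp_single_mul_iff (m : ℤ) (P : PowerSeries ℂ) :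
    HasTExp h f (HahnSeries.single m (1 : ℂ) * HahnSeries.ofPowerSeries ℤ ℂ P) ↔
      HasPExp h (fun τ => f τ * 𝕢 h τ ^ (-m)) P := by
  have key : ∀ τ : ℍ,
      HasSum (fun n : ℤ =>
        (HahnSeries.single m (1 : ℂ) * HahnSeries.ofPowerSeries ℤ ℂ P).coeff n * 𝕢 h τ ^ n) (f τ) ↔
      HasSum (fun n : ℕ => PowerSeries.coeff n P * 𝕢 h τ ^ n) (f τ * 𝕢 h τ ^ (-m)) := by
    intro τ
    have hq : 𝕢 h τ ≠ 0 := Periodic.qParam_ne_zero _
    have hι : Function.Injective (fun k : ℕ => (k : ℤ) + m) := by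
      intro a b hab
      simpa using hab
    have hzero : ∀ n ∉ Set.range (fun k : ℕ => (k : ℤ) + m),
        (HahnSeries.single m (1 : ℂ) * HahnSeries.ofPowerSeries ℤ ℂ P).coeff n * 𝕢 h τ ^ n = 0 := by
      intro n hn
      have hlt : n - m < 0 := by
        by_contra hge
        rw [not_lt] at hge
        exact hn ⟨(n - m).toNat, by simp [Int.toNat_of_nonneg hge]⟩
      rw [HahnSeries.coeff_single_mul, ModularCurve.ofPowerSeries_coeff_of_neg _ hlt]
      simp
    rw [← hι.hasSum_iff hzero]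
    have hfun : ((fun n : ℤ =>
        (HahnSeries.single m (1 : ℂ) * HahnSeries.ofPowerSeries ℤ ℂ P).coeff n * 𝕢 h τ ^ n) ∘
          fun k : ℕ => (k : ℤ) + m) =
        fun k : ℕ => (PowerSeries.coeff k P * 𝕢 h τ ^ k) * 𝕢 h τ ^ m := by
      funext k
      simp only [Function.comp_apply]
      rw [HahnSeries.coeff_single_mul_add, HahnSeries.ofPowerSeries_apply_coeff, one_mul,
        zpow_add₀ hq, zpow_natCast, mul_assoc]
    rw [hfun]
    have hval : f τ = (f τ * 𝕢 h τ ^ (-m)) * 𝕢 h τ ^ m := by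
      rw [mul_assoc, ← zpow_add₀ hq, neg_add_cancel, zpow_zero, mul_one]
    conv_lhs => rw [hval]
    exact hasSum_mul_right_iff (zpow_ne_zero m hq)
  exact ⟨fun H τ => (key τ).mp (H τ), fun H τ => (key τ).mpr (H τ)⟩

/-- Any Laurent expansion can be rewritten as a power series expansion. -/
theorem HasTExp.hasPExp (hf : HasTExp h f φ) :
    HasPExp h (fun τ => f τ * 𝕢 h τ ^ (-φ.order)) φ.powerSeriesPart := by
  rw [← hasTExp_single_mul_iff, LaurentSeries.single_order_mul_powerSeriesPart]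
  exact hf

theorem HasPExp.hasTExp {P : PowerSeries ℂ} (hf : HasPExp h f P) :
    HasTExp h f (HahnSeries.ofPowerSeries ℤ ℂ P) := by
  have := (hasTExp_single_mul_iff (h := h) (f := f) 0 P).mpr (by simpa using hf)
  simpa using this

theorem HasTExp.mul (hf : HasTExp h f φ) (hg : HasTExp h g ψ) : HasTExp h (f * g) (φ * ψ) := by
  have h1 := hf.hasPExp
  have h2 := hg.hasPExp
  have h3 := h1.mul h2
  have hφψ : φ * ψ = HahnSeries.single (φ.order + ψ.order) (1 : ℂ) *
      HahnSeries.ofPowerSeries ℤ ℂ (φ.powerSeriesPart * ψ.powerSeriesPart) := by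
    conv_lhs => rw [← LaurentSeries.single_order_mul_powerSeriesPart φ,
      ← LaurentSeries.single_order_mul_powerSeriesPart ψ]
    rw [map_mul, ← mul_one (1 : ℂ), ← HahnSeries.single_mul_single, mul_one]
    ring
  rw [hφψ, hasTExp_single_mul_iff]
  refine h3.congr fun τ => ?_
  have hq : 𝕢 h τ ≠ 0 := Periodic.qParam_ne_zero _
  simp only [Pi.mul_apply]
  rw [neg_add, zpow_add₀ hq]
  ring

theorem HasTExp.const (c : ℂ) : HasTExp h (fun _ => c) (HahnSeries.C c) := by
  have := (HasPExp.const (h := h) c).hasTExp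
  rwa [HahnSeries.ofPowerSeries_C] at this

theorem HasTExp.one : HasTExp h 1 1 := by
  have := HasTExp.const (h := h) 1
  rw [map_one] at this
  exact this

theorem HasTExp.pow (hf : HasTExp h f φ) (n : ℕ) : HasTExp h (f ^ n) (φ ^ n) := by
  induction n with
  | zero =>
    rw [pow_zero, pow_zero]
    exact HasTExp.one
  | succ n ih =>
    rw [pow_succ, pow_succ]
    exact ih.mul hf

theorem HasTExp.single (m : ℤ) : HasTExp h (fun τ => 𝕢 h τ ^ m) (HahnSeries.single m (1 : ℂ)) := by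
  have h1 : HasPExp h (fun τ => 𝕢 h τ ^ m * 𝕢 h τ ^ (-m)) 1 := by
    have := HasPExp.const (h := h) 1
    rw [map_one] at this
    refine this.congr fun τ => ?_
    have hq : 𝕢 h τ ≠ 0 := Periodic.qParam_ne_zero _
    rw [← zpow_add₀ hq, add_neg_cancel, zpow_zero]
  have := (hasTExp_single_mul_iff (h := h) (f := fun τ => 𝕢 h τ ^ m) m 1).mpr h1
  simpa using this

theorem HasTExp.eq_zero (hh : 0 < h) (H : HasTExp h 0 φ) : φ = 0 := by
  have h1 := H.hasPExp
  have h2 : HasPExp h 0 φ.powerSeriesPart := h1.congr fun τ => by simp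
  have h3 := h2.eq_zero hh
  rw [← LaurentSeries.single_order_mul_powerSeriesPart φ, h3]
  simp

theorem HasTExp.unique (hh : 0 < h) (hφ : HasTExp h f φ) (hψ : HasTExp h f ψ) : φ = ψ := by
  have := hφ.sub hψ
  rw [sub_self] at this
  exact sub_eq_zero.mp (this.eq_zero hh)

/-- If a function has an expansion, the function is determined by the expansion. -/
theorem HasTExp.fun_unique (hf : HasTExp h f φ) (hg : HasTExp h g φ) : f = g :=
  funext fun τ => (hf τ).unique (hg τ)

/-- Polynomial expressions: if `f` has expansion `φ` then `Q ∘ f` has expansion `Q(φ)`. -/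
theorem HasTExp.polynomial_aeval (hf : HasTExp h f φ) (Q : Polynomial ℂ) :
    HasTExp h (fun τ => Q.eval (f τ)) (Polynomial.aeval φ Q) := by
  induction Q using Polynomial.induction_on' with
  | add p q hp hq =>
    rw [map_add]
    exact (hp.add hq).congr fun τ => by simp
  | monomial n a =>
    rw [Polynomial.aeval_monomial]
    have h1 := (HasTExp.const (h := h) a).mul (hf.pow n)
    have h2 : algebraMap ℂ (LaurentSeries ℂ) a = HahnSeries.C a := by
      rw [ModularCurve.algebraMap_laurentSeries_eq_single]; rfl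
    rw [h2]
    exact h1.congr fun τ => by simp [Polynomial.eval_monomial]

theorem qParam_mul_pow (h : ℝ) (m : ℕ) (hm : m ≠ 0) (z : ℂ) (k : ℤ) :
    𝕢 (h * m) z ^ ((m : ℤ) * k) = 𝕢 h z ^ k := by
  have hm' : (m : ℂ) ≠ 0 := by exact_mod_cast hm
  simp only [Periodic.qParam]
  rw [← Complex.exp_int_mul, ← Complex.exp_int_mul]
  congr 1
  push_cast
  rcases eq_or_ne (h : ℂ) 0 with h0 | h0
  · simp [h0]
  · field_simp

/-- Change of parameter `t ↦ t^m`: an expansion in `exp (2πiτ/h)` gives one in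
`exp (2πiτ/(hm))`. -/
theorem HasTExp.qExpand (m : ℕ) [NeZero m] (hf : HasTExp h f φ) :
    HasTExp (h * m) f (ModularCurve.qExpand ℂ m φ) := by
  intro τ
  have hm : (m : ℤ) ≠ 0 := by exact_mod_cast NeZero.ne m
  have hι : Function.Injective (fun k : ℤ => (m : ℤ) * k) := mul_right_injective₀ hm
  have hzero : ∀ n ∉ Set.range (fun k : ℤ => (m : ℤ) * k),
      (ModularCurve.qExpand ℂ m φ).coeff n * 𝕢 (h * m) τ ^ n = 0 := by
    intro n hn
    rw [ModularCurve.qExpand_coeff_of_not_dvd, zero_mul]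
    rintro ⟨c, rfl⟩
    exact hn ⟨c, rfl⟩
  rw [← hι.hasSum_iff hzero]
  have hfun : ((fun n : ℤ => (ModularCurve.qExpand ℂ m φ).coeff n * 𝕢 (h * m) τ ^ n) ∘
      fun k : ℤ => (m : ℤ) * k) = fun k : ℤ => φ.coeff k * 𝕢 h τ ^ k := by
    funext k
    simp only [Function.comp_apply]
    rw [ModularCurve.qExpand_coeff_mul, qParam_mul_pow h m (NeZero.ne m)]
  rw [hfun]
  exact hf τ

theorem HasTExp.qExpand_one (m : ℕ) [NeZero m] (hf : HasTExp 1 f φ) :
    HasTExp m f (ModularCurve.qExpand ℂ m φ) := by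
  have := hf.qExpand m
  rwa [one_mul] at this

end TExp

end Fermat.Agent.S28.H565

end
end
-- ===== PACK-END S28/H565/TExp.lean

-- ===== PACK-BEGIN S24/D5/H108Poly.lean
section


/-!
# D5: level-one modular functions are polynomials in `J = E₄³ / Δ`

Mathlib-only.  Main results (namespace `Fermat.Agent.S24.H108`):

* `modularForm_eq_discriminant_pow_mul_eval` : every `g : ModularForm 𝒮ℒ (12 * m)` is
  `Δ ^ m * P (E₄³ / Δ)` for a polynomial `P` of degree `≤ m`.
* `exists_polynomial_of_invariant` : an `SL(2,ℤ)`-invariant holomorphic `f : ℍ → ℂ` with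
  `f * Δ ^ m` bounded at `i∞` is `P (E₄³ / Δ)` for a polynomial `P` of degree `≤ m`.
-/

noncomputable section

open UpperHalfPlane ModularForm SlashInvariantForm SlashInvariantFormClass ModularFormClass
  CuspFormClass MatrixGroups OnePoint Filter EisensteinSeries Asymptotics

open scoped Topology Manifold

namespace Fermat.Agent.S24.H108

local notation "Δ" => ModularForm.discriminant

/-- The (un-normalised) `J`-function `E₄³ / Δ` on the upper half plane. -/
def jFun (τ : ℍ) : ℂ := E₄ τ ^ 3 / Δ τ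

lemma jFun_def (τ : ℍ) : jFun τ = E₄ τ ^ 3 / Δ τ := rfl

/-- `E₄ ^ (3 * m)` as a modular form of weight `12 * m`. -/
def e4Pow (m : ℕ) : ModularForm 𝒮ℒ (12 * (m : ℤ)) :=
  ModularForm.mcast (by push_cast; ring) (E₄.pow (3 * m))

lemma e4Pow_coe (m : ℕ) : (e4Pow m : ℍ → ℂ) = (E₄.pow (3 * m) : ℍ → ℂ) := by
  simp [e4Pow, coe_mcast]

lemma e4Pow_apply (m : ℕ) (τ : ℍ) : e4Pow m τ = E₄ τ ^ (3 * m) := by
  rw [e4Pow_coe, coe_pow, Pi.pow_apply]

lemma e4Pow_qExpansion_coeff_zero (m : ℕ) : (qExpansion 1 (e4Pow m)).coeff 0 = 1 := by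
  rw [e4Pow_coe, ModularForm.qExpansion_pow one_pos one_mem_strictPeriods_SL]
  have h1 : (qExpansion 1 E₄).coeff 0 = 1 := E_qExpansion_coeff_zero _ ⟨2, rfl⟩
  rw [PowerSeries.coeff_zero_eq_constantCoeff_apply] at h1 ⊢
  rw [map_pow, h1, one_pow]

/-- Core statement: every level one modular form of weight `12 * m` is `Δ ^ m` times a
polynomial of degree `≤ m` in `E₄³ / Δ`. -/
theorem modularForm_eq_discriminant_pow_mul_eval (m : ℕ) (g : ModularForm 𝒮ℒ (12 * (m : ℤ))) :
    ∃ P : Polynomial ℂ, P.natDegree ≤ m ∧ ∀ τ : ℍ, g τ = Δ τ ^ m * P.eval (jFun τ) := by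
  induction m with
  | zero =>
    obtain ⟨c, hc⟩ := ModularFormClass.levelOne_weight_zero_const
      (ModularForm.mcast (show (12 * ((0 : ℕ) : ℤ)) = 0 by simp) g)
    refine ⟨Polynomial.C c, by simp, fun τ => ?_⟩
    have := congrFun hc τ
    simpa [coe_mcast] using this
  | succ m ih =>
    set c : ℂ := (qExpansion 1 g).coeff 0 with hc
    -- h = g - c • E₄^(3(m+1)) has vanishing constant term
    set h : ModularForm 𝒮ℒ (12 * ((m + 1 : ℕ) : ℤ)) := g - c • e4Pow (m + 1) with hh
    have hcoeff : (qExpansion 1 h).coeff 0 = 0 := by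
      have : (h : ℍ → ℂ) = (g : ℍ → ℂ) - ((c • e4Pow (m + 1) : ModularForm 𝒮ℒ _) : ℍ → ℂ) := rfl
      rw [this, ModularForm.qExpansion_sub one_pos one_mem_strictPeriods_SL]
      have h2 : ((c • e4Pow (m + 1) : ModularForm 𝒮ℒ _) : ℍ → ℂ) = c • (e4Pow (m + 1) : ℍ → ℂ) :=
        rfl
      rw [h2, ModularForm.qExpansion_smul one_pos one_mem_strictPeriods_SL, map_sub,
        PowerSeries.coeff_smul, e4Pow_qExpansion_coeff_zero, smul_eq_mul, mul_one, sub_self]
    -- divide by Δ
    set h' : ModularForm 𝒮ℒ (12 * ((m + 1 : ℕ) : ℤ) - 12) :=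
      CuspForm.discriminantEquiv (toCuspForm h hcoeff) with hh'
    obtain ⟨P', hP'deg, hP'⟩ := ih (ModularForm.mcast (by push_cast; ring) h')
    refine ⟨Polynomial.C c * Polynomial.X ^ (m + 1) + P', ?_, fun τ => ?_⟩
    · refine (Polynomial.natDegree_add_le _ _).trans (max_le ?_ (hP'deg.trans (Nat.le_succ m)))
      exact (Polynomial.natDegree_C_mul_le _ _).trans (Polynomial.natDegree_X_pow_le _)
    · have hΔ : Δ τ ≠ 0 := discriminant_ne_zero τ
      have e1 : Δ τ * h' τ = h τ :=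
        discriminant_mul_discriminantEquiv_apply (toCuspForm h hcoeff) τ
      have e2 : h' τ = Δ τ ^ m * P'.eval (jFun τ) := by
        have := hP' τ
        simpa [coe_mcast] using this
      have e3 : h τ = g τ - c * E₄ τ ^ (3 * (m + 1)) := by
        rw [← e4Pow_apply]; rfl
      have hJ : Δ τ ^ (m + 1) * jFun τ ^ (m + 1) = E₄ τ ^ (3 * (m + 1)) := by
        rw [← mul_pow, jFun_def, mul_div_cancel₀ _ hΔ, ← pow_mul]
      simp only [Polynomial.eval_add, Polynomial.eval_mul, Polynomial.eval_C, Polynomial.eval_pow,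
        Polynomial.eval_X]
      rw [e2] at e1
      linear_combination -e3 - e1 - c * hJ

/-! ### From invariant functions to modular forms -/

/-- `Δ ^ m` as a modular form of weight `12 * m`. -/
def deltaPow (m : ℕ) : ModularForm 𝒮ℒ (12 * (m : ℤ)) :=
  ModularForm.mcast (by ring)
    ((ModularFormClass.modularForm CuspForm.discriminant).pow m)

lemma deltaPow_coe (m : ℕ) : (deltaPow m : ℍ → ℂ) = fun τ => Δ τ ^ m := by
  ext τ
  simp [deltaPow, coe_mcast, coe_pow]

lemma deltaPow_apply (m : ℕ) (τ : ℍ) : deltaPow m τ = Δ τ ^ m := by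
  rw [deltaPow_coe]

/-- A function invariant under `SL(2,ℤ)` is weight-0 slash invariant. -/
lemma slash_zero_eq_of_invariant {f : ℍ → ℂ}
    (hinv : ∀ (γ : SL(2, ℤ)) (τ : ℍ), f (γ • τ) = f τ) (γ : SL(2, ℤ)) :
    f ∣[(0 : ℤ)] γ = f := by
  ext τ
  rw [SL_slash_apply, hinv]
  simp

lemma mul_deltaPow_slash {f : ℍ → ℂ}
    (hinv : ∀ (γ : SL(2, ℤ)) (τ : ℍ), f (γ • τ) = f τ) (m : ℕ) (γ : SL(2, ℤ)) :
    (fun τ => f τ * Δ τ ^ m) ∣[(12 * (m : ℤ))] γ = fun τ => f τ * Δ τ ^ m := by
  have h1 : (fun τ => f τ * Δ τ ^ m) = f * (deltaPow m : ℍ → ℂ) := by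
    ext τ; simp [deltaPow_apply]
  have h2 := mul_slash_SL2 0 (12 * (m : ℤ)) γ f (deltaPow m)
  rw [zero_add] at h2
  have hγ : (γ : GL (Fin 2) ℝ) ∈ 𝒮ℒ := ⟨γ, rfl⟩
  have h3 : (deltaPow m : ℍ → ℂ) ∣[(12 * (m : ℤ))] γ = deltaPow m := by
    rw [SL_slash]
    exact slash_action_eqn (deltaPow m) _ hγ
  rw [h1, h2, slash_zero_eq_of_invariant hinv, h3]

/-- An `SL(2,ℤ)`-invariant holomorphic function `f` with `f * Δ ^ m` bounded at `i∞`
gives the modular form `f * Δ ^ m` of weight `12 * m`. -/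
def ofInvariant (f : ℍ → ℂ) (hf : MDiff f)
    (hinv : ∀ (γ : SL(2, ℤ)) (τ : ℍ), f (γ • τ) = f τ) (m : ℕ)
    (hbd : IsBoundedAtImInfty (fun τ => f τ * Δ τ ^ m)) : ModularForm 𝒮ℒ (12 * (m : ℤ)) where
  toFun τ := f τ * Δ τ ^ m
  slash_action_eq' := fun _ ⟨γ, hγ⟩ => hγ ▸ mul_deltaPow_slash hinv m γ
  holo' := by
    have h1 : (fun τ => f τ * Δ τ ^ m) = f * (deltaPow m : ℍ → ℂ) := by
      ext τ; simp [deltaPow_apply]
    change MDiff (fun τ => f τ * Δ τ ^ m)
    rw [h1]
    exact hf.mul (ModularFormClass.holo (deltaPow m))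
  bdd_at_cusps' {c} hc := by
    rw [Subgroup.IsArithmetic.isCusp_iff_isCusp_SL2Z] at hc
    rw [isBoundedAt_iff_forall_SL2Z hc]
    intro γ _
    rw [mul_deltaPow_slash hinv m γ]
    exact hbd

lemma ofInvariant_apply (f : ℍ → ℂ) (hf : MDiff f)
    (hinv : ∀ (γ : SL(2, ℤ)) (τ : ℍ), f (γ • τ) = f τ) (m : ℕ)
    (hbd : IsBoundedAtImInfty (fun τ => f τ * Δ τ ^ m)) (τ : ℍ) :
    ofInvariant f hf hinv m hbd τ = f τ * Δ τ ^ m := rfl

/-- **D5a.** An `SL(2,ℤ)`-invariant holomorphic function `f : ℍ → ℂ` such that `f * Δ ^ m` is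
bounded at `i∞` is a polynomial of degree `≤ m` in `J = E₄³ / Δ`. -/
theorem exists_polynomial_of_invariant (f : ℍ → ℂ) (hf : MDiff f)
    (hinv : ∀ (γ : SL(2, ℤ)) (τ : ℍ), f (γ • τ) = f τ) (m : ℕ)
    (hbd : IsBoundedAtImInfty (fun τ => f τ * Δ τ ^ m)) :
    ∃ P : Polynomial ℂ, P.natDegree ≤ m ∧ ∀ τ : ℍ, f τ = P.eval (E₄ τ ^ 3 / Δ τ) := by
  obtain ⟨P, hdeg, hP⟩ :=
    modularForm_eq_discriminant_pow_mul_eval m (ofInvariant f hf hinv m hbd)
  refine ⟨P, hdeg, fun τ => ?_⟩
  have h := hP τ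
  rw [ofInvariant_apply, mul_comm] at h
  exact mul_left_cancel₀ (pow_ne_zero m (discriminant_ne_zero τ)) h

end Fermat.Agent.S24.H108

end
end
-- ===== PACK-END S24/D5/H108Poly.lean

-- ===== PACK-BEGIN S24/H864/FF3a.lean
section



/-!
# S24 / ALG / FF1+FF3 (part a): the Dedekind domain `B = integralClosure K[t] F`
-/

set_option autoImplicit false

noncomputable section

open AlgebraicCurve IntermediateField IsDedekindDomain

namespace Fermat.Agent.S24.H864

variable {K F : Type*} [Field K] [Field F] [Algebra K F]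

section Setup

variable (K) (t : F)

/-- `K[t] ⊆ F`. -/
abbrev polyRing : Subalgebra K F := Algebra.adjoin K {t}

/-- the element `t` of `K[t]` -/
def tR : polyRing K t := ⟨t, Algebra.self_mem_adjoin_singleton K t⟩

/-- `K[X] ≃ K[t]` for transcendental `t`. -/
def polyEquiv (ht : Transcendental K t) : Polynomial K ≃ₐ[K] polyRing K t :=
  (AlgEquiv.ofInjective (Polynomial.aeval t) (transcendental_iff_injective.mp ht)).trans
    (Subalgebra.equivOfEq _ _ (Algebra.adjoin_singleton_eq_range_aeval K t).symm)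

theorem polyEquiv_apply_coe (ht : Transcendental K t) (P : Polynomial K) :
    ((polyEquiv K t ht P : polyRing K t) : F) = Polynomial.aeval t P := rfl

theorem polyEquiv_X (ht : Transcendental K t) : polyEquiv K t ht Polynomial.X = tR K t := by
  apply Subtype.ext
  rw [polyEquiv_apply_coe, Polynomial.aeval_X]
  rfl

end Setup

end Fermat.Agent.S24.H864

end
end
-- ===== PACK-END S24/H864/FF3a.lean

-- ===== PACK-BEGIN S29/H152/DescStab.lean
section
/-
S29 / DESC (helper152) — part 5: the coefficientwise action of `Aut(Ω/K)` on `Ω((q))`, the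
stabiliser of a Kummer class and its finite index.
-/



set_option autoImplicit false

namespace Fermat.Agent.S29.H152

open ModularCurve

variable {K Ω : Type*} [Field K] [Field Ω] [Algebra K Ω]

/-- The coefficientwise action of `σ ∈ Aut(Ω/K)` on Laurent series. -/
noncomputable def descSig (σ : Ω ≃ₐ[K] Ω) : LaurentSeries Ω →+* LaurentSeries Ω :=
  coeffMap (σ : Ω →+* Ω)

theorem descSig_def (σ : Ω ≃ₐ[K] Ω) (x : LaurentSeries Ω) :
    descSig σ x = coeffMap (σ : Ω →+* Ω) x := rfl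

@[simp]
theorem descSig_coeff (σ : Ω ≃ₐ[K] Ω) (x : LaurentSeries Ω) (k : ℤ) :
    (descSig σ x).coeff k = σ (x.coeff k) := rfl

@[simp]
theorem descSig_one (x : LaurentSeries Ω) : descSig (1 : Ω ≃ₐ[K] Ω) x = x := by
  ext k
  simp

theorem descSig_mul (σ τ : Ω ≃ₐ[K] Ω) (x : LaurentSeries Ω) :
    descSig (σ * τ) x = descSig σ (descSig τ x) := by
  ext k
  simp

@[simp]
theorem descSig_inv_apply (σ : Ω ≃ₐ[K] Ω) (x : LaurentSeries Ω) :
    descSig σ⁻¹ (descSig σ x) = x := by
  rw [← descSig_mul, inv_mul_cancel, descSig_one]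

@[simp]
theorem descSig_apply_inv (σ : Ω ≃ₐ[K] Ω) (x : LaurentSeries Ω) :
    descSig σ (descSig σ⁻¹ x) = x := by
  rw [← descSig_mul, mul_inv_cancel, descSig_one]

theorem descSig_injective (σ : Ω ≃ₐ[K] Ω) : Function.Injective (descSig σ) :=
  Function.LeftInverse.injective (descSig_inv_apply σ)

theorem descSig_algebraMap (σ : Ω ≃ₐ[K] Ω) (c : Ω) :
    descSig σ (algebraMap Ω (LaurentSeries Ω) c) = algebraMap Ω (LaurentSeries Ω) (σ c) :=
  coeffMap_algebraMap _ c

theorem descSig_coeffMap (σ : Ω ≃ₐ[K] Ω) (x : LaurentSeries K) :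
    descSig σ (coeffMap (algebraMap K Ω) x) = coeffMap (algebraMap K Ω) x := by
  ext k
  simp

theorem descSig_coeffEmb [Algebra ℚ Ω] (σ : Ω ≃ₐ[K] Ω) (y : LaurentSeries ℚ) :
    descSig σ (coeffEmb Ω y) = coeffEmb Ω y := by
  rw [descSig, coeffEmb, coeffMap_coeffMap]
  exact coeffMap_congr (RingHom.ext_rat _ _) y

/-- The base-changed field is stable under the coefficientwise action. -/
theorem descSig_mem_laurentBaseChange [Algebra ℚ Ω] (F₀ : IntermediateField ℚ (LaurentSeries ℚ))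
    (σ : Ω ≃ₐ[K] Ω) {x : LaurentSeries Ω} (hx : x ∈ laurentBaseChange Ω F₀) :
    descSig σ x ∈ laurentBaseChange Ω F₀ := by
  rw [mem_laurentBaseChange_iff] at hx
  induction hx using Subfield.closure_induction with
  | mem y hy =>
      rcases hy with ⟨a, rfl⟩ | ⟨z, hz, rfl⟩
      · rw [descSig_algebraMap]
        exact (laurentBaseChange Ω F₀).algebraMap_mem _
      · rw [descSig_coeffEmb]
        exact coeffEmb_mem_laurentBaseChange Ω hz
  | one => simp
  | add x y _ _ hx hy => simpa using add_mem hx hy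
  | neg x _ hx => simpa using neg_mem hx
  | inv x _ hx => simpa using inv_mem hx
  | mul x y _ _ hx hy => simpa using mul_mem hx hy

/-! ### The stabiliser of a Kummer class -/

section Stab

variable (F : IntermediateField Ω (LaurentSeries Ω))
  (hF : ∀ (σ : Ω ≃ₐ[K] Ω) (x : LaurentSeries Ω), x ∈ F → descSig σ x ∈ F)
  (f : LaurentSeries Ω) (p : ℕ)

/-- The stabiliser of the class of `f` modulo `p`-th powers of `F`. -/
def descStab : Subgroup (Ω ≃ₐ[K] Ω) where
  carrier := {σ | ∃ u ∈ F, u ≠ 0 ∧ descSig σ f = f * u ^ p}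
  one_mem' := ⟨1, one_mem _, one_ne_zero, by simp⟩
  mul_mem' := by
    rintro σ τ ⟨u, hu, hu0, hσ⟩ ⟨w, hw, hw0, hτ⟩
    refine ⟨u * descSig σ w, mul_mem hu (hF σ w hw),
      mul_ne_zero hu0 ((map_ne_zero_iff _ (descSig_injective σ)).mpr hw0), ?_⟩
    rw [descSig_mul, hτ, map_mul, map_pow, hσ]
    ring
  inv_mem' := by
    rintro σ ⟨u, hu, hu0, hσ⟩
    have hu' : descSig σ⁻¹ u ≠ 0 := (map_ne_zero_iff _ (descSig_injective σ⁻¹)).mpr hu0
    refine ⟨(descSig σ⁻¹ u)⁻¹, inv_mem (hF σ⁻¹ u hu), inv_ne_zero hu', ?_⟩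
    have h1 : descSig σ⁻¹ (descSig σ f) = descSig σ⁻¹ f * descSig σ⁻¹ u ^ p := by
      rw [hσ, map_mul, map_pow]
    rw [descSig_inv_apply] at h1
    conv_rhs => rw [h1]
    rw [inv_pow, mul_assoc, mul_inv_cancel₀ (pow_ne_zero _ hu'), mul_one]

theorem mem_descStab {σ : Ω ≃ₐ[K] Ω} :
    σ ∈ descStab F hF f p ↔ ∃ u ∈ F, u ≠ 0 ∧ descSig σ f = f * u ^ p := Iff.rfl

/-- If the orbit of the class of `f` is contained in a finite set of classes, the stabiliser has
finite index. -/
theorem descStab_index_ne_zero (T : Set (LaurentSeries Ω)) (hT : T.Finite)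
    (horb : ∀ σ : Ω ≃ₐ[K] Ω, ∃ t ∈ T, ∃ u ∈ F, u ≠ 0 ∧ descSig σ f = t * u ^ p) :
    (descStab F hF f p).index ≠ 0 := by
  classical
  have hTfin : Finite T := hT
  choose t ht u hu hu0 hσ using horb
  have key : ∀ σ τ : Ω ≃ₐ[K] Ω, t σ = t τ → τ⁻¹ * σ ∈ descStab F hF f p := by
    intro σ τ hst
    have huτ : u τ ^ p ≠ 0 := pow_ne_zero _ (hu0 τ)
    -- `σ f = τ f * (u σ / u τ)^p`
    have h1 : descSig σ f = descSig τ f * (u σ / u τ) ^ p := by
      rw [hσ σ, hσ τ, hst, div_pow]
      field_simp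
    refine ⟨descSig τ⁻¹ (u σ / u τ), hF _ _ (div_mem (hu σ) (hu τ)),
      (map_ne_zero_iff _ (descSig_injective τ⁻¹)).mpr (div_ne_zero (hu0 σ) (hu0 τ)), ?_⟩
    rw [descSig_mul, h1, map_mul, map_pow, descSig_inv_apply]
  have hinj : Function.Injective
      (fun Q : (Ω ≃ₐ[K] Ω) ⧸ descStab F hF f p => (⟨t Q.out, ht Q.out⟩ : T)) := by
    intro Q Q' hQ
    have h1 : t Q.out = t Q'.out := congrArg Subtype.val hQ
    have h2 := key Q'.out Q.out h1.symm
    have h3 : (Q.out : (Ω ≃ₐ[K] Ω) ⧸ descStab F hF f p) = Q'.out :=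
      QuotientGroup.eq.mpr h2
    rwa [QuotientGroup.out_eq', QuotientGroup.out_eq'] at h3
  have hfin : Finite ((Ω ≃ₐ[K] Ω) ⧸ descStab F hF f p) := Finite.of_injective _ hinj
  exact (Subgroup.finiteIndex_of_finite_quotient (H := descStab F hF f p)).index_ne_zero

end Stab

end Fermat.Agent.S29.H152

end
-- ===== PACK-END S29/H152/DescStab.lean

-- ===== PACK-BEGIN S29/H282/Special.lean
section


/-!
# S29 / M4b-K2 (helper282) — special elements of `SL₂(ℤ)`

`IsSpecialElt γ`: `γ` has finite order or trace `2`.  All conjugates of powers of `1`, `S`, `S * T`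
and `T` are special.  (These are the stabilisers of the points of `ℍ ∪ ℙ¹(ℚ)`; a character of
`Γ₀(N)` which is trivial on the special elements of `Γ₀(N)` is "unramified everywhere".)
-/

set_option autoImplicit false

open scoped MatrixGroups
open Matrix

namespace Fermat.Agent.S29.H282

/-- `γ` has finite order or trace `2`. -/
def IsSpecialElt (γ : SL(2, ℤ)) : Prop :=
  (∃ n : ℕ, 0 < n ∧ γ ^ n = 1) ∨ (γ : Matrix (Fin 2) (Fin 2) ℤ).trace = 2

theorem modS_pow_four : (ModularGroup.S : SL(2, ℤ)) ^ 4 = 1 := by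
  apply Subtype.ext
  rw [Matrix.SpecialLinearGroup.coe_pow, ModularGroup.coe_S]
  have h2 : (!![0, -1; 1, 0] : Matrix (Fin 2) (Fin 2) ℤ) ^ 2 = -1 := by
    rw [pow_two, Matrix.mul_fin_two]
    ext i j
    fin_cases i <;> fin_cases j <;> simp
  rw [show (4 : ℕ) = 2 * 2 from rfl, pow_mul, h2]
  simp

theorem modST_pow_six : (ModularGroup.S * ModularGroup.T : SL(2, ℤ)) ^ 6 = 1 := by
  apply Subtype.ext
  rw [Matrix.SpecialLinearGroup.coe_pow, Matrix.SpecialLinearGroup.coe_mul, ModularGroup.coe_S,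
    ModularGroup.coe_T]
  have h0 : (!![0, -1; 1, 0] * !![1, 1; 0, 1] : Matrix (Fin 2) (Fin 2) ℤ) = !![0, -1; 1, 1] := by
    rw [Matrix.mul_fin_two]
    ext i j
    fin_cases i <;> fin_cases j <;> simp
  have h2 : (!![0, -1; 1, 1] : Matrix (Fin 2) (Fin 2) ℤ) ^ 2 = !![-1, -1; 1, 0] := by
    rw [pow_two, Matrix.mul_fin_two]
    ext i j
    fin_cases i <;> fin_cases j <;> simp
  have h3 : (!![0, -1; 1, 1] : Matrix (Fin 2) (Fin 2) ℤ) ^ 3 = -1 := by
    rw [pow_succ, h2, Matrix.mul_fin_two]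
    ext i j
    fin_cases i <;> fin_cases j <;> simp
  rw [h0, show (6 : ℕ) = 3 * 2 from rfl, pow_mul, h3]
  simp

theorem trace_modT_pow (e : ℕ) :
    ((ModularGroup.T ^ e : SL(2, ℤ)) : Matrix (Fin 2) (Fin 2) ℤ).trace = 2 := by
  have h := ModularGroup.coe_T_zpow (e : ℤ)
  rw [zpow_natCast] at h
  rw [h, Matrix.trace_fin_two]
  simp

theorem trace_conj_SL (g γ : SL(2, ℤ)) :
    ((g⁻¹ * γ * g : SL(2, ℤ)) : Matrix (Fin 2) (Fin 2) ℤ).trace
      = (γ : Matrix (Fin 2) (Fin 2) ℤ).trace := by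
  rw [Matrix.SpecialLinearGroup.coe_mul, Matrix.trace_mul_comm,
    ← Matrix.SpecialLinearGroup.coe_mul, mul_inv_cancel_left]

theorem conj_pow_SL (g γ : SL(2, ℤ)) (n : ℕ) : (g⁻¹ * γ * g) ^ n = g⁻¹ * γ ^ n * g := by
  induction n with
  | zero => simp
  | succ n ih => rw [pow_succ, ih, pow_succ]; group

theorem IsSpecialElt.conj {γ : SL(2, ℤ)} (h : IsSpecialElt γ) (g : SL(2, ℤ)) :
    IsSpecialElt (g⁻¹ * γ * g) := by
  rcases h with ⟨n, hn, h⟩ | h
  · exact Or.inl ⟨n, hn, by rw [conj_pow_SL, h]; group⟩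
  · exact Or.inr (by rw [trace_conj_SL, h])

theorem isSpecialElt_of_pow_eq_one {γ : SL(2, ℤ)} {n : ℕ} (hn : 0 < n) (h : γ ^ n = 1) :
    IsSpecialElt γ := Or.inl ⟨n, hn, h⟩

theorem isSpecialElt_one_pow (e : ℕ) : IsSpecialElt ((1 : SL(2, ℤ)) ^ e) :=
  isSpecialElt_of_pow_eq_one one_pos (by simp)

theorem isSpecialElt_S_pow (e : ℕ) : IsSpecialElt ((ModularGroup.S : SL(2, ℤ)) ^ e) :=
  isSpecialElt_of_pow_eq_one (n := 4) (by norm_num)
    (by rw [← pow_mul, mul_comm, pow_mul, modS_pow_four, one_pow])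

theorem isSpecialElt_ST_pow (e : ℕ) :
    IsSpecialElt ((ModularGroup.S * ModularGroup.T : SL(2, ℤ)) ^ e) :=
  isSpecialElt_of_pow_eq_one (n := 6) (by norm_num)
    (by rw [← pow_mul, mul_comm, pow_mul, modST_pow_six, one_pow])

theorem isSpecialElt_T_pow (e : ℕ) : IsSpecialElt ((ModularGroup.T : SL(2, ℤ)) ^ e) :=
  Or.inr (trace_modT_pow e)

end Fermat.Agent.S29.H282

end
-- ===== PACK-END S29/H282/Special.lean

-- ===== PACK-BEGIN S28/H626/Twist.lean
section
/-
S28 helper (helper626): twists `t ↦ c t` of Laurent series, the family `j(ξ tⁿ)`,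
and transport of two-variable integral polynomial relations along ring homomorphisms.
Mathlib + Prelude only.
-/



set_option autoImplicit false

noncomputable section

open ModularCurve HahnSeries Polynomial

namespace Fermat.Agent.S28.H626

/-! ### Twist `t ↦ c t` -/

section Twist

variable {R : Type*} [CommRing R]

theorem coeff_mul_of_support_subset {x y : LaurentSeries R} {a : ℤ} {s t : Set ℤ}
    (hs : s.IsPWO) (ht : t.IsPWO) (hxs : x.support ⊆ s) (hyt : y.support ⊆ t) :
    (x * y).coeff a =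
      ∑ ij ∈ Finset.antidiagonal hs ht a, x.coeff ij.fst * y.coeff ij.snd := by
  rw [HahnSeries.coeff_mul_left' hs hxs]
  refine Finset.sum_subset (Finset.antidiagonal_mono_right hyt) ?_
  intro ij hij hnot
  have hj : ij.2 ∉ y.support := by
    intro hj
    apply hnot
    rw [Finset.mem_antidiagonal] at hij ⊢
    exact ⟨hij.1, hj, hij.2.2⟩
  simp only [HahnSeries.mem_support, not_not] at hj
  rw [hj, mul_zero]

/-- underlying function of `twist` -/
def twistFun (c : Rˣ) (φ : LaurentSeries R) : LaurentSeries R where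
  coeff n := ((c ^ n : Rˣ) : R) * φ.coeff n
  isPWO_support' := φ.isPWO_support.mono fun n hn => by
    simp only [Function.mem_support, ne_eq] at hn
    simp only [HahnSeries.mem_support, ne_eq]
    intro h
    exact hn (by rw [h, mul_zero])

@[simp] theorem twistFun_coeff (c : Rˣ) (φ : LaurentSeries R) (n : ℤ) :
    (twistFun c φ).coeff n = ((c ^ n : Rˣ) : R) * φ.coeff n := rfl

theorem twistFun_support (c : Rˣ) (φ : LaurentSeries R) :
    (twistFun c φ).support ⊆ φ.support := by
  intro m hm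
  simp only [HahnSeries.mem_support, twistFun_coeff] at hm ⊢
  intro h0
  exact hm (by rw [h0, mul_zero])

/-- The substitution `t ↦ c t` on Laurent series, for a unit `c`:
`(twist c φ).coeff n = c ^ n * φ.coeff n`. -/
def twist (c : Rˣ) : LaurentSeries R →+* LaurentSeries R where
  toFun := twistFun c
  map_zero' := by ext n; simp
  map_one' := by
    ext n
    by_cases h : n = 0
    · subst h; simp
    · simp [HahnSeries.coeff_one, h]
  map_add' φ ψ := by ext n; simp [mul_add]
  map_mul' φ ψ := by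
    ext n
    rw [coeff_mul_of_support_subset φ.isPWO_support ψ.isPWO_support (twistFun_support c φ)
      (twistFun_support c ψ)]
    simp only [twistFun_coeff, HahnSeries.coeff_mul, Finset.mul_sum]
    refine Finset.sum_congr rfl ?_
    intro ij hij
    rw [Finset.mem_antidiagonal] at hij
    rw [← hij.2.2, zpow_add, Units.val_mul]
    ring

@[simp] theorem twist_coeff (c : Rˣ) (φ : LaurentSeries R) (n : ℤ) :
    (twist c φ).coeff n = ((c ^ n : Rˣ) : R) * φ.coeff n := rfl

theorem twist_one_apply (φ : LaurentSeries R) : twist (1 : Rˣ) φ = φ := by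
  ext n; simp

theorem twist_twist (c d : Rˣ) (φ : LaurentSeries R) :
    twist c (twist d φ) = twist (c * d) φ := by
  ext n
  simp only [twist_coeff, mul_zpow, Units.val_mul]
  ring

/-- `f((c t)^m) = f(c^m t^m)`. -/
theorem twist_qExpand (c : Rˣ) (m : ℕ) [NeZero m] (φ : LaurentSeries R) :
    twist c (qExpand R m φ) = qExpand R m (twist (c ^ m) φ) := by
  ext n
  by_cases hn : (m : ℤ) ∣ n
  · obtain ⟨k, rfl⟩ := hn
    rw [twist_coeff, qExpand_coeff_mul, qExpand_coeff_mul, twist_coeff]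
    congr 2
    rw [← zpow_natCast, ← zpow_mul]
  · rw [twist_coeff, qExpand_coeff_of_not_dvd _ _ hn, qExpand_coeff_of_not_dvd _ _ hn, mul_zero]

end Twist

end Fermat.Agent.S28.H626

end

end
-- ===== PACK-END S28/H626/Twist.lean

-- ===== PACK-BEGIN S28/H326/Newton.lean
section
/-
S28 / helper326: Newton's identities, membership form.

If all power sums of a finite family `z` in a commutative `ℚ`-algebra lie in a `ℚ`-subalgebra `B`,
then so do all elementary symmetric functions; hence `∏ (X - z i)` has coefficients in `B`.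
-/


set_option autoImplicit false

namespace Fermat.Agent.S28.H326

open Finset

/-- **Newton**: power sums in `B` ⟹ elementary symmetric functions in `B`. -/
theorem esymm_mem_of_psum_mem {Ω : Type*} [CommRing Ω] [Algebra ℚ Ω] (B : Subalgebra ℚ Ω)
    {σ : Type*} [Fintype σ] (z : σ → Ω) (h : ∀ m : ℕ, 0 < m → ∑ i, z i ^ m ∈ B) (k : ℕ) :
    (Finset.univ.val.map z).esymm k ∈ B := by
  induction k using Nat.strong_induction_on with
  | _ k ih =>
    rcases Nat.eq_zero_or_pos k with rfl | hk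
    · have : (Finset.univ.val.map z).esymm 0 = 1 := by simp [Multiset.esymm]
      rw [this]; exact one_mem B
    · have key := congrArg (MvPolynomial.aeval (R := ℚ) z) (MvPolynomial.mul_esymm_eq_sum σ ℚ k)
      simp only [map_mul, map_natCast, map_pow, map_neg, _root_.map_one, map_sum,
        MvPolynomial.aeval_esymm_eq_multiset_esymm] at key
      have hps : ∀ m : ℕ, MvPolynomial.aeval (R := ℚ) z (MvPolynomial.psum σ ℚ m) = ∑ i, z i ^ m := by
        intro m
        simp [MvPolynomial.psum]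
      simp only [hps] at key
      have hR : (-1 : Ω) ^ (k + 1) * ∑ a ∈ antidiagonal k with a.1 < k,
          (-1 : Ω) ^ a.1 * (Finset.univ.val.map z).esymm a.1 * ∑ i, z i ^ a.2 ∈ B := by
        refine mul_mem (pow_mem (neg_mem (one_mem B)) _) (sum_mem fun a ha => ?_)
        rw [mem_filter, HasAntidiagonal.mem_antidiagonal] at ha
        refine mul_mem (mul_mem (pow_mem (neg_mem (one_mem B)) _) (ih a.1 ha.2)) (h a.2 (by omega))
      rw [← key] at hR
      have hk0 : (k : ℚ) ≠ 0 := by exact_mod_cast hk.ne'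
      have : (Finset.univ.val.map z).esymm k =
          (k : ℚ)⁻¹ • ((k : Ω) * (Finset.univ.val.map z).esymm k) := by
        rw [← nsmul_eq_mul, ← Nat.cast_smul_eq_nsmul ℚ k, smul_smul,
          inv_mul_cancel₀ hk0, one_smul]
      rw [this]
      exact B.smul_mem hR _

/-- Vieta + Newton: the monic polynomial with roots `z i` has coefficients in `B`. -/
theorem prod_X_sub_C_mem_of_psum_mem {Ω : Type*} [CommRing Ω] [Algebra ℚ Ω] (B : Subalgebra ℚ Ω)
    {σ : Type*} [Fintype σ] (z : σ → Ω) (h : ∀ m : ℕ, 0 < m → ∑ i, z i ^ m ∈ B) (n : ℕ) :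
    (∏ i, (Polynomial.X - Polynomial.C (z i))).coeff n ∈ B := by
  have hV := Multiset.prod_X_sub_X_eq_sum_esymm (Finset.univ.val.map z)
  rw [Multiset.map_map] at hV
  have hprod : (∏ i, (Polynomial.X - Polynomial.C (z i))) =
      (Multiset.map ((fun t => Polynomial.X - Polynomial.C t) ∘ z) Finset.univ.val).prod := by
    rfl
  rw [hprod, hV, Polynomial.finsetSum_coeff]
  refine sum_mem fun j _ => ?_
  have : ((-1 : Polynomial Ω) ^ j * (Polynomial.C ((Finset.univ.val.map z).esymm j) *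
      Polynomial.X ^ (Multiset.card (Finset.univ.val.map z) - j))) =
      Polynomial.C ((-1) ^ j * (Finset.univ.val.map z).esymm j) *
        Polynomial.X ^ (Multiset.card (Finset.univ.val.map z) - j) := by
    simp [mul_assoc]
  rw [this, Polynomial.coeff_C_mul_X_pow]
  split_ifs
  · exact mul_mem (pow_mem (neg_mem (one_mem B)) _) (esymm_mem_of_psum_mem B z h j)
  · exact zero_mem B

end Fermat.Agent.S28.H326

end
-- ===== PACK-END S28/H326/Newton.lean

-- ===== PACK-BEGIN S28/H326/Basic.lean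
section
/-
S28 / helper326: formal conjugation operators on power series over `ℂ`
(`q ↦ ζ^b t` and `q ↦ t^(p²)`, base embedding `q ↦ t^p`) and the Hecke power-sum identity.
-/




set_option autoImplicit false
set_option linter.unusedSectionVars false

noncomputable section

namespace Fermat.Agent.S28.H326

open ModularCurve HahnSeries

/-- `ℂ⟦X⟧ → ℂ((t))`. -/
abbrev ofPS : PowerSeries ℂ →+* LaurentSeries ℂ := HahnSeries.ofPowerSeries ℤ ℂ

theorem ofPS_coeff_nat (g : PowerSeries ℂ) (n : ℕ) : (ofPS g).coeff (n : ℤ) = g.coeff n :=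
  HahnSeries.ofPowerSeries_apply_coeff g n

theorem ofPS_coeff_neg (g : PowerSeries ℂ) {n : ℤ} (hn : n < 0) : (ofPS g).coeff n = 0 :=
  ofPowerSeries_coeff_of_neg g hn

/-- The primitive `p`-th root of unity `exp(2πi/p)`. -/
def zeta (p : ℕ) : ℂ := Complex.exp (2 * Real.pi * Complex.I / p)

theorem zeta_isPrimitiveRoot (p : ℕ) [NeZero p] : IsPrimitiveRoot (zeta p) p :=
  Complex.isPrimitiveRoot_exp p (NeZero.ne p)

theorem zeta_pow_self (p : ℕ) [NeZero p] : zeta p ^ p = 1 := (zeta_isPrimitiveRoot p).pow_eq_one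

theorem zeta_ne_zero (p : ℕ) : zeta p ≠ 0 := Complex.exp_ne_zero _

/-- root-of-unity orthogonality -/
theorem sum_zeta_pow (p : ℕ) [NeZero p] (k : ℕ) :
    ∑ b ∈ Finset.range p, (zeta p ^ b) ^ k = if p ∣ k then (p : ℂ) else 0 := by
  have hz := zeta_isPrimitiveRoot p
  split_ifs with h
  · have : ∀ b ∈ Finset.range p, (zeta p ^ b) ^ k = 1 := by
      intro b _
      rw [← pow_mul, mul_comm, pow_mul, (hz.pow_eq_one_iff_dvd k).mpr h, one_pow]
    rw [Finset.sum_congr rfl this]
    simp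
  · have h1 : zeta p ^ k ≠ 1 := fun hh => h ((hz.pow_eq_one_iff_dvd k).mp hh)
    have h2 : ∑ b ∈ Finset.range p, (zeta p ^ b) ^ k = ∑ b ∈ Finset.range p, (zeta p ^ k) ^ b := by
      refine Finset.sum_congr rfl fun b _ => ?_
      rw [← pow_mul, ← pow_mul, mul_comm]
    rw [h2]
    have h3 := mul_neg_geom_sum (zeta p ^ k) p
    have h4 : (zeta p ^ k) ^ p = 1 := by
      rw [← pow_mul, mul_comm, pow_mul, zeta_pow_self, one_pow]
    rw [h4, sub_self] at h3
    rcases mul_eq_zero.mp h3 with h5 | h5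
    · exact absurd (sub_eq_zero.mp h5).symm h1
    · exact h5

variable (p : ℕ) [NeZero p]

/-- conjugate `g(q) ↦ g(ζ^b t)` -/
def cB (b : ℕ) : PowerSeries ℂ →+* LaurentSeries ℂ :=
  ofPS.comp (PowerSeries.rescale (zeta p ^ b))

/-- base embedding `g(q) ↦ g(t^p)` -/
def cBase : PowerSeries ℂ →+* LaurentSeries ℂ :=
  (qExpand ℂ p).comp ofPS

/-- conjugate `g(q) ↦ g(t^(p²))` -/
def cInf : PowerSeries ℂ →+* LaurentSeries ℂ :=
  (qExpand ℂ p).comp (cBase p)

/-- `U_p` on power series. -/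
def Up (g : PowerSeries ℂ) : PowerSeries ℂ := PowerSeries.mk fun n => g.coeff (n * p)

@[simp] theorem coeff_Up (g : PowerSeries ℂ) (n : ℕ) : (Up p g).coeff n = g.coeff (n * p) := by
  simp [Up]

theorem cB_coeff_nat (b : ℕ) (g : PowerSeries ℂ) (n : ℕ) :
    (cB p b g).coeff (n : ℤ) = (zeta p ^ b) ^ n * g.coeff n := by
  simp [cB, ofPS_coeff_nat, PowerSeries.coeff_rescale]

theorem cB_coeff_neg (b : ℕ) (g : PowerSeries ℂ) {n : ℤ} (hn : n < 0) :
    (cB p b g).coeff n = 0 := by
  simp [cB, ofPS_coeff_neg _ hn]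

theorem cB_zero (g : PowerSeries ℂ) : cB p 0 g = ofPS g := by
  simp [cB]

theorem cBase_coeff_mul (g : PowerSeries ℂ) (n : ℕ) :
    (cBase p g).coeff ((p : ℤ) * n) = g.coeff n := by
  rw [cBase, RingHom.comp_apply, qExpand_coeff_mul, ofPS_coeff_nat]

theorem cBase_coeff_of_not_dvd (g : PowerSeries ℂ) {n : ℤ} (hn : ¬ (p : ℤ) ∣ n) :
    (cBase p g).coeff n = 0 := by
  rw [cBase, RingHom.comp_apply, qExpand_coeff_of_not_dvd p _ hn]

theorem cBase_coeff_neg (g : PowerSeries ℂ) {n : ℤ} (hn : n < 0) :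
    (cBase p g).coeff n = 0 := by
  by_cases h : (p : ℤ) ∣ n
  · obtain ⟨m, rfl⟩ := h
    rw [cBase, RingHom.comp_apply, qExpand_coeff_mul]
    refine ofPS_coeff_neg _ ?_
    have hp : (0 : ℤ) < p := by exact_mod_cast Nat.pos_of_ne_zero (NeZero.ne p)
    by_contra hm
    rw [not_lt] at hm
    have := mul_nonneg hp.le hm
    omega
  · exact cBase_coeff_of_not_dvd p g h

theorem natCast_mul_coeff (c : ℕ) (x : LaurentSeries ℂ) (n : ℤ) :
    ((c : LaurentSeries ℂ) * x).coeff n = (c : ℂ) * x.coeff n := by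
  have : (c : LaurentSeries ℂ) = HahnSeries.C (c : ℂ) := by simp
  rw [this, HahnSeries.C_mul_eq_smul, HahnSeries.coeff_smul, smul_eq_mul]

/-- **Hecke power-sum identity**: `∑_b g(ζ^b t) = p · (U_p g)(t^p)`. -/
theorem sum_cB (g : PowerSeries ℂ) :
    ∑ b ∈ Finset.range p, cB p b g = (p : LaurentSeries ℂ) * cBase p (Up p g) := by
  ext n
  rw [HahnSeries.coeff_sum, natCast_mul_coeff]
  rcases lt_or_ge n 0 with hn | hn
  · rw [cBase_coeff_neg p _ hn, mul_zero]
    exact Finset.sum_eq_zero fun b _ => cB_coeff_neg p b g hn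
  · lift n to ℕ using hn
    simp only [cB_coeff_nat]
    rw [← Finset.sum_mul, sum_zeta_pow]
    split_ifs with h
    · obtain ⟨m, rfl⟩ := h
      have : ((p * m : ℕ) : ℤ) = (p : ℤ) * m := by push_cast; ring
      rw [this, cBase_coeff_mul, coeff_Up, mul_comm m p]
    · have : ¬ (p : ℤ) ∣ (n : ℤ) := by exact_mod_cast h
      rw [cBase_coeff_of_not_dvd p _ this, zero_mul, mul_zero]

end Fermat.Agent.S28.H326

end
end
-- ===== PACK-END S28/H326/Basic.lean

-- ===== PACK-BEGIN S28/H505/Bridge.lean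
section






open UpperHalfPlane ModularForm EisensteinSeries Filter Topology
open scoped PowerSeries.WithPiTopology

namespace Fermat.Agent.S28.H505

theorem bernoulli_four_eq : bernoulli 4 = -1 / 30 := by
  rw [bernoulli_eq_bernoulli'_of_ne_one (by norm_num)]
  simp [bernoulli'_four]

/-- (B1) The Mathlib `q`-expansion of `E₄` is the Prelude's formal series `eisenstein4`. -/
theorem qExpansion_E₄_eq :
    qExpansion 1 E₄ = ModularCurve.eisenstein4.map (Int.castRingHom ℂ) := by
  ext m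
  rw [E_qExpansion_coeff (by norm_num) (by decide) m, PowerSeries.coeff_map,
    ModularCurve.eisenstein4, PowerSeries.coeff_mk]
  split_ifs with h
  · simp
  · rw [bernoulli_four_eq, ArithmeticFunction.sigma_apply]
    simp only [eq_intCast]
    push_cast
    ring

/-- Taylor power series at `0` of a function `ℂ → ℂ`. -/
noncomputable def taylorPS (g : ℂ → ℂ) : PowerSeries ℂ :=
  .mk fun m => (m.factorial : ℂ)⁻¹ * iteratedDeriv m g 0

theorem coeff_taylorPS (g : ℂ → ℂ) (m : ℕ) :
    (taylorPS g).coeff m = (m.factorial : ℂ)⁻¹ * iteratedDeriv m g 0 := by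
  simp [taylorPS]

theorem qExpansion_eq_taylorPS (h : ℝ) (f : ℍ → ℂ) :
    qExpansion h f = taylorPS (cuspFunction h f) := rfl

theorem taylorPS_congr {g h : ℂ → ℂ} (hgh : g =ᶠ[𝓝 0] h) : taylorPS g = taylorPS h := by
  ext m
  simp [coeff_taylorPS, hgh.iteratedDeriv_eq m]

theorem taylorPS_mul {g h : ℂ → ℂ} (hg : AnalyticAt ℂ g 0) (hh : AnalyticAt ℂ h 0) :
    taylorPS (g * h) = taylorPS g * taylorPS h := by
  ext
  simp only [coeff_taylorPS,
    iteratedDeriv_mul hg.contDiffAt hh.contDiffAt, Finset.mul_sum, PowerSeries.coeff_mul,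
    Finset.Nat.sum_antidiagonal_eq_sum_range_succ_mk, Nat.succ_eq_add_one]
  refine Finset.sum_congr rfl fun i hi ↦ ?_
  rw [Nat.cast_choose _ (by grind)]
  field_simp [Nat.factorial_ne_zero]

theorem iteratedDeriv_polynomial_eval (p : Polynomial ℂ) (m : ℕ) :
    iteratedDeriv m (fun x => p.eval x) = fun x => ((⇑Polynomial.derivative)^[m] p).eval x := by
  induction m generalizing p with
  | zero => simp
  | succ m ih =>
    rw [iteratedDeriv_succ']
    have : deriv (fun x => p.eval x) = fun x => (Polynomial.derivative p).eval x :=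
      funext fun x => Polynomial.deriv p
    rw [this, ih, Function.iterate_succ_apply]

theorem taylorPS_polynomial (p : Polynomial ℂ) :
    taylorPS (fun x => p.eval x) = (p : PowerSeries ℂ) := by
  ext m
  rw [coeff_taylorPS, iteratedDeriv_polynomial_eval, Polynomial.coeff_coe]
  beta_reduce
  rw [← Polynomial.coeff_zero_eq_eval_zero, Polynomial.coeff_iterate_derivative, zero_add,
    Nat.descFactorial_self, nsmul_eq_mul, ← mul_assoc,
    inv_mul_cancel₀ (by exact_mod_cast Nat.factorial_ne_zero m), one_mul]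

theorem differentiableOn_iteratedDeriv {g : ℂ → ℂ} {U : Set ℂ} (hU : IsOpen U)
    (hg : DifferentiableOn ℂ g U) (k : ℕ) : DifferentiableOn ℂ (iteratedDeriv k g) U := by
  induction k with
  | zero => simpa using hg
  | succ k ih => rw [iteratedDeriv_succ]; exact ih.deriv hU

theorem tendstoLocallyUniformlyOn_iteratedDeriv {ι : Type*} {φ : Filter ι} {F : ι → ℂ → ℂ}
    {f : ℂ → ℂ} {U : Set ℂ} (hU : IsOpen U) (hf : TendstoLocallyUniformlyOn F f φ U)
    (hF : ∀ᶠ n in φ, DifferentiableOn ℂ (F n) U) (k : ℕ) :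
    TendstoLocallyUniformlyOn (fun n => iteratedDeriv k (F n)) (iteratedDeriv k f) φ U := by
  induction k with
  | zero => simpa using hf
  | succ k ih =>
    have h1 : ∀ᶠ n in φ, DifferentiableOn ℂ (iteratedDeriv k (F n)) U := by
      filter_upwards [hF] with n hn using differentiableOn_iteratedDeriv hU hn k
    have := ih.deriv h1 hU
    simpa only [iteratedDeriv_succ, Function.comp_def] using this

/-- the analytic Euler product on the unit disc -/
noncomputable def eulerFun (q : ℂ) : ℂ := ∏' n : ℕ, (1 - q ^ (n + 1))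

theorem eulerFun_differentiableOn : DifferentiableOn ℂ eulerFun (Metric.ball 0 1) :=
  differentiableOn_tprod_one_sub_pow

theorem eulerFun_analyticAt : AnalyticAt ℂ eulerFun 0 :=
  eulerFun_differentiableOn.analyticAt (Metric.ball_mem_nhds 0 one_pos)

/-- partial Euler products as polynomials over `ℤ` -/
noncomputable def eulerPoly (t : Finset ℕ) : Polynomial ℤ :=
  ∏ i ∈ t, (1 - Polynomial.X ^ (i + 1))

theorem eulerPoly_eval (t : Finset ℕ) (q : ℂ) :
    ((eulerPoly t).map (Int.castRingHom ℂ)).eval q = ∏ i ∈ t, (1 - q ^ (i + 1)) := by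
  simp [eulerPoly, Polynomial.map_prod, Polynomial.eval_prod]

theorem eulerPoly_coe (t : Finset ℕ) :
    ((eulerPoly t : Polynomial ℤ) : PowerSeries ℤ) = ∏ i ∈ t, (1 - PowerSeries.X ^ (i + 1)) := by
  rw [eulerPoly, ← Polynomial.coeToPowerSeries.ringHom_apply, _root_.map_prod]
  simp [Polynomial.coeToPowerSeries.ringHom_apply]

theorem tendsto_coeff_eulerPoly (k : ℕ) :
    Tendsto (fun t : Finset ℕ => (((eulerPoly t).coeff k : ℤ) : ℂ)) atTop
      (𝓝 ((ModularCurve.etaProd.coeff k : ℤ) : ℂ)) := by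
  have h1 : Tendsto (fun t : Finset ℕ => ∏ i ∈ t, ((1 : PowerSeries ℤ) - PowerSeries.X ^ (i + 1)))
      atTop (𝓝 ModularCurve.etaProd) :=
    (PowerSeries.WithPiTopology.multipliable_one_sub_X_pow ℤ).hasProd
  have h2 := ((PowerSeries.WithPiTopology.continuous_coeff ℤ k).tendsto _).comp h1
  have h3 : Continuous (fun n : ℤ => (n : ℂ)) := continuous_of_discreteTopology
  have h4 := (h3.tendsto _).comp h2
  refine h4.congr fun t => ?_
  simp only [Function.comp_apply, ← eulerPoly_coe, Polynomial.coeff_coe]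

theorem taylorPS_eulerFun :
    taylorPS eulerFun = ModularCurve.etaProd.map (Int.castRingHom ℂ) := by
  ext k
  rw [coeff_taylorPS, PowerSeries.coeff_map]
  have hU : IsOpen (Metric.ball (0 : ℂ) 1) := Metric.isOpen_ball
  have h0 : (0 : ℂ) ∈ Metric.ball (0 : ℂ) 1 := Metric.mem_ball_self one_pos
  have hloc : TendstoLocallyUniformlyOn
      (fun (t : Finset ℕ) (q : ℂ) => ∏ i ∈ t, (1 - q ^ (i + 1))) eulerFun atTop
      (Metric.ball 0 1) :=
    hasProdLocallyUniformlyOn_iff_tendstoLocallyUniformlyOn.mp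
      multipliableLocallyUniformlyOn_one_sub_pow.hasProdLocallyUniformlyOn
  have hdiff : ∀ᶠ t : Finset ℕ in atTop,
      DifferentiableOn ℂ (fun q : ℂ => ∏ i ∈ t, (1 - q ^ (i + 1))) (Metric.ball 0 1) :=
    .of_forall fun t => by
      simpa [Finset.prod_fn] using
        DifferentiableOn.finsetProd (u := t) (f := fun i (q : ℂ) => 1 - q ^ (i + 1))
          (fun _ _ ↦ by fun_prop)
  have h1 := (tendstoLocallyUniformlyOn_iteratedDeriv hU hloc hdiff k).tendsto_at h0
  have h2 : ∀ t : Finset ℕ, iteratedDeriv k (fun q : ℂ => ∏ i ∈ t, (1 - q ^ (i + 1))) 0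
      = (k.factorial : ℂ) * (((eulerPoly t).coeff k : ℤ) : ℂ) := by
    intro t
    have := congrArg (PowerSeries.coeff k)
      (taylorPS_polynomial ((eulerPoly t).map (Int.castRingHom ℂ)))
    rw [coeff_taylorPS, Polynomial.coeff_coe, Polynomial.coeff_map] at this
    simp only [eulerPoly_eval, eq_intCast] at this
    rw [← this, ← mul_assoc, mul_inv_cancel₀ (by exact_mod_cast Nat.factorial_ne_zero k), one_mul]
  simp only [h2] at h1
  have h3 := (tendsto_coeff_eulerPoly k).const_mul (k.factorial : ℂ)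
  have h4 := tendsto_nhds_unique h1 h3
  rw [h4, ← mul_assoc, inv_mul_cancel₀ (by exact_mod_cast Nat.factorial_ne_zero k), one_mul]
  simp

theorem taylorPS_id : taylorPS (fun q : ℂ => q) = PowerSeries.X := by
  have := taylorPS_polynomial Polynomial.X
  simpa using this

theorem taylorPS_pow {g : ℂ → ℂ} (hg : AnalyticAt ℂ g 0) (n : ℕ) :
    taylorPS (g ^ n) = taylorPS g ^ n := by
  induction n with
  | zero =>
    have := taylorPS_polynomial 1
    simpa [Pi.one_def] using this
  | succ n ih => rw [pow_succ, pow_succ, taylorPS_mul (hg.pow n) hg, ih]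

/-- (B2) The Mathlib `q`-expansion of `Δ` is `X * etaProd ^ 24`. -/
theorem qExpansion_discriminant_eq :
    qExpansion 1 ModularForm.discriminant =
      PowerSeries.X * (ModularCurve.etaProd.map (Int.castRingHom ℂ)) ^ 24 := by
  rw [qExpansion_eq_taylorPS]
  have h1 : cuspFunction 1 ModularForm.discriminant =ᶠ[𝓝 0]
      ((fun q : ℂ => q) * eulerFun ^ 24) := by
    filter_upwards [Metric.ball_mem_nhds (0 : ℂ) one_pos] with q hq
    rw [discriminant_cuspFunction_eqOn hq]
    simp only [Pi.mul_apply, Pi.pow_apply, eulerFun]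
    rw [(multipliable_one_sub_pow (by simpa using hq)).tprod_pow 24]
  rw [taylorPS_congr h1, taylorPS_mul (by fun_prop) (eulerFun_analyticAt.pow 24), taylorPS_id,
    taylorPS_pow eulerFun_analyticAt, taylorPS_eulerFun]

end Fermat.Agent.S28.H505

end
-- ===== PACK-END S28/H505/Bridge.lean

-- ===== PACK-BEGIN S18/H602/Descent.lean
section



/-!
# S18, piece d1 : descent from `Q̄` to a number field  (owner helper602)

`Q̄ = AlgebraicClosure ℚ`, `A ⊆ Q̄` a valuation subring, `E ⊆ Q̄` a finite extension of `ℚ`,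
`R_E := A ∩ E = A.comap (algebraMap E Q̄)`.

Main results (namespace `Fermat.Agent.S18.H602`):

* `coeffMap_mem_laurentBaseChange` : functoriality of `laurentBaseChange` in the field.
* `exists_finite_descent`, `exists_finite_descent₂` : every element (pair of elements) of
  `laurentBaseChange Q̄ F₀` comes from `laurentBaseChange E F₀` for a finite `E/ℚ`
  (containing any prescribed finite `E₀`).
* `exists_series_descent₂` : the same for Laurent series with coefficients in `A`; they descend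
  to Laurent series with coefficients in `R_E`.
* `coreStatement_of_coreAt` : CORE over `A` follows from CORE over all `R_E`.
-/

set_option autoImplicit false

noncomputable section

namespace Fermat.Agent.S18.H602

open ModularCurve AlgebraicCurve HahnSeries IntermediateField

local notation "Q̄" => AlgebraicClosure ℚ

/-! ## 1. Generalities on `coeffMap` -/

section CoeffMap

variable {R S : Type*} [CommRing R] [CommRing S]

theorem coeffMap_injective (f : R →+* S) (hf : Function.Injective f) :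
    Function.Injective (coeffMap f) := by
  intro x y h
  ext n
  apply hf
  have := congrArg (fun z => z.coeff n) h
  simpa using this

/-- A Laurent series all of whose coefficients lie in the range of an injective ring
homomorphism comes from a Laurent series over the source. -/
theorem exists_coeffMap_eq (f : R →+* S) (hf : Function.Injective f) (y : LaurentSeries S)
    (h : ∀ n, y.coeff n ∈ Set.range f) : ∃ x : LaurentSeries R, coeffMap f x = y := by
  choose c hc using h
  have hsupp : Function.support c = y.support := by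
    ext n
    simp only [Function.mem_support, HahnSeries.mem_support, ne_eq, ← hc n]
    rw [map_eq_zero_iff f hf]
  refine ⟨⟨c, ?_⟩, ?_⟩
  · rw [hsupp]
    exact y.isPWO_support
  · ext n
    simp [hc]

theorem coeffMap_algebraMap' {L L' : Type*} [Field L] [Field L'] (φ : L →+* L') (c : L) :
    coeffMap φ (algebraMap L (LaurentSeries L) c) = algebraMap L' (LaurentSeries L') (φ c) := by
  rw [algebraMap_laurentSeries_eq_single, algebraMap_laurentSeries_eq_single, coeffMap_single]

end CoeffMap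

/-! ## 2. Functoriality of `laurentBaseChange` -/

section Functoriality

variable {L L' : Type*} [Field L] [Field L'] [Algebra ℚ L] [Algebra ℚ L']
variable (F₀ : IntermediateField ℚ (LaurentSeries ℚ))

theorem coeffMap_coeffEmb' (φ : L →+* L') (x : LaurentSeries ℚ) :
    coeffMap φ (coeffEmb L x) = coeffEmb L' x := by
  rw [coeffEmb, coeffMap_coeffMap]
  exact coeffMap_congr (Subsingleton.elim _ _) x

theorem coeffMap_mem_laurentBaseChange (φ : L →+* L') {x : LaurentSeries L}
    (hx : x ∈ laurentBaseChange L F₀) : coeffMap φ x ∈ laurentBaseChange L' F₀ := by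
  rw [mem_laurentBaseChange_iff] at hx
  induction hx using Subfield.closure_induction with
  | mem y hy =>
      rcases hy with ⟨a, rfl⟩ | ⟨z, hz, rfl⟩
      · rw [coeffMap_algebraMap']
        exact (laurentBaseChange L' F₀).algebraMap_mem _
      · rw [coeffMap_coeffEmb']
        exact coeffEmb_mem_laurentBaseChange L' hz
  | one => simp
  | add x y _ _ hx hy => simpa using _root_.AddMemClass.add_mem hx hy
  | neg x _ hx => simpa using _root_.NegMemClass.neg_mem hx
  | inv x _ hx => simpa using _root_.InvMemClass.inv_mem hx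
  | mul x y _ _ hx hy => simpa using _root_.MulMemClass.mul_mem hx hy

end Functoriality

/-! ## 3. Descent of elements of `laurentBaseChange Q̄ F₀` to a finite extension of `ℚ` -/

section FiniteDescent

variable (F₀ : IntermediateField ℚ (LaurentSeries ℚ))

/-- `x ∈ Q̄((q))` is defined over the finite extension `E` (inside the base change of `F₀`). -/
def DescendsTo (E : IntermediateField ℚ Q̄) (x : LaurentSeries Q̄) : Prop :=
  ∃ y ∈ laurentBaseChange E F₀, coeffMap (algebraMap E Q̄) y = x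

variable {F₀}

theorem DescendsTo.mem {E : IntermediateField ℚ Q̄} {x : LaurentSeries Q̄}
    (h : DescendsTo F₀ E x) : x ∈ laurentBaseChange Q̄ F₀ := by
  obtain ⟨y, hy, rfl⟩ := h
  exact _root_.Fermat.Agent.S18.H602.coeffMap_mem_laurentBaseChange F₀ _ hy

theorem DescendsTo.mono {E E' : IntermediateField ℚ Q̄} (hE : E ≤ E') {x : LaurentSeries Q̄}
    (h : DescendsTo F₀ E x) : DescendsTo F₀ E' x := by
  obtain ⟨y, hy, rfl⟩ := h
  refine ⟨coeffMap (IntermediateField.inclusion hE : E →+* E') y,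
    _root_.Fermat.Agent.S18.H602.coeffMap_mem_laurentBaseChange F₀ _ hy, ?_⟩
  rw [coeffMap_coeffMap]
  exact coeffMap_congr (RingHom.ext fun _ => rfl) y

theorem DescendsTo.add {E : IntermediateField ℚ Q̄} {x x' : LaurentSeries Q̄}
    (h : DescendsTo F₀ E x) (h' : DescendsTo F₀ E x') : DescendsTo F₀ E (x + x') := by
  obtain ⟨y, hy, rfl⟩ := h
  obtain ⟨y', hy', rfl⟩ := h'
  exact ⟨y + y', _root_.AddMemClass.add_mem hy hy', _root_.map_add _ _ _⟩

theorem DescendsTo.mul {E : IntermediateField ℚ Q̄} {x x' : LaurentSeries Q̄}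
    (h : DescendsTo F₀ E x) (h' : DescendsTo F₀ E x') : DescendsTo F₀ E (x * x') := by
  obtain ⟨y, hy, rfl⟩ := h
  obtain ⟨y', hy', rfl⟩ := h'
  exact ⟨y * y', _root_.MulMemClass.mul_mem hy hy', _root_.map_mul _ _ _⟩

theorem DescendsTo.neg {E : IntermediateField ℚ Q̄} {x : LaurentSeries Q̄}
    (h : DescendsTo F₀ E x) : DescendsTo F₀ E (-x) := by
  obtain ⟨y, hy, rfl⟩ := h
  exact ⟨-y, _root_.NegMemClass.neg_mem hy, _root_.map_neg _ _⟩

theorem DescendsTo.inv {E : IntermediateField ℚ Q̄} {x : LaurentSeries Q̄}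
    (h : DescendsTo F₀ E x) : DescendsTo F₀ E x⁻¹ := by
  obtain ⟨y, hy, rfl⟩ := h
  exact ⟨y⁻¹, _root_.InvMemClass.inv_mem hy, map_inv₀ _ _⟩

theorem DescendsTo.one (E : IntermediateField ℚ Q̄) : DescendsTo F₀ E 1 :=
  ⟨1, _root_.OneMemClass.one_mem _, _root_.map_one _⟩

theorem descendsTo_const (a : Q̄) :
    DescendsTo F₀ ℚ⟮a⟯ (algebraMap Q̄ (LaurentSeries Q̄) a) := by
  refine ⟨algebraMap ℚ⟮a⟯ (LaurentSeries ℚ⟮a⟯) ⟨a, mem_adjoin_simple_self ℚ a⟩,
    (laurentBaseChange ℚ⟮a⟯ F₀).algebraMap_mem _, ?_⟩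
  rw [coeffMap_algebraMap']
  rfl

theorem descendsTo_coeffEmb (E : IntermediateField ℚ Q̄) {z : LaurentSeries ℚ} (hz : z ∈ F₀) :
    DescendsTo F₀ E (coeffEmb Q̄ z) :=
  ⟨coeffEmb E z, coeffEmb_mem_laurentBaseChange E hz, coeffMap_coeffEmb' _ z⟩

theorem isAlgebraic_Qbar : Algebra.IsAlgebraic ℚ Q̄ := AlgebraicClosure.isAlgebraic ℚ

/-- Every element of `laurentBaseChange Q̄ F₀` is defined over a finite extension of `ℚ`. -/
theorem exists_finite_descent {x : LaurentSeries Q̄} (hx : x ∈ laurentBaseChange Q̄ F₀) :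
    ∃ E : IntermediateField ℚ Q̄, FiniteDimensional ℚ E ∧ DescendsTo F₀ E x := by
  have := isAlgebraic_Qbar
  rw [mem_laurentBaseChange_iff] at hx
  induction hx using Subfield.closure_induction with
  | mem y hy =>
      rcases hy with ⟨a, rfl⟩ | ⟨z, hz, rfl⟩
      · exact ⟨ℚ⟮a⟯, IntermediateField.adjoin.finiteDimensional
          (Algebra.IsAlgebraic.isAlgebraic a).isIntegral, descendsTo_const a⟩
      · exact ⟨⊥, inferInstance, descendsTo_coeffEmb ⊥ hz⟩
  | one => exact ⟨⊥, inferInstance, DescendsTo.one ⊥⟩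
  | add x y _ _ hx hy =>
      obtain ⟨E₁, h₁, hx⟩ := hx
      obtain ⟨E₂, h₂, hy⟩ := hy
      exact ⟨E₁ ⊔ E₂, IntermediateField.finiteDimensional_sup E₁ E₂,
        (hx.mono le_sup_left).add (hy.mono le_sup_right)⟩
  | neg x _ hx =>
      obtain ⟨E₁, h₁, hx⟩ := hx
      exact ⟨E₁, h₁, hx.neg⟩
  | inv x _ hx =>
      obtain ⟨E₁, h₁, hx⟩ := hx
      exact ⟨E₁, h₁, hx.inv⟩
  | mul x y _ _ hx hy =>
      obtain ⟨E₁, h₁, hx⟩ := hx
      obtain ⟨E₂, h₂, hy⟩ := hy
      exact ⟨E₁ ⊔ E₂, IntermediateField.finiteDimensional_sup E₁ E₂,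
        (hx.mono le_sup_left).mul (hy.mono le_sup_right)⟩

/-- Two elements of `laurentBaseChange Q̄ F₀` are defined over a common finite extension of `ℚ`
containing a prescribed finite extension `E₀`. -/
theorem exists_finite_descent₂ (E₀ : IntermediateField ℚ Q̄) [FiniteDimensional ℚ E₀]
    {x₁ x₂ : LaurentSeries Q̄} (h₁ : x₁ ∈ laurentBaseChange Q̄ F₀)
    (h₂ : x₂ ∈ laurentBaseChange Q̄ F₀) :
    ∃ E : IntermediateField ℚ Q̄, FiniteDimensional ℚ E ∧ E₀ ≤ E ∧
      DescendsTo F₀ E x₁ ∧ DescendsTo F₀ E x₂ := by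
  obtain ⟨E₁, hE₁, d₁⟩ := exists_finite_descent h₁
  obtain ⟨E₂, hE₂, d₂⟩ := exists_finite_descent h₂
  have : FiniteDimensional ℚ ↥(E₁ ⊔ E₂) := IntermediateField.finiteDimensional_sup E₁ E₂
  exact ⟨E₀ ⊔ (E₁ ⊔ E₂), IntermediateField.finiteDimensional_sup _ _, le_sup_left,
    d₁.mono (le_sup_left.trans le_sup_right), d₂.mono (le_sup_right.trans le_sup_right)⟩

end FiniteDescent

/-! ## 4. The valuation ring `R_E = A ∩ E` -/

section RE

variable (A : ValuationSubring Q̄) (E : IntermediateField ℚ Q̄)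

/-- `R_E := A ∩ E`, a valuation subring of `E`. -/
def RE : ValuationSubring E := A.comap (algebraMap E Q̄)

variable {A E} in
theorem mem_RE {x : E} : x ∈ RE A E ↔ (x : Q̄) ∈ A := Iff.rfl

/-- The inclusion `R_E → A`. -/
def toA : ↥(RE A E) →+* ↥A :=
  ((algebraMap E Q̄).comp (RE A E).subtype).codRestrict A (fun x => x.2)

@[simp]
theorem coe_toA (x : RE A E) : ((toA A E x : A) : Q̄) = ((x : E) : Q̄) := rfl

theorem toA_injective : Function.Injective (toA A E) := by
  intro x y h
  have h' : ((x : E) : Q̄) = ((y : E) : Q̄) := congrArg (fun z : A => (z : Q̄)) h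
  exact Subtype.ext (Subtype.ext h')

theorem subtype_comp_toA :
    (A.subtype : ↥A →+* Q̄).comp (toA A E) = (algebraMap E Q̄).comp (RE A E).subtype :=
  RingHom.ext fun _ => rfl

instance isLocalHom_toA : IsLocalHom (toA A E) where
  map_nonunit := by
    intro a ha
    obtain ⟨b, hb⟩ := isUnit_iff_exists_inv.mp ha
    have hb' : ((a : E) : Q̄) * (b : Q̄) = 1 := congrArg (fun z : A => (z : Q̄)) hb
    have ha0 : (a : E) ≠ 0 := by
      rintro h0
      rw [h0] at hb'
      simp at hb'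
    have hinv : ((a : E)⁻¹ : E) ∈ RE A E := by
      rw [mem_RE]
      have : (((a : E)⁻¹ : E) : Q̄) = (b : Q̄) := by
        have h1 : (((a : E)⁻¹ : E) : Q̄) = ((a : E) : Q̄)⁻¹ := by simp
        rw [h1]
        exact inv_eq_of_mul_eq_one_right hb'
      rw [this]
      exact b.2
    exact isUnit_iff_exists_inv.mpr ⟨⟨(a : E)⁻¹, hinv⟩, Subtype.ext (mul_inv_cancel₀ ha0)⟩

/-- The map of residue fields `κ_E → k`. -/
def resMap : IsLocalRing.ResidueField (RE A E) →+* IsLocalRing.ResidueField A :=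
  IsLocalRing.ResidueField.map (toA A E)

theorem resMap_injective : Function.Injective (resMap A E) := (resMap A E).injective

theorem resMap_comp_residue :
    (resMap A E).comp (IsLocalRing.residue (RE A E)) = (IsLocalRing.residue A).comp (toA A E) :=
  IsLocalRing.ResidueField.map_comp_residue (toA A E)

theorem coeffMap_residue_toA (V : LaurentSeries (RE A E)) :
    coeffMap (IsLocalRing.residue A) (coeffMap (toA A E) V) =
      coeffMap (resMap A E) (coeffMap (IsLocalRing.residue (RE A E)) V) := by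
  rw [coeffMap_coeffMap, coeffMap_coeffMap, resMap_comp_residue]

variable {A E}

/-- A series over `A` whose image in `Q̄((q))` is defined over `E` comes from a series over
`R_E = A ∩ E`. -/
theorem exists_series_descent {F₀ : IntermediateField ℚ (LaurentSeries ℚ)} (U : LaurentSeries A)
    (h : DescendsTo F₀ E (coeffMap A.subtype U)) :
    ∃ V : LaurentSeries (RE A E),
      coeffMap (RE A E).subtype V ∈ laurentBaseChange E F₀ ∧ coeffMap (toA A E) V = U := by
  obtain ⟨y, hy, hyU⟩ := h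
  have hc : ∀ n, y.coeff n ∈ Set.range (RE A E).subtype := by
    intro n
    have h1 : algebraMap E Q̄ (y.coeff n) = ((U.coeff n : A) : Q̄) := by
      have := congrArg (fun z => z.coeff n) hyU
      simpa using this
    refine ⟨⟨y.coeff n, ?_⟩, rfl⟩
    rw [mem_RE]
    change algebraMap E Q̄ (y.coeff n) ∈ A
    rw [h1]
    exact (U.coeff n).2
  obtain ⟨V, hV⟩ := exists_coeffMap_eq (RE A E).subtype Subtype.val_injective y hc
  refine ⟨V, hV ▸ hy, ?_⟩
  apply coeffMap_injective A.subtype Subtype.val_injective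
  rw [coeffMap_coeffMap, ← hyU, ← hV, coeffMap_coeffMap, subtype_comp_toA]

end RE

/-! ## 5. CORE over `A` from CORE over the rings `R_E` -/

section Core

variable (A : ValuationSubring Q̄) (E : IntermediateField ℚ Q̄) (N : ℕ)

/-- `IsIntAt A E N V`: the series `V ∈ R_E((q))` lies in `F_{N,E} = E(j(q^d) : d ∣ N)` and has
nonzero reduction modulo the maximal ideal of `R_E`. -/
def IsIntAt (V : LaurentSeries (RE A E)) : Prop :=
  coeffMap (RE A E).subtype V ∈ laurentBaseChange E (modularFunctionFieldFull N) ∧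
    coeffMap (IsLocalRing.residue (RE A E)) V ≠ 0

variable {A E N}

theorem IsIntAt.mem_bar {V : LaurentSeries (RE A E)} (h : IsIntAt A E N V) :
    coeffMap (algebraMap E Q̄) (coeffMap (RE A E).subtype V) ∈ modularFunctionFieldBar N :=
  _root_.Fermat.Agent.S18.H602.coeffMap_mem_laurentBaseChange _ _ h.1

/-- The element of `F̄_N = Q̄(j(q^d) : d ∣ N)` defined by an integral series over `R_E`. -/
def toFbar {V : LaurentSeries (RE A E)} (h : IsIntAt A E N V) : modularFunctionFieldBar N :=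
  ⟨coeffMap (algebraMap E Q̄) (coeffMap (RE A E).subtype V), h.mem_bar⟩

theorem coe_toFbar {V : LaurentSeries (RE A E)} (h : IsIntAt A E N V) :
    (toFbar h : LaurentSeries Q̄) = coeffMap A.subtype (coeffMap (toA A E) V) := by
  rw [coeffMap_coeffMap, subtype_comp_toA, ← coeffMap_coeffMap]
  rfl

variable (A E N)

/-- CORE over the ring `R_E = A ∩ E` (a discrete valuation ring when `E/ℚ` is finite and `A`
lies over a prime, see `isDiscreteValuationRing_RE`): two integral series over `R_E` with the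
same (nonzero) reduction, whose quotient has divisor divisible by `m` on `F̄_N`, differ by a
constant times an `m`-th power in `F̄_N`. -/
def CoreAt (m : ℕ) : Prop :=
  ∀ (V₁ V₂ : LaurentSeries (RE A E)) (h₁ : IsIntAt A E N V₁) (h₂ : IsIntAt A E N V₂),
    coeffMap (IsLocalRing.residue (RE A E)) V₁ = coeffMap (IsLocalRing.residue (RE A E)) V₂ →
    (∀ v : Place Q̄ (modularFunctionFieldBar N),
      (m : ℤ) ∣ v.ord (toFbar h₁) - v.ord (toFbar h₂)) →
    ∃ (c : Q̄) (y : modularFunctionFieldBar N), c ≠ 0 ∧ y ≠ 0 ∧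
      toFbar h₁ = algebraMap Q̄ (modularFunctionFieldBar N) c * y ^ m * toFbar h₂

variable {A N}

/-- **Descent (piece d1).**  If CORE holds over `R_E = A ∩ E` for every finite extension `E/ℚ`
inside `Q̄` containing a fixed finite extension `E₀`, then CORE holds over `A`: this is
`Fermat.Agent.S18.CoreStatement N A m` of the row's `Spec.lean`, with `IsInt` and `toF` unfolded
(the hypothesis that the reduction lies in `F_{N,k}` is not needed). -/
theorem core_of_coreAt (m : ℕ) (E₀ : IntermediateField ℚ Q̄) [FiniteDimensional ℚ E₀]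
    (H : ∀ E : IntermediateField ℚ Q̄, FiniteDimensional ℚ E → E₀ ≤ E → CoreAt A E N m)
    (U₁ U₂ : LaurentSeries A)
    (h₁ : coeffMap A.subtype U₁ ∈ modularFunctionFieldBar N)
    (h₂ : coeffMap A.subtype U₂ ∈ modularFunctionFieldBar N)
    (hne : coeffMap (IsLocalRing.residue A) U₁ ≠ 0)
    (hred : coeffMap (IsLocalRing.residue A) U₁ = coeffMap (IsLocalRing.residue A) U₂)
    (hdiv : ∀ v : Place Q̄ (modularFunctionFieldBar N),
      (m : ℤ) ∣ v.ord (⟨coeffMap A.subtype U₁, h₁⟩ : modularFunctionFieldBar N) -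
        v.ord (⟨coeffMap A.subtype U₂, h₂⟩ : modularFunctionFieldBar N)) :
    ∃ (c : Q̄) (y : modularFunctionFieldBar N), c ≠ 0 ∧ y ≠ 0 ∧
      (⟨coeffMap A.subtype U₁, h₁⟩ : modularFunctionFieldBar N) =
        algebraMap Q̄ (modularFunctionFieldBar N) c * y ^ m *
          (⟨coeffMap A.subtype U₂, h₂⟩ : modularFunctionFieldBar N) := by
  obtain ⟨E, hE, hE₀, d₁, d₂⟩ := exists_finite_descent₂ E₀ h₁ h₂
  obtain ⟨V₁, hV₁, rfl⟩ := exists_series_descent U₁ d₁
  obtain ⟨V₂, hV₂, rfl⟩ := exists_series_descent U₂ d₂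
  have hinj := coeffMap_injective (resMap A E) (resMap_injective A E)
  rw [coeffMap_residue_toA] at hne
  rw [coeffMap_residue_toA, coeffMap_residue_toA] at hred
  have i₁ : IsIntAt A E N V₁ := ⟨hV₁, fun h0 => hne (by rw [h0, _root_.map_zero])⟩
  have i₂ : IsIntAt A E N V₂ := ⟨hV₂, fun h0 => hne (by rw [hred, h0, _root_.map_zero])⟩
  have e₁ : toFbar i₁ = (⟨coeffMap A.subtype (coeffMap (toA A E) V₁), h₁⟩ :
      modularFunctionFieldBar N) := Subtype.ext (coe_toFbar i₁)
  have e₂ : toFbar i₂ = (⟨coeffMap A.subtype (coeffMap (toA A E) V₂), h₂⟩ :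
      modularFunctionFieldBar N) := Subtype.ext (coe_toFbar i₂)
  obtain ⟨c, y, hc, hy, hcy⟩ := H E hE hE₀ V₁ V₂ i₁ i₂ (hinj hred) (by
    intro v
    rw [e₁, e₂]
    exact hdiv v)
  exact ⟨c, y, hc, hy, by rw [← e₁, ← e₂]; exact hcy⟩

end Core

end Fermat.Agent.S18.H602

end
end
-- ===== PACK-END S18/H602/Descent.lean

-- ===== PACK-BEGIN S20/Comb694/Basic.lean
section






/-!
# Combinatorics on `SL(2,ℤ) ⧸ Gamma0 N` : basic coset criterion, fixed points of `S` and `S * T`.

Left cosets, Mathlib's left-multiplication action (`MulAction.quotient`).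
-/

set_option autoImplicit false

namespace Fermat.Agent.S20.Comb694

open Matrix MatrixGroups CongruenceSubgroup

/-- The `(1,0)` entry of `g⁻¹ * g'`. -/
lemma inv_mul_apply_one_zero (g g' : SL(2, ℤ)) :
    (g⁻¹ * g') 1 0 = g 0 0 * g' 1 0 - g 1 0 * g' 0 0 := by
  rw [Matrix.SpecialLinearGroup.coe_mul, Matrix.SpecialLinearGroup.coe_inv,
    Matrix.adjugate_fin_two, Matrix.mul_apply, Fin.sum_univ_two]
  simp
  ring

/-- Coset criterion: `g Γ₀(N) = g' Γ₀(N)` iff `a c' - c a' ≡ 0 mod N`, where `(a, c)`, `(a', c')`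
are the first columns of `g`, `g'`. -/
lemma mk_eq_mk_iff (N : ℕ) (g g' : SL(2, ℤ)) :
    (QuotientGroup.mk g : SL(2, ℤ) ⧸ Gamma0 N) = QuotientGroup.mk g' ↔
      ((g 0 0 : ℤ) : ZMod N) * ((g' 1 0 : ℤ) : ZMod N)
        - ((g 1 0 : ℤ) : ZMod N) * ((g' 0 0 : ℤ) : ZMod N) = 0 := by
  rw [QuotientGroup.eq, Gamma0_mem, inv_mul_apply_one_zero]
  push_cast
  rfl

/-- Determinant relation in `ZMod N`. -/
lemma det_cast (N : ℕ) (g : SL(2, ℤ)) :
    ((g 0 0 : ℤ) : ZMod N) * ((g 1 1 : ℤ) : ZMod N)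
      - ((g 0 1 : ℤ) : ZMod N) * ((g 1 0 : ℤ) : ZMod N) = 1 := by
  have h := g.det_coe
  rw [Matrix.det_fin_two] at h
  have := congrArg (fun z : ℤ => (z : ZMod N)) h
  simpa using this

/-- Fixed-point criterion for a general element `γ`. -/
lemma smul_mk_eq_mk_iff (N : ℕ) (γ g : SL(2, ℤ)) :
    γ • (QuotientGroup.mk g : SL(2, ℤ) ⧸ Gamma0 N) = QuotientGroup.mk g ↔
      ((g 0 0 : ℤ) : ZMod N) * (((γ * g) 1 0 : ℤ) : ZMod N)
        - ((g 1 0 : ℤ) : ZMod N) * (((γ * g) 0 0 : ℤ) : ZMod N) = 0 := by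
  rw [MulAction.Quotient.smul_mk, smul_eq_mul, eq_comm, mk_eq_mk_iff]

lemma S_mul_apply_zero_zero (g : SL(2, ℤ)) : (ModularGroup.S * g) 0 0 = - g 1 0 := by
  rw [Matrix.SpecialLinearGroup.coe_mul, ModularGroup.coe_S, Matrix.mul_apply, Fin.sum_univ_two]
  simp

lemma S_mul_apply_one_zero (g : SL(2, ℤ)) : (ModularGroup.S * g) 1 0 = g 0 0 := by
  rw [Matrix.SpecialLinearGroup.coe_mul, ModularGroup.coe_S, Matrix.mul_apply, Fin.sum_univ_two]
  simp

lemma coe_S_mul_T : ((ModularGroup.S * ModularGroup.T : SL(2, ℤ)) : Matrix (Fin 2) (Fin 2) ℤ)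
    = !![0, -1; 1, 1] := by
  rw [Matrix.SpecialLinearGroup.coe_mul, ModularGroup.coe_S, ModularGroup.coe_T]
  ext i j
  fin_cases i <;> fin_cases j <;> simp [Matrix.mul_apply, Fin.sum_univ_two]

lemma ST_mul_apply_zero_zero (g : SL(2, ℤ)) :
    (ModularGroup.S * ModularGroup.T * g) 0 0 = - g 1 0 := by
  rw [Matrix.SpecialLinearGroup.coe_mul, coe_S_mul_T, Matrix.mul_apply, Fin.sum_univ_two]
  simp

lemma ST_mul_apply_one_zero (g : SL(2, ℤ)) :
    (ModularGroup.S * ModularGroup.T * g) 1 0 = g 0 0 + g 1 0 := by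
  rw [Matrix.SpecialLinearGroup.coe_mul, coe_S_mul_T, Matrix.mul_apply, Fin.sum_univ_two]
  simp

/-- `g Γ₀(N)` is fixed by `S` iff `a² + c² ≡ 0 mod N`. -/
lemma S_smul_mk_eq_mk_iff (N : ℕ) (g : SL(2, ℤ)) :
    ModularGroup.S • (QuotientGroup.mk g : SL(2, ℤ) ⧸ Gamma0 N) = QuotientGroup.mk g ↔
      ((g 0 0 : ℤ) : ZMod N) ^ 2 + ((g 1 0 : ℤ) : ZMod N) ^ 2 = 0 := by
  rw [smul_mk_eq_mk_iff, S_mul_apply_zero_zero, S_mul_apply_one_zero]
  push_cast
  constructor <;> intro h <;> linear_combination h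

/-- `g Γ₀(N)` is fixed by `S * T` iff `a² + a c + c² ≡ 0 mod N`. -/
lemma ST_smul_mk_eq_mk_iff (N : ℕ) (g : SL(2, ℤ)) :
    (ModularGroup.S * ModularGroup.T) • (QuotientGroup.mk g : SL(2, ℤ) ⧸ Gamma0 N)
        = QuotientGroup.mk g ↔
      ((g 0 0 : ℤ) : ZMod N) ^ 2 + ((g 0 0 : ℤ) : ZMod N) * ((g 1 0 : ℤ) : ZMod N)
        + ((g 1 0 : ℤ) : ZMod N) ^ 2 = 0 := by
  rw [smul_mk_eq_mk_iff, ST_mul_apply_zero_zero, ST_mul_apply_one_zero]
  push_cast
  constructor <;> intro h <;> linear_combination h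

/-- The matrix `[[x, -1], [1, 0]]` in `SL(2,ℤ)`. -/
def colRep (x : ℤ) : SL(2, ℤ) := ⟨!![x, -1; 1, 0], by simp [Matrix.det_fin_two]⟩

@[simp] lemma colRep_apply_zero_zero (x : ℤ) : colRep x 0 0 = x := rfl
@[simp] lemma colRep_apply_one_zero (x : ℤ) : colRep x 1 0 = 1 := rfl

/-- If `a² = c * r` in `ZMod N` for the first column `(a, c)` of `g ∈ SL(2,ℤ)`, then `c` has
an explicit inverse. -/
lemma c_mul_inv_eq_one (N : ℕ) (g : SL(2, ℤ)) (r : ZMod N)
    (h : ((g 0 0 : ℤ) : ZMod N) ^ 2 = ((g 1 0 : ℤ) : ZMod N) * r) :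
    ((g 1 0 : ℤ) : ZMod N) *
      (r * ((g 1 1 : ℤ) : ZMod N) ^ 2
        - 2 * ((g 0 0 : ℤ) : ZMod N) * ((g 0 1 : ℤ) : ZMod N) * ((g 1 1 : ℤ) : ZMod N)
        + ((g 0 1 : ℤ) : ZMod N) ^ 2 * ((g 1 0 : ℤ) : ZMod N)) = 1 := by
  have hdet := det_cast N g
  linear_combination (-(((g 1 1 : ℤ) : ZMod N)) ^ 2) * h
    + (((g 0 0 : ℤ) : ZMod N) * ((g 1 1 : ℤ) : ZMod N)
        - ((g 0 1 : ℤ) : ZMod N) * ((g 1 0 : ℤ) : ZMod N) + 1) * hdet

end Fermat.Agent.S20.Comb694

end
-- ===== PACK-END S20/Comb694/Basic.lean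

-- ===== PACK-BEGIN S20/Comb/Orbits.lean
section








/-!
# Counting orbits of a cyclic group whose generator has prime order on a finite set

If `g ^ n` acts trivially on the finite set `X` and `n` is prime then
`n * #(X / ⟨g⟩) = #X + (n - 1) * #Fix(g)`.
-/

set_option autoImplicit false

namespace Fermat.Agent.S20.Comb

open MulAction Subgroup Function

variable {G X : Type*} [Group G] [MulAction G X]

lemma card_eq_sum_minimalPeriod [Fintype X] (g : G)
    [Fintype (orbitRel.Quotient (zpowers g) X)] :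
    Fintype.card X
      = ∑ q : orbitRel.Quotient (zpowers g) X, minimalPeriod (g • ·) q.out := by
  have (q : orbitRel.Quotient (zpowers g) X) :
      Fintype (MulAction.orbit (zpowers g) q.out) := Fintype.ofFinite _
  simp only [MulAction.minimalPeriod_eq_card]
  rw [← Fintype.card_sigma]
  exact Fintype.card_congr (MulAction.selfEquivSigmaOrbits (zpowers g) X)

lemma minimalPeriod_eq_of_prime (g : G) (n : ℕ) (hn : n.Prime) (hg : ∀ x : X, g ^ n • x = x)
    (x : X) [Decidable (g • x = x)] :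
    minimalPeriod (g • ·) x = if g • x = x then 1 else n := by
  have hper : IsPeriodicPt (g • ·) n x := by
    rw [IsPeriodicPt, IsFixedPt, smul_iterate]
    exact hg x
  have hdvd := hper.minimalPeriod_dvd
  rcases (Nat.dvd_prime hn).mp hdvd with h1 | h2
  · have hfix : g • x = x := minimalPeriod_eq_one_iff_isFixedPt.mp h1
    rw [h1, if_pos hfix]
  · have hfix : ¬ g • x = x := fun h => by
      have h1 : minimalPeriod (g • ·) x = 1 := minimalPeriod_eq_one_iff_isFixedPt.mpr h
      rw [h2] at h1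
      exact hn.one_lt.ne' h1
    rw [h2, if_neg hfix]

lemma smul_eq_of_mem_orbit_zpowers_of_fixed (g : G) (x y : X) (hx : g • x = x)
    (hy : y ∈ MulAction.orbit (zpowers g) x) : y = x := by
  obtain ⟨⟨h, hh⟩, rfl⟩ := hy
  obtain ⟨k, rfl⟩ := Subgroup.mem_zpowers_iff.mp hh
  exact fixedBy_subset_fixedBy_zpow X g k hx

/-- If `g ^ n` acts trivially on the finite set `X` (`n` prime), then
`n * #orbits = #X + (n - 1) * #Fix(g)`. -/
theorem prime_mul_card_orbits [Finite X] (g : G) (n : ℕ) (hn : n.Prime)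
    (hg : ∀ x : X, g ^ n • x = x) :
    n * Nat.card (orbitRel.Quotient (zpowers g) X)
      = Nat.card X + (n - 1) * Nat.card (fixedBy X g) := by
  classical
  haveI := Fintype.ofFinite X
  haveI : Fintype (orbitRel.Quotient (zpowers g) X) := Fintype.ofFinite _
  have h1 := card_eq_sum_minimalPeriod (X := X) g
  simp only [minimalPeriod_eq_of_prime g n hn hg] at h1
  rw [Finset.sum_ite, Finset.sum_const, Finset.sum_const, smul_eq_mul, mul_one,
    smul_eq_mul] at h1
  have h2 : (Finset.univ.filter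
      (fun q : orbitRel.Quotient (zpowers g) X => g • q.out = q.out)).card
        = Nat.card (fixedBy X g) := by
    rw [← Fintype.card_subtype, ← Nat.card_eq_fintype_card]
    refine Nat.card_eq_of_bijective
      (fun q : {q : orbitRel.Quotient (zpowers g) X // g • q.out = q.out} =>
        (⟨q.1.out, q.2⟩ : fixedBy X g)) ⟨?_, ?_⟩
    · intro q q' h
      have h' : q.1.out = q'.1.out := congrArg Subtype.val h
      exact Subtype.ext (Quotient.out_injective h')
    · rintro ⟨x, hx⟩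
      have hx' : g • x = x := hx
      have hout : (Quotient.mk'' x : orbitRel.Quotient (zpowers g) X).out = x := by
        apply smul_eq_of_mem_orbit_zpowers_of_fixed g x _ hx'
        have := Quotient.exact (Quotient.out_eq (Quotient.mk'' x : orbitRel.Quotient (zpowers g) X))
        exact (MulAction.orbitRel_apply).mp this
      refine ⟨⟨Quotient.mk'' x, ?_⟩, ?_⟩
      · rw [hout]; exact hx'
      · exact Subtype.ext hout
  have h3 := Finset.card_filter_add_card_filter_not (s := (Finset.univ :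
      Finset (orbitRel.Quotient (zpowers g) X)))
      (fun q : orbitRel.Quotient (zpowers g) X => g • q.out = q.out)
  rw [Finset.card_univ] at h3
  rw [Nat.card_eq_fintype_card, Nat.card_eq_fintype_card, ← h3, h1, ← h2]
  obtain ⟨m, rfl⟩ : ∃ m, n = m + 1 := ⟨n - 1, (Nat.succ_pred_eq_of_pos hn.pos).symm⟩
  simp only [Nat.add_sub_cancel]
  ring

end Fermat.Agent.S20.Comb

end
-- ===== PACK-END S20/Comb/Orbits.lean

-- ===== PACK-BEGIN S18/H504/ValDvr.lean
section



/-!
# S18 — every nontrivial valuation ring of a function field is discrete (char-free)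

`F/K` a field extension, `O` a valuation subring of `F` containing `K`, `u ∈ O` a non-unit,
`u ≠ 0`, with `F` finite over `K(u)`.  Then `O` is a principal ideal ring, hence a `Place K F`.
No hypothesis on the characteristic, no separability, `K` arbitrary.

Main results:
* `isPrincipalIdealRing_of_finite` : `IsPrincipalIdealRing O`;
* `placeOfValuationSubring` : the `Place K F` with valuation ring `O`.
-/

set_option autoImplicit false

namespace Fermat.Agent.S18.H504

open AlgebraicCurve IntermediateField Polynomial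

variable {K F : Type*} [Field K] [Field F] [Algebra K F]

/-- If a finite sum vanishes and some term is nonzero, the maximal valuation is attained by two
distinct (nonzero) terms. -/
theorem exists_ne_valuation_eq {Γ₀ : Type*} [LinearOrderedCommGroupWithZero Γ₀]
    (v : Valuation F Γ₀) {ι : Type*} [DecidableEq ι] (s : Finset ι) (a : ι → F)
    (hsum : ∑ i ∈ s, a i = 0) (hne : ∃ i ∈ s, a i ≠ 0) :
    ∃ i ∈ s, ∃ j ∈ s, i ≠ j ∧ a i ≠ 0 ∧ a j ≠ 0 ∧ v (a i) = v (a j) := by
  obtain ⟨i₁, hi₁, hai₁⟩ := hne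
  obtain ⟨i₀, hi₀, hmax⟩ := Finset.exists_max_image s (fun i => v (a i)) ⟨i₁, hi₁⟩
  have hv0 : v (a i₀) ≠ 0 := by
    intro h0
    have := hmax i₁ hi₁
    rw [h0] at this
    exact hai₁ ((v.zero_iff).mp (le_antisymm this zero_le))
  have hai₀ : a i₀ ≠ 0 := fun h => hv0 (by rw [h, _root_.map_zero])
  by_contra hcon
  push Not at hcon
  have hlt : ∀ i ∈ s \ {i₀}, v (a i) < v (a i₀) := by
    intro i hi
    rw [Finset.mem_sdiff, Finset.mem_singleton] at hi
    refine lt_of_le_of_ne (hmax i hi.1) ?_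
    intro heq
    have hai : a i ≠ 0 := fun h => hv0 (by rw [← heq, h, _root_.map_zero])
    exact hcon i₀ hi₀ i hi.1 (Ne.symm hi.2) hai₀ hai heq.symm
  have := v.map_sum_eq_of_lt hi₀ hlt
  rw [hsum, _root_.map_zero] at this
  exact hv0 this.symm

section

variable (O : ValuationSubring F) (hK : ∀ a : K, algebraMap K F a ∈ O)

include hK in
theorem valuation_algebraMap {c : K} (hc : c ≠ 0) : O.valuation (algebraMap K F c) = 1 := by
  have h1 : O.valuation (algebraMap K F c) ≤ 1 := (O.valuation_le_one_iff _).mpr (hK c)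
  have h2 : O.valuation (algebraMap K F c⁻¹) ≤ 1 := (O.valuation_le_one_iff _).mpr (hK c⁻¹)
  rw [map_inv₀, map_inv₀] at h2
  have hne : O.valuation (algebraMap K F c) ≠ 0 :=
    (Valuation.ne_zero_iff _).mpr (by simpa using hc)
  exact le_antisymm h1 ((inv_le_one₀ (zero_lt_iff.mpr hne)).mp h2)

include hK in
theorem aeval_mem {u : F} (hu : u ∈ O) (p : K[X]) : aeval u p ∈ O := by
  rw [aeval_eq_sum_range]
  refine Subring.sum_mem O.toSubring fun i _ => ?_
  rw [Algebra.smul_def]
  exact O.mul_mem _ _ (hK _) (_root_.pow_mem hu i)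

include hK in
theorem valuation_aeval_of_coeff_zero_ne {u : F} (hu : u ∈ O) (hu' : u⁻¹ ∉ O) (q : K[X])
    (hq : q.coeff 0 ≠ 0) : O.valuation (aeval u q) = 1 := by
  have hdecomp : aeval u q = aeval u q.divX * u + algebraMap K F (q.coeff 0) := by
    conv_lhs => rw [← divX_mul_X_add q]
    simp only [_root_.map_add, _root_.map_mul, aeval_X, aeval_C]
  have hu1 : O.valuation u < 1 := by
    have h1 : O.valuation u ≤ 1 := (O.valuation_le_one_iff _).mpr hu
    refine lt_of_le_of_ne h1 fun h => hu' ?_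
    rw [← O.valuation_le_one_iff, map_inv₀, h, inv_one]
  have h2 : O.valuation (aeval u q.divX * u) < 1 := by
    rw [_root_.map_mul]
    have h3 : O.valuation (aeval u q.divX) ≤ 1 := (O.valuation_le_one_iff _).mpr (aeval_mem O hK hu _)
    calc O.valuation (aeval u q.divX) * O.valuation u ≤ 1 * O.valuation u :=
          mul_le_mul_left (α := O.ValueGroup) h3 _
      _ < 1 := by rwa [one_mul]
  rw [hdecomp, Valuation.map_add_eq_of_lt_right _ (by rwa [valuation_algebraMap O hK hq]),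
    valuation_algebraMap O hK hq]

include hK in
theorem valuation_aeval {u : F} (hu : u ∈ O) (hu' : u⁻¹ ∉ O) (p : K[X]) (hp : p ≠ 0) :
    O.valuation (aeval u p) = O.valuation u ^ p.rootMultiplicity 0 := by
  obtain ⟨q, hpq, hq⟩ := exists_eq_pow_rootMultiplicity_mul_and_not_dvd p hp 0
  have hq0 : q.coeff 0 ≠ 0 := by
    intro h
    apply hq
    rw [C_0, sub_zero]
    exact X_dvd_iff.mpr h
  conv_lhs => rw [hpq]
  rw [_root_.map_mul, _root_.map_pow, C_0, sub_zero, aeval_X, _root_.map_mul, _root_.map_pow,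
    valuation_aeval_of_coeff_zero_ne O hK hu hu' q hq0, mul_one]

include hK in
/-- On `K(u)` the valuation is a power of the valuation of `u`. -/
theorem exists_zpow_of_mem_adjoin {u : F} (hu : u ∈ O) (hu' : u⁻¹ ∉ O) {g : F}
    (hg : g ∈ K⟮u⟯) (hg0 : g ≠ 0) : ∃ a : ℤ, O.valuation g = O.valuation u ^ a := by
  obtain ⟨r, s, rfl⟩ := (mem_adjoin_simple_iff K g).mp hg
  have hr : r ≠ 0 := by
    rintro rfl
    simp at hg0
  have hs : s ≠ 0 := by
    rintro rfl
    simp at hg0
  refine ⟨(r.rootMultiplicity 0 : ℤ) - s.rootMultiplicity 0, ?_⟩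
  have hu0 : O.valuation u ≠ 0 := by
    rw [Valuation.ne_zero_iff]
    rintro rfl
    exact hu' (by simp)
  rw [map_div₀, valuation_aeval O hK hu hu' r hr, valuation_aeval O hK hu hu' s hs,
    zpow_sub₀ hu0, zpow_natCast, zpow_natCast]

include hK in
/-- Some positive power `≤ [F : K(u)]` of the valuation of any `f ≠ 0` is a power of the
valuation of `u`. -/
theorem exists_pow_eq_zpow {u : F} (hu : u ∈ O) (hu' : u⁻¹ ∉ O) [FiniteDimensional K⟮u⟯ F]
    {f : F} (hf : f ≠ 0) :
    ∃ d : ℕ, 0 < d ∧ d ≤ Module.finrank K⟮u⟯ F ∧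
      ∃ a : ℤ, O.valuation f ^ d = O.valuation u ^ a := by
  classical
  set n := Module.finrank K⟮u⟯ F with hn
  have hdep : ¬ LinearIndependent K⟮u⟯ (fun i : Fin (n + 1) => f ^ (i : ℕ)) := by
    intro hli
    have := hli.fintype_card_le_finrank
    rw [Fintype.card_fin] at this
    omega
  obtain ⟨c, hsum, i₁, hi₁⟩ := Fintype.not_linearIndependent_iff.mp hdep
  have hne : ∃ i ∈ (Finset.univ : Finset (Fin (n + 1))), c i • f ^ (i : ℕ) ≠ 0 := by
    refine ⟨i₁, Finset.mem_univ _, ?_⟩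
    rw [Algebra.smul_def]
    exact mul_ne_zero (by simpa using hi₁) (pow_ne_zero _ hf)
  obtain ⟨i, -, j, -, hij, hai, haj, hval⟩ :=
    exists_ne_valuation_eq O.valuation Finset.univ (fun i => c i • f ^ (i : ℕ)) hsum hne
  have hci : c i ≠ 0 := fun h => hai (by simp [h])
  have hcj : c j ≠ 0 := fun h => haj (by simp [h])
  obtain ⟨ai, hvi⟩ := exists_zpow_of_mem_adjoin O hK hu hu' (c i).2 (by simpa using hci)
  obtain ⟨aj, hvj⟩ := exists_zpow_of_mem_adjoin O hK hu hu' (c j).2 (by simpa using hcj)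
  have hu0 : O.valuation u ≠ 0 := by
    rw [Valuation.ne_zero_iff]
    rintro rfl
    exact hu' (by simp)
  have hf0 : O.valuation f ≠ 0 := (Valuation.ne_zero_iff _).mpr hf
  simp only [Algebra.smul_def, _root_.map_mul, _root_.map_pow] at hval
  have hvi' : O.valuation (algebraMap K⟮u⟯ F (c i)) = O.valuation u ^ ai := hvi
  have hvj' : O.valuation (algebraMap K⟮u⟯ F (c j)) = O.valuation u ^ aj := hvj
  rw [hvi', hvj'] at hval
  -- wlog i < j
  have key : ∀ (i j : ℕ) (ai aj : ℤ), i < j → j ≤ n →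
      O.valuation u ^ ai * O.valuation f ^ i = O.valuation u ^ aj * O.valuation f ^ j →
      ∃ d : ℕ, 0 < d ∧ d ≤ n ∧ ∃ a : ℤ, O.valuation f ^ d = O.valuation u ^ a := by
    intro i j ai aj hlt hjn h
    refine ⟨j - i, by omega, by omega, ai - aj, ?_⟩
    have hj : j = (j - i) + i := by omega
    rw [hj, pow_add] at h
    have hfi : O.valuation f ^ i ≠ 0 := pow_ne_zero _ hf0
    have h2 : O.valuation u ^ ai = O.valuation u ^ aj * O.valuation f ^ (j - i) :=
      mul_right_cancel₀ hfi (h.trans (mul_assoc _ _ _).symm)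
    have huaj : O.valuation u ^ aj ≠ 0 := zpow_ne_zero _ hu0
    rw [zpow_sub₀ hu0, h2, mul_comm (O.valuation u ^ aj), mul_div_assoc, div_self huaj, mul_one]
  have hi_le : (i : ℕ) ≤ n := Nat.lt_succ_iff.mp i.2
  have hj_le : (j : ℕ) ≤ n := Nat.lt_succ_iff.mp j.2
  rcases lt_or_gt_of_ne (fun h => hij (Fin.ext h) : (i : ℕ) ≠ j) with h | h
  · exact key i j ai aj h hj_le hval
  · exact key j i aj ai h hi_le hval.symm

include hK in
theorem exists_factorial_pow_eq_zpow {u : F} (hu : u ∈ O) (hu' : u⁻¹ ∉ O)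
    [FiniteDimensional K⟮u⟯ F] {f : F} (hf : f ≠ 0) :
    ∃ a : ℤ, O.valuation f ^ (Module.finrank K⟮u⟯ F).factorial = O.valuation u ^ a := by
  obtain ⟨d, hd0, hdn, a, h⟩ := exists_pow_eq_zpow O hK hu hu' hf
  obtain ⟨k, hk⟩ := Nat.dvd_factorial hd0 hdn
  refine ⟨a * k, ?_⟩
  rw [hk, pow_mul, h, zpow_mul, zpow_natCast]

include hK in
/-- **Discreteness.** A valuation ring of `F` containing `K`, with a nonzero non-unit `u` such
that `F` is finite over `K(u)`, is a principal ideal ring. -/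
theorem isPrincipalIdealRing_of_finite {u : F} (hu : u ∈ O) (hu' : u⁻¹ ∉ O)
    [FiniteDimensional K⟮u⟯ F] : IsPrincipalIdealRing O := by
  classical
  set M := (Module.finrank K⟮u⟯ F).factorial with hM
  have hM0 : M ≠ 0 := Nat.factorial_ne_zero _
  have hu0 : u ≠ 0 := by
    rintro rfl
    exact hu' (by simp)
  have hγ0 : O.valuation u ≠ 0 := (Valuation.ne_zero_iff _).mpr hu0
  have hγ1 : O.valuation u < 1 := by
    have h1 : O.valuation u ≤ 1 := (O.valuation_le_one_iff _).mpr hu
    refine lt_of_le_of_ne h1 fun h => hu' ?_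
    rw [← O.valuation_le_one_iff, map_inv₀, h, inv_one]
  -- integral elements have natural exponents
  have hnat : ∀ b : F, b ∈ O → b ≠ 0 → ∃ k : ℕ, O.valuation b ^ M = O.valuation u ^ k := by
    intro b hb hb0
    obtain ⟨a, ha⟩ := exists_factorial_pow_eq_zpow O hK hu hu' hb0
    rw [← hM] at ha
    have hle : O.valuation b ^ M ≤ 1 := pow_le_one₀ zero_le ((O.valuation_le_one_iff _).mpr hb)
    rcases le_or_gt 0 a with h0 | h0
    · refine ⟨a.toNat, ?_⟩
      rw [ha, ← zpow_natCast, Int.toNat_of_nonneg h0]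
    · exfalso
      rw [ha] at hle
      have h1 : O.valuation u ^ a = (O.valuation u ^ (-a).toNat)⁻¹ := by
        rw [← zpow_natCast, Int.toNat_of_nonneg (by omega), zpow_neg, inv_inv]
      have h2 : O.valuation u ^ (-a).toNat < 1 :=
        pow_lt_one₀ zero_le hγ1 (by omega)
      have h3 : 1 < (O.valuation u ^ (-a).toNat)⁻¹ :=
        (one_lt_inv₀ (zero_lt_iff.mpr (pow_ne_zero _ hγ0))).mpr h2
      rw [h1] at hle
      exact absurd hle (not_le.mpr h3)
  refine ⟨fun I => ?_⟩
  by_cases hI : I = ⊥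
  · rw [hI]; exact bot_isPrincipal
  have hex : ∃ k : ℕ, ∃ a ∈ I, a ≠ 0 ∧ O.valuation (a : F) ^ M = O.valuation u ^ k := by
    obtain ⟨a, haI, ha0⟩ := Submodule.exists_mem_ne_zero_of_ne_bot hI
    obtain ⟨k, hk⟩ := hnat a a.2 (by simpa using ha0)
    exact ⟨k, a, haI, ha0, hk⟩
  obtain ⟨a, haI, ha0, hak⟩ := Nat.find_spec hex
  refine ⟨⟨a, ?_⟩⟩
  apply le_antisymm
  · intro b hb
    rw [Submodule.mem_span_singleton]
    rcases eq_or_ne b 0 with rfl | hb0
    · exact ⟨0, by simp⟩
    have haF : (a : F) ≠ 0 := by simpa using ha0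
    have hbF : (b : F) ≠ 0 := by simpa using hb0
    obtain ⟨kb, hkb⟩ := hnat b b.2 hbF
    have hmin : Nat.find hex ≤ kb := Nat.find_min' hex ⟨b, hb, hb0, hkb⟩
    have hle : O.valuation (b : F) ^ M ≤ O.valuation (a : F) ^ M := by
      rw [hkb, hak]
      exact pow_le_pow_of_le_one zero_le hγ1.le hmin
    have hle' : O.valuation (b : F) ≤ O.valuation (a : F) :=
      (pow_le_pow_iff_left₀ zero_le zero_le hM0).mp hle
    have hq : (b : F) / (a : F) ∈ O := by
      rw [← O.valuation_le_one_iff, map_div₀]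
      exact (div_le_one₀ (zero_lt_iff.mpr ((Valuation.ne_zero_iff _).mpr haF))).mpr hle'
    refine ⟨⟨_, hq⟩, ?_⟩
    ext
    simp only [smul_eq_mul, MulMemClass.coe_mul]
    field_simp
  · rw [Submodule.span_le]
    simpa using haI

theorem ne_top_of_not_mem {u : F} (hu' : u⁻¹ ∉ O) : O ≠ ⊤ :=
  fun h => hu' (h ▸ ValuationSubring.mem_top _)

/-- The place of `F/K` defined by a valuation ring with a non-unit `u`, `[F : K(u)] < ∞`. -/
noncomputable def placeOfValuationSubring {u : F} (hu : u ∈ O) (hu' : u⁻¹ ∉ O)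
    [FiniteDimensional K⟮u⟯ F] : Place K F where
  toValuationSubring := O
  algebraMap_mem' := hK
  ne_top' := fun h => hu' (h ▸ ValuationSubring.mem_top _)
  isPrincipalIdealRing' := isPrincipalIdealRing_of_finite O hK hu hu'

@[simp]
theorem placeOfValuationSubring_toValuationSubring {u : F} (hu : u ∈ O) (hu' : u⁻¹ ∉ O)
    [FiniteDimensional K⟮u⟯ F] :
    (placeOfValuationSubring O hK hu hu').toValuationSubring = O := rfl

end

end Fermat.Agent.S18.H504

end
-- ===== PACK-END S18/H504/ValDvr.lean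

-- ===== PACK-BEGIN S18/H438/Front/HeightOne.lean
section


/-!
# S18 / ALG-FRONT (helper438), part 3a: localisation at a height-one prime is a DVR

`B` a Noetherian integrally closed domain with fraction field `F`, `𝔭` a prime of height one.
Then `B_𝔭 ⊆ F` is a discrete valuation ring, realised as a `ValuationSubring F`:

    exists_dvr_of_height_one :
      ∃ W : ValuationSubring F, IsDiscreteValuationRing W ∧
        ∀ f : F, f ∈ W ↔ ∃ a s : B, s ∉ 𝔭 ∧ f * algebraMap B F s = algebraMap B F a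
-/

set_option autoImplicit false
set_option linter.style.haveILetI false
set_option linter.unusedSectionVars false

noncomputable section

namespace Fermat.Agent.S18.H438

open IsLocalRing

variable {B F : Type*} [CommRing B] [IsDomain B] [Field F] [Algebra B F] [IsFractionRing B F]

/-- Membership in the localisation `B_𝔭 ⊆ F`. -/
theorem mem_ofField_primeCompl_iff (𝔭 : Ideal B) [𝔭.IsPrime] (f : F) :
    f ∈ Localization.subalgebra.ofField F 𝔭.primeCompl 𝔭.primeCompl_le_nonZeroDivisors ↔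
      ∃ a s : B, s ∉ 𝔭 ∧ f * algebraMap B F s = algebraMap B F a := by
  constructor
  · rintro ⟨a, s, hs, rfl⟩
    refine ⟨a, s, hs, ?_⟩
    have hs0 : algebraMap B F s ≠ 0 := by
      intro h
      have : s = 0 := (FaithfulSMul.algebraMap_injective B F) (by rw [h, map_zero])
      exact hs (this ▸ 𝔭.zero_mem)
    field_simp
  · rintro ⟨a, s, hs, h⟩
    refine ⟨a, s, hs, ?_⟩
    have hs0 : algebraMap B F s ≠ 0 := by
      intro h
      have : s = 0 := (FaithfulSMul.algebraMap_injective B F) (by rw [h, map_zero])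
      exact hs (this ▸ 𝔭.zero_mem)
    rw [← h]
    field_simp

variable [IsNoetherianRing B] [IsIntegrallyClosed B]

/-- **Localisation at a height-one prime of a Noetherian normal domain is a DVR.** -/
theorem isDiscreteValuationRing_ofField_of_height_one (𝔭 : Ideal B) [h𝔭 : 𝔭.IsPrime]
    (h : 𝔭.height = 1) :
    IsDiscreteValuationRing
      (Localization.subalgebra.ofField F 𝔭.primeCompl 𝔭.primeCompl_le_nonZeroDivisors) := by
  set A := Localization.subalgebra.ofField F 𝔭.primeCompl 𝔭.primeCompl_le_nonZeroDivisors with hA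
  haveI hloc : IsLocalization.AtPrime A 𝔭 :=
    Localization.subalgebra.isLocalization_ofField F 𝔭.primeCompl 𝔭.primeCompl_le_nonZeroDivisors
  haveI : IsLocalRing A := IsLocalization.AtPrime.isLocalRing A 𝔭
  haveI : IsNoetherianRing A := IsLocalization.isNoetherianRing 𝔭.primeCompl A inferInstance
  haveI : IsIntegrallyClosed A :=
    isIntegrallyClosed_of_isLocalization A 𝔭.primeCompl 𝔭.primeCompl_le_nonZeroDivisors
  have h𝔭bot : 𝔭 ≠ ⊥ := Ideal.ne_bot_of_height_eq_one h
  have hfin : 𝔭.FiniteHeight := by simp [𝔭.finiteHeight_iff, h]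
  -- the maximal ideal is the extension of `𝔭`
  have hmax : maximalIdeal A = 𝔭.map (algebraMap B A) :=
    (IsLocalization.AtPrime.map_eq_maximalIdeal 𝔭 A).symm
  -- `A` is not a field
  have hnf : ¬ IsField A := by
    rw [isField_iff_maximalIdeal_eq]
    intro hbot
    obtain ⟨x, hx, hx0⟩ := Submodule.exists_mem_ne_zero_of_ne_bot h𝔭bot
    have hxmem : algebraMap B A x ∈ maximalIdeal A := by
      rw [hmax]; exact Ideal.mem_map_of_mem _ hx
    rw [hbot, Ideal.mem_bot] at hxmem
    have hinj : Function.Injective (algebraMap B A) :=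
      IsLocalization.injective A 𝔭.primeCompl_le_nonZeroDivisors
    exact hx0 (hinj (by rw [hxmem, map_zero]))
  -- every nonzero prime is the maximal ideal
  have huniq : ∀ P : Ideal A, P ≠ ⊥ → P.IsPrime → P = maximalIdeal A := by
    intro P hP hPprime
    have hP' : (P.comap (algebraMap B A)).IsPrime := Ideal.comap_isPrime _ _
    have hmapcomap : (P.comap (algebraMap B A)).map (algebraMap B A) = P :=
      IsLocalization.map_under 𝔭.primeCompl A P
    have hle : P.comap (algebraMap B A) ≤ 𝔭 := by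
      have hdisj : Disjoint (𝔭.primeCompl : Set B) (P.comap (algebraMap B A) : Set B) :=
        ((IsLocalization.isPrime_iff_isPrime_disjoint 𝔭.primeCompl A P).1 hPprime).2
      intro x hx
      by_contra hx𝔭
      exact Set.disjoint_left.1 hdisj hx𝔭 hx
    have hne : P.comap (algebraMap B A) ≠ ⊥ := by
      intro h0
      apply hP
      rw [← hmapcomap, h0, Ideal.map_bot]
    have hfin' : (P.comap (algebraMap B A)).FiniteHeight :=
      Ideal.finiteHeight_of_le hle h𝔭.ne_top
    have h1 : 𝔭.height ≤ (P.comap (algebraMap B A)).height := by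
      rw [h]
      rw [Order.one_le_iff_pos, pos_iff_ne_zero, Ne, Ideal.height_eq_zero_iff_eq_bot]
      exact hne
    have heq : P.comap (algebraMap B A) = 𝔭 := Ideal.eq_of_le_of_height_le (h := hle) (h_height := h1)
    rw [hmax, ← heq, hmapcomap]
  have htfae := (IsDiscreteValuationRing.TFAE A hnf).out 0 3
  rw [htfae]
  refine ⟨inferInstance, maximalIdeal A, ⟨?_, inferInstance⟩, ?_⟩
  · exact isField_iff_maximalIdeal_eq.not.1 hnf
  · rintro P ⟨hP, hPprime⟩
    exact huniq P hP hPprime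

/-- **`B_𝔭` as a discrete valuation subring of `F`.** -/
theorem exists_dvr_of_height_one (𝔭 : Ideal B) [h𝔭 : 𝔭.IsPrime] (h : 𝔭.height = 1) :
    ∃ W : ValuationSubring F, IsDiscreteValuationRing W ∧
      ∀ f : F, f ∈ W ↔ ∃ a s : B, s ∉ 𝔭 ∧ f * algebraMap B F s = algebraMap B F a := by
  set A := Localization.subalgebra.ofField F 𝔭.primeCompl 𝔭.primeCompl_le_nonZeroDivisors with hA
  haveI hdvr : IsDiscreteValuationRing A := isDiscreteValuationRing_ofField_of_height_one 𝔭 h
  have hval : ∀ f : F, f ∈ A ∨ f⁻¹ ∈ A := by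
    intro f
    rcases ValuationRing.isInteger_or_isInteger A f with ⟨a, ha⟩ | ⟨a, ha⟩
    · left; rw [← ha]; exact a.2
    · right; rw [← ha]; exact a.2
  let W : ValuationSubring F := { A.toSubring with mem_or_inv_mem' := hval }
  have hWA : ∀ f : F, f ∈ W ↔ f ∈ A := fun f => Iff.rfl
  refine ⟨W, ?_, fun f => ?_⟩
  · -- transfer along the identity
    let e : A ≃+* W :=
      { toFun := fun a => ⟨a.1, (hWA _).2 a.2⟩
        invFun := fun b => ⟨b.1, (hWA _).1 b.2⟩
        left_inv := fun _ => rfl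
        right_inv := fun _ => rfl
        map_mul' := fun _ _ => rfl
        map_add' := fun _ _ => rfl }
    exact IsDiscreteValuationRing.RingEquivClass.isDiscreteValuationRing e
  · rw [hWA]
    exact mem_ofField_primeCompl_iff 𝔭 f

end Fermat.Agent.S18.H438

end
end
-- ===== PACK-END S18/H438/Front/HeightOne.lean

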