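import Mathlib
import Fermat.Prelude.Def_ModularForm_HeckeOperatorForms
import Fermat.Prelude.Thm_ModularForm_heckeT_slash_eq_self_of_mem_Gamma0
import Fermat.Prelude.Def_ModularCurve_PeriodMap
import Fermat.Prelude.Def_ModularCurve_LaurentCoeff
import Fermat.Prelude.Def_ModularCurve_X0
import Fermat.Prelude.Def_ModularCurve_X0ModL
import Mathlib.Tactic.Ring
import Mathlib.Tactic.LinearCombination
import Mathlib.Algebra.Ring.Hom.Defs
import Mathlib.Algebra.Algebra.Defs
import Mathlib.Data.Nat.Cast.Basic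
import Mathlib.Algebra.Order.Ring.Nat
import Mathlib.Data.Int.Cast.Lemmas
import Mathlib.Data.ZMod.QuotientGroup
import Mathlib.GroupTheory.GroupAction.FixedPoints
import Mathlib.GroupTheory.GroupAction.Quotient
import Mathlib.Dynamics.PeriodicPts.Defs
import Mathlib.SetTheory.Cardinal.Finite
import Mathlib.Data.Nat.Prime.Basic

-- ===== PACK-BEGIN S29/H201/Transfer.lean
section





/-!
# S29 / P5-E2 (helper201) — the Hecke operator `T_p` on `Hom(Γ₀(N), A)` (transfer formula)

For a prime `p ∤ N`, the Prelude's coset representatives `heckeRep p x`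
(`x : OnePoint (ZMod p)`, i.e. `(1 j; 0 p)` and `(p 0; 0 1)`) satisfy
`heckeRep p x * γ = t * heckeRep p (redMatrix p γ • x)` with a unique `t ∈ Γ₀(N)`
(`heckeRep_mul` of the Prelude).  We call it `trf hpN γ x` and define
`(heckeHom p hpN A φ) γ = ∑ x, φ (trf hpN γ x)`.
-/

set_option autoImplicit false

open CongruenceSubgroup Matrix.SpecialLinearGroup
open scoped MatrixGroups
open P2MW.S_ModularForm_heckeT_slash_eq_self_of_mem_Gamma0.ModularForm.HeckeSlashInvariance

namespace Fermat.Agent.S29.H201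

variable {N : ℕ} {p : ℕ} [Fact p.Prime]

theorem dvd_of_mem_Gamma0 (γ : Gamma0 N) : (N : ℤ) ∣ (γ : SL(2, ℤ)) 1 0 :=
  (ZMod.intCast_zmod_eq_zero_iff_dvd _ _).mp (Gamma0_mem.mp γ.2)

theorem exists_trf (hpN : ¬ p ∣ N) (γ : Gamma0 N) (x : OnePoint (ZMod p)) :
    ∃ t : Gamma0 N, _root_.P2MW.S_ModularForm_heckeT_slash_eq_self_of_mem_Gamma0.ModularForm.HeckeSlashInvariance.heckeRep p x * mapGL ℝ (γ : SL(2, ℤ))
      = mapGL ℝ (t : SL(2, ℤ)) * _root_.P2MW.S_ModularForm_heckeT_slash_eq_self_of_mem_Gamma0.ModularForm.HeckeSlashInvariance.heckeRep p (redMatrix p (γ : SL(2, ℤ)) • x) := by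
  obtain ⟨g', hg', h⟩ := heckeRep_mul hpN (γ : SL(2, ℤ)) (dvd_of_mem_Gamma0 γ) x
  exact ⟨⟨g', Gamma0_mem.mpr ((ZMod.intCast_zmod_eq_zero_iff_dvd _ _).mpr hg')⟩, h⟩

/-- The transfer element: `heckeRep p x * γ = trf γ x * heckeRep p (redMatrix p γ • x)`. -/
noncomputable def trf (hpN : ¬ p ∣ N) (γ : Gamma0 N) (x : OnePoint (ZMod p)) : Gamma0 N :=
  (exists_trf hpN γ x).choose

theorem trf_spec (hpN : ¬ p ∣ N) (γ : Gamma0 N) (x : OnePoint (ZMod p)) :
    _root_.P2MW.S_ModularForm_heckeT_slash_eq_self_of_mem_Gamma0.ModularForm.HeckeSlashInvariance.heckeRep p x * mapGL ℝ (γ : SL(2, ℤ))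
      = mapGL ℝ ((trf hpN γ x : Gamma0 N) : SL(2, ℤ))
        * _root_.P2MW.S_ModularForm_heckeT_slash_eq_self_of_mem_Gamma0.ModularForm.HeckeSlashInvariance.heckeRep p (redMatrix p (γ : SL(2, ℤ)) • x) :=
  (exists_trf hpN γ x).choose_spec

theorem trf_unique (hpN : ¬ p ∣ N) (γ t : Gamma0 N) (x : OnePoint (ZMod p))
    (h : _root_.P2MW.S_ModularForm_heckeT_slash_eq_self_of_mem_Gamma0.ModularForm.HeckeSlashInvariance.heckeRep p x * mapGL ℝ (γ : SL(2, ℤ))
      = mapGL ℝ (t : SL(2, ℤ)) * _root_.P2MW.S_ModularForm_heckeT_slash_eq_self_of_mem_Gamma0.ModularForm.HeckeSlashInvariance.heckeRep p (redMatrix p (γ : SL(2, ℤ)) • x)) :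
    t = trf hpN γ x := by
  have h2 := trf_spec hpN γ x
  rw [h] at h2
  have h3 := mul_right_cancel h2
  exact Subtype.ext (mapGL_injective h3)

theorem redMatrix_mul (g g' : SL(2, ℤ)) :
    redMatrix p (g * g') = redMatrix p g' * redMatrix p g := by
  apply Matrix.GeneralLinearGroup.ext
  intro i j
  rw [Matrix.GeneralLinearGroup.coe_mul]
  fin_cases i <;> fin_cases j <;>
    simp [redMatrix, Matrix.mul_apply, Fin.sum_univ_two] <;> ring

theorem redMatrix_one : redMatrix p (1 : SL(2, ℤ)) = 1 := by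
  apply Matrix.GeneralLinearGroup.ext
  intro i j
  fin_cases i <;> fin_cases j <;> simp [redMatrix]

theorem trf_one (hpN : ¬ p ∣ N) (x : OnePoint (ZMod p)) : trf hpN (1 : Gamma0 N) x = 1 := by
  symm
  apply trf_unique
  simp [redMatrix_one]

theorem trf_mul (hpN : ¬ p ∣ N) (γ γ' : Gamma0 N) (x : OnePoint (ZMod p)) :
    trf hpN (γ * γ') x
      = trf hpN γ x * trf hpN γ' (redMatrix p (γ : SL(2, ℤ)) • x) := by
  symm
  apply trf_unique
  have h1 := trf_spec hpN γ x
  have h2 := trf_spec hpN γ' (redMatrix p (γ : SL(2, ℤ)) • x)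
  calc _root_.P2MW.S_ModularForm_heckeT_slash_eq_self_of_mem_Gamma0.ModularForm.HeckeSlashInvariance.heckeRep p x * mapGL ℝ ((γ * γ' : Gamma0 N) : SL(2, ℤ))
      = (_root_.P2MW.S_ModularForm_heckeT_slash_eq_self_of_mem_Gamma0.ModularForm.HeckeSlashInvariance.heckeRep p x * mapGL ℝ (γ : SL(2, ℤ))) * mapGL ℝ (γ' : SL(2, ℤ)) := by
        rw [Subgroup.coe_mul, map_mul, mul_assoc]
    _ = mapGL ℝ ((trf hpN γ x : Gamma0 N) : SL(2, ℤ)) *
          (_root_.P2MW.S_ModularForm_heckeT_slash_eq_self_of_mem_Gamma0.ModularForm.HeckeSlashInvariance.heckeRep p (redMatrix p (γ : SL(2, ℤ)) • x) * mapGL ℝ (γ' : SL(2, ℤ))) := by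
        rw [h1, mul_assoc]
    _ = mapGL ℝ ((trf hpN γ x : Gamma0 N) : SL(2, ℤ)) *
          (mapGL ℝ ((trf hpN γ' (redMatrix p (γ : SL(2, ℤ)) • x) : Gamma0 N) : SL(2, ℤ)) *
            _root_.P2MW.S_ModularForm_heckeT_slash_eq_self_of_mem_Gamma0.ModularForm.HeckeSlashInvariance.heckeRep p (redMatrix p (γ' : SL(2, ℤ)) • redMatrix p (γ : SL(2, ℤ)) • x)) := by
        rw [h2]
    _ = _ := by
        rw [Subgroup.coe_mul, map_mul, Subgroup.coe_mul, redMatrix_mul, mul_smul, mul_assoc]

instance instNeZeroOfFactPrime : NeZero p := ⟨(Fact.out : p.Prime).ne_zero⟩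

/-- The permutation of `ℙ¹(𝔽_p)` induced by `γ` (a right action). -/
noncomputable def permOf (γ : Gamma0 N) : Equiv.Perm (OnePoint (ZMod p)) :=
  MulAction.toPerm (redMatrix p (γ : SL(2, ℤ)))

theorem permOf_apply (γ : Gamma0 N) (x : OnePoint (ZMod p)) :
    permOf γ x = redMatrix p (γ : SL(2, ℤ)) • x := rfl

/-- The Hecke operator `T_p` on `Hom(Γ₀(N), A)` defined by the transfer formula. -/
noncomputable def heckeHom (p : ℕ) [Fact p.Prime] (hpN : ¬ p ∣ N) (A : Type*) [AddCommGroup A] :
    (Additive (Gamma0 N) →+ A) →+ (Additive (Gamma0 N) →+ A) where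
  toFun φ :=
    { toFun := fun γ => ∑ x : OnePoint (ZMod p), φ (Additive.ofMul (trf hpN (Additive.toMul γ) x))
      map_zero' := by
        show ∑ x : OnePoint (ZMod p), φ (Additive.ofMul (trf hpN (1 : Gamma0 N) x)) = 0
        simp [trf_one]
      map_add' := fun γ γ' => by
        show ∑ x : OnePoint (ZMod p),
            φ (Additive.ofMul (trf hpN (Additive.toMul γ * Additive.toMul γ') x)) = _
        simp only [trf_mul, ofMul_mul, map_add, Finset.sum_add_distrib]
        congr 1
        exact Equiv.sum_comp (permOf (Additive.toMul γ))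
          (fun y => φ (Additive.ofMul (trf hpN (Additive.toMul γ') y))) }
  map_zero' := by
    ext γ
    simp
  map_add' φ ψ := by
    ext γ
    simp [Finset.sum_add_distrib]

theorem heckeHom_apply (hpN : ¬ p ∣ N) {A : Type*} [AddCommGroup A]
    (φ : Additive (Gamma0 N) →+ A) (γ : Gamma0 N) :
    heckeHom p hpN A φ (Additive.ofMul γ)
      = ∑ x : OnePoint (ZMod p), φ (Additive.ofMul (trf hpN γ x)) := rfl

/-- Functoriality of `heckeHom` in the coefficient group. -/
theorem heckeHom_comp (hpN : ¬ p ∣ N) {A B : Type*} [AddCommGroup A] [AddCommGroup B]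
    (u : A →+ B) (φ : Additive (Gamma0 N) →+ A) :
    heckeHom p hpN B (u.comp φ) = u.comp (heckeHom p hpN A φ) := by
  ext γ
  show ∑ x : OnePoint (ZMod p), u (φ _) = u (∑ x : OnePoint (ZMod p), φ _)
  rw [map_sum]

end Fermat.Agent.S29.H201

end
-- ===== PACK-END S29/H201/Transfer.lean

-- ===== PACK-BEGIN S29/H152/DescBound.lean
section
/-
S29 / DESC (helper152) — part 3: the order bound.  Mathlib-only.

`j : C((q))` of order `-1`, `t = j⁻¹`.  If `v ≠ 0` is integral over `C[j]`, `v * t ^ m` is integral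
over `C[t]` and `v` has degree `≤ D` over `C(j)`, then `ord_q v ≤ m * (D - 1)`.
(Global sections of a line bundle on a curve finite over the `j`-line have bounded order at a cusp.)
-/


set_option autoImplicit false

namespace Fermat.Agent.S29.H152

open Polynomial

variable {C : Type*} [Field C]

/-! ### Power series inside Laurent series -/

theorem descBound_algebraMap_eq (c : C) :
    algebraMap C (LaurentSeries C) c
      = HahnSeries.ofPowerSeries ℤ C (algebraMap C (PowerSeries C) c) := rfl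

theorem descBound_order_coe_nonneg (F : PowerSeries C) :
    0 ≤ (HahnSeries.ofPowerSeries ℤ C F).order := by
  by_cases h : HahnSeries.ofPowerSeries ℤ C F = 0
  · rw [h, HahnSeries.order_zero]
  · rw [HahnSeries.le_order_iff_forall h]
    intro j hj
    have := PowerSeries.coeff_coe (f := F) j
    rw [if_pos hj] at this
    exact this

theorem descBound_exists_coe_of_order_nonneg {x : LaurentSeries C} (hx : 0 ≤ x.order) :
    ∃ F : PowerSeries C, HahnSeries.ofPowerSeries ℤ C F = x := by
  refine ⟨PowerSeries.mk fun n => x.coeff n, ?_⟩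
  ext i
  have := PowerSeries.coeff_coe (f := PowerSeries.mk fun n => x.coeff n) i
  rw [this]
  split_ifs with hi
  · exact (HahnSeries.coeff_eq_zero_of_lt_order (lt_of_lt_of_le hi hx)).symm
  · rw [PowerSeries.coeff_mk]
    congr 1
    omega

/-- The subalgebra of power series. -/
noncomputable def descBoundPS : Subalgebra C (LaurentSeries C) :=
  { (HahnSeries.ofPowerSeries ℤ C).range with
    algebraMap_mem' := fun c => ⟨algebraMap C (PowerSeries C) c, rfl⟩ }

theorem descBound_mem_PS {x : LaurentSeries C} :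
    x ∈ descBoundPS (C := C) ↔ ∃ F : PowerSeries C, HahnSeries.ofPowerSeries ℤ C F = x :=
  Iff.rfl

theorem descBound_mem_PS_of_order_nonneg {x : LaurentSeries C} (hx : 0 ≤ x.order) :
    x ∈ descBoundPS (C := C) :=
  descBound_mem_PS.mpr (descBound_exists_coe_of_order_nonneg hx)

theorem descBound_order_nonneg_of_mem_PS {x : LaurentSeries C} (hx : x ∈ descBoundPS (C := C)) :
    0 ≤ x.order := by
  obtain ⟨F, rfl⟩ := descBound_mem_PS.mp hx
  exact descBound_order_coe_nonneg F

/-- Power series are integrally closed in Laurent series. -/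
theorem descBound_mem_PS_of_isIntegral {x : LaurentSeries C}
    (hx : IsIntegral (descBoundPS (C := C)) x) : x ∈ descBoundPS (C := C) := by
  have h1 : IsIntegral (PowerSeries C) x := by
    obtain ⟨p, hp, hpx⟩ := hx
    -- transport the polynomial along `PS → PowerSeries`
    have hl : p.map (algebraMap (descBoundPS (C := C)) (LaurentSeries C))
        ∈ Polynomial.lifts (algebraMap (PowerSeries C) (LaurentSeries C)) := by
      rw [Polynomial.lifts_iff_coeff_lifts]
      intro n
      rw [Polynomial.coeff_map]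
      obtain ⟨F, hF⟩ := descBound_mem_PS.mp (p.coeff n).2
      exact ⟨F, hF⟩
    obtain ⟨q, hq, -, hqm⟩ := Polynomial.lifts_and_natDegree_eq_and_monic hl (hp.map _)
    refine ⟨q, hqm, ?_⟩
    rw [← Polynomial.eval_map, hq, Polynomial.eval_map]
    exact hpx
  obtain ⟨F, hF⟩ := IsIntegrallyClosed.isIntegral_iff.mp h1
  exact descBound_mem_PS.mpr ⟨F, hF⟩

/-- Monotonicity of integrality in the base subalgebra. -/
theorem descBound_isIntegral_mono {A : Type*} [CommRing A] [Algebra C A] {R S : Subalgebra C A}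
    (h : R ≤ S) {x : A} (hx : IsIntegral R x) : IsIntegral S x := by
  refine IsIntegral.map_of_comp_eq (Subalgebra.inclusion h).toRingHom (RingHom.id A) ?_ hx
  ext r
  rfl

/-! ### Polynomials in an element of positive order -/

theorem descBound_aeval_pos_order {t : LaurentSeries C} (ht : 0 < t.order) (r : C[X]) :
    aeval t r ∈ descBoundPS (C := C) ∧ (aeval t r).coeff 0 = r.coeff 0 := by
  obtain ⟨T, hT⟩ := descBound_exists_coe_of_order_nonneg ht.le
  have hT0 : PowerSeries.constantCoeff T = 0 := by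
    have h1 : t.coeff 0 = 0 := HahnSeries.coeff_eq_zero_of_lt_order ht
    rw [← hT] at h1
    have h2 := LaurentSeries.coeff_coe_powerSeries T 0
    rw [Nat.cast_zero] at h2
    rw [h2] at h1
    rwa [PowerSeries.coeff_zero_eq_constantCoeff] at h1
  have key : aeval t r = HahnSeries.ofPowerSeries ℤ C (aeval T r) := by
    rw [aeval_def, aeval_def, Polynomial.hom_eval₂, hT]
    rfl
  refine ⟨descBound_mem_PS.mpr ⟨_, key.symm⟩, ?_⟩
  rw [key]
  have h2 := LaurentSeries.coeff_coe_powerSeries (aeval T r) 0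
  rw [Nat.cast_zero] at h2
  rw [h2, PowerSeries.coeff_zero_eq_constantCoeff_apply, aeval_def, Polynomial.hom_eval₂, hT0,
    Polynomial.eval₂_at_zero]
  simp

/-! ### `j` of order `-1` -/

section J

variable {j : LaurentSeries C}

theorem descBound_j_ne_zero (hj : j.order = -1) : j ≠ 0 := by
  rintro rfl
  simp at hj

theorem descBound_order_inv (hj : j.order = -1) : (j⁻¹).order = 1 := by
  have h0 := descBound_j_ne_zero hj
  have h1 : (j * j⁻¹).order = j.order + (j⁻¹).order := HahnSeries.order_mul h0 (inv_ne_zero h0)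
  rw [mul_inv_cancel₀ h0, HahnSeries.order_one, hj] at h1
  omega

theorem descBound_aeval_eq (hj : j.order = -1) (b : C[X]) :
    aeval j b = aeval j⁻¹ b.reverse * j ^ b.natDegree := by
  have h0 := descBound_j_ne_zero hj
  let _ := invertibleOfNonzero h0
  have := Polynomial.eval₂_reverse_mul_pow (algebraMap C (LaurentSeries C)) j b
  rw [invOf_eq_inv] at this
  rw [aeval_def, aeval_def, this]

theorem descBound_aeval_j (hj : j.order = -1) (b : C[X]) (hb : b ≠ 0) :
    aeval j b ≠ 0 ∧ (aeval j b).order = -(b.natDegree : ℤ) := by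
  have h0 := descBound_j_ne_zero hj
  have ht : 0 < (j⁻¹).order := by rw [descBound_order_inv hj]; exact one_pos
  obtain ⟨hz, hz0⟩ := descBound_aeval_pos_order ht b.reverse
  rw [Polynomial.coeff_zero_reverse] at hz0
  have hlc : b.leadingCoeff ≠ 0 := Polynomial.leadingCoeff_ne_zero.mpr hb
  have hzc : (aeval j⁻¹ b.reverse).coeff 0 ≠ 0 := by rw [hz0]; exact hlc
  have hzne : aeval j⁻¹ b.reverse ≠ 0 := HahnSeries.ne_zero_of_coeff_ne_zero hzc
  have hzo : (aeval j⁻¹ b.reverse).order = 0 :=
    le_antisymm (HahnSeries.order_le_of_coeff_ne_zero hzc) (descBound_order_nonneg_of_mem_PS hz)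
  rw [descBound_aeval_eq hj b]
  refine ⟨mul_ne_zero hzne (pow_ne_zero _ h0), ?_⟩
  rw [HahnSeries.order_mul hzne (pow_ne_zero _ h0), hzo, HahnSeries.order_pow, hj]
  simp

theorem descBound_transcendental_j (hj : j.order = -1) : Transcendental C j := by
  rw [transcendental_iff]
  intro b hb
  by_contra hb0
  exact (descBound_aeval_j hj b hb0).1 hb

theorem descBound_transcendental_inv (hj : j.order = -1) : Transcendental C j⁻¹ := by
  intro h
  have := h.inv
  rw [inv_inv] at this
  exact descBound_transcendental_j hj this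

theorem descBound_order_nonpos_of_mem_adjoin (hj : j.order = -1) {c : LaurentSeries C}
    (hc : c ∈ Algebra.adjoin C {j}) (hc0 : c ≠ 0) : c.order ≤ 0 := by
  rw [Algebra.adjoin_singleton_eq_range_aeval] at hc
  obtain ⟨b, rfl⟩ := hc
  have hb : b ≠ 0 := by
    rintro rfl
    simp at hc0
  have := (descBound_aeval_j hj b hb).2
  change (aeval j b).order = _ at this
  show (aeval j b).order ≤ 0
  rw [this]
  omega

theorem descBound_adjoin_inv_le_PS (hj : j.order = -1) :
    Algebra.adjoin C {j⁻¹} ≤ descBoundPS (C := C) := by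
  rw [Algebra.adjoin_le_iff]
  rintro x hx
  rw [Set.mem_singleton_iff] at hx
  subst hx
  exact descBound_mem_PS_of_order_nonneg (by rw [descBound_order_inv hj]; exact zero_le_one)

/-- An element of `C[j]` times a high power of `t = j⁻¹` lies in `C[t]`. -/
theorem descBound_mul_inv_pow_mem (hj : j.order = -1) {c : LaurentSeries C}
    (hc : c ∈ Algebra.adjoin C {j}) :
    ∃ D₀ : ℕ, ∀ k, D₀ ≤ k → c * j⁻¹ ^ k ∈ Algebra.adjoin C {j⁻¹} := by
  have h0 := descBound_j_ne_zero hj
  rw [Algebra.adjoin_singleton_eq_range_aeval] at hc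
  obtain ⟨b, rfl⟩ := hc
  refine ⟨b.natDegree, fun k hk => ?_⟩
  show aeval j b * j⁻¹ ^ k ∈ _
  rw [descBound_aeval_eq hj b]
  have hk' : j⁻¹ ^ k = j⁻¹ ^ b.natDegree * j⁻¹ ^ (k - b.natDegree) := by
    rw [← pow_add, Nat.add_sub_cancel' hk]
  rw [hk', mul_assoc, ← mul_assoc (j ^ b.natDegree), ← mul_pow, mul_inv_cancel₀ h0, one_pow,
    one_mul]
  refine Subalgebra.mul_mem _ ?_ (Subalgebra.pow_mem _ (Algebra.self_mem_adjoin_singleton C _) _)
  rw [Algebra.adjoin_singleton_eq_range_aeval]
  exact ⟨b.reverse, rfl⟩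

end J

/-! ### Coefficients of minimal polynomials -/

open scoped IntermediateField.algebraAdjoinAdjoin

/-- For `s` transcendental over `C` and `x` integral over `C[s]`, the coefficients of the minimal
polynomial of `x` over `C(s)` lie in `C[s]`. -/
theorem descBound_coeff_minpoly_mem {s : LaurentSeries C} (hs : Transcendental C s)
    {x : LaurentSeries C} (hx : IsIntegral (Algebra.adjoin C {s}) x) (i : ℕ) :
    (((minpoly (IntermediateField.adjoin C {s}) x).coeff i :
      IntermediateField.adjoin C {s}) : LaurentSeries C) ∈ Algebra.adjoin C {s} := by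
  have : IsIntegrallyClosed (Algebra.adjoin C {s}) :=
    IsIntegrallyClosed.of_equiv (Polynomial.algEquivOfTranscendental C s hs).toRingEquiv
  rw [minpoly.isIntegrallyClosed_eq_field_fractions' (IntermediateField.adjoin C {s}) hx,
    coeff_map]
  exact ((minpoly (Algebra.adjoin C {s}) x).coeff i).2

theorem descBound_adjoin_inv_eq {j : LaurentSeries C} :
    IntermediateField.adjoin C {j⁻¹} = IntermediateField.adjoin C {j} := by
  apply le_antisymm
  · rw [IntermediateField.adjoin_simple_le_iff]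
    exact inv_mem (IntermediateField.mem_adjoin_simple_self C j)
  · rw [IntermediateField.adjoin_simple_le_iff]
    have := inv_mem (IntermediateField.mem_adjoin_simple_self C j⁻¹)
    rwa [inv_inv] at this

theorem descBound_minpoly_map_congr {E E' : IntermediateField C (LaurentSeries C)} (h : E = E')
    (x : LaurentSeries C) :
    (minpoly E x).map (algebraMap E (LaurentSeries C))
      = (minpoly E' x).map (algebraMap E' (LaurentSeries C)) := by
  subst h
  rfl

/-- Evaluating a polynomial with coefficients in a subalgebra at an element of the subalgebra. -/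
theorem descBound_eval_mem {A : Type*} [CommRing A] [Algebra C A] (S : Subalgebra C A)
    (p : A[X]) (hp : ∀ i, p.coeff i ∈ S) {u : A} (hu : u ∈ S) : p.eval u ∈ S := by
  rw [Polynomial.eval_eq_sum_range]
  exact Subalgebra.sum_mem _ fun i _ => Subalgebra.mul_mem _ (hp i) (Subalgebra.pow_mem _ hu i)

/-- **The order bound.** -/
theorem descBound_order_add_le {j : LaurentSeries C} (hj : j.order = -1) (m : ℕ)
    {v : LaurentSeries C} (hv0 : v ≠ 0)
    (h1 : IsIntegral (Algebra.adjoin C {j}) v)
    (h2 : IsIntegral (Algebra.adjoin C {j⁻¹}) (v * j⁻¹ ^ m)) :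
    v.order + m ≤ m * ((minpoly (IntermediateField.adjoin C {j}) v).natDegree : ℤ) := by
  have hj0 := descBound_j_ne_zero hj
  set E := IntermediateField.adjoin C {j} with hE
  have hvE : IsIntegral E v := h1.tower_top
  set P := minpoly E v with hP
  set d := P.natDegree with hd
  -- the scalar `τ = t ^ m`
  let τ : E := ⟨j⁻¹, inv_mem (IntermediateField.mem_adjoin_simple_self C j)⟩ ^ m
  have hτL : (τ : LaurentSeries C) = j⁻¹ ^ m := by simp [τ]
  have hτ0 : τ ≠ 0 := by
    intro h
    have : (τ : LaurentSeries C) = 0 := by rw [h]; rfl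
    rw [hτL] at this
    exact pow_ne_zero _ (inv_ne_zero hj0) this
  have hu : τ • v = v * j⁻¹ ^ m := by
    rw [Algebra.smul_def, mul_comm]
    congr 1
  have hsmul : minpoly E (τ • v) = P.scaleRoots τ := IsIntegrallyClosed.minpoly_smul hτ0 hvE
  -- constant coefficients
  have hc0 : P.coeff 0 ≠ 0 := minpoly.coeff_zero_ne_zero hvE hv0
  have hc0L : ((P.coeff 0 : E) : LaurentSeries C) ≠ 0 := fun h => hc0 (Subtype.ext h)
  have hc0mem : ((P.coeff 0 : E) : LaurentSeries C) ∈ Algebra.adjoin C {j} :=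
    descBound_coeff_minpoly_mem (descBound_transcendental_j hj) h1 0
  have hc0ord : ((P.coeff 0 : E) : LaurentSeries C).order ≤ 0 :=
    descBound_order_nonpos_of_mem_adjoin hj hc0mem hc0L
  -- the polynomial of `u = v t^m` over `L`
  set u := v * j⁻¹ ^ m with hu'
  have hu0 : u ≠ 0 := mul_ne_zero hv0 (pow_ne_zero _ (inv_ne_zero hj0))
  set Q : (LaurentSeries C)[X] := (minpoly E u).map (algebraMap E (LaurentSeries C)) with hQ
  have hQcoeff : ∀ i, Q.coeff i ∈ descBoundPS (C := C) := by
    intro i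
    have h3 := descBound_coeff_minpoly_mem (descBound_transcendental_inv hj) h2 i
    have h4 := descBound_minpoly_map_congr (descBound_adjoin_inv_eq (j := j)) u
    have h5 : Q.coeff i = ((minpoly (IntermediateField.adjoin C {j⁻¹}) u).map
        (algebraMap (IntermediateField.adjoin C {j⁻¹}) (LaurentSeries C))).coeff i := by
      rw [hQ, ← h4]
    rw [h5, coeff_map]
    exact descBound_adjoin_inv_le_PS hj h3
  have huPS : u ∈ descBoundPS (C := C) :=
    descBound_mem_PS_of_isIntegral (descBound_isIntegral_mono (descBound_adjoin_inv_le_PS hj) h2)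
  have hQu : Q.eval u = 0 := by
    rw [hQ, Polynomial.eval_map, ← Polynomial.aeval_def]
    exact minpoly.aeval E u
  have hQ0 : Q.coeff 0 = ((P.coeff 0 : E) : LaurentSeries C) * j⁻¹ ^ (m * d) := by
    rw [hQ, coeff_map, ← hu, hsmul, coeff_scaleRoots, Nat.sub_zero]
    show ((P.coeff 0 * τ ^ P.natDegree : E) : LaurentSeries C) = _
    push_cast
    rw [hτL, ← pow_mul]
  have hQ0ne : Q.coeff 0 ≠ 0 := by
    rw [hQ0]
    exact mul_ne_zero hc0L (pow_ne_zero _ (inv_ne_zero hj0))
  -- `Q = divX Q * X + C (Q.coeff 0)`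
  have hz : Q.divX.eval u ∈ descBoundPS (C := C) :=
    descBound_eval_mem _ _ (fun i => by rw [coeff_divX]; exact hQcoeff _) huPS
  have hrel : Q.divX.eval u * u + Q.coeff 0 = 0 := by
    have := congrArg (Polynomial.eval u) (Polynomial.divX_mul_X_add Q)
    rw [Polynomial.eval_add, Polynomial.eval_mul, Polynomial.eval_X, Polynomial.eval_C, hQu]
      at this
    exact this
  have hzne : Q.divX.eval u ≠ 0 := by
    intro h
    rw [h, zero_mul, zero_add] at hrel
    exact hQ0ne hrel
  have hord : (Q.coeff 0).order = (Q.divX.eval u).order + u.order := by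
    have : Q.coeff 0 = -(Q.divX.eval u * u) := eq_neg_of_add_eq_zero_right hrel
    rw [this, HahnSeries.order_neg, HahnSeries.order_mul hzne hu0]
  have hzord : 0 ≤ (Q.divX.eval u).order := descBound_order_nonneg_of_mem_PS hz
  have huord : u.order = v.order + m := by
    rw [hu', HahnSeries.order_mul hv0 (pow_ne_zero _ (inv_ne_zero hj0)), HahnSeries.order_pow,
      descBound_order_inv hj]
    simp
  have hQ0ord : (Q.coeff 0).order = ((P.coeff 0 : E) : LaurentSeries C).order + (m * d : ℕ) := by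
    rw [hQ0, HahnSeries.order_mul hc0L (pow_ne_zero _ (inv_ne_zero hj0)), HahnSeries.order_pow,
      descBound_order_inv hj]
    simp
  have : v.order + m ≤ (m * d : ℕ) := by
    have h6 : u.order ≤ (Q.coeff 0).order := by rw [hord]; omega
    rw [huord, hQ0ord] at h6
    omega
  exact_mod_cast this

/-- The order bound with an explicit degree bound `D`. -/
theorem descBound_order_le {j : LaurentSeries C} (hj : j.order = -1) (m D : ℕ)
    {v : LaurentSeries C} (hv0 : v ≠ 0)
    (h1 : IsIntegral (Algebra.adjoin C {j}) v)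
    (h2 : IsIntegral (Algebra.adjoin C {j⁻¹}) (v * j⁻¹ ^ m))
    (hD : (minpoly (IntermediateField.adjoin C {j}) v).natDegree ≤ D) :
    v.order ≤ m * D := by
  have h := descBound_order_add_le hj m hv0 h1 h2
  have h' : (m : ℤ) * ((minpoly (IntermediateField.adjoin C {j}) v).natDegree : ℤ) ≤ m * D := by
    exact_mod_cast Nat.mul_le_mul_left m hD
  have hm : (0 : ℤ) ≤ m := Int.natCast_nonneg m
  omega

end Fermat.Agent.S29.H152

end
-- ===== PACK-END S29/H152/DescBound.lean

-- ===== PACK-BEGIN S29/H152/DescLin.lean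
section
/-
S29 / DESC (helper152) — part 4: linear disjointness of `Ω` and `K((q))` over `K`.

* `descLin μ` : coefficientwise application of a `K`-linear functional `μ : Ω → K`,
  `descLin μ (ι z * y) = z * descLin μ y`.
* `descLin_mem_of_coeffMap_mem` : `x ∈ K((q))` with `ι x ∈ Ω·F₀` lies in `K·F₀`
  (`laurentBaseChange Ω F₀ ∩ K((q)) = laurentBaseChange K F₀`).
* `descLin_exists_preimage` : a series all of whose coefficients lie in `K` comes from `K((q))`.
-/



set_option autoImplicit false

namespace Fermat.Agent.S29.H152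

open ModularCurve

variable {K Ω : Type*} [Field K] [Field Ω] [Algebra K Ω]

/-- Coefficientwise application of a `K`-linear functional. -/
noncomputable def descLin (μ : Ω →ₗ[K] K) (y : LaurentSeries Ω) : LaurentSeries K :=
  y.map μ

@[simp]
theorem descLin_coeff (μ : Ω →ₗ[K] K) (y : LaurentSeries Ω) (k : ℤ) :
    (descLin μ y).coeff k = μ (y.coeff k) := rfl

theorem descLin_add (μ : Ω →ₗ[K] K) (y z : LaurentSeries Ω) :
    descLin μ (y + z) = descLin μ y + descLin μ z := by
  ext k
  simp

theorem descLin_zero (μ : Ω →ₗ[K] K) : descLin μ (0 : LaurentSeries Ω) = 0 := by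
  ext k
  simp

theorem descLin_support_subset (μ : Ω →ₗ[K] K) (y : LaurentSeries Ω) :
    (descLin μ y).support ⊆ y.support := by
  intro k hk
  rw [HahnSeries.mem_support] at hk ⊢
  intro h
  apply hk
  rw [descLin_coeff, h, map_zero]

theorem descLin_coeffMap_support_subset {R S : Type*} [CommRing R] [CommRing S] (φ : R →+* S)
    (z : LaurentSeries R) : (coeffMap φ z).support ⊆ z.support := by
  intro k hk
  rw [HahnSeries.mem_support] at hk ⊢
  intro h
  apply hk
  rw [coeffMap_coeff, h, map_zero]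

/-- `descLin μ` is `K((q))`-linear. -/
theorem descLin_coeffMap_mul (μ : Ω →ₗ[K] K) (z : LaurentSeries K) (y : LaurentSeries Ω) :
    descLin μ (coeffMap (algebraMap K Ω) z * y) = z * descLin μ y := by
  ext n
  rw [descLin_coeff,
    HahnSeries.coeff_mul_left' z.isPWO_support (descLin_coeffMap_support_subset _ z),
    HahnSeries.coeff_mul_right' y.isPWO_support (descLin_support_subset μ y), map_sum]
  refine Finset.sum_congr rfl fun ij _ => ?_
  rw [coeffMap_coeff, descLin_coeff, ← Algebra.smul_def, map_smul, smul_eq_mul]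

/-- Constants. -/
theorem descLin_algebraMap (μ : Ω →ₗ[K] K) (c : Ω) :
    descLin μ (algebraMap Ω (LaurentSeries Ω) c) = algebraMap K (LaurentSeries K) (μ c) := by
  rw [algebraMap_laurentSeries_eq_single, algebraMap_laurentSeries_eq_single]
  ext k
  rw [descLin_coeff]
  rcases eq_or_ne k 0 with rfl | hk
  · simp [HahnSeries.coeff_single_same]
  · simp [HahnSeries.coeff_single_of_ne hk]

/-- A series whose coefficients all lie in `K` comes from `K((q))`. -/
theorem descLin_exists_preimage (v : LaurentSeries Ω)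
    (hv : ∀ k, v.coeff k ∈ Set.range (algebraMap K Ω)) :
    ∃ v' : LaurentSeries K, coeffMap (algebraMap K Ω) v' = v := by
  obtain ⟨μ, hμ⟩ := LinearMap.exists_leftInverse_of_injective (Algebra.linearMap K Ω)
    (LinearMap.ker_eq_bot.mpr (algebraMap K Ω).injective)
  refine ⟨descLin μ v, ?_⟩
  ext k
  rw [coeffMap_coeff, descLin_coeff]
  obtain ⟨c, hc⟩ := hv k
  rw [← hc]
  congr 1
  exact LinearMap.congr_fun hμ c

section LD

variable [Algebra ℚ K] [Algebra ℚ Ω]

theorem descLin_coeffEmb (y : LaurentSeries ℚ) :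
    coeffMap (algebraMap K Ω) (coeffEmb K y) = coeffEmb Ω y := by
  rw [coeffEmb, coeffEmb, coeffMap_coeffMap]
  exact coeffMap_congr (RingHom.ext_rat _ _) y

variable (F₀ : IntermediateField ℚ (LaurentSeries ℚ))

/-- The image of `F₀` in `L((q))` as a submonoid. -/
theorem descLin_closure_image (L : Type*) [Field L] [Algebra ℚ L] :
    (Submonoid.closure (⇑(coeffEmb L) '' (F₀ : Set (LaurentSeries ℚ))) : Set (LaurentSeries L))
      = ⇑(coeffEmb L) '' (F₀ : Set (LaurentSeries ℚ)) := by
  have : (⇑(coeffEmb L) '' (F₀ : Set (LaurentSeries ℚ)))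
      = ((F₀.toSubfield.toSubring.toSubmonoid.map (coeffEmb L : _ →* _) :
          Submonoid (LaurentSeries L)) : Set (LaurentSeries L)) := rfl
  rw [this, Submonoid.closure_eq]

omit [Algebra ℚ K] [Algebra ℚ Ω] in
/-- Multiplying by a constant inside a functional. -/
theorem descLin_algebraMap_mul (μ : Ω →ₗ[K] K) (c : Ω) (x : LaurentSeries Ω) :
    descLin μ (algebraMap Ω (LaurentSeries Ω) c * x)
      = descLin (μ.comp (LinearMap.mulLeft K c)) x := by
  ext k
  rw [descLin_coeff, descLin_coeff, algebraMap_laurentSeries_eq_single,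
    HahnSeries.coeff_single_zero_mul]
  rfl

/-- Every functional maps `Ω[F₀]` into `K[F₀]`. -/
theorem descLin_mem_adjoin (μ : Ω →ₗ[K] K) {a : LaurentSeries Ω}
    (ha : a ∈ Algebra.adjoin Ω (⇑(coeffEmb Ω) '' (F₀ : Set (LaurentSeries ℚ)))) :
    descLin μ a ∈ Algebra.adjoin K (⇑(coeffEmb K) '' (F₀ : Set (LaurentSeries ℚ))) := by
  have ha' : a ∈ Subalgebra.toSubmodule
      (Algebra.adjoin Ω (⇑(coeffEmb Ω) '' (F₀ : Set (LaurentSeries ℚ)))) := ha
  rw [Algebra.adjoin_eq_span, descLin_closure_image] at ha'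
  clear ha
  revert μ
  induction ha' using Submodule.span_induction with
  | mem x hx =>
    intro μ
    obtain ⟨y, hy, rfl⟩ := hx
    have h1 : coeffEmb Ω y = coeffMap (algebraMap K Ω) (coeffEmb K y) * algebraMap Ω _ 1 := by
      rw [map_one, mul_one, descLin_coeffEmb]
    rw [h1, descLin_coeffMap_mul, descLin_algebraMap]
    exact Subalgebra.mul_mem _ (Algebra.subset_adjoin ⟨y, hy, rfl⟩) (Subalgebra.algebraMap_mem _ _)
  | zero =>
    intro μ
    rw [descLin_zero]
    exact Subalgebra.zero_mem _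
  | add x y _ _ hx hy =>
    intro μ
    rw [descLin_add]
    exact Subalgebra.add_mem _ (hx μ) (hy μ)
  | smul c x _ hx =>
    intro μ
    rw [Algebra.smul_def, descLin_algebraMap_mul]
    exact hx _

/-- **Linear disjointness**: `Ω·F₀ ∩ K((q)) = K·F₀`. -/
theorem descLin_mem_of_coeffMap_mem (x : LaurentSeries K)
    (hx : coeffMap (algebraMap K Ω) x ∈ laurentBaseChange Ω F₀) :
    x ∈ laurentBaseChange K F₀ := by
  rw [laurentBaseChange, IntermediateField.mem_adjoin_iff_div] at hx
  obtain ⟨r, hr, s, hs, hrs⟩ := hx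
  by_cases hs0 : s = 0
  · rw [hs0, div_zero] at hrs
    have hx0 : x = 0 := by
      ext k
      have := congrArg (fun y => HahnSeries.coeff y k) hrs
      simp only [coeffMap_coeff, HahnSeries.coeff_zero] at this
      rw [HahnSeries.coeff_zero]
      exact (map_eq_zero (algebraMap K Ω)).mp this
    rw [hx0]
    exact zero_mem _
  · have hmul : coeffMap (algebraMap K Ω) x * s = r := by
      rw [hrs, div_mul_cancel₀ _ hs0]
    obtain ⟨n₀, hn₀⟩ : ∃ n₀, s.coeff n₀ ≠ 0 := by
      by_contra h
      push Not at h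
      exact hs0 (HahnSeries.ext (funext h))
    obtain ⟨μ, hμ⟩ : ∃ μ : Ω →ₗ[K] K, μ (s.coeff n₀) ≠ 0 := by
      by_contra h
      push Not at h
      exact hn₀ ((Module.forall_dual_apply_eq_zero_iff K (s.coeff n₀)).mp h)
    have hΛs : descLin μ s ≠ 0 := by
      intro h
      apply hμ
      have := congrArg (fun y => HahnSeries.coeff y n₀) h
      simpa using this
    have hrel : x * descLin μ s = descLin μ r := by
      rw [← descLin_coeffMap_mul, hmul]
    have hx' : x = descLin μ r / descLin μ s := by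
      rw [← hrel, mul_div_cancel_right₀ _ hΛs]
    rw [hx', laurentBaseChange]
    exact div_mem (IntermediateField.algebra_adjoin_le_adjoin K _ (descLin_mem_adjoin F₀ μ hr))
      (IntermediateField.algebra_adjoin_le_adjoin K _ (descLin_mem_adjoin F₀ μ hs))

end LD

end Fermat.Agent.S29.H152

end
-- ===== PACK-END S29/H152/DescLin.lean

-- ===== PACK-BEGIN S37/H340/KronBasic.lean
section




/-!
# S37 / R3-K : the formal Kronecker polynomial (helper340)

For a commutative ring `R`, `ℓ ≥ 1` and a Laurent series `f = ∑ aₙ qⁿ`, the ring `R((q))` is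
free of rank `ℓ` over its subring `V (R((q))) = R((q^ℓ))` (`V = qExpand R ℓ`), with basis
`1, q, …, q^(ℓ-1)`.  `kronMat ℓ f` is the matrix of multiplication by `f` in this basis and
`kron ℓ f` its characteristic polynomial ("`∏_b (Y - f(ζ^b q^{1/ℓ}))`").

Main statements of this file
* `decomp` : `g = ∑ i, q^i * V (sect ℓ i g)`;
* `single_mul_eq_sum` : `q^j * f = ∑ i, q^i * V (kronMat ℓ f i j)`;
* `kron_monic`, `kron_natDegree`;
* `kron_map` : compatibility with `coeffMap`;
* `kron_eval₂_self` : `(kron ℓ f).eval₂ V f = 0` (Cayley–Hamilton form).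
-/

set_option autoImplicit false

noncomputable section

namespace Fermat.Agent.S37.H340

open ModularCurve HahnSeries Polynomial Matrix

variable {R : Type*} [CommRing R] (ℓ : ℕ) [NeZero ℓ]

omit [NeZero ℓ] in
lemma exists_coeff_eq_zero_of_lt (f : LaurentSeries R) : ∃ b : ℤ, ∀ m < b, f.coeff m = 0 := by
  by_cases hf : f = 0
  · exact ⟨0, fun m _ => by simp [hf]⟩
  · exact ⟨f.order, fun m hm => HahnSeries.coeff_eq_zero_of_lt_order hm⟩

lemma sect_bdd (i : ℤ) (f : LaurentSeries R) :
    BddBelow (Function.support fun n : ℤ => f.coeff ((ℓ : ℤ) * n + i)) := by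
  have hℓ : (1 : ℤ) ≤ ℓ := by exact_mod_cast Nat.pos_of_ne_zero (NeZero.ne ℓ)
  obtain ⟨b, hb⟩ := exists_coeff_eq_zero_of_lt f
  refine ⟨min 0 (b - i), fun m hm => ?_⟩
  by_contra hlt
  rw [not_le] at hlt
  refine hm (hb _ ?_)
  have h0 : m < 0 := lt_of_lt_of_le hlt (min_le_left _ _)
  have h1 : m < b - i := lt_of_lt_of_le hlt (min_le_right _ _)
  nlinarith

/-- The `i`-th section: `sect ℓ i f = ∑ₙ f.coeff (ℓ n + i) qⁿ`. -/
def sect (i : ℤ) (f : LaurentSeries R) : LaurentSeries R :=
  HahnSeries.ofSuppBddBelow (fun n : ℤ => f.coeff ((ℓ : ℤ) * n + i)) (sect_bdd ℓ i f)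

@[simp]
lemma sect_coeff (i : ℤ) (f : LaurentSeries R) (n : ℤ) :
    (sect ℓ i f).coeff n = f.coeff ((ℓ : ℤ) * n + i) := by
  simp [sect]

/-- the variable `q` -/
def qq : LaurentSeries R := HahnSeries.single (1 : ℤ) (1 : R)

omit [NeZero ℓ] in
lemma qq_pow (n : ℕ) : (qq : LaurentSeries R) ^ n = HahnSeries.single (n : ℤ) (1 : R) := by
  rw [qq, HahnSeries.single_pow, one_pow]
  simp

omit [NeZero ℓ] in
lemma coeff_qq_pow_mul (n : ℕ) (g : LaurentSeries R) (k : ℤ) :
    ((qq : LaurentSeries R) ^ n * g).coeff k = g.coeff (k - n) := by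
  rw [qq_pow, HahnSeries.coeff_single_mul, _root_.one_mul]

lemma qExpand_coeff (g : LaurentSeries R) (k : ℤ) :
    (qExpand R ℓ g).coeff k = if (ℓ : ℤ) ∣ k then g.coeff (k / ℓ) else 0 := by
  have hℓ : (ℓ : ℤ) ≠ 0 := by exact_mod_cast NeZero.ne ℓ
  split_ifs with h
  · obtain ⟨m, rfl⟩ := h
    rw [qExpand_coeff_mul, Int.mul_ediv_cancel_left _ hℓ]
  · exact qExpand_coeff_of_not_dvd ℓ g h

/-- **Decomposition** of a Laurent series along the basis `1, q, …, q^(ℓ-1)` of `R((q))` over
`R((q^ℓ))`. -/
theorem decomp (g : LaurentSeries R) :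
    g = ∑ i : Fin ℓ, (qq : LaurentSeries R) ^ (i : ℕ) * qExpand R ℓ (sect ℓ (i : ℕ) g) := by
  have hℓ : (0 : ℤ) < ℓ := by exact_mod_cast Nat.pos_of_ne_zero (NeZero.ne ℓ)
  ext k
  rw [HahnSeries.coeff_sum]
  simp only [coeff_qq_pow_mul, qExpand_coeff, sect_coeff]
  -- the unique index `i ≡ k mod ℓ`
  have hr0 : 0 ≤ k % (ℓ : ℤ) := Int.emod_nonneg _ hℓ.ne'
  have hr1 : k % (ℓ : ℤ) < ℓ := Int.emod_lt_of_pos _ hℓ
  set r : ℕ := (k % (ℓ : ℤ)).toNat with hr
  have hrk : (r : ℤ) = k % (ℓ : ℤ) := Int.toNat_of_nonneg hr0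
  have hrlt : r < ℓ := by
    have : (r : ℤ) < ℓ := hrk ▸ hr1
    exact_mod_cast this
  rw [Finset.sum_eq_single (⟨r, hrlt⟩ : Fin ℓ)]
  · have hdvd : (ℓ : ℤ) ∣ k - (r : ℤ) := by
      rw [hrk]; exact Int.dvd_self_sub_emod
    simp only [hdvd, if_true]
    congr 1
    rw [Int.mul_ediv_cancel' hdvd]; ring
  · intro i _ hi
    rw [if_neg]
    intro hdvd
    apply hi
    ext
    simp only
    have h1 : (ℓ : ℤ) ∣ (i : ℕ) - (r : ℤ) := by
      have h2 : (ℓ : ℤ) ∣ k - (r : ℤ) := by rw [hrk]; exact Int.dvd_self_sub_emod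
      have := dvd_sub h2 hdvd
      simpa using this
    have hi1 : ((i : ℕ) : ℤ) < ℓ := by exact_mod_cast i.2
    have hi0 : (0 : ℤ) ≤ ((i : ℕ) : ℤ) := Int.natCast_nonneg _
    have hr0' : (0 : ℤ) ≤ (r : ℤ) := Int.natCast_nonneg _
    have hr1' : (r : ℤ) < ℓ := by exact_mod_cast hrlt
    obtain ⟨c, hc⟩ := h1
    have hc0 : c = 0 := by
      by_contra hne
      rcases lt_or_gt_of_ne hne with h | h
      · have : (ℓ : ℤ) * c ≤ -ℓ := by nlinarith
        omega
      · have : (ℓ : ℤ) ≤ (ℓ : ℤ) * c := by nlinarith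
        omega
    rw [hc0, _root_.MulZeroClass.mul_zero] at hc
    omega
  · intro h; exact absurd (Finset.mem_univ _) h

/-- The matrix of multiplication by `f` in the basis `1, q, …, q^(ℓ-1)`. -/
def kronMat (f : LaurentSeries R) : Matrix (Fin ℓ) (Fin ℓ) (LaurentSeries R) :=
  Matrix.of fun i j => sect ℓ ((i : ℕ) - (j : ℕ) : ℤ) f

@[simp]
lemma kronMat_apply (f : LaurentSeries R) (i j : Fin ℓ) :
    kronMat ℓ f i j = sect ℓ ((i : ℕ) - (j : ℕ) : ℤ) f := rfl

/-- `q^j * f = ∑ i, q^i * V (M i j)`. -/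
theorem qq_pow_mul_eq_sum (f : LaurentSeries R) (j : Fin ℓ) :
    (qq : LaurentSeries R) ^ (j : ℕ) * f =
      ∑ i : Fin ℓ, (qq : LaurentSeries R) ^ (i : ℕ) * qExpand R ℓ (kronMat ℓ f i j) := by
  conv_lhs => rw [decomp ℓ ((qq : LaurentSeries R) ^ (j : ℕ) * f)]
  refine Finset.sum_congr rfl fun i _ => ?_
  congr 2
  ext n
  simp only [sect_coeff, coeff_qq_pow_mul, kronMat_apply]
  congr 1
  ring

/-- The **Kronecker polynomial** of `f`: the characteristic polynomial of multiplication by
`f(q)` on `R((q))` over `R((q^ℓ))`, with coefficients transported to `R((q))`. -/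
def kron (f : LaurentSeries R) : (LaurentSeries R)[X] := (kronMat ℓ f).charpoly

theorem kron_monic (f : LaurentSeries R) : (kron ℓ f).Monic := Matrix.charpoly_monic _

theorem kron_natDegree [Nontrivial R] (f : LaurentSeries R) : (kron ℓ f).natDegree = ℓ := by
  rw [kron, Matrix.charpoly_natDegree_eq_dim, Fintype.card_fin]

/-- Compatibility with change of coefficients. -/
theorem kronMat_map {S : Type*} [CommRing S] (g : R →+* S) (f : LaurentSeries R) :
    kronMat ℓ (coeffMap g f) = (kronMat ℓ f).map (coeffMap g) := by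
  ext i j n
  simp

theorem kron_map {S : Type*} [CommRing S] (g : R →+* S) (f : LaurentSeries R) :
    kron ℓ (coeffMap g f) = (kron ℓ f).map (coeffMap g) := by
  rw [kron, kron, kronMat_map, Matrix.charpoly_map]

/-- **Cayley–Hamilton form**: `f` is a root of its Kronecker polynomial (coefficients pushed
to `R((q^ℓ))` by `V = qExpand R ℓ`). -/
theorem kron_eval₂_self (f : LaurentSeries R) :
    (kron ℓ f).eval₂ (qExpand R ℓ) f = 0 := by
  classical
  set M' : Matrix (Fin ℓ) (Fin ℓ) (LaurentSeries R) := (kronMat ℓ f).map (qExpand R ℓ) with hM'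
  set v : Fin ℓ → LaurentSeries R := fun i => (qq : LaurentSeries R) ^ (i : ℕ) with hv
  have hvM : Matrix.vecMul v M' = f • v := by
    funext j
    simp only [Matrix.vecMul, dotProduct, hM', Matrix.map_apply, hv, Pi.smul_apply, smul_eq_mul]
    rw [mul_comm f, qq_pow_mul_eq_sum ℓ f j]
  have h1 : Matrix.vecMul v (Matrix.scalar (Fin ℓ) f - M') = 0 := by
    rw [Matrix.vecMul_sub, hvM]
    funext j
    simp [Matrix.scalar_apply]
  have h2 : (Matrix.scalar (Fin ℓ) f - M').det • v = 0 := by
    have := congrArg (fun w => Matrix.vecMul w (Matrix.adjugate (Matrix.scalar (Fin ℓ) f - M'))) h1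
    simp only [Matrix.vecMul_vecMul, Matrix.mul_adjugate, Matrix.zero_vecMul] at this
    rw [Matrix.vecMul_smul, Matrix.vecMul_one] at this
    exact this
  have h3 : (Matrix.scalar (Fin ℓ) f - M').det = 0 := by
    have h0 : (0 : ℕ) < ℓ := Nat.pos_of_ne_zero (NeZero.ne ℓ)
    have := congrFun h2 ⟨0, h0⟩
    simpa [hv] using this
  rw [kron, Polynomial.eval₂_eq_eval_map, ← Matrix.charpoly_map, ← hM', Matrix.eval_charpoly]
  exact h3

end Fermat.Agent.S37.H340

end
end
-- ===== PACK-END S37/H340/KronBasic.lean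

-- ===== PACK-BEGIN S28/H807/Section.lean
section
/-
S28 / helper807 — formal `p`-sections of Laurent series and the section matrix.

For `f ∈ R((T))` and `p ≥ 1`, the *section matrix* `secMat p f ∈ Mat_p(R((q)))` is the matrix of
multiplication by `f` on `R((T))`, seen as a free module over `R((T^p)) = V_p(R((q)))` with
basis `1, T, …, T^{p-1}`.  Main result (`secMat_charpoly_eval`): the characteristic polynomial
of `secMat p f`, with coefficients pushed along `V_p = qExpand p`, kills `f`.
-/




set_option autoImplicit false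

noncomputable section

open ModularCurve HahnSeries Polynomial Matrix

namespace Fermat.Agent.S28.H807

variable {R : Type*} [CommRing R]

/-- The `r`-th `p`-section `∑ₘ f_{pm+r} qᵐ` of a Laurent series `f`. -/
def secL (p : ℕ) [NeZero p] (r : ℤ) (f : LaurentSeries R) : LaurentSeries R :=
  HahnSeries.ofSuppBddBelow (fun m : ℤ => f.coeff ((p : ℤ) * m + r))
    (HahnSeries.forallLTEqZero_supp_BddBelow _ ((f.order - r) / (p : ℤ)) (by
      intro m hm
      apply HahnSeries.coeff_eq_zero_of_lt_order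
      have hp : (0 : ℤ) < (p : ℤ) := by exact_mod_cast Nat.pos_of_ne_zero (NeZero.ne p)
      have h1 : m + 1 ≤ (f.order - r) / (p : ℤ) := hm
      have h2 : (m + 1) * (p : ℤ) ≤ f.order - r := (Int.le_ediv_iff_mul_le hp).mp h1
      nlinarith))

@[simp]
theorem secL_coeff (p : ℕ) [NeZero p] (r : ℤ) (f : LaurentSeries R) (m : ℤ) :
    (secL p r f).coeff m = f.coeff ((p : ℤ) * m + r) := by
  simp [secL]

theorem secL_coeffMap {S : Type*} [CommRing S] (φ : R →+* S) (p : ℕ) [NeZero p] (r : ℤ)
    (f : LaurentSeries R) : secL p r (coeffMap φ f) = coeffMap φ (secL p r f) := by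
  ext m
  simp

/-- The section matrix of `f`: entry `(i', i)` is the `(i' - i)`-th section. -/
def secMat (p : ℕ) [NeZero p] (f : LaurentSeries R) :
    Matrix (Fin p) (Fin p) (LaurentSeries R) :=
  fun i' i => secL p ((i' : ℤ) - (i : ℤ)) f

theorem secMat_apply (p : ℕ) [NeZero p] (f : LaurentSeries R) (i' i : Fin p) :
    secMat p f i' i = secL p ((i' : ℤ) - (i : ℤ)) f := rfl

theorem secMat_coeffMap {S : Type*} [CommRing S] (φ : R →+* S) (p : ℕ) [NeZero p]
    (f : LaurentSeries R) :
    secMat p (coeffMap φ f) = (secMat p f).map (coeffMap φ) := by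
  ext i' i : 2
  simp [secMat_apply, Matrix.map_apply, secL_coeffMap]

/-- Key identity: `f · Tⁱ = ∑_{i'} V_p(M_{i',i}) · T^{i'}`. -/
theorem mul_single_eq_sum_secMat (p : ℕ) [NeZero p] (f : LaurentSeries R) (i : Fin p) :
    f * HahnSeries.single ((i : ℕ) : ℤ) (1 : R) =
      ∑ i' : Fin p, qExpand R p (secMat p f i' i) * HahnSeries.single ((i' : ℕ) : ℤ) (1 : R) := by
  have hp : (0 : ℤ) < (p : ℤ) := by exact_mod_cast Nat.pos_of_ne_zero (NeZero.ne p)
  ext n
  rw [HahnSeries.coeff_mul_single, _root_.mul_one, HahnSeries.coeff_sum]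
  -- the unique index i' with p ∣ n - i'
  have hlt : (n % (p : ℤ)).toNat < p := by
    have h1 : n % (p : ℤ) < p := Int.emod_lt_of_pos n hp
    have h0 : 0 ≤ n % (p : ℤ) := Int.emod_nonneg n hp.ne'
    omega
  set i0 : Fin p := ⟨(n % (p : ℤ)).toNat, hlt⟩ with hi0
  have hi0v : ((i0 : ℕ) : ℤ) = n % (p : ℤ) := by
    simp only [hi0]
    exact Int.toNat_of_nonneg (Int.emod_nonneg n hp.ne')
  rw [Finset.sum_eq_single i0]
  · rw [HahnSeries.coeff_mul_single, _root_.mul_one]
    have hdvd : n - ((i0 : ℕ) : ℤ) = (p : ℤ) * (n / (p : ℤ)) := by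
      rw [hi0v]; have := Int.emod_add_mul_ediv n (p : ℤ); linarith
    rw [hdvd, qExpand_coeff_mul, secMat_apply, secL_coeff]
    congr 1
    rw [← hdvd]; ring
  · intro i' _ hne
    rw [HahnSeries.coeff_mul_single, _root_.mul_one]
    apply qExpand_coeff_of_not_dvd
    intro hdvd
    apply hne
    apply Fin.ext
    have h1 : n % (p : ℤ) = ((i' : ℕ) : ℤ) % (p : ℤ) := by
      have := (Int.emod_emod_of_dvd n (dvd_refl (p : ℤ)))
      exact (Int.emod_eq_emod_iff_emod_sub_eq_zero).mpr (Int.emod_eq_zero_of_dvd hdvd)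
    have h2 : ((i' : ℕ) : ℤ) % (p : ℤ) = ((i' : ℕ) : ℤ) :=
      Int.emod_eq_of_lt (by positivity) (by exact_mod_cast i'.2)
    have h3 : ((i0 : ℕ) : ℤ) = ((i' : ℕ) : ℤ) := by rw [hi0v, h1, h2]
    exact_mod_cast h3.symm
  · intro h; exact absurd (Finset.mem_univ _) h

/-- **Lemma F1** (Cayley–Hamilton for the section matrix): the characteristic polynomial of
`secMat p f`, with coefficients pushed along `V_p`, kills `f`. -/
theorem secMat_charpoly_eval (p : ℕ) [NeZero p] (f : LaurentSeries R) :
    (((secMat p f).charpoly).map (qExpand R p)).eval f = 0 := by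
  set A : Matrix (Fin p) (Fin p) (LaurentSeries R) := (secMat p f).map (qExpand R p) with hA
  set v : Fin p → LaurentSeries R := fun i => HahnSeries.single ((i : ℕ) : ℤ) (1 : R) with hv
  set B : Matrix (Fin p) (Fin p) (LaurentSeries R) := Matrix.scalar (Fin p) f - Aᵀ with hB
  have hBv : B *ᵥ v = 0 := by
    funext i
    simp only [hB, Matrix.sub_mulVec, Pi.sub_apply, Pi.zero_apply]
    rw [sub_eq_zero]
    have h1 : (Matrix.scalar (Fin p) f *ᵥ v) i = f * v i := by
      simp [Matrix.scalar_apply, Matrix.mulVec, dotProduct, Matrix.diagonal_apply]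
    rw [h1]
    simp only [Matrix.mulVec, dotProduct, Matrix.transpose_apply, hA, Matrix.map_apply, hv]
    exact mul_single_eq_sum_secMat p f i
  have hdet : B.det • v = 0 := by
    have h : (Matrix.adjugate B * B) *ᵥ v = (B.det • (1 : Matrix (Fin p) (Fin p) _)) *ᵥ v := by
      rw [Matrix.adjugate_mul]
    rw [← Matrix.mulVec_mulVec, hBv, Matrix.mulVec_zero] at h
    rw [Matrix.smul_mulVec, Matrix.one_mulVec] at h
    exact h.symm
  have h0 : B.det * v ⟨0, Nat.pos_of_ne_zero (NeZero.ne p)⟩ = 0 := by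
    have := congrFun hdet ⟨0, Nat.pos_of_ne_zero (NeZero.ne p)⟩
    simpa using this
  have hv0 : v ⟨0, Nat.pos_of_ne_zero (NeZero.ne p)⟩ = 1 := by
    simp only [hv]
    rfl
  rw [hv0, _root_.mul_one] at h0
  rw [← Matrix.charpoly_map, ← hA, ← Matrix.charpoly_transpose, Matrix.eval_charpoly]
  exact h0

end Fermat.Agent.S28.H807

end

end
-- ===== PACK-END S28/H807/Section.lean

-- ===== PACK-BEGIN S28/H806/Transcend.lean
section



set_option autoImplicit false
set_option linter.unusedSectionVars false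
set_option linter.style.haveILetI false

noncomputable section

namespace Fermat.Agent.S28.H806

open Polynomial ModularCurve

section LemmaT

variable {D : Type*} [CommRing D] [IsDomain D]

theorem order_C_mul_pow (t : HahnSeries ℤ D) (ht : t ≠ 0) {c : D} (hc : c ≠ 0) (i : ℕ) :
    (HahnSeries.C c * t ^ i).order = (i : ℤ) * t.order := by
  have hC : (HahnSeries.C c : HahnSeries ℤ D) ≠ 0 := by
    intro h
    exact hc (HahnSeries.C_injective (by rw [h, _root_.map_zero]))
  rw [HahnSeries.order_mul hC (pow_ne_zero _ ht), HahnSeries.order_pow, HahnSeries.order_C,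
    zero_add, nsmul_eq_mul]

/-- **Lemma T.** A Laurent series of nonzero order is transcendental over the coefficients:
`∑ cᵢ tⁱ = 0` forces all `cᵢ = 0`. -/
theorem eq_zero_of_eval₂_C_eq_zero (t : HahnSeries ℤ D) (ht : t.order ≠ 0) (p : D[X])
    (hp : p.eval₂ (HahnSeries.C (Γ := ℤ) (R := D)) t = 0) : p = 0 := by
  classical
  by_contra hp0
  have ht0 : t ≠ 0 := by
    rintro rfl
    exact ht HahnSeries.order_zero
  have hne : p.support.Nonempty := by
    rw [Finset.nonempty_iff_ne_empty, Ne, Polynomial.support_eq_empty]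
    exact hp0
  obtain ⟨i0, hi0, hmin⟩ := Finset.exists_min_image p.support (fun i : ℕ => (i : ℤ) * t.order) hne
  have hci0 : p.coeff i0 ≠ 0 := Polynomial.mem_support_iff.mp hi0
  rw [Polynomial.eval₂_eq_sum, Polynomial.sum_def] at hp
  have hcoef := congrArg (fun x : HahnSeries ℤ D => x.coeff ((i0 : ℤ) * t.order)) hp
  simp only [HahnSeries.coeff_zero] at hcoef
  have hsum : (∑ i ∈ p.support, HahnSeries.C (p.coeff i) * t ^ i).coeff ((i0 : ℤ) * t.order) =
      ∑ i ∈ p.support, (HahnSeries.C (p.coeff i) * t ^ i).coeff ((i0 : ℤ) * t.order) :=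
    _root_.map_sum (HahnSeries.coeff.addMonoidHom ((i0 : ℤ) * t.order)) _ p.support
  rw [hsum, Finset.sum_eq_single i0] at hcoef
  · have h1 : (HahnSeries.C (p.coeff i0) * t ^ i0) ≠ 0 := by
      apply mul_ne_zero
      · intro h
        exact hci0 (HahnSeries.C_injective (by rw [h, _root_.map_zero]))
      · exact pow_ne_zero _ ht0
    rw [← order_C_mul_pow t ht0 hci0 i0] at hcoef
    exact h1 (HahnSeries.coeff_order_eq_zero.mp hcoef)
  · intro i hi hii0
    have hci : p.coeff i ≠ 0 := Polynomial.mem_support_iff.mp hi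
    apply HahnSeries.coeff_eq_zero_of_lt_order
    rw [order_C_mul_pow t ht0 hci i]
    have hle := hmin i hi
    rcases lt_or_eq_of_le hle with h | h
    · exact h
    · exfalso
      apply hii0
      have := mul_right_cancel₀ ht h
      exact_mod_cast this.symm
  · intro h
    exact absurd hi0 h

end LemmaT

section JOrder

variable (D : Type*) [CommRing D] [IsDomain D]

theorem jqModC_order_neg : (jqModC D).order < 0 := by
  have h1 : (jqModC D).coeff (-1) ≠ 0 := by
    rw [coeff_jqModC_neg_one]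
    exact one_ne_zero
  exact lt_of_le_of_lt (HahnSeries.order_le_of_coeff_ne_zero h1) (by norm_num)

theorem jqModC_order_ne_zero : (jqModC D).order ≠ 0 := (jqModC_order_neg D).ne

theorem jqModC_ne_zero' : jqModC D ≠ 0 := jqModC_ne_zero_of_nontrivial D

variable (k : Type*) [Field k]

theorem jqModC_inv_order_ne_zero : ((jqModC k)⁻¹).order ≠ 0 := by
  have h0 := jqModC_ne_zero' k
  have h1 : (jqModC k)⁻¹ ≠ 0 := inv_ne_zero h0
  have h2 := HahnSeries.order_mul h0 h1
  rw [mul_inv_cancel₀ h0, HahnSeries.order_one] at h2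
  have h3 := jqModC_order_neg k
  omega

end JOrder

end Fermat.Agent.S28.H806

end
end
-- ===== PACK-END S28/H806/Transcend.lean

-- ===== PACK-BEGIN S18/H333/HauptElim.lean
section








/-!
# S18 / c3 (helper333): elimination of `t` between the two Hauptmodul relations

For `p = 2` :  `j t² = (t+256)³`,  `J t = (t+16)³`            (`J = j(q²)`)
for `p = 3` :  `j t³ = (t+27)(t+243)³`,  `J t = (t+27)(t+3)³`  (`J = j(q³)`)
we give explicit `D, N ∈ ℤ[j, J]` with `D t + N = 0`  (subresultant of degree 1), hence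
`t = -N / D ∈ K(j, J)` as soon as `D ≠ 0`.   Pure commutative algebra (generated by
`coord/S18-c3-elim-helper333.py.txt`).
-/

set_option autoImplicit false
set_option linter.unusedSimpArgs false

namespace Fermat.Agent.S18.H333

section Elim

variable {A : Type*} [CommRing A]

/-- the coefficient `D` of `t` (level 2) -/
def elimD2 (j J : A) : A :=
    -j ^ 2 * J + 768 * j ^ 2 + 1488 * j * J + 25067520 * j + J ^ 2 - 161280 * J + 19906560000

/-- the constant term `N` (level 2) -/
def elimN2 (j J : A) : A :=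
    4096 * j ^ 2 + 799211520 * j + 16773120 * J + 2707292160000

/-- cofactor of the first relation (level 2) -/
def elimU2 (t j J : A) : A :=
    t * j - 720 * t + 48 * j + J + 161280

/-- cofactor of the second relation (level 2) -/
def elimV2 (t j J : A) : A :=
    -t * j + 720 * t + j ^ 2 - 1488 * j - J + 357120

/-- `D` homogenised: `elimD2 (e/d) (e'/d') * d^2 * d'^2` -/
def elimDh2 (e d e' d' : A) : A :=
    -e ^ 2 * e' * d' + 768 * e ^ 2 * d' ^ 2 + 1488 * e * d * e' * d'
      + 25067520 * e * d * d' ^ 2 + d ^ 2 * e' ^ 2 - 161280 * d ^ 2 * e' * d'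
      + 19906560000 * d ^ 2 * d' ^ 2

theorem elim2_identity (t j J : A) :
    elimU2 t j J * ((t + 256) ^ 3 - j * t ^ 2) + elimV2 t j J * ((t + 16) ^ 3 - J * t)
      = elimD2 j J * t + elimN2 j J := by
  simp only [elimU2, elimV2, elimD2, elimN2]
  ring

theorem elim2 (t j J : A) (ha : j * t ^ 2 = (t + 256) ^ 3) (hb : J * t = (t + 16) ^ 3) :
    elimD2 j J * t + elimN2 j J = 0 := by
  rw [← elim2_identity, ha, hb]
  ring

theorem elimD2_hom (j J d d' : A) :
    elimD2 j J * d ^ 2 * d' ^ 2 = elimDh2 (j * d) d (J * d') d' := by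
  simp only [elimD2, elimDh2]
  ring

theorem map_elimD2 {B : Type*} [CommRing B] (φ : A →+* B) (j J : A) :
    φ (elimD2 j J) = elimD2 (φ j) (φ J) := by
  simp only [elimD2, map_add, map_sub, map_mul, map_pow, map_neg, map_ofNat]

theorem map_elimN2 {B : Type*} [CommRing B] (φ : A →+* B) (j J : A) :
    φ (elimN2 j J) = elimN2 (φ j) (φ J) := by
  simp only [elimN2, map_add, map_sub, map_mul, map_pow, map_neg, map_ofNat]

theorem map_elimDh2 {B : Type*} [CommRing B] (φ : A →+* B) (e d e' d' : A) :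
    φ (elimDh2 e d e' d') = elimDh2 (φ e) (φ d) (φ e') (φ d') := by
  simp only [elimDh2, map_add, map_sub, map_mul, map_pow, map_neg, map_ofNat]

/-- the coefficient `D` of `t` (level 3) -/
def elimD3 (j J : A) : A :=
    -j ^ 5 * J ^ 2 + 1512 * j ^ 5 * J - 374706 * j ^ 5 + 3672 * j ^ 4 * J ^ 2
      + 2199927357 * j ^ 4 * J + 3513587135760 * j ^ 4 - 4802436 * j ^ 3 * J ^ 2
      + 6287091255360 * j ^ 3 * J - 578039691371443200 * j ^ 3 + j ^ 2 * J ^ 3
      + 2734670160 * j ^ 2 * J ^ 2 - 12148776475948800 * j ^ 2 * J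
      + 3468720924518404608000 * j ^ 2 - 1440 * j * J ^ 3 - 607750387200 * j * J ^ 2
      + 4430048196934656000 * j * J - 4101236057280872448000000 * j + 518400 * J ^ 3
      + 19110670848000 * J ^ 2 + 170148916887552000000 * J + 1369513028852121600000000000

/-- the constant term `N` (level 3) -/
def elimN3 (j J : A) : A :=
    729 * j ^ 5 * J - 551124 * j ^ 5 + 13944460716 * j ^ 4 * J + 16877673339120 * j ^ 4
      + 35694226104480 * j ^ 3 * J - 10379169493558848000 * j ^ 3 + 387419760 * j ^ 2 * J ^ 2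
      - 108392996345702400 * j ^ 2 * J + 86248560322019464704000 * j ^ 2
      - 557884454400 * j * J ^ 2 + 79754306454770688000 * j * J
      - 108081439958057877504000000 * j + 200838403584000 * J ^ 2 - 18302525195157504000000 * J
      + 36976851779007283200000000000

/-- cofactor of the first relation (level 3) -/
def elimU3 (t j J : A) : A :=
    270 * t ^ 2 * j ^ 4 + t ^ 2 * j ^ 3 * J + 25429680 * t ^ 2 * j ^ 3
      - 2160 * t ^ 2 * j ^ 2 * J - 17132083200 * t ^ 2 * j ^ 2 + 1555200 * t ^ 2 * j * J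
      - 15281146368000 * t ^ 2 * j - 373248000 * t ^ 2 * J + 10319560704000000 * t ^ 2
      + t * j ^ 4 * J + 8964 * t * j ^ 4 - 2880 * t * j ^ 3 * J - 158494320 * t * j ^ 3
      + 2913840 * t * j ^ 2 * J - 2055056832000 * t * j ^ 2 - 1209945600 * t * j * J
      + 3192389024256000 * t * j + 166841856000 * t * J - 1176429920256000000 * t
      + 36 * j ^ 4 * J + 45684 * j ^ 4 + 92124 * j ^ 3 * J - 26779844160 * j ^ 3
      + j ^ 2 * J ^ 2 - 279776160 * j ^ 2 * J + 222607701273600 * j ^ 2 - 1440 * j * J ^ 2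
      + 205858713600 * j * J - 278975282042880000 * j + 518400 * J ^ 2 - 47241999360000 * J
      + 95445616951296000000

/-- cofactor of the second relation (level 3) -/
def elimV3 (t j J : A) : A :=
    -270 * t ^ 2 * j ^ 4 - t ^ 2 * j ^ 3 * J - 25429680 * t ^ 2 * j ^ 3
      + 2160 * t ^ 2 * j ^ 2 * J + 17132083200 * t ^ 2 * j ^ 2 - 1555200 * t ^ 2 * j * J
      + 15281146368000 * t ^ 2 * j + 373248000 * t ^ 2 * J - 10319560704000000 * t ^ 2
      + 270 * t * j ^ 5 + 25226316 * t * j ^ 4 - 35282958480 * t * j ^ 3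
      + 196560 * t * j ^ 2 * J - 890989632000 * t * j ^ 2 - 283046400 * t * j * J
      + 18129597064704000 * t * j + 101896704000 * t * J - 6253653786624000000 * t + j ^ 5 * J
      - 756 * j ^ 5 - 3672 * j ^ 4 * J - 1126535364 * j ^ 4 + 4802436 * j ^ 3 * J
      - 5636726677440 * j ^ 3 - j ^ 2 * J ^ 2 - 2715539040 * j ^ 2 * J
      + 7922962188518400 * j ^ 2 + 1440 * j * J ^ 2 + 580201574400 * j * J
      - 959904104785920000 * j - 518400 * J ^ 2 - 9193098240000 * J - 1009345912897536000000

/-- `D` homogenised: `elimD3 (e/d) (e'/d') * d^5 * d'^3` -/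
def elimDh3 (e d e' d' : A) : A :=
    -e ^ 5 * e' ^ 2 * d' + 1512 * e ^ 5 * e' * d' ^ 2 - 374706 * e ^ 5 * d' ^ 3
      + 3672 * e ^ 4 * d * e' ^ 2 * d' + 2199927357 * e ^ 4 * d * e' * d' ^ 2
      + 3513587135760 * e ^ 4 * d * d' ^ 3 - 4802436 * e ^ 3 * d ^ 2 * e' ^ 2 * d'
      + 6287091255360 * e ^ 3 * d ^ 2 * e' * d' ^ 2
      - 578039691371443200 * e ^ 3 * d ^ 2 * d' ^ 3 + e ^ 2 * d ^ 3 * e' ^ 3
      + 2734670160 * e ^ 2 * d ^ 3 * e' ^ 2 * d'
      - 12148776475948800 * e ^ 2 * d ^ 3 * e' * d' ^ 2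
      + 3468720924518404608000 * e ^ 2 * d ^ 3 * d' ^ 3 - 1440 * e * d ^ 4 * e' ^ 3
      - 607750387200 * e * d ^ 4 * e' ^ 2 * d' + 4430048196934656000 * e * d ^ 4 * e' * d' ^ 2
      - 4101236057280872448000000 * e * d ^ 4 * d' ^ 3 + 518400 * d ^ 5 * e' ^ 3
      + 19110670848000 * d ^ 5 * e' ^ 2 * d' + 170148916887552000000 * d ^ 5 * e' * d' ^ 2
      + 1369513028852121600000000000 * d ^ 5 * d' ^ 3

theorem elim3_identity (t j J : A) :
    elimU3 t j J * ((t + 27) * (t + 243) ^ 3 - j * t ^ 3) + elimV3 t j J * ((t + 27) * (t + 3) ^ 3 - J * t)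
      = elimD3 j J * t + elimN3 j J := by
  simp only [elimU3, elimV3, elimD3, elimN3]
  ring

theorem elim3 (t j J : A) (ha : j * t ^ 3 = (t + 27) * (t + 243) ^ 3) (hb : J * t = (t + 27) * (t + 3) ^ 3) :
    elimD3 j J * t + elimN3 j J = 0 := by
  rw [← elim3_identity, ha, hb]
  ring

theorem elimD3_hom (j J d d' : A) :
    elimD3 j J * d ^ 5 * d' ^ 3 = elimDh3 (j * d) d (J * d') d' := by
  simp only [elimD3, elimDh3]
  ring

theorem map_elimD3 {B : Type*} [CommRing B] (φ : A →+* B) (j J : A) :
    φ (elimD3 j J) = elimD3 (φ j) (φ J) := by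
  simp only [elimD3, map_add, map_sub, map_mul, map_pow, map_neg, map_ofNat]

theorem map_elimN3 {B : Type*} [CommRing B] (φ : A →+* B) (j J : A) :
    φ (elimN3 j J) = elimN3 (φ j) (φ J) := by
  simp only [elimN3, map_add, map_sub, map_mul, map_pow, map_neg, map_ofNat]

theorem map_elimDh3 {B : Type*} [CommRing B] (φ : A →+* B) (e d e' d' : A) :
    φ (elimDh3 e d e' d') = elimDh3 (φ e) (φ d) (φ e') (φ d') := by
  simp only [elimDh3, map_add, map_sub, map_mul, map_pow, map_neg, map_ofNat]

end Elim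

end Fermat.Agent.S18.H333

end
-- ===== PACK-END S18/H333/HauptElim.lean

-- ===== PACK-BEGIN S18/H568/NormDescent.lean
section


/-!
# S18 / node D2 — abstract Kummer descent by the norm trick (helper568)

`F'/F` finite of degree `d`, `gcd(d, m) = 1`, `u ∈ F` with `u = c · y ^ m` in `F'` (`c` a constant
of the base field `K`, `y ∈ F'`).  Then `u = c' · y' ^ m` with `c' ∈ K`, `y' ∈ F`.

Proof: `u ^ d = Nm(u) = c ^ d · Nm(y) ^ m`; with `a d + b m = 1`,
`u = (u ^ d) ^ a · (u ^ b) ^ m = c ^ (d a) · (Nm(y) ^ a · u ^ b) ^ m`.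

Mathlib-only.
-/

set_option autoImplicit false

noncomputable section

namespace Fermat.Agent.S18.H568

open Module

/-- Norm trick (Kummer descent along an extension of degree prime to `m`). -/
theorem exists_pow_of_norm_coprime {K F F' : Type*} [Field K] [Field F] [Field F']
    [Algebra K F] [Algebra K F'] [Algebra F F'] [IsScalarTower K F F']
    [FiniteDimensional F F'] (m : ℕ) (hcop : Nat.Coprime (finrank F F') m)
    (u : F) (hu : u ≠ 0) (c : K) (hc : c ≠ 0) (y : F') (hy : y ≠ 0)
    (h : algebraMap F F' u = algebraMap K F' c * y ^ m) :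
    ∃ (c' : K) (y' : F), c' ≠ 0 ∧ y' ≠ 0 ∧ u = algebraMap K F c' * y' ^ m := by
  set d : ℕ := finrank F F' with hd
  -- norms
  have hN : u ^ d = (algebraMap K F c) ^ d * (Algebra.norm F y) ^ m := by
    have h1 : Algebra.norm F (algebraMap F F' u) = u ^ d := Algebra.norm_algebraMap u
    have h2 : Algebra.norm F (algebraMap K F' c) = (algebraMap K F c) ^ d := by
      rw [IsScalarTower.algebraMap_apply K F F']
      exact Algebra.norm_algebraMap _
    rw [← h1, h, map_mul, map_pow, h2]
  have hNy : Algebra.norm F y ≠ 0 := by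
    rw [Ne, Algebra.norm_eq_zero_iff]
    exact hy
  have hcF : algebraMap K F c ≠ 0 := by
    rw [Ne, map_eq_zero_iff _ (algebraMap K F).injective]
    exact hc
  -- Bezout
  have hbez : (1 : ℤ) = (d : ℤ) * Int.gcdA d m + (m : ℤ) * Int.gcdB d m := by
    have := Int.gcd_eq_gcd_ab (d : ℤ) (m : ℤ)
    rw [Int.gcd_natCast_natCast, hcop.gcd_eq_one] at this
    exact_mod_cast this
  set a : ℤ := Int.gcdA d m
  set b : ℤ := Int.gcdB d m
  refine ⟨c ^ ((d : ℤ) * a), (Algebra.norm F y) ^ a * u ^ b, zpow_ne_zero _ hc,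
    mul_ne_zero (zpow_ne_zero _ hNy) (zpow_ne_zero _ hu), ?_⟩
  have hu1 : u = u ^ ((d : ℤ) * a + (m : ℤ) * b) := by rw [← hbez, zpow_one]
  rw [map_zpow₀]
  calc u = u ^ ((d : ℤ) * a + (m : ℤ) * b) := hu1
    _ = (u ^ d) ^ a * (u ^ b) ^ m := by
        rw [zpow_add₀ hu, zpow_mul, zpow_natCast, mul_comm (m : ℤ) b, zpow_mul, zpow_natCast]
    _ = ((algebraMap K F c) ^ d * (Algebra.norm F y) ^ m) ^ a * (u ^ b) ^ m := by rw [hN]
    _ = (algebraMap K F c) ^ ((d : ℤ) * a) * ((Algebra.norm F y) ^ a * u ^ b) ^ m := by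
        rw [mul_zpow, mul_pow, zpow_mul, zpow_natCast, ← zpow_natCast ((Algebra.norm F) y) m,
          ← zpow_mul, ← zpow_natCast (((Algebra.norm F) y) ^ a) m, ← zpow_mul,
          mul_comm (m : ℤ) a, mul_assoc]

end Fermat.Agent.S18.H568

end

end
-- ===== PACK-END S18/H568/NormDescent.lean

-- ===== PACK-BEGIN S28/H806/LemmaM.lean
section


set_option autoImplicit false
set_option linter.unusedSectionVars false
set_option linter.style.haveILetI false

noncomputable section

namespace Fermat.Agent.S28.H806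

open Polynomial

section PrimePower

variable {P D : Type*} [CommRing P] [IsDomain P] [CommRing D] [IsDomain D]

/-- If `ell` generates the kernel of `red` and `red c ≠ 0`, then `u * c = v * ell ^ m`
forces `ell ^ m ∣ u`. -/
theorem pow_dvd_of_mul_eq_mul_pow (red : P →+* D) (ell : P) (hell0 : ell ≠ 0)
    (hell : red ell = 0) (hker : ∀ u : P, red u = 0 → ell ∣ u) :
    ∀ (m : ℕ) (c : P), red c ≠ 0 → ∀ u v : P, u * c = v * ell ^ m → ell ^ m ∣ u := by
  intro m
  induction m with
  | zero => intro c _ u v _; simp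
  | succ m ih =>
    intro c hc u v h
    have hu : red u = 0 := by
      have h1 := congrArg red h
      rw [_root_.map_mul, _root_.map_mul, _root_.map_pow, hell, pow_succ, mul_zero, mul_zero] at h1
      rcases mul_eq_zero.mp h1 with h2 | h2
      · exact h2
      · exact absurd h2 hc
    obtain ⟨u', rfl⟩ := hker u hu
    have h' : u' * c = v * ell ^ m := by
      apply mul_left_cancel₀ hell0
      rw [← mul_assoc, h, pow_succ]; ring
    obtain ⟨w, hw⟩ := ih c hc u' v h'
    exact ⟨w, by rw [hw, pow_succ]; ring⟩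

end PrimePower

section LemmaM

variable {P F D : Type*} [CommRing P] [IsDomain P] [IsIntegrallyClosed P]
  [Field F] [Algebra P F] [Module.IsTorsionFree P F] [CommRing D] [IsDomain D]

/-- **Lemma M.**  Let `P` be an integrally closed domain, `ell ∈ P` a generator of the kernel of
`red : P → D`, and `s ∈ P` with `red s ≠ 0`.  If `ell • y` and `s • y` are integral over `P`, then
so is `y`. -/
theorem isIntegral_of_isIntegral_smul_of_isIntegral_smul (red : P →+* D) (ell s : P)
    (hell0 : ell ≠ 0) (hell : red ell = 0) (hker : ∀ u : P, red u = 0 → ell ∣ u)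
    (hs : red s ≠ 0) (y : F) (h1 : IsIntegral P (ell • y)) (h2 : IsIntegral P (s • y)) :
    IsIntegral P y := by
  classical
  have hs0 : s ≠ 0 := fun h => hs (by rw [h, _root_.map_zero])
  have e1 := IsIntegrallyClosed.minpoly_smul hs0 h1
  have e2 := IsIntegrallyClosed.minpoly_smul hell0 h2
  rw [smul_comm] at e1
  rw [e1] at e2
  set g := minpoly P (ell • y) with hg
  set h := minpoly P (s • y) with hh
  have hdeg : g.natDegree = h.natDegree := by
    have := congrArg Polynomial.natDegree e2
    rwa [natDegree_scaleRoots, natDegree_scaleRoots] at this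
  set n := g.natDegree with hn
  have hdiv : ∀ i, ell ^ (n - i) ∣ g.coeff i := by
    intro i
    have hc := congrArg (fun p => p.coeff i) e2
    simp only [coeff_scaleRoots] at hc
    rw [← hdeg] at hc
    exact pow_dvd_of_mul_eq_mul_pow red ell hell0 hell hker (n - i) (s ^ (n - i))
      (by rw [_root_.map_pow]; exact pow_ne_zero _ hs) (g.coeff i) (h.coeff i) hc
  choose a ha using hdiv
  have hgm : g.Monic := minpoly.monic h1
  have han : a n = 1 := by
    have := ha n
    rw [Nat.sub_self, pow_zero, one_mul] at this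
    rw [← this]
    exact hgm.coeff_natDegree
  let f : P[X] := X ^ n + ∑ i ∈ Finset.range n, C (a i) * X ^ i
  have hfm : f.Monic := by
    apply monic_X_pow_add
    rw [degree_lt_iff_coeff_zero]
    intro m hm
    rw [finsetSum_coeff]
    refine Finset.sum_eq_zero fun i hi => ?_
    rw [coeff_C_mul_X_pow, if_neg]
    have := Finset.mem_range.mp hi
    omega
  refine ⟨f, hfm, ?_⟩
  have hroot : aeval (ell • y) g = 0 := minpoly.aeval P (ell • y)
  rw [hgm.as_sum] at hroot
  have hell' : algebraMap P F ell ≠ 0 := by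
    intro h0
    exact hell0 ((FaithfulSMul.algebraMap_injective P F) (by rw [h0, _root_.map_zero]))
  have key : (algebraMap P F ell) ^ n * eval₂ (algebraMap P F) y f = 0 := by
    rw [← hroot]
    simp only [f, eval₂_add, eval₂_pow, eval₂_X, eval₂_finsetSum, eval₂_mul, eval₂_C,
      _root_.map_add, _root_.map_pow, aeval_X, _root_.map_sum, _root_.map_mul, aeval_C, Algebra.smul_def]
    rw [mul_add, Finset.mul_sum, mul_pow]
    congr 1
    refine Finset.sum_congr rfl fun i hi => ?_
    have hi' : i ≤ n := (Finset.mem_range.mp hi).le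
    rw [ha i, _root_.map_mul, _root_.map_pow, mul_pow]
    have : (algebraMap P F ell) ^ n = (algebraMap P F ell) ^ (n - i) * (algebraMap P F ell) ^ i := by
      rw [← pow_add, Nat.sub_add_cancel hi']
    rw [this]; ring
  rcases mul_eq_zero.mp key with h0 | h0
  · exact absurd h0 (pow_ne_zero _ hell')
  · exact h0

end LemmaM

end Fermat.Agent.S28.H806

end
end
-- ===== PACK-END S28/H806/LemmaM.lean

-- ===== PACK-BEGIN S18/H264/SepLaurent.lean
section


/-!
# S18 / G-SEP core (helper264): subfields of `κ((q))` are separable over `κ(x)`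

Mathlib-only.  Let `κ` be a perfect field of characteristic `p`, and `x ∈ κ((q))` a Laurent
series whose `q`-order is prime to `p` (e.g. `x = j̄, t̄₂, t̄₃`, of order `-1`).  Then every
`y ∈ κ((q))` that is algebraic over `κ(x)` is separable over `κ(x)`.

Main statements (namespace `Fermat.Agent.S18.H264`):

* `isSeparable_of_isAlgebraic_of_addVal` : abstract form, for a field `L ⊇ κ` with an additive
  valuation `v : AddValuation L (WithTop ℤ)` and `p ∤ v x`.
* `isSeparable_laurent` : the Laurent series form, hypothesis `¬ (p : ℤ) ∣ x.order`.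
* `isSeparable_laurent_of_order_eq_neg_one` : the same for `x.order = -1`.
* `exists_poly_simple_root_laurent` : liftable polynomial form, `∃ P ∈ κ[X][Y]` with
  `P(x, y) = 0` and `(∂P/∂Y)(x, y) ≠ 0`.

Proof: `1, x, …, x^(p-1)` is a `p`-basis: every element of `κ(x)` is `∑_{r<p} x^r b_r^p`
(`κ` perfect), and `∑_{r<p} x^r z_r^p = 0` in `L` forces all `z_r = 0` (the valuations of the
nonzero terms are pairwise distinct mod `p`).  If the minimal polynomial `g` of `y` were
inseparable, `g = h(Y^p)`, `h = ∑_r x^r h_r^{(p)}`, so `0 = h(y^p) = ∑_r x^r (h_r(y))^p`, whence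
`h_r(y) = 0` with `deg h_r < deg g`, so `h_r = 0`, `h = 0`: contradiction.
-/

set_option autoImplicit false

namespace Fermat.Agent.S18.H264

open Polynomial

section Valuation

variable {L : Type*} [Field L] (v : AddValuation L (WithTop ℤ))

/-- Finitely many nonzero terms with pairwise distinct valuations cannot sum to zero. -/
theorem sum_ne_zero_of_val_injOn {ι : Type*} (s : Finset ι) (f : ι → L) (hs : s.Nonempty)
    (hne : ∀ i ∈ s, f i ≠ 0) (hinj : ∀ i ∈ s, ∀ j ∈ s, v (f i) = v (f j) → i = j) :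
    ∑ i ∈ s, f i ≠ 0 := by
  classical
  obtain ⟨i₀, hi₀, hmin⟩ := Finset.exists_min_image s (fun i => v (f i)) hs
  have hlt : ∀ i ∈ s.erase i₀, v (f i₀) < v (f i) := by
    intro i hi
    rw [Finset.mem_erase] at hi
    exact lt_of_le_of_ne (hmin i hi.2) (fun h => hi.1 (hinj _ hi₀ _ hi.2 h).symm)
  have htop : v (f i₀) ≠ ⊤ := by
    rw [Ne, AddValuation.top_iff]
    exact hne i₀ hi₀
  have hrest : v (f i₀) < v (∑ i ∈ s.erase i₀, f i) := AddValuation.map_lt_sum v htop hlt
  rw [← Finset.add_sum_erase s f hi₀]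
  intro h0
  have h1 := AddValuation.map_add_eq_of_lt_left v hrest
  rw [h0, AddValuation.map_zero] at h1
  exact htop h1.symm

/-- `1, x, …, x^(p-1)` are linearly independent over `L^p` when `p ∤ v x`. -/
theorem eq_zero_of_sum_pow_mul_pow_eq_zero (p : ℕ) (hp : p.Prime) (x : L) (n : ℤ)
    (hx : v x = (n : WithTop ℤ)) (hn : ¬ (p : ℤ) ∣ n) (z : ℕ → L)
    (h : ∑ r ∈ Finset.range p, x ^ r * z r ^ p = 0) : ∀ r < p, z r = 0 := by
  classical
  by_contra hcon
  push Not at hcon
  obtain ⟨r₁, hr₁, hz₁⟩ := hcon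
  have hx0 : x ≠ 0 := by
    intro h0
    rw [h0, AddValuation.map_zero] at hx
    exact WithTop.top_ne_coe hx
  set s := (Finset.range p).filter (fun r => z r ≠ 0) with hs
  have hsum : ∑ r ∈ s, x ^ r * z r ^ p = 0 := by
    have h1 : ∑ r ∈ s, x ^ r * z r ^ p = ∑ r ∈ Finset.range p, x ^ r * z r ^ p := by
      rw [hs, Finset.sum_filter]
      refine Finset.sum_congr rfl fun r _ => ?_
      by_cases hz : z r = 0
      · simp [hz, hp.ne_zero]
      · simp [hz]
    rw [h1, h]
  have hval : ∀ r ∈ s, ∃ a : ℤ, v (x ^ r * z r ^ p) = ((r * n + p * a : ℤ) : WithTop ℤ) := by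
    intro r hr
    have hz : z r ≠ 0 := (Finset.mem_filter.mp hr).2
    have hzt : v (z r) ≠ ⊤ := by rw [Ne, AddValuation.top_iff]; exact hz
    obtain ⟨a, ha⟩ := WithTop.ne_top_iff_exists.mp hzt
    refine ⟨a, ?_⟩
    rw [AddValuation.map_mul, AddValuation.map_pow, AddValuation.map_pow, hx, ← ha]
    rw [← WithTop.coe_nsmul, ← WithTop.coe_nsmul, ← WithTop.coe_add, nsmul_eq_mul, nsmul_eq_mul]
  refine sum_ne_zero_of_val_injOn v s _ ⟨r₁, Finset.mem_filter.mpr ⟨Finset.mem_range.mpr hr₁, hz₁⟩⟩
    ?_ ?_ hsum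
  · intro r hr
    have hz : z r ≠ 0 := (Finset.mem_filter.mp hr).2
    exact mul_ne_zero (pow_ne_zero _ hx0) (pow_ne_zero _ hz)
  · intro r hr r' hr' hrr'
    obtain ⟨a, ha⟩ := hval r hr
    obtain ⟨a', ha'⟩ := hval r' hr'
    rw [ha, ha', WithTop.coe_eq_coe] at hrr'
    have hrp : r < p := Finset.mem_range.mp (Finset.mem_filter.mp hr).1
    have hrp' : r' < p := Finset.mem_range.mp (Finset.mem_filter.mp hr').1
    have hdvd : (p : ℤ) ∣ ((r : ℤ) - r') * n := ⟨a' - a, by linarith⟩
    have hdvd' : (p : ℤ) ∣ (r : ℤ) - r' :=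
      ((Nat.prime_iff_prime_int.mp hp).dvd_or_dvd hdvd).resolve_right hn
    have h0 : (r : ℤ) - r' = 0 := by
      apply Int.eq_zero_of_abs_lt_dvd hdvd'
      rw [abs_lt]
      constructor <;> omega
    omega

end Valuation

section Decomp

variable {κ : Type*} [Field κ] [PerfectField κ] (p : ℕ) [hp : Fact p.Prime] [CharP κ p]

/-- Every polynomial over a perfect field of characteristic `p` is `∑_{r<p} X^r c_r^p`. -/
theorem exists_pBasis_decomp_poly (w : κ[X]) :
    ∃ c : ℕ → κ[X], w = ∑ r ∈ Finset.range p, X ^ r * c r ^ p := by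
  induction w using Polynomial.induction_on' with
  | add w₁ w₂ h₁ h₂ =>
    obtain ⟨c₁, hc₁⟩ := h₁
    obtain ⟨c₂, hc₂⟩ := h₂
    refine ⟨fun r => c₁ r + c₂ r, ?_⟩
    have h : ∀ r, X ^ r * (c₁ r + c₂ r) ^ p = X ^ r * c₁ r ^ p + X ^ r * c₂ r ^ p := by
      intro r
      rw [add_pow_char, mul_add]
    simp only [h, Finset.sum_add_distrib]
    rw [← hc₁, ← hc₂]
  | monomial n a =>
    refine ⟨fun r => if r = n % p then monomial (n / p) ((frobeniusEquiv κ p).symm a) else 0, ?_⟩
    rw [Finset.sum_eq_single (n % p)]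
    · simp only [if_true]
      rw [monomial_pow, X_pow_mul_monomial, frobeniusEquiv_symm_pow_p, Nat.div_add_mod' n p]
    · intro r _ hr
      simp only [if_neg hr]
      rw [zero_pow hp.out.ne_zero, mul_zero]
    · intro h
      exact absurd (Finset.mem_range.mpr (Nat.mod_lt _ hp.out.pos)) h

/-- Every element of `κ(x)` is `∑_{r<p} x^r b_r^p` with `b_r ∈ κ(x)` (`κ` perfect). -/
theorem exists_pBasis_decomp {L : Type*} [Field L] [Algebra κ L] (x : L) (a : L)
    (ha : a ∈ IntermediateField.adjoin κ {x}) :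
    ∃ b : ℕ → L, (∀ r, b r ∈ IntermediateField.adjoin κ {x}) ∧
      a = ∑ r ∈ Finset.range p, x ^ r * b r ^ p := by
  obtain ⟨u, w, rfl⟩ := (IntermediateField.mem_adjoin_simple_iff κ a).mp ha
  by_cases hw : aeval x w = 0
  · refine ⟨fun _ => 0, fun _ => zero_mem _, ?_⟩
    simp [hw, hp.out.ne_zero]
  · obtain ⟨c, hc⟩ := exists_pBasis_decomp_poly p (u * w ^ (p - 1))
    refine ⟨fun r => aeval x (c r) / aeval x w, fun r => ?_, ?_⟩
    · exact (IntermediateField.mem_adjoin_simple_iff κ _).mpr ⟨c r, w, rfl⟩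
    · have hpp : p - 1 + 1 = p := Nat.sub_add_cancel hp.out.one_le
      have h1 : aeval x u / aeval x w = aeval x (u * w ^ (p - 1)) / (aeval x w) ^ p := by
        rw [_root_.map_mul, _root_.map_pow, eq_div_iff (pow_ne_zero _ hw), div_mul_eq_mul_div,
          div_eq_iff hw, mul_assoc, ← pow_succ, hpp]
      rw [h1, hc, _root_.map_sum, Finset.sum_div]
      refine Finset.sum_congr rfl fun r _ => ?_
      rw [_root_.map_mul, _root_.map_pow, _root_.map_pow, aeval_X, div_pow, mul_div_assoc]

end Decomp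

section Main

variable {κ L : Type*} [Field κ] [PerfectField κ] [Field L] [Algebra κ L]
  (p : ℕ) [hp : Fact p.Prime] [CharP κ p]

/-- **Separability from a valuation** (abstract form).  `κ` perfect of characteristic `p`,
`L ⊇ κ` a field with a `ℤ`-valued additive valuation `v`, `x ∈ L` with `p ∤ v x`.  Then every
`y ∈ L` algebraic over `κ(x)` is separable over `κ(x)`. -/
theorem isSeparable_of_isAlgebraic_of_addVal (v : AddValuation L (WithTop ℤ)) (x : L) (n : ℤ)
    (hx : v x = (n : WithTop ℤ)) (hn : ¬ (p : ℤ) ∣ n) (y : L)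
    (hy : IsAlgebraic (IntermediateField.adjoin κ {x}) y) :
    IsSeparable (IntermediateField.adjoin κ {x}) y := by
  classical
  have : CharP (IntermediateField.adjoin κ {x}) p :=
    charP_of_injective_algebraMap (algebraMap κ (IntermediateField.adjoin κ {x})).injective p
  have : CharP L p := charP_of_injective_algebraMap (algebraMap κ L).injective p
  have hint : IsIntegral (IntermediateField.adjoin κ {x}) y := hy.isIntegral
  have hirr := minpoly.irreducible hint
  rcases Polynomial.separable_or p hirr with hsep | ⟨_, h, hh, hexp⟩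
  · exact hsep
  exfalso
  have h0 : aeval (y ^ p) h = 0 := by
    rw [← expand_aeval, hexp, minpoly.aeval]
  have hdec : ∀ i : ℕ, ∃ b : ℕ → L, (∀ r, b r ∈ IntermediateField.adjoin κ {x}) ∧
      ((h.coeff i : IntermediateField.adjoin κ {x}) : L) =
        ∑ r ∈ Finset.range p, x ^ r * b r ^ p :=
    fun i => exists_pBasis_decomp p x _ (h.coeff i).2
  choose b hbE hb using hdec
  set H : ℕ → (IntermediateField.adjoin κ {x})[X] := fun r =>
    ∑ i ∈ Finset.range (h.natDegree + 1),
      monomial i (⟨b i r, hbE i r⟩ : IntermediateField.adjoin κ {x}) with hH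
  have haev : ∀ r, aeval y (H r) = ∑ i ∈ Finset.range (h.natDegree + 1), b i r * y ^ i := by
    intro r
    rw [hH]
    simp only [_root_.map_sum, aeval_monomial]
    rfl
  have hsum : ∑ r ∈ Finset.range p, x ^ r * (aeval y (H r)) ^ p = 0 := by
    calc ∑ r ∈ Finset.range p, x ^ r * (aeval y (H r)) ^ p
        = ∑ r ∈ Finset.range p, ∑ i ∈ Finset.range (h.natDegree + 1),
            x ^ r * b i r ^ p * (y ^ p) ^ i := by
          refine Finset.sum_congr rfl fun r _ => ?_
          rw [haev, sum_pow_char, Finset.mul_sum]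
          refine Finset.sum_congr rfl fun i _ => ?_
          rw [mul_pow, ← pow_mul, ← pow_mul, mul_comm i p, mul_assoc]
      _ = ∑ i ∈ Finset.range (h.natDegree + 1),
            (∑ r ∈ Finset.range p, x ^ r * b i r ^ p) * (y ^ p) ^ i := by
          rw [Finset.sum_comm]
          refine Finset.sum_congr rfl fun i _ => ?_
          rw [Finset.sum_mul]
      _ = aeval (y ^ p) h := by
          rw [aeval_eq_sum_range]
          refine Finset.sum_congr rfl fun i _ => ?_
          rw [← hb i, Algebra.smul_def]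
          rfl
      _ = 0 := h0
  have hz := eq_zero_of_sum_pow_mul_pow_eq_zero v p hp.out x n hx hn
    (fun r => aeval y (H r)) hsum
  have hdegH : ∀ r, (H r).natDegree ≤ h.natDegree := by
    intro r
    rw [hH]
    refine natDegree_sum_le_of_forall_le _ _ fun i hi => ?_
    exact (natDegree_monomial_le _).trans (Nat.lt_succ_iff.mp (Finset.mem_range.mp hi))
  have hdegh : 0 < h.natDegree := hh.natDegree_pos
  have hdegm : (minpoly (IntermediateField.adjoin κ {x}) y).natDegree = h.natDegree * p := by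
    rw [← hexp, natDegree_expand]
  have hzero : ∀ r < p, H r = 0 := by
    intro r hrp
    by_contra hne
    have h1 := natDegree_le_natDegree
      (minpoly.degree_le_of_ne_zero (IntermediateField.adjoin κ {x}) y hne (hz r hrp))
    have h2 := hdegH r
    have h3 : h.natDegree * 2 ≤ h.natDegree * p := Nat.mul_le_mul_left _ hp.out.two_le
    omega
  have hbzero : ∀ i ≤ h.natDegree, ∀ r < p, b i r = 0 := by
    intro i hi r hrp
    have h1 : (H r).coeff i = 0 := by rw [hzero r hrp, coeff_zero]
    rw [hH] at h1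
    simp only [finsetSum_coeff, coeff_monomial] at h1
    rw [Finset.sum_eq_single i] at h1
    · rw [if_pos rfl] at h1
      exact congrArg Subtype.val h1
    · intro j _ hj
      rw [if_neg hj]
    · intro hi'
      exact absurd (Finset.mem_range.mpr (Nat.lt_succ_iff.mpr hi)) hi'
  apply hh.ne_zero
  refine Polynomial.ext fun i => ?_
  rw [coeff_zero]
  by_cases hi : i ≤ h.natDegree
  · apply Subtype.ext
    rw [hb i, ZeroMemClass.coe_zero]
    refine Finset.sum_eq_zero fun r hr => ?_
    rw [hbzero i hi r (Finset.mem_range.mp hr), zero_pow hp.out.ne_zero, mul_zero]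
  · exact coeff_eq_zero_of_natDegree_lt (not_le.mp hi)

end Main

section Laurent

variable {κ : Type*} [Field κ] [PerfectField κ] (p : ℕ) [hp : Fact p.Prime] [CharP κ p]

/-- **G-SEP core.**  `κ` perfect of characteristic `p`, `x ∈ κ((q))` of `q`-order prime to `p`.
Every `y ∈ κ((q))` algebraic over `κ(x)` is separable over `κ(x)`. -/
theorem isSeparable_laurent (x y : LaurentSeries κ) (hx : ¬ (p : ℤ) ∣ x.order)
    (hy : IsAlgebraic (IntermediateField.adjoin κ {x}) y) :
    IsSeparable (IntermediateField.adjoin κ {x}) y := by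
  have hx0 : x ≠ 0 := by
    rintro rfl
    exact hx (by rw [HahnSeries.order_zero]; exact dvd_zero _)
  exact isSeparable_of_isAlgebraic_of_addVal p (HahnSeries.addVal ℤ κ) x x.order
    (HahnSeries.addVal_apply_of_ne hx0) hx y hy

theorem not_prime_dvd_neg_one (q : ℕ) (hq : q.Prime) : ¬ (q : ℤ) ∣ -1 := by
  rw [dvd_neg]
  intro h
  have h1 : (q : ℤ) ≤ 1 := Int.le_of_dvd one_pos h
  have h2 := hq.two_le
  omega

include hp in
/-- The case `ord_q x = -1` (`x = j̄, t̄₂, t̄₃`). -/
theorem isSeparable_laurent_of_order_eq_neg_one (x y : LaurentSeries κ) (hx : x.order = -1)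
    (hy : IsAlgebraic (IntermediateField.adjoin κ {x}) y) :
    IsSeparable (IntermediateField.adjoin κ {x}) y :=
  isSeparable_laurent p x y (by rw [hx]; exact not_prime_dvd_neg_one p hp.out) hy

/-- Every intermediate field of `κ((q)) / κ(x)` that is algebraic over `κ(x)` is separable
over `κ(x)`. -/
theorem isSeparable_intermediateField_laurent (x : LaurentSeries κ) (hx : ¬ (p : ℤ) ∣ x.order)
    (F : IntermediateField (IntermediateField.adjoin κ {x}) (LaurentSeries κ))
    [Algebra.IsAlgebraic (IntermediateField.adjoin κ {x}) F] :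
    Algebra.IsSeparable (IntermediateField.adjoin κ {x}) F := by
  refine ⟨fun z => ?_⟩
  have hz : IsAlgebraic (IntermediateField.adjoin κ {x}) (z : LaurentSeries κ) :=
    (Algebra.IsAlgebraic.isAlgebraic z).algebraMap
  have h := isSeparable_laurent p x (z : LaurentSeries κ) hx hz
  rwa [IsSeparable, ← IntermediateField.minpoly_eq] at h

end Laurent

section PolyForm

variable {κ L : Type*} [Field κ] [Field L] [Algebra κ L]

/-- Clearing denominators: a polynomial over `κ(x)` is, up to a nonzero factor `V(x)`, the image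
of a polynomial in `κ[X][Y]`. -/
theorem exists_clear_denominators (x : L) (g : (IntermediateField.adjoin κ {x})[X]) :
    ∃ (P : Polynomial (Polynomial κ)) (V : Polynomial κ), aeval x V ≠ 0 ∧
      P.map (aeval x : Polynomial κ →ₐ[κ] L).toRingHom =
        C (aeval x V) * g.map (algebraMap (IntermediateField.adjoin κ {x}) L) := by
  induction g using Polynomial.induction_on' with
  | add g₁ g₂ h₁ h₂ =>
    obtain ⟨P₁, V₁, hV₁, hP₁⟩ := h₁
    obtain ⟨P₂, V₂, hV₂, hP₂⟩ := h₂
    refine ⟨C V₂ * P₁ + C V₁ * P₂, V₁ * V₂, ?_, ?_⟩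
    · rw [_root_.map_mul]
      exact mul_ne_zero hV₁ hV₂
    · rw [Polynomial.map_add, Polynomial.map_mul, Polynomial.map_mul, hP₁, hP₂, Polynomial.map_C,
        Polynomial.map_C, Polynomial.map_add, _root_.map_mul, C_mul]
      simp only [AlgHom.toRingHom_eq_coe, RingHom.coe_coe]
      ring
  | monomial i a =>
    obtain ⟨u, w, hu⟩ := (IntermediateField.mem_adjoin_simple_iff κ (a : L)).mp a.2
    by_cases hw : aeval x w = 0
    · refine ⟨0, 1, ?_, ?_⟩
      · rw [_root_.map_one]
        exact one_ne_zero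
      · have ha : a = 0 := by
          apply Subtype.ext
          rw [hu, hw, div_zero]
          rfl
        rw [ha]
        simp
    · refine ⟨monomial i u, w, hw, ?_⟩
      rw [Polynomial.map_monomial, Polynomial.map_monomial, C_mul_monomial]
      congr 1
      show aeval x u = aeval x w * (a : L)
      rw [hu, mul_div_cancel₀ _ hw]

/-- **Liftable polynomial form of separability.**  If `y` is integral and separable over `κ(x)`
then there is `P ∈ κ[X][Y]` with `P(x, y) = 0` and `(∂P/∂Y)(x, y) ≠ 0`. -/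
theorem exists_bivariate_simple_root (x y : L)
    (hsep : IsSeparable (IntermediateField.adjoin κ {x}) y) :
    ∃ P : Polynomial (Polynomial κ),
      P.eval₂ (aeval x : Polynomial κ →ₐ[κ] L).toRingHom y = 0 ∧
      (derivative P).eval₂ (aeval x : Polynomial κ →ₐ[κ] L).toRingHom y ≠ 0 := by
  obtain ⟨P, V, hV, hP⟩ := exists_clear_denominators x (minpoly (IntermediateField.adjoin κ {x}) y)
  refine ⟨P, ?_, ?_⟩
  · rw [eval₂_eq_eval_map, hP, eval_mul, eval_C, eval_map_algebraMap, minpoly.aeval, mul_zero]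
  · rw [eval₂_eq_eval_map, ← derivative_map, hP, derivative_C_mul, eval_mul, eval_C, derivative_map,
      eval_map_algebraMap]
    exact mul_ne_zero hV (hsep.aeval_derivative_ne_zero (minpoly.aeval _ _))

end PolyForm

section LaurentPolyForm

variable {κ : Type*} [Field κ] [PerfectField κ] (p : ℕ) [hp : Fact p.Prime] [CharP κ p]

/-- **G-SEP, liftable form.**  `κ` perfect of characteristic `p`, `x ∈ κ((q))` of order prime to
`p`, `y ∈ κ((q))` algebraic over `κ(x)`: there is `P ∈ κ[X][Y]` with `P(x, y) = 0` and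
`(∂P/∂Y)(x, y) ≠ 0`. -/
theorem exists_bivariate_simple_root_laurent (x y : LaurentSeries κ) (hx : ¬ (p : ℤ) ∣ x.order)
    (hy : IsAlgebraic (IntermediateField.adjoin κ {x}) y) :
    ∃ P : Polynomial (Polynomial κ),
      P.eval₂ (aeval x : Polynomial κ →ₐ[κ] LaurentSeries κ).toRingHom y = 0 ∧
      (derivative P).eval₂ (aeval x : Polynomial κ →ₐ[κ] LaurentSeries κ).toRingHom y ≠ 0 :=
  exists_bivariate_simple_root x y (isSeparable_laurent p x y hx hy)

end LaurentPolyForm

end Fermat.Agent.S18.H264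

end
-- ===== PACK-END S18/H264/SepLaurent.lean

-- ===== PACK-BEGIN S20/Comb694/Orbits.lean
section








/-!
# Counting orbits of a cyclic group whose generator has prime order on a finite set

If `g ^ n` acts trivially on the finite set `X` and `n` is prime then
`n * #(X / ⟨g⟩) = #X + (n - 1) * #Fix(g)`.
-/

set_option autoImplicit false

namespace Fermat.Agent.S20.Comb694

open MulAction Subgroup Function

variable {G X : Type*} [Group G] [MulAction G X]

lemma card_eq_sum_minimalPeriod [Fintype X] (g : G)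
    [Fintype (orbitRel.Quotient (zpowers g) X)] :
    Fintype.card X
      = ∑ q : orbitRel.Quotient (zpowers g) X, minimalPeriod (g • ·) q.out := by
  have (q : orbitRel.Quotient (zpowers g) X) :
      Fintype (MulAction.orbit (zpowers g) q.out) := Fintype.ofFinite _
  simp only [MulAction.minimalPeriod_eq_card]
  rw [← Fintype.card_sigma]
  exact Fintype.card_congr (MulAction.selfEquivSigmaOrbits (zpowers g) X)

lemma minimalPeriod_eq_of_prime (g : G) (n : ℕ) (hn : n.Prime) (hg : ∀ x : X, g ^ n • x = x)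
    (x : X) [Decidable (g • x = x)] :
    minimalPeriod (g • ·) x = if g • x = x then 1 else n := by
  have hper : IsPeriodicPt (g • ·) n x := by
    rw [IsPeriodicPt, IsFixedPt, smul_iterate]
    exact hg x
  have hdvd := hper.minimalPeriod_dvd
  rcases (Nat.dvd_prime hn).mp hdvd with h1 | h2
  · have hfix : g • x = x := minimalPeriod_eq_one_iff_isFixedPt.mp h1
    rw [h1, if_pos hfix]
  · have hfix : ¬ g • x = x := fun h => by
      have h1 : minimalPeriod (g • ·) x = 1 := minimalPeriod_eq_one_iff_isFixedPt.mpr h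
      rw [h2] at h1
      exact hn.one_lt.ne' h1
    rw [h2, if_neg hfix]

lemma smul_eq_of_mem_orbit_zpowers_of_fixed (g : G) (x y : X) (hx : g • x = x)
    (hy : y ∈ MulAction.orbit (zpowers g) x) : y = x := by
  obtain ⟨⟨h, hh⟩, rfl⟩ := hy
  obtain ⟨k, rfl⟩ := Subgroup.mem_zpowers_iff.mp hh
  exact fixedBy_subset_fixedBy_zpow X g k hx

/-- If `g ^ n` acts trivially on the finite set `X` (`n` prime), then
`n * #orbits = #X + (n - 1) * #Fix(g)`. -/
theorem prime_mul_card_orbits [Finite X] (g : G) (n : ℕ) (hn : n.Prime)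
    (hg : ∀ x : X, g ^ n • x = x) :
    n * Nat.card (orbitRel.Quotient (zpowers g) X)
      = Nat.card X + (n - 1) * Nat.card (fixedBy X g) := by
  classical
  haveI := Fintype.ofFinite X
  haveI : Fintype (orbitRel.Quotient (zpowers g) X) := Fintype.ofFinite _
  have h1 := card_eq_sum_minimalPeriod (X := X) g
  simp only [minimalPeriod_eq_of_prime g n hn hg] at h1
  rw [Finset.sum_ite, Finset.sum_const, Finset.sum_const, smul_eq_mul, mul_one,
    smul_eq_mul] at h1
  have h2 : (Finset.univ.filter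
      (fun q : orbitRel.Quotient (zpowers g) X => g • q.out = q.out)).card
        = Nat.card (fixedBy X g) := by
    rw [← Fintype.card_subtype, ← Nat.card_eq_fintype_card]
    refine Nat.card_eq_of_bijective
      (fun q : {q : orbitRel.Quotient (zpowers g) X // g • q.out = q.out} =>
        (⟨q.1.out, q.2⟩ : fixedBy X g)) ⟨?_, ?_⟩
    · intro q q' h
      have h' : q.1.out = q'.1.out := congrArg Subtype.val h
      exact Subtype.ext (Quotient.out_injective h')
    · rintro ⟨x, hx⟩
      have hx' : g • x = x := hx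
      have hout : (Quotient.mk'' x : orbitRel.Quotient (zpowers g) X).out = x := by
        apply smul_eq_of_mem_orbit_zpowers_of_fixed g x _ hx'
        have := Quotient.exact (Quotient.out_eq (Quotient.mk'' x : orbitRel.Quotient (zpowers g) X))
        exact (MulAction.orbitRel_apply).mp this
      refine ⟨⟨Quotient.mk'' x, ?_⟩, ?_⟩
      · rw [hout]; exact hx'
      · exact Subtype.ext hout
  have h3 := Finset.card_filter_add_card_filter_not (s := (Finset.univ :
      Finset (orbitRel.Quotient (zpowers g) X)))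
      (fun q : orbitRel.Quotient (zpowers g) X => g • q.out = q.out)
  rw [Finset.card_univ] at h3
  rw [Nat.card_eq_fintype_card, Nat.card_eq_fintype_card, ← h3, h1, ← h2]
  obtain ⟨m, rfl⟩ : ∃ m, n = m + 1 := ⟨n - 1, (Nat.succ_pred_eq_of_pos hn.pos).symm⟩
  simp only [Nat.add_sub_cancel]
  ring

end Fermat.Agent.S20.Comb694

end
-- ===== PACK-END S20/Comb694/Orbits.lean

-- ===== PACK-BEGIN S18/H438/Front/Dvr.lean
section


/-!
# S18 / ALG-FRONT (helper438), part 0: a subring with a uniformiser is a DVR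

`A : Subring K` (`K` a field), `w ∈ A`, `w ≠ 0`, `w⁻¹ ∉ A`, every nonzero element of `A` is
`w ^ n * unit`.  Then `A` is a discrete valuation ring with uniformiser `w`.
-/

set_option autoImplicit false
set_option linter.unusedSectionVars false

noncomputable section

namespace Fermat.Agent.S18.H438

variable {K : Type*} [Field K] (A : Subring K) {w : K}

/-- units of a subring of a field, elementwise -/
theorem isUnit_subring_iff {a : A} : IsUnit a ↔ (a : K) ≠ 0 ∧ (a : K)⁻¹ ∈ A := by
  constructor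
  · rintro ⟨⟨u, v, huv, hvu⟩, rfl⟩
    have h1 : (u : K) * (v : K) = 1 := congrArg Subtype.val huv
    have hu0 : (u : K) ≠ 0 := left_ne_zero_of_mul_eq_one h1
    refine ⟨hu0, ?_⟩
    have : (u : K)⁻¹ = (v : K) := (eq_inv_of_mul_eq_one_right h1).symm
    rw [show ((⟨u, v, huv, hvu⟩ : Aˣ) : A) = u from rfl, this]
    exact v.2
  · rintro ⟨h0, hinv⟩
    refine ⟨⟨a, ⟨(a : K)⁻¹, hinv⟩, Subtype.ext ?_, Subtype.ext ?_⟩, rfl⟩
    · show (a : K) * (a : K)⁻¹ = 1
      exact mul_inv_cancel₀ h0
    · show (a : K)⁻¹ * (a : K) = 1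
      exact inv_mul_cancel₀ h0

variable (hwA : w ∈ A) (hw0 : w ≠ 0) (hwinv : w⁻¹ ∉ A)
  (hdisc : ∀ r ∈ A, r ≠ 0 → ∃ n : ℕ, r * (w⁻¹) ^ n ∈ A ∧ (r * (w⁻¹) ^ n)⁻¹ ∈ A)

include hwA hw0 hwinv hdisc

/-- `w` is irreducible in `A`. -/
theorem irreducible_unif_of_disc : Irreducible (⟨w, hwA⟩ : A) := by
  have hnu : ¬ IsUnit (⟨w, hwA⟩ : A) := fun h => hwinv ((isUnit_subring_iff A).1 h).2
  refine ⟨hnu, ?_⟩
  intro a b hab
  have habK : w = (a : K) * (b : K) := congrArg Subtype.val hab
  have ha0 : (a : K) ≠ 0 := fun h => hw0 (by rw [habK, h, zero_mul])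
  have hb0 : (b : K) ≠ 0 := fun h => hw0 (by rw [habK, h, mul_zero])
  obtain ⟨n, hn1, hn2⟩ := hdisc a a.2 ha0
  obtain ⟨m, hm1, hm2⟩ := hdisc b b.2 hb0
  -- `w = w^(n+m) * unit`
  have hprod : ((a : K) * (w⁻¹) ^ n) * ((b : K) * (w⁻¹) ^ m) = w * (w⁻¹) ^ (n + m) := by
    rw [habK, pow_add]; ring
  have hunit : w * (w⁻¹) ^ (n + m) ∈ A ∧ (w * (w⁻¹) ^ (n + m))⁻¹ ∈ A := by
    rw [← hprod]
    refine ⟨A.mul_mem hn1 hm1, ?_⟩
    rw [mul_inv]
    exact A.mul_mem hn2 hm2
  -- so `n + m = 1`
  have hnm : n + m = 1 := by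
    rcases Nat.lt_or_ge (n + m) 1 with h | h
    · -- `n + m = 0`: `w` would be a unit
      have h0 : n + m = 0 := by omega
      rw [h0, pow_zero, mul_one] at hunit
      exact absurd hunit.2 hwinv
    · rcases Nat.eq_or_lt_of_le h with h1 | h1
      · exact h1.symm
      · -- `n + m ≥ 2`: `w⁻¹ = (w * w^-(n+m)) * w^(n+m-2) ∈ A`
        exfalso
        obtain ⟨k, hk⟩ : ∃ k, n + m = k + 2 := ⟨n + m - 2, by omega⟩
        have : w⁻¹ = (w * (w⁻¹) ^ (n + m)) * w ^ k := by
          rw [hk, pow_add, inv_pow, inv_pow]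
          field_simp
        apply hwinv
        rw [this]
        exact A.mul_mem hunit.1 (A.pow_mem hwA k)
  rcases Nat.eq_zero_or_pos n with hn | hn
  · left
    rw [isUnit_subring_iff]
    refine ⟨ha0, ?_⟩
    rw [hn, pow_zero, mul_one] at hn2
    exact hn2
  · right
    have hm : m = 0 := by omega
    rw [isUnit_subring_iff]
    refine ⟨hb0, ?_⟩
    rw [hm, pow_zero, mul_one] at hm2
    exact hm2

/-- **`A` is a discrete valuation ring.** -/
theorem isDiscreteValuationRing_of_disc : IsDiscreteValuationRing A := by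
  refine IsDiscreteValuationRing.ofHasUnitMulPowIrreducibleFactorization
    ⟨⟨w, hwA⟩, irreducible_unif_of_disc A hwA hw0 hwinv hdisc, ?_⟩
  intro r hr
  have hr0 : (r : K) ≠ 0 := fun h => hr (Subtype.ext h)
  obtain ⟨n, hn1, hn2⟩ := hdisc r r.2 hr0
  refine ⟨n, ?_⟩
  have hu : IsUnit (⟨(r : K) * (w⁻¹) ^ n, hn1⟩ : A) := by
    rw [isUnit_subring_iff]
    refine ⟨mul_ne_zero hr0 (pow_ne_zero n (inv_ne_zero hw0)), hn2⟩
  obtain ⟨u, hu'⟩ := hu
  refine ⟨u, Subtype.ext ?_⟩
  rw [hu']
  show w ^ n * ((r : K) * (w⁻¹) ^ n) = r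
  rw [inv_pow]
  field_simp

end Fermat.Agent.S18.H438

end
end
-- ===== PACK-END S18/H438/Front/Dvr.lean

-- ===== PACK-BEGIN S18/H138/Charts.lean
section


/-!
# S18, Route K, ASM (helper138): the three charts of the `x`-line model inside a field

`R` a commutative ring, `F` a field which is an `R`-algebra, `x : F`.  The *charts* are

* `chart R {x}`        : elements of `F` integral over `R[x]`        (`B_fin`),
* `chart R {x⁻¹}`      : elements of `F` integral over `R[x⁻¹]`      (`B_inf`),
* `chart R {x, x⁻¹}`   : elements of `F` integral over `R[x, x⁻¹]`   (`B_mid`).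

This file proves the formal properties of the charts needed by the two-chart connectedness
lemma (`H558.cech_connected`):

* `exists_pow_mul_mem_chart`   : `B_mid = B_fin[1/x]`,
* `exists_inv_pow_mul_mem_chart` : every element of `B_fin` lies in `x ^ D • B_inf`,
* `chart_inter_eq` (in `ChartsConst.lean`) : `B_fin ∩ B_inf = R`.
-/

set_option autoImplicit false
set_option linter.style.haveILetI false

namespace Fermat.Agent.S18.H138

open Polynomial

section Basic

variable (R : Type*) [CommRing R] {F : Type*} [Field F] [Algebra R F]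

/-- The chart attached to `S ⊆ F`: the elements of `F` integral over `R[S]`. -/
def chart (S : Set F) : Subalgebra R F :=
  (integralClosure (Algebra.adjoin R S) F).restrictScalars R

variable {R}

theorem mem_chart {S : Set F} {y : F} :
    y ∈ chart R S ↔ IsIntegral (Algebra.adjoin R S) y := Iff.rfl

theorem adjoin_le_chart (S : Set F) : Algebra.adjoin R S ≤ chart R S := by
  intro y hy
  rw [mem_chart]
  exact isIntegral_algebraMap (R := Algebra.adjoin R S) (x := ⟨y, hy⟩)

theorem mem_chart_of_mem {S : Set F} {y : F} (hy : y ∈ S) : y ∈ chart R S :=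
  adjoin_le_chart S (Algebra.subset_adjoin hy)

/-- Integrality over a smaller subalgebra implies integrality over a bigger one. -/
theorem isIntegral_of_le {A₁ A₂ : Subalgebra R F} (h : A₁ ≤ A₂) {y : F}
    (hy : IsIntegral A₁ y) : IsIntegral A₂ y := by
  have := IsIntegral.map_of_comp_eq (R := A₁) (S := F) (T := A₂) (U := F)
    (Subalgebra.inclusion h).toRingHom (RingHom.id F) (by ext; rfl) hy
  simpa using this

theorem chart_mono {S T : Set F} (h : S ⊆ T) : chart R S ≤ chart R T := fun _ hy =>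
  isIntegral_of_le (Algebra.adjoin_mono h) hy

end Basic

section Denominators

variable {R : Type*} [CommRing R] {F : Type*} [Field F] [Algebra R F]

/-- Clearing denominators in `R[x, x⁻¹]`. -/
theorem exists_pow_mul_mem_adjoin {x : F} (hx : x ≠ 0) {a : F}
    (ha : a ∈ Algebra.adjoin R ({x, x⁻¹} : Set F)) :
    ∃ K : ℕ, ∀ k : ℕ, K ≤ k → x ^ k * a ∈ Algebra.adjoin R ({x} : Set F) := by
  have hxA : x ∈ Algebra.adjoin R ({x} : Set F) := Algebra.subset_adjoin rfl
  induction ha using Algebra.adjoin_induction with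
  | mem y hy =>
    rcases hy with rfl | rfl
    · exact ⟨0, fun k _ => Subalgebra.mul_mem _ (Subalgebra.pow_mem _ hxA k) hxA⟩
    · refine ⟨1, fun k hk => ?_⟩
      obtain ⟨k, rfl⟩ : ∃ j, k = j + 1 := ⟨k - 1, by omega⟩
      rw [pow_succ, mul_assoc, mul_inv_cancel₀ hx, mul_one]
      exact Subalgebra.pow_mem _ hxA k
  | algebraMap r =>
    exact ⟨0, fun k _ => Subalgebra.mul_mem _ (Subalgebra.pow_mem _ hxA k)
      (Subalgebra.algebraMap_mem _ r)⟩
  | add y z _ _ hy hz =>
    obtain ⟨K₁, h₁⟩ := hy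
    obtain ⟨K₂, h₂⟩ := hz
    refine ⟨max K₁ K₂, fun k hk => ?_⟩
    rw [mul_add]
    exact Subalgebra.add_mem _ (h₁ k (le_trans (le_max_left _ _) hk))
      (h₂ k (le_trans (le_max_right _ _) hk))
  | mul y z _ _ hy hz =>
    obtain ⟨K₁, h₁⟩ := hy
    obtain ⟨K₂, h₂⟩ := hz
    refine ⟨K₁ + K₂, fun k hk => ?_⟩
    obtain ⟨j, rfl⟩ : ∃ j, k = K₁ + j := ⟨k - K₁, by omega⟩
    have : x ^ (K₁ + j) * (y * z) = (x ^ K₁ * y) * (x ^ j * z) := by ring
    rw [this]
    exact Subalgebra.mul_mem _ (h₁ K₁ le_rfl) (h₂ j (by omega))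

/-- `B_mid = B_fin[1/x]`: an element integral over `R[x, x⁻¹]` becomes integral over `R[x]`
after multiplication by a power of `x`. -/
theorem exists_pow_mul_mem_chart {x : F} (hx : x ≠ 0) {y : F}
    (hy : y ∈ chart R ({x, x⁻¹} : Set F)) :
    ∃ K : ℕ, x ^ K * y ∈ chart R ({x} : Set F) := by
  classical
  set Af : Subalgebra R F := Algebra.adjoin R ({x} : Set F) with hAf
  set Am : Subalgebra R F := Algebra.adjoin R ({x, x⁻¹} : Set F) with hAm
  have hle : Af ≤ Am := Algebra.adjoin_mono (by simp)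
  have hxA : x ∈ Af := Algebra.subset_adjoin rfl
  letI : Algebra Af Am := (Subalgebra.inclusion hle).toRingHom.toAlgebra
  haveI : IsScalarTower Af Am F := IsScalarTower.of_algebraMap_eq (fun _ => rfl)
  let xf : Af := ⟨x, hxA⟩
  haveI : IsLocalization (Submonoid.powers xf) Am := by
    rw [isLocalization_iff]
    refine ⟨?_, ?_, ?_⟩
    · rintro ⟨_, n, rfl⟩
      have hxinv : x⁻¹ ∈ Am := Algebra.subset_adjoin (by simp)
      refine IsUnit.of_mul_eq_one (⟨x⁻¹, hxinv⟩ ^ n) ?_
      apply Subtype.ext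
      change x ^ n * (x⁻¹) ^ n = 1
      rw [← mul_pow, mul_inv_cancel₀ hx, one_pow]
    · intro z
      obtain ⟨K, hK⟩ := exists_pow_mul_mem_adjoin (R := R) hx z.2
      refine ⟨⟨⟨x ^ K * z, hK K le_rfl⟩, ⟨xf ^ K, K, rfl⟩⟩, ?_⟩
      apply Subtype.ext
      change (z : F) * x ^ K = x ^ K * z
      ring
    · intro a b hab
      refine ⟨1, ?_⟩
      have : (a : F) = b := congrArg (fun t : Am => (t : F)) hab
      rw [Subtype.ext this]
  obtain ⟨⟨_, n, rfl⟩, hm⟩ :=
    IsIntegral.exists_multiple_integral_of_isLocalization (Submonoid.powers xf) (Rₘ := Am)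
      (S := F) y hy
  refine ⟨n, ?_⟩
  rw [mem_chart]
  have : (⟨xf ^ n, n, rfl⟩ : Submonoid.powers xf) • y = x ^ n * y := rfl
  rwa [this] at hm

/-- Every element of `B_fin` lies in `x ^ D • B_inf`. -/
theorem exists_inv_pow_mul_mem_chart {x : F} (hx : x ≠ 0) {y : F}
    (hy : y ∈ chart R ({x} : Set F)) :
    ∃ D : ℕ, x⁻¹ ^ D * y ∈ chart R ({x⁻¹} : Set F) := by
  have h1 : y ∈ chart R ({x⁻¹, x⁻¹⁻¹} : Set F) := by
    refine chart_mono ?_ hy
    rw [inv_inv]
    simp
  exact exists_pow_mul_mem_chart (inv_ne_zero hx) h1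

end Denominators

end Fermat.Agent.S18.H138

end
-- ===== PACK-END S18/H138/Charts.lean

-- ===== PACK-BEGIN S18/H845/EtaleVal.lean
section


/-!
# S18 / d1(c): constant-field extensions are unramified — the valuation-theoretic core

`R` a discrete valuation ring with uniformiser `π`, `L ⊇ R` a field, `B ⊆ L` a valuation subring
containing `R` in which `π` is not a unit.  Let `α ∈ L` be a root of a monic `p ∈ R[X]` whose
reduction modulo `π` is separable.  Then the value group of `B` on `Frac(R)[α]` is generated by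
the value of `π`: for every `g ∈ R[X]` with `g(α) ≠ 0`, `v (g α) = v π ^ j` for some `j : ℕ`.
-/

set_option autoImplicit false
set_option linter.unusedSectionVars false

namespace Fermat.Agent.S18.H845

open Polynomial IsLocalRing

section FL

variable {R L : Type*} [CommRing R] [IsDomain R] [IsDiscreteValuationRing R] [Field L]
  [Algebra R L]

/-- A polynomial over a DVR whose reduction vanishes is divisible by the uniformiser. -/
lemma exists_C_mul_of_map_residue_eq_zero {π : R} (hπ : Irreducible π) {q : R[X]}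
    (hq : q.map (residue R) = 0) : ∃ G : R[X], q = C π * G := by
  have h : C π ∣ q := by
    rw [Polynomial.C_dvd_iff_dvd_coeff]
    intro i
    have hi : residue R (q.coeff i) = 0 := by
      have := congrArg (fun f => f.coeff i) hq
      simpa using this
    rw [residue_eq_zero_iff, hπ.maximalIdeal_eq, Ideal.mem_span_singleton] at hi
    exact hi
  exact h

variable (B : ValuationSubring L)

omit [IsDomain R] [IsDiscreteValuationRing R] in
/-- Evaluation at an element of `B` of a polynomial with coefficients in `R ⊆ B` lies in `B`. -/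
lemma aeval_mem_of_mem (hRB : ∀ r : R, algebraMap R L r ∈ B) {f : L} (hf : f ∈ B) (q : R[X]) :
    aeval f q ∈ B := by
  induction q using Polynomial.induction_on' with
  | add p q hp hq => rw [_root_.map_add]; exact B.add_mem _ _ hp hq
  | monomial n a =>
    rw [aeval_monomial]
    exact B.mul_mem _ _ (hRB a) (pow_mem hf n)

omit [IsDomain R] [IsDiscreteValuationRing R] in
/-- A root of a monic polynomial over `R ⊆ B` lies in `B`. -/
lemma mem_of_monic_root (hRB : ∀ r : R, algebraMap R L r ∈ B) {α : L} {p : R[X]}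
    (hp : p.Monic) (hpα : aeval α p = 0) : α ∈ B := by
  let fRB : R →+* B := (algebraMap R L).codRestrict B hRB
  have hint : IsIntegral B α := by
    refine ⟨p.map fRB, hp.map _, ?_⟩
    rw [Polynomial.eval₂_map]
    have : (algebraMap B L).comp fRB = algebraMap R L := RingHom.ext fun _ => rfl
    rw [this]
    exact hpα
  obtain ⟨y, hy⟩ := (IsIntegrallyClosed.isIntegral_iff (R := B) (K := L)).mp hint
  rw [← hy]
  exact y.2

variable (hRB : ∀ r : R, algebraMap R L r ∈ B)
  {π : R} (hπ : Irreducible π) (hπB : B.valuation (algebraMap R L π) < 1)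
  {α : L} {p : R[X]} (hp : p.Monic) (hpα : aeval α p = 0)
  (hsep : (p.map (residue R)).Separable)

omit [IsDomain R] [IsDiscreteValuationRing R] in
include hRB in
lemma val_aeval_le_one {f : L} (hf : f ∈ B) (q : R[X]) : B.valuation (aeval f q) ≤ 1 :=
  (B.valuation_le_one_iff _).mpr (aeval_mem_of_mem B hRB hf q)

include hRB hπ hπB in
/-- `R → B` is a local homomorphism. -/
lemma isLocalHom_codRestrict : IsLocalHom ((algebraMap R L).codRestrict B hRB) := by
  refine ⟨fun a ha => ?_⟩
  by_contra hna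
  have hmem : a ∈ maximalIdeal R := (mem_maximalIdeal a).mpr hna
  rw [hπ.maximalIdeal_eq, Ideal.mem_span_singleton] at hmem
  obtain ⟨b, rfl⟩ := hmem
  have h1 : B.valuation (algebraMap R L (π * b)) = 1 := by
    have := (B.valuation_eq_one_iff ((algebraMap R L).codRestrict B hRB (π * b))).mp ha
    exact this
  rw [_root_.map_mul, _root_.map_mul] at h1
  have h2 : B.valuation (algebraMap R L b) ≤ 1 := (B.valuation_le_one_iff _).mpr (hRB b)
  have h3 : B.valuation (algebraMap R L π) * B.valuation (algebraMap R L b) < 1 :=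
    mul_lt_one_of_lt_of_le hπB h2
  exact absurd h1 h3.ne

include hRB hπ hπB hp hpα hsep in
/-- Key step: an element `g(α)` of positive valuation is `π` times another such element, up to
a unit of `B`. -/
lemma key_step (g : R[X]) (hg : B.valuation (aeval α g) < 1) :
    ∃ g₁ : R[X], B.valuation (aeval α g) =
      B.valuation (algebraMap R L π) * B.valuation (aeval α g₁) := by
  classical
  have hαB : α ∈ B := mem_of_monic_root B hRB hp hpα
  let fRB : R →+* B := (algebraMap R L).codRestrict B hRB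
  have : IsLocalHom fRB := isLocalHom_codRestrict B hRB hπ hπB
  let αB : B := ⟨α, hαB⟩
  let κ := ResidueField R
  let κB := ResidueField B
  let fκ : κ →+* κB := ResidueField.map fRB
  let ψ' : κ[X] →+* κB := Polynomial.eval₂RingHom fκ (residue B αB)
  -- compatibility
  have hcompat : ∀ q : R[X], ψ' (q.map (residue R)) =
      residue B ⟨aeval α q, aeval_mem_of_mem B hRB hαB q⟩ := by
    intro q
    have e1 : ψ' (q.map (residue R)) = Polynomial.eval₂ (fκ.comp (residue R)) (residue B αB) q := by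
      show Polynomial.eval₂ fκ (residue B αB) (q.map (residue R)) = _
      rw [Polynomial.eval₂_map]
    have e2 : fκ.comp (residue R) = (residue B).comp fRB := by
      ext r
      exact ResidueField.map_residue fRB r
    have e3 : Polynomial.eval₂ ((residue B).comp fRB) (residue B αB) q =
        residue B (Polynomial.eval₂ fRB αB q) := by
      rw [Polynomial.hom_eval₂]
    have e4 : Polynomial.eval₂ fRB αB q = ⟨aeval α q, aeval_mem_of_mem B hRB hαB q⟩ := by
      apply Subtype.ext
      have : (B.subtype : B →+* L) (Polynomial.eval₂ fRB αB q) =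
          Polynomial.eval₂ (B.subtype.comp fRB) (B.subtype αB) q := by
        rw [Polynomial.hom_eval₂]
      rw [show ((Polynomial.eval₂ fRB αB q : B) : L) = B.subtype (Polynomial.eval₂ fRB αB q)
        from rfl, this]
      rfl
    rw [e1, e2, e3, e4]
  -- vanishing
  have hres_zero : ∀ q : R[X], ψ' (q.map (residue R)) = 0 ↔ B.valuation (aeval α q) < 1 := by
    intro q
    rw [hcompat, residue_eq_zero_iff, B.valuation_lt_one_iff]
  set gb := g.map (residue R) with hgb
  set pb := p.map (residue R) with hpb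
  have hψg : ψ' gb = 0 := (hres_zero g).mpr hg
  have hψp : ψ' pb = 0 := (hres_zero p).mpr (by rw [hpα, _root_.map_zero]; exact zero_lt_one)
  -- gcd
  set d := EuclideanDomain.gcd gb pb with hd
  have hψd : ψ' d = 0 := by
    rw [hd, EuclideanDomain.gcd_eq_gcd_ab, _root_.map_add, _root_.map_mul, _root_.map_mul, hψg, hψp]
    simp
  obtain ⟨e, he⟩ : d ∣ pb := EuclideanDomain.gcd_dvd_right gb pb
  obtain ⟨h, hh⟩ : d ∣ gb := EuclideanDomain.gcd_dvd_left gb pb
  have hcop : IsCoprime d e := by
    have : (d * e).Separable := by rw [← he]; exact hsep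
    exact this.isCoprime
  have hψe : ψ' e ≠ 0 := by
    obtain ⟨a, b, hab⟩ := hcop
    intro h0
    have := congrArg ψ' hab
    rw [_root_.map_add, _root_.map_mul, _root_.map_mul, hψd, h0, _root_.map_one] at this
    simp at this
  -- lifts
  obtain ⟨D, hD⟩ := Polynomial.map_surjective (residue R) (residue_surjective) d
  obtain ⟨E, hE⟩ := Polynomial.map_surjective (residue R) (residue_surjective) e
  obtain ⟨H, hH⟩ := Polynomial.map_surjective (residue R) (residue_surjective) h
  obtain ⟨G, hG⟩ := exists_C_mul_of_map_residue_eq_zero hπ (q := g - D * H) (by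
    rw [Polynomial.map_sub, Polynomial.map_mul, hD, hH, ← hh, sub_self])
  obtain ⟨T, hT⟩ := exists_C_mul_of_map_residue_eq_zero hπ (q := D * E - p) (by
    rw [Polynomial.map_sub, Polynomial.map_mul, hD, hE, ← he, sub_self])
  refine ⟨H * T + G * E, ?_⟩
  have hpoly : g * E = H * p + C π * (H * T + G * E) := by
    have h1 : g = D * H + C π * G := by rw [← hG]; ring
    have h2 : D * E = p + C π * T := by rw [← hT]; ring
    calc g * E = (D * H + C π * G) * E := by rw [← h1]
      _ = H * (D * E) + C π * (G * E) := by ring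
      _ = H * (p + C π * T) + C π * (G * E) := by rw [h2]
      _ = H * p + C π * (H * T + G * E) := by ring
  have hev := congrArg (aeval α) hpoly
  rw [_root_.map_mul, _root_.map_add, _root_.map_mul, _root_.map_mul, hpα, mul_zero, zero_add, aeval_C] at hev
  have hEunit : B.valuation (aeval α E) = 1 := by
    have h1 : B.valuation (aeval α E) ≤ 1 := val_aeval_le_one B hRB hαB E
    have h2 : ¬ B.valuation (aeval α E) < 1 := by
      rw [← hres_zero, hE]
      exact hψe
    exact le_antisymm h1 (not_lt.mp h2)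
  have := congrArg B.valuation hev
  rw [_root_.map_mul, _root_.map_mul, hEunit, mul_one] at this
  exact this


include hRB in
/-- Units of `R` have valuation one. -/
lemma val_unit_eq_one (u : Rˣ) : B.valuation (algebraMap R L (u : R)) = 1 := by
  have h1 : B.valuation (algebraMap R L (u : R)) ≤ 1 := (B.valuation_le_one_iff _).mpr (hRB _)
  have h2 : B.valuation (algebraMap R L ((u⁻¹ : Rˣ) : R)) ≤ 1 :=
    (B.valuation_le_one_iff _).mpr (hRB _)
  have h3 : B.valuation (algebraMap R L (u : R)) * B.valuation (algebraMap R L ((u⁻¹ : Rˣ) : R))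
      = 1 := by
    rw [← _root_.map_mul, ← _root_.map_mul, Units.mul_inv, _root_.map_one, _root_.map_one]
  by_contra hne
  have hlt : B.valuation (algebraMap R L (u : R)) < 1 := lt_of_le_of_ne h1 hne
  have : B.valuation (algebraMap R L (u : R)) * B.valuation (algebraMap R L ((u⁻¹ : Rˣ) : R))
      < 1 := mul_lt_one_of_lt_of_le hlt h2
  exact absurd h3 this.ne

include hRB hπ in
/-- Nonzero elements of `R` have valuation a power of `v π`. -/
lemma val_algebraMap_eq_pow {c : R} (hc : c ≠ 0) :
    ∃ k : ℕ, B.valuation (algebraMap R L c) = B.valuation (algebraMap R L π) ^ k := by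
  obtain ⟨n, u, hu⟩ := IsDiscreteValuationRing.eq_unit_mul_pow_irreducible hc hπ
  refine ⟨n, ?_⟩
  rw [hu, _root_.map_mul, _root_.map_mul, val_unit_eq_one B hRB, one_mul, _root_.map_pow, _root_.map_pow]

include hRB hπ in
/-- Archimedean property: a nonzero element integral over `R` has valuation at least a power
of `v π`. -/
lemma exists_pow_le_val {f : L} (hf0 : f ≠ 0) (hfint : IsIntegral R f) :
    ∃ k : ℕ, B.valuation (algebraMap R L π) ^ k ≤ B.valuation f := by
  obtain ⟨a, ha, haf⟩ := hfint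
  have haf' : aeval f a = 0 := haf
  have hfB : f ∈ B := mem_of_monic_root B hRB ha haf'
  obtain ⟨a', ha', hnd⟩ :=
    Polynomial.exists_eq_pow_rootMultiplicity_mul_and_not_dvd a ha.ne_zero (0 : R)
  rw [_root_.map_zero, sub_zero] at ha' hnd
  have ha'f : aeval f a' = 0 := by
    have := haf'
    rw [ha', _root_.map_mul, _root_.map_pow, aeval_X] at this
    rcases mul_eq_zero.mp this with h | h
    · exact absurd (pow_eq_zero_iff'.mp h).1 hf0
    · exact h
  have hc0 : a'.coeff 0 ≠ 0 := fun h0 => hnd (Polynomial.X_dvd_iff.mpr h0)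
  obtain ⟨k, hk⟩ := val_algebraMap_eq_pow B hRB hπ hc0
  refine ⟨k, ?_⟩
  have hdec : a'.divX * X + C (a'.coeff 0) = a' := Polynomial.divX_mul_X_add a'
  have hev : aeval f a'.divX * f + algebraMap R L (a'.coeff 0) = 0 := by
    have := congrArg (aeval f) hdec
    rw [_root_.map_add, _root_.map_mul, aeval_X, aeval_C, ha'f] at this
    exact this
  have hc : algebraMap R L (a'.coeff 0) = -(aeval f a'.divX * f) := by
    rw [eq_neg_iff_add_eq_zero, add_comm]; exact hev
  rw [← hk, hc, Valuation.map_neg, _root_.map_mul]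
  exact mul_le_of_le_one_left' (val_aeval_le_one B hRB hfB _)

include hRB hp hpα in
lemma isIntegral_aeval (g : R[X]) : IsIntegral R (aeval α g) := by
  have hα : IsIntegral R α := ⟨p, hp, hpα⟩
  have h1 : aeval α g ∈ Algebra.adjoin R {α} := Polynomial.aeval_mem_adjoin_singleton R α
  have h2 : Algebra.adjoin R {α} ≤ integralClosure R L :=
    Algebra.adjoin_le (by rintro x ⟨rfl⟩; exact hα)
  exact h2 h1

include hRB hπ hπB hp hpα hsep in
lemma val_eq_pow_of_le (hinj : Function.Injective (algebraMap R L)) (k : ℕ) :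
    ∀ g : R[X], aeval α g ≠ 0 →
      B.valuation (algebraMap R L π) ^ k ≤ B.valuation (aeval α g) →
      ∃ j : ℕ, B.valuation (aeval α g) = B.valuation (algebraMap R L π) ^ j := by
  have hαB : α ∈ B := mem_of_monic_root B hRB hp hpα
  have hπ0 : B.valuation (algebraMap R L π) ≠ 0 := by
    rw [Valuation.ne_zero_iff]
    intro h
    exact hπ.ne_zero (hinj (by rw [h, _root_.map_zero]))
  induction k with
  | zero =>
    intro g _ hle
    refine ⟨0, ?_⟩
    rw [pow_zero] at hle ⊢
    exact le_antisymm (val_aeval_le_one B hRB hαB g) hle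
  | succ k ih =>
    intro g hg0 hle
    by_cases h1 : B.valuation (aeval α g) < 1
    · obtain ⟨g₁, hg₁⟩ := key_step B hRB hπ hπB hp hpα hsep g h1
      have hg₁0 : aeval α g₁ ≠ 0 := by
        intro h0
        rw [h0, _root_.map_zero, mul_zero] at hg₁
        exact hg0 ((Valuation.zero_iff _).mp hg₁)
      have hle' : B.valuation (algebraMap R L π) ^ k ≤ B.valuation (aeval α g₁) := by
        rw [hg₁, pow_succ'] at hle
        exact le_of_mul_le_mul_left hle (zero_lt_iff.mpr hπ0)
      obtain ⟨j, hj⟩ := ih g₁ hg₁0 hle'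
      exact ⟨j + 1, by rw [hg₁, hj, pow_succ']⟩
    · refine ⟨0, ?_⟩
      rw [pow_zero]
      exact le_antisymm (val_aeval_le_one B hRB hαB g) (not_lt.mp h1)

include hRB hπ hπB hp hpα hsep in
/-- **Unramifiedness, integral form.** -/
theorem val_aeval_eq_pow (hinj : Function.Injective (algebraMap R L)) (g : R[X])
    (hg : aeval α g ≠ 0) :
    ∃ j : ℕ, B.valuation (aeval α g) = B.valuation (algebraMap R L π) ^ j := by
  obtain ⟨k, hk⟩ := exists_pow_le_val B hRB hπ hg (isIntegral_aeval B hRB hp hpα g)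
  exact val_eq_pow_of_le B hRB hπ hπB hp hpα hsep hinj k g hg hk

end FL

end Fermat.Agent.S18.H845

end
-- ===== PACK-END S18/H845/EtaleVal.lean

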