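import Mathlib
import Fermat.Prelude.Def_EllipticCurve_FrobeniusTrace
import Mathlib.NumberTheory.ModularForms.EisensteinSeries.QExpansion
import Mathlib.NumberTheory.ModularForms.LevelOne.DimensionFormula
import Fermat.Prelude.Def_AlgebraicCurve_DivisorClassGroup
import Fermat.Agent.Pack.S33.E0L1
import Fermat.Agent.Pack.S33.E0L0
import Fermat.Agent.Pack.S33.E0L2
import Fermat.Agent.Pack.S33.E0L3
import Fermat.Agent.Pack.S33.E1L2
import Fermat.Agent.Pack.S33.E1L3
import Fermat.Agent.Pack.S33.E1L0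

-- ===== PACK-BEGIN Lib/Cheb/H761/ZetaEuler.lean
section


/-!
# Euler product and prime-ideal sum for the Dedekind zeta function

For a number field `K` and real `s > 1`:
* `zetaI K s = ∑_I N(I)^(-s)` (sum over all ideals; the zero ideal contributes `0`), equal to
  Mathlib's `dedekindZeta K s`;
* `tendsto_prod_zetaI` : `∏_{𝔭 ∈ T} (1 - N𝔭^(-s)) → (zetaI K s)⁻¹`;
* `primeSum K s = ∑_𝔭 N𝔭^(-s)` and `primeSum K s ≤ log (zetaI K s) ≤ primeSum K s + 2 primeSum K (2 s)`;
* `exists_primeSum_bound` : `|primeSum K s - log (1 / (s - 1))| ≤ C` for `1 < s ≤ 2`.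
-/

set_option autoImplicit false

namespace Fermat.Agent.Lib.Cheb.H761

open IsDedekindDomain Filter Topology NumberField Ideal Asymptotics

set_option linter.unusedSectionVars false
set_option linter.unusedVariables false

noncomputable section

variable (K : Type*) [Field K] [NumberField K]

/-- `N(I)^(-s)` -/
def normPow (s : ℝ) (I : Ideal (𝓞 K)) : ℝ := (absNorm I : ℝ) ^ (-s)

lemma normPow_nonneg (s : ℝ) (I : Ideal (𝓞 K)) : 0 ≤ normPow K s I :=
  Real.rpow_nonneg (Nat.cast_nonneg _) _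

lemma normPow_mul (s : ℝ) (I J : Ideal (𝓞 K)) :
    normPow K s (I * J) = normPow K s I * normPow K s J := by
  simp only [normPow, _root_.map_mul, Nat.cast_mul]
  exact Real.mul_rpow (Nat.cast_nonneg _) (Nat.cast_nonneg _)

lemma normPow_top (s : ℝ) : normPow K s ⊤ = 1 := by
  simp [normPow]

lemma normPow_bot {s : ℝ} (hs : s ≠ 0) : normPow K s ⊥ = 0 := by
  simp [normPow, Real.zero_rpow (neg_ne_zero.mpr hs)]

/-- number of ideals of norm `n` -/
def idealCount (n : ℕ) : ℕ := Nat.card {I : Ideal (𝓞 K) // absNorm I = n}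

/-- The sum of `N(I)^(-s)` over all ideals of norm `n`. -/
lemma tsum_fiber (s : ℝ) (n : ℕ) :
    ∑' I : {I : Ideal (𝓞 K) // absNorm I = n}, normPow K s I.1 =
      (idealCount K n : ℝ) * (n : ℝ) ^ (-s) := by
  have hfin : Finite {I : Ideal (𝓞 K) // absNorm I = n} :=
    (Ideal.finite_setOfPred_absNorm_eq n).to_subtype
  have : Fintype {I : Ideal (𝓞 K) // absNorm I = n} := Fintype.ofFinite _
  rw [tsum_fintype]
  have : ∀ I : {I : Ideal (𝓞 K) // absNorm I = n}, normPow K s I.1 = (n : ℝ) ^ (-s) := by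
    intro I
    simp only [normPow, I.2]
  simp only [this, Finset.sum_const, Finset.card_univ, nsmul_eq_mul, idealCount,
    Nat.card_eq_fintype_card]

lemma tendsto_sum_idealCount_div :
    Tendsto (fun n : ℕ ↦ (∑ k ∈ Finset.Icc 1 n, (idealCount K k : ℝ)) / (n : ℝ)) atTop
      (𝓝 (dedekindZeta_residue K)) := by
  refine ((Ideal.tendsto_norm_le_div_atTop₀ K).comp tendsto_natCast_atTop_atTop).congr fun n ↦ ?_
  simp only [Function.comp_apply, Nat.cast_le, idealCount, ← Nat.cast_sum]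
  congr
  rw [← add_left_inj 1, ← card_norm_le_eq_card_norm_le_add_one,
    show Finset.Icc 1 n = Finset.Ioc 0 n from Finset.Icc_succ_left_eq_Ioc _ _,
    show 1 = Nat.card {I : Ideal (𝓞 K) // absNorm I = 0} by simp [Ideal.absNorm_eq_zero_iff],
    Finset.sum_Ioc_add_eq_sum_Icc (n.zero_le),
    ← Finset.card_preimage_eq_sum_card_image_eq (fun k _ ↦ finite_setOfPred_absNorm_eq k)]
  simp [Set.coe_eq_subtype]

lemma lseriesSummable_idealCount {s : ℝ} (hs : 1 < s) :
    LSeriesSummable (fun n ↦ ((idealCount K n : ℝ) : ℂ)) (s : ℂ) := by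
  refine LSeriesSummable_of_sum_norm_bigO_and_nonneg ?_ (fun n => Nat.cast_nonneg _) zero_le_one
    (by simpa using hs)
  exact isBigO_atTop_natCast_rpow_of_tendsto_div_rpow
    (by simpa using tendsto_sum_idealCount_div K)

lemma term_eq {s : ℝ} (hs : 1 < s) (n : ℕ) :
    LSeries.term (fun n ↦ ((idealCount K n : ℝ) : ℂ)) (s : ℂ) n =
      (((idealCount K n : ℝ) * (n : ℝ) ^ (-s) : ℝ) : ℂ) := by
  rcases eq_or_ne n 0 with rfl | hn
  · have : (0 : ℝ) ^ (-s) = 0 := Real.zero_rpow (by linarith)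
    simp [this]
  · rw [LSeries.term_of_ne_zero hn, Complex.ofReal_mul,
      Complex.ofReal_cpow (Nat.cast_nonneg n), Complex.ofReal_neg, Complex.cpow_neg]
    simp [div_eq_mul_inv]

/-- the `ℕ`-indexed real series is summable for `s > 1` -/
lemma summable_idealCount {s : ℝ} (hs : 1 < s) :
    Summable (fun n : ℕ ↦ (idealCount K n : ℝ) * (n : ℝ) ^ (-s)) := by
  have h := lseriesSummable_idealCount K hs
  have h2 : Summable (fun n : ℕ ↦ (((idealCount K n : ℝ) * (n : ℝ) ^ (-s) : ℝ) : ℂ)) :=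
    h.congr fun n ↦ term_eq K hs n
  exact Complex.summable_ofReal.mp h2

/-- `N(I)^(-s)` is summable over all ideals, `s > 1`. -/
theorem summable_normPow {s : ℝ} (hs : 1 < s) : Summable (normPow K s) := by
  have key : Summable (fun x : Σ n : ℕ, {I : Ideal (𝓞 K) // absNorm I = n} =>
      normPow K s x.2.1) := by
    rw [summable_sigma_of_nonneg (fun x => normPow_nonneg K s _)]
    refine ⟨fun n => ?_, ?_⟩
    · have hfin : Finite {I : Ideal (𝓞 K) // absNorm I = n} :=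
        (Ideal.finite_setOfPred_absNorm_eq n).to_subtype
      exact Summable.of_finite
    · refine (summable_idealCount K hs).congr fun n => ?_
      exact (tsum_fiber K s n).symm
  exact ((Equiv.sigmaFiberEquiv (fun I : Ideal (𝓞 K) => absNorm I)).summable_iff
    (f := normPow K s)).mp key

/-- the Dedekind zeta function as a sum over ideals -/
def zetaI (s : ℝ) : ℝ := ∑' I : Ideal (𝓞 K), normPow K s I

lemma zetaI_eq_tsum_nat {s : ℝ} (hs : 1 < s) :
    zetaI K s = ∑' n : ℕ, (idealCount K n : ℝ) * (n : ℝ) ^ (-s) := by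
  have hsum := summable_normPow K hs
  have hsum' : Summable (fun x : Σ n : ℕ, {I : Ideal (𝓞 K) // absNorm I = n} =>
      normPow K s x.2.1) :=
    ((Equiv.sigmaFiberEquiv (fun I : Ideal (𝓞 K) => absNorm I)).summable_iff
      (f := normPow K s)).mpr hsum
  calc zetaI K s
      = ∑' x : Σ n : ℕ, {I : Ideal (𝓞 K) // absNorm I = n}, normPow K s x.2.1 :=
        ((Equiv.sigmaFiberEquiv (fun I : Ideal (𝓞 K) => absNorm I)).tsum_eq (normPow K s)).symm
    _ = ∑' n : ℕ, ∑' I : {I : Ideal (𝓞 K) // absNorm I = n}, normPow K s I.1 :=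
        hsum'.tsum_sigma
    _ = _ := tsum_congr fun n => tsum_fiber K s n

theorem dedekindZeta_eq_zetaI {s : ℝ} (hs : 1 < s) :
    dedekindZeta K (s : ℂ) = ((zetaI K s : ℝ) : ℂ) := by
  rw [zetaI_eq_tsum_nat K hs, dedekindZeta, LSeries, Complex.ofReal_tsum]
  refine tsum_congr fun n ↦ ?_
  rw [← term_eq K hs n]
  rcases eq_or_ne n 0 with rfl | hn
  · simp
  · rw [LSeries.term_of_ne_zero hn, LSeries.term_of_ne_zero hn]
    simp [idealCount]

theorem tendsto_sub_one_mul_zetaI :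
    Tendsto (fun s : ℝ ↦ (s - 1) * zetaI K s) (𝓝[>] 1) (𝓝 (dedekindZeta_residue K)) := by
  have h := tendsto_sub_one_mul_dedekindZeta_nhdsGT K
  have h2 : Tendsto (fun s : ℝ ↦ (((s - 1) * zetaI K s : ℝ) : ℂ)) (𝓝[>] 1)
      (𝓝 (dedekindZeta_residue K : ℂ)) := by
    refine h.congr' ?_
    filter_upwards [self_mem_nhdsWithin] with s hs
    rw [dedekindZeta_eq_zetaI K hs]
    push_cast
    ring
  have h3 := (Complex.continuous_re.tendsto _).comp h2
  simpa [Function.comp_def] using h3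

/-- the sum over nonzero ideals is `zetaI` -/
lemma tsum_sieveSet_empty {s : ℝ} (hs : 1 < s) :
    ∑' I : sieveSet (∅ : Set (HeightOneSpectrum (𝓞 K))), normPow K s I = zetaI K s := by
  have hsum := summable_normPow K hs
  have h : sieveSet (∅ : Set (HeightOneSpectrum (𝓞 K))) = ({⊥} : Set (Ideal (𝓞 K)))ᶜ := by
    ext I
    simp [mem_sieveSet_empty]
  rw [tsum_congr_set_coe _ h, zetaI,
    ← (hsum.subtype _).tsum_add_tsum_compl (s := ({⊥} : Set (Ideal (𝓞 K)))) (hsum.subtype _),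
    tsum_singleton (⊥ : Ideal (𝓞 K)) (normPow K s), normPow_bot K (by linarith), zero_add]

theorem one_le_zetaI {s : ℝ} (hs : 1 < s) : 1 ≤ zetaI K s := by
  have hsum := summable_normPow K hs
  have := hsum.sum_le_tsum {⊤} (fun I _ => normPow_nonneg K s I)
  simpa [normPow_top, zetaI] using this

theorem zetaI_pos {s : ℝ} (hs : 1 < s) : 0 < zetaI K s :=
  lt_of_lt_of_le one_pos (one_le_zetaI K hs)

/-- **Euler product** for the Dedekind zeta function. -/
theorem tendsto_prod_zetaI {s : ℝ} (hs : 1 < s) :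
    Tendsto (fun T : Finset (HeightOneSpectrum (𝓞 K)) =>
      ∏ 𝔭 ∈ T, (1 - normPow K s 𝔭.asIdeal)) atTop (𝓝 (zetaI K s)⁻¹) := by
  have h := tendsto_prod_one_sub (summable_normPow K hs) (normPow_mul K s) (normPow_top K s)
  rwa [tsum_sieveSet_empty K hs] at h

/-- the prime ideal sum `∑_𝔭 N𝔭^(-s)` -/
def primeSum (s : ℝ) : ℝ := ∑' 𝔭 : HeightOneSpectrum (𝓞 K), normPow K s 𝔭.asIdeal

lemma asIdeal_injective :
    Function.Injective (fun 𝔭 : HeightOneSpectrum (𝓞 K) => 𝔭.asIdeal) :=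
  fun _ _ h => HeightOneSpectrum.ext h

theorem summable_primeSum {s : ℝ} (hs : 1 < s) :
    Summable (fun 𝔭 : HeightOneSpectrum (𝓞 K) => normPow K s 𝔭.asIdeal) :=
  (summable_normPow K hs).comp_injective (asIdeal_injective K)

lemma two_le_absNorm (𝔭 : HeightOneSpectrum (𝓞 K)) : 2 ≤ absNorm 𝔭.asIdeal := by
  have h0 : absNorm 𝔭.asIdeal ≠ 0 := by
    rw [Ne, Ideal.absNorm_eq_zero_iff]; exact 𝔭.ne_bot
  have h1 : absNorm 𝔭.asIdeal ≠ 1 := by
    rw [Ne, Ideal.absNorm_eq_one_iff]; exact 𝔭.isPrime.ne_top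
  omega

lemma normPow_le_half {s : ℝ} (hs : 1 ≤ s) (𝔭 : HeightOneSpectrum (𝓞 K)) :
    normPow K s 𝔭.asIdeal ≤ 1 / 2 := by
  have h2 : (2 : ℝ) ≤ absNorm 𝔭.asIdeal := by exact_mod_cast two_le_absNorm K 𝔭
  have h0 : (0 : ℝ) < absNorm 𝔭.asIdeal := by linarith
  rw [normPow, Real.rpow_neg h0.le, one_div]
  apply inv_anti₀ (by norm_num)
  calc (2 : ℝ) ≤ absNorm 𝔭.asIdeal := h2
    _ = (absNorm 𝔭.asIdeal : ℝ) ^ (1 : ℝ) := (Real.rpow_one _).symm
    _ ≤ (absNorm 𝔭.asIdeal : ℝ) ^ s := Real.rpow_le_rpow_of_exponent_le (by linarith) hs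

lemma normPow_sq (s : ℝ) (I : Ideal (𝓞 K)) : normPow K s I ^ 2 = normPow K (2 * s) I := by
  rw [normPow, normPow, ← Real.rpow_natCast, ← Real.rpow_mul (Nat.cast_nonneg _)]
  congr 1
  push_cast
  ring

/-- `-log (1 - x) ≥ x` and `≤ x + 2 x²` for `0 ≤ x ≤ 1/2`. -/
lemma neg_log_one_sub_bounds {x : ℝ} (h0 : 0 ≤ x) (h1 : x ≤ 1 / 2) :
    x ≤ -Real.log (1 - x) ∧ -Real.log (1 - x) ≤ x + 2 * x ^ 2 := by
  have hpos : 0 < 1 - x := by linarith
  constructor
  · have := Real.log_le_sub_one_of_pos hpos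
    linarith
  · have h := Real.log_le_sub_one_of_pos (inv_pos.mpr hpos)
    rw [Real.log_inv] at h
    have h2 : (1 - x)⁻¹ - 1 ≤ x + 2 * x ^ 2 := by
      rw [sub_le_iff_le_add, inv_le_iff_one_le_mul₀ hpos]
      nlinarith [mul_nonneg h0 h0, mul_nonneg (mul_nonneg h0 h0) h0]
    linarith

/-- The sum of `log (1 - N𝔭^(-s))` over the primes is `-log ζ_K(s)`. -/
theorem hasSum_log_one_sub {s : ℝ} (hs : 1 < s) :
    HasSum (fun 𝔭 : HeightOneSpectrum (𝓞 K) => Real.log (1 - normPow K s 𝔭.asIdeal))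
      (-Real.log (zetaI K s)) := by
  have h := tendsto_prod_zetaI K hs
  have hZ : (zetaI K s)⁻¹ ≠ 0 := inv_ne_zero (zetaI_pos K hs).ne'
  have h2 := (Real.continuousAt_log hZ).tendsto.comp h
  rw [Real.log_inv] at h2
  rw [HasSum]
  refine h2.congr fun T => ?_
  simp only [Function.comp_apply]
  rw [Real.log_prod]
  intro 𝔭 _
  have := normPow_le_half K hs.le 𝔭
  linarith

/-- `∑_𝔭 N𝔭^(-s) ≤ log ζ_K(s) ≤ ∑_𝔭 N𝔭^(-s) + 2 ∑_𝔭 N𝔭^(-2s)`. -/
theorem primeSum_le_log_zetaI {s : ℝ} (hs : 1 < s) :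
    primeSum K s ≤ Real.log (zetaI K s) ∧
      Real.log (zetaI K s) ≤ primeSum K s + 2 * primeSum K (2 * s) := by
  have hlog := (hasSum_log_one_sub K hs).neg
  rw [neg_neg] at hlog
  have hP := (summable_primeSum K hs).hasSum
  have hP2 := (summable_primeSum K (show 1 < 2 * s by linarith)).hasSum
  constructor
  · refine hasSum_le (fun 𝔭 => ?_) hP hlog
    exact (neg_log_one_sub_bounds (normPow_nonneg K s _) (normPow_le_half K hs.le 𝔭)).1
  · refine hasSum_le (fun 𝔭 => ?_) hlog (hP.add (hP2.mul_left 2))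
    have := (neg_log_one_sub_bounds (normPow_nonneg K s _) (normPow_le_half K hs.le 𝔭)).2
    rw [normPow_sq] at this
    exact this

lemma normPow_anti {s t : ℝ} (hst : s ≤ t) (I : Ideal (𝓞 K)) (h0 : 0 < s) :
    normPow K t I ≤ normPow K s I := by
  rcases eq_or_ne I ⊥ with rfl | hI
  · rw [normPow_bot K h0.ne', normPow_bot K (h0.trans_le hst).ne']
  · have h1 : (1 : ℝ) ≤ absNorm I := by
      have : absNorm I ≠ 0 := by rwa [Ne, Ideal.absNorm_eq_zero_iff]
      exact_mod_cast Nat.one_le_iff_ne_zero.mpr this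
    exact Real.rpow_le_rpow_of_exponent_le h1 (by linarith)

theorem zetaI_anti {s t : ℝ} (hs : 1 < s) (hst : s ≤ t) : zetaI K t ≤ zetaI K s :=
  (summable_normPow K (hs.trans_le hst)).tsum_le_tsum
    (fun I => normPow_anti K hst I (by linarith)) (summable_normPow K hs)

theorem primeSum_nonneg (s : ℝ) : 0 ≤ primeSum K s :=
  tsum_nonneg fun _ => normPow_nonneg K s _

theorem primeSum_anti {s t : ℝ} (hs : 1 < s) (hst : s ≤ t) : primeSum K t ≤ primeSum K s :=
  (summable_primeSum K (hs.trans_le hst)).tsum_le_tsum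
    (fun 𝔭 => normPow_anti K hst 𝔭.asIdeal (by linarith)) (summable_primeSum K hs)

/-- `(s - 1) ζ_K(s)` is bounded above and below by positive constants on `(1, 2]`. -/
theorem exists_bounds_sub_one_mul_zetaI :
    ∃ c₁ c₂ : ℝ, 0 < c₁ ∧ c₁ ≤ c₂ ∧ ∀ s : ℝ, 1 < s → s ≤ 2 →
      c₁ ≤ (s - 1) * zetaI K s ∧ (s - 1) * zetaI K s ≤ c₂ := by
  have hρ := dedekindZeta_residue_pos K
  set ρ := dedekindZeta_residue K with hρdef
  have h := tendsto_sub_one_mul_zetaI K
  have hev : ∀ᶠ s : ℝ in 𝓝[>] 1, ρ / 2 < (s - 1) * zetaI K s ∧ (s - 1) * zetaI K s < 2 * ρ :=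
    (h.eventually (lt_mem_nhds (show ρ / 2 < ρ by linarith))).and
      (h.eventually (gt_mem_nhds (show ρ < 2 * ρ by linarith)))
  rw [eventually_nhdsWithin_iff, Metric.eventually_nhds_iff] at hev
  obtain ⟨δ, hδ, hδ2⟩ := hev
  set δ' := min δ 1 with hδ'
  have hδ'pos : 0 < δ' := lt_min hδ one_pos
  have hδ'le : δ' ≤ δ := min_le_left _ _
  set s₀ : ℝ := 1 + δ' / 2 with hs₀
  have hs₀1 : 1 < s₀ := by rw [hs₀]; linarith
  have hZ₀ := one_le_zetaI K hs₀1
  refine ⟨min (ρ / 2) (δ' / 2), max (2 * ρ) (zetaI K s₀), lt_min (by linarith) (by linarith),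
    (min_le_left _ _).trans ((by linarith : ρ / 2 ≤ 2 * ρ).trans (le_max_left _ _)),
    fun s hs1 hs2 => ?_⟩
  rcases lt_or_ge s s₀ with hlt | hge
  · have hd : dist s 1 < δ := by
      rw [Real.dist_eq, abs_of_pos (by linarith)]
      rw [hs₀] at hlt
      linarith
    have := hδ2 hd hs1
    exact ⟨(min_le_left _ _).trans this.1.le, this.2.le.trans (le_max_left _ _)⟩
  · have h1 := one_le_zetaI K hs1
    have h2 := zetaI_anti K hs₀1 hge
    have hs0 : 0 < s - 1 := by linarith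
    constructor
    · calc min (ρ / 2) (δ' / 2) ≤ δ' / 2 := min_le_right _ _
        _ ≤ (s - 1) * 1 := by rw [hs₀] at hge; linarith
        _ ≤ (s - 1) * zetaI K s := by gcongr
    · calc (s - 1) * zetaI K s ≤ 1 * zetaI K s₀ := by
            apply mul_le_mul (by linarith) h2 (by linarith) (by norm_num)
        _ ≤ max (2 * ρ) (zetaI K s₀) := by rw [one_mul]; exact le_max_right _ _

/-- **The prime ideal sum** `∑_𝔭 N𝔭^(-s)` is `log (1 / (s - 1)) + O(1)` on `(1, 2]`. -/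
theorem exists_primeSum_bound :
    ∃ C : ℝ, ∀ s : ℝ, 1 < s → s ≤ 2 → |primeSum K s + Real.log (s - 1)| ≤ C := by
  obtain ⟨c₁, c₂, hc₁, hc₁₂, hb⟩ := exists_bounds_sub_one_mul_zetaI K
  have hc₂ : 0 < c₂ := hc₁.trans_le hc₁₂
  refine ⟨max |Real.log c₁| |Real.log c₂| + 2 * primeSum K 2, fun s hs1 hs2 => ?_⟩
  obtain ⟨hlo, hhi⟩ := hb s hs1 hs2
  obtain ⟨hP1, hP2⟩ := primeSum_le_log_zetaI K hs1
  have hs0 : 0 < s - 1 := by linarith
  have hZ := zetaI_pos K hs1
  have hlog : Real.log ((s - 1) * zetaI K s) = Real.log (s - 1) + Real.log (zetaI K s) :=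
    Real.log_mul hs0.ne' hZ.ne'
  have hl1 : Real.log c₁ ≤ Real.log ((s - 1) * zetaI K s) := Real.log_le_log hc₁ hlo
  have hl2 : Real.log ((s - 1) * zetaI K s) ≤ Real.log c₂ :=
    Real.log_le_log (hc₁.trans_le hlo) hhi
  have hB : primeSum K (2 * s) ≤ primeSum K 2 :=
    primeSum_anti K (by norm_num) (by linarith)
  have hB0 := primeSum_nonneg K 2
  have hm1 : -max |Real.log c₁| |Real.log c₂| ≤ Real.log c₁ :=
    (neg_le_neg (le_max_left _ _)).trans (neg_abs_le _)
  have hm2 : Real.log c₂ ≤ max |Real.log c₁| |Real.log c₂| :=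
    (le_abs_self _).trans (le_max_right _ _)
  rw [abs_le]
  constructor <;> linarith

end

end Fermat.Agent.Lib.Cheb.H761

end
-- ===== PACK-END Lib/Cheb/H761/ZetaEuler.lean

-- ===== PACK-BEGIN Lib/Cheb/H221/CycSpec.lean
section



/-!
# CYC (helper221): internal interface statements for
`PrimeSum + Count + Frob + FrobFinite + DirichletLimit ⇒ CycStatement`

Definitions and `Prop`s only.
-/

set_option autoImplicit false

open NumberField IsDedekindDomain Filter Topology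
open Fermat.Agent.Lib.Cheb

namespace Fermat.Agent.Lib.Cheb.H221

/-- (EP) twisted Euler product -/
def EulerProductStatement : Prop :=
  ∀ (F : Type) [Field F] [NumberField F] (m : ℕ) [NeZero m] (χ : DirichletCharacter ℂ m)
    (s : ℝ), 1 < s →
    HasProd (fun 𝔭 : HeightOneSpectrum (𝓞 F) =>
      (1 - χ (Ideal.absNorm 𝔭.asIdeal : ZMod m) *
        (((Ideal.absNorm 𝔭.asIdeal : ℝ) ^ (-s) : ℝ) : ℂ))⁻¹)
      (LSeries (fun n => χ (n : ZMod m) * (Spec.idealCount F n : ℂ)) (s : ℂ))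

/-- (DEG) twisted prime-ideal sums versus twisted sums over rational primes -/
def TwistedPrimeSumStatement : Prop :=
  Spec.PrimeSumStatement →
  ∀ (F : Type) [Field F] [NumberField F] (m : ℕ) [NeZero m] (χ : DirichletCharacter ℂ m),
    ∃ C : ℝ, ∀ s : ℝ, 1 < s → s ≤ 2 →
      Summable (fun p : Nat.Primes => (Spec.primeCount F p : ℝ) * (p : ℝ) ^ (-s)) ∧
      ‖(∑' 𝔭 : HeightOneSpectrum (𝓞 F), χ (Ideal.absNorm 𝔭.asIdeal : ZMod m) *
          (((Ideal.absNorm 𝔭.asIdeal : ℝ) ^ (-s) : ℝ) : ℂ)) -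
        ∑' p : Nat.Primes, χ ((p : ℕ) : ZMod m) *
          (((Spec.primeCount F p : ℝ) * (p : ℝ) ^ (-s) : ℝ) : ℂ)‖ ≤ C

/-- (ABS) abstract Dirichlet lemma -/
def AbstractDirichletStatement : Prop :=
  ∀ (m : ℕ) [NeZero m] (c : Nat.Primes → ℝ), (∀ p, 0 ≤ c p) →
    (∀ s : ℝ, 1 < s → s ≤ 2 → Summable (fun p : Nat.Primes => c p * (p : ℝ) ^ (-s))) →
    ∀ A : Subgroup (ZMod m)ˣ,
    (∃ B : Finset ℕ, ∀ p : Nat.Primes, (p : ℕ) ∉ B → c p ≠ 0 →
      ∃ u ∈ A, ((u : (ZMod m)ˣ) : ZMod m) = ((p : ℕ) : ZMod m)) →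
    (∃ C : ℝ, ∀ s : ℝ, 1 < s → s ≤ 2 →
      |(∑' p : Nat.Primes, c p * (p : ℝ) ^ (-s)) - Real.log (1 / (s - 1))| ≤ C) →
    (∃ C : ℝ, ∀ s : ℝ, 1 < s → s ≤ 2 →
      (Nat.card A : ℝ)⁻¹ * Real.log (1 / (s - 1)) - C ≤
        ∑' p : Nat.Primes, if ((p : ℕ) : ZMod m) = 1 then c p * (p : ℝ) ^ (-s) else 0) →
    (∀ χ : DirichletCharacter ℂ m, (∃ u ∈ A, χ ((u : (ZMod m)ˣ) : ZMod m) ≠ 1) →
      ∃ (Λ : ℝ → ℂ) (ℓ : ℂ) (C : ℝ), ContinuousOn Λ (Set.Ioi 1) ∧
        Tendsto (fun s => Complex.exp (Λ s)) (𝓝[>] 1) (𝓝 ℓ) ∧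
        ∀ s : ℝ, 1 < s → s ≤ 2 →
          ‖Λ s - ∑' p : Nat.Primes, χ ((p : ℕ) : ZMod m) * ((c p * (p : ℝ) ^ (-s) : ℝ) : ℂ)‖ ≤ C) →
    ∀ a ∈ A, ∀ S : Finset ℕ, ∃ p : Nat.Primes, (p : ℕ) ∉ S ∧
      ((p : ℕ) : ZMod m) = ((a : (ZMod m)ˣ) : ZMod m) ∧ c p ≠ 0

section alg

variable (L : Type) [Field L] [NumberField L] [IsGalois ℚ L]

/-- the fixed field of `⟨g⟩` -/
abbrev fixM (g : L ≃ₐ[ℚ] L) : IntermediateField ℚ L :=
  IntermediateField.fixedField (Subgroup.zpowers g)

/-- the fixed field of the trivial group (a copy of `L`) -/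
abbrev fixBot : IntermediateField ℚ L :=
  IntermediateField.fixedField (⊥ : Subgroup (L ≃ₐ[ℚ] L))

/-- (ALG) the algebraic input of CYC, in the situation of `Spec.CycStatement` -/
def CycAlgStatement : Prop :=
  Spec.CountStatement → Spec.FrobStatement → Spec.FrobFiniteStatement →
  ∀ (L : Type) [Field L] [NumberField L] [IsGalois ℚ L] (m : ℕ) [NeZero m] (ζ : L)
    (hζ : IsPrimitiveRoot ζ m) (g : L ≃ₐ[ℚ] L), (∀ k : ℕ, (g ^ k) ζ = ζ → g ^ k = 1) →
    Nat.card (Subgroup.zpowers (hζ.autToPow ℚ g)) = orderOf g ∧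
    ∃ B : Finset ℕ,
      -- (SUPP)
      (∀ p : ℕ, p.Prime → p ∉ B → Spec.primeCount (fixM L g) p ≠ 0 →
        ∃ u ∈ Subgroup.zpowers (hζ.autToPow ℚ g), ((u : (ZMod m)ˣ) : ZMod m) = (p : ZMod m)) ∧
      -- (SPLIT)
      (∀ p : ℕ, p.Prime → p ∉ B →
        Spec.primeCount (fixBot L) p =
          if (p : ZMod m) = 1 then orderOf g * Spec.primeCount (fixM L g) p else 0) ∧
      -- (NT)
      (∀ χ : DirichletCharacter ℂ m, χ ((hζ.autToPow ℚ g : (ZMod m)ˣ) : ZMod m) ≠ 1 →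
        ∃ I : Ideal (𝓞 (fixM L g)), χ (Ideal.absNorm I : ZMod m) ≠ 0 ∧
          χ (Ideal.absNorm I : ZMod m) ≠ 1) ∧
      -- (FIN)
      (∀ p : ℕ, p.Prime → p ∉ B → Spec.primeCount (fixM L g) p ≠ 0 →
        (p : ZMod m) = ((hζ.autToPow ℚ g : (ZMod m)ˣ) : ZMod m) →
        ∃ P : Ideal (𝓞 L), P.IsPrime ∧ (p : 𝓞 L) ∈ P ∧ Spec.InertiaTrivial L P ∧
          IsArithFrobAt ℤ g P)

end alg

end Fermat.Agent.Lib.Cheb.H221

end
-- ===== PACK-END Lib/Cheb/H221/CycSpec.lean

-- ===== PACK-BEGIN Lib/Cheb/H943/Frob.lean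
section


/-!
# CHEB piece D: `Spec.FrobStatement` (helper943)

Outside the finite set of prime divisors of the absolute norm of the different ideal of a Galois
number field `L/ℚ`, every prime `P` of `𝓞 L` has trivial inertia group, an arithmetic Frobenius
`τ`, and decomposition group `zpowers τ`.

Ingredients (all Mathlib): `not_dvd_differentIdeal_iff` (unramified ⇔ not dividing the
different), `AlgHom.IsArithFrobAt.eq_of_isUnramifiedAt` (uniqueness of Frobenius),
`IsArithFrobAt.exists_of_isInvariant` (existence), `Ideal.Quotient.stabilizerHom` and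
`FiniteField.bijective_frobeniusAlgEquivOfAlgebraic_pow` (Galois groups of finite fields are
generated by Frobenius).
-/

set_option autoImplicit false
set_option linter.unusedSectionVars false
set_option linter.style.haveILetI false

open NumberField
open scoped Pointwise

namespace Fermat.Agent.Lib.Cheb.H943

section Bad

attribute [local instance] FractionRing.liftAlgebra

variable (L : Type) [Field L] [NumberField L]

/-- The bad number: the absolute norm of the different ideal (`= |discr L|`). -/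
noncomputable def badNat : ℕ := Ideal.absNorm (differentIdeal ℤ (𝓞 L))

lemma badNat_ne_zero : badNat L ≠ 0 := by
  unfold badNat
  rw [Ne, Ideal.absNorm_eq_zero_iff]
  exact differentIdeal_ne_bot

variable {L}

/-- A rational prime contained in a prime ideal divides its absolute norm. -/
lemma prime_dvd_absNorm {p : ℕ} (hp : p.Prime) {P : Ideal (𝓞 L)} (hP : P.IsPrime)
    (hpP : (p : 𝓞 L) ∈ P) : p ∣ Ideal.absNorm P := by
  by_contra h
  have hcop : Nat.Coprime p (Ideal.absNorm P) := (Nat.Prime.coprime_iff_not_dvd hp).mpr h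
  have h1 : ((Nat.gcd p (Ideal.absNorm P) : ℤ) : 𝓞 L) ∈ P := by
    rw [Nat.gcd_eq_gcd_ab]
    push_cast
    exact P.add_mem (P.mul_mem_right _ hpP) (P.mul_mem_right _ (Ideal.absNorm_mem P))
  rw [hcop] at h1
  simp only [Nat.cast_one, Int.cast_one] at h1
  exact hP.ne_top ((Ideal.eq_top_iff_one P).mpr h1)

/-- Primes not dividing `badNat L` are unramified in `L`. -/
lemma isUnramifiedAt_of_not_dvd_badNat {p : ℕ} (hp : p.Prime) (hpB : ¬ p ∣ badNat L)
    {P : Ideal (𝓞 L)} [hP : P.IsPrime] (hpP : (p : 𝓞 L) ∈ P) :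
    Algebra.IsUnramifiedAt ℤ P := by
  rw [← not_dvd_differentIdeal_iff]
  intro hdvd
  apply hpB
  exact (prime_dvd_absNorm hp hP hpP).trans
    (Ideal.absNorm_dvd_absNorm_of_le (Ideal.le_of_dvd hdvd))

end Bad

variable {L : Type} [Field L] [NumberField L] [IsGalois ℚ L]

lemma faithful_gal : FaithfulSMul (L ≃ₐ[ℚ] L) (𝓞 L) :=
  IsGaloisGroup.faithful ℤ

lemma prime_ne_bot {p : ℕ} (hp : p.Prime) {P : Ideal (𝓞 L)} (hpP : (p : 𝓞 L) ∈ P) : P ≠ ⊥ := by
  rintro rfl
  rw [Ideal.mem_bot] at hpP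
  exact hp.ne_zero (by exact_mod_cast hpP)

lemma finite_quot {p : ℕ} (hp : p.Prime) {P : Ideal (𝓞 L)} (hpP : (p : 𝓞 L) ∈ P) :
    Finite (𝓞 L ⧸ P) :=
  Ideal.finiteQuotientOfFreeOfNeBot P (prime_ne_bot hp hpP)

/-- Existence of an arithmetic Frobenius at every prime above `p`. -/
lemma exists_isArithFrobAt {p : ℕ} (hp : p.Prime) {P : Ideal (𝓞 L)} [hP : P.IsPrime]
    (hpP : (p : 𝓞 L) ∈ P) : ∃ τ : L ≃ₐ[ℚ] L, IsArithFrobAt ℤ τ P := by
  haveI := finite_quot hp hpP
  exact IsArithFrobAt.exists_of_isInvariant ℤ (L ≃ₐ[ℚ] L) P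

/-- Inertia is trivial at an unramified prime. -/
lemma inertiaTrivial_of_isUnramifiedAt {p : ℕ} (hp : p.Prime) {P : Ideal (𝓞 L)} [hP : P.IsPrime]
    (hpP : (p : 𝓞 L) ∈ P) [Algebra.IsUnramifiedAt ℤ P] : Spec.InertiaTrivial L P := by
  intro ι hι
  obtain ⟨τ, hτ⟩ := exists_isArithFrobAt hp hpP
  have hιτ : IsArithFrobAt ℤ (ι * τ) P := by
    intro x
    have h1 := hι (τ • x)
    have h2 := hτ x
    have : (MulSemiringAction.toAlgHom ℤ (𝓞 L) (ι * τ)) x - x ^ Nat.card (ℤ ⧸ P.under ℤ)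
        = (ι • (τ • x) - τ • x) + ((MulSemiringAction.toAlgHom ℤ (𝓞 L) τ) x
            - x ^ Nat.card (ℤ ⧸ P.under ℤ)) := by
      simp [mul_smul]
    rw [this]
    exact P.add_mem h1 h2
  have heq := AlgHom.IsArithFrobAt.eq_of_isUnramifiedAt hιτ hτ
    (by intro x hx; exact mem_nonZeroDivisors_of_ne_zero (by rintro rfl; exact hx P.zero_mem))
  haveI := faithful_gal (L := L)
  have h3 : ι * τ = τ := by
    apply FaithfulSMul.eq_of_smul_eq_smul (α := 𝓞 L)
    intro x
    exact DFunLike.congr_fun heq x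
  simpa using h3

attribute [local instance] Ideal.Quotient.field in
/-- If the inertia group is trivial, the decomposition group is generated by any Frobenius. -/
lemma decomp_eq_zpowers {p : ℕ} (hp : p.Prime) {P : Ideal (𝓞 L)} [hP : P.IsPrime]
    (hpP : (p : 𝓞 L) ∈ P) (hI : Spec.InertiaTrivial L P) {τ : L ≃ₐ[ℚ] L}
    (hτ : IsArithFrobAt ℤ τ P) : Spec.decomp L P = Subgroup.zpowers τ := by
  have hne : P ≠ ⊥ := prime_ne_bot hp hpP
  haveI hmax : P.IsMaximal := Ideal.IsPrime.isMaximal hP hne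
  haveI : Finite (𝓞 L ⧸ P) := Ideal.finiteQuotientOfFreeOfNeBot P hne
  haveI hmax' : (P.under ℤ).IsMaximal := Ideal.IsMaximal.under ℤ P
  haveI : Finite (ℤ ⧸ P.under ℤ) := hτ.finite_quotient
  letI : Fintype (ℤ ⧸ P.under ℤ) := Fintype.ofFinite _
  have hτmem : τ ∈ MulAction.stabilizer (L ≃ₐ[ℚ] L) P := hτ.mem_stabilizer
  apply le_antisymm
  · intro σ hσ
    obtain ⟨n, hn⟩ := (FiniteField.bijective_frobeniusAlgEquivOfAlgebraic_pow
      (ℤ ⧸ P.under ℤ) (𝓞 L ⧸ P)).2
      (Ideal.Quotient.stabilizerHom P (P.under ℤ) (L ≃ₐ[ℚ] L) ⟨σ, hσ⟩)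
    have hfrob : Ideal.Quotient.stabilizerHom P (P.under ℤ) (L ≃ₐ[ℚ] L) ⟨τ, hτmem⟩
        = FiniteField.frobeniusAlgEquivOfAlgebraic (ℤ ⧸ P.under ℤ) (𝓞 L ⧸ P) := by
      ext x
      obtain ⟨y, rfl⟩ := Ideal.Quotient.mk_surjective x
      rw [FiniteField.coe_frobeniusAlgEquivOfAlgebraic]
      simp only [Ideal.Quotient.stabilizerHom_apply]
      rw [← Nat.card_eq_fintype_card]
      exact hτ.mk_apply y
    have hker : Ideal.Quotient.stabilizerHom P (P.under ℤ) (L ≃ₐ[ℚ] L)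
        (⟨σ, hσ⟩ * (⟨τ, hτmem⟩ ^ n.1)⁻¹) = 1 := by
      rw [map_mul, map_inv, map_pow, hfrob]
      simp only at hn
      rw [hn, mul_inv_cancel]
    have h1 : σ * (τ ^ n.1)⁻¹ = 1 := by
      apply hI
      intro x
      have := DFunLike.congr_fun hker (Ideal.Quotient.mk P x)
      simp only [Ideal.Quotient.stabilizerHom_apply, AlgEquiv.one_apply] at this
      rw [Ideal.Quotient.eq] at this
      exact this
    rw [mul_inv_eq_one] at h1
    rw [h1]
    exact Subgroup.pow_mem _ (Subgroup.mem_zpowers τ) _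
  · rw [Subgroup.zpowers_le]
    exact hτmem

/-- Piece D with an explicit bad set: all conclusions at every prime not dividing `badNat L`. -/
theorem frob_of_not_dvd_badNat {p : ℕ} (hp : p.Prime) (hpB : ¬ p ∣ badNat L)
    (P : Ideal (𝓞 L)) (hP : P.IsPrime) (hpP : (p : 𝓞 L) ∈ P) :
    Algebra.IsUnramifiedAt ℤ P ∧ Spec.InertiaTrivial L P ∧
      ∃ τ : L ≃ₐ[ℚ] L, IsArithFrobAt ℤ τ P ∧ Spec.decomp L P = Subgroup.zpowers τ := by
  haveI := hP
  haveI hU : Algebra.IsUnramifiedAt ℤ P := isUnramifiedAt_of_not_dvd_badNat hp hpB hpP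
  have hI := inertiaTrivial_of_isUnramifiedAt hp hpP
  obtain ⟨τ, hτ⟩ := exists_isArithFrobAt hp hpP
  exact ⟨hU, hI, τ, hτ, decomp_eq_zpowers hp hpP hI hτ⟩

/-- **Piece D** of row CHEB: `Spec.FrobStatement`. -/
theorem frobStatement : Spec.FrobStatement := by
  intro L _ _ _
  refine ⟨(badNat L).primeFactors, fun p hp hpB P hP hpP => ?_⟩
  have hpB' : ¬ p ∣ badNat L := fun h =>
    hpB (Nat.mem_primeFactors.mpr ⟨hp, h, badNat_ne_zero L⟩)
  obtain ⟨-, hI, hτ⟩ := frob_of_not_dvd_badNat hp hpB' P hP hpP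
  exact ⟨hI, hτ⟩

end Fermat.Agent.Lib.Cheb.H943

end
-- ===== PACK-END Lib/Cheb/H943/Frob.lean

-- ===== PACK-BEGIN Lib/Cheb/H341/Main.lean
section



/-!
# CHEB piece M (helper341): `FrobFiniteStatement` from `Z`, `B0`, `A`, `D`

`frobFinite : PrimeSumStatement → PrimeCountBoundStatement → CountStatement → FrobStatement →
FrobFiniteStatement`, in the exact shapes of `Fermat/Agent/Lib/Cheb/Spec.lean`.
-/

set_option autoImplicit false

namespace Fermat.Agent.Lib.Cheb.H341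

open NumberField Finset
open Fermat.Agent.Lib.Cheb

section

variable (L : Type) [Field L] [NumberField L]

/-- The primes of `𝓞 L` containing `p` with decomposition group exactly `X`. -/
def primesEq (X : Subgroup (L ≃ₐ[ℚ] L)) (p : ℕ) : Set (Ideal (𝓞 L)) :=
  {P | P.IsPrime ∧ (p : 𝓞 L) ∈ P ∧ Spec.decomp L P = X}

theorem primesAbove_finite {p : ℕ} (hp : p.Prime) :
    {P : Ideal (𝓞 L) | P.IsPrime ∧ (p : 𝓞 L) ∈ P}.Finite := by
  have : Fact p.Prime := ⟨hp⟩
  have := Int.ideal_span_isMaximal_of_prime p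
  refine (IsDedekindDomain.primesOver_finite (Ideal.span {(p : ℤ)}) (𝓞 L)).subset ?_
  rintro P ⟨hP, hpP⟩
  refine ⟨hP, ?_⟩
  rw [Ideal.liesOver_iff]
  refine Ideal.IsMaximal.eq_of_le inferInstance ?_ ?_
  · have := hP
    exact (Ideal.IsPrime.under ℤ P).ne_top
  · rw [Ideal.span_le, Set.singleton_subset_iff]
    change (p : ℤ) ∈ Ideal.comap (algebraMap ℤ (𝓞 L)) P
    rw [Ideal.mem_comap]
    simpa using hpP

theorem primesEq_finite (X : Subgroup (L ≃ₐ[ℚ] L)) {p : ℕ} (hp : p.Prime) :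
    (primesEq L X p).Finite :=
  (primesAbove_finite L hp).subset (fun _ hP => ⟨hP.1, hP.2.1⟩)

/-- `a_X(p) = ∑_{P ∣ p, D_P = X} |D_P|`. -/
noncomputable def aCoef (X : Subgroup (L ≃ₐ[ℚ] L)) (p : ℕ) : ℕ :=
  ∑ᶠ P ∈ primesEq L X p, Nat.card (Spec.decomp L P)

theorem decompWeight_eq_sum (H : Subgroup (L ≃ₐ[ℚ] L)) {p : ℕ} (hp : p.Prime) :
    Spec.decompWeight L H p = ∑ X ∈ subLe H, aCoef L X p := by
  unfold Spec.decompWeight aCoef
  rw [finsum_set_coe_eq_finsum_mem (f := fun P : Ideal (𝓞 L) => Nat.card (Spec.decomp L P))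
    (Spec.primesLe L H p)]
  have hU : Spec.primesLe L H p = ⋃ X ∈ (subLe H : Set (Subgroup (L ≃ₐ[ℚ] L))), primesEq L X p := by
    ext P
    simp only [Spec.primesLe, primesEq, Set.mem_ofPred_eq, Set.mem_iUnion, Finset.mem_coe,
      mem_subLe, exists_prop]
    constructor
    · rintro ⟨h1, h2, h3⟩
      exact ⟨Spec.decomp L P, h3, h1, h2, rfl⟩
    · rintro ⟨X, hX, h1, h2, rfl⟩
      exact ⟨h1, h2, hX⟩
  rw [hU, finsum_mem_biUnion]
  · rw [finsum_mem_coe_finset]
  · intro X _ Y _ hXY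
    rw [Function.onFun, Set.disjoint_left]
    intro P hPX hPY
    exact hXY (hPX.2.2.symm.trans hPY.2.2)
  · exact (subLe H).finite_toSet
  · intro X _
    exact primesEq_finite L X hp

theorem exists_of_aCoef_ne_zero {X : Subgroup (L ≃ₐ[ℚ] L)} {p : ℕ} (h : aCoef L X p ≠ 0) :
    ∃ P : Ideal (𝓞 L), P.IsPrime ∧ (p : 𝓞 L) ∈ P ∧ Spec.decomp L P = X := by
  by_contra hcon
  push Not at hcon
  apply h
  unfold aCoef
  refine finsum_mem_eq_zero_of_forall_eq_zero (fun P hP => ?_)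
  exact absurd hP.2.2 (hcon P hP.1 hP.2.1)

end

/-- **Piece M.** -/
theorem frobFinite (hZ : Spec.PrimeSumStatement) (hB0 : Spec.PrimeCountBoundStatement)
    (hA : Spec.CountStatement) (hD : Spec.FrobStatement) : Spec.FrobFiniteStatement := by
  classical
  intro L _ _ _ σ S
  -- the bad sets
  obtain ⟨BD, hBD⟩ := hD L
  choose BA hBA using hA L
  set B : Finset ℕ := S ∪ BD ∪ (subLe (⊤ : Subgroup (L ≃ₐ[ℚ] L))).biUnion BA with hB
  have hBS : ∀ p, p ∉ B → p ∉ S := fun p hp hpS =>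
    hp (mem_union_left _ (mem_union_left _ hpS))
  have hBBD : ∀ p, p ∉ B → p ∉ BD := fun p hp hpS =>
    hp (mem_union_left _ (mem_union_right _ hpS))
  have hBBA : ∀ p, p ∉ B → ∀ H, p ∉ BA H := fun p hp H hpS =>
    hp (mem_union_right _ (mem_biUnion.mpr ⟨H, by simp, hpS⟩))
  -- coefficient functions
  set g : Subgroup (L ≃ₐ[ℚ] L) → Nat.Primes → ℝ :=
    fun X p => if (p : ℕ) ∈ B then 0 else (aCoef L X p : ℝ) with hg
  set f : Subgroup (L ≃ₐ[ℚ] L) → Nat.Primes → ℝ :=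
    fun H p => if (p : ℕ) ∈ B then 0
      else (Spec.primeCount (IntermediateField.fixedField H) p : ℝ) with hf
  -- (i)
  have hi : ∀ H p, ∑ X ∈ subLe H, g X p = (Nat.card H : ℝ) * f H p := by
    intro H p
    by_cases hp : (p : ℕ) ∈ B
    · simp [hg, hf, hp]
    · simp only [hg, hf, hp, if_false]
      have h1 := hBA H p p.2 (hBBA p hp H)
      rw [decompWeight_eq_sum L H p.2] at h1
      have h2 : ((∑ X ∈ subLe H, aCoef L X p : ℕ) : ℝ) =
          ((Spec.primeCount (IntermediateField.fixedField H) p * Nat.card H : ℕ) : ℝ) := by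
        rw [h1]
      push_cast at h2
      rw [h2]
      ring
  -- (ii)
  have hfb : ∀ H, Bdd (f H) := by
    intro H
    refine ⟨(Module.finrank ℚ (IntermediateField.fixedField H) : ℝ), fun p => ?_⟩
    simp only [hf]
    split_ifs
    · simp
    · rw [abs_of_nonneg (Nat.cast_nonneg _)]
      exact_mod_cast hB0 (IntermediateField.fixedField H) p
  -- (iii)
  have hfn : ∀ H, Near (f H) 1 := by
    intro H
    obtain ⟨C, hC⟩ := hZ (IntermediateField.fixedField H)
    have hb0 : Bdd (fun p : Nat.Primes =>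
        (Spec.primeCount (IntermediateField.fixedField H) p : ℝ)) := by
      refine ⟨(Module.finrank ℚ (IntermediateField.fixedField H) : ℝ), fun p => ?_⟩
      beta_reduce
      rw [abs_of_nonneg (Nat.cast_nonneg _)]
      exact_mod_cast hB0 (IntermediateField.fixedField H) p
    have hn0 : Near (fun p : Nat.Primes =>
        (Spec.primeCount (IntermediateField.fixedField H) p : ℝ)) 1 := by
      refine ⟨C, fun s hs hs2 => ?_⟩
      have := hC s hs hs2
      simpa [pSum, ell] using this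
    refine Near.congr_off_finite hb0 hn0 (Finset.subtype Nat.Prime B) (fun p hp => ?_)
    have hp' : (p : ℕ) ∉ B := by
      intro h
      exact hp (Finset.mem_subtype.mpr h)
    simp [hf, hp']
  -- (iv)
  have hgnn : ∀ X p, 0 ≤ g X p := by
    intro X p
    simp only [hg]
    split_ifs
    · exact le_refl _
    · exact Nat.cast_nonneg _
  have hgb : ∀ X, Bdd (g X) := by
    intro X
    obtain ⟨K, hK⟩ := hfb ⊤
    refine ⟨(Nat.card (⊤ : Subgroup (L ≃ₐ[ℚ] L)) : ℝ) * K, fun p => ?_⟩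
    rw [abs_of_nonneg (hgnn X p)]
    have h1 : g X p ≤ ∑ Y ∈ subLe (⊤ : Subgroup (L ≃ₐ[ℚ] L)), g Y p :=
      single_le_sum (f := fun Y => g Y p) (fun Y _ => hgnn Y p) (by simp)
    rw [hi] at h1
    refine h1.trans ?_
    exact mul_le_mul_of_nonneg_left ((le_abs_self _).trans (hK p)) (Nat.cast_nonneg _)
  -- (v)
  have hv : ∀ H : Subgroup (L ≃ₐ[ℚ] L),
      Near (fun p => ∑ X ∈ subLe H, g X p) (Nat.card H) := by
    intro H
    have := (hfn H).const_mul (Nat.card H : ℝ)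
    rw [mul_one] at this
    have e : (fun p => ∑ X ∈ subLe H, g X p) = fun p => (Nat.card H : ℝ) * f H p := by
      funext p
      exact hi H p
    rw [e]
    exact this
  -- (vi)
  have hmain := near_psi_of_near_card g hgb hv (Subgroup.zpowers σ)
  have hpos : ((psi (Subgroup.zpowers σ) : ℕ) : ℝ) ≠ 0 := by
    have := psi_zpowers_pos σ
    positivity
  obtain ⟨p, hp⟩ := hmain.exists_ne_zero hpos
  have hpB : (p : ℕ) ∉ B := by
    intro h
    apply hp
    simp [hg, h]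
  have hne : aCoef L (Subgroup.zpowers σ) p ≠ 0 := by
    intro h
    apply hp
    simp [hg, hpB, h]
  obtain ⟨P, hP, hpP, hDP⟩ := exists_of_aCoef_ne_zero L hne
  obtain ⟨hin, τ, hτ, hτD⟩ := hBD p p.2 (hBBD p hpB) P hP hpP
  exact ⟨p, P, τ, p.2, hBS p hpB, hP, hpP, hin, hτ, by rw [← hτD, hDP]⟩

end Fermat.Agent.Lib.Cheb.H341

end
-- ===== PACK-END Lib/Cheb/H341/Main.lean

-- ===== PACK-BEGIN S54/FrobExists.lean
section




set_option autoImplicit false

namespace Fermat.Agent.S54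

open scoped Pointwise

/-- The prime of the ring of algebraic integers below a valuation subring. -/
def primeBelow (A : ValuationSubring (AlgebraicClosure ℚ)) :
    Ideal (integralClosure ℤ (AlgebraicClosure ℚ)) where
  carrier := {b | (b : AlgebraicClosure ℚ) ∈ A.nonunits}
  add_mem' := fun {a b} ha hb => A.nonunits.add_mem ha hb
  zero_mem' := A.nonunits.zero_mem
  smul_mem' := fun c b hb => by
    obtain ⟨hb1, hb2⟩ := ValuationSubring.mem_nonunits_iff_exists_mem_maximalIdeal.mp hb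
    have hc : (c : AlgebraicClosure ℚ) ∈ A := isIntegral_mem_valuationSubring A c.2
    have := Ideal.mul_mem_left _ (⟨c, hc⟩ : A) hb2
    exact ValuationSubring.mem_nonunits_iff_exists_mem_maximalIdeal.mpr ⟨_, this⟩

theorem mem_primeBelow (A : ValuationSubring (AlgebraicClosure ℚ))
    (b : integralClosure ℤ (AlgebraicClosure ℚ)) :
    b ∈ primeBelow A ↔ (b : AlgebraicClosure ℚ) ∈ A.nonunits := Iff.rfl

theorem primeBelow_isPrime (A : ValuationSubring (AlgebraicClosure ℚ)) :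
    (primeBelow A).IsPrime := by
  constructor
  · intro h
    have : (1 : integralClosure ℤ (AlgebraicClosure ℚ)) ∈ primeBelow A := by
      rw [h]; trivial
    rw [mem_primeBelow, ValuationSubring.mem_nonunits_iff] at this
    simp at this
  · intro a b hab
    rw [mem_primeBelow, ValuationSubring.mem_nonunits_iff] at hab ⊢
    rw [mem_primeBelow, ValuationSubring.mem_nonunits_iff]
    have ha : A.valuation (a : AlgebraicClosure ℚ) ≤ 1 :=
      (A.valuation_le_one_iff _).mpr (isIntegral_mem_valuationSubring A a.2)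
    have hb : A.valuation (b : AlgebraicClosure ℚ) ≤ 1 :=
      (A.valuation_le_one_iff _).mpr (isIntegral_mem_valuationSubring A b.2)
    by_contra hcon
    rw [not_or, not_lt, not_lt] at hcon
    have ha1 : A.valuation (a : AlgebraicClosure ℚ) = 1 := le_antisymm ha hcon.1
    have hb1 : A.valuation (b : AlgebraicClosure ℚ) = 1 := le_antisymm hb hcon.2
    have : A.valuation ((a * b : integralClosure ℤ (AlgebraicClosure ℚ)) : AlgebraicClosure ℚ)
        = 1 := by
      push_cast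
      rw [map_mul, ha1, hb1, mul_one]
    exact absurd hab (by rw [this]; exact lt_irrefl _)

/-- There is a valuation subring of `ℚ̄` over every prime number. -/
theorem exists_valuationSubring_liesOver (ℓ : ℕ) (hℓ : ℓ.Prime) :
    ∃ A : ValuationSubring (AlgebraicClosure ℚ), A.LiesOverPrime ℓ := by
  let A₀ : Subring (AlgebraicClosure ℚ) := (algebraMap ℤ (AlgebraicClosure ℚ)).range
  let l₀ : A₀ := ⟨(ℓ : AlgebraicClosure ℚ), ⟨(ℓ : ℤ), by simp⟩⟩
  have hI : Ideal.span {l₀} ≠ ⊤ := by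
    intro h
    rw [Ideal.span_singleton_eq_top] at h
    obtain ⟨⟨m, n, rfl⟩, hm⟩ := h.exists_right_inv
    have h1 : ((ℓ : ℤ) : AlgebraicClosure ℚ) * ((n : ℤ) : AlgebraicClosure ℚ) = 1 := by
      have := congrArg Subtype.val hm
      simpa [l₀] using this
    have h2 : (ℓ : ℤ) * n = 1 := by exact_mod_cast h1
    have h3 : (ℓ : ℤ) ∣ 1 := ⟨n, h2.symm⟩
    have h4 : ℓ ∣ 1 := by exact_mod_cast h3
    exact hℓ.one_lt.ne' (Nat.dvd_one.mp h4)
  obtain ⟨A, -, hA⟩ := Ideal.image_subset_nonunits_valuationSubring _ hI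
  refine ⟨A, ?_⟩
  apply hA
  exact ⟨l₀, Ideal.subset_span rfl, rfl⟩

/-- Existence of Frobenius elements in the absolute Galois group of `ℚ`: for every prime
number `ℓ` there are a valuation subring `A` of `ℚ̄` over `ℓ` and `σ ∈ Gal(ℚ̄/ℚ)` which is a
Frobenius element at `A`. -/
theorem exists_frobenius (ℓ : ℕ) (hℓ : ℓ.Prime) :
    ∃ (A : ValuationSubring (AlgebraicClosure ℚ))
      (σ : AlgebraicClosure ℚ ≃ₐ[ℚ] AlgebraicClosure ℚ),
      A.LiesOverPrime ℓ ∧ A.IsFrobeniusAt σ ℓ := by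
  have : Algebra.IsAlgebraic ℚ (AlgebraicClosure ℚ) := AlgebraicClosure.isAlgebraic ℚ
  obtain ⟨A, hA⟩ := exists_valuationSubring_liesOver ℓ hℓ
  have := primeBelow_isPrime A
  have hℓQ : (ℓ : integralClosure ℤ (AlgebraicClosure ℚ)) ∈ primeBelow A := by
    rw [mem_primeBelow]
    exact hA
  obtain ⟨σ, hσQ', hσF⟩ := exists_frob_integralClosure ℓ hℓ (primeBelow A) hℓQ
  have hσQ : ∀ x, σ • x ∈ primeBelow A ↔ x ∈ primeBelow A := by
    intro x
    conv_lhs => rw [← hσQ']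
    exact Ideal.smul_mem_pointwise_smul_iff
  have key : ∀ τ : AlgebraicClosure ℚ ≃ₐ[ℚ] AlgebraicClosure ℚ,
      (∀ x, τ • x ∈ primeBelow A ↔ x ∈ primeBelow A) → ∀ x ∈ A, τ x ∈ A := by
    intro τ hτ x hx
    obtain ⟨b, s, hb, hs, hsA, hxs⟩ := (mem_valuationSubring_iff A ℓ hℓ hA x).mp hx
    refine (mem_valuationSubring_iff A ℓ hℓ hA (τ x)).mpr
      ⟨τ b, τ s, hb.map τ, hs.map τ, ?_, ?_⟩
    · exact (hτ ⟨s, hs⟩).not.mpr hsA
    · rw [← map_mul, hxs]
  have hσA : σ ∈ A.decompositionSubgroup ℚ := by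
    rw [MulAction.mem_stabilizer_iff]
    ext x
    rw [ValuationSubring.mem_smul_pointwise_iff_exists]
    constructor
    · rintro ⟨s, hs, rfl⟩
      exact key σ hσQ s hs
    · intro hx
      refine ⟨σ⁻¹ • x, key σ⁻¹ ?_ x hx, by simp⟩
      intro y
      rw [← hσQ (σ⁻¹ • y)]
      simp
  refine ⟨A, σ, hA, hσA, ?_⟩
  intro x
  obtain ⟨a, rfl⟩ := IsLocalRing.residue_surjective x
  obtain ⟨b, s, hb, hs, hsA, hxs⟩ := (mem_valuationSubring_iff A ℓ hℓ hA a).mp a.2
  have hbA : b ∈ A := isIntegral_mem_valuationSubring A hb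
  have hsA' : s ∈ A := isIntegral_mem_valuationSubring A hs
  have hint : ∀ (y : AlgebraicClosure ℚ) (hy : IsIntegral ℤ y),
      (⟨σ, hσA⟩ : A.decompositionSubgroup ℚ) •
        IsLocalRing.residue A ⟨y, isIntegral_mem_valuationSubring A hy⟩ =
      (IsLocalRing.residue A ⟨y, isIntegral_mem_valuationSubring A hy⟩) ^ ℓ := by
    intro y hy
    rw [← IsLocalRing.ResidueField.residue_smul, ← map_pow, ← sub_eq_zero, ← map_sub,
      IsLocalRing.residue_eq_zero_iff, ← ValuationSubring.coe_mem_nonunits_iff]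
    exact hσF ⟨y, hy⟩
  have h1 : IsLocalRing.residue A a * IsLocalRing.residue A ⟨s, hsA'⟩ =
      IsLocalRing.residue A ⟨b, hbA⟩ := by
    rw [← map_mul]
    congr 1
    exact Subtype.ext hxs
  have h2 : IsLocalRing.residue A ⟨s, hsA'⟩ ≠ 0 := by
    rw [Ne, IsLocalRing.residue_eq_zero_iff, ← ValuationSubring.coe_mem_nonunits_iff]
    exact hsA
  have h3 := congrArg (fun z => (⟨σ, hσA⟩ : A.decompositionSubgroup ℚ) • z) h1
  simp only [smul_mul'] at h3
  rw [hint s hs, hint b hb, ← h1, mul_pow] at h3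
  exact mul_right_cancel₀ (pow_ne_zero _ h2) h3

end Fermat.Agent.S54

end
-- ===== PACK-END S54/FrobExists.lean

-- ===== PACK-BEGIN S56/Spec.lean
section



/-!
# Row S56 — FROZEN interface statements, layer 0 (row-lead helper956)

`S56 ⇐ TB(ord) + TB(flat) + P1 + TWP`   (glue: `Fermat/Agent/S56/Glue.lean`, sorry-free)
`TWP ⇐ P3 (TWElement) + Lib/Cheb Tier 1`

* `TangentBoundOrdStatement`, `TangentBoundFlatStatement` (TB): there is a dual Selmer frame `D`
  such that for every set `Q` of Taylor–Wiles primes killing `D`, every universal deformation ring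
  `R_Q` has at most `|k|^{|Q|}` tangent vectors `R_Q → k[ε]`.
  (= dictionary tangent space ↪ Selmer group, Greenberg–Wiles formula, local computations.)
* `PowerSeriesSurjStatement` (P1): at most `|k|^r` tangent vectors ⇒ `𝒪⟦X₁..X_r⟧ ↠ R`.
* `TWElementStatement` (P3): group theory (DDT Lemma 2.48/Thm 2.49): for a nonzero class `c`
  there is `σ` fixing `μ_{p^{n+1}}` with distinct eigenvalues and `c(σ) ∉ (ρ̄(σ) − 1) ad⁰`.
* `TWPrimesStatement` (TWP): `r = dim D` Taylor–Wiles primes `≡ 1 mod p^{n+1}` killing `D`.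

All pieces are proved as `theorem xxx : XxxStatement` in `Fermat/Agent/S56/H<seat>/*.lean`.
-/

set_option autoImplicit false

open Polynomial IsLocalRing

noncomputable section

namespace Fermat.Agent.S56

/-- The standing hypotheses of the frozen statement S56. -/
structure Hyp (𝒪 : Type) [CommRing 𝒪] [IsDomain 𝒪] [IsDiscreteValuationRing 𝒪]
    (p : ℕ) (ρbar : ResidualGaloisRep (ResidueField 𝒪)) (S Smin : Finset ℕ) : Prop where
  hp : p.Prime
  hp2 : p ≠ 2
  hp𝒪 : (p : 𝒪) ∈ maximalIdeal 𝒪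
  habs : ρbar.IsAbsolutelyIrreducible
  hdet : (GaloisRepAdic.ofResidualGaloisRep ρbar).DetIsCyclotomic p
  hsplit : ∀ σ : GQ, ∃ α β : ResidueField 𝒪,
    LinearMap.charpoly (ρbar.ρ σ) = (X - C α) * (X - C β)
  hTW : ∀ (K : Type) [Field K] [Algebra (ResidueField 𝒪) K] (G : Subgroup GQ), G.index = 2 →
    ∀ V : Submodule K (ρbar.baseChange K).V,
      (∀ σ ∈ G, ∀ x ∈ V, (ρbar.baseChange K).ρ σ x ∈ V) → V = ⊥ ∨ V = ⊤
  hpSmin : p ∈ Smin
  hSmin : Smin ⊆ S
  hS : ∀ q ∈ S, q.Prime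
  hmin : ∀ q : ℕ, q.Prime → q ≠ p → (q ∈ Smin ↔ ¬ ρbar.IsUnramifiedAt q)

/-- (TB) for a family of deformation conditions indexed by the auxiliary set `Q`. -/
def TangentBound (𝒪 : Type) [CommRing 𝒪] [IsDomain 𝒪] [IsDiscreteValuationRing 𝒪]
    [IsAdicComplete (maximalIdeal 𝒪) 𝒪]
    (p : ℕ) (ρbar : ResidualGaloisRep (ResidueField 𝒪)) (S : Finset ℕ)
    (cond : Finset ℕ → DefCond 𝒪) : Prop :=
  ∃ D : Submodule (ResidueField 𝒪) (GQ → Module.End (ResidueField 𝒪) ρbar.V),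
    IsDualFrame ρbar p D ∧
    ∀ Q : Finset ℕ, (∀ q ∈ Q, IsTWPrime ρbar p S q) → Kills ρbar p D Q →
      ∀ DQ : GaloisRep.DeformationRingData 𝒪 ρbar (cond Q),
        Finite (TanHom 𝒪 DQ.R) ∧
          Nat.card (TanHom 𝒪 DQ.R) ≤ Nat.card (ResidueField 𝒪) ^ Q.card

/-- (TB-ord) tangent bound for the strict-ordinary condition. -/
def TangentBoundOrdStatement : Prop :=
  ∀ (𝒪 : Type) [CommRing 𝒪] [IsDomain 𝒪] [IsDiscreteValuationRing 𝒪]
    [IsAdicComplete (maximalIdeal 𝒪) 𝒪] [Finite (ResidueField 𝒪)]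
    (p : ℕ) (ρbar : ResidualGaloisRep (ResidueField 𝒪)) (S Smin : Finset ℕ),
    Hyp 𝒪 p ρbar S Smin → TangentBound 𝒪 p ρbar S (ordCond 𝒪 p Smin)

/-- (TB-flat) tangent bound for the flat condition. -/
def TangentBoundFlatStatement : Prop :=
  ∀ (𝒪 : Type) [CommRing 𝒪] [IsDomain 𝒪] [IsDiscreteValuationRing 𝒪]
    [IsAdicComplete (maximalIdeal 𝒪) 𝒪] [Finite (ResidueField 𝒪)]
    (p : ℕ) (ρbar : ResidualGaloisRep (ResidueField 𝒪)) (S Smin : Finset ℕ),
    Hyp 𝒪 p ρbar S Smin → TangentBound 𝒪 p ρbar S (flatCond 𝒪 p Smin)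

/-- (P1) commutative algebra: few tangent vectors ⇒ quotient of a power series ring. -/
def PowerSeriesSurjStatement : Prop :=
  ∀ (𝒪 : Type) [CommRing 𝒪] [IsDomain 𝒪] [IsDiscreteValuationRing 𝒪]
    [IsAdicComplete (maximalIdeal 𝒪) 𝒪] [Finite (ResidueField 𝒪)]
    (R : Type) [CommRing R] [IsLocalRing R] [IsNoetherianRing R]
    [IsAdicComplete (maximalIdeal R) R] [Algebra 𝒪 R] [IsLocalHom (algebraMap 𝒪 R)],
    Function.Surjective (IsLocalRing.residue R ∘ algebraMap 𝒪 R) →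
    ∀ r : ℕ, Finite (TanHom 𝒪 R) →
      Nat.card (TanHom 𝒪 R) ≤ Nat.card (ResidueField 𝒪) ^ r →
      ∃ γ : MvPowerSeries (Fin r) 𝒪 →ₐ[𝒪] R, Function.Surjective γ

/-- (TWP) existence of Taylor–Wiles primes killing a dual Selmer frame. -/
def TWPrimesStatement : Prop :=
  ∀ (𝒪 : Type) [CommRing 𝒪] [IsDomain 𝒪] [IsDiscreteValuationRing 𝒪]
    [IsAdicComplete (maximalIdeal 𝒪) 𝒪] [Finite (ResidueField 𝒪)]
    (p : ℕ) (ρbar : ResidualGaloisRep (ResidueField 𝒪)) (S Smin : Finset ℕ),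
    Hyp 𝒪 p ρbar S Smin →
    ∀ D : Submodule (ResidueField 𝒪) (GQ → Module.End (ResidueField 𝒪) ρbar.V),
      IsDualFrame ρbar p D → ∀ n : ℕ,
      ∃ qv : Fin (Module.finrank (ResidueField 𝒪) D) → ℕ, Function.Injective qv ∧
        (∀ i, (qv i).Prime ∧ qv i ∉ S ∧ p ^ (n + 1) ∣ qv i - 1) ∧
        (∀ i, ∀ P : ValuationSubring Qb, P.LiesOverPrime (qv i) →
          ∀ φ : GQ, P.IsFrobeniusAt φ (qv i) →
            ∃ α β : ResidueField 𝒪, α ≠ β ∧
              LinearMap.charpoly (ρbar.ρ φ) = (X - C α) * (X - C β)) ∧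
        Kills ρbar p D (Finset.univ.image qv)

/-- (P3) the Taylor–Wiles element: group theory of `ρ̄` and `ad⁰ρ̄(1)`.
Part 1: for a cocycle which is not a coboundary; part 2: without cocycle. -/
def TWElementStatement : Prop :=
  ∀ (𝒪 : Type) [CommRing 𝒪] [IsDomain 𝒪] [IsDiscreteValuationRing 𝒪]
    [IsAdicComplete (maximalIdeal 𝒪) 𝒪] [Finite (ResidueField 𝒪)]
    (p : ℕ) (ρbar : ResidualGaloisRep (ResidueField 𝒪)) (S Smin : Finset ℕ),
    Hyp 𝒪 p ρbar S Smin →
    (∀ c : GQ → Module.End (ResidueField 𝒪) ρbar.V, IsTwCocycle ρbar p c →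
      ¬ IsTwCoboundary ρbar p c → ∀ n : ℕ,
      ∃ σ : GQ, (∀ μ : Qb, μ ^ p ^ (n + 1) = 1 → σ μ = μ) ∧
        (∃ α β : ResidueField 𝒪, α ≠ β ∧
          LinearMap.charpoly (ρbar.ρ σ) = (X - C α) * (X - C β)) ∧
        ∀ m : Module.End (ResidueField 𝒪) ρbar.V,
          LinearMap.trace (ResidueField 𝒪) ρbar.V m = 0 →
            c σ ≠ ρbar.ρ σ * m * ρbar.ρ σ⁻¹ - m) ∧
    (∀ n : ℕ, ∃ σ : GQ, (∀ μ : Qb, μ ^ p ^ (n + 1) = 1 → σ μ = μ) ∧
        ∃ α β : ResidueField 𝒪, α ≠ β ∧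
          LinearMap.charpoly (ρbar.ρ σ) = (X - C α) * (X - C β))

/-- (TWP-of) Taylor–Wiles primes from the Taylor–Wiles element and Frobenius density. -/
def TWPrimesOfElementStatement : Prop :=
  TWElementStatement → Fermat.Agent.Lib.Cheb.Spec.FrobeniusDivisionStatement → TWPrimesStatement

end Fermat.Agent.S56

end

end
-- ===== PACK-END S56/Spec.lean

-- ===== PACK-BEGIN S56/H734/PadicPow.lean
section



/-!
# S56 / H734 : `ℚ_pˣ = ⟨p, 1 + p⟩ · (ℚ_pˣ)^p` for odd `p`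

Every nonzero `p`-adic number is of the form `p ^ i * (1 + p) ^ j * w ^ p`.
(Input of the Kummer count `dim H¹(G_{ℚ_p}, k(1)) ≤ 2`, sub-leaf KUMMER-P of LOC-SO / FLAT-O.)
-/

set_option autoImplicit false

namespace Fermat.Agent.S56.H734

theorem neg_le_natAbs' (i : ℤ) : -i ≤ (i.natAbs : ℤ) := by
  omega

/-- `(1 + a) ^ j = 1 + j a + a² r` in any commutative ring. -/
theorem one_add_pow_eq (R : Type*) [CommRing R] (a : R) (j : ℕ) :
    ∃ r : R, (1 + a) ^ j = 1 + j * a + a ^ 2 * r := by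
  induction j with
  | zero => exact ⟨0, by simp⟩
  | succ j ih =>
    obtain ⟨r, hr⟩ := ih
    refine ⟨r + r * a + j, ?_⟩
    rw [pow_succ, hr]
    push_cast
    ring

variable (p : ℕ) [hp : Fact p.Prime]

/-- Units of `ℤ_p` (odd `p`) are of the form `(1 + p) ^ j * w ^ p`. -/
theorem padicInt_unit_eq (hp2 : p ≠ 2) (u : ℤ_[p]ˣ) :
    ∃ (j : ℕ) (w : ℤ_[p]ˣ), (u : ℤ_[p]) = (1 + (p : ℤ_[p])) ^ j * (w : ℤ_[p]) ^ p := by
  have hp1 : 1 ≤ p := hp.out.one_lt.le
  -- `v = u ^ (-(p - 1))`, `u = u ^ p * v`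
  set v : ℤ_[p]ˣ := (u ^ (p - 1))⁻¹ with hv
  have huv : u = u ^ p * v := by
    rw [hv]
    have : u ^ p = u * u ^ (p - 1) := by
      rw [← pow_succ', Nat.sub_add_cancel hp1]
    rw [this, mul_assoc, mul_inv_cancel, mul_one]
  -- `v ≡ 1 mod p`
  have hv1 : PadicInt.toZMod ((v : ℤ_[p])) = 1 := by
    have hu0 : PadicInt.toZMod (u : ℤ_[p]) ≠ 0 := by
      have : IsUnit (PadicInt.toZMod (u : ℤ_[p])) := (u.isUnit).map _
      exact this.ne_zero
    have h1 : PadicInt.toZMod ((u ^ (p - 1) : ℤ_[p]ˣ) : ℤ_[p]) = 1 := by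
      rw [Units.val_pow_eq_pow_val, map_pow]
      exact ZMod.pow_card_sub_one_eq_one hu0
    have h2 : PadicInt.toZMod ((u ^ (p - 1) : ℤ_[p]ˣ) : ℤ_[p]) *
        PadicInt.toZMod ((v : ℤ_[p])) = 1 := by
      rw [← map_mul, ← Units.val_mul, hv, mul_inv_cancel, Units.val_one, map_one]
    rw [h1, one_mul] at h2
    exact h2
  -- `v = 1 + p s`
  obtain ⟨s, hs⟩ : ∃ s : ℤ_[p], (v : ℤ_[p]) = 1 + p * s := by
    have hmem : (v : ℤ_[p]) - 1 ∈ RingHom.ker (PadicInt.toZModPow (p := p) 1) := by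
      rw [PadicInt.ker_toZModPow, pow_one, ← PadicInt.maximalIdeal_eq_span_p,
        ← PadicInt.ker_toZMod, RingHom.mem_ker, map_sub, hv1, map_one, sub_self]
    rw [PadicInt.ker_toZModPow, pow_one, Ideal.mem_span_singleton] at hmem
    obtain ⟨s, hs⟩ := hmem
    exact ⟨s, by rw [← hs]; ring⟩
  -- `s = j + p s'`
  obtain ⟨j, -, hj⟩ := PadicInt.exists_mem_range (p := p) s
  obtain ⟨s', hs'⟩ : ∃ s' : ℤ_[p], s = j + p * s' := by
    rw [PadicInt.maximalIdeal_eq_span_p, Ideal.mem_span_singleton] at hj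
    obtain ⟨s', hs'⟩ := hj
    exact ⟨s', by rw [← hs']; ring⟩
  obtain ⟨r, hr⟩ := one_add_pow_eq ℤ_[p] (p : ℤ_[p]) j
  -- the unit `e = (1 + p) ^ j`
  have he1 : IsUnit ((1 + (p : ℤ_[p])) ^ j) := by
    apply IsUnit.pow
    rw [PadicInt.isUnit_iff]
    have hlt : ‖(p : ℤ_[p])‖ < 1 := by
      rw [PadicInt.norm_p]
      exact inv_lt_one_of_one_lt₀ (by exact_mod_cast hp.out.one_lt)
    have h1 : ‖(1 : ℤ_[p])‖ = 1 := norm_one
    have hne : ‖(1 : ℤ_[p])‖ ≠ ‖(p : ℤ_[p])‖ := by rw [h1]; exact hlt.ne'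
    rw [PadicInt.norm_add_eq_max_of_ne hne, h1]
    exact max_eq_left hlt.le
  obtain ⟨e, he⟩ := he1
  -- `v e⁻¹ ≡ 1 mod p²`
  have hve : PadicInt.toZModPow 2 ((v * e⁻¹ : ℤ_[p]ˣ) : ℤ_[p]) = 1 := by
    have hdiff : (v : ℤ_[p]) - e = p ^ 2 * (s' - r) := by
      rw [hs, he, hr, hs']
      ring
    have hmem : ((v * e⁻¹ : ℤ_[p]ˣ) : ℤ_[p]) - 1 ∈
        RingHom.ker (PadicInt.toZModPow (p := p) 2) := by
      rw [PadicInt.ker_toZModPow, Ideal.mem_span_singleton]
      refine ⟨(s' - r) * ((e⁻¹ : ℤ_[p]ˣ) : ℤ_[p]), ?_⟩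
      have h1 : ((v * e⁻¹ : ℤ_[p]ˣ) : ℤ_[p]) - 1 =
          ((v : ℤ_[p]) - e) * ((e⁻¹ : ℤ_[p]ˣ) : ℤ_[p]) := by
        rw [Units.val_mul, sub_mul, Units.mul_inv]
      rw [h1, hdiff]
      ring
    rw [RingHom.mem_ker, map_sub, map_one, sub_eq_zero] at hmem
    exact hmem
  obtain ⟨w₀, hw₀⟩ := Fermat.Agent.S55.H413.exists_pow_totient_eq p hp2 2 (by norm_num)
    (v * e⁻¹) hve
  have htot : (p ^ 2).totient = (p - 1) * p := by
    rw [Nat.totient_prime_pow hp.out (by norm_num : 0 < 2)]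
    simp [mul_comm]
  refine ⟨j, u * w₀ ^ (p - 1), ?_⟩
  have hfinal : u = e * (u * w₀ ^ (p - 1)) ^ p := by
    have hv' : v = e * (w₀ ^ (p - 1)) ^ p := by
      rw [← pow_mul, ← htot, hw₀]
      simp
    calc u = u ^ p * v := huv
      _ = u ^ p * (e * (w₀ ^ (p - 1)) ^ p) := by rw [← hv']
      _ = e * (u * w₀ ^ (p - 1)) ^ p := by rw [mul_pow]; ac_rfl
  have := congrArg (fun z : ℤ_[p]ˣ => (z : ℤ_[p])) hfinal
  simp only [Units.val_mul, Units.val_pow_eq_pow_val] at this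
  rw [he] at this
  simpa [Units.val_mul, Units.val_pow_eq_pow_val] using this

/-- **`ℚ_pˣ = ⟨p, 1 + p⟩ · (ℚ_pˣ)^p`** for odd `p`. -/
theorem padic_eq_pow_mul (hp2 : p ≠ 2) (x : ℚ_[p]) (hx : x ≠ 0) :
    ∃ (i : ℤ) (j : ℕ) (w : ℚ_[p]), w ≠ 0 ∧
      x = (p : ℚ_[p]) ^ i * (1 + (p : ℚ_[p])) ^ j * w ^ p := by
  have hp0 : (p : ℚ_[p]) ≠ 0 := by exact_mod_cast hp.out.ne_zero
  set n : ℤ := x.valuation with hn
  set y : ℚ_[p] := x * (p : ℚ_[p]) ^ (-n) with hy
  have hynorm : ‖y‖ = 1 := by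
    rw [hy, norm_mul, Padic.norm_eq_zpow_neg_valuation hx, norm_zpow, Padic.norm_p,
      ← hn, inv_zpow', neg_neg, ← zpow_add₀ (by exact_mod_cast hp.out.ne_zero : (p : ℝ) ≠ 0)]
    simp
  obtain ⟨j, w, hw⟩ := padicInt_unit_eq p hp2 (PadicInt.mkUnits hynorm)
  refine ⟨n, j, (w : ℤ_[p]), ?_, ?_⟩
  · have : (w : ℤ_[p]) ≠ 0 := w.ne_zero
    exact fun h => this (PadicInt.coe_eq_zero.mp h)
  · have hy' : y = (1 + (p : ℚ_[p])) ^ j * ((w : ℤ_[p]) : ℚ_[p]) ^ p := by
      have h1 := congrArg (fun z : ℤ_[p] => (z : ℚ_[p])) hw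
      simp only [PadicInt.mkUnits_eq] at h1
      rw [h1]
      push_cast
      rfl
    have hx' : x = (p : ℚ_[p]) ^ n * y := by
      rw [hy, mul_comm x, ← mul_assoc, ← zpow_add₀ hp0]
      simp
    rw [hx', hy', mul_assoc]

/-- Variant with a natural exponent of `p`. -/
theorem padic_eq_pow_mul_nat (hp2 : p ≠ 2) (x : ℚ_[p]) (hx : x ≠ 0) :
    ∃ (i j : ℕ) (w : ℚ_[p]), w ≠ 0 ∧
      x = (p : ℚ_[p]) ^ i * (1 + (p : ℚ_[p])) ^ j * w ^ p := by
  have hp0 : (p : ℚ_[p]) ≠ 0 := by exact_mod_cast hp.out.ne_zero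
  obtain ⟨i, j, w, hw, hx'⟩ := padic_eq_pow_mul p hp2 x hx
  -- `i = i' - p * N` with `i' ≥ 0`
  set N : ℕ := i.natAbs with hN
  have hi' : 0 ≤ i + p * N := by
    have h1 : (1 : ℤ) ≤ p := by exact_mod_cast hp.out.one_lt.le
    have h2 : -i ≤ (N : ℤ) := by rw [hN]; exact neg_le_natAbs' i
    have h3 : (0 : ℤ) ≤ (N : ℤ) := Int.natCast_nonneg N
    nlinarith [neg_le_natAbs' i]
  obtain ⟨i', hi'eq⟩ := Int.eq_ofNat_of_zero_le hi'
  refine ⟨i', j, w * ((p : ℚ_[p]) ^ N)⁻¹, mul_ne_zero hw (inv_ne_zero (pow_ne_zero _ hp0)), ?_⟩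
  have h3 : (p : ℚ_[p]) ^ i = (p : ℚ_[p]) ^ i' * (((p : ℚ_[p]) ^ N)⁻¹) ^ p := by
    have : i = (i' : ℤ) - p * N := by rw [← hi'eq]; ring
    rw [this, zpow_sub₀ hp0, zpow_natCast, inv_pow, ← pow_mul, div_eq_mul_inv]
    congr 2
    rw [mul_comm, ← zpow_natCast]
    push_cast
    rfl
  rw [hx', h3, mul_pow]
  ring

end Fermat.Agent.S56.H734

end
-- ===== PACK-END S56/H734/PadicPow.lean

-- ===== PACK-BEGIN Lib/Cheb/H993/Induction.lean
section


/-!
# The subgroup induction (abstract core of piece `M`)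

`v X p ≥ 0` bounded weights indexed by subgroups `X` of a finite group `G` and numbers `p`.
If for every subgroup `H` the prime sum of `∑_{X ≤ H} v X` is `|H| · log (1/(s-1)) + O(1)`, then
for every subgroup `X` the prime sum of `v X` is `ψ(X) · log (1/(s-1)) + O(1)`, where `ψ(X)` is the
number of generators of `X`.  Hence if `X` is cyclic, `v X p > 0` for primes outside any finite set.
-/

set_option autoImplicit false

namespace Fermat.Agent.Lib.Cheb.H993

open scoped Classical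

noncomputable section

variable {G : Type*} [Group G] [Finite G]

/-- Number of generators of the subgroup `X`. -/
def gens (X : Subgroup G) : ℕ := Nat.card {x : G // Subgroup.zpowers x = X}

/-- The subgroups contained in `H`, as a finset. -/
def below (H : Subgroup G) : Finset (Subgroup G) :=
  haveI : Fintype (Subgroup G) := Fintype.ofFinite _
  Finset.univ.filter (· ≤ H)

theorem mem_below {H X : Subgroup G} : X ∈ below H ↔ X ≤ H := by
  unfold below
  simp

theorem card_eq_sum_gens (H : Subgroup G) : Nat.card H = ∑ X ∈ below H, gens X := by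
  have : Fintype G := Fintype.ofFinite _
  have h1 : Nat.card H = (Finset.univ.filter (fun x : G => x ∈ H)).card := by
    rw [Nat.card_eq_fintype_card, Fintype.card_subtype]
  have h2 : ∀ X : Subgroup G, gens X
      = ((Finset.univ.filter (fun x : G => x ∈ H)).filter
          (fun x => Subgroup.zpowers x = X)).card ∨ ¬ X ≤ H := by
    intro X
    by_cases hX : X ≤ H
    · left
      unfold gens
      rw [Nat.card_eq_fintype_card, Fintype.card_subtype]
      congr 1
      ext x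
      simp only [Finset.mem_filter, Finset.mem_univ, true_and, iff_and_self]
      intro hx
      exact hX (hx ▸ Subgroup.mem_zpowers x)
    · right; exact hX
  rw [h1, Finset.card_eq_sum_card_fiberwise (f := fun x : G => Subgroup.zpowers x)
    (t := below H)]
  · refine Finset.sum_congr rfl fun X hX => ?_
    rcases h2 X with h | h
    · exact h.symm
    · exact absurd (mem_below.mp hX) h
  · intro x hx
    simp only [Finset.coe_filter, Finset.mem_univ, true_and, Set.mem_ofPred_eq] at hx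
    simp only [Finset.mem_coe]
    exact mem_below.mpr ((Subgroup.zpowers_le).mpr hx)

theorem self_mem_below (X : Subgroup G) : X ∈ below X := mem_below.mpr le_rfl

theorem card_lt_of_mem_erase {X Y : Subgroup G} (hY : Y ∈ (below X).erase X) :
    Nat.card Y < Nat.card X := by
  rw [Finset.mem_erase, mem_below] at hY
  have hlt : Y < X := lt_of_le_of_ne hY.2 hY.1
  have hss : (Y : Set G) ⊂ (X : Set G) := by
    exact_mod_cast hlt
  have h := Set.ncard_lt_ncard hss (Set.toFinite _)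
  rw [← Nat.card_coe_set_eq, ← Nat.card_coe_set_eq] at h
  exact h

/-- The induction: prime sums of `v X` are `gens X · log (1/(s-1)) + O(1)`. -/
theorem logAsymp_pSum (v : Subgroup G → ℕ → ℝ) (K : ℝ) (h0 : ∀ X p, 0 ≤ v X p)
    (hK : ∀ X p, v X p ≤ K)
    (hW : ∀ H : Subgroup G,
      LogAsymp (pSum (fun p => ∑ X ∈ below H, v X p)) (Nat.card H)) :
    ∀ X : Subgroup G, LogAsymp (pSum (v X)) (gens X) := by
  suffices h : ∀ n : ℕ, ∀ X : Subgroup G, Nat.card X = n → LogAsymp (pSum (v X)) (gens X) from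
    fun X => h _ X rfl
  intro n
  induction n using Nat.strong_induction_on with
  | _ n ih =>
    intro X hX
    have hsmall : ∀ Y ∈ (below X).erase X, LogAsymp (pSum (v Y)) (gens Y) := by
      intro Y hY
      exact ih (Nat.card Y) (hX ▸ card_lt_of_mem_erase hY) Y rfl
    have hsum := LogAsymp.sum ((below X).erase X) hsmall
    have hdiff := (hW X).sub hsum
    have hcoef : ((Nat.card X : ℕ) : ℝ) - ∑ Y ∈ (below X).erase X, ((gens Y : ℕ) : ℝ)
        = (gens X : ℝ) := by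
      have h1 := card_eq_sum_gens X
      rw [← Finset.add_sum_erase (below X) _ (self_mem_below X)] at h1
      rw [h1]
      push_cast
      ring
    rw [hcoef] at hdiff
    refine hdiff.congr fun s h1 _ => ?_
    have hsplit : pSum (fun p => ∑ Y ∈ below X, v Y p) s = ∑ Y ∈ below X, pSum (v Y) s :=
      pSum_finset_sum (below X) h0 hK h1
    rw [hsplit, ← Finset.add_sum_erase (below X) _ (self_mem_below X)]
    ring

/-- Consequence: if `X` has a generator, `v X p > 0` for some `p` outside any finite set. -/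
theorem exists_pos_of_gens_pos (v : Subgroup G → ℕ → ℝ) (K : ℝ) (h0 : ∀ X p, 0 ≤ v X p)
    (hK : ∀ X p, v X p ≤ K)
    (hW : ∀ H : Subgroup G,
      LogAsymp (pSum (fun p => ∑ X ∈ below H, v X p)) (Nat.card H))
    (X : Subgroup G) (hX : 0 < gens X) (S : Finset ℕ) :
    ∃ p : ℕ, p.Prime ∧ p ∉ S ∧ 0 < v X p := by
  by_contra hcon
  have hcon : ∀ p : ℕ, p.Prime → p ∉ S → v X p ≤ 0 := by
    intro p hp hpS
    by_contra h
    exact hcon ⟨p, hp, hpS, not_le.mp h⟩
  have hsupp : ∀ p : Nat.Primes, (p : ℕ) ∉ S → v X p = 0 := fun p hp =>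
    le_antisymm (hcon p p.2 hp) (h0 X p)
  have hasym := logAsymp_pSum v K h0 hK hW X
  have hK0 : 0 ≤ K := (h0 X 0).trans (hK X 0)
  obtain ⟨s, h1, -, hs⟩ := hasym.exists_gt (by exact_mod_cast hX) (K * S.card)
  -- but the prime sum is supported on `S`
  let w : ℕ → ℝ := fun p => if p ∈ S then v X p else 0
  have hw : pSum (v X) s = pSum w s := by
    unfold pSum
    congr 1
    funext p
    by_cases hp : (p : ℕ) ∈ S
    · simp [w, hp]
    · simp [w, hp, hsupp p hp]
  have hle : |pSum w s| ≤ K * S.card := by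
    apply abs_pSum_le_of_support S
    · intro p; by_cases hp : p ∈ S <;> simp [w, hp, h0 X p]
    · intro p; by_cases hp : p ∈ S <;> simp [w, hp, hK X p, hK0]
    · intro p hp; simp [w, hp]
    · exact h1
  rw [hw] at hs
  exact absurd (le_abs_self _ |>.trans hle) (not_le.mpr hs)

end

end Fermat.Agent.Lib.Cheb.H993

end
-- ===== PACK-END Lib/Cheb/H993/Induction.lean

-- ===== PACK-BEGIN S22/H262/Cocycle.lean
section


set_option autoImplicit false

/-!
# The Eichler cocycle via primitive towers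
-/

open Complex Filter Function Metric Set
open UpperHalfPlane hiding I
open scoped Real Topology Manifold ModularForm MatrixGroups

namespace Fermat.Agent.S22.H262

/-- The action of `GL₂(ℝ)` on `ℂ²` (column vectors). -/
def actV (A : GL (Fin 2) ℝ) (v : ℂ × ℂ) : ℂ × ℂ :=
  ((A 0 0 : ℝ) * v.1 + (A 0 1 : ℝ) * v.2, (A 1 0 : ℝ) * v.1 + (A 1 1 : ℝ) * v.2)

theorem actV_mul (A B : GL (Fin 2) ℝ) (v : ℂ × ℂ) : actV (A * B) v = actV A (actV B v) := by
  simp only [actV, Matrix.GeneralLinearGroup.coe_mul, Matrix.mul_apply, Fin.sum_univ_two]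
  ext <;> push_cast <;> ring

@[simp] theorem actV_one (v : ℂ × ℂ) : actV 1 v = v := by
  simp [actV]

/-- The polynomial-valued Eichler integral attached to a tower, evaluated at a vector `v`. -/
noncomputable def bigG (n : ℕ) (E : ℕ → ℍ → ℂ) (z : ℍ) (v : ℂ × ℂ) : ℂ :=
  ∑ j ∈ Finset.range (n + 1),
    (n.descFactorial j : ℂ) * E (j + 1) z * (v.1 - z * v.2) ^ (n - j) * v.2 ^ j

theorem hasDerivAt_bigG (n : ℕ) {h : ℍ → ℂ} {E : ℕ → ℍ → ℂ} (hE : IsTower h E) (v : ℂ × ℂ)
    (z : ℍ) :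
    HasDerivAt (fun w : ℂ => bigG n E (ofComplex w) v) (h z * (v.1 - z * v.2) ^ n) (z : ℂ) := by
  -- first the derivative of the version with `w` in place of `↑(ofComplex w)`
  have key : HasDerivAt (fun w : ℂ => ∑ j ∈ Finset.range (n + 1),
      (n.descFactorial j : ℂ) * (E (j + 1) ∘ ofComplex) w * (v.1 - w * v.2) ^ (n - j) * v.2 ^ j)
      (∑ j ∈ Finset.range (n + 1),
        ((n.descFactorial j : ℂ) * E j z * (v.1 - z * v.2) ^ (n - j) * v.2 ^ j -
         (n.descFactorial (j + 1) : ℂ) * E (j + 1) z * (v.1 - z * v.2) ^ (n - (j + 1)) *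
            v.2 ^ (j + 1))) (z : ℂ) := by
    apply HasDerivAt.fun_sum
    intro j _
    have h1 : HasDerivAt (E (j + 1) ∘ ofComplex) (E j z) (z : ℂ) := hE.hasDeriv j z
    have h2 : HasDerivAt (fun w : ℂ => (v.1 - w * v.2) ^ (n - j))
        (((n - j : ℕ) : ℂ) * (v.1 - z * v.2) ^ (n - j - 1) * (-v.2)) (z : ℂ) := by
      have h3 : HasDerivAt (fun w : ℂ => v.1 - w * v.2) (-v.2) (z : ℂ) := by
        simpa using ((hasDerivAt_id (z : ℂ)).mul_const v.2).const_sub v.1
      exact h3.pow (n - j)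
    have h4 := ((h1.const_mul (n.descFactorial j : ℂ)).mul h2).mul_const (v.2 ^ j)
    refine h4.congr_deriv ?_
    have hofz : (E (j + 1) ∘ ofComplex) (z : ℂ) = E (j + 1) z := by simp
    rw [hofz, Nat.descFactorial_succ]
    have : n - (j + 1) = n - j - 1 := by omega
    rw [this]
    push_cast
    ring
  have hsum : (∑ j ∈ Finset.range (n + 1),
        ((n.descFactorial j : ℂ) * E j z * (v.1 - z * v.2) ^ (n - j) * v.2 ^ j -
         (n.descFactorial (j + 1) : ℂ) * E (j + 1) z * (v.1 - z * v.2) ^ (n - (j + 1)) *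
            v.2 ^ (j + 1))) = h z * (v.1 - z * v.2) ^ n := by
    rw [Finset.sum_range_sub' (fun j => (n.descFactorial j : ℂ) * E j z *
      (v.1 - z * v.2) ^ (n - j) * v.2 ^ j)]
    have hlt : n.descFactorial (n + 1) = 0 := Nat.descFactorial_of_lt (Nat.lt_succ_self n)
    rw [hlt]
    simp [hE.zero]
  rw [hsum] at key
  refine key.congr_of_eventuallyEq ?_
  have hopen : {z : ℂ | 0 < z.im} ∈ 𝓝 (z : ℂ) :=
    (isOpen_lt continuous_const Complex.continuous_im).mem_nhds z.im_pos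
  filter_upwards [hopen] with w hw
  simp [bigG, ofComplex_apply_of_im_pos hw]

/-- The key identity `x' - (Az) y' = det A (x - z y) / (cz + d)` where `(x', y') = A v`. -/
theorem actV_sub (A : GL (Fin 2) ℝ) (hA : 0 < A.det.val) (z : ℍ) (v : ℂ × ℂ) :
    (actV A v).1 - ((A • z : ℍ) : ℂ) * (actV A v).2 =
      (A.det.val : ℂ) * (v.1 - z * v.2) / denom A z := by
  have hd : denom A z ≠ 0 := denom_ne_zero A z
  rw [coe_smul_of_det_pos hA]
  have hdet : (A.det.val : ℂ) = (A 0 0 : ℝ) * (A 1 1 : ℝ) - (A 0 1 : ℝ) * (A 1 0 : ℝ) := by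
    rw [Matrix.GeneralLinearGroup.val_det_apply, Matrix.det_fin_two]
    push_cast
    ring
  have key : ((actV A v).1 * denom A z - num A z * (actV A v).2) =
      (A.det.val : ℂ) * (v.1 - z * v.2) := by
    simp only [actV, num, denom, hdet]
    ring
  rw [eq_div_iff hd, sub_mul, ← key]
  congr 1
  field_simp

theorem hasDerivAt_bigG_smul (n : ℕ) {h : ℍ → ℂ} {E : ℕ → ℍ → ℂ} (hE : IsTower h E)
    (A : GL (Fin 2) ℝ) (hA : 0 < A.det.val) (v : ℂ × ℂ) (z : ℍ) :
    HasDerivAt (fun w : ℂ => bigG n E (A • ofComplex w) (actV A v))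
      ((h ∣[(n : ℤ) + 2] A) z * (v.1 - z * v.2) ^ n) (z : ℂ) := by
  have h1 := hasDerivAt_bigG n hE (actV A v) (A • z)
  have h2 : HasDerivAt (fun w : ℂ => ((A • ofComplex w : ℍ) : ℂ))
      (A.det.val / denom A z ^ 2) (z : ℂ) := (hasStrictDerivAt_smul hA z).hasDerivAt
  have h3 := h1.comp_of_eq (x := (z : ℂ)) h2 (by simp)
  have hd : denom A z ≠ 0 := denom_ne_zero A z
  have hval : h (A • z) * ((actV A v).1 - ((A • z : ℍ) : ℂ) * (actV A v).2) ^ n *
      ((A.det.val : ℂ) / denom A z ^ 2) = (h ∣[(n : ℤ) + 2] A) z * (v.1 - z * v.2) ^ n := by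
    rw [actV_sub A hA z v, ModularForm.slash_apply, UpperHalfPlane.σ, if_pos hA]
    simp only [ContinuousAlgEquiv.refl_apply, abs_of_pos hA]
    have e1 : ((n : ℤ) + 2 - 1) = ((n + 1 : ℕ) : ℤ) := by push_cast; ring
    have e2 : -((n : ℤ) + 2) = -((n + 2 : ℕ) : ℤ) := by push_cast; ring
    rw [e1, e2, zpow_natCast, zpow_neg, zpow_natCast, div_pow, mul_pow]
    field_simp
    ring
  rw [hval] at h3
  refine h3.congr_of_eventuallyEq ?_
  filter_upwards with w
  simp

/-- The difference `G_h(Az, Av) - G_{h|A}(z, v)` does not depend on `z`. -/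
theorem bigG_sub_const (n : ℕ) {h : ℍ → ℂ} (A : GL (Fin 2) ℝ) (hA : 0 < A.det.val)
    (hh : HasTower h) (hhA : HasTower (h ∣[(n : ℤ) + 2] A)) (v : ℂ × ℂ) (z w : ℍ) :
    bigG n (tower h) (A • z) (actV A v) - bigG n (tower (h ∣[(n : ℤ) + 2] A)) z v =
      bigG n (tower h) (A • w) (actV A v) - bigG n (tower (h ∣[(n : ℤ) + 2] A)) w v := by
  let D : ℍ → ℂ := fun z =>
    bigG n (tower h) (A • z) (actV A v) - bigG n (tower (h ∣[(n : ℤ) + 2] A)) z v
  have hD : ∀ z : ℍ, HasDerivAt (D ∘ ofComplex) 0 (z : ℂ) := by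
    intro z
    have := (hasDerivAt_bigG_smul n hh.isTower A hA v z).sub
      (hasDerivAt_bigG n hhA.isTower v z)
    rw [sub_self] at this
    exact this
  exact const_of_hasDerivAt_zero hD z w

/-- The Eichler cocycle of `h` at the matrix `A`, evaluated at the vector `v`. -/
noncomputable def cocyc (n : ℕ) (h : ℍ → ℂ) (A : GL (Fin 2) ℝ) (v : ℂ × ℂ) : ℂ :=
  bigG n (tower h) (A • UpperHalfPlane.I) (actV A v) -
    bigG n (tower (h ∣[(n : ℤ) + 2] A)) UpperHalfPlane.I v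

theorem cocyc_eq (n : ℕ) {h : ℍ → ℂ} (A : GL (Fin 2) ℝ) (hA : 0 < A.det.val)
    (hh : HasTower h) (hhA : HasTower (h ∣[(n : ℤ) + 2] A)) (v : ℂ × ℂ) (z : ℍ) :
    cocyc n h A v =
      bigG n (tower h) (A • z) (actV A v) - bigG n (tower (h ∣[(n : ℤ) + 2] A)) z v :=
  bigG_sub_const n A hA hh hhA v _ _

/-- The cocycle relation. -/
theorem cocyc_mul (n : ℕ) {h : ℍ → ℂ} (A B : GL (Fin 2) ℝ) (hA : 0 < A.det.val)
    (hB : 0 < B.det.val) (hh : HasTower h) (hhA : HasTower (h ∣[(n : ℤ) + 2] A))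
    (hhAB : HasTower (h ∣[(n : ℤ) + 2] (A * B))) (v : ℂ × ℂ) :
    cocyc n h (A * B) v = cocyc n h A (actV B v) + cocyc n (h ∣[(n : ℤ) + 2] A) B v := by
  have hAB : 0 < (A * B).det.val := by
    rw [_root_.map_mul, Units.val_mul]
    exact mul_pos hA hB
  have hslash : h ∣[(n : ℤ) + 2] (A * B) = (h ∣[(n : ℤ) + 2] A) ∣[(n : ℤ) + 2] B :=
    SlashAction.slash_mul _ _ _ _
  have hhAB' : HasTower ((h ∣[(n : ℤ) + 2] A) ∣[(n : ℤ) + 2] B) := hslash ▸ hhAB
  rw [cocyc_eq n (A * B) hAB hh hhAB v UpperHalfPlane.I,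
    cocyc_eq n A hA hh hhA (actV B v) (B • UpperHalfPlane.I),
    cocyc_eq n B hB hhA hhAB' v UpperHalfPlane.I, actV_mul, mul_smul, hslash]
  ring

end Fermat.Agent.S22.H262

end
-- ===== PACK-END S22/H262/Cocycle.lean

-- ===== PACK-BEGIN S24/JFun/QExp.lean
section






/-!
# The `q`-expansion of the analytic `j`-function is the formal `j` of the Prelude

Main results:
* `qExpansion_E₄` : `qExpansion 1 E₄ = ModularCurve.eisenstein4.map (Int.castRingHom ℂ)`;
* `qExpansion_qj` : `qExpansion 1 (τ ↦ q(τ) * j(τ)) = ModularCurve.jNum.map (Int.castRingHom ℂ)`;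
* `hasSum_qj` : `q * j(τ) = ∑ jNum_n q ^ n` for every `τ : ℍ`.
-/

set_option autoImplicit false

namespace Fermat.Agent.S24.JFun

open Filter Topology Complex Metric Function
open UpperHalfPlane hiding I
open ModularForm EisensteinSeries MatrixGroups
open scoped Manifold

local notation "𝕢" => Function.Periodic.qParam

/-- The analytic Euler product `∏ (1 - q ^ (n+1))` as a function of `τ`. -/
noncomputable def eulerFun : ℍ → ℂ := ofQ (fun q : ℂ => ∏' n : ℕ, (1 - q ^ (n + 1)))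

theorem eulerFun_apply (τ : ℍ) :
    eulerFun τ = ∏' n : ℕ, (1 - 𝕢 1 (τ : ℂ) ^ (n + 1)) := rfl

theorem eulerFun_pow_eq_ofQ (k : ℕ) :
    (fun τ => eulerFun τ ^ k) = ofQ (fun q : ℂ => (∏' n : ℕ, (1 - q ^ (n + 1))) ^ k) := rfl

theorem differentiableOn_euler_pow (k : ℕ) :
    DifferentiableOn ℂ (fun q : ℂ => (∏' n : ℕ, (1 - q ^ (n + 1))) ^ k) (ball 0 1) :=
  ModularForm.differentiableOn_tprod_one_sub_pow.fun_pow k

theorem analyticAt_eulerFun_pow (k : ℕ) :
    AnalyticAt ℂ (cuspFunction 1 (fun τ => eulerFun τ ^ k)) 0 := by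
  rw [eulerFun_pow_eq_ofQ]
  exact ofQ_analyticAt (differentiableOn_euler_pow k)

theorem analyticAt_eulerFun : AnalyticAt ℂ (cuspFunction 1 eulerFun) 0 :=
  ofQ_analyticAt ModularForm.differentiableOn_tprod_one_sub_pow

/-- The `q`-expansion of the analytic Euler product is the formal Euler product. -/
theorem qExpansion_eulerFun :
    qExpansion 1 eulerFun = ModularCurve.etaProd.map (Int.castRingHom ℂ) := by
  ext m
  rw [eulerFun, qExpansion_ofQ_coeff ModularForm.differentiableOn_tprod_one_sub_pow,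
    iteratedDeriv_tprod_one_sub_pow, PowerSeries.coeff_map]
  have hm : (m.factorial : ℂ) ≠ 0 := by exact_mod_cast Nat.factorial_ne_zero m
  simp only [eq_intCast]
  field_simp

theorem qExpansion_eulerFun_pow (k : ℕ) :
    qExpansion 1 (fun τ => eulerFun τ ^ k)
      = (ModularCurve.etaProd.map (Int.castRingHom ℂ)) ^ k := by
  induction k with
  | zero =>
    have h : (fun τ : ℍ => eulerFun τ ^ 0) = (1 : ℍ → ℂ) := by
      funext τ
      simp
    rw [h, _root_.UpperHalfPlane.qExpansion_one, pow_zero]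
  | succ k ih =>
    have h : (fun τ : ℍ => eulerFun τ ^ (k + 1)) = (fun τ => eulerFun τ ^ k) * eulerFun := by
      funext τ
      simp [pow_succ]
    rw [h, _root_.UpperHalfPlane.qExpansion_mul (analyticAt_eulerFun_pow k) analyticAt_eulerFun, ih,
      qExpansion_eulerFun, pow_succ]

/-- The discriminant as `q` times the 24-th power of the Euler product. -/
theorem discriminant_eq_q_mul_eulerFun (τ : ℍ) :
    ModularForm.discriminant τ = 𝕢 1 (τ : ℂ) * eulerFun τ ^ 24 := by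
  rw [discriminant_eq_q_prod, eulerFun_apply]
  congr 1
  have hm : Multipliable (fun n : ℕ => (1 - 𝕢 1 (τ : ℂ) ^ (n + 1))) :=
    (ModularForm.multipliableLocallyUniformlyOn_one_sub_pow.multipliable
      (qParam_one_mem_ball τ))
  exact hm.tprod_pow 24

/-- The `q`-expansion of `E₄` is the formal Eisenstein series of the Prelude. -/
theorem qExpansion_E₄ :
    qExpansion 1 E₄ = ModularCurve.eisenstein4.map (Int.castRingHom ℂ) := by
  ext m
  rw [PowerSeries.coeff_map, ModularCurve.eisenstein4, PowerSeries.coeff_mk]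
  have h := E_qExpansion_coeff (k := 4) (by norm_num) ⟨2, rfl⟩ m
  have hE : (qExpansion 1 E₄).coeff m = (qExpansion 1 (E (k := 4) (by norm_num))).coeff m := rfl
  rw [hE, h]
  by_cases hm : m = 0
  · simp [hm]
  · simp only [hm, if_false]
    rw [show bernoulli 4 = -1 / 30 by decide +kernel, ArithmeticFunction.sigma_apply]
    push_cast
    norm_num

theorem analyticAt_E₄ : AnalyticAt ℂ (cuspFunction 1 (E₄ : ℍ → ℂ)) 0 :=
  ModularFormClass.analyticAt_cuspFunction_zero E₄ one_pos one_mem_strictPeriods_SL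

theorem qExpansion_E₄_cube :
    qExpansion 1 (fun τ => E₄ τ ^ 3)
      = (ModularCurve.eisenstein4.map (Int.castRingHom ℂ)) ^ 3 := by
  have h2 : (fun τ : ℍ => E₄ τ ^ 2) = (E₄ : ℍ → ℂ) * (E₄ : ℍ → ℂ) := by
    funext τ
    simp [pow_two]
  have h3 : (fun τ : ℍ => E₄ τ ^ 3) = (fun τ : ℍ => E₄ τ ^ 2) * (E₄ : ℍ → ℂ) := by
    funext τ
    simp [pow_succ]
  have ha2 : AnalyticAt ℂ (cuspFunction 1 (fun τ : ℍ => E₄ τ ^ 2)) 0 := by
    rw [h2, _root_.UpperHalfPlane.cuspFunction_mul analyticAt_E₄.continuousAt analyticAt_E₄.continuousAt]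
    exact analyticAt_E₄.mul analyticAt_E₄
  rw [h3, _root_.UpperHalfPlane.qExpansion_mul ha2 analyticAt_E₄, h2, _root_.UpperHalfPlane.qExpansion_mul analyticAt_E₄ analyticAt_E₄,
    qExpansion_E₄]
  ring

/-- The function `τ ↦ q(τ) * j(τ)`, holomorphic at the cusp. -/
noncomputable def qjFun (τ : ℍ) : ℂ := 𝕢 1 (τ : ℂ) * jFun τ

theorem qjFun_apply (τ : ℍ) : qjFun τ = 𝕢 1 (τ : ℂ) * jFun τ := rfl

theorem qParam_one_ne_zero (z : ℂ) : 𝕢 1 z ≠ 0 := by
  unfold Function.Periodic.qParam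
  exact Complex.exp_ne_zero _

theorem eulerFun_ne_zero (τ : ℍ) : eulerFun τ ≠ 0 := by
  intro h
  have := discriminant_ne_zero τ
  rw [discriminant_eq_q_mul_eulerFun, h] at this
  simp at this

theorem qjFun_mul_eulerFun (τ : ℍ) : qjFun τ * eulerFun τ ^ 24 = E₄ τ ^ 3 := by
  rw [qjFun_apply, ← jFun_mul_discriminant, discriminant_eq_q_mul_eulerFun]
  ring

theorem qjFun_eq (τ : ℍ) : qjFun τ = E₄ τ ^ 3 / eulerFun τ ^ 24 := by
  rw [← qjFun_mul_eulerFun, mul_div_cancel_right₀ _ (pow_ne_zero _ (eulerFun_ne_zero τ))]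

theorem jFun_vadd (τ : ℍ) : jFun ((1 : ℝ) +ᵥ τ) = jFun τ := by
  rw [← UpperHalfPlane.modular_T_smul, jFun_smul]

theorem qjFun_vadd (τ : ℍ) : qjFun ((1 : ℝ) +ᵥ τ) = qjFun τ := by
  rw [qjFun_apply, qjFun_apply, qParam_one_vadd, jFun_vadd]

theorem qjFun_periodic : Periodic (qjFun ∘ ofComplex) ((1 : ℝ) : ℂ) :=
  periodic_comp_ofComplex_of_vadd qjFun_vadd

theorem mdiff_qParam : MDiff (fun τ : ℍ => 𝕢 1 (τ : ℂ)) :=
  ofQ_mdiff (g := fun q => q) differentiableOn_id

theorem qjFun_mdiff : MDiff qjFun :=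
  mdiff_qParam.mul jFun_mdifferentiable

theorem tendsto_eulerFun : Tendsto eulerFun atImInfty (𝓝 1) := by
  have h := ofQ_tendsto ModularForm.differentiableOn_tprod_one_sub_pow
  simpa [eulerFun] using h

theorem E₄_bdd : IsBoundedAtImInfty (fun τ : ℍ => E₄ τ) :=
  ModularFormClass.bdd_at_infty E₄

theorem qjFun_bdd : IsBoundedAtImInfty qjFun := by
  have h1 : IsBoundedAtImInfty (fun τ : ℍ => E₄ τ ^ 3) := by
    have := (E₄_bdd.mul E₄_bdd).mul E₄_bdd
    refine this.congr' ?_ (EventuallyEq.refl _ _)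
    exact Eventually.of_forall fun τ => by simp [pow_succ]
  have h2 : Tendsto (fun τ : ℍ => (eulerFun τ ^ 24)⁻¹) atImInfty (𝓝 1) := by
    have := (tendsto_eulerFun.pow 24).inv₀ (by simp)
    simpa using this
  have h3 : IsBoundedAtImInfty (fun τ : ℍ => (eulerFun τ ^ 24)⁻¹) := h2.isBigO_one ℝ
  have h4 := h1.mul h3
  refine h4.congr' ?_ (EventuallyEq.refl _ _)
  exact Eventually.of_forall fun τ => by
    simp only [Pi.mul_apply]
    rw [qjFun_eq, div_eq_mul_inv]

theorem analyticAt_qjFun : AnalyticAt ℂ (cuspFunction 1 qjFun) 0 :=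
  analyticAt_cuspFunction_zero one_pos qjFun_periodic qjFun_mdiff qjFun_bdd

/-- **Bridge**: the `q`-expansion of `q · j` is the Prelude's formal power series `jNum`. -/
theorem qExpansion_qjFun :
    qExpansion 1 qjFun = ModularCurve.jNum.map (Int.castRingHom ℂ) := by
  have hfun : qjFun * (fun τ => eulerFun τ ^ 24) = fun τ => E₄ τ ^ 3 := by
    funext τ
    exact qjFun_mul_eulerFun τ
  have h1 : qExpansion 1 qjFun * (ModularCurve.etaProd.map (Int.castRingHom ℂ)) ^ 24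
      = (ModularCurve.eisenstein4.map (Int.castRingHom ℂ)) ^ 3 := by
    rw [← qExpansion_eulerFun_pow, ← _root_.UpperHalfPlane.qExpansion_mul analyticAt_qjFun (analyticAt_eulerFun_pow 24),
      hfun, qExpansion_E₄_cube]
  have h2 : ModularCurve.jNum * ModularCurve.etaProd ^ 24 = ModularCurve.eisenstein4 ^ 3 := by
    have h := ModularCurve.dedekindEtaUnit_mul_inv
    rw [ModularCurve.dedekindEtaUnit] at h
    rw [ModularCurve.jNum, mul_assoc, mul_comm ModularCurve.dedekindEtaUnitInv, h, mul_one]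
  have h3 : (ModularCurve.jNum.map (Int.castRingHom ℂ))
      * (ModularCurve.etaProd.map (Int.castRingHom ℂ)) ^ 24
      = (ModularCurve.eisenstein4.map (Int.castRingHom ℂ)) ^ 3 := by
    rw [← map_pow, ← map_pow, ← _root_.map_mul, h2]
  have hne : (ModularCurve.etaProd.map (Int.castRingHom ℂ)) ^ 24 ≠ 0 := by
    apply pow_ne_zero
    intro h0
    have hc := congrArg (PowerSeries.coeff 0) h0
    rw [PowerSeries.coeff_map, PowerSeries.coeff_zero_eq_constantCoeff,
      ModularCurve.constantCoeff_etaProd] at hc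
    simp at hc
  exact mul_right_cancel₀ hne (h1.trans h3.symm)

/-- **Bridge, summation form**: `q · j(τ) = ∑ₙ jNumₙ qⁿ` for every `τ` in the upper half plane. -/
theorem hasSum_qjFun (τ : ℍ) :
    HasSum (fun n : ℕ => ((ModularCurve.jNum.coeff n : ℤ) : ℂ) * 𝕢 1 (τ : ℂ) ^ n)
      (𝕢 1 (τ : ℂ) * jFun τ) := by
  have h := _root_.UpperHalfPlane.hasSum_qExpansion one_pos qjFun_periodic qjFun_mdiff qjFun_bdd τ
  rw [qExpansion_qjFun, qjFun_apply] at h
  simpa [PowerSeries.coeff_map, smul_eq_mul] using h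

end Fermat.Agent.S24.JFun

end
-- ===== PACK-END S24/JFun/QExp.lean

-- ===== PACK-BEGIN S24/FFPoint.lean
section




/-!
# S24 / FF layer: the point of `P^1` below a place, residue degree one

Embedding-free algebraic core (helper804).
-/

set_option autoImplicit false

namespace Fermat.Agent.S24.FF

open AlgebraicCurve Polynomial IntermediateField

variable {K F : Type*} [Field K] [Field F] [Algebra K F]

/-- `ord` of a product of a multiset of nonzero elements with `ord = 0` is `0`. -/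
theorem ord_multiset_prod_eq_zero (v : Place K F) (s : Multiset F)
    (h : ∀ y ∈ s, y ≠ 0 ∧ v.ord y = 0) : s.prod ≠ 0 ∧ v.ord s.prod = 0 := by
  induction s using Multiset.induction_on with
  | empty => simp
  | cons a s ih =>
    have ha := h a (Multiset.mem_cons_self a s)
    have hs := ih (fun y hy => h y (Multiset.mem_cons_of_mem hy))
    rw [Multiset.prod_cons]
    refine ⟨mul_ne_zero ha.1 hs.1, ?_⟩
    rw [v.ord_mul ha.1 hs.1, ha.2, hs.2, add_zero]

/-- If `x` is integral at `v` and no `x - a` vanishes at `v`, every nonzero polynomial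
expression in `x` is a unit at `v`. -/
theorem ord_aeval_eq_zero [IsAlgClosed K] (v : Place K F) (x : F) (hx : 0 ≤ v.ord x)
    (hno : ∀ a : K, ¬ 0 < v.ord (x - algebraMap K F a)) (p : K[X]) (hp : aeval x p ≠ 0) :
    v.ord (aeval x p) = 0 := by
  have hsplit := IsAlgClosed.splits p
  have hp0 : p ≠ 0 := by
    rintro rfl
    simp at hp
  have hprod := hsplit.eq_prod_roots
  have hval : aeval x p = algebraMap K F p.leadingCoeff *
      ((p.roots.map fun a => x - algebraMap K F a)).prod := by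
    conv_lhs => rw [hprod]
    simp [aeval_def, eval₂_mul, Polynomial.eval₂_multiset_prod, Multiset.map_map, Function.comp_def]
  rw [hval] at hp ⊢
  have hc : algebraMap K F p.leadingCoeff ≠ 0 := left_ne_zero_of_mul hp
  have hr : ((p.roots.map fun a => x - algebraMap K F a)).prod ≠ 0 := right_ne_zero_of_mul hp
  have key := ord_multiset_prod_eq_zero v (p.roots.map fun a => x - algebraMap K F a) (by
    intro y hy
    obtain ⟨a, -, rfl⟩ := Multiset.mem_map.mp hy
    have hne : x - algebraMap K F a ≠ 0 := by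
      intro h0
      apply hr
      rw [Multiset.prod_eq_zero_iff]
      exact h0 ▸ hy
    refine ⟨hne, ?_⟩
    have h1 : 0 ≤ v.ord (x - algebraMap K F a) :=
      ord_nonneg_of_mem v (_root_.sub_mem (mem_of_ord_nonneg v hx) (v.algebraMap_mem' a))
    have h2 := hno a
    omega)
  rw [v.ord_mul hc hr, _root_.Fermat.Agent.S24.FF.ord_algebraMap, key.2, add_zero]

/-- **FF4, existence.** If `F` is algebraic over `K(x)` and `x` is integral at the place `v`,
then `v` lies over a finite point `a` of the `x`-line. -/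
theorem exists_ord_sub_pos [IsAlgClosed K] (v : Place K F) (x : F)
    [halg : Algebra.IsAlgebraic K⟮x⟯ F] (hx : 0 ≤ v.ord x) :
    ∃ a : K, 0 < v.ord (x - algebraMap K F a) := by
  by_contra hno
  rw [not_exists] at hno
  apply v.ne_top'
  -- `K(x) ⊆ O_v`
  have hsub : ∀ y ∈ K⟮x⟯, y ∈ v.toValuationSubring := by
    intro y hy
    obtain ⟨r, s, rfl⟩ := (mem_adjoin_simple_iff K y).mp hy
    rcases eq_or_ne (aeval x s) 0 with hs | hs
    · rw [hs, div_zero]; exact _root_.ZeroMemClass.zero_mem _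
    rcases eq_or_ne (aeval x r) 0 with hr | hr
    · rw [hr, zero_div]; exact _root_.ZeroMemClass.zero_mem _
    apply mem_of_ord_nonneg v
    rw [div_eq_mul_inv, v.ord_mul hr (inv_ne_zero hs), v.ord_inv,
      ord_aeval_eq_zero v x hx hno r hr, ord_aeval_eq_zero v x hx hno s hs]
    simp
  -- hence every element of `F` is integral over `O_v`
  let φ : K⟮x⟯ →+* v.toValuationSubring :=
    { toFun := fun y => ⟨y, hsub y y.2⟩
      map_one' := rfl
      map_mul' := fun _ _ => rfl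
      map_zero' := rfl
      map_add' := fun _ _ => rfl }
  refine SetLike.ext fun f => ⟨fun _ => ValuationSubring.mem_top f, fun _ => ?_⟩
  have hint : IsIntegral K⟮x⟯ f := (halg.isAlgebraic f).isIntegral
  have hint' : IsIntegral v.toValuationSubring f := by
    obtain ⟨p, hpm, hp⟩ := hint
    refine ⟨p.map φ, hpm.map φ, ?_⟩
    rw [← hp, Polynomial.eval₂_map]
    rfl
  obtain ⟨y, hy⟩ := IsIntegrallyClosed.isIntegral_iff.mp hint'
  rw [← hy]
  exact y.2

/-- **FF4, uniqueness.** -/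
theorem ord_sub_pos_unique (v : Place K F) (x : F) {a b : K}
    (ha : 0 < v.ord (x - algebraMap K F a)) (hb : 0 < v.ord (x - algebraMap K F b)) : a = b := by
  by_contra hab
  have hne : algebraMap K F (b - a) ≠ 0 := by
    rw [Ne, _root_.map_eq_zero_iff _ (algebraMap K F).injective, sub_eq_zero]
    exact fun h => hab h.symm
  have h0 := _root_.Fermat.Agent.S24.FF.ord_algebraMap v (b - a)
  have hsum : (x - algebraMap K F a) + (-(x - algebraMap K F b)) = algebraMap K F (b - a) := by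
    rw [_root_.map_sub]; ring
  have hxa : x - algebraMap K F a ≠ 0 := by
    intro h; rw [h, v.ord_zero] at ha; exact lt_irrefl _ ha
  have hxb : x - algebraMap K F b ≠ 0 := by
    intro h; rw [h, v.ord_zero] at hb; exact lt_irrefl _ hb
  have hneg : v.ord (-(x - algebraMap K F b)) = v.ord (x - algebraMap K F b) := by
    rw [neg_eq_neg_one_mul, v.ord_mul (neg_ne_zero.mpr one_ne_zero) hxb]
    have : v.ord (-1 : F) = 0 := by
      have := _root_.Fermat.Agent.S24.FF.ord_algebraMap v (-1 : K)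
      simpa using this
    rw [this, zero_add]
  have := ord_add_ge v (f := x - algebraMap K F a) (g := -(x - algebraMap K F b))
    (by rw [hsum]; exact hne)
  rw [hsum, h0, hneg] at this
  have := min_le_iff.mp this
  omega

end Fermat.Agent.S24.FF

end
-- ===== PACK-END S24/FFPoint.lean

-- ===== PACK-BEGIN S24/D5/H108Growth.lean
section


/-!
# D5: growth adapters and uniqueness for the polynomial principle

Mathlib-only (plus `H108Poly`).  Namespace `Fermat.Agent.S24.H108`.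
-/

noncomputable section

open UpperHalfPlane ModularForm SlashInvariantForm SlashInvariantFormClass ModularFormClass
  CuspFormClass MatrixGroups OnePoint Filter EisensteinSeries Asymptotics

open scoped Topology Manifold Real

namespace Fermat.Agent.S24.H108

local notation "Δ" => ModularForm.discriminant

/-! ### Growth of `Δ` at `i∞` -/

lemma discriminant_isBigO_exp :
    (Δ : ℍ → ℂ) =O[atImInfty] fun τ : ℍ => Real.exp (-(2 * π * τ.im)) := by
  have h := CuspFormClass.exp_decay_atImInfty (h := 1) CuspForm.discriminant one_pos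
    one_mem_strictPeriods_SL
  refine h.congr_right fun τ => ?_
  congr 1
  ring

lemma discriminant_pow_isBigO_exp (m : ℕ) :
    (fun τ : ℍ => Δ τ ^ m) =O[atImInfty] fun τ : ℍ => Real.exp (-(2 * π * m * τ.im)) := by
  have h := discriminant_isBigO_exp.pow m
  refine h.congr_right fun τ => ?_
  rw [← Real.exp_nat_mul]
  congr 1
  ring

lemma norm_qParam_one (τ : ℍ) :
    ‖Complex.exp (2 * π * Complex.I * τ)‖ = Real.exp (-(2 * π * τ.im)) := by
  rw [Complex.norm_exp]
  congr 1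
  simp [Complex.mul_re, Complex.mul_im]

lemma discriminant_isBigO_qParam :
    (Δ : ℍ → ℂ) =O[atImInfty] fun τ : ℍ => Complex.exp (2 * π * Complex.I * τ) := by
  refine discriminant_isBigO_exp.trans (IsBigO.of_bound 1 (Eventually.of_forall fun τ => ?_))
  rw [norm_qParam_one, Real.norm_eq_abs, abs_of_pos (Real.exp_pos _), one_mul]

/-! ### Adapters -/

/-- Exponential growth of order `m` implies `f * Δ ^ m` bounded at `i∞`. -/
lemma isBoundedAtImInfty_mul_discriminant_pow_of_exp_growth {f : ℍ → ℂ} {m : ℕ}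
    (hgr : ∃ C A : ℝ, ∀ τ : ℍ, A ≤ τ.im → ‖f τ‖ ≤ C * Real.exp (2 * π * m * τ.im)) :
    IsBoundedAtImInfty (fun τ => f τ * Δ τ ^ m) := by
  obtain ⟨C, A, h⟩ := hgr
  have hf : f =O[atImInfty] fun τ : ℍ => Real.exp (2 * π * m * τ.im) := by
    refine IsBigO.of_bound C ?_
    have hA : ∀ᶠ τ : ℍ in atImInfty, A ≤ τ.im :=
      (Filter.eventually_ge_atTop A).comap UpperHalfPlane.im
    filter_upwards [hA] with τ hτ
    rw [Real.norm_eq_abs, abs_of_pos (Real.exp_pos _)]
    exact h τ hτ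
  have hprod := hf.mul (discriminant_pow_isBigO_exp m)
  rw [IsBoundedAtImInfty, BoundedAtFilter]
  refine hprod.congr_right fun τ => ?_
  rw [← Real.exp_add]
  simp

/-- `f * q ^ m` bounded at `i∞` implies `f * Δ ^ m` bounded at `i∞`. -/
lemma isBoundedAtImInfty_mul_discriminant_pow_of_qParam {f : ℍ → ℂ} {m : ℕ}
    (hbd : IsBoundedAtImInfty (fun τ : ℍ => f τ * Complex.exp (2 * π * Complex.I * τ) ^ m)) :
    IsBoundedAtImInfty (fun τ => f τ * Δ τ ^ m) := by
  rw [IsBoundedAtImInfty, BoundedAtFilter] at hbd ⊢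
  exact ((isBigO_refl f atImInfty).mul (discriminant_isBigO_qParam.pow m)).trans hbd

/-- **D5b.** An `SL(2,ℤ)`-invariant holomorphic function `f : ℍ → ℂ` with
`‖f τ‖ ≤ C * exp (2π m Im τ)` for `Im τ ≥ A` is a polynomial of degree `≤ m` in
`J = E₄³ / Δ`. -/
theorem exists_polynomial_of_invariant_of_exp_growth (f : ℍ → ℂ) (hf : MDiff f)
    (hinv : ∀ (γ : SL(2, ℤ)) (τ : ℍ), f (γ • τ) = f τ) (m : ℕ)
    (hgr : ∃ C A : ℝ, ∀ τ : ℍ, A ≤ τ.im → ‖f τ‖ ≤ C * Real.exp (2 * π * m * τ.im)) :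
    ∃ P : Polynomial ℂ, P.natDegree ≤ m ∧ ∀ τ : ℍ, f τ = P.eval (E₄ τ ^ 3 / Δ τ) :=
  exists_polynomial_of_invariant f hf hinv m
    (isBoundedAtImInfty_mul_discriminant_pow_of_exp_growth hgr)

/-- **D5b'.** Same with the hypothesis `f * q ^ m` bounded at `i∞`, `q = exp (2πiτ)`. -/
theorem exists_polynomial_of_invariant_of_qParam (f : ℍ → ℂ) (hf : MDiff f)
    (hinv : ∀ (γ : SL(2, ℤ)) (τ : ℍ), f (γ • τ) = f τ) (m : ℕ)
    (hbd : IsBoundedAtImInfty (fun τ : ℍ => f τ * Complex.exp (2 * π * Complex.I * τ) ^ m)) :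
    ∃ P : Polynomial ℂ, P.natDegree ≤ m ∧ ∀ τ : ℍ, f τ = P.eval (E₄ τ ^ 3 / Δ τ) :=
  exists_polynomial_of_invariant f hf hinv m
    (isBoundedAtImInfty_mul_discriminant_pow_of_qParam hbd)

end Fermat.Agent.S24.H108

end
end
-- ===== PACK-END S24/D5/H108Growth.lean

-- ===== PACK-BEGIN S37/H340/KronTwist.lean
section


/-!
# S37 / R3-K : twists `q ↦ ζ q` and the product formula (helper340)

* `twHom ℓ ζ hζ : R((q)) →+* R((q))`, `f(q) ↦ f(ζ q)` for `ζ ^ ℓ = 1`
  (coefficientwise `aₙ ↦ ζ ^ (n mod ℓ) aₙ`);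
* `twHom_qExpand` : it fixes `R((q^ℓ))`;
* `kron_map_qExpand_eq_prod` : over a domain with a primitive `ℓ`-th root of unity `ζ`,
  `(kron ℓ f).map V = ∏_{b < ℓ} (Y - f(ζ^b q))`.
-/

set_option autoImplicit false

noncomputable section

namespace Fermat.Agent.S37.H340

open ModularCurve Polynomial Matrix

variable {R : Type*} [CommRing R] (ℓ : ℕ) [NeZero ℓ]

/-- `ζ ^ (k mod ℓ)` for an integer exponent `k`. -/
def zpw (ζ : R) (k : ℤ) : R := ζ ^ (k % (ℓ : ℤ)).toNat

variable {ℓ}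

lemma zpw_natCast {ζ : R} (hζ : ζ ^ ℓ = 1) (n : ℕ) : zpw ℓ ζ (n : ℤ) = ζ ^ n := by
  have hℓ : (ℓ : ℤ) ≠ 0 := by exact_mod_cast NeZero.ne ℓ
  unfold zpw
  have h1 : ((n : ℤ) % (ℓ : ℤ)).toNat = n % ℓ := by
    have : ((n : ℤ) % (ℓ : ℤ)) = ((n % ℓ : ℕ) : ℤ) := by push_cast; rfl
    rw [this, Int.toNat_natCast]
  rw [h1]
  conv_rhs => rw [← Nat.div_add_mod n ℓ, _root_.pow_add, pow_mul, hζ, one_pow, _root_.one_mul]

lemma zpw_add {ζ : R} (hζ : ζ ^ ℓ = 1) (i j : ℤ) :
    zpw ℓ ζ (i + j) = zpw ℓ ζ i * zpw ℓ ζ j := by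
  have hℓ : (0 : ℤ) < ℓ := by exact_mod_cast Nat.pos_of_ne_zero (NeZero.ne ℓ)
  unfold zpw
  rw [← _root_.pow_add]
  have hi0 := Int.emod_nonneg i hℓ.ne'
  have hj0 := Int.emod_nonneg j hℓ.ne'
  have hij0 := Int.emod_nonneg (i + j) hℓ.ne'
  -- (i % ℓ + j % ℓ) and (i+j) % ℓ differ by 0 or ℓ
  have key : ((i % ℓ).toNat + (j % ℓ).toNat) % ℓ = ((i + j) % (ℓ : ℤ)).toNat := by
    have : (((i % ℓ).toNat + (j % ℓ).toNat : ℕ) : ℤ) % ℓ = (i + j) % ℓ := by
      push_cast
      rw [Int.toNat_of_nonneg hi0, Int.toNat_of_nonneg hj0, ← Int.add_emod]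
    have h2 : ((((i % ℓ).toNat + (j % ℓ).toNat) % ℓ : ℕ) : ℤ) = (i + j) % ℓ := by
      rw [← this]; push_cast; rfl
    have := congrArg Int.toNat h2
    rwa [Int.toNat_natCast] at this
  rw [← key]
  conv_rhs => rw [← Nat.div_add_mod ((i % ℓ).toNat + (j % ℓ).toNat) ℓ, _root_.pow_add, pow_mul,
    hζ, one_pow, _root_.one_mul]

omit [NeZero ℓ] in
lemma zpw_mul_left {ζ : R} (n : ℤ) : zpw ℓ ζ ((ℓ : ℤ) * n) = 1 := by
  unfold zpw
  simp

omit [NeZero ℓ] in
lemma zpw_zero {ζ : R} : zpw ℓ ζ 0 = 1 := by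
  unfold zpw
  simp

variable (ℓ)

/-- The twist `f(q) ↦ f(ζ q)` as a function (needs `ζ ^ ℓ = 1` only for good properties). -/
def tw (ζ : R) (f : LaurentSeries R) : LaurentSeries R :=
  HahnSeries.ofSuppBddBelow (fun n : ℤ => zpw ℓ ζ n * f.coeff n) <| by
    obtain ⟨b, hb⟩ := exists_coeff_eq_zero_of_lt f
    refine ⟨b, fun m hm => ?_⟩
    by_contra hlt
    rw [not_le] at hlt
    exact hm (by simp [hb m hlt])

omit [NeZero ℓ] in
@[simp]
lemma tw_coeff (ζ : R) (f : LaurentSeries R) (n : ℤ) :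
    (tw ℓ ζ f).coeff n = zpw ℓ ζ n * f.coeff n := by
  simp [tw]

omit [NeZero ℓ] in
lemma tw_support_subset (ζ : R) (f : LaurentSeries R) : (tw ℓ ζ f).support ⊆ f.support := by
  intro n hn
  rw [HahnSeries.mem_support] at hn ⊢
  intro h
  exact hn (by simp [h])

variable {ℓ}

omit [NeZero ℓ] in
lemma coeff_mul_of_subsets {x y : LaurentSeries R} {s t : Set ℤ} (hs : s.IsPWO) (ht : t.IsPWO)
    (hxs : x.support ⊆ s) (hyt : y.support ⊆ t) (a : ℤ) :
    (x * y).coeff a = ∑ ij ∈ Finset.antidiagonal hs ht a, x.coeff ij.1 * y.coeff ij.2 := by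
  rw [HahnSeries.coeff_mul_left' hs hxs]
  refine Finset.sum_subset (Finset.antidiagonal_mono_right hyt) fun ij hij hnot => ?_
  have h1 := Finset.mem_antidiagonal.mp hij
  have h2 : ij.2 ∉ y.support := fun h => hnot (Finset.mem_antidiagonal.mpr ⟨h1.1, h, h1.2.2⟩)
  rw [HahnSeries.mem_support, not_not] at h2
  rw [h2, _root_.MulZeroClass.mul_zero]

lemma tw_mul {ζ : R} (hζ : ζ ^ ℓ = 1) (f g : LaurentSeries R) :
    tw ℓ ζ (f * g) = tw ℓ ζ f * tw ℓ ζ g := by
  ext a
  rw [tw_coeff, HahnSeries.coeff_mul,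
    coeff_mul_of_subsets f.isPWO_support g.isPWO_support (tw_support_subset ℓ ζ f)
      (tw_support_subset ℓ ζ g), Finset.mul_sum]
  refine Finset.sum_congr rfl fun ij hij => ?_
  have hsum : ij.1 + ij.2 = a := (Finset.mem_antidiagonal.mp hij).2.2
  rw [tw_coeff, tw_coeff, ← hsum, zpw_add hζ]
  ring

variable (ℓ) in
/-- The twist `f(q) ↦ f(ζ q)` as a ring homomorphism. -/
def twHom (ζ : R) (hζ : ζ ^ ℓ = 1) : LaurentSeries R →+* LaurentSeries R where
  toFun := tw ℓ ζ
  map_one' := by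
    ext n
    rw [tw_coeff, HahnSeries.coeff_one]
    split_ifs with h
    · subst h; simp [zpw_zero]
    · simp
  map_mul' := tw_mul hζ
  map_zero' := by ext n; simp
  map_add' f g := by ext n; simp [_root_.mul_add]

@[simp]
lemma twHom_apply {ζ : R} (hζ : ζ ^ ℓ = 1) (f : LaurentSeries R) :
    twHom ℓ ζ hζ f = tw ℓ ζ f := rfl

lemma twHom_coeff {ζ : R} (hζ : ζ ^ ℓ = 1) (f : LaurentSeries R) (n : ℤ) :
    (twHom ℓ ζ hζ f).coeff n = zpw ℓ ζ n * f.coeff n := tw_coeff ℓ ζ f n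

/-- The twist fixes `R((q^ℓ))`. -/
lemma tw_qExpand (ζ : R) (g : LaurentSeries R) :
    tw ℓ ζ (qExpand R ℓ g) = qExpand R ℓ g := by
  ext n
  rw [tw_coeff]
  by_cases h : (ℓ : ℤ) ∣ n
  · obtain ⟨m, rfl⟩ := h
    rw [zpw_mul_left, _root_.one_mul]
  · rw [qExpand_coeff_of_not_dvd ℓ g h, _root_.MulZeroClass.mul_zero]

lemma tw_qq_pow {ζ : R} (hζ : ζ ^ ℓ = 1) (n : ℕ) :
    tw ℓ ζ ((qq : LaurentSeries R) ^ n) = HahnSeries.C (ζ ^ n) * (qq : LaurentSeries R) ^ n := by
  ext k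
  rw [tw_coeff, qq_pow, HahnSeries.C_mul_eq_smul, HahnSeries.coeff_smul, HahnSeries.coeff_single]
  split_ifs with h
  · subst h; rw [zpw_natCast hζ]; simp
  · simp

omit [NeZero ℓ] in
/-- `tw` by a power of `ζ`. -/
lemma pow_pow_eq_one {ζ : R} (hζ : ζ ^ ℓ = 1) (b : ℕ) : (ζ ^ b) ^ ℓ = 1 := by
  rw [← pow_mul, mul_comm, pow_mul, hζ, one_pow]

/-- If `P * M = D * P` with `det P ≠ 0` over a domain, then `M` and `D` have the same
characteristic polynomial. -/
lemma charpoly_eq_of_intertwine {S : Type*} [CommRing S] [IsDomain S] {n : Type*} [Fintype n]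
    [DecidableEq n] (P M D : Matrix n n S) (hPM : P * M = D * P) (hdet : P.det ≠ 0) :
    M.charpoly = D.charpoly := by
  have hscal : (P.map C) * Matrix.scalar n (X : S[X]) = Matrix.scalar n (X : S[X]) * (P.map C) :=
    ((Matrix.scalar_commute (X : S[X]) (fun r' => Commute.all _ _)) (P.map C)).eq.symm
  have hmap : (P.map C) * (M.map C) = (D.map C) * (P.map (C : S →+* S[X])) := by
    rw [← Matrix.map_mul, ← Matrix.map_mul, hPM]
  have hchar : (P.map C) * charmatrix M = charmatrix D * (P.map C) := by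
    rw [charmatrix, charmatrix, Matrix.mul_sub, Matrix.sub_mul, hscal]
    congr 1
  have hdets := congrArg Matrix.det hchar
  rw [Matrix.det_mul, Matrix.det_mul] at hdets
  have hPC : (P.map (C : S →+* S[X])).det ≠ 0 := by
    have : (P.map (C : S →+* S[X])).det = C P.det := by
      rw [← RingHom.mapMatrix_apply, ← RingHom.map_det]
    rw [this]
    exact (_root_.map_ne_zero_iff _ C_injective).mpr hdet
  rw [mul_comm (charmatrix D).det] at hdets
  exact mul_left_cancel₀ hPC hdets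

/-- the nodes `ζ^b q` -/
def node (ζ : R) (b : Fin ℓ) : LaurentSeries R :=
  HahnSeries.C (ζ ^ (b : ℕ)) * (qq : LaurentSeries R)

lemma vandermonde_mul_kronMat {ζ : R} (hζ : ζ ^ ℓ = 1) (f : LaurentSeries R) :
    Matrix.vandermonde (node (ℓ := ℓ) ζ) * (kronMat ℓ f).map (qExpand R ℓ) =
      Matrix.diagonal (fun b : Fin ℓ => tw ℓ (ζ ^ (b : ℕ)) f) * Matrix.vandermonde (node ζ) := by
  ext b j
  rw [Matrix.mul_apply, Matrix.diagonal_mul]
  simp only [Matrix.vandermonde_apply, Matrix.map_apply, node]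
  have hb : (ζ ^ (b : ℕ)) ^ ℓ = 1 := pow_pow_eq_one hζ b
  have h1 := congrArg (tw ℓ (ζ ^ (b : ℕ))) (qq_pow_mul_eq_sum ℓ f j)
  rw [tw_mul hb, tw_qq_pow hb] at h1
  have h2 : tw ℓ (ζ ^ (b : ℕ))
      (∑ i : Fin ℓ, (qq : LaurentSeries R) ^ (i : ℕ) * qExpand R ℓ (kronMat ℓ f i j)) =
      ∑ i : Fin ℓ, (HahnSeries.C ((ζ ^ (b : ℕ)) ^ (i : ℕ)) * (qq : LaurentSeries R) ^ (i : ℕ))
        * qExpand R ℓ (kronMat ℓ f i j) := by
    rw [← twHom_apply hb, _root_.map_sum]
    refine Finset.sum_congr rfl fun i _ => ?_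
    rw [_root_.map_mul, twHom_apply, twHom_apply, tw_qq_pow hb, tw_qExpand]
  rw [h2] at h1
  simp only [mul_pow, ← _root_.map_pow]
  rw [← h1]
  ring_nf

omit [NeZero ℓ] in
lemma node_injective [IsDomain R] {ζ : R} (hζ : IsPrimitiveRoot ζ ℓ) :
    Function.Injective (node (ℓ := ℓ) ζ) := by
  intro b b' hbb'
  have hq : (qq : LaurentSeries R) ≠ 0 := by
    rw [qq]; exact HahnSeries.single_ne_zero one_ne_zero
  have h1 : HahnSeries.C (ζ ^ (b : ℕ)) = (HahnSeries.C (ζ ^ (b' : ℕ)) : LaurentSeries R) :=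
    mul_right_cancel₀ hq hbb'
  have h2 : ζ ^ (b : ℕ) = ζ ^ (b' : ℕ) := HahnSeries.C_injective h1
  exact Fin.ext (hζ.pow_inj b.2 b'.2 h2)

/-- **Product formula**: over a domain containing a primitive `ℓ`-th root of unity `ζ`, the
Kronecker polynomial (with coefficients pushed to `R((q^ℓ))`) is `∏_b (Y - f(ζ^b q))`. -/
theorem kron_map_qExpand_eq_prod [IsDomain R] {ζ : R} (hζ : IsPrimitiveRoot ζ ℓ)
    (f : LaurentSeries R) :
    (kron ℓ f).map (qExpand R ℓ) =
      ∏ b : Fin ℓ, (X - Polynomial.C (tw ℓ (ζ ^ (b : ℕ)) f)) := by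
  classical
  rw [kron, ← Matrix.charpoly_map,
    charpoly_eq_of_intertwine _ _ _ (vandermonde_mul_kronMat hζ.pow_eq_one f)
      (Matrix.det_vandermonde_ne_zero_iff.mpr (node_injective hζ)),
    Matrix.charpoly_diagonal]

end Fermat.Agent.S37.H340

end
end
-- ===== PACK-END S37/H340/KronTwist.lean

-- ===== PACK-BEGIN S28/H685/QLaurent.lean
section



/-!
# S28 helper (helper685): convergent Laurent `q`-series

`HasQLaurent h f φ` : the function `f : ℍ → ℂ` is, at every point `τ`, the sum of the Laurent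
series `φ` evaluated at `q = exp (2 π i τ / h)`.
-/

set_option autoImplicit false

namespace Fermat.Agent.S28.H685

open UpperHalfPlane Function Complex Filter HahnSeries
open scoped Topology Manifold

noncomputable section

local notation "𝕢" => Periodic.qParam

/-- `f` is the sum of the Laurent series `φ` in the parameter `q = exp (2 π i τ / h)`. -/
def HasQLaurent (h : ℝ) (f : ℍ → ℂ) (φ : LaurentSeries ℂ) : Prop :=
  ∀ τ : ℍ, HasSum (fun n : ℤ => φ.coeff n * 𝕢 h τ ^ n) (f τ)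

theorem ofPS_coeff_of_neg (A : PowerSeries ℂ) {k : ℤ} (hk : k < 0) :
    (HahnSeries.ofPowerSeries ℤ ℂ A).coeff k = 0 := by
  rw [HahnSeries.ofPowerSeries_apply]
  refine HahnSeries.embDomain_of_notMem_range ?_
  rintro ⟨m, rfl⟩
  exact absurd hk (not_lt.mpr (Int.natCast_nonneg m))

theorem coeff_single_mul_ofPS (k : ℤ) (A : PowerSeries ℂ) (m : ℕ) :
    (HahnSeries.single k (1 : ℂ) * HahnSeries.ofPowerSeries ℤ ℂ A).coeff (m + k) =
      PowerSeries.coeff m A := by
  rw [HahnSeries.coeff_single_mul, one_mul, add_sub_cancel_right,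
    HahnSeries.ofPowerSeries_apply_coeff]

theorem coeff_single_mul_ofPS_of_lt (k : ℤ) (A : PowerSeries ℂ) {n : ℤ} (hn : n < k) :
    (HahnSeries.single k (1 : ℂ) * HahnSeries.ofPowerSeries ℤ ℂ A).coeff n = 0 := by
  rw [HahnSeries.coeff_single_mul, one_mul]
  exact ofPS_coeff_of_neg A (by omega)

/-- The basic shift lemma relating Laurent expansions and power series expansions. -/
theorem hasQLaurent_single_mul_iff (h : ℝ) (f : ℍ → ℂ) (k : ℤ) (A : PowerSeries ℂ) :
    HasQLaurent h f (HahnSeries.single k (1 : ℂ) * HahnSeries.ofPowerSeries ℤ ℂ A) ↔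
      HasQExp h (fun τ => f τ * 𝕢 h τ ^ (-k)) A := by
  have hg : Function.Injective (fun m : ℕ => (m : ℤ) + k) := by
    intro a b hab
    simpa using hab
  refine forall_congr' fun τ => ?_
  have hq : 𝕢 h τ ≠ 0 := Periodic.qParam_ne_zero _
  set φ := HahnSeries.single k (1 : ℂ) * HahnSeries.ofPowerSeries ℤ ℂ A with hφ
  have h0 : ∀ n ∉ Set.range (fun m : ℕ => (m : ℤ) + k), φ.coeff n * 𝕢 h τ ^ n = 0 := by
    intro n hn
    have hlt : n < k := by
      by_contra hge
      rw [not_lt] at hge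
      exact hn ⟨(n - k).toNat, by simp; omega⟩
    rw [hφ, coeff_single_mul_ofPS_of_lt k A hlt, zero_mul]
  rw [← hg.hasSum_iff h0]
  have hfun : ((fun n : ℤ => φ.coeff n * 𝕢 h τ ^ n) ∘ fun m : ℕ => (m : ℤ) + k) =
      fun m : ℕ => (PowerSeries.coeff m A * 𝕢 h τ ^ m) * 𝕢 h τ ^ k := by
    funext m
    simp only [Function.comp_apply, hφ, coeff_single_mul_ofPS]
    rw [zpow_add₀ hq, zpow_natCast]
    ring
  rw [hfun]
  have hk : 𝕢 h τ ^ k ≠ 0 := zpow_ne_zero _ hq
  have hval : f τ = (f τ * 𝕢 h τ ^ (-k)) * 𝕢 h τ ^ k := by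
    rw [mul_assoc, ← zpow_add₀ hq]
    simp
  conv_lhs => rw [hval]
  exact hasSum_mul_right_iff hk

theorem algebraMap_eq_C (c : ℂ) :
    algebraMap ℂ (LaurentSeries ℂ) c = HahnSeries.C c := by
  have h1 : algebraMap ℂ (PowerSeries ℂ) c = PowerSeries.C c := by
    simp
  rw [HahnSeries.algebraMap_apply', h1, HahnSeries.ofPowerSeries_C]

/-- Every Laurent series is a monomial times a power series. -/
theorem laurent_decomp (φ : LaurentSeries ℂ) :
    φ = HahnSeries.single φ.order (1 : ℂ) * HahnSeries.ofPowerSeries ℤ ℂ φ.powerSeriesPart :=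
  (LaurentSeries.single_order_mul_powerSeriesPart φ).symm

namespace HasQLaurent

variable {h : ℝ} {f g : ℍ → ℂ} {φ ψ : LaurentSeries ℂ}

theorem congr_fun (hf : HasQLaurent h f φ) (hfg : ∀ τ, f τ = g τ) : HasQLaurent h g φ :=
  fun τ => hfg τ ▸ hf τ

theorem congr_series (hf : HasQLaurent h f φ) (hφ : φ = ψ) : HasQLaurent h f ψ := hφ ▸ hf

theorem zero : HasQLaurent h (fun _ => 0) 0 := fun τ => by
  simp [hasSum_zero]

theorem add (hf : HasQLaurent h f φ) (hg : HasQLaurent h g ψ) :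
    HasQLaurent h (fun τ => f τ + g τ) (φ + ψ) := fun τ => by
  simpa [add_mul] using (hf τ).add (hg τ)

theorem neg (hf : HasQLaurent h f φ) : HasQLaurent h (fun τ => -f τ) (-φ) := fun τ => by
  simpa using (hf τ).neg

theorem sub (hf : HasQLaurent h f φ) (hg : HasQLaurent h g ψ) :
    HasQLaurent h (fun τ => f τ - g τ) (φ - ψ) := fun τ => by
  simpa [sub_mul] using (hf τ).sub (hg τ)

theorem const_mul (c : ℂ) (hf : HasQLaurent h f φ) :
    HasQLaurent h (fun τ => c * f τ) (HahnSeries.C c * φ) := fun τ => by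
  simpa [mul_assoc] using (hf τ).mul_left c

/-- Power series expansions are Laurent expansions. -/
theorem of_hasQExp {A : PowerSeries ℂ} (hf : HasQExp h f A) :
    HasQLaurent h f (HahnSeries.ofPowerSeries ℤ ℂ A) := by
  have := (hasQLaurent_single_mul_iff h f 0 A).mpr (by simpa using hf)
  simpa using this

theorem hasQExp_of_ofPowerSeries {A : PowerSeries ℂ}
    (hf : HasQLaurent h f (HahnSeries.ofPowerSeries ℤ ℂ A)) : HasQExp h f A := by
  have h1 : HasQLaurent h f (HahnSeries.single 0 (1 : ℂ) * HahnSeries.ofPowerSeries ℤ ℂ A) := by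
    simpa using hf
  simpa using (hasQLaurent_single_mul_iff h f 0 A).mp h1

theorem const (c : ℂ) : HasQLaurent h (fun _ => c) (HahnSeries.C c) := by
  have := of_hasQExp (HasQExp.const (h := h) c)
  simpa using this

theorem one : HasQLaurent h (fun _ => 1) 1 := by
  have := of_hasQExp (HasQExp.one (h := h))
  simpa using this

/-- The monomial `q ^ k`. -/
theorem single (k : ℤ) : HasQLaurent h (fun τ => 𝕢 h τ ^ k) (HahnSeries.single k (1 : ℂ)) := by
  have h1 : HasQExp h (fun τ => 𝕢 h τ ^ k * 𝕢 h τ ^ (-k)) 1 := by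
    refine HasQExp.one.congr_fun fun τ => ?_
    rw [← zpow_add₀ (Periodic.qParam_ne_zero _)]
    simp
  have := (hasQLaurent_single_mul_iff h _ k 1).mpr h1
  simpa using this

/-- The power series part of a Laurent expansion. -/
theorem hasQExp_powerSeriesPart (hf : HasQLaurent h f φ) :
    HasQExp h (fun τ => f τ * 𝕢 h τ ^ (-φ.order)) φ.powerSeriesPart :=
  (hasQLaurent_single_mul_iff h f φ.order φ.powerSeriesPart).mp
    (hf.congr_series (laurent_decomp φ))

theorem mul (hf : HasQLaurent h f φ) (hg : HasQLaurent h g ψ) :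
    HasQLaurent h (fun τ => f τ * g τ) (φ * ψ) := by
  have h1 := hf.hasQExp_powerSeriesPart
  have h2 := hg.hasQExp_powerSeriesPart
  have h3 := h1.mul h2
  have h4 : HasQExp h (fun τ => (f τ * g τ) * 𝕢 h τ ^ (-(φ.order + ψ.order)))
      (φ.powerSeriesPart * ψ.powerSeriesPart) := by
    refine h3.congr_fun fun τ => ?_
    rw [neg_add, zpow_add₀ (Periodic.qParam_ne_zero _)]
    ring
  have h5 := (hasQLaurent_single_mul_iff h _ (φ.order + ψ.order) _).mpr h4
  refine h5.congr_series ?_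
  conv_rhs => rw [laurent_decomp φ, laurent_decomp ψ]
  have hs : HahnSeries.single (φ.order + ψ.order) (1 : ℂ) =
      HahnSeries.single φ.order (1 : ℂ) * HahnSeries.single ψ.order (1 : ℂ) := by
    rw [HahnSeries.single_mul_single, one_mul]
  rw [_root_.map_mul, hs]
  exact mul_mul_mul_comm _ _ _ _

theorem pow (hf : HasQLaurent h f φ) (n : ℕ) : HasQLaurent h (fun τ => f τ ^ n) (φ ^ n) := by
  induction n with
  | zero => simpa using one (h := h)
  | succ n ih => simpa [pow_succ] using ih.mul hf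

theorem finset_sum {ι : Type*} (s : Finset ι) (F : ι → ℍ → ℂ) (P : ι → LaurentSeries ℂ)
    (hF : ∀ i ∈ s, HasQLaurent h (F i) (P i)) :
    HasQLaurent h (fun τ => ∑ i ∈ s, F i τ) (∑ i ∈ s, P i) := by
  classical
  induction s using Finset.induction_on with
  | empty => simpa using zero (h := h)
  | insert a s ha ih =>
    simp only [Finset.sum_insert ha]
    exact (hF a (Finset.mem_insert_self a s)).add
      (ih fun i hi => hF i (Finset.mem_insert_of_mem hi))

theorem finset_prod {ι : Type*} (s : Finset ι) (F : ι → ℍ → ℂ) (P : ι → LaurentSeries ℂ)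
    (hF : ∀ i ∈ s, HasQLaurent h (F i) (P i)) :
    HasQLaurent h (fun τ => ∏ i ∈ s, F i τ) (∏ i ∈ s, P i) := by
  classical
  induction s using Finset.induction_on with
  | empty => simpa using one (h := h)
  | insert a s ha ih =>
    simp only [Finset.prod_insert ha]
    exact (hF a (Finset.mem_insert_self a s)).mul
      (ih fun i hi => hF i (Finset.mem_insert_of_mem hi))

/-- Uniqueness of the Laurent coefficients. -/
theorem eq_zero (hh : 0 < h) (hf : HasQLaurent h (fun _ => 0) φ) : φ = 0 := by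
  have h1 := hf.hasQExp_powerSeriesPart
  have h2 : φ.powerSeriesPart = 0 := by
    refine HasQExp.eq_zero hh (h1.congr_fun fun τ => ?_)
    simp
  exact (LaurentSeries.powerSeriesPart_eq_zero φ).mp h2

theorem unique (hh : 0 < h) (hf : HasQLaurent h f φ) (hg : HasQLaurent h f ψ) : φ = ψ := by
  have h1 : HasQLaurent h (fun _ => 0) (φ - ψ) :=
    (hf.sub hg).congr_fun fun τ => sub_self _
  exact sub_eq_zero.mp (h1.eq_zero hh)

/-- If the function vanishes identically then so does the series; pointwise version. -/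
theorem eq_of_forall_eq (hh : 0 < h) (hf : HasQLaurent h f φ) (hg : HasQLaurent h g ψ)
    (hfg : ∀ τ, f τ = g τ) : φ = ψ :=
  (hf.congr_fun hfg).unique hh hg

theorem mdifferentiable (hh : 0 < h) (hf : HasQLaurent h f φ) : MDiff f := by
  have h1 := (hf.hasQExp_powerSeriesPart).mdifferentiable hh
  have h2 : MDiff (fun τ : ℍ => 𝕢 h τ ^ φ.order) := by
    rw [UpperHalfPlane.mdifferentiable_iff]
    have hd : DifferentiableOn ℂ (fun z : ℂ => 𝕢 h z ^ φ.order) {z | 0 < z.im} := by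
      intro z _
      exact ((Periodic.differentiable_qParam (h := h)).differentiableAt.zpow
        (Or.inl (Periodic.qParam_ne_zero _))).differentiableWithinAt
    refine hd.congr fun z hz => ?_
    simp only [Function.comp_apply]
    rw [ofComplex_apply_of_im_pos hz]
  have h3 : f = fun τ => (f τ * 𝕢 h τ ^ (-φ.order)) * 𝕢 h τ ^ φ.order := by
    funext τ
    rw [mul_assoc, ← zpow_add₀ (Periodic.qParam_ne_zero _)]
    simp
  rw [h3]
  exact h1.mul h2

theorem vadd_period (hh : 0 < h) (hf : HasQLaurent h f φ) (τ : ℍ) (τ' : ℍ)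
    (hτ : (τ' : ℂ) = τ + h) : f τ' = f τ := by
  have h1 := (hf.hasQExp_powerSeriesPart).vadd_period hh τ τ' hτ
  have h2 := (HasQExp.X (h := h)).vadd_period hh τ τ' hτ
  beta_reduce at h1 h2
  rw [h2] at h1
  exact mul_right_cancel₀ (zpow_ne_zero _ (Periodic.qParam_ne_zero _)) h1

/-- Closure under inverses. -/
theorem inv (hh : 0 < h) (hf : HasQLaurent h f φ) (hf0 : ∀ τ, f τ ≠ 0) (hφ : φ ≠ 0) :
    HasQLaurent h (fun τ => (f τ)⁻¹) φ⁻¹ := by
  have h1 := hf.hasQExp_powerSeriesPart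
  have hA0 : PowerSeries.coeff 0 φ.powerSeriesPart ≠ 0 := by
    rw [LaurentSeries.powerSeriesPart_coeff]
    simpa using (HahnSeries.coeff_order_eq_zero (x := φ)).not.mpr hφ
  have h2 := h1.inv hh (fun τ => mul_ne_zero (hf0 τ)
    (zpow_ne_zero _ (Periodic.qParam_ne_zero _))) hA0
  have h3 : HasQExp h (fun τ => (f τ)⁻¹ * 𝕢 h τ ^ (-(-φ.order))) (φ.powerSeriesPart)⁻¹ := by
    refine h2.congr_fun fun τ => ?_
    rw [mul_inv, ← zpow_neg]
  have h4 := (hasQLaurent_single_mul_iff h _ (-φ.order) _).mpr h3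
  refine h4.congr_series ?_
  have hA0' : PowerSeries.constantCoeff φ.powerSeriesPart ≠ 0 := by
    rwa [← PowerSeries.coeff_zero_eq_constantCoeff]
  symm
  apply inv_eq_of_mul_eq_one_left
  have hs : HahnSeries.single (-φ.order) (1 : ℂ) * HahnSeries.single φ.order (1 : ℂ) = 1 := by
    rw [HahnSeries.single_mul_single, one_mul, neg_add_cancel]
    rfl
  calc HahnSeries.single (-φ.order) (1 : ℂ) * HahnSeries.ofPowerSeries ℤ ℂ (φ.powerSeriesPart)⁻¹ * φ
      = HahnSeries.single (-φ.order) (1 : ℂ) * HahnSeries.ofPowerSeries ℤ ℂ (φ.powerSeriesPart)⁻¹ *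
        (HahnSeries.single φ.order (1 : ℂ) * HahnSeries.ofPowerSeries ℤ ℂ φ.powerSeriesPart) := by
        rw [← laurent_decomp φ]
    _ = (HahnSeries.single (-φ.order) (1 : ℂ) * HahnSeries.single φ.order (1 : ℂ)) *
        HahnSeries.ofPowerSeries ℤ ℂ ((φ.powerSeriesPart)⁻¹ * φ.powerSeriesPart) := by
        rw [_root_.map_mul]
        exact mul_mul_mul_comm _ _ _ _
    _ = 1 := by
        rw [hs, PowerSeries.inv_mul_cancel _ hA0', _root_.map_one, one_mul]

theorem div (hh : 0 < h) (hf : HasQLaurent h f φ) (hg : HasQLaurent h g ψ)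
    (hg0 : ∀ τ, g τ ≠ 0) (hψ : ψ ≠ 0) :
    HasQLaurent h (fun τ => f τ / g τ) (φ / ψ) := by
  simpa [div_eq_mul_inv] using hf.mul (hg.inv hh hg0 hψ)

/-- Evaluation of polynomials. -/
theorem aeval (hf : HasQLaurent h f φ) (P : Polynomial ℂ) :
    HasQLaurent h (fun τ => P.eval (f τ)) (Polynomial.aeval φ P) := by
  induction P using Polynomial.induction_on' with
  | add p q hp hq =>
    simpa using hp.add hq
  | monomial n a =>
    have := (hf.pow n).const_mul a
    refine (this.congr_fun fun τ => ?_).congr_series ?_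
    · simp
    · rw [Polynomial.aeval_monomial, algebraMap_eq_C]

/-- Evaluation of multivariate polynomials. -/
theorem mvAeval {σ : Type*} (F : σ → ℍ → ℂ) (Φ : σ → LaurentSeries ℂ)
    (hF : ∀ i, HasQLaurent h (F i) (Φ i)) (P : MvPolynomial σ ℂ) :
    HasQLaurent h (fun τ => MvPolynomial.eval (fun i => F i τ) P) (MvPolynomial.aeval Φ P) := by
  induction P using MvPolynomial.induction_on with
  | C a =>
    have := (one (h := h)).const_mul a
    refine (this.congr_fun fun τ => ?_).congr_series ?_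
    · simp
    · rw [MvPolynomial.aeval_C, algebraMap_eq_C, mul_one]
  | add p q hp hq =>
    simpa using hp.add hq
  | mul_X p i hp =>
    simpa using hp.mul (hF i)

end HasQLaurent

end

end Fermat.Agent.S28.H685

end
-- ===== PACK-END S28/H685/QLaurent.lean

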