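import Mathlib
import Fermat.Prelude.Def_ModularCurve_LaurentCoeff
import Fermat.Prelude.Def_ModularCurve_X0
import Fermat.Prelude.Def_AlgebraicCurve_DivisorClassGroup
import Fermat.Prelude.Def_ModularCurve_IgusaScheme
import Fermat.Prelude.Def_ModularCurve_X0ModL
import Mathlib.Analysis.Complex.BranchLogRoot
import Mathlib.Analysis.Meromorphic.FactorizedRational
import Mathlib.Analysis.SpecialFunctions.Complex.Analytic
import Mathlib.Analysis.Convex.Contractible
import Mathlib.RingTheory.Polynomial.Cyclotomic.Roots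

-- ===== PACK-BEGIN S29/H332/WeightedEis.lean
section


/-!
# Weighted Eisenstein series

For a bounded weight function `c : (Fin 2 → ℤ) → ℂ` and `k ≥ 3` we study
`wEis c k z = ∑' v, c v * (v 0 * z + v 1) ^ (-k)`.
-/

open UpperHalfPlane EisensteinSeries ModularForm Filter Topology
open scoped Matrix
open scoped MatrixGroups Manifold

noncomputable section

namespace Fermat.Agent.S29.H332

/-- The weighted Eisenstein series. -/
def wEis (c : (Fin 2 → ℤ) → ℂ) (k : ℤ) (z : ℍ) : ℂ :=
  ∑' v : Fin 2 → ℤ, c v * eisSummand k v z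

theorem norm_wsummand_le {c : (Fin 2 → ℤ) → ℂ} (hc : ∀ v, ‖c v‖ ≤ 1) (k : ℤ) (v : Fin 2 → ℤ)
    (z : ℍ) : ‖c v * eisSummand k v z‖ ≤ ‖eisSummand k v z‖ := by
  rw [norm_mul]
  exact mul_le_of_le_one_left (norm_nonneg _) (hc v)

theorem summable_norm_wEis {c : (Fin 2 → ℤ) → ℂ} (hc : ∀ v, ‖c v‖ ≤ 1) {k : ℤ} (hk : 3 ≤ k)
    (z : ℍ) : Summable fun v : Fin 2 → ℤ => ‖c v * eisSummand k v z‖ :=
  (summable_norm_eisSummand hk z).of_nonneg_of_le (fun _ => norm_nonneg _)
    (fun v => norm_wsummand_le hc k v z)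

theorem summable_wEis {c : (Fin 2 → ℤ) → ℂ} (hc : ∀ v, ‖c v‖ ≤ 1) {k : ℤ} (hk : 3 ≤ k)
    (z : ℍ) : Summable fun v : Fin 2 → ℤ => c v * eisSummand k v z :=
  (summable_norm_wEis hc hk z).of_norm

/-- right multiplication by `γ` as a permutation of `ℤ²`. -/
def vecMulEquiv (γ : SL(2, ℤ)) : (Fin 2 → ℤ) ≃ (Fin 2 → ℤ) where
  toFun v := v ᵥ* γ.1
  invFun v := v ᵥ* (γ⁻¹).1
  left_inv v := by
    simp only [Matrix.vecMul_vecMul]
    rw [← Matrix.SpecialLinearGroup.coe_mul, mul_inv_cancel, Matrix.SpecialLinearGroup.coe_one,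
      Matrix.vecMul_one]
  right_inv v := by
    simp only [Matrix.vecMul_vecMul]
    rw [← Matrix.SpecialLinearGroup.coe_mul, inv_mul_cancel, Matrix.SpecialLinearGroup.coe_one,
      Matrix.vecMul_one]

/-- Slashing a weighted Eisenstein series transforms the weight. -/
theorem wEis_slash (c : (Fin 2 → ℤ) → ℂ) (k : ℤ) (γ : SL(2, ℤ)) :
    wEis c k ∣[k] γ = wEis (fun v => c (v ᵥ* (γ⁻¹).1)) k := by
  ext1 z
  simp_rw [SL_slash_apply, _root_.zpow_neg,
    mul_inv_eq_iff_eq_mul₀ (zpow_ne_zero _ <| denom_ne_zero _ z), wEis]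
  rw [← tsum_mul_right]
  conv_rhs => rw [← (vecMulEquiv γ).tsum_eq]
  congr 1
  funext v
  simp only [vecMulEquiv, Equiv.coe_fn_mk]
  rw [Matrix.vecMul_vecMul, ← Matrix.SpecialLinearGroup.coe_mul, mul_inv_cancel,
    Matrix.SpecialLinearGroup.coe_one, Matrix.vecMul_one, eisSummand_SL2_apply]
  simp only [denom]
  ring_nf


theorem wEis_tendstoLocallyUniformly {c : (Fin 2 → ℤ) → ℂ} (hc : ∀ v, ‖c v‖ ≤ 1) {k : ℤ}
    (hk : 3 ≤ k) :
    TendstoLocallyUniformly (fun (s : Finset (Fin 2 → ℤ)) ↦ (∑ x ∈ s, c x * eisSummand k x ·))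
      (wEis c k ·) Filter.atTop := by
  have hk' : (2 : ℝ) < k := by norm_cast
  have p_sum : Summable fun x : Fin 2 → ℤ ↦ ‖x‖ ^ (-k) :=
    mod_cast (summable_one_div_norm_rpow hk')
  simp only [tendstoLocallyUniformly_iff_forall_isCompact, wEis]
  intro K hK
  obtain ⟨A, B, hB, HABK⟩ := subset_verticalStrip_of_isCompact hK
  refine (tendstoUniformlyOn_tsum (hu := p_sum.mul_left <| r ⟨⟨A, B⟩, hB⟩ ^ (-k : ℝ))
    (fun p z hz ↦ ?_)).mono HABK
  refine (norm_wsummand_le hc k p z).trans ?_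
  simpa only [eisSummand, one_div, ← _root_.zpow_neg, norm_zpow, ← Real.rpow_intCast,
    Int.cast_neg] using summand_bound_of_mem_verticalStrip (by positivity) p hB hz

theorem wEis_tendstoLocallyUniformlyOn {c : (Fin 2 → ℤ) → ℂ} (hc : ∀ v, ‖c v‖ ≤ 1) {k : ℤ}
    (hk : 3 ≤ k) :
    TendstoLocallyUniformlyOn (fun (s : Finset (Fin 2 → ℤ)) ↦
      ((fun (z : ℍ) ↦ ∑ x ∈ s, c x * eisSummand k x z) ∘ ofComplex)) ((wEis c k) ∘ ofComplex)
          Filter.atTop {z : ℂ | 0 < z.im} := by
  rw [← upperHalfPlaneSet, ← range_coe, ← Set.image_univ]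
  apply TendstoLocallyUniformlyOn.comp (s := ⊤) _ _ _ (OpenPartialHomeomorph.continuousOn_symm _)
  · simp only [Set.top_eq_univ, tendstoLocallyUniformlyOn_univ]
    apply wEis_tendstoLocallyUniformly hc hk
  · simp only [IsOpenEmbedding.toOpenPartialHomeomorph_target, Set.top_eq_univ,
      Set.mapsTo_range_iff, Set.mem_univ, forall_const]

theorem wsummand_extension_differentiableOn (c : (Fin 2 → ℤ) → ℂ) (k : ℤ) (a : Fin 2 → ℤ) :
    DifferentiableOn ℂ ((fun z : ℍ => c a * eisSummand k a z) ∘ ofComplex) {z : ℂ | 0 < z.im} := by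
  have h := (eisSummand_extension_differentiableOn k a).const_smul (c a)
  refine h.congr ?_
  intro z _
  simp [Function.comp, smul_eq_mul]

/-- Weighted Eisenstein series are holomorphic. -/
theorem wEis_mdifferentiable {c : (Fin 2 → ℤ) → ℂ} (hc : ∀ v, ‖c v‖ ≤ 1) {k : ℤ} (hk : 3 ≤ k) :
    MDiff (wEis c k) := by
  intro τ
  suffices DifferentiableAt ℂ ((wEis c k) ∘ ofComplex) τ.1 by
    convert!
      MDifferentiableAt.comp τ (DifferentiableAt.mdifferentiableAt this) τ.mdifferentiable_coe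
    exact funext fun z ↦ (comp_ofComplex (wEis c k) z).symm
  refine DifferentiableOn.differentiableAt ?_ (isOpen_upperHalfPlaneSet.mem_nhds τ.2)
  exact (wEis_tendstoLocallyUniformlyOn hc hk).differentiableOn
    (Eventually.of_forall fun s ↦ by
      have : ((fun (z : ℍ) ↦ ∑ x ∈ s, c x * eisSummand k x z) ∘ ofComplex)
          = fun w => ∑ x ∈ s, ((fun z : ℍ => c x * eisSummand k x z) ∘ ofComplex) w := by
        funext w
        simp [Function.comp]
      rw [this]
      exact DifferentiableOn.fun_sum fun _ _ ↦ wsummand_extension_differentiableOn _ _ _)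
    isOpen_upperHalfPlaneSet


/-! ### Behaviour at `i∞` -/

theorem denom_T_zpow (n : ℤ) (z : ℍ) : denom (ModularGroup.T ^ n : SL(2, ℤ)) z = 1 := by
  have h10 : ((ModularGroup.T ^ n : SL(2, ℤ)) : Matrix (Fin 2) (Fin 2) ℤ) 1 0 = 0 := by
    rw [ModularGroup.coe_T_zpow]; rfl
  have h11 : ((ModularGroup.T ^ n : SL(2, ℤ)) : Matrix (Fin 2) (Fin 2) ℤ) 1 1 = 1 := by
    rw [ModularGroup.coe_T_zpow]; rfl
  simp only [denom]
  simp [-map_zpow, h10, h11]

theorem vecMul_T_zpow_zero (n : ℤ) (v : Fin 2 → ℤ) :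
    (v ᵥ* (ModularGroup.T ^ n : SL(2, ℤ)).1) 0 = v 0 := by
  rw [ModularGroup.coe_T_zpow]
  simp [Matrix.vecMul, Matrix.vec2_dotProduct, Matrix.vecHead]

theorem norm_eisSummand_T_zpow (k : ℤ) (n : ℤ) (v : Fin 2 → ℤ) (z : ℍ) :
    ‖eisSummand k v ((ModularGroup.T ^ n : SL(2, ℤ)) • z)‖
      = ‖eisSummand k (v ᵥ* (ModularGroup.T ^ n : SL(2, ℤ)).1) z‖ := by
  rw [eisSummand_SL2_apply, denom_T_zpow, _root_.one_zpow, _root_.one_mul]

/-- The sum of the norms of all Eisenstein summands. -/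
def eisMajorant (k : ℤ) (z : ℍ) : ℝ := ∑' v : Fin 2 → ℤ, ‖eisSummand k v z‖

/-- The sum of the norms of the Eisenstein summands with `v 0 ≠ 0`. -/
def eisTail (k : ℤ) (z : ℍ) : ℝ :=
  ∑' v : Fin 2 → ℤ, if v 0 = 0 then 0 else ‖eisSummand k v z‖

theorem eisMajorant_T_zpow (k : ℤ) (n : ℤ) (z : ℍ) :
    eisMajorant k ((ModularGroup.T ^ n : SL(2, ℤ)) • z) = eisMajorant k z := by
  unfold eisMajorant
  conv_rhs => rw [← (vecMulEquiv (ModularGroup.T ^ n)).tsum_eq]
  congr 1
  funext v
  rw [norm_eisSummand_T_zpow]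
  rfl

theorem eisTail_T_zpow (k : ℤ) (n : ℤ) (z : ℍ) :
    eisTail k ((ModularGroup.T ^ n : SL(2, ℤ)) • z) = eisTail k z := by
  unfold eisTail
  conv_rhs => rw [← (vecMulEquiv (ModularGroup.T ^ n)).tsum_eq]
  congr 1
  funext v
  simp only [vecMulEquiv, Equiv.coe_fn_mk]
  rw [norm_eisSummand_T_zpow, vecMul_T_zpow_zero]

theorem norm_wEis_le_eisMajorant {c : (Fin 2 → ℤ) → ℂ} (hc : ∀ v, ‖c v‖ ≤ 1) {k : ℤ}
    (hk : 3 ≤ k) (z : ℍ) : ‖wEis c k z‖ ≤ eisMajorant k z := by
  unfold wEis eisMajorant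
  refine (norm_tsum_le_tsum_norm (summable_norm_wEis hc hk z)).trans ?_
  exact (summable_norm_wEis hc hk z).tsum_le_tsum (fun v => norm_wsummand_le hc k v z)
    (summable_norm_eisSummand hk z)

theorem eisMajorant_le_of_mem_verticalStrip {k : ℤ} (hk : 3 ≤ k) {z : ℍ}
    (hz : z ∈ verticalStrip 1 2) :
    eisMajorant k z ≤ ∑' (x : Fin 2 → ℤ), r ⟨⟨1, 2⟩, Nat.ofNat_pos⟩ ^ (-k) * ‖x‖ ^ (-k) := by
  have hk' : (2 : ℝ) < k := by norm_cast
  unfold eisMajorant
  apply (summable_norm_eisSummand hk _).tsum_le_tsum _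
  · exact_mod_cast (summable_one_div_norm_rpow hk').mul_left <| r ⟨⟨1, 2⟩, Nat.ofNat_pos⟩ ^ (-k)
  · intro x
    simp_rw [eisSummand, norm_zpow]
    exact_mod_cast
      summand_bound_of_mem_verticalStrip (lt_trans two_pos hk').le x two_pos hz

/-- Weighted Eisenstein series are bounded at `i∞`. -/
theorem wEis_isBoundedAtImInfty {c : (Fin 2 → ℤ) → ℂ} (hc : ∀ v, ‖c v‖ ≤ 1) {k : ℤ}
    (hk : 3 ≤ k) : IsBoundedAtImInfty (wEis c k) := by
  rw [UpperHalfPlane.isBoundedAtImInfty_iff]
  refine ⟨∑' (x : Fin 2 → ℤ), r ⟨⟨1, 2⟩, Nat.ofNat_pos⟩ ^ (-k) * ‖x‖ ^ (-k), 2, ?_⟩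
  intro z hz
  obtain ⟨n, hn⟩ := (ModularGroup_T_zpow_mem_verticalStrip z (N := 1) one_pos)
  refine (norm_wEis_le_eisMajorant hc hk z).trans ?_
  have hn' : (ModularGroup.T ^ n : SL(2, ℤ)) • z ∈ verticalStrip 1 2 := by
    have h1 : (ModularGroup.T ^ (((1 : ℕ) : ℤ) * n) : SL(2, ℤ)) = ModularGroup.T ^ n := by
      simp
    rw [h1] at hn
    have := verticalStrip_anti_right ((1 : ℕ) : ℝ) hz hn
    simpa using this
  rw [← eisMajorant_T_zpow k n z]
  exact eisMajorant_le_of_mem_verticalStrip hk hn'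

/-- All slashes of weighted Eisenstein series are bounded at `i∞`. -/
theorem wEis_slash_isBoundedAtImInfty {c : (Fin 2 → ℤ) → ℂ} (hc : ∀ v, ‖c v‖ ≤ 1) {k : ℤ}
    (hk : 3 ≤ k) (γ : SL(2, ℤ)) : IsBoundedAtImInfty (wEis c k ∣[k] γ) := by
  rw [wEis_slash]
  exact wEis_isBoundedAtImInfty (fun v => hc _) hk


/-! ### The limit at `i∞` -/

theorem summable_eisTail {k : ℤ} (hk : 3 ≤ k) (z : ℍ) :
    Summable fun v : Fin 2 → ℤ => if v 0 = 0 then 0 else ‖eisSummand k v z‖ := by
  refine (summable_norm_eisSummand hk z).of_nonneg_of_le (fun v => ?_) (fun v => ?_)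
  · split_ifs
    · exact le_rfl
    · exact norm_nonneg _
  · split_ifs
    · exact norm_nonneg _
    · exact le_rfl

/-- The constant in the tail bound. -/
def tailConst (k : ℤ) : ℝ :=
  ∑' x : Fin 2 → ℤ, r ⟨⟨1, 1⟩, one_pos⟩ ^ (-((k : ℝ) - 1 / 2)) * ‖x‖ ^ (-((k : ℝ) - 1 / 2))

theorem norm_linear_ge_im {v : Fin 2 → ℤ} (hv : v 0 ≠ 0) (z : ℍ) :
    z.im ≤ ‖(v 0 : ℂ) * (z : ℂ) + v 1‖ := by
  have h1 : |((v 0 : ℂ) * (z : ℂ) + v 1).im| ≤ ‖(v 0 : ℂ) * (z : ℂ) + v 1‖ :=
    Complex.abs_im_le_norm _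
  have h2 : ((v 0 : ℂ) * (z : ℂ) + v 1).im = (v 0 : ℝ) * z.im := by
    simp
  rw [h2, abs_mul, abs_of_pos z.im_pos] at h1
  have h3 : (1 : ℝ) ≤ |(v 0 : ℝ)| := by
    have : (1 : ℤ) ≤ |v 0| := Int.one_le_abs hv
    exact_mod_cast this
  calc z.im = 1 * z.im := (_root_.one_mul _).symm
    _ ≤ |(v 0 : ℝ)| * z.im := by gcongr
    _ ≤ _ := h1

theorem eisTail_le_of_mem_verticalStrip {k : ℤ} (hk : 3 ≤ k) {z : ℍ}
    (hz : z ∈ verticalStrip 1 1) :
    eisTail k z ≤ tailConst k * z.im ^ (-(1 / 2 : ℝ)) := by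
  have hk' : (2 : ℝ) < (k : ℝ) - 1 / 2 := by
    have : (3 : ℝ) ≤ k := by exact_mod_cast hk
    linarith
  have hsum : Summable fun x : Fin 2 → ℤ =>
      r ⟨⟨1, 1⟩, one_pos⟩ ^ (-((k : ℝ) - 1 / 2)) * ‖x‖ ^ (-((k : ℝ) - 1 / 2)) :=
    (summable_one_div_norm_rpow hk').mul_left _
  unfold eisTail tailConst
  rw [← tsum_mul_right]
  refine (summable_eisTail hk z).tsum_le_tsum (fun v => ?_) (hsum.mul_right _)
  have hy : 0 < z.im := z.im_pos
  have hrn : ∀ x : Fin 2 → ℤ, 0 ≤ r ⟨⟨1, 1⟩, one_pos⟩ ^ (-((k : ℝ) - 1 / 2))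
      * ‖x‖ ^ (-((k : ℝ) - 1 / 2)) := fun x =>
    mul_nonneg (Real.rpow_nonneg (r_pos _).le _) (Real.rpow_nonneg (norm_nonneg _) _)
  split_ifs with hv
  · exact mul_nonneg (hrn v) (Real.rpow_nonneg hy.le _)
  · have hpos : 0 < ‖(v 0 : ℂ) * (z : ℂ) + v 1‖ := lt_of_lt_of_le hy (norm_linear_ge_im hv z)
    have e1 : ‖eisSummand k v z‖ = ‖(v 0 : ℂ) * (z : ℂ) + v 1‖ ^ (-((k : ℝ) - 1 / 2))
        * ‖(v 0 : ℂ) * (z : ℂ) + v 1‖ ^ (-(1 / 2 : ℝ)) := by
      rw [← Real.rpow_add hpos, eisSummand, norm_zpow]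
      have : -((k : ℝ) - 1 / 2) + -(1 / 2) = ((-k : ℤ) : ℝ) := by push_cast; ring
      rw [this, Real.rpow_intCast]
    rw [e1]
    have b1 := summand_bound_of_mem_verticalStrip (k := (k : ℝ) - 1 / 2) (by linarith) v
      one_pos hz
    have b2 : ‖(v 0 : ℂ) * (z : ℂ) + v 1‖ ^ (-(1 / 2 : ℝ)) ≤ z.im ^ (-(1 / 2 : ℝ)) :=
      Real.rpow_le_rpow_of_nonpos hy (norm_linear_ge_im hv z) (by norm_num)
    exact mul_le_mul b1 b2 (Real.rpow_nonneg (norm_nonneg _) _) (hrn v)

theorem eisTail_le {k : ℤ} (hk : 3 ≤ k) (z : ℍ) (hz : 1 ≤ z.im) :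
    eisTail k z ≤ tailConst k * z.im ^ (-(1 / 2 : ℝ)) := by
  obtain ⟨n, hn⟩ := (ModularGroup_T_zpow_mem_verticalStrip z (N := 1) one_pos)
  have h1 : (ModularGroup.T ^ (((1 : ℕ) : ℤ) * n) : SL(2, ℤ)) = ModularGroup.T ^ n := by
    simp
  rw [h1] at hn
  have hn' : (ModularGroup.T ^ n : SL(2, ℤ)) • z ∈ verticalStrip 1 1 := by
    have := verticalStrip_anti_right ((1 : ℕ) : ℝ) hz hn
    simpa using this
  have := eisTail_le_of_mem_verticalStrip hk hn'
  rwa [eisTail_T_zpow, ModularGroup.im_T_zpow_smul] at this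

/-- The value at `i∞` of a weighted Eisenstein series. -/
def wEisLimit (c : (Fin 2 → ℤ) → ℂ) (k : ℤ) : ℂ :=
  ∑' v : Fin 2 → ℤ, if v 0 = 0 then c v * ((v 1 : ℂ)) ^ (-k) else 0

theorem eisSummand_of_zero {k : ℤ} {v : Fin 2 → ℤ} (hv : v 0 = 0) (z : ℍ) :
    eisSummand k v z = ((v 1 : ℂ)) ^ (-k) := by
  simp [eisSummand, hv]

theorem norm_wEis_sub_limit_le {c : (Fin 2 → ℤ) → ℂ} (hc : ∀ v, ‖c v‖ ≤ 1) {k : ℤ}
    (hk : 3 ≤ k) (z : ℍ) : ‖wEis c k z - wEisLimit c k‖ ≤ eisTail k z := by
  have hL : Summable fun v : Fin 2 → ℤ => if v 0 = 0 then c v * ((v 1 : ℂ)) ^ (-k) else 0 := by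
    refine Summable.of_norm ?_
    refine (summable_norm_wEis hc hk z).of_nonneg_of_le (fun _ => norm_nonneg _) (fun v => ?_)
    split_ifs with hv
    · rw [eisSummand_of_zero hv]
    · rw [norm_zero]; exact norm_nonneg _
  unfold wEis wEisLimit
  rw [← (summable_wEis hc hk z).tsum_sub hL]
  have hterm : ∀ v : Fin 2 → ℤ,
      ‖c v * eisSummand k v z - (if v 0 = 0 then c v * ((v 1 : ℂ)) ^ (-k) else 0)‖
        ≤ if v 0 = 0 then 0 else ‖eisSummand k v z‖ := by
    intro v
    split_ifs with hv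
    · rw [eisSummand_of_zero hv, sub_self, norm_zero]
    · rw [sub_zero]
      exact norm_wsummand_le hc k v z
  have hs : Summable fun v : Fin 2 → ℤ =>
      ‖c v * eisSummand k v z - (if v 0 = 0 then c v * ((v 1 : ℂ)) ^ (-k) else 0)‖ :=
    (summable_eisTail hk z).of_nonneg_of_le (fun _ => norm_nonneg _) hterm
  refine (norm_tsum_le_tsum_norm hs).trans ?_
  exact hs.tsum_le_tsum hterm (summable_eisTail hk z)

/-- Weighted Eisenstein series tend to `wEisLimit` at `i∞`. -/
theorem tendsto_wEis_atImInfty {c : (Fin 2 → ℤ) → ℂ} (hc : ∀ v, ‖c v‖ ≤ 1) {k : ℤ}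
    (hk : 3 ≤ k) : Tendsto (wEis c k) atImInfty (𝓝 (wEisLimit c k)) := by
  rw [Metric.tendsto_nhds]
  intro ε hε
  rw [Filter.Eventually, UpperHalfPlane.atImInfty_mem]
  -- choose `A` with `tailConst k * A ^ (-1/2) < ε`
  have hC : 0 ≤ tailConst k := by
    unfold tailConst
    exact tsum_nonneg fun x =>
      mul_nonneg (Real.rpow_nonneg (r_pos _).le _) (Real.rpow_nonneg (norm_nonneg _) _)
  obtain ⟨A, hA1, hA⟩ : ∃ A : ℝ, 1 ≤ A ∧ tailConst k * A ^ (-(1 / 2 : ℝ)) < ε := by
    have hlim : Tendsto (fun A : ℝ => tailConst k * A ^ (-(1 / 2 : ℝ))) atTop (𝓝 0) := by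
      have := (tendsto_rpow_neg_atTop (show (0 : ℝ) < 1 / 2 by norm_num)).const_mul (tailConst k)
      simpa using this
    have hev := (hlim.eventually (gt_mem_nhds hε)).and (eventually_ge_atTop (1 : ℝ))
    obtain ⟨A, h1, h2⟩ := hev.exists
    exact ⟨A, h2, h1⟩
  refine ⟨A, fun z hz => ?_⟩
  simp only [Set.mem_ofPred_eq, dist_eq_norm]
  have hz1 : 1 ≤ z.im := hA1.trans hz
  calc ‖wEis c k z - wEisLimit c k‖ ≤ eisTail k z := norm_wEis_sub_limit_le hc hk z
    _ ≤ tailConst k * z.im ^ (-(1 / 2 : ℝ)) := eisTail_le hk z hz1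
    _ ≤ tailConst k * A ^ (-(1 / 2 : ℝ)) :=
        mul_le_mul_of_nonneg_left
          (Real.rpow_le_rpow_of_nonpos (by linarith) hz (by norm_num)) hC
    _ < ε := hA


/-! ### Weights supported on primitive vectors -/

theorem wEisLimit_eq {c : (Fin 2 → ℤ) → ℂ} {k : ℤ}
    (hsupp : ∀ v : Fin 2 → ℤ, v 0 = 0 → c v ≠ 0 → v 1 = 1 ∨ v 1 = -1) :
    wEisLimit c k = c ![0, 1] + (-1) ^ k * c ![0, -1] := by
  unfold wEisLimit
  have hne : (![0, 1] : Fin 2 → ℤ) ≠ ![0, -1] := by
    intro h
    have := congrFun h 1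
    simp at this
  rw [tsum_eq_sum (s := {![0, 1], ![0, -1]})]
  · rw [Finset.sum_pair hne]
    simp only [Matrix.cons_val_zero, Matrix.cons_val_one, if_true]
    have h1 : ((1 : ℤ) : ℂ) ^ (-k) = 1 := by simp
    have h2 : (((-1 : ℤ)) : ℂ) ^ (-k) = (-1) ^ k := by
      push_cast
      rw [_root_.zpow_neg, ← _root_.inv_zpow]
      norm_num
    rw [h1, h2, _root_.mul_one, mul_comm]
  · intro v hv
    simp only [Finset.mem_insert, Finset.mem_singleton, not_or] at hv
    split_ifs with h0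
    · by_cases hcv : c v = 0
      · rw [hcv, _root_.MulZeroClass.zero_mul]
      · exfalso
        rcases hsupp v h0 hcv with h1 | h1
        · apply hv.1
          ext i
          fin_cases i
          · simpa using h0
          · simpa using h1
        · apply hv.2
          ext i
          fin_cases i
          · simpa using h0
          · simpa using h1
    · rfl

/-! ### Twisted Eisenstein series -/

section Twisted

variable (Γ : Subgroup SL(2, ℤ)) (χ : Γ →* ℂˣ)

/-- The bottom row of a matrix in `SL(2, ℤ)`. -/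
def botRow (γ : SL(2, ℤ)) : Fin 2 → ℤ := γ.1 1

theorem botRow_mul (α β : SL(2, ℤ)) : botRow (α * β) = botRow α ᵥ* β.1 := by
  ext j
  simp [botRow, Matrix.mul_apply, Matrix.vecMul, dotProduct]

theorem botRow_one : botRow 1 = ![0, 1] := by
  ext j
  fin_cases j <;> simp [botRow]

/-- The weight function of the twisted Eisenstein series: `χ(γ)⁻¹` on the bottom row of
`γ ∈ Γ`, zero on vectors which are not bottom rows of elements of `Γ`. -/
def twistWeight (v : Fin 2 → ℤ) : ℂ :=
  open Classical in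
  if h : ∃ γ : Γ, botRow (γ : SL(2, ℤ)) = v then ((χ h.choose)⁻¹ : ℂˣ) else 0

variable {Γ χ}

/-- `χ` is trivial on the upper unipotent elements of `Γ`. -/
def TrivialOnUnipotent (χ : Γ →* ℂˣ) : Prop :=
  ∀ γ : Γ, botRow (γ : SL(2, ℤ)) = ![0, 1] → χ γ = 1

theorem twistWeight_botRow (hχ : TrivialOnUnipotent χ) (γ : Γ) :
    twistWeight Γ χ (botRow (γ : SL(2, ℤ))) = ((χ γ)⁻¹ : ℂˣ) := by
  classical
  have h : ∃ γ' : Γ, botRow (γ' : SL(2, ℤ)) = botRow (γ : SL(2, ℤ)) := ⟨γ, rfl⟩
  unfold twistWeight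
  rw [dif_pos h]
  have hrow := h.choose_spec
  have h1 : botRow ((h.choose * γ⁻¹ : Γ) : SL(2, ℤ)) = ![0, 1] := by
    rw [Subgroup.coe_mul, botRow_mul, hrow, ← botRow_mul, Subgroup.coe_inv, mul_inv_cancel,
      botRow_one]
  have h2 := hχ _ h1
  rw [_root_.map_mul, _root_.map_inv, mul_inv_eq_one] at h2
  rw [h2]

theorem twistWeight_of_not (v : Fin 2 → ℤ) (h : ¬ ∃ γ : Γ, botRow (γ : SL(2, ℤ)) = v) :
    twistWeight Γ χ v = 0 := by
  classical
  unfold twistWeight
  rw [dif_neg h]

theorem twistWeight_vecMul_inv (hχ : TrivialOnUnipotent χ) (δ : Γ) (v : Fin 2 → ℤ) :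
    twistWeight Γ χ (v ᵥ* ((δ : SL(2, ℤ))⁻¹).1) = (χ δ : ℂ) * twistWeight Γ χ v := by
  by_cases h : ∃ γ : Γ, botRow (γ : SL(2, ℤ)) = v
  · obtain ⟨γ, rfl⟩ := h
    have : botRow (γ : SL(2, ℤ)) ᵥ* ((δ : SL(2, ℤ))⁻¹).1 = botRow ((γ * δ⁻¹ : Γ) : SL(2, ℤ)) := by
      rw [Subgroup.coe_mul, botRow_mul, Subgroup.coe_inv]
    rw [this, twistWeight_botRow hχ, twistWeight_botRow hχ, _root_.map_mul, _root_.map_inv, mul_inv, inv_inv,
      Units.val_mul, mul_comm]
  · have h' : ¬ ∃ γ : Γ, botRow (γ : SL(2, ℤ)) = v ᵥ* ((δ : SL(2, ℤ))⁻¹).1 := by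
      rintro ⟨γ, hγ⟩
      apply h
      refine ⟨γ * δ, ?_⟩
      rw [Subgroup.coe_mul, botRow_mul, hγ, Matrix.vecMul_vecMul,
        ← Matrix.SpecialLinearGroup.coe_mul, inv_mul_cancel, Matrix.SpecialLinearGroup.coe_one,
        Matrix.vecMul_one]
    rw [twistWeight_of_not _ h, twistWeight_of_not _ h', _root_.MulZeroClass.mul_zero]

theorem norm_twistWeight_le (hχ : TrivialOnUnipotent χ) (hnorm : ∀ γ : Γ, ‖(χ γ : ℂ)‖ = 1)
    (v : Fin 2 → ℤ) : ‖twistWeight Γ χ v‖ ≤ 1 := by
  by_cases h : ∃ γ : Γ, botRow (γ : SL(2, ℤ)) = v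
  · obtain ⟨γ, rfl⟩ := h
    rw [twistWeight_botRow hχ, Units.val_inv_eq_inv_val, norm_inv, hnorm, inv_one]
  · rw [twistWeight_of_not _ h, norm_zero]
    exact zero_le_one

variable (Γ χ) in
/-- The twisted Eisenstein series `E_k^χ(z) = ∑_{v bottom row of γ ∈ Γ} χ(γ)⁻¹ (v₀ z + v₁)^{-k}`. -/
def twistedEis (k : ℤ) : ℍ → ℂ := wEis (twistWeight Γ χ) k

theorem twistedEis_slash (hχ : TrivialOnUnipotent χ) (k : ℤ) (δ : Γ) :
    twistedEis Γ χ k ∣[k] (δ : SL(2, ℤ)) = (χ δ : ℂ) • twistedEis Γ χ k := by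
  unfold twistedEis
  rw [wEis_slash]
  ext z
  simp only [wEis, Pi.smul_apply, smul_eq_mul]
  rw [← tsum_mul_left]
  congr 1
  funext v
  rw [twistWeight_vecMul_inv hχ, _root_.mul_assoc]

theorem twistedEis_mdifferentiable (hχ : TrivialOnUnipotent χ)
    (hnorm : ∀ γ : Γ, ‖(χ γ : ℂ)‖ = 1) {k : ℤ} (hk : 3 ≤ k) : MDiff (twistedEis Γ χ k) :=
  wEis_mdifferentiable (norm_twistWeight_le hχ hnorm) hk

theorem twistedEis_slash_isBoundedAtImInfty (hχ : TrivialOnUnipotent χ)
    (hnorm : ∀ γ : Γ, ‖(χ γ : ℂ)‖ = 1) {k : ℤ} (hk : 3 ≤ k) (g : SL(2, ℤ)) :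
    IsBoundedAtImInfty (twistedEis Γ χ k ∣[k] g) :=
  wEis_slash_isBoundedAtImInfty (norm_twistWeight_le hχ hnorm) hk g

theorem twistWeight_supp (v : Fin 2 → ℤ) (h0 : v 0 = 0) (hv : twistWeight Γ χ v ≠ 0) :
    v 1 = 1 ∨ v 1 = -1 := by
  by_cases h : ∃ γ : Γ, botRow (γ : SL(2, ℤ)) = v
  · obtain ⟨γ, rfl⟩ := h
    have hdet := (γ : SL(2, ℤ)).det_coe
    rw [Matrix.det_fin_two] at hdet
    have h10 : (γ : SL(2, ℤ)).1 1 0 = 0 := h0
    rw [h10, _root_.MulZeroClass.mul_zero, sub_zero] at hdet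
    exact Int.eq_one_or_neg_one_of_mul_eq_one' hdet |>.imp (fun h => h.2) (fun h => h.2)
  · exact absurd (twistWeight_of_not _ h) hv

/-- The limit of the twisted Eisenstein series at `i∞`. -/
theorem tendsto_twistedEis (hχ : TrivialOnUnipotent χ)
    (hnorm : ∀ γ : Γ, ‖(χ γ : ℂ)‖ = 1) {k : ℤ} (hk : 3 ≤ k) :
    Tendsto (twistedEis Γ χ k) atImInfty
      (𝓝 (1 + (-1) ^ k * twistWeight Γ χ ![0, -1])) := by
  have h := tendsto_wEis_atImInfty (norm_twistWeight_le hχ hnorm) hk
  rw [wEisLimit_eq (fun v h0 hv => twistWeight_supp v h0 hv)] at h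
  have h1 : twistWeight Γ χ ![0, 1] = 1 := by
    have := twistWeight_botRow hχ (1 : Γ)
    rw [Subgroup.coe_one, botRow_one, _root_.map_one, inv_one, Units.val_one] at this
    exact this
  rwa [h1] at h

/-- If `-1 ∈ Γ`, `χ(-1) = 1` and `k` is even, the twisted Eisenstein series tends to `2` at
`i∞`. -/
theorem tendsto_twistedEis_two (hχ : TrivialOnUnipotent χ)
    (hnorm : ∀ γ : Γ, ‖(χ γ : ℂ)‖ = 1) {k : ℤ} (hk : 3 ≤ k) (hk2 : Even k)
    (hneg : (-1 : SL(2, ℤ)) ∈ Γ) (hχneg : χ ⟨-1, hneg⟩ = 1) :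
    Tendsto (twistedEis Γ χ k) atImInfty (𝓝 2) := by
  have h := tendsto_twistedEis hχ hnorm hk
  have h1 : twistWeight Γ χ ![0, -1] = 1 := by
    have := twistWeight_botRow hχ (⟨-1, hneg⟩ : Γ)
    have hb : botRow ((⟨-1, hneg⟩ : Γ) : SL(2, ℤ)) = ![0, -1] := by
      ext j
      fin_cases j <;> simp [botRow]
    rw [hb, hχneg, inv_one, Units.val_one] at this
    exact this
  rw [h1, hk2.neg_one_zpow, _root_.mul_one] at h
  norm_num at h
  exact h

end Twisted

end Fermat.Agent.S29.H332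

end
end
-- ===== PACK-END S29/H332/WeightedEis.lean

-- ===== PACK-BEGIN S29/H152/DescEchelon.lean
section
/-
S29 / DESC (helper152) — part 2: the "echelon" lemma.

A nonzero `C`-subspace `W` of `C((q))` whose nonzero elements have bounded order, stable under a
set `H` of coefficientwise ring endomorphisms, contains a nonzero vector fixed by all of `H`
(the vector of maximal order, normalised to leading coefficient `1`).
-/



set_option autoImplicit false

namespace Fermat.Agent.S29.H152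

open ModularCurve

variable {C : Type*} [Field C]

theorem descEchelon_exists_fixed (W : Submodule C (LaurentSeries C))
    (hW : ∃ v ∈ W, v ≠ 0) (B : ℤ) (hB : ∀ v ∈ W, v ≠ 0 → v.order ≤ B)
    (H : Set (C →+* C)) (hH : ∀ σ ∈ H, ∀ v ∈ W, coeffMap σ v ∈ W) :
    ∃ v ∈ W, v ≠ 0 ∧ ∀ σ ∈ H, coeffMap σ v = v := by
  classical
  -- maximal order
  obtain ⟨s, ⟨v₁, hv₁W, hv₁0, hv₁s⟩, hmax⟩ :=
    Int.exists_greatest_of_bdd (P := fun n : ℤ => ∃ v ∈ W, v ≠ 0 ∧ v.order = n)
      ⟨B, fun z ⟨v, hvW, hv0, hvz⟩ => hvz ▸ hB v hvW hv0⟩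
      (by obtain ⟨v, hvW, hv0⟩ := hW; exact ⟨v.order, v, hvW, hv0, rfl⟩)
  have hc : v₁.coeff s ≠ 0 := by
    rw [← hv₁s]
    exact fun h => hv₁0 (HahnSeries.coeff_order_eq_zero.mp h)
  set v : LaurentSeries C := (v₁.coeff s)⁻¹ • v₁ with hv
  have hvW : v ∈ W := W.smul_mem _ hv₁W
  have hvs : v.coeff s = 1 := by
    rw [hv, HahnSeries.coeff_smul, smul_eq_mul, inv_mul_cancel₀ hc]
  have hvlt : ∀ k < s, v.coeff k = 0 := by
    intro k hk
    have h0 : v₁.coeff k = 0 := HahnSeries.coeff_eq_zero_of_lt_order (by rw [hv₁s]; exact hk)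
    rw [hv, HahnSeries.coeff_smul, h0, smul_zero]
  have hv0 : v ≠ 0 := by
    intro h
    rw [h] at hvs
    simp at hvs
  refine ⟨v, hvW, hv0, fun σ hσ => ?_⟩
  by_contra hne
  have hd0 : coeffMap σ v - v ≠ 0 := sub_ne_zero.mpr hne
  have hdW : coeffMap σ v - v ∈ W := W.sub_mem (hH σ hσ v hvW) hvW
  have hle : (coeffMap σ v - v).order ≤ s := hmax _ ⟨_, hdW, hd0, rfl⟩
  have hcoeff : ∀ k ≤ s, (coeffMap σ v - v).coeff k = 0 := by
    intro k hk
    rw [HahnSeries.coeff_sub, coeffMap_coeff]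
    rcases hk.lt_or_eq with h | h
    · rw [hvlt k h, map_zero, sub_zero]
    · rw [h, hvs, map_one, sub_self]
  exact hd0 (HahnSeries.coeff_order_eq_zero.mp (hcoeff _ hle))

end Fermat.Agent.S29.H152

end
-- ===== PACK-END S29/H152/DescEchelon.lean

-- ===== PACK-BEGIN S29/H751/PthRootBall.lean
section


/-!
# Holomorphic `p`-th roots on a disc (helper751, S29 / P5 / KUM + E3)

* `exists_exp_eq_on_ball`: a nowhere vanishing holomorphic function on an open disc is `exp ∘ L`.
* `exists_pow_eq_on_ball_of_ne_zero`: hence it has a holomorphic `p`-th root.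
* `exists_pow_eq_on_ball`: a holomorphic function on (a neighbourhood of) a closed disc, not
  locally zero, all of whose zeros have order divisible by `p`, has a holomorphic `p`-th root on
  the open disc.
-/

set_option autoImplicit false

open Complex Set Metric Filter Topology

namespace Fermat.Agent.S29.H751

/-- A nowhere vanishing holomorphic function on an open disc has a holomorphic logarithm. -/
theorem exists_exp_eq_on_ball {g : ℂ → ℂ} {c : ℂ} {r : ℝ}
    (hg : DifferentiableOn ℂ g (ball c r)) (hne : ∀ z ∈ ball c r, g z ≠ 0) :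
    ∃ L : ℂ → ℂ, DifferentiableOn ℂ L (ball c r) ∧ ∀ z ∈ ball c r, cexp (L z) = g z := by
  by_cases hr : 0 < r
  swap
  · refine ⟨fun _ => 0, differentiableOn_const _, fun z hz => ?_⟩
    rw [ball_eq_empty.2 (not_lt.1 hr)] at hz
    exact absurd hz (notMem_empty z)
  have hopen : IsOpen (ball c r) := isOpen_ball
  have hc : c ∈ ball c r := mem_ball_self hr
  -- the logarithmic derivative
  have hdg : DifferentiableOn ℂ (deriv g) (ball c r) := hg.deriv hopen
  have hφ : DifferentiableOn ℂ (fun z => deriv g z / g z) (ball c r) :=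
    hdg.div hg hne
  obtain ⟨L₀, hL₀⟩ := hφ.isExactOn_ball
  -- `g * exp (-L₀)` has zero derivative
  set F : ℂ → ℂ := fun z => g z * cexp (-L₀ z) with hF
  have hFd : ∀ z ∈ ball c r, HasDerivAt F 0 z := by
    intro z hz
    have h1 : HasDerivAt g (deriv g z) z :=
      (hg.differentiableAt (hopen.mem_nhds hz)).hasDerivAt
    have h2 : HasDerivAt (fun z => cexp (-L₀ z)) (cexp (-L₀ z) * (-(deriv g z / g z))) z :=
      ((hL₀ z hz).neg).cexp
    have h3 := h1.mul h2
    have : deriv g z * cexp (-L₀ z) + g z * (cexp (-L₀ z) * -(deriv g z / g z)) = 0 := by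
      field_simp [hne z hz]
      ring
    rw [this] at h3
    exact h3
  have hFdiff : DifferentiableOn ℂ F (ball c r) := fun z hz =>
    (hFd z hz).differentiableAt.differentiableWithinAt
  have hconst : ∀ z ∈ ball c r, F z = F c := by
    intro z hz
    exact hopen.is_const_of_deriv_eq_zero isPreconnected_ball hFdiff
      (fun w hw => (hFd w hw).deriv) hz hc
  have hFc : F c ≠ 0 := mul_ne_zero (hne c hc) (exp_ne_zero _)
  refine ⟨fun z => L₀ z + Complex.log (F c), ?_, ?_⟩
  · have hL₀d : DifferentiableOn ℂ L₀ (ball c r) := fun z hz =>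
      (hL₀ z hz).differentiableAt.differentiableWithinAt
    exact hL₀d.add_const _
  · intro z hz
    have h := hconst z hz
    simp only [hF] at h
    rw [Complex.exp_add, Complex.exp_log hFc]
    simp only [hF]
    rw [← h, mul_comm, mul_assoc, ← Complex.exp_add]
    simp

/-- A nowhere vanishing holomorphic function on an open disc has a holomorphic `p`-th root. -/
theorem exists_pow_eq_on_ball_of_ne_zero {g : ℂ → ℂ} {c : ℂ} {r : ℝ} (p : ℕ) (hp : p ≠ 0)
    (hg : DifferentiableOn ℂ g (ball c r)) (hne : ∀ z ∈ ball c r, g z ≠ 0) :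
    ∃ u : ℂ → ℂ, DifferentiableOn ℂ u (ball c r) ∧ ∀ z ∈ ball c r, u z ^ p = g z := by
  obtain ⟨L, hL, hLg⟩ := exists_exp_eq_on_ball hg hne
  refine ⟨fun z => cexp (L z / p), ?_, fun z hz => ?_⟩
  · exact (hL.div_const _).cexp
  · rw [← Complex.exp_nat_mul, mul_div_cancel₀ _ (Nat.cast_ne_zero.2 hp), hLg z hz]

/-- Two functions which are continuous at `x` and agree on a punctured neighbourhood of `x`
agree at `x`. -/
theorem eq_of_eventuallyEq_nhdsNE {f g : ℂ → ℂ} {x : ℂ} (hf : ContinuousAt f x)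
    (hg : ContinuousAt g x) (h : ∀ᶠ z in 𝓝[≠] x, f z = g z) : f x = g x := by
  have h1 : Tendsto f (𝓝[≠] x) (𝓝 (f x)) := hf.tendsto.mono_left nhdsWithin_le_nhds
  have h2 : Tendsto g (𝓝[≠] x) (𝓝 (g x)) := hg.tendsto.mono_left nhdsWithin_le_nhds
  exact tendsto_nhds_unique h1 (h2.congr' (h.mono fun z hz => hz.symm))

/-- A holomorphic function near a closed disc, nowhere locally zero, all of whose zeros in the
closed disc have order divisible by `p`, has a holomorphic `p`-th root on the open disc. -/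
theorem exists_pow_eq_on_ball {G : ℂ → ℂ} {c : ℂ} {r : ℝ} (p : ℕ) (hp : p ≠ 0)
    (hG : AnalyticOnNhd ℂ G (closedBall c r))
    (hord : ∀ z ∈ closedBall c r, ∃ m : ℕ, analyticOrderAt G z = ((p * m : ℕ) : ℕ∞)) :
    ∃ u : ℂ → ℂ, DifferentiableOn ℂ u (ball c r) ∧ ∀ z ∈ ball c r, u z ^ p = G z := by
  classical
  set K := closedBall c r with hK
  have hmero : MeromorphicOn G K := hG.meromorphicOn
  have hfin : (MeromorphicOn.divisor G K).support.Finite :=
    (MeromorphicOn.divisor G K).finiteSupport (isCompact_closedBall c r)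
  have hordK : ∀ z ∈ K, ∃ m : ℕ, meromorphicOrderAt G z = ((p * m : ℕ) : ℤ) := by
    intro z hz
    obtain ⟨m, hm⟩ := hord z hz
    refine ⟨m, ?_⟩
    rw [(hG z hz).meromorphicOrderAt_eq, hm]
    rfl
  have hne' : ∀ u : K, meromorphicOrderAt G u ≠ ⊤ := by
    intro u
    obtain ⟨m, hm⟩ := hordK u u.2
    rw [hm]
    exact WithTop.coe_ne_top
  obtain ⟨g, hg, hgne, hEq⟩ := hmero.extract_zeros_poles hne' hfin
  set D := MeromorphicOn.divisor G K with hD
  have hDm : ∀ u, ∃ m : ℕ, D u = ((p * m : ℕ) : ℤ) := by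
    intro u
    by_cases hu : u ∈ K
    · obtain ⟨m, hm⟩ := hordK u hu
      refine ⟨m, ?_⟩
      rw [hD, MeromorphicOn.divisor_apply hmero hu, hm]
      rfl
    · refine ⟨0, ?_⟩
      have : D u = 0 := Function.locallyFinsuppWithin.apply_eq_zero_of_notMem D hu
      simp [this]
  choose E hE using hDm
  -- the polynomial part of the root
  set ψ : ℂ → ℂ := fun z => ∏ u ∈ hfin.toFinset, (z - u) ^ (E u) with hψ
  have hψd : Differentiable ℂ ψ := by
    have : ψ = ∏ u ∈ hfin.toFinset, (fun z : ℂ => (z - u) ^ (E u)) := by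
      funext z
      rw [hψ, Finset.prod_apply]
    rw [this]
    apply Differentiable.finsetProd
    intro u _
    exact (differentiable_id.sub_const u).pow _
  -- the factorised rational function is `ψ ^ p`
  have hφ : ∀ z, (∏ᶠ u, (fun x : ℂ => x - u) ^ D u) z = ψ z ^ p := by
    intro z
    rw [Function.FactorizedRational.finprod_eq_fun hfin]
    show (∏ᶠ u, (z - u) ^ D u) = ψ z ^ p
    rw [finprod_eq_prod_of_mulSupport_subset (s := hfin.toFinset)]
    · rw [hψ]
      simp only
      rw [← Finset.prod_pow]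
      refine Finset.prod_congr rfl fun u _ => ?_
      rw [hE u, zpow_natCast, ← pow_mul, mul_comm]
    · intro u hu
      simp only [Function.mem_mulSupport, ne_eq] at hu
      simp only [Set.Finite.coe_toFinset, Function.mem_support, ne_eq]
      intro h0
      exact hu (by rw [h0]; simp)
  -- root of the unit part
  have hgd : DifferentiableOn ℂ g (ball c r) :=
    (hg.mono ball_subset_closedBall).differentiableOn
  obtain ⟨w, hwd, hw⟩ := exists_pow_eq_on_ball_of_ne_zero p hp hgd
    (fun z hz => hgne ⟨z, ball_subset_closedBall hz⟩)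
  refine ⟨fun z => ψ z * w z, hψd.differentiableOn.mul hwd, fun z hz => ?_⟩
  rw [mul_pow, hw z hz, ← hφ z]
  -- upgrade the codiscrete equality to an equality at `z`
  have hS := hEq
  rw [Filter.EventuallyEq, Filter.Eventually, mem_codiscreteWithin] at hS
  have hzK : z ∈ K := ball_subset_closedBall hz
  have h1 := hS z hzK
  rw [Filter.disjoint_principal_right] at h1
  have h2 : ∀ᶠ y in 𝓝[≠] z, y ∈ K := by
    have : ball c r ∈ 𝓝 z := isOpen_ball.mem_nhds hz
    exact mem_nhdsWithin_of_mem_nhds (Filter.mem_of_superset this ball_subset_closedBall)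
  have h3 : ∀ᶠ y in 𝓝[≠] z, G y = ((∏ᶠ u, (fun x : ℂ => x - u) ^ D u) • g) y := by
    filter_upwards [h1, h2] with y hy1 hy2
    by_contra hcon
    exact hy1 ⟨hy2, hcon⟩
  have hcG : ContinuousAt G z := (hG z hzK).continuousAt
  have hcR : ContinuousAt (fun y => ((∏ᶠ u, (fun x : ℂ => x - u) ^ D u) • g) y) z := by
    have : (fun y => ((∏ᶠ u, (fun x : ℂ => x - u) ^ D u) • g) y) = fun y => ψ y ^ p * g y := by
      funext y
      simp only [Pi.smul_apply', smul_eq_mul, hφ y]
    rw [this]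
    exact ((hψd.continuous.continuousAt).pow p).mul (hg z hzK).continuousAt
  have := eq_of_eventuallyEq_nhdsNE hcG hcR h3
  rw [this]
  simp [Pi.smul_apply', smul_eq_mul]


end Fermat.Agent.S29.H751

end
-- ===== PACK-END S29/H751/PthRootBall.lean

-- ===== PACK-BEGIN S37/H400/KronSection.lean
section
/-
S37 / helper400 — piece KRON, part (K1): `p`-sections of Laurent series and the section matrix.

For `f ∈ R((T))` the *section matrix* `secMat p f ∈ Mat_p(R((q)))` is the matrix of multiplication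
by `f` on `R((T))`, seen as a free module over `V_p (R((q)))` (`V_p = qExpand R p : q ↦ T ^ p`) with
basis `1, T, …, T^{p-1}`.  We prove that `secMat p` is multiplicative, sends `V_p a` to the scalar
matrix `a`, and satisfies Cayley–Hamilton in the form `(charpoly.map V_p).eval f = 0`.

(The section matrix idea is due to helper807, `S28/H807/Section.lean`; this file is an independent
self-contained development with the multiplicative structure needed for the Kronecker congruence.)
-/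




set_option autoImplicit false

noncomputable section

open ModularCurve HahnSeries Polynomial Matrix

namespace Fermat.Agent.S37.H400

variable {R : Type*} [CommRing R]

/-- The `r`-th `p`-section `∑ₘ f_{pm+r} qᵐ` of a Laurent series `f`. -/
def secL (p : ℕ) [NeZero p] (r : ℤ) (f : LaurentSeries R) : LaurentSeries R :=
  HahnSeries.ofSuppBddBelow (fun m : ℤ => f.coeff ((p : ℤ) * m + r))
    ⟨(f.order - r) / (p : ℤ), by
      intro m hm
      by_contra hlt
      apply hm
      apply HahnSeries.coeff_eq_zero_of_lt_order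
      have hp : (0 : ℤ) < (p : ℤ) := by exact_mod_cast Nat.pos_of_ne_zero (NeZero.ne p)
      have h1 : m + 1 ≤ (f.order - r) / (p : ℤ) := not_le.mp hlt
      have h2 : (m + 1) * (p : ℤ) ≤ f.order - r := (Int.le_ediv_iff_mul_le hp).mp h1
      nlinarith⟩

@[simp]
theorem secL_coeff (p : ℕ) [NeZero p] (r : ℤ) (f : LaurentSeries R) (m : ℤ) :
    (secL p r f).coeff m = f.coeff ((p : ℤ) * m + r) := rfl

theorem secL_coeffMap {S : Type*} [CommRing S] (φ : R →+* S) (p : ℕ) [NeZero p] (r : ℤ)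
    (f : LaurentSeries R) : secL p r (coeffMap φ f) = coeffMap φ (secL p r f) := by
  ext m
  simp

theorem secL_add (p : ℕ) [NeZero p] (r : ℤ) (f g : LaurentSeries R) :
    secL p r (f + g) = secL p r f + secL p r g := by
  ext m
  simp

theorem secL_zero (p : ℕ) [NeZero p] (r : ℤ) : secL p r (0 : LaurentSeries R) = 0 := by
  ext m
  simp

theorem secL_sum (p : ℕ) [NeZero p] (r : ℤ) {ι : Type*} (s : Finset ι)
    (F : ι → LaurentSeries R) : secL p r (∑ i ∈ s, F i) = ∑ i ∈ s, secL p r (F i) := by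
  classical
  induction s using Finset.induction_on with
  | empty => simp [secL_zero]
  | insert a s ha ih => rw [Finset.sum_insert ha, Finset.sum_insert ha, secL_add, ih]

/-- Shifting by `T ^ k` shifts the section index. -/
theorem secL_mul_single (p : ℕ) [NeZero p] (r k : ℤ) (f : LaurentSeries R) :
    secL p r (f * HahnSeries.single k (1 : R)) = secL p (r - k) f := by
  ext m
  rw [secL_coeff, secL_coeff]
  have : (p : ℤ) * m + r = ((p : ℤ) * m + (r - k)) + k := by ring
  rw [this, HahnSeries.coeff_mul_single_add, _root_.mul_one]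

/-- The recombination `∑ᵢ V_p(aᵢ) Tⁱ` of a family of sections. -/
def recomb (p : ℕ) [NeZero p] (a : Fin p → LaurentSeries R) : LaurentSeries R :=
  ∑ i : Fin p, qExpand R p (a i) * HahnSeries.single ((i : ℕ) : ℤ) (1 : R)

theorem coeff_qExpand_mul_single (p : ℕ) [NeZero p] (a : LaurentSeries R) (i : Fin p)
    (m : ℤ) (j : Fin p) :
    (qExpand R p a * HahnSeries.single ((i : ℕ) : ℤ) (1 : R)).coeff
        ((p : ℤ) * m + ((j : ℕ) : ℤ)) = if j = i then a.coeff m else 0 := by
  have hi : ((i : ℕ) : ℤ) < p := by exact_mod_cast i.2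
  have hj : ((j : ℕ) : ℤ) < p := by exact_mod_cast j.2
  have hi0 : (0 : ℤ) ≤ ((i : ℕ) : ℤ) := by positivity
  have hj0 : (0 : ℤ) ≤ ((j : ℕ) : ℤ) := by positivity
  have h : (p : ℤ) * m + ((j : ℕ) : ℤ) =
      ((p : ℤ) * m + ((j : ℕ) : ℤ) - ((i : ℕ) : ℤ)) + ((i : ℕ) : ℤ) := by ring
  rw [h, HahnSeries.coeff_mul_single_add, _root_.mul_one]
  split_ifs with hji
  · subst hji
    rw [add_sub_cancel_right, qExpand_coeff_mul]
  · apply qExpand_coeff_of_not_dvd
    intro hd
    apply hji
    apply Fin.ext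
    have h2 : (p : ℤ) ∣ ((j : ℕ) : ℤ) - ((i : ℕ) : ℤ) := by
      have : (p : ℤ) * m + ((j : ℕ) : ℤ) - ((i : ℕ) : ℤ)
          = (p : ℤ) * m + (((j : ℕ) : ℤ) - ((i : ℕ) : ℤ)) := by ring
      rw [this] at hd
      exact (Int.dvd_add_right (dvd_mul_right _ _)).mp hd
    obtain ⟨c, hc⟩ := h2
    have hc0 : c = 0 := by
      by_contra hne
      rcases lt_or_gt_of_ne hne with hlt | hgt
      · have : (p : ℤ) * c ≤ (p : ℤ) * (-1) := by
          apply mul_le_mul_of_nonneg_left _ (by positivity)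
          omega
        omega
      · have : (p : ℤ) * 1 ≤ (p : ℤ) * c := by
          apply mul_le_mul_of_nonneg_left _ (by positivity)
          omega
        omega
    rw [hc0, _root_.MulZeroClass.mul_zero] at hc
    have : ((j : ℕ) : ℤ) = ((i : ℕ) : ℤ) := by omega
    exact_mod_cast this

/-- Sections of a recombination. -/
theorem secL_recomb (p : ℕ) [NeZero p] (a : Fin p → LaurentSeries R) (j : Fin p) :
    secL p ((j : ℕ) : ℤ) (recomb p a) = a j := by
  ext m
  rw [secL_coeff, recomb, HahnSeries.coeff_sum]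
  simp_rw [coeff_qExpand_mul_single]
  simp

/-- Every Laurent series is the recombination of its sections. -/
theorem recomb_secL (p : ℕ) [NeZero p] (f : LaurentSeries R) :
    recomb p (fun i : Fin p => secL p ((i : ℕ) : ℤ) f) = f := by
  have hp : (0 : ℤ) < (p : ℤ) := by exact_mod_cast Nat.pos_of_ne_zero (NeZero.ne p)
  ext n
  have hlt : (n % (p : ℤ)).toNat < p := by
    have h1 : n % (p : ℤ) < p := Int.emod_lt_of_pos n hp
    have h0 : 0 ≤ n % (p : ℤ) := Int.emod_nonneg n hp.ne'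
    omega
  set j : Fin p := ⟨(n % (p : ℤ)).toNat, hlt⟩ with hj
  have hjv : ((j : ℕ) : ℤ) = n % (p : ℤ) := by
    simp only [hj]
    exact Int.toNat_of_nonneg (Int.emod_nonneg n hp.ne')
  have hn : n = (p : ℤ) * (n / (p : ℤ)) + ((j : ℕ) : ℤ) := by
    rw [hjv]; have := Int.emod_add_mul_ediv n (p : ℤ); linarith
  rw [recomb, HahnSeries.coeff_sum]
  conv_lhs =>
    enter [2, i]
    rw [hn, coeff_qExpand_mul_single]
  simp only [Finset.sum_ite_eq, Finset.mem_univ, if_true, secL_coeff]
  rw [← hn]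

/-- `V_p`-semilinearity of the sections. -/
theorem secL_qExpand_mul (p : ℕ) [NeZero p] (a h : LaurentSeries R) (j : Fin p) :
    secL p ((j : ℕ) : ℤ) (qExpand R p a * h) = a * secL p ((j : ℕ) : ℤ) h := by
  conv_lhs => rw [← recomb_secL p h]
  have : qExpand R p a * recomb p (fun i : Fin p => secL p ((i : ℕ) : ℤ) h)
      = recomb p (fun i : Fin p => a * secL p ((i : ℕ) : ℤ) h) := by
    simp only [recomb, Finset.mul_sum, _root_.map_mul, _root_.mul_assoc]
  rw [this, secL_recomb]

/-- The section matrix of `f`: entry `(i', i)` is the `i'`-th section of `f · Tⁱ`,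
i.e. the `(i' - i)`-th section of `f`. -/
def secMat (p : ℕ) [NeZero p] (f : LaurentSeries R) :
    Matrix (Fin p) (Fin p) (LaurentSeries R) :=
  fun i' i => secL p ((i' : ℕ) : ℤ) (f * HahnSeries.single ((i : ℕ) : ℤ) (1 : R))

theorem secMat_apply (p : ℕ) [NeZero p] (f : LaurentSeries R) (i' i : Fin p) :
    secMat p f i' i = secL p ((i' : ℕ) : ℤ) (f * HahnSeries.single ((i : ℕ) : ℤ) (1 : R)) :=
  rfl

theorem secMat_apply' (p : ℕ) [NeZero p] (f : LaurentSeries R) (i' i : Fin p) :
    secMat p f i' i = secL p (((i' : ℕ) : ℤ) - ((i : ℕ) : ℤ)) f := by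
  rw [secMat_apply, secL_mul_single]

theorem secMat_coeffMap {S : Type*} [CommRing S] (φ : R →+* S) (p : ℕ) [NeZero p]
    (f : LaurentSeries R) :
    secMat p (coeffMap φ f) = (secMat p f).map (coeffMap φ) := by
  ext i' i : 1
  simp only [secMat_apply', Matrix.map_apply, secL_coeffMap]

/-- Key identity: `f · Tⁱ = ∑_{i'} V_p(M_{i',i}) · T^{i'}`. -/
theorem mul_single_eq_recomb (p : ℕ) [NeZero p] (f : LaurentSeries R) (i : Fin p) :
    f * HahnSeries.single ((i : ℕ) : ℤ) (1 : R) = recomb p (fun i' => secMat p f i' i) :=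
  (recomb_secL p _).symm

/-- The section matrix is multiplicative. -/
theorem secMat_mul (p : ℕ) [NeZero p] (f g : LaurentSeries R) :
    secMat p (f * g) = secMat p f * secMat p g := by
  ext i' i : 1
  have hmul : (secMat p f * secMat p g) i' i = ∑ j, secMat p f i' j * secMat p g j i :=
    Matrix.mul_apply
  rw [hmul, secMat_apply, _root_.mul_assoc, mul_single_eq_recomb p g i, recomb,
    Finset.mul_sum, secL_sum p _ Finset.univ]
  apply Finset.sum_congr rfl
  intro j _
  rw [← _root_.mul_assoc, mul_comm f, _root_.mul_assoc, secL_qExpand_mul, mul_comm]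
  rfl

theorem secL_single_one (p : ℕ) [NeZero p] (i' i : Fin p) :
    secL p ((i' : ℕ) : ℤ) (HahnSeries.single ((i : ℕ) : ℤ) (1 : R)) =
      if i' = i then 1 else 0 := by
  have h := secL_recomb p (fun j : Fin p => if j = i then (1 : LaurentSeries R) else 0) i'
  have h2 : recomb p (fun j : Fin p => if j = i then (1 : LaurentSeries R) else 0)
      = HahnSeries.single ((i : ℕ) : ℤ) (1 : R) := by
    rw [recomb, Finset.sum_eq_single i]
    · simp
    · intro b _ hb; simp [hb]
    · intro h; exact absurd (Finset.mem_univ _) h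
  rw [h2] at h
  exact h

/-- The section matrix of `V_p a` is the scalar matrix `a`. -/
theorem secMat_qExpand (p : ℕ) [NeZero p] (a : LaurentSeries R) :
    secMat p (qExpand R p a) = Matrix.scalar (Fin p) a := by
  ext i' i : 1
  rw [secMat_apply, secL_qExpand_mul, secL_single_one, Matrix.scalar_apply,
    Matrix.diagonal_apply]
  split_ifs <;> simp

theorem secMat_one (p : ℕ) [NeZero p] : secMat p (1 : LaurentSeries R) = 1 := by
  have := secMat_qExpand p (1 : LaurentSeries R)
  rwa [_root_.map_one, _root_.map_one] at this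

theorem secMat_pow (p : ℕ) [NeZero p] (f : LaurentSeries R) (n : ℕ) :
    secMat p (f ^ n) = secMat p f ^ n := by
  induction n with
  | zero => rw [pow_zero, pow_zero, secMat_one]
  | succ n ih => rw [pow_succ, pow_succ, secMat_mul, ih]

/-- **Cayley–Hamilton for the section matrix**: the characteristic polynomial of `secMat p f`,
with coefficients pushed along `V_p`, kills `f`. -/
theorem secMat_charpoly_eval (p : ℕ) [NeZero p] (f : LaurentSeries R) :
    (((secMat p f).charpoly).map (qExpand R p)).eval f = 0 := by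
  set A : Matrix (Fin p) (Fin p) (LaurentSeries R) := (secMat p f).map (qExpand R p) with hA
  set v : Fin p → LaurentSeries R := fun i => HahnSeries.single ((i : ℕ) : ℤ) (1 : R) with hv
  set B : Matrix (Fin p) (Fin p) (LaurentSeries R) := Matrix.scalar (Fin p) f - Aᵀ with hB
  have hBv : B *ᵥ v = 0 := by
    funext i
    simp only [hB, Matrix.sub_mulVec, Pi.sub_apply, Pi.zero_apply]
    rw [sub_eq_zero]
    have h1 : (Matrix.scalar (Fin p) f *ᵥ v) i = f * v i := by
      simp [Matrix.scalar_apply, Matrix.mulVec, dotProduct, Matrix.diagonal_apply]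
    rw [h1]
    simp only [Matrix.mulVec, dotProduct, Matrix.transpose_apply, hA, Matrix.map_apply, hv]
    exact mul_single_eq_recomb p f i
  have hdet : B.det • v = 0 := by
    have h : (Matrix.adjugate B * B) *ᵥ v = (B.det • (1 : Matrix (Fin p) (Fin p) _)) *ᵥ v := by
      rw [Matrix.adjugate_mul]
    rw [← Matrix.mulVec_mulVec, hBv, Matrix.mulVec_zero] at h
    rw [Matrix.smul_mulVec, Matrix.one_mulVec] at h
    exact h.symm
  have h0 : B.det * v ⟨0, Nat.pos_of_ne_zero (NeZero.ne p)⟩ = 0 := by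
    have := congrFun hdet ⟨0, Nat.pos_of_ne_zero (NeZero.ne p)⟩
    simpa using this
  have hv0 : v ⟨0, Nat.pos_of_ne_zero (NeZero.ne p)⟩ = 1 := by
    simp only [hv]
    rfl
  rw [hv0, _root_.mul_one] at h0
  rw [← Matrix.charpoly_map, ← hA, ← Matrix.charpoly_transpose, Matrix.eval_charpoly]
  exact h0

end Fermat.Agent.S37.H400

end

end
-- ===== PACK-END S37/H400/KronSection.lean

-- ===== PACK-BEGIN S24/H504/PlaceOrd.lean
section



/-!
# Extra API for `AlgebraicCurve.Place.ord`
-/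

set_option autoImplicit false

open IsDedekindDomain WithZero

namespace Fermat.Agent.S24.H504

open AlgebraicCurve

variable {K F : Type*} [Field K] [Field F] [Algebra K F] (v : Place K F)

theorem adicValuation_eq_exp_neg_ord {f : F} (hf : f ≠ 0) :
    v.adicValuation f = exp (-(v.ord f)) := by
  have h := v.adicValuation_ne_zero hf
  rw [Place.ord, neg_neg, WithZero.exp_log h]

theorem ord_le_ord_iff {f g : F} (hf : f ≠ 0) (hg : g ≠ 0) :
    v.ord f ≤ v.ord g ↔ v.adicValuation g ≤ v.adicValuation f := by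
  rw [adicValuation_eq_exp_neg_ord v hf, adicValuation_eq_exp_neg_ord v hg, WithZero.exp_le_exp]
  omega

theorem ord_add_ge {f g : F} (hf : f ≠ 0) (hg : g ≠ 0) (hfg : f + g ≠ 0) :
    min (v.ord f) (v.ord g) ≤ v.ord (f + g) := by
  have h := v.adicValuation.map_add f g
  rcases _root_.le_max_iff.mp h with h1 | h1
  · exact (min_le_left _ _).trans ((ord_le_ord_iff v hf hfg).mpr h1)
  · exact (min_le_right _ _).trans ((ord_le_ord_iff v hg hfg).mpr h1)

theorem mem_iff_adicValuation_le_one (f : F) :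
    f ∈ v.toValuationSubring ↔ v.adicValuation f ≤ 1 := by
  constructor
  · intro hf
    have := v.heightOneSpectrum.valuation_le_one (K := F) (⟨f, hf⟩ : v.toValuationSubring)
    simpa [Place.adicValuation] using this
  · intro hf
    obtain ⟨a, ha⟩ := IsDiscreteValuationRing.exists_lift_of_le_one (A := v.toValuationSubring)
      (K := F) (x := f) hf
    rw [← ha]
    exact a.2

theorem mem_iff_ord_nonneg {f : F} (hf : f ≠ 0) :
    f ∈ v.toValuationSubring ↔ 0 ≤ v.ord f := by
  rw [mem_iff_adicValuation_le_one, adicValuation_eq_exp_neg_ord v hf,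
    ← WithZero.exp_zero, WithZero.exp_le_exp]
  omega

/-- Membership in the valuation ring, with no side condition (`ord 0 = 0`). -/
theorem mem_iff_ord_nonneg' (f : F) :
    f ∈ v.toValuationSubring ↔ 0 ≤ v.ord f := by
  rcases eq_or_ne f 0 with rfl | hf
  · simp [v.toValuationSubring.zero_mem]
  · exact mem_iff_ord_nonneg v hf

theorem ord_neg (f : F) : v.ord (-f) = v.ord f := by
  simp [Place.ord, Valuation.map_neg]

theorem ord_algebraMap (c : K) : v.ord (algebraMap K F c) = 0 := by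
  rcases eq_or_ne c 0 with rfl | hc
  · simp
  have h1 : (0 : ℤ) ≤ v.ord (algebraMap K F c) :=
    (mem_iff_ord_nonneg' v _).mp (v.algebraMap_mem' c)
  have h2 : (0 : ℤ) ≤ v.ord (algebraMap K F c⁻¹) :=
    (mem_iff_ord_nonneg' v _).mp (v.algebraMap_mem' c⁻¹)
  rw [map_inv₀, Place.ord_inv] at h2
  omega

theorem ord_pow (f : F) (n : ℕ) : v.ord (f ^ n) = n * v.ord f := by
  have := v.ord_zpow f n
  simpa using this

theorem ord_div {f g : F} (hf : f ≠ 0) (hg : g ≠ 0) : v.ord (f / g) = v.ord f - v.ord g := by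
  rw [div_eq_mul_inv, v.ord_mul hf (inv_ne_zero hg), Place.ord_inv]
  ring

theorem ord_sub_ge {f g : F} (hf : f ≠ 0) (hg : g ≠ 0) (hfg : f - g ≠ 0) :
    min (v.ord f) (v.ord g) ≤ v.ord (f - g) := by
  have := ord_add_ge v hf (neg_ne_zero.mpr hg) (by rwa [← sub_eq_add_neg])
  rwa [_root_.Fermat.Agent.S24.H504.ord_neg, ← sub_eq_add_neg] at this

theorem ord_add_eq_of_lt {f g : F} (hf : f ≠ 0) (hg : g ≠ 0) (h : v.ord f < v.ord g) :
    v.ord (f + g) = v.ord f := by
  have hfg : f + g ≠ 0 := by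
    intro h0
    have : g = -f := by linear_combination h0
    rw [this, _root_.Fermat.Agent.S24.H504.ord_neg] at h
    exact lt_irrefl _ h
  have h1 := ord_add_ge v hf hg hfg
  rw [min_eq_left h.le] at h1
  by_contra hne
  have h2 : v.ord f < v.ord (f + g) := lt_of_le_of_ne h1 (Ne.symm hne)
  have h3 := ord_sub_ge v hfg hg (by simpa using hf)
  rw [add_sub_cancel_right] at h3
  have := lt_min h2 h
  omega

theorem exists_ord_eq_one : ∃ ϖ : F, v.ord ϖ = 1 := by
  obtain ⟨π, hπ⟩ := IsDiscreteValuationRing.exists_irreducible v.toValuationSubring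
  exact ⟨π, v.ord_coe_irreducible hπ⟩

theorem ne_zero_of_ord_ne_zero {f : F} (h : v.ord f ≠ 0) : f ≠ 0 := by
  rintro rfl
  simp at h

/-- The sum of two elements of positive order has positive order or is zero. -/
theorem ord_add_pos {f g : F} (hf : f = 0 ∨ 0 < v.ord f) (hg : g = 0 ∨ 0 < v.ord g) :
    f + g = 0 ∨ 0 < v.ord (f + g) := by
  rcases hf with rfl | hf
  · simpa using hg
  rcases hg with rfl | hg
  · right; simpa using hf
  by_cases h0 : f + g = 0
  · exact Or.inl h0
  right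
  have := ord_add_ge v (ne_zero_of_ord_ne_zero v hf.ne') (ne_zero_of_ord_ne_zero v hg.ne') h0
  exact lt_of_lt_of_le (lt_min hf hg) this

/-- A finite sum of elements of nonnegative order has nonnegative order. -/
theorem ord_add_nonneg {f g : F} (hf : 0 ≤ v.ord f) (hg : 0 ≤ v.ord g) :
    0 ≤ v.ord (f + g) := by
  rw [← mem_iff_ord_nonneg'] at *
  exact v.toValuationSubring.add_mem _ _ hf hg

theorem ord_mul_nonneg {f g : F} (hf : 0 ≤ v.ord f) (hg : 0 ≤ v.ord g) :
    0 ≤ v.ord (f * g) := by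
  rw [← mem_iff_ord_nonneg'] at *
  exact v.toValuationSubring.mul_mem _ _ hf hg

theorem ord_sum_nonneg {ι : Type*} (s : Finset ι) (f : ι → F) (h : ∀ i ∈ s, 0 ≤ v.ord (f i)) :
    0 ≤ v.ord (∑ i ∈ s, f i) := by
  rw [← mem_iff_ord_nonneg']
  exact Subring.sum_mem v.toValuationSubring.toSubring
    fun i hi => (mem_iff_ord_nonneg' v _).mpr (h i hi)

end Fermat.Agent.S24.H504

end
-- ===== PACK-END S24/H504/PlaceOrd.lean

-- ===== PACK-BEGIN S29/H102/RootDesc.lean
section
/-
S29 / M4b / K4 (helper102) — ROOT DESCENT for Laurent series.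

If `K` is an algebraically closed field, `ι : K →+* L` a ring hom into a field of characteristic
zero and `s ∈ L((q))` satisfies `s ^ p = coeffMap ι w` for some `w ∈ K((q))`, `p ≠ 0`, then all
coefficients of `s` lie in the image of `ι`, i.e. `s = coeffMap ι v` for some `v ∈ K((q))`.

Proof: the power series part `P` of `s` satisfies the linear differential equation
`G' * P = p • (G * P')` with `G = P ^ p` (coefficients in `ι K`), which determines the coefficients
of `P` recursively from the constant one; the constant coefficient is a root of `X ^ p - ι c`.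

Mathlib + Prelude `coeffMap` only.  Namespace `Fermat.Agent.S29.H102`.
-/



set_option autoImplicit false

noncomputable section

namespace Fermat.Agent.S29.H102

open ModularCurve PowerSeries

variable {K L : Type*} [Field K] [Field L]

/-- An element of `L` which is a root of `X ^ p - ι c` lies in the image of the algebraically
closed field `K`. -/
theorem RootDesc_const [IsAlgClosed K] (ι : K →+* L) {p : ℕ} (hp : p ≠ 0) {a : L} {c : K}
    (h : a ^ p = ι c) : a ∈ ι.fieldRange := by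
  classical
  let _ : Algebra K L := ι.toAlgebra
  have halg : IsAlgebraic K a := by
    refine ⟨Polynomial.X ^ p - Polynomial.C c, ?_, ?_⟩
    · exact Polynomial.X_pow_sub_C_ne_zero (Nat.pos_of_ne_zero hp) c
    · simp only [map_sub, map_pow, Polynomial.aeval_X, Polynomial.aeval_C]
      rw [h]
      exact sub_self _
  have hint : IsIntegral K a := halg.isIntegral
  have hq : (minpoly K a).leadingCoeff = 1 := minpoly.monic hint
  have hdeg : (minpoly K a).degree = 1 :=
    IsAlgClosed.degree_eq_one_of_irreducible K (minpoly.irreducible hint)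
  have h0 : Polynomial.aeval a (minpoly K a) = 0 := minpoly.aeval K a
  rw [Polynomial.eq_X_add_C_of_degree_eq_one hdeg, hq, Polynomial.C_1, one_mul,
    Polynomial.aeval_add, Polynomial.aeval_X, Polynomial.aeval_C,
    add_eq_zero_iff_eq_neg] at h0
  rw [RingHom.mem_fieldRange]
  refine ⟨-(minpoly K a).coeff 0, ?_⟩
  have h1 : ι (-(minpoly K a).coeff 0) = -(algebraMap K L) ((minpoly K a).coeff 0) :=
    map_neg ι _
  rw [h1]
  exact h0.symm

/-- The differential equation satisfied by a `p`-th root. -/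
theorem RootDesc_ode (P : PowerSeries L) (p : ℕ) (hp : p ≠ 0) :
    (d⁄dX L) (P ^ p) * P = (p : PowerSeries L) * (P ^ p * (d⁄dX L) P) := by
  rw [Derivation.leibniz_pow, nsmul_eq_mul, smul_eq_mul]
  have h1 : P ^ p = P ^ (p - 1) * P := by
    rw [← pow_succ, Nat.sub_add_cancel (Nat.one_le_iff_ne_zero.mpr hp)]
  rw [h1]
  ring

/-- Power series version of root descent. -/
theorem RootDesc_powerSeries [IsAlgClosed K] [CharZero L] (ι : K →+* L) {p : ℕ} (hp : p ≠ 0)
    (P : PowerSeries L) (Q : PowerSeries K) (hP0 : constantCoeff P ≠ 0)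
    (h : P ^ p = Q.map ι) : ∀ k, coeff k P ∈ ι.fieldRange := by
  classical
  have hG : ∀ i, coeff i (P ^ p) ∈ ι.fieldRange := by
    intro i
    rw [h, coeff_map]
    exact RingHom.mem_fieldRange.mpr ⟨_, rfl⟩
  have hG0 : coeff 0 (P ^ p) ≠ 0 := by
    rw [coeff_zero_eq_constantCoeff, map_pow]
    exact pow_ne_zero p hP0
  have hnat : ∀ n : ℕ, (n : L) ∈ ι.fieldRange := fun n => natCast_mem _ n
  intro k
  induction k using Nat.strong_induction_on with
  | _ k ih =>
    rcases Nat.eq_zero_or_pos k with rfl | hk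
    · have h0 : (coeff 0 P) ^ p = ι (coeff 0 Q) := by
        have := congrArg (coeff 0) h
        rw [coeff_map] at this
        rw [← this, coeff_zero_eq_constantCoeff, map_pow]
      exact RootDesc_const ι hp h0
    · obtain ⟨m, rfl⟩ : ∃ m, k = m + 1 := ⟨k - 1, (Nat.sub_add_cancel hk).symm⟩
      have hode := congrArg (coeff m) (RootDesc_ode P p hp)
      have hcast : (p : PowerSeries L) = C (p : L) := by simp
      rw [hcast, coeff_C_mul] at hode
      have hmem : ((0, m) : ℕ × ℕ) ∈ Finset.HasAntidiagonal.antidiagonal m := by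
        simp
      set A := ∑ x ∈ Finset.HasAntidiagonal.antidiagonal m,
        coeff (x.1 + 1) (P ^ p) * ((x.1 : L) + 1) * coeff x.2 P with hA
      set B := ∑ x ∈ (Finset.HasAntidiagonal.antidiagonal m).erase (0, m),
          coeff x.1 (P ^ p) * (coeff (x.2 + 1) P * ((x.2 : L) + 1)) with hB
      have hLHS : coeff m ((d⁄dX L) (P ^ p) * P) = A := by
        rw [coeff_mul]
        simp only [coeff_derivative, hA]
      have hRHS : coeff m (P ^ p * (d⁄dX L) P)
          = coeff 0 (P ^ p) * (coeff (m + 1) P * ((m : L) + 1)) + B := by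
        rw [coeff_mul, ← Finset.add_sum_erase _ _ hmem]
        simp only [coeff_derivative, hB]
      rw [hLHS, hRHS] at hode
      -- left side is in the subfield
      have hL : A ∈ ι.fieldRange := by
        refine Subfield.sum_mem _ fun x hx => ?_
        have h2 := Finset.HasAntidiagonal.mem_antidiagonal.mp hx
        have hx2 : x.2 < m + 1 := by omega
        exact mul_mem (mul_mem (hG _) (add_mem (hnat _) (one_mem _))) (ih _ hx2)
      -- the remaining sum on the right is in the subfield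
      have hR : B ∈ ι.fieldRange := by
        refine Subfield.sum_mem _ fun x hx => ?_
        have hx' := Finset.mem_erase.mp hx
        have h2 := Finset.HasAntidiagonal.mem_antidiagonal.mp hx'.2
        have hx1 : x.1 ≠ 0 := by
          intro h0
          apply hx'.1
          ext
          · exact h0
          · simp only
            omega
        have hx2 : x.2 + 1 < m + 1 := by omega
        exact mul_mem (hG _) (mul_mem (ih _ hx2) (add_mem (hnat _) (one_mem _)))
      -- solve for the coefficient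
      have hp0 : (p : L) ≠ 0 := Nat.cast_ne_zero.mpr hp
      have hm0 : ((m : L) + 1) ≠ 0 := by
        have : ((m + 1 : ℕ) : L) ≠ 0 := Nat.cast_ne_zero.mpr (Nat.succ_ne_zero m)
        simpa using this
      have hsolve : coeff (m + 1) P
          = (A - (p : L) * B) / ((p : L) * coeff 0 (P ^ p) * ((m : L) + 1)) := by
        rw [eq_div_iff (mul_ne_zero (mul_ne_zero hp0 hG0) hm0), hode]
        ring
      rw [hsolve]
      exact div_mem (sub_mem hL (mul_mem (hnat p) hR))
        (mul_mem (mul_mem (hnat p) (hG 0)) (add_mem (hnat m) (one_mem _)))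

/-- A Laurent series all of whose coefficients lie in the image of `ι` is a base change. -/
theorem RootDesc_exists_of_coeff_mem (ι : K →+* L) (s : LaurentSeries L)
    (h : ∀ n, s.coeff n ∈ ι.fieldRange) : ∃ v : LaurentSeries K, coeffMap ι v = s := by
  classical
  have hinv : Function.invFun ι 0 = 0 := by
    have := Function.leftInverse_invFun ι.injective (0 : K)
    rwa [map_zero] at this
  refine ⟨s.map (⟨Function.invFun ι, hinv⟩ : ZeroHom L K), ?_⟩
  ext n
  obtain ⟨c, hc⟩ := RingHom.mem_fieldRange.mp (h n)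
  simp only [coeffMap_coeff, HahnSeries.map_coeff, ZeroHom.coe_mk]
  rw [← hc, Function.leftInverse_invFun ι.injective c]

/-- **Root descent.**  A `p`-th root in `L((q))` of a Laurent series with coefficients in the
algebraically closed field `K` has coefficients in `K`. -/
theorem RootDesc_laurent [IsAlgClosed K] [CharZero L] (ι : K →+* L) {p : ℕ} (hp : p ≠ 0)
    (s : LaurentSeries L) (w : LaurentSeries K) (h : s ^ p = coeffMap ι w) :
    ∃ v : LaurentSeries K, coeffMap ι v = s := by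
  classical
  apply RootDesc_exists_of_coeff_mem
  by_cases hs : s = 0
  · intro n
    rw [hs]
    exact zero_mem _
  set n₀ := s.order with hn₀
  set P := s.powerSeriesPart with hP
  -- the shifted series
  set w' : LaurentSeries K := HahnSeries.single (-((p : ℤ) * n₀)) (1 : K) * w with hw'
  set Q : PowerSeries K := PowerSeries.mk fun k => w'.coeff k with hQ
  have hPs : HahnSeries.ofPowerSeries ℤ L P = HahnSeries.single (-n₀) (1 : L) * s :=
    LaurentSeries.ofPowerSeries_powerSeriesPart s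
  have hpow : HahnSeries.ofPowerSeries ℤ L (P ^ p) = coeffMap ι w' := by
    rw [map_pow, hPs, mul_pow, h, hw', map_mul, coeffMap_single, HahnSeries.single_pow,
      one_pow, ι.map_one]
    congr 2
    simp
  have hPQ : P ^ p = Q.map ι := by
    ext k
    rw [coeff_map, hQ, coeff_mk, ← HahnSeries.ofPowerSeries_apply_coeff (Γ := ℤ), hpow,
      coeffMap_coeff]
  have hP0 : constantCoeff P ≠ 0 := by
    rw [← coeff_zero_eq_constantCoeff_apply, hP, LaurentSeries.powerSeriesPart_coeff]
    simpa using HahnSeries.coeff_order_eq_zero.not.mpr hs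
  have hcoeff := RootDesc_powerSeries ι hp P Q hP0 hPQ
  intro n
  by_cases hn : n < n₀
  · rw [HahnSeries.coeff_eq_zero_of_lt_order hn]
    exact zero_mem _
  · obtain ⟨k, hk⟩ : ∃ k : ℕ, n = n₀ + k := by
      refine ⟨(n - n₀).toNat, ?_⟩
      have : 0 ≤ n - n₀ := by omega
      rw [Int.toNat_of_nonneg this]
      ring
    rw [hk, ← LaurentSeries.powerSeriesPart_coeff]
    exact hcoeff k

end Fermat.Agent.S29.H102

end
end
-- ===== PACK-END S29/H102/RootDesc.lean

-- ===== PACK-BEGIN S28/Defs.lean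
section
/-
S28 (Igusa) long-shot -- shared definitions and the interface structure `CoreData`.
All S28 declarations live in namespace `Fermat.Agent.S28`.
-/




set_option autoImplicit false

noncomputable section

open ModularCurve HahnSeries

namespace Fermat.Agent.S28

/-! ### Formal q-series over an arbitrary commutative ring -/

section Formal

variable (R : Type*) [CommRing R]

/-- Formal discriminant `Δ = q ∏ (1 - qⁿ)²⁴` as a Laurent series over `R`. -/
def deltaL : LaurentSeries R :=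
  HahnSeries.single (1 : ℤ) 1 *
    HahnSeries.ofPowerSeries ℤ R (dedekindEtaUnit.map (Int.castRingHom R))

/-- Formal inverse of `Δ`: `q⁻¹ ∏ (1 - qⁿ)⁻²⁴`. -/
def deltaInvL : LaurentSeries R :=
  HahnSeries.single (-1 : ℤ) 1 *
    HahnSeries.ofPowerSeries ℤ R (dedekindEtaUnitInv.map (Int.castRingHom R))

/-- `θ = q d/dq` on Laurent series: multiplies the coefficient of `qⁿ` by `n`. -/
def thetaL (f : LaurentSeries R) : LaurentSeries R where
  coeff n := (n : R) * f.coeff n
  isPWO_support' := f.isPWO_support.mono fun n hn => by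
    simp only [Function.mem_support, ne_eq] at hn ⊢
    intro h
    exact hn (by rw [h, mul_zero])

@[simp] theorem thetaL_coeff (f : LaurentSeries R) (n : ℤ) :
    (thetaL R f).coeff n = (n : R) * f.coeff n := rfl

/-- The modular unit `u_p = Δ(q^p)/Δ(q)` as a formal Laurent series. -/
def unitL (p : ℕ) [NeZero p] : LaurentSeries R :=
  qExpand R p (deltaL R) * deltaInvL R

end Formal

/-! ### Fields -/

/-- `k(j) ⊂ k((q))`. -/
def jField (k : Type*) [Field k] : IntermediateField k (LaurentSeries k) :=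
  IntermediateField.adjoin k {jqModC k}

/-- The integral generators `j(q^d)`, `d ∣ N`, in `ℤ((q))`. -/
def intDivisorExpansions (N : ℕ) : Set (LaurentSeries ℤ) :=
  {x | ∃ (d : ℕ) (_ : NeZero d), d ∣ N ∧ x = qExpand ℤ d (jqModC ℤ)}

/-- Evaluation `ℤ[Y] → A((q))`, `Y ↦ y`. -/
abbrev evalAt {A : Type*} [CommRing A] (y : LaurentSeries A) : Polynomial ℤ →+* LaurentSeries A :=
  (Polynomial.aeval (R := ℤ) y).toRingHom

/-- Prime-level input from the analytic team: the modular polynomial `Φ_p ∈ ℤ[Y][X]`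
(monic of degree `p+1` in `X`) with the two vanishing properties
`Φ_p(j(q^p), j(q)) = 0` and `Φ_p(j(q), j(q^p)) = 0`. -/
structure ModPolyData (p : ℕ) [NeZero p] : Type where
  Φ : Polynomial (Polynomial ℤ)
  monic : Φ.Monic
  natDegree_eq : Φ.natDegree = p + 1
  eval_jp : Φ.eval₂ (evalAt (jqModC ℤ)) (qExpand ℤ p (jqModC ℤ)) = 0
  eval_j : Φ.eval₂ (evalAt (qExpand ℤ p (jqModC ℤ))) (jqModC ℤ) = 0

/-- Prime-level input from the analytic team: `p¹² Δ(q^p)/Δ(q)` is integral over `ℤ[j]`. -/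
structure UnitPolyData (p : ℕ) [NeZero p] : Type where
  W : Polynomial (Polynomial ℤ)
  monic : W.Monic
  eval_unit : W.eval₂ (evalAt (jqModC ℤ)) ((p : LaurentSeries ℤ) ^ 12 * unitL ℤ p) = 0

/-- The interface between the field-theory part [L] and the valuation part [V]:
`n` integral "monomials" spanning `F` over `ℚ(j)` whose reductions to `K((q))`
are linearly independent over `K(j)`; plus integrality of the generators. -/
structure CoreData (N : ℕ) [NeZero N] (K : Type) [Field K] : Prop where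
  exists_basis : ∃ (n : ℕ) (y : Fin n → LaurentSeries ℤ),
    (∀ i, y i ∈ Subring.closure (intDivisorExpansions N)) ∧
    (∀ x ∈ modularFunctionFieldFull N,
      x ∈ Submodule.span (jField ℚ)
        (Set.range fun i => coeffMap (Int.castRingHom ℚ) (y i))) ∧
    LinearIndependent (jField K) (fun i => coeffMap (Int.castRingHom K) (y i))
  integral : ∀ (d : ℕ) [NeZero d], d ∣ N →
    ∃ P : Polynomial (Polynomial ℤ), P.Monic ∧
      P.eval₂ (evalAt (jqModC ℤ)) (qExpand ℤ d (jqModC ℤ)) = 0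

end Fermat.Agent.S28

end

end
-- ===== PACK-END S28/Defs.lean

-- ===== PACK-BEGIN S28/H685/QDict.lean
section


/-!
# S28 helper (helper685): dictionary between convergent `q`-series and functions on `ℍ`

`HasQExp h f A` : the function `f : ℍ → ℂ` is, at every point `τ`, the sum of the power
series `A` evaluated at `q = exp (2 π i τ / h)`.

Closure under ring operations, uniqueness of the coefficients, holomorphy, boundedness at `i∞`,
and closure under inverses.
-/

set_option autoImplicit false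

namespace Fermat.Agent.S28.H685

open UpperHalfPlane Function Complex Filter
open scoped Topology Manifold

noncomputable section

local notation "𝕢" => Periodic.qParam

/-- `f` is the sum of the power series `A` in the parameter `q = exp (2 π i τ / h)`. -/
def HasQExp (h : ℝ) (f : ℍ → ℂ) (A : PowerSeries ℂ) : Prop :=
  ∀ τ : ℍ, HasSum (fun n : ℕ => PowerSeries.coeff n A * 𝕢 h τ ^ n) (f τ)

namespace HasQExp

variable {h : ℝ} {f g : ℍ → ℂ} {A B : PowerSeries ℂ}

theorem congr_fun (hf : HasQExp h f A) (hfg : ∀ τ, f τ = g τ) : HasQExp h g A :=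
  fun τ => hfg τ ▸ hf τ

theorem zero : HasQExp h (fun _ => 0) 0 := fun τ => by
  simp [hasSum_zero]

theorem add (hf : HasQExp h f A) (hg : HasQExp h g B) :
    HasQExp h (fun τ => f τ + g τ) (A + B) := fun τ => by
  simpa [add_mul] using (hf τ).add (hg τ)

theorem neg (hf : HasQExp h f A) : HasQExp h (fun τ => -f τ) (-A) := fun τ => by
  simpa using (hf τ).neg

theorem sub (hf : HasQExp h f A) (hg : HasQExp h g B) :
    HasQExp h (fun τ => f τ - g τ) (A - B) := fun τ => by
  simpa [sub_mul] using (hf τ).sub (hg τ)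

theorem const_mul (c : ℂ) (hf : HasQExp h f A) :
    HasQExp h (fun τ => c * f τ) (PowerSeries.C c * A) := fun τ => by
  simpa [mul_assoc] using (hf τ).mul_left c

theorem const (c : ℂ) : HasQExp h (fun _ => c) (PowerSeries.C c) := fun τ => by
  have h0 : ∀ n : ℕ, n ≠ 0 → PowerSeries.coeff n (PowerSeries.C c) * 𝕢 h τ ^ n = 0 := by
    intro n hn
    simp [PowerSeries.coeff_C, hn]
  have := hasSum_single (f := fun n : ℕ => PowerSeries.coeff n (PowerSeries.C c) * 𝕢 h τ ^ n) 0
    (fun n hn => h0 n hn)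
  simpa using this

theorem one : HasQExp h (fun _ => 1) 1 := by
  simpa using const (h := h) 1

theorem X : HasQExp h (fun τ => 𝕢 h τ) PowerSeries.X := fun τ => by
  have h0 : ∀ n : ℕ, n ≠ 1 → PowerSeries.coeff n (PowerSeries.X : PowerSeries ℂ) * 𝕢 h τ ^ n = 0 := by
    intro n hn
    simp [PowerSeries.coeff_X, hn]
  have := hasSum_single (f := fun n : ℕ => PowerSeries.coeff n (PowerSeries.X : PowerSeries ℂ)
    * 𝕢 h τ ^ n) 1 (fun n hn => h0 n hn)
  simpa using this

theorem summable_norm (hf : HasQExp h f A) (τ : ℍ) :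
    Summable (fun n : ℕ => ‖PowerSeries.coeff n A * 𝕢 h τ ^ n‖) :=
  (hf τ).summable.norm

theorem mul (hf : HasQExp h f A) (hg : HasQExp h g B) :
    HasQExp h (fun τ => f τ * g τ) (A * B) := fun τ => by
  have h1 := hf.summable_norm τ
  have h2 := hg.summable_norm τ
  have hs := summable_norm_sum_mul_antidiagonal_of_summable_norm h1 h2
  have ht := tsum_mul_tsum_eq_tsum_sum_antidiagonal_of_summable_norm h1 h2
  rw [(hf τ).tsum_eq, (hg τ).tsum_eq] at ht
  have hterm : ∀ n : ℕ, PowerSeries.coeff n (A * B) * 𝕢 h τ ^ n =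
      ∑ kl ∈ Finset.HasAntidiagonal.antidiagonal n, (PowerSeries.coeff kl.1 A * 𝕢 h τ ^ kl.1) *
        (PowerSeries.coeff kl.2 B * 𝕢 h τ ^ kl.2) := by
    intro n
    rw [PowerSeries.coeff_mul, Finset.sum_mul]
    refine Finset.sum_congr rfl fun kl hkl => ?_
    have : kl.1 + kl.2 = n := Finset.HasAntidiagonal.mem_antidiagonal.mp hkl
    rw [← this, pow_add]
    ring
  simp_rw [hterm]
  rw [ht]
  exact hs.of_norm.hasSum

theorem pow (hf : HasQExp h f A) (n : ℕ) : HasQExp h (fun τ => f τ ^ n) (A ^ n) := by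
  induction n with
  | zero => simpa using one (h := h)
  | succ n ih => simpa [pow_succ] using ih.mul hf

theorem finset_sum {ι : Type*} (s : Finset ι) (F : ι → ℍ → ℂ) (P : ι → PowerSeries ℂ)
    (hF : ∀ i ∈ s, HasQExp h (F i) (P i)) :
    HasQExp h (fun τ => ∑ i ∈ s, F i τ) (∑ i ∈ s, P i) := by
  classical
  induction s using Finset.induction_on with
  | empty => simpa using zero (h := h)
  | insert a s ha ih =>
    simp only [Finset.sum_insert ha]
    exact (hF a (Finset.mem_insert_self a s)).add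
      (ih fun i hi => hF i (Finset.mem_insert_of_mem hi))

theorem finset_prod {ι : Type*} (s : Finset ι) (F : ι → ℍ → ℂ) (P : ι → PowerSeries ℂ)
    (hF : ∀ i ∈ s, HasQExp h (F i) (P i)) :
    HasQExp h (fun τ => ∏ i ∈ s, F i τ) (∏ i ∈ s, P i) := by
  classical
  induction s using Finset.induction_on with
  | empty => simpa using one (h := h)
  | insert a s ha ih =>
    simp only [Finset.prod_insert ha]
    exact (hF a (Finset.mem_insert_self a s)).mul
      (ih fun i hi => hF i (Finset.mem_insert_of_mem hi))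

end HasQExp

/-! ### Analytic consequences -/

/-- The formal multilinear series attached to a power series. -/
def pser (A : PowerSeries ℂ) : FormalMultilinearSeries ℂ ℂ ℂ :=
  .ofScalars ℂ fun n => PowerSeries.coeff n A

/-- The sum of the power series `A`, as a function on `ℂ`. -/
def psum (A : PowerSeries ℂ) : ℂ → ℂ := (pser A).sum

theorem pser_apply (A : PowerSeries ℂ) (n : ℕ) (q : ℂ) :
    (pser A n fun _ => q) = PowerSeries.coeff n A * q ^ n := by
  simp [pser, mul_comm]

theorem pser_norm (A : PowerSeries ℂ) (n : ℕ) : ‖pser A n‖ = ‖PowerSeries.coeff n A‖ := by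
  simp [pser]

theorem pser_coeff (A : PowerSeries ℂ) (n : ℕ) : (pser A).coeff n = PowerSeries.coeff n A := by
  simp [pser, FormalMultilinearSeries.coeff_ofScalars]

theorem pser_injective : Function.Injective pser := by
  intro A B hAB
  ext n
  rw [← pser_coeff A, ← pser_coeff B, hAB]

/-- Every point of the punctured unit disc is `𝕢 h τ` for some `τ`. -/
theorem exists_qParam_eq {h : ℝ} (hh : 0 < h) {q : ℂ} (hq : ‖q‖ < 1) (hq0 : q ≠ 0) :
    ∃ τ : ℍ, 𝕢 h τ = q :=
  ⟨⟨Periodic.invQParam h q, Periodic.im_invQParam_pos_of_norm_lt_one hh hq hq0⟩,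
    Periodic.qParam_right_inv hh.ne' hq0⟩

/-- Summability of `A` at every point of the open unit disc implies radius at least one. -/
theorem one_le_radius_of_summable (A : PowerSeries ℂ)
    (hA : ∀ q : ℂ, ‖q‖ < 1 → Summable fun n : ℕ => PowerSeries.coeff n A * q ^ n) :
    1 ≤ (pser A).radius := by
  refine le_of_forall_lt_imp_le_of_dense fun r hr => ?_
  lift r to NNReal using hr.ne_top
  apply FormalMultilinearSeries.le_radius_of_summable
  have h1 : ‖((r : ℝ) : ℂ)‖ < 1 := by
    simpa using hr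
  have h2 := (hA (r : ℝ) h1).norm
  refine h2.congr fun n => ?_
  rw [pser_norm, _root_.norm_mul, _root_.norm_pow, Complex.norm_real, Real.norm_of_nonneg r.coe_nonneg]

theorem eball_zero_one : Metric.eball (0 : ℂ) 1 = Metric.ball 0 1 := by
  rw [← ENNReal.coe_one, Metric.eball_coe, NNReal.coe_one]

theorem hasFPowerSeriesOnBall_psum (A : PowerSeries ℂ) (hA : 1 ≤ (pser A).radius) :
    HasFPowerSeriesOnBall (psum A) (pser A) 0 1 :=
  ((pser A).hasFPowerSeriesOnBall (lt_of_lt_of_le one_pos hA)).mono one_pos hA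

theorem hasSum_psum (A : PowerSeries ℂ) (hA : 1 ≤ (pser A).radius) {q : ℂ} (hq : ‖q‖ < 1) :
    HasSum (fun n : ℕ => PowerSeries.coeff n A * q ^ n) (psum A q) := by
  have := (hasFPowerSeriesOnBall_psum A hA).hasSum (y := q)
    (by rw [eball_zero_one]; simpa using hq)
  simpa only [pser_apply, zero_add] using this

theorem psum_zero_eq (A : PowerSeries ℂ) (hA : 1 ≤ (pser A).radius) :
    psum A 0 = PowerSeries.coeff 0 A := by
  have h1 := hasSum_psum A hA (q := 0) (by simp)
  have h2 : HasSum (fun n : ℕ => PowerSeries.coeff n A * (0 : ℂ) ^ n) (PowerSeries.coeff 0 A) := by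
    have := hasSum_single (f := fun n : ℕ => PowerSeries.coeff n A * (0 : ℂ) ^ n) 0
      (fun n hn => by simp [hn])
    simpa using this
  exact h1.unique h2

theorem differentiableOn_psum (A : PowerSeries ℂ) (hA : 1 ≤ (pser A).radius) :
    DifferentiableOn ℂ (psum A) (Metric.ball 0 1) := by
  have := (hasFPowerSeriesOnBall_psum A hA).differentiableOn
  rwa [eball_zero_one] at this

/-- If two power series of radius at least one have sums that agree on the punctured disc,
they are equal. -/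
theorem eq_of_psum_eq (A B : PowerSeries ℂ) (hA : 1 ≤ (pser A).radius)
    (hB : 1 ≤ (pser B).radius)
    (hAB : ∀ q : ℂ, ‖q‖ < 1 → q ≠ 0 → psum A q = psum B q) : A = B := by
  have hAa := (hasFPowerSeriesOnBall_psum A hA).hasFPowerSeriesAt
  have hBa := (hasFPowerSeriesOnBall_psum B hB).hasFPowerSeriesAt
  have hne : psum A =ᶠ[𝓝[≠] (0 : ℂ)] psum B := by
    have hball : Metric.ball (0 : ℂ) 1 ∈ 𝓝[≠] (0 : ℂ) :=
      mem_nhdsWithin_of_mem_nhds (Metric.ball_mem_nhds 0 one_pos)
    filter_upwards [hball, self_mem_nhdsWithin] with q hq hq0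
    exact hAB q (by simpa using hq) hq0
  have hnhds : psum A =ᶠ[𝓝 (0 : ℂ)] psum B :=
    (hAa.continuousAt.eventuallyEq_nhds_iff_eventuallyEq_nhdsNE hBa.continuousAt).mp hne
  have hBa' : HasFPowerSeriesAt (psum A) (pser B) 0 := hBa.congr hnhds.symm
  exact pser_injective (hAa.eq_formalMultilinearSeries hBa')

namespace HasQExp

variable {h : ℝ} {f g : ℍ → ℂ} {A B : PowerSeries ℂ}

theorem summable_of_norm_lt (hh : 0 < h) (hf : HasQExp h f A) {q : ℂ} (hq : ‖q‖ < 1) :
    Summable fun n : ℕ => PowerSeries.coeff n A * q ^ n := by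
  rcases eq_or_ne q 0 with rfl | hq0
  · exact (hasSum_single (f := fun n : ℕ => PowerSeries.coeff n A * (0 : ℂ) ^ n) 0
      (fun n hn => by simp [hn])).summable
  · obtain ⟨τ, rfl⟩ := exists_qParam_eq hh hq hq0
    exact (hf τ).summable

theorem one_le_radius (hh : 0 < h) (hf : HasQExp h f A) : 1 ≤ (pser A).radius :=
  one_le_radius_of_summable A fun _ hq => hf.summable_of_norm_lt hh hq

theorem psum_qParam (hh : 0 < h) (hf : HasQExp h f A) (τ : ℍ) : psum A (𝕢 h τ) = f τ :=
  (hasSum_psum A (hf.one_le_radius hh) (Periodic.norm_qParam_lt_one hh τ.im_pos)).unique (hf τ)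

/-- Uniqueness of the coefficients. -/
theorem unique (hh : 0 < h) (hf : HasQExp h f A) (hg : HasQExp h f B) : A = B := by
  refine eq_of_psum_eq A B (hf.one_le_radius hh) (hg.one_le_radius hh) fun q hq hq0 => ?_
  obtain ⟨τ, rfl⟩ := exists_qParam_eq hh hq hq0
  rw [hf.psum_qParam hh, hg.psum_qParam hh]

theorem eq_zero (hh : 0 < h) (hf : HasQExp h (fun _ => 0) A) : A = 0 :=
  hf.unique hh zero

/-- A function given by a convergent `q`-series is holomorphic. -/
theorem mdifferentiable (hh : 0 < h) (hf : HasQExp h f A) : MDiff f := by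
  rw [UpperHalfPlane.mdifferentiable_iff]
  have hd : DifferentiableOn ℂ (fun z : ℂ => psum A (𝕢 h z)) {z | 0 < z.im} := by
    intro z hz
    have h1 : DifferentiableAt ℂ (psum A) (𝕢 h z) :=
      (differentiableOn_psum A (hf.one_le_radius hh)).differentiableAt
        (Metric.isOpen_ball.mem_nhds (by simpa using Periodic.norm_qParam_lt_one hh hz))
    have h2 : DifferentiableAt ℂ (𝕢 h) z := (Periodic.differentiable_qParam).differentiableAt
    exact (h1.comp z h2).differentiableWithinAt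
  refine hd.congr fun z hz => ?_
  simp only [Function.comp_apply]
  rw [ofComplex_apply_of_im_pos hz, ← hf.psum_qParam hh]

/-- A function given by a convergent `q`-series is bounded at `i∞`. -/
theorem isBoundedAtImInfty (hh : 0 < h) (hf : HasQExp h f A) : IsBoundedAtImInfty f :=
  isBoundedAtImInfty_of_hasSum_qExpansion (c := fun n => PowerSeries.coeff n A) hh
    (fun τ => by simpa [smul_eq_mul] using hf τ)

/-- The value at a translate by the period. -/
theorem vadd_period (hh : 0 < h) (hf : HasQExp h f A) (τ : ℍ) (τ' : ℍ) (hτ : (τ' : ℂ) = τ + h) :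
    f τ' = f τ := by
  have hq : 𝕢 h τ' = 𝕢 h τ := by
    rw [hτ]
    simp only [Periodic.qParam]
    rw [show 2 * (Real.pi : ℂ) * Complex.I * ((τ : ℂ) + h) / h =
      2 * Real.pi * Complex.I * τ / h + 2 * Real.pi * Complex.I by
        have : (h : ℂ) ≠ 0 := by exact_mod_cast hh.ne'
        field_simp]
    exact Complex.exp_periodic _
  have := hf τ'
  rw [hq] at this
  exact this.unique (hf τ)

/-- Closure under inverses. -/
theorem inv (hh : 0 < h) (hf : HasQExp h f A) (hf0 : ∀ τ, f τ ≠ 0)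
    (hA0 : PowerSeries.coeff 0 A ≠ 0) : HasQExp h (fun τ => (f τ)⁻¹) A⁻¹ := by
  have hA := hf.one_le_radius hh
  have hne : ∀ q ∈ Metric.ball (0 : ℂ) 1, psum A q ≠ 0 := by
    intro q hq
    have hq' : ‖q‖ < 1 := by simpa using hq
    rcases eq_or_ne q 0 with rfl | hq0
    · rwa [psum_zero_eq A hA]
    · obtain ⟨τ, rfl⟩ := exists_qParam_eq hh hq' hq0
      rw [hf.psum_qParam hh]
      exact hf0 τ
  have hdiff : DifferentiableOn ℂ (fun q => (psum A q)⁻¹) (Metric.ball 0 1) :=
    (differentiableOn_psum A hA).inv hne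
  -- Taylor series of the inverse
  let B : PowerSeries ℂ := PowerSeries.mk fun n =>
    (n.factorial : ℂ)⁻¹ * iteratedDeriv n (fun q => (psum A q)⁻¹) 0
  have hB : HasQExp h (fun τ => (f τ)⁻¹) B := by
    intro τ
    have hq : 𝕢 h τ ∈ Metric.ball (0 : ℂ) 1 := by
      simpa using Periodic.norm_qParam_lt_one hh τ.im_pos
    have := Complex.hasSum_taylorSeries_on_ball hdiff hq
    simp only [sub_zero, smul_eq_mul] at this
    rw [hf.psum_qParam hh] at this
    have hfun : (fun n : ℕ => PowerSeries.coeff n B * 𝕢 h τ ^ n) =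
        fun n : ℕ => ((n.factorial : ℂ))⁻¹ *
          (𝕢 h τ ^ n * iteratedDeriv n (fun q => (psum A q)⁻¹) 0) := by
      funext n
      simp only [B, PowerSeries.coeff_mk]
      ring
    rw [hfun]
    exact this
  have h1 : HasQExp h (fun _ => 1) (A * B) :=
    (hf.mul hB).congr_fun fun τ => mul_inv_cancel₀ (hf0 τ)
  have h2 : A * B = 1 := h1.unique hh one
  have hA0' : PowerSeries.constantCoeff A ≠ 0 := by
    rwa [← PowerSeries.coeff_zero_eq_constantCoeff]
  have h3 : B = A⁻¹ := by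
    rw [PowerSeries.eq_inv_iff_mul_eq_one hA0', mul_comm]
    exact h2
  rw [← h3]
  exact hB

end HasQExp

end

end Fermat.Agent.S28.H685

end
-- ===== PACK-END S28/H685/QDict.lean

-- ===== PACK-BEGIN S28/H589/Section.lean
section



/-!
# S28 / A-Φ descent, formal part 1 (helper589): the section matrix

For `f ∈ R((q))` and `p ≥ 1`, the Laurent series ring is free of rank `p` over the image of
`V_p = qExpand R p` (`q ↦ q^p`) with basis `1, q, …, q^(p-1)`.  The matrix of multiplication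
by `f` in this basis has entries the "sections" `sec p f i k = ∑ₘ f_{pm+k-i} qᵐ`.  Its
characteristic polynomial `χ` is monic of degree `p` over `R((q))` and `V_p(χ)(f) = 0`.
-/

set_option autoImplicit false

noncomputable section

open ModularCurve HahnSeries

namespace Fermat.Agent.S28.H589

variable {R : Type*} [CommRing R]

theorem sec_bddBelow (p : ℕ) [NeZero p] (f : LaurentSeries R) (i k : ℕ) :
    BddBelow (Function.support fun m : ℤ => f.coeff ((p : ℤ) * m + k - i)) := by
  refine ⟨-(|f.order| + i + k), ?_⟩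
  intro m hm
  by_contra hlt
  push Not at hlt
  apply hm
  apply HahnSeries.coeff_eq_zero_of_lt_order
  have hp : (1 : ℤ) ≤ p := by
    have := Nat.pos_of_ne_zero (NeZero.ne p)
    exact_mod_cast this
  have hm0 : m < 0 := by
    have h1 := abs_nonneg f.order
    have : (0 : ℤ) ≤ i := Int.natCast_nonneg i
    have : (0 : ℤ) ≤ k := Int.natCast_nonneg k
    linarith
  have h2 : (p : ℤ) * m ≤ m := by nlinarith
  have h3 := neg_abs_le f.order
  have : (0 : ℤ) ≤ i := Int.natCast_nonneg i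
  linarith

/-- The section `∑ₘ f_{pm+k-i} qᵐ` of `f`. -/
def sec (p : ℕ) [NeZero p] (f : LaurentSeries R) (i k : ℕ) : LaurentSeries R :=
  HahnSeries.ofSuppBddBelow (fun m : ℤ => f.coeff ((p : ℤ) * m + k - i)) (sec_bddBelow p f i k)

@[simp]
theorem sec_coeff (p : ℕ) [NeZero p] (f : LaurentSeries R) (i k : ℕ) (m : ℤ) :
    (sec p f i k).coeff m = f.coeff ((p : ℤ) * m + k - i) := rfl

/-- `f · qⁱ = ∑_{k<p} V_p(sec p f i k) · qᵏ`. -/
theorem mul_single_eq_sum_sec (p : ℕ) [NeZero p] (f : LaurentSeries R) (i : ℕ) :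
    f * HahnSeries.single (i : ℤ) (1 : R) =
      ∑ k ∈ Finset.range p, qExpand R p (sec p f i k) * HahnSeries.single (k : ℤ) (1 : R) := by
  ext n
  rw [HahnSeries.coeff_mul_single, mul_one, HahnSeries.coeff_sum]
  have hp : (0 : ℤ) < p := by
    have := Nat.pos_of_ne_zero (NeZero.ne p)
    exact_mod_cast this
  set k₀ : ℕ := (n % (p : ℤ)).toNat with hk₀
  have hk₀n : ((k₀ : ℕ) : ℤ) = n % (p : ℤ) := Int.toNat_of_nonneg (Int.emod_nonneg _ hp.ne')
  have hk₀p : k₀ < p := by
    have := Int.emod_lt_of_pos n hp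
    rw [← hk₀n] at this
    exact_mod_cast this
  rw [Finset.sum_eq_single_of_mem k₀ (Finset.mem_range.mpr hk₀p)]
  · rw [HahnSeries.coeff_mul_single, mul_one]
    have hdiv : n - (k₀ : ℤ) = (p : ℤ) * (n / (p : ℤ)) := by
      rw [hk₀n]
      have := Int.emod_add_mul_ediv n (p : ℤ)
      linarith
    rw [hdiv, qExpand_coeff_mul, sec_coeff]
    congr 1
    rw [← hdiv]
    ring
  · intro k hk hne
    rw [HahnSeries.coeff_mul_single, mul_one]
    apply qExpand_coeff_of_not_dvd
    intro hdvd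
    apply hne
    have hkp : k < p := Finset.mem_range.mp hk
    have h1 : n % (p : ℤ) = (k : ℤ) % (p : ℤ) := by
      have := (Int.emod_emod_of_dvd n (dvd_refl (p : ℤ)))
      exact (Int.emod_eq_emod_iff_emod_sub_eq_zero).mpr (Int.emod_eq_zero_of_dvd hdvd)
    have h2 : (k : ℤ) % (p : ℤ) = k := Int.emod_eq_of_lt (Int.natCast_nonneg k) (by exact_mod_cast hkp)
    have : ((k₀ : ℕ) : ℤ) = (k : ℤ) := by rw [hk₀n, h1, h2]
    exact_mod_cast this.symm

/-- The section matrix of `f`. -/
def secMat (p : ℕ) [NeZero p] (f : LaurentSeries R) : Matrix (Fin p) (Fin p) (LaurentSeries R) :=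
  fun i k => sec p f (i : ℕ) (k : ℕ)

/-- The basis vector `(qᵏ)ₖ`. -/
def qVec (R : Type*) [CommRing R] (p : ℕ) : Fin p → LaurentSeries R :=
  fun k => HahnSeries.single ((k : ℕ) : ℤ) (1 : R)

theorem secMat_mulVec (p : ℕ) [NeZero p] (f : LaurentSeries R) :
    ((secMat p f).map (qExpand R p)).mulVec (qVec R p) = f • qVec R p := by
  funext i
  simp only [Matrix.mulVec, dotProduct, Matrix.map_apply, secMat, qVec, Pi.smul_apply,
    smul_eq_mul]
  rw [mul_single_eq_sum_sec p f (i : ℕ), ← Fin.sum_univ_eq_sum_range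
    (fun k => qExpand R p (sec p f (i : ℕ) k) * HahnSeries.single (k : ℤ) (1 : R)) p]

/-- **Section charpoly.**  For every `f ∈ R((q))` there is a monic polynomial `χ` of degree `p`
over `R((q))` with `V_p(χ)(f) = 0`. -/
theorem exists_section_charpoly [Nontrivial R] (p : ℕ) [NeZero p] (f : LaurentSeries R) :
    ∃ χ : Polynomial (LaurentSeries R), χ.Monic ∧ χ.natDegree = p ∧
      (χ.map (qExpand R p)).eval f = 0 := by
  classical
  refine ⟨(secMat p f).charpoly, Matrix.charpoly_monic _, ?_, ?_⟩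
  · rw [Matrix.charpoly_natDegree_eq_dim, Fintype.card_fin]
  · rw [← Matrix.charpoly_map, Matrix.eval_charpoly]
    set A : Matrix (Fin p) (Fin p) (LaurentSeries R) :=
      Matrix.scalar (Fin p) f - (secMat p f).map (qExpand R p) with hA
    have hAv : A.mulVec (qVec R p) = 0 := by
      rw [hA, Matrix.sub_mulVec, secMat_mulVec]
      funext i
      simp [Matrix.mulVec, dotProduct, Matrix.scalar_apply, Matrix.diagonal_apply]
    have hdet : A.det • qVec R p = 0 := by
      have h1 : (A.adjugate * A).mulVec (qVec R p) = 0 := by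
        rw [← Matrix.mulVec_mulVec, hAv, Matrix.mulVec_zero]
      rw [Matrix.adjugate_mul, Matrix.smul_mulVec, Matrix.one_mulVec] at h1
      exact h1
    have h0 := congrFun hdet ⟨0, Nat.pos_of_ne_zero (NeZero.ne p)⟩
    simp only [Pi.smul_apply, qVec, Nat.cast_zero, smul_eq_mul, Pi.zero_apply] at h0
    have h1 : (HahnSeries.single (0 : ℤ) (1 : R)) = 1 := rfl
    rw [h1, mul_one] at h0
    exact h0

end Fermat.Agent.S28.H589

end

end
-- ===== PACK-END S28/H589/Section.lean

-- ===== PACK-BEGIN S29/H942/MeroRootLocal.lean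
section






/-!
# Roots of analytic functions: a continuous `p`-th root of a non-vanishing analytic function is
analytic
-/

set_option autoImplicit false

noncomputable section

open Filter Topology Set Complex

namespace Fermat.Agent.S29.H942

/-- `1` is an isolated `p`-th root of unity. -/
lemma eventually_pow_eq_one_imp {p : ℕ} (hp : p ≠ 0) :
    ∀ᶠ t : ℂ in 𝓝 1, t ^ p = 1 → t = 1 := by
  have hfin : ({t : ℂ | t ^ p = 1} \ {1}).Finite := by
    refine Set.Finite.subset (Polynomial.nthRootsFinset p (1 : ℂ)).finite_toSet ?_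
    intro t ht
    simp only [Finset.mem_coe]
    exact (Polynomial.mem_nthRootsFinset (Nat.pos_of_ne_zero hp) _).2 ht.1
  have hopen : IsOpen (({t : ℂ | t ^ p = 1} \ {1})ᶜ) := hfin.isClosed.isOpen_compl
  have hmem : (1 : ℂ) ∈ ({t : ℂ | t ^ p = 1} \ {1})ᶜ := by simp
  filter_upwards [hopen.mem_nhds hmem] with t ht h1
  by_contra hne
  exact ht ⟨h1, hne⟩

/-- A function which is continuous at `z₀` and whose `p`-th power is analytic and non-zero at `z₀`
is analytic at `z₀`. -/
theorem analyticAt_of_continuousAt_of_pow {r g : ℂ → ℂ} {z₀ : ℂ} {p : ℕ} (hp : p ≠ 0)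
    (hr : ContinuousAt r z₀) (hg : AnalyticAt ℂ g z₀) (hpow : ∀ᶠ z in 𝓝 z₀, r z ^ p = g z)
    (hne : g z₀ ≠ 0) : AnalyticAt ℂ r z₀ := by
  have hpz : r z₀ ^ p = g z₀ := hpow.self_of_nhds
  have hc : r z₀ ≠ 0 := by
    intro h
    rw [h, zero_pow hp] at hpz
    exact hne hpz.symm
  have hpC : (p : ℂ) ≠ 0 := by exact_mod_cast hp
  -- the analytic candidate
  set s : ℂ → ℂ := fun z => r z₀ * exp (log (g z / g z₀) / p) with hs
  have hq : AnalyticAt ℂ (fun z => g z / g z₀) z₀ := hg.div analyticAt_const hne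
  have hq1 : (fun z => g z / g z₀) z₀ ∈ slitPlane := by
    simp only [div_self hne]
    exact one_mem_slitPlane
  have hlog : AnalyticAt ℂ (fun z => log (g z / g z₀)) z₀ := hq.clog hq1
  have hsA : AnalyticAt ℂ s z₀ :=
    analyticAt_const.mul ((hlog.div analyticAt_const hpC).cexp)
  have hs0 : s z₀ = r z₀ := by
    simp [hs, div_self hne]
  have hgne : ∀ᶠ z in 𝓝 z₀, g z ≠ 0 := hg.continuousAt.eventually_ne hne
  have hspow : ∀ᶠ z in 𝓝 z₀, s z ^ p = g z := by
    filter_upwards [hgne] with z hz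
    have h1 : g z / g z₀ ≠ 0 := div_ne_zero hz hne
    simp only [hs, mul_pow]
    rw [← exp_nat_mul, mul_div_cancel₀ _ hpC, exp_log h1, hpz]
    field_simp
  have hsne : ∀ᶠ z in 𝓝 z₀, s z ≠ 0 := hsA.continuousAt.eventually_ne (by rw [hs0]; exact hc)
  -- the quotient is continuous with value `1` at `z₀`, and a root of unity
  have hquot : ContinuousAt (fun z => r z / s z) z₀ :=
    hr.div hsA.continuousAt (by rw [hs0]; exact hc)
  have hquot1 : (fun z => r z / s z) z₀ = 1 := by
    simp only [hs0, div_self hc]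
  have hev : ∀ᶠ z in 𝓝 z₀, (r z / s z) ^ p = 1 → r z / s z = 1 := by
    have h1 : Tendsto (fun z => r z / s z) (𝓝 z₀) (𝓝 1) := by
      have := hquot.tendsto
      have h2 : r z₀ / s z₀ = 1 := hquot1
      rwa [h2] at this
    exact h1.eventually (eventually_pow_eq_one_imp hp)
  have heq : r =ᶠ[𝓝 z₀] s := by
    filter_upwards [hev, hpow, hspow, hsne] with z h1 h2 h3 h4
    have : (r z / s z) ^ p = 1 := by
      rw [div_pow, h2, h3, div_self]
      rw [← h3]
      exact pow_ne_zero p h4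
    have h5 := h1 this
    rwa [div_eq_one_iff_eq h4] at h5
  exact hsA.congr heq.symm

/-- A continuous `p`-th root of a non-vanishing analytic function on an open set is analytic. -/
theorem analyticOnNhd_of_continuousOn_of_pow {r g : ℂ → ℂ} {U : Set ℂ} (hU : IsOpen U) {p : ℕ}
    (hp : p ≠ 0) (hr : ContinuousOn r U) (hg : AnalyticOnNhd ℂ g U)
    (hpow : ∀ z ∈ U, r z ^ p = g z) (hne : ∀ z ∈ U, g z ≠ 0) : AnalyticOnNhd ℂ r U := by
  intro z hz
  refine analyticAt_of_continuousAt_of_pow hp (hr.continuousAt (hU.mem_nhds hz)) (hg z hz) ?_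
    (hne z hz)
  filter_upwards [hU.mem_nhds hz] with w hw using hpow w hw

/-- Existence of analytic `p`-th roots of non-vanishing analytic functions on simply connected
open sets. -/
theorem exists_analyticOnNhd_pow_eq {g : ℂ → ℂ} {U : Set ℂ} (hUc : IsSimplyConnected U)
    (hU : IsOpen U) {p : ℕ} (hp : p ≠ 0) (hg : AnalyticOnNhd ℂ g U) (hne : ∀ z ∈ U, g z ≠ 0) :
    ∃ r : ℂ → ℂ, AnalyticOnNhd ℂ r U ∧ ∀ z, r z ^ p = g z := by
  have h0 : (0 : ℂ) ∉ g '' U := by
    rintro ⟨z, hz, h⟩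
    exact hne z hz h
  obtain ⟨r, hrc, hr⟩ := exists_continuousOn_pow_eq hUc hU hg.continuousOn h0 hp
  exact ⟨r, analyticOnNhd_of_continuousOn_of_pow hU hp hrc hg (fun z _ => hr z) hne, hr⟩

/-- Open convex nonempty sets are simply connected. -/
lemma isSimplyConnected_of_convex {U : Set ℂ} (hU : Convex ℝ U) (hne : U.Nonempty) :
    IsSimplyConnected U := by
  have := hU.contractibleSpace hne
  show SimplyConnectedSpace U
  infer_instance

end Fermat.Agent.S29.H942

end
end
-- ===== PACK-END S29/H942/MeroRootLocal.lean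

-- ===== PACK-BEGIN S28/H25/DerivQExp.lean
section


/-!
# `q`-expansion of the normalised derivative `D = (2πi)⁻¹ d/dτ`

(helper25, S28 piece [A-θ], route independent.)
If `F : ℍ → ℂ` is holomorphic, `h`-periodic and bounded at `i∞` with `q`-expansion `∑ aₙ qₕⁿ`,
then `D F` is given by the convergent series `h⁻¹ ∑ n aₙ qₕⁿ`; in particular (for `h = 1`)
`qExpansion 1 (D F) = θ (qExpansion 1 F)` with `θ = q d/dq`.
-/

set_option autoImplicit false

open UpperHalfPlane hiding I
open Function Derivative Complex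
open scoped Manifold

noncomputable section

namespace Fermat.Agent.S28.H25

local notation "𝕢" => Function.Periodic.qParam

theorem hasDerivAt_qParam (h : ℝ) (z : ℂ) :
    HasDerivAt (𝕢 h) (𝕢 h z * (2 * Real.pi * _root_.Complex.I / h)) z := by
  unfold Function.Periodic.qParam
  have h1 : HasDerivAt (fun z : ℂ => 2 * Real.pi * _root_.Complex.I * z / h) (2 * Real.pi * _root_.Complex.I / h) z := by
    have := ((hasDerivAt_id z).const_mul (2 * Real.pi * _root_.Complex.I)).div_const (h : ℂ)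
    simpa using this
  exact h1.cexp

/-- `D F = h⁻¹ · q · g'(q)` with `g` the cusp function of `F`. -/
theorem D_eq_qParam_mul_deriv_cuspFunction {F : ℍ → ℂ} {h : ℝ} (hh : 0 < h)
    (hper : Periodic (F ∘ ofComplex) h) (hhol : MDiff F) (hbdd : IsBoundedAtImInfty F) (τ : ℍ) :
    D F τ = (h : ℂ)⁻¹ * (𝕢 h τ * deriv (cuspFunction h F) (𝕢 h τ)) := by
  have hq : ‖𝕢 h τ‖ < 1 := Periodic.norm_qParam_lt_one hh τ.im_pos
  have hg : DifferentiableAt ℂ (cuspFunction h F) (𝕢 h τ) :=
    differentiableAt_cuspFunction hh hper hhol hbdd hq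
  have heq : (F ∘ ofComplex) =ᶠ[nhds (τ : ℂ)] (cuspFunction h F) ∘ (𝕢 h) := by
    filter_upwards [isOpen_upperHalfPlaneSet.mem_nhds τ.im_pos] with z hz
    have := eq_cuspFunction (f := F) ⟨z, hz⟩ hh.ne' hper
    simp only [comp_apply, ofComplex_apply_of_im_pos hz]
    exact this.symm
  have hcomp := (hg.hasDerivAt.comp (τ : ℂ) (hasDerivAt_qParam h τ)).deriv
  rw [normalizedDerivOfComplex, heq.deriv_eq, hcomp]
  have hpi : (2 * (Real.pi : ℂ) * _root_.Complex.I) ≠ 0 := by
    simp [Real.pi_ne_zero]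
  have hh' : (h : ℂ) ≠ 0 := by exact_mod_cast hh.ne'
  field_simp

/-- Termwise differentiation of the `q`-expansion. -/
theorem hasSum_D_of_bounded {F : ℍ → ℂ} {h : ℝ} (hh : 0 < h)
    (hper : Periodic (F ∘ ofComplex) h) (hhol : MDiff F) (hbdd : IsBoundedAtImInfty F) (τ : ℍ) :
    HasSum (fun n : ℕ => ((h : ℂ)⁻¹ * ((n : ℂ) * (qExpansion h F).coeff n)) • 𝕢 h τ ^ n)
      (D F τ) := by
  set g := cuspFunction h F with hgdef
  have hgdiff : DifferentiableOn ℂ g (Metric.ball 0 1) :=
    differentiableOn_cuspFunction_ball hh hper hhol hbdd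
  have hg'diff : DifferentiableOn ℂ (deriv g) (Metric.ball 0 1) :=
    hgdiff.deriv Metric.isOpen_ball
  have hq : 𝕢 h τ ∈ Metric.ball (0 : ℂ) 1 := by
    simpa using Periodic.norm_qParam_lt_one hh τ.im_pos
  have hT := hasSum_taylorSeries_on_ball hg'diff hq
  rw [D_eq_qParam_mul_deriv_cuspFunction hh hper hhol hbdd τ]
  have hT2 := (hT.mul_left (𝕢 h τ)).mul_left ((h : ℂ)⁻¹)
  have hfun : (fun n : ℕ => ((h : ℂ)⁻¹ * (((n + 1 : ℕ) : ℂ) *
      (qExpansion h F).coeff (n + 1))) • 𝕢 h τ ^ (n + 1)) =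
      (fun i : ℕ => (h : ℂ)⁻¹ * (𝕢 h τ * (((i.factorial : ℕ) : ℂ))⁻¹ • (𝕢 h τ - 0) ^ i •
        iteratedDeriv i (deriv g) 0)) := by
    funext n
    rw [qExpansion_coeff, ← iteratedDeriv_succ', sub_zero]
    have hn : ((n.factorial : ℕ) : ℂ) ≠ 0 := by exact_mod_cast n.factorial_ne_zero
    have hn1 : ((n : ℂ) + 1) ≠ 0 := by exact_mod_cast n.succ_ne_zero
    simp only [smul_eq_mul]
    rw [Nat.factorial_succ]
    push_cast
    field_simp
    rw [hgdef]
    ring
  have hshift : HasSum (fun n : ℕ => ((h : ℂ)⁻¹ * (((n + 1 : ℕ) : ℂ) *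
      (qExpansion h F).coeff (n + 1))) • 𝕢 h τ ^ (n + 1))
      ((h : ℂ)⁻¹ * (𝕢 h τ * deriv g (𝕢 h τ))) := by
    rw [hfun]
    exact hT2
  have := (hasSum_nat_add_iff' (f := fun n : ℕ => ((h : ℂ)⁻¹ * ((n : ℂ) *
      (qExpansion h F).coeff n)) • 𝕢 h τ ^ n) 1).mp (by simpa using hshift)
  simpa using this

/-- `D F` is periodic if `F` is. -/
theorem periodic_D {F : ℍ → ℂ} {h : ℝ} (hh : 0 < h)
    (hper : Periodic (F ∘ ofComplex) h) (hhol : MDiff F) (hbdd : IsBoundedAtImInfty F) :
    Periodic (D F ∘ ofComplex) h := by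
  intro w
  by_cases! hw : 0 < Complex.im w
  · have hw' : 0 < Complex.im (w + h) := by simp [hw]
    simp only [comp_apply, ofComplex_apply_of_im_pos hw', ofComplex_apply_of_im_pos hw]
    rw [D_eq_qParam_mul_deriv_cuspFunction hh hper hhol hbdd,
      D_eq_qParam_mul_deriv_cuspFunction hh hper hhol hbdd]
    have hq : 𝕢 h ((⟨w + h, hw'⟩ : ℍ) : ℂ) = 𝕢 h ((⟨w, hw⟩ : ℍ) : ℂ) := by
      show 𝕢 h (w + h) = 𝕢 h w
      have hh' : (h : ℂ) ≠ 0 := by exact_mod_cast hh.ne'
      simp only [Function.Periodic.qParam]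
      rw [show 2 * (Real.pi : ℂ) * Complex.I * (w + h) / h
          = 2 * Real.pi * Complex.I * w / h + 2 * Real.pi * Complex.I by field_simp]
      rw [Complex.exp_add, Complex.exp_two_pi_mul_I, mul_one]
    rw [hq]
  · have : Complex.im (w + h) ≤ 0 := by simpa using hw
    simp [ofComplex_apply_of_im_nonpos this, ofComplex_apply_of_im_nonpos hw]

theorem isBoundedAtImInfty_D {F : ℍ → ℂ} {h : ℝ} (hh : 0 < h)
    (hper : Periodic (F ∘ ofComplex) h) (hhol : MDiff F) (hbdd : IsBoundedAtImInfty F) :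
    IsBoundedAtImInfty (D F) :=
  isBoundedAtImInfty_of_hasSum_qExpansion hh (hasSum_D_of_bounded hh hper hhol hbdd)

theorem analyticAt_cuspFunction_D {F : ℍ → ℂ} {h : ℝ} (hh : 0 < h)
    (hper : Periodic (F ∘ ofComplex) h) (hhol : MDiff F) (hbdd : IsBoundedAtImInfty F) :
    AnalyticAt ℂ (cuspFunction h (D F)) 0 :=
  analyticAt_cuspFunction_zero hh (periodic_D hh hper hhol hbdd)
    (normalizedDerivOfComplex_mdifferentiable hhol) (isBoundedAtImInfty_D hh hper hhol hbdd)

/-- The `q`-expansion of `D F` is `h⁻¹ θ` of the `q`-expansion of `F`. -/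
theorem qExpansion_D_coeff {F : ℍ → ℂ} {h : ℝ} (hh : 0 < h)
    (hper : Periodic (F ∘ ofComplex) h) (hhol : MDiff F) (hbdd : IsBoundedAtImInfty F) (n : ℕ) :
    (qExpansion h (D F)).coeff n = (h : ℂ)⁻¹ * ((n : ℂ) * (qExpansion h F).coeff n) := by
  have hfanalytic := analyticAt_cuspFunction_D hh hper hhol hbdd
  have h1 := (hasFPowerSeriesOnBall_cuspFunction hh hfanalytic
    (hasSum_D_of_bounded hh hper hhol hbdd)).hasFPowerSeriesAt
  have h2 : HasFPowerSeriesAt (cuspFunction h (D F))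
      (FormalMultilinearSeries.ofScalars ℂ fun m ↦ (qExpansion h (D F)).coeff m) 0 := by
    simpa [qExpansion_coeff, div_eq_mul_inv, mul_comm]
      using hfanalytic.hasFPowerSeriesAt
  have := congr_arg (FormalMultilinearSeries.coeff · n) (h1.eq_formalMultilinearSeries h2)
  simpa [FormalMultilinearSeries.coeff_ofScalars] using this.symm

/-- `θ = X d/dX` on power series. -/
def thetaP {R : Type*} [CommRing R] (f : PowerSeries R) : PowerSeries R :=
  PowerSeries.X * PowerSeries.derivative R f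

theorem coeff_thetaP {R : Type*} [CommRing R] (f : PowerSeries R) (n : ℕ) :
    (thetaP f).coeff n = (n : R) * f.coeff n := by
  rcases n with _ | n
  · simp [thetaP]
  · rw [thetaP, PowerSeries.coeff_succ_X_mul, PowerSeries.coeff_derivative]
    push_cast
    ring

theorem qExpansion_D {F : ℍ → ℂ}
    (hper : Periodic (F ∘ ofComplex) 1) (hhol : MDiff F) (hbdd : IsBoundedAtImInfty F) :
    qExpansion 1 (D F) = thetaP (qExpansion 1 F) := by
  ext n
  rw [qExpansion_D_coeff one_pos hper hhol hbdd, coeff_thetaP]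
  simp

end Fermat.Agent.S28.H25

end
end
-- ===== PACK-END S28/H25/DerivQExp.lean

-- ===== PACK-BEGIN S18/Alg/Spec.lean
section


/-!
# S18 / ALG — frozen abstract interface (row-lead helper18), Mathlib-only

v2 (18:10Z): fields `gauss` and `separable` repaired (`0⁻¹ = 0` bugs found by helper887).
v3 (18:25Z): `GoodModel` UNCHANGED; NEW `GoodFamily` (directed family of good models); `AlgMainStatement`
now takes a `GoodFamily`, so that ALG may enlarge the constant field `Ec` (needed by endgame K').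
v4 = FINAL (landed on main, never to change again): (a) new field `x_mem_V : x ∈ V` (trivial for
MOD; asked for by helper467/24/187); (b) `AlgMainStatement` only for PRIME `m` (helper425/694: the
frozen S18 for all `m` follows from prime `m`, `S18/H694/PrimeRed.lean`).

Everything is a sub-object of ONE field `Ω` (in the application `Ω = F_M = Q̄(j_d : d ∣ M)`):

* `Lc`  : the algebraically closed constant field (`Q̄`),
* `Ec ≤ Lc`, `R ⊆ Ec` : a subfield with a discrete valuation ring `R`, uniformiser `w`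
  (`Ec` a number field, `R = A ∩ Ec`),
* `Fc`  : the function field over `Ec` (`Ec(j_d : d ∣ M)`), `Ω = Fc · Lc`,
* `x ∈ Fc` : the coordinate (`j`, `t₂` or `t₃`),
* `V ⊆ Fc` : the Gauss valuation ring (residue field = function field of the special fibre),
* `S ⊆ R` : the finite branch values of `Ω / Lc(x)`.

`GoodModel`/`GoodFamily` = what MOD(M) + d1 must supply.  `AlgMainStatement` = what ALG (b1–b5, or
the polar endgame) must prove.  Together they give `CoreStatement M A m`.
-/

set_option autoImplicit false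

namespace Fermat.Agent.S18.Alg

variable {Ω : Type*} [Field Ω]

/-- `R[x]` as a subring of `Ω`. -/
def polyRing (R : Subring Ω) (x : Ω) : Subring Ω := Subring.closure ((R : Set Ω) ∪ {x})

/-- `E(x)` as a subfield of `Ω`. -/
def ratField (Ec : Subfield Ω) (x : Ω) : Subfield Ω := Subfield.closure ((Ec : Set Ω) ∪ {x})

/-- The chart: elements of `Fc` integral over `R[x]`. -/
def chart (Fc : Subfield Ω) (R : Subring Ω) (x : Ω) : Set Ω :=
  {b | b ∈ Fc ∧ IsIntegral (polyRing R x) b}

/-- The data supplied by the modular side (see the module docstring). -/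
structure GoodModel (Lc Ec Fc : Subfield Ω) (R V : Subring Ω) (w x : Ω) (S : Finset Ω) : Prop where
  charZero : CharZero Ω
  -- `R` is a discrete valuation ring of `Ec` with uniformiser `w`, perfect residue field
  R_le : (R : Set Ω) ⊆ Ec
  R_total : ∀ e ∈ Ec, e ∈ R ∨ e⁻¹ ∈ R
  w_mem : w ∈ R
  w_ne_zero : w ≠ 0
  w_inv_not_mem : w⁻¹ ∉ R
  w_gen : ∀ r ∈ R, r⁻¹ ∉ R → r * w⁻¹ ∈ R
  w_discrete : ∀ r ∈ R, r ≠ 0 → ∃ n : ℕ, r * (w⁻¹) ^ n ∈ R ∧ (r * (w⁻¹) ^ n)⁻¹ ∈ R
  residue_perfect : ∃ p : ℕ, p.Prime ∧ (p : Ω) * w⁻¹ ∈ R ∧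
    ∀ r ∈ R, ∃ s ∈ R, (r - s ^ p) * w⁻¹ ∈ R
  -- the fields
  E_le_L : Ec ≤ Lc
  E_le_F : Ec ≤ Fc
  L_algebraic : ∀ a ∈ Lc, IsAlgebraic Ec a
  L_algClosed : IsAlgClosed Lc
  E_closed_in_F : ∀ f ∈ Fc, IsAlgebraic Ec f → f ∈ Ec
  compositum : Subfield.closure ((Fc : Set Ω) ∪ Lc) = ⊤
  -- the coordinate
  x_mem : x ∈ Fc
  x_transcendental : Transcendental Lc x
  finite : ∃ s : Finset Ω, (s : Set Ω) ⊆ Fc ∧
    ∀ f ∈ Fc, f ∈ Submodule.span (ratField Ec x) (s : Set Ω)
  -- the Gauss valuation ring `V` of `Fc`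
  V_le : (V : Set Ω) ⊆ Fc
  V_total : ∀ f ∈ Fc, f ∈ V ∨ f⁻¹ ∈ V
  R_le_V : R ≤ V
  w_inv_not_mem_V : w⁻¹ ∉ V
  V_gen : ∀ f ∈ V, f⁻¹ ∉ V → f * w⁻¹ ∈ V
  x_mem_V : x ∈ V
  /-- `V` restricted to `E(x)` is the Gauss valuation: a polynomial in `x` over `R` with a unit
  coefficient is a unit of `V` (in particular `x` and `x⁻¹` lie in `V`). -/
  gauss : ∀ P : Polynomial Ω, (∀ i, P.coeff i ∈ R) → (∃ i, P.coeff i ≠ 0 ∧ (P.coeff i)⁻¹ ∈ R) →
    (P.eval x)⁻¹ ∈ V
  /-- `q`-expansion principle on both charts: `b` integral over `R[x^{±1}]`, `b/w ∈ V`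
  ⟹ `b/w` integral over `R[x^{±1}]`. -/
  qep_fin : ∀ b ∈ chart Fc R x, b * w⁻¹ ∈ V → b * w⁻¹ ∈ chart Fc R x
  qep_inf : ∀ b ∈ chart Fc R x⁻¹, b * w⁻¹ ∈ V → b * w⁻¹ ∈ chart Fc R x⁻¹
  /-- the residue field of `V` is separable over `κ(x̄)` (elementwise form) -/
  separable : ∀ f ∈ V, ∃ P : Polynomial Ω, (∀ i, P.coeff i ∈ polyRing R x) ∧
    P.eval f * w⁻¹ ∈ V ∧ (Polynomial.derivative P).eval f ≠ 0 ∧
    ((Polynomial.derivative P).eval f)⁻¹ ∈ V
  -- branch values: in `R`, pairwise distinct mod `w`, the nonzero ones are units of `R`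
  S_mem : ∀ s ∈ S, s ∈ R
  S_distinct : ∀ s ∈ S, ∀ t ∈ S, s ≠ t → (s - t)⁻¹ ∈ R
  S_unit : ∀ s ∈ S, s ≠ 0 → s⁻¹ ∈ R
  /-- over `Lc`: at a place where `x` takes a value `c ∉ S`, `x - c` is a uniformiser -/
  unramified : ∀ O : ValuationSubring Ω, (∀ a ∈ Lc, a ∈ O) → ∀ c ∈ Lc, c ∉ S →
    x - c ∈ O → (x - c)⁻¹ ∉ O → ∀ t ∈ O, t⁻¹ ∉ O → t * (x - c)⁻¹ ∈ O

/-- A model, as a tuple `(Ec, Fc, R, V, w)`. -/
abbrev Model (Ω : Type*) [Field Ω] : Type _ :=
  Subfield Ω × Subfield Ω × Subring Ω × Subring Ω × Ω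

/-- `p ≤ p'` for models: all four sub-objects grow (the uniformiser may change). -/
def Model.le (p p' : Model Ω) : Prop :=
  p.1 ≤ p'.1 ∧ p.2.1 ≤ p'.2.1 ∧ p.2.2.1 ≤ p'.2.2.1 ∧ p.2.2.2.1 ≤ p'.2.2.2.1

/-- A **directed family of good models** (v3): every member is a `GoodModel`, and every member can
be enlarged inside the family so that its constant field `Ec` contains any given finite set of
elements of `Lc`.  (In the application: all number fields `E ⊆ Q̄`.)  ALG may therefore assume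
that `Ec` contains `ζ_m`, the `x`-coordinates of the zeros and poles of `u`, the constants of
`Fc(u^{1/m})`, … by passing to a larger member. -/
structure GoodFamily (Lc : Subfield Ω) (x : Ω) (S : Finset Ω) (𝓕 : Set (Model Ω)) : Prop where
  good : ∀ p ∈ 𝓕, GoodModel Lc p.1 p.2.1 p.2.2.1 p.2.2.2.1 p.2.2.2.2 x S
  enlarge : ∀ p ∈ 𝓕, ∀ T : Finset Ω, (∀ a ∈ T, a ∈ Lc) →
    ∃ p' ∈ 𝓕, Model.le p p' ∧ ∀ a ∈ T, a ∈ p'.1

/-- **ALG main statement** (v4): for a directed family of good models, a member `p = (Ec,Fc,R,V,w)`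
and a function `u ∈ Fc` with `u ≡ 1 mod w` whose divisor (over `Lc`) is divisible by `m`
(`m` a PRIME number which is a unit of `R`): `u` is a constant times an `m`-th power in
`Ω = Fc·Lc`. -/
def AlgMainStatement (Lc : Subfield Ω) (x : Ω) (S : Finset Ω) (𝓕 : Set (Model Ω)) : Prop :=
  GoodFamily Lc x S 𝓕 →
    ∀ p ∈ 𝓕, ∀ m : ℕ, m.Prime → ((m : Ω))⁻¹ ∈ p.2.2.1 →
    ∀ u ∈ p.2.1, u ≠ 0 → (u - 1) * (p.2.2.2.2)⁻¹ ∈ p.2.2.2.1 →
      (∀ O : ValuationSubring Ω, (∀ a ∈ Lc, a ∈ O) →
        ∃ t : Ω, t ≠ 0 ∧ u * t ^ m ∈ O ∧ (u * t ^ m)⁻¹ ∈ O) →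
      ∃ y : Ω, ∃ c ∈ Lc, c ≠ 0 ∧ u = c * y ^ m

end Fermat.Agent.S18.Alg

end
-- ===== PACK-END S18/Alg/Spec.lean

-- ===== PACK-BEGIN S24/Mod/H368Lift.lean
section


/-!
# S24 / MOD glue (helper368): lifting a ring hom from polynomial generators to a generated field

`exists_lift`: if `F' = K(s i : i ∈ ι) ⊆ E` and `Φ : MvPolynomial ι K →+* L` has the same kernel as
evaluation at the generators `s`, then `Φ` induces a ring hom `σ : F' →+* L`.
-/

set_option autoImplicit false

noncomputable section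

open MvPolynomial

namespace Fermat.Agent.S24.H368

variable {K E L ι : Type*} [Field K] [Field E] [Algebra K E] [Field L]

/-- The ring hom `Algebra.adjoin K (range s) →+* L` induced by `Φ`, when `ker (aeval s) ≤ ker Φ`. -/
theorem exists_ringHom_adjoin (s : ι → E) (Φ : MvPolynomial ι K →+* L)
    (h : ∀ p, aeval s p = 0 → Φ p = 0) :
    ∃ g : Algebra.adjoin K (Set.range s) →+* L,
      ∀ (p : MvPolynomial ι K) (x : Algebra.adjoin K (Set.range s)),
        (x : E) = aeval s p → g x = Φ p := by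
  classical
  have hrange : Algebra.adjoin K (Set.range s) = (aeval s : MvPolynomial ι K →ₐ[K] E).range :=
    Algebra.adjoin_range_eq_range_aeval K s
  -- a section of `aeval s` on the adjoin
  have hsec : ∀ x : Algebra.adjoin K (Set.range s), ∃ p : MvPolynomial ι K, aeval s p = (x : E) := by
    intro x
    have hx : (x : E) ∈ (aeval s : MvPolynomial ι K →ₐ[K] E).range := hrange ▸ x.2
    exact hx
  choose sec hsec' using hsec
  have key : ∀ (p : MvPolynomial ι K) (x : Algebra.adjoin K (Set.range s)),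
      (x : E) = aeval s p → Φ (sec x) = Φ p := by
    intro p x hx
    have : aeval s (sec x - p) = 0 := by rw [map_sub, hsec', hx, sub_self]
    have := h _ this
    rwa [map_sub, sub_eq_zero] at this
  refine ⟨{ toFun := fun x => Φ (sec x), map_one' := ?_, map_mul' := ?_, map_zero' := ?_,
            map_add' := ?_ }, fun p x hx => key p x hx⟩
  · rw [key 1 1 (by simp), map_one]
  · intro x y
    rw [key (sec x * sec y) (x * y) (by simp [hsec']), map_mul]
  · rw [key 0 0 (by simp), map_zero]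
  · intro x y
    rw [key (sec x + sec y) (x + y) (by simp [hsec']), map_add]

open scoped IntermediateField.algebraAdjoinAdjoin in
/-- **Lift.** If `Φ : MvPolynomial ι K →+* L` has the same kernel as evaluation at `s : ι → E`,
it induces a ring hom from the field `K(s)` to `L`. -/
theorem exists_lift (s : ι → E) (F' : IntermediateField K E)
    (hF : F' = IntermediateField.adjoin K (Set.range s))
    (Φ : MvPolynomial ι K →+* L) (h : ∀ p, Φ p = 0 ↔ aeval s p = 0) :
    ∃ σ : F' →+* L, ∀ (p : MvPolynomial ι K) (x : F'), (x : E) = aeval s p → σ x = Φ p := by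
  subst hF
  obtain ⟨g, hg⟩ := exists_ringHom_adjoin s Φ (fun p hp => (h p).2 hp)
  have hginj : Function.Injective g := by
    rw [injective_iff_map_eq_zero]
    intro x hx
    obtain ⟨p, hp⟩ : ∃ p : MvPolynomial ι K, aeval s p = (x : E) := by
      have hx' : (x : E) ∈ (aeval s : MvPolynomial ι K →ₐ[K] E).range :=
        (Algebra.adjoin_range_eq_range_aeval K s) ▸ x.2
      exact hx'
    have h1 : Φ p = 0 := by rw [← hg p x hp.symm, hx]
    have h2 := (h p).1 h1
    exact Subtype.ext (by rw [← hp, h2]; rfl)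
  refine ⟨IsFractionRing.lift (A := Algebra.adjoin K (Set.range s)) hginj, fun p x hx => ?_⟩
  have hxmem : (x : E) ∈ Algebra.adjoin K (Set.range s) := by
    rw [hx, Algebra.adjoin_range_eq_range_aeval]
    exact ⟨p, rfl⟩
  have hx' : x = algebraMap (Algebra.adjoin K (Set.range s))
      (IntermediateField.adjoin K (Set.range s)) ⟨(x : E), hxmem⟩ := Subtype.ext rfl
  rw [hx', IsFractionRing.lift_algebraMap]
  exact hg p _ hx

end Fermat.Agent.S24.H368

end
end
-- ===== PACK-END S24/Mod/H368Lift.lean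

-- ===== PACK-BEGIN S18/H754/KummerSpec.lean
section


/-!
# S18, Route K, pieces b3 + b4 merged: the ETALE KUMMER COVER (helper754, squad S18/S34)

Mathlib-only.  Setting (one chart):

* `B` : Noetherian integrally closed domain (chart algebra of the model, over a DVR `A'`),
  `F = Frac B`, `ϖ ∈ B` a prime element (uniformiser of `A'`), and the special fibre `B/ϖ` is
  regular: every maximal ideal `𝔪 ∋ ϖ` is locally generated by `ϖ` and one more element
  (this is the OUTPUT of b2: `B/ϖ` Dedekind).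
* `u ∈ F`, `z ^ p = u` in an extension field `F'`, `p` prime and invertible in `B`,
  `u` is a unit at `ϖ` with `u ≡ 1 mod ϖ`, and at every height-one prime of `B` the element `u`
  is a unit times a `p`-th power (`p ∣ ord_v(u)` for all places).

Conclusions (no discriminant counting for the cover is needed: the cover is étale over the
regular chart because regular local rings of this shape are UFDs):

* `KummerLift`  : every Kummer idempotent `e_η = p⁻¹ ∑_{a<p} η^a z^a` (`η^p = 1`) is congruent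
  modulo `ϖ O'` to an element integral over `B` (`O'` = integral closure of `B_(ϖ)`).
* `KummerUnmixed` : if `c ∈ F(z)` is integral over `B` and `c ∈ ϖ O'` then `c/ϖ` is integral over `B`.
* `kummerIdem_*` : idempotency / orthogonality / nontriviality of the `e_η` modulo `ϖ O'`.
-/

set_option autoImplicit false

noncomputable section

namespace Fermat.Agent.S18.H754

open Polynomial

variable {B : Type*} [CommRing B] [IsDomain B]
  {F : Type*} [Field F] [Algebra B F] [IsFractionRing B F]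
  {F' : Type*} [Field F'] [Algebra F F'] [Algebra B F'] [IsScalarTower B F F']

/-- The Kummer idempotent candidate attached to `η` (a `p`-th root of unity in `B`). -/
def kummerIdem (p : ℕ) (η : B) (z : F') : F' :=
  (p : F')⁻¹ * ∑ a ∈ Finset.range p, algebraMap B F' (η ^ a) * z ^ a

/-- `y ∈ ϖ O'`, where `O'` is the integral closure of `B_(ϖ)` in `F'`, elementwise:
`s y = ϖ c` with `s ∈ B ∖ ϖB` and `c` integral over `B`. -/
def InPiO (ϖ : B) (y : F') : Prop :=
  ∃ s : B, s ∉ Ideal.span {ϖ} ∧ ∃ c : F', IsIntegral B c ∧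
    algebraMap B F' s * y = algebraMap B F' ϖ * c

/-- The special fibre is regular at every closed point: `𝔪 B_𝔪 = (ϖ, t)`. -/
def RegularAlong (ϖ : B) : Prop :=
  ∀ 𝔪 : Ideal B, 𝔪.IsMaximal → ϖ ∈ 𝔪 →
    ∃ t ∈ 𝔪, ∀ a ∈ 𝔪, ∃ s : B, s ∉ 𝔪 ∧ s * a ∈ Ideal.span {ϖ, t}

/-- `u` is a unit at `ϖ` and `u ≡ 1 mod ϖ`. -/
def OneModPi (ϖ : B) (u : F) : Prop :=
  ∃ a s : B, s ∉ Ideal.span {ϖ} ∧ a - s ∈ Ideal.span {ϖ} ∧
    u * algebraMap B F s = algebraMap B F a

/-- `p ∣ ord_𝔭 (u)` at every height-one prime `𝔭` of `B`, elementwise. -/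
def DivisibleDivisor (B : Type*) [CommRing B] {F : Type*} [Field F] [Algebra B F]
    (p : ℕ) (u : F) : Prop :=
  ∀ 𝔭 : Ideal B, 𝔭.IsPrime → 𝔭.height = 1 →
    ∃ t : F, ∃ a s : B, a ∉ 𝔭 ∧ s ∉ 𝔭 ∧ u * t ^ p * algebraMap B F s = algebraMap B F a

/-- STATEMENT of the lifting theorem. -/
def KummerLiftStatement : Prop :=
  ∀ (B : Type) [CommRing B] [IsDomain B] [IsNoetherianRing B] [IsIntegrallyClosed B]
    (F : Type) [Field F] [Algebra B F] [IsFractionRing B F]
    (F' : Type) [Field F'] [Algebra F F'] [Algebra B F'] [IsScalarTower B F F']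
    (ϖ : B) (_ : Prime ϖ) (_ : RegularAlong ϖ)
    (p : ℕ) (_ : p.Prime) (_ : IsUnit (p : B))
    (u : F) (z : F') (_ : z ^ p = algebraMap F F' u) (_ : ∀ y : F, y ^ p ≠ u)
    (_ : OneModPi ϖ u) (_ : DivisibleDivisor B p u)
    (η : B) (_ : η ^ p = 1),
    ∃ b : F', IsIntegral B b ∧ InPiO ϖ (b - kummerIdem p η z)

/-- STATEMENT of unmixedness of `ϖ` on the integral closure in `F(z)`. -/
def KummerUnmixedStatement : Prop :=
  ∀ (B : Type) [CommRing B] [IsDomain B] [IsNoetherianRing B] [IsIntegrallyClosed B]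
    (F : Type) [Field F] [Algebra B F] [IsFractionRing B F]
    (F' : Type) [Field F'] [Algebra F F'] [Algebra B F'] [IsScalarTower B F F']
    (ϖ : B) (_ : Prime ϖ) (_ : RegularAlong ϖ)
    (p : ℕ) (_ : p.Prime) (_ : IsUnit (p : B))
    (u : F) (z : F') (_ : z ^ p = algebraMap F F' u) (_ : ∀ y : F, y ^ p ≠ u)
    (_ : OneModPi ϖ u) (_ : DivisibleDivisor B p u)
    (c : F') (_ : c ∈ IntermediateField.adjoin F {z}) (_ : IsIntegral B c) (_ : InPiO ϖ c),
    ∃ c' : F', IsIntegral B c' ∧ c = algebraMap B F' ϖ * c'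

/-- STATEMENT: the Kummer idempotents are idempotent and orthogonal modulo `ϖ O'`, sum to one,
and none of them vanishes modulo `ϖ O'`. -/
def KummerIdemStatement : Prop :=
  ∀ (B : Type) [CommRing B] [IsDomain B] [IsIntegrallyClosed B]
    (F : Type) [Field F] [Algebra B F] [IsFractionRing B F]
    (F' : Type) [Field F'] [Algebra F F'] [Algebra B F'] [IsScalarTower B F F']
    (ϖ : B) (_ : Prime ϖ)
    (p : ℕ) (_ : p.Prime) (_ : IsUnit (p : B))
    (u : F) (z : F') (_ : z ^ p = algebraMap F F' u) (_ : ∀ y : F, y ^ p ≠ u)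
    (_ : OneModPi ϖ u),
    (∀ η : B, η ^ p = 1 → InPiO ϖ (kummerIdem p η z * kummerIdem p η z - kummerIdem p η z)) ∧
    (∀ η η' : B, η ^ p = 1 → η' ^ p = 1 → η ≠ η' →
      InPiO ϖ (kummerIdem p η z * kummerIdem p η' z)) ∧
    (∀ ζ : B, IsPrimitiveRoot ζ p →
      ∑ i ∈ Finset.range p, kummerIdem p (ζ ^ i) z = 1) ∧
    (∀ η : B, η ^ p = 1 → ¬ InPiO ϖ (kummerIdem p η z))

end Fermat.Agent.S18.H754

end

end
-- ===== PACK-END S18/H754/KummerSpec.lean

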