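import Mathlib
import Fermat.Prelude.Def_ModularCurve_LaurentCoeff
import Fermat.Prelude.Def_ModularCurve_ReductionModL
import Fermat.Prelude.Def_ModularCurve_X0
import Mathlib.NumberTheory.ModularForms.CongruenceSubgroups
import Mathlib.GroupTheory.GroupAction.Quotient
import Mathlib.GroupTheory.Index
import Fermat.Prelude.Def_ModularCurve_GenusNumerics
import Fermat.Prelude.Def_ModularCurve_JqCoeff
import Mathlib.LinearAlgebra.Matrix.SpecialLinearGroup
import Mathlib.Data.ZMod.Basic

-- ===== PACK-BEGIN S29/H152/DescAut.lean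
section
/-
S29 / DESC (helper152) — part 1: automorphisms of an algebraically closed field over an
algebraically closed subfield.  Mathlib-only.

* `descAut_exists_add_one` : `x` transcendental over `K` in an algebraically closed field `C`
  ⇒ some `σ : C ≃ₐ[K] C` has `σ x = x + 1`.
* `descAut_mem_range_of_fixed` : `K`, `C` algebraically closed, `C` of characteristic zero,
  `H ≤ Aut(C/K)` of finite index, `x` fixed by `H` ⇒ `x ∈ K`.
-/


set_option autoImplicit false

namespace Fermat.Agent.S29.H152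

open MvPolynomial

section Shift

variable {K : Type*} [Field K] {ι : Type*} [DecidableEq ι]

/-- The `K`-algebra endomorphism of `K[X_i]` with `X_{i₀} ↦ X_{i₀} + c`, other variables fixed. -/
noncomputable def descShift (i₀ : ι) (c : K) : MvPolynomial ι K →ₐ[K] MvPolynomial ι K :=
  aeval fun i => if i = i₀ then X i + C c else X i

theorem descShift_X_self (i₀ : ι) (c : K) : descShift i₀ c (X i₀) = X i₀ + C c := by
  simp [descShift]

theorem descShift_X_of_ne (i₀ : ι) (c : K) {i : ι} (h : i ≠ i₀) :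
    descShift i₀ c (X i) = X i := by
  simp [descShift, h]

theorem descShift_comp (i₀ : ι) (c d : K) :
    (descShift i₀ c).comp (descShift i₀ d) = descShift i₀ (c + d) := by
  apply MvPolynomial.algHom_ext
  intro i
  by_cases h : i = i₀
  · subst h
    simp only [AlgHom.comp_apply, descShift_X_self, map_add]
    rw [show (descShift i c) (C d) = C d from (descShift i c).commutes d]
    ring
  · simp only [AlgHom.comp_apply, descShift_X_of_ne _ _ h]

theorem descShift_zero (i₀ : ι) : descShift i₀ (0 : K) = AlgHom.id K _ := by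
  apply MvPolynomial.algHom_ext
  intro i
  by_cases h : i = i₀
  · subst h
    simp [descShift_X_self]
  · simp [descShift_X_of_ne _ _ h]

/-- The shift as an algebra automorphism. -/
noncomputable def descShiftEquiv (i₀ : ι) (c : K) : MvPolynomial ι K ≃ₐ[K] MvPolynomial ι K :=
  AlgEquiv.ofAlgHom (descShift i₀ c) (descShift i₀ (-c))
    (by rw [descShift_comp, add_neg_cancel, descShift_zero])
    (by rw [descShift_comp, neg_add_cancel, descShift_zero])

theorem descShiftEquiv_X_self (i₀ : ι) (c : K) : descShiftEquiv i₀ c (X i₀) = X i₀ + C c :=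
  descShift_X_self i₀ c

end Shift

section Aut

variable {K Ω : Type*} [Field K] [Field Ω] [Algebra K Ω] [IsAlgClosed Ω]

/-- For `x` transcendental over `K` in an algebraically closed field `C`, some `K`-automorphism
of `C` maps `x` to `x + 1`. -/
theorem descAut_exists_add_one (x : Ω) (hx : Transcendental K x) :
    ∃ σ : Ω ≃ₐ[K] Ω, σ x = x + 1 := by
  classical
  have hind : AlgebraicIndepOn K id ({x} : Set Ω) := by
    show AlgebraicIndependent K fun i : ({x} : Set Ω) => id (i : Ω)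
    let _ : Unique ({x} : Set Ω) := Set.uniqueSingleton x
    rw [algebraicIndependent_unique_type_iff]
    exact hx
  obtain ⟨B, hxB, hB⟩ := exists_isTranscendenceBasis_superset hind
  have hxB' : x ∈ B := hxB (Set.mem_singleton x)
  let i₀ : B := ⟨x, hxB'⟩
  -- the subalgebra generated by the basis
  let A := Algebra.adjoin K (Set.range ((↑) : B → Ω))
  have hAC : IsAlgClosure A Ω := IsAlgClosed.isAlgClosure_of_transcendence_basis _ hB
  -- the automorphism of `A`
  let e : A ≃ₐ[K] A := (hB.1.aevalEquiv.symm.trans (descShiftEquiv i₀ 1)).trans hB.1.aevalEquiv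
  let σ₀ : Ω ≃+* Ω := IsAlgClosure.equivOfEquiv Ω Ω e.toRingEquiv
  have hσ₀ : ∀ a : A, σ₀ (algebraMap A Ω a) = algebraMap A Ω (e a) := fun a =>
    IsAlgClosure.equivOfEquiv_algebraMap Ω Ω e.toRingEquiv a
  have hK : ∀ r : K, σ₀ (algebraMap K Ω r) = algebraMap K Ω r := by
    intro r
    have h1 : algebraMap K Ω r = algebraMap A Ω (algebraMap K A r) := rfl
    rw [h1, hσ₀, e.commutes]
  refine ⟨AlgEquiv.ofRingEquiv (f := σ₀) hK, ?_⟩
  show σ₀ x = x + 1
  have hx1 : x = algebraMap A Ω (hB.1.aevalEquiv (X i₀)) := by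
    rw [hB.1.algebraMap_aevalEquiv, aeval_X]
  have he : e (hB.1.aevalEquiv (X i₀)) = hB.1.aevalEquiv (X i₀ + C 1) := by
    show hB.1.aevalEquiv ((descShiftEquiv i₀ 1) (hB.1.aevalEquiv.symm (hB.1.aevalEquiv (X i₀)))) = _
    rw [AlgEquiv.symm_apply_apply, descShiftEquiv_X_self]
  conv_lhs => rw [hx1]
  rw [hσ₀, he, hB.1.algebraMap_aevalEquiv, map_add, aeval_X, aeval_C]
  simp [i₀]

omit [IsAlgClosed Ω] in
/-- Iterating: `σ ^ n` maps `x` to `x + n`. -/
theorem descAut_pow_apply {σ : Ω ≃ₐ[K] Ω} {x : Ω} (h : σ x = x + 1) (n : ℕ) :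
    (σ ^ n) x = x + n := by
  induction n with
  | zero => simp
  | succ n ih =>
    rw [pow_succ', AlgEquiv.mul_apply, ih, map_add, h, map_natCast]
    push_cast
    ring

end Aut

section Fixed

variable {K Ω : Type*} [Field K] [Field Ω] [Algebra K Ω] [IsAlgClosed K] [IsAlgClosed Ω]
  [CharZero Ω]

/-- An element of `C` fixed by a finite-index subgroup of `Aut(C/K)` lies in `K`. -/
theorem descAut_mem_range_of_fixed (H : Subgroup (Ω ≃ₐ[K] Ω)) (hH : H.index ≠ 0) (x : Ω)
    (hx : ∀ σ ∈ H, σ x = x) : x ∈ Set.range (algebraMap K Ω) := by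
  by_contra hxK
  have htr : Transcendental K x := by
    intro halg
    apply hxK
    have hint : IsIntegral K x := halg.isIntegral
    have hdeg : (minpoly K x).degree = 1 :=
      IsAlgClosed.degree_eq_one_of_irreducible K (minpoly.irreducible hint)
    exact minpoly.mem_range_of_degree_eq_one K x hdeg
  obtain ⟨σ, hσ⟩ := descAut_exists_add_one x htr
  obtain ⟨n, hn, -, hmem⟩ := Subgroup.exists_pow_mem_of_index_ne_zero hH σ
  have h1 := hx _ hmem
  rw [descAut_pow_apply hσ] at h1
  have : (n : Ω) = 0 := by simpa using h1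
  exact hn.ne' (by exact_mod_cast this)

end Fixed

end Fermat.Agent.S29.H152

end
-- ===== PACK-END S29/H152/DescAut.lean

-- ===== PACK-BEGIN S29/H32/AutOrbit.lean
section
/-
S29 row, helper32: automorphisms of an algebraically closed field over an algebraically closed
subfield.  Mathlib-only.

Main results (namespace `Fermat.Agent.S29.H32`):
* `exists_algEquiv_apply_eq_add` : a transcendental element `z` of an algebraically closed field
  `Ω` over a field `k` can be moved to `z + c` (`c ∈ k`) by a `k`-automorphism of `Ω`.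
* `mem_range_of_finite_orbit` : if `k` is algebraically closed and `z : Ω` has only finitely many
  conjugates under `Ω ≃ₐ[k] Ω`, then `z ∈ k`.
* `mem_range_of_fixed_of_finiteIndex` : the fixed field of a finite-index subgroup of
  `Ω ≃ₐ[k] Ω` is `k`.
-/


set_option autoImplicit false

namespace Fermat.Agent.S29.H32

open MvPolynomial

section Shift

variable {k : Type*} [CommRing k] {ι : Type*} [DecidableEq ι]

/-- The `k`-algebra endomorphism of `k[X_i]` sending `X_{i₀} ↦ X_{i₀} + c` and fixing the other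
variables. -/
noncomputable def shiftHom (i₀ : ι) (c : k) : MvPolynomial ι k →ₐ[k] MvPolynomial ι k :=
  aeval fun i => if i = i₀ then X i + C c else X i

theorem shiftHom_X (i₀ : ι) (c : k) (i : ι) :
    shiftHom i₀ c (X i) = if i = i₀ then X i + C c else X i := by
  simp [shiftHom]

theorem shiftHom_comp (i₀ : ι) (c d : k) :
    (shiftHom i₀ c).comp (shiftHom i₀ d) = shiftHom i₀ (c + d) := by
  apply MvPolynomial.algHom_ext
  intro i
  by_cases h : i = i₀
  · subst h
    simp only [shiftHom, AlgHom.comp_apply, aeval_X, if_true, map_add, algHom_C,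
      algebraMap_eq, map_add, add_assoc]
  · simp [shiftHom, h]

theorem shiftHom_zero (i₀ : ι) : shiftHom i₀ (0 : k) = AlgHom.id k (MvPolynomial ι k) := by
  apply MvPolynomial.algHom_ext
  intro i
  by_cases h : i = i₀ <;> simp [shiftHom, h]

/-- The shift as an algebra automorphism. -/
noncomputable def shiftEquiv (i₀ : ι) (c : k) : MvPolynomial ι k ≃ₐ[k] MvPolynomial ι k :=
  AlgEquiv.ofAlgHom (shiftHom i₀ c) (shiftHom i₀ (-c))
    (by rw [shiftHom_comp, add_neg_cancel, shiftHom_zero])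
    (by rw [shiftHom_comp, neg_add_cancel, shiftHom_zero])

theorem shiftEquiv_X_self (i₀ : ι) (c : k) : shiftEquiv i₀ c (X i₀) = X i₀ + C c := by
  simp [shiftEquiv, shiftHom_X]

end Shift

section Move

variable {k Ω : Type*} [Field k] [Field Ω] [Algebra k Ω] [IsAlgClosed Ω]

/-- A transcendental element of an algebraically closed field can be translated by any
constant by an automorphism. -/
theorem exists_algEquiv_apply_eq_add (z : Ω) (hz : Transcendental k z) (c : k) :
    ∃ σ : Ω ≃ₐ[k] Ω, σ z = z + algebraMap k Ω c := by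
  classical
  have hs : AlgebraicIndepOn k id ({z} : Set Ω) := by
    have : AlgebraicIndependent k (fun x : ({z} : Set Ω) => (x : Ω)) := by
      rw [algebraicIndependent_singleton_iff (⟨z, rfl⟩ : ({z} : Set Ω))]
      exact hz
    exact this
  obtain ⟨t, hzt, ht⟩ := exists_isTranscendenceBasis_superset hs
  set B : t → Ω := fun x => (x : Ω) with hB
  have hzmem : z ∈ t := hzt rfl
  let i₀ : t := ⟨z, hzmem⟩
  have hcl := IsAlgClosed.isAlgClosure_of_transcendence_basis B ht
  -- the automorphism of the polynomial subalgebra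
  let e₀ : Algebra.adjoin k (Set.range B) ≃ₐ[k] Algebra.adjoin k (Set.range B) :=
    (ht.1.aevalEquiv.symm.trans (shiftEquiv i₀ c)).trans ht.1.aevalEquiv
  have he₀ : ∀ x, (e₀ x : Ω) = aeval B (shiftEquiv i₀ c (ht.1.aevalEquiv.symm x)) := by
    intro x
    simp only [e₀, AlgEquiv.trans_apply]
    exact AlgebraicIndependent.algebraMap_aevalEquiv ht.1 _
  let σ₀ : Ω ≃+* Ω := IsAlgClosure.equivOfEquiv Ω Ω e₀.toRingEquiv
  have hσ₀ : ∀ r : Algebra.adjoin k (Set.range B),
      σ₀ (algebraMap _ Ω r) = algebraMap _ Ω (e₀ r) := fun r =>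
    IsAlgClosure.equivOfEquiv_algebraMap Ω Ω e₀.toRingEquiv r
  have hcomm : ∀ a : k, σ₀ (algebraMap k Ω a) = algebraMap k Ω a := by
    intro a
    have h1 : algebraMap k Ω a
        = algebraMap (Algebra.adjoin k (Set.range B)) Ω (algebraMap k _ a) := rfl
    rw [h1, hσ₀, e₀.commutes]
  refine ⟨AlgEquiv.ofRingEquiv (f := σ₀) hcomm, ?_⟩
  have hzB : z = algebraMap (Algebra.adjoin k (Set.range B)) Ω
      ⟨z, Algebra.subset_adjoin ⟨i₀, rfl⟩⟩ := rfl
  show σ₀ z = _
  conv_lhs => rw [hzB]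
  rw [hσ₀]
  show (e₀ _ : Ω) = _
  rw [he₀]
  have hsymm : ht.1.aevalEquiv.symm ⟨z, Algebra.subset_adjoin ⟨i₀, rfl⟩⟩ = X i₀ := by
    rw [AlgEquiv.symm_apply_eq]
    apply Subtype.ext
    show z = algebraMap (Algebra.adjoin k (Set.range B)) Ω (ht.1.aevalEquiv (X i₀))
    rw [AlgebraicIndependent.algebraMap_aevalEquiv, aeval_X]
  rw [hsymm, shiftEquiv_X_self]
  simp [B, i₀]

end Move

section Orbit

variable {k Ω : Type*} [Field k] [Field Ω] [Algebra k Ω] [IsAlgClosed k] [IsAlgClosed Ω]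

omit [IsAlgClosed Ω] in
/-- Over an algebraically closed field, an element which is not a constant is transcendental. -/
theorem transcendental_of_not_mem_range {z : Ω} (hz : z ∉ Set.range (algebraMap k Ω)) :
    Transcendental k z := by
  intro halg
  apply hz
  have hint : IsIntegral k z := halg.isIntegral
  have hdeg : (minpoly k z).degree = 1 :=
    IsAlgClosed.degree_eq_one_of_irreducible k (minpoly.irreducible hint)
  exact minpoly.mem_range_of_degree_eq_one k z hdeg

/-- An element with finitely many conjugates under `Aut(Ω/k)` lies in `k`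
(`k`, `Ω` algebraically closed). -/
theorem mem_range_of_finite_orbit (z : Ω)
    (h : (Set.range fun σ : Ω ≃ₐ[k] Ω => σ z).Finite) : z ∈ Set.range (algebraMap k Ω) := by
  by_contra hz
  have htr := transcendental_of_not_mem_range hz
  have hinj : Function.Injective fun c : k => z + algebraMap k Ω c := by
    intro c d hcd
    exact (algebraMap k Ω).injective (add_left_cancel hcd)
  have hsub : (Set.range fun c : k => z + algebraMap k Ω c)
      ⊆ Set.range fun σ : Ω ≃ₐ[k] Ω => σ z := by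
    rintro _ ⟨c, rfl⟩
    obtain ⟨σ, hσ⟩ := exists_algEquiv_apply_eq_add z htr c
    exact ⟨σ, hσ⟩
  have : Infinite k := IsAlgClosed.instInfinite
  exact Set.infinite_range_of_injective hinj (h.subset hsub)

/-- The fixed field of a finite-index subgroup of `Aut(Ω/k)` is `k`. -/
theorem mem_range_of_fixed_of_finiteIndex (H : Subgroup (Ω ≃ₐ[k] Ω)) [H.FiniteIndex] (z : Ω)
    (hfix : ∀ σ ∈ H, σ z = z) : z ∈ Set.range (algebraMap k Ω) := by
  apply mem_range_of_finite_orbit
  -- the orbit map factors through the finite quotient `G ⧸ H`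
  let f : (Ω ≃ₐ[k] Ω) ⧸ H → Ω := Quotient.lift (fun σ : Ω ≃ₐ[k] Ω => σ z) (by
    intro a b hab
    have hab' : a⁻¹ * b ∈ H := QuotientGroup.leftRel_apply.mp hab
    have := hfix _ hab'
    show a z = b z
    have h2 : b z = a ((a⁻¹ * b) z) := by
      simp [AlgEquiv.mul_apply, AlgEquiv.aut_inv]
    rw [h2, this])
  have : Finite ((Ω ≃ₐ[k] Ω) ⧸ H) := Subgroup.finite_quotient_of_finiteIndex
  have : (Set.range fun σ : Ω ≃ₐ[k] Ω => σ z) ⊆ Set.range f := by
    rintro _ ⟨σ, rfl⟩
    exact ⟨QuotientGroup.mk σ, rfl⟩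
  exact (Set.finite_range f).subset this

end Orbit

end Fermat.Agent.S29.H32

end
-- ===== PACK-END S29/H32/AutOrbit.lean

-- ===== PACK-BEGIN S29/H32/CoeffDescent.lean
section
/-
S29 row, helper32: descent of the field of constants for subfields of Laurent series.

Setting: `k ⊆ Ω` fields, `F₀ ⊆ ℚ((q))` an intermediate field.  The Prelude field
`laurentBaseChange Ω F₀ ⊆ Ω((q))` is generated by `Ω` and `F₀`.

Main results (namespace `Fermat.Agent.S29.H32`):
* `exists_of_coeff_mem_range` : an element of `laurentBaseChange Ω F₀` all of whose coefficients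
  lie in `k` is the image of an element of `laurentBaseChange k F₀`.
* `coeffMap_mem_laurentBaseChange_of_mem` : `laurentBaseChange k F₀` maps into
  `laurentBaseChange Ω F₀`.
-/



set_option autoImplicit false

namespace Fermat.Agent.S29.H32

open ModularCurve HahnSeries

section General

variable {k Ω : Type*} [Field k] [Field Ω] [Algebra k Ω]

theorem coeffMap_algebraMap_injective :
    Function.Injective (coeffMap (algebraMap k Ω)) := by
  intro x y h
  ext n
  have := congrArg (fun z => z.coeff n) h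
  simp only [coeffMap_coeff] at this
  exact (algebraMap k Ω).injective this

theorem coeff_algebraMap_mul (c : Ω) (z : LaurentSeries Ω) (n : ℤ) :
    (algebraMap Ω (LaurentSeries Ω) c * z).coeff n = c * z.coeff n := by
  rw [algebraMap_laurentSeries_eq_single]
  simp

/-- The `Ω`-linear combination `∑ βᵢ * ι(gᵢ)` attached to a finitely supported family of Laurent
series over `k`. -/
noncomputable def comb {I : Type*} (β : I → Ω) (g : I →₀ LaurentSeries k) : LaurentSeries Ω :=
  g.sum fun i y => algebraMap Ω (LaurentSeries Ω) (β i) * coeffMap (algebraMap k Ω) y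

theorem comb_zero {I : Type*} (β : I → Ω) : comb β (0 : I →₀ LaurentSeries k) = 0 := by
  simp [comb]

theorem comb_add {I : Type*} (β : I → Ω) (g h : I →₀ LaurentSeries k) :
    comb β (g + h) = comb β g + comb β h := by
  classical
  unfold comb
  apply Finsupp.sum_add_index'
  · intro i; simp
  · intro i y z; simp [mul_add]

theorem comb_single {I : Type*} (β : I → Ω) (i : I) (y : LaurentSeries k) :
    comb β (Finsupp.single i y)
      = algebraMap Ω (LaurentSeries Ω) (β i) * coeffMap (algebraMap k Ω) y := by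
  unfold comb
  rw [Finsupp.sum_single_index]
  simp

theorem comb_coeff {I : Type*} (β : I → Ω) (g : I →₀ LaurentSeries k) (n : ℤ) :
    (comb β g).coeff n = g.sum fun i y => algebraMap k Ω (y.coeff n) * β i := by
  classical
  induction g using Finsupp.induction with
  | zero => simp [comb]
  | single_add i y g hi hy ih =>
    rw [comb_add, HahnSeries.coeff_add, ih, comb_single,
      Finsupp.sum_add_index' (by intro i; simp) (by intro i y z; simp [add_mul]),
      Finsupp.sum_single_index (by simp), coeff_algebraMap_mul, coeffMap_coeff, mul_comm]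

/-- Left multiplication by a Laurent series over `k`, coordinatewise. -/
noncomputable def mulLeft {I : Type*} (x : LaurentSeries k) (g : I →₀ LaurentSeries k) :
    I →₀ LaurentSeries k :=
  g.mapRange (fun y => x * y) (mul_zero x)

theorem comb_mulLeft {I : Type*} (β : I → Ω) (x : LaurentSeries k) (g : I →₀ LaurentSeries k) :
    comb β (mulLeft x g) = coeffMap (algebraMap k Ω) x * comb β g := by
  classical
  induction g using Finsupp.induction with
  | zero => simp [comb, mulLeft]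
  | single_add i y g hi hy ih =>
    have h1 : mulLeft x (Finsupp.single i y + g) = Finsupp.single i (x * y) + mulLeft x g := by
      unfold mulLeft
      rw [Finsupp.mapRange_add (by intro a b; exact mul_add x a b), Finsupp.mapRange_single]
    rw [h1, comb_add, comb_add, ih, comb_single, comb_single, _root_.map_mul, mul_add]
    congr 1
    ring

/-- Linear independence: if the `βᵢ` are `k`-linearly independent then `comb β` is injective. -/
theorem eq_zero_of_comb_eq_zero {I : Type*} {β : I → Ω} (hβ : LinearIndependent k β)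
    (g : I →₀ LaurentSeries k) (h : comb β g = 0) : g = 0 := by
  classical
  ext i n
  have hn : (comb β g).coeff n = 0 := by rw [h]; rfl
  rw [comb_coeff] at hn
  let c : I →₀ k := g.mapRange (fun y => y.coeff n) rfl
  have hc : Finsupp.linearCombination k β c = 0 := by
    rw [Finsupp.linearCombination_apply]
    rw [Finsupp.sum_mapRange_index (by intro i; simp)]
    rw [← hn]
    apply Finsupp.sum_congr
    intro j _
    rw [Algebra.smul_def]
  have := (linearIndependent_iff.mp hβ) c hc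
  have hci : c i = 0 := by rw [this]; rfl
  simpa [c] using hci

end General

section BaseChange

variable {k Ω : Type*} [Field k] [Field Ω] [Algebra k Ω]

theorem coeffMap_algebraMap_up (c : k) :
    coeffMap (algebraMap k Ω) (algebraMap k (LaurentSeries k) c)
      = algebraMap Ω (LaurentSeries Ω) (algebraMap k Ω c) := by
  rw [algebraMap_laurentSeries_eq_single, algebraMap_laurentSeries_eq_single, coeffMap_single]

variable [Algebra ℚ k] [Algebra ℚ Ω] [IsScalarTower ℚ k Ω]
variable (F₀ : IntermediateField ℚ (LaurentSeries ℚ))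

theorem coeffMap_coeffEmb_up (x : LaurentSeries ℚ) :
    coeffMap (algebraMap k Ω) (coeffEmb k x) = coeffEmb Ω x := by
  rw [coeffEmb, coeffEmb, coeffMap_coeffMap]
  exact coeffMap_congr (IsScalarTower.algebraMap_eq ℚ k Ω).symm x

/-- `laurentBaseChange k F₀` maps into `laurentBaseChange Ω F₀`. -/
theorem coeffMap_mem_laurentBaseChange_of_mem {x : LaurentSeries k}
    (hx : x ∈ laurentBaseChange k F₀) :
    coeffMap (algebraMap k Ω) x ∈ laurentBaseChange Ω F₀ := by
  rw [mem_laurentBaseChange_iff] at hx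
  induction hx using Subfield.closure_induction with
  | mem y hy =>
      rcases hy with ⟨a, rfl⟩ | ⟨z, hz, rfl⟩
      · rw [coeffMap_algebraMap_up]
        exact (laurentBaseChange Ω F₀).algebraMap_mem _
      · rw [coeffMap_coeffEmb_up]
        exact coeffEmb_mem_laurentBaseChange Ω hz
  | one => simp
  | add x y _ _ hx hy => simpa using add_mem hx hy
  | neg x _ hx => simpa using neg_mem hx
  | inv x _ hx => simpa using inv_mem hx
  | mul x y _ _ hx hy => simpa using mul_mem hx hy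

/-- The generating set of `laurentBaseChange Ω F₀` is multiplicatively closed, so the generated
subalgebra is just the `Ω`-span. -/
theorem adjoin_le_span :
    (Algebra.adjoin Ω (⇑(coeffEmb Ω) '' (F₀ : Set (LaurentSeries ℚ)))).toSubmodule
      ≤ @Submodule.span Ω (LaurentSeries Ω) _ _ Algebra.toModule
          (⇑(coeffEmb Ω) '' (F₀ : Set (LaurentSeries ℚ))) := by
  rw [Algebra.adjoin_eq_span]
  have h : ((Submonoid.closure (⇑(coeffEmb Ω) '' (F₀ : Set (LaurentSeries ℚ))) :
      Submonoid (LaurentSeries Ω)) : Set (LaurentSeries Ω))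
      ⊆ (⇑(coeffEmb Ω) '' (F₀ : Set (LaurentSeries ℚ))) := by
    have : (⇑(coeffEmb Ω) '' (F₀ : Set (LaurentSeries ℚ)))
        = ((F₀.toSubfield.toSubring.toSubmonoid.map (coeffEmb Ω : LaurentSeries ℚ →* _) :
            Submonoid (LaurentSeries Ω)) : Set (LaurentSeries Ω)) := by
      ext z
      simp
    rw [this, Submonoid.closure_eq]
  exact @Submodule.span_mono Ω (LaurentSeries Ω) _ _ Algebra.toModule _ _ h

/-- Every element of the `Ω`-span of `F₀` is a combination `∑ βᵢ * ι(gᵢ)` with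
`gᵢ ∈ laurentBaseChange k F₀`, for any `k`-basis `β` of `Ω`. -/
theorem exists_comb_of_mem_span {I : Type*} (β : Module.Basis I k Ω) {a : LaurentSeries Ω}
    (ha : a ∈ Algebra.adjoin Ω (⇑(coeffEmb Ω) '' (F₀ : Set (LaurentSeries ℚ)))) :
    ∃ g : I →₀ LaurentSeries k, (∀ i, g i ∈ laurentBaseChange k F₀) ∧ a = comb (⇑β) g := by
  classical
  -- auxiliary: `ω * ι(y)` for `y ∈ laurentBaseChange k F₀`
  have key : ∀ (ω : Ω) (y : LaurentSeries k), y ∈ laurentBaseChange k F₀ →
      ∃ g : I →₀ LaurentSeries k, (∀ i, g i ∈ laurentBaseChange k F₀) ∧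
        algebraMap Ω (LaurentSeries Ω) ω * coeffMap (algebraMap k Ω) y = comb (⇑β) g := by
    intro ω y hy
    refine ⟨(β.repr ω).mapRange (fun c => algebraMap k (LaurentSeries k) c * y) (by simp),
      fun i => ?_, ?_⟩
    · rw [Finsupp.mapRange_apply]
      exact mul_mem ((laurentBaseChange k F₀).algebraMap_mem _) hy
    · unfold comb
      rw [Finsupp.sum_mapRange_index (by intro i; simp)]
      conv_lhs => rw [← β.linearCombination_repr ω, Finsupp.linearCombination_apply]
      rw [Finsupp.sum, map_sum, Finset.sum_mul, Finsupp.sum]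
      apply Finset.sum_congr rfl
      intro i _
      rw [_root_.map_mul, coeffMap_algebraMap_up, Algebra.smul_def (β.repr ω i) (β i), _root_.map_mul]
      ring
  have ha' := adjoin_le_span (Ω := Ω) F₀ ha
  clear ha
  induction ha' using Submodule.span_induction with
  | mem x hx =>
      obtain ⟨f, hf, rfl⟩ := hx
      obtain ⟨g, hg, hge⟩ := key 1 (coeffEmb k f) (coeffEmb_mem_laurentBaseChange k hf)
      refine ⟨g, hg, ?_⟩
      rw [← hge, _root_.map_one, one_mul, coeffMap_coeffEmb_up]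
  | zero => exact ⟨0, fun i => by simp, (comb_zero _).symm⟩
  | add x y _ _ hx hy =>
      obtain ⟨g, hg, rfl⟩ := hx
      obtain ⟨h, hh, rfl⟩ := hy
      exact ⟨g + h, fun i => by rw [Finsupp.add_apply]; exact add_mem (hg i) (hh i),
        (comb_add _ g h).symm⟩
  | smul ω x _ hx =>
      obtain ⟨g, hg, rfl⟩ := hx
      rw [Algebra.smul_def]
      -- induct on `g`
      clear ‹_›
      induction g using Finsupp.induction with
      | zero => exact ⟨0, fun i => by simp, by rw [comb_zero, mul_zero]⟩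
      | single_add i y g hi hy ih =>
          have hyi : y ∈ laurentBaseChange k F₀ := by
            have := hg i
            rwa [Finsupp.add_apply, Finsupp.single_eq_same,
              Finsupp.notMem_support_iff.mp hi, add_zero] at this
          have hg' : ∀ j, g j ∈ laurentBaseChange k F₀ := by
            intro j
            by_cases hj : j = i
            · subst hj
              rw [Finsupp.notMem_support_iff.mp hi]
              exact zero_mem _
            · have := hg j
              rwa [Finsupp.add_apply, Finsupp.single_eq_of_ne hj, zero_add] at this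
          obtain ⟨g₁, hg₁, e₁⟩ := key (ω * β i) y hyi
          obtain ⟨g₂, hg₂, e₂⟩ := ih hg'
          refine ⟨g₁ + g₂, fun j => by rw [Finsupp.add_apply]; exact add_mem (hg₁ j) (hg₂ j), ?_⟩
          rw [comb_add, comb_add, mul_add, ← e₁, ← e₂, comb_single, _root_.map_mul, mul_assoc]

omit [Algebra ℚ k] [Algebra ℚ Ω] [IsScalarTower ℚ k Ω] in
/-- Lift of a Laurent series over `Ω` with coefficients in `k` to a Laurent series over `k`. -/
noncomputable def coeffDown (x : LaurentSeries Ω) : LaurentSeries k :=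
  x.map (⟨Function.invFun (algebraMap k Ω), by
    have h := Function.leftInverse_invFun (algebraMap k Ω).injective (0 : k)
    rwa [_root_.map_zero] at h⟩ : ZeroHom Ω k)

omit [Algebra ℚ k] [Algebra ℚ Ω] [IsScalarTower ℚ k Ω] in
theorem coeffMap_coeffDown {x : LaurentSeries Ω}
    (hx : ∀ n, x.coeff n ∈ Set.range (algebraMap k Ω)) :
    coeffMap (algebraMap k Ω) (coeffDown (k := k) x) = x := by
  ext n
  obtain ⟨c, hc⟩ := hx n
  simp only [coeffMap_coeff, coeffDown, HahnSeries.map_coeff, ZeroHom.coe_mk]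
  rw [← hc, Function.leftInverse_invFun (algebraMap k Ω).injective c]

/-- **Descent of constants.**  An element of `laurentBaseChange Ω F₀` whose coefficients all lie
in `k` comes from `laurentBaseChange k F₀`. -/
theorem exists_of_coeff_mem_range {x : LaurentSeries Ω} (hx : x ∈ laurentBaseChange Ω F₀)
    (hcoeff : ∀ n, x.coeff n ∈ Set.range (algebraMap k Ω)) :
    ∃ y ∈ laurentBaseChange k F₀, coeffMap (algebraMap k Ω) y = x := by
  classical
  let β := Module.Basis.ofVectorSpace k Ω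
  refine ⟨coeffDown x, ?_, coeffMap_coeffDown hcoeff⟩
  set x₀ : LaurentSeries k := coeffDown x with hx₀
  have hx₀x : coeffMap (algebraMap k Ω) x₀ = x := coeffMap_coeffDown hcoeff
  obtain ⟨r, hr, s, hs, hxrs⟩ := IntermediateField.mem_adjoin_iff_div.mp hx
  obtain ⟨gr, hgr, rfl⟩ := exists_comb_of_mem_span F₀ β hr
  obtain ⟨gs, hgs, rfl⟩ := exists_comb_of_mem_span F₀ β hs
  by_cases hs0 : comb (⇑β) gs = 0
  · -- then `x = 0`
    have hx0 : x = 0 := by rw [hxrs, hs0, div_zero]
    have : x₀ = 0 := by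
      apply coeffMap_algebraMap_injective (Ω := Ω)
      rw [hx₀x, hx0, _root_.map_zero]
    rw [this]
    exact zero_mem _
  · have hmul : coeffMap (algebraMap k Ω) x₀ * comb (⇑β) gs = comb (⇑β) gr := by
      rw [hx₀x, hxrs, div_mul_cancel₀ _ hs0]
    rw [← comb_mulLeft] at hmul
    have hgs0 : gs ≠ 0 := by
      rintro rfl
      exact hs0 (comb_zero _)
    obtain ⟨i, hi⟩ := Finsupp.ne_iff.mp hgs0
    have hsub : comb (⇑β) (mulLeft x₀ gs - gr) = 0 := by
      have := comb_add (⇑β) (mulLeft x₀ gs - gr) gr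
      rw [sub_add_cancel, hmul] at this
      exact (add_eq_right.mp this.symm)
    have hz := eq_zero_of_comb_eq_zero β.linearIndependent _ hsub
    have hi' : x₀ * gs i = gr i := by
      have := congrArg (fun g => g i) hz
      simp only [Finsupp.sub_apply, Finsupp.zero_apply, mulLeft, Finsupp.mapRange_apply] at this
      exact sub_eq_zero.mp this
    have hgsi : gs i ≠ 0 := by simpa using hi
    have : x₀ = gr i / gs i := by
      rw [eq_div_iff hgsi, hi']
    rw [this]
    exact div_mem (hgr i) (hgs i)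

end BaseChange

end Fermat.Agent.S29.H32

end
-- ===== PACK-END S29/H32/CoeffDescent.lean

-- ===== PACK-BEGIN S18/Spec.lean
section



/-!
# S18 — frozen interfaces of the row (row-lead helper18)

`F  := modularFunctionFieldBar N ⊆ Q̄((q))`, `F_k := modularFunctionFieldFullC k N ⊆ k((q))`,
`A ⊆ Q̄` a valuation subring over `ℓ`, `k := A/𝔪`.

* `CoreStatement N A m` : the Kummer-type core (no places of `F_k`, no reduction map `r`).
* `StepAStatement`     : S18 for `(N, A, m)` follows from `CoreStatement N A m` (Prelude unfolding).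
-/

set_option autoImplicit false

noncomputable section

namespace Fermat.Agent.S18

open ModularCurve AlgebraicCurve HahnSeries

/-- The field `Q̄`. -/
abbrev Qb : Type := AlgebraicClosure ℚ

/-- `IsInt A N U`: the series `U ∈ A((q))` lies in `F_N` (after `A ⊆ Q̄`) and its coefficientwise
reduction lies in `F_{N,k}` and is nonzero.  (`O_int ∖ 𝔪` of the plan.) -/
def IsInt (A : ValuationSubring Qb) (N : ℕ) (U : LaurentSeries A) : Prop :=
  coeffMap A.subtype U ∈ modularFunctionFieldBar N ∧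
    coeffMap (IsLocalRing.residue A) U ∈
      modularFunctionFieldFullC (IsLocalRing.ResidueField A) N ∧
    coeffMap (IsLocalRing.residue A) U ≠ 0

/-- The element of `F_N` given by an integral series. -/
def toF {A : ValuationSubring Qb} {N : ℕ} {U : LaurentSeries A} (hU : IsInt A N U) :
    modularFunctionFieldBar N :=
  ⟨coeffMap A.subtype U, hU.1⟩

/-- CORE(N, A, m): two integral series with the same nonzero reduction whose quotient has a
divisor divisible by `m` differ by a constant times an `m`-th power in `F_N`. -/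
def CoreStatement (N : ℕ) (A : ValuationSubring Qb) (m : ℕ) : Prop :=
  ∀ (U₁ U₂ : LaurentSeries A) (h₁ : IsInt A N U₁) (h₂ : IsInt A N U₂),
    coeffMap (IsLocalRing.residue A) U₁ = coeffMap (IsLocalRing.residue A) U₂ →
    (∀ v : Place Qb (modularFunctionFieldBar N),
      (m : ℤ) ∣ v.ord (toF h₁) - v.ord (toF h₂)) →
    ∃ (c : Qb) (y : modularFunctionFieldBar N), c ≠ 0 ∧ y ≠ 0 ∧
      toF h₁ = algebraMap Qb (modularFunctionFieldBar N) c * y ^ m * toF h₂

/-- Step A (Prelude unfolding): S18 at `(N, A, m)` from CORE at `(N, A, m)`.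
Uses the hypothesis `h` (place reduction `r` with (i),(ii) and PGI (iii)). -/
def StepAStatement (N : ℕ) [NeZero N] (A : ValuationSubring Qb) (m : ℕ) : Prop :=
  CoreStatement N A m →
    ∀ (_h : ModularCurve.ReductionInputsModL A N) (z : ModularCurve.JZero N),
      m • z = 0 → ModularCurve.reductionModL A N z = 0 → z = 0

end Fermat.Agent.S18

end
end
-- ===== PACK-END S18/Spec.lean

-- ===== PACK-BEGIN S37/H400/KronFrob.lean
section
/-
S37 / helper400 — piece KRON, part (K0): Frobenius on Laurent series in characteristic `p`.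

`f ^ p = V_p (frob f)`, where `V_p = qExpand R p` is `q ↦ q ^ p` and `frob` raises every
coefficient to the `p`-th power.
-/




set_option autoImplicit false
set_option linter.style.haveILetI false

noncomputable section

open ModularCurve HahnSeries

namespace Fermat.Agent.S37.H400

variable {R : Type*} [CommRing R]

/-- Coefficients of the `p`-th power of a power series in characteristic `p`. -/
theorem powerSeries_coeff_pow_char (p : ℕ) [Fact p.Prime] [CharP R p] (g : PowerSeries R)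
    (n : ℕ) :
    PowerSeries.coeff n (g ^ p) = if p ∣ n then (PowerSeries.coeff (n / p) g) ^ p else 0 := by
  have hp : 0 < p := (Fact.out : p.Prime).pos
  have h1 : PowerSeries.coeff n (g ^ p) =
      PowerSeries.coeff n ((PowerSeries.trunc (n + 1) g : PowerSeries R) ^ p) := by
    rw [← PowerSeries.coeff_coe_trunc_of_lt (Nat.lt_succ_self n) (f := g ^ p),
      ← PowerSeries.trunc_trunc_pow,
      PowerSeries.coeff_coe_trunc_of_lt (Nat.lt_succ_self n)]
  rw [h1, ← Polynomial.coe_pow, Polynomial.coeff_coe, ← Polynomial.map_frobenius_expand,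
    Polynomial.coeff_map, Polynomial.coeff_expand hp]
  split_ifs with h
  · rw [PowerSeries.coeff_trunc, if_pos, frobenius_def]
    exact lt_of_le_of_lt (Nat.div_le_self n p) (Nat.lt_succ_self n)
  · simp

/-- The power-series case of `laurent_pow_char`. -/
theorem ofPowerSeries_pow_char (p : ℕ) [Fact p.Prime] [CharP R p] (g : PowerSeries R) :
    (HahnSeries.ofPowerSeries ℤ R g) ^ p =
      qExpand R p (coeffMap (frobenius R p) (HahnSeries.ofPowerSeries ℤ R g)) := by
  haveI : NeZero p := ⟨(Fact.out : p.Prime).ne_zero⟩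
  have hp : 0 < p := (Fact.out : p.Prime).pos
  have hpz : (0 : ℤ) < (p : ℤ) := by exact_mod_cast hp
  rw [← map_pow]
  ext k
  by_cases hk : (p : ℤ) ∣ k
  · obtain ⟨m, rfl⟩ := hk
    rw [qExpand_coeff_mul, coeffMap_coeff, PowerSeries.coeff_coe, PowerSeries.coeff_coe]
    by_cases hm : m < 0
    · have : (p : ℤ) * m < 0 := by nlinarith
      rw [if_pos this, if_pos hm, _root_.map_zero]
    · have hm' : 0 ≤ m := not_lt.mp hm
      have : ¬ (p : ℤ) * m < 0 := by
        have := mul_nonneg hpz.le hm'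
        omega
      rw [if_neg this, if_neg hm, powerSeries_coeff_pow_char, frobenius_def]
      have h1 : ((p : ℤ) * m).natAbs = p * m.natAbs := by
        rw [Int.natAbs_mul, Int.natAbs_natCast]
      rw [h1, if_pos (dvd_mul_right p _), Nat.mul_div_cancel_left _ hp]
  · rw [qExpand_coeff_of_not_dvd p _ hk, PowerSeries.coeff_coe]
    split_ifs with h
    · rfl
    · rw [powerSeries_coeff_pow_char, if_neg]
      intro hd
      apply hk
      have h0 : 0 ≤ k := not_lt.mp h
      have : (k.natAbs : ℤ) = k := Int.natAbs_of_nonneg h0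
      rw [← this]
      exact_mod_cast hd

/-- **(K0)** In characteristic `p`, the `p`-th power of a Laurent series is obtained by
raising the coefficients to the `p`-th power and substituting `q ↦ q ^ p`. -/
theorem laurent_pow_char (p : ℕ) [Fact p.Prime] [CharP R p] (f : LaurentSeries R) :
    haveI : NeZero p := ⟨(Fact.out : p.Prime).ne_zero⟩
    f ^ p = qExpand R p (coeffMap (frobenius R p) f) := by
  haveI : NeZero p := ⟨(Fact.out : p.Prime).ne_zero⟩
  show f ^ p = qExpand R p (coeffMap (frobenius R p) f)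
  conv_lhs => rw [← LaurentSeries.single_order_mul_powerSeriesPart f]
  conv_rhs => rw [← LaurentSeries.single_order_mul_powerSeriesPart f]
  rw [mul_pow, _root_.map_mul, _root_.map_mul, ofPowerSeries_pow_char, coeffMap_single, qExpand_single,
    HahnSeries.single_pow, _root_.map_one, one_pow, nsmul_eq_mul]

end Fermat.Agent.S37.H400

end
end
-- ===== PACK-END S37/H400/KronFrob.lean

-- ===== PACK-BEGIN S29/H812/Tower.lean
section


/-!
# S29 / H812 — degree of `F'` over `K(x)` for `x ∈ F ⊆ F'`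
-/

set_option autoImplicit false

noncomputable section

open IntermediateField

namespace Fermat.Agent.S29.H812

variable {K F F' : Type*} [Field K] [Field F] [Field F']
  [Algebra K F] [Algebra K F'] [Algebra F F'] [IsScalarTower K F F']

/-- `[F' : K(x')] = [F : K(x)] · [F' : F]` for `x' = algebraMap F F' x`. -/
theorem finrank_adjoin_algebraMap (x : F) :
    Module.finrank K⟮algebraMap F F' x⟯ F' = Module.finrank K⟮x⟯ F * Module.finrank F F' := by
  haveI : IsScalarTower K⟮x⟯ F F' := inferInstance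
  rw [Module.finrank_mul_finrank K⟮x⟯ F F']
  set f : F →ₐ[K] F' := IsScalarTower.toAlgHom K F F' with hf
  have hmap : (K⟮x⟯).map f = K⟮algebraMap F F' x⟯ := by
    rw [IntermediateField.adjoin_map, Set.image_singleton]
    rfl
  have h1 : Module.finrank K⟮algebraMap F F' x⟯ F' = Module.finrank ((K⟮x⟯).map f) F' :=
    congrArg (fun E : IntermediateField K F' => Module.finrank E F') hmap.symm
  rw [h1]
  symm
  refine Algebra.finrank_eq_of_equiv_equiv
    ((IntermediateField.equivMap K⟮x⟯ f).toRingEquiv) (RingEquiv.refl F') ?_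
  ext c
  rfl

theorem finiteDimensional_adjoin_algebraMap (x : F) [FiniteDimensional K⟮x⟯ F]
    [FiniteDimensional F F'] : FiniteDimensional K⟮algebraMap F F' x⟯ F' := by
  apply Module.finite_of_finrank_pos
  rw [finrank_adjoin_algebraMap]
  exact Nat.mul_pos Module.finrank_pos Module.finrank_pos

theorem transcendental_algebraMap_of {x : F} (hx : Transcendental K x) :
    Transcendental K (algebraMap F F' x) :=
  (transcendental_algebraMap_iff (algebraMap F F').injective).mpr hx

/-- If `F'` is finite over `K(φ x)` with `φ x` in the image of `F`, then `F'` is finite over `F`. -/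
theorem finite_of_finite_adjoin_algebraMap (x : F)
    [h : FiniteDimensional K⟮algebraMap F F' x⟯ F'] : Module.Finite F F' := by
  obtain ⟨s, hs⟩ := (Module.finite_def.mp h)
  refine Module.finite_def.mpr ⟨s, ?_⟩
  rw [eq_top_iff]
  rintro y -
  have hy : y ∈ Submodule.span K⟮algebraMap F F' x⟯ (s : Set F') := by rw [hs]; trivial
  have hle : K⟮algebraMap F F' x⟯ ≤ (IsScalarTower.toAlgHom K F F').fieldRange := by
    rw [IntermediateField.adjoin_le_iff]
    rintro _ rfl
    exact ⟨x, rfl⟩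
  induction hy using Submodule.span_induction with
  | mem z hz => exact Submodule.subset_span hz
  | zero => exact _root_.ZeroMemClass.zero_mem _
  | add a b _ _ ha hb => exact _root_.AddMemClass.add_mem ha hb
  | smul c z _ hz =>
    obtain ⟨c₀, hc₀⟩ := hle c.2
    have : c • z = c₀ • z := by
      rw [Algebra.smul_def, Algebra.smul_def]
      congr 1
      exact hc₀.symm
    rw [this]
    exact Submodule.smul_mem _ _ hz

end Fermat.Agent.S29.H812

end
end
-- ===== PACK-END S29/H812/Tower.lean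

-- ===== PACK-BEGIN S29/H509/WeightedEis.lean
section


/-!
# Weighted Eisenstein sums (helper509, S29 piece TES, file 1)

For a bounded weight `w : (Fin 2 → ℤ) → ℂ` (`‖w v‖ ≤ 1`) and `3 ≤ k` we study
`wEis w k z = ∑' v, w v * eisSummand k v z`:
absolute summability, the slash action of `SL(2, ℤ)`, holomorphy, boundedness at `i∞`
(of every `SL(2, ℤ)`-translate) and the limit along a vertical strip.
-/

set_option autoImplicit false

namespace Fermat.Agent.S29.H509

open ModularForm UpperHalfPlane Matrix CongruenceSubgroup EisensteinSeries Filter Topology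
open scoped MatrixGroups Manifold

noncomputable section

/-- The weighted Eisenstein sum `∑' v, w v * (v 0 * z + v 1) ^ (-k)`. -/
def wEis (w : (Fin 2 → ℤ) → ℂ) (k : ℤ) (z : ℍ) : ℂ :=
  ∑' v : Fin 2 → ℤ, w v * eisSummand k v z

lemma norm_wEis_summand_le {w : (Fin 2 → ℤ) → ℂ} (hw : ∀ v, ‖w v‖ ≤ 1) (k : ℤ)
    (v : Fin 2 → ℤ) (z : ℍ) : ‖w v * eisSummand k v z‖ ≤ ‖eisSummand k v z‖ := by
  rw [norm_mul]
  exact mul_le_of_le_one_left (norm_nonneg _) (hw v)

lemma summable_norm_wEis_summand {w : (Fin 2 → ℤ) → ℂ} (hw : ∀ v, ‖w v‖ ≤ 1) {k : ℤ}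
    (hk : 3 ≤ k) (z : ℍ) : Summable fun v : Fin 2 → ℤ => ‖w v * eisSummand k v z‖ :=
  (summable_norm_eisSummand hk z).of_nonneg_of_le (fun _ => norm_nonneg _)
    (fun v => norm_wEis_summand_le hw k v z)

lemma summable_wEis_summand {w : (Fin 2 → ℤ) → ℂ} (hw : ∀ v, ‖w v‖ ≤ 1) {k : ℤ}
    (hk : 3 ≤ k) (z : ℍ) : Summable fun v : Fin 2 → ℤ => w v * eisSummand k v z :=
  (summable_norm_wEis_summand hw hk z).of_norm

/-- Right multiplication by `γ ∈ SL(2, ℤ)` as a permutation of `Fin 2 → ℤ`. -/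
def vecMulEquiv (γ : SL(2, ℤ)) : (Fin 2 → ℤ) ≃ (Fin 2 → ℤ) where
  toFun v := v ᵥ* γ
  invFun v := v ᵥ* ↑(γ⁻¹)
  left_inv v := by
    simp_rw [vecMul_vecMul, ← Matrix.SpecialLinearGroup.coe_mul, mul_inv_cancel,
      Matrix.SpecialLinearGroup.coe_one, vecMul_one]
  right_inv v := by
    simp_rw [vecMul_vecMul, ← Matrix.SpecialLinearGroup.coe_mul, inv_mul_cancel,
      Matrix.SpecialLinearGroup.coe_one, vecMul_one]

@[simp] lemma vecMulEquiv_apply (γ : SL(2, ℤ)) (v : Fin 2 → ℤ) :
    vecMulEquiv γ v = v ᵥ* γ := rfl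

@[simp] lemma vecMulEquiv_symm_apply (γ : SL(2, ℤ)) (v : Fin 2 → ℤ) :
    (vecMulEquiv γ).symm v = v ᵥ* ↑(γ⁻¹) := rfl

/-- The slash action permutes the weights. -/
theorem wEis_slash (w : (Fin 2 → ℤ) → ℂ) (k : ℤ) (γ : SL(2, ℤ)) :
    wEis w k ∣[k] γ = wEis (fun v => w (v ᵥ* ↑(γ⁻¹))) k := by
  ext1 z
  simp_rw [SL_slash_apply, _root_.zpow_neg,
    mul_inv_eq_iff_eq_mul₀ (zpow_ne_zero _ <| denom_ne_zero _ z), wEis, eisSummand_SL2_apply,
    ← tsum_mul_right]
  conv_rhs => rw [← (vecMulEquiv γ).tsum_eq]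
  refine tsum_congr fun v => ?_
  simp only [vecMulEquiv_apply, vecMul_vecMul, ← Matrix.SpecialLinearGroup.coe_mul, mul_inv_cancel,
    Matrix.SpecialLinearGroup.coe_one, vecMul_one]
  ring


/-! ### Locally uniform convergence and holomorphy -/

theorem wEis_tendstoLocallyUniformly {w : (Fin 2 → ℤ) → ℂ} (hw : ∀ v, ‖w v‖ ≤ 1) {k : ℤ}
    (hk : 3 ≤ k) :
    TendstoLocallyUniformly
      (fun (s : Finset (Fin 2 → ℤ)) ↦ (∑ x ∈ s, w x * eisSummand k x ·))
      (wEis w k ·) Filter.atTop := by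
  have hk' : (2 : ℝ) < k := by norm_cast
  have p_sum : Summable fun x : Fin 2 → ℤ ↦ ‖x‖ ^ (-k) :=
    mod_cast (summable_one_div_norm_rpow hk')
  simp only [tendstoLocallyUniformly_iff_forall_isCompact, wEis]
  intro K hK
  obtain ⟨A, B, hB, HABK⟩ := subset_verticalStrip_of_isCompact hK
  refine (tendstoUniformlyOn_tsum (hu := p_sum.mul_left <| r ⟨⟨A, B⟩, hB⟩ ^ (-k : ℝ))
    (fun p z hz ↦ ?_)).mono HABK
  refine (norm_wEis_summand_le hw k p z).trans ?_
  simpa only [eisSummand, one_div, ← _root_.zpow_neg, norm_zpow, ← Real.rpow_intCast,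
    Int.cast_neg] using summand_bound_of_mem_verticalStrip (by positivity) p hB hz

lemma wEis_tendstoLocallyUniformlyOn {w : (Fin 2 → ℤ) → ℂ} (hw : ∀ v, ‖w v‖ ≤ 1) {k : ℤ}
    (hk : 3 ≤ k) :
    TendstoLocallyUniformlyOn (fun (s : Finset (Fin 2 → ℤ)) ↦
      ↑ₕ(fun (z : ℍ) ↦ ∑ x ∈ s, w x * eisSummand k x z)) (↑ₕ(wEis w k))
          Filter.atTop {z : ℂ | 0 < z.im} := by
  rw [← upperHalfPlaneSet, ← range_coe, ← Set.image_univ]
  apply TendstoLocallyUniformlyOn.comp (s := ⊤) _ _ _ (OpenPartialHomeomorph.continuousOn_symm _)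
  · simp only [Set.top_eq_univ, tendstoLocallyUniformlyOn_univ]
    apply wEis_tendstoLocallyUniformly hw hk
  · simp only [IsOpenEmbedding.toOpenPartialHomeomorph_target, Set.top_eq_univ,
      Set.mapsTo_range_iff, Set.mem_univ, forall_const]

/-- Weighted Eisenstein sums are holomorphic on `ℍ`. -/
theorem wEis_mdifferentiable {w : (Fin 2 → ℤ) → ℂ} (hw : ∀ v, ‖w v‖ ≤ 1) {k : ℤ}
    (hk : 3 ≤ k) : MDiff (wEis w k) := by
  intro τ
  suffices DifferentiableAt ℂ (↑ₕ(wEis w k)) τ.1 by
    convert!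
      MDifferentiableAt.comp τ (DifferentiableAt.mdifferentiableAt this) τ.mdifferentiable_coe
    exact funext fun z ↦ (comp_ofComplex (wEis w k) z).symm
  refine DifferentiableOn.differentiableAt ?_ (isOpen_upperHalfPlaneSet.mem_nhds τ.2)
  refine (wEis_tendstoLocallyUniformlyOn hw hk).differentiableOn
    (Eventually.of_forall fun s ↦ ?_) isOpen_upperHalfPlaneSet
  have h1 : DifferentiableOn ℂ (fun z : ℂ => ∑ x ∈ s, w x * (↑ₕ(eisSummand k x)) z)
      {z : ℂ | 0 < z.im} :=
    DifferentiableOn.fun_sum fun x _ ↦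
      (eisSummand_extension_differentiableOn k x).const_mul (w x)
  refine h1.congr fun z _ => ?_
  simp only [Function.comp_apply]

/-! ### The majorant and boundedness at `i∞` -/

/-- The majorant `∑' v, ‖eisSummand k v z‖`. -/
def eisMaj (k : ℤ) (z : ℍ) : ℝ := ∑' v : Fin 2 → ℤ, ‖eisSummand k v z‖

lemma norm_wEis_le_eisMaj {w : (Fin 2 → ℤ) → ℂ} (hw : ∀ v, ‖w v‖ ≤ 1) {k : ℤ}
    (hk : 3 ≤ k) (z : ℍ) : ‖wEis w k z‖ ≤ eisMaj k z := by
  refine (norm_tsum_le_tsum_norm (summable_norm_wEis_summand hw hk z)).trans ?_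
  exact (summable_norm_wEis_summand hw hk z).tsum_le_tsum
    (fun v => norm_wEis_summand_le hw k v z) (summable_norm_eisSummand hk z)

lemma eisMaj_smul (k : ℤ) (γ : SL(2, ℤ)) (z : ℍ) :
    eisMaj k (γ • z) = ‖denom γ z‖ ^ k * eisMaj k z := by
  unfold eisMaj
  simp_rw [eisSummand_SL2_apply, norm_mul, norm_zpow, tsum_mul_left]
  congr 1
  exact (vecMulEquiv γ).tsum_eq (fun v => ‖eisSummand k v z‖)

lemma denom_T_zpow (n : ℤ) (z : ℍ) : denom (ModularGroup.T ^ n : SL(2, ℤ)) z = 1 := by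
  simp [denom, ModularGroup.coe_T_zpow, -map_zpow]

lemma eisMaj_T_zpow_smul (k : ℤ) (n : ℤ) (z : ℍ) :
    eisMaj k (ModularGroup.T ^ n • z) = eisMaj k z := by
  rw [eisMaj_smul, denom_T_zpow]
  simp

lemma eisMaj_le_of_mem_verticalStrip {k : ℤ} (hk : 3 ≤ k) {A B : ℝ} (hB : 0 < B) {z : ℍ}
    (hz : z ∈ verticalStrip A B) :
    eisMaj k z ≤ ∑' x : Fin 2 → ℤ, r ⟨⟨A, B⟩, hB⟩ ^ (-k) * ‖x‖ ^ (-k) := by
  have hk' : (2 : ℝ) < k := by norm_cast
  apply (summable_norm_eisSummand hk _).tsum_le_tsum _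
  · exact_mod_cast (summable_one_div_norm_rpow hk').mul_left <| r ⟨⟨A, B⟩, hB⟩ ^ (-k)
  · intro x
    simp_rw [eisSummand, norm_zpow]
    exact_mod_cast summand_bound_of_mem_verticalStrip (lt_trans two_pos hk').le x hB hz

/-- Weighted Eisenstein sums are bounded at `i∞`. -/
theorem isBoundedAtImInfty_wEis {w : (Fin 2 → ℤ) → ℂ} (hw : ∀ v, ‖w v‖ ≤ 1) {k : ℤ}
    (hk : 3 ≤ k) : IsBoundedAtImInfty (wEis w k) := by
  rw [UpperHalfPlane.isBoundedAtImInfty_iff]
  refine ⟨∑' x : Fin 2 → ℤ, r ⟨⟨1, 2⟩, Nat.ofNat_pos⟩ ^ (-k) * ‖x‖ ^ (-k), 2, fun z hz => ?_⟩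
  obtain ⟨n, hn⟩ := ModularGroup_T_zpow_mem_verticalStrip z (N := 1) one_pos
  refine (norm_wEis_le_eisMaj hw hk z).trans ?_
  rw [← eisMaj_T_zpow_smul k ((1 : ℕ) * n) z]
  refine eisMaj_le_of_mem_verticalStrip hk two_pos ?_
  exact verticalStrip_anti_right _ hz (by simpa using hn)

/-- Every `SL(2, ℤ)`-translate of a weighted Eisenstein sum is bounded at `i∞`. -/
theorem isBoundedAtImInfty_wEis_slash {w : (Fin 2 → ℤ) → ℂ} (hw : ∀ v, ‖w v‖ ≤ 1) {k : ℤ}
    (hk : 3 ≤ k) (γ : SL(2, ℤ)) : IsBoundedAtImInfty (wEis w k ∣[k] γ) := by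
  rw [wEis_slash]
  exact isBoundedAtImInfty_wEis (fun v => hw _) hk


/-! ### The limit at `i∞` -/

lemma norm_eisSummand_le_inv_im {k : ℤ} (hk : 1 ≤ k) {v : Fin 2 → ℤ} (hv : v 0 ≠ 0) (z : ℍ)
    (hz : 1 ≤ z.im) : ‖eisSummand k v z‖ ≤ (z.im)⁻¹ := by
  have him : z.im ≤ ‖(v 0 : ℂ) * (z : ℂ) + v 1‖ := by
    have h1 : |((v 0 : ℂ) * (z : ℂ) + v 1).im| ≤ ‖(v 0 : ℂ) * (z : ℂ) + v 1‖ :=
      Complex.abs_im_le_norm _
    have h2 : ((v 0 : ℂ) * (z : ℂ) + v 1).im = (v 0 : ℝ) * z.im := by
      simp [Complex.add_im, Complex.mul_im]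
    have h3 : (1 : ℝ) ≤ |(v 0 : ℝ)| := by
      have : (1 : ℤ) ≤ |v 0| := Int.one_le_abs hv
      exact_mod_cast this
    rw [h2, abs_mul, abs_of_pos z.im_pos] at h1
    nlinarith [z.im_pos]
  have hpos : 0 < z.im := z.im_pos
  obtain ⟨n, rfl⟩ : ∃ n : ℕ, k = (n : ℤ) := ⟨k.toNat, by omega⟩
  have hn : 1 ≤ n := by exact_mod_cast hk
  simp only [eisSummand, _root_.zpow_neg, zpow_natCast, norm_inv, norm_pow]
  rw [inv_le_inv₀ (pow_pos (hpos.trans_le him) _) hpos]
  calc z.im ≤ ‖(v 0 : ℂ) * (z : ℂ) + v 1‖ := him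
    _ = ‖(v 0 : ℂ) * (z : ℂ) + v 1‖ ^ 1 := (pow_one _).symm
    _ ≤ ‖(v 0 : ℂ) * (z : ℂ) + v 1‖ ^ n := pow_le_pow_right₀ (hz.trans him) hn

lemma tendsto_eisSummand_atImInfty {k : ℤ} (hk : 1 ≤ k) {v : Fin 2 → ℤ} (hv : v 0 ≠ 0) :
    Tendsto (eisSummand k v) atImInfty (𝓝 0) := by
  rw [tendsto_zero_iff_norm_tendsto_zero]
  refine squeeze_zero' (Eventually.of_forall fun _ => norm_nonneg _) ?_
    (tendsto_inv_atTop_zero.comp tendsto_comap)
  rw [Filter.Eventually, atImInfty_mem]
  exact ⟨1, fun z hz => norm_eisSummand_le_inv_im hk hv z hz⟩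

/-- The constant term of a weighted Eisenstein sum: the sum over the vectors `(0, d)`. -/
def wEisConst (w : (Fin 2 → ℤ) → ℂ) (k : ℤ) : ℂ :=
  ∑' v : Fin 2 → ℤ, if v 0 = 0 then w v * (v 1 : ℂ) ^ (-k) else 0

/-- Along any filter finer than `atImInfty` and eventually contained in a vertical strip, the
weighted Eisenstein sum tends to its constant term. -/
theorem tendsto_wEis_of_le {w : (Fin 2 → ℤ) → ℂ} (hw : ∀ v, ‖w v‖ ≤ 1) {k : ℤ}
    (hk : 3 ≤ k) {l : Filter ℍ} (hl : l ≤ atImInfty) {A B : ℝ} (hB : 0 < B)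
    (hstrip : ∀ᶠ z in l, z ∈ verticalStrip A B) :
    Tendsto (wEis w k) l (𝓝 (wEisConst w k)) := by
  have hk' : (2 : ℝ) < k := by norm_cast
  refine tendsto_tsum_of_dominated_convergence
    (bound := fun x : Fin 2 → ℤ => r ⟨⟨A, B⟩, hB⟩ ^ (-k) * ‖x‖ ^ (-k)) ?_ ?_ ?_
  · exact_mod_cast (summable_one_div_norm_rpow hk').mul_left (r ⟨⟨A, B⟩, hB⟩ ^ (-k))
  · intro v
    by_cases hv : v 0 = 0
    · simp only [hv, if_true, eisSummand, Int.cast_zero, _root_.MulZeroClass.zero_mul, zero_add]
      exact tendsto_const_nhds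
    · simp only [hv, if_false]
      have := ((tendsto_eisSummand_atImInfty (k := k) (by omega) hv).mono_left hl).const_mul (w v)
      simpa using this
  · filter_upwards [hstrip] with z hz v
    refine (norm_wEis_summand_le hw k v z).trans ?_
    simp_rw [eisSummand, norm_zpow]
    exact_mod_cast summand_bound_of_mem_verticalStrip (lt_trans two_pos hk').le v hB hz

/-- The path `y ↦ i * max y 1` in the upper half plane. -/
def imAxis (y : ℝ) : ℍ := ⟨⟨0, max y 1⟩, lt_of_lt_of_le one_pos (le_max_right y 1)⟩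

lemma imAxis_im (y : ℝ) : (imAxis y).im = max y 1 := rfl

lemma imAxis_re (y : ℝ) : (imAxis y).re = 0 := rfl

lemma tendsto_imAxis : Tendsto imAxis atTop atImInfty := by
  rw [atImInfty, tendsto_comap_iff]
  refine tendsto_atTop_mono (fun y => ?_) tendsto_id
  simp [Function.comp, imAxis_im]

/-- Along the imaginary axis the weighted Eisenstein sum tends to its constant term. -/
theorem tendsto_wEis_imAxis {w : (Fin 2 → ℤ) → ℂ} (hw : ∀ v, ‖w v‖ ≤ 1) {k : ℤ}
    (hk : 3 ≤ k) : Tendsto (fun y : ℝ => wEis w k (imAxis y)) atTop (𝓝 (wEisConst w k)) := by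
  have h := tendsto_wEis_of_le hw hk (l := Filter.map imAxis atTop) tendsto_imAxis
    (A := 0) (B := 1) one_pos
    (by
      rw [Filter.eventually_map]
      exact Eventually.of_forall fun y => ⟨by simp [imAxis_re], by simp [imAxis_im]⟩)
  exact h.comp tendsto_map

/-- A weighted Eisenstein sum with nonzero constant term is not identically zero. -/
theorem wEis_ne_zero_of_const_ne_zero {w : (Fin 2 → ℤ) → ℂ} (hw : ∀ v, ‖w v‖ ≤ 1) {k : ℤ}
    (hk : 3 ≤ k) (hc : wEisConst w k ≠ 0) : wEis w k ≠ 0 := by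
  intro h0
  have h := tendsto_wEis_imAxis hw hk
  simp only [h0, Pi.zero_apply] at h
  exact hc (tendsto_nhds_unique h tendsto_const_nhds)

/-- Periodicity: if the weight is invariant under `v ↦ v ᵥ* T ^ n`, the sum is invariant
under `z ↦ T ^ n • z`. -/
lemma wEis_T_zpow_smul {w : (Fin 2 → ℤ) → ℂ} {k : ℤ}
    (hT : ∀ (n : ℤ) (v : Fin 2 → ℤ), w (v ᵥ* (ModularGroup.T ^ n : SL(2, ℤ))) = w v)
    (n : ℤ) (z : ℍ) : wEis w k (ModularGroup.T ^ n • z) = wEis w k z := by
  have h := congrFun (wEis_slash w k (ModularGroup.T ^ n)) z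
  rw [SL_slash_apply, denom_T_zpow] at h
  simp only [_root_.one_zpow, _root_.mul_one] at h
  rw [h]
  congr 1
  funext v
  rw [← _root_.zpow_neg]
  exact hT (-n) v

/-- For `T`-invariant weights, the weighted Eisenstein sum tends to its constant term at `i∞`. -/
theorem tendsto_wEis_atImInfty {w : (Fin 2 → ℤ) → ℂ} (hw : ∀ v, ‖w v‖ ≤ 1) {k : ℤ}
    (hk : 3 ≤ k)
    (hT : ∀ (n : ℤ) (v : Fin 2 → ℤ), w (v ᵥ* (ModularGroup.T ^ n : SL(2, ℤ))) = w v) :
    Tendsto (wEis w k) atImInfty (𝓝 (wEisConst w k)) := by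
  have h := tendsto_wEis_of_le hw hk (l := atImInfty ⊓ 𝓟 (verticalStrip 1 1)) inf_le_left
    (A := 1) (B := 1) one_pos (eventually_inf_principal.mpr (Eventually.of_forall fun _ h => h))
  rw [Metric.tendsto_nhds] at h ⊢
  intro ε hε
  have h1 := h ε hε
  rw [eventually_inf_principal, Filter.Eventually, atImInfty_mem] at h1
  obtain ⟨A, hA⟩ := h1
  rw [Filter.Eventually, atImInfty_mem]
  refine ⟨max A 1, fun z hz => ?_⟩
  obtain ⟨n, hn⟩ := ModularGroup_T_zpow_mem_verticalStrip z (N := 1) one_pos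
  have hn' : ModularGroup.T ^ ((1 : ℕ) * n : ℤ) • z ∈ verticalStrip 1 1 :=
    verticalStrip_anti_right _ ((le_max_right _ _).trans hz) (by simpa using hn)
  have him : A ≤ (ModularGroup.T ^ ((1 : ℕ) * n : ℤ) • z).im := by
    rw [ModularGroup.im_T_zpow_smul]
    exact (le_max_left _ _).trans hz
  have := hA _ him hn'
  simp only [Set.mem_setOf_eq] at this ⊢
  rwa [wEis_T_zpow_smul hT] at this

/-- If the weight vanishes at `(0, d)` for `d ≠ ±1`, the constant term has two summands. -/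
lemma wEisConst_eq {w : (Fin 2 → ℤ) → ℂ} {k : ℤ}
    (hsupp : ∀ v : Fin 2 → ℤ, v 0 = 0 → v 1 ≠ 1 → v 1 ≠ -1 → w v = 0) :
    wEisConst w k = w ![0, 1] + w ![0, -1] * (-1 : ℂ) ^ (-k) := by
  unfold wEisConst
  have hne : (![0, 1] : Fin 2 → ℤ) ≠ ![0, -1] := by
    intro h
    have := congrFun h 1
    simp at this
  rw [tsum_eq_sum (s := {![0, 1], ![0, -1]})]
  · rw [Finset.sum_pair hne]
    simp
  · intro v hv
    simp only [Finset.mem_insert, Finset.mem_singleton, not_or] at hv
    by_cases h0 : v 0 = 0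
    · simp only [h0, if_true]
      have h1 : v 1 ≠ 1 := by
        intro h1
        apply hv.1
        ext i
        fin_cases i <;> simp [h0, h1]
      have h2 : v 1 ≠ -1 := by
        intro h2
        apply hv.2
        ext i
        fin_cases i <;> simp [h0, h2]
      rw [hsupp v h0 h1 h2, _root_.MulZeroClass.zero_mul]
    · simp [h0]

end

end Fermat.Agent.S29.H509

end
-- ===== PACK-END S29/H509/WeightedEis.lean

-- ===== PACK-BEGIN S20/H872/Coset.lean
section





/-!
# Combinatorics of `SL(2, ℤ) ⧸ Γ₀(N)` — coset criterion and fixed points of `S`, `S * T`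

Left cosets, Mathlib left-multiplication action.  Everything is expressed through the
first column `(g 0 0, g 1 0)` of a matrix.
-/

set_option autoImplicit false

open CongruenceSubgroup Matrix.SpecialLinearGroup
open scoped MatrixGroups

namespace Fermat.Agent.S20.H872

variable {N : ℕ}

/-- Determinant relation of an element of `SL(2, ℤ)`. -/
theorem det_rel (g : SL(2, ℤ)) : g 0 0 * g 1 1 - g 0 1 * g 1 0 = 1 := by
  have h := g.det_coe
  rw [Matrix.det_fin_two] at h
  exact h

/-- The `(1,0)` entry of `g⁻¹ * h`. -/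
theorem inv_mul_apply_one_zero (g h : SL(2, ℤ)) :
    (g⁻¹ * h) 1 0 = g 0 0 * h 1 0 - g 1 0 * h 0 0 := by
  have hg : (g⁻¹ : SL(2, ℤ)).1 = !![g 1 1, -g 0 1; -g 1 0, g 0 0] := by
    rw [Matrix.SpecialLinearGroup.coe_inv, Matrix.adjugate_fin_two]
  have : ((g⁻¹ * h : SL(2, ℤ)) : Matrix (Fin 2) (Fin 2) ℤ) 1 0
      = (-g 1 0) * h 0 0 + g 0 0 * h 1 0 := by
    rw [Matrix.SpecialLinearGroup.coe_mul, hg, Matrix.mul_apply, Fin.sum_univ_two]
    simp
  rw [this]; ring

/-- **Coset criterion** in `ZMod N`. -/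
theorem mk_eq_mk_iff (g h : SL(2, ℤ)) :
    (QuotientGroup.mk g : SL(2, ℤ) ⧸ Gamma0 N) = QuotientGroup.mk h ↔
      ((g 0 0 : ℤ) : ZMod N) * ((h 1 0 : ℤ) : ZMod N)
        = ((g 1 0 : ℤ) : ZMod N) * ((h 0 0 : ℤ) : ZMod N) := by
  rw [QuotientGroup.eq, Gamma0_mem, inv_mul_apply_one_zero]
  push_cast
  exact sub_eq_zero

/-- **Coset criterion**, divisibility form. -/
theorem mk_eq_mk_iff_dvd (g h : SL(2, ℤ)) :
    (QuotientGroup.mk g : SL(2, ℤ) ⧸ Gamma0 N) = QuotientGroup.mk h ↔
      (N : ℤ) ∣ g 0 0 * h 1 0 - g 1 0 * h 0 0 := by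
  rw [QuotientGroup.eq, Gamma0_mem, inv_mul_apply_one_zero,
    ZMod.intCast_zmod_eq_zero_iff_dvd]

theorem smul_mk (s g : SL(2, ℤ)) :
    s • (QuotientGroup.mk g : SL(2, ℤ) ⧸ Gamma0 N) = QuotientGroup.mk (s * g) := rfl

/-- First column of `S * g`. -/
theorem S_mul_apply_zero_zero (g : SL(2, ℤ)) : (ModularGroup.S * g) 0 0 = - g 1 0 := by
  rw [Matrix.SpecialLinearGroup.coe_mul, ModularGroup.coe_S, Matrix.mul_apply, Fin.sum_univ_two]
  simp

theorem S_mul_apply_one_zero (g : SL(2, ℤ)) : (ModularGroup.S * g) 1 0 = g 0 0 := by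
  rw [Matrix.SpecialLinearGroup.coe_mul, ModularGroup.coe_S, Matrix.mul_apply, Fin.sum_univ_two]
  simp

/-- First column of `T ^ k * g`. -/
theorem T_zpow_mul_apply_zero_zero (k : ℤ) (g : SL(2, ℤ)) :
    (ModularGroup.T ^ k * g) 0 0 = g 0 0 + k * g 1 0 := by
  rw [Matrix.SpecialLinearGroup.coe_mul, ModularGroup.coe_T_zpow, Matrix.mul_apply,
    Fin.sum_univ_two]
  simp

theorem T_zpow_mul_apply_one_zero (k : ℤ) (g : SL(2, ℤ)) :
    (ModularGroup.T ^ k * g) 1 0 = g 1 0 := by
  rw [Matrix.SpecialLinearGroup.coe_mul, ModularGroup.coe_T_zpow, Matrix.mul_apply,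
    Fin.sum_univ_two]
  simp

/-- First column of `S * T * g`. -/
theorem ST_mul_apply_zero_zero (g : SL(2, ℤ)) :
    (ModularGroup.S * ModularGroup.T * g) 0 0 = - g 1 0 := by
  rw [mul_assoc, S_mul_apply_zero_zero]
  have := T_zpow_mul_apply_one_zero 1 g
  rw [zpow_one] at this
  rw [this]

theorem ST_mul_apply_one_zero (g : SL(2, ℤ)) :
    (ModularGroup.S * ModularGroup.T * g) 1 0 = g 0 0 + g 1 0 := by
  rw [mul_assoc, S_mul_apply_one_zero]
  have := T_zpow_mul_apply_zero_zero 1 g
  rw [zpow_one] at this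
  rw [this]; ring

/-- The lower unipotent matrix `[[1,0],[u,1]]`. -/
def lowerUni (u : ℤ) : SL(2, ℤ) :=
  ⟨!![1, 0; u, 1], by simp [Matrix.det_fin_two_of]⟩

@[simp] theorem lowerUni_apply_zero_zero (u : ℤ) : lowerUni u 0 0 = 1 := rfl
@[simp] theorem lowerUni_apply_one_zero (u : ℤ) : lowerUni u 1 0 = u := rfl
@[simp] theorem lowerUni_apply_zero_one (u : ℤ) : lowerUni u 0 1 = 0 := rfl
@[simp] theorem lowerUni_apply_one_one (u : ℤ) : lowerUni u 1 1 = 1 := rfl

/-- The coset of `[[1,0],[u,1]]` for `u : ZMod N`. -/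
noncomputable def affinePt (N : ℕ) (u : ZMod N) : SL(2, ℤ) ⧸ Gamma0 N :=
  QuotientGroup.mk (lowerUni (ZMod.cast u : ℤ))

theorem mk_eq_affinePt_iff [NeZero N] (g : SL(2, ℤ)) (u : ZMod N) :
    (QuotientGroup.mk g : SL(2, ℤ) ⧸ Gamma0 N) = affinePt N u ↔
      ((g 0 0 : ℤ) : ZMod N) * u = ((g 1 0 : ℤ) : ZMod N) := by
  rw [affinePt, mk_eq_mk_iff]
  simp

theorem affinePt_injective [NeZero N] : Function.Injective (affinePt N) := by
  intro u v h
  rw [affinePt, mk_eq_affinePt_iff] at h
  simpa using h.symm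

theorem S_smul_affinePt_eq_iff [NeZero N] (u : ZMod N) :
    ModularGroup.S • affinePt N u = affinePt N u ↔ u ^ 2 + 1 = 0 := by
  rw [affinePt, smul_mk, ← affinePt, mk_eq_affinePt_iff, S_mul_apply_zero_zero,
    S_mul_apply_one_zero]
  simp only [lowerUni_apply_one_zero, lowerUni_apply_zero_zero, Int.cast_neg, ZMod.intCast_cast,
    ZMod.cast_id', id_eq, Int.cast_one]
  constructor
  · intro h
    linear_combination -h
  · intro h
    linear_combination -h

theorem ST_smul_affinePt_eq_iff [NeZero N] (u : ZMod N) :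
    (ModularGroup.S * ModularGroup.T) • affinePt N u = affinePt N u ↔ u ^ 2 + u + 1 = 0 := by
  rw [affinePt, smul_mk, ← affinePt, mk_eq_affinePt_iff, ST_mul_apply_zero_zero,
    ST_mul_apply_one_zero]
  simp only [lowerUni_apply_one_zero, lowerUni_apply_zero_zero, Int.cast_neg, ZMod.intCast_cast,
    ZMod.cast_id', id_eq, Int.cast_one, Int.cast_add]
  constructor
  · intro h
    linear_combination -h
  · intro h
    linear_combination -h

/-- If `g 0 0` is a unit mod `N` (with inverse `w`), then the coset of `g` is an affine point. -/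
theorem mk_eq_affinePt_of_inv [NeZero N] (g : SL(2, ℤ)) (w : ZMod N)
    (hw : ((g 0 0 : ℤ) : ZMod N) * w = 1) :
    (QuotientGroup.mk g : SL(2, ℤ) ⧸ Gamma0 N) = affinePt N (((g 1 0 : ℤ) : ZMod N) * w) := by
  rw [mk_eq_affinePt_iff]
  linear_combination ((g 1 0 : ℤ) : ZMod N) * hw

theorem det_rel_zmod (g : SL(2, ℤ)) :
    ((g 0 0 : ℤ) : ZMod N) * ((g 1 1 : ℤ) : ZMod N)
      - ((g 0 1 : ℤ) : ZMod N) * ((g 1 0 : ℤ) : ZMod N) = 1 := by
  have := congrArg (Int.cast : ℤ → ZMod N) (det_rel g)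
  push_cast at this
  exact this

/-- A coset fixed by `S` is an affine point. -/
theorem exists_affinePt_of_S_fixed [NeZero N] (x : SL(2, ℤ) ⧸ Gamma0 N)
    (hx : ModularGroup.S • x = x) : ∃ u : ZMod N, x = affinePt N u := by
  induction x using QuotientGroup.induction_on with
  | H g =>
    rw [smul_mk, mk_eq_mk_iff, S_mul_apply_zero_zero, S_mul_apply_one_zero] at hx
    push_cast at hx
    have hd := det_rel_zmod (N := N) g
    set a : ZMod N := ((g 0 0 : ℤ) : ZMod N)
    set b : ZMod N := ((g 0 1 : ℤ) : ZMod N)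
    set c : ZMod N := ((g 1 0 : ℤ) : ZMod N)
    set d : ZMod N := ((g 1 1 : ℤ) : ZMod N)
    refine ⟨c * (a * d ^ 2 - 2 * b * c * d - a * b ^ 2), mk_eq_affinePt_of_inv g _ ?_⟩
    change a * (a * d ^ 2 - 2 * b * c * d - a * b ^ 2) = 1
    linear_combination (a * d - b * c + 1) * hd + b ^ 2 * hx

/-- A coset fixed by `S * T` is an affine point. -/
theorem exists_affinePt_of_ST_fixed [NeZero N] (x : SL(2, ℤ) ⧸ Gamma0 N)
    (hx : (ModularGroup.S * ModularGroup.T) • x = x) : ∃ u : ZMod N, x = affinePt N u := by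
  induction x using QuotientGroup.induction_on with
  | H g =>
    rw [smul_mk, mk_eq_mk_iff, ST_mul_apply_zero_zero, ST_mul_apply_one_zero] at hx
    push_cast at hx
    have hd := det_rel_zmod (N := N) g
    set a : ZMod N := ((g 0 0 : ℤ) : ZMod N)
    set b : ZMod N := ((g 0 1 : ℤ) : ZMod N)
    set c : ZMod N := ((g 1 0 : ℤ) : ZMod N)
    set d : ZMod N := ((g 1 1 : ℤ) : ZMod N)
    refine ⟨c * (a * d ^ 2 - 2 * b * c * d - b ^ 2 * (a + c)), mk_eq_affinePt_of_inv g _ ?_⟩
    change a * (a * d ^ 2 - 2 * b * c * d - b ^ 2 * (a + c)) = 1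
    linear_combination (a * d - b * c + 1) * hd + b ^ 2 * hx

/-- **I2**: the fixed points of `S` on `SL(2, ℤ) ⧸ Γ₀(N)` are counted by `nuTwo N`. -/
theorem card_fixed_S (N : ℕ) [NeZero N] :
    Nat.card {x : SL(2, ℤ) ⧸ Gamma0 N // ModularGroup.S • x = x} = ModularCurve.nuTwo N := by
  rw [ModularCurve.nuTwo]
  symm
  refine Nat.card_congr (Equiv.ofBijective
    (fun u => ⟨affinePt N u.1, (S_smul_affinePt_eq_iff u.1).2 u.2⟩) ⟨?_, ?_⟩)
  · intro u v h
    exact Subtype.ext (affinePt_injective (congrArg Subtype.val h))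
  · rintro ⟨x, hx⟩
    obtain ⟨u, rfl⟩ := exists_affinePt_of_S_fixed x hx
    exact ⟨⟨u, (S_smul_affinePt_eq_iff u).1 hx⟩, rfl⟩

/-- **I3**: the fixed points of `S * T` on `SL(2, ℤ) ⧸ Γ₀(N)` are counted by `nuThree N`. -/
theorem card_fixed_ST (N : ℕ) [NeZero N] :
    Nat.card {x : SL(2, ℤ) ⧸ Gamma0 N // (ModularGroup.S * ModularGroup.T) • x = x}
      = ModularCurve.nuThree N := by
  rw [ModularCurve.nuThree]
  symm
  refine Nat.card_congr (Equiv.ofBijective
    (fun u => ⟨affinePt N u.1, (ST_smul_affinePt_eq_iff u.1).2 u.2⟩) ⟨?_, ?_⟩)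
  · intro u v h
    exact Subtype.ext (affinePt_injective (congrArg Subtype.val h))
  · rintro ⟨x, hx⟩
    obtain ⟨u, rfl⟩ := exists_affinePt_of_ST_fixed x hx
    exact ⟨⟨u, (ST_smul_affinePt_eq_iff u).1 hx⟩, rfl⟩

end Fermat.Agent.S20.H872

end
-- ===== PACK-END S20/H872/Coset.lean

-- ===== PACK-BEGIN S28/H145/PowIndep.lean
section



/-!
# Leaf [L.I] of the S28 plan

If `x` is a Laurent series whose order is prime to `p`, then `1, x, …, x^(p-1)` are linearly
independent over (any subring of) the range of `V_p = qExpand k p`.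
-/

set_option autoImplicit false

noncomputable section

open ModularCurve HahnSeries

namespace Fermat.Agent.S28.H145

variable {k : Type*} [Field k]

/-- A finite sum of nonzero Laurent series with pairwise distinct orders is nonzero. -/
theorem sum_ne_zero_of_injOn_order {ι : Type*} (s : Finset ι) (t : ι → LaurentSeries k)
    (hs : s.Nonempty) (h0 : ∀ i ∈ s, t i ≠ 0)
    (hinj : Set.InjOn (fun i => (t i).order) (s : Set ι)) : ∑ i ∈ s, t i ≠ 0 := by
  classical
  obtain ⟨i₀, hi₀, hmin⟩ := Finset.exists_min_image s (fun i => (t i).order) hs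
  intro hsum
  have hc : (∑ i ∈ s, t i).coeff (t i₀).order = (t i₀).coeff (t i₀).order := by
    rw [HahnSeries.coeff_sum]
    refine Finset.sum_eq_single_of_mem i₀ hi₀ ?_
    intro i hi hne
    refine HahnSeries.coeff_eq_zero_of_lt_order ?_
    refine lt_of_le_of_ne (hmin i hi) ?_
    intro h
    exact hne (hinj hi hi₀ h.symm)
  rw [hsum] at hc
  exact h0 i₀ hi₀ (HahnSeries.coeff_order_eq_zero.mp hc.symm)

/-- The order of a nonzero element of the range of `qExpand k p` is divisible by `p`. -/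
theorem dvd_order_qExpand (p : ℕ) [NeZero p] (z : LaurentSeries k) :
    (p : ℤ) ∣ (qExpand k p z).order := by
  by_cases hz : qExpand k p z = 0
  · rw [hz, HahnSeries.order_zero]; exact dvd_zero _
  · by_contra h
    exact hz (HahnSeries.coeff_order_eq_zero.mp (qExpand_coeff_of_not_dvd p z h))

/-- **[L.I], core form.** If `p ∤ ord x`... more precisely if `ord x` is prime to `p`, a relation
`∑_{i<p} V_p(c i) * x^i = 0` forces all `c i = 0`. -/
theorem eq_zero_of_sum_qExpand_mul_pow_eq_zero (p : ℕ) [NeZero p] (x : LaurentSeries k)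
    (hx : x ≠ 0) (hord : IsCoprime x.order (p : ℤ)) (c : Fin p → LaurentSeries k)
    (h : ∑ i : Fin p, qExpand k p (c i) * x ^ (i : ℕ) = 0) : ∀ i, c i = 0 := by
  classical
  by_contra hne
  push Not at hne
  set s : Finset (Fin p) := Finset.univ.filter (fun i => c i ≠ 0) with hs
  have hsne : s.Nonempty := by
    obtain ⟨i, hi⟩ := hne
    exact ⟨i, by simp [hs, hi]⟩
  have hterm : ∀ i ∈ s, qExpand k p (c i) * x ^ (i : ℕ) ≠ 0 := by
    intro i hi
    have hci : c i ≠ 0 := by simpa [hs] using hi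
    exact mul_ne_zero (fun h0 => hci (qExpand_injective p (by rw [h0, _root_.map_zero])))
      (pow_ne_zero _ hx)
  have hordterm : ∀ i ∈ s, (qExpand k p (c i) * x ^ (i : ℕ)).order =
      (qExpand k p (c i)).order + (i : ℕ) * x.order := by
    intro i hi
    have hci : c i ≠ 0 := by simpa [hs] using hi
    have h1 : qExpand k p (c i) ≠ 0 := fun h0 => hci (qExpand_injective p (by rw [h0, _root_.map_zero]))
    rw [HahnSeries.order_mul h1 (pow_ne_zero _ hx), HahnSeries.order_pow, nsmul_eq_mul]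
  have hsum : ∑ i ∈ s, qExpand k p (c i) * x ^ (i : ℕ) = 0 := by
    rw [← h]
    refine Finset.sum_subset (Finset.subset_univ _) ?_
    intro i _ hi
    have hci : c i = 0 := by simpa [hs] using hi
    rw [hci, _root_.map_zero, zero_mul]
  refine sum_ne_zero_of_injOn_order s _ hsne hterm ?_ hsum
  intro i hi j hj hij
  simp only at hij
  rw [hordterm i hi, hordterm j hj] at hij
  -- reduce modulo `p`
  obtain ⟨a, ha⟩ := dvd_order_qExpand p (c i)
  obtain ⟨b, hb⟩ := dvd_order_qExpand p (c j)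
  rw [ha, hb] at hij
  have hdvd : (p : ℤ) ∣ ((i : ℕ) - (j : ℕ) : ℤ) * x.order := ⟨b - a, by linear_combination hij⟩
  have hdvd' : (p : ℤ) ∣ ((i : ℕ) : ℤ) - (j : ℕ) := hord.symm.dvd_of_dvd_mul_right hdvd
  have hi' : ((i : ℕ) : ℤ) < p := by exact_mod_cast i.2
  have hj' : ((j : ℕ) : ℤ) < p := by exact_mod_cast j.2
  have hi0 : (0 : ℤ) ≤ ((i : ℕ) : ℤ) := Int.natCast_nonneg _
  have hj0 : (0 : ℤ) ≤ ((j : ℕ) : ℤ) := Int.natCast_nonneg _
  have : ((i : ℕ) : ℤ) - (j : ℕ) = 0 := by
    apply Int.eq_zero_of_abs_lt_dvd hdvd'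
    rw [abs_lt]
    constructor <;> linarith
  exact Fin.ext (by exact_mod_cast sub_eq_zero.mp this)

/-- **[L.I].** If `B` is a subfield of `k((q))` contained in the range of `V_p` and `ord x` is
prime to `p`, then `1, x, …, x^(p-1)` are linearly independent over `B`. -/
theorem linearIndependent_pow_of_le_range (p : ℕ) [NeZero p] (B : Subfield (LaurentSeries k))
    (hB : ∀ b ∈ B, b ∈ (qExpand k p).range) (x : LaurentSeries k)
    (hx : x ≠ 0) (hord : IsCoprime x.order (p : ℤ)) :
    LinearIndependent B (fun i : Fin p => x ^ (i : ℕ)) := by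
  rw [Fintype.linearIndependent_iff]
  intro g hg i
  choose c hc using fun i => hB (g i) (g i).2
  have h : ∑ i : Fin p, qExpand k p (c i) * x ^ (i : ℕ) = 0 := by
    rw [← hg]
    refine Finset.sum_congr rfl fun i _ => ?_
    rw [hc i]
    rfl
  have := eq_zero_of_sum_qExpand_mul_pow_eq_zero p x hx hord c h i
  apply Subtype.ext
  rw [← hc i, this, _root_.map_zero]
  rfl

/-- Polynomial form of [L.I]: a polynomial of degree `< p` with coefficients in the range of
`V_p` that kills `x` (with `ord x` prime to `p`) is zero. -/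
theorem eq_zero_of_eval_eq_zero_of_natDegree_lt (p : ℕ) [NeZero p] (x : LaurentSeries k)
    (hx : x ≠ 0) (hord : IsCoprime x.order (p : ℤ)) (f : Polynomial (LaurentSeries k))
    (hf : ∀ n, f.coeff n ∈ (qExpand k p).range) (hdeg : f.natDegree < p)
    (h : f.eval x = 0) : f = 0 := by
  choose c hc using hf
  have hsum : ∑ i : Fin p, qExpand k p (c i) * x ^ (i : ℕ) = 0 := by
    rw [← h, Polynomial.eval_eq_sum_range' hdeg, ← Fin.sum_univ_eq_sum_range
      (fun i => f.coeff i * x ^ i) p]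
    refine Finset.sum_congr rfl fun i _ => ?_
    rw [hc]
  have hall := eq_zero_of_sum_qExpand_mul_pow_eq_zero p x hx hord (fun i => c i) hsum
  ext n
  by_cases hn : n < p
  · have := hall ⟨n, hn⟩
    simp only at this
    rw [← hc n, this, _root_.map_zero, Polynomial.coeff_zero]
  · rw [Polynomial.coeff_eq_zero_of_natDegree_lt (lt_of_lt_of_le hdeg (not_lt.mp hn)),
      Polynomial.coeff_zero]

end Fermat.Agent.S28.H145

end

end
-- ===== PACK-END S28/H145/PowIndep.lean

-- ===== PACK-BEGIN S28/H807/IntLemma.lean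
section
/-
S28 / helper807 — formal integrality: a complex polynomial in `j` whose `q`-expansion has
integer coefficients is an integer polynomial in `j`.
-/




set_option autoImplicit false
set_option maxHeartbeats 400000

noncomputable section

open ModularCurve

namespace Fermat.Agent.S28.H807

variable (A : Type*) [CommRing A]

theorem jqModC_pow_eq (k : ℕ) :
    jqModC A ^ k = HahnSeries.single (-(k : ℤ)) (1 : A) *
      HahnSeries.ofPowerSeries ℤ A ((jNum.map (Int.castRingHom A)) ^ k) := by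
  have h : k • (-1 : ℤ) = -(k : ℤ) := by simp
  rw [jqModC, mul_pow, HahnSeries.single_pow, one_pow, h, ← map_pow]

theorem jqModC_pow_coeff_of_lt (k : ℕ) {m : ℤ} (h : m < -(k : ℤ)) :
    (jqModC A ^ k).coeff m = 0 := by
  rw [jqModC_pow_eq, HahnSeries.coeff_single_mul, one_mul]
  exact ofPowerSeries_coeff_of_neg _ (by linarith)

theorem jqModC_pow_coeff_self (k : ℕ) : (jqModC A ^ k).coeff (-(k : ℤ)) = 1 := by
  rw [jqModC_pow_eq, HahnSeries.coeff_single_mul, one_mul, sub_self]
  have h0 : ((0 : ℕ) : ℤ) = 0 := rfl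
  rw [← h0, HahnSeries.ofPowerSeries_apply_coeff, PowerSeries.coeff_zero_eq_constantCoeff,
    map_pow]
  have : PowerSeries.constantCoeff (jNum.map (Int.castRingHom A)) = 1 := by
    rw [← PowerSeries.coeff_zero_eq_constantCoeff, PowerSeries.coeff_map,
      PowerSeries.coeff_zero_eq_constantCoeff, constantCoeff_jNum]
    simp
  rw [this, one_pow]

/-- Evaluation of a polynomial at `j`, as `eval₂` along the constant embedding. -/
def evalJ (P : Polynomial A) : LaurentSeries A := P.eval₂ HahnSeries.C (jqModC A)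

theorem evalJ_coeff_neg_natDegree (P : Polynomial A) (n : ℕ) (hn : P.natDegree ≤ n) :
    (evalJ A P).coeff (-(n : ℤ)) = P.coeff n := by
  unfold evalJ
  rw [Polynomial.eval₂_eq_sum_range' (HahnSeries.C : A →+* LaurentSeries A)
    (Nat.lt_succ_of_le hn) (jqModC A), HahnSeries.coeff_sum]
  rw [Finset.sum_eq_single n]
  · rw [show (HahnSeries.C : A →+* LaurentSeries A) (P.coeff n)
        = HahnSeries.single (0 : ℤ) (P.coeff n) from rfl,
      HahnSeries.coeff_single_mul, sub_zero, jqModC_pow_coeff_self, mul_one]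
  · intro i hi hne
    have hi' : i < n := by
      have := Finset.mem_range.mp hi
      omega
    have h0 : (jqModC A ^ i).coeff (-(n : ℤ)) = 0 :=
      jqModC_pow_coeff_of_lt A i (by omega)
    rw [show (HahnSeries.C : A →+* LaurentSeries A) (P.coeff i)
        = HahnSeries.single (0 : ℤ) (P.coeff i) from rfl,
      HahnSeries.coeff_single_mul, sub_zero, h0, mul_zero]
  · intro h
    exact absurd (Finset.mem_range.mpr (Nat.lt_succ_self n)) h

theorem coeffMap_jqModC_int : coeffMap (Int.castRingHom A) (jqModC ℤ) = jqModC A :=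
  (jqModC_eq_map_intCast A).symm

theorem coeffMap_intCast_injective [CharZero A] :
    Function.Injective (coeffMap (Int.castRingHom A)) := by
  intro x y h
  ext n
  have := congrArg (fun z => z.coeff n) h
  simp only [coeffMap_coeff, eq_intCast] at this
  exact Int.cast_injective this

/-- Integer-polynomial evaluation at `j ∈ ℤ((q))`. -/
def evalJZ (Q : Polynomial ℤ) : LaurentSeries ℤ := Q.eval₂ (Int.castRingHom _) (jqModC ℤ)

/-- **Integrality lemma.** -/
theorem exists_int_poly_of_evalJ_eq :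
    ∀ (P : Polynomial ℂ) (c : LaurentSeries ℤ),
      evalJ ℂ P = coeffMap (Int.castRingHom ℂ) c → ∃ Q : Polynomial ℤ, evalJZ Q = c := by
  intro P
  induction' hcard : P.support.card using Nat.strong_induction_on with d ih generalizing P
  intro c h
  by_cases hP : P = 0
  · subst hP
    refine ⟨0, ?_⟩
    have h0 : coeffMap (Int.castRingHom ℂ) c = 0 := by
      rw [← h]; simp [evalJ]
    have : c = 0 := coeffMap_intCast_injective ℂ (by rw [h0, map_zero])
    rw [this]; simp [evalJZ]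
  · set n := P.natDegree with hn
    have hlead : (c.coeff (-(n : ℤ)) : ℂ) = P.coeff n := by
      have := evalJ_coeff_neg_natDegree ℂ P n le_rfl
      rw [h, coeffMap_coeff] at this
      simpa using this
    set z : ℤ := c.coeff (-(n : ℤ)) with hz
    set c' : LaurentSeries ℤ := c - (z : LaurentSeries ℤ) * jqModC ℤ ^ n with hc'
    have hP' : evalJ ℂ P.eraseLead = coeffMap (Int.castRingHom ℂ) c' := by
      have h1 : P = P.eraseLead + Polynomial.monomial n (P.coeff n) := by
        rw [hn]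
        exact (Polynomial.eraseLead_add_monomial_natDegree_leadingCoeff P).symm
      have h2 : evalJ ℂ P = evalJ ℂ P.eraseLead + HahnSeries.C (P.coeff n) * jqModC ℂ ^ n := by
        conv_lhs => rw [h1]
        simp [evalJ, Polynomial.eval₂_add, Polynomial.eval₂_monomial]
      rw [hc', map_sub, map_mul, map_pow, coeffMap_jqModC_int, ← h, h2, map_intCast]
      have h3 : HahnSeries.C (P.coeff n) = ((z : ℤ) : LaurentSeries ℂ) := by
        rw [← hlead]
        simp
      rw [h3]; ring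
    have hlt : P.eraseLead.support.card < d := by
      rw [← hcard]
      exact Polynomial.eraseLead_support_card_lt hP
    obtain ⟨Q', hQ'⟩ := ih _ hlt P.eraseLead rfl c' hP'
    refine ⟨Q' + Polynomial.C z * Polynomial.X ^ n, ?_⟩
    unfold evalJZ at *
    rw [Polynomial.eval₂_add, Polynomial.eval₂_mul, Polynomial.eval₂_C, Polynomial.eval₂_pow,
      Polynomial.eval₂_X, hQ', hc']
    simp

end Fermat.Agent.S28.H807

end

end
-- ===== PACK-END S28/H807/IntLemma.lean

-- ===== PACK-BEGIN S18/H333/Trunc.lean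
section


/-!
# S18 / c3 (helper333): kernel-computable truncated power-series arithmetic over `ℤ`

`tl n f` is the list of the first `n` coefficients of `f : ℤ⟦X⟧`.  The operations
`tmul`, `tadd`, `tsub`, `tsmul`, `tpow`, `tV` on lists compute `tl n` of products, sums, … and
are evaluated by `decide +kernel`.
-/

set_option autoImplicit false

namespace Fermat.Agent.S18.H333

open PowerSeries

/-- computable truncated multiplication of coefficient lists (mod `X^n`). -/
def tmul (n : ℕ) (a b : List ℤ) : List ℤ :=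
  (List.range n).map fun k =>
    ((List.range (k + 1)).map fun i => a.getD i 0 * b.getD (k - i) 0).sum

def tadd (n : ℕ) (a b : List ℤ) : List ℤ :=
  (List.range n).map fun k => a.getD k 0 + b.getD k 0

def tsub (n : ℕ) (a b : List ℤ) : List ℤ :=
  (List.range n).map fun k => a.getD k 0 - b.getD k 0

def tsmul (n : ℕ) (c : ℤ) (a : List ℤ) : List ℤ :=
  (List.range n).map fun k => c * a.getD k 0

def tone (n : ℕ) : List ℤ :=
  (List.range n).map fun k => if k = 0 then 1 else 0

def tzero (n : ℕ) : List ℤ :=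
  (List.range n).map fun _ => 0

def tX (n : ℕ) : List ℤ :=
  (List.range n).map fun k => if k = 1 then 1 else 0

def tpow (n : ℕ) (a : List ℤ) : ℕ → List ℤ
  | 0 => tone n
  | m + 1 => tmul n (tpow n a m) a

/-- `X ↦ X^p` on truncated lists -/
def tV (n p : ℕ) (a : List ℤ) : List ℤ :=
  (List.range n).map fun k => if p ∣ k then a.getD (k / p) 0 else 0

def oneSubXpow (n j : ℕ) : List ℤ :=
  (List.range n).map fun k => (if k = 0 then 1 else 0) - (if k = j then 1 else 0)

/-- truncation of `∏_{i<m} (1 - X^(i+1))` -/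
def etaLrec (n : ℕ) : ℕ → List ℤ
  | 0 => tone n
  | m + 1 => tmul n (etaLrec n m) (oneSubXpow n (m + 1))

/-- `X ↦ X ^ p` on power series, defined coefficientwise. -/
noncomputable def Vser {R : Type*} [Semiring R] (p : ℕ) (f : PowerSeries R) : PowerSeries R :=
  PowerSeries.mk fun n => if p ∣ n then PowerSeries.coeff (n / p) f else 0

@[simp]
theorem coeff_Vser {R : Type*} [Semiring R] (p : ℕ) (f : PowerSeries R) (n : ℕ) :
    PowerSeries.coeff n (Vser p f) = if p ∣ n then PowerSeries.coeff (n / p) f else 0 := by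
  rw [Vser, PowerSeries.coeff_mk]

theorem Vser_map {R S : Type*} [Semiring R] [Semiring S] (φ : R →+* S) (p : ℕ)
    (f : PowerSeries R) : (Vser p f).map φ = Vser p (f.map φ) := by
  ext n
  simp only [PowerSeries.coeff_map, coeff_Vser]
  split_ifs <;> simp

/-- the list of the first `n` coefficients -/
noncomputable def tl (n : ℕ) (f : PowerSeries ℤ) : List ℤ :=
  (List.range n).map fun k => coeff k f

@[simp] theorem length_tl (n : ℕ) (f : PowerSeries ℤ) : (tl n f).length = n := by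
  simp [tl]

theorem tl_getD (n : ℕ) (f : PowerSeries ℤ) {i : ℕ} (hi : i < n) :
    (tl n f).getD i 0 = coeff i f := by
  simp [tl, List.getD, hi]

theorem tl_ext_iff (n : ℕ) (f g : PowerSeries ℤ) :
    tl n f = tl n g ↔ ∀ k < n, coeff k f = coeff k g := by
  constructor
  · intro h k hk
    rw [← tl_getD n f hk, ← tl_getD n g hk, h]
  · intro h
    refine List.map_congr_left fun k hk => h k (List.mem_range.mp hk)

theorem tl_eq_of_coeff (n : ℕ) (f : PowerSeries ℤ) (c : ℕ → ℤ) (h : ∀ k < n, coeff k f = c k) :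
    tl n f = (List.range n).map c :=
  List.map_congr_left fun k hk => h k (List.mem_range.mp hk)

theorem tl_mul (n : ℕ) (f g : PowerSeries ℤ) : tl n (f * g) = tmul n (tl n f) (tl n g) := by
  refine List.map_congr_left fun k hk => ?_
  have hk' : k < n := List.mem_range.mp hk
  rw [coeff_mul, Finset.Nat.sum_antidiagonal_eq_sum_range_succ_mk, ← List.sum_toFinset _
    (List.nodup_range), List.toFinset_range]
  refine Finset.sum_congr rfl fun i hi => ?_
  have hi' : i < k + 1 := Finset.mem_range.mp hi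
  rw [tl_getD n f (by omega), tl_getD n g (by omega)]

theorem tl_add (n : ℕ) (f g : PowerSeries ℤ) : tl n (f + g) = tadd n (tl n f) (tl n g) := by
  refine List.map_congr_left fun k hk => ?_
  have hk' : k < n := List.mem_range.mp hk
  rw [tl_getD n f hk', tl_getD n g hk', map_add]

theorem tl_sub (n : ℕ) (f g : PowerSeries ℤ) : tl n (f - g) = tsub n (tl n f) (tl n g) := by
  refine List.map_congr_left fun k hk => ?_
  have hk' : k < n := List.mem_range.mp hk
  rw [tl_getD n f hk', tl_getD n g hk', map_sub]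

theorem tl_smul (n : ℕ) (c : ℤ) (f : PowerSeries ℤ) : tl n (c • f) = tsmul n c (tl n f) := by
  refine List.map_congr_left fun k hk => ?_
  have hk' : k < n := List.mem_range.mp hk
  rw [tl_getD n f hk', map_zsmul, smul_eq_mul]

theorem tl_one (n : ℕ) : tl n 1 = tone n := by
  refine List.map_congr_left fun k _ => ?_
  rw [coeff_one]

theorem tl_zero (n : ℕ) : tl n 0 = tzero n := by
  refine List.map_congr_left fun k _ => ?_
  simp

theorem tl_X (n : ℕ) : tl n X = tX n := by
  refine List.map_congr_left fun k _ => ?_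
  rw [coeff_X]

theorem tl_pow (n : ℕ) (f : PowerSeries ℤ) (m : ℕ) : tl n (f ^ m) = tpow n (tl n f) m := by
  induction m with
  | zero => rw [pow_zero, tl_one]; rfl
  | succ m ih => rw [pow_succ, tl_mul, ih]; rfl

theorem tl_oneSubXpow (n j : ℕ) : tl n (1 - X ^ j) = oneSubXpow n j := by
  refine List.map_congr_left fun k _ => ?_
  rw [map_sub, coeff_one, coeff_X_pow]

theorem tl_Vser (n p : ℕ) (hp : 0 < p) (f : PowerSeries ℤ) :
    tl n (Vser p f) = tV n p (tl n f) := by
  refine List.map_congr_left fun k hk => ?_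
  have hk' : k < n := List.mem_range.mp hk
  have : k / p < n := lt_of_le_of_lt (Nat.div_le_self k p) hk'
  rw [coeff_Vser, tl_getD n f this]

theorem tl_eq_tzero_iff (n : ℕ) (f : PowerSeries ℤ) :
    tl n f = tzero n ↔ ∀ k < n, coeff k f = 0 := by
  rw [← tl_zero, tl_ext_iff]
  simp

/-- truncation of a finite product `∏_{i<m} (1 - X^(i+1))` -/
theorem tl_prod_range (n m : ℕ) :
    tl n (∏ i ∈ Finset.range m, ((1 : PowerSeries ℤ) - X ^ (i + 1))) = etaLrec n m := by
  induction m with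
  | zero => rw [Finset.prod_range_zero, tl_one]; rfl
  | succ m ih => rw [Finset.prod_range_succ, tl_mul, ih, tl_oneSubXpow]; rfl

theorem tl_mul_congr (n : ℕ) {f f' g g' : PowerSeries ℤ} (hf : tl n f = tl n f')
    (hg : tl n g = tl n g') : tl n (f * g) = tl n (f' * g') := by
  rw [tl_mul, tl_mul, hf, hg]

/-- factors `1 - X^(i+1)` with `n ≤ i + 1` do not change the first `n` coefficients -/
theorem tl_prod_of_le (n : ℕ) (s : Finset ℕ) (hs : ∀ i ∈ s, n ≤ i + 1) :
    tl n (∏ i ∈ s, ((1 : PowerSeries ℤ) - X ^ (i + 1))) = tl n 1 := by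
  induction s using Finset.induction_on with
  | empty => rw [Finset.prod_empty]
  | insert a s ha ih =>
    rw [Finset.prod_insert ha]
    have h1 : tl n ((1 : PowerSeries ℤ) - X ^ (a + 1)) = tl n 1 := by
      rw [tl_ext_iff]
      intro k hk
      have hka : k ≠ a + 1 := by
        have := hs a (Finset.mem_insert_self a s)
        omega
      rw [map_sub, coeff_X_pow, if_neg hka, sub_zero]
    have h2 := tl_mul_congr n h1 (ih fun i hi => hs i (Finset.mem_insert_of_mem hi))
    rw [h2, one_mul]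

end Fermat.Agent.S18.H333

end
-- ===== PACK-END S18/H333/Trunc.lean

-- ===== PACK-BEGIN S20/Comb/Basic.lean
section






/-!
# Combinatorics on `SL(2,ℤ) ⧸ Gamma0 N` : basic coset criterion, fixed points of `S` and `S * T`.

Left cosets, Mathlib's left-multiplication action (`MulAction.quotient`).
-/

set_option autoImplicit false

namespace Fermat.Agent.S20.Comb

open Matrix MatrixGroups CongruenceSubgroup

/-- The `(1,0)` entry of `g⁻¹ * g'`. -/
lemma inv_mul_apply_one_zero (g g' : SL(2, ℤ)) :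
    (g⁻¹ * g') 1 0 = g 0 0 * g' 1 0 - g 1 0 * g' 0 0 := by
  rw [Matrix.SpecialLinearGroup.coe_mul, Matrix.SpecialLinearGroup.coe_inv,
    Matrix.adjugate_fin_two, Matrix.mul_apply, Fin.sum_univ_two]
  simp
  ring

/-- Coset criterion: `g Γ₀(N) = g' Γ₀(N)` iff `a c' - c a' ≡ 0 mod N`, where `(a, c)`, `(a', c')`
are the first columns of `g`, `g'`. -/
lemma mk_eq_mk_iff (N : ℕ) (g g' : SL(2, ℤ)) :
    (QuotientGroup.mk g : SL(2, ℤ) ⧸ Gamma0 N) = QuotientGroup.mk g' ↔
      ((g 0 0 : ℤ) : ZMod N) * ((g' 1 0 : ℤ) : ZMod N)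
        - ((g 1 0 : ℤ) : ZMod N) * ((g' 0 0 : ℤ) : ZMod N) = 0 := by
  rw [QuotientGroup.eq, Gamma0_mem, inv_mul_apply_one_zero]
  push_cast
  rfl

/-- Determinant relation in `ZMod N`. -/
lemma det_cast (N : ℕ) (g : SL(2, ℤ)) :
    ((g 0 0 : ℤ) : ZMod N) * ((g 1 1 : ℤ) : ZMod N)
      - ((g 0 1 : ℤ) : ZMod N) * ((g 1 0 : ℤ) : ZMod N) = 1 := by
  have h := g.det_coe
  rw [Matrix.det_fin_two] at h
  have := congrArg (fun z : ℤ => (z : ZMod N)) h
  simpa using this

/-- Fixed-point criterion for a general element `γ`. -/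
lemma smul_mk_eq_mk_iff (N : ℕ) (γ g : SL(2, ℤ)) :
    γ • (QuotientGroup.mk g : SL(2, ℤ) ⧸ Gamma0 N) = QuotientGroup.mk g ↔
      ((g 0 0 : ℤ) : ZMod N) * (((γ * g) 1 0 : ℤ) : ZMod N)
        - ((g 1 0 : ℤ) : ZMod N) * (((γ * g) 0 0 : ℤ) : ZMod N) = 0 := by
  rw [MulAction.Quotient.smul_mk, smul_eq_mul, eq_comm, mk_eq_mk_iff]

lemma S_mul_apply_zero_zero (g : SL(2, ℤ)) : (ModularGroup.S * g) 0 0 = - g 1 0 := by
  rw [Matrix.SpecialLinearGroup.coe_mul, ModularGroup.coe_S, Matrix.mul_apply, Fin.sum_univ_two]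
  simp

lemma S_mul_apply_one_zero (g : SL(2, ℤ)) : (ModularGroup.S * g) 1 0 = g 0 0 := by
  rw [Matrix.SpecialLinearGroup.coe_mul, ModularGroup.coe_S, Matrix.mul_apply, Fin.sum_univ_two]
  simp

lemma coe_S_mul_T : ((ModularGroup.S * ModularGroup.T : SL(2, ℤ)) : Matrix (Fin 2) (Fin 2) ℤ)
    = !![0, -1; 1, 1] := by
  rw [Matrix.SpecialLinearGroup.coe_mul, ModularGroup.coe_S, ModularGroup.coe_T]
  ext i j
  fin_cases i <;> fin_cases j <;> simp [Matrix.mul_apply, Fin.sum_univ_two]

lemma ST_mul_apply_zero_zero (g : SL(2, ℤ)) :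
    (ModularGroup.S * ModularGroup.T * g) 0 0 = - g 1 0 := by
  rw [Matrix.SpecialLinearGroup.coe_mul, coe_S_mul_T, Matrix.mul_apply, Fin.sum_univ_two]
  simp

lemma ST_mul_apply_one_zero (g : SL(2, ℤ)) :
    (ModularGroup.S * ModularGroup.T * g) 1 0 = g 0 0 + g 1 0 := by
  rw [Matrix.SpecialLinearGroup.coe_mul, coe_S_mul_T, Matrix.mul_apply, Fin.sum_univ_two]
  simp

/-- `g Γ₀(N)` is fixed by `S` iff `a² + c² ≡ 0 mod N`. -/
lemma S_smul_mk_eq_mk_iff (N : ℕ) (g : SL(2, ℤ)) :
    ModularGroup.S • (QuotientGroup.mk g : SL(2, ℤ) ⧸ Gamma0 N) = QuotientGroup.mk g ↔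
      ((g 0 0 : ℤ) : ZMod N) ^ 2 + ((g 1 0 : ℤ) : ZMod N) ^ 2 = 0 := by
  rw [smul_mk_eq_mk_iff, S_mul_apply_zero_zero, S_mul_apply_one_zero]
  push_cast
  constructor <;> intro h <;> linear_combination h

/-- `g Γ₀(N)` is fixed by `S * T` iff `a² + a c + c² ≡ 0 mod N`. -/
lemma ST_smul_mk_eq_mk_iff (N : ℕ) (g : SL(2, ℤ)) :
    (ModularGroup.S * ModularGroup.T) • (QuotientGroup.mk g : SL(2, ℤ) ⧸ Gamma0 N)
        = QuotientGroup.mk g ↔
      ((g 0 0 : ℤ) : ZMod N) ^ 2 + ((g 0 0 : ℤ) : ZMod N) * ((g 1 0 : ℤ) : ZMod N)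
        + ((g 1 0 : ℤ) : ZMod N) ^ 2 = 0 := by
  rw [smul_mk_eq_mk_iff, ST_mul_apply_zero_zero, ST_mul_apply_one_zero]
  push_cast
  constructor <;> intro h <;> linear_combination h

/-- The matrix `[[x, -1], [1, 0]]` in `SL(2,ℤ)`. -/
def colRep (x : ℤ) : SL(2, ℤ) := ⟨!![x, -1; 1, 0], by simp [Matrix.det_fin_two]⟩

@[simp] lemma colRep_apply_zero_zero (x : ℤ) : colRep x 0 0 = x := rfl
@[simp] lemma colRep_apply_one_zero (x : ℤ) : colRep x 1 0 = 1 := rfl

/-- If `a² = c * r` in `ZMod N` for the first column `(a, c)` of `g ∈ SL(2,ℤ)`, then `c` has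
an explicit inverse. -/
lemma c_mul_inv_eq_one (N : ℕ) (g : SL(2, ℤ)) (r : ZMod N)
    (h : ((g 0 0 : ℤ) : ZMod N) ^ 2 = ((g 1 0 : ℤ) : ZMod N) * r) :
    ((g 1 0 : ℤ) : ZMod N) *
      (r * ((g 1 1 : ℤ) : ZMod N) ^ 2
        - 2 * ((g 0 0 : ℤ) : ZMod N) * ((g 0 1 : ℤ) : ZMod N) * ((g 1 1 : ℤ) : ZMod N)
        + ((g 0 1 : ℤ) : ZMod N) ^ 2 * ((g 1 0 : ℤ) : ZMod N)) = 1 := by
  have hdet := det_cast N g
  linear_combination (-(((g 1 1 : ℤ) : ZMod N)) ^ 2) * h
    + (((g 0 0 : ℤ) : ZMod N) * ((g 1 1 : ℤ) : ZMod N)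
        - ((g 0 1 : ℤ) : ZMod N) * ((g 1 0 : ℤ) : ZMod N) + 1) * hdet

end Fermat.Agent.S20.Comb

end
-- ===== PACK-END S20/Comb/Basic.lean

-- ===== PACK-BEGIN S20/CuspCount360.lean
section



/-!
# Number of `T`-orbits on `SL(2,ℤ) ⧸ Γ₀(N)` equals `cuspCount N`

Pure group theory / elementary number theory (no analysis).
Main result: `Fermat.Agent.S20.CuspCount360.card_orbits_T`.
-/

set_option autoImplicit false

open scoped MatrixGroups
open CongruenceSubgroup Matrix

namespace Fermat.Agent.S20.CuspCount360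

/-! ## Arithmetic core -/

section Arith

/-- `→` part 1: the gcd of the lower-left entry with `N` is an invariant. -/
theorem gcd_eq_of_dvd {N : ℕ} {a c a' c' : ℤ} (hac : IsCoprime a c) (hac' : IsCoprime a' c')
    (h : (N : ℤ) ∣ a * c' - c * a') : Int.gcd c N = Int.gcd c' N := by
  apply Nat.dvd_antisymm
  · -- d ∣ c'
    apply Int.dvd_gcd _ (Int.gcd_dvd_right c N)
    have hd1 : ((Int.gcd c N : ℕ) : ℤ) ∣ c := Int.gcd_dvd_left c N
    have hd2 : ((Int.gcd c N : ℕ) : ℤ) ∣ a * c' - c * a' := (Int.gcd_dvd_right c N).trans h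
    have hd3 : ((Int.gcd c N : ℕ) : ℤ) ∣ a * c' := by
      have := dvd_add hd2 (hd1.mul_right a')
      simpa using this
    have hcop : IsCoprime ((Int.gcd c N : ℕ) : ℤ) a :=
      (IsCoprime.of_isCoprime_of_dvd_right hac hd1).symm
    exact hcop.dvd_of_dvd_mul_left hd3
  · apply Int.dvd_gcd _ (Int.gcd_dvd_right c' N)
    have hd1 : ((Int.gcd c' N : ℕ) : ℤ) ∣ c' := Int.gcd_dvd_left c' N
    have hd2 : ((Int.gcd c' N : ℕ) : ℤ) ∣ a * c' - c * a' := (Int.gcd_dvd_right c' N).trans h
    have hd3 : ((Int.gcd c' N : ℕ) : ℤ) ∣ a' * c := by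
      have := dvd_sub (hd1.mul_left a) hd2
      have e : a * c' - (a * c' - c * a') = a' * c := by ring
      rwa [e] at this
    have hcop : IsCoprime ((Int.gcd c' N : ℕ) : ℤ) a' :=
      (IsCoprime.of_isCoprime_of_dvd_right hac' hd1).symm
    exact hcop.dvd_of_dvd_mul_left hd3

/-- `→` part 2. Here `c = d * c₁`, `c' = d * c₁'`, `N = d * M`, and `e ∣ d`, `e ∣ M`. -/
theorem dvd_of_dvd {d M e a a' c₁ c₁' k : ℤ} (hd : d ≠ 0) (hed : e ∣ d) (heM : e ∣ M)
    (h : d * M ∣ (a + k * (d * c₁)) * (d * c₁') - (d * c₁) * a') :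
    e ∣ a * c₁' - a' * c₁ := by
  have h1 : d * M ∣ d * ((a + k * (d * c₁)) * c₁' - c₁ * a') := by
    have e1 : (a + k * (d * c₁)) * (d * c₁') - (d * c₁) * a'
        = d * ((a + k * (d * c₁)) * c₁' - c₁ * a') := by ring
    rwa [e1] at h
  have h2 : M ∣ (a + k * (d * c₁)) * c₁' - c₁ * a' := (mul_dvd_mul_iff_left hd).mp h1
  have h3 : e ∣ (a + k * (d * c₁)) * c₁' - c₁ * a' := heM.trans h2
  have h4 : e ∣ d * (k * c₁ * c₁') := hed.mul_right _
  have := dvd_sub h3 h4
  have e2 : (a + k * (d * c₁)) * c₁' - c₁ * a' - d * (k * c₁ * c₁') = a * c₁' - a' * c₁ := by ring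
  rwa [e2] at this

/-- `←`: solving the linear congruence. -/
theorem exists_k {d M a a' c₁ c₁' : ℤ} (h1 : IsCoprime c₁ M) (h1' : IsCoprime c₁' M)
    (h : ((Int.gcd d M : ℕ) : ℤ) ∣ a * c₁' - a' * c₁) :
    ∃ k : ℤ, d * M ∣ (a + k * (d * c₁)) * (d * c₁') - (d * c₁) * a' := by
  obtain ⟨t, ht⟩ := h
  obtain ⟨u, v, huv⟩ := h1
  obtain ⟨u', v', huv'⟩ := h1'
  have hb := Int.gcd_eq_gcd_ab d M
  set x := Int.gcdA d M
  set y := Int.gcdB d M
  -- z := u * u' is an inverse of c₁ c₁' mod M
  refine ⟨-t * x * (u * u'), ?_⟩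
  have e1 : (a + (-t * x * (u * u')) * (d * c₁)) * (d * c₁') - (d * c₁) * a'
      = d * ((a * c₁' - a' * c₁) - t * x * d * ((u * c₁) * (u' * c₁'))) := by ring
  rw [e1]
  apply mul_dvd_mul_left
  have e2 : u * c₁ = 1 - v * M := by linear_combination huv
  have e3 : u' * c₁' = 1 - v' * M := by linear_combination huv'
  rw [e2, e3, ht]
  refine ⟨t * y + t * x * d * (v + v' - v * v' * M), ?_⟩
  linear_combination (t) * hb

/-- Comparison of the `r`-invariants inside a fixed `ZMod e`. -/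
theorem val_mul_inv_eq_iff {e : ℕ} [NeZero e] {a a' c₁ c₁' : ℤ}
    (h1 : IsCoprime c₁ (e : ℤ)) (h1' : IsCoprime c₁' (e : ℤ)) :
    ((a : ZMod e) * (c₁ : ZMod e)⁻¹).val = ((a' : ZMod e) * (c₁' : ZMod e)⁻¹).val ↔
      (e : ℤ) ∣ a * c₁' - a' * c₁ := by
  have hu : IsUnit ((c₁ : ℤ) : ZMod e) := (ZMod.coe_int_isUnit_iff_isCoprime c₁ e).2 h1.symm
  have hu' : IsUnit ((c₁' : ℤ) : ZMod e) := (ZMod.coe_int_isUnit_iff_isCoprime c₁' e).2 h1'.symm
  have hi : ((c₁ : ℤ) : ZMod e) * ((c₁ : ℤ) : ZMod e)⁻¹ = 1 := ZMod.mul_inv_of_unit _ hu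
  have hi' : ((c₁' : ℤ) : ZMod e) * ((c₁' : ℤ) : ZMod e)⁻¹ = 1 := ZMod.mul_inv_of_unit _ hu'
  rw [(ZMod.val_injective e).eq_iff, ← ZMod.intCast_zmod_eq_zero_iff_dvd]
  push_cast
  constructor
  · intro h
    have : (a : ZMod e) * c₁' - a' * c₁
        = ((a : ZMod e) * (c₁ : ZMod e)⁻¹ - (a' : ZMod e) * (c₁' : ZMod e)⁻¹) * (c₁ * c₁')
          + (a : ZMod e) * c₁' * (1 - c₁ * (c₁ : ZMod e)⁻¹)
          - (a' : ZMod e) * c₁ * (1 - c₁' * (c₁' : ZMod e)⁻¹) := by ring
    rw [this, h, hi, hi']; ring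
  · intro h
    have : (a : ZMod e) * (c₁ : ZMod e)⁻¹ - (a' : ZMod e) * (c₁' : ZMod e)⁻¹
        = ((a : ZMod e) * c₁' - a' * c₁) * ((c₁ : ZMod e)⁻¹ * (c₁' : ZMod e)⁻¹)
          + (a : ZMod e) * (c₁ : ZMod e)⁻¹ * (1 - c₁' * (c₁' : ZMod e)⁻¹)
          - (a' : ZMod e) * (c₁' : ZMod e)⁻¹ * (1 - c₁ * (c₁ : ZMod e)⁻¹) := by ring
    have h0 := sub_eq_zero.mp (by rw [this, h, hi, hi']; ring :
      (a : ZMod e) * (c₁ : ZMod e)⁻¹ - (a' : ZMod e) * (c₁' : ZMod e)⁻¹ = 0)
    exact h0

end Arith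

/-! ## The invariant -/

section Invariant

variable (N : ℕ)

/-- `e(d) = gcd (d, N / d)`. -/
def eOf (d : ℕ) : ℕ := Nat.gcd d (N / d)

/-- The `r`-invariant computed with an explicit `d`. -/
noncomputable def rAux (d : ℕ) (a c : ℤ) : ℕ :=
  (((a : ℤ) : ZMod (eOf N d)) * (((c / (d : ℤ) : ℤ)) : ZMod (eOf N d))⁻¹).val

/-- The `d`-invariant `gcd (c, N)` of `g = [a b; c d]`. -/
def dInv (g : SL(2, ℤ)) : ℕ := Int.gcd ((g : Matrix (Fin 2) (Fin 2) ℤ) 1 0) N

/-- The full invariant `(d, r)`. -/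
noncomputable def cuspInv (g : SL(2, ℤ)) : (_ : ℕ) × ℕ :=
  ⟨dInv N g, rAux N (dInv N g) ((g : Matrix (Fin 2) (Fin 2) ℤ) 0 0)
    ((g : Matrix (Fin 2) (Fin 2) ℤ) 1 0)⟩

theorem isCoprime_col (g : SL(2, ℤ)) :
    IsCoprime ((g : Matrix (Fin 2) (Fin 2) ℤ) 0 0) ((g : Matrix (Fin 2) (Fin 2) ℤ) 1 0) := by
  have h := g.det_coe
  rw [Matrix.det_fin_two] at h
  exact ⟨(g : Matrix (Fin 2) (Fin 2) ℤ) 1 1, -(g : Matrix (Fin 2) (Fin 2) ℤ) 0 1, by
    linear_combination h⟩

theorem mk_eq_mk_iff (g g' : SL(2, ℤ)) :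
    ((g : SL(2, ℤ) ⧸ Gamma0 N) = (g' : SL(2, ℤ) ⧸ Gamma0 N)) ↔
      (N : ℤ) ∣ (g : Matrix (Fin 2) (Fin 2) ℤ) 0 0 * (g' : Matrix (Fin 2) (Fin 2) ℤ) 1 0
        - (g : Matrix (Fin 2) (Fin 2) ℤ) 1 0 * (g' : Matrix (Fin 2) (Fin 2) ℤ) 0 0 := by
  rw [QuotientGroup.eq, Gamma0_mem, ZMod.intCast_zmod_eq_zero_iff_dvd]
  have : ((g⁻¹ * g' : SL(2, ℤ)) : Matrix (Fin 2) (Fin 2) ℤ) 1 0
      = (g : Matrix (Fin 2) (Fin 2) ℤ) 0 0 * (g' : Matrix (Fin 2) (Fin 2) ℤ) 1 0
        - (g : Matrix (Fin 2) (Fin 2) ℤ) 1 0 * (g' : Matrix (Fin 2) (Fin 2) ℤ) 0 0 := by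
    rw [Matrix.SpecialLinearGroup.coe_mul, Matrix.SpecialLinearGroup.SL2_inv_expl]
    rw [Matrix.mul_apply, Fin.sum_univ_two]
    simp
    ring
  rw [this]

theorem T_zpow_mul_col (k : ℤ) (g : SL(2, ℤ)) :
    ((ModularGroup.T ^ k * g : SL(2, ℤ)) : Matrix (Fin 2) (Fin 2) ℤ) 0 0
        = (g : Matrix (Fin 2) (Fin 2) ℤ) 0 0 + k * (g : Matrix (Fin 2) (Fin 2) ℤ) 1 0 ∧
    ((ModularGroup.T ^ k * g : SL(2, ℤ)) : Matrix (Fin 2) (Fin 2) ℤ) 1 0
        = (g : Matrix (Fin 2) (Fin 2) ℤ) 1 0 := by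
  rw [Matrix.SpecialLinearGroup.coe_mul, ModularGroup.coe_T_zpow]
  constructor <;> rw [Matrix.mul_apply, Fin.sum_univ_two] <;> simp

/-- Data attached to `c` and `N ≠ 0`: `d = gcd (c, N)`, `c = d * c₁`, `N = d * M`,
`e = gcd (d, M)`, and `c₁` is coprime to `M` and to `e`. -/
theorem gcd_data {N : ℕ} (hN : N ≠ 0) (c : ℤ) :
    Int.gcd c N ≠ 0 ∧ Int.gcd c N ∣ N ∧
    ((Int.gcd c N : ℕ) : ℤ) * (c / ((Int.gcd c N : ℕ) : ℤ)) = c ∧
    ((Int.gcd c N : ℕ) : ℤ) * ((N / Int.gcd c N : ℕ) : ℤ) = (N : ℤ) ∧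
    IsCoprime (c / ((Int.gcd c N : ℕ) : ℤ)) ((N / Int.gcd c N : ℕ) : ℤ) ∧
    IsCoprime (c / ((Int.gcd c N : ℕ) : ℤ)) ((eOf N (Int.gcd c N) : ℕ) : ℤ) ∧
    eOf N (Int.gcd c N) ≠ 0 := by
  have hd0 : Int.gcd c N ≠ 0 := by
    intro h
    rw [Int.gcd_eq_zero_iff] at h
    exact hN (by exact_mod_cast h.2)
  have hdN : Int.gcd c N ∣ N := Int.natCast_dvd_natCast.mp (Int.gcd_dvd_right c N)
  have hc : ((Int.gcd c N : ℕ) : ℤ) * (c / ((Int.gcd c N : ℕ) : ℤ)) = c :=
    Int.mul_ediv_cancel' (Int.gcd_dvd_left c N)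
  have hNM : ((Int.gcd c N : ℕ) : ℤ) * ((N / Int.gcd c N : ℕ) : ℤ) = (N : ℤ) := by
    exact_mod_cast Nat.mul_div_cancel' hdN
  have hcop : IsCoprime (c / ((Int.gcd c N : ℕ) : ℤ)) ((N / Int.gcd c N : ℕ) : ℤ) := by
    rw [Int.isCoprime_iff_gcd_eq_one]
    have := Int.gcd_div_gcd_div_gcd (i := c) (j := (N : ℤ)) (Nat.pos_of_ne_zero hd0)
    rwa [← Int.natCast_div] at this
  have heM : ((eOf N (Int.gcd c N) : ℕ) : ℤ) ∣ ((N / Int.gcd c N : ℕ) : ℤ) :=
    Int.natCast_dvd_natCast.mpr (Nat.gcd_dvd_right _ _)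
  refine ⟨hd0, hdN, hc, hNM, hcop, IsCoprime.of_isCoprime_of_dvd_right hcop heM, ?_⟩
  exact Nat.gcd_ne_zero_left hd0

theorem arith_iff {N : ℕ} (hN : N ≠ 0) {a c a' c' : ℤ} (hac : IsCoprime a c)
    (hac' : IsCoprime a' c') :
    (∃ k : ℤ, (N : ℤ) ∣ (a + k * c) * c' - c * a') ↔
      (Int.gcd c N = Int.gcd c' N ∧ rAux N (Int.gcd c N) a c = rAux N (Int.gcd c N) a' c') := by
  obtain ⟨hd0, hdN, hc, hNM, hcop, hcope, he0⟩ := gcd_data hN c
  obtain ⟨hd0', hdN', hc', hNM', hcop', hcope', he0'⟩ := gcd_data hN c'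
  have : NeZero (eOf N (Int.gcd c N)) := ⟨he0⟩
  have hed : ((eOf N (Int.gcd c N) : ℕ) : ℤ) ∣ ((Int.gcd c N : ℕ) : ℤ) :=
    Int.natCast_dvd_natCast.mpr (Nat.gcd_dvd_left _ _)
  have heM : ((eOf N (Int.gcd c N) : ℕ) : ℤ) ∣ ((N / Int.gcd c N : ℕ) : ℤ) :=
    Int.natCast_dvd_natCast.mpr (Nat.gcd_dvd_right _ _)
  constructor
  · rintro ⟨k, hk⟩
    have hcopk : IsCoprime (a + k * c) c := hac.add_mul_right_left k
    have hdd : Int.gcd c N = Int.gcd c' N := gcd_eq_of_dvd hcopk hac' hk
    refine ⟨hdd, ?_⟩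
    rw [← hdd] at hc' hcope'
    unfold rAux
    rw [val_mul_inv_eq_iff hcope hcope']
    refine dvd_of_dvd (k := k) (by exact_mod_cast hd0) hed heM ?_
    rw [hNM, hc, hc']
    exact hk
  · rintro ⟨hdd, hr⟩
    rw [← hdd] at hc' hcope' hcop'
    unfold rAux at hr
    rw [val_mul_inv_eq_iff hcope hcope'] at hr
    have hr' : ((Int.gcd ((Int.gcd c N : ℕ) : ℤ) ((N / Int.gcd c N : ℕ) : ℤ) : ℕ) : ℤ) ∣
        a * (c' / ((Int.gcd c N : ℕ) : ℤ)) - a' * (c / ((Int.gcd c N : ℕ) : ℤ)) := by
      rw [Int.gcd_natCast_natCast]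
      exact hr
    obtain ⟨k, hk⟩ := exists_k (a := a) (a' := a') hcop hcop' hr'
    refine ⟨k, ?_⟩
    rw [hNM, hc, hc'] at hk
    exact hk

variable [NeZero N]

/-- Two cosets `gΓ₀(N)`, `g'Γ₀(N)` lie in the same `⟨T⟩`-orbit iff they have the same
invariant. -/
theorem orbit_iff (g g' : SL(2, ℤ)) :
    (∃ k : ℤ, ((ModularGroup.T ^ k * g : SL(2, ℤ)) : SL(2, ℤ) ⧸ Gamma0 N)
        = (g' : SL(2, ℤ) ⧸ Gamma0 N)) ↔ cuspInv N g = cuspInv N g' := by
  have key := arith_iff (NeZero.ne N) (isCoprime_col g) (isCoprime_col g')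
  constructor
  · rintro ⟨k, hk⟩
    rw [mk_eq_mk_iff, (T_zpow_mul_col k g).1, (T_zpow_mul_col k g).2] at hk
    obtain ⟨h1, h2⟩ := key.1 ⟨k, hk⟩
    unfold cuspInv dInv
    rw [← h1, h2]
  · intro h
    unfold cuspInv dInv at h
    rw [Sigma.mk.injEq] at h
    obtain ⟨h1, h2⟩ := h
    have h2' := eq_of_heq h2
    rw [← h1] at h2'
    obtain ⟨k, hk⟩ := key.2 ⟨h1, h2'⟩
    refine ⟨k, ?_⟩
    rw [mk_eq_mk_iff, (T_zpow_mul_col k g).1, (T_zpow_mul_col k g).2]
    exact hk

/-- The finite set of possible invariants. -/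
def cuspSet : Finset ((_ : ℕ) × ℕ) :=
  N.divisors.sigma fun d => (Finset.range (eOf N d)).filter fun r => (eOf N d).Coprime r

omit [NeZero N] in
theorem card_cuspSet : (cuspSet N).card = ModularCurve.cuspCount N := by
  unfold cuspSet ModularCurve.cuspCount
  rw [Finset.card_sigma]
  refine Finset.sum_congr rfl fun d _ => ?_
  rw [Nat.totient_eq_card_coprime]
  rfl

theorem cuspInv_mem (g : SL(2, ℤ)) : cuspInv N g ∈ cuspSet N := by
  obtain ⟨hd0, hdN, hc, hNM, hcop, hcope, he0⟩ :=
    gcd_data (NeZero.ne N) ((g : Matrix (Fin 2) (Fin 2) ℤ) 1 0)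
  have : NeZero (eOf N (Int.gcd ((g : Matrix (Fin 2) (Fin 2) ℤ) 1 0) N)) := ⟨he0⟩
  unfold cuspSet cuspInv dInv
  rw [Finset.mem_sigma, Nat.mem_divisors, Finset.mem_filter, Finset.mem_range]
  refine ⟨⟨hdN, NeZero.ne N⟩, ZMod.val_lt _, ?_⟩
  -- the value is a unit
  have hed : ((eOf N (Int.gcd ((g : Matrix (Fin 2) (Fin 2) ℤ) 1 0) N) : ℕ) : ℤ) ∣
      (g : Matrix (Fin 2) (Fin 2) ℤ) 1 0 :=
    (Int.natCast_dvd_natCast.mpr (Nat.gcd_dvd_left _ _)).trans (Int.gcd_dvd_left _ _)
  have hae : IsCoprime ((g : Matrix (Fin 2) (Fin 2) ℤ) 0 0)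
      ((eOf N (Int.gcd ((g : Matrix (Fin 2) (Fin 2) ℤ) 1 0) N) : ℕ) : ℤ) :=
    IsCoprime.of_isCoprime_of_dvd_right (isCoprime_col g) hed
  have hua := (ZMod.coe_int_isUnit_iff_isCoprime _ _).2 hae.symm
  have huc := (ZMod.coe_int_isUnit_iff_isCoprime _ _).2 hcope.symm
  have hinv : IsUnit ((((g : Matrix (Fin 2) (Fin 2) ℤ) 1 0 /
      ((Int.gcd ((g : Matrix (Fin 2) (Fin 2) ℤ) 1 0) N : ℕ) : ℤ) : ℤ) :
        ZMod (eOf N (Int.gcd ((g : Matrix (Fin 2) (Fin 2) ℤ) 1 0) N)))⁻¹) :=
    IsUnit.of_mul_eq_one _ (by rw [mul_comm]; exact ZMod.mul_inv_of_unit _ huc)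
  have hu := hua.mul hinv
  have := ZMod.val_coe_unit_coprime hu.unit
  rw [IsUnit.unit_spec] at this
  exact this.symm

omit [NeZero N] in
/-- Every element of `cuspSet N` is the invariant of some `g`. -/
theorem exists_cuspInv_eq (p : (_ : ℕ) × ℕ) (hp : p ∈ cuspSet N) :
    ∃ g : SL(2, ℤ), cuspInv N g = p := by
  obtain ⟨d, r⟩ := p
  unfold cuspSet at hp
  rw [Finset.mem_sigma, Nat.mem_divisors, Finset.mem_filter, Finset.mem_range] at hp
  obtain ⟨⟨hdN, hN⟩, hr, hcop⟩ := hp
  dsimp only at hdN hr hcop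
  have hd0 : d ≠ 0 := fun h => hN (by rw [h] at hdN; exact Nat.eq_zero_of_zero_dvd hdN)
  have : NeZero d := ⟨hd0⟩
  have hed : eOf N d ∣ d := Nat.gcd_dvd_left _ _
  have he0 : eOf N d ≠ 0 := Nat.gcd_ne_zero_left hd0
  have : NeZero (eOf N d) := ⟨he0⟩
  -- lift the unit `r` mod `e` to a unit `v` mod `d`
  obtain ⟨v, hv⟩ := ZMod.unitsMap_surjective hed (ZMod.unitOfCoprime r hcop.symm)
  have hvcop : ((v : ZMod d).val).Coprime d := ZMod.val_coe_unit_coprime v
  have hcast : (((v : ZMod d).val : ℕ) : ZMod (eOf N d)) = (r : ZMod (eOf N d)) := by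
    have h1 := congrArg (fun u : (ZMod (eOf N d))ˣ => (u : ZMod (eOf N d))) hv
    simp only [ZMod.unitsMap_def, Units.coe_map, MonoidHom.coe_coe, ZMod.castHom_apply,
      ZMod.coe_unitOfCoprime] at h1
    rw [ZMod.natCast_val]
    exact h1
  -- Bézout
  have hco : IsCoprime (((v : ZMod d).val : ℕ) : ℤ) ((d : ℕ) : ℤ) :=
    Nat.isCoprime_iff_coprime.mpr hvcop
  obtain ⟨x, y, hxy⟩ := hco
  let g : SL(2, ℤ) := ⟨!![(((v : ZMod d).val : ℕ) : ℤ), -y; (d : ℤ), x], by
    rw [Matrix.det_fin_two_of]; linear_combination hxy⟩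
  have hg00 : (g : Matrix (Fin 2) (Fin 2) ℤ) 0 0 = (((v : ZMod d).val : ℕ) : ℤ) := rfl
  have hg10 : (g : Matrix (Fin 2) (Fin 2) ℤ) 1 0 = (d : ℤ) := rfl
  refine ⟨g, ?_⟩
  have hgcd : Int.gcd ((d : ℕ) : ℤ) (N : ℤ) = d := by
    rw [Int.gcd_natCast_natCast]; exact Nat.gcd_eq_left hdN
  unfold cuspInv dInv
  rw [hg00, hg10, hgcd]
  congr 1
  unfold rAux
  rw [Int.ediv_self (by exact_mod_cast hd0)]
  simp only [Int.cast_one, ZMod.inv_one, _root_.mul_one, Int.cast_natCast]
  rw [hcast, ZMod.val_natCast]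
  exact Nat.mod_eq_of_lt hr

/-- **Main theorem**: the number of orbits of `⟨T⟩` acting by left multiplication on
`SL(2,ℤ) ⧸ Γ₀(N)` is `cuspCount N = ∑_{d ∣ N} φ(gcd(d, N/d))`. -/
theorem card_orbits_T :
    Nat.card (MulAction.orbitRel.Quotient (Subgroup.zpowers ModularGroup.T)
      (SL(2, ℤ) ⧸ Gamma0 N)) = ModularCurve.cuspCount N := by
  rw [← card_cuspSet, ← Nat.card_eq_finsetCard]
  -- representative of an orbit
  let rep : MulAction.orbitRel.Quotient (Subgroup.zpowers ModularGroup.T)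
      (SL(2, ℤ) ⧸ Gamma0 N) → SL(2, ℤ) := fun x => Quotient.out (Quotient.out x)
  have hrep : ∀ x, (Quotient.mk'' ((rep x : SL(2, ℤ)) : SL(2, ℤ) ⧸ Gamma0 N) :
      MulAction.orbitRel.Quotient (Subgroup.zpowers ModularGroup.T)
      (SL(2, ℤ) ⧸ Gamma0 N)) = x := by
    intro x
    show Quotient.mk'' ((Quotient.out (Quotient.out x) : SL(2, ℤ)) : SL(2, ℤ) ⧸ Gamma0 N) = x
    rw [QuotientGroup.out_eq']
    exact Quotient.out_eq x
  -- orbit equivalence in terms of `T ^ k`
  have horb : ∀ g g' : SL(2, ℤ),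
      (Quotient.mk'' (g : SL(2, ℤ) ⧸ Gamma0 N) :
        MulAction.orbitRel.Quotient (Subgroup.zpowers ModularGroup.T) (SL(2, ℤ) ⧸ Gamma0 N))
        = Quotient.mk'' (g' : SL(2, ℤ) ⧸ Gamma0 N) ↔ cuspInv N g' = cuspInv N g := by
    intro g g'
    rw [Quotient.eq'', MulAction.orbitRel_apply, MulAction.mem_orbit_iff, ← orbit_iff]
    constructor
    · rintro ⟨⟨t, ht⟩, h⟩
      obtain ⟨k, rfl⟩ := Subgroup.mem_zpowers_iff.mp ht
      exact ⟨k, h⟩
    · rintro ⟨k, h⟩
      exact ⟨⟨ModularGroup.T ^ k, Subgroup.mem_zpowers_iff.mpr ⟨k, rfl⟩⟩, h⟩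
  refine Nat.card_congr (Equiv.ofBijective
    (fun x => (⟨cuspInv N (rep x), cuspInv_mem N (rep x)⟩ : cuspSet N)) ⟨?_, ?_⟩)
  · intro x y hxy
    have h := congrArg Subtype.val hxy
    dsimp only at h
    rw [← hrep x, ← hrep y]
    exact (horb _ _).2 h.symm
  · rintro ⟨p, hp⟩
    obtain ⟨g, hg⟩ := exists_cuspInv_eq N p hp
    refine ⟨Quotient.mk'' (g : SL(2, ℤ) ⧸ Gamma0 N), ?_⟩
    apply Subtype.ext
    dsimp only
    rw [← hg]
    exact (horb _ _).1 (hrep (Quotient.mk'' (g : SL(2, ℤ) ⧸ Gamma0 N))).symm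

end Invariant

end Fermat.Agent.S20.CuspCount360

end
-- ===== PACK-END S20/CuspCount360.lean

-- ===== PACK-BEGIN S18/H438/Front/Chart.lean
section


/-!
# S18 / ALG-FRONT (helper438), part 1: the chart algebra `B = integral closure of R[z] in F`

Setting: `F` a field of characteristic `0`, `R : Subring F` a discrete valuation ring,
`z : F` transcendental over `R`, `F` finite over `Frac (R[z])`.

* `baseRing R z   := Algebra.adjoin R {z}`           (`R[z] ⊆ F`, isomorphic to `R[X]`)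
* `chartRing R z  := integralClosure (R[z]) F`      (the chart `B`)

All instances needed by the Kummer pieces (`H754/KummerSpec.lean`) are provided:
`IsNoetherianRing B`, `IsIntegrallyClosed B`, `IsFractionRing B F`, `Module.Finite R[z] B`.
-/

set_option autoImplicit false
set_option linter.style.haveILetI false
set_option linter.unusedSectionVars false

noncomputable section

namespace Fermat.Agent.S18.H438

open Polynomial

variable {F : Type*} [Field F]

/-- The base ring `R[z] ⊆ F`. -/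
abbrev baseRing (R : Subring F) (z : F) : Subalgebra R F := Algebra.adjoin R {z}

/-- The chart: the integral closure of `R[z]` in `F`. -/
abbrev chartRing (R : Subring F) (z : F) : Subalgebra (baseRing R z) F :=
  integralClosure (baseRing R z) F

variable (R : Subring F) (z : F)

theorem self_mem_baseRing : z ∈ baseRing R z := Algebra.self_mem_adjoin_singleton R z

theorem coe_mem_baseRing (r : R) : (r : F) ∈ baseRing R z := (baseRing R z).algebraMap_mem r

/-- `R[X] ≃ R[z]` for transcendental `z`. -/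
def baseEquiv (hz : Transcendental R z) : Polynomial R ≃ₐ[R] baseRing R z :=
  Polynomial.algEquivOfTranscendental R z hz

theorem baseEquiv_apply_coe (hz : Transcendental R z) (f : Polynomial R) :
    ((baseEquiv R z hz f : baseRing R z) : F) = Polynomial.aeval z f := by
  unfold baseEquiv
  rw [Polynomial.algEquivOfTranscendental_apply]
  have : (Polynomial.aeval (⟨z, Algebra.self_mem_adjoin_singleton R z⟩ : baseRing R z) f : F) =
      (baseRing R z).val (Polynomial.aeval (⟨z, Algebra.self_mem_adjoin_singleton R z⟩ :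
        baseRing R z) f) := rfl
  rw [this, ← Polynomial.aeval_algHom_apply]
  rfl

theorem baseRing_isNoetherianRing (hz : Transcendental R z) [IsNoetherianRing R] :
    IsNoetherianRing (baseRing R z) :=
  isNoetherianRing_of_ringEquiv (Polynomial R) (baseEquiv R z hz).toRingEquiv

theorem baseRing_isIntegrallyClosed (hz : Transcendental R z) [IsIntegrallyClosed (Polynomial R)] :
    IsIntegrallyClosed (baseRing R z) :=
  IsIntegrallyClosed.of_equiv (baseEquiv R z hz).toRingEquiv

/-- Every element of `R[z]` is a polynomial in `z`. -/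
theorem exists_aeval_eq_of_mem_baseRing {f : F} (hf : f ∈ baseRing R z) :
    ∃ P : Polynomial R, Polynomial.aeval z P = f :=
  (Algebra.adjoin_mem_exists_aeval R z hf)

section Instances

attribute [local instance] FractionRing.liftAlgebra

variable [CharZero F]

/-- The fraction field of `R[z]` is of characteristic zero. -/
theorem charZero_fractionRing_baseRing : CharZero (FractionRing (baseRing R z)) := by
  have : CharZero (baseRing R z) := RingHom.charZero (algebraMap (baseRing R z) F)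
  exact charZero_of_injective_algebraMap
    (IsFractionRing.injective (baseRing R z) (FractionRing (baseRing R z)))

variable [hfin : FiniteDimensional (FractionRing (baseRing R z)) F]

theorem chartRing_isFractionRing : IsFractionRing (chartRing R z) F :=
  integralClosure.isFractionRing_of_finite_extension (FractionRing (baseRing R z)) F

theorem chartRing_isIntegrallyClosed : IsIntegrallyClosed (chartRing R z) :=
  integralClosure.isIntegrallyClosedOfFiniteExtension (FractionRing (baseRing R z))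

theorem isSeparable_fractionRing_baseRing :
    Algebra.IsSeparable (FractionRing (baseRing R z)) F := by
  haveI := charZero_fractionRing_baseRing R z
  exact Algebra.IsAlgebraic.isSeparable_of_perfectField

variable [IsDiscreteValuationRing R]

theorem chartRing_isNoetherianRing (hz : Transcendental R z) :
    IsNoetherianRing (chartRing R z) := by
  haveI := baseRing_isNoetherianRing R z hz
  haveI := baseRing_isIntegrallyClosed R z hz
  haveI := isSeparable_fractionRing_baseRing R z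
  exact integralClosure.isNoetherianRing (K := FractionRing (baseRing R z)) F

theorem chartRing_finite (hz : Transcendental R z) :
    Module.Finite (baseRing R z) (chartRing R z) := by
  haveI := baseRing_isNoetherianRing R z hz
  haveI := baseRing_isIntegrallyClosed R z hz
  haveI := isSeparable_fractionRing_baseRing R z
  exact IsIntegralClosure.finite (baseRing R z) (FractionRing (baseRing R z)) F (chartRing R z)

end Instances

end Fermat.Agent.S18.H438

end
end
-- ===== PACK-END S18/H438/Front/Chart.lean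

-- ===== PACK-BEGIN S18/H845/PrimElt.lean
section


/-!
# S18 / d1(c): compositum with algebraic constants, elementwise

`E ⊆ K ⊆ L`, `E` perfect.  If `L` is generated over `K` by elements algebraic over `E`, then every
element of `L` lies in `K[α]` for a single `α` algebraic over `E`.
-/

set_option autoImplicit false
set_option linter.unusedSectionVars false

namespace Fermat.Agent.S18.H845

open IntermediateField

section PE

variable {E K L : Type*} [Field E] [Field K] [Field L] [Algebra E K] [Algebra K L] [Algebra E L]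
  [IsScalarTower E K L] [PerfectField E]

omit [PerfectField E] in
lemma adjoin_E_le_adjoin_K (α : L) :
    ((Algebra.adjoin E {α} : Subalgebra E L) : Set L) ⊆ (Algebra.adjoin K {α} : Subalgebra K L) := by
  have h : Algebra.adjoin E {α} ≤ (Algebra.adjoin K {α}).restrictScalars E :=
    Algebra.adjoin_le (by
      rintro x ⟨rfl⟩
      exact Algebra.self_mem_adjoin_singleton K _)
  exact h

/-- Two algebraic constants lie in `E[α]` for a single algebraic constant `α`. -/
lemma exists_common_adjoin {α₁ α₂ : L} (h₁ : IsAlgebraic E α₁) (h₂ : IsAlgebraic E α₂) :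
    ∃ α : L, IsAlgebraic E α ∧ α₁ ∈ Algebra.adjoin K {α} ∧ α₂ ∈ Algebra.adjoin K {α} := by
  let M : IntermediateField E L := IntermediateField.adjoin E {α₁, α₂}
  have hfin : FiniteDimensional E M :=
    IntermediateField.finiteDimensional_adjoin_pair h₁.isIntegral h₂.isIntegral
  have halg : Algebra.IsAlgebraic E M := Algebra.IsAlgebraic.of_finite E M
  obtain ⟨β, hβ⟩ := Field.exists_primitive_element E M
  have hβalg : IsAlgebraic E (β : L) := by
    have := halg.isAlgebraic β
    exact (isAlgebraic_algebraMap_iff (algebraMap M L).injective).mpr this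
  have hM : E⟮(β : L)⟯ = M := by
    have h1 := congrArg (IntermediateField.map M.val) hβ
    rw [IntermediateField.adjoin_map, Set.image_singleton] at h1
    rw [show M.val β = (β : L) from rfl] at h1
    rw [h1]
    ext x
    simp only [IntermediateField.mem_map, IntermediateField.mem_top, true_and]
    constructor
    · rintro ⟨y, rfl⟩
      exact y.2
    · intro hx
      exact ⟨⟨x, hx⟩, rfl⟩
  have hsub : ∀ x ∈ M, x ∈ Algebra.adjoin K {(β : L)} := by
    intro x hx
    rw [← hM] at hx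
    have hx' : x ∈ (E⟮(β : L)⟯).toSubalgebra := hx
    rw [IntermediateField.adjoin_simple_toSubalgebra_of_isAlgebraic hβalg] at hx'
    exact adjoin_E_le_adjoin_K (K := K) (β : L) hx'
  refine ⟨β, hβalg, hsub _ ?_, hsub _ ?_⟩
  · exact IntermediateField.subset_adjoin E _ (by simp)
  · exact IntermediateField.subset_adjoin E _ (by simp)

/-- If `L` is generated over `K` by elements algebraic over `E`, every element of `L` lies in
`K[α]` for one `α` algebraic over `E`. -/
theorem exists_mem_adjoin_singleton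
    (hgen : IntermediateField.adjoin K {α : L | IsAlgebraic E α} = ⊤) (f : L) :
    ∃ α : L, IsAlgebraic E α ∧ f ∈ Algebra.adjoin K {α} := by
  have hf : f ∈ IntermediateField.adjoin K {α : L | IsAlgebraic E α} := by
    rw [hgen]; exact IntermediateField.mem_top
  induction hf using IntermediateField.adjoin_induction with
  | mem x hx => exact ⟨x, hx, Algebra.self_mem_adjoin_singleton K x⟩
  | algebraMap x => exact ⟨0, isAlgebraic_zero, Subalgebra.algebraMap_mem _ x⟩
  | add x y _ _ hx hy =>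
    obtain ⟨α₁, h₁, hx⟩ := hx
    obtain ⟨α₂, h₂, hy⟩ := hy
    obtain ⟨α, hα, ha₁, ha₂⟩ := exists_common_adjoin (K := K) h₁ h₂
    have l₁ : Algebra.adjoin K {α₁} ≤ Algebra.adjoin K {α} :=
      Algebra.adjoin_le (by rintro z ⟨rfl⟩; exact ha₁)
    have l₂ : Algebra.adjoin K {α₂} ≤ Algebra.adjoin K {α} :=
      Algebra.adjoin_le (by rintro z ⟨rfl⟩; exact ha₂)
    exact ⟨α, hα, _root_.AddMemClass.add_mem (l₁ hx) (l₂ hy)⟩
  | mul x y _ _ hx hy =>
    obtain ⟨α₁, h₁, hx⟩ := hx
    obtain ⟨α₂, h₂, hy⟩ := hy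
    obtain ⟨α, hα, ha₁, ha₂⟩ := exists_common_adjoin (K := K) h₁ h₂
    have l₁ : Algebra.adjoin K {α₁} ≤ Algebra.adjoin K {α} :=
      Algebra.adjoin_le (by rintro z ⟨rfl⟩; exact ha₁)
    have l₂ : Algebra.adjoin K {α₂} ≤ Algebra.adjoin K {α} :=
      Algebra.adjoin_le (by rintro z ⟨rfl⟩; exact ha₂)
    exact ⟨α, hα, _root_.MulMemClass.mul_mem (l₁ hx) (l₂ hy)⟩
  | inv x _ hx =>
    obtain ⟨α, hα, hx⟩ := hx
    refine ⟨α, hα, ?_⟩
    have hαK : IsAlgebraic K α := hα.tower_top K
    rw [← IntermediateField.adjoin_simple_toSubalgebra_of_isAlgebraic hαK] at hx ⊢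
    have hx' : x ∈ K⟮α⟯ := hx
    exact (show x⁻¹ ∈ K⟮α⟯ from _root_.InvMemClass.inv_mem hx')

end PE

end Fermat.Agent.S18.H845

end
-- ===== PACK-END S18/H845/PrimElt.lean

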