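import Mathlib.RingTheory.Idempotents
import Mathlib.RingTheory.Ideal.Quotient.Operations
import Mathlib.RingTheory.Ideal.Span
import Mathlib.RingTheory.Noetherian.Basic
import Mathlib.Algebra.Algebra.Subalgebra.Basic
import Mathlib
import Fermat.Prelude.Def_GaloisRep_Residual
import Fermat.Prelude.Def_GaloisRep_LocalConditions
import Fermat.Prelude.Def_AlgebraicCurve_Correspondence
import Mathlib.LinearAlgebra.Matrix.SchurComplement
import Mathlib.LinearAlgebra.Matrix.NonsingularInverse
import Mathlib.LinearAlgebra.Matrix.ToLin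
import Mathlib.LinearAlgebra.Projection
import Fermat.Prelude.Def_ModularCurve_ArithmeticGalois

-- ===== PACK-BEGIN S18/H558/Cech.lean
section






/-!
# S18 / piece b5: connectedness via a two-chart Cech argument (pure algebra, Mathlib only)

Setting: `A` a commutative ring, `w : A`, `B` a commutative `A`-algebra ("`B_mid`"),
`Bfin Binf : Subalgebra A B` the two charts.

* `lift_idem_mod_pow` : an idempotent modulo `w` lifts to an idempotent modulo `w ^ n`.
* `idem_congr_mod_pow` : two idempotents modulo `w ^ n` that agree modulo `w` agree modulo `w ^ n`.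
* `cech_idempotent_trivial` : if the `w`-power torsion of `B / (Bfin + Binf)` is killed by `w ^ c`,
  `Bfin ∩ Binf = A`, `A / w → Bfin / w` is injective and `(w)` is prime in `A`, then every
  compatible pair of idempotents of `Bfin / w`, `Binf / w` is `(0,0)` or `(1,1)`.
* `exists_torsion_bound` : over a noetherian ring, a f.g. module has bounded `w`-power torsion.
-/

namespace Fermat.Agent.S18.H558

section Idem

variable {R : Type*} [CommRing R]

/-- An idempotent modulo `w` lifts to an idempotent modulo `w ^ n`. -/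
theorem lift_idem_mod_pow (w e : R) (he : e ^ 2 - e ∈ Ideal.span {w}) (n : ℕ) :
    ∃ f : R, f - e ∈ Ideal.span {w} ∧ f ^ 2 - f ∈ Ideal.span {w ^ n} := by
  rcases Nat.eq_zero_or_pos n with rfl | hn
  · exact ⟨e, by simp, by simp⟩
  have hle : Ideal.span {w ^ n} ≤ Ideal.span {w} := by
    rw [Ideal.span_singleton_le_span_singleton]
    exact dvd_pow_self w hn.ne'
  let φ : R ⧸ Ideal.span {w ^ n} →+* R ⧸ Ideal.span {w} := Ideal.Quotient.factor hle
  have hφ : ∀ x : R, φ (Ideal.Quotient.mk _ x) = Ideal.Quotient.mk _ x := fun x => rfl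
  have hker : ∀ x ∈ RingHom.ker φ, IsNilpotent x := by
    intro x hx
    obtain ⟨r, rfl⟩ := Ideal.Quotient.mk_surjective x
    rw [RingHom.mem_ker, hφ, Ideal.Quotient.eq_zero_iff_mem, Ideal.mem_span_singleton] at hx
    obtain ⟨s, rfl⟩ := hx
    refine ⟨n, ?_⟩
    rw [← map_pow, Ideal.Quotient.eq_zero_iff_mem, Ideal.mem_span_singleton, mul_pow]
    exact Dvd.intro _ rfl
  have hid : IsIdempotentElem (Ideal.Quotient.mk (Ideal.span {w}) e) := by
    have : Ideal.Quotient.mk (Ideal.span {w}) (e ^ 2 - e) = 0 :=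
      Ideal.Quotient.eq_zero_iff_mem.2 he
    rw [map_sub, sub_eq_zero, map_pow, pow_two] at this
    exact this
  obtain ⟨e', he', hφe'⟩ := exists_isIdempotentElem_eq_of_ker_isNilpotent φ hker
    (Ideal.Quotient.mk _ e) ⟨Ideal.Quotient.mk _ e, hφ e⟩ hid
  obtain ⟨f, rfl⟩ := Ideal.Quotient.mk_surjective e'
  refine ⟨f, ?_, ?_⟩
  · rw [hφ] at hφe'
    rw [← Ideal.Quotient.eq_zero_iff_mem, map_sub, hφe', sub_self]
  · rw [← Ideal.Quotient.eq_zero_iff_mem, map_sub, map_pow, pow_two, he'.eq, sub_self]

/-- Two idempotents modulo `w ^ n` which agree modulo `w` agree modulo `w ^ n`. -/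
theorem idem_congr_mod_pow (w f g : R) (n : ℕ)
    (hf : f ^ 2 - f ∈ Ideal.span {w ^ n}) (hg : g ^ 2 - g ∈ Ideal.span {w ^ n})
    (hfg : f - g ∈ Ideal.span {w}) : f - g ∈ Ideal.span {w ^ n} := by
  have hf' : IsIdempotentElem (Ideal.Quotient.mk (Ideal.span {w ^ n}) f) := by
    have := Ideal.Quotient.eq_zero_iff_mem.2 hf
    rw [map_sub, sub_eq_zero, map_pow, pow_two] at this
    exact this
  have hg' : IsIdempotentElem (Ideal.Quotient.mk (Ideal.span {w ^ n}) g) := by
    have := Ideal.Quotient.eq_zero_iff_mem.2 hg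
    rw [map_sub, sub_eq_zero, map_pow, pow_two] at this
    exact this
  have hnil : IsNilpotent (Ideal.Quotient.mk (Ideal.span {w ^ n}) f -
      Ideal.Quotient.mk (Ideal.span {w ^ n}) g) := by
    rw [Ideal.mem_span_singleton] at hfg
    obtain ⟨s, hs⟩ := hfg
    refine ⟨n, ?_⟩
    rw [← map_sub, ← map_pow, Ideal.Quotient.eq_zero_iff_mem, Ideal.mem_span_singleton, hs, mul_pow]
    exact Dvd.intro _ rfl
  have := eq_of_isNilpotent_sub_of_isIdempotentElem hf' hg' hnil
  rw [← Ideal.Quotient.eq_zero_iff_mem, map_sub, this, sub_self]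

end Idem

section Cech

variable {A B : Type*} [CommRing A] [CommRing B] [Algebra A B]

/-- **Two-chart Cech connectedness lemma.**
`B` plays the role of `B_mid`, `Bfin`, `Binf` are the two charts.  If the `w`-power torsion of
`B / (Bfin + Binf)` is killed by `w ^ c`, `Bfin ∩ Binf` is (the image of) `A`,
`A / w → Bfin / w` is injective and `(w)` is a prime ideal of `A`, then a pair of elements
`e₁ ∈ Bfin`, `e₂ ∈ Binf`, idempotent modulo `w` in their charts and congruent modulo `w` in `B`,
is congruent to `(0, 0)` or to `(1, 1)` modulo `w`. -/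
theorem cech_idempotent_trivial (w : A) (Bfin Binf : Subalgebra A B) (c : ℕ)
    (hH1 : ∀ h : B, algebraMap A B w ^ (c + 1) * h ∈ Bfin.toSubmodule ⊔ Binf.toSubmodule →
      algebraMap A B w ^ c * h ∈ Bfin.toSubmodule ⊔ Binf.toSubmodule)
    (hH0 : ∀ b : B, b ∈ Bfin → b ∈ Binf → ∃ a : A, algebraMap A B a = b)
    (hinj : ∀ a : A, (∃ t ∈ Bfin, algebraMap A B a = algebraMap A B w * t) → w ∣ a)
    (hprime : ∀ a b : A, w ∣ a * b → w ∣ a ∨ w ∣ b)
    (e₁ e₂ : B) (he₁ : e₁ ∈ Bfin) (he₂ : e₂ ∈ Binf)
    (hi₁ : ∃ t ∈ Bfin, e₁ ^ 2 - e₁ = algebraMap A B w * t)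
    (hi₂ : ∃ t ∈ Binf, e₂ ^ 2 - e₂ = algebraMap A B w * t)
    (h₁₂ : ∃ t : B, e₁ - e₂ = algebraMap A B w * t) :
    ((∃ t ∈ Bfin, e₁ = algebraMap A B w * t) ∧ (∃ t ∈ Binf, e₂ = algebraMap A B w * t)) ∨
    ((∃ t ∈ Bfin, 1 - e₁ = algebraMap A B w * t) ∧ (∃ t ∈ Binf, 1 - e₂ = algebraMap A B w * t)) := by
  set W : B := algebraMap A B w with hW
  -- Step 1: lift in the two charts.
  have key : ∀ (C : Subalgebra A B) (e : B) (he : e ∈ C)
      (hi : ∃ t ∈ C, e ^ 2 - e = W * t),
      ∃ f ∈ C, (∃ t ∈ C, f - e = W * t) ∧ ∃ t ∈ C, f ^ 2 - f = W ^ (c + 1) * t := by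
    intro C e he hi
    obtain ⟨t, ht, hte⟩ := hi
    have hw' : (⟨e, he⟩ : C) ^ 2 - ⟨e, he⟩ ∈ Ideal.span {algebraMap A C w} := by
      rw [Ideal.mem_span_singleton]
      refine ⟨⟨t, ht⟩, Subtype.ext ?_⟩
      simpa using hte
    obtain ⟨f, hf1, hf2⟩ := lift_idem_mod_pow (algebraMap A C w) ⟨e, he⟩ hw' (c + 1)
    rw [Ideal.mem_span_singleton] at hf1 hf2
    obtain ⟨s1, hs1⟩ := hf1
    obtain ⟨s2, hs2⟩ := hf2
    refine ⟨f, f.2, ⟨s1, s1.2, ?_⟩, ⟨s2, s2.2, ?_⟩⟩
    · simpa using congrArg Subtype.val hs1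
    · simpa using congrArg Subtype.val hs2
  obtain ⟨f, hfC, ⟨s₁, hs₁C, hs₁⟩, ⟨u₁, hu₁C, hu₁⟩⟩ := key Bfin e₁ he₁ hi₁
  obtain ⟨g, hgC, ⟨s₂, hs₂C, hs₂⟩, ⟨u₂, hu₂C, hu₂⟩⟩ := key Binf e₂ he₂ hi₂
  -- Step 2: compare in `B`.
  obtain ⟨t₁₂, ht₁₂⟩ := h₁₂
  have hfg : f - g ∈ Ideal.span {W ^ (c + 1)} := by
    refine idem_congr_mod_pow W f g (c + 1) ?_ ?_ ?_
    · rw [Ideal.mem_span_singleton]; exact ⟨u₁, hu₁⟩
    · rw [Ideal.mem_span_singleton]; exact ⟨u₂, hu₂⟩
    · rw [Ideal.mem_span_singleton]
      refine ⟨s₁ + t₁₂ - s₂, ?_⟩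
      have : f - g = (f - e₁) + (e₁ - e₂) - (g - e₂) := by ring
      rw [this, hs₁, ht₁₂, hs₂]; ring
  rw [Ideal.mem_span_singleton] at hfg
  obtain ⟨h, hh⟩ := hfg
  -- Step 3: kill the obstruction.
  have hmem : W ^ (c + 1) * h ∈ Bfin.toSubmodule ⊔ Binf.toSubmodule := by
    rw [← hh]
    exact Submodule.sub_mem _ (Submodule.mem_sup_left hfC) (Submodule.mem_sup_right hgC)
  obtain ⟨f', hf'C, g', hg'C, hfg'⟩ := Submodule.mem_sup.1 (hH1 h hmem)
  have hf'C' : f' ∈ Bfin := hf'C
  have hg'C' : g' ∈ Binf := hg'C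
  have hWfin : W ∈ Bfin := Bfin.algebraMap_mem w
  have hWinf : W ∈ Binf := Binf.algebraMap_mem w
  have haeq : f - W * f' = g + W * g' := by
    have h1 : f - g = W * (f' + g') := by
      rw [hh, hfg', pow_succ]; ring
    have : f - W * f' - (g + W * g') = (f - g) - W * (f' + g') := by ring
    rw [← sub_eq_zero, this, h1, sub_self]
  obtain ⟨a, ha⟩ := hH0 (f - W * f') (Bfin.sub_mem hfC (Bfin.mul_mem hWfin hf'C'))
    (by rw [haeq]; exact Binf.add_mem hgC (Binf.mul_mem hWinf hg'C'))
  -- Step 4: `a` is idempotent modulo `w` in `A`.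
  have ha1 : ∃ t ∈ Bfin, algebraMap A B a - e₁ = W * t :=
    ⟨s₁ - f', Bfin.sub_mem hs₁C hf'C', by
      rw [ha]
      have : f - W * f' - e₁ = (f - e₁) - W * f' := by ring
      rw [this, hs₁]; ring⟩
  have ha2 : ∃ t ∈ Binf, algebraMap A B a - e₂ = W * t :=
    ⟨s₂ + g', Binf.add_mem hs₂C hg'C', by
      rw [ha, haeq]
      have : g + W * g' - e₂ = (g - e₂) + W * g' := by ring
      rw [this, hs₂]; ring⟩
  obtain ⟨t₁, ht₁C, ht₁⟩ := ha1
  obtain ⟨t₂, ht₂C, ht₂⟩ := ha2
  obtain ⟨v₁, hv₁C, hv₁⟩ := hi₁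
  have hdvd : w ∣ a * (a - 1) := by
    apply hinj
    refine ⟨v₁ + t₁ * (algebraMap A B a + e₁ - 1), ?_, ?_⟩
    · exact Bfin.add_mem hv₁C (Bfin.mul_mem ht₁C
        (Bfin.sub_mem (Bfin.add_mem (Bfin.algebraMap_mem a) he₁) Bfin.one_mem))
    · have : algebraMap A B (a * (a - 1)) =
          (e₁ ^ 2 - e₁) + (algebraMap A B a - e₁) * (algebraMap A B a + e₁ - 1) := by
        rw [map_mul, map_sub, map_one]; ring
      rw [this, hv₁, ht₁]; ring
  rcases hprime _ _ hdvd with h0 | h1
  · left
    obtain ⟨b, rfl⟩ := h0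
    refine ⟨⟨algebraMap A B b - t₁, Bfin.sub_mem (Bfin.algebraMap_mem b) ht₁C, ?_⟩,
      ⟨algebraMap A B b - t₂, Binf.sub_mem (Binf.algebraMap_mem b) ht₂C, ?_⟩⟩
    · have : e₁ = algebraMap A B (w * b) - (algebraMap A B (w * b) - e₁) := by ring
      rw [this, ht₁, map_mul]; ring
    · have : e₂ = algebraMap A B (w * b) - (algebraMap A B (w * b) - e₂) := by ring
      rw [this, ht₂, map_mul]; ring
  · right
    obtain ⟨b, hb⟩ := h1
    have hab : algebraMap A B a = 1 + W * algebraMap A B b := by
      have : a = 1 + w * b := by rw [← hb]; ring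
      rw [this, map_add, map_one, map_mul]
    refine ⟨⟨t₁ - algebraMap A B b, Bfin.sub_mem ht₁C (Bfin.algebraMap_mem b), ?_⟩,
      ⟨t₂ - algebraMap A B b, Binf.sub_mem ht₂C (Binf.algebraMap_mem b), ?_⟩⟩
    · have : 1 - e₁ = (algebraMap A B a - e₁) - (algebraMap A B a - 1) := by ring
      rw [this, ht₁, hab]; ring
    · have : 1 - e₂ = (algebraMap A B a - e₂) - (algebraMap A B a - 1) := by ring
      rw [this, ht₂, hab]; ring

end Cech

section Torsion

variable {A M : Type*} [CommRing A] [AddCommGroup M] [Module A M]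

/-- Over a noetherian ring, the `w`-power torsion of a finitely generated module is killed by a
single power `w ^ c`. -/
theorem exists_torsion_bound [IsNoetherianRing A] [Module.Finite A M] (w : A) :
    ∃ c : ℕ, ∀ (n : ℕ) (x : M), w ^ n • x = 0 → w ^ c • x = 0 := by
  have hN : IsNoetherian A M := isNoetherian_of_isNoetherianRing_of_finite A M
  let K : ℕ →o Submodule A M :=
    ⟨fun n => LinearMap.ker (LinearMap.lsmul A M (w ^ n)), by
      intro a b hab x hx
      simp only [LinearMap.mem_ker, LinearMap.lsmul_apply] at hx ⊢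
      obtain ⟨d, rfl⟩ := Nat.exists_eq_add_of_le hab
      rw [pow_add, mul_comm, mul_smul, hx, smul_zero]⟩
  have hK : ∀ (n : ℕ) (x : M), x ∈ K n ↔ w ^ n • x = 0 := fun n x => by
    change x ∈ LinearMap.ker (LinearMap.lsmul A M (w ^ n)) ↔ _
    rw [LinearMap.mem_ker, LinearMap.lsmul_apply]
  obtain ⟨c, hc⟩ := monotone_stabilizes_iff_noetherian.2 hN K
  refine ⟨c, fun n x hx => ?_⟩
  rcases le_total n c with hnc | hcn
  · obtain ⟨d, rfl⟩ := Nat.exists_eq_add_of_le hnc
    rw [pow_add, mul_comm, mul_smul, hx, smul_zero]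
  · have h1 : x ∈ K n := (hK n x).2 hx
    have h2 : x ∈ K c := by rw [hc n hcn]; exact h1
    exact (hK c x).1 h2

end Torsion

end Fermat.Agent.S18.H558

end
-- ===== PACK-END S18/H558/Cech.lean

-- ===== PACK-BEGIN S18/B12/Spec.lean
section


/-!
# S18, Route K, pieces b1 + b2 (squad S18/S33, squad-lead helper33) — FROZEN statements

Everything here is Mathlib-only commutative algebra.  Each `def … : Prop` below is a statement to be
proved as `theorem <name> : <Statement>` in `Fermat/Agent/S18/B12/<Owner>/…`.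
See `coord/S18-b1b2.md` (branch `helper33`) for the mathematics and the proof of each piece.

Notation: `R` = DVR `A'` with uniformiser `w`, fraction field `E` (char 0), residue field `k'`;
`B` = normal model, a finite `R[X]`-algebra (chart `B_fin`; the chart `B_inf` is the same thing with
`X = 1/x`).  `(Λ, t)` = a PID with a prime element (`(k'[X], x - c̄)` or `(E[X], x - c)`).
-/

set_option autoImplicit false

noncomputable section

namespace Fermat.Agent.S18.B12

open Polynomial

universe u v

/-- **b1 (regular sequence).**  `B` integrally closed domain, integral over `R[X]` (`R` integrally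
closed domain with `R[X]` integrally closed, e.g. a DVR), `w ≠ 0` a constant, `p` monic.
If `w * b = p * b'` in `B` then `b = p * b''` and `b' = w * b''`.
(So `p` is a non-zero-divisor on `B/wB` and `w` is a non-zero-divisor on `B/pB`.) -/
def RegSeqStatement : Prop :=
  ∀ (R : Type u) [CommRing R] [IsDomain R] [IsIntegrallyClosed R] [IsIntegrallyClosed R[X]]
    (B : Type v) [CommRing B] [IsDomain B] [IsIntegrallyClosed B] [Algebra R[X] B]
    [Algebra.IsIntegral R[X] B] [Module.IsTorsionFree R[X] B]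
    (w : R) (_ : w ≠ 0) (p : R[X]) (_ : p.Monic) (b b' : B),
    algebraMap R[X] B (C w) * b = algebraMap R[X] B p * b' →
    ∃ b'' : B, b = algebraMap R[X] B p * b'' ∧ b' = algebraMap R[X] B (C w) * b''

/-- **b1' (regular sequence, primitive version).**  Same with `p` primitive instead of monic
(`R` a DVR); needed for the primes `π` of `R[X]` in the branch-locus hypothesis. -/
def RegSeqPrimStatement : Prop :=
  ∀ (R : Type u) [CommRing R] [IsDomain R] [IsDiscreteValuationRing R]
    (B : Type v) [CommRing B] [IsDomain B] [IsIntegrallyClosed B] [Algebra R[X] B]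
    [Algebra.IsIntegral R[X] B] [Module.IsTorsionFree R[X] B]
    (w : R) (_ : w ≠ 0) (p : R[X]) (_ : p.IsPrimitive) (b b' : B),
    algebraMap R[X] B (C w) * b = algebraMap R[X] B p * b' →
    ∃ b'' : B, b = algebraMap R[X] B p * b'' ∧ b' = algebraMap R[X] B (C w) * b''

/-- **b2-ζ (reduced basis).**  A finite torsion-free algebra `R₁` over a DVR `R` has a family `y`
which is `R`-linearly independent modulo nilpotents and spans `R₁` modulo nilpotents
(`R₁ / nilradical` is finite free). -/
def RedBasisStatement : Prop :=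
  ∀ (R : Type u) [CommRing R] [IsDomain R] [IsPrincipalIdealRing R]
    (R₁ : Type v) [CommRing R₁] [Algebra R R₁] [Module.Finite R R₁] [Module.IsTorsionFree R R₁],
    ∃ (r : ℕ) (y : Fin r → R₁),
      (∀ a : Fin r → R, IsNilpotent (∑ i, a i • y i) → a = 0) ∧
      (∀ x : R₁, ∃ a : Fin r → R, IsNilpotent (x - ∑ i, a i • y i))

/-- **b2-SF (special fibre, two lattices).**  `Λ` a PID, `t` prime.  `C ≤ Ct` two `Λ`-subalgebras of
a commutative `Λ`-algebra `L`, both free of rank `n`.  If `(C/tC)_red` is spanned by `s` elements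
over `Λ/t` and `t ^ (n - s + 1)` does not divide `disc(C/Λ) ≠ 0`, then `C = Ct` locally at `t`. -/
def SFLatticeStatement : Prop :=
  ∀ (Λ : Type u) [CommRing Λ] [IsDomain Λ] [IsPrincipalIdealRing Λ] (t : Λ) (_ : Prime t)
    (L : Type v) [CommRing L] [Algebra Λ L] (C Ct : Subalgebra Λ L) (_ : C ≤ Ct)
    (n : ℕ) (b : Module.Basis (Fin n) Λ C) (_ : Module.Basis (Fin n) Λ Ct)
    (s : ℕ) (y : Fin s → C)
    (_ : ∀ x : C, ∃ a : Fin s → Λ,
        x - ∑ i, a i • y i ∈ (Ideal.span {algebraMap Λ C t}).radical),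
    Algebra.discr Λ b ≠ 0 → ¬ t ^ (n - s + 1) ∣ Algebra.discr Λ b →
    ∀ x ∈ Ct, ∃ g : Λ, ¬ t ∣ g ∧ g • x ∈ C

/-- **b2-SF' (special fibre, idempotent form).**  Same hypotheses on `C`; `ε ∈ L` idempotent with
`g₀ • ε ∈ C` for some `g₀ ≠ 0`, `L` torsion-free over `Λ`.  Then `g • ε ∈ C` for some `g ∉ (t)`. -/
def SFIdemStatement : Prop :=
  ∀ (Λ : Type u) [CommRing Λ] [IsDomain Λ] [IsPrincipalIdealRing Λ] (t : Λ) (_ : Prime t)
    (L : Type v) [CommRing L] [Algebra Λ L] [Module.IsTorsionFree Λ L] (C : Subalgebra Λ L)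
    (n : ℕ) (b : Module.Basis (Fin n) Λ C)
    (s : ℕ) (y : Fin s → C)
    (_ : ∀ x : C, ∃ a : Fin s → Λ,
        x - ∑ i, a i • y i ∈ (Ideal.span {algebraMap Λ C t}).radical),
    Algebra.discr Λ b ≠ 0 → ¬ t ^ (n - s + 1) ∣ Algebra.discr Λ b →
    ∀ ε : L, ε * ε = ε → (∃ g₀ : Λ, g₀ ≠ 0 ∧ g₀ • ε ∈ C) → ∃ g : Λ, ¬ t ∣ g ∧ g • ε ∈ C

/-- **b2-α (tame discriminant).**  `Λ` a PID, `t` prime with residue field of characteristic `0`
(`ℚ ⊆ Λ`).  `C₀` a Dedekind domain, finite free over `Λ` of rank `n` with basis `β`.  If `y` is a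
family of `r` elements of `C₀` that is `Λ/t`-linearly independent modulo `rad(t C₀)`, then
`t ^ (n - r + 1)` does not divide `disc(β)`.
(Char 0 ⇒ tame: the exponent of `t` in the discriminant is exactly `n - dim (C₀/t)_red`.) -/
def TameDiscrStatement : Prop :=
  ∀ (Λ : Type u) [CommRing Λ] [IsDomain Λ] [IsPrincipalIdealRing Λ] [Algebra ℚ Λ]
    (t : Λ) (_ : Prime t)
    (C₀ : Type v) [CommRing C₀] [IsDomain C₀] [IsDedekindDomain C₀] [Algebra Λ C₀]
    [Module.IsTorsionFree Λ C₀]
    (n : ℕ) (β : Module.Basis (Fin n) Λ C₀) (r : ℕ) (y : Fin r → C₀)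
    (_ : ∀ a : Fin r → Λ,
        (∑ i, a i • y i) ∈ (Ideal.span {algebraMap Λ C₀ t}).radical → ∀ i, t ∣ a i),
    ¬ t ^ (n - r + 1) ∣ Algebra.discr Λ β

/-- **b2 (normality of the special fibre; TOP LEVEL of this squad).**
`R` DVR of characteristic 0, uniformiser `w`; `B` an integrally closed domain, finite over `R[X]`.
* `hsep`: some `n`-tuple of `B` (`n` = generic degree) has discriminant `≢ 0 mod w`
  (the special fibre is generically étale over `k'[x]`);
* `S`: the finite branch values, pairwise distinct mod `w`;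
* `hNC`: for every prime `π` of `R[X]` other than `w` and the `X - c`, `c ∈ S`, the fibre `B/πB`
  is reduced (`F/E(x)` is unramified outside `S ∪ {∞}`).
Conclusion: every idempotent `b/g` of the total fraction ring of `B/wB` lies in `B/wB`. -/
def B2Statement : Prop :=
  ∀ (R : Type u) [CommRing R] [IsDomain R] [IsDiscreteValuationRing R] [CharZero R]
    (w : R) (_ : Irreducible w)
    (B : Type v) [CommRing B] [IsDomain B] [IsIntegrallyClosed B] [Algebra R[X] B]
    [Module.Finite R[X] B] [Module.IsTorsionFree R[X] B]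
    (_ : ∃ x : Fin (Module.finrank R[X] B) → B,
        ¬ C w ∣ (Matrix.of fun i j => Algebra.intTrace R[X] B (x i * x j)).det)
    (S : Finset R) (_ : ∀ c ∈ S, ∀ c' ∈ S, c ≠ c' → IsUnit (c - c'))
    (_ : ∀ π : R[X], Prime π → ¬ Associated π (C w) → (∀ c ∈ S, ¬ Associated π (X - C c)) →
        (Ideal.span {algebraMap R[X] B π}).IsRadical)
    (b : B) (g : R[X]), ¬ C w ∣ g →
      b ^ 2 - algebraMap R[X] B g * b ∈ Ideal.span {algebraMap R[X] B (C w)} →
      ∃ b₀ : B, b - algebraMap R[X] B g * b₀ ∈ Ideal.span {algebraMap R[X] B (C w)}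

end Fermat.Agent.S18.B12

end
end
-- ===== PACK-END S18/B12/Spec.lean

-- ===== PACK-BEGIN S18/H203/IntegralDiv.lean
section


/-!
# S18 / b1 (helper203): divisibility by a prime element in an integral closure

`S` an integrally closed domain with fraction field `K`, `w ∈ S` a prime element, `t ∈ S` with
`w ∤ t`, `F / K` a field extension.  If `w z` and `t z` are integral over `S` for some `z ∈ F`,
then `z` is integral over `S`.

Consequence (`dvd_of_dvd_smul`): in the integral closure `B` of `S` in `F`,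
`w ∣ t • b → w ∣ b`; i.e. `B / w B` is a torsion-free `S / w S`-module
(`(w, t)` is a regular sequence on `B`).
-/

set_option autoImplicit false

namespace Fermat.Agent.S18.H203

open Polynomial

section Prime

variable {S : Type*} [CommRing S] [IsDomain S]

/-- If `w` is prime, `w ∤ t` and `w ^ i ∣ t ^ i * a`, then `w ^ i ∣ a`. -/
theorem pow_dvd_of_pow_dvd_pow_mul {w t : S} (hw : Prime w) (ht : ¬ w ∣ t) (i j : ℕ) {a : S}
    (h : w ^ i ∣ t ^ j * a) : w ^ i ∣ a :=
  hw.pow_dvd_of_dvd_mul_left i (fun h' => ht (hw.dvd_of_dvd_pow h')) h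

end Prime

section Field

variable {S K : Type*} [CommRing S] [IsDomain S] [Field K] [Algebra S K] [IsFractionRing S K]

/-- An element `c` of the fraction field with `w ^ i * c ∈ S` and `t ^ i * c ∈ S`, where `w` is
prime and `w ∤ t`, lies in `S`. -/
theorem mem_range_of_pow_mul_mem {w t : S} (hw : Prime w) (ht : ¬ w ∣ t) (i : ℕ) (c : K)
    (h1 : algebraMap S K w ^ i * c ∈ (algebraMap S K).range)
    (h2 : algebraMap S K t ^ i * c ∈ (algebraMap S K).range) :
    c ∈ (algebraMap S K).range := by
  obtain ⟨a, ha⟩ := h1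
  obtain ⟨a', ha'⟩ := h2
  have hinj : Function.Injective (algebraMap S K) := IsFractionRing.injective S K
  have hw0 : algebraMap S K w ≠ 0 := by
    simpa using (_root_.map_ne_zero_iff _ hinj).mpr hw.ne_zero
  -- `t ^ i * a = w ^ i * a'`
  have hrel : t ^ i * a = w ^ i * a' := by
    apply hinj
    simp only [_root_.map_mul, _root_.map_pow, ha, ha']
    ring
  have hdvd : w ^ i ∣ a := pow_dvd_of_pow_dvd_pow_mul hw ht i i ⟨a', hrel⟩
  obtain ⟨s, rfl⟩ := hdvd
  refine ⟨s, ?_⟩
  have h3 : algebraMap S K w ^ i * algebraMap S K s = algebraMap S K w ^ i * c := by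
    rw [← ha, _root_.map_mul, _root_.map_pow]
  exact mul_left_cancel₀ (pow_ne_zero i hw0) h3

end Field

section Integral

variable {S K F : Type*} [CommRing S] [IsDomain S] [IsIntegrallyClosed S]
  [Field K] [Algebra S K] [IsFractionRing S K]
  [Field F] [Algebra K F] [Algebra S F] [IsScalarTower S K F]

omit [IsIntegrallyClosed S] [IsDomain S] [IsFractionRing S K] in
/-- A monic polynomial over `K` all of whose coefficients lie in `S` is the image of a monic
polynomial over `S`. -/
theorem exists_monic_map_eq {P : K[X]} (hP : P.Monic)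
    (hc : ∀ n, P.coeff n ∈ (algebraMap S K).range) :
    ∃ Q : S[X], Q.Monic ∧ Q.map (algebraMap S K) = P := by
  have hl : P ∈ Polynomial.lifts (algebraMap S K) := by
    rw [Polynomial.lifts_iff_coeff_lifts]
    intro n
    obtain ⟨a, ha⟩ := hc n
    exact ⟨a, ha⟩
  obtain ⟨Q, hQ, -, hQm⟩ := Polynomial.lifts_and_degree_eq_and_monic hl hP
  exact ⟨Q, hQm, hQ⟩

/-- The coefficients of the minimal polynomial over `K` of `a • z` (`a ∈ S` nonzero, `a • z`
integral over `S`) : `coeff i * a ^ (d - i) ∈ S`. -/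
theorem coeff_minpoly_mul_pow_mem {a : S} (ha : a ≠ 0) {z : F} (hz : IsIntegral K z)
    (haz : IsIntegral S (algebraMap S F a * z)) (i : ℕ) :
    (minpoly K z).coeff i * algebraMap S K a ^ ((minpoly K z).natDegree - i) ∈
      (algebraMap S K).range := by
  have hinj : Function.Injective (algebraMap S K) := IsFractionRing.injective S K
  have ha0 : algebraMap S K a ≠ 0 := by
    simpa using (_root_.map_ne_zero_iff _ hinj).mpr ha
  -- minimal polynomial of `a • z` over `K`
  have h1 : minpoly K (algebraMap S K a • z) = (minpoly K z).scaleRoots (algebraMap S K a) :=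
    IsIntegrallyClosed.minpoly_smul ha0 hz
  have h2 : algebraMap S K a • z = algebraMap S F a * z := by
    rw [Algebra.smul_def, ← IsScalarTower.algebraMap_apply]
  rw [h2] at h1
  have h3 : minpoly K (algebraMap S F a * z) =
      (minpoly S (algebraMap S F a * z)).map (algebraMap S K) :=
    minpoly.isIntegrallyClosed_eq_field_fractions' K haz
  have h4 : ((minpoly K z).scaleRoots (algebraMap S K a)).coeff i =
      (minpoly K z).coeff i * algebraMap S K a ^ ((minpoly K z).natDegree - i) :=
    Polynomial.coeff_scaleRoots _ _ _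
  rw [← h4, ← h1, h3, Polynomial.coeff_map]
  exact ⟨_, rfl⟩

/-- **Key lemma.**  If `w z` and `t z` are integral over the integrally closed domain `S`, where
`w` is a prime element and `w ∤ t`, then `z` is integral over `S`. -/
theorem isIntegral_of_isIntegral_mul (K : Type*) [Field K] [Algebra S K] [IsFractionRing S K]
    [Algebra K F] [IsScalarTower S K F] {w t : S} (hw : Prime w) (ht : ¬ w ∣ t) {z : F}
    (h1 : IsIntegral S (algebraMap S F w * z)) (h2 : IsIntegral S (algebraMap S F t * z)) :
    IsIntegral S z := by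
  have hinjK : Function.Injective (algebraMap S K) := IsFractionRing.injective S K
  have hw0 : algebraMap S K w ≠ 0 := by
    simpa using (_root_.map_ne_zero_iff _ hinjK).mpr hw.ne_zero
  have hwF : algebraMap S F w ≠ 0 := by
    rw [IsScalarTower.algebraMap_apply S K F]
    simpa using (_root_.map_ne_zero_iff _ (algebraMap K F).injective).mpr hw0
  have ht0 : t ≠ 0 := fun h => ht (h ▸ dvd_zero w)
  -- `z` is integral (algebraic) over `K`
  have hzK : IsIntegral K z := by
    have h3 : IsIntegral K (algebraMap S F w * z) := h1.tower_top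
    have h4 : IsIntegral K (algebraMap K F (algebraMap S K w)⁻¹) := isIntegral_algebraMap
    have h5 := h4.mul h3
    rw [map_inv₀, ← IsScalarTower.algebraMap_apply S K F, inv_mul_cancel_left₀ hwF] at h5
    exact h5
  -- all coefficients of the minimal polynomial lie in `S`
  have hcoeff : ∀ n, (minpoly K z).coeff n ∈ (algebraMap S K).range := by
    intro n
    have e1 := coeff_minpoly_mul_pow_mem (K := K) hw.ne_zero hzK h1 n
    have e2 := coeff_minpoly_mul_pow_mem (K := K) ht0 hzK h2 n
    rw [mul_comm] at e1 e2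
    exact mem_range_of_pow_mul_mem hw ht _ _ e1 e2
  obtain ⟨Q, hQm, hQ⟩ := exists_monic_map_eq (minpoly.monic hzK) hcoeff
  refine ⟨Q, hQm, ?_⟩
  have h6 : Polynomial.aeval z (Q.map (algebraMap S K)) = 0 := by
    rw [hQ]; exact minpoly.aeval K z
  rwa [Polynomial.aeval_map_algebraMap] at h6

end Integral

end Fermat.Agent.S18.H203

end
-- ===== PACK-END S18/H203/IntegralDiv.lean

-- ===== PACK-BEGIN S18/B12/H84/RegularAlong.lean
section


/-!
# S18 / b2.5 / A9 (helper84): regularity along a Dedekind special fibre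

`regularAlongOfDedekind` = `RegularAlongOfDedekindStatement` of `origin/helper33`
`Fermat/Agent/S18/B12/Spec3.lean`, unfolded (Mathlib-only; the `Spec3`-typed wrapper is
`Fermat/Agent/S18/B12/H84/Stmt.lean`):

if `B/ϖB` is a Dedekind domain, then every maximal ideal `𝔪 ∋ ϖ` of `B` is locally generated by
`ϖ` and one more element `t`: for every `a ∈ 𝔪` there is `s ∉ 𝔪` with `s * a ∈ (ϖ, t)`.

Generic core: `exists_local_generator` (a maximal ideal of a Dedekind domain is locally
principal, elementwise form).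
-/

set_option autoImplicit false

namespace Fermat.Agent.S18.B12.H84

universe u

/-- A maximal ideal `M` of a Dedekind domain is locally principal: there is `t ∈ M` and for
every `a ∈ M` an `s ∉ M` with `s * a ∈ (t)`.  (Elementwise form; `s` may even be chosen
independently of `a`.) -/
theorem exists_local_generator {D : Type u} [CommRing D] [IsDedekindDomain D]
    (M : Ideal D) (hM : M.IsMaximal) :
    ∃ t ∈ M, ∃ s : D, s ∉ M ∧ ∀ a ∈ M, s * a ∈ Ideal.span {t} := by
  by_cases h0 : M = ⊥
  · refine ⟨0, M.zero_mem, 1, ?_, ?_⟩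
    · exact (Ideal.ne_top_iff_one M).mp hM.ne_top
    · intro a ha
      rw [h0, Ideal.mem_bot] at ha
      rw [ha, mul_zero]
      exact Ideal.zero_mem _
  · obtain ⟨t, ht1, ht2⟩ := Ideal.exists_mem_pow_notMem_pow_succ M h0 hM.ne_top 1
    rw [pow_one] at ht1
    have hle : Ideal.span {t} ≤ M := (Ideal.span_singleton_le_iff_mem M).mpr ht1
    obtain ⟨J, hJ⟩ := Ideal.dvd_iff_le.mpr hle
    have hJM : ¬ J ≤ M := by
      intro hJM
      apply ht2
      have h1 : Ideal.span {t} ≤ M * M := by
        rw [hJ]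
        exact Ideal.mul_mono_right hJM
      have h2 : t ∈ M * M := h1 (Ideal.mem_span_singleton_self t)
      simpa [pow_succ] using h2
    obtain ⟨s, hsJ, hsM⟩ := SetLike.not_le_iff_exists.mp hJM
    refine ⟨t, ht1, s, hsM, fun a ha => ?_⟩
    rw [hJ, mul_comm s a]
    exact Ideal.mul_mem_mul ha hsJ

/-- **A9** (`RegularAlongOfDedekindStatement`, unfolded). -/
theorem regularAlongOfDedekind (B : Type u) [CommRing B] (ϖ : B)
    (hD : IsDedekindDomain (B ⧸ Ideal.span {ϖ})) (𝔪 : Ideal B) (h𝔪 : 𝔪.IsMaximal)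
    (hϖ : ϖ ∈ 𝔪) :
    ∃ t ∈ 𝔪, ∀ a ∈ 𝔪, ∃ s : B, s ∉ 𝔪 ∧ s * a ∈ Ideal.span {ϖ, t} := by
  let q : B →+* B ⧸ Ideal.span {ϖ} := Ideal.Quotient.mk (Ideal.span {ϖ})
  have hq : Function.Surjective q := Ideal.Quotient.mk_surjective
  have hker : RingHom.ker q = Ideal.span {ϖ} := Ideal.mk_ker
  have hkerle : RingHom.ker q ≤ 𝔪 := by
    rw [hker]
    exact (Ideal.span_singleton_le_iff_mem 𝔪).mpr hϖ
  have hcomap : (𝔪.map q).comap q = 𝔪 := by
    rw [Ideal.comap_map_of_surjective q hq]
    refine le_antisymm (sup_le le_rfl ?_) le_sup_left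
    rw [← RingHom.ker_eq_comap_bot]
    exact hkerle
  have hmax : (𝔪.map q).IsMaximal := by
    rcases Ideal.map_eq_top_or_isMaximal_of_surjective q hq h𝔪 with h | h
    · exfalso
      apply h𝔪.ne_top
      rw [← hcomap, h, Ideal.comap_top]
    · exact h
  obtain ⟨tbar, htbar, sbar, hsbar, hall⟩ := exists_local_generator (𝔪.map q) hmax
  obtain ⟨t, rfl⟩ := hq tbar
  obtain ⟨s, rfl⟩ := hq sbar
  have ht : t ∈ 𝔪 := by
    rw [← hcomap]
    exact Ideal.mem_comap.mpr htbar
  have hs : s ∉ 𝔪 := fun h => hsbar (Ideal.mem_map_of_mem q h)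
  refine ⟨t, ht, fun a ha => ⟨s, hs, ?_⟩⟩
  have h1 : q s * q a ∈ Ideal.span {q t} := hall (q a) (Ideal.mem_map_of_mem q ha)
  obtain ⟨cbar, hc⟩ := Ideal.mem_span_singleton'.mp h1
  obtain ⟨c, rfl⟩ := hq cbar
  have h2 : s * a - c * t ∈ Ideal.span {ϖ} := by
    rw [← hker, RingHom.mem_ker, map_sub, map_mul, map_mul, hc, sub_self]
  have h3 : s * a = (s * a - c * t) + c * t := by ring
  rw [h3]
  refine Ideal.add_mem _ ?_ ?_
  · exact Ideal.span_mono (by simp) h2
  · exact Ideal.mul_mem_left _ c (Ideal.subset_span (by simp))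

end Fermat.Agent.S18.B12.H84

end
-- ===== PACK-END S18/B12/H84/RegularAlong.lean

-- ===== PACK-BEGIN S18/B12/H84/IntClosed.lean
section


/-!
# S18 / b2.5 / A8 (helper84): normality from the discriminant bounds

`intClosedOfDiscr_of_sfLattice : SFLatticeHyp → (IntClosedOfDiscrStatement, unfolded)`,
Mathlib-only; `SFLatticeHyp` is a verbatim copy of `SFLatticeStatement` of `origin/helper33`
`Fermat/Agent/S18/B12/Spec.lean`.  The `Spec`-typed wrapper
`SFLatticeStatement → IntClosedOfDiscrStatement` is `Fermat/Agent/S18/B12/H84/Stmt.lean`.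

`Λ` a PID, `C` a domain, free of rank `n` over `Λ` with `disc ≠ 0`, such that at every prime `t`
of `Λ` the reduced fibre `(C/tC)_red` is spanned by `s` elements and `t ^ (n - s + 1) ∤ disc`.
Then `C` is integrally closed.

Proof: for `f ∈ Frac C` integral over `C`, the ring `C[f]` is a free `Λ`-module of rank `n`
containing `C`; Theorem L (`SFLatticeStatement`) gives for every prime `t` a denominator
`g ∉ (t)` with `g f ∈ C`; the ideal of denominators of `f` contains a nonzero element and lies in
no maximal ideal of the PID `Λ`, so it is the unit ideal.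
-/

set_option autoImplicit false

namespace Fermat.Agent.S18.B12.H84

universe u v

/-- In a PID, an ideal containing a nonzero element and, for every prime `t`, an element not
divisible by `t`, is the unit ideal. -/
theorem ideal_eq_top_of_forall_prime {Λ : Type u} [CommRing Λ] [IsDomain Λ]
    [IsPrincipalIdealRing Λ] (I : Ideal Λ) (h0 : ∃ d ∈ I, d ≠ 0)
    (h : ∀ t : Λ, Prime t → ∃ g ∈ I, ¬ t ∣ g) : I = ⊤ := by
  by_contra hI
  obtain ⟨𝔭, h𝔭, hle⟩ := Ideal.exists_le_maximal I hI
  have hgen : Ideal.span {Submodule.IsPrincipal.generator 𝔭} = 𝔭 :=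
    Ideal.span_singleton_generator 𝔭
  set t := Submodule.IsPrincipal.generator 𝔭 with ht_def
  by_cases ht : t = 0
  · obtain ⟨d, hd, hd0⟩ := h0
    have h1 : d ∈ 𝔭 := hle hd
    rw [← hgen, ht, Ideal.mem_span_singleton, zero_dvd_iff] at h1
    exact hd0 h1
  · have hp : Prime t := by
      rw [← Ideal.span_singleton_prime ht, hgen]
      exact h𝔭.isPrime
    obtain ⟨g, hg, hgt⟩ := h t hp
    have h1 : g ∈ 𝔭 := hle hg
    rw [← hgen, Ideal.mem_span_singleton] at h1
    exact hgt h1

/-- Every element of the fraction field of a domain `C` algebraic over `Λ` has a nonzero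
denominator in `Λ`. -/
theorem exists_smul_mem_range {Λ : Type u} [CommRing Λ] [IsDomain Λ] {C : Type v} [CommRing C]
    [IsDomain C] [Algebra Λ C] [Algebra.IsAlgebraic Λ C] (x : FractionRing C) :
    ∃ d : Λ, d ≠ 0 ∧ ∃ c : C, d • x = algebraMap C (FractionRing C) c := by
  obtain ⟨a, b, hb, rfl⟩ := IsFractionRing.div_surjective C x
  have hb0 : b ≠ 0 := nonZeroDivisors.ne_zero hb
  obtain ⟨r, hr, c, hc⟩ := (Algebra.IsAlgebraic.isAlgebraic (R := Λ) b).exists_nonzero_dvd hb
  refine ⟨r, hr, c * a, ?_⟩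
  have hbK : algebraMap C (FractionRing C) b ≠ 0 := by
    intro h
    exact hb0 ((IsFractionRing.injective C (FractionRing C)) (h.trans (map_zero _).symm))
  rw [Algebra.smul_def, IsScalarTower.algebraMap_apply Λ C (FractionRing C), hc, map_mul, map_mul]
  field_simp

/-- Verbatim copy of `B12.SFLatticeStatement` (Theorem L, two-lattice form). -/
def SFLatticeHyp : Prop :=
  ∀ (Λ : Type u) [CommRing Λ] [IsDomain Λ] [IsPrincipalIdealRing Λ] (t : Λ) (_ : Prime t)
    (L : Type v) [CommRing L] [Algebra Λ L] (C Ct : Subalgebra Λ L) (_ : C ≤ Ct)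
    (n : ℕ) (b : Module.Basis (Fin n) Λ C) (_ : Module.Basis (Fin n) Λ Ct)
    (s : ℕ) (y : Fin s → C)
    (_ : ∀ x : C, ∃ a : Fin s → Λ,
        x - ∑ i, a i • y i ∈ (Ideal.span {algebraMap Λ C t}).radical),
    Algebra.discr Λ b ≠ 0 → ¬ t ^ (n - s + 1) ∣ Algebra.discr Λ b →
    ∀ x ∈ Ct, ∃ g : Λ, ¬ t ∣ g ∧ g • x ∈ C

/-- **A8** from Theorem L: `SFLatticeStatement → IntClosedOfDiscrStatement` (unfolded). -/
theorem intClosedOfDiscr_of_sfLattice (hSF : SFLatticeHyp.{u, v})
    (Λ : Type u) [CommRing Λ] [IsDomain Λ] [IsPrincipalIdealRing Λ]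
    (C : Type v) [CommRing C] [IsDomain C] [Algebra Λ C] (n : ℕ) (b : Module.Basis (Fin n) Λ C)
    (hdisc : Algebra.discr Λ b ≠ 0)
    (hbound : ∀ t : Λ, Prime t → ∃ (s : ℕ) (y : Fin s → C),
      (∀ c : C, ∃ a : Fin s → Λ,
        c - ∑ i, a i • y i ∈ (Ideal.span {algebraMap Λ C t}).radical) ∧
      ¬ t ^ (n - s + 1) ∣ Algebra.discr Λ b) :
    IsIntegrallyClosed C := by
  classical
  have : Module.Free Λ C := Module.Free.of_basis b
  have : Module.Finite Λ C := Module.Finite.of_basis b
  have hinj : Function.Injective (algebraMap Λ C) := FaithfulSMul.algebraMap_injective Λ C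
  have : Algebra.IsIntegral Λ C := Algebra.IsIntegral.of_finite Λ C
  have : Algebra.IsAlgebraic Λ C := Algebra.IsIntegral.isAlgebraic
  have hinjK : Function.Injective (algebraMap Λ (FractionRing C)) := by
    rw [IsScalarTower.algebraMap_eq Λ C (FractionRing C)]
    exact (IsFractionRing.injective C (FractionRing C)).comp hinj
  have htfK : Module.IsTorsionFree Λ (FractionRing C) := by
    refine Module.IsTorsionFree.of_smul_eq_zero fun r m hrm => ?_
    rw [Algebra.smul_def, mul_eq_zero] at hrm
    rcases hrm with h | h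
    · exact Or.inl (hinjK (h.trans (map_zero _).symm))
    · exact Or.inr h
  refine (isIntegrallyClosed_iff (FractionRing C)).mpr fun {f} hf => ?_
  have hfΛ : IsIntegral Λ f := isIntegral_trans f hf
  -- the two lattices
  let φ : C →ₐ[Λ] FractionRing C := IsScalarTower.toAlgHom Λ C (FractionRing C)
  have hφ : Function.Injective φ := IsFractionRing.injective C (FractionRing C)
  let e : C ≃ₐ[Λ] φ.range := AlgEquiv.ofInjective φ hφ
  have hle : φ.range ≤ φ.range ⊔ Algebra.adjoin Λ {f} := le_sup_left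
  have hfCt : f ∈ φ.range ⊔ Algebra.adjoin Λ {f} :=
    (le_sup_right : Algebra.adjoin Λ {f} ≤ φ.range ⊔ Algebra.adjoin Λ {f})
      (Algebra.self_mem_adjoin_singleton Λ f)
  have : Module.Finite Λ φ.range := Module.Finite.equiv e.toLinearEquiv
  have : Module.Finite Λ (Algebra.adjoin Λ {f}) :=
    Module.Finite.iff_fg.mpr hfΛ.fg_adjoin_singleton
  have hfinCt : Module.Finite Λ ↥(φ.range ⊔ Algebra.adjoin Λ {f}) := Subalgebra.finite_sup _ _
  have : Module.IsTorsionFree Λ ↥(φ.range ⊔ Algebra.adjoin Λ {f}) :=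
    Function.Injective.moduleIsTorsionFree
      (fun z : ↥(φ.range ⊔ Algebra.adjoin Λ {f}) => (z : FractionRing C))
      Subtype.val_injective (fun _ _ => rfl)
  have : Module.Free Λ ↥(φ.range ⊔ Algebra.adjoin Λ {f}) :=
    Module.free_of_finite_type_torsion_free'
  have hrank0 : Module.finrank Λ φ.range = n := by
    rw [← e.toLinearEquiv.finrank_eq, Module.finrank_eq_card_basis b, Fintype.card_fin]
  -- a common denominator
  have hd : ∃ d : Λ, d ≠ 0 ∧ ∀ x ∈ φ.range ⊔ Algebra.adjoin Λ {f}, d • x ∈ φ.range := by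
    have hfg : (Subalgebra.toSubmodule (φ.range ⊔ Algebra.adjoin Λ {f})).FG :=
      Module.Finite.iff_fg.mp hfinCt
    obtain ⟨S, hS⟩ := hfg
    choose dx hdx0 cx hcx using fun x : FractionRing C => exists_smul_mem_range (Λ := Λ) x
    refine ⟨∏ x ∈ S, dx x, Finset.prod_ne_zero_iff.mpr fun x _ => hdx0 x, fun x hx => ?_⟩
    have hx' : x ∈ Submodule.span Λ (S : Set (FractionRing C)) := by
      rw [hS]; exact hx
    refine Submodule.span_induction (p := fun z _ => (∏ x ∈ S, dx x) • z ∈ φ.range)
      ?_ ?_ ?_ ?_ hx'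
    · intro z hz
      have hzS : z ∈ S := hz
      rw [← Finset.mul_prod_erase S dx hzS, mul_comm, mul_smul, hcx z]
      have hmem : algebraMap C (FractionRing C) (cx z) ∈ φ.range := ⟨cx z, rfl⟩
      exact Subalgebra.smul_mem _ hmem _
    · rw [smul_zero]; exact Subalgebra.zero_mem _
    · intro y z _ _ hy hz
      rw [smul_add]; exact Subalgebra.add_mem _ hy hz
    · intro a y _ hy
      rw [smul_comm]; exact Subalgebra.smul_mem _ hy _
  obtain ⟨d, hd0, hd⟩ := hd
  have hrank : Module.finrank Λ ↥(φ.range ⊔ Algebra.adjoin Λ {f}) = n := by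
    apply le_antisymm
    · rw [← hrank0]
      let μ : ↥(φ.range ⊔ Algebra.adjoin Λ {f}) →ₗ[Λ] φ.range :=
        { toFun := fun z => ⟨d • (z : FractionRing C), hd z z.2⟩
          map_add' := fun y z => Subtype.ext (smul_add d (y : FractionRing C) z)
          map_smul' := fun a z => Subtype.ext (smul_comm d a (z : FractionRing C)) }
      have hμ : Function.Injective μ := by
        intro y z hyz
        have h1 : d • (y : FractionRing C) = d • (z : FractionRing C) :=
          congrArg Subtype.val hyz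
        exact Subtype.ext (smul_right_injective (FractionRing C) hd0 h1)
      exact LinearMap.finrank_le_finrank_of_injective hμ
    · rw [← hrank0]
      exact LinearMap.finrank_le_finrank_of_injective
        (f := (Subalgebra.inclusion hle).toLinearMap) (Subalgebra.inclusion_injective hle)
  let bt : Module.Basis (Fin n) Λ ↥(φ.range ⊔ Algebra.adjoin Λ {f}) :=
    Module.finBasisOfFinrankEq Λ _ hrank
  let b₀ : Module.Basis (Fin n) Λ φ.range := b.map e.toLinearEquiv
  have hdisc₀ : Algebra.discr Λ b₀ = Algebra.discr Λ b := by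
    rw [Algebra.discr_eq_discr_of_algEquiv b e]
    congr 1
  -- the ideal of denominators
  let I : Ideal Λ :=
    { carrier := {g | g • f ∈ φ.range}
      add_mem' := fun {g h} hg hh => by
        change (g + h) • f ∈ φ.range
        rw [add_smul]; exact Subalgebra.add_mem _ hg hh
      zero_mem' := by
        change (0 : Λ) • f ∈ φ.range
        rw [zero_smul]; exact Subalgebra.zero_mem _
      smul_mem' := fun a g hg => by
        change (a • g) • f ∈ φ.range
        rw [smul_assoc]; exact Subalgebra.smul_mem _ hg _ }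
  have hI : I = ⊤ := by
    refine ideal_eq_top_of_forall_prime I ⟨d, hd f hfCt, hd0⟩ fun t ht => ?_
    obtain ⟨s, y, hy, hnd⟩ := hbound t ht
    have hy₀ : ∀ x : φ.range, ∃ a : Fin s → Λ,
        x - ∑ i, a i • e (y i) ∈ (Ideal.span {algebraMap Λ φ.range t}).radical := by
      intro x
      obtain ⟨a, ha⟩ := hy (e.symm x)
      refine ⟨a, ?_⟩
      obtain ⟨k, hk⟩ := ha
      obtain ⟨z, hz⟩ := Ideal.mem_span_singleton'.mp hk
      refine ⟨k, Ideal.mem_span_singleton'.mpr ⟨e z, ?_⟩⟩
      have h1 := congrArg e hz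
      rw [map_mul, map_pow, map_sub, map_sum, AlgEquiv.apply_symm_apply, AlgEquiv.commutes] at h1
      rw [h1]
      congr 2
      exact Finset.sum_congr rfl fun i _ => map_smul e (a i) (y i)
    obtain ⟨g, hgt, hg⟩ := hSF Λ t ht (FractionRing C) φ.range (φ.range ⊔ Algebra.adjoin Λ {f})
      hle n b₀ bt s (fun i => e (y i)) hy₀ (hdisc₀ ▸ hdisc) (hdisc₀ ▸ hnd) f hfCt
    exact ⟨g, hg, hgt⟩
  have h1 : (1 : Λ) ∈ I := by rw [hI]; exact Submodule.mem_top
  have h2 : (1 : Λ) • f ∈ φ.range := h1
  rw [one_smul] at h2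
  obtain ⟨c, hc⟩ := h2
  exact ⟨c, hc⟩

end Fermat.Agent.S18.B12.H84

end
-- ===== PACK-END S18/B12/H84/IntClosed.lean

-- ===== PACK-BEGIN S18/H425/HsepDvd.lean
section


/-!
# S18 / b2.5 HSEP (helper425): divisibility descends along an integral extension of an
integrally closed domain

`dvd_of_algebraMap_dvd`: `Λ` integrally closed domain, `B` a domain, integral and torsion-free
over `Λ`.  If `algebraMap w ∣ algebraMap s` in `B` (`w ≠ 0`) then `w ∣ s` in `Λ`.
Mathlib-only.
-/

set_option autoImplicit false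

namespace Fermat.Agent.S18.H425

theorem dvd_of_algebraMap_dvd {Λ B : Type*} [CommRing Λ] [IsDomain Λ] [IsIntegrallyClosed Λ]
    [CommRing B] [IsDomain B] [Algebra Λ B] [Algebra.IsIntegral Λ B] [Module.IsTorsionFree Λ B]
    {w s : Λ} (hw : w ≠ 0) (h : algebraMap Λ B w ∣ algebraMap Λ B s) : w ∣ s := by
  obtain ⟨b, hb⟩ := h
  have hinj : Function.Injective (algebraMap Λ B) := FaithfulSMul.algebraMap_injective Λ B
  let K := FractionRing Λ
  let L := FractionRing B
  let _ : Algebra K L := FractionRing.liftAlgebra Λ L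
  have hwK : algebraMap Λ K w ≠ 0 := by
    simpa using (IsFractionRing.injective Λ K).ne hw
  -- the element `s / w` of `K` maps to `b` in `L`
  have hb' : algebraMap K L (algebraMap Λ K s / algebraMap Λ K w) = algebraMap B L b := by
    rw [map_div₀, ← IsScalarTower.algebraMap_apply, ← IsScalarTower.algebraMap_apply,
      IsScalarTower.algebraMap_apply Λ B L s, IsScalarTower.algebraMap_apply Λ B L w, hb, map_mul]
    rw [mul_div_assoc, mul_comm, div_mul_cancel₀]
    · rw [← IsScalarTower.algebraMap_apply, IsScalarTower.algebraMap_apply Λ K L]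
      exact (map_ne_zero_iff _ (algebraMap K L).injective).mpr hwK
  have hbint : IsIntegral Λ (algebraMap B L b) := (Algebra.IsIntegral.isIntegral b).algebraMap
  rw [← hb'] at hbint
  have hint : IsIntegral Λ (algebraMap Λ K s / algebraMap Λ K w) :=
    (isIntegral_algebraMap_iff (algebraMap K L).injective).mp hbint
  obtain ⟨c, hc⟩ := IsIntegrallyClosed.algebraMap_eq_of_integral hint
  refine ⟨c, ?_⟩
  apply IsFractionRing.injective Λ K
  rw [map_mul, hc, mul_div_cancel₀ _ hwK]

end Fermat.Agent.S18.H425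

end
-- ===== PACK-END S18/H425/HsepDvd.lean

-- ===== PACK-BEGIN S56/P3/Defs.lean
section




/-!
# S56, piece P3 (finite group theory behind Taylor–Wiles primes) : definitions

Sub-architect: helper306.  Plan: `origin/helper306:coord/S56-P3.md`.

`M = ad⁰ρ̄(1)` is realised CONCRETELY as the trace-zero endomorphisms of `V` with the twisted
adjoint action `g • A = det(ρ g) • (ρ g * A * ρ g⁻¹)` (recall `det ρ̄ = ω`, the mod `p` cyclotomic
character, so the twist by `det` IS the Tate twist).  Cocycles are plain functions `Γ → End V`.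
-/

set_option autoImplicit false

open Polynomial

namespace Fermat.Agent.S56.P3

/-- `Gal(ℚ̄/ℚ)`. -/
abbrev GQ : Type := AlgebraicClosure ℚ ≃ₐ[ℚ] AlgebraicClosure ℚ

section EndForm

variable {k : Type} [Field k] {V : Type} [AddCommGroup V] [Module k V] [Module.Finite k V]
variable {Γ : Type} [Group Γ]

/-- The twisted adjoint action `g • A = det(ρ g) • (ρ g * A * ρ g⁻¹)` on `End V`. -/
noncomputable def twEnd (ρ : Γ →* Module.End k V) (g : Γ) (A : Module.End k V) :
    Module.End k V :=
  LinearMap.det (ρ g) • (ρ g * A * ρ g⁻¹)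

/-- `ψ : Γ → End V` is a 1-cocycle with values in `ad⁰ρ(1)`. -/
structure IsTwCocycle (ρ : Γ →* Module.End k V) (ψ : Γ → Module.End k V) : Prop where
  trace_zero : ∀ g, LinearMap.trace k V (ψ g) = 0
  map_mul : ∀ g h, ψ (g * h) = ψ g + twEnd ρ g (ψ h)

/-- `ψ` is a 1-coboundary with values in `ad⁰ρ(1)`. -/
def IsTwCoboundary (ρ : Γ →* Module.End k V) (ψ : Γ → Module.End k V) : Prop :=
  ∃ m : Module.End k V, LinearMap.trace k V m = 0 ∧ ∀ g, ψ g = twEnd ρ g m - m

/-- `ρ σ` has two DISTINCT eigenvalues in `k`. -/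
def IsRegular (ρ : Γ →* Module.End k V) (σ : Γ) : Prop :=
  ∃ α β : k, α ≠ β ∧ LinearMap.charpoly (ρ σ) = (X - C α) * (X - C β)

/-- `ψ σ ∈ (σ - 1) ad⁰ρ(1)`. -/
def InRange (ρ : Γ →* Module.End k V) (ψ : Γ → Module.End k V) (σ : Γ) : Prop :=
  ∃ m : Module.End k V, LinearMap.trace k V m = 0 ∧ ψ σ = twEnd ρ σ m - m

/-- `σ` is a Taylor–Wiles element for the cocycle `ψ`: `ρ σ` has distinct eigenvalues in `k`,
`det ρ σ = 1`, and `ψ σ ∉ (σ - 1) ad⁰ρ(1)`. -/
def IsTWElement (ρ : Γ →* Module.End k V) (ψ : Γ → Module.End k V) (σ : Γ) : Prop :=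
  _root_.Fermat.Agent.S56.P3.IsRegular ρ σ ∧ LinearMap.det (ρ σ) = 1 ∧ ¬ InRange ρ ψ σ

/-- The abstract hypotheses of S56 on `ρ̄` (`p` odd prime, `k` of characteristic `p`):
absolutely irreducible, irreducible on every subgroup of index 2 over every extension field,
all eigenvalues in `k`. -/
structure TWHyp (ρ : Γ →* Module.End k V) (p : ℕ) : Prop where
  finrank_eq : Module.finrank k V = 2
  char_p : (p : k) = 0
  absIrr : ∀ W : Submodule (AlgebraicClosure k) (TensorProduct k (AlgebraicClosure k) V),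
    (∀ g : Γ, ∀ x ∈ W, (ρ g).baseChange (AlgebraicClosure k) x ∈ W) → W = ⊥ ∨ W = ⊤
  tw : ∀ (K : Type) [Field K] [Algebra k K] (G : Subgroup Γ), G.index = 2 →
    ∀ W : Submodule K (TensorProduct k K V),
      (∀ g ∈ G, ∀ x ∈ W, (ρ g).baseChange K x ∈ W) → W = ⊥ ∨ W = ⊤
  split : ∀ g : Γ, ∃ α β : k, LinearMap.charpoly (ρ g) = (X - C α) * (X - C β)

end EndForm

section Galois

/-- `σ` fixes all `p^(n+1)`-th roots of unity (i.e. `σ ∈ G_{ℚ(ζ_{p^(n+1)})}`). -/
def FixesRoots (p n : ℕ) (σ : _root_.Fermat.Agent.S56.P3.GQ) : Prop :=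
  ∀ μ : AlgebraicClosure ℚ, μ ^ p ^ (n + 1) = 1 → σ μ = μ

/-- The subgroup `G_{ℚ(ζ_{p^(n+1)})}` of `G_ℚ`. -/
def fixRootsSubgroup (p n : ℕ) : Subgroup _root_.Fermat.Agent.S56.P3.GQ where
  carrier := {σ | FixesRoots p n σ}
  mul_mem' := by
    intro a b ha hb μ hμ
    rw [AlgEquiv.mul_apply, hb μ hμ, ha μ hμ]
  one_mem' := fun _ _ => rfl
  inv_mem' := by
    intro a ha μ hμ
    have h := ha μ hμ
    calc a⁻¹ μ = a⁻¹ (a μ) := by rw [h]
      _ = μ := by
        show a.symm (a μ) = μ
        exact a.symm_apply_apply μ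

@[simp] lemma mem_fixRootsSubgroup {p n : ℕ} {σ : _root_.Fermat.Agent.S56.P3.GQ} :
    σ ∈ fixRootsSubgroup p n ↔ FixesRoots p n σ := Iff.rfl

end Galois

end Fermat.Agent.S56.P3

end
-- ===== PACK-END S56/P3/Defs.lean

-- ===== PACK-BEGIN S13/H175/InertiaLift.lean
section


set_option autoImplicit false

/-!
# Lifting inertia elements along a closed normal subgroup of a profinite group

`G` profinite acting continuously on a discrete commutative ring `B`, `N` a closed normal
subgroup, `Q` a prime of `B`.  If `g₀ ∈ G` acts trivially modulo `Q` on the `N`-invariants of `B`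
then there is `σ ∈ g₀ N` acting trivially modulo `Q` on all of `B`.
-/

open scoped Pointwise

namespace Fermat.Agent.S13.H175

universe u

section

variable {B : Type*} [CommRing B]
variable {G : Type u} [Group G] [MulSemiringAction G B]

theorem isInvariant_fixedPoints (N : Subgroup G) :
    Algebra.IsInvariant (FixedPoints.subalgebra ℤ B N) B N :=
  ⟨fun b hb => ⟨⟨b, fun n => hb n⟩, rfl⟩⟩

theorem smul_mem_fixedPoints (N : Subgroup G) [hn : N.Normal] (g : G) {x : B}
    (hx : ∀ n ∈ N, n • x = x) : ∀ n ∈ N, n • (g • x) = g • x := by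
  intro n hnN
  have h1 : g⁻¹ * n * g ∈ N := by
    have := hn.conj_mem n hnN g⁻¹
    simpa using this
  have h2 := hx _ h1
  calc n • (g • x) = g • ((g⁻¹ * n * g) • x) := by
        simp [mul_smul]
    _ = g • x := by rw [h2]

end

variable {B : Type*} [CommRing B]
variable {G : Type u} [Group G] [MulSemiringAction G B]
variable [TopologicalSpace G] [CompactSpace G] [TotallyDisconnectedSpace G]
variable [IsTopologicalGroup G] [TopologicalSpace B] [DiscreteTopology B] [ContinuousSMul G B]

theorem exists_inertia_lift (N : Subgroup G) [hn : N.Normal] (hN : IsClosed (N : Set G))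
    (Q : Ideal B) [hQ : Q.IsPrime] (g₀ : G)
    (h₀ : ∀ x : B, (∀ n ∈ N, n • x = x) → g₀ • x - x ∈ Q) :
    ∃ σ : G, g₀⁻¹ * σ ∈ N ∧ ∀ x : B, σ • x - x ∈ Q := by
  have : CompactSpace N := isCompact_iff_compactSpace.mp hN.isCompact
  have := isInvariant_fixedPoints (B := B) N
  -- Step 1: move `g₀ • Q` back to `Q` by an element of `N`.
  have hunder : (g₀ • Q).under (FixedPoints.subalgebra ℤ B N) =
      Q.under (FixedPoints.subalgebra ℤ B N) := by
    ext ⟨x, hx⟩
    have hx' : ∀ n ∈ N, n • x = x := fun n hn' => hx ⟨n, hn'⟩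
    simp only [Ideal.mem_comap]
    show x ∈ g₀ • Q ↔ x ∈ Q
    rw [Ideal.mem_pointwise_smul_iff_inv_smul_mem]
    have hy : ∀ n ∈ N, n • (g₀⁻¹ • x) = g₀⁻¹ • x := smul_mem_fixedPoints N g₀⁻¹ hx'
    have h1 := h₀ _ hy
    rw [smul_inv_smul] at h1
    constructor
    · intro h
      have := Q.add_mem h1 h
      simpa using this
    · intro h
      have := Q.sub_mem h h1
      simpa using this
  obtain ⟨n, hn1⟩ := Algebra.IsInvariant.exists_smul_of_under_eq_of_profinite
    (A := FixedPoints.subalgebra ℤ B N) (G := N) (g₀ • Q) Q hunder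
  -- `g₁ = n g₀` stabilises `Q` and still acts trivially mod `Q` on the `N`-invariants
  set g₁ : G := (n : G) * g₀ with hg₁
  have hg₁Q : g₁ • Q = Q := by
    rw [hg₁, mul_smul]
    exact hn1.symm
  have hg₁fix : ∀ x : B, (∀ m ∈ N, m • x = x) → g₁ • x - x ∈ Q := by
    intro x hx
    have h1 : (n : G) • (g₀ • x) = g₀ • x := smul_mem_fixedPoints N g₀ hx n n.2
    rw [hg₁, mul_smul, h1]
    exact h₀ x hx
  -- Step 2: the automorphism of `B ⧸ Q` induced by `g₁` is `B' ⧸ Q'`-linear
  let e₀ : (B ⧸ Q) ≃ₐ[ℤ ⧸ Q.under ℤ] (B ⧸ Q) :=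
    Ideal.Quotient.stabilizerHom Q (Q.under ℤ) G ⟨g₁, hg₁Q⟩
  have he₀ : ∀ x : B, e₀ (Ideal.Quotient.mk Q x) = Ideal.Quotient.mk Q (g₁ • x) := fun x => rfl
  let e : (B ⧸ Q) ≃ₐ[FixedPoints.subalgebra ℤ B N ⧸ Q.under (FixedPoints.subalgebra ℤ B N)]
      (B ⧸ Q) :=
    AlgEquiv.ofRingEquiv (f := e₀.toRingEquiv) (by
      intro x
      obtain ⟨⟨b, hb⟩, rfl⟩ := Ideal.Quotient.mk_surjective x
      have hb' : ∀ m ∈ N, m • b = b := fun m hm => hb ⟨m, hm⟩
      show e₀ (Ideal.Quotient.mk Q b) = Ideal.Quotient.mk Q b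
      rw [he₀, Ideal.Quotient.eq]
      exact hg₁fix b hb')
  obtain ⟨n', hn'⟩ := Ideal.Quotient.stabilizerHom_surjective_of_profinite (G := N)
    (Q.under (FixedPoints.subalgebra ℤ B N)) Q e
  have hn'Q : (n' : N) • Q = Q := n'.2
  have hkey : ∀ x : B, ((n' : N) : G) • x - g₁ • x ∈ Q := by
    intro x
    have h1 := congrArg (fun t => t (Ideal.Quotient.mk Q x)) hn'
    simp only [Ideal.Quotient.stabilizerHom_apply] at h1
    have h2 : e (Ideal.Quotient.mk Q x) = Ideal.Quotient.mk Q (g₁ • x) := he₀ x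
    rw [h2] at h1
    exact Ideal.Quotient.eq.mp h1
  refine ⟨((n' : N) : G)⁻¹ * g₁, ?_, fun x => ?_⟩
  · have h1 : ((n' : N) : G)⁻¹ * (n : G) ∈ N := N.mul_mem (N.inv_mem (n' : N).2) n.2
    have h2 := hn.conj_mem _ h1 g₀⁻¹
    have h3 : g₀⁻¹ * (((n' : N) : G)⁻¹ * g₁) = g₀⁻¹ * (((n' : N) : G)⁻¹ * (n : G)) * g₀⁻¹⁻¹ := by
      rw [hg₁]; group
    rw [h3]
    exact h2
  · have h1 : g₁ • x - ((n' : N) : G) • x ∈ Q := by
      have := Q.neg_mem (hkey x)
      simpa using this
    have h2 : ((n' : N) : G)⁻¹ • (g₁ • x - ((n' : N) : G) • x) ∈ Q := by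
      have h3 : g₁ • x - ((n' : N) : G) • x ∈ ((n' : N) : G) • Q := by
        have : ((n' : N) : G) • Q = Q := hn'Q
        rw [this]; exact h1
      exact Ideal.mem_pointwise_smul_iff_inv_smul_mem.mp h3
    have h4 : ((n' : N) : G)⁻¹ • (g₁ • x - ((n' : N) : G) • x) =
        (((n' : N) : G)⁻¹ * g₁) • x - x := by
      rw [smul_sub, inv_smul_smul, ← mul_smul]
    rw [← h4]
    exact h2

end Fermat.Agent.S13.H175

end
-- ===== PACK-END S13/H175/InertiaLift.lean

-- ===== PACK-BEGIN S37/H217/Lattice.lean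
section


/-!
# Block ALG, lemmas L1 and L3 (lifted residue bases over valuation rings)

Abstract setting (Mathlib only).  `L/L₀` a finite field extension, `V₀ ⊆ L₀` and `V ⊆ L` valuation
subrings with `V ∩ L₀ = V₀` (`ValExtends`).  A family `e : ι → L` of elements of `V` is
*residually independent* (`ResidIndep`) if a `V₀`-combination of the `e i` lying in the maximal
ideal of `V` has all its coefficients in the maximal ideal of `V₀` (i.e. the residues of the `e i`
are linearly independent over the residue field of `V₀`).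

If `#ι = [L : L₀]` then (this is the "defectless, `e = 1`, `f = n`" case):

* `L1` (`linearIndependent_of_residIndep`, `repr_mem_of_mem`, `repr_mem_nonunits_of_mem`):
  `e` is an `L₀`-basis of `L`, and `V = ⊕ V₀ e i`, `𝔪_V = ⊕ 𝔪_{V₀} e i`;
* `L3` (`exists_matrix_leftMul`, `norm_mem_and_map_norm`, `charpoly_mem_and_map_charpoly`):
  for `y ∈ V` the matrix of multiplication by `y` has entries in `V₀`, and for any compatible pair
  of ring homs `ρ₀ : V₀ → R₁`, `ρ : V → S₁` (`S₁` free over `R₁` on the images of the `e i`) norm,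
  trace and characteristic polynomial commute with `ρ`.
-/

namespace Fermat.Agent.S37.H217

open scoped BigOperators

section Lattice

variable {L₀ L : Type*} [Field L₀] [Field L] [Algebra L₀ L]

/-- `V` lies over `V₀`, i.e. `V ∩ L₀ = V₀`. -/
def ValExtends (V₀ : ValuationSubring L₀) (V : ValuationSubring L) : Prop :=
  ∀ a : L₀, algebraMap L₀ L a ∈ V ↔ a ∈ V₀

/-- Residual independence of a family `e` (see the module docstring). -/
def ResidIndep (V₀ : ValuationSubring L₀) (V : ValuationSubring L) {ι : Type*} [Fintype ι]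
    (e : ι → L) : Prop :=
  ∀ c : ι → L₀, (∀ i, c i ∈ V₀) → (∑ i, c i • e i) ∈ V.nonunits → ∀ i, c i ∈ V₀.nonunits

variable {V₀ : ValuationSubring L₀} {V : ValuationSubring L}

theorem ValExtends.mem_nonunits_iff (h : ValExtends V₀ V) (a : L₀) :
    algebraMap L₀ L a ∈ V.nonunits ↔ a ∈ V₀.nonunits := by
  rw [ValuationSubring.mem_nonunits_iff_or, ValuationSubring.mem_nonunits_iff_or, ← map_inv₀,
    h a⁻¹, map_eq_zero]

/-- Scaling: a nonzero finite family in `L₀` can be divided by one of its members so that all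
members land in `V₀`. -/
theorem exists_scale {ι : Type*} [Fintype ι] (V₀ : ValuationSubring L₀) (c : ι → L₀)
    (hc : c ≠ 0) : ∃ m, c m ≠ 0 ∧ ∀ i, c i / c m ∈ V₀ := by
  classical
  obtain ⟨i₀, hi₀⟩ : ∃ i₀, c i₀ ≠ 0 := by
    by_contra h
    exact hc (funext fun i => not_not.mp fun hi => h ⟨i, hi⟩)
  obtain ⟨m, -, hm⟩ := Finset.exists_max_image Finset.univ (fun i => V₀.valuation (c i))
    ⟨i₀, Finset.mem_univ _⟩
  have hm0 : c m ≠ 0 := by
    intro h0
    have h1 := hm i₀ (Finset.mem_univ _)
    rw [h0, map_zero] at h1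
    exact hi₀ ((map_eq_zero _).mp (le_antisymm h1 zero_le))
  refine ⟨m, hm0, fun i => ?_⟩
  rw [← ValuationSubring.valuation_le_one_iff, map_div₀]
  have hv : V₀.valuation (c m) ≠ 0 := (map_ne_zero _).mpr hm0
  exact (div_le_one₀ (zero_lt_iff.mpr hv)).mpr (hm i (Finset.mem_univ _))

theorem smul_sum_div {ι : Type*} [Fintype ι] (c : ι → L₀) (e : ι → L) (m : ι) :
    ∑ i, (c i / c m) • e i = algebraMap L₀ L (c m)⁻¹ * ∑ i, c i • e i := by
  rw [Finset.mul_sum]
  refine Finset.sum_congr rfl fun i _ => ?_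
  rw [Algebra.smul_def, Algebra.smul_def, ← mul_assoc, ← map_mul, div_eq_inv_mul]

/-- `L1`, key step: a combination of the `e i` lying in `V` has coefficients in `V₀`. -/
theorem coeff_mem_of_sum_mem {ι : Type*} [Fintype ι] (h : ValExtends V₀ V) {e : ι → L}
    (hR : ResidIndep V₀ V e) (c : ι → L₀) (hc : (∑ i, c i • e i) ∈ V) : ∀ i, c i ∈ V₀ := by
  by_contra hne
  obtain ⟨i₀, hi₀⟩ := not_forall.mp hne
  have hc0 : c ≠ 0 := by
    intro h0
    apply hi₀
    rw [h0]
    exact V₀.zero_mem
  obtain ⟨m, hm0, hm⟩ := exists_scale V₀ c hc0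
  have hmV : c m ∉ V₀ := by
    intro hmem
    apply hi₀
    have : c i₀ = c i₀ / c m * c m := by field_simp
    rw [this]
    exact V₀.mul_mem _ _ (hm i₀) hmem
  have hinv : (c m)⁻¹ ∈ V₀.nonunits :=
    (ValuationSubring.inv_mem_nonunits_iff V₀).mpr (Or.inr hmV)
  have hsum : (∑ i, (c i / c m) • e i) ∈ V.nonunits := by
    rw [smul_sum_div]
    have h1 : algebraMap L₀ L (c m)⁻¹ ∈ V.nonunits := (h.mem_nonunits_iff _).mpr hinv
    rw [ValuationSubring.mem_nonunits_iff] at h1 ⊢
    rw [map_mul]
    exact mul_lt_one_of_nonneg_of_lt_one_left zero_le h1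
      ((ValuationSubring.valuation_le_one_iff V _).mpr hc)
  have := hR _ hm hsum m
  rw [div_self hm0] at this
  rw [ValuationSubring.mem_nonunits_iff, map_one] at this
  exact lt_irrefl _ this

/-- `L1`: a residually independent family is linearly independent. -/
theorem eq_zero_of_sum_eq_zero {ι : Type*} [Fintype ι] {e : ι → L}
    (hR : ResidIndep V₀ V e) (c : ι → L₀) (hc : (∑ i, c i • e i) = 0) : ∀ i, c i = 0 := by
  by_contra hne
  have hc0 : c ≠ 0 := by
    intro h0
    apply hne
    intro i
    rw [h0]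
    rfl
  obtain ⟨m, hm0, hm⟩ := exists_scale V₀ c hc0
  have hsum : (∑ i, (c i / c m) • e i) ∈ V.nonunits := by
    rw [smul_sum_div, hc, mul_zero]
    exact V.nonunits.zero_mem
  have := hR _ hm hsum m
  rw [div_self hm0] at this
  rw [ValuationSubring.mem_nonunits_iff, map_one] at this
  exact lt_irrefl _ this

theorem linearIndependent_of_residIndep {ι : Type*} [Fintype ι]
    {e : ι → L} (hR : ResidIndep V₀ V e) : LinearIndependent L₀ e :=
  Fintype.linearIndependent_iff.mpr fun c hc => eq_zero_of_sum_eq_zero hR c hc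

/-- `L1`: a residually independent family of cardinality `[L : L₀]` is a basis. -/
theorem exists_basis_of_residIndep {ι : Type*} [Fintype ι] [Nonempty ι]
    {e : ι → L} (hR : ResidIndep V₀ V e) (hcard : Fintype.card ι = Module.finrank L₀ L) :
    ∃ b : Module.Basis ι L₀ L, ⇑b = e :=
  ⟨basisOfLinearIndependentOfCardEqFinrank (linearIndependent_of_residIndep hR) hcard,
    coe_basisOfLinearIndependentOfCardEqFinrank _ _⟩

section Basis

variable {ι : Type*} [Fintype ι]

/-- `L1`: coordinates of elements of `V` in a residually independent basis lie in `V₀`. -/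
theorem repr_mem_of_mem (h : ValExtends V₀ V) (b : Module.Basis ι L₀ L)
    (hR : ResidIndep V₀ V b) {y : L} (hy : y ∈ V) (i : ι) : b.repr y i ∈ V₀ :=
  coeff_mem_of_sum_mem h hR (fun i => b.repr y i) (by rw [b.sum_repr]; exact hy) i

/-- `L1`: coordinates of elements of `𝔪_V` in a residually independent basis lie in `𝔪_{V₀}`. -/
theorem repr_mem_nonunits_of_mem (h : ValExtends V₀ V) (b : Module.Basis ι L₀ L)
    (hR : ResidIndep V₀ V b) {y : L} (hy : y ∈ V.nonunits) (i : ι) :
    b.repr y i ∈ V₀.nonunits :=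
  hR (fun i => b.repr y i) (fun i => repr_mem_of_mem h b hR (V.nonunits_subset hy) i)
    (by rw [b.sum_repr]; exact hy) i

variable [DecidableEq ι]

/-- The matrix (with entries in `V₀`) of multiplication by `y ∈ V` in a residually independent
basis consisting of elements of `V`. -/
noncomputable def intMatrix (h : ValExtends V₀ V) (b : Module.Basis ι L₀ L)
    (hR : ResidIndep V₀ V b) (hb : ∀ i, b i ∈ V) (y : V) : Matrix ι ι V₀ :=
  fun i j => ⟨b.repr ((y : L) * b j) i, repr_mem_of_mem h b hR (V.mul_mem _ _ y.2 (hb j)) i⟩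

theorem intMatrix_map (h : ValExtends V₀ V) (b : Module.Basis ι L₀ L)
    (hR : ResidIndep V₀ V b) (hb : ∀ i, b i ∈ V) (y : V) :
    (intMatrix h b hR hb y).map (algebraMap V₀ L₀) = Algebra.leftMulMatrix b (y : L) := by
  ext i j
  rw [Algebra.leftMulMatrix_eq_repr_mul]
  rfl

/-- `L3`: the norm of `y ∈ V` is the determinant of the integral matrix; in particular it lies
in `V₀`. -/
theorem norm_eq_det_intMatrix (h : ValExtends V₀ V) (b : Module.Basis ι L₀ L)
    (hR : ResidIndep V₀ V b) (hb : ∀ i, b i ∈ V) (y : V) :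
    Algebra.norm L₀ (y : L) = ((intMatrix h b hR hb y).det : L₀) := by
  rw [Algebra.norm_eq_matrix_det b, ← intMatrix_map h b hR hb y]
  exact (RingHom.map_det (algebraMap V₀ L₀) _).symm

theorem trace_eq_trace_intMatrix (h : ValExtends V₀ V) (b : Module.Basis ι L₀ L)
    (hR : ResidIndep V₀ V b) (hb : ∀ i, b i ∈ V) (y : V) :
    Algebra.trace L₀ L (y : L) = ((intMatrix h b hR hb y).trace : L₀) := by
  rw [Algebra.trace_eq_matrix_trace b, ← intMatrix_map h b hR hb y]
  exact (AddMonoidHom.map_trace (algebraMap V₀ L₀) _).symm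

theorem charpoly_eq_map_charpoly_intMatrix [FiniteDimensional L₀ L] (h : ValExtends V₀ V)
    (b : Module.Basis ι L₀ L) (hR : ResidIndep V₀ V b) (hb : ∀ i, b i ∈ V) (y : V) :
    (Algebra.lmul L₀ L (y : L)).charpoly =
      (intMatrix h b hR hb y).charpoly.map (algebraMap V₀ L₀) := by
  rw [← Matrix.charpoly_map, intMatrix_map, Algebra.leftMulMatrix_apply,
    LinearMap.charpoly_toMatrix]

theorem norm_mem (h : ValExtends V₀ V) (b : Module.Basis ι L₀ L)
    (hR : ResidIndep V₀ V b) (hb : ∀ i, b i ∈ V) {y : L} (hy : y ∈ V) :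
    Algebra.norm L₀ y ∈ V₀ := by
  have := norm_eq_det_intMatrix h b hR hb ⟨y, hy⟩
  rw [this]
  exact Subtype.property _

section Reduction

variable {R₁ S₁ : Type*} [CommRing R₁] [CommRing S₁] [Algebra R₁ S₁]

/-- `L3`: compatibility of the multiplication matrices with a reduction map. -/
theorem leftMulMatrix_map_eq (h : ValExtends V₀ V) (b : Module.Basis ι L₀ L)
    (hR : ResidIndep V₀ V b) (hb : ∀ i, b i ∈ V) (ρ₀ : V₀ →+* R₁) (ρ : V →+* S₁)
    (hρ : ∀ a : V₀, ρ ⟨algebraMap L₀ L a, (h a).mpr a.2⟩ = algebraMap R₁ S₁ (ρ₀ a))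
    (b₁ : Module.Basis ι R₁ S₁) (hb₁ : ∀ i, ρ ⟨b i, hb i⟩ = b₁ i) (y : V) :
    Algebra.leftMulMatrix b₁ (ρ y) = (intMatrix h b hR hb y).map ρ₀ := by
  have key : ∀ j, ρ y * b₁ j = ∑ i, ρ₀ (intMatrix h b hR hb y i j) • b₁ i := by
    intro j
    have h1 : y * ⟨b j, hb j⟩ =
        ∑ i, (⟨algebraMap L₀ L (intMatrix h b hR hb y i j), (h _).mpr (Subtype.property _)⟩ : V) *
          ⟨b i, hb i⟩ := by
      apply Subtype.ext
      have h2 : ((∑ i, (⟨algebraMap L₀ L (intMatrix h b hR hb y i j),
          (h _).mpr (Subtype.property _)⟩ : V) * ⟨b i, hb i⟩ : V) : L) =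
          ∑ i, algebraMap L₀ L (intMatrix h b hR hb y i j) * b i := by
        rw [← ValuationSubring.subtype_apply, map_sum]
        rfl
      rw [h2]
      have h3 := b.sum_repr ((y : L) * b j)
      simp only [Algebra.smul_def] at h3
      exact h3.symm
    rw [← hb₁ j, ← map_mul, h1, map_sum]
    refine Finset.sum_congr rfl fun i _ => ?_
    rw [map_mul, hρ, hb₁, Algebra.smul_def]
  ext i j
  rw [Algebra.leftMulMatrix_eq_repr_mul, key j, b₁.repr_sum_self]
  rfl

/-- `L3`: **norm commutes with reduction**. -/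
theorem map_norm_eq_norm_map (h : ValExtends V₀ V) (b : Module.Basis ι L₀ L)
    (hR : ResidIndep V₀ V b) (hb : ∀ i, b i ∈ V) (ρ₀ : V₀ →+* R₁) (ρ : V →+* S₁)
    (hρ : ∀ a : V₀, ρ ⟨algebraMap L₀ L a, (h a).mpr a.2⟩ = algebraMap R₁ S₁ (ρ₀ a))
    (b₁ : Module.Basis ι R₁ S₁) (hb₁ : ∀ i, ρ ⟨b i, hb i⟩ = b₁ i) (y : V) :
    ρ₀ ⟨Algebra.norm L₀ (y : L), norm_mem h b hR hb y.2⟩ = Algebra.norm R₁ (ρ y) := by
  rw [Algebra.norm_eq_matrix_det b₁, leftMulMatrix_map_eq h b hR hb ρ₀ ρ hρ b₁ hb₁ y]
  have : (⟨Algebra.norm L₀ (y : L), norm_mem h b hR hb y.2⟩ : V₀) =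
      (intMatrix h b hR hb y).det := Subtype.ext (norm_eq_det_intMatrix h b hR hb y)
  rw [this]
  exact RingHom.map_det ρ₀ _

/-- `L3`: trace commutes with reduction. -/
theorem map_trace_intMatrix_eq_trace_map (h : ValExtends V₀ V) (b : Module.Basis ι L₀ L)
    (hR : ResidIndep V₀ V b) (hb : ∀ i, b i ∈ V) (ρ₀ : V₀ →+* R₁) (ρ : V →+* S₁)
    (hρ : ∀ a : V₀, ρ ⟨algebraMap L₀ L a, (h a).mpr a.2⟩ = algebraMap R₁ S₁ (ρ₀ a))
    (b₁ : Module.Basis ι R₁ S₁) (hb₁ : ∀ i, ρ ⟨b i, hb i⟩ = b₁ i) (y : V) :
    ρ₀ (intMatrix h b hR hb y).trace = Algebra.trace R₁ S₁ (ρ y) := by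
  rw [Algebra.trace_eq_matrix_trace b₁, leftMulMatrix_map_eq h b hR hb ρ₀ ρ hρ b₁ hb₁ y]
  exact AddMonoidHom.map_trace ρ₀ _

/-- `L3`: characteristic polynomial commutes with reduction. -/
theorem map_charpoly_intMatrix_eq_charpoly_map (h : ValExtends V₀ V) (b : Module.Basis ι L₀ L)
    (hR : ResidIndep V₀ V b) (hb : ∀ i, b i ∈ V) (ρ₀ : V₀ →+* R₁) (ρ : V →+* S₁)
    (hρ : ∀ a : V₀, ρ ⟨algebraMap L₀ L a, (h a).mpr a.2⟩ = algebraMap R₁ S₁ (ρ₀ a))
    (b₁ : Module.Basis ι R₁ S₁) (hb₁ : ∀ i, ρ ⟨b i, hb i⟩ = b₁ i) (y : V) :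
    (intMatrix h b hR hb y).charpoly.map ρ₀ =
      (Algebra.leftMulMatrix b₁ (ρ y)).charpoly := by
  rw [leftMulMatrix_map_eq h b hR hb ρ₀ ρ hρ b₁ hb₁ y, Matrix.charpoly_map]

end Reduction

end Basis

end Lattice

end Fermat.Agent.S37.H217

end
-- ===== PACK-END S37/H217/Lattice.lean

-- ===== PACK-BEGIN S19/H439/InertiaLift.lean
section


/-!
# Cell A3 / GR: inertia-invariant lifts of residue constants (helper439)

`V` a valuation subring of a field `K`, `k` its residue field.

* `exists_rootOfUnity_lift`     : if `X ^ n - 1` splits in `K` then every `n`-th root of unity of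
                                  `k` is the residue of an `n`-th root of unity of `K` (lying in `V`).
* `rootOfUnity_eq_of_residue_eq`: if `n` is invertible in `k`, two `n`-th roots of unity of `K` with
                                  the same residue are equal.
* `exists_pow_eq_one_of_isAlgebraic` : a nonzero element of a field of characteristic `ℓ > 0`
                                  which is algebraic over `ZMod ℓ` is a root of unity of order
                                  prime to `ℓ`.
* `isAlgebraic_residue`         : if `K / ℚ` is algebraic and `ℓ ∈ 𝔪_V` then `k` is algebraic over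
                                  `ZMod ℓ`.
* `exists_inertia_fixed_lift`   : (**I_lift_const**) `K` algebraically closed and algebraic over
                                  `ℚ`, `ℓ ∈ 𝔪_V`: every `c ∈ k` has a lift `a ∈ V` which is fixed by
                                  every ring endomorphism `σ` of `K` with `σ b - b ∈ 𝔪_V` for all
                                  `b ∈ V` (in particular by the inertia group of `V`).
-/

set_option autoImplicit false

noncomputable section

open Polynomial IsLocalRing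

namespace Fermat.Agent.S19.H439

variable {K : Type*} [Field K] (V : ValuationSubring K)

/-- A root of unity lies in every valuation subring. -/
theorem mem_of_pow_eq_one {ζ : K} {n : ℕ} (hn : n ≠ 0) (h : ζ ^ n = 1) : ζ ∈ V := by
  rcases V.mem_or_inv_mem ζ with h1 | h1
  · exact h1
  · have : ζ = (ζ⁻¹) ^ (n - 1) := by
      have e : ζ * ζ ^ (n - 1) = 1 := by
        rw [← pow_succ', Nat.sub_add_cancel (Nat.pos_of_ne_zero hn)]
        exact h
      rw [inv_pow]
      exact eq_inv_of_mul_eq_one_left e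
    rw [this]
    exact pow_mem h1 _

/-- Residues of elements of `K` lying in `V`. -/
def resOf (a : K) (ha : a ∈ V) : ResidueField V := residue V ⟨a, ha⟩

theorem resOf_eq_iff {a b : K} (ha : a ∈ V) (hb : b ∈ V) :
    resOf V a ha = resOf V b hb ↔ a - b ∈ V.nonunits := by
  unfold resOf
  rw [← sub_eq_zero, ← _root_.map_sub, residue_eq_zero_iff, ← V.coe_mem_nonunits_iff]
  rfl

/-- If `n` is invertible in the residue field, two `n`-th roots of unity with the same residue
are equal. -/
theorem rootOfUnity_eq_of_residue_eq {n : ℕ} (hn : (n : ResidueField V) ≠ 0) {ζ ζ' : K}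
    (hζ : ζ ^ n = 1) (hζ' : ζ' ^ n = 1) (h : ζ - ζ' ∈ V.nonunits) : ζ = ζ' := by
  have hn0 : n ≠ 0 := by
    rintro rfl
    exact hn (by simp)
  have hζ'0 : ζ' ≠ 0 := by
    rintro rfl
    rw [zero_pow hn0] at hζ'
    exact zero_ne_one hζ'
  have hζ'V : ζ' ∈ V := mem_of_pow_eq_one V hn0 hζ'
  have hζV : ζ ∈ V := mem_of_pow_eq_one V hn0 hζ
  -- `u = ζ / ζ'`
  set u : K := ζ / ζ' with hu
  have hun : u ^ n = 1 := by rw [hu, div_pow, hζ, hζ', div_one]
  have huV : u ∈ V := mem_of_pow_eq_one V hn0 hun
  have hζ'inv : ζ'⁻¹ ∈ V := mem_of_pow_eq_one V hn0 (by rw [inv_pow, hζ', inv_one])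
  have hu1 : u - 1 ∈ V.nonunits := by
    have e : u - 1 = (ζ - ζ') * ζ'⁻¹ := by
      rw [hu]; field_simp
    rw [e]
    have hmax : (⟨ζ, hζV⟩ - ⟨ζ', hζ'V⟩ : V) ∈ maximalIdeal V := by
      rw [← V.coe_mem_nonunits_iff]
      exact h
    have hmul := Ideal.mul_mem_right (⟨ζ'⁻¹, hζ'inv⟩ : V) _ hmax
    rw [← V.coe_mem_nonunits_iff] at hmul
    exact hmul
  by_contra hne
  have hune : u ≠ 1 := by
    intro h1
    apply hne
    rw [hu, div_eq_one_iff_eq hζ'0] at h1
    exact h1
  -- geometric sum
  have hgeom : ∑ i ∈ Finset.range n, u ^ i = 0 := by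
    have := mul_neg_geom_sum u n
    rw [hun, sub_self] at this
    rcases mul_eq_zero.mp this with h1 | h1
    · exact absurd (sub_eq_zero.mp h1).symm hune
    · exact h1
  -- reduce
  let uV : V := ⟨u, huV⟩
  have hres : residue V uV = 1 := by
    rw [← sub_eq_zero, ← _root_.map_one (residue V), ← _root_.map_sub, residue_eq_zero_iff,
      ← V.coe_mem_nonunits_iff]
    exact hu1
  have hsumV : ∑ i ∈ Finset.range n, uV ^ i = 0 := by
    apply Subtype.ext
    push_cast
    exact hgeom
  have := congrArg (residue V) hsumV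
  rw [_root_.map_sum, _root_.map_zero] at this
  simp only [_root_.map_pow, hres, one_pow, Finset.sum_const, Finset.card_range, nsmul_eq_mul,
    mul_one] at this
  exact hn this

/-- If `X ^ n - 1` splits in `K`, every `n`-th root of unity of the residue field is the residue
of an `n`-th root of unity of `K`. -/
theorem exists_rootOfUnity_lift [IsAlgClosed K] {n : ℕ} (hn : n ≠ 0) {c : ResidueField V}
    (hc : c ^ n = 1) :
    ∃ (ζ : K) (hζ : ζ ∈ V), ζ ^ n = 1 ∧ residue V ⟨ζ, hζ⟩ = c := by
  classical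
  -- factor `X ^ n - 1` over `K`
  have hsplit : (X ^ n - 1 : K[X]).Splits := IsAlgClosed.splits _
  have hmonic : (X ^ n - 1 : K[X]).Monic := monic_X_pow_sub_C 1 hn
  have hprod := hsplit.eq_prod_roots_of_monic hmonic
  set s := (X ^ n - 1 : K[X]).roots with hs
  have hroot : ∀ ζ ∈ s, ζ ^ n = 1 := by
    intro ζ hζ
    have := (mem_roots hmonic.ne_zero).mp hζ
    simpa [sub_eq_zero] using this
  have hmemV : ∀ ζ ∈ s, ζ ∈ V := fun ζ hζ => mem_of_pow_eq_one V hn (hroot ζ hζ)
  -- the multiset of roots, as elements of `V`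
  let t : Multiset V := s.pmap (fun ζ h => (⟨ζ, h⟩ : V)) hmemV
  have ht : t.map (fun a : V => (a : K)) = s := by
    simp only [t]
    rw [Multiset.map_pmap, Multiset.pmap_eq_map, Multiset.map_id']
  have hprodV : (X ^ n - 1 : V[X]) = (t.map fun a => X - C a).prod := by
    apply Polynomial.map_injective V.subtype Subtype.val_injective
    rw [Polynomial.map_sub, Polynomial.map_pow, Polynomial.map_X, Polynomial.map_one,
      Polynomial.map_multiset_prod, Multiset.map_map]
    conv_lhs => rw [hprod]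
    rw [← ht, Multiset.map_map]
    congr 1
    apply Multiset.map_congr rfl
    intro a _
    simp
  have hprodk : (X ^ n - 1 : (ResidueField V)[X])
      = (t.map fun a => X - C (residue V a)).prod := by
    have := congrArg (Polynomial.map (residue V)) hprodV
    rw [Polynomial.map_sub, Polynomial.map_pow, Polynomial.map_X, Polynomial.map_one,
      Polynomial.map_multiset_prod, Multiset.map_map] at this
    rw [this]
    congr 1
    apply Multiset.map_congr rfl
    intro a _
    simp
  have hev : ((t.map fun a => X - C (residue V a)).prod).eval c = 0 := by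
    rw [← hprodk]
    simp [hc]
  rw [Polynomial.eval_multiset_prod, Multiset.prod_eq_zero_iff, Multiset.map_map] at hev
  obtain ⟨a, ha, hac⟩ := Multiset.mem_map.mp hev
  simp only [Function.comp_apply, eval_sub, eval_X, eval_C] at hac
  have hat : (a : K) ∈ s := by
    rw [← ht]
    exact Multiset.mem_map_of_mem _ ha
  refine ⟨a, a.2, hroot _ hat, ?_⟩
  have : residue V a = c := (sub_eq_zero.mp hac).symm
  exact this

/-- A nonzero element of a field of characteristic `ℓ`, algebraic over `ZMod ℓ`, is a root of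
unity of order prime to `ℓ`. -/
theorem exists_pow_eq_one_of_isAlgebraic {k : Type*} [Field k] {ℓ : ℕ} [Fact ℓ.Prime]
    [Algebra (ZMod ℓ) k] {c : k} (hc : c ≠ 0) (halg : IsAlgebraic (ZMod ℓ) c) :
    ∃ n : ℕ, n ≠ 0 ∧ (n : k) ≠ 0 ∧ c ^ n = 1 := by
  classical
  let E := IntermediateField.adjoin (ZMod ℓ) {c}
  have : FiniteDimensional (ZMod ℓ) E :=
    IntermediateField.adjoin.finiteDimensional halg.isIntegral
  have : Finite E := Module.finite_of_finite (ZMod ℓ)
  let _ : Fintype E := Fintype.ofFinite E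
  let cE : E := ⟨c, IntermediateField.mem_adjoin_simple_self (ZMod ℓ) c⟩
  have hcE : cE ≠ 0 := fun h => hc (congrArg Subtype.val h)
  have hpow := FiniteField.pow_card_sub_one_eq_one cE hcE
  have hcard0 : ((Fintype.card E : ℕ) : E) = 0 := FiniteField.cast_card_eq_zero E
  have hcard1 : 1 < Fintype.card E := Fintype.one_lt_card
  refine ⟨Fintype.card E - 1, by omega, ?_, ?_⟩
  · have h1 : ((Fintype.card E - 1 : ℕ) : E) = -1 := by
      rw [Nat.cast_sub hcard1.le, hcard0, Nat.cast_one, zero_sub]
    intro h0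
    have h2 : ((Fintype.card E - 1 : ℕ) : k) = algebraMap E k ((Fintype.card E - 1 : ℕ) : E) := by
      rw [_root_.map_natCast]
    rw [h2, h1, _root_.map_neg, _root_.map_one] at h0
    exact one_ne_zero (neg_eq_zero.mp h0)
  · have := congrArg (algebraMap E k) hpow
    rw [_root_.map_pow, _root_.map_one] at this
    exact this

section Residue

variable {ℓ : ℕ} [Fact ℓ.Prime]

omit [Fact ℓ.Prime] in
/-- The residue field of a valuation ring containing `ℓ` in its maximal ideal has
characteristic `ℓ`. -/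
theorem natCast_residue_eq_zero' (hℓ : (ℓ : K) ∈ V.nonunits) : ((ℓ : ℕ) : ResidueField V) = 0 := by
  have h1 : ((ℓ : V) : K) ∈ V.nonunits := by
    have : ((ℓ : V) : K) = (ℓ : K) := by simp
    rw [this]; exact hℓ
  have h2 : (ℓ : V) ∈ maximalIdeal V := V.coe_mem_nonunits_iff.mp h1
  have h3 := (residue_eq_zero_iff (ℓ : V)).mpr h2
  rwa [_root_.map_natCast] at h3

theorem charP_residueField (hℓ : (ℓ : K) ∈ V.nonunits) : CharP (ResidueField V) ℓ := by
  obtain ⟨p, hp⟩ := CharP.exists (ResidueField V)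
  have hdvd : p ∣ ℓ := (CharP.cast_eq_zero_iff (ResidueField V) p ℓ).mp
    (natCast_residue_eq_zero' V hℓ)
  rcases (Nat.dvd_prime (Fact.out : ℓ.Prime)).mp hdvd with h1 | h1
  · subst h1
    exact absurd rfl (CharP.char_ne_one (ResidueField V) 1)
  · subst h1
    exact hp

/-- If `K` is algebraic over `ℚ`, every residue is a root of a polynomial with integer
coefficients which is nonzero modulo `ℓ`. -/
theorem exists_int_poly_residue [Algebra ℚ K] [Algebra.IsAlgebraic ℚ K] (a : K) (ha : a ∈ V) :
    ∃ q : ℤ[X], q.map (Int.castRingHom (ZMod ℓ)) ≠ 0 ∧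
      q.eval₂ (Int.castRingHom (ResidueField V)) (residue V ⟨a, ha⟩) = 0 := by
  have hcz : CharZero K := charZero_of_injective_algebraMap (algebraMap ℚ K).injective
  have halg : IsAlgebraic ℚ a := Algebra.IsAlgebraic.isAlgebraic a
  have halgZ : IsAlgebraic ℤ a := (IsFractionRing.isAlgebraic_iff ℤ ℚ K).mpr halg
  obtain ⟨p, hp0, hpa⟩ := halgZ
  have hq := Polynomial.aeval_primPart_eq_zero hp0 hpa
  refine ⟨p.primPart, ?_, ?_⟩
  · intro h0
    have hdvd : C (ℓ : ℤ) ∣ p.primPart := by
      rw [Polynomial.C_dvd_iff_dvd_coeff]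
      intro i
      have := congrArg (fun r => Polynomial.coeff r i) h0
      simp only [coeff_map, coeff_zero, eq_intCast] at this
      exact (ZMod.intCast_zmod_eq_zero_iff_dvd _ _).mp this
    have hu := (Polynomial.isPrimitive_primPart p) _ hdvd
    have hprime : Prime (ℓ : ℤ) := Nat.prime_iff_prime_int.mp (Fact.out : ℓ.Prime)
    exact hprime.not_isUnit hu
  · -- evaluate in `V`, then reduce
    have h1 : V.subtype (p.primPart.eval₂ (Int.castRingHom V) (⟨a, ha⟩ : V))
        = p.primPart.eval₂ (Int.castRingHom K) a := by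
      rw [Polynomial.hom_eval₂ p.primPart (Int.castRingHom V) V.subtype (⟨a, ha⟩ : V)]
      have e : V.subtype.comp (Int.castRingHom V) = Int.castRingHom K := RingHom.ext_int _ _
      rw [e]
      rfl
    have h2 : p.primPart.eval₂ (Int.castRingHom K) a = 0 := by
      rw [← hq, Polynomial.aeval_def]
      have e : algebraMap ℤ K = Int.castRingHom K := RingHom.ext_int _ _
      rw [e]
    have hinj : Function.Injective V.subtype := fun x y h => Subtype.ext h
    have h3 : p.primPart.eval₂ (Int.castRingHom V) (⟨a, ha⟩ : V) = 0 :=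
      hinj ((h1.trans h2).trans (_root_.map_zero V.subtype).symm)
    have h4 := congrArg (residue V) h3
    rw [_root_.map_zero, Polynomial.hom_eval₂] at h4
    have e : (residue V).comp (Int.castRingHom V) = Int.castRingHom (ResidueField V) :=
      RingHom.ext_int _ _
    rw [e] at h4
    exact h4

/-- **Inertia-invariant lifts of residue constants** (`I_lift_const`).  Let `K` be algebraically
closed and algebraic over `ℚ`, `V` a valuation subring with `ℓ ∈ 𝔪_V`.  Every element of the
residue field has a lift `a ∈ V` (namely `0` or a root of unity of order prime to `ℓ`) which is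
fixed by every ring endomorphism `σ` of `K` with `σ b ≡ b mod 𝔪_V` for all `b ∈ V`. -/
theorem exists_inertia_fixed_lift [IsAlgClosed K] [Algebra ℚ K] [Algebra.IsAlgebraic ℚ K]
    (hℓ : (ℓ : K) ∈ V.nonunits) (c : ResidueField V) :
    ∃ (a : K) (ha : a ∈ V), residue V ⟨a, ha⟩ = c ∧
      ∀ σ : K →+* K, (∀ b ∈ V, σ b - b ∈ V.nonunits) → σ a = a := by
  by_cases hc : c = 0
  · refine ⟨0, V.zero_mem, ?_, fun σ _ => _root_.map_zero σ⟩
    rw [hc]
    exact _root_.map_zero (residue V)
  have hchar := charP_residueField V hℓ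
  let _ : Algebra (ZMod ℓ) (ResidueField V) := ZMod.algebra _ ℓ
  obtain ⟨a₀, rfl⟩ := residue_surjective (R := V) c
  obtain ⟨q, hq0, hq⟩ := exists_int_poly_residue (ℓ := ℓ) V (a₀ : K) a₀.2
  have halg : IsAlgebraic (ZMod ℓ) (residue V a₀) := by
    refine ⟨q.map (Int.castRingHom (ZMod ℓ)), hq0, ?_⟩
    rw [Polynomial.aeval_def, Polynomial.eval₂_map]
    rw [← hq]
    congr 1
    exact RingHom.ext_int _ _
  obtain ⟨n, hn0, hnk, hpow⟩ := exists_pow_eq_one_of_isAlgebraic (ℓ := ℓ) hc halg
  obtain ⟨ζ, hζV, hζn, hζc⟩ := exists_rootOfUnity_lift V hn0 hpow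
  refine ⟨ζ, hζV, hζc, fun σ hσ => ?_⟩
  have h1 : (σ ζ) ^ n = 1 := by rw [← _root_.map_pow, hζn, _root_.map_one]
  exact rootOfUnity_eq_of_residue_eq V hnk h1 hζn (hσ ζ hζV)

end Residue

end Fermat.Agent.S19.H439

end
end
-- ===== PACK-END S19/H439/InertiaLift.lean

-- ===== PACK-BEGIN S37/H818/PullFunct.lean
section
/-
S37 / LEVEL TRANSFER (helper818), part 1: functoriality of the Prelude's `restrictAlong`,
`ramificationIndexAlong` and `pullbackAlong` under composition of field embeddings.
-/



set_option autoImplicit false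
set_option linter.style.haveILetI false

noncomputable section

namespace Fermat.Agent.S37.H818

open AlgebraicCurve

variable {K F G G₁ : Type*} [Field K] [Field F] [Field G] [Field G₁]
  [Algebra K F] [Algebra K G] [Algebra K G₁]

/-- Restriction of a place along a composite is the composite of the restrictions. -/
theorem restrictAlong_comp (φ : F →ₐ[K] G) (ψ : G →ₐ[K] G₁)
    (hφ : φ.toRingHom.IsIntegral) (hψ : ψ.toRingHom.IsIntegral)
    (hψφ : (ψ.comp φ).toRingHom.IsIntegral) (W : Place K G₁) :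
    W.restrictAlong (ψ.comp φ) hψφ = (W.restrictAlong ψ hψ).restrictAlong φ hφ := by
  apply Place.ext
  rfl

/-- Existence of a uniformizer in the field for a place. -/
theorem exists_ord_eq_one (v : Place K F) : ∃ f : F, f ≠ 0 ∧ v.ord f = 1 := by
  obtain ⟨π, hπ⟩ := IsDiscreteValuationRing.exists_irreducible v.toValuationSubring
  refine ⟨(π : F), ?_, v.ord_coe_irreducible hπ⟩
  simpa [ne_eq, ZeroMemClass.coe_eq_zero] using hπ.ne_zero

/-- Ramification indices are multiplicative in towers. -/
theorem ramificationIndexAlong_comp (φ : F →ₐ[K] G) (ψ : G →ₐ[K] G₁)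
    (hφ : φ.toRingHom.IsIntegral) (hψ : ψ.toRingHom.IsIntegral)
    (hψφ : (ψ.comp φ).toRingHom.IsIntegral) (W : Place K G₁) :
    Place.ramificationIndexAlong (ψ.comp φ) W =
      Place.ramificationIndexAlong ψ W *
        Place.ramificationIndexAlong φ (W.restrictAlong ψ hψ) := by
  obtain ⟨f, hf0, hf⟩ := exists_ord_eq_one ((W.restrictAlong ψ hψ).restrictAlong φ hφ)
  have h1 := Place.ord_restrictAlong (ψ.comp φ) hψφ W f
  have h2 := Place.ord_restrictAlong ψ hψ W (φ f)
  have h3 := Place.ord_restrictAlong φ hφ (W.restrictAlong ψ hψ) f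
  rw [restrictAlong_comp φ ψ hφ hψ hψφ W, hf, mul_one] at h1
  rw [hf, mul_one] at h3
  rw [h3] at h2
  have h4 : (ψ.comp φ) f = ψ (φ f) := rfl
  rw [h4, h2] at h1
  exact_mod_cast h1.symm

variable [HasPrincipalDivisors K G] [HasPrincipalDivisors K G₁]

/-- Pullback of divisors is functorial. -/
theorem pullbackAlong_comp (φ : F →ₐ[K] G) (ψ : G →ₐ[K] G₁)
    (hφ : φ.toRingHom.IsIntegral) (hψ : ψ.toRingHom.IsIntegral)
    (hψφ : (ψ.comp φ).toRingHom.IsIntegral) (D : Divisor K F) :
    Divisor.pullbackAlong (ψ.comp φ) hψφ D =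
      Divisor.pullbackAlong ψ hψ (Divisor.pullbackAlong φ hφ D) := by
  ext W
  rw [Divisor.pullbackAlong_apply, Divisor.pullbackAlong_apply, Divisor.pullbackAlong_apply,
    ramificationIndexAlong_comp φ ψ hφ hψ hψφ W, restrictAlong_comp φ ψ hφ hψ hψφ W]
  push_cast
  ring

end Fermat.Agent.S37.H818

end

end
-- ===== PACK-END S37/H818/PullFunct.lean

-- ===== PACK-BEGIN S18/H213/DetRank.lean
section


/-!
# S18 / b2 — the determinant–rank lemma (helper213)

`O` a domain, `π` a prime element generating a maximal ideal, `κ = O/π`.  If the rows of a square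
matrix `H` over `O` reduce into a subspace of `κⁿ` of codimension `≥ r`, then `π ^ r ∣ det H`.
-/

set_option autoImplicit false

set_option linter.unusedSectionVars false

open Module

namespace Fermat.Agent.S18.H213

attribute [local instance] Ideal.Quotient.field

variable {O : Type*} [CommRing O] [IsDomain O] {π : O}

/-- Reduction of a row vector modulo `π`. -/
def redRow (π : O) {ι : Type*} (v : ι → O) : ι → O ⧸ Ideal.span {π} :=
  fun k => Ideal.Quotient.mk (Ideal.span {π}) (v k)

theorem redRow_add {ι : Type*} (v w : ι → O) : redRow π (v + w) = redRow π v + redRow π w := by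
  funext k; simp [redRow]

theorem redRow_smul {ι : Type*} (c : O) (v : ι → O) :
    redRow π (c • v) = Ideal.Quotient.mk (Ideal.span {π}) c • redRow π v := by
  funext k; simp [redRow]

theorem redRow_sum {ι α : Type*} (s : Finset α) (f : α → ι → O) :
    redRow π (∑ a ∈ s, f a) = ∑ a ∈ s, redRow π (f a) := by
  funext k
  simp only [redRow, Finset.sum_apply, map_sum]

theorem redRow_eq_zero_iff {ι : Type*} (v : ι → O) :
    redRow π v = 0 ↔ ∀ k, π ∣ v k := by
  constructor
  · intro h k
    have := congrFun h k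
    simp only [redRow, Pi.zero_apply, Ideal.Quotient.eq_zero_iff_mem,
      Ideal.mem_span_singleton] at this
    exact this
  · intro h
    funext k
    simp only [redRow, Pi.zero_apply, Ideal.Quotient.eq_zero_iff_mem, Ideal.mem_span_singleton]
    exact h k

/-- **DET–RANK**, subspace form. -/
theorem pow_dvd_det_of_rows_mem (hπ : Prime π) [hmax : (Ideal.span {π}).IsMaximal]
    {ι : Type*} [Fintype ι] [DecidableEq ι] :
    ∀ (r : ℕ) (H : Matrix ι ι O) (U : Submodule (O ⧸ Ideal.span {π}) (ι → O ⧸ Ideal.span {π})),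
      finrank (O ⧸ Ideal.span {π}) U + r ≤ Fintype.card ι →
      (∀ j, redRow π (H j) ∈ U) → π ^ r ∣ H.det := by
  intro r
  induction r with
  | zero => intro H U _ _; simp
  | succ r ih =>
    intro H U hU hH
    -- the rows are linearly dependent mod π
    have hdep : ¬ LinearIndependent (O ⧸ Ideal.span {π})
        (fun j : ι => (⟨redRow π (H j), hH j⟩ : U)) := by
      intro hli
      have := hli.fintype_card_le_finrank
      omega
    rw [Fintype.not_linearIndependent_iff] at hdep
    obtain ⟨g, hg, j0, hj0⟩ := hdep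
    -- lift the coefficients
    have hsurj := Ideal.Quotient.mk_surjective (I := Ideal.span {π})
    choose c hc using fun j => hsurj (g j)
    have hcj0 : ¬ π ∣ c j0 := by
      intro hdiv
      apply hj0
      rw [← hc j0, Ideal.Quotient.eq_zero_iff_mem, Ideal.mem_span_singleton]
      exact hdiv
    -- the combined row vanishes mod π
    have hR : redRow π (∑ j, c j • H j) = 0 := by
      rw [redRow_sum]
      have h1 : ∀ j, redRow π (c j • H j) = g j • redRow π (H j) := fun j => by
        rw [redRow_smul, hc]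
      simp only [h1]
      have := congrArg (Subtype.val) hg
      simpa using this
    rw [redRow_eq_zero_iff] at hR
    choose R' hR' using hR
    have hRR' : (∑ j, c j • H j) = π • R' := by
      funext k
      rw [hR' k]
      simp
    -- determinant identity
    have hdet : c j0 * H.det = π * (H.updateRow j0 R').det := by
      have h1 := Matrix.det_updateRow_sum H j0 c
      rw [hRR', Matrix.det_updateRow_smul] at h1
      rw [h1, smul_eq_mul]
    -- the new matrix has rows in `U ⊔ span {R'}`
    have hrows : ∀ j, redRow π ((H.updateRow j0 R') j) ∈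
        U ⊔ Submodule.span (O ⧸ Ideal.span {π}) {redRow π R'} := by
      intro j
      by_cases hj : j = j0
      · subst hj
        rw [Matrix.updateRow_self]
        exact Submodule.mem_sup_right (Submodule.mem_span_singleton_self _)
      · rw [Matrix.updateRow_ne hj]
        exact Submodule.mem_sup_left (hH j)
    have hfin : finrank (O ⧸ Ideal.span {π})
        ↥(U ⊔ Submodule.span (O ⧸ Ideal.span {π}) {redRow π R'}) + r ≤ Fintype.card ι := by
      have h1 := Submodule.finrank_add_le_finrank_add_finrank U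
        (Submodule.span (O ⧸ Ideal.span {π}) {redRow π R'})
      have h2 : finrank (O ⧸ Ideal.span {π})
          ↥(Submodule.span (O ⧸ Ideal.span {π}) {redRow π R'}) ≤ 1 := by
        have := finrank_span_le_card (R := O ⧸ Ideal.span {π}) ({redRow π R'} : Set _)
        simpa using this
      omega
    have hih := ih (H.updateRow j0 R') _ hfin hrows
    have hdvd : π ^ (r + 1) ∣ c j0 * H.det := by
      rw [hdet, pow_succ']
      exact mul_dvd_mul_left π hih
    exact hπ.pow_dvd_of_dvd_mul_left (r + 1) hcj0 hdvd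

/-- **DET–RANK**, quotient form: the rows are killed by a surjection onto a space of
dimension `≥ r`. -/
theorem pow_dvd_det_of_rows_ker (hπ : Prime π) [hmax : (Ideal.span {π}).IsMaximal]
    {ι : Type*} [Fintype ι] [DecidableEq ι] {Q : Type*} [AddCommGroup Q]
    [Module (O ⧸ Ideal.span {π}) Q]
    (g : (ι → O ⧸ Ideal.span {π}) →ₗ[O ⧸ Ideal.span {π}] Q) (hg : Function.Surjective g)
    (r : ℕ) (hr : r ≤ finrank (O ⧸ Ideal.span {π}) Q) (H : Matrix ι ι O)
    (hH : ∀ j, g (redRow π (H j)) = 0) : π ^ r ∣ H.det := by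
  refine pow_dvd_det_of_rows_mem hπ r H (LinearMap.ker g) ?_ (fun j => hH j)
  have h1 := LinearMap.finrank_range_add_finrank_ker g
  have h2 : finrank (O ⧸ Ideal.span {π}) (LinearMap.range g) = finrank (O ⧸ Ideal.span {π}) Q := by
    rw [LinearMap.range_eq_top.mpr hg]
    exact finrank_top _ _
  have h3 : finrank (O ⧸ Ideal.span {π}) (ι → O ⧸ Ideal.span {π}) = Fintype.card ι := by
    simp
  omega

end Fermat.Agent.S18.H213

end
-- ===== PACK-END S18/H213/DetRank.lean

-- ===== PACK-BEGIN S19/H495/Pivot.lean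
section
/-
A3 / S19 — WP-W6alg (helper495): constant-rank linear algebra over a commutative ring.

A matrix `A` over a commutative ring `R` has *constant rank at the pivot `(p, q)`* when the
square block `A[p, q]` has unit determinant and every bordered minor (the block enlarged by one
row and one column) vanishes.  Then `A = A[·, q] * A[p, q]⁻¹ * A[p, ·]`, the kernel and the image
of `A` are free direct summands with explicit bases whose entries are polynomials in the entries
of `A` divided by the pivot minor, and all of this is stable under arbitrary base change.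
-/





set_option linter.unusedSectionVars false
set_option linter.unusedSimpArgs false
set_option linter.style.longLine false

namespace Fermat.Agent.S19.H495

open Matrix

variable {R : Type*} [CommRing R]
variable {m n ι : Type*} [Fintype m] [Fintype n] [Fintype ι] [DecidableEq m] [DecidableEq n]
  [DecidableEq ι]

/-- The bordered minor of `A`: the determinant of the pivot block `A[p, q]` enlarged by the row
`i` and the column `j`. -/
noncomputable def borderedMinor (A : Matrix m n R) (p : ι → m) (q : ι → n) (i : m) (j : n) : R :=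
  (A.submatrix (Sum.elim p (fun _ : Unit => i)) (Sum.elim q (fun _ : Unit => j))).det

/-- `A` has constant rank at the pivot `(p, q)`: the pivot minor is a unit and all bordered minors
vanish. -/
def ConstRankAt (A : Matrix m n R) (p : ι → m) (q : ι → n) : Prop :=
  IsUnit (A.submatrix p q).det ∧ ∀ i j, borderedMinor A p q i j = 0

theorem borderedMinor_eq_fromBlocks (A : Matrix m n R) (p : ι → m) (q : ι → n) (i : m) (j : n) :
    borderedMinor A p q i j =
      (fromBlocks (A.submatrix p q) (A.submatrix p (fun _ : Unit => j))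
        (A.submatrix (fun _ : Unit => i) q) (A.submatrix (fun _ : Unit => i) (fun _ : Unit => j))).det := by
  unfold borderedMinor
  congr 1
  ext (a | a) (b | b) <;> rfl

/-- Schur complement form of the bordered minor. -/
theorem borderedMinor_eq (A : Matrix m n R) (p : ι → m) (q : ι → n) (i : m) (j : n)
    (h : IsUnit (A.submatrix p q).det) :
    borderedMinor A p q i j =
      (A.submatrix p q).det * (A i j - ∑ a, ∑ b, A i (q a) * (A.submatrix p q)⁻¹ a b * A (p b) j) := by
  rw [borderedMinor_eq_fromBlocks]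
  let _ := invertibleOfIsUnitDet _ h
  rw [det_fromBlocks₁₁]
  congr 1
  rw [det_unique (n := Unit)]
  simp only [Matrix.sub_apply, submatrix_apply, Matrix.mul_apply, invOf_eq_nonsing_inv,
    Finset.sum_mul]
  rw [Finset.sum_comm]

section Core

variable (A : Matrix m n R) (p : ι → m) (q : ι → n)

/-- The reduced row echelon matrix `A[p, q]⁻¹ * A[p, ·]` of `A` at the pivot `(p, q)`. -/
noncomputable def echelon : Matrix ι n R := (A.submatrix p q)⁻¹ * A.submatrix p id

/-- The reduced column echelon matrix `A[·, q] * A[p, q]⁻¹` of `A` at the pivot `(p, q)`. -/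
noncomputable def coechelon : Matrix m ι R := A.submatrix id q * (A.submatrix p q)⁻¹

variable {A p q}

theorem ConstRankAt.isUnit_det (h : ConstRankAt A p q) : IsUnit (A.submatrix p q).det := h.1

theorem ConstRankAt.entry_eq (h : ConstRankAt A p q) (i : m) (j : n) :
    A i j = ∑ a, ∑ b, A i (q a) * (A.submatrix p q)⁻¹ a b * A (p b) j := by
  have h1 := borderedMinor_eq A p q i j h.1
  rw [h.2 i j] at h1
  have h2 := h.1.mul_right_eq_zero.mp h1.symm
  exact sub_eq_zero.mp h2

/-- Rank factorisation of a matrix of constant rank. -/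
theorem ConstRankAt.factorization (h : ConstRankAt A p q) :
    A = A.submatrix id q * (A.submatrix p q)⁻¹ * A.submatrix p id := by
  ext i j
  rw [h.entry_eq i j]
  simp only [Matrix.mul_apply, submatrix_apply, id_eq, Finset.sum_mul]
  rw [Finset.sum_comm]

theorem ConstRankAt.eq_mul_echelon (h : ConstRankAt A p q) :
    A = A.submatrix id q * echelon A p q := by
  rw [echelon, ← Matrix.mul_assoc]; exact h.factorization

theorem ConstRankAt.eq_coechelon_mul (h : ConstRankAt A p q) :
    A = coechelon A p q * A.submatrix p id := h.factorization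

theorem echelon_submatrix (h : IsUnit (A.submatrix p q).det) :
    (echelon A p q).submatrix id q = 1 := by
  have : (echelon A p q).submatrix id q = (A.submatrix p q)⁻¹ * A.submatrix p q := by
    ext a b; simp [echelon, Matrix.mul_apply]
  rw [this, nonsing_inv_mul _ h]

theorem coechelon_submatrix (h : IsUnit (A.submatrix p q).det) :
    (coechelon A p q).submatrix p id = 1 := by
  have : (coechelon A p q).submatrix p id = A.submatrix p q * (A.submatrix p q)⁻¹ := by
    ext a b; simp [coechelon, Matrix.mul_apply]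
  rw [this, mul_nonsing_inv _ h]

theorem echelon_apply_pivot (h : IsUnit (A.submatrix p q).det) (a b : ι) :
    echelon A p q a (q b) = if a = b then 1 else 0 := by
  have := congrFun (congrFun (echelon_submatrix h) a) b
  simpa [Matrix.one_apply] using this

theorem coechelon_apply_pivot (h : IsUnit (A.submatrix p q).det) (a b : ι) :
    coechelon A p q (p a) b = if a = b then 1 else 0 := by
  have := congrFun (congrFun (coechelon_submatrix h) a) b
  simpa [Matrix.one_apply] using this

/-- In a nontrivial ring the column selector of a pivot is injective. -/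
theorem injective_of_isUnit_det_right [Nontrivial R] (h : IsUnit (A.submatrix p q).det) :
    Function.Injective q := by
  intro a b hab
  by_contra hne
  have h1 : echelon A p q a (q a) = 1 := by rw [echelon_apply_pivot h, if_pos rfl]
  have h2 : echelon A p q a (q b) = 0 := by rw [echelon_apply_pivot h, if_neg hne]
  rw [hab, h2] at h1
  exact zero_ne_one h1

/-- In a nontrivial ring the row selector of a pivot is injective. -/
theorem injective_of_isUnit_det_left [Nontrivial R] (h : IsUnit (A.submatrix p q).det) :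
    Function.Injective p := by
  intro a b hab
  by_contra hne
  have h1 : coechelon A p q (p a) a = 1 := by rw [coechelon_apply_pivot h, if_pos rfl]
  have h2 : coechelon A p q (p b) a = 0 := by
    rw [coechelon_apply_pivot h, if_neg (Ne.symm hne)]
  rw [hab, h2] at h1
  exact zero_ne_one h1

/-! ### The kernel -/

theorem submatrix_mulVec_eq (x : n → R) (a : ι) :
    (A.submatrix p id *ᵥ x) a = (A *ᵥ x) (p a) := rfl

theorem ConstRankAt.mulVec_eq_zero_iff_submatrix (h : ConstRankAt A p q) (x : n → R) :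
    A *ᵥ x = 0 ↔ A.submatrix p id *ᵥ x = 0 := by
  constructor
  · intro hx
    ext a
    rw [submatrix_mulVec_eq, hx]; rfl
  · intro hx
    rw [h.eq_coechelon_mul, ← Matrix.mulVec_mulVec, hx, Matrix.mulVec_zero]

theorem ConstRankAt.mulVec_eq_zero_iff_echelon (h : ConstRankAt A p q) (x : n → R) :
    A *ᵥ x = 0 ↔ echelon A p q *ᵥ x = 0 := by
  rw [h.mulVec_eq_zero_iff_submatrix]
  constructor
  · intro hx
    rw [echelon, ← Matrix.mulVec_mulVec, hx, Matrix.mulVec_zero]
  · intro hx
    have : A.submatrix p id = A.submatrix p q * echelon A p q := by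
      rw [echelon, ← Matrix.mul_assoc, mul_nonsing_inv _ h.1, Matrix.one_mul]
    rw [this, ← Matrix.mulVec_mulVec, hx, Matrix.mulVec_zero]

variable (A p q)

/-- The projector onto the kernel of `A` along the pivot coordinates:
`kerProj = 1 - S_q * echelon`, where `S_q` is the selection matrix of the pivot columns.
Its `j`-th column is `e_j - ∑ a, echelon a j • e_{q a}`. -/
noncomputable def kerProj : Matrix n n R :=
  1 - (1 : Matrix n n R).submatrix id q * echelon A p q

/-- The projector onto the image of `A` along the non-pivot coordinates: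
`imgProj = coechelon * S_p`, where `S_p` is the selection matrix of the pivot rows. -/
noncomputable def imgProj : Matrix m m R :=
  coechelon A p q * (1 : Matrix m m R).submatrix p id

variable {A p q}

theorem mul_one_submatrix_right {k : Type*} [Fintype k] (B : Matrix k n R) :
    B * (1 : Matrix n n R).submatrix id q = B.submatrix id q := by
  ext i a
  simp [Matrix.mul_apply, Matrix.one_apply]

theorem one_submatrix_mul_left {k : Type*} [Fintype k] (B : Matrix m k R) :
    (1 : Matrix m m R).submatrix p id * B = B.submatrix p id := by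
  ext a j
  simp [Matrix.mul_apply, Matrix.one_apply]

theorem echelon_mul_kerProj (h : IsUnit (A.submatrix p q).det) :
    echelon A p q * kerProj A p q = 0 := by
  rw [kerProj, Matrix.mul_sub, Matrix.mul_one, ← Matrix.mul_assoc, mul_one_submatrix_right,
    echelon_submatrix h, Matrix.one_mul, sub_self]

theorem ConstRankAt.mul_kerProj (h : ConstRankAt A p q) : A * kerProj A p q = 0 := by
  refine (congrArg (· * kerProj A p q) h.eq_mul_echelon).trans ?_
  rw [Matrix.mul_assoc, echelon_mul_kerProj h.1, Matrix.mul_zero]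

theorem kerProj_mul_kerProj (h : IsUnit (A.submatrix p q).det) :
    kerProj A p q * kerProj A p q = kerProj A p q := by
  nth_rewrite 1 [kerProj]
  rw [Matrix.sub_mul, Matrix.one_mul, Matrix.mul_assoc,
    echelon_mul_kerProj h, Matrix.mul_zero, sub_zero]

theorem kerProj_mulVec_of_echelon (x : n → R) (hx : echelon A p q *ᵥ x = 0) :
    kerProj A p q *ᵥ x = x := by
  rw [kerProj, Matrix.sub_mulVec, Matrix.one_mulVec, ← Matrix.mulVec_mulVec, hx,
    Matrix.mulVec_zero, sub_zero]

theorem ConstRankAt.kerProj_mulVec (h : ConstRankAt A p q) (x : n → R) (hx : A *ᵥ x = 0) :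
    kerProj A p q *ᵥ x = x :=
  kerProj_mulVec_of_echelon x ((h.mulVec_eq_zero_iff_echelon x).mp hx)

theorem kerProj_apply (i j : n) :
    kerProj A p q i j = (if i = j then 1 else 0) - ∑ a, (if i = q a then echelon A p q a j else 0) := by
  simp [kerProj, Matrix.mul_apply, Matrix.one_apply]

/-- The pivot columns of the kernel projector vanish. -/
theorem kerProj_submatrix_pivot (h : IsUnit (A.submatrix p q).det) :
    (kerProj A p q).submatrix id q = 0 := by
  rw [← mul_one_submatrix_right, kerProj, Matrix.sub_mul, Matrix.one_mul, Matrix.mul_assoc,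
    mul_one_submatrix_right (q := q) (echelon A p q), echelon_submatrix h, Matrix.mul_one, sub_self]

theorem kerProj_apply_pivot (h : IsUnit (A.submatrix p q).det) (i : n) (a : ι) :
    kerProj A p q i (q a) = 0 := by
  have := congrFun (congrFun (kerProj_submatrix_pivot h) i) a
  simpa using this

/-- Off the pivot rows, the kernel projector is the identity matrix. -/
theorem kerProj_apply_of_notMem (i j : n) (hi : i ∉ Set.range q) :
    kerProj A p q i j = if i = j then 1 else 0 := by
  rw [kerProj_apply]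
  have : ∀ a, (if i = q a then echelon A p q a j else 0) = 0 := by
    intro a
    rw [if_neg]
    rintro rfl
    exact hi ⟨a, rfl⟩
  simp [this]

theorem ConstRankAt.ker_eq_range_kerProj (h : ConstRankAt A p q) :
    LinearMap.ker A.mulVecLin = LinearMap.range (kerProj A p q).mulVecLin := by
  ext x
  simp only [LinearMap.mem_ker, Matrix.mulVecLin_apply, LinearMap.mem_range]
  constructor
  · intro hx
    exact ⟨x, h.kerProj_mulVec x hx⟩
  · rintro ⟨y, rfl⟩
    rw [Matrix.mulVec_mulVec, h.mul_kerProj, Matrix.zero_mulVec]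

/-- Every element of the kernel is the combination of the non-pivot columns of the kernel
projector with its own non-pivot coordinates as coefficients. -/
theorem ConstRankAt.eq_sum_kerProj (h : ConstRankAt A p q) (x : n → R) (hx : A *ᵥ x = 0) (i : n) :
    x i = ∑ j, kerProj A p q i j * x j := by
  have := congrFun (h.kerProj_mulVec x hx) i
  rw [← this]
  rfl

/-! ### The image -/

theorem ConstRankAt.imgProj_mul (h : ConstRankAt A p q) : imgProj A p q * A = A := by
  rw [imgProj, Matrix.mul_assoc, one_submatrix_mul_left]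
  exact h.eq_coechelon_mul.symm

theorem imgProj_mul_imgProj (h : IsUnit (A.submatrix p q).det) :
    imgProj A p q * imgProj A p q = imgProj A p q := by
  rw [imgProj, Matrix.mul_assoc, ← Matrix.mul_assoc ((1 : Matrix m m R).submatrix p id),
    one_submatrix_mul_left, coechelon_submatrix h, Matrix.one_mul]

theorem ConstRankAt.range_eq_range_submatrix (h : ConstRankAt A p q) :
    LinearMap.range A.mulVecLin = LinearMap.range (A.submatrix id q).mulVecLin := by
  ext y
  simp only [LinearMap.mem_range, Matrix.mulVecLin_apply]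
  constructor
  · rintro ⟨x, rfl⟩
    refine ⟨echelon A p q *ᵥ x, ?_⟩
    rw [Matrix.mulVec_mulVec, ← h.eq_mul_echelon]
  · rintro ⟨z, rfl⟩
    refine ⟨(1 : Matrix n n R).submatrix id q *ᵥ z, ?_⟩
    rw [Matrix.mulVec_mulVec, mul_one_submatrix_right]

theorem ConstRankAt.range_eq_range_imgProj (h : ConstRankAt A p q) :
    LinearMap.range A.mulVecLin = LinearMap.range (imgProj A p q).mulVecLin := by
  ext y
  simp only [LinearMap.mem_range, Matrix.mulVecLin_apply]
  constructor
  · rintro ⟨x, rfl⟩
    refine ⟨A *ᵥ x, ?_⟩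
    rw [Matrix.mulVec_mulVec, h.imgProj_mul]
  · rintro ⟨z, rfl⟩
    refine ⟨(1 : Matrix n n R).submatrix id q *ᵥ ((A.submatrix p q)⁻¹ *ᵥ
      ((1 : Matrix m m R).submatrix p id *ᵥ z)), ?_⟩
    rw [Matrix.mulVec_mulVec, Matrix.mulVec_mulVec, Matrix.mulVec_mulVec, imgProj, coechelon,
      mul_one_submatrix_right, Matrix.mul_assoc]

/-- The pivot columns of a matrix with unit pivot minor are linearly independent: the
coefficients are recovered from the pivot rows. -/
theorem submatrix_mulVec_injective (h : IsUnit (A.submatrix p q).det) :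
    Function.Injective (A.submatrix id q).mulVecLin := by
  intro x y hxy
  have h1 : ((A.submatrix p q)⁻¹ * (A.submatrix id q).submatrix p id) *ᵥ x =
      ((A.submatrix p q)⁻¹ * (A.submatrix id q).submatrix p id) *ᵥ y := by
    rw [← Matrix.mulVec_mulVec, ← Matrix.mulVec_mulVec]
    congr 1
    ext a
    exact congrFun hxy (p a)
  have h2 : (A.submatrix p q)⁻¹ * (A.submatrix id q).submatrix p id = 1 := by
    rw [show (A.submatrix id q).submatrix p id = A.submatrix p q from rfl, nonsing_inv_mul _ h]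
  rwa [h2, Matrix.one_mulVec, Matrix.one_mulVec] at h1

end Core

/-! ### Base change -/

section BaseChange

variable {S : Type*} [CommRing S] (f : R →+* S) {A : Matrix m n R} {p : ι → m} {q : ι → n}

theorem map_nonsing_inv (G : Matrix ι ι R) (h : IsUnit G.det) : (G⁻¹).map f = (G.map f)⁻¹ := by
  symm
  apply Matrix.inv_eq_right_inv
  rw [← Matrix.map_mul, mul_nonsing_inv _ h, Matrix.map_one _ f.map_zero f.map_one]

theorem borderedMinor_map (A : Matrix m n R) (p : ι → m) (q : ι → n) (i : m) (j : n) :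
    borderedMinor (A.map f) p q i j = f (borderedMinor A p q i j) := by
  unfold borderedMinor
  rw [RingHom.map_det]
  rfl

theorem det_submatrix_map (A : Matrix m n R) (p : ι → m) (q : ι → n) :
    ((A.map f).submatrix p q).det = f (A.submatrix p q).det := by
  rw [RingHom.map_det]
  rfl

/-- Constant rank at a pivot is stable under arbitrary base change. -/
theorem ConstRankAt.map (h : ConstRankAt A p q) : ConstRankAt (A.map f) p q := by
  refine ⟨?_, fun i j => ?_⟩
  · rw [det_submatrix_map]; exact h.1.map f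
  · rw [borderedMinor_map, h.2 i j, _root_.map_zero]

/-- Constant rank at a pivot descends along a local homomorphism (e.g. the reduction map of a
local ring, or an injective map from a valuation ring... with unit pivot) as soon as the
bordered minors vanish. -/
theorem ConstRankAt.of_map [IsLocalHom f] (h1 : IsUnit ((A.map f).submatrix p q).det)
    (h2 : ∀ i j, borderedMinor A p q i j = 0) : ConstRankAt A p q := by
  refine ⟨?_, h2⟩
  rw [det_submatrix_map] at h1
  exact isUnit_of_map_unit f _ h1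

theorem echelon_map (h : IsUnit (A.submatrix p q).det) :
    echelon (A.map f) p q = (echelon A p q).map f := by
  unfold echelon
  rw [Matrix.map_mul, map_nonsing_inv f _ h]
  rfl

theorem coechelon_map (h : IsUnit (A.submatrix p q).det) :
    coechelon (A.map f) p q = (coechelon A p q).map f := by
  unfold coechelon
  rw [Matrix.map_mul, map_nonsing_inv f _ h]
  rfl

theorem kerProj_map (h : IsUnit (A.submatrix p q).det) :
    kerProj (A.map f) p q = (kerProj A p q).map f := by
  unfold kerProj
  rw [echelon_map f h]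
  ext i j
  simp [Matrix.mul_apply, Matrix.one_apply, apply_ite f]

theorem imgProj_map (h : IsUnit (A.submatrix p q).det) :
    imgProj (A.map f) p q = (imgProj A p q).map f := by
  unfold imgProj
  rw [coechelon_map f h]
  ext i j
  simp [Matrix.mul_apply, Matrix.one_apply, apply_ite f]

end BaseChange

/-! ### Freeness of kernel and image -/

section Free

variable {A : Matrix m n R} {p : ι → m} {q : ι → n}

open Classical in
/-- Extension by zero of a vector indexed by the non-pivot columns. -/
noncomputable def extendNonPivot (q : ι → n) (y : {j // j ∉ Set.range q} → R) : n → R :=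
  fun j => if h : j ∉ Set.range q then y ⟨j, h⟩ else 0

theorem extendNonPivot_apply_of_notMem (y : {j // j ∉ Set.range q} → R) (j : n)
    (h : j ∉ Set.range q) : extendNonPivot q y j = y ⟨j, h⟩ := by
  unfold extendNonPivot; rw [dif_pos h]

theorem extendNonPivot_apply_pivot (y : {j // j ∉ Set.range q} → R) (a : ι) :
    extendNonPivot q y (q a) = 0 := by
  unfold extendNonPivot; rw [dif_neg]; exact fun h => h ⟨a, rfl⟩

/-- Two vectors with the same non-pivot coordinates have the same image under the kernel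
projector. -/
theorem kerProj_mulVec_congr (h : IsUnit (A.submatrix p q).det) (x y : n → R)
    (hxy : ∀ j, j ∉ Set.range q → x j = y j) : kerProj A p q *ᵥ x = kerProj A p q *ᵥ y := by
  ext i
  simp only [Matrix.mulVec, dotProduct]
  refine Finset.sum_congr rfl fun j _ => ?_
  by_cases hj : j ∈ Set.range q
  · obtain ⟨a, rfl⟩ := hj
    rw [kerProj_apply_pivot h, _root_.MulZeroClass.zero_mul, _root_.MulZeroClass.zero_mul]
  · rw [hxy j hj]

theorem kerProj_mulVec_apply_of_notMem (x : n → R) (i : n) (hi : i ∉ Set.range q) :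
    (kerProj A p q *ᵥ x) i = x i := by
  simp only [Matrix.mulVec, dotProduct, kerProj_apply_of_notMem i _ hi]
  simp

/-- The kernel of a matrix of constant rank is free on the non-pivot columns: the coordinates
of a kernel vector at the non-pivot columns are arbitrary and determine it. -/
noncomputable def ConstRankAt.kerEquiv (h : ConstRankAt A p q) :
    LinearMap.ker A.mulVecLin ≃ₗ[R] ({j // j ∉ Set.range q} → R) where
  toFun x := fun j => x.1 j.1
  map_add' _ _ := rfl
  map_smul' _ _ := rfl
  invFun y := ⟨kerProj A p q *ᵥ extendNonPivot q y, by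
    rw [LinearMap.mem_ker, Matrix.mulVecLin_apply, Matrix.mulVec_mulVec, h.mul_kerProj,
      Matrix.zero_mulVec]⟩
  left_inv x := by
    apply Subtype.ext
    have hx : A *ᵥ x.1 = 0 := x.2
    show kerProj A p q *ᵥ extendNonPivot q (fun j => x.1 j.1) = x.1
    rw [kerProj_mulVec_congr h.1 _ x.1 fun j hj => extendNonPivot_apply_of_notMem _ j hj]
    exact h.kerProj_mulVec x.1 hx
  right_inv y := by
    funext j
    show (kerProj A p q *ᵥ extendNonPivot q y) j.1 = y j
    rw [kerProj_mulVec_apply_of_notMem _ _ j.2, extendNonPivot_apply_of_notMem _ _ j.2]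

theorem ConstRankAt.kerEquiv_apply (h : ConstRankAt A p q) (x : LinearMap.ker A.mulVecLin)
    (j : {j // j ∉ Set.range q}) : h.kerEquiv x j = x.1 j.1 := rfl

theorem ConstRankAt.kerEquiv_symm_apply (h : ConstRankAt A p q)
    (y : {j // j ∉ Set.range q} → R) :
    ((h.kerEquiv.symm y : LinearMap.ker A.mulVecLin) : n → R) =
      kerProj A p q *ᵥ extendNonPivot q y := rfl

/-- The image of a matrix of constant rank is free on the pivot columns. -/
noncomputable def ConstRankAt.rangeEquiv (h : ConstRankAt A p q) :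
    (ι → R) ≃ₗ[R] LinearMap.range A.mulVecLin :=
  (LinearEquiv.ofInjective _ (submatrix_mulVec_injective h.1)).trans
    (LinearEquiv.ofEq _ _ h.range_eq_range_submatrix.symm)

theorem ConstRankAt.rangeEquiv_apply (h : ConstRankAt A p q) (c : ι → R) :
    ((h.rangeEquiv c : LinearMap.range A.mulVecLin) : m → R) = A.submatrix id q *ᵥ c := rfl

/-- The coefficients of an element of the image on the pivot columns are its coordinates at the
pivot rows, transformed by the inverse pivot block. -/
theorem ConstRankAt.rangeEquiv_symm_apply (h : ConstRankAt A p q)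
    (y : LinearMap.range A.mulVecLin) :
    h.rangeEquiv.symm y = (A.submatrix p q)⁻¹ *ᵥ (fun a => y.1 (p a)) := by
  obtain ⟨c, rfl⟩ := h.rangeEquiv.surjective y
  rw [LinearEquiv.symm_apply_apply, h.rangeEquiv_apply]
  have : (fun a => (A.submatrix id q *ᵥ c) (p a)) = A.submatrix p q *ᵥ c := rfl
  rw [this, Matrix.mulVec_mulVec, nonsing_inv_mul _ h.1, Matrix.one_mulVec]

theorem ConstRankAt.free_ker (h : ConstRankAt A p q) :
    Module.Free R (LinearMap.ker A.mulVecLin) :=
  Module.Free.of_equiv h.kerEquiv.symm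

theorem ConstRankAt.free_range (h : ConstRankAt A p q) :
    Module.Free R (LinearMap.range A.mulVecLin) :=
  Module.Free.of_equiv h.rangeEquiv

/-- The image of a matrix of constant rank is a direct summand: it is complemented by the
kernel of the image projector. -/
theorem ConstRankAt.isCompl_range (h : ConstRankAt A p q) :
    IsCompl (LinearMap.range A.mulVecLin) (LinearMap.ker (imgProj A p q).mulVecLin) := by
  rw [h.range_eq_range_imgProj]
  apply LinearMap.IsIdempotentElem.isCompl
  show (imgProj A p q).mulVecLin * (imgProj A p q).mulVecLin = (imgProj A p q).mulVecLin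
  rw [Module.End.mul_eq_comp, ← Matrix.mulVecLin_mul, imgProj_mul_imgProj h.1]

/-- The kernel of a matrix of constant rank is a direct summand: it is complemented by the
kernel of the kernel projector (the span of the pivot coordinate vectors). -/
theorem ConstRankAt.isCompl_ker (h : ConstRankAt A p q) :
    IsCompl (LinearMap.ker A.mulVecLin) (LinearMap.ker (kerProj A p q).mulVecLin) := by
  rw [h.ker_eq_range_kerProj]
  apply LinearMap.IsIdempotentElem.isCompl
  show (kerProj A p q).mulVecLin * (kerProj A p q).mulVecLin = (kerProj A p q).mulVecLin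
  rw [Module.End.mul_eq_comp, ← Matrix.mulVecLin_mul, kerProj_mul_kerProj h.1]

end Free

end Fermat.Agent.S19.H495

end
-- ===== PACK-END S19/H495/Pivot.lean

-- ===== PACK-BEGIN S29/H571/FiniteLevel.lean
section



/-!
# Torsion divisor classes of `JZero N` have finite level
(helper571, piece FINLEVEL of the S29 route)

Every element `f` of the function field `laurentBaseChange ℚ̄ F₀ ⊆ ℚ̄((q))` has its coefficients
"in a finite extension": it is fixed by `Gal(ℚ̄/L)` for some finite `L/ℚ`
(`seriesFiniteLevel_of_mem`).  If `n • x = 0` in `Pic0`, `n ≠ 0`, write `x = [D]`,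
`n D = div f`; every `σ` fixing `f` fixes `n D`, hence `D` (divisors are torsion-free).
So the stabiliser of a torsion class contains `Gal(ℚ̄/L)` for a finite (even finite normal) `L`.
-/

set_option autoImplicit false
set_option linter.style.haveILetI false

noncomputable section

namespace Fermat.Agent.S29.H571

open AlgebraicCurve ModularCurve IntermediateField

/-- `f` is fixed coefficientwise by `Gal(ℚ̄/L)` for some finite `L/ℚ`. -/
def SeriesFiniteLevel (f : LaurentSeries (AlgebraicClosure ℚ)) : Prop :=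
  ∃ L : IntermediateField ℚ (AlgebraicClosure ℚ), FiniteDimensional ℚ L ∧
    ∀ σ : AlgebraicClosure ℚ ≃ₐ[ℚ] AlgebraicClosure ℚ, (∀ a ∈ L, σ a = a) →
      coeffMap (σ : AlgebraicClosure ℚ →+* AlgebraicClosure ℚ) f = f

theorem SeriesFiniteLevel.binary {f g h : LaurentSeries (AlgebraicClosure ℚ)}
    (hf : SeriesFiniteLevel f) (hg : SeriesFiniteLevel g)
    (H : ∀ σ : AlgebraicClosure ℚ ≃ₐ[ℚ] AlgebraicClosure ℚ,
      coeffMap (σ : AlgebraicClosure ℚ →+* AlgebraicClosure ℚ) f = f →
      coeffMap (σ : AlgebraicClosure ℚ →+* AlgebraicClosure ℚ) g = g →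
      coeffMap (σ : AlgebraicClosure ℚ →+* AlgebraicClosure ℚ) h = h) :
    SeriesFiniteLevel h := by
  obtain ⟨L₁, hL₁, h₁⟩ := hf
  obtain ⟨L₂, hL₂, h₂⟩ := hg
  refine ⟨L₁ ⊔ L₂, inferInstance, fun σ hσ => H σ (h₁ σ fun a ha => hσ a ?_)
    (h₂ σ fun a ha => hσ a ?_)⟩
  · exact (le_sup_left : L₁ ≤ L₁ ⊔ L₂) ha
  · exact (le_sup_right : L₂ ≤ L₁ ⊔ L₂) ha

theorem SeriesFiniteLevel.unary {f h : LaurentSeries (AlgebraicClosure ℚ)}
    (hf : SeriesFiniteLevel f)
    (H : ∀ σ : AlgebraicClosure ℚ ≃ₐ[ℚ] AlgebraicClosure ℚ,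
      coeffMap (σ : AlgebraicClosure ℚ →+* AlgebraicClosure ℚ) f = f →
      coeffMap (σ : AlgebraicClosure ℚ →+* AlgebraicClosure ℚ) h = h) :
    SeriesFiniteLevel h :=
  hf.binary hf fun σ h₁ _ => H σ h₁

theorem seriesFiniteLevel_of_mem {F₀ : IntermediateField ℚ (LaurentSeries ℚ)}
    {f : LaurentSeries (AlgebraicClosure ℚ)}
    (hf : f ∈ laurentBaseChange (AlgebraicClosure ℚ) F₀) : SeriesFiniteLevel f := by
  rw [mem_laurentBaseChange_iff] at hf
  induction hf using Subfield.closure_induction with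
  | mem y hy =>
      rcases hy with ⟨a, rfl⟩ | ⟨z, _, rfl⟩
      · haveI : Algebra.IsAlgebraic ℚ (AlgebraicClosure ℚ) := AlgebraicClosure.isAlgebraic ℚ
        have ha : IsIntegral ℚ a := (Algebra.IsAlgebraic.isAlgebraic a).isIntegral
        refine ⟨ℚ⟮a⟯, IntermediateField.adjoin.finiteDimensional ha, fun σ hσ => ?_⟩
        rw [coeffMap_algebraMap]
        congr 1
        exact hσ a (IntermediateField.mem_adjoin_simple_self ℚ a)
      · exact ⟨⊥, inferInstance, fun σ _ => coeffMap_coeffEmb σ z⟩
  | one => exact ⟨⊥, inferInstance, fun σ _ => map_one _⟩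
  | add x y _ _ hx hy =>
      exact hx.binary hy fun σ h₁ h₂ => by rw [map_add, h₁, h₂]
  | neg x _ hx => exact hx.unary fun σ h₁ => by rw [map_neg, h₁]
  | inv x _ hx => exact hx.unary fun σ h₁ => by rw [map_inv₀, h₁]
  | mul x y _ _ hx hy =>
      exact hx.binary hy fun σ h₁ h₂ => by rw [map_mul, h₁, h₂]

section Pic

variable (F₀ : IntermediateField ℚ (LaurentSeries ℚ))

/-- A Galois element fixing the function `f` with `n D = div f`, `n ≠ 0`, fixes the class
of `D`. -/
theorem smul_mk_eq_of_fixes (σ : AlgebraicClosure ℚ ≃ₐ[ℚ] AlgebraicClosure ℚ)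
    (D : Divisor.degZero (K := AlgebraicClosure ℚ)
      (F := laurentBaseChange (AlgebraicClosure ℚ) F₀))
    {n : ℤ} (hn : n ≠ 0) (f : laurentBaseChange (AlgebraicClosure ℚ) F₀)
    (hD : ∀ v : Place (AlgebraicClosure ℚ) (laurentBaseChange (AlgebraicClosure ℚ) F₀),
      n * (D : Divisor _ _) v = v.ord f)
    (hσ : coeffMap (σ : AlgebraicClosure ℚ →+* AlgebraicClosure ℚ)
      (f : LaurentSeries (AlgebraicClosure ℚ)) = f) :
    σ • (Pic0.mk D) = Pic0.mk D := by
  set g := arithmeticGalois F₀ σ with hg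
  have hgf : g • f = f := Subtype.ext (by rw [coe_arithmeticGalois_smul, hσ])
  have hgf' : g⁻¹ • f = f := by
    conv_lhs => rw [← hgf]
    exact inv_smul_smul g f
  rw [galois_smul_pic0_def, SemilinearAut.pic0_smul_mk]
  refine congrArg Pic0.mk (Subtype.ext ?_)
  rw [SemilinearAut.coe_degZeroSMulHom]
  ext w
  rw [SemilinearAut.divisor_smul_apply]
  have h1 := hD (g⁻¹ • w)
  have h2 := hD w
  have h3 : (g⁻¹ • w).ord f = w.ord f := by
    have := SemilinearAut.ord_smul g⁻¹ w f
    rwa [hgf'] at this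
  rw [h3, ← h2] at h1
  exact mul_left_cancel₀ hn h1

/-- **FINLEVEL.** A torsion class of `Pic0` of a function field `laurentBaseChange ℚ̄ F₀` is fixed
by `Gal(ℚ̄/L)` for some finite extension `L/ℚ`. -/
theorem exists_finiteLevel_of_zsmul_eq_zero
    (x : Pic0 (AlgebraicClosure ℚ) (laurentBaseChange (AlgebraicClosure ℚ) F₀))
    {n : ℤ} (hn : n ≠ 0) (hx : n • x = 0) :
    ∃ L : IntermediateField ℚ (AlgebraicClosure ℚ), FiniteDimensional ℚ L ∧
      ∀ σ : AlgebraicClosure ℚ ≃ₐ[ℚ] AlgebraicClosure ℚ, (∀ a ∈ L, σ a = a) → σ • x = x := by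
  obtain ⟨D, rfl⟩ := Pic0.mk_surjective x
  have h0 : Pic0.mk (n • D) = 0 := by
    rw [← hx]
    exact map_zsmul (QuotientAddGroup.mk' _) n D
  have h1 : ((n • D : Divisor.degZero (K := AlgebraicClosure ℚ)
      (F := laurentBaseChange (AlgebraicClosure ℚ) F₀)) : Divisor _ _)
      ∈ Divisor.principal (K := AlgebraicClosure ℚ)
        (F := laurentBaseChange (AlgebraicClosure ℚ) F₀) := by
    have := (QuotientAddGroup.eq_zero_iff _).mp h0
    exact AddSubgroup.mem_addSubgroupOf.mp this
  obtain ⟨f, -, hf⟩ := h1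
  obtain ⟨L, hL, hLσ⟩ := seriesFiniteLevel_of_mem (F₀ := F₀) f.2
  refine ⟨L, hL, fun σ hσ => smul_mk_eq_of_fixes F₀ σ D hn f (fun v => ?_) (hLσ σ hσ)⟩
  rw [← hf v]
  simp

/-- Normal version of FINLEVEL: the finite extension can be taken normal over `ℚ`. -/
theorem exists_normal_finiteLevel_of_zsmul_eq_zero
    (x : Pic0 (AlgebraicClosure ℚ) (laurentBaseChange (AlgebraicClosure ℚ) F₀))
    {n : ℤ} (hn : n ≠ 0) (hx : n • x = 0) :
    ∃ L : IntermediateField ℚ (AlgebraicClosure ℚ), FiniteDimensional ℚ L ∧ Normal ℚ L ∧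
      ∀ σ : AlgebraicClosure ℚ ≃ₐ[ℚ] AlgebraicClosure ℚ, (∀ a ∈ L, σ a = a) → σ • x = x := by
  obtain ⟨L, hL, h⟩ := exists_finiteLevel_of_zsmul_eq_zero F₀ x hn hx
  haveI : Algebra.IsAlgebraic ℚ (AlgebraicClosure ℚ) := AlgebraicClosure.isAlgebraic ℚ
  haveI : IsAlgClosure ℚ (AlgebraicClosure ℚ) := ⟨inferInstance, inferInstance⟩
  haveI : Normal ℚ (AlgebraicClosure ℚ) := IsAlgClosure.normal ℚ (AlgebraicClosure ℚ)
  refine ⟨IntermediateField.normalClosure ℚ L (AlgebraicClosure ℚ),
    normalClosure.is_finiteDimensional ℚ L (AlgebraicClosure ℚ),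
    normalClosure.normal ℚ L (AlgebraicClosure ℚ), fun σ hσ => h σ fun a ha => hσ a ?_⟩
  exact IntermediateField.le_normalClosure L ha

/-- Elements of a normal intermediate field stay in it under every automorphism. -/
theorem map_mem_of_normal (L : IntermediateField ℚ (AlgebraicClosure ℚ)) [Normal ℚ L]
    (τ : AlgebraicClosure ℚ ≃ₐ[ℚ] AlgebraicClosure ℚ) {a : AlgebraicClosure ℚ} (ha : a ∈ L) :
    τ a ∈ L := by
  haveI : Algebra.IsAlgebraic ℚ (AlgebraicClosure ℚ) := AlgebraicClosure.isAlgebraic ℚ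
  haveI : IsAlgClosure ℚ (AlgebraicClosure ℚ) := ⟨inferInstance, inferInstance⟩
  haveI : Normal ℚ (AlgebraicClosure ℚ) := IsAlgClosure.normal ℚ (AlgebraicClosure ℚ)
  exact (IntermediateField.normal_iff_forall_map_le'.mp (inferInstance : Normal ℚ L)) τ
    ⟨a, ha, rfl⟩

/-- If `σ` fixes a normal `L` pointwise, so does every conjugate `τ⁻¹ σ τ`. -/
theorem conj_fixes_of_normal (L : IntermediateField ℚ (AlgebraicClosure ℚ)) [Normal ℚ L]
    (σ τ : AlgebraicClosure ℚ ≃ₐ[ℚ] AlgebraicClosure ℚ) (hσ : ∀ a ∈ L, σ a = a) :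
    ∀ a ∈ L, (τ⁻¹ * σ * τ) a = a := by
  intro a ha
  show τ⁻¹ (σ (τ a)) = a
  rw [hσ (τ a) (map_mem_of_normal L τ ha)]
  exact τ.symm_apply_apply a

end Pic

end Fermat.Agent.S29.H571

end
end
-- ===== PACK-END S29/H571/FiniteLevel.lean

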