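import Mathlib
import Fermat.Prelude.Def_GaloisRep_DeformationCondition
import Fermat.Prelude.Thm_IsLocalRing_isAdicComplete_of_module_finite
import Fermat.Prelude.Def_GaloisRep_StrictOrdinary
import Fermat.Prelude.Def_GaloisRep_Flat
import Fermat.Prelude.Def_FLTPrelim_Ramification
import Mathlib.FieldTheory.Galois.Infinite
import Mathlib.FieldTheory.KrullTopology
import Mathlib.RingTheory.Valuation.RamificationGroup
import Fermat.Prelude.Def_ModularCurve_ReductionModL
import Fermat.Prelude.Def_ModularCurve_LaurentCoeff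

-- ===== PACK-BEGIN S18/B12/H693/RedBasis.lean
section
/-
S18 / Route K / b2, leaf P4 = `RedBasisStatement` (helper693).  Mathlib-only.

A finite torsion-free algebra `R₁` over a PID `R` has a family which is `R`-linearly independent
modulo nilpotents and spans `R₁` modulo nilpotents (`R₁ / nilradical` is finite free).
-/


set_option autoImplicit false

namespace Fermat.Agent.S18.B12.H693

open Module

/-- `R₁ / nilradical` is torsion-free over `R` if `R₁` is. -/
theorem isTorsionFree_quotient_nilradical (R : Type*) [CommRing R] [IsDomain R]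
    (R₁ : Type*) [CommRing R₁] [Algebra R R₁] [Module.IsTorsionFree R R₁] :
    Module.IsTorsionFree R (R₁ ⧸ nilradical R₁) := by
  rw [Module.isTorsionFree_iff_smul_eq_zero]
  intro r m hrm
  by_cases hr : r = 0
  · exact Or.inl hr
  right
  obtain ⟨x, rfl⟩ := Ideal.Quotient.mk_surjective m
  have h1 : Ideal.Quotient.mk (nilradical R₁) (r • x) = 0 := by
    rw [← hrm]; rfl
  rw [Ideal.Quotient.eq_zero_iff_mem, mem_nilradical] at h1 ⊢
  obtain ⟨k, hk⟩ := h1
  refine ⟨k, ?_⟩
  rw [smul_pow] at hk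
  exact (smul_eq_zero.mp hk).resolve_left (pow_ne_zero k hr)

/-- **P4 (reduced basis)**, explicit form of `Fermat.Agent.S18.B12.RedBasisStatement`. -/
theorem exists_redBasis (R : Type*) [CommRing R] [IsDomain R] [IsPrincipalIdealRing R]
    (R₁ : Type*) [CommRing R₁] [Algebra R R₁] [Module.Finite R R₁] [Module.IsTorsionFree R R₁] :
    ∃ (r : ℕ) (y : Fin r → R₁),
      (∀ a : Fin r → R, IsNilpotent (∑ i, a i • y i) → a = 0) ∧
      (∀ x : R₁, ∃ a : Fin r → R, IsNilpotent (x - ∑ i, a i • y i)) := by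
  classical
  have htf : Module.IsTorsionFree R (R₁ ⧸ nilradical R₁) :=
    isTorsionFree_quotient_nilradical R R₁
  have hfin : Module.Finite R (R₁ ⧸ nilradical R₁) :=
    Module.Finite.of_surjective (Ideal.Quotient.mkₐ R (nilradical R₁)).toLinearMap
      (Ideal.Quotient.mkₐ_surjective R (nilradical R₁))
  have hfree : Module.Free R (R₁ ⧸ nilradical R₁) := Module.free_of_finite_type_torsion_free'
  let bQ : Basis (Fin (finrank R (R₁ ⧸ nilradical R₁))) R (R₁ ⧸ nilradical R₁) :=
    Module.finBasis R _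
  choose y hy using fun i => Ideal.Quotient.mk_surjective (bQ i)
  have hsum : ∀ a : Fin (finrank R (R₁ ⧸ nilradical R₁)) → R,
      Ideal.Quotient.mk (nilradical R₁) (∑ i, a i • y i) = ∑ i, a i • bQ i := by
    intro a
    rw [map_sum]
    refine Finset.sum_congr rfl fun i _ => ?_
    rw [← hy i]
    rfl
  refine ⟨_, y, ?_, ?_⟩
  · intro a ha
    have h0 : ∑ i, a i • bQ i = 0 := by
      rw [← hsum, Ideal.Quotient.eq_zero_iff_mem, mem_nilradical]
      exact ha
    have := (Fintype.linearIndependent_iff.mp bQ.linearIndependent) a h0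
    exact funext this
  · intro x
    refine ⟨fun i => bQ.repr (Ideal.Quotient.mk (nilradical R₁) x) i, ?_⟩
    rw [← mem_nilradical, ← Ideal.Quotient.eq_zero_iff_mem, map_sub, hsum, bQ.sum_repr, sub_self]

end Fermat.Agent.S18.B12.H693

end
-- ===== PACK-END S18/B12/H693/RedBasis.lean

-- ===== PACK-BEGIN S18/H274/Dedekind.lean
section


/-!
# S18 / b2 (helper274) — a Bezout-type splitting in Dedekind domains

Mathlib-only.  For `p q : C` in a Dedekind domain with `q ≠ 0` (think of the fraction `u = p/q`),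
the fractional ideal `C + C u` is invertible; unwinding `1 ∈ (C + C u) (C + C u)⁻¹` gives
elements `β₀ β₀' z z₁ : C` with

  `β₀ + z = 1`,  `z * q = β₀' * p`  (`z = β₀' u`),  `z₁ * q = β₀ * p`  (`z₁ = β₀ u`).

This is the only place where the TAME discriminant bound uses that `C` is integrally closed.
-/

namespace Fermat.Agent.S18.H274

open scoped nonZeroDivisors

theorem exists_split_of_isDedekindDomain {C : Type*} [CommRing C] [IsDedekindDomain C]
    (p q : C) (hq : q ≠ 0) :
    ∃ β₀ β₀' z z₁ : C, β₀ + z = 1 ∧ z * q = β₀' * p ∧ z₁ * q = β₀ * p := by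
  classical
  let K := FractionRing C
  have hinj : Function.Injective (algebraMap C K) := IsFractionRing.injective C K
  have hqK : algebraMap C K q ≠ 0 := fun h => hq (hinj (by rw [h, map_zero]))
  let u : K := algebraMap C K p / algebraMap C K q
  let 𝔟 : FractionalIdeal C⁰ K := 1 + FractionalIdeal.spanSingleton C⁰ u
  have h1𝔟 : (1 : K) ∈ 𝔟 := by
    rw [FractionalIdeal.mem_add]
    exact ⟨1, FractionalIdeal.one_mem_one _, 0, Submodule.zero_mem _, add_zero 1⟩
  have hu𝔟 : u ∈ 𝔟 := by
    rw [FractionalIdeal.mem_add]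
    exact ⟨0, Submodule.zero_mem _, u, FractionalIdeal.mem_spanSingleton_self _ u, zero_add u⟩
  have h𝔟 : 𝔟 ≠ 0 := by
    intro h
    rw [h] at h1𝔟
    exact one_ne_zero ((FractionalIdeal.mem_zero_iff _).mp h1𝔟)
  have hinv : 𝔟 * 𝔟⁻¹ = 1 := mul_inv_cancel₀ h𝔟
  have h1 : (1 : K) ∈ 𝔟 * 𝔟⁻¹ := by
    rw [hinv]
    exact FractionalIdeal.one_mem_one _
  have hsplit : 𝔟 * 𝔟⁻¹ = 𝔟⁻¹ + FractionalIdeal.spanSingleton C⁰ u * 𝔟⁻¹ := by
    simp only [𝔟, add_mul, one_mul]
  rw [hsplit, FractionalIdeal.mem_add] at h1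
  obtain ⟨p₁, hp₁, q₁, hq₁, hsum⟩ := h1
  rw [FractionalIdeal.mem_singleton_mul] at hq₁
  obtain ⟨β', hβ', rfl⟩ := hq₁
  rw [FractionalIdeal.mem_inv_iff h𝔟] at hp₁ hβ'
  obtain ⟨β₀, hβ₀⟩ := (FractionalIdeal.mem_one_iff _).mp (hp₁ 1 h1𝔟)
  obtain ⟨z₁, hz₁⟩ := (FractionalIdeal.mem_one_iff _).mp (hp₁ u hu𝔟)
  obtain ⟨β₀', hβ₀'⟩ := (FractionalIdeal.mem_one_iff _).mp (hβ' 1 h1𝔟)
  obtain ⟨z, hz⟩ := (FractionalIdeal.mem_one_iff _).mp (hβ' u hu𝔟)
  rw [mul_one] at hβ₀ hβ₀'
  refine ⟨β₀, β₀', z, z₁, ?_, ?_, ?_⟩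
  · apply hinj
    rw [map_add, map_one, hβ₀, hz, ← hsum, mul_comm]
  · apply hinj
    rw [map_mul, map_mul, hz, hβ₀']
    simp only [u]
    rw [mul_assoc, div_mul_cancel₀ _ hqK]
  · apply hinj
    rw [map_mul, map_mul, hz₁, hβ₀]
    simp only [u]
    rw [mul_assoc, div_mul_cancel₀ _ hqK]

end Fermat.Agent.S18.H274

end
-- ===== PACK-END S18/H274/Dedekind.lean

-- ===== PACK-BEGIN S18/H754/HncRadical.lean
section


/-!
# S18 / ALG-FRONT / hNC adapter, part N1: a radical criterion for principal ideals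

`B` a Noetherian integrally closed domain, `π ≠ 0`.  If `π` generates `𝔓 B_𝔓` for every height-one
prime `𝔓 ∋ π` (elementwise: `∀ b ∈ 𝔓, ∃ s ∉ 𝔓, π ∣ s * b`), then `(π)` is a radical ideal.

Proof: an associated prime `P = (π : c)` of `B/π` is of height one (`y = c/π` satisfies
`y P ⊆ B`, `y P ⊄ P` by integral closedness, so `P` is locally principal; Krull).
-/

set_option autoImplicit false

noncomputable section

namespace Fermat.Agent.S18.H754

section Radical

variable {B : Type*} [CommRing B] [IsDomain B] [IsNoetherianRing B] [IsIntegrallyClosed B]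

/-- An associated prime of `B/π` (`B` Noetherian normal domain, `π ≠ 0`) has height one. -/
theorem height_eq_one_of_eq_colon (π c : B) (hπ : π ≠ 0) (hc : ¬ π ∣ c)
    (P : Ideal B) (hP : P.IsPrime) (hPc : ∀ s : B, s ∈ P ↔ π ∣ s * c) : P.height = 1 := by
  classical
  have hπP : π ∈ P := (hPc π).2 (Dvd.intro _ rfl)
  -- the map `φ : P → B`, `t ↦ t c / π`
  have hφ : ∀ t ∈ P, ∃ d : B, t * c = π * d := fun t ht => (hPc t).1 ht
  -- there is `a ∈ P` with `a c / π ∉ P`
  have hex : ∃ a ∈ P, ∃ s : B, s ∉ P ∧ a * c = π * s := by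
    by_contra hcon
    -- then `y = c / π` stabilises `P`, hence is integral, hence lies in `B`
    let F := FractionRing B
    have hinj : Function.Injective (algebraMap B F) := IsFractionRing.injective B F
    have hπF : algebraMap B F π ≠ 0 := fun h => hπ (hinj (by rw [h, map_zero]))
    set y : F := algebraMap B F c / algebraMap B F π with hy
    let N : Submodule B F := Submodule.map (Algebra.linearMap B F) P
    have hN0 : N ≠ ⊥ := by
      intro h
      have : algebraMap B F π ∈ N := ⟨π, hπP, rfl⟩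
      rw [h, Submodule.mem_bot] at this
      exact hπF this
    have hNfg : N.FG := Submodule.FG.map _ (IsNoetherian.noetherian P)
    have hstab : ∀ n ∈ N, y • n ∈ N := by
      rintro n ⟨t, ht, rfl⟩
      obtain ⟨d, hd⟩ := hφ t ht
      have hdP : d ∈ P := by
        by_contra hdP
        exact hcon ⟨t, ht, d, hdP, hd⟩
      refine ⟨d, hdP, ?_⟩
      simp only [Algebra.linearMap_apply, smul_eq_mul, hy]
      have := congrArg (algebraMap B F) hd
      simp only [map_mul] at this
      rw [div_mul_eq_mul_div, eq_div_iff hπF, mul_comm (algebraMap B F d), ← this]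
      ring
    have hint : IsIntegral B y := isIntegral_of_smul_mem_submodule N hN0 hNfg y hstab
    obtain ⟨y', hy'⟩ := IsIntegrallyClosed.isIntegral_iff.1 hint
    apply hc
    refine ⟨y', ?_⟩
    apply hinj
    rw [map_mul, hy', hy, mul_div_assoc', mul_div_cancel_left₀ _ hπF]
  obtain ⟨a, haP, s, hsP, has⟩ := hex
  -- `s P ⊆ a B`
  have hsP' : ∀ t ∈ P, a ∣ s * t := by
    intro t ht
    obtain ⟨d, hd⟩ := hφ t ht
    refine ⟨d, ?_⟩
    have h1 : π * (s * t) = π * (a * d) := by
      calc π * (s * t) = (π * s) * t := by ring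
        _ = (a * c) * t := by rw [has]
        _ = a * (t * c) := by ring
        _ = a * (π * d) := by rw [hd]
        _ = π * (a * d) := by ring
    exact mul_left_cancel₀ hπ h1
  -- `P` is minimal over `(a)`
  have hmin : P ∈ (Ideal.span {a}).minimalPrimes := by
    refine ⟨⟨hP, (Ideal.span_singleton_le_iff_mem _).2 haP⟩, ?_⟩
    rintro Q ⟨hQ, haQ⟩ hQP t ht
    have h1 : s * t ∈ Q := by
      obtain ⟨d, hd⟩ := hsP' t ht
      rw [hd]
      exact Ideal.mul_mem_right _ _ ((Ideal.span_singleton_le_iff_mem _).1 haQ)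
    rcases hQ.mem_or_mem h1 with h2 | h2
    · exact absurd (hQP h2) hsP
    · exact h2
  apply le_antisymm
  · exact Ideal.height_le_one_of_isPrincipal_of_mem_minimalPrimes (Ideal.span {a}) P hmin
  · rw [Order.one_le_iff_pos, pos_iff_ne_zero]
    intro h0
    haveI := hP
    rw [Ideal.height_eq_zero_iff, IsDomain.minimalPrimes_eq_singleton_bot] at h0
    rw [Set.mem_singleton_iff] at h0
    rw [h0, Ideal.mem_bot] at hπP
    exact hπ hπP

/-- **Radical criterion.**  If `π` generates `𝔓 B_𝔓` at every height-one prime `𝔓 ∋ π`, then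
`(π)` is radical. -/
theorem isRadical_span_singleton_of_local_gen (π : B) (hπ : π ≠ 0)
    (h : ∀ 𝔓 : Ideal B, 𝔓.IsPrime → 𝔓.height = 1 → π ∈ 𝔓 →
      ∀ b ∈ 𝔓, ∃ s : B, s ∉ 𝔓 ∧ π ∣ s * b) :
    (Ideal.span {π}).IsRadical := by
  classical
  intro b hb
  obtain ⟨n, hn⟩ := hb
  by_contra hbπ
  have hx : (Ideal.Quotient.mk (Ideal.span {π}) b) ≠ 0 := by
    rwa [Ne, Ideal.Quotient.eq_zero_iff_mem]
  obtain ⟨P, hPass, hle⟩ :=
    exists_le_isAssociatedPrime_of_isNoetherianRing B (M := B ⧸ Ideal.span {π}) _ hx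
  rw [isAssociatedPrime_iff] at hPass
  obtain ⟨hP, x, hPx⟩ := hPass
  obtain ⟨c, rfl⟩ := Ideal.Quotient.mk_surjective x
  have hPc : ∀ s : B, s ∈ P ↔ π ∣ s * c := by
    intro s
    rw [hPx, Submodule.mem_colon_singleton, Submodule.mem_bot]
    rw [← Ideal.mem_span_singleton, ← Ideal.Quotient.eq_zero_iff_mem, map_mul]
    rfl
  have hc : ¬ π ∣ c := by
    intro hd
    apply hP.ne_top
    rw [Ideal.eq_top_iff_one, hPc, one_mul]
    exact hd
  have hht : P.height = 1 := height_eq_one_of_eq_colon π c hπ hc P hP hPc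
  have hπP : π ∈ P := (hPc π).2 (Dvd.intro _ rfl)
  have hbP : b ∈ P := by
    have h1 : b ^ n ∈ P := by
      rw [Ideal.mem_span_singleton] at hn
      obtain ⟨d, hd⟩ := hn
      rw [hd]
      exact Ideal.mul_mem_right _ _ hπP
    exact hP.mem_of_pow_mem n h1
  obtain ⟨s, hsP, hs⟩ := h P hP hht hπP b hbP
  apply hsP
  apply hle
  rw [Submodule.mem_colon_singleton, Submodule.mem_bot]
  change Ideal.Quotient.mk (Ideal.span {π}) (s * b) = 0
  rw [Ideal.Quotient.eq_zero_iff_mem, Ideal.mem_span_singleton]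
  exact hs

end Radical

end Fermat.Agent.S18.H754

end

end
-- ===== PACK-END S18/H754/HncRadical.lean

-- ===== PACK-BEGIN S18/H214/LocalUFD.lean
section


/-!
# S18, route K, pieces b3/b4 — local structure at a closed point of the special fibre

Mathlib-only.  `A` is a noetherian local domain, `w ∈ A` a non-unit such that `A ⧸ (w)` is a
principal ideal domain (in the application: `A = B_𝔓`, `𝔓 ∋ w` a maximal ideal of the chart `B`,
and `A ⧸ (w)` is the local ring of the *normal* special fibre, piece b2).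

* `isPrincipal_of_notMem_of_map_isPrincipal` : a prime `𝔮 ∌ w` whose image in `A ⧸ (w)` is principal
  is principal (Nakayama).
* `ufd_of_quotient_isPrincipalIdealRing` : `A` is a UFD (Kaplansky's criterion).
* `exists_unit_mul_pow_of_dvd_count` : in a UFD, an element all of whose prime multiplicities are
  divisible by `p` is a unit times a `p`-th power.
* `local_kummer_structure` : (LS) if `u = a / s` with `a ≡ s ≢ 0 mod w` and `u ∈ (A_(π))ˣ · (Fˣ)^p`
  for every prime element `π` of `A` not associated to `w`, then `u = c · (t₁ / t₂)^p` with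
  `c ∈ Aˣ`, `c ≡ 1`, `t₁ ≡ t₂ ≢ 0 mod w`.
-/

set_option autoImplicit false

namespace Fermat.Agent.S18.H214

section Principal

variable {A : Type*} [CommRing A]

/-- Nakayama: if `w` lies in the Jacobson radical, `𝔮` is a finitely generated prime ideal not
containing `w`, and the image of `𝔮` in `A ⧸ (w)` is principal, then `𝔮` is principal. -/
theorem isPrincipal_of_notMem_of_map_isPrincipal (w : A) (hw : w ∈ (⊥ : Ideal A).jacobson)
    (𝔮 : Ideal A) [h𝔮 : 𝔮.IsPrime] (hfg : 𝔮.FG) (hq : w ∉ 𝔮)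
    (hprin : (𝔮.map (Ideal.Quotient.mk (Ideal.span {w}))).IsPrincipal) :
    ∃ f : A, 𝔮 = Ideal.span {f} := by
  obtain ⟨fbar, hfbar⟩ := hprin
  have hfmem : fbar ∈ 𝔮.map (Ideal.Quotient.mk (Ideal.span {w})) := by
    rw [hfbar]; exact Submodule.mem_span_singleton_self _
  obtain ⟨f, hf, rfl⟩ :=
    (Ideal.mem_map_iff_of_surjective _ Ideal.Quotient.mk_surjective).1 hfmem
  refine ⟨f, le_antisymm ?_ ((Ideal.span_singleton_le_iff_mem _).2 hf)⟩
  have key : 𝔮 ≤ Ideal.span {f} ⊔ (Ideal.span {w}) • 𝔮 := by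
    intro g hg
    have hgm : Ideal.Quotient.mk (Ideal.span {w}) g ∈
        𝔮.map (Ideal.Quotient.mk (Ideal.span {w})) := Ideal.mem_map_of_mem _ hg
    rw [hfbar] at hgm
    obtain ⟨cbar, hc⟩ := Submodule.mem_span_singleton.1 hgm
    obtain ⟨c, rfl⟩ := Ideal.Quotient.mk_surjective cbar
    have h1 : g - c * f ∈ Ideal.span {w} := by
      rw [← Ideal.Quotient.eq, ← hc]; simp [smul_eq_mul]
    obtain ⟨h, hh⟩ := Ideal.mem_span_singleton'.1 h1
    have h2 : h * w ∈ 𝔮 := by
      rw [hh]; exact 𝔮.sub_mem hg (𝔮.mul_mem_left _ hf)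
    have h3 : h ∈ 𝔮 := (h𝔮.mem_or_mem h2).resolve_right hq
    have h4 : g = c * f + w * h := by linear_combination hh.symm
    rw [h4]
    refine Submodule.add_mem_sup (Ideal.mul_mem_left _ _ (Ideal.mem_span_singleton_self f)) ?_
    exact Submodule.smul_mem_smul (Ideal.mem_span_singleton_self w) h3
  exact Submodule.le_of_le_smul_of_le_jacobson_bot hfg
    ((Ideal.span_singleton_le_iff_mem _).2 hw) key

/-- A noetherian local domain `A` with a nonzero non-unit `w` such that `(w)` is prime and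
`A ⧸ (w)` is a principal ideal ring is a UFD. -/
theorem ufd_of_quotient_isPrincipalIdealRing [IsDomain A] [IsNoetherianRing A] [IsLocalRing A]
    (w : A) (hw0 : w ≠ 0) (hw : ¬ IsUnit w) (hwp : (Ideal.span {w}).IsPrime)
    [IsPrincipalIdealRing (A ⧸ Ideal.span {w})] : UniqueFactorizationMonoid A := by
  refine UniqueFactorizationMonoid.iff_exists_prime_mem_of_isPrime.2 fun I hI hIp => ?_
  by_cases hwI : w ∈ I
  · exact ⟨w, hwI, (Ideal.span_singleton_prime hw0).1 hwp⟩
  · have hjac : w ∈ (⊥ : Ideal A).jacobson := by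
      rw [IsLocalRing.jacobson_eq_maximalIdeal ⊥ bot_ne_top]
      exact (IsLocalRing.mem_maximalIdeal w).2 hw
    obtain ⟨f, hf⟩ := isPrincipal_of_notMem_of_map_isPrincipal w hjac I
      (IsNoetherian.noetherian I) hwI (IsPrincipalIdealRing.principal _)
    have hf0 : f ≠ 0 := by
      rintro rfl
      apply hI
      rw [hf]; simp
    refine ⟨f, hf ▸ Ideal.mem_span_singleton_self f, (Ideal.span_singleton_prime hf0).1 ?_⟩
    rw [← hf]; exact hIp

end Principal

section UFD

variable {A : Type*} [CommRing A] [IsDomain A] [UniqueFactorizationMonoid A]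

/-- In a UFD, a nonzero element `n` which at every prime `π` dividing it is a `π`-adic unit times a
`p`-th power (written without denominators: `n * s' * z₂ ^ p = a' * z₁ ^ p` with `π ∤ a' s'`) is a
unit times a `p`-th power. -/
theorem exists_unit_mul_pow_of_forall_prime (p : ℕ) (n : A) (hn : n ≠ 0)
    (h : ∀ π : A, Prime π → π ∣ n → ∃ a' s' z₁ z₂ : A, ¬ π ∣ a' ∧ ¬ π ∣ s' ∧ z₁ ≠ 0 ∧ z₂ ≠ 0 ∧
      n * s' * z₂ ^ p = a' * z₁ ^ p) :
    ∃ (c : Aˣ) (z : A), n = c * z ^ p := by
  classical
  have hn' : Associates.mk n ≠ 0 := Associates.mk_ne_zero.2 hn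
  have hcount : ∀ q : Associates A, Irreducible q →
      p ∣ Associates.count q (Associates.mk n).factors := by
    intro q hq
    obtain ⟨π, rfl⟩ := Associates.mk_surjective q
    have hπirr : Irreducible π := Associates.irreducible_mk.1 hq
    have hπ : Prime π := UniqueFactorizationMonoid.irreducible_iff_prime.1 hπirr
    by_cases hdvd : π ∣ n
    · obtain ⟨a', s', z₁, z₂, ha', hs', hz₁, hz₂, heq⟩ := h π hπ hdvd
      have ha'0 : a' ≠ 0 := fun h0 => ha' (h0 ▸ dvd_zero π)
      have hs'0 : s' ≠ 0 := fun h0 => hs' (h0 ▸ dvd_zero π)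
      have hca : Associates.count (Associates.mk π) (Associates.mk a').factors = 0 := by
        by_contra hne
        exact ha' ((Associates.count_ne_zero_iff_dvd ha'0 hπirr).1 hne)
      have hcs : Associates.count (Associates.mk π) (Associates.mk s').factors = 0 := by
        by_contra hne
        exact hs' ((Associates.count_ne_zero_iff_dvd hs'0 hπirr).1 hne)
      have e1 : Associates.mk (n * s' * z₂ ^ p) = Associates.mk (a' * z₁ ^ p) := by rw [heq]
      have e2 := congrArg (fun x => Associates.count (Associates.mk π) x.factors) e1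
      simp only [Associates.mk_mul_mk.symm, Associates.mk_pow] at e2
      rw [Associates.count_mul (mul_ne_zero hn' (Associates.mk_ne_zero.2 hs'0))
          (pow_ne_zero _ (Associates.mk_ne_zero.2 hz₂)) hq,
        Associates.count_mul hn' (Associates.mk_ne_zero.2 hs'0) hq,
        Associates.count_mul (Associates.mk_ne_zero.2 ha'0)
          (pow_ne_zero _ (Associates.mk_ne_zero.2 hz₁)) hq,
        Associates.count_pow (Associates.mk_ne_zero.2 hz₂) hq,
        Associates.count_pow (Associates.mk_ne_zero.2 hz₁) hq, hca, hcs] at e2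
      rw [add_zero, zero_add] at e2
      have e3 : Associates.count (Associates.mk π) (Associates.mk n).factors =
          p * Associates.count (Associates.mk π) (Associates.mk z₁).factors -
            p * Associates.count (Associates.mk π) (Associates.mk z₂).factors := by
        omega
      rw [e3, ← Nat.mul_sub]
      exact dvd_mul_right _ _
    · have : Associates.count (Associates.mk π) (Associates.mk n).factors = 0 := by
        by_contra hne
        exact hdvd ((Associates.count_ne_zero_iff_dvd hn hπirr).1 hne)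
      rw [this]; exact dvd_zero p
  obtain ⟨b, hb⟩ := Associates.is_pow_of_dvd_count hn' hcount
  obtain ⟨z, rfl⟩ := Associates.mk_surjective b
  rw [← Associates.mk_pow, Associates.mk_eq_mk_iff_associated] at hb
  obtain ⟨c, hc⟩ := hb.symm
  exact ⟨c, z, by rw [← hc, mul_comm]⟩

/-- (LS) **Local structure of a Kummer datum.**  `A` a local UFD, `w` a prime element with
`A ⧸ (w)` integrally closed.  Let `u = a / s` with `a ≡ s ≢ 0 mod w`, and suppose that at every
prime element `π` not associated to `w` the element `u` is a `π`-adic unit times a `p`-th power.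
Then `u = c · (t₁ / t₂) ^ p` with `c ∈ Aˣ`, `c ≡ 1 mod w` and `t₁ ≡ t₂ ≢ 0 mod w`. -/
theorem local_kummer_structure [IsLocalRing A] (w : A) (hw : Prime w)
    [IsDomain (A ⧸ Ideal.span {w})] [IsIntegrallyClosed (A ⧸ Ideal.span {w})]
    (p : ℕ) (hp : p ≠ 0) (a s : A) (ha : ¬ w ∣ a) (hs : ¬ w ∣ s) (has : w ∣ a - s)
    (h : ∀ π : A, Prime π → ¬ Associated π w → ∃ a' s' z₁ z₂ : A, ¬ π ∣ a' ∧ ¬ π ∣ s' ∧
      z₁ ≠ 0 ∧ z₂ ≠ 0 ∧ a * s' * z₂ ^ p = a' * s * z₁ ^ p) :
    ∃ (c : Aˣ) (t₁ t₂ : A), ¬ w ∣ t₁ ∧ ¬ w ∣ t₂ ∧ w ∣ t₁ - t₂ ∧ w ∣ (c : A) - 1 ∧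
      a * t₂ ^ p = c * s * t₁ ^ p := by
  have ha0 : a ≠ 0 := fun h0 => ha (h0 ▸ dvd_zero w)
  have hs0 : s ≠ 0 := fun h0 => hs (h0 ▸ dvd_zero w)
  obtain ⟨k, rfl⟩ : ∃ k, p = k + 1 := ⟨p - 1, by omega⟩
  -- step 1: `a * s ^ k` is a unit times a `p`-th power
  have hn0 : a * s ^ k ≠ 0 := mul_ne_zero ha0 (pow_ne_zero _ hs0)
  have hwn : ¬ w ∣ a * s ^ k := by
    intro hd
    rcases hw.dvd_or_dvd hd with h1 | h1
    · exact ha h1
    · exact hs (hw.dvd_of_dvd_pow h1)
  obtain ⟨c₀, z, hz⟩ := exists_unit_mul_pow_of_forall_prime (k + 1) (a * s ^ k) hn0 (by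
    intro π hπ hπn
    have hπw : ¬ Associated π w := fun hass => hwn (hass.symm.dvd.trans hπn)
    obtain ⟨a', s', z₁, z₂, ha', hs', hz₁, hz₂, heq⟩ := h π hπ hπw
    refine ⟨a', s', s * z₁, z₂, ha', hs', mul_ne_zero hs0 hz₁, hz₂, ?_⟩
    linear_combination s ^ k * heq)
  have hwz : ¬ w ∣ z := fun hd =>
    hwn (hz ▸ Dvd.dvd.mul_left (dvd_pow hd (Nat.succ_ne_zero k)) _)
  have hz0 : z ≠ 0 := fun h0 => hwz (h0 ▸ dvd_zero w)
  -- step 2: work in the quotient
  set q := Ideal.Quotient.mk (Ideal.span {w}) with hq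
  have hqz : ∀ x : A, q x = 0 ↔ w ∣ x := fun x => by
    rw [hq, Ideal.Quotient.eq_zero_iff_mem, Ideal.mem_span_singleton]
  have hqa : q a = q s := by
    rw [← sub_eq_zero, ← map_sub, hqz]; exact has
  have hqs0 : q s ≠ 0 := fun h0 => hs ((hqz s).1 h0)
  have hqz0 : q z ≠ 0 := fun h0 => hwz ((hqz z).1 h0)
  have e1 : q s ^ (k + 1) = q c₀ * q z ^ (k + 1) := by
    have := congrArg q hz
    simp only [map_mul, map_pow] at this
    rw [hqa] at this
    rw [pow_succ, mul_comm, this]
  have hdvd : q z ∣ q s := by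
    rw [← IsIntegrallyClosed.pow_dvd_pow_iff (Nat.succ_ne_zero k), e1]
    exact dvd_mul_left _ _
  obtain ⟨dbar, hdbar⟩ := hdvd
  have e2 : dbar ^ (k + 1) = q c₀ := by
    have : q z ^ (k + 1) * dbar ^ (k + 1) = q z ^ (k + 1) * q c₀ := by
      rw [← mul_pow, ← hdbar, e1, mul_comm]
    exact mul_left_cancel₀ (pow_ne_zero _ hqz0) this
  obtain ⟨d, rfl⟩ := Ideal.Quotient.mk_surjective dbar
  -- `d` is a unit of `A`
  have hwnu : ¬ IsUnit w := hw.not_isUnit
  have hdu : IsUnit d := by
    by_contra hnd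
    have hdm : d ∈ IsLocalRing.maximalIdeal A := (IsLocalRing.mem_maximalIdeal d).2 hnd
    have hc0 : IsUnit (q (c₀ : A)) := (c₀.isUnit).map q
    rw [← e2, ← map_pow] at hc0
    obtain ⟨e, he⟩ := hc0.exists_right_inv
    obtain ⟨e', rfl⟩ := Ideal.Quotient.mk_surjective e
    rw [← map_mul, ← sub_eq_zero, ← map_one q, ← map_sub, hqz] at he
    obtain ⟨r, hr⟩ := he
    have h1 : (1 : A) = d ^ (k + 1) * e' - w * r := by linear_combination -hr
    have h2 : (1 : A) ∈ IsLocalRing.maximalIdeal A := by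
      rw [h1]
      refine Ideal.sub_mem _ (Ideal.mul_mem_right _ _ (Ideal.pow_mem_of_mem _ hdm _
        (Nat.succ_pos k))) (Ideal.mul_mem_right _ _ ((IsLocalRing.mem_maximalIdeal w).2 hwnu))
    exact (Ideal.ne_top_iff_one _).1 (IsLocalRing.maximalIdeal.isMaximal A).ne_top h2
  obtain ⟨du, rfl⟩ := hdu
  refine ⟨c₀ * du⁻¹ ^ (k + 1), du * z, s, ?_, hs, ?_, ?_, ?_⟩
  · intro hd
    exact hwz ((hw.dvd_or_dvd hd).resolve_left
      (fun h1 => hwnu (isUnit_of_dvd_unit h1 du.isUnit)))
  · rw [← hqz, map_sub, map_mul, sub_eq_zero, mul_comm]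
    exact hdbar.symm
  · rw [← hqz, map_sub, sub_eq_zero, map_one]
    have h3 : q ((c₀ * du⁻¹ ^ (k + 1) : Aˣ) : A) * q ((du : A)) ^ (k + 1) = q c₀ := by
      rw [← map_pow, ← map_mul]
      congr 1
      rw [Units.val_mul, Units.val_pow_eq_pow_val, mul_assoc, ← mul_pow, Units.inv_mul, one_pow,
        mul_one]
    rw [e2] at h3
    have hc0ne : q (c₀ : A) ≠ 0 := ((c₀.isUnit).map q).ne_zero
    exact mul_right_cancel₀ hc0ne (by rw [h3, one_mul])
  · have h4 : ((c₀ * du⁻¹ ^ (k + 1) : Aˣ) : A) * (du : A) ^ (k + 1) = c₀ := by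
      rw [Units.val_mul, Units.val_pow_eq_pow_val, mul_assoc, ← mul_pow, Units.inv_mul, one_pow,
        mul_one]
    calc a * s ^ (k + 1) = s * (a * s ^ k) := by ring
      _ = s * (c₀ * z ^ (k + 1)) := by rw [hz]
      _ = s * ((((c₀ * du⁻¹ ^ (k + 1) : Aˣ) : A) * (du : A) ^ (k + 1)) * z ^ (k + 1)) := by
          rw [h4]
      _ = ((c₀ * du⁻¹ ^ (k + 1) : Aˣ) : A) * s * ((du : A) * z) ^ (k + 1) := by ring

end UFD

end Fermat.Agent.S18.H214

end
-- ===== PACK-END S18/H214/LocalUFD.lean

-- ===== PACK-BEGIN S53/CommAlgBasic.lean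
section




set_option autoImplicit false

namespace Fermat.Agent.S53

open IsLocalRing

section TestAlgebra

variable {𝒪 : Type} [CommRing 𝒪] [IsLocalRing 𝒪]
variable {A : Type} [CommRing A] [IsLocalRing A] [Algebra 𝒪 A]

/-- In an Artinian local ring the maximal ideal is nilpotent. -/
theorem exists_maximalIdeal_pow_eq_bot_of_isArtinianRing (B : Type) [CommRing B] [IsLocalRing B]
    [IsArtinianRing B] : ∃ n : ℕ, maximalIdeal B ^ n = ⊥ := by
  obtain ⟨n, hn⟩ := IsArtinianRing.isNilpotent_jacobson_bot (R := B)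
  rw [jacobson_eq_maximalIdeal _ bot_ne_top] at hn
  exact ⟨n, hn⟩

theorem exists_maximalIdeal_pow_eq_bot (h : GaloisRep.IsArtinianTestAlgebra 𝒪 A) :
    ∃ n : ℕ, maximalIdeal A ^ n = ⊥ :=
  haveI := h.isArtinian
  exists_maximalIdeal_pow_eq_bot_of_isArtinianRing A

/-- The residue field of a test algebra is finite when that of `𝒪` is. -/
theorem finite_residueField_of_testAlgebra [Finite (ResidueField 𝒪)]
    (h : GaloisRep.IsArtinianTestAlgebra 𝒪 A) : Finite (ResidueField A) := by
  have hsurj : Function.Surjective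
      ((IsLocalRing.residue A).comp (algebraMap 𝒪 A)) := h.residue_surjective
  haveI := h.isLocalHom
  have hsurj' : Function.Surjective (ResidueField.map (algebraMap 𝒪 A)) := by
    intro x
    obtain ⟨o, rfl⟩ := hsurj x
    exact ⟨residue 𝒪 o, by simp [ResidueField.map_residue]⟩
  exact Finite.of_surjective _ hsurj'

/-- A test algebra over `𝒪` (finite residue field) is a finite ring. -/
theorem finite_of_testAlgebra [Finite (ResidueField 𝒪)]
    (h : GaloisRep.IsArtinianTestAlgebra 𝒪 A) : Finite A := by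
  haveI := h.isArtinian
  haveI := finite_residueField_of_testAlgebra h
  have h1 : Finite (A ⧸ (⊥ : Ideal A)) :=
    (IsLocalRing.finite_quotient_iff (R := A) (I := ⊥)).mpr
      (by obtain ⟨n, hn⟩ := exists_maximalIdeal_pow_eq_bot h; exact ⟨n, hn.le⟩)
  exact Finite.of_equiv _ (RingEquiv.quotientBot A).toEquiv

end TestAlgebra

section NilIdeal

variable {𝒪 : Type} [CommRing 𝒪] [IsLocalRing 𝒪]
variable {C : Type} [CommRing C] [Algebra 𝒪 C]

/-- Every element of `C` is a unit or lies in `𝔫`, under the hypotheses of the lemmas below. -/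
theorem isUnit_or_mem_of_nil_ideal (𝔫 : Ideal C) (h1 : ∀ x ∈ 𝔫, IsNilpotent x)
    (h2 : ∀ c : C, ∃ o : 𝒪, c - algebraMap 𝒪 C o ∈ 𝔫)
    (h4 : ∀ o ∈ maximalIdeal 𝒪, algebraMap 𝒪 C o ∈ 𝔫) (c : C) : IsUnit c ∨ c ∈ 𝔫 := by
  obtain ⟨o, ho⟩ := h2 c
  by_cases hom : o ∈ maximalIdeal 𝒪
  · right
    have := 𝔫.add_mem ho (h4 o hom)
    simpa using this
  · left
    have hu : IsUnit (algebraMap 𝒪 C o) := by
      have : IsUnit o := by
        by_contra hcon
        exact hom ((IsLocalRing.mem_maximalIdeal o).mpr hcon)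
      exact this.map _
    have hnil : IsNilpotent (c - algebraMap 𝒪 C o) := h1 _ ho
    have hcomm : Commute (c - algebraMap 𝒪 C o) (algebraMap 𝒪 C o) := Commute.all _ _
    have := hnil.isUnit_add_right_of_commute hu hcomm
    simpa using this

theorem isLocalRing_of_nil_ideal [Nontrivial C] (𝔫 : Ideal C) (h1 : ∀ x ∈ 𝔫, IsNilpotent x)
    (h2 : ∀ c : C, ∃ o : 𝒪, c - algebraMap 𝒪 C o ∈ 𝔫)
    (h4 : ∀ o ∈ maximalIdeal 𝒪, algebraMap 𝒪 C o ∈ 𝔫) : IsLocalRing C := by
  refine IsLocalRing.of_nonunits_add ?_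
  intro a b ha hb
  have ha' : a ∈ 𝔫 := (isUnit_or_mem_of_nil_ideal 𝔫 h1 h2 h4 a).resolve_left ha
  have hb' : b ∈ 𝔫 := (isUnit_or_mem_of_nil_ideal 𝔫 h1 h2 h4 b).resolve_left hb
  have hab : a + b ∈ 𝔫 := 𝔫.add_mem ha' hb'
  intro hu
  have hnil := h1 _ hab
  exact hnil.not_isUnit hu

theorem maximalIdeal_eq_of_nil_ideal [IsLocalRing C] (𝔫 : Ideal C) (h1 : ∀ x ∈ 𝔫, IsNilpotent x)
    (h2 : ∀ c : C, ∃ o : 𝒪, c - algebraMap 𝒪 C o ∈ 𝔫)
    (h4 : ∀ o ∈ maximalIdeal 𝒪, algebraMap 𝒪 C o ∈ 𝔫) : maximalIdeal C = 𝔫 := by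
  ext c
  rw [IsLocalRing.mem_maximalIdeal, mem_nonunits_iff]
  constructor
  · intro hc
    exact (isUnit_or_mem_of_nil_ideal 𝔫 h1 h2 h4 c).resolve_left hc
  · intro hc hu
    exact (h1 c hc).not_isUnit hu

theorem isLocalHom_of_nil_ideal [IsLocalRing C] (𝔫 : Ideal C) (h1 : ∀ x ∈ 𝔫, IsNilpotent x)
    (h4 : ∀ o ∈ maximalIdeal 𝒪, algebraMap 𝒪 C o ∈ 𝔫) : IsLocalHom (algebraMap 𝒪 C) := by
  constructor
  intro o ho
  by_contra hcon
  have hom : o ∈ maximalIdeal 𝒪 := (IsLocalRing.mem_maximalIdeal o).mpr hcon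
  exact (h1 _ (h4 o hom)).not_isUnit ho

theorem residue_surjective_of_nil_ideal [IsLocalRing C] (𝔫 : Ideal C)
    (h1 : ∀ x ∈ 𝔫, IsNilpotent x)
    (h2 : ∀ c : C, ∃ o : 𝒪, c - algebraMap 𝒪 C o ∈ 𝔫) :
    Function.Surjective (IsLocalRing.residue C ∘ algebraMap 𝒪 C) := by
  intro x
  obtain ⟨c, rfl⟩ := IsLocalRing.residue_surjective x
  obtain ⟨o, ho⟩ := h2 c
  refine ⟨o, ?_⟩
  have hmem : c - algebraMap 𝒪 C o ∈ maximalIdeal C := by
    rw [IsLocalRing.mem_maximalIdeal, mem_nonunits_iff]
    intro hu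
    exact (h1 _ ho).not_isUnit hu
  have := (IsLocalRing.residue_eq_zero_iff _).mpr hmem
  rw [map_sub, sub_eq_zero] at this
  exact this.symm

/-- A finite `𝒪`-algebra with a nil ideal `𝔫 ⊇ m_𝒪` such that `𝒪 → C/𝔫` is onto is a test
algebra. -/
theorem isArtinianTestAlgebra_of_nil_ideal [IsLocalRing C] [Finite C] (𝔫 : Ideal C)
    (h1 : ∀ x ∈ 𝔫, IsNilpotent x)
    (h2 : ∀ c : C, ∃ o : 𝒪, c - algebraMap 𝒪 C o ∈ 𝔫)
    (h4 : ∀ o ∈ maximalIdeal 𝒪, algebraMap 𝒪 C o ∈ 𝔫) : GaloisRep.IsArtinianTestAlgebra 𝒪 C where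
  isLocalHom := isLocalHom_of_nil_ideal 𝔫 h1 h4
  residue_surjective := residue_surjective_of_nil_ideal 𝔫 h1 h2
  isArtinian := inferInstance

end NilIdeal

end Fermat.Agent.S53

end
-- ===== PACK-END S53/CommAlgBasic.lean

-- ===== PACK-BEGIN S56/H966/CondBC.lean
section
/-
S56 helper (helper966): the Prelude local conditions are stable under base change along local
ring homomorphisms and invariant under equivalence.  Needed by the tangent-space dictionary
(the universal property of `DeformationRingData` is applied to `DQ.ρ.baseChangeAlong φ hφ`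
for `φ : DQ.R → k[ε]`).  Imports Prelude only.
-/



set_option autoImplicit false
set_option linter.style.haveILetI false

noncomputable section

namespace Fermat.Agent.S56.H966

open scoped TensorProduct

variable {A : Type} [CommRing A] [IsLocalRing A] {B : Type} [CommRing B] [IsLocalRing B]

/-- A local homomorphism maps the maximal ideal into the maximal ideal. -/
theorem map_mem_maximalIdeal (φ : A →+* B) (hφ : IsLocalHom φ) {a : A}
    (ha : a ∈ IsLocalRing.maximalIdeal A) : φ a ∈ IsLocalRing.maximalIdeal B := by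
  haveI := hφ
  rw [IsLocalRing.mem_maximalIdeal, mem_nonunits_iff] at ha ⊢
  exact fun h => ha (isUnit_of_map_unit φ a h)

/-- The Galois action of a base change, as a definitional unfolding. -/
theorem baseChangeAlong_rho (φ : A →+* B) (hφ : IsLocalHom φ) (ρ : GaloisRepAdic A)
    (σ : AlgebraicClosure ℚ ≃ₐ[ℚ] AlgebraicClosure ℚ) :
    (ρ.baseChangeAlong φ hφ).ρ σ =
      letI : Algebra A B := φ.toAlgebra
      (ρ.ρ σ).baseChange B := rfl

theorem detIsCyclotomic_baseChangeAlong (φ : A →+* B) (hφ : IsLocalHom φ)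
    {ρ : GaloisRepAdic A} {p : ℕ} (h : ρ.DetIsCyclotomic p) :
    (ρ.baseChangeAlong φ hφ).DetIsCyclotomic p := by
  letI : Algebra A B := φ.toAlgebra
  refine ⟨?_, fun n σ a ha => ?_⟩
  · have := map_mem_maximalIdeal φ hφ h.1
    rwa [map_natCast] at this
  · have h1 := h.2 n σ a ha
    have hdet : LinearMap.det ((ρ.baseChangeAlong φ hφ).ρ σ) = φ (LinearMap.det (ρ.ρ σ)) := by
      rw [baseChangeAlong_rho]
      exact LinearMap.det_baseChange (ρ.ρ σ)
    rw [hdet]
    obtain ⟨c, hc⟩ := Ideal.mem_span_singleton'.mp h1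
    rw [Ideal.mem_span_singleton']
    refine ⟨φ c, ?_⟩
    have := congrArg φ hc
    rw [_root_.map_mul, map_sub, map_natCast, map_natCast] at this
    exact this

theorem isUnramifiedAt_baseChangeAlong (φ : A →+* B) (hφ : IsLocalHom φ)
    {ρ : GaloisRepAdic A} {q : ℕ} (h : ρ.IsUnramifiedAt q) :
    (ρ.baseChangeAlong φ hφ).IsUnramifiedAt q := by
  letI : Algebra A B := φ.toAlgebra
  intro P hP σ hσ
  rw [baseChangeAlong_rho, h P hP σ hσ]
  exact LinearMap.baseChange_one A ρ.V

theorem isUnipotentOnInertiaAt_baseChangeAlong (φ : A →+* B) (hφ : IsLocalHom φ)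
    {ρ : GaloisRepAdic A} {q : ℕ} (h : ρ.IsUnipotentOnInertiaAt q) :
    (ρ.baseChangeAlong φ hφ).IsUnipotentOnInertiaAt q := by
  letI : Algebra A B := φ.toAlgebra
  intro P hP σ hσ
  have h1 := h P hP σ hσ
  have : LinearMap.charpoly ((ρ.baseChangeAlong φ hφ).ρ σ) =
      (LinearMap.charpoly (ρ.ρ σ)).map φ := by
    rw [baseChangeAlong_rho]
    exact LinearMap.charpoly_baseChange (ρ.ρ σ) B
  rw [this, h1]
  simp

/-- For `u` in the line `A ∙ b₀`, every pure tensor `c ⊗ u` lies in the line `B ∙ (1 ⊗ b₀)`. -/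
theorem tmul_mem_span_of_mem (φ : A →+* B) {V : Type} [AddCommGroup V] [Module A V] (b0 : V)
    {u : V} (hu : u ∈ Submodule.span A {b0}) (c : B) :
    letI : Algebra A B := φ.toAlgebra
    (c ⊗ₜ[A] u : B ⊗[A] V) ∈ Submodule.span B {(1 : B) ⊗ₜ[A] b0} := by
  letI : Algebra A B := φ.toAlgebra
  obtain ⟨a, rfl⟩ := Submodule.mem_span_singleton.mp hu
  rw [Submodule.mem_span_singleton]
  refine ⟨c * φ a, ?_⟩
  rw [TensorProduct.tmul_smul, TensorProduct.smul_tmul', TensorProduct.smul_tmul', smul_eq_mul,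
    mul_one, _root_.Algebra.smul_def, mul_comm]
  rfl

section core

variable (φ : A →+* B) {V : Type} [AddCommGroup V] [Module A V]

/-- `c ⊗ (a • v) = (φ a * c) ⊗ v` in `B ⊗[A] V`. -/
theorem tmul_smul_eq (c : B) (a : A) (v : V) :
    letI : Algebra A B := φ.toAlgebra
    (c ⊗ₜ[A] (a • v) : B ⊗[A] V) = (φ a * c) ⊗ₜ[A] v := by
  letI : Algebra A B := φ.toAlgebra
  rw [TensorProduct.tmul_smul, TensorProduct.smul_tmul', _root_.Algebra.smul_def]
  rfl

/-- If `f v - z • v ∈ A ∙ b₀` for all `v` then `f_B w - φ z • w ∈ B ∙ (1 ⊗ b₀)` for all `w`. -/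
theorem baseChange_sub_smul_mem (b0 : V) (f : V →ₗ[A] V) (z : A)
    (hf : ∀ v, f v - z • v ∈ Submodule.span A {b0}) :
    letI : Algebra A B := φ.toAlgebra
    ∀ w : B ⊗[A] V, f.baseChange B w - φ z • w ∈ Submodule.span B {(1 : B) ⊗ₜ[A] b0} := by
  letI : Algebra A B := φ.toAlgebra
  intro w
  induction w using TensorProduct.induction_on with
  | zero => simp
  | tmul c v =>
    have h1 : f.baseChange B (c ⊗ₜ[A] v) - φ z • (c ⊗ₜ[A] v) = c ⊗ₜ[A] (f v - z • v) := by
      rw [LinearMap.baseChange_tmul, TensorProduct.tmul_sub, tmul_smul_eq φ c z v,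
        TensorProduct.smul_tmul', smul_eq_mul]
    rw [h1]
    exact tmul_mem_span_of_mem φ b0 (hf v) c
  | add x y hx hy =>
    rw [map_add, _root_.smul_add, add_sub_add_comm]
    exact Submodule.add_mem _ hx hy

/-- If `f` acts on `A ∙ b₀` by the scalar `x` then `f_B` acts on `B ∙ (1 ⊗ b₀)` by `φ x`. -/
theorem baseChange_eq_smul_of_mem (b0 : V) (f : V →ₗ[A] V) (x : A)
    (hf : ∀ w ∈ Submodule.span A {b0}, f w = x • w) :
    letI : Algebra A B := φ.toAlgebra
    ∀ w ∈ Submodule.span B {(1 : B) ⊗ₜ[A] b0}, f.baseChange B w = φ x • w := by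
  letI : Algebra A B := φ.toAlgebra
  intro w hw
  obtain ⟨c, rfl⟩ := Submodule.mem_span_singleton.mp hw
  rw [map_smul, LinearMap.baseChange_tmul, hf _ (Submodule.mem_span_singleton_self _),
    tmul_smul_eq φ 1 x b0, mul_one, TensorProduct.smul_tmul', TensorProduct.smul_tmul',
    TensorProduct.smul_tmul', smul_eq_mul, smul_eq_mul, smul_eq_mul, mul_one, mul_comm]

/-- If `f` preserves `A ∙ b₀` then `f_B` preserves `B ∙ (1 ⊗ b₀)`. -/
theorem baseChange_mem_span_of_mem (b0 : V) (f : V →ₗ[A] V)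
    (hf : ∀ v ∈ Submodule.span A {b0}, f v ∈ Submodule.span A {b0}) :
    letI : Algebra A B := φ.toAlgebra
    ∀ w ∈ Submodule.span B {(1 : B) ⊗ₜ[A] b0},
      f.baseChange B w ∈ Submodule.span B {(1 : B) ⊗ₜ[A] b0} := by
  letI : Algebra A B := φ.toAlgebra
  intro w hw
  obtain ⟨c, rfl⟩ := Submodule.mem_span_singleton.mp hw
  rw [map_smul, LinearMap.baseChange_tmul]
  exact Submodule.smul_mem _ _
    (tmul_mem_span_of_mem φ b0 (hf _ (Submodule.mem_span_singleton_self _)) 1)

/-- The base-changed line is spanned by the first vector of the base-changed basis. -/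
theorem span_eq_span_baseChange (b : Module.Basis (Fin 2) A V) :
    letI : Algebra A B := φ.toAlgebra
    (Submodule.span B {(1 : B) ⊗ₜ[A] b 0} : Submodule B (B ⊗[A] V)) =
      Submodule.span B {b.baseChange B 0} := by
  letI : Algebra A B := φ.toAlgebra
  rw [Module.Basis.baseChange_apply]

end core

theorem isStrictOrdinaryAt_baseChangeAlong (φ : A →+* B) (hφ : IsLocalHom φ)
    {ρ : GaloisRepAdic A} {p : ℕ} (h : ρ.IsStrictOrdinaryAt p) :
    (ρ.baseChangeAlong φ hφ).IsStrictOrdinaryAt p := by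
  letI : Algebra A B := φ.toAlgebra
  refine ⟨?_, fun P hP => ?_⟩
  · have := map_mem_maximalIdeal φ hφ h.1
    rwa [map_natCast] at this
  obtain ⟨L, ⟨b, rfl⟩, hD, hI, hx⟩ := h.2 P hP
  refine ⟨(Submodule.span B {(1 : B) ⊗ₜ[A] b 0} : Submodule B (B ⊗[A] ρ.V)),
    ⟨b.baseChange B, span_eq_span_baseChange φ b⟩, ?_, ?_, ?_⟩
  · intro σ hσ v hv
    exact baseChange_mem_span_of_mem φ (b 0) (ρ.ρ σ) (hD σ hσ) v hv
  · intro σ hσ w
    have := baseChange_sub_smul_mem φ (b 0) (ρ.ρ σ) 1
      (fun v => by rw [_root_.one_smul]; exact hI σ hσ v) w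
    rw [_root_.map_one, _root_.one_smul] at this
    exact this
  · intro σ hσ
    obtain ⟨x, z, hx1, hz1, hxz⟩ := hx σ hσ
    refine ⟨φ x, φ z, fun w hw => baseChange_eq_smul_of_mem φ (b 0) (ρ.ρ σ) x hx1 w hw,
      fun w => baseChange_sub_smul_mem φ (b 0) (ρ.ρ σ) z hz1 w, fun n a ha => ?_⟩
    obtain ⟨c, hc⟩ := Ideal.mem_span_singleton'.mp (hxz n a ha)
    rw [Ideal.mem_span_singleton']
    refine ⟨φ c, ?_⟩
    have := congrArg φ hc
    rw [_root_.map_mul, map_sub, _root_.map_mul, map_natCast, map_natCast] at this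
    exact this

/-! ### Flatness: base change along a surjective local homomorphism -/

section flat

/-- Coordinates of an element of `I • ⊤` lie in `I`. -/
theorem repr_mem_of_mem_smul_top {R M ι : Type*} [CommRing R] [AddCommGroup M] [Module R M]
    (b : Module.Basis ι R M) (I : Ideal R) {x : M} (hx : x ∈ I • (⊤ : Submodule R M)) (i : ι) :
    b.repr x i ∈ I := by
  refine Submodule.smul_induction_on (p := fun x => b.repr x i ∈ I) hx ?_ ?_
  · intro a ha m _
    rw [map_smul, Finsupp.smul_apply, smul_eq_mul]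
    exact I.mul_mem_right _ ha
  · intro x y hx hy
    rw [map_add, Finsupp.add_apply]
    exact I.add_mem hx hy

variable (φ : A →+* B) {V : Type} [AddCommGroup V] [Module A V]

/-- The comparison map `V ⧸ φ⁻¹(I) V → (B ⊗ V) ⧸ I (B ⊗ V)`, `[v] ↦ [1 ⊗ v]`. -/
def levelMap (I : Ideal B) :
    letI : Algebra A B := φ.toAlgebra
    (V ⧸ ((I.comap φ) • (⊤ : Submodule A V))) →+
      ((B ⊗[A] V) ⧸ (I • (⊤ : Submodule B (B ⊗[A] V)))) :=
  letI : Algebra A B := φ.toAlgebra
  QuotientAddGroup.lift _
    (((I • (⊤ : Submodule B (B ⊗[A] V))).mkQ.toAddMonoidHom).comp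
      ((TensorProduct.mk A B V 1).toAddMonoidHom))
    (by
      intro x hx
      change x ∈ (I.comap φ) • (⊤ : Submodule A V) at hx
      rw [AddMonoidHom.mem_ker]
      change (I • (⊤ : Submodule B (B ⊗[A] V))).mkQ ((1 : B) ⊗ₜ[A] x) = 0
      rw [Submodule.mkQ_apply, Submodule.Quotient.mk_eq_zero]
      refine Submodule.smul_induction_on
        (p := fun x => (1 : B) ⊗ₜ[A] x ∈ I • (⊤ : Submodule B (B ⊗[A] V))) hx ?_ ?_
      · intro a ha m _
        rw [tmul_smul_eq φ 1 a m, mul_one]
        have : (φ a ⊗ₜ[A] m : B ⊗[A] V) = φ a • ((1 : B) ⊗ₜ[A] m) := by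
          rw [TensorProduct.smul_tmul', smul_eq_mul, mul_one]
        rw [this]
        exact Submodule.smul_mem_smul ha Submodule.mem_top
      · intro x y hx hy
        rw [TensorProduct.tmul_add]
        exact Submodule.add_mem _ hx hy)

theorem levelMap_mk (I : Ideal B) (v : V) :
    letI : Algebra A B := φ.toAlgebra
    levelMap φ I (Submodule.Quotient.mk v : V ⧸ ((I.comap φ) • (⊤ : Submodule A V))) =
      Submodule.Quotient.mk ((1 : B) ⊗ₜ[A] v) := rfl

theorem levelMap_surjective (hsurj : Function.Surjective φ) (I : Ideal B) :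
    Function.Surjective (levelMap (V := V) φ I) := by
  letI : Algebra A B := φ.toAlgebra
  intro y
  obtain ⟨w, rfl⟩ := Submodule.Quotient.mk_surjective _ y
  induction w using TensorProduct.induction_on with
  | zero => exact ⟨0, by rw [map_zero]; rfl⟩
  | tmul c v =>
    obtain ⟨a, rfl⟩ := hsurj c
    refine ⟨Submodule.Quotient.mk (a • v), ?_⟩
    rw [levelMap_mk, tmul_smul_eq φ 1 a v, mul_one]
  | add x y hx hy =>
    obtain ⟨x', hx'⟩ := hx
    obtain ⟨y', hy'⟩ := hy
    exact ⟨x' + y', by rw [map_add, hx', hy']; rfl⟩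

theorem levelMap_injective [Module.Free A V] [Module.Finite A V] (I : Ideal B) :
    Function.Injective (levelMap (V := V) φ I) := by
  letI : Algebra A B := φ.toAlgebra
  rw [injective_iff_map_eq_zero]
  intro x hx
  obtain ⟨v, rfl⟩ := Submodule.Quotient.mk_surjective _ x
  rw [levelMap_mk, Submodule.Quotient.mk_eq_zero] at hx
  rw [Submodule.Quotient.mk_eq_zero]
  let b := Module.Free.chooseBasis A V
  have hcoord : ∀ i, b.repr v i ∈ I.comap φ := by
    intro i
    have h1 := repr_mem_of_mem_smul_top (b.baseChange B) I hx i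
    rw [Module.Basis.baseChange_repr_tmul, _root_.Algebra.smul_def, mul_one] at h1
    exact h1
  rw [← b.sum_repr v]
  exact Submodule.sum_mem _ fun i _ => Submodule.smul_mem_smul (hcoord i) Submodule.mem_top

end flat

/-- The comparison map intertwines the level actions. -/
theorem levelMap_levelAction (φ : A →+* B) (hφ : IsLocalHom φ) (ρ : GaloisRepAdic A)
    (I : Ideal B) (σ : AlgebraicClosure ℚ ≃ₐ[ℚ] AlgebraicClosure ℚ)
    (x : ρ.V ⧸ ((I.comap φ) • (⊤ : Submodule A ρ.V))) :
    levelMap φ I (ρ.levelAction (I.comap φ) σ x) =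
      (ρ.baseChangeAlong φ hφ).levelAction I σ (levelMap φ I x) := by
  obtain ⟨v, rfl⟩ := Submodule.Quotient.mk_surjective _ x
  rfl

theorem isFlatAt_baseChangeAlong_of_surjective (φ : A →+* B) (hφ : IsLocalHom φ)
    (hsurj : Function.Surjective φ) {ρ : GaloisRepAdic A} {p : ℕ} (h : ρ.IsFlatAt p) :
    (ρ.baseChangeAlong φ hφ).IsFlatAt p := by
  letI : Algebra A B := φ.toAlgebra
  haveI := hφ
  obtain ⟨hfin, hH⟩ := h
  refine ⟨?_, fun I hI => ?_⟩
  · haveI := hfin
    refine Finite.of_surjective (IsLocalRing.ResidueField.map φ) ?_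
    intro y
    obtain ⟨b, rfl⟩ := IsLocalRing.residue_surjective y
    obtain ⟨a, rfl⟩ := hsurj b
    exact ⟨IsLocalRing.residue A a, IsLocalRing.ResidueField.map_residue φ a⟩
  · haveI := hI
    have hJ : Finite (A ⧸ I.comap φ) :=
      Finite.of_injective _ (Ideal.quotientMap_injective (I := I) (f := φ))
    obtain ⟨H, i1, i2, hHfin, hHflat, hHco, e, he_add, he_gal⟩ := hH (I.comap φ) hJ
    refine ⟨H, i1, i2, hHfin, hHflat, hHco, ?_⟩
    refine ⟨e.trans (Equiv.ofBijective (levelMap (V := ρ.V) φ I)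
      ⟨levelMap_injective φ I, levelMap_surjective φ hsurj I⟩), ?_, ?_⟩
    · intro f g
      change levelMap φ I (e (f * g)) = levelMap φ I (e f) + levelMap φ I (e g)
      rw [he_add, map_add]
    · intro σ f g hfg
      change levelMap φ I (e g) =
        (ρ.baseChangeAlong φ hφ).levelAction I σ (levelMap φ I (e f))
      rw [he_gal σ f g hfg]
      exact levelMap_levelAction φ hφ ρ I σ (e f)

/-! ### Invariance under equivalence -/

section equivInv

variable {ρ₁ ρ₂ : GaloisRepAdic A}

/-- An equivalence conjugates the actions. -/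
theorem equiv_rho_eq_conj (e : GaloisRepAdic.Equiv ρ₁ ρ₂)
    (σ : AlgebraicClosure ℚ ≃ₐ[ℚ] AlgebraicClosure ℚ) :
    ρ₂.ρ σ = e.toLinearEquiv.conj (ρ₁.ρ σ) := by
  refine LinearMap.ext fun y => ?_
  rw [LinearEquiv.conj_apply_apply, e.map_apply, LinearEquiv.apply_symm_apply]

theorem detIsCyclotomic_of_isEquiv (he : ρ₁.IsEquiv ρ₂) {p : ℕ} (h : ρ₁.DetIsCyclotomic p) :
    ρ₂.DetIsCyclotomic p := by
  obtain ⟨e⟩ := he
  refine ⟨h.1, fun n σ a ha => ?_⟩
  have hdet : LinearMap.det (ρ₂.ρ σ) = LinearMap.det (ρ₁.ρ σ) := by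
    rw [equiv_rho_eq_conj e σ]
    exact LinearMap.det_conj (ρ₁.ρ σ) e.toLinearEquiv
  rw [hdet]
  exact h.2 n σ a ha

theorem isUnramifiedAt_of_isEquiv (he : ρ₁.IsEquiv ρ₂) {q : ℕ} (h : ρ₁.IsUnramifiedAt q) :
    ρ₂.IsUnramifiedAt q := by
  obtain ⟨e⟩ := he
  intro P hP σ hσ
  rw [equiv_rho_eq_conj e σ, h P hP σ hσ]
  refine LinearMap.ext fun y => ?_
  rw [LinearEquiv.conj_apply_apply, Module.End.one_apply, LinearEquiv.apply_symm_apply,
    Module.End.one_apply]

theorem isUnipotentOnInertiaAt_of_isEquiv (he : ρ₁.IsEquiv ρ₂) {q : ℕ}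
    (h : ρ₁.IsUnipotentOnInertiaAt q) : ρ₂.IsUnipotentOnInertiaAt q := by
  obtain ⟨e⟩ := he
  intro P hP σ hσ
  rw [equiv_rho_eq_conj e σ, LinearEquiv.charpoly_conj]
  exact h P hP σ hσ

theorem isStrictOrdinaryAt_of_isEquiv (he : ρ₁.IsEquiv ρ₂) {p : ℕ}
    (h : ρ₁.IsStrictOrdinaryAt p) : ρ₂.IsStrictOrdinaryAt p := by
  obtain ⟨e⟩ := he
  refine ⟨h.1, fun P hP => ?_⟩
  obtain ⟨L, ⟨b, rfl⟩, hD, hI, hx⟩ := h.2 P hP
  have hmem : ∀ {u : ρ₁.V}, u ∈ Submodule.span A {b 0} →
      e.toLinearEquiv u ∈ Submodule.span A {e.toLinearEquiv (b 0)} := by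
    intro u hu
    obtain ⟨a, rfl⟩ := Submodule.mem_span_singleton.mp hu
    rw [map_smul]
    exact Submodule.smul_mem _ _ (Submodule.mem_span_singleton_self _)
  have hsub : ∀ (σ : AlgebraicClosure ℚ ≃ₐ[ℚ] AlgebraicClosure ℚ) (z : A),
      (∀ v, ρ₁.ρ σ v - z • v ∈ Submodule.span A {b 0}) →
      ∀ w, ρ₂.ρ σ w - z • w ∈ Submodule.span A {e.toLinearEquiv (b 0)} := by
    intro σ z hz w
    have := hmem (hz (e.toLinearEquiv.symm w))
    rwa [map_sub, map_smul, e.map_apply, LinearEquiv.apply_symm_apply] at this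
  refine ⟨Submodule.span A {e.toLinearEquiv (b 0)}, ⟨b.map e.toLinearEquiv, ?_⟩, ?_, ?_, ?_⟩
  · rw [Module.Basis.map_apply]
  · intro σ hσ v hv
    obtain ⟨a, rfl⟩ := Submodule.mem_span_singleton.mp hv
    rw [map_smul, ← e.map_apply]
    exact Submodule.smul_mem _ _ (hmem (hD σ hσ _ (Submodule.mem_span_singleton_self _)))
  · intro σ hσ w
    have := hsub σ 1 (fun v => by rw [_root_.one_smul]; exact hI σ hσ v) w
    rwa [_root_.one_smul] at this
  · intro σ hσ
    obtain ⟨x, z, hx1, hz1, hxz⟩ := hx σ hσ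
    refine ⟨x, z, ?_, hsub σ z hz1, hxz⟩
    intro w hw
    obtain ⟨a, rfl⟩ := Submodule.mem_span_singleton.mp hw
    rw [map_smul, ← e.map_apply, hx1 _ (Submodule.mem_span_singleton_self _), map_smul,
      smul_comm]

end equivInv

section flatEquiv

variable {ρ₁ ρ₂ : GaloisRepAdic A}

/-- The isomorphism `V₁ ⧸ I V₁ ≃ V₂ ⧸ I V₂` induced by an equivalence. -/
def levelEquiv (e : GaloisRepAdic.Equiv ρ₁ ρ₂) (I : Ideal A) :
    (ρ₁.V ⧸ (I • (⊤ : Submodule A ρ₁.V))) ≃ₗ[A] (ρ₂.V ⧸ (I • (⊤ : Submodule A ρ₂.V))) :=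
  Submodule.Quotient.equiv _ _ e.toLinearEquiv (by
    rw [Submodule.map_smul'', Submodule.map_top, LinearEquiv.range])

theorem levelEquiv_levelAction (e : GaloisRepAdic.Equiv ρ₁ ρ₂) (I : Ideal A)
    (σ : AlgebraicClosure ℚ ≃ₐ[ℚ] AlgebraicClosure ℚ)
    (x : ρ₁.V ⧸ (I • (⊤ : Submodule A ρ₁.V))) :
    levelEquiv e I (ρ₁.levelAction I σ x) = ρ₂.levelAction I σ (levelEquiv e I x) := by
  obtain ⟨v, rfl⟩ := Submodule.Quotient.mk_surjective _ x
  change Submodule.Quotient.mk (e.toLinearEquiv (ρ₁.ρ σ v)) =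
    Submodule.Quotient.mk (ρ₂.ρ σ (e.toLinearEquiv v))
  rw [e.map_apply]

theorem isFlatAt_of_isEquiv (he : ρ₁.IsEquiv ρ₂) {p : ℕ} (h : ρ₁.IsFlatAt p) :
    ρ₂.IsFlatAt p := by
  obtain ⟨e⟩ := he
  refine ⟨h.1, fun I hI => ?_⟩
  obtain ⟨H, i1, i2, hHfin, hHflat, hHco, f, hf_add, hf_gal⟩ := h.2 I hI
  refine ⟨H, i1, i2, hHfin, hHflat, hHco, f.trans (levelEquiv e I).toEquiv, ?_, ?_⟩
  · intro a b
    change levelEquiv e I (f (a * b)) = levelEquiv e I (f a) + levelEquiv e I (f b)
    rw [hf_add, map_add]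
  · intro σ a b hab
    change levelEquiv e I (f b) = ρ₂.levelAction I σ (levelEquiv e I (f a))
    rw [hf_gal σ a b hab]
    exact levelEquiv_levelAction e I σ (f a)

end flatEquiv

/-! ### The deformation conditions of S56 -/

section conditions

variable (𝒪 : Type) [CommRing 𝒪] [Algebra 𝒪 A] [Algebra 𝒪 B]

theorem strictOrdinaryCondition_baseChangeAlong (φ : A →+* B) (hφ : IsLocalHom φ)
    {p : ℕ} {S : Finset ℕ} {ρ : GaloisRepAdic A}
    (h : GaloisRep.strictOrdinaryCondition 𝒪 p S ρ) :
    GaloisRep.strictOrdinaryCondition 𝒪 p S (ρ.baseChangeAlong φ hφ) :=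
  ⟨detIsCyclotomic_baseChangeAlong φ hφ h.1, isStrictOrdinaryAt_baseChangeAlong φ hφ h.2.1,
    fun q hq hqS => isUnramifiedAt_baseChangeAlong φ hφ (h.2.2 q hq hqS)⟩

theorem flatCondition_baseChangeAlong_of_surjective (φ : A →+* B) (hφ : IsLocalHom φ)
    (hsurj : Function.Surjective φ) {p : ℕ} {S : Finset ℕ} {ρ : GaloisRepAdic A}
    (h : GaloisRep.flatCondition 𝒪 p S ρ) :
    GaloisRep.flatCondition 𝒪 p S (ρ.baseChangeAlong φ hφ) :=
  ⟨detIsCyclotomic_baseChangeAlong φ hφ h.1,
    isFlatAt_baseChangeAlong_of_surjective φ hφ hsurj h.2.1,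
    fun q hq hqS => isUnramifiedAt_baseChangeAlong φ hφ (h.2.2 q hq hqS)⟩

theorem strictOrdinaryCondition_of_isEquiv {p : ℕ} {S : Finset ℕ} {ρ₁ ρ₂ : GaloisRepAdic A}
    (he : ρ₁.IsEquiv ρ₂) (h : GaloisRep.strictOrdinaryCondition 𝒪 p S ρ₁) :
    GaloisRep.strictOrdinaryCondition 𝒪 p S ρ₂ :=
  ⟨detIsCyclotomic_of_isEquiv he h.1, isStrictOrdinaryAt_of_isEquiv he h.2.1,
    fun q hq hqS => isUnramifiedAt_of_isEquiv he (h.2.2 q hq hqS)⟩

theorem flatCondition_of_isEquiv {p : ℕ} {S : Finset ℕ} {ρ₁ ρ₂ : GaloisRepAdic A}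
    (he : ρ₁.IsEquiv ρ₂) (h : GaloisRep.flatCondition 𝒪 p S ρ₁) :
    GaloisRep.flatCondition 𝒪 p S ρ₂ :=
  ⟨detIsCyclotomic_of_isEquiv he h.1, isFlatAt_of_isEquiv he h.2.1,
    fun q hq hqS => isUnramifiedAt_of_isEquiv he (h.2.2 q hq hqS)⟩

end conditions

end Fermat.Agent.S56.H966

end
end
-- ===== PACK-END S56/H966/CondBC.lean

-- ===== PACK-BEGIN A2/H708/Tame.lean
section



/-!
# A2 (helper708): the tame character of an inertia group

`L/K` an algebraic field extension, `A` a valuation subring of `L`,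
`τ ∈ A.inertiaSubgroupIn K` (Prelude definition).  For `c ∈ Lˣ` the quotient `τ c / c` is a
unit of `A`; its residue class `tameHom A hτ c ∈ kˣ` (`k` the residue field of `A`)

* is multiplicative in `c` (it is a monoid hom `Lˣ →* kˣ`),
* is trivial on units of `A` (`tameHom_eq_one_of_valuation_eq_one`), hence depends only on the
  valuation of `c` (`tameHom_eq_of_valuation_eq`),
* is trivial on `K` (`tameHom_algebraMap`),
* is multiplicative in `τ` (`tameHom_mul`),
* takes values in roots of unity: `c ^ n ∈ Kˣ · Aˣ → tame(c) ^ n = 1` (`tameHom_pow_eq_one`),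
* `tameHom A hτ c = 1 ↔ v (τ c - c) < v c` (`tameHom_eq_one_iff`).

Also: elementwise facts on decomposition / inertia groups for arbitrary `L/K`
(`apply_mem_iff_of_mem_decomposition`, `valuation_apply_of_mem_decomposition` (algebraic case),
`sub_mem_nonunits_of_mem_inertiaIn`).
-/

set_option autoImplicit false

open scoped Pointwise

namespace Fermat.Agent.A2.H708

variable {K L : Type*} [Field K] [Field L] [Algebra K L] (A : ValuationSubring L)

/-- Elements of the inertia group (Prelude form) lie in the decomposition group. -/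
theorem mem_decomposition_of_mem_inertiaIn {τ : L ≃ₐ[K] L} (hτ : τ ∈ A.inertiaSubgroupIn K) :
    τ ∈ A.decompositionSubgroup K := by
  obtain ⟨g, -, rfl⟩ := hτ
  exact g.2

/-- Elements of the decomposition group preserve `A`. -/
theorem apply_mem_of_mem_decomposition {τ : L ≃ₐ[K] L} (hτ : τ ∈ A.decompositionSubgroup K)
    {x : L} (hx : x ∈ A) : τ x ∈ A := by
  have h : τ • A = A := MulAction.mem_stabilizer_iff.mp hτ
  have h1 : τ • x ∈ τ • A := ValuationSubring.smul_mem_pointwise_smul τ x A hx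
  rw [h] at h1
  exact h1

/-- Elements of the decomposition group reflect `A`. -/
theorem mem_of_apply_mem_of_mem_decomposition {τ : L ≃ₐ[K] L}
    (hτ : τ ∈ A.decompositionSubgroup K) {x : L} (hx : τ x ∈ A) : x ∈ A := by
  have hinv : τ⁻¹ ∈ A.decompositionSubgroup K := inv_mem hτ
  have := apply_mem_of_mem_decomposition A hinv hx
  have h2 : τ⁻¹ (τ x) = x := by
    show (τ⁻¹ * τ) x = x
    rw [inv_mul_cancel]; rfl
  rwa [h2] at this

theorem apply_mem_iff_of_mem_decomposition {τ : L ≃ₐ[K] L}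
    (hτ : τ ∈ A.decompositionSubgroup K) {x : L} : τ x ∈ A ↔ x ∈ A :=
  ⟨mem_of_apply_mem_of_mem_decomposition A hτ, apply_mem_of_mem_decomposition A hτ⟩

/-- Elements of the decomposition group preserve the order of valuations. -/
theorem valuation_apply_le_iff_of_mem_decomposition {τ : L ≃ₐ[K] L}
    (hτ : τ ∈ A.decompositionSubgroup K) (x y : L) :
    A.valuation (τ x) ≤ A.valuation (τ y) ↔ A.valuation x ≤ A.valuation y := by
  rcases eq_or_ne y 0 with rfl | hy
  · simp
  have hτy : τ y ≠ 0 := by simpa using hy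
  have h1 : A.valuation x ≤ A.valuation y ↔ x / y ∈ A := by
    rw [← A.valuation_le_one_iff, map_div₀,
      div_le_one₀ (pos_iff_ne_zero.mpr ((Valuation.ne_zero_iff _).mpr hy))]
  have h2 : A.valuation (τ x) ≤ A.valuation (τ y) ↔ τ x / τ y ∈ A := by
    rw [← A.valuation_le_one_iff, map_div₀,
      div_le_one₀ (pos_iff_ne_zero.mpr ((Valuation.ne_zero_iff _).mpr hτy))]
  rw [h1, h2, ← map_div₀]
  exact apply_mem_iff_of_mem_decomposition A hτ

theorem valuation_apply_lt_iff_of_mem_decomposition {τ : L ≃ₐ[K] L}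
    (hτ : τ ∈ A.decompositionSubgroup K) (x y : L) :
    A.valuation (τ x) < A.valuation (τ y) ↔ A.valuation x < A.valuation y := by
  rw [← not_le, ← not_le, valuation_apply_le_iff_of_mem_decomposition A hτ]

/-- In an algebraic extension every element is fixed by a positive power of any automorphism. -/
theorem exists_pow_apply_eq [Algebra.IsAlgebraic K L] (τ : L ≃ₐ[K] L) (x : L) :
    ∃ n : ℕ, 0 < n ∧ (τ ^ n) x = x := by
  have hfin : ((minpoly K x).rootSet L).Finite := Polynomial.rootSet_finite _ _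
  have hmem : ∀ n : ℕ, (τ ^ n) x ∈ (minpoly K x).rootSet L := by
    intro n
    rw [Polynomial.mem_rootSet]
    refine ⟨minpoly.ne_zero (Algebra.IsIntegral.isIntegral x), ?_⟩
    have := Polynomial.aeval_algHom_apply ((τ ^ n : L ≃ₐ[K] L) : L →ₐ[K] L) x (minpoly K x)
    rw [minpoly.aeval, map_zero] at this
    exact this
  obtain ⟨a, b, hab, h⟩ := hfin.exists_lt_map_eq_of_forall_mem hmem
  refine ⟨b - a, Nat.sub_pos_of_lt hab, ?_⟩
  have hb : b = (b - a) + a := by omega
  have h3 : (τ ^ a) ((τ ^ (b - a)) x) = (τ ^ a) x := by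
    have : (τ ^ b) x = (τ ^ a) ((τ ^ (b - a)) x) := by
      conv_lhs => rw [hb, add_comm, pow_add]
      rfl
    rw [← this, ← h]
  exact (τ ^ a).injective h3

/-- Elements of the decomposition group preserve the valuation (algebraic extensions). -/
theorem valuation_apply_of_mem_decomposition [Algebra.IsAlgebraic K L] {τ : L ≃ₐ[K] L}
    (hτ : τ ∈ A.decompositionSubgroup K) (x : L) :
    A.valuation (τ x) = A.valuation x := by
  obtain ⟨n, hn, hx⟩ := exists_pow_apply_eq τ x
  have hstep : ∀ k : ℕ, (τ ^ (k + 1)) x = τ ((τ ^ k) x) := by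
    intro k
    rw [pow_succ']
    rfl
  rcases lt_trichotomy (A.valuation (τ x)) (A.valuation x) with h | h | h
  · exfalso
    have hk : ∀ k : ℕ, A.valuation ((τ ^ (k + 1)) x) < A.valuation x := by
      intro k
      induction k with
      | zero => simpa using h
      | succ k ih =>
        rw [hstep]
        refine lt_trans ?_ h
        exact (valuation_apply_lt_iff_of_mem_decomposition A hτ _ _).mpr ih
    have := hk (n - 1)
    rw [Nat.sub_add_cancel hn, hx] at this
    exact lt_irrefl _ this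
  · exact h
  · exfalso
    have hk : ∀ k : ℕ, A.valuation x < A.valuation ((τ ^ (k + 1)) x) := by
      intro k
      induction k with
      | zero => simpa using h
      | succ k ih =>
        rw [hstep (k + 1)]
        refine lt_trans h ?_
        exact (valuation_apply_lt_iff_of_mem_decomposition A hτ _ _).mpr ih
    have := hk (n - 1)
    rw [Nat.sub_add_cancel hn, hx] at this
    exact lt_irrefl _ this

/-- Elements of the inertia group move elements of `A` by nonunits. -/
theorem sub_mem_nonunits_of_mem_inertiaIn {τ : L ≃ₐ[K] L} (hτ : τ ∈ A.inertiaSubgroupIn K)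
    {a : L} (ha : a ∈ A) : τ a - a ∈ A.nonunits := by
  obtain ⟨ι', hι', rfl⟩ := hτ
  have h1 : ι' • IsLocalRing.residue A ⟨a, ha⟩ = IsLocalRing.residue A ⟨a, ha⟩ := by
    have := congrArg (fun f => f (IsLocalRing.residue A ⟨a, ha⟩)) (MonoidHom.mem_ker.mp hι')
    simpa using this
  rw [← IsLocalRing.ResidueField.residue_smul, ← sub_eq_zero, ← map_sub,
    IsLocalRing.residue_eq_zero_iff, ← ValuationSubring.coe_mem_nonunits_iff] at h1
  exact h1

theorem valuation_sub_lt_one_of_mem_inertiaIn {τ : L ≃ₐ[K] L} (hτ : τ ∈ A.inertiaSubgroupIn K)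
    {a : L} (ha : A.valuation a ≤ 1) : A.valuation (τ a - a) < 1 :=
  A.mem_nonunits_iff.mp
    (sub_mem_nonunits_of_mem_inertiaIn A hτ ((A.valuation_le_one_iff a).mp ha))

/-- Inertia moves every element by something of strictly smaller valuation... up to the
valuation of the element: `v (τ a - a) < v a` for units `a` of `A`. -/
theorem valuation_sub_lt_of_mem_inertiaIn_of_unit {τ : L ≃ₐ[K] L}
    (hτ : τ ∈ A.inertiaSubgroupIn K) {a : L} (ha : A.valuation a = 1) :
    A.valuation (τ a - a) < A.valuation a := by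
  rw [ha]
  exact valuation_sub_lt_one_of_mem_inertiaIn A hτ ha.le

section tame

variable [Algebra.IsAlgebraic K L]

/-- `τ c / c` is a unit of `A` for `τ` in the decomposition group. -/
theorem valuation_apply_div_self {τ : L ≃ₐ[K] L} (hτ : τ ∈ A.decompositionSubgroup K)
    {c : L} (hc : c ≠ 0) : A.valuation (τ c / c) = 1 := by
  rw [map_div₀, valuation_apply_of_mem_decomposition A hτ,
    div_self ((Valuation.ne_zero_iff _).mpr hc)]

/-- The raw symbol `c ↦ τ c / c` as a monoid hom `Lˣ →* A.unitGroup`. -/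
noncomputable def ratioHom {τ : L ≃ₐ[K] L} (hτ : τ ∈ A.decompositionSubgroup K) : Lˣ →* A.unitGroup where
  toFun c := ⟨Units.map (τ : L →* L) c / c, by
    rw [ValuationSubring.mem_unitGroup_iff]
    simpa using valuation_apply_div_self A hτ c.ne_zero⟩
  map_one' := by
    apply Subtype.ext
    simp
  map_mul' c d := by
    apply Subtype.ext
    simp only [map_mul, Subgroup.coe_mul]
    rw [mul_div_mul_comm]

@[simp]
theorem coe_ratioHom {τ : L ≃ₐ[K] L} (hτ : τ ∈ A.decompositionSubgroup K) (c : Lˣ) :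
    (((ratioHom A hτ c : A.unitGroup) : Lˣ) : L) = τ c / c := by
  simp [ratioHom]

/-- **The tame character** `Lˣ →* kˣ`, `c ↦ (τ c / c mod 𝔪_A)`, of an element `τ` of the
inertia group. -/
noncomputable def tameHom {τ : L ≃ₐ[K] L} (hτ : τ ∈ A.inertiaSubgroupIn K) :
    Lˣ →* (IsLocalRing.ResidueField A)ˣ :=
  A.unitGroupToResidueFieldUnits.comp (ratioHom A (mem_decomposition_of_mem_inertiaIn A hτ))

/-- `tameHom c = 1 ↔ v (τ c - c) < v c`. -/
theorem tameHom_eq_one_iff {τ : L ≃ₐ[K] L} (hτ : τ ∈ A.inertiaSubgroupIn K) (c : Lˣ) :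
    tameHom A hτ c = 1 ↔ A.valuation (τ c - c) < A.valuation (c : L) := by
  have hc0 : A.valuation (c : L) ≠ 0 := (Valuation.ne_zero_iff _).mpr c.ne_zero
  have h1 : tameHom A hτ c = 1 ↔
      ratioHom A (mem_decomposition_of_mem_inertiaIn A hτ) c ∈
        A.unitGroupToResidueFieldUnits.ker := by
    rw [MonoidHom.mem_ker]; rfl
  rw [h1, ker_unitGroupToResidueFieldUnits, Subgroup.mem_comap, Subgroup.coe_subtype,
    ValuationSubring.mem_principalUnitGroup_iff, coe_ratioHom]
  have h2 : τ c / c - 1 = (τ c - c) / c := by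
    field_simp
  rw [h2, map_div₀, div_lt_one₀ (pos_iff_ne_zero.mpr hc0)]
where
  ker_unitGroupToResidueFieldUnits := A.ker_unitGroupToResidueFieldUnits

/-- The tame character is trivial on units of `A`. -/
theorem tameHom_eq_one_of_valuation_eq_one {τ : L ≃ₐ[K] L} (hτ : τ ∈ A.inertiaSubgroupIn K)
    (c : Lˣ) (hc : A.valuation (c : L) = 1) : tameHom A hτ c = 1 :=
  (tameHom_eq_one_iff A hτ c).mpr (valuation_sub_lt_of_mem_inertiaIn_of_unit A hτ hc)

/-- The tame character depends only on the valuation. -/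
theorem tameHom_eq_of_valuation_eq {τ : L ≃ₐ[K] L} (hτ : τ ∈ A.inertiaSubgroupIn K)
    (c d : Lˣ) (h : A.valuation (c : L) = A.valuation (d : L)) :
    tameHom A hτ c = tameHom A hτ d := by
  have h1 : tameHom A hτ (c / d) = 1 := by
    apply tameHom_eq_one_of_valuation_eq_one
    rw [Units.val_div_eq_div_val, map_div₀, h,
      div_self ((Valuation.ne_zero_iff _).mpr d.ne_zero)]
  rw [map_div, div_eq_one] at h1
  exact h1

/-- The tame character is trivial on the base field. -/
theorem tameHom_algebraMap {τ : L ≃ₐ[K] L} (hτ : τ ∈ A.inertiaSubgroupIn K)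
    (c : Lˣ) (a : K) (hc : (c : L) = algebraMap K L a) : tameHom A hτ c = 1 := by
  rw [tameHom_eq_one_iff, hc, AlgEquiv.commutes, sub_self, map_zero, ← hc]
  exact pos_iff_ne_zero.mpr ((Valuation.ne_zero_iff _).mpr c.ne_zero)

/-- More generally the tame character is trivial on elements fixed by `τ`. -/
theorem tameHom_eq_one_of_fixed {τ : L ≃ₐ[K] L} (hτ : τ ∈ A.inertiaSubgroupIn K)
    (c : Lˣ) (hc : τ c = c) : tameHom A hτ c = 1 := by
  rw [tameHom_eq_one_iff, hc, sub_self, map_zero]
  exact pos_iff_ne_zero.mpr ((Valuation.ne_zero_iff _).mpr c.ne_zero)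

/-- Values of the tame character are roots of unity: if `c ^ n = a * u` with `a ∈ K` and `u` a
unit of `A`, then `tame(c) ^ n = 1`. -/
theorem tameHom_pow_eq_one {τ : L ≃ₐ[K] L} (hτ : τ ∈ A.inertiaSubgroupIn K)
    (c : Lˣ) (n : ℕ) (a : K) (u : L) (hu : A.valuation u = 1)
    (h : (c : L) ^ n = algebraMap K L a * u) : tameHom A hτ c ^ n = 1 := by
  have hu0 : u ≠ 0 := by
    rintro rfl
    simp at hu
  have ha0 : algebraMap K L a ≠ 0 := by
    intro h0
    rw [h0, zero_mul] at h
    exact pow_ne_zero n c.ne_zero h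
  have hcn : c ^ n = Units.mk0 _ ha0 * Units.mk0 u hu0 := by
    apply Units.ext
    simpa using h
  rw [← map_pow, hcn, map_mul, tameHom_algebraMap A hτ _ a rfl,
    tameHom_eq_one_of_valuation_eq_one A hτ _ hu, one_mul]

/-- `στ c / c = (σ (τ c) / τ c) · (τ c / c)`. -/
theorem ratioHom_mul {σ τ : L ≃ₐ[K] L} (hσ : σ ∈ A.decompositionSubgroup K)
    (hτ : τ ∈ A.decompositionSubgroup K) (c : Lˣ) :
    ratioHom A (mul_mem hσ hτ) c =
      ratioHom A hσ (Units.map (τ : L →* L) c) * ratioHom A hτ c := by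
  apply Subtype.ext
  apply Units.ext
  rw [Subgroup.coe_mul, Units.val_mul, coe_ratioHom, coe_ratioHom, coe_ratioHom]
  have hc0 : (c : L) ≠ 0 := c.ne_zero
  have hd0 : τ (c : L) ≠ 0 := by simp
  have h1 : ((Units.map (τ : L →* L) c : Lˣ) : L) = τ c := rfl
  have h2 : (σ * τ) (c : L) = σ (τ c) := rfl
  rw [h1, h2]
  field_simp

/-- The tame character is multiplicative in `τ`. -/
theorem tameHom_mul {σ τ : L ≃ₐ[K] L} (hσ : σ ∈ A.inertiaSubgroupIn K)
    (hτ : τ ∈ A.inertiaSubgroupIn K) (c : Lˣ) :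
    tameHom A (mul_mem hσ hτ) c = tameHom A hσ c * tameHom A hτ c := by
  set d : Lˣ := Units.map (τ : L →* L) c with hd
  have hdv : A.valuation (d : L) = A.valuation (c : L) :=
    valuation_apply_of_mem_decomposition A (mem_decomposition_of_mem_inertiaIn A hτ) (c : L)
  have h1 : tameHom A hσ d = tameHom A hσ c := tameHom_eq_of_valuation_eq A hσ d c hdv
  rw [← h1]
  show A.unitGroupToResidueFieldUnits (ratioHom A _ c) = _
  rw [ratioHom_mul A (mem_decomposition_of_mem_inertiaIn A hσ)
    (mem_decomposition_of_mem_inertiaIn A hτ), map_mul]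
  rfl

/-- The tame character of the inverse. -/
theorem tameHom_inv {τ : L ≃ₐ[K] L} (hτ : τ ∈ A.inertiaSubgroupIn K) (c : Lˣ) :
    tameHom A (inv_mem hτ) c = (tameHom A hτ c)⁻¹ := by
  have h1 : tameHom A (mul_mem (inv_mem hτ) hτ) c = 1 := by
    apply tameHom_eq_one_of_fixed
    show (τ⁻¹ * τ) (c : L) = c
    rw [inv_mul_cancel]; rfl
  rw [tameHom_mul A (inv_mem hτ) hτ] at h1
  exact eq_inv_of_mul_eq_one_left h1

end tame

end Fermat.Agent.A2.H708

end
-- ===== PACK-END A2/H708/Tame.lean

-- ===== PACK-BEGIN A2/IF/H9/InertiaClosed.lean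
section





/-!
# A2 / IF (helper9): the inertia group is closed, hence `Gal(L / L^{I_A}) = I_A`

`K ⊆ L` algebraic (Galois for the last statement), `A` a valuation subring of `L`.

* `mem_inertiaSubgroupIn_iff_forall` : `σ ∈ I_A ↔ ∀ x ∈ A, σ x - x ∈ 𝔪_A`
  (stability `σ A = A` is automatic);
* `isClosed_inertiaSubgroupIn` : `I_A` is closed in the Krull topology;
* `mem_inertiaSubgroupIn_of_fixes_fixedField` : an automorphism fixing the inertia field
  `L^{I_A}` pointwise lies in `I_A` (piece (a) = LemA of IF in its strongest form).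
-/

set_option autoImplicit false

open scoped Pointwise

namespace Fermat.Agent.A2.IF.H9

variable {K L : Type*} [Field K] [Field L] [Algebra K L]

section Algebraic

variable [Algebra.IsAlgebraic K L]

/-- every element has finite order under an automorphism of an algebraic extension -/
theorem exists_pow_apply_eq (σ : L ≃ₐ[K] L) (x : L) : ∃ n : ℕ, 0 < n ∧ (σ ^ n) x = x := by
  classical
  have hint : IsIntegral K x := (Algebra.IsAlgebraic.isAlgebraic x).isIntegral
  have hfin : ((minpoly K x).rootSet L).Finite := Polynomial.rootSet_finite _ _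
  have hmem : ∀ n : ℕ, (σ ^ n) x ∈ (minpoly K x).rootSet L := by
    intro n
    rw [Polynomial.mem_rootSet]
    refine ⟨minpoly.ne_zero hint, ?_⟩
    have h1 := Polynomial.aeval_algHom_apply ((σ ^ n : L ≃ₐ[K] L) : L →ₐ[K] L) x (minpoly K x)
    rw [minpoly.aeval, map_zero] at h1
    exact h1
  obtain ⟨i, -, j, -, hij, heq⟩ :=
    Set.Infinite.exists_ne_map_eq_of_mapsTo (s := (Set.univ : Set ℕ)) Set.infinite_univ
      (fun n _ => hmem n) hfin
  wlog hlt : i < j generalizing i j
  · exact this j i (Ne.symm hij) heq.symm (lt_of_le_of_ne (not_lt.mp hlt) (Ne.symm hij))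
  refine ⟨j - i, Nat.sub_pos_of_lt hlt, ?_⟩
  have h1 : (σ ^ i) ((σ ^ (j - i)) x) = (σ ^ i) x := by
    rw [← AlgEquiv.mul_apply, ← pow_add, Nat.add_sub_cancel' hlt.le, heq]
  exact (σ ^ i).injective h1

/-- an automorphism mapping `A` into itself stabilises `A` -/
theorem smul_eq_of_forall_mem (A : ValuationSubring L) (σ : L ≃ₐ[K] L)
    (h : ∀ x ∈ A, σ x ∈ A) : σ • A = A := by
  have hpow : ∀ (n : ℕ) (x : L), x ∈ A → (σ ^ n) x ∈ A := by
    intro n
    induction n with
    | zero => intro x hx; simpa using hx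
    | succ n ih =>
      intro x hx
      rw [pow_succ, AlgEquiv.mul_apply]
      exact ih _ (h x hx)
  ext x
  rw [ValuationSubring.mem_smul_pointwise_iff_exists]
  constructor
  · rintro ⟨y, hy, rfl⟩
    exact h y hy
  · intro hx
    obtain ⟨n, hn, hnx⟩ := exists_pow_apply_eq σ x
    refine ⟨(σ ^ (n - 1)) x, hpow _ x hx, ?_⟩
    show σ ((σ ^ (n - 1)) x) = x
    rw [← AlgEquiv.mul_apply, ← pow_succ', Nat.sub_add_cancel hn, hnx]

end Algebraic

/-- unfolding membership in `inertiaSubgroupIn` -/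
theorem mem_inertiaSubgroupIn_iff_exists (A : ValuationSubring L) (σ : L ≃ₐ[K] L) :
    σ ∈ A.inertiaSubgroupIn K ↔
      ∃ h : σ ∈ A.decompositionSubgroup K,
        (⟨σ, h⟩ : A.decompositionSubgroup K) ∈ A.inertiaSubgroup K := by
  unfold ValuationSubring.inertiaSubgroupIn
  constructor
  · rintro ⟨τ, hτ, rfl⟩
    exact ⟨τ.2, hτ⟩
  · rintro ⟨h, hσ⟩
    exact ⟨⟨σ, h⟩, hσ, rfl⟩

theorem apply_mem_of_smul_eq {A : ValuationSubring L} {σ : L ≃ₐ[K] L} (hσ : σ • A = A) {t : L}
    (ht : t ∈ A) : σ t ∈ A := by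
  have h1 : σ • t ∈ σ • A := ValuationSubring.smul_mem_pointwise_smul σ t A ht
  rw [hσ] at h1
  exact h1

/-- inertia in terms of elements, given stability -/
theorem mem_inertiaSubgroupIn_iff_of_smul_eq (A : ValuationSubring L) (σ : L ≃ₐ[K] L)
    (hσA : σ • A = A) :
    σ ∈ A.inertiaSubgroupIn K ↔ ∀ x ∈ A, σ x - x ∈ A.nonunits := by
  have hσD : σ ∈ A.decompositionSubgroup K := MulAction.mem_stabilizer_iff.mpr hσA
  have key : ∀ (x : L) (hx : x ∈ A),
      ((⟨σ, hσD⟩ : A.decompositionSubgroup K) • (IsLocalRing.residue A ⟨x, hx⟩)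
        = IsLocalRing.residue A ⟨x, hx⟩) ↔ σ x - x ∈ A.nonunits := by
    intro x hx
    rw [← IsLocalRing.ResidueField.residue_smul]
    show Ideal.Quotient.mk _ _ = Ideal.Quotient.mk _ _ ↔ _
    rw [Ideal.Quotient.eq, ← ValuationSubring.coe_mem_nonunits_iff]
    rfl
  rw [mem_inertiaSubgroupIn_iff_exists]
  constructor
  · rintro ⟨h, hker⟩ x hx
    have h1 : MulSemiringAction.toRingAut (A.decompositionSubgroup K)
        (IsLocalRing.ResidueField A) ⟨σ, h⟩ = 1 := hker
    have h2 : (⟨σ, hσD⟩ : A.decompositionSubgroup K) • (IsLocalRing.residue A ⟨x, hx⟩) =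
        IsLocalRing.residue A ⟨x, hx⟩ := by
      have := congrArg (fun f => f (IsLocalRing.residue A ⟨x, hx⟩)) h1
      simpa using this
    exact (key x hx).mp h2
  · intro h
    refine ⟨hσD, ?_⟩
    rw [ValuationSubring.inertiaSubgroup, MonoidHom.mem_ker]
    ext r
    obtain ⟨a, rfl⟩ := IsLocalRing.residue_surjective r
    exact (key a a.2).mpr (h a a.2)

section Algebraic

variable [Algebra.IsAlgebraic K L]

/-- **inertia in terms of elements** (stability is automatic) -/
theorem mem_inertiaSubgroupIn_iff_forall (A : ValuationSubring L) (σ : L ≃ₐ[K] L) :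
    σ ∈ A.inertiaSubgroupIn K ↔ ∀ x ∈ A, σ x - x ∈ A.nonunits := by
  constructor
  · intro h
    have hD : σ • A = A := ((mem_inertiaSubgroupIn_iff_exists A σ).mp h).1
    exact (mem_inertiaSubgroupIn_iff_of_smul_eq A σ hD).mp h
  · intro h
    have hD : σ • A = A := by
      refine smul_eq_of_forall_mem A σ fun x hx => ?_
      have h1 : σ x - x ∈ A := A.nonunits_le (h x hx)
      have := A.add_mem _ _ h1 hx
      simpa using this
    exact (mem_inertiaSubgroupIn_iff_of_smul_eq A σ hD).mpr h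

end Algebraic

section Topology

variable [Algebra.IsAlgebraic K L]

/-- evaluation at `x` is locally constant -/
theorem isOpen_setOf_apply_eq (x y : L) : IsOpen {σ : L ≃ₐ[K] L | σ x = y} := by
  rw [isOpen_iff_mem_nhds]
  intro g hg
  let E : IntermediateField K L := IntermediateField.adjoin K {x}
  haveI : FiniteDimensional K E :=
    IntermediateField.adjoin.finiteDimensional (Algebra.IsIntegral.isIntegral _)
  have hopen : IsOpen ((g • (E.fixingSubgroup : Set (L ≃ₐ[K] L)))) :=
    (E.fixingSubgroup_isOpen).smul g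
  refine Filter.mem_of_superset (hopen.mem_nhds ⟨1, one_mem _, by simp⟩) ?_
  rintro _ ⟨h, hh, rfl⟩
  have hb : h x = x :=
    (IntermediateField.mem_fixingSubgroup_iff E h).mp hh x
      (IntermediateField.subset_adjoin K _ (Set.mem_singleton _))
  show (g * h) x = y
  rw [AlgEquiv.mul_apply, hb]
  exact hg

theorem isClosed_setOf_apply_mem (x : L) (S : Set L) : IsClosed {σ : L ≃ₐ[K] L | σ x ∈ S} := by
  rw [← isOpen_compl_iff]
  have : {σ : L ≃ₐ[K] L | σ x ∈ S}ᶜ = ⋃ y ∈ Sᶜ, {σ : L ≃ₐ[K] L | σ x = y} := by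
    ext σ
    simp
  rw [this]
  exact isOpen_biUnion fun y _ => isOpen_setOf_apply_eq x y

/-- **the inertia group is closed** -/
theorem isClosed_inertiaSubgroupIn (A : ValuationSubring L) :
    IsClosed ((A.inertiaSubgroupIn K : Subgroup (L ≃ₐ[K] L)) : Set (L ≃ₐ[K] L)) := by
  have : ((A.inertiaSubgroupIn K : Subgroup (L ≃ₐ[K] L)) : Set (L ≃ₐ[K] L))
      = ⋂ x ∈ (A : Set L), {σ : L ≃ₐ[K] L | σ x ∈ {y | y - x ∈ A.nonunits}} := by
    ext σ
    simp only [SetLike.mem_coe, Set.mem_iInter, Set.mem_ofPred_eq]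
    exact mem_inertiaSubgroupIn_iff_forall A σ
  rw [this]
  exact isClosed_biInter fun x _ => isClosed_setOf_apply_mem x _

end Topology

section Galois

variable [IsGalois K L]

/-- **LemA, strong form**: an automorphism fixing the inertia field lies in the inertia group. -/
theorem mem_inertiaSubgroupIn_of_fixes_fixedField (A : ValuationSubring L) (σ : L ≃ₐ[K] L)
    (h : ∀ x ∈ IntermediateField.fixedField (A.inertiaSubgroupIn K), σ x = x) :
    σ ∈ A.inertiaSubgroupIn K := by
  haveI : Algebra.IsAlgebraic K L := inferInstance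
  let H : ClosedSubgroup (L ≃ₐ[K] L) :=
    ⟨A.inertiaSubgroupIn K, isClosed_inertiaSubgroupIn A⟩
  have hH := InfiniteGalois.fixingSubgroup_fixedField H
  have hσ : σ ∈ (IntermediateField.fixedField (H : Subgroup (L ≃ₐ[K] L))).fixingSubgroup := by
    rw [IntermediateField.mem_fixingSubgroup_iff]
    exact h
  rw [hH] at hσ
  exact hσ

end Galois

end Fermat.Agent.A2.IF.H9

end
-- ===== PACK-END A2/IF/H9/InertiaClosed.lean

-- ===== PACK-BEGIN S19/H135/Defs.lean
section
/-
Cell A3 / WP-C (helper135): closure algebra for "flat models" (the S19 / `IsFlatAt` existential).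
Definitions: `FlatModel`, pull-back algebra maps on function algebras, Hopf lattices.
-/



set_option autoImplicit false

namespace Fermat.Agent.S19.H135

/-- The `S19` / `GaloisRepAdic.IsFlatAt` existential for an arbitrary additive group `M` with a
family of maps `act σ : M → M` indexed by the absolute Galois group of `ℚ`. -/
def FlatModel (ℓ : ℕ) (M : Type) [AddCommGroup M]
    (act : (AlgebraicClosure ℚ ≃ₐ[ℚ] AlgebraicClosure ℚ) → M → M) : Prop :=
  ∃ (H : Type) (_ : CommRing H) (_ : HopfAlgebra (GaloisRep.ratLocalizedAt ℓ) H),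
    Module.Finite (GaloisRep.ratLocalizedAt ℓ) H ∧ Module.Flat (GaloisRep.ratLocalizedAt ℓ) H ∧
    Coalgebra.IsCocomm (GaloisRep.ratLocalizedAt ℓ) H ∧
    ∃ e : WithConv (H →ₐ[GaloisRep.ratLocalizedAt ℓ] AlgebraicClosure ℚ) ≃ M,
      (∀ f g : WithConv (H →ₐ[GaloisRep.ratLocalizedAt ℓ] AlgebraicClosure ℚ),
        e (f * g) = e f + e g) ∧
      ∀ (σ : AlgebraicClosure ℚ ≃ₐ[ℚ] AlgebraicClosure ℚ)
        (f g : WithConv (H →ₐ[GaloisRep.ratLocalizedAt ℓ] AlgebraicClosure ℚ)),
        (∀ h : H, g h = σ (f h)) → e g = act σ (e f)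

/-- `IsFlatAt` is, by definition, `FlatModel` for all finite quotients `V / I V`. -/
theorem isFlatAt_iff {A : Type} [CommRing A] [IsLocalRing A] (ρ : GaloisRepAdic A) (p : ℕ) :
    ρ.IsFlatAt p ↔ Finite (IsLocalRing.ResidueField A) ∧ ∀ I : Ideal A, Finite (A ⧸ I) →
      FlatModel p (ρ.V ⧸ (I • (⊤ : Submodule A ρ.V))) (fun σ x => ρ.levelAction I σ x) :=
  Iff.rfl

section Pull

variable (R : Type*) [CommSemiring R] (K : Type*) [CommSemiring K] [Algebra R K]
variable {X Y Z : Type*}

/-- Pull-back of functions along `φ : X → Y`, as an algebra homomorphism. -/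
def pull (φ : X → Y) : (Y → K) →ₐ[R] (X → K) :=
  AlgHom.pi (fun x => Pi.evalAlgHom R (fun _ => K) (φ x))

@[simp] lemma pull_apply (φ : X → Y) (f : Y → K) (x : X) : pull R K φ f x = f (φ x) := rfl

lemma pull_comp (φ : X → Y) (ψ : Y → Z) :
    (pull R K φ).comp (pull R K ψ) = pull R K (ψ ∘ φ) := rfl

lemma pull_injective {φ : X → Y} (hφ : Function.Surjective φ) :
    Function.Injective (pull R K φ) := by
  intro f g h
  funext y
  obtain ⟨x, rfl⟩ := hφ y
  exact congrFun h x

lemma pull_surjective [Nonempty K] {φ : X → Y} (hφ : Function.Injective φ) :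
    Function.Surjective (pull R K φ) := by
  classical
  intro f
  refine ⟨fun y => if h : ∃ x, φ x = y then f h.choose else Classical.arbitrary K, ?_⟩
  funext x
  have hx : ∃ x', φ x' = φ x := ⟨x, rfl⟩
  simp only [pull_apply, dif_pos hx]
  exact congrArg f (hφ hx.choose_spec)

end Pull

/-- A *Hopf lattice* for `(M, act)`: an `ℤ_(ℓ)`-subalgebra `Λ` of the algebra of functions
`M → ℚ̄`, finitely generated as a module, consisting of Galois-equivariant functions, separating
the points of `M`, and closed under "comultiplication" `f ↦ ((m, n) ↦ f (m + n))`. -/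
structure IsHopfLattice (ℓ : ℕ) {M : Type} [AddCommGroup M]
    (act : (AlgebraicClosure ℚ ≃ₐ[ℚ] AlgebraicClosure ℚ) → M → M)
    (Λ : Subalgebra (GaloisRep.ratLocalizedAt ℓ) (M → AlgebraicClosure ℚ)) : Prop where
  fg : (Subalgebra.toSubmodule Λ).FG
  equivariant : ∀ f ∈ Λ, ∀ (σ : AlgebraicClosure ℚ ≃ₐ[ℚ] AlgebraicClosure ℚ) (m : M),
    f (act σ m) = σ (f m)
  separates : ∀ m n : M, (∀ f ∈ Λ, f m = f n) → m = n
  comul : Λ.map (pull (GaloisRep.ratLocalizedAt ℓ) (AlgebraicClosure ℚ)
        (fun p : M × M => p.1 + p.2)) ≤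
      Λ.map (pull (GaloisRep.ratLocalizedAt ℓ) (AlgebraicClosure ℚ) (Prod.fst : M × M → M)) ⊔
      Λ.map (pull (GaloisRep.ratLocalizedAt ℓ) (AlgebraicClosure ℚ) (Prod.snd : M × M → M))

/-- `(M, act)` carries a Hopf lattice. -/
def HasHopfLattice (ℓ : ℕ) (M : Type) [AddCommGroup M]
    (act : (AlgebraicClosure ℚ ≃ₐ[ℚ] AlgebraicClosure ℚ) → M → M) : Prop :=
  ∃ Λ : Subalgebra (GaloisRep.ratLocalizedAt ℓ) (M → AlgebraicClosure ℚ), IsHopfLattice ℓ act Λ

/-- Layer 0 (the construction of the Hopf algebra from a lattice), as a hypothesis. -/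
def Layer0 (ℓ : ℕ) : Prop :=
  ∀ (M : Type) [AddCommGroup M] (act : (AlgebraicClosure ℚ ≃ₐ[ℚ] AlgebraicClosure ℚ) → M → M),
    HasHopfLattice ℓ M act → FlatModel ℓ M act

end Fermat.Agent.S19.H135

end
-- ===== PACK-END S19/H135/Defs.lean

-- ===== PACK-BEGIN S37/H697/FrobF.lean
section


/-!
# S37 (helper697): coefficientwise automorphisms of the function field `k(j(q^d) : d ∣ N)`

For a field `k` and a ring automorphism `φ` of `k`, the coefficientwise map `coeffMap φ` on
`k((q))` preserves `modularFunctionFieldFullC k N` (its generators have coefficients in the prime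
ring).  This gives a semilinear automorphism `coeffSL N φ` of the function field, hence an action
on places and divisors (Prelude `SemilinearAut`).  For `φ` = Frobenius this is the map `Φ` of the
Eichler–Shimura relation.
-/

set_option autoImplicit false

noncomputable section

open HahnSeries IntermediateField AlgebraicCurve ModularCurve

namespace Fermat.Agent.S37.H697

variable {k : Type*} [Field k] (N : ℕ)

theorem mem_fullC_iff {x : LaurentSeries k} :
    x ∈ modularFunctionFieldFullC k N ↔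
      x ∈ Subfield.closure
        (Set.range (algebraMap k (LaurentSeries k)) ∪ divisorExpansionsC k N) :=
  Iff.rfl

theorem coeffMap_mem_fullC (φ : k →+* k) {x : LaurentSeries k}
    (hx : x ∈ modularFunctionFieldFullC k N) :
    coeffMap φ x ∈ modularFunctionFieldFullC k N := by
  rw [mem_fullC_iff] at hx
  induction hx using Subfield.closure_induction with
  | mem y hy =>
      rcases hy with ⟨a, rfl⟩ | ⟨d, hd, hdN, rfl⟩
      · rw [coeffMap_algebraMap]
        exact (modularFunctionFieldFullC k N).algebraMap_mem _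
      · have := hd
        rw [coeffMap_qExpand, coeffMap_jqModC]
        exact jqModCd_mem_full k N hdN
  | one => simp
  | add x y _ _ hx hy => simpa using _root_.AddMemClass.add_mem hx hy
  | neg x _ hx => simpa using _root_.NegMemClass.neg_mem hx
  | inv x _ hx => simpa using _root_.InvMemClass.inv_mem hx
  | mul x y _ _ hx hy => simpa using _root_.MulMemClass.mul_mem hx hy

/-- The coefficientwise ring automorphism of `modularFunctionFieldFullC k N` induced by a ring
automorphism of `k`. -/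
def coeffRingAut (φ : k ≃+* k) :
    (modularFunctionFieldFullC k N) ≃+* (modularFunctionFieldFullC k N) where
  toFun x := ⟨coeffMap (φ : k →+* k) (x : LaurentSeries k), coeffMap_mem_fullC N _ x.2⟩
  invFun x := ⟨coeffMap (φ.symm : k →+* k) (x : LaurentSeries k), coeffMap_mem_fullC N _ x.2⟩
  left_inv x := Subtype.ext <| by
    show coeffMap (φ.symm : k →+* k) (coeffMap (φ : k →+* k) (x : LaurentSeries k))
      = (x : LaurentSeries k)
    rw [coeffMap_coeffMap,
      coeffMap_congr (g := RingHom.id k) (RingHom.ext fun a => φ.symm_apply_apply a)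
        (x : LaurentSeries k),
      coeffMap_id]
  right_inv x := Subtype.ext <| by
    show coeffMap (φ : k →+* k) (coeffMap (φ.symm : k →+* k) (x : LaurentSeries k))
      = (x : LaurentSeries k)
    rw [coeffMap_coeffMap,
      coeffMap_congr (g := RingHom.id k) (RingHom.ext fun a => φ.apply_symm_apply a)
        (x : LaurentSeries k),
      coeffMap_id]
  map_mul' x y :=
    Subtype.ext (_root_.map_mul (coeffMap (φ : k →+* k)) (x : LaurentSeries k) (y : LaurentSeries k))
  map_add' x y :=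
    Subtype.ext (_root_.map_add (coeffMap (φ : k →+* k)) (x : LaurentSeries k) (y : LaurentSeries k))

@[simp]
theorem coe_coeffRingAut_apply (φ : k ≃+* k) (x : modularFunctionFieldFullC k N) :
    (coeffRingAut N φ x : LaurentSeries k) = coeffMap (φ : k →+* k) (x : LaurentSeries k) :=
  rfl

theorem coeffRingAut_algebraMap (φ : k ≃+* k) (a : k) :
    coeffRingAut N φ (algebraMap k (modularFunctionFieldFullC k N) a)
      = algebraMap k (modularFunctionFieldFullC k N) (φ a) :=
  Subtype.ext (coeffMap_algebraMap (φ : k →+* k) a)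

/-- The semilinear automorphism of `modularFunctionFieldFullC k N` induced by a ring automorphism
of `k`. -/
def coeffSL (φ : k ≃+* k) : SemilinearAut k (modularFunctionFieldFullC k N) :=
  ⟨(coeffRingAut N φ, φ), fun a => coeffRingAut_algebraMap N φ a⟩

@[simp]
theorem coe_coeffSL_smul (φ : k ≃+* k) (x : modularFunctionFieldFullC k N) :
    ((coeffSL N φ • x : modularFunctionFieldFullC k N) : LaurentSeries k)
      = coeffMap (φ : k →+* k) (x : LaurentSeries k) :=
  rfl

theorem coeffSL_symm (φ : k ≃+* k) : coeffSL N φ.symm = (coeffSL N φ)⁻¹ := rfl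

theorem coeffSL_refl : coeffSL N (RingEquiv.refl k) = 1 := by
  refine Subtype.ext (Prod.ext (RingEquiv.ext fun x => Subtype.ext ?_) rfl)
  show coeffMap ((RingEquiv.refl k : k ≃+* k) : k →+* k) (x : LaurentSeries k)
    = (x : LaurentSeries k)
  rw [show ((RingEquiv.refl k : k ≃+* k) : k →+* k) = RingHom.id k from RingHom.ext fun _ => rfl,
    coeffMap_id]

end Fermat.Agent.S37.H697

end
end
-- ===== PACK-END S37/H697/FrobF.lean

-- ===== PACK-BEGIN S18/Sq05/Spec.lean
section




/-!
# S18 — squad S18/S05 (squad-lead helper5): frozen statements of the squad's pieces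

Row plan: `origin/helper18:coord/S18.md` (v2).  This squad owns

* **T2** / **T3**: "a function without zeros and poles is constant" for the modular function
  fields in characteristic `0` and `ℓ` (`ConstStatement`, definitionally equal to
  `Fermat.Agent.S18.H94.ConstOfOrdZero` of the adopted top layer),
* the residue-field facts needed to instantiate T3 at `k = A/𝔪`,
* **d1** (descent to a number field, see `coord/S18-squad05.md`).

Every statement below is FROZEN.  Proofs go to `Fermat/Agent/S18/H<seat>/…` (own namespace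
`Fermat.Agent.S18.H<seat>`), importing Mathlib, Prelude and landed files only.
-/

set_option autoImplicit false

noncomputable section

namespace Fermat.Agent.S18.Sq05

open AlgebraicCurve ModularCurve IntermediateField

/-- A function without zeros and poles (at the discrete valuation rings containing `K`) is a
constant.  Unfolded form of `H94.ConstOfOrdZero K F`. -/
def ConstStatement (K F : Type*) [Field K] [Field F] [Algebra K F] : Prop :=
  ∀ u : F, u ≠ 0 → (∀ v : Place K F, v.ord u = 0) → ∃ c : K, u = algebraMap K F c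

/-- **FF.1 (DISC)**, Mathlib-only, characteristic-free.  A valuation subring of a finite
extension `F/E` whose restriction to `E` is a principal ideal ring is a principal ideal ring.
(Value group index `≤ [F:E]`; no separability, no Krull–Akizuki.) -/
def DiscStatement : Prop :=
  ∀ (E F : Type) [Field E] [Field F] [Algebra E F] [FiniteDimensional E F]
    (V : ValuationSubring F),
    IsPrincipalIdealRing (V.comap (algebraMap E F)) → IsPrincipalIdealRing V

/-- **FF.2 (EXT)**, characteristic-free.  If `F` is finite over `K(u)`, `u` transcendental, then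
`u` has a zero at some place of `F/K`. -/
def ExtStatement : Prop :=
  ∀ (K F : Type) [Field K] [Field F] [Algebra K F] (u : F), Transcendental K u →
    FiniteDimensional K⟮u⟯ F → ∃ v : Place K F, 0 < v.ord u

/-- **FF.3 (CONST, generic)**: `K` algebraically closed, `F` finite over `K(x)`. -/
def ConstGenericStatement : Prop :=
  ∀ (K F : Type) [Field K] [Field F] [Algebra K F] [IsAlgClosed K] (x : F),
    Transcendental K x → FiniteDimensional K⟮x⟯ F → ConstStatement K F

/-- **RES.1**: the residue field of a valuation subring of an algebraically closed field is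
algebraically closed. -/
def ResAlgClosedStatement : Prop :=
  ∀ (L : Type) [Field L] [IsAlgClosed L] (A : ValuationSubring L),
    IsAlgClosed (IsLocalRing.ResidueField A)

/-- **RES.2**: primes different from the residue characteristic are invertible in the residue
field. -/
def ResCharStatement : Prop :=
  ∀ (L : Type) [Field L] (A : ValuationSubring L) (ℓ p : ℕ), ℓ.Prime → p.Prime →
    A.LiesOverPrime ℓ → p ≠ ℓ → ((p : ℕ) : IsLocalRing.ResidueField A) ≠ 0

/-- The `j`-function as an element of the function field `k(j(q^d) : d ∣ N)`. -/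
def jC (k : Type*) [Field k] (N : ℕ) [NeZero N] : modularFunctionFieldFullC k N :=
  ⟨jqModC k, jqModC_mem_full k N⟩

/-- **MOD.1**: `j` is transcendental and `k(j(q^d) : d ∣ N)` is finite over `k(j)`, for every
field `k` in which the primes dividing `N` are invertible.
(From landed S28: `H626.finiteDimensional_extendScalars`, `H867.hasModPolys`,
`H807.nonempty_modPolyData`.) -/
def ModFiniteStatement : Prop :=
  ∀ (k : Type) [Field k] (N : ℕ) [NeZero N], (∀ p : ℕ, p.Prime → p ∣ N → (p : k) ≠ 0) →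
    Transcendental k (jC k N) ∧ FiniteDimensional k⟮jC k N⟯ (modularFunctionFieldFullC k N)

/-- **T3 (generic field)**. -/
def T3GenericStatement : Prop :=
  ∀ (k : Type) [Field k] [IsAlgClosed k] (N : ℕ) [NeZero N],
    (∀ p : ℕ, p.Prime → p ∣ N → (p : k) ≠ 0) →
    ConstStatement k (modularFunctionFieldFullC k N)

/-- **T3** (as consumed by the top layer): `CONST_Fk` at `k = A/𝔪`. -/
def T3Statement : Prop :=
  ∀ (N : ℕ) [NeZero N] (ℓ : ℕ), ℓ.Prime → ¬ ℓ ∣ N →
    ∀ A : ValuationSubring (AlgebraicClosure ℚ), A.LiesOverPrime ℓ →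
      ConstStatement (IsLocalRing.ResidueField A)
        (modularFunctionFieldFullC (IsLocalRing.ResidueField A) N)

/-- **T2**: `CONST_F` in characteristic zero (from landed S24: `open_fundamental_eq`,
`ModularPackage.finiteDimensional`; or from FF.3 + MOD.1 and
`modularFunctionFieldBar N = modularFunctionFieldFullC ℚ̄ N`). -/
def T2Statement : Prop :=
  ∀ (N : ℕ) [NeZero N],
    ConstStatement (AlgebraicClosure ℚ) (modularFunctionFieldBar N)

/-- **HPD.k (hedge, for route H / `Lib.RR.FF1` in characteristic `ℓ`)**: the product formula,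
characteristic-free. -/
def HpdStatement : Prop :=
  ∀ (K F : Type) [Field K] [Field F] [Algebra K F] [IsAlgClosed K] (x : F),
    Transcendental K x → FiniteDimensional K⟮x⟯ F → HasPrincipalDivisors K F

/-- Assembly of T3 from the pieces (proved here so that the split is known to be sound). -/
theorem t3Generic_of_pieces (hC : ConstGenericStatement) (hM : ModFiniteStatement) :
    T3GenericStatement := by
  intro k _ _ N _ hchar
  obtain ⟨htr, hfin⟩ := hM k N hchar
  exact hC k _ (jC k N) htr hfin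

theorem t3_of_pieces (hG : T3GenericStatement) (hA : ResAlgClosedStatement)
    (hR : ResCharStatement) : T3Statement := by
  intro N _ ℓ hℓ hℓN A hAℓ
  have := hA _ A
  refine hG _ N fun p hp hpN => hR _ A ℓ p hℓ hp hAℓ ?_
  rintro rfl
  exact hℓN hpN

end Fermat.Agent.S18.Sq05

end
end
-- ===== PACK-END S18/Sq05/Spec.lean

-- ===== PACK-BEGIN S37/H939/MatrixCorank.lean
section


/-!
# Corank of the reduction of a matrix bounds the valuation of its determinant
(row S37 / S18, piece b2 = R2; seat helper939)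

`S` a commutative ring, `K` a field, `φ : S →+* K` surjective with kernel contained in `(π)`.
For a square matrix `G` over `S`:  `π ^ (n - rank (φ G)) ∣ det G`.
-/

set_option autoImplicit false

namespace Fermat.Agent.S37.H939

open Matrix

variable {S K : Type*} [CommRing S] [Field K] {ι : Type*} [Fintype ι] [DecidableEq ι]

lemma prod_ite_mem_eq_pow_card (J : Finset ι) (π : S) :
    (∏ j, if j ∈ J then π else 1) = π ^ J.card := by
  classical
  rw [Finset.prod_ite, Finset.prod_const_one, _root_.mul_one, Finset.prod_const]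
  congr 1
  congr 1
  ext j
  simp

/-- If every column indexed by `J` of `G` is divisible by `π`, then `π ^ #J ∣ det G`. -/
lemma pow_card_dvd_det_of_cols (G : Matrix ι ι S) (π : S) (J : Finset ι)
    (h : ∀ j ∈ J, ∀ i, π ∣ G i j) : π ^ J.card ∣ G.det := by
  classical
  choose! q hq using h
  -- `G = H * diagonal δ`
  let δ : ι → S := fun j => if j ∈ J then π else 1
  let H : Matrix ι ι S := fun i j => if j ∈ J then q j i else G i j
  have hG : G = H * diagonal δ := by
    ext i j
    rw [Matrix.mul_diagonal]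
    by_cases hj : j ∈ J
    · simp only [H, δ, hj, if_true]
      rw [hq j hj i, mul_comm]
    · simp only [H, δ, hj, if_false, _root_.mul_one]
  have hδ : ∏ j, δ j = π ^ J.card := prod_ite_mem_eq_pow_card J π
  rw [hG, Matrix.det_mul, Matrix.det_diagonal, hδ]
  exact Dvd.intro_left _ rfl

omit [Fintype ι] in
/-- Lift a transvection along a surjective ring hom. -/
lemma exists_transvection_lift (φ : S →+* K) (hφ : Function.Surjective φ)
    (t : TransvectionStruct ι K) :
    ∃ t' : TransvectionStruct ι S, t'.toMatrix.map φ = t.toMatrix := by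
  obtain ⟨s, hs⟩ := hφ t.c
  refine ⟨⟨t.i, t.j, t.hij, s⟩, ?_⟩
  ext a b
  simp only [TransvectionStruct.toMatrix, transvection, Matrix.map_apply, Matrix.add_apply,
    Matrix.one_apply, Matrix.single_apply]
  split_ifs <;> simp [hs]

/-- Lift a product of transvections along a surjective ring hom, keeping determinant `1`. -/
lemma exists_lift_prod_transvections (φ : S →+* K) (hφ : Function.Surjective φ)
    (L : List (TransvectionStruct ι K)) :
    ∃ P : Matrix ι ι S, P.det = 1 ∧ P.map φ = (L.map TransvectionStruct.toMatrix).prod := by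
  induction L with
  | nil => exact ⟨1, by simp, by simp⟩
  | cons t L ih =>
    obtain ⟨P, hP, hPφ⟩ := ih
    obtain ⟨t', ht'⟩ := exists_transvection_lift φ hφ t
    refine ⟨t'.toMatrix * P, by simp [hP], ?_⟩
    rw [List.map_cons, List.prod_cons, ← hPφ, ← ht', Matrix.map_mul]

/-- **Corank lemma.** If `φ : S →+* K` is surjective with `ker φ ⊆ (π)`, then for every square
matrix `G` over `S` we have `π ^ (n - rank (φ G)) ∣ det G`. -/
theorem pow_corank_dvd_det (φ : S →+* K) (hφ : Function.Surjective φ) (π : S)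
    (hπ : ∀ s, φ s = 0 → π ∣ s) (G : Matrix ι ι S) :
    π ^ (Fintype.card ι - (G.map φ).rank) ∣ G.det := by
  classical
  obtain ⟨L, L', D, hD⟩ :=
    Matrix.Pivot.exists_list_transvec_mul_diagonal_mul_list_transvec (G.map φ)
  obtain ⟨P, hP, hPφ⟩ := exists_lift_prod_transvections φ hφ L
  obtain ⟨P', hP', hP'φ⟩ := exists_lift_prod_transvections φ hφ L'
  -- `G' = adj P * G * adj P'` reduces to `diagonal D`
  set G' : Matrix ι ι S := P.adjugate * G * P'.adjugate with hG'
  have hdet : G'.det = G.det := by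
    rw [hG', Matrix.det_mul, Matrix.det_mul, Matrix.det_adjugate, Matrix.det_adjugate, hP, hP']
    simp
  have hPu : IsUnit (P.map φ).det := by
    rw [← RingHom.mapMatrix_apply, ← RingHom.map_det, hP, _root_.map_one]; exact isUnit_one
  have hP'u : IsUnit (P'.map φ).det := by
    rw [← RingHom.mapMatrix_apply, ← RingHom.map_det, hP', _root_.map_one]; exact isUnit_one
  have hadjP : (P.adjugate).map φ * P.map φ = 1 := by
    rw [← Matrix.map_mul, Matrix.adjugate_mul, hP, one_smul]
    simp
  have hadjP' : P'.map φ * (P'.adjugate).map φ = 1 := by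
    rw [← Matrix.map_mul, Matrix.mul_adjugate, hP', one_smul]
    simp
  have hred : G'.map φ = diagonal D := by
    rw [hG', Matrix.map_mul, Matrix.map_mul, hD, ← hPφ, ← hP'φ]
    calc (P.adjugate).map φ * (P.map φ * diagonal D * P'.map φ) * (P'.adjugate).map φ
        = ((P.adjugate).map φ * P.map φ) * diagonal D * (P'.map φ * (P'.adjugate).map φ) := by
          simp only [Matrix.mul_assoc]
      _ = diagonal D := by rw [hadjP, hadjP', Matrix.one_mul, Matrix.mul_one]
  -- the rank
  have hrank : (G.map φ).rank = Fintype.card {i // D i ≠ 0} := by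
    rw [hD, ← hPφ, ← hP'φ, Matrix.rank_mul_eq_left_of_isUnit_det _ _ hP'u,
      Matrix.rank_mul_eq_right_of_isUnit_det _ _ hPu, Matrix.rank_diagonal]
  -- the zero columns
  let J : Finset ι := Finset.univ.filter fun j => D j = 0
  have hJ : J.card = Fintype.card ι - (G.map φ).rank := by
    rw [hrank]
    have h1 : Fintype.card {i // D i ≠ 0} = (Finset.univ.filter fun j => D j ≠ 0).card := by
      rw [Fintype.card_subtype]
    have h2 : (Finset.univ.filter fun j => D j ≠ 0).card + J.card = Fintype.card ι := by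
      rw [add_comm]
      exact Finset.card_filter_add_card_filter_not (s := Finset.univ) (p := fun j => D j = 0)
        |>.trans Finset.card_univ
    omega
  rw [← hJ, ← hdet]
  apply pow_card_dvd_det_of_cols
  intro j hj i
  apply hπ
  have hj' : D j = 0 := by simpa [J] using hj
  have := congrFun (congrFun hred i) j
  rw [Matrix.map_apply] at this
  rw [this, Matrix.diagonal_apply]
  split_ifs with h
  · rw [h]; exact hj'
  · rfl

end Fermat.Agent.S37.H939

end
-- ===== PACK-END S37/H939/MatrixCorank.lean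

-- ===== PACK-BEGIN S37/H217/Gauss.lean
section


/-!
# Block ALG, lemma L4 (Gauss lemma for roots over a valuation ring)

`K` an algebraically closed field, `A` a valuation subring of `K` with residue field `k`,
`N ∈ A[X]` with nonzero reduction.  Then for every `cbar ∈ k` the multiplicity of `cbar` as a
root of the reduction of `N` equals the number (with multiplicity) of roots `c` of `N` in `K`
such that `c ∈ A` and `c` reduces to `cbar`.
-/

namespace Fermat.Agent.S37.H217

open Polynomial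

section Gauss

variable {K : Type*} [Field K]

/-- Coefficient recursion: if `(1 - C d * X) * Q = P` with `d ∈ A` and `P` with coefficients in
`A`, then `Q` has coefficients in `A`. -/
theorem coeff_mem_of_one_sub_mul (A : ValuationSubring K) (d : K) (hd : d ∈ A) (P Q : K[X])
    (hP : ∀ i, P.coeff i ∈ A) (h : (1 - C d * X) * Q = P) : ∀ i, Q.coeff i ∈ A := by
  have key : ∀ i, Q.coeff (i + 1) = P.coeff (i + 1) + d * Q.coeff i := by
    intro i
    rw [← h]
    simp [sub_mul, mul_assoc, coeff_X_mul, coeff_C_mul]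
  have key0 : Q.coeff 0 = P.coeff 0 := by
    rw [← h]; simp [sub_mul, mul_assoc]
  intro i
  induction i with
  | zero => rw [key0]; exact hP 0
  | succ i ih => rw [key]; exact A.add_mem _ _ (hP _) (A.mul_mem _ _ hd ih)

/-- If `c ∉ A` is a root (in `K`) of `N ∈ A[X]`, then `N = (1 - C d * X) * N₁` in `A[X]`, where
`d = c⁻¹` lies in the maximal ideal of `A`. -/
theorem exists_factor_of_root_not_mem (A : ValuationSubring K) (N : Polynomial A) (c : K)
    (hc : (N.map (algebraMap A K)).IsRoot c) (hcA : c ∉ A) :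
    ∃ (d : A) (N₁ : Polynomial A), d ∈ IsLocalRing.maximalIdeal A ∧ (d : K) = c⁻¹ ∧
      N = (1 - C d * X) * N₁ ∧
      N.map (algebraMap A K) = (X - C c) * (C (-c)⁻¹ * N₁.map (algebraMap A K)) := by
  have hinj : Function.Injective (algebraMap A K) := Subtype.coe_injective
  have hc0 : c ≠ 0 := fun h => hcA (h ▸ A.zero_mem)
  have hdA : c⁻¹ ∈ A := (A.mem_or_inv_mem c).resolve_left hcA
  obtain ⟨Q, hQ⟩ := dvd_iff_isRoot.mpr hc
  -- `N_K = (X - c) * Q = (1 - c⁻¹ X) * ((-c) Q)`
  have hfac : (1 - C c⁻¹ * X) * (C (-c) * Q) = N.map (algebraMap A K) := by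
    rw [hQ]
    have : (1 - C c⁻¹ * X) * (C (-c) * Q) = (C (-c) * (1 - C c⁻¹ * X)) * Q := by ring
    rw [this]
    congr 1
    rw [mul_sub, mul_one, ← mul_assoc, ← C_mul]
    have : -c * c⁻¹ = -1 := by field_simp
    rw [this]
    simp only [_root_.map_neg, _root_.map_one, neg_mul, one_mul, sub_neg_eq_add]
    ring
  have hcoeff : ∀ i, (C (-c) * Q).coeff i ∈ A := by
    refine coeff_mem_of_one_sub_mul A c⁻¹ hdA _ _ ?_ hfac
    intro i
    rw [coeff_map]
    exact (N.coeff i).2
  have hlift : (C (-c) * Q) ∈ Polynomial.lifts (algebraMap A K) := by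
    rw [Polynomial.lifts_iff_coeff_lifts]
    intro i
    exact ⟨⟨_, hcoeff i⟩, rfl⟩
  obtain ⟨N₁, hN₁⟩ := (Polynomial.mem_lifts _).mp hlift
  refine ⟨⟨c⁻¹, hdA⟩, N₁, ?_, rfl, ?_, ?_⟩
  · rw [IsLocalRing.mem_maximalIdeal]
    intro hu
    apply hcA
    have := (A.inv_mem_nonunits_iff (x := c))
    obtain ⟨u, hu'⟩ := hu
    have h1 : ((u⁻¹ : Aˣ) : A) * ⟨c⁻¹, hdA⟩ = 1 := by
      rw [← hu']; simp
    have h2 : (((u⁻¹ : Aˣ) : A) : K) * c⁻¹ = 1 := by
      have := congrArg (fun x : A => (x : K)) h1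
      simpa using this
    have h3 : (((u⁻¹ : Aˣ) : A) : K) = c := by
      field_simp at h2
      exact h2
    rw [← h3]
    exact ((u⁻¹ : Aˣ) : A).2
  · apply Polynomial.map_injective _ hinj
    rw [Polynomial.map_mul, hN₁, ← hfac]
    congr 1
    simp [Polynomial.map_sub, Polynomial.map_mul]
  · rw [hN₁, hQ, ← mul_assoc (C (-c)⁻¹), ← C_mul]
    have : (-c)⁻¹ * -c = 1 := by field_simp
    rw [this]; simp

open Classical in
/-- **Gauss lemma for roots.**  For `N ∈ A[X]` with nonzero reduction, the multiplicity of `cbar`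
as a root of the reduction equals the number of roots of `N` in `K` (with multiplicity) lying in
`A` and reducing to `cbar`. -/
theorem rootMultiplicity_map_residue_eq_card_filter [IsAlgClosed K]
    (A : ValuationSubring K) (N : Polynomial A)
    (hN : N.map (IsLocalRing.residue A) ≠ 0) (cbar : IsLocalRing.ResidueField A) :
    (N.map (IsLocalRing.residue A)).rootMultiplicity cbar =
      ((N.map (algebraMap A K)).roots.filter
        (fun c => ∃ h : c ∈ A, IsLocalRing.residue A ⟨c, h⟩ = cbar)).card := by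
  have hinj : Function.Injective (algebraMap A K) := Subtype.coe_injective
  induction' hn : N.natDegree using Nat.strong_induction_on with n ih generalizing N
  have hN0 : N ≠ 0 := by
    intro h; apply hN; rw [h, Polynomial.map_zero]
  have hNK : N.map (algebraMap A K) ≠ 0 := by
    intro h; apply hN0; apply Polynomial.map_injective _ hinj; rw [h, Polynomial.map_zero]
  by_cases hdeg : N.natDegree = 0
  · obtain ⟨a, rfl⟩ := natDegree_eq_zero.mp hdeg
    simp only [Polynomial.map_C, rootMultiplicity_C, roots_C, Multiset.filter_zero,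
      Multiset.card_zero]
  · have hK : (N.map (algebraMap A K)).degree ≠ 0 := by
      intro h
      apply hdeg
      have := natDegree_eq_of_degree_eq_some h
      rwa [natDegree_map_eq_of_injective hinj] at this
    obtain ⟨c, hc⟩ := IsAlgClosed.exists_root _ hK
    by_cases hcA : c ∈ A
    · have hroot : N.IsRoot ⟨c, hcA⟩ := by
        have := eval_map_apply (p := N) (algebraMap A K) ⟨c, hcA⟩
        apply hinj
        rw [_root_.map_zero, ← this]
        exact hc
      obtain ⟨N₁, hN₁⟩ := dvd_iff_isRoot.mpr hroot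
      subst hN₁
      have hN₁bar : N₁.map (IsLocalRing.residue A) ≠ 0 := by
        intro h; apply hN; rw [Polynomial.map_mul, h, mul_zero]
      have hN₁0 : N₁ ≠ 0 := by
        intro h; apply hN₁bar; rw [h, Polynomial.map_zero]
      have hdeg₁ : N₁.natDegree < n := by
        rw [← hn, natDegree_mul (X_sub_C_ne_zero _) hN₁0, natDegree_X_sub_C]; omega
      have IH := ih _ hdeg₁ N₁ hN₁bar rfl
      rw [Polynomial.map_mul] at hN hNK
      rw [Polynomial.map_mul, Polynomial.map_mul, rootMultiplicity_mul hN, roots_mul hNK,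
        Multiset.filter_add, Multiset.card_add, IH]
      congr 1
      simp only [Polynomial.map_sub, map_X, map_C, rootMultiplicity_X_sub_C, roots_X_sub_C,
        Multiset.filter_singleton]
      by_cases hcb : cbar = IsLocalRing.residue A ⟨c, hcA⟩
      · rw [if_pos hcb, if_pos ⟨hcA, hcb.symm⟩]
        rfl
      · rw [if_neg hcb, if_neg]
        · rfl
        · rintro ⟨h, hh⟩
          exact hcb hh.symm
    · obtain ⟨d, N₁, hd, hdc, hfac, hfacK⟩ := exists_factor_of_root_not_mem A N c hc hcA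
      have hdbar : IsLocalRing.residue A d = 0 := (IsLocalRing.residue_eq_zero_iff d).mpr hd
      have hbar : N.map (IsLocalRing.residue A) = N₁.map (IsLocalRing.residue A) := by
        rw [hfac, Polynomial.map_mul]
        simp [hdbar]
      have hN₁bar : N₁.map (IsLocalRing.residue A) ≠ 0 := by rwa [← hbar]
      have hN₁0 : N₁ ≠ 0 := by
        intro h; apply hN₁bar; rw [h, Polynomial.map_zero]
      have hc0 : c ≠ 0 := fun h => hcA (h ▸ A.zero_mem)
      have hcinv : (-c)⁻¹ ≠ 0 := inv_ne_zero (neg_ne_zero.mpr hc0)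
      have hdeg₁ : N₁.natDegree < n := by
        have h1 := congrArg natDegree hfacK
        rw [natDegree_map_eq_of_injective hinj, natDegree_mul (X_sub_C_ne_zero _)
          (mul_ne_zero (C_ne_zero.mpr hcinv) ((Polynomial.map_ne_zero_iff hinj).mpr hN₁0)),
          natDegree_X_sub_C, natDegree_C_mul hcinv, natDegree_map_eq_of_injective hinj] at h1
        omega
      have IH := ih _ hdeg₁ N₁ hN₁bar rfl
      rw [hbar, IH, hfacK, roots_mul (by rw [← hfacK]; exact hNK), roots_X_sub_C,
        roots_C_mul _ hcinv, Multiset.filter_add, Multiset.filter_singleton, if_neg]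
      · simp
      · rintro ⟨h, -⟩
        exact hcA h

end Gauss

end Fermat.Agent.S37.H217

end
-- ===== PACK-END S37/H217/Gauss.lean

-- ===== PACK-BEGIN S37/H448/AscentAbs.lean
section



/-!
# S37 / RED-E4(c) (helper448): geometric normality ascends along algebraic extensions of a
perfect field — abstract q-series form

Setting: `k₀` a perfect field, `k / k₀` an algebraic extension with `k` algebraically closed,
`ι : k₀((q)) → k((q))` the coefficientwise embedding, `X ∈ k₀((q))` a coordinate.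
Integrality over `R[X]` inside `R((q))` is `(evalSer R X).IsIntegralElem z`
(`evalSer R X : R[T] →+* R((q))`, `T ↦ X`; this is the shape of `Core.IntElt.IsFin`).

Main result `exists_integral_decomp`:
if `z = ∑ C (e i) * ι (w i)` with `w i` in a `k₀`-subspace `F₀ ⊆ k₀((q))` (a set closed under
`0`, `+` and multiplication by constants `C c`) and `z` is integral
over `k[ι X]`, then `z = ∑ C (e' j) * ι (w' j)` with `w' j ∈ F₀` **integral over `k₀[X]`**.

Proof: `k' := k₀(e i)` is finite separable over `k₀`; take a basis `b` of `k'/k₀`, its dual basis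
`d` for the trace form, rewrite `z = ∑ C (b j) * ι (w' j)`; then
`ι (w' j) = ∑_σ C (σ (d j)) * σ̂ z` (sum over the embeddings `σ : k' → k`, `σ̂` an extension of
`σ` to `k`, acting coefficientwise), a sum of products of integral elements; finally integrality
descends from `k[ι X]` to `k₀[X]` because `k[T]` is integral over `k₀[T]` and `ι` is injective.
-/

set_option autoImplicit false
set_option linter.style.haveILetI false
set_option linter.unusedSimpArgs false

noncomputable section

namespace Fermat.Agent.S37.H448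

open HahnSeries ModularCurve Polynomial

/-- evaluation `R[T] → R((q))`, `T ↦ u` (same term as `Core.evalSeries`) -/
def evalSer (R : Type*) [CommRing R] (u : LaurentSeries R) :
    Polynomial R →+* LaurentSeries R :=
  Polynomial.eval₂RingHom (HahnSeries.C : R →+* LaurentSeries R) u

section Basic

variable {R S : Type*} [CommRing R] [CommRing S]

theorem coeffMap_C' (f : R →+* S) (r : R) :
    coeffMap f (HahnSeries.C r) = HahnSeries.C (f r) := by
  show coeffMap f (HahnSeries.single 0 r) = HahnSeries.single 0 (f r)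
  exact coeffMap_single f 0 r

theorem coeffMap_injective' {f : R →+* S} (hf : Function.Injective f) :
    Function.Injective (coeffMap f) := by
  intro x y h
  ext n
  apply hf
  have := congrArg (fun s => s.coeff n) h
  simpa using this

theorem evalSer_C (u : LaurentSeries R) (r : R) :
    evalSer R u (Polynomial.C r) = HahnSeries.C r := by
  simp [evalSer]

theorem evalSer_X (u : LaurentSeries R) : evalSer R u Polynomial.X = u := by
  simp [evalSer]

/-- base change of the evaluation map -/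
theorem coeffMap_comp_evalSer (f : R →+* S) (u : LaurentSeries R) :
    (coeffMap f).comp (evalSer R u) =
      (evalSer S (coeffMap f u)).comp (Polynomial.mapRingHom f) := by
  apply Polynomial.ringHom_ext
  · intro r
    simp [evalSer_C, coeffMap_C']
  · simp [evalSer_X]

/-- integrality is preserved by coefficient maps -/
theorem isIntegralElem_coeffMap (f : R →+* S) {u z : LaurentSeries R}
    (h : (evalSer R u).IsIntegralElem z) :
    (evalSer S (coeffMap f u)).IsIntegralElem (coeffMap f z) := by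
  obtain ⟨p, hp, hz⟩ := h
  refine ⟨p.map (Polynomial.mapRingHom f), hp.map _, ?_⟩
  rw [Polynomial.eval₂_map, ← coeffMap_comp_evalSer, ← Polynomial.hom_eval₂, hz, _root_.map_zero]

theorem isIntegralElem_C (u : LaurentSeries R) (r : R) :
    (evalSer R u).IsIntegralElem (HahnSeries.C r) := by
  rw [← evalSer_C u r]
  exact RingHom.isIntegralElem_map _

theorem isIntegralElem_sum (g : Polynomial R →+* LaurentSeries R) {ι : Type*} (s : Finset ι)
    (f : ι → LaurentSeries R) (h : ∀ i ∈ s, g.IsIntegralElem (f i)) :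
    g.IsIntegralElem (∑ i ∈ s, f i) := by
  classical
  induction s using Finset.induction_on with
  | empty =>
    rw [Finset.sum_empty]
    exact g.isIntegralElem_zero
  | insert a s ha ih =>
    rw [Finset.sum_insert ha]
    exact RingHom.IsIntegralElem.add g (h a (Finset.mem_insert_self a s))
      (ih fun i hi => h i (Finset.mem_insert_of_mem hi))

end Basic

section Descent

variable {k₀ k : Type*} [Field k₀] [Field k] [Algebra k₀ k]

/-- `k[T]` is integral over `k₀[T]` when `k / k₀` is algebraic -/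
theorem mapRingHom_isIntegral [Algebra.IsAlgebraic k₀ k] :
    (Polynomial.mapRingHom (algebraMap k₀ k)).IsIntegral := by
  intro p
  induction p using Polynomial.induction_on' with
  | add p q hp hq => exact RingHom.IsIntegralElem.add _ hp hq
  | monomial n a =>
    have ha : (Polynomial.mapRingHom (algebraMap k₀ k)).IsIntegralElem (Polynomial.C a) := by
      obtain ⟨m, hm, hma⟩ := (Algebra.IsAlgebraic.isAlgebraic (R := k₀) a).isIntegral
      refine ⟨m.map (Polynomial.C : k₀ →+* Polynomial k₀), hm.map _, ?_⟩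
      rw [Polynomial.eval₂_map]
      have hcomp : (Polynomial.mapRingHom (algebraMap k₀ k)).comp (Polynomial.C : k₀ →+* _) =
          (Polynomial.C : k →+* Polynomial k).comp (algebraMap k₀ k) := by
        ext r
        simp
      rw [hcomp, ← Polynomial.hom_eval₂, hma, _root_.map_zero]
    have hX : (Polynomial.mapRingHom (algebraMap k₀ k)).IsIntegralElem
        (Polynomial.X ^ n : Polynomial k) := by
      have : (Polynomial.X ^ n : Polynomial k) =
          Polynomial.mapRingHom (algebraMap k₀ k) (Polynomial.X ^ n) := by simp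
      rw [this]
      exact RingHom.isIntegralElem_map _
    rw [← Polynomial.C_mul_X_pow_eq_monomial]
    exact RingHom.IsIntegralElem.mul _ ha hX

/-- integrality descends from `k[ι X]` to `k₀[X]` -/
theorem isIntegralElem_descent [Algebra.IsAlgebraic k₀ k] {X w : LaurentSeries k₀}
    (h : (evalSer k (coeffMap (algebraMap k₀ k) X)).IsIntegralElem
      (coeffMap (algebraMap k₀ k) w)) :
    (evalSer k₀ X).IsIntegralElem w := by
  set f := evalSer k (coeffMap (algebraMap k₀ k) X) with hf
  set g := Polynomial.mapRingHom (algebraMap k₀ k) with hg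
  have hfg : (f.comp g).IsIntegralElem (coeffMap (algebraMap k₀ k) w) := by
    letI : Algebra (Polynomial k₀) (Polynomial k) := g.toAlgebra
    letI : Algebra (Polynomial k) (LaurentSeries k) := f.toAlgebra
    letI : Algebra (Polynomial k₀) (LaurentSeries k) := (f.comp g).toAlgebra
    haveI : IsScalarTower (Polynomial k₀) (Polynomial k) (LaurentSeries k) :=
      IsScalarTower.of_algebraMap_eq fun _ => rfl
    haveI : Algebra.IsIntegral (Polynomial k₀) (Polynomial k) := ⟨mapRingHom_isIntegral⟩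
    exact isIntegral_trans (R := Polynomial k₀) (A := Polynomial k) _ h
  obtain ⟨P, hP, hPz⟩ := hfg
  refine ⟨P, hP, ?_⟩
  have hcomp : f.comp g = (coeffMap (algebraMap k₀ k)).comp (evalSer k₀ X) :=
    (coeffMap_comp_evalSer (algebraMap k₀ k) X).symm
  rw [hcomp, ← Polynomial.hom_eval₂] at hPz
  exact coeffMap_injective' (algebraMap k₀ k).injective (hPz.trans (_root_.map_zero _).symm)

end Descent

section Main

variable {k₀ k : Type*} [Field k₀] [Field k] [Algebra k₀ k]

theorem coeffMap_smul_eq (c : k₀) (w : LaurentSeries k₀) :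
    coeffMap (algebraMap k₀ k) (c • w) =
      HahnSeries.C (algebraMap k₀ k c) * coeffMap (algebraMap k₀ k) w := by
  rw [← HahnSeries.C_mul_eq_smul, _root_.map_mul, coeffMap_C']

/-- **Geometric normality ascent, abstract form.**  If `z = ∑ C (e i) * ι (w i)` with `w i` in
the set `F₀` (closed under `k₀`-linear combinations) is integral over `k[ι X]`, then `z = ∑ C (e' j) * ι (w' j)` with
`w' j ∈ F₀` integral over `k₀[X]`. -/
theorem exists_integral_decomp [PerfectField k₀] [IsAlgClosed k] [Algebra.IsAlgebraic k₀ k]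
    (F₀ : Set (LaurentSeries k₀)) (h0 : (0 : LaurentSeries k₀) ∈ F₀)
    (hadd : ∀ x y : LaurentSeries k₀, x ∈ F₀ → y ∈ F₀ → x + y ∈ F₀)
    (hC : ∀ (c : k₀) (x : LaurentSeries k₀), x ∈ F₀ → HahnSeries.C c * x ∈ F₀)
    (X : LaurentSeries k₀)
    {m : ℕ} (e : Fin m → k) (w : Fin m → LaurentSeries k₀) (hw : ∀ i, w i ∈ F₀)
    (hint : (evalSer k (coeffMap (algebraMap k₀ k) X)).IsIntegralElem
      (∑ i, HahnSeries.C (e i) * coeffMap (algebraMap k₀ k) (w i))) :
    ∃ (n : ℕ) (e' : Fin n → k) (w' : Fin n → LaurentSeries k₀),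
      (∀ j, w' j ∈ F₀) ∧ (∀ j, (evalSer k₀ X).IsIntegralElem (w' j)) ∧
      ∑ i, HahnSeries.C (e i) * coeffMap (algebraMap k₀ k) (w i) =
        ∑ j, HahnSeries.C (e' j) * coeffMap (algebraMap k₀ k) (w' j) := by
  classical
  set z := ∑ i, HahnSeries.C (e i) * coeffMap (algebraMap k₀ k) (w i) with hz
  -- the finite subextension generated by the `e i`
  let k' : IntermediateField k₀ k := IntermediateField.adjoin k₀ (Set.range e)
  haveI : FiniteDimensional k₀ k' :=
    IntermediateField.finiteDimensional_adjoin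
      (fun x _ => (Algebra.IsAlgebraic.isAlgebraic (R := k₀) x).isIntegral)
  haveI : Algebra.IsSeparable k₀ k' := Algebra.IsAlgebraic.isSeparable_of_perfectField
  haveI : IsAlgClosure k₀ k := ⟨inferInstance, inferInstance⟩
  haveI : Normal k₀ k := IsAlgClosure.normal k₀ k
  let b : Module.Basis (Fin (Module.finrank k₀ k')) k₀ k' := Module.finBasis k₀ k'
  let d : Module.Basis (Fin (Module.finrank k₀ k')) k₀ k' :=
    (Algebra.traceForm k₀ k').dualBasis (traceForm_nondegenerate k₀ k') b
  have he : ∀ i, e i ∈ k' := fun i => IntermediateField.subset_adjoin k₀ _ ⟨i, rfl⟩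
  let c : Fin m → Fin (Module.finrank k₀ k') → k₀ := fun i j => b.repr ⟨e i, he i⟩ j
  have hc : ∀ i, e i = ∑ j, algebraMap k₀ k (c i j) * ((b j : k') : k) := by
    intro i
    have h1 := b.sum_repr ⟨e i, he i⟩
    have h2 := congrArg (fun x : k' => (x : k)) h1
    simp only [AddSubmonoidClass.coe_finsetSum] at h2
    rw [← h2]
    refine Finset.sum_congr rfl fun j _ => ?_
    rw [IntermediateField.coe_smul, Algebra.smul_def]
  let w' : Fin (Module.finrank k₀ k') → LaurentSeries k₀ :=
    fun j => ∑ i, HahnSeries.C (c i j) * w i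
  have hw' : ∀ j, w' j ∈ F₀ := fun j =>
    Finset.sum_induction _ (fun x => x ∈ F₀) hadd h0 fun i _ => hC _ _ (hw i)
  have hzw' : z = ∑ j, HahnSeries.C ((b j : k') : k) * coeffMap (algebraMap k₀ k) (w' j) := by
    have h1 : ∀ j, HahnSeries.C ((b j : k') : k) * coeffMap (algebraMap k₀ k) (w' j) =
        ∑ i, HahnSeries.C (algebraMap k₀ k (c i j) * ((b j : k') : k)) *
          coeffMap (algebraMap k₀ k) (w i) := by
      intro j
      rw [_root_.map_sum, Finset.mul_sum]
      refine Finset.sum_congr rfl fun i _ => ?_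
      rw [_root_.map_mul, coeffMap_C', _root_.map_mul]
      ring
    rw [Finset.sum_congr rfl fun j _ => h1 j, Finset.sum_comm, hz]
    refine Finset.sum_congr rfl fun i _ => ?_
    rw [← Finset.sum_mul, ← _root_.map_sum, ← hc i]
  -- the conjugates of `z`
  have hconj : ∀ σ : k' →ₐ[k₀] k,
      coeffMap ((σ.liftNormal k : k →ₐ[k₀] k) : k →+* k) z =
        ∑ i, HahnSeries.C (σ (b i)) * coeffMap (algebraMap k₀ k) (w' i) := by
    intro σ
    rw [hzw', _root_.map_sum]
    refine Finset.sum_congr rfl fun i _ => ?_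
    rw [_root_.map_mul, coeffMap_C', coeffMap_coeffMap]
    have h1 : ((σ.liftNormal k : k →ₐ[k₀] k) : k →+* k) ((b i : k') : k) = σ (b i) :=
      AlgHom.liftNormal_commutes σ k (b i)
    have h2 : (((σ.liftNormal k : k →ₐ[k₀] k) : k →+* k).comp (algebraMap k₀ k)) =
        algebraMap k₀ k := by
      ext r
      exact (σ.liftNormal k).commutes r
    rw [h1, h2]
  have key : ∀ j, coeffMap (algebraMap k₀ k) (w' j) =
      ∑ σ : k' →ₐ[k₀] k, HahnSeries.C (σ (d j)) *
        coeffMap ((σ.liftNormal k : k →ₐ[k₀] k) : k →+* k) z := by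
    intro j
    have h1 : ∀ σ : k' →ₐ[k₀] k, HahnSeries.C (σ (d j)) *
        coeffMap ((σ.liftNormal k : k →ₐ[k₀] k) : k →+* k) z =
        ∑ i, HahnSeries.C (σ (d j * b i)) * coeffMap (algebraMap k₀ k) (w' i) := by
      intro σ
      rw [hconj σ, Finset.mul_sum]
      refine Finset.sum_congr rfl fun i _ => ?_
      rw [_root_.map_mul, _root_.map_mul, mul_assoc]
    rw [Finset.sum_congr rfl fun σ _ => h1 σ, Finset.sum_comm]
    have h2 : ∀ i, ∑ σ : k' →ₐ[k₀] k, HahnSeries.C (σ (d j * b i)) *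
        coeffMap (algebraMap k₀ k) (w' i) =
        if i = j then coeffMap (algebraMap k₀ k) (w' i) else 0 := by
      intro i
      rw [← Finset.sum_mul, ← _root_.map_sum, ← trace_eq_sum_embeddings k, ← Algebra.traceForm_apply,
        LinearMap.BilinForm.apply_dualBasis_left]
      split_ifs with h
      · rw [_root_.map_one, _root_.map_one, one_mul]
      · rw [_root_.map_zero, _root_.map_zero, zero_mul]
    rw [Finset.sum_congr rfl fun i _ => h2 i, Finset.sum_ite_eq' Finset.univ j]
    simp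
  refine ⟨Module.finrank k₀ k', fun j => ((b j : k') : k), w', hw', ?_, hzw'⟩
  intro j
  apply isIntegralElem_descent (k := k)
  rw [key j]
  refine isIntegralElem_sum _ _ _ fun σ _ =>
    RingHom.IsIntegralElem.mul _ (isIntegralElem_C _ _) ?_
  have h3 := isIntegralElem_coeffMap ((σ.liftNormal k : k →ₐ[k₀] k) : k →+* k) hint
  have h4 : (((σ.liftNormal k : k →ₐ[k₀] k) : k →+* k).comp (algebraMap k₀ k)) =
      algebraMap k₀ k := by
    ext r
    exact (σ.liftNormal k).commutes r
  rwa [coeffMap_coeffMap, h4] at h3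

end Main

end Fermat.Agent.S37.H448

end
end
-- ===== PACK-END S37/H448/AscentAbs.lean

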