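import Mathlib
import Fermat.Prelude.Def_GaloisRep_Adic
import Fermat.Prelude.Def_ModularCurve_LaurentCoeff
import Fermat.Prelude.Def_ExtCitation_AdmissibleExtension_v2
import Fermat.Prelude.Def_AlgebraicCurve_BaseChangeGalois
import Fermat.Prelude.Def_FLTPrelim_Ramification

-- ===== PACK-BEGIN S18/H393/LocalFree.lean
section


/-!
# S18 / Route K / piece b1 (helper393): local freeness of the normal model

Mathlib-only commutative algebra.

Setting: `Λ` an integrally closed domain with fraction field `K` (application: `Λ = R[x]`,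
`R` a DVR with uniformiser `w`), `w ∈ Λ` a prime element, `F / K` a finite separable field
extension, `B` = the integral closure of `Λ` in `F` (elements of `F` integral over `Λ`).

* `isIntegral_of_isIntegral_mul'` : (b1.a, the "regular sequence" lemma)
  if `w` is prime, `¬ w ∣ t`, and both `w * f` and `t * f` are integral over `Λ`, then so is `f`.
* `mem_smul_top_of_smul_mem` : the same inside `B`: `t • β ∈ w B`, `¬ w ∣ t` imply `β ∈ w B`
  (`B / w B` is torsion-free over `Λ / w`; `(w, t)` is a regular sequence on `B`).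
* `exists_basis_mod` : (b1 / b2.1, local freeness) if moreover `Λ` is noetherian and `Λ / w` is a
  PID, there is `b : Fin [F : K] → F`, integral, `K`-linearly independent, with
  `ρ B ⊆ ∑ Λ bᵢ` for some `ρ ≡ 1 mod w`, and `∑ cᵢ bᵢ ∈ w B → w ∣ cᵢ`.
  So `B` is free with basis `b` over the localisation of `Λ` at `1 + wΛ`, `B / w B` is free over
  `Λ / w` with basis `b mod w`, and `B ⊗ Λ_𝔭` is free with basis `b` for every prime `𝔭`
  of `Λ` with `ρ ∉ 𝔭` (e.g. `𝔭 = (x - c)`, `c` integral, in the application).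
-/

set_option autoImplicit false

namespace Fermat.Agent.S18.H393

open Polynomial

section RegularSequence

variable {Λ : Type*} (K : Type*) {F : Type*} [CommRing Λ] [IsDomain Λ]
  [Field K] [Algebra Λ K] [IsFractionRing Λ K]
  [Field F] [Algebra K F] [Algebra Λ F] [IsScalarTower Λ K F]

/-- If `c • f` is integral over the integrally closed domain `Λ` (`c ≠ 0`), the minimal
polynomial of `f` over `K`, with roots scaled by `c`, has coefficients in `Λ`. -/
theorem coeff_minpoly_mul_pow_mem [IsIntegrallyClosed Λ] {c : Λ} (hc : c ≠ 0) {f : F}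
    (hcf : IsIntegral Λ (algebraMap Λ F c * f)) (i : ℕ) :
    ∃ a : Λ, algebraMap Λ K a =
      (minpoly K f).coeff i * algebraMap Λ K c ^ ((minpoly K f).natDegree - i) := by
  have hcK : algebraMap Λ K c ≠ 0 := by
    simpa using (IsFractionRing.injective Λ K).ne hc
  have hcfK : IsIntegral K (algebraMap Λ F c * f) := hcf.tower_top
  have hmul : algebraMap Λ F c * f = algebraMap K F (algebraMap Λ K c) * f := by
    rw [← IsScalarTower.algebraMap_apply]
  have hfK : IsIntegral K f := by
    have h1 : IsIntegral K (algebraMap K F (algebraMap Λ K c)⁻¹ * (algebraMap Λ F c * f)) :=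
      (isIntegral_algebraMap).mul hcfK
    have h2 : algebraMap K F (algebraMap Λ K c)⁻¹ * (algebraMap Λ F c * f) = f := by
      rw [hmul, ← mul_assoc, ← _root_.map_mul, inv_mul_cancel₀ hcK, _root_.map_one, one_mul]
    rwa [h2] at h1
  set π := minpoly K f with hπ
  set σ := scaleRoots π (algebraMap Λ K c) with hσ
  have hπm : π.Monic := minpoly.monic hfK
  have hσm : σ.Monic := (monic_scaleRoots_iff _).mpr hπm
  have hσroot : aeval (algebraMap Λ F c * f) σ = 0 := by
    rw [hmul]
    exact scaleRoots_aeval_eq_zero (minpoly.aeval K f)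
  -- the minimal polynomial of `c f` divides `σ`
  have hdvd : minpoly K (algebraMap Λ F c * f) ∣ σ := minpoly.dvd K _ hσroot
  -- degree comparison
  set μ := minpoly K (algebraMap Λ F c * f) with hμ
  have hμm : μ.Monic := minpoly.monic hcfK
  have hroot2 : aeval f (scaleRoots μ (algebraMap Λ K c)⁻¹) = 0 := by
    have h2 : algebraMap K F (algebraMap Λ K c)⁻¹ * (algebraMap Λ F c * f) = f := by
      rw [hmul, ← mul_assoc, ← _root_.map_mul, inv_mul_cancel₀ hcK, _root_.map_one, one_mul]
    have := scaleRoots_aeval_eq_zero (p := μ) (r := (algebraMap Λ K c)⁻¹)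
      (a := algebraMap Λ F c * f) (minpoly.aeval K _)
    rwa [h2] at this
  have hdvd2 : π ∣ scaleRoots μ (algebraMap Λ K c)⁻¹ := minpoly.dvd K _ hroot2
  have hdeg1 : μ.natDegree ≤ σ.natDegree :=
    natDegree_le_of_dvd hdvd hσm.ne_zero
  have hdeg2 : π.natDegree ≤ μ.natDegree := by
    have := natDegree_le_of_dvd hdvd2 ((monic_scaleRoots_iff _).mpr hμm).ne_zero
    rwa [natDegree_scaleRoots] at this
  have hdegσ : σ.natDegree = π.natDegree := natDegree_scaleRoots _ _
  have hμσ : σ = μ := by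
    refine eq_of_monic_of_dvd_of_natDegree_le hμm hσm hdvd ?_
    rw [hdegσ]; exact hdeg2
  have hlift : μ = (minpoly Λ (algebraMap Λ F c * f)).map (algebraMap Λ K) :=
    minpoly.isIntegrallyClosed_eq_field_fractions' K hcf
  refine ⟨(minpoly Λ (algebraMap Λ F c * f)).coeff i, ?_⟩
  rw [← coeff_map, ← hlift, ← hμσ, hσ, coeff_scaleRoots]

/-- **b1.a (regular sequence lemma).** `Λ` integrally closed domain, `w` prime, `¬ w ∣ t`.
If `w f` and `t f` are integral over `Λ`, then `f` is integral over `Λ`. -/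
theorem isIntegral_of_isIntegral_mul' {Λ : Type*} (K : Type*) {F : Type*} [CommRing Λ]
    [IsDomain Λ] [IsIntegrallyClosed Λ] [Field K] [Algebra Λ K] [IsFractionRing Λ K]
    [Field F] [Algebra K F] [Algebra Λ F] [IsScalarTower Λ K F] {w t : Λ} (hw : Prime w)
    (ht : ¬ w ∣ t) {f : F}
    (hwf : IsIntegral Λ (algebraMap Λ F w * f)) (htf : IsIntegral Λ (algebraMap Λ F t * f)) :
    IsIntegral Λ f := by
  have hw0 : w ≠ 0 := hw.ne_zero
  have ht0 : t ≠ 0 := fun h => ht (h ▸ dvd_zero w)
  have hinj := IsFractionRing.injective Λ K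
  have hwK : algebraMap Λ K w ≠ 0 := by simpa using hinj.ne hw0
  have hfK : IsIntegral K f := by
    have hcfK : IsIntegral K (algebraMap Λ F w * f) := hwf.tower_top
    have hmul : algebraMap Λ F w * f = algebraMap K F (algebraMap Λ K w) * f := by
      rw [← IsScalarTower.algebraMap_apply]
    have h1 : IsIntegral K (algebraMap K F (algebraMap Λ K w)⁻¹ * (algebraMap Λ F w * f)) :=
      (isIntegral_algebraMap).mul hcfK
    have h2 : algebraMap K F (algebraMap Λ K w)⁻¹ * (algebraMap Λ F w * f) = f := by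
      rw [hmul, ← mul_assoc, ← _root_.map_mul, inv_mul_cancel₀ hwK, _root_.map_one, one_mul]
    rwa [h2] at h1
  set π := minpoly K f with hπ
  have hπm : π.Monic := minpoly.monic hfK
  -- every coefficient of `π` lies in `Λ`
  have hcoeff : ∀ i, ∃ a : Λ, algebraMap Λ K a = π.coeff i := by
    intro i
    obtain ⟨a, ha⟩ := coeff_minpoly_mul_pow_mem K hw0 hwf i
    obtain ⟨b, hb⟩ := coeff_minpoly_mul_pow_mem K ht0 htf i
    set e := π.natDegree - i with he
    have hab : a * t ^ e = b * w ^ e := by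
      apply hinj
      rw [_root_.map_mul, _root_.map_mul, _root_.map_pow, _root_.map_pow, ha, hb]
      ring
    have hdvd : w ^ e ∣ a := by
      refine hw.pow_dvd_of_dvd_mul_right e ?_ ⟨b, by rw [hab]; ring⟩
      exact fun h => ht (hw.dvd_of_dvd_pow h)
    obtain ⟨ν, hν⟩ := hdvd
    refine ⟨ν, ?_⟩
    have hwe : algebraMap Λ K w ^ e ≠ 0 := pow_ne_zero _ hwK
    apply mul_right_cancel₀ hwe
    rw [← ha, hν, _root_.map_mul, _root_.map_pow]; ring
  have hlifts : π ∈ lifts (algebraMap Λ K) := by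
    rw [lifts_iff_coeff_lifts]
    intro i
    obtain ⟨a, ha⟩ := hcoeff i
    exact ⟨a, ha⟩
  obtain ⟨q, hq, -, hqm⟩ := lifts_and_degree_eq_and_monic hlifts hπm
  refine ⟨q, hqm, ?_⟩
  have : aeval f (q.map (algebraMap Λ K)) = 0 := by rw [hq]; exact minpoly.aeval K f
  rwa [aeval_map_algebraMap] at this

end RegularSequence

section Basis

open Pointwise

/-- `B / w B` is torsion-free over `Λ / w`, elementwise form inside `B`:
if `t • β ∈ w B` and `¬ w ∣ t` then `β ∈ w B`. -/
theorem mem_smul_top_of_smul_mem {Λ : Type*} (K : Type*) {F : Type*} [CommRing Λ] [IsDomain Λ]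
    [IsIntegrallyClosed Λ] [Field K] [Algebra Λ K] [IsFractionRing Λ K]
    [Field F] [Algebra K F] [Algebra Λ F] [IsScalarTower Λ K F]
    {w t : Λ} (hw : Prime w) (ht : ¬ w ∣ t)
    {β : integralClosure Λ F}
    (h : t • β ∈ w • (⊤ : Submodule Λ (integralClosure Λ F))) :
    β ∈ w • (⊤ : Submodule Λ (integralClosure Λ F)) := by
  rw [Submodule.mem_smul_pointwise_iff_exists] at h ⊢
  obtain ⟨β', -, hβ'⟩ := h
  have hw0 : w ≠ 0 := hw.ne_zero
  have hwF : algebraMap Λ F w ≠ 0 := by
    have hinj : Function.Injective (algebraMap Λ F) := by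
      rw [IsScalarTower.algebraMap_eq Λ K F]
      exact (algebraMap K F).injective.comp (IsFractionRing.injective Λ K)
    simpa using hinj.ne hw0
  set f : F := (β : F) / algebraMap Λ F w with hf
  have h1 : algebraMap Λ F w * f = (β : F) := by
    rw [hf]; field_simp
  have h2 : algebraMap Λ F t * f = (β' : F) := by
    have h3 : algebraMap Λ F w * (β' : F) = algebraMap Λ F t * (β : F) := by
      have := congrArg (fun x : integralClosure Λ F => (x : F)) hβ'
      simpa [Algebra.smul_def] using this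
    rw [hf]; field_simp; rw [← h3]
  have hfint : IsIntegral Λ f :=
    isIntegral_of_isIntegral_mul' K hw ht (h1 ▸ β.2) (h2 ▸ β'.2)
  refine ⟨⟨f, hfint⟩, Submodule.mem_top, ?_⟩
  apply Subtype.ext
  simpa [Algebra.smul_def] using h1

/-- **b1 (local freeness, elementwise form).**
`Λ` noetherian integrally closed domain, `K = Frac Λ`, `F / K` finite separable,
`w ∈ Λ` prime with `Λ / w` a PID (application: `Λ = R[x]`, `R` a DVR with uniformiser `w`).
Then there is a family `b : Fin [F : K] → F` of integral elements such that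
* `b` is `K`-linearly independent (hence a `K`-basis of `F`);
* (Nakayama) there is `ρ ≡ 1 mod w` with `ρ β ∈ ∑ Λ bᵢ` for every integral `β`
  (so the integral closure `B` is free with basis `b` after inverting `1 + wΛ`);
* (basis mod `w`) if `∑ cᵢ bᵢ ∈ w B` then `w ∣ cᵢ` for all `i`. -/
theorem exists_basis_mod {Λ : Type*} (K : Type*) {F : Type*} [CommRing Λ] [IsDomain Λ]
    [IsIntegrallyClosed Λ] [IsNoetherianRing Λ] [Field K] [Algebra Λ K] [IsFractionRing Λ K]
    [Field F] [Algebra K F] [Algebra Λ F] [IsScalarTower Λ K F]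
    [FiniteDimensional K F] [Algebra.IsSeparable K F]
    {w : Λ} (hw : Prime w) [IsPrincipalIdealRing (Λ ⧸ Ideal.span {w})] :
    ∃ b : Fin (Module.finrank K F) → F,
      (∀ i, IsIntegral Λ (b i)) ∧ LinearIndependent K b ∧
      (∃ ρ : Λ, w ∣ ρ - 1 ∧ ∀ β : F, IsIntegral Λ β →
        ∃ c : Fin (Module.finrank K F) → Λ,
          algebraMap Λ F ρ * β = ∑ i, algebraMap Λ F (c i) * b i) ∧
      (∀ (c : Fin (Module.finrank K F) → Λ) (β : F), IsIntegral Λ β →
        ∑ i, algebraMap Λ F (c i) * b i = algebraMap Λ F w * β → ∀ i, w ∣ c i) := by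
  classical
  have hinjF : Function.Injective (algebraMap Λ F) := by
    rw [IsScalarTower.algebraMap_eq Λ K F]
    exact (algebraMap K F).injective.comp (IsFractionRing.injective Λ K)
  have hfin : Module.Finite Λ (integralClosure Λ F) :=
    IsIntegralClosure.finite Λ K F (integralClosure Λ F)
  set I : Ideal Λ := Ideal.span {w} with hI
  have hIp : I.IsPrime := (Ideal.span_singleton_prime hw.ne_zero).mpr hw
  have hIne : I ≠ ⊤ := hIp.ne_top
  set W : Submodule Λ (integralClosure Λ F) := w • (⊤ : Submodule Λ (integralClosure Λ F))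
    with hW
  have : Module.Finite (Λ ⧸ I) (integralClosure Λ F ⧸ W) :=
    Module.Finite.of_restrictScalars_finite Λ _ _
  have : Module.IsTorsionFree (Λ ⧸ I) (integralClosure Λ F ⧸ W) := by
    refine ⟨fun r hr => ?_⟩
    rw [isSMulRegular_iff_right_eq_zero_of_smul]
    intro q hq
    obtain ⟨t, rfl⟩ := Ideal.Quotient.mk_surjective r
    obtain ⟨β, rfl⟩ := Submodule.Quotient.mk_surjective W q
    have ht : ¬ w ∣ t := by
      intro hdvd
      have : Ideal.Quotient.mk I t = 0 :=
        Ideal.Quotient.eq_zero_iff_mem.mpr (Ideal.mem_span_singleton.mpr hdvd)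
      exact hr.ne_zero this
    have hmem : t • β ∈ W := by
      rw [← Submodule.Quotient.mk_eq_zero W]
      exact hq
    exact (Submodule.Quotient.mk_eq_zero W).mpr (mem_smul_top_of_smul_mem K hw ht hmem)
  have : Module.Free (Λ ⧸ I) (integralClosure Λ F ⧸ W) :=
    Module.free_of_finite_type_torsion_free'
  let e := Module.Free.chooseBasis (Λ ⧸ I) (integralClosure Λ F ⧸ W)
  set ι := Module.Free.ChooseBasisIndex (Λ ⧸ I) (integralClosure Λ F ⧸ W) with hι
  let _ : Fintype ι := Module.Free.ChooseBasisIndex.fintype _ _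
  choose b' hb' using fun i => Submodule.Quotient.mk_surjective W (e i)
  have hmk : ∀ c : ι → Λ, Submodule.Quotient.mk (p := W) (∑ i, c i • b' i) =
      ∑ i, Ideal.Quotient.mk I (c i) • e i := by
    intro c
    change W.mkQ (∑ i, c i • b' i) = _
    rw [_root_.map_sum]
    refine Finset.sum_congr rfl fun i _ => ?_
    rw [← hb' i]
    rfl
  -- (4') basis mod w
  have key4 : ∀ c : ι → Λ, (∑ i, c i • b' i) ∈ W → ∀ i, w ∣ c i := by
    intro c hc i
    have h0 : ∑ i, Ideal.Quotient.mk I (c i) • e i = 0 := by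
      rw [← hmk, Submodule.Quotient.mk_eq_zero]; exact hc
    have := (Fintype.linearIndependent_iff.mp e.linearIndependent) _ h0 i
    exact Ideal.mem_span_singleton.mp (Ideal.Quotient.eq_zero_iff_mem.mp this)
  -- spanning mod w
  have span_mod : ∀ β : integralClosure Λ F, ∃ c : ι → Λ, β - ∑ i, c i • b' i ∈ W := by
    intro β
    choose c hc using fun i =>
      Ideal.Quotient.mk_surjective (e.equivFun (Submodule.Quotient.mk (p := W) β) i)
    refine ⟨c, ?_⟩
    rw [← Submodule.Quotient.mk_eq_zero W, Submodule.Quotient.mk_sub, hmk, sub_eq_zero]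
    conv_lhs => rw [← e.sum_equivFun (Submodule.Quotient.mk (p := W) β)]
    refine Finset.sum_congr rfl fun i _ => ?_
    rw [hc i]
  -- Nakayama
  set M : Submodule Λ (integralClosure Λ F) := Submodule.span Λ (Set.range b') with hM
  obtain ⟨ρ, hρ1, hρ⟩ : ∃ ρ : Λ, ρ - 1 ∈ I ∧ ∀ β : integralClosure Λ F, ρ • β ∈ M := by
    have hle : (⊤ : Submodule Λ (integralClosure Λ F ⧸ M)) ≤
        I • (⊤ : Submodule Λ (integralClosure Λ F ⧸ M)) := by
      rintro q -
      obtain ⟨β, rfl⟩ := Submodule.Quotient.mk_surjective M q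
      obtain ⟨c, hc⟩ := span_mod β
      rw [hW, Submodule.mem_smul_pointwise_iff_exists] at hc
      obtain ⟨β', -, hβ'⟩ := hc
      have hsum : (∑ i, c i • b' i) ∈ M :=
        Submodule.sum_mem _ fun i _ =>
          Submodule.smul_mem _ _ (Submodule.subset_span ⟨i, rfl⟩)
      have hβ : β = w • β' + ∑ i, c i • b' i := by rw [hβ']; abel
      have : Submodule.Quotient.mk (p := M) β = w • Submodule.Quotient.mk (p := M) β' := by
        rw [hβ, Submodule.Quotient.mk_add, (Submodule.Quotient.mk_eq_zero M).mpr hsum,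
          add_zero, Submodule.Quotient.mk_smul]
      rw [this]
      exact Submodule.smul_mem_smul (Ideal.mem_span_singleton_self w) Submodule.mem_top
    obtain ⟨ρ, hρ1, hρ⟩ := Submodule.exists_sub_one_mem_and_smul_eq_zero_of_fg_of_le_smul I
      (⊤ : Submodule Λ (integralClosure Λ F ⧸ M)) Module.Finite.fg_top hle
    refine ⟨ρ, hρ1, fun β => ?_⟩
    have := hρ (Submodule.Quotient.mk β) Submodule.mem_top
    rwa [← Submodule.Quotient.mk_smul, Submodule.Quotient.mk_eq_zero] at this
  -- linear independence over Λ inside B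
  have hpow : ∀ (k : ℕ) (c : ι → Λ), ∑ i, c i • b' i = 0 → ∀ i, w ^ k ∣ c i := by
    intro k
    induction k with
    | zero => intro c _ i; simp
    | succ k ih =>
      intro c hc i
      have hdiv := key4 c (hc ▸ W.zero_mem)
      choose d hd using hdiv
      have hd0 : ∑ i, d i • b' i = 0 := by
        have h1 : w • ∑ i, d i • b' i = 0 := by
          rw [Finset.smul_sum, ← hc]
          refine Finset.sum_congr rfl fun i _ => ?_
          rw [hd i, mul_smul]
        have hw0 : w ≠ 0 := hw.ne_zero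
        have hwB : algebraMap Λ (integralClosure Λ F) w ≠ 0 := by
          intro h
          apply hw0
          apply hinjF
          have := congrArg (algebraMap (integralClosure Λ F) F) h
          rw [← IsScalarTower.algebraMap_apply] at this
          simpa using this
        rw [Algebra.smul_def] at h1
        exact (mul_eq_zero.mp h1).resolve_left hwB
      obtain ⟨x, hx⟩ := ih d hd0 i
      exact ⟨x, by rw [hd i, hx, pow_succ]; ring⟩
  have hliB : ∀ c : ι → Λ, ∑ i, c i • b' i = 0 → ∀ i, c i = 0 := by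
    intro c hc i
    have hmem : c i ∈ ⨅ k : ℕ, I ^ k := by
      rw [Ideal.mem_iInf]
      intro k
      rw [hI, Ideal.span_singleton_pow, Ideal.mem_span_singleton]
      exact hpow k c hc i
    rw [Ideal.iInf_pow_eq_bot_of_isDomain I hIne] at hmem
    simpa using hmem
  have hliΛ : LinearIndependent Λ (fun i => ((b' i : integralClosure Λ F) : F)) := by
    rw [Fintype.linearIndependent_iff]
    intro c hc i
    refine hliB c ?_ i
    apply Subtype.ext
    have : ((∑ i, c i • b' i : integralClosure Λ F) : F) = ∑ i, c i • ((b' i : integralClosure Λ F) : F) := by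
      simp
    rw [this, hc]; rfl
  have hliK : LinearIndependent K (fun i => ((b' i : integralClosure Λ F) : F)) :=
    (LinearIndependent.iff_fractionRing Λ K).mp hliΛ
  -- spanning over K
  have hρ0 : ρ ≠ 0 := by
    rintro rfl
    rw [zero_sub, Ideal.neg_mem_iff] at hρ1
    exact hIne ((Ideal.eq_top_iff_one I).mpr hρ1)
  have hspanΛ : ∀ β : integralClosure Λ F, ∃ c : ι → Λ,
      algebraMap Λ F ρ * (β : F) = ∑ i, algebraMap Λ F (c i) * ((b' i : integralClosure Λ F) : F) := by
    intro β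
    have h := hρ β
    rw [hM, Submodule.mem_span_range_iff_exists_fun] at h
    obtain ⟨c, hc⟩ := h
    refine ⟨c, ?_⟩
    have := congrArg (fun x : integralClosure Λ F => (x : F)) hc
    simp only [Algebra.smul_def] at this
    simpa using this.symm
  have hspanK : (⊤ : Submodule K F) ≤ Submodule.span K (Set.range fun i => ((b' i : integralClosure Λ F) : F)) := by
    rintro x -
    obtain ⟨y, hy0, hy⟩ := exists_integral_multiples Λ K ({x} : Finset F)
    have hyx : IsIntegral Λ (y • x) := hy x (Finset.mem_singleton_self x)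
    obtain ⟨c, hc⟩ := hspanΛ ⟨y • x, hyx⟩
    have hyρ : algebraMap Λ K (ρ * y) ≠ 0 := by
      simpa using (IsFractionRing.injective Λ K).ne (mul_ne_zero hρ0 hy0)
    have hx : x = (algebraMap Λ K (ρ * y))⁻¹ • ∑ i, algebraMap Λ K (c i) • ((b' i : integralClosure Λ F) : F) := by
      rw [eq_inv_smul_iff₀ hyρ]
      have : ∑ i, algebraMap Λ K (c i) • ((b' i : integralClosure Λ F) : F) =
          ∑ i, algebraMap Λ F (c i) * ((b' i : integralClosure Λ F) : F) := by
        refine Finset.sum_congr rfl fun i _ => ?_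
        rw [Algebra.smul_def, ← IsScalarTower.algebraMap_apply]
      rw [this, ← hc, Algebra.smul_def, ← IsScalarTower.algebraMap_apply, _root_.map_mul]
      simp only [Algebra.smul_def, mul_assoc]
    rw [hx]
    refine Submodule.smul_mem _ _ (Submodule.sum_mem _ fun i _ => Submodule.smul_mem _ _ ?_)
    exact Submodule.subset_span ⟨i, rfl⟩
  let bK : Module.Basis ι K F := Module.Basis.mk hliK hspanK
  have hcard : Fintype.card ι = Module.finrank K F :=
    (Module.finrank_eq_card_basis bK).symm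
  let σ : Fin (Module.finrank K F) ≃ ι := (Fintype.equivFinOfCardEq hcard).symm
  refine ⟨fun j => ((b' (σ j) : integralClosure Λ F) : F), fun j => (b' (σ j)).2,
    hliK.comp σ σ.injective, ⟨ρ, Ideal.mem_span_singleton.mp hρ1, fun β hβ => ?_⟩,
    fun c β hβ hc j => ?_⟩
  · obtain ⟨c, hc⟩ := hspanΛ ⟨β, hβ⟩
    refine ⟨fun j => c (σ j), ?_⟩
    rw [hc]
    exact (Equiv.sum_comp σ fun i => algebraMap Λ F (c i) * ((b' i : integralClosure Λ F) : F)).symm
  · have h1 := key4 (fun i => c (σ.symm i)) ?_ (σ j)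
    · simpa using h1
    · rw [hW, Submodule.mem_smul_pointwise_iff_exists]
      refine ⟨⟨β, hβ⟩, Submodule.mem_top, ?_⟩
      apply Subtype.ext
      have e1 : ((w • (⟨β, hβ⟩ : integralClosure Λ F) : integralClosure Λ F) : F) =
          algebraMap Λ F w * β := by
        simp [Algebra.smul_def]
      have e2 : ((∑ i, c (σ.symm i) • b' i : integralClosure Λ F) : F) =
          ∑ j, algebraMap Λ F (c j) * ((b' (σ j) : integralClosure Λ F) : F) := by
        rw [← Equiv.sum_comp σ]
        simp [Algebra.smul_def]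
      rw [e1, e2, hc]

end Basis

end Fermat.Agent.S18.H393

end
-- ===== PACK-END S18/H393/LocalFree.lean

-- ===== PACK-BEGIN S18/H274/Newton.lean
section


/-!
# S18 / b2 (helper274) — traces of powers and nilpotency in characteristic zero

Mathlib-only.  Over a field of characteristic zero, an endomorphism `f` of a finite dimensional
vector space all of whose positive powers have trace zero is nilpotent
(`isNilpotent_of_trace_pow_eq_zero`), and the matrix version
(`matrix_isNilpotent_of_trace_pow_eq_zero`).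

Proof: induction on the dimension.  By Cayley–Hamilton `χ(f) = 0`; taking traces gives
`χ(0) · dim V = 0`, so `det f = 0` and `range f` is a proper invariant subspace.  The traces of
the powers of `f` restricted to `range f` are those of `f`.
-/

namespace Fermat.Agent.S18.H274

open Module Polynomial

universe u

theorem isNilpotent_of_trace_pow_eq_zero_aux (K : Type*) [Field K] [CharZero K] :
    ∀ (n : ℕ) (V : Type u) [AddCommGroup V] [Module K V] [FiniteDimensional K V],
      finrank K V = n → ∀ f : V →ₗ[K] V,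
        (∀ k, 1 ≤ k → LinearMap.trace K V (f ^ k) = 0) → IsNilpotent f := by
  intro n
  induction n using Nat.strong_induction_on with
  | _ n ih =>
    intro V _ _ _ hn f hf
    rcases Nat.eq_zero_or_pos n with h0 | hpos
    · -- trivial space
      subst h0
      have : Subsingleton V := Module.finrank_zero_iff.mp hn
      have hf0 : f = 0 := Subsingleton.elim _ _
      rw [hf0]
      exact IsNilpotent.zero
    · -- `det f = 0`
      have hCH := LinearMap.aeval_self_charpoly f
      have htr : LinearMap.trace K V (aeval f f.charpoly) = f.charpoly.coeff 0 * (n : K) := by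
        rw [aeval_eq_sum_range, _root_.map_sum]
        rw [Finset.sum_eq_single 0]
        · simp [hn, Module.End.one_eq_id]
        · intro i _ hi
          rw [_root_.map_smul, hf i (Nat.one_le_iff_ne_zero.mpr hi), smul_zero]
        · intro h
          exact absurd (Finset.mem_range.mpr (Nat.succ_pos _)) h
      rw [hCH, _root_.map_zero] at htr
      have hn0 : (n : K) ≠ 0 := Nat.cast_ne_zero.mpr hpos.ne'
      have hc0 : f.charpoly.coeff 0 = 0 := by
        rcases mul_eq_zero.mp htr.symm with h | h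
        · exact h
        · exact absurd h hn0
      have hdet : LinearMap.det f = 0 := by
        rw [LinearMap.det_eq_sign_charpoly_coeff, hc0, mul_zero]
      have hker : ⊥ < LinearMap.ker f := LinearMap.bot_lt_ker_of_det_eq_zero hdet
      have hkerpos : 0 < finrank K (LinearMap.ker f) := by
        rw [Module.finrank_pos_iff_exists_ne_zero]
        obtain ⟨x, hx, hx'⟩ := Submodule.exists_mem_ne_zero_of_ne_bot hker.ne'
        exact ⟨⟨x, hx⟩, fun h => hx' (congrArg Subtype.val h)⟩
      have hrn := LinearMap.finrank_range_add_finrank_ker f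
      have hlt : finrank K (LinearMap.range f) < n := by omega
      -- restriction to the range
      let U := LinearMap.range f
      let f' : V →ₗ[K] U := f.rangeRestrict
      let ι : U →ₗ[K] V := U.subtype
      let g : U →ₗ[K] U := f' ∘ₗ ι
      have hfι : ι ∘ₗ f' = f := LinearMap.subtype_comp_codRestrict _ _ _
      have hgx : ∀ x : U, ((g x : U) : V) = f (x : V) := fun x => rfl
      have hιg' : ∀ (k : ℕ) (x : U), (((g ^ k) x : U) : V) = (f ^ k) (x : V) := by
        intro k
        induction k with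
        | zero => intro x; simp
        | succ k ihk =>
          intro x
          rw [pow_succ', Module.End.mul_apply, hgx, ihk, pow_succ', Module.End.mul_apply]
      have hιg : ∀ k : ℕ, ι ∘ₗ (g ^ k) = (f ^ k) ∘ₗ ι := by
        intro k
        ext x
        exact hιg' k x
      have hg : ∀ k, 1 ≤ k → LinearMap.trace K U (g ^ k) = 0 := by
        intro k hk
        obtain ⟨k, rfl⟩ : ∃ j, k = j + 1 := ⟨k - 1, by omega⟩
        have h1 : g ^ (k + 1) = ((g ^ k) ∘ₗ f') ∘ₗ ι := by
          rw [pow_succ, Module.End.mul_eq_comp, LinearMap.comp_assoc]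
        rw [h1, LinearMap.trace_comp_comm', ← LinearMap.comp_assoc, hιg, LinearMap.comp_assoc,
          hfι, ← Module.End.mul_eq_comp, ← pow_succ]
        exact hf (k + 1) (Nat.succ_pos _)
      obtain ⟨m, hm⟩ := ih _ hlt U rfl g hg
      refine ⟨m + 1, ?_⟩
      ext x
      rw [pow_succ, Module.End.mul_apply]
      have h2 : f x = ((f' x : U) : V) := rfl
      rw [h2, ← hιg', hm]
      simp

/-- Over a field of characteristic zero, an endomorphism of a finite dimensional vector space
all of whose positive powers have trace zero is nilpotent. -/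
theorem isNilpotent_of_trace_pow_eq_zero {K : Type*} [Field K] [CharZero K]
    {V : Type*} [AddCommGroup V] [Module K V] [FiniteDimensional K V] (f : V →ₗ[K] V)
    (hf : ∀ k, 1 ≤ k → LinearMap.trace K V (f ^ k) = 0) : IsNilpotent f :=
  isNilpotent_of_trace_pow_eq_zero_aux K _ V rfl f hf

/-- Matrix version of `isNilpotent_of_trace_pow_eq_zero`. -/
theorem matrix_isNilpotent_of_trace_pow_eq_zero {K : Type*} [Field K] [CharZero K]
    {n : Type*} [Fintype n] [DecidableEq n] (A : Matrix n n K)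
    (hA : ∀ k, 1 ≤ k → (A ^ k).trace = 0) : IsNilpotent A := by
  have h := isNilpotent_of_trace_pow_eq_zero (Matrix.toLin' A) (fun k hk => by
    rw [← Matrix.toLin'_pow, LinearMap.trace_eq_matrix_trace K (Pi.basisFun K n),
      LinearMap.toMatrix_eq_toMatrix', LinearMap.toMatrix'_toLin']
    exact hA k hk)
  obtain ⟨m, hm⟩ := h
  refine ⟨m, ?_⟩
  rw [← Matrix.toLin'_pow] at hm
  exact Matrix.toLin'.injective (by rw [hm, _root_.map_zero])

end Fermat.Agent.S18.H274

end
-- ===== PACK-END S18/H274/Newton.lean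

-- ===== PACK-BEGIN S37/H278/AdaptedBasis.lean
section


/-!
# S37 / S18, piece b2-core (helper278): adapted bases over a local ring

`M` finite free over a local ring `o`, `I ≤ M` a submodule with `I + span(u_1..u_s) = M`,
`z ∈ I` with `z ∉ 𝔪 M`.  Then `M` has a basis containing `z`, all of whose members except at most
`s` lie in `I`.
-/

set_option autoImplicit false
set_option linter.style.haveILetI false
set_option linter.unusedSectionVars false

namespace Fermat.Agent.S37.H278

open Module TensorProduct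

universe u v

theorem exists_adapted_basis {o : Type u} {M : Type v} [CommRing o] [IsLocalRing o]
    [AddCommGroup M] [Module o M] [Module.Free o M] [Module.Finite o M]
    (I : Submodule o M) (z : M) (hzI : z ∈ I)
    (hz : z ∉ (IsLocalRing.maximalIdeal o • ⊤ : Submodule o M))
    (s : ℕ) (u : Fin s → M) (hu : I ⊔ Submodule.span o (Set.range u) = ⊤) :
    ∃ (ι : Type (max u v)) (_ : Fintype ι) (_ : DecidableEq ι) (b : Basis ι o M)
      (Z : Finset ι) (i₀ : ι),
      i₀ ∈ Z ∧ b i₀ = z ∧ (∀ i ∈ Z, b i ∈ I) ∧ Fintype.card ι ≤ Z.card + s := by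
  classical
  let κ := IsLocalRing.ResidueField o
  let V := κ ⊗[o] M
  let π : M →ₗ[o] V := TensorProduct.mk o κ M 1
  have hπsurj : Function.Surjective π :=
    TensorProduct.mk_surjective o M κ Ideal.Quotient.mk_surjective
  have hπz : π z ≠ 0 := by
    intro h0
    apply hz
    rw [← LinearMap.ker_tensorProductMk]
    exact h0
  -- step 1 : maximal independent subset of π '' I containing π z
  have hs0 : LinearIndepOn κ id ({π z} : Set V) := by
    rw [linearIndepOn_singleton_iff]
    exact hπz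
  have hsub0 : ({π z} : Set V) ⊆ π '' (I : Set M) :=
    Set.singleton_subset_iff.mpr ⟨z, hzI, rfl⟩
  obtain ⟨B₁, hB₁sub, hzB₁, hspanB₁, hB₁li⟩ := exists_linearIndepOn_id_extension hs0 hsub0
  -- step 2 : extend by images of the u's
  set t' : Set V := B₁ ∪ π '' (Set.range u) with ht'def
  have hst : B₁ ⊆ t' := Set.subset_union_left
  have ht' : ⊤ ≤ Submodule.span κ t' := by
    intro x _
    obtain ⟨m, rfl⟩ := hπsurj x
    have hm : m ∈ I ⊔ Submodule.span o (Set.range u) := by rw [hu]; trivial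
    obtain ⟨a, ha, c, hc, rfl⟩ := Submodule.mem_sup.mp hm
    rw [map_add]
    refine Submodule.add_mem _ ?_ ?_
    · have : π a ∈ Submodule.span κ B₁ := hspanB₁ ⟨a, ha, rfl⟩
      exact Submodule.span_mono hst this
    · -- c in span of u
      have hle : Submodule.span o (Set.range u) ≤
          ((Submodule.span κ t').restrictScalars o).comap π := by
        rw [Submodule.span_le]
        rintro _ ⟨j, rfl⟩
        show π (u j) ∈ Submodule.span κ t'
        exact Submodule.subset_span (Or.inr ⟨u j, ⟨j, rfl⟩, rfl⟩)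
      exact hle hc
  let bV : Basis (hB₁li.extend hst) κ V := Basis.extendLe hB₁li hst ht'
  have hbV : ∀ i : hB₁li.extend hst, bV i = (i : V) := fun i => by
    simp [bV, Basis.coe_extendLe]
  have hBsub : hB₁li.extend hst ⊆ t' := hB₁li.extend_subset hst
  have hB₁B : B₁ ⊆ hB₁li.extend hst := hB₁li.subset_extend hst
  haveI : _root_.Finite (hB₁li.extend hst) := Module.Finite.finite_basis bV
  letI : Fintype (hB₁li.extend hst) := Fintype.ofFinite _
  -- lifts
  have hlift : ∀ i : hB₁li.extend hst, ∃ m : M, π m = (i : V) ∧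
      ((i : V) ∈ B₁ → m ∈ I) ∧ ((i : V) = π z → m = z) := by
    intro i
    by_cases h1 : (i : V) = π z
    · exact ⟨z, h1.symm, fun _ => hzI, fun _ => rfl⟩
    · by_cases h2 : (i : V) ∈ B₁
      · obtain ⟨m, hm, hmi⟩ := hB₁sub h2
        exact ⟨m, hmi, fun _ => hm, fun h => absurd h h1⟩
      · obtain ⟨m, hm⟩ := hπsurj (i : V)
        exact ⟨m, hm, fun h => absurd h h2, fun h => absurd h h1⟩
  choose w hw1 hw2 hw3 using hlift
  have hli : LinearIndependent κ (π ∘ w) := by
    have : (π ∘ w) = bV := by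
      funext i
      simp [hw1 i, hbV i]
    rw [this]
    exact bV.linearIndependent
  have hliM : LinearIndependent o w := IsLocalRing.linearIndependent_of_flat w hli
  have hspM : Submodule.span o (Set.range w) = ⊤ :=
    IsLocalRing.span_eq_top_of_tmul_eq_basis w bV (fun i => by
      rw [hbV i]; exact hw1 i)
  let b : Basis (hB₁li.extend hst) o M := Basis.mk hliM hspM.ge
  have hb : ∀ i, b i = w i := fun i => by simp [b]
  let i₀ : hB₁li.extend hst := ⟨π z, hB₁B (hzB₁ rfl)⟩
  let Z : Finset (hB₁li.extend hst) := Finset.univ.filter fun i => (i : V) ∈ B₁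
  refine ⟨hB₁li.extend hst, inferInstance, inferInstance, b, Z, i₀, ?_, ?_, ?_, ?_⟩
  · simp only [Z, Finset.mem_filter, Finset.mem_univ, true_and]
    exact hzB₁ rfl
  · rw [hb]; exact hw3 i₀ rfl
  · intro i hi
    simp only [Z, Finset.mem_filter, Finset.mem_univ, true_and] at hi
    rw [hb]; exact hw2 i hi
  · -- counting
    have hcompl : ∀ i : hB₁li.extend hst, i ∉ Z → ∃ j : Fin s, π (u j) = (i : V) := by
      intro i hi
      simp only [Z, Finset.mem_filter, Finset.mem_univ, true_and] at hi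
      rcases hBsub i.2 with h | h
      · exact absurd h hi
      · obtain ⟨_, ⟨j, rfl⟩, hj⟩ := h
        exact ⟨j, hj⟩
    have hcard : (Finset.univ.filter fun i : hB₁li.extend hst => i ∉ Z).card ≤ s := by
      rw [← Fintype.card_subtype]
      choose g hg using fun (i : {i : hB₁li.extend hst // i ∉ Z}) => hcompl i.1 i.2
      have hinj : Function.Injective g := by
        intro i j hij
        apply Subtype.ext
        apply Subtype.ext
        rw [← hg i, ← hg j, hij]
      simpa using Fintype.card_le_of_injective g hinj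
    have hsplit := Finset.card_filter_add_card_filter_not
      (s := (Finset.univ : Finset (hB₁li.extend hst))) (fun i => i ∈ Z)
    have hZ : (Finset.univ.filter fun i : hB₁li.extend hst => i ∈ Z) = Z := by
      ext i; simp
    rw [hZ] at hsplit
    rw [← Finset.card_univ, ← hsplit]
    omega

end Fermat.Agent.S37.H278

end
-- ===== PACK-END S37/H278/AdaptedBasis.lean

-- ===== PACK-BEGIN S18/H498/Connected.lean
section


/-!
# S18, piece b5 (abstract connectedness / "formal functions by hand")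

Pure commutative algebra, Mathlib only.

Setting: `R` a local ring, `ϖ : R`, `C` a commutative `R`-algebra on which `ϖ` is a
non-zero-divisor, `B₁ B₂ : Subalgebra R C` (the two chart algebras inside the overlap
algebra `C`), `B₁ ⊓ B₂ = R`, and the `ϖ`-power torsion of `C / (B₁ + B₂)` is killed by `ϖ ^ c`.
Then every idempotent of `B₁ / ϖ` which agrees in `C / ϖ` with an idempotent of `B₂ / ϖ`
is trivial (`0` or `1`).
-/

set_option autoImplicit false

namespace Fermat.Agent.S18.H498

section Idem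

variable {S : Type*} [CommRing S]

/-- Newton step for idempotents: `b ↦ 3 b² - 2 b³`. -/
theorem newton_idem_sub (b : S) : (3 * b ^ 2 - 2 * b ^ 3) - b = (b ^ 2 - b) * (1 - 2 * b) := by
  ring

theorem newton_idem_sq (b : S) :
    (3 * b ^ 2 - 2 * b ^ 3) ^ 2 - (3 * b ^ 2 - 2 * b ^ 3) =
      (b ^ 2 - b) ^ 2 * (4 * b ^ 2 - 4 * b - 3) := by
  ring

/-- Lifting of idempotents modulo `p` to idempotents modulo `p ^ (n + 1)`. -/
theorem exists_idem_lift (p e : S) (h : p ∣ e ^ 2 - e) (n : ℕ) :
    ∃ b : S, p ∣ b - e ∧ p ^ (n + 1) ∣ b ^ 2 - b := by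
  induction n with
  | zero => exact ⟨e, by simp, by simpa using h⟩
  | succ n ih =>
    obtain ⟨b, hb1, hb2⟩ := ih
    refine ⟨3 * b ^ 2 - 2 * b ^ 3, ?_, ?_⟩
    · have h1 : p ∣ (3 * b ^ 2 - 2 * b ^ 3) - b := by
        rw [newton_idem_sub]
        exact Dvd.dvd.mul_right ((dvd_pow_self p (Nat.succ_ne_zero n)).trans hb2) _
      have : (3 * b ^ 2 - 2 * b ^ 3) - e = ((3 * b ^ 2 - 2 * b ^ 3) - b) + (b - e) := by ring
      rw [this]
      exact dvd_add h1 hb1
    · rw [newton_idem_sq]
      refine Dvd.dvd.mul_right ?_ _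
      have h2 : (p ^ (n + 1)) ^ 2 ∣ (b ^ 2 - b) ^ 2 := pow_dvd_pow_of_dvd hb2 2
      rw [← pow_mul] at h2
      exact (pow_dvd_pow p (by omega)).trans h2

theorem idem_diff_cube (b₁ b₂ : S) :
    (b₁ - b₂) ^ 3 - (b₁ - b₂) =
      (b₁ + 1 - 3 * b₂) * (b₁ ^ 2 - b₁) - (b₂ + 1 - 3 * b₁) * (b₂ ^ 2 - b₂) := by
  ring

/-- Uniqueness of idempotent lifts: two idempotents modulo `p ^ n` which are congruent
modulo `p` are congruent modulo `p ^ n`. -/
theorem idem_lift_unique (p : S) (n : ℕ) (b₁ b₂ : S)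
    (h₁ : p ^ n ∣ b₁ ^ 2 - b₁) (h₂ : p ^ n ∣ b₂ ^ 2 - b₂) (h : p ∣ b₁ - b₂) :
    p ^ n ∣ b₁ - b₂ := by
  have hcube : p ^ n ∣ (b₁ - b₂) ^ 3 - (b₁ - b₂) := by
    rw [idem_diff_cube]
    exact dvd_sub (Dvd.dvd.mul_left h₁ _) (Dvd.dvd.mul_left h₂ _)
  have key : ∀ k : ℕ, k + 1 ≤ n → p ^ (k + 1) ∣ b₁ - b₂ := by
    intro k
    induction k with
    | zero => intro _; simpa using h
    | succ k ih =>
      intro hk
      have ih' := ih (by omega)
      have h3 : p ^ (k + 2) ∣ (b₁ - b₂) ^ 3 := by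
        have h3' : (p ^ (k + 1)) ^ 3 ∣ (b₁ - b₂) ^ 3 := pow_dvd_pow_of_dvd ih' 3
        rw [← pow_mul] at h3'
        exact (pow_dvd_pow p (by omega)).trans h3'
      have hc : p ^ (k + 2) ∣ (b₁ - b₂) ^ 3 - (b₁ - b₂) := (pow_dvd_pow p hk).trans hcube
      have : b₁ - b₂ = (b₁ - b₂) ^ 3 - ((b₁ - b₂) ^ 3 - (b₁ - b₂)) := by ring
      rw [this]
      exact dvd_sub h3 hc
  rcases Nat.eq_zero_or_pos n with hn | hn
  · subst hn; simp
  · have := key (n - 1) (by omega)
    rwa [Nat.sub_add_cancel hn] at this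

end Idem

section Cech

variable {R C : Type*} [CommRing R] [IsLocalRing R] [CommRing C] [Algebra R C]

/-- **Abstract connectedness (b5).**  `B₁ ∩ B₂ = R`, `ϖ`-power torsion of `C / (B₁ + B₂)` killed
by `ϖ ^ c`: an idempotent `e₁` of `B₁ / ϖ` agreeing in `C / ϖ` with an idempotent `e₂` of
`B₂ / ϖ` is `0` or `1` in `B₁ / ϖ`. -/
theorem idem_trivial_of_cech (ϖ : R) (B₁ B₂ : Subalgebra R C)
    (hint : ∀ y : C, y ∈ B₁ → y ∈ B₂ → ∃ r : R, algebraMap R C r = y)
    (c : ℕ)
    (hH1 : ∀ (n : ℕ) (y : C),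
      (∃ b₁ ∈ B₁, ∃ b₂ ∈ B₂, algebraMap R C ϖ ^ n * y = b₁ + b₂) →
        ∃ b₁ ∈ B₁, ∃ b₂ ∈ B₂, algebraMap R C ϖ ^ c * y = b₁ + b₂)
    (e₁ e₂ : C) (he₁ : e₁ ∈ B₁) (he₂ : e₂ ∈ B₂)
    (h₁ : ∃ a ∈ B₁, e₁ ^ 2 - e₁ = algebraMap R C ϖ * a)
    (h₂ : ∃ a ∈ B₂, e₂ ^ 2 - e₂ = algebraMap R C ϖ * a)
    (h₁₂ : ∃ y : C, e₁ - e₂ = algebraMap R C ϖ * y) :
    (∃ a ∈ B₁, e₁ = algebraMap R C ϖ * a) ∨ (∃ a ∈ B₁, 1 - e₁ = algebraMap R C ϖ * a) := by
  set p : C := algebraMap R C ϖ with hp
  -- lift inside `B₁`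
  obtain ⟨a₁, ha₁, hea₁⟩ := h₁
  obtain ⟨a₂, ha₂, hea₂⟩ := h₂
  have hd₁ : (algebraMap R B₁ ϖ) ∣ (⟨e₁, he₁⟩ : B₁) ^ 2 - ⟨e₁, he₁⟩ :=
    ⟨⟨a₁, ha₁⟩, Subtype.ext (by simpa using hea₁)⟩
  have hd₂ : (algebraMap R B₂ ϖ) ∣ (⟨e₂, he₂⟩ : B₂) ^ 2 - ⟨e₂, he₂⟩ :=
    ⟨⟨a₂, ha₂⟩, Subtype.ext (by simpa using hea₂)⟩
  obtain ⟨b₁, ⟨u₁, hu₁⟩, ⟨v₁, hv₁⟩⟩ := exists_idem_lift _ _ hd₁ c
  obtain ⟨b₂, ⟨u₂, hu₂⟩, ⟨v₂, hv₂⟩⟩ := exists_idem_lift _ _ hd₂ c
  have hu₁' : (b₁ : C) - e₁ = p * u₁ := by
    have := congrArg (Subtype.val) hu₁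
    simpa using this
  have hu₂' : (b₂ : C) - e₂ = p * u₂ := by
    have := congrArg (Subtype.val) hu₂
    simpa using this
  have hv₁' : (b₁ : C) ^ 2 - b₁ = p ^ (c + 1) * v₁ := by
    have := congrArg (Subtype.val) hv₁
    simpa using this
  have hv₂' : (b₂ : C) ^ 2 - b₂ = p ^ (c + 1) * v₂ := by
    have := congrArg (Subtype.val) hv₂
    simpa using this
  obtain ⟨y₀, hy₀⟩ := h₁₂
  have hdiff : p ∣ (b₁ : C) - b₂ := by
    refine ⟨u₁ + y₀ - u₂, ?_⟩
    have : (b₁ : C) - b₂ = ((b₁ : C) - e₁) + (e₁ - e₂) - ((b₂ : C) - e₂) := by ring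
    rw [this, hu₁', hy₀, hu₂']; ring
  obtain ⟨y, hy⟩ := idem_lift_unique p (c + 1) (b₁ : C) (b₂ : C) ⟨_, hv₁'⟩ ⟨_, hv₂'⟩ hdiff
  obtain ⟨β₁, hβ₁, β₂, hβ₂, hβ⟩ := hH1 (c + 1) y
    ⟨b₁, b₁.2, -b₂, B₂.neg_mem b₂.2, by rw [← hy]; ring⟩
  have hpB₁ : p ∈ B₁ := B₁.algebraMap_mem ϖ
  have hpB₂ : p ∈ B₂ := B₂.algebraMap_mem ϖ
  -- the glued element
  have hz : (b₁ : C) - p * β₁ = b₂ + p * β₂ := by
    have h1 : (b₁ : C) - b₂ = p * (β₁ + β₂) := by
      rw [hy, pow_succ, ← hβ]; ring
    linear_combination h1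
  have hz₁ : (b₁ : C) - p * β₁ ∈ B₁ := B₁.sub_mem b₁.2 (B₁.mul_mem hpB₁ hβ₁)
  have hz₂ : (b₁ : C) - p * β₁ ∈ B₂ := by
    rw [hz]; exact B₂.add_mem b₂.2 (B₂.mul_mem hpB₂ hβ₂)
  obtain ⟨r, hr⟩ := hint _ hz₁ hz₂
  set z : C := (b₁ : C) - p * β₁ with hzdef
  -- `z² - z = p * w`, `w ∈ B₁`
  set w : C := p ^ c * v₁ - 2 * β₁ * b₁ + p * β₁ ^ 2 + β₁ with hw
  have hwB : w ∈ B₁ := by
    refine B₁.add_mem (B₁.add_mem (B₁.sub_mem (B₁.mul_mem (B₁.pow_mem hpB₁ c) v₁.2) ?_) ?_) hβ₁
    · exact B₁.mul_mem (B₁.mul_mem (by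
        have : (2 : C) = algebraMap R C 2 := (map_ofNat (algebraMap R C) 2).symm
        rw [this]; exact B₁.algebraMap_mem 2) hβ₁) b₁.2
    · exact B₁.mul_mem hpB₁ (B₁.pow_mem hβ₁ 2)
  have hzw : z ^ 2 - z = p * w := by
    have : z ^ 2 - z = ((b₁ : C) ^ 2 - b₁) + p * (-2 * β₁ * b₁ + p * β₁ ^ 2 + β₁) := by
      rw [hzdef]; ring
    rw [this, hv₁', hw, pow_succ]; ring
  rcases IsLocalRing.isUnit_or_isUnit_one_sub_self r with hunit | hunit
  · right
    obtain ⟨s, hs⟩ := hunit.exists_right_inv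
    have hs' : z * algebraMap R C s = 1 := by
      rw [← hr, ← map_mul, hs, map_one]
    refine ⟨-(algebraMap R C s * w) - β₁ + u₁, ?_, ?_⟩
    · exact B₁.add_mem (B₁.sub_mem (B₁.neg_mem (B₁.mul_mem (B₁.algebraMap_mem s) hwB)) hβ₁) u₁.2
    · have h1 : 1 - z = p * (-(algebraMap R C s * w)) := by
        have : 1 - z = -(algebraMap R C s) * (z ^ 2 - z) + (1 - z) * (1 - z * algebraMap R C s) +
            z * (1 - z * algebraMap R C s) * 0 := by ring
        rw [this, hs', hzw]; ring
      have : 1 - e₁ = (1 - z) - p * β₁ + ((b₁ : C) - e₁) := by rw [hzdef]; ring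
      rw [this, h1, hu₁']; ring
  · left
    obtain ⟨s, hs⟩ := hunit.exists_right_inv
    have hs' : (1 - z) * algebraMap R C s = 1 := by
      rw [← hr, ← map_one (algebraMap R C), ← map_sub, ← map_mul, hs, map_one]
    refine ⟨-(algebraMap R C s * w) + β₁ - u₁, ?_, ?_⟩
    · exact B₁.sub_mem (B₁.add_mem (B₁.neg_mem (B₁.mul_mem (B₁.algebraMap_mem s) hwB)) hβ₁) u₁.2
    · have h1 : z = p * (-(algebraMap R C s * w)) := by
        have : z = -(algebraMap R C s) * (z ^ 2 - z) + z * (1 - (1 - z) * algebraMap R C s) := by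
          ring
        rw [this, hs', hzw]; ring
      have : e₁ = z + p * β₁ - ((b₁ : C) - e₁) := by rw [hzdef]; ring
      rw [this, h1, hu₁']; ring

end Cech

end Fermat.Agent.S18.H498

end
-- ===== PACK-END S18/H498/Connected.lean

-- ===== PACK-BEGIN S53/Dict.lean
section



set_option autoImplicit false
set_option linter.unusedSectionVars false

open scoped TensorProduct

namespace Fermat.Agent.S53

/-- The absolute Galois group of `ℚ`. -/
abbrev GQ : Type := AlgebraicClosure ℚ ≃ₐ[ℚ] AlgebraicClosure ℚ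

/-- `2 × 2` matrices. -/
abbrev M2 (A : Type) : Type := Matrix (Fin 2) (Fin 2) A

/-- Matrices acting on column vectors, as a monoid homomorphism. -/
noncomputable def matEnd (A : Type) [CommRing A] : M2 A →* Module.End A (Fin 2 → A) :=
  (Matrix.toLinAlgEquiv' (R := A) (n := Fin 2)).toAlgHom.toRingHom.toMonoidHom

@[simp] lemma matEnd_apply {A : Type} [CommRing A] (P : M2 A) (v : Fin 2 → A) :
    matEnd A P v = P.mulVec v := rfl

lemma matEnd_injective (A : Type) [CommRing A] : Function.Injective (matEnd A) :=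
  (Matrix.toLinAlgEquiv' (R := A) (n := Fin 2)).injective

section Adic

variable {A : Type} [CommRing A] [IsLocalRing A]

/-- Adic continuity of a matrix-valued representation. -/
def MatCont (r : GQ →* M2 A) : Prop :=
  ∀ n : ℕ, ∃ L : IntermediateField ℚ (AlgebraicClosure ℚ), FiniteDimensional ℚ L ∧
    ∀ σ : GQ, (∀ x ∈ L, σ x = x) → ∀ i j, (r σ - 1) i j ∈ IsLocalRing.maximalIdeal A ^ n

lemma mem_smul_top_pi_iff (I : Ideal A) (w : Fin 2 → A) :
    w ∈ I • (⊤ : Submodule A (Fin 2 → A)) ↔ ∀ i, w i ∈ I := by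
  constructor
  · intro hw
    refine Submodule.smul_induction_on hw ?_ ?_
    · intro a ha v _ i
      simpa [smul_eq_mul] using I.mul_mem_right (v i) ha
    · intro x y hx hy i
      simpa using I.add_mem (hx i) (hy i)
  · intro hw
    have : w = ∑ i, w i • (Pi.single i (1 : A) : Fin 2 → A) := by
      ext j
      simp [Finset.sum_apply, Pi.single_apply]
    rw [this]
    exact Submodule.sum_mem _ fun i _ => Submodule.smul_mem_smul (hw i) Submodule.mem_top

/-- The adic Galois representation attached to a matrix-valued representation. -/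
noncomputable def toAdic (r : GQ →* M2 A) (hr : MatCont r) : GaloisRepAdic A where
  V := Fin 2 → A
  finrank_eq := by simp
  ρ := (matEnd A).comp r
  isAdicContinuous := by
    intro n
    obtain ⟨L, hL, h⟩ := hr n
    refine ⟨L, hL, fun σ hσ v => ?_⟩
    rw [mem_smul_top_pi_iff]
    intro i
    have : ((matEnd A).comp r) σ v - v = (r σ - 1).mulVec v := by
      simp [Matrix.sub_mulVec]
    rw [this]
    simp only [Matrix.mulVec, dotProduct]
    exact Ideal.sum_mem _ fun j _ => Ideal.mul_mem_right _ _ (h σ hσ i j)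

@[simp] lemma toAdic_ρ_apply (r : GQ →* M2 A) (hr : MatCont r) (σ : GQ) (v : Fin 2 → A) :
    (toAdic r hr).ρ σ v = (r σ).mulVec v := rfl

lemma repr_mem_of_mem_smul_top {V : Type} [AddCommGroup V] [Module A V]
    (b : Module.Basis (Fin 2) A V) (I : Ideal A) {w : V}
    (hw : w ∈ I • (⊤ : Submodule A V)) (i : Fin 2) : b.repr w i ∈ I := by
  refine Submodule.smul_induction_on hw ?_ ?_
  · intro a ha v _
    simpa [smul_eq_mul] using I.mul_mem_right (b.repr v i) ha
  · intro x y hx hy
    simpa using I.add_mem hx hy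

/-- Every adic Galois representation is equivalent to a matrix one. -/
theorem exists_toAdic (ρ : GaloisRepAdic A) :
    ∃ (r : GQ →* M2 A) (hr : MatCont r), ρ.IsEquiv (toAdic r hr) := by
  classical
  let b : Module.Basis (Fin 2) A ρ.V := Module.finBasisOfFinrankEq A ρ.V ρ.finrank_eq
  let r : GQ →* M2 A := (LinearMap.toMatrixAlgEquiv b).toAlgHom.toRingHom.toMonoidHom.comp ρ.ρ
  have hrσ : ∀ σ, r σ = LinearMap.toMatrix b b (ρ.ρ σ) := fun σ => rfl
  have hr : MatCont r := by
    intro n
    obtain ⟨L, hL, h⟩ := ρ.isAdicContinuous n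
    refine ⟨L, hL, fun σ hσ i j => ?_⟩
    have h1 : (r σ - 1) i j = b.repr (ρ.ρ σ (b j) - b j) i := by
      rw [hrσ, ← LinearMap.toMatrix_one b, ← map_sub, LinearMap.toMatrix_apply]
      rfl
    rw [h1]
    exact repr_mem_of_mem_smul_top b _ (h σ hσ (b j)) i
  refine ⟨r, hr, ⟨⟨b.equivFun, fun σ x => ?_⟩⟩⟩
  rw [toAdic_ρ_apply, hrσ]
  exact (LinearMap.toMatrix_mulVec_repr b b (ρ.ρ σ) x).symm

/-- The linear automorphism of `A²` given by an invertible matrix. -/
noncomputable def unitEquiv (P : (M2 A)ˣ) : (Fin 2 → A) ≃ₗ[A] (Fin 2 → A) :=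
  Matrix.toLin'OfInv (M := ((P⁻¹ : (M2 A)ˣ) : M2 A)) (M' := (P : M2 A)) (by simp) (by simp)

@[simp] lemma unitEquiv_apply (P : (M2 A)ˣ) (v : Fin 2 → A) :
    unitEquiv P v = (P : M2 A).mulVec v := rfl

/-- The invertible matrix of a linear automorphism of `A²`. -/
noncomputable def equivUnit (f : (Fin 2 → A) ≃ₗ[A] (Fin 2 → A)) : (M2 A)ˣ :=
  ⟨LinearMap.toMatrix' f.toLinearMap, LinearMap.toMatrix' f.symm.toLinearMap,
    by rw [← LinearMap.toMatrix'_comp]; simp, by rw [← LinearMap.toMatrix'_comp]; simp⟩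

lemma equivUnit_mulVec (f : (Fin 2 → A) ≃ₗ[A] (Fin 2 → A)) (v : Fin 2 → A) :
    ((equivUnit f : (M2 A)ˣ) : M2 A).mulVec v = f v := by
  show (LinearMap.toMatrix' f.toLinearMap).mulVec v = f v
  rw [LinearMap.toMatrix'_mulVec]; rfl

lemma mulVec_injective_M2 {P Q : M2 A} (h : ∀ v : Fin 2 → A, P.mulVec v = Q.mulVec v) : P = Q := by
  apply Matrix.toLin'.injective
  exact LinearMap.ext fun v => by simpa using h v

/-- Equivalence of matrix representations is conjugacy. -/
theorem toAdic_isEquiv_iff (r r' : GQ →* M2 A) (hr : MatCont r) (hr' : MatCont r') :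
    (toAdic r hr).IsEquiv (toAdic r' hr') ↔ ∃ P : (M2 A)ˣ, ∀ σ, (P : M2 A) * r σ = r' σ * P := by
  constructor
  · rintro ⟨e⟩
    let f : (Fin 2 → A) ≃ₗ[A] (Fin 2 → A) := e.toLinearEquiv
    have hf : ∀ σ x, f ((r σ).mulVec x) = (r' σ).mulVec (f x) := e.map_apply
    refine ⟨equivUnit f, fun σ => mulVec_injective_M2 fun v => ?_⟩
    rw [← Matrix.mulVec_mulVec, ← Matrix.mulVec_mulVec, equivUnit_mulVec, equivUnit_mulVec]
    exact hf σ v
  · rintro ⟨P, hP⟩
    refine ⟨⟨unitEquiv P, fun σ x => ?_⟩⟩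
    show (P : M2 A).mulVec ((r σ).mulVec x) = (r' σ).mulVec ((P : M2 A).mulVec x)
    rw [Matrix.mulVec_mulVec, Matrix.mulVec_mulVec, hP]

/-- Conjugating a matrix representation by a unit. -/
noncomputable def conjRep (P : (M2 A)ˣ) (r : GQ →* M2 A) : GQ →* M2 A where
  toFun σ := (P : M2 A) * r σ * ((P⁻¹ : (M2 A)ˣ) : M2 A)
  map_one' := by simp
  map_mul' σ τ := by
    rw [_root_.map_mul]
    simp only [mul_assoc]
    congr 2
    rw [← mul_assoc (((P⁻¹ : (M2 A)ˣ) : M2 A)), Units.inv_mul, one_mul]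

@[simp] lemma conjRep_apply (P : (M2 A)ˣ) (r : GQ →* M2 A) (σ : GQ) :
    conjRep P r σ = (P : M2 A) * r σ * ((P⁻¹ : (M2 A)ˣ) : M2 A) := rfl

lemma conjRep_mul_eq (P : (M2 A)ˣ) (r : GQ →* M2 A) (σ : GQ) :
    (P : M2 A) * r σ = conjRep P r σ * P := by
  simp [mul_assoc]

lemma entry_mul_mul_mem (I : Ideal A) (P X Q : M2 A) (hX : ∀ i j, X i j ∈ I) (i j : Fin 2) :
    (P * X * Q) i j ∈ I := by
  rw [Matrix.mul_apply]
  refine Ideal.sum_mem _ fun l _ => Ideal.mul_mem_right _ _ ?_
  rw [Matrix.mul_apply]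
  exact Ideal.sum_mem _ fun k _ => Ideal.mul_mem_left _ _ (hX k l)

lemma MatCont.conj {r : GQ →* M2 A} (hr : MatCont r) (P : (M2 A)ˣ) : MatCont (conjRep P r) := by
  intro n
  obtain ⟨L, hL, h⟩ := hr n
  refine ⟨L, hL, fun σ hσ i j => ?_⟩
  have h1 : conjRep P r σ - 1 = (P : M2 A) * (r σ - 1) * ((P⁻¹ : (M2 A)ˣ) : M2 A) := by
    simp [mul_sub, sub_mul]
  rw [h1]
  exact entry_mul_mul_mem _ _ _ _ (h σ hσ) i j

lemma toAdic_conjRep_isEquiv (r : GQ →* M2 A) (hr : MatCont r) (P : (M2 A)ˣ) :
    (toAdic r hr).IsEquiv (toAdic (conjRep P r) (hr.conj P)) :=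
  (toAdic_isEquiv_iff _ _ _ _).2 ⟨P, conjRep_mul_eq P r⟩

end Adic

section Map

variable {A B : Type} [CommRing A] [CommRing B]

/-- Push a matrix representation forward along a ring homomorphism. -/
noncomputable def mapRep (φ : A →+* B) (r : GQ →* M2 A) : GQ →* M2 B :=
  φ.mapMatrix.toMonoidHom.comp r

@[simp] lemma mapRep_apply (φ : A →+* B) (r : GQ →* M2 A) (σ : GQ) :
    mapRep φ r σ = (r σ).map φ := rfl

lemma mapRep_apply_apply (φ : A →+* B) (r : GQ →* M2 A) (σ : GQ) (i j : Fin 2) :
    mapRep φ r σ i j = φ (r σ i j) := rfl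

lemma mapRep_comp {C : Type} [CommRing C] (ψ : B →+* C) (φ : A →+* B) (r : GQ →* M2 A) :
    mapRep ψ (mapRep φ r) = mapRep (ψ.comp φ) r := by
  ext σ i j; rfl

lemma mapRep_id (r : GQ →* M2 A) : mapRep (RingHom.id A) r = r := by
  ext σ i j; rfl

lemma MatCont.map [IsLocalRing A] [IsLocalRing B] {r : GQ →* M2 A} (hr : MatCont r)
    (φ : A →+* B) (hφ : IsLocalHom φ) : MatCont (mapRep φ r) := by
  intro n
  obtain ⟨L, hL, h⟩ := hr n
  refine ⟨L, hL, fun σ hσ i j => ?_⟩
  have hmap : (IsLocalRing.maximalIdeal A ^ n).map φ ≤ IsLocalRing.maximalIdeal B ^ n := by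
    rw [Ideal.map_pow]
    exact Ideal.pow_right_mono (Ideal.map_le_iff_le_comap.mpr fun a ha =>
      Ideal.mem_comap.mpr (haveI := hφ; map_nonunit φ a ha)) n
  have h1 : (mapRep φ r σ - 1) i j = φ ((r σ - 1) i j) := by
    simp only [mapRep_apply, Matrix.sub_apply, Matrix.map_apply, map_sub]
    congr 1
    by_cases hij : i = j
    · subst hij; simp
    · simp [hij]
  rw [h1]
  exact hmap (Ideal.mem_map_of_mem φ (h σ hσ i j))

/-- Compatibility of `piScalarRight` with base change of a matrix endomorphism. -/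
lemma piScalarRight_baseChange [Algebra A B] (P : M2 A) (x : B ⊗[A] (Fin 2 → A)) :
    TensorProduct.piScalarRight A B B (Fin 2) ((matEnd A P).baseChange B x) =
      (P.map (algebraMap A B)).mulVec (TensorProduct.piScalarRight A B B (Fin 2) x) := by
  induction x using TensorProduct.induction_on with
  | zero => simp
  | tmul b v =>
    rw [LinearMap.baseChange_tmul]
    ext i
    simp only [TensorProduct.piScalarRight_apply, TensorProduct.piScalarRightHom_tmul,
      matEnd_apply, Matrix.mulVec, dotProduct, Matrix.map_apply, _root_.Algebra.smul_def, map_sum,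
      _root_.map_mul, Finset.sum_mul, mul_assoc]
  | add x y hx hy => simp only [map_add, hx, hy, Matrix.mulVec_add]

theorem baseChangeAlong_toAdic [IsLocalRing A] [IsLocalRing B] (φ : A →+* B) (hφ : IsLocalHom φ)
    (r : GQ →* M2 A) (hr : MatCont r) :
    ((toAdic r hr).baseChangeAlong φ hφ).IsEquiv (toAdic (mapRep φ r) (hr.map φ hφ)) := by
  let _ : Algebra A B := φ.toAlgebra
  let e : B ⊗[A] (Fin 2 → A) ≃ₗ[B] (Fin 2 → B) := TensorProduct.piScalarRight A B B (Fin 2)
  refine ⟨⟨e, fun σ x => ?_⟩⟩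
  exact piScalarRight_baseChange (r σ) x

end Map

section Res

variable {k : Type} [Field k]

/-- The residual Galois representation attached to a matrix-valued representation. -/
noncomputable def toRes (rb : GQ →* M2 k) (h : GaloisFactorsThroughFiniteLevel rb) :
    ResidualGaloisRep k where
  V := Fin 2 → k
  finrank_eq := by simp
  ρ := (matEnd k).comp rb
  factorsThroughFiniteLevel := by
    obtain ⟨L, hL, h1⟩ := h
    exact ⟨L, hL, fun σ hσ => by rw [MonoidHom.comp_apply, h1 σ hσ, _root_.map_one]⟩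

@[simp] lemma toRes_ρ_apply (rb : GQ →* M2 k) (h : GaloisFactorsThroughFiniteLevel rb) (σ : GQ)
    (v : Fin 2 → k) : (toRes rb h).ρ σ v = (rb σ).mulVec v := rfl

/-- Every residual Galois representation is equivalent to a matrix one. -/
theorem exists_toRes (ρ : ResidualGaloisRep k) :
    ∃ (rb : GQ →* M2 k) (h : GaloisFactorsThroughFiniteLevel rb), ρ.IsEquiv (toRes rb h) := by
  classical
  let b : Module.Basis (Fin 2) k ρ.V := Module.finBasisOfFinrankEq k ρ.V ρ.finrank_eq
  let r : GQ →* M2 k := (LinearMap.toMatrixAlgEquiv b).toAlgHom.toRingHom.toMonoidHom.comp ρ.ρ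
  have hrσ : ∀ σ, r σ = LinearMap.toMatrix b b (ρ.ρ σ) := fun σ => rfl
  have hr : GaloisFactorsThroughFiniteLevel r := by
    obtain ⟨L, hL, h⟩ := ρ.factorsThroughFiniteLevel
    exact ⟨L, hL, fun σ hσ => by rw [MonoidHom.comp_apply, h σ hσ, _root_.map_one]⟩
  refine ⟨r, hr, ⟨⟨b.equivFun, fun σ x => ?_⟩⟩⟩
  rw [toRes_ρ_apply, hrσ]
  exact (LinearMap.toMatrix_mulVec_repr b b (ρ.ρ σ) x).symm

/-- Equivalence of residual matrix representations is conjugacy. -/
theorem toRes_isEquiv_iff (r r' : GQ →* M2 k) (hr : GaloisFactorsThroughFiniteLevel r)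
    (hr' : GaloisFactorsThroughFiniteLevel r') :
    (toRes r hr).IsEquiv (toRes r' hr') ↔ ∃ P : (M2 k)ˣ, ∀ σ, (P : M2 k) * r σ = r' σ * P := by
  constructor
  · rintro ⟨e⟩
    let f : (Fin 2 → k) ≃ₗ[k] (Fin 2 → k) := e.toLinearEquiv
    have hf : ∀ σ x, f ((r σ).mulVec x) = (r' σ).mulVec (f x) := e.map_apply
    refine ⟨equivUnit f, fun σ => mulVec_injective_M2 fun v => ?_⟩
    rw [← Matrix.mulVec_mulVec, ← Matrix.mulVec_mulVec, equivUnit_mulVec, equivUnit_mulVec]
    exact hf σ v
  · rintro ⟨P, hP⟩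
    refine ⟨⟨unitEquiv P, fun σ x => ?_⟩⟩
    show (P : M2 k).mulVec ((r σ).mulVec x) = (r' σ).mulVec ((P : M2 k).mulVec x)
    rw [Matrix.mulVec_mulVec, Matrix.mulVec_mulVec, hP]

lemma factors_mapRep {k' : Type} [Field k'] (ψ : k →+* k') {rb : GQ →* M2 k}
    (h : GaloisFactorsThroughFiniteLevel rb) : GaloisFactorsThroughFiniteLevel (mapRep ψ rb) := by
  obtain ⟨L, hL, h1⟩ := h
  refine ⟨L, hL, fun σ hσ => ?_⟩
  show ψ.mapMatrix (rb σ) = 1
  rw [h1 σ hσ, _root_.map_one]

theorem baseChangeAlong_toRes {k' : Type} [Field k'] (ψ : k →+* k') (rb : GQ →* M2 k)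
    (h : GaloisFactorsThroughFiniteLevel rb) :
    ((toRes rb h).baseChangeAlong ψ).IsEquiv (toRes (mapRep ψ rb) (factors_mapRep ψ h)) := by
  let _ : Algebra k k' := ψ.toAlgebra
  let e : k' ⊗[k] (Fin 2 → k) ≃ₗ[k'] (Fin 2 → k') := TensorProduct.piScalarRight k k' k' (Fin 2)
  refine ⟨⟨e, fun σ x => ?_⟩⟩
  exact piScalarRight_baseChange (rb σ) x

end Res

section Residual

variable {A : Type} [CommRing A] [IsLocalRing A]

lemma MatCont.factors_residue {r : GQ →* M2 A} (hr : MatCont r) :
    GaloisFactorsThroughFiniteLevel (mapRep (IsLocalRing.residue A) r) := by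
  obtain ⟨L, hL, h⟩ := hr 1
  refine ⟨L, hL, fun σ hσ => ?_⟩
  ext i j
  have h1 := h σ hσ i j
  rw [pow_one, ← IsLocalRing.residue_eq_zero_iff, Matrix.sub_apply, map_sub, sub_eq_zero] at h1
  rw [mapRep_apply, Matrix.map_apply, h1]
  by_cases hij : i = j
  · subst hij; simp
  · simp [hij]

theorem residual_toAdic (r : GQ →* M2 A) (hr : MatCont r) :
    (toAdic r hr).residual.IsEquiv
      (toRes (mapRep (IsLocalRing.residue A) r) hr.factors_residue) := by
  let e : IsLocalRing.ResidueField A ⊗[A] (Fin 2 → A) ≃ₗ[IsLocalRing.ResidueField A]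
      (Fin 2 → IsLocalRing.ResidueField A) :=
    TensorProduct.piScalarRight A (IsLocalRing.ResidueField A) (IsLocalRing.ResidueField A) (Fin 2)
  refine ⟨⟨e, fun σ x => ?_⟩⟩
  exact piScalarRight_baseChange (r σ) x

end Residual

section Lift

open IsLocalRing

variable {A : Type} [CommRing A] [IsLocalRing A]

/-- Every invertible matrix over the residue field lifts to an invertible matrix. -/
theorem exists_unit_lift (Pb : (M2 (ResidueField A))ˣ) :
    ∃ P : (M2 A)ˣ, (P : M2 A).map (residue A) = (Pb : M2 (ResidueField A)) := by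
  classical
  choose f hf using fun (ij : Fin 2 × Fin 2) =>
    residue_surjective ((Pb : M2 (ResidueField A)) ij.1 ij.2)
  let P : M2 A := Matrix.of fun i j => f (i, j)
  have hP : P.map (residue A) = (Pb : M2 (ResidueField A)) := by
    ext i j
    simp [P, hf]
  have hdet : IsUnit P.det := by
    rw [← residue_ne_zero_iff_isUnit]
    have h1 : residue A P.det = (Pb : M2 (ResidueField A)).det := by
      rw [RingHom.map_det, RingHom.mapMatrix_apply, hP]
    rw [h1]
    exact ((Matrix.isUnit_iff_isUnit_det _).1 Pb.isUnit).ne_zero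
  obtain ⟨u, hu⟩ := (Matrix.isUnit_iff_isUnit_det P).2 hdet
  exact ⟨u, by rw [hu]; exact hP⟩

lemma map_unit_inv {B : Type} [CommRing B] (φ : A →+* B) (P : (M2 A)ˣ) :
    (((P⁻¹ : (M2 A)ˣ) : M2 A)).map φ = ((Units.map φ.mapMatrix.toMonoidHom P)⁻¹ : (M2 B)ˣ) := by
  rw [← map_inv]
  rfl

variable {𝒪 : Type} [CommRing 𝒪] [IsLocalRing 𝒪] [Algebra 𝒪 A] [IsLocalHom (algebraMap 𝒪 A)]

/-- A matrix representation lifting `rb` has residual representation `ρbar`. -/
theorem residual_isEquiv_of_lift (ρbar : ResidualGaloisRep (ResidueField 𝒪))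
    (rb : GQ →* M2 (ResidueField 𝒪)) (hrb : GaloisFactorsThroughFiniteLevel rb)
    (hρbar : ρbar.IsEquiv (toRes rb hrb)) (r : GQ →* M2 A) (hr : MatCont r)
    (hlift : ∀ σ, (r σ).map (residue A) = (rb σ).map (ResidueField.map (algebraMap 𝒪 A))) :
    (toAdic r hr).residual.IsEquiv
      (ρbar.baseChangeAlong (ResidueField.map (algebraMap 𝒪 A))) := by
  obtain ⟨e1⟩ := residual_toAdic r hr
  obtain ⟨e2⟩ := baseChangeAlong_toRes (ResidueField.map (algebraMap 𝒪 A)) rb hrb
  obtain ⟨e3⟩ := hρbar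
  have e4 : (toRes (mapRep (residue A) r) hr.factors_residue).IsEquiv
      (toRes (mapRep (ResidueField.map (algebraMap 𝒪 A)) rb)
        (factors_mapRep (ResidueField.map (algebraMap 𝒪 A)) hrb)) := by
    rw [toRes_isEquiv_iff]
    exact ⟨1, fun σ => by simp [hlift σ]⟩
  obtain ⟨e4⟩ := e4
  exact ⟨(e1.trans e4).trans
    ((e3.baseChangeAlong (ResidueField.map (algebraMap 𝒪 A))).trans e2).symm⟩

/-- Every deformation of `ρbar ≅ toRes rb` is equivalent to a matrix representation
lifting `rb` on the nose. -/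
theorem exists_lift_of_residual_isEquiv (ρbar : ResidualGaloisRep (ResidueField 𝒪))
    (rb : GQ →* M2 (ResidueField 𝒪)) (hrb : GaloisFactorsThroughFiniteLevel rb)
    (hρbar : ρbar.IsEquiv (toRes rb hrb)) (ρA : GaloisRepAdic A)
    (hres : ρA.residual.IsEquiv (ρbar.baseChangeAlong (ResidueField.map (algebraMap 𝒪 A)))) :
    ∃ (r : GQ →* M2 A) (hr : MatCont r),
      (∀ σ, (r σ).map (residue A) = (rb σ).map (ResidueField.map (algebraMap 𝒪 A))) ∧
      ρA.IsEquiv (toAdic r hr) := by
  obtain ⟨r0, hr0, ⟨e0⟩⟩ := exists_toAdic ρA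
  obtain ⟨e1⟩ := residual_toAdic r0 hr0
  obtain ⟨e2⟩ := baseChangeAlong_toRes (ResidueField.map (algebraMap 𝒪 A)) rb hrb
  obtain ⟨e3⟩ := hρbar
  obtain ⟨e4⟩ := hres
  have e5 : (toRes (mapRep (residue A) r0) hr0.factors_residue).IsEquiv
      (toRes (mapRep (ResidueField.map (algebraMap 𝒪 A)) rb)
        (factors_mapRep (ResidueField.map (algebraMap 𝒪 A)) hrb)) :=
    ⟨(e1.symm.trans (e0.residual.symm.trans e4)).trans
      ((e3.baseChangeAlong (ResidueField.map (algebraMap 𝒪 A))).trans e2)⟩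
  rw [toRes_isEquiv_iff] at e5
  obtain ⟨Pb, hPb⟩ := e5
  obtain ⟨P, hP⟩ := exists_unit_lift Pb
  obtain ⟨e6⟩ := toAdic_conjRep_isEquiv r0 hr0 P
  refine ⟨conjRep P r0, hr0.conj P, fun σ => ?_, ⟨e0.trans e6⟩⟩
  have h1 : (conjRep P r0 σ).map (residue A) =
      (P : M2 A).map (residue A) * (r0 σ).map (residue A) *
        (((P⁻¹ : (M2 A)ˣ) : M2 A)).map (residue A) := by
    rw [conjRep_apply, Matrix.map_mul, Matrix.map_mul]
  have h2 : (P : M2 A).map (residue A) * (((P⁻¹ : (M2 A)ˣ) : M2 A)).map (residue A) = 1 := by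
    rw [← Matrix.map_mul, Units.mul_inv]
    exact (residue A).mapMatrix.map_one
  have h3 := hPb σ
  rw [mapRep_apply, mapRep_apply, ← hP] at h3
  rw [h1, h3, mul_assoc, h2, mul_one]

end Lift

end Fermat.Agent.S53

end
-- ===== PACK-END S53/Dict.lean

-- ===== PACK-BEGIN A3/H319/LevelGroup.lean
section


/-!
# A3 / LEVEL (helper319), part 2: group theory

`Γ₀(N)` is generated by `Γ₀(N p)` together with `T = [[1,1],[0,1]]` and `U = [[1,0],[N,1]]`
(`p` prime); more precisely, an additive character `c : Γ₀(N) → A` vanishing on `Γ₀(N p)`, with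
values in a group `A` without `p`-torsion, vanishes identically.
-/

set_option autoImplicit false

noncomputable section

open CongruenceSubgroup Matrix
open scoped MatrixGroups

namespace Fermat.Agent.A3.H319

/-- The lower unipotent matrix `[[1,0],[N m,1]]`. -/
def lowerU (N : ℕ) (m : ℤ) : SL(2, ℤ) :=
  ⟨!![1, 0; (N : ℤ) * m, 1], by simp [Matrix.det_fin_two]⟩

@[simp] theorem lowerU_apply_zero_zero (N : ℕ) (m : ℤ) : (lowerU N m) 0 0 = 1 := rfl
@[simp] theorem lowerU_apply_zero_one (N : ℕ) (m : ℤ) : (lowerU N m) 0 1 = 0 := rfl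
@[simp] theorem lowerU_apply_one_zero (N : ℕ) (m : ℤ) : (lowerU N m) 1 0 = (N : ℤ) * m := rfl
@[simp] theorem lowerU_apply_one_one (N : ℕ) (m : ℤ) : (lowerU N m) 1 1 = 1 := rfl

theorem mem_Gamma0_iff_dvd {M : ℕ} {γ : SL(2, ℤ)} : γ ∈ Gamma0 M ↔ (M : ℤ) ∣ γ 1 0 := by
  rw [Gamma0_mem]
  exact ZMod.intCast_zmod_eq_zero_iff_dvd _ _

theorem lowerU_mem (N : ℕ) (m : ℤ) : lowerU N m ∈ Gamma0 N := by
  rw [mem_Gamma0_iff_dvd, lowerU_apply_one_zero]
  exact dvd_mul_right _ _

theorem lowerU_mul_mem (N p : ℕ) (m : ℤ) : lowerU N ((p : ℤ) * m) ∈ Gamma0 (N * p) := by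
  rw [mem_Gamma0_iff_dvd, lowerU_apply_one_zero]
  refine ⟨m, ?_⟩
  push_cast
  ring

theorem lowerU_add (N : ℕ) (m m' : ℤ) : lowerU N (m + m') = lowerU N m * lowerU N m' := by
  apply Subtype.ext
  rw [Matrix.SpecialLinearGroup.coe_mul]
  ext i j
  fin_cases i <;> fin_cases j <;>
    simp [lowerU, Matrix.mul_apply, Fin.sum_univ_two, _root_.mul_add]

theorem T_mem_Gamma0 (M : ℕ) : ModularGroup.T ∈ Gamma0 M := by
  rw [mem_Gamma0_iff_dvd]
  simp [ModularGroup.T]

theorem Gamma0_mul_le (N p : ℕ) : Gamma0 (N * p) ≤ Gamma0 N := by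
  intro γ hγ
  rw [mem_Gamma0_iff_dvd] at hγ ⊢
  refine dvd_trans ?_ hγ
  exact ⟨(p : ℤ), by push_cast; ring⟩

theorem mul_lowerU_apply_one_zero (N : ℕ) (γ : SL(2, ℤ)) (m : ℤ) :
    (γ * lowerU N m) 1 0 = γ 1 0 + γ 1 1 * ((N : ℤ) * m) := by
  rw [Matrix.SpecialLinearGroup.coe_mul, Matrix.mul_apply, Fin.sum_univ_two]
  simp

theorem mul_T_apply_one_zero (γ : SL(2, ℤ)) : (γ * ModularGroup.T) 1 0 = γ 1 0 := by
  rw [Matrix.SpecialLinearGroup.coe_mul, Matrix.mul_apply, Fin.sum_univ_two]
  simp [ModularGroup.T]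

theorem mul_T_apply_one_one (γ : SL(2, ℤ)) : (γ * ModularGroup.T) 1 1 = γ 1 0 + γ 1 1 := by
  rw [Matrix.SpecialLinearGroup.coe_mul, Matrix.mul_apply, Fin.sum_univ_two]
  simp [ModularGroup.T]

/-- **Group theory of LEVEL.**  An additive character of `Γ₀(N)` with values in a group
without `p`-torsion (`p` prime) which vanishes on `Γ₀(N p)` is zero. -/
theorem eq_zero_of_forall_mem_Gamma0_mul {N p : ℕ} (hp : p.Prime) {A : Type*} [AddCommGroup A]
    (hA : ∀ a : A, p • a = 0 → a = 0) (c : ↥(Gamma0 N) → A)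
    (hadd : ∀ γ γ' : ↥(Gamma0 N), c (γ * γ') = c γ + c γ')
    (hres : ∀ γ : ↥(Gamma0 N), (γ : SL(2, ℤ)) ∈ Gamma0 (N * p) → c γ = 0)
    (γ : ↥(Gamma0 N)) : c γ = 0 := by
  -- the elements `U_m` and `T` of `Γ₀(N)`
  let u : ℤ → ↥(Gamma0 N) := fun m => ⟨lowerU N m, lowerU_mem N m⟩
  let t : ↥(Gamma0 N) := ⟨ModularGroup.T, T_mem_Gamma0 N⟩
  have hu_add : ∀ m m' : ℤ, u (m + m') = u m * u m' := fun m m' =>
    Subtype.ext (lowerU_add N m m')
  -- `c` vanishes on `T`
  have hcT : c t = 0 := hres t (T_mem_Gamma0 (N * p))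
  -- `c` vanishes on the `U_m`
  have hcU : ∀ m : ℤ, c (u m) = 0 := by
    intro m
    let φ : ℤ →+ A := AddMonoidHom.mk' (fun m => c (u m)) (fun m m' => by
      show c (u (m + m')) = c (u m) + c (u m')
      rw [hu_add, hadd])
    have h1 : φ ((p : ℤ) * m) = 0 := hres (u ((p : ℤ) * m)) (lowerU_mul_mem N p m)
    have h2 : φ ((p : ℤ) * m) = p • φ m := by
      rw [← nsmul_eq_mul, map_nsmul]
    exact hA (φ m) (by rw [← h2, h1])
  -- the case `p ∤ d`
  have key : ∀ γ : ↥(Gamma0 N), ¬ (p : ℤ) ∣ (γ : SL(2, ℤ)) 1 1 → c γ = 0 := by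
    intro γ hd
    obtain ⟨c', hc'⟩ := mem_Gamma0_iff_dvd.mp γ.2
    have hcop : IsCoprime ((γ : SL(2, ℤ)) 1 1) (p : ℤ) := by
      have hpp : Prime (p : ℤ) := Nat.prime_iff_prime_int.mp hp
      exact (IsCoprime.symm ((Prime.coprime_iff_not_dvd hpp).mpr hd))
    obtain ⟨x, y, hxy⟩ := hcop
    -- `m := - c' * x`
    have hmem : ((γ * u (-c' * x) : ↥(Gamma0 N)) : SL(2, ℤ)) ∈ Gamma0 (N * p) := by
      rw [mem_Gamma0_iff_dvd]
      show ((N * p : ℕ) : ℤ) ∣ ((γ : SL(2, ℤ)) * lowerU N (-c' * x)) 1 0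
      rw [mul_lowerU_apply_one_zero, hc']
      refine ⟨c' * y, ?_⟩
      push_cast
      linear_combination (-(N : ℤ) * c') * hxy
    have h1 := hres _ hmem
    rw [hadd, hcU, add_zero] at h1
    exact h1
  by_cases hd : (p : ℤ) ∣ (γ : SL(2, ℤ)) 1 1
  · -- then `p ∤ c`, use `γ T`
    have hdet : (γ : SL(2, ℤ)) 0 0 * (γ : SL(2, ℤ)) 1 1 - (γ : SL(2, ℤ)) 0 1 * (γ : SL(2, ℤ)) 1 0 = 1 := by
      have := (γ : SL(2, ℤ)).2
      rw [Matrix.det_fin_two] at this
      exact this
    have hc : ¬ (p : ℤ) ∣ (γ : SL(2, ℤ)) 1 0 := by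
      intro hc
      have h1 : (p : ℤ) ∣ 1 := by
        rw [← hdet]
        exact dvd_sub (dvd_mul_of_dvd_right hd _) (dvd_mul_of_dvd_right hc _)
      have hpp : Prime (p : ℤ) := Nat.prime_iff_prime_int.mp hp
      exact hpp.not_dvd_one h1
    have h2 : ¬ (p : ℤ) ∣ ((γ * t : ↥(Gamma0 N)) : SL(2, ℤ)) 1 1 := by
      show ¬ (p : ℤ) ∣ ((γ : SL(2, ℤ)) * ModularGroup.T) 1 1
      rw [mul_T_apply_one_one]
      intro h
      exact hc ((dvd_add_left hd).mp h)
    have h3 := key (γ * t) h2
    rw [hadd, hcT, add_zero] at h3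
    exact h3
  · exact key γ hd

end Fermat.Agent.A3.H319

end
end
-- ===== PACK-END A3/H319/LevelGroup.lean

-- ===== PACK-BEGIN S29/M4b/H89/PRoot.lean
section
/-
S29 row, layer M, sub-layer M4b — lemma PROOT (helper89), used by piece K4-UNIQ.

`exists_coeffMap_eq_of_pow` : let `ι : K →+* L` be a homomorphism of fields, `K` algebraically
closed, `p` a natural number invertible in `K`.  If the `p`-th power of a Laurent series `b` over
`L` has all its coefficients in `ι K`, then so has `b`:  `b ^ p = coeffMap ι w → ∃ v, coeffMap ι v = b`.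

Proof: reduce to power series with nonzero constant term; the constant term is a `p`-th root of an
element of `ι K`, hence in `ι K`; then induction on the index, comparing the coefficients of
`(P + X^m R)^p = P^p + p P^(p-1) X^m R + k X^(2m) R^2`.
Mathlib + Prelude `coeffMap` only.
-/



set_option autoImplicit false

noncomputable section

namespace Fermat.Agent.S29.M4b.H89.PRoot

open PowerSeries ModularCurve

section PS

variable {L : Type*} [Field L]

/-- Power series all of whose coefficients lie in a subfield. -/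
def coeffSubring (S : Subfield L) : Subring (PowerSeries L) where
  carrier := {B | ∀ n, PowerSeries.coeff n B ∈ S}
  mul_mem' := by
    intro B C hB hC n
    rw [PowerSeries.coeff_mul]
    exact S.sum_mem fun x _ => S.mul_mem (hB _) (hC _)
  one_mem' := by
    intro n
    rw [PowerSeries.coeff_one]
    split_ifs
    · exact S.one_mem
    · exact S.zero_mem
  add_mem' := by
    intro B C hB hC n
    rw [map_add]
    exact S.add_mem (hB _) (hC _)
  zero_mem' := by
    intro n
    rw [map_zero]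
    exact S.zero_mem
  neg_mem' := by
    intro B hB n
    rw [map_neg]
    exact S.neg_mem (hB _)

theorem mem_coeffSubring {S : Subfield L} {B : PowerSeries L} :
    B ∈ coeffSubring S ↔ ∀ n, PowerSeries.coeff n B ∈ S := Iff.rfl

/-- The key induction, for power series with nonzero constant coefficient. -/
theorem mem_coeffSubring_of_pow (S : Subfield L) {p : ℕ} (hp : (p : L) ≠ 0)
    (hroot : ∀ x : L, x ^ p ∈ S → x ∈ S) (B : PowerSeries L)
    (hB0 : PowerSeries.coeff 0 B ≠ 0) (hBp : B ^ p ∈ coeffSubring S) :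
    B ∈ coeffSubring S := by
  have hp0 : p ≠ 0 := by
    rintro rfl
    exact hp (by simp)
  -- constant coefficient
  have h0 : PowerSeries.coeff 0 B ∈ S := by
    apply hroot
    have := hBp 0
    rwa [PowerSeries.coeff_zero_eq_constantCoeff, map_pow,
      ← PowerSeries.coeff_zero_eq_constantCoeff] at this
  intro m
  induction m using Nat.strong_induction_on with
  | _ m ih =>
    rcases Nat.eq_zero_or_pos m with rfl | hm
    · exact h0
    -- decomposition `B = P + X^m * R`
    set P : PowerSeries L := ((PowerSeries.trunc m B : Polynomial L) : PowerSeries L) with hP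
    set R : PowerSeries L := PowerSeries.mk fun i => PowerSeries.coeff (i + m) B with hR
    have hdec : B = P + PowerSeries.X ^ m * R := by
      rw [add_comm]
      exact PowerSeries.eq_X_pow_mul_shift_add_trunc m B
    have hPmem : P ∈ coeffSubring S := by
      intro n
      rw [hP, Polynomial.coeff_coe, PowerSeries.coeff_trunc]
      split_ifs with hn
      · exact ih n hn
      · exact S.zero_mem
    have hP0 : PowerSeries.coeff 0 P = PowerSeries.coeff 0 B := by
      rw [hP, Polynomial.coeff_coe, PowerSeries.coeff_trunc, if_pos hm]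
    have hR0 : PowerSeries.coeff 0 R = PowerSeries.coeff m B := by
      rw [hR, PowerSeries.coeff_mk, zero_add]
    obtain ⟨k, hk⟩ := Polynomial.powAddExpansion P (PowerSeries.X ^ m * R) p
    have hexp : PowerSeries.coeff m (B ^ p)
        = PowerSeries.coeff m (P ^ p)
          + (p : L) * (PowerSeries.coeff 0 B) ^ (p - 1) * PowerSeries.coeff m B := by
      have e1 : B ^ p = P ^ p + PowerSeries.X ^ m * ((p : PowerSeries L) * P ^ (p - 1) * R)
          + PowerSeries.X ^ (2 * m) * (k * R ^ 2) := by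
        conv_lhs => rw [hdec]
        rw [hk]
        ring
      rw [e1, map_add, map_add, PowerSeries.coeff_X_pow_mul', PowerSeries.coeff_X_pow_mul',
        if_pos le_rfl, if_neg (by omega), add_zero, Nat.sub_self]
      congr 1
      rw [PowerSeries.coeff_zero_eq_constantCoeff, map_mul, map_mul, map_pow, map_natCast,
        ← PowerSeries.coeff_zero_eq_constantCoeff, hP0, hR0]
    have hmem : (p : L) * (PowerSeries.coeff 0 B) ^ (p - 1) * PowerSeries.coeff m B ∈ S := by
      have h1 : PowerSeries.coeff m (P ^ p) ∈ S := (coeffSubring S).pow_mem hPmem p m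
      have h2 := hBp m
      rw [hexp] at h2
      have := S.sub_mem h2 h1
      rwa [add_sub_cancel_left] at this
    have hunit : (p : L) * (PowerSeries.coeff 0 B) ^ (p - 1) ∈ S :=
      S.mul_mem (natCast_mem S p) (S.pow_mem h0 _)
    have hne : (p : L) * (PowerSeries.coeff 0 B) ^ (p - 1) ≠ 0 :=
      mul_ne_zero hp (pow_ne_zero _ hB0)
    have := S.mul_mem (S.inv_mem hunit) hmem
    rwa [← mul_assoc, inv_mul_cancel₀ hne, one_mul] at this

end PS

section Laurent

variable {K L : Type*} [Field K] [Field L]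

/-- Laurent series version: if all coefficients of `b ^ p` lie in `S`, so do those of `b`. -/
theorem laurent_coeff_mem_of_pow (S : Subfield L) {p : ℕ} (hp : (p : L) ≠ 0)
    (hroot : ∀ x : L, x ^ p ∈ S → x ∈ S) (b : LaurentSeries L)
    (hbp : ∀ n, (b ^ p).coeff n ∈ S) : ∀ n, b.coeff n ∈ S := by
  by_cases hb : b = 0
  · intro n
    rw [hb, HahnSeries.coeff_zero]
    exact S.zero_mem
  set B := b.powerSeriesPart with hBdef
  have hbB : HahnSeries.single b.order (1 : L) * HahnSeries.ofPowerSeries ℤ L B = b :=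
    LaurentSeries.single_order_mul_powerSeriesPart b
  have hB0 : PowerSeries.coeff 0 B ≠ 0 := by
    rw [hBdef, LaurentSeries.powerSeriesPart_coeff]
    simpa using (HahnSeries.coeff_order_eq_zero (x := b)).not.2 hb
  have hBp : B ^ p ∈ coeffSubring S := by
    intro n
    have e : b ^ p = HahnSeries.single (p • b.order) (1 : L)
        * HahnSeries.ofPowerSeries ℤ L (B ^ p) := by
      conv_lhs => rw [← hbB]
      rw [mul_pow, HahnSeries.single_pow, one_pow, map_pow]
    have h2 := hbp ((n : ℤ) + p • b.order)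
    rw [e, HahnSeries.coeff_single_mul_add, one_mul, HahnSeries.ofPowerSeries_apply_coeff] at h2
    exact h2
  have hB := mem_coeffSubring_of_pow S hp hroot B hB0 hBp
  intro n
  by_cases hn : b.order ≤ n
  · obtain ⟨k, hk⟩ := Int.le.dest hn
    have := hB k
    rw [hBdef, LaurentSeries.powerSeriesPart_coeff, hk] at this
    exact this
  · rw [HahnSeries.coeff_eq_zero_of_lt_order (not_le.1 hn)]
    exact S.zero_mem

/-- A Laurent series with coefficients in the range of `ι` is in the range of `coeffMap ι`. -/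
theorem exists_coeffMap_eq_of_coeff_mem (ι : K →+* L) (b : LaurentSeries L)
    (hb : ∀ n, b.coeff n ∈ ι.fieldRange) : ∃ v : LaurentSeries K, coeffMap ι v = b := by
  classical
  have hex : ∀ n, ∃ a : K, ι a = b.coeff n := fun n => RingHom.mem_fieldRange.1 (hb n)
  let g : ℤ → K := fun n => if b.coeff n = 0 then 0 else Classical.choose (hex n)
  have hg : ∀ n, ι (g n) = b.coeff n := by
    intro n
    by_cases h0 : b.coeff n = 0
    · simp only [g, if_pos h0, map_zero, h0]
    · simp only [g, if_neg h0]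
      exact Classical.choose_spec (hex n)
  have hsupp : Function.support g ⊆ b.support := by
    intro n hn
    rw [Function.mem_support] at hn
    rw [HahnSeries.mem_support]
    intro h0
    apply hn
    simp only [g, if_pos h0]
  refine ⟨⟨g, b.isPWO_support.mono hsupp⟩, ?_⟩
  ext n
  rw [coeffMap_coeff]
  exact hg n

/-- **PROOT**: a Laurent series over `L` whose `p`-th power has coefficients in the algebraically
closed subfield `ι K` (with `p` invertible in `K`) has coefficients in `ι K`. -/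
theorem exists_coeffMap_eq_of_pow [IsAlgClosed K] (ι : K →+* L) {p : ℕ} (hp : (p : K) ≠ 0)
    (b : LaurentSeries L) (w : LaurentSeries K) (h : b ^ p = coeffMap ι w) :
    ∃ v : LaurentSeries K, coeffMap ι v = b := by
  have hp0 : p ≠ 0 := by
    rintro rfl
    exact hp (by simp)
  have hpL : (p : L) ≠ 0 := by
    have := (map_ne_zero ι).2 hp
    rwa [map_natCast] at this
  apply exists_coeffMap_eq_of_coeff_mem
  apply laurent_coeff_mem_of_pow ι.fieldRange hpL
  · intro x hx
    obtain ⟨c, hc⟩ := RingHom.mem_fieldRange.1 hx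
    let _ : Algebra K L := ι.toAlgebra
    have hint : IsIntegral K x := by
      refine ⟨Polynomial.X ^ p - Polynomial.C c, Polynomial.monic_X_pow_sub_C c hp0, ?_⟩
      rw [Polynomial.eval₂_sub, Polynomial.eval₂_pow, Polynomial.eval₂_X, Polynomial.eval₂_C]
      show x ^ p - ι c = 0
      rw [hc, sub_self]
    have hdeg := IsAlgClosed.degree_eq_one_of_irreducible K (minpoly.irreducible hint)
    have := minpoly.mem_range_of_degree_eq_one K x hdeg
    obtain ⟨a, ha⟩ := this
    exact RingHom.mem_fieldRange.2 ⟨a, ha⟩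
  · intro n
    rw [h, coeffMap_coeff]
    exact RingHom.mem_fieldRange.2 ⟨_, rfl⟩

end Laurent

end Fermat.Agent.S29.M4b.H89.PRoot

end
end
-- ===== PACK-END S29/M4b/H89/PRoot.lean

-- ===== PACK-BEGIN S17/H140/InertiaFinite.lean
section


/-!
# S17 / W-HM, part (1), finite level (helper140)

`ramificationIdx_under_eq_one`: let `L/ℚ` be a finite Galois extension, `K` an intermediate field
and `P` a maximal ideal of `𝓞 L`.  If the inertia group of `P` in `Gal(L/ℚ)` fixes `K` pointwise,
then the prime of `𝓞 K` below `P` has ramification index `1` over `ℤ`.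

Proof: `e(P | ℤ) = #I(P | ℚ)`, `e(P | 𝓞 K) = #I(P | K) = #(I(P | ℚ) ∩ Gal(L/K)) = #I(P | ℚ)` and
`e` is multiplicative in towers.
-/

set_option autoImplicit false

namespace Fermat.Agent.S17.H140

open NumberField Ideal

/-- If the inertia group of `P` fixes the intermediate field `K`, then the prime of `K` below `P`
is unramified over `ℤ`. -/
theorem ramificationIdx_under_eq_one (L : Type*) [Field L] [NumberField L] [IsGalois ℚ L]
    (K : IntermediateField ℚ L) (P : Ideal (𝓞 L)) [P.IsMaximal]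
    (h : ∀ σ ∈ Ideal.inertia Gal(L/ℚ) P, ∀ a ∈ K, σ a = a) :
    (P.under (𝓞 K)).ramificationIdx ℤ = 1 := by
  classical
  let H : Subgroup Gal(L/ℚ) := fixingSubgroup Gal(L/ℚ) (K : Set L)
  have h1 : IsGaloisGroup H K L := IsGaloisGroup.intermediateField Gal(L/ℚ) ℚ L K
  have h2 : IsGaloisGroup H (𝓞 K) (𝓞 L) := IsGaloisGroup.of_isFractionRing H (𝓞 K) (𝓞 L) K L
  have h3 := card_inertia_eq_ramificationIdxIn (G := H) (P.under (𝓞 K)) P
  have h4 := card_inertia_eq_ramificationIdxIn (G := Gal(L/ℚ)) (P.under ℤ) P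
  have h5 := ramificationIdxIn_eq_ramificationIdx (P.under (𝓞 K)) P H
  have h6 := ramificationIdxIn_eq_ramificationIdx (P.under ℤ) P Gal(L/ℚ)
  have h7 := ramificationIdx_tower (R := ℤ) (P.under (𝓞 K)) P
  have h8 := AddSubgroup.subgroupOf_inertia P.toAddSubgroup H
  have hle : Ideal.inertia Gal(L/ℚ) P ≤ H := by
    intro σ hσ
    rw [mem_fixingSubgroup_iff]
    intro a ha
    exact h σ hσ a ha
  have hcard : Nat.card (Ideal.inertia H P) = Nat.card (Ideal.inertia Gal(L/ℚ) P) := by
    have : Ideal.inertia H P = (Ideal.inertia Gal(L/ℚ) P).subgroupOf H := h8.symm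
    rw [this]
    exact Nat.card_congr (Subgroup.subgroupOfEquivOfLe hle).toEquiv
  have hpos : 0 < P.ramificationIdx (𝓞 K) := Ideal.ramificationIdx_pos P (𝓞 K)
  have heq : P.ramificationIdx ℤ = P.ramificationIdx (𝓞 K) := by
    rw [← h6, ← h4, ← hcard, h3, h5]
  rw [heq] at h7
  have : (P.under (𝓞 K)).ramificationIdx ℤ * P.ramificationIdx (𝓞 K)
      = 1 * P.ramificationIdx (𝓞 K) := by rw [one_mul]; exact h7.symm
  exact Nat.eq_of_mul_eq_mul_right hpos this

/-- Finite-level criterion: if all inertia groups above `ℓ` in `Gal(L/ℚ)` fix `K`, then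
`ℓ ∤ disc K`. -/
theorem not_dvd_discr_of_inertia (L : Type*) [Field L] [NumberField L] [IsGalois ℚ L]
    (K : IntermediateField ℚ L) (ℓ : ℕ) (hℓ : ℓ.Prime)
    (h : ∀ P : Ideal (𝓞 L), P.IsMaximal → (ℓ : 𝓞 L) ∈ P →
      ∀ σ ∈ Ideal.inertia Gal(L/ℚ) P, ∀ a ∈ K, σ a = a) :
    ¬ (ℓ : ℤ) ∣ NumberField.discr K := by
  have hp : Prime (ℓ : ℤ) := Nat.prime_iff_prime_int.mp hℓ
  rw [NumberField.not_dvd_discr_iff_forall_mem K (𝓞 K) hp]
  intro p hpP hmem
  have hp0 : p ≠ ⊥ := by
    intro h0
    rw [h0, Ideal.mem_bot] at hmem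
    have : ((ℓ : ℤ) : 𝓞 K) = 0 := hmem
    have h2 : (ℓ : ℤ) = 0 := by exact_mod_cast this
    exact hℓ.ne_zero (by exact_mod_cast h2)
  have hpmax : p.IsMaximal := hpP.isMaximal hp0
  obtain ⟨P, hPmax, hPover⟩ := Ideal.exists_maximal_ideal_liesOver_of_isIntegral (S := 𝓞 L) p
  have hℓP : (ℓ : 𝓞 L) ∈ P := by
    have h1 : algebraMap (𝓞 K) (𝓞 L) ((ℓ : ℤ) : 𝓞 K) ∈ P := by
      rw [← Ideal.mem_comap]
      have := hPover.over
      rw [Ideal.under_def] at this
      rw [← this]; exact hmem
    simpa using h1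
  have key := ramificationIdx_under_eq_one L K P (h P hPmax hℓP)
  have hunder : P.under (𝓞 K) = p := (hPover.over).symm
  rw [hunder] at key
  exact Ideal.ramificationIdx_eq_one_iff.mp key

end Fermat.Agent.S17.H140

end
-- ===== PACK-END S17/H140/InertiaFinite.lean

-- ===== PACK-BEGIN S14/H714/Basic.lean
section



/-!
# S14, block GALOIS (helper714): basic facts

* the instances needed to do (infinite) Galois theory on `AlgebraicClosure ℚ` with the
  `Algebra ℚ _` instance used by the Prelude;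
* basic properties of `ExtCitation.cycloExp`.
-/

set_option autoImplicit false
set_option linter.style.haveILetI false

namespace Fermat.Agent.S14.H714

open ExtCitation

/-- The algebraic closure of `ℚ`. -/
abbrev Qb := AlgebraicClosure ℚ
/-- The absolute Galois group of `ℚ`. -/
abbrev G := Qb ≃ₐ[ℚ] Qb

instance instIsAlgebraicQb : Algebra.IsAlgebraic ℚ Qb := AlgebraicClosure.isAlgebraic ℚ

instance instIsAlgClosureQb : IsAlgClosure ℚ Qb := ⟨inferInstance, inferInstance⟩

instance instIsGaloisQb : IsGalois ℚ Qb := inferInstance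

variable (p : ℕ) [Fact p.Prime]

/-- The mod `p` cyclotomic character, as an element of `ZMod p`. -/
noncomputable def omega (σ : G) : ZMod p := (cycloExp p σ : ZMod p)

theorem omega_def (σ : G) : omega p σ = (cycloExp p σ : ZMod p) := rfl

theorem cycloExp_spec (σ : G) {ζ : Qb} (hζ : ζ ^ p = 1) : σ ζ = ζ ^ cycloExp p σ := by
  haveI : NeZero p := ⟨(Fact.out : p.Prime).ne_zero⟩
  have hu : IsUnit ζ := IsUnit.of_pow_eq_one hζ (Fact.out : p.Prime).ne_zero
  obtain ⟨u, rfl⟩ := hu
  have hmem : u ∈ rootsOfUnity p Qb := by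
    rw [mem_rootsOfUnity]
    exact Units.ext (by simpa using hζ)
  exact modularCyclotomicCharacter.spec Qb (card_rootsOfUnity_eq_self p)
    (σ : Qb ≃+* Qb) hmem

theorem omega_eq_unit (σ : G) :
    haveI : NeZero p := ⟨(Fact.out : p.Prime).ne_zero⟩
    omega p σ = ((modularCyclotomicCharacter Qb (card_rootsOfUnity_eq_self p)
      (σ : Qb ≃+* Qb) : (ZMod p)ˣ) : ZMod p) := by
  haveI : NeZero p := ⟨(Fact.out : p.Prime).ne_zero⟩
  unfold omega cycloExp
  exact ZMod.natCast_zmod_val _

theorem omega_mul (σ τ : G) : omega p (σ * τ) = omega p σ * omega p τ := by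
  haveI : NeZero p := ⟨(Fact.out : p.Prime).ne_zero⟩
  rw [omega_eq_unit, omega_eq_unit, omega_eq_unit, ← Units.val_mul, ← map_mul]
  rfl

theorem omega_one : omega p (1 : G) = 1 := by
  haveI : NeZero p := ⟨(Fact.out : p.Prime).ne_zero⟩
  rw [omega_eq_unit]
  have : ((1 : G) : Qb ≃+* Qb) = 1 := rfl
  rw [this, map_one, Units.val_one]

theorem omega_isUnit (σ : G) : IsUnit (omega p σ) := by
  haveI : NeZero p := ⟨(Fact.out : p.Prime).ne_zero⟩
  rw [omega_eq_unit]
  exact Units.isUnit _

theorem omega_ne_zero (σ : G) : omega p σ ≠ 0 := (omega_isUnit p σ).ne_zero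

theorem omega_inv (σ : G) : omega p σ⁻¹ = (omega p σ)⁻¹ := by
  have h : omega p σ⁻¹ * omega p σ = 1 := by
    rw [← omega_mul, inv_mul_cancel, omega_one]
  exact eq_inv_of_mul_eq_one_left h

/-- Powers of a primitive `p`-th root of unity are determined by the exponent mod `p`. -/
theorem pow_eq_pow_iff_of_isPrimitiveRoot {ζ : Qb} (hζ : IsPrimitiveRoot ζ p) (a b : ℕ) :
    ζ ^ a = ζ ^ b ↔ (a : ZMod p) = (b : ZMod p) := by
  have hp : p.Prime := Fact.out
  rw [pow_eq_pow_mod a hζ.pow_eq_one, pow_eq_pow_mod b hζ.pow_eq_one,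
    ZMod.natCast_eq_natCast_iff]
  constructor
  · intro h
    exact hζ.pow_inj (Nat.mod_lt _ hp.pos) (Nat.mod_lt _ hp.pos) h
  · intro h
    rw [h]

theorem pow_eq_pow_of_natCast_eq {ζ : Qb} (hζ : ζ ^ p = 1) {a b : ℕ}
    (h : (a : ZMod p) = (b : ZMod p)) : ζ ^ a = ζ ^ b := by
  rw [pow_eq_pow_mod a hζ, pow_eq_pow_mod b hζ]
  rw [ZMod.natCast_eq_natCast_iff] at h
  rw [h]

/-- `ω σ = 1` iff `σ` fixes one (any) primitive `p`-th root of unity. -/
theorem omega_eq_one_iff (σ : G) {ζ : Qb} (hζ : IsPrimitiveRoot ζ p) :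
    omega p σ = 1 ↔ σ ζ = ζ := by
  rw [cycloExp_spec p σ hζ.pow_eq_one, omega_def]
  conv_lhs => rw [← Nat.cast_one (R := ZMod p)]
  rw [← pow_eq_pow_iff_of_isPrimitiveRoot p hζ, pow_one]

end Fermat.Agent.S14.H714

end
-- ===== PACK-END S14/H714/Basic.lean

-- ===== PACK-BEGIN S37/Red/Spec.lean
section



/-!
# S37-RED — frozen interfaces (architect: helper40)            v1

Abstract construction of the **place reduction map** `r : Pl(F) → Pl(F_k)` of a function field
with a "Gauss-type" reduction datum and good charts, in the generality needed to produce the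
hypothesis `ModularCurve.IsPlaceReductionAlong` of the Prelude (row S37; also level `M` of S18).

Everything here is Mathlib + Prelude `AlgebraicCurve.Place` only.  Documentation, proofs on paper
and the split into pieces: `coord/S37-red.md` on `origin/helper40`.

Conventions: all statements are `def … : Prop` (no `sorry` in this file); a piece `X` is DONE
when `theorem x : XStatement …` is proved sorry-free in `Fermat/Agent/S37/Red/H<seat>/…`.
-/

set_option autoImplicit false

noncomputable section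

namespace Fermat.Agent.S37.Red

open AlgebraicCurve IntermediateField

universe u

/-! ## 1. The datum -/

/-- A **reduction datum**: constants `A ⊆ K`, `π : A ↠ k`; a valuation ring `O ⊆ F` containing
`A` with a surjective ring hom `ρ : O ↠ F_k` extending `π`; a coordinate `x ∈ O` whose reduction
is transcendental over `k`.  (For modular function fields: `O` = valuation ring of the Gauss
valuation of `q`-expansion coefficients, `ρ` = coefficientwise reduction, `x = j` or a
Hauptmodul.) -/
structure Datum {K k : Type u} [Field K] [Field k] (A : ValuationSubring K) (π : A →+* k)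
    (F Fk : Type u) [Field F] [Field Fk] [Algebra K F] [Algebra k Fk] where
  π_surj : Function.Surjective π
  /-- the (Gauss) valuation ring of the function field -/
  O : ValuationSubring F
  /-- reduction of functions -/
  ρ : O →+* Fk
  ρ_surj : Function.Surjective ρ
  const_mem : ∀ a : A, algebraMap K F (a : K) ∈ O
  ρ_const : ∀ a : A, ρ ⟨algebraMap K F (a : K), const_mem a⟩ = algebraMap k Fk (π a)
  /-- the coordinate -/
  x : F
  x_mem : x ∈ O
  xk_transc : Transcendental k (ρ ⟨x, x_mem⟩)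

namespace Datum

variable {K k F Fk : Type u} [Field K] [Field k] [Field F] [Field Fk]
  [Algebra K F] [Algebra k Fk] {A : ValuationSubring K} {π : A →+* k} (G : Datum A π F Fk)

/-- the reduced coordinate `x̄ ∈ F_k` -/
def xk : Fk := G.ρ ⟨G.x, G.x_mem⟩

/-- total reduction `F → F_k` (junk value `0` outside `O`) -/
def red (f : F) : Fk := open Classical in if h : f ∈ G.O then G.ρ ⟨f, h⟩ else 0

/-- the image of `A` in `F` -/
def constRing (_G : Datum A π F Fk) : Subring F := A.toSubring.map (algebraMap K F)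

/-- `A[t] ⊆ F` -/
def polyRing (t : F) : Subring F := G.constRing ⊔ Subring.closure {t}

/-- `B_t` := integral closure of `A[t]` in `F`.  `B_fin = G.chart G.x`, `B_inf = G.chart G.x⁻¹`. -/
def chart (t : F) : Subring F := (integralClosure (G.polyRing t) F).toSubring

/-- `C_s` := integral closure of `k[s]` in `F_k`.  `C_fin = chartk G.xk`, `C_inf = chartk G.xk⁻¹`. -/
def chartk (_G : Datum A π F Fk) (s : Fk) : Subring Fk :=
  (integralClosure (Algebra.adjoin k {s}) Fk).toSubring

/-- `K·B_t` := integral closure of `K[t]` in `F`. -/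
def chartK (_G : Datum A π F Fk) (t : F) : Subring F :=
  (integralClosure (Algebra.adjoin K {t}) F).toSubring

/-- **Good charts** = the hypotheses (H1), (H3), (H4') of `coord/S37-red.md`. -/
structure Good : Prop where
  /-- (H1) `F / K(x)` is finite -/
  finite : FiniteDimensional K⟮G.x⟯ F
  /-- (H1) `F_k / k(x̄)` is finite … -/
  finite_k : FiniteDimensional k⟮G.xk⟯ Fk
  /-- (H1) … and separable … -/
  sep_k : Algebra.IsSeparable k⟮G.xk⟯ Fk
  /-- (H1) … of the same degree. -/
  finrank_eq : Module.finrank K⟮G.x⟯ F = Module.finrank k⟮G.xk⟯ Fk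
  /-- (H3) normality of the special fibre, finite chart: every element of `F_k` integral over
  `k[x̄]` is the reduction of an element of `O` integral over `A[x]`. -/
  lift_fin : ∀ c ∈ G.chartk G.xk, ∃ b ∈ G.chart G.x, ∃ hb : b ∈ G.O, G.ρ ⟨b, hb⟩ = c
  /-- (H3) the same at infinity. -/
  lift_inf : ∀ c ∈ G.chartk G.xk⁻¹, ∃ b ∈ G.chart G.x⁻¹, ∃ hb : b ∈ G.O, G.ρ ⟨b, hb⟩ = c
  /-- (H4') saturation, finite chart: `O ∩ K·B_fin = B_fin`. -/
  sat_fin : ∀ f ∈ G.O, f ∈ G.chartK G.x → f ∈ G.chart G.x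
  /-- (H4') the same at infinity. -/
  sat_inf : ∀ f ∈ G.O, f ∈ G.chartK G.x⁻¹ → f ∈ G.chart G.x⁻¹

end Datum

/-! ## 2. Values at places, the properties of `r` -/

section Props

variable {K k F Fk : Type u} [Field K] [Field k] [Field F] [Field Fk]
  [Algebra K F] [Algebra k Fk]

/-- `f(P) = a`: the function `f` is regular at `P` with value `a`.
(Not `0 < P.ord (f - a)`: the Prelude has `ord 0 = 0`.) -/
def ValAt (P : Place K F) (f : F) (a : K) : Prop :=
  P.toValuationSubring.valuation (f - algebraMap K F a) < 1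

variable {A : ValuationSubring K} {π : A →+* k} (G : Datum A π F Fk)
  (r : Place K F → Place k Fk)

/-- (i) + (ii) of the Prelude `IsPlaceReductionAlong`, in abstract form:
`r` preserves degrees and `r_*(div y) = div (ρ y)` for every unit `y` of `O`. -/
def IsRed : Prop :=
  (∀ P, (r P).deg = P.deg) ∧
    ∀ (y : F) (hy : y ∈ G.O), G.ρ ⟨y, hy⟩ ≠ 0 →
      ∀ D : Divisor K F, (∀ P, D P = P.ord y) →
        ∀ Q, Finsupp.mapDomain r D Q = Q.ord (G.ρ ⟨y, hy⟩)

/-- **Evaluation compatibility** on the chart of `t` (`t = x` or `t = x⁻¹`): if `t(P) ∈ A`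
then for all `b ∈ B_t`: `b(P) = a ∈ A` implies `(ρ b)(r P) = π a`. -/
def EvalCompatAt (t : F) : Prop :=
  ∀ (P : Place K F) (a₀ : A), ValAt P t a₀ →
    ∀ b ∈ G.chart t, ∀ (hb : b ∈ G.O) (a : A), ValAt P b a →
      ValAt (r P) (G.ρ ⟨b, hb⟩) (π a)

/-- (EC) evaluation compatibility on both charts. -/
def EvalCompat : Prop := EvalCompatAt G r G.x ∧ EvalCompatAt G r G.x⁻¹

/-- **RED-C1**: (EC) determines `r` (constants algebraically closed). -/
def EvalCompatUniqueStatement [IsAlgClosed K] [CharZero K] [IsAlgClosed k] : Prop :=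
  G.Good → ∀ r₁ r₂ : Place K F → Place k Fk, EvalCompat G r₁ → EvalCompat G r₂ → r₁ = r₂

end Props

/-! ## 3. MAIN THEOREM of S37-RED (abstract form) -/

/-- **RED-MAIN**: over algebraically closed constants (`K` of characteristic `0`), a datum with
good charts has a place reduction map with (i), (ii) and (EC). -/
def MainStatement : Prop :=
  ∀ (K k F Fk : Type u) [Field K] [Field k] [Field F] [Field Fk] [Algebra K F] [Algebra k Fk]
    [IsAlgClosed K] [CharZero K] [IsAlgClosed k] (A : ValuationSubring K) (π : A →+* k)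
    (G : Datum A π F Fk), G.Good →
    ∃ r : Place K F → Place k Fk, IsRed G r ∧ EvalCompat G r

/-! ## 4. The pieces -/

section Pieces

variable {K k F Fk : Type u} [Field K] [Field k] [Field F] [Field Fk]
  [Algebra K F] [Algebra k Fk] [IsAlgClosed K] [CharZero K] [IsAlgClosed k]
  {A : ValuationSubring K} {π : A →+* k} (G : Datum A π F Fk)

/-- Hypothesis on an auxiliary coordinate `t ∈ O`: reduction transcendental, both extensions
finite of the same degree, the one in characteristic `ℓ` separable. -/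
structure Datum.AuxCoord (t : F) : Prop where
  mem : t ∈ G.O
  transc : Transcendental k (G.red t)
  finite : FiniteDimensional K⟮t⟯ F
  finite_k : FiniteDimensional k⟮G.red t⟯ Fk
  sep_k : Algebra.IsSeparable k⟮G.red t⟯ Fk
  finrank_eq : Module.finrank K⟮t⟯ F = Module.finrank k⟮G.red t⟯ Fk

/-- **RED-A1 (norms commute with reduction)**.  For an auxiliary coordinate `t` and `y ∈ O`:
`N_{F/K(t)}(y) ∈ O` and `ρ (N_{F/K(t)} y) = N_{F_k/k(t̄)} (ρ y)`.
(Gauss: lifts of a `k(t̄)`-basis of `F_k` form a basis of `O` over `O ∩ K(t)`.) -/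
def NormRedStatement : Prop :=
  ∀ t : F, G.AuxCoord t → ∀ y ∈ G.O,
    ((Algebra.norm K⟮t⟯ y : K⟮t⟯) : F) ∈ G.O ∧
      G.red ((Algebra.norm K⟮t⟯ y : K⟮t⟯) : F) =
        ((Algebra.norm k⟮G.red t⟯ (G.red y) : k⟮G.red t⟯) : Fk)

/-- **RED-A (fibre sums)**.  For an auxiliary coordinate `t`, a unit `y` of `O` and `c ∈ A`:
the number of zeros (minus poles) of `ȳ` on the fibre `t̄ = c̄` equals the number of zeros (minus
poles) of `y` on the residue disc `t ≡ c mod 𝔪_A`.  The sums are over arbitrary finite sets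
containing the relevant part of the support. -/
def FibreSumStatement : Prop :=
  ∀ t : F, G.AuxCoord t → ∀ (y : F) (hy : y ∈ G.O), G.ρ ⟨y, hy⟩ ≠ 0 → ∀ c : A,
    ∀ (S : Finset (Place K F)) (T : Finset (Place k Fk)),
      (∀ P : Place K F, P.ord y ≠ 0 → (∃ a : A, π a = π c ∧ ValAt P t a) → P ∈ S) →
      (∀ P ∈ S, ∃ a : A, π a = π c ∧ ValAt P t a) →
      (∀ Q : Place k Fk, Q.ord (G.ρ ⟨y, hy⟩) ≠ 0 → ValAt Q (G.red t) (π c) → Q ∈ T) →
      (∀ Q ∈ T, ValAt Q (G.red t) (π c)) →
      ∑ Q ∈ T, Q.ord (G.ρ ⟨y, hy⟩) = ∑ P ∈ S, P.ord y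

/-- `t` is **monic-like of degree `M`** w.r.t. `x`: `t ∈ B_fin` and `t / x^M ∈ 1 + x⁻¹ B_inf`. -/
def Datum.MonicLike (t : F) (M : ℕ) : Prop :=
  t ∈ G.chart G.x ∧ ∃ β ∈ G.chart G.x⁻¹, t = G.x ^ M * (1 + G.x⁻¹ * β)

/-- **RED-B (degrees)**.  A monic-like `t` of degree `M ≥ 1` whose reduction is a separating
element is an auxiliary coordinate: `[F : K(t)] = M n = [F_k : k(t̄)]`; moreover `t(P) ∈ A`
forces `x(P) ∈ A`. -/
def DegEqStatement : Prop :=
  G.Good → ∀ (t : F) (M : ℕ), 0 < M → G.MonicLike t M →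
    Algebra.IsSeparable k⟮G.red t⟯ Fk →
    G.AuxCoord t ∧ Module.finrank K⟮t⟯ F = M * Module.finrank K⟮G.x⟯ F ∧
      ∀ (P : Place K F) (a : A), ValAt P t a → ∃ a₀ : A, ValAt P G.x a₀

/-- **RED-D1 (separating coordinates)**.  Given a place `Q₁` of `F_k` in the finite chart and a
finite set `T` of places of the finite chart not containing `Q₁`, there is a monic-like `t`
with separating reduction such that `t̄(Q₁) = 0` and `t̄(Q) ≠ 0` for `Q ∈ T`.
(`t = x + (p(x) + h)^ℓ`, `ℓ = char k`, CRT in `C_fin` + (H3).) -/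
def SepStatement : Prop :=
  G.Good → ∀ (Q₁ : Place k Fk) (T : Finset (Place k Fk)), G.xk ∈ Q₁.toValuationSubring →
    (∀ Q ∈ T, G.xk ∈ Q.toValuationSubring) → Q₁ ∉ T →
    ∃ (t : F) (M : ℕ), 0 < M ∧ G.MonicLike t M ∧ Algebra.IsSeparable k⟮G.red t⟯ Fk ∧
      ValAt Q₁ (G.red t) 0 ∧ ∀ Q ∈ T, ¬ ValAt Q (G.red t) 0

/-- **RED-C0 (every chart function has a value in `A`)**: if `t(P) ∈ A` then every `b ∈ B_t`
is regular at `P` with value in `A`. -/
def ChartValueStatement : Prop :=
  ∀ (t : F) (P : Place K F) (a₀ : A), ValAt P t a₀ → ∀ b ∈ G.chart t, ∃ a : A, ValAt P b a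

/-- **RED-C (construction of `r`)**: existence of a map with (i) and (EC). -/
def ExistsEvalCompatStatement : Prop :=
  G.Good → ∃ r : Place K F → Place k Fk, (∀ P, (r P).deg = P.deg) ∧ EvalCompat G r

/-- **RED-D (the count)**: (EC) implies (ii). -/
def RedOfEvalCompatStatement : Prop :=
  G.Good → ∀ r : Place K F → Place k Fk, (∀ P, (r P).deg = P.deg) → EvalCompat G r → IsRed G r

/-- **RED-F (Galois compatibility, abstract)**: a semilinear automorphism `g` of `F/K` which
preserves `A` and `O`, fixes `x` and induces `gk` on `F_k/k` commutes with `r`. -/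
def GaloisCompatStatement : Prop :=
  G.Good → ∀ r : Place K F → Place k Fk, EvalCompat G r →
    ∀ (g : SemilinearAut K F) (gk : SemilinearAut k Fk),
      (∀ a : K, a ∈ A → SemilinearAut.baseAut g a ∈ A) →
      (∀ f : F, f ∈ G.O → g • f ∈ G.O) →
      (∀ (f : F) (hf : f ∈ G.O) (hgf : g • f ∈ G.O), G.ρ ⟨g • f, hgf⟩ = gk • G.ρ ⟨f, hf⟩) →
      g • G.x = G.x →
      ∀ P : Place K F, r (g • P) = gk • r P

end Pieces

end Fermat.Agent.S37.Red

end
end
-- ===== PACK-END S37/Red/Spec.lean

-- ===== PACK-BEGIN S37/Red/H759/Directed.lean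
section
/-
S37-RED, piece E4(c) "passage R_E → A", generic part (helper759).  Mathlib-only.

Closure operators commute with DIRECTED unions.  `Ω` a field, `κ : ι → Set Ω` a directed family
of sets (in the application: the images of the residue fields `κ_E` of the number fields
`E ⊆ Q̄`, or of the rings `A ∩ E`), `k0 ⊆ ⋃ κ i`, `S` a set of generators.

* `exists_mem_subring_closure`  : `c ∈ Subring.closure (k0 ∪ S)`  ⟹ `∃ i, c ∈ Subring.closure (κ i ∪ S)`
* `exists_mem_subfield_closure` : `c ∈ Subfield.closure (k0 ∪ S)` ⟹ `∃ i, c ∈ Subfield.closure (κ i ∪ S)`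
* `exists_isIntegral`           : `c` integral over `Subring.closure (k0 ∪ S)` ⟹
                                  `∃ i, c` integral over `Subring.closure (κ i ∪ S)`
* `exists_level`                : all three at once, for a common index `i`, which can moreover be
                                  chosen above any given index.
* `isIntegral_subring_iff`      : normal form of integrality over a subring of `Ω`
                                  (monic polynomial over `Ω` with coefficients in the subring).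
-/


set_option autoImplicit false

namespace Fermat.Agent.S37.Red.H759

open Polynomial

section NormalForm

variable {Ω : Type*} [CommRing Ω]

/-- Integrality over a subring `B ⊆ Ω`: normal form with a polynomial over `Ω`. -/
theorem isIntegral_subring_iff (B : Subring Ω) (c : Ω) :
    IsIntegral B c ↔
      ∃ P : Polynomial Ω, P.Monic ∧ (∀ i, P.coeff i ∈ B) ∧ P.eval c = 0 := by
  constructor
  · rintro ⟨p, hp, hpc⟩
    refine ⟨p.map B.subtype, hp.map _, fun i => ?_, ?_⟩
    · rw [coeff_map]; exact (p.coeff i).2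
    · rw [eval_map]; exact hpc
  · rintro ⟨P, hP, hcoeff, hPc⟩
    have hlift : P ∈ Polynomial.lifts B.subtype := by
      rw [Polynomial.lifts_iff_coeff_lifts]
      intro n
      exact ⟨⟨P.coeff n, hcoeff n⟩, rfl⟩
    obtain ⟨q, hq, -, hqm⟩ := Polynomial.lifts_and_natDegree_eq_and_monic hlift hP
    refine ⟨q, hqm, ?_⟩
    have : eval₂ (algebraMap B Ω) c q = (q.map B.subtype).eval c := by
      rw [eval_map]; rfl
    rw [this, hq, hPc]

/-- Integrality is monotone in the subring. -/
theorem isIntegral_subring_mono {B C : Subring Ω} (h : B ≤ C) {c : Ω} (hc : IsIntegral B c) :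
    IsIntegral C c := by
  rw [isIntegral_subring_iff] at hc ⊢
  obtain ⟨P, hP, hcoeff, hPc⟩ := hc
  exact ⟨P, hP, fun i => h (hcoeff i), hPc⟩

/-- Integrality over a subalgebra is integrality over the underlying subring. -/
theorem isIntegral_subalgebra_iff {k : Type*} [CommRing k] [Algebra k Ω] (B : Subalgebra k Ω)
    (c : Ω) : IsIntegral B c ↔ IsIntegral B.toSubring c := by
  constructor
  · rintro ⟨p, hp, hpc⟩
    exact ⟨p, hp, hpc⟩
  · rintro ⟨p, hp, hpc⟩
    exact ⟨p, hp, hpc⟩

end NormalForm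

section Directed

variable {Ω : Type*} [Field Ω] {ι : Type*} [Nonempty ι] (κ : ι → Set Ω)

omit [Nonempty ι] in
theorem directed_subring_closure (hdir : Directed (· ⊆ ·) κ) (S : Set Ω) :
    Directed (· ≤ ·) fun i => Subring.closure (κ i ∪ S) := by
  intro i j
  obtain ⟨l, hil, hjl⟩ := hdir i j
  exact ⟨l, Subring.closure_mono (Set.union_subset_union_left S hil),
    Subring.closure_mono (Set.union_subset_union_left S hjl)⟩

omit [Nonempty ι] in
theorem directed_subfield_closure (hdir : Directed (· ⊆ ·) κ) (S : Set Ω) :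
    Directed (· ≤ ·) fun i => Subfield.closure (κ i ∪ S) := by
  intro i j
  obtain ⟨l, hil, hjl⟩ := hdir i j
  exact ⟨l, Subfield.closure_mono (Set.union_subset_union_left S hil),
    Subfield.closure_mono (Set.union_subset_union_left S hjl)⟩

/-- Elements of the subring generated by `k0 ∪ S` are defined at a finite level. -/
theorem exists_mem_subring_closure (hdir : Directed (· ⊆ ·) κ) {k0 : Set Ω} (S : Set Ω)
    (hk : k0 ⊆ ⋃ i, κ i) {c : Ω} (hc : c ∈ Subring.closure (k0 ∪ S)) :
    ∃ i, c ∈ Subring.closure (κ i ∪ S) := by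
  have hle : Subring.closure (k0 ∪ S) ≤ ⨆ i, Subring.closure (κ i ∪ S) := by
    rw [Subring.closure_le]
    rintro a (ha | ha)
    · obtain ⟨i, hi⟩ := Set.mem_iUnion.mp (hk ha)
      exact (le_iSup (fun i => Subring.closure (κ i ∪ S)) i)
        (Subring.subset_closure (Or.inl hi))
    · obtain ⟨i⟩ := ‹Nonempty ι›
      exact (le_iSup (fun i => Subring.closure (κ i ∪ S)) i)
        (Subring.subset_closure (Or.inr ha))
  exact (Subring.mem_iSup_of_directed (directed_subring_closure κ hdir S)).mp (hle hc)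

/-- Elements of the subfield generated by `k0 ∪ S` are defined at a finite level. -/
theorem exists_mem_subfield_closure (hdir : Directed (· ⊆ ·) κ) {k0 : Set Ω} (S : Set Ω)
    (hk : k0 ⊆ ⋃ i, κ i) {c : Ω} (hc : c ∈ Subfield.closure (k0 ∪ S)) :
    ∃ i, c ∈ Subfield.closure (κ i ∪ S) := by
  have hle : Subfield.closure (k0 ∪ S) ≤ ⨆ i, Subfield.closure (κ i ∪ S) := by
    rw [Subfield.closure_le]
    rintro a (ha | ha)
    · obtain ⟨i, hi⟩ := Set.mem_iUnion.mp (hk ha)
      exact (le_iSup (fun i => Subfield.closure (κ i ∪ S)) i)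
        (Subfield.subset_closure (Or.inl hi))
    · obtain ⟨i⟩ := ‹Nonempty ι›
      exact (le_iSup (fun i => Subfield.closure (κ i ∪ S)) i)
        (Subfield.subset_closure (Or.inr ha))
  exact (Subfield.mem_iSup_of_directed (directed_subfield_closure κ hdir S)).mp (hle hc)

/-- Finitely many elements of the subring generated by `k0 ∪ S` are defined at a common finite
level. -/
theorem exists_forall_mem_subring_closure (hdir : Directed (· ⊆ ·) κ) {k0 : Set Ω} (S : Set Ω)
    (hk : k0 ⊆ ⋃ i, κ i) (T : Finset Ω) (hT : ∀ c ∈ T, c ∈ Subring.closure (k0 ∪ S)) :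
    ∃ i, ∀ c ∈ T, c ∈ Subring.closure (κ i ∪ S) := by
  classical
  induction T using Finset.induction_on with
  | empty =>
    obtain ⟨i⟩ := ‹Nonempty ι›
    exact ⟨i, by simp⟩
  | insert a T _ ih =>
    obtain ⟨i, hi⟩ := ih (fun c hc => hT c (Finset.mem_insert_of_mem hc))
    obtain ⟨j, hj⟩ := exists_mem_subring_closure κ hdir S hk (hT a (Finset.mem_insert_self a T))
    obtain ⟨l, hil, hjl⟩ := directed_subring_closure κ hdir S i j
    refine ⟨l, fun c hc => ?_⟩
    rcases Finset.mem_insert.mp hc with rfl | hc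
    · exact hjl hj
    · exact hil (hi c hc)

/-- Integrality over the subring generated by `k0 ∪ S` holds at a finite level. -/
theorem exists_isIntegral (hdir : Directed (· ⊆ ·) κ) {k0 : Set Ω} (S : Set Ω)
    (hk : k0 ⊆ ⋃ i, κ i) {c : Ω} (hc : IsIntegral (Subring.closure (k0 ∪ S)) c) :
    ∃ i, IsIntegral (Subring.closure (κ i ∪ S)) c := by
  classical
  rw [isIntegral_subring_iff] at hc
  obtain ⟨P, hP, hcoeff, hPc⟩ := hc
  obtain ⟨i, hi⟩ := exists_forall_mem_subring_closure κ hdir S hk
    (P.support.image fun n => P.coeff n) (by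
      intro a ha
      obtain ⟨n, -, rfl⟩ := Finset.mem_image.mp ha
      exact hcoeff n)
  refine ⟨i, (isIntegral_subring_iff _ _).mpr ⟨P, hP, fun n => ?_, hPc⟩⟩
  by_cases hn : n ∈ P.support
  · exact hi _ (Finset.mem_image_of_mem _ hn)
  · rw [Polynomial.notMem_support_iff.mp hn]
    exact zero_mem _

/-- **Finite level**: an element of the field generated by `k0 ∪ S` which is integral over the
ring generated by `k0 ∪ S'` is, for some index `i ≥ i₀`, an element of the field generated by
`κ i ∪ S` integral over the ring generated by `κ i ∪ S'`. -/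
theorem exists_level (hdir : Directed (· ⊆ ·) κ) {k0 : Set Ω} (S S' : Set Ω)
    (hk : k0 ⊆ ⋃ i, κ i) (i₀ : ι) {c : Ω} (hc : c ∈ Subfield.closure (k0 ∪ S))
    (hint : IsIntegral (Subring.closure (k0 ∪ S')) c) :
    ∃ i, κ i₀ ⊆ κ i ∧ c ∈ Subfield.closure (κ i ∪ S) ∧
      IsIntegral (Subring.closure (κ i ∪ S')) c := by
  obtain ⟨i₁, h₁⟩ := exists_mem_subfield_closure κ hdir S hk hc
  obtain ⟨i₂, h₂⟩ := exists_isIntegral κ hdir S' hk hint
  obtain ⟨i₃, h₁₃, h₂₃⟩ := hdir i₁ i₂
  obtain ⟨i, h₃, h₀⟩ := hdir i₃ i₀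
  refine ⟨i, h₀, ?_, ?_⟩
  · exact Subfield.closure_mono (Set.union_subset_union_left S (h₁₃.trans h₃)) h₁
  · exact isIntegral_subring_mono
      (Subring.closure_mono (Set.union_subset_union_left S' (h₂₃.trans h₃))) h₂

end Directed

end Fermat.Agent.S37.Red.H759

namespace Fermat.Agent.S37.Red.H759

section Monotone

variable {Ω : Type*} [Field Ω] {ι : Type*} [Preorder ι] [IsDirected ι (· ≤ ·)] [Nonempty ι]
  (κ : ι → Set Ω)

omit [Field Ω] [Nonempty ι] in
theorem directed_of_monotone (hmono : Monotone κ) : Directed (· ⊆ ·) κ := by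
  intro i j
  obtain ⟨l, hil, hjl⟩ := exists_ge_ge i j
  exact ⟨l, hmono hil, hmono hjl⟩

/-- **Finite level, monotone form**: for a monotone family `κ` over a directed preorder, an
element of the field generated by `k0 ∪ S` which is integral over the ring generated by
`k0 ∪ S'` is, for some index `i ≥ i₀`, an element of the field generated by `κ i ∪ S` integral
over the ring generated by `κ i ∪ S'`. -/
theorem exists_level_ge (hmono : Monotone κ) {k0 : Set Ω} (S S' : Set Ω)
    (hk : k0 ⊆ ⋃ i, κ i) (i₀ : ι) {c : Ω} (hc : c ∈ Subfield.closure (k0 ∪ S))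
    (hint : IsIntegral (Subring.closure (k0 ∪ S')) c) :
    ∃ i, i₀ ≤ i ∧ c ∈ Subfield.closure (κ i ∪ S) ∧
      IsIntegral (Subring.closure (κ i ∪ S')) c := by
  have hdir := directed_of_monotone κ hmono
  obtain ⟨i₁, h₁⟩ := exists_mem_subfield_closure κ hdir S hk hc
  obtain ⟨i₂, h₂⟩ := exists_isIntegral κ hdir S' hk hint
  obtain ⟨i₃, h₁₃, h₂₃⟩ := exists_ge_ge i₁ i₂
  obtain ⟨i, h₃, h₀⟩ := exists_ge_ge i₃ i₀
  refine ⟨i, h₀, ?_, ?_⟩
  · exact Subfield.closure_mono (Set.union_subset_union_left S (hmono (h₁₃.trans h₃))) h₁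
  · exact isIntegral_subring_mono
      (Subring.closure_mono (Set.union_subset_union_left S' (hmono (h₂₃.trans h₃)))) h₂

end Monotone

end Fermat.Agent.S37.Red.H759

end
-- ===== PACK-END S37/Red/H759/Directed.lean

-- ===== PACK-BEGIN S18/H9/Res.lean
section



/-!
# S18, squad S18/S05, pieces RES.1 and RES.2 (helper9)

Mathlib + Prelude only.  The two theorems have EXACTLY the unfolded types of
`Fermat.Agent.S18.Sq05.ResAlgClosedStatement` and `Fermat.Agent.S18.Sq05.ResCharStatement`
(frozen in `Fermat/Agent/S18/Sq05/Spec.lean`, squad-lead helper5), so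
`(resAlgClosed : Sq05.ResAlgClosedStatement)` and `(resChar : Sq05.ResCharStatement)` hold by
unfolding the definitions.

* `resAlgClosed` — the residue field of a valuation subring of an algebraically closed field is
  algebraically closed.
* `resChar` — primes different from the residue characteristic are invertible in the residue
  field.
-/

set_option autoImplicit false

namespace Fermat.Agent.S18.H9

open Polynomial

/-- **RES.1**: the residue field of a valuation subring of an algebraically closed field is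
algebraically closed. -/
theorem resAlgClosed :
    ∀ (L : Type) [Field L] [IsAlgClosed L] (A : ValuationSubring L),
      IsAlgClosed (IsLocalRing.ResidueField A) := by
  intro L _ _ A
  refine IsAlgClosed.of_exists_root _ fun p hpm hpi => ?_
  -- lift `p` to a monic polynomial over `A`
  have hsurj : Function.Surjective (IsLocalRing.residue A) := IsLocalRing.residue_surjective
  have hlift : p ∈ Polynomial.lifts (IsLocalRing.residue A) :=
    (Polynomial.mem_lifts p).mpr (Polynomial.map_surjective _ hsurj p)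
  obtain ⟨P, hPmap, hPdeg, hPm⟩ := Polynomial.lifts_and_degree_eq_and_monic hlift hpm
  -- a root of `P` in `L`
  have hdeg : (P.map (algebraMap A L)).degree ≠ 0 := by
    rw [Polynomial.degree_map_eq_of_injective (FaithfulSMul.algebraMap_injective A L), hPdeg]
    exact Polynomial.degree_pos_of_irreducible hpi |>.ne'
  obtain ⟨x, hx⟩ := IsAlgClosed.exists_root (P.map (algebraMap A L)) hdeg
  -- the root is integral over `A`, hence lies in `A`
  have hint : IsIntegral A x := ⟨P, hPm, by
    rw [← Polynomial.eval_map]; exact hx⟩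
  obtain ⟨y, hy⟩ := (IsIntegrallyClosed.isIntegral_iff (R := A) (K := L)).mp hint
  refine ⟨IsLocalRing.residue A y, ?_⟩
  have hy0 : P.eval y = 0 := by
    apply FaithfulSMul.algebraMap_injective A L
    rw [_root_.map_zero, ← Polynomial.eval₂_at_apply, Polynomial.eval₂_eq_eval_map, hy]
    exact hx
  rw [← hPmap, Polynomial.eval_map, Polynomial.eval₂_at_apply, hy0, _root_.map_zero]

/-- **RES.2**: primes different from the residue characteristic are invertible in the residue
field. -/
theorem resChar :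
    ∀ (L : Type) [Field L] (A : ValuationSubring L) (ℓ p : ℕ), ℓ.Prime → p.Prime →
      A.LiesOverPrime ℓ → p ≠ ℓ → ((p : ℕ) : IsLocalRing.ResidueField A) ≠ 0 := by
  intro L _ A ℓ p hℓ hp hA hne h0
  -- `ℓ` is in the maximal ideal
  have hℓm : ((ℓ : ℕ) : A) ∈ IsLocalRing.maximalIdeal A := by
    obtain ⟨ha, hm⟩ := (ValuationSubring.mem_nonunits_iff_exists_mem_maximalIdeal).mp hA
    have : (⟨(ℓ : L), ha⟩ : A) = ((ℓ : ℕ) : A) := by
      apply Subtype.ext; simp
    rwa [this] at hm
  -- `p` is in the maximal ideal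
  have hpm : ((p : ℕ) : A) ∈ IsLocalRing.maximalIdeal A := by
    rw [← IsLocalRing.residue_eq_zero_iff]
    rw [_root_.map_natCast]
    exact h0
  -- Bezout
  have hcop : IsCoprime (p : ℤ) (ℓ : ℤ) := by
    rw [Int.isCoprime_iff_gcd_eq_one]
    exact (Nat.coprime_primes hp hℓ).mpr hne
  obtain ⟨a, b, hab⟩ := hcop
  have h1 : (1 : A) ∈ IsLocalRing.maximalIdeal A := by
    have e : (1 : A) = (a : A) * ((p : ℕ) : A) + (b : A) * ((ℓ : ℕ) : A) := by
      have := congrArg (Int.cast : ℤ → A) hab
      push_cast at this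
      rw [← this]
    rw [e]
    exact Ideal.add_mem _ (Ideal.mul_mem_left _ _ hpm) (Ideal.mul_mem_left _ _ hℓm)
  exact (Ideal.ne_top_iff_one _).mp (IsLocalRing.maximalIdeal.isMaximal A).ne_top h1

end Fermat.Agent.S18.H9

end
-- ===== PACK-END S18/H9/Res.lean

-- ===== PACK-BEGIN S37/H339/RatTower.lean
section


/-!
# S37 BOARD v3, leaf D4 (helper339): the generic tower lemma

`K(j) ⊆ K(t) ⊆ F` with `j · Q(t) = P(t)`, `P`, `Q` coprime, `t` transcendental:
`[K(t) : K(j)] = max (deg P) (deg Q)` (Mathlib's `RatFunc.finrank_eq_max_natDegree`, transported),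
hence `max (deg P) (deg Q) · [F : K(t)] = [F : K(j)]`; finiteness and separability of `F / K(j)`
pass to `F / K(t)`.
-/

set_option autoImplicit false

noncomputable section

namespace Fermat.Agent.S37.H339

open IntermediateField Polynomial

section RatTower

variable {K F : Type*} [Field K] [Field F] [Algebra K F]

/-- numerator and denominator of `P / Q` for coprime `P`, `Q` have the degrees of `P`, `Q` -/
theorem natDegree_num_denom_of_isCoprime (P Q : K[X]) (hcop : IsCoprime P Q) (hQ : Q ≠ 0) :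
    (algebraMap K[X] (RatFunc K) P / algebraMap K[X] (RatFunc K) Q).num.natDegree = P.natDegree ∧
      (algebraMap K[X] (RatFunc K) P / algebraMap K[X] (RatFunc K) Q).denom.natDegree =
        Q.natDegree := by
  set f : RatFunc K := algebraMap K[X] (RatFunc K) P / algebraMap K[X] (RatFunc K) Q with hf
  have h1 : f.num * Q = P * f.denom := (RatFunc.num_mul_eq_mul_denom_iff hQ).mpr hf
  have hc := RatFunc.isCoprime_num_denom f
  have hnP : f.num ∣ P := hc.dvd_of_dvd_mul_right ⟨Q, h1.symm⟩
  have hPn : P ∣ f.num := hcop.dvd_of_dvd_mul_right ⟨f.denom, h1⟩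
  have hdQ : f.denom ∣ Q := hc.symm.dvd_of_dvd_mul_left ⟨P, by linear_combination h1⟩
  have hQd : Q ∣ f.denom := hcop.symm.dvd_of_dvd_mul_left ⟨f.num, by linear_combination -h1⟩
  constructor
  · exact natDegree_eq_of_degree_eq (degree_eq_degree_of_associated (associated_of_dvd_dvd hnP hPn))
  · exact natDegree_eq_of_degree_eq (degree_eq_degree_of_associated (associated_of_dvd_dvd hdQ hQd))

/-- `[K(t) : K(j)] = max (deg P) (deg Q)` when `j · Q(t) = P(t)` with `P`, `Q` coprime and `t`
transcendental -/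
theorem relfinrank_adjoin_of_eq (t j : F) (ht : Transcendental K t) (P Q : K[X])
    (hcop : IsCoprime P Q) (hQ : Q ≠ 0) (h : j * aeval t Q = aeval t P) :
    relfinrank K⟮j⟯ K⟮t⟯ = max P.natDegree Q.natDegree := by
  classical
  set e := RatFunc.algEquivOfTranscendental t ht with he
  set φ : RatFunc K →ₐ[K] F := (K⟮t⟯.val).comp e.toAlgHom with hφ
  have hφX : φ RatFunc.X = t := by
    show ((e RatFunc.X : K⟮t⟯) : F) = t
    rw [RatFunc.algEquivOfTranscendental_X]
  have hφpoly : ∀ g : K[X], φ (algebraMap K[X] (RatFunc K) g) = aeval t g := by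
    intro g
    show ((e (algebraMap K[X] (RatFunc K) g) : K⟮t⟯) : F) = aeval t g
    rw [RatFunc.algEquivOfTranscendental_algebraMap]
    have : ((aeval (AdjoinSimple.gen K t) g : K⟮t⟯) : F) = aeval ((AdjoinSimple.gen K t : K⟮t⟯) : F) g := by
      rw [← IntermediateField.coe_val, ← aeval_algHom_apply]
    rw [this]
    rfl
  have hQt : aeval t Q ≠ 0 := fun h0 => ht ⟨Q, hQ, h0⟩
  set f : RatFunc K := algebraMap K[X] (RatFunc K) P / algebraMap K[X] (RatFunc K) Q with hf
  have hφf : φ f = j := by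
    rw [hf, map_div₀, hφpoly, hφpoly, ← h, mul_div_assoc, div_self hQt, mul_one]
  have hA : (K⟮f⟯).map φ = K⟮j⟯ := by
    rw [IntermediateField.adjoin_map, Set.image_singleton, hφf]
  have hB : (⊤ : IntermediateField K (RatFunc K)).map φ = K⟮t⟯ := by
    rw [← RatFunc.adjoin_X, IntermediateField.adjoin_map, Set.image_singleton, hφX]
  rw [← hA, ← hB, relfinrank_map_map, relfinrank_top_right, RatFunc.finrank_eq_max_natDegree]
  obtain ⟨h1, h2⟩ := natDegree_num_denom_of_isCoprime P Q hcop hQ
  rw [h1, h2]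

/-- `K(j) ⊆ K(t)` when `j · Q(t) = P(t)`, `Q(t) ≠ 0` -/
theorem adjoin_le_adjoin_of_eq (t j : F) (P Q : K[X]) (hQt : aeval t Q ≠ 0)
    (h : j * aeval t Q = aeval t P) : K⟮j⟯ ≤ K⟮t⟯ := by
  rw [adjoin_simple_le_iff]
  have hj : j = aeval t P / aeval t Q := by
    rw [← h, mul_div_assoc, div_self hQt, mul_one]
  rw [hj]
  have ht : t ∈ K⟮t⟯ := mem_adjoin_simple_self K t
  have hmem : ∀ g : K[X], aeval t g ∈ K⟮t⟯ := by
    intro g
    rw [aeval_eq_sum_range]
    exact _root_.sum_mem fun i _ => by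
      rw [Algebra.smul_def]
      exact _root_.MulMemClass.mul_mem (IntermediateField.algebraMap_mem _ _) (_root_.pow_mem ht i)
  exact _root_.div_mem (hmem P) (hmem Q)

/-- the tower law for `K(j) ⊆ K(t) ⊆ F` -/
theorem max_natDegree_mul_finrank (t j : F) (ht : Transcendental K t) (P Q : K[X])
    (hcop : IsCoprime P Q) (hQ : Q ≠ 0) (h : j * aeval t Q = aeval t P) :
    max P.natDegree Q.natDegree * Module.finrank K⟮t⟯ F = Module.finrank K⟮j⟯ F := by
  have hQt : aeval t Q ≠ 0 := fun h0 => ht ⟨Q, hQ, h0⟩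
  rw [← relfinrank_adjoin_of_eq t j ht P Q hcop hQ h]
  exact relfinrank_mul_finrank_top (adjoin_le_adjoin_of_eq t j P Q hQt h)

/-- finiteness passes up the tower -/
theorem finiteDimensional_of_le {A B : IntermediateField K F} (hAB : A ≤ B)
    [FiniteDimensional A F] : FiniteDimensional B F := by
  letI : Algebra A B := (IntermediateField.inclusion hAB).toRingHom.toAlgebra
  haveI : IsScalarTower A B F := IsScalarTower.of_algebraMap_eq fun _ => rfl
  exact Module.Finite.of_restrictScalars_finite A B F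

/-- separability passes up the tower -/
theorem isSeparable_of_le {A B : IntermediateField K F} (hAB : A ≤ B)
    [Algebra.IsSeparable A F] : Algebra.IsSeparable B F := by
  letI : Algebra A B := (IntermediateField.inclusion hAB).toRingHom.toAlgebra
  haveI : IsScalarTower A B F := IsScalarTower.of_algebraMap_eq fun _ => rfl
  exact Algebra.isSeparable_tower_top_of_isSeparable A B F

/-- **Tower lemma.** All the (H1)-type information passes from `j` to `t`. -/
theorem h1_of_tower (t j : F) (ht : Transcendental K t) (P Q : K[X])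
    (hcop : IsCoprime P Q) (hQ : Q ≠ 0) (h : j * aeval t Q = aeval t P)
    (hfin : FiniteDimensional K⟮j⟯ F) :
    FiniteDimensional K⟮t⟯ F ∧
      max P.natDegree Q.natDegree * Module.finrank K⟮t⟯ F = Module.finrank K⟮j⟯ F ∧
      (Algebra.IsSeparable K⟮j⟯ F → Algebra.IsSeparable K⟮t⟯ F) := by
  have hQt : aeval t Q ≠ 0 := fun h0 => ht ⟨Q, hQ, h0⟩
  have hle := adjoin_le_adjoin_of_eq t j P Q hQt h
  exact ⟨finiteDimensional_of_le hle, max_natDegree_mul_finrank t j ht P Q hcop hQ h,
    fun hs => isSeparable_of_le hle⟩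

end RatTower

end Fermat.Agent.S37.H339

end
end
-- ===== PACK-END S37/H339/RatTower.lean

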