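import Mathlib
import Fermat.Prelude.Def_ModularCurve_X0
import Fermat.Prelude.Def_ModularCurve_X0ModL
import Mathlib.RingTheory.Finiteness.Basic
import Mathlib.LinearAlgebra.Quotient.Basic
import Fermat.Prelude.Def_FLTPrelim_Ramification
import Fermat.Agent.Pack.S33.E1L0
import Fermat.Agent.Pack.S33.E1L3
import Fermat.Agent.Pack.S33.E1L1
import Fermat.Agent.Pack.S33.E2L1
import Fermat.Agent.Pack.S33.E2L2
import Fermat.Agent.Pack.S33.E2L3
import Fermat.Agent.Pack.S33.E0L2

-- ===== PACK-BEGIN S29/H942/MeroRootFinite.lean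
section


/-!
# `p`-th roots of meromorphic functions with finitely many zeros and poles on simply connected
open sets
-/

set_option autoImplicit false

noncomputable section

open Filter Topology Set Complex MeromorphicOn Function

namespace Fermat.Agent.S29.H942

/-- The `p`-th power of the factorized rational function with exponents `e` is the factorized
rational function with exponents `p * e`. -/
lemma factorizedRational_pow {e : ℂ → ℤ} (he : e.HasFiniteSupport) (p : ℕ) :
    (∏ᶠ u, ((· - u) : ℂ → ℂ) ^ e u) ^ p = ∏ᶠ u, ((· - u) : ℂ → ℂ) ^ ((p : ℤ) * e u) := by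
  have h1 : (fun u => ((· - u) : ℂ → ℂ) ^ e u).HasFiniteMulSupport := by
    have := FactorizedRational.mulSupport e
    unfold Function.HasFiniteMulSupport
    rw [this]
    exact he
  rw [finprod_pow h1]
  refine finprod_congr fun u => ?_
  rw [← zpow_natCast, ← zpow_mul, mul_comm]

/-- **Finite case.** A meromorphic function on a simply connected open set with finitely many
zeros and poles, all of order divisible by `p`, has a meromorphic `p`-th root. -/
theorem exists_meromorphicOn_pow_eq_of_finite {f : ℂ → ℂ} {U : Set ℂ}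
    (hUc : IsSimplyConnected U) (hU : IsOpen U) (hf : MeromorphicOn f U)
    (h₂f : ∀ u : U, meromorphicOrderAt f u ≠ ⊤) (h₃f : (divisor f U).support.Finite)
    {p : ℕ} (hp : p ≠ 0) (hdiv : ∀ z, (p : ℤ) ∣ divisor f U z) :
    ∃ h : ℂ → ℂ, MeromorphicOn h U ∧ (h ^ p) =ᶠ[codiscreteWithin U] f := by
  obtain ⟨g, hg, hgne, hfg⟩ := hf.extract_zeros_poles h₂f h₃f
  obtain ⟨r, hr, hrp⟩ := exists_analyticOnNhd_pow_eq hUc hU hp hg (fun z hz => hgne ⟨z, hz⟩)
  set e : ℂ → ℤ := fun u => divisor f U u / (p : ℤ) with he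
  have hpe : ∀ u, (p : ℤ) * e u = divisor f U u := fun u => Int.mul_ediv_cancel' (hdiv u)
  have hesupp : e.HasFiniteSupport := by
    refine Set.Finite.subset h₃f ?_
    intro u hu
    simp only [Function.mem_support, ne_eq] at hu ⊢
    intro h0
    apply hu
    simp [he, h0]
  refine ⟨(∏ᶠ u, ((· - u) : ℂ → ℂ) ^ e u) * r, ?_, ?_⟩
  · exact ((FactorizedRational.meromorphicNFOn e U).meromorphicOn).mul hr.meromorphicOn
  · have h1 : ((∏ᶠ u, ((· - u) : ℂ → ℂ) ^ e u) * r) ^ p =
        (∏ᶠ u, ((· - u) : ℂ → ℂ) ^ divisor f U u) • g := by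
      rw [mul_pow, factorizedRational_pow hesupp]
      simp_rw [hpe]
      ext z
      simp [hrp z]
    rw [h1]
    exact hfg.symm

end Fermat.Agent.S29.H942

end
end
-- ===== PACK-END S29/H942/MeroRootFinite.lean

-- ===== PACK-BEGIN S28/H867/IntZ.lean
section



set_option autoImplicit false
noncomputable section
open ModularCurve HahnSeries Polynomial

namespace Fermat.Agent.S28.H867

section IntZ

variable {A : Type*} [CommRing A]

theorem ringHom_comp_evalAt {B : Type*} [CommRing B] (ψ : LaurentSeries A →+* LaurentSeries B)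
    (y : LaurentSeries A) : ψ.comp (evalAt y) = evalAt (ψ y) := by
  apply Polynomial.ringHom_ext
  · intro a; simp [evalAt]
  · simp [evalAt]

/-- Integrality is transported by ring homomorphisms. -/
theorem isIntegralElem_map {B : Type*} [CommRing B] (ψ : LaurentSeries A →+* LaurentSeries B)
    {y x : LaurentSeries A} (h : (evalAt y).IsIntegralElem x) :
    (evalAt (ψ y)).IsIntegralElem (ψ x) := by
  obtain ⟨P, hP, hPx⟩ := h
  refine ⟨P, hP, ?_⟩
  rw [← ringHom_comp_evalAt, ← Polynomial.hom_eval₂, hPx, _root_.map_zero]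

/-- Transitivity: `y` integral over `ℤ[j]` and `x` integral over `ℤ[y]` imply `x` integral
over `ℤ[j]`. -/
theorem isIntegralElem_trans {j y x : LaurentSeries A} (hy : (evalAt j).IsIntegralElem y)
    (hx : (evalAt y).IsIntegralElem x) : (evalAt j).IsIntegralElem x := by
  let _ : Algebra (Polynomial ℤ) (LaurentSeries A) := (evalAt j).toAlgebra
  have hy' : IsIntegral (Polynomial ℤ) y := hy
  set C := integralClosure (Polynomial ℤ) (LaurentSeries A) with hC
  have hyC : y ∈ C := hy'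
  obtain ⟨P, hP, hPx⟩ := hx
  let φ : Polynomial ℤ →+* C := (Polynomial.aeval (R := ℤ) (⟨y, hyC⟩ : C)).toRingHom
  have hφ : (algebraMap C (LaurentSeries A)).comp φ = evalAt y := by
    apply Polynomial.ringHom_ext
    · intro a; simp [φ, evalAt]
    · simp [φ, evalAt]
  have hxC : IsIntegral C x := by
    refine ⟨P.map φ, hP.map _, ?_⟩
    rw [Polynomial.eval₂_map, hφ]
    exact hPx
  exact isIntegral_trans (R := Polynomial ℤ) (A := C) x hxC

end IntZ

section Jd

/-- `j(q^d)` is integral over `ℤ[j]`, given modular polynomials at all primes dividing `d`. -/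
theorem isIntegralElem_jd (d : ℕ) (hd : d ≠ 0)
    (hΦ : ∀ p : ℕ, p.Prime → p ∣ d → ∀ [NeZero p], Nonempty (ModPolyData p)) :
    (evalAt (jqModC ℤ)).IsIntegralElem (@qExpand ℤ _ d ⟨hd⟩ (jqModC ℤ)) := by
  induction d using Nat.recOnMul with
  | zero => exact absurd rfl hd
  | one =>
    rw [qExpand_one_apply]
    refine ⟨Polynomial.X - Polynomial.C Polynomial.X, Polynomial.monic_X_sub_C _, ?_⟩
    simp [evalAt]
  | prime p hp =>
    have : NeZero p := ⟨hp.ne_zero⟩
    obtain ⟨D⟩ := hΦ p hp dvd_rfl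
    exact ⟨D.Φ, D.monic, D.eval_jp⟩
  | mul a b iha ihb =>
    have ha0 : a ≠ 0 := fun h => hd (by rw [h, zero_mul])
    have hb0 : b ≠ 0 := fun h => hd (by rw [h, mul_zero])
    have : NeZero a := ⟨ha0⟩
    have : NeZero b := ⟨hb0⟩
    have h1 := iha ha0 fun p hp hpa => hΦ p hp (hpa.mul_right b)
    have h2 := ihb hb0 fun p hp hpb => hΦ p hp (hpb.mul_left a)
    have h3 := isIntegralElem_map (qExpand ℤ a) h2
    rw [qExpand_qExpand] at h3
    exact isIntegralElem_trans h1 h3

/-- The `integral` field of `CoreData`. -/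
theorem coreData_integral (N : ℕ) [NeZero N]
    (hΦ : ∀ p : ℕ, p.Prime → p ∣ N → ∀ [NeZero p], Nonempty (ModPolyData p)) :
    ∀ (d : ℕ) [NeZero d], d ∣ N →
      ∃ P : Polynomial (Polynomial ℤ), P.Monic ∧
        P.eval₂ (evalAt (jqModC ℤ)) (qExpand ℤ d (jqModC ℤ)) = 0 := by
  intro d hd hdN
  exact isIntegralElem_jd d hd.out fun p hp hpd => hΦ p hp (hpd.trans hdN)

end Jd

end Fermat.Agent.S28.H867

end
end
-- ===== PACK-END S28/H867/IntZ.lean

-- ===== PACK-BEGIN S28/H325/PolyIndep.lean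
section



/-!
# S28, piece [L-glue], part 1: polynomial independence and change of coefficients

`PolyIndep J v` says that the family `v` admits no nontrivial linear relation with coefficients
polynomials in `J`.  For a field `k` and transcendental `J` this is linear independence over
`k(J)`.  We transfer it along `ℤ → k` (content descent) and `ℤ → ℚ` (clearing denominators).
-/

set_option autoImplicit false

noncomputable section

open ModularCurve HahnSeries Polynomial

namespace Fermat.Agent.S28.H325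

/-- No nontrivial relation `∑ Pᵢ(J) vᵢ = 0` with polynomial coefficients. -/
def PolyIndep {A : Type*} [CommRing A] {n : ℕ} (J : LaurentSeries A)
    (v : Fin n → LaurentSeries A) : Prop :=
  ∀ P : Fin n → A[X], ∑ i, aeval J (P i) * v i = 0 → ∀ i, P i = 0

section Transport

variable {A B : Type*} [CommRing A] [CommRing B]

theorem coeffMap_aeval (f : A →+* B) (J : LaurentSeries A) (P : A[X]) :
    coeffMap f (aeval J P) = aeval (coeffMap f J) (P.map f) := by
  induction P using Polynomial.induction_on' with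
  | add p q hp hq => simp only [_root_.map_add, Polynomial.map_add, hp, hq]
  | monomial m a =>
    rw [Polynomial.map_monomial, Polynomial.aeval_monomial, Polynomial.aeval_monomial, _root_.map_mul,
      _root_.map_pow]
    congr 1
    rw [HahnSeries.algebraMap_apply', HahnSeries.algebraMap_apply', coeffMap_ofPowerSeries]
    congr 1
    ext k
    simp

theorem coeffMap_injective_of_injective (f : A →+* B) (hf : Function.Injective f) :
    Function.Injective (coeffMap f) := by
  intro x y h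
  ext m
  apply hf
  have := congrArg (fun z => z.coeff m) h
  simpa using this

/-- Polynomial independence descends along an injective coefficient map. -/
theorem PolyIndep.of_injective {n : ℕ} (f : A →+* B) (hf : Function.Injective f)
    {J : LaurentSeries A} {v : Fin n → LaurentSeries A}
    (h : PolyIndep (coeffMap f J) (fun i => coeffMap f (v i))) : PolyIndep J v := by
  intro P hP i
  have h1 : ∑ i, aeval (coeffMap f J) ((P i).map f) * coeffMap f (v i) = 0 := by
    have := congrArg (coeffMap f) hP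
    rw [_root_.map_sum, _root_.map_zero] at this
    rw [← this]
    refine Finset.sum_congr rfl fun i _ => ?_
    rw [_root_.map_mul, coeffMap_aeval]
  have h2 := h (fun i => (P i).map f) h1 i
  exact (Polynomial.map_eq_zero_iff hf).mp h2

end Transport

section Transcendence

variable (A : Type*) [CommRing A]

theorem algebraMap_laurent_eq_C (a : A) :
    algebraMap A (LaurentSeries A) a = HahnSeries.C a := by
  rw [HahnSeries.algebraMap_apply']
  have h1 : algebraMap A (PowerSeries A) a = PowerSeries.C a := by simp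
  rw [h1, HahnSeries.ofPowerSeries_C]

theorem laurent_coeff_smul (a : A) (x : LaurentSeries A) (m : ℤ) :
    (@HSMul.hSMul A (LaurentSeries A) (LaurentSeries A)
      (@instHSMul A (LaurentSeries A) (powerSeriesAlgebra ℤ A).toSMul) a x).coeff m
      = a * x.coeff m := by
  rw [Algebra.smul_def, algebraMap_laurent_eq_C, HahnSeries.C_mul_eq_smul]
  exact @HahnSeries.coeff_smul ℤ A _ A _ _ a x m

/-- The coefficient of `q^{-deg P}` in `P(j)` is the leading coefficient of `P`. -/
theorem coeff_aeval_jqModC (P : A[X]) :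
    (aeval (jqModC A) P).coeff (-(P.natDegree : ℤ)) = P.leadingCoeff := by
  rw [Polynomial.aeval_eq_sum_range, HahnSeries.coeff_sum, Finset.sum_range_succ]
  rw [Finset.sum_eq_zero, zero_add]
  · refine (laurent_coeff_smul A _ _ _).trans ?_
    rw [coeff_jqModC_pow_self, mul_one]
    rfl
  · intro m hm
    refine (laurent_coeff_smul A _ _ _).trans ?_
    rw [coeff_jqModC_pow_of_lt, mul_zero]
    have := Finset.mem_range.mp hm
    omega

theorem aeval_jqModC_eq_zero_iff (P : A[X]) : aeval (jqModC A) P = 0 ↔ P = 0 := by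
  refine ⟨fun h => ?_, fun h => by rw [h, _root_.map_zero]⟩
  have := coeff_aeval_jqModC A P
  rw [h, HahnSeries.coeff_zero] at this
  exact Polynomial.leadingCoeff_eq_zero.mp this.symm

end Transcendence

section Field

variable {k : Type*} [Field k] {n : ℕ}

/-- Linear independence over `k(J)` implies polynomial independence, for transcendental `J`. -/
theorem polyIndep_of_linearIndependent {J : LaurentSeries k}
    (hJ : ∀ P : k[X], aeval J P = 0 → P = 0) {v : Fin n → LaurentSeries k}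
    (h : LinearIndependent (IntermediateField.adjoin k {J}) v) : PolyIndep J v := by
  intro P hP i
  rw [Fintype.linearIndependent_iff] at h
  have hmem : ∀ i, aeval J (P i) ∈ IntermediateField.adjoin k {J} := fun i =>
    (IntermediateField.mem_adjoin_simple_iff k _).mpr ⟨P i, 1, by simp⟩
  have h1 := h (fun i => ⟨aeval J (P i), hmem i⟩) (by
    rw [← hP]
    exact Finset.sum_congr rfl fun i _ => rfl) i
  exact hJ _ (congrArg Subtype.val h1)

/-- Polynomial independence implies linear independence over `k(J)`. -/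
theorem linearIndependent_of_polyIndep {J : LaurentSeries k} {v : Fin n → LaurentSeries k}
    (h : PolyIndep J v) : LinearIndependent (IntermediateField.adjoin k {J}) v := by
  classical
  rw [Fintype.linearIndependent_iff]
  intro g hg
  have hrs : ∀ i, ∃ r s : k[X], aeval J s ≠ 0 ∧ (g i : LaurentSeries k) * aeval J s = aeval J r := by
    intro i
    obtain ⟨r, s, hrs⟩ := (IntermediateField.mem_adjoin_simple_iff k _).mp (g i).2
    by_cases hs : aeval J s = 0
    · refine ⟨0, 1, by simp, ?_⟩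
      rw [hs, div_zero] at hrs
      simp [hrs]
    · exact ⟨r, s, hs, by rw [hrs, div_mul_cancel₀ _ hs]⟩
  choose r s hs hrs using hrs
  set t : Fin n → k[X] := fun i => r i * ∏ l ∈ Finset.univ.erase i, s l with ht
  have hS : ∀ i, aeval J (t i) = (g i : LaurentSeries k) * aeval J (∏ l, s l) := by
    intro i
    rw [ht]
    simp only [_root_.map_mul]
    rw [← hrs i, ← Finset.mul_prod_erase Finset.univ s (Finset.mem_univ i)]
    simp only [_root_.map_mul]
    ring
  have hrel : ∑ i, aeval J (t i) * v i = 0 := by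
    have : ∑ i, aeval J (t i) * v i = aeval J (∏ l, s l) * ∑ i, (g i) • v i := by
      rw [Finset.mul_sum]
      refine Finset.sum_congr rfl fun i _ => ?_
      rw [hS i, IntermediateField.smul_def, smul_eq_mul]
      ring
    rw [this, hg, mul_zero]
  have ht0 := h t hrel
  intro i
  have h1 : (g i : LaurentSeries k) * aeval J (∏ l, s l) = 0 := by
    rw [← hS i, ht0 i, _root_.map_zero]
  have h2 : aeval J (∏ l, s l) ≠ 0 := by
    rw [_root_.map_prod]
    exact Finset.prod_ne_zero_iff.mpr fun l _ => hs l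
  have h3 : (g i : LaurentSeries k) = 0 := (mul_eq_zero.mp h1).resolve_right h2
  exact Subtype.ext h3

end Field

section Integers

variable {n : ℕ}

/-- Clearing denominators: polynomial independence over `ℤ` gives it over `ℚ`. -/
theorem PolyIndep.rat_of_int {J : LaurentSeries ℤ} {Y : Fin n → LaurentSeries ℤ}
    (h : PolyIndep J Y) :
    PolyIndep (coeffMap (Int.castRingHom ℚ) J) (fun i => coeffMap (Int.castRingHom ℚ) (Y i)) := by
  classical
  intro P hP
  have hnorm : ∀ i, ∃ (b : ℤ) (Q : ℤ[X]), b ≠ 0 ∧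
      Q.map (Int.castRingHom ℚ) = Polynomial.C (b : ℚ) * P i := by
    intro i
    obtain ⟨b, hbM, hb⟩ := IsLocalization.integerNormalization_spec (nonZeroDivisors ℤ) (P i)
    refine ⟨b, IsLocalization.integerNormalization (nonZeroDivisors ℤ) (P i),
      nonZeroDivisors.ne_zero hbM, ?_⟩
    rw [algebraMap_int_eq] at hb
    rw [hb, Polynomial.C_mul', Int.cast_smul_eq_zsmul ℚ b (P i)]
  choose b Q hb hQ using hnorm
  set c : Fin n → ℤ := fun i => ∏ l ∈ Finset.univ.erase i, b l with hc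
  set m : ℤ := ∏ l, b l with hm
  have hm0 : (m : ℚ) ≠ 0 := by
    rw [hm]; exact_mod_cast Finset.prod_ne_zero_iff.mpr fun l _ => hb l
  have hcm : ∀ i, c i * b i = m := fun i => by
    rw [hc, hm, mul_comm]
    exact Finset.mul_prod_erase Finset.univ b (Finset.mem_univ i)
  have hQ' : ∀ i, (Polynomial.C (c i) * Q i).map (Int.castRingHom ℚ)
      = Polynomial.C (m : ℚ) * P i := by
    intro i
    rw [Polynomial.map_mul, Polynomial.map_C, hQ i, ← mul_assoc, ← Polynomial.C_mul]
    congr 2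
    rw [eq_intCast, ← hcm i]
    push_cast
    ring
  have hrel : ∑ i, aeval J (Polynomial.C (c i) * Q i) * Y i = 0 := by
    apply coeffMap_injective_of_injective (Int.castRingHom ℚ) Int.cast_injective
    rw [_root_.map_sum, _root_.map_zero]
    have : ∑ i, coeffMap (Int.castRingHom ℚ) (aeval J (Polynomial.C (c i) * Q i) * Y i)
        = aeval (coeffMap (Int.castRingHom ℚ) J) (Polynomial.C (m : ℚ)) *
          ∑ i, aeval (coeffMap (Int.castRingHom ℚ) J) (P i) *
            coeffMap (Int.castRingHom ℚ) (Y i) := by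
      rw [Finset.mul_sum]
      refine Finset.sum_congr rfl fun i _ => ?_
      rw [_root_.map_mul, coeffMap_aeval, hQ' i, _root_.map_mul]
      ring
    rw [this, hP, mul_zero]
  have h0 := h _ hrel
  intro i
  have h1 : Polynomial.C (m : ℚ) * P i = 0 := by rw [← hQ' i, h0 i, Polynomial.map_zero]
  exact (mul_eq_zero.mp h1).resolve_left (by simpa using hm0)

/-- Content descent: polynomial independence over a field `k` (after reducing coefficients along
`ℤ → k`) gives polynomial independence over `ℤ`. -/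
theorem PolyIndep.int_of_field {k : Type*} [Field k] {J : LaurentSeries ℤ}
    {Y : Fin n → LaurentSeries ℤ}
    (h : PolyIndep (coeffMap (Int.castRingHom k) J)
      (fun i => coeffMap (Int.castRingHom k) (Y i))) : PolyIndep J Y := by
  classical
  obtain ⟨p, hp⟩ := CharP.exists k
  -- every relation has all coefficients divisible by `p`
  have hdvd : ∀ P : Fin n → ℤ[X], ∑ i, aeval J (P i) * Y i = 0 →
      ∀ i, Polynomial.C (p : ℤ) ∣ P i := by
    intro P hP i
    have h1 : ∑ i, aeval (coeffMap (Int.castRingHom k) J) ((P i).map (Int.castRingHom k)) *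
        coeffMap (Int.castRingHom k) (Y i) = 0 := by
      have := congrArg (coeffMap (Int.castRingHom k)) hP
      rw [_root_.map_sum, _root_.map_zero] at this
      rw [← this]
      refine Finset.sum_congr rfl fun i _ => ?_
      rw [_root_.map_mul, coeffMap_aeval]
    have h2 := h _ h1 i
    rw [Polynomial.C_dvd_iff_dvd_coeff]
    intro d
    have h3 := congrArg (fun q => q.coeff d) h2
    simp only [Polynomial.coeff_map, Polynomial.coeff_zero, eq_intCast] at h3
    exact (CharP.intCast_eq_zero_iff k p _).mp h3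
  rcases Nat.eq_zero_or_pos p with hp0 | hppos
  · intro P hP i
    obtain ⟨R, hR⟩ := hdvd P hP i
    rw [hR, hp0]
    simp
  · have hp2 : 2 ≤ p := by
      rcases (CharP.char_is_prime_or_zero k p) with h | h
      · exact h.two_le
      · omega
    -- all coefficients are divisible by every power of `p`
    have hpow : ∀ e : ℕ, ∀ P : Fin n → ℤ[X], ∑ i, aeval J (P i) * Y i = 0 →
        ∀ i d, (p : ℤ) ^ e ∣ (P i).coeff d := by
      intro e
      induction e with
      | zero => intro P _ i d; simp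
      | succ e ih =>
        intro P hP i d
        have hall := hdvd P hP
        choose R hR using hall
        have hRrel : ∑ i, aeval J (R i) * Y i = 0 := by
          have h1 : ((p : ℤ) : LaurentSeries ℤ) * ∑ i, aeval J (R i) * Y i = 0 := by
            rw [← hP, Finset.mul_sum]
            refine Finset.sum_congr rfl fun i _ => ?_
            rw [hR i, _root_.map_mul, Polynomial.aeval_C, mul_assoc]
            simp
          rcases mul_eq_zero.mp h1 with h2 | h2
          · exfalso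
            have h3 : ((p : ℤ) : LaurentSeries ℤ) ≠ 0 := by
              rw [← _root_.map_intCast (HahnSeries.C : ℤ →+* LaurentSeries ℤ)]
              intro h4
              have h5 : ((p : ℤ) : ℤ) = 0 :=
                HahnSeries.C_injective (h4.trans (_root_.map_zero _).symm)
              simp at h5
              omega
            exact h3 h2
          · exact h2
        have := ih R hRrel i d
        rw [hR i, Polynomial.coeff_C_mul, pow_succ, mul_comm]
        exact mul_dvd_mul_left _ this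
    intro P hP i
    ext d
    rw [Polynomial.coeff_zero]
    set a := (P i).coeff d with ha
    have h1 := hpow a.natAbs P hP i d
    refine Int.eq_zero_of_dvd_of_natAbs_lt_natAbs h1 ?_
    rw [Int.natAbs_pow, Int.natAbs_natCast]
    calc a.natAbs < 2 ^ a.natAbs := Nat.lt_two_pow_self
      _ ≤ p ^ a.natAbs := Nat.pow_le_pow_left hp2 _

end Integers

end Fermat.Agent.S28.H325

end
end
-- ===== PACK-END S28/H325/PolyIndep.lean

-- ===== PACK-BEGIN S28/H807/Conv.lean
section
/-
S28 / helper807 — pointwise convergent Laurent series: ring laws, `V_p`, sections.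
-/



set_option autoImplicit false
set_option maxHeartbeats 400000

noncomputable section

open ModularCurve HahnSeries

namespace Fermat.Agent.S28.H807

/-- The Laurent series `c` converges at the point `z` with sum `A`. -/
def HasLSum (c : LaurentSeries ℂ) (z A : ℂ) : Prop :=
  HasSum (fun n : ℤ => c.coeff n * z ^ n) A

theorem HasLSum.unique {c : LaurentSeries ℂ} {z A B : ℂ} (h1 : HasLSum c z A)
    (h2 : HasLSum c z B) : A = B :=
  HasSum.unique h1 h2

theorem hasLSum_zero (z : ℂ) : HasLSum 0 z 0 := by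
  unfold HasLSum
  simpa using (hasSum_zero : HasSum (fun _ : ℤ => (0 : ℂ)) 0)

theorem hasLSum_single (z : ℂ) (k : ℤ) (a : ℂ) :
    HasLSum (HahnSeries.single k a) z (a * z ^ k) := by
  unfold HasLSum
  have h := hasSum_sum_of_ne_finset_zero (f := fun n : ℤ => (HahnSeries.single k a).coeff n * z ^ n)
    (s := {k}) (L := SummationFilter.unconditional ℤ) (by
      intro b hb
      have hb' : b ≠ k := by simpa using hb
      simp [HahnSeries.coeff_single_of_ne hb'])
  simpa using h

theorem hasLSum_one (z : ℂ) : HasLSum 1 z 1 := by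
  have h := hasLSum_single z 0 1
  simpa using h

theorem hasLSum_C (z : ℂ) (a : ℂ) : HasLSum (HahnSeries.C a) z a := by
  have h := hasLSum_single z 0 a
  simpa using h

theorem HasLSum.add {c d : LaurentSeries ℂ} {z A B : ℂ} (h1 : HasLSum c z A)
    (h2 : HasLSum d z B) : HasLSum (c + d) z (A + B) := by
  unfold HasLSum at *
  have := HasSum.add h1 h2
  simpa [add_mul] using this

theorem HasLSum.neg {c : LaurentSeries ℂ} {z A : ℂ} (h1 : HasLSum c z A) :
    HasLSum (-c) z (-A) := by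
  unfold HasLSum at *
  have := HasSum.neg h1
  simpa using this

theorem HasLSum.sub {c d : LaurentSeries ℂ} {z A B : ℂ} (h1 : HasLSum c z A)
    (h2 : HasLSum d z B) : HasLSum (c - d) z (A - B) := by
  rw [sub_eq_add_neg, sub_eq_add_neg]
  exact h1.add h2.neg

/-- Cauchy product for pointwise convergent Laurent series. -/
theorem HasLSum.mul {c d : LaurentSeries ℂ} {z A B : ℂ} (hz : z ≠ 0) (h1 : HasLSum c z A)
    (h2 : HasLSum d z B) : HasLSum (c * d) z (A * B) := by
  unfold HasLSum at *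
  -- the double family is summable
  have hn1 : Summable (fun n : ℤ => ‖c.coeff n * z ^ n‖) := h1.summable.norm
  have hn2 : Summable (fun n : ℤ => ‖d.coeff n * z ^ n‖) := h2.summable.norm
  have hs : Summable (fun x : ℤ × ℤ => (c.coeff x.1 * z ^ x.1) * (d.coeff x.2 * z ^ x.2)) :=
    summable_mul_of_summable_norm (f := fun n : ℤ => c.coeff n * z ^ n)
      (g := fun n : ℤ => d.coeff n * z ^ n) hn1 hn2
  have hprod : HasSum (fun x : ℤ × ℤ => (c.coeff x.1 * z ^ x.1) * (d.coeff x.2 * z ^ x.2))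
      (A * B) := HasSum.mul (f := fun n : ℤ => c.coeff n * z ^ n)
      (g := fun n : ℤ => d.coeff n * z ^ n) h1 h2 hs
  -- reindex by (n, i) ↦ (i, n - i)
  let e : ℤ × ℤ ≃ ℤ × ℤ :=
    { toFun := fun x => (x.2, x.1 - x.2)
      invFun := fun x => (x.1 + x.2, x.1)
      left_inv := fun x => by simp
      right_inv := fun x => by simp }
  have hprod' : HasSum (fun x : ℤ × ℤ =>
      (c.coeff x.2 * z ^ x.2) * (d.coeff (x.1 - x.2) * z ^ (x.1 - x.2))) (A * B) := by
    have := (e.hasSum_iff (f := fun x : ℤ × ℤ =>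
      (c.coeff x.1 * z ^ x.1) * (d.coeff x.2 * z ^ x.2)) (a := A * B)).mpr hprod
    exact this
  refine HasSum.prod_fiberwise hprod' ?_
  intro n
  -- the fibre over `n` is a finite sum
  set s : Finset ℤ := (Finset.antidiagonal c.isPWO_support d.isPWO_support n).image Prod.fst
    with hs_def
  have hfib := hasSum_sum_of_ne_finset_zero
    (f := fun i : ℤ => (c.coeff i * z ^ i) * (d.coeff (n - i) * z ^ (n - i)))
    (s := s) (L := SummationFilter.unconditional ℤ) (by
      intro i hi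
      by_cases hci : c.coeff i = 0
      · simp [hci]
      by_cases hdi : d.coeff (n - i) = 0
      · simp [hdi]
      exfalso
      apply hi
      rw [hs_def, Finset.mem_image]
      refine ⟨(i, n - i), ?_, rfl⟩
      rw [Finset.mem_antidiagonal]
      exact ⟨hci, hdi, by ring⟩)
  convert hfib using 1
  rw [HahnSeries.coeff_mul, Finset.sum_mul, hs_def, Finset.sum_image]
  · apply Finset.sum_congr rfl
    intro x hx
    rw [Finset.mem_antidiagonal] at hx
    obtain ⟨_, _, hx3⟩ := hx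
    have hx2 : x.2 = n - x.1 := by linarith
    rw [← hx2]
    have hzn : z ^ n = z ^ x.1 * z ^ x.2 := by rw [← zpow_add₀ hz, hx3]
    rw [hzn]; ring
  · intro x hx y hy hxy
    rw [Finset.mem_coe, Finset.mem_antidiagonal] at hx hy
    apply Prod.ext hxy
    have h3 := hx.2.2
    have h4 := hy.2.2
    rw [hxy] at h3
    linarith

theorem HasLSum.pow {c : LaurentSeries ℂ} {z A : ℂ} (hz : z ≠ 0) (h1 : HasLSum c z A)
    (k : ℕ) : HasLSum (c ^ k) z (A ^ k) := by
  induction k with
  | zero => simpa using hasLSum_one z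
  | succ k ih => rw [pow_succ, pow_succ]; exact ih.mul hz h1

/-- Substitution `q ↦ q^p`. -/
theorem HasLSum.expand {c : LaurentSeries ℂ} {z A : ℂ} (p : ℕ) [NeZero p]
    (h : HasLSum c (z ^ p) A) : HasLSum (ModularCurve.qExpand ℂ p c) z A := by
  unfold HasLSum at *
  have hinj : Function.Injective (fun m : ℤ => (p : ℤ) * m) :=
    mul_right_injective₀ (by exact_mod_cast NeZero.ne p)
  refine (hinj.hasSum_iff (f := fun n : ℤ => (ModularCurve.qExpand ℂ p c).coeff n * z ^ n) ?_).mp ?_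
  · intro n hn
    have : ¬ (p : ℤ) ∣ n := by
      rintro ⟨m, rfl⟩
      exact hn ⟨m, rfl⟩
    simp [qExpand_coeff_of_not_dvd p c this]
  · convert h using 2 with m
    simp only [Function.comp_apply, qExpand_coeff_mul]
    congr 1
    rw [zpow_mul, zpow_natCast]

/-- Sections of a convergent series converge. -/
theorem HasLSum.summable_secL {c : LaurentSeries ℂ} {y A : ℂ} (p : ℕ) [NeZero p] (hy : y ≠ 0)
    (h : HasLSum c y A) (r : ℤ) :
    Summable (fun m : ℤ => (secL p r c).coeff m * (y ^ p) ^ m) := by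
  unfold HasLSum at h
  have hinj : Function.Injective (fun m : ℤ => (p : ℤ) * m + r) := by
    intro a b hab
    have : (p : ℤ) * a = (p : ℤ) * b := by simpa using hab
    exact mul_right_injective₀ (by exact_mod_cast NeZero.ne p) this
  have h1 : Summable ((fun n : ℤ => c.coeff n * y ^ n) ∘ fun m : ℤ => (p : ℤ) * m + r) :=
    h.summable.comp_injective hinj
  have h2 := h1.mul_left (y ^ (-r))
  refine h2.congr ?_
  intro m
  simp only [Function.comp_apply, secL_coeff]
  have : y ^ ((p : ℤ) * m + r) = (y ^ p) ^ m * y ^ r := by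
    rw [zpow_add₀ hy, zpow_mul, zpow_natCast]
  rw [this, zpow_neg]
  field_simp

/-- Value of the `r`-th section at `y^p`. -/
def secVal (p : ℕ) [NeZero p] (c : LaurentSeries ℂ) (y : ℂ) (r : ℤ) : ℂ :=
  ∑' m : ℤ, (secL p r c).coeff m * (y ^ p) ^ m

theorem HasLSum.hasLSum_secL {c : LaurentSeries ℂ} {y A : ℂ} (p : ℕ) [NeZero p] (hy : y ≠ 0)
    (h : HasLSum c y A) (r : ℤ) : HasLSum (secL p r c) (y ^ p) (secVal p c y r) :=
  (h.summable_secL p hy r).hasSum

/-- The section values only depend on `y^p`. -/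
theorem secVal_congr (p : ℕ) [NeZero p] (c : LaurentSeries ℂ) {y y' : ℂ} (h : y ^ p = y' ^ p)
    (r : ℤ) : secVal p c y r = secVal p c y' r := by
  unfold secVal
  rw [h]

/-- Regrouping by residues mod `p`: `A · yⁱ = ∑_{i'} y^{i'} · S_{i'-i}(y^p)`. -/
theorem HasLSum.regroup {c : LaurentSeries ℂ} {y A : ℂ} (p : ℕ) [NeZero p] (hy : y ≠ 0)
    (h : HasLSum c y A) (i : Fin p) :
    ∑ i' : Fin p, y ^ (i' : ℕ) * secVal p c y ((i' : ℤ) - (i : ℤ)) = A * y ^ (i : ℕ) := by
  have hp0 : (p : ℤ) ≠ 0 := by exact_mod_cast NeZero.ne p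
  -- the shifted family
  have h1 : HasSum (fun n : ℤ => c.coeff (n - i) * y ^ n) (A * y ^ (i : ℕ)) := by
    have h0 : HasSum (fun n : ℤ => c.coeff n * y ^ n * y ^ (i : ℕ)) (A * y ^ (i : ℕ)) :=
      HasSum.mul_right _ h
    have := ((Equiv.subRight ((i : ℕ) : ℤ)).hasSum_iff
      (f := fun n : ℤ => c.coeff n * y ^ n * y ^ (i : ℕ)) (a := A * y ^ (i : ℕ))).mpr h0
    refine this.congr_fun ?_
    intro n
    simp only [Function.comp_apply, Equiv.subRight_apply]
    have : y ^ n = y ^ (n - (i : ℕ)) * y ^ (i : ℕ) := by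
      rw [← zpow_natCast y (i : ℕ), ← zpow_add₀ hy]; congr 1; ring
    rw [this]; ring
  -- split `n = m * p + i'`
  have h2 : HasSum (fun x : ℤ × Fin p =>
      c.coeff (x.1 * (p : ℤ) + ((x.2 : ℕ) : ℤ) - (i : ℕ)) * y ^ (x.1 * (p : ℤ) + ((x.2 : ℕ) : ℤ)))
      (A * y ^ (i : ℕ)) := by
    have := ((Int.divModEquiv p).symm.hasSum_iff
      (f := fun n : ℤ => c.coeff (n - i) * y ^ n) (a := A * y ^ (i : ℕ))).mpr h1
    refine this.congr_fun ?_
    intro x
    simp only [Function.comp_apply, Int.divModEquiv_symm_apply]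
  have h3 : HasSum (fun m : ℤ => ∑ i' : Fin p,
      c.coeff (m * (p : ℤ) + ((i' : ℕ) : ℤ) - (i : ℕ)) * y ^ (m * (p : ℤ) + ((i' : ℕ) : ℤ)))
      (A * y ^ (i : ℕ)) := by
    refine HasSum.prod_fiberwise h2 ?_
    intro m
    exact hasSum_fintype _
  have h4 : ∀ i' : Fin p, HasSum (fun m : ℤ =>
      c.coeff (m * (p : ℤ) + ((i' : ℕ) : ℤ) - (i : ℕ)) * y ^ (m * (p : ℤ) + ((i' : ℕ) : ℤ)))
      (y ^ (i' : ℕ) * secVal p c y ((i' : ℤ) - (i : ℤ))) := by
    intro i'
    have h5 := (h.hasLSum_secL p hy ((i' : ℤ) - (i : ℤ)))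
    unfold HasLSum at h5
    have h6 := h5.mul_left (y ^ (i' : ℕ))
    refine h6.congr_fun ?_
    intro m
    simp only [secL_coeff]
    have e1 : m * (p : ℤ) + ((i' : ℕ) : ℤ) - ((i : ℕ) : ℤ)
        = (p : ℤ) * m + (((i' : ℕ) : ℤ) - ((i : ℕ) : ℤ)) := by ring
    have e2 : y ^ (m * (p : ℤ) + ((i' : ℕ) : ℤ)) = y ^ (i' : ℕ) * (y ^ p) ^ m := by
      rw [zpow_add₀ hy, zpow_natCast, mul_comm m, zpow_mul, zpow_natCast, mul_comm]
    rw [e1, e2]; ring
  have h7 := hasSum_sum (s := Finset.univ) (fun i' _ => h4 i')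
  exact (h7.unique h3)

end Fermat.Agent.S28.H807

end

end
-- ===== PACK-END S28/H807/Conv.lean

-- ===== PACK-BEGIN S18/H333/Series.lean
section



/-!
# S18 / c3 (helper333): the formal series `E₄`, `Δ`, their `V_p`-images and truncations
-/

set_option autoImplicit false

namespace Fermat.Agent.S18.H333

open PowerSeries ModularCurve Filter Topology
open scoped PowerSeries.WithPiTopology

/-- formal `E₄` -/
noncomputable def Ez : PowerSeries ℤ := eisenstein4

/-- formal `Δ = q ∏ (1 - q^n)^24` -/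
noncomputable def Dz : PowerSeries ℤ := X * etaProd ^ 24

theorem tl_etaProd (n : ℕ) : tl n etaProd = etaLrec n n := by
  rw [← tl_prod_range, tl_ext_iff]
  intro k hk
  have h1 : Tendsto (fun t : Finset ℕ => ∏ i ∈ t, ((1 : PowerSeries ℤ) - X ^ (i + 1)))
      atTop (𝓝 etaProd) :=
    (PowerSeries.WithPiTopology.multipliable_one_sub_X_pow ℤ).hasProd
  have h2 := ((PowerSeries.WithPiTopology.continuous_coeff ℤ k).tendsto _).comp h1
  rw [nhds_discrete, tendsto_pure] at h2
  obtain ⟨t, ht, htn⟩ := (h2.and (eventually_ge_atTop (Finset.range n))).exists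
  simp only [Function.comp_apply] at ht
  rw [← ht]
  have hsplit : ∏ i ∈ t, ((1 : PowerSeries ℤ) - X ^ (i + 1)) =
      (∏ i ∈ t \ Finset.range n, ((1 : PowerSeries ℤ) - X ^ (i + 1))) *
        ∏ i ∈ Finset.range n, ((1 : PowerSeries ℤ) - X ^ (i + 1)) :=
    (Finset.prod_sdiff htn).symm
  have h3 : tl n (∏ i ∈ t \ Finset.range n, ((1 : PowerSeries ℤ) - X ^ (i + 1))) = tl n 1 := by
    refine tl_prod_of_le n _ fun i hi => ?_
    have := (Finset.mem_sdiff.mp hi).2
    rw [Finset.mem_range] at this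
    omega
  have h4 := tl_mul_congr n h3 (rfl : tl n (∏ i ∈ Finset.range n,
    ((1 : PowerSeries ℤ) - X ^ (i + 1))) = _)
  rw [one_mul, ← hsplit] at h4
  exact ((tl_ext_iff n _ _).mp h4 k hk)

theorem tl_Ez (n : ℕ) : tl n Ez =
    (List.range n).map fun k : ℕ => if k = 0 then (1 : ℤ) else 240 * ∑ d ∈ k.divisors, (d : ℤ) ^ 3 := by
  refine List.map_congr_left fun k _ => ?_
  rw [Ez, eisenstein4, coeff_mk]

theorem tl_Dz (n : ℕ) : tl n Dz = tmul n (tX n) (tpow n (etaLrec n n) 24) := by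
  rw [Dz, tl_mul, tl_X, tl_pow, tl_etaProd]

theorem tl_Ez_17 : tl 17 Ez = [1, 240, 2160, 6720, 17520, 30240, 60480, 82560, 140400, 181680,
    272160, 319680, 490560, 527520, 743040, 846720, 1123440] := by
  rw [tl_Ez]; decide +kernel

theorem tl_Dz_17 : tl 17 Dz = [0, 1, -24, 252, -1472, 4830, -6048, -16744, 84480, -113643,
    -115920, 534612, -370944, -577738, 401856, 1217160, 987136] := by
  rw [tl_Dz]; decide +kernel

end Fermat.Agent.S18.H333

namespace Fermat.Agent.S18.H333

open PowerSeries ModularCurve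

/-! ### level 2 -/

/-- `E₄³ Δ Δ₂ - (Δ + 256 Δ₂)³`, `Δ₂ = Δ(q²)` -/
noncomputable def Phi2a : PowerSeries ℤ :=
  Ez ^ 3 * Dz * Vser 2 Dz - (Dz + (256 : ℤ) • Vser 2 Dz) ^ 3

/-- `E₄(q²)³ Δ Δ₂ - (Δ + 16 Δ₂)³` -/
noncomputable def Phi2b : PowerSeries ℤ :=
  Vser 2 Ez ^ 3 * Dz * Vser 2 Dz - (Dz + (16 : ℤ) • Vser 2 Dz) ^ 3

theorem tl_Ez_10 : tl 10 Ez = [1, 240, 2160, 6720, 17520, 30240, 60480, 82560, 140400, 181680] := by
  rw [tl_Ez]; decide +kernel

theorem tl_Dz_10 : tl 10 Dz = [0, 1, -24, 252, -1472, 4830, -6048, -16744, 84480, -113643] := by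
  rw [tl_Dz]; decide +kernel

theorem tl_Phi2a : tl 10 Phi2a = tzero 10 := by
  rw [Phi2a, tl_sub, tl_mul, tl_mul, tl_pow, tl_pow, tl_add, tl_smul, tl_Vser _ _ (by norm_num),
    tl_Dz_10, tl_Ez_10]
  decide +kernel

theorem tl_Phi2b : tl 10 Phi2b = tzero 10 := by
  rw [Phi2b, tl_sub, tl_mul, tl_mul, tl_pow, tl_pow, tl_add, tl_smul, tl_Vser _ _ (by norm_num),
    tl_Vser _ _ (by norm_num), tl_Dz_10, tl_Ez_10]
  decide +kernel

/-! ### level 3 -/

/-- `Δ² + 196830 Δ Δ₃ + 3^18 Δ₃²` -/
noncomputable def A3a : PowerSeries ℤ :=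
  Dz * Dz + (196830 : ℤ) • (Dz * Vser 3 Dz) + (387420489 : ℤ) • (Vser 3 Dz * Vser 3 Dz)

/-- `756 Δ + 19131876 Δ₃` -/
noncomputable def B3a : PowerSeries ℤ := (756 : ℤ) • Dz + (19131876 : ℤ) • Vser 3 Dz

/-- squared form of `(t₃+27)(t₃+243)³ = j t₃³` -/
noncomputable def Phi3a : PowerSeries ℤ :=
  A3a * A3a - (Dz * Vser 3 Dz) * ((Ez ^ 3 - B3a) * (Ez ^ 3 - B3a))

/-- `Δ² + 270 Δ Δ₃ + 729 Δ₃²` -/
noncomputable def A3b : PowerSeries ℤ :=
  Dz * Dz + (270 : ℤ) • (Dz * Vser 3 Dz) + (729 : ℤ) • (Vser 3 Dz * Vser 3 Dz)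

/-- `36 Δ + 756 Δ₃` -/
noncomputable def B3b : PowerSeries ℤ := (36 : ℤ) • Dz + (756 : ℤ) • Vser 3 Dz

/-- squared form of `(t₃+27)(t₃+3)³ = j(q³) t₃` -/
noncomputable def Phi3b : PowerSeries ℤ :=
  A3b * A3b - (Dz * Vser 3 Dz) * ((Vser 3 Ez ^ 3 - B3b) * (Vser 3 Ez ^ 3 - B3b))

theorem tl_Phi3a : tl 17 Phi3a = tzero 17 := by
  rw [Phi3a, A3a, B3a]
  simp only [tl_sub, tl_mul, tl_pow, tl_add, tl_smul, tl_Vser _ _ (show 0 < 3 by norm_num),
    tl_Dz_17, tl_Ez_17]
  decide +kernel

theorem tl_Phi3b : tl 17 Phi3b = tzero 17 := by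
  rw [Phi3b, A3b, B3b]
  simp only [tl_sub, tl_mul, tl_pow, tl_add, tl_smul, tl_Vser _ _ (show 0 < 3 by norm_num),
    tl_Dz_17, tl_Ez_17]
  decide +kernel

end Fermat.Agent.S18.H333

end
-- ===== PACK-END S18/H333/Series.lean

-- ===== PACK-BEGIN S18/Mod/H216/Parts.lean
section


/-!
# S18 / MOD-ASM (helper216): `Alg.GoodModel` split into six independent PARTS

`Alg.GoodModel Lc Ec Fc R V w x S` (Alg/Spec v4, on main) has 34 fields.  They are grouped here into six `Prop`-structures
with the SAME field names and the SAME field types, so that each group can be proved by a different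
owner, in any order:

| part | structure | fields |
|---|---|---|
| G-R   | `PartR Ec R w`        | `R_le R_total w_mem w_ne_zero w_inv_not_mem w_gen w_discrete residue_perfect` |
| G-FLD | `PartFld Lc Ec Fc x`  | `E_le_L E_le_F L_algebraic L_algClosed E_closed_in_F compositum x_mem x_transcendental finite` |
| G-V   | `PartV Fc R V w x`    | `V_le V_total R_le_V w_inv_not_mem_V V_gen x_mem_V gauss` |
| G-QEP | `PartQep Fc R V w x`  | `qep_fin qep_inf` |
| G-SEP | `PartSep R V w x`     | `separable` |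
| G-BR  | `PartBr Lc R x S`     | `S_mem S_distinct S_unit unramified` |

`goodModel_of_parts` assembles them (+ `CharZero Ω`); `GoodModel.partR` … project back.
Everything here is Mathlib-only (abstract field `Ω`).
-/

set_option autoImplicit false

namespace Fermat.Agent.S18.Mod.H216

open Fermat.Agent.S18.Alg

variable {Ω : Type*} [Field Ω]

/-- **G-R**: `R` is a discrete valuation ring of `Ec`, uniformiser `w`, perfect residue field. -/
structure PartR (Ec : Subfield Ω) (R : Subring Ω) (w : Ω) : Prop where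
  R_le : (R : Set Ω) ⊆ Ec
  R_total : ∀ e ∈ Ec, e ∈ R ∨ e⁻¹ ∈ R
  w_mem : w ∈ R
  w_ne_zero : w ≠ 0
  w_inv_not_mem : w⁻¹ ∉ R
  w_gen : ∀ r ∈ R, r⁻¹ ∉ R → r * w⁻¹ ∈ R
  w_discrete : ∀ r ∈ R, r ≠ 0 → ∃ n : ℕ, r * (w⁻¹) ^ n ∈ R ∧ (r * (w⁻¹) ^ n)⁻¹ ∈ R
  residue_perfect : ∃ p : ℕ, p.Prime ∧ (p : Ω) * w⁻¹ ∈ R ∧
    ∀ r ∈ R, ∃ s ∈ R, (r - s ^ p) * w⁻¹ ∈ R

/-- **G-FLD**: the fields `Ec ≤ Lc`, `Ec ≤ Fc`, and the coordinate `x`. -/
structure PartFld (Lc Ec Fc : Subfield Ω) (x : Ω) : Prop where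
  E_le_L : Ec ≤ Lc
  E_le_F : Ec ≤ Fc
  L_algebraic : ∀ a ∈ Lc, IsAlgebraic Ec a
  L_algClosed : IsAlgClosed Lc
  E_closed_in_F : ∀ f ∈ Fc, IsAlgebraic Ec f → f ∈ Ec
  compositum : Subfield.closure ((Fc : Set Ω) ∪ Lc) = ⊤
  x_mem : x ∈ Fc
  x_transcendental : Transcendental Lc x
  finite : ∃ s : Finset Ω, (s : Set Ω) ⊆ Fc ∧
    ∀ f ∈ Fc, f ∈ Submodule.span (ratField Ec x) (s : Set Ω)

/-- **G-V**: `V` is the Gauss valuation ring of `Fc`. -/
structure PartV (Fc : Subfield Ω) (R V : Subring Ω) (w x : Ω) : Prop where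
  V_le : (V : Set Ω) ⊆ Fc
  V_total : ∀ f ∈ Fc, f ∈ V ∨ f⁻¹ ∈ V
  R_le_V : R ≤ V
  w_inv_not_mem_V : w⁻¹ ∉ V
  V_gen : ∀ f ∈ V, f⁻¹ ∉ V → f * w⁻¹ ∈ V
  x_mem_V : x ∈ V
  gauss : ∀ P : Polynomial Ω, (∀ i, P.coeff i ∈ R) → (∃ i, P.coeff i ≠ 0 ∧ (P.coeff i)⁻¹ ∈ R) →
    (P.eval x)⁻¹ ∈ V

/-- **G-QEP**: the `q`-expansion principle on both charts. -/
structure PartQep (Fc : Subfield Ω) (R V : Subring Ω) (w x : Ω) : Prop where
  qep_fin : ∀ b ∈ chart Fc R x, b * w⁻¹ ∈ V → b * w⁻¹ ∈ chart Fc R x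
  qep_inf : ∀ b ∈ chart Fc R x⁻¹, b * w⁻¹ ∈ V → b * w⁻¹ ∈ chart Fc R x⁻¹

/-- **G-SEP**: the residue field of `V` is separable over `κ(x̄)`. -/
structure PartSep (R V : Subring Ω) (w x : Ω) : Prop where
  separable : ∀ f ∈ V, ∃ P : Polynomial Ω, (∀ i, P.coeff i ∈ polyRing R x) ∧
    P.eval f * w⁻¹ ∈ V ∧ (Polynomial.derivative P).eval f ≠ 0 ∧
    ((Polynomial.derivative P).eval f)⁻¹ ∈ V

/-- **G-BR**: the branch values. -/
structure PartBr (Lc : Subfield Ω) (R : Subring Ω) (x : Ω) (S : Finset Ω) : Prop where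
  S_mem : ∀ s ∈ S, s ∈ R
  S_distinct : ∀ s ∈ S, ∀ t ∈ S, s ≠ t → (s - t)⁻¹ ∈ R
  S_unit : ∀ s ∈ S, s ≠ 0 → s⁻¹ ∈ R
  unramified : ∀ O : ValuationSubring Ω, (∀ a ∈ Lc, a ∈ O) → ∀ c ∈ Lc, c ∉ S →
    x - c ∈ O → (x - c)⁻¹ ∉ O → ∀ t ∈ O, t⁻¹ ∉ O → t * (x - c)⁻¹ ∈ O

/-- **Assembly**: the six parts give a `GoodModel`. -/
theorem goodModel_of_parts {Lc Ec Fc : Subfield Ω} {R V : Subring Ω} {w x : Ω} {S : Finset Ω}
    (h0 : CharZero Ω) (hR : PartR Ec R w) (hF : PartFld Lc Ec Fc x) (hV : PartV Fc R V w x)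
    (hQ : PartQep Fc R V w x) (hS : PartSep R V w x) (hB : PartBr Lc R x S) :
    GoodModel Lc Ec Fc R V w x S where
  charZero := h0
  R_le := hR.R_le
  R_total := hR.R_total
  w_mem := hR.w_mem
  w_ne_zero := hR.w_ne_zero
  w_inv_not_mem := hR.w_inv_not_mem
  w_gen := hR.w_gen
  w_discrete := hR.w_discrete
  residue_perfect := hR.residue_perfect
  E_le_L := hF.E_le_L
  E_le_F := hF.E_le_F
  L_algebraic := hF.L_algebraic
  L_algClosed := hF.L_algClosed
  E_closed_in_F := hF.E_closed_in_F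
  compositum := hF.compositum
  x_mem := hF.x_mem
  x_transcendental := hF.x_transcendental
  finite := hF.finite
  V_le := hV.V_le
  V_total := hV.V_total
  R_le_V := hV.R_le_V
  w_inv_not_mem_V := hV.w_inv_not_mem_V
  V_gen := hV.V_gen
  x_mem_V := hV.x_mem_V
  gauss := hV.gauss
  qep_fin := hQ.qep_fin
  qep_inf := hQ.qep_inf
  separable := hS.separable
  S_mem := hB.S_mem
  S_distinct := hB.S_distinct
  S_unit := hB.S_unit
  unramified := hB.unramified

section Project

variable {Lc Ec Fc : Subfield Ω} {R V : Subring Ω} {w x : Ω} {S : Finset Ω}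

theorem partR_of_goodModel (h : GoodModel Lc Ec Fc R V w x S) : PartR Ec R w :=
  ⟨h.R_le, h.R_total, h.w_mem, h.w_ne_zero, h.w_inv_not_mem, h.w_gen, h.w_discrete,
    h.residue_perfect⟩

theorem partFld_of_goodModel (h : GoodModel Lc Ec Fc R V w x S) : PartFld Lc Ec Fc x :=
  ⟨h.E_le_L, h.E_le_F, h.L_algebraic, h.L_algClosed, h.E_closed_in_F, h.compositum, h.x_mem,
    h.x_transcendental, h.finite⟩

theorem partV_of_goodModel (h : GoodModel Lc Ec Fc R V w x S) : PartV Fc R V w x :=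
  ⟨h.V_le, h.V_total, h.R_le_V, h.w_inv_not_mem_V, h.V_gen, h.x_mem_V, h.gauss⟩

theorem partQep_of_goodModel (h : GoodModel Lc Ec Fc R V w x S) : PartQep Fc R V w x :=
  ⟨h.qep_fin, h.qep_inf⟩

theorem partSep_of_goodModel (h : GoodModel Lc Ec Fc R V w x S) : PartSep R V w x :=
  ⟨h.separable⟩

theorem partBr_of_goodModel (h : GoodModel Lc Ec Fc R V w x S) : PartBr Lc R x S :=
  ⟨h.S_mem, h.S_distinct, h.S_unit, h.unramified⟩

end Project

end Fermat.Agent.S18.Mod.H216

end
-- ===== PACK-END S18/Mod/H216/Parts.lean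

-- ===== PACK-BEGIN S18/H264/SepModular.lean
section



/-!
# S18 / G-SEP at the modular function field (helper264)

Prelude-level consequences of `SepLaurent.lean`, for a perfect field `k` of characteristic `p`
(no hypothesis on the level `N`, not even `NeZero N`):

* `order_jqModC` : `ord_q (j̄) = -1`;
* `isSeparable_laurent_jqModC` : every `y ∈ k((q))` algebraic over `k(j̄)` is separable over it;
* `isSeparable_full` : every `y ∈ F_k = modularFunctionFieldFullC k N` algebraic over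
  `k(j̄) ⊆ F_k` is separable over `k(j̄)`;
* `algebra_isSeparable_full` : if `F_k` is algebraic (e.g. finite: Sq05 `ModFiniteStatement`)
  over `k(j̄)`, then `F_k / k(j̄)` is separable;
* `exists_bivariate_simple_root_jqModC` : liftable form, `∃ P ∈ k[X][Y]`, `P(j̄, y) = 0`,
  `(∂P/∂Y)(j̄, y) ≠ 0`.
-/

set_option autoImplicit false

noncomputable section

namespace Fermat.Agent.S18.H264

open ModularCurve IntermediateField Polynomial

section Order

variable (k : Type*) [Field k]

/-- The `q`-order of `j̄ = q⁻¹ + 744 + …` is `-1`. -/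
theorem order_jqModC : (jqModC k).order = -1 := by
  have hne : jqModC k ≠ 0 := jqModC_ne_zero_of_nontrivial k
  apply le_antisymm
  · apply HahnSeries.order_le_of_coeff_ne_zero
    rw [coeff_jqModC_neg_one]
    exact one_ne_zero
  · rw [HahnSeries.le_order_iff_forall hne]
    intro j hj
    exact coeff_jqModC_of_lt k hj

end Order

section Sep

variable (k : Type*) [Field k] [PerfectField k] (p : ℕ) [hp : Fact p.Prime] [CharP k p]

include hp in
/-- Every Laurent series algebraic over `k(j̄)` is separable over `k(j̄)`. -/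
theorem isSeparable_laurent_jqModC (y : LaurentSeries k)
    (hy : IsAlgebraic (IntermediateField.adjoin k {jqModC k}) y) :
    IsSeparable (IntermediateField.adjoin k {jqModC k}) y :=
  isSeparable_laurent_of_order_eq_neg_one p (jqModC k) y (order_jqModC k) hy

include hp in
/-- Liftable form: `∃ P ∈ k[X][Y]` with `P(j̄, y) = 0` and `(∂P/∂Y)(j̄, y) ≠ 0`. -/
theorem exists_bivariate_simple_root_jqModC (y : LaurentSeries k)
    (hy : IsAlgebraic (IntermediateField.adjoin k {jqModC k}) y) :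
    ∃ P : Polynomial (Polynomial k),
      P.eval₂ (aeval (jqModC k) : Polynomial k →ₐ[k] LaurentSeries k).toRingHom y = 0 ∧
      (derivative P).eval₂
        (aeval (jqModC k) : Polynomial k →ₐ[k] LaurentSeries k).toRingHom y ≠ 0 :=
  exists_bivariate_simple_root (jqModC k) y (isSeparable_laurent_jqModC k p y hy)

variable (N : ℕ)

include hp in
/-- Inside `F_k = modularFunctionFieldFullC k N`: every element algebraic over `k(j̄)` is
separable over `k(j̄)`.  (The element `⟨jqModC k, _⟩` is `Sq05.jC k N` unfolded.) -/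
theorem isSeparable_full (y : modularFunctionFieldFullC k N)
    (hy : IsAlgebraic
      (IntermediateField.adjoin k
        {(⟨jqModC k, jqModC_mem_full k N⟩ : modularFunctionFieldFullC k N)}) y) :
    IsSeparable
      (IntermediateField.adjoin k
        {(⟨jqModC k, jqModC_mem_full k N⟩ : modularFunctionFieldFullC k N)}) y := by
  refine isSeparable_of_isAlgebraic_of_addVal p
    ((HahnSeries.addVal ℤ k).comap (algebraMap (modularFunctionFieldFullC k N) (LaurentSeries k)))
    (⟨jqModC k, jqModC_mem_full k N⟩ : modularFunctionFieldFullC k N) (-1) ?_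
    (not_prime_dvd_neg_one p hp.out) y hy
  have h : (HahnSeries.addVal ℤ k) (jqModC k) = (((jqModC k).order : ℤ) : WithTop ℤ) :=
    HahnSeries.addVal_apply_of_ne (jqModC_ne_zero_of_nontrivial k)
  rw [order_jqModC] at h
  exact h

include hp in
/-- If `F_k` is algebraic over `k(j̄)` (e.g. finite), then `F_k / k(j̄)` is separable. -/
theorem algebra_isSeparable_full
    [Algebra.IsAlgebraic
      (IntermediateField.adjoin k
        {(⟨jqModC k, jqModC_mem_full k N⟩ : modularFunctionFieldFullC k N)})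
      (modularFunctionFieldFullC k N)] :
    Algebra.IsSeparable
      (IntermediateField.adjoin k
        {(⟨jqModC k, jqModC_mem_full k N⟩ : modularFunctionFieldFullC k N)})
      (modularFunctionFieldFullC k N) :=
  ⟨fun y => isSeparable_full k p N y (Algebra.IsAlgebraic.isAlgebraic y)⟩

end Sep

end Fermat.Agent.S18.H264

end
end
-- ===== PACK-END S18/H264/SepModular.lean

-- ===== PACK-BEGIN S18/H438/Front/Gauss.lean
section



/-!
# S18 / ALG-FRONT (helper438), part 2: the chart and the Gauss valuation ring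

Setting: `F` a field, `R : Subring F`, `z : F`, `B := chartRing R z` (integral closure of `R[z]`),
`V : ValuationSubring F` ("Gauss valuation ring") and `w ∈ R` with

* `hRV : ∀ r ∈ R, r ∈ V`, `hzV : z ∈ V`,
* `hwV : w⁻¹ ∉ V`, `hVgen : ∀ f ∈ V, f⁻¹ ∉ V → f * w⁻¹ ∈ V`   (`𝔪_V = w V`),
* `qep : ∀ b ∈ B, b * w⁻¹ ∈ V → b * w⁻¹ ∈ B`                  (`q`-expansion principle).

Results:

* `chartRing_le_valuationSubring` : `B ⊆ V`;
* `prime_chartUnif`               : `ϖ := w` is a prime element of `B`;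
* `exists_fraction_of_mem_valuationSubring` : `V = B_(ϖ)`: every `v ∈ V` is `b / t`, `t ∉ ϖ B`;
* `oneModPi_of_sub_one_mem`       : `(u - 1) / w ∈ V` ⟹ `H754.OneModPi ϖ u`.
-/

set_option autoImplicit false
set_option linter.style.haveILetI false
set_option linter.unusedSectionVars false

noncomputable section

namespace Fermat.Agent.S18.H438

open Polynomial

variable {F : Type*} [Field F] (R : Subring F) (z : F) (V : ValuationSubring F)

/-- `R[z] ⊆ V` as soon as `R ⊆ V` and `z ∈ V`. -/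
theorem baseRing_le_valuationSubring (hRV : ∀ r ∈ R, r ∈ V) (hzV : z ∈ V) {f : F}
    (hf : f ∈ baseRing R z) : f ∈ V := by
  obtain ⟨P, rfl⟩ := exists_aeval_eq_of_mem_baseRing R z hf
  rw [Polynomial.aeval_eq_sum_range]
  refine V.toSubring.sum_mem fun i _ => ?_
  rw [Algebra.smul_def]
  exact mul_mem (hRV _ (P.coeff i).2) (pow_mem hzV i)

/-- An element integral over a subring contained in `V` lies in `V`. -/
theorem mem_valuationSubring_of_isIntegral {A : Type*} [CommRing A] [Algebra A F]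
    (hA : ∀ a : A, algebraMap A F a ∈ V) {f : F} (hf : IsIntegral A f) : f ∈ V := by
  -- transport integrality to `V`
  let i : A →+* V := (algebraMap A F).codRestrict V.toSubring hA
  have hi : (algebraMap V F).comp i = algebraMap A F := by
    ext a; rfl
  have hint : IsIntegral V f := by
    obtain ⟨p, hp, hpf⟩ := hf
    refine ⟨p.map i, hp.map i, ?_⟩
    rw [Polynomial.eval₂_map, hi]
    exact hpf
  obtain ⟨y, hy⟩ := (IsIntegrallyClosed.isIntegral_iff (R := V) (K := F)).1 hint
  rw [← hy]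
  exact y.2

/-- The chart is contained in the Gauss valuation ring. -/
theorem chartRing_le_valuationSubring (hRV : ∀ r ∈ R, r ∈ V) (hzV : z ∈ V) {f : F}
    (hf : f ∈ chartRing R z) : f ∈ V :=
  mem_valuationSubring_of_isIntegral V
    (fun a => baseRing_le_valuationSubring R z V hRV hzV a.2) hf

variable {R z V}

/-- the uniformiser as an element of the chart -/
def chartUnif {w : F} (hwR : w ∈ R) : chartRing R z :=
  algebraMap (baseRing R z) (chartRing R z) ⟨w, coe_mem_baseRing R z ⟨w, hwR⟩⟩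

@[simp] theorem coe_chartUnif {w : F} (hwR : w ∈ R) :
    ((chartUnif (z := z) hwR : chartRing R z) : F) = w := rfl

theorem algebraMap_chartUnif {w : F} (hwR : w ∈ R) :
    algebraMap (chartRing R z) F (chartUnif (z := z) hwR) = w := rfl

/-- divisibility by `ϖ` in the chart, elementwise -/
theorem chartUnif_dvd_iff {w : F} (hwR : w ∈ R) (hw0 : w ≠ 0) (b : chartRing R z) :
    chartUnif (z := z) hwR ∣ b ↔ (b : F) * w⁻¹ ∈ chartRing R z := by
  constructor
  · rintro ⟨c, rfl⟩
    have : ((chartUnif (z := z) hwR * c : chartRing R z) : F) * w⁻¹ = (c : F) := by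
      rw [MulMemClass.coe_mul, coe_chartUnif]
      field_simp
    rw [this]
    exact c.2
  · intro h
    refine ⟨⟨(b : F) * w⁻¹, h⟩, Subtype.ext ?_⟩
    rw [MulMemClass.coe_mul, coe_chartUnif]
    field_simp

section Prime

variable {w : F} (hwR : w ∈ R) (hw0 : w ≠ 0) (hRV : ∀ r ∈ R, r ∈ V) (hzV : z ∈ V)
  (hwV : w⁻¹ ∉ V) (hVgen : ∀ f ∈ V, f⁻¹ ∉ V → f * w⁻¹ ∈ V)
  (qep : ∀ b ∈ chartRing R z, b * w⁻¹ ∈ V → b * w⁻¹ ∈ chartRing R z)

include hw0 hRV hzV hwV hVgen qep

/-- In `V`, an element which is not a unit is divisible by `w`; in particular for `a b ∈ V` with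
`a * b ∈ w V` one of them is in `w V`. -/
theorem mem_smul_of_mul_mem {a b : F} (ha : a ∈ V) (hb : b ∈ V) (hab : a * b * w⁻¹ ∈ V) :
    a * w⁻¹ ∈ V ∨ b * w⁻¹ ∈ V := by
  by_cases ha0 : a = 0
  · left; rw [ha0, zero_mul]; exact V.zero_mem
  by_cases hb0 : b = 0
  · right; rw [hb0, zero_mul]; exact V.zero_mem
  by_cases hau : a⁻¹ ∈ V
  · -- `a` is a unit of `V`
    right
    have : b * w⁻¹ = a⁻¹ * (a * b * w⁻¹) := by field_simp
    rw [this]
    exact mul_mem hau hab
  · left
    exact hVgen a ha hau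

/-- **`ϖ` is a prime element of the chart.** -/
theorem prime_chartUnif : Prime (chartUnif (z := z) hwR) := by
  refine ⟨?_, ?_, ?_⟩
  · intro h
    exact hw0 (congrArg Subtype.val h)
  · rintro ⟨⟨u, v, huv, hvu⟩, hu⟩
    have hv : (v : F) = w⁻¹ := by
      have h1 : (u : F) * (v : F) = 1 := congrArg Subtype.val huv
      have h2 : (u : F) = w := by
        have h3 : u = chartUnif (z := z) hwR := hu
        rw [h3]; rfl
      rw [h2] at h1
      exact eq_inv_of_mul_eq_one_right h1
    exact hwV (hv ▸ chartRing_le_valuationSubring R z V hRV hzV v.2)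
  · intro a b hab
    rw [chartUnif_dvd_iff hwR hw0] at hab
    have haV := chartRing_le_valuationSubring R z V hRV hzV a.2
    have hbV := chartRing_le_valuationSubring R z V hRV hzV b.2
    have habV : (a : F) * (b : F) * w⁻¹ ∈ V := by
      have := chartRing_le_valuationSubring R z V hRV hzV hab
      simpa using this
    rcases mem_smul_of_mul_mem hw0 hRV hzV hwV hVgen qep haV hbV habV with h | h
    · left
      rw [chartUnif_dvd_iff hwR hw0]
      exact qep _ a.2 h
    · right
      rw [chartUnif_dvd_iff hwR hw0]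
      exact qep _ b.2 h

end Prime

section Fraction

variable {w : F} (hwR : w ∈ R) (hw0 : w ≠ 0) (hRV : ∀ r ∈ R, r ∈ V) (hzV : z ∈ V)
  (hwV : w⁻¹ ∉ V) (hVgen : ∀ f ∈ V, f⁻¹ ∉ V → f * w⁻¹ ∈ V)
  (qep : ∀ b ∈ chartRing R z, b * w⁻¹ ∈ V → b * w⁻¹ ∈ chartRing R z)
  [IsFractionRing (chartRing R z) F] [IsNoetherianRing (chartRing R z)]

include hw0 hRV hzV hwV hVgen qep

/-- **`V = B_(ϖ)`.**  Every element of the Gauss valuation ring is a fraction `b / t` of elements
of the chart with `ϖ ∤ t`. -/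
theorem exists_fraction_of_mem_valuationSubring {v : F} (hv : v ∈ V) :
    ∃ b t : chartRing R z, ¬ chartUnif (z := z) hwR ∣ t ∧ v * (t : F) = (b : F) := by
  have hprime := prime_chartUnif hwR hw0 hRV hzV hwV hVgen qep
  obtain ⟨b₀, t₀, ht₀, hbt⟩ := IsFractionRing.div_surjective (A := chartRing R z) v
  have ht₀0 : t₀ ≠ 0 := nonZeroDivisors.ne_zero ht₀
  obtain ⟨n, t, hnt, rfl⟩ := WfDvdMonoid.max_power_factor ht₀0 hprime.irreducible
  -- `v * (ϖ ^ n * t) = b₀`
  have hv0 : v * ((chartUnif (z := z) hwR ^ n * t : chartRing R z) : F) = (b₀ : F) := by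
    have hne : algebraMap (chartRing R z) F (chartUnif (z := z) hwR ^ n * t) ≠ 0 := by
      intro h
      exact ht₀0 ((FaithfulSMul.algebraMap_injective (chartRing R z) F) (by rw [h, _root_.map_zero]))
    rw [← hbt]
    exact div_mul_cancel₀ _ hne
  -- strip the powers of `ϖ`
  have key : ∀ (n : ℕ) (b : chartRing R z),
      v * ((chartUnif (z := z) hwR ^ n * t : chartRing R z) : F) = (b : F) →
      ∃ b' : chartRing R z, v * (t : F) = (b' : F) := by
    intro n
    induction n with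
    | zero => intro b hb; exact ⟨b, by simpa using hb⟩
    | succ n ih =>
      intro b hb
      -- `b / w = v * ϖ ^ n * t ∈ V`
      have hbw : (b : F) * w⁻¹ = v * ((chartUnif (z := z) hwR ^ n * t : chartRing R z) : F) := by
        rw [← hb]
        simp only [MulMemClass.coe_mul, SubmonoidClass.coe_pow, coe_chartUnif, pow_succ]
        field_simp
      have hmemV : (b : F) * w⁻¹ ∈ V := by
        rw [hbw]
        exact mul_mem hv (chartRing_le_valuationSubring R z V hRV hzV (Subtype.mem _))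
      have hmemB := qep _ b.2 hmemV
      exact ih ⟨(b : F) * w⁻¹, hmemB⟩ hbw.symm
  obtain ⟨b', hb'⟩ := key n b₀ hv0
  exact ⟨b', t, hnt, hb'⟩

/-- **`OneModPi`**: if `(u - 1) / w ∈ V` then `u = a / s` with `a ≡ s mod ϖ`, `ϖ ∤ s`
(the hypothesis shape of the Kummer pieces `H754`). -/
theorem oneModPi_of_sub_one_mem {u : F} (hu : (u - 1) * w⁻¹ ∈ V) :
    H754.OneModPi (chartUnif (z := z) hwR) u := by
  obtain ⟨b, t, ht, hbt⟩ :=
    exists_fraction_of_mem_valuationSubring hwR hw0 hRV hzV hwV hVgen qep hu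
  refine ⟨t + chartUnif (z := z) hwR * b, t, ?_, ?_, ?_⟩
  · rw [Ideal.mem_span_singleton]; exact ht
  · rw [Ideal.mem_span_singleton]
    exact ⟨b, by ring⟩
  · show u * (t : F) = ((t + chartUnif (z := z) hwR * b : chartRing R z) : F)
    simp only [AddMemClass.coe_add, MulMemClass.coe_mul, coe_chartUnif, ← hbt]
    field_simp
    ring

end Fraction

end Fermat.Agent.S18.H438

end
end
-- ===== PACK-END S18/H438/Front/Gauss.lean

-- ===== PACK-BEGIN S18/H558/CechFG.lean
section




/-!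
# S18 / piece b5 (continued): `H¹` of the two-chart cover is finitely generated

`B = B_mid`, `x ∈ B` a unit with inverse `y`, `Bfin ∋ x` finitely generated as a module over
`A[x]`, `Binf ∋ y`, `B = Bfin[1/x]`, and every generator of `Bfin` lies in `x ^ D • Binf`.
Then `B / (Bfin + Binf)` is a finitely generated `A`-module, hence (for noetherian `A`) its
`w`-power torsion is bounded, which is the hypothesis `hH1` of `cech_idempotent_trivial`.
-/

namespace Fermat.Agent.S18.H558

variable {A B : Type*} [CommRing A] [CommRing B] [Algebra A B]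

/-- The two charts together with finitely many explicit elements span `B` over `A`. -/
theorem cech_span_top {ι : Type*} [Finite ι] (x y : B) (hxy : x * y = 1)
    (Bfin Binf : Subalgebra A B) (hx : x ∈ Bfin) (hy : y ∈ Binf)
    (bs : ι → B) (hbs : ∀ i, bs i ∈ Bfin)
    (hgen : ∀ b ∈ Bfin, b ∈ Submodule.span A {z : B | ∃ (j : ℕ) (i : ι), z = x ^ j * bs i})
    (hloc : ∀ b : B, ∃ K : ℕ, x ^ K * b ∈ Bfin)
    (hinf : ∀ i, ∃ D : ℕ, y ^ D * bs i ∈ Binf) :
    ∃ G : Set B, G.Finite ∧
      Bfin.toSubmodule ⊔ Binf.toSubmodule ⊔ Submodule.span A G = ⊤ := by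
  classical
  cases nonempty_fintype ι
  choose Df hDf using hinf
  let D : ℕ := Finset.univ.sup Df
  have hD : ∀ i, Df i ≤ D := fun i => Finset.le_sup (f := Df) (Finset.mem_univ i)
  let G : Set B := (fun p : ι × ℕ => y ^ p.2 * bs p.1) '' ((Finset.univ ×ˢ Finset.range D : Finset (ι × ℕ)) : Set (ι × ℕ))
  refine ⟨G, (Finset.finite_toSet _).image _, ?_⟩
  set T : Submodule A B := Bfin.toSubmodule ⊔ Binf.toSubmodule ⊔ Submodule.span A G with hT
  have hfinT : ∀ b ∈ Bfin, b ∈ T := fun b hb =>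
    Submodule.mem_sup_left (Submodule.mem_sup_left hb)
  have hinfT : ∀ b ∈ Binf, b ∈ T := fun b hb =>
    Submodule.mem_sup_left (Submodule.mem_sup_right hb)
  have hGT : ∀ b ∈ G, b ∈ T := fun b hb =>
    Submodule.mem_sup_right (Submodule.subset_span hb)
  have hyx : ∀ n : ℕ, y ^ n * x ^ n = 1 := fun n => by
    rw [← mul_pow, mul_comm y x, hxy, one_pow]
  -- the monomials
  have hmono : ∀ (K j : ℕ) (i : ι), y ^ K * (x ^ j * bs i) ∈ T := by
    intro K j i
    rcases le_or_gt K j with hKj | hjK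
    · obtain ⟨d, rfl⟩ := Nat.exists_eq_add_of_le hKj
      have : y ^ K * (x ^ (K + d) * bs i) = x ^ d * bs i := by
        rw [pow_add, ← mul_assoc, ← mul_assoc, hyx, one_mul]
      rw [this]
      exact hfinT _ (Bfin.mul_mem (Bfin.pow_mem hx d) (hbs i))
    · obtain ⟨k, rfl⟩ := Nat.exists_eq_add_of_le hjK.le
      have : y ^ (j + k) * (x ^ j * bs i) = y ^ k * bs i := by
        rw [pow_add, mul_comm (y ^ j) (y ^ k), mul_assoc, ← mul_assoc (y ^ j), hyx, one_mul]
      rw [this]
      rcases le_or_gt (Df i) k with hDk | hkD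
      · obtain ⟨d, rfl⟩ := Nat.exists_eq_add_of_le hDk
        have : y ^ (Df i + d) * bs i = y ^ d * (y ^ Df i * bs i) := by
          rw [pow_add]; ring
        rw [this]
        exact hinfT _ (Binf.mul_mem (Binf.pow_mem hy d) (hDf i))
      · apply hGT
        refine ⟨(i, k), ?_, rfl⟩
        simp only [Finset.coe_product, Finset.coe_univ, Finset.coe_range, Set.mem_prod,
          Set.mem_univ, Set.mem_Iio, true_and]
        exact lt_of_lt_of_le hkD (hD i)
  rw [eq_top_iff]
  rintro b -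
  obtain ⟨K, hK⟩ := hloc b
  have hb : b = y ^ K * (x ^ K * b) := by rw [← mul_assoc, hyx, one_mul]
  rw [hb]
  have hspan := hgen _ hK
  refine Submodule.span_induction (p := fun z _ => y ^ K * z ∈ T) ?_ ?_ ?_ ?_ hspan
  · rintro z ⟨j, i, rfl⟩
    exact hmono K j i
  · simp
  · intro u v _ _ hu hv
    rw [mul_add]
    exact T.add_mem hu hv
  · intro a u _ hu
    rw [mul_smul_comm]
    exact T.smul_mem a hu

/-- Bounded `w`-power torsion of `B / (Bfin + Binf)` from finite generation, for noetherian `A`. -/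
theorem cech_h1_bound [IsNoetherianRing A] (w : A) (Bfin Binf : Subalgebra A B)
    (G : Set B) (hG : G.Finite)
    (htop : Bfin.toSubmodule ⊔ Binf.toSubmodule ⊔ Submodule.span A G = ⊤) :
    ∃ c : ℕ, ∀ (n : ℕ) (h : B),
      algebraMap A B w ^ n * h ∈ Bfin.toSubmodule ⊔ Binf.toSubmodule →
      algebraMap A B w ^ c * h ∈ Bfin.toSubmodule ⊔ Binf.toSubmodule := by
  set S : Submodule A B := Bfin.toSubmodule ⊔ Binf.toSubmodule with hS
  have hfinG : Module.Finite A (Submodule.span A G) := Module.Finite.span_of_finite A hG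
  let φ : Submodule.span A G →ₗ[A] B ⧸ S := S.mkQ.comp (Submodule.span A G).subtype
  have hφ : Function.Surjective φ := by
    intro m
    obtain ⟨b, rfl⟩ := S.mkQ_surjective m
    have hb : b ∈ S ⊔ Submodule.span A G := by rw [htop]; trivial
    obtain ⟨s, hs, g, hg, rfl⟩ := Submodule.mem_sup.1 hb
    refine ⟨⟨g, hg⟩, ?_⟩
    change S.mkQ g = S.mkQ (s + g)
    have hs0 : S.mkQ s = 0 := (Submodule.Quotient.mk_eq_zero S).2 hs
    rw [map_add, hs0, zero_add]
  have hfinQ : Module.Finite A (B ⧸ S) := Module.Finite.of_surjective φ hφ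
  obtain ⟨c, hc⟩ := exists_torsion_bound (A := A) (M := B ⧸ S) w
  refine ⟨c, fun n h hn => ?_⟩
  have e : ∀ k : ℕ, algebraMap A B w ^ k * h = w ^ k • h := fun k => by
    rw [Algebra.smul_def, map_pow]
  rw [e] at hn ⊢
  have h1 : w ^ n • (S.mkQ h) = 0 := by
    rw [← map_smul]
    exact (Submodule.Quotient.mk_eq_zero S).2 hn
  have h2 := hc n _ h1
  rw [← map_smul] at h2
  exact (Submodule.Quotient.mk_eq_zero S).1 h2

/-- **Connectedness of the two-chart model (piece b5).**  Packaged form: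
noetherian base `A`, `(w)` prime in `A`, two charts `Bfin ∋ x`, `Binf ∋ x⁻¹` of `B = Bfin[1/x]`
with `Bfin` finite over `A[x]`, `Bfin ∩ Binf = A` and `A / w → Bfin / w` injective.  Then every
compatible pair of idempotents modulo `w` on the two charts is `(0, 0)` or `(1, 1)`. -/
theorem cech_connected [IsNoetherianRing A] {ι : Type*} [Finite ι] (w : A) (x y : B)
    (hxy : x * y = 1) (Bfin Binf : Subalgebra A B) (hx : x ∈ Bfin) (hy : y ∈ Binf)
    (bs : ι → B) (hbs : ∀ i, bs i ∈ Bfin)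
    (hgen : ∀ b ∈ Bfin, b ∈ Submodule.span A {z : B | ∃ (j : ℕ) (i : ι), z = x ^ j * bs i})
    (hloc : ∀ b : B, ∃ K : ℕ, x ^ K * b ∈ Bfin)
    (hinf : ∀ i, ∃ D : ℕ, y ^ D * bs i ∈ Binf)
    (hH0 : ∀ b : B, b ∈ Bfin → b ∈ Binf → ∃ a : A, algebraMap A B a = b)
    (hinj : ∀ a : A, (∃ t ∈ Bfin, algebraMap A B a = algebraMap A B w * t) → w ∣ a)
    (hprime : ∀ a b : A, w ∣ a * b → w ∣ a ∨ w ∣ b)
    (e₁ e₂ : B) (he₁ : e₁ ∈ Bfin) (he₂ : e₂ ∈ Binf)
    (hi₁ : ∃ t ∈ Bfin, e₁ ^ 2 - e₁ = algebraMap A B w * t)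
    (hi₂ : ∃ t ∈ Binf, e₂ ^ 2 - e₂ = algebraMap A B w * t)
    (h₁₂ : ∃ t : B, e₁ - e₂ = algebraMap A B w * t) :
    ((∃ t ∈ Bfin, e₁ = algebraMap A B w * t) ∧ (∃ t ∈ Binf, e₂ = algebraMap A B w * t)) ∨
    ((∃ t ∈ Bfin, 1 - e₁ = algebraMap A B w * t) ∧ (∃ t ∈ Binf, 1 - e₂ = algebraMap A B w * t)) := by
  obtain ⟨G, hG, htop⟩ := cech_span_top x y hxy Bfin Binf hx hy bs hbs hgen hloc hinf
  obtain ⟨c, hc⟩ := cech_h1_bound w Bfin Binf G hG htop
  exact cech_idempotent_trivial w Bfin Binf c (fun h hh => hc (c + 1) h hh) hH0 hinj hprime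
    e₁ e₂ he₁ he₂ hi₁ hi₂ h₁₂

end Fermat.Agent.S18.H558

end
-- ===== PACK-END S18/H558/CechFG.lean

-- ===== PACK-BEGIN S18/H754/HncUnram.lean
section


/-!
# S18 / ALG-FRONT / hNC adapter: `(π)` is radical in the chart `B` when the generic fibre is
unramified over the zeros of `π`

* `isDiscreteValuationRing_atPrime_of_height_one`, `exists_dvd_or_dvd_of_height_one` (N3):
  `B_𝔓` is a valuation ring for a height-one prime `𝔓` of a Noetherian normal domain.
* `exists_valuationSubring_dominating` (N4): a valuation subring of `Ω ⊇ B` dominating `B_𝔓`.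
* `isRadical_span_of_unramified` (N5, main): see the statement.
-/

set_option autoImplicit false

noncomputable section

namespace Fermat.Agent.S18.H754

open IsLocalRing

section HeightOne

variable {B : Type*} [CommRing B] [IsDomain B] [IsNoetherianRing B] [IsIntegrallyClosed B]

/-- Localisation at a height-one prime of a Noetherian normal domain is a DVR. -/
theorem isDiscreteValuationRing_atPrime_of_height_one (𝔭 : Ideal B) [h𝔭 : 𝔭.IsPrime]
    (h : 𝔭.height = 1) : IsDiscreteValuationRing (Localization.AtPrime 𝔭) := by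
  set A := Localization.AtPrime 𝔭 with hA
  haveI : IsNoetherianRing A := IsLocalization.isNoetherianRing 𝔭.primeCompl A inferInstance
  haveI : IsIntegrallyClosed A :=
    isIntegrallyClosed_of_isLocalization A 𝔭.primeCompl 𝔭.primeCompl_le_nonZeroDivisors
  have h𝔭bot : 𝔭 ≠ ⊥ := Ideal.ne_bot_of_height_eq_one h
  have hmax : maximalIdeal A = 𝔭.map (algebraMap B A) :=
    (IsLocalization.AtPrime.map_eq_maximalIdeal 𝔭 A).symm
  have hinj : Function.Injective (algebraMap B A) :=
    IsLocalization.injective A 𝔭.primeCompl_le_nonZeroDivisors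
  have hnf : ¬ IsField A := by
    rw [isField_iff_maximalIdeal_eq]
    intro hbot
    obtain ⟨x, hx, hx0⟩ := Submodule.exists_mem_ne_zero_of_ne_bot h𝔭bot
    have hxmem : algebraMap B A x ∈ maximalIdeal A := by
      rw [hmax]; exact Ideal.mem_map_of_mem _ hx
    rw [hbot, Ideal.mem_bot] at hxmem
    exact hx0 (hinj (by rw [hxmem, map_zero]))
  have huniq : ∀ P : Ideal A, P ≠ ⊥ → P.IsPrime → P = maximalIdeal A := by
    intro P hP hPprime
    have hP' : (P.comap (algebraMap B A)).IsPrime := Ideal.comap_isPrime _ _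
    have hmapcomap : (P.comap (algebraMap B A)).map (algebraMap B A) = P :=
      IsLocalization.map_comap 𝔭.primeCompl A P
    have hle : P.comap (algebraMap B A) ≤ 𝔭 := by
      have hdisj : Disjoint (𝔭.primeCompl : Set B) (P.comap (algebraMap B A) : Set B) :=
        ((IsLocalization.isPrime_iff_isPrime_disjoint 𝔭.primeCompl A P).1 hPprime).2
      intro x hx
      by_contra hx𝔭
      exact Set.disjoint_left.1 hdisj hx𝔭 hx
    have hne : P.comap (algebraMap B A) ≠ ⊥ := by
      intro h0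
      apply hP
      rw [← hmapcomap, h0, Ideal.map_bot]
    have h1 : 𝔭.height ≤ (P.comap (algebraMap B A)).height := by
      rw [h]
      rw [Order.one_le_iff_pos, pos_iff_ne_zero]
      intro h0
      rw [Ideal.height_eq_zero_iff, IsDomain.minimalPrimes_eq_singleton_bot,
        Set.mem_singleton_iff] at h0
      exact hne h0
    have hfin : (P.comap (algebraMap B A)).FiniteHeight := by
      refine ⟨Or.inr ?_⟩
      intro htop
      have h2 := Ideal.height_mono hle
      rw [htop, h, top_le_iff] at h2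
      exact ENat.one_ne_top h2
    have heq : P.comap (algebraMap B A) = 𝔭 := by
      by_contra hne'
      have hlt : P.comap (algebraMap B A) < 𝔭 := lt_of_le_of_ne hle hne'
      have h3 := Ideal.height_strict_mono_of_isPrime hlt
      exact absurd (lt_of_lt_of_le h3 h1) (lt_irrefl _)
    calc P = (P.comap (algebraMap B A)).map (algebraMap B A) := hmapcomap.symm
      _ = 𝔭.map (algebraMap B A) := by rw [heq]
      _ = maximalIdeal A := hmax.symm
  have htfae := (IsDiscreteValuationRing.TFAE A hnf).out 0 3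
  rw [htfae]
  refine ⟨inferInstance, maximalIdeal A, ⟨?_, inferInstance⟩, ?_⟩
  · exact isField_iff_maximalIdeal_eq.not.1 hnf
  · rintro P ⟨hP, hPprime⟩
    exact huniq P hP hPprime

/-- `B_𝔓` is a valuation ring (elementwise). -/
theorem exists_dvd_or_dvd_of_height_one (𝔭 : Ideal B) [h𝔭 : 𝔭.IsPrime] (h : 𝔭.height = 1)
    (a c : B) : ∃ s : B, s ∉ 𝔭 ∧ (c ∣ s * a ∨ a ∣ s * c) := by
  haveI := isDiscreteValuationRing_atPrime_of_height_one 𝔭 h
  haveI : ValuationRing (Localization.AtPrime 𝔭) :=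
    ValuationRing.iff_local_bezout_domain.mpr ⟨inferInstance, inferInstance⟩
  have hinj : Function.Injective (algebraMap B (Localization.AtPrime 𝔭)) :=
    IsLocalization.injective _ 𝔭.primeCompl_le_nonZeroDivisors
  have key : ∀ a c : B, algebraMap B (Localization.AtPrime 𝔭) a ∣
      algebraMap B (Localization.AtPrime 𝔭) c → ∃ s : B, s ∉ 𝔭 ∧ a ∣ s * c := by
    intro a c ⟨r, hr⟩
    obtain ⟨r₁, ⟨s₁, hs₁⟩, rfl⟩ := IsLocalization.exists_mk'_eq 𝔭.primeCompl r
    refine ⟨s₁, hs₁, r₁, ?_⟩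
    apply hinj
    have h1 : IsLocalization.mk' (Localization.AtPrime 𝔭) r₁ ⟨s₁, hs₁⟩ *
        algebraMap B (Localization.AtPrime 𝔭) s₁ = algebraMap B (Localization.AtPrime 𝔭) r₁ :=
      IsLocalization.mk'_spec _ r₁ ⟨s₁, hs₁⟩
    rw [map_mul, map_mul, hr, ← h1]
    ring
  rcases ValuationRing.dvd_total (algebraMap B (Localization.AtPrime 𝔭) a)
      (algebraMap B (Localization.AtPrime 𝔭) c) with h1 | h1
  · obtain ⟨s, hs, hd⟩ := key a c h1
    exact ⟨s, hs, Or.inr hd⟩
  · obtain ⟨s, hs, hd⟩ := key c a h1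
    exact ⟨s, hs, Or.inl hd⟩

end HeightOne

section Dominate

variable {B : Type*} [CommRing B] [IsDomain B]
  {Ω : Type*} [Field Ω] [Algebra B Ω] [FaithfulSMul B Ω]

/-- A valuation subring of `Ω ⊇ B` dominating `B_𝔓`. -/
theorem exists_valuationSubring_dominating (𝔭 : Ideal B) [h𝔭 : 𝔭.IsPrime] :
    ∃ O : ValuationSubring Ω, (∀ b : B, algebraMap B Ω b ∈ O) ∧
      (∀ b : B, b ∉ 𝔭 → (algebraMap B Ω b)⁻¹ ∈ O) ∧
      (∀ b : B, b ∈ 𝔭 → b ≠ 0 → (algebraMap B Ω b)⁻¹ ∉ O) := by
  classical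
  have hinj : Function.Injective (algebraMap B Ω) := FaithfulSMul.algebraMap_injective B Ω
  have hunit : ∀ y : 𝔭.primeCompl, IsUnit (algebraMap B Ω y) := by
    intro y
    rw [isUnit_iff_ne_zero]
    intro h0
    have : (y : B) = 0 := hinj (by rw [h0, map_zero])
    exact y.2 (this ▸ 𝔭.zero_mem)
  let f : Localization.AtPrime 𝔭 →+* Ω := IsLocalization.lift hunit
  have hf : ∀ b : B, f (algebraMap B (Localization.AtPrime 𝔭) b) = algebraMap B Ω b :=
    fun b => IsLocalization.lift_eq hunit b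
  have hfinj : Function.Injective f := by
    rw [IsLocalization.lift_injective_iff]
    intro a b
    rw [(IsLocalization.injective (Localization.AtPrime 𝔭)
      𝔭.primeCompl_le_nonZeroDivisors).eq_iff, hinj.eq_iff]
  let A : LocalSubring Ω := LocalSubring.range f
  obtain ⟨O, hO⟩ := A.exists_le_valuationSubring
  obtain ⟨hle, hloc⟩ := hO
  have hAmem : ∀ r : Localization.AtPrime 𝔭, f r ∈ A.toSubring := fun r => ⟨r, rfl⟩
  have hOmem : ∀ r : Localization.AtPrime 𝔭, f r ∈ O := fun r => hle (hAmem r)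
  refine ⟨O, fun b => ?_, fun b hb => ?_, fun b hb hb0 hinv => ?_⟩
  · rw [← hf b]
    exact hOmem _
  · have h1 : f (IsLocalization.mk' (Localization.AtPrime 𝔭) 1 (⟨b, hb⟩ : 𝔭.primeCompl)) =
        (algebraMap B Ω b)⁻¹ := by
      have hb0 : algebraMap B Ω b ≠ 0 := (hunit ⟨b, hb⟩).ne_zero
      rw [IsLocalization.lift_mk'_spec, map_one]
      exact (mul_inv_cancel₀ hb0).symm
    rw [← h1]
    exact hOmem _
  · -- `algebraMap b` would be a unit of `O`, hence of `A`, hence of `B_𝔓`
    have hb' : algebraMap B Ω b ≠ 0 := fun h0 => hb0 (hinj (by rw [h0, map_zero]))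
    let xA : A.toSubring := ⟨algebraMap B Ω b, by rw [← hf b]; exact hAmem _⟩
    have hu : IsUnit (Subring.inclusion hle xA) := by
      rw [isUnit_iff_exists_inv]
      refine ⟨⟨(algebraMap B Ω b)⁻¹, hinv⟩, ?_⟩
      apply Subtype.ext
      change algebraMap B Ω b * (algebraMap B Ω b)⁻¹ = 1
      exact mul_inv_cancel₀ hb'
    have hu' : IsUnit xA := hloc.map_nonunit xA hu
    obtain ⟨⟨y, r, hr⟩, hy⟩ := isUnit_iff_exists_inv.1 hu'
    have h2 : algebraMap B Ω b * f r = 1 := by
      have := congrArg Subtype.val hy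
      simpa [xA, ← hr] using this
    have h3 : f (algebraMap B (Localization.AtPrime 𝔭) b * r) = f 1 := by
      rw [map_mul, hf, h2, map_one]
    have h4 : algebraMap B (Localization.AtPrime 𝔭) b * r = 1 := hfinj h3
    have h5 : IsUnit (algebraMap B (Localization.AtPrime 𝔭) b) :=
      IsUnit.of_mul_eq_one _ h4
    have h6 := (IsLocalization.AtPrime.isUnit_to_map_iff (Localization.AtPrime 𝔭) 𝔭 b).1 h5
    exact h6 hb

end Dominate

end Fermat.Agent.S18.H754

end

end
-- ===== PACK-END S18/H754/HncUnram.lean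

-- ===== PACK-BEGIN S18/H498/CechFinite.lean
section



/-!
# S18, piece b5 (continued): the torsion bound and finiteness of `C / (B₁ + B₂)`

* `exists_torsion_bound`: in a finite module over a noetherian ring, the `ϖ`-power torsion is
  killed by a fixed power `ϖ ^ c`.
* `finite_cech_quotient`: if `C = B₁[1/x]`, `B₁ ⊆ B₂[x]`, `x⁻¹ ∈ B₂` and `B₁` is a finite
  `R[x]`-module, then `C / (B₁ + B₂)` is a finite `R`-module (this is "H¹ of a projective curve
  over `R` is finite", by hand).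
* `idem_trivial_of_cech_finite`: the connectedness statement with these inputs.
-/

set_option autoImplicit false
set_option linter.style.haveILetI false

namespace Fermat.Agent.S18.H498

section Torsion

variable {R M : Type*} [CommRing R] [IsNoetherianRing R] [AddCommGroup M] [Module R M]
  [Module.Finite R M]

theorem exists_torsion_bound (ϖ : R) :
    ∃ c : ℕ, ∀ (n : ℕ) (m : M), ϖ ^ n • m = 0 → ϖ ^ c • m = 0 := by
  haveI : IsNoetherian R M := isNoetherian_of_isNoetherianRing_of_finite R M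
  let T : ℕ →o Submodule R M :=
    { toFun := fun n => LinearMap.ker (LinearMap.lsmul R M (ϖ ^ n))
      monotone' := by
        intro a b hab m hm
        simp only [LinearMap.mem_ker, LinearMap.lsmul_apply] at hm ⊢
        obtain ⟨k, rfl⟩ := Nat.exists_eq_add_of_le hab
        rw [pow_add, mul_comm, mul_smul, hm, smul_zero] }
  obtain ⟨c, hc⟩ := monotone_stabilizes_iff_noetherian.mpr ‹IsNoetherian R M› T
  have hT : ∀ (n : ℕ) (m : M), m ∈ T n ↔ ϖ ^ n • m = 0 := by
    intro n m
    change m ∈ LinearMap.ker (LinearMap.lsmul R M (ϖ ^ n)) ↔ _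
    rw [LinearMap.mem_ker, LinearMap.lsmul_apply]
  refine ⟨c, fun n m hm => ?_⟩
  rcases le_total c n with h | h
  · have hmem : m ∈ T n := (hT n m).mpr hm
    rw [← hc n h] at hmem
    exact (hT c m).mp hmem
  · obtain ⟨k, rfl⟩ := Nat.exists_eq_add_of_le h
    rw [pow_add, mul_comm, mul_smul, hm, smul_zero]

end Torsion

section Finite

variable {R C : Type*} [CommRing R] [CommRing C] [Algebra R C]

/-- Finiteness of the Čech `H¹` for two charts glued along `x ↦ x⁻¹`. -/
theorem finite_cech_quotient (B₁ B₂ : Subalgebra R C) (x x' : C) (hx : x ∈ B₁) (hx' : x' ∈ B₂)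
    (hxx' : x * x' = 1)
    (ι : Type*) [Finite ι] (g : ι → C) (hg : ∀ i, g i ∈ B₁)
    (hgen : ∀ b ∈ B₁, ∃ P : ι → Polynomial R, b = ∑ᶠ i, Polynomial.aeval x (P i) * g i)
    (hloc : ∀ y : C, ∃ n : ℕ, x ^ n * y ∈ B₁)
    (hinf : ∀ i, ∃ n : ℕ, x' ^ n * g i ∈ B₂) :
    Module.Finite R (C ⧸ (Subalgebra.toSubmodule B₁ ⊔ Subalgebra.toSubmodule B₂)) := by
  classical
  haveI : Fintype ι := Fintype.ofFinite ι
  choose N hN using hinf
  let Nmax : ℕ := Finset.univ.sup N
  have hNmax : ∀ i, ∀ a, Nmax ≤ a → x' ^ a * g i ∈ B₂ := by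
    intro i a ha
    have hle : N i ≤ a := le_trans (Finset.le_sup (f := N) (Finset.mem_univ i)) ha
    obtain ⟨k, rfl⟩ := Nat.exists_eq_add_of_le hle
    rw [pow_add, mul_comm (x' ^ N i), mul_assoc]
    exact B₂.mul_mem (B₂.pow_mem hx' k) (hN i)
  -- the finite generating family
  let W : Submodule R C := Submodule.span R
    (Set.range fun q : ι × Fin Nmax => x' ^ (q.2 : ℕ) * g q.1)
  let S : Submodule R C := Subalgebra.toSubmodule B₁ ⊔ Subalgebra.toSubmodule B₂
  have hkey : ∀ (i : ι) (n j : ℕ), x' ^ n * (x ^ j * g i) ∈ S ⊔ W := by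
    intro i n j
    rcases le_total n j with h | h
    · -- `x^(j-n) g i ∈ B₁`
      obtain ⟨k, rfl⟩ := Nat.exists_eq_add_of_le h
      have : x' ^ n * (x ^ (n + k) * g i) = x ^ k * g i := by
        rw [pow_add, ← mul_assoc, ← mul_assoc, ← mul_pow, mul_comm x' x, hxx', one_pow, one_mul]
      rw [this]
      exact Submodule.mem_sup_left (Submodule.mem_sup_left (B₁.mul_mem (B₁.pow_mem hx k) (hg i)))
    · obtain ⟨k, rfl⟩ := Nat.exists_eq_add_of_le h
      have : x' ^ (j + k) * (x ^ j * g i) = x' ^ k * g i := by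
        rw [pow_add, mul_comm (x' ^ j), mul_assoc, ← mul_assoc (x' ^ j), ← mul_pow,
          mul_comm x' x, hxx', one_pow, one_mul]
      rw [this]
      rcases lt_or_ge k Nmax with hk | hk
      · exact Submodule.mem_sup_right (Submodule.subset_span ⟨(i, ⟨k, hk⟩), rfl⟩)
      · exact Submodule.mem_sup_left (Submodule.mem_sup_right (hNmax i k hk))
  have hpoly : ∀ (i : ι) (n : ℕ) (P : Polynomial R),
      x' ^ n * (Polynomial.aeval x P * g i) ∈ S ⊔ W := by
    intro i n P
    induction P using Polynomial.induction_on' with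
    | add P Q hP hQ =>
      rw [map_add, add_mul, mul_add]
      exact Submodule.add_mem _ hP hQ
    | monomial j a =>
      rw [Polynomial.aeval_monomial, mul_assoc, ← Algebra.smul_def, mul_smul_comm]
      exact Submodule.smul_mem _ _ (hkey i n j)
  have htop : S ⊔ W = ⊤ := by
    rw [eq_top_iff]
    intro y _
    obtain ⟨n, hn⟩ := hloc y
    obtain ⟨P, hP⟩ := hgen _ hn
    have hy : y = x' ^ n * (x ^ n * y) := by
      rw [← mul_assoc, ← mul_pow, mul_comm x' x, hxx', one_pow, one_mul]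
    rw [hy, hP, finsum_eq_sum_of_fintype, Finset.mul_sum]
    exact Submodule.sum_mem _ fun i _ => hpoly i n (P i)
  have hWfg : W.FG := Submodule.fg_span (Set.finite_range _)
  -- `C ⧸ S` is the image of `W`
  have hsurj : Function.Surjective (S.mkQ.comp W.subtype) := by
    intro q
    obtain ⟨y, rfl⟩ := S.mkQ_surjective q
    have hy : y ∈ S ⊔ W := htop ▸ Submodule.mem_top
    obtain ⟨s, hs, w, hw, rfl⟩ := Submodule.mem_sup.mp hy
    refine ⟨⟨w, hw⟩, ?_⟩
    simp only [LinearMap.comp_apply, Submodule.subtype_apply, Submodule.mkQ_apply,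
      Submodule.Quotient.mk_add]
    rw [(Submodule.Quotient.mk_eq_zero S).mpr hs, zero_add]
  haveI : Module.Finite R W := Module.Finite.iff_fg.mpr hWfg
  exact Module.Finite.of_surjective _ hsurj

end Finite

section Main

variable {R C : Type*} [CommRing R] [IsLocalRing R] [IsNoetherianRing R] [CommRing C]
  [Algebra R C]

/-- Connectedness with the finiteness hypothesis on `C / (B₁ + B₂)`. -/
theorem idem_trivial_of_cech_finite (ϖ : R) (B₁ B₂ : Subalgebra R C)
    (hint : ∀ y : C, y ∈ B₁ → y ∈ B₂ → ∃ r : R, algebraMap R C r = y)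
    [Module.Finite R (C ⧸ (Subalgebra.toSubmodule B₁ ⊔ Subalgebra.toSubmodule B₂))]
    (e₁ e₂ : C) (he₁ : e₁ ∈ B₁) (he₂ : e₂ ∈ B₂)
    (h₁ : ∃ a ∈ B₁, e₁ ^ 2 - e₁ = algebraMap R C ϖ * a)
    (h₂ : ∃ a ∈ B₂, e₂ ^ 2 - e₂ = algebraMap R C ϖ * a)
    (h₁₂ : ∃ y : C, e₁ - e₂ = algebraMap R C ϖ * y) :
    (∃ a ∈ B₁, e₁ = algebraMap R C ϖ * a) ∨ (∃ a ∈ B₁, 1 - e₁ = algebraMap R C ϖ * a) := by
  obtain ⟨c, hc⟩ := exists_torsion_bound
    (M := C ⧸ (Subalgebra.toSubmodule B₁ ⊔ Subalgebra.toSubmodule B₂)) ϖ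
  refine idem_trivial_of_cech ϖ B₁ B₂ hint c ?_ e₁ e₂ he₁ he₂ h₁ h₂ h₁₂
  intro n y hy
  have hmem : ∀ k : ℕ, (∃ b₁ ∈ B₁, ∃ b₂ ∈ B₂, algebraMap R C ϖ ^ k * y = b₁ + b₂) ↔
      ϖ ^ k • (Submodule.Quotient.mk y :
        C ⧸ (Subalgebra.toSubmodule B₁ ⊔ Subalgebra.toSubmodule B₂)) = 0 := by
    intro k
    rw [← Submodule.Quotient.mk_smul, Submodule.Quotient.mk_eq_zero, Submodule.mem_sup,
      Algebra.smul_def, map_pow]
    constructor
    · rintro ⟨b₁, hb₁, b₂, hb₂, h⟩
      exact ⟨b₁, hb₁, b₂, hb₂, h.symm⟩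
    · rintro ⟨b₁, hb₁, b₂, hb₂, h⟩
      exact ⟨b₁, hb₁, b₂, hb₂, h.symm⟩
  exact (hmem c).mpr (hc n _ ((hmem n).mp hy))

end Main

end Fermat.Agent.S18.H498

end
-- ===== PACK-END S18/H498/CechFinite.lean

-- ===== PACK-BEGIN S53/CommAlgTest.lean
section



set_option autoImplicit false

namespace Fermat.Agent.S53

open IsLocalRing

section ResK

variable {𝒪 : Type} [CommRing 𝒪] [IsLocalRing 𝒪]
variable {A : Type} [CommRing A] [IsLocalRing A] [Algebra 𝒪 A]
variable {B : Type} [CommRing B] [IsLocalRing B] [Algebra 𝒪 B]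

theorem isLocalHom_algebraMap_residueField :
    IsLocalHom (algebraMap 𝒪 (ResidueField 𝒪)) := by
  rw [ResidueField.algebraMap_eq]
  infer_instance

/-- The residue field of `𝒪` is itself a test algebra. -/
theorem isArtinianTestAlgebra_residueField :
    GaloisRep.IsArtinianTestAlgebra 𝒪 (ResidueField 𝒪) where
  isLocalHom := isLocalHom_algebraMap_residueField
  residue_surjective := by
    intro x
    obtain ⟨y, rfl⟩ := IsLocalRing.residue_surjective x
    obtain ⟨o, rfl⟩ := IsLocalRing.residue_surjective y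
    exact ⟨o, by simp [ResidueField.algebraMap_eq]⟩
  isArtinian := inferInstance

/-- Any `𝒪`-algebra homomorphism out of a local ring with nil maximal ideal is local. -/
theorem isLocalHom_of_nil (hnil : ∃ n : ℕ, maximalIdeal A ^ n = ⊥) (φ : A →+* B) :
    IsLocalHom φ := by
  constructor
  intro a ha
  by_contra hcon
  have hm : a ∈ maximalIdeal A := (IsLocalRing.mem_maximalIdeal a).mpr hcon
  obtain ⟨n, hn⟩ := hnil
  have h0 : a ^ n = 0 := by
    have : a ^ n ∈ maximalIdeal A ^ n := Ideal.pow_mem_pow hm n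
    rw [hn] at this
    simpa using this
  have h1 : IsUnit (φ a ^ n) := ha.pow n
  rw [← map_pow, h0, map_zero] at h1
  exact not_isUnit_zero h1

theorem isLocalHom_of_testAlgebra (hA : GaloisRep.IsArtinianTestAlgebra 𝒪 A) (φ : A →+* B) :
    IsLocalHom φ :=
  isLocalHom_of_nil (exists_maximalIdeal_pow_eq_bot hA) φ

theorem residueField_map_bijective (hloc : IsLocalHom (algebraMap 𝒪 A))
    (hsurj : Function.Surjective (IsLocalRing.residue A ∘ algebraMap 𝒪 A)) :
    Function.Bijective (ResidueField.map (algebraMap 𝒪 A)) := by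
  refine ⟨(ResidueField.map (algebraMap 𝒪 A)).injective, ?_⟩
  intro x
  obtain ⟨o, rfl⟩ := hsurj x
  exact ⟨residue 𝒪 o, by simp [ResidueField.map_residue]⟩

/-- The canonical `𝒪`-algebra map `A → k = ResidueField 𝒪` of a local `𝒪`-algebra with residue
field `k`. -/
noncomputable def resK (hloc : IsLocalHom (algebraMap 𝒪 A))
    (hsurj : Function.Surjective (IsLocalRing.residue A ∘ algebraMap 𝒪 A)) :
    A →ₐ[𝒪] ResidueField 𝒪 where
  toRingHom := ((RingEquiv.ofBijective (ResidueField.map (algebraMap 𝒪 A))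
      (residueField_map_bijective hloc hsurj)).symm : ResidueField A →+* ResidueField 𝒪).comp
      (IsLocalRing.residue A)
  commutes' := by
    intro o
    simp only [RingHom.toMonoidHom_eq_coe, OneHom.toFun_eq_coe, MonoidHom.toOneHom_coe,
      MonoidHom.coe_coe, RingHom.coe_comp, RingHom.coe_coe, Function.comp_apply]
    rw [RingEquiv.symm_apply_eq]
    simp [ResidueField.algebraMap_eq, ResidueField.map_residue]

theorem resK_apply_eq_iff (hloc : IsLocalHom (algebraMap 𝒪 A))
    (hsurj : Function.Surjective (IsLocalRing.residue A ∘ algebraMap 𝒪 A)) (a : A)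
    (x : ResidueField 𝒪) :
    resK hloc hsurj a = x ↔ IsLocalRing.residue A a = ResidueField.map (algebraMap 𝒪 A) x := by
  show (RingEquiv.ofBijective (ResidueField.map (algebraMap 𝒪 A))
      (residueField_map_bijective hloc hsurj)).symm (IsLocalRing.residue A a) = x ↔ _
  rw [RingEquiv.symm_apply_eq]
  rfl

theorem resK_eq_zero_iff (hloc : IsLocalHom (algebraMap 𝒪 A))
    (hsurj : Function.Surjective (IsLocalRing.residue A ∘ algebraMap 𝒪 A)) (a : A) :
    resK hloc hsurj a = 0 ↔ a ∈ maximalIdeal A := by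
  rw [resK_apply_eq_iff, map_zero, IsLocalRing.residue_eq_zero_iff]

theorem resK_algebraMap (hloc : IsLocalHom (algebraMap 𝒪 A))
    (hsurj : Function.Surjective (IsLocalRing.residue A ∘ algebraMap 𝒪 A)) (o : 𝒪) :
    resK hloc hsurj (algebraMap 𝒪 A o) = IsLocalRing.residue 𝒪 o := by
  rw [AlgHom.commutes, ResidueField.algebraMap_eq]

theorem resK_surjective (hloc : IsLocalHom (algebraMap 𝒪 A))
    (hsurj : Function.Surjective (IsLocalRing.residue A ∘ algebraMap 𝒪 A)) :
    Function.Surjective (resK hloc hsurj) := by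
  intro x
  obtain ⟨o, rfl⟩ := IsLocalRing.residue_surjective x
  exact ⟨algebraMap 𝒪 A o, resK_algebraMap hloc hsurj o⟩

theorem isLocalHom_resK (hloc : IsLocalHom (algebraMap 𝒪 A))
    (hsurj : Function.Surjective (IsLocalRing.residue A ∘ algebraMap 𝒪 A)) :
    IsLocalHom ((resK hloc hsurj : A →ₐ[𝒪] ResidueField 𝒪) : A →+* ResidueField 𝒪) := by
  constructor
  intro a ha
  by_contra hcon
  have hm : a ∈ maximalIdeal A := (IsLocalRing.mem_maximalIdeal a).mpr hcon
  have h0 : resK hloc hsurj a = 0 := (resK_eq_zero_iff hloc hsurj a).mpr hm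
  have ha' : IsUnit (resK hloc hsurj a) := ha
  rw [h0] at ha'
  exact not_isUnit_zero ha'

/-- Decomposition `a = o + (element of m_A)`. -/
theorem exists_sub_algebraMap_mem_maximalIdeal
    (hsurj : Function.Surjective (IsLocalRing.residue A ∘ algebraMap 𝒪 A)) (a : A) :
    ∃ o : 𝒪, a - algebraMap 𝒪 A o ∈ maximalIdeal A := by
  obtain ⟨o, ho⟩ := hsurj (IsLocalRing.residue A a)
  refine ⟨o, ?_⟩
  rw [← IsLocalRing.residue_eq_zero_iff, map_sub, sub_eq_zero]
  exact ho.symm

/-- `𝒪`-algebra maps which are local commute with `resK`. -/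
theorem resK_comp (hlocA : IsLocalHom (algebraMap 𝒪 A))
    (hsurjA : Function.Surjective (IsLocalRing.residue A ∘ algebraMap 𝒪 A))
    (hlocB : IsLocalHom (algebraMap 𝒪 B))
    (hsurjB : Function.Surjective (IsLocalRing.residue B ∘ algebraMap 𝒪 B))
    (φ : A →ₐ[𝒪] B) (hφ : IsLocalHom (φ : A →+* B)) (a : A) :
    resK hlocB hsurjB (φ a) = resK hlocA hsurjA a := by
  obtain ⟨o, ho⟩ := exists_sub_algebraMap_mem_maximalIdeal hsurjA a
  have h1 : resK hlocA hsurjA (a - algebraMap 𝒪 A o) = 0 :=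
    (resK_eq_zero_iff hlocA hsurjA _).mpr ho
  have h2 : φ (a - algebraMap 𝒪 A o) ∈ maximalIdeal B := by
    rw [IsLocalRing.mem_maximalIdeal, mem_nonunits_iff]
    intro hu
    have : IsUnit (a - algebraMap 𝒪 A o) := hφ.map_nonunit _ hu
    exact (IsLocalRing.mem_maximalIdeal _).mp ho this
  have h3 : resK hlocB hsurjB (φ (a - algebraMap 𝒪 A o)) = 0 :=
    (resK_eq_zero_iff hlocB hsurjB _).mpr h2
  rw [map_sub, map_sub, AlgHom.commutes, AlgHom.commutes, sub_eq_zero] at h3
  rw [map_sub, AlgHom.commutes, sub_eq_zero] at h1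
  rw [h3, h1]

end ResK

section FibProd

variable (𝒪 : Type) [CommRing 𝒪] [IsLocalRing 𝒪]
variable (A : Type) [CommRing A] [IsLocalRing A] [Algebra 𝒪 A]
variable (B : Type) [CommRing B] [IsLocalRing B] [Algebra 𝒪 B]

/-- The fibre product `A ×_k B` over the common residue field, as a subalgebra of `A × B`. -/
def fibProd : Subalgebra 𝒪 (A × B) where
  carrier := {p | ∃ o : 𝒪, p.1 - algebraMap 𝒪 A o ∈ maximalIdeal A ∧
    p.2 - algebraMap 𝒪 B o ∈ maximalIdeal B}
  mul_mem' := by
    rintro ⟨a, b⟩ ⟨a', b'⟩ ⟨o, ho1, ho2⟩ ⟨o', ho1', ho2'⟩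
    refine ⟨o * o', ?_, ?_⟩
    · have : a * a' - algebraMap 𝒪 A (o * o') =
          (a - algebraMap 𝒪 A o) * a' + algebraMap 𝒪 A o * (a' - algebraMap 𝒪 A o') := by
        rw [map_mul]; ring
      show a * a' - algebraMap 𝒪 A (o * o') ∈ maximalIdeal A
      rw [this]
      exact Ideal.add_mem _ (Ideal.mul_mem_right _ _ ho1) (Ideal.mul_mem_left _ _ ho1')
    · have : b * b' - algebraMap 𝒪 B (o * o') =
          (b - algebraMap 𝒪 B o) * b' + algebraMap 𝒪 B o * (b' - algebraMap 𝒪 B o') := by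
        rw [map_mul]; ring
      show b * b' - algebraMap 𝒪 B (o * o') ∈ maximalIdeal B
      rw [this]
      exact Ideal.add_mem _ (Ideal.mul_mem_right _ _ ho2) (Ideal.mul_mem_left _ _ ho2')
  add_mem' := by
    rintro ⟨a, b⟩ ⟨a', b'⟩ ⟨o, ho1, ho2⟩ ⟨o', ho1', ho2'⟩
    refine ⟨o + o', ?_, ?_⟩
    · have : a + a' - algebraMap 𝒪 A (o + o') =
          (a - algebraMap 𝒪 A o) + (a' - algebraMap 𝒪 A o') := by
        rw [map_add]; ring
      show a + a' - algebraMap 𝒪 A (o + o') ∈ maximalIdeal A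
      rw [this]
      exact Ideal.add_mem _ ho1 ho1'
    · have : b + b' - algebraMap 𝒪 B (o + o') =
          (b - algebraMap 𝒪 B o) + (b' - algebraMap 𝒪 B o') := by
        rw [map_add]; ring
      show b + b' - algebraMap 𝒪 B (o + o') ∈ maximalIdeal B
      rw [this]
      exact Ideal.add_mem _ ho2 ho2'
  algebraMap_mem' := by
    intro o
    refine ⟨o, ?_, ?_⟩
    · show algebraMap 𝒪 A o - algebraMap 𝒪 A o ∈ maximalIdeal A
      rw [sub_self]; exact Ideal.zero_mem _
    · show algebraMap 𝒪 B o - algebraMap 𝒪 B o ∈ maximalIdeal B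
      rw [sub_self]; exact Ideal.zero_mem _

variable {𝒪 A B}

theorem mem_fibProd {p : A × B} :
    p ∈ fibProd 𝒪 A B ↔ ∃ o : 𝒪, p.1 - algebraMap 𝒪 A o ∈ maximalIdeal A ∧
      p.2 - algebraMap 𝒪 B o ∈ maximalIdeal B := Iff.rfl

/-- First projection of the fibre product. -/
def fibProdFst : ↥(fibProd 𝒪 A B) →ₐ[𝒪] A := (AlgHom.fst 𝒪 A B).comp (fibProd 𝒪 A B).val

/-- Second projection of the fibre product. -/
def fibProdSnd : ↥(fibProd 𝒪 A B) →ₐ[𝒪] B := (AlgHom.snd 𝒪 A B).comp (fibProd 𝒪 A B).val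

@[simp] theorem fibProdFst_apply (x : ↥(fibProd 𝒪 A B)) : fibProdFst x = x.1.1 := rfl
@[simp] theorem fibProdSnd_apply (x : ↥(fibProd 𝒪 A B)) : fibProdSnd x = x.1.2 := rfl

theorem fibProd_injective :
    Function.Injective (fun x : ↥(fibProd 𝒪 A B) => (fibProdFst x, fibProdSnd x)) := by
  intro x y h
  apply Subtype.ext
  exact h

theorem mem_fibProd_iff_resK (hlocA : IsLocalHom (algebraMap 𝒪 A))
    (hsurjA : Function.Surjective (IsLocalRing.residue A ∘ algebraMap 𝒪 A))
    (hlocB : IsLocalHom (algebraMap 𝒪 B))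
    (hsurjB : Function.Surjective (IsLocalRing.residue B ∘ algebraMap 𝒪 B)) {p : A × B} :
    p ∈ fibProd 𝒪 A B ↔ resK hlocA hsurjA p.1 = resK hlocB hsurjB p.2 := by
  rw [mem_fibProd]
  constructor
  · rintro ⟨o, h1, h2⟩
    have e1 := (resK_eq_zero_iff hlocA hsurjA _).mpr h1
    have e2 := (resK_eq_zero_iff hlocB hsurjB _).mpr h2
    rw [map_sub, AlgHom.commutes, sub_eq_zero] at e1 e2
    rw [e1, e2]
  · intro h
    obtain ⟨o, ho⟩ := exists_sub_algebraMap_mem_maximalIdeal hsurjA p.1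
    refine ⟨o, ho, ?_⟩
    have e1 := (resK_eq_zero_iff hlocA hsurjA _).mpr ho
    rw [map_sub, AlgHom.commutes, sub_eq_zero] at e1
    rw [← resK_eq_zero_iff hlocB hsurjB, map_sub, AlgHom.commutes, sub_eq_zero, ← h, e1]

theorem fibProd_resK_comm (hlocA : IsLocalHom (algebraMap 𝒪 A))
    (hsurjA : Function.Surjective (IsLocalRing.residue A ∘ algebraMap 𝒪 A))
    (hlocB : IsLocalHom (algebraMap 𝒪 B))
    (hsurjB : Function.Surjective (IsLocalRing.residue B ∘ algebraMap 𝒪 B)) :
    (resK hlocA hsurjA).comp (fibProdFst (𝒪 := 𝒪) (A := A) (B := B)) =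
      (resK hlocB hsurjB).comp fibProdSnd := by
  ext x
  exact (mem_fibProd_iff_resK hlocA hsurjA hlocB hsurjB).mp x.2

theorem fibProd_exists_of_resK_eq (hlocA : IsLocalHom (algebraMap 𝒪 A))
    (hsurjA : Function.Surjective (IsLocalRing.residue A ∘ algebraMap 𝒪 A))
    (hlocB : IsLocalHom (algebraMap 𝒪 B))
    (hsurjB : Function.Surjective (IsLocalRing.residue B ∘ algebraMap 𝒪 B))
    (a : A) (b : B) (h : resK hlocA hsurjA a = resK hlocB hsurjB b) :
    ∃ x : ↥(fibProd 𝒪 A B), fibProdFst x = a ∧ fibProdSnd x = b :=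
  ⟨⟨(a, b), (mem_fibProd_iff_resK hlocA hsurjA hlocB hsurjB).mpr h⟩, rfl, rfl⟩

/-- The nil ideal of the fibre product (pairs in `m_A × m_B`). -/
def fibProdNil : Ideal ↥(fibProd 𝒪 A B) :=
  Ideal.comap (fibProdFst (𝒪 := 𝒪) (A := A) (B := B) : ↥(fibProd 𝒪 A B) →+* A) (maximalIdeal A)

theorem mem_fibProdNil_iff (hlocB : IsLocalHom (algebraMap 𝒪 B)) (x : ↥(fibProd 𝒪 A B)) :
    x ∈ fibProdNil (𝒪 := 𝒪) (A := A) (B := B) ↔
      x.1.1 ∈ maximalIdeal A ∧ x.1.2 ∈ maximalIdeal B := by
  constructor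
  · intro hx
    have hx1 : x.1.1 ∈ maximalIdeal A := hx
    refine ⟨hx1, ?_⟩
    obtain ⟨o, ho1, ho2⟩ := x.2
    have hoA : algebraMap 𝒪 A o ∈ maximalIdeal A := by
      have := Ideal.sub_mem _ hx1 ho1
      simpa using this
    have hom : o ∈ maximalIdeal 𝒪 := by
      rw [IsLocalRing.mem_maximalIdeal, mem_nonunits_iff]
      intro hu
      exact (IsLocalRing.mem_maximalIdeal _).mp hoA (hu.map _)
    have hoB : algebraMap 𝒪 B o ∈ maximalIdeal B := by
      rw [IsLocalRing.mem_maximalIdeal, mem_nonunits_iff]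
      intro hu
      exact (IsLocalRing.mem_maximalIdeal _).mp hom (hlocB.map_nonunit _ hu)
    have := Ideal.add_mem _ ho2 hoB
    simpa using this
  · intro hx
    exact hx.1

theorem fibProdNil_nilpotent (hlocB : IsLocalHom (algebraMap 𝒪 B))
    (hnA : ∃ n : ℕ, maximalIdeal A ^ n = ⊥) (hnB : ∃ n : ℕ, maximalIdeal B ^ n = ⊥)
    (x : ↥(fibProd 𝒪 A B)) (hx : x ∈ fibProdNil (𝒪 := 𝒪) (A := A) (B := B)) :
    IsNilpotent x := by
  obtain ⟨hxA, hxB⟩ := (mem_fibProdNil_iff hlocB x).mp hx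
  obtain ⟨n, hn⟩ := hnA
  obtain ⟨m, hm⟩ := hnB
  refine ⟨n + m, ?_⟩
  apply Subtype.ext
  have h1 : x.1.1 ^ (n + m) = 0 := by
    have : x.1.1 ^ n ∈ maximalIdeal A ^ n := Ideal.pow_mem_pow hxA n
    rw [hn] at this
    rw [pow_add, (Ideal.mem_bot.mp this), zero_mul]
  have h2 : x.1.2 ^ (n + m) = 0 := by
    have : x.1.2 ^ m ∈ maximalIdeal B ^ m := Ideal.pow_mem_pow hxB m
    rw [hm] at this
    rw [pow_add, (Ideal.mem_bot.mp this), mul_zero]
  show ((x ^ (n + m) : ↥(fibProd 𝒪 A B)) : A × B) = 0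
  rw [SubmonoidClass.coe_pow]
  exact Prod.ext (by simpa using h1) (by simpa using h2)

theorem fibProd_exists_sub_mem_nil (x : ↥(fibProd 𝒪 A B)) :
    ∃ o : 𝒪, x - algebraMap 𝒪 ↥(fibProd 𝒪 A B) o ∈
      fibProdNil (𝒪 := 𝒪) (A := A) (B := B) := by
  obtain ⟨o, ho1, _⟩ := x.2
  exact ⟨o, ho1⟩

theorem fibProd_algebraMap_mem_nil (hlocA : IsLocalHom (algebraMap 𝒪 A)) (o : 𝒪)
    (ho : o ∈ maximalIdeal 𝒪) :
    algebraMap 𝒪 ↥(fibProd 𝒪 A B) o ∈ fibProdNil (𝒪 := 𝒪) (A := A) (B := B) := by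
  show algebraMap 𝒪 A o ∈ maximalIdeal A
  rw [IsLocalRing.mem_maximalIdeal, mem_nonunits_iff]
  intro hu
  exact (IsLocalRing.mem_maximalIdeal _).mp ho (hlocA.map_nonunit _ hu)

instance nontrivial_fibProd : Nontrivial ↥(fibProd 𝒪 A B) :=
  ⟨⟨0, 1, fun h => by
    have := congrArg (fun x : ↥(fibProd 𝒪 A B) => x.1.1) h
    simp at this⟩⟩

/-- The fibre product of two test algebras is a local ring. -/
theorem isLocalRing_fibProd (hA : GaloisRep.IsArtinianTestAlgebra 𝒪 A)
    (hB : GaloisRep.IsArtinianTestAlgebra 𝒪 B) : IsLocalRing ↥(fibProd 𝒪 A B) :=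
  isLocalRing_of_nil_ideal (fibProdNil (𝒪 := 𝒪) (A := A) (B := B))
    (fibProdNil_nilpotent hB.isLocalHom (exists_maximalIdeal_pow_eq_bot hA)
      (exists_maximalIdeal_pow_eq_bot hB))
    fibProd_exists_sub_mem_nil
    (fun o ho => fibProd_algebraMap_mem_nil hA.isLocalHom o ho)

theorem maximalIdeal_fibProd [IsLocalRing ↥(fibProd 𝒪 A B)]
    (hA : GaloisRep.IsArtinianTestAlgebra 𝒪 A)
    (hB : GaloisRep.IsArtinianTestAlgebra 𝒪 B) :
    maximalIdeal ↥(fibProd 𝒪 A B) = fibProdNil (𝒪 := 𝒪) (A := A) (B := B) :=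
  maximalIdeal_eq_of_nil_ideal (fibProdNil (𝒪 := 𝒪) (A := A) (B := B))
    (fibProdNil_nilpotent hB.isLocalHom (exists_maximalIdeal_pow_eq_bot hA)
      (exists_maximalIdeal_pow_eq_bot hB))
    fibProd_exists_sub_mem_nil
    (fun o ho => fibProd_algebraMap_mem_nil hA.isLocalHom o ho)

/-- The fibre product of two test algebras is a test algebra. -/
theorem isArtinianTestAlgebra_fibProd [Finite (ResidueField 𝒪)] [IsLocalRing ↥(fibProd 𝒪 A B)]
    (hA : GaloisRep.IsArtinianTestAlgebra 𝒪 A)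
    (hB : GaloisRep.IsArtinianTestAlgebra 𝒪 B) :
    GaloisRep.IsArtinianTestAlgebra 𝒪 ↥(fibProd 𝒪 A B) := by
  haveI := finite_of_testAlgebra hA
  haveI := finite_of_testAlgebra hB
  exact isArtinianTestAlgebra_of_nil_ideal (fibProdNil (𝒪 := 𝒪) (A := A) (B := B))
    (fibProdNil_nilpotent hB.isLocalHom (exists_maximalIdeal_pow_eq_bot hA)
      (exists_maximalIdeal_pow_eq_bot hB))
    fibProd_exists_sub_mem_nil
    (fun o ho => fibProd_algebraMap_mem_nil hA.isLocalHom o ho)

theorem isLocalHom_fibProdFst [IsLocalRing ↥(fibProd 𝒪 A B)]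
    (hA : GaloisRep.IsArtinianTestAlgebra 𝒪 A) (hB : GaloisRep.IsArtinianTestAlgebra 𝒪 B) :
    IsLocalHom ((fibProdFst : ↥(fibProd 𝒪 A B) →ₐ[𝒪] A) : ↥(fibProd 𝒪 A B) →+* A) := by
  constructor
  intro x hx
  by_contra hcon
  have hm : x ∈ maximalIdeal ↥(fibProd 𝒪 A B) := (IsLocalRing.mem_maximalIdeal x).mpr hcon
  rw [maximalIdeal_fibProd hA hB] at hm
  have : fibProdFst x ∈ maximalIdeal A := hm
  exact (IsLocalRing.mem_maximalIdeal _).mp this hx

theorem isLocalHom_fibProdSnd [IsLocalRing ↥(fibProd 𝒪 A B)]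
    (hA : GaloisRep.IsArtinianTestAlgebra 𝒪 A) (hB : GaloisRep.IsArtinianTestAlgebra 𝒪 B) :
    IsLocalHom ((fibProdSnd : ↥(fibProd 𝒪 A B) →ₐ[𝒪] B) : ↥(fibProd 𝒪 A B) →+* B) := by
  constructor
  intro x hx
  by_contra hcon
  have hm : x ∈ maximalIdeal ↥(fibProd 𝒪 A B) := (IsLocalRing.mem_maximalIdeal x).mpr hcon
  rw [maximalIdeal_fibProd hA hB] at hm
  have : fibProdSnd x ∈ maximalIdeal B := ((mem_fibProdNil_iff hB.isLocalHom x).mp hm).2
  exact (IsLocalRing.mem_maximalIdeal _).mp this hx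

end FibProd

section SubalgebraTest

variable {𝒪 : Type} [CommRing 𝒪] [IsLocalRing 𝒪]
variable {A : Type} [CommRing A] [IsLocalRing A] [Algebra 𝒪 A]

/-- The nil ideal of a subalgebra of a test algebra. -/
def subalgNil (C : Subalgebra 𝒪 A) : Ideal ↥C :=
  Ideal.comap (C.val : ↥C →+* A) (maximalIdeal A)

theorem subalgNil_nilpotent (hn : ∃ n : ℕ, maximalIdeal A ^ n = ⊥) (C : Subalgebra 𝒪 A)
    (x : ↥C) (hx : x ∈ subalgNil C) : IsNilpotent x := by
  obtain ⟨n, hn⟩ := hn
  refine ⟨n, ?_⟩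
  apply Subtype.ext
  have hx' : (x : A) ∈ maximalIdeal A := hx
  have : (x : A) ^ n ∈ maximalIdeal A ^ n := Ideal.pow_mem_pow hx' n
  rw [hn] at this
  show ((x ^ n : ↥C) : A) = 0
  rw [SubmonoidClass.coe_pow]
  exact Ideal.mem_bot.mp this

theorem subalg_exists_sub_mem_nil
    (hsurj : Function.Surjective (IsLocalRing.residue A ∘ algebraMap 𝒪 A))
    (C : Subalgebra 𝒪 A) (x : ↥C) :
    ∃ o : 𝒪, x - algebraMap 𝒪 ↥C o ∈ subalgNil C := by
  obtain ⟨o, ho⟩ := exists_sub_algebraMap_mem_maximalIdeal hsurj (x : A)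
  exact ⟨o, ho⟩

theorem subalg_algebraMap_mem_nil (hloc : IsLocalHom (algebraMap 𝒪 A)) (C : Subalgebra 𝒪 A)
    (o : 𝒪) (ho : o ∈ maximalIdeal 𝒪) : algebraMap 𝒪 ↥C o ∈ subalgNil C := by
  show algebraMap 𝒪 A o ∈ maximalIdeal A
  rw [IsLocalRing.mem_maximalIdeal, mem_nonunits_iff]
  intro hu
  exact (IsLocalRing.mem_maximalIdeal _).mp ho (hloc.map_nonunit _ hu)

/-- Every `𝒪`-subalgebra of a test algebra is a local ring. -/
theorem isLocalRing_subalgebra (hA : GaloisRep.IsArtinianTestAlgebra 𝒪 A)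
    (C : Subalgebra 𝒪 A) : IsLocalRing ↥C :=
  isLocalRing_of_nil_ideal (subalgNil C)
    (subalgNil_nilpotent (exists_maximalIdeal_pow_eq_bot hA) C)
    (subalg_exists_sub_mem_nil hA.residue_surjective C)
    (fun o ho => subalg_algebraMap_mem_nil hA.isLocalHom C o ho)

theorem maximalIdeal_subalgebra (hA : GaloisRep.IsArtinianTestAlgebra 𝒪 A)
    (C : Subalgebra 𝒪 A) [IsLocalRing ↥C] : maximalIdeal ↥C = subalgNil C :=
  maximalIdeal_eq_of_nil_ideal (subalgNil C)
    (subalgNil_nilpotent (exists_maximalIdeal_pow_eq_bot hA) C)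
    (subalg_exists_sub_mem_nil hA.residue_surjective C)
    (fun o ho => subalg_algebraMap_mem_nil hA.isLocalHom C o ho)

theorem mem_maximalIdeal_subalgebra_iff (hA : GaloisRep.IsArtinianTestAlgebra 𝒪 A)
    (C : Subalgebra 𝒪 A) [IsLocalRing ↥C] (x : ↥C) :
    x ∈ maximalIdeal ↥C ↔ (x : A) ∈ maximalIdeal A := by
  rw [maximalIdeal_subalgebra hA C]
  rfl

/-- Every `𝒪`-subalgebra of a test algebra is a test algebra. -/
theorem isArtinianTestAlgebra_subalgebra [Finite (ResidueField 𝒪)]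
    (hA : GaloisRep.IsArtinianTestAlgebra 𝒪 A)
    (C : Subalgebra 𝒪 A) [IsLocalRing ↥C] : GaloisRep.IsArtinianTestAlgebra 𝒪 ↥C := by
  haveI := finite_of_testAlgebra hA
  exact isArtinianTestAlgebra_of_nil_ideal (subalgNil C)
    (subalgNil_nilpotent (exists_maximalIdeal_pow_eq_bot hA) C)
    (subalg_exists_sub_mem_nil hA.residue_surjective C)
    (fun o ho => subalg_algebraMap_mem_nil hA.isLocalHom C o ho)

theorem isLocalHom_subalgebra_val (hA : GaloisRep.IsArtinianTestAlgebra 𝒪 A)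
    (C : Subalgebra 𝒪 A) [IsLocalRing ↥C] : IsLocalHom ((C.val : ↥C →ₐ[𝒪] A) : ↥C →+* A) := by
  constructor
  intro x hx
  by_contra hcon
  have hm : x ∈ maximalIdeal ↥C := (IsLocalRing.mem_maximalIdeal x).mpr hcon
  rw [mem_maximalIdeal_subalgebra_iff hA C] at hm
  exact (IsLocalRing.mem_maximalIdeal _).mp hm hx

end SubalgebraTest

section QuotientTest

variable {𝒪 : Type} [CommRing 𝒪] [IsLocalRing 𝒪]
variable {A : Type} [CommRing A] [IsLocalRing A] [Algebra 𝒪 A]

theorem isLocalRing_quotient (J : Ideal A) (hJ : J ≠ ⊤) : IsLocalRing (A ⧸ J) :=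
  haveI : Nontrivial (A ⧸ J) := Ideal.Quotient.nontrivial_iff.mpr hJ
  IsLocalRing.of_surjective' (Ideal.Quotient.mk J) Ideal.Quotient.mk_surjective

theorem isLocalHom_quotient_mk (J : Ideal A) [IsLocalRing (A ⧸ J)] :
    IsLocalHom (Ideal.Quotient.mk J) :=
  IsLocalHom.of_surjective (Ideal.Quotient.mk J) Ideal.Quotient.mk_surjective

theorem isLocalHom_algebraMap_quotient (hloc : IsLocalHom (algebraMap 𝒪 A)) (J : Ideal A)
    [IsLocalRing (A ⧸ J)] : IsLocalHom (algebraMap 𝒪 (A ⧸ J)) := by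
  haveI := hloc
  haveI := isLocalHom_quotient_mk J
  have : algebraMap 𝒪 (A ⧸ J) = (Ideal.Quotient.mk J).comp (algebraMap 𝒪 A) := rfl
  rw [this]
  infer_instance

theorem residue_surjective_quotient
    (hsurj : Function.Surjective (IsLocalRing.residue A ∘ algebraMap 𝒪 A)) (J : Ideal A)
    [IsLocalRing (A ⧸ J)] :
    Function.Surjective (IsLocalRing.residue (A ⧸ J) ∘ algebraMap 𝒪 (A ⧸ J)) := by
  haveI := isLocalHom_quotient_mk J
  intro x
  obtain ⟨y, rfl⟩ := IsLocalRing.residue_surjective x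
  obtain ⟨a, rfl⟩ := Ideal.Quotient.mk_surjective y
  obtain ⟨o, ho⟩ := exists_sub_algebraMap_mem_maximalIdeal hsurj a
  refine ⟨o, ?_⟩
  have h1 : Ideal.Quotient.mk J (a - algebraMap 𝒪 A o) ∈ maximalIdeal (A ⧸ J) := by
    rw [IsLocalRing.mem_maximalIdeal, mem_nonunits_iff]
    intro hu
    exact (IsLocalRing.mem_maximalIdeal _).mp ho
      ((isLocalHom_quotient_mk J).map_nonunit _ hu)
  have h2 := (IsLocalRing.residue_eq_zero_iff _).mpr h1
  rw [map_sub, map_sub, sub_eq_zero] at h2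
  exact h2.symm

/-- A proper quotient of a test algebra is a test algebra. -/
theorem isArtinianTestAlgebra_quotient (hA : GaloisRep.IsArtinianTestAlgebra 𝒪 A) (J : Ideal A)
    [IsLocalRing (A ⧸ J)] : GaloisRep.IsArtinianTestAlgebra 𝒪 (A ⧸ J) where
  isLocalHom := isLocalHom_algebraMap_quotient hA.isLocalHom J
  residue_surjective := residue_surjective_quotient hA.residue_surjective J
  isArtinian :=
    haveI := hA.isArtinian
    (Ideal.Quotient.mk_surjective (I := J)).isArtinianRing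

/-- For a Noetherian local `𝒪`-algebra `A` with residue field `k` (finite), `A ⧸ J` is a test
algebra whenever `m_A ^ n ≤ J ≠ ⊤`. -/
theorem isArtinianTestAlgebra_quotient_of_pow_le [Finite (ResidueField 𝒪)] [IsNoetherianRing A]
    (hloc : IsLocalHom (algebraMap 𝒪 A))
    (hsurj : Function.Surjective (IsLocalRing.residue A ∘ algebraMap 𝒪 A)) (J : Ideal A)
    [IsLocalRing (A ⧸ J)] (n : ℕ) (hn : maximalIdeal A ^ n ≤ J) :
    GaloisRep.IsArtinianTestAlgebra 𝒪 (A ⧸ J) where
  isLocalHom := isLocalHom_algebraMap_quotient hloc J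
  residue_surjective := residue_surjective_quotient hsurj J
  isArtinian := by
    haveI : Finite (ResidueField A) :=
      Finite.of_surjective _ (residueField_map_bijective hloc hsurj).2
    haveI : Finite (A ⧸ J) := (IsLocalRing.finite_quotient_iff).mpr ⟨n, hn⟩
    infer_instance

theorem finite_quotient_of_pow_le [Finite (ResidueField 𝒪)] [IsNoetherianRing A]
    (hloc : IsLocalHom (algebraMap 𝒪 A))
    (hsurj : Function.Surjective (IsLocalRing.residue A ∘ algebraMap 𝒪 A)) (J : Ideal A)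
    (n : ℕ) (hn : maximalIdeal A ^ n ≤ J) : Finite (A ⧸ J) := by
  haveI : Finite (ResidueField A) :=
    Finite.of_surjective _ (residueField_map_bijective hloc hsurj).2
  exact (IsLocalRing.finite_quotient_iff).mpr ⟨n, hn⟩

theorem maximalIdeal_pow_ne_top (n : ℕ) (hn : n ≠ 0) : maximalIdeal A ^ n ≠ ⊤ := by
  intro h
  have h1 : maximalIdeal A ^ n ≤ maximalIdeal A := Ideal.pow_le_self hn
  rw [h] at h1
  exact (IsLocalRing.maximalIdeal.isMaximal A).ne_top (top_le_iff.mp h1)

end QuotientTest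

section ToFibProd

variable {𝒪 : Type} [CommRing 𝒪] [IsLocalRing 𝒪]
variable {A : Type} [CommRing A] [IsLocalRing A] [Algebra 𝒪 A]
variable {B : Type} [CommRing B] [IsLocalRing B] [Algebra 𝒪 B]
variable {Q : Type} [CommRing Q] [IsLocalRing Q] [Algebra 𝒪 Q]

theorem mem_fibProd_self_iff
    (hsurj : Function.Surjective (IsLocalRing.residue A ∘ algebraMap 𝒪 A)) {p : A × A} :
    p ∈ fibProd 𝒪 A A ↔ p.1 - p.2 ∈ maximalIdeal A := by
  rw [mem_fibProd]
  constructor
  · rintro ⟨o, h1, h2⟩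
    have := Ideal.sub_mem _ h1 h2
    simpa using this
  · intro h
    obtain ⟨o, ho⟩ := exists_sub_algebraMap_mem_maximalIdeal hsurj p.2
    refine ⟨o, ?_, ho⟩
    have := Ideal.add_mem _ h ho
    simpa using this

theorem prod_mem_fibProd
    (hsurjQ : Function.Surjective (IsLocalRing.residue Q ∘ algebraMap 𝒪 Q))
    (pA : Q →ₐ[𝒪] A) (pB : Q →ₐ[𝒪] B)
    (hpA : IsLocalHom (pA : Q →+* A)) (hpB : IsLocalHom (pB : Q →+* B)) (q : Q) :
    (pA.prod pB) q ∈ fibProd 𝒪 A B := by
  obtain ⟨o, ho⟩ := exists_sub_algebraMap_mem_maximalIdeal hsurjQ q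
  refine ⟨o, ?_, ?_⟩
  · show pA q - algebraMap 𝒪 A o ∈ maximalIdeal A
    rw [← AlgHom.commutes pA, ← map_sub, IsLocalRing.mem_maximalIdeal, mem_nonunits_iff]
    intro hu
    exact (IsLocalRing.mem_maximalIdeal _).mp ho (hpA.map_nonunit _ hu)
  · show pB q - algebraMap 𝒪 B o ∈ maximalIdeal B
    rw [← AlgHom.commutes pB, ← map_sub, IsLocalRing.mem_maximalIdeal, mem_nonunits_iff]
    intro hu
    exact (IsLocalRing.mem_maximalIdeal _).mp ho (hpB.map_nonunit _ hu)

/-- The canonical map of a local `𝒪`-algebra `Q` (residue field `k`) with two local maps to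
`A` and `B` into the fibre product `A ×_k B`. -/
def toFibProd (hsurjQ : Function.Surjective (IsLocalRing.residue Q ∘ algebraMap 𝒪 Q))
    (pA : Q →ₐ[𝒪] A) (pB : Q →ₐ[𝒪] B)
    (hpA : IsLocalHom (pA : Q →+* A)) (hpB : IsLocalHom (pB : Q →+* B)) :
    Q →ₐ[𝒪] ↥(fibProd 𝒪 A B) :=
  AlgHom.codRestrict (pA.prod pB) (fibProd 𝒪 A B) (prod_mem_fibProd hsurjQ pA pB hpA hpB)

theorem fibProdFst_comp_toFibProd
    (hsurjQ : Function.Surjective (IsLocalRing.residue Q ∘ algebraMap 𝒪 Q))
    (pA : Q →ₐ[𝒪] A) (pB : Q →ₐ[𝒪] B)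
    (hpA : IsLocalHom (pA : Q →+* A)) (hpB : IsLocalHom (pB : Q →+* B)) :
    fibProdFst.comp (toFibProd hsurjQ pA pB hpA hpB) = pA := by
  ext q; rfl

theorem fibProdSnd_comp_toFibProd
    (hsurjQ : Function.Surjective (IsLocalRing.residue Q ∘ algebraMap 𝒪 Q))
    (pA : Q →ₐ[𝒪] A) (pB : Q →ₐ[𝒪] B)
    (hpA : IsLocalHom (pA : Q →+* A)) (hpB : IsLocalHom (pB : Q →+* B)) :
    fibProdSnd.comp (toFibProd hsurjQ pA pB hpA hpB) = pB := by
  ext q; rfl

theorem toFibProd_injective
    (hsurjQ : Function.Surjective (IsLocalRing.residue Q ∘ algebraMap 𝒪 Q))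
    (pA : Q →ₐ[𝒪] A) (pB : Q →ₐ[𝒪] B)
    (hpA : IsLocalHom (pA : Q →+* A)) (hpB : IsLocalHom (pB : Q →+* B))
    (hinj : Function.Injective (fun x => (pA x, pB x))) :
    Function.Injective (toFibProd hsurjQ pA pB hpA hpB) := by
  intro x y h
  apply hinj
  have := congrArg (fun z : ↥(fibProd 𝒪 A B) => (z : A × B)) h
  exact this

end ToFibProd

end Fermat.Agent.S53

end
-- ===== PACK-END S53/CommAlgTest.lean

-- ===== PACK-BEGIN S13/H175/InertiaMem.lean
section




set_option autoImplicit false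

/-!
# Membership criteria for the Prelude inertia subgroup `A.inertiaSubgroupIn K`
-/

open scoped Pointwise

namespace Fermat.Agent.S13.H175

/-- An automorphism stabilising `A` and acting trivially on the residue field of `A` lies in
the inertia subgroup. -/
theorem mem_inertiaSubgroupIn_of {K L : Type*} [Field K] [Field L] [Algebra K L]
    (A : ValuationSubring L) (σ : L ≃ₐ[K] L) (hstab : σ • A = A)
    (h : ∀ x : L, x ∈ A → σ x - x ∈ A.nonunits) : σ ∈ A.inertiaSubgroupIn K := by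
  unfold ValuationSubring.inertiaSubgroupIn
  rw [Subgroup.mem_map]
  refine ⟨⟨σ, hstab⟩, ?_, rfl⟩
  unfold ValuationSubring.inertiaSubgroup
  rw [MonoidHom.mem_ker]
  ext r
  obtain ⟨x, rfl⟩ := IsLocalRing.residue_surjective r
  show (⟨σ, hstab⟩ : A.decompositionSubgroup K) • IsLocalRing.residue A x = IsLocalRing.residue A x
  rw [← IsLocalRing.ResidueField.residue_smul]
  rw [← sub_eq_zero, ← map_sub, IsLocalRing.residue_eq_zero_iff]
  have h1 := h x x.2
  rw [ValuationSubring.mem_nonunits_iff_exists_mem_maximalIdeal] at h1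
  obtain ⟨h2, h3⟩ := h1
  convert h3 using 1
  exact Subtype.ext rfl

/-- Over an algebraic extension of `ℚ`: an automorphism acting trivially modulo the maximal
ideal of `A` on all algebraic integers lies in the inertia subgroup of `A`. -/
theorem mem_inertiaSubgroupIn_of_integral
    (A : ValuationSubring (AlgebraicClosure ℚ)) (ℓ : ℕ) (hℓ : ℓ.Prime) (hA : A.LiesOverPrime ℓ)
    (σ : AlgebraicClosure ℚ ≃ₐ[ℚ] AlgebraicClosure ℚ)
    (h : ∀ x : AlgebraicClosure ℚ, IsIntegral ℤ x → σ x - x ∈ A.nonunits) :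
    σ ∈ A.inertiaSubgroupIn ℚ := by
  have : Algebra.IsAlgebraic ℚ (AlgebraicClosure ℚ) := AlgebraicClosure.isAlgebraic ℚ
  -- `σ` maps integral elements to integral elements
  have hint : ∀ (τ : AlgebraicClosure ℚ ≃ₐ[ℚ] AlgebraicClosure ℚ) (x : AlgebraicClosure ℚ),
      IsIntegral ℤ x → IsIntegral ℤ (τ x) := by
    intro τ x hx
    exact hx.map τ
  -- the same hypothesis holds for `σ⁻¹`
  have h' : ∀ x : AlgebraicClosure ℚ, IsIntegral ℤ x → σ.symm x - x ∈ A.nonunits := by
    intro x hx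
    have h1 := h (σ.symm x) (hint σ.symm x hx)
    rw [AlgEquiv.apply_symm_apply] at h1
    have := A.nonunits.neg_mem h1
    simpa using this
  -- key: such a `τ` maps `A` into `A` and acts trivially on the residue field
  have key : ∀ (τ : AlgebraicClosure ℚ ≃ₐ[ℚ] AlgebraicClosure ℚ),
      (∀ x : AlgebraicClosure ℚ, IsIntegral ℤ x → τ x - x ∈ A.nonunits) →
      ∀ x : AlgebraicClosure ℚ, x ∈ A → τ x ∈ A ∧ τ x - x ∈ A.nonunits := by
    intro τ hτ x hx
    obtain ⟨b, s, hb, hs, hsA, hxs⟩ := (Fermat.Agent.S54.mem_valuationSubring_iff A ℓ hℓ hA x).mp hx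
    have hbA : b ∈ A := Fermat.Agent.S54.isIntegral_mem_valuationSubring A hb
    have hsmem : s ∈ A := Fermat.Agent.S54.isIntegral_mem_valuationSubring A hs
    have hτs_mem : τ s ∈ A := Fermat.Agent.S54.isIntegral_mem_valuationSubring A (hint τ s hs)
    have hτb_mem : τ b ∈ A := Fermat.Agent.S54.isIntegral_mem_valuationSubring A (hint τ b hb)
    have hs0 : s ≠ 0 := fun h0 => hsA (h0 ▸ A.nonunits.zero_mem)
    have hτs0 : τ s ≠ 0 := fun h0 => hs0 (by simpa using h0)
    -- `τ s` is a unit of `A`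
    have hτsA : τ s ∉ A.nonunits := by
      intro hcon
      have h1 := hτ s hs
      have h2 : s = τ s - (τ s - s) := by ring
      apply hsA
      rw [h2]
      exact A.nonunits.sub_mem hcon h1
    have hsinv : s⁻¹ ∈ A := by
      by_contra hc
      exact hsA (A.mem_nonunits_iff_or.mpr (Or.inr hc))
    have hτsinv : (τ s)⁻¹ ∈ A := by
      by_contra hc
      exact hτsA (A.mem_nonunits_iff_or.mpr (Or.inr hc))
    have hx_eq : x = b * s⁻¹ := by
      rw [← hxs]; field_simp
    have hτx_eq : τ x = τ b * (τ s)⁻¹ := by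
      rw [hx_eq, map_mul, map_inv₀]
    refine ⟨?_, ?_⟩
    · rw [hτx_eq]
      exact A.mul_mem _ _ hτb_mem hτsinv
    · have hdiff : τ x - x = ((τ b - b) * s - b * (τ s - s)) * ((τ s)⁻¹ * s⁻¹) := by
        rw [hτx_eq, hx_eq]
        field_simp
        ring
      rw [hdiff]
      -- nonunits form an ideal-like subset
      have hmul : ∀ u v : AlgebraicClosure ℚ, u ∈ A.nonunits → v ∈ A → u * v ∈ A.nonunits := by
        intro u v hu hv
        obtain ⟨h1, h2⟩ := ValuationSubring.mem_nonunits_iff_exists_mem_maximalIdeal.mp hu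
        have := Ideal.mul_mem_right (⟨v, hv⟩ : A) _ h2
        exact ValuationSubring.mem_nonunits_iff_exists_mem_maximalIdeal.mpr ⟨_, this⟩
      apply hmul _ _ _ (A.mul_mem _ _ hτsinv hsinv)
      apply A.nonunits.sub_mem
      · exact hmul _ _ (hτ b hb) hsmem
      · rw [mul_comm]
        exact hmul _ _ (hτ s hs) hbA
  apply mem_inertiaSubgroupIn_of A σ
  · -- `σ • A = A`
    apply le_antisymm
    · intro y hy
      obtain ⟨x, hx, rfl⟩ := (ValuationSubring.mem_smul_pointwise_iff_exists σ y A).mp hy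
      exact (key σ h x hx).1
    · intro y hy
      rw [ValuationSubring.mem_smul_pointwise_iff_exists]
      refine ⟨σ.symm y, (key σ.symm h' y hy).1, ?_⟩
      simp
  · intro x hx
    exact (key σ h x hx).2

end Fermat.Agent.S13.H175

end
-- ===== PACK-END S13/H175/InertiaMem.lean

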