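import Mathlib
import Fermat.Prelude.Def_ModularCurve_IgusaScheme
import Fermat.Prelude.Def_ModularCurve_X0ModL
import Fermat.Prelude.Def_GaloisRep_Flat
import Fermat.Prelude.Def_AlgebraicCurve_Correspondence

-- ===== PACK-BEGIN S18/H274/DetRank.lean
section


/-!
# S18 / b2 (helper274) — DET-RANK

Mathlib-only linear algebra.  `R` a commutative ring, `π : R →+* K` a surjection onto a field
whose kernel is contained in `(t)`.  If the reduction `M.map π` of a square matrix `M` kills `s`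
linearly independent vectors, then `t ^ s ∣ det M`.

Main statements (all sorry-free):

* `pow_card_dvd_det_of_col_dvd` : columns in a finset `S` divisible by `t`  ⇒ `t ^ #S ∣ det`.
* `pow_dvd_det_of_linearIndependent_ker` : the elementwise kernel form.
* `pow_sub_rank_dvd_det` : `t ^ (card n - rank (M.map π)) ∣ det M`.
-/

namespace Fermat.Agent.S18.H274

open Matrix Module

variable {R : Type*} [CommRing R]

/-- If all columns with index in `S` of a square matrix are divisible by `t`, then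
`t ^ #S` divides the determinant. -/
theorem pow_card_dvd_det_of_col_dvd {n : Type*} [Fintype n] [DecidableEq n]
    (t : R) (N : Matrix n n R) (S : Finset n) (h : ∀ j ∈ S, ∀ i, t ∣ N i j) :
    t ^ S.card ∣ N.det := by
  classical
  choose! Q hQ using h
  let Q' : Matrix n n R := fun i j => if j ∈ S then Q j i else N i j
  let d : n → R := fun j => if j ∈ S then t else 1
  have hN : N = Q' * Matrix.diagonal d := by
    ext i j
    rw [Matrix.mul_diagonal]
    by_cases hj : j ∈ S
    · simp only [Q', d, hj, if_true]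
      rw [hQ j hj i, mul_comm]
    · simp [Q', d, hj]
  have hd : ∏ j, d j = t ^ S.card := by
    simp only [d]
    rw [Finset.prod_ite_mem, Finset.univ_inter, Finset.prod_const]
  rw [hN, Matrix.det_mul, Matrix.det_diagonal, hd]
  exact Dvd.intro_left _ rfl

/-- **DET-RANK, kernel form.**  `π : R →+* K` a surjection onto a field with `ker π ⊆ (t)`.
If the reduced matrix `M.map π` kills `s` linearly independent vectors then `t ^ s ∣ det M`. -/
theorem pow_dvd_det_of_linearIndependent_ker {K : Type*} [Field K] (π : R →+* K)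
    (hπ : Function.Surjective π) (t : R) (hker : ∀ x, π x = 0 → t ∣ x)
    {n : Type*} [Fintype n] [DecidableEq n] (M : Matrix n n R) {s : ℕ}
    (v : Fin s → n → K) (hv : LinearIndependent K v)
    (hMv : ∀ a, (M.map π).mulVec (v a) = 0) :
    t ^ s ∣ M.det := by
  classical
  -- extend `v` to a basis of `n → K`
  have hs := hv.linearIndepOn_id
  let B := Basis.extend hs
  have hB : ∀ x, B x = (x : n → K) := fun x => by rw [Basis.coe_extend]
  have hsub : Set.range v ⊆ hs.extend (Set.subset_univ _) := hs.subset_extend _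
  let _ : Fintype (hs.extend (Set.subset_univ (Set.range v))) :=
    FiniteDimensional.fintypeBasisIndex B
  let e : n ≃ (hs.extend (Set.subset_univ (Set.range v))) := (Pi.basisFun K n).indexEquiv B
  -- the matrix of the new basis and a lift
  let Pbar : Matrix n n K := fun i j => (e j : n → K) i
  have hPbar_unit : IsUnit Pbar.det := by
    rw [← Matrix.isUnit_iff_isUnit_det, ← Matrix.linearIndependent_cols_iff_isUnit]
    have h1 : LinearIndependent K (fun j => B (e j)) :=
      B.linearIndependent.comp e e.injective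
    have h2 : Pbar.col = fun j => B (e j) := by
      funext j
      rw [hB]
      rfl
    rw [h2]
    exact h1
  let P : Matrix n n R := fun i j => Classical.choose (hπ (Pbar i j))
  have hP : P.map π = Pbar := by
    ext i j
    exact Classical.choose_spec (hπ (Pbar i j))
  -- the set of columns coming from `v`
  let S : Finset n := Finset.univ.image (fun a : Fin s => e.symm ⟨v a, hsub ⟨a, rfl⟩⟩)
  have hScard : S.card = s := by
    rw [Finset.card_image_of_injective]
    · simp
    · intro a a' h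
      have := e.symm.injective h
      exact hv.injective (Subtype.mk.inj this)
  have hcol : ∀ j ∈ S, ∀ i, t ∣ (M * P) i j := by
    intro j hj i
    obtain ⟨a, -, rfl⟩ := Finset.mem_image.mp hj
    apply hker
    rw [RingHom.map_matrix_mul, hP]
    have h3 := congrFun (hMv a) i
    simp only [Matrix.mulVec, dotProduct, Pi.zero_apply] at h3
    rw [Matrix.mul_apply]
    simp only [Pbar, Equiv.apply_symm_apply]
    exact h3
  have h4 := pow_card_dvd_det_of_col_dvd t (M * P) S hcol
  rw [hScard, Matrix.det_mul] at h4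
  -- `det P` is coprime to `t`
  have hdetP : π P.det = Pbar.det := by
    rw [RingHom.map_det, RingHom.mapMatrix_apply, hP]
  obtain ⟨y, hy⟩ := hπ (↑hPbar_unit.unit⁻¹ : K)
  have h5 : π (y * P.det - 1) = 0 := by
    rw [_root_.map_sub, _root_.map_mul, hy, hdetP, _root_.map_one, sub_eq_zero]
    exact hPbar_unit.val_inv_mul
  obtain ⟨z, hz⟩ := hker _ h5
  have hcop : IsCoprime t P.det := ⟨-z, y, by linear_combination hz⟩
  exact (hcop.pow_left).dvd_of_dvd_mul_right h4

/-- **DET-RANK, rank form.**  `t ^ (card n - rank (M mod t)) ∣ det M`. -/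
theorem pow_sub_rank_dvd_det {K : Type*} [Field K] (π : R →+* K)
    (hπ : Function.Surjective π) (t : R) (hker : ∀ x, π x = 0 → t ∣ x)
    {n : Type*} [Fintype n] [DecidableEq n] (M : Matrix n n R) :
    t ^ (Fintype.card n - (M.map π).rank) ∣ M.det := by
  classical
  let f := (M.map π).mulVecLin
  have hrn := LinearMap.finrank_range_add_finrank_ker f
  have hrank : (M.map π).rank = finrank K (LinearMap.range f) := rfl
  have hcard : finrank K (n → K) = Fintype.card n := Module.finrank_fintype_fun_eq_card K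
  have hk : finrank K (LinearMap.ker f) = Fintype.card n - (M.map π).rank := by
    rw [hrank]; omega
  let b := Module.finBasis K (LinearMap.ker f)
  rw [← hk]
  refine pow_dvd_det_of_linearIndependent_ker π hπ t hker M
    (fun a => ((b a : LinearMap.ker f) : n → K)) ?_ ?_
  · have := b.linearIndependent
    exact this.map' (LinearMap.ker f).subtype (Submodule.ker_subtype _)
  · intro a
    have := (b a).2
    rw [LinearMap.mem_ker] at this
    exact this

end Fermat.Agent.S18.H274

end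
-- ===== PACK-END S18/H274/DetRank.lean

-- ===== PACK-BEGIN S37/H278/DetDvd.lean
section


/-!
# S37 / S18, piece b2-core (helper278): determinant divisibility

A matrix whose rows indexed by `Z` are divisible by `t`, whose column `i₀` is divisible by `t`, and
whose entries `(i, i₀)` with `i ∈ Z` are divisible by `t ^ 2`, has determinant divisible by
`t ^ (#Z + 1)`.
-/

set_option autoImplicit false

namespace Fermat.Agent.S37.H278

open Matrix

theorem pow_card_dvd_det {R : Type*} [CommRing R] {ι : Type*} [Fintype ι] [DecidableEq ι]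
    (t : R) (T : Matrix ι ι R) (Z : Finset ι)
    (h1 : ∀ i ∈ Z, ∀ j, t ∣ T i j) :
    t ^ Z.card ∣ T.det := by
  classical
  choose! r hr using h1
  let T' : Matrix ι ι R := Matrix.of fun i j => if i ∈ Z then r i j else T i j
  have hT : T = Matrix.of fun i j => (if i ∈ Z then t else 1) * T' i j := by
    ext i j
    by_cases hi : i ∈ Z
    · simp [T', hi, hr i hi j]
    · simp [T', hi]
  rw [hT, Matrix.det_mul_column]
  have : (∏ i : ι, if i ∈ Z then t else 1) = t ^ Z.card := by
    rw [Finset.prod_ite_mem, Finset.univ_inter, Finset.prod_const]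
  rw [this]
  exact Dvd.intro _ rfl

theorem pow_card_succ_dvd_det {R : Type*} [CommRing R] {ι : Type*} [Fintype ι] [DecidableEq ι]
    (t : R) (T : Matrix ι ι R) (Z : Finset ι) (i₀ : ι)
    (h1 : ∀ i ∈ Z, ∀ j, t ∣ T i j)
    (h2 : ∀ i ∈ Z, t ^ 2 ∣ T i i₀)
    (h3 : ∀ j, t ∣ T j i₀) :
    t ^ (Z.card + 1) ∣ T.det := by
  classical
  choose! r hr using h1
  choose! q hq using h2
  choose p hp using h3
  let T' : Matrix ι ι R := Matrix.of fun i j =>
    if j = i₀ then (if i ∈ Z then q i else p i) else (if i ∈ Z then r i j else T i j)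
  have hT : T = Matrix.of fun i j =>
      (if i ∈ Z then t else 1) * ((Matrix.of fun i j => (if j = i₀ then t else 1) * T' i j) i j) := by
    ext i j
    by_cases hi : i ∈ Z <;> by_cases hj : j = i₀
    · subst hj; simp [T', hi, hq i hi]; ring
    · simp [T', hi, hj, hr i hi j]
    · subst hj; simp [T', hi, hp i]
    · simp [T', hi, hj]
  rw [hT, Matrix.det_mul_column, Matrix.det_mul_row]
  have e1 : (∏ i : ι, if i ∈ Z then t else 1) = t ^ Z.card := by
    rw [Finset.prod_ite_mem, Finset.univ_inter, Finset.prod_const]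
  have e2 : (∏ j : ι, if j = i₀ then t else 1) = t := by
    rw [Finset.prod_ite_eq' Finset.univ i₀ (fun _ => t)]
    simp
  rw [e1, e2, pow_succ]
  exact Dvd.intro (T'.det) (by ring)

end Fermat.Agent.S37.H278

end
-- ===== PACK-END S37/H278/DetDvd.lean

-- ===== PACK-BEGIN S37/H278/Lattice.lean
section


/-!
# S37 / S18, piece b2-core (helper278): lattices in a finite algebra and their traces

`o` a PID with fraction field `K`, `L` a commutative `K`-algebra.  A subalgebra `R ⊆ L` which is a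
finitely generated `o`-module spanning `L` is finite free over `o`, `L` is its localization, and the
trace of `L / K` restricted to `R` is the trace of `R / o`.
-/

set_option autoImplicit false

namespace Fermat.Agent.S37.H278

open Module

section Lattice

variable {o K L : Type*} [CommRing o] [IsDomain o]
  [Field K] [Algebra o K] [IsFractionRing o K]
  [CommRing L] [Algebra K L] [Algebra o L] [IsScalarTower o K L]

omit [IsDomain o] in
theorem smul_eq_zero_of_fractionRing (K : Type*) [Field K] [Algebra o K] [IsFractionRing o K]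
    [Algebra K L] [IsScalarTower o K L] {r : o} (hr : r ≠ 0) {x : L}
    (h : r • x = 0) : x = 0 := by
  have h' : (algebraMap o K r) • x = 0 := by rwa [algebraMap_smul]
  have hne : algebraMap o K r ≠ 0 := by
    intro h0
    exact hr ((IsFractionRing.injective o K) (by rw [h0, map_zero]))
  rcases smul_eq_zero.mp h' with h1 | h1
  · exact absurd h1 hne
  · exact h1

/-- A lattice: a subalgebra of `L`, finitely generated as `o`-module, spanning `L`. -/
structure IsLattice (R : Subalgebra o L) : Prop where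
  fg : (Subalgebra.toSubmodule R).FG
  span : ∀ l : L, ∃ σ : o, σ ≠ 0 ∧ σ • l ∈ R

variable {R : Subalgebra o L}

theorem IsLattice.finite (h : IsLattice R) : Module.Finite o R :=
  Module.Finite.iff_fg.mpr h.fg

include K in
theorem isTorsionFree_subalgebra (R : Subalgebra o L) : Module.IsTorsionFree o R := by
  refine ⟨fun r hr x y hxy => ?_⟩
  have hr0 : r ≠ 0 := by
    rintro rfl
    have := hr.left
    exact one_ne_zero (this (by simp : (0 : o) * 1 = 0 * 0))
  have hxy' : r • ((x : L) - (y : L)) = 0 := by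
    have := congrArg (Subtype.val) hxy
    simp only [Subalgebra.coe_smul] at this
    rw [smul_sub, this, sub_self]
  have := smul_eq_zero_of_fractionRing K hr0 hxy'
  exact Subtype.ext (sub_eq_zero.mp this)

include K in
theorem IsLattice.free [IsPrincipalIdealRing o] (h : IsLattice R) : Module.Free o R := by
  haveI := h.finite
  haveI := isTorsionFree_subalgebra (K := K) R
  exact Module.free_of_finite_type_torsion_free'

include K in
theorem IsLattice.isLocalization (h : IsLattice R) :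
    IsLocalization (Algebra.algebraMapSubmonoid R (nonZeroDivisors o)) L where
  map_units := by
    rintro ⟨y, σ, hσ, rfl⟩
    have hσ0 : σ ≠ 0 := nonZeroDivisors.ne_zero hσ
    have hne : algebraMap o K σ ≠ 0 := by
      intro h0
      exact hσ0 ((IsFractionRing.injective o K) (by rw [h0, map_zero]))
    have : algebraMap R L (algebraMap o R σ) = algebraMap K L (algebraMap o K σ) := by
      rw [← IsScalarTower.algebraMap_apply, ← IsScalarTower.algebraMap_apply]
    rw [this]
    exact (IsUnit.mk0 _ hne).map (algebraMap K L)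
  surj := by
    intro l
    obtain ⟨σ, hσ, hl⟩ := h.span l
    refine ⟨(⟨σ • l, hl⟩, ⟨algebraMap o R σ, σ, mem_nonZeroDivisors_of_ne_zero hσ, rfl⟩), ?_⟩
    show l * algebraMap R L (algebraMap o R σ) = σ • l
    rw [← IsScalarTower.algebraMap_apply, Algebra.smul_def, mul_comm]
  exists_of_eq := by
    intro x y hxy
    refine ⟨1, ?_⟩
    have : x = y := Subtype.ext hxy
    rw [this]

include K in
theorem IsLattice.trace_eq [IsPrincipalIdealRing o] (h : IsLattice R) (a : R) :
    Algebra.trace K L (a : L) = algebraMap o K (Algebra.trace o R a) := by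
  haveI := h.finite
  haveI := h.free (K := K)
  haveI := h.isLocalization (K := K)
  exact Algebra.trace_localization o (nonZeroDivisors o) (Rₘ := K) (Sₘ := L) a

theorem isLattice_adjoin {G : Set L} (hG : G.Finite) (hint : ∀ g ∈ G, IsIntegral o g)
    (hspan : ∀ l : L, ∃ σ : o, σ ≠ 0 ∧ σ • l ∈ Algebra.adjoin o G) :
    IsLattice (Algebra.adjoin o G) :=
  ⟨fg_adjoin_of_finite hG hint, hspan⟩

end Lattice

section DVR

variable {o K L : Type*} [CommRing o] [IsDomain o] [IsDiscreteValuationRing o]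
  [Field K] [Algebra o K] [IsFractionRing o K]
  [CommRing L] [Algebra K L] [Algebra o L] [IsScalarTower o K L]

/-- In a finite free algebra over a local ring, the trace of an element which is nilpotent
modulo the maximal ideal lies in the maximal ideal. -/
theorem trace_mem_maximalIdeal_of_pow_mem {o S : Type*} [CommRing o] [IsLocalRing o]
    [CommRing S] [Algebra o S] [Module.Free o S] [Module.Finite o S] (a : S) (k : ℕ)
    (hk : a ^ k ∈ Ideal.map (algebraMap o S) (IsLocalRing.maximalIdeal o)) :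
    Algebra.trace o S a ∈ IsLocalRing.maximalIdeal o := by
  have h1 := Algebra.trace_quotient_mk (R := o) (S := S) a
  have hnil : IsNilpotent
      (Ideal.Quotient.mk (Ideal.map (algebraMap o S) (IsLocalRing.maximalIdeal o)) a) := by
    refine ⟨k, ?_⟩
    rw [← map_pow]
    exact Ideal.Quotient.eq_zero_iff_mem.mpr hk
  have h2 := Algebra.isNilpotent_trace_of_isNilpotent
    (R := o ⧸ IsLocalRing.maximalIdeal o) hnil
  rw [h1] at h2
  have h3 : (Ideal.Quotient.mk (IsLocalRing.maximalIdeal o)) (Algebra.trace o S a) = 0 := by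
    haveI : IsReduced (o ⧸ IsLocalRing.maximalIdeal o) := by
      haveI : (IsLocalRing.maximalIdeal o).IsPrime := inferInstance
      infer_instance
    exact h2.eq_zero
  exact Ideal.Quotient.eq_zero_iff_mem.mp h3

theorem dvd_trace_of_pow_mem {S : Type*} [CommRing S] [Algebra o S] [Module.Free o S]
    [Module.Finite o S] {t : o} (ht : Irreducible t) (a : S) (k : ℕ)
    (hk : ∃ a' : S, a ^ k = t • a') : t ∣ Algebra.trace o S a := by
  have hmax : IsLocalRing.maximalIdeal o = Ideal.span {t} := ht.maximalIdeal_eq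
  obtain ⟨a', ha'⟩ := hk
  have hmem : a ^ k ∈ Ideal.map (algebraMap o S) (IsLocalRing.maximalIdeal o) := by
    rw [ha', Algebra.smul_def]
    apply Ideal.mul_mem_right
    apply Ideal.mem_map_of_mem
    rw [hmax]
    exact Ideal.mem_span_singleton_self t
  have := trace_mem_maximalIdeal_of_pow_mem a k hmem
  rw [hmax] at this
  exact Ideal.mem_span_singleton.mp this

include K in
/-- trace of an element of a lattice, nilpotent modulo `t`, is divisible by `t` -/
theorem IsLattice.dvd_trace {R : Subalgebra o L} (h : IsLattice R) {t : o} (ht : Irreducible t)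
    (a : R) (k : ℕ) (hk : ∃ a' : R, a ^ k = t • a') : t ∣ Algebra.trace o R a := by
  haveI := h.finite
  haveI := h.free (K := K)
  exact dvd_trace_of_pow_mem ht a k hk

end DVR

end Fermat.Agent.S37.H278

end
-- ===== PACK-END S37/H278/Lattice.lean

-- ===== PACK-BEGIN S18/H425/HsepLocal.lean
section


/-!
# S18 / b2.5 HSEP (helper425): local lemmas

* `isSeparable_of_aeval_derivative_ne_zero` : over a field, a root `y` of `P` with `P'(y) ≠ 0`
  is separable.
* `isUnit_discr_of_isSeparable_quotient` : `R` local, `S` finite free over `R`, `𝔪 S` maximal and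
  `S/𝔪S` separable over `R/𝔪` (elementwise) ⟹ the discriminant of any basis is a unit.

Mathlib-only.
-/

set_option autoImplicit false

namespace Fermat.Agent.S18.H425

open Polynomial

/-- A root `y` of `P` with `P'(y) ≠ 0` is separable over the base field. -/
theorem isSeparable_of_aeval_derivative_ne_zero {K F : Type*} [Field K] [Field F] [Algebra K F]
    (y : F) (P : K[X]) (h0 : aeval y P = 0) (h1 : aeval y (derivative P) ≠ 0) :
    IsSeparable K y := by
  have hP0 : P ≠ 0 := by
    rintro rfl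
    simp at h1
  have hint : IsIntegral K y := (isAlgebraic_iff_isIntegral).mp ⟨P, hP0, h0⟩
  obtain ⟨Q, hQ⟩ := minpoly.dvd K y h0
  have hirr : Irreducible (minpoly K y) := minpoly.irreducible hint
  rw [IsSeparable, separable_iff_derivative_ne_zero hirr]
  intro hd
  apply h1
  rw [hQ, derivative_mul, hd, zero_mul, zero_add, _root_.map_mul, minpoly.aeval, zero_mul]

open IsLocalRing in
/-- `R` local, `S` finite free over `R` with basis `b`.  If `𝔪 S` is a maximal ideal of `S` and
every element of `S / 𝔪 S` is separable over `R / 𝔪`, then `discr R b` is a unit. -/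
theorem isUnit_discr_of_isSeparable_quotient {R S : Type*} [CommRing R] [CommRing S]
    [Algebra R S] [IsLocalRing R] [Module.Free R S] [Module.Finite R S]
    {ι : Type*} [Fintype ι] [DecidableEq ι] (b : Module.Basis ι R S)
    (hmax : (Ideal.map (algebraMap R S) (maximalIdeal R)).IsMaximal)
    (hsep : ∀ y : S ⧸ Ideal.map (algebraMap R S) (maximalIdeal R),
      IsSeparable (R ⧸ maximalIdeal R) y) :
    IsUnit (Algebra.discr R b) := by
  let : Field (R ⧸ maximalIdeal R) := Ideal.Quotient.field _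
  let : Field (S ⧸ Ideal.map (algebraMap R S) (maximalIdeal R)) := Ideal.Quotient.field _
  have : Algebra.IsSeparable (R ⧸ maximalIdeal R)
      (S ⧸ Ideal.map (algebraMap R S) (maximalIdeal R)) := ⟨hsep⟩
  have : Module.Finite (R ⧸ maximalIdeal R)
      (S ⧸ Ideal.map (algebraMap R S) (maximalIdeal R)) :=
    Module.Finite.of_restrictScalars_finite R _ _
  have hne := Algebra.discr_not_zero_of_basis (R ⧸ maximalIdeal R) (basisQuotient b)
  have hmk : Algebra.discr (R ⧸ maximalIdeal R) (basisQuotient b) =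
      Ideal.Quotient.mk (maximalIdeal R) (Algebra.discr R b) := by
    rw [Algebra.discr_def, Algebra.discr_def, RingHom.map_det]
    congr 1
    ext i j
    simp only [Algebra.traceMatrix_apply, Algebra.traceForm_apply, basisQuotient_apply,
      RingHom.mapMatrix_apply, Matrix.map_apply, ← _root_.map_mul]
    exact Algebra.trace_quotient_mk (b i * b j)
  rw [hmk] at hne
  by_contra hu
  apply hne
  rw [Ideal.Quotient.eq_zero_iff_mem]
  exact (IsLocalRing.mem_maximalIdeal _).mpr hu

end Fermat.Agent.S18.H425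

end
-- ===== PACK-END S18/H425/HsepLocal.lean

-- ===== PACK-BEGIN S18/H394/Graded.lean
section


/-!
# S18, Route K, pieces b3+b4 (helper394): the graded Kummer algebra

`C` is a commutative `F`-algebra with a power basis `1, T, …, T^(m-1)` and `T ^ m = u`
(think `C = F[T]/(T^m - u)`).  For a subalgebra `B ⊆ F` which is `m`-root closed
(`f ^ m ∈ B → f ∈ B`) we define

  `kummerSub B = { ∑ fᵢ Tⁱ | fᵢ ^ m * u ^ i ∈ B }`

and show that it is a subalgebra of `C` (it is the integral closure of `B` in `C` when `B` is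
normal, but we never need that).
-/

set_option autoImplicit false

namespace Fermat.Agent.S18.H394

open Polynomial

section RootSets

variable {R F : Type*} [CommRing R] [Field F] [Algebra R F]

/-- `B` is closed under `m`-th roots taken in `F`. -/
def RootClosed (m : ℕ) (B : Subalgebra R F) : Prop := ∀ f : F, f ^ m ∈ B → f ∈ B

/-- `degSet B m u n = {f | f ^ m * u ^ n ∈ B}`: the coefficients allowed in degree `n`. -/
def degSet (B : Subalgebra R F) (m : ℕ) (u : F) (n : ℕ) : Set F := {f | f ^ m * u ^ n ∈ B}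

variable {B : Subalgebra R F} {m : ℕ} {u : F}

theorem mem_degSet {n : ℕ} {f : F} : f ∈ degSet B m u n ↔ f ^ m * u ^ n ∈ B := Iff.rfl

theorem zero_mem_degSet (hm : 0 < m) (n : ℕ) : (0 : F) ∈ degSet B m u n := by
  rw [mem_degSet, zero_pow hm.ne', zero_mul]
  exact B.zero_mem

theorem neg_mem_degSet {n : ℕ} {f : F} (hf : f ∈ degSet B m u n) : -f ∈ degSet B m u n := by
  rw [mem_degSet] at hf ⊢
  rcases Nat.even_or_odd m with h | h
  · rwa [h.neg_pow]
  · rw [h.neg_pow, neg_mul]
    exact B.neg_mem hf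

theorem mul_mem_degSet {i j : ℕ} {f g : F} (hf : f ∈ degSet B m u i) (hg : g ∈ degSet B m u j) :
    f * g ∈ degSet B m u (i + j) := by
  rw [mem_degSet] at hf hg ⊢
  have : (f * g) ^ m * u ^ (i + j) = (f ^ m * u ^ i) * (g ^ m * u ^ j) := by ring
  rw [this]
  exact B.mul_mem hf hg

theorem smul_mem_degSet {n : ℕ} {b f : F} (hb : b ∈ B) (hf : f ∈ degSet B m u n) :
    b * f ∈ degSet B m u n := by
  rw [mem_degSet] at hf ⊢
  have : (b * f) ^ m * u ^ n = b ^ m * (f ^ m * u ^ n) := by ring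
  rw [this]
  exact B.mul_mem (B.pow_mem hb m) hf

theorem mem_degSet_zero_of_mem {b : F} (hb : b ∈ B) : b ∈ degSet B m u 0 := by
  rw [mem_degSet, pow_zero, mul_one]
  exact B.pow_mem hb m

theorem mem_of_mem_degSet_zero (hB : RootClosed m B) {b : F} (hb : b ∈ degSet B m u 0) :
    b ∈ B := by
  rw [mem_degSet, pow_zero, mul_one] at hb
  exact hB b hb

theorem mul_pow_mem_degSet {q r : ℕ} {f : F} (hf : f ∈ degSet B m u (q * m + r)) :
    f * u ^ q ∈ degSet B m u r := by
  rw [mem_degSet] at hf ⊢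
  have : (f * u ^ q) ^ m * u ^ r = f ^ m * u ^ (q * m + r) := by ring
  rwa [this]

theorem degSet_mono {B B' : Subalgebra R F} (h : B ≤ B') (n : ℕ) :
    degSet B m u n ⊆ degSet B' m u n := fun _ hf => h hf

/-- The key point: `degSet` is closed under addition when `B` is `m`-root closed. -/
theorem add_mem_degSet (hB : RootClosed m B) {n : ℕ} {f g : F}
    (hf : f ∈ degSet B m u n) (hg : g ∈ degSet B m u n) : f + g ∈ degSet B m u n := by
  rw [mem_degSet] at hf hg ⊢
  rw [add_pow, Finset.sum_mul]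
  refine B.sum_mem fun a ha => ?_
  have ham : a ≤ m := Nat.lt_succ_iff.mp (Finset.mem_range.mp ha)
  have hroot : f ^ a * g ^ (m - a) * u ^ n ∈ B := by
    apply hB
    have : (f ^ a * g ^ (m - a) * u ^ n) ^ m
        = (f ^ m * u ^ n) ^ a * (g ^ m * u ^ n) ^ (m - a) := by
      have h1 : (u ^ n) ^ m = (u ^ n) ^ a * (u ^ n) ^ (m - a) := by
        rw [← pow_add, Nat.add_sub_cancel' ham]
      calc (f ^ a * g ^ (m - a) * u ^ n) ^ m
          = (f ^ m) ^ a * (g ^ m) ^ (m - a) * (u ^ n) ^ m := by ring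
        _ = (f ^ m) ^ a * (g ^ m) ^ (m - a) * ((u ^ n) ^ a * (u ^ n) ^ (m - a)) := by rw [h1]
        _ = (f ^ m * u ^ n) ^ a * (g ^ m * u ^ n) ^ (m - a) := by ring
    rw [this]
    exact B.mul_mem (B.pow_mem hf _) (B.pow_mem hg _)
  have : f ^ a * g ^ (m - a) * (m.choose a : F) * u ^ n
      = (m.choose a : F) * (f ^ a * g ^ (m - a) * u ^ n) := by ring
  rw [this]
  exact B.mul_mem (natCast_mem B _) hroot

theorem sum_mem_degSet (hB : RootClosed m B) (hm : 0 < m) {n : ℕ} {ι : Type*} (s : Finset ι)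
    (f : ι → F) (hf : ∀ i ∈ s, f i ∈ degSet B m u n) : ∑ i ∈ s, f i ∈ degSet B m u n := by
  classical
  induction s using Finset.induction_on with
  | empty => simpa using zero_mem_degSet (B := B) (u := u) hm n
  | insert a s ha ih =>
    rw [Finset.sum_insert ha]
    exact add_mem_degSet hB (hf a (Finset.mem_insert_self a s))
      (ih fun i hi => hf i (Finset.mem_insert_of_mem hi))

end RootSets

section Coeff

variable {F C : Type*} [Field F] [CommRing C] [Algebra F C]
variable (pb : PowerBasis F C) {u : F}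

/-- The `k`-th coefficient of `c` in the power basis. -/
noncomputable def co (k : Fin pb.dim) : C →ₗ[F] F :=
  (Finsupp.lapply k).comp pb.basis.repr.toLinearMap

theorem co_apply (k : Fin pb.dim) (c : C) : co pb k c = pb.basis.repr c k := rfl

theorem sum_co (c : C) : ∑ k : Fin pb.dim, algebraMap F C (co pb k c) * pb.gen ^ (k : ℕ) = c := by
  conv_rhs => rw [← pb.basis.sum_repr c]
  refine Finset.sum_congr rfl fun k _ => ?_
  rw [co_apply, pb.basis_eq_pow, Algebra.smul_def]

theorem gen_pow_eq (hT : pb.gen ^ pb.dim = algebraMap F C u) (q r : ℕ) :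
    pb.gen ^ (q * pb.dim + r) = algebraMap F C (u ^ q) * pb.gen ^ r := by
  rw [pow_add, mul_comm q, pow_mul, hT, _root_.map_pow]

theorem co_monomial (hT : pb.gen ^ pb.dim = algebraMap F C u) (f : F) (q : ℕ)
    (r k : Fin pb.dim) :
    co pb k (algebraMap F C f * pb.gen ^ (q * pb.dim + (r : ℕ))) = if r = k then f * u ^ q else 0 := by
  classical
  rw [gen_pow_eq pb hT, ← mul_assoc, ← _root_.map_mul, ← Algebra.smul_def, ← pb.basis_eq_pow, co_apply,
    _root_.map_smul, pb.basis.repr_self, Finsupp.smul_apply, Finsupp.single_apply, smul_eq_mul]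
  split_ifs <;> simp

theorem co_algebraMap_mul (f : F) (c : C) (k : Fin pb.dim) :
    co pb k (algebraMap F C f * c) = f * co pb k c := by
  rw [← Algebra.smul_def, _root_.map_smul, smul_eq_mul]

end Coeff

section KummerSub

variable {R F C : Type*} [CommRing R] [Field F] [Algebra R F] [CommRing C] [Algebra F C]
  [Algebra R C] [IsScalarTower R F C]
variable (pb : PowerBasis F C) {u : F}

/-- Coefficients of a monomial `f * T ^ n` (any `n`) with `f` allowed in degree `n` are allowed. -/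
theorem co_monomial_mem (hT : pb.gen ^ pb.dim = algebraMap F C u) (hm : 0 < pb.dim)
    {B : Subalgebra R F} {n : ℕ} {f : F}
    (hf : f ∈ degSet B pb.dim u n) (k : Fin pb.dim) :
    co pb k (algebraMap F C f * pb.gen ^ n) ∈ degSet B pb.dim u k := by
  have hn : n = n / pb.dim * pb.dim + ((⟨n % pb.dim, Nat.mod_lt _ hm⟩ : Fin pb.dim) : ℕ) := by
    simp only
    rw [mul_comm]
    exact (Nat.div_add_mod n pb.dim).symm
  have hco := co_monomial pb hT f (n / pb.dim) ⟨n % pb.dim, Nat.mod_lt _ hm⟩ k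
  rw [← hn] at hco
  rw [hco]
  split_ifs with h
  · subst h
    apply mul_pow_mem_degSet (q := n / pb.dim)
    simp only
    rw [mul_comm, Nat.div_add_mod]
    exact hf
  · exact zero_mem_degSet hm _

variable (u) in
/-- The graded Kummer subalgebra attached to a root-closed subalgebra `B ⊆ F`. -/
noncomputable def kummerSub (hT : pb.gen ^ pb.dim = algebraMap F C u) (hm : 0 < pb.dim)
    (B : Subalgebra R F) (hB : RootClosed pb.dim B) : Subalgebra R C where
  carrier := {c | ∀ k : Fin pb.dim, co pb k c ∈ degSet B pb.dim u k}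
  zero_mem' := fun k => by
    rw [_root_.map_zero]
    exact zero_mem_degSet hm _
  add_mem' := fun {a b} ha hb k => by
    rw [_root_.map_add]
    exact add_mem_degSet hB (ha k) (hb k)
  one_mem' := fun k => by
    have h1 : (1 : C) = algebraMap F C 1 * pb.gen ^ 0 := by simp
    rw [h1]
    exact co_monomial_mem pb hT hm (mem_degSet_zero_of_mem B.one_mem) k
  mul_mem' := fun {a b} ha hb k => by
    have hab : a * b = ∑ i : Fin pb.dim, ∑ j : Fin pb.dim,
        algebraMap F C (co pb i a * co pb j b) * pb.gen ^ ((i : ℕ) + (j : ℕ)) := by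
      conv_lhs => rw [← sum_co pb a, ← sum_co pb b, Finset.sum_mul_sum]
      refine Finset.sum_congr rfl fun i _ => Finset.sum_congr rfl fun j _ => ?_
      rw [_root_.map_mul, pow_add]
      ring
    rw [hab, _root_.map_sum]
    refine sum_mem_degSet hB hm _ _ fun i _ => ?_
    rw [_root_.map_sum]
    refine sum_mem_degSet hB hm _ _ fun j _ => ?_
    exact co_monomial_mem pb hT hm (mul_mem_degSet (ha i) (hb j)) k
  algebraMap_mem' := fun r k => by
    have h1 : algebraMap R C r = algebraMap F C (algebraMap R F r) * pb.gen ^ 0 := by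
      rw [pow_zero, mul_one, ← IsScalarTower.algebraMap_apply]
    rw [h1]
    exact co_monomial_mem pb hT hm (mem_degSet_zero_of_mem (B.algebraMap_mem r)) k

variable {pb}

theorem mem_kummerSub {hT : pb.gen ^ pb.dim = algebraMap F C u} {hm : 0 < pb.dim}
    {B : Subalgebra R F} {hB : RootClosed pb.dim B} {c : C} :
    c ∈ kummerSub pb u hT hm B hB ↔ ∀ k : Fin pb.dim, co pb k c ∈ degSet B pb.dim u k :=
  Iff.rfl

theorem monomial_mem_kummerSub (hT : pb.gen ^ pb.dim = algebraMap F C u) (hm : 0 < pb.dim)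
    {B : Subalgebra R F} (hB : RootClosed pb.dim B) {n : ℕ} {f : F}
    (hf : f ∈ degSet B pb.dim u n) :
    algebraMap F C f * pb.gen ^ n ∈ kummerSub pb u hT hm B hB :=
  fun k => co_monomial_mem pb hT hm hf k

theorem algebraMap_mem_kummerSub (hT : pb.gen ^ pb.dim = algebraMap F C u) (hm : 0 < pb.dim)
    {B : Subalgebra R F} (hB : RootClosed pb.dim B) {b : F} (hb : b ∈ B) :
    algebraMap F C b ∈ kummerSub pb u hT hm B hB := by
  have := monomial_mem_kummerSub hT hm hB (n := 0) (mem_degSet_zero_of_mem (m := pb.dim) (u := u) hb)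
  simpa using this

theorem kummerSub_mono (hT : pb.gen ^ pb.dim = algebraMap F C u) (hm : 0 < pb.dim)
    {B B' : Subalgebra R F} (hB : RootClosed pb.dim B) (hB' : RootClosed pb.dim B')
    (h : B ≤ B') : kummerSub pb u hT hm B hB ≤ kummerSub pb u hT hm B' hB' :=
  fun _ hc k => degSet_mono h _ (hc k)

end KummerSub

end Fermat.Agent.S18.H394

end
-- ===== PACK-END S18/H394/Graded.lean

-- ===== PACK-BEGIN S33/H270/KeyCore.lean
section


/-!
# S33, piece KEY (abstract core)  — helper270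

Abstract dévissage behind `(K)` of `coord/S33-helper409.md`, Mathlib only.

`G` a group, `I ≤ G` a subgroup ("inertia"), `J`, `J'` abelian groups with `G`-action,
`α β : J →+ J'` equivariant.  For a subgroup `Y ≤ J` put
`iAug I Y := ⟨σ • y - y : σ ∈ I, y ∈ Y⟩` and `sPlus I p J := ⋃ₙ (iAug I J[pⁿ] ∩ J[p])`.

* `le_iAug_of_devissage` : right exactness of coinvariants in subgroup form.
* `key_of` : `(K)` for `J` from `(S1⁺)`, `(S2)`, `(OLD)` for `J'` and one `σ₀ ∈ I` acting on the
  `p`-th roots of unity through an exponent `c₀` with `c₀ - 1` prime to `p`.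
-/

set_option autoImplicit false

namespace Fermat.Agent.S33.H270

variable {G : Type*} [Group G] {J J' : Type*} [AddCommGroup J] [AddCommGroup J']
  [DistribMulAction G J] [DistribMulAction G J']

/-- The augmentation subgroup `⟨σ • y - y : σ ∈ I, y ∈ Y⟩`. -/
def iAug (I : Subgroup G) (Y : AddSubgroup J) : AddSubgroup J :=
  AddSubgroup.closure {z | ∃ σ ∈ I, ∃ y ∈ Y, z = σ • y - y}

/-- The `m`-torsion subgroup. -/
def torsSub (J : Type*) [AddCommGroup J] (m : ℕ) : AddSubgroup J :=
  (nsmulAddMonoidHom (α := J) m).ker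

/-- `𝒮⁺ = ⋃ₙ (I_aug J[pⁿ] ∩ J[p])` as a predicate. -/
def InSPlus (I : Subgroup G) (p : ℕ) (x : J) : Prop :=
  p • x = 0 ∧ ∃ n : ℕ, x ∈ _root_.Fermat.Agent.S33.H270.iAug I (_root_.Fermat.Agent.S33.H270.torsSub J (p ^ n))

theorem mem_torsSub {m : ℕ} {x : J} : x ∈ _root_.Fermat.Agent.S33.H270.torsSub J m ↔ m • x = 0 := by
  unfold _root_.Fermat.Agent.S33.H270.torsSub
  rw [AddMonoidHom.mem_ker]
  rfl

theorem smul_sub_mem_iAug {I : Subgroup G} {Y : AddSubgroup J} {σ : G} (hσ : σ ∈ I) {y : J}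
    (hy : y ∈ Y) : σ • y - y ∈ _root_.Fermat.Agent.S33.H270.iAug I Y :=
  AddSubgroup.subset_closure ⟨σ, hσ, y, hy, rfl⟩

theorem iAug_mono {I : Subgroup G} {Y Z : AddSubgroup J} (h : Y ≤ Z) : _root_.Fermat.Agent.S33.H270.iAug I Y ≤ _root_.Fermat.Agent.S33.H270.iAug I Z := by
  unfold _root_.Fermat.Agent.S33.H270.iAug
  apply AddSubgroup.closure_mono
  rintro z ⟨σ, hσ, y, hy, rfl⟩
  exact ⟨σ, hσ, y, h hy, rfl⟩

/-- `I_aug Y ≤ Y` when `Y` is `I`-stable. -/
theorem iAug_le_self {I : Subgroup G} {Y : AddSubgroup J}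
    (hY : ∀ σ ∈ I, ∀ y ∈ Y, σ • y ∈ Y) : _root_.Fermat.Agent.S33.H270.iAug I Y ≤ Y := by
  unfold _root_.Fermat.Agent.S33.H270.iAug
  rw [AddSubgroup.closure_le]
  rintro z ⟨σ, hσ, y, hy, rfl⟩
  exact Y.sub_mem (hY σ hσ y hy) hy

/-- An `I`-equivariant additive map sends `I_aug Y` into `I_aug (f Y)`. -/
theorem map_mem_iAug {I : Subgroup G} (f : J →+ J')
    (hf : ∀ σ ∈ I, ∀ x : J, f (σ • x) = σ • f x) {Y : AddSubgroup J} {Y' : AddSubgroup J'}
    (hYY' : ∀ y ∈ Y, f y ∈ Y') {x : J} (hx : x ∈ _root_.Fermat.Agent.S33.H270.iAug I Y) : f x ∈ _root_.Fermat.Agent.S33.H270.iAug I Y' := by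
  unfold _root_.Fermat.Agent.S33.H270.iAug at hx
  induction hx using AddSubgroup.closure_induction with
  | mem z hz =>
    obtain ⟨σ, hσ, y, hy, rfl⟩ := hz
    rw [map_sub, hf σ hσ]
    exact _root_.Fermat.Agent.S33.H270.smul_sub_mem_iAug hσ (hYY' y hy)
  | zero => rw [map_zero]; exact AddSubgroup.zero_mem _
  | add a b _ _ ha hb => rw [map_add]; exact AddSubgroup.add_mem _ ha hb
  | neg a _ ha => rw [map_neg]; exact AddSubgroup.neg_mem _ ha

/-- Every element of `I_aug (f Y)` is the image of an element of `I_aug Y`. -/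
theorem exists_mem_iAug_of_mem_iAug_map {I : Subgroup G} (f : J →+ J')
    (hf : ∀ σ ∈ I, ∀ x : J, f (σ • x) = σ • f x) {Y : AddSubgroup J} {z : J'}
    (hz : z ∈ _root_.Fermat.Agent.S33.H270.iAug I (Y.map f)) : ∃ x ∈ _root_.Fermat.Agent.S33.H270.iAug I Y, f x = z := by
  unfold _root_.Fermat.Agent.S33.H270.iAug at hz
  induction hz using AddSubgroup.closure_induction with
  | mem w hw =>
    obtain ⟨σ, hσ, y', hy', rfl⟩ := hw
    obtain ⟨y, hy, rfl⟩ := AddSubgroup.mem_map.mp hy'
    exact ⟨σ • y - y, _root_.Fermat.Agent.S33.H270.smul_sub_mem_iAug hσ hy, by rw [map_sub, hf σ hσ]⟩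
  | zero => exact ⟨0, AddSubgroup.zero_mem _, map_zero f⟩
  | add a b _ _ ha hb =>
    obtain ⟨x, hx, rfl⟩ := ha
    obtain ⟨y, hy, rfl⟩ := hb
    exact ⟨x + y, AddSubgroup.add_mem _ hx hy, map_add f x y⟩
  | neg a _ ha =>
    obtain ⟨x, hx, rfl⟩ := ha
    exact ⟨-x, AddSubgroup.neg_mem _ hx, map_neg f x⟩

/-- **Dévissage** (right exactness of `I`-coinvariants, subgroup form).  `B` an `I`-stable
subgroup, `f` an `I`-equivariant map; if `B ∩ ker f` and `f B` are generated by their
augmentation, so is `B`. -/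
theorem le_iAug_of_devissage {I : Subgroup G} (f : J →+ J')
    (hf : ∀ σ ∈ I, ∀ x : J, f (σ • x) = σ • f x) {A B : AddSubgroup J}
    (hB : ∀ σ ∈ I, ∀ y ∈ B, σ • y ∈ B)
    (hAB : ∀ b ∈ B, f b = 0 → b ∈ A) (hAle : A ≤ B) (hA : A ≤ _root_.Fermat.Agent.S33.H270.iAug I A)
    (hC : B.map f ≤ _root_.Fermat.Agent.S33.H270.iAug I (B.map f)) : B ≤ _root_.Fermat.Agent.S33.H270.iAug I B := by
  intro b hb
  obtain ⟨z, hz, hzb⟩ := _root_.Fermat.Agent.S33.H270.exists_mem_iAug_of_mem_iAug_map f hf (hC (AddSubgroup.mem_map_of_mem f hb))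
  have hzB : z ∈ B := _root_.Fermat.Agent.S33.H270.iAug_le_self hB hz
  have hbz : b - z ∈ A := hAB _ (B.sub_mem hb hzB) (by rw [map_sub, hzb, sub_self])
  have h1 : b - z ∈ _root_.Fermat.Agent.S33.H270.iAug I B := _root_.Fermat.Agent.S33.H270.iAug_mono hAle (hA hbz)
  have h2 := AddSubgroup.add_mem _ h1 hz
  rwa [sub_add_cancel] at h2

/-- A subgroup of `J[p]` on which one `σ₀ ∈ I` acts by a scalar `c₀` with `d (c₀ - 1) ≡ 1 mod p`
is generated by its augmentation. -/
theorem le_iAug_of_scalar {I : Subgroup G} {p : ℕ} {Y : AddSubgroup J}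
    (hp : ∀ y ∈ Y, p • y = 0) {σ₀ : G} (hσ₀ : σ₀ ∈ I) {c₀ d : ℕ}
    (hcd : d * c₀ ≡ d + 1 [MOD p]) (hact : ∀ y ∈ Y, σ₀ • y = c₀ • y) : Y ≤ _root_.Fermat.Agent.S33.H270.iAug I Y := by
  intro y hy
  have hdy : d • y ∈ Y := Y.nsmul_mem hy d
  have h1 : σ₀ • (d • y) - d • y ∈ _root_.Fermat.Agent.S33.H270.iAug I Y := _root_.Fermat.Agent.S33.H270.smul_sub_mem_iAug hσ₀ hdy
  have h2 : σ₀ • (d • y) - d • y = y := by
    rw [hact _ hdy, smul_smul, sub_eq_iff_eq_add]
    -- `(c₀ * d) • y = y + d • y` since `c₀ d ≡ d + 1 mod p` and `p • y = 0`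
    have h4 : ∀ a : ℕ, a • y = (a % p) • y := by
      intro a
      conv_lhs => rw [← Nat.div_add_mod a p]
      rw [add_smul, mul_comm, mul_smul, hp y hy, smul_zero, zero_add]
    have h3 : ∀ a b : ℕ, a ≡ b [MOD p] → a • y = b • y := by
      intro a b hab
      rw [h4 a, h4 b, hab]
    rw [h3 (c₀ * d) (d + 1) (by rwa [mul_comm]), add_smul, one_smul, add_comm]
  rwa [h2] at h1

/-- The image of `𝒮⁺(J)` under an equivariant map lies in `𝒮⁺(J')`. -/
theorem InSPlus.map {I : Subgroup G} {p : ℕ} (f : J →+ J')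
    (hf : ∀ σ ∈ I, ∀ x : J, f (σ • x) = σ • f x) {x : J} (hx : _root_.Fermat.Agent.S33.H270.InSPlus I p x) :
    _root_.Fermat.Agent.S33.H270.InSPlus I p (f x) := by
  obtain ⟨hpx, n, hn⟩ := hx
  refine ⟨by rw [← map_nsmul, hpx, map_zero], n, ?_⟩
  refine _root_.Fermat.Agent.S33.H270.map_mem_iAug f hf (fun y hy => ?_) hn
  rw [_root_.Fermat.Agent.S33.H270.mem_torsSub] at hy ⊢
  rw [← map_nsmul, hy, map_zero]

/-- **(K) from (S1⁺) + (S2) + (OLD)**, abstract form with arbitrary predicates `SP`, `SP'`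
in the role of `𝒮⁺(J)`, `𝒮⁺(J')`.

* `hmapα`, `hmapβ` : `α`, `β` send `𝒮⁺(J)` into `𝒮⁺(J')`;
* `h𝒮` : (S1⁺) `𝒮⁺(J) ⊆ 𝒮`;
* `hS2` : (S2) on the new part of `𝒮`, `σ₀` acts by `c₀`;
* `hOLD` : (OLD) every `G`-stable subgroup of `𝒮⁺(J')` is generated by its augmentation.
-/
theorem key_of_pred {I : Subgroup G} {p : ℕ} (α β : J →+ J')
    (hα : ∀ (σ : G) (x : J), α (σ • x) = σ • α x)
    (hβ : ∀ (σ : G) (x : J), β (σ • x) = σ • β x)
    {σ₀ : G} (hσ₀ : σ₀ ∈ I) {c₀ d : ℕ} (hcd : d * c₀ ≡ d + 1 [MOD p])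
    (SP : J → Prop) (SP' : J' → Prop) (hSPp : ∀ x, SP x → p • x = 0)
    (hmapα : ∀ x, SP x → SP' (α x)) (hmapβ : ∀ x, SP x → SP' (β x))
    (𝒮 : Set J) (h𝒮 : ∀ x : J, SP x → x ∈ 𝒮)
    (hS2 : ∀ x ∈ 𝒮, p • x = 0 → α x = 0 → β x = 0 → σ₀ • x = c₀ • x)
    (hOLD : ∀ Y' : AddSubgroup J', (∀ (σ : G), ∀ y ∈ Y', σ • y ∈ Y') →
      (∀ y ∈ Y', SP' y) → Y' ≤ _root_.Fermat.Agent.S33.H270.iAug I Y')
    (Y : AddSubgroup J) (hYG : ∀ (σ : G), ∀ y ∈ Y, σ • y ∈ Y) (hY : ∀ y ∈ Y, SP y) :
    Y ≤ _root_.Fermat.Agent.S33.H270.iAug I Y := by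
  -- the three steps of the filtration `Y ⊇ Y₁ = Y ∩ ker α ⊇ Y₂ = Y₁ ∩ ker β`
  set Y₁ : AddSubgroup J := Y ⊓ α.ker with hY₁
  set Y₂ : AddSubgroup J := Y₁ ⊓ β.ker with hY₂
  have hY₁G : ∀ (σ : G), ∀ y ∈ Y₁, σ • y ∈ Y₁ := by
    intro σ y hy
    rw [hY₁, AddSubgroup.mem_inf, AddMonoidHom.mem_ker] at hy ⊢
    exact ⟨hYG σ y hy.1, by rw [hα, hy.2, smul_zero]⟩
  have h2 : Y₂ ≤ _root_.Fermat.Agent.S33.H270.iAug I Y₂ := by
    refine le_iAug_of_scalar (p := p) (fun y hy => ?_) hσ₀ hcd (fun y hy => ?_)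
    · exact hSPp y (hY y hy.1.1)
    · have hy1 : y ∈ Y := hy.1.1
      exact hS2 y (h𝒮 y (hY y hy1)) (hSPp y (hY y hy1)) (AddMonoidHom.mem_ker.mp hy.1.2)
        (AddMonoidHom.mem_ker.mp hy.2)
  have h1 : Y₁ ≤ _root_.Fermat.Agent.S33.H270.iAug I Y₁ := by
    refine _root_.Fermat.Agent.S33.H270.le_iAug_of_devissage (A := Y₂) (B := Y₁) β (fun σ _ x => hβ σ x)
      (fun σ _ y hy => hY₁G σ y hy)
      (fun b hb hb0 => AddSubgroup.mem_inf.mpr ⟨hb, AddMonoidHom.mem_ker.mpr hb0⟩)
      inf_le_left h2 ?_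
    refine hOLD _ ?_ ?_
    · rintro σ _ ⟨y, hy, rfl⟩
      exact ⟨σ • y, hY₁G σ y hy, hβ σ y⟩
    · rintro _ ⟨y, hy, rfl⟩
      exact hmapβ y (hY y hy.1)
  refine _root_.Fermat.Agent.S33.H270.le_iAug_of_devissage (A := Y₁) (B := Y) α (fun σ _ x => hα σ x)
    (fun σ _ y hy => hYG σ y hy)
    (fun b hb hb0 => AddSubgroup.mem_inf.mpr ⟨hb, AddMonoidHom.mem_ker.mpr hb0⟩)
    inf_le_left h1 ?_
  refine hOLD _ ?_ ?_
  · rintro σ _ ⟨y, hy, rfl⟩
    exact ⟨σ • y, hYG σ y hy, hα σ y⟩
  · rintro _ ⟨y, hy, rfl⟩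
    exact hmapα y (hY y hy)

/-- **(K) from (S1⁺) + (S2) + (OLD)**, abstract form with `𝒮⁺ = InSPlus`. -/
theorem key_of {I : Subgroup G} {p : ℕ} (α β : J →+ J')
    (hα : ∀ (σ : G) (x : J), α (σ • x) = σ • α x)
    (hβ : ∀ (σ : G) (x : J), β (σ • x) = σ • β x)
    {σ₀ : G} (hσ₀ : σ₀ ∈ I) {c₀ d : ℕ} (hcd : d * c₀ ≡ d + 1 [MOD p])
    (𝒮 : Set J) (h𝒮 : ∀ x : J, _root_.Fermat.Agent.S33.H270.InSPlus I p x → x ∈ 𝒮)
    (hS2 : ∀ x ∈ 𝒮, p • x = 0 → α x = 0 → β x = 0 → σ₀ • x = c₀ • x)
    (hOLD : ∀ Y' : AddSubgroup J', (∀ (σ : G), ∀ y ∈ Y', σ • y ∈ Y') →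
      (∀ y ∈ Y', _root_.Fermat.Agent.S33.H270.InSPlus I p y) → Y' ≤ _root_.Fermat.Agent.S33.H270.iAug I Y')
    (Y : AddSubgroup J) (hYG : ∀ (σ : G), ∀ y ∈ Y, σ • y ∈ Y) (hY : ∀ y ∈ Y, _root_.Fermat.Agent.S33.H270.InSPlus I p y) :
    Y ≤ _root_.Fermat.Agent.S33.H270.iAug I Y :=
  key_of_pred α β hα hβ hσ₀ hcd (_root_.Fermat.Agent.S33.H270.InSPlus I p) (_root_.Fermat.Agent.S33.H270.InSPlus I p) (fun _ hx => hx.1)
    (fun _ hx => hx.map α (fun σ _ x => hα σ x)) (fun _ hx => hx.map β (fun σ _ x => hβ σ x))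
    𝒮 h𝒮 hS2 hOLD Y hYG hY

end Fermat.Agent.S33.H270

end
-- ===== PACK-END S33/H270/KeyCore.lean

-- ===== PACK-BEGIN S28/H865Reduction.lean
section
/-
S28 helper (helper865): the REDUCTION MAP (V0).

* `resZl ℓ : ℤ_(ℓ) →+* 𝔽_ℓ`, the residue map;
* `igV ℓ ⊆ ℚ((q))`, the localisation of `ℤ_(ℓ)((q))` at the prime `(ℓ)` (a discrete valuation
  ring with uniformiser `ℓ`), realised as a subring of `ℚ((q))`;
* `igRed ℓ : igV ℓ →+* 𝔽_ℓ((q))`, reduction of `q`-expansions modulo `ℓ`, with kernel `ℓ · igV ℓ`;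
* `igE ℓ ⊆ ℚ((q))`, the fraction field of `igV ℓ`; it contains every `modularFunctionFieldFull N`;
* `igV ℓ` is integrally closed in `igE ℓ`; hence all charts `chartAlg N ℓ S`, `S ⊆ {j, j⁻¹}`
  are contained in `igV ℓ`, which gives the reduction maps `chartRed`.
-/




set_option autoImplicit false

noncomputable section

namespace Fermat.Agent.S28.H865

open ModularCurve

section Residue

variable (ℓ : ℕ) [Fact ℓ.Prime]

theorem den_ne_zero_zmod (x : ↥(GaloisRep.ratLocalizedAt ℓ)) : ((x.1.den : ℕ) : ZMod ℓ) ≠ 0 := by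
  rw [Ne, ZMod.natCast_eq_zero_iff]
  intro h
  have hc : Nat.Coprime x.1.den ℓ := x.2
  exact ((Nat.Prime.coprime_iff_not_dvd (Fact.out : ℓ.Prime)).mp hc.symm) h

/-- The residue map `ℤ_(ℓ) → 𝔽_ℓ`. -/
def resZl : ↥(GaloisRep.ratLocalizedAt ℓ) →+* ZMod ℓ where
  toFun x := ((x.1 : ℚ) : ZMod ℓ)
  map_one' := by simp
  map_zero' := by simp
  map_mul' x y := by
    show (((x.1 * y.1 : ℚ)) : ZMod ℓ) = _
    exact Rat.cast_mul_of_ne_zero (den_ne_zero_zmod ℓ x) (den_ne_zero_zmod ℓ y)
  map_add' x y := by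
    show (((x.1 + y.1 : ℚ)) : ZMod ℓ) = _
    exact Rat.cast_add_of_ne_zero (den_ne_zero_zmod ℓ x) (den_ne_zero_zmod ℓ y)

theorem resZl_apply (x : ↥(GaloisRep.ratLocalizedAt ℓ)) : resZl ℓ x = ((x.1 : ℚ) : ZMod ℓ) := rfl

/-- The kernel of the residue map is `ℓ · ℤ_(ℓ)`. -/
theorem resZl_eq_zero_iff (x : ↥(GaloisRep.ratLocalizedAt ℓ)) :
    resZl ℓ x = 0 ↔ ∃ y : ↥(GaloisRep.ratLocalizedAt ℓ), x = (ℓ : ↥(GaloisRep.ratLocalizedAt ℓ)) * y := by
  constructor
  · intro h
    rw [resZl_apply, Rat.cast_def, div_eq_zero_iff] at h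
    have hnum : ((x.1.num : ℤ) : ZMod ℓ) = 0 := h.resolve_right (den_ne_zero_zmod ℓ x)
    rw [ZMod.intCast_zmod_eq_zero_iff_dvd] at hnum
    obtain ⟨m, hm⟩ := hnum
    have hmem : (Rat.divInt m x.1.den) ∈ GaloisRep.ratLocalizedAt ℓ := by
      show (Rat.divInt m x.1.den).den.Coprime ℓ
      have hdvd : (Rat.divInt m x.1.den).den ∣ x.1.den := by
        exact_mod_cast Rat.den_dvd m x.1.den
      exact Nat.Coprime.coprime_dvd_left hdvd x.2
    refine ⟨⟨Rat.divInt m x.1.den, hmem⟩, Subtype.ext ?_⟩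
    have hd : ((x.1.den : ℕ) : ℚ) ≠ 0 := by exact_mod_cast x.1.den_ne_zero
    show x.1 = (((ℓ : ℕ) : ↥(GaloisRep.ratLocalizedAt ℓ)) : ℚ) * Rat.divInt m x.1.den
    rw [Rat.divInt_eq_div]
    conv_lhs => rw [← Rat.num_div_den x.1, hm]
    push_cast
    ring
  · rintro ⟨y, rfl⟩
    rw [map_mul, map_natCast, ZMod.natCast_self, zero_mul]

theorem natCast_ne_zero_ratLocalizedAt : ((ℓ : ℕ) : ↥(GaloisRep.ratLocalizedAt ℓ)) ≠ 0 := by
  intro h
  have h2 := congrArg (Subtype.val : ↥(GaloisRep.ratLocalizedAt ℓ) → ℚ) h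
  have h3 : ((ℓ : ℕ) : ℚ) = 0 := by simpa using h2
  exact (Fact.out : ℓ.Prime).ne_zero (by exact_mod_cast h3)

theorem padicValRat_nonneg_of_mem (x : ↥(GaloisRep.ratLocalizedAt ℓ)) :
    0 ≤ padicValRat ℓ x.1 := by
  rw [padicValRat_def]
  have hc : Nat.Coprime x.1.den ℓ := x.2
  have hnd : ¬ ℓ ∣ x.1.den := (Nat.Prime.coprime_iff_not_dvd (Fact.out : ℓ.Prime)).mp hc.symm
  rw [padicValNat.eq_zero_of_not_dvd hnd]
  simp

/-- A nonzero element of `ℤ_(ℓ)` is not divisible by all powers of `ℓ`. -/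
theorem exists_not_pow_dvd (r : ↥(GaloisRep.ratLocalizedAt ℓ)) (hr : r ≠ 0) :
    ∃ n : ℕ, ¬ ∃ s : ↥(GaloisRep.ratLocalizedAt ℓ),
      r = ((ℓ : ℕ) : ↥(GaloisRep.ratLocalizedAt ℓ)) ^ n * s := by
  by_contra hcon
  push Not at hcon
  have hr1 : r.1 ≠ 0 := fun h => hr (Subtype.ext h)
  obtain ⟨s, hs⟩ := hcon ((padicValRat ℓ r.1).toNat + 1)
  have hs0 : s.1 ≠ 0 := by
    intro h
    apply hr
    rw [hs, show s = 0 from Subtype.ext h, mul_zero]
  have hℓ0 : ((ℓ : ℕ) : ℚ) ≠ 0 := by
    exact_mod_cast (Fact.out : ℓ.Prime).ne_zero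
  have hval : padicValRat ℓ r.1 =
      (((padicValRat ℓ r.1).toNat + 1 : ℕ) : ℤ) + padicValRat ℓ s.1 := by
    have h1 : r.1 = ((ℓ : ℕ) : ℚ) ^ ((padicValRat ℓ r.1).toNat + 1) * s.1 := by
      have := congrArg (Subtype.val : ↥(GaloisRep.ratLocalizedAt ℓ) → ℚ) hs
      simpa using this
    conv_lhs => rw [h1]
    rw [padicValRat.mul (pow_ne_zero _ hℓ0) hs0, padicValRat.pow,
      padicValRat.self (Fact.out : ℓ.Prime).one_lt, mul_one]
  have h2 := padicValRat_nonneg_of_mem ℓ s
  have h3 := Int.self_le_toNat (padicValRat ℓ r.1)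
  push_cast at hval
  omega

end Residue

section Laurent

variable (ℓ : ℕ) [Fact ℓ.Prime]

/-- Coefficientwise inclusion `ℤ_(ℓ)((q)) → ℚ((q))`. -/
def toQ : LaurentSeries ↥(GaloisRep.ratLocalizedAt ℓ) →+* LaurentSeries ℚ :=
  coeffMap (GaloisRep.ratLocalizedAt ℓ).subtype

/-- Coefficientwise reduction `ℤ_(ℓ)((q)) → 𝔽_ℓ((q))`. -/
def toRes : LaurentSeries ↥(GaloisRep.ratLocalizedAt ℓ) →+* LaurentSeries (ZMod ℓ) :=
  coeffMap (resZl ℓ)

omit [Fact ℓ.Prime] in
@[simp]
theorem toQ_coeff (a : LaurentSeries ↥(GaloisRep.ratLocalizedAt ℓ)) (k : ℤ) :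
    (toQ ℓ a).coeff k = ((a.coeff k : ↥(GaloisRep.ratLocalizedAt ℓ)) : ℚ) := rfl

@[simp]
theorem toRes_coeff (a : LaurentSeries ↥(GaloisRep.ratLocalizedAt ℓ)) (k : ℤ) :
    (toRes ℓ a).coeff k = resZl ℓ (a.coeff k) := rfl

omit [Fact ℓ.Prime] in
theorem toQ_injective : Function.Injective (toQ ℓ) := by
  intro a b h
  ext k
  have := congrArg (fun z => HahnSeries.coeff z k) h
  exact this

omit [Fact ℓ.Prime] in
theorem toQ_eq_zero_iff (a : LaurentSeries ↥(GaloisRep.ratLocalizedAt ℓ)) :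
    toQ ℓ a = 0 ↔ a = 0 :=
  map_eq_zero_iff (toQ ℓ) (toQ_injective ℓ)

theorem natCast_mul_coeff {S : Type*} [CommRing S] (n : ℕ) (a : LaurentSeries S) (k : ℤ) :
    (((n : ℕ) : LaurentSeries S) * a).coeff k = (n : S) * a.coeff k := by
  rw [← map_natCast (HahnSeries.C : S →+* LaurentSeries S) n, HahnSeries.C_mul_eq_smul,
    HahnSeries.coeff_smul, smul_eq_mul]

/-- Division by `ℓ` on `ℤ_(ℓ)` (junk value `0` on non-multiples). -/
def divL (r : ↥(GaloisRep.ratLocalizedAt ℓ)) : ↥(GaloisRep.ratLocalizedAt ℓ) :=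
  if h : resZl ℓ r = 0 then Classical.choose ((resZl_eq_zero_iff ℓ r).mp h) else 0

theorem divL_spec {r : ↥(GaloisRep.ratLocalizedAt ℓ)} (h : resZl ℓ r = 0) :
    r = ((ℓ : ℕ) : ↥(GaloisRep.ratLocalizedAt ℓ)) * divL ℓ r := by
  rw [divL, dif_pos h]
  exact Classical.choose_spec ((resZl_eq_zero_iff ℓ r).mp h)

theorem divL_zero : divL ℓ 0 = 0 := by
  have h := divL_spec ℓ (r := 0) (map_zero _)
  rcases mul_eq_zero.mp h.symm with h1 | h1
  · exact absurd h1 (natCast_ne_zero_ratLocalizedAt ℓ)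
  · exact h1

/-- The kernel of `ℤ_(ℓ)((q)) → 𝔽_ℓ((q))` is generated by `ℓ`. -/
theorem toRes_eq_zero_iff (a : LaurentSeries ↥(GaloisRep.ratLocalizedAt ℓ)) :
    toRes ℓ a = 0 ↔
      ∃ a' : LaurentSeries ↥(GaloisRep.ratLocalizedAt ℓ),
        a = ((ℓ : ℕ) : LaurentSeries ↥(GaloisRep.ratLocalizedAt ℓ)) * a' := by
  constructor
  · intro h
    refine ⟨a.map (⟨divL ℓ, divL_zero ℓ⟩ : ZeroHom _ _), ?_⟩
    ext k
    rw [natCast_mul_coeff, HahnSeries.map_coeff]
    have hk : resZl ℓ (a.coeff k) = 0 := by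
      have := congrArg (fun z => HahnSeries.coeff z k) h
      simpa using this
    exact congrArg Subtype.val (divL_spec ℓ hk)
  · rintro ⟨a', rfl⟩
    rw [map_mul, map_natCast]
    have : ((ℓ : ℕ) : LaurentSeries (ZMod ℓ)) = 0 := by
      rw [← map_natCast (HahnSeries.C : ZMod ℓ →+* LaurentSeries (ZMod ℓ)) ℓ, ZMod.natCast_self,
        map_zero]
    rw [this, zero_mul]

/-- Every nonzero element of `ℤ_(ℓ)((q))` is `ℓ ^ n` times an element with nonzero reduction. -/
theorem exists_eq_pow_mul (a : LaurentSeries ↥(GaloisRep.ratLocalizedAt ℓ)) (ha : a ≠ 0) :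
    ∃ (n : ℕ) (a' : LaurentSeries ↥(GaloisRep.ratLocalizedAt ℓ)),
      a = ((ℓ : ℕ) : LaurentSeries ↥(GaloisRep.ratLocalizedAt ℓ)) ^ n * a' ∧ toRes ℓ a' ≠ 0 := by
  by_contra hcon
  push Not at hcon
  have hall : ∀ n : ℕ, ∃ a' : LaurentSeries ↥(GaloisRep.ratLocalizedAt ℓ),
      a = ((ℓ : ℕ) : LaurentSeries ↥(GaloisRep.ratLocalizedAt ℓ)) ^ n * a' := by
    intro n
    induction n with
    | zero => exact ⟨a, by simp⟩
    | succ n ih =>
      obtain ⟨a', ha'⟩ := ih
      obtain ⟨a'', ha''⟩ := (toRes_eq_zero_iff ℓ a').mp (hcon n a' ha')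
      exact ⟨a'', by rw [ha', ha'']; ring⟩
  obtain ⟨k, hk⟩ : ∃ k, a.coeff k ≠ 0 := by
    by_contra hc
    push Not at hc
    exact ha (HahnSeries.ext (funext hc))
  obtain ⟨n, hn⟩ := exists_not_pow_dvd ℓ (a.coeff k) hk
  obtain ⟨a', ha'⟩ := hall n
  apply hn
  refine ⟨a'.coeff k, ?_⟩
  conv_lhs => rw [ha']
  rw [← Nat.cast_pow, natCast_mul_coeff, Nat.cast_pow]

end Laurent

section ValuationRing

variable (ℓ : ℕ) [Fact ℓ.Prime]

/-- The localisation of `ℤ_(ℓ)((q))` at the prime `(ℓ)`, as a subring of `ℚ((q))`. -/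
def igV : Subring (LaurentSeries ℚ) where
  carrier := {x | ∃ a b : LaurentSeries ↥(GaloisRep.ratLocalizedAt ℓ),
    toRes ℓ b ≠ 0 ∧ x * toQ ℓ b = toQ ℓ a}
  mul_mem' := by
    rintro x y ⟨a, b, hb, hx⟩ ⟨a', b', hb', hy⟩
    refine ⟨a * a', b * b', ?_, ?_⟩
    · rw [map_mul]; exact mul_ne_zero hb hb'
    · rw [map_mul, map_mul, ← hx, ← hy]; ring
  one_mem' := ⟨1, 1, by simp, by simp⟩
  add_mem' := by
    rintro x y ⟨a, b, hb, hx⟩ ⟨a', b', hb', hy⟩
    refine ⟨a * b' + a' * b, b * b', ?_, ?_⟩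
    · rw [map_mul]; exact mul_ne_zero hb hb'
    · rw [map_mul, map_add, map_mul, map_mul, ← hx, ← hy]; ring
  zero_mem' := ⟨0, 1, by simp, by simp⟩
  neg_mem' := by
    rintro x ⟨a, b, hb, hx⟩
    exact ⟨-a, b, hb, by rw [map_neg, ← hx]; ring⟩

theorem mem_igV_iff {x : LaurentSeries ℚ} :
    x ∈ igV ℓ ↔ ∃ a b : LaurentSeries ↥(GaloisRep.ratLocalizedAt ℓ),
      toRes ℓ b ≠ 0 ∧ x * toQ ℓ b = toQ ℓ a := Iff.rfl

theorem toQ_mem_igV (a : LaurentSeries ↥(GaloisRep.ratLocalizedAt ℓ)) : toQ ℓ a ∈ igV ℓ :=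
  ⟨a, 1, by simp, by simp⟩

theorem toRes_ne_zero_imp_ne_zero {b : LaurentSeries ↥(GaloisRep.ratLocalizedAt ℓ)}
    (hb : toRes ℓ b ≠ 0) : b ≠ 0 := by
  rintro rfl
  exact hb (map_zero _)

theorem toQ_ne_zero_of_toRes_ne_zero {b : LaurentSeries ↥(GaloisRep.ratLocalizedAt ℓ)}
    (hb : toRes ℓ b ≠ 0) : toQ ℓ b ≠ 0 := fun h =>
  toRes_ne_zero_imp_ne_zero ℓ hb ((toQ_eq_zero_iff ℓ b).mp h)

/-- A chosen numerator of an element of `igV`. -/
def igNum (x : igV ℓ) : LaurentSeries ↥(GaloisRep.ratLocalizedAt ℓ) := Classical.choose x.2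

/-- A chosen denominator of an element of `igV`. -/
def igDen (x : igV ℓ) : LaurentSeries ↥(GaloisRep.ratLocalizedAt ℓ) :=
  Classical.choose (Classical.choose_spec x.2)

theorem toRes_igDen_ne_zero (x : igV ℓ) : toRes ℓ (igDen ℓ x) ≠ 0 :=
  (Classical.choose_spec (Classical.choose_spec x.2)).1

theorem mul_toQ_igDen (x : igV ℓ) : x.1 * toQ ℓ (igDen ℓ x) = toQ ℓ (igNum ℓ x) :=
  (Classical.choose_spec (Classical.choose_spec x.2)).2

/-- The underlying function of the reduction map. -/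
def igRedFun (x : igV ℓ) : LaurentSeries (ZMod ℓ) :=
  toRes ℓ (igNum ℓ x) / toRes ℓ (igDen ℓ x)

theorem igRedFun_eq (x : igV ℓ) (a b : LaurentSeries ↥(GaloisRep.ratLocalizedAt ℓ))
    (hb : toRes ℓ b ≠ 0) (h : x.1 * toQ ℓ b = toQ ℓ a) :
    igRedFun ℓ x = toRes ℓ a / toRes ℓ b := by
  rw [igRedFun, div_eq_div_iff (toRes_igDen_ne_zero ℓ x) hb, ← map_mul, ← map_mul]
  congr 1
  apply toQ_injective ℓ
  rw [map_mul, map_mul, ← h, ← mul_toQ_igDen ℓ x]
  ring

/-- **Reduction of `q`-expansions modulo `ℓ`**, `igV ℓ → 𝔽_ℓ((q))`. -/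
def igRed : igV ℓ →+* LaurentSeries (ZMod ℓ) where
  toFun := igRedFun ℓ
  map_one' := by
    rw [igRedFun_eq ℓ 1 1 1 (by simp) (by simp)]
    simp
  map_zero' := by
    rw [igRedFun_eq ℓ 0 0 1 (by simp) (by simp)]
    simp
  map_mul' x y := by
    rw [igRedFun_eq ℓ (x * y) (igNum ℓ x * igNum ℓ y) (igDen ℓ x * igDen ℓ y)
      (by rw [map_mul]; exact mul_ne_zero (toRes_igDen_ne_zero ℓ x) (toRes_igDen_ne_zero ℓ y))
      (by rw [map_mul, map_mul, ← mul_toQ_igDen ℓ x, ← mul_toQ_igDen ℓ y, Subring.coe_mul]; ring)]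
    rw [igRedFun, igRedFun, map_mul, map_mul, mul_div_mul_comm]
  map_add' x y := by
    rw [igRedFun_eq ℓ (x + y) (igNum ℓ x * igDen ℓ y + igNum ℓ y * igDen ℓ x)
      (igDen ℓ x * igDen ℓ y)
      (by rw [map_mul]; exact mul_ne_zero (toRes_igDen_ne_zero ℓ x) (toRes_igDen_ne_zero ℓ y))
      (by rw [map_mul, map_add, map_mul, map_mul, ← mul_toQ_igDen ℓ x, ← mul_toQ_igDen ℓ y,
            Subring.coe_add]; ring)]
    rw [igRedFun, igRedFun, map_mul, map_add, map_mul, map_mul,
      div_add_div _ _ (toRes_igDen_ne_zero ℓ x) (toRes_igDen_ne_zero ℓ y)]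
    congr 1
    ring

theorem igRed_eq (x : igV ℓ) (a b : LaurentSeries ↥(GaloisRep.ratLocalizedAt ℓ))
    (hb : toRes ℓ b ≠ 0) (h : x.1 * toQ ℓ b = toQ ℓ a) :
    igRed ℓ x = toRes ℓ a / toRes ℓ b :=
  igRedFun_eq ℓ x a b hb h

@[simp]
theorem igRed_toQ (a : LaurentSeries ↥(GaloisRep.ratLocalizedAt ℓ)) :
    igRed ℓ ⟨toQ ℓ a, toQ_mem_igV ℓ a⟩ = toRes ℓ a := by
  rw [igRed_eq ℓ _ a 1 (by simp) (by simp)]
  simp

theorem natCast_laurent_zmod_eq_zero : ((ℓ : ℕ) : LaurentSeries (ZMod ℓ)) = 0 := by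
  rw [← map_natCast (HahnSeries.C : ZMod ℓ →+* LaurentSeries (ZMod ℓ)) ℓ, ZMod.natCast_self,
    map_zero]

theorem natCast_laurent_rat_ne_zero : ((ℓ : ℕ) : LaurentSeries ℚ) ≠ 0 := by
  rw [← map_natCast (HahnSeries.C : ℚ →+* LaurentSeries ℚ) ℓ, Ne,
    map_eq_zero_iff _ HahnSeries.C_injective]
  exact_mod_cast (Fact.out : ℓ.Prime).ne_zero

/-- The kernel of the reduction map is `ℓ · igV`. -/
theorem igRed_eq_zero_iff (x : igV ℓ) :
    igRed ℓ x = 0 ↔ ∃ y : igV ℓ, x = ((ℓ : ℕ) : igV ℓ) * y := by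
  constructor
  · intro h
    rw [igRed_eq ℓ x _ _ (toRes_igDen_ne_zero ℓ x) (mul_toQ_igDen ℓ x), div_eq_zero_iff] at h
    have h0 := h.resolve_right (toRes_igDen_ne_zero ℓ x)
    obtain ⟨a', ha'⟩ := (toRes_eq_zero_iff ℓ _).mp h0
    have hℓ := natCast_laurent_rat_ne_zero ℓ
    have hy : x.1 / ((ℓ : ℕ) : LaurentSeries ℚ) ∈ igV ℓ := by
      refine ⟨a', igDen ℓ x, toRes_igDen_ne_zero ℓ x, ?_⟩
      have h1 := mul_toQ_igDen ℓ x
      rw [ha', map_mul, map_natCast] at h1
      field_simp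
      rw [h1]
    refine ⟨⟨_, hy⟩, Subtype.ext ?_⟩
    simp only [Subring.coe_mul, Subring.coe_natCast]
    field_simp
  · rintro ⟨y, rfl⟩
    rw [map_mul, map_natCast, natCast_laurent_zmod_eq_zero, zero_mul]

/-- Elements of `igV` with nonzero reduction are units. -/
theorem inv_mem_igV_of_igRed_ne_zero (x : igV ℓ) (h : igRed ℓ x ≠ 0) : (x.1)⁻¹ ∈ igV ℓ := by
  rw [igRed_eq ℓ x _ _ (toRes_igDen_ne_zero ℓ x) (mul_toQ_igDen ℓ x)] at h
  have hnum : toRes ℓ (igNum ℓ x) ≠ 0 := fun h0 => h (by rw [h0, zero_div])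
  refine ⟨igDen ℓ x, igNum ℓ x, hnum, ?_⟩
  have hb := toQ_ne_zero_of_toRes_ne_zero ℓ (toRes_igDen_ne_zero ℓ x)
  have ha := toQ_ne_zero_of_toRes_ne_zero ℓ hnum
  have h1 := mul_toQ_igDen ℓ x
  have hx : x.1 ≠ 0 := by
    intro hx
    rw [hx, zero_mul] at h1
    exact ha h1.symm
  rw [← h1]
  field_simp

/-- General fact: if `x` is integral over a subring `V` of a field and `x⁻¹ ∈ V`, then `x ∈ V`. -/
theorem mem_of_isIntegral_of_inv_mem {L : Type*} [Field L] (V : Subring L) {x : L}
    (hint : IsIntegral V x) (hinv : x⁻¹ ∈ V) : x ∈ V := by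
  obtain ⟨p, hmonic, hp⟩ := hint
  by_cases hx : x = 0
  · rw [hx]; exact V.zero_mem
  rw [Polynomial.eval₂_eq_sum_range, Finset.sum_range_succ, hmonic.coeff_natDegree, map_one,
    one_mul] at hp
  rcases Nat.eq_zero_or_pos p.natDegree with h0 | hpos
  · rw [h0] at hp
    simp at hp
  obtain ⟨m, hm⟩ : ∃ m, p.natDegree = m + 1 := ⟨p.natDegree - 1, by omega⟩
  rw [hm] at hp
  have hxm : x = -∑ i ∈ Finset.range (m + 1), (algebraMap V L (p.coeff i)) * (x⁻¹) ^ (m - i) := by
    have h1 : x ^ (m + 1) = -∑ i ∈ Finset.range (m + 1), (algebraMap V L (p.coeff i)) * x ^ i :=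
      eq_neg_of_add_eq_zero_right hp
    have h2 : x = x ^ (m + 1) * (x⁻¹) ^ m := by
      rw [pow_succ, mul_assoc, mul_comm x, ← mul_assoc, ← mul_pow, mul_inv_cancel₀ hx, one_pow,
        one_mul]
    conv_lhs => rw [h2, h1]
    rw [neg_mul, Finset.sum_mul]
    congr 1
    refine Finset.sum_congr rfl fun i hi => ?_
    have hi' : i ≤ m := Nat.lt_succ_iff.mp (Finset.mem_range.mp hi)
    rw [mul_assoc]
    congr 1
    obtain ⟨k, rfl⟩ := Nat.exists_eq_add_of_le hi'
    rw [Nat.add_sub_cancel_left, pow_add, ← mul_assoc, ← mul_pow, mul_inv_cancel₀ hx, one_pow,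
      one_mul]
  rw [hxm]
  refine V.neg_mem (V.sum_mem fun i _ => V.mul_mem ?_ (V.pow_mem hinv _))
  exact (p.coeff i).2

/-- The fraction field of `igV ℓ` inside `ℚ((q))`. -/
def igE : IntermediateField ℚ (LaurentSeries ℚ) where
  carrier := {x | ∃ a b : LaurentSeries ↥(GaloisRep.ratLocalizedAt ℓ),
    b ≠ 0 ∧ x * toQ ℓ b = toQ ℓ a}
  mul_mem' := by
    rintro x y ⟨a, b, hb, hx⟩ ⟨a', b', hb', hy⟩
    refine ⟨a * a', b * b', mul_ne_zero hb hb', ?_⟩
    rw [map_mul, map_mul, ← hx, ← hy]; ring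
  one_mem' := ⟨1, 1, one_ne_zero, by simp⟩
  add_mem' := by
    rintro x y ⟨a, b, hb, hx⟩ ⟨a', b', hb', hy⟩
    refine ⟨a * b' + a' * b, b * b', mul_ne_zero hb hb', ?_⟩
    rw [map_mul, map_add, map_mul, map_mul, ← hx, ← hy]; ring
  zero_mem' := ⟨0, 1, one_ne_zero, by simp⟩
  algebraMap_mem' := by
    intro c
    refine ⟨((c.num : ℤ) : LaurentSeries ↥(GaloisRep.ratLocalizedAt ℓ)),
      ((c.den : ℕ) : LaurentSeries ↥(GaloisRep.ratLocalizedAt ℓ)), ?_, ?_⟩
    · intro h
      have h2 := congrArg (toQ ℓ) h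
      rw [map_natCast, map_zero,
        ← map_natCast (HahnSeries.C : ℚ →+* LaurentSeries ℚ) c.den,
        map_eq_zero_iff _ HahnSeries.C_injective] at h2
      exact c.den_ne_zero (by exact_mod_cast h2)
    · rw [map_natCast, map_intCast, algebraMap_apply_eq_single,
        ← map_natCast (HahnSeries.C : ℚ →+* LaurentSeries ℚ) c.den,
        ← map_intCast (HahnSeries.C : ℚ →+* LaurentSeries ℚ) c.num, ← HahnSeries.C_apply,
        ← map_mul, Rat.mul_den_eq_num]
  inv_mem' := by
    rintro x ⟨a, b, hb, hx⟩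
    by_cases hx0 : x = 0
    · rw [hx0, inv_zero]
      exact ⟨0, 1, one_ne_zero, by simp⟩
    have hb' : toQ ℓ b ≠ 0 := fun h => hb ((toQ_eq_zero_iff ℓ b).mp h)
    have ha : a ≠ 0 := by
      rintro rfl
      rw [map_zero] at hx
      exact (mul_ne_zero hx0 hb') hx
    refine ⟨b, a, ha, ?_⟩
    rw [← hx]
    field_simp

omit [Fact ℓ.Prime] in
theorem mem_igE_iff {x : LaurentSeries ℚ} :
    x ∈ igE ℓ ↔ ∃ a b : LaurentSeries ↥(GaloisRep.ratLocalizedAt ℓ),
      b ≠ 0 ∧ x * toQ ℓ b = toQ ℓ a := Iff.rfl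

theorem igV_le_igE {x : LaurentSeries ℚ} (hx : x ∈ igV ℓ) : x ∈ igE ℓ := by
  obtain ⟨a, b, hb, h⟩ := hx
  exact ⟨a, b, toRes_ne_zero_imp_ne_zero ℓ hb, h⟩

theorem toQ_mem_igE (a : LaurentSeries ↥(GaloisRep.ratLocalizedAt ℓ)) : toQ ℓ a ∈ igE ℓ :=
  igV_le_igE ℓ (toQ_mem_igV ℓ a)

/-- **Valuation ring dichotomy.** An element of the fraction field `igE` either lies in `igV`,
or its inverse lies in `ℓ · igV`. -/
theorem mem_igV_or_inv_eq_mul {x : LaurentSeries ℚ} (hx : x ∈ igE ℓ) :
    x ∈ igV ℓ ∨ ∃ y ∈ igV ℓ, x⁻¹ = ((ℓ : ℕ) : LaurentSeries ℚ) * y := by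
  obtain ⟨a, b, hb, h⟩ := hx
  by_cases hx0 : x = 0
  · left
    rw [hx0]
    exact (igV ℓ).zero_mem
  have hbQ : toQ ℓ b ≠ 0 := fun h0 => hb ((toQ_eq_zero_iff ℓ b).mp h0)
  have ha : a ≠ 0 := by
    rintro rfl
    rw [map_zero] at h
    exact (mul_ne_zero hx0 hbQ) h
  obtain ⟨n, a', rfl, ha'⟩ := exists_eq_pow_mul ℓ a ha
  obtain ⟨m, b', rfl, hb'⟩ := exists_eq_pow_mul ℓ b hb
  have hℓ := natCast_laurent_rat_ne_zero ℓ
  have ha'Q := toQ_ne_zero_of_toRes_ne_zero ℓ ha'
  have hb'Q := toQ_ne_zero_of_toRes_ne_zero ℓ hb'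
  simp only [map_mul, map_pow, map_natCast] at h
  rcases le_or_gt m n with hmn | hmn
  · left
    obtain ⟨k, rfl⟩ := Nat.exists_eq_add_of_le hmn
    refine ⟨((ℓ : ℕ) : LaurentSeries ↥(GaloisRep.ratLocalizedAt ℓ)) ^ k * a', b', hb', ?_⟩
    simp only [map_mul, map_pow, map_natCast]
    have hpow : ((ℓ : ℕ) : LaurentSeries ℚ) ^ m ≠ 0 := pow_ne_zero _ hℓ
    apply mul_left_cancel₀ hpow
    rw [← mul_assoc, mul_comm _ x, mul_assoc, h, pow_add]
    ring
  · right
    obtain ⟨k, rfl⟩ := Nat.exists_eq_add_of_lt hmn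
    refine ⟨((ℓ : ℕ) : LaurentSeries ℚ) ^ k * toQ ℓ b' / toQ ℓ a', ?_, ?_⟩
    · refine ⟨((ℓ : ℕ) : LaurentSeries ↥(GaloisRep.ratLocalizedAt ℓ)) ^ k * b', a', ha', ?_⟩
      simp only [map_mul, map_pow, map_natCast]
      field_simp
    · have hpow : ((ℓ : ℕ) : LaurentSeries ℚ) ^ n ≠ 0 := pow_ne_zero _ hℓ
      have hx' : x = toQ ℓ a' / (((ℓ : ℕ) : LaurentSeries ℚ) ^ (k + 1) * toQ ℓ b') := by
        rw [eq_div_iff (mul_ne_zero (pow_ne_zero _ hℓ) hb'Q)]
        apply mul_left_cancel₀ hpow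
        rw [← h, pow_add, pow_add]
        ring
      rw [hx', inv_div, pow_succ]
      field_simp

/-- `igV ℓ` is integrally closed in its fraction field `igE ℓ`. -/
theorem mem_igV_of_isIntegral {x : LaurentSeries ℚ} (hx : x ∈ igE ℓ)
    (hint : IsIntegral (igV ℓ) x) : x ∈ igV ℓ := by
  rcases mem_igV_or_inv_eq_mul ℓ hx with h | ⟨y, hy, hxy⟩
  · exact h
  · refine mem_of_isIntegral_of_inv_mem (igV ℓ) hint ?_
    rw [hxy]
    exact (igV ℓ).mul_mem (natCast_mem _ _) hy

end ValuationRing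

end Fermat.Agent.S28.H865

end
end
-- ===== PACK-END S28/H865Reduction.lean

-- ===== PACK-BEGIN S19/H435/Indep.lean
section
/-
A3 / WP-C (helper435): Galois descent lemmas for lattices of equivariant functions.

* `linearIndependent_Qb_of_int` (F1): `ℤ`-linearly independent Galois-equivariant functions
  `M → Qb` are `Qb`-linearly independent (minimal relation argument, `Qb^Gal = ℚ`).
-/



set_option autoImplicit false

noncomputable section

namespace Fermat.Agent.S19.H435

/-- The algebraic closure of `ℚ` used by the Prelude. -/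
abbrev Qb : Type := AlgebraicClosure ℚ

/-- The absolute Galois group, as in the Prelude. -/
abbrev Gal : Type := _root_.Fermat.Agent.S19.H435.Qb ≃ₐ[ℚ] _root_.Fermat.Agent.S19.H435.Qb

/-- `ℤ_(ℓ)` as in the Prelude. -/
abbrev Zl (ℓ : ℕ) : Type := ↥(GaloisRep.ratLocalizedAt ℓ)

/-- Equivariance of a `Qb`-valued function for a (set-theoretic) Galois action. -/
def IsEquivariantFun {M : Type*} (act : Gal → M → M) (f : M → _root_.Fermat.Agent.S19.H435.Qb) : Prop :=
  ∀ (σ : Gal) (m : M), f (act σ m) = σ (f m)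

theorem fixed_mem_range_rat (x : _root_.Fermat.Agent.S19.H435.Qb) (hx : ∀ σ : Gal, σ x = x) :
    ∃ q : ℚ, algebraMap ℚ _root_.Fermat.Agent.S19.H435.Qb q = x := by
  have h1 : Algebra.IsAlgebraic ℚ _root_.Fermat.Agent.S19.H435.Qb := AlgebraicClosure.isAlgebraic ℚ
  have h2 : IsAlgClosure ℚ _root_.Fermat.Agent.S19.H435.Qb := ⟨inferInstance, inferInstance⟩
  have h3 : IsGalois ℚ _root_.Fermat.Agent.S19.H435.Qb := IsAlgClosure.isGalois ℚ _root_.Fermat.Agent.S19.H435.Qb
  exact (InfiniteGalois.mem_range_algebraMap_iff_fixed (k := ℚ) (K := _root_.Fermat.Agent.S19.H435.Qb) x).mpr hx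

/-- **F1.** `ℤ`-linearly independent equivariant functions are `Qb`-linearly independent. -/
theorem linearIndependent_Qb_of_int {M : Type*} {act : Gal → M → M} {ι : Type*} [Fintype ι]
    (f : ι → M → _root_.Fermat.Agent.S19.H435.Qb) (hf : ∀ i, IsEquivariantFun act (f i)) (hli : LinearIndependent ℤ f) :
    LinearIndependent _root_.Fermat.Agent.S19.H435.Qb f := by
  classical
  rw [Fintype.linearIndependent_iff]
  suffices H : ∀ n : ℕ, ∀ c : ι → _root_.Fermat.Agent.S19.H435.Qb, (Finset.univ.filter (fun i => c i ≠ 0)).card = n →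
      ∑ i, c i • f i = 0 → ∀ i, c i = 0 from fun c hc i => H _ c rfl hc i
  intro n
  induction n using Nat.strong_induction_on with
  | _ n ih =>
    intro c hn hc
    by_contra hne
    push Not at hne
    obtain ⟨i₀, hi₀⟩ := hne
    set c' : ι → _root_.Fermat.Agent.S19.H435.Qb := fun i => c i / c i₀ with hc'
    have hc'0 : ∑ i, c' i • f i = 0 := by
      have : ∑ i, c' i • f i = (c i₀)⁻¹ • ∑ i, c i • f i := by
        rw [Finset.smul_sum]
        refine Finset.sum_congr rfl fun i _ => ?_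
        rw [smul_smul]
        congr 1
        simp only [hc', div_eq_inv_mul]
      rw [this, hc, smul_zero]
    have hc'i₀ : c' i₀ = 1 := div_self hi₀
    have hsupp : ∀ i, c i = 0 → c' i = 0 := fun i hi => by simp [hc', hi]
    have hpt : ∀ m : M, ∑ i, c' i * f i m = 0 := by
      intro m
      have := congrFun hc'0 m
      simpa [Finset.sum_apply] using this
    have hfix : ∀ (σ : Gal) (i : ι), σ (c' i) = c' i := by
      intro σ
      set d : ι → _root_.Fermat.Agent.S19.H435.Qb := fun i => σ (c' i) - c' i with hd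
      have hd0 : ∑ i, d i • f i = 0 := by
        funext m
        simp only [Finset.sum_apply, Pi.smul_apply, smul_eq_mul, Pi.zero_apply, hd, sub_mul,
          Finset.sum_sub_distrib]
        have h2 : ∑ i, σ (c' i) * f i m = 0 := by
          have h3 := congrArg σ (hpt (act σ⁻¹ m))
          rw [map_sum, map_zero] at h3
          rw [← h3]
          refine Finset.sum_congr rfl fun i _ => ?_
          rw [map_mul, hf i σ⁻¹ m]
          congr 1
          exact (AlgEquiv.apply_symm_apply σ (f i m)).symm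
        rw [hpt m, h2, sub_zero]
      have hlt : (Finset.univ.filter (fun i => d i ≠ 0)).card < n := by
        rw [← hn]
        apply Finset.card_lt_card
        rw [Finset.ssubset_iff_of_subset]
        · exact ⟨i₀, by simp [hi₀], by simp [hd, hc'i₀]⟩
        · intro i hi
          simp only [Finset.mem_filter, Finset.mem_univ, true_and] at hi ⊢
          intro hci
          apply hi
          simp [hd, hsupp i hci]
      intro i
      have := ih _ hlt d rfl hd0 i
      exact sub_eq_zero.mp this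
    choose q hq using fun i => fixed_mem_range_rat (c' i) (fun σ => hfix σ i)
    set D : ℕ := ∏ i, (q i).den with hD
    have hDpos : 0 < D := Finset.prod_pos fun i _ => (q i).den_pos
    have hz : ∀ i, ∃ z : ℤ, (z : ℚ) = D * q i := by
      intro i
      have hdvd : (q i).den ∣ D := Finset.dvd_prod_of_mem _ (Finset.mem_univ i)
      obtain ⟨e, he⟩ := hdvd
      refine ⟨(q i).num * e, ?_⟩
      rw [he]
      push_cast
      rw [← Rat.den_mul_eq_num (q i)]
      ring
    choose z hz using hz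
    have hsum : ∑ i, z i • f i = 0 := by
      funext m
      simp only [Finset.sum_apply, Pi.zero_apply, zsmul_eq_mul, Pi.mul_apply, Pi.intCast_apply]
      have h1 : ∀ i, ((z i : ℤ) : _root_.Fermat.Agent.S19.H435.Qb) = (D : _root_.Fermat.Agent.S19.H435.Qb) * c' i := by
        intro i
        rw [← hq i]
        have := congrArg (algebraMap ℚ _root_.Fermat.Agent.S19.H435.Qb) (hz i)
        rw [map_mul, map_intCast, map_natCast] at this
        exact this
      simp only [h1, mul_assoc]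
      rw [← Finset.mul_sum, hpt m, mul_zero]
    have hz0 := (Fintype.linearIndependent_iff.mp hli) z hsum
    have h0 : c' i₀ = 0 := by
      have h1 : (z i₀ : ℚ) = 0 := by rw [hz0 i₀]; simp
      rw [hz] at h1
      have h2 : q i₀ = 0 := by
        rcases mul_eq_zero.mp h1 with h | h
        · exact absurd (by exact_mod_cast h) hDpos.ne'
        · exact h
      rw [← hq i₀, h2, map_zero]
    rw [hc'i₀] at h0
    exact one_ne_zero h0

end Fermat.Agent.S19.H435

end
end
-- ===== PACK-END S19/H435/Indep.lean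

-- ===== PACK-BEGIN S55/Bridge/H594/Profinite.lean
section


/-!
# S55 bridge (helper594): relative transitivity and residue surjectivity for a closed subgroup

Let a profinite group `G` act continuously on a (discrete) commutative ring `B`, and let `H ≤ G`
be a closed subgroup.  Applying Mathlib's profinite invariant theory to `H` acting on `B` with
base ring the fixed subring `B^H`, we get:

* `exists_smul_eq_of_forall_fixed_mem_iff`: two primes of `B` with the same intersection with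
  `B^H` are conjugate under `H`;
* `exists_stabilizer_congr_of_forall_fixed`: if `σ ∈ G` stabilises the prime `P` and acts
  trivially on `B^H` modulo `P`, then some `h ∈ H` stabilising `P` acts as `σ` on `B ⧸ P`.
-/

set_option autoImplicit false
set_option linter.unusedSectionVars false
set_option linter.style.haveILetI false

namespace Fermat.Agent.S55.Bridge.H594

open scoped Pointwise

section abstract

variable {B : Type*} [CommRing B]
variable {G : Type*} [Group G] [MulSemiringAction G B]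
variable [TopologicalSpace G] [CompactSpace G] [TotallyDisconnectedSpace G]
variable [IsTopologicalGroup G] [TopologicalSpace B] [DiscreteTopology B] [ContinuousSMul G B]

/-- `B` is invariant over its fixed subalgebra. -/
theorem isInvariant_fixedPoints (H : Subgroup G) :
    Algebra.IsInvariant (FixedPoints.subalgebra ℤ B H) B H :=
  ⟨fun b hb => ⟨⟨b, hb⟩, rfl⟩⟩

theorem continuousSMul_subgroup (H : Subgroup G) : ContinuousSMul H B := by
  refine ⟨?_⟩
  have h1 : Continuous fun p : H × B => ((p.1 : G), p.2) :=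
    (continuous_subtype_val.comp continuous_fst).prodMk continuous_snd
  exact (continuous_smul (M := G) (X := B)).comp h1

/-- Two primes of `B` with the same `H`-fixed elements are `H`-conjugate (`H` closed). -/
theorem exists_smul_eq_of_forall_fixed_mem_iff (H : Subgroup G) (hH : IsClosed (H : Set G))
    (P Q : Ideal B) [P.IsPrime] [Q.IsPrime]
    (hPQ : ∀ b : B, (∀ h : H, h • b = b) → (b ∈ P ↔ b ∈ Q)) :
    ∃ h : H, Q = (h : G) • P := by
  haveI : CompactSpace H := isCompact_iff_compactSpace.mp hH.isCompact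
  haveI := continuousSMul_subgroup (B := B) H
  haveI := isInvariant_fixedPoints (B := B) H
  have hunder : P.under (FixedPoints.subalgebra ℤ B H) = Q.under (FixedPoints.subalgebra ℤ B H) := by
    ext ⟨b, hb⟩
    simp only [Ideal.under, Ideal.mem_comap]
    exact hPQ b hb
  obtain ⟨h, hh⟩ := Algebra.IsInvariant.exists_smul_of_under_eq_of_profinite
    (A := FixedPoints.subalgebra ℤ B H) (B := B) (G := H) P Q hunder
  exact ⟨h, hh⟩

/-- If `σ ∈ G` stabilises the prime `P` and acts trivially modulo `P` on the `H`-fixed elements,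
then there is `h ∈ H` stabilising `P` and acting as `σ` on `B ⧸ P` (`H` closed). -/
theorem exists_stabilizer_congr_of_forall_fixed (H : Subgroup G) (hH : IsClosed (H : Set G))
    (P : Ideal B) [P.IsPrime] (σ : G) (hσP : σ • P = P)
    (hσ : ∀ b : B, (∀ h : H, h • b = b) → σ • b - b ∈ P) :
    ∃ h : H, (h : G) • P = P ∧ ∀ b : B, (h : G) • b - σ • b ∈ P := by
  haveI : CompactSpace H := isCompact_iff_compactSpace.mp hH.isCompact
  haveI := continuousSMul_subgroup (B := B) H
  haveI := isInvariant_fixedPoints (B := B) H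
  let A' := FixedPoints.subalgebra ℤ B H
  let p : Ideal A' := P.under A'
  haveI : P.LiesOver p := ⟨rfl⟩
  have hmap : P = P.map (MulSemiringAction.toRingEquiv G B σ) := by
    conv_lhs => rw [← hσP]
    rfl
  let φ₀ : (B ⧸ P) ≃+* (B ⧸ P) :=
    Ideal.quotientEquiv P P (MulSemiringAction.toRingEquiv G B σ) hmap
  have hφ₀ : ∀ b : B, φ₀ (Ideal.Quotient.mk P b) = Ideal.Quotient.mk P (σ • b) := fun b => rfl
  let φ : (B ⧸ P) ≃ₐ[A' ⧸ p] (B ⧸ P) :=
    { φ₀ with
      commutes' := by
        rintro ⟨a⟩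
        show φ₀ (Ideal.Quotient.mk P (a : B)) = Ideal.Quotient.mk P (a : B)
        rw [hφ₀, Ideal.Quotient.eq]
        exact hσ a a.2 }
  obtain ⟨h, hh⟩ := Ideal.Quotient.stabilizerHom_surjective_of_profinite (G := H) p P φ
  refine ⟨h.1, ?_, fun b => ?_⟩
  · exact h.2
  · have h1 : (Ideal.Quotient.stabilizerHom P p H h) (Ideal.Quotient.mk P b) =
        φ (Ideal.Quotient.mk P b) := by rw [hh]
    rw [Ideal.Quotient.stabilizerHom_apply] at h1
    have h2 : φ (Ideal.Quotient.mk P b) = Ideal.Quotient.mk P (σ • b) := hφ₀ b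
    rw [h2, Ideal.Quotient.eq] at h1
    exact h1

end abstract

end Fermat.Agent.S55.Bridge.H594

end
-- ===== PACK-END S55/Bridge/H594/Profinite.lean

-- ===== PACK-BEGIN S37/H160/ValPoly.lean
section


/-!
# S37 / RED-V (helper160): polynomials over a valuation ring

`A` a valuation subring of a field `K`.  Mathlib-only.

* `exists_dvd_all`        : among finitely many elements of `K`, one divides all others in `A`;
* `exists_primitive_scale`: a finite family of polynomials over `K`, not all zero, is a common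
  scalar multiple of polynomials over `A`, one of which has a coefficient equal to `1`;
* `mem_lifts_of_mul_mem_lifts` (Gauss' lemma): `p * s ∈ A[X]`, `s ∈ A[X]` with nonzero
  reduction  ⟹  `p ∈ A[X]`;
* `roots_map_residue` (Gauss' lemma for roots): the roots of the reduction of `g ∈ A[X]` are the
  reductions of the roots of `g` lying in `A` (with multiplicities), `K` algebraically closed.
-/

set_option autoImplicit false

namespace Fermat.Agent.S37.H160

open Polynomial

variable {K : Type*} [Field K] (A : ValuationSubring K)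

/-- Among finitely many elements of `K`, not all zero, one divides all the others in `A`. -/
theorem exists_dvd_all {ι : Type*} (s : Finset ι) (a : ι → K) (h : ∃ i ∈ s, a i ≠ 0) :
    ∃ i₀ ∈ s, a i₀ ≠ 0 ∧ ∀ i ∈ s, a i / a i₀ ∈ A := by
  obtain ⟨i₁, hi₁, hne⟩ := h
  obtain ⟨i₀, hi₀, hmax⟩ := s.exists_max_image (fun i => A.valuation (a i)) ⟨i₁, hi₁⟩
  have h0 : a i₀ ≠ 0 := by
    intro h
    have h1 := hmax i₁ hi₁
    simp only [h, _root_.map_zero] at h1
    exact hne ((_root_.map_eq_zero _).mp (le_antisymm h1 zero_le))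
  refine ⟨i₀, hi₀, h0, fun i hi => ?_⟩
  rw [← A.valuation_le_one_iff, map_div₀]
  have hpos : 0 < A.valuation (a i₀) := by
    rw [zero_lt_iff]
    exact (_root_.map_ne_zero _).mpr h0
  exact (div_le_one₀ hpos).mpr (hmax i hi)

/-- A finite family of polynomials over `K`, not all zero, is a common scalar multiple of
polynomials over `A`, one of which has a coefficient equal to `1`. -/
theorem exists_primitive_scale {ι : Type*} (s : Finset ι) (p : ι → K[X])
    (h : ∃ i ∈ s, p i ≠ 0) :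
    ∃ (c : K) (p₀ : ι → A[X]), c ≠ 0 ∧ (∀ i ∈ s, p i = C c * (p₀ i).map A.subtype) ∧
      ∃ i ∈ s, ∃ n, (p₀ i).coeff n = 1 := by
  classical
  obtain ⟨i₁, hi₁, hne⟩ := h
  obtain ⟨n₁, hn₁⟩ : ∃ n, (p i₁).coeff n ≠ 0 := by
    by_contra hall
    push Not at hall
    exact hne (Polynomial.ext fun n => by simpa using hall n)
  let T : Finset (Σ _ : ι, ℕ) := s.sigma fun i => (p i).support
  have hT : ∃ x ∈ T, (p x.1).coeff x.2 ≠ 0 :=
    ⟨⟨i₁, n₁⟩, Finset.mem_sigma.mpr ⟨hi₁, mem_support_iff.mpr hn₁⟩, hn₁⟩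
  obtain ⟨x₀, hx₀, hc, hall⟩ := exists_dvd_all A T (fun x => (p x.1).coeff x.2) hT
  set c := (p x₀.1).coeff x₀.2 with hcdef
  have hmem : ∀ i ∈ s, ∀ n, (p i).coeff n / c ∈ A := by
    intro i hi n
    by_cases hn : (p i).coeff n = 0
    · rw [hn, zero_div]; exact A.zero_mem
    · exact hall ⟨i, n⟩ (Finset.mem_sigma.mpr ⟨hi, mem_support_iff.mpr hn⟩)
  have hlift : ∀ i ∈ s, ∃ q : A[X], q.map A.subtype = C c⁻¹ * p i := by
    intro i hi
    have : C c⁻¹ * p i ∈ lifts A.subtype := by
      rw [lifts_iff_coeff_lifts]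
      intro n
      rw [coeff_C_mul]
      exact ⟨⟨(p i).coeff n / c, hmem i hi n⟩, by simp [div_eq_inv_mul]⟩
    exact (mem_lifts _).mp this
  choose! q hq using hlift
  refine ⟨c, q, hc, fun i hi => ?_, x₀.1, (Finset.mem_sigma.mp hx₀).1, x₀.2, ?_⟩
  · rw [hq i hi, ← mul_assoc, ← C_mul, mul_inv_cancel₀ hc, C_1, one_mul]
  · have h1 := congrArg (fun r => coeff r x₀.2) (hq x₀.1 (Finset.mem_sigma.mp hx₀).1)
    simp only [coeff_map, coeff_C_mul] at h1
    apply Subtype.ext
    have h2 : A.subtype ((q x₀.1).coeff x₀.2) = 1 := by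
      rw [h1, ← hcdef, inv_mul_cancel₀ hc]
    simpa using h2

/-- Single polynomial version of `exists_primitive_scale`. -/
theorem exists_primitive_scale_one (p : K[X]) (hp : p ≠ 0) :
    ∃ (c : K) (p₀ : A[X]), c ≠ 0 ∧ p = C c * p₀.map A.subtype ∧ ∃ n, p₀.coeff n = 1 := by
  obtain ⟨c, p₀, hc, h1, i, -, n, hn⟩ :=
    exists_primitive_scale A (Finset.univ : Finset Unit) (fun _ => p) ⟨(), Finset.mem_univ _, hp⟩
  cases i
  exact ⟨c, p₀ (), hc, h1 () (Finset.mem_univ _), n, hn⟩

variable {A}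

theorem map_subtype_injective : Function.Injective (Polynomial.map (A.subtype) : A[X] → K[X]) :=
  Polynomial.map_injective _ Subtype.val_injective

variable {k : Type*} [Field k] (π : A →+* k)

theorem map_ne_zero_of_coeff_eq_one {p : A[X]} {n : ℕ} (h : p.coeff n = 1) : p.map π ≠ 0 := by
  intro h0
  have := congrArg (fun r => coeff r n) h0
  simp [h] at this

variable (hπ : ∀ a : A, π a = 0 ↔ a ∈ IsLocalRing.maximalIdeal A)

include hπ in
/-- An element of `K` outside `A` has an inverse in the kernel of `π`. -/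
theorem inv_mem_ker_of_not_mem {c : K} (hc : c ∉ A) :
    ∃ h : c⁻¹ ∈ A, π ⟨c⁻¹, h⟩ = 0 := by
  have hinv : c⁻¹ ∈ A := (A.mem_or_inv_mem c).resolve_left hc
  refine ⟨hinv, (hπ _).mpr ?_⟩
  rw [IsLocalRing.mem_maximalIdeal, mem_nonunits_iff]
  intro hu
  obtain ⟨u, hu⟩ := hu
  apply hc
  have h1 : ((u⁻¹ : Aˣ) : A) * ⟨c⁻¹, hinv⟩ = 1 := by rw [← hu]; simp
  have h2 : (((u⁻¹ : Aˣ) : A) : K) * c⁻¹ = 1 := by
    have := congrArg Subtype.val h1
    simpa using this
  have hc0 : c ≠ 0 := by
    rintro rfl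
    exact hc A.zero_mem
  have h3 : (((u⁻¹ : Aˣ) : A) : K) = c := by
    field_simp at h2
    exact h2
  rw [← h3]
  exact ((u⁻¹ : Aˣ) : A).2

include hπ in
/-- **Gauss' lemma.**  If `p * s` has coefficients in `A`, where `s ∈ A[X]` has nonzero
reduction, then `p` has coefficients in `A`. -/
theorem mem_lifts_of_mul_mem_lifts (p : K[X]) (s q : A[X]) (hs : s.map π ≠ 0)
    (h : p * s.map A.subtype = q.map A.subtype) : ∃ p' : A[X], p'.map A.subtype = p := by
  rcases eq_or_ne p 0 with rfl | hp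
  · exact ⟨0, by simp⟩
  obtain ⟨c, p₀, hc, hpc, n, hn⟩ := exists_primitive_scale_one A p hp
  by_cases hcA : c ∈ A
  · refine ⟨C ⟨c, hcA⟩ * p₀, ?_⟩
    rw [Polynomial.map_mul, map_C, hpc]
    rfl
  · exfalso
    obtain ⟨hinv, hker⟩ := inv_mem_ker_of_not_mem π hπ hcA
    have h1 : p₀ * s = C ⟨c⁻¹, hinv⟩ * q := by
      apply map_subtype_injective
      rw [Polynomial.map_mul, Polynomial.map_mul, map_C, ← h, hpc]
      simp only [ValuationSubring.subtype_apply]
      rw [← mul_assoc, ← mul_assoc, ← C_mul, inv_mul_cancel₀ hc, C_1, one_mul]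
    have h2 := congrArg (Polynomial.map π) h1
    rw [Polynomial.map_mul, Polynomial.map_mul, map_C, hker, C_0, zero_mul] at h2
    rcases mul_eq_zero.mp h2 with h3 | h3
    · exact map_ne_zero_of_coeff_eq_one π hn h3
    · exact hs h3

/-- Reduction `K → k`, extended by `0` outside `A`. -/
noncomputable def redK (c : K) : k := by
  classical
  exact if h : c ∈ A then π ⟨c, h⟩ else 0

theorem redK_of_mem {c : K} (h : c ∈ A) : redK π c = π ⟨c, h⟩ := by
  simp [redK, h]

theorem redK_coe (a : A) : redK π (a : K) = π a := by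
  rw [redK_of_mem π a.2]

open Classical in
include hπ in
/-- **Gauss' lemma for roots.**  For `g ∈ A[X]` with nonzero reduction, `K` algebraically closed,
the roots of the reduction of `g` are the reductions of the roots of `g` that lie in `A`. -/
theorem roots_map_residue [IsAlgClosed K] (g : A[X]) (hg : g.map π ≠ 0) :
    (g.map π).roots = ((g.map A.subtype).roots.filter (· ∈ A)).map (redK π) := by
  suffices H : ∀ (n : ℕ) (g : A[X]), (g.map A.subtype).natDegree = n → g.map π ≠ 0 →
      (g.map π).roots = ((g.map A.subtype).roots.filter (· ∈ A)).map (redK π) from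
    H _ g rfl hg
  intro n
  induction n with
  | zero =>
    intro g hn _
    have h1 : g.map A.subtype = C ((g.map A.subtype).coeff 0) := eq_C_of_natDegree_eq_zero hn
    have h2 : g = C (g.coeff 0) := by
      apply map_subtype_injective
      rw [h1, map_C, coeff_map]
    rw [h1, roots_C, h2, map_C, roots_C]
    simp
  | succ n ih =>
    intro g hn hg
    have hG : g.map A.subtype ≠ 0 := by
      intro h0
      rw [h0, natDegree_zero] at hn
      omega
    have hdeg : (g.map A.subtype).degree ≠ 0 := by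
      rw [degree_eq_natDegree hG, hn]
      exact_mod_cast Nat.succ_ne_zero n
    obtain ⟨γ, hγ⟩ := IsAlgClosed.exists_root (g.map A.subtype) hdeg
    obtain ⟨G₁, hG₁⟩ := dvd_iff_isRoot.mpr hγ
    have hG₁0 : G₁ ≠ 0 := by
      rintro rfl
      rw [mul_zero] at hG₁
      exact hG hG₁
    have hdeg₁ : G₁.natDegree = n := by
      have := congrArg natDegree hG₁
      rw [natDegree_mul (X_sub_C_ne_zero γ) hG₁0, natDegree_X_sub_C, hn] at this
      omega
    by_cases hγA : γ ∈ A
    · -- integral root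
      have hroot : IsRoot g ⟨γ, hγA⟩ := by
        have h1 : eval γ (g.map A.subtype) = A.subtype (eval ⟨γ, hγA⟩ g) := by
          rw [eval_map, ← eval₂_hom]
          rfl
        rw [IsRoot.def] at hγ ⊢
        rw [h1] at hγ
        exact Subtype.ext hγ
      obtain ⟨g₁, hg₁⟩ := dvd_iff_isRoot.mpr hroot
      have hg₁map : g₁.map A.subtype = G₁ := by
        have h1 : (X - C γ) * g₁.map A.subtype = (X - C γ) * G₁ := by
          rw [← hG₁, hg₁, Polynomial.map_mul, Polynomial.map_sub, map_X, map_C]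
          rfl
        exact mul_left_cancel₀ (X_sub_C_ne_zero γ) h1
      have hg₁π : g₁.map π ≠ 0 := by
        intro h0
        apply hg
        rw [hg₁, Polynomial.map_mul, h0, mul_zero]
      have hih := ih g₁ (by rw [hg₁map, hdeg₁]) hg₁π
      have e1 : g.map π = (X - C (π ⟨γ, hγA⟩)) * g₁.map π := by
        rw [hg₁, Polynomial.map_mul, Polynomial.map_sub, map_X, map_C]
      have e1ne : (X - C (π ⟨γ, hγA⟩)) * g₁.map π ≠ 0 := e1 ▸ hg
      have e2ne : (X - C γ) * G₁ ≠ 0 := hG₁ ▸ hG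
      rw [e1, roots_mul e1ne, roots_X_sub_C, hih, hG₁, roots_mul e2ne, roots_X_sub_C,
        Multiset.filter_add, Multiset.map_add, hg₁map]
      congr 1
      rw [Multiset.filter_singleton, if_pos hγA, Multiset.map_singleton, redK_of_mem π hγA]
    · -- root outside `A`
      obtain ⟨hinv, hker⟩ := inv_mem_ker_of_not_mem π hπ hγA
      have hγ0 : γ ≠ 0 := by
        rintro rfl
        exact hγA A.zero_mem
      set s : A[X] := 1 - C ⟨γ⁻¹, hinv⟩ * X with hs
      have hsmap : s.map A.subtype = C (-γ⁻¹) * (X - C γ) := by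
        rw [hs, Polynomial.map_sub, Polynomial.map_one, Polynomial.map_mul, map_C, map_X]
        simp only [ValuationSubring.subtype_apply]
        rw [mul_sub, ← C_mul, neg_mul, inv_mul_cancel₀ hγ0, C_neg, C_neg, C_1]
        ring
      have hsπ : s.map π = 1 := by
        rw [hs, Polynomial.map_sub, Polynomial.map_one, Polynomial.map_mul, map_C, hker, C_0,
          zero_mul, sub_zero]
      have hG₂ : (C (-γ) * G₁) * s.map A.subtype = g.map A.subtype := by
        rw [hsmap, hG₁]
        have : C (-γ) * C (-γ⁻¹) = (1 : K[X]) := by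
          rw [← C_mul, neg_mul_neg, mul_inv_cancel₀ hγ0, C_1]
        calc C (-γ) * G₁ * (C (-γ⁻¹) * (X - C γ))
            = (C (-γ) * C (-γ⁻¹)) * ((X - C γ) * G₁) := by ring
          _ = (X - C γ) * G₁ := by rw [this, one_mul]
      obtain ⟨g₂, hg₂⟩ := mem_lifts_of_mul_mem_lifts π hπ (C (-γ) * G₁) s g
        (by rw [hsπ]; exact one_ne_zero) hG₂
      have hgs : g = g₂ * s := by
        apply map_subtype_injective
        rw [Polynomial.map_mul, hg₂, hG₂]
      have hg₂π : g₂.map π = g.map π := by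
        rw [hgs, Polynomial.map_mul, hsπ, mul_one]
      have hCγ : C (-γ) ≠ (0 : K[X]) := by
        rw [Ne, C_eq_zero, neg_eq_zero]
        exact hγ0
      have hdeg₂ : (g₂.map A.subtype).natDegree = n := by
        rw [hg₂, natDegree_C_mul (by rwa [neg_ne_zero]), hdeg₁]
      have hih := ih g₂ hdeg₂ (hg₂π ▸ hg)
      have e2ne : (X - C γ) * G₁ ≠ 0 := hG₁ ▸ hG
      rw [← hg₂π, hih, hG₁, roots_mul e2ne, roots_X_sub_C, Multiset.filter_add,
        Multiset.filter_singleton, if_neg hγA, hg₂, roots_C_mul _ (by rwa [neg_ne_zero])]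
      simp

open Classical in
include hπ in
/-- Counting form of `roots_map_residue`. -/
theorem rootMultiplicity_map_residue [IsAlgClosed K] (g : A[X]) (hg : g.map π ≠ 0) (cb : k) :
    (g.map π).rootMultiplicity cb =
      Multiset.card ((g.map A.subtype).roots.filter (fun c => c ∈ A ∧ redK π c = cb)) := by
  rw [← count_roots, roots_map_residue π hπ g hg, Multiset.count_map, Multiset.filter_filter]
  congr 1
  refine Multiset.filter_congr fun c _ => ?_
  constructor
  · rintro ⟨h1, h2⟩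
    exact ⟨h2, h1.symm⟩
  · rintro ⟨h1, h2⟩
    exact ⟨h2.symm, h1⟩

end Fermat.Agent.S37.H160

end
-- ===== PACK-END S37/H160/ValPoly.lean

-- ===== PACK-BEGIN S37/H697/Bounded.lean
section


/-!
# S37 (helper697): the bounded-homomorphism trick

An additive map `δ : (X →₀ ℤ) →+ (Y →₀ ℤ)` which kills a subgroup `Pr` ("principal divisors") and
is bounded on the generators `single P 1` vanishes on every `D` all of whose multiples `n • D` are
congruent modulo `Pr` to elements of bounded `ℓ¹`-norm.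

This replaces divisibility of `Pic⁰` in uniqueness statements for place reductions, and pointwise
arguments in the Eichler–Shimura relation: the boundedness hypothesis on multiples is supplied by
Riemann's inequality.
-/

set_option autoImplicit false

namespace Fermat.Agent.S37.H697

open Finsupp

variable {X Y : Type*}

/-- The `ℓ¹`-norm of a finitely supported integer-valued function. -/
noncomputable def l1norm (E : X →₀ ℤ) : ℕ := E.sum fun _ n => n.natAbs

@[simp] theorem l1norm_zero : l1norm (0 : X →₀ ℤ) = 0 := by simp [l1norm]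

theorem l1norm_single (P : X) (n : ℤ) : l1norm (single P n) = n.natAbs := by
  simp [l1norm]

theorem l1norm_add_le (D E : X →₀ ℤ) : l1norm (D + E) ≤ l1norm D + l1norm E := by
  classical
  unfold l1norm
  have h1 : (D + E).sum (fun _ n => n.natAbs)
      = ∑ x ∈ D.support ∪ E.support, ((D + E) x).natAbs :=
    Finsupp.sum_of_support_subset _ Finsupp.support_add _ (fun _ _ => rfl)
  have h2 : D.sum (fun _ n => n.natAbs) = ∑ x ∈ D.support ∪ E.support, (D x).natAbs :=
    Finsupp.sum_of_support_subset _ Finset.subset_union_left _ (fun _ _ => rfl)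
  have h3 : E.sum (fun _ n => n.natAbs) = ∑ x ∈ D.support ∪ E.support, (E x).natAbs :=
    Finsupp.sum_of_support_subset _ Finset.subset_union_right _ (fun _ _ => rfl)
  rw [h1, h2, h3, ← Finset.sum_add_distrib]
  exact Finset.sum_le_sum fun x _ => by
    rw [Finsupp.add_apply]; exact Int.natAbs_add_le _ _

theorem l1norm_neg (D : X →₀ ℤ) : l1norm (-D) = l1norm D := by
  unfold l1norm
  rw [Finsupp.sum_neg_index (fun _ => rfl)]
  simp [Finsupp.sum]

theorem l1norm_sub_le (D E : X →₀ ℤ) : l1norm (D - E) ≤ l1norm D + l1norm E := by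
  rw [sub_eq_add_neg]
  exact (l1norm_add_le D (-E)).trans (by rw [l1norm_neg])

theorem natAbs_apply_le_l1norm (E : X →₀ ℤ) (x : X) : (E x).natAbs ≤ l1norm E := by
  classical
  by_cases hx : x ∈ E.support
  · unfold l1norm Finsupp.sum
    exact Finset.single_le_sum (f := fun a => (E a).natAbs) (fun _ _ => Nat.zero_le _) hx
  · rw [Finsupp.notMem_support_iff.mp hx]; simp

/-- A bounded additive functional is bounded by the `ℓ¹`-norm. -/
theorem natAbs_map_le (φ : (X →₀ ℤ) →+ ℤ) (C : ℕ)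
    (hC : ∀ P : X, (φ (single P 1)).natAbs ≤ C) (E : X →₀ ℤ) :
    (φ E).natAbs ≤ C * l1norm E := by
  classical
  induction E using Finsupp.induction with
  | zero => simp
  | single_add P n E hP hn ih =>
    have hsingle : φ (single P n) = n * φ (single P 1) := by
      have : single P n = n • single P (1 : ℤ) := by
        rw [Finsupp.smul_single, smul_eq_mul, mul_one]
      rw [this, map_zsmul, smul_eq_mul]
    have hnorm : l1norm (single P n + E) = n.natAbs + l1norm E := by
      unfold l1norm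
      rw [Finsupp.sum_add_index_of_disjoint]
      · simp
      · rw [Finset.disjoint_left]
        intro x hx hx'
        have : x = P := by
          have := Finsupp.support_single_subset hx
          simpa using this
        exact hP (this ▸ hx')
    rw [map_add, hnorm, hsingle, mul_add]
    refine (Int.natAbs_add_le _ _).trans (Nat.add_le_add ?_ ih)
    rw [Int.natAbs_mul, mul_comm]
    exact Nat.mul_le_mul_right _ (hC P)

/-- **Bounded-homomorphism trick.** -/
theorem eq_zero_of_bounded (δ : (X →₀ ℤ) →+ (Y →₀ ℤ)) (Pr : AddSubgroup (X →₀ ℤ))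
    (hPr : ∀ D ∈ Pr, δ D = 0) (C : ℕ) (hC : ∀ P : X, l1norm (δ (single P 1)) ≤ C)
    (D : X →₀ ℤ) (B : ℕ)
    (hB : ∀ n : ℕ, ∃ E : X →₀ ℤ, l1norm E ≤ B ∧ n • D - E ∈ Pr) :
    δ D = 0 := by
  ext y
  rw [Finsupp.zero_apply]
  set φ : (X →₀ ℤ) →+ ℤ := (Finsupp.applyAddHom y).comp δ with hφ
  have hφC : ∀ P : X, (φ (single P 1)).natAbs ≤ C := fun P =>
    (natAbs_apply_le_l1norm (δ (single P 1)) y).trans (hC P)
  have hbound : ∀ n : ℕ, n * (φ D).natAbs ≤ C * B := by
    intro n
    obtain ⟨E, hE, hmem⟩ := hB n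
    have h0 : δ (n • D - E) = 0 := hPr _ hmem
    have h1 : φ (n • D) = φ E := by
      have : φ (n • D - E) = 0 := by
        show (δ (n • D - E)) y = 0
        rw [h0]; rfl
      rw [map_sub, sub_eq_zero] at this
      exact this
    have h2 : (φ (n • D)).natAbs = n * (φ D).natAbs := by
      rw [map_nsmul, nsmul_eq_mul, Int.natAbs_mul, Int.natAbs_natCast]
    rw [← h2, h1]
    exact (natAbs_map_le φ C hφC E).trans (Nat.mul_le_mul_left _ hE)
  have hzero : (φ D).natAbs = 0 := by
    by_contra hne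
    have hpos : 1 ≤ (φ D).natAbs := Nat.one_le_iff_ne_zero.mpr hne
    have := hbound (C * B + 1)
    have h3 : (C * B + 1) * 1 ≤ (C * B + 1) * (φ D).natAbs := Nat.mul_le_mul_left _ hpos
    omega
  exact Int.natAbs_eq_zero.mp hzero

end Fermat.Agent.S37.H697

end
-- ===== PACK-END S37/H697/Bounded.lean

-- ===== PACK-BEGIN S37/H818/FieldBridge.lean
section
/-
S37 / LEVEL TRANSFER (helper818), part 9: bridges between `IntermediateField` language
(`relfinrank`, `⊔`) and the Prelude's "along" language (`finrankAlong`, `Algebra.adjoin`).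
-/



set_option autoImplicit false
set_option linter.style.haveILetI false

noncomputable section

namespace Fermat.Agent.S37.H818

open AlgebraicCurve IntermediateField

variable {K E : Type*} [Field K] [Field E] [Algebra K E]

/-- `finrankAlong` of an inclusion of intermediate fields is the relative finrank. -/
theorem finrankAlong_inclusion {A B : IntermediateField K E} (h : A ≤ B) :
    finrankAlong K (IntermediateField.inclusion h) = A.relfinrank B := by
  rw [IntermediateField.relfinrank_eq_finrank_of_le h]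
  unfold finrankAlong
  letI := algebraAlong (IntermediateField.inclusion h)
  let e : ↥B ≃ₗ[A] ↥(IntermediateField.extendScalars h) :=
    { toFun := fun x => ⟨x.1, x.2⟩
      invFun := fun x => ⟨x.1, x.2⟩
      map_add' := fun _ _ => rfl
      map_smul' := fun _ _ => rfl
      left_inv := fun _ => rfl
      right_inv := fun _ => rfl }
  exact e.finrank_eq

/-- `FiniteAlong` for an inclusion, from positivity of the relative finrank. -/
theorem finiteAlong_inclusion {A B : IntermediateField K E} (h : A ≤ B)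
    (hpos : 0 < A.relfinrank B) : FiniteAlong K (IntermediateField.inclusion h) := by
  unfold FiniteAlong
  letI := algebraAlong (IntermediateField.inclusion h)
  have h1 : 0 < Module.finrank A B := by
    have := finrankAlong_inclusion h
    unfold finrankAlong at this
    rw [this]
    exact hpos
  exact Module.finite_of_finrank_pos h1

/-- If `C ≤ A ⊔ B` (with `A, B ≤ C`, `C` finite over `A`), then `C` is generated as an
`A`-algebra by the image of `B`. -/
theorem adjoin_range_inclusion_eq_top {A B C : IntermediateField K E} (hAC : A ≤ C)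
    (hBC : B ≤ C) (hC : C ≤ A ⊔ B) (hfin : FiniteAlong K (IntermediateField.inclusion hAC)) :
    (letI := algebraAlong (IntermediateField.inclusion hAC)
     Algebra.adjoin A (Set.range (IntermediateField.inclusion hBC))) = ⊤ := by
  letI := algebraAlong (IntermediateField.inclusion hAC)
  haveI : Module.Finite A C := hfin
  haveI : Algebra.IsAlgebraic A C := Algebra.IsAlgebraic.of_finite A C
  set T : Subalgebra A C := Algebra.adjoin A (Set.range (IntermediateField.inclusion hBC)) with hT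
  have key : ∀ y (hy : y ∈ A ⊔ B), ∃ hyC : y ∈ C, (⟨y, hyC⟩ : C) ∈ T := by
    intro y hy
    rw [IntermediateField.sup_def] at hy
    induction hy using IntermediateField.adjoin_induction with
    | mem x hx =>
      rcases hx with hx | hx
      · refine ⟨hAC hx, ?_⟩
        have : (⟨x, hAC hx⟩ : C) = algebraMap A C ⟨x, hx⟩ := rfl
        rw [this]
        exact T.algebraMap_mem _
      · refine ⟨hBC hx, ?_⟩
        exact Algebra.subset_adjoin ⟨⟨x, hx⟩, rfl⟩
    | algebraMap x =>
      refine ⟨C.algebraMap_mem x, ?_⟩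
      have : (⟨algebraMap K E x, C.algebraMap_mem x⟩ : C) =
          algebraMap A C ⟨algebraMap K E x, A.algebraMap_mem x⟩ := rfl
      rw [this]
      exact T.algebraMap_mem _
    | add x y _ _ hx hy =>
      obtain ⟨hxC, hxT⟩ := hx
      obtain ⟨hyC, hyT⟩ := hy
      exact ⟨C.add_mem hxC hyC, T.add_mem hxT hyT⟩
    | inv x _ hx =>
      obtain ⟨hxC, hxT⟩ := hx
      refine ⟨C.inv_mem hxC, ?_⟩
      have h1 := T.inv_mem_of_algebraic (x := ⟨⟨x, hxC⟩, hxT⟩)
        (Algebra.IsAlgebraic.isAlgebraic (R := A) (⟨x, hxC⟩ : C))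
      exact h1
    | mul x y _ _ hx hy =>
      obtain ⟨hxC, hxT⟩ := hx
      obtain ⟨hyC, hyT⟩ := hy
      exact ⟨C.mul_mem hxC hyC, T.mul_mem hxT hyT⟩
  rw [eq_top_iff]
  rintro ⟨y, hyC⟩ -
  obtain ⟨_, h⟩ := key y (hC hyC)
  exact h

end Fermat.Agent.S37.H818

end

end
-- ===== PACK-END S37/H818/FieldBridge.lean

-- ===== PACK-BEGIN S28/H988/Coprime.lean
section
/-
S28 / [L.UP] upper bound, helper988.
Pure algebra (Mathlib only):
* `isCoprime_map_of_reduction`: two monic polynomials over `k⟦X⟧`, one with unit constant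
  coefficient, the other congruent to `X ^ m` modulo the maximal ideal, are coprime over `k⸨X⸩`.
* `mem_range_of_common_root`: the "gcd lemma": a common root `x` of two polynomials over a
  subfield `F`, such that the two quotients by `X - x` are coprime, lies in `F`.
-/


set_option autoImplicit false

noncomputable section

open Polynomial

namespace Fermat.Agent.S28.H988

section Reduction

variable {k : Type*} [Field k]

/-- A monic polynomial over `k⟦X⟧` all of whose lower coefficients lie in the maximal ideal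
reduces to `X ^ natDegree`. -/
theorem map_constantCoeff_eq_X_pow (g : Polynomial (PowerSeries k)) (hg : g.Monic)
    (hc : ∀ i < g.natDegree, PowerSeries.constantCoeff (g.coeff i) = 0) :
    g.map (PowerSeries.constantCoeff (R := k)) = X ^ g.natDegree := by
  ext i
  rw [coeff_map, coeff_X_pow]
  rcases lt_trichotomy i g.natDegree with h | h | h
  · rw [hc i h, if_neg (ne_of_lt h)]
  · rw [h, if_pos rfl, coeff_natDegree, hg.leadingCoeff, _root_.map_one]
  · rw [coeff_eq_zero_of_natDegree_lt h, _root_.map_zero, if_neg (ne_of_gt h)]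

/-- Two monic polynomials over `k⟦X⟧`, one with unit constant coefficient, the other congruent
to `X ^ m` modulo the maximal ideal, are coprime over `k⸨X⸩`. -/
theorem isCoprime_map_of_reduction
    (g₁ g₂ : Polynomial (PowerSeries k)) (h₁ : g₁.Monic) (h₂ : g₂.Monic)
    (hc₁ : PowerSeries.constantCoeff (g₁.coeff 0) ≠ 0)
    (hc₂ : ∀ i < g₂.natDegree, PowerSeries.constantCoeff (g₂.coeff i) = 0) :
    IsCoprime (g₁.map (algebraMap (PowerSeries k) (LaurentSeries k)))
      (g₂.map (algebraMap (PowerSeries k) (LaurentSeries k))) := by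
  classical
  set φ := algebraMap (PowerSeries k) (LaurentSeries k) with hφ
  have hφinj : Function.Injective φ := IsFractionRing.injective _ _
  rw [← EuclideanDomain.gcd_isUnit_iff]
  set H := EuclideanDomain.gcd (g₁.map φ) (g₂.map φ) with hH
  have hHne : H ≠ 0 := by
    intro h0
    have := (EuclideanDomain.gcd_eq_zero_iff.mp h0).1
    exact (h₁.map φ).ne_zero this
  have hH1 : H ∣ g₁.map φ := EuclideanDomain.gcd_dvd_left _ _
  have hH2 : H ∣ g₂.map φ := EuclideanDomain.gcd_dvd_right _ _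
  -- normalise
  set H' := H * C (leadingCoeff H)⁻¹ with hH'
  have hH'monic : H'.Monic := monic_mul_leadingCoeff_inv hHne
  have hunit : IsUnit (C (leadingCoeff H)⁻¹ : Polynomial (LaurentSeries k)) :=
    isUnit_C.mpr (IsUnit.mk0 _ (inv_ne_zero (leadingCoeff_ne_zero.mpr hHne)))
  have hH'1 : H' ∣ g₁.map φ := (hunit.mul_right_dvd).mpr hH1
  have hH'2 : H' ∣ g₂.map φ := (hunit.mul_right_dvd).mpr hH2
  obtain ⟨h', hh'⟩ := IsIntegrallyClosed.eq_map_mul_C_of_dvd (LaurentSeries k) h₁ hH'1
  rw [hH'monic.leadingCoeff, _root_.map_one, mul_one] at hh'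
  have hh'monic : h'.Monic := monic_of_injective hφinj (by rw [hh']; exact hH'monic)
  have hd1 : h' ∣ g₁ := (map_dvd_map φ hφinj hh'monic).mp (by rw [hh']; exact hH'1)
  have hd2 : h' ∣ g₂ := (map_dvd_map φ hφinj hh'monic).mp (by rw [hh']; exact hH'2)
  -- reduce modulo the maximal ideal
  set ψ := PowerSeries.constantCoeff (R := k) with hψ
  have hb1 : h'.map ψ ∣ g₁.map ψ := Polynomial.map_dvd ψ hd1
  have hb2 : h'.map ψ ∣ X ^ g₂.natDegree := by
    rw [← map_constantCoeff_eq_X_pow g₂ h₂ hc₂]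
    exact Polynomial.map_dvd ψ hd2
  have hbmonic : (h'.map ψ).Monic := hh'monic.map ψ
  obtain ⟨i, _, hi⟩ := (dvd_prime_pow (prime_X (R := k)) _).mp hb2
  have hi0 : i = 0 := by
    by_contra hne
    have hX : (X : Polynomial k) ∣ h'.map ψ :=
      (dvd_pow_self X hne).trans hi.symm.dvd
    have := hX.trans hb1
    rw [X_dvd_iff, coeff_map] at this
    exact hc₁ this
  rw [hi0, pow_zero] at hi
  have hdeg0 : (h'.map ψ).natDegree = 0 := by
    have := natDegree_eq_of_degree_eq (degree_eq_degree_of_associated hi)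
    simpa using this
  have hh'deg : h'.natDegree = 0 := by
    rw [← hdeg0, hh'monic.natDegree_map]
  have hh'one : h' = 1 := by
    have := eq_C_of_natDegree_eq_zero hh'deg
    rw [this]
    have hc : h'.coeff 0 = 1 := by
      have := hh'monic.leadingCoeff
      rwa [leadingCoeff, hh'deg] at this
    rw [hc, C_1]
  have hH'one : H' = 1 := by rw [← hh', hh'one, Polynomial.map_one]
  have : IsUnit H' := by rw [hH'one]; exact isUnit_one
  exact (IsUnit.mul_iff.mp this).1

end Reduction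

section GcdLemma

variable {F K : Type*} [Field F] [Field K] [Algebra F K]

/-- The gcd lemma: if `x` is a common root of `A` and `B` (polynomials over the subfield `F`)
and the quotients of `A` and `B` by `X - x` are coprime over the big field, then `x ∈ F`. -/
theorem mem_range_of_common_root (A B : Polynomial F) (hA : A ≠ 0) (x : K)
    (hAx : (A.map (algebraMap F K)).IsRoot x) (hBx : (B.map (algebraMap F K)).IsRoot x)
    (hcop : IsCoprime ((A.map (algebraMap F K)) /ₘ (X - C x))
      ((B.map (algebraMap F K)) /ₘ (X - C x))) :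
    x ∈ (algebraMap F K).range := by
  have hAx' : aeval x A = 0 := by
    rw [aeval_def, eval₂_eq_eval_map]; exact hAx
  have hBx' : aeval x B = 0 := by
    rw [aeval_def, eval₂_eq_eval_map]; exact hBx
  have hint : IsIntegral F x := by
    refine ⟨A * C (leadingCoeff A)⁻¹, monic_mul_leadingCoeff_inv hA, ?_⟩
    rw [eval₂_mul, ← aeval_def, hAx', zero_mul]
  rw [← minpoly.natDegree_eq_one_iff]
  set μ := minpoly F x with hμ
  have hμA : μ ∣ A := minpoly.dvd F x hAx'
  have hμB : μ ∣ B := minpoly.dvd F x hBx'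
  set φ := algebraMap F K with hφ
  have hμroot : (μ.map φ).IsRoot x := by
    have := minpoly.aeval F x
    rw [aeval_def, eval₂_eq_eval_map] at this
    exact this
  have e1 := mul_divByMonic_eq_iff_isRoot.mpr hμroot
  have e2 := mul_divByMonic_eq_iff_isRoot.mpr hAx
  have e3 := mul_divByMonic_eq_iff_isRoot.mpr hBx
  have hne : (X - C x : Polynomial K) ≠ 0 := X_sub_C_ne_zero x
  have d1 : (μ.map φ) /ₘ (X - C x) ∣ (A.map φ) /ₘ (X - C x) := by
    have : μ.map φ ∣ A.map φ := Polynomial.map_dvd φ hμA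
    rw [← e1, ← e2] at this
    exact (mul_dvd_mul_iff_left hne).mp this
  have d2 : (μ.map φ) /ₘ (X - C x) ∣ (B.map φ) /ₘ (X - C x) := by
    have : μ.map φ ∣ B.map φ := Polynomial.map_dvd φ hμB
    rw [← e1, ← e3] at this
    exact (mul_dvd_mul_iff_left hne).mp this
  have hu : IsUnit ((μ.map φ) /ₘ (X - C x)) := hcop.isUnit_of_dvd' d1 d2
  have hdeg : (μ.map φ).natDegree = 1 := by
    rw [← e1, natDegree_mul hne hu.ne_zero, natDegree_X_sub_C, natDegree_eq_zero_of_isUnit hu]
  rwa [natDegree_map] at hdeg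

end GcdLemma

end Fermat.Agent.S28.H988

end

end
-- ===== PACK-END S28/H988/Coprime.lean

-- ===== PACK-BEGIN S18/H278/NCVal.lean
section


/-!
# S18 / ALG-FRONT, piece hNC (helper278), part 1: the valuation-theoretic core

`Ω` a field, `Lc ≤ Ω` an algebraically closed subfield, `x : Ω`, `S` a finite set (branch values).
Hypothesis `Unramified Lc x S` = the field `unramified` of `Alg.GoodModel` (`Alg/Spec.lean`):
at a place `O ⊇ Lc` of `Ω` where `x` takes a value `c ∈ Lc`, `c ∉ S`, `x - c` is a uniformiser.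

`mul_inv_mem_of_unramified` : if `P ∈ Lc[X]` is separable without roots in `S` and `P(x)` is a
nonunit of `O`, then `P(x)` is a uniformiser of `O`: `t / P(x) ∈ O` for every nonunit `t` of `O`.
-/

set_option autoImplicit false
set_option linter.unusedSectionVars false

namespace Fermat.Agent.S18.H278

open Polynomial

section Val

variable {Ω : Type*} [Field Ω]

/-- The `unramified` field of `Alg.GoodModel`, as a standalone predicate. -/
def Unramified (Lc : Subfield Ω) (x : Ω) (S : Finset Ω) : Prop :=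
  ∀ O : ValuationSubring Ω, (∀ a ∈ Lc, a ∈ O) → ∀ c ∈ Lc, c ∉ S →
    x - c ∈ O → (x - c)⁻¹ ∉ O → ∀ t ∈ O, t⁻¹ ∉ O → t * (x - c)⁻¹ ∈ O

variable (O : ValuationSubring Ω) (Lc : Subfield Ω) (hLO : ∀ a ∈ Lc, a ∈ O)

/-- `t ∈ O`, `t⁻¹ ∉ O` means valuation `< 1`. -/
theorem valuation_lt_one_of_inv_not_mem {t : Ω} (ht : t ∈ O) (ht' : t⁻¹ ∉ O) :
    O.valuation t < 1 := by
  rcases eq_or_ne t 0 with rfl | h0
  · exact absurd (by rw [inv_zero]; exact O.zero_mem) ht'
  have h1 : O.valuation t ≤ 1 := (O.valuation_le_one_iff t).mpr ht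
  refine lt_of_le_of_ne h1 fun h => ht' ?_
  rw [← O.valuation_le_one_iff, map_inv₀, h, inv_one]

theorem inv_not_mem_of_valuation_lt_one {t : Ω} (h0 : t ≠ 0) (ht : O.valuation t < 1) :
    t⁻¹ ∉ O := by
  intro h
  have h1 : O.valuation t⁻¹ ≤ 1 := (O.valuation_le_one_iff _).mpr h
  have h2 : O.valuation (t * t⁻¹) < 1 := by
    rw [_root_.map_mul]
    exact mul_lt_one_of_lt_of_le ht h1
  rw [mul_inv_cancel₀ h0, _root_.map_one] at h2
  exact lt_irrefl _ h2

include hLO in
/-- A nonzero constant is a unit of `O`. -/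
theorem valuation_eq_one_of_mem {a : Ω} (ha : a ∈ Lc) (ha0 : a ≠ 0) : O.valuation a = 1 := by
  have h1 : O.valuation a ≤ 1 := (O.valuation_le_one_iff a).mpr (hLO a ha)
  refine le_antisymm h1 ?_
  by_contra h
  rw [not_le] at h
  exact inv_not_mem_of_valuation_lt_one O ha0 h (hLO _ (Lc.inv_mem ha))

include hLO in
/-- A polynomial with constant coefficients evaluated at an element of `O` lies in `O`. -/
theorem aeval_mem_of_mem (Q : Polynomial Lc) {y : Ω} (hy : y ∈ O) : aeval y Q ∈ O := by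
  induction Q using Polynomial.induction_on' with
  | add p q hp hq => rw [_root_.map_add]; exact O.add_mem _ _ hp hq
  | monomial n a =>
    rw [aeval_monomial]
    exact O.mul_mem _ _ (hLO _ a.2) (pow_mem hy n)

include hLO in
/-- `Q(y) ≡ Q(c)` modulo `y - c`. -/
theorem valuation_aeval_sub_le (Q : Polynomial Lc) {y : Ω} (hy : y ∈ O) (c : Lc) :
    O.valuation (aeval y Q - ((Q.eval c : Lc) : Ω)) ≤ O.valuation (y - (c : Ω)) := by
  obtain ⟨Q₁, hQ₁⟩ : (X - C c) ∣ Q - C (Q.eval c) := by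
    rw [dvd_iff_isRoot]
    simp
  have h1 : aeval y Q - ((Q.eval c : Lc) : Ω) = (y - (c : Ω)) * aeval y Q₁ := by
    have := congrArg (aeval y) hQ₁
    rw [_root_.map_sub, _root_.map_mul, _root_.map_sub, aeval_X, aeval_C, aeval_C] at this
    exact this
  rw [h1, _root_.map_mul]
  exact mul_le_of_le_one_right' ((O.valuation_le_one_iff _).mpr (aeval_mem_of_mem O Lc hLO Q₁ hy))

include hLO in
/-- **Uniformiser lemma.**  If `P ∈ Lc[X]` is separable with no root in `S` and `P(x)` is a
nonunit of the place `O ⊇ Lc`, then `P(x)` is a uniformiser of `O`. -/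
theorem mul_inv_mem_of_unramified [IsAlgClosed Lc] {x : Ω} {S : Finset Ω}
    (hunr : Unramified Lc x S)
    (P : Polynomial Lc) (hPsep : P.Separable) (hroots : ∀ c : Lc, P.IsRoot c → (c : Ω) ∉ S)
    (hπO : aeval x P ∈ O) (hπ : (aeval x P)⁻¹ ∉ O) :
    ∀ t ∈ O, t⁻¹ ∉ O → t * (aeval x P)⁻¹ ∈ O := by
  have hP0 : P ≠ 0 := hPsep.ne_zero
  have hvπ : O.valuation (aeval x P) < 1 := valuation_lt_one_of_inv_not_mem O hπO hπ
  have hlead : O.valuation ((P.leadingCoeff : Lc) : Ω) = 1 :=
    valuation_eq_one_of_mem O Lc hLO (P.leadingCoeff).2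
      (by simpa using leadingCoeff_ne_zero.mpr hP0)
  -- `x ∈ O`
  have hxO : x ∈ O := by
    by_contra hx
    have hx0 : x ≠ 0 := fun h => hx (h ▸ O.zero_mem)
    have hxinv : x⁻¹ ∈ O := (O.mem_or_inv_mem x).resolve_left hx
    have hvx : O.valuation x⁻¹ < 1 :=
      valuation_lt_one_of_inv_not_mem O hxinv (by rwa [inv_inv])
    let _inst := invertibleOfNonzero hx0
    have h1 := eval₂_reverse_mul_pow (algebraMap Lc Ω) x P
    rw [invOf_eq_inv] at h1
    have h2 : O.valuation (aeval x⁻¹ P.reverse) = 1 := by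
      have h3 := valuation_aeval_sub_le O Lc hLO P.reverse hxinv 0
      have h4 : P.reverse.eval 0 = P.leadingCoeff := by
        rw [← coeff_zero_eq_eval_zero, coeff_zero_reverse]
      rw [h4] at h3
      have h3' : O.valuation (aeval x⁻¹ P.reverse - ((P.leadingCoeff : Lc) : Ω)) ≤
          O.valuation x⁻¹ := by simpa using h3
      have h6 : O.valuation (aeval x⁻¹ P.reverse - ((P.leadingCoeff : Lc) : Ω)) <
          O.valuation ((P.leadingCoeff : Lc) : Ω) := by
        rw [hlead]; exact lt_of_le_of_lt h3' hvx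
      rw [Valuation.map_eq_of_sub_lt _ h6, hlead]
    have h7 : O.valuation (aeval x P) = O.valuation x ^ P.natDegree := by
      rw [aeval_def, ← h1, _root_.map_mul, _root_.map_pow, ← aeval_def, h2, one_mul]
    have h8 : 1 ≤ O.valuation x := by
      by_contra h
      rw [not_le] at h
      exact hx ((O.valuation_le_one_iff x).mp h.le)
    have h9 : 1 ≤ O.valuation x ^ P.natDegree := one_le_pow₀ h8
    rw [← h7] at h9
    exact absurd hvπ (not_lt.mpr h9)
  -- a root `c₀` with `x - c₀` a nonunit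
  have hsplit := (IsAlgClosed.splits P).eq_prod_roots
  have hprod : aeval x P =
      ((P.leadingCoeff : Lc) : Ω) * (P.roots.map (fun c : Lc => x - (c : Ω))).prod := by
    conv_lhs => rw [hsplit]
    rw [_root_.map_mul, aeval_C, _root_.map_multiset_prod, Multiset.map_map]
    congr 2
    refine Multiset.map_congr rfl fun c _ => ?_
    simp only [Function.comp_apply, _root_.map_sub, aeval_X, aeval_C]
    rfl
  obtain ⟨c₀, hc₀, hvc₀⟩ : ∃ c₀ ∈ P.roots, O.valuation (x - (c₀ : Ω)) < 1 := by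
    by_contra hcon
    push Not at hcon
    have hall : ∀ c ∈ P.roots, O.valuation (x - (c : Ω)) = 1 := fun c hc =>
      le_antisymm ((O.valuation_le_one_iff _).mpr (O.sub_mem hxO (hLO _ c.2))) (hcon c hc)
    have h1 : O.valuation (aeval x P) = 1 := by
      rw [hprod, _root_.map_mul, hlead, one_mul, _root_.map_multiset_prod, Multiset.map_map]
      apply Multiset.prod_eq_one
      intro a ha
      obtain ⟨c, hc, rfl⟩ := Multiset.mem_map.mp ha
      exact hall c hc
    rw [h1] at hvπ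
    exact lt_irrefl _ hvπ
  have hroot : P.IsRoot c₀ := isRoot_of_mem_roots hc₀
  have hc₀S : (c₀ : Ω) ∉ S := hroots c₀ hroot
  have hxc₀ : x - (c₀ : Ω) ∈ O := O.sub_mem hxO (hLO _ c₀.2)
  have hxc₀0 : x - (c₀ : Ω) ≠ 0 := by
    intro h
    have hx' : aeval x P = 0 := by
      rw [sub_eq_zero] at h
      have h2 : aeval (algebraMap Lc Ω c₀) P = algebraMap Lc Ω (P.eval c₀) :=
        aeval_algebraMap_apply_eq_algebraMap_eval c₀ P
      rw [h]
      show aeval (algebraMap Lc Ω c₀) P = 0
      rw [h2, hroot.eq_zero, _root_.map_zero]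
    rw [hx', inv_zero] at hπ
    exact hπ O.zero_mem
  have hxc₀inv : (x - (c₀ : Ω))⁻¹ ∉ O := inv_not_mem_of_valuation_lt_one O hxc₀0 hvc₀
  -- `P = (X - c₀) Q` with `Q(c₀) ≠ 0`
  set Q := P /ₘ (X - C c₀) with hQ
  have hPQ : (X - C c₀) * Q = P := mul_divByMonic_eq_iff_isRoot.mpr hroot
  have hQc₀ : Q.eval c₀ ≠ 0 := by
    have hder := hPsep.eval₂_derivative_ne_zero (RingHom.id Lc) (x := c₀)
      (by rw [eval₂_id]; exact hroot)
    rw [eval₂_id] at hder
    intro h0
    apply hder
    rw [← hPQ, derivative_mul, eval_add, eval_mul, eval_mul, derivative_sub, derivative_X,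
      derivative_C, sub_zero, eval_one, one_mul, eval_sub, eval_X, eval_C, sub_self, zero_mul,
      add_zero, h0]
  have hvQ : O.valuation (aeval x Q) = 1 := by
    have h3 := valuation_aeval_sub_le O Lc hLO Q hxO c₀
    have h5 : O.valuation ((Q.eval c₀ : Lc) : Ω) = 1 :=
      valuation_eq_one_of_mem O Lc hLO (Q.eval c₀).2 (by simpa using hQc₀)
    have h6 : O.valuation (aeval x Q - ((Q.eval c₀ : Lc) : Ω)) <
        O.valuation ((Q.eval c₀ : Lc) : Ω) := by
      rw [h5]; exact lt_of_le_of_lt h3 hvc₀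
    rw [Valuation.map_eq_of_sub_lt _ h6, h5]
  have hvP : O.valuation (aeval x P) = O.valuation (x - (c₀ : Ω)) := by
    rw [← hPQ, _root_.map_mul, _root_.map_mul, hvQ, mul_one, _root_.map_sub, aeval_X, aeval_C]
    rfl
  -- conclusion
  intro t ht ht'
  have h1 : t * (x - (c₀ : Ω))⁻¹ ∈ O := hunr O hLO c₀ c₀.2 hc₀S hxc₀ hxc₀inv t ht ht'
  rw [← O.valuation_le_one_iff] at h1 ⊢
  rwa [_root_.map_mul, map_inv₀, hvP, ← map_inv₀, ← _root_.map_mul]

/-- The branch values in the chart at infinity. -/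
def invBranch [DecidableEq Ω] (S : Finset Ω) : Finset Ω := insert 0 (S.image fun s => s⁻¹)

/-- **Chart at infinity**: `Unramified` for `x` and `S` implies `Unramified` for `x⁻¹` and
`{0} ∪ S⁻¹`. -/
theorem Unramified.inv [DecidableEq Ω] {Lc : Subfield Ω} {x : Ω} {S : Finset Ω}
    (hunr : Unramified Lc x S) : Unramified Lc x⁻¹ (invBranch S) := by
  intro O hLO c' hc'L hc'S hmem hinv t ht ht'
  have hc'0 : c' ≠ 0 := by
    rintro rfl
    exact hc'S (Finset.mem_insert_self _ _)
  have hcS : c'⁻¹ ∉ S := by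
    intro h
    apply hc'S
    refine Finset.mem_insert_of_mem (Finset.mem_image.mpr ⟨c'⁻¹, h, inv_inv c'⟩)
  have hv1 : O.valuation (x⁻¹ - c') < 1 := valuation_lt_one_of_inv_not_mem O hmem hinv
  have hvc' : O.valuation c' = 1 := valuation_eq_one_of_mem O Lc hLO hc'L hc'0
  have hvx' : O.valuation x⁻¹ = 1 := by
    rw [Valuation.map_eq_of_sub_lt _ (by rw [hvc']; exact hv1), hvc']
  have hx0 : x ≠ 0 := by
    rintro rfl
    rw [inv_zero, _root_.map_zero] at hvx'
    exact zero_ne_one hvx'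
  have hvx : O.valuation x = 1 := by
    rw [map_inv₀] at hvx'
    exact inv_eq_one.mp hvx'
  have hkey : x - c'⁻¹ = -((x⁻¹ - c') * x * c'⁻¹) := by
    field_simp
    ring
  have hv2 : O.valuation (x - c'⁻¹) = O.valuation (x⁻¹ - c') := by
    rw [hkey, Valuation.map_neg, _root_.map_mul, _root_.map_mul, hvx, map_inv₀, hvc', inv_one, mul_one, mul_one]
  have hxc0 : x - c'⁻¹ ≠ 0 := by
    intro h
    rw [h, _root_.map_zero] at hv2
    have h3 : x⁻¹ - c' = 0 := (Valuation.zero_iff _).mp hv2.symm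
    rw [h3, inv_zero] at hinv
    exact hinv O.zero_mem
  have h1 : x - c'⁻¹ ∈ O := by
    rw [← O.valuation_le_one_iff, hv2]
    exact hv1.le
  have h2 : (x - c'⁻¹)⁻¹ ∉ O :=
    inv_not_mem_of_valuation_lt_one O hxc0 (by rw [hv2]; exact hv1)
  have h3 := hunr O hLO c'⁻¹ (Lc.inv_mem hc'L) hcS h1 h2 t ht ht'
  rw [← O.valuation_le_one_iff] at h3 ⊢
  rwa [_root_.map_mul, map_inv₀, ← hv2, ← map_inv₀, ← _root_.map_mul]

end Val

end Fermat.Agent.S18.H278

end
-- ===== PACK-END S18/H278/NCVal.lean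

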