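import Mathlib
import Fermat.Prelude.Def_ModularCurve_ReductionModL
import Fermat.Prelude.Def_ModularCurve_X0ModL
import Fermat.Prelude.Def_ModularCurve_ArithmeticGalois
import Fermat.Agent.Pack.S33.E1L0
import Fermat.Agent.Pack.S33.E1L2
import Fermat.Agent.Pack.S33.E1L3
import Fermat.Agent.Pack.S33.E1L1
import Fermat.Agent.Pack.S33.E2L1
import Fermat.Agent.Pack.S33.E2L3
import Fermat.Agent.Pack.S33.E2L0
import Fermat.Agent.Pack.S33.E2L2

-- ===== PACK-BEGIN S37/H700/GaussBasic.lean
section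




/-!
# S37 / piece GAUSS (helper700): basic lemmas

Elementary facts about `coeffMap`, polynomials in `j` and normalisation of finitely many
elements of the fraction field of a valuation ring.
-/

set_option autoImplicit false

noncomputable section

namespace Fermat.Agent.S37.H700

open ModularCurve HahnSeries Polynomial

section CoeffMap

variable {R S : Type*} [CommRing R] [CommRing S]

theorem coeffMap_injective {f : R →+* S} (hf : Function.Injective f) :
    Function.Injective (coeffMap f) := by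
  intro x y h
  ext n
  apply hf
  have := congrArg (fun z => HahnSeries.coeff z n) h
  simpa using this

theorem coeffMap_C (f : R →+* S) (r : R) :
    coeffMap f (HahnSeries.C r : LaurentSeries R) = HahnSeries.C (f r) := by
  show coeffMap f (HahnSeries.single 0 r) = HahnSeries.single 0 (f r)
  exact coeffMap_single f 0 r

/-- Evaluation of a polynomial at the `q`-expansion of `j`, with explicit constant map. -/
def evalJ (R : Type*) [CommRing R] (P : R[X]) : LaurentSeries R :=
  P.eval₂ (HahnSeries.C : R →+* LaurentSeries R) (jqModC R)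

theorem coeffMap_evalJ (f : R →+* S) (P : R[X]) :
    coeffMap f (evalJ R P) = evalJ S (P.map f) := by
  unfold evalJ
  rw [Polynomial.hom_eval₂, Polynomial.eval₂_map, coeffMap_jqModC]
  congr 1
  ext r : 1
  exact coeffMap_C f r

theorem evalJ_add (P Q : R[X]) : evalJ R (P + Q) = evalJ R P + evalJ R Q :=
  Polynomial.eval₂_add _ _

theorem evalJ_mul (P Q : R[X]) : evalJ R (P * Q) = evalJ R P * evalJ R Q :=
  Polynomial.eval₂_mul _ _

theorem evalJ_zero : evalJ R (0 : R[X]) = 0 := Polynomial.eval₂_zero _ _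

theorem evalJ_one : evalJ R (1 : R[X]) = 1 := Polynomial.eval₂_one _ _

end CoeffMap

section Field

variable (K : Type*) [Field K]

theorem evalJ_eq_aeval (P : K[X]) : evalJ K P = Polynomial.aeval (jqModC K) P := by
  unfold evalJ
  rw [Polynomial.aeval_def]
  congr 1
  ext c : 1
  rw [algebraMap_laurentSeries_eq_single]
  rfl

/-- The coefficient of `q^{-deg P}` in `P(j)` is the leading coefficient of `P`. -/
theorem coeff_evalJ_natDegree (P : K[X]) :
    (evalJ K P).coeff (-(P.natDegree : ℤ)) = P.leadingCoeff := by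
  unfold evalJ
  rw [Polynomial.eval₂_eq_sum_range, HahnSeries.coeff_sum,
    Finset.sum_eq_single_of_mem P.natDegree (Finset.self_mem_range_succ _)]
  · show (HahnSeries.single 0 (P.coeff P.natDegree) * jqModC K ^ P.natDegree).coeff _ = _
    rw [HahnSeries.coeff_single_zero_mul, coeff_jqModC_pow_self, mul_one]; rfl
  · intro i hi hne
    have hlt : i < P.natDegree :=
      lt_of_le_of_ne (Nat.lt_succ_iff.mp (Finset.mem_range.mp hi)) hne
    show (HahnSeries.single 0 (P.coeff i) * jqModC K ^ i).coeff _ = _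
    rw [HahnSeries.coeff_single_zero_mul, coeff_jqModC_pow_of_lt K (by omega), mul_zero]

theorem evalJ_eq_zero_iff {P : K[X]} : evalJ K P = 0 ↔ P = 0 := by
  constructor
  · intro hP
    have h := coeff_evalJ_natDegree K P
    rw [hP, HahnSeries.coeff_zero] at h
    exact Polynomial.leadingCoeff_eq_zero.mp h.symm
  · rintro rfl
    exact evalJ_zero

theorem jqModC_mem_jField : jqModC K ∈ Fermat.Agent.S28.jField K :=
  IntermediateField.subset_adjoin K _ (Set.mem_singleton _)

theorem evalJ_mem_jField (P : K[X]) : evalJ K P ∈ Fermat.Agent.S28.jField K := by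
  rw [evalJ_eq_aeval]
  exact Polynomial.aeval_mem_adjoin_singleton K (jqModC K) |> fun h =>
    (IntermediateField.algebra_adjoin_le_adjoin K _) h

/-- Every element of `K(j)` is a quotient of polynomials in `j` with nonzero denominator. -/
theorem exists_evalJ_of_mem_jField {c : LaurentSeries K} (hc : c ∈ Fermat.Agent.S28.jField K) :
    ∃ r s : K[X], s ≠ 0 ∧ c * evalJ K s = evalJ K r := by
  obtain ⟨r, s, hrs⟩ := (IntermediateField.mem_adjoin_simple_iff K c).mp hc
  by_cases hs : s = 0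
  · refine ⟨0, 1, one_ne_zero, ?_⟩
    rw [hrs, hs, _root_.map_zero, div_zero, zero_mul, evalJ_zero]
  · refine ⟨r, s, hs, ?_⟩
    have hs' : Polynomial.aeval (jqModC K) s ≠ 0 := by
      rw [← evalJ_eq_aeval]
      exact fun h => hs ((evalJ_eq_zero_iff K).mp h)
    rw [hrs, evalJ_eq_aeval, evalJ_eq_aeval, div_mul_cancel₀ _ hs']

end Field

end Fermat.Agent.S37.H700

end
end
-- ===== PACK-END S37/H700/GaussBasic.lean

-- ===== PACK-BEGIN S28/H326/Integral.lean
section
/-
S28 / helper326: integrality bookkeeping for Laurent series over `ℂ`: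
* `IntCoeff` : the subring of series all of whose coefficients are algebraic integers;
* `jP p = j(t^p)` and the leading-coefficient lemma for `Q(j(t^p))`;
* `exists_int_poly_of_integral` : `Q ∈ ℚ[X]` with `Q(j(t^p))` having algebraic-integer
  coefficients has integer coefficients.
-/




set_option autoImplicit false
set_option linter.unusedSectionVars false

noncomputable section

namespace Fermat.Agent.S28.H326

open ModularCurve HahnSeries

/-- Laurent series over `ℂ` whose coefficients are all algebraic integers. -/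
def IntCoeff : Subring (LaurentSeries ℂ) where
  carrier := {x | ∀ n, IsIntegral ℤ (x.coeff n)}
  mul_mem' {x y} hx hy n := by
    rw [HahnSeries.coeff_mul]
    exact IsIntegral.sum _ fun ij _ => (hx _).mul (hy _)
  one_mem' n := by
    rw [HahnSeries.coeff_one]
    split_ifs
    · exact isIntegral_one
    · exact isIntegral_zero
  add_mem' {x y} hx hy n := by
    rw [HahnSeries.coeff_add]
    exact (hx n).add (hy n)
  zero_mem' n := by
    rw [HahnSeries.coeff_zero]
    exact isIntegral_zero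
  neg_mem' {x} hx n := by
    rw [HahnSeries.coeff_neg]
    exact (hx n).neg

theorem mem_IntCoeff {x : LaurentSeries ℂ} : x ∈ IntCoeff ↔ ∀ n, IsIntegral ℤ (x.coeff n) :=
  Iff.rfl

/-- coefficient cast `ℤ((q)) → ℂ((q))` -/
abbrev kap : LaurentSeries ℤ →+* LaurentSeries ℂ := coeffMap (Int.castRingHom ℂ)

theorem kap_injective : Function.Injective kap := by
  intro x y h
  ext n
  have := congrArg (fun z => z.coeff n) h
  simpa using this

theorem kap_mem_IntCoeff (x : LaurentSeries ℤ) : kap x ∈ IntCoeff := fun n => by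
  rw [coeffMap_coeff]
  exact isIntegral_algebraMap (R := ℤ) (A := ℂ) (x := x.coeff n)

variable (p : ℕ) [NeZero p]

theorem qExpand_mem_IntCoeff {x : LaurentSeries ℂ} (hx : x ∈ IntCoeff) :
    qExpand ℂ p x ∈ IntCoeff := fun n => by
  by_cases h : (p : ℤ) ∣ n
  · obtain ⟨m, rfl⟩ := h
    rw [qExpand_coeff_mul]
    exact hx m
  · rw [qExpand_coeff_of_not_dvd p _ h]
    exact isIntegral_zero

theorem zeta_isIntegral : IsIntegral ℤ (zeta p) :=
  (zeta_isPrimitiveRoot p).isIntegral (Nat.pos_of_ne_zero (NeZero.ne p))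

theorem cB_mem_IntCoeff (b : ℕ) (g : PowerSeries ℤ) :
    cB p b (g.map (Int.castRingHom ℂ)) ∈ IntCoeff := fun n => by
  rcases lt_or_ge n 0 with hn | hn
  · rw [cB_coeff_neg p b _ hn]
    exact isIntegral_zero
  · lift n to ℕ using hn
    rw [cB_coeff_nat, PowerSeries.coeff_map]
    exact (((zeta_isIntegral p).pow b).pow n).mul
      (isIntegral_algebraMap (R := ℤ) (A := ℂ) (x := g.coeff n))

/-- `j(t^p)` over `ℂ`. -/
def jP : LaurentSeries ℂ := qExpand ℂ p (jqModC ℂ)

theorem jP_pow_coeff_self (n : ℕ) : (jP p ^ n).coeff (-((p : ℤ) * n)) = 1 := by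
  rw [jP, ← map_pow, show -((p : ℤ) * n) = (p : ℤ) * (-(n : ℤ)) by ring, qExpand_coeff_mul,
    coeff_jqModC_pow_self]

theorem jP_pow_coeff_of_lt {i n : ℕ} (h : i < n) : (jP p ^ i).coeff (-((p : ℤ) * n)) = 0 := by
  rw [jP, ← map_pow, show -((p : ℤ) * n) = (p : ℤ) * (-(n : ℤ)) by ring, qExpand_coeff_mul]
  exact coeff_jqModC_pow_of_lt ℂ (by omega)

theorem jP_pow_mem_IntCoeff (n : ℕ) : jP p ^ n ∈ IntCoeff := by
  refine Subring.pow_mem _ ?_ n
  rw [jP, ← coeffMap_jqModC (Int.castRingHom ℂ)]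
  exact qExpand_mem_IntCoeff p (kap_mem_IntCoeff _)

theorem ratCast_mul_coeff (c : ℚ) (x : LaurentSeries ℂ) (n : ℤ) :
    ((c : LaurentSeries ℂ) * x).coeff n = (c : ℂ) * x.coeff n := by
  have : (c : LaurentSeries ℂ) = HahnSeries.C (c : ℂ) := (map_ratCast HahnSeries.C c).symm
  rw [this, HahnSeries.C_mul_eq_smul, HahnSeries.coeff_smul, smul_eq_mul]

theorem rat_algebraMap_mul_coeff (c : ℚ) (x : LaurentSeries ℂ) (n : ℤ) :
    (algebraMap ℚ (LaurentSeries ℂ) c * x).coeff n = (c : ℂ) * x.coeff n := by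
  rw [eq_ratCast, ratCast_mul_coeff]

/-- leading coefficient of `Q(j(t^p))` -/
theorem aeval_jP_coeff (Q : Polynomial ℚ) {n : ℕ} (hn : Q.natDegree ≤ n) :
    (Polynomial.aeval (jP p) Q).coeff (-((p : ℤ) * n)) = (Q.coeff n : ℂ) := by
  rw [Polynomial.aeval_eq_sum_range' (Nat.lt_succ_of_le hn), HahnSeries.coeff_sum,
    Finset.sum_range_succ]
  rw [Finset.sum_eq_zero, zero_add, Algebra.smul_def, rat_algebraMap_mul_coeff,
    jP_pow_coeff_self, mul_one]
  · intro i hi
    rw [Algebra.smul_def, rat_algebraMap_mul_coeff, jP_pow_coeff_of_lt p (Finset.mem_range.mp hi),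
      mul_zero]

theorem rat_of_isIntegral {a : ℚ} (h : IsIntegral ℤ (a : ℂ)) : ∃ m : ℤ, (m : ℚ) = a := by
  have h1 : IsIntegral ℤ a := by
    have := (isIntegral_algebraMap_iff (R := ℤ) (A := ℚ) (B := ℂ)
      (algebraMap ℚ ℂ).injective (x := a)).mp (by simpa using h)
    exact this
  obtain ⟨m, hm⟩ := IsIntegrallyClosed.isIntegral_iff.mp h1
  exact ⟨m, by simpa using hm⟩

/-- **Integrality by leading terms**: if `Q(j(t^p))` has algebraic-integer coefficients,
then `Q` has integer coefficients. -/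
theorem exists_int_poly_of_integral (Q : Polynomial ℚ)
    (h : Polynomial.aeval (jP p) Q ∈ IntCoeff) :
    ∃ Q' : Polynomial ℤ, Q'.map (Int.castRingHom ℚ) = Q := by
  suffices H : ∀ d : ℕ, ∀ Q : Polynomial ℚ, Q.natDegree < d →
      Polynomial.aeval (jP p) Q ∈ IntCoeff → ∃ Q' : Polynomial ℤ,
        Q'.map (Int.castRingHom ℚ) = Q from H (Q.natDegree + 1) Q (Nat.lt_succ_self _) h
  intro d
  induction d with
  | zero => intro Q hQ; omega
  | succ d ih =>
    intro Q hQ hint
    have hle : Q.natDegree ≤ d := Nat.lt_succ_iff.mp hQ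
    have hlead := aeval_jP_coeff p Q hle
    obtain ⟨m, hm⟩ := rat_of_isIntegral (hlead ▸ hint _)
    set Q1 : Polynomial ℚ := Q - Polynomial.C (Q.coeff d) * Polynomial.X ^ d with hQ1
    have hdeg : Q1.natDegree < d ∨ Q1 = 0 := by
      by_cases h0 : Q1 = 0
      · exact Or.inr h0
      left
      have h1 : Q1.natDegree ≤ d := by
        refine (Polynomial.natDegree_sub_le _ _).trans (max_le hle ?_)
        exact Polynomial.natDegree_C_mul_X_pow_le _ _
      rcases Nat.lt_or_ge Q1.natDegree d with h2 | h2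
      · exact h2
      · have h3 : Q1.natDegree = d := le_antisymm h1 h2
        have h4 : Q1.coeff d = 0 := by
          simp [hQ1]
        have h5 : Q1.leadingCoeff = 0 := by
          rw [Polynomial.leadingCoeff, h3, h4]
        exact absurd (Polynomial.leadingCoeff_eq_zero.mp h5) h0
    have hint1 : Polynomial.aeval (jP p) Q1 ∈ IntCoeff := by
      rw [hQ1, _root_.map_sub, _root_.map_mul, Polynomial.aeval_C, map_pow, Polynomial.aeval_X]
      refine Subring.sub_mem _ hint ?_
      rw [← hm]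
      have : algebraMap ℚ (LaurentSeries ℂ) (m : ℚ) = ((m : ℤ) : LaurentSeries ℂ) := by
        simp
      rw [this]
      exact Subring.mul_mem _ (intCast_mem _ m) (jP_pow_mem_IntCoeff p d)
    have hQ1' : ∃ Q' : Polynomial ℤ, Q'.map (Int.castRingHom ℚ) = Q1 := by
      rcases hdeg with h1 | h1
      · rcases Nat.eq_zero_or_pos d with hd | hd
        · omega
        · exact ih Q1 (by omega) hint1 |>.elim (fun Q' h' => ⟨Q', h'⟩) |> fun x => x
      · exact ⟨0, by simp [h1]⟩
    obtain ⟨Q', hQ'⟩ := hQ1'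
    refine ⟨Q' + Polynomial.C m * Polynomial.X ^ d, ?_⟩
    rw [Polynomial.map_add, hQ', Polynomial.map_mul, Polynomial.map_pow, Polynomial.map_X,
      Polynomial.map_C, hQ1]
    simp [hm]

end Fermat.Agent.S28.H326

end
end
-- ===== PACK-END S28/H326/Integral.lean

-- ===== PACK-BEGIN S24/Mod/H368Gens.lean
section



/-!
# S24 / MOD glue (helper368): generators of the function field of `X₀(N)`

The Prelude defines `modularFunctionFieldBar N` as the field generated over `ℚ̄` by the image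
of the whole field `ℚ(j(q^d) : d ∣ N)`.  Here we show it is generated by the finitely many
series `j(q^d)`, `d ∣ N`, and deduce the `MvPolynomial` presentation used to construct
embeddings.
-/

set_option autoImplicit false
set_option linter.style.haveILetI false

noncomputable section

open ModularCurve IntermediateField MvPolynomial

namespace Fermat.Agent.S24.H368

variable (L : Type*) [Field L] [Algebra ℚ L]

/-- `j(q^d)` with coefficients in `L`, for a divisor `d` of `N`. -/
def gen (N : ℕ) (d : N.divisors) : LaurentSeries L :=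
  haveI : NeZero d.1 := ⟨(Nat.pos_of_mem_divisors d.2).ne'⟩
  coeffEmb L (qExpand ℚ d.1 jq)

theorem gen_eq (N : ℕ) (d : ℕ) [NeZero d] (hd : d ∈ N.divisors) :
    gen L N ⟨d, hd⟩ = coeffEmb L (qExpand ℚ d jq) := rfl

theorem gen_one (N : ℕ) [NeZero N] :
    gen L N ⟨1, Nat.one_mem_divisors.2 (NeZero.ne N)⟩ = coeffEmb L jq := by
  rw [gen_eq, qExpand_one_apply]

/-- The image under `coeffEmb` of the field generated by a set lies in the field generated by
the image of the set. -/
theorem coeffEmb_mem_adjoin_image (T : Set (LaurentSeries ℚ)) {x : LaurentSeries ℚ}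
    (hx : x ∈ IntermediateField.adjoin ℚ T) :
    coeffEmb L x ∈ IntermediateField.adjoin L (⇑(coeffEmb L) '' T) := by
  induction hx using IntermediateField.adjoin_induction with
  | mem y hy => exact subset_adjoin L _ ⟨y, hy, rfl⟩
  | algebraMap c =>
    have : coeffEmb L (algebraMap ℚ (LaurentSeries ℚ) c)
        = algebraMap L (LaurentSeries L) (algebraMap ℚ L c) := by
      rw [algebraMap_apply_eq_single, algebraMap_laurentSeries_eq_single]
      exact coeffMap_single _ _ _
    rw [this]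
    exact (IntermediateField.adjoin L _).algebraMap_mem _
  | add x y _ _ hx hy => rw [map_add]; exact _root_.AddMemClass.add_mem hx hy
  | inv x _ hx => rw [map_inv₀]; exact _root_.InvMemClass.inv_mem hx
  | mul x y _ _ hx hy => rw [map_mul]; exact _root_.MulMemClass.mul_mem hx hy

theorem laurentBaseChange_adjoin (T : Set (LaurentSeries ℚ)) :
    laurentBaseChange L (IntermediateField.adjoin ℚ T)
      = IntermediateField.adjoin L (⇑(coeffEmb L) '' T) := by
  apply le_antisymm
  · rw [laurentBaseChange, adjoin_le_iff]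
    rintro _ ⟨x, hx, rfl⟩
    exact coeffEmb_mem_adjoin_image L T hx
  · rw [laurentBaseChange]
    exact IntermediateField.adjoin.mono L _ _ (Set.image_mono (subset_adjoin ℚ T))

theorem image_divisorExpansions (N : ℕ) [NeZero N] :
    ⇑(coeffEmb L) '' divisorExpansions N = Set.range (gen L N) := by
  ext x
  constructor
  · rintro ⟨y, ⟨d, hne, hd, rfl⟩, rfl⟩
    exact ⟨⟨d, Nat.mem_divisors.2 ⟨hd, NeZero.ne N⟩⟩, rfl⟩
  · rintro ⟨⟨d, hd⟩, rfl⟩
    exact ⟨_, ⟨d, ⟨(Nat.pos_of_mem_divisors hd).ne'⟩, Nat.dvd_of_mem_divisors hd, rfl⟩, rfl⟩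

/-- The function field of `X₀(N)` over `L` is generated over `L` by the `j(q^d)`, `d ∣ N`. -/
theorem laurentBaseChange_full_eq_adjoin (N : ℕ) [NeZero N] :
    laurentBaseChange L (modularFunctionFieldFull N)
      = IntermediateField.adjoin L (Set.range (gen L N)) := by
  rw [modularFunctionFieldFull, laurentBaseChange_adjoin, image_divisorExpansions]

theorem modularFunctionFieldBar_eq_adjoin (N : ℕ) [NeZero N] :
    modularFunctionFieldBar N
      = IntermediateField.adjoin (AlgebraicClosure ℚ) (Set.range (gen (AlgebraicClosure ℚ) N)) :=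
  laurentBaseChange_full_eq_adjoin _ N

/-- Every element of `K(s)` is a quotient of two polynomial expressions in the generators. -/
theorem exists_aeval_div {K E ι : Type*} [Field K] [Field E] [Algebra K E] (s : ι → E)
    {x : E} (hx : x ∈ IntermediateField.adjoin K (Set.range s)) :
    ∃ p q : MvPolynomial ι K, aeval s q ≠ 0 ∧ x = aeval s p / aeval s q := by
  obtain ⟨a, ha, b, hb, rfl⟩ := IntermediateField.mem_adjoin_iff_div.1 hx
  rw [Algebra.adjoin_range_eq_range_aeval] at ha hb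
  obtain ⟨p, rfl⟩ := ha
  obtain ⟨q, rfl⟩ := hb
  by_cases hq : aeval s q = 0
  · refine ⟨0, 1, by simp, ?_⟩
    simp [hq]
  · exact ⟨p, q, hq, rfl⟩

end Fermat.Agent.S24.H368

end
end
-- ===== PACK-END S24/Mod/H368Gens.lean

-- ===== PACK-BEGIN S18/H264/SepGraph.lean
section


/-!
# S18 / G-SEP (helper264): the field `separable` of `Alg.GoodModel` from a reduction *relation*

Mathlib-only, abstract.  Instead of a reduction homomorphism on the valuation ring `V` we use a
subring `T ≤ Ω × L` ("`(g, ḡ) ∈ T` iff `ḡ` is a reduction of `g`"); no well-definedness is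
needed.  `L` is a field of characteristic `ℓ` with a `ℤ`-valued valuation (`L = k((q))`).

* `evalZZ x y` : evaluation `ℤ[X][Y] → B`, `X ↦ x`, `Y ↦ y`;
* `evalZZ_mem_graph` : `(P(x, f), P(x̄, f̄)) ∈ T`;
* `exists_poly_of_graph` : from `P ∈ ℤ[X][Y]` with `P(x̄, f̄) = 0`, `(∂P/∂Y)(x̄, f̄) ≠ 0`
  to the conclusion of the field `separable` (with coefficients even in `ℤ[x]`);
* `exists_poly_of_graph_sep` : the same from `f̄` algebraic over `𝔽_ℓ(x̄)` and `ℓ ∤ v(x̄)`.
-/

set_option autoImplicit false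

namespace Fermat.Agent.S18.H264

open Polynomial

section EvalZZ

/-- Evaluation of an integral bivariate polynomial: `X ↦ x` (inner variable), `Y ↦ y`. -/
noncomputable def evalZZ {B : Type*} [CommRing B] (x y : B) : Polynomial (Polynomial ℤ) →+* B :=
  Polynomial.eval₂RingHom (Polynomial.eval₂RingHom (Int.castRingHom B) x) y

theorem evalZZ_apply {B : Type*} [CommRing B] (x y : B) (P : Polynomial (Polynomial ℤ)) :
    evalZZ x y P = P.eval₂ (Polynomial.eval₂RingHom (Int.castRingHom B) x) y := rfl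

theorem map_evalZZ {B C : Type*} [CommRing B] [CommRing C] (φ : B →+* C) (x y : B)
    (P : Polynomial (Polynomial ℤ)) : φ (evalZZ x y P) = evalZZ (φ x) (φ y) P := by
  have h : φ.comp (Polynomial.eval₂RingHom (Int.castRingHom B) x) =
      Polynomial.eval₂RingHom (Int.castRingHom C) (φ x) := by
    refine Polynomial.ringHom_ext (fun n => ?_) ?_
    · simp
    · simp
  rw [evalZZ_apply, evalZZ_apply, Polynomial.hom_eval₂, h]

end EvalZZ

section Graph

variable {Ω L : Type*} [Field Ω] [Field L]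

/-- Polynomial expressions respect the reduction relation. -/
theorem evalZZ_mem_graph (T : Subring (Ω × L)) {x f : Ω} {xb fb : L} (hx : (x, xb) ∈ T)
    (hf : (f, fb) ∈ T) (P : Polynomial (Polynomial ℤ)) :
    (evalZZ x f P, evalZZ xb fb P) ∈ T := by
  have h1 := map_evalZZ ((RingHom.fst Ω L).comp T.subtype) ⟨(x, xb), hx⟩ ⟨(f, fb), hf⟩ P
  have h2 := map_evalZZ ((RingHom.snd Ω L).comp T.subtype) ⟨(x, xb), hx⟩ ⟨(f, fb), hf⟩ P
  have h3 : ((evalZZ (⟨(x, xb), hx⟩ : T) ⟨(f, fb), hf⟩ P : T) : Ω × L) =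
      (evalZZ x f P, evalZZ xb fb P) := Prod.ext h1 h2
  rw [← h3]
  exact Subtype.property _

/-- The value at `x` of an integral polynomial lies in every subring containing `x`. -/
theorem eval₂_intCast_mem (S : Subring Ω) {x : Ω} (hx : x ∈ S) (g : Polynomial ℤ) :
    Polynomial.eval₂ (Int.castRingHom Ω) x g ∈ S := by
  rw [eval₂_eq_sum_range]
  refine sum_mem fun i _ => ?_
  exact mul_mem (by simp) (pow_mem hx _)

/-- **The field `separable` from a reduction relation and an integral polynomial.** -/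
theorem exists_poly_of_graph (T : Subring (Ω × L)) (V R : Subring Ω) (w x f : Ω) (xb fb : L)
    (hx : (x, xb) ∈ T) (hf : (f, fb) ∈ T)
    (hker : ∀ g : Ω, (g, (0 : L)) ∈ T → g * w⁻¹ ∈ V)
    (hunit : ∀ (g : Ω) (b : L), (g, b) ∈ T → b ≠ 0 → g ≠ 0 ∧ g⁻¹ ∈ V)
    (P : Polynomial (Polynomial ℤ)) (h0 : evalZZ xb fb P = 0)
    (h1 : evalZZ xb fb (derivative P) ≠ 0) :
    ∃ PΩ : Polynomial Ω, (∀ i, PΩ.coeff i ∈ Subring.closure ((R : Set Ω) ∪ {x})) ∧
      PΩ.eval f * w⁻¹ ∈ V ∧ (derivative PΩ).eval f ≠ 0 ∧ ((derivative PΩ).eval f)⁻¹ ∈ V := by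
  refine ⟨P.map (Polynomial.eval₂RingHom (Int.castRingHom Ω) x), ?_, ?_, ?_⟩
  · intro i
    rw [coeff_map, coe_eval₂RingHom]
    exact eval₂_intCast_mem _
      (Subring.subset_closure (Set.mem_union_right _ (Set.mem_singleton x))) _
  · rw [eval_map, ← evalZZ_apply]
    apply hker
    have h := evalZZ_mem_graph T hx hf P
    rwa [h0] at h
  · rw [derivative_map, eval_map, ← evalZZ_apply]
    exact hunit _ _ (evalZZ_mem_graph T hx hf (derivative P)) h1

end Graph

section Sep

variable {Ω L : Type*} [Field Ω] [Field L] (ℓ : ℕ) [hℓ : Fact ℓ.Prime] [Algebra (ZMod ℓ) L]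

/-- Lifting a bivariate polynomial over `𝔽_ℓ` to `ℤ`. -/
theorem exists_int_lift (xb fb : L) (Pbar : Polynomial (Polynomial (ZMod ℓ))) :
    ∃ P : Polynomial (Polynomial ℤ),
      evalZZ xb fb P =
        Pbar.eval₂ (aeval xb : Polynomial (ZMod ℓ) →ₐ[ZMod ℓ] L).toRingHom fb ∧
      evalZZ xb fb (derivative P) =
        (derivative Pbar).eval₂ (aeval xb : Polynomial (ZMod ℓ) →ₐ[ZMod ℓ] L).toRingHom fb := by
  obtain ⟨P, hP⟩ := Polynomial.map_surjective
    (Polynomial.mapRingHom (Int.castRingHom (ZMod ℓ)))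
    (Polynomial.map_surjective _ (ZMod.intCast_surjective)) Pbar
  have hcomp : ((aeval xb : Polynomial (ZMod ℓ) →ₐ[ZMod ℓ] L).toRingHom).comp
      (Polynomial.mapRingHom (Int.castRingHom (ZMod ℓ))) =
      Polynomial.eval₂RingHom (Int.castRingHom L) xb := by
    refine Polynomial.ringHom_ext (fun n => ?_) ?_
    · simp
    · simp
  refine ⟨P, ?_, ?_⟩
  · rw [← hP, Polynomial.eval₂_map, hcomp, evalZZ_apply]
  · rw [← hP, derivative_map, Polynomial.eval₂_map, hcomp, evalZZ_apply]

/-- **The field `separable` from a reduction relation**, for `L` of characteristic `ℓ` with a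
`ℤ`-valued valuation `v`, `ℓ ∤ v x̄`, `f̄` algebraic over `𝔽_ℓ(x̄)`. -/
theorem exists_poly_of_graph_sep (v : AddValuation L (WithTop ℤ))
    (T : Subring (Ω × L)) (V R : Subring Ω) (w x f : Ω) (xb fb : L)
    (hx : (x, xb) ∈ T) (hf : (f, fb) ∈ T)
    (hker : ∀ g : Ω, (g, (0 : L)) ∈ T → g * w⁻¹ ∈ V)
    (hunit : ∀ (g : Ω) (b : L), (g, b) ∈ T → b ≠ 0 → g ≠ 0 ∧ g⁻¹ ∈ V)
    (n : ℤ) (hv : v xb = (n : WithTop ℤ)) (hn : ¬ (ℓ : ℤ) ∣ n)
    (halg : IsAlgebraic (IntermediateField.adjoin (ZMod ℓ) {xb}) fb) :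
    ∃ PΩ : Polynomial Ω, (∀ i, PΩ.coeff i ∈ Subring.closure ((R : Set Ω) ∪ {x})) ∧
      PΩ.eval f * w⁻¹ ∈ V ∧ (derivative PΩ).eval f ≠ 0 ∧ ((derivative PΩ).eval f)⁻¹ ∈ V := by
  have hsep := isSeparable_of_isAlgebraic_of_addVal (κ := ZMod ℓ) ℓ v xb n hv hn fb halg
  obtain ⟨Pbar, hb0, hb1⟩ := exists_bivariate_simple_root xb fb hsep
  obtain ⟨P, hP0, hP1⟩ := exists_int_lift ℓ xb fb Pbar
  exact exists_poly_of_graph T V R w x f xb fb hx hf hker hunit P (by rw [hP0, hb0])
    (by rw [hP1]; exact hb1)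

end Sep

end Fermat.Agent.S18.H264

end
-- ===== PACK-END S18/H264/SepGraph.lean

-- ===== PACK-BEGIN S20/Comb694/Fixed.lean
section


/-!
# Fixed points of `S` and `S * T` on `SL(2,ℤ) ⧸ Gamma0 N`

* `card_fixedBy_S : Nat.card (MulAction.fixedBy (SL(2,ℤ) ⧸ Gamma0 N) S) = nuTwo N`
* `card_fixedBy_ST : Nat.card (MulAction.fixedBy (SL(2,ℤ) ⧸ Gamma0 N) (S * T)) = nuThree N`
-/

set_option autoImplicit false

namespace Fermat.Agent.S20.Comb694

open Matrix MatrixGroups CongruenceSubgroup

variable (N : ℕ)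

/-- From a root of `x² + 1` in `ZMod N` to a fixed point of `S`. -/
noncomputable def rootToFixedS (x : {x : ZMod N // x ^ 2 + 1 = 0}) :
    MulAction.fixedBy (SL(2, ℤ) ⧸ Gamma0 N) ModularGroup.S :=
  ⟨QuotientGroup.mk (colRep (ZMod.cast x.1 : ℤ)), by
    rw [MulAction.mem_fixedBy, S_smul_mk_eq_mk_iff]
    simp only [colRep_apply_zero_zero, colRep_apply_one_zero, ZMod.intCast_zmod_cast,
      Int.cast_one, one_pow]
    exact x.2⟩

lemma rootToFixedS_bijective : Function.Bijective (rootToFixedS N) := by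
  constructor
  · rintro ⟨x, hx⟩ ⟨y, hy⟩ h
    have h' := congrArg Subtype.val h
    simp only [rootToFixedS] at h'
    rw [mk_eq_mk_iff] at h'
    simp only [colRep_apply_zero_zero, colRep_apply_one_zero, ZMod.intCast_zmod_cast,
      Int.cast_one, _root_.mul_one, _root_.one_mul] at h'
    exact Subtype.ext (sub_eq_zero.mp h')
  · rintro ⟨q, hq⟩
    obtain ⟨g, rfl⟩ := QuotientGroup.mk_surjective q
    rw [MulAction.mem_fixedBy, S_smul_mk_eq_mk_iff] at hq
    have hinv := c_mul_inv_eq_one N g (-((g 1 0 : ℤ) : ZMod N)) (by linear_combination hq)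
    set a : ZMod N := ((g 0 0 : ℤ) : ZMod N) with ha
    set c : ZMod N := ((g 1 0 : ℤ) : ZMod N) with hc
    set i : ZMod N := (-c * ((g 1 1 : ℤ) : ZMod N) ^ 2
        - 2 * a * ((g 0 1 : ℤ) : ZMod N) * ((g 1 1 : ℤ) : ZMod N)
        + ((g 0 1 : ℤ) : ZMod N) ^ 2 * c) with hi
    refine ⟨⟨a * i, ?_⟩, ?_⟩
    · linear_combination (i ^ 2) * hq - (c * i + 1) * hinv
    · apply Subtype.ext
      simp only [rootToFixedS]
      rw [mk_eq_mk_iff]
      simp only [colRep_apply_zero_zero, colRep_apply_one_zero, ZMod.intCast_zmod_cast,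
        Int.cast_one, _root_.one_mul]
      linear_combination a * hinv

/-- **(I2)** The number of fixed points of `S` on `SL(2,ℤ) ⧸ Γ₀(N)` is `ν₂(N)`. -/
theorem card_fixedBy_S :
    Nat.card (MulAction.fixedBy (SL(2, ℤ) ⧸ Gamma0 N) ModularGroup.S) = ModularCurve.nuTwo N := by
  rw [ModularCurve.nuTwo]
  exact (Nat.card_eq_of_bijective _ (rootToFixedS_bijective N)).symm

/-- From a root of `x² + x + 1` in `ZMod N` to a fixed point of `S * T`. -/
noncomputable def rootToFixedST (x : {x : ZMod N // x ^ 2 + x + 1 = 0}) :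
    MulAction.fixedBy (SL(2, ℤ) ⧸ Gamma0 N) (ModularGroup.S * ModularGroup.T) :=
  ⟨QuotientGroup.mk (colRep (ZMod.cast x.1 : ℤ)), by
    rw [MulAction.mem_fixedBy, ST_smul_mk_eq_mk_iff]
    simp only [colRep_apply_zero_zero, colRep_apply_one_zero, ZMod.intCast_zmod_cast,
      Int.cast_one, one_pow, _root_.mul_one]
    exact x.2⟩

lemma rootToFixedST_bijective : Function.Bijective (rootToFixedST N) := by
  constructor
  · rintro ⟨x, hx⟩ ⟨y, hy⟩ h
    have h' := congrArg Subtype.val h
    simp only [rootToFixedST] at h'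
    rw [mk_eq_mk_iff] at h'
    simp only [colRep_apply_zero_zero, colRep_apply_one_zero, ZMod.intCast_zmod_cast,
      Int.cast_one, _root_.mul_one, _root_.one_mul] at h'
    exact Subtype.ext (sub_eq_zero.mp h')
  · rintro ⟨q, hq⟩
    obtain ⟨g, rfl⟩ := QuotientGroup.mk_surjective q
    rw [MulAction.mem_fixedBy, ST_smul_mk_eq_mk_iff] at hq
    have hinv := c_mul_inv_eq_one N g (-((g 0 0 : ℤ) : ZMod N) - ((g 1 0 : ℤ) : ZMod N))
      (by linear_combination hq)
    set a : ZMod N := ((g 0 0 : ℤ) : ZMod N) with ha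
    set c : ZMod N := ((g 1 0 : ℤ) : ZMod N) with hc
    set i : ZMod N := ((-a - c) * ((g 1 1 : ℤ) : ZMod N) ^ 2
        - 2 * a * ((g 0 1 : ℤ) : ZMod N) * ((g 1 1 : ℤ) : ZMod N)
        + ((g 0 1 : ℤ) : ZMod N) ^ 2 * c) with hi
    refine ⟨⟨a * i, ?_⟩, ?_⟩
    · linear_combination (i ^ 2) * hq - (c * i + 1 + a * i) * hinv
    · apply Subtype.ext
      simp only [rootToFixedST]
      rw [mk_eq_mk_iff]
      simp only [colRep_apply_zero_zero, colRep_apply_one_zero, ZMod.intCast_zmod_cast,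
        Int.cast_one, _root_.one_mul]
      linear_combination a * hinv

/-- **(I3)** The number of fixed points of `S * T` on `SL(2,ℤ) ⧸ Γ₀(N)` is `ν₃(N)`. -/
theorem card_fixedBy_ST :
    Nat.card (MulAction.fixedBy (SL(2, ℤ) ⧸ Gamma0 N) (ModularGroup.S * ModularGroup.T))
      = ModularCurve.nuThree N := by
  rw [ModularCurve.nuThree]
  exact (Nat.card_eq_of_bijective _ (rootToFixedST_bijective N)).symm

end Fermat.Agent.S20.Comb694

end
-- ===== PACK-END S20/Comb694/Fixed.lean

-- ===== PACK-BEGIN S18/H845/ConstExt.lean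
section



/-!
# S18 / d1(c): extending a discrete valuation ring along a constant-field extension

`E ⊆ K ⊆ L` fields, `E` perfect, `V ⊆ K` a discrete valuation subring containing `E`, and
`L = K[algebraic constants]` (every element of `L` lies in `K[α]` for some `α` algebraic over
`E`).  Then there is a valuation subring `B` of `L` with `B ∩ K = V` which is again a discrete
valuation ring, and a uniformiser of `V` is a uniformiser of `B` (`e = 1`).
-/

set_option autoImplicit false
set_option linter.unusedSectionVars false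

namespace Fermat.Agent.S18.H845

open Polynomial IsLocalRing

section DVR

variable {L : Type*} [Field L] (B : ValuationSubring L) {ϖ : L} (hϖ0 : ϖ ≠ 0)
  (hϖ : B.valuation ϖ < 1)
  (hval : ∀ f : L, f ≠ 0 → ∃ k : ℤ, B.valuation f = B.valuation ϖ ^ k)

include hϖ in
lemma unif_mem : ϖ ∈ B := (B.valuation_le_one_iff _).mp hϖ.le

include hϖ0 in
lemma val_unif_pos : 0 < B.valuation ϖ := zero_lt_iff.mpr ((Valuation.ne_zero_iff _).mpr hϖ0)

include hϖ0 hϖ hval in
/-- Every nonzero element of `B` is associated to a power of `ϖ`. -/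
lemma associated_pow (x : B) (hx : x ≠ 0) :
    ∃ n : ℕ, Associated ((⟨ϖ, unif_mem B hϖ⟩ : B) ^ n) x := by
  have hxL : (x : L) ≠ 0 := fun h => hx (Subtype.ext h)
  obtain ⟨k, hk⟩ := hval x hxL
  have hpos := val_unif_pos B hϖ0
  have hk0 : 0 ≤ k := by
    have h1 : B.valuation (x : L) ≤ 1 := B.valuation_le_one x
    rw [hk] at h1
    exact (zpow_le_one_iff_right_of_lt_one₀ hpos hϖ).mp h1
  obtain ⟨n, rfl⟩ : ∃ n : ℕ, k = n := ⟨k.toNat, by omega⟩
  refine ⟨n, ?_⟩
  rw [zpow_natCast] at hk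
  -- the unit
  have hu : B.valuation ((x : L) / ϖ ^ n) = 1 := by
    rw [map_div₀, _root_.map_pow, hk]
    exact div_self (pow_ne_zero n hpos.ne')
  have huB : (x : L) / ϖ ^ n ∈ B := (B.valuation_le_one_iff _).mp hu.le
  have hunit : IsUnit (⟨(x : L) / ϖ ^ n, huB⟩ : B) := (B.valuation_eq_one_iff _).mpr hu
  obtain ⟨u, hu'⟩ := hunit
  refine ⟨u, ?_⟩
  apply Subtype.ext
  rw [hu']
  show ϖ ^ n * ((x : L) / ϖ ^ n) = x
  field_simp

include hϖ0 hϖ hval in
/-- `ϖ` is irreducible in `B`. -/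
lemma irreducible_unif : Irreducible (⟨ϖ, unif_mem B hϖ⟩ : B) := by
  have hpos := val_unif_pos B hϖ0
  refine ⟨?_, ?_⟩
  · intro hu
    have := (B.valuation_eq_one_iff _).mp hu
    exact absurd this hϖ.ne
  · intro a b hab
    have habL : ϖ = (a : L) * (b : L) := congrArg Subtype.val hab
    have ha0 : (a : L) ≠ 0 := fun h => hϖ0 (by rw [habL, h, zero_mul])
    have hb0 : (b : L) ≠ 0 := fun h => hϖ0 (by rw [habL, h, mul_zero])
    obtain ⟨i, hi⟩ := hval a ha0
    obtain ⟨j, hj⟩ := hval b hb0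
    have hi0 : 0 ≤ i := by
      have h1 : B.valuation (a : L) ≤ 1 := B.valuation_le_one a
      rw [hi] at h1
      exact (zpow_le_one_iff_right_of_lt_one₀ hpos hϖ).mp h1
    have hj0 : 0 ≤ j := by
      have h1 : B.valuation (b : L) ≤ 1 := B.valuation_le_one b
      rw [hj] at h1
      exact (zpow_le_one_iff_right_of_lt_one₀ hpos hϖ).mp h1
    have hsum : i + j = 1 := by
      have h1 : B.valuation ϖ ^ (1 : ℤ) = B.valuation ϖ ^ (i + j) := by
        rw [zpow_add₀ hpos.ne', ← hi, ← hj, ← _root_.map_mul, ← habL, zpow_one]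
      exact (zpow_right_injective₀ hpos hϖ.ne h1).symm
    rcases (show i = 0 ∨ j = 0 by omega) with h | h
    · left
      rw [B.valuation_eq_one_iff, hi, h, zpow_zero]
    · right
      rw [B.valuation_eq_one_iff, hj, h, zpow_zero]

include hϖ0 hϖ hval in
/-- `B` is a discrete valuation ring. -/
theorem isDiscreteValuationRing_of_val : IsDiscreteValuationRing B :=
  IsDiscreteValuationRing.ofHasUnitMulPowIrreducibleFactorization
    ⟨⟨ϖ, unif_mem B hϖ⟩, irreducible_unif B hϖ0 hϖ hval,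
      fun {x} hx => associated_pow B hϖ0 hϖ hval x hx⟩

end DVR

section Generic

variable {E K L : Type*} [Field E] [Field K] [Field L] [Algebra E K] [Algebra K L] [Algebra E L]
  [IsScalarTower E K L] [PerfectField E]

/-- Value-group statement for one valuation subring `B` of `L` dominating `V`. -/
theorem val_eq_zpow_of_dominates (V : ValuationSubring K) [IsDiscreteValuationRing V]
    (hEV : ∀ c : E, algebraMap E K c ∈ V)
    (B : ValuationSubring L) (hVB : ∀ x : K, x ∈ V → algebraMap K L x ∈ B)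
    {π : V} (hπ : Irreducible π) (hπB : B.valuation (algebraMap K L (π : K)) < 1)
    {α : L} (hα : IsAlgebraic E α) (q : K[X]) (hq : aeval α q ≠ 0) :
    ∃ k : ℤ, B.valuation (aeval α q) = B.valuation (algebraMap K L (π : K)) ^ k := by
  let _ : Algebra V L := ((algebraMap K L).comp (algebraMap V K)).toAlgebra
  have : IsScalarTower V K L := IsScalarTower.of_algebraMap_eq (fun _ => rfl)
  have hinj : Function.Injective (algebraMap V L) := by
    intro a b hab
    have h1 : algebraMap K L (a : K) = algebraMap K L (b : K) := hab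
    exact Subtype.ext ((algebraMap K L).injective h1)
  have hRB : ∀ r : V, algebraMap V L r ∈ B := fun r => hVB r r.2
  -- the polynomial
  let fEV : E →+* V := (algebraMap E K).codRestrict V hEV
  let p₀ := minpoly E α
  let p : V[X] := p₀.map fEV
  have hp : p.Monic := (minpoly.monic hα.isIntegral).map _
  have hpα : aeval α p = 0 := by
    show Polynomial.eval₂ (algebraMap V L) α (p₀.map fEV) = 0
    rw [Polynomial.eval₂_map]
    have : (algebraMap V L).comp fEV = algebraMap E L := by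
      ext c
      show algebraMap K L (algebraMap E K c) = algebraMap E L c
      rw [← IsScalarTower.algebraMap_apply]
    rw [this]
    exact minpoly.aeval E α
  have hsep : (p.map (residue V)).Separable := by
    rw [Polynomial.map_map]
    exact (PerfectField.separable_of_irreducible (minpoly.irreducible hα.isIntegral)).map
  -- clear denominators
  obtain ⟨b, hbM, hb⟩ := IsLocalization.integerNormalization_spec (nonZeroDivisors V) q
  set g := IsLocalization.integerNormalization (nonZeroDivisors V) q with hg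
  have hb0 : (b : V) ≠ 0 := nonZeroDivisors.ne_zero hbM
  have hsm : b • q = C ((b : V) : K) * q := by
    rw [← Polynomial.smul_eq_C_mul]
    rfl
  have hev : aeval α g = algebraMap K L ((b : V) : K) * aeval α q := by
    have h1 : aeval α (g.map (algebraMap V K)) = aeval α g := Polynomial.aeval_map_algebraMap K α g
    rw [← h1, hb, hsm, _root_.map_mul, aeval_C]
  have hbL : algebraMap K L ((b : V) : K) ≠ 0 := by
    intro h
    apply hb0
    have h' : ((b : V) : K) = 0 := (algebraMap K L).injective (by rw [h, _root_.map_zero])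
    exact Subtype.ext h'
  have hg0 : aeval α g ≠ 0 := by
    rw [hev]
    exact mul_ne_zero hbL hq
  obtain ⟨j, hj⟩ := val_aeval_eq_pow B hRB hπ hπB hp hpα hsep hinj g hg0
  obtain ⟨k, hk⟩ := val_algebraMap_eq_pow B hRB hπ hb0
  have hπ0 : B.valuation (algebraMap K L (π : K)) ≠ 0 := by
    rw [Valuation.ne_zero_iff]
    intro h
    have h' : (π : K) = 0 := (algebraMap K L).injective (by rw [h, _root_.map_zero])
    exact hπ.ne_zero (Subtype.ext h')
  refine ⟨(j : ℤ) - k, ?_⟩
  have e1 : B.valuation (algebraMap K L ((b : V) : K)) * B.valuation (aeval α q) =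
      B.valuation (algebraMap K L (π : K)) ^ j := by
    rw [← _root_.map_mul, ← hev]
    exact hj
  have e2 : B.valuation (algebraMap K L ((b : V) : K)) =
      B.valuation (algebraMap K L (π : K)) ^ k := hk
  rw [e2] at e1
  rw [zpow_sub₀ hπ0, zpow_natCast, zpow_natCast, ← e1]
  field_simp


omit [PerfectField E] [Algebra E K] [Algebra E L] [IsScalarTower E K L] in
/-- A valuation subring of `L` dominating the valuation subring `V` of `K`. -/
theorem exists_dominating (V : ValuationSubring K) :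
    ∃ B : ValuationSubring L, B.comap (algebraMap K L) = V ∧
      ∀ x : V, ¬ IsUnit x → B.valuation (algebraMap K L (x : K)) < 1 := by
  let f : V →+* L := (algebraMap K L).comp V.subtype
  obtain ⟨B, hB, hloc⟩ := IsLocalRing.exists_factor_valuationRing f
  have hnon : ∀ x : V, ¬ IsUnit x → B.valuation (algebraMap K L (x : K)) < 1 := by
    intro x hx
    have hx' : ¬ IsUnit (⟨f x, hB x⟩ : B) := fun h => hx (hloc.map_nonunit x h)
    have hmem : (⟨f x, hB x⟩ : B) ∈ maximalIdeal B :=
      (mem_maximalIdeal _).mpr hx'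
    exact (B.valuation_lt_one_iff _).mp hmem
  refine ⟨B, ?_, hnon⟩
  ext x
  rw [ValuationSubring.mem_comap]
  constructor
  · intro hxB
    by_contra hxV
    have hx0 : x ≠ 0 := fun h => hxV (h ▸ V.zero_mem)
    have hinv : x⁻¹ ∈ V := (V.mem_or_inv_mem x).resolve_left hxV
    have hnu : ¬ IsUnit (⟨x⁻¹, hinv⟩ : V) := by
      intro hu
      obtain ⟨u, hu⟩ := hu
      apply hxV
      have : x = ((u⁻¹ : Vˣ) : V) := by
        have h1 : ((u : V) : K) = x⁻¹ := congrArg Subtype.val hu
        have h2 : ((u : V) : K) * ((u⁻¹ : Vˣ) : V) = 1 := by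
          exact congrArg Subtype.val (Units.mul_inv u)
        rw [h1] at h2
        field_simp at h2
        exact h2.symm
      rw [this]
      exact Subtype.mem _
    have hlt := hnon ⟨x⁻¹, hinv⟩ hnu
    have hle : B.valuation (algebraMap K L x) ≤ 1 := (B.valuation_le_one_iff _).mpr hxB
    have hmul : B.valuation (algebraMap K L x⁻¹) * B.valuation (algebraMap K L x) = 1 := by
      rw [← _root_.map_mul, ← _root_.map_mul, inv_mul_cancel₀ hx0, _root_.map_one, _root_.map_one]
    have : B.valuation (algebraMap K L x⁻¹) * B.valuation (algebraMap K L x) < 1 :=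
      mul_lt_one_of_lt_of_le hlt hle
    exact absurd hmul this.ne
  · intro hxV
    exact hB ⟨x, hxV⟩

/-- If `B` dominates `V` and `L = K[algebraic constants]`, every nonzero element of `L` has
valuation an integral power of the valuation of a uniformiser of `V`. -/
theorem val_eq_zpow (V : ValuationSubring K) [IsDiscreteValuationRing V]
    (hEV : ∀ c : E, algebraMap E K c ∈ V)
    (hL : ∀ f : L, ∃ α : L, IsAlgebraic E α ∧ f ∈ Algebra.adjoin K {α})
    (B : ValuationSubring L) (hcomap : B.comap (algebraMap K L) = V)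
    (hdom : ∀ x : V, ¬ IsUnit x → B.valuation (algebraMap K L (x : K)) < 1)
    {π : V} (hπ : Irreducible π) {f : L} (hf : f ≠ 0) :
    ∃ k : ℤ, B.valuation f = B.valuation (algebraMap K L (π : K)) ^ k := by
  obtain ⟨α, hα, hfα⟩ := hL f
  rw [Algebra.adjoin_singleton_eq_range_aeval] at hfα
  obtain ⟨q, rfl⟩ := hfα
  have hVB : ∀ x : K, x ∈ V → algebraMap K L x ∈ B := fun x hx => by
    rw [← hcomap] at hx
    exact hx
  exact val_eq_zpow_of_dominates V hEV B hVB hπ (hdom π hπ.not_isUnit) hα q hf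

/-- **d1(c), generic form.**  A discrete valuation ring `V` of `K` containing the perfect field
`E` extends to a discrete valuation ring `B` of `L = K(algebraic constants)` with `B ∩ K = V`,
containing all algebraic constants, in which every uniformiser of `V` stays a uniformiser. -/
theorem exists_dvr_extension (V : ValuationSubring K) [IsDiscreteValuationRing V]
    (hEV : ∀ c : E, algebraMap E K c ∈ V)
    (hgen : IntermediateField.adjoin K {α : L | IsAlgebraic E α} = ⊤) :
    ∃ B : ValuationSubring L, B.comap (algebraMap K L) = V ∧ IsDiscreteValuationRing B ∧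
      (∀ α : L, IsAlgebraic E α → α ∈ B) ∧
      (∀ π : V, Irreducible π →
        ∃ h : algebraMap K L (π : K) ∈ B, Irreducible (⟨algebraMap K L (π : K), h⟩ : B)) ∧
      (∀ π : V, Irreducible π → ∀ f : L, f ≠ 0 →
        ∃ k : ℤ, B.valuation f = B.valuation (algebraMap K L (π : K)) ^ k) := by
  obtain ⟨B, hcomap, hdom⟩ := exists_dominating (L := L) V
  have hL := exists_mem_adjoin_singleton (E := E) (K := K) (L := L) hgen
  have hval : ∀ π : V, Irreducible π → ∀ f : L, f ≠ 0 →
      ∃ k : ℤ, B.valuation f = B.valuation (algebraMap K L (π : K)) ^ k :=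
    fun π hπ f hf => val_eq_zpow V hEV hL B hcomap hdom hπ hf
  have hπ0 : ∀ π : V, Irreducible π → algebraMap K L (π : K) ≠ 0 := by
    intro π hπ h
    have h' : (π : K) = 0 := (algebraMap K L).injective (by rw [h, _root_.map_zero])
    exact hπ.ne_zero (Subtype.ext h')
  obtain ⟨π, hπ⟩ := IsDiscreteValuationRing.exists_irreducible V
  refine ⟨B, hcomap,
    isDiscreteValuationRing_of_val B (hπ0 π hπ) (hdom π hπ.not_isUnit) (hval π hπ), ?_, ?_, hval⟩
  · intro α hα
    have hEB : ∀ c : E, algebraMap E L c ∈ B := by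
      intro c
      rw [IsScalarTower.algebraMap_apply E K L]
      have : algebraMap E K c ∈ B.comap (algebraMap K L) := by rw [hcomap]; exact hEV c
      exact this
    exact mem_of_monic_root B hEB (minpoly.monic hα.isIntegral) (minpoly.aeval E α)
  · intro π' hπ'
    exact ⟨unif_mem B (hdom π' hπ'.not_isUnit),
      irreducible_unif B (hπ0 π' hπ') (hdom π' hπ'.not_isUnit) (hval π' hπ')⟩

end Generic


end Fermat.Agent.S18.H845

end
-- ===== PACK-END S18/H845/ConstExt.lean

-- ===== PACK-BEGIN S18/B12/Spec2.lean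
section



/-!
# S18, Route K, b2: assembly pieces (squad S18/S33, squad-lead helper33) — FROZEN statements

Abstract setting for the assembly of `B2Statement` (see `coord/S18-b1b2.md`, section "Assembly"):
`P` = a noetherian UFD (later `R[X]`), `w ∈ P` a prime (later `C w`) with `P/(w)` a PID (later `k'[X]`)
and `P[1/w]` a PID containing `ℚ` (later `E[X]`); `B` = integrally closed domain, finite and
torsion-free over `P`.  Special fibre `B/wB := B ⧸ (span {w}).map (algebraMap P B)` as an algebra over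
`P ⧸ span {w}` (Mathlib instance `Ideal.Quotient.algebraQuotientMapQuotient`).
-/

set_option autoImplicit false

noncomputable section

namespace Fermat.Agent.S18.B12

open Polynomial

universe u v

/-- Gram determinant of the integral trace form of an `n`-tuple of `B`. -/
def intDiscr (P : Type u) (B : Type v) [CommRing P] [IsDomain P] [IsIntegrallyClosed P]
    [CommRing B] [IsDomain B] [IsIntegrallyClosed B] [Algebra P B] [Module.Finite P B]
    [Module.IsTorsionFree P B] {n : ℕ} (x : Fin n → B) : P :=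
  (Matrix.of fun i j => Algebra.intTrace P B (x i * x j)).det

/-- `x` is a basis of `B` over `P` locally at the ideal `𝔪`: linearly independent, and
`g • B ⊆ span x` for some `g ∉ 𝔪`. -/
def IsLocalBasis (P : Type u) (B : Type v) [CommRing P] [CommRing B] [Algebra P B]
    (𝔪 : Ideal P) (n : ℕ) (x : Fin n → B) : Prop :=
  LinearIndependent P x ∧ ∃ g : P, g ∉ 𝔪 ∧ ∀ b : B, g • b ∈ Submodule.span P (Set.range x)

/-- **A0 (abstract regular sequence).**  `w` prime in `P`, `w ∤ u`: if `u * b = w * b'` in the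
normal `B` then `b = w * b''`, `b' = u * b''`.  (Implies both statements of P1.) -/
def RegSeqAbsStatement : Prop :=
  ∀ (P : Type u) [CommRing P] [IsDomain P] [IsIntegrallyClosed P]
    (B : Type v) [CommRing B] [IsDomain B] [IsIntegrallyClosed B] [Algebra P B]
    [Algebra.IsIntegral P B] [Module.IsTorsionFree P B]
    (u w : P) (_ : Prime w) (_ : ¬ w ∣ u) (b b' : B),
    algebraMap P B u * b = algebraMap P B w * b' →
    ∃ b'' : B, b = algebraMap P B w * b'' ∧ b' = algebraMap P B u * b''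

/-- **A2 (local basis).**  `P` noetherian domain, `𝔪 = (w, p)` maximal, `(p, w)` regular on `B`
(hypothesis `hreg`).  Then `B` has a basis locally at `𝔪`. -/
def LocalBasisStatement : Prop :=
  ∀ (P : Type u) [CommRing P] [IsDomain P] [IsNoetherianRing P]
    (B : Type v) [CommRing B] [Algebra P B] [Module.Finite P B] [Module.IsTorsionFree P B]
    (w p : P) (_ : (Ideal.span {w, p}).IsMaximal)
    (_ : ∀ b b' : B, algebraMap P B p * b = algebraMap P B w * b' →
      ∃ b'' : B, b = algebraMap P B w * b'' ∧ b' = algebraMap P B p * b''),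
    ∃ (n : ℕ) (x : Fin n → B), IsLocalBasis P B (Ideal.span {w, p}) n x

/-- **A2' (rank).**  A local basis has `n = Module.finrank P B` elements, and the Gram determinant
of any other `n`-tuple `x'` satisfies `g² · intDiscr x' = u² · intDiscr x` with `g ∉ 𝔪`. -/
def LocalBasisRankStatement : Prop :=
  ∀ (P : Type u) [CommRing P] [IsDomain P] [IsIntegrallyClosed P]
    (B : Type v) [CommRing B] [IsDomain B] [IsIntegrallyClosed B] [Algebra P B]
    [Module.Finite P B] [Module.IsTorsionFree P B]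
    (𝔪 : Ideal P) [𝔪.IsPrime] (n : ℕ) (x : Fin n → B), IsLocalBasis P B 𝔪 n x →
    n = Module.finrank P B ∧
    ∀ x' : Fin n → B, ∃ g u : P, g ∉ 𝔪 ∧ g ^ 2 * intDiscr P B x' = u ^ 2 * intDiscr P B x

/-- **A3 (discriminant reduction mod `w`).**  `w` prime with `P/(w)` a PID, `x` a local basis at a
prime `𝔪 ∋ w`, `bb` a basis of `B/wB` over `P/(w)`.  Then `bb` has `n` elements and
`intDiscr x mod w = ū² · disc(bb)` with `u ∉ 𝔪`. -/
def DiscrRedStatement : Prop :=
  ∀ (P : Type u) [CommRing P] [IsDomain P] [IsIntegrallyClosed P]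
    (B : Type v) [CommRing B] [IsDomain B] [IsIntegrallyClosed B] [Algebra P B]
    [Module.Finite P B] [Module.IsTorsionFree P B]
    (w : P) (_ : Prime w) (𝔪 : Ideal P) [𝔪.IsPrime] (_ : w ∈ 𝔪)
    (n : ℕ) (x : Fin n → B) (_ : IsLocalBasis P B 𝔪 n x)
    (n' : ℕ) (bb : Module.Basis (Fin n') (P ⧸ Ideal.span {w})
      (B ⧸ (Ideal.span {w}).map (algebraMap P B))),
    n' = n ∧ ∃ u : P, u ∉ 𝔪 ∧
      Ideal.Quotient.mk (Ideal.span {w}) (intDiscr P B x) =
        Ideal.Quotient.mk (Ideal.span {w}) u ^ 2 * Algebra.discr (P ⧸ Ideal.span {w}) bb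

/-- **A4 (UFD step).**  If every prime factor of `D ≠ 0` lying in the prime ideal `𝔪` is
associated to `p`, then `D = p ^ a * D₁` with `D₁ ∉ 𝔪`. -/
def UFDStepStatement : Prop :=
  ∀ (P : Type u) [CommRing P] [IsDomain P] [UniqueFactorizationMonoid P]
    (𝔪 : Ideal P) [𝔪.IsPrime] (p : P) (_ : Prime p) (D : P) (_ : D ≠ 0)
    (_ : ∀ π : P, Prime π → π ∣ D → π ∈ 𝔪 → Associated π p),
    ∃ (a : ℕ) (D₁ : P), D = p ^ a * D₁ ∧ D₁ ∉ 𝔪

/-- **A5 (generic fibre).**  `P[1/w]` a PID in which every positive integer is invertible.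
`π ≠ w` a prime of `P`, `x` a local basis at `(π)`, `y` a family of `r` elements of `B` that is
independent modulo `rad(πB)`.  Then `π ^ (n - r + 1) ∤ intDiscr x`.
(Apply `TameDiscrStatement` to `Λ = P[1/w]`, `C₀ = B[1/w]`, which is a Dedekind domain.) -/
def GenericDiscrStatement : Prop :=
  ∀ (P : Type u) [CommRing P] [IsDomain P] [UniqueFactorizationMonoid P] [IsNoetherianRing P]
    (w : P) (_ : Prime w) (_ : IsPrincipalIdealRing (Localization.Away w))
    (_ : ∀ m : ℕ, m ≠ 0 → IsUnit (algebraMap P (Localization.Away w) (m : P)))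
    (B : Type v) [CommRing B] [IsDomain B] [IsIntegrallyClosed B] [Algebra P B]
    [Module.Finite P B] [Module.IsTorsionFree P B]
    (π : P) (_ : Prime π) (_ : ¬ Associated π w)
    (n : ℕ) (x : Fin n → B) (_ : IsLocalBasis P B (Ideal.span {π}) n x)
    (r : ℕ) (y : Fin r → B)
    (_ : ∀ a : Fin r → P,
      (∑ i, a i • y i) ∈ (Ideal.span {algebraMap P B π}).radical → ∀ i, π ∣ a i),
    ¬ π ^ (n - r + 1) ∣ intDiscr P B x

/-- **A5' (reduced basis at a prime `s` with `P/(s)` a PID).**  There is a family `y` of elements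
of `B` which is independent modulo `rad(sB)` and spans `B` modulo `rad(sB)`. -/
def RedBasisAbsStatement : Prop :=
  ∀ (P : Type u) [CommRing P] [IsDomain P] [IsIntegrallyClosed P]
    (B : Type v) [CommRing B] [IsDomain B] [IsIntegrallyClosed B] [Algebra P B]
    [Module.Finite P B] [Module.IsTorsionFree P B]
    (s : P) (_ : Prime s) (_ : IsPrincipalIdealRing (P ⧸ Ideal.span {s})),
    ∃ (r : ℕ) (y : Fin r → B),
      (∀ a : Fin r → P,
        (∑ i, a i • y i) ∈ (Ideal.span {algebraMap P B s}).radical → ∀ i, s ∣ a i) ∧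
      (∀ b : B, ∃ a : Fin r → P,
        b - ∑ i, a i • y i ∈ (Ideal.span {algebraMap P B s}).radical)

/-- **P2'' (special fibre, internal idempotent form).**  `Λ` a PID, `t` prime, `C` a commutative
`Λ`-algebra with basis `b`; `(C/tC)_red` spanned by `s` elements; `disc b ≠ 0`,
`t ^ (n - s + 1) ∤ disc b`.  If `e * e = g • e` with `g ≠ 0` (so `e/g` is an idempotent of
`Frac C`), then `h • e = g • c` for some `h ∉ (t)`, `c ∈ C`. -/
def SFIdemIntStatement : Prop :=
  ∀ (Λ : Type u) [CommRing Λ] [IsDomain Λ] [IsPrincipalIdealRing Λ] (t : Λ) (_ : Prime t)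
    (C : Type v) [CommRing C] [Algebra Λ C] (n : ℕ) (b : Module.Basis (Fin n) Λ C)
    (s : ℕ) (y : Fin s → C)
    (_ : ∀ x : C, ∃ a : Fin s → Λ,
        x - ∑ i, a i • y i ∈ (Ideal.span {algebraMap Λ C t}).radical),
    Algebra.discr Λ b ≠ 0 → ¬ t ^ (n - s + 1) ∣ Algebra.discr Λ b →
    ∀ (e : C) (g : Λ), g ≠ 0 → e * e = g • e → ∃ (h : Λ) (c : C), ¬ t ∣ h ∧ h • e = g • c

/-- **A6 (special fibre at the closed point `𝔪 = (w, p)`).**  `x` local basis at `𝔪`,
`intDiscr x = p ^ a * D₁` with `D₁ ∉ 𝔪`, `y` spans `B` modulo `rad(𝔪B)` with `a ≤ n - r`.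
Then every idempotent `e/g` of `Frac(B/wB)` is regular at `𝔪`: `h e ≡ g c mod wB`, `h ∉ 𝔪`. -/
def SpecialFibreStatement : Prop :=
  ∀ (P : Type u) [CommRing P] [IsDomain P] [UniqueFactorizationMonoid P] [IsNoetherianRing P]
    (w : P) (_ : Prime w) (_ : IsPrincipalIdealRing (P ⧸ Ideal.span {w}))
    (B : Type v) [CommRing B] [IsDomain B] [IsIntegrallyClosed B] [Algebra P B]
    [Module.Finite P B] [Module.IsTorsionFree P B]
    (p : P) (_ : (Ideal.span {w, p}).IsMaximal) (_ : ¬ w ∣ p)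
    (n : ℕ) (x : Fin n → B) (_ : IsLocalBasis P B (Ideal.span {w, p}) n x)
    (a : ℕ) (D₁ : P) (_ : intDiscr P B x = p ^ a * D₁) (_ : D₁ ∉ Ideal.span {w, p})
    (r : ℕ) (y : Fin r → B)
    (_ : ∀ b : B, ∃ c : Fin r → P, b - ∑ i, c i • y i ∈
      (Ideal.span {algebraMap P B w, algebraMap P B p}).radical)
    (_ : a ≤ n - r)
    (e : B) (g : P), ¬ w ∣ g →
      e ^ 2 - algebraMap P B g * e ∈ Ideal.span {algebraMap P B w} →
      ∃ (h : P) (c : B), h ∉ Ideal.span {w, p} ∧
        algebraMap P B h * e - algebraMap P B g * c ∈ Ideal.span {algebraMap P B w}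

/-- **A7 (abstract b2).**  `S` = finite set of branch primes. -/
def B2AbsStatement : Prop :=
  ∀ (P : Type u) [CommRing P] [IsDomain P] [UniqueFactorizationMonoid P] [IsNoetherianRing P]
    (w : P) (_ : Prime w) (_ : IsPrincipalIdealRing (P ⧸ Ideal.span {w}))
    (_ : IsPrincipalIdealRing (Localization.Away w))
    (_ : ∀ m : ℕ, m ≠ 0 → IsUnit (algebraMap P (Localization.Away w) (m : P)))
    (B : Type v) [CommRing B] [IsDomain B] [IsIntegrallyClosed B] [Algebra P B]
    [Module.Finite P B] [Module.IsTorsionFree P B]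
    (_ : ∃ x : Fin (Module.finrank P B) → B, ¬ w ∣ intDiscr P B x)
    (S : Finset P)
    (_ : ∀ s ∈ S, Prime s ∧ ¬ Associated s w ∧ (Ideal.span {w, s}).IsMaximal ∧
      IsPrincipalIdealRing (P ⧸ Ideal.span {s}))
    (_ : ∀ s ∈ S, ∀ s' ∈ S, s ≠ s' → s' ∉ Ideal.span {w, s})
    (_ : ∀ π : P, Prime π → ¬ Associated π w → (∀ s ∈ S, ¬ Associated π s) →
        (Ideal.span {algebraMap P B π}).IsRadical)
    (e : B) (g : P), ¬ w ∣ g →
      e ^ 2 - algebraMap P B g * e ∈ Ideal.span {algebraMap P B w} →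
      ∃ c : B, e - algebraMap P B g * c ∈ Ideal.span {algebraMap P B w}

/-- **A1 (instantiation `P = R[X]`).**  The ring-theoretic facts about `R[X]` needed to deduce
`B2Statement` from `B2AbsStatement`. -/
def PolyInstStatement : Prop :=
  ∀ (R : Type u) [CommRing R] [IsDomain R] [IsDiscreteValuationRing R] [CharZero R]
    (w : R) (_ : Irreducible w),
    Prime (C w : R[X]) ∧
    IsPrincipalIdealRing (R[X] ⧸ Ideal.span {(C w : R[X])}) ∧
    IsPrincipalIdealRing (Localization.Away (C w : R[X])) ∧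
    (∀ m : ℕ, m ≠ 0 → IsUnit (algebraMap R[X] (Localization.Away (C w : R[X])) (m : R[X]))) ∧
    ∀ c : R, Prime (X - C c : R[X]) ∧ ¬ Associated (X - C c : R[X]) (C w) ∧
      (Ideal.span {(C w : R[X]), X - C c}).IsMaximal ∧
      IsPrincipalIdealRing (R[X] ⧸ Ideal.span {(X - C c : R[X])}) ∧
      ∀ c' : R, X - C c' ∈ Ideal.span {(C w : R[X]), X - C c} → ¬ IsUnit (c - c')

end Fermat.Agent.S18.B12

end
end
-- ===== PACK-END S18/B12/Spec2.lean

-- ===== PACK-BEGIN S18/H203/TorsionFree.lean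
section


/-!
# S18 / b1 (helper203): `B / w B` is torsion-free over `S / w S`

`S` an integrally closed domain, `w ∈ S` prime, `F / Frac S` a field extension, `B` the integral
closure of `S` in `F`.

* `dvd_of_dvd_smul` : `w ∣ t • b` in `B`, `w ∤ t` in `S`  ⟹  `w ∣ b` in `B`.
* `dvd_of_dvd_mul` : the same with `algebraMap S B t * b`.
* `not_dvd_of_not_dvd` : if `w ∤ b` in `B` and `w ∤ t` in `S` then `w ∤ t • b`.
-/

set_option autoImplicit false

namespace Fermat.Agent.S18.H203

section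

variable {S B : Type*} [CommRing S] [IsDomain S] [IsIntegrallyClosed S]
  [CommRing B] [Algebra S B]

/-- **b1, regular sequence.** In the integral closure `B` of `S`: if the prime element `w`
divides `t • b` and `w ∤ t` in `S`, then `w ∣ b` in `B`. -/
theorem dvd_of_dvd_smul (K F : Type*) [Field K] [Algebra S K] [IsFractionRing S K]
    [Field F] [Algebra K F] [Algebra S F] [IsScalarTower S K F]
    [Algebra B F] [IsScalarTower S B F] [IsIntegralClosure B S F]
    {w t : S} (hw : Prime w) (ht : ¬ w ∣ t) {b : B}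
    (h : algebraMap S B w ∣ t • b) : algebraMap S B w ∣ b := by
  obtain ⟨y, hy⟩ := h
  have hinjK : Function.Injective (algebraMap S K) := IsFractionRing.injective S K
  have hw0 : algebraMap S K w ≠ 0 := by
    simpa using (map_ne_zero_iff _ hinjK).mpr hw.ne_zero
  have hwF : algebraMap S F w ≠ 0 := by
    rw [IsScalarTower.algebraMap_apply S K F]
    simpa using (map_ne_zero_iff _ (algebraMap K F).injective).mpr hw0
  set z : F := (algebraMap S F w)⁻¹ * algebraMap B F b with hz
  have h1 : algebraMap S F w * z = algebraMap B F b := by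
    rw [hz, mul_inv_cancel_left₀ hwF]
  have h2 : algebraMap S F t * z = algebraMap B F y := by
    have e1 : algebraMap B F (t • b) = algebraMap S F t * algebraMap B F b := by
      rw [Algebra.smul_def, map_mul, ← IsScalarTower.algebraMap_apply]
    have e2 : algebraMap B F (t • b) = algebraMap S F w * algebraMap B F y := by
      rw [hy, map_mul, ← IsScalarTower.algebraMap_apply]
    rw [hz]
    calc algebraMap S F t * ((algebraMap S F w)⁻¹ * algebraMap B F b)
        = (algebraMap S F w)⁻¹ * (algebraMap S F t * algebraMap B F b) := by ring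
      _ = (algebraMap S F w)⁻¹ * (algebraMap S F w * algebraMap B F y) := by rw [← e1, e2]
      _ = algebraMap B F y := inv_mul_cancel_left₀ hwF _
  have hi1 : IsIntegral S (algebraMap S F w * z) := by
    rw [h1]; exact (IsIntegralClosure.isIntegral S F b).algebraMap
  have hi2 : IsIntegral S (algebraMap S F t * z) := by
    rw [h2]; exact (IsIntegralClosure.isIntegral S F y).algebraMap
  have hzi : IsIntegral S z := isIntegral_of_isIntegral_mul K hw ht hi1 hi2
  obtain ⟨b', hb'⟩ := (IsIntegralClosure.isIntegral_iff (A := B)).mp hzi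
  refine ⟨b', ?_⟩
  apply IsIntegralClosure.algebraMap_injective B S F
  rw [map_mul, hb', ← IsScalarTower.algebraMap_apply, h1]

/-- Multiplicative form of `dvd_of_dvd_smul`. -/
theorem dvd_of_dvd_mul (K F : Type*) [Field K] [Algebra S K] [IsFractionRing S K]
    [Field F] [Algebra K F] [Algebra S F] [IsScalarTower S K F]
    [Algebra B F] [IsScalarTower S B F] [IsIntegralClosure B S F]
    {w t : S} (hw : Prime w) (ht : ¬ w ∣ t) {b : B}
    (h : algebraMap S B w ∣ algebraMap S B t * b) : algebraMap S B w ∣ b := by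
  rw [← Algebra.smul_def] at h
  exact dvd_of_dvd_smul K F hw ht h

end

end Fermat.Agent.S18.H203

end
-- ===== PACK-END S18/H203/TorsionFree.lean

-- ===== PACK-BEGIN S18/H274/TraceNil.lean
section


/-!
# S18 / b2 (helper274) — the radical of the trace form consists of nilpotents (char 0)

Mathlib-only.  `C` a commutative `Λ`-algebra with a finite basis `β`, `φ : Λ →+* K` a ring
homomorphism to a field of characteristic zero.

* `exists_pow_leftMulMatrix_map_eq_zero` : if `φ (Tr (z c)) = 0` for all `c`, then the matrix of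
  multiplication by some power `z ^ m` vanishes under `φ`.
* `exists_pow_dvd_of_trace_dvd` : (`φ` = reduction mod `t`)  if `t ∣ Tr (z c)` for all `c` then
  `t ∣ z ^ m` in `C` for some `m`.
* `eq_zero_of_trace_eq_zero` : (`φ` = inclusion into the fraction field) if `Tr (z c) = 0` for all
  `c` and `C` is reduced, then `z = 0`.
* `discr_ne_zero_of_charZero` : the discriminant of a basis of a reduced finite free algebra over
  a domain of characteristic zero is nonzero.
-/

namespace Fermat.Agent.S18.H274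

open Module

section basic

variable {Λ : Type*} [CommRing Λ] {C : Type*} [CommRing C] [Algebra Λ C]
variable {ι : Type*} [Fintype ι] [DecidableEq ι] (β : Basis ι Λ C)

omit [DecidableEq ι] in
include β in
theorem dvd_of_forall_dvd_repr (t : Λ) (x : C) (h : ∀ i, t ∣ β.repr x i) :
    algebraMap Λ C t ∣ x := by
  choose e he using h
  refine ⟨∑ i, e i • β i, ?_⟩
  conv_lhs => rw [← β.sum_repr x]
  rw [Finset.mul_sum]
  refine Finset.sum_congr rfl fun i _ => ?_
  rw [he i, mul_smul, Algebra.smul_def t]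

omit [Fintype ι] [DecidableEq ι] in
include β in
theorem dvd_repr_of_dvd (t : Λ) (x : C) (h : algebraMap Λ C t ∣ x) (i : ι) :
    t ∣ β.repr x i := by
  obtain ⟨c, rfl⟩ := h
  rw [← Algebra.smul_def, map_smul]
  exact ⟨β.repr c i, rfl⟩

omit [DecidableEq ι] in
theorem trace_mul_dvd_of_basis (d : Λ) (y : C)
    (h : ∀ k, d ∣ Algebra.trace Λ C (y * β k)) (c : C) :
    d ∣ Algebra.trace Λ C (y * c) := by
  conv_rhs => rw [← β.sum_repr c]
  rw [Finset.mul_sum, map_sum]
  refine Finset.dvd_sum fun k _ => ?_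
  rw [mul_smul_comm, map_smul, smul_eq_mul]
  exact Dvd.dvd.mul_left (h k) _

theorem exists_pow_leftMulMatrix_map_eq_zero {K : Type*} [Field K] [CharZero K]
    (φ : Λ →+* K) (z : C) (hz : ∀ c, φ (Algebra.trace Λ C (z * c)) = 0) :
    ∃ m : ℕ, (Algebra.leftMulMatrix β (z ^ m)).map φ = 0 := by
  let A := Algebra.leftMulMatrix β z
  have hA : ∀ k, 1 ≤ k → ((φ.mapMatrix A) ^ k).trace = 0 := by
    intro k hk
    obtain ⟨k, rfl⟩ : ∃ j, k = j + 1 := ⟨k - 1, by omega⟩
    rw [← map_pow, RingHom.mapMatrix_apply, ← AddMonoidHom.map_trace, ← map_pow,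
      ← Algebra.trace_eq_matrix_trace β, pow_succ']
    exact hz _
  obtain ⟨m, hm⟩ := matrix_isNilpotent_of_trace_pow_eq_zero (φ.mapMatrix A) hA
  refine ⟨m, ?_⟩
  rw [map_pow, ← RingHom.mapMatrix_apply, map_pow]
  exact hm

end basic

section quotient

variable {Λ : Type*} [CommRing Λ] {C : Type*} [CommRing C] [Algebra Λ C]
variable {ι : Type*} [Fintype ι] [DecidableEq ι] (β : Basis ι Λ C)

include β in
/-- If `K` is a characteristic zero field, `π : Λ →+* K` has kernel contained in `(t)` and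
`π (Tr (z c)) = 0` for all `c`, then `z` is nilpotent modulo `t C`. -/
theorem exists_pow_dvd_of_trace_map_eq_zero {K : Type*} [Field K] [CharZero K]
    (π : Λ →+* K) (t : Λ) (hker : ∀ x, π x = 0 → t ∣ x)
    (z : C) (hz : ∀ c, π (Algebra.trace Λ C (z * c)) = 0) :
    ∃ m : ℕ, algebraMap Λ C t ∣ z ^ m := by
  classical
  obtain ⟨m, hm⟩ := exists_pow_leftMulMatrix_map_eq_zero β π z hz
  refine ⟨m, dvd_of_forall_dvd_repr β t _ fun i => ?_⟩
  have h1 := Algebra.leftMulMatrix_mulVec_repr β (z ^ m) 1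
  rw [mul_one] at h1
  rw [← h1]
  simp only [Matrix.mulVec, dotProduct]
  refine Finset.dvd_sum fun j _ => ?_
  apply Dvd.dvd.mul_right
  apply hker
  have := congrFun (congrFun hm i) j
  simpa using this

end quotient

section domain

variable {Λ : Type*} [CommRing Λ] [IsDomain Λ] [CharZero Λ]
variable {C : Type*} [CommRing C] [IsReduced C] [Algebra Λ C]
variable {ι : Type*} [Fintype ι] [DecidableEq ι] (β : Basis ι Λ C)

include β in
theorem eq_zero_of_trace_eq_zero (z : C) (hz : ∀ c, Algebra.trace Λ C (z * c) = 0) : z = 0 := by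
  classical
  let K := FractionRing Λ
  have : CharZero K := charZero_of_injective_algebraMap (IsFractionRing.injective Λ K)
  obtain ⟨m, hm⟩ := exists_pow_leftMulMatrix_map_eq_zero β (algebraMap Λ K) z
    (fun c => by rw [hz c, map_zero])
  have h0 : Algebra.leftMulMatrix β (z ^ m) = 0 := by
    ext i j
    have := congrFun (congrFun hm i) j
    simp only [Matrix.map_apply, Matrix.zero_apply] at this
    rw [Matrix.zero_apply]
    exact IsFractionRing.injective Λ K (by rw [this, map_zero])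
  have h1 : z ^ m = 0 := Algebra.leftMulMatrix_injective β (by rw [h0, map_zero])
  exact IsReduced.eq_zero _ ⟨m, h1⟩

/-- The discriminant of a basis of a reduced finite free algebra over a domain of
characteristic zero is nonzero. -/
theorem discr_ne_zero_of_charZero : Algebra.discr Λ β ≠ 0 := by
  classical
  intro hD
  rw [Algebra.discr_def] at hD
  obtain ⟨v, hv0, hv⟩ := Matrix.exists_mulVec_eq_zero_iff.mpr hD
  have hz : ∀ c, Algebra.trace Λ C ((∑ i, v i • β i) * c) = 0 := by
    intro c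
    have hk : ∀ k, (0 : Λ) ∣ Algebra.trace Λ C ((∑ i, v i • β i) * β k) := by
      intro k
      rw [zero_dvd_iff]
      have := congrFun hv k
      simp only [Matrix.mulVec, dotProduct, Algebra.traceMatrix_apply, Algebra.traceForm_apply,
        Pi.zero_apply] at this
      rw [Finset.sum_mul, map_sum, ← this]
      refine Finset.sum_congr rfl fun i _ => ?_
      rw [smul_mul_assoc, map_smul, smul_eq_mul, mul_comm (β i) (β k), mul_comm]
    exact zero_dvd_iff.mp (trace_mul_dvd_of_basis β 0 _ hk c)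
  have h0 := eq_zero_of_trace_eq_zero β _ hz
  apply hv0
  funext i
  have h1 := congrArg (fun x => β.repr x i) h0
  simp only [β.repr_sum_self, map_zero, Finsupp.coe_zero, Pi.zero_apply] at h1
  exact h1

end domain

end Fermat.Agent.S18.H274

end
-- ===== PACK-END S18/H274/TraceNil.lean

-- ===== PACK-BEGIN S18/H425/Hsep.lean
section




/-!
# S18 / b2.5 HSEP (helper425): the hypothesis `hsep` of `B2RegularStatement` / `B2Statement`
from elementwise separability of the special fibre

EXACT STATEMENTS (Mathlib-only):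

* `hsep_gen` : `Λ` noetherian integrally closed domain, `w ∈ Λ` prime, `B` integrally closed
  domain, finite and torsion-free over `Λ`, `w` prime in `B`, and
  `∀ b : B, ∃ P : Λ[X], w ∣ P(b) ∧ ¬ w ∣ P'(b)`.  Then
  `∃ x : Fin (finrank Λ B) → B, ¬ w ∣ det (intTrace Λ B (x i * x j))`.
* `hsep_poly` : the case `Λ = R[X]`, `w = C w₀`, `R` a DVR — the hypothesis `hsep` of
  `Fermat.Agent.S18.B12.B2RegularStatement` (origin/helper33 Spec3.lean), verbatim.
-/

set_option autoImplicit false

noncomputable section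

namespace Fermat.Agent.S18.H425

open Polynomial IsLocalRing

universe u v

/-- Compatibility of `aeval` with a commutative square of ring homomorphisms. -/
theorem aeval_map_of_comp_eq {Λ B K F : Type*} [CommRing Λ] [CommRing B] [Algebra Λ B]
    [CommRing K] [CommRing F] [Algebra K F] (g : Λ →+* K) (φ : B →+* F)
    (h : (algebraMap K F).comp g = φ.comp (algebraMap Λ B)) (Q : Λ[X]) (c : B) :
    aeval (φ c) (Q.map g) = φ (aeval c Q) := by
  rw [aeval_def, eval₂_map, h, aeval_def, hom_eval₂]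

theorem hsep_gen (Λ : Type u) [CommRing Λ] [IsDomain Λ] [IsIntegrallyClosed Λ]
    [IsNoetherianRing Λ] (w : Λ) (hw : Prime w)
    (B : Type v) [CommRing B] [IsDomain B] [IsIntegrallyClosed B] [Algebra Λ B]
    [Module.Finite Λ B] [Module.IsTorsionFree Λ B]
    (hwB : Prime (algebraMap Λ B w))
    (hel : ∀ b : B, ∃ P : Λ[X], algebraMap Λ B w ∣ aeval b P ∧
          ¬ algebraMap Λ B w ∣ aeval b (derivative P)) :
    ∃ x : Fin (Module.finrank Λ B) → B,
        ¬ w ∣ (Matrix.of fun i j => Algebra.intTrace Λ B (x i * x j)).det := by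
  classical
  -- the prime `𝔭 = (w)` of `Λ` and the prime `P = (w)` of `B`
  let 𝔭 : Ideal Λ := Ideal.span {w}
  have h𝔭 : 𝔭.IsPrime := (Ideal.span_singleton_prime hw.ne_zero).mpr hw
  let P : Ideal B := Ideal.span {algebraMap Λ B w}
  have hP : P.IsPrime := (Ideal.span_singleton_prime hwB.ne_zero).mpr hwB
  have hPover : P.LiesOver 𝔭 := by
    constructor
    ext s
    rw [Ideal.under_def, Ideal.mem_comap, Ideal.mem_span_singleton, Ideal.mem_span_singleton]
    exact ⟨fun h => _root_.map_dvd (algebraMap Λ B) h, fun h => dvd_of_algebraMap_dvd hw.ne_zero h⟩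
  have hP𝔭 : 𝔭.map (algebraMap Λ B) = P := by
    rw [Ideal.map_span, Set.image_singleton]
  -- localisations
  let Λₚ := Localization.AtPrime 𝔭
  let Bₚ := Localization (Algebra.algebraMapSubmonoid B 𝔭.primeCompl)
  let _ : Algebra Λₚ Bₚ := localizationAlgebra 𝔭.primeCompl B
  have : IsScalarTower Λ Λₚ Bₚ := IsScalarTower.of_algebraMap_eq'
    (by rw [RingHom.algebraMap_toAlgebra, IsLocalization.map_comp, ← IsScalarTower.algebraMap_eq])
  have : IsLocalization (Submonoid.map (algebraMap Λ B) (Ideal.primeCompl 𝔭)) Bₚ :=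
    inferInstanceAs (IsLocalization (Algebra.algebraMapSubmonoid B 𝔭.primeCompl) Bₚ)
  have e : Algebra.algebraMapSubmonoid B 𝔭.primeCompl ≤ nonZeroDivisors B :=
    Submonoid.map_le_of_le_comap _ <| 𝔭.primeCompl_le_nonZeroDivisors.trans
      (nonZeroDivisors_le_comap_nonZeroDivisors_of_injective _
        (FaithfulSMul.algebraMap_injective _ _))
  have : IsDomain Bₚ := IsLocalization.isDomain_of_le_nonZeroDivisors _ e
  have hinjB : Function.Injective (algebraMap Λ B) := FaithfulSMul.algebraMap_injective Λ B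
  have hinjp : Function.Injective (algebraMap Λₚ Bₚ) :=
    localizationAlgebra_injective (Rₘ := Λₚ) (Sₘ := Bₚ) hinjB
  have : Module.IsTorsionFree Λₚ Bₚ := Module.isTorsionFree_iff_algebraMap_injective.mpr hinjp
  have : Module.Finite Λₚ Bₚ := .of_isLocalization Λ B 𝔭.primeCompl
  have : IsIntegrallyClosed Bₚ := isIntegrallyClosed_of_isLocalization _ _ e
  have : IsNoetherianRing Λₚ := IsLocalization.isNoetherianRing 𝔭.primeCompl Λₚ inferInstance
  have hmaxeq : maximalIdeal Λₚ = Ideal.span {algebraMap Λ Λₚ w} := by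
    rw [← IsLocalization.AtPrime.map_eq_maximalIdeal 𝔭 Λₚ, Ideal.map_span, Set.image_singleton]
  have : IsPrincipalIdealRing Λₚ := by
    refine ((tfae_of_isNoetherianRing_of_isLocalRing_of_isDomain Λₚ).out 4 0).mp ?_
    rw [hmaxeq]
    exact ⟨⟨_, rfl⟩⟩
  have : Module.Free Λₚ Bₚ := Module.free_of_finite_type_torsion_free'
  -- the ideal `𝔪 Bₚ`
  have hmapeq : Ideal.map (algebraMap Λₚ Bₚ) (maximalIdeal Λₚ) = P.map (algebraMap B Bₚ) := by
    rw [← IsLocalization.AtPrime.map_eq_maximalIdeal 𝔭 Λₚ, Ideal.map_map,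
      ← IsScalarTower.algebraMap_eq, IsScalarTower.algebraMap_eq Λ B Bₚ, ← Ideal.map_map, hP𝔭]
  have hprime : (Ideal.map (algebraMap Λₚ Bₚ) (maximalIdeal Λₚ)).IsPrime := by
    rw [hmapeq]
    exact IsLocalization.AtPrime.isPrime_map_of_liesOver B 𝔭 Bₚ P
  -- the residue field `K̄ = Λₚ/𝔪` and the residue algebra `F̄ = Bₚ/𝔪Bₚ`
  let _ : Field (Λₚ ⧸ maximalIdeal Λₚ) := Ideal.Quotient.field _
  have hmax : (Ideal.map (algebraMap Λₚ Bₚ) (maximalIdeal Λₚ)).IsMaximal := by
    have hdom : IsDomain (Bₚ ⧸ Ideal.map (algebraMap Λₚ Bₚ) (maximalIdeal Λₚ)) :=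
      Ideal.Quotient.isDomain _
    have hfin : Module.Finite (Λₚ ⧸ maximalIdeal Λₚ)
        (Bₚ ⧸ Ideal.map (algebraMap Λₚ Bₚ) (maximalIdeal Λₚ)) :=
      Module.Finite.of_restrictScalars_finite Λₚ _ _
    have hint : Algebra.IsIntegral (Λₚ ⧸ maximalIdeal Λₚ)
        (Bₚ ⧸ Ideal.map (algebraMap Λₚ Bₚ) (maximalIdeal Λₚ)) := Algebra.IsIntegral.of_finite _ _
    exact Ideal.Quotient.maximal_of_isField _
      (isField_of_isIntegral_of_isField' (Field.toIsField (Λₚ ⧸ maximalIdeal Λₚ)))
  let _ : Field (Bₚ ⧸ Ideal.map (algebraMap Λₚ Bₚ) (maximalIdeal Λₚ)) := Ideal.Quotient.field _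
  -- the kernel of `B → F̄`
  have hker : ∀ c : B, Ideal.Quotient.mk (Ideal.map (algebraMap Λₚ Bₚ) (maximalIdeal Λₚ))
      (algebraMap B Bₚ c) = 0 ↔ algebraMap Λ B w ∣ c := by
    intro c
    rw [Ideal.Quotient.eq_zero_iff_mem, hmapeq, ← Ideal.mem_comap, ← Ideal.under_def,
      IsLocalization.under_map_of_isPrime_disjoint (Algebra.algebraMapSubmonoid B 𝔭.primeCompl)
        Bₚ hP (Ideal.disjoint_primeCompl_of_liesOver P 𝔭), Ideal.mem_span_singleton]
  -- the two maps to the residue objects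
  let g : Λ →+* (Λₚ ⧸ maximalIdeal Λₚ) :=
    (Ideal.Quotient.mk (maximalIdeal Λₚ)).comp (algebraMap Λ Λₚ)
  let φ : B →+* (Bₚ ⧸ Ideal.map (algebraMap Λₚ Bₚ) (maximalIdeal Λₚ)) :=
    (Ideal.Quotient.mk _).comp (algebraMap B Bₚ)
  have hsq : (algebraMap (Λₚ ⧸ maximalIdeal Λₚ)
      (Bₚ ⧸ Ideal.map (algebraMap Λₚ Bₚ) (maximalIdeal Λₚ))).comp g =
      φ.comp (algebraMap Λ B) := by
    ext a
    simp only [g, φ, RingHom.comp_apply]
    rw [Ideal.Quotient.algebraMap_quotient_map_quotient, ← IsScalarTower.algebraMap_apply,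
      ← IsScalarTower.algebraMap_apply]
  have hg : ∀ s₀ : Λ, s₀ ∈ 𝔭.primeCompl → g s₀ ≠ 0 := by
    intro s₀ hs₀ h0
    simp only [g, RingHom.comp_apply] at h0
    rw [Ideal.Quotient.eq_zero_iff_mem, IsLocalRing.mem_maximalIdeal, mem_nonunits_iff] at h0
    exact h0 ((IsLocalization.AtPrime.isUnit_to_map_iff Λₚ 𝔭 s₀).mpr hs₀)
  -- elementwise separability of `F̄ / K̄`
  have hsepel : ∀ y : Bₚ ⧸ Ideal.map (algebraMap Λₚ Bₚ) (maximalIdeal Λₚ),
      IsSeparable (Λₚ ⧸ maximalIdeal Λₚ) y := by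
    intro y
    obtain ⟨y, rfl⟩ := Ideal.Quotient.mk_surjective y
    obtain ⟨⟨b, s⟩, hbs⟩ := IsLocalization.surj (Algebra.algebraMapSubmonoid B 𝔭.primeCompl) y
    obtain ⟨s₀, hs₀, hs₀'⟩ := s.2
    obtain ⟨Q, hQ0, hQ1⟩ := hel b
    have hb : IsSeparable (Λₚ ⧸ maximalIdeal Λₚ) (φ b) := by
      apply isSeparable_of_aeval_derivative_ne_zero _ (Q.map g)
      · rw [aeval_map_of_comp_eq g φ hsq]
        exact (hker _).mpr hQ0
      · rw [derivative_map, aeval_map_of_comp_eq g φ hsq]
        exact fun h => hQ1 ((hker _).mp h)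
    have hrel : Ideal.Quotient.mk (Ideal.map (algebraMap Λₚ Bₚ) (maximalIdeal Λₚ)) y *
        algebraMap (Λₚ ⧸ maximalIdeal Λₚ) _ (g s₀) = φ b := by
      have h1 : algebraMap (Λₚ ⧸ maximalIdeal Λₚ)
          (Bₚ ⧸ Ideal.map (algebraMap Λₚ Bₚ) (maximalIdeal Λₚ)) (g s₀) =
          φ (algebraMap Λ B s₀) := by
        have := congrArg (fun f => f s₀) hsq
        simpa using this
      rw [h1, hs₀']
      simp only [φ, RingHom.comp_apply]
      rw [← _root_.map_mul, hbs]
    have hy : Ideal.Quotient.mk (Ideal.map (algebraMap Λₚ Bₚ) (maximalIdeal Λₚ)) y =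
        φ b * algebraMap (Λₚ ⧸ maximalIdeal Λₚ) _ (g s₀)⁻¹ := by
      rw [← hrel, mul_assoc, ← _root_.map_mul, mul_inv_cancel₀ (hg s₀ hs₀), _root_.map_one, mul_one]
    rw [hy]
    exact Field.isSeparable_mul hb (isSeparable_algebraMap _)
  -- rank
  have hrank : Module.finrank Λₚ Bₚ = Module.finrank Λ B := by
    have h1 : Module.finrank Λₚ Bₚ = Module.finrank Λ Bₚ :=
      IsLocalization.finrank_eq Λₚ 𝔭.primeCompl 𝔭.primeCompl_le_nonZeroDivisors
    have h2 : Module.finrank Λ Bₚ = Module.finrank Λ B :=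
      IsLocalizedModule.finrank_eq 𝔭.primeCompl (IsScalarTower.toAlgHom Λ B Bₚ).toLinearMap
        𝔭.primeCompl_le_nonZeroDivisors
    rw [h1, h2]
  let bas : Module.Basis (Fin (Module.finrank Λ B)) Λₚ Bₚ := Module.finBasisOfFinrankEq Λₚ Bₚ hrank
  -- clear denominators
  have hex : ∀ i, ∃ (x : B) (s₀ : Λ), s₀ ∈ 𝔭.primeCompl ∧
      algebraMap Λ Λₚ s₀ • bas i = algebraMap B Bₚ x := by
    intro i
    obtain ⟨⟨b, s⟩, hbs⟩ :=
      IsLocalization.surj (Algebra.algebraMapSubmonoid B 𝔭.primeCompl) (bas i)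
    obtain ⟨s₀, hs₀, hs₀'⟩ := s.2
    refine ⟨b, s₀, hs₀, ?_⟩
    rw [Algebra.smul_def, ← IsScalarTower.algebraMap_apply,
      IsScalarTower.algebraMap_apply Λ B Bₚ, hs₀', mul_comm]
    exact hbs
  choose x s₀ hs₀ hx using hex
  have hunit : ∀ i, IsUnit (algebraMap Λ Λₚ (s₀ i)) := fun i =>
    (IsLocalization.AtPrime.isUnit_to_map_iff Λₚ 𝔭 (s₀ i)).mpr (hs₀ i)
  let bas' : Module.Basis (Fin (Module.finrank Λ B)) Λₚ Bₚ := bas.isUnitSMul hunit
  have hbas' : ∀ i, bas' i = algebraMap B Bₚ (x i) := fun i => by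
    rw [Module.Basis.isUnitSMul_apply, hx]
  have hdiscr : IsUnit (Algebra.discr Λₚ bas') :=
    isUnit_discr_of_isSeparable_quotient bas' hmax hsepel
  refine ⟨x, fun hdvd => ?_⟩
  have hmap : algebraMap Λ Λₚ (Matrix.of fun i j => Algebra.intTrace Λ B (x i * x j)).det =
      Algebra.discr Λₚ bas' := by
    rw [Algebra.discr_def, RingHom.map_det]
    congr 1
    ext i j
    simp only [RingHom.mapMatrix_apply, Matrix.map_apply, Matrix.of_apply,
      Algebra.traceMatrix_apply, Algebra.traceForm_apply, hbas']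
    rw [Algebra.intTrace_eq_of_isLocalization Λ B 𝔭.primeCompl (Aₘ := Λₚ) (Bₘ := Bₚ),
      Algebra.intTrace_eq_trace, _root_.map_mul]
  rw [← hmap, IsLocalization.AtPrime.isUnit_to_map_iff Λₚ 𝔭] at hdiscr
  exact hdiscr (Ideal.mem_span_singleton.mpr hdvd)

/-- **HSEP**, in the exact shape of the hypothesis `hsep` of
`Fermat.Agent.S18.B12.B2RegularStatement` / `B2Statement` (origin/helper33). -/
theorem hsep_poly (R : Type u) [CommRing R] [IsDomain R] [IsDiscreteValuationRing R]
    (w : R) (hw : Irreducible w)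
    (B : Type v) [CommRing B] [IsDomain B] [IsIntegrallyClosed B] [Algebra R[X] B]
    [Module.Finite R[X] B] [Module.IsTorsionFree R[X] B]
    (hwB : Prime (algebraMap R[X] B (C w)))
    (hel : ∀ b : B, ∃ P : R[X][X], algebraMap R[X] B (C w) ∣ aeval b P ∧
          ¬ algebraMap R[X] B (C w) ∣ aeval b (derivative P)) :
    ∃ x : Fin (Module.finrank R[X] B) → B,
        ¬ C w ∣ (Matrix.of fun i j => Algebra.intTrace R[X] B (x i * x j)).det := by
  have hwp : Prime (C w : R[X]) :=
    (Polynomial.prime_C_iff).mpr hw.prime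
  exact hsep_gen R[X] (C w) hwp B hwB hel

end Fermat.Agent.S18.H425

end
end
-- ===== PACK-END S18/H425/Hsep.lean

-- ===== PACK-BEGIN S18/H214/LocalExist.lean
section




/-!
# S18, route K, piece LE ("local existence"): the input `σ₀, σ₁` of the Kummer endgame

One chart (`exists_sigma`): `B` a noetherian integrally closed domain, `F = Frac B`, `ϖ ∈ B` prime,
special fibre regular (`H754.RegularAlong ϖ`, output of b2), `u ≡ 1 mod ϖ` (`H754.OneModPi`),
`m ∣ div u` (`H754.DivisibleDivisor B m u`).  Then there is `σ ∈ F` with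
`σ ^ m * u ∈ 1 + ϖ B` and `σ ∈ 1 + ϖ B_(ϖ)`.
-/

set_option autoImplicit false

namespace Fermat.Agent.S18.H214

open Fermat.Agent.S18.H754

section LocalRing

variable {B : Type*} [CommRing B] [IsDomain B]

/-- The image of a prime element `ϖ ∈ 𝔪` in the localisation at `𝔪` is prime. -/
theorem prime_algebraMap_atPrime (ϖ : B) (hϖ : Prime ϖ) (𝔪 : Ideal B) [𝔪.IsPrime]
    (hm : ϖ ∈ 𝔪) : Prime (algebraMap B (Localization.AtPrime 𝔪) ϖ) := by
  have hinj : Function.Injective (algebraMap B (Localization.AtPrime 𝔪)) :=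
    IsLocalization.injective (Localization.AtPrime 𝔪) 𝔪.primeCompl_le_nonZeroDivisors
  have h0 : algebraMap B (Localization.AtPrime 𝔪) ϖ ≠ 0 := by
    rw [Ne, ← map_zero (algebraMap B (Localization.AtPrime 𝔪))]
    exact fun h => hϖ.ne_zero (hinj h)
  rw [← Ideal.span_singleton_prime h0]
  have hp : (Ideal.span {ϖ}).IsPrime := (Ideal.span_singleton_prime hϖ.ne_zero).2 hϖ
  have hd : Disjoint (𝔪.primeCompl : Set B) (Ideal.span {ϖ} : Ideal B) := by
    rw [Set.disjoint_left]
    intro x hx hx'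
    exact hx ((Ideal.span_singleton_le_iff_mem 𝔪).2 hm hx')
  have := IsLocalization.isPrime_of_isPrime_disjoint 𝔪.primeCompl (Localization.AtPrime 𝔪)
    (Ideal.span {ϖ}) hp hd
  rwa [Ideal.map_span, Set.image_singleton] at this

/-- Divisibility by `ϖ` descends from the localisation at `𝔪 ∋ ϖ`. -/
theorem dvd_of_algebraMap_dvd_atPrime (ϖ : B) (hϖ : Prime ϖ) (𝔪 : Ideal B) [𝔪.IsPrime]
    (hm : ϖ ∈ 𝔪) (x : B)
    (h : algebraMap B (Localization.AtPrime 𝔪) ϖ ∣ algebraMap B (Localization.AtPrime 𝔪) x) :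
    ϖ ∣ x := by
  have hinj : Function.Injective (algebraMap B (Localization.AtPrime 𝔪)) :=
    IsLocalization.injective (Localization.AtPrime 𝔪) 𝔪.primeCompl_le_nonZeroDivisors
  obtain ⟨y, hy⟩ := h
  obtain ⟨b, r, rfl⟩ := IsLocalization.exists_mk'_eq 𝔪.primeCompl y
  have h1 : algebraMap B (Localization.AtPrime 𝔪) (x * r) =
      algebraMap B (Localization.AtPrime 𝔪) (ϖ * b) := by
    rw [map_mul, map_mul, hy, mul_assoc, IsLocalization.mk'_spec]
  have h2 : x * r = ϖ * b := hinj h1
  have h3 : ϖ ∣ x * r := ⟨b, h2⟩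
  rcases hϖ.dvd_or_dvd h3 with h4 | h4
  · exact h4
  · exact absurd (𝔪.mem_of_dvd h4 hm) r.2

/-- b2 output ⟹ the local ring of the special fibre at a closed point is a principal ideal ring
(a discrete valuation ring or a field). -/
theorem isPrincipalIdealRing_quotient_atPrime [IsNoetherianRing B] (ϖ : B) (hϖ : Prime ϖ)
    (hreg : RegularAlong ϖ) (𝔪 : Ideal B) [h𝔪 : 𝔪.IsMaximal] (hm : ϖ ∈ 𝔪) :
    IsPrincipalIdealRing (Localization.AtPrime 𝔪 ⧸
      Ideal.span {algebraMap B (Localization.AtPrime 𝔪) ϖ}) := by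
  set A := Localization.AtPrime 𝔪 with hA
  set ϖA := algebraMap B A ϖ with hϖA
  have hpr : Prime ϖA := prime_algebraMap_atPrime ϖ hϖ 𝔪 hm
  have hI : (Ideal.span {ϖA}).IsPrime := (Ideal.span_singleton_prime hpr.ne_zero).2 hpr
  have : IsLocalRing (A ⧸ Ideal.span {ϖA}) :=
    IsLocalRing.of_surjective' (Ideal.Quotient.mk (Ideal.span {ϖA})) Ideal.Quotient.mk_surjective
  obtain ⟨t, htm, ht⟩ := hreg 𝔪 h𝔪 hm
  have hϖmax : ϖA ∈ IsLocalRing.maximalIdeal A :=
    (IsLocalization.AtPrime.to_map_mem_maximal_iff A 𝔪 ϖ).2 hm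
  have htmax : algebraMap B A t ∈ IsLocalRing.maximalIdeal A :=
    (IsLocalization.AtPrime.to_map_mem_maximal_iff A 𝔪 t).2 htm
  -- the maximal ideal of the quotient is generated by the image of `t`
  have key : IsLocalRing.maximalIdeal (A ⧸ Ideal.span {ϖA}) =
      Ideal.span {Ideal.Quotient.mk (Ideal.span {ϖA}) (algebraMap B A t)} := by
    apply le_antisymm
    · intro x hx
      obtain ⟨y, rfl⟩ := Ideal.Quotient.mk_surjective x
      have hy : y ∈ IsLocalRing.maximalIdeal A := by
        rw [IsLocalRing.mem_maximalIdeal, mem_nonunits_iff] at hx ⊢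
        exact fun hu => hx (hu.map _)
      obtain ⟨b, r, rfl⟩ := IsLocalization.exists_mk'_eq 𝔪.primeCompl y
      rw [IsLocalization.AtPrime.mk'_mem_maximal_iff A 𝔪] at hy
      obtain ⟨s, hs, hsb⟩ := ht b hy
      obtain ⟨c₁, c₂, hc⟩ := Ideal.mem_span_pair.1 hsb
      have hsu : IsUnit (algebraMap B A s) :=
        (IsLocalization.AtPrime.isUnit_to_map_iff A 𝔪 s).2 hs
      have hru : IsUnit (algebraMap B A r) :=
        (IsLocalization.AtPrime.isUnit_to_map_iff A 𝔪 r).2 r.2
      obtain ⟨su, hsu'⟩ := hsu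
      obtain ⟨ru, hru'⟩ := hru
      have e1 : IsLocalization.mk' A b r * algebraMap B A r = algebraMap B A b :=
        IsLocalization.mk'_spec A b r
      have e2 : algebraMap B A s * algebraMap B A b =
          algebraMap B A c₁ * ϖA + algebraMap B A c₂ * algebraMap B A t := by
        rw [← map_mul, ← hc, map_add, map_mul, map_mul]
      have e3 : IsLocalization.mk' A b r =
          ((su⁻¹ * ru⁻¹ : Aˣ) : A) * algebraMap B A c₁ * ϖA +
            ((su⁻¹ * ru⁻¹ : Aˣ) : A) * algebraMap B A c₂ * algebraMap B A t := by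
        have : IsLocalization.mk' A b r * ((su * ru : Aˣ) : A) =
            algebraMap B A c₁ * ϖA + algebraMap B A c₂ * algebraMap B A t := by
          rw [Units.val_mul, hsu', hru', ← e2, ← e1]; ring
        calc IsLocalization.mk' A b r
            = IsLocalization.mk' A b r * ((su * ru : Aˣ) : A) * ((su⁻¹ * ru⁻¹ : Aˣ) : A) := by
              rw [mul_assoc, ← Units.val_mul]
              have : su * ru * (su⁻¹ * ru⁻¹) = 1 := by
                rw [mul_comm su⁻¹, mul_assoc, ← mul_assoc ru, mul_inv_cancel, one_mul,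
                  mul_inv_cancel]
              rw [this, Units.val_one, mul_one]
          _ = _ := by rw [this]; ring
      refine Ideal.mem_span_singleton'.2
        ⟨Ideal.Quotient.mk (Ideal.span {ϖA}) (((su⁻¹ * ru⁻¹ : Aˣ) : A) * algebraMap B A c₂), ?_⟩
      rw [← map_mul, Ideal.Quotient.eq, Ideal.mem_span_singleton]
      refine ⟨-(((su⁻¹ * ru⁻¹ : Aˣ) : A) * algebraMap B A c₁), ?_⟩
      rw [e3]; ring
    · rw [Ideal.span_singleton_le_iff_mem, IsLocalRing.mem_maximalIdeal, mem_nonunits_iff]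
      intro hu
      obtain ⟨e, he⟩ := hu.exists_right_inv
      obtain ⟨e', rfl⟩ := Ideal.Quotient.mk_surjective e
      have he' : algebraMap B A t * e' - 1 ∈ Ideal.span {ϖA} := by
        rw [← Ideal.Quotient.eq, map_mul, map_one]; exact he
      obtain ⟨d, hd⟩ := Ideal.mem_span_singleton.1 he'
      have h1 : (1 : A) = algebraMap B A t * e' - ϖA * d := by rw [← hd]; ring
      have h2 : (1 : A) ∈ IsLocalRing.maximalIdeal A := by
        rw [h1]
        exact Ideal.sub_mem _ (Ideal.mul_mem_right _ _ htmax) (Ideal.mul_mem_right _ _ hϖmax)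
      exact (Ideal.ne_top_iff_one _).1 (IsLocalRing.maximalIdeal.isMaximal A).ne_top h2
  have hprin : (IsLocalRing.maximalIdeal (A ⧸ Ideal.span {ϖA})).IsPrincipal := ⟨⟨_, key⟩⟩
  exact ((tfae_of_isNoetherianRing_of_isLocalRing_of_isDomain
    (R := A ⧸ Ideal.span {ϖA})).out 0 4).2 hprin

end LocalRing

section LocalData

variable {B : Type*} [CommRing B] [IsDomain B] [IsNoetherianRing B]
  {F : Type*} [Field F] [Algebra B F] [IsFractionRing B F]

/-- **Local data at a closed point of the special fibre**, written without denominators in `B`: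
`u = a / s = (b / r) · (t₁ / t₂) ^ m` with `r ∉ 𝔪`, `t₁ ≡ t₂ ≢ 0 mod ϖ`. -/
theorem exists_local_data (ϖ : B) (hϖ : Prime ϖ) (hreg : RegularAlong ϖ) (m : ℕ) (hm : m ≠ 0)
    (a s : B) (hs : ¬ ϖ ∣ s) (has : ϖ ∣ a - s)
    (u : F) (hu : u * algebraMap B F s = algebraMap B F a)
    (hdiv : DivisibleDivisor B m u)
    (𝔪 : Ideal B) [h𝔪 : 𝔪.IsMaximal] (hm𝔪 : ϖ ∈ 𝔪) :
    ∃ t₁ t₂ b r : B, r ∉ 𝔪 ∧ ¬ ϖ ∣ t₁ ∧ ¬ ϖ ∣ t₂ ∧ ϖ ∣ t₁ - t₂ ∧
      a * t₂ ^ m * r = b * s * t₁ ^ m := by
  classical
  set A := Localization.AtPrime 𝔪 with hA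
  set f := algebraMap B A with hf
  have hinj : Function.Injective f :=
    IsLocalization.injective A 𝔪.primeCompl_le_nonZeroDivisors
  have hinjF : Function.Injective (algebraMap B F) := IsFractionRing.injective B F
  have ha : ¬ ϖ ∣ a := by
    intro h
    apply hs
    have := dvd_sub h has
    rwa [sub_sub_cancel] at this
  have hpr : Prime (f ϖ) := prime_algebraMap_atPrime ϖ hϖ 𝔪 hm𝔪
  have hI : (Ideal.span {f ϖ}).IsPrime := (Ideal.span_singleton_prime hpr.ne_zero).2 hpr
  have : IsPrincipalIdealRing (A ⧸ Ideal.span {f ϖ}) :=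
    isPrincipalIdealRing_quotient_atPrime ϖ hϖ hreg 𝔪 hm𝔪
  have : UniqueFactorizationMonoid A :=
    ufd_of_quotient_isPrincipalIdealRing (f ϖ) hpr.ne_zero hpr.not_isUnit hI
  have hndvd : ∀ x : B, ¬ ϖ ∣ x → ¬ f ϖ ∣ f x := fun x hx h =>
    hx (dvd_of_algebraMap_dvd_atPrime ϖ hϖ 𝔪 hm𝔪 x h)
  -- the hypothesis of `local_kummer_structure`
  have hloc : ∀ π : A, Prime π → ¬ Associated π (f ϖ) → ∃ a' s' z₁ z₂ : A, ¬ π ∣ a' ∧ ¬ π ∣ s' ∧
      z₁ ≠ 0 ∧ z₂ ≠ 0 ∧ f a * s' * z₂ ^ m = a' * f s * z₁ ^ m := by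
    intro π hπ _
    have hπI : (Ideal.span {π}).IsPrime := (Ideal.span_singleton_prime hπ.ne_zero).2 hπ
    set 𝔭 : Ideal B := (Ideal.span {π}).under B with h𝔭
    have h𝔭prime : 𝔭.IsPrime := Ideal.IsPrime.under B (Ideal.span {π})
    have hht : 𝔭.height = 1 := by
      rw [h𝔭, IsLocalization.height_under 𝔪.primeCompl]
      exact Ideal.height_span_singleton_eq_one_of_mem_nonZeroDivisors
        (mem_nonZeroDivisors_of_ne_zero hπ.ne_zero) hπ.not_isUnit
    obtain ⟨t, a', s', ha', hs', heq⟩ := hdiv 𝔭 h𝔭prime hht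
    have hmem : ∀ x : B, x ∉ 𝔭 → ¬ π ∣ f x := by
      intro x hx hd
      apply hx
      rw [h𝔭, Ideal.under_def, Ideal.mem_comap, Ideal.mem_span_singleton]
      exact hd
    obtain ⟨n, d, hd, rfl⟩ := IsFractionRing.div_surjective B t
    have hd0 : d ≠ 0 := nonZeroDivisors.ne_zero hd
    have hdF : algebraMap B F d ≠ 0 := fun h => hd0 (hinjF (by rw [h, map_zero]))
    have hs0 : s ≠ 0 := fun h => hs (h ▸ dvd_zero ϖ)
    have hsF : algebraMap B F s ≠ 0 := fun h => hs0 (hinjF (by rw [h, map_zero]))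
    have ha'0 : a' ≠ 0 := fun h => ha' (h ▸ 𝔭.zero_mem)
    -- the identity in `B`
    have key : a * s' * n ^ m = a' * s * d ^ m := by
      apply hinjF
      simp only [map_mul, map_pow]
      have hu' : u = algebraMap B F a / algebraMap B F s := by
        rw [eq_div_iff hsF]; exact hu
      rw [hu', div_pow] at heq
      field_simp at heq
      linear_combination heq
    have hn0 : n ≠ 0 := by
      rintro rfl
      rw [zero_pow hm, mul_zero] at key
      have := key.symm
      rcases mul_eq_zero.1 this with h | h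
      · rcases mul_eq_zero.1 h with h | h
        · exact ha'0 h
        · exact hs0 h
      · exact hd0 (pow_eq_zero_iff hm |>.1 h)
    refine ⟨f a', f s', f d, f n, hmem a' ha', hmem s' hs', ?_, ?_, ?_⟩
    · exact fun h => hd0 (hinj (by rw [h, map_zero]))
    · exact fun h => hn0 (hinj (by rw [h, map_zero]))
    · rw [← map_pow, ← map_pow, ← map_mul, ← map_mul, ← map_mul, ← map_mul, key]
  obtain ⟨c, t₁, t₂, ht₁, ht₂, ht₁₂, -, heq⟩ :=
    local_kummer_structure (f ϖ) hpr m hm (f a) (f s) (hndvd a ha) (hndvd s hs)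
      (by rw [← map_sub]; exact map_dvd f has) hloc
  -- clear denominators
  obtain ⟨b₁, r₁, rfl⟩ := IsLocalization.exists_mk'_eq 𝔪.primeCompl t₁
  obtain ⟨b₂, r₂, rfl⟩ := IsLocalization.exists_mk'_eq 𝔪.primeCompl t₂
  obtain ⟨bc, rc, hc⟩ := IsLocalization.exists_mk'_eq 𝔪.primeCompl (c : A)
  have e₁ : f (b₁ * r₂) = IsLocalization.mk' A b₁ r₁ * (f r₁ * f r₂) := by
    rw [map_mul, ← mul_assoc, IsLocalization.mk'_spec]
  have e₂ : f (b₂ * r₁) = IsLocalization.mk' A b₂ r₂ * (f r₁ * f r₂) := by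
    rw [map_mul, mul_comm (f r₁), ← mul_assoc, IsLocalization.mk'_spec]
  have ec : (c : A) * f rc = f bc := by rw [← hc, IsLocalization.mk'_spec]
  have hr₁u : IsUnit (f r₁) := (IsLocalization.AtPrime.isUnit_to_map_iff A 𝔪 r₁).2 r₁.2
  have hr₂u : IsUnit (f r₂) := (IsLocalization.AtPrime.isUnit_to_map_iff A 𝔪 r₂).2 r₂.2
  have hru : IsUnit (f r₁ * f r₂) := hr₁u.mul hr₂u
  refine ⟨b₁ * r₂, b₂ * r₁, bc, rc, rc.2, ?_, ?_, ?_, ?_⟩
  · intro h
    have h1 : f ϖ ∣ IsLocalization.mk' A b₁ r₁ * (f r₁ * f r₂) := by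
      rw [← e₁]; exact map_dvd f h
    exact ht₁ ((hru.dvd_mul_right).1 h1)
  · intro h
    have h1 : f ϖ ∣ IsLocalization.mk' A b₂ r₂ * (f r₁ * f r₂) := by
      rw [← e₂]; exact map_dvd f h
    exact ht₂ ((hru.dvd_mul_right).1 h1)
  · apply dvd_of_algebraMap_dvd_atPrime ϖ hϖ 𝔪 hm𝔪
    rw [map_sub]
    show f ϖ ∣ f (b₁ * r₂) - f (b₂ * r₁)
    rw [e₁, e₂, ← sub_mul]
    exact Dvd.dvd.mul_right ht₁₂ _
  · apply hinj
    rw [map_mul, map_mul, map_mul, map_mul, map_pow, map_pow, e₁, e₂, ← ec]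
    have : f a * IsLocalization.mk' A b₂ r₂ ^ m =
        (c : A) * f s * IsLocalization.mk' A b₁ r₁ ^ m := heq
    rw [mul_pow, mul_pow]
    linear_combination (f r₁ * f r₂) ^ m * f rc * this

omit [IsNoetherianRing B] in
/-- Elements `σ` with `σ ^ m * u ∈ B` are closed under addition (`B` integrally closed). -/
theorem exists_add_pow_mul_eq [IsIntegrallyClosed B] (m : ℕ) (hm : m ≠ 0) (u σ₁ σ₂ : F)
    (b₁ b₂ : B) (h₁ : σ₁ ^ m * u = algebraMap B F b₁) (h₂ : σ₂ ^ m * u = algebraMap B F b₂) :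
    ∃ b : B, (σ₁ + σ₂) ^ m * u = algebraMap B F b := by
  classical
  have hterm : ∀ k ∈ Finset.range (m + 1), ∃ c : B,
      σ₁ ^ k * σ₂ ^ (m - k) * u = algebraMap B F c := by
    intro k hk
    have hk' : k ≤ m := Nat.lt_succ_iff.1 (Finset.mem_range.1 hk)
    have hpow : (σ₁ ^ k * σ₂ ^ (m - k) * u) ^ m = algebraMap B F (b₁ ^ k * b₂ ^ (m - k)) := by
      rw [map_mul, map_pow, map_pow, ← h₁, ← h₂]
      have : u ^ m = u ^ k * u ^ (m - k) := by rw [← pow_add, Nat.add_sub_cancel' hk']
      rw [mul_pow, mul_pow, this]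
      ring
    have hint : IsIntegral B (σ₁ ^ k * σ₂ ^ (m - k) * u) :=
      IsIntegral.of_pow (Nat.pos_of_ne_zero hm) (hpow ▸ isIntegral_algebraMap)
    obtain ⟨c, hc⟩ := IsIntegrallyClosed.isIntegral_iff.1 hint
    exact ⟨c, hc.symm⟩
  choose! c hc using hterm
  refine ⟨∑ k ∈ Finset.range (m + 1), c k * (m.choose k : B), ?_⟩
  rw [add_pow, Finset.sum_mul, map_sum]
  refine Finset.sum_congr rfl fun k hk => ?_
  rw [map_mul, ← hc k hk, map_natCast]
  ring

/-- **LE, one chart.**  There is `σ ∈ F` with `σ ^ m * u ∈ 1 + ϖ B` and `σ ∈ 1 + ϖ B_(ϖ)`. -/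
theorem exists_sigma [IsIntegrallyClosed B] (ϖ : B) (hϖ : Prime ϖ) (hreg : RegularAlong ϖ)
    (m : ℕ) (hm : m ≠ 0) (u : F) (hu : OneModPi ϖ u) (hdiv : DivisibleDivisor B m u) :
    ∃ σ : F, (∃ b : B, σ ^ m * u - 1 = algebraMap B F (ϖ * b)) ∧
      ∃ a' s' : B, ¬ ϖ ∣ s' ∧ (σ - 1) * algebraMap B F s' = algebraMap B F (ϖ * a') := by
  classical
  obtain ⟨a, s, hs, has, hus⟩ := hu
  rw [Ideal.mem_span_singleton] at hs has
  have hinjF : Function.Injective (algebraMap B F) := IsFractionRing.injective B F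
  have hs0 : s ≠ 0 := fun h => hs (h ▸ dvd_zero ϖ)
  have hsF : algebraMap B F s ≠ 0 := fun h => hs0 (hinjF (by rw [h, map_zero]))
  -- the ideal of "good" elements
  let Good : B → Prop := fun g => ∃ σ : F, (∃ b : B, σ ^ m * u = algebraMap B F b) ∧
    ∃ a' s' : B, ¬ ϖ ∣ s' ∧ (σ - algebraMap B F g) * algebraMap B F s' = algebraMap B F (ϖ * a')
  let I : Ideal B :=
    { carrier := {g | Good g}
      zero_mem' := by
        refine ⟨0, ⟨0, by rw [zero_pow hm, zero_mul, map_zero]⟩, 0, 1, hϖ.not_dvd_one, ?_⟩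
        simp
      add_mem' := by
        rintro g₁ g₂ ⟨σ₁, ⟨b₁, hb₁⟩, a₁, s₁, hs₁, e₁⟩ ⟨σ₂, ⟨b₂, hb₂⟩, a₂, s₂, hs₂, e₂⟩
        refine ⟨σ₁ + σ₂, exists_add_pow_mul_eq m hm u σ₁ σ₂ b₁ b₂ hb₁ hb₂,
          a₁ * s₂ + a₂ * s₁, s₁ * s₂, ?_, ?_⟩
        · exact fun h => (hϖ.dvd_or_dvd h).elim hs₁ hs₂
        · simp only [map_add, map_mul] at e₁ e₂ ⊢
          linear_combination algebraMap B F s₂ * e₁ + algebraMap B F s₁ * e₂
      smul_mem' := by
        rintro c g ⟨σ, ⟨b, hb⟩, a', s', hs', e⟩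
        refine ⟨algebraMap B F c * σ, ⟨c ^ m * b, ?_⟩, c * a', s', hs', ?_⟩
        · rw [mul_pow, mul_assoc, hb, map_mul, map_pow]
        · simp only [smul_eq_mul, map_mul] at e ⊢
          linear_combination algebraMap B F c * e }
  have hI : ∀ g : B, g ∈ I ↔ Good g := fun g => Iff.rfl
  -- `ϖ ∈ I`
  have hϖI : ϖ ∈ I := by
    obtain ⟨k, rfl⟩ : ∃ k, m = k + 1 := ⟨m - 1, by omega⟩
    refine ⟨algebraMap B F (ϖ * s), ⟨ϖ ^ (k + 1) * s ^ k * a, ?_⟩, s - 1, 1, hϖ.not_dvd_one, ?_⟩
    · simp only [map_mul, map_pow]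
      rw [← hus]; ring
    · simp only [map_mul, map_sub, map_one]; ring
  -- `I` is contained in no maximal ideal
  have htop : I = ⊤ := by
    by_contra hne
    obtain ⟨𝔪, h𝔪, hle⟩ := Ideal.exists_le_maximal I hne
    have hm𝔪 : ϖ ∈ 𝔪 := hle hϖI
    obtain ⟨t₁, t₂, b, r, hr, ht₁, ht₂, ⟨d, hd⟩, heq⟩ :=
      exists_local_data ϖ hϖ hreg m hm a s hs has u hus hdiv 𝔪 hm𝔪
    apply hr
    apply hle
    have ht₁0 : t₁ ≠ 0 := fun h => ht₁ (h ▸ dvd_zero ϖ)
    have ht₁F : algebraMap B F t₁ ≠ 0 := fun h => ht₁0 (hinjF (by rw [h, map_zero]))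
    obtain ⟨k, rfl⟩ : ∃ k, m = k + 1 := ⟨m - 1, by omega⟩
    refine ⟨algebraMap B F r * algebraMap B F t₂ / algebraMap B F t₁,
      ⟨r ^ k * b, ?_⟩, -(r * d), t₁, ht₁, ?_⟩
    · have hu' : u = algebraMap B F a / algebraMap B F s := by
        rw [eq_div_iff hsF]; exact hus
      have heqF := congrArg (algebraMap B F) heq
      simp only [map_mul, map_pow] at heqF ⊢
      rw [hu', div_pow, div_mul_div_comm, div_eq_iff (mul_ne_zero (pow_ne_zero _ ht₁F) hsF)]
      linear_combination (algebraMap B F r) ^ k * heqF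
    · have hdF := congrArg (algebraMap B F) hd
      simp only [map_mul, map_sub, map_neg] at hdF ⊢
      rw [sub_mul, div_mul_cancel₀ _ ht₁F]
      linear_combination (-(algebraMap B F r)) * hdF
  have h1 : (1 : B) ∈ I := by rw [htop]; exact Submodule.mem_top
  obtain ⟨σ, ⟨b, hb⟩, a', s', hs', e⟩ := h1
  rw [map_one] at e
  refine ⟨σ, ?_, a', s', hs', e⟩
  -- `ϖ ∣ b - 1`
  obtain ⟨a'', ha''⟩ := has
  have key : b * s' ^ m * s = (s' + ϖ * a') ^ m * a := by
    apply hinjF
    simp only [map_mul, map_pow, map_add]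
    rw [← hb, ← hus]
    have : algebraMap B F s' + algebraMap B F ϖ * algebraMap B F a' = σ * algebraMap B F s' := by
      rw [map_mul] at e
      linear_combination -e
    rw [this]; ring
  have hdvd1 : ϖ ∣ (s' + ϖ * a') ^ m - s' ^ m := by
    have := sub_dvd_pow_sub_pow (s' + ϖ * a') s' m
    rw [add_sub_cancel_left] at this
    exact (Dvd.intro _ rfl).trans this
  have hdvd2 : ϖ ∣ (b - 1) * (s' ^ m * s) := by
    obtain ⟨e₁, he₁⟩ := hdvd1
    refine ⟨e₁ * a + s' ^ m * a'', ?_⟩
    linear_combination key + a * he₁ + s' ^ m * ha''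
  have hdvd3 : ϖ ∣ b - 1 := by
    rcases hϖ.dvd_or_dvd hdvd2 with h | h
    · exact h
    · rcases hϖ.dvd_or_dvd h with h' | h'
      · exact absurd (hϖ.dvd_of_dvd_pow h') hs'
      · exact absurd h' hs
  obtain ⟨b', hb'⟩ := hdvd3
  refine ⟨b', ?_⟩
  rw [hb, ← map_one (algebraMap B F), ← map_sub, hb']

end LocalData

section TwoCharts

variable {R : Type*} [CommRing R] {F : Type*} [Field F] [Algebra R F]

/-- In an `m`-root closed subalgebra, `{σ | σ ^ m * u ∈ M}` is closed under addition. -/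
theorem add_pow_mul_mem_of_rootClosed (M : Subalgebra R F) (m : ℕ)
    (hrc : ∀ f : F, f ^ m ∈ M → f ∈ M) (u σ₁ σ₂ : F)
    (h₁ : σ₁ ^ m * u ∈ M) (h₂ : σ₂ ^ m * u ∈ M) : (σ₁ + σ₂) ^ m * u ∈ M := by
  classical
  rw [add_pow, Finset.sum_mul]
  refine M.sum_mem fun k hk => ?_
  have hk' : k ≤ m := Nat.lt_succ_iff.1 (Finset.mem_range.1 hk)
  have hterm : σ₁ ^ k * σ₂ ^ (m - k) * u ∈ M := by
    apply hrc
    have : (σ₁ ^ k * σ₂ ^ (m - k) * u) ^ m = (σ₁ ^ m * u) ^ k * (σ₂ ^ m * u) ^ (m - k) := by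
      have hu : u ^ m = u ^ k * u ^ (m - k) := by rw [← pow_add, Nat.add_sub_cancel' hk']
      rw [mul_pow, mul_pow, hu]
      ring
    rw [this]
    exact M.mul_mem (M.pow_mem h₁ _) (M.pow_mem h₂ _)
  have : σ₁ ^ k * σ₂ ^ (m - k) * (m.choose k : F) * u =
      (m.choose k : F) * (σ₁ ^ k * σ₂ ^ (m - k) * u) := by ring
  rw [this]
  exact M.mul_mem (natCast_mem M _) hterm

/-- **LE, two charts**: exactly the input `σ₀, σ₁, h₀, h₁, h₀₁` of `H394.kummer_endgame`.

Hypotheses per chart `B ∈ {B₀, B₁}` (as a ring `↥B`): noetherian, integrally closed with fraction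
field `F`, `w` prime, special fibre regular (b2), `u ≡ 1 mod w`, `m ∣ div u`.
On the overlap `M`: `m`-root closed, and saturated (`hsat`: an element `f` with `w f ∈ M` and
`s₀ s₁ f ∈ M` for some `sᵢ ∈ Bᵢ ∖ w Bᵢ` lies in `M`; this is the `q`-expansion principle on `M`). -/
theorem local_existence (m : ℕ) (hm : m ≠ 0) (w : R) (u : F) (B₀ B₁ M : Subalgebra R F)
    (h0M : B₀ ≤ M) (h1M : B₁ ≤ M)
    [IsNoetherianRing B₀] [IsIntegrallyClosed B₀] [IsFractionRing B₀ F]
    [IsNoetherianRing B₁] [IsIntegrallyClosed B₁] [IsFractionRing B₁ F]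
    (hw₀ : Prime (algebraMap R B₀ w)) (hw₁ : Prime (algebraMap R B₁ w))
    (hreg₀ : RegularAlong (algebraMap R B₀ w)) (hreg₁ : RegularAlong (algebraMap R B₁ w))
    (hu₀ : OneModPi (algebraMap R B₀ w) u) (hu₁ : OneModPi (algebraMap R B₁ w) u)
    (hdiv₀ : DivisibleDivisor B₀ m u) (hdiv₁ : DivisibleDivisor B₁ m u)
    (hrcM : ∀ f : F, f ^ m ∈ M → f ∈ M)
    (hsat : ∀ f : F, ∀ s₀ : B₀, ¬ algebraMap R B₀ w ∣ s₀ → ∀ s₁ : B₁, ¬ algebraMap R B₁ w ∣ s₁ →
      (s₀ : F) * (s₁ : F) * f ∈ M → algebraMap R F w * f ∈ M → f ∈ M) :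
    ∃ σ₀ σ₁ : F, (∃ b ∈ B₀, σ₀ ^ m * u - 1 = algebraMap R F w * b) ∧
      (∃ b ∈ B₁, σ₁ ^ m * u - 1 = algebraMap R F w * b) ∧
      ∃ γ : F, σ₀ - σ₁ = algebraMap R F w * γ ∧ γ ^ m * u ∈ M := by
  classical
  obtain ⟨σ₀, ⟨b₀, hb₀⟩, a₀, s₀, hs₀, e₀⟩ := exists_sigma _ hw₀ hreg₀ m hm u hu₀ hdiv₀
  obtain ⟨σ₁, ⟨b₁, hb₁⟩, a₁, s₁, hs₁, e₁⟩ := exists_sigma _ hw₁ hreg₁ m hm u hu₁ hdiv₁
  obtain ⟨a, s, hs, -, hus⟩ := hu₀
  rw [Ideal.mem_span_singleton] at hs
  set W : F := algebraMap R F w with hW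
  have hW0 : W ≠ 0 := by
    intro h
    apply hw₀.ne_zero
    apply Subtype.ext
    exact h
  have hc₀ : ∀ x : B₀, algebraMap B₀ F x = (x : F) := fun _ => rfl
  have hc₁ : ∀ x : B₁, algebraMap B₁ F x = (x : F) := fun _ => rfl
  have hwc₀ : ((algebraMap R B₀ w : B₀) : F) = W := rfl
  have hwc₁ : ((algebraMap R B₁ w : B₁) : F) = W := rfl
  simp only [hc₀, Subalgebra.coe_mul, hwc₀] at hb₀ e₀ hus
  simp only [hc₁, Subalgebra.coe_mul, hwc₁] at hb₁ e₁
  refine ⟨σ₀, σ₁, ⟨b₀, b₀.2, hb₀⟩, ⟨b₁, b₁.2, hb₁⟩, (σ₀ - σ₁) / W, ?_, ?_⟩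
  · rw [mul_div_cancel₀ _ hW0]
  -- `f := γ ^ m * u`
  set f : F := ((σ₀ - σ₁) / W) ^ m * u with hf
  -- (i) `W ^ m * f ∈ M`
  have hσ₀M : σ₀ ^ m * u ∈ M := by
    have : σ₀ ^ m * u = 1 + W * b₀ := by rw [← hb₀]; ring
    rw [this]
    exact M.add_mem M.one_mem (M.mul_mem (M.algebraMap_mem w) (h0M b₀.2))
  have hσ₁M : σ₁ ^ m * u ∈ M := by
    have : σ₁ ^ m * u = 1 + W * b₁ := by rw [← hb₁]; ring
    rw [this]
    exact M.add_mem M.one_mem (M.mul_mem (M.algebraMap_mem w) (h1M b₁.2))
  have hnegM : (-σ₁) ^ m * u ∈ M := by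
    rcases Nat.even_or_odd m with h | h
    · rwa [h.neg_pow]
    · rw [h.neg_pow, neg_mul]; exact M.neg_mem hσ₁M
  have hi : W ^ m * f ∈ M := by
    have h := add_pow_mul_mem_of_rootClosed M m hrcM u σ₀ (-σ₁) hσ₀M hnegM
    have : W ^ m * f = (σ₀ + -σ₁) ^ m * u := by
      rw [hf, div_pow, ← sub_eq_add_neg]
      field_simp
    rw [this]; exact h
  -- (ii) `D * f ∈ M`
  set S₀ : B₀ := s₀ ^ m * s with hS₀
  set S₁ : B₁ := s₁ ^ m with hS₁
  have hS₀' : ¬ algebraMap R B₀ w ∣ S₀ := by
    intro h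
    rcases hw₀.dvd_or_dvd h with h' | h'
    · exact hs₀ (hw₀.dvd_of_dvd_pow h')
    · exact hs h'
  have hS₁' : ¬ algebraMap R B₁ w ∣ S₁ := fun h => hs₁ (hw₁.dvd_of_dvd_pow h)
  have hii : (S₀ : F) * (S₁ : F) * f ∈ M := by
    have hγ : (σ₀ - σ₁) / W * ((s₀ : F) * (s₁ : F)) = (a₀ : F) * s₁ - (a₁ : F) * s₀ := by
      field_simp
      linear_combination (s₁ : F) * e₀ - (s₀ : F) * e₁
    have hS₀c : (S₀ : F) = (s₀ : F) ^ m * (s : F) := by
      rw [hS₀, Subalgebra.coe_mul, Subalgebra.coe_pow]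
    have hS₁c : (S₁ : F) = (s₁ : F) ^ m := by
      rw [hS₁, Subalgebra.coe_pow]
    have : (S₀ : F) * (S₁ : F) * f = ((a₀ : F) * s₁ - (a₁ : F) * s₀) ^ m * (a : F) := by
      rw [← hγ, ← hus, hf, hS₀c, hS₁c, mul_pow, mul_pow]
      ring
    rw [this]
    exact M.mul_mem (M.pow_mem (M.sub_mem (M.mul_mem (h0M a₀.2) (h1M s₁.2))
      (M.mul_mem (h1M a₁.2) (h0M s₀.2))) _) (h0M a.2)
  -- (iii) descend
  have hdesc : ∀ k : ℕ, k ≤ m → W ^ (m - k) * f ∈ M := by
    intro k
    induction k with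
    | zero => intro _; simpa using hi
    | succ k ih =>
      intro hk
      have h1 := ih (Nat.le_of_succ_le hk)
      apply hsat _ S₀ hS₀' S₁ hS₁'
      · have : (S₀ : F) * (S₁ : F) * (W ^ (m - (k + 1)) * f) =
            W ^ (m - (k + 1)) * ((S₀ : F) * (S₁ : F) * f) := by ring
        rw [this]
        exact M.mul_mem (M.pow_mem (M.algebraMap_mem w) _) hii
      · have : W * (W ^ (m - (k + 1)) * f) = W ^ (m - k) * f := by
          rw [← mul_assoc, ← pow_succ']
          congr 2
          omega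
        rw [this]; exact h1
  have := hdesc m le_rfl
  simpa using this

end TwoCharts

end Fermat.Agent.S18.H214

end
-- ===== PACK-END S18/H214/LocalExist.lean

-- ===== PACK-BEGIN S18/H394/KummerFinite.lean
section



/-!
# S18, Route K, pieces b3+b4 (helper394): finiteness of the Kummer chart

If `B` is contained in a finitely generated `R[x]`-submodule of `F` and `u` has a denominator in
`B`, then `kummerSub B` is finitely generated over `R[x]` (in the explicit form consumed by the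
two-chart connectedness theorem).
-/

set_option autoImplicit false

namespace Fermat.Agent.S18.H394

open Polynomial

section Finite

variable {R F C : Type*} [CommRing R] [IsNoetherianRing R] [Field F] [Algebra R F]
  [CommRing C] [Algebra F C] [Algebra R C] [IsScalarTower R F C]

omit [IsNoetherianRing R] [Algebra R C] [IsScalarTower R F C] [CommRing C] [Algebra F C] in
theorem pow_mul_mem_of_mem_degSet {m : ℕ} (hm0 : 0 < m) {u : F} (hu : u ≠ 0)
    {B : Subalgebra R F} (hB : RootClosed m B) {d : F} (hdB : d ∈ B) (hdu : d * u⁻¹ ∈ B)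
    {k : ℕ} {f : F} (hf : f ∈ degSet B m u k) : d ^ k * f ∈ B := by
  apply hB
  obtain ⟨m', rfl⟩ : ∃ m', m = m' + 1 := Nat.exists_eq_succ_of_ne_zero hm0.ne'
  have hf' : f ^ (m' + 1) * u ^ k ∈ B := hf
  have key : (d ^ k * f) ^ (m' + 1) = (d * u⁻¹) ^ k * (d ^ k) ^ m' * (f ^ (m' + 1) * u ^ k) := by
    have hu' : (u⁻¹) ^ k * u ^ k = 1 := by rw [← mul_pow, inv_mul_cancel₀ hu, one_pow]
    calc (d ^ k * f) ^ (m' + 1) = d ^ k * (d ^ k) ^ m' * f ^ (m' + 1) * 1 := by ring
      _ = d ^ k * (d ^ k) ^ m' * f ^ (m' + 1) * ((u⁻¹) ^ k * u ^ k) := by rw [hu']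
      _ = (d * u⁻¹) ^ k * (d ^ k) ^ m' * (f ^ (m' + 1) * u ^ k) := by ring
  rw [key]
  exact B.mul_mem (B.mul_mem (B.pow_mem hdu k) (B.pow_mem (B.pow_mem hdB k) m')) hf'

theorem kummerSub_fg (pb : PowerBasis F C) (u : F) (hu : u ≠ 0)
    (hT : pb.gen ^ pb.dim = algebraMap F C u) (hm0 : 0 < pb.dim)
    (B : Subalgebra R F) (hB : RootClosed pb.dim B)
    (x : F) (hx : x ∈ B)
    (hfin : ∃ s : Finset F, ∀ b ∈ B, ∃ P : F → Polynomial R,
      b = ∑ β ∈ s, Polynomial.aeval x (P β) * β)
    (hden : ∃ d ∈ B, d ≠ 0 ∧ d * u⁻¹ ∈ B) :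
    ∃ S : Finset C, (∀ c ∈ S, c ∈ kummerSub pb u hT hm0 B hB) ∧
      ∀ b ∈ kummerSub pb u hT hm0 B hB, ∃ P : C → Polynomial R,
        b = ∑ c ∈ S, Polynomial.aeval (algebraMap F C x) (P c) * c := by
  classical
  letI modF : Module R[X] F := Module.compHom F (aeval x : R[X] →ₐ[R] F).toRingHom
  letI modC : Module R[X] C :=
    Module.compHom C (aeval (algebraMap F C x) : R[X] →ₐ[R] C).toRingHom
  have smulF : ∀ (p : R[X]) (f : F), p • f = aeval x p * f := fun _ _ => rfl
  have smulC : ∀ (p : R[X]) (c : C), p • c = aeval (algebraMap F C x) p * c := fun _ _ => rfl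
  have haevalB : ∀ p : R[X], aeval x p ∈ B := fun p => by
    have : aeval x p ∈ Algebra.adjoin R {x} := Polynomial.aeval_mem_adjoin_singleton R x
    exact (Algebra.adjoin_le (Set.singleton_subset_iff.mpr hx)) this
  set K := kummerSub pb u hT hm0 B hB with hK
  have haevalC : ∀ p : R[X], aeval (algebraMap F C x) p = algebraMap F C (aeval x p) := fun p =>
    Polynomial.aeval_algebraMap_apply C x p
  obtain ⟨s₀, hs₀⟩ := hfin
  obtain ⟨d, hdB, hd0, hdu⟩ := hden
  -- the ambient finitely generated module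
  let N : Submodule R[X] F := Submodule.span R[X] (s₀ : Set F)
  have hNfg : N.FG := Submodule.fg_span (Finset.finite_toSet s₀)
  have hBN : ∀ b ∈ B, b ∈ N := by
    intro b hb
    obtain ⟨P, hP⟩ := hs₀ b hb
    rw [hP]
    refine N.sum_mem fun β hβ => ?_
    rw [← smulF]
    exact N.smul_mem (P β) (Submodule.subset_span hβ)
  -- the graded pieces as `R[X]`-submodules of `F`
  let I : ℕ → Submodule R[X] F := fun k =>
    { carrier := degSet B pb.dim u k
      add_mem' := fun ha hb => add_mem_degSet hB ha hb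
      zero_mem' := zero_mem_degSet hm0 k
      smul_mem' := fun p f hf => by
        show p • f ∈ degSet B pb.dim u k
        rw [smulF]
        exact smul_mem_degSet (haevalB p) hf }
  -- multiplication by a constant as an `R[X]`-linear map
  let mulL : F → (F →ₗ[R[X]] F) := fun a =>
    { toFun := fun f => a * f
      map_add' := fun f g => mul_add a f g
      map_smul' := fun p f => by
        show a * (p • f) = p • (a * f)
        rw [smulF, smulF]; ring }
  have hIfg : ∀ k, (I k).FG := by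
    intro k
    have hJle : (I k).map (mulL (d ^ k)) ≤ N := by
      rintro _ ⟨f, hf, rfl⟩
      exact hBN _ (pow_mul_mem_of_mem_degSet hm0 hu hB hdB hdu hf)
    have hJfg : ((I k).map (mulL (d ^ k))).FG := Submodule.FG.of_le hNfg hJle
    have hI : I k = ((I k).map (mulL (d ^ k))).map (mulL (d ^ k)⁻¹) := by
      rw [← Submodule.map_comp]
      have : (mulL (d ^ k)⁻¹).comp (mulL (d ^ k)) = LinearMap.id := by
        apply LinearMap.ext
        intro f
        show (d ^ k)⁻¹ * (d ^ k * f) = f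
        rw [← mul_assoc, inv_mul_cancel₀ (pow_ne_zero k hd0), one_mul]
      rw [this, Submodule.map_id]
    rw [hI]
    exact hJfg.map _
  -- the Kummer algebra as an `R[X]`-submodule of `C`
  let K' : Submodule R[X] C :=
    { carrier := K
      add_mem' := fun ha hb => K.add_mem ha hb
      zero_mem' := K.zero_mem
      smul_mem' := fun p c hc => by
        show p • c ∈ K
        rw [smulC, haevalC]
        exact K.mul_mem (algebraMap_mem_kummerSub hT hm0 hB (haevalB p)) hc }
  let φ : ℕ → (F →ₗ[R[X]] C) := fun k =>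
    { toFun := fun f => algebraMap F C f * pb.gen ^ k
      map_add' := fun f g => by rw [_root_.map_add, add_mul]
      map_smul' := fun p f => by
        show algebraMap F C (p • f) * pb.gen ^ k = p • (algebraMap F C f * pb.gen ^ k)
        rw [smulF, smulC, haevalC, _root_.map_mul, mul_assoc] }
  have hK' : K' = ⨆ k : Fin pb.dim, (I (k : ℕ)).map (φ (k : ℕ)) := by
    apply le_antisymm
    · intro c hc
      have hcK : c ∈ K := hc
      rw [← sum_co pb c]
      refine Submodule.sum_mem _ fun k _ => ?_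
      refine (le_iSup (fun k : Fin pb.dim => (I (k : ℕ)).map (φ (k : ℕ))) k) ?_
      exact ⟨co pb k c, hcK k, rfl⟩
    · refine iSup_le fun k => ?_
      rintro _ ⟨f, hf, rfl⟩
      exact monomial_mem_kummerSub hT hm0 hB hf
  have hK'fg : K'.FG := by
    rw [hK']
    exact Submodule.fg_iSup _ fun k => (hIfg k).map _
  obtain ⟨S, hS⟩ := hK'fg
  refine ⟨S, fun c hc => ?_, fun b hb => ?_⟩
  · have : c ∈ K' := hS ▸ Submodule.subset_span hc
    exact this
  · have hb' : b ∈ Submodule.span R[X] (S : Set C) := by rw [hS]; exact hb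
    obtain ⟨f, -, hf⟩ := Submodule.mem_span_finset.mp hb'
    exact ⟨f, hf.symm⟩

end Finite

end Fermat.Agent.S18.H394

end
-- ===== PACK-END S18/H394/KummerFinite.lean

-- ===== PACK-BEGIN S14/H714/Val.lean
section


/-!
# S14, block LOCAL (helper714): valuation subrings of `ℚ̄` and primes of `ℤ̄`

Dictionary between a valuation subring `A` of `ℚ̄` lying over a prime `ℓ` and the prime
`primeOf A = 𝔪_A ∩ ℤ̄` of the ring `ℤ̄` of all algebraic integers: `A` is the localisation of
`ℤ̄` at `primeOf A`.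
-/

set_option autoImplicit false
set_option linter.style.haveILetI false
set_option linter.unusedSectionVars false
set_option linter.unusedVariables false

namespace Fermat.Agent.S14.H714

open Polynomial
open scoped Pointwise

/-- The ring of all algebraic integers. -/
noncomputable abbrev Zbar := integralClosure ℤ Qb

instance instIsAlgebraicIntQb : Algebra.IsAlgebraic ℤ Qb :=
  (IsFractionRing.comap_isAlgebraic_iff (A := ℤ) (K := ℚ) (C := Qb)).mpr inferInstance

theorem coe_smul_Zbar (σ : G) (x : Zbar) : ((σ • x : Zbar) : Qb) = σ (x : Qb) := rfl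

/-- Algebraic integers lie in every valuation subring. -/
theorem mem_of_isIntegral (A : ValuationSubring Qb) {x : Qb} (hx : IsIntegral ℤ x) : x ∈ A := by
  have h : IsIntegral A x := hx.tower_top
  obtain ⟨y, hy⟩ := (IsIntegrallyClosed.isIntegral_iff (R := A) (K := Qb)).mp h
  rw [← hy]
  exact y.2

theorem coe_mem (A : ValuationSubring Qb) (b : Zbar) : (b : Qb) ∈ A := mem_of_isIntegral A b.2

theorem nonunits_mul_mem (A : ValuationSubring Qb) {m x : Qb} (hm : m ∈ A.nonunits)
    (hx : x ∈ A) : m * x ∈ A.nonunits := by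
  rw [ValuationSubring.mem_nonunits_iff] at hm ⊢
  rw [_root_.map_mul]
  have hx' := (A.valuation_le_one_iff x).mpr hx
  exact mul_lt_one_of_lt_of_le hm hx'

theorem inv_mem_of_not_mem_nonunits (A : ValuationSubring Qb) {s : Qb}
    (hs : s ∉ A.nonunits) : s ≠ 0 ∧ s⁻¹ ∈ A := by
  rw [ValuationSubring.mem_nonunits_iff_or] at hs
  push Not at hs
  exact hs

theorem one_not_mem_nonunits (A : ValuationSubring Qb) : (1 : Qb) ∉ A.nonunits := by
  rw [ValuationSubring.mem_nonunits_iff, _root_.map_one]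
  exact lt_irrefl _

theorem nonunits_add_mem (A : ValuationSubring Qb) {x y : Qb} (hx : x ∈ A.nonunits)
    (hy : y ∈ A.nonunits) : x + y ∈ A.nonunits := by
  rw [ValuationSubring.mem_nonunits_iff] at hx hy ⊢
  exact A.valuation.map_add_lt hx hy

theorem nonunits_neg_mem (A : ValuationSubring Qb) {x : Qb} (hx : x ∈ A.nonunits) :
    -x ∈ A.nonunits := by
  rw [ValuationSubring.mem_nonunits_iff] at hx ⊢
  rwa [Valuation.map_neg]

theorem nonunits_sub_mem (A : ValuationSubring Qb) {x y : Qb} (hx : x ∈ A.nonunits)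
    (hy : y ∈ A.nonunits) : x - y ∈ A.nonunits := by
  rw [sub_eq_add_neg]
  exact nonunits_add_mem A hx (nonunits_neg_mem A hy)

theorem mem_of_mem_nonunits (A : ValuationSubring Qb) {x : Qb} (hx : x ∈ A.nonunits) : x ∈ A := by
  rw [ValuationSubring.mem_nonunits_iff] at hx
  exact (A.valuation_le_one_iff x).mp hx.le

/-- The inclusion of the ring of algebraic integers into a valuation subring. -/
noncomputable def inclZ (A : ValuationSubring Qb) : Zbar →+* A where
  toFun b := ⟨(b : Qb), coe_mem A b⟩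
  map_one' := rfl
  map_mul' _ _ := rfl
  map_zero' := rfl
  map_add' _ _ := rfl

/-- The prime of `ℤ̄` cut out by the maximal ideal of the valuation subring `A`. -/
noncomputable def primeOf (A : ValuationSubring Qb) : Ideal Zbar :=
  (IsLocalRing.maximalIdeal A).comap (inclZ A)

instance primeOf_isPrime (A : ValuationSubring Qb) : (primeOf A).IsPrime :=
  Ideal.comap_isPrime _ _

theorem mem_primeOf {A : ValuationSubring Qb} {b : Zbar} :
    b ∈ primeOf A ↔ (b : Qb) ∈ A.nonunits := by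
  rw [primeOf, Ideal.mem_comap, ← ValuationSubring.coe_mem_nonunits_iff]
  rfl

/-- Key induction: if `x ∈ A` is a root of a polynomial over `ℤ̄` with some coefficient
outside `primeOf A`, then `x` is a fraction `b / s` with `b, s ∈ ℤ̄` and `s ∉ primeOf A`. -/
theorem exists_fraction_aux (A : ValuationSubring Qb) {x : Qb} (hx : x ∈ A) :
    ∀ (n : ℕ) (p : Zbar[X]), p.natDegree ≤ n → aeval x p = 0 → (∃ i, p.coeff i ∉ primeOf A) →
      ∃ b s : Zbar, s ∉ primeOf A ∧ x * (s : Qb) = (b : Qb) := by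
  intro n
  induction n with
  | zero =>
    intro p hp h0 ⟨i, hi⟩
    exfalso
    rw [eq_C_of_natDegree_le_zero hp, aeval_C] at h0
    have hc : p.coeff 0 = 0 := by
      have : ((p.coeff 0 : Zbar) : Qb) = 0 := h0
      exact Subtype.ext this
    apply hi
    rw [eq_C_of_natDegree_le_zero hp, coeff_C, hc]
    split_ifs <;> exact zero_mem _
  | succ n ih =>
    intro p hp h0 ⟨i, hi⟩
    by_cases hdeg : p.natDegree ≤ n
    · exact ih p hdeg h0 ⟨i, hi⟩
    have hdeg' : p.natDegree = n + 1 := le_antisymm hp (by omega)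
    have hint : IsIntegral ℤ (p.leadingCoeff • x) :=
      isIntegral_trans _ (isIntegral_leadingCoeff_smul p x h0)
    let y : Zbar := ⟨p.leadingCoeff • x, hint⟩
    have hy : (y : Qb) = (p.leadingCoeff : Qb) * x := rfl
    by_cases ha : p.leadingCoeff ∈ primeOf A
    · -- the leading coefficient is in the prime: lower the degree
      have hyQ : y ∈ primeOf A := by
        rw [mem_primeOf, hy]
        exact nonunits_mul_mem A (mem_primeOf.mp ha) hx
      let q : Zbar[X] := p.eraseLead + C y * X ^ n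
      have hqdeg : q.natDegree ≤ n := by
        refine (natDegree_add_le _ _).trans (max_le ?_ (natDegree_C_mul_X_pow_le _ _))
        have := eraseLead_natDegree_le p
        omega
      have hq0 : aeval x q = 0 := by
        have h1 : aeval x p = aeval x p.eraseLead + (p.leadingCoeff : Qb) * x ^ (n + 1) := by
          conv_lhs => rw [← eraseLead_add_C_mul_X_pow p]
          rw [_root_.map_add, _root_.map_mul, aeval_C, _root_.map_pow, aeval_X, hdeg']
          rfl
        have h2 : aeval x q = aeval x p.eraseLead + (y : Qb) * x ^ n := by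
          simp only [q]
          rw [_root_.map_add, _root_.map_mul, aeval_C, _root_.map_pow, aeval_X]
          rfl
        rw [h2, hy]
        rw [h0] at h1
        rw [h1]
        ring
      have hi' : i ≠ n + 1 := by
        rintro rfl
        apply hi
        rw [← hdeg']
        exact ha
      have hqi : q.coeff i ∉ primeOf A := by
        have hc : q.coeff i = p.coeff i + (if i = n then y else 0) := by
          simp only [q]
          rw [coeff_add, eraseLead_coeff_of_ne i (by rw [hdeg']; exact hi'), coeff_C_mul_X_pow]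
        rw [hc]
        split_ifs with hin
        · intro h
          apply hi
          have := sub_mem h hyQ
          simpa using this
        · simpa using hi
      exact ih q hqdeg hq0 ⟨i, hqi⟩
    · exact ⟨y, p.leadingCoeff, ha, by rw [hy, mul_comm]⟩

/-- An integer prime to `ℓ` is a unit in a valuation subring above `ℓ`. -/
theorem intCast_not_mem_nonunits (A : ValuationSubring Qb) {ℓ : ℕ} (hℓ : ℓ.Prime)
    (hA : (ℓ : Qb) ∈ A.nonunits) {n : ℤ} (hn : ¬ (ℓ : ℤ) ∣ n) : (n : Qb) ∉ A.nonunits := by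
  intro hmem
  have hcop : IsCoprime (ℓ : ℤ) n := (Nat.prime_iff_prime_int.mp hℓ).coprime_iff_not_dvd.mpr hn
  obtain ⟨u, v, huv⟩ := hcop
  apply one_not_mem_nonunits A
  have h1 : ((u * (ℓ : ℤ) + v * n : ℤ) : Qb) = 1 := by
    rw [huv]
    simp
  rw [← h1]
  push_cast
  refine nonunits_add_mem A ?_ ?_
  · rw [mul_comm]
    exact nonunits_mul_mem A hA (intCast_mem A u)
  · rw [mul_comm]
    exact nonunits_mul_mem A hmem (intCast_mem A v)

/-- Every element of a valuation subring `A` of `ℚ̄` above `ℓ` is a fraction `b / s` of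
algebraic integers with `s` a unit of `A`. -/
theorem exists_fraction (A : ValuationSubring Qb) {ℓ : ℕ} (hℓ : ℓ.Prime)
    (hA : (ℓ : Qb) ∈ A.nonunits) {x : Qb} (hx : x ∈ A) :
    ∃ b s : Zbar, s ∉ primeOf A ∧ x * (s : Qb) = (b : Qb) := by
  obtain ⟨p, hp0, hp⟩ := Algebra.IsAlgebraic.isAlgebraic (R := ℤ) x
  have hprim := p.isPrimitive_primPart
  have hroot : aeval x p.primPart = 0 := aeval_primPart_eq_zero hp0 hp
  have hex : ∃ i, ¬ ((ℓ : ℤ) ∣ p.primPart.coeff i) := by
    by_contra hcon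
    push Not at hcon
    have := hprim (ℓ : ℤ) ((C_dvd_iff_dvd_coeff _ _).mpr hcon)
    exact (Nat.prime_iff_prime_int.mp hℓ).not_isUnit this
  obtain ⟨i, hi⟩ := hex
  refine exists_fraction_aux A hx _ (p.primPart.map (algebraMap ℤ Zbar)) le_rfl ?_ ⟨i, ?_⟩
  · rw [aeval_map_algebraMap]
    exact hroot
  · rw [coeff_map, mem_primeOf]
    intro hmem
    have hmem' : ((p.primPart.coeff i : ℤ) : Qb) ∈ A.nonunits := by
      simpa using hmem
    exact intCast_not_mem_nonunits A hℓ hA hi hmem'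

/-- A ring automorphism mapping units (among algebraic integers) of `A` to units of `A'`
maps `A` into `A'`. -/
theorem map_mem_of_forall (A A' : ValuationSubring Qb) {ℓ : ℕ} (hℓ : ℓ.Prime)
    (hA : (ℓ : Qb) ∈ A.nonunits) (τ : G)
    (hτ : ∀ s : Zbar, s ∉ primeOf A → τ • s ∉ primeOf A') {x : Qb} (hx : x ∈ A) :
    τ x ∈ A' := by
  obtain ⟨b, s, hs, hxs⟩ := exists_fraction A hℓ hA hx
  have hτs := hτ s hs
  rw [mem_primeOf, coe_smul_Zbar] at hτs
  obtain ⟨hne, hinv⟩ := inv_mem_of_not_mem_nonunits A' hτs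
  have h1 : τ x * τ (s : Qb) = τ (b : Qb) := by rw [← _root_.map_mul, hxs]
  have h2 : τ x = τ (b : Qb) * (τ (s : Qb))⁻¹ := by
    rw [← h1, mul_assoc, mul_inv_cancel₀ hne, mul_one]
  rw [h2]
  exact A'.mul_mem _ _ (coe_mem A' (τ • b)) hinv

/-- If `τ` maps the prime of `A'` onto the prime of `A`, it maps `A'` onto `A`. -/
theorem smul_eq_of_primeOf (A A' : ValuationSubring Qb) {ℓ : ℕ} (hℓ : ℓ.Prime)
    (hA : (ℓ : Qb) ∈ A.nonunits) (hA' : (ℓ : Qb) ∈ A'.nonunits) (τ : G)
    (hτ : ∀ s : Zbar, s ∈ primeOf A' ↔ τ • s ∈ primeOf A) : τ • A' = A := by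
  apply le_antisymm
  · intro x hx
    rw [ValuationSubring.mem_pointwise_smul_iff_inv_smul_mem] at hx
    have h5 := map_mem_of_forall A' A hℓ hA' τ (fun s hs h => hs ((hτ s).mpr h)) hx
    have h6 : τ (τ⁻¹ • x) = x := by
      show τ (τ⁻¹ x) = x
      exact τ.apply_symm_apply x
    rwa [h6] at h5
  · intro x hx
    rw [ValuationSubring.mem_pointwise_smul_iff_inv_smul_mem]
    refine map_mem_of_forall A A' hℓ hA τ⁻¹ (fun s hs h => hs ?_) hx
    have := (hτ (τ⁻¹ • s)).mp h
    rwa [smul_inv_smul] at this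

/-- Conversely a `τ` mapping `A'` onto `A` maps the prime of `A'` onto the prime of `A`. -/
theorem mem_primeOf_smul_iff {A A' : ValuationSubring Qb} {τ : G} (h : τ • A' = A) (s : Zbar) :
    s ∈ primeOf A' ↔ τ • s ∈ primeOf A := by
  rw [mem_primeOf, mem_primeOf, coe_smul_Zbar]
  have key : ∀ x : Qb, x ∈ A' ↔ τ x ∈ A := by
    intro x
    rw [← h, ValuationSubring.mem_pointwise_smul_iff_inv_smul_mem]
    have : τ⁻¹ • τ x = x := by
      show τ⁻¹ (τ x) = x
      exact τ.symm_apply_apply x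
    rw [this]
  rw [ValuationSubring.mem_nonunits_iff_or, ValuationSubring.mem_nonunits_iff_or, key,
    map_inv₀]
  simp

/-- A valuation subring of `ℚ̄` is either everything, or lies over a prime number. -/
theorem eq_top_or_liesOver (A : ValuationSubring Qb) :
    A = ⊤ ∨ ∃ ℓ : ℕ, ℓ.Prime ∧ (ℓ : Qb) ∈ A.nonunits := by
  by_cases h : ∃ ℓ : ℕ, ℓ.Prime ∧ (ℓ : Qb) ∈ A.nonunits
  · exact Or.inr h
  left
  push Not at h
  -- every nonzero natural number is a unit of `A`
  have hnat : ∀ n : ℕ, n ≠ 0 → ((n : Qb))⁻¹ ∈ A := by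
    intro n
    induction n using Nat.recOnMul with
    | zero => intro h0; exact absurd rfl h0
    | one => intro _; simp
    | prime ℓ hℓ =>
      intro _
      exact (inv_mem_of_not_mem_nonunits A (h ℓ hℓ)).2
    | mul a b iha ihb =>
      intro hab
      have ha : a ≠ 0 := left_ne_zero_of_mul hab
      have hb : b ≠ 0 := right_ne_zero_of_mul hab
      rw [Nat.cast_mul, mul_inv]
      exact A.mul_mem _ _ (iha ha) (ihb hb)
  have hrat : ∀ q : ℚ, (algebraMap ℚ Qb q) ∈ A := by
    intro q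
    have hq : algebraMap ℚ Qb q = (q.num : Qb) * ((q.den : Qb))⁻¹ := by
      conv_lhs => rw [← Rat.num_div_den q]
      rw [map_div₀, div_eq_mul_inv]
      simp
    rw [hq]
    exact A.mul_mem _ _ (intCast_mem A _) (hnat q.den q.den_nz)
  rw [eq_top_iff]
  intro x _
  -- `x` is integral over `ℚ ⊆ A`
  have hint : IsIntegral ℚ x := Algebra.IsIntegral.isIntegral x
  obtain ⟨P, hP, hroot⟩ := hint
  have h : IsIntegral A x := by
    refine ⟨P.map (RingHom.codRestrict (algebraMap ℚ Qb) A.toSubring hrat), hP.map _, ?_⟩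
    rw [eval₂_map]
    have : (A.subtype : A →+* Qb).comp (RingHom.codRestrict (algebraMap ℚ Qb) A.toSubring hrat) =
        algebraMap ℚ Qb := rfl
    have h2 : (algebraMap A Qb) = (A.subtype : A →+* Qb) := rfl
    rw [h2, this]
    exact hroot
  obtain ⟨y, hy⟩ := (IsIntegrallyClosed.isIntegral_iff (R := A) (K := Qb)).mp h
  rw [← hy]
  exact y.2

end Fermat.Agent.S14.H714

end
-- ===== PACK-END S14/H714/Val.lean

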