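import Mathlib
import Fermat.Prelude.Def_ModularCurve_HeckeModule
import Fermat.Prelude.Def_ModularCurve_X0ModL
import Mathlib.GroupTheory.Index
import Mathlib.SetTheory.Cardinal.NatCard
import Mathlib.SetTheory.Cardinal.Finite
import Fermat.Agent.Pack.S33.E1L0
import Fermat.Agent.Pack.S33.E0L2
import Fermat.Agent.Pack.S33.E1L2
import Fermat.Agent.Pack.S33.E0L3
import Fermat.Agent.Pack.S33.E0L1
import Fermat.Agent.Pack.S33.E0L0
import Fermat.Agent.Pack.S33.E2L1
import Fermat.Agent.Pack.S33.E2L2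

-- ===== PACK-BEGIN S24/H504/EmbPlace.lean
section



/-!
# The place of `F/K` attached to an embedding `F → C((z))`
-/

set_option autoImplicit false

namespace Fermat.Agent.S24.H504

open AlgebraicCurve

variable {K F : Type*} [Field K] [Field F] [Algebra K F]
variable {C : Type*} [Field C]

/-! ### Order calculus in `C((z))` -/

theorem ls_orderTop_eq_order {A : LaurentSeries C} (hA : A ≠ 0) :
    A.orderTop = (A.order : WithTop ℤ) :=
  (HahnSeries.order_eq_orderTop_of_ne_zero hA).symm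

theorem ls_orderTop_nonneg_iff (A : LaurentSeries C) : 0 ≤ A.orderTop ↔ 0 ≤ A.order := by
  rcases eq_or_ne A 0 with rfl | hA
  · simp
  · rw [ls_orderTop_eq_order hA]
    exact_mod_cast Iff.rfl

theorem ls_orderTop_pos_iff (A : LaurentSeries C) : 0 < A.orderTop ↔ A = 0 ∨ 0 < A.order := by
  rcases eq_or_ne A 0 with rfl | hA
  · simp
  · rw [ls_orderTop_eq_order hA]
    simp only [hA, false_or]
    exact_mod_cast Iff.rfl

theorem ls_orderTop_inv {A : LaurentSeries C} (hA : A ≠ 0) :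
    A⁻¹.orderTop = ((-A.order : ℤ) : WithTop ℤ) := by
  have h1 : A * A⁻¹ = 1 := mul_inv_cancel₀ hA
  have h2 := HahnSeries.order_mul hA (inv_ne_zero hA)
  rw [h1, HahnSeries.order_one] at h2
  rw [ls_orderTop_eq_order (inv_ne_zero hA)]
  congr 1
  omega

theorem ls_order_inv (A : LaurentSeries C) : A⁻¹.order = -A.order := by
  rcases eq_or_ne A 0 with rfl | hA
  · simp
  have h1 : A * A⁻¹ = 1 := mul_inv_cancel₀ hA
  have h2 := HahnSeries.order_mul hA (inv_ne_zero hA)
  rw [h1, HahnSeries.order_one] at h2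
  omega

theorem ls_order_zpow (A : LaurentSeries C) (n : ℤ) : (A ^ n).order = n * A.order := by
  rcases n with n | n
  · simp [HahnSeries.order_pow]
  · rw [zpow_negSucc, ls_order_inv, HahnSeries.order_pow]
    simp only [nsmul_eq_mul, Int.negSucc_eq]
    push_cast
    ring

/-! ### The valuation subring attached to an embedding -/

/-- The valuation subring `{f | 0 ≤ ord_z (σ f)}` of `F`. -/
def embSubring (σ : F →+* LaurentSeries C) : ValuationSubring F where
  carrier := {f | 0 ≤ (σ f).orderTop}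
  mul_mem' := by
    intro a b ha hb
    simp only [Set.mem_ofPred_eq, map_mul, HahnSeries.orderTop_mul] at *
    exact add_nonneg ha hb
  one_mem' := by simp
  add_mem' := by
    intro a b ha hb
    simp only [Set.mem_ofPred_eq, map_add] at *
    exact le_trans (le_min ha hb) HahnSeries.min_orderTop_le_orderTop_add
  zero_mem' := by simp
  neg_mem' := by
    intro a ha
    simpa [HahnSeries.orderTop_neg] using ha
  mem_or_inv_mem' := by
    intro a
    rcases eq_or_ne a 0 with rfl | ha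
    · left; simp
    have hσa : σ a ≠ 0 := (map_ne_zero σ).mpr ha
    simp only [Set.mem_ofPred_eq, map_inv₀]
    rw [ls_orderTop_inv hσa, ls_orderTop_eq_order hσa]
    rcases le_total 0 (σ a).order with h | h
    · left; exact_mod_cast h
    · right
      have : (0 : ℤ) ≤ -(σ a).order := by omega
      exact_mod_cast this

theorem mem_embSubring (σ : F →+* LaurentSeries C) (f : F) :
    f ∈ embSubring σ ↔ 0 ≤ (σ f).orderTop := Iff.rfl

theorem mem_embSubring' (σ : F →+* LaurentSeries C) (f : F) :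
    f ∈ embSubring σ ↔ 0 ≤ (σ f).order := by
  rw [mem_embSubring, ls_orderTop_nonneg_iff]

theorem isPrincipalIdealRing_embSubring (σ : F →+* LaurentSeries C) :
    IsPrincipalIdealRing (embSubring σ) := by
  classical
  refine ⟨fun I => ?_⟩
  by_cases hI : I = ⊥
  · rw [hI]; exact bot_isPrincipal
  -- pick a nonzero element of minimal order
  have hex : ∃ n : ℕ, ∃ a ∈ I, a ≠ 0 ∧ (σ (a : F)).order = n := by
    obtain ⟨a, haI, ha0⟩ := Submodule.exists_mem_ne_zero_of_ne_bot hI
    have hnn : 0 ≤ (σ (a : F)).order := (mem_embSubring' σ _).mp a.2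
    exact ⟨(σ (a : F)).order.toNat, a, haI, ha0, (Int.toNat_of_nonneg hnn).symm⟩
  obtain ⟨a, haI, ha0, han⟩ := Nat.find_spec hex
  refine ⟨⟨a, ?_⟩⟩
  apply le_antisymm
  · intro b hb
    rw [Submodule.mem_span_singleton]
    rcases eq_or_ne b 0 with rfl | hb0
    · exact ⟨0, by simp⟩
    have haF : (a : F) ≠ 0 := by simpa using ha0
    have hbF : (b : F) ≠ 0 := by simpa using hb0
    have hbnn : 0 ≤ (σ (b : F)).order := (mem_embSubring' σ _).mp b.2
    have hmin : Nat.find hex ≤ (σ (b : F)).order.toNat :=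
      Nat.find_min' hex ⟨b, hb, hb0, (Int.toNat_of_nonneg hbnn).symm⟩
    have hle : (σ (a : F)).order ≤ (σ (b : F)).order := by
      rw [han]
      have : ((Nat.find hex : ℕ) : ℤ) ≤ ((σ (b : F)).order.toNat : ℤ) := by exact_mod_cast hmin
      rwa [Int.toNat_of_nonneg hbnn] at this
    have hq : (b : F) / (a : F) ∈ embSubring σ := by
      rw [mem_embSubring', map_div₀, div_eq_mul_inv,
        HahnSeries.order_mul ((map_ne_zero σ).mpr hbF) (inv_ne_zero ((map_ne_zero σ).mpr haF)),
        ls_order_inv]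
      omega
    refine ⟨⟨_, hq⟩, ?_⟩
    ext
    simp only [smul_eq_mul, MulMemClass.coe_mul]
    field_simp
  · rw [Submodule.span_le]
    simpa using haI

/-- The place of `F/K` attached to an embedding `σ : F → C((z))` which is integral on `K` and
has some element of nonzero order. -/
def placeOfEmb (σ : F →+* LaurentSeries C)
    (hK : ∀ c : K, 0 ≤ (σ (algebraMap K F c)).order)
    (ht : ∃ t : F, (σ t).order ≠ 0) : Place K F where
  toValuationSubring := embSubring σ
  algebraMap_mem' := fun c => (mem_embSubring' σ _).mpr (hK c)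
  ne_top' := by
    obtain ⟨t, ht⟩ := ht
    intro htop
    have h1 : t ∈ embSubring σ := htop ▸ ValuationSubring.mem_top t
    have h2 : t⁻¹ ∈ embSubring σ := htop ▸ ValuationSubring.mem_top t⁻¹
    rw [mem_embSubring'] at h1 h2
    rw [map_inv₀, ls_order_inv] at h2
    omega
  isPrincipalIdealRing' := isPrincipalIdealRing_embSubring σ

@[simp]
theorem placeOfEmb_toValuationSubring (σ : F →+* LaurentSeries C)
    (hK : ∀ c : K, 0 ≤ (σ (algebraMap K F c)).order)
    (ht : ∃ t : F, (σ t).order ≠ 0) :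
    (placeOfEmb σ hK ht).toValuationSubring = embSubring σ := rfl

/-! ### Proportionality of orders -/

/-- `σ` induces the place `v`: the valuation ring of `v` is the pullback of `C[[z]]`. -/
def Induces (σ : F →+* LaurentSeries C) (v : Place K F) : Prop :=
  ∀ f : F, f ∈ v.toValuationSubring ↔ 0 ≤ (σ f).order

theorem induces_placeOfEmb (σ : F →+* LaurentSeries C)
    (hK : ∀ c : K, 0 ≤ (σ (algebraMap K F c)).order)
    (ht : ∃ t : F, (σ t).order ≠ 0) : Induces σ (placeOfEmb σ hK ht) :=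
  fun f => mem_embSubring' σ f

theorem Induces.eq_placeOfEmb {σ : F →+* LaurentSeries C} {v : Place K F} (h : Induces σ v)
    (hK : ∀ c : K, 0 ≤ (σ (algebraMap K F c)).order)
    (ht : ∃ t : F, (σ t).order ≠ 0) : v = placeOfEmb σ hK ht := by
  apply Place.ext
  ext f
  rw [placeOfEmb_toValuationSubring, mem_embSubring', h f]

theorem Induces.unique {σ : F →+* LaurentSeries C} {v w : Place K F} (h : Induces σ v)
    (h' : Induces σ w) : v = w := by
  apply Place.ext
  ext f
  rw [h f, h' f]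

theorem Induces.order_nonneg_iff {σ : F →+* LaurentSeries C} {v : Place K F} (h : Induces σ v)
    (f : F) : 0 ≤ (σ f).order ↔ 0 ≤ v.ord f := by
  rw [← h f, mem_iff_ord_nonneg']

theorem Induces.order_eq_zero_iff {σ : F →+* LaurentSeries C} {v : Place K F} (h : Induces σ v)
    (f : F) : (σ f).order = 0 ↔ v.ord f = 0 := by
  have h1 := h.order_nonneg_iff f
  have h2 := h.order_nonneg_iff f⁻¹
  rw [map_inv₀, ls_order_inv, Place.ord_inv] at h2
  constructor <;> intro h0 <;> omega

/-- The multiplicity of an embedding inducing `v`: the `z`-order of a uniformizer. -/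
theorem Induces.exists_mult {σ : F →+* LaurentSeries C} {v : Place K F} (h : Induces σ v) :
    ∃ μ : ℕ, 0 < μ ∧ ∀ f : F, (σ f).order = μ * v.ord f := by
  obtain ⟨π, hπ⟩ := IsDiscreteValuationRing.exists_irreducible v.toValuationSubring
  have hπ1 : v.ord (π : F) = 1 := v.ord_coe_irreducible hπ
  have hpos : 0 < (σ (π : F)).order := by
    have h1 := (h.order_nonneg_iff (π : F)).mpr (by omega)
    have h2 := (h.order_eq_zero_iff (π : F)).not.mpr (by omega)
    omega
  refine ⟨(σ (π : F)).order.toNat, by omega, fun f => ?_⟩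
  rcases eq_or_ne f 0 with rfl | hf
  · simp
  obtain ⟨u, hu⟩ := v.exists_unit_mul_zpow hf hπ
  have hu0 : ((u : v.toValuationSubring) : F) ≠ 0 := by simp
  have hπ0 : (π : F) ≠ 0 := by
    intro h0; rw [h0] at hπ1; simp at hπ1
  have huo : (σ ((u : v.toValuationSubring) : F)).order = 0 :=
    (h.order_eq_zero_iff _).mpr (v.ord_coe_unit u)
  conv_lhs => rw [hu]
  rw [map_mul, map_zpow₀,
    HahnSeries.order_mul ((map_ne_zero σ).mpr hu0) (zpow_ne_zero _ ((map_ne_zero σ).mpr hπ0)),
    huo, ls_order_zpow, Int.toNat_of_nonneg hpos.le]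
  ring

end Fermat.Agent.S24.H504

end
-- ===== PACK-END S24/H504/EmbPlace.lean

-- ===== PACK-BEGIN S29/M/Defs.lean
section
/-
S29 row, LAYER M (the torsion module) -- interface definitions (deputy helper30).
Namespace `Fermat.Agent.S29.M`.  Frozen once adopted by the row-lead (helper269).
-/




set_option autoImplicit false

noncomputable section

namespace Fermat.Agent.S29.M

open ModularCurve AlgebraicCurve CongruenceSubgroup
open scoped TensorProduct MatrixGroups

/-! ## External input: the Eichler-Shimura relation on `JZero N` (rows S37 / S18) -/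

/-- What layer M consumes from rows S37/S18: for every prime `ℓ ∤ N p` and every place `A` over `ℓ`,
inertia at `A` acts trivially on the `p`-power torsion of `JZero N`, and every Frobenius element at
`A` satisfies `σ² - T_ℓ σ + ℓ = 0` there, `T_ℓ` the Prelude operator `heckeOperatorBar N ℓ`.
(No commutativity of the Hecke operators and no `HeckeAlg`-module structure is involved.) -/
def ESStatement : Prop :=
  ∀ (N p : ℕ) [NeZero N] (ℓ : ℕ) (hℓ : ℓ.Prime), ¬ ℓ ∣ N * p →
    ∀ A : VQ, A.LiesOverPrime ℓ →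
      (∀ τ ∈ A.inertiaSubgroupIn ℚ, ∀ x : JZero N, (∃ n : ℕ, p ^ n • x = 0) → τ • x = x) ∧
      (∀ σ : GQ, A.IsFrobeniusAt σ ℓ → ∀ x : JZero N, (∃ n : ℕ, p ^ n • x = 0) →
        σ • σ • x - heckeOperatorBar N ⟨ℓ, hℓ⟩ (σ • x) + ℓ • x = 0)

/-- The "reduction map" form in which row S37 proves its statement (route R1 of
`origin/helper37:coord/S37-route.md`); it implies `ESStatement` formally (`esStatement_of_red`). -/
def RedStatement : Prop :=
  ∀ (N p : ℕ) [NeZero N] (ℓ : ℕ) (hℓ : ℓ.Prime), ¬ ℓ ∣ N * p →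
    ∀ A : VQ, A.LiesOverPrime ℓ →
      ∃ (Y : Type) (_ : AddCommGroup Y) (red : JZero N →+ Y),
        (∀ τ ∈ A.inertiaSubgroupIn ℚ, ∀ x : JZero N, red (τ • x) = red x) ∧
        (∀ x : JZero N, (∃ n : ℕ, p ^ n • x = 0) → red x = 0 → x = 0) ∧
        (∀ σ : GQ, A.IsFrobeniusAt σ ℓ → ∀ x : JZero N,
          red (σ • σ • x - heckeOperatorBar N ⟨ℓ, hℓ⟩ (σ • x) + ℓ • x) = 0)

/-! ## The `p`-torsion of `JZero N` as a `ZMod p`-module with Hecke and Galois operators -/

/-- `J₀(N)[p]`, the `p`-torsion subgroup of the Prelude `JZero N`. -/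
abbrev Vp (N p : ℕ) : Type :=
  ↥(Pic0.torsion (AlgebraicClosure ℚ) (modularFunctionFieldBar N) p)

/-- The Prelude Hecke operator `T_ℓ` preserves `p`-torsion. -/
theorem heckeOperatorBar_mem_torsion (N p : ℕ) [NeZero N] (ℓ : Nat.Primes) {x : JZero N}
    (hx : x ∈ Pic0.torsion (AlgebraicClosure ℚ) (modularFunctionFieldBar N) p) :
    heckeOperatorBar N ℓ x ∈ Pic0.torsion (AlgebraicClosure ℚ) (modularFunctionFieldBar N) p := by
  rw [Pic0.mem_torsion] at hx ⊢
  rw [← map_zsmul, hx, map_zero]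

/-- `T_ℓ` on `J₀(N)[p]`, as an additive map. -/
def heckeTorsAdd (N p : ℕ) [NeZero N] (ℓ : Nat.Primes) : Vp N p →+ Vp N p where
  toFun x := ⟨heckeOperatorBar N ℓ (x : JZero N), heckeOperatorBar_mem_torsion N p ℓ x.2⟩
  map_zero' := Subtype.ext (map_zero (heckeOperatorBar N ℓ))
  map_add' x y := Subtype.ext (map_add (heckeOperatorBar N ℓ) (x : JZero N) (y : JZero N))

/-- `T_ℓ` on `J₀(N)[p]`, as a `ZMod p`-linear map. -/
def heckeTors (N p : ℕ) [NeZero N] (ℓ : Nat.Primes) : Vp N p →ₗ[ZMod p] Vp N p :=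
  (heckeTorsAdd N p ℓ).toZModLinearMap p

@[simp] theorem coe_heckeTors_apply (N p : ℕ) [NeZero N] (ℓ : Nat.Primes) (x : Vp N p) :
    ((heckeTors N p ℓ x : Vp N p) : JZero N) = heckeOperatorBar N ℓ (x : JZero N) := rfl

/-- The Galois action on `J₀(N)[p]` (Prelude `JZero.torsionGaloisRep`). -/
abbrev galTors (N p : ℕ) : GQ →* Module.End (ZMod p) (Vp N p) :=
  JZero.torsionGaloisRep N p

/-! ## The topological side: homomorphisms `Γ₀(N) → ℤ/p` and their Hecke operators -/

/-- Homomorphisms `Γ₀(N) → ℤ/p` vanishing on parabolic elements (`tr² = 4`, this includes `-1`)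
and on elements of finite order. -/
def peHoms (N p : ℕ) : Submodule (ZMod p) (Additive (Gamma0 N) →+ ZMod p) where
  carrier := {χ | (∀ γ : Gamma0 N,
      ((γ : SL(2, ℤ)) : Matrix (Fin 2) (Fin 2) ℤ).trace ^ 2 = 4 → χ (Additive.ofMul γ) = 0) ∧
    (∀ γ : Gamma0 N, IsOfFinOrder γ → χ (Additive.ofMul γ) = 0)}
  zero_mem' := ⟨fun _ _ => rfl, fun _ _ => rfl⟩
  add_mem' := by
    rintro χ χ' ⟨h1, h2⟩ ⟨h1', h2'⟩
    refine ⟨fun γ hγ => ?_, fun γ hγ => ?_⟩
    · show χ (Additive.ofMul γ) + χ' (Additive.ofMul γ) = 0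
      rw [h1 γ hγ, h1' γ hγ, add_zero]
    · show χ (Additive.ofMul γ) + χ' (Additive.ofMul γ) = 0
      rw [h2 γ hγ, h2' γ hγ, add_zero]
  smul_mem' := by
    rintro c χ ⟨h1, h2⟩
    refine ⟨fun γ hγ => ?_, fun γ hγ => ?_⟩
    · show c • χ (Additive.ofMul γ) = 0
      rw [h1 γ hγ, _root_.smul_zero]
    · show c • χ (Additive.ofMul γ) = 0
      rw [h2 γ hγ, _root_.smul_zero]

/-- The standard representatives of `Γ₀(N) \ Γ₀(N) diag(1,ℓ) Γ₀(N)` (`ℓ ∤ N`):
`(1 b; 0 ℓ)` for `b < ℓ` and `(ℓ 0; 0 1)` for the last index. -/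
def heckeRep (ℓ : ℕ) (i : Fin (ℓ + 1)) : Matrix (Fin 2) (Fin 2) ℤ :=
  if (i : ℕ) < ℓ then !![1, (i : ℕ); 0, ℓ] else !![ℓ, 0; 0, 1]

/-- `χ' = T_ℓ χ` on `Hom(Γ₀(N), A)`: the transfer formula `χ'(γ) = ∑ᵢ χ(δᵢ)` whenever
`αᵢ γ = δᵢ α_{π i}` for the standard representatives `αᵢ = heckeRep ℓ i`. -/
def IsHeckeImage (N ℓ : ℕ) {A : Type*} [AddCommGroup A] (χ χ' : Additive (Gamma0 N) →+ A) : Prop :=
  ∀ (γ : Gamma0 N) (π : Fin (ℓ + 1) → Fin (ℓ + 1)) (δ : Fin (ℓ + 1) → Gamma0 N),
    (∀ i, _root_.Fermat.Agent.S29.M.heckeRep ℓ i * ((γ : SL(2, ℤ)) : Matrix (Fin 2) (Fin 2) ℤ)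
        = ((δ i : SL(2, ℤ)) : Matrix (Fin 2) (Fin 2) ℤ) * _root_.Fermat.Agent.S29.M.heckeRep ℓ (π i)) →
      χ' (Additive.ofMul γ) = ∑ i, χ (Additive.ofMul (δ i))

end Fermat.Agent.S29.M

end

end
-- ===== PACK-END S29/M/Defs.lean

-- ===== PACK-BEGIN S28/H88/Theta.lean
section
/-
S28 (Igusa) -- helper88: the derivation `θ = q d/dq` on formal Laurent series
(toolkit for the prime-level step [L2]: `j(q^p) ∉ k(j)`).
-/


set_option autoImplicit false

noncomputable section

open ModularCurve HahnSeries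

namespace Fermat.Agent.S28

section ThetaBasic

variable {R : Type*} [CommRing R]

theorem h88_thetaL_add (f g : LaurentSeries R) :
    thetaL R (f + g) = thetaL R f + thetaL R g := by
  ext n; simp [mul_add]

theorem h88_thetaL_zero : thetaL R (0 : LaurentSeries R) = 0 := by
  ext n; simp

theorem h88_thetaL_neg (f : LaurentSeries R) : thetaL R (-f) = - thetaL R f := by
  ext n; simp

theorem h88_thetaL_sub (f g : LaurentSeries R) :
    thetaL R (f - g) = thetaL R f - thetaL R g := by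
  ext n; simp [mul_sub]

theorem h88_thetaL_support_subset (f : LaurentSeries R) :
    (thetaL R f).support ⊆ f.support := by
  intro n hn
  simp only [HahnSeries.mem_support, thetaL_coeff, ne_eq] at hn ⊢
  intro h; exact hn (by rw [h, mul_zero])

/-- Leibniz rule. -/
theorem h88_thetaL_mul (f g : LaurentSeries R) :
    thetaL R (f * g) = thetaL R f * g + f * thetaL R g := by
  ext n
  rw [HahnSeries.coeff_add, thetaL_coeff, HahnSeries.coeff_mul,
    HahnSeries.coeff_mul_left' f.isPWO_support (h88_thetaL_support_subset f),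
    HahnSeries.coeff_mul_right' g.isPWO_support (h88_thetaL_support_subset g),
    Finset.mul_sum, ← Finset.sum_add_distrib]
  refine Finset.sum_congr rfl fun ij hij => ?_
  rw [Finset.mem_antidiagonal] at hij
  obtain ⟨-, -, h⟩ := hij
  simp only [thetaL_coeff]
  rw [← h]; push_cast; ring

theorem h88_thetaL_single_zero (c : R) : thetaL R (HahnSeries.single (0 : ℤ) c) = 0 := by
  ext n
  rw [thetaL_coeff, HahnSeries.coeff_zero]
  rcases eq_or_ne n 0 with rfl | hn
  · simp
  · rw [HahnSeries.coeff_single_of_ne hn, mul_zero]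

theorem h88_thetaL_C (c : R) : thetaL R (HahnSeries.C c : LaurentSeries R) = 0 :=
  h88_thetaL_single_zero c

theorem h88_thetaL_one : thetaL R (1 : LaurentSeries R) = 0 :=
  h88_thetaL_single_zero 1

theorem h88_thetaL_pow (f : LaurentSeries R) (n : ℕ) :
    thetaL R (f ^ (n + 1)) = ((n + 1 : ℕ) : LaurentSeries R) * f ^ n * thetaL R f := by
  induction n with
  | zero => simp
  | succ n ih =>
    rw [pow_succ, h88_thetaL_mul, ih]
    push_cast
    ring

/-- `θ` commutes with `q ↦ q^p` up to the factor `p`. -/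
theorem h88_thetaL_qExpand (p : ℕ) [NeZero p] (f : LaurentSeries R) :
    thetaL R (qExpand R p f) = (p : LaurentSeries R) * qExpand R p (thetaL R f) := by
  rw [← nsmul_eq_mul]
  ext n
  rw [thetaL_coeff, HahnSeries.coeff_smul]
  by_cases hn : (p : ℤ) ∣ n
  · obtain ⟨m, rfl⟩ := hn
    rw [qExpand_coeff_mul, qExpand_coeff_mul, thetaL_coeff, nsmul_eq_mul]
    push_cast; ring
  · rw [qExpand_coeff_of_not_dvd p _ hn, qExpand_coeff_of_not_dvd p _ hn, mul_zero, smul_zero]

end ThetaBasic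

section CoeffMapCompat

variable {R S : Type*} [CommRing R] [CommRing S]

theorem h88_coeffMap_thetaL (f : R →+* S) (x : LaurentSeries R) :
    coeffMap f (thetaL R x) = thetaL S (coeffMap f x) := by
  ext n
  simp [coeffMap_coeff]

theorem h88_map_map_intCast (f : R →+* S) (P : PowerSeries ℤ) :
    (P.map (Int.castRingHom R)).map f = P.map (Int.castRingHom S) := by
  rw [← RingHom.comp_apply (PowerSeries.map f) (PowerSeries.map (Int.castRingHom R)),
    ← PowerSeries.map_comp, RingHom.ext_int (f.comp (Int.castRingHom R)) (Int.castRingHom S)]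

theorem h88_coeffMap_deltaL (f : R →+* S) : coeffMap f (deltaL R) = deltaL S := by
  rw [deltaL, _root_.map_mul, coeffMap_single, _root_.map_one, coeffMap_ofPowerSeries, h88_map_map_intCast]
  rfl

theorem h88_coeffMap_deltaInvL (f : R →+* S) : coeffMap f (deltaInvL R) = deltaInvL S := by
  rw [deltaInvL, _root_.map_mul, coeffMap_single, _root_.map_one, coeffMap_ofPowerSeries, h88_map_map_intCast]
  rfl

theorem h88_coeffMap_unitL (f : R →+* S) (p : ℕ) [NeZero p] :
    coeffMap f (unitL R p) = unitL S p := by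
  rw [unitL, _root_.map_mul, coeffMap_qExpand, h88_coeffMap_deltaL, h88_coeffMap_deltaInvL]
  rfl

variable (R) in
theorem h88_deltaL_mul_deltaInvL : deltaL R * deltaInvL R = 1 := by
  rw [deltaL, deltaInvL, mul_mul_mul_comm, HahnSeries.single_mul_single, ← _root_.map_mul,
    ← _root_.map_mul, dedekindEtaUnit_mul_inv]
  simp

end CoeffMapCompat

end Fermat.Agent.S28

end

end
-- ===== PACK-END S28/H88/Theta.lean

-- ===== PACK-BEGIN S28/H626/RootList.lean
section
/-
S28 helper (helper626): the family `j(ξ tⁿ)` and the root list of the modular polynomial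
`Φ_p(j(η t^{np}), X)`.
-/




set_option autoImplicit false

noncomputable section

open ModularCurve HahnSeries Polynomial

namespace Fermat.Agent.S28.H626

/-! ### Two-variable evaluation -/

section Ev2

variable {A B : Type*} [CommRing A] [CommRing B]

/-- Evaluation of `Φ ∈ ℤ[Y][X]` at `Y = y`, `X = x`. -/
def ev2 (Φ : Polynomial (Polynomial ℤ)) (y x : A) : A :=
  Φ.eval₂ (Polynomial.aeval (R := ℤ) y).toRingHom x

/-- The one-variable polynomial `Φ(y, X)`. -/
def spec (Φ : Polynomial (Polynomial ℤ)) (y : A) : Polynomial A :=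
  Φ.map (Polynomial.aeval (R := ℤ) y).toRingHom

theorem eval_spec (Φ : Polynomial (Polynomial ℤ)) (y x : A) :
    (spec Φ y).eval x = ev2 Φ y x := by
  rw [spec, ev2, Polynomial.eval_map]

theorem comp_aeval_toRingHom (φ : A →+* B) (y : A) :
    φ.comp (Polynomial.aeval (R := ℤ) y).toRingHom =
      (Polynomial.aeval (R := ℤ) (φ y)).toRingHom := by
  apply Polynomial.ringHom_ext
  · intro a
    simp
  · simp

theorem map_ev2 (φ : A →+* B) (Φ : Polynomial (Polynomial ℤ)) (y x : A) :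
    φ (ev2 Φ y x) = ev2 Φ (φ y) (φ x) := by
  rw [ev2, ev2, Polynomial.hom_eval₂, comp_aeval_toRingHom]

theorem map_spec (φ : A →+* B) (Φ : Polynomial (Polynomial ℤ)) (y : A) :
    (spec Φ y).map φ = spec Φ (φ y) := by
  rw [spec, spec, Polynomial.map_map, comp_aeval_toRingHom]

theorem spec_monic {Φ : Polynomial (Polynomial ℤ)} (h : Φ.Monic) (y : A) : (spec Φ y).Monic :=
  h.map _

theorem spec_natDegree [Nontrivial A] {Φ : Polynomial (Polynomial ℤ)} (h : Φ.Monic) (y : A) :
    (spec Φ y).natDegree = Φ.natDegree :=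
  h.natDegree_map _

end Ev2

/-- The (explicit-hypothesis form of the) prime-level analytic input: `Φ ∈ ℤ[Y][X]` is monic of
degree `p + 1` in `X` and `Φ(j, j_p) = 0`, `Φ(j_p, j) = 0` in `ℤ((q))`. -/
structure IsModPoly (p : ℕ) [NeZero p] (Φ : Polynomial (Polynomial ℤ)) : Prop where
  monic : Φ.Monic
  natDegree_eq : Φ.natDegree = p + 1
  eval_jp : ev2 Φ (jqModC ℤ) (qExpand ℤ p (jqModC ℤ)) = 0
  eval_j : ev2 Φ (qExpand ℤ p (jqModC ℤ)) (jqModC ℤ) = 0

/-! ### The family `j(ξ tⁿ)` -/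

section JTw

variable (Ω : Type*) [CommRing Ω]

/-- `j(ξ tⁿ)` as a Laurent series in `t`. -/
def jTw (ξ : Ωˣ) (n : ℕ) [NeZero n] : LaurentSeries Ω :=
  qExpand Ω n (twist ξ (jqModC Ω))

theorem jTw_one (n : ℕ) [NeZero n] : jTw Ω 1 n = qExpand Ω n (jqModC Ω) := by
  rw [jTw, twist_one_apply]

theorem jTw_coeff_neg (ξ : Ωˣ) (n : ℕ) [NeZero n] :
    (jTw Ω ξ n).coeff (-(n : ℤ)) = ((ξ⁻¹ : Ωˣ) : Ω) := by
  have h : (-(n : ℤ)) = (n : ℤ) * (-1) := by ring
  rw [jTw, h, qExpand_coeff_mul, twist_coeff, coeff_jqModC_neg_one, mul_one, zpow_neg_one]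

theorem jTw_coeff_of_lt (ξ : Ωˣ) (n : ℕ) [NeZero n] {k : ℤ} (hk : k < -(n : ℤ)) :
    (jTw Ω ξ n).coeff k = 0 := by
  by_cases hn : (n : ℤ) ∣ k
  · obtain ⟨m, rfl⟩ := hn
    have hn0 : (0 : ℤ) < n := by exact_mod_cast Nat.pos_of_ne_zero (NeZero.ne n)
    have hm : m < -1 := by
      by_contra hm
      have hm' := not_lt.mp hm
      nlinarith
    rw [jTw, qExpand_coeff_mul, twist_coeff, coeff_jqModC_of_lt Ω hm, mul_zero]
  · rw [jTw, qExpand_coeff_of_not_dvd _ _ hn]

variable {Ω}

theorem jTw_inj [Nontrivial Ω] {ξ ξ' : Ωˣ} {n n' : ℕ} [NeZero n] [NeZero n']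
    (h : jTw Ω ξ n = jTw Ω ξ' n') : n = n' ∧ ξ = ξ' := by
  have key : ∀ (ξ ξ' : Ωˣ) (n n' : ℕ) [NeZero n] [NeZero n'],
      jTw Ω ξ n = jTw Ω ξ' n' → ¬ n < n' := by
    intro ξ ξ' n n' _ _ h hlt
    have h1 := jTw_coeff_neg Ω ξ' n'
    rw [← h, jTw_coeff_of_lt Ω ξ n (by exact_mod_cast (neg_lt_neg (Nat.cast_lt.mpr hlt) :
      (-(n' : ℤ)) < -(n : ℤ)))] at h1
    exact (Units.ne_zero _) h1.symm
  have hn : n = n' := le_antisymm (not_lt.mp (key ξ' ξ n' n h.symm)) (not_lt.mp (key ξ ξ' n n' h))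
  subst hn
  refine ⟨rfl, ?_⟩
  have h1 := jTw_coeff_neg Ω ξ n
  rw [h, jTw_coeff_neg] at h1
  exact inv_injective (Units.ext h1).symm

theorem jTw_ne_of_ne [Nontrivial Ω] {ξ ξ' : Ωˣ} {n n' : ℕ} [NeZero n] [NeZero n']
    (h : n ≠ n') : jTw Ω ξ n ≠ jTw Ω ξ' n' := fun he => h (jTw_inj he).1

end JTw

/-! ### Root relations -/

section Roots

variable (Ω : Type*) [CommRing Ω]

/-- the ring hom `ℤ((q)) → Ω((t))`, `q ↦ ξ tⁿ`. -/
def substHom (ξ : Ωˣ) (n : ℕ) [NeZero n] : LaurentSeries ℤ →+* LaurentSeries Ω :=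
  (qExpand Ω n).comp ((twist ξ).comp (coeffMap (Int.castRingHom Ω)))

theorem substHom_j (ξ : Ωˣ) (n : ℕ) [NeZero n] :
    substHom Ω ξ n (jqModC ℤ) = jTw Ω ξ n := by
  simp only [substHom, RingHom.comp_apply, coeffMap_jqModC, jTw]

theorem substHom_jp (ξ : Ωˣ) (n : ℕ) [NeZero n] (p : ℕ) [NeZero p] :
    substHom Ω ξ n (qExpand ℤ p (jqModC ℤ)) = jTw Ω (ξ ^ p) (n * p) := by
  simp only [substHom, RingHom.comp_apply, coeffMap_qExpand, coeffMap_jqModC, jTw,
    twist_qExpand, qExpand_qExpand]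

variable {Ω}

theorem ev2_jTw_root {p : ℕ} [NeZero p] {Φ : Polynomial (Polynomial ℤ)} (hΦ : IsModPoly p Φ)
    (ξ : Ωˣ) (n : ℕ) [NeZero n] :
    ev2 Φ (jTw Ω (ξ ^ p) (n * p)) (jTw Ω ξ n) = 0 := by
  have h := congrArg (substHom Ω ξ n) hΦ.eval_j
  rwa [map_ev2, substHom_j, substHom_jp, _root_.map_zero] at h

theorem ev2_jTw_root' {p : ℕ} [NeZero p] {Φ : Polynomial (Polynomial ℤ)} (hΦ : IsModPoly p Φ)
    (ξ : Ωˣ) (n : ℕ) [NeZero n] :
    ev2 Φ (jTw Ω ξ n) (jTw Ω (ξ ^ p) (n * p)) = 0 := by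
  have h := congrArg (substHom Ω ξ n) hΦ.eval_jp
  rwa [map_ev2, substHom_j, substHom_jp, _root_.map_zero] at h

theorem jTw_congr (ξ : Ωˣ) {n n' : ℕ} [NeZero n] [NeZero n'] (h : n = n') :
    jTw Ω ξ n = jTw Ω ξ n' := by
  subst h; rfl

end Roots

/-! ### The root list -/

section RootList

variable {Ω : Type*} [Field Ω]

/-- The multiset of roots of `Φ_p(j(t^{np}), X)`. -/
def rootMultiset (p : ℕ) (ζ : Ωˣ) (n : ℕ) [NeZero n] [NeZero p] : Multiset (LaurentSeries Ω) :=
  jTw Ω 1 (n * p * p) ::ₘ (Multiset.range p).map (fun b => jTw Ω (ζ ^ b) n)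

theorem rootMultiset_nodup {p : ℕ} [NeZero p] (hp : 1 < p) {ζ : Ωˣ} (hζ : IsPrimitiveRoot ζ p)
    (n : ℕ) [NeZero n] : (rootMultiset p ζ n).Nodup := by
  rw [rootMultiset, Multiset.nodup_cons]
  constructor
  · intro h
    rw [Multiset.mem_map] at h
    obtain ⟨b, -, hb⟩ := h
    have h1 : n = n * p * p := (jTw_inj hb).1
    have hn : 0 < n := Nat.pos_of_ne_zero (NeZero.ne n)
    have : n * 1 < n * (p * p) := by
      apply Nat.mul_lt_mul_of_pos_left _ hn
      nlinarith
    rw [mul_one, ← mul_assoc] at this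
    omega
  · refine Multiset.Nodup.map_on ?_ (Multiset.nodup_range p)
    intro a ha b hb hab
    rw [Multiset.mem_range] at ha hb
    exact hζ.pow_inj ha hb (jTw_inj hab).2

theorem rootMultiset_card (p : ℕ) [NeZero p] (ζ : Ωˣ) (n : ℕ) [NeZero n] :
    Multiset.card (rootMultiset p ζ n) = p + 1 := by
  simp [rootMultiset]

theorem mem_rootMultiset {p : ℕ} [NeZero p] {ζ : Ωˣ} {n : ℕ} [NeZero n] {β : LaurentSeries Ω} :
    β ∈ rootMultiset p ζ n ↔ β = jTw Ω 1 (n * p * p) ∨ ∃ b < p, β = jTw Ω (ζ ^ b) n := by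
  rw [rootMultiset, Multiset.mem_cons, Multiset.mem_map]
  refine or_congr Iff.rfl ⟨?_, ?_⟩
  · rintro ⟨b, hb, rfl⟩
    exact ⟨b, Multiset.mem_range.mp hb, rfl⟩
  · rintro ⟨b, hb, rfl⟩
    exact ⟨b, Multiset.mem_range.mpr hb, rfl⟩

/-- **Root list.** `Φ_p(j(t^{np}), X) = (X - j(t^{np²})) ∏_{b<p} (X - j(ζ^b tⁿ))`. -/
theorem roots_spec {p : ℕ} [NeZero p] (hp : 1 < p) {Φ : Polynomial (Polynomial ℤ)}
    (hΦ : IsModPoly p Φ) {ζ : Ωˣ} (hζ : IsPrimitiveRoot ζ p) (n : ℕ) [NeZero n] :
    (spec Φ (jTw Ω 1 (n * p))).roots = rootMultiset p ζ n := by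
  have hmonic : (spec Φ (jTw Ω 1 (n * p))).Monic := spec_monic hΦ.monic _
  have hdeg : (spec Φ (jTw Ω 1 (n * p))).natDegree = p + 1 := by
    rw [spec_natDegree hΦ.monic, hΦ.natDegree_eq]
  have hle : rootMultiset p ζ n ≤ (spec Φ (jTw Ω 1 (n * p))).roots := by
    rw [Multiset.le_iff_subset (rootMultiset_nodup hp hζ n)]
    intro β hβ
    rw [Polynomial.mem_roots hmonic.ne_zero, Polynomial.IsRoot, eval_spec]
    rcases mem_rootMultiset.mp hβ with rfl | ⟨b, -, rfl⟩
    · have := ev2_jTw_root' hΦ (1 : Ωˣ) (n * p)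
      rwa [one_pow] at this
    · have := ev2_jTw_root hΦ (ζ ^ b) n
      rwa [← pow_mul, mul_comm b p, pow_mul, hζ.pow_eq_one, one_pow] at this
  refine (Multiset.eq_of_le_of_card_le hle ?_).symm
  rw [rootMultiset_card, ← hdeg]
  exact Polynomial.card_roots' _

theorem splits_spec {p : ℕ} [NeZero p] (hp : 1 < p) {Φ : Polynomial (Polynomial ℤ)}
    (hΦ : IsModPoly p Φ) {ζ : Ωˣ} (hζ : IsPrimitiveRoot ζ p) (n : ℕ) [NeZero n] :
    (spec Φ (jTw Ω 1 (n * p))).Splits := by
  rw [Polynomial.splits_iff_card_roots, roots_spec hp hΦ hζ, rootMultiset_card,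
    spec_natDegree hΦ.monic, hΦ.natDegree_eq]

end RootList

/-! ### The abstract gcd lemma -/

section AbstractGcd

/-- If `x` is a common root of `P, Q ∈ E[X]`, and over some extension `P` splits with distinct
roots, among which only (the image of) `x` is a root of `Q`, then `x ∈ E`. -/
theorem mem_range_of_unique_common_root {E L Ω' : Type*} [Field E] [Field L] [Algebra E L]
    [Field Ω'] (ι : L →+* Ω') (x : L) (P Q : Polynomial E) (hP0 : P ≠ 0)
    (hPx : Polynomial.aeval x P = 0) (hQx : Polynomial.aeval x Q = 0)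
    (hsplit : (P.map (ι.comp (algebraMap E L))).Splits)
    (hnodup : (P.map (ι.comp (algebraMap E L))).roots.Nodup)
    (huniq : ∀ β ∈ (P.map (ι.comp (algebraMap E L))).roots,
      (Q.map (ι.comp (algebraMap E L))).eval β = 0 → β = ι x) :
    x ∈ (algebraMap E L).range := by
  classical
  set f : E →+* Ω' := ι.comp (algebraMap E L) with hf
  have hint : IsIntegral E x := IsAlgebraic.isIntegral ⟨P, hP0, hPx⟩
  have hμP : minpoly E x ∣ P := minpoly.dvd E x hPx
  have hμQ : minpoly E x ∣ Q := minpoly.dvd E x hQx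
  have hP'0 : P.map f ≠ 0 := (Polynomial.map_ne_zero_iff f.injective).mpr hP0
  have hμ'P : (minpoly E x).map f ∣ P.map f := Polynomial.map_dvd f hμP
  have hμ'Q : (minpoly E x).map f ∣ Q.map f := Polynomial.map_dvd f hμQ
  have hsplit' : ((minpoly E x).map f).Splits := hsplit.of_dvd hP'0 hμ'P
  have hroots_le : ((minpoly E x).map f).roots ≤ (P.map f).roots :=
    Polynomial.roots.le_of_dvd hP'0 hμ'P
  have hnodup' : ((minpoly E x).map f).roots.Nodup := Multiset.nodup_of_le hroots_le hnodup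
  have hμ'0 : (minpoly E x).map f ≠ 0 :=
    (Polynomial.map_ne_zero_iff f.injective).mpr (minpoly.ne_zero hint)
  have hall : ∀ β ∈ ((minpoly E x).map f).roots, β = ι x := by
    intro β hβ
    refine huniq β (Multiset.mem_of_le hroots_le hβ) ?_
    have hβ0 : ((minpoly E x).map f).eval β = 0 := (Polynomial.mem_roots hμ'0).mp hβ
    exact Polynomial.eval_eq_zero_of_dvd_of_eval_eq_zero hμ'Q hβ0
  have hcard : Multiset.card ((minpoly E x).map f).roots ≤ 1 := by
    have hsub : ((minpoly E x).map f).roots ≤ {ι x} := by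
      rw [Multiset.le_iff_subset hnodup']
      intro β hβ
      rw [Multiset.mem_singleton]
      exact hall β hβ
    simpa using Multiset.card_le_card hsub
  have hdeg : (minpoly E x).natDegree ≤ 1 := by
    rw [← Polynomial.natDegree_map f, hsplit'.natDegree_eq_card_roots]
    exact hcard
  have hpos := minpoly.natDegree_pos hint
  exact minpoly.natDegree_eq_one_iff.mp (le_antisymm hdeg hpos)

end AbstractGcd

end Fermat.Agent.S28.H626

end

end
-- ===== PACK-END S28/H626/RootList.lean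

-- ===== PACK-BEGIN S28/H25/ThetaAnalytic.lean
section




/-!
# The `θ`-identity for `j`, analytic part (helper25, S28 piece [A-θ])

In `ℂ⟦q⟧`, with `e4, e6, δ` the `q`-expansions of `E₄, E₆, Δ` and `θ = q d/dq`:
* `e4 ^ 3 - e6 ^ 2 = 1728 * δ`;
* `3 * e4 ^ 2 * θ e4 * δ - e4 ^ 3 * θ δ = - (e4 ^ 2 * e6 * δ)`.
-/

set_option autoImplicit false

open UpperHalfPlane hiding I
open Function Derivative Complex ModularForm EisensteinSeries
open scoped Manifold MatrixGroups

noncomputable section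

namespace Fermat.Agent.S28.H25

/-- Functions on `ℍ` whose cusp function (period `1`) is analytic at `0`. -/
def qAnalytic : Subring (ℍ → ℂ) where
  carrier := {F | AnalyticAt ℂ (cuspFunction 1 F) 0}
  mul_mem' {f g} hf hg := by
    simp only [Set.mem_ofPred_eq] at hf hg ⊢
    rw [_root_.UpperHalfPlane.cuspFunction_mul hf.continuousAt hg.continuousAt]
    exact hf.mul hg
  one_mem' := by
    simp only [Set.mem_ofPred_eq]
    have h1 : cuspFunction 1 (1 : ℍ → ℂ) = 1 := by
      ext q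
      rcases eq_or_ne q 0 with rfl | hq
      · simpa [cuspFunction, Function.Periodic.cuspFunction] using!
          tendsto_const_nhds.limUnder_eq
      · simp [cuspFunction, Function.Periodic.cuspFunction_eq_of_nonzero 1 _ hq]
    rw [h1]
    exact analyticAt_const
  add_mem' {f g} hf hg := by
    simp only [Set.mem_ofPred_eq] at hf hg ⊢
    rw [_root_.UpperHalfPlane.cuspFunction_add hf.continuousAt hg.continuousAt]
    exact hf.add hg
  zero_mem' := by
    simp only [Set.mem_ofPred_eq]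
    have h0 : cuspFunction 1 (0 : ℍ → ℂ) = 0 := by
      ext q
      rcases eq_or_ne q 0 with rfl | hq
      · simpa [cuspFunction, Function.Periodic.cuspFunction] using!
          tendsto_const_nhds.limUnder_eq
      · simp [cuspFunction, Function.Periodic.cuspFunction_eq_of_nonzero 1 _ hq]
    rw [h0]
    exact analyticAt_const
  neg_mem' {f} hf := by
    simp only [Set.mem_ofPred_eq] at hf ⊢
    rw [_root_.UpperHalfPlane.cuspFunction_neg hf.continuousAt]
    exact hf.neg

theorem mem_qAnalytic_iff {F : ℍ → ℂ} :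
    F ∈ qAnalytic ↔ AnalyticAt ℂ (cuspFunction 1 F) 0 := Iff.rfl

/-- The `q`-expansion, as a ring homomorphism on `qAnalytic`. -/
def qExpRingHom : qAnalytic →+* PowerSeries ℂ where
  toFun F := qExpansion 1 (F : ℍ → ℂ)
  map_one' := _root_.UpperHalfPlane.qExpansion_one 1
  map_mul' F G := _root_.UpperHalfPlane.qExpansion_mul F.2 G.2
  map_zero' := qExpansion_zero 1
  map_add' F G := _root_.UpperHalfPlane.qExpansion_add F.2 G.2

@[simp] theorem qExpRingHom_apply (F : qAnalytic) :
    qExpRingHom F = qExpansion 1 (F : ℍ → ℂ) := rfl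

theorem mem_qAnalytic_of_modularForm {k : ℤ} (f : ModularForm 𝒮ℒ k) :
    (f : ℍ → ℂ) ∈ qAnalytic :=
  ModularFormClass.analyticAt_cuspFunction_zero f one_pos one_mem_strictPeriods_SL

theorem periodic_of_modularForm {k : ℤ} (f : ModularForm 𝒮ℒ k) :
    Periodic ((f : ℍ → ℂ) ∘ ofComplex) (1 : ℝ) :=
  SlashInvariantFormClass.periodic_comp_ofComplex f one_mem_strictPeriods_SL

theorem mem_qAnalytic_D_of_modularForm {k : ℤ} (f : ModularForm 𝒮ℒ k) :
    D (f : ℍ → ℂ) ∈ qAnalytic :=
  analyticAt_cuspFunction_D one_pos (periodic_of_modularForm f) (ModularFormClass.holo f)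
    (ModularFormClass.bdd_at_infty f)

theorem qExpansion_D_of_modularForm {k : ℤ} (f : ModularForm 𝒮ℒ k) :
    qExpansion 1 (D (f : ℍ → ℂ)) = thetaP (qExpansion 1 (f : ℍ → ℂ)) :=
  qExpansion_D (periodic_of_modularForm f) (ModularFormClass.holo f)
    (ModularFormClass.bdd_at_infty f)

/-- `Δ` as a modular form of weight 12 -/
def discForm : ModularForm 𝒮ℒ 12 := (CuspForm.discriminant : CuspForm 𝒮ℒ 12)

theorem coe_discForm : (discForm : ℍ → ℂ) = ModularForm.discriminant := rfl

/-- `e4 ^ 3 - e6 ^ 2 = 1728 δ` in `ℂ⟦q⟧`. -/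
theorem qExp_E4_cube_sub_E6_sq :
    qExpansion 1 E₄ ^ 3 - qExpansion 1 E₆ ^ 2 =
      1728 * qExpansion 1 ModularForm.discriminant := by
  let a4 : qAnalytic := ⟨E₄, mem_qAnalytic_of_modularForm E₄⟩
  let a6 : qAnalytic := ⟨E₆, mem_qAnalytic_of_modularForm E₆⟩
  let aΔ : qAnalytic := ⟨ModularForm.discriminant, mem_qAnalytic_of_modularForm discForm⟩
  have key : a4 ^ 3 - a6 ^ 2 = 1728 * aΔ := by
    apply Subtype.ext
    funext z
    have := Fermat.Agent.S20.L1.E₄_cube_sub_E₆_sq z
    have h3 : ((1728 : qAnalytic) : ℍ → ℂ) z = 1728 := rfl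
    push_cast
    simp only [a4, a6, aΔ, Pi.sub_apply, Pi.mul_apply, Pi.pow_apply]
    rw [h3]
    exact this
  have := congrArg qExpRingHom key
  simpa only [map_sub, map_pow, map_mul, map_ofNat, qExpRingHom_apply] using this

/-- `3 e4² θ(e4) δ - e4³ θ(δ) = - e4² e6 δ` in `ℂ⟦q⟧`. -/
theorem qExp_theta_relation :
    3 * qExpansion 1 E₄ ^ 2 * thetaP (qExpansion 1 E₄) * qExpansion 1 ModularForm.discriminant
      - qExpansion 1 E₄ ^ 3 * thetaP (qExpansion 1 ModularForm.discriminant) =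
      - (qExpansion 1 E₄ ^ 2 * qExpansion 1 E₆ * qExpansion 1 ModularForm.discriminant) := by
  let a4 : qAnalytic := ⟨E₄, mem_qAnalytic_of_modularForm E₄⟩
  let a6 : qAnalytic := ⟨E₆, mem_qAnalytic_of_modularForm E₆⟩
  let aΔ : qAnalytic := ⟨ModularForm.discriminant, mem_qAnalytic_of_modularForm discForm⟩
  let d4 : qAnalytic := ⟨D (E₄ : ℍ → ℂ), mem_qAnalytic_D_of_modularForm E₄⟩
  let dΔ : qAnalytic := ⟨D (ModularForm.discriminant : ℍ → ℂ),
    mem_qAnalytic_D_of_modularForm discForm⟩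
  have key : 3 * a4 ^ 2 * d4 * aΔ - a4 ^ 3 * dΔ = - (a4 ^ 2 * a6 * aΔ) := by
    apply Subtype.ext
    funext z
    have h4 := Fermat.Agent.S20.L1.ramanujan_E₄ z
    have hΔ := Fermat.Agent.S20.L1.ramanujan_discriminant z
    have h3 : ((3 : qAnalytic) : ℍ → ℂ) z = 3 := rfl
    push_cast
    simp only [a4, a6, aΔ, d4, dΔ, Pi.sub_apply, Pi.mul_apply, Pi.pow_apply, Pi.neg_apply]
    rw [h3, h4, hΔ]
    ring
  have := congrArg qExpRingHom key
  simp only [map_sub, map_pow, map_mul, map_neg, map_ofNat, qExpRingHom_apply] at this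
  have e1 : qExpansion 1 (D (E₄ : ℍ → ℂ)) = thetaP (qExpansion 1 E₄) :=
    qExpansion_D_of_modularForm E₄
  have e2 : qExpansion 1 (D (ModularForm.discriminant : ℍ → ℂ)) =
      thetaP (qExpansion 1 ModularForm.discriminant) :=
    qExpansion_D_of_modularForm discForm
  simpa only [a4, a6, aΔ, d4, dΔ, e1, e2] using this

end Fermat.Agent.S28.H25

end
end
-- ===== PACK-END S28/H25/ThetaAnalytic.lean

-- ===== PACK-BEGIN S20/Comb694/RelIndex.lean
section





/-!
# Relative index of `Gamma0 (p * M)` in `Gamma0 M`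

`(Gamma0 (p * M)).relIndex (Gamma0 M) = p` if `p ∣ M`, and `p + 1` otherwise (`p` prime, `M ≠ 0`).
-/

set_option autoImplicit false

namespace Fermat.Agent.S20.Comb694

open Matrix MatrixGroups CongruenceSubgroup

lemma mem_Gamma0_iff_dvd (N : ℕ) (g : SL(2, ℤ)) : g ∈ Gamma0 N ↔ (N : ℤ) ∣ g 1 0 := by
  rw [Gamma0_mem]
  exact ZMod.intCast_zmod_eq_zero_iff_dvd _ _

lemma Gamma0_mul_le (p M : ℕ) : Gamma0 (p * M) ≤ Gamma0 M := by
  intro g hg
  rw [mem_Gamma0_iff_dvd] at hg ⊢
  refine dvd_trans ?_ hg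
  push_cast
  exact dvd_mul_left _ _

/-- The matrix `[[1, 0], [c, 1]]` in `SL(2,ℤ)`. -/
def lowRep (c : ℤ) : SL(2, ℤ) := ⟨!![1, 0; c, 1], by simp [Matrix.det_fin_two]⟩

@[simp] lemma lowRep_apply_zero_zero (c : ℤ) : lowRep c 0 0 = 1 := rfl
@[simp] lemma lowRep_apply_one_zero (c : ℤ) : lowRep c 1 0 = c := rfl

lemma lowRep_mem (M : ℕ) (t : ℤ) : lowRep ((M : ℤ) * t) ∈ Gamma0 M := by
  rw [mem_Gamma0_iff_dvd, lowRep_apply_one_zero]
  exact dvd_mul_right _ _

/-- Coset criterion for `Gamma0 M ⧸ (Gamma0 (p * M)).subgroupOf (Gamma0 M)`. -/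
lemma subMk_eq_iff (p M : ℕ) (hM : M ≠ 0) (g g' : Gamma0 M) (c₁ c₁' : ℤ)
    (hc : (g : SL(2, ℤ)) 1 0 = M * c₁) (hc' : (g' : SL(2, ℤ)) 1 0 = M * c₁') :
    (QuotientGroup.mk g : Gamma0 M ⧸ (Gamma0 (p * M)).subgroupOf (Gamma0 M))
        = QuotientGroup.mk g' ↔
      (p : ℤ) ∣ ((g : SL(2, ℤ)) 0 0 * c₁' - c₁ * (g' : SL(2, ℤ)) 0 0) := by
  rw [QuotientGroup.eq, Subgroup.mem_subgroupOf, mem_Gamma0_iff_dvd]
  simp only [Subgroup.coe_mul, Subgroup.coe_inv, inv_mul_apply_one_zero, hc, hc']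
  have h : (g : SL(2, ℤ)) 0 0 * ((M : ℤ) * c₁') - (M : ℤ) * c₁ * (g' : SL(2, ℤ)) 0 0
      = (M : ℤ) * ((g : SL(2, ℤ)) 0 0 * c₁' - c₁ * (g' : SL(2, ℤ)) 0 0) := by ring
  rw [h]
  push_cast
  rw [mul_comm (p : ℤ) (M : ℤ)]
  exact mul_dvd_mul_iff_left (by exact_mod_cast hM)

/-- For `g ∈ Gamma0 M` with `p ∣ M`, the entry `g 0 0` is nonzero mod `p`. -/
lemma a_ne_zero_of_dvd (p M : ℕ) (hp : p.Prime) (h : p ∣ M) (g : Gamma0 M) :
    ¬ (p : ℤ) ∣ (g : SL(2, ℤ)) 0 0 := by
  intro ha
  have hg := (mem_Gamma0_iff_dvd M _).mp g.2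
  have hpc : (p : ℤ) ∣ (g : SL(2, ℤ)) 1 0 := dvd_trans (by exact_mod_cast h) hg
  have hdet := (g : SL(2, ℤ)).det_coe
  rw [Matrix.det_fin_two] at hdet
  have h1 : (p : ℤ) ∣ 1 := by
    rw [← hdet]
    exact dvd_sub (dvd_mul_of_dvd_left ha _) (dvd_mul_of_dvd_right hpc _)
  have := Int.natCast_dvd_natCast.mp (by simpa using h1 : ((p : ℕ) : ℤ) ∣ ((1 : ℕ) : ℤ))
  exact hp.one_lt.ne' (Nat.dvd_one.mp this)

/-- The coset representative attached to `t : ZMod p`. -/
noncomputable def relRep (p M : ℕ) (t : ZMod p) :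
    Gamma0 M ⧸ (Gamma0 (p * M)).subgroupOf (Gamma0 M) :=
  QuotientGroup.mk ⟨lowRep ((M : ℤ) * (ZMod.cast t : ℤ)), lowRep_mem M _⟩

lemma relRep_injective (p M : ℕ) (hM : M ≠ 0) : Function.Injective (relRep p M) := by
  intro t t' h
  simp only [relRep] at h
  rw [subMk_eq_iff p M hM _ _ (ZMod.cast t : ℤ) (ZMod.cast t' : ℤ) rfl rfl] at h
  simp only [lowRep_apply_zero_zero, _root_.one_mul, _root_.mul_one] at h
  have := (ZMod.intCast_zmod_eq_zero_iff_dvd _ p).mpr h
  push_cast at this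
  exact (sub_eq_zero.mp this).symm

/-- Elements with `p ∤ a` are in the range of `relRep`. -/
lemma mem_range_relRep (p M : ℕ) (hM : M ≠ 0) (hp : p.Prime) (g : Gamma0 M)
    (ha : ¬ (p : ℤ) ∣ (g : SL(2, ℤ)) 0 0) :
    (QuotientGroup.mk g : Gamma0 M ⧸ (Gamma0 (p * M)).subgroupOf (Gamma0 M))
      ∈ Set.range (relRep p M) := by
  haveI : Fact p.Prime := ⟨hp⟩
  obtain ⟨c₁, hc₁⟩ := (mem_Gamma0_iff_dvd M _).mp g.2
  have ha' : (((g : SL(2, ℤ)) 0 0 : ℤ) : ZMod p) ≠ 0 := by
    rwa [Ne, ZMod.intCast_zmod_eq_zero_iff_dvd]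
  refine ⟨(c₁ : ZMod p) * (((g : SL(2, ℤ)) 0 0 : ℤ) : ZMod p)⁻¹, ?_⟩
  simp only [relRep]
  rw [subMk_eq_iff p M hM _ _ _ c₁ rfl hc₁]
  simp only [lowRep_apply_zero_zero, _root_.one_mul]
  rw [← ZMod.intCast_zmod_eq_zero_iff_dvd]
  push_cast
  rw [_root_.mul_assoc, inv_mul_cancel₀ ha', _root_.mul_one, sub_self]

/-- **Relative index, ramified case**: `[Γ₀(M) : Γ₀(pM)] = p` if `p ∣ M`. -/
theorem relIndex_Gamma0_of_dvd (p M : ℕ) (hM : M ≠ 0) (hp : p.Prime) (h : p ∣ M) :
    (Gamma0 (p * M)).relIndex (Gamma0 M) = p := by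
  have hbij : Function.Bijective (relRep p M) := by
    refine ⟨relRep_injective p M hM, ?_⟩
    intro q
    obtain ⟨g, rfl⟩ := QuotientGroup.mk_surjective q
    exact mem_range_relRep p M hM hp g (a_ne_zero_of_dvd p M hp h g)
  rw [Subgroup.relIndex, Subgroup.index, ← Nat.card_eq_of_bijective _ hbij, Nat.card_zmod]

/-- An element of `Gamma0 M` with first column `(p, M)`, for `p ∤ M`. -/
lemma exists_special (p M : ℕ) (hp : p.Prime) (h : ¬ p ∣ M) :
    ∃ g : Gamma0 M, (g : SL(2, ℤ)) 0 0 = p ∧ (g : SL(2, ℤ)) 1 0 = M := by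
  have hcop : IsCoprime (p : ℤ) (M : ℤ) := by
    rw [Int.isCoprime_iff_gcd_eq_one, Int.gcd_natCast_natCast]
    exact (Nat.Prime.coprime_iff_not_dvd hp).mpr h
  obtain ⟨g, hg0, hg1⟩ := IsCoprime.exists_SL2_col hcop 0
  refine ⟨⟨g, ?_⟩, hg0, hg1⟩
  rw [mem_Gamma0_iff_dvd, hg1]

/-- **Relative index, unramified case**: `[Γ₀(M) : Γ₀(pM)] = p + 1` if `p ∤ M`. -/
theorem relIndex_Gamma0_of_not_dvd (p M : ℕ) (hM : M ≠ 0) (hp : p.Prime) (h : ¬ p ∣ M) :
    (Gamma0 (p * M)).relIndex (Gamma0 M) = p + 1 := by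
  haveI : Fact p.Prime := ⟨hp⟩
  obtain ⟨g₀, hg₀0, hg₀1⟩ := exists_special p M hp h
  let f : Option (ZMod p) → Gamma0 M ⧸ (Gamma0 (p * M)).subgroupOf (Gamma0 M) :=
    fun o => o.elim (QuotientGroup.mk g₀) (relRep p M)
  have hne : ∀ t : ZMod p, relRep p M t ≠ QuotientGroup.mk g₀ := by
    intro t ht
    simp only [relRep] at ht
    rw [subMk_eq_iff p M hM _ _ (ZMod.cast t : ℤ) 1 rfl (by rw [hg₀1, _root_.mul_one])] at ht
    simp only [lowRep_apply_zero_zero, _root_.one_mul, hg₀0] at ht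
    have h1 : (p : ℤ) ∣ 1 := by
      have := dvd_add ht (dvd_mul_left (p : ℤ) (ZMod.cast t : ℤ))
      simpa using this
    have := Int.natCast_dvd_natCast.mp (by simpa using h1 : ((p : ℕ) : ℤ) ∣ ((1 : ℕ) : ℤ))
    exact hp.one_lt.ne' (Nat.dvd_one.mp this)
  have hbij : Function.Bijective f := by
    constructor
    · rintro (_ | t) (_ | t') hh
      · rfl
      · exact absurd hh.symm (hne t')
      · exact absurd hh (hne t)
      · exact congrArg some (relRep_injective p M hM hh)
    · intro q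
      obtain ⟨g, rfl⟩ := QuotientGroup.mk_surjective q
      by_cases ha : (p : ℤ) ∣ (g : SL(2, ℤ)) 0 0
      · refine ⟨none, ?_⟩
        obtain ⟨c₁, hc₁⟩ := (mem_Gamma0_iff_dvd M _).mp g.2
        show QuotientGroup.mk g₀ = _
        rw [subMk_eq_iff p M hM _ _ 1 c₁ (by rw [hg₀1, _root_.mul_one]) hc₁, hg₀0]
        exact dvd_sub (dvd_mul_right _ _) (by simpa using ha)
      · obtain ⟨t, ht⟩ := mem_range_relRep p M hM hp g ha
        exact ⟨some t, ht⟩
  rw [Subgroup.relIndex, Subgroup.index, ← Nat.card_eq_of_bijective _ hbij, Finite.card_option,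
    Nat.card_zmod]

end Fermat.Agent.S20.Comb694

end
-- ===== PACK-END S20/Comb694/RelIndex.lean

-- ===== PACK-BEGIN S18/H107/Branch.lean
section



/-!
# helper107 — S18 / M3-T : branch data in valuation-subring form (Mathlib-only)

`Unram107 O z` : `z` generates the maximal ideal of `O` as far as divisibility is concerned
(`∀ s ∈ 𝔪_O, s / z ∈ O`) — the conclusion of `GoodModel.unramified`.
`OrdLe107 O y k` : `ord_O y ≤ k` (`∀ s ∈ 𝔪_O, s ^ k / y ∈ O`).

`unram_of_factor107` : `y = z ^ k * U`, `U` a unit of `O`, `z ∈ 𝔪_O`, `ord_O y ≤ k` ⟹ `ord_O z ≤ 1`.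
-/

set_option autoImplicit false

namespace Fermat.Agent.S18.H107

variable {Ω : Type*} [Field Ω]

/-- `ord_O y ≤ k`, in valuation-subring language. -/
def OrdLe107 (O : ValuationSubring Ω) (y : Ω) (k : ℕ) : Prop :=
  ∀ s ∈ O, s⁻¹ ∉ O → s ^ k * y⁻¹ ∈ O

theorem val_lt_one107 (O : ValuationSubring Ω) {s : Ω} (hs : s ∈ O) (hs' : s⁻¹ ∉ O) :
    O.valuation s < 1 := by
  have h1 : O.valuation s ≤ 1 := (O.valuation_le_one_iff s).2 hs
  refine lt_of_le_of_ne h1 fun h => hs' ?_
  refine (O.valuation_le_one_iff _).1 ?_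
  rw [map_inv₀, h, inv_one]

theorem mem_of_val_lt_one107 (O : ValuationSubring Ω) {s : Ω} (h : O.valuation s < 1) : s ∈ O :=
  (O.valuation_le_one_iff s).1 h.le

theorem inv_not_mem_of_val_lt_one107 (O : ValuationSubring Ω) {s : Ω} (hs0 : s ≠ 0)
    (h : O.valuation s < 1) : s⁻¹ ∉ O := by
  intro hmem
  have h1 : O.valuation s⁻¹ ≤ 1 := (O.valuation_le_one_iff _).2 hmem
  rw [map_inv₀] at h1
  have hpos : 0 < O.valuation s := by
    rw [Valuation.pos_iff]
    exact hs0
  have h2 : (1 : O.ValueGroup) ≤ O.valuation s := by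
    have := (inv_le_one₀ hpos).1 h1
    exact this
  exact absurd h (not_lt.2 h2)

theorem val_eq_one_of_mem107 (O : ValuationSubring Ω) {c : Ω} (hc : c ∈ O) (hc' : c⁻¹ ∈ O)
    (hc0 : c ≠ 0) : O.valuation c = 1 := by
  have h1 : O.valuation c ≤ 1 := (O.valuation_le_one_iff c).2 hc
  have h2 : O.valuation c⁻¹ ≤ 1 := (O.valuation_le_one_iff _).2 hc'
  rw [map_inv₀] at h2
  have hpos : 0 < O.valuation c := by
    rw [Valuation.pos_iff]
    exact hc0
  exact le_antisymm h1 ((inv_le_one₀ hpos).1 h2)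

theorem val_const107 (O : ValuationSubring Ω) (Lc : Subfield Ω) (hL : ∀ a ∈ Lc, a ∈ O) {c : Ω}
    (hc : c ∈ Lc) (hc0 : c ≠ 0) : O.valuation c = 1 :=
  val_eq_one_of_mem107 O (hL c hc) (hL _ (Lc.inv_mem hc)) hc0

theorem val_add_eq_one107 (O : ValuationSubring Ω) {u m : Ω} (hu : O.valuation u = 1)
    (hm : O.valuation m < 1) : O.valuation (u + m) = 1 := by
  rw [← hu]
  exact Valuation.map_add_eq_of_lt_left _ (by rw [hu]; exact hm)

/-- `ord_O y ≤ k` in terms of the valuation. -/
theorem OrdLe107.val_le {O : ValuationSubring Ω} {y : Ω} {k : ℕ} (h : OrdLe107 O y k)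
    (hy : y ≠ 0) {s : Ω} (hs : O.valuation s < 1) : O.valuation s ^ k ≤ O.valuation y := by
  rcases eq_or_ne s 0 with rfl | hs0
  · rcases Nat.eq_zero_or_pos k with rfl | hk
    · -- `k = 0`: need `1 ≤ v y`
      simp only [pow_zero]
      by_contra hlt
      rw [not_le] at hlt
      -- then `y ∈ 𝔪_O`, and `OrdLe` with `s = y` gives `1 * y⁻¹ ∈ O`, contradiction
      have hyO : y ∈ O := mem_of_val_lt_one107 O hlt
      have hy' : y⁻¹ ∉ O := inv_not_mem_of_val_lt_one107 O hy hlt
      have := h y hyO hy'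
      rw [pow_zero, one_mul] at this
      exact hy' this
    · rw [map_zero, zero_pow hk.ne']
      exact zero_le
  · have hsO : s ∈ O := mem_of_val_lt_one107 O hs
    have hs' : s⁻¹ ∉ O := inv_not_mem_of_val_lt_one107 O hs0 hs
    have h1 := (O.valuation_le_one_iff _).2 (h s hsO hs')
    rw [map_mul, map_pow, map_inv₀] at h1
    have hpos : 0 < O.valuation y := by
      rw [Valuation.pos_iff]
      exact hy
    have := (mul_inv_le_iff₀ hpos).1 h1
    rwa [one_mul] at this

/-- **Key lemma**: `y = z ^ k * U` with `U` a unit at `O`, `z ∈ 𝔪_O`, `ord_O y ≤ k`, `k ≥ 1`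
⟹ `z` is a uniformiser of `O`. -/
theorem unram_of_factor107 (O : ValuationSubring Ω) {y z U : Ω} {k : ℕ} (hk : k ≠ 0)
    (hy : y = z ^ k * U) (hU : O.valuation U = 1) (hz0 : z ≠ 0)
    (hord : OrdLe107 O y k) : OrdLe107 O z 1 := by
  intro s hs hs'
  have hsv := val_lt_one107 O hs hs'
  have hU0 : U ≠ 0 := by
    intro h0
    rw [h0, map_zero] at hU
    exact zero_ne_one hU
  have hy0 : y ≠ 0 := by
    rw [hy]
    exact mul_ne_zero (pow_ne_zero _ hz0) hU0
  have h1 := hord.val_le hy0 hsv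
  rw [hy, map_mul, map_pow, hU, mul_one] at h1
  have h2 : O.valuation s ≤ O.valuation z := le_of_pow_le_pow_left₀ hk zero_le h1
  refine (O.valuation_le_one_iff _).1 ?_
  rw [pow_one, map_mul, map_inv₀]
  have hpos : 0 < O.valuation z := by
    rw [Valuation.pos_iff]
    exact hz0
  rw [mul_inv_le_iff₀ hpos, one_mul]
  exact h2

theorem OrdLe107.one_iff {O : ValuationSubring Ω} {z : Ω} :
    OrdLe107 O z 1 ↔ ∀ s ∈ O, s⁻¹ ∉ O → s * z⁻¹ ∈ O := by
  unfold OrdLe107
  simp only [pow_one]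

/-- The branch data of the `j`-line needed for the Hauptmodul transfers: `Ω / Lc(j)` is unramified
outside `0, 1728, ∞`, with ramification index `≤ 3` over `0` and `≤ 2` over `1728`. -/
structure BranchJ107 (Lc : Subfield Ω) (j : Ω) : Prop where
  generic : ∀ O : ValuationSubring Ω, (∀ a ∈ Lc, a ∈ O) → ∀ a ∈ Lc, a ≠ 0 → a ≠ 1728 →
    j - a ∈ O → (j - a)⁻¹ ∉ O → OrdLe107 O (j - a) 1
  zero : ∀ O : ValuationSubring Ω, (∀ a ∈ Lc, a ∈ O) → j ∈ O → j⁻¹ ∉ O → OrdLe107 O j 3
  c1728 : ∀ O : ValuationSubring Ω, (∀ a ∈ Lc, a ∈ O) → j - 1728 ∈ O → (j - 1728)⁻¹ ∉ O →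
    OrdLe107 O (j - 1728) 2

end Fermat.Agent.S18.H107

end
-- ===== PACK-END S18/H107/Branch.lean

-- ===== PACK-BEGIN S18/H425/GoodModelInv.lean
section


/-!
# S18 / ALG (helper425): `GoodModel` is symmetric under `x ↦ x⁻¹`

* `mem_polyRing_iff` : `c ∈ polyRing R x ↔ ∃ Q : R[X], aeval x Q = c`.
* `goodModel_x_inv_mem_V` : `x⁻¹ ∈ V` (so `x` is a unit of `V`, with the field `x_mem_V`).
* `not_isIntegral_mul_inv` : `z / w` is not integral over `R[z]` (`z` transcendental, `w` a non-unit).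
* `goodModel_inv` : `GoodModel Lc Ec Fc R V w x S →
    GoodModel Lc Ec Fc R V w x⁻¹ (insert 0 ((S.erase 0).image (·⁻¹)))`.
* `goodFamily_inv` : the same for `GoodFamily` (same family `𝓕`).

So the chart at infinity needs no separate treatment: apply any chart theorem to `x⁻¹`.
Imports only the frozen interface `Alg/Spec.lean`.
-/

set_option autoImplicit false

noncomputable section

namespace Fermat.Agent.S18.H425

open Polynomial Fermat.Agent.S18.Alg

variable {Ω : Type*} [Field Ω]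

/-- `R[x]` consists of the values at `x` of the polynomials with coefficients in `R`. -/
theorem mem_polyRing_iff {R : Subring Ω} {x c : Ω} :
    c ∈ polyRing R x ↔ ∃ Q : Polynomial R, aeval x Q = c := by
  have h : polyRing R x = (Algebra.adjoin R {x}).toSubring := by
    rw [Algebra.adjoin_eq_ring_closure]
    unfold polyRing
    congr 1
    have hr : Set.range (algebraMap R Ω) = (R : Set Ω) := by
      ext y
      constructor
      · rintro ⟨a, rfl⟩
        exact a.2
      · intro hy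
        exact ⟨⟨y, hy⟩, rfl⟩
    rw [hr]
  rw [h, Subalgebra.mem_toSubring, Algebra.adjoin_singleton_eq_range_aeval]
  rfl

theorem mem_polyRing_of_mem {R : Subring Ω} (x : Ω) {r : Ω} (hr : r ∈ R) : r ∈ polyRing R x :=
  Subring.subset_closure (Or.inl hr)

theorem self_mem_polyRing (R : Subring Ω) (x : Ω) : x ∈ polyRing R x :=
  Subring.subset_closure (Or.inr rfl)

/-- `x⁻¹ ^ N * Q(x) = (reflect N Q)(x⁻¹)` for `natDegree Q ≤ N`. -/
theorem aeval_inv_reflect {R : Subring Ω} {x : Ω} (hx : x ≠ 0) (N : ℕ) (Q : Polynomial R)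
    (hQ : Q.natDegree ≤ N) : aeval x⁻¹ (reflect N Q) = aeval x Q * (x⁻¹) ^ N := by
  let _ : Invertible x := invertibleOfNonzero hx
  have h := eval₂_reflect_mul_pow (algebraMap R Ω) x N Q hQ
  rw [invOf_eq_inv] at h
  rw [aeval_def, aeval_def, ← h, mul_assoc, ← mul_pow, mul_inv_cancel₀ hx, one_pow, mul_one]

/-- A polynomial relation over a subring `R ≤ Lc` is a polynomial relation over `Lc`. -/
theorem transcendental_subring {R : Subring Ω} {Lc : Subfield Ω} (hRL : ∀ r ∈ R, r ∈ Lc)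
    {z : Ω} (hz : Transcendental Lc z) : Transcendental R z := by
  rw [transcendental_iff]
  intro Q hQ
  let ι : R →+* Lc :=
    { toFun := fun r => ⟨r.1, hRL r.1 r.2⟩
      map_one' := rfl
      map_mul' := fun _ _ => rfl
      map_zero' := rfl
      map_add' := fun _ _ => rfl }
  have hι : Function.Injective ι := fun a b hab =>
    Subtype.ext (congrArg (fun y : Lc => (y : Ω)) hab)
  have hcomp : (algebraMap Lc Ω).comp ι = algebraMap R Ω := rfl
  have h0 : aeval z (Q.map ι) = 0 := by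
    rw [aeval_def, eval₂_map, hcomp, ← aeval_def, hQ]
  have := (transcendental_iff.mp hz) (Q.map ι) h0
  exact (Polynomial.map_eq_zero_iff hι).mp this

/-- If `z` is transcendental over `R` and `w ∈ R` is a nonzero non-unit of `R`, then `z / w` is
not integral over `R[z]`. -/
theorem not_isIntegral_mul_inv {R : Subring Ω} {z w : Ω} (hz : Transcendental R z)
    (hw : w ∈ R) (hw0 : w ≠ 0) (hwinv : w⁻¹ ∉ R) :
    ¬ IsIntegral (polyRing R z) (z * w⁻¹) := by
  rintro ⟨p, hp, hp0⟩
  set n := p.natDegree with hn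
  have hcoeff : ∀ i, ∃ Q : Polynomial R, aeval z Q = ((p.coeff i : polyRing R z) : Ω) :=
    fun i => mem_polyRing_iff.mp (p.coeff i).2
  choose Q hQ using hcoeff
  let ω : R := ⟨w, hw⟩
  let H : Polynomial R := ∑ i ∈ Finset.range n, Q i * C ω ^ (n - 1 - i) * X ^ i
  have hsum : (z * w⁻¹) ^ n +
      ∑ i ∈ Finset.range n, ((p.coeff i : polyRing R z) : Ω) * (z * w⁻¹) ^ i = 0 := by
    rw [eval₂_eq_sum_range, Finset.sum_range_succ, ← hn] at hp0
    have hlead : p.coeff n = 1 := hp
    rw [hlead, _root_.map_one, one_mul, add_comm] at hp0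
    exact hp0
  have hG : aeval z (X ^ n + C ω * H) = 0 := by
    have hω : algebraMap R Ω ω = w := rfl
    rw [_root_.map_add, _root_.map_mul, _root_.map_pow, aeval_X, aeval_C, hω, _root_.map_sum]
    have : w ^ n * ((z * w⁻¹) ^ n +
        ∑ i ∈ Finset.range n, ((p.coeff i : polyRing R z) : Ω) * (z * w⁻¹) ^ i) = 0 := by
      rw [hsum, mul_zero]
    rw [← this, mul_add, Finset.mul_sum, Finset.mul_sum]
    congr 1
    · rw [mul_pow, mul_comm (z ^ n), ← mul_assoc, ← mul_pow, mul_inv_cancel₀ hw0, one_pow,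
        one_mul]
    · apply Finset.sum_congr rfl
      intro i hi
      have hi' : i < n := Finset.mem_range.mp hi
      rw [_root_.map_mul, _root_.map_mul, _root_.map_pow, _root_.map_pow, aeval_X, aeval_C, hω, hQ]
      have hwn : w ^ n = w * w ^ (n - 1 - i) * w ^ i := by
        rw [← pow_succ', ← pow_add]
        congr 1
        omega
      rw [hwn, mul_pow]
      have hwi : w ^ i * (w⁻¹) ^ i = 1 := by
        rw [← mul_pow, mul_inv_cancel₀ hw0, one_pow]
      calc w * (((p.coeff i : polyRing R z) : Ω) * w ^ (n - 1 - i) * z ^ i)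
          = w * w ^ (n - 1 - i) * (((p.coeff i : polyRing R z) : Ω) * z ^ i) * 1 := by ring
        _ = w * w ^ (n - 1 - i) * (((p.coeff i : polyRing R z) : Ω) * z ^ i) *
              (w ^ i * (w⁻¹) ^ i) := by rw [hwi]
        _ = w * w ^ (n - 1 - i) * w ^ i *
              (((p.coeff i : polyRing R z) : Ω) * (z ^ i * w⁻¹ ^ i)) := by ring
  have hG0 := (transcendental_iff.mp hz) _ hG
  have hc := congrArg (fun P => P.coeff n) hG0
  simp only [coeff_add, coeff_X_pow, if_true, coeff_C_mul, coeff_zero] at hc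
  apply hwinv
  have h1 : w * (-(H.coeff n : R) : R) = 1 := by
    have h2 : (1 : R) + ω * H.coeff n = 0 := hc
    have h3 := congrArg (fun r : R => (r : Ω)) h2
    simp only [Subring.coe_add, Subring.coe_one, Subring.coe_mul, Subring.coe_zero] at h3
    have hω : (ω : Ω) = w := rfl
    rw [hω] at h3
    rw [Subring.coe_neg, mul_neg]
    linear_combination -h3
  have h4 : w⁻¹ = ((-(H.coeff n : R) : R) : Ω) := by
    exact inv_eq_of_mul_eq_one_right h1
  rw [h4]
  exact (-(H.coeff n)).2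

/-- `P(x⁻¹) = (reflect N P)(x) * x⁻¹ ^ N` for a polynomial over `Ω`, `natDegree P ≤ N`. -/
theorem eval_inv_eq_reflect {x : Ω} (hx : x ≠ 0) (N : ℕ) (P : Polynomial Ω)
    (hP : P.natDegree ≤ N) : P.eval x⁻¹ = (reflect N P).eval x * (x⁻¹) ^ N := by
  let _ : Invertible x⁻¹ := invertibleOfNonzero (inv_ne_zero hx)
  have h := eval₂_reflect_mul_pow (RingHom.id Ω) x⁻¹ N P hP
  rw [invOf_eq_inv, inv_inv] at h
  rw [eval, eval, h]

/-- For a valuation subring: `a⁻¹ ∉ O` iff `a ≠ 0` and `v a < 1`. -/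
theorem inv_not_mem_iff (O : ValuationSubring Ω) {a : Ω} :
    a⁻¹ ∉ O ↔ a ≠ 0 ∧ O.valuation a < 1 := by
  constructor
  · intro h
    have ha : a ≠ 0 := by
      rintro rfl
      exact h (by simp)
    refine ⟨ha, ?_⟩
    by_contra hlt
    apply h
    rw [← ValuationSubring.valuation_le_one_iff, map_inv₀]
    exact inv_le_one_of_one_le₀ (not_lt.mp hlt)
  · rintro ⟨ha, hlt⟩ hmem
    rw [← ValuationSubring.valuation_le_one_iff, map_inv₀] at hmem
    have hv0 : O.valuation a ≠ 0 := (Valuation.ne_zero_iff _).mpr ha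
    have : 1 ≤ O.valuation a := by
      have := (inv_le_one₀ (zero_lt_iff.mpr hv0)).mp hmem
      exact this
    exact absurd hlt (not_lt.mpr this)

section GoodModel

variable {Lc Ec Fc : Subfield Ω} {R V : Subring Ω} {w x : Ω} {S : Finset Ω}

theorem goodModel_x_ne_zero (h : GoodModel Lc Ec Fc R V w x S) : x ≠ 0 := by
  rintro rfl
  exact h.x_transcendental isAlgebraic_zero

theorem goodModel_R_le_Lc (h : GoodModel Lc Ec Fc R V w x S) : ∀ r ∈ R, r ∈ Lc :=
  fun _ hr => h.E_le_L (h.R_le hr)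

theorem goodModel_transcendental_inv (h : GoodModel Lc Ec Fc R V w x S) :
    Transcendental Lc x⁻¹ := by
  intro hx
  apply h.x_transcendental
  have := hx.inv
  rwa [inv_inv] at this

/-- `x⁻¹ ∈ V`. -/
theorem goodModel_x_inv_mem_V (h : GoodModel Lc Ec Fc R V w x S) : x⁻¹ ∈ V := by
  have := h.gauss X (fun i => by
    rw [coeff_X]
    split_ifs
    · exact R.one_mem
    · exact R.zero_mem) ⟨1, by simp, by simp⟩
  simpa using this

theorem ratField_inv (Ec : Subfield Ω) (x : Ω) : ratField Ec x⁻¹ = ratField Ec x := by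
  unfold ratField
  apply le_antisymm
  · rw [Subfield.closure_le]
    rintro y (hy | hy)
    · exact Subfield.subset_closure (Or.inl hy)
    · rw [Set.mem_singleton_iff] at hy
      rw [hy]
      exact Subfield.inv_mem _ (Subfield.subset_closure (Or.inr rfl))
  · rw [Subfield.closure_le]
    rintro y (hy | hy)
    · exact Subfield.subset_closure (Or.inl hy)
    · rw [Set.mem_singleton_iff] at hy
      rw [hy]
      have : x⁻¹ ∈ Subfield.closure ((Ec : Set Ω) ∪ {x⁻¹}) :=
        Subfield.subset_closure (Or.inr rfl)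
      have := Subfield.inv_mem _ this
      rwa [inv_inv] at this

/-- `gauss` for `x⁻¹`. -/
theorem goodModel_gauss_inv (h : GoodModel Lc Ec Fc R V w x S) (P : Polynomial Ω)
    (hP : ∀ i, P.coeff i ∈ R) (hu : ∃ i, P.coeff i ≠ 0 ∧ (P.coeff i)⁻¹ ∈ R) :
    (P.eval x⁻¹)⁻¹ ∈ V := by
  have hx := goodModel_x_ne_zero h
  rw [eval_inv_eq_reflect hx P.natDegree P le_rfl, mul_inv, ← inv_pow, inv_inv]
  refine V.mul_mem (h.gauss _ (fun i => ?_) ?_) (V.pow_mem h.x_mem_V _)
  · rw [coeff_reflect]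
    exact hP _
  · obtain ⟨i, hi0, hi⟩ := hu
    refine ⟨revAt P.natDegree i, ?_, ?_⟩
    · rw [coeff_reflect, revAt_invol]
      exact hi0
    · rw [coeff_reflect, revAt_invol]
      exact hi

/-- `separable` for `x⁻¹`. -/
theorem goodModel_separable_inv (h : GoodModel Lc Ec Fc R V w x S) (f : Ω) (hf : f ∈ V) :
    ∃ P : Polynomial Ω, (∀ i, P.coeff i ∈ polyRing R x⁻¹) ∧
      P.eval f * w⁻¹ ∈ V ∧ (Polynomial.derivative P).eval f ≠ 0 ∧
      ((Polynomial.derivative P).eval f)⁻¹ ∈ V := by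
  have hx := goodModel_x_ne_zero h
  obtain ⟨P, hPc, hP0, hP1, hP2⟩ := h.separable f hf
  have hex : ∀ i, ∃ Q : Polynomial R, aeval x Q = P.coeff i := fun i => mem_polyRing_iff.mp (hPc i)
  choose Q hQ using hex
  let D : ℕ := P.support.sup fun i => (Q i).natDegree
  refine ⟨C ((x⁻¹) ^ D) * P, fun i => ?_, ?_, ?_, ?_⟩
  · rw [coeff_C_mul]
    by_cases hi : i ∈ P.support
    · have hdeg : (Q i).natDegree ≤ D := Finset.le_sup (f := fun i => (Q i).natDegree) hi
      rw [mem_polyRing_iff]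
      exact ⟨reflect D (Q i), by rw [aeval_inv_reflect hx D (Q i) hdeg, hQ, mul_comm]⟩
    · rw [notMem_support_iff.mp hi, mul_zero]
      exact Subring.zero_mem _
  · rw [eval_mul, eval_C, mul_assoc]
    exact V.mul_mem (V.pow_mem (goodModel_x_inv_mem_V h) _) hP0
  · rw [derivative_C_mul, eval_mul, eval_C]
    exact mul_ne_zero (pow_ne_zero _ (inv_ne_zero hx)) hP1
  · rw [derivative_C_mul, eval_mul, eval_C, mul_inv, ← inv_pow, inv_inv]
    exact V.mul_mem (V.pow_mem h.x_mem_V _) hP2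

/-- `unramified` for `x⁻¹`. -/
theorem goodModel_unramified_inv [DecidableEq Ω] (h : GoodModel Lc Ec Fc R V w x S)
    (O : ValuationSubring Ω) (hL : ∀ a ∈ Lc, a ∈ O) (c : Ω) (hc : c ∈ Lc)
    (hcS : c ∉ insert 0 ((S.erase 0).image (·⁻¹)))
    (h1 : x⁻¹ - c ∈ O) (h2 : (x⁻¹ - c)⁻¹ ∉ O) (t : Ω) (ht : t ∈ O) (ht' : t⁻¹ ∉ O) :
    t * (x⁻¹ - c)⁻¹ ∈ O := by
  have hx := goodModel_x_ne_zero h
  have hc0 : c ≠ 0 := by
    rintro rfl
    exact hcS (Finset.mem_insert_self _ _)
  have hcinvS : c⁻¹ ∉ S := by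
    intro hmem
    apply hcS
    apply Finset.mem_insert_of_mem
    rw [Finset.mem_image]
    exact ⟨c⁻¹, Finset.mem_erase.mpr ⟨inv_ne_zero hc0, hmem⟩, inv_inv c⟩
  have hcO : c ∈ O := hL c hc
  have hcinvO : c⁻¹ ∈ O := hL _ (Lc.inv_mem hc)
  obtain ⟨hne, hlt⟩ := (inv_not_mem_iff O).mp h2
  have hvc : O.valuation c = 1 := by
    apply le_antisymm ((ValuationSubring.valuation_le_one_iff O c).mpr hcO)
    have := (ValuationSubring.valuation_le_one_iff O c⁻¹).mpr hcinvO
    rw [map_inv₀] at this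
    exact (inv_le_one₀ (zero_lt_iff.mpr ((Valuation.ne_zero_iff _).mpr hc0))).mp this
  have hvxinv : O.valuation x⁻¹ = 1 := by
    have : x⁻¹ = (x⁻¹ - c) + c := by ring
    rw [this, Valuation.map_add_eq_of_lt_right _ (by rw [hvc]; exact hlt), hvc]
  have hvx : O.valuation x = 1 := by
    rw [map_inv₀] at hvxinv
    exact inv_eq_one.mp hvxinv
  have hxO : x ∈ O := (ValuationSubring.valuation_le_one_iff O x).mp hvx.le
  have hid : x - c⁻¹ = -(c⁻¹ * x * (x⁻¹ - c)) := by
    field_simp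
    ring
  have h1' : x - c⁻¹ ∈ O := by
    rw [hid]
    exact O.neg_mem _ (O.mul_mem _ _ (O.mul_mem _ _ hcinvO hxO) h1)
  have h2' : (x - c⁻¹)⁻¹ ∉ O := by
    rw [inv_not_mem_iff]
    refine ⟨?_, ?_⟩
    · rw [hid]
      exact neg_ne_zero.mpr (mul_ne_zero (mul_ne_zero (inv_ne_zero hc0) hx) hne)
    · rw [hid, Valuation.map_neg, _root_.map_mul, _root_.map_mul, map_inv₀, hvc, hvx, inv_one, one_mul, one_mul]
      exact hlt
  have key := h.unramified O hL c⁻¹ (Lc.inv_mem hc) hcinvS h1' h2' t ht ht'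
  have hid2 : t * (x⁻¹ - c)⁻¹ = -(t * (x - c⁻¹)⁻¹ * (c⁻¹ * x)) := by
    have hne' : x - c⁻¹ ≠ 0 := by
      rw [hid]
      exact neg_ne_zero.mpr (mul_ne_zero (mul_ne_zero (inv_ne_zero hc0) hx) hne)
    rw [hid]
    field_simp
  rw [hid2]
  exact O.neg_mem _ (O.mul_mem _ _ key (O.mul_mem _ _ hcinvO hxO))

/-- **`GoodModel` is symmetric under `x ↦ x⁻¹`**, with branch set
`S' = {0} ∪ {s⁻¹ : s ∈ S, s ≠ 0}`. -/
theorem goodModel_inv [DecidableEq Ω] (h : GoodModel Lc Ec Fc R V w x S) :
    GoodModel Lc Ec Fc R V w x⁻¹ (insert 0 ((S.erase 0).image (·⁻¹))) where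
  charZero := h.charZero
  R_le := h.R_le
  R_total := h.R_total
  w_mem := h.w_mem
  w_ne_zero := h.w_ne_zero
  w_inv_not_mem := h.w_inv_not_mem
  w_gen := h.w_gen
  w_discrete := h.w_discrete
  residue_perfect := h.residue_perfect
  E_le_L := h.E_le_L
  E_le_F := h.E_le_F
  L_algebraic := h.L_algebraic
  L_algClosed := h.L_algClosed
  E_closed_in_F := h.E_closed_in_F
  compositum := h.compositum
  x_mem := Fc.inv_mem h.x_mem
  x_transcendental := goodModel_transcendental_inv h
  finite := by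
    rw [ratField_inv]
    exact h.finite
  V_le := h.V_le
  V_total := h.V_total
  R_le_V := h.R_le_V
  w_inv_not_mem_V := h.w_inv_not_mem_V
  V_gen := h.V_gen
  x_mem_V := goodModel_x_inv_mem_V h
  gauss := goodModel_gauss_inv h
  qep_fin := h.qep_inf
  qep_inf := by
    rw [inv_inv]
    exact h.qep_fin
  separable := goodModel_separable_inv h
  S_mem := by
    intro s hs
    rcases Finset.mem_insert.mp hs with rfl | hs
    · exact R.zero_mem
    · obtain ⟨s', hs', rfl⟩ := Finset.mem_image.mp hs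
      obtain ⟨hs0, hsS⟩ := Finset.mem_erase.mp hs'
      exact h.S_unit s' hsS hs0
  S_distinct := by
    intro a ha b hb hab
    rcases Finset.mem_insert.mp ha with rfl | ha
    · rcases Finset.mem_insert.mp hb with rfl | hb
      · exact absurd rfl hab
      · obtain ⟨s', hs', rfl⟩ := Finset.mem_image.mp hb
        obtain ⟨hs0, hsS⟩ := Finset.mem_erase.mp hs'
        have : (0 - s'⁻¹)⁻¹ = -s' := by
          rw [zero_sub, inv_neg, inv_inv]
        rw [this]
        exact R.neg_mem (h.S_mem s' hsS)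
    · obtain ⟨s', hs', rfl⟩ := Finset.mem_image.mp ha
      obtain ⟨hs0, hsS⟩ := Finset.mem_erase.mp hs'
      rcases Finset.mem_insert.mp hb with rfl | hb
      · have : (s'⁻¹ - 0)⁻¹ = s' := by
          rw [sub_zero, inv_inv]
        rw [this]
        exact h.S_mem s' hsS
      · obtain ⟨t', ht', rfl⟩ := Finset.mem_image.mp hb
        obtain ⟨ht0, htS⟩ := Finset.mem_erase.mp ht'
        have hst : s' ≠ t' := by
          rintro rfl
          exact hab rfl
        have hts : t' - s' ≠ 0 := sub_ne_zero.mpr (Ne.symm hst)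
        have : (s'⁻¹ - t'⁻¹)⁻¹ = s' * t' * (t' - s')⁻¹ := by
          field_simp
        rw [this]
        exact R.mul_mem (R.mul_mem (h.S_mem s' hsS) (h.S_mem t' htS))
          (h.S_distinct t' htS s' hsS (Ne.symm hst))
  S_unit := by
    intro s hs hs0
    rcases Finset.mem_insert.mp hs with rfl | hs
    · exact absurd rfl hs0
    · obtain ⟨s', hs', rfl⟩ := Finset.mem_image.mp hs
      obtain ⟨_, hsS⟩ := Finset.mem_erase.mp hs'
      rw [inv_inv]
      exact h.S_mem s' hsS
  unramified := goodModel_unramified_inv h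

/-- A good family for `x` is a good family for `x⁻¹`. -/
theorem goodFamily_inv [DecidableEq Ω] {𝓕 : Set (Model Ω)} (h : GoodFamily Lc x S 𝓕) :
    GoodFamily Lc x⁻¹ (insert 0 ((S.erase 0).image (·⁻¹))) 𝓕 where
  good := fun p hp => goodModel_inv (h.good p hp)
  enlarge := h.enlarge

end GoodModel

end Fermat.Agent.S18.H425

end
end
-- ===== PACK-END S18/H425/GoodModelInv.lean

-- ===== PACK-BEGIN S33/H692/OrdAlgField.lean
section
/-
Row S33 (ordinary at `p ‖ N`), piece EIG, pure algebra, field level (helper692).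

`G` a group, `I` a set of elements of `G` (the inertia group), `F` a field.

* `augSub I π` : the augmentation submodule `I_aug M = ⟨σ x - x : σ ∈ I⟩` of a module with action.
* `augSub_eq_top_of_algHom` : if `Ψ : End W → End V` is an algebra map with `Ψ (ρ g) = π g`
  (Boston–Lenstra–Ribet) and `I_aug W = W`, then `I_aug V = V`.
* `augSub_ne_top_of_line` : if `dim W = 2`, `V ≠ 0` and `(σ - 1) W ⊆ L ≠ W` for all `σ ∈ I`, then
  `I_aug V ≠ V`.
* `ord_identities_of_augSub_ne_top` : if `dim W = 2` and `I_aug W ≠ W` then, for `σ₀, σ ∈ I` and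
  `τ` normalising `I`,  `(σ₀ - det σ₀)(σ - 1) = 0` and `(σ₀ - det σ₀) τ (σ₀ - 1) = 0` on `W`.
-/



set_option autoImplicit false

noncomputable section

namespace Fermat.Agent.S33.H692

open Module

section Aug

variable {A : Type*} [CommRing A] {M : Type*} [AddCommGroup M] [Module A M]
  {G : Type*} [Group G]

/-- The augmentation submodule `I_aug M`: the span of all `σ x - x`, `σ ∈ I`. -/
def augSub (I : Set G) (π : G →* Module.End A M) : Submodule A M :=
  Submodule.span A {y | ∃ σ ∈ I, ∃ x, y = π σ x - x}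

theorem sub_mem_augSub {I : Set G} (π : G →* Module.End A M) {σ : G} (hσ : σ ∈ I) (x : M) :
    π σ x - x ∈ augSub I π :=
  Submodule.subset_span ⟨σ, hσ, x, rfl⟩

theorem augSub_le_iff {I : Set G} (π : G →* Module.End A M) (N : Submodule A M) :
    augSub I π ≤ N ↔ ∀ σ ∈ I, ∀ x, π σ x - x ∈ N := by
  constructor
  · intro h σ hσ x
    exact h (sub_mem_augSub π hσ x)
  · intro h
    refine Submodule.span_le.mpr ?_
    rintro y ⟨σ, hσ, x, rfl⟩
    exact h σ hσ x

/-- `I_aug M` is stable under every `τ` normalising `I`. -/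
theorem map_mem_augSub {I : Set G} (π : G →* Module.End A M) {τ : G}
    (hτ : ∀ σ ∈ I, τ * σ * τ⁻¹ ∈ I) {y : M} (hy : y ∈ augSub I π) : π τ y ∈ augSub I π := by
  induction hy using Submodule.span_induction with
  | mem y hy =>
    obtain ⟨σ, hσ, x, rfl⟩ := hy
    have e : π τ (π σ x - x) = π (τ * σ * τ⁻¹) (π τ x) - π τ x := by
      rw [map_sub, ← Module.End.mul_apply, ← Module.End.mul_apply, ← map_mul, ← map_mul,
        inv_mul_cancel_right]
    rw [e]
    exact sub_mem_augSub π (hτ σ hσ) _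
  | zero =>
    rw [map_zero]
    exact zero_mem _
  | add x y _ _ hx hy =>
    rw [map_add]
    exact add_mem hx hy
  | smul a x _ hx =>
    rw [map_smul]
    exact Submodule.smul_mem _ _ hx

/-- `I_aug M` is stable under `I`. -/
theorem map_mem_augSub_self {I : Set G} (π : G →* Module.End A M) {σ : G} (hσ : σ ∈ I) {y : M}
    (hy : y ∈ augSub I π) : π σ y ∈ augSub I π := by
  have := add_mem (sub_mem_augSub π hσ y) hy
  rwa [sub_add_cancel] at this

end Aug

section Field

variable {F : Type*} [Field F] {G : Type*} [Group G]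
  {W V : Type*} [AddCommGroup W] [Module F W] [AddCommGroup V] [Module F V]

/-- Rank-one endomorphisms with values in `I_aug W` lie in the right ideal generated by the
`ρ σ - 1`, `σ ∈ I`. -/
theorem smulRight_mem_span (ρ : G →* Module.End F W) (I : Set G) (l : W →ₗ[F] F) {w : W}
    (hw : w ∈ augSub I ρ) :
    l.smulRight w ∈ Submodule.span F {X : Module.End F W | ∃ σ ∈ I, ∃ Y, X = (ρ σ - 1) * Y} := by
  induction hw using Submodule.span_induction with
  | mem y hy =>
    obtain ⟨σ, hσ, x, rfl⟩ := hy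
    refine Submodule.subset_span ⟨σ, hσ, l.smulRight x, ?_⟩
    ext z
    simp only [LinearMap.smulRight_apply, Module.End.mul_apply, LinearMap.sub_apply,
      Module.End.one_apply, map_smul, smul_sub]
  | zero =>
    have : l.smulRight (0 : W) = 0 := by
      ext z
      simp
    rw [this]
    exact zero_mem _
  | add x y _ _ hx hy =>
    have : l.smulRight (x + y) = l.smulRight x + l.smulRight y := by
      ext z
      simp
    rw [this]
    exact add_mem hx hy
  | smul a x _ hx =>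
    have : l.smulRight (a • x) = a • l.smulRight x := by
      ext z
      simp only [LinearMap.smulRight_apply, LinearMap.smul_apply]
      exact smul_comm _ _ _
    rw [this]
    exact Submodule.smul_mem _ _ hx

/-- If `I_aug W = W` then `1` lies in the right ideal generated by the `ρ σ - 1`, `σ ∈ I`. -/
theorem one_mem_span_of_augSub_eq_top [Module.Finite F W] (ρ : G →* Module.End F W) (I : Set G)
    (h : augSub I ρ = ⊤) :
    (1 : Module.End F W) ∈
      Submodule.span F {X : Module.End F W | ∃ σ ∈ I, ∃ Y, X = (ρ σ - 1) * Y} := by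
  classical
  let b := Module.Free.chooseBasis F W
  have h1 : (1 : Module.End F W) = ∑ i, (b.coord i).smulRight (b i) := by
    ext z
    simp only [Module.End.one_apply, LinearMap.coe_sum, Finset.sum_apply,
      LinearMap.smulRight_apply, Module.Basis.coord_apply]
    exact (b.sum_repr z).symm
  have hsum : ∑ i, (b.coord i).smulRight (b i) ∈
      Submodule.span F {X : Module.End F W | ∃ σ ∈ I, ∃ Y, X = (ρ σ - 1) * Y} := by
    refine Submodule.sum_mem _ fun i _ => smulRight_mem_span ρ I _ ?_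
    rw [h]
    exact Submodule.mem_top
  rwa [← h1] at hsum

/-- **Transfer of vanishing coinvariants.** -/
theorem augSub_eq_top_of_algHom [Module.Finite F W] (ρ : G →* Module.End F W)
    (π : G →* Module.End F V) (Ψ : Module.End F W →ₐ[F] Module.End F V)
    (hΨ : ∀ g, Ψ (ρ g) = π g) (I : Set G) (h : augSub I ρ = ⊤) : augSub I π = ⊤ := by
  have key : ∀ X ∈ Submodule.span F {X : Module.End F W | ∃ σ ∈ I, ∃ Y, X = (ρ σ - 1) * Y},
      ∀ v : V, Ψ X v ∈ augSub I π := by
    intro X hX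
    induction hX using Submodule.span_induction with
    | mem X hX =>
      obtain ⟨σ, hσ, Y, rfl⟩ := hX
      intro v
      rw [map_mul, map_sub, map_one, hΨ, Module.End.mul_apply, LinearMap.sub_apply,
        Module.End.one_apply]
      exact sub_mem_augSub π hσ _
    | zero =>
      intro v
      rw [map_zero]
      exact zero_mem _
    | add x y _ _ hx hy =>
      intro v
      rw [map_add]
      exact add_mem (hx v) (hy v)
    | smul a x _ hx =>
      intro v
      rw [map_smul]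
      exact Submodule.smul_mem _ _ (hx v)
  rw [eq_top_iff]
  intro v _
  have := key 1 (one_mem_span_of_augSub_eq_top ρ I h) v
  rwa [map_one] at this

/-- The endomorphism ring of a two-dimensional space is simple. -/
theorem isSimpleRing_end (h2 : Module.finrank F W = 2) : IsSimpleRing (Module.End F W) := by
  have : Module.Finite F W := Module.finite_of_finrank_eq_succ h2
  let b : Module.Basis (Fin 2) F W := Module.finBasisOfFinrankEq F W h2
  exact IsSimpleRing.of_ringEquiv (LinearMap.toMatrixAlgEquiv b).symm.toRingEquiv inferInstance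

/-- **Non-vanishing of coinvariants from a line.** -/
theorem augSub_ne_top_of_line (h2 : Module.finrank F W = 2) (ρ : G →* Module.End F W)
    (π : G →* Module.End F V) (Ψ : Module.End F W →ₐ[F] Module.End F V)
    (hΨ : ∀ g, Ψ (ρ g) = π g) [Nontrivial V] (I : Set G) (L : Submodule F W) (hL : L ≠ ⊤)
    (hI : ∀ σ ∈ I, ∀ x, ρ σ x - x ∈ L) : augSub I π ≠ ⊤ := by
  have hfin : Module.Finite F W := Module.finite_of_finrank_eq_succ h2
  have hntW : Nontrivial W := Module.nontrivial_of_finrank_pos (R := F) (by omega)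
  obtain ⟨l, hl0, hl⟩ := Submodule.exists_le_ker_of_lt_top L (lt_top_iff_ne_top.mpr hL)
  obtain ⟨w₀, hw₀⟩ := exists_ne (0 : W)
  have hf0 : l.smulRight w₀ ≠ 0 := by
    intro h0
    apply hl0
    ext z
    have := congrArg (fun E : Module.End F W => E z) h0
    simp only [LinearMap.smulRight_apply, LinearMap.zero_apply, smul_eq_zero] at this
    rcases this with h | h
    · exact h
    · exact (hw₀ h).elim
  have hsimple := isSimpleRing_end h2
  have hinj : Function.Injective Ψ := (Ψ : Module.End F W →+* Module.End F V).injective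
  have hΨf : Ψ (l.smulRight w₀) ≠ 0 := by
    intro h0
    apply hf0
    apply hinj
    rw [h0, map_zero]
  intro htop
  apply hΨf
  ext v
  have hv : v ∈ augSub I π := by
    rw [htop]
    exact Submodule.mem_top
  rw [LinearMap.zero_apply]
  induction hv using Submodule.span_induction with
  | mem y hy =>
    obtain ⟨σ, hσ, x, rfl⟩ := hy
    have e : l.smulRight w₀ * (ρ σ - 1) = 0 := by
      ext z
      simp only [Module.End.mul_apply, LinearMap.sub_apply, Module.End.one_apply,
        LinearMap.smulRight_apply, LinearMap.zero_apply]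
      have : l (ρ σ z - z) = 0 := LinearMap.mem_ker.mp (hl (hI σ hσ z))
      rw [this, zero_smul]
    have e2 := congrArg Ψ e
    rw [map_mul, map_sub, map_one, hΨ, map_zero] at e2
    have e3 := congrArg (fun E : Module.End F V => E x) e2
    simpa only [Module.End.mul_apply, LinearMap.sub_apply, Module.End.one_apply,
      LinearMap.zero_apply] using e3
  | zero => rw [map_zero]
  | add x y _ _ hx hy => rw [map_add, hx, hy, add_zero]
  | smul a x _ hx => rw [map_smul, hx, smul_zero]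

/-- **The line lemma.**  If `dim W = 2` and `I_aug W ≠ W`, then every `σ₀ ∈ I` acts on `I_aug W`
through the scalar `det σ₀`. -/
theorem apply_eq_det_smul_of_mem_augSub (h2 : Module.finrank F W = 2) (ρ : G →* Module.End F W)
    (I : Set G) (hne : augSub I ρ ≠ ⊤) {σ₀ : G} (hσ₀ : σ₀ ∈ I) {y : W} (hy : y ∈ augSub I ρ) :
    ρ σ₀ y = LinearMap.det (ρ σ₀) • y := by
  have hfin : Module.Finite F W := Module.finite_of_finrank_eq_succ h2
  have hlt : Module.finrank F (augSub I ρ) < 2 := by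
    rw [← h2]
    exact Submodule.finrank_lt hne
  have h01 : Module.finrank F (augSub I ρ) = 0 ∨ Module.finrank F (augSub I ρ) = 1 := by omega
  rcases h01 with h0 | h1
  · have hbot : augSub I ρ = ⊥ := Submodule.finrank_eq_zero.mp h0
    rw [hbot, Submodule.mem_bot] at hy
    rw [hy, map_zero, smul_zero]
  · obtain ⟨⟨w, hwW⟩, hw0, hsp⟩ := finrank_eq_one_iff'.mp h1
    have hw0' : w ≠ 0 := fun h => hw0 (Subtype.ext h)
    have hspan : ∀ z ∈ augSub I ρ, ∃ c : F, c • w = z := by
      intro z hz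
      obtain ⟨c, hc⟩ := hsp ⟨z, hz⟩
      exact ⟨c, congrArg Subtype.val hc⟩
    obtain ⟨u, hu⟩ : ∃ u, u ∉ augSub I ρ := by
      by_contra hcon
      push Not at hcon
      exact hne (eq_top_iff.mpr fun x _ => hcon x)
    obtain ⟨χ, hχ⟩ := hspan _ (map_mem_augSub_self ρ hσ₀ hwW)
    obtain ⟨a, ha⟩ := hspan _ (sub_mem_augSub ρ hσ₀ u)
    have hli : LinearIndependent F ![w, u] := by
      rw [LinearIndependent.pair_iff]
      intro s t hst
      have ht : t = 0 := by
        by_contra ht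
        apply hu
        have : u = (-(t⁻¹ * s)) • w := by
          have h1 : t • u = -(s • w) := by
            rw [eq_neg_iff_add_eq_zero, add_comm]
            exact hst
          calc u = t⁻¹ • (t • u) := by rw [smul_smul, inv_mul_cancel₀ ht, one_smul]
            _ = (-(t⁻¹ * s)) • w := by rw [h1, smul_neg, smul_smul, neg_smul]
        rw [this]
        exact Submodule.smul_mem _ _ hwW
      refine ⟨?_, ht⟩
      rw [ht, zero_smul, add_zero] at hst
      exact (smul_eq_zero.mp hst).resolve_right hw0'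
    let b : Module.Basis (Fin 2) F W :=
      basisOfLinearIndependentOfCardEqFinrank hli (by simp [h2])
    have hb0 : b 0 = w := by simp [b]
    have hb1 : b 1 = u := by simp [b]
    have e0 : ρ σ₀ (b 0) = χ • b 0 := by rw [hb0, hχ]
    have e1 : ρ σ₀ (b 1) = b 1 + a • b 0 := by
      rw [hb0, hb1, ha]
      abel
    have hdet : LinearMap.det (ρ σ₀) = χ := by
      rw [← LinearMap.det_toMatrix b, Matrix.det_fin_two]
      simp only [LinearMap.toMatrix_apply, e0, e1, map_add, map_smul, Module.Basis.repr_self,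
        Finsupp.add_apply, Finsupp.smul_apply, Finsupp.single_apply]
      simp
    obtain ⟨c, rfl⟩ := hspan y hy
    rw [map_smul, ← hχ, hdet, smul_comm]

/-- **Identity (O2).** -/
theorem ord_identity_two (h2 : Module.finrank F W = 2) (ρ : G →* Module.End F W)
    (I : Set G) (hne : augSub I ρ ≠ ⊤) {σ₀ σ : G} (hσ₀ : σ₀ ∈ I) (hσ : σ ∈ I) :
    (ρ σ₀ - LinearMap.det (ρ σ₀) • (1 : Module.End F W)) * (ρ σ - 1) = 0 := by
  ext x
  have h := apply_eq_det_smul_of_mem_augSub h2 ρ I hne hσ₀ (sub_mem_augSub ρ hσ x)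
  simp only [Module.End.mul_apply, LinearMap.sub_apply, Module.End.one_apply,
    LinearMap.smul_apply, LinearMap.zero_apply]
  rw [sub_eq_zero]
  exact h

/-- **Identity (O3).** -/
theorem ord_identity_three (h2 : Module.finrank F W = 2) (ρ : G →* Module.End F W)
    (I : Set G) (hne : augSub I ρ ≠ ⊤) {σ₀ τ : G} (hσ₀ : σ₀ ∈ I)
    (hτ : ∀ σ ∈ I, τ * σ * τ⁻¹ ∈ I) :
    (ρ σ₀ - LinearMap.det (ρ σ₀) • (1 : Module.End F W)) * ρ τ * (ρ σ₀ - 1) = 0 := by
  ext x
  have h := apply_eq_det_smul_of_mem_augSub h2 ρ I hne hσ₀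
    (map_mem_augSub ρ hτ (sub_mem_augSub ρ hσ₀ x))
  simp only [Module.End.mul_apply, LinearMap.sub_apply, Module.End.one_apply,
    LinearMap.smul_apply, LinearMap.zero_apply]
  rw [sub_eq_zero]
  exact h

end Field

end Fermat.Agent.S33.H692

end
end
-- ===== PACK-END S33/H692/OrdAlgField.lean

-- ===== PACK-BEGIN A3/H319/LevelPull.lean
section



/-!
# A3 / LEVEL (helper319), part 1: the pull-back (conorm) on `Pic⁰` along an algebra map

Generic (Prelude language).  For `φ : F →ₐ[K] F'` integral with the fundamental identity: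

* `pic0Pull φ hφ hFI : Pic0 K F →+ Pic0 K F'`, `pic0Pull_mk`;
* `pic0Pull_smul` : it commutes with semilinear automorphisms intertwined by `φ`;
* `isKummerClass_pic0Pull` : it sends the Kummer class of `f` to the Kummer class of `φ f`.
-/

set_option autoImplicit false
set_option linter.style.haveILetI false

noncomputable section

namespace Fermat.Agent.A3.H319

open AlgebraicCurve Fermat.Agent.S29

variable {K F F' : Type*} [Field K] [Field F] [Field F'] [Algebra K F] [Algebra K F']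
variable [HasPrincipalDivisors K F']
variable (φ : F →ₐ[K] F') (hφ : φ.toRingHom.IsIntegral)
variable (hFI : FundamentalIdentityAlong K φ hφ)

/-- Pull-back of degree-zero divisors along `φ`. -/
def degZeroPull :
    Divisor.degZero (K := K) (F := F) →+ Divisor.degZero (K := K) (F := F') :=
  ((Divisor.pullbackAlong φ hφ).domRestrict (Divisor.degZero (K := K) (F := F))).codRestrict _
    (fun D => Divisor.pullbackAlong_mem_degZero φ hφ hFI D.2)

@[simp]
theorem coe_degZeroPull (D : Divisor.degZero (K := K) (F := F)) :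
    (degZeroPull φ hφ hFI D : Divisor K F') = Divisor.pullbackAlong φ hφ (D : Divisor K F) :=
  rfl

/-- The pull-back (conorm) `Pic⁰(F) → Pic⁰(F')` along `φ`. -/
def pic0Pull : Pic0 K F →+ Pic0 K F' :=
  QuotientAddGroup.map _ _ (degZeroPull φ hφ hFI) (by
    rintro ⟨D, hD0⟩ hD
    simp only [AddSubgroup.mem_addSubgroupOf] at hD ⊢
    exact Divisor.isPrincipal_pullbackAlong φ hφ hD)

theorem pic0Pull_mk (D : Divisor.degZero (K := K) (F := F)) :
    pic0Pull φ hφ hFI (Pic0.mk D) = Pic0.mk (degZeroPull φ hφ hFI D) :=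
  rfl

/-- The pull-back commutes with semilinear automorphisms intertwined by `φ`. -/
theorem pic0Pull_smul {g : SemilinearAut K F} {g' : SemilinearAut K F'}
    (h : SemilinearAut.IntertwinesAlong (φ : F →+* F') g g') (x : Pic0 K F) :
    pic0Pull φ hφ hFI (g • x) = g' • pic0Pull φ hφ hFI x := by
  obtain ⟨D, rfl⟩ := Pic0.mk_surjective x
  rw [SemilinearAut.pic0_smul_mk, pic0Pull_mk, pic0Pull_mk, SemilinearAut.pic0_smul_mk]
  refine congrArg Pic0.mk (Subtype.ext ?_)
  rw [coe_degZeroPull, SemilinearAut.coe_degZeroSMulHom, SemilinearAut.coe_degZeroSMulHom,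
    coe_degZeroPull]
  exact H571.pullbackAlong_smul φ hφ h (D : Divisor K F)

/-- The pull-back sends the Kummer class of `f` to the Kummer class of `φ f`. -/
theorem isKummerClass_pic0Pull {n : ℤ} {f : F} {x : Pic0 K F}
    (hx : H455.IsKummerClass n f x) :
    H455.IsKummerClass n (φ f) (pic0Pull φ hφ hFI x) := by
  obtain ⟨hf, D, rfl, hD⟩ := hx
  refine ⟨(map_ne_zero φ).mpr hf, degZeroPull φ hφ hFI D, (pic0Pull_mk φ hφ hFI D).symm,
    fun w => ?_⟩
  rw [coe_degZeroPull, Divisor.pullbackAlong_apply, Place.ord_restrictAlong φ hφ w f,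
    ← hD (w.restrictAlong φ hφ)]
  ring

end Fermat.Agent.A3.H319

end
end
-- ===== PACK-END A3/H319/LevelPull.lean

-- ===== PACK-BEGIN S19/Spec.lean
section


/-!
# Cell A3 (S19) — FROZEN second-level interface (row-lead helper15, after deputy helper979)

    OrderStatement  <==  LEVEL  +  OrderStatementGood
    OrderStatementGood  <==  FIN + CONT + UNR + LOCAL

* `IsContAddAction`, `CoordDatum`, `IsInertiaAt`, `LocalCoordDatum` are taken verbatim from the
  deputy's spec `origin/helper979:Fermat/Agent/S19/H979/Spec.lean` (namespace changed).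
* `UnrStatement`   (UNR, pure algebra)  : local coordinates at ONE place, equivariant under
                   inertia only  ==>  global coordinates.
* `LocalStatement` (LOCAL = DISC + GR)  : the torsion of `J₀(N)` at a GOOD level has local
                   coordinates.  Its decomposition into DISC (abstract `RedDatum`) and GR (the
                   instance for `X₀(N)`) is frozen by helper979 / helper799 in their own spec files.
* `LevelStatement` (LEVEL, only needed for `ℓ = 2, 3`): the torsion at level `N` embeds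
                   Galois-equivariantly into the torsion at a good level.

Proved here (no holes): `orderDatum_of_coordDatum`, `OrderDatum.comap`, `orderStatement_of_good`,
`orderStatementGood_of`.
-/

set_option autoImplicit false

noncomputable section

namespace Fermat.Agent.S19

/-- The action is by additive automorphisms and every point has an open stabiliser. -/
structure IsContAddAction {M : Type} [AddCommGroup M] (act : GalQ → M → M) : Prop where
  act_one : ∀ m, act 1 m = m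
  act_mul : ∀ σ τ m, act (σ * τ) m = act σ (act τ m)
  act_add : ∀ σ m m', act σ (m + m') = act σ m + act σ m'
  cont : ∀ m, ∃ L : IntermediateField ℚ Qb, FiniteDimensional ℚ L ∧
    ∀ σ : GalQ, (∀ a ∈ L, σ a = a) → act σ m = m

/-- Global integral Galois-equivariant coordinates with `Zbar`-polynomial addition. -/
structure CoordDatum (ℓ : ℕ) (M : Type) [AddCommGroup M] (act : GalQ → M → M) where
  ι : Type
  fin : Finite ι
  Φ : M → ι → Qb
  inj : Function.Injective Φ
  equivariant : ∀ σ m i, Φ (act σ m) i = σ (Φ m i)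
  integral : ∀ m i, IsIntegral (Rl ℓ) (Φ m i)
  add_mem : ∀ i, (fun p : M × M => Φ (p.1 + p.2) i) ∈
      Algebra.adjoin (Zb ℓ) ({f | ∃ j, f = fun p : M × M => Φ p.1 j} ∪
        {f | ∃ j, f = fun p : M × M => Φ p.2 j})

/-- `σ` lies in the inertia group of the valuation ring `V`. -/
def IsInertiaAt (V : ValuationSubring Qb) (σ : GalQ) : Prop :=
  ∀ a : Qb, a ∈ V → σ a - a ∈ V.nonunits

/-- Integral coordinates at ONE place above `ℓ`, equivariant under inertia only; the addition
polynomials may have arbitrary coefficients in `V`. -/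
structure LocalCoordDatum (ℓ : ℕ) (M : Type) [AddCommGroup M] (act : GalQ → M → M) where
  V : ValuationSubring Qb
  ell_mem : (ℓ : Qb) ∈ V.nonunits
  ι : Type
  fin : Finite ι
  Ψ : M → ι → Qb
  inj : Function.Injective Ψ
  integral : ∀ m i, Ψ m i ∈ V
  equivariant : ∀ σ, IsInertiaAt V σ → ∀ m i, Ψ (act σ m) i = σ (Ψ m i)
  add_mem : ∀ i, (fun p : M × M => Ψ (p.1 + p.2) i) ∈
      Algebra.adjoin V ({f | ∃ j, f = fun p : M × M => Ψ p.1 j} ∪
        {f | ∃ j, f = fun p : M × M => Ψ p.2 j})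

/-- **UNR** (unramified descent; pure algebra). -/
def UnrStatement : Prop :=
  ∀ (ℓ : ℕ) [Fact ℓ.Prime] (M : Type) [AddCommGroup M] [Finite M] (act : GalQ → M → M),
    IsContAddAction act → LocalCoordDatum ℓ M act → Nonempty (CoordDatum ℓ M act)

/-- Levels at which the S18 cell proves good reduction of the coordinate-line model. -/
def GoodLevel (N ℓ : ℕ) : Prop := 5 ≤ ℓ ∨ (ℓ = 3 ∧ 2 ∣ N) ∨ (ℓ = 2 ∧ 3 ∣ N)

/-- **LOCAL** (= DISC + GR): local coordinates on the torsion at a good level. -/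
def LocalStatement : Prop :=
  ∀ (N : ℕ) [NeZero N] (ℓ : ℕ) [Fact ℓ.Prime], ¬ ℓ ∣ N → GoodLevel N ℓ → ∀ k : ℕ,
    Finite (Tors N ℓ k) → Nonempty (LocalCoordDatum ℓ (Tors N ℓ k) (torsAct N ℓ k))

/-- **CONT**: the Galois action on the torsion is additive with open stabilisers. -/
def ContStatement : Prop :=
  ∀ (N : ℕ) [NeZero N] (ℓ : ℕ) [Fact ℓ.Prime] (k : ℕ), IsContAddAction (torsAct N ℓ k)

/-- **ORDER at good levels.** -/
def OrderStatementGood : Prop :=
  ∀ (N : ℕ) [NeZero N] (ℓ : ℕ) [Fact ℓ.Prime], ¬ ℓ ∣ N → GoodLevel N ℓ → ∀ k : ℕ,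
    Nonempty (OrderDatum ℓ (Tors N ℓ k) (torsAct N ℓ k))

/-- **LEVEL**: the torsion at level `N` embeds equivariantly into the torsion at a good level
(`M = N` if `ℓ ≥ 5`; `M = lcm(N,2)` if `ℓ = 3`; `M = lcm(N,3)` if `ℓ = 2`; the map is the
conorm). -/
def LevelStatement : Prop :=
  ∀ (N : ℕ) [NeZero N] (ℓ : ℕ) [Fact ℓ.Prime], ¬ ℓ ∣ N → ∀ k : ℕ,
    ∃ (M : ℕ) (_ : NeZero M) (k' : ℕ), ¬ ℓ ∣ M ∧ GoodLevel M ℓ ∧
      ∃ j : Tors N ℓ k →+ Tors M ℓ k', Function.Injective j ∧
        ∀ (σ : GalQ) (x : Tors N ℓ k), j (torsAct N ℓ k σ x) = torsAct M ℓ k' σ (j x)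

/-! ## Proved glue -/

/-- Global coordinates give an order datum. -/
theorem orderDatum_of_coordDatum {ℓ : ℕ} {M : Type} [AddCommGroup M] {act : GalQ → M → M}
    (hadd : ∀ (σ : GalQ) (a b : M), act σ (a + b) = act σ a + act σ b)
    (D : CoordDatum ℓ M act) : Nonempty (OrderDatum ℓ M act) := by
  refine ⟨{ act_add := hadd
            gens := Set.range fun (i : D.ι) (m : M) => D.Φ m i
            equivariant := ?_
            integral := ?_
            separates := ?_
            add_mem := ?_ }⟩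
  · rintro f ⟨i, rfl⟩ σ m
    exact D.equivariant σ m i
  · rintro f ⟨i, rfl⟩ m
    exact D.integral m i
  · intro m m' h
    apply D.inj
    funext i
    exact h _ ⟨i, rfl⟩
  · rintro f ⟨i, rfl⟩
    refine Algebra.adjoin_mono ?_ (D.add_mem i)
    rintro g (⟨j, rfl⟩ | ⟨j, rfl⟩)
    · exact Or.inl ⟨_, ⟨j, rfl⟩, rfl⟩
    · exact Or.inr ⟨_, ⟨j, rfl⟩, rfl⟩

/-- Restriction of an order datum along an injective equivariant additive map
(closure under Galois submodules). -/
theorem OrderDatum.comap {ℓ : ℕ} {M M' : Type} [AddCommGroup M] [AddCommGroup M']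
    {act : GalQ → M → M} {act' : GalQ → M' → M'} (D : OrderDatum ℓ M act)
    (hadd' : ∀ (σ : GalQ) (a b : M'), act' σ (a + b) = act' σ a + act' σ b)
    (j : M' →+ M) (hj : Function.Injective j)
    (hjσ : ∀ (σ : GalQ) (x : M'), j (act' σ x) = act σ (j x)) :
    Nonempty (OrderDatum ℓ M' act') := by
  refine ⟨{ act_add := hadd'
            gens := (fun f : M → Qb => f ∘ j) '' D.gens
            equivariant := ?_
            integral := ?_
            separates := ?_
            add_mem := ?_ }⟩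
  · rintro _ ⟨f, hf, rfl⟩ σ m
    show f (j (act' σ m)) = σ (f (j m))
    rw [hjσ]
    exact D.equivariant f hf σ (j m)
  · rintro _ ⟨f, hf, rfl⟩ m
    exact D.integral f hf (j m)
  · intro m m' h
    apply hj
    apply D.separates
    intro f hf
    exact h _ ⟨f, hf, rfl⟩
  · rintro _ ⟨f, hf, rfl⟩
    -- pull back along `j × j`
    let φ : (M × M → Qb) →ₐ[Zb ℓ] (M' × M' → Qb) :=
      { toFun := fun F p => F (j p.1, j p.2)
        map_one' := rfl
        map_mul' := fun _ _ => rfl
        map_zero' := rfl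
        map_add' := fun _ _ => rfl
        commutes' := fun _ => rfl }
    have h1 : φ (fun p : M × M => f (p.1 + p.2)) ∈
        (Algebra.adjoin (Zb ℓ) (coordFunctions D.gens)).map φ :=
      ⟨_, D.add_mem f hf, rfl⟩
    have h2 : (fun p : M' × M' => (f ∘ j) (p.1 + p.2)) = φ (fun p : M × M => f (p.1 + p.2)) := by
      funext p
      show f (j (p.1 + p.2)) = f (j p.1 + j p.2)
      rw [map_add]
    rw [h2]
    rw [AlgHom.map_adjoin] at h1
    refine Algebra.adjoin_mono ?_ h1
    rintro _ ⟨g, (⟨h, hh, rfl⟩ | ⟨h, hh, rfl⟩), rfl⟩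
    · exact Or.inl ⟨h ∘ j, ⟨h, hh, rfl⟩, rfl⟩
    · exact Or.inr ⟨h ∘ j, ⟨h, hh, rfl⟩, rfl⟩

/-- ORDER at all levels from ORDER at good levels and LEVEL. -/
theorem orderStatement_of_good (hgood : OrderStatementGood) (hlevel : LevelStatement) :
    OrderStatement := by
  intro N _ ℓ _ hℓN k
  obtain ⟨M, hM, k', hℓM, hg, j, hj, hjσ⟩ := hlevel N ℓ hℓN k
  obtain ⟨D⟩ := hgood M ℓ hℓM hg k'
  exact D.comap (torsAct_add N ℓ k) j hj hjσ

/-- ORDER at good levels from FIN, CONT, UNR and LOCAL. -/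
theorem orderStatementGood_of (hfin : FinStatement) (hcont : ContStatement)
    (hunr : UnrStatement) (hlocal : LocalStatement) : OrderStatementGood := by
  intro N _ ℓ _ hℓN hg k
  have hF : Finite (Tors N ℓ k) := hfin N ℓ k
  obtain ⟨L⟩ := hlocal N ℓ hℓN hg k hF
  obtain ⟨C⟩ := hunr ℓ (Tors N ℓ k) (torsAct N ℓ k) (hcont N ℓ k) L
  exact orderDatum_of_coordDatum (torsAct_add N ℓ k) C

end Fermat.Agent.S19

end

end
-- ===== PACK-END S19/Spec.lean

-- ===== PACK-BEGIN S14/H937/Lift.lean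
section



/-!
# Lifting decomposition-group elements along a closed normal subgroup of a profinite group

Companion of `Fermat.Agent.S13.H175.exists_inertia_lift` (helper175): `G` profinite acting
continuously on a discrete commutative ring `B`, `N` a closed normal subgroup, `Q` a prime of `B`.
If `g₀ ∈ G` stabilises `Q ∩ B^N` then some `σ ∈ g₀ N` stabilises `Q`.
-/

set_option autoImplicit false

open scoped Pointwise

namespace Fermat.Agent.S14.H937

universe u

variable {B : Type*} [CommRing B]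
variable {G : Type u} [Group G] [MulSemiringAction G B]
variable [TopologicalSpace G] [CompactSpace G] [TotallyDisconnectedSpace G]
variable [IsTopologicalGroup G] [TopologicalSpace B] [DiscreteTopology B] [ContinuousSMul G B]

theorem exists_stabilizer_lift (N : Subgroup G) [hn : N.Normal] (hN : IsClosed (N : Set G))
    (Q : Ideal B) [hQ : Q.IsPrime] (g₀ : G)
    (h₀ : ∀ x : B, (∀ n ∈ N, n • x = x) → (g₀ • x ∈ Q ↔ x ∈ Q)) :
    ∃ σ : G, g₀⁻¹ * σ ∈ N ∧ σ • Q = Q := by
  have : CompactSpace N := isCompact_iff_compactSpace.mp hN.isCompact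
  have := Fermat.Agent.S13.H175.isInvariant_fixedPoints (B := B) N
  have hunder : (g₀ • Q).under (FixedPoints.subalgebra ℤ B N) =
      Q.under (FixedPoints.subalgebra ℤ B N) := by
    ext ⟨x, hx⟩
    have hx' : ∀ n ∈ N, n • x = x := fun n hn' => hx ⟨n, hn'⟩
    simp only [Ideal.mem_comap]
    show x ∈ g₀ • Q ↔ x ∈ Q
    rw [Ideal.mem_pointwise_smul_iff_inv_smul_mem]
    have hy : ∀ n ∈ N, n • (g₀⁻¹ • x) = g₀⁻¹ • x :=
      Fermat.Agent.S13.H175.smul_mem_fixedPoints N g₀⁻¹ hx'
    have h1 := h₀ _ hy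
    rw [smul_inv_smul] at h1
    exact h1.symm
  obtain ⟨n, hn1⟩ := Algebra.IsInvariant.exists_smul_of_under_eq_of_profinite
    (A := FixedPoints.subalgebra ℤ B N) (G := N) (g₀ • Q) Q hunder
  refine ⟨(n : G) * g₀, ?_, ?_⟩
  · have h2 := hn.conj_mem _ n.2 g₀⁻¹
    simpa [mul_assoc] using h2
  · rw [mul_smul]
    exact hn1.symm

end Fermat.Agent.S14.H937

end
-- ===== PACK-END S14/H937/Lift.lean

-- ===== PACK-BEGIN S19/H135/OfFlatModel.lean
section
/-
Cell A3 / WP-C (helper135): a flat model yields a Hopf lattice (image of the Hopf algebra under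
evaluation at its `ℚ̄`-points).  No reducedness of `H ⊗ ℚ` is needed.
-/


set_option autoImplicit false

namespace Fermat.Agent.S19.H135

open TensorProduct

theorem FlatModel.hasHopfLattice {ℓ : ℕ} {M : Type} [AddCommGroup M]
    {act : (AlgebraicClosure ℚ ≃ₐ[ℚ] AlgebraicClosure ℚ) → M → M}
    (h : FlatModel ℓ M act) : HasHopfLattice ℓ M act := by
  obtain ⟨H, _, _, hfin, -, -, e, hadd, hgal⟩ := h
  let ev : H →ₐ[GaloisRep.ratLocalizedAt ℓ] (M → AlgebraicClosure ℚ) :=
    AlgHom.pi (fun m => (e.symm m).ofConv)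
  have ev_apply : ∀ (x : H) (m : M), ev x m = (e.symm m).ofConv x := fun _ _ => rfl
  refine ⟨ev.range, ?_, ?_, ?_, ?_⟩
  · -- finitely generated
    have h1 : Subalgebra.toSubmodule ev.range = LinearMap.range ev.toLinearMap := rfl
    rw [h1, LinearMap.range_eq_map]
    exact Submodule.FG.map _ hfin.fg_top
  · -- equivariance
    rintro f ⟨x, rfl⟩ σ m
    let g₀ : WithConv (H →ₐ[GaloisRep.ratLocalizedAt ℓ] AlgebraicClosure ℚ) :=
      WithConv.toConv (((σ : AlgebraicClosure ℚ →ₐ[ℚ] AlgebraicClosure ℚ).restrictScalars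
        (GaloisRep.ratLocalizedAt ℓ)).comp (e.symm m).ofConv)
    have h2 : e g₀ = act σ (e (e.symm m)) := hgal σ (e.symm m) g₀ (fun _ => rfl)
    rw [Equiv.apply_symm_apply] at h2
    have h3 : e.symm (act σ m) = g₀ := by rw [← h2, Equiv.symm_apply_apply]
    show (e.symm (act σ m)).ofConv x = σ ((e.symm m).ofConv x)
    rw [h3]
    rfl
  · -- separation
    intro m n hmn
    have : e.symm m = e.symm n := by
      apply WithConv.ofConv_injective
      apply AlgHom.ext
      intro x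
      exact hmn (ev x) ⟨x, rfl⟩
    exact e.symm.injective this
  · -- comultiplication
    rintro F ⟨f, ⟨x, rfl⟩, rfl⟩
    set S := Subalgebra.map (pull (GaloisRep.ratLocalizedAt ℓ) (AlgebraicClosure ℚ)
        (Prod.fst : M × M → M)) ev.range ⊔
      Subalgebra.map (pull (GaloisRep.ratLocalizedAt ℓ) (AlgebraicClosure ℚ)
        (Prod.snd : M × M → M)) ev.range with hS
    have hsymm : ∀ m n : M, e.symm (m + n) = e.symm m * e.symm n := by
      intro m n
      apply e.injective
      rw [hadd]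
      simp
    have key : ∀ t : H ⊗[GaloisRep.ratLocalizedAt ℓ] H,
        (fun p : M × M => Algebra.TensorProduct.lift (e.symm p.1).ofConv (e.symm p.2).ofConv
          (fun _ _ => Commute.all _ _) t) ∈ S := by
      intro t
      induction t using TensorProduct.induction_on with
      | zero =>
        have : (fun p : M × M => Algebra.TensorProduct.lift (e.symm p.1).ofConv
            (e.symm p.2).ofConv (fun _ _ => Commute.all _ _)
            (0 : H ⊗[GaloisRep.ratLocalizedAt ℓ] H)) = 0 := by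
          funext p; simp
        rw [this]; exact S.zero_mem
      | tmul a b =>
        have : (fun p : M × M => Algebra.TensorProduct.lift (e.symm p.1).ofConv
            (e.symm p.2).ofConv (fun _ _ => Commute.all _ _) (a ⊗ₜ[GaloisRep.ratLocalizedAt ℓ] b))
            = pull (GaloisRep.ratLocalizedAt ℓ) (AlgebraicClosure ℚ) (Prod.fst : M × M → M) (ev a)
              * pull (GaloisRep.ratLocalizedAt ℓ) (AlgebraicClosure ℚ)
                (Prod.snd : M × M → M) (ev b) := by
          funext p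
          simp [ev_apply]
        rw [this]
        refine S.mul_mem ?_ ?_
        · exact (le_sup_left : _ ≤ S) ⟨ev a, ⟨a, rfl⟩, rfl⟩
        · exact (le_sup_right : _ ≤ S) ⟨ev b, ⟨b, rfl⟩, rfl⟩
      | add t₁ t₂ h₁ h₂ =>
        have : (fun p : M × M => Algebra.TensorProduct.lift (e.symm p.1).ofConv
            (e.symm p.2).ofConv (fun _ _ => Commute.all _ _) (t₁ + t₂)) =
            (fun p : M × M => Algebra.TensorProduct.lift (e.symm p.1).ofConv
              (e.symm p.2).ofConv (fun _ _ => Commute.all _ _) t₁) +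
            (fun p : M × M => Algebra.TensorProduct.lift (e.symm p.1).ofConv
              (e.symm p.2).ofConv (fun _ _ => Commute.all _ _) t₂) := by
          funext p; simp
        rw [this]; exact S.add_mem h₁ h₂
    have hF : pull (GaloisRep.ratLocalizedAt ℓ) (AlgebraicClosure ℚ)
        (fun p : M × M => p.1 + p.2) (ev x) =
        (fun p : M × M => Algebra.TensorProduct.lift (e.symm p.1).ofConv (e.symm p.2).ofConv
          (fun _ _ => Commute.all _ _) (Coalgebra.comul x)) := by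
      funext p
      show (e.symm (p.1 + p.2)).ofConv x = _
      rw [hsymm]
      exact AlgHom.convMul_apply _ _ _
    show pull (GaloisRep.ratLocalizedAt ℓ) (AlgebraicClosure ℚ)
        (fun p : M × M => p.1 + p.2) (ev x) ∈ S
    rw [hF]
    exact key _

end Fermat.Agent.S19.H135

end
-- ===== PACK-END S19/H135/OfFlatModel.lean

-- ===== PACK-BEGIN S19/H135/Basic.lean
section
/-
Cell A3 / WP-C (helper135): basic consequences of the Hopf lattice axioms.
-/


set_option autoImplicit false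

namespace Fermat.Agent.S19.H135

section Box

variable {R : Type*} [CommRing R] {K : Type*} [CommRing K] [Algebra R K]
variable {X Y : Type*}

/-- Induction principle for the "box product" `pr₁^* Λ₁ ⊔ pr₂^* Λ₂` of two subalgebras of
function algebras: its elements are sums of products `a(x) b(y)`. -/
theorem box_induction {Λ₁ : Subalgebra R (X → K)} {Λ₂ : Subalgebra R (Y → K)}
    {C : (X × Y → K) → Prop} {F : X × Y → K}
    (hF : F ∈ Λ₁.map (pull R K (Prod.fst : X × Y → X)) ⊔
      Λ₂.map (pull R K (Prod.snd : X × Y → Y)))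
    (hmul : ∀ a ∈ Λ₁, ∀ b ∈ Λ₂, C (fun p => a p.1 * b p.2))
    (hadd : ∀ F₁ F₂, C F₁ → C F₂ → C (F₁ + F₂)) : C F := by
  rw [← Subalgebra.mem_toSubmodule, ← Subalgebra.mul_toSubmodule] at hF
  refine Submodule.mul_induction_on hF ?_ hadd
  rintro _ ⟨a, ha, rfl⟩ _ ⟨b, hb, rfl⟩
  exact hmul a ha b hb

theorem mul_mem_box {Λ₁ : Subalgebra R (X → K)} {Λ₂ : Subalgebra R (Y → K)}
    {a : X → K} (ha : a ∈ Λ₁) {b : Y → K} (hb : b ∈ Λ₂) :
    (fun p : X × Y => a p.1 * b p.2) ∈ Λ₁.map (pull R K (Prod.fst : X × Y → X)) ⊔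
      Λ₂.map (pull R K (Prod.snd : X × Y → Y)) :=
  Subalgebra.mul_mem _ ((le_sup_left : Λ₁.map (pull R K (Prod.fst : X × Y → X)) ≤ _)
      ⟨a, ha, rfl⟩)
    ((le_sup_right : Λ₂.map (pull R K (Prod.snd : X × Y → Y)) ≤ _) ⟨b, hb, rfl⟩)

end Box

namespace IsHopfLattice

variable {ℓ : ℕ} {M : Type} [AddCommGroup M]
  {act : (AlgebraicClosure ℚ ≃ₐ[ℚ] AlgebraicClosure ℚ) → M → M}
  {Λ : Subalgebra (GaloisRep.ratLocalizedAt ℓ) (M → AlgebraicClosure ℚ)}

theorem comul_mem (hΛ : IsHopfLattice ℓ act Λ) {f : M → AlgebraicClosure ℚ} (hf : f ∈ Λ) :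
    (fun p : M × M => f (p.1 + p.2)) ∈
      Λ.map (pull (GaloisRep.ratLocalizedAt ℓ) (AlgebraicClosure ℚ) (Prod.fst : M × M → M)) ⊔
      Λ.map (pull (GaloisRep.ratLocalizedAt ℓ) (AlgebraicClosure ℚ) (Prod.snd : M × M → M)) :=
  hΛ.comul ⟨f, hf, rfl⟩

theorem box_equivariant (hΛ : IsHopfLattice ℓ act Λ) {F : M × M → AlgebraicClosure ℚ}
    (hF : F ∈ Λ.map (pull (GaloisRep.ratLocalizedAt ℓ) (AlgebraicClosure ℚ)
        (Prod.fst : M × M → M)) ⊔
      Λ.map (pull (GaloisRep.ratLocalizedAt ℓ) (AlgebraicClosure ℚ) (Prod.snd : M × M → M)))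
    (σ : AlgebraicClosure ℚ ≃ₐ[ℚ] AlgebraicClosure ℚ) (m n : M) :
    F (act σ m, act σ n) = σ (F (m, n)) := by
  refine box_induction (C := fun F => F (act σ m, act σ n) = σ (F (m, n))) hF ?_ ?_
  · intro a ha b hb
    simp only [hΛ.equivariant a ha, hΛ.equivariant b hb, map_mul]
  · intro F₁ F₂ h₁ h₂
    simp only [Pi.add_apply, h₁, h₂, map_add]

theorem act_add (hΛ : IsHopfLattice ℓ act Λ) (σ : AlgebraicClosure ℚ ≃ₐ[ℚ] AlgebraicClosure ℚ)
    (m n : M) : act σ (m + n) = act σ m + act σ n := by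
  apply hΛ.separates
  intro f hf
  rw [hΛ.equivariant f hf]
  exact (hΛ.box_equivariant (hΛ.comul_mem hf) σ m n).symm

theorem act_one (hΛ : IsHopfLattice ℓ act Λ) (m : M) : act 1 m = m := by
  apply hΛ.separates
  intro f hf
  rw [hΛ.equivariant f hf]
  rfl

theorem act_mul (hΛ : IsHopfLattice ℓ act Λ)
    (σ τ : AlgebraicClosure ℚ ≃ₐ[ℚ] AlgebraicClosure ℚ) (m : M) :
    act (σ * τ) m = act σ (act τ m) := by
  apply hΛ.separates
  intro f hf
  rw [hΛ.equivariant f hf, hΛ.equivariant f hf, hΛ.equivariant f hf]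
  rfl

theorem act_zero (hΛ : IsHopfLattice ℓ act Λ)
    (σ : AlgebraicClosure ℚ ≃ₐ[ℚ] AlgebraicClosure ℚ) : act σ 0 = 0 := by
  have h := hΛ.act_add σ 0 0
  rw [add_zero] at h
  exact left_eq_add.mp h

/-- The action as a family of additive automorphisms. -/
noncomputable def actEquiv (hΛ : IsHopfLattice ℓ act Λ) (σ : AlgebraicClosure ℚ ≃ₐ[ℚ] AlgebraicClosure ℚ) :
    M ≃+ M where
  toFun := act σ
  invFun := act σ⁻¹
  left_inv m := by rw [← hΛ.act_mul, inv_mul_cancel, hΛ.act_one]
  right_inv m := by rw [← hΛ.act_mul, mul_inv_cancel, hΛ.act_one]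
  map_add' := hΛ.act_add σ

@[simp] theorem actEquiv_apply (hΛ : IsHopfLattice ℓ act Λ)
    (σ : AlgebraicClosure ℚ ≃ₐ[ℚ] AlgebraicClosure ℚ) (m : M) : hΛ.actEquiv σ m = act σ m := rfl

theorem act_bijective (hΛ : IsHopfLattice ℓ act Λ)
    (σ : AlgebraicClosure ℚ ≃ₐ[ℚ] AlgebraicClosure ℚ) : Function.Bijective (act σ) :=
  (hΛ.actEquiv σ).bijective

theorem act_neg (hΛ : IsHopfLattice ℓ act Λ)
    (σ : AlgebraicClosure ℚ ≃ₐ[ℚ] AlgebraicClosure ℚ) (m : M) : act σ (-m) = -act σ m :=
  map_neg (hΛ.actEquiv σ) m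

theorem act_sub (hΛ : IsHopfLattice ℓ act Λ)
    (σ : AlgebraicClosure ℚ ≃ₐ[ℚ] AlgebraicClosure ℚ) (m n : M) :
    act σ (m - n) = act σ m - act σ n :=
  map_sub (hΛ.actEquiv σ) m n

/-- Elements of a Hopf lattice are integral over `ℤ_(ℓ)`. -/
theorem isIntegral (hΛ : IsHopfLattice ℓ act Λ) {f : M → AlgebraicClosure ℚ} (hf : f ∈ Λ) :
    IsIntegral (GaloisRep.ratLocalizedAt ℓ) f :=
  IsIntegral.of_mem_of_fg Λ hΛ.fg f hf

/-- Values of elements of a Hopf lattice are integral over `ℤ_(ℓ)`. -/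
theorem isIntegral_apply (hΛ : IsHopfLattice ℓ act Λ) {f : M → AlgebraicClosure ℚ} (hf : f ∈ Λ)
    (m : M) : IsIntegral (GaloisRep.ratLocalizedAt ℓ) (f m) :=
  (hΛ.isIntegral hf).map (Pi.evalAlgHom (GaloisRep.ratLocalizedAt ℓ)
    (fun _ : M => AlgebraicClosure ℚ) m)

/-- The group carrying a Hopf lattice is finite. -/
theorem finite (hΛ : IsHopfLattice ℓ act Λ) : Finite M := by
  classical
  obtain ⟨s, hs⟩ := hΛ.fg
  have hsΛ : ∀ f ∈ s, f ∈ Λ := fun f hf => by
    have : f ∈ Submodule.span (GaloisRep.ratLocalizedAt ℓ) (s : Set (M → AlgebraicClosure ℚ)) :=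
      Submodule.subset_span hf
    rw [hs] at this
    exact this
  -- for each generator, a monic polynomial killing it
  have hpoly : ∀ f : s, ∃ P : Polynomial (GaloisRep.ratLocalizedAt ℓ), P.Monic ∧
      ∀ m : M, Polynomial.eval₂ (algebraMap _ (AlgebraicClosure ℚ)) (f.1 m) P = 0 := by
    intro f
    obtain ⟨P, hP, hP0⟩ := hΛ.isIntegral (hsΛ f.1 f.2)
    refine ⟨P, hP, fun m => ?_⟩
    have := congrArg (Pi.evalAlgHom (GaloisRep.ratLocalizedAt ℓ)
      (fun _ : M => AlgebraicClosure ℚ) m) hP0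
    rw [map_zero, ← Polynomial.aeval_def, ← Polynomial.aeval_algHom_apply] at this
    rw [← Polynomial.aeval_def]
    exact this
  choose P hPm hP0 using hpoly
  -- the target: tuples of roots
  let T : s → Set (AlgebraicClosure ℚ) := fun f =>
    {z | Polynomial.eval₂ (algebraMap _ (AlgebraicClosure ℚ)) z (P f) = 0}
  have hTfin : ∀ f, (T f).Finite := by
    intro f
    have hne : (P f).map (algebraMap _ (AlgebraicClosure ℚ)) ≠ 0 :=
      ((hPm f).map _).ne_zero
    refine Set.Finite.subset (((P f).map (algebraMap _ (AlgebraicClosure ℚ))).roots.toFinset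
      ).finite_toSet ?_
    intro z hz
    simp only [Finset.mem_coe, Multiset.mem_toFinset, Polynomial.mem_roots hne,
      Polynomial.IsRoot.def, Polynomial.eval_map]
    exact hz
  have : ∀ f, Finite (T f) := fun f => (hTfin f).to_subtype
  let Φ : M → (∀ f : s, T f) := fun m f => ⟨f.1 m, hP0 f m⟩
  have hΦ : Function.Injective Φ := by
    intro m n hmn
    apply hΛ.separates
    intro f hf
    have hf' : f ∈ Submodule.span (GaloisRep.ratLocalizedAt ℓ)
        (s : Set (M → AlgebraicClosure ℚ)) := by rw [hs]; exact hf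
    refine Submodule.span_induction (p := fun f _ => f m = f n) ?_ ?_ ?_ ?_ hf'
    · intro g hg
      have := congrFun hmn ⟨g, hg⟩
      exact congrArg Subtype.val this
    · rfl
    · intro g₁ g₂ _ _ h₁ h₂
      simp only [Pi.add_apply, h₁, h₂]
    · intro c g _ hg
      simp only [Pi.smul_apply, hg]
  exact Finite.of_injective Φ hΦ

end IsHopfLattice

end Fermat.Agent.S19.H135

end
-- ===== PACK-END S19/H135/Basic.lean

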