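import Mathlib
import Fermat.Prelude.Def_ModularCurve_ReductionModL
import Fermat.Prelude.Def_ModularCurve_JqCoeff
import Fermat.Prelude.Def_ModularForm_HeckeOperator
import Mathlib.GroupTheory.Index
import Mathlib.SetTheory.Cardinal.NatCard
import Mathlib.SetTheory.Cardinal.Finite
import Fermat.Agent.Pack.S33.E1L0
import Fermat.Agent.Pack.S33.E1L2
import Fermat.Agent.Pack.S33.E1L1
import Fermat.Agent.Pack.S33.E1L3
import Fermat.Agent.Pack.S33.E2L0
import Fermat.Agent.Pack.S33.E2L3
import Fermat.Agent.Pack.S33.E2L1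

-- ===== PACK-BEGIN S24/H504/Residue.lean
section



/-!
# The residue field of a place over `t = 0` is the (algebraically closed) constant field
-/

set_option autoImplicit false

namespace Fermat.Agent.S24.H504

open AlgebraicCurve Polynomial

variable {K F : Type*} [Field K] [Field F] [Algebra K F] (v : Place K F)

/-- Membership in the maximal ideal of the valuation ring of `v`. -/
def InMax (f : F) : Prop := f = 0 ∨ 0 < v.ord f

variable {v}

theorem InMax.ord_nonneg {f : F} (h : InMax v f) : 0 ≤ v.ord f := by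
  rcases h with rfl | h
  · simp
  · exact h.le

theorem inMax_zero : InMax v (0 : F) := Or.inl rfl

theorem InMax.add {f g : F} (hf : InMax v f) (hg : InMax v g) : InMax v (f + g) :=
  ord_add_pos v hf hg

theorem InMax.neg {f : F} (hf : InMax v f) : InMax v (-f) := by
  rcases hf with rfl | hf
  · simpa using inMax_zero
  · right; rwa [_root_.Fermat.Agent.S24.H504.ord_neg]

theorem InMax.sub {f g : F} (hf : InMax v f) (hg : InMax v g) : InMax v (f - g) := by
  rw [sub_eq_add_neg]; exact hf.add hg.neg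

theorem InMax.mul_right {f g : F} (hf : InMax v f) (hg : 0 ≤ v.ord g) : InMax v (f * g) := by
  rcases hf with rfl | hf
  · left; simp
  rcases eq_or_ne g 0 with rfl | hg0
  · left; simp
  right
  rw [v.ord_mul (ne_zero_of_ord_ne_zero v hf.ne') hg0]
  omega

theorem InMax.mul_left {f g : F} (hf : InMax v f) (hg : 0 ≤ v.ord g) : InMax v (g * f) := by
  rw [mul_comm]; exact hf.mul_right hg

theorem inMax_sum {ι : Type*} (s : Finset ι) (f : ι → F) (h : ∀ i ∈ s, InMax v (f i)) :
    InMax v (∑ i ∈ s, f i) := by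
  classical
  induction s using Finset.induction_on with
  | empty => simpa using inMax_zero
  | insert a s ha ih =>
    rw [Finset.sum_insert ha]
    exact (h a (Finset.mem_insert_self a s)).add
      (ih fun i hi => h i (Finset.mem_insert_of_mem hi))

theorem inMax_or_of_mul {f g : F} (hf : 0 ≤ v.ord f) (hg : 0 ≤ v.ord g) (h : InMax v (f * g)) :
    InMax v f ∨ InMax v g := by
  rcases eq_or_ne f 0 with rfl | hf0
  · exact Or.inl inMax_zero
  rcases eq_or_ne g 0 with rfl | hg0
  · exact Or.inr inMax_zero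
  rcases h with h | h
  · exact absurd h (mul_ne_zero hf0 hg0)
  rw [v.ord_mul hf0 hg0] at h
  by_cases h1 : 0 < v.ord f
  · exact Or.inl (Or.inr h1)
  · exact Or.inr (Or.inr (by omega))

theorem not_inMax_algebraMap {c : K} (hc : c ≠ 0) : ¬ InMax v (algebraMap K F c) := by
  rintro (h | h)
  · exact hc ((_root_.map_eq_zero (algebraMap K F)).mp h)
  · rw [_root_.Fermat.Agent.S24.H504.ord_algebraMap] at h
    exact lt_irrefl _ h

theorem ord_aeval_nonneg {f : F} (hf : 0 ≤ v.ord f) (Q : K[X]) : 0 ≤ v.ord (aeval f Q) := by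
  rw [← mem_iff_ord_nonneg'] at *
  rw [aeval_def, eval₂_eq_sum_range]
  refine Subring.sum_mem v.toValuationSubring.toSubring fun i _ => ?_
  exact v.toValuationSubring.mul_mem _ _ (v.algebraMap_mem' _) (pow_mem hf i)

/-- If a nonzero polynomial over `K` takes a value in the maximal ideal at an integral `f`,
then `f` is congruent to a constant. -/
theorem exists_sub_inMax_of_aeval [IsAlgClosed K] {f : F} (hf : 0 ≤ v.ord f) :
    ∀ (n : ℕ) (Q : K[X]), Q.natDegree = n → Q ≠ 0 → InMax v (aeval f Q) →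
      ∃ c : K, InMax v (f - algebraMap K F c) := by
  intro n
  induction n with
  | zero =>
    intro Q hdeg hQ h
    exfalso
    rw [natDegree_eq_zero] at hdeg
    obtain ⟨c, rfl⟩ := hdeg
    rw [aeval_C] at h
    exact not_inMax_algebraMap (by simpa using hQ) h
  | succ n ih =>
    intro Q hdeg hQ h
    have hdeg' : Q.degree ≠ 0 :=
      (natDegree_pos_iff_degree_pos.mp (by omega)).ne'
    obtain ⟨c, hc⟩ := IsAlgClosed.exists_root Q hdeg'
    obtain ⟨Q₁, hQ₁⟩ := dvd_iff_isRoot.mpr hc
    have hQ₁0 : Q₁ ≠ 0 := by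
      rintro rfl
      simp at hQ₁
      exact hQ hQ₁
    have hdeg₁ : Q₁.natDegree = n := by
      have := congrArg natDegree hQ₁
      rw [natDegree_mul (X_sub_C_ne_zero c) hQ₁0, natDegree_X_sub_C, hdeg] at this
      omega
    have hval : aeval f Q = (f - algebraMap K F c) * aeval f Q₁ := by
      rw [hQ₁, _root_.map_mul]
      simp
    rw [hval] at h
    have hfc : 0 ≤ v.ord (f - algebraMap K F c) := by
      rw [← mem_iff_ord_nonneg'] at *
      exact sub_mem hf (v.algebraMap_mem' c)
    rcases inMax_or_of_mul hfc (ord_aeval_nonneg hf Q₁) h with h1 | h1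
    · exact ⟨c, h1⟩
    · exact ih Q₁ hdeg₁ hQ₁0 h1

theorem inMax_aeval_sub_coeff_zero {t : F} (ht : 0 < v.ord t) (q : K[X]) :
    InMax v (aeval t q - algebraMap K F (q.coeff 0)) := by
  have h : q = divX q * X + C (q.coeff 0) := (divX_mul_X_add q).symm
  have h2 : aeval t q - algebraMap K F (q.coeff 0) = t * aeval t (divX q) := by
    conv_lhs => rw [h]
    simp only [_root_.map_add, _root_.map_mul, aeval_X, aeval_C]
    simp only [coeff_add, coeff_C_zero, mul_coeff_zero, coeff_X_zero, mul_zero, zero_add]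
    ring
  rw [h2]
  exact InMax.mul_right (Or.inr ht) (ord_aeval_nonneg ht.le _)

/-- Two-variable relation: a nonzero `P ∈ K[T][Y]` with `P(t, f) = 0` can be normalised so
that `P(0, Y) ≠ 0`. -/
theorem exists_normalised_relation {t : F} (ht : t ≠ 0) (f : F) (P : K[X][X]) (hP : P ≠ 0)
    (hPf : P.eval₂ (aeval t : K[X] →ₐ[K] F).toRingHom f = 0) :
    ∃ Q : K[X][X], Q.map (constantCoeff : K[X] →+* K) ≠ 0 ∧
      Q.eval₂ (aeval t : K[X] →ₐ[K] F).toRingHom f = 0 := by
  have hX : ¬ IsUnit (C (X : K[X]) : K[X][X]) := by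
    rw [isUnit_C]
    exact not_isUnit_X
  obtain ⟨n, Q, hndvd, rfl⟩ := WfDvdMonoid.max_power_factor' hP hX
  refine ⟨Q, ?_, ?_⟩
  · intro h0
    apply hndvd
    rw [C_dvd_iff_dvd_coeff]
    intro i
    rw [X_dvd_iff]
    have := congrArg (fun p => p.coeff i) h0
    simpa [coeff_map] using this
  · rw [eval₂_mul, eval₂_pow, eval₂_C] at hPf
    simp only [AlgHom.toRingHom_eq_coe, RingHom.coe_coe, aeval_X] at hPf
    rcases mul_eq_zero.mp hPf with h | h
    · exact absurd h (pow_ne_zero n ht)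
    · simpa using h

/-- Reduction of a two-variable relation modulo the maximal ideal. -/
theorem inMax_aeval_map_constantCoeff {t f : F} (ht : 0 < v.ord t) (hf : 0 ≤ v.ord f)
    (Q : K[X][X]) (hQf : Q.eval₂ (aeval t : K[X] →ₐ[K] F).toRingHom f = 0) :
    InMax v (aeval f (Q.map (constantCoeff : K[X] →+* K))) := by
  have h1 : aeval f (Q.map (constantCoeff : K[X] →+* K))
      = Q.eval₂ ((algebraMap K F).comp (constantCoeff : K[X] →+* K)) f := by
    rw [aeval_def, eval₂_map]
  have h2 : aeval f (Q.map (constantCoeff : K[X] →+* K))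
      = -(Q.eval₂ (aeval t : K[X] →ₐ[K] F).toRingHom f
          - Q.eval₂ ((algebraMap K F).comp (constantCoeff : K[X] →+* K)) f) := by
    rw [hQf, h1]; ring
  rw [h2]
  apply InMax.neg
  rw [eval₂_eq_sum_range, eval₂_eq_sum_range, ← Finset.sum_sub_distrib]
  apply inMax_sum
  intro i _
  rw [← sub_mul]
  refine InMax.mul_right ?_ ?_
  · simpa using inMax_aeval_sub_coeff_zero ht (Q.coeff i)
  · rw [ord_pow]
    positivity

open scoped IntermediateField.algebraAdjoinAdjoin in
/-- **Residue field is `K`.**  If `K` is algebraically closed, `F` is algebraic over `K(t)` and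
`v` is a place with `v(t) > 0`, every `v`-integral element is congruent to a constant. -/
theorem exists_sub_inMax [IsAlgClosed K] {t : F} (ht : 0 < v.ord t)
    [Algebra.IsAlgebraic (IntermediateField.adjoin K {t}) F] {f : F} (hf : 0 ≤ v.ord f) :
    ∃ c : K, InMax v (f - algebraMap K F c) := by
  have halg : IsAlgebraic (IntermediateField.adjoin K {t}) f :=
    Algebra.IsAlgebraic.isAlgebraic f
  have halg' : IsAlgebraic (Algebra.adjoin K {t}) f :=
    (IsFractionRing.isAlgebraic_iff (Algebra.adjoin K {t}) (IntermediateField.adjoin K {t})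
      F).mpr halg
  obtain ⟨p, hp0, hpf⟩ := halg'
  let φ : K[X] →+* Algebra.adjoin K {t} :=
    ((aeval t : K[X] →ₐ[K] F).codRestrict (Algebra.adjoin K {t})
      (fun q => aeval_mem_adjoin_singleton K t)).toRingHom
  have hφ : Function.Surjective φ := by
    rintro ⟨a, ha⟩
    have ha' := ha
    rw [Algebra.adjoin_singleton_eq_range_aeval] at ha'
    obtain ⟨q, hq⟩ := ha'
    exact ⟨q, Subtype.ext hq⟩
  obtain ⟨P, hP⟩ := Polynomial.map_surjective φ hφ p
  have hP0 : P ≠ 0 := by
    rintro rfl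
    rw [Polynomial.map_zero] at hP
    exact hp0 hP.symm
  have hcomp : (algebraMap (Algebra.adjoin K {t}) F).comp φ
      = (aeval t : K[X] →ₐ[K] F).toRingHom := by
    ext <;> rfl
  have hPf : P.eval₂ (aeval t : K[X] →ₐ[K] F).toRingHom f = 0 := by
    rw [← hcomp, ← eval₂_map, hP]
    exact hpf
  have ht0 : t ≠ 0 := ne_zero_of_ord_ne_zero v ht.ne'
  obtain ⟨Q, hQ0, hQf⟩ := exists_normalised_relation ht0 f P hP0 hPf
  exact exists_sub_inMax_of_aeval hf _ _ rfl hQ0 (inMax_aeval_map_constantCoeff ht hf Q hQf)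

/-- Decomposition `f = c + g` with `c` constant and `g` in the maximal ideal. -/
theorem exists_eq_const_add [IsAlgClosed K] {t : F} (ht : 0 < v.ord t)
    [Algebra.IsAlgebraic (IntermediateField.adjoin K {t}) F] {f : F} (hf : 0 ≤ v.ord f) :
    ∃ (c : K) (g : F), InMax v g ∧ f = algebraMap K F c + g := by
  obtain ⟨c, hc⟩ := exists_sub_inMax ht hf
  exact ⟨c, f - algebraMap K F c, hc, by ring⟩

/-- Decomposition `f = c + ϖ f₁` for a uniformizer `ϖ`. -/
theorem exists_eq_const_add_mul [IsAlgClosed K] {t : F} (ht : 0 < v.ord t)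
    [Algebra.IsAlgebraic (IntermediateField.adjoin K {t}) F] {ϖ : F} (hϖ : v.ord ϖ = 1)
    {f : F} (hf : 0 ≤ v.ord f) :
    ∃ (c : K) (f₁ : F), 0 ≤ v.ord f₁ ∧ f = algebraMap K F c + ϖ * f₁ := by
  obtain ⟨c, g, hg, rfl⟩ := exists_eq_const_add ht hf
  have hϖ0 : ϖ ≠ 0 := ne_zero_of_ord_ne_zero v (by omega)
  refine ⟨c, g / ϖ, ?_, by field_simp⟩
  rcases hg with rfl | hg
  · simp
  · rw [ord_div v (ne_zero_of_ord_ne_zero v hg.ne') hϖ0]
    omega

theorem inMax_iff_mem_maximalIdeal (f : v.toValuationSubring) :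
    InMax v (f : F) ↔ f ∈ IsLocalRing.maximalIdeal v.toValuationSubring := by
  rw [IsLocalRing.mem_maximalIdeal, mem_nonunits_iff]
  constructor
  · rintro (h | h) hu
    · have : f = 0 := Subtype.ext h
      rw [this] at hu
      exact not_isUnit_zero hu
    · have := v.ord_coe_unit hu.unit
      rw [IsUnit.unit_spec] at this
      omega
  · intro hu
    by_cases h0 : (f : F) = 0
    · exact Or.inl h0
    right
    have h1 : 0 ≤ v.ord (f : F) := (mem_iff_ord_nonneg' v _).mp f.2
    rcases h1.lt_or_eq with h | h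
    · exact h
    exfalso
    apply hu
    have hinv : (f : F)⁻¹ ∈ v.toValuationSubring := by
      rw [mem_iff_ord_nonneg', Place.ord_inv]
      omega
    refine IsUnit.of_mul_eq_one (⟨(f : F)⁻¹, hinv⟩ : v.toValuationSubring) ?_
    ext
    simp [h0]

/-- **Places over `t = 0` have degree one.** -/
theorem deg_eq_one [IsAlgClosed K] {t : F} (ht : 0 < v.ord t)
    [Algebra.IsAlgebraic (IntermediateField.adjoin K {t}) F] : v.deg = 1 := by
  rw [Place.deg, finrank_eq_one_iff']
  refine ⟨1, one_ne_zero, fun w => ?_⟩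
  obtain ⟨f, rfl⟩ := IsLocalRing.residue_surjective w
  obtain ⟨c, hc⟩ := exists_sub_inMax ht ((mem_iff_ord_nonneg' v _).mp f.2)
  refine ⟨c, ?_⟩
  rw [Algebra.smul_def, mul_one]
  have hmem : f - algebraMap K v.toValuationSubring c
      ∈ IsLocalRing.maximalIdeal v.toValuationSubring := by
    rw [← inMax_iff_mem_maximalIdeal]
    simpa using hc
  have := (IsLocalRing.residue_eq_zero_iff _).mpr hmem
  rw [_root_.map_sub, sub_eq_zero] at this
  rw [this]
  rfl

end Fermat.Agent.S24.H504

end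
-- ===== PACK-END S24/H504/Residue.lean

-- ===== PACK-BEGIN S28/H867/Leaves.lean
section
/-
S28 [L] (helper867): leaf interface for the degree bookkeeping behind `coreData`.
Only definitions and `Prop`-valued leaf statements live here (no proofs needed).
-/



set_option autoImplicit false

noncomputable section

open ModularCurve HahnSeries IntermediateField

namespace Fermat.Agent.S28.H867

variable (k : Type*) [Field k]

/-- `j(q^p)` as a Laurent series over `k`. -/
abbrev jp (p : ℕ) [NeZero p] : LaurentSeries k := qExpand k p (jqModC k)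

/-- `k(j(q^p)) ⊂ k((q))`. -/
def jpField (p : ℕ) [NeZero p] : IntermediateField k (LaurentSeries k) :=
  IntermediateField.adjoin k {jp k p}

/-- `E_M = k(j(q^d) : d ∣ M)`. -/
abbrev EF (M : ℕ) : IntermediateField k (LaurentSeries k) := modularFunctionFieldFullC k M

/-- `[E_M : k(j)]` (zero if infinite). -/
def degE (M : ℕ) : ℕ := (jField k).relfinrank (EF k M)

/-- The expected degree `ψ(N) = ∏_{p ∣ N} (p + 1) p^{v_p(N) - 1}`. -/
def gFun (N : ℕ) : ℕ := ∏ p ∈ N.primeFactors, (p + 1) * p ^ (N.factorization p - 1)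

/-- Leaf [L.I]: `1, j, …, j^{p-1}` are linearly independent over every subfield of
`k((q^p)) = range V_p`. True for every field `k` and every `p ≥ 1`. -/
def LeafI (p : ℕ) [NeZero p] : Prop :=
  ∀ B : IntermediateField k (LaurentSeries k),
    B ≤ (qExpandAlgHomC k p).fieldRange →
    LinearIndependent B (fun i : Fin p => (jqModC k) ^ (i : ℕ))

/-- Leaf [L.B1]: `j(q^p) ∉ k(j)`. True when `p` is prime and `(p : k) ≠ 0`. -/
def LeafB1 (p : ℕ) [NeZero p] : Prop := jp k p ∉ jField k

/-- Leaf [L.UP]: upper bound in characteristic zero. -/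
def LeafUP (N : ℕ) : Prop := ∀ M : ℕ, M ∣ N → degE ℚ M ≤ gFun M

/-- Prime-level degrees: `[k(j, j_p) : k(j)] = p + 1 = [k(j, j_p) : k(j_p)]`. -/
structure PrimeLevel (p : ℕ) [NeZero p] : Prop where
  deg_j : (jField k).relfinrank (jField k ⊔ jpField k p) = p + 1
  deg_jp : (jpField k p).relfinrank (jField k ⊔ jpField k p) = p + 1

end Fermat.Agent.S28.H867

end

end
-- ===== PACK-END S28/H867/Leaves.lean

-- ===== PACK-BEGIN S18/H516/GaussSpan.lean
section




/-!
# S18 / MOD (helper516): base change of the S28 basis from `ℚ` to an arbitrary field `L ⊇ ℚ`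

`F_L := laurentBaseChange L (modularFunctionFieldFull N) ⊆ L((q))` is exactly the `L(j)`-span of
the images of the S28 "monomials" `y i ∈ ℤ[j_d : d ∣ N]`.
-/

set_option autoImplicit false
set_option linter.unusedSectionVars false

noncomputable section

namespace Fermat.Agent.S18.H516

open ModularCurve HahnSeries IntermediateField Polynomial Fermat.Agent.S28

section CoeffEmb

variable (L : Type*) [Field L] [Algebra ℚ L]

theorem coeffEmb_jq : coeffEmb L jq = jqModC L := by
  rw [← jqModC_rat, coeffEmb, coeffMap_jqModC]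

theorem coeffEmb_aeval (x : LaurentSeries ℚ) (r : ℚ[X]) :
    coeffEmb L (aeval x r) = aeval (coeffEmb L x) (r.map (algebraMap ℚ L)) := by
  rw [aeval_def, aeval_def, hom_eval₂, eval₂_map]
  congr 1
  exact RingHom.ext_rat _ _

/-- `coeffEmb` maps `ℚ(j)` into `L(j)`. -/
theorem coeffEmb_mem_jField {c : LaurentSeries ℚ} (hc : c ∈ jField ℚ) :
    coeffEmb L c ∈ jField L := by
  rw [jField, mem_adjoin_simple_iff] at hc
  obtain ⟨r, s, rfl⟩ := hc
  have hj : coeffEmb L (jqModC ℚ) = jqModC L := by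
    rw [coeffEmb, coeffMap_jqModC]
  rw [map_div₀, coeffEmb_aeval, coeffEmb_aeval, hj]
  rw [jField, mem_adjoin_simple_iff]
  exact ⟨_, _, rfl⟩

theorem coeffMap_intCast_eq_coeffEmb (y : LaurentSeries ℤ) :
    coeffMap (Int.castRingHom L) y = coeffEmb L (coeffMap (Int.castRingHom ℚ) y) := by
  rw [coeffEmb, coeffMap_coeffMap]
  exact coeffMap_congr (RingHom.ext_int _ _) y

end CoeffEmb

section Closure

variable (R : Type*) [CommRing R] (N : ℕ)

/-- The generators `j(q^d)`, `d ∣ N` over an arbitrary ring. -/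
theorem coeffMap_mem_of_mem_closure {K : Type*} [Field K] [NeZero N] {y : LaurentSeries ℤ}
    (hy : y ∈ Subring.closure (intDivisorExpansions N)) :
    coeffMap (Int.castRingHom K) y ∈ modularFunctionFieldFullC K N := by
  induction hy using Subring.closure_induction with
  | mem x hx =>
    obtain ⟨d, hd, hdN, rfl⟩ := hx
    rw [coeffMap_qExpand, coeffMap_jqModC]
    exact jqModCd_mem_full K N hdN
  | zero => rw [_root_.map_zero]; exact _root_.ZeroMemClass.zero_mem _
  | one => rw [_root_.map_one]; exact _root_.OneMemClass.one_mem _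
  | add x y _ _ hx hy => rw [_root_.map_add]; exact _root_.AddMemClass.add_mem hx hy
  | neg x _ hx => rw [_root_.map_neg]; exact _root_.NegMemClass.neg_mem hx
  | mul x y _ _ hx hy => rw [_root_.map_mul]; exact _root_.MulMemClass.mul_mem hx hy

end Closure

section Span

variable (L : Type*) [Field L] [Algebra ℚ L] (N : ℕ) [NeZero N]
variable {n : ℕ} (y : Fin n → LaurentSeries ℤ)

/-- The `L(j)`-span of the base-changed monomials. -/
def spanL : Submodule (jField L) (LaurentSeries L) :=
  Submodule.span (jField L) (Set.range fun i => coeffMap (Int.castRingHom L) (y i))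

/-- Hypothesis package extracted from `CoreData.exists_basis` (char-0 half). -/
def SpansQ : Prop :=
  (∀ i, y i ∈ Subring.closure (intDivisorExpansions N)) ∧
    ∀ x ∈ modularFunctionFieldFull N,
      x ∈ Submodule.span (jField ℚ) (Set.range fun i => coeffMap (Int.castRingHom ℚ) (y i))

variable {N y}

omit [Algebra ℚ L] in
theorem yL_mem_spanL (i : Fin n) : coeffMap (Int.castRingHom L) (y i) ∈ spanL L y :=
  Submodule.subset_span ⟨i, rfl⟩

theorem coeffEmb_mem_spanL (h : SpansQ N y) {x : LaurentSeries ℚ}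
    (hx : x ∈ modularFunctionFieldFull N) : coeffEmb L x ∈ spanL L y := by
  have hx' := h.2 x hx
  clear hx
  induction hx' using Submodule.span_induction with
  | mem z hz =>
    obtain ⟨i, rfl⟩ := hz
    rw [← coeffMap_intCast_eq_coeffEmb L (y i)]
    exact yL_mem_spanL L i
  | zero => rw [_root_.map_zero]; exact _root_.ZeroMemClass.zero_mem _
  | add a b _ _ ha hb => rw [_root_.map_add]; exact _root_.AddMemClass.add_mem ha hb
  | smul c a _ ha =>
    have : coeffEmb L (c • a) = (⟨coeffEmb L c, coeffEmb_mem_jField L c.2⟩ : jField L) •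
        coeffEmb L a := by
      show coeffEmb L ((c : LaurentSeries ℚ) * a) = coeffEmb L c * coeffEmb L a
      rw [_root_.map_mul]
    rw [this]
    exact Submodule.smul_mem _ _ ha

theorem yQ_mem_full (h : SpansQ N y) (i : Fin n) :
    coeffMap (Int.castRingHom ℚ) (y i) ∈ modularFunctionFieldFull N := by
  have := coeffMap_mem_of_mem_closure (K := ℚ) N (h.1 i)
  rwa [modularFunctionFieldFullC_rat] at this

theorem one_mem_spanL (h : SpansQ N y) : (1 : LaurentSeries L) ∈ spanL L y := by
  have := coeffEmb_mem_spanL L h (_root_.OneMemClass.one_mem (modularFunctionFieldFull N))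
  rwa [_root_.map_one] at this

theorem mul_mem_spanL (h : SpansQ N y) {a b : LaurentSeries L} (ha : a ∈ spanL L y)
    (hb : b ∈ spanL L y) : a * b ∈ spanL L y := by
  induction ha using Submodule.span_induction with
  | mem z hz =>
    obtain ⟨i, rfl⟩ := hz
    induction hb using Submodule.span_induction with
    | mem w hw =>
      obtain ⟨j, rfl⟩ := hw
      show coeffMap (Int.castRingHom L) (y i) * coeffMap (Int.castRingHom L) (y j) ∈ _
      rw [coeffMap_intCast_eq_coeffEmb L (y i), coeffMap_intCast_eq_coeffEmb L (y j), ← _root_.map_mul]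
      exact coeffEmb_mem_spanL L h (_root_.MulMemClass.mul_mem (yQ_mem_full h i) (yQ_mem_full h j))
    | zero => rw [mul_zero]; exact _root_.ZeroMemClass.zero_mem _
    | add a b _ _ ha hb => rw [mul_add]; exact _root_.AddMemClass.add_mem ha hb
    | smul c a _ ha =>
      have : (fun i => coeffMap (Int.castRingHom L) (y i)) i * (c • a) =
          c • ((fun i => coeffMap (Int.castRingHom L) (y i)) i * a) := by
        show _ * ((c : LaurentSeries L) * a) = (c : LaurentSeries L) * (_ * a)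
        ring
      rw [this]
      exact Submodule.smul_mem _ _ ha
  | zero => rw [zero_mul]; exact _root_.ZeroMemClass.zero_mem _
  | add a b _ _ ha hb => rw [add_mul]; exact _root_.AddMemClass.add_mem ha hb
  | smul c a _ ha =>
    have : (c • a) * b = c • (a * b) := by
      show ((c : LaurentSeries L) * a) * b = (c : LaurentSeries L) * (a * b)
      ring
    rw [this]
    exact Submodule.smul_mem _ _ ha

/-- The span as a subalgebra over `L(j)`. -/
def spanAlg (h : SpansQ N y) : Subalgebra (jField L) (LaurentSeries L) where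
  carrier := spanL L y
  mul_mem' := fun ha hb => mul_mem_spanL L h ha hb
  add_mem' := fun ha hb => _root_.AddMemClass.add_mem ha hb
  algebraMap_mem' c := by
    have : algebraMap (jField L) (LaurentSeries L) c = c • (1 : LaurentSeries L) := by
      rw [Algebra.smul_def, mul_one]
    rw [this]
    exact Submodule.smul_mem _ _ (one_mem_spanL L h)

theorem mem_spanAlg (h : SpansQ N y) {x : LaurentSeries L} :
    x ∈ spanAlg L h ↔ x ∈ spanL L y := Iff.rfl

theorem inv_mem_spanL (h : SpansQ N y) {x : LaurentSeries L} (hx : x ∈ spanL L y) :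
    x⁻¹ ∈ spanL L y := by
  have hfin : Module.Finite (jField L) (spanAlg L h) := by
    have : Module.Finite (jField L) (spanL L y) :=
      Module.Finite.span_of_finite _ (Set.finite_range _)
    exact this
  have hint : IsIntegral (jField L) (⟨x, hx⟩ : spanAlg L h) := IsIntegral.of_finite _ _
  have halg : IsAlgebraic (jField L) ((⟨x, hx⟩ : spanAlg L h) : LaurentSeries L) :=
    (hint.isAlgebraic).algebraMap (A := LaurentSeries L)
  exact (spanAlg L h).inv_mem_of_algebraic (x := ⟨x, hx⟩) halg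

/-- The span as an intermediate field of `L((q))/L`. -/
def spanField (h : SpansQ N y) : IntermediateField L (LaurentSeries L) where
  carrier := spanL L y
  mul_mem' := fun ha hb => mul_mem_spanL L h ha hb
  add_mem' := fun ha hb => _root_.AddMemClass.add_mem ha hb
  one_mem' := one_mem_spanL L h
  zero_mem' := _root_.ZeroMemClass.zero_mem _
  algebraMap_mem' c := by
    have hc : algebraMap L (LaurentSeries L) c ∈ jField L := (jField L).algebraMap_mem c
    have : algebraMap L (LaurentSeries L) c =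
        (⟨_, hc⟩ : jField L) • (1 : LaurentSeries L) := by
      show _ = algebraMap L (LaurentSeries L) c * 1
      rw [mul_one]
    rw [this]
    exact Submodule.smul_mem _ _ (one_mem_spanL L h)
  inv_mem' := fun x hx => inv_mem_spanL L h hx

theorem jField_le_baseChange : jField L ≤ laurentBaseChange L (modularFunctionFieldFull N) := by
  rw [jField, adjoin_le_iff]
  rintro x rfl
  have hj : jq ∈ modularFunctionFieldFull N := modularFunctionField_le_full N (jq_mem N)
  have := coeffEmb_mem_laurentBaseChange L hj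
  rwa [coeffEmb_jq] at this

/-- **Base change of the S28 basis.** `F_L` is the `L(j)`-span of the monomials. -/
theorem mem_baseChange_iff_mem_spanL (h : SpansQ N y) {x : LaurentSeries L} :
    x ∈ laurentBaseChange L (modularFunctionFieldFull N) ↔ x ∈ spanL L y := by
  constructor
  · intro hx
    have hle : laurentBaseChange L (modularFunctionFieldFull N) ≤ spanField L h := by
      rw [laurentBaseChange, adjoin_le_iff]
      rintro z ⟨w, hw, rfl⟩
      exact coeffEmb_mem_spanL L h hw
    exact hle hx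
  · intro hx
    induction hx using Submodule.span_induction with
    | mem z hz =>
      obtain ⟨i, rfl⟩ := hz
      show coeffMap (Int.castRingHom L) (y i) ∈ _
      rw [coeffMap_intCast_eq_coeffEmb L (y i)]
      exact coeffEmb_mem_laurentBaseChange L (yQ_mem_full h i)
    | zero => exact _root_.ZeroMemClass.zero_mem _
    | add a b _ _ ha hb => exact _root_.AddMemClass.add_mem ha hb
    | smul c a _ ha =>
      exact _root_.MulMemClass.mul_mem (jField_le_baseChange L c.2) ha

end Span

end Fermat.Agent.S18.H516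

end
end
-- ===== PACK-END S18/H516/GaussSpan.lean

-- ===== PACK-BEGIN S28/H505/LevelOne.lean
section



open UpperHalfPlane ModularForm EisensteinSeries Filter Topology MatrixGroups
  SlashInvariantForm SlashInvariantFormClass ModularFormClass CuspFormClass
open scoped PowerSeries.WithPiTopology

namespace Fermat.Agent.S28.H505

/-- the modular `j`-function (normalised as `q⁻¹ + 744 + ⋯`) -/
noncomputable def jFun (z : ℍ) : ℂ := E₄ z ^ 3 / ModularForm.discriminant z

/-- formal `E₄` over `ℂ` -/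
noncomputable def e4C : PowerSeries ℂ := ModularCurve.eisenstein4.map (Int.castRingHom ℂ)

/-- formal `Δ` over `ℂ` -/
noncomputable def deltaC : PowerSeries ℂ :=
  PowerSeries.X * (ModularCurve.etaProd.map (Int.castRingHom ℂ)) ^ 24

theorem qExpansion_E₄_eq_e4C : qExpansion 1 E₄ = e4C := qExpansion_E₄_eq

theorem qExpansion_discriminant_eq_deltaC : qExpansion 1 ModularForm.discriminant = deltaC :=
  qExpansion_discriminant_eq

theorem ofPowerSeries_e4C_pow_three :
    (HahnSeries.ofPowerSeries ℤ ℂ e4C) ^ 3 =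
      ModularCurve.jqModC ℂ * HahnSeries.ofPowerSeries ℤ ℂ deltaC := by
  have h1 : ModularCurve.jNum * ModularCurve.etaProd ^ 24 = ModularCurve.eisenstein4 ^ 3 := by
    have := ModularCurve.dedekindEtaUnit_mul_inv
    rw [ModularCurve.dedekindEtaUnit] at this
    rw [ModularCurve.jNum, mul_assoc, mul_comm ModularCurve.dedekindEtaUnitInv, this, mul_one]
  have h2 := congrArg (PowerSeries.map (Int.castRingHom ℂ)) h1
  rw [_root_.map_mul, map_pow, map_pow] at h2
  have h3 : HahnSeries.ofPowerSeries ℤ ℂ deltaC =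
      HahnSeries.single (1 : ℤ) (1 : ℂ) *
        HahnSeries.ofPowerSeries ℤ ℂ ((ModularCurve.etaProd.map (Int.castRingHom ℂ)) ^ 24) := by
    rw [deltaC, _root_.map_mul, HahnSeries.ofPowerSeries_X]
  rw [h3, ModularCurve.jqModC, e4C, ← map_pow, ← h2, _root_.map_mul]
  have h4 : HahnSeries.single (-1 : ℤ) (1 : ℂ) * HahnSeries.single (1 : ℤ) (1 : ℂ) = 1 := by
    rw [HahnSeries.single_mul_single]; simp
  calc _ = (HahnSeries.single (-1 : ℤ) (1 : ℂ) * HahnSeries.single (1 : ℤ) (1 : ℂ)) *
        (HahnSeries.ofPowerSeries ℤ ℂ (ModularCurve.jNum.map (Int.castRingHom ℂ)) *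
        HahnSeries.ofPowerSeries ℤ ℂ ((ModularCurve.etaProd.map (Int.castRingHom ℂ)) ^ 24)) := by
          rw [h4, one_mul]
    _ = _ := by ring


theorem algebraMap_laurent_eq_C (c : ℂ) :
    algebraMap ℂ (LaurentSeries ℂ) c = HahnSeries.C c := by
  rw [HahnSeries.algebraMap_apply']
  simp

theorem aeval_laurent_eq_eval₂ (x : LaurentSeries ℂ) (P : Polynomial ℂ) :
    Polynomial.aeval x P = Polynomial.eval₂ HahnSeries.C x P := by
  rw [Polynomial.aeval_def]
  congr 1
  ext c : 1
  exact algebraMap_laurent_eq_C c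

theorem e4C_coeff_zero : e4C.coeff 0 = 1 := by
  rw [← qExpansion_E₄_eq_e4C]
  exact E_qExpansion_coeff_zero (by norm_num) (by decide)

/-- `E₄ ^ n` as a modular form of weight `k = 4 n`. -/
noncomputable def E4pow (n : ℕ) (k : ℤ) (hk : (n : ℤ) * 4 = k) : ModularForm 𝒮ℒ k :=
  ModularForm.mcast hk (E₄.pow n)

theorem E4pow_apply (n : ℕ) (k : ℤ) (hk : (n : ℤ) * 4 = k) (z : ℍ) :
    E4pow n k hk z = E₄ z ^ n := by
  simp [E4pow]

theorem qExpansion_E4pow (n : ℕ) (k : ℤ) (hk : (n : ℤ) * 4 = k) :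
    qExpansion 1 (E4pow n k hk) = e4C ^ n := by
  rw [E4pow, ModularForm.qExpansion_mcast,
    ModularForm.qExpansion_pow one_pos one_mem_strictPeriods_SL, qExpansion_E₄_eq_e4C]

theorem levelOne_structure (m : ℕ) : ∀ (k : ℤ) (_ : k = 12 * m) (F : ModularForm 𝒮ℒ k),
    ∃ P : Polynomial ℂ, P.natDegree ≤ m ∧
      (∀ z : ℍ, F z = ModularForm.discriminant z ^ m * P.eval (jFun z)) ∧
      (HahnSeries.ofPowerSeries ℤ ℂ (qExpansion 1 F) =
        (HahnSeries.ofPowerSeries ℤ ℂ deltaC) ^ m *
          Polynomial.aeval (ModularCurve.jqModC ℂ) P) := by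
  induction m with
  | zero =>
    intro k hk F
    simp only [Nat.cast_zero, mul_zero] at hk
    subst hk
    obtain ⟨c, hc⟩ := levelOne_weight_zero_const F
    refine ⟨Polynomial.C c, by simp, fun z => by simp [hc], ?_⟩
    have h1 : qExpansion 1 F = PowerSeries.C c := by
      have : (F : ℍ → ℂ) = c • ⇑(1 : ModularForm 𝒮ℒ 0) := by
        rw [hc]; ext z; simp
      rw [this, ModularForm.qExpansion_smul one_pos one_mem_strictPeriods_SL,
        ModularForm.qExpansion_one, PowerSeries.smul_eq_C_mul, mul_one]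
    rw [h1, HahnSeries.ofPowerSeries_C, pow_zero, one_mul, Polynomial.aeval_C,
      algebraMap_laurent_eq_C]
  | succ m ih =>
    intro k hk F
    set c₀ : ℂ := (qExpansion 1 F).coeff 0 with hc₀
    have hk4 : ((3 * (m + 1) : ℕ) : ℤ) * 4 = k := by rw [hk]; push_cast; ring
    set G : ModularForm 𝒮ℒ k := F - c₀ • E4pow (3 * (m + 1)) k hk4 with hG
    have hGq : qExpansion 1 G = qExpansion 1 F - PowerSeries.C c₀ * e4C ^ (3 * (m + 1)) := by
      have h1 : (G : ℍ → ℂ) = ⇑F - ⇑(c₀ • E4pow (3 * (m + 1)) k hk4) := rfl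
      rw [h1, ModularForm.qExpansion_sub one_pos one_mem_strictPeriods_SL]
      have h2 : (⇑(c₀ • E4pow (3 * (m + 1)) k hk4) : ℍ → ℂ) = c₀ • ⇑(E4pow (3 * (m + 1)) k hk4) :=
        rfl
      rw [h2, ModularForm.qExpansion_smul one_pos one_mem_strictPeriods_SL, qExpansion_E4pow,
        PowerSeries.smul_eq_C_mul]
    have hG0 : (qExpansion 1 G).coeff 0 = 0 := by
      rw [hGq, map_sub, PowerSeries.coeff_zero_eq_constantCoeff, _root_.map_mul, map_pow]
      simp only [← PowerSeries.coeff_zero_eq_constantCoeff, e4C_coeff_zero]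
      simp [hc₀]
    set H : ModularForm 𝒮ℒ (k - 12) := CuspForm.discriminantEquiv (G.toCuspForm hG0) with hH
    obtain ⟨P, hPdeg, hPval, hPq⟩ := ih (k - 12) (by rw [hk]; push_cast; ring) H
    have hGH : ∀ z, G z = ModularForm.discriminant z * H z := fun z => by
      rw [hH, discriminant_mul_discriminantEquiv_apply]; rfl
    have hFG : ∀ z, F z = c₀ * E₄ z ^ (3 * (m + 1)) + G z := fun z => by
      have : G z = F z - c₀ * E4pow (3 * (m + 1)) k hk4 z := rfl
      rw [this, E4pow_apply]; ring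
    refine ⟨Polynomial.C c₀ * Polynomial.X ^ (m + 1) + P, ?_, ?_, ?_⟩
    · refine (Polynomial.natDegree_add_le _ _).trans (max_le ?_ (hPdeg.trans (Nat.le_succ m)))
      exact Polynomial.natDegree_C_mul_X_pow_le _ _
    · intro z
      rw [hFG, hGH, hPval, Polynomial.eval_add, Polynomial.eval_mul, Polynomial.eval_C,
        Polynomial.eval_pow, Polynomial.eval_X, jFun]
      have hΔ := discriminant_ne_zero z
      have hJ : ModularForm.discriminant z * (E₄ z ^ 3 / ModularForm.discriminant z) = E₄ z ^ 3 :=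
        mul_div_cancel₀ _ hΔ
      have : ModularForm.discriminant z ^ (m + 1) *
          (c₀ * (E₄ z ^ 3 / ModularForm.discriminant z) ^ (m + 1) +
            Polynomial.eval (E₄ z ^ 3 / ModularForm.discriminant z) P) =
          c₀ * (ModularForm.discriminant z * (E₄ z ^ 3 / ModularForm.discriminant z)) ^ (m + 1) +
          ModularForm.discriminant z * (ModularForm.discriminant z ^ m *
            Polynomial.eval (E₄ z ^ 3 / ModularForm.discriminant z) P) := by ring
      rw [this, hJ, pow_mul]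
    · have h1 : qExpansion 1 F = PowerSeries.C c₀ * e4C ^ (3 * (m + 1)) +
          deltaC * qExpansion 1 H := by
        have := ModularForm.qExpansion_eq_qExpansion_discriminant_mul G hG0
        rw [qExpansion_discriminant_eq_deltaC, ← hH, hGq] at this
        rw [← this]; ring
      rw [h1, map_add, _root_.map_mul, _root_.map_mul, map_pow, hPq, pow_mul, ofPowerSeries_e4C_pow_three,
        HahnSeries.ofPowerSeries_C, map_add, _root_.map_mul, Polynomial.aeval_C, map_pow,
        Polynomial.aeval_X, algebraMap_laurent_eq_C]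
      ring

end Fermat.Agent.S28.H505

end
-- ===== PACK-END S28/H505/LevelOne.lean

-- ===== PACK-BEGIN S18/H333/Forms.lean
section




/-!
# S18 / c3 (helper333): level-one forms on `Γ₀(p)` — restriction and `V_p`

* `restr p H` : a level-one modular form `H` viewed on `Γ₀(p)`;
* `raise p H` : `τ ↦ H (p τ)` as a modular form on `Γ₀(p)`;
* `qExpansion_raise` : the `q`-expansion of `raise p H` is `Vser p (qExpansion H)`.
-/

set_option autoImplicit false
set_option linter.unusedSectionVars false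

noncomputable section

namespace Fermat.Agent.S18.H333

open UpperHalfPlane ModularForm CongruenceSubgroup MatrixGroups Matrix.SpecialLinearGroup

variable (p : ℕ) [NeZero p]

theorem det_eq_one' (g : SL(2, ℤ)) : g 0 0 * g 1 1 - g 0 1 * g 1 0 = 1 := by
  have h := g.det_coe
  rwa [Matrix.det_fin_two] at h

theorem diag_mul_mapGL (g : SL(2, ℤ)) (e : ℤ) (he : g 1 0 = p * e) :
    ∃ g' : SL(2, ℤ), heckeDiagMatrix p * mapGL ℝ g = mapGL ℝ g' * heckeDiagMatrix p := by
  have hp := NeZero.ne p
  have hdet := det_eq_one' g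
  obtain ⟨g', hg'⟩ : ∃ g' : SL(2, ℤ),
      (g' : Matrix (Fin 2) (Fin 2) ℤ) = !![g 0 0, p * g 0 1; e, g 1 1] := by
    refine ⟨⟨!![g 0 0, p * g 0 1; e, g 1 1], ?_⟩, rfl⟩
    rw [Matrix.det_fin_two_of]
    linear_combination hdet + (g 0 1) * he
  refine ⟨g', ?_⟩
  apply Units.ext
  rw [Units.val_mul, Units.val_mul, val_heckeDiagMatrix hp, mapGL_coe_matrix, mapGL_coe_matrix]
  have he' : ((g 1 0 : ℤ) : ℝ) = p * e := by exact_mod_cast he
  ext i j
  fin_cases i <;> fin_cases j <;>
    simp [Matrix.mul_apply, Fin.sum_univ_two, he', hg'] <;> ring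

open ConjAct Pointwise in
theorem Gamma0_le_conj_diag :
    (Gamma0 p : Subgroup (GL (Fin 2) ℝ)) ≤
      toConjAct (heckeDiagMatrix p)⁻¹ • (𝒮ℒ : Subgroup (GL (Fin 2) ℝ)) := by
  rintro _ ⟨g, hg, rfl⟩
  obtain ⟨e, he⟩ : (p : ℤ) ∣ g 1 0 := by
    have hg' : g ∈ Gamma0 p := hg
    rwa [CongruenceSubgroup.Gamma0_mem, ZMod.intCast_zmod_eq_zero_iff_dvd] at hg'
  obtain ⟨g', hg'⟩ := diag_mul_mapGL p g e he
  rw [Subgroup.mem_pointwise_smul_iff_inv_smul_mem, ← toConjAct_inv, inv_inv, toConjAct_smul, hg',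
    mul_inv_cancel_right]
  exact ⟨g', rfl⟩

omit [NeZero p] in
theorem Gamma0_le_top : (Gamma0 p : Subgroup (GL (Fin 2) ℝ)) ≤ (𝒮ℒ : Subgroup (GL (Fin 2) ℝ)) := by
  rintro _ ⟨g, -, rfl⟩
  exact ⟨g, rfl⟩

/-- `H ∣[k] diag(p,1)`, i.e. `τ ↦ p^(k-1) H(p τ)`, as a modular form on `Γ₀(p)`. -/
def raise0 {k : ℤ} (H : ModularForm 𝒮ℒ k) : ModularForm (Gamma0 p) k where
  toFun := (⇑H : ℍ → ℂ) ∣[k] heckeDiagMatrix p
  slash_action_eq' γ hγ :=
    (ModularForm.translate H (heckeDiagMatrix p)).slash_action_eq' γ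
      (Gamma0_le_conj_diag p hγ)
  holo' := (ModularForm.translate H (heckeDiagMatrix p)).holo'
  bdd_at_cusps' hc :=
    (ModularForm.translate H (heckeDiagMatrix p)).bdd_at_cusps'
      (hc.mono (Gamma0_le_conj_diag p))

/-- a level-one form viewed on `Γ₀(p)` -/
def restr {k : ℤ} (H : ModularForm 𝒮ℒ k) : ModularForm (Gamma0 p) k where
  toFun := (⇑H : ℍ → ℂ)
  slash_action_eq' γ hγ := H.slash_action_eq' γ (Gamma0_le_top p hγ)
  holo' := H.holo'
  bdd_at_cusps' hc := H.bdd_at_cusps' (hc.mono (Gamma0_le_top p))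

@[simp] theorem coe_restr {k : ℤ} (H : ModularForm 𝒮ℒ k) : (⇑(restr p H) : ℍ → ℂ) = ⇑H := rfl

/-- `τ ↦ H(p τ)` as a modular form on `Γ₀(p)`. -/
def raise {k : ℤ} (H : ModularForm 𝒮ℒ k) : ModularForm (Gamma0 p) k :=
  ((p : ℂ) ^ (1 - k)) • raise0 p H

theorem raise_apply {k : ℤ} (H : ModularForm 𝒮ℒ k) (τ : ℍ) :
    raise p H τ = H (heckeDiagMatrix p • τ) := by
  have hp' : (p : ℂ) ≠ 0 := by exact_mod_cast NeZero.ne p
  show ((p : ℂ) ^ (1 - k)) • ((⇑H : ℍ → ℂ) ∣[k] heckeDiagMatrix p) τ = _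
  rw [slash_heckeDiagMatrix_apply k (NeZero.ne p), smul_eq_mul, ← mul_assoc, ← zpow_add₀ hp']
  simp

theorem one_mem_strictPeriods_Gamma0 :
    (1 : ℝ) ∈ (Gamma0 p : Subgroup (GL (Fin 2) ℝ)).strictPeriods := by
  simp [CongruenceSubgroup.strictPeriods_Gamma0]

theorem one_mem_strictPeriods_top :
    (1 : ℝ) ∈ (𝒮ℒ : Subgroup (GL (Fin 2) ℝ)).strictPeriods := by
  simp

theorem qParam_diag (τ : ℍ) :
    Function.Periodic.qParam 1 ((heckeDiagMatrix p • τ : ℍ) : ℂ) =
      Function.Periodic.qParam 1 (τ : ℂ) ^ p := by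
  rw [coe_heckeDiagMatrix_smul (NeZero.ne p), Function.Periodic.qParam,
    Function.Periodic.qParam, ← Complex.exp_nat_mul]
  congr 1
  push_cast
  ring

theorem qExpansion_raise {k : ℤ} (H : ModularForm 𝒮ℒ k) :
    qExpansion 1 (raise p H) = Vser p (qExpansion 1 H) := by
  ext n
  symm
  refine ModularFormClass.qExpansion_coeff_unique (h := 1)
    (c := fun n => PowerSeries.coeff n (Vser p (qExpansion 1 H))) one_pos
    (_root_.Fermat.Agent.S18.H333.one_mem_strictPeriods_Gamma0 p) (f := raise p H) (fun τ => ?_) n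
  rw [raise_apply]
  have h1 := ModularForm.hasSum_qExpansion (f := H) one_pos one_mem_strictPeriods_top
    (heckeDiagMatrix p • τ)
  rw [qParam_diag] at h1
  have hinj : Function.Injective (fun m : ℕ => p * m) :=
    fun a b hab => Nat.eq_of_mul_eq_mul_left (Nat.pos_of_ne_zero (NeZero.ne p)) hab
  refine (hinj.hasSum_iff ?_).mp ?_
  · intro n hn
    have : ¬ p ∣ n := fun ⟨m, hm⟩ => hn ⟨m, hm.symm⟩
    simp [this]
  · convert h1 using 2 with m
    simp only [Function.comp_apply, coeff_Vser, dvd_mul_right, if_true,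
      Nat.mul_div_cancel_left m (Nat.pos_of_ne_zero (NeZero.ne p)), smul_eq_mul, pow_mul]

end Fermat.Agent.S18.H333

end
end
-- ===== PACK-END S18/H333/Forms.lean

-- ===== PACK-BEGIN S20/Comb/RelIndex.lean
section





/-!
# Relative index of `Gamma0 (p * M)` in `Gamma0 M`

`(Gamma0 (p * M)).relIndex (Gamma0 M) = p` if `p ∣ M`, and `p + 1` otherwise (`p` prime, `M ≠ 0`).
-/

set_option autoImplicit false

namespace Fermat.Agent.S20.Comb

open Matrix MatrixGroups CongruenceSubgroup

lemma mem_Gamma0_iff_dvd (N : ℕ) (g : SL(2, ℤ)) : g ∈ Gamma0 N ↔ (N : ℤ) ∣ g 1 0 := by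
  rw [Gamma0_mem]
  exact ZMod.intCast_zmod_eq_zero_iff_dvd _ _

lemma Gamma0_mul_le (p M : ℕ) : Gamma0 (p * M) ≤ Gamma0 M := by
  intro g hg
  rw [mem_Gamma0_iff_dvd] at hg ⊢
  refine dvd_trans ?_ hg
  push_cast
  exact dvd_mul_left _ _

/-- The matrix `[[1, 0], [c, 1]]` in `SL(2,ℤ)`. -/
def lowRep (c : ℤ) : SL(2, ℤ) := ⟨!![1, 0; c, 1], by simp [Matrix.det_fin_two]⟩

@[simp] lemma lowRep_apply_zero_zero (c : ℤ) : lowRep c 0 0 = 1 := rfl
@[simp] lemma lowRep_apply_one_zero (c : ℤ) : lowRep c 1 0 = c := rfl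

lemma lowRep_mem (M : ℕ) (t : ℤ) : lowRep ((M : ℤ) * t) ∈ Gamma0 M := by
  rw [mem_Gamma0_iff_dvd, lowRep_apply_one_zero]
  exact dvd_mul_right _ _

/-- Coset criterion for `Gamma0 M ⧸ (Gamma0 (p * M)).subgroupOf (Gamma0 M)`. -/
lemma subMk_eq_iff (p M : ℕ) (hM : M ≠ 0) (g g' : Gamma0 M) (c₁ c₁' : ℤ)
    (hc : (g : SL(2, ℤ)) 1 0 = M * c₁) (hc' : (g' : SL(2, ℤ)) 1 0 = M * c₁') :
    (QuotientGroup.mk g : Gamma0 M ⧸ (Gamma0 (p * M)).subgroupOf (Gamma0 M))
        = QuotientGroup.mk g' ↔
      (p : ℤ) ∣ ((g : SL(2, ℤ)) 0 0 * c₁' - c₁ * (g' : SL(2, ℤ)) 0 0) := by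
  rw [QuotientGroup.eq, Subgroup.mem_subgroupOf, mem_Gamma0_iff_dvd]
  simp only [Subgroup.coe_mul, Subgroup.coe_inv, inv_mul_apply_one_zero, hc, hc']
  have h : (g : SL(2, ℤ)) 0 0 * ((M : ℤ) * c₁') - (M : ℤ) * c₁ * (g' : SL(2, ℤ)) 0 0
      = (M : ℤ) * ((g : SL(2, ℤ)) 0 0 * c₁' - c₁ * (g' : SL(2, ℤ)) 0 0) := by ring
  rw [h]
  push_cast
  rw [mul_comm (p : ℤ) (M : ℤ)]
  exact mul_dvd_mul_iff_left (by exact_mod_cast hM)

/-- For `g ∈ Gamma0 M` with `p ∣ M`, the entry `g 0 0` is nonzero mod `p`. -/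
lemma a_ne_zero_of_dvd (p M : ℕ) (hp : p.Prime) (h : p ∣ M) (g : Gamma0 M) :
    ¬ (p : ℤ) ∣ (g : SL(2, ℤ)) 0 0 := by
  intro ha
  have hg := (mem_Gamma0_iff_dvd M _).mp g.2
  have hpc : (p : ℤ) ∣ (g : SL(2, ℤ)) 1 0 := dvd_trans (by exact_mod_cast h) hg
  have hdet := (g : SL(2, ℤ)).det_coe
  rw [Matrix.det_fin_two] at hdet
  have h1 : (p : ℤ) ∣ 1 := by
    rw [← hdet]
    exact dvd_sub (dvd_mul_of_dvd_left ha _) (dvd_mul_of_dvd_right hpc _)
  have := Int.natCast_dvd_natCast.mp (by simpa using h1 : ((p : ℕ) : ℤ) ∣ ((1 : ℕ) : ℤ))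
  exact hp.one_lt.ne' (Nat.dvd_one.mp this)

/-- The coset representative attached to `t : ZMod p`. -/
noncomputable def relRep (p M : ℕ) (t : ZMod p) :
    Gamma0 M ⧸ (Gamma0 (p * M)).subgroupOf (Gamma0 M) :=
  QuotientGroup.mk ⟨lowRep ((M : ℤ) * (ZMod.cast t : ℤ)), lowRep_mem M _⟩

lemma relRep_injective (p M : ℕ) (hM : M ≠ 0) : Function.Injective (relRep p M) := by
  intro t t' h
  simp only [relRep] at h
  rw [subMk_eq_iff p M hM _ _ (ZMod.cast t : ℤ) (ZMod.cast t' : ℤ) rfl rfl] at h
  simp only [lowRep_apply_zero_zero, _root_.one_mul, _root_.mul_one] at h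
  have := (ZMod.intCast_zmod_eq_zero_iff_dvd _ p).mpr h
  push_cast at this
  exact (sub_eq_zero.mp this).symm

/-- Elements with `p ∤ a` are in the range of `relRep`. -/
lemma mem_range_relRep (p M : ℕ) (hM : M ≠ 0) (hp : p.Prime) (g : Gamma0 M)
    (ha : ¬ (p : ℤ) ∣ (g : SL(2, ℤ)) 0 0) :
    (QuotientGroup.mk g : Gamma0 M ⧸ (Gamma0 (p * M)).subgroupOf (Gamma0 M))
      ∈ Set.range (relRep p M) := by
  haveI : Fact p.Prime := ⟨hp⟩
  obtain ⟨c₁, hc₁⟩ := (mem_Gamma0_iff_dvd M _).mp g.2
  have ha' : (((g : SL(2, ℤ)) 0 0 : ℤ) : ZMod p) ≠ 0 := by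
    rwa [Ne, ZMod.intCast_zmod_eq_zero_iff_dvd]
  refine ⟨(c₁ : ZMod p) * (((g : SL(2, ℤ)) 0 0 : ℤ) : ZMod p)⁻¹, ?_⟩
  simp only [relRep]
  rw [subMk_eq_iff p M hM _ _ _ c₁ rfl hc₁]
  simp only [lowRep_apply_zero_zero, _root_.one_mul]
  rw [← ZMod.intCast_zmod_eq_zero_iff_dvd]
  push_cast
  rw [_root_.mul_assoc, inv_mul_cancel₀ ha', _root_.mul_one, sub_self]

/-- **Relative index, ramified case**: `[Γ₀(M) : Γ₀(pM)] = p` if `p ∣ M`. -/
theorem relIndex_Gamma0_of_dvd (p M : ℕ) (hM : M ≠ 0) (hp : p.Prime) (h : p ∣ M) :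
    (Gamma0 (p * M)).relIndex (Gamma0 M) = p := by
  have hbij : Function.Bijective (relRep p M) := by
    refine ⟨relRep_injective p M hM, ?_⟩
    intro q
    obtain ⟨g, rfl⟩ := QuotientGroup.mk_surjective q
    exact mem_range_relRep p M hM hp g (a_ne_zero_of_dvd p M hp h g)
  rw [Subgroup.relIndex, Subgroup.index, ← Nat.card_eq_of_bijective _ hbij, Nat.card_zmod]

/-- An element of `Gamma0 M` with first column `(p, M)`, for `p ∤ M`. -/
lemma exists_special (p M : ℕ) (hp : p.Prime) (h : ¬ p ∣ M) :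
    ∃ g : Gamma0 M, (g : SL(2, ℤ)) 0 0 = p ∧ (g : SL(2, ℤ)) 1 0 = M := by
  have hcop : IsCoprime (p : ℤ) (M : ℤ) := by
    rw [Int.isCoprime_iff_gcd_eq_one, Int.gcd_natCast_natCast]
    exact (Nat.Prime.coprime_iff_not_dvd hp).mpr h
  obtain ⟨g, hg0, hg1⟩ := IsCoprime.exists_SL2_col hcop 0
  refine ⟨⟨g, ?_⟩, hg0, hg1⟩
  rw [mem_Gamma0_iff_dvd, hg1]

/-- **Relative index, unramified case**: `[Γ₀(M) : Γ₀(pM)] = p + 1` if `p ∤ M`. -/
theorem relIndex_Gamma0_of_not_dvd (p M : ℕ) (hM : M ≠ 0) (hp : p.Prime) (h : ¬ p ∣ M) :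
    (Gamma0 (p * M)).relIndex (Gamma0 M) = p + 1 := by
  haveI : Fact p.Prime := ⟨hp⟩
  obtain ⟨g₀, hg₀0, hg₀1⟩ := exists_special p M hp h
  let f : Option (ZMod p) → Gamma0 M ⧸ (Gamma0 (p * M)).subgroupOf (Gamma0 M) :=
    fun o => o.elim (QuotientGroup.mk g₀) (relRep p M)
  have hne : ∀ t : ZMod p, relRep p M t ≠ QuotientGroup.mk g₀ := by
    intro t ht
    simp only [relRep] at ht
    rw [subMk_eq_iff p M hM _ _ (ZMod.cast t : ℤ) 1 rfl (by rw [hg₀1, _root_.mul_one])] at ht
    simp only [lowRep_apply_zero_zero, _root_.one_mul, hg₀0] at ht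
    have h1 : (p : ℤ) ∣ 1 := by
      have := dvd_add ht (dvd_mul_left (p : ℤ) (ZMod.cast t : ℤ))
      simpa using this
    have := Int.natCast_dvd_natCast.mp (by simpa using h1 : ((p : ℕ) : ℤ) ∣ ((1 : ℕ) : ℤ))
    exact hp.one_lt.ne' (Nat.dvd_one.mp this)
  have hbij : Function.Bijective f := by
    constructor
    · rintro (_ | t) (_ | t') hh
      · rfl
      · exact absurd hh.symm (hne t')
      · exact absurd hh (hne t)
      · exact congrArg some (relRep_injective p M hM hh)
    · intro q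
      obtain ⟨g, rfl⟩ := QuotientGroup.mk_surjective q
      by_cases ha : (p : ℤ) ∣ (g : SL(2, ℤ)) 0 0
      · refine ⟨none, ?_⟩
        obtain ⟨c₁, hc₁⟩ := (mem_Gamma0_iff_dvd M _).mp g.2
        show QuotientGroup.mk g₀ = _
        rw [subMk_eq_iff p M hM _ _ 1 c₁ (by rw [hg₀1, _root_.mul_one]) hc₁, hg₀0]
        exact dvd_sub (dvd_mul_right _ _) (by simpa using ha)
      · obtain ⟨t, ht⟩ := mem_range_relRep p M hM hp g ha
        exact ⟨some t, ht⟩
  rw [Subgroup.relIndex, Subgroup.index, ← Nat.card_eq_of_bijective _ hbij, Finite.card_option,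
    Nat.card_zmod]

end Fermat.Agent.S20.Comb

end
-- ===== PACK-END S20/Comb/RelIndex.lean

-- ===== PACK-BEGIN S18/Mod/Defs.lean
section



/-!
# S18 / MOD — frozen CONCRETE objects at level `M` (row-lead helper18)

For a valuation subring `A` of `Q̄` and an intermediate field `E` of `Q̄/ℚ` (a number field in the
application) we define the sub-objects of `Ω := F_M = modularFunctionFieldBar M` that instantiate
`Alg.GoodModel`:

* `Lc M`       constants `Q̄`
* `Ec M E`     constants in `E`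
* `Rc M A E`   constants in `A ∩ E`
* `Fc M E`     `E(j_d : d ∣ M)`
* `Vc M A E`   Gauss valuation ring: quotients `U₁/U₂` of series `U_i ∈ (A ∩ E)((q))` lying in `Fc`,
               with `U₂ ≢ 0` mod the maximal ideal of `A`.

MOD deliverable: `GoodModelStatement` below.  GLUE deliverable: `GlueStatement` below (needed for
PRIME `m` only, see `Integ/Skeleton.lean`).

v4 = FINAL (landed on main): unchanged from v3 except that `Alg.GoodModel` has the new field
`x_mem_V` and `Alg.AlgMainStatement` is for prime `m`.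
-/

set_option autoImplicit false

noncomputable section

namespace Fermat.Agent.S18.Mod

open ModularCurve AlgebraicCurve HahnSeries

/-- `Ω = F_M`, the function field of `X₀(M)` over `Q̄`, as a type. -/
abbrev Om (M : ℕ) : Type := ↥(modularFunctionFieldBar M)

/-- The constants `Q̄ ⊆ Ω`. -/
def Lc (M : ℕ) : Subfield (Om M) := (algebraMap Qb (Om M)).fieldRange

/-- The constants from `E`. -/
def Ec (M : ℕ) (E : IntermediateField ℚ Qb) : Subfield (Om M) :=
  E.toSubfield.map (algebraMap Qb (Om M))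

/-- The constants from `A ∩ E`. -/
def Rc (M : ℕ) (A : ValuationSubring Qb) (E : IntermediateField ℚ Qb) : Subring (Om M) :=
  (A.toSubring ⊓ E.toSubfield.toSubring).map (algebraMap Qb (Om M))

/-- The generator `j(q^d)` of `Ω`. -/
def jd (M : ℕ) (d : ℕ) [NeZero d] (hd : d ∣ M) : Om M :=
  ⟨coeffEmb Qb (qExpand ℚ d jq), coeffEmb_mem_laurentBaseChange Qb (jqd_mem_full M hd)⟩

/-- `j ∈ Ω`. -/
def jOm (M : ℕ) : Om M := jd M 1 (one_dvd M)

/-- The set of generators `j(q^d)`, `d ∣ M`. -/
def gens (M : ℕ) : Set (Om M) := {y | ∃ (d : ℕ) (_ : NeZero d) (hd : d ∣ M), y = jd M d hd}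

/-- `Fc = E(j_d : d ∣ M)`. -/
def Fc (M : ℕ) (E : IntermediateField ℚ Qb) : Subfield (Om M) :=
  Subfield.closure ((Ec M E : Set (Om M)) ∪ gens M)

/-- A series over `A` is `E`-rational, lies in `Fc`, (and is automatically `A`-integral). -/
def IsIntE (M : ℕ) (A : ValuationSubring Qb) (E : IntermediateField ℚ Qb)
    (U : LaurentSeries A) : Prop :=
  (∀ n : ℤ, ((U.coeff n : A) : Qb) ∈ E) ∧
    ∃ f ∈ Fc M E, (f : LaurentSeries Qb) = coeffMap A.subtype U

/-- The Gauss valuation ring of `Fc`, as a set; it is a subring (part of the MOD deliverable). -/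
def VcSet (M : ℕ) (A : ValuationSubring Qb) (E : IntermediateField ℚ Qb) : Set (Om M) :=
  {f | f ∈ Fc M E ∧ ∃ U₁ U₂ : LaurentSeries A, IsIntE M A E U₁ ∧ IsIntE M A E U₂ ∧
    coeffMap (IsLocalRing.residue A) U₂ ≠ 0 ∧
    (f : LaurentSeries Qb) * coeffMap A.subtype U₂ = coeffMap A.subtype U₁}

/-- `x` is an admissible coordinate with finite branch set `S` for the residue characteristic `ℓ`:
`ℓ ≥ 5`: `x = j`, `S = {0, 1728}`;
`ℓ = 3`: `2 ∣ M`, `j x² = (x+256)³`, `S = {0, -64}`;
`ℓ = 2`: `3 ∣ M`, `j x³ = (x+27)(x+243)³`, `S = {0, -27}`;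
in the last two cases `x` is the image of an integral series `q⁻¹ + …` lying in `ℚ(j_d : d ∣ M)`. -/
def IsCoordinate (M ℓ : ℕ) (x : Om M) (S : Finset (Om M)) : Prop :=
  (5 ≤ ℓ ∧ x = jOm M ∧ ∀ s, s ∈ S ↔ s = 0 ∨ s = 1728) ∨
  ((ℓ = 3 ∧ jOm M * x ^ 2 = (x + 256) ^ 3 ∧ ∀ s, s ∈ S ↔ s = 0 ∨ s = -64) ∨
    (ℓ = 2 ∧ jOm M * x ^ 3 = (x + 27) * (x + 243) ^ 3 ∧ ∀ s, s ∈ S ↔ s = 0 ∨ s = -27)) ∧
   ∃ X : LaurentSeries ℤ, X.coeff (-1) = 1 ∧ (∀ k : ℤ, k < -1 → X.coeff k = 0) ∧
     (x : LaurentSeries Qb) = coeffMap (Int.castRingHom Qb) X ∧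
     coeffMap (Int.castRingHom ℚ) X ∈ modularFunctionFieldFull M

/-- The family of all concrete models: one for each intermediate field `E` of `Q̄/ℚ` that is
finite over `ℚ`, with `V` the subring with underlying set `VcSet M A E` and `w` any element. -/
def family (M : ℕ) (A : ValuationSubring Qb) : Set (Alg.Model (Om M)) :=
  {p | ∃ E : IntermediateField ℚ Qb, FiniteDimensional ℚ E ∧ p.1 = Ec M E ∧ p.2.1 = Fc M E ∧
    p.2.2.1 = Rc M A E ∧ (p.2.2.2.1 : Set (Om M)) = VcSet M A E}

/-- **MOD deliverable** (v3).  For every admissible coordinate `x` there is a directed family `𝓕`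
of good models, consisting of concrete models, and containing a model over a number field
`E ∋ T` for every finite set `T` of elements of `Q̄`. -/
def GoodModelStatement (M ℓ : ℕ) (A : ValuationSubring Qb) : Prop :=
  ∀ (x : Om M) (S : Finset (Om M)), IsCoordinate M ℓ x S →
    ∃ 𝓕 : Set (Alg.Model (Om M)), 𝓕 ⊆ family M A ∧ Alg.GoodFamily (Lc M) x S 𝓕 ∧
      ∀ T : Finset Qb, ∃ (E : IntermediateField ℚ Qb) (V : Subring (Om M)) (w : Om M),
        FiniteDimensional ℚ E ∧ (∀ a ∈ T, a ∈ E) ∧ (V : Set (Om M)) = VcSet M A E ∧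
        ((Ec M E, Fc M E, Rc M A E, V, w) : Alg.Model (Om M)) ∈ 𝓕

/-- **Existence of coordinates** (c3): for `ℓ ∤ M`, with `2 ∣ M` if `ℓ = 3` and `3 ∣ M` if `ℓ = 2`. -/
def CoordinateStatement (M ℓ : ℕ) : Prop :=
  ∃ (x : Om M) (S : Finset (Om M)), IsCoordinate M ℓ x S

/-- **ALG deliverable**, instantiated: `Alg.AlgMainStatement` for all arguments over `Ω = Om M`. -/
def AlgStatement (M : ℕ) : Prop :=
  ∀ (Lc : Subfield (Om M)) (x : Om M) (S : Finset (Om M)) (𝓕 : Set (Alg.Model (Om M))),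
    Alg.AlgMainStatement Lc x S 𝓕

/-- **GLUE deliverable** (d1): the hub statement at level `M` from MOD and ALG. -/
def GlueStatement (M ℓ : ℕ) (A : ValuationSubring Qb) (m : ℕ) : Prop :=
  CoordinateStatement M ℓ → GoodModelStatement M ℓ A → AlgStatement M → CoreStatement M A m

end Fermat.Agent.S18.Mod

end
end
-- ===== PACK-END S18/Mod/Defs.lean

-- ===== PACK-BEGIN S18/H602/DVR.lean
section



/-!
# S18, piece d1 (continued): `R_E = A ∩ E` is a discrete valuation ring  (owner helper602)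

For a valuation subring `A ⊆ Q̄` lying over a prime `ℓ` (`(ℓ : Q̄) ∈ A.nonunits`, which is the
Prelude's `A.LiesOverPrime ℓ` unfolded) and a finite extension `E/ℚ` inside `Q̄`, the ring
`R_E = A ∩ E` is the localisation of `𝓞 E` at a nonzero prime; in particular it is a
discrete valuation ring.
-/

set_option autoImplicit false

noncomputable section

namespace Fermat.Agent.S18.H602

open ModularCurve AlgebraicCurve HahnSeries IntermediateField IsDedekindDomain

open scoped NumberField

local notation "Q̄" => AlgebraicClosure ℚ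

section DVR

/-- Valuation subrings contain all algebraic integers. -/
theorem mem_of_isIntegral_int {K : Type*} [Field K] (B : ValuationSubring K) {x : K}
    (hx : IsIntegral ℤ x) : x ∈ B := by
  have h : IsIntegral B x := hx.tower_top
  obtain ⟨y, rfl⟩ := (IsIntegrallyClosed.isIntegral_iff (R := B) (K := K)).mp h
  exact y.2

variable (A : ValuationSubring Q̄) (E : IntermediateField ℚ Q̄)

theorem natCast_mem_RE (n : ℕ) : (n : E) ∈ RE A E := _root_.natCast_mem _ n

theorem natCast_not_isUnit_RE {ℓ : ℕ} (hA : (ℓ : Q̄) ∈ A.nonunits) :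
    ¬ IsUnit (⟨(ℓ : E), natCast_mem_RE A E ℓ⟩ : RE A E) := by
  intro hu
  have hu' := (toA A E).isUnit_map hu
  rw [ValuationSubring.mem_nonunits_iff_exists_mem_maximalIdeal] at hA
  obtain ⟨hℓA, hmem⟩ := hA
  rw [IsLocalRing.mem_maximalIdeal, mem_nonunits_iff] at hmem
  apply hmem
  convert hu' using 1
  exact Subtype.ext (by simp)

theorem RE_ne_top {ℓ : ℕ} (hℓ : ℓ ≠ 0) (hA : (ℓ : Q̄) ∈ A.nonunits) : RE A E ≠ ⊤ := by
  intro h
  apply natCast_not_isUnit_RE A E hA
  have hinv : ((ℓ : E)⁻¹ : E) ∈ RE A E := h ▸ ValuationSubring.mem_top _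
  have hℓE : (ℓ : E) ≠ 0 := by exact_mod_cast hℓ
  exact isUnit_iff_exists_inv.mpr ⟨⟨_, hinv⟩, Subtype.ext (mul_inv_cancel₀ hℓE)⟩

theorem algebraMap_ringOfIntegers_mem_RE (x : 𝓞 E) : algebraMap (𝓞 E) E x ∈ RE A E :=
  mem_of_isIntegral_int _ (NumberField.RingOfIntegers.isIntegral_coe x)

/-- The inclusion `𝓞 E → R_E`. -/
def ofInt : 𝓞 E →+* RE A E :=
  (algebraMap (𝓞 E) E).codRestrict (RE A E) (algebraMap_ringOfIntegers_mem_RE A E)

@[simp]
theorem coe_ofInt (x : 𝓞 E) : ((ofInt A E x : RE A E) : E) = algebraMap (𝓞 E) E x := rfl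

/-- The prime of `𝓞 E` below the maximal ideal of `R_E`. -/
def primeBelow : Ideal (𝓞 E) := (IsLocalRing.maximalIdeal (RE A E)).comap (ofInt A E)

instance primeBelow_isPrime : (primeBelow A E).IsPrime :=
  Ideal.comap_isPrime (ofInt A E) _

theorem natCast_mem_primeBelow {ℓ : ℕ} (hA : (ℓ : Q̄) ∈ A.nonunits) :
    (ℓ : 𝓞 E) ∈ primeBelow A E := by
  rw [primeBelow, Ideal.mem_comap, IsLocalRing.mem_maximalIdeal, mem_nonunits_iff]
  convert natCast_not_isUnit_RE A E hA using 2
  exact Subtype.ext (by simp)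

theorem primeBelow_ne_bot {ℓ : ℕ} (hℓ : ℓ ≠ 0) (hA : (ℓ : Q̄) ∈ A.nonunits) :
    primeBelow A E ≠ ⊥ := by
  intro h
  have h1 := natCast_mem_primeBelow A E hA
  rw [h, Ideal.mem_bot] at h1
  exact hℓ (by exact_mod_cast h1)

theorem numberField_of_finiteDimensional [FiniteDimensional ℚ E] : NumberField E :=
  NumberField.mk

variable [NumberField E]

/-- The height-one prime of `𝓞 E` cut out by `A`. -/
def primeSpec {ℓ : ℕ} (hℓ : ℓ ≠ 0) (hA : (ℓ : Q̄) ∈ A.nonunits) : HeightOneSpectrum (𝓞 E) :=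
  ⟨primeBelow A E, inferInstance, primeBelow_ne_bot A E hℓ hA⟩

theorem valuationSubringAtPrime_le_RE {ℓ : ℕ} (hℓ : ℓ ≠ 0) (hA : (ℓ : Q̄) ∈ A.nonunits) :
    (primeSpec A E hℓ hA).valuationSubringAtPrime E ≤ RE A E := by
  rintro x ⟨a, s, hs, rfl⟩
  have hs' : IsUnit (ofInt A E s) := by
    by_contra hnu
    exact hs ((IsLocalRing.mem_maximalIdeal _).mpr hnu)
  obtain ⟨b, hb⟩ := isUnit_iff_exists_inv.mp hs'
  have hb' : algebraMap (𝓞 E) E s * (b : E) = 1 := congrArg (fun z : RE A E => (z : E)) hb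
  have hinv : (algebraMap (𝓞 E) E s)⁻¹ = (b : E) := inv_eq_of_mul_eq_one_right hb'
  rw [hinv]
  exact _root_.MulMemClass.mul_mem (algebraMap_ringOfIntegers_mem_RE A E a) b.2

/-- `R_E = A ∩ E` is the localisation of `𝓞 E` at the prime below `A`. -/
theorem RE_eq_valuationSubringAtPrime {ℓ : ℕ} (hℓ : ℓ ≠ 0) (hA : (ℓ : Q̄) ∈ A.nonunits) :
    (primeSpec A E hℓ hA).valuationSubringAtPrime E = RE A E :=
  ValuationSubring.eq_of_le_of_ne_top _ (valuationSubringAtPrime_le_RE A E hℓ hA)
    (RE_ne_top A E hℓ hA)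

/-- `R_E = A ∩ E` is a discrete valuation ring (`E` a number field, `A` over a prime). -/
theorem isDiscreteValuationRing_RE' {ℓ : ℕ} (hℓ : ℓ ≠ 0) (hA : (ℓ : Q̄) ∈ A.nonunits) :
    IsDiscreteValuationRing ↥(RE A E) := by
  rw [← RE_eq_valuationSubringAtPrime A E hℓ hA]
  exact IsLocalization.AtPrime.isDiscreteValuationRing_of_dedekind_domain (𝓞 E)
    (primeSpec A E hℓ hA).ne_bot _

omit [NumberField E] in
/-- **`R_E = A ∩ E` is a discrete valuation ring** (for `E/ℚ` finite and `A` over a prime). -/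
theorem isDiscreteValuationRing_RE [FiniteDimensional ℚ E] {ℓ : ℕ} (hℓ : ℓ ≠ 0)
    (hA : (ℓ : Q̄) ∈ A.nonunits) : IsDiscreteValuationRing ↥(RE A E) :=
  haveI := numberField_of_finiteDimensional E
  isDiscreteValuationRing_RE' A E hℓ hA

end DVR

end Fermat.Agent.S18.H602

end
end
-- ===== PACK-END S18/H602/DVR.lean

-- ===== PACK-BEGIN S20/Comb/Fixed.lean
section


/-!
# Fixed points of `S` and `S * T` on `SL(2,ℤ) ⧸ Gamma0 N`

* `card_fixedBy_S : Nat.card (MulAction.fixedBy (SL(2,ℤ) ⧸ Gamma0 N) S) = nuTwo N`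
* `card_fixedBy_ST : Nat.card (MulAction.fixedBy (SL(2,ℤ) ⧸ Gamma0 N) (S * T)) = nuThree N`
-/

set_option autoImplicit false

namespace Fermat.Agent.S20.Comb

open Matrix MatrixGroups CongruenceSubgroup

variable (N : ℕ)

/-- From a root of `x² + 1` in `ZMod N` to a fixed point of `S`. -/
noncomputable def rootToFixedS (x : {x : ZMod N // x ^ 2 + 1 = 0}) :
    MulAction.fixedBy (SL(2, ℤ) ⧸ Gamma0 N) ModularGroup.S :=
  ⟨QuotientGroup.mk (colRep (ZMod.cast x.1 : ℤ)), by
    rw [MulAction.mem_fixedBy, S_smul_mk_eq_mk_iff]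
    simp only [colRep_apply_zero_zero, colRep_apply_one_zero, ZMod.intCast_zmod_cast,
      Int.cast_one, one_pow]
    exact x.2⟩

lemma rootToFixedS_bijective : Function.Bijective (rootToFixedS N) := by
  constructor
  · rintro ⟨x, hx⟩ ⟨y, hy⟩ h
    have h' := congrArg Subtype.val h
    simp only [rootToFixedS] at h'
    rw [mk_eq_mk_iff] at h'
    simp only [colRep_apply_zero_zero, colRep_apply_one_zero, ZMod.intCast_zmod_cast,
      Int.cast_one, _root_.mul_one, _root_.one_mul] at h'
    exact Subtype.ext (sub_eq_zero.mp h')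
  · rintro ⟨q, hq⟩
    obtain ⟨g, rfl⟩ := QuotientGroup.mk_surjective q
    rw [MulAction.mem_fixedBy, S_smul_mk_eq_mk_iff] at hq
    have hinv := c_mul_inv_eq_one N g (-((g 1 0 : ℤ) : ZMod N)) (by linear_combination hq)
    set a : ZMod N := ((g 0 0 : ℤ) : ZMod N) with ha
    set c : ZMod N := ((g 1 0 : ℤ) : ZMod N) with hc
    set i : ZMod N := (-c * ((g 1 1 : ℤ) : ZMod N) ^ 2
        - 2 * a * ((g 0 1 : ℤ) : ZMod N) * ((g 1 1 : ℤ) : ZMod N)
        + ((g 0 1 : ℤ) : ZMod N) ^ 2 * c) with hi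
    refine ⟨⟨a * i, ?_⟩, ?_⟩
    · linear_combination (i ^ 2) * hq - (c * i + 1) * hinv
    · apply Subtype.ext
      simp only [rootToFixedS]
      rw [mk_eq_mk_iff]
      simp only [colRep_apply_zero_zero, colRep_apply_one_zero, ZMod.intCast_zmod_cast,
        Int.cast_one, _root_.one_mul]
      linear_combination a * hinv

/-- **(I2)** The number of fixed points of `S` on `SL(2,ℤ) ⧸ Γ₀(N)` is `ν₂(N)`. -/
theorem card_fixedBy_S :
    Nat.card (MulAction.fixedBy (SL(2, ℤ) ⧸ Gamma0 N) ModularGroup.S) = ModularCurve.nuTwo N := by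
  rw [ModularCurve.nuTwo]
  exact (Nat.card_eq_of_bijective _ (rootToFixedS_bijective N)).symm

/-- From a root of `x² + x + 1` in `ZMod N` to a fixed point of `S * T`. -/
noncomputable def rootToFixedST (x : {x : ZMod N // x ^ 2 + x + 1 = 0}) :
    MulAction.fixedBy (SL(2, ℤ) ⧸ Gamma0 N) (ModularGroup.S * ModularGroup.T) :=
  ⟨QuotientGroup.mk (colRep (ZMod.cast x.1 : ℤ)), by
    rw [MulAction.mem_fixedBy, ST_smul_mk_eq_mk_iff]
    simp only [colRep_apply_zero_zero, colRep_apply_one_zero, ZMod.intCast_zmod_cast,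
      Int.cast_one, one_pow, _root_.mul_one]
    exact x.2⟩

lemma rootToFixedST_bijective : Function.Bijective (rootToFixedST N) := by
  constructor
  · rintro ⟨x, hx⟩ ⟨y, hy⟩ h
    have h' := congrArg Subtype.val h
    simp only [rootToFixedST] at h'
    rw [mk_eq_mk_iff] at h'
    simp only [colRep_apply_zero_zero, colRep_apply_one_zero, ZMod.intCast_zmod_cast,
      Int.cast_one, _root_.mul_one, _root_.one_mul] at h'
    exact Subtype.ext (sub_eq_zero.mp h')
  · rintro ⟨q, hq⟩
    obtain ⟨g, rfl⟩ := QuotientGroup.mk_surjective q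
    rw [MulAction.mem_fixedBy, ST_smul_mk_eq_mk_iff] at hq
    have hinv := c_mul_inv_eq_one N g (-((g 0 0 : ℤ) : ZMod N) - ((g 1 0 : ℤ) : ZMod N))
      (by linear_combination hq)
    set a : ZMod N := ((g 0 0 : ℤ) : ZMod N) with ha
    set c : ZMod N := ((g 1 0 : ℤ) : ZMod N) with hc
    set i : ZMod N := ((-a - c) * ((g 1 1 : ℤ) : ZMod N) ^ 2
        - 2 * a * ((g 0 1 : ℤ) : ZMod N) * ((g 1 1 : ℤ) : ZMod N)
        + ((g 0 1 : ℤ) : ZMod N) ^ 2 * c) with hi
    refine ⟨⟨a * i, ?_⟩, ?_⟩
    · linear_combination (i ^ 2) * hq - (c * i + 1 + a * i) * hinv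
    · apply Subtype.ext
      simp only [rootToFixedST]
      rw [mk_eq_mk_iff]
      simp only [colRep_apply_zero_zero, colRep_apply_one_zero, ZMod.intCast_zmod_cast,
        Int.cast_one, _root_.one_mul]
      linear_combination a * hinv

/-- **(I3)** The number of fixed points of `S * T` on `SL(2,ℤ) ⧸ Γ₀(N)` is `ν₃(N)`. -/
theorem card_fixedBy_ST :
    Nat.card (MulAction.fixedBy (SL(2, ℤ) ⧸ Gamma0 N) (ModularGroup.S * ModularGroup.T))
      = ModularCurve.nuThree N := by
  rw [ModularCurve.nuThree]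
  exact (Nat.card_eq_of_bijective _ (rootToFixedST_bijective N)).symm

end Fermat.Agent.S20.Comb

end
-- ===== PACK-END S20/Comb/Fixed.lean

-- ===== PACK-BEGIN S18/H107/IntTools.lean
section



/-!
# helper107 — S18 / M3-T : integrality toolkit for subrings of a field (Mathlib-only)

All objects are sub-objects of one field `Ω` (as in the frozen interface `Alg/Spec.lean`).

* `intCl107 T`            : the integral closure of the subring `T` in `Ω`, as a subring.
* `isIntegral_iff_exists_poly107` : `IsIntegral T b ↔ ∃ P : Polynomial Ω` monic with coefficients in `T`,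
  `P.eval b = 0`.
* `isIntegral_of_coeffs107` : a root of a monic polynomial with coefficients integral over `T` is
  integral over `T`.
* `exists_pow_mul_isIntegral107` (SCALING): `b` integral over `R'[y]`, `R' ≤ intCl T`,
  `e, y·e ∈ intCl T`  ⟹  `∃ D, b·e^D ∈ intCl T`.
* `mem_of_comaximal107` (GLUING): `z·g₁^k₁, z·g₂^k₂ ∈ B`, `a g₁ + b g₂ = 1` in `B` ⟹ `z ∈ B`.
-/

set_option autoImplicit false

namespace Fermat.Agent.S18.H107

open Polynomial Fermat.Agent.S18.Alg

variable {Ω : Type*} [Field Ω]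

/-- The integral closure of a subring `T` of `Ω` in `Ω`, as a subring of `Ω`. -/
def intCl107 (T : Subring Ω) : Subring Ω := (integralClosure T Ω).toSubring

theorem mem_intCl107 {T : Subring Ω} {b : Ω} : b ∈ intCl107 T ↔ IsIntegral T b := Iff.rfl

theorem le_intCl107 (T : Subring Ω) : T ≤ intCl107 T := fun b hb =>
  mem_intCl107.2 (isIntegral_algebraMap (R := T) (A := Ω) (x := ⟨b, hb⟩))

theorem isIntegral_iff_exists_poly107 (T : Subring Ω) (b : Ω) :
    IsIntegral T b ↔ ∃ P : Polynomial Ω, P.Monic ∧ (∀ i, P.coeff i ∈ T) ∧ P.eval b = 0 := by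
  constructor
  · rintro ⟨p, hp, hpb⟩
    refine ⟨p.map (algebraMap T Ω), hp.map _, fun i => ?_, ?_⟩
    · rw [coeff_map]
      exact (p.coeff i).2
    · rw [eval_map]
      exact hpb
  · rintro ⟨P, hP, hc, hb⟩
    have hl : P ∈ lifts (algebraMap T Ω) := by
      rw [lifts_iff_coeff_lifts]
      intro n
      exact ⟨⟨P.coeff n, hc n⟩, rfl⟩
    obtain ⟨q, hq, -, hqm⟩ := lifts_and_degree_eq_and_monic hl hP
    refine ⟨q, hqm, ?_⟩
    rw [← eval_map, hq]
    exact hb

theorem isIntegral_of_coeffs107 (T : Subring Ω) (P : Polynomial Ω) (hP : P.Monic)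
    (hc : ∀ i, P.coeff i ∈ intCl107 T) (b : Ω) (hb : P.eval b = 0) : b ∈ intCl107 T := by
  have hl : P ∈ lifts (algebraMap (integralClosure T Ω) Ω) := by
    rw [lifts_iff_coeff_lifts]
    intro n
    exact ⟨⟨P.coeff n, hc n⟩, rfl⟩
  obtain ⟨q, hq, -, hqm⟩ := lifts_and_degree_eq_and_monic hl hP
  have hint : IsIntegral (integralClosure T Ω) b := by
    refine ⟨q, hqm, ?_⟩
    rw [← eval_map, hq]
    exact hb
  exact mem_intCl107.2 (isIntegral_trans (R := T) (A := integralClosure T Ω) b hint)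

/-- Integral closedness of `intCl107 T` in polynomial form over another subring. -/
theorem isIntegral_mono107 {T T' : Subring Ω} (h : T ≤ intCl107 T') {b : Ω}
    (hb : IsIntegral T b) : b ∈ intCl107 T' := by
  obtain ⟨P, hP, hc, hPb⟩ := (isIntegral_iff_exists_poly107 T b).1 hb
  exact isIntegral_of_coeffs107 T' P hP (fun i => h (hc i)) b hPb

theorem intCl107_mono {T T' : Subring Ω} (h : T ≤ intCl107 T') : intCl107 T ≤ intCl107 T' :=
  fun _ hb => isIntegral_mono107 h (mem_intCl107.1 hb)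

theorem polyRing_le107 {R B : Subring Ω} {x : Ω} (hR : R ≤ B) (hx : x ∈ B) :
    polyRing R x ≤ B := by
  refine Subring.closure_le.2 ?_
  rintro c (hc | hc)
  · exact hR hc
  · rw [Set.mem_singleton_iff] at hc
    rw [hc]
    exact hx

theorem le_polyRing107 (R : Subring Ω) (x : Ω) : R ≤ polyRing R x := fun _ hc =>
  Subring.subset_closure (Or.inl hc)

theorem self_mem_polyRing107 (R : Subring Ω) (x : Ω) : x ∈ polyRing R x :=
  Subring.subset_closure (Or.inr rfl)

/-- Elements of `R'[y]` become elements of `B` after multiplication by a high power of `e`,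
if `e ∈ B` and `y * e ∈ B`. -/
theorem exists_pow_mul_mem107 {R' B : Subring Ω} {y e : Ω} (hR : R' ≤ B) (he : e ∈ B)
    (hye : y * e ∈ B) {c : Ω} (hc : c ∈ polyRing R' y) :
    ∃ d : ℕ, ∀ d', d ≤ d' → c * e ^ d' ∈ B := by
  induction hc using Subring.closure_induction with
  | mem c hc =>
    rcases hc with hc | hc
    · exact ⟨0, fun d' _ => B.mul_mem (hR hc) (B.pow_mem he d')⟩
    · rw [Set.mem_singleton_iff] at hc
      subst hc
      refine ⟨1, fun d' hd' => ?_⟩
      obtain ⟨k, rfl⟩ := Nat.exists_eq_add_of_le hd'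
      have : c * e ^ (1 + k) = (c * e) * e ^ k := by ring
      rw [this]
      exact B.mul_mem hye (B.pow_mem he k)
  | zero => exact ⟨0, fun d' _ => by rw [zero_mul]; exact B.zero_mem⟩
  | one => exact ⟨0, fun d' _ => by rw [one_mul]; exact B.pow_mem he d'⟩
  | add a b _ _ ha hb =>
    obtain ⟨da, hda⟩ := ha
    obtain ⟨db, hdb⟩ := hb
    refine ⟨max da db, fun d' hd' => ?_⟩
    rw [add_mul]
    exact B.add_mem (hda d' (le_trans (le_max_left _ _) hd')) (hdb d' (le_trans (le_max_right _ _) hd'))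
  | neg a _ ha =>
    obtain ⟨da, hda⟩ := ha
    refine ⟨da, fun d' hd' => ?_⟩
    rw [neg_mul]
    exact B.neg_mem (hda d' hd')
  | mul a b _ _ ha hb =>
    obtain ⟨da, hda⟩ := ha
    obtain ⟨db, hdb⟩ := hb
    refine ⟨da + db, fun d' hd' => ?_⟩
    obtain ⟨k, rfl⟩ := Nat.exists_eq_add_of_le hd'
    have : a * b * e ^ (da + db + k) = (a * e ^ da) * (b * e ^ (db + k)) := by ring
    rw [this]
    exact B.mul_mem (hda da le_rfl) (hdb (db + k) (Nat.le_add_right _ _))

/-- **SCALING LEMMA.**  If `b` is integral over `R'[y]`, `R' ≤ intCl T` and `e`, `y * e` are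
integral over `T`, then `b * e ^ D` is integral over `T` for some `D`. -/
theorem exists_pow_mul_isIntegral107 {R' T : Subring Ω} {y e : Ω} (hR : R' ≤ intCl107 T)
    (he : e ∈ intCl107 T) (hye : y * e ∈ intCl107 T) {b : Ω}
    (hb : IsIntegral (polyRing R' y) b) : ∃ D : ℕ, b * e ^ D ∈ intCl107 T := by
  obtain ⟨P, hP, hc, hPb⟩ := (isIntegral_iff_exists_poly107 _ b).1 hb
  -- a uniform exponent for all coefficients
  have hex : ∀ i, ∃ d : ℕ, ∀ d', d ≤ d' → P.coeff i * e ^ d' ∈ intCl107 T := fun i =>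
    exists_pow_mul_mem107 hR he hye (hc i)
  choose d hd using hex
  obtain ⟨D, hD⟩ : ∃ D : ℕ, ∀ i ∈ Finset.range (P.natDegree + 1), d i ≤ D :=
    ⟨(Finset.range (P.natDegree + 1)).sup d, fun i hi => Finset.le_sup hi⟩
  refine ⟨D, ?_⟩
  refine isIntegral_of_coeffs107 T (scaleRoots P (e ^ D)) ((monic_scaleRoots_iff _).2 hP)
    (fun i => ?_) (b * e ^ D) ?_
  · rw [coeff_scaleRoots]
    rcases lt_trichotomy i P.natDegree with hi | hi | hi
    · rw [← pow_mul]
      refine hd i _ ?_
      have h1 : d i ≤ D := hD i (Finset.mem_range.2 (by omega))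
      have h2 : 1 ≤ P.natDegree - i := by omega
      calc d i ≤ D := h1
        _ = D * 1 := (mul_one D).symm
        _ ≤ D * (P.natDegree - i) := Nat.mul_le_mul_left D h2
    · subst hi
      rw [Nat.sub_self, pow_zero, mul_one]
      have : P.coeff P.natDegree = 1 := hP
      rw [this]
      exact (intCl107 T).one_mem
    · rw [coeff_eq_zero_of_natDegree_lt hi, zero_mul]
      exact (intCl107 T).zero_mem
  · have h := scaleRoots_eval₂_mul (p := P) (RingHom.id Ω) b (e ^ D)
    rw [eval₂_id, eval₂_id, RingHom.id_apply, hPb, mul_zero] at h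
    rw [mul_comm]
    exact h

/-- **GLUING over two comaximal opens.** -/
theorem mem_of_comaximal107 (B : Subring Ω) (z g₁ g₂ a b : Ω) (hg₁ : g₁ ∈ B) (hg₂ : g₂ ∈ B)
    (ha : a ∈ B) (hb : b ∈ B) (hab : a * g₁ + b * g₂ = 1) (k₁ k₂ : ℕ)
    (h₁ : z * g₁ ^ k₁ ∈ B) (h₂ : z * g₂ ^ k₂ ∈ B) : z ∈ B := by
  have hcop : IsCoprime (⟨g₁, hg₁⟩ : B) ⟨g₂, hg₂⟩ :=
    ⟨⟨a, ha⟩, ⟨b, hb⟩, Subtype.ext hab⟩
  obtain ⟨a', b', hab'⟩ := (hcop.pow (m := k₁) (n := k₂))
  have h := congrArg (Subtype.val) hab'
  simp only [Subring.coe_add, Subring.coe_mul, Subring.coe_pow, Subring.coe_one] at h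
  have hz : z = (a' : Ω) * (z * g₁ ^ k₁) + (b' : Ω) * (z * g₂ ^ k₂) := by
    calc z = z * 1 := (mul_one z).symm
      _ = z * ((a' : Ω) * g₁ ^ k₁ + (b' : Ω) * g₂ ^ k₂) := by rw [h]
      _ = _ := by ring
  rw [hz]
  exact B.add_mem (B.mul_mem a'.2 h₁) (B.mul_mem b'.2 h₂)

end Fermat.Agent.S18.H107

end
-- ===== PACK-END S18/H107/IntTools.lean

-- ===== PACK-BEGIN S18/H138/ChartsConst.lean
section


/-!
# S18, Route K, ASM (helper138): constants and finiteness of the charts

* `mem_range_of_mem_adjoin_inter` : `R[x] ∩ R[x⁻¹] = R` for `x` transcendental over `R`.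
* `isIntegral_of_mem_chart_inter` : an element of `F` integral over `R[x]` and over `R[x⁻¹]` is
  integral over `R` (for `R[X]` integrally closed, e.g. `R` a DVR).
* `exists_finite_gens`            : `B_fin` is generated over `R` by finitely many `x ^ j * bs i`.
-/

set_option autoImplicit false
set_option linter.style.haveILetI false

namespace Fermat.Agent.S18.H138

open Polynomial

variable {R : Type*} [CommRing R] {F : Type*} [Field F] [Algebra R F]

theorem mem_adjoin_singleton_iff {x c : F} :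
    c ∈ Algebra.adjoin R ({x} : Set F) ↔ ∃ P : R[X], aeval x P = c := by
  rw [Algebra.adjoin_singleton_eq_range_aeval]
  rfl

/-- `x ^ d * Q(x⁻¹) = (reflect d Q)(x)` for `natDegree Q ≤ d`. -/
theorem pow_mul_aeval_inv {x : F} (hx : x ≠ 0) (Q : R[X]) {d : ℕ} (hd : Q.natDegree ≤ d) :
    x ^ d * aeval x⁻¹ Q = aeval x (reflect d Q) := by
  letI : Invertible x := invertibleOfNonzero hx
  have h := eval₂_reflect_mul_pow (algebraMap R F) x d (reflect d Q)
    (le_trans natDegree_reflect_le (by simp [hd]))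
  rw [reflect_reflect] at h
  rw [invOf_eq_inv] at h
  rw [aeval_def, aeval_def, ← h, mul_comm]

theorem ne_zero_of_transcendental {x : F} (hx : Transcendental R x) : x ≠ 0 := by
  haveI : Nontrivial R := (algebraMap R F).domain_nontrivial
  rintro rfl
  exact hx ⟨X, X_ne_zero, by simp⟩

theorem transcendental_inv {x : F} (hx : Transcendental R x) : Transcendental R x⁻¹ := by
  have hx0 : x ≠ 0 := ne_zero_of_transcendental hx
  rw [transcendental_iff] at hx ⊢
  intro Q hQ
  have h := pow_mul_aeval_inv (R := R) hx0 Q le_rfl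
  rw [hQ, mul_zero] at h
  have h2 := hx _ h.symm
  have := congrArg (reflect Q.natDegree) h2
  rwa [reflect_reflect, reflect_zero] at this

/-- `R[x] ∩ R[x⁻¹] = R` inside `F`, for `x` transcendental over `R`. -/
theorem mem_range_of_mem_adjoin_inter {x : F} (hx : Transcendental R x) {c : F}
    (h1 : c ∈ Algebra.adjoin R ({x} : Set F)) (h2 : c ∈ Algebra.adjoin R ({x⁻¹} : Set F)) :
    c ∈ Set.range (algebraMap R F) := by
  haveI : Nontrivial R := (algebraMap R F).domain_nontrivial
  have hx0 : x ≠ 0 := ne_zero_of_transcendental hx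
  obtain ⟨P, rfl⟩ := mem_adjoin_singleton_iff.1 h1
  obtain ⟨Q, hQ⟩ := mem_adjoin_singleton_iff.1 h2
  have h := pow_mul_aeval_inv (R := R) hx0 Q le_rfl
  rw [hQ] at h
  have h3 : aeval x (X ^ Q.natDegree * P) = aeval x (reflect Q.natDegree Q) := by
    rw [_root_.map_mul, _root_.map_pow, aeval_X, h]
  have h4 : X ^ Q.natDegree * P = reflect Q.natDegree Q := by
    have := (transcendental_iff.1 hx) (X ^ Q.natDegree * P - reflect Q.natDegree Q)
      (by rw [_root_.map_sub, h3, sub_self])
    exact sub_eq_zero.1 this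
  by_cases hP : P = 0
  · subst hP
    exact ⟨0, by simp⟩
  have h5 : (X ^ Q.natDegree * P).natDegree = Q.natDegree + P.natDegree := by
    rw [natDegree_X_pow_mul _ hP, add_comm]
  have h6 : (reflect Q.natDegree Q).natDegree ≤ Q.natDegree :=
    le_trans natDegree_reflect_le (by simp)
  rw [← h4, h5] at h6
  have h7 : P.natDegree = 0 := by omega
  obtain ⟨r, hr⟩ := natDegree_eq_zero.1 h7
  exact ⟨r, by rw [← hr]; simp⟩

section Integral

theorem isIntegrallyClosed_adjoin_singleton [IsIntegrallyClosed R[X]] {x : F}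
    (hx : Transcendental R x) : IsIntegrallyClosed (Algebra.adjoin R ({x} : Set F)) := by
  have hinj : Function.Injective (aeval (R := R) x) :=
    (injective_iff_map_eq_zero _).2 (transcendental_iff.1 hx)
  let e : R[X] ≃ₐ[R] Algebra.adjoin R ({x} : Set F) :=
    (AlgEquiv.ofInjective (aeval (R := R) x) hinj).trans
      (Subalgebra.equivOfEq _ _ (Algebra.adjoin_singleton_eq_range_aeval R x).symm)
  exact IsIntegrallyClosed.of_equiv e.toRingEquiv

theorem isNoetherianRing_adjoin_singleton [IsNoetherianRing R] {x : F}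
    (hx : Transcendental R x) : IsNoetherianRing (Algebra.adjoin R ({x} : Set F)) := by
  have hinj : Function.Injective (aeval (R := R) x) :=
    (injective_iff_map_eq_zero _).2 (transcendental_iff.1 hx)
  let e : R[X] ≃ₐ[R] Algebra.adjoin R ({x} : Set F) :=
    (AlgEquiv.ofInjective (aeval (R := R) x) hinj).trans
      (Subalgebra.equivOfEq _ _ (Algebra.adjoin_singleton_eq_range_aeval R x).symm)
  exact isNoetherianRing_of_ringEquiv _ e.toRingEquiv

/-- The field generated by `R` and `x` inside `F`. -/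
def baseField (R : Type*) [CommRing R] {F : Type*} [Field F] [Algebra R F] (x : F) :
    Subfield F :=
  Subfield.closure (Set.range (algebraMap R F) ∪ {x})

theorem adjoin_le_baseField (x : F) {a : F} (ha : a ∈ Algebra.adjoin R ({x} : Set F)) :
    a ∈ baseField R x := by
  have : a ∈ (Algebra.adjoin R ({x} : Set F)).toSubring := ha
  rw [Algebra.adjoin_eq_ring_closure] at this
  exact Subfield.subring_closure_le _ this

theorem inv_mem_baseField (x : F) : x⁻¹ ∈ baseField R x :=
  (baseField R x).inv_mem (Subfield.subset_closure (by simp))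

theorem baseField_inv (x : F) : baseField R x⁻¹ = baseField R x := by
  apply le_antisymm
  · refine Subfield.closure_le.2 ?_
    rintro y (hy | hy)
    · exact Subfield.subset_closure (Or.inl hy)
    · rw [Set.mem_singleton_iff] at hy
      rw [hy]
      exact inv_mem_baseField x
  · refine Subfield.closure_le.2 ?_
    rintro y (hy | hy)
    · exact Subfield.subset_closure (Or.inl hy)
    · rw [Set.mem_singleton_iff] at hy
      rw [hy]
      have := inv_mem_baseField (R := R) x⁻¹
      rwa [inv_inv] at this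

theorem exists_div_of_mem_baseField (x : F) {z : F} (hz : z ∈ baseField R x) :
    ∃ a ∈ Algebra.adjoin R ({x} : Set F), ∃ b ∈ Algebra.adjoin R ({x} : Set F), z = a / b := by
  obtain ⟨a, ha, b, hb, rfl⟩ := Subfield.mem_closure_iff.1 hz
  rw [← Algebra.adjoin_eq_ring_closure] at ha hb
  exact ⟨a, ha, b, hb, rfl⟩

/-- Coefficients of the minimal polynomial over the fraction field of an integrally closed
subalgebra `A` of `F` lie in `A`. -/
theorem minpoly_coeff_mem (A : Subalgebra R F) [IsIntegrallyClosed A] (K : Subfield F)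
    (hAK : ∀ a ∈ A, a ∈ K) (hfrac : ∀ z ∈ K, ∃ a ∈ A, ∃ b ∈ A, z = a / b)
    {y : F} (hy : IsIntegral A y) (n : ℕ) :
    (((minpoly K y).coeff n : K) : F) ∈ A := by
  let φ : A →+* K :=
    { toFun := fun a => ⟨a, hAK a a.2⟩
      map_one' := rfl
      map_mul' := fun _ _ => rfl
      map_zero' := rfl
      map_add' := fun _ _ => rfl }
  letI : Algebra A K := φ.toAlgebra
  haveI : IsScalarTower A K F := IsScalarTower.of_algebraMap_eq (fun _ => rfl)
  have hinj : Function.Injective (algebraMap A K) := by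
    intro a b hab
    have : (a : F) = b := congrArg (fun t : K => (t : F)) hab
    exact Subtype.ext this
  haveI : FaithfulSMul A K := (faithfulSMul_iff_algebraMap_injective A K).2 hinj
  haveI : IsFractionRing A K := by
    refine IsFractionRing.of_field A K (fun z => ?_)
    obtain ⟨a, ha, b, hb, h⟩ := hfrac z z.2
    exact ⟨⟨a, ha⟩, ⟨b, hb⟩, Subtype.ext h⟩
  have h := minpoly.isIntegrallyClosed_eq_field_fractions' (R := A) (S := F) K hy
  rw [h, coeff_map]
  exact ((minpoly A y).coeff n).2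

/-- An element of `F` integral over `R[x]` and over `R[x⁻¹]` is integral over `R`. -/
theorem isIntegral_of_mem_chart_inter [IsIntegrallyClosed R[X]] {x : F}
    (hx : Transcendental R x) {y : F}
    (h1 : y ∈ chart R ({x} : Set F)) (h2 : y ∈ chart R ({x⁻¹} : Set F)) :
    IsIntegral R y := by
  have hx0 : x ≠ 0 := ne_zero_of_transcendental hx
  have hxi : Transcendental R x⁻¹ := transcendental_inv hx
  haveI := isIntegrallyClosed_adjoin_singleton (R := R) hx
  haveI := isIntegrallyClosed_adjoin_singleton (R := R) hxi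
  set K := baseField R x with hK
  have hc1 : ∀ n, (((minpoly K y).coeff n : K) : F) ∈ Algebra.adjoin R ({x} : Set F) :=
    minpoly_coeff_mem _ K (fun a ha => adjoin_le_baseField x ha)
      (fun z hz => exists_div_of_mem_baseField x hz) h1
  have hc2 : ∀ n, (((minpoly K y).coeff n : K) : F) ∈ Algebra.adjoin R ({x⁻¹} : Set F) :=
    minpoly_coeff_mem _ K (fun a ha => by
        have := adjoin_le_baseField (R := R) x⁻¹ ha
        rwa [baseField_inv] at this)
      (fun z hz => by
        have hz' : z ∈ baseField R x⁻¹ := by rwa [baseField_inv]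
        exact exists_div_of_mem_baseField x⁻¹ hz') h2
  have hc : ∀ n, (((minpoly K y).coeff n : K) : F) ∈ Set.range (algebraMap R F) := fun n =>
    mem_range_of_mem_adjoin_inter hx (hc1 n) (hc2 n)
  have hyK : IsIntegral K y := by
    obtain ⟨p, hp, hp0⟩ := h1
    refine ⟨p.map (⟨⟨⟨fun a => (⟨a, adjoin_le_baseField x a.2⟩ : K), rfl⟩, fun _ _ => rfl⟩,
      rfl, fun _ _ => rfl⟩ : Algebra.adjoin R ({x} : Set F) →+* K), hp.map _, ?_⟩
    rw [eval₂_map]
    exact hp0
  have hmem : (minpoly K y).map (algebraMap K F) ∈ lifts (algebraMap R F) := by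
    rw [lifts_iff_coeff_lifts]
    intro n
    rw [coeff_map]
    exact hc n
  obtain ⟨q, hq, -, hqm⟩ := lifts_and_natDegree_eq_and_monic hmem ((minpoly.monic hyK).map _)
  refine ⟨q, hqm, ?_⟩
  rw [← eval_map, hq, eval_map, ← aeval_def]
  exact minpoly.aeval K y

end Integral

end Fermat.Agent.S18.H138

end
-- ===== PACK-END S18/H138/ChartsConst.lean

-- ===== PACK-BEGIN S37/H278/Normal.lean
section




/-!
# S37 / S18, piece b2-core (helper278): normality criterion via the discriminant

`o` a DVR with uniformizer `t` and fraction field `K`; `C` a finite free `o`-algebra with basis `b`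
(rank `n`); `L = K ⊗ C` (any localization of `C` at `o \ {0}`).  Let `J = rad(tC)` (equal to the
Jacobson radical of `C`).  If `C / J` is generated by `s` elements as an `o`-module (e.g. `C` has
at most `s` maximal ideals, all with residue field `o / t`) and `t ^ (n - s + 1) ∤ disc(b)`, then
`C` is integrally closed in `L`.

No differents, no completions: the trace form kills `J` modulo `t`, and an integral element
`y = z / t ∉ C` produces one more factor `t` in the Gram determinant of an adapted basis.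
-/

set_option autoImplicit false
set_option linter.style.haveILetI false
set_option linter.unusedSectionVars false

namespace Fermat.Agent.S37.H278

open Module Polynomial

section Basics

variable {o : Type*} [CommRing o] [IsDomain o]
  {C : Type*} [CommRing C] [Algebra o C]

/-- divisibility of the discriminant by `r` does not depend on the basis -/
theorem dvd_discr_of_dvd_discr {ι ι' : Type*} [Fintype ι] [Fintype ι'] [DecidableEq ι]
    [DecidableEq ι'] (b : Basis ι o C) (b' : Basis ι' o C) (r : o)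
    (h : r ∣ Algebra.discr o b') : r ∣ Algebra.discr o b := by
  let e : ι' ≃ ι := b'.indexEquiv b
  let b'' : Basis ι o C := b'.reindex e
  have h1 : Algebra.discr o b'' = Algebra.discr o b' := by
    have := Algebra.discr_reindex o b' e
    rwa [← Basis.coe_reindex] at this
  have h2 : Algebra.discr o b'' = (b.toMatrix b'').det ^ 2 * Algebra.discr o b := by
    rw [← Algebra.discr_of_matrix_vecMul, Basis.toMatrix_map_vecMul]
  have h3 : IsUnit (b.toMatrix b'').det := by
    rw [← LinearMap.toMatrix_id_eq_basis_toMatrix b'' b]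
    exact LinearEquiv.isUnit_det (LinearEquiv.refl o C) b'' b
  rw [← h1, h2] at h
  exact ((h3.pow 2).dvd_mul_left).mp h

end Basics

section Main

variable {o : Type*} [CommRing o] [IsDomain o] [IsDiscreteValuationRing o]
  {K : Type*} [Field K] [Algebra o K] [IsFractionRing o K]
  {C : Type*} [CommRing C] [Algebra o C] [Module.Free o C] [Module.Finite o C]
  {L : Type*} [CommRing L] [Algebra K L] [Algebra o L] [Algebra C L]
  [IsScalarTower o K L] [IsScalarTower o C L]
  [IsLocalization (Algebra.algebraMapSubmonoid C (nonZeroDivisors o)) L]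

omit [IsDiscreteValuationRing o] [Module.Finite o C] in
theorem smul_eq_zero_imp {σ : o} (hσ : σ ≠ 0) {c : C} (h : σ • c = 0) : c = 0 := by
  have hreg : IsSMulRegular C σ :=
    Module.IsTorsionFree.isSMulRegular (IsRegular.of_ne_zero hσ)
  exact hreg (by simpa using h)

omit [IsDiscreteValuationRing o] [Module.Finite o C] in
include o in
theorem algebraMap_injective_of_free (L : Type*) [CommRing L] [Algebra o L] [Algebra C L]
    [IsScalarTower o C L]
    [IsLocalization (Algebra.algebraMapSubmonoid C (nonZeroDivisors o)) L] :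
    Function.Injective (algebraMap C L) := by
  apply IsLocalization.injective L (M := Algebra.algebraMapSubmonoid C (nonZeroDivisors o))
  rintro _ ⟨σ, hσ, rfl⟩
  rw [mem_nonZeroDivisors_iff_right]
  intro c hc
  have hσ0 : σ ≠ 0 := nonZeroDivisors.ne_zero hσ
  apply smul_eq_zero_imp hσ0
  rw [Algebra.smul_def, mul_comm]
  exact hc

omit [IsDiscreteValuationRing o] [Module.Free o C] [Module.Finite o C] in
include o in
theorem exists_smul_mem_range (l : L) :
    ∃ σ : o, σ ≠ 0 ∧ σ • l ∈ (algebraMap C L).range := by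
  obtain ⟨⟨c, ⟨_, σ, hσ, rfl⟩⟩, h⟩ :=
    IsLocalization.surj (Algebra.algebraMapSubmonoid C (nonZeroDivisors o)) l
  refine ⟨σ, nonZeroDivisors.ne_zero hσ, c, ?_⟩
  simp only at h
  rw [← h, ← IsScalarTower.algebraMap_apply, Algebra.smul_def, mul_comm]

include K in
/-- Step A: a minimal counterexample. -/
theorem exists_minimal_counterexample {t : o} (ht : Irreducible t) (x : L) (hx : IsIntegral o x)
    (hxC : x ∉ (algebraMap C L).range) :
    ∃ (y : L) (z : C), IsIntegral o y ∧ y ∉ (algebraMap C L).range ∧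
      algebraMap C L z = t • y ∧
      z ∉ (IsLocalRing.maximalIdeal o • ⊤ : Submodule o C) := by
  classical
  -- some power of t moves x into the range
  have hex : ∃ k : ℕ, t ^ k • x ∈ (algebraMap C L).range := by
    obtain ⟨σ, hσ, c, hc⟩ := exists_smul_mem_range (o := o) (C := C) x
    obtain ⟨n, w, hw⟩ := IsDiscreteValuationRing.eq_unit_mul_pow_irreducible hσ ht
    refine ⟨n, (↑w⁻¹ : o) • c, ?_⟩
    rw [Algebra.smul_def, _root_.map_mul, hc, ← IsScalarTower.algebraMap_apply, ← Algebra.smul_def,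
      smul_smul, hw]
    congr 1
    rw [← mul_assoc, Units.inv_mul, one_mul]
  let k := Nat.find hex
  have hk : t ^ k • x ∈ (algebraMap C L).range := Nat.find_spec hex
  have hk0 : k ≠ 0 := by
    intro h0
    rw [h0, pow_zero, one_smul] at hk
    exact hxC hk
  obtain ⟨k', hk'⟩ : ∃ k', k = k' + 1 := ⟨k - 1, by omega⟩
  have hmin : t ^ k' • x ∉ (algebraMap C L).range := by
    have : k' < k := by omega
    exact Nat.find_min hex this
  obtain ⟨z, hz⟩ := hk
  refine ⟨t ^ k' • x, z, ?_, hmin, ?_, ?_⟩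
  · rw [Algebra.smul_def]
    exact (isIntegral_algebraMap).mul hx
  · rw [hz, hk', pow_succ, smul_smul, mul_comm]
  · intro hzmem
    rw [ht.maximalIdeal_eq, Submodule.ideal_span_singleton_smul] at hzmem
    obtain ⟨z', -, hz'⟩ := hzmem
    have hz'' : t • z' = z := hz'
    apply hmin
    refine ⟨z', ?_⟩
    have h1 : t • (algebraMap C L z' - t ^ k' • x) = 0 := by
      rw [smul_sub, smul_smul, ← pow_succ', ← hk', ← hz, ← hz'']
      rw [Algebra.smul_def t z', _root_.map_mul, ← IsScalarTower.algebraMap_apply, ← Algebra.smul_def,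
        sub_self]
    have := smul_eq_zero_of_fractionRing K ht.ne_zero h1
    exact sub_eq_zero.mp this

omit [IsDiscreteValuationRing o] [Module.Finite o C] in
include o in
/-- Step A': `z = t y` with `y` integral is nilpotent modulo `t`. -/
theorem exists_pow_eq_smul {t : o} {y : L} {z : C} (hy : IsIntegral o y)
    (hz : algebraMap C L z = t • y) : ∃ (d : ℕ) (c : C), z ^ d = t • c := by
  obtain ⟨p, hp, hpy⟩ := hy
  have hq : eval₂ (algebraMap o L) (algebraMap o L t * y) (p.scaleRoots t) = 0 :=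
    scaleRoots_eval₂_eq_zero (algebraMap o L) hpy
  rw [← Algebra.smul_def, ← hz] at hq
  have hq' : algebraMap C L (eval₂ (algebraMap o C) z (p.scaleRoots t)) = 0 := by
    rw [Polynomial.hom_eval₂, ← IsScalarTower.algebraMap_eq]
    exact hq
  have hq0 : eval₂ (algebraMap o C) z (p.scaleRoots t) = 0 :=
    (algebraMap_injective_of_free (o := o) L) (by rw [hq', _root_.map_zero])
  have hmonic : (p.scaleRoots t).Monic := (monic_scaleRoots_iff t).mpr hp
  have hsum := hmonic.as_sum
  rw [natDegree_scaleRoots] at hsum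
  rw [hsum, eval₂_add, eval₂_pow, eval₂_X, eval₂_finsetSum] at hq0
  refine ⟨p.natDegree, -∑ i ∈ Finset.range p.natDegree,
    (p.coeff i * t ^ (p.natDegree - i - 1)) • z ^ i, ?_⟩
  rw [eq_neg_of_add_eq_zero_left hq0, smul_neg, Finset.smul_sum]
  congr 1
  refine Finset.sum_congr rfl fun i hi => ?_
  have hi' : i < p.natDegree := Finset.mem_range.mp hi
  have hpow : t ^ (p.natDegree - i) = t * t ^ (p.natDegree - i - 1) := by
    rw [← pow_succ']
    congr 1
    omega
  rw [eval₂_mul, eval₂_C, eval₂_pow, eval₂_X, coeff_scaleRoots, smul_smul, Algebra.smul_def, hpow]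
  congr 2
  ring

omit [IsDiscreteValuationRing o] [Module.Free o C] [Module.Finite o C] in
theorem mem_radical_span_iff {t : o} (c : C) :
    c ∈ (Ideal.span {algebraMap o C t}).radical ↔ ∃ (k : ℕ) (c' : C), c ^ k = t • c' := by
  constructor
  · rintro ⟨k, hk⟩
    obtain ⟨c', hc'⟩ := Ideal.mem_span_singleton'.mp hk
    exact ⟨k, c', by rw [← hc', Algebra.smul_def, mul_comm]⟩
  · rintro ⟨k, c', hk⟩
    refine ⟨k, Ideal.mem_span_singleton'.mpr ⟨c', ?_⟩⟩
    rw [hk, Algebra.smul_def, mul_comm]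

include K in
/-- **Normality criterion (b2-core).**  `o` a DVR with uniformizer `t`, `C` a finite free
`o`-algebra with basis `b`, `L` its localization at `o \ {0}`.  If `C / rad(tC)` is generated by
`s` elements as `o`-module and `t ^ (n - s + 1) ∤ disc(b)` (`n = #ι`), then every element of `L`
integral over `o` lies in (the image of) `C`. -/
theorem mem_range_of_isIntegral {t : o} (ht : Irreducible t)
    {ι : Type*} [Fintype ι] [DecidableEq ι] (b : Basis ι o C)
    (s : ℕ) (u : Fin s → C)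
    (hu : ((Ideal.span {algebraMap o C t}).radical.restrictScalars o) ⊔
        Submodule.span o (Set.range u) = ⊤)
    (hd : ¬ t ^ (Fintype.card ι - s + 1) ∣ Algebra.discr o b)
    (x : L) (hx : IsIntegral o x) : x ∈ (algebraMap C L).range := by
  classical
  by_contra hxC
  obtain ⟨y, z, hy, hyC, hzy, hzt⟩ := exists_minimal_counterexample (K := K) ht x hx hxC
  set J : Ideal C := (Ideal.span {algebraMap o C t}).radical with hJ
  have hzJ : z ∈ J := (mem_radical_span_iff z).mpr (exists_pow_eq_smul hy hzy)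
  obtain ⟨ι', _, _, b', Z, i₀, hi₀Z, hbi₀, hbZ, hcard⟩ :=
    exists_adapted_basis (J.restrictScalars o) z hzJ hzt s u hu
  -- the lattice generated by `C` and `y`
  let G : Set L := Set.range (fun i => algebraMap C L (b' i)) ∪ {y}
  have hGfin : G.Finite := (Set.finite_range _).union (Set.finite_singleton y)
  have hGint : ∀ g ∈ G, IsIntegral o g := by
    rintro g (⟨i, rfl⟩ | rfl)
    · exact (Algebra.IsIntegral.isIntegral (R := o) (b' i)).map (IsScalarTower.toAlgHom o C L)
    · exact hy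
  have hrange : ∀ c : C, algebraMap C L c ∈ Algebra.adjoin o G := by
    intro c
    have hc : c = ∑ i, (b'.repr c i) • b' i := (b'.sum_repr c).symm
    rw [hc, _root_.map_sum]
    refine Subalgebra.sum_mem _ fun i _ => ?_
    rw [Algebra.smul_def, _root_.map_mul, ← IsScalarTower.algebraMap_apply, ← Algebra.smul_def]
    exact Subalgebra.smul_mem _
      (Algebra.subset_adjoin (Set.mem_union_left _ (Set.mem_range_self i))) _
  have hspan : ∀ l : L, ∃ σ : o, σ ≠ 0 ∧ σ • l ∈ Algebra.adjoin o G := by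
    intro l
    obtain ⟨σ, hσ, c, hc⟩ := exists_smul_mem_range (o := o) (C := C) l
    exact ⟨σ, hσ, hc ▸ hrange c⟩
  have hR : IsLattice (Algebra.adjoin o G) := isLattice_adjoin hGfin hGint hspan
  let φ : C →ₐ[o] Algebra.adjoin o G :=
    (IsScalarTower.toAlgHom o C L).codRestrict (Algebra.adjoin o G) hrange
  let yR : Algebra.adjoin o G :=
    ⟨y, Algebra.subset_adjoin (Set.mem_union_right _ (Set.mem_singleton y))⟩
  have hφ : ∀ c : C, ((φ c : Algebra.adjoin o G) : L) = algebraMap C L c := fun c => rfl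
  have hφz : φ z = t • yR := Subtype.ext (by
    rw [hφ, hzy]; rfl)
  -- compatibility of traces
  have hτ : ∀ c : C, Algebra.trace o C c = Algebra.trace o (Algebra.adjoin o G) (φ c) := by
    intro c
    apply IsFractionRing.injective o K
    rw [← hR.trace_eq (K := K), hφ,
      ← Algebra.trace_localization o (nonZeroDivisors o) (Rₘ := K) (Sₘ := L)]
  have hE1 : ∀ c ∈ J, t ∣ Algebra.trace o C c := fun c hc => by
    obtain ⟨k, c', hk⟩ := (mem_radical_span_iff c).mp hc
    exact dvd_trace_of_pow_mem ht c k ⟨c', hk⟩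
  have hE2 : ∀ c : C, Algebra.trace o C (z * c) =
      t * Algebra.trace o (Algebra.adjoin o G) (yR * φ c) := by
    intro c
    rw [hτ, _root_.map_mul, hφz, smul_mul_assoc, _root_.map_smul, smul_eq_mul]
  have hE3 : ∀ c ∈ J, t ∣ Algebra.trace o (Algebra.adjoin o G) (yR * φ c) := by
    intro c hc
    obtain ⟨k, c', hk⟩ := (mem_radical_span_iff c).mp hc
    refine hR.dvd_trace (K := K) ht _ k ⟨yR ^ k * φ c', ?_⟩
    rw [mul_pow, ← _root_.map_pow, hk, _root_.map_smul, mul_smul_comm]
  -- the Gram matrix of the adapted basis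
  have hdet : t ^ (Z.card + 1) ∣ Algebra.discr o b' := by
    rw [Algebra.discr_def]
    refine pow_card_succ_dvd_det t _ Z i₀ ?_ ?_ ?_
    · intro i hi j
      rw [Algebra.traceMatrix_apply, Algebra.traceForm_apply]
      exact hE1 _ (J.mul_mem_right _ (hbZ i hi))
    · intro i hi
      rw [Algebra.traceMatrix_apply, Algebra.traceForm_apply, hbi₀, mul_comm, hE2, pow_two]
      exact mul_dvd_mul_left t (hE3 _ (hbZ i hi))
    · intro j
      rw [Algebra.traceMatrix_apply, Algebra.traceForm_apply, hbi₀, mul_comm, hE2]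
      exact dvd_mul_right t _
  have hcard' : Fintype.card ι = Fintype.card ι' := Fintype.card_congr (b.indexEquiv b')
  have hfin : t ^ (Fintype.card ι - s + 1) ∣ Algebra.discr o b' :=
    (pow_dvd_pow t (by omega)).trans hdet
  exact hd (dvd_discr_of_dvd_discr b b' _ hfin)

include K in
/-- **Normality criterion**, `IsIntegrallyClosedIn` form. -/
theorem isIntegrallyClosedIn_of_discr {t : o} (ht : Irreducible t)
    {ι : Type*} [Fintype ι] [DecidableEq ι] (b : Basis ι o C)
    (s : ℕ) (u : Fin s → C)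
    (hu : ((Ideal.span {algebraMap o C t}).radical.restrictScalars o) ⊔
        Submodule.span o (Set.range u) = ⊤)
    (hd : ¬ t ^ (Fintype.card ι - s + 1) ∣ Algebra.discr o b) :
    IsIntegrallyClosedIn C L := by
  refine ⟨algebraMap_injective_of_free (o := o) L, fun {x} => ⟨fun hx => ?_, ?_⟩⟩
  · have hx' : IsIntegral o x := isIntegral_trans (R := o) (A := C) x hx
    exact mem_range_of_isIntegral (K := K) ht b s u hu hd x hx'
  · rintro ⟨c, rfl⟩
    exact isIntegral_algebraMap

omit [Module.Free o C] [Module.Finite o C] in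
/-- The discriminant is always divisible by `t ^ (n - s)` when `C / rad(tC)` is generated by
`s` elements (no hypothesis on `L`). -/
theorem pow_dvd_discr [Module.Free o C] [Module.Finite o C] {t : o} (ht : Irreducible t)
    {ι : Type*} [Fintype ι] [DecidableEq ι] (b : Basis ι o C)
    (s : ℕ) (u : Fin s → C)
    (hu : ((Ideal.span {algebraMap o C t}).radical.restrictScalars o) ⊔
        Submodule.span o (Set.range u) = ⊤) :
    t ^ (Fintype.card ι - s) ∣ Algebra.discr o b := by
  classical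
  by_cases hn : Fintype.card ι ≤ s
  · rw [Nat.sub_eq_zero_of_le hn, pow_zero]
    exact one_dvd _
  -- `t • b i₁` is a nonzero element of `rad(tC)`, not in `t 𝔪`... we use `z := t`-free variant:
  -- pick an element of the radical outside `𝔪 C`; it exists since `n > s`.
  set J : Ideal C := (Ideal.span {algebraMap o C t}).radical with hJ
  have hex : ∃ z ∈ J, z ∉ (IsLocalRing.maximalIdeal o • ⊤ : Submodule o C) := by
    by_contra hcon
    -- then `C = 𝔪 C + span u`, so `C` is generated by `s` elements (Nakayama), contradiction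
    have hle : (J.restrictScalars o) ≤ (IsLocalRing.maximalIdeal o • ⊤ : Submodule o C) := by
      intro z hz
      by_contra hz'
      exact hcon ⟨z, hz, hz'⟩
    have htop : (⊤ : Submodule o C) ≤
        Submodule.span o (Set.range u) ⊔ (IsLocalRing.maximalIdeal o • ⊤ : Submodule o C) :=
      calc (⊤ : Submodule o C) = J.restrictScalars o ⊔ Submodule.span o (Set.range u) := hu.symm
        _ ≤ (IsLocalRing.maximalIdeal o • ⊤ : Submodule o C) ⊔ Submodule.span o (Set.range u) :=
            sup_le_sup_right hle _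
        _ = _ := sup_comm _ _
    have hjac : IsLocalRing.maximalIdeal o ≤ Ideal.jacobson ⊥ :=
      (IsLocalRing.jacobson_eq_maximalIdeal ⊥ bot_ne_top).ge
    have hspan : (⊤ : Submodule o C) ≤ Submodule.span o (Set.range u) :=
      Submodule.le_of_le_smul_of_le_jacobson_bot (Module.Finite.fg_top) hjac htop
    have hcardle : Fintype.card ι ≤ s := by
      have h1 : Module.finrank o C = Fintype.card ι := Module.finrank_eq_card_basis b
      have h2 := finrank_span_le_card (R := o) (Set.range u)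
      rw [top_le_iff.mp hspan, finrank_top] at h2
      have h4 : (Set.range u).toFinset.card ≤ s := by
        calc (Set.range u).toFinset.card ≤ (Finset.univ : Finset (Fin s)).card := by
              rw [Set.toFinset_range]
              exact Finset.card_image_le
          _ = s := by simp
      omega
    exact hn hcardle
  obtain ⟨z, hzJ, hzt⟩ := hex
  obtain ⟨ι', _, _, b', Z, i₀, hi₀Z, hbi₀, hbZ, hcard⟩ :=
    exists_adapted_basis (J.restrictScalars o) z hzJ hzt s u hu
  have hE1 : ∀ c ∈ J, t ∣ Algebra.trace o C c := fun c hc => by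
    obtain ⟨k, c', hk⟩ := (mem_radical_span_iff c).mp hc
    exact dvd_trace_of_pow_mem ht c k ⟨c', hk⟩
  have hdet : t ^ Z.card ∣ Algebra.discr o b' := by
    rw [Algebra.discr_def]
    refine pow_card_dvd_det t _ Z ?_
    intro i hi j
    rw [Algebra.traceMatrix_apply, Algebra.traceForm_apply]
    exact hE1 _ (J.mul_mem_right _ (hbZ i hi))
  have hcard' : Fintype.card ι = Fintype.card ι' := Fintype.card_congr (b.indexEquiv b')
  have hfin : t ^ (Fintype.card ι - s) ∣ Algebra.discr o b' :=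
    (pow_dvd_pow t (by omega)).trans hdet
  exact dvd_discr_of_dvd_discr b b' _ hfin

end Main

end Fermat.Agent.S37.H278

end
-- ===== PACK-END S37/H278/Normal.lean

-- ===== PACK-BEGIN S28/H865Dvr.lean
section
/-
S28 helper (helper865): `ℤ_(ℓ) = GaloisRep.ratLocalizedAt ℓ` is a discrete valuation ring with
uniformiser `ℓ`; in particular it is integrally closed and `ℓ` is a prime element.
-/



set_option autoImplicit false

noncomputable section

namespace Fermat.Agent.S28.H865

variable (ℓ : ℕ) [Fact ℓ.Prime]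

theorem span_natCast_eq_ker_resZl :
    Ideal.span {((ℓ : ℕ) : ↥(GaloisRep.ratLocalizedAt ℓ))} = RingHom.ker (resZl ℓ) := by
  ext x
  rw [RingHom.mem_ker, resZl_eq_zero_iff, Ideal.mem_span_singleton']
  constructor
  · rintro ⟨a, rfl⟩
    exact ⟨a, mul_comm _ _⟩
  · rintro ⟨y, rfl⟩
    exact ⟨y, mul_comm _ _⟩

/-- `ℓ` is a prime element of `ℤ_(ℓ)`. -/
theorem prime_natCast_ratLocalizedAt : Prime ((ℓ : ℕ) : ↥(GaloisRep.ratLocalizedAt ℓ)) := by
  rw [← Ideal.span_singleton_prime (natCast_ne_zero_ratLocalizedAt ℓ), span_natCast_eq_ker_resZl]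
  exact RingHom.ker_isPrime _

/-- Elements of `ℤ_(ℓ)` with nonzero residue are units. -/
theorem isUnit_of_resZl_ne_zero {u : ↥(GaloisRep.ratLocalizedAt ℓ)} (hu : resZl ℓ u ≠ 0) :
    IsUnit u := by
  have hu0 : u.1 ≠ 0 := by
    intro h
    apply hu
    rw [show u = 0 from Subtype.ext h, map_zero]
  have hnum : ((u.1.num : ℤ) : ZMod ℓ) ≠ 0 := by
    intro h
    apply hu
    rw [resZl_apply, Rat.cast_def, h, zero_div]
  have hmem : (u.1)⁻¹ ∈ GaloisRep.ratLocalizedAt ℓ := by
    show ((u.1)⁻¹).den.Coprime ℓ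
    rw [Rat.den_inv_of_ne_zero hu0]
    rw [Nat.coprime_comm, Nat.Prime.coprime_iff_not_dvd (Fact.out : ℓ.Prime)]
    intro hdvd
    apply hnum
    rw [ZMod.intCast_zmod_eq_zero_iff_dvd]
    exact Int.natCast_dvd.mpr hdvd
  exact IsUnit.of_mul_eq_one ⟨(u.1)⁻¹, hmem⟩ (Subtype.ext (mul_inv_cancel₀ hu0))

/-- Every nonzero element of `ℤ_(ℓ)` is a unit times a power of `ℓ`. -/
theorem exists_eq_pow_mul_unit (x : ↥(GaloisRep.ratLocalizedAt ℓ)) (hx : x ≠ 0) :
    ∃ (n : ℕ) (u : ↥(GaloisRep.ratLocalizedAt ℓ)),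
      x = ((ℓ : ℕ) : ↥(GaloisRep.ratLocalizedAt ℓ)) ^ n * u ∧ IsUnit u := by
  classical
  by_contra hcon
  push Not at hcon
  have hall : ∀ n : ℕ, ∃ s : ↥(GaloisRep.ratLocalizedAt ℓ),
      x = ((ℓ : ℕ) : ↥(GaloisRep.ratLocalizedAt ℓ)) ^ n * s := by
    intro n
    induction n with
    | zero => exact ⟨x, by simp⟩
    | succ n ih =>
      obtain ⟨s, hs⟩ := ih
      have hres : resZl ℓ s = 0 := by
        by_contra h
        exact hcon n s hs (isUnit_of_resZl_ne_zero ℓ h)
      obtain ⟨s', hs'⟩ := (resZl_eq_zero_iff ℓ s).mp hres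
      exact ⟨s', by rw [hs, hs']; ring⟩
  obtain ⟨n, hn⟩ := exists_not_pow_dvd ℓ x hx
  exact hn (hall n)

instance isDiscreteValuationRing_ratLocalizedAt :
    IsDiscreteValuationRing ↥(GaloisRep.ratLocalizedAt ℓ) :=
  IsDiscreteValuationRing.ofHasUnitMulPowIrreducibleFactorization
    ⟨((ℓ : ℕ) : ↥(GaloisRep.ratLocalizedAt ℓ)), (prime_natCast_ratLocalizedAt ℓ).irreducible,
      fun {x} hx => by
        obtain ⟨n, u, hxu, hu⟩ := exists_eq_pow_mul_unit ℓ x hx
        refine ⟨n, ?_⟩
        rw [hxu]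
        exact ⟨hu.unit, by simp⟩⟩

theorem isIntegrallyClosed_ratLocalizedAt :
    IsIntegrallyClosed ↥(GaloisRep.ratLocalizedAt ℓ) := inferInstance

theorem isIntegrallyClosed_polynomial_ratLocalizedAt :
    IsIntegrallyClosed (Polynomial ↥(GaloisRep.ratLocalizedAt ℓ)) := inferInstance

theorem prime_C_natCast :
    Prime (Polynomial.C ((ℓ : ℕ) : ↥(GaloisRep.ratLocalizedAt ℓ))) :=
  Polynomial.prime_C_iff.mpr (prime_natCast_ratLocalizedAt ℓ)

end Fermat.Agent.S28.H865

end
end
-- ===== PACK-END S28/H865Dvr.lean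

-- ===== PACK-BEGIN S37/Red/H399/NormRed.lean
section



/-!
# S37-RED, piece RED-A1 (helper399): norms commute with reduction

`Fermat.Agent.S37.Red.H399.normRed : NormRedStatement G` for every reduction datum `G`
(interface `Fermat/Agent/S37/Red/Spec.lean` of helper40).

Route (coord/S37-red.md, A1): for an auxiliary coordinate `t`
* `O ∩ K = A` and `ker ρ = 𝔪_O` (`mem_O_iff_mem_A`, `rho_eq_zero_iff`);
* Gauss lemma: `ρ (O ∩ K(t)) ⊆ k(t̄)` (`rho_mem_adjoin`);
* lifts of a `k(t̄)`-basis of `F_k` are residually independent over `O ∩ K(t)`, hence a basis of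
  `F / K(t)` (helper217's lattice lemmas, `Fermat/Agent/S37/H217/Lattice.lean`), and the
  norm is the determinant of an integral matrix which reduces to the matrix of `ρ y`.
-/

set_option autoImplicit false

noncomputable section

namespace Fermat.Agent.S37.Red.H399

open AlgebraicCurve IntermediateField Polynomial Fermat.Agent.S37.H217

universe u

variable {K k F Fk : Type u} [Field K] [Field k] [Field F] [Field Fk]
  [Algebra K F] [Algebra k Fk] {A : ValuationSubring K} {π : A →+* k} (G : Datum A π F Fk)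

/-- the kernel of `ρ` is the maximal ideal of `O` -/
theorem rho_eq_zero_iff (y : G.O) : G.ρ y = 0 ↔ (y : F) ∈ G.O.nonunits := by
  have hmax : (RingHom.ker G.ρ).IsMaximal := RingHom.ker_isMaximal_of_surjective G.ρ G.ρ_surj
  have hker : RingHom.ker G.ρ = IsLocalRing.maximalIdeal G.O := IsLocalRing.eq_maximalIdeal hmax
  rw [← RingHom.mem_ker, hker, ValuationSubring.coe_mem_nonunits_iff]

/-- the kernel of `π` is the maximal ideal of `A` -/
theorem pi_eq_zero_iff (G : Datum A π F Fk) (a : A) : π a = 0 ↔ (a : K) ∈ A.nonunits := by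
  have hmax : (RingHom.ker π).IsMaximal := RingHom.ker_isMaximal_of_surjective π G.π_surj
  have hker : RingHom.ker π = IsLocalRing.maximalIdeal A := IsLocalRing.eq_maximalIdeal hmax
  rw [← RingHom.mem_ker, hker, ValuationSubring.coe_mem_nonunits_iff]

/-- the total reduction agrees with `ρ` on `O` -/
theorem red_eq_of_mem {f : F} (hf : f ∈ G.O) : G.red f = G.ρ ⟨f, hf⟩ := by
  rw [Datum.red, dif_pos hf]

/-- the ring homomorphism `A → O` -/
def constHom : A →+* G.O where
  toFun a := ⟨algebraMap K F (a : K), G.const_mem a⟩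
  map_one' := Subtype.ext (by simp)
  map_mul' a b := Subtype.ext (by simp)
  map_zero' := Subtype.ext (by simp)
  map_add' a b := Subtype.ext (by simp)

@[simp] theorem coe_constHom (a : A) : ((constHom G a : G.O) : F) = algebraMap K F (a : K) := rfl

theorem rho_constHom (a : A) : G.ρ (constHom G a) = algebraMap k Fk (π a) := G.ρ_const a

theorem rho_comp_constHom : G.ρ.comp (constHom G) = (algebraMap k Fk).comp π :=
  RingHom.ext fun a => rho_constHom G a

/-- `O ∩ K = A` -/
theorem mem_O_iff_mem_A (c : K) : algebraMap K F c ∈ G.O ↔ c ∈ A := by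
  constructor
  · intro hc
    by_contra hcA
    have hc0 : c ≠ 0 := fun h => hcA (h ▸ A.zero_mem)
    have hinv : c⁻¹ ∈ A := (A.mem_or_inv_mem c).resolve_left hcA
    have hnu : c⁻¹ ∈ A.nonunits := (A.inv_mem_nonunits_iff).mpr (Or.inr hcA)
    have h0 : π ⟨c⁻¹, hinv⟩ = 0 := (pi_eq_zero_iff G ⟨c⁻¹, hinv⟩).mpr hnu
    have h1 : G.ρ (constHom G ⟨c⁻¹, hinv⟩) = 0 := by rw [rho_constHom, h0, _root_.map_zero]
    have h2 : G.ρ (constHom G ⟨c⁻¹, hinv⟩ * ⟨algebraMap K F c, hc⟩) = 0 := by
      rw [_root_.map_mul, h1, zero_mul]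
    have h3 : constHom G ⟨c⁻¹, hinv⟩ * ⟨algebraMap K F c, hc⟩ = 1 := by
      apply Subtype.ext
      show algebraMap K F c⁻¹ * algebraMap K F c = 1
      rw [← _root_.map_mul, inv_mul_cancel₀ hc0, _root_.map_one]
    rw [h3, _root_.map_one] at h2
    exact one_ne_zero h2
  · intro hc
    exact G.const_mem ⟨c, hc⟩

omit [Field F] [Field Fk] [Algebra K F] [Algebra k Fk] in
/-- scaling a nonzero polynomial over `K` to a primitive polynomial over `A` -/
theorem exists_primitive (π : A →+* k) (P : K[X]) (hP : P ≠ 0) :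
    ∃ (c : K) (P₀ : A[X]), c ≠ 0 ∧ P = C c * P₀.map A.subtype ∧ P₀.map π ≠ 0 := by
  classical
  have hsupp : P.support.Nonempty := Polynomial.support_nonempty.mpr hP
  obtain ⟨m, hm, hmax⟩ := Finset.exists_max_image P.support (fun i => A.valuation (P.coeff i)) hsupp
  have hc0 : P.coeff m ≠ 0 := Polynomial.mem_support_iff.mp hm
  have hv0 : A.valuation (P.coeff m) ≠ 0 := (_root_.map_ne_zero _).mpr hc0
  have hmem : ∀ i, (P.coeff m)⁻¹ * P.coeff i ∈ A := by
    intro i
    by_cases hi : i ∈ P.support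
    · rw [← ValuationSubring.valuation_le_one_iff, _root_.map_mul, map_inv₀,
        inv_mul_le_iff₀ (zero_lt_iff.mpr hv0), mul_one]
      exact hmax i hi
    · rw [Polynomial.notMem_support_iff.mp hi, mul_zero]
      exact A.zero_mem
  have hlift : C (P.coeff m)⁻¹ * P ∈ Polynomial.lifts A.subtype := by
    rw [Polynomial.lifts_iff_coeff_lifts]
    intro i
    rw [Polynomial.coeff_C_mul]
    exact ⟨⟨_, hmem i⟩, rfl⟩
  obtain ⟨P₀, hP₀⟩ := (Polynomial.mem_lifts _).mp hlift
  refine ⟨P.coeff m, P₀, hc0, ?_, ?_⟩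
  · rw [hP₀, ← mul_assoc, ← C_mul, mul_inv_cancel₀ hc0, C_1, one_mul]
  · intro h
    have h1 : (P₀.map π).coeff m = 0 := by rw [h, coeff_zero]
    rw [coeff_map] at h1
    have h2 : ((P₀.coeff m : A) : K) = 1 := by
      have := congrArg (fun Q => Q.coeff m) hP₀
      simp only [coeff_map, coeff_C_mul] at this
      rw [ValuationSubring.subtype_apply] at this
      rw [this, inv_mul_cancel₀ hc0]
    have h3 : P₀.coeff m = 1 := Subtype.ext h2
    rw [h3, _root_.map_one] at h1
    exact one_ne_zero h1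


section Aux

variable {G} {t : F} (ht : G.AuxCoord t)

include ht

theorem red_t_eq : G.red t = G.ρ ⟨t, ht.mem⟩ := by
  rw [Datum.red, dif_pos ht.mem]

/-- value in `O` of a polynomial over `A` at `t` -/
def evalO (P : A[X]) : G.O := P.eval₂ (constHom G) ⟨t, ht.mem⟩

theorem coe_evalO (P : A[X]) :
    ((evalO ht P : G.O) : F) = aeval t (P.map A.subtype) := by
  have h := Polynomial.hom_eval₂ P (constHom G) G.O.subtype ⟨t, ht.mem⟩
  rw [aeval_def, eval₂_map]
  exact h

theorem rho_evalO (P : A[X]) : G.ρ (evalO ht P) = aeval (G.red t) (P.map π) := by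
  rw [evalO, Polynomial.hom_eval₂, rho_comp_constHom, aeval_def, eval₂_map, red_t_eq ht]

theorem rho_evalO_ne_zero {P : A[X]} (hP : P.map π ≠ 0) : G.ρ (evalO ht P) ≠ 0 := by
  rw [rho_evalO ht]
  intro h
  exact hP (transcendental_iff.mp ht.transc _ h)

/-- **Gauss lemma**: the reduction of an element of `O ∩ K(t)` lies in `k(t̄)`. -/
theorem rho_mem_adjoin (f : F) (hf : f ∈ K⟮t⟯) (hfO : f ∈ G.O) :
    G.ρ ⟨f, hfO⟩ ∈ k⟮G.red t⟯ := by
  obtain ⟨P, Q, hPQ⟩ := (IntermediateField.mem_adjoin_simple_iff K f).mp hf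
  by_cases hP : P = 0
  · have : (⟨f, hfO⟩ : G.O) = 0 := Subtype.ext (by
      show f = 0
      rw [hPQ, hP, _root_.map_zero, zero_div])
    rw [this, _root_.map_zero]
    exact _root_.ZeroMemClass.zero_mem _
  by_cases hQ : Q = 0
  · have : (⟨f, hfO⟩ : G.O) = 0 := Subtype.ext (by
      show f = 0
      rw [hPQ, hQ, _root_.map_zero, div_zero])
    rw [this, _root_.map_zero]
    exact _root_.ZeroMemClass.zero_mem _
  obtain ⟨c, P₀, hc, hPc, hP₀⟩ := exists_primitive π P hP
  obtain ⟨d, Q₀, hd, hQd, hQ₀⟩ := exists_primitive π Q hQ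
  have hPne := rho_evalO_ne_zero ht hP₀
  have hQne := rho_evalO_ne_zero ht hQ₀
  -- the constant `c / d` lies in `A`
  have hP0F : ((evalO ht P₀ : G.O) : F) ≠ 0 := by
    intro h
    apply hPne
    have : evalO ht P₀ = 0 := Subtype.ext h
    rw [this, _root_.map_zero]
  have hQ0F : ((evalO ht Q₀ : G.O) : F) ≠ 0 := by
    intro h
    apply hQne
    have : evalO ht Q₀ = 0 := Subtype.ext h
    rw [this, _root_.map_zero]
  have hfeq : f * (evalO ht Q₀ : G.O) = algebraMap K F (c / d) * (evalO ht P₀ : G.O) := by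
    rw [hPQ, hPc, hQd, coe_evalO, coe_evalO, _root_.map_mul, _root_.map_mul, aeval_C, aeval_C, map_div₀]
    have hdF : algebraMap K F d ≠ 0 := (_root_.map_ne_zero _).mpr hd
    have hQ0F' : aeval t (Q₀.map A.subtype) ≠ 0 := by rw [← coe_evalO ht]; exact hQ0F
    field_simp
  -- `P₀(t)` is a unit of `O`
  have hPunit : IsUnit (evalO ht P₀) := by
    by_contra hnu
    apply hPne
    rw [rho_eq_zero_iff, ValuationSubring.coe_mem_nonunits_iff, IsLocalRing.mem_maximalIdeal]
    exact hnu
  obtain ⟨u, hu⟩ := hPunit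
  have hcdO : algebraMap K F (c / d) ∈ G.O := by
    have h1 : algebraMap K F (c / d) =
        ((⟨f, hfO⟩ * evalO ht Q₀ * ((u⁻¹ : G.Oˣ) : G.O) : G.O) : F) := by
      have h2 : ((u : G.O) : F) * (((u⁻¹ : G.Oˣ) : G.O) : F) = 1 := by
        exact congrArg Subtype.val (Units.mul_inv u)
      rw [hu] at h2
      show _ = f * (evalO ht Q₀ : G.O) * (((u⁻¹ : G.Oˣ) : G.O) : F)
      rw [hfeq, mul_assoc, h2, mul_one]
    rw [h1]
    exact Subtype.property _
  have hcdA : c / d ∈ A := (mem_O_iff_mem_A G _).mp hcdO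
  -- now compute the reduction
  have hkey : (⟨f, hfO⟩ : G.O) * evalO ht Q₀ = constHom G ⟨c / d, hcdA⟩ * evalO ht P₀ :=
    Subtype.ext hfeq
  have hρ := congrArg G.ρ hkey
  rw [_root_.map_mul, _root_.map_mul, rho_constHom, rho_evalO ht, rho_evalO ht] at hρ
  have hQne' : aeval (G.red t) (Q₀.map π) ≠ 0 := by rw [← rho_evalO ht]; exact hQne
  have : G.ρ ⟨f, hfO⟩ =
      algebraMap k Fk (π ⟨c / d, hcdA⟩) * aeval (G.red t) (P₀.map π) /
        aeval (G.red t) (Q₀.map π) := by
    rw [eq_div_iff hQne']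
    exact hρ
  rw [this]
  refine _root_.div_mem (_root_.MulMemClass.mul_mem (IntermediateField.algebraMap_mem _ _) ?_) ?_
  · exact IntermediateField.algebra_adjoin_le_adjoin k _ (Polynomial.aeval_mem_adjoin_singleton k _)
  · exact IntermediateField.algebra_adjoin_le_adjoin k _ (Polynomial.aeval_mem_adjoin_singleton k _)

end Aux

/-! ### The Gauss valuation ring of `K(t)` and the lifted basis -/

/-- the valuation ring `O ∩ K(t)` of `K(t)` -/
def gaussRing (t : F) : ValuationSubring K⟮t⟯ := G.O.comap (algebraMap K⟮t⟯ F)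

theorem valExtends_gaussRing (t : F) : ValExtends (gaussRing G t) G.O :=
  fun _ => Iff.rfl

/-- the inclusion `O ∩ K(t) → O` -/
def inclO (t : F) : gaussRing G t →+* G.O where
  toFun a := ⟨algebraMap K⟮t⟯ F (a : K⟮t⟯), a.2⟩
  map_one' := Subtype.ext (by simp)
  map_mul' a b := Subtype.ext (by simp)
  map_zero' := Subtype.ext (by simp)
  map_add' a b := Subtype.ext (by simp)

@[simp] theorem coe_inclO (t : F) (a : gaussRing G t) :
    ((inclO G t a : G.O) : F) = ((a : K⟮t⟯) : F) := rfl

section Main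

variable {G} {t : F} (ht : G.AuxCoord t)

/-- reduction `O ∩ K(t) → k(t̄)` -/
def rho₀ : gaussRing G t →+* k⟮G.red t⟯ :=
  (G.ρ.comp (inclO G t)).codRestrict k⟮G.red t⟯
    (fun a => rho_mem_adjoin ht _ (a : K⟮t⟯).2 a.2)

theorem coe_rho₀ (a : gaussRing G t) : ((rho₀ ht a : k⟮G.red t⟯) : Fk) = G.ρ (inclO G t a) := rfl

include ht

/-- **RED-A1**, for one auxiliary coordinate. -/
theorem normRed_aux (y : F) (hy : y ∈ G.O) :
    ((Algebra.norm K⟮t⟯ y : K⟮t⟯) : F) ∈ G.O ∧
      G.red ((Algebra.norm K⟮t⟯ y : K⟮t⟯) : F) =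
        ((Algebra.norm k⟮G.red t⟯ (G.red y) : k⟮G.red t⟯) : Fk) := by
  classical
  have := ht.finite
  have := ht.finite_k
  have h := valExtends_gaussRing G t
  -- a basis of `F_k / k(t̄)` and lifts to `O`
  let b₁ := Module.finBasis k⟮G.red t⟯ Fk
  have hnpos : 0 < Module.finrank k⟮G.red t⟯ Fk := Module.finrank_pos
  have : Nonempty (Fin (Module.finrank k⟮G.red t⟯ Fk)) := ⟨⟨0, hnpos⟩⟩
  choose e he using fun i => G.ρ_surj (b₁ i)
  have hR : ResidIndep (gaussRing G t) G.O (fun i => ((e i : G.O) : F)) := by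
    intro c hc hsum i
    have hs : (∑ i, c i • ((e i : G.O) : F)) =
        ((∑ i, inclO G t ⟨c i, hc i⟩ * e i : G.O) : F) := by
      rw [← ValuationSubring.subtype_apply, _root_.map_sum]
      refine Finset.sum_congr rfl fun i _ => ?_
      rw [Algebra.smul_def]
      rfl
    rw [hs] at hsum
    have h0 : G.ρ (∑ i, inclO G t ⟨c i, hc i⟩ * e i) = 0 := (rho_eq_zero_iff G _).mpr hsum
    rw [_root_.map_sum] at h0
    have h1 : ∑ i, rho₀ ht ⟨c i, hc i⟩ • b₁ i = 0 := by
      rw [← h0]
      refine Finset.sum_congr rfl fun i _ => ?_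
      rw [_root_.map_mul, he i, Algebra.smul_def]
      rfl
    have h2 := Fintype.linearIndependent_iff.mp b₁.linearIndependent _ h1 i
    have h3 : G.ρ (inclO G t ⟨c i, hc i⟩) = 0 := by
      rw [← coe_rho₀ ht, h2]
      rfl
    have h4 := (rho_eq_zero_iff G _).mp h3
    exact (h.mem_nonunits_iff (c i)).mp h4
  have hcard : Fintype.card (Fin (Module.finrank k⟮G.red t⟯ Fk)) = Module.finrank K⟮t⟯ F := by
    rw [Fintype.card_fin, ht.finrank_eq]
  obtain ⟨b, hb⟩ := exists_basis_of_residIndep hR hcard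
  have hR' : ResidIndep (gaussRing G t) G.O ⇑b := by rw [hb]; exact hR
  have hbO : ∀ i, b i ∈ G.O := fun i => by rw [hb]; exact (e i).2
  have hb₁ : ∀ i, G.ρ ⟨b i, hbO i⟩ = b₁ i := by
    intro i
    have : (⟨b i, hbO i⟩ : G.O) = e i := Subtype.ext (congrFun hb i)
    rw [this, he i]
  have hρ : ∀ a : gaussRing G t,
      G.ρ ⟨algebraMap K⟮t⟯ F a, (h a).mpr a.2⟩ = algebraMap k⟮G.red t⟯ Fk (rho₀ ht a) :=
    fun a => rfl
  have key := map_norm_eq_norm_map h b hR' hbO (rho₀ ht) G.ρ hρ b₁ hb₁ ⟨y, hy⟩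
  have hmem : ((Algebra.norm K⟮t⟯ y : K⟮t⟯) : F) ∈ G.O := norm_mem h b hR' hbO hy
  refine ⟨hmem, ?_⟩
  rw [red_eq_of_mem G hmem, red_eq_of_mem G hy]
  exact congrArg Subtype.val key

end Main

/-- **RED-A1 (norms commute with reduction)**: `NormRedStatement` of the frozen interface. -/
theorem normRed : NormRedStatement G :=
  fun _ ht y hy => normRed_aux ht y hy

end Fermat.Agent.S37.Red.H399

end
end
-- ===== PACK-END S37/Red/H399/NormRed.lean

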