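import Mathlib
import Fermat.Prelude.Def_ModularCurve_PeriodHomPair
import Fermat.Prelude.Thm_Subgroup_IsArithmetic_exists_nat_mem_strictPeriods_conj
import Fermat.Prelude.Def_ModularCurve_X0ModL
import Mathlib.Data.Nat.Squarefree
import Mathlib.Data.Nat.Factorization.Induction
import Mathlib.SetTheory.Cardinal.NatCard
import Fermat.Agent.Pack.S33.E0L2
import Fermat.Agent.Pack.S33.E0L1
import Fermat.Agent.Pack.S33.E0L3
import Fermat.Agent.Pack.S33.E0L0
import Fermat.Agent.Pack.S33.E1L2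
import Fermat.Agent.Pack.S33.E1L3
import Fermat.Agent.Pack.S33.E1L0
import Fermat.Agent.Pack.S33.E1L1

-- ===== PACK-BEGIN S55/Bridge/DecompLift.lean
section


set_option autoImplicit false

namespace Fermat.Agent.S55.Bridge

open Polynomial IntermediateField
open scoped Pointwise NNReal

variable (q : ℕ) [Fact q.Prime]

/-- The absolute value on `ℚ̄` induced by `padicEmbedding q`. -/
noncomputable def padicAbs : AbsoluteValue (AlgebraicClosure ℚ) ℝ where
  toFun x := ‖padicEmbedding q x‖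
  map_mul' x y := by simp [_root_.map_mul]
  nonneg' x := norm_nonneg _
  eq_zero' x := by simp
  add_le' x y := by
    simp only [_root_.map_add]
    exact norm_add_le _ _

theorem padicAbs_apply (x : AlgebraicClosure ℚ) : padicAbs q x = ‖padicEmbedding q x‖ := rfl

/-- Twisting `padicAbs` by an automorphism. -/
noncomputable def padicAbsTwist (σ : AlgebraicClosure ℚ ≃ₐ[ℚ] AlgebraicClosure ℚ) :
    AbsoluteValue (AlgebraicClosure ℚ) ℝ where
  toFun x := ‖padicEmbedding q (σ x)‖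
  map_mul' x y := by simp [_root_.map_mul]
  nonneg' x := norm_nonneg _
  eq_zero' x := by simp
  add_le' x y := by
    simp only [_root_.map_add]
    exact norm_add_le _ _

theorem mem_padicPlace_iff_norm {x : AlgebraicClosure ℚ} :
    x ∈ padicPlace q ↔ ‖padicEmbedding q x‖ ≤ 1 := by
  rw [mem_padicPlace_iff]
  exact Iff.rfl

theorem mem_padicPlace_of_mem_decomposition {σ : AlgebraicClosure ℚ ≃ₐ[ℚ] AlgebraicClosure ℚ}
    (hσ : σ ∈ (padicPlace q).decompositionSubgroup ℚ) (x : AlgebraicClosure ℚ) :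
    σ x ∈ padicPlace q ↔ x ∈ padicPlace q := by
  have hinv : σ⁻¹ ∈ (padicPlace q).decompositionSubgroup ℚ := Subgroup.inv_mem _ hσ
  rw [MulAction.mem_stabilizer_iff] at hinv
  have h := ValuationSubring.mem_pointwise_smul_iff_inv_smul_mem (S := padicPlace q)
    (g := σ⁻¹) (x := x)
  rw [hinv, inv_inv] at h
  rw [h]
  rfl

end Fermat.Agent.S55.Bridge

namespace Fermat.Agent.S55.Bridge

open Polynomial IntermediateField
open scoped Pointwise NNReal

variable (q : ℕ) [Fact q.Prime]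

theorem norm_padicEmbedding_natCast_self :
    ‖padicEmbedding q ((q : ℕ) : AlgebraicClosure ℚ)‖ = (q : ℝ)⁻¹ := by
  rw [_root_.map_natCast]
  have h : ((q : ℕ) : PadicAlgCl q) = algebraMap ℚ_[q] (PadicAlgCl q) (q : ℚ_[q]) := by
    rw [_root_.map_natCast]
  rw [h, PadicAlgCl.norm_extends, Padic.norm_p]

/-- Elements of the decomposition group of `padicPlace q` are isometries for the `q`-adic norm. -/
theorem norm_padicEmbedding_of_mem_decomposition
    {σ : AlgebraicClosure ℚ ≃ₐ[ℚ] AlgebraicClosure ℚ}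
    (hσ : σ ∈ (padicPlace q).decompositionSubgroup ℚ) (x : AlgebraicClosure ℚ) :
    ‖padicEmbedding q (σ x)‖ = ‖padicEmbedding q x‖ := by
  have hq : (q : ℕ).Prime := Fact.out
  have hequiv : (padicAbs q).IsEquiv (padicAbsTwist q σ) := by
    rw [AbsoluteValue.isEquiv_iff_lt_one_iff]
    intro y
    show ‖padicEmbedding q y‖ < 1 ↔ ‖padicEmbedding q (σ y)‖ < 1
    rcases eq_or_ne y 0 with rfl | hy
    · simp
    · have hσy : σ y ≠ 0 := by simpa using hy
      have key : ∀ z : AlgebraicClosure ℚ, z ≠ 0 →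
          (‖padicEmbedding q z‖ < 1 ↔ z⁻¹ ∉ padicPlace q) := by
        intro z hz
        rw [mem_padicPlace_iff_norm, map_inv₀, norm_inv, not_le]
        have hpos : 0 < ‖padicEmbedding q z‖ := by
          rw [norm_pos_iff]
          simpa using hz
        rw [one_lt_inv₀ hpos]
      rw [key y hy, key (σ y) hσy, ← map_inv₀, mem_padicPlace_of_mem_decomposition q hσ]
  obtain ⟨c, hc, hvw⟩ := AbsoluteValue.isEquiv_iff_exists_rpow_eq.1 hequiv
  have hq' : padicAbs q (q : AlgebraicClosure ℚ) ^ c = padicAbsTwist q σ (q : AlgebraicClosure ℚ) :=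
    congrFun hvw _
  have h1 : padicAbs q (q : AlgebraicClosure ℚ) = (q : ℝ)⁻¹ := norm_padicEmbedding_natCast_self q
  have h2 : padicAbsTwist q σ (q : AlgebraicClosure ℚ) = (q : ℝ)⁻¹ := by
    show ‖padicEmbedding q (σ (q : AlgebraicClosure ℚ))‖ = _
    rw [_root_.map_natCast]
    exact norm_padicEmbedding_natCast_self q
  rw [h1, h2] at hq'
  have hq0 : (0 : ℝ) < (q : ℝ)⁻¹ := inv_pos.2 (by exact_mod_cast hq.pos)
  have hq1 : (q : ℝ)⁻¹ ≠ 1 := by
    rw [ne_eq, inv_eq_one]
    exact_mod_cast hq.one_lt.ne'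
  have hc1 : c = 1 := by
    have h3 : (q : ℝ)⁻¹ ^ c = (q : ℝ)⁻¹ ^ (1 : ℝ) := by rw [hq', Real.rpow_one]
    exact (Real.rpow_right_inj hq0 hq1).1 h3
  have := congrFun hvw x
  rw [hc1] at this
  simp only [Real.rpow_one] at this
  exact this.symm

end Fermat.Agent.S55.Bridge

namespace Fermat.Agent.S55.Bridge

open Polynomial IntermediateField
open scoped Pointwise NNReal

variable (q : ℕ) [Fact q.Prime]

section Extend

/-- The ring hom `ℚ̄ → ℂ_q`. -/
noncomputable def toPadicComplex : AlgebraicClosure ℚ →+* ℂ_[q] :=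
  (UniformSpace.Completion.coeRingHom : PadicAlgCl q →+* ℂ_[q]).comp
    ((padicEmbedding q : AlgebraicClosure ℚ →ₐ[ℚ] PadicAlgCl q) : AlgebraicClosure ℚ →+* PadicAlgCl q)

theorem toPadicComplex_apply (x : AlgebraicClosure ℚ) :
    toPadicComplex q x = ((padicEmbedding q x : PadicAlgCl q) : ℂ_[q]) := rfl

/-- The uniform structure on `ℚ̄` induced by the `q`-adic embedding. -/
@[reducible] noncomputable def padicUniformSpace : UniformSpace (AlgebraicClosure ℚ) :=
  UniformSpace.comap (padicEmbedding q) inferInstance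

theorem isUniformInducing_toPadicComplex :
    @IsUniformInducing _ _ (padicUniformSpace q) _ (toPadicComplex q) := by
  letI := padicUniformSpace q
  have h1 : IsUniformInducing (padicEmbedding q : AlgebraicClosure ℚ → PadicAlgCl q) := ⟨rfl⟩
  have h2 : IsUniformInducing ((↑) : PadicAlgCl q → ℂ_[q]) :=
    UniformSpace.Completion.isUniformInducing_coe _
  exact h2.comp h1

theorem denseRange_padicEmbedding :
    DenseRange (padicEmbedding q : AlgebraicClosure ℚ → PadicAlgCl q) := by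
  rw [Metric.denseRange_iff]
  intro x r hr
  obtain ⟨b, hb⟩ := exists_global_near q x hr
  exact ⟨b, by rw [dist_eq_norm]; exact hb⟩

theorem denseRange_toPadicComplex : DenseRange (toPadicComplex q) := by
  have h2 : DenseRange ((↑) : PadicAlgCl q → ℂ_[q]) := UniformSpace.Completion.denseRange_coe
  exact h2.comp (denseRange_padicEmbedding q) (UniformSpace.Completion.continuous_coe _)

variable {q} in
theorem uniformContinuous_toPadicComplex_comp
    {σ : AlgebraicClosure ℚ ≃ₐ[ℚ] AlgebraicClosure ℚ}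
    (hσ : σ ∈ (padicPlace q).decompositionSubgroup ℚ) :
    @UniformContinuous _ _ (padicUniformSpace q) _
      ((toPadicComplex q).comp (σ : AlgebraicClosure ℚ →+* AlgebraicClosure ℚ)) := by
  letI := padicUniformSpace q
  have h2 : UniformContinuous ((↑) : PadicAlgCl q → ℂ_[q]) :=
    UniformSpace.Completion.uniformContinuous_coe _
  have h1 : UniformContinuous (fun x : AlgebraicClosure ℚ => padicEmbedding q (σ x)) := by
    have hU : uniformity (AlgebraicClosure ℚ)
        = Filter.comap (Prod.map (padicEmbedding q) (padicEmbedding q))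
          (uniformity (PadicAlgCl q)) := rfl
    rw [UniformContinuous, hU]
    rw [(Metric.uniformity_basis_dist.comap _).tendsto_iff Metric.uniformity_basis_dist]
    intro ε hε
    refine ⟨ε, hε, ?_⟩
    rintro ⟨a, b⟩ hab
    simp only [Set.mem_preimage, Prod.map_apply, Set.mem_ofPred_eq] at hab ⊢
    rw [dist_eq_norm] at hab ⊢
    rw [← _root_.map_sub, ← _root_.map_sub, norm_padicEmbedding_of_mem_decomposition q hσ, _root_.map_sub]
    exact hab
  exact h2.comp h1

variable {q} in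
/-- The continuous extension of `ι ∘ σ ∘ ι⁻¹` to `ℂ_q`. -/
noncomputable def extendToPadicComplex
    {σ : AlgebraicClosure ℚ ≃ₐ[ℚ] AlgebraicClosure ℚ}
    (hσ : σ ∈ (padicPlace q).decompositionSubgroup ℚ) : ℂ_[q] →+* ℂ_[q] :=
  letI := padicUniformSpace q
  IsDenseInducing.extendRingHom (i := toPadicComplex q)
    (f := (toPadicComplex q).comp (σ : AlgebraicClosure ℚ →+* AlgebraicClosure ℚ))
    (isUniformInducing_toPadicComplex q) (denseRange_toPadicComplex q)
    (uniformContinuous_toPadicComplex_comp hσ)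

variable {q} in
theorem extendToPadicComplex_apply
    {σ : AlgebraicClosure ℚ ≃ₐ[ℚ] AlgebraicClosure ℚ}
    (hσ : σ ∈ (padicPlace q).decompositionSubgroup ℚ) (x : AlgebraicClosure ℚ) :
    extendToPadicComplex hσ (toPadicComplex q x) = toPadicComplex q (σ x) := by
  letI := padicUniformSpace q
  exact IsDenseInducing.extend_eq
    ((isUniformInducing_toPadicComplex q).isDenseInducing (denseRange_toPadicComplex q))
    (uniformContinuous_toPadicComplex_comp hσ).continuous x

variable {q} in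
theorem continuous_extendToPadicComplex
    {σ : AlgebraicClosure ℚ ≃ₐ[ℚ] AlgebraicClosure ℚ}
    (hσ : σ ∈ (padicPlace q).decompositionSubgroup ℚ) :
    Continuous (extendToPadicComplex hσ) := by
  letI := padicUniformSpace q
  exact (uniformContinuous_uniformly_extend (isUniformInducing_toPadicComplex q)
    (denseRange_toPadicComplex q) (uniformContinuous_toPadicComplex_comp hσ)).continuous

/-- The ring hom `ℚ_q → ℂ_q`. -/
noncomputable def padicToComplex : ℚ_[q] →+* ℂ_[q] :=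
  (UniformSpace.Completion.coeRingHom : PadicAlgCl q →+* ℂ_[q]).comp
    (algebraMap ℚ_[q] (PadicAlgCl q))

theorem continuous_padicToComplex : Continuous (padicToComplex q) := by
  have h1 : Continuous (algebraMap ℚ_[q] (PadicAlgCl q)) := by
    have hiso : Isometry (algebraMap ℚ_[q] (PadicAlgCl q)) := by
      refine AddMonoidHomClass.isometry_of_norm _ fun x => ?_
      exact PadicAlgCl.norm_extends q x
    exact hiso.continuous
  exact (UniformSpace.Completion.continuous_coe _).comp h1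

variable {q} in
/-- The extension fixes `ℚ_q`. -/
theorem extendToPadicComplex_padicToComplex
    {σ : AlgebraicClosure ℚ ≃ₐ[ℚ] AlgebraicClosure ℚ}
    (hσ : σ ∈ (padicPlace q).decompositionSubgroup ℚ) (c : ℚ_[q]) :
    extendToPadicComplex hσ (padicToComplex q c) = padicToComplex q c := by
  have hd : DenseRange ((↑) : ℚ → ℚ_[q]) := Padic.denseRange_ratCast q
  have hcont1 : Continuous fun c : ℚ_[q] => extendToPadicComplex hσ (padicToComplex q c) :=
    (continuous_extendToPadicComplex hσ).comp (continuous_padicToComplex q)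
  have heq : (fun c : ℚ_[q] => extendToPadicComplex hσ (padicToComplex q c))
      = fun c => padicToComplex q c := by
    refine hd.equalizer hcont1 (continuous_padicToComplex q) ?_
    funext r
    simp only [Function.comp_apply, map_ratCast]
  exact congrFun heq c

/-- Elements of `ℂ_q` algebraic over `ℚ_q` lie in `ℚ̄_q`. -/
theorem mem_range_coe_of_root (m : Polynomial ℚ_[q]) (hm : m ≠ 0) (z : ℂ_[q])
    (hz : m.eval₂ (padicToComplex q) z = 0) : ∃ y : PadicAlgCl q, (y : ℂ_[q]) = z := by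
  have hsplit : (m.map (algebraMap ℚ_[q] (PadicAlgCl q))).Splits := IsAlgClosed.splits _
  have hmap : (m.map (algebraMap ℚ_[q] (PadicAlgCl q))).map
      (UniformSpace.Completion.coeRingHom : PadicAlgCl q →+* ℂ_[q])
      = m.map (padicToComplex q) := by
    rw [Polynomial.map_map]
    rfl
  have hroot : z ∈ (m.map (padicToComplex q)).roots := by
    rw [Polynomial.mem_roots (Polynomial.map_ne_zero hm), Polynomial.IsRoot.def,
      Polynomial.eval_map]
    exact hz
  rw [← hmap, hsplit.roots_map, Multiset.mem_map] at hroot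
  obtain ⟨y, -, hy⟩ := hroot
  exact ⟨y, hy⟩

variable {q} in
theorem exists_eq_extendToPadicComplex
    {σ : AlgebraicClosure ℚ ≃ₐ[ℚ] AlgebraicClosure ℚ}
    (hσ : σ ∈ (padicPlace q).decompositionSubgroup ℚ) (y : PadicAlgCl q) :
    ∃ z : PadicAlgCl q, (z : ℂ_[q]) = extendToPadicComplex hσ (y : ℂ_[q]) := by
  have hyint : IsIntegral ℚ_[q] y := Algebra.IsIntegral.isIntegral y
  apply mem_range_coe_of_root q (minpoly ℚ_[q] y) (minpoly.ne_zero hyint)
  have h0 : (minpoly ℚ_[q] y).eval₂ (padicToComplex q) (y : ℂ_[q]) = 0 := by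
    have h1 : (minpoly ℚ_[q] y).eval₂ (algebraMap ℚ_[q] (PadicAlgCl q)) y = 0 := by
      have := minpoly.aeval ℚ_[q] y
      rwa [Polynomial.aeval_def] at this
    have h2 := congrArg (UniformSpace.Completion.coeRingHom : PadicAlgCl q →+* ℂ_[q]) h1
    rw [Polynomial.hom_eval₂, _root_.map_zero] at h2
    exact h2
  have h3 := congrArg (extendToPadicComplex hσ) h0
  rw [Polynomial.hom_eval₂, _root_.map_zero] at h3
  have hcomp : (extendToPadicComplex hσ).comp (padicToComplex q) = padicToComplex q :=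
    RingHom.ext (extendToPadicComplex_padicToComplex hσ)
  rw [hcomp] at h3
  exact h3

variable {q} in
/-- The lift of `σ ∈ D_A` as a function `ℚ̄_q → ℚ̄_q`. -/
noncomputable def liftFun
    {σ : AlgebraicClosure ℚ ≃ₐ[ℚ] AlgebraicClosure ℚ}
    (hσ : σ ∈ (padicPlace q).decompositionSubgroup ℚ) (y : PadicAlgCl q) : PadicAlgCl q :=
  (exists_eq_extendToPadicComplex hσ y).choose

variable {q} in
theorem coe_liftFun
    {σ : AlgebraicClosure ℚ ≃ₐ[ℚ] AlgebraicClosure ℚ}
    (hσ : σ ∈ (padicPlace q).decompositionSubgroup ℚ) (y : PadicAlgCl q) :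
    ((liftFun hσ y : PadicAlgCl q) : ℂ_[q]) = extendToPadicComplex hσ (y : ℂ_[q]) :=
  (exists_eq_extendToPadicComplex hσ y).choose_spec

theorem coe_padicAlgCl_injective :
    Function.Injective ((↑) : PadicAlgCl q → ℂ_[q]) :=
  UniformSpace.Completion.coe_injective _

variable {q} in
/-- The lift of `σ ∈ D_A` as a `ℚ_q`-algebra endomorphism of `ℚ̄_q`. -/
noncomputable def liftAlgHom
    {σ : AlgebraicClosure ℚ ≃ₐ[ℚ] AlgebraicClosure ℚ}
    (hσ : σ ∈ (padicPlace q).decompositionSubgroup ℚ) : PadicAlgCl q →ₐ[ℚ_[q]] PadicAlgCl q where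
  toFun := liftFun hσ
  map_one' := by
    apply coe_padicAlgCl_injective q
    rw [coe_liftFun, UniformSpace.Completion.coe_one, _root_.map_one]
  map_mul' x y := by
    apply coe_padicAlgCl_injective q
    rw [coe_liftFun, UniformSpace.Completion.coe_mul, UniformSpace.Completion.coe_mul, _root_.map_mul,
      coe_liftFun, coe_liftFun]
  map_zero' := by
    apply coe_padicAlgCl_injective q
    rw [coe_liftFun, UniformSpace.Completion.coe_zero, _root_.map_zero]
  map_add' x y := by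
    apply coe_padicAlgCl_injective q
    rw [coe_liftFun, UniformSpace.Completion.coe_add, UniformSpace.Completion.coe_add, _root_.map_add,
      coe_liftFun, coe_liftFun]
  commutes' c := by
    apply coe_padicAlgCl_injective q
    rw [coe_liftFun]
    exact extendToPadicComplex_padicToComplex hσ c

variable {q} in
theorem liftAlgHom_padicEmbedding
    {σ : AlgebraicClosure ℚ ≃ₐ[ℚ] AlgebraicClosure ℚ}
    (hσ : σ ∈ (padicPlace q).decompositionSubgroup ℚ) (x : AlgebraicClosure ℚ) :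
    liftAlgHom hσ (padicEmbedding q x) = padicEmbedding q (σ x) := by
  apply coe_padicAlgCl_injective q
  show ((liftFun hσ (padicEmbedding q x) : PadicAlgCl q) : ℂ_[q]) = _
  rw [coe_liftFun]
  exact extendToPadicComplex_apply hσ x

variable {q} in
/-- The lift of `σ ∈ D_A` to `Gal(ℚ̄_q/ℚ_q)`. -/
noncomputable def liftAlgEquiv
    {σ : AlgebraicClosure ℚ ≃ₐ[ℚ] AlgebraicClosure ℚ}
    (hσ : σ ∈ (padicPlace q).decompositionSubgroup ℚ) : PadicAlgCl q ≃ₐ[ℚ_[q]] PadicAlgCl q :=
  AlgEquiv.ofBijective (liftAlgHom hσ) (Algebra.IsAlgebraic.algHom_bijective (liftAlgHom hσ))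

variable {q} in
theorem localGaloisToGlobal_liftAlgEquiv
    {σ : AlgebraicClosure ℚ ≃ₐ[ℚ] AlgebraicClosure ℚ}
    (hσ : σ ∈ (padicPlace q).decompositionSubgroup ℚ) :
    localGaloisToGlobal q (_root_.Fermat.Agent.S55.Bridge.liftAlgEquiv hσ) = σ := by
  apply AlgEquiv.ext
  intro x
  have hinj : Function.Injective (padicEmbedding q) := (padicEmbedding q).injective
  apply hinj
  rw [padicEmbedding_localGaloisToGlobal]
  exact liftAlgHom_padicEmbedding hσ x

end Extend

/-- **B9.** The image of `Gal(ℚ̄_q/ℚ_q) → Gal(ℚ̄/ℚ)` is exactly the decomposition group of the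
place `padicPlace q` of `ℚ̄`. -/
theorem range_localGaloisToGlobal :
    (localGaloisToGlobal q).range = (padicPlace q).decompositionSubgroup ℚ := by
  apply le_antisymm
  · rintro _ ⟨τ, rfl⟩
    exact localGaloisToGlobal_mem_decompositionSubgroup q τ
  · intro σ hσ
    exact ⟨_root_.Fermat.Agent.S55.Bridge.liftAlgEquiv hσ, localGaloisToGlobal_liftAlgEquiv hσ⟩

/-- Same for `primeLocalToGlobal`. -/
theorem range_primeLocalToGlobal (q : Nat.Primes) :
    (ExtCitation.primeLocalToGlobal q).range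
      = (ExtCitation.primeLocalPlace q).decompositionSubgroup ℚ := by
  letI : Fact (q : ℕ).Prime := ⟨q.2⟩
  exact range_localGaloisToGlobal (q : ℕ)

end Fermat.Agent.S55.Bridge

end
-- ===== PACK-END S55/Bridge/DecompLift.lean

-- ===== PACK-BEGIN S30/H990/Extract.lean
section
/-
S30 top glue (helper990): pure algebra, part 3.
From a Galois module on which every element satisfies a quadratic relation `g² - a g + d(g) = 0`
(`d` a character, `d c = -1` for an involution `c`) we extract a stable saturated lattice of rank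
`1` or `2`.
-/



set_option autoImplicit false

namespace Fermat.Agent.S30.H990

open Module

section Rel

variable {𝒪 M G : Type*} [CommRing 𝒪] [AddCommGroup M] [Module 𝒪 M] [Group G]

/-- The quadratic relation `ρ(g)² - a ρ(g) + d(g) = 0`. -/
def Rel (ρ : G →* Module.End 𝒪 M) (d : G →* 𝒪ˣ) (g : G) (a : 𝒪) : Prop :=
  ρ g * ρ g - a • ρ g + ((d g : 𝒪ˣ) : 𝒪) • (1 : Module.End 𝒪 M) = 0

variable (ρ : G →* Module.End 𝒪 M) (d : G →* 𝒪ˣ)

theorem rel_apply {g : G} {a : 𝒪} (h : Rel ρ d g a) (x : M) :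
    ρ g (ρ g x) - a • ρ g x + ((d g : 𝒪ˣ) : 𝒪) • x = 0 := by
  have := congrArg (fun f : Module.End 𝒪 M => f x) h
  simpa [Rel] using this

/-- Key identity on eigenvectors of the involution `c`. -/
theorem eigen_key (a : G → 𝒪) (ha : ∀ g, Rel ρ d g (a g)) (c : G) (hc : c * c = 1)
    (hdc : d c = -1) (ε : 𝒪) (u : M) (hu : ρ c u = ε • u) (g : G) :
    ρ c (ρ g u) + ε • ρ g u = (a (g * c) + ε * a g) • u := by
  have hy : ρ c * ρ c = 1 := by rw [← map_mul, hc, map_one]
  have hxy : (ρ g * ρ c) * (ρ g * ρ c) - a (g * c) • (ρ g * ρ c)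
      + (-((d g : 𝒪ˣ) : 𝒪)) • (1 : Module.End 𝒪 M) = 0 := by
    have := ha (g * c)
    unfold Rel at this
    rw [map_mul ρ, map_mul d, hdc] at this
    simpa using this
  have key := anticomm_of_rel (ρ g) (ρ c) (a g) (a (g * c)) (d g) hy (ha g) hxy
  have := congrArg (fun f : Module.End 𝒪 M => f u) key
  simp only [LinearMap.add_apply, Module.End.mul_apply, LinearMap.smul_apply,
    Module.End.one_apply, hu, map_smul] at this
  rw [add_smul, mul_comm ε (a g), mul_smul, ← this]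
  abel

end Rel

section Stable

variable {𝒪 M G : Type*} [CommRing 𝒪] [IsDomain 𝒪] [AddCommGroup M] [Module 𝒪 M]
  [Module.IsTorsionFree 𝒪 M] [Nontrivial M] [Group G]

variable (ρ : G →* Module.End 𝒪 M) (d : G →* 𝒪ˣ)

/-- Existence of an eigenvector of the involution. -/
theorem exists_eigen (h2 : (2 : 𝒪) ≠ 0) (c : G) (hc : c * c = 1) :
    ∃ (ε : 𝒪) (u : M), ε * ε = 1 ∧ u ≠ 0 ∧ ρ c u = ε • u := by
  have hy : ∀ x, ρ c (ρ c x) = x := fun x => by
    have : ρ c * ρ c = 1 := by rw [← map_mul, hc, map_one]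
    exact congrArg (fun f : Module.End 𝒪 M => f x) this
  obtain ⟨m, hm⟩ := exists_ne (0 : M)
  by_cases h : ρ c m + m = 0
  · refine ⟨-1, m, by ring, hm, ?_⟩
    rw [neg_one_smul]; exact eq_neg_of_add_eq_zero_left h
  · refine ⟨1, ρ c m + m, by ring, h, ?_⟩
    rw [map_add, hy, one_smul, add_comm]

theorem exists_stable (h2 : (2 : 𝒪) ≠ 0) (hrel : ∀ g, ∃ a, Rel ρ d g a) (c : G) (hc : c * c = 1)
    (hdc : d c = -1) :
    (∃ v : M, v ≠ 0 ∧ ∀ g, ∃ r : 𝒪, r ≠ 0 ∧ r • ρ g v ∈ Submodule.span 𝒪 {v}) ∨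
    (∃ (u w : M) (ε : 𝒪), ε * ε = 1 ∧ u ≠ 0 ∧ w ≠ 0 ∧ ρ c u = ε • u ∧ ρ c w = -ε • w ∧
      (∀ g, ∃ r : 𝒪, r ≠ 0 ∧ r • ρ g u ∈ Submodule.span 𝒪 {u, w}) ∧
      (∀ g, ∃ r : 𝒪, r ≠ 0 ∧ r • ρ g w ∈ Submodule.span 𝒪 {u, w})) := by
  classical
  choose a ha using hrel
  have hy : ∀ x, ρ c (ρ c x) = x := fun x => by
    have : ρ c * ρ c = 1 := by rw [← map_mul, hc, map_one]
    exact congrArg (fun f : Module.End 𝒪 M => f x) this
  obtain ⟨ε, u, hε, hu0, hu⟩ := exists_eigen ρ h2 c hc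
  have hε0 : ε ≠ 0 := by rintro rfl; simp at hε
  have h2ε : (2 : 𝒪) * ε ≠ 0 := mul_ne_zero h2 hε0
  -- `P x = c x + ε x`, `Q x = c x - ε x`
  have hP : ∀ g, ρ c (ρ g u) + ε • ρ g u = (a (g * c) + ε * a g) • u :=
    fun g => eigen_key ρ d a ha c hc hdc ε u hu g
  have hsplit : ∀ x : M, (2 * ε) • x = (ρ c x + ε • x) - (ρ c x - ε • x) := by
    intro x; rw [mul_smul, two_smul]; abel
  by_cases h1 : ∀ g, ρ c (ρ g u) - ε • ρ g u = 0
  · -- rank one, generated by `u`
    left
    refine ⟨u, hu0, fun g => ⟨2 * ε, h2ε, ?_⟩⟩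
    rw [hsplit, h1 g, sub_zero, hP g]
    exact Submodule.smul_mem _ _ (Submodule.mem_span_singleton_self u)
  obtain ⟨g₀, hw0⟩ := not_forall.mp h1
  set w : M := ρ c (ρ g₀ u) - ε • ρ g₀ u with hw
  have hcw : ρ c w = -ε • w := by
    rw [hw, map_sub, hy, map_smul, smul_sub, smul_smul, neg_mul, hε]
    simp only [neg_smul, one_smul]
    abel
  -- the key identity for `w` (eigenvalue `-ε`)
  have hQw : ∀ g, ρ c (ρ g w) - ε • ρ g w = (a (g * c) + -ε * a g) • w := by
    intro g
    have := eigen_key ρ d a ha c hc hdc (-ε) w hcw g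
    rw [← this, neg_smul, sub_eq_add_neg]
  have hwexp : ∀ g, ρ g w = ρ (g * c * g₀) u - ε • ρ (g * g₀) u := by
    intro g
    rw [hw, map_sub, map_smul, map_mul, map_mul, Module.End.mul_apply, Module.End.mul_apply,
      map_mul, Module.End.mul_apply]
  have hPw : ∀ g, ρ c (ρ g w) + ε • ρ g w
      = ((a (g * c * g₀ * c) + ε * a (g * c * g₀)) - ε * (a (g * g₀ * c) + ε * a (g * g₀))) • u := by
    intro g
    rw [hwexp g, map_sub, map_smul, smul_sub, sub_smul, mul_smul, ← hP (g * c * g₀),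
      ← hP (g * g₀), smul_add, smul_smul]
    abel
  by_cases h2' : ∀ g, ρ c (ρ g w) + ε • ρ g w = 0
  · -- rank one, generated by `w`
    left
    refine ⟨w, hw0, fun g => ⟨2 * ε, h2ε, ?_⟩⟩
    rw [hsplit, h2' g, zero_sub, hQw g, ← neg_smul]
    exact Submodule.smul_mem _ _ (Submodule.mem_span_singleton_self w)
  obtain ⟨g₁, hy0⟩ := not_forall.mp h2'
  right
  set t : 𝒪 := (a (g₁ * c * g₀ * c) + ε * a (g₁ * c * g₀))
      - ε * (a (g₁ * g₀ * c) + ε * a (g₁ * g₀)) with ht
  have hyt : ρ c (ρ g₁ w) + ε • ρ g₁ w = t • u := hPw g₁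
  have ht0 : t ≠ 0 := by
    rintro h0
    rw [h0, zero_smul] at hyt
    exact hy0 hyt
  have huS : u ∈ Submodule.span 𝒪 ({u, w} : Set M) := Submodule.subset_span (by simp)
  have hwS : w ∈ Submodule.span 𝒪 ({u, w} : Set M) := Submodule.subset_span (by simp)
  refine ⟨u, w, ε, hε, hu0, hw0, hu, hcw, ?_, ?_⟩
  · intro g
    -- `t • Q (g u) = Q (g (t u)) = Q (g y)`, `y = c g₁ w + ε g₁ w`
    have hQy : t • (ρ c (ρ g u) - ε • ρ g u)
        = ((a (g * c * g₁ * c) + -ε * a (g * c * g₁))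
            + ε * (a (g * g₁ * c) + -ε * a (g * g₁))) • w := by
      have e1 : t • (ρ c (ρ g u) - ε • ρ g u) = ρ c (ρ g (t • u)) - ε • ρ g (t • u) := by
        simp only [map_smul, smul_sub, smul_comm t ε]
      have e2 : ρ g (t • u) = ρ (g * c * g₁) w + ε • ρ (g * g₁) w := by
        rw [← hyt, map_add, map_smul, map_mul, map_mul, Module.End.mul_apply,
          Module.End.mul_apply, map_mul, Module.End.mul_apply]
      rw [e1, e2, map_add, map_smul, smul_add, add_smul, mul_smul, ← hQw (g * c * g₁),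
        ← hQw (g * g₁), smul_sub, smul_smul]
      abel
    refine ⟨2 * ε * t, mul_ne_zero h2ε ht0, ?_⟩
    have : (2 * ε * t) • ρ g u
        = t • (a (g * c) + ε * a g) • u - (t • (ρ c (ρ g u) - ε • ρ g u)) := by
      rw [mul_comm (2 * ε) t, mul_smul, hsplit, hP g, smul_sub]
    rw [this, hQy]
    exact Submodule.sub_mem _ (Submodule.smul_mem _ _ (Submodule.smul_mem _ _ huS))
      (Submodule.smul_mem _ _ hwS)
  · intro g
    refine ⟨2 * ε, h2ε, ?_⟩
    rw [hsplit, hPw g, hQw g]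
    exact Submodule.sub_mem _ (Submodule.smul_mem _ _ huS) (Submodule.smul_mem _ _ hwS)

end Stable

end Fermat.Agent.S30.H990

end
-- ===== PACK-END S30/H990/Extract.lean

-- ===== PACK-BEGIN S30/H990/Cheb.lean
section
/-
S30 top glue (helper990): the Chebotarev hypothesis used by the glue follows from the frozen
Tier 1 statement of the shared CHEB library.
-/



set_option autoImplicit false

namespace Fermat.Agent.S30.H990

/-- Tier 1 of the shared CHEB library implies the weak form consumed by the S30 glue. -/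
theorem chebWeak_of_frobeniusDivision
    (h : Fermat.Agent.Lib.Cheb.Spec.FrobeniusDivisionStatement) : ChebWeak := by
  intro L hL σ T
  obtain ⟨ℓ, A, τ, _k, j, hℓ, hℓT, hA, hτ, _, _, hj⟩ := h L hL σ T
  exact ⟨ℓ, hℓ, hℓT, A, hA, τ, hτ, j, fun x hx => (hj x hx).symm⟩

end Fermat.Agent.S30.H990

end
-- ===== PACK-END S30/H990/Cheb.lean

-- ===== PACK-BEGIN S24/Deg/H648Height.lean
section


/-!
# S24 / M6-AN (helper648): the height lemma and `τ ↦ J (d τ) ∈ goodRing N`

No Hermite normal form is needed: an integer matrix of determinant `d` maps `{im τ ≥ 1}` into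
`{im ≤ d · im τ}`.
-/

set_option autoImplicit false

noncomputable section

open UpperHalfPlane ModularGroup CongruenceSubgroup Polynomial
open scoped MatrixGroups Manifold Modular Real

namespace Fermat.Agent.S24.H648

/-- A nonzero integral linear form in `τ` with `im τ ≥ 1` has absolute value at least `1`. -/
lemma one_le_normSq_int_linear (c e : ℤ) (τ : ℍ) (hτ : 1 ≤ τ.im)
    (h : (c : ℂ) * τ + e ≠ 0) : 1 ≤ Complex.normSq ((c : ℂ) * τ + e) := by
  have hval : Complex.normSq ((c : ℂ) * τ + e) = (c * τ.re + e) ^ 2 + (c * τ.im) ^ 2 := by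
    rw [Complex.normSq_apply]
    simp [pow_two]
  rw [hval]
  by_cases hc : c = 0
  · subst hc
    have he : e ≠ 0 := by
      rintro rfl
      simp at h
    have he1 : (1 : ℝ) ≤ (e : ℝ) ^ 2 := by
      have : (1 : ℤ) ≤ e ^ 2 := by
        have := Int.one_le_abs he
        nlinarith [abs_nonneg e, sq_abs e]
      exact_mod_cast this
    simpa using he1
  · have hc1 : (1 : ℝ) ≤ (c : ℝ) ^ 2 := by
      have : (1 : ℤ) ≤ c ^ 2 := by
        have := Int.one_le_abs hc
        nlinarith [abs_nonneg c, sq_abs c]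
      exact_mod_cast this
    have h1 : (1 : ℝ) ≤ (c * τ.im) ^ 2 := by
      rw [mul_pow]
      have : (1 : ℝ) ≤ τ.im ^ 2 := by nlinarith
      nlinarith
    nlinarith [sq_nonneg ((c : ℝ) * τ.re + e)]

/-- **Height lemma.** -/
lemma im_smul_scale_le (γ g : SL(2, ℤ)) (d : ℕ) (τ w : ℍ)
    (hw : (w : ℂ) = d * ((g • τ : ℍ) : ℂ)) (hτ : 1 ≤ τ.im) :
    (γ • w).im ≤ d * τ.im := by
  have hwim : w.im = d * (g • τ).im := by
    have := congrArg Complex.im hw
    simpa using this
  have hgτ : ((g • τ : ℍ) : ℂ) * denom g τ = num g τ := by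
    have h1 : ((g • τ : ℍ) : ℂ) = num g τ / denom g τ := by
      rw [sl_moeb, coe_smul_of_det_pos (by simp)]
    rw [h1, div_mul_cancel₀ _ (denom_ne_zero _ τ)]
  have hprod : denom γ w * denom g τ
      = ((γ 1 0 * d * g 0 0 + γ 1 1 * g 1 0 : ℤ) : ℂ) * τ
        + ((γ 1 0 * d * g 0 1 + γ 1 1 * g 1 1 : ℤ) : ℂ) := by
    have e1 : denom γ w = (γ 1 0 : ℂ) * w + γ 1 1 := by
      simp [denom]
    have e2 : denom g τ = (g 1 0 : ℂ) * τ + g 1 1 := by
      simp [denom]
    have e3 : num g τ = (g 0 0 : ℂ) * τ + g 0 1 := by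
      simp [num]
    rw [e1, hw, add_mul]
    have : (γ 1 0 : ℂ) * (d * ((g • τ : ℍ) : ℂ)) * denom g τ
        = (γ 1 0 : ℂ) * d * (((g • τ : ℍ) : ℂ) * denom g τ) := by ring
    rw [this, hgτ, e3, e2]
    push_cast
    ring
  have hne : denom γ w * denom g τ ≠ 0 :=
    mul_ne_zero (denom_ne_zero _ w) (denom_ne_zero _ τ)
  have hge : 1 ≤ Complex.normSq (denom γ w * denom g τ) := by
    rw [hprod] at hne ⊢
    exact one_le_normSq_int_linear _ _ τ hτ hne
  rw [ModularGroup.im_smul_eq_div_normSq, hwim, ModularGroup.im_smul_eq_div_normSq]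
  rw [Complex.normSq_mul] at hge
  have h1 : 0 < Complex.normSq (denom g τ) := Complex.normSq_pos.mpr (denom_ne_zero _ τ)
  have h2 : 0 < Complex.normSq (denom γ w) := Complex.normSq_pos.mpr (denom_ne_zero _ w)
  have hd : (0 : ℝ) ≤ d * τ.im := by
    have := τ.im_pos
    positivity
  have hAB : 1 ≤ Complex.normSq (denom g τ) * Complex.normSq (denom γ w) := by
    rw [mul_comm]; exact hge
  calc (d : ℝ) * (τ.im / Complex.normSq (denom g τ)) / Complex.normSq (denom γ w)
      = (d * τ.im) / (Complex.normSq (denom g τ) * Complex.normSq (denom γ w)) := by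
        field_simp
    _ ≤ d * τ.im := div_le_self hd hAB


/-- Points of the fundamental domain have imaginary part `≥ 1/2`. -/
lemma half_le_im_of_mem_fd {τ : ℍ} (h : τ ∈ 𝒟) : 1 / 2 ≤ τ.im := by
  have h1 := ModularGroup.three_le_four_mul_im_sq_of_mem_fd h
  have h2 := τ.im_pos
  nlinarith

section JScale

variable {J : ℍ → ℂ}

/-- Growth of all `SL₂(ℤ)`-translates of `τ ↦ J (d τ)`, from a bound for `J` on the fundamental
domain. -/
lemma expGrowth_J_scale (hJinv : ∀ (γ : SL(2, ℤ)) (τ : ℍ), J (γ • τ) = J τ)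
    (hJfd : ∃ C : ℝ, ∀ τ : ℍ, τ ∈ 𝒟 → ‖J τ‖ ≤ C * Real.exp (2 * π * τ.im))
    (d : ℕ) (s : ℍ → ℍ) (hs : ∀ τ : ℍ, (s τ : ℂ) = d * τ) (g : SL(2, ℤ)) :
    ExpGrowth (fun τ => J (s (g • τ))) := by
  obtain ⟨C, hC⟩ := hJfd
  refine ⟨|C|, d, fun τ hτ => ?_⟩
  obtain ⟨γ, hγ⟩ := ModularGroup.exists_smul_mem_fd (s (g • τ))
  have h1 : J (s (g • τ)) = J (γ • s (g • τ)) := (hJinv γ _).symm
  have h2 := hC _ hγ
  have h3 : (γ • s (g • τ)).im ≤ d * τ.im := im_smul_scale_le γ g d τ _ (hs _) hτ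
  show ‖J (s (g • τ))‖ ≤ _
  rw [h1]
  refine h2.trans ?_
  have h4 : Real.exp (2 * π * (γ • s (g • τ)).im) ≤ Real.exp (2 * π * d * τ.im) := by
    apply Real.exp_le_exp.mpr
    have := Real.pi_pos
    nlinarith
  calc C * Real.exp (2 * π * (γ • s (g • τ)).im)
      ≤ |C| * Real.exp (2 * π * (γ • s (g • τ)).im) := by
        gcongr
        exact le_abs_self C
    _ ≤ |C| * Real.exp (2 * π * d * τ.im) := by gcongr

/-- `τ ↦ J (d τ)` is holomorphic. -/
lemma mdifferentiable_J_scale (hJ : MDifferentiable 𝓘(ℂ) 𝓘(ℂ) J)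
    (d : ℕ) (hd : 0 < d) (s : ℍ → ℍ) (hs : ∀ τ : ℍ, (s τ : ℂ) = d * τ) :
    MDifferentiable 𝓘(ℂ) 𝓘(ℂ) (fun τ => J (s τ)) := by
  rw [UpperHalfPlane.mdifferentiable_iff] at hJ ⊢
  have hmaps : Set.MapsTo (fun z : ℂ => (d : ℂ) * z) {z | 0 < z.im} {z | 0 < z.im} := by
    intro z hz
    simp only [Set.mem_ofPred_eq] at hz ⊢
    have : ((d : ℂ) * z).im = d * z.im := by simp
    rw [this]
    positivity
  have hcomp : DifferentiableOn ℂ ((J ∘ ofComplex) ∘ fun z : ℂ => (d : ℂ) * z) {z | 0 < z.im} :=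
    hJ.comp (by fun_prop) hmaps
  refine hcomp.congr fun z hz => ?_
  simp only [Set.mem_ofPred_eq] at hz
  have hz' : 0 < ((d : ℂ) * z).im := hmaps hz
  simp only [Function.comp_apply]
  congr 1
  apply UpperHalfPlane.ext
  rw [hs, ofComplex_apply_of_im_pos hz, ofComplex_apply_of_im_pos hz']

/-- For `d ∣ N` and `γ ∈ Γ₀(N)` there is `γ' ∈ SL₂(ℤ)` with `d (γ τ) = γ' (d τ)`. -/
lemma exists_smul_scale_eq {N : ℕ} (d : ℕ) (hd : 0 < d) (hdN : d ∣ N) (γ : SL(2, ℤ))
    (hγ : γ ∈ Gamma0 N) :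
    ∃ γ' : SL(2, ℤ), ∀ τ w w' : ℍ, (w : ℂ) = d * τ → (w' : ℂ) = d * ((γ • τ : ℍ) : ℂ) →
      γ' • w = w' := by
  have hN : (N : ℤ) ∣ γ 1 0 := by
    rw [Gamma0_mem] at hγ
    exact (ZMod.intCast_zmod_eq_zero_iff_dvd _ _).mp hγ
  have hdc : (d : ℤ) ∣ γ 1 0 := (Int.natCast_dvd_natCast.mpr hdN).trans hN
  obtain ⟨k, hk⟩ := hdc
  have hdet : γ 0 0 * γ 1 1 - γ 0 1 * γ 1 0 = 1 := by
    have := γ.det_coe
    rw [Matrix.det_fin_two] at this
    exact this
  have hdet' : (!![γ 0 0, γ 0 1 * d; k, γ 1 1] : Matrix (Fin 2) (Fin 2) ℤ).det = 1 := by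
    rw [Matrix.det_fin_two_of]
    rw [hk] at hdet
    linear_combination hdet
  set γ' : SL(2, ℤ) := ⟨!![γ 0 0, γ 0 1 * d; k, γ 1 1], hdet'⟩ with hγ'def
  have e00 : γ' 0 0 = γ 0 0 := rfl
  have e01 : γ' 0 1 = γ 0 1 * d := rfl
  have e10 : γ' 1 0 = k := rfl
  have e11 : γ' 1 1 = γ 1 1 := rfl
  refine ⟨γ', fun τ w w' hw hw' => ?_⟩
  apply UpperHalfPlane.ext
  rw [hw', coe_specialLinearGroup_apply γ τ, coe_specialLinearGroup_apply γ' w, hw, e00, e01,
    e10, e11]
  simp only [algebraMap_int_eq, Int.coe_castRingHom, Complex.ofReal_intCast]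
  have hden : ((γ 1 0 : ℤ) : ℂ) * τ + ((γ 1 1 : ℤ) : ℂ) ≠ 0 := by
    have := denom_ne_zero (γ : GL (Fin 2) ℝ) τ
    simpa [denom] using this
  have hd0 : (d : ℂ) ≠ 0 := by exact_mod_cast hd.ne'
  have hk' : ((γ 1 0 : ℤ) : ℂ) = d * k := by rw [hk]; push_cast; ring
  have hden' : (k : ℂ) * (d * τ) + ((γ 1 1 : ℤ) : ℂ) ≠ 0 := by
    have : (k : ℂ) * (d * τ) + ((γ 1 1 : ℤ) : ℂ) = ((γ 1 0 : ℤ) : ℂ) * τ + ((γ 1 1 : ℤ) : ℂ) := by
      rw [hk']; ring
    rw [this]; exact hden
  rw [div_eq_iff hden', mul_div_assoc', div_mul_eq_mul_div, eq_div_iff hden, hk']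
  push_cast
  ring

variable (N : ℕ)

/-- **`τ ↦ J (d τ)` is a good function of level `N` for `d ∣ N`.** -/
theorem J_scale_mem_goodRing (hJ : MDifferentiable 𝓘(ℂ) 𝓘(ℂ) J)
    (hJinv : ∀ (γ : SL(2, ℤ)) (τ : ℍ), J (γ • τ) = J τ)
    (hJfd : ∃ C : ℝ, ∀ τ : ℍ, τ ∈ 𝒟 → ‖J τ‖ ≤ C * Real.exp (2 * π * τ.im))
    (d : ℕ) (hd : 0 < d) (hdN : d ∣ N) (s : ℍ → ℍ) (hs : ∀ τ : ℍ, (s τ : ℂ) = d * τ) :
    (fun τ => J (s τ)) ∈ goodRing N := by
  refine ⟨mdifferentiable_J_scale hJ d hd s hs, fun γ hγ τ => ?_,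
    fun g => expGrowth_J_scale hJinv hJfd d s hs g⟩
  obtain ⟨γ', hγ'⟩ := exists_smul_scale_eq d hd hdN γ hγ
  show J (s (γ • τ)) = J (s τ)
  rw [← hγ' τ (s τ) (s (γ • τ)) (hs τ) (hs _), hJinv]

end JScale

end Fermat.Agent.S24.H648

end
end
-- ===== PACK-END S24/Deg/H648Height.lean

-- ===== PACK-BEGIN S24/Mod/H997Frac.lean
section


/-!
# S24 / MOD — the polynomial ring `R_N = ℚ̄[j(q^d) : d ∣ N]` inside the function field `FF N`

* `RN N`   : the `ℚ̄`-subalgebra of `ℚ̄((q))` generated by the `j(q^d)`, `d ∣ N`;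
* `inclRN` : the inclusion `RN N → FF N`;
* `liftF`  : every injective ring hom `RN N →+* L` into a field extends uniquely to `FF N →+* L`.
-/

set_option autoImplicit false

noncomputable section

open ModularCurve HahnSeries IntermediateField

namespace Fermat.Agent.S24.H997

variable (N : ℕ)

/-- The generators `j(q^d)`, `d ∣ N`, as Laurent series over `ℚ̄`. -/
def gensBar : Set (LaurentSeries Kbar) := ⇑(coeffEmb Kbar) '' divisorExpansions N

/-- The function field of `X₀(N)` over `ℚ̄` is generated over `ℚ̄` by the `j(q^d)`, `d ∣ N`. -/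
theorem modularFunctionFieldBar_eq_adjoin :
    modularFunctionFieldBar N = IntermediateField.adjoin Kbar (gensBar N) := by
  apply le_antisymm
  · show laurentBaseChange Kbar (modularFunctionFieldFull N) ≤ _
    rw [laurentBaseChange, IntermediateField.adjoin_le_iff]
    rintro _ ⟨x, hx, rfl⟩
    have hx' : x ∈ IntermediateField.adjoin ℚ (divisorExpansions N) := hx
    induction hx' using IntermediateField.adjoin_induction with
    | mem y hy => exact IntermediateField.subset_adjoin Kbar _ ⟨y, hy, rfl⟩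
    | algebraMap c =>
        have h : coeffEmb Kbar (algebraMap ℚ (LaurentSeries ℚ) c)
            = algebraMap Kbar (LaurentSeries Kbar) (algebraMap ℚ Kbar c) := by
          rw [algebraMap_apply_eq_single, algebraMap_laurentSeries_eq_single, coeffEmb,
            coeffMap_single]
        show coeffEmb Kbar (algebraMap ℚ (LaurentSeries ℚ) c) ∈ _
        rw [h]
        exact IntermediateField.algebraMap_mem _ _
    | add y z _ _ hy hz =>
        show coeffEmb Kbar (y + z) ∈ _
        rw [_root_.map_add]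
        exact _root_.AddMemClass.add_mem (hy (by assumption)) (hz (by assumption))
    | inv y _ hy =>
        show coeffEmb Kbar (y⁻¹) ∈ _
        rw [map_inv₀]
        exact _root_.InvMemClass.inv_mem (hy (by assumption))
    | mul y z _ _ hy hz =>
        show coeffEmb Kbar (y * z) ∈ _
        rw [_root_.map_mul]
        exact _root_.MulMemClass.mul_mem (hy (by assumption)) (hz (by assumption))
  · show _ ≤ laurentBaseChange Kbar (modularFunctionFieldFull N)
    rw [laurentBaseChange]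
    exact IntermediateField.adjoin.mono _ _ _
      (Set.image_mono (IntermediateField.subset_adjoin ℚ _))

/-- The polynomial ring `ℚ̄[j(q^d) : d ∣ N] ⊆ ℚ̄((q))`. -/
def RN : Subalgebra Kbar (LaurentSeries Kbar) := Algebra.adjoin Kbar (gensBar N)

theorem RN_le : RN N ≤ (modularFunctionFieldBar N).toSubalgebra := by
  rw [modularFunctionFieldBar_eq_adjoin]
  exact IntermediateField.algebra_adjoin_le_adjoin Kbar (gensBar N)

/-- The inclusion `R_N → FF N`. -/
def inclRN : RN N →ₐ[Kbar] FF N := Subalgebra.inclusion (RN_le N)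

@[simp] theorem coe_inclRN (r : RN N) : ((inclRN N r : FF N) : LaurentSeries Kbar) = r := rfl

theorem inclRN_injective : Function.Injective (inclRN N) :=
  Subalgebra.inclusion_injective (RN_le N)

theorem exists_div_inclRN (f : FF N) :
    ∃ r t : RN N, t ≠ 0 ∧ f = inclRN N r / inclRN N t := by
  have hf : (f : LaurentSeries Kbar) ∈ IntermediateField.adjoin Kbar (gensBar N) := by
    rw [← modularFunctionFieldBar_eq_adjoin]; exact f.2
  obtain ⟨r, hr, s, hs, h⟩ := IntermediateField.mem_adjoin_iff_div.mp hf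
  by_cases hs0 : s = 0
  · refine ⟨0, 1, one_ne_zero, ?_⟩
    apply Subtype.ext
    rw [h, hs0, div_zero]
    simp
  · refine ⟨⟨r, hr⟩, ⟨s, hs⟩, fun h0 => hs0 (congrArg Subtype.val h0), ?_⟩
    apply Subtype.ext
    rw [h]
    simp

/-- The generator `j(q^d)` as an element of `R_N`. -/
def jR (d : ℕ) [NeZero d] (hd : d ∣ N) : RN N :=
  ⟨coeffEmb Kbar (qExpand ℚ d jq),
    Algebra.subset_adjoin ⟨_, mem_divisorExpansions N hd, rfl⟩⟩

theorem inclRN_jR_one [NeZero N] : inclRN N (jR N 1 (one_dvd N)) = jF N := by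
  apply Subtype.ext
  simp [jR, jF, qExpand_one_apply]

section Lift

variable {N}
variable {L : Type*} [Field L]

/-- Extension of an injective ring hom `R_N →+* L` to the fraction field `FF N`. -/
def liftF (s : RN N →+* L) (hs : Function.Injective s) : FF N →+* L :=
  letI : Algebra (RN N) (FF N) := (inclRN N).toRingHom.toAlgebra
  haveI : FaithfulSMul (RN N) (FF N) :=
    (faithfulSMul_iff_algebraMap_injective _ _).mpr (inclRN_injective N)
  haveI : IsFractionRing (RN N) (FF N) :=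
    IsFractionRing.of_field _ _ fun z => by
      obtain ⟨r, t, -, h⟩ := exists_div_inclRN N z
      exact ⟨r, t, h⟩
  IsFractionRing.lift hs

theorem liftF_inclRN (s : RN N →+* L) (hs : Function.Injective s) (r : RN N) :
    liftF s hs (inclRN N r) = s r := by
  let _ : Algebra (RN N) (FF N) := (inclRN N).toRingHom.toAlgebra
  have : FaithfulSMul (RN N) (FF N) :=
    (faithfulSMul_iff_algebraMap_injective _ _).mpr (inclRN_injective N)
  have : IsFractionRing (RN N) (FF N) :=
    IsFractionRing.of_field _ _ fun z => by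
      obtain ⟨r, t, -, h⟩ := exists_div_inclRN N z
      exact ⟨r, t, h⟩
  exact IsFractionRing.lift_algebraMap hs r

theorem liftF_div (s : RN N →+* L) (hs : Function.Injective s) (r t : RN N) :
    liftF s hs (inclRN N r / inclRN N t) = s r / s t := by
  rw [map_div₀, liftF_inclRN, liftF_inclRN]

theorem liftF_algebraMap (s : RN N →+* L) (hs : Function.Injective s) (c : Kbar) :
    liftF s hs (algebraMap Kbar (FF N) c) = s (algebraMap Kbar (RN N) c) := by
  rw [← liftF_inclRN s hs]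
  congr 1

end Lift

end Fermat.Agent.S24.H997

end
end
-- ===== PACK-END S24/Mod/H997Frac.lean

-- ===== PACK-BEGIN S24/H117/PlaceBasic.lean
section


/-!
# S24 / H117 — basic API for `AlgebraicCurve.Place.ord`

Elementary facts about the order function of a place (membership, ultrametric inequality,
constants), re-proved here because the Prelude versions are private.
-/

set_option autoImplicit false

noncomputable section

open AlgebraicCurve

namespace Fermat.Agent.S24.H117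

variable {K F : Type*} [Field K] [Field F] [Algebra K F] (v : Place K F)

theorem ord_nonneg_of_mem {f : F} (hf : f ∈ v.toValuationSubring) : 0 ≤ v.ord f := by
  rcases eq_or_ne f 0 with rfl | hf0
  · simp
  obtain ⟨π, hπ⟩ := IsDiscreteValuationRing.exists_irreducible v.toValuationSubring
  obtain ⟨n, u, hu⟩ :=
    IsDiscreteValuationRing.eq_unit_mul_pow_irreducible
      (x := (⟨f, hf⟩ : v.toValuationSubring)) (by simpa [Subtype.ext_iff] using hf0) hπ
  have hcoe : f = ((u : v.toValuationSubring) : F) * ((π : F) ^ (n : ℤ)) := by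
    have h := congrArg (Subtype.val) hu
    push_cast at h
    rw [zpow_natCast]
    exact h
  rw [hcoe, v.ord_unit_smul_zpow u hπ (n : ℤ)]
  exact Int.natCast_nonneg n

theorem mem_of_ord_nonneg {f : F} (h : 0 ≤ v.ord f) : f ∈ v.toValuationSubring := by
  rcases eq_or_ne f 0 with rfl | hf
  · exact zero_mem _
  obtain ⟨π, hπ⟩ := IsDiscreteValuationRing.exists_irreducible v.toValuationSubring
  obtain ⟨u, hu⟩ := v.exists_unit_mul_zpow hf hπ
  rw [hu, show v.ord f = (((v.ord f).toNat : ℕ) : ℤ) from (Int.toNat_of_nonneg h).symm,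
    zpow_natCast]
  exact mul_mem (u : v.toValuationSubring).2 (pow_mem (π : v.toValuationSubring).2 _)

theorem mem_iff_ord_nonneg {f : F} : f ∈ v.toValuationSubring ↔ 0 ≤ v.ord f :=
  ⟨ord_nonneg_of_mem v, mem_of_ord_nonneg v⟩

theorem exists_ord_eq_one : ∃ π : F, π ≠ 0 ∧ v.ord π = 1 := by
  obtain ⟨π, hπ⟩ := IsDiscreteValuationRing.exists_irreducible v.toValuationSubring
  refine ⟨(π : F), ?_, v.ord_coe_irreducible hπ⟩
  simpa [ne_eq, ZeroMemClass.coe_eq_zero] using hπ.ne_zero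

theorem ord_algebraMap (c : K) : v.ord (algebraMap K F c) = 0 := by
  rcases eq_or_ne c 0 with rfl | hc
  · simp
  have h1 : 0 ≤ v.ord (algebraMap K F c) := ord_nonneg_of_mem v (v.algebraMap_mem' c)
  have h2 : 0 ≤ v.ord (algebraMap K F c⁻¹) := ord_nonneg_of_mem v (v.algebraMap_mem' c⁻¹)
  rw [map_inv₀, v.ord_inv] at h2
  omega

theorem ord_neg (f : F) : v.ord (-f) = v.ord f := by
  simp [Place.ord, Valuation.map_neg]

theorem ord_add_ge {f g : F} (hfg : f + g ≠ 0) : min (v.ord f) (v.ord g) ≤ v.ord (f + g) := by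
  rcases eq_or_ne f 0 with rfl | hf
  · simp
  rcases eq_or_ne g 0 with rfl | hg
  · simp
  -- wlog ord f ≤ ord g
  wlog hle : v.ord f ≤ v.ord g generalizing f g
  · have := this (f := g) (g := f) (by rwa [add_comm]) hg hf (le_of_not_ge hle)
    rwa [min_comm, add_comm]
  rw [min_eq_left hle]
  have hq : g / f ∈ v.toValuationSubring := by
    apply mem_of_ord_nonneg
    rw [div_eq_mul_inv, v.ord_mul hg (inv_ne_zero hf), v.ord_inv]
    omega
  have h1 : (1 + g / f) ∈ v.toValuationSubring := add_mem (one_mem _) hq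
  have h1ne : (1 + g / f) ≠ 0 := by
    intro h0
    apply hfg
    have : f * (1 + g / f) = f + g := by field_simp
    rw [← this, h0, mul_zero]
  have : f + g = f * (1 + g / f) := by field_simp
  rw [this, v.ord_mul hf h1ne]
  have := ord_nonneg_of_mem v h1
  omega

theorem ord_add_eq_of_lt {f g : F} (h : v.ord f < v.ord g) (hf : f ≠ 0) :
    v.ord (f + g) = v.ord f := by
  rcases eq_or_ne g 0 with rfl | hg
  · simp
  have hfg : f + g ≠ 0 := by
    intro h0
    have : g = -f := eq_neg_of_add_eq_zero_right h0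
    rw [this, _root_.Fermat.Agent.S24.H117.ord_neg] at h
    exact lt_irrefl _ h
  apply le_antisymm
  · by_contra hlt
    push Not at hlt
    have h2 : min (v.ord (f + g)) (v.ord (-g)) ≤ v.ord ((f + g) + -g) :=
      ord_add_ge v (by simpa using hf)
    rw [add_neg_cancel_right, _root_.Fermat.Agent.S24.H117.ord_neg] at h2
    have : v.ord f < min (v.ord (f + g)) (v.ord g) := lt_min hlt h
    omega
  · have := ord_add_ge v hfg
    rwa [min_eq_left h.le] at this

theorem ord_pow (f : F) (n : ℕ) : v.ord (f ^ n) = n * v.ord f := by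
  have := v.ord_zpow f (n : ℤ)
  rwa [zpow_natCast] at this

theorem ord_div {f g : F} (hf : f ≠ 0) (hg : g ≠ 0) : v.ord (f / g) = v.ord f - v.ord g := by
  rw [div_eq_mul_inv, v.ord_mul hf (inv_ne_zero hg), v.ord_inv]; ring

theorem ne_zero_of_ord_ne_zero {f : F} (h : v.ord f ≠ 0) : f ≠ 0 := by
  rintro rfl
  exact h v.ord_zero

/-- Two places with the same non-negative-order elements are equal. -/
theorem place_ext_of_le {v w : Place K F}
    (h : ∀ f : F, 0 ≤ v.ord f → 0 ≤ w.ord f) : v = w := by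
  apply Place.ext
  have hle : v.toValuationSubring ≤ w.toValuationSubring := fun f hf =>
    mem_of_ord_nonneg w (h f (ord_nonneg_of_mem v hf))
  refine le_antisymm hle ?_
  intro f hf
  by_contra hfv
  have hf0 : f ≠ 0 := fun h0 => hfv (h0 ▸ zero_mem _)
  have hvf : v.ord f < 0 := by
    by_contra hge
    exact hfv (mem_of_ord_nonneg v (not_lt.mp hge))
  -- then `f⁻¹` has positive order at `v`, and every element is `u * (f⁻¹)^n`-bounded
  obtain ⟨g, hg0, hg⟩ : ∃ g : F, g ≠ 0 ∧ w.ord g < 0 := by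
    by_contra hcon
    push Not at hcon
    apply w.ne_top'
    refine SetLike.ext fun x => ⟨fun _ => ValuationSubring.mem_top x, fun _ => ?_⟩
    rcases eq_or_ne x 0 with rfl | hx
    · exact zero_mem _
    · exact mem_of_ord_nonneg w (hcon x hx)
  -- choose n with ord_v (g * f⁻¹ ^ n) ≥ 0
  have hfinv : 0 < v.ord f⁻¹ := by rw [v.ord_inv]; omega
  obtain ⟨n, hn⟩ : ∃ n : ℕ, 0 ≤ v.ord (g * f⁻¹ ^ n) := by
    refine ⟨(-v.ord g).toNat, ?_⟩
    rw [v.ord_mul hg0 (pow_ne_zero _ (inv_ne_zero hf0)), ord_pow]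
    have : (0:ℤ) ≤ ((-v.ord g).toNat : ℤ) := Int.natCast_nonneg _
    have h2 : -v.ord g ≤ ((-v.ord g).toNat : ℤ) := Int.self_le_toNat _
    nlinarith
  have hw := h _ hn
  rw [w.ord_mul hg0 (pow_ne_zero _ (inv_ne_zero hf0)), ord_pow, w.ord_inv] at hw
  have hwf : 0 ≤ w.ord f := ord_nonneg_of_mem w hf
  have : (n : ℤ) * -w.ord f ≤ 0 := by
    have : (0:ℤ) ≤ n := Int.natCast_nonneg _
    nlinarith
  omega

end Fermat.Agent.S24.H117

end
end
-- ===== PACK-END S24/H117/PlaceBasic.lean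

-- ===== PACK-BEGIN S21/H381/PeriodMap.lean
section





/-!
# S21, piece A: existence of the equivariant primitive, linearity of the period map
-/

set_option autoImplicit false

namespace Fermat.Agent.S21.H381

open CongruenceSubgroup ModularCurve ModularCurve.Period Filter Topology Function Complex
open UpperHalfPlane hiding I
open scoped Manifold MatrixGroups ModularForm

/-- determinant of the image of `γ : SL(2, ℤ)` in `GL (Fin 2) ℝ` is `1`. -/
theorem det_coe_SL (γ : SL(2, ℤ)) : ((γ : GL (Fin 2) ℝ) : Matrix (Fin 2) (Fin 2) ℝ).det = 1 := by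
  rw [← Matrix.GeneralLinearGroup.val_det_apply]; simp

/-- **Chain rule for the Möbius action**: if `F` is a primitive of `f` on `ℍ`, then
`F ∘ γ` is a primitive of `f ∣[2] γ`. -/
theorem hasDerivAt_comp_smul {F f : ℍ → ℂ}
    (hF : ∀ τ : ℍ, HasDerivAt (F ∘ ofComplex) (f τ) ↑τ) (γ : SL(2, ℤ)) (τ : ℍ) :
    HasDerivAt ((fun w : ℍ => F (γ • w)) ∘ ofComplex) ((f ∣[(2 : ℤ)] γ) τ) ↑τ := by
  have hdet := det_coe_SL γ
  have hpos : 0 < ((γ : GL (Fin 2) ℝ) : Matrix (Fin 2) (Fin 2) ℝ).det := by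
    rw [hdet]; exact one_pos
  have h_smul : HasDerivAt (fun w ↦ ↑((γ : GL (Fin 2) ℝ) • ofComplex w) : ℂ → ℂ)
      ((((γ : GL (Fin 2) ℝ) : Matrix (Fin 2) (Fin 2) ℝ).det : ℂ)
        / denom (γ : GL (Fin 2) ℝ) τ ^ 2) ↑τ :=
    (hasStrictDerivAt_smul hpos τ).hasDerivAt
  have h_F : HasDerivAt (F ∘ ofComplex) (f (γ • τ))
      ↑((γ : GL (Fin 2) ℝ) • ofComplex (τ : ℂ)) := by
    rw [ofComplex_apply]
    exact hF (γ • τ)
  have hcomp := h_F.comp (τ : ℂ) h_smul
  have heq : ((fun w : ℍ => F (γ • w)) ∘ ofComplex)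
      = (F ∘ ofComplex) ∘ (fun w ↦ ↑((γ : GL (Fin 2) ℝ) • ofComplex w) : ℂ → ℂ) := by
    funext z
    simp only [Function.comp_apply, ofComplex_apply]
    rfl
  rw [heq]
  refine hcomp.congr_deriv ?_
  rw [ModularForm.SL_slash_apply, hdet]
  have hz := denom_ne_zero (γ : GL (Fin 2) ℝ) τ
  simp only [Complex.ofReal_one]
  rw [zpow_neg, div_eq_mul_inv, one_mul]
  norm_cast

/-- Two primitives (on `ℍ`) of the same function differ by a constant. -/
theorem sub_const_of_hasDerivAt {A B g : ℍ → ℂ}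
    (hA : ∀ τ : ℍ, HasDerivAt (A ∘ ofComplex) (g τ) ↑τ)
    (hB : ∀ τ : ℍ, HasDerivAt (B ∘ ofComplex) (g τ) ↑τ) (z w : ℍ) :
    A z - B z = A w - B w := by
  set D : ℂ → ℂ := fun x => (A ∘ ofComplex) x - (B ∘ ofComplex) x with hD
  have hopen : IsOpen {x : ℂ | 0 < x.im} := isOpen_lt continuous_const Complex.continuous_im
  have hconn : IsPreconnected {x : ℂ | 0 < x.im} := (convex_halfSpace_im_gt 0).isPreconnected
  have hder : ∀ x ∈ {x : ℂ | 0 < x.im}, HasDerivAt D 0 x := by
    intro x hx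
    have h1 := (hA ⟨x, hx⟩).sub (hB ⟨x, hx⟩)
    rw [sub_self] at h1
    exact h1
  have hdiff : DifferentiableOn ℂ D {x : ℂ | 0 < x.im} := fun x hx =>
    (hder x hx).differentiableAt.differentiableWithinAt
  have hderiv : Set.EqOn (deriv D) 0 {x : ℂ | 0 < x.im} := fun x hx => (hder x hx).deriv
  have := hopen.is_const_of_deriv_eq_zero hconn hdiff hderiv (x := (z : ℂ)) (y := (w : ℂ)) z.2 w.2
  simpa [hD, ofComplex_apply] using this

section CuspFormFacts

variable {N : ℕ} [NeZero N] (f : CuspForm (Gamma0 N) 2) (δ : SL(2, ℤ))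

omit [NeZero N] in
/-- `f ∣[2] δ` is holomorphic. -/
theorem mdiff_slash : MDiff ((f : ℍ → ℂ) ∣[(2 : ℤ)] δ) := by
  rw [← CuspForm.coe_translate f δ]
  exact CuspFormClass.holo _

/-- `f ∣[2] δ` vanishes at `i∞`. -/
theorem isZeroAtImInfty_slash : IsZeroAtImInfty ((f : ℍ → ℂ) ∣[(2 : ℤ)] δ) :=
  CuspFormClass.zero_at_infty_slash f δ

/-- There is a common positive integer period for all `f ∣[2] δ`. -/
theorem exists_period_slash :
    ∃ M : ℕ, 0 < M ∧ ∀ δ : SL(2, ℤ), Periodic (((f : ℍ → ℂ) ∣[(2 : ℤ)] δ) ∘ ofComplex) (M : ℝ) := by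
  obtain ⟨M, hM, hper⟩ := Subgroup.IsArithmetic.exists_nat_mem_strictPeriods_conj
    ((Gamma0 N : Subgroup SL(2, ℤ)) : Subgroup (GL (Fin 2) ℝ))
  refine ⟨M, hM, fun δ => ?_⟩
  have h1 := hper δ⁻¹
  rw [_root_.map_inv] at h1
  have h2 := SlashInvariantFormClass.periodic_comp_ofComplex
    (CuspForm.translate f (δ : GL (Fin 2) ℝ)) h1
  rw [CuspForm.coe_translate f δ] at h2
  exact_mod_cast h2

end CuspFormFacts

/-- Packaged one-step primitive on `ℍ`: derivative `g`, limit `0` at `i∞`. -/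
theorem exists_primitive_tendsto_zero {g : ℍ → ℂ} {h : ℝ} (hh : 0 < h)
    (hper : Periodic (g ∘ ofComplex) h) (hhol : MDiff g) (hzero : IsZeroAtImInfty g) :
    ∃ G : ℍ → ℂ, (∀ τ : ℍ, HasDerivAt (G ∘ ofComplex) (g τ) ↑τ) ∧
      Tendsto G atImInfty (𝓝 0) := by
  obtain ⟨Ψ, hΨd, hΨ0, hΨ⟩ := exists_disc_primitive hh hper hhol hzero
  refine ⟨fun τ => (h / (2 * Real.pi * _root_.Complex.I)) * Ψ (Periodic.qParam h ↑τ), fun τ => ?_, ?_⟩
  · exact (hΨ τ).congr_of_eventuallyEq
      (comp_ofComplex_eventuallyEq (P := fun z : ℂ => (h / (2 * Real.pi * _root_.Complex.I)) *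
        Ψ (Periodic.qParam h z)) (fun _ => rfl) τ)
  · have hcont : ContinuousAt Ψ 0 :=
      (hΨd.differentiableAt (Metric.ball_mem_nhds 0 one_pos)).continuousAt
    have h1 : Tendsto (fun τ : ℍ => Ψ (Periodic.qParam h ↑τ)) atImInfty (𝓝 (Ψ 0)) :=
      hcont.tendsto.comp (qParam_tendsto_atImInfty hh)
    rw [hΨ0] at h1
    simpa using h1.const_mul (h / (2 * Real.pi * _root_.Complex.I) : ℂ)

section Main

variable {N : ℕ} [NeZero N] (f : CuspForm (Gamma0 N) 2)

omit [NeZero N] in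
theorem slash_eq_self_of_mem (γ : Gamma0 N) :
    ((f : ℍ → ℂ) ∣[(2 : ℤ)] (γ : SL(2, ℤ))) = f := by
  have hmem : ((γ : SL(2, ℤ)) : GL (Fin 2) ℝ) ∈
      ((Gamma0 N : Subgroup SL(2, ℤ)) : Subgroup (GL (Fin 2) ℝ)) :=
    Subgroup.mem_map_of_mem _ γ.2
  exact SlashInvariantForm.slash_action_eqn f _ hmem

/-- **Piece A1**: every weight-2 cusp form on `Γ₀(N)` has an equivariant primitive. -/
theorem exists_hasEquivariantPrimitive : ∃ F : ℍ → ℂ, HasEquivariantPrimitive N f F := by
  obtain ⟨M, hM, hper⟩ := exists_period_slash f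
  have hMpos : (0 : ℝ) < (M : ℝ) := by exact_mod_cast hM
  -- primitive of `f = f ∣[2] 1`
  have hone : ((f : ℍ → ℂ) ∣[(2 : ℤ)] (1 : SL(2, ℤ))) = f := by
    rw [SlashAction.slash_one]
  obtain ⟨F, hFd, hF0⟩ := exists_primitive_tendsto_zero hMpos (hper 1)
    (mdiff_slash f 1) (isZeroAtImInfty_slash f 1)
  have hFd' : ∀ τ : ℍ, HasDerivAt (F ∘ ofComplex) (f τ) ↑τ := by
    intro τ; have := hFd τ; rwa [hone] at this
  refine ⟨F, hFd', hF0, ?_, ?_⟩
  · intro γ
    refine ⟨F ((γ : SL(2, ℤ)) • UpperHalfPlane.I) - F UpperHalfPlane.I, fun z => ?_⟩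
    have hγ : ∀ τ : ℍ, HasDerivAt ((fun w : ℍ => F ((γ : SL(2, ℤ)) • w)) ∘ ofComplex) (f τ) ↑τ := by
      intro τ
      have := hasDerivAt_comp_smul hFd' (γ : SL(2, ℤ)) τ
      rwa [slash_eq_self_of_mem f γ] at this
    exact sub_const_of_hasDerivAt hγ hFd' z UpperHalfPlane.I
  · intro δ
    obtain ⟨G, hGd, hG0⟩ := exists_primitive_tendsto_zero hMpos (hper δ)
      (mdiff_slash f δ) (isZeroAtImInfty_slash f δ)
    have hδ : ∀ τ : ℍ, HasDerivAt ((fun w : ℍ => F (δ • w)) ∘ ofComplex)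
        (((f : ℍ → ℂ) ∣[(2 : ℤ)] δ) τ) ↑τ := fun τ => hasDerivAt_comp_smul hFd' δ τ
    set c : ℂ := F (δ • UpperHalfPlane.I) - G UpperHalfPlane.I with hc
    refine ⟨c, ?_⟩
    have hEq : (fun w : ℍ => F (δ • w)) = fun w => G w + c := by
      funext w
      have := sub_const_of_hasDerivAt hδ hGd w UpperHalfPlane.I
      rw [hc, ← this]; ring
    rw [hEq]
    simpa using hG0.add_const c

variable {f}

omit [NeZero N] in
/-- **Piece A2 (uniqueness)**. -/
theorem hasEquivariantPrimitive_unique {F G : ℍ → ℂ} (hF : HasEquivariantPrimitive N f F)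
    (hG : HasEquivariantPrimitive N f G) : F = G := by
  funext z
  have hconst : ∀ w : ℍ, F w - G w = F z - G z := fun w =>
    sub_const_of_hasDerivAt hF.1 hG.1 w z
  have h1 : Tendsto (fun w : ℍ => F w - G w) atImInfty (𝓝 (0 - 0)) := hF.2.1.sub hG.2.1
  have h2 : Tendsto (fun w : ℍ => F w - G w) atImInfty (𝓝 (F z - G z)) := by
    have : (fun w : ℍ => F w - G w) = fun _ => F z - G z := funext hconst
    rw [this]; exact tendsto_const_nhds
  have := tendsto_nhds_unique h1 h2
  rw [sub_zero] at this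
  exact sub_eq_zero.mp this.symm

omit [NeZero N] in
/-- **Piece A2 (formula)**: the period map is computed by any equivariant primitive. -/
theorem periodMap_apply {F : ℍ → ℂ} (hF : HasEquivariantPrimitive N f F) (γ : Gamma0 N)
    (z : ℍ) : periodMap N f (Additive.ofMul γ) = F ((γ : SL(2, ℤ)) • z) - F z := by
  obtain ⟨F₀, h₀, hP⟩ := periodMap_def N f hF
  have hFF : F₀ = F := hasEquivariantPrimitive_unique h₀ hF
  subst hFF
  rw [hP, IsEquivariantPrimitive.periodHom_apply, ← h₀.2.2.1.sub_eq_period γ z]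

omit [NeZero N] in
theorem hasEquivariantPrimitive_add {f g : CuspForm (Gamma0 N) 2} {F G : ℍ → ℂ}
    (hF : HasEquivariantPrimitive N f F) (hG : HasEquivariantPrimitive N g G) :
    HasEquivariantPrimitive N (f + g) (F + G) := by
  refine ⟨fun τ => ?_, ?_, fun γ => ?_, fun δ => ?_⟩
  · have := (hF.1 τ).add (hG.1 τ)
    exact this
  · have h := hF.2.1.add hG.2.1
    rw [add_zero] at h
    exact h
  · obtain ⟨c, hc⟩ := hF.2.2.1 γ
    obtain ⟨d, hd⟩ := hG.2.2.1 γ
    refine ⟨c + d, fun z => ?_⟩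
    simp only [Pi.add_apply]
    rw [← hc z, ← hd z]; ring
  · obtain ⟨L, hL⟩ := hF.2.2.2 δ
    obtain ⟨L', hL'⟩ := hG.2.2.2 δ
    exact ⟨L + L', hL.add hL'⟩

omit [NeZero N] in
theorem hasEquivariantPrimitive_smul {f : CuspForm (Gamma0 N) 2} {F : ℍ → ℂ} (a : ℂ)
    (hF : HasEquivariantPrimitive N f F) :
    HasEquivariantPrimitive N (a • f) (a • F) := by
  refine ⟨fun τ => ?_, ?_, fun γ => ?_, fun δ => ?_⟩
  · have := (hF.1 τ).const_smul a
    exact this
  · have h := hF.2.1.const_smul a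
    rw [smul_zero] at h
    exact h
  · obtain ⟨c, hc⟩ := hF.2.2.1 γ
    refine ⟨a * c, fun z => ?_⟩
    simp only [Pi.smul_apply, smul_eq_mul]
    rw [← hc z]; ring
  · obtain ⟨L, hL⟩ := hF.2.2.2 δ
    exact ⟨a • L, hL.const_smul a⟩

theorem periodMap_add (f g : CuspForm (Gamma0 N) 2) :
    periodMap N (f + g) = periodMap N f + periodMap N g := by
  obtain ⟨F, hF⟩ := exists_hasEquivariantPrimitive f
  obtain ⟨G, hG⟩ := exists_hasEquivariantPrimitive g
  refine AddMonoidHom.ext fun γ => ?_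
  obtain ⟨γ, rfl⟩ : ∃ γ' : Gamma0 N, Additive.ofMul γ' = γ := ⟨Additive.toMul γ, rfl⟩
  rw [AddMonoidHom.add_apply, periodMap_apply (hasEquivariantPrimitive_add hF hG) γ UpperHalfPlane.I,
    periodMap_apply hF γ UpperHalfPlane.I, periodMap_apply hG γ UpperHalfPlane.I]
  simp only [Pi.add_apply]; ring

theorem periodMap_smul (a : ℂ) (f : CuspForm (Gamma0 N) 2) :
    periodMap N (a • f) = a • periodMap N f := by
  obtain ⟨F, hF⟩ := exists_hasEquivariantPrimitive f
  refine AddMonoidHom.ext fun γ => ?_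
  obtain ⟨γ, rfl⟩ : ∃ γ' : Gamma0 N, Additive.ofMul γ' = γ := ⟨Additive.toMul γ, rfl⟩
  rw [AddMonoidHom.smul_apply, periodMap_apply (hasEquivariantPrimitive_smul a hF) γ UpperHalfPlane.I,
    periodMap_apply hF γ UpperHalfPlane.I]
  simp only [Pi.smul_apply, smul_eq_mul]; ring

variable (N) in
/-- The period map as a `ℂ`-linear map. -/
noncomputable def periodMapLin : CuspForm (Gamma0 N) 2 →ₗ[ℂ] (Additive (Gamma0 N) →+ ℂ) where
  toFun := periodMap N
  map_add' := periodMap_add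
  map_smul' := periodMap_smul

@[simp] theorem periodMapLin_apply (f : CuspForm (Gamma0 N) 2) :
    periodMapLin N f = periodMap N f := rfl

variable (N) in
/-- **Piece A3**: the period map is linear. -/
theorem existsPeriodMapLinear : ExistsPeriodMapLinear N :=
  ⟨periodMapLin N, fun _ => rfl⟩

variable (N) in
/-- Unfolding of `periodHomPair`. -/
theorem periodHomPair_eq :
    periodHomPair N = LinearMap.coprod
      ((LinearMap.id + charInvolution N ℂ ℂ) ∘ₗ periodMapLin N)
      ((LinearMap.id - charInvolution N ℂ ℂ) ∘ₗ periodMapLin N) := by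
  obtain ⟨pml, hpml, h⟩ := periodHomPair_def N (existsPeriodMapLinear N)
  have : pml = periodMapLin N := LinearMap.ext fun f => by rw [hpml, periodMapLin_apply]
  rw [h, this]

theorem periodHomPair_apply (f g : CuspForm (Gamma0 N) 2) :
    periodHomPair N (f, g) = (periodMap N f + charInvolution N ℂ ℂ (periodMap N f))
      + (periodMap N g - charInvolution N ℂ ℂ (periodMap N g)) := by
  rw [periodHomPair_eq]
  simp [LinearMap.coprod_apply]

end Main

end Fermat.Agent.S21.H381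

end
-- ===== PACK-END S21/H381/PeriodMap.lean

-- ===== PACK-BEGIN S28/H565/EulerProd.lean
section




/-!
# S28 analytic bridge, part 2: the Euler product (helper565)

We show that the formal power series `ModularCurve.etaProd = ∏ (1 - X^(n+1))` of the Prelude
(defined as a `tprod` in the Pi-topology on `ℤ⟦X⟧`) is the Taylor expansion of the analytic
function `q ↦ ∏' (1 - q^(n+1))` on the unit disc.
-/

set_option autoImplicit false

noncomputable section

open Complex Function Filter Topology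
open scoped Real PowerSeries.WithPiTopology

namespace Fermat.Agent.S28.H565

/-- Taylor coefficients at a point are continuous for locally uniform convergence of
holomorphic functions. -/
theorem tendsto_iteratedDeriv_of_tendstoLocallyUniformlyOn {U : Set ℂ} (hU : IsOpen U)
    (k : ℕ) : ∀ {F : ℕ → ℂ → ℂ} {G : ℂ → ℂ}, (∀ n, DifferentiableOn ℂ (F n) U) →
    TendstoLocallyUniformlyOn F G atTop U → ∀ {z : ℂ}, z ∈ U →
    Tendsto (fun n => iteratedDeriv k (F n) z) atTop (𝓝 (iteratedDeriv k G z)) := by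
  induction k with
  | zero =>
    intro F G _ hFG z hz
    simpa [iteratedDeriv_zero] using hFG.tendsto_at hz
  | succ k ih =>
    intro F G hF hFG z hz
    simp only [iteratedDeriv_succ']
    exact ih (F := fun n => deriv (F n)) (G := deriv G) (fun n => (hF n).deriv hU)
      (hFG.deriv (.of_forall hF) hU) hz

/-- Taylor coefficients of a polynomial function. -/
theorem iteratedDeriv_polynomial_eval_zero (P : Polynomial ℂ) (k : ℕ) :
    iteratedDeriv k (fun q => P.eval q) 0 = (k.factorial : ℂ) * P.coeff k := by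
  have h1 : ∀ (k : ℕ) (P : Polynomial ℂ), deriv^[k] (fun q => P.eval q) =
      fun q => ((⇑Polynomial.derivative)^[k] P).eval q := by
    intro k
    induction k with
    | zero => intro P; rfl
    | succ k ih =>
      intro P
      rw [Function.iterate_succ_apply', ih, Function.iterate_succ_apply']
      funext x
      exact Polynomial.deriv _
  rw [iteratedDeriv_eq_iterate, h1]
  simp only
  rw [← Polynomial.coeff_zero_eq_eval_zero, Polynomial.coeff_iterate_derivative, zero_add,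
    Nat.descFactorial_self, nsmul_eq_mul]

/-- The partial Euler products as complex polynomials. -/
def eulerPoly (M : ℕ) : Polynomial ℂ := ∏ n ∈ Finset.range M, (1 - Polynomial.X ^ (n + 1))

theorem eulerPoly_eval (M : ℕ) (q : ℂ) :
    (eulerPoly M).eval q = ∏ n ∈ Finset.range M, (1 - q ^ (n + 1)) := by
  simp [eulerPoly, Polynomial.eval_prod]

theorem eulerPoly_coeff (M k : ℕ) :
    (eulerPoly M).coeff k =
      ((PowerSeries.coeff k (∏ n ∈ Finset.range M, (1 - PowerSeries.X ^ (n + 1)) :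
        PowerSeries ℤ) : ℤ) : ℂ) := by
  have h1 : ((eulerPoly M : Polynomial ℂ) : PowerSeries ℂ) =
      PowerSeries.map (Int.castRingHom ℂ)
        (∏ n ∈ Finset.range M, (1 - PowerSeries.X ^ (n + 1)) : PowerSeries ℤ) := by
    rw [eulerPoly, ← Polynomial.coeToPowerSeries.ringHom_apply, _root_.map_prod, _root_.map_prod]
    refine Finset.prod_congr rfl fun n _ => ?_
    simp
  rw [← Polynomial.coeff_coe, h1, PowerSeries.coeff_map]
  rfl

/-- Coefficientwise convergence of the formal partial products to `etaProd`. -/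
theorem tendsto_coeff_partial_etaProd (k : ℕ) :
    Tendsto (fun M => ((PowerSeries.coeff k (∏ n ∈ Finset.range M,
      (1 - PowerSeries.X ^ (n + 1)) : PowerSeries ℤ) : ℤ) : ℂ)) atTop
      (𝓝 ((PowerSeries.coeff k ModularCurve.etaProd : ℤ) : ℂ)) := by
  have h1 : HasProd (fun n : ℕ => (1 - PowerSeries.X ^ (n + 1) : PowerSeries ℤ))
      ModularCurve.etaProd :=
    (PowerSeries.WithPiTopology.multipliable_one_sub_X_pow ℤ).hasProd
  have h2 := h1.tendsto_prod_nat
  have h3 := ((PowerSeries.WithPiTopology.continuous_coeff ℤ k).tendsto _).comp h2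
  have h4 : Continuous (fun n : ℤ => (n : ℂ)) := continuous_of_discreteTopology
  exact (h4.tendsto _).comp h3

/-- The Euler function on the unit disc. -/
def eulerFun (q : ℂ) : ℂ := ∏' n : ℕ, (1 - q ^ (n + 1))

theorem differentiableOn_eulerFun : DifferentiableOn ℂ eulerFun (Metric.ball 0 1) :=
  ModularForm.differentiableOn_tprod_one_sub_pow

theorem tendstoLocallyUniformlyOn_eulerPoly :
    TendstoLocallyUniformlyOn (fun M q => (eulerPoly M).eval q) eulerFun atTop
      (Metric.ball 0 1) := by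
  have h := ModularForm.multipliableLocallyUniformlyOn_one_sub_pow.hasProdLocallyUniformlyOn
  have h2 := h.tendstoLocallyUniformlyOn_finsetRange
  refine h2.congr ?_ |>.congr_right ?_
  · intro M q _
    simp [eulerPoly_eval]
  · intro q _
    rfl

/-- The complex version of the formal Euler product. -/
def etaProdC : PowerSeries ℂ := PowerSeries.map (Int.castRingHom ℂ) ModularCurve.etaProd

theorem taylor_eulerFun (k : ℕ) :
    (k.factorial : ℂ)⁻¹ * iteratedDeriv k eulerFun 0 = PowerSeries.coeff k etaProdC := by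
  have h0 : (0 : ℂ) ∈ Metric.ball (0 : ℂ) 1 := Metric.mem_ball_self one_pos
  have h1 := tendsto_iteratedDeriv_of_tendstoLocallyUniformlyOn Metric.isOpen_ball k
    (F := fun M q => (eulerPoly M).eval q) (G := eulerFun)
    (fun M => (Polynomial.differentiable _).differentiableOn)
    tendstoLocallyUniformlyOn_eulerPoly h0
  have h2 : Tendsto (fun M => (k.factorial : ℂ)⁻¹ * iteratedDeriv k
      (fun q => (eulerPoly M).eval q) 0) atTop
      (𝓝 ((k.factorial : ℂ)⁻¹ * iteratedDeriv k eulerFun 0)) := h1.const_mul _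
  have h3 : (fun M => (k.factorial : ℂ)⁻¹ * iteratedDeriv k
      (fun q => (eulerPoly M).eval q) 0) = fun M =>
      ((PowerSeries.coeff k (∏ n ∈ Finset.range M,
      (1 - PowerSeries.X ^ (n + 1)) : PowerSeries ℤ) : ℤ) : ℂ) := by
    funext M
    rw [iteratedDeriv_polynomial_eval_zero, eulerPoly_coeff, ← mul_assoc,
      inv_mul_cancel₀ (by exact_mod_cast Nat.factorial_ne_zero k), one_mul]
  rw [h3] at h2
  have h4 := tendsto_nhds_unique h2 (tendsto_coeff_partial_etaProd k)
  rw [h4, etaProdC, PowerSeries.coeff_map]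
  rfl

/-- **Euler product bridge**: the formal Euler product is the Taylor series of the analytic
Euler product on the unit disc. -/
theorem hasSum_etaProdC {q : ℂ} (hq : ‖q‖ < 1) :
    HasSum (fun k : ℕ => PowerSeries.coeff k etaProdC * q ^ k) (eulerFun q) := by
  have hq' : q ∈ Metric.ball (0 : ℂ) 1 := by simpa using hq
  have := hasSum_taylorSeries_on_ball differentiableOn_eulerFun hq'
  refine this.congr_fun ?_ |>.mono_left le_rfl
  intro k
  rw [← taylor_eulerFun]
  simp only [sub_zero, smul_eq_mul]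
  ring

end Fermat.Agent.S28.H565

end
end
-- ===== PACK-END S28/H565/EulerProd.lean

-- ===== PACK-BEGIN S29/H152/DescInt.lean
section
/-
S29 / DESC (helper152) — part 6: integrality lemmas.  Mathlib-only.
-/



set_option autoImplicit false

namespace Fermat.Agent.S29.H152

open Polynomial

variable {C : Type*} [Field C]

/-- A root of a monic polynomial with coefficients in a subalgebra is integral over it. -/
theorem descInt_isIntegral_of_poly {A : Type*} [CommRing A] [Algebra C A] (S : Subalgebra C A)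
    (Q : A[X]) (hQ : Q.Monic) (hc : ∀ i, Q.coeff i ∈ S) {x : A} (hx : Q.eval x = 0) :
    IsIntegral S x := by
  have hl : Q ∈ Polynomial.lifts (algebraMap S A) := by
    rw [Polynomial.lifts_iff_coeff_lifts]
    intro n
    exact ⟨⟨Q.coeff n, hc n⟩, rfl⟩
  obtain ⟨q, hq, -, hqm⟩ := Polynomial.lifts_and_natDegree_eq_and_monic hl hQ
  refine ⟨q, hqm, ?_⟩
  rw [← Polynomial.eval_map, hq]
  exact hx

/-- Converse: an integral element is a root of a monic polynomial with coefficients in `S`. -/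
theorem descInt_exists_poly {A : Type*} [CommRing A] [Algebra C A] (S : Subalgebra C A)
    {x : A} (hx : IsIntegral S x) :
    ∃ Q : A[X], Q.Monic ∧ (∀ i, Q.coeff i ∈ S) ∧ Q.eval x = 0 := by
  obtain ⟨P, hP, hPx⟩ := hx
  refine ⟨P.map (algebraMap S A), hP.map _, fun i => ?_, ?_⟩
  · rw [Polynomial.coeff_map]
    exact (P.coeff i).2
  · rw [Polynomial.eval_map]
    exact hPx

/-- Ring endomorphisms preserving a subalgebra (as a set) preserve integrality over it. -/
theorem descInt_isIntegral_map {A : Type*} [CommRing A] [Algebra C A] (S : Subalgebra C A)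
    (Φ : A →+* A) (hS : ∀ x ∈ S, Φ x ∈ S) {x : A} (hx : IsIntegral S x) :
    IsIntegral S (Φ x) := by
  obtain ⟨Q, hQ, hc, hQx⟩ := descInt_exists_poly S hx
  refine descInt_isIntegral_of_poly S (Q.map Φ) (hQ.map _) (fun i => ?_) ?_
  · rw [Polynomial.coeff_map]
    exact hS _ (hc i)
  · rw [Polynomial.eval_map, Polynomial.eval₂_hom, hQx, _root_.map_zero]

/-- A ring endomorphism fixing `s` and mapping constants to constants preserves `C[s]`. -/
theorem descInt_map_mem_adjoin {A : Type*} [CommRing A] [Algebra C A] (Φ : A →+* A) (s : A)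
    (hs : Φ s = s) (hconst : ∀ c : C, ∃ c' : C, Φ (algebraMap C A c) = algebraMap C A c')
    {x : A} (hx : x ∈ Algebra.adjoin C {s}) : Φ x ∈ Algebra.adjoin C {s} := by
  induction hx using Algebra.adjoin_induction with
  | mem y hy =>
    rw [Set.mem_singleton_iff] at hy
    rw [hy, hs]
    exact Algebra.self_mem_adjoin_singleton C s
  | algebraMap c =>
    obtain ⟨c', hc'⟩ := hconst c
    rw [hc']
    exact Subalgebra.algebraMap_mem _ _
  | add x y _ _ hx hy =>
    rw [_root_.map_add]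
    exact Subalgebra.add_mem _ hx hy
  | mul x y _ _ hx hy =>
    rw [_root_.map_mul]
    exact Subalgebra.mul_mem _ hx hy

/-- An element integral over `C[j]` becomes integral over `C[j⁻¹]` after multiplication by a
power of `j⁻¹`. -/
theorem descInt_exists_pow {j : LaurentSeries C} (hj : j.order = -1) {y : LaurentSeries C}
    (hy : IsIntegral (Algebra.adjoin C {j}) y) :
    ∃ M : ℕ, IsIntegral (Algebra.adjoin C {j⁻¹}) (y * j⁻¹ ^ M) := by
  classical
  obtain ⟨P, hP, hc, hPy⟩ := descInt_exists_poly _ hy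
  choose D hD using fun i => descBound_mul_inv_pow_mem hj (hc i)
  set d := P.natDegree with hd
  set M := (Finset.range (d + 1)).sup D with hM
  have hDM : ∀ i, i ≤ d → D i ≤ M := fun i hi =>
    Finset.le_sup (f := D) (Finset.mem_range.mpr (Nat.lt_succ_of_le hi))
  refine ⟨M, descInt_isIntegral_of_poly _ (P.scaleRoots (j⁻¹ ^ M))
    ((monic_scaleRoots_iff _).mpr hP) (fun i => ?_) ?_⟩
  · rw [coeff_scaleRoots, ← hd]
    rcases lt_trichotomy i d with hi | hi | hi
    · rw [← pow_mul]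
      refine hD i _ ((hDM i hi.le).trans ?_)
      exact Nat.le_mul_of_pos_right M (Nat.sub_pos_of_lt hi)
    · rw [hi, Nat.sub_self, pow_zero, mul_one, hd, hP.coeff_natDegree]
      exact Subalgebra.one_mem _
    · rw [Polynomial.coeff_eq_zero_of_natDegree_lt (hd ▸ hi), zero_mul]
      exact Subalgebra.zero_mem _
  · rw [mul_comm, scaleRoots_eval_mul, hPy, mul_zero]

/-- In a field extension of an algebraically closed field, algebraic elements are constants. -/
theorem descInt_mem_range_of_isIntegral {Ω A : Type*} [Field Ω] [IsAlgClosed Ω] [Field A]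
    [Algebra Ω A] {x : A} (hx : IsIntegral Ω x) : x ∈ Set.range (algebraMap Ω A) := by
  have hdeg : (minpoly Ω x).degree = 1 :=
    IsAlgClosed.degree_eq_one_of_irreducible Ω (minpoly.irreducible hx)
  exact minpoly.mem_range_of_degree_eq_one Ω x hdeg

/-- Roots of unity in a field extension of an algebraically closed field are constants. -/
theorem descInt_mem_range_of_pow_eq_one {Ω A : Type*} [Field Ω] [IsAlgClosed Ω] [Field A]
    [Algebra Ω A] {x : A} {p : ℕ} (hp : 0 < p) (hx : x ^ p = 1) :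
    x ∈ Set.range (algebraMap Ω A) := by
  apply descInt_mem_range_of_isIntegral
  refine IsIntegral.of_pow hp ?_
  rw [hx]
  exact isIntegral_one

end Fermat.Agent.S29.H152

end
-- ===== PACK-END S29/H152/DescInt.lean

-- ===== PACK-BEGIN S29/H751/PthRoot.lean
section


set_option autoImplicit false

open Complex Set Metric Filter Topology

namespace Fermat.Agent.S29.H751

/-- Uniqueness of normalised `p`-th roots on a preconnected open set. -/
theorem eqOn_of_pow_eq_of_eq {U : Set ℂ} (hU : IsOpen U) (hUc : IsPreconnected U)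
    {u v : ℂ → ℂ} (hu : DifferentiableOn ℂ u U) (hv : DifferentiableOn ℂ v U) {p : ℕ}
    (hp : p ≠ 0) (huv : ∀ z ∈ U, u z ^ p = v z ^ p) {z₀ : ℂ} (hz₀ : z₀ ∈ U)
    (h0 : u z₀ = v z₀) (hne : u z₀ ≠ 0) : EqOn u v U := by
  have hua := hu.analyticOnNhd hU
  have hva := hv.analyticOnNhd hU
  refine hua.eqOn_of_preconnected_of_eventuallyEq hva hUc hz₀ ?_
  -- the cofactor `∑ u^i v^(p-1-i)` is nonzero near `z₀`
  set S : ℂ → ℂ := fun z => ∑ i ∈ Finset.range p, u z ^ i * v z ^ (p - 1 - i) with hS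
  have hScont : ContinuousAt S z₀ := by
    have hcu : ContinuousAt u z₀ := (hua z₀ hz₀).continuousAt
    have hcv : ContinuousAt v z₀ := (hva z₀ hz₀).continuousAt
    rw [hS]
    exact tendsto_finsetSum _ fun i _ => (hcu.pow i).mul (hcv.pow _)
  have hS0 : S z₀ ≠ 0 := by
    have : S z₀ = p * u z₀ ^ (p - 1) := by
      simp only [hS, ← h0]
      rw [Finset.sum_congr rfl (fun i hi => by
        rw [← pow_add, Nat.add_sub_of_le (Nat.le_sub_one_of_lt (Finset.mem_range.1 hi))]),
        Finset.sum_const, Finset.card_range, nsmul_eq_mul]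
    rw [this]
    exact mul_ne_zero (Nat.cast_ne_zero.2 hp) (pow_ne_zero _ hne)
  have h1 : ∀ᶠ z in 𝓝 z₀, S z ≠ 0 := hScont.eventually_ne hS0
  have h2 : ∀ᶠ z in 𝓝 z₀, z ∈ U := hU.mem_nhds hz₀
  filter_upwards [h1, h2] with z hz1 hz2
  have h3 : S z * (u z - v z) = u z ^ p - v z ^ p := by
    simp only [hS]
    exact (Commute.all (u z) (v z)).geom_sum₂_mul p
  rw [huv z hz2, sub_self] at h3
  rcases mul_eq_zero.1 h3 with h | h
  · exact absurd h hz1
  · exact sub_eq_zero.1 h

/-- For two points of the upper half plane there is a disc containing both whose closure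
is contained in the upper half plane. -/
theorem exists_ball_upperHalfPlane {z₀ z : ℂ} (hz₀ : 0 < z₀.im) (hz : 0 < z.im) :
    ∃ (c : ℂ) (r : ℝ), z₀ ∈ ball c r ∧ z ∈ ball c r ∧ closedBall c r ⊆ {w : ℂ | 0 < w.im} := by
  set δ : ℝ := min z.im z₀.im / 2 with hδ
  have hδ0 : 0 < δ := by rw [hδ]; have := lt_min hz hz₀; linarith
  have hδz : δ < z.im := by
    rw [hδ]; have := min_le_left z.im z₀.im; linarith
  have hδz₀ : δ < z₀.im := by
    rw [hδ]; have := min_le_right z.im z₀.im; linarith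
  set d : ℝ := (z.re - z₀.re) ^ 2 with hd
  have hd0 : 0 ≤ d := sq_nonneg _
  set R : ℝ := z.im + z₀.im + d / δ with hR
  have hdδ : 0 ≤ d / δ := div_nonneg hd0 hδ0.le
  have hRδ : 0 < R - δ := by rw [hR]; linarith
  refine ⟨⟨z₀.re, R⟩, R - δ, ?_, ?_, ?_⟩
  · rw [mem_ball, dist_eq_norm]
    have : z₀ - (⟨z₀.re, R⟩ : ℂ) = ⟨0, z₀.im - R⟩ := by
      apply Complex.ext <;> simp
    rw [this]
    have h2 : ‖(⟨0, z₀.im - R⟩ : ℂ)‖ = |z₀.im - R| := by
      rw [Complex.norm_def, Complex.normSq_mk]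
      simp [← sq, Real.sqrt_sq_eq_abs]
    rw [h2, abs_lt]
    constructor <;> rw [hR] <;> linarith
  · rw [mem_ball, dist_eq_norm]
    have : z - (⟨z₀.re, R⟩ : ℂ) = ⟨z.re - z₀.re, z.im - R⟩ := by
      apply Complex.ext <;> simp
    rw [this]
    apply lt_of_pow_lt_pow_left₀ 2 hRδ.le
    rw [Complex.sq_norm, Complex.normSq_mk]
    have key : d < (z.im - δ) * (2 * R - δ - z.im) := by
      have h1 : δ * (2 * (d / δ)) = 2 * d := by field_simp
      have h2 : 0 < z.im - δ := by linarith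
      have h3 : 2 * (d / δ) < 2 * R - δ - z.im := by rw [hR]; linarith
      have h4 : δ ≤ z.im - δ := by
        rw [hδ]; have := min_le_left z.im z₀.im; linarith
      calc d ≤ 2 * d := by linarith
        _ = δ * (2 * (d / δ)) := h1.symm
        _ ≤ (z.im - δ) * (2 * (d / δ)) := by
            apply mul_le_mul_of_nonneg_right h4; linarith
        _ < (z.im - δ) * (2 * R - δ - z.im) := by
            apply mul_lt_mul_of_pos_left h3 h2
    nlinarith [key]
  · intro w hw
    rw [mem_closedBall, dist_eq_norm] at hw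
    have h1 : |(w - (⟨z₀.re, R⟩ : ℂ)).im| ≤ ‖w - (⟨z₀.re, R⟩ : ℂ)‖ := Complex.abs_im_le_norm _
    have h2 : (w - (⟨z₀.re, R⟩ : ℂ)).im = w.im - R := by simp
    rw [h2] at h1
    have h3 := (abs_le.1 (h1.trans hw)).1
    show 0 < w.im
    linarith


/-- **Holomorphic `p`-th roots on the upper half plane.**  A holomorphic function on the upper
half plane all of whose orders of vanishing are finite and divisible by `p` is the `p`-th power
of a holomorphic function. -/
theorem exists_pow_eq_on_upperHalfPlane {G : ℂ → ℂ} (p : ℕ) (hp : p ≠ 0)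
    (hG : DifferentiableOn ℂ G {z : ℂ | 0 < z.im})
    (hord : ∀ z : ℂ, 0 < z.im → ∃ m : ℕ, analyticOrderAt G z = ((p * m : ℕ) : ℕ∞)) :
    ∃ u : ℂ → ℂ, DifferentiableOn ℂ u {z : ℂ | 0 < z.im} ∧
      ∀ z : ℂ, 0 < z.im → u z ^ p = G z := by
  classical
  set H : Set ℂ := {z : ℂ | 0 < z.im} with hH
  have hHo : IsOpen H := isOpen_lt continuous_const Complex.continuous_im
  have hGa : AnalyticOnNhd ℂ G H := hG.analyticOnNhd hHo
  -- a base point where `G` does not vanish
  obtain ⟨z₀, hz₀, hGz₀⟩ : ∃ z₀ ∈ H, G z₀ ≠ 0 := by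
    have hI : (0 : ℝ) < Complex.I.im := by simp
    obtain ⟨m, hm⟩ := hord Complex.I hI
    have hnt : analyticOrderAt G Complex.I ≠ ⊤ := by rw [hm]; exact ENat.natCast_ne_top _
    rw [Ne, analyticOrderAt_eq_top] at hnt
    have h1 : ∃ᶠ z in 𝓝 Complex.I, G z ≠ 0 := by
      rw [Filter.Frequently]
      intro h
      apply hnt
      filter_upwards [h] with z hz
      exact not_not.1 hz
    have h2 : ∀ᶠ z in 𝓝 Complex.I, z ∈ H := hHo.mem_nhds hI
    obtain ⟨z, hz1, hz2⟩ := (h1.and_eventually h2).exists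
    exact ⟨z, hz2, hz1⟩
  obtain ⟨w₀, hw₀⟩ := IsAlgClosed.exists_pow_nat_eq (G z₀) (Nat.pos_of_ne_zero hp)
  have hw₀ne : w₀ ≠ 0 := by
    intro h
    rw [h, zero_pow hp] at hw₀
    exact hGz₀ hw₀.symm
  -- local normalised roots
  have key : ∀ z : ℂ, 0 < z.im → ∃ (c : ℂ) (r : ℝ) (v : ℂ → ℂ), z₀ ∈ ball c r ∧ z ∈ ball c r ∧
      closedBall c r ⊆ H ∧ DifferentiableOn ℂ v (ball c r) ∧ (∀ y ∈ ball c r, v y ^ p = G y) ∧
      v z₀ = w₀ := by
    intro z hz
    obtain ⟨c, r, h1, h2, h3⟩ := exists_ball_upperHalfPlane hz₀ hz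
    obtain ⟨v, hv, hvp⟩ := exists_pow_eq_on_ball (G := G) (c := c) (r := r) p hp (hGa.mono h3)
      (fun y hy => hord y (h3 hy))
    have hvz₀ : v z₀ ≠ 0 := by
      intro h
      have := hvp z₀ h1
      rw [h, zero_pow hp] at this
      exact hGz₀ this.symm
    refine ⟨c, r, fun y => (w₀ / v z₀) * v y, h1, h2, h3, ?_, ?_, ?_⟩
    · exact hv.const_mul _
    · intro y hy
      rw [mul_pow, div_pow, hw₀, hvp z₀ h1, hvp y hy, div_self hGz₀, one_mul]
    · field_simp
  choose! c r v hv1 hv2 hv3 hv4 hv5 hv6 using key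
  -- compatibility
  have compat : ∀ z z' : ℂ, 0 < z.im → 0 < z'.im →
      EqOn (v z) (v z') (ball (c z) (r z) ∩ ball (c z') (r z')) := by
    intro z z' hz hz'
    refine eqOn_of_pow_eq_of_eq (isOpen_ball.inter isOpen_ball)
      ((convex_ball _ _).inter (convex_ball _ _)).isPreconnected
      ((hv4 z hz).mono inter_subset_left) ((hv4 z' hz').mono inter_subset_right) hp ?_
      ⟨hv1 z hz, hv1 z' hz'⟩ ?_ ?_
    · intro y hy
      rw [hv5 z hz y hy.1, hv5 z' hz' y hy.2]
    · rw [hv6 z hz, hv6 z' hz']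
    · rw [hv6 z hz]; exact hw₀ne
  refine ⟨fun y => v y y, ?_, ?_⟩
  · intro z hz
    have hz' : 0 < z.im := hz
    have hev : (fun y => v y y) =ᶠ[𝓝 z] v z := by
      have hB : ball (c z) (r z) ∈ 𝓝 z := isOpen_ball.mem_nhds (hv2 z hz')
      filter_upwards [hB] with y hy
      have hy' : 0 < y.im := hv3 z hz' (ball_subset_closedBall hy)
      exact compat y z hy' hz' ⟨hv2 y hy', hy⟩
    have hd : DifferentiableAt ℂ (v z) z :=
      (hv4 z hz').differentiableAt (isOpen_ball.mem_nhds (hv2 z hz'))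
    exact (hev.differentiableAt_iff.2 hd).differentiableWithinAt
  · intro z hz
    exact hv5 z hz z (hv2 z hz)

end Fermat.Agent.S29.H751

end
-- ===== PACK-END S29/H751/PthRoot.lean

-- ===== PACK-BEGIN S29/H509/TwistedEis.lean
section


/-!
# Twisted Eisenstein series (helper509, S29 piece TES, file 2)

For a subgroup `Γ ≤ SL(2, ℤ)` and a unitary character `χ : Γ →* ℂˣ` which is trivial on the
upper unipotent elements of `Γ`, the twisted Eisenstein series
`twEis χ k z = ∑_{(c, d) bottom row of γ ∈ Γ} χ(γ)⁻¹ (c z + d) ^ (-k)`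
is holomorphic, satisfies `twEis χ k ∣[k] δ = χ δ • twEis χ k` for `δ ∈ Γ`, all its
`SL(2, ℤ)`-translates are bounded at `i∞`, and it is nonzero when `k` is even and `χ` is
trivial on all elements of `Γ` fixing `∞`.
-/

set_option autoImplicit false

namespace Fermat.Agent.S29.H509

open ModularForm UpperHalfPlane Matrix CongruenceSubgroup EisensteinSeries Filter Topology
open scoped MatrixGroups Manifold

noncomputable section

/-- The bottom row of a matrix in `SL(2, ℤ)`. -/
def botRow (γ : SL(2, ℤ)) : Fin 2 → ℤ := fun j => (γ : Matrix (Fin 2) (Fin 2) ℤ) 1 j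

lemma botRow_apply (γ : SL(2, ℤ)) (j : Fin 2) :
    botRow γ j = (γ : Matrix (Fin 2) (Fin 2) ℤ) 1 j := rfl

lemma botRow_one : botRow 1 = ![0, 1] := by
  ext j
  fin_cases j <;> simp [botRow]

lemma botRow_mul (a b : SL(2, ℤ)) :
    botRow (a * b) = botRow a ᵥ* (b : Matrix (Fin 2) (Fin 2) ℤ) := by
  ext j
  simp [botRow, Matrix.vecMul, dotProduct, Matrix.mul_apply]

lemma botRow_snd_of_fst_eq_zero (γ : SL(2, ℤ)) (h : botRow γ 0 = 0) :
    botRow γ 1 = 1 ∨ botRow γ 1 = -1 := by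
  have hdet := γ.det_coe
  rw [Matrix.det_fin_two] at hdet
  simp only [botRow_apply] at h ⊢
  rw [h, _root_.MulZeroClass.mul_zero, sub_zero] at hdet
  rcases Int.eq_one_or_neg_one_of_mul_eq_one' hdet with h1 | h1
  · exact Or.inl h1.2
  · exact Or.inr h1.2

lemma botRow_eq_of_fst_eq_zero (γ : SL(2, ℤ)) (h : botRow γ 0 = 0) :
    botRow γ = ![0, 1] ∨ botRow γ = ![0, -1] := by
  rcases botRow_snd_of_fst_eq_zero γ h with h1 | h1
  · left
    ext j
    fin_cases j <;> simp [h, h1]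
  · right
    ext j
    fin_cases j <;> simp [h, h1]

variable {Γ : Subgroup SL(2, ℤ)}

open Classical in
/-- The weight function attached to a character `χ` of `Γ`: `χ(γ)⁻¹` on the bottom row of
`γ ∈ Γ`, and `0` on vectors which are not bottom rows of elements of `Γ`. -/
def chiWeight (χ : Γ →* ℂˣ) (v : Fin 2 → ℤ) : ℂ :=
  if h : ∃ γ : Γ, botRow (γ : SL(2, ℤ)) = v then (((χ h.choose)⁻¹ : ℂˣ) : ℂ) else 0

/-- `χ` is trivial on the upper unipotent elements of `Γ`. -/
def TrivOnUnip (χ : Γ →* ℂˣ) : Prop :=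
  ∀ γ : Γ, botRow (γ : SL(2, ℤ)) = ![0, 1] → χ γ = 1

/-- `χ` is trivial on the elements of `Γ` fixing `∞`. -/
def TrivOnStabInfty (χ : Γ →* ℂˣ) : Prop :=
  ∀ γ : Γ, botRow (γ : SL(2, ℤ)) 0 = 0 → χ γ = 1

lemma TrivOnStabInfty.trivOnUnip {χ : Γ →* ℂˣ} (h : TrivOnStabInfty χ) : TrivOnUnip χ :=
  fun γ hγ => h γ (by simp [hγ])

lemma chi_eq_of_botRow_eq {χ : Γ →* ℂˣ} (hχ : TrivOnUnip χ) {γ₁ γ₂ : Γ}
    (h : botRow (γ₁ : SL(2, ℤ)) = botRow (γ₂ : SL(2, ℤ))) : χ γ₁ = χ γ₂ := by
  have h1 : botRow ((γ₁ * γ₂⁻¹ : Γ) : SL(2, ℤ)) = ![0, 1] := by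
    rw [Subgroup.coe_mul, botRow_mul, h, ← botRow_mul, Subgroup.coe_inv, mul_inv_cancel,
      botRow_one]
  have := hχ _ h1
  rwa [_root_.map_mul, _root_.map_inv, mul_inv_eq_one] at this

lemma chiWeight_botRow {χ : Γ →* ℂˣ} (hχ : TrivOnUnip χ) (γ : Γ) :
    chiWeight χ (botRow (γ : SL(2, ℤ))) = (((χ γ)⁻¹ : ℂˣ) : ℂ) := by
  have hex : ∃ γ' : Γ, botRow (γ' : SL(2, ℤ)) = botRow (γ : SL(2, ℤ)) := ⟨γ, rfl⟩
  unfold chiWeight
  rw [dif_pos hex, chi_eq_of_botRow_eq hχ hex.choose_spec]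

lemma chiWeight_of_not_exists (χ : Γ →* ℂˣ) {v : Fin 2 → ℤ}
    (h : ¬ ∃ γ : Γ, botRow (γ : SL(2, ℤ)) = v) : chiWeight χ v = 0 :=
  dif_neg h

lemma norm_chiWeight_le {χ : Γ →* ℂˣ} (hnorm : ∀ γ, ‖(χ γ : ℂ)‖ = 1) (v : Fin 2 → ℤ) :
    ‖chiWeight χ v‖ ≤ 1 := by
  unfold chiWeight
  split_ifs with h
  · simp [hnorm]
  · simp

lemma chiWeight_vecMul_inv {χ : Γ →* ℂˣ} (hχ : TrivOnUnip χ) (δ : Γ) (v : Fin 2 → ℤ) :
    chiWeight χ (v ᵥ* (((δ : SL(2, ℤ))⁻¹ : SL(2, ℤ)) : Matrix (Fin 2) (Fin 2) ℤ)) =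
      (χ δ : ℂ) * chiWeight χ v := by
  by_cases hex : ∃ γ : Γ, botRow (γ : SL(2, ℤ)) = v
  · obtain ⟨γ, rfl⟩ := hex
    have h1 : botRow (γ : SL(2, ℤ)) ᵥ* (((δ : SL(2, ℤ))⁻¹ : SL(2, ℤ)) :
        Matrix (Fin 2) (Fin 2) ℤ) = botRow ((γ * δ⁻¹ : Γ) : SL(2, ℤ)) := by
      rw [Subgroup.coe_mul, botRow_mul, Subgroup.coe_inv]
    rw [h1, chiWeight_botRow hχ, chiWeight_botRow hχ, _root_.map_mul, _root_.map_inv]
    simp [mul_comm]
  · rw [chiWeight_of_not_exists χ hex, _root_.MulZeroClass.mul_zero]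
    apply chiWeight_of_not_exists
    rintro ⟨γ, hγ⟩
    apply hex
    refine ⟨γ * δ, ?_⟩
    rw [Subgroup.coe_mul, botRow_mul, hγ, Matrix.vecMul_vecMul,
      ← Matrix.SpecialLinearGroup.coe_mul, inv_mul_cancel, Matrix.SpecialLinearGroup.coe_one,
      Matrix.vecMul_one]

/-- The twisted Eisenstein series of weight `k` attached to `χ`. -/
def twEis (χ : Γ →* ℂˣ) (k : ℤ) : ℍ → ℂ := wEis (chiWeight χ) k

/-- The transformation law of the twisted Eisenstein series. -/
theorem twEis_slash {χ : Γ →* ℂˣ} (hχ : TrivOnUnip χ) (k : ℤ) (δ : Γ) :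
    twEis χ k ∣[k] (δ : SL(2, ℤ)) = (χ δ : ℂ) • twEis χ k := by
  unfold twEis
  rw [wEis_slash]
  ext z
  simp only [wEis, Pi.smul_apply, smul_eq_mul, chiWeight_vecMul_inv hχ δ, _root_.mul_assoc,
    tsum_mul_left]

/-- The transformation law, pointwise. -/
theorem twEis_smul_apply {χ : Γ →* ℂˣ} (hχ : TrivOnUnip χ) (k : ℤ) (δ : Γ) (z : ℍ) :
    twEis χ k ((δ : SL(2, ℤ)) • z) = (χ δ : ℂ) * denom (δ : SL(2, ℤ)) z ^ k * twEis χ k z := by
  have h := congrFun (twEis_slash hχ k δ) z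
  rw [SL_slash_apply, Pi.smul_apply, smul_eq_mul, _root_.zpow_neg,
    mul_inv_eq_iff_eq_mul₀ (zpow_ne_zero _ <| denom_ne_zero _ z)] at h
  rw [h]
  ring

theorem twEis_mdifferentiable {χ : Γ →* ℂˣ} (hnorm : ∀ γ, ‖(χ γ : ℂ)‖ = 1) {k : ℤ}
    (hk : 3 ≤ k) : MDiff (twEis χ k) :=
  wEis_mdifferentiable (norm_chiWeight_le hnorm) hk

theorem isBoundedAtImInfty_twEis_slash {χ : Γ →* ℂˣ} (hnorm : ∀ γ, ‖(χ γ : ℂ)‖ = 1) {k : ℤ}
    (hk : 3 ≤ k) (A : SL(2, ℤ)) : IsBoundedAtImInfty (twEis χ k ∣[k] A) :=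
  isBoundedAtImInfty_wEis_slash (norm_chiWeight_le hnorm) hk A

lemma chiWeight_zero_one {χ : Γ →* ℂˣ} (hχ : TrivOnUnip χ) : chiWeight χ ![0, 1] = 1 := by
  have h := chiWeight_botRow hχ (1 : Γ)
  rw [Subgroup.coe_one, botRow_one] at h
  rw [h]
  simp

lemma chiWeight_zero_neg_one {χ : Γ →* ℂˣ} (hχ : TrivOnStabInfty χ) :
    chiWeight χ ![0, -1] = 0 ∨ chiWeight χ ![0, -1] = 1 := by
  by_cases hex : ∃ γ : Γ, botRow (γ : SL(2, ℤ)) = ![0, -1]
  · obtain ⟨γ, hγ⟩ := hex
    right
    rw [← hγ, chiWeight_botRow hχ.trivOnUnip, hχ γ (by simp [hγ])]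
    simp
  · exact Or.inl (chiWeight_of_not_exists χ hex)

lemma chiWeight_eq_zero_of_fst_eq_zero (χ : Γ →* ℂˣ) (v : Fin 2 → ℤ) (h0 : v 0 = 0)
    (h1 : v 1 ≠ 1) (h2 : v 1 ≠ -1) : chiWeight χ v = 0 := by
  apply chiWeight_of_not_exists
  rintro ⟨γ, rfl⟩
  rcases botRow_snd_of_fst_eq_zero _ h0 with h | h
  · exact h1 h
  · exact h2 h

/-- The constant term of the twisted Eisenstein series of even weight is `1` or `2`. -/
lemma wEisConst_chiWeight {χ : Γ →* ℂˣ} (hχ : TrivOnStabInfty χ) {k : ℤ} (hk : Even k) :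
    wEisConst (chiWeight χ) k = 1 ∨ wEisConst (chiWeight χ) k = 2 := by
  rw [wEisConst_eq (chiWeight_eq_zero_of_fst_eq_zero χ), chiWeight_zero_one hχ.trivOnUnip]
  have hpow : (-1 : ℂ) ^ (-k) = 1 := Even.neg_one_zpow hk.neg
  rw [hpow, _root_.mul_one]
  rcases chiWeight_zero_neg_one hχ with h | h
  · left
    rw [h, add_zero]
  · right
    rw [h]
    norm_num

/-- The twisted Eisenstein series of even weight `k ≥ 3` is not identically zero. -/
theorem twEis_ne_zero {χ : Γ →* ℂˣ} (hnorm : ∀ γ, ‖(χ γ : ℂ)‖ = 1) (hχ : TrivOnStabInfty χ)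
    {k : ℤ} (hk : 3 ≤ k) (heven : Even k) : twEis χ k ≠ 0 := by
  apply wEis_ne_zero_of_const_ne_zero (norm_chiWeight_le hnorm) hk
  rcases wEisConst_chiWeight hχ heven with h | h <;> rw [h] <;> norm_num

end

end Fermat.Agent.S29.H509

end
-- ===== PACK-END S29/H509/TwistedEis.lean

-- ===== PACK-BEGIN S20/H872/Index.lean
section





/-!
# `[SL(2, ℤ) : Γ₀(N)] = ψ(N)` (Dedekind psi function)

Route: `[Γ₀(N) : Γ₀(N p)] = p` if `p ∣ N`, `p + 1` otherwise, and induction on the prime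
factorisation.
-/

set_option autoImplicit false

open CongruenceSubgroup Matrix.SpecialLinearGroup
open scoped MatrixGroups

namespace Fermat.Agent.S20.H872

/-! ### Arithmetic of `dedekindPsi` -/

theorem dedekindPsi_mul_prime_of_dvd {N p : ℕ} (hN : N ≠ 0) (hp : p.Prime) (hpN : p ∣ N) :
    ModularCurve.dedekindPsi (N * p) = p * ModularCurve.dedekindPsi N := by
  unfold ModularCurve.dedekindPsi
  have hset : (N * p).divisors.filter Squarefree = N.divisors.filter Squarefree := by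
    ext d
    simp only [Finset.mem_filter, Nat.mem_divisors]
    constructor
    · rintro ⟨⟨hd, _⟩, hsq⟩
      refine ⟨⟨?_, hN⟩, hsq⟩
      have h2 : d ∣ N ^ 2 := by
        rw [pow_two]
        exact hd.trans (mul_dvd_mul_left N hpN)
      exact (hsq.dvd_pow_iff_dvd two_ne_zero).1 h2
    · rintro ⟨⟨hd, _⟩, hsq⟩
      exact ⟨⟨hd.mul_right p, mul_ne_zero hN hp.ne_zero⟩, hsq⟩
  rw [hset, Finset.mul_sum]
  refine Finset.sum_congr rfl fun d hd => ?_
  have hdN : d ∣ N := (Nat.mem_divisors.1 (Finset.mem_filter.1 hd).1).1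
  obtain ⟨e, rfl⟩ := hdN
  have hd0 : 0 < d := Nat.pos_of_ne_zero (by rintro rfl; simp at hN)
  rw [mul_assoc, Nat.mul_div_cancel_left _ hd0, Nat.mul_div_cancel_left _ hd0, mul_comm]

theorem dedekindPsi_mul_prime_of_not_dvd {N p : ℕ} (hN : N ≠ 0) (hp : p.Prime) (hpN : ¬ p ∣ N) :
    ModularCurve.dedekindPsi (N * p) = (p + 1) * ModularCurve.dedekindPsi N := by
  unfold ModularCurve.dedekindPsi
  have hcop : ∀ d, d ∣ N → Nat.Coprime d p := fun d hd =>
    (Nat.Coprime.symm ((Nat.Prime.coprime_iff_not_dvd hp).2 fun h => hpN (h.trans hd)))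
  have hset : (N * p).divisors.filter Squarefree
      = (N.divisors.filter Squarefree) ∪ (N.divisors.filter Squarefree).image (· * p) := by
    ext d
    simp only [Finset.mem_filter, Nat.mem_divisors, Finset.mem_union, Finset.mem_image]
    constructor
    · rintro ⟨⟨hd, _⟩, hsq⟩
      by_cases hpd : p ∣ d
      · right
        obtain ⟨e, rfl⟩ := hpd
        refine ⟨e, ⟨⟨?_, hN⟩, hsq.squarefree_of_dvd (Dvd.intro_left p rfl)⟩, mul_comm e p⟩
        rw [mul_comm p e] at hd
        exact Nat.dvd_of_mul_dvd_mul_right hp.pos hd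
      · left
        refine ⟨⟨?_, hN⟩, hsq⟩
        have : Nat.Coprime d p := (Nat.Coprime.symm ((Nat.Prime.coprime_iff_not_dvd hp).2 hpd))
        exact this.dvd_of_dvd_mul_right hd
    · rintro (⟨⟨hd, _⟩, hsq⟩ | ⟨e, ⟨⟨he, _⟩, hsq⟩, rfl⟩)
      · exact ⟨⟨hd.mul_right p, mul_ne_zero hN hp.ne_zero⟩, hsq⟩
      · refine ⟨⟨mul_dvd_mul_right he p, mul_ne_zero hN hp.ne_zero⟩, ?_⟩
        exact (Nat.squarefree_mul (hcop e he)).2 ⟨hsq, hp.squarefree⟩
  have hdisj : Disjoint (N.divisors.filter Squarefree)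
      ((N.divisors.filter Squarefree).image (· * p)) := by
    rw [Finset.disjoint_left]
    intro d hd hd'
    simp only [Finset.mem_filter, Nat.mem_divisors, Finset.mem_image] at hd hd'
    obtain ⟨e, _, rfl⟩ := hd'
    exact hpN ((Dvd.intro_left e rfl).trans hd.1.1)
  rw [hset, Finset.sum_union hdisj, Finset.sum_image, add_mul, one_mul, Finset.mul_sum]
  · congr 1
    · refine Finset.sum_congr rfl fun d hd => ?_
      have hdN : d ∣ N := (Nat.mem_divisors.1 (Finset.mem_filter.1 hd).1).1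
      obtain ⟨e, rfl⟩ := hdN
      have hd0 : 0 < d := Nat.pos_of_ne_zero (by rintro rfl; simp at hN)
      rw [mul_assoc, Nat.mul_div_cancel_left _ hd0, Nat.mul_div_cancel_left _ hd0, mul_comm]
    · refine Finset.sum_congr rfl fun d hd => ?_
      exact Nat.mul_div_mul_right N d hp.pos
  · intro a _ b _ hab
    exact Nat.eq_of_mul_eq_mul_right hp.pos hab

/-! ### The relative index `[Γ₀(N) : Γ₀(N p)]` -/

theorem Gamma0_mul_le (N p : ℕ) : Gamma0 (N * p) ≤ Gamma0 N := by
  intro g hg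
  rw [Gamma0_mem, ZMod.intCast_zmod_eq_zero_iff_dvd] at hg ⊢
  exact (Dvd.intro _ (by push_cast; rfl)).trans hg

theorem lowerUni_mem_Gamma0 (N : ℕ) (t : ℤ) : lowerUni ((N : ℤ) * t) ∈ Gamma0 N := by
  rw [Gamma0_mem, ZMod.intCast_zmod_eq_zero_iff_dvd]
  exact Dvd.intro _ rfl

/-- Criterion for equality of cosets in `Γ₀(N) ⧸ Γ₀(N p)`. -/
theorem rel_mk_eq_mk_iff (N p : ℕ) (g g' : SL(2, ℤ)) (hg : g ∈ Gamma0 N) (hg' : g' ∈ Gamma0 N) :
    (QuotientGroup.mk (⟨g, hg⟩ : Gamma0 N) :
        Gamma0 N ⧸ (Gamma0 (N * p)).subgroupOf (Gamma0 N)) = QuotientGroup.mk ⟨g', hg'⟩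
      ↔ ((N : ℤ) * (p : ℤ)) ∣ g 0 0 * g' 1 0 - g 1 0 * g' 0 0 := by
  rw [QuotientGroup.eq, Subgroup.mem_subgroupOf]
  have : (((⟨g, hg⟩ : Gamma0 N)⁻¹ * (⟨g', hg'⟩ : Gamma0 N) : Gamma0 N) : SL(2, ℤ))
      = g⁻¹ * g' := rfl
  rw [this, Gamma0_mem, inv_mul_apply_one_zero, ZMod.intCast_zmod_eq_zero_iff_dvd]
  push_cast
  rfl

theorem Gamma0_dvd (N : ℕ) (g : SL(2, ℤ)) (hg : g ∈ Gamma0 N) : (N : ℤ) ∣ g 1 0 := by
  rwa [Gamma0_mem, ZMod.intCast_zmod_eq_zero_iff_dvd] at hg

/-- Criterion in terms of `γ = c / N`. -/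
theorem rel_mk_eq_mk_iff' {N : ℕ} (hN : N ≠ 0) (p : ℕ) (g g' : SL(2, ℤ)) (hg : g ∈ Gamma0 N)
    (hg' : g' ∈ Gamma0 N) (γ γ' : ℤ) (hγ : g 1 0 = N * γ) (hγ' : g' 1 0 = N * γ') :
    (QuotientGroup.mk (⟨g, hg⟩ : Gamma0 N) :
        Gamma0 N ⧸ (Gamma0 (N * p)).subgroupOf (Gamma0 N)) = QuotientGroup.mk ⟨g', hg'⟩
      ↔ (p : ℤ) ∣ g 0 0 * γ' - γ * g' 0 0 := by
  rw [rel_mk_eq_mk_iff, hγ, hγ']
  have : g 0 0 * ((N : ℤ) * γ') - (N : ℤ) * γ * g' 0 0
      = (N : ℤ) * (g 0 0 * γ' - γ * g' 0 0) := by ring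
  rw [this]
  exact mul_dvd_mul_iff_left (by exact_mod_cast hN)

/-- the affine representatives of `Γ₀(N) ⧸ Γ₀(N p)` -/
noncomputable def relPt (N p : ℕ) (t : ZMod p) :
    Gamma0 N ⧸ (Gamma0 (N * p)).subgroupOf (Gamma0 N) :=
  QuotientGroup.mk ⟨lowerUni ((N : ℤ) * (ZMod.cast t : ℤ)), lowerUni_mem_Gamma0 N _⟩

theorem mk_eq_relPt_iff {N : ℕ} (hN : N ≠ 0) (p : ℕ) [NeZero p] (g : SL(2, ℤ))
    (hg : g ∈ Gamma0 N) (γ : ℤ) (hγ : g 1 0 = N * γ) (t : ZMod p) :
    (QuotientGroup.mk (⟨g, hg⟩ : Gamma0 N) :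
        Gamma0 N ⧸ (Gamma0 (N * p)).subgroupOf (Gamma0 N)) = relPt N p t
      ↔ ((g 0 0 : ℤ) : ZMod p) * t = ((γ : ℤ) : ZMod p) := by
  rw [relPt, rel_mk_eq_mk_iff' hN p g _ hg _ γ (ZMod.cast t : ℤ) hγ rfl]
  rw [lowerUni_apply_zero_zero, mul_one, ← ZMod.intCast_zmod_eq_zero_iff_dvd]
  push_cast
  try simp only [ZMod.intCast_cast, ZMod.cast_id', id_eq]
  exact sub_eq_zero

theorem relPt_injective {N : ℕ} (hN : N ≠ 0) (p : ℕ) [NeZero p] :
    Function.Injective (relPt N p) := by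
  intro t t' h
  rw [relPt, mk_eq_relPt_iff hN p _ _ (ZMod.cast t : ℤ) rfl] at h
  simpa using h.symm

/-- If `a = g 0 0` is nonzero mod the prime `p`, the coset of `g` is an affine point. -/
theorem exists_relPt_of_ne_zero {N : ℕ} (hN : N ≠ 0) (p : ℕ) [Fact p.Prime] (g : SL(2, ℤ))
    (hg : g ∈ Gamma0 N) (ha : ((g 0 0 : ℤ) : ZMod p) ≠ 0) :
    ∃ t : ZMod p,
      (QuotientGroup.mk (⟨g, hg⟩ : Gamma0 N) :
        Gamma0 N ⧸ (Gamma0 (N * p)).subgroupOf (Gamma0 N)) = relPt N p t := by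
  obtain ⟨γ, hγ⟩ := Gamma0_dvd N g hg
  refine ⟨((γ : ℤ) : ZMod p) * (((g 0 0 : ℤ) : ZMod p))⁻¹, ?_⟩
  rw [mk_eq_relPt_iff hN p g hg γ hγ]
  field_simp

theorem card_rel_of_dvd {N p : ℕ} (hN : N ≠ 0) (hp : p.Prime) (hpN : p ∣ N) :
    (Gamma0 (N * p)).relIndex (Gamma0 N) = p := by
  have : Fact p.Prime := ⟨hp⟩
  rw [Subgroup.relIndex, Subgroup.index_eq_card]
  have hbij : Function.Bijective (relPt N p) := by
    refine ⟨relPt_injective hN p, fun x => ?_⟩
    induction x using QuotientGroup.induction_on with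
    | H k =>
      obtain ⟨g, hg⟩ := k
      have ha : ((g 0 0 : ℤ) : ZMod p) ≠ 0 := by
        intro h0
        rw [ZMod.intCast_zmod_eq_zero_iff_dvd] at h0
        have hc : (p : ℤ) ∣ g 1 0 := (Int.natCast_dvd_natCast.2 hpN).trans (Gamma0_dvd N g hg)
        have h1 : (p : ℤ) ∣ 1 := by
          rw [← det_rel g]
          exact dvd_sub (h0.mul_right _) (hc.mul_left _)
        have h2 : p ∣ 1 := by exact_mod_cast h1
        exact hp.one_lt.ne' (Nat.dvd_one.1 h2)
      obtain ⟨t, ht⟩ := exists_relPt_of_ne_zero hN p g hg ha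
      exact ⟨t, ht.symm⟩
  rw [← Nat.card_congr (Equiv.ofBijective _ hbij), Nat.card_eq_fintype_card, ZMod.card]

theorem exists_mem_Gamma0_col {N p : ℕ} (hcop : Nat.Coprime p N) :
    ∃ g : SL(2, ℤ), g ∈ Gamma0 N ∧ g 0 0 = p ∧ g 1 0 = N := by
  have h : IsCoprime (p : ℤ) (N : ℤ) := Nat.isCoprime_iff_coprime.2 hcop
  obtain ⟨u, v, huv⟩ := h
  have hdet : (!![(p : ℤ), -v; (N : ℤ), u]).det = 1 := by
    rw [Matrix.det_fin_two_of]; linear_combination huv
  let g : SL(2, ℤ) := ⟨!![(p : ℤ), -v; (N : ℤ), u], hdet⟩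
  refine ⟨g, ?_, rfl, rfl⟩
  rw [Gamma0_mem]
  change (((N : ℤ) : ℤ) : ZMod N) = 0
  simp

theorem card_rel_of_not_dvd {N p : ℕ} (hN : N ≠ 0) (hp : p.Prime) (hpN : ¬ p ∣ N) :
    (Gamma0 (N * p)).relIndex (Gamma0 N) = p + 1 := by
  have : Fact p.Prime := ⟨hp⟩
  rw [Subgroup.relIndex, Subgroup.index_eq_card]
  obtain ⟨g₀, hg₀, hk0, hk1⟩ :=
    exists_mem_Gamma0_col ((Nat.Prime.coprime_iff_not_dvd hp).2 hpN)
  let f : Option (ZMod p) → Gamma0 N ⧸ (Gamma0 (N * p)).subgroupOf (Gamma0 N) := fun o =>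
    o.elim (QuotientGroup.mk ⟨g₀, hg₀⟩) (relPt N p)
  have hinf : ∀ t : ZMod p,
      (QuotientGroup.mk (⟨g₀, hg₀⟩ : Gamma0 N) :
        Gamma0 N ⧸ (Gamma0 (N * p)).subgroupOf (Gamma0 N)) ≠ relPt N p t := by
    intro t h
    rw [mk_eq_relPt_iff hN p g₀ hg₀ 1 (by rw [hk1, mul_one]), hk0] at h
    simp at h
  have hbij : Function.Bijective f := by
    constructor
    · rintro (_ | t) (_ | t') h
      · rfl
      · exact absurd h (hinf t')
      · exact absurd h.symm (hinf t)
      · exact congrArg some (relPt_injective hN p h)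
    · intro x
      induction x using QuotientGroup.induction_on with
      | H k =>
        obtain ⟨g, hg⟩ := k
        by_cases ha : ((g 0 0 : ℤ) : ZMod p) = 0
        · refine ⟨none, ?_⟩
          obtain ⟨γ, hγ⟩ := Gamma0_dvd N g hg
          change (QuotientGroup.mk (⟨g₀, hg₀⟩ : Gamma0 N) :
            Gamma0 N ⧸ (Gamma0 (N * p)).subgroupOf (Gamma0 N)) = _
          rw [rel_mk_eq_mk_iff' hN p g₀ g hg₀ hg 1 γ (by rw [hk1, mul_one]) hγ, hk0]
          rw [ZMod.intCast_zmod_eq_zero_iff_dvd] at ha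
          exact dvd_sub (Dvd.intro _ rfl) (ha.mul_left _)
        · obtain ⟨t, ht⟩ := exists_relPt_of_ne_zero hN p g hg ha
          exact ⟨some t, ht.symm⟩
  rw [← Nat.card_congr (Equiv.ofBijective _ hbij), Nat.card_eq_fintype_card, Fintype.card_option,
    ZMod.card]

/-! ### The index formula -/

theorem Gamma0_one : Gamma0 1 = ⊤ := by
  ext g
  simp only [Gamma0_mem, Subgroup.mem_top, iff_true]
  exact Subsingleton.elim _ _

/-- **I1**: `[SL(2, ℤ) : Γ₀(N)] = ψ(N)`. -/
theorem index_Gamma0 (N : ℕ) (hN : N ≠ 0) : (Gamma0 N).index = ModularCurve.dedekindPsi N := by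
  induction N using induction_on_primes with
  | zero => exact absurd rfl hN
  | one => rw [Gamma0_one, Subgroup.index_top, ModularCurve.dedekindPsi_one]
  | prime_mul p M hp ih =>
    have hM : M ≠ 0 := by rintro rfl; simp at hN
    have ih' := ih hM
    rw [mul_comm p M, ← Subgroup.relIndex_mul_index (Gamma0_mul_le M p), ih']
    by_cases hpM : p ∣ M
    · rw [card_rel_of_dvd hM hp hpM, dedekindPsi_mul_prime_of_dvd hM hp hpM]
    · rw [card_rel_of_not_dvd hM hp hpM, dedekindPsi_mul_prime_of_not_dvd hM hp hpM]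

/-- **I1**, cardinality form. -/
theorem card_quot_Gamma0 (N : ℕ) [NeZero N] :
    Nat.card (SL(2, ℤ) ⧸ Gamma0 N) = ModularCurve.dedekindPsi N := by
  rw [← Subgroup.index_eq_card]
  exact index_Gamma0 N (NeZero.ne N)

end Fermat.Agent.S20.H872

end
-- ===== PACK-END S20/H872/Index.lean

-- ===== PACK-BEGIN S24/Alg/LocOrd.lean
section


/-!
# S24 / ALG-LOC: elementary calculus of `Place.ord`

Membership in the valuation ring, ultrametric inequality and its strict case.
-/

set_option autoImplicit false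

noncomputable section

open AlgebraicCurve

namespace Fermat.Agent.S24.H144

variable {K F : Type*} [Field K] [Field F] [Algebra K F]

theorem loc_ord_nonneg_of_mem (v : Place K F) {f : F} (hf : f ∈ v.toValuationSubring) :
    0 ≤ v.ord f := by
  rcases eq_or_ne f 0 with rfl | hf0
  · simp
  obtain ⟨π, hπ⟩ := IsDiscreteValuationRing.exists_irreducible v.toValuationSubring
  obtain ⟨n, u, hu⟩ :=
    IsDiscreteValuationRing.eq_unit_mul_pow_irreducible
      (x := (⟨f, hf⟩ : v.toValuationSubring)) (by simpa [Subtype.ext_iff] using hf0) hπ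
  have hcoe : f = ((u : v.toValuationSubring) : F) * ((π : F) ^ (n : ℤ)) := by
    have h := congrArg (Subtype.val) hu
    push_cast at h
    rw [zpow_natCast]
    exact h
  rw [hcoe, v.ord_unit_smul_zpow u hπ (n : ℤ)]
  exact Int.natCast_nonneg n

theorem loc_mem_of_ord_nonneg (v : Place K F) {f : F} (h : 0 ≤ v.ord f) :
    f ∈ v.toValuationSubring := by
  rcases eq_or_ne f 0 with rfl | hf
  · exact zero_mem _
  obtain ⟨π, hπ⟩ := IsDiscreteValuationRing.exists_irreducible v.toValuationSubring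
  obtain ⟨u, hu⟩ := v.exists_unit_mul_zpow hf hπ
  rw [hu, show v.ord f = (((v.ord f).toNat : ℕ) : ℤ) from (Int.toNat_of_nonneg h).symm,
    zpow_natCast]
  exact mul_mem (u : v.toValuationSubring).2 (pow_mem (π : v.toValuationSubring).2 _)

/-- `f ∈ O_v ↔ 0 ≤ ord_v f` (valid also for `f = 0` because `ord_v 0 = 0`). -/
theorem loc_mem_iff_ord_nonneg (v : Place K F) (f : F) :
    f ∈ v.toValuationSubring ↔ 0 ≤ v.ord f :=
  ⟨loc_ord_nonneg_of_mem v, loc_mem_of_ord_nonneg v⟩

theorem loc_ord_algebraMap (v : Place K F) (c : K) : v.ord (algebraMap K F c) = 0 := by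
  rcases eq_or_ne c 0 with rfl | hc
  · simp
  have h1 : 0 ≤ v.ord (algebraMap K F c) := loc_ord_nonneg_of_mem v (v.algebraMap_mem' c)
  have h2 : 0 ≤ v.ord (algebraMap K F c⁻¹) := loc_ord_nonneg_of_mem v (v.algebraMap_mem' c⁻¹)
  rw [map_inv₀, v.ord_inv] at h2
  omega

theorem loc_ord_pow (v : Place K F) (f : F) (n : ℕ) : v.ord (f ^ n) = n * v.ord f := by
  have := v.ord_zpow f (n : ℤ)
  rwa [zpow_natCast] at this

theorem loc_ord_neg (v : Place K F) (f : F) : v.ord (-f) = v.ord f := by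
  rcases eq_or_ne f 0 with rfl | hf
  · simp
  have h : (-1 : F) ≠ 0 := by simp
  have h1 : v.ord (-1 : F) = 0 := by
    have h2 := v.ord_mul h h
    rw [neg_one_mul, neg_neg, v.ord_one] at h2
    omega
  rw [← neg_one_mul, v.ord_mul h hf, h1, zero_add]

/-- Ultrametric inequality. -/
theorem loc_ord_add (v : Place K F) {f g : F} (hf : f ≠ 0) (hg : g ≠ 0) (hfg : f + g ≠ 0) :
    min (v.ord f) (v.ord g) ≤ v.ord (f + g) := by
  -- wlog `ord f ≤ ord g`
  wlog h : v.ord f ≤ v.ord g generalizing f g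
  · have := this hg hf (by rwa [add_comm]) (by omega)
    rwa [min_comm, add_comm g f] at this
  rw [min_eq_left h]
  have hq : g * f⁻¹ ∈ v.toValuationSubring := by
    apply loc_mem_of_ord_nonneg
    rw [v.ord_mul hg (inv_ne_zero hf), v.ord_inv]; omega
  have h1 : 1 + g * f⁻¹ ∈ v.toValuationSubring := add_mem (one_mem _) hq
  have h2 : f + g = f * (1 + g * f⁻¹) := by field_simp
  have h3 : (1 + g * f⁻¹) ≠ 0 := by
    intro h0; rw [h0, mul_zero] at h2; exact hfg h2
  rw [h2, v.ord_mul hf h3]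
  have := loc_ord_nonneg_of_mem v h1
  omega

/-- Ultrametric inequality, version with nonnegativity bound (no nonvanishing hypotheses). -/
theorem loc_ord_add_of_le (v : Place K F) {f g : F} {n : ℤ} (hn : n ≤ 0 ∨ f + g ≠ 0)
    (hf : f = 0 ∨ n ≤ v.ord f) (hg : g = 0 ∨ n ≤ v.ord g) : n ≤ v.ord (f + g) := by
  rcases eq_or_ne (f + g) 0 with h0 | h0
  · rw [h0, v.ord_zero]
    rcases hn with hn | hn
    · exact hn
    · exact absurd h0 hn
  rcases eq_or_ne f 0 with rfl | hf0
  · rw [zero_add] at h0 ⊢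
    rcases hg with hg | hg
    · exact absurd hg h0
    · exact hg
  rcases eq_or_ne g 0 with rfl | hg0
  · rw [add_zero]
    rcases hf with hf | hf
    · exact absurd hf hf0
    · exact hf
  have := loc_ord_add v hf0 hg0 h0
  rcases hf with hf | hf
  · exact absurd hf hf0
  rcases hg with hg | hg
  · exact absurd hg hg0
  exact le_trans (le_min hf hg) this

/-- Strict case of the ultrametric inequality. -/
theorem loc_ord_add_eq_of_lt (v : Place K F) {f g : F} (hf : f ≠ 0) (hg : g ≠ 0)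
    (h : v.ord f < v.ord g) : v.ord (f + g) = v.ord f := by
  have hfg : f + g ≠ 0 := by
    intro h0
    have : g = -f := by rw [← sub_eq_zero]; rw [sub_neg_eq_add, add_comm]; exact h0
    rw [this, loc_ord_neg] at h
    exact lt_irrefl _ h
  have h1 := loc_ord_add v hf hg hfg
  rw [min_eq_left h.le] at h1
  -- f = (f + g) + (-g)
  have hng : -g ≠ 0 := neg_ne_zero.mpr hg
  have h2 := loc_ord_add v hfg hng (by simpa using hf)
  rw [add_neg_cancel_right, loc_ord_neg] at h2
  rcases le_total (v.ord (f + g)) (v.ord g) with h3 | h3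
  · rw [min_eq_left h3] at h2; omega
  · rw [min_eq_right h3] at h2; omega

end Fermat.Agent.S24.H144

end
end
-- ===== PACK-END S24/Alg/LocOrd.lean

-- ===== PACK-BEGIN S24/Alg/LocBasic.lean
section


/-!
# S24 / ALG-LOC, part 1: valuations induced by embeddings into Laurent series

`Induces σ v` : the place `v` of `F` is the one cut out by the embedding `σ : F → C((z))`.
Main result `loc_exists_mult`: then `ord_z ∘ σ = g * v.ord` for some `g ≥ 1`.
-/

set_option autoImplicit false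

noncomputable section

open AlgebraicCurve

namespace Fermat.Agent.S24.H144

variable {K F : Type*} [Field K] [Field F] [Algebra K F]
variable {C : Type*} [Field C]

/-- The embedding `σ` induces the place `v`: the valuation ring of `v` is the set of `f`
whose image has non-negative order. -/
def Induces (σ : F →+* LaurentSeries C) (v : Place K F) : Prop :=
  ∀ f : F, f ∈ v.toValuationSubring ↔ 0 ≤ (σ f).order

theorem loc_map_ne_zero (σ : F →+* LaurentSeries C) {f : F} (hf : f ≠ 0) : σ f ≠ 0 :=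
  (map_ne_zero σ).mpr hf

theorem loc_order_map_mul (σ : F →+* LaurentSeries C) {f g : F} (hf : f ≠ 0) (hg : g ≠ 0) :
    (σ (f * g)).order = (σ f).order + (σ g).order := by
  rw [map_mul]
  exact HahnSeries.order_mul (loc_map_ne_zero σ hf) (loc_map_ne_zero σ hg)

theorem loc_order_map_one (σ : F →+* LaurentSeries C) : (σ (1 : F)).order = 0 := by
  rw [map_one]; exact HahnSeries.order_one

theorem loc_order_map_inv (σ : F →+* LaurentSeries C) (f : F) :
    (σ f⁻¹).order = -(σ f).order := by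
  rcases eq_or_ne f 0 with rfl | hf
  · simp
  · have h := loc_order_map_mul σ hf (inv_ne_zero hf)
    rw [mul_inv_cancel₀ hf, loc_order_map_one] at h
    omega

theorem loc_order_map_pow (σ : F →+* LaurentSeries C) {f : F} (hf : f ≠ 0) (n : ℕ) :
    (σ (f ^ n)).order = n * (σ f).order := by
  induction n with
  | zero => simp
  | succ n ih =>
    rw [pow_succ, loc_order_map_mul σ (pow_ne_zero n hf) hf, ih]
    push_cast; ring

theorem loc_order_map_zpow (σ : F →+* LaurentSeries C) {f : F} (hf : f ≠ 0) (n : ℤ) :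
    (σ (f ^ n)).order = n * (σ f).order := by
  obtain ⟨k, rfl | rfl⟩ := Int.eq_nat_or_neg n
  · rw [zpow_natCast]; exact loc_order_map_pow σ hf k
  · rw [zpow_neg, zpow_natCast, loc_order_map_inv, loc_order_map_pow σ hf k]; ring

theorem loc_order_map_add_le (σ : F →+* LaurentSeries C) {f g : F} (hfg : f + g ≠ 0) :
    min (σ f).order (σ g).order ≤ (σ (f + g)).order := by
  rw [map_add]
  exact HahnSeries.min_order_le_order_add (by rw [← map_add]; exact loc_map_ne_zero σ hfg)

/-- A unit of the valuation ring has order `0`. -/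
theorem loc_order_unit {σ : F →+* LaurentSeries C} {v : Place K F} (hσ : Induces σ v)
    (u : v.toValuationSubringˣ) : (σ ((u : v.toValuationSubring) : F)).order = 0 := by
  have h1 : 0 ≤ (σ ((u : v.toValuationSubring) : F)).order :=
    (hσ _).mp (u : v.toValuationSubring).2
  have h2 : 0 ≤ (σ (((u⁻¹ : v.toValuationSubringˣ) : v.toValuationSubring) : F)).order :=
    (hσ _).mp ((u⁻¹ : v.toValuationSubringˣ) : v.toValuationSubring).2
  have h3 : (((u⁻¹ : v.toValuationSubringˣ) : v.toValuationSubring) : F)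
      = (((u : v.toValuationSubring) : F))⁻¹ := by
    have hmul : ((u : v.toValuationSubring) : F)
        * (((u⁻¹ : v.toValuationSubringˣ) : v.toValuationSubring) : F) = 1 := by
      have := congrArg (Subtype.val) (Units.mul_inv u)
      exact this
    exact eq_inv_of_mul_eq_one_right hmul
  rw [h3, loc_order_map_inv] at h2
  omega

/-- A non-unit of the valuation ring which is nonzero has positive order. -/
theorem loc_order_pos_of_not_isUnit {σ : F →+* LaurentSeries C} {v : Place K F}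
    (hσ : Induces σ v) {a : v.toValuationSubring} (ha : a ≠ 0) (hu : ¬ IsUnit a) :
    0 < (σ (a : F)).order := by
  have h1 : 0 ≤ (σ (a : F)).order := (hσ _).mp a.2
  have haF : (a : F) ≠ 0 := by simpa using ha
  have h2 : ¬ (0 ≤ (σ ((a : F)⁻¹)).order) := by
    intro h
    have hmem : (a : F)⁻¹ ∈ v.toValuationSubring := (hσ _).mpr h
    apply hu
    refine ⟨⟨a, ⟨(a : F)⁻¹, hmem⟩, ?_, ?_⟩, rfl⟩
    · ext; simp [haF]
    · ext; simp [haF]
  rw [loc_order_map_inv] at h2
  omega

/-- **LOC1.** If `σ` induces `v` then `ord_z ∘ σ = g * v.ord` for a positive integer `g`. -/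
theorem loc_exists_mult (v : Place K F) (σ : F →+* LaurentSeries C) (hσ : Induces σ v) :
    ∃ g : ℕ, 0 < g ∧ ∀ f : F, (σ f).order = g * v.ord f := by
  obtain ⟨π, hπ⟩ := IsDiscreteValuationRing.exists_irreducible v.toValuationSubring
  have hπ0 : π ≠ 0 := hπ.ne_zero
  have hπF : (π : F) ≠ 0 := by simpa using hπ0
  have hpos : 0 < (σ (π : F)).order := loc_order_pos_of_not_isUnit hσ hπ0 hπ.not_isUnit
  refine ⟨(σ (π : F)).order.toNat, by omega, fun f => ?_⟩
  rcases eq_or_ne f 0 with rfl | hf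
  · simp
  obtain ⟨u, hu⟩ := v.exists_unit_mul_zpow hf hπ
  have huF : ((u : v.toValuationSubring) : F) ≠ 0 := by simp
  conv_lhs => rw [hu]
  rw [loc_order_map_mul σ huF (zpow_ne_zero _ hπF), loc_order_unit hσ u,
    loc_order_map_zpow σ hπF, Int.toNat_of_nonneg hpos.le]
  ring

end Fermat.Agent.S24.H144

end
end
-- ===== PACK-END S24/Alg/LocBasic.lean

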