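import Mathlib
import Fermat.Prelude.Def_ModularCurve_HeckeModule
import Mathlib.Analysis.Analytic.Order
import Fermat.Prelude.Def_AlgebraicCurve_DivisorClassGroup
import Fermat.Prelude.Def_AlgebraicCurve_CanonicalDivisor
import Fermat.Prelude.Def_ModularCurve_X0ModL
import Fermat.Agent.Pack.S33.E0L2
import Fermat.Agent.Pack.S33.E0L3
import Fermat.Agent.Pack.S33.E0L1
import Fermat.Agent.Pack.S33.E0L0
import Fermat.Agent.Pack.S33.E1L2
import Fermat.Agent.Pack.S33.E1L1
import Fermat.Agent.Pack.S33.E1L0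
import Fermat.Agent.Pack.S33.E1L3

-- ===== PACK-BEGIN S14/H74/Tent.lean
section


/-!
# S14/N1 (helper74): the tent function and its partition of unity (piece P1)
-/

namespace Fermat.Agent.S14.H74

theorem tent_nonneg (c : ℝ) : 0 ≤ tent c := le_max_left _ _

theorem tent_le_one (c : ℝ) : tent c ≤ 1 := by
  unfold tent
  exact max_le zero_le_one (by linarith [abs_nonneg c])

theorem tent_eq_zero_of_one_le {c : ℝ} (h : 1 ≤ |c|) : tent c = 0 := by
  unfold tent
  exact max_eq_left (by linarith)

theorem tent_of_abs_le_one {c : ℝ} (h : |c| ≤ 1) : tent c = 1 - |c| := by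
  unfold tent
  exact max_eq_right (by linarith)

theorem abs_lt_one_of_tent_ne_zero {c : ℝ} (h : tent c ≠ 0) : |c| < 1 := by
  by_contra h'
  exact h (tent_eq_zero_of_one_le (not_lt.mp h'))

theorem tent_lipschitz (a b : ℝ) : |tent a - tent b| ≤ |a - b| := by
  unfold tent
  rw [max_comm 0 (1 - |a|), max_comm 0 (1 - |b|)]
  have h1 := abs_max_sub_max_le_abs (1 - |a|) (1 - |b|) 0
  have h2 : |(1 - |a|) - (1 - |b|)| ≤ |a - b| := by
    have : (1 - |a|) - (1 - |b|) = |b| - |a| := by ring
    rw [this, abs_sub_comm a b]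
    exact abs_abs_sub_abs_le_abs_sub b a
  exact h1.trans h2

/-- `|∏ a - ∏ b| ≤ ∑ |a - b|` for families with values in `[0, 1]`. -/
theorem abs_prod_sub_prod_le_sum {ι : Type*} (s : Finset ι) (a b : ι → ℝ)
    (ha0 : ∀ i, 0 ≤ a i) (ha1 : ∀ i, a i ≤ 1) (hb0 : ∀ i, 0 ≤ b i) (hb1 : ∀ i, b i ≤ 1) :
    |∏ i ∈ s, a i - ∏ i ∈ s, b i| ≤ ∑ i ∈ s, |a i - b i| := by
  classical
  induction s using Finset.induction_on with
  | empty => simp
  | insert i s hi ih =>
    rw [Finset.prod_insert hi, Finset.prod_insert hi, Finset.sum_insert hi]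
    have hA0 : 0 ≤ ∏ j ∈ s, a j := Finset.prod_nonneg fun j _ ↦ ha0 j
    have hA1 : ∏ j ∈ s, a j ≤ 1 := Finset.prod_le_one (fun j _ ↦ ha0 j) fun j _ ↦ ha1 j
    have key : a i * ∏ j ∈ s, a j - b i * ∏ j ∈ s, b j
        = (a i - b i) * ∏ j ∈ s, a j + b i * (∏ j ∈ s, a j - ∏ j ∈ s, b j) := by ring
    rw [key]
    refine (abs_add_le _ _).trans (add_le_add ?_ ?_)
    · rw [abs_mul, abs_of_nonneg hA0]
      exact mul_le_of_le_one_right (abs_nonneg _) hA1
    · rw [abs_mul, abs_of_nonneg (hb0 i)]
      exact (mul_le_of_le_one_left (abs_nonneg _) (hb1 i)).trans ih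

/-- The integer translates of the tent function sum to `1`. -/
theorem tent_hasSum (c : ℝ) : HasSum (fun k : ℤ ↦ tent (c + k)) 1 := by
  have hfl := Int.floor_le c
  have hlt := Int.lt_floor_add_one c
  set m : ℤ := ⌊c⌋ with hm
  have hne : (-m : ℤ) ≠ -m - 1 := by omega
  have hsupp : ∀ k : ℤ, k ∉ ({-m, -m - 1} : Finset ℤ) → tent (c + k) = 0 := by
    intro k hk
    simp only [Finset.mem_insert, Finset.mem_singleton, not_or] at hk
    apply tent_eq_zero_of_one_le
    rcases lt_or_gt_of_ne hk.1 with h | h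
    · have h2 : k ≤ -m - 2 := by
        have : k ≠ -m - 1 := hk.2
        omega
      have h3 : (k : ℝ) ≤ -m - 2 := by exact_mod_cast h2
      rw [abs_of_nonpos (by linarith)]
      linarith
    · have h2 : -m + 1 ≤ k := by omega
      have h3 : (-m : ℝ) + 1 ≤ k := by exact_mod_cast h2
      rw [abs_of_nonneg (by linarith)]
      linarith
  have h : HasSum (fun k : ℤ ↦ tent (c + k)) (∑ k ∈ ({-m, -m - 1} : Finset ℤ), tent (c + k)) :=
    hasSum_sum_of_ne_finset_zero hsupp
  convert h using 1
  rw [Finset.sum_pair hne]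
  have e1 : tent (c + ((-m : ℤ) : ℝ)) = 1 - (c - m) := by
    rw [tent_of_abs_le_one]
    · rw [abs_of_nonneg] <;> push_cast <;> linarith
    · rw [abs_of_nonneg] <;> push_cast <;> linarith
  have e2 : tent (c + ((-m - 1 : ℤ) : ℝ)) = c - m := by
    rw [tent_of_abs_le_one]
    · rw [abs_of_nonpos] <;> push_cast <;> linarith
    · rw [abs_of_nonpos] <;> push_cast <;> linarith
  rw [e1, e2]
  ring

/-- Product version of the partition of unity. -/
theorem tent_prod_hasSum {ι : Type*} [Fintype ι] (c : ι → ℝ) :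
    HasSum (fun k : ι → ℤ ↦ ∏ j, tent (c j + k j)) 1 := by
  classical
  let S : ι → Finset ℤ := fun j ↦ {-⌊c j⌋, -⌊c j⌋ - 1}
  have hS : ∀ j (k : ℤ), k ∉ S j → tent (c j + k) = 0 := by
    intro j k hk
    by_contra h
    have h1 := abs_lt_one_of_tent_ne_zero h
    have hfl := Int.floor_le (c j)
    have hlt := Int.lt_floor_add_one (c j)
    rw [abs_lt] at h1
    apply hk
    simp only [S, Finset.mem_insert, Finset.mem_singleton]
    have h2 : (-⌊c j⌋ - 2 : ℝ) < k := by linarith
    have h3 : (k : ℝ) < -⌊c j⌋ + 1 := by linarith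
    have h2' : -⌊c j⌋ - 2 < k := by exact_mod_cast h2
    have h3' : k < -⌊c j⌋ + 1 := by exact_mod_cast h3
    omega
  have hsum : ∀ j, ∑ k ∈ S j, tent (c j + k) = 1 := by
    intro j
    have h : HasSum (fun k : ℤ ↦ tent (c j + k)) (∑ k ∈ S j, tent (c j + k)) :=
      hasSum_sum_of_ne_finset_zero (hS j)
    exact h.unique (tent_hasSum (c j))
  have hsupp : ∀ k : ι → ℤ, k ∉ Fintype.piFinset S → ∏ j, tent (c j + k j) = 0 := by
    intro k hk
    rw [Fintype.mem_piFinset] at hk
    push Not at hk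
    obtain ⟨j, hj⟩ := hk
    exact Finset.prod_eq_zero (Finset.mem_univ j) (hS j _ hj)
  have h : HasSum (fun k : ι → ℤ ↦ ∏ j, tent (c j + k j))
      (∑ k ∈ Fintype.piFinset S, ∏ j, tent (c j + k j)) :=
    hasSum_sum_of_ne_finset_zero hsupp
  convert h using 1
  have := Finset.prod_univ_sum S (fun j (k : ℤ) ↦ tent (c j + k))
  rw [← this]
  simp [hsum]

end Fermat.Agent.S14.H74

end
-- ===== PACK-END S14/H74/Tent.lean

-- ===== PACK-BEGIN Lib/EulerProd/IdealSum.lean
section



/-!
# Sums over the ideals of the ring of integers of a number field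

* `summable_absNorm_rpow`: `∑ I, N(I)^(-s)` converges for real `s > 1`.
* `zetaR`: the real Dedekind zeta function as a sum over ideals, `zetaR_eq_dedekindZeta`.
* `exists_zetaR_bounds`: `c / (s - 1) ≤ zetaR K s ≤ C / (s - 1)` on `(1, 2]`.
-/

set_option autoImplicit false
set_option linter.style.haveILetI false

namespace Fermat.Agent.Lib.EulerProd

open NumberField Ideal Filter Topology Finset

variable (K : Type*) [Field K] [NumberField K]

/-- Partial sums of the coefficients of the Dedekind zeta function (from Mathlib's proof of the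
class number formula). -/
theorem tendsto_sum_card_div :
    Tendsto (fun n : ℕ ↦ (∑ k ∈ Icc 1 n,
      (Nat.card {I : Ideal (𝓞 K) // absNorm I = k} : ℝ)) / (n : ℝ)) atTop
      (𝓝 (dedekindZeta_residue K)) := by
  refine ((Ideal.tendsto_norm_le_div_atTop₀ K).comp tendsto_natCast_atTop_atTop).congr fun n ↦ ?_
  simp only [Function.comp_apply, Nat.cast_le, ← Nat.cast_sum]
  congr
  rw [← add_left_inj 1, ← card_norm_le_eq_card_norm_le_add_one,
    show Finset.Icc 1 n = Finset.Ioc 0 n from Finset.Icc_succ_left_eq_Ioc _ _,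
    show 1 = Nat.card {I : Ideal (𝓞 K) // absNorm I = 0} by simp [Ideal.absNorm_eq_zero_iff],
    Finset.sum_Ioc_add_eq_sum_Icc (n.zero_le),
    ← Finset.card_preimage_eq_sum_card_image_eq (fun k _ ↦ finite_setOfPred_absNorm_eq k)]
  simp [Set.coe_eq_subtype]

theorem lseriesSummable_card {s : ℝ} (hs : 1 < s) :
    LSeriesSummable (fun n ↦ ((Nat.card {I : Ideal (𝓞 K) // absNorm I = n} : ℝ) : ℂ)) (s : ℂ) := by
  refine LSeriesSummable_of_sum_norm_bigO_and_nonneg ?_ (fun _ ↦ Nat.cast_nonneg _) zero_le_one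
    (by simpa using hs)
  exact Asymptotics.isBigO_atTop_natCast_rpow_of_tendsto_div_rpow
    (by simpa using tendsto_sum_card_div K)


/-- The fibre sums of `N(I)^(-s)` over the norm map. -/
theorem tsum_fiber_absNorm_rpow (s : ℝ) (n : ℕ) :
    ∑' I : {I : Ideal (𝓞 K) // absNorm I = n}, ((absNorm I.1 : ℕ) : ℝ) ^ (-s) =
      (Nat.card {I : Ideal (𝓞 K) // absNorm I = n} : ℝ) * (n : ℝ) ^ (-s) := by
  haveI : Finite {I : Ideal (𝓞 K) // absNorm I = n} := finite_setOfPred_absNorm_eq n
  haveI : Fintype {I : Ideal (𝓞 K) // absNorm I = n} := Fintype.ofFinite _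
  rw [tsum_fintype, Finset.sum_congr rfl (fun I _ => by rw [I.2]), Finset.sum_const,
    Finset.card_univ, Nat.card_eq_fintype_card, nsmul_eq_mul]

theorem summable_card_mul_rpow {s : ℝ} (hs : 1 < s) :
    Summable (fun n : ℕ ↦
      (Nat.card {I : Ideal (𝓞 K) // absNorm I = n} : ℝ) * (n : ℝ) ^ (-s)) := by
  have h := (lseriesSummable_card K hs).norm
  refine h.congr fun n => ?_
  rw [LSeries.norm_term_eq]
  split_ifs with hn
  · subst hn
    have hs0 : -s ≠ 0 := by linarith
    simp [Real.zero_rpow hs0]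
  · simp only [Complex.ofReal_re, Complex.norm_real, Real.norm_eq_abs, Nat.abs_cast]
    rw [Real.rpow_neg (Nat.cast_nonneg _), div_eq_mul_inv]

/-- `∑ I, N(I)^(-s)` converges for `s > 1`. -/
theorem summable_absNorm_rpow {s : ℝ} (hs : 1 < s) :
    Summable (fun I : Ideal (𝓞 K) ↦ ((absNorm I : ℕ) : ℝ) ^ (-s)) := by
  rw [← (Equiv.sigmaFiberEquiv (fun I : Ideal (𝓞 K) => absNorm I)).summable_iff]
  rw [summable_sigma_of_nonneg (fun _ => by
    simp only [Function.comp_apply]
    positivity)]
  refine ⟨fun n => ?_, ?_⟩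
  · haveI : Finite {I : Ideal (𝓞 K) // absNorm I = n} := finite_setOfPred_absNorm_eq n
    exact Summable.of_finite
  · refine (summable_card_mul_rpow K hs).congr fun n => ?_
    simp only [Function.comp_apply, Equiv.sigmaFiberEquiv_apply]
    exact (tsum_fiber_absNorm_rpow K s n).symm

/-- The Dedekind zeta function at a real argument, as a sum over all ideals (the zero ideal
contributes `0`). -/
noncomputable def zetaR (s : ℝ) : ℝ := ∑' I : Ideal (𝓞 K), ((absNorm I : ℕ) : ℝ) ^ (-s)

theorem zetaR_eq_tsum_nat {s : ℝ} (hs : 1 < s) :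
    zetaR K s = ∑' n : ℕ,
      (Nat.card {I : Ideal (𝓞 K) // absNorm I = n} : ℝ) * (n : ℝ) ^ (-s) := by
  have hsum := summable_absNorm_rpow K hs
  rw [zetaR, ← (Equiv.sigmaFiberEquiv (fun I : Ideal (𝓞 K) => absNorm I)).tsum_eq]
  rw [← (Equiv.sigmaFiberEquiv (fun I : Ideal (𝓞 K) => absNorm I)).summable_iff] at hsum
  have hfib : ∀ n : ℕ, Summable fun c : {I : Ideal (𝓞 K) // absNorm I = n} =>
      ((fun I : Ideal (𝓞 K) => ((absNorm I : ℕ) : ℝ) ^ (-s)) ∘
        (Equiv.sigmaFiberEquiv (fun I : Ideal (𝓞 K) => absNorm I))) ⟨n, c⟩ := by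
    intro n
    haveI : Finite {I : Ideal (𝓞 K) // absNorm I = n} := finite_setOfPred_absNorm_eq n
    exact Summable.of_finite
  have := Summable.tsum_sigma' hfib hsum
  simp only [Function.comp_apply] at this
  rw [this]
  refine tsum_congr fun n => ?_
  simp only [Equiv.sigmaFiberEquiv_apply]
  exact tsum_fiber_absNorm_rpow K s n

theorem zetaR_eq_dedekindZeta {s : ℝ} (hs : 1 < s) :
    ((zetaR K s : ℝ) : ℂ) = dedekindZeta K (s : ℂ) := by
  rw [zetaR_eq_tsum_nat K hs, dedekindZeta, LSeries, Complex.ofReal_tsum]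
  refine tsum_congr fun n => ?_
  rw [LSeries.term_def]
  split_ifs with hn
  · subst hn
    have hs0 : -s ≠ 0 := by linarith
    simp [Real.zero_rpow hs0]
  · rw [Complex.ofReal_mul, Complex.ofReal_natCast, Complex.ofReal_cpow (Nat.cast_nonneg _),
      Complex.ofReal_neg, Complex.cpow_neg, Complex.ofReal_natCast, div_eq_mul_inv]


theorem tendsto_sub_one_mul_zetaR :
    Tendsto (fun s : ℝ ↦ (s - 1) * zetaR K s) (𝓝[>] 1) (𝓝 (dedekindZeta_residue K)) := by
  have h := tendsto_sub_one_mul_dedekindZeta_nhdsGT K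
  have h2 : Tendsto (fun s : ℝ ↦ (((s - 1) * zetaR K s : ℝ) : ℂ)) (𝓝[>] 1)
      (𝓝 ((dedekindZeta_residue K : ℝ) : ℂ)) := by
    refine h.congr' ?_
    filter_upwards [self_mem_nhdsWithin] with s hs
    rw [Complex.ofReal_mul, zetaR_eq_dedekindZeta K hs]
    push_cast
    rfl
  have h3 := (Complex.continuous_re.tendsto _).comp h2
  rw [Complex.ofReal_re] at h3
  refine h3.congr fun s => ?_
  simp only [Function.comp_apply, Complex.ofReal_re]

theorem one_le_zetaR {s : ℝ} (hs : 1 < s) : 1 ≤ zetaR K s := by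
  have hsum := summable_absNorm_rpow K hs
  have := hsum.le_tsum (⊤ : Ideal (𝓞 K)) (fun _ _ => by positivity)
  simpa [zetaR] using this

theorem zetaR_pos {s : ℝ} (hs : 1 < s) : 0 < zetaR K s :=
  lt_of_lt_of_le one_pos (one_le_zetaR K hs)

/-- Upper bound near `1`. -/
theorem eventually_zetaR_le :
    ∃ C : ℝ, 0 < C ∧ ∀ᶠ s in 𝓝[>] (1 : ℝ), zetaR K s ≤ C / (s - 1) := by
  refine ⟨dedekindZeta_residue K + 1, by linarith [dedekindZeta_residue_pos K], ?_⟩
  have h := (tendsto_order.1 (tendsto_sub_one_mul_zetaR K)).2 (dedekindZeta_residue K + 1)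
    (by linarith)
  filter_upwards [h, self_mem_nhdsWithin] with s hs hs1
  have hs1' : (0 : ℝ) < s - 1 := by
    have : (1 : ℝ) < s := hs1
    linarith
  rw [le_div_iff₀ hs1']
  linarith

/-- Lower bound near `1`. -/
theorem eventually_le_zetaR :
    ∃ c : ℝ, 0 < c ∧ ∀ᶠ s in 𝓝[>] (1 : ℝ), c / (s - 1) ≤ zetaR K s := by
  refine ⟨dedekindZeta_residue K / 2, by linarith [dedekindZeta_residue_pos K], ?_⟩
  have h := (tendsto_order.1 (tendsto_sub_one_mul_zetaR K)).1 (dedekindZeta_residue K / 2)
    (by linarith [dedekindZeta_residue_pos K])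
  filter_upwards [h, self_mem_nhdsWithin] with s hs hs1
  have hs1' : (0 : ℝ) < s - 1 := by
    have : (1 : ℝ) < s := hs1
    linarith
  rw [div_le_iff₀ hs1']
  linarith

end Fermat.Agent.Lib.EulerProd

end
-- ===== PACK-END Lib/EulerProd/IdealSum.lean

-- ===== PACK-BEGIN S29/DefsM.lean
section
/-
S29 row — FROZEN interface definitions for layer M (the torsion module).  Row-lead helper269.
Namespace `Fermat.Agent.S29`.  Do not edit; propose changes via a note kind='question' stmt='S29'.
-/



set_option autoImplicit false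

noncomputable section

namespace Fermat.Agent.S29

open ModularCurve AlgebraicCurve
open scoped TensorProduct MatrixGroups

/-! ### The `p`-torsion of `J₀(N)(ℚ̄)` (Prelude `JZero N`) with Hecke and Galois operators -/

section Jp

variable (N : ℕ) [NeZero N] (p : ℕ)

/-- `J₀(N)(ℚ̄)[p]` as a `ℤ`-submodule of the Prelude's `JZero N`. -/
abbrev Jp : Submodule ℤ (JZero N) := Submodule.torsionBy ℤ (JZero N) (p : ℤ)

/-- The Prelude Hecke operator `T_ℓ` restricted to `J₀(N)[p]`. -/
def heckeJp (ℓ : Nat.Primes) : Jp N p →ₗ[ℤ] Jp N p :=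
  (heckeOperatorBar N ℓ).restrict (p := Jp N p) (q := Jp N p) (fun x hx => by
    rw [Submodule.mem_torsionBy_iff] at hx ⊢
    rw [← map_smul, hx, map_zero])

@[simp] theorem coe_heckeJp (ℓ : Nat.Primes) (x : Jp N p) :
    ((heckeJp N p ℓ x : Jp N p) : JZero N) = heckeOperatorBar N ℓ (x : JZero N) := rfl

/-- The Galois action on `J₀(N)[p]`. -/
def galJp (σ : GQ) : Jp N p →ₗ[ℤ] Jp N p :=
  ((DistribSMul.toAddMonoidHom (JZero N) σ).toIntLinearMap).restrict
    (p := Jp N p) (q := Jp N p) (fun x hx => by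
    rw [Submodule.mem_torsionBy_iff] at hx ⊢
    rw [← map_smul, hx, map_zero])

omit [NeZero N] in
@[simp] theorem coe_galJp (σ : GQ) (x : Jp N p) :
    ((galJp N p σ x : Jp N p) : JZero N) = σ • (x : JZero N) := rfl

end Jp

/-! ### Parabolic additive characters of `Γ₀(N)` and the cohomological Hecke operator -/

section ParHom

variable (N : ℕ)

/-- The group `Γ₀(N)` as a type. -/
abbrev G0 : Type := ↥(CongruenceSubgroup.Gamma0 N)

/-- Integer matrix of an element of `Γ₀(N)`. -/
def G0.mat {N : ℕ} (γ : G0 N) : Matrix (Fin 2) (Fin 2) ℤ := ((γ : SL(2, ℤ)) : Matrix (Fin 2) (Fin 2) ℤ)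

/-- `c : Γ₀(N) → A` is an additive character vanishing on all elements of trace `±2`
(cusp stabilisers, `-1`) and on all torsion (elliptic) elements. -/
structure IsParHom {N : ℕ} {A : Type*} [AddCommGroup A] (c : G0 N → A) : Prop where
  map_mul : ∀ γ γ' : G0 N, c (γ * γ') = c γ + c γ'
  parabolic : ∀ γ : G0 N, (γ.mat.trace = 2 ∨ γ.mat.trace = -2) → c γ = 0
  elliptic : ∀ (γ : G0 N) (n : ℕ), 0 < n → γ ^ n = 1 → c γ = 0

/-- Coset representatives of `Γ₀(N) \ Γ₀(N) diag(1,ℓ) Γ₀(N)` (`ℓ ∤ N` prime):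
`none ↦ [[ℓ,0],[0,1]]`, `some b ↦ [[1,b],[0,ℓ]]`. -/
def heckeRep (ℓ : ℕ) : Option (Fin ℓ) → Matrix (Fin 2) (Fin 2) ℤ
  | none => !![(ℓ : ℤ), 0; 0, 1]
  | some b => !![1, ((b : ℕ) : ℤ); 0, (ℓ : ℤ)]

/-- `heckeRep i * γ = γ' * heckeRep j`. -/
def IsHeckeFactor {N : ℕ} (ℓ : ℕ) (γ : G0 N) (i : Option (Fin ℓ)) (q : Option (Fin ℓ) × G0 N) :
    Prop :=
  heckeRep ℓ i * γ.mat = q.2.mat * heckeRep ℓ q.1

open Classical in
/-- The (unique, for `ℓ ∤ N` prime) pair `(j, γ')` with `heckeRep i * γ = γ' * heckeRep j`. -/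
def heckeFac (ℓ : ℕ) (γ : G0 N) (i : Option (Fin ℓ)) : Option (Fin ℓ) × G0 N :=
  if h : ∃ q : Option (Fin ℓ) × G0 N, IsHeckeFactor ℓ γ i q then Classical.choose h else (i, 1)

/-- The cohomological Hecke operator on functions `Γ₀(N) → A`:
`(T_ℓ c)(γ) = ∑ᵢ c(γ'ᵢ)` where `αᵢ γ = γ'ᵢ α_{π(i)}`. -/
def heckeCoh {A : Type*} [AddCommMonoid A] (ℓ : ℕ) (c : G0 N → A) : G0 N → A :=
  fun γ => ∑ i : Option (Fin ℓ), c (heckeFac N ℓ γ i).2

end ParHom

/-! ### External input: the frozen statement S37 -/

/-- The frozen statement S37 as a `Prop` (row S37 proves it as `Fermat.Agent.S37.result`). -/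
def S37Statement : Prop :=
  ∀ (N p : ℕ) [NeZero N] (_ : ModularCurve.HeckeOperatorsCommuteBar N),
    letI := ModularCurve.heckeModuleBar N
    ∀ (_ : SMulCommClass GQ ModularCurve.HeckeAlg (ModularCurve.JZero N)),
      ModularCurve.SpecializationExists (K := ℚ) (L := AlgebraicClosure ℚ) N p
        (ModularCurve.JZero N)

end Fermat.Agent.S29

end
end
-- ===== PACK-END S29/DefsM.lean

-- ===== PACK-BEGIN S24/Deg/H457_Descent.lean
section


/-!
# S24 / DEG-ALG (helper457), part 1: descent of algebraic relations along a coefficient embedding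

`K →+* L` a field embedding, `coeffMap ι : K((q)) → L((q))`.
* `linearIndependent_coeffMap`: `coeffMap ι` maps `K`-linearly independent families to
  `L`-linearly independent families.
* `exists_relation_of_coeffMap_monic`: if `coeffMap ι a` is a root of a monic polynomial of
  degree `n` over `L[coeffMap ι J]`, then `a` is a root of a nonzero polynomial of degree `≤ n`
  over `K[J]`.
-/

set_option autoImplicit false

noncomputable section

open Polynomial ModularCurve

namespace Fermat.Agent.S24.Deg457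

variable {K L : Type*} [Field K] [Field L]

/-- `coeffMap ι` preserves linear independence (over the respective coefficient fields). -/
theorem linearIndependent_coeffMap (ι : K →+* L) {I : Type*} (v : I → LaurentSeries K)
    (hv : LinearIndependent K v) :
    LinearIndependent L (fun i => coeffMap ι (v i)) := by
  classical
  let _ : Algebra K L := ι.toAlgebra
  rw [linearIndependent_iff'] at hv ⊢
  intro s g hg i hi
  -- it suffices to show that every `K`-linear functional kills `g i`
  rw [← Module.forall_dual_apply_eq_zero_iff K]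
  intro φ
  refine hv s (fun i => φ (g i)) ?_ i hi
  ext k
  have hk := congrArg (fun x : LaurentSeries L => x.coeff k) hg
  simp only [HahnSeries.coeff_sum, HahnSeries.coeff_smul, coeffMap_coeff, smul_eq_mul,
    HahnSeries.coeff_zero] at hk ⊢
  have h2 := congrArg φ hk
  rw [_root_.map_zero, _root_.map_sum] at h2
  rw [← h2]
  refine Finset.sum_congr rfl fun x _ => ?_
  have : g x * ι ((v x).coeff k) = ((v x).coeff k) • g x := by
    rw [Algebra.smul_def, mul_comm]; rfl
  rw [this, _root_.map_smul, smul_eq_mul, mul_comm]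

/-- evaluation of polynomials at `J`, as a ring hom -/
abbrev evJ (J : LaurentSeries K) : K[X] →+* LaurentSeries K :=
  (aeval J : K[X] →ₐ[K] LaurentSeries K).toRingHom

theorem evJ_apply (J : LaurentSeries K) (p : K[X]) : evJ J p = aeval J p := rfl

theorem coeffMap_algebraMap' (ι : K →+* L) (c : K) :
    coeffMap ι (algebraMap K (LaurentSeries K) c) = algebraMap L (LaurentSeries L) (ι c) := by
  rw [algebraMap_laurentSeries_eq_single, algebraMap_laurentSeries_eq_single, coeffMap_single]

theorem coeffMap_smul' (ι : K →+* L) (c : K) (x : LaurentSeries K) :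
    coeffMap ι (c • x) = ι c • coeffMap ι x := by
  ext k; simp

/-- the `HahnSeries` scalar action agrees with multiplication by `algebraMap` (for the
power-series algebra structure on Laurent series). -/
theorem hsmul_eq_algebraMap_mul (c : K) (x : LaurentSeries K) :
    c • x = algebraMap K (LaurentSeries K) c * x := by
  rw [algebraMap_laurentSeries_eq_single, HahnSeries.single_zero_mul_eq_smul]

/-- bivariate polynomial attached to a finite coefficient table -/
def tablePoly {D n : ℕ} (g : Fin (D + 1) × Fin (n + 1) → K) : K[X][X] :=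
  ∑ k : Fin (n + 1), monomial (k : ℕ) (∑ i : Fin (D + 1), monomial (i : ℕ) (g (i, k)))

theorem tablePoly_coeff_coeff {D n : ℕ} (g : Fin (D + 1) × Fin (n + 1) → K)
    (i : Fin (D + 1)) (k : Fin (n + 1)) :
    ((tablePoly g).coeff k).coeff i = g (i, k) := by
  classical
  simp only [tablePoly, finsetSum_coeff, coeff_monomial]
  rw [Finset.sum_eq_single k]
  · simp only [if_true, finsetSum_coeff, coeff_monomial]
    rw [Finset.sum_eq_single i]
    · simp
    · intro b _ hb
      rw [if_neg]
      exact fun h => hb (Fin.ext h)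
    · simp
  · intro b _ hb
    rw [if_neg]
    · simp
    · exact fun h => hb (Fin.ext h)
  · simp

theorem tablePoly_natDegree_le {D n : ℕ} (g : Fin (D + 1) × Fin (n + 1) → K) :
    (tablePoly g).natDegree ≤ n := by
  refine natDegree_sum_le_of_forall_le _ _ fun k _ => ?_
  exact (natDegree_monomial_le _).trans (Nat.lt_succ_iff.mp k.2)

theorem tablePoly_eval₂ {D n : ℕ} (g : Fin (D + 1) × Fin (n + 1) → K)
    (J a : LaurentSeries K) :
    (tablePoly g).eval₂ (evJ J) a = ∑ p : Fin (D + 1) × Fin (n + 1), g p • (J ^ (p.1 : ℕ) * a ^ (p.2 : ℕ)) := by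
  rw [tablePoly, eval₂_finsetSum, Fintype.sum_prod_type_right]
  refine Finset.sum_congr rfl fun k _ => ?_
  rw [eval₂_monomial, evJ_apply, _root_.map_sum, Finset.sum_mul]
  refine Finset.sum_congr rfl fun i _ => ?_
  rw [aeval_monomial, hsmul_eq_algebraMap_mul, mul_assoc]

/-- **Descent**: a monic relation of degree `n` over `L[ι J]` for `ι a` gives a nonzero relation
of degree `≤ n` over `K[J]` for `a`. -/
theorem exists_relation_of_coeffMap_monic (ι : K →+* L) (J a : LaurentSeries K) (n : ℕ)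
    (P : L[X][X]) (hP : P.Monic) (hn : P.natDegree = n)
    (h0 : P.eval₂ (evJ (coeffMap ι J)) (coeffMap ι a) = 0) :
    ∃ Q : K[X][X], Q ≠ 0 ∧ Q.natDegree ≤ n ∧ Q.eval₂ (evJ J) a = 0 := by
  classical
  set D : ℕ := P.support.sup fun k => (P.coeff k).natDegree with hD
  have hDle : ∀ k, (P.coeff k).natDegree ≤ D := by
    intro k
    by_cases hk : k ∈ P.support
    · exact Finset.le_sup (f := fun k => (P.coeff k).natDegree) hk
    · rw [notMem_support_iff.mp hk]; simp
  let v : Fin (D + 1) × Fin (n + 1) → LaurentSeries K := fun p => J ^ (p.1 : ℕ) * a ^ (p.2 : ℕ)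
  have hnot : ¬ LinearIndependent K v := by
    intro hv
    have hw := linearIndependent_coeffMap ι v hv
    rw [Fintype.linearIndependent_iff] at hw
    have key := hw (fun p => (P.coeff p.2).coeff p.1) ?_ (0, Fin.last n)
    · simp only [Fin.val_last] at key
      rw [← hn, hP.coeff_natDegree] at key
      simp at key
    · rw [Fintype.sum_prod_type_right]
      rw [eval₂_eq_sum_range' _ (n := n + 1) (by omega)] at h0
      rw [← h0, Finset.sum_range]
      refine Finset.sum_congr rfl fun k _ => ?_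
      rw [evJ_apply, aeval_eq_sum_range' (n := D + 1) (Nat.lt_succ_of_le (hDle _)),
        Finset.sum_range, Finset.sum_mul]
      refine Finset.sum_congr rfl fun i _ => ?_
      simp only [v, _root_.map_mul, _root_.map_pow]
      rw [hsmul_eq_algebraMap_mul, Algebra.smul_def, mul_assoc]
  rw [Fintype.not_linearIndependent_iff] at hnot
  obtain ⟨g, hg, p, hp⟩ := hnot
  refine ⟨tablePoly g, ?_, tablePoly_natDegree_le g, ?_⟩
  · intro h
    apply hp
    rw [← tablePoly_coeff_coeff g p.1 p.2, h]
    simp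
  · rw [tablePoly_eval₂]
    exact hg

end Fermat.Agent.S24.Deg457

end
end
-- ===== PACK-END S24/Deg/H457_Descent.lean

-- ===== PACK-BEGIN S24/M7/H47Level1.lean
section



/-!
# S24 / M1 items D3, D4 (helper47): level-one facts about `j = E₄³ / Δ`

* `exists_E₄_cube_eq_mul_discriminant`, `jFun_surjective` : `j : ℍ → ℂ` is surjective
  (if `E₄³ - c Δ` had no zero, its inverse would be a level-one form of weight `-12`).
* `jFun_smul` : `j` is `SL(2, ℤ)`-invariant.
* `E₆_I`, `E₄_rho` : `E₆(i) = 0`, `E₄(ρ) = 0`; `jFun_I`, `jFun_rho`; `S_smul_I`, `ST_smul_rho`.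
* `analyticOrderAt_jFun_sub_*` : the order of `j - j(z₀)` at `z₀` is `3`, `2`, `1` according to
  `E₄ z₀ = 0`, `E₆ z₀ = 0`, neither.

Built on helper140's `Fermat.Agent.S20.L1.Ramanujan` (Ramanujan identities, `jFun`, `D_jFun`).
-/

set_option autoImplicit false

open UpperHalfPlane ModularForm EisensteinSeries Derivative Filter Topology
open scoped MatrixGroups Manifold

noncomputable section

namespace Fermat.Agent.S24.M7.H47

open Fermat.Agent.S20.L1

local notation "Δ" => ModularForm.discriminant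


/-- Function-level transformation law from slash invariance. -/
lemma smul_eq_of_slash_eq {k : ℤ} {F : ℍ → ℂ} {γ : SL(2, ℤ)} (h : F ∣[k] γ = F) (z : ℍ) :
    F (γ • z) = denom γ z ^ k * F z := by
  have h1 := congrFun h z
  rw [SL_slash_apply] at h1
  have hd : denom γ z ≠ 0 := denom_ne_zero _ _
  rw [← h1, mul_comm, mul_assoc, ← zpow_add₀ hd]
  simp

lemma discriminant_smul_eq (γ : SL(2, ℤ)) (z : ℍ) :
    Δ (γ • z) = denom γ z ^ (12 : ℤ) * Δ z :=
  smul_eq_of_slash_eq
    (SlashInvariantFormClass.slash_action_eq CuspForm.discriminant _ ⟨γ, rfl⟩) z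

lemma E₄_smul_eq (γ : SL(2, ℤ)) (z : ℍ) :
    E₄ (γ • z) = denom γ z ^ (4 : ℤ) * E₄ z :=
  smul_eq_of_slash_eq (levelOne_slash_eq E₄ γ) z

lemma E₆_smul_eq (γ : SL(2, ℤ)) (z : ℍ) :
    E₆ (γ • z) = denom γ z ^ (6 : ℤ) * E₆ z :=
  smul_eq_of_slash_eq (levelOne_slash_eq E₆ γ) z

/-- The weight-12 numerator `E₄³ - c Δ` of `j - c`. -/
def jNum (c : ℂ) : ℍ → ℂ := fun z ↦ E₄ z ^ 3 - c * Δ z

lemma mdiff_jNum (c : ℂ) : MDiff (jNum c) := by
  have h : jNum c = (E₄ : ℍ → ℂ) ^ 3 - c • (Δ : ℍ → ℂ) := by
    funext z; simp [jNum]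
  rw [h]
  exact (mdiff_E₄.pow 3).sub (mdiff_discriminant.const_smul _)

lemma jNum_smul (c : ℂ) (γ : SL(2, ℤ)) (z : ℍ) :
    jNum c (γ • z) = denom γ z ^ (12 : ℤ) * jNum c z := by
  have hd : denom γ z ≠ 0 := denom_ne_zero _ _
  simp only [jNum, discriminant_smul_eq, E₄_smul_eq]
  rw [mul_pow, ← zpow_natCast (denom γ z ^ (4:ℤ)) 3, ← zpow_mul]
  norm_num
  ring

lemma tendsto_jNum (c : ℂ) : Tendsto (jNum c) atImInfty (𝓝 1) := by
  have h1 : Tendsto (fun z : ℍ ↦ E₄ z ^ 3) atImInfty (𝓝 (1 ^ 3)) := tendsto_E₄.pow 3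
  have h2 : Tendsto (fun z : ℍ ↦ c * Δ z) atImInfty (𝓝 (c * 0)) :=
    (discriminant_isZeroAtImInfty).const_mul c
  have h3 := h1.sub h2
  simp only [one_pow, mul_zero, sub_zero] at h3
  exact h3

/-- `E₄³ - c Δ` has a zero on `ℍ`, for every `c`. -/
theorem exists_jNum_eq_zero (c : ℂ) : ∃ z : ℍ, jNum c z = 0 := by
  by_contra hne
  replace hne : ∀ z : ℍ, jNum c z ≠ 0 := fun z hz ↦ hne ⟨z, hz⟩
  have hol : MDiff (fun z ↦ (1 : ℂ) / jNum c z) :=
    (mdifferentiable_const (c := (1:ℂ))).div (mdiff_jNum c) hne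
  have inv : ∀ γ : SL(2, ℤ), (fun z ↦ (1 : ℂ) / jNum c z) ∣[(-12 : ℤ)] γ
      = fun z ↦ (1 : ℂ) / jNum c z := by
    intro γ
    funext z
    have hd : denom γ z ≠ 0 := denom_ne_zero _ _
    rw [SL_slash_apply, jNum_smul]
    have := hne z
    simp only [neg_neg]
    field_simp
  have bdd : IsBoundedAtImInfty (fun z ↦ (1 : ℂ) / jNum c z) := by
    have h : Tendsto (fun z ↦ (1 : ℂ) / jNum c z) atImInfty (𝓝 (1 / 1)) :=
      (tendsto_const_nhds).div (tendsto_jNum c) one_ne_zero
    exact h.isBigO_one ℝ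
  have h0 := ModularFormClass.levelOne_neg_weight_eq_zero (by norm_num)
    (mkLevelOne (-12) _ hol inv bdd)
  have h1 := congrFun h0 UpperHalfPlane.I
  simp only [coe_mkLevelOne, Pi.zero_apply, one_div, inv_eq_zero] at h1
  exact hne _ h1

/-- For every `c : ℂ` there is `z ∈ ℍ` with `E₄(z)³ = c Δ(z)`. -/
theorem exists_E₄_cube_eq_mul_discriminant (c : ℂ) : ∃ z : ℍ, E₄ z ^ 3 = c * Δ z := by
  obtain ⟨z, hz⟩ := exists_jNum_eq_zero c
  exact ⟨z, sub_eq_zero.mp hz⟩

/-- **`j` is surjective.** -/
theorem jFun_surjective : Function.Surjective jFun := by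
  intro c
  obtain ⟨z, hz⟩ := exists_E₄_cube_eq_mul_discriminant c
  exact ⟨z, by rw [jFun, hz, mul_div_assoc, div_self (discriminant_ne_zero z), mul_one]⟩

/-- `j` is `SL(2, ℤ)`-invariant. -/
lemma jFun_smul (γ : SL(2, ℤ)) (z : ℍ) : jFun (γ • z) = jFun z := by
  have hd : denom γ z ≠ 0 := denom_ne_zero _ _
  have hΔ := discriminant_ne_zero z
  simp only [jFun, discriminant_smul_eq, E₄_smul_eq]
  rw [mul_pow, ← zpow_natCast (denom γ z ^ (4:ℤ)) 3, ← zpow_mul]
  norm_num
  field_simp

/-! ### The elliptic points -/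

lemma S_smul_I : ModularGroup.S • UpperHalfPlane.I = UpperHalfPlane.I := by
  rw [modular_S_smul]
  ext
  simp [Complex.inv_I]

/-- `E₆(i) = 0`. -/
theorem E₆_I : E₆ UpperHalfPlane.I = 0 := by
  have h := E₆_smul_eq ModularGroup.S UpperHalfPlane.I
  rw [S_smul_I, ModularGroup.denom_S] at h
  have h6 : ((UpperHalfPlane.I : ℍ) : ℂ) ^ (6 : ℤ) = -1 := by
    have : ((UpperHalfPlane.I : ℍ) : ℂ) = Complex.I := rfl
    rw [this]
    norm_cast
    rw [show (6 : ℕ) = 2 * 3 by norm_num, pow_mul, Complex.I_sq]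
    norm_num
  rw [h6] at h
  have : (2 : ℂ) * E₆ UpperHalfPlane.I = 0 := by linear_combination h
  simpa using this

/-- The elliptic point `ρ = e^{2πi/3} = -1/2 + (√3/2) i`. -/
def rho : ℍ := ⟨-1 / 2 + (Real.sqrt 3 / 2 : ℝ) * Complex.I, by simp⟩

lemma coe_rho : (rho : ℂ) = -1 / 2 + (Real.sqrt 3 / 2 : ℝ) * Complex.I := rfl

lemma rho_sq_add : (rho : ℂ) ^ 2 + (rho : ℂ) + 1 = 0 := by
  rw [coe_rho]
  have h3 : ((Real.sqrt 3 : ℝ) : ℂ) ^ 2 = 3 := by
    norm_cast
    exact Real.sq_sqrt (by norm_num)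
  push_cast
  linear_combination (Complex.I ^ 2 / 4) * h3 + (3 / 4 : ℂ) * Complex.I_sq

lemma ST_smul_rho : (ModularGroup.S * ModularGroup.T) • rho = rho := by
  ext
  rw [coe_specialLinearGroup_apply]
  have h := rho_sq_add
  have hne : (rho : ℂ) + 1 ≠ 0 := by
    intro h1
    have : (rho : ℂ) = -1 := by linear_combination h1
    rw [this] at h
    norm_num at h
  simp [ModularGroup.S, ModularGroup.T]
  field_simp
  linear_combination -h

lemma denom_ST (z : ℍ) : denom (ModularGroup.S * ModularGroup.T : SL(2, ℤ)) z = (z : ℂ) + 1 := by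
  rw [ModularGroup.denom_apply]
  simp [ModularGroup.S, ModularGroup.T, Matrix.mul_apply, Fin.sum_univ_two]

lemma denom_ST_rho : denom (ModularGroup.S * ModularGroup.T : SL(2, ℤ)) rho = (rho : ℂ) + 1 :=
  denom_ST rho

/-- `E₄(ρ) = 0`. -/
theorem E₄_rho : E₄ rho = 0 := by
  have h := E₄_smul_eq (ModularGroup.S * ModularGroup.T) rho
  rw [ST_smul_rho, denom_ST_rho] at h
  have hr := rho_sq_add
  have h4 : ((rho : ℂ) + 1) ^ (4 : ℤ) = -(rho : ℂ) - 1 := by
    norm_cast
    have h2 : ((rho : ℂ) + 1) ^ 2 = (rho : ℂ) := by linear_combination hr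
    rw [show (4 : ℕ) = 2 * 2 by norm_num, pow_mul, h2]
    linear_combination hr
  rw [h4] at h
  have hne : (rho : ℂ) + 2 ≠ 0 := by
    intro h1
    have : (rho : ℂ) = -2 := by linear_combination h1
    rw [this] at hr
    norm_num at hr
  have : ((rho : ℂ) + 2) * E₄ rho = 0 := by linear_combination h
  rcases mul_eq_zero.mp this with h' | h'
  · exact absurd h' hne
  · exact h'

theorem jFun_I : jFun UpperHalfPlane.I = 1728 := (jFun_eq_1728_iff _).mpr E₆_I

theorem jFun_rho : jFun rho = 0 := (jFun_eq_zero_iff _).mpr E₄_rho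



/-! ### Local orders of `j` -/

lemma analyticAt_comp_ofComplex {F : ℍ → ℂ} (hF : MDiff F) (z : ℍ) :
    AnalyticAt ℂ (F ∘ ofComplex) (z : ℂ) :=
  (UpperHalfPlane.mdifferentiable_iff.mp hF).analyticAt
    (isOpen_upperHalfPlaneSet.mem_nhds z.im_pos)

lemma deriv_comp_ofComplex_ne_zero {F : ℍ → ℂ} {z : ℍ} (h : D F z ≠ 0) :
    deriv (F ∘ ofComplex) (z : ℂ) ≠ 0 := by
  intro h0
  apply h
  simp [normalizedDerivOfComplex, h0]

lemma mdiff_inv_discriminant : MDiff (fun z : ℍ ↦ (Δ z)⁻¹) := by
  have := (mdifferentiable_const (c := (1:ℂ))).div mdiff_discriminant discriminant_ne_zero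
  have h : (fun z : ℍ ↦ (Δ z)⁻¹) = (fun _ ↦ (1 : ℂ)) / (Δ : ℍ → ℂ) := by
    funext z; simp
  rw [h]
  exact this

lemma analyticOrderAt_inv_discriminant (z : ℍ) :
    analyticOrderAt ((fun z : ℍ ↦ (Δ z)⁻¹) ∘ ofComplex) (z : ℂ) = 0 := by
  rw [(analyticAt_comp_ofComplex mdiff_inv_discriminant z).analyticOrderAt_eq_zero]
  simp [discriminant_ne_zero]

/-- Zeros of `E₄` have order one. -/
theorem analyticOrderAt_E₄ {z : ℍ} (h : E₄ z = 0) :
    analyticOrderAt ((E₄ : ℍ → ℂ) ∘ ofComplex) (z : ℂ) = 1 :=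
  (analyticAt_comp_ofComplex mdiff_E₄ z).analyticOrderAt_eq_one_of_zero_deriv_ne_zero
    (by simpa using h) (deriv_comp_ofComplex_ne_zero (D_E₄_ne_zero h))

/-- Zeros of `E₆` have order one. -/
theorem analyticOrderAt_E₆ {z : ℍ} (h : E₆ z = 0) :
    analyticOrderAt ((E₆ : ℍ → ℂ) ∘ ofComplex) (z : ℂ) = 1 :=
  (analyticAt_comp_ofComplex mdiff_E₆ z).analyticOrderAt_eq_one_of_zero_deriv_ne_zero
    (by simpa using h) (deriv_comp_ofComplex_ne_zero (D_E₆_ne_zero h))

/-- At a point with `E₄ E₆ ≠ 0` (i.e. `j ≠ 0, 1728`), `j - j(z₀)` vanishes to order `1`. -/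
theorem analyticOrderAt_jFun_sub_generic {z₀ : ℍ} (h4 : E₄ z₀ ≠ 0) (h6 : E₆ z₀ ≠ 0) :
    analyticOrderAt (fun w : ℂ ↦ jFun (ofComplex w) - jFun z₀) (z₀ : ℂ) = 1 := by
  have h := (analyticAt_comp_ofComplex mdiff_jFun z₀).analyticOrderAt_sub_eq_one_of_deriv_ne_zero
    (deriv_comp_ofComplex_ne_zero (D_jFun_ne_zero h4 h6))
  simpa using h

/-- At a zero of `E₆` (i.e. `j = 1728`), `j - j(z₀)` vanishes to order `2`. -/
theorem analyticOrderAt_jFun_sub_of_E₆ {z₀ : ℍ} (h : E₆ z₀ = 0) :
    analyticOrderAt (fun w : ℂ ↦ jFun (ofComplex w) - jFun z₀) (z₀ : ℂ) = 2 := by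
  have hfun : (fun w : ℂ ↦ jFun (ofComplex w) - jFun z₀)
      = ((E₆ : ℍ → ℂ) ∘ ofComplex) ^ 2 * ((fun z : ℍ ↦ (Δ z)⁻¹) ∘ ofComplex) := by
    funext w
    rw [(jFun_eq_1728_iff z₀).mpr h]
    have hΔ := discriminant_ne_zero (ofComplex w)
    have := E₄_cube_sub_E₆_sq (ofComplex w)
    simp only [jFun, Pi.mul_apply, Pi.pow_apply, Function.comp_apply]
    field_simp
    linear_combination this
  rw [hfun, analyticOrderAt_mul ((analyticAt_comp_ofComplex mdiff_E₆ z₀).pow 2)
    (analyticAt_comp_ofComplex mdiff_inv_discriminant z₀),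
    analyticOrderAt_pow (analyticAt_comp_ofComplex mdiff_E₆ z₀), analyticOrderAt_E₆ h,
    analyticOrderAt_inv_discriminant]
  rfl

/-- At a zero of `E₄` (i.e. `j = 0`), `j - j(z₀)` vanishes to order `3`. -/
theorem analyticOrderAt_jFun_sub_of_E₄ {z₀ : ℍ} (h : E₄ z₀ = 0) :
    analyticOrderAt (fun w : ℂ ↦ jFun (ofComplex w) - jFun z₀) (z₀ : ℂ) = 3 := by
  have hfun : (fun w : ℂ ↦ jFun (ofComplex w) - jFun z₀)
      = ((E₄ : ℍ → ℂ) ∘ ofComplex) ^ 3 * ((fun z : ℍ ↦ (Δ z)⁻¹) ∘ ofComplex) := by
    funext w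
    rw [(jFun_eq_zero_iff z₀).mpr h]
    simp only [jFun, Pi.mul_apply, Pi.pow_apply, Function.comp_apply, sub_zero, div_eq_mul_inv]
  rw [hfun, analyticOrderAt_mul ((analyticAt_comp_ofComplex mdiff_E₄ z₀).pow 3)
    (analyticAt_comp_ofComplex mdiff_inv_discriminant z₀),
    analyticOrderAt_pow (analyticAt_comp_ofComplex mdiff_E₄ z₀), analyticOrderAt_E₄ h,
    analyticOrderAt_inv_discriminant]
  rfl

end Fermat.Agent.S24.M7.H47

end
end
-- ===== PACK-END S24/M7/H47Level1.lean

-- ===== PACK-BEGIN S24/FFOrdLike.lean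
section




/-!
# S24 / FF layer: recognising `Place.ord` from any order-like function

If `N : F → ℤ` is additive on nonzero elements and `O_v = {N ≥ 0}` then `N = N(ϖ) · ord_v`.
(helper804)
-/

set_option autoImplicit false

namespace Fermat.Agent.S24.FF

open AlgebraicCurve

variable {K F : Type*} [Field K] [Field F] [Algebra K F]

section OrdLike

variable (N : F → ℤ) (hmul : ∀ f g : F, f ≠ 0 → g ≠ 0 → N (f * g) = N f + N g)

include hmul

theorem ordLike_one : N 1 = 0 := by
  have := hmul 1 1 one_ne_zero one_ne_zero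
  rw [mul_one] at this
  omega

theorem ordLike_inv {f : F} (hf : f ≠ 0) : N f⁻¹ = -N f := by
  have := hmul f f⁻¹ hf (inv_ne_zero hf)
  rw [mul_inv_cancel₀ hf, ordLike_one N hmul] at this
  omega

theorem ordLike_pow {f : F} (hf : f ≠ 0) (n : ℕ) : N (f ^ n) = n * N f := by
  induction n with
  | zero => simp [ordLike_one N hmul]
  | succ n ih =>
    rw [pow_succ, hmul _ _ (pow_ne_zero n hf) hf, ih]
    push_cast
    ring

theorem ordLike_zpow {f : F} (hf : f ≠ 0) (n : ℤ) : N (f ^ n) = n * N f := by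
  obtain ⟨m, rfl | rfl⟩ := n.eq_nat_or_neg
  · rw [zpow_natCast, ordLike_pow N hmul hf]
  · rw [zpow_neg, zpow_natCast, ordLike_inv N hmul (pow_ne_zero m hf), ordLike_pow N hmul hf]
    ring

/-- An order-like function with valuation ring `O_v` is a multiple of `ord_v`. -/
theorem ordLike_eq_ord_mul (v : Place K F)
    (hmem : ∀ f : F, f ≠ 0 → (f ∈ v.toValuationSubring ↔ 0 ≤ N f))
    {ϖ : v.toValuationSubring} (hϖ : Irreducible ϖ) {f : F} (hf : f ≠ 0) :
    N f = v.ord f * N (ϖ : F) := by
  have hϖF : (ϖ : F) ≠ 0 := by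
    simpa [ne_eq, ZeroMemClass.coe_eq_zero] using hϖ.ne_zero
  obtain ⟨u, hu⟩ := v.exists_unit_mul_zpow hf hϖ
  have hu0 : ((u : v.toValuationSubring) : F) ≠ 0 := by
    simp [ne_eq, ZeroMemClass.coe_eq_zero]
  have hNu : N ((u : v.toValuationSubring) : F) = 0 := by
    have h1 := (hmem _ hu0).mp (u : v.toValuationSubring).2
    have hinv : (((u⁻¹ : v.toValuationSubringˣ) : v.toValuationSubring) : F)
        = (((u : v.toValuationSubring) : F))⁻¹ := by
      apply eq_inv_of_mul_eq_one_left
      have h := congrArg (fun a : v.toValuationSubring => (a : F)) (Units.inv_mul u)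
      exact h
    have h2 := (hmem _ (inv_ne_zero hu0)).mp (by
      rw [← hinv]
      exact ((u⁻¹ : v.toValuationSubringˣ) : v.toValuationSubring).2)
    rw [ordLike_inv N hmul hu0] at h2
    omega
  conv_lhs => rw [hu]
  rw [hmul _ _ hu0 (zpow_ne_zero _ hϖF), hNu, zero_add, ordLike_zpow N hmul hϖF]

/-- Normalised version: if moreover some nonzero element has `N = 1`, then `N = ord_v`. -/
theorem ordLike_eq_ord (v : Place K F)
    (hmem : ∀ f : F, f ≠ 0 → (f ∈ v.toValuationSubring ↔ 0 ≤ N f))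
    {π : F} (hπ0 : π ≠ 0) (hπ : N π = 1) {f : F} (hf : f ≠ 0) :
    N f = v.ord f := by
  obtain ⟨ϖ, hϖ⟩ := IsDiscreteValuationRing.exists_irreducible v.toValuationSubring
  have hϖF : (ϖ : F) ≠ 0 := by
    simpa [ne_eq, ZeroMemClass.coe_eq_zero] using hϖ.ne_zero
  have key := ordLike_eq_ord_mul N hmul v hmem hϖ hπ0
  have hNϖ : 0 ≤ N (ϖ : F) := (hmem _ hϖF).mp ϖ.2
  rw [hπ] at key
  have hone : N (ϖ : F) = 1 := by
    have h1 : v.ord π * N (ϖ : F) = 1 := key.symm
    rcases Int.eq_one_or_neg_one_of_mul_eq_one' h1 with ⟨_, h⟩ | ⟨_, h⟩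
    · exact h
    · omega
  rw [ordLike_eq_ord_mul N hmul v hmem hϖ hf, hone, mul_one]

end OrdLike

end Fermat.Agent.S24.FF

end
-- ===== PACK-END S24/FFOrdLike.lean

-- ===== PACK-BEGIN S24/Alg/H240Diff.lean
section


/-!
# S24 / ALG — the formal derivative on Laurent series is a derivation, and
`Ω[F⁄K] ≠ 0` from one local embedding

* `lsD` : the derivative `d/dz` on `LaurentSeries C`, with the Leibniz rule `lsD_mul`;
* `lsD_ne_zero_of_order_ne_zero` : in characteristic zero, `d/dz f ≠ 0` if `ord f ≠ 0`;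
* `embDerivation` : for a ring hom `σ : F →+* LaurentSeries C` sending `K` to constants,
  `f ↦ d/dz (σ f)` as a `K`-derivation of `F`;
* `exists_differential_ne_zero_of_nonempty` : the interface statement
  `exists_differential_ne_zero` of `Alg.lean`, with the (necessary) extra hypothesis
  `[Nonempty X]`.
-/

set_option autoImplicit false

noncomputable section

open HahnSeries KaehlerDifferential

namespace Fermat.Agent.S24.H240

section Laurent

variable {C : Type*} [CommRing C]

/-- The formal derivative `d/dz` on Laurent series. -/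
def lsD (f : LaurentSeries C) : LaurentSeries C := LaurentSeries.derivative C f

theorem lsD_coeff (f : LaurentSeries C) (n : ℤ) :
    (lsD f).coeff n = (n + 1) • f.coeff (n + 1) := by
  simp [lsD, LaurentSeries.hasseDeriv_coeff]

theorem lsD_add (f g : LaurentSeries C) : lsD (f + g) = lsD f + lsD g :=
  _root_.map_add (LaurentSeries.derivative C) f g

theorem lsD_zero : lsD (0 : LaurentSeries C) = 0 :=
  _root_.map_zero (LaurentSeries.derivative C)

theorem lsD_C (c : C) : lsD (HahnSeries.C c : LaurentSeries C) = 0 := by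
  ext n
  rw [lsD_coeff, HahnSeries.coeff_zero]
  by_cases h : n + 1 = 0
  · rw [h, zero_smul]
  · rw [HahnSeries.C_apply, HahnSeries.coeff_single_of_ne h, smul_zero]

/-- Derivative of `z^a * f`. -/
theorem lsD_single_mul (a : ℤ) (f : LaurentSeries C) :
    lsD ((single a (1 : C)) * f) =
      a • ((single (a - 1) (1 : C)) * f) + (single a (1 : C)) * lsD f := by
  ext n
  rw [lsD_coeff, HahnSeries.coeff_add, HahnSeries.coeff_smul, HahnSeries.coeff_single_mul,
    HahnSeries.coeff_single_mul, HahnSeries.coeff_single_mul, lsD_coeff, one_mul, one_mul,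
    one_mul]
  have h1 : n + 1 - a = n - (a - 1) := by ring
  have h2 : n - a + 1 = n - (a - 1) := by ring
  rw [h1, h2, ← add_smul]
  congr 1
  ring

/-- The derivative of (the image of) a power series is (the image of) its derivative. -/
theorem lsD_ofPowerSeries (p : PowerSeries C) :
    lsD (HahnSeries.ofPowerSeries ℤ C p) =
      HahnSeries.ofPowerSeries ℤ C (PowerSeries.derivative C p) := by
  ext n
  rw [lsD_coeff]
  change _ • ((p : PowerSeries C) : LaurentSeries C).coeff (n + 1) =
    ((PowerSeries.derivative C p : PowerSeries C) : LaurentSeries C).coeff n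
  rw [PowerSeries.coeff_coe, PowerSeries.coeff_coe]
  by_cases hn : n < 0
  · rw [if_pos hn]
    by_cases hn1 : n + 1 < 0
    · rw [if_pos hn1, smul_zero]
    · have : n + 1 = 0 := by omega
      rw [this, zero_smul]
  · rw [if_neg hn, if_neg (by omega)]
    obtain ⟨k, rfl⟩ := Int.eq_ofNat_of_zero_le (not_lt.mp hn)
    have hk : ((k : ℤ) + 1).natAbs = k + 1 := by omega
    rw [hk, Int.natAbs_natCast]
    change _ = PowerSeries.coeff k (PowerSeries.derivative C p)
    rw [PowerSeries.coeff_derivative, zsmul_eq_mul, mul_comm]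
    push_cast
    ring

theorem lsD_ofPowerSeries_mul (p q : PowerSeries C) :
    lsD (HahnSeries.ofPowerSeries ℤ C p * HahnSeries.ofPowerSeries ℤ C q) =
      HahnSeries.ofPowerSeries ℤ C p * lsD (HahnSeries.ofPowerSeries ℤ C q) +
        HahnSeries.ofPowerSeries ℤ C q * lsD (HahnSeries.ofPowerSeries ℤ C p) := by
  rw [← _root_.map_mul, lsD_ofPowerSeries, lsD_ofPowerSeries, lsD_ofPowerSeries,
    Derivation.leibniz, _root_.map_add, smul_eq_mul, smul_eq_mul, _root_.map_mul, _root_.map_mul]

/-- **Leibniz rule** for the formal derivative of Laurent series. -/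
theorem lsD_mul (f g : LaurentSeries C) : lsD (f * g) = f * lsD g + g * lsD f := by
  have hf := LaurentSeries.single_order_mul_powerSeriesPart f
  have hg := LaurentSeries.single_order_mul_powerSeriesPart g
  set p := HahnSeries.ofPowerSeries ℤ C f.powerSeriesPart with hp
  set q := HahnSeries.ofPowerSeries ℤ C g.powerSeriesPart with hq
  set a := f.order with ha
  set b := g.order with hb
  have hfg : f * g = single (a + b) (1 : C) * (p * q) := by
    rw [← hf, ← hg]
    have : (single (a + b) (1 : C) : LaurentSeries C) = single a 1 * single b 1 := by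
      rw [HahnSeries.single_mul_single, one_mul]
    rw [this]
    ring
  have hsa : (single a (1 : C) : LaurentSeries C) = single (a - 1) 1 * single 1 1 := by
    rw [HahnSeries.single_mul_single, one_mul, sub_add_cancel]
  have hsb : (single b (1 : C) : LaurentSeries C) = single (b - 1) 1 * single 1 1 := by
    rw [HahnSeries.single_mul_single, one_mul, sub_add_cancel]
  have hsab : (single (a + b) (1 : C) : LaurentSeries C) =
      single (a - 1) 1 * single (b - 1) 1 * (single 1 1 * single 1 1) := by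
    simp only [HahnSeries.single_mul_single, one_mul]
    have : a + b = a - 1 + (b - 1) + (1 + 1) := by ring
    rw [← this]
  have hsab1 : (single (a + b - 1) (1 : C) : LaurentSeries C) =
      single (a - 1) 1 * single (b - 1) 1 * single 1 1 := by
    simp only [HahnSeries.single_mul_single, one_mul]
    have : a + b - 1 = a - 1 + (b - 1) + 1 := by ring
    rw [← this]
  have e1 : lsD f = a • (single (a - 1) (1 : C) * p) + single a (1 : C) * lsD p := by
    conv_lhs => rw [← hf]
    exact lsD_single_mul a p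
  have e2 : lsD g = b • (single (b - 1) (1 : C) * q) + single b (1 : C) * lsD q := by
    conv_lhs => rw [← hg]
    exact lsD_single_mul b q
  rw [hfg, lsD_single_mul, lsD_ofPowerSeries_mul, e1, e2]
  conv_rhs => rw [← hf, ← hg]
  rw [hsab, hsab1, hsa, hsb]
  simp only [zsmul_eq_mul]
  push_cast
  ring

theorem lsD_one : lsD (1 : LaurentSeries C) = 0 := by
  have := lsD_C (1 : C)
  rwa [_root_.map_one] at this

end Laurent

section CharZero

variable {C : Type*} [Field C] [CharZero C]

/-- In characteristic zero, a Laurent series of nonzero order has nonzero derivative. -/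
theorem lsD_ne_zero_of_order_ne_zero (f : LaurentSeries C) (hf : f.order ≠ 0) : lsD f ≠ 0 := by
  have hf0 : f ≠ 0 := by
    rintro rfl
    exact hf HahnSeries.order_zero
  intro h
  have hc := congrArg (fun g : LaurentSeries C => g.coeff (f.order - 1)) h
  simp only [lsD_coeff, sub_add_cancel, HahnSeries.coeff_zero] at hc
  rw [zsmul_eq_mul, mul_eq_zero] at hc
  rcases hc with hc | hc
  · exact hf (by exact_mod_cast hc)
  · exact hf0 (HahnSeries.coeff_order_eq_zero.mp hc)

end CharZero

section Derivation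

variable {K F : Type*} [Field K] [Field F] [Algebra K F]
variable {C : Type*} [Field C]

/-- For a ring hom `σ : F →+* LaurentSeries C` mapping `K` to constants, the map
`f ↦ d/dz (σ f)` is a `K`-derivation of `F` into `LaurentSeries C` (an `F`-module via `σ`). -/
theorem exists_embDerivation (σ : F →+* LaurentSeries C) (ι : K →+* C)
    (hσ : ∀ c : K, σ (algebraMap K F c) = HahnSeries.C (ι c)) (y : F)
    (hy : lsD (σ y) ≠ 0) : KaehlerDifferential.D K F y ≠ 0 := by
  let modF : Module F (LaurentSeries C) := Module.compHom (LaurentSeries C) σ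
  let modK : Module K (LaurentSeries C) :=
    Module.compHom (LaurentSeries C) (σ.comp (algebraMap K F))
  have : IsScalarTower K F (LaurentSeries C) :=
    ⟨fun c f g => by
      change σ (c • f) * g = σ (algebraMap K F c) * (σ f * g)
      rw [Algebra.smul_def, _root_.map_mul, mul_assoc]⟩
  have hsmulF : ∀ (f : F) (g : LaurentSeries C), f • g = σ f * g := fun _ _ => rfl
  have hsmulK : ∀ (c : K) (g : LaurentSeries C), c • g = σ (algebraMap K F c) * g :=
    fun _ _ => rfl
  let δ : Derivation K F (LaurentSeries C) :=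
    { toFun := fun f => lsD (σ f)
      map_add' := fun f g => by simp only [_root_.map_add, lsD_add]
      map_smul' := fun c f => by
        simp only [RingHom.id_apply]
        rw [hsmulK, Algebra.smul_def, _root_.map_mul, lsD_mul, hσ, lsD_C, mul_zero, add_zero]
      map_one_eq_zero' := by
        change lsD (σ 1) = 0
        rw [_root_.map_one, lsD_one]
      leibniz' := fun f g => by
        change lsD (σ (f * g)) = f • lsD (σ g) + g • lsD (σ f)
        rw [_root_.map_mul, lsD_mul, hsmulF, hsmulF] }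
  intro h0
  apply hy
  have : δ.liftKaehlerDifferential (KaehlerDifferential.D K F y) = δ y :=
    Derivation.liftKaehlerDifferential_comp_D δ y
  rw [h0, _root_.map_zero] at this
  exact this.symm

end Derivation

section Interface

variable {K F : Type*} [Field K] [Field F] [Algebra K F]
variable {C : Type*} [Field C] [CharZero C] {X : Type*}

/-- Interface theorem `exists_differential_ne_zero` of `Alg.lean`, with the necessary
hypothesis `[Nonempty X]` (it is false for empty `X`). -/
theorem exists_differential_ne_zero_of_nonempty [Nonempty X] (j : F)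
    (dataInf : LocalData K F C X j⁻¹) :
    ∃ ω : Ω[F⁄K], ω ≠ 0 := by
  obtain ⟨x⟩ := ‹Nonempty X›
  refine ⟨KaehlerDifferential.D K F j⁻¹, ?_⟩
  apply exists_embDerivation (dataInf.σ x) dataInf.ι (dataInf.σ_const x)
  apply lsD_ne_zero_of_order_ne_zero
  rw [dataInf.σ_t_order x]
  exact_mod_cast dataInf.m_pos.ne'

end Interface

end Fermat.Agent.S24.H240

end
end
-- ===== PACK-END S24/Alg/H240Diff.lean

-- ===== PACK-BEGIN S24/H84/OrdDiff.lean
section




/-!
# Order of `dy` at a place via a Laurent-series embedding (helper84, S24 pieces KD2 + KD4)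
-/

set_option autoImplicit false

noncomputable section

open KaehlerDifferential IntermediateField AlgebraicCurve
open scoped IntermediateField.algebraAdjoinAdjoin

namespace Fermat.Agent.S24.H84

variable {K F : Type*} [Field K] [Field F] [Algebra K F]

/-- Constants have order zero at every place. -/
theorem place_ord_algebraMap (v : Place K F) (c : K) : v.ord (algebraMap K F c) = 0 := by
  rcases eq_or_ne c 0 with rfl | hc
  · simp
  · have hu : IsUnit (algebraMap K v.toValuationSubring c) := (IsUnit.mk0 c hc).map _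
    have := v.ord_coe_unit hu.unit
    simpa using this

/-- The (private) uniformizer of the Prelude, exposed. -/
theorem place_exists_uniformizer (v : Place K F) :
    ∃ π : F, v.ord π = 1 ∧ v.dCoord = D K F π :=
  ⟨_, v.ord_coe_irreducible
    (IsDiscreteValuationRing.exists_irreducible v.toValuationSubring).choose_spec, rfl⟩

/-- Over an algebraically closed field, an algebraic element is a constant. -/
theorem mem_range_algebraMap_of_isAlgebraic [IsAlgClosed K] {f : F} (halg : IsAlgebraic K f) :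
    ∃ c : K, algebraMap K F c = f := by
  have hint : IsIntegral K f := halg.isIntegral
  have hq : (minpoly K f).leadingCoeff = 1 := minpoly.monic hint
  have h : (minpoly K f).degree = 1 :=
    IsAlgClosed.degree_eq_one_of_irreducible K (minpoly.irreducible hint)
  have : Polynomial.aeval f (minpoly K f) = 0 := minpoly.aeval K f
  rw [Polynomial.eq_X_add_C_of_degree_eq_one h, hq, Polynomial.C_1, one_mul,
    Polynomial.aeval_add, Polynomial.aeval_X, Polynomial.aeval_C, add_eq_zero_iff_eq_neg] at this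
  exact ⟨-(minpoly K f).coeff 0, by rw [map_neg]; exact this.symm⟩

/-- Over an algebraically closed constant field, a function with nonzero order at some place is
transcendental. -/
theorem place_transcendental_of_ord_ne_zero [IsAlgClosed K] (v : Place K F) {f : F}
    (h : v.ord f ≠ 0) : Transcendental K f := by
  intro halg
  obtain ⟨c, rfl⟩ := mem_range_algebraMap_of_isAlgebraic halg
  exact h (place_ord_algebraMap v c)

/-- If `F` is finite over `K(j)` then `F` is algebraic over `K(π)` for every transcendental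
`π`. -/
theorem isAlgebraic_adjoin_simple_of_transcendental (j : F) [FiniteDimensional K⟮j⟯ F]
    {π : F} (hπ : Transcendental K π) : Algebra.IsAlgebraic K⟮π⟯ F := by
  have hA : Algebra.IsAlgebraic K⟮j⟯ F := Algebra.IsAlgebraic.of_finite _ _
  have hA' : Algebra.IsAlgebraic (Algebra.adjoin K {j}) F :=
    (IsFractionRing.comap_isAlgebraic_iff (A := Algebra.adjoin K {j}) (K := K⟮j⟯)).2 hA
  have h1 : Algebra.trdeg K F ≤ 1 := by
    simpa using Algebra.IsAlgebraic.trdeg_le_cardinalMk K ({j} : Set F)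
  have hind : AlgebraicIndependent K (fun _ : PUnit => π) :=
    algebraicIndependent_unique_type_iff.2 hπ
  have hb : IsTranscendenceBasis K (fun _ : PUnit => π) :=
    hind.isTranscendenceBasis_of_trdeg_le_of_finite (by simpa using h1)
  have := hb.isAlgebraic_field
  have hr : (Set.range fun _ : PUnit => π) = {π} := Set.range_const
  rwa [hr] at this

/-- `DCoordGenerates` for every place of a function field in one variable over an algebraically
closed field of characteristic zero. -/
theorem place_dCoordGenerates [IsAlgClosed K] [CharZero K] (j : F) [FiniteDimensional K⟮j⟯ F]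
    (v : Place K F) : v.DCoordGenerates := by
  obtain ⟨π, hπ, hd⟩ := place_exists_uniformizer v
  have htr : Transcendental K π :=
    place_transcendental_of_ord_ne_zero v (by rw [hπ]; exact one_ne_zero)
  have := isAlgebraic_adjoin_simple_of_transcendental j htr
  exact ⟨by rw [hd]; exact span_D_eq_top π⟩

section Embedding

variable {C : Type*} [Field C]

/-- Pull-back of `d/dz` along a field embedding `σ : F → C((z))` which is constant on `K`:
there is an additive map `L : Ω[F⁄K] → C((z))`, `σ`-semilinear, with `L (D y) = d(σ y)/dz`. -/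
theorem exists_kaehler_to_laurent (σ : F →+* LaurentSeries C) (ι : K →+* C)
    (hσ : ∀ c : K, σ (algebraMap K F c) = HahnSeries.C (ι c)) :
    ∃ L : Ω[F⁄K] →+ LaurentSeries C,
      (∀ (f : F) (ω : Ω[F⁄K]), L (f • ω) = σ f * L ω) ∧
      ∀ y : F, L (D K F y) = laurentD C (σ y) := by
  let : Module F (LaurentSeries C) := Module.compHom _ σ
  let : Module K (LaurentSeries C) := Module.compHom _ (σ.comp (algebraMap K F))
  have hF : ∀ (f : F) (m : LaurentSeries C), f • m = σ f * m := fun _ _ => rfl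
  have hK : ∀ (k : K) (m : LaurentSeries C), k • m = σ (algebraMap K F k) * m := fun _ _ => rfl
  have : IsScalarTower K F (LaurentSeries C) := ⟨fun k f m => by
    rw [hF, hK, hF, Algebra.smul_def, map_mul, mul_assoc]⟩
  let δ : Derivation K F (LaurentSeries C) :=
    { toFun := fun f => laurentD C (σ f)
      map_add' := fun f g => by rw [map_add, map_add]
      map_smul' := fun k f => by
        rw [RingHom.id_apply, hK, Algebra.smul_def, map_mul, Derivation.leibniz, hσ, laurentD_C,
          smul_zero, add_zero, smul_eq_mul]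
      map_one_eq_zero' := by
        show laurentD C (σ 1) = 0
        rw [map_one, Derivation.map_one_eq_zero]
      leibniz' := fun f g => by
        show laurentD C (σ (f * g)) = f • laurentD C (σ g) + g • laurentD C (σ f)
        rw [map_mul, Derivation.leibniz, hF, hF, smul_eq_mul, smul_eq_mul] }
  refine ⟨δ.liftKaehlerDifferential.toAddMonoidHom, fun f ω => ?_, fun y => ?_⟩
  · show δ.liftKaehlerDifferential (f • ω) = _
    rw [map_smul, hF]
    rfl
  · exact δ.liftKaehlerDifferential_comp_D y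

/-- If `σ y` has nonzero order then `dy ≠ 0` in `Ω[F⁄K]` (characteristic zero). -/
theorem D_ne_zero_of_embedding [CharZero C] (σ : F →+* LaurentSeries C) (ι : K →+* C)
    (hσ : ∀ c : K, σ (algebraMap K F c) = HahnSeries.C (ι c))
    {y : F} (hy : (σ y).order ≠ 0) : D K F y ≠ 0 := by
  obtain ⟨L, -, hL2⟩ := exists_kaehler_to_laurent σ ι hσ
  intro h
  have := hL2 y
  rw [h, map_zero] at this
  exact laurentD_ne_zero hy this.symm

/-- `Ω[F⁄K]` is nontrivial as soon as some `σ y` has nonzero order. -/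
theorem nontrivial_kaehler_of_embedding [CharZero C] (σ : F →+* LaurentSeries C) (ι : K →+* C)
    (hσ : ∀ c : K, σ (algebraMap K F c) = HahnSeries.C (ι c))
    {y : F} (hy : (σ y).order ≠ 0) : Nontrivial Ω[F⁄K] :=
  ⟨⟨_, _, D_ne_zero_of_embedding σ ι hσ hy⟩⟩

variable [CharZero C]

/-- **Local formula for the order of a differential.**  If the place `v` is induced by the
embedding `σ : F → C((z))` with multiplicity `g` (`ord_z ∘ σ = g · ord_v`), then
`g · ord_v(dy) = ord_z (d(σ y)/dz) - (g - 1)`. -/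
theorem place_ordDifferential_mul (v : Place K F) [v.DCoordGenerates]
    (σ : F →+* LaurentSeries C) (ι : K →+* C)
    (hσ : ∀ c : K, σ (algebraMap K F c) = HahnSeries.C (ι c))
    (g : ℕ) (hg : 0 < g) (hord : ∀ f : F, f ≠ 0 → (σ f).order = g * v.ord f)
    (y : F) (hy : laurentD C (σ y) ≠ 0) :
    (g : ℤ) * v.ordDifferential (D K F y) = (laurentD C (σ y)).order - (g - 1) := by
  obtain ⟨π, hπ1, hd⟩ := place_exists_uniformizer v
  obtain ⟨L, hL1, hL2⟩ := exists_kaehler_to_laurent σ ι hσ
  have hc : v.differentialCoeff (D K F y) • v.dCoord = D K F y :=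
    v.differentialCoeff_smul_dCoord _
  have h1 : laurentD C (σ y) = σ (v.differentialCoeff (D K F y)) * laurentD C (σ π) := by
    have h := congrArg L hc
    rw [hL1, hd, hL2, hL2] at h
    exact h.symm
  have hπ0 : π ≠ 0 := by rintro rfl; simp at hπ1
  have hπord : (σ π).order = g := by rw [hord π hπ0, hπ1, mul_one]
  have hgne : (σ π).order ≠ 0 := by rw [hπord]; exact_mod_cast hg.ne'
  have hdπ : (laurentD C (σ π)).order = g - 1 := by rw [laurentD_order hgne, hπord]
  have hc0 : v.differentialCoeff (D K F y) ≠ 0 := by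
    intro h; rw [h, map_zero, zero_mul] at h1; exact hy h1
  have hσc : σ (v.differentialCoeff (D K F y)) ≠ 0 := (map_ne_zero σ).2 hc0
  have hdπ0 : laurentD C (σ π) ≠ 0 := laurentD_ne_zero hgne
  rw [Place.ordDifferential, h1, HahnSeries.order_mul hσc hdπ0, hord _ hc0, hdπ]
  ring

/-- If `ord_v y ≠ 0` then `ord_v (dy) = ord_v y - 1`. -/
theorem place_ordDifferential_D_of_ord_ne_zero (v : Place K F) [v.DCoordGenerates]
    (σ : F →+* LaurentSeries C) (ι : K →+* C)
    (hσ : ∀ c : K, σ (algebraMap K F c) = HahnSeries.C (ι c))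
    (g : ℕ) (hg : 0 < g) (hord : ∀ f : F, f ≠ 0 → (σ f).order = g * v.ord f)
    (y : F) (hy : v.ord y ≠ 0) :
    v.ordDifferential (D K F y) = v.ord y - 1 := by
  have hy0 : y ≠ 0 := by rintro rfl; simp at hy
  have hgz : (g : ℤ) ≠ 0 := by exact_mod_cast hg.ne'
  have ho : (σ y).order ≠ 0 := by
    rw [hord y hy0]; exact mul_ne_zero hgz hy
  have := place_ordDifferential_mul v σ ι hσ g hg hord y (laurentD_ne_zero ho)
  rw [laurentD_order ho, hord y hy0] at this
  have h2 : (g : ℤ) * v.ordDifferential (D K F y) = g * (v.ord y - 1) := by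
    rw [this]; ring
  exact mul_left_cancel₀ hgz h2

/-- If `ord_v (y - a) ≠ 0` for a constant `a` then `ord_v (dy) = ord_v (y - a) - 1`. -/
theorem place_ordDifferential_D_of_ord_sub_ne_zero (v : Place K F) [v.DCoordGenerates]
    (σ : F →+* LaurentSeries C) (ι : K →+* C)
    (hσ : ∀ c : K, σ (algebraMap K F c) = HahnSeries.C (ι c))
    (g : ℕ) (hg : 0 < g) (hord : ∀ f : F, f ≠ 0 → (σ f).order = g * v.ord f)
    (y : F) (a : K) (hy : v.ord (y - algebraMap K F a) ≠ 0) :
    v.ordDifferential (D K F y) = v.ord (y - algebraMap K F a) - 1 := by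
  have := place_ordDifferential_D_of_ord_ne_zero v σ ι hσ g hg hord _ hy
  rwa [map_sub, Derivation.map_algebraMap, sub_zero] at this

/-- If `ord_v y⁻¹ ≠ 0` then `ord_v (dy) = - ord_v y⁻¹ - 1`. -/
theorem place_ordDifferential_D_of_ord_inv_ne_zero (v : Place K F) [v.DCoordGenerates]
    (σ : F →+* LaurentSeries C) (ι : K →+* C)
    (hσ : ∀ c : K, σ (algebraMap K F c) = HahnSeries.C (ι c))
    (g : ℕ) (hg : 0 < g) (hord : ∀ f : F, f ≠ 0 → (σ f).order = g * v.ord f)
    (y : F) (hy : v.ord y⁻¹ ≠ 0) :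
    v.ordDifferential (D K F y) = - v.ord y⁻¹ - 1 := by
  have h1 : v.ord y ≠ 0 := by
    rw [v.ord_inv] at hy; exact fun h => hy (by rw [h, neg_zero])
  rw [place_ordDifferential_D_of_ord_ne_zero v σ ι hσ g hg hord y h1, v.ord_inv, neg_neg]

end Embedding

end Fermat.Agent.S24.H84

end
end
-- ===== PACK-END S24/H84/OrdDiff.lean

-- ===== PACK-BEGIN S21/H81/Inj.lean
section


/-!
# S21, piece C: injectivity of `periodHomPair`, assuming existence of equivariant primitives
and linearity of the period map.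
-/

set_option autoImplicit false

open UpperHalfPlane CongruenceSubgroup Filter Topology Complex ModularCurve ModularCurve.Period
open scoped MatrixGroups Manifold ComplexConjugate

namespace Fermat.Agent.S21.H81

/-- The reflection `J` intertwines `g` and `jConjSL g`. -/
theorem inj_J_smul_smul (g : SL(2, ℤ)) (z : ℍ) :
    J • (g • z) = jConjSL g • (J • z) := by
  ext
  rw [coe_J_smul, coe_specialLinearGroup_apply, coe_specialLinearGroup_apply, coe_J_smul]
  have h00 : (jConjSL g) 0 0 = g 0 0 := by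
    show ((jConjSL g : SL(2, ℤ)) : Matrix (Fin 2) (Fin 2) ℤ) 0 0 = _
    rw [jConjSL_coe, jConjMat_apply_zero_zero]
  have h01 : (jConjSL g) 0 1 = -g 0 1 := by
    show ((jConjSL g : SL(2, ℤ)) : Matrix (Fin 2) (Fin 2) ℤ) 0 1 = _
    rw [jConjSL_coe, jConjMat_apply_zero_one]
  have h10 : (jConjSL g) 1 0 = -g 1 0 := by
    show ((jConjSL g : SL(2, ℤ)) : Matrix (Fin 2) (Fin 2) ℤ) 1 0 = _
    rw [jConjSL_coe, jConjMat_apply_one_zero]
  have h11 : (jConjSL g) 1 1 = g 1 1 := by
    show ((jConjSL g : SL(2, ℤ)) : Matrix (Fin 2) (Fin 2) ℤ) 1 1 = _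
    rw [jConjSL_coe, jConjMat_apply_one_one]
  rw [h00, h01, h10, h11]
  simp only [map_div₀, map_add, _root_.map_mul, algebraMap_int_eq, eq_intCast,
    Complex.ofReal_intCast, Complex.ofReal_neg, map_intCast, map_neg]
  rw [← neg_div]
  congr 1 <;> ring


/-- The reflected function `z ↦ -conj (F (-conj z))`. -/
noncomputable def injRefl (F : ℍ → ℂ) : ℍ → ℂ := fun z => -conj (F (J • z))

theorem injRefl_differentiableAt {F : ℍ → ℂ}
    (hol : ∀ τ : ℍ, DifferentiableAt ℂ (F ∘ ofComplex) (τ : ℂ)) (τ : ℍ) :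
    DifferentiableAt ℂ (injRefl F ∘ ofComplex) (τ : ℂ) := by
  -- near `τ`, `injRefl F ∘ ofComplex` equals `z ↦ -(conj ∘ (F ∘ ofComplex) ∘ conj) (-z)`
  have h0 : DifferentiableAt ℂ (F ∘ ofComplex) (conj (-(τ : ℂ))) := by
    have := hol (J • τ)
    rwa [coe_J_smul, ← map_neg] at this
  have h1 : DifferentiableAt ℂ (conj ∘ (F ∘ ofComplex) ∘ conj) (-(τ : ℂ)) := by
    have := h0.hasDerivAt.conj_conj
    rw [Complex.conj_conj] at this
    exact this.differentiableAt
  have h2 : DifferentiableAt ℂ (fun z : ℂ => -(conj ∘ (F ∘ ofComplex) ∘ conj) (-z)) (τ : ℂ) := by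
    have h3 : DifferentiableAt ℂ (fun z : ℂ => -z) (τ : ℂ) := differentiableAt_id.neg
    exact (DifferentiableAt.comp (τ : ℂ) h1 h3).neg
  refine h2.congr_of_eventuallyEq ?_
  have hopen : {z : ℂ | 0 < z.im} ∈ 𝓝 (τ : ℂ) :=
    isOpen_upperHalfPlaneSet.mem_nhds τ.im_pos
  filter_upwards [hopen] with z hz
  simp only [Function.comp_apply, injRefl]
  congr 3
  rw [ofComplex_apply_of_im_pos hz]
  have : (J • (⟨z, hz⟩ : ℍ) : ℍ) = ofComplex (conj (-z)) := by
    have h4 : 0 < (conj (-z)).im := by simpa using hz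
    rw [ofComplex_apply_of_im_pos h4]
    ext
    rw [coe_J_smul]
    simp
  exact this

theorem injRefl_tendsto {F : ℍ → ℂ}
    (hcusp : ∀ δ : SL(2, ℤ), ∃ L : ℂ, Tendsto (fun w : ℍ => F (δ • w)) atImInfty (𝓝 L))
    (δ : SL(2, ℤ)) : ∃ L : ℂ, Tendsto (fun w : ℍ => injRefl F (δ • w)) atImInfty (𝓝 L) := by
  obtain ⟨L, hL⟩ := hcusp (jConjSL δ)
  refine ⟨-conj L, ?_⟩
  have hJ : Tendsto (fun w : ℍ => J • w) atImInfty atImInfty :=
    tendsto_smul_atImInfty (by simp [J])
  have h1 : Tendsto (fun w : ℍ => F (jConjSL δ • (J • w))) atImInfty (𝓝 L) := hL.comp hJ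
  have h2 : Tendsto (fun w : ℍ => -conj (F (jConjSL δ • (J • w)))) atImInfty (𝓝 (-conj L)) :=
    ((Complex.continuous_conj.tendsto L).comp h1).neg
  refine h2.congr ?_
  intro w
  simp only [injRefl, inj_J_smul_smul]

section half

variable {N : ℕ} [NeZero N] {f : CuspForm (Gamma0 N) 2} {F : ℍ → ℂ}

/-- If the periods of `f` satisfy `p (jγj) = s * p γ` with `s = ±1` then `f = 0`. -/
theorem inj_half (hF : HasEquivariantPrimitive N f F) (s : ℝ) (hs : s * s = 1)
    (hsym : ∀ γ : Gamma0 N, hF.2.2.1.period (jConjGamma0 N γ) = s * hF.2.2.1.period γ) :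
    f = 0 := by
  have hFd := hF.1
  have hFeq := hF.2.2.1
  have hFcusp := hF.2.2.2
  have hFhol : ∀ τ : ℍ, DifferentiableAt ℂ (F ∘ ofComplex) (τ : ℂ) :=
    fun τ => (hFd τ).differentiableAt
  have hHhol := injRefl_differentiableAt hFhol
  have hHcusp := injRefl_tendsto hFcusp
  -- increments of the reflected function
  have hHinc : ∀ (γ : Gamma0 N) (z : ℍ),
      injRefl F ((γ : SL(2, ℤ)) • z) - injRefl F z = -(s * conj (hFeq.period γ)) := by
    intro γ z
    have h1 := hFeq.sub_eq_period (jConjGamma0 N γ) (J • z)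
    rw [hsym γ, jConjGamma0_coe, ← inj_J_smul_smul] at h1
    simp only [injRefl]
    have h2 : conj (F (J • ((γ : SL(2, ℤ)) • z))) - conj (F (J • z))
        = conj ((s : ℂ) * hFeq.period γ) := by
      rw [← h1, map_sub]
    rw [_root_.map_mul, Complex.conj_ofReal] at h2
    linear_combination -h2
  -- the two auxiliary functions
  let A₁ : ℍ → ℂ := fun z => F z + (s : ℂ) * injRefl F z
  let A₂ : ℍ → ℂ := fun z => Complex.I * (F z - (s : ℂ) * injRefl F z)
  have hs' : (s : ℂ) * (s : ℂ) = 1 := by exact_mod_cast hs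
  have hA₁ : ∀ τ : ℍ, deriv (A₁ ∘ ofComplex) (τ : ℂ) = 0 := by
    refine injCore_deriv_eq_zero (N := N) ?_ ?_ ?_
    · intro τ
      exact (hFhol τ).add ((hHhol τ).const_mul (s : ℂ))
    · intro γ hγ
      refine ⟨hFeq.period ⟨γ, hγ⟩ - conj (hFeq.period ⟨γ, hγ⟩), ?_, ?_⟩
      · simp
      · intro z
        have h1 := hFeq.sub_eq_period ⟨γ, hγ⟩ z
        have h2 := hHinc ⟨γ, hγ⟩ z
        simp only [A₁]
        simp only at h1 h2
        linear_combination h1 + (s : ℂ) * h2 - conj (hFeq.period ⟨γ, hγ⟩) * hs'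
    · intro δ
      obtain ⟨L₁, hL₁⟩ := hFcusp δ
      obtain ⟨L₂, hL₂⟩ := hHcusp δ
      exact ⟨L₁ + (s : ℂ) * L₂, hL₁.add (hL₂.const_mul (s : ℂ))⟩
  have hA₂ : ∀ τ : ℍ, deriv (A₂ ∘ ofComplex) (τ : ℂ) = 0 := by
    refine injCore_deriv_eq_zero (N := N) ?_ ?_ ?_
    · intro τ
      exact ((hFhol τ).sub ((hHhol τ).const_mul (s : ℂ))).const_mul Complex.I
    · intro γ hγ
      refine ⟨Complex.I * (hFeq.period ⟨γ, hγ⟩ + conj (hFeq.period ⟨γ, hγ⟩)), ?_, ?_⟩
      · simp [Complex.add_conj]
      · intro z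
        have h1 := hFeq.sub_eq_period ⟨γ, hγ⟩ z
        have h2 := hHinc ⟨γ, hγ⟩ z
        simp only [A₂]
        simp only at h1 h2
        linear_combination Complex.I * h1 - Complex.I * (s : ℂ) * h2
          + Complex.I * conj (hFeq.period ⟨γ, hγ⟩) * hs'
    · intro δ
      obtain ⟨L₁, hL₁⟩ := hFcusp δ
      obtain ⟨L₂, hL₂⟩ := hHcusp δ
      exact ⟨Complex.I * (L₁ - (s : ℂ) * L₂), (hL₁.sub (hL₂.const_mul (s : ℂ))).const_mul _⟩
  -- conclude
  ext τ
  have hH' := (hHhol τ).hasDerivAt
  set h := deriv (injRefl F ∘ ofComplex) (τ : ℂ) with hh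
  have e₁ : HasDerivAt (A₁ ∘ ofComplex) (f τ + (s : ℂ) * h) (τ : ℂ) :=
    (hFd τ).add (hH'.const_mul (s : ℂ))
  have e₂ : HasDerivAt (A₂ ∘ ofComplex) (Complex.I * (f τ - (s : ℂ) * h)) (τ : ℂ) :=
    ((hFd τ).sub (hH'.const_mul (s : ℂ))).const_mul Complex.I
  have z₁ : f τ + (s : ℂ) * h = 0 := by rw [← e₁.deriv]; exact hA₁ τ
  have z₂ : Complex.I * (f τ - (s : ℂ) * h) = 0 := by rw [← e₂.deriv]; exact hA₂ τ
  have z₃ : f τ - (s : ℂ) * h = 0 := (mul_eq_zero.mp z₂).resolve_left Complex.I_ne_zero
  have : f τ = 0 := by linear_combination (1 / 2 : ℂ) * z₁ + (1 / 2 : ℂ) * z₃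
  simpa using this

end half

section final

variable (N : ℕ) [NeZero N]

omit [NeZero N] in
/-- Unfolding of `periodHomPair` at a pair, evaluated at `γ`. -/
theorem inj_periodHomPair_apply (hlin : ExistsPeriodMapLinear N)
    (f g : CuspForm (Gamma0 N) 2) (γ : Gamma0 N) :
    periodHomPair N (f, g) (Additive.ofMul γ)
      = (periodMap N f (Additive.ofMul γ)
          + periodMap N f (Additive.ofMul (jConjGamma0 N γ)))
        + (periodMap N g (Additive.ofMul γ)
          - periodMap N g (Additive.ofMul (jConjGamma0 N γ))) := by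
  obtain ⟨pml, hpml, hdef⟩ := periodHomPair_def N hlin
  rw [hdef]
  simp only [LinearMap.coprod_apply, LinearMap.coe_comp, Function.comp_apply,
    LinearMap.add_apply, LinearMap.sub_apply, LinearMap.id_coe, id_eq, hpml,
    AddMonoidHom.add_apply, AddMonoidHom.sub_apply, charInvolution_apply, toMul_ofMul]

/-- **Injectivity of `periodHomPair`**, assuming that every cusp form has an equivariant
primitive and that the period map is linear. -/
theorem injective_periodHomPair_of (hlin : ExistsPeriodMapLinear N)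
    (hA : ∀ f : CuspForm (Gamma0 N) 2, ∃ F : ℍ → ℂ, HasEquivariantPrimitive N f F) :
    Function.Injective (periodHomPair N) := by
  rw [injective_iff_map_eq_zero]
  rintro ⟨f, g⟩ hfg
  have key : ∀ γ : Gamma0 N,
      (periodMap N f (Additive.ofMul γ)
          + periodMap N f (Additive.ofMul (jConjGamma0 N γ)))
        + (periodMap N g (Additive.ofMul γ)
          - periodMap N g (Additive.ofMul (jConjGamma0 N γ))) = 0 := by
    intro γ
    rw [← inj_periodHomPair_apply N hlin f g γ, hfg]
    rfl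
  have keyf : ∀ γ : Gamma0 N, periodMap N f (Additive.ofMul (jConjGamma0 N γ))
      = ((-1 : ℝ) : ℂ) * periodMap N f (Additive.ofMul γ) := by
    intro γ
    have h1 := key γ
    have h2 := key (jConjGamma0 N γ)
    rw [jConjGamma0_jConjGamma0] at h2
    push_cast
    linear_combination (1 / 2 : ℂ) * h1 + (1 / 2 : ℂ) * h2
  have keyg : ∀ γ : Gamma0 N, periodMap N g (Additive.ofMul (jConjGamma0 N γ))
      = ((1 : ℝ) : ℂ) * periodMap N g (Additive.ofMul γ) := by
    intro γ
    have h1 := key γ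
    have h2 := key (jConjGamma0 N γ)
    rw [jConjGamma0_jConjGamma0] at h2
    push_cast
    linear_combination (-1 / 2 : ℂ) * h1 + (1 / 2 : ℂ) * h2
  have hf0 : f = 0 := by
    obtain ⟨F, hF⟩ := hA f
    obtain ⟨F₀, h₀, hP⟩ := periodMap_def N f hF
    refine inj_half h₀ (-1) (by norm_num) ?_
    intro γ
    have := keyf γ
    rw [hP] at this
    exact this
  have hg0 : g = 0 := by
    obtain ⟨G, hG⟩ := hA g
    obtain ⟨G₀, h₀, hP⟩ := periodMap_def N g hG
    refine inj_half h₀ 1 (by norm_num) ?_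
    intro γ
    have := keyg γ
    rw [hP] at this
    exact this
  rw [hf0, hg0]
  rfl

end final

end Fermat.Agent.S21.H81

end
-- ===== PACK-END S21/H81/Inj.lean

-- ===== PACK-BEGIN Lib/RR/Ord.lean
section


/-!
# RR library: elementary calculus of `Place.ord`
-/

set_option autoImplicit false

noncomputable section

open AlgebraicCurve

namespace Fermat.Agent.Lib.RR

variable {K F : Type*} [Field K] [Field F] [Algebra K F]

theorem ord_nonneg_of_mem (v : Place K F) {f : F} (hf : f ∈ v.toValuationSubring) :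
    0 ≤ v.ord f := by
  rcases eq_or_ne f 0 with rfl | hf0
  · simp
  obtain ⟨π, hπ⟩ := IsDiscreteValuationRing.exists_irreducible v.toValuationSubring
  obtain ⟨n, u, hu⟩ :=
    IsDiscreteValuationRing.eq_unit_mul_pow_irreducible
      (x := (⟨f, hf⟩ : v.toValuationSubring)) (by simpa [Subtype.ext_iff] using hf0) hπ
  have hcoe : f = ((u : v.toValuationSubring) : F) * ((π : F) ^ (n : ℤ)) := by
    have h := congrArg (Subtype.val) hu
    push_cast at h
    rw [zpow_natCast]
    exact h
  rw [hcoe, v.ord_unit_smul_zpow u hπ (n : ℤ)]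
  exact Int.natCast_nonneg n

theorem mem_of_ord_nonneg (v : Place K F) {f : F} (h : 0 ≤ v.ord f) :
    f ∈ v.toValuationSubring := by
  rcases eq_or_ne f 0 with rfl | hf
  · exact zero_mem _
  obtain ⟨π, hπ⟩ := IsDiscreteValuationRing.exists_irreducible v.toValuationSubring
  obtain ⟨u, hu⟩ := v.exists_unit_mul_zpow hf hπ
  rw [hu, show v.ord f = (((v.ord f).toNat : ℕ) : ℤ) from (Int.toNat_of_nonneg h).symm,
    zpow_natCast]
  exact mul_mem (u : v.toValuationSubring).2 (pow_mem (π : v.toValuationSubring).2 _)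

/-- `f ∈ O_v ↔ 0 ≤ ord_v f` (valid also for `f = 0` because `ord_v 0 = 0`). -/
theorem mem_iff_ord_nonneg (v : Place K F) (f : F) :
    f ∈ v.toValuationSubring ↔ 0 ≤ v.ord f :=
  ⟨ord_nonneg_of_mem v, mem_of_ord_nonneg v⟩

theorem ord_algebraMap (v : Place K F) (c : K) : v.ord (algebraMap K F c) = 0 := by
  rcases eq_or_ne c 0 with rfl | hc
  · simp
  have h1 : 0 ≤ v.ord (algebraMap K F c) := ord_nonneg_of_mem v (v.algebraMap_mem' c)
  have h2 : 0 ≤ v.ord (algebraMap K F c⁻¹) := ord_nonneg_of_mem v (v.algebraMap_mem' c⁻¹)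
  rw [map_inv₀, v.ord_inv] at h2
  omega

theorem ord_pow (v : Place K F) (f : F) (n : ℕ) : v.ord (f ^ n) = n * v.ord f := by
  have := v.ord_zpow f (n : ℤ)
  rwa [zpow_natCast] at this

theorem ord_neg (v : Place K F) (f : F) : v.ord (-f) = v.ord f := by
  rcases eq_or_ne f 0 with rfl | hf
  · simp
  have h : (-1 : F) ≠ 0 := by simp
  have h1 : v.ord (-1 : F) = 0 := by
    have h2 := v.ord_mul h h
    rw [neg_one_mul, neg_neg, v.ord_one] at h2
    omega
  rw [← neg_one_mul, v.ord_mul h hf, h1, zero_add]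

theorem ne_zero_of_ord_ne_zero (v : Place K F) {f : F} (h : v.ord f ≠ 0) : f ≠ 0 := by
  rintro rfl; exact h v.ord_zero

/-- Ultrametric inequality. -/
theorem ord_add (v : Place K F) {f g : F} (hf : f ≠ 0) (hg : g ≠ 0) (hfg : f + g ≠ 0) :
    min (v.ord f) (v.ord g) ≤ v.ord (f + g) := by
  wlog h : v.ord f ≤ v.ord g generalizing f g
  · have := this hg hf (by rwa [add_comm]) (by omega)
    rwa [min_comm, add_comm g f] at this
  rw [min_eq_left h]
  have hq : g * f⁻¹ ∈ v.toValuationSubring := by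
    apply mem_of_ord_nonneg
    rw [v.ord_mul hg (inv_ne_zero hf), v.ord_inv]; omega
  have h1 : 1 + g * f⁻¹ ∈ v.toValuationSubring := add_mem (one_mem _) hq
  have h2 : f + g = f * (1 + g * f⁻¹) := by field_simp
  have h3 : (1 + g * f⁻¹) ≠ 0 := by
    intro h0; rw [h0, mul_zero] at h2; exact hfg h2
  rw [h2, v.ord_mul hf h3]
  have := ord_nonneg_of_mem v h1
  omega

/-- Ultrametric inequality in the "zero or bounded below" form used for `L(D)`. -/
theorem ord_add_of_le (v : Place K F) {f g : F} {n : ℤ}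
    (hf : f = 0 ∨ n ≤ v.ord f) (hg : g = 0 ∨ n ≤ v.ord g) :
    f + g = 0 ∨ n ≤ v.ord (f + g) := by
  rcases eq_or_ne (f + g) 0 with h0 | h0
  · exact Or.inl h0
  right
  rcases eq_or_ne f 0 with rfl | hf0
  · rw [zero_add] at h0 ⊢
    exact hg.resolve_left h0
  rcases eq_or_ne g 0 with rfl | hg0
  · rw [add_zero]
    exact hf.resolve_left hf0
  exact le_trans (le_min (hf.resolve_left hf0) (hg.resolve_left hg0)) (ord_add v hf0 hg0 h0)

/-- Strict case of the ultrametric inequality. -/
theorem ord_add_eq_of_lt (v : Place K F) {f g : F} (hf : f ≠ 0) (hg : g ≠ 0)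
    (h : v.ord f < v.ord g) : v.ord (f + g) = v.ord f := by
  have hfg : f + g ≠ 0 := by
    intro h0
    have : g = -f := by rw [← sub_eq_zero]; rw [sub_neg_eq_add, add_comm]; exact h0
    rw [this, ord_neg] at h
    exact lt_irrefl _ h
  have h1 := ord_add v hf hg hfg
  rw [min_eq_left h.le] at h1
  have hng : -g ≠ 0 := neg_ne_zero.mpr hg
  have h2 := ord_add v hfg hng (by simpa using hf)
  rw [add_neg_cancel_right, ord_neg] at h2
  rcases le_total (v.ord (f + g)) (v.ord g) with h3 | h3
  · rw [min_eq_left h3] at h2; omega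
  · rw [min_eq_right h3] at h2; omega

/-- Every place has a uniformizer. -/
theorem exists_ord_eq_one (v : Place K F) : ∃ t : F, v.ord t = 1 := by
  obtain ⟨π, hπ⟩ := IsDiscreteValuationRing.exists_irreducible v.toValuationSubring
  exact ⟨π, v.ord_coe_irreducible hπ⟩

/-- An element of the valuation ring lies in the maximal ideal iff it is `0` or has positive
order. -/
theorem mem_maximalIdeal_iff (v : Place K F) (a : v.toValuationSubring) :
    a ∈ IsLocalRing.maximalIdeal v.toValuationSubring ↔ (a : F) = 0 ∨ 0 < v.ord (a : F) := by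
  rw [IsLocalRing.mem_maximalIdeal, mem_nonunits_iff]
  constructor
  · intro h
    by_contra hcon
    simp only [not_or, not_lt] at hcon
    obtain ⟨h0, h1⟩ := hcon
    apply h
    have h2 : v.ord (a : F) = 0 := le_antisymm h1 (ord_nonneg_of_mem v a.2)
    have hinv : (a : F)⁻¹ ∈ v.toValuationSubring := by
      apply mem_of_ord_nonneg
      rw [v.ord_inv, h2]; simp
    refine IsUnit.of_mul_eq_one (⟨(a : F)⁻¹, hinv⟩ : v.toValuationSubring) ?_
    ext
    simp [h0]
  · rintro (h | h) hu
    · have : a = 0 := by ext; simpa using h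
      rw [this] at hu
      exact not_isUnit_zero hu
    · have := v.ord_coe_unit hu.unit
      rw [IsUnit.unit_spec] at this
      omega

/-- At a place of degree one every element of the valuation ring is congruent to a constant. -/
theorem exists_const_sub (v : Place K F) (hv : v.deg = 1) {f : F} (hf : 0 ≤ v.ord f) :
    ∃ c : K, f - algebraMap K F c = 0 ∨ 0 < v.ord (f - algebraMap K F c) := by
  have hmem : f ∈ v.toValuationSubring := mem_of_ord_nonneg v hf
  have h1 : (1 : v.ResidueField) ≠ 0 := one_ne_zero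
  have hspan := (finrank_eq_one_iff_of_nonzero' (1 : v.ResidueField) h1).mp hv
  obtain ⟨c, hc⟩ := hspan (IsLocalRing.residue v.toValuationSubring ⟨f, hmem⟩)
  refine ⟨c, ?_⟩
  have hc' : IsLocalRing.residue v.toValuationSubring
      (⟨f, hmem⟩ - algebraMap K v.toValuationSubring c) = 0 := by
    rw [map_sub, ← hc, Algebra.smul_def, mul_one]
    rw [IsScalarTower.algebraMap_apply K v.toValuationSubring v.ResidueField]
    simp
  rw [IsLocalRing.residue_eq_zero_iff] at hc'
  have := (mem_maximalIdeal_iff v _).mp hc'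
  simpa using this

end Fermat.Agent.Lib.RR

end
end
-- ===== PACK-END Lib/RR/Ord.lean

-- ===== PACK-BEGIN S37/H400/KronChar.lean
section
/-
S37 / helper400 — piece KRON, part (K2)–(K5): the Kronecker congruence, formal version.

Notation: `V_p = qExpand R p` (`q ↦ q ^ p`), `secMat p f` the section matrix of `f` (matrix of
multiplication by `f(T)` on `R((T))` over `R((T^p))`), `G_f := (secMat p f).charpoly`
(`= ∏_b (Y - f(ζ^b q^{1/p}))` classically) and `Ψ_f := (Y - V_p f) · G_f`
(`= ∏ over the p+1 conjugates`).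

* `charpoly_secMat_char` : over a domain of characteristic `p`,  `G_f = Y ^ p - frob f`.
* `kronPoly_map_zmod` : for `f ∈ ℤ((q))` (or any `S → ZMod p`),
    `Ψ_f ≡ (Y - f ^ p) (Y ^ p - f)  mod p`.
* `kronPoly_eval_qExpand`, `kronPoly_map_eval` : `Ψ_f (V_p f) = 0` and `(V_p Ψ_f)(f) = 0`.
-/



set_option autoImplicit false

noncomputable section

set_option linter.style.haveILetI false

open ModularCurve Polynomial Matrix

namespace Fermat.Agent.S37.H400

variable {R : Type*} [CommRing R]

theorem charP_laurentSeries (p : ℕ) [CharP R p] : CharP (LaurentSeries R) p :=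
  charP_of_injective_ringHom (f := (HahnSeries.C : R →+* LaurentSeries R))
    HahnSeries.C_injective p

/-- In characteristic `p`, the `p`-th power of the section matrix is scalar. -/
theorem secMat_pow_char (p : ℕ) [Fact p.Prime] [CharP R p] (f : LaurentSeries R) :
    haveI : NeZero p := ⟨(Fact.out : p.Prime).ne_zero⟩
    secMat p f ^ p = Matrix.scalar (Fin p) (coeffMap (frobenius R p) f) := by
  haveI : NeZero p := ⟨(Fact.out : p.Prime).ne_zero⟩
  show secMat p f ^ p = Matrix.scalar (Fin p) (coeffMap (frobenius R p) f)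
  rw [← secMat_pow, laurent_pow_char, secMat_qExpand]

/-- A `p × p` matrix over a domain of characteristic `p` whose `p`-th power is the scalar
`c` has characteristic polynomial `Y ^ p - c`. -/
theorem charpoly_of_pow_eq_scalar {A : Type*} [CommRing A] [IsDomain A] (p : ℕ) [Fact p.Prime]
    [CharP A p] (M : Matrix (Fin p) (Fin p) A) (c : A)
    (hM : M ^ p = Matrix.scalar (Fin p) c) :
    M.charpoly = X ^ p - C c := by
  haveI : NeZero p := ⟨(Fact.out : p.Prime).ne_zero⟩
  have hcomm : Commute (Matrix.scalar (Fin p) (X : A[X])) (C.mapMatrix M) :=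
    Matrix.scalar_commute _ (fun r => Commute.all _ r) _
  have h1 : M.charmatrix = Matrix.scalar (Fin p) (X : A[X]) - C.mapMatrix M := rfl
  have h2 : M.charmatrix ^ p = Matrix.scalar (Fin p) ((X : A[X]) ^ p - C c) := by
    rw [h1, sub_pow_char_of_commute p hcomm, ← _root_.map_pow, ← _root_.map_pow, hM, _root_.map_sub]
    congr 1
    ext i j
    simp [Matrix.scalar_apply, Matrix.diagonal_apply, apply_ite]
  have h3 : M.charpoly ^ p = ((X : A[X]) ^ p - C c) ^ p := by
    rw [Matrix.charpoly, ← Matrix.det_pow, h2, Matrix.scalar_apply, Matrix.det_diagonal,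
      Finset.prod_const, Finset.card_univ, Fintype.card_fin]
  exact frobenius_inj A[X] p h3

/-- **(K2) Kronecker, characteristic `p`.**  Over a domain of characteristic `p`, the
characteristic polynomial of the section matrix of `f` is `Y ^ p - frob f`. -/
theorem charpoly_secMat_char [IsDomain R] (p : ℕ) [Fact p.Prime] [CharP R p]
    (f : LaurentSeries R) :
    haveI : NeZero p := ⟨(Fact.out : p.Prime).ne_zero⟩
    (secMat p f).charpoly = X ^ p - C (coeffMap (frobenius R p) f) := by
  haveI : NeZero p := ⟨(Fact.out : p.Prime).ne_zero⟩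
  haveI := charP_laurentSeries (R := R) p
  exact charpoly_of_pow_eq_scalar p _ _ (secMat_pow_char p f)

theorem coeffMap_frobenius_zmod (p : ℕ) [Fact p.Prime] (f : LaurentSeries (ZMod p)) :
    coeffMap (frobenius (ZMod p) p) f = f := by
  ext k
  simp

/-- Kronecker over `𝔽_p`: `G_f = Y ^ p - f`. -/
theorem charpoly_secMat_zmod (p : ℕ) [Fact p.Prime] (f : LaurentSeries (ZMod p)) :
    haveI : NeZero p := ⟨(Fact.out : p.Prime).ne_zero⟩
    (secMat p f).charpoly = X ^ p - C f := by
  haveI : NeZero p := ⟨(Fact.out : p.Prime).ne_zero⟩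
  have h := charpoly_secMat_char p f
  rwa [coeffMap_frobenius_zmod] at h

/-- The polynomial `Ψ_f(Y) = (Y - f(q^p)) · ∏_b (Y - f(ζ^b q^{1/p}))`, defined without roots of
unity as `(Y - V_p f) · charpoly (secMat p f)`. -/
def kronPoly (p : ℕ) [NeZero p] (f : LaurentSeries R) : (LaurentSeries R)[X] :=
  (X - C (qExpand R p f)) * (secMat p f).charpoly

theorem kronPoly_monic (p : ℕ) [NeZero p] [Nontrivial R] (f : LaurentSeries R) :
    (kronPoly p f).Monic :=
  (monic_X_sub_C _).mul (Matrix.charpoly_monic _)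

theorem kronPoly_natDegree (p : ℕ) [NeZero p] [Nontrivial R] (f : LaurentSeries R) :
    (kronPoly p f).natDegree = p + 1 := by
  rw [kronPoly, Polynomial.Monic.natDegree_mul (monic_X_sub_C _) (Matrix.charpoly_monic _),
    natDegree_X_sub_C, Matrix.charpoly_natDegree_eq_dim, Fintype.card_fin, add_comm]

private theorem coeffMap_qExpand'' {S : Type*} [CommRing S] (φ : R →+* S) (n : ℕ)
    [NeZero n] (x : LaurentSeries R) : coeffMap φ (qExpand R n x) = qExpand S n (coeffMap φ x) := by
  ext k
  by_cases hk : (n : ℤ) ∣ k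
  · obtain ⟨m, rfl⟩ := hk
    rw [coeffMap_coeff, qExpand_coeff_mul, qExpand_coeff_mul, coeffMap_coeff]
  · rw [coeffMap_coeff, qExpand_coeff_of_not_dvd n _ hk, qExpand_coeff_of_not_dvd n _ hk,
      _root_.map_zero]

/-- Base change of `Ψ_f` along a coefficient homomorphism. -/
theorem kronPoly_map {S : Type*} [CommRing S] (φ : R →+* S) (p : ℕ) [NeZero p]
    (f : LaurentSeries R) :
    (kronPoly p f).map (coeffMap φ) = kronPoly p (coeffMap φ f) := by
  rw [kronPoly, kronPoly, Polynomial.map_mul, Polynomial.map_sub, Polynomial.map_X,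
    Polynomial.map_C, coeffMap_qExpand'', secMat_coeffMap, Matrix.charpoly_map]

/-- **(K3) Kronecker congruence.**  Over a domain of characteristic `p`,
`Ψ_f = (Y - V_p f) (Y ^ p - frob f)`. -/
theorem kronPoly_char [IsDomain R] (p : ℕ) [Fact p.Prime] [CharP R p] (f : LaurentSeries R) :
    haveI : NeZero p := ⟨(Fact.out : p.Prime).ne_zero⟩
    kronPoly p f = (X - C (qExpand R p f)) * (X ^ p - C (coeffMap (frobenius R p) f)) := by
  haveI : NeZero p := ⟨(Fact.out : p.Prime).ne_zero⟩
  show kronPoly p f = _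
  rw [kronPoly, charpoly_secMat_char]

/-- **(K3') Kronecker congruence over `𝔽_p`**: `Ψ_f = (Y - f ^ p) (Y ^ p - f)`. -/
theorem kronPoly_zmod (p : ℕ) [Fact p.Prime] (f : LaurentSeries (ZMod p)) :
    haveI : NeZero p := ⟨(Fact.out : p.Prime).ne_zero⟩
    kronPoly p f = (X - C (f ^ p)) * (X ^ p - C f) := by
  haveI : NeZero p := ⟨(Fact.out : p.Prime).ne_zero⟩
  show kronPoly p f = _
  rw [kronPoly_char, laurent_pow_char, coeffMap_frobenius_zmod]

/-- **(K3'') Kronecker congruence, integral form**: for `f` with coefficients in any ring `S`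
mapping to `𝔽_p` (e.g. `ℤ`, `ℤ_(p)`), `Ψ_f ≡ (Y - f̄ ^ p)(Y ^ p - f̄)` after reduction. -/
theorem kronPoly_map_zmod {S : Type*} [CommRing S] (p : ℕ) [Fact p.Prime] (φ : S →+* ZMod p)
    (f : LaurentSeries S) :
    haveI : NeZero p := ⟨(Fact.out : p.Prime).ne_zero⟩
    (kronPoly p f).map (coeffMap φ) =
      (X - C ((coeffMap φ f) ^ p)) * (X ^ p - C (coeffMap φ f)) := by
  haveI : NeZero p := ⟨(Fact.out : p.Prime).ne_zero⟩
  show (kronPoly p f).map (coeffMap φ) = _
  rw [kronPoly_map, kronPoly_zmod]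

/-- **(K4a)** `V_p f = f(q^p)` is a root of `Ψ_f`. -/
theorem kronPoly_eval_qExpand (p : ℕ) [NeZero p] (f : LaurentSeries R) :
    (kronPoly p f).eval (qExpand R p f) = 0 := by
  rw [kronPoly, eval_mul, eval_sub, eval_X, eval_C, sub_self, _root_.MulZeroClass.zero_mul]

/-- **(K4b)** `f` is a root of `V_p Ψ_f` (coefficients pushed along `q ↦ q ^ p`). -/
theorem kronPoly_map_eval (p : ℕ) [NeZero p] (f : LaurentSeries R) :
    ((kronPoly p f).map (qExpand R p)).eval f = 0 := by
  rw [kronPoly, Polynomial.map_mul, eval_mul, secMat_charpoly_eval, _root_.MulZeroClass.mul_zero]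

end Fermat.Agent.S37.H400

end

end
-- ===== PACK-END S37/H400/KronChar.lean

-- ===== PACK-BEGIN S29/H395/ProdChar.lean
section
/-
S29 / layer M / bridge BR, piece NORM (analytic half, character computation) — helper395.

For a function `h : ℍ → ℂ` which is `c`-automorphic for `Γ₀(N)` (`h (γ τ) = c γ * h τ`), the product
of its translates by the Prelude Hecke representatives,

  `heckeProd p h τ = ∏ x : ℙ¹(𝔽_p), h (heckeRep p x • τ)`
                 `= h (p τ) * ∏_{j < p} h ((τ + j) / p)`,

is automorphic with multiplier `γ ↦ ∏ x, c (trf γ x)` (helper201's transfer elements).  In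
particular for `c γ = ζ ^ χ γ` the multiplier is `ζ ^ (heckeHom χ) γ`: the Hecke operator on
`Hom(Γ₀(N), ℤ/m)` corresponds to `h ↦ heckeProd p h` on `m`-th roots of modular functions.
-/


set_option autoImplicit false

noncomputable section

open CongruenceSubgroup Matrix.SpecialLinearGroup UpperHalfPlane
open scoped MatrixGroups
open P2MW.S_ModularForm_heckeT_slash_eq_self_of_mem_Gamma0.ModularForm.HeckeSlashInvariance

namespace Fermat.Agent.S29.H395

open Fermat.Agent.S29.H201

variable {N : ℕ} {p : ℕ} [Fact p.Prime]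

/-- The product of the translates of `h` by the Hecke representatives
`(p 0; 0 1)`, `(1 j; 0 p)` (`j : ZMod p`). -/
def heckeProd (p : ℕ) [Fact p.Prime] (h : ℍ → ℂ) : ℍ → ℂ :=
  fun τ => ∏ x : OnePoint (ZMod p), h (_root_.P2MW.S_ModularForm_heckeT_slash_eq_self_of_mem_Gamma0.ModularForm.HeckeSlashInvariance.heckeRep p x • τ)

theorem heckeProd_apply (h : ℍ → ℂ) (τ : ℍ) :
    heckeProd p h τ = ∏ x : OnePoint (ZMod p), h (_root_.P2MW.S_ModularForm_heckeT_slash_eq_self_of_mem_Gamma0.ModularForm.HeckeSlashInvariance.heckeRep p x • τ) := rfl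

theorem heckeProd_mul (h h' : ℍ → ℂ) : heckeProd p (h * h') = heckeProd p h * heckeProd p h' := by
  funext τ
  simp only [heckeProd, Pi.mul_apply, Finset.prod_mul_distrib]

theorem heckeProd_one : heckeProd p (1 : ℍ → ℂ) = 1 := by
  funext τ
  simp [heckeProd]

theorem heckeProd_pow (h : ℍ → ℂ) (n : ℕ) : heckeProd p (h ^ n) = heckeProd p h ^ n := by
  funext τ
  simp only [heckeProd, Pi.pow_apply, Finset.prod_pow]

theorem heckeProd_inv (h : ℍ → ℂ) : heckeProd p (h⁻¹) = (heckeProd p h)⁻¹ := by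
  funext τ
  simp only [heckeProd, Pi.inv_apply, Finset.prod_inv_distrib]

theorem heckeProd_div (h h' : ℍ → ℂ) : heckeProd p (h / h') = heckeProd p h / heckeProd p h' := by
  funext τ
  simp only [heckeProd, Pi.div_apply, Finset.prod_div_distrib]

theorem heckeProd_const (a : ℂ) :
    heckeProd p (fun _ => a) = fun _ => a ^ (p + 1) := by
  funext τ
  simp only [heckeProd, Finset.prod_const, Finset.card_univ]
  congr 1
  rw [show Fintype.card (OnePoint (ZMod p)) = Fintype.card (Option (ZMod p)) from rfl,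
    Fintype.card_option, ZMod.card]

/-- the basic translation identity: `heckeRep x • γ • τ = trf γ x • heckeRep (x · γ) • τ`. -/
theorem heckeRep_smul_smul (hpN : ¬ p ∣ N) (γ : Gamma0 N) (x : OnePoint (ZMod p)) (τ : ℍ) :
    _root_.P2MW.S_ModularForm_heckeT_slash_eq_self_of_mem_Gamma0.ModularForm.HeckeSlashInvariance.heckeRep p x • ((γ : SL(2, ℤ)) • τ)
      = ((trf hpN γ x : Gamma0 N) : SL(2, ℤ)) • (_root_.P2MW.S_ModularForm_heckeT_slash_eq_self_of_mem_Gamma0.ModularForm.HeckeSlashInvariance.heckeRep p (redMatrix p (γ : SL(2, ℤ)) • x) • τ) := by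
  show _root_.P2MW.S_ModularForm_heckeT_slash_eq_self_of_mem_Gamma0.ModularForm.HeckeSlashInvariance.heckeRep p x • (mapGL ℝ (γ : SL(2, ℤ)) • τ)
      = mapGL ℝ ((trf hpN γ x : Gamma0 N) : SL(2, ℤ)) •
          (_root_.P2MW.S_ModularForm_heckeT_slash_eq_self_of_mem_Gamma0.ModularForm.HeckeSlashInvariance.heckeRep p (redMatrix p (γ : SL(2, ℤ)) • x) • τ)
  rw [← mul_smul, ← mul_smul, trf_spec hpN γ x]

/-- **Transfer formula for products.**  If `h (γ τ) = c γ * h τ` for all `γ ∈ Γ₀(N)`, then
`heckeProd p h (γ τ) = (∏ x, c (trf γ x)) * heckeProd p h τ`. -/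
theorem heckeProd_smul (hpN : ¬ p ∣ N) {h : ℍ → ℂ} {c : Gamma0 N → ℂ}
    (hc : ∀ (γ : Gamma0 N) (τ : ℍ), h ((γ : SL(2, ℤ)) • τ) = c γ * h τ)
    (γ : Gamma0 N) (τ : ℍ) :
    heckeProd p h ((γ : SL(2, ℤ)) • τ)
      = (∏ x : OnePoint (ZMod p), c (trf hpN γ x)) * heckeProd p h τ := by
  simp only [heckeProd]
  calc ∏ x : OnePoint (ZMod p), h (_root_.P2MW.S_ModularForm_heckeT_slash_eq_self_of_mem_Gamma0.ModularForm.HeckeSlashInvariance.heckeRep p x • ((γ : SL(2, ℤ)) • τ))
      = ∏ x : OnePoint (ZMod p),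
          c (trf hpN γ x) * h (_root_.P2MW.S_ModularForm_heckeT_slash_eq_self_of_mem_Gamma0.ModularForm.HeckeSlashInvariance.heckeRep p (redMatrix p (γ : SL(2, ℤ)) • x) • τ) := by
        refine Finset.prod_congr rfl fun x _ => ?_
        rw [heckeRep_smul_smul hpN γ x τ, hc]
    _ = (∏ x : OnePoint (ZMod p), c (trf hpN γ x)) *
          ∏ x : OnePoint (ZMod p), h (_root_.P2MW.S_ModularForm_heckeT_slash_eq_self_of_mem_Gamma0.ModularForm.HeckeSlashInvariance.heckeRep p (redMatrix p (γ : SL(2, ℤ)) • x) • τ) :=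
        Finset.prod_mul_distrib
    _ = _ := by
        congr 1
        exact Equiv.prod_comp (permOf γ) (fun y => h (_root_.P2MW.S_ModularForm_heckeT_slash_eq_self_of_mem_Gamma0.ModularForm.HeckeSlashInvariance.heckeRep p y • τ))

/-- The same with multiplier `c γ = ζ ^ χ γ` for an additive character `χ : Γ₀(N) → ZMod m` and an
`m`-th root of unity `ζ`: the multiplier of `heckeProd p h` is `ζ ^ (T_p χ) γ`. -/
theorem heckeProd_smul_of_char (hpN : ¬ p ∣ N) {m : ℕ} [NeZero m] {ζ : ℂ} (hζ : ζ ^ m = 1)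
    {h : ℍ → ℂ} (χ : Additive (Gamma0 N) →+ ZMod m)
    (hc : ∀ (γ : Gamma0 N) (τ : ℍ),
      h ((γ : SL(2, ℤ)) • τ) = ζ ^ (χ (Additive.ofMul γ)).val * h τ)
    (γ : Gamma0 N) (τ : ℍ) :
    heckeProd p h ((γ : SL(2, ℤ)) • τ)
      = ζ ^ (heckeHom p hpN (ZMod m) χ (Additive.ofMul γ)).val * heckeProd p h τ := by
  rw [heckeProd_smul hpN (c := fun γ => ζ ^ (χ (Additive.ofMul γ)).val) hc γ τ]
  congr 1
  rw [Finset.prod_pow_eq_pow_sum, heckeHom_apply]
  -- `ζ ^ a = ζ ^ b` when `a ≡ b mod m`
  have key : ∀ a b : ℕ, (a : ZMod m) = (b : ZMod m) → ζ ^ a = ζ ^ b := by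
    intro a b hab
    have hab' : a ≡ b [MOD m] := (ZMod.natCast_eq_natCast_iff a b m).mp hab
    rw [← Nat.div_add_mod a m, ← Nat.div_add_mod b m, pow_add, pow_add, pow_mul, pow_mul, hζ,
      one_pow, one_pow, one_mul, one_mul, hab']
  apply key
  rw [Nat.cast_sum, ZMod.natCast_zmod_val]
  simp only [ZMod.natCast_zmod_val]

end Fermat.Agent.S29.H395

end

end
-- ===== PACK-END S29/H395/ProdChar.lean

-- ===== PACK-BEGIN S28/H145/PrimeDegree.lean
section





/-!
# Leaf [L.B2] of the S28 plan: the prime-level degrees are `p + 1`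

From the modular polynomial `Φ_p` (`ModPolyData p`) and `j(q^p) ∉ k(j)` we deduce that
`j(q^p)` has degree exactly `p + 1` over `k(j)` and `j` has degree exactly `p + 1` over
`k(j(q^p))`.
-/

set_option autoImplicit false

noncomputable section

open ModularCurve HahnSeries Polynomial

namespace Fermat.Agent.S28.H145

variable (k : Type*) [Field k]

/-! ### Basic facts on `j` -/

theorem jqModC_ne_zero' : jqModC k ≠ 0 := jqModC_ne_zero_of_nontrivial k

theorem order_jqModC : (jqModC k).order = -1 := by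
  have h1 : (jqModC k).coeff (-1) ≠ 0 := by
    rw [coeff_jqModC_neg_one]; exact one_ne_zero
  refine le_antisymm (HahnSeries.order_le_of_coeff_ne_zero h1) ?_
  by_contra hlt
  rw [not_le] at hlt
  exact (HahnSeries.coeff_order_eq_zero.not.mpr (jqModC_ne_zero' k)) (coeff_jqModC_of_lt k hlt)

theorem isCoprime_order_jqModC (p : ℕ) : IsCoprime (jqModC k).order (p : ℤ) := by
  rw [order_jqModC]
  exact (isCoprime_one_left).neg_left

/-- `j ∉ range V_p` for `p ≥ 2`. -/
theorem jqModC_notMem_range (p : ℕ) [NeZero p] (hp : 2 ≤ p) :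
    jqModC k ∉ (qExpand k p).range := by
  rintro ⟨z, hz⟩
  have h := dvd_order_qExpand (k := k) p z
  rw [hz, order_jqModC] at h
  have h1 : (p : ℤ) ∣ 1 := (dvd_neg.mp h)
  have h2 : (p : ℤ) ≤ 1 := Int.le_of_dvd one_pos h1
  have : (2 : ℤ) ≤ p := by exact_mod_cast hp
  omega

/-! ### Transfer of the modular equation to `k` -/

theorem coeffMap_comp_evalAt {A B : Type*} [CommRing A] [CommRing B] (f : A →+* B)
    (y : LaurentSeries A) :
    (coeffMap f).comp (evalAt y) = evalAt (coeffMap f y) := by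
  refine Polynomial.ringHom_ext' (Subsingleton.elim _ _) ?_
  simp [evalAt]

theorem qExpand_comp_evalAt {A : Type*} [CommRing A] (p : ℕ) [NeZero p] (y : LaurentSeries A) :
    (qExpand A p).comp (evalAt y) = evalAt (qExpand A p y) := by
  refine Polynomial.ringHom_ext' (Subsingleton.elim _ _) ?_
  simp [evalAt]

variable {k} in
theorem modPoly_eval_jp_field {p : ℕ} [NeZero p] (Φ : ModPolyData p) :
    Φ.Φ.eval₂ (evalAt (jqModC k)) (qExpand k p (jqModC k)) = 0 := by
  have h := congrArg (coeffMap (Int.castRingHom k)) Φ.eval_jp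
  rwa [Polynomial.hom_eval₂, coeffMap_comp_evalAt, coeffMap_qExpand, coeffMap_jqModC, _root_.map_zero]
    at h

variable {k} in
theorem modPoly_eval_j_field {p : ℕ} [NeZero p] (Φ : ModPolyData p) :
    Φ.Φ.eval₂ (evalAt (qExpand k p (jqModC k))) (jqModC k) = 0 := by
  have h := congrArg (coeffMap (Int.castRingHom k)) Φ.eval_j
  rwa [Polynomial.hom_eval₂, coeffMap_comp_evalAt, coeffMap_qExpand, coeffMap_jqModC, _root_.map_zero]
    at h

variable {k} in
/-- `Φ_p(j(q^{p²}), j(q^p)) = 0`. -/
theorem modPoly_eval_jpp_field {p : ℕ} [NeZero p] (Φ : ModPolyData p) :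
    Φ.Φ.eval₂ (evalAt (qExpand k p (jqModC k))) (qExpand k p (qExpand k p (jqModC k))) = 0 := by
  have h := congrArg (qExpand k p) (modPoly_eval_jp_field (k := k) Φ)
  rwa [Polynomial.hom_eval₂, qExpand_comp_evalAt, _root_.map_zero] at h

/-! ### Polynomials over intermediate fields -/

section Sub

variable {k}
variable (K : IntermediateField k (LaurentSeries k))

/-- The ring hom `ℤ[Y] → K`, `Y ↦ y`, for `y ∈ K`. -/
def evalAtSub (y : LaurentSeries k) (hy : y ∈ K) : Polynomial ℤ →+* K :=
  Polynomial.eval₂RingHom (Int.castRingHom K) ⟨y, hy⟩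

theorem algebraMap_comp_evalAtSub (y : LaurentSeries k) (hy : y ∈ K) :
    (algebraMap K (LaurentSeries k)).comp (evalAtSub K y hy) = evalAt y := by
  refine Polynomial.ringHom_ext' (Subsingleton.elim _ _) ?_
  simp [evalAtSub, evalAt]

theorem aeval_map_evalAtSub (y : LaurentSeries k) (hy : y ∈ K) (P : Polynomial (Polynomial ℤ))
    (x : LaurentSeries k) :
    Polynomial.aeval x (P.map (evalAtSub K y hy)) = P.eval₂ (evalAt y) x := by
  rw [Polynomial.aeval_def, Polynomial.eval₂_map, algebraMap_comp_evalAtSub]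

end Sub

/-! ### The fields `k(j)` and `k(j(q^p))` -/

section Fields

variable (p : ℕ) [NeZero p]

/-- `k(j(q^p)) = V_p(k(j))`. -/
def jpField : IntermediateField k (LaurentSeries k) :=
  (jField k).map (qExpandAlgHomC k p)

variable {k p}

theorem jqModC_mem_jField : jqModC k ∈ jField k :=
  IntermediateField.mem_adjoin_simple_self k _

theorem jp_mem_jpField : qExpand k p (jqModC k) ∈ jpField k p :=
  (IntermediateField.mem_map _).mpr ⟨jqModC k, jqModC_mem_jField, rfl⟩

theorem jpField_eq_adjoin :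
    jpField k p = IntermediateField.adjoin k {qExpand k p (jqModC k)} := by
  rw [jpField, jField, IntermediateField.adjoin_map]
  simp

theorem mem_range_of_mem_jpField {y : LaurentSeries k} (hy : y ∈ jpField k p) :
    y ∈ (qExpand k p).range := by
  obtain ⟨x, -, rfl⟩ := (IntermediateField.mem_map _).mp hy
  exact ⟨x, rfl⟩

theorem jp_mem_jField_of_jpp_mem
    (h : qExpand k p (qExpand k p (jqModC k)) ∈ jpField k p) :
    qExpand k p (jqModC k) ∈ jField k := by
  obtain ⟨x, hx, hxe⟩ := (IntermediateField.mem_map _).mp h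
  have : x = qExpand k p (jqModC k) := qExpand_injective p hxe
  rwa [← this]

end Fields

/-! ### The degree of `j` over `k(j(q^p))` -/

section Main

variable {k} {p : ℕ} [NeZero p]

/-- A monic polynomial of degree `p` with coefficients in the range of `V_p` cannot kill both
`j` and an element of the range of `V_p`. -/
theorem false_of_monic_natDegree_eq_of_roots (hp : 2 ≤ p) (f : Polynomial (LaurentSeries k))
    (hf : f.Monic) (hdeg : f.natDegree = p) (hcoef : ∀ n, f.coeff n ∈ (qExpand k p).range)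
    (hj : f.eval (jqModC k) = 0) (z : LaurentSeries k) (hz : f.eval (qExpand k p z) = 0) :
    False := by
  have hlift : f ∈ Polynomial.lifts (qExpand k p) :=
    (Polynomial.lifts_iff_coeff_lifts f).mpr fun n => by
      obtain ⟨c, hc⟩ := hcoef n
      exact ⟨c, hc⟩
  obtain ⟨m', hm'map, hm'deg, hm'monic⟩ := Polynomial.lifts_and_natDegree_eq_and_monic hlift hf
  have hroot : m'.IsRoot z := by
    have h1 : (qExpand k p) (m'.eval z) = 0 := by
      rw [← Polynomial.eval₂_hom, ← Polynomial.eval_map, hm'map]; exact hz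
    exact qExpand_injective p (by rw [h1, _root_.map_zero])
  have hfac : (X - Polynomial.C z) * (m' /ₘ (X - Polynomial.C z)) = m' := Polynomial.mul_divByMonic_eq_iff_isRoot.mpr hroot
  set m₂ := m' /ₘ (X - Polynomial.C z) with hm₂
  have hm₂deg : m₂.natDegree = p - 1 := by
    rw [hm₂, Polynomial.natDegree_divByMonic _ (Polynomial.monic_X_sub_C z), hm'deg, hdeg,
      Polynomial.natDegree_X_sub_C]
  have hfmap : f = (X - Polynomial.C (qExpand k p z)) * m₂.map (qExpand k p) := by
    rw [← hm'map, ← hfac, Polynomial.map_mul, Polynomial.map_sub, Polynomial.map_X,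
      Polynomial.map_C]
  have hne : jqModC k - qExpand k p z ≠ 0 := by
    intro h
    exact jqModC_notMem_range k p hp ⟨z, (sub_eq_zero.mp h).symm⟩
  have hj2 : (m₂.map (qExpand k p)).eval (jqModC k) = 0 := by
    have := hj
    rw [hfmap, Polynomial.eval_mul, Polynomial.eval_sub, Polynomial.eval_X, Polynomial.eval_C]
      at this
    exact (mul_eq_zero.mp this).resolve_left hne
  have hzero : m₂.map (qExpand k p) = 0 := by
    refine eq_zero_of_eval_eq_zero_of_natDegree_lt p (jqModC k) (jqModC_ne_zero' k)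
      (isCoprime_order_jqModC k p) _ (fun n => ?_) ?_ hj2
    · rw [Polynomial.coeff_map]; exact ⟨_, rfl⟩
    · calc (m₂.map (qExpand k p)).natDegree ≤ m₂.natDegree := Polynomial.natDegree_map_le
        _ = p - 1 := hm₂deg
        _ < p := by omega
  rw [hzero, mul_zero] at hfmap
  exact hf.ne_zero hfmap

/-- **[L.B2], first half.** The minimal polynomial of `j` over `k(j(q^p))` is `Φ_p(X, j(q^p))`,
of degree `p + 1`. -/
theorem minpoly_j_over_jpField (Φ : ModPolyData p) (hp : 2 ≤ p)
    (hB1 : qExpand k p (jqModC k) ∉ jField k) :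
    minpoly (jpField k p) (jqModC k) =
      Φ.Φ.map (evalAtSub (jpField k p) _ jp_mem_jpField) := by
  set K₁ := jpField k p with hK₁
  set P₁ : Polynomial K₁ := Φ.Φ.map (evalAtSub K₁ _ jp_mem_jpField) with hP₁
  have hP₁monic : P₁.Monic := Φ.monic.map _
  have hP₁deg : P₁.natDegree = p + 1 := by
    rw [hP₁, Φ.monic.natDegree_map, Φ.natDegree_eq]
  have hroot_j : Polynomial.aeval (jqModC k) P₁ = 0 := by
    rw [hP₁, aeval_map_evalAtSub]; exact modPoly_eval_j_field Φ
  have hroot_jpp : Polynomial.aeval (qExpand k p (qExpand k p (jqModC k))) P₁ = 0 := by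
    rw [hP₁, aeval_map_evalAtSub]; exact modPoly_eval_jpp_field Φ
  have hint : IsIntegral K₁ (jqModC k) := ⟨P₁, hP₁monic, by rwa [← Polynomial.aeval_def]⟩
  set m := minpoly K₁ (jqModC k) with hm
  have hm_dvd : m ∣ P₁ := minpoly.dvd K₁ _ hroot_j
  have hm_monic : m.Monic := minpoly.monic hint
  have hm_le : m.natDegree ≤ p + 1 :=
    hP₁deg ▸ Polynomial.natDegree_le_of_dvd hm_dvd hP₁monic.ne_zero
  have hcoef : ∀ n, (m.map (algebraMap K₁ (LaurentSeries k))).coeff n ∈ (qExpand k p).range := by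
    intro n
    rw [Polynomial.coeff_map]
    exact mem_range_of_mem_jpField (m.coeff n).2
  have hmj : (m.map (algebraMap K₁ (LaurentSeries k))).eval (jqModC k) = 0 := by
    rw [Polynomial.eval_map, ← Polynomial.aeval_def]; exact minpoly.aeval K₁ _
  -- Claim A
  have hA : p ≤ m.natDegree := by
    by_contra hlt
    rw [not_le] at hlt
    have := eq_zero_of_eval_eq_zero_of_natDegree_lt p (jqModC k) (jqModC_ne_zero' k)
      (isCoprime_order_jqModC k p) (m.map (algebraMap K₁ (LaurentSeries k))) hcoef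
      (by rwa [hm_monic.natDegree_map]) hmj
    exact (hm_monic.map _).ne_zero this
  -- Claim B
  have hB : m.natDegree ≠ p := by
    intro hdeg
    obtain ⟨r, hr⟩ := hm_dvd
    have hr_monic : r.Monic := hm_monic.of_mul_monic_left (hr ▸ hP₁monic)
    have hr_deg : r.natDegree = 1 := by
      have := congrArg Polynomial.natDegree hr
      rw [hm_monic.natDegree_mul hr_monic, hP₁deg, hdeg] at this
      omega
    have hr_eq : r = X + Polynomial.C (r.coeff 0) := hr_monic.eq_X_add_C hr_deg
    have h0 : Polynomial.aeval (qExpand k p (qExpand k p (jqModC k))) m *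
        Polynomial.aeval (qExpand k p (qExpand k p (jqModC k))) r = 0 := by
      rw [← _root_.map_mul, ← hr]; exact hroot_jpp
    rcases mul_eq_zero.mp h0 with h1 | h1
    · refine false_of_monic_natDegree_eq_of_roots hp (m.map (algebraMap K₁ (LaurentSeries k)))
        (hm_monic.map _) (by rw [hm_monic.natDegree_map, hdeg]) hcoef hmj
        (qExpand k p (jqModC k)) ?_
      rw [Polynomial.eval_map, ← Polynomial.aeval_def]; exact h1
    · rw [hr_eq] at h1
      simp only [_root_.map_add, Polynomial.aeval_X, Polynomial.aeval_C] at h1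
      have hmem : qExpand k p (qExpand k p (jqModC k)) ∈ K₁ := by
        have : qExpand k p (qExpand k p (jqModC k)) =
            -(algebraMap K₁ (LaurentSeries k) (r.coeff 0)) := eq_neg_of_add_eq_zero_left h1
        rw [this]
        exact neg_mem (r.coeff 0).2
      exact hB1 (jp_mem_jField_of_jpp_mem hmem)
  have hdeg : m.natDegree = p + 1 := by omega
  exact (Polynomial.eq_of_monic_of_dvd_of_natDegree_le hm_monic hP₁monic hm_dvd
    (by rw [hP₁deg, hdeg])).symm

theorem natDegree_minpoly_j_over_jpField (Φ : ModPolyData p) (hp : 2 ≤ p)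
    (hB1 : qExpand k p (jqModC k) ∉ jField k) :
    (minpoly (jpField k p) (jqModC k)).natDegree = p + 1 := by
  rw [minpoly_j_over_jpField Φ hp hB1, Φ.monic.natDegree_map, Φ.natDegree_eq]

/-- The minimal polynomial of `j(q^{p²})` over `k(j(q^p))` is also `Φ_p(X, j(q^p))`. -/
theorem minpoly_jpp_over_jpField (Φ : ModPolyData p) (hp : 2 ≤ p)
    (hB1 : qExpand k p (jqModC k) ∉ jField k) :
    minpoly (jpField k p) (qExpand k p (qExpand k p (jqModC k))) =
      Φ.Φ.map (evalAtSub (jpField k p) _ jp_mem_jpField) := by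
  have hP₁monic : (Φ.Φ.map (evalAtSub (jpField k p) _ jp_mem_jpField)).Monic := Φ.monic.map _
  have hroot_j : Polynomial.aeval (jqModC k)
      (Φ.Φ.map (evalAtSub (jpField k p) _ jp_mem_jpField)) = 0 := by
    rw [aeval_map_evalAtSub]; exact modPoly_eval_j_field Φ
  have hint : IsIntegral (jpField k p) (jqModC k) :=
    ⟨_, hP₁monic, by rwa [← Polynomial.aeval_def]⟩
  have hirr : Irreducible (Φ.Φ.map (evalAtSub (jpField k p) _ jp_mem_jpField)) := by
    rw [← minpoly_j_over_jpField Φ hp hB1]
    exact minpoly.irreducible hint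
  refine (minpoly.eq_of_irreducible_of_monic hirr ?_ hP₁monic).symm
  rw [aeval_map_evalAtSub]
  exact modPoly_eval_jpp_field Φ

/-- The ring isomorphism `k(j) ≃ k(j(q^p))` induced by `V_p`. -/
def jFieldEquiv (k : Type*) [Field k] (p : ℕ) [NeZero p] : jField k ≃ₐ[k] jpField k p :=
  IntermediateField.equivMap (jField k) (qExpandAlgHomC k p)

theorem algebraMap_comp_jFieldEquiv :
    (algebraMap (jpField k p) (LaurentSeries k)).comp (jFieldEquiv k p : jField k →+* jpField k p)
      = (qExpand k p).comp (algebraMap (jField k) (LaurentSeries k)) := by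
  ext x
  rfl

/-- **[L.B2], second half.** The minimal polynomial of `j(q^p)` over `k(j)` is `Φ_p(X, j)`. -/
theorem minpoly_jp_over_jField (Φ : ModPolyData p) (hp : 2 ≤ p)
    (hB1 : qExpand k p (jqModC k) ∉ jField k) :
    minpoly (jField k) (qExpand k p (jqModC k)) =
      Φ.Φ.map (evalAtSub (jField k) _ jqModC_mem_jField) := by
  set K₀ := jField k with hK₀
  set P₀ : Polynomial K₀ := Φ.Φ.map (evalAtSub K₀ _ jqModC_mem_jField) with hP₀
  have hP₀monic : P₀.Monic := Φ.monic.map _
  have hP₀deg : P₀.natDegree = p + 1 := by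
    rw [hP₀, Φ.monic.natDegree_map, Φ.natDegree_eq]
  have hroot : Polynomial.aeval (qExpand k p (jqModC k)) P₀ = 0 := by
    rw [hP₀, aeval_map_evalAtSub]; exact modPoly_eval_jp_field Φ
  have hint : IsIntegral K₀ (qExpand k p (jqModC k)) :=
    ⟨P₀, hP₀monic, by rwa [← Polynomial.aeval_def]⟩
  set m₀ := minpoly K₀ (qExpand k p (jqModC k)) with hm₀
  have hm₀_dvd : m₀ ∣ P₀ := minpoly.dvd K₀ _ hroot
  have hm₀_monic : m₀.Monic := minpoly.monic hint
  -- transport to `k(j(q^p))`
  set g : Polynomial (jpField k p) := m₀.map (jFieldEquiv k p : jField k →+* jpField k p) with hg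
  have hg_monic : g.Monic := hm₀_monic.map _
  have hg_deg : g.natDegree = m₀.natDegree := hm₀_monic.natDegree_map _
  have hg_root : Polynomial.aeval (qExpand k p (qExpand k p (jqModC k))) g = 0 := by
    rw [hg, Polynomial.aeval_def, Polynomial.eval₂_map, algebraMap_comp_jFieldEquiv,
      ← Polynomial.hom_eval₂, ← Polynomial.aeval_def, minpoly.aeval, _root_.map_zero]
  have hdvd : minpoly (jpField k p) (qExpand k p (qExpand k p (jqModC k))) ∣ g :=
    minpoly.dvd _ _ hg_root
  rw [minpoly_jpp_over_jpField Φ hp hB1] at hdvd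
  have hle : p + 1 ≤ m₀.natDegree := by
    have := Polynomial.natDegree_le_of_dvd hdvd hg_monic.ne_zero
    rwa [Φ.monic.natDegree_map, Φ.natDegree_eq, hg_deg] at this
  exact (Polynomial.eq_of_monic_of_dvd_of_natDegree_le hm₀_monic hP₀monic hm₀_dvd
    (by rw [hP₀deg]; exact hle)).symm

theorem natDegree_minpoly_jp_over_jField (Φ : ModPolyData p) (hp : 2 ≤ p)
    (hB1 : qExpand k p (jqModC k) ∉ jField k) :
    (minpoly (jField k) (qExpand k p (jqModC k))).natDegree = p + 1 := by
  rw [minpoly_jp_over_jField Φ hp hB1, Φ.monic.natDegree_map, Φ.natDegree_eq]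

theorem isIntegral_jp_over_jField (Φ : ModPolyData p) :
    IsIntegral (jField k) (qExpand k p (jqModC k)) := by
  refine ⟨Φ.Φ.map (evalAtSub (jField k) _ jqModC_mem_jField), Φ.monic.map _, ?_⟩
  rw [← Polynomial.aeval_def, aeval_map_evalAtSub]
  exact modPoly_eval_jp_field Φ

theorem isIntegral_j_over_jpField (Φ : ModPolyData p) :
    IsIntegral (jpField k p) (jqModC k) := by
  refine ⟨Φ.Φ.map (evalAtSub (jpField k p) _ jp_mem_jpField), Φ.monic.map _, ?_⟩
  rw [← Polynomial.aeval_def, aeval_map_evalAtSub]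
  exact modPoly_eval_j_field Φ

/-- `[k(j, j(q^p)) : k(j)] = p + 1`. -/
theorem finrank_adjoin_jp_over_jField (Φ : ModPolyData p) (hp : 2 ≤ p)
    (hB1 : qExpand k p (jqModC k) ∉ jField k) :
    Module.finrank (jField k)
      (IntermediateField.adjoin (jField k) {qExpand k p (jqModC k)}) = p + 1 := by
  have h := IntermediateField.adjoin.finrank (isIntegral_jp_over_jField (k := k) Φ)
  rw [h, natDegree_minpoly_jp_over_jField Φ hp hB1]

/-- `[k(j(q^p), j) : k(j(q^p))] = p + 1`. -/
theorem finrank_adjoin_j_over_jpField (Φ : ModPolyData p) (hp : 2 ≤ p)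
    (hB1 : qExpand k p (jqModC k) ∉ jField k) :
    Module.finrank (jpField k p)
      (IntermediateField.adjoin (jpField k p) {jqModC k}) = p + 1 := by
  have h := IntermediateField.adjoin.finrank (isIntegral_j_over_jpField (k := k) Φ)
  rw [h, natDegree_minpoly_j_over_jpField Φ hp hB1]

end Main

end Fermat.Agent.S28.H145

end

end
-- ===== PACK-END S28/H145/PrimeDegree.lean

-- ===== PACK-BEGIN S24/Alg/LocBig.lean
section


/-!
# S24 / ALG-LOC: Laurent series of order at least `n`

`LocBig n s` means `s = 0` or `n ≤ ord s`.  For such `s` the coefficient `s.coeff n` behaves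
like a leading coefficient: it is multiplicative.
-/

set_option autoImplicit false

noncomputable section

namespace Fermat.Agent.S24.H144

variable {C : Type*} [Field C]

/-- `s` is zero or has order at least `n`. -/
def LocBig (n : ℤ) (s : LaurentSeries C) : Prop := s = 0 ∨ n ≤ s.order

namespace LocBig

variable {n m : ℤ} {a b : LaurentSeries C}

theorem zero (n : ℤ) : LocBig n (0 : LaurentSeries C) := Or.inl rfl

theorem of_le_order (h : n ≤ a.order) : LocBig n a := Or.inr h

theorem self_order (a : LaurentSeries C) : LocBig a.order a := Or.inr le_rfl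

theorem mono (h : LocBig m a) (hnm : n ≤ m) : LocBig n a := by
  rcases h with h | h
  · exact Or.inl h
  · exact Or.inr (hnm.trans h)

theorem coeff_eq_zero (h : LocBig n a) {k : ℤ} (hk : k < n) : a.coeff k = 0 := by
  rcases h with rfl | h
  · simp
  · exact HahnSeries.coeff_eq_zero_of_lt_order (lt_of_lt_of_le hk h)

theorem neg (h : LocBig n a) : LocBig n (-a) := by
  rcases h with rfl | h
  · simp [zero]
  · exact Or.inr (by rwa [HahnSeries.order_neg])

theorem add (ha : LocBig n a) (hb : LocBig n b) : LocBig n (a + b) := by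
  rcases eq_or_ne (a + b) 0 with h0 | h0
  · exact Or.inl h0
  rcases ha with rfl | ha
  · rwa [zero_add]
  rcases hb with rfl | hb
  · rw [add_zero]; exact Or.inr ha
  exact Or.inr (le_trans (le_min ha hb) (HahnSeries.min_order_le_order_add h0))

theorem sub (ha : LocBig n a) (hb : LocBig n b) : LocBig n (a - b) := by
  rw [sub_eq_add_neg]; exact ha.add hb.neg

theorem mul (ha : LocBig n a) (hb : LocBig m b) : LocBig (n + m) (a * b) := by
  rcases ha with rfl | ha
  · simp [zero]
  rcases hb with rfl | hb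
  · simp [zero]
  rcases eq_or_ne a 0 with rfl | ha0
  · simp [zero]
  rcases eq_or_ne b 0 with rfl | hb0
  · simp [zero]
  refine Or.inr ?_
  rw [HahnSeries.order_mul ha0 hb0]
  omega

theorem pow (ha : LocBig n a) (k : ℕ) : LocBig (k * n) (a ^ k) := by
  induction k with
  | zero =>
    simp only [Nat.cast_zero, zero_mul, pow_zero]
    exact Or.inr (by rw [HahnSeries.order_one])
  | succ k ih =>
    rw [pow_succ]
    have := ih.mul ha
    convert this using 1
    push_cast; ring

/-- An element which is big of every order is zero. -/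
theorem eq_zero_of_forall (h : ∀ k : ℕ, LocBig (k : ℤ) a) : a = 0 := by
  by_contra h0
  rcases h (a.order.toNat + 1) with h1 | h1
  · exact h0 h1
  · have := Int.self_le_toNat a.order
    push_cast at h1
    omega

/-- The coefficient at the bound is multiplicative. -/
theorem coeff_mul (ha : LocBig n a) (hb : LocBig m b) :
    (a * b).coeff (n + m) = a.coeff n * b.coeff m := by
  rcases eq_or_ne a 0 with rfl | ha0
  · simp
  rcases eq_or_ne b 0 with rfl | hb0
  · simp
  have ha' : n ≤ a.order := ha.resolve_left ha0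
  have hb' : m ≤ b.order := hb.resolve_left hb0
  rcases lt_or_eq_of_le ha' with hlt | heq
  · -- `a.coeff n = 0`
    rw [HahnSeries.coeff_eq_zero_of_lt_order hlt, zero_mul]
    have hab : LocBig (a.order + m) (a * b) := (self_order a).mul hb
    exact hab.coeff_eq_zero (by omega)
  rcases lt_or_eq_of_le hb' with hlt | heq'
  · rw [HahnSeries.coeff_eq_zero_of_lt_order hlt, mul_zero]
    have hab : LocBig (n + b.order) (a * b) := ha.mul (self_order b)
    exact hab.coeff_eq_zero (by omega)
  rw [heq, heq', HahnSeries.coeff_mul_order_add_order, HahnSeries.leadingCoeff_eq,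
    HahnSeries.leadingCoeff_eq]

/-- If two series have the same order and the same leading coefficient, their difference has
larger order. -/
theorem sub_of_leadingCoeff_eq (ho : a.order = b.order)
    (hl : a.leadingCoeff = b.leadingCoeff) : LocBig (a.order + 1) (a - b) := by
  rcases eq_or_ne (a - b) 0 with h0 | h0
  · exact Or.inl h0
  refine Or.inr ?_
  have hbig : LocBig a.order (a - b) := (self_order a).sub (ho ▸ self_order b)
  have h1 : a.order ≤ (a - b).order := hbig.resolve_left h0
  have h2 : (a - b).coeff a.order = 0 := by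
    rw [HahnSeries.coeff_sub, ← HahnSeries.leadingCoeff_eq]
    conv_lhs => rw [ho, ← HahnSeries.leadingCoeff_eq, hl]
    exact sub_self _
  have h3 : (a - b).order ≠ a.order := by
    intro h
    have := HahnSeries.coeff_order_eq_zero.not.mpr h0
    rw [h] at this
    exact this h2
  omega

end LocBig

end Fermat.Agent.S24.H144

end
end
-- ===== PACK-END S24/Alg/LocBig.lean

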