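import Mathlib
import Fermat.Prelude.Def_GaloisRep_Adic
import Mathlib.Analysis.Complex.Periodic
import Mathlib.Analysis.Complex.UpperHalfPlane.Basic
import Mathlib.Analysis.Normed.Ring.InfiniteSum
import Mathlib.Analysis.SpecificLimits.Normed
import Fermat.Prelude.Def_AlgebraicCurve_Repartitions
import Fermat.Prelude.Def_ModularCurve_HeckeModule
import Fermat.Prelude.Thm_ModularCurve_coeffMap_qExpand
import Mathlib.FieldTheory.PrimitiveElement
import Mathlib.FieldTheory.IsAlgClosed.AlgebraicClosure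
import Mathlib.RingTheory.Norm.Transitivity
import Mathlib.Algebra.Polynomial.Lifts
import Fermat.Agent.Pack.S33.E0L1
import Fermat.Agent.Pack.S33.E0L2
import Fermat.Agent.Pack.S33.E0L0
import Fermat.Agent.Pack.S33.E0L3

-- ===== PACK-BEGIN S31/H202/TraceRigid.lean
section





/-!
# S31 / ALG-1: trace rigidity (helper202)

For `ρ : GaloisRepAdic A` (`A` any local ring) with absolutely irreducible residual representation:

* `span_range_rho_eq_top` : the `A`-span of `ρ(G_ℚ)` is all of `End_A(V)`;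
* `rho_eq_one_of_trace_invariant` : if `tr ρ(g τ) = tr ρ(g)` for all `g`, then `ρ(τ) = 1`;
* `rho_eq_of_trace_eq` : more generally `tr (ρ(g) X) = 0` for all `g` implies `X = 0`.
-/

set_option autoImplicit false

namespace Fermat.Agent.S31.H202

open scoped TensorProduct

/-- `Gal(ℚ̄/ℚ)` (local notation of this file). -/
local notation "GQ" => (AlgebraicClosure ℚ ≃ₐ[ℚ] AlgebraicClosure ℚ)

variable {A : Type} [CommRing A] [IsLocalRing A]

/-- the chosen basis of the underlying module. -/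
noncomputable def rhoBasis (ρ : GaloisRepAdic A) : Module.Basis (Fin 2) A ρ.V :=
  Module.finBasisOfFinrankEq A ρ.V ρ.finrank_eq

/-- the matrices of `ρ` in the chosen basis. -/
noncomputable def rhoMat (ρ : GaloisRepAdic A) (g : GQ) : Matrix (Fin 2) (Fin 2) A :=
  LinearMap.toMatrix (rhoBasis ρ) (rhoBasis ρ) (ρ.ρ g)

/-- reduction `A → k → k̄`. -/
noncomputable def redHom (A : Type) [CommRing A] [IsLocalRing A] :
    A →+* AlgebraicClosure (IsLocalRing.ResidueField A) :=
  (algebraMap (IsLocalRing.ResidueField A) (AlgebraicClosure (IsLocalRing.ResidueField A))).comp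
    (algebraMap A (IsLocalRing.ResidueField A))

theorem redHom_eq_zero (a : A) (ha : a ∈ IsLocalRing.maximalIdeal A) : redHom A a = 0 := by
  unfold redHom
  rw [RingHom.comp_apply, IsLocalRing.ResidueField.algebraMap_eq,
    (IsLocalRing.residue_eq_zero_iff a).mpr ha, map_zero]

theorem span_rhoMat_map (ρ : GaloisRepAdic A) (habs : ρ.residual.IsAbsolutelyIrreducible) :
    Submodule.span (AlgebraicClosure (IsLocalRing.ResidueField A))
      (Set.range fun g => (rhoMat ρ g).map (redHom A)) = ⊤ := by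
  classical
  set k := IsLocalRing.ResidueField A with hk
  set K := AlgebraicClosure k with hK
  set b := rhoBasis ρ with hb
  set bk : Module.Basis (Fin 2) k (k ⊗[A] ρ.V) := Algebra.TensorProduct.basis k b with hbk
  set bK : Module.Basis (Fin 2) K (K ⊗[k] (k ⊗[A] ρ.V)) := Algebra.TensorProduct.basis K bk
    with hbK
  set ρK : GQ →* Module.End K (K ⊗[k] (k ⊗[A] ρ.V)) := (ρ.residual.baseChange K).ρ with hρK
  have hF : ∀ g, (rhoMat ρ g).map (redHom A) = LinearMap.toMatrix bK bK (ρK g) := by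
    intro g
    have h1 : ρK g = ((ρ.ρ g).baseChange k).baseChange K := rfl
    rw [h1, LinearMap.toMatrix_baseChange, LinearMap.toMatrix_baseChange, Matrix.map_map]
    rfl
  have hnt : Nontrivial (K ⊗[k] (k ⊗[A] ρ.V)) := by
    apply Module.nontrivial_of_finrank_pos (R := K)
    have h2 : Module.finrank K (K ⊗[k] (k ⊗[A] ρ.V)) = 2 := (ρ.residual.baseChange K).finrank_eq
    rw [h2]
    norm_num
  have hB : Algebra.adjoin K (Set.range ρK) = ⊤ := by
    apply Fermat.Agent.S29.H872.burnside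
    intro W hW
    refine habs W (fun σ x hx => ?_)
    exact hW (ρK σ) (Algebra.subset_adjoin ⟨σ, rfl⟩) hx
  have hspanK : Submodule.span K (Set.range ρK) = ⊤ := by
    have h1 := Algebra.adjoin_eq_span K (Set.range ρK)
    have h2 : (Submonoid.closure (Set.range ρK) : Set (Module.End K (K ⊗[k] (k ⊗[A] ρ.V))))
        = Set.range ρK := by
      have : Submonoid.closure (Set.range ρK) = MonoidHom.mrange ρK := by
        rw [← MonoidHom.coe_mrange, Submonoid.closure_eq]
      rw [this, MonoidHom.coe_mrange]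
    rw [h2, hB] at h1
    rw [← h1]
    rfl
  -- transport along `toMatrix`
  have hrange : (Set.range fun g => (rhoMat ρ g).map (redHom A))
      = (LinearMap.toMatrix bK bK) '' (Set.range ρK) := by
    ext M
    constructor
    · rintro ⟨g, rfl⟩
      exact ⟨ρK g, ⟨g, rfl⟩, (hF g).symm⟩
    · rintro ⟨_, ⟨g, rfl⟩, rfl⟩
      exact ⟨g, hF g⟩
  have hmap : Submodule.map ((LinearMap.toMatrix bK bK).toLinearMap)
      (Submodule.span K (Set.range ρK))
      = Submodule.span K ((LinearMap.toMatrix bK bK) '' (Set.range ρK)) :=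
    Submodule.map_span _ _
  rw [hrange, ← hmap, hspanK, Submodule.map_top, LinearMap.range_eq_top]
  exact (LinearMap.toMatrix bK bK).surjective

/-- **Burnside + lifting**: the `A`-span of the image of a residually absolutely irreducible
representation is the full endomorphism ring. -/
theorem span_range_rho_eq_top (ρ : GaloisRepAdic A)
    (habs : ρ.residual.IsAbsolutelyIrreducible) :
    Submodule.span A (Set.range ρ.ρ) = ⊤ := by
  classical
  have h := span_eq_top_of_span_map_eq_top (redHom A) redHom_eq_zero (rhoMat ρ)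
    (span_rhoMat_map ρ habs)
  set b := rhoBasis ρ with hb
  have hrange : Set.range (rhoMat ρ) = (LinearMap.toMatrix b b) '' (Set.range ρ.ρ) := by
    ext M
    constructor
    · rintro ⟨g, rfl⟩
      exact ⟨ρ.ρ g, ⟨g, rfl⟩, rfl⟩
    · rintro ⟨_, ⟨g, rfl⟩, rfl⟩
      exact ⟨g, rfl⟩
  have hmap : Submodule.map ((LinearMap.toMatrix b b).toLinearMap)
      (Submodule.span A (Set.range ρ.ρ))
      = Submodule.span A ((LinearMap.toMatrix b b) '' (Set.range ρ.ρ)) :=
    Submodule.map_span _ _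
  rw [hrange, ← hmap] at h
  have hinj : Function.Injective (Submodule.map ((LinearMap.toMatrix b b).toLinearMap)) :=
    Submodule.map_injective_of_injective (LinearMap.toMatrix b b).injective
  apply hinj
  rw [h, Submodule.map_top]
  exact (LinearMap.range_eq_top.mpr (LinearMap.toMatrix b b).surjective).symm

/-- **Trace orthogonality**: an endomorphism orthogonal (for the trace form) to the image of a
residually absolutely irreducible representation is zero. -/
theorem eq_zero_of_trace_orth (ρ : GaloisRepAdic A)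
    (habs : ρ.residual.IsAbsolutelyIrreducible) (X : Module.End A ρ.V)
    (hX : ∀ g : GQ, LinearMap.trace A ρ.V (ρ.ρ g * X) = 0) : X = 0 := by
  classical
  set b := rhoBasis ρ with hb
  have h := mat_eq_zero_of_trace_orth (redHom A) redHom_eq_zero (rhoMat ρ)
    (span_rhoMat_map ρ habs) (LinearMap.toMatrix b b X) (fun g => by
      have := hX g
      rw [LinearMap.trace_eq_matrix_trace A b, LinearMap.toMatrix_mul] at this
      exact this)
  exact (LinearMap.toMatrix b b).injective (by rw [h, map_zero])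

/-- **Trace rigidity** (ALG-1): if `tr ρ(g τ) = tr ρ(g)` for all `g`, then `ρ(τ) = 1`. -/
theorem rho_eq_one_of_trace_invariant (ρ : GaloisRepAdic A)
    (habs : ρ.residual.IsAbsolutelyIrreducible) (τ : GQ)
    (h : ∀ g : GQ, LinearMap.trace A ρ.V (ρ.ρ (g * τ)) = LinearMap.trace A ρ.V (ρ.ρ g)) :
    ρ.ρ τ = 1 := by
  have h0 := eq_zero_of_trace_orth ρ habs (ρ.ρ τ - 1) (fun g => by
    rw [mul_sub, mul_one, map_sub, ← _root_.map_mul, h g, sub_self])
  exact sub_eq_zero.mp h0

/-- two elements with the same trace pairing against the image are equal. -/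
theorem rho_eq_of_trace_eq (ρ : GaloisRepAdic A)
    (habs : ρ.residual.IsAbsolutelyIrreducible) (σ τ : GQ)
    (h : ∀ g : GQ, LinearMap.trace A ρ.V (ρ.ρ (g * σ)) = LinearMap.trace A ρ.V (ρ.ρ (g * τ))) :
    ρ.ρ σ = ρ.ρ τ := by
  have h0 := eq_zero_of_trace_orth ρ habs (ρ.ρ σ - ρ.ρ τ) (fun g => by
    rw [mul_sub, map_sub, ← _root_.map_mul, ← _root_.map_mul, h g, sub_self])
  exact sub_eq_zero.mp h0

end Fermat.Agent.S31.H202

end
-- ===== PACK-END S31/H202/TraceRigid.lean

-- ===== PACK-BEGIN Lib/Cheb/H221/LogBound.lean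
section
/-
CHEB shared library, piece A (helper221): a continuous logarithm of a function with a nonzero
limit is bounded.
-/


set_option autoImplicit false

namespace Fermat.Agent.Lib.Cheb.H221

open Filter Topology Complex

/-- A continuous real function on a preconnected set taking only integer values, and vanishing at
one point, vanishes identically. -/
lemma eq_zero_of_int_valued {S : Set ℝ} (hS : IsPreconnected S) {h : ℝ → ℝ}
    (hc : ContinuousOn h S) (hint : ∀ s ∈ S, ∃ n : ℤ, h s = n) {s₀ : ℝ} (hs₀ : s₀ ∈ S)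
    (h0 : h s₀ = 0) {s : ℝ} (hs : s ∈ S) : h s = 0 := by
  obtain ⟨n, hn⟩ := hint s hs
  by_contra hne
  have hn0 : n ≠ 0 := by
    rintro rfl
    exact hne (by simpa using hn)
  rcases lt_or_gt_of_ne hn0 with hneg | hpos
  · -- `n ≤ -1`: the value `-1/2` is attained
    have hle : (n : ℝ) ≤ -1 := by exact_mod_cast Int.le_sub_one_of_lt hneg
    have hmem : (-1 / 2 : ℝ) ∈ Set.Icc (h s) (h s₀) := by
      rw [hn, h0]; constructor <;> linarith
    obtain ⟨t, ht, hval⟩ := hS.intermediate_value hs hs₀ hc hmem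
    obtain ⟨k, hk⟩ := hint t ht
    rw [hk] at hval
    have h2 : (2 * k : ℤ) = -1 := by
      have : (2 : ℝ) * k = -1 := by linarith
      exact_mod_cast this
    omega
  · have hge : (1 : ℝ) ≤ n := by exact_mod_cast Int.add_one_le_of_lt hpos
    have hmem : (1 / 2 : ℝ) ∈ Set.Icc (h s₀) (h s) := by
      rw [hn, h0]; constructor <;> linarith
    obtain ⟨t, ht, hval⟩ := hS.intermediate_value hs₀ hs hc hmem
    obtain ⟨k, hk⟩ := hint t ht
    rw [hk] at hval
    have h2 : (2 * k : ℤ) = 1 := by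
      have : (2 : ℝ) * k = 1 := by linarith
      exact_mod_cast this
    omega

/-- If `exp ∘ Λ` tends to a nonzero limit at `1⁺` and `Λ` is continuous on `(1,∞)`, then `Λ` is
bounded near `1⁺`. -/
lemma exists_bound_of_exp_tendsto {Λ : ℝ → ℂ} (hΛ : ContinuousOn Λ (Set.Ioi 1)) {ℓ : ℂ}
    (hℓ : ℓ ≠ 0) (h : Tendsto (fun s => Complex.exp (Λ s)) (𝓝[>] (1 : ℝ)) (𝓝 ℓ)) :
    ∃ B : ℝ, ∀ᶠ s in 𝓝[>] (1 : ℝ), ‖Λ s‖ ≤ B := by
  -- eventually `exp (Λ s) / ℓ` is within `1/2` of `1`
  have h1 : Tendsto (fun s => Complex.exp (Λ s) / ℓ - 1) (𝓝[>] (1 : ℝ)) (𝓝 0) := by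
    have := (h.div_const ℓ).sub_const 1
    simpa [div_self hℓ] using this
  have hev : ∀ᶠ s in 𝓝[>] (1 : ℝ), ‖Complex.exp (Λ s) / ℓ - 1‖ < 1 / 2 := by
    have := (tendsto_zero_iff_norm_tendsto_zero.mp h1).eventually
      (gt_mem_nhds (by norm_num : (0 : ℝ) < 1 / 2))
    exact this
  obtain ⟨u, hu1, hu⟩ := mem_nhdsGT_iff_exists_Ioo_subset.mp hev
  -- the set `S = Ioo 1 u`
  have hSsub : Set.Ioo (1 : ℝ) u ⊆ Set.Ioi 1 := fun s hs => hs.1
  obtain ⟨s₀, hs₀⟩ : ∃ s₀, s₀ ∈ Set.Ioo (1 : ℝ) u := ⟨(1 + u) / 2, by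
    constructor <;> linarith [Set.mem_Ioi.mp hu1]⟩
  -- the auxiliary function
  set w : ℝ → ℂ := fun s => Complex.exp (Λ s) / ℓ - 1 with hw
  set g : ℝ → ℂ := fun s => Λ s - Complex.log (1 + w s) with hg
  have hwlt : ∀ s ∈ Set.Ioo (1 : ℝ) u, ‖w s‖ < 1 / 2 := fun s hs => hu hs
  have hwcont : ContinuousOn w (Set.Ioo (1 : ℝ) u) := by
    have : ContinuousOn (fun s => Complex.exp (Λ s)) (Set.Ioo (1 : ℝ) u) :=
      (Complex.continuous_exp.comp_continuousOn (hΛ.mono hSsub))
    exact (this.div_const ℓ).sub continuousOn_const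
  have hgcont : ContinuousOn g (Set.Ioo (1 : ℝ) u) := by
    refine (hΛ.mono hSsub).sub ?_
    refine ContinuousOn.clog (continuousOn_const.add hwcont) ?_
    intro s hs
    exact Complex.mem_slitPlane_of_norm_lt_one (lt_trans (hwlt s hs) (by norm_num))
  have hexp : ∀ s ∈ Set.Ioo (1 : ℝ) u, Complex.exp (g s) = ℓ := by
    intro s hs
    have hne : (1 + w s) ≠ 0 := by
      intro h0
      have : w s = -1 := by linear_combination h0
      have hlt := hwlt s hs
      rw [this, norm_neg, norm_one] at hlt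
      norm_num at hlt
    simp only [hg, Complex.exp_sub, Complex.exp_log hne]
    simp only [hw]
    have : (1 + (Complex.exp (Λ s) / ℓ - 1)) = Complex.exp (Λ s) / ℓ := by ring
    rw [this]
    field_simp
  -- `g` is constant on `S`
  have hconst : ∀ s ∈ Set.Ioo (1 : ℝ) u, g s = g s₀ := by
    intro s hs
    have hint : ∀ t ∈ Set.Ioo (1 : ℝ) u, ∃ n : ℤ, g t - g s₀ = n * (2 * Real.pi * Complex.I) := by
      intro t ht
      apply Complex.exp_eq_one_iff.mp
      rw [Complex.exp_sub, hexp t ht, hexp s₀ hs₀, div_self hℓ]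
    have key := eq_zero_of_int_valued (isPreconnected_Ioo (a := (1 : ℝ)) (b := u))
      (h := fun t => (g t - g s₀).im / (2 * Real.pi))
      (by
        refine ContinuousOn.div_const ?_ _
        exact Complex.continuous_im.comp_continuousOn (hgcont.sub continuousOn_const))
      (by
        intro t ht
        obtain ⟨n, hn⟩ := hint t ht
        refine ⟨n, ?_⟩
        simp only [hn]
        have hpi : (2 * Real.pi) ≠ 0 := by positivity
        have : ((n : ℂ) * (2 * (Real.pi : ℂ) * Complex.I)).im = n * (2 * Real.pi) := by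
          simp [Complex.mul_im]
        rw [this]
        field_simp)
      hs₀ (by simp) hs
    obtain ⟨n, hn⟩ := hint s hs
    have hn0 : (n : ℝ) = 0 := by
      have hpi : (2 * Real.pi) ≠ 0 := by positivity
      have him : ((n : ℂ) * (2 * (Real.pi : ℂ) * Complex.I)).im = n * (2 * Real.pi) := by
        simp [Complex.mul_im]
      have : (g s - g s₀).im / (2 * Real.pi) = n := by
        rw [hn, him]; field_simp
      have key' : (g s - g s₀).im / (2 * Real.pi) = 0 := key
      rw [this] at key'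
      exact key'
    have hn0' : n = 0 := by exact_mod_cast hn0
    rw [hn0'] at hn
    simp only [Int.cast_zero, zero_mul] at hn
    exact sub_eq_zero.mp hn
  refine ⟨‖g s₀‖ + 1, ?_⟩
  have hmem : Set.Ioo (1 : ℝ) u ∈ 𝓝[>] (1 : ℝ) := Ioo_mem_nhdsGT hu1
  filter_upwards [hmem] with s hs
  have e : Λ s = g s₀ + Complex.log (1 + w s) := by
    have := hconst s hs
    simp only [hg] at this ⊢
    linear_combination this
  rw [e]
  have hlog : ‖Complex.log (1 + w s)‖ ≤ 1 := by
    have h2 := Complex.norm_log_one_add_half_le_self (le_of_lt (hwlt s hs))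
    have h3 := hwlt s hs
    linarith
  exact le_trans (norm_add_le _ _) (by linarith)

end Fermat.Agent.Lib.Cheb.H221

end
-- ===== PACK-END Lib/Cheb/H221/LogBound.lean

-- ===== PACK-BEGIN Lib/Cheb/H764/Count.lean
section



/-!
# CHEB / piece A: `Spec.CountStatement`

For a Galois number field `L/ℚ`, a subgroup `H ≤ Gal(L/ℚ)`, `F = L^H` and a prime `p` not dividing
the discriminant of `L`:
`#{primes of 𝓞 F of norm p} * |H| = ∑_{P ∣ p, D_P ≤ H} |D_P|`.
-/

set_option autoImplicit false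
set_option linter.unusedSectionVars false
set_option linter.unusedVariables false
set_option linter.style.haveILetI false

open NumberField Ideal MulAction
open scoped Pointwise

namespace Fermat.Agent.Lib.Cheb.H764

open Fermat.Agent.Lib.Cheb.Spec

section

variable (L : Type) [Field L] [NumberField L] [IsGalois ℚ L]

/-- the bad set: primes dividing the discriminant -/
noncomputable def badPrimes : Finset ℕ := (NumberField.discr L).natAbs.primeFactors

lemma not_dvd_discr_of_not_mem_badPrimes {p : ℕ} (hp : p.Prime) (hpB : p ∉ badPrimes L) :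
    ¬ (p : ℤ) ∣ NumberField.discr L := by
  intro h
  apply hpB
  rw [badPrimes, Nat.mem_primeFactors]
  refine ⟨hp, ?_, ?_⟩
  · exact Int.natCast_dvd.mp h
  · exact Int.natAbs_ne_zero.mpr (NumberField.discr_ne_zero L)

lemma liesOver_of_mem {F : Type} [Field F] [NumberField F] {p : ℕ} (hp : p.Prime)
    (P : Ideal (𝓞 F)) [P.IsPrime] (hP : (p : 𝓞 F) ∈ P) :
    P.LiesOver (Ideal.span {(p : ℤ)}) := by
  have hp' : Prime (p : ℤ) := Nat.prime_iff_prime_int.mp hp
  rw [Ideal.liesOver_span_iff (IsPrime.ne_top inferInstance) hp']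
  simpa using hP

lemma mem_of_liesOver {F : Type} [Field F] [NumberField F] {p : ℕ} (hp : p.Prime)
    (P : Ideal (𝓞 F)) [P.IsPrime] [hP : P.LiesOver (Ideal.span {(p : ℤ)})] :
    (p : 𝓞 F) ∈ P := by
  have hp' : Prime (p : ℤ) := Nat.prime_iff_prime_int.mp hp
  have := (Ideal.liesOver_span_iff (IsPrime.ne_top inferInstance) hp').mp hP
  simpa using this

lemma ramificationIdx_eq_one_of_not_mem_badPrimes {p : ℕ} (hp : p.Prime) (hpB : p ∉ badPrimes L)
    (P : Ideal (𝓞 L)) [P.IsPrime] (hP : (p : 𝓞 L) ∈ P) : P.ramificationIdx ℤ = 1 := by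
  have hp' : Prime (p : ℤ) := Nat.prime_iff_prime_int.mp hp
  have h := (NumberField.not_dvd_discr_iff_forall_mem L (𝓞 L) hp').mp
    (not_dvd_discr_of_not_mem_badPrimes L hp hpB) P inferInstance (by simpa using hP)
  exact Ideal.ramificationIdx_eq_one_of_isUnramifiedAt

end

section main

variable (L : Type) [Field L] [NumberField L] [IsGalois ℚ L] (H : Subgroup (L ≃ₐ[ℚ] L))

lemma isGaloisGroup_fixedField :
    IsGaloisGroup H (IntermediateField.fixedField H) L :=
  IsGaloisGroup.subgroup (L ≃ₐ[ℚ] L) ℚ L H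

lemma isGaloisGroup_ringOfIntegers :
    IsGaloisGroup H (𝓞 (IntermediateField.fixedField H)) (𝓞 L) := by
  haveI := isGaloisGroup_fixedField L H
  exact IsGaloisGroup.of_isFractionRing H (𝓞 (IntermediateField.fixedField H)) (𝓞 L)
    (IntermediateField.fixedField H) L

lemma span_isPrime {p : ℕ} (hp : p.Prime) : (Ideal.span {(p : ℤ)}).IsPrime :=
  (Ideal.span_singleton_prime (by exact_mod_cast hp.ne_zero)).mpr (Nat.prime_iff_prime_int.mp hp)

/-- data attached to a prime `𝔮` of `𝓞 F` of norm `p` -/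
lemma ef_eq_one_of_absNorm_eq {p : ℕ} (hp : p.Prime) (hpB : p ∉ badPrimes L)
    (q : Ideal (𝓞 (IntermediateField.fixedField H))) [q.IsPrime] (hq : absNorm q = p) :
    q.LiesOver (Ideal.span {(p : ℤ)}) ∧ q.ramificationIdx ℤ * q.inertiaDeg ℤ = 1 := by
  have hmem : (p : 𝓞 (IntermediateField.fixedField H)) ∈ q := by
    have := Ideal.absNorm_mem q
    rwa [hq] at this
  haveI hlo : q.LiesOver (Ideal.span {(p : ℤ)}) := liesOver_of_mem hp q hmem
  refine ⟨hlo, ?_⟩
  have hf : q.inertiaDeg ℤ = 1 := by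
    have h1 := Ideal.pow_inertiaDeg p q
    rw [hq] at h1
    exact Nat.pow_right_injective hp.two_le (by simpa using h1)
  obtain ⟨⟨P, hP1, hP2⟩⟩ := (inferInstance : Nonempty (q.primesOver (𝓞 L)))
  haveI := hP1
  haveI := hP2
  have hPmem : (p : 𝓞 L) ∈ P := by
    have h2 : algebraMap (𝓞 (IntermediateField.fixedField H)) (𝓞 L)
        (p : 𝓞 (IntermediateField.fixedField H)) ∈ P := by
      rw [← Ideal.mem_comap, ← Ideal.under_def, ← Ideal.over_def P q]
      exact hmem
    simpa using h2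
  have he := ramificationIdx_eq_one_of_not_mem_badPrimes L hp hpB P hPmem
  rw [Ideal.ramificationIdx_tower (R := ℤ) q P] at he
  rw [hf, mul_one]
  exact Nat.eq_one_of_mul_eq_one_right he

/-- a prime `P` of `𝓞 L` over `p` with `D_P ≤ H` restricts to a prime of `𝓞 F` of norm `p` -/
lemma absNorm_under_eq {p : ℕ} (hp : p.Prime)
    (P : Ideal (𝓞 L)) [P.IsPrime] (hP : (p : 𝓞 L) ∈ P)
    (hle : stabilizer (L ≃ₐ[ℚ] L) P ≤ H) :
    (P.under (𝓞 (IntermediateField.fixedField H))).IsPrime ∧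
      absNorm (P.under (𝓞 (IntermediateField.fixedField H))) = p := by
  haveI := isGaloisGroup_ringOfIntegers L H
  haveI := span_isPrime hp
  haveI : P.LiesOver (Ideal.span {(p : ℤ)}) := liesOver_of_mem hp P hP
  haveI hqp : (P.under (𝓞 (IntermediateField.fixedField H))).IsPrime := inferInstance
  haveI : (P.under (𝓞 (IntermediateField.fixedField H))).LiesOver (Ideal.span {(p : ℤ)}) :=
    LiesOver.tower_bot P _ _
  refine ⟨hqp, ?_⟩
  have h1 := (ramificationIdx_mul_inertiaDeg_eq_one_iff (G := L ≃ₐ[ℚ] L) H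
    (Ideal.span {(p : ℤ)}) (P.under (𝓞 (IntermediateField.fixedField H))) P).mpr hle
  have hf : (P.under (𝓞 (IntermediateField.fixedField H))).inertiaDeg ℤ = 1 :=
    Nat.eq_one_of_mul_eq_one_left h1
  have h2 := Ideal.pow_inertiaDeg p (P.under (𝓞 (IntermediateField.fixedField H)))
  rw [hf, pow_one] at h2
  exact h2.symm

/-- **Piece A**, for primes not dividing the discriminant. -/
theorem count_of_not_mem_badPrimes {p : ℕ} (hp : p.Prime) (hpB : p ∉ badPrimes L) :
    primeCount (IntermediateField.fixedField H) p * Nat.card H = decompWeight L H p := by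
  classical
  haveI := isGaloisGroup_ringOfIntegers L H
  haveI := span_isPrime hp
  have hfinT : {q : Ideal (𝓞 (IntermediateField.fixedField H)) |
      q.IsPrime ∧ absNorm q = p}.Finite :=
    (Ideal.finite_setOf_absNorm_eq p).subset (fun q h => h.2)
  have hfinS : (primesLe L H p).Finite := by
    refine Set.Finite.subset
      (Algebra.QuasiFinite.finite_primesOver (S := 𝓞 L) (Ideal.span {(p : ℤ)})) ?_
    rintro P ⟨hP1, hP2, -⟩
    haveI := hP1
    exact ⟨hP1, liesOver_of_mem hp P hP2⟩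
  -- the left-hand side
  have hL : primeCount (IntermediateField.fixedField H) p = hfinT.toFinset.card := by
    rw [← Set.ncard_eq_toFinset_card _ hfinT, ← Nat.card_coe_set_eq]
    rfl
  -- the right-hand side
  have hR : decompWeight L H p = ∑ P ∈ hfinS.toFinset, Nat.card (decomp L P) := by
    rw [decompWeight, finsum_set_coe_eq_finsum_mem (f := fun P => Nat.card (decomp L P)),
      finsum_mem_eq_finite_toFinset_sum _ hfinS]
  rw [hL, hR]
  have hmaps : ∀ P ∈ hfinS.toFinset,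
      P.under (𝓞 (IntermediateField.fixedField H)) ∈ hfinT.toFinset := by
    intro P hP
    rw [Set.Finite.mem_toFinset] at hP ⊢
    obtain ⟨hP1, hP2, hP3⟩ := hP
    haveI := hP1
    exact absNorm_under_eq L H hp P hP2 hP3
  rw [← Finset.sum_fiberwise_of_maps_to hmaps, Finset.card_eq_sum_ones, Finset.sum_mul]
  refine Finset.sum_congr rfl fun q hq => ?_
  rw [Set.Finite.mem_toFinset] at hq
  obtain ⟨hq1, hq2⟩ := hq
  haveI := hq1
  obtain ⟨hlo, hef⟩ := ef_eq_one_of_absNorm_eq L H hp hpB q hq2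
  haveI := hlo
  rw [one_mul, ← finsum_card_stabilizer_primesOver (G := L ≃ₐ[ℚ] L) H (Ideal.span {(p : ℤ)}) q hef
    (Algebra.QuasiFinite.finite_primesOver (S := 𝓞 L) q) Set.Nonempty.of_subtype,
    ← finsum_mem_coe_finset]
  refine finsum_mem_congr ?_ (fun _ _ => rfl)
  ext P
  rw [Finset.coe_filter, Set.mem_setOf_eq, Set.Finite.mem_toFinset]
  constructor
  · intro hP
    have hP1 : P.IsPrime := hP.1
    have hP2 : P.LiesOver q := hP.2
    haveI := hP1
    haveI := hP2
    haveI : P.LiesOver (Ideal.span {(p : ℤ)}) := LiesOver.trans P q _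
    refine ⟨⟨hP1, _root_.Fermat.Agent.Lib.Cheb.H764.mem_of_liesOver hp P, ?_⟩, (Ideal.over_def P q).symm⟩
    exact (ramificationIdx_mul_inertiaDeg_eq_one_iff (G := L ≃ₐ[ℚ] L) H
      (Ideal.span {(p : ℤ)}) q P).mp hef
  · rintro ⟨hP, hP4⟩
    exact ⟨hP.1, ⟨hP4.symm⟩⟩

/-- **Piece A** of the CHEB library: `Spec.CountStatement`. -/
theorem count : Spec.CountStatement := by
  intro L _ _ _ H
  exact ⟨badPrimes L, fun p hp hpB => count_of_not_mem_badPrimes L H hp hpB⟩

end main

end Fermat.Agent.Lib.Cheb.H764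

end
-- ===== PACK-END Lib/Cheb/H764/Count.lean

-- ===== PACK-BEGIN Lib/Cheb/H223/Cross.lean
section




/-!
# Chebotarev field crossing in the `Spec` shape (helper223, shared lib CHEB)

`cross : Spec.CrossStatement`, i.e. `FrobStatement → CycStatement → ChebFiniteStatement`.
-/

set_option autoImplicit false
set_option linter.style.haveILetI false

namespace Fermat.Agent.Lib.Cheb.H223

open NumberField IntermediateField
open Fermat.Agent.Lib.Cheb.Spec

/-- Pulling back an arithmetic Frobenius along an equivariant embedding of number fields. -/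
theorem isArithFrobAt_comap {L L' : Type} [Field L] [NumberField L] [Field L'] [NumberField L']
    (ψ : L →+* L') (σ : L ≃ₐ[ℚ] L) (g' : L' ≃ₐ[ℚ] L') (hcomm : ∀ x, ψ (σ x) = g' (ψ x))
    (P' : Ideal (𝓞 L')) (h : IsArithFrobAt ℤ g' P') :
    IsArithFrobAt ℤ σ (P'.comap (RingOfIntegers.mapRingHom ψ)) := by
  intro x
  have hx := h (RingOfIntegers.mapRingHom ψ x)
  have e1 : RingOfIntegers.mapRingHom ψ (σ • x) = g' • (RingOfIntegers.mapRingHom ψ x) := by
    apply RingOfIntegers.ext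
    exact hcomm x
  have e2 : (P'.comap (RingOfIntegers.mapRingHom ψ)).under ℤ = P'.under ℤ := by
    ext n
    simp [Ideal.under, Ideal.mem_comap]
  rw [Ideal.mem_comap, e2]
  change RingOfIntegers.mapRingHom ψ (σ • x - x ^ Nat.card (ℤ ⧸ P'.under ℤ)) ∈ P'
  rw [map_sub, map_pow, e1]
  exact hx

/-- powers of `g` act on `ζ` by powers of `t` -/
theorem pow_apply_of_apply_eq_pow {K : Type*} [Field K] [Algebra ℚ K] (g : K ≃ₐ[ℚ] K) {ζ : K}
    {t : ℕ} (h : g ζ = ζ ^ t) (k : ℕ) : (g ^ k) ζ = ζ ^ t ^ k := by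
  induction k with
  | zero => simp
  | succ k ih =>
    rw [pow_succ', AlgEquiv.mul_apply, ih, map_pow, h, ← pow_mul, ← pow_succ']

/-- an automorphism fixing `L` pointwise and `ζ` fixes `L ⊔ ℚ⟮ζ⟯` pointwise -/
theorem apply_eq_of_mem_sup {K : Type*} [Field K] [Algebra ℚ K] (f : K ≃ₐ[ℚ] K)
    (L : IntermediateField ℚ K) (ζ : K) (hL : ∀ x ∈ L, f x = x) (hζ : f ζ = ζ) :
    ∀ x ∈ L ⊔ ℚ⟮ζ⟯, f x = x := by
  let E : IntermediateField ℚ K :=
    { carrier := {x | f x = x}
      mul_mem' := fun {a b} ha hb => by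
        simp only [Set.mem_ofPred_eq] at ha hb ⊢
        rw [map_mul, ha, hb]
      one_mem' := map_one f
      add_mem' := fun {a b} ha hb => by
        simp only [Set.mem_ofPred_eq] at ha hb ⊢
        rw [map_add, ha, hb]
      zero_mem' := map_zero f
      algebraMap_mem' := fun r => f.commutes r
      inv_mem' := fun x hx => by
        simp only [Set.mem_ofPred_eq] at hx ⊢
        rw [map_inv₀, hx] }
  have h1 : L ≤ E := fun x hx => hL x hx
  have h2 : ℚ⟮ζ⟯ ≤ E := by
    rw [IntermediateField.adjoin_simple_le_iff]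
    exact hζ
  intro x hx
  exact (sup_le h1 h2) hx

set_option backward.isDefEq.respectTransparency false in
/-- **Field crossing** in the `Spec` shape. -/
theorem cross : CrossStatement := by
  intro hF hC L _ _ _ σ S
  haveI := isGalois_Qb
  haveI : Algebra.IsAlgebraic ℚ Qb := AlgebraicClosure.isAlgebraic ℚ
  obtain ⟨BL, hBL⟩ := hF L
  -- embed `L` into `ℚ̄`
  let φ : L →ₐ[ℚ] Qb := IsAlgClosed.lift
  let L₀ : IntermediateField ℚ Qb := φ.fieldRange
  let e : L ≃ₐ[ℚ] L₀ := AlgEquiv.ofInjectiveField φ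
  haveI : FiniteDimensional ℚ L₀ := e.toLinearEquiv.finiteDimensional
  haveI : IsGalois ℚ L₀ := IsGalois.of_algEquiv e
  have heφ : ∀ x : L, ((e x : L₀) : Qb) = φ x := fun x => rfl
  -- transport `σ` and lift it to `ℚ̄`
  let σ₀ : L₀ ≃ₐ[ℚ] L₀ := (e.symm.trans σ).trans e
  obtain ⟨σ', hσ'⟩ := AlgEquiv.restrictNormalHom_surjective (F := ℚ) (K₁ := L₀) Qb σ₀
  have hσφ : ∀ x : L, σ' (φ x) = φ (σ x) := by
    intro x
    have h1 := AlgEquiv.restrictNormal_commutes σ' L₀ (e x)
    have h2 : (AlgEquiv.restrictNormalHom L₀ σ') (e x) = σ₀ (e x) := by rw [hσ']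
    have h3 : σ₀ (e x) = e (σ x) := by
      simp [σ₀]
    have h4 := congrArg (Subtype.val) (h2.trans h3)
    exact h1.symm.trans h4
  -- crossing
  obtain ⟨ℓ, ζ, g, t, hℓ, -, hζ, hgL, hgζ, hkey⟩ := exists_crossing L₀ σ' 0
  haveI : Algebra.IsIntegral ℚ Qb := Algebra.IsAlgebraic.isIntegral
  haveI : NeZero ℓ := ⟨hℓ.ne_zero⟩
  haveI hcyc : IsCyclotomicExtension {ℓ} ℚ ℚ⟮ζ⟯ :=
    hζ.intermediateField_adjoin_isCyclotomicExtension ℚ
  haveI : FiniteDimensional ℚ ℚ⟮ζ⟯ := IsCyclotomicExtension.finiteDimensional {ℓ} ℚ _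
  haveI : IsGalois ℚ ℚ⟮ζ⟯ := IsCyclotomicExtension.isGalois {ℓ} ℚ _
  let L' : IntermediateField ℚ Qb := L₀ ⊔ ℚ⟮ζ⟯
  haveI : FiniteDimensional ℚ L' := IntermediateField.finiteDimensional_sup L₀ ℚ⟮ζ⟯
  haveI : NumberField L' := ⟨⟩
  haveI : Normal ℚ L' := IntermediateField.normal_sup ℚ Qb L₀ ℚ⟮ζ⟯
  haveI : IsGalois ℚ L' := isGalois_iff.mpr ⟨inferInstance, inferInstance⟩
  have hζL' : ζ ∈ L' := (le_sup_right : ℚ⟮ζ⟯ ≤ L') (mem_adjoin_simple_self ℚ ζ)
  let ζ' : L' := ⟨ζ, hζL'⟩
  have hζ' : IsPrimitiveRoot ζ' ℓ :=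
    IsPrimitiveRoot.of_map_of_injective (f := L'.val) (by simpa [ζ'] using hζ) L'.val.injective
  let g' : L' ≃ₐ[ℚ] L' := AlgEquiv.restrictNormalHom L' g
  have hg'val : ∀ (k : ℕ) (y : L'), (((g' ^ k) y : L') : Qb) = (g ^ k) (y : Qb) := by
    intro k y
    have h1 : g' ^ k = AlgEquiv.restrictNormalHom L' (g ^ k) := (map_pow _ g k).symm
    rw [h1]
    exact AlgEquiv.restrictNormal_commutes (g ^ k) L' y
  have hcond : ∀ k : ℕ, (g' ^ k) ζ' = ζ' → g' ^ k = 1 := by
    intro k hk
    have h1 : (g ^ k) ζ = ζ := by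
      have := congrArg Subtype.val hk
      rw [hg'val k ζ'] at this
      exact this
    have h2 : ζ ^ t ^ k = ζ := by rw [← pow_apply_of_apply_eq_pow g hgζ k]; exact h1
    have h3 := apply_eq_of_mem_sup (g ^ k) L₀ ζ (hkey k h2) h1
    apply AlgEquiv.ext
    intro y
    apply Subtype.ext
    rw [hg'val k y]
    exact h3 y y.2
  obtain ⟨p, P', hp, hpS, hP', hpP', -, hfrob⟩ := hC L' ℓ ζ' hℓ.pos hζ' g' hcond (S ∪ BL)
  -- pull back to `L`
  have hφL' : ∀ x : L, φ x ∈ L' := fun x => (le_sup_left : L₀ ≤ L') (e x).2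
  let ψ : L →+* L' := φ.toRingHom.codRestrict L'.toSubfield hφL'
  have hψval : ∀ x : L, ((ψ x : L') : Qb) = φ x := fun x => rfl
  have hcomm : ∀ x : L, ψ (σ x) = g' (ψ x) := by
    intro x
    apply Subtype.ext
    have h1 := hg'val 1 (ψ x)
    rw [pow_one, pow_one] at h1
    rw [h1, hψval, hψval, hgL (φ x) (e x).2, hσφ]
  have hpS' : p ∉ S := fun h => hpS (Finset.mem_union_left _ h)
  have hpB : p ∉ BL := fun h => hpS (Finset.mem_union_right _ h)
  let P : Ideal (𝓞 L) := P'.comap (RingOfIntegers.mapRingHom ψ)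
  have hP : P.IsPrime := Ideal.comap_isPrime _ _
  have hpP : (p : 𝓞 L) ∈ P := by
    rw [Ideal.mem_comap, map_natCast]
    exact hpP'
  exact ⟨p, P, hp, hpS', hP, hpP, (hBL p hp hpB P hP hpP).1,
    isArithFrobAt_comap ψ σ g' hcomm P' hfrob⟩

end Fermat.Agent.Lib.Cheb.H223

end
-- ===== PACK-END Lib/Cheb/H223/Cross.lean

-- ===== PACK-BEGIN S55/Bridge/Cyclo.lean
section


/-!
# S55 bridge, part B2b: the mod `p` cyclotomic character is unramified outside `p`,
and `M.dualTwist (cycloChar p)` inherits smoothness and unramifiedness from `M`.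
-/

set_option autoImplicit false

namespace Fermat.Agent.S55.Bridge

open ExtCitation

section inertia

variable (A : ValuationSubring (AlgebraicClosure ℚ))

/-- Elements of the inertia group act trivially on the residue field. -/
theorem inertia_val_sub_lt_one {σ : AlgebraicClosure ℚ ≃ₐ[ℚ] AlgebraicClosure ℚ}
    (hσ : σ ∈ A.inertiaSubgroupIn ℚ) (z : AlgebraicClosure ℚ)
    (hz : A.valuation z ≤ 1) : A.valuation (σ z - z) < 1 := by
  obtain ⟨g, hg, rfl⟩ := hσ
  have hzA : z ∈ A := (A.valuation_le_one_iff z).mp hz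
  have h1 : MulSemiringAction.toRingAut (A.decompositionSubgroup ℚ)
      (IsLocalRing.ResidueField A) g = 1 := hg
  have h2 : g • (IsLocalRing.residue A ⟨z, hzA⟩) = IsLocalRing.residue A ⟨z, hzA⟩ := by
    have := congrArg (fun f => f (IsLocalRing.residue A ⟨z, hzA⟩)) h1
    simpa using this
  rw [← IsLocalRing.ResidueField.residue_smul] at h2
  have h3 : (g • (⟨z, hzA⟩ : A)) - ⟨z, hzA⟩ ∈ IsLocalRing.maximalIdeal A := by
    rw [← Ideal.Quotient.eq]
    exact h2
  rw [ValuationSubring.valuation_lt_one_iff] at h3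
  exact h3

variable {A}

theorem val_intCast_le_one (n : ℤ) : A.valuation (n : AlgebraicClosure ℚ) ≤ 1 :=
  (A.valuation_le_one_iff _).mpr (intCast_mem A n)

/-- A prime `p ≠ q` is a unit at a place over `q`. -/
theorem val_prime_eq_one {q p : ℕ} (hq : A.LiesOverPrime q) (hqp : q.Prime) (hp : p.Prime)
    (hne : q ≠ p) : A.valuation (p : AlgebraicClosure ℚ) = 1 := by
  have hq' : A.valuation (q : AlgebraicClosure ℚ) < 1 := (A.mem_nonunits_iff).mp hq
  have hcop : IsCoprime (q : ℤ) (p : ℤ) := by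
    rw [Int.isCoprime_iff_gcd_eq_one, Int.gcd_natCast_natCast]
    exact (Nat.coprime_primes hqp hp).2 hne
  obtain ⟨u, w, huw⟩ := hcop
  have h1 : (u : AlgebraicClosure ℚ) * (q : AlgebraicClosure ℚ)
      + (w : AlgebraicClosure ℚ) * (p : AlgebraicClosure ℚ) = 1 := by
    exact_mod_cast congrArg (Int.cast : ℤ → AlgebraicClosure ℚ) huw
  have hsmall : A.valuation ((u : AlgebraicClosure ℚ) * (q : AlgebraicClosure ℚ)) < 1 := by
    rw [map_mul]
    exact (mul_le_of_le_one_left' (val_intCast_le_one u)).trans_lt hq'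
  have hwn : A.valuation ((w : AlgebraicClosure ℚ) * (p : AlgebraicClosure ℚ)) = 1 := by
    have : (w : AlgebraicClosure ℚ) * (p : AlgebraicClosure ℚ)
        = 1 + -((u : AlgebraicClosure ℚ) * (q : AlgebraicClosure ℚ)) := by linear_combination h1
    rw [this, (A.valuation).map_add_eq_of_lt_left
      (by rw [Valuation.map_neg, map_one]; exact hsmall), map_one]
  rw [map_mul] at hwn
  have hp1 : A.valuation (p : AlgebraicClosure ℚ) ≤ 1 := by
    have := val_intCast_le_one (A := A) (p : ℤ)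
    simpa using this
  refine le_antisymm hp1 ?_
  calc (1 : A.ValueGroup)
      = A.valuation (w : AlgebraicClosure ℚ) * A.valuation (p : AlgebraicClosure ℚ) := hwn.symm
    _ ≤ 1 * A.valuation (p : AlgebraicClosure ℚ) := mul_le_mul_left (val_intCast_le_one w) _
    _ = A.valuation (p : AlgebraicClosure ℚ) := one_mul _

/-- A nontrivial `p`-th root of unity `η` has `v (1 - η) = 1` at places where `p` is a unit. -/
theorem val_one_sub_root_eq_one {p : ℕ} (hpv : A.valuation (p : AlgebraicClosure ℚ) = 1)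
    {η : AlgebraicClosure ℚ} (hη : η ^ p = 1) (hη1 : η ≠ 1) (hηA : η ∈ A) :
    A.valuation (1 - η) = 1 := by
  -- work in the ring `A`
  let e : A := ⟨η, hηA⟩
  have hdvd : (1 : A) - e ∣ ((∑ i ∈ Finset.range p, (Polynomial.X : Polynomial A) ^ i).eval 1
      - (∑ i ∈ Finset.range p, (Polynomial.X : Polynomial A) ^ i).eval e) :=
    Polynomial.sub_dvd_eval_sub 1 e _
  have hsum : ∑ i ∈ Finset.range p, η ^ i = 0 := by
    have h := geom_sum_mul η p
    rw [hη, sub_self] at h
    rcases mul_eq_zero.1 h with h | h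
    · exact h
    · exact absurd (sub_eq_zero.1 h) hη1
  have hsumA : ∑ i ∈ Finset.range p, e ^ i = 0 := by
    apply Subtype.ext
    simpa [e] using hsum
  have heval1 : (∑ i ∈ Finset.range p, (Polynomial.X : Polynomial A) ^ i).eval 1 = (p : A) := by
    simp [Polynomial.eval_finsetSum]
  have hevale : (∑ i ∈ Finset.range p, (Polynomial.X : Polynomial A) ^ i).eval e = 0 := by
    simpa [Polynomial.eval_finsetSum] using hsumA
  rw [heval1, hevale, sub_zero] at hdvd
  obtain ⟨y, hy⟩ := hdvd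
  have hy' : (p : AlgebraicClosure ℚ) = (1 - η) * (y : AlgebraicClosure ℚ) := by
    have := congrArg (fun a : A => (a : AlgebraicClosure ℚ)) hy
    simpa [e] using this
  have hle : A.valuation (1 - η) ≤ 1 :=
    (A.valuation_le_one_iff _).mpr (A.sub_mem A.one_mem hηA)
  refine le_antisymm hle ?_
  have hyv : A.valuation (y : AlgebraicClosure ℚ) ≤ 1 := A.valuation_le_one y
  calc (1 : A.ValueGroup) = A.valuation (p : AlgebraicClosure ℚ) := hpv.symm
    _ = A.valuation (1 - η) * A.valuation (y : AlgebraicClosure ℚ) := by rw [hy', map_mul]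
    _ ≤ A.valuation (1 - η) * 1 := mul_le_mul_right hyv _
    _ = A.valuation (1 - η) := mul_one _

/-- Two distinct `p`-th roots of unity stay distinct in the residue field at places where `p`
is a unit. -/
theorem val_sub_roots_eq_one {p : ℕ} (hp0 : p ≠ 0)
    (hpv : A.valuation (p : AlgebraicClosure ℚ) = 1)
    {a b : AlgebraicClosure ℚ} (ha : a ^ p = 1) (hb : b ^ p = 1) (hab : a ≠ b) :
    A.valuation (a - b) = 1 := by
  have hb0 : b ≠ 0 := by
    rintro rfl
    rw [zero_pow hp0] at hb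
    exact zero_ne_one hb
  have hvb : A.valuation b = 1 := by
    have h : (A.valuation b) ^ p = 1 := by rw [← map_pow, hb, map_one]
    exact (pow_eq_one_iff.1 h).resolve_right hp0
  have hva : A.valuation a = 1 := by
    have h : (A.valuation a) ^ p = 1 := by rw [← map_pow, ha, map_one]
    exact (pow_eq_one_iff.1 h).resolve_right hp0
  have hη : (a / b) ^ p = 1 := by rw [div_pow, ha, hb, div_one]
  have hη1 : a / b ≠ 1 := by
    intro h
    exact hab ((div_eq_one_iff_eq hb0).1 h)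
  have hηA : a / b ∈ A := by
    rw [← A.valuation_le_one_iff, map_div₀, hva, hvb, div_one]
  have h1 := val_one_sub_root_eq_one hpv hη hη1 hηA
  have : a - b = -(b * (1 - a / b)) := by
    field_simp
    ring
  rw [this, Valuation.map_neg, map_mul, hvb, h1, one_mul]

end inertia

section cyclo

variable (p : ℕ) [Fact p.Prime]

/-- Defining property of `cycloChar`. -/
theorem cycloChar_spec (σ : AlgebraicClosure ℚ ≃ₐ[ℚ] AlgebraicClosure ℚ)
    {t : (AlgebraicClosure ℚ)ˣ} (ht : t ∈ rootsOfUnity p (AlgebraicClosure ℚ)) :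
    σ (t : AlgebraicClosure ℚ)
      = (t : AlgebraicClosure ℚ) ^ ((cycloChar p σ : (ZMod p)ˣ) : ZMod p).val := by
  haveI : NeZero p := ⟨(Fact.out : p.Prime).ne_zero⟩
  have h := modularCyclotomicCharacter.spec (AlgebraicClosure ℚ) (card_rootsOfUnity_eq_self p)
    (σ : AlgebraicClosure ℚ ≃+* AlgebraicClosure ℚ) ht
  exact h

/-- If `σ` fixes all `p`-th roots of unity then `cycloChar p σ = 1`. -/
theorem cycloChar_eq_one_of_fixes (σ : AlgebraicClosure ℚ ≃ₐ[ℚ] AlgebraicClosure ℚ)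
    (hσ : ∀ t : (AlgebraicClosure ℚ)ˣ, t ∈ rootsOfUnity p (AlgebraicClosure ℚ) →
      σ (t : AlgebraicClosure ℚ) = t) : cycloChar p σ = 1 := by
  haveI : NeZero p := ⟨(Fact.out : p.Prime).ne_zero⟩
  haveI : Fact (1 < p) := ⟨(Fact.out : p.Prime).one_lt⟩
  have h := modularCyclotomicCharacter.unique (AlgebraicClosure ℚ) (card_rootsOfUnity_eq_self p)
    (σ : AlgebraicClosure ℚ ≃+* AlgebraicClosure ℚ) (c := 1)
    (fun t ht => by rw [ZMod.val_one, pow_one]; exact hσ t ht)
  apply Units.ext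
  exact h.symm

/-- `cycloChar p σ = 1` iff `σ` fixes all `p`-th roots of unity. -/
theorem cycloChar_eq_one_iff (σ : AlgebraicClosure ℚ ≃ₐ[ℚ] AlgebraicClosure ℚ) :
    cycloChar p σ = 1 ↔ ∀ t : (AlgebraicClosure ℚ)ˣ, t ∈ rootsOfUnity p (AlgebraicClosure ℚ) →
      σ (t : AlgebraicClosure ℚ) = t := by
  haveI : Fact (1 < p) := ⟨(Fact.out : p.Prime).one_lt⟩
  refine ⟨fun h t ht => ?_, cycloChar_eq_one_of_fixes p σ⟩
  rw [cycloChar_spec p σ ht, h, Units.val_one, ZMod.val_one, pow_one]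

/-- **B2b.** The mod `p` cyclotomic character is unramified at every prime `q ≠ p`. -/
theorem cycloChar_eq_one_of_mem_inertia {q : ℕ} (hq : q.Prime) (hqp : q ≠ p)
    (A : ValuationSubring (AlgebraicClosure ℚ)) (hA : A.LiesOverPrime q)
    (σ : AlgebraicClosure ℚ ≃ₐ[ℚ] AlgebraicClosure ℚ) (hσ : σ ∈ A.inertiaSubgroupIn ℚ) :
    cycloChar p σ = 1 := by
  have hp : p.Prime := Fact.out
  apply cycloChar_eq_one_of_fixes
  intro t ht
  have htp : (t : AlgebraicClosure ℚ) ^ p = 1 := by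
    have := (mem_rootsOfUnity p t).1 ht
    rw [← Units.val_pow_eq_pow_val, this, Units.val_one]
  by_contra hne
  have hpv := val_prime_eq_one (A := A) hA hq hp hqp
  have hσt : (σ (t : AlgebraicClosure ℚ)) ^ p = 1 := by rw [← map_pow, htp, map_one]
  have h1 := val_sub_roots_eq_one (A := A) hp.ne_zero hpv hσt htp hne
  have hvt : A.valuation (t : AlgebraicClosure ℚ) ≤ 1 := by
    have h : (A.valuation (t : AlgebraicClosure ℚ)) ^ p = 1 := by rw [← map_pow, htp, map_one]
    exact ((pow_eq_one_iff.1 h).resolve_right hp.ne_zero).le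
  have h2 := inertia_val_sub_lt_one A hσ t hvt
  rw [h1] at h2
  exact lt_irrefl _ h2

end cyclo

end Fermat.Agent.S55.Bridge

end
-- ===== PACK-END S55/Bridge/Cyclo.lean

-- ===== PACK-BEGIN S21/DefsMS.lean
section


/-!
# S21 — definitions for the minimizing-sequence part (MS)
-/

set_option autoImplicit false

open UpperHalfPlane CongruenceSubgroup
open scoped MatrixGroups ContDiff

namespace Fermat.Agent.S21

/-- Test functions: smooth, compactly supported in the upper half plane. -/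
def IsTest (η : ℂ → ℝ) : Prop :=
  ContDiff ℝ ∞ η ∧ HasCompactSupport η ∧ tsupport η ⊆ Uhp

/-- The properties of a smooth `SL(2,ℤ)`-partition of unity (output of MS-A). -/
structure IsSL2ZPartition (χ₁ : ℂ → ℝ) : Prop where
  smooth : ContDiffOn ℝ ∞ χ₁ Uhp
  nonneg : ∀ z, 0 ≤ χ₁ z
  supp : ∀ z, χ₁ z ≠ 0 → |z.re| ≤ 1 ∧ 1 / 2 < z.im
  locfin : ∀ K : Set ℂ, IsCompact K → K ⊆ Uhp →
    {g : SL(2, ℤ) | ∃ z ∈ K, χ₁ (mob g z) ≠ 0}.Finite
  sum_eq_one : ∀ z ∈ Uhp, ∑ᶠ g : SL(2, ℤ), χ₁ (mob g z) = 1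

/-- The `Γ₀(N)`-partition of unity built from an `SL(2,ℤ)`-partition `χ₁`
(sum over representatives of the left cosets `g Γ₀(N)`), extended by `0` off the upper half
plane. -/
noncomputable def chi (N : ℕ) (χ₁ : ℂ → ℝ) : ℂ → ℝ :=
  Set.indicator Uhp fun z => ∑ᶠ q : SL(2, ℤ) ⧸ Gamma0 N, χ₁ (mob (Quotient.out q) z)

/-- `Γ₀(N)`-symmetrization of a test function. -/
noncomputable def sym (N : ℕ) (η : ℂ → ℝ) : ℂ → ℝ :=
  fun z => ∑ᶠ γ : Gamma0 N, η (mob (γ : SL(2, ℤ)) z)

end Fermat.Agent.S21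

end
-- ===== PACK-END S21/DefsMS.lean

-- ===== PACK-BEGIN S21/Partition.lean
section


/-!
# S21 / MS-A — a smooth `SL(2,ℤ)`-partition of unity on the upper half plane

Main results:
* `Fermat.Agent.S21.finite_mob_inter` (G1): proper discontinuity in terms of `mob`.
* `Fermat.Agent.S21.c_eq_zero_of_two_le_im` (G2).
* `Fermat.Agent.S21.exists_partition_SL2Z`.

All auxiliary lemmas live in the namespace `Fermat.Agent.S21.PartitionAux`
(`mob_mob`, `mob_im`, `mob_eq_div`, `mob_contDiffAt`, `mob_im_le_max`, `psiFn`, `PsiSum`,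
`chiOne` and its properties).
-/

set_option autoImplicit false

open UpperHalfPlane Matrix
open scoped MatrixGroups ContDiff

namespace Fermat.Agent.S21.PartitionAux

/-! ### Basic facts about `mob` -/

theorem mob_coe (g : SL(2, ℤ)) (w : ℍ) : mob g (w : ℂ) = ((g • w : ℍ) : ℂ) := by
  simp [mob]

theorem mob_of_mem {z : ℂ} (hz : z ∈ Uhp) (g : SL(2, ℤ)) :
    mob g z = ((g • (⟨z, hz⟩ : ℍ) : ℍ) : ℂ) := by
  simp [mob, ofComplex_apply_of_im_pos hz]

theorem mob_mem_Uhp (g : SL(2, ℤ)) (z : ℂ) : mob g z ∈ Uhp := coe_mem_Uhp _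

theorem mob_mob (g h : SL(2, ℤ)) (z : ℂ) : mob g (mob h z) = mob (g * h) z := by
  simp [mob, _root_.SemigroupAction.mul_smul]

theorem mob_one {z : ℂ} (hz : z ∈ Uhp) : mob 1 z = z := by
  simp [mob_of_mem hz]

theorem mob_im (g : SL(2, ℤ)) {z : ℂ} (hz : z ∈ Uhp) :
    (mob g z).im = z.im / Complex.normSq (cd g z) := by
  rw [mob_of_mem hz]
  have h := ModularGroup.im_smul_eq_div_normSq g (⟨z, hz⟩ : ℍ)
  rw [ModularGroup.denom_apply] at h
  exact h

theorem mob_eq_div (g : SL(2, ℤ)) {z : ℂ} (hz : z ∈ Uhp) :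
    mob g z = (((g 0 0 : ℤ) : ℂ) * z + ((g 0 1 : ℤ) : ℂ)) / cd g z := by
  rw [mob_of_mem hz, coe_specialLinearGroup_apply]
  simp [cd]

theorem cd_ne_zero (g : SL(2, ℤ)) {z : ℂ} (hz : z ∈ Uhp) : cd g z ≠ 0 := by
  have h := UpperHalfPlane.denom_ne_zero g (⟨z, hz⟩ : ℍ)
  rw [ModularGroup.denom_apply] at h
  exact h

/-! ### Bounds on the imaginary part -/

theorem normSq_cd (g : SL(2, ℤ)) (z : ℂ) :
    Complex.normSq (cd g z) =
      ((g 1 0 : ℤ) * z.re + (g 1 1 : ℤ)) ^ 2 + ((g 1 0 : ℤ) * z.im) ^ 2 := by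
  simp [cd, Complex.normSq_apply]
  ring

theorem sq_im_le_normSq_cd (g : SL(2, ℤ)) (z : ℂ) (hc : g 1 0 ≠ 0) :
    z.im ^ 2 ≤ Complex.normSq (cd g z) := by
  rw [normSq_cd]
  have h1 : (1 : ℝ) ≤ ((g 1 0 : ℤ) : ℝ) ^ 2 := by
    have : (1 : ℤ) ≤ (g 1 0) ^ 2 := by
      have := sq_pos_of_ne_zero hc  -- 0 < c^2
      omega
    exact_mod_cast this
  have h2 : 0 ≤ (((g 1 0 : ℤ) : ℝ) * z.re + ((g 1 1 : ℤ) : ℝ)) ^ 2 := sq_nonneg _
  have h3 : 0 ≤ z.im ^ 2 := sq_nonneg _
  nlinarith

theorem one_le_normSq_cd (g : SL(2, ℤ)) (z : ℂ) (hc : g 1 0 = 0) :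
    1 ≤ Complex.normSq (cd g z) := by
  rw [normSq_cd, hc]
  have hd : g 1 1 ≠ 0 := by
    intro hd
    have hdet := g.det_coe
    rw [Matrix.det_fin_two, hc, hd] at hdet
    simp at hdet
  have h1 : (1 : ℝ) ≤ ((g 1 1 : ℤ) : ℝ) ^ 2 := by
    have : (1 : ℤ) ≤ (g 1 1) ^ 2 := by
      have := sq_pos_of_ne_zero hd
      omega
    exact_mod_cast this
  simpa using h1

theorem mob_im_le_inv (g : SL(2, ℤ)) {z : ℂ} (hz : z ∈ Uhp) (hc : g 1 0 ≠ 0) :
    (mob g z).im ≤ 1 / z.im := by
  have hz' : 0 < z.im := hz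
  rw [mob_im g hz]
  have h := sq_im_le_normSq_cd g z hc
  have hpos : 0 < Complex.normSq (cd g z) := lt_of_lt_of_le (by positivity) h
  rw [div_le_div_iff₀ hpos hz']
  nlinarith

theorem mob_im_le_self (g : SL(2, ℤ)) {z : ℂ} (hz : z ∈ Uhp) (hc : g 1 0 = 0) :
    (mob g z).im ≤ z.im := by
  have hz' : 0 < z.im := hz
  rw [mob_im g hz]
  have h := one_le_normSq_cd g z hc
  exact div_le_self hz'.le h

theorem mob_im_le_max (g : SL(2, ℤ)) {z : ℂ} (hz : z ∈ Uhp) :
    (mob g z).im ≤ max z.im (1 / z.im) := by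
  by_cases hc : g 1 0 = 0
  · exact (mob_im_le_self g hz hc).trans (le_max_left _ _)
  · exact (mob_im_le_inv g hz hc).trans (le_max_right _ _)

end Fermat.Agent.S21.PartitionAux

namespace Fermat.Agent.S21

open PartitionAux

/-- (G2) If `Im z ≥ 2` and `Im (g z) > 1/2` then the lower-left entry of `g` vanishes. -/
theorem c_eq_zero_of_two_le_im (g : SL(2, ℤ)) (z : ℂ) (hz : 2 ≤ z.im)
    (hg : 1 / 2 < (mob g z).im) : g 1 0 = 0 := by
  by_contra hc
  have hzU : z ∈ Uhp := lt_of_lt_of_le (by norm_num) hz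
  have h1 := mob_im_le_inv g hzU hc
  have h2 : 1 / z.im ≤ 1 / 2 := by
    apply one_div_le_one_div_of_le (by norm_num) hz
  linarith

/-! ### Proper discontinuity -/

/-- (G1) Proper discontinuity of the action of `SL(2,ℤ)` in terms of `mob`. -/
theorem finite_mob_inter (K : Set ℂ) (hK : IsCompact K) (hKU : K ⊆ Uhp) :
    {g : SL(2, ℤ) | ∃ z ∈ K, mob g z ∈ K}.Finite := by
  set K' : Set ℍ := (fun w : ℍ => (w : ℂ)) ⁻¹' K with hK'
  have hK'c : IsCompact K' :=
    UpperHalfPlane.isEmbedding_coe.isInducing.isCompact_preimage' hK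
      (fun z hz => ⟨⟨z, hKU hz⟩, rfl⟩)
  have hpd := (Subgroup.properlyDiscontinuousSMul_iff (α := ℍ) 𝒮ℒ).mp inferInstance hK'c hK'c
  refine (hpd.preimage (f := SpecialLinearGroup.mapGL ℝ)
    (SpecialLinearGroup.mapGL_injective.injOn)).subset ?_
  rintro g ⟨z, hz, hgz⟩
  refine ⟨⟨g, rfl⟩, ?_⟩
  refine ⟨g • (⟨z, hKU hz⟩ : ℍ), ⟨⟨z, hKU hz⟩, hz, rfl⟩, ?_⟩
  show ((g • (⟨z, hKU hz⟩ : ℍ) : ℍ) : ℂ) ∈ K
  rw [← mob_of_mem (hKU hz)]
  exact hgz

end Fermat.Agent.S21

namespace Fermat.Agent.S21.PartitionAux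

/-! ### The bump function `ψ` -/

/-- A smooth bump in the real direction: `= 1` on `[-1/2, 1/2]`, support in `(-1, 1)`. -/
noncomputable def betaFn (x : ℝ) : ℝ :=
  Real.smoothTransition (2 * (1 - x)) * Real.smoothTransition (2 * (1 + x))

/-- The bump `ψ(z) = β(Re z) θ(Im z)` with `θ(y) = smoothTransition (y - 1/2)`. -/
noncomputable def psiFn (z : ℂ) : ℝ :=
  betaFn z.re * Real.smoothTransition (z.im - 1 / 2)

theorem betaFn_nonneg (x : ℝ) : 0 ≤ betaFn x :=
  mul_nonneg (Real.smoothTransition.nonneg _) (Real.smoothTransition.nonneg _)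

theorem psiFn_nonneg (z : ℂ) : 0 ≤ psiFn z :=
  mul_nonneg (betaFn_nonneg _) (Real.smoothTransition.nonneg _)

theorem betaFn_contDiff : ContDiff ℝ ∞ betaFn := by
  unfold betaFn
  exact (Real.smoothTransition.contDiff.comp (contDiff_const.mul (contDiff_const.sub contDiff_id))).mul
    (Real.smoothTransition.contDiff.comp (contDiff_const.mul (contDiff_const.add contDiff_id)))

theorem psiFn_contDiff : ContDiff ℝ ∞ psiFn := by
  unfold psiFn
  exact (betaFn_contDiff.comp Complex.reCLM.contDiff).mul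
    (Real.smoothTransition.contDiff.comp (Complex.imCLM.contDiff.sub contDiff_const))

theorem psiFn_ne_zero {z : ℂ} (h : psiFn z ≠ 0) : |z.re| < 1 ∧ 1 / 2 < z.im := by
  unfold psiFn betaFn at h
  have h1 : Real.smoothTransition (2 * (1 - z.re)) ≠ 0 := fun h0 => h (by rw [h0]; ring)
  have h2 : Real.smoothTransition (2 * (1 + z.re)) ≠ 0 := fun h0 => h (by rw [h0]; ring)
  have h3 : Real.smoothTransition (z.im - 1 / 2) ≠ 0 := fun h0 => h (by rw [h0]; ring)
  rw [Ne, Real.smoothTransition.zero_iff_nonpos, not_le] at h1 h2 h3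
  refine ⟨abs_lt.mpr ⟨by linarith, by linarith⟩, by linarith⟩

theorem psiFn_pos {z : ℂ} (h1 : |z.re| ≤ 1 / 2) (h2 : 1 / 2 < z.im) : 0 < psiFn z := by
  unfold psiFn betaFn
  have := abs_le.mp h1
  refine mul_pos (mul_pos ?_ ?_) ?_
  · exact Real.smoothTransition.pos_of_pos (by linarith)
  · exact Real.smoothTransition.pos_of_pos (by linarith)
  · exact Real.smoothTransition.pos_of_pos (by linarith)

/-! ### Local finiteness -/

theorem finite_psi_support (K : Set ℂ) (hK : IsCompact K) (hKU : K ⊆ Uhp) :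
    {g : SL(2, ℤ) | ∃ z ∈ K, psiFn (mob g z) ≠ 0}.Finite := by
  rcases K.eq_empty_or_nonempty with rfl | hne
  · simp
  -- bounds for the imaginary part on `K`
  obtain ⟨z₁, hz₁K, hz₁⟩ := hK.exists_isMinOn hne Complex.continuous_im.continuousOn
  obtain ⟨z₂, hz₂K, hz₂⟩ := hK.exists_isMaxOn hne Complex.continuous_im.continuousOn
  have hm : 0 < z₁.im := hKU hz₁K
  set M : ℝ := max z₂.im (1 / z₁.im) with hM
  set L : Set ℂ := Set.Icc (-1 : ℝ) 1 ×ℂ Set.Icc (1 / 2 : ℝ) M with hL
  have hLc : IsCompact L := isCompact_Icc.reProdIm isCompact_Icc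
  have hLU : L ⊆ Uhp := by
    intro w hw
    have : (1 / 2 : ℝ) ≤ w.im := hw.2.1
    exact lt_of_lt_of_le (by norm_num) this
  refine (finite_mob_inter (K ∪ L) (hK.union hLc) (Set.union_subset hKU hLU)).subset ?_
  rintro g ⟨z, hzK, hgz⟩
  refine ⟨z, Or.inl hzK, Or.inr ?_⟩
  obtain ⟨hre, him⟩ := psiFn_ne_zero hgz
  have hzU : z ∈ Uhp := hKU hzK
  have hzpos : 0 < z.im := hzU
  have hb := mob_im_le_max g hzU
  have h1 : z.im ≤ z₂.im := hz₂ hzK
  have h2 : z₁.im ≤ z.im := hz₁ hzK
  have h3 : 1 / z.im ≤ 1 / z₁.im := one_div_le_one_div_of_le hm h2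
  have h4 : (mob g z).im ≤ M := hb.trans (max_le_max h1 h3)
  have := abs_lt.mp hre
  exact ⟨⟨by linarith, by linarith⟩, ⟨him.le, h4⟩⟩

/-! ### The invariant sum `Ψ` -/

/-- `Ψ(z) = ∑_g ψ(g z)`. -/
noncomputable def PsiSum (z : ℂ) : ℝ := ∑ᶠ g : SL(2, ℤ), psiFn (mob g z)

theorem PsiSum_nonneg (z : ℂ) : 0 ≤ PsiSum z := finsum_nonneg fun _ => psiFn_nonneg _

theorem PsiSum_mob (h : SL(2, ℤ)) (z : ℂ) : PsiSum (mob h z) = PsiSum z := by
  unfold PsiSum
  simp only [mob_mob]
  exact finsum_comp_equiv (Equiv.mulRight h) (f := fun g => psiFn (mob g z))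

theorem finite_support_psi {z : ℂ} (hz : z ∈ Uhp) :
    (Function.support fun g : SL(2, ℤ) => psiFn (mob g z)).Finite := by
  refine (finite_psi_support {z} isCompact_singleton (by simpa using hz)).subset ?_
  intro g hg
  exact ⟨z, rfl, hg⟩

theorem PsiSum_pos {z : ℂ} (hz : z ∈ Uhp) : 0 < PsiSum z := by
  obtain ⟨g, hg⟩ := ModularGroup.exists_smul_mem_fd (⟨z, hz⟩ : ℍ)
  refine finsum_pos (fun _ => psiFn_nonneg _) ⟨g, ?_⟩ (finite_support_psi hz)
  have h3 := ModularGroup.three_le_four_mul_im_sq_of_mem_fd hg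
  have hre : |(g • (⟨z, hz⟩ : ℍ)).re| ≤ 1 / 2 := hg.2
  have him : 0 < (g • (⟨z, hz⟩ : ℍ)).im := (g • (⟨z, hz⟩ : ℍ)).im_pos
  rw [mob_of_mem hz]
  refine psiFn_pos hre ?_
  show 1 / 2 < (g • (⟨z, hz⟩ : ℍ)).im
  nlinarith

/-! ### Smoothness -/

theorem mob_contDiffAt (g : SL(2, ℤ)) {z : ℂ} (hz : z ∈ Uhp) : ContDiffAt ℝ ∞ (mob g) z := by
  have h1 : ContDiffAt ℝ ∞
      (fun w : ℂ => (((g 0 0 : ℤ) : ℂ) * w + ((g 0 1 : ℤ) : ℂ)) / cd g w) z := by
    have hnum : ContDiffAt ℝ ∞ (fun w : ℂ => ((g 0 0 : ℤ) : ℂ) * w + ((g 0 1 : ℤ) : ℂ)) z :=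
      (contDiffAt_const.mul contDiffAt_id).add contDiffAt_const
    have hden : ContDiffAt ℝ ∞ (fun w : ℂ => cd g w) z := by
      show ContDiffAt ℝ ∞ (fun w : ℂ => ((g 1 0 : ℤ) : ℂ) * w + ((g 1 1 : ℤ) : ℂ)) z
      exact (contDiffAt_const.mul contDiffAt_id).add contDiffAt_const
    have hinv : ContDiffAt ℝ ∞ (fun w : ℂ => (cd g w)⁻¹) z := hden.inv (cd_ne_zero g hz)
    simpa only [div_eq_mul_inv] using hnum.mul hinv
  refine h1.congr_of_eventuallyEq ?_
  filter_upwards [isOpen_Uhp.mem_nhds hz] with w hw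
  exact mob_eq_div g hw

theorem mob_contDiffOn (g : SL(2, ℤ)) : ContDiffOn ℝ ∞ (mob g) Uhp :=
  fun _ hz => (mob_contDiffAt g hz).contDiffWithinAt

theorem PsiSum_contDiffOn : ContDiffOn ℝ ∞ PsiSum Uhp := by
  intro z₀ hz₀
  apply ContDiffAt.contDiffWithinAt
  obtain ⟨K, hKc, hzK, hKU⟩ := exists_compact_subset isOpen_Uhp hz₀
  have hfin := finite_psi_support K hKc hKU
  have h1 : ContDiffAt ℝ ∞ (fun z => ∑ g ∈ hfin.toFinset, psiFn (mob g z)) z₀ := by
    apply ContDiffAt.sum
    intro g _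
    exact psiFn_contDiff.contDiffAt.comp z₀ (mob_contDiffAt g hz₀)
  refine h1.congr_of_eventuallyEq ?_
  filter_upwards [mem_interior_iff_mem_nhds.mp hzK] with z hz
  unfold PsiSum
  apply finsum_eq_sum_of_support_subset
  intro g hg
  rw [Set.Finite.coe_toFinset]
  exact ⟨z, hz, hg⟩

/-! ### The partition of unity -/

/-- The partition function `χ₁ = ψ / Ψ`. -/
noncomputable def chiOne (z : ℂ) : ℝ := psiFn z / PsiSum z

theorem chiOne_contDiffOn : ContDiffOn ℝ ∞ chiOne Uhp :=
  psiFn_contDiff.contDiffOn.div PsiSum_contDiffOn (fun _ hz => (PsiSum_pos hz).ne')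

theorem chiOne_nonneg (z : ℂ) : 0 ≤ chiOne z := div_nonneg (psiFn_nonneg z) (PsiSum_nonneg z)

theorem psiFn_ne_zero_of_chiOne {z : ℂ} (h : chiOne z ≠ 0) : psiFn z ≠ 0 := by
  intro h0
  exact h (by unfold chiOne; rw [h0, zero_div])

theorem chiOne_support {z : ℂ} (h : chiOne z ≠ 0) : |z.re| < 1 ∧ 1 / 2 < z.im :=
  psiFn_ne_zero (psiFn_ne_zero_of_chiOne h)

theorem finite_chiOne_support (K : Set ℂ) (hK : IsCompact K) (hKU : K ⊆ Uhp) :
    {g : SL(2, ℤ) | ∃ z ∈ K, chiOne (mob g z) ≠ 0}.Finite := by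
  refine (finite_psi_support K hK hKU).subset ?_
  rintro g ⟨z, hz, h⟩
  exact ⟨z, hz, psiFn_ne_zero_of_chiOne h⟩

theorem finsum_chiOne {z : ℂ} (hz : z ∈ Uhp) : ∑ᶠ g : SL(2, ℤ), chiOne (mob g z) = 1 := by
  unfold chiOne
  simp only [PsiSum_mob, div_eq_mul_inv]
  rw [← finsum_mul]
  exact mul_inv_cancel₀ (PsiSum_pos hz).ne'

end Fermat.Agent.S21.PartitionAux

namespace Fermat.Agent.S21

open PartitionAux

/-- **MS-A**: a smooth `SL(2,ℤ)`-partition of unity on the upper half plane. -/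
theorem exists_partition_SL2Z : ∃ χ₁ : ℂ → ℝ, ContDiffOn ℝ ∞ χ₁ Uhp ∧ (∀ z, 0 ≤ χ₁ z) ∧
    (∀ z, χ₁ z ≠ 0 → |z.re| ≤ 1 ∧ 1 / 2 < z.im) ∧
    (∀ K : Set ℂ, IsCompact K → K ⊆ Uhp →
      {g : SL(2, ℤ) | ∃ z ∈ K, χ₁ (mob g z) ≠ 0}.Finite) ∧
    (∀ z ∈ Uhp, ∑ᶠ g : SL(2, ℤ), χ₁ (mob g z) = 1) :=
  ⟨chiOne, chiOne_contDiffOn, chiOne_nonneg,
    fun _ h => ⟨(chiOne_support h).1.le, (chiOne_support h).2⟩,
    finite_chiOne_support, fun _ hz => finsum_chiOne hz⟩

end Fermat.Agent.S21

end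
-- ===== PACK-END S21/Partition.lean

-- ===== PACK-BEGIN S59/G4/H109/PointsStrict.lean
section


/-!
# Row S59, layer G4, piece POINTS — part 2 (helper109)

Joint strictness of a separating family of points.  `𝒪` is a complete DVR of characteristic zero
with fraction field `K` and uniformiser `ϖ`, `T` a finite free `𝒪`-algebra, `E = K ⊗[𝒪] T`, `L j`
a finite family of finite field extensions of `K` and `Φ : E →ₐ[K] Π j, L j` injective.  Then the
points `T → integralClosure 𝒪 (L j)` are jointly strict: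
for every `n` there is `m` such that `χ_j t ∈ 𝔪_j ^ m` for all `j` implies `t ∈ ϖ ^ n T`.
(Port of `S31/H262/Strict.lean` (helper262) from `ℤ_[p]` to a general `𝒪`.)
-/

set_option autoImplicit false
set_option linter.unusedSectionVars false
set_option linter.style.haveILetI false

noncomputable section

namespace Fermat.Agent.S59.G4.H109

open scoped TensorProduct
open IsLocalRing

section Lattice

variable (𝒪 : Type) [CommRing 𝒪] [IsDomain 𝒪] [IsDiscreteValuationRing 𝒪]
variable (K : Type) [Field K] [Algebra 𝒪 K] [IsFractionRing 𝒪 K]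
variable (T : Type) [CommRing T] [Algebra 𝒪 T]

/-- The `𝒪`-lattice in `E = K ⊗[𝒪] T` spanned by the pure tensors `1 ⊗ t`. -/
def latO : Submodule 𝒪 (K ⊗[𝒪] T) :=
  Submodule.span 𝒪 (Set.range fun t : T => (1 : K) ⊗ₜ[𝒪] t)

theorem one_tmul_mem_latO (t : T) : (1 : K) ⊗ₜ[𝒪] t ∈ latO 𝒪 K T :=
  Submodule.subset_span ⟨t, rfl⟩

theorem algebraMap_tmul_mem_latO (a : 𝒪) (t : T) :
    (algebraMap 𝒪 K a) ⊗ₜ[𝒪] t ∈ latO 𝒪 K T := by
  have h : (algebraMap 𝒪 K a) ⊗ₜ[𝒪] t = a • ((1 : K) ⊗ₜ[𝒪] t) := by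
    rw [TensorProduct.smul_tmul', _root_.Algebra.smul_def, mul_one]
  rw [h]
  exact (latO 𝒪 K T).smul_mem a (one_tmul_mem_latO 𝒪 K T t)

variable {𝒪} in
/-- Every element of `K` becomes integral after multiplication by a power of `ϖ`. -/
theorem exists_pow_mul_mem_O {ϖ : 𝒪} (hϖ : Irreducible ϖ) (x : K) :
    ∃ (c : ℕ) (a : 𝒪), algebraMap 𝒪 K ϖ ^ c * x = algebraMap 𝒪 K a := by
  obtain ⟨a, s, hs, rfl⟩ := IsFractionRing.div_surjective (A := 𝒪) x
  have hs0 : s ≠ 0 := nonZeroDivisors.ne_zero hs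
  obtain ⟨c, u, hu⟩ := IsDiscreteValuationRing.eq_unit_mul_pow_irreducible hs0 hϖ
  refine ⟨c, a * ((u⁻¹ : 𝒪ˣ) : 𝒪), ?_⟩
  have hsK : algebraMap 𝒪 K s ≠ 0 := by
    intro h
    exact hs0 (IsFractionRing.injective 𝒪 K (by rw [h, map_zero]))
  rw [← mul_div_assoc, div_eq_iff hsK, ← _root_.map_pow, ← _root_.map_mul, ← _root_.map_mul]
  congr 1
  rw [hu]
  have hu1 : ((u⁻¹ : 𝒪ˣ) : 𝒪) * (u : 𝒪) = 1 := Units.inv_mul u
  calc ϖ ^ c * a = a * (((u⁻¹ : 𝒪ˣ) : 𝒪) * (u : 𝒪)) * ϖ ^ c := by rw [hu1]; ring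
    _ = a * ((u⁻¹ : 𝒪ˣ) : 𝒪) * ((u : 𝒪) * ϖ ^ c) := by ring

variable {𝒪} in
/-- Every element of `E` lies in the lattice after multiplication by a power of `ϖ`. -/
theorem exists_pow_smul_mem_latO {ϖ : 𝒪} (hϖ : Irreducible ϖ) (e : K ⊗[𝒪] T) :
    ∃ c : ℕ, ∀ c' : ℕ, c ≤ c' → (algebraMap 𝒪 K ϖ ^ c') • e ∈ latO 𝒪 K T := by
  induction e using TensorProduct.induction_on with
  | zero => exact ⟨0, fun c' _ => by rw [_root_.smul_zero]; exact (latO 𝒪 K T).zero_mem⟩
  | tmul x b =>
    obtain ⟨c, a, hca⟩ := exists_pow_mul_mem_O K hϖ x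
    refine ⟨c, fun c' hc' => ?_⟩
    obtain ⟨d, rfl⟩ := Nat.exists_eq_add_of_le hc'
    have h : (algebraMap 𝒪 K ϖ ^ (c + d)) • (x ⊗ₜ[𝒪] b) =
        (algebraMap 𝒪 K (ϖ ^ d * a)) ⊗ₜ[𝒪] b := by
      rw [TensorProduct.smul_tmul', smul_eq_mul, pow_add, mul_comm (algebraMap 𝒪 K ϖ ^ c),
        mul_assoc, hca, _root_.map_mul, _root_.map_pow]
    rw [h]
    exact algebraMap_tmul_mem_latO 𝒪 K T _ b
  | add x y hx hy =>
    obtain ⟨c1, h1⟩ := hx
    obtain ⟨c2, h2⟩ := hy
    refine ⟨max c1 c2, fun c' hc' => ?_⟩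
    rw [_root_.smul_add]
    exact (latO 𝒪 K T).add_mem (h1 c' (le_trans (le_max_left _ _) hc'))
      (h2 c' (le_trans (le_max_right _ _) hc'))

end Lattice

section Coordinates

variable (𝒪 : Type) [CommRing 𝒪] [IsDomain 𝒪] [IsDiscreteValuationRing 𝒪]
variable (K : Type) [Field K] [Algebra 𝒪 K] [IsFractionRing 𝒪 K]
variable (T : Type) [CommRing T] [Algebra 𝒪 T] [Module.Finite 𝒪 T] [Module.Free 𝒪 T]

/-- Coordinates lemma: if `ϖ⁻ⁿ • (1 ⊗ t)` lies in the lattice, then `t ∈ ϖⁿ T`. -/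
theorem mem_span_of_inv_smul_mem_latO (ϖ : 𝒪) (hϖ : ϖ ≠ 0) (n : ℕ) (t : T)
    (h : ((algebraMap 𝒪 K ϖ ^ n)⁻¹) • ((1 : K) ⊗ₜ[𝒪] t) ∈ latO 𝒪 K T) :
    t ∈ Ideal.span {algebraMap 𝒪 T ϖ ^ n} := by
  classical
  set b := Module.Free.chooseBasis 𝒪 T with hb
  set bE := Algebra.TensorProduct.basis K b with hbE
  -- the lattice is contained in the `𝒪`-span of the basis
  have hle : latO 𝒪 K T ≤ Submodule.span 𝒪 (Set.range bE) := by
    unfold latO
    rw [Submodule.span_le]
    rintro _ ⟨x, rfl⟩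
    rw [SetLike.mem_coe, Module.Basis.mem_span_iff_repr_mem]
    intro i
    refine ⟨b.repr x i, ?_⟩
    rw [hbE, Algebra.TensorProduct.basis_repr_tmul]
    simp
  have h' := hle h
  rw [Module.Basis.mem_span_iff_repr_mem] at h'
  have hϖK : algebraMap 𝒪 K ϖ ^ n ≠ 0 := by
    apply pow_ne_zero
    intro h0
    exact hϖ (IsFractionRing.injective 𝒪 K (by rw [h0, map_zero]))
  -- each coordinate of `t` is divisible by `ϖ ^ n`
  have hdvd : ∀ i, (ϖ ^ n) ∣ b.repr t i := by
    intro i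
    obtain ⟨a, ha⟩ := h' i
    rw [hbE, map_smul, Algebra.TensorProduct.basis_repr_tmul] at ha
    simp only [_root_.one_smul, Finsupp.smul_apply, Finsupp.mapRange_apply, smul_eq_mul] at ha
    have hval : algebraMap 𝒪 K (b.repr t i) = algebraMap 𝒪 K (ϖ ^ n * a) := by
      rw [_root_.map_mul, _root_.map_pow, ha]
      field_simp
    exact ⟨a, IsFractionRing.injective 𝒪 K hval⟩
  rw [Ideal.mem_span_singleton, ← b.sum_repr t]
  refine Finset.dvd_sum fun i _ => ?_
  obtain ⟨k, hk⟩ := hdvd i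
  rw [hk, mul_smul]
  refine Dvd.intro (k • b i) ?_
  rw [← _root_.map_pow, ← _root_.Algebra.smul_def]

end Coordinates

section Strict

variable (𝒪 : Type) [CommRing 𝒪] [IsDomain 𝒪] [IsDiscreteValuationRing 𝒪]
  [IsAdicComplete (maximalIdeal 𝒪) 𝒪] [CharZero 𝒪]
variable (K : Type) [Field K] [Algebra 𝒪 K] [IsFractionRing 𝒪 K]
variable (T : Type) [CommRing T] [Algebra 𝒪 T] [Module.Finite 𝒪 T] [Module.Free 𝒪 T]
variable {ι : Type} [Finite ι] (L : ι → Type) [∀ j, Field (L j)] [∀ j, Algebra K (L j)]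
  [∀ j, Algebra 𝒪 (L j)] [∀ j, IsScalarTower 𝒪 K (L j)]
  [∀ j, FiniteDimensional K (L j)]
variable (Φ : (K ⊗[𝒪] T) →ₐ[K] (∀ j, L j))

/-- The `j`-th point, with values in the field `L j`. -/
def ptL (j : ι) : T →+* L j :=
  (Pi.evalRingHom L j).comp
    ((Φ : (K ⊗[𝒪] T) →+* (∀ j, L j)).comp
      (Algebra.TensorProduct.includeRight : T →ₐ[𝒪] K ⊗[𝒪] T).toRingHom)

theorem ptL_apply (j : ι) (t : T) : ptL 𝒪 K T L Φ j t = Φ ((1 : K) ⊗ₜ[𝒪] t) j := rfl

theorem ptL_algebraMap (j : ι) (a : 𝒪) :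
    ptL 𝒪 K T L Φ j (algebraMap 𝒪 T a) = algebraMap 𝒪 (L j) a := by
  rw [ptL_apply]
  have h1 : (1 : K) ⊗ₜ[𝒪] (algebraMap 𝒪 T a) = algebraMap K (K ⊗[𝒪] T) (algebraMap 𝒪 K a) := by
    rw [Algebra.TensorProduct.algebraMap_apply, Algebra.algebraMap_eq_smul_one a,
      ← TensorProduct.smul_tmul, _root_.Algebra.smul_def, mul_one]
    rfl
  rw [h1, AlgHom.commutes, Pi.algebraMap_apply, ← IsScalarTower.algebraMap_apply]

/-- The `j`-th point as an `𝒪`-algebra homomorphism. -/
def ptLAlg (j : ι) : T →ₐ[𝒪] L j :=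
  { ptL 𝒪 K T L Φ j with commutes' := ptL_algebraMap 𝒪 K T L Φ j }

theorem isIntegral_ptL (j : ι) (t : T) : IsIntegral 𝒪 (ptL 𝒪 K T L Φ j t) := by
  have h1 : IsIntegral 𝒪 t := Algebra.IsIntegral.isIntegral (R := 𝒪) t
  exact h1.map (ptLAlg 𝒪 K T L Φ j)

/-- The `j`-th point, with values in the ring of integers of `L j`. -/
def pt (j : ι) : T →+* intRingO 𝒪 (L j) where
  toFun t := ⟨ptL 𝒪 K T L Φ j t, isIntegral_ptL 𝒪 K T L Φ j t⟩
  map_one' := Subtype.ext (_root_.map_one _)
  map_mul' x y := Subtype.ext (_root_.map_mul _ x y)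
  map_zero' := Subtype.ext (map_zero _)
  map_add' x y := Subtype.ext (map_add _ x y)

theorem coe_pt (j : ι) (t : T) :
    ((pt 𝒪 K T L Φ j t : intRingO 𝒪 (L j)) : L j) = Φ ((1 : K) ⊗ₜ[𝒪] t) j := rfl

theorem pt_algebraMap (j : ι) (a : 𝒪) :
    pt 𝒪 K T L Φ j (algebraMap 𝒪 T a) = algebraMap 𝒪 (intRingO 𝒪 (L j)) a :=
  Subtype.ext (ptL_algebraMap 𝒪 K T L Φ j a)

/-- The `𝒪`-submodule of `E` of elements all of whose components are integral. -/
def intSub : Submodule 𝒪 (K ⊗[𝒪] T) :=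
  Submodule.comap (Φ.toLinearMap.restrictScalars 𝒪)
    (Submodule.pi Set.univ fun j => Subalgebra.toSubmodule (intRingO 𝒪 (L j)))

theorem mem_intSub (e : K ⊗[𝒪] T) :
    e ∈ intSub 𝒪 K T L Φ ↔ ∀ j, IsIntegral 𝒪 (Φ e j) := by
  unfold intSub
  rw [Submodule.mem_comap, Submodule.mem_pi]
  constructor
  · intro h j
    exact h j (Set.mem_univ j)
  · intro h j _
    exact h j

/-- The comparison map from `intSub` to the product of the rings of integers. -/
def intSubToPi : intSub 𝒪 K T L Φ →ₗ[𝒪] (∀ j, intRingO 𝒪 (L j)) where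
  toFun w := fun j => ⟨Φ w.1 j, (mem_intSub 𝒪 K T L Φ w.1).mp w.2 j⟩
  map_add' x y := by
    funext j
    apply Subtype.ext
    simp
  map_smul' a x := by
    funext j
    apply Subtype.ext
    have h : Φ (a • (x : K ⊗[𝒪] T)) = a • Φ (x : K ⊗[𝒪] T) :=
      (Φ.toLinearMap.restrictScalars 𝒪).map_smul a x.1
    simp [h]

variable {𝒪 K T L Φ} in
theorem intSubToPi_injective (hΦ : Function.Injective Φ) :
    Function.Injective (intSubToPi 𝒪 K T L Φ) := by
  intro x y h
  apply Subtype.ext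
  apply hΦ
  funext j
  have := congrArg (fun f : (∀ j, intRingO 𝒪 (L j)) => ((f j : intRingO 𝒪 (L j)) : L j)) h
  exact this

variable {𝒪 K T L Φ} in
theorem intSub_fg (hΦ : Function.Injective Φ) : (intSub 𝒪 K T L Φ).FG := by
  haveI : Fintype ι := Fintype.ofFinite ι
  haveI : ∀ j, Module.Finite 𝒪 (intRingO 𝒪 (L j)) := fun j => intRingO_moduleFinite 𝒪 K (L j)
  haveI : Module.Finite 𝒪 (∀ j, intRingO 𝒪 (L j)) := Module.Finite.pi
  haveI : IsNoetherian 𝒪 (∀ j, intRingO 𝒪 (L j)) := inferInstance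
  haveI : Module.Finite 𝒪 (intSub 𝒪 K T L Φ) :=
    Module.Finite.of_injective (intSubToPi 𝒪 K T L Φ) (intSubToPi_injective hΦ)
  exact (Submodule.fg_top _).mp (Module.finite_def.mp this)

variable {𝒪 K T L Φ} in
/-- A uniform power of `ϖ` maps `intSub` into the lattice. -/
theorem exists_pow_smul_intSub_le (hΦ : Function.Injective Φ) {ϖ : 𝒪} (hϖ : Irreducible ϖ) :
    ∃ c : ℕ, ∀ w ∈ intSub 𝒪 K T L Φ, (algebraMap 𝒪 K ϖ ^ c) • w ∈ latO 𝒪 K T := by
  classical
  obtain ⟨G, hG⟩ := intSub_fg hΦ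
  choose cf hcf using fun e : K ⊗[𝒪] T => exists_pow_smul_mem_latO K T hϖ e
  refine ⟨G.sup cf, fun w hw => ?_⟩
  have hsm : ∀ (c : ℕ) (g : K ⊗[𝒪] T), (ϖ ^ c) • g = (algebraMap 𝒪 K ϖ ^ c) • g := by
    intro c g
    rw [← algebraMap_smul K (ϖ ^ c) g, _root_.map_pow]
  -- the set of `e` with `ϖ ^ c • e ∈ lat` is an `𝒪`-submodule containing the generators
  have hsub : intSub 𝒪 K T L Φ ≤
      Submodule.comap (LinearMap.lsmul 𝒪 (K ⊗[𝒪] T) (ϖ ^ G.sup cf)) (latO 𝒪 K T) := by
    rw [← hG, Submodule.span_le]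
    intro g hg
    rw [SetLike.mem_coe, Submodule.mem_comap, LinearMap.lsmul_apply]
    have h1 := hcf g (G.sup cf) (Finset.le_sup (f := cf) hg)
    rw [hsm]
    exact h1
  have h3 := hsub hw
  rw [Submodule.mem_comap, LinearMap.lsmul_apply] at h3
  rw [← hsm]
  exact h3

variable {𝒪 K T L Φ} in
/-- **Joint strictness** of the points `pt j : T → intRingO 𝒪 (L j)`. -/
theorem strict_of_injective [∀ j, IsLocalRing (intRingO 𝒪 (L j))]
    (hΦ : Function.Injective Φ) {ϖ : 𝒪} (hϖ : Irreducible ϖ) (n : ℕ) :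
    ∃ m : ℕ, ∀ t : T,
      (∀ j, pt 𝒪 K T L Φ j t ∈ maximalIdeal (intRingO 𝒪 (L j)) ^ m) →
        t ∈ Ideal.span {algebraMap 𝒪 T ϖ ^ n} := by
  classical
  haveI : Fintype ι := Fintype.ofFinite ι
  obtain ⟨c, hc⟩ := exists_pow_smul_intSub_le hΦ hϖ
  have hex : ∀ j : ι, ∃ m : ℕ, maximalIdeal (intRingO 𝒪 (L j)) ^ m
      ≤ Ideal.span {algebraMap 𝒪 (intRingO 𝒪 (L j)) ϖ ^ (n + c)} := by
    intro j
    have := exists_maximalIdeal_pow_le_span_pow 𝒪 K (L j) ϖ hϖ.ne_zero (n + c)
    convert this using 4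
  choose mf hmf using hex
  refine ⟨Finset.univ.sup mf, fun t ht => ?_⟩
  have hp0 : algebraMap 𝒪 K ϖ ≠ 0 := by
    intro h0
    exact hϖ.ne_zero (IsFractionRing.injective 𝒪 K (by rw [h0, map_zero]))
  apply mem_span_of_inv_smul_mem_latO 𝒪 K T ϖ hϖ.ne_zero n t
  -- the element `e = ϖ^{-(n+c)} • (1 ⊗ t)` has integral components
  have he : ((algebraMap 𝒪 K ϖ ^ (n + c))⁻¹) • ((1 : K) ⊗ₜ[𝒪] t) ∈ intSub 𝒪 K T L Φ := by
    rw [mem_intSub]
    intro j
    have h1 : pt 𝒪 K T L Φ j t ∈ Ideal.span {algebraMap 𝒪 (intRingO 𝒪 (L j)) ϖ ^ (n + c)} :=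
      hmf j (Ideal.pow_le_pow_right (Finset.le_sup (f := mf) (Finset.mem_univ j)) (ht j))
    rw [Ideal.mem_span_singleton] at h1
    obtain ⟨y, hy⟩ := h1
    have hy' : Φ ((1 : K) ⊗ₜ[𝒪] t) j = algebraMap 𝒪 (L j) ϖ ^ (n + c) * (y : L j) := by
      have := congrArg (fun x : intRingO 𝒪 (L j) => (x : L j)) hy
      simpa [coe_pt] using this
    have hpL : algebraMap 𝒪 (L j) ϖ ≠ 0 := by
      intro h0
      exact hϖ.ne_zero (algebraMap_O_L_injective 𝒪 K (L j) (by rw [h0, map_zero]))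
    have hval : Φ (((algebraMap 𝒪 K ϖ ^ (n + c))⁻¹) • ((1 : K) ⊗ₜ[𝒪] t)) j = (y : L j) := by
      rw [map_smul, Pi.smul_apply, hy', _root_.Algebra.smul_def, map_inv₀, _root_.map_pow,
        ← IsScalarTower.algebraMap_apply]
      field_simp
    rw [hval]
    exact y.2
  have h2 := hc _ he
  have h3 : (algebraMap 𝒪 K ϖ ^ c) • (((algebraMap 𝒪 K ϖ ^ (n + c))⁻¹) • ((1 : K) ⊗ₜ[𝒪] t)) =
      ((algebraMap 𝒪 K ϖ ^ n)⁻¹) • ((1 : K) ⊗ₜ[𝒪] t) := by
    rw [smul_smul]
    congr 1
    rw [pow_add]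
    field_simp
  rw [h3] at h2
  exact h2

end Strict

end Fermat.Agent.S59.G4.H109

end
end
-- ===== PACK-END S59/G4/H109/PointsStrict.lean

-- ===== PACK-BEGIN S30/H529/TateTensor.lean
section



/-!
# S30 helper (helper529): the Tate module of `O ⊗ J`

`J` is an abelian group with an action of a group `G` and commuting endomorphisms `T i`.
We transfer torsion statements from `J` to `O ⊗[ℤ] J` (flatness of `O` over `ℤ`) and apply
the core results of `TateCore`.
-/

set_option autoImplicit false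
set_option linter.unusedSectionVars false

namespace Fermat.Agent.S30.H529

open IsLocalRing TensorProduct

noncomputable section

section Transfer

variable (O : Type*) [CommRing O] [Module.Flat ℤ O]
variable {J : Type*} [AddCommGroup J]

/-- Elements of `O ⊗ J` killed by `m` come from `O ⊗ J[m]`. -/
theorem exists_lTensor_eq_of_smul_eq_zero (m : ℤ) (x : O ⊗[ℤ] J) (hx : m • x = 0) :
    ∃ z : O ⊗[ℤ] LinearMap.ker (m • (LinearMap.id : J →ₗ[ℤ] J)),
      (LinearMap.ker (m • (LinearMap.id : J →ₗ[ℤ] J))).subtype.lTensor O z = x := by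
  have hex := LinearMap.exact_subtype_ker_map (m • (LinearMap.id : J →ₗ[ℤ] J))
  have hex2 := Module.Flat.lTensor_exact O hex
  have h1 : (m • (LinearMap.id : J →ₗ[ℤ] J)).lTensor O x = 0 := by
    rw [LinearMap.lTensor_smul, LinearMap.lTensor_id, LinearMap.smul_apply, LinearMap.id_apply,
      hx]
  obtain ⟨z, hz⟩ := (hex2 x).mp h1
  exact ⟨z, hz⟩

/-- An endomorphism of `J` killing the `m`-torsion of `J` has a base change killing the
`m`-torsion of `O ⊗ J`. -/
theorem baseChange_eq_zero_of_torsion (m : ℤ) (A : J →ₗ[ℤ] J)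
    (hA : ∀ y : J, m • y = 0 → A y = 0) (x : O ⊗[ℤ] J) (hx : m • x = 0) :
    A.baseChange O x = 0 := by
  obtain ⟨z, rfl⟩ := exists_lTensor_eq_of_smul_eq_zero O m x hx
  have h1 : A ∘ₗ (LinearMap.ker (m • (LinearMap.id : J →ₗ[ℤ] J))).subtype = 0 := by
    apply LinearMap.ext
    intro y
    have hy := y.2
    rw [LinearMap.mem_ker, LinearMap.smul_apply, LinearMap.id_apply] at hy
    simpa using hA y hy
  have h2 : A.baseChange O ((LinearMap.ker (m • (LinearMap.id : J →ₗ[ℤ] J))).subtype.lTensor O z)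
      = (A ∘ₗ (LinearMap.ker (m • (LinearMap.id : J →ₗ[ℤ] J))).subtype).lTensor O z := by
    rw [LinearMap.lTensor_comp]
    rfl
  rw [h2, h1, LinearMap.lTensor_zero, LinearMap.zero_apply]

/-- The `m`-torsion of `O ⊗ J` lies in a finitely generated submodule if `J[m]` is finite. -/
theorem exists_fg_of_finite_torsion (m : ℤ) (hfin : {y : J | m • y = 0}.Finite) :
    ∃ Y : Submodule O (O ⊗[ℤ] J), Y.FG ∧ ∀ x : O ⊗[ℤ] J, m • x = 0 → x ∈ Y := by
  set K := LinearMap.ker (m • (LinearMap.id : J →ₗ[ℤ] J)) with hK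
  have hKfin : Finite K := by
    have : (K : Set J) = {y : J | m • y = 0} := by
      ext y
      simp [hK]
    exact Set.finite_coe_iff.mpr (this ▸ hfin)
  have hmod : Module.Finite ℤ K := Module.Finite.of_finite
  refine ⟨LinearMap.range (K.subtype.baseChange O), ?_, ?_⟩
  · rw [LinearMap.range_eq_map]
    exact Submodule.FG.map _ (Module.Finite.fg_top)
  · intro x hx
    obtain ⟨z, hz⟩ := exists_lTensor_eq_of_smul_eq_zero O m x hx
    exact ⟨z, hz⟩

end Transfer

/-! ### The action on `O ⊗ J` -/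

section TensorAction

variable (O : Type*) [CommRing O]
variable {G : Type*} [Group G]
variable (J : Type*) [AddCommGroup J] [DistribMulAction G J]
variable {ι : Type*} (T : ι → J →+ J)

/-- The action of `γ` as a `ℤ`-linear map. -/
def actLin (γ : G) : J →ₗ[ℤ] J := (DistribSMul.toAddMonoidHom J γ).toIntLinearMap

@[simp] theorem actLin_apply (γ : G) (x : J) : actLin J γ x = γ • x := rfl

/-- The action of `G` on `O ⊗ J`. -/
def tensorRep : G →* Module.End O (O ⊗[ℤ] J) where
  toFun γ := (actLin J γ).baseChange O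
  map_one' := by
    have h : actLin J (1 : G) = LinearMap.id := by
      ext x
      simp
    rw [h, LinearMap.baseChange_id]
    rfl
  map_mul' γ δ := by
    have h : actLin J (γ * δ) = actLin J γ ∘ₗ actLin J δ := by
      ext x
      simp [mul_smul]
    rw [h, LinearMap.baseChange_comp]
    rfl

theorem tensorRep_apply (γ : G) (x : O ⊗[ℤ] J) :
    tensorRep O J γ x = (actLin J γ).baseChange O x := rfl

variable {J}

/-- The operators on `O ⊗ J`. -/
def tensorOp (i : ι) : O ⊗[ℤ] J →ₗ[O] O ⊗[ℤ] J := (T i).toIntLinearMap.baseChange O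

theorem tensorOp_apply (i : ι) (x : O ⊗[ℤ] J) :
    tensorOp O T i x = (T i).toIntLinearMap.baseChange O x := rfl

theorem tensorRep_tensorOp (hT : ∀ (i : ι) (γ : G) (x : J), T i (γ • x) = γ • T i x)
    (γ : G) (i : ι) (x : O ⊗[ℤ] J) :
    tensorRep O J γ (tensorOp O T i x) = tensorOp O T i (tensorRep O J γ x) := by
  have h : actLin J γ ∘ₗ (T i).toIntLinearMap = (T i).toIntLinearMap ∘ₗ actLin J γ := by
    ext y
    simp [hT]
  have h2 := congrArg (fun f : J →ₗ[ℤ] J => f.baseChange O x) h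
  simp only [LinearMap.baseChange_comp, LinearMap.comp_apply] at h2
  exact h2

end TensorAction

/-! ### Main theorem -/

section Main

variable (p : ℕ)
variable (O : Type) [CommRing O] [IsDomain O] [IsDiscreteValuationRing O]
  [IsAdicComplete (maximalIdeal O) O] [CharZero O]
variable {G : Type*} [Group G]
variable (J : Type) [AddCommGroup J] [DistribMulAction G J]
variable {ι : Type*} (T : ι → J →+ J) (a : ι → O)

theorem natCast_pow_smul (n : ℕ) (x : O ⊗[ℤ] J) :
    ((p : O)) ^ n • x = ((p ^ n : ℕ) : ℤ) • x := by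
  rw [← Int.cast_smul_eq_zsmul O]
  push_cast
  rfl

/-- **Abstract Tate module.**  Let `J` be an abelian group with an action of `G` and commuting
endomorphisms `T i`, with finite `p`-torsion, and let `v` be a nonzero compatible sequence of
eigenvectors in `(O ⊗ J)[p ^ (n + 1)]`.  Then there is a nonzero finite free `O`-module `M`
with an action `ρ` of `G` such that: elements of `G` fixing `J[p ^ n]` act trivially on
`M / 𝔪 ^ n M`; elements fixing `J[p ^ ∞]` act trivially; quadratic relations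
`γ² - T i γ + c = 0` on `J[p ^ ∞]` give `ρ γ² - a i ρ γ + c = 0`. -/
theorem exists_adic_eigenmodule (hpO : (p : O) ∈ maximalIdeal O) (hp0 : p ≠ 0)
    (hT : ∀ (i : ι) (γ : G) (x : J), T i (γ • x) = γ • T i x)
    (hfin : {x : J | p • x = 0}.Finite)
    (v : ℕ → O ⊗[ℤ] J) (hv0 : (p : O) • v 0 = 0) (hv : ∀ n, (p : O) • v (n + 1) = v n)
    (hne : v ≠ 0) (heig : ∀ i n, tensorOp O T i (v n) = a i • v n) :
    ∃ (M : Type) (_ : AddCommGroup M) (_ : Module O M) (_ : Module.Free O M)
      (_ : Module.Finite O M) (ρ : G →* Module.End O M),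
      Nontrivial M ∧
      (∀ (n : ℕ) (γ : G), (∀ x : J, p ^ n • x = 0 → γ • x = x) →
        ∀ m : M, ρ γ m - m ∈ (maximalIdeal O ^ n • ⊤ : Submodule O M)) ∧
      (∀ γ : G, (∀ x : J, (∃ n : ℕ, p ^ n • x = 0) → γ • x = x) → ρ γ = 1) ∧
      (∀ (γ : G) (i : ι) (c : ℤ),
        (∀ x : J, (∃ n : ℕ, p ^ n • x = 0) → γ • γ • x - T i (γ • x) + c • x = 0) →
        ρ γ * ρ γ - a i • ρ γ + (c : O) • (1 : Module.End O M) = 0) := by
  have hϖ0 : (p : O) ≠ 0 := by exact_mod_cast hp0
  have hX : ∃ Y : Submodule O (O ⊗[ℤ] J), Y.FG ∧ ∀ x : O ⊗[ℤ] J, (p : O) • x = 0 → x ∈ Y := by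
    obtain ⟨Y, hY, hYX⟩ := exists_fg_of_finite_torsion O (J := J) (p : ℤ) (by
      have : {y : J | (p : ℤ) • y = 0} = {x : J | p • x = 0} := by
        ext y
        simp
      rw [this]
      exact hfin)
    refine ⟨Y, hY, fun x hx => hYX x ?_⟩
    have := natCast_pow_smul p O J 1 x
    simp only [pow_one] at this
    rw [← this]
    exact hx
  have hρ := tensorRep_tensorOp O T hT
  have hfree := tateEigen_free (t := tensorOp O T) (a := a) hpO hϖ0 hX
  have hfinite := tateEigen_finite (t := tensorOp O T) (a := a) hpO hϖ0 hX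
  -- transfer of relations
  have htrans : ∀ (A : J →ₗ[ℤ] J) (n : ℕ), (∀ y : J, p ^ n • y = 0 → A y = 0) →
      ∀ x : O ⊗[ℤ] J, (p : O) ^ n • x = 0 → A.baseChange O x = 0 := by
    intro A n hA x hx
    apply baseChange_eq_zero_of_torsion O ((p ^ n : ℕ) : ℤ) A
    · intro y hy
      apply hA
      rwa [natCast_zsmul] at hy
    · rw [← natCast_pow_smul]
      exact hx
  refine ⟨tateEigen (p : O) (tensorOp O T) a, inferInstance, inferInstance, hfree, hfinite,
    tateRep (tensorRep O J) hρ, ?_, ?_, ?_, ?_⟩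
  · refine ⟨⟨⟨v, hv0, hv, heig⟩, 0, ?_⟩⟩
    intro h
    exact hne (congrArg Subtype.val h)
  · intro n γ hγ m
    apply tateRep_sub_mem (tensorRep O J) hρ hpO n γ
    intro x hx
    have h1 := htrans (actLin J γ - LinearMap.id) n (fun y hy => by
      simp [hγ y hy]) x hx
    rw [LinearMap.baseChange_sub, LinearMap.baseChange_id, LinearMap.sub_apply,
      LinearMap.id_apply, sub_eq_zero] at h1
    exact h1
  · intro γ hγ
    apply tateRep_eq_one
    rintro x ⟨n, hx⟩
    have h1 := htrans (actLin J γ - LinearMap.id) n (fun y hy => by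
      simp [hγ y ⟨n, hy⟩]) x hx
    rw [LinearMap.baseChange_sub, LinearMap.baseChange_id, LinearMap.sub_apply,
      LinearMap.id_apply, sub_eq_zero] at h1
    exact h1
  · intro γ i c hγ
    apply tateRep_quadratic
    rintro x ⟨n, hx⟩
    have h1 := htrans (actLin J γ ∘ₗ actLin J γ - (T i).toIntLinearMap ∘ₗ actLin J γ
      + c • LinearMap.id) n (fun y hy => by
        have := hγ y ⟨n, hy⟩
        simpa using this) x hx
    rw [LinearMap.baseChange_add, LinearMap.baseChange_sub, LinearMap.baseChange_comp,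
      LinearMap.baseChange_comp, LinearMap.baseChange_smul, LinearMap.baseChange_id] at h1
    simp only [LinearMap.add_apply, LinearMap.sub_apply, LinearMap.comp_apply,
      LinearMap.smul_apply, LinearMap.id_apply] at h1
    rw [Int.cast_smul_eq_zsmul]
    exact h1

end Main

end

end Fermat.Agent.S30.H529

end
-- ===== PACK-END S30/H529/TateTensor.lean

-- ===== PACK-BEGIN S24/H624/Taylor.lean
section


/-!
# Taylor expansion at a point of the upper half-plane as an injective algebra hom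
-/

set_option autoImplicit false

namespace Fermat.Agent.S24.H624

open UpperHalfPlane Complex
open scoped Manifold Topology

/-- `n`-th Taylor coefficient at `τ` (in the coordinate `z - τ`). -/
noncomputable def taylorCoeff (τ : ℍ) (f : ℍ → ℂ) (n : ℕ) : ℂ :=
  iteratedDeriv n (f ∘ ofComplex) (τ : ℂ) / (n.factorial : ℂ)

theorem contDiffAt_of_mdiff {f : ℍ → ℂ} (hf : MDiff f) (τ : ℍ) (n : ℕ∞) :
    ContDiffAt ℂ n (f ∘ ofComplex) (τ : ℂ) :=
  (analyticAt_of_mdiff hf τ).contDiffAt.of_le (by exact_mod_cast le_top)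

theorem taylorCoeff_add {f g : ℍ → ℂ} (hf : MDiff f) (hg : MDiff g) (τ : ℍ) (n : ℕ) :
    taylorCoeff τ (f + g) n = taylorCoeff τ f n + taylorCoeff τ g n := by
  unfold taylorCoeff
  have : ((f + g) ∘ ofComplex) = (f ∘ ofComplex) + (g ∘ ofComplex) := rfl
  rw [this, iteratedDeriv_add (contDiffAt_of_mdiff hf τ n) (contDiffAt_of_mdiff hg τ n), add_div]

theorem taylorCoeff_const (c : ℂ) (τ : ℍ) (n : ℕ) :
    taylorCoeff τ (fun _ => c) n = if n = 0 then c else 0 := by
  unfold taylorCoeff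
  have : ((fun _ : ℍ => c) ∘ ofComplex) = fun _ : ℂ => c := rfl
  rw [this]
  rcases n with _ | n
  · simp
  · rw [iteratedDeriv_succ']
    simp

theorem taylorCoeff_mul {f g : ℍ → ℂ} (hf : MDiff f) (hg : MDiff g) (τ : ℍ) (n : ℕ) :
    taylorCoeff τ (f * g) n
      = ∑ p ∈ Finset.HasAntidiagonal.antidiagonal n,
          taylorCoeff τ f p.1 * taylorCoeff τ g p.2 := by
  unfold taylorCoeff
  have : ((f * g) ∘ ofComplex) = (f ∘ ofComplex) * (g ∘ ofComplex) := rfl
  rw [this, iteratedDeriv_mul (contDiffAt_of_mdiff hf τ n) (contDiffAt_of_mdiff hg τ n),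
    Finset.Nat.sum_antidiagonal_eq_sum_range_succ
      (fun i j => iteratedDeriv i (f ∘ ofComplex) (τ : ℂ) / (i.factorial : ℂ)
        * (iteratedDeriv j (g ∘ ofComplex) (τ : ℂ) / (j.factorial : ℂ))) n,
    Finset.sum_div]
  refine Finset.sum_congr rfl fun i hi => ?_
  have hi' : i ≤ n := Nat.lt_succ_iff.mp (Finset.mem_range.mp hi)
  have h1 : (n.choose i : ℂ) = (n.factorial : ℂ) / ((i.factorial : ℂ) * ((n - i).factorial : ℂ)) := by
    rw [Nat.choose_eq_factorial_div_factorial hi']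
    rw [Nat.cast_div (Nat.factorial_mul_factorial_dvd_factorial hi')
      (by exact_mod_cast (Nat.mul_pos (Nat.factorial_pos _) (Nat.factorial_pos _)).ne')]
    push_cast
    rfl
  rw [h1]
  have hn : (n.factorial : ℂ) ≠ 0 := by exact_mod_cast (Nat.factorial_pos n).ne'
  have hi0 : (i.factorial : ℂ) ≠ 0 := by exact_mod_cast (Nat.factorial_pos i).ne'
  have hni : ((n - i).factorial : ℂ) ≠ 0 := by exact_mod_cast (Nat.factorial_pos (n - i)).ne'
  field_simp

/-- Taylor expansion at `τ` as a `ℂ`-algebra hom from holomorphic functions to power series. -/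
noncomputable def taylorAt (τ : ℍ) : holoRing →ₐ[ℂ] PowerSeries ℂ where
  toFun f := PowerSeries.mk (taylorCoeff τ (f : ℍ → ℂ))
  map_one' := by
    ext n
    rw [PowerSeries.coeff_mk, PowerSeries.coeff_one]
    exact taylorCoeff_const 1 τ n
  map_mul' f g := by
    ext n
    rw [PowerSeries.coeff_mk, PowerSeries.coeff_mul]
    simp only [PowerSeries.coeff_mk]
    exact taylorCoeff_mul f.2 g.2 τ n
  map_zero' := by
    ext n
    rw [PowerSeries.coeff_mk, map_zero]
    have := taylorCoeff_const 0 τ n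
    rw [show (((0 : holoRing) : ℍ → ℂ)) = fun _ => (0 : ℂ) from rfl, this]
    simp
  map_add' f g := by
    ext n
    rw [PowerSeries.coeff_mk, map_add, PowerSeries.coeff_mk, PowerSeries.coeff_mk]
    exact taylorCoeff_add f.2 g.2 τ n
  commutes' c := by
    ext n
    rw [PowerSeries.coeff_mk]
    have := taylorCoeff_const c τ n
    rw [show ((algebraMap ℂ holoRing c : holoRing) : ℍ → ℂ) = fun _ => c from rfl, this]
    rw [PowerSeries.algebraMap_apply, Algebra.algebraMap_self, RingHom.id_apply, PowerSeries.coeff_C]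

@[simp]
theorem coeff_taylorAt (τ : ℍ) (f : holoRing) (n : ℕ) :
    PowerSeries.coeff n (taylorAt τ f) = taylorCoeff τ (f : ℍ → ℂ) n := by
  show PowerSeries.coeff n (PowerSeries.mk (taylorCoeff τ (f : ℍ → ℂ))) = _
  rw [PowerSeries.coeff_mk]

theorem taylorCoeff_zero_idx (τ : ℍ) (f : ℍ → ℂ) : taylorCoeff τ f 0 = f τ := by
  simp [taylorCoeff, Function.comp_apply, ofComplex_apply]

theorem taylorCoeff_eq_zero_iff (τ : ℍ) (f : ℍ → ℂ) (n : ℕ) :
    taylorCoeff τ f n = 0 ↔ iteratedDeriv n (f ∘ ofComplex) (τ : ℂ) = 0 := by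
  unfold taylorCoeff
  have hn : (n.factorial : ℂ) ≠ 0 := by exact_mod_cast (Nat.factorial_pos n).ne'
  rw [div_eq_zero_iff]
  simp [hn]

/-- The order of the Taylor series is the analytic order of vanishing. -/
theorem order_taylorAt (τ : ℍ) (f : holoRing) :
    (taylorAt τ f).order = ordAt τ (f : ℍ → ℂ) := by
  have han := analyticAt_of_mdiff f.2 τ
  by_cases h0 : f = 0
  · subst h0
    rw [map_zero, PowerSeries.order_zero]
    exact (ordAt_zero τ).symm
  · have hne : ordAt τ (f : ℍ → ℂ) ≠ ⊤ :=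
      ordAt_ne_top f.2 (fun h => h0 (Subtype.ext h)) τ
    obtain ⟨n, hn⟩ := ENat.ne_top_iff_exists.mp hne
    rw [← hn]
    have key := (analyticOrderAt_eq_nat_iff_iteratedDeriv_eq_zero han (n := n)).mp
      (by rw [← ordAt_def]; exact hn.symm)
    rw [PowerSeries.order_eq_nat]
    refine ⟨?_, fun i hi => ?_⟩
    · rw [coeff_taylorAt, Ne, taylorCoeff_eq_zero_iff]
      exact key.2
    · rw [coeff_taylorAt, taylorCoeff_eq_zero_iff]
      exact key.1 i hi

theorem taylorAt_injective (τ : ℍ) : Function.Injective (taylorAt τ) := by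
  rw [injective_iff_map_eq_zero]
  intro f hf
  by_contra h0
  have h1 := order_taylorAt τ f
  rw [hf, PowerSeries.order_zero] at h1
  exact ordAt_ne_top f.2 (fun h => h0 (Subtype.ext h)) τ h1.symm

end Fermat.Agent.S24.H624

end
-- ===== PACK-END S24/H624/Taylor.lean

-- ===== PACK-BEGIN S24/Inf/Conv.lean
section






/-!
# S24 / MOD-INF — convergent Laurent expansions at `∞`

`InfExp N f φ` : the Laurent series `φ` converges to `f : ℍ → ℂ` on all of `ℍ` in the
variable `z = exp (2πiτ/N)`.  We prove closure under the ring operations and uniqueness.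
-/

set_option autoImplicit false

noncomputable section

open HahnSeries ModularCurve UpperHalfPlane Complex
open scoped Real

namespace Fermat.Agent.S24

/-- The local parameter `exp (2πiτ/N)` at `∞` (width `N`). -/
def infZ (N : ℕ) (τ : ℍ) : ℂ := Function.Periodic.qParam (N : ℝ) (τ : ℂ)

theorem infZ_def (N : ℕ) (τ : ℍ) : infZ N τ = Complex.exp (2 * π * Complex.I * τ / N) := by
  simp [infZ, Function.Periodic.qParam]

theorem infZ_ne_zero (N : ℕ) (τ : ℍ) : infZ N τ ≠ 0 :=
  Function.Periodic.qParam_ne_zero _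

theorem norm_infZ_lt_one (N : ℕ) [NeZero N] (τ : ℍ) : ‖infZ N τ‖ < 1 :=
  Function.Periodic.norm_qParam_lt_one
    (by exact_mod_cast Nat.pos_of_ne_zero (NeZero.ne N)) τ.im_pos

/-- Every point of the punctured unit disc is a value of `infZ N`. -/
theorem exists_infZ_eq (N : ℕ) [NeZero N] {z : ℂ} (hz : z ≠ 0) (hz1 : ‖z‖ < 1) :
    ∃ τ : ℍ, infZ N τ = z := by
  have hN : (0 : ℝ) < N := by exact_mod_cast Nat.pos_of_ne_zero (NeZero.ne N)
  have him : 0 < (Function.Periodic.invQParam (N : ℝ) z).im := by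
    rw [Function.Periodic.im_invQParam]
    have hlog : Real.log ‖z‖ < 0 := Real.log_neg (norm_pos_iff.mpr hz) hz1
    have : -(N : ℝ) / (2 * π) < 0 := by
      apply div_neg_of_neg_of_pos (by linarith) (by positivity)
    exact mul_pos_of_neg_of_neg this hlog
  exact ⟨⟨_, him⟩, Function.Periodic.qParam_right_inv hN.ne' hz⟩

/-- `φ` converges to `f` on `ℍ` in the variable `z = exp (2πiτ/N)`. -/
def InfExp (N : ℕ) (f : ℍ → ℂ) (φ : LaurentSeries ℂ) : Prop :=
  ∀ τ : ℍ, HasSum (fun n : ℤ => φ.coeff n * infZ N τ ^ n) (f τ)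

/-- Power series version. -/
def InfPExp (N : ℕ) (f : ℍ → ℂ) (ψ : PowerSeries ℂ) : Prop :=
  ∀ τ : ℍ, HasSum (fun n : ℕ => PowerSeries.coeff n ψ * infZ N τ ^ n) (f τ)

section Shift

theorem inf_coeff_single_mul_ofPowerSeries (k : ℤ) (ψ : PowerSeries ℂ) (n : ℕ) :
    (single k (1 : ℂ) * ofPowerSeries ℤ ℂ ψ).coeff ((n : ℤ) + k) = PowerSeries.coeff n ψ := by
  rw [coeff_single_mul, one_mul, add_sub_cancel_right, ofPowerSeries_apply_coeff]

theorem inf_coeff_single_mul_ofPowerSeries_of_lt (k : ℤ) (ψ : PowerSeries ℂ) {m : ℤ}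
    (hm : m < k) : (single k (1 : ℂ) * ofPowerSeries ℤ ℂ ψ).coeff m = 0 := by
  rw [coeff_single_mul, one_mul]
  exact ofPowerSeries_coeff_of_neg _ (by omega)

theorem inf_hasSum_shift_iff (k : ℤ) (ψ : PowerSeries ℂ) {z : ℂ} (hz : z ≠ 0) (s : ℂ) :
    HasSum (fun n : ℤ => (single k (1 : ℂ) * ofPowerSeries ℤ ℂ ψ).coeff n * z ^ n) s ↔
      HasSum (fun n : ℕ => PowerSeries.coeff n ψ * z ^ n) (z ^ (-k) * s) := by
  have hinj : Function.Injective (fun n : ℕ => (n : ℤ) + k) := fun a b h => by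
    simpa using h
  have hrange : ∀ m : ℤ, m ∉ Set.range (fun n : ℕ => (n : ℤ) + k) →
      (single k (1 : ℂ) * ofPowerSeries ℤ ℂ ψ).coeff m * z ^ m = 0 := by
    intro m hm
    have : m < k := by
      by_contra h
      rw [not_lt] at h
      exact hm ⟨(m - k).toNat, by simp [Int.toNat_of_nonneg (sub_nonneg.mpr h)]⟩
    rw [inf_coeff_single_mul_ofPowerSeries_of_lt k ψ this, zero_mul]
  rw [← hinj.hasSum_iff hrange]
  have hfun : ((fun n : ℤ => (single k (1 : ℂ) * ofPowerSeries ℤ ℂ ψ).coeff n * z ^ n) ∘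
      fun n : ℕ => (n : ℤ) + k) = fun n : ℕ => z ^ k * (PowerSeries.coeff n ψ * z ^ n) := by
    funext n
    simp only [Function.comp_apply, inf_coeff_single_mul_ofPowerSeries]
    rw [zpow_add₀ hz, zpow_natCast]
    ring
  rw [hfun]
  constructor
  · intro h
    have := h.mul_left (z ^ (-k))
    have e : (fun n : ℕ => z ^ (-k) * (z ^ k * (PowerSeries.coeff n ψ * z ^ n))) =
        fun n : ℕ => PowerSeries.coeff n ψ * z ^ n := by
      funext n
      rw [← mul_assoc, ← zpow_add₀ hz, neg_add_cancel, zpow_zero, one_mul]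
    rwa [e] at this
  · intro h
    have := h.mul_left (z ^ k)
    rwa [← mul_assoc, ← zpow_add₀ hz, add_neg_cancel, zpow_zero, one_mul] at this

end Shift

section Basic

variable {N : ℕ}

theorem InfExp.powerSeriesPart {f : ℍ → ℂ} {φ : LaurentSeries ℂ} (h : InfExp N f φ) :
    InfPExp N (fun τ => infZ N τ ^ (-φ.order) * f τ) φ.powerSeriesPart := by
  intro τ
  have := h τ
  have h2 : HasSum (fun n : ℤ =>
      (single φ.order (1 : ℂ) * ofPowerSeries ℤ ℂ φ.powerSeriesPart).coeff n * infZ N τ ^ n)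
      (f τ) := by
    rw [LaurentSeries.single_order_mul_powerSeriesPart φ]
    exact this
  exact (inf_hasSum_shift_iff _ _ (infZ_ne_zero N τ) _).mp h2

theorem InfPExp.infExp {g : ℍ → ℂ} {ψ : PowerSeries ℂ} (h : InfPExp N g ψ) (k : ℤ) :
    InfExp N (fun τ => infZ N τ ^ k * g τ) (single k (1 : ℂ) * ofPowerSeries ℤ ℂ ψ) := by
  intro τ
  rw [inf_hasSum_shift_iff _ _ (infZ_ne_zero N τ)]
  have hz := infZ_ne_zero N τ
  rw [← mul_assoc, ← zpow_add₀ hz, neg_add_cancel, zpow_zero, one_mul]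
  exact h τ

theorem InfPExp.mul {g₁ g₂ : ℍ → ℂ} {ψ₁ ψ₂ : PowerSeries ℂ} (h₁ : InfPExp N g₁ ψ₁)
    (h₂ : InfPExp N g₂ ψ₂) : InfPExp N (fun τ => g₁ τ * g₂ τ) (ψ₁ * ψ₂) := by
  intro τ
  have s₁ := (h₁ τ).summable.norm
  have s₂ := (h₂ τ).summable.norm
  have key := summable_norm_sum_mul_antidiagonal_of_summable_norm s₁ s₂
  have hsum := key.of_norm.hasSum
  rw [← tsum_mul_tsum_eq_tsum_sum_antidiagonal_of_summable_norm s₁ s₂, (h₁ τ).tsum_eq,
    (h₂ τ).tsum_eq] at hsum
  have e : (fun n : ℕ => PowerSeries.coeff n (ψ₁ * ψ₂) * infZ N τ ^ n) =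
      fun n => ∑ kl ∈ Finset.HasAntidiagonal.antidiagonal n,
        PowerSeries.coeff kl.1 ψ₁ * infZ N τ ^ kl.1 *
          (PowerSeries.coeff kl.2 ψ₂ * infZ N τ ^ kl.2) := by
    funext n
    rw [PowerSeries.coeff_mul, Finset.sum_mul]
    refine Finset.sum_congr rfl fun p hp => ?_
    have hp' : p.1 + p.2 = n := Finset.HasAntidiagonal.mem_antidiagonal.mp hp
    rw [← hp', _root_.pow_add]
    ring
  show HasSum (fun n : ℕ => PowerSeries.coeff n (ψ₁ * ψ₂) * infZ N τ ^ n) (g₁ τ * g₂ τ)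
  rw [e]
  exact hsum

theorem InfExp.zero : InfExp N (fun _ => 0) 0 := by
  intro τ
  simp [hasSum_zero]

theorem InfExp.const (c : ℂ) : InfExp N (fun _ => c) (HahnSeries.C c) := by
  intro τ
  have h := hasSum_single (f := fun n : ℤ => (HahnSeries.C c : LaurentSeries ℂ).coeff n *
    infZ N τ ^ n) (0 : ℤ) (fun n hn => by
      rw [C_apply, coeff_single_of_ne hn, zero_mul])
  simpa using h

theorem InfExp.one : InfExp N (fun _ => 1) 1 := by
  have := InfExp.const (N := N) 1
  rwa [_root_.map_one] at this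

theorem InfExp.add {f g : ℍ → ℂ} {φ ψ : LaurentSeries ℂ} (hf : InfExp N f φ)
    (hg : InfExp N g ψ) : InfExp N (fun τ => f τ + g τ) (φ + ψ) := by
  intro τ
  have := (hf τ).add (hg τ)
  simpa [add_mul] using this

theorem InfExp.neg {f : ℍ → ℂ} {φ : LaurentSeries ℂ} (hf : InfExp N f φ) :
    InfExp N (fun τ => -f τ) (-φ) := by
  intro τ
  have := (hf τ).neg
  simpa [neg_mul] using this

theorem InfExp.sub {f g : ℍ → ℂ} {φ ψ : LaurentSeries ℂ} (hf : InfExp N f φ)
    (hg : InfExp N g ψ) : InfExp N (fun τ => f τ - g τ) (φ - ψ) := by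
  have := hf.add hg.neg
  simpa [sub_eq_add_neg] using this

theorem InfExp.mul {f g : ℍ → ℂ} {φ ψ : LaurentSeries ℂ} (hf : InfExp N f φ)
    (hg : InfExp N g ψ) : InfExp N (fun τ => f τ * g τ) (φ * ψ) := by
  have h := (hf.powerSeriesPart.mul hg.powerSeriesPart).infExp (φ.order + ψ.order)
  have hφ : φ * ψ = single (φ.order + ψ.order) (1 : ℂ) *
      ofPowerSeries ℤ ℂ (φ.powerSeriesPart * ψ.powerSeriesPart) := by
    conv_lhs => rw [← LaurentSeries.single_order_mul_powerSeriesPart φ,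
      ← LaurentSeries.single_order_mul_powerSeriesPart ψ]
    rw [_root_.map_mul, mul_mul_mul_comm, single_mul_single, one_mul]
  rw [hφ]
  intro τ
  have hz := infZ_ne_zero N τ
  have this : infZ N τ ^ (φ.order + ψ.order) * (infZ N τ ^ (-φ.order) * f τ *
      (infZ N τ ^ (-ψ.order) * g τ)) = f τ * g τ := by
    have e : infZ N τ ^ (φ.order + ψ.order) * (infZ N τ ^ (-φ.order) * f τ *
      (infZ N τ ^ (-ψ.order) * g τ)) =
      (infZ N τ ^ (φ.order + ψ.order) * infZ N τ ^ (-φ.order) * infZ N τ ^ (-ψ.order)) *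
        (f τ * g τ) := by ring
    rw [e, ← zpow_add₀ hz, ← zpow_add₀ hz]
    simp
  have h' := h τ
  simp only [this] at h'
  exact h'

theorem InfExp.congr {f g : ℍ → ℂ} {φ : LaurentSeries ℂ} (hf : InfExp N f φ)
    (h : ∀ τ, f τ = g τ) : InfExp N g φ := by
  intro τ
  rw [← h τ]
  exact hf τ

/-- The function is determined by the expansion. -/
theorem InfExp.fun_unique {f g : ℍ → ℂ} {φ : LaurentSeries ℂ} (hf : InfExp N f φ)
    (hg : InfExp N g φ) : f = g :=
  funext fun τ => (hf τ).unique (hg τ)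

end Basic

end Fermat.Agent.S24

end
end
-- ===== PACK-END S24/Inf/Conv.lean

-- ===== PACK-BEGIN S24/Alg/Basic.lean
section



/-!
# S24 / ALG — small lemmas on `Place.ord` used by the global assembly (helper984)
-/

set_option autoImplicit false

noncomputable section

open AlgebraicCurve KaehlerDifferential

namespace Fermat.Agent.S24

variable {K F : Type*} [Field K] [Field F] [Algebra K F]

theorem ord_algebraMap (v : Place K F) (c : K) : v.ord (algebraMap K F c) = 0 := by
  rcases eq_or_ne c 0 with rfl | hc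
  · simp
  · have h1 : algebraMap K F c ∈ v.toValuationSubring := v.algebraMap_mem' c
    have h2 : algebraMap K F c⁻¹ ∈ v.toValuationSubring := v.algebraMap_mem' c⁻¹
    have hu : IsUnit (⟨algebraMap K F c, h1⟩ : v.toValuationSubring) := by
      refine IsUnit.of_mul_eq_one (⟨algebraMap K F c⁻¹, h2⟩ : v.toValuationSubring) ?_
      apply Subtype.ext
      show algebraMap K F c * algebraMap K F c⁻¹ = 1
      rw [← map_mul, mul_inv_cancel₀ hc, map_one]
    have := v.ord_coe_unit hu.unit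
    simpa using this

theorem ord_neg (v : Place K F) (x : F) : v.ord (-x) = v.ord x := by
  simp [Place.ord]

theorem le_ord_add (v : Place K F) {x y : F} {k : ℤ} (hx : x = 0 ∨ k ≤ v.ord x)
    (hy : y = 0 ∨ k ≤ v.ord y) : x + y = 0 ∨ k ≤ v.ord (x + y) := by
  have hx' : v.adicValuation x ≤ WithZero.exp (-k) :=
    v.adicValuation_le_exp_iff.mpr (by simpa using hx)
  have hy' : v.adicValuation y ≤ WithZero.exp (-k) :=
    v.adicValuation_le_exp_iff.mpr (by simpa using hy)
  have := (Valuation.map_add v.adicValuation x y).trans (max_le hx' hy')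
  simpa using v.adicValuation_le_exp_iff.mp this

theorem point_unique (v : Place K F) (j : F) {a b : K}
    (ha : 0 < v.ord (j - algebraMap K F a)) (hb : 0 < v.ord (j - algebraMap K F b)) :
    a = b := by
  by_contra hab
  have hsub : (j - algebraMap K F a) + -(j - algebraMap K F b) = algebraMap K F (b - a) := by
    rw [map_sub]; ring
  have h := le_ord_add v (k := 1) (x := j - algebraMap K F a) (y := -(j - algebraMap K F b))
    (Or.inr ha) (Or.inr (by rw [ord_neg]; exact hb))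
  rw [hsub, ord_algebraMap] at h
  rcases h with h | h
  · have : b - a = 0 := by
      have hinj := (algebraMap K F).injective
      exact hinj (by rw [h, map_zero])
    exact hab (sub_eq_zero.mp this).symm
  · omega

theorem not_pos_ord_sub_of_pos_ord_inv (v : Place K F) (j : F) (a : K)
    (hinf : 0 < v.ord j⁻¹) : ¬ 0 < v.ord (j - algebraMap K F a) := by
  intro ha
  have hj : v.ord j < 0 := by
    have := v.ord_inv j
    omega
  have h := le_ord_add v (k := 0) (x := j - algebraMap K F a) (y := algebraMap K F a)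
    (Or.inr ha.le) (Or.inr (by rw [ord_algebraMap]))
  rw [sub_add_cancel] at h
  rcases h with h | h
  · rw [h] at hj; simp at hj
  · omega

section Adjoin

variable (K) in
theorem adjoin_sub_algebraMap (j : F) (a : K) :
    IntermediateField.adjoin K {j - algebraMap K F a} = IntermediateField.adjoin K {j} := by
  apply le_antisymm
  · rw [IntermediateField.adjoin_le_iff, Set.singleton_subset_iff]
    exact sub_mem (IntermediateField.mem_adjoin_simple_self K j)
      (IntermediateField.algebraMap_mem _ a)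
  · rw [IntermediateField.adjoin_le_iff, Set.singleton_subset_iff]
    have h : (j - algebraMap K F a) + algebraMap K F a
        ∈ IntermediateField.adjoin K {j - algebraMap K F a} :=
      add_mem (IntermediateField.mem_adjoin_simple_self K _)
        (IntermediateField.algebraMap_mem _ a)
    simpa using h

variable (K) in
theorem adjoin_inv (j : F) :
    IntermediateField.adjoin K {j⁻¹} = IntermediateField.adjoin K {j} := by
  apply le_antisymm
  · rw [IntermediateField.adjoin_le_iff, Set.singleton_subset_iff]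
    exact inv_mem (IntermediateField.mem_adjoin_simple_self K j)
  · rw [IntermediateField.adjoin_le_iff, Set.singleton_subset_iff]
    have h : (j⁻¹)⁻¹ ∈ IntermediateField.adjoin K {j⁻¹} :=
      inv_mem (IntermediateField.mem_adjoin_simple_self K _)
    simpa using h

theorem finiteDimensional_and_finrank_of_eq {E₁ E₂ : IntermediateField K F} (h : E₁ = E₂)
    [FiniteDimensional ↥E₂ F] :
    FiniteDimensional ↥E₁ F ∧ Module.finrank ↥E₁ F = Module.finrank ↥E₂ F := by
  subst h
  exact ⟨inferInstance, rfl⟩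

end Adjoin

end Fermat.Agent.S24

end
end
-- ===== PACK-END S24/Alg/Basic.lean

-- ===== PACK-BEGIN S29/H571/HeckeGalois.lean
section




/-!
# Galois-equivariance of the Prelude Hecke operators on `JZero N`
(helper571, piece GEQ of the S29 route)

* `heckeOperatorAlong_smul` : `T_ℓ (σ • x) = σ • T_ℓ x` on
  `Pic0 L (laurentBaseChange L (modularFunctionFieldFull N))`, for every field `L ⊇ ℚ`,
  UNCONDITIONALLY (if the Hecke inputs fail the operator is `0`).
* `heckeOperatorBar_smul` : the same for `heckeOperatorBar N ℓ` on `JZero N`.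
* `smulCommClass_heckeModuleBar` :
  `letI := heckeModuleBar N; SMulCommClass Gal(ℚ̄/ℚ) HeckeAlg (JZero N)`,
  i.e. the second hypothesis of the frozen statement S37, unconditionally.
-/

set_option autoImplicit false
set_option linter.style.haveILetI false

noncomputable section

namespace Fermat.Agent.S29.H571

open AlgebraicCurve ModularCurve

section General

variable {L : Type*} [Field L] [Algebra ℚ L]
variable (N ℓ : ℕ) [NeZero N] [NeZero ℓ]

theorem intertwines_heckeAlphaBar (σ : L ≃ₐ[ℚ] L) :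
    SemilinearAut.IntertwinesAlong
      ((heckeAlphaBar L N ℓ : laurentBaseChange L (modularFunctionFieldFull N) →ₐ[L]
        laurentBaseChange L (modularFunctionFieldFull (N * ℓ))) : _ →+* _)
      (arithmeticGalois (modularFunctionFieldFull N) σ)
      (arithmeticGalois (modularFunctionFieldFull (N * ℓ)) σ) := by
  intro x
  apply Subtype.ext
  rw [coe_arithmeticGalois_smul]
  show coeffMap (σ : L →+* L) ((heckeAlphaBar L N ℓ x : _) : LaurentSeries L) = _
  rw [coe_heckeAlphaBar]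
  show _ = ((heckeAlphaBar L N ℓ (arithmeticGalois (modularFunctionFieldFull N) σ • x) : _) :
    LaurentSeries L)
  rw [coe_heckeAlphaBar, coe_arithmeticGalois_smul]

omit [NeZero N] in
theorem intertwines_heckeBetaBar (σ : L ≃ₐ[ℚ] L) :
    SemilinearAut.IntertwinesAlong
      ((heckeBetaBar L N ℓ : laurentBaseChange L (modularFunctionFieldFull N) →ₐ[L]
        laurentBaseChange L (modularFunctionFieldFull (N * ℓ))) : _ →+* _)
      (arithmeticGalois (modularFunctionFieldFull N) σ)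
      (arithmeticGalois (modularFunctionFieldFull (N * ℓ)) σ) := by
  intro x
  apply Subtype.ext
  rw [coe_arithmeticGalois_smul]
  show coeffMap (σ : L →+* L) ((heckeBetaBar L N ℓ x : _) : LaurentSeries L) = _
  rw [coe_heckeBetaBar]
  show _ = ((heckeBetaBar L N ℓ (arithmeticGalois (modularFunctionFieldFull N) σ • x) : _) :
    LaurentSeries L)
  rw [coe_heckeBetaBar, coe_arithmeticGalois_smul, coeffMap_qExpand]

/-- Galois-equivariance of the Prelude Hecke operator `heckeOperatorAlong L N ℓ`. -/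
theorem heckeOperatorAlong_smul (σ : L ≃ₐ[ℚ] L)
    (x : Pic0 L (laurentBaseChange L (modularFunctionFieldFull N))) :
    heckeOperatorAlong L N ℓ (σ • x) = σ • heckeOperatorAlong L N ℓ x := by
  by_cases h : HeckeInputsAlong L N ℓ
  · obtain ⟨hα, hβ, hP, hfin, hFI, hN⟩ := h
    rw [heckeOperatorAlong_eq hα hβ hFI hfin hN, galois_smul_pic0_def, galois_smul_pic0_def]
    exact pic0_correspondence_smul (heckeBetaBar L N ℓ) (heckeAlphaBar L N ℓ) hβ hα hFI hfin hN
      (intertwines_heckeBetaBar N ℓ σ) (intertwines_heckeAlphaBar N ℓ σ) x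
  · rw [heckeOperatorAlong_of_not h]
    simp

end General

section Bar

variable (N : ℕ) [NeZero N]

/-- Galois-equivariance of `heckeOperatorBar N ℓ` on `JZero N`. -/
theorem heckeOperatorBar_smul (ℓ : Nat.Primes)
    (σ : AlgebraicClosure ℚ ≃ₐ[ℚ] AlgebraicClosure ℚ) (x : JZero N) :
    heckeOperatorBar N ℓ (σ • x) = σ • heckeOperatorBar N ℓ x := by
  haveI : NeZero (ℓ : ℕ) := ⟨ℓ.2.ne_zero⟩
  rw [heckeOperatorBar_apply, heckeOperatorBar_apply]
  exact heckeOperatorAlong_smul N (ℓ : ℕ) σ x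

/-- Every element of the Hecke algebra acts Galois-equivariantly (commuting case). -/
theorem heckeEvalBar_smul (h : HeckeOperatorsCommuteBar N) (t : HeckeAlg)
    (σ : AlgebraicClosure ℚ ≃ₐ[ℚ] AlgebraicClosure ℚ) (x : JZero N) :
    heckeEvalBar h t (σ • x) = σ • heckeEvalBar h t x := by
  induction t using MvPolynomial.induction_on generalizing x with
  | C a =>
    rw [heckeEvalBar_C, Module.End.intCast_apply, Module.End.intCast_apply, smul_comm]
  | add p q hp hq =>
    rw [map_add, LinearMap.add_apply, LinearMap.add_apply, hp, hq, smul_add]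
  | mul_X p ℓ hp =>
    rw [map_mul, Module.End.mul_apply, Module.End.mul_apply,
      show (MvPolynomial.X ℓ : HeckeAlg) = heckeGen ℓ from rfl, heckeEvalBar_heckeGen,
      heckeOperatorBar_smul, hp]

/-- The Galois action on `JZero N` commutes with the `HeckeAlg`-module structure
`heckeModuleBar N`, unconditionally.  This is exactly the `SMulCommClass` hypothesis of the
frozen statement S37. -/
theorem smulCommClass_heckeModuleBar :
    letI := heckeModuleBar N
    SMulCommClass (AlgebraicClosure ℚ ≃ₐ[ℚ] AlgebraicClosure ℚ) HeckeAlg (JZero N) := by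
  letI := heckeModuleBar N
  refine ⟨fun σ t x => ?_⟩
  by_cases h : HeckeOperatorsCommuteBar N
  · rw [heckeModuleBar_smul_def h, heckeModuleBar_smul_def h, heckeEvalBar_smul]
  · rw [heckeModuleBar_smul_of_not h, heckeModuleBar_smul_of_not h]
    exact (smul_comm _ σ x).symm

end Bar

end Fermat.Agent.S29.H571


end
end
-- ===== PACK-END S29/H571/HeckeGalois.lean

-- ===== PACK-BEGIN S24/Alg/LocEmb.lean
section






/-!
# S24 / ALG-LOC: a full set of embeddings

Let `F/F₀` be finite separable of degree `n` and let `σ x : F →+* E` (`x : X`, `|X| = n`) be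
pairwise distinct ring homomorphisms into a field `E` which agree on `F₀`.  Then the `σ x`
are *all* the `F₀`-embeddings of `F` into an algebraic closure of `E`.  Consequences:

* `loc_minpoly_coeff_mem`: if all `σ x u` lie in a subring `O` of `E`, then so do the images of
  the coefficients of the minimal polynomial of `u` over `F₀`;
* `loc_norm_eq_prod`: the image of the norm is the product of the conjugates `σ x f`.
-/

set_option autoImplicit false

noncomputable section

open Polynomial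

namespace Fermat.Agent.S24.H144

section General

variable {F₀ F Ω : Type*} [Field F₀] [Field F] [Algebra F₀ F] [FiniteDimensional F₀ F]
  [Algebra.IsSeparable F₀ F] [Field Ω] [IsAlgClosed Ω] [Algebra F₀ Ω]
variable {X : Type*} [Finite X]

/-- An injective family of `finrank` many embeddings into an algebraically closed field is the
family of all embeddings. -/
theorem loc_algHom_bijective (ψ : X → (F →ₐ[F₀] Ω)) (hψ : Function.Injective ψ)
    (hcard : Module.finrank F₀ F = Nat.card X) : Function.Bijective ψ := by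
  apply hψ.bijective_of_nat_card_le
  rw [← hcard, ← AlgHom.card F₀ F Ω, Fintype.card_eq_nat_card]

end General

section Emb

variable {F₀ F E : Type*} [Field F₀] [Field F] [Algebra F₀ F] [FiniteDimensional F₀ F]
  [Algebra.IsSeparable F₀ F] [Field E]
variable {X : Type*} [Finite X]

/-- If all conjugates `σ x u` lie in a subring `O ⊆ E`, then the images of the coefficients of
the minimal polynomial of `u` over `F₀` lie in `O`. -/
theorem loc_minpoly_coeff_mem (σ : X → (F →+* E)) (hinj : Function.Injective σ)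
    (hagree : ∀ (x y : X) (c : F₀), σ x (algebraMap F₀ F c) = σ y (algebraMap F₀ F c))
    (hcard : Module.finrank F₀ F = Nat.card X)
    (O : Subring E) (u : F) (hu : ∀ x, σ x u ∈ O) (x₀ : X) (i : ℕ) :
    σ x₀ (algebraMap F₀ F ((minpoly F₀ u).coeff i)) ∈ O := by
  classical
  let φ : F₀ →+* AlgebraicClosure E :=
    (algebraMap E (AlgebraicClosure E)).comp ((σ x₀).comp (algebraMap F₀ F))
  letI : Algebra F₀ (AlgebraicClosure E) := φ.toAlgebra
  have hφ : ∀ c : F₀, algebraMap F₀ (AlgebraicClosure E) c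
      = algebraMap E (AlgebraicClosure E) (σ x₀ (algebraMap F₀ F c)) := fun c => rfl
  let ψ : X → (F →ₐ[F₀] AlgebraicClosure E) := fun x =>
    { ((algebraMap E (AlgebraicClosure E)).comp (σ x)) with
      commutes' := fun c => by
        change algebraMap E (AlgebraicClosure E) (σ x (algebraMap F₀ F c))
          = algebraMap F₀ (AlgebraicClosure E) c
        rw [hφ, hagree x x₀] }
  have hψ_apply : ∀ x f, ψ x f = algebraMap E (AlgebraicClosure E) (σ x f) := fun _ _ => rfl
  have hψinj : Function.Injective ψ := by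
    intro x y hxy
    apply hinj
    ext f
    have h := congrArg (fun τ : F →ₐ[F₀] AlgebraicClosure E => τ f) hxy
    exact (algebraMap E (AlgebraicClosure E)).injective h
  have hbij := loc_algHom_bijective ψ hψinj hcard
  have hint : IsIntegral F₀ u := Algebra.IsIntegral.isIntegral u
  have hmonic : ((minpoly F₀ u).map (algebraMap F₀ (AlgebraicClosure E))).Monic :=
    (minpoly.monic hint).map _
  have hsplit : ((minpoly F₀ u).map (algebraMap F₀ (AlgebraicClosure E))).Splits :=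
    IsAlgClosed.splits _
  let g : O →+* AlgebraicClosure E := (algebraMap E (AlgebraicClosure E)).comp O.subtype
  have hroots : ∀ r ∈ ((minpoly F₀ u).map (algebraMap F₀ (AlgebraicClosure E))).roots,
      r ∈ g.range := by
    intro r hr
    have hr' : r ∈ (minpoly F₀ u).rootSet (AlgebraicClosure E) := by
      rw [Polynomial.rootSet_def, Finset.mem_coe, Multiset.mem_toFinset]
      exact hr
    rw [← Algebra.IsAlgebraic.range_eval_eq_rootSet_minpoly] at hr'
    obtain ⟨τ, rfl⟩ := hr'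
    obtain ⟨x, rfl⟩ := hbij.2 τ
    exact ⟨⟨σ x u, hu x⟩, rfl⟩
  have hlift := hsplit.mem_lift_of_roots_mem_range hmonic g hroots
  obtain ⟨o, ho⟩ := (lifts_iff_coeff_lifts _).mp hlift i
  rw [coeff_map, hφ] at ho
  have h := (algebraMap E (AlgebraicClosure E)).injective ho
  rw [← h]
  exact o.2

/-- The image of the norm is the product of the conjugates. -/
theorem loc_norm_eq_prod [Fintype X] (σ : X → (F →+* E)) (hinj : Function.Injective σ)
    (hagree : ∀ (x y : X) (c : F₀), σ x (algebraMap F₀ F c) = σ y (algebraMap F₀ F c))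
    (hcard : Module.finrank F₀ F = Nat.card X) (f : F) (x₀ : X) :
    σ x₀ (algebraMap F₀ F (Algebra.norm F₀ f)) = ∏ x, σ x f := by
  classical
  let φ : F₀ →+* AlgebraicClosure E :=
    (algebraMap E (AlgebraicClosure E)).comp ((σ x₀).comp (algebraMap F₀ F))
  letI : Algebra F₀ (AlgebraicClosure E) := φ.toAlgebra
  have hφ : ∀ c : F₀, algebraMap F₀ (AlgebraicClosure E) c
      = algebraMap E (AlgebraicClosure E) (σ x₀ (algebraMap F₀ F c)) := fun c => rfl
  let ψ : X → (F →ₐ[F₀] AlgebraicClosure E) := fun x =>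
    { ((algebraMap E (AlgebraicClosure E)).comp (σ x)) with
      commutes' := fun c => by
        change algebraMap E (AlgebraicClosure E) (σ x (algebraMap F₀ F c))
          = algebraMap F₀ (AlgebraicClosure E) c
        rw [hφ, hagree x x₀] }
  have hψ_apply : ∀ x f, ψ x f = algebraMap E (AlgebraicClosure E) (σ x f) := fun _ _ => rfl
  have hψinj : Function.Injective ψ := by
    intro x y hxy
    apply hinj
    ext f
    have h := congrArg (fun τ : F →ₐ[F₀] AlgebraicClosure E => τ f) hxy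
    exact (algebraMap E (AlgebraicClosure E)).injective h
  have hbij := loc_algHom_bijective ψ hψinj hcard
  apply (algebraMap E (AlgebraicClosure E)).injective
  rw [← hφ, Algebra.norm_eq_prod_embeddings F₀ (AlgebraicClosure E) f, _root_.map_prod]
  exact (Fintype.prod_bijective ψ hbij _ _ (fun x => hψ_apply x f)).symm

end Emb

end Fermat.Agent.S24.H144

end
end
-- ===== PACK-END S24/Alg/LocEmb.lean

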