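import Mathlib
import Fermat.Prelude.Def_CuspForm_HeckeGaloisRepDatum
import Fermat.Prelude.Def_ModularCurve_X0ModL
import Fermat.Prelude.Def_AlgebraicCurve_DivisorClassGroup
import Fermat.Prelude.Def_ModularCurve_LaurentCoeff
import Fermat.Agent.Pack.S33.E0L0
import Fermat.Agent.Pack.S33.E4L2
import Fermat.Agent.Pack.S33.E4L3
import Fermat.Agent.Pack.S33.E4L1
import Fermat.Agent.Pack.S33.E0L3
import Fermat.Agent.Pack.S33.E4L0
import Fermat.Agent.Pack.S33.E1L1
import Fermat.Agent.Pack.S33.E1L0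
import Fermat.Agent.Pack.S33.E1L3
import Fermat.Agent.Pack.S33.E1L2
import Fermat.Agent.Pack.S33.E5L0
import Fermat.Agent.Pack.S33.E5L3
import Fermat.Agent.Pack.S33.E5L2

-- ===== PACK-BEGIN Lib/Cheb/H761/PrimeSum.lean
section



/-!
# Piece Z of the shared library CHEB: `Spec.PrimeSumStatement`

`∑_p c_F(p) p^(-s) = log (1 / (s - 1)) + O(1)` on `(1, 2]`, where `c_F(p)` is the number of prime
ideals of `𝓞 F` of norm `p`.
-/

set_option autoImplicit false
set_option linter.unusedSectionVars false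
set_option linter.unusedVariables false

namespace Fermat.Agent.Lib.Cheb.H761

open IsDedekindDomain Filter Topology NumberField Ideal

noncomputable section

variable (F : Type*) [Field F] [NumberField F]

/-- At most `[F : ℚ]` primes of `𝓞 F` contain a given rational prime. -/
lemma card_le_of_natCast_mem {p : ℕ} (hp : p.Prime) (T : Finset (HeightOneSpectrum (𝓞 F)))
    (hT : ∀ 𝔭 ∈ T, (p : 𝓞 F) ∈ 𝔭.asIdeal) : T.card ≤ Module.finrank ℤ (𝓞 F) := by
  classical
  have hdvd : ∀ 𝔭 ∈ T, 𝔭.asIdeal ∣ span {(p : 𝓞 F)} := fun 𝔭 h𝔭 =>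
    Ideal.dvd_iff_le.mpr ((span_singleton_le_iff_mem _).mpr (hT 𝔭 h𝔭))
  have hprod : ∏ 𝔭 ∈ T, 𝔭.asIdeal ∣ span {(p : 𝓞 F)} := by
    have := Finset.prod_primes_dvd (s := T.image (fun 𝔭 => 𝔭.asIdeal)) (span {(p : 𝓞 F)})
      (by
        intro a ha
        obtain ⟨𝔭, -, rfl⟩ := Finset.mem_image.mp ha
        exact 𝔭.prime)
      (by
        intro a ha
        obtain ⟨𝔭, h𝔭, rfl⟩ := Finset.mem_image.mp ha
        exact hdvd 𝔭 h𝔭)
    rwa [Finset.prod_image (fun x _ y _ h => HeightOneSpectrum.ext h)] at this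
  have hnorm := Ideal.absNorm_dvd_absNorm_of_le (Ideal.dvd_iff_le.mp hprod)
  rw [Ideal.absNorm_span_natCast, _root_.map_prod] at hnorm
  have hle : ∀ 𝔭 ∈ T, p ≤ absNorm 𝔭.asIdeal := by
    intro 𝔭 h𝔭
    have h1 := Ideal.absNorm_dvd_absNorm_of_le (Ideal.dvd_iff_le.mp (hdvd 𝔭 h𝔭))
    rw [Ideal.absNorm_span_natCast] at h1
    obtain ⟨k, -, hk⟩ := (Nat.dvd_prime_pow hp).mp h1
    have hk0 : k ≠ 0 := by
      rintro rfl
      rw [pow_zero, Ideal.absNorm_eq_one_iff] at hk
      exact 𝔭.isPrime.ne_top hk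
    rw [hk]
    exact Nat.le_self_pow hk0 p
  have h2 : p ^ T.card ≤ ∏ 𝔭 ∈ T, absNorm 𝔭.asIdeal := by
    rw [← Finset.prod_const]
    exact Finset.prod_le_prod' hle
  have h3 : ∏ 𝔭 ∈ T, absNorm 𝔭.asIdeal ≤ p ^ Module.finrank ℤ (𝓞 F) :=
    Nat.le_of_dvd (pow_pos hp.pos _) hnorm
  exact (Nat.pow_le_pow_iff_right hp.one_lt).mp (h2.trans h3)

/-- the rational prime below a prime ideal -/
def primeBelow (𝔭 : HeightOneSpectrum (𝓞 F)) : ℕ :=
  haveI := 𝔭.isMaximal
  (Ideal.exists_prime_and_absNorm_eq_pow 𝔭.asIdeal).choose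

lemma primeBelow_spec (𝔭 : HeightOneSpectrum (𝓞 F)) :
    ∃ n, 0 < n ∧ (primeBelow F 𝔭 : 𝓞 F) ∈ 𝔭.asIdeal ∧ (primeBelow F 𝔭).Prime ∧
      absNorm 𝔭.asIdeal = primeBelow F 𝔭 ^ n :=
  haveI := 𝔭.isMaximal
  (Ideal.exists_prime_and_absNorm_eq_pow 𝔭.asIdeal).choose_spec

/-- For a prime of non-prime norm, `N𝔭 ≥ p²`. -/
lemma sq_primeBelow_le (𝔭 : HeightOneSpectrum (𝓞 F)) (h : ¬ (absNorm 𝔭.asIdeal).Prime) :
    primeBelow F 𝔭 ^ 2 ≤ absNorm 𝔭.asIdeal := by
  obtain ⟨n, hn, -, hp, hN⟩ := primeBelow_spec F 𝔭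
  have hn2 : 2 ≤ n := by
    by_contra hlt
    have : n = 1 := by omega
    rw [this, pow_one] at hN
    exact h (hN ▸ hp)
  rw [hN]
  exact Nat.pow_le_pow_right hp.pos hn2

/-- the primes of non-prime norm -/
def highPrimes : Set (HeightOneSpectrum (𝓞 F)) := {𝔭 | ¬ (absNorm 𝔭.asIdeal).Prime}

/-- the constant bounding the contribution of the primes of degree `≥ 2` -/
def highBound : ℝ := (Module.finrank ℤ (𝓞 F) : ℝ) * ∑' n : ℕ, ((n : ℝ) ^ 2)⁻¹

lemma summable_inv_sq : Summable (fun n : ℕ => ((n : ℝ) ^ 2)⁻¹) := by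
  have := (Real.summable_nat_pow_inv (p := 2)).mpr (by norm_num)
  exact this

lemma sum_highPrimes_le {s : ℝ} (hs : 1 ≤ s) (T : Finset (HeightOneSpectrum (𝓞 F)))
    (hT : ∀ 𝔭 ∈ T, ¬ (absNorm 𝔭.asIdeal).Prime) :
    ∑ 𝔭 ∈ T, normPow F s 𝔭.asIdeal ≤ highBound F := by
  classical
  have h1 : ∀ 𝔭 ∈ T, normPow F s 𝔭.asIdeal ≤ (((primeBelow F 𝔭 : ℕ) : ℝ) ^ 2)⁻¹ := by
    intro 𝔭 h𝔭
    have hsq := sq_primeBelow_le F 𝔭 (hT 𝔭 h𝔭)
    obtain ⟨n, hn, -, hp, hN⟩ := primeBelow_spec F 𝔭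
    have hpos : (0 : ℝ) < (primeBelow F 𝔭 : ℝ) ^ 2 := by
      have : (0 : ℝ) < primeBelow F 𝔭 := by exact_mod_cast hp.pos
      positivity
    have hle : ((primeBelow F 𝔭 : ℝ)) ^ 2 ≤ (absNorm 𝔭.asIdeal : ℝ) := by exact_mod_cast hsq
    have h1N : (1 : ℝ) ≤ absNorm 𝔭.asIdeal := by
      have : (1 : ℝ) ≤ (primeBelow F 𝔭 : ℝ) ^ 2 := by
        have : (1 : ℝ) ≤ primeBelow F 𝔭 := by exact_mod_cast hp.one_lt.le
        nlinarith
      linarith
    calc normPow F s 𝔭.asIdeal ≤ normPow F 1 𝔭.asIdeal :=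
          normPow_anti F hs 𝔭.asIdeal one_pos
      _ = (absNorm 𝔭.asIdeal : ℝ)⁻¹ := by
          rw [normPow, Real.rpow_neg_one]
      _ ≤ (((primeBelow F 𝔭 : ℕ) : ℝ) ^ 2)⁻¹ := inv_anti₀ hpos hle
  calc ∑ 𝔭 ∈ T, normPow F s 𝔭.asIdeal
      ≤ ∑ 𝔭 ∈ T, (((primeBelow F 𝔭 : ℕ) : ℝ) ^ 2)⁻¹ := Finset.sum_le_sum h1
    _ = ∑ p ∈ T.image (primeBelow F),
          ∑ 𝔭 ∈ T.filter (fun 𝔭 => primeBelow F 𝔭 = p), (((primeBelow F 𝔭 : ℕ) : ℝ) ^ 2)⁻¹ := by
        rw [Finset.sum_fiberwise_of_maps_to (fun 𝔭 h𝔭 => Finset.mem_image_of_mem _ h𝔭)]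
    _ ≤ ∑ p ∈ T.image (primeBelow F), (Module.finrank ℤ (𝓞 F) : ℝ) * ((p : ℝ) ^ 2)⁻¹ := by
        refine Finset.sum_le_sum fun p hp => ?_
        obtain ⟨𝔮, h𝔮, rfl⟩ := Finset.mem_image.mp hp
        have hcard : (T.filter (fun 𝔭 => primeBelow F 𝔭 = primeBelow F 𝔮)).card ≤
            Module.finrank ℤ (𝓞 F) := by
          obtain ⟨n, -, -, hpr, -⟩ := primeBelow_spec F 𝔮
          refine card_le_of_natCast_mem F hpr _ fun 𝔭 h𝔭 => ?_
          obtain ⟨-, h⟩ := Finset.mem_filter.mp h𝔭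
          obtain ⟨m, -, hmem, -, -⟩ := primeBelow_spec F 𝔭
          rwa [h] at hmem
        calc ∑ 𝔭 ∈ T.filter (fun 𝔭 => primeBelow F 𝔭 = primeBelow F 𝔮),
              (((primeBelow F 𝔭 : ℕ) : ℝ) ^ 2)⁻¹
            = ∑ 𝔭 ∈ T.filter (fun 𝔭 => primeBelow F 𝔭 = primeBelow F 𝔮),
              (((primeBelow F 𝔮 : ℕ) : ℝ) ^ 2)⁻¹ := by
              refine Finset.sum_congr rfl fun 𝔭 h𝔭 => ?_
              rw [(Finset.mem_filter.mp h𝔭).2]
          _ = ((T.filter (fun 𝔭 => primeBelow F 𝔭 = primeBelow F 𝔮)).card : ℝ) *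
              (((primeBelow F 𝔮 : ℕ) : ℝ) ^ 2)⁻¹ := by
              rw [Finset.sum_const, nsmul_eq_mul]
          _ ≤ (Module.finrank ℤ (𝓞 F) : ℝ) * (((primeBelow F 𝔮 : ℕ) : ℝ) ^ 2)⁻¹ := by
              gcongr
    _ = (Module.finrank ℤ (𝓞 F) : ℝ) * ∑ p ∈ T.image (primeBelow F), ((p : ℝ) ^ 2)⁻¹ := by
        rw [Finset.mul_sum]
    _ ≤ highBound F := by
        rw [highBound]
        gcongr
        exact summable_inv_sq.sum_le_tsum _ (fun n _ => by positivity)

lemma highBound_nonneg : 0 ≤ highBound F := by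
  rw [highBound]
  have : 0 ≤ ∑' n : ℕ, ((n : ℝ) ^ 2)⁻¹ := tsum_nonneg fun n => by positivity
  positivity

/-- The primes of degree `≥ 2` contribute at most `highBound F`. -/
theorem tsum_highPrimes_le {s : ℝ} (hs : 1 < s) :
    ∑' 𝔭 : highPrimes F, normPow F s 𝔭.1.asIdeal ≤ highBound F := by
  classical
  have hsum : Summable (fun 𝔭 : highPrimes F => normPow F s 𝔭.1.asIdeal) :=
    (summable_primeSum F hs).subtype _
  refine hsum.tsum_le_of_sum_le fun T => ?_
  have := sum_highPrimes_le F hs.le (T.image Subtype.val) (by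
    intro 𝔭 h𝔭
    obtain ⟨x, -, rfl⟩ := Finset.mem_image.mp h𝔭
    exact x.2)
  rwa [Finset.sum_image (fun x _ y _ h => Subtype.ext h)] at this

/-- the primes of prime norm -/
def lowPrimes : Set (HeightOneSpectrum (𝓞 F)) := {𝔭 | (absNorm 𝔭.asIdeal).Prime}

/-- the norm map on primes of prime norm -/
def lowNorm (𝔭 : lowPrimes F) : Nat.Primes := ⟨absNorm 𝔭.1.asIdeal, 𝔭.2⟩

/-- the fibre of `lowNorm` is the set counted by `Spec.primeCount` -/
def fibreEquiv (p : Nat.Primes) :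
    {𝔭 : lowPrimes F // lowNorm F 𝔭 = p} ≃
      {𝔮 : Ideal (𝓞 F) // 𝔮.IsPrime ∧ Ideal.absNorm 𝔮 = (p : ℕ)} where
  toFun x := ⟨x.1.1.asIdeal, x.1.1.isPrime, congrArg Subtype.val x.2⟩
  invFun 𝔮 := ⟨⟨⟨𝔮.1, 𝔮.2.1, by
      rintro h
      have := 𝔮.2.2
      rw [h, Ideal.absNorm_bot] at this
      exact p.2.ne_zero this.symm⟩, by
      show (absNorm 𝔮.1).Prime
      rw [𝔮.2.2]; exact p.2⟩, Subtype.ext 𝔮.2.2⟩
  left_inv x := by
    apply Subtype.ext
    apply Subtype.ext
    apply HeightOneSpectrum.ext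
    rfl
  right_inv 𝔮 := by
    apply Subtype.ext
    rfl

end

noncomputable section Final

variable (F : Type) [Field F] [NumberField F]

lemma finite_fibre (p : Nat.Primes) : Finite {𝔭 : lowPrimes F // lowNorm F 𝔭 = p} := by
  have hfin : Finite {𝔮 : Ideal (𝓞 F) // 𝔮.IsPrime ∧ Ideal.absNorm 𝔮 = (p : ℕ)} :=
    ((Ideal.finite_setOfPred_absNorm_eq (S := 𝓞 F) (p : ℕ)).subset
      (fun 𝔮 h𝔮 => h𝔮.2)).to_subtype
  exact Finite.of_equiv _ (fibreEquiv F p).symm

lemma card_fibre (p : Nat.Primes) :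
    Nat.card {𝔭 : lowPrimes F // lowNorm F 𝔭 = p} = Spec.primeCount F p :=
  Nat.card_congr (fibreEquiv F p)

lemma tsum_fibre (s : ℝ) (p : Nat.Primes) :
    ∑' x : {𝔭 : lowPrimes F // lowNorm F 𝔭 = p}, normPow F s x.1.1.asIdeal =
      (Spec.primeCount F p : ℝ) * ((p : ℕ) : ℝ) ^ (-s) := by
  have := finite_fibre F p
  have : Fintype {𝔭 : lowPrimes F // lowNorm F 𝔭 = p} := Fintype.ofFinite _
  rw [tsum_fintype]
  have h : ∀ x : {𝔭 : lowPrimes F // lowNorm F 𝔭 = p},
      normPow F s x.1.1.asIdeal = ((p : ℕ) : ℝ) ^ (-s) := by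
    intro x
    have := congrArg Subtype.val x.2
    simp only [lowNorm] at this
    simp only [normPow, this]
  simp only [h, Finset.sum_const, Finset.card_univ, nsmul_eq_mul, ← card_fibre F p,
    Nat.card_eq_fintype_card]

/-- The sum over the primes of prime norm, indexed by the rational primes. -/
theorem tsum_lowPrimes_eq {s : ℝ} (hs : 1 < s) :
    ∑' 𝔭 : lowPrimes F, normPow F s 𝔭.1.asIdeal =
      ∑' p : Nat.Primes, (Spec.primeCount F p : ℝ) * ((p : ℕ) : ℝ) ^ (-s) := by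
  have hsum : Summable (fun 𝔭 : lowPrimes F => normPow F s 𝔭.1.asIdeal) :=
    (summable_primeSum F hs).subtype _
  have hsum' : Summable (fun y : Σ p : Nat.Primes, {𝔭 : lowPrimes F // lowNorm F 𝔭 = p} =>
      normPow F s y.2.1.1.asIdeal) :=
    ((Equiv.sigmaFiberEquiv (lowNorm F)).summable_iff
      (f := fun 𝔭 : lowPrimes F => normPow F s 𝔭.1.asIdeal)).mpr hsum
  calc ∑' 𝔭 : lowPrimes F, normPow F s 𝔭.1.asIdeal
      = ∑' y : Σ p : Nat.Primes, {𝔭 : lowPrimes F // lowNorm F 𝔭 = p},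
          normPow F s y.2.1.1.asIdeal :=
        ((Equiv.sigmaFiberEquiv (lowNorm F)).tsum_eq
          (fun 𝔭 : lowPrimes F => normPow F s 𝔭.1.asIdeal)).symm
    _ = ∑' p : Nat.Primes, ∑' x : {𝔭 : lowPrimes F // lowNorm F 𝔭 = p},
          normPow F s x.1.1.asIdeal := hsum'.tsum_sigma
    _ = _ := tsum_congr fun p => tsum_fibre F s p

/-- **Piece Z**: `Spec.PrimeSumStatement`. -/
theorem primeSum_statement : Spec.PrimeSumStatement := by
  intro F _ _
  obtain ⟨C, hC⟩ := exists_primeSum_bound F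
  refine ⟨C + highBound F, fun s hs1 hs2 => ?_⟩
  have h1 := hC s hs1 hs2
  have hsum := summable_primeSum F hs1
  have hsplit : primeSum F s =
      (∑' 𝔭 : lowPrimes F, normPow F s 𝔭.1.asIdeal) +
        ∑' 𝔭 : highPrimes F, normPow F s 𝔭.1.asIdeal := by
    have hc : highPrimes F = (lowPrimes F)ᶜ := rfl
    rw [primeSum, hc]
    exact ((hsum.subtype _).tsum_add_tsum_compl (hsum.subtype _)).symm
  have hhigh := tsum_highPrimes_le F hs1
  have hhigh0 : 0 ≤ ∑' 𝔭 : highPrimes F, normPow F s 𝔭.1.asIdeal :=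
    tsum_nonneg fun _ => normPow_nonneg F s _
  have hlog : Real.log (1 / (s - 1)) = -Real.log (s - 1) := by
    rw [one_div, Real.log_inv]
  rw [← tsum_lowPrimes_eq F hs1, hlog]
  rw [abs_le] at h1 ⊢
  rw [hsplit] at h1
  constructor <;> linarith [h1.1, h1.2]

end Final

end Fermat.Agent.Lib.Cheb.H761

end
-- ===== PACK-END Lib/Cheb/H761/PrimeSum.lean

-- ===== PACK-BEGIN Lib/Cheb/H221/CycAbs.lean
section




/-!
# CYC, the abstract Dirichlet argument (helper221)
-/

set_option autoImplicit false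

open Filter Topology

namespace Fermat.Agent.Lib.Cheb.H221

set_option linter.unusedSectionVars false

section chars

variable {m : ℕ} [NeZero m] (A : Subgroup (ZMod m)ˣ)

/-- `χ` is trivial on `A` -/
def TrivOn (χ : DirichletCharacter ℂ m) : Prop :=
  ∀ u ∈ A, χ ((u : (ZMod m)ˣ) : ZMod m) = 1

open Classical in
lemma sum_subgroup_eq_zero {χ : DirichletCharacter ℂ m} (hχ : ¬ TrivOn A χ) :
    ∑ u : A, χ ((u : (ZMod m)ˣ) : ZMod m) = 0 := by
  let f : A →* ℂ := χ.toMonoidHom.comp ((Units.coeHom (ZMod m)).comp A.subtype)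
  have hf : f ≠ 1 := by
    intro h
    apply hχ
    intro u hu
    have := DFunLike.congr_fun h ⟨u, hu⟩
    simpa [f] using this
  have := sum_hom_units_eq_zero f hf
  simpa [f] using this

open Classical in
lemma sum_subgroup_eq_card {χ : DirichletCharacter ℂ m} (hχ : TrivOn A χ) :
    ∑ u : A, χ ((u : (ZMod m)ˣ) : ZMod m) = (Nat.card A : ℂ) := by
  have : ∀ u : A, χ ((u : (ZMod m)ˣ) : ZMod m) = 1 := fun u => hχ u.1 u.2
  simp [this]

open Classical in
/-- the number of characters trivial on `A`, times `|A|`, is `φ(m)` -/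
lemma card_trivOn_mul :
    ((Finset.univ.filter (fun χ : DirichletCharacter ℂ m => TrivOn A χ)).card : ℂ) *
      (Nat.card A : ℂ) = (m.totient : ℂ) := by
  have h1 : ∑ χ : DirichletCharacter ℂ m, ∑ u : A, χ ((u : (ZMod m)ˣ) : ZMod m) =
      ((Finset.univ.filter (fun χ : DirichletCharacter ℂ m => TrivOn A χ)).card : ℂ) *
        (Nat.card A : ℂ) := by
    have : ∀ χ : DirichletCharacter ℂ m, ∑ u : A, χ ((u : (ZMod m)ˣ) : ZMod m) =
        if TrivOn A χ then (Nat.card A : ℂ) else 0 := by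
      intro χ
      split_ifs with h
      · exact sum_subgroup_eq_card A h
      · exact sum_subgroup_eq_zero A h
    simp only [this]
    rw [← Finset.sum_filter, Finset.sum_const, nsmul_eq_mul]
  have h2 : ∑ χ : DirichletCharacter ℂ m, ∑ u : A, χ ((u : (ZMod m)ˣ) : ZMod m) =
      (m.totient : ℂ) := by
    rw [Finset.sum_comm]
    have : ∀ u : A, ∑ χ : DirichletCharacter ℂ m, χ ((u : (ZMod m)ˣ) : ZMod m) =
        if (u : A) = 1 then (m.totient : ℂ) else 0 := by
      intro u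
      rw [DirichletCharacter.sum_characters_eq]
      congr 1
      rw [eq_iff_iff]
      constructor
      · intro h
        ext
        simpa using h
      · intro h
        rw [h]
        simp
    simp only [this]
    simp
  rw [← h1, h2]

end chars

section analysis

variable {m : ℕ} [NeZero m] (c : Nat.Primes → ℝ)

/-- the weights `c(p) p^(-s)` -/
noncomputable def wt (s : ℝ) (p : Nat.Primes) : ℝ := c p * ((p : ℕ) : ℝ) ^ (-s)

lemma wt_nonneg (hc : ∀ p, 0 ≤ c p) (s : ℝ) (p : Nat.Primes) : 0 ≤ wt c s p :=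
  mul_nonneg (hc p) (Real.rpow_nonneg (Nat.cast_nonneg _) _)

lemma wt_le (hc : ∀ p, 0 ≤ c p) {s : ℝ} (hs : 0 ≤ s) (p : Nat.Primes) : wt c s p ≤ c p := by
  unfold wt
  have : (((p : ℕ) : ℝ)) ^ (-s) ≤ 1 :=
    Real.rpow_le_one_of_one_le_of_nonpos (by exact_mod_cast p.2.one_le) (by linarith)
  exact mul_le_of_le_one_right (hc p) this

/-- the twisted sums -/
noncomputable def Tsum (χ : DirichletCharacter ℂ m) (s : ℝ) : ℂ :=
  ∑' p : Nat.Primes, χ ((p : ℕ) : ZMod m) * ((wt c s p : ℝ) : ℂ)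

/-- the sums over a residue class -/
noncomputable def Dsum (b : ZMod m) (s : ℝ) : ℝ :=
  ∑' p : Nat.Primes, if ((p : ℕ) : ZMod m) = b then wt c s p else 0

variable (hc : ∀ p, 0 ≤ c p)
include hc

lemma summable_char_wt {s : ℝ} (hsum : Summable (wt c s)) (χ : DirichletCharacter ℂ m) :
    Summable (fun p : Nat.Primes => χ ((p : ℕ) : ZMod m) * ((wt c s p : ℝ) : ℂ)) := by
  refine Summable.of_norm_bounded hsum (fun p => ?_)
  rw [norm_mul, Complex.norm_real, Real.norm_of_nonneg (wt_nonneg c hc s p)]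
  calc ‖χ ((p : ℕ) : ZMod m)‖ * wt c s p ≤ 1 * wt c s p :=
        mul_le_mul_of_nonneg_right (DirichletCharacter.norm_le_one χ _) (wt_nonneg c hc s p)
    _ = _ := one_mul _

lemma sum_coeff_Tsum {s : ℝ} (hsum : Summable (wt c s)) (κ : DirichletCharacter ℂ m → ℂ) :
    ∑ χ, κ χ * Tsum c χ s =
      ∑' p : Nat.Primes, (∑ χ, κ χ * χ ((p : ℕ) : ZMod m)) * ((wt c s p : ℝ) : ℂ) := by
  unfold Tsum
  simp_rw [← tsum_mul_left]
  rw [← Summable.tsum_finsetSum (fun χ _ => (summable_char_wt c hc hsum χ).mul_left (κ χ))]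
  refine tsum_congr fun p => ?_
  rw [Finset.sum_mul]
  refine Finset.sum_congr rfl fun χ _ => ?_
  ring

lemma sum_inv_Tsum {s : ℝ} (hsum : Summable (wt c s)) {a : ZMod m} (ha : IsUnit a) :
    ∑ χ : DirichletCharacter ℂ m, χ a⁻¹ * Tsum c χ s =
      (m.totient : ℂ) * ((Dsum c a s : ℝ) : ℂ) := by
  rw [sum_coeff_Tsum c hc hsum]
  simp_rw [DirichletCharacter.sum_char_inv_mul_char_eq ℂ ha]
  unfold Dsum
  rw [Complex.ofReal_tsum, ← tsum_mul_left]
  refine tsum_congr fun p => ?_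
  by_cases h : ((p : ℕ) : ZMod m) = a
  · rw [if_pos h.symm, if_pos h]
  · rw [if_neg (fun h' => h h'.symm), if_neg h]
    simp

lemma sum_Tsum {s : ℝ} (hsum : Summable (wt c s)) :
    ∑ χ : DirichletCharacter ℂ m, Tsum c χ s =
      (m.totient : ℂ) * ((Dsum c (1 : ZMod m) s : ℝ) : ℂ) := by
  have := sum_inv_Tsum (m := m) c hc hsum (a := 1) isUnit_one
  simpa using this

/-- the primes in a finite set of naturals -/
noncomputable def primesIn (B : Finset ℕ) : Finset Nat.Primes := by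
  classical
  exact (Finset.subtype Nat.Prime B : Finset {n : ℕ // n.Prime})

omit hc in
lemma mem_primesIn {B : Finset ℕ} {p : Nat.Primes} : p ∈ primesIn B ↔ (p : ℕ) ∈ B := by
  classical
  unfold primesIn
  exact Finset.mem_subtype

lemma norm_Tsum_sub_le (A : Subgroup (ZMod m)ˣ) {B : Finset ℕ}
    (hB : ∀ p : Nat.Primes, (p : ℕ) ∉ B → c p ≠ 0 →
      ∃ u ∈ A, ((u : (ZMod m)ˣ) : ZMod m) = ((p : ℕ) : ZMod m))
    {χ : DirichletCharacter ℂ m} (hχ : TrivOn A χ) {s : ℝ} (hs : 0 ≤ s)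
    (hsum : Summable (wt c s)) :
    ‖Tsum c χ s - ((∑' p, wt c s p : ℝ) : ℂ)‖ ≤ ∑ p ∈ primesIn B, 2 * c p := by
  unfold Tsum
  rw [Complex.ofReal_tsum, ← (summable_char_wt c hc hsum χ).tsum_sub
    (Complex.summable_ofReal.mpr hsum)]
  have h0 : ∀ p : Nat.Primes, p ∉ primesIn B →
      χ ((p : ℕ) : ZMod m) * ((wt c s p : ℝ) : ℂ) - ((wt c s p : ℝ) : ℂ) = 0 := by
    intro p hp
    rw [mem_primesIn] at hp
    by_cases hcp : c p = 0
    · simp [wt, hcp]
    · obtain ⟨u, hu, hup⟩ := hB p hp hcp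
      rw [← hup, hχ u hu, one_mul, sub_self]
  rw [tsum_eq_sum h0]
  refine (norm_sum_le _ _).trans (Finset.sum_le_sum fun p _ => ?_)
  have h1 : ‖χ ((p : ℕ) : ZMod m) * ((wt c s p : ℝ) : ℂ)‖ ≤ wt c s p := by
    rw [norm_mul, Complex.norm_real, Real.norm_of_nonneg (wt_nonneg c hc s p)]
    calc ‖χ ((p : ℕ) : ZMod m)‖ * wt c s p ≤ 1 * wt c s p :=
          mul_le_mul_of_nonneg_right (DirichletCharacter.norm_le_one χ _) (wt_nonneg c hc s p)
      _ = _ := one_mul _
  have h2 : ‖((wt c s p : ℝ) : ℂ)‖ = wt c s p := by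
    rw [Complex.norm_real, Real.norm_of_nonneg (wt_nonneg c hc s p)]
  calc ‖χ ((p : ℕ) : ZMod m) * ((wt c s p : ℝ) : ℂ) - ((wt c s p : ℝ) : ℂ)‖
      ≤ ‖χ ((p : ℕ) : ZMod m) * ((wt c s p : ℝ) : ℂ)‖ + ‖((wt c s p : ℝ) : ℂ)‖ := norm_sub_le _ _
    _ ≤ wt c s p + wt c s p := by rw [h2]; linarith
    _ ≤ 2 * c p := by linarith [wt_le c hc hs p]

lemma Dsum_le_of_forall {a : ZMod m} {S : Finset ℕ}
    (hS : ∀ p : Nat.Primes, (p : ℕ) ∉ S → ((p : ℕ) : ZMod m) = a → c p = 0)
    {s : ℝ} (hs : 0 ≤ s) : Dsum c a s ≤ ∑ p ∈ primesIn S, c p := by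
  unfold Dsum
  have h0 : ∀ p : Nat.Primes, p ∉ primesIn S →
      (if ((p : ℕ) : ZMod m) = a then wt c s p else 0) = 0 := by
    intro p hp
    rw [mem_primesIn] at hp
    split_ifs with h
    · simp [wt, hS p hp h]
    · rfl
  rw [tsum_eq_sum h0]
  refine Finset.sum_le_sum fun p _ => ?_
  split_ifs
  · exact wt_le c hc hs p
  · exact hc p

end analysis

lemma tendsto_log_one_div_sub :
    Tendsto (fun s : ℝ => Real.log (1 / (s - 1))) (𝓝[>] (1 : ℝ)) atTop := by
  have h1 : Tendsto (fun s : ℝ => s - 1) (𝓝[>] (1 : ℝ)) (𝓝[>] (0 : ℝ)) := by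
    refine tendsto_nhdsWithin_of_tendsto_nhds_of_eventually_within _ ?_ ?_
    · have : Tendsto (fun s : ℝ => s - 1) (𝓝 (1 : ℝ)) (𝓝 (1 - 1)) :=
        (continuous_id.sub continuous_const).tendsto 1
      simpa using this.mono_left nhdsWithin_le_nhds
    · filter_upwards [self_mem_nhdsWithin] with s hs
      have hs' : (1 : ℝ) < s := hs
      exact Set.mem_Ioi.mpr (sub_pos.mpr hs')
  have h2 := tendsto_inv_nhdsGT_zero.comp h1
  have h3 := Real.tendsto_log_atTop.comp h2
  refine h3.congr fun s => ?_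
  simp [one_div]

theorem abstractDirichlet : AbstractDirichletStatement := by
  intro m _ c hc hsum A hsupp htot hone hχ a ha S
  classical
  obtain ⟨B, hB⟩ := hsupp
  obtain ⟨C0, hC0⟩ := htot
  obtain ⟨C1, hC1⟩ := hone
  by_contra hcon
  push Not at hcon
  have hcon' : ∀ p : Nat.Primes, (p : ℕ) ∉ S →
      ((p : ℕ) : ZMod m) = ((a : (ZMod m)ˣ) : ZMod m) → c p = 0 := fun p hp hpa => hcon p hp hpa
  have hF : ∀ᶠ s in 𝓝[>] (1 : ℝ), 1 < s ∧ s ≤ 2 := by
    have : Set.Ioc (1 : ℝ) 2 ∈ 𝓝[>] (1 : ℝ) := Ioc_mem_nhdsGT (by norm_num)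
    filter_upwards [this] with s hs using hs
  have hsw : ∀ s : ℝ, 1 < s → s ≤ 2 → Summable (wt c s) := hsum
  set Tr := Finset.univ.filter (fun χ : DirichletCharacter ℂ m => TrivOn A χ) with hTrdef
  set Nt := Finset.univ.filter (fun χ : DirichletCharacter ℂ m => ¬ TrivOn A χ) with hNtdef
  have hk := card_trivOn_mul A
  have hkR : (Tr.card : ℝ) * (Nat.card A : ℝ) = (m.totient : ℝ) := by exact_mod_cast hk
  have hApos : (0 : ℝ) < Nat.card A := by exact_mod_cast Nat.card_pos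
  have hφpos : (0 : ℝ) < m.totient := by exact_mod_cast Nat.totient_pos.mpr (NeZero.pos m)
  have hk0 : (0 : ℝ) ≤ Tr.card := Nat.cast_nonneg _
  have hkpos : (0 : ℝ) < Tr.card := by
    rcases hk0.eq_or_lt with h | h
    · rw [← h, zero_mul] at hkR
      linarith
    · exact h
  have hdata : ∀ χ : DirichletCharacter ℂ m, ¬ TrivOn A χ →
      ∃ (Λ : ℝ → ℂ) (ℓ : ℂ) (C : ℝ), ContinuousOn Λ (Set.Ioi 1) ∧
        Tendsto (fun s => Complex.exp (Λ s)) (𝓝[>] (1 : ℝ)) (𝓝 ℓ) ∧
        ∀ s : ℝ, 1 < s → s ≤ 2 → ‖Λ s - Tsum c χ s‖ ≤ C := by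
    intro χ hχn
    apply hχ χ
    unfold TrivOn at hχn
    push Not at hχn
    exact hχn
  choose! Λ ℓ C hΛc hΛt hΛb using hdata
  have hNt : ∀ χ ∈ Nt, ¬ TrivOn A χ := fun χ h => (Finset.mem_filter.mp h).2
  set CB := ∑ p ∈ primesIn B, 2 * c p with hCBdef
  have hTr : ∀ χ ∈ Tr, ∀ s : ℝ, 1 < s → s ≤ 2 →
      ‖Tsum c χ s - ((∑' p, wt c s p : ℝ) : ℂ)‖ ≤ CB := fun χ hχ s h1 h2 =>
    norm_Tsum_sub_le c hc A hB (Finset.mem_filter.mp hχ).2 (by linarith) (hsw s h1 h2)
  have hsplit : ∀ f : DirichletCharacter ℂ m → ℂ,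
      ∑ χ, f χ = ∑ χ ∈ Tr, f χ + ∑ χ ∈ Nt, f χ := fun f =>
    (Finset.sum_filter_add_sum_filter_not _ _ _).symm
  have hlgnn : ∀ s : ℝ, 1 < s → s ≤ 2 → 0 ≤ Real.log (1 / (s - 1)) := by
    intro s h1 h2
    apply Real.log_nonneg
    rw [le_div_iff₀ (by linarith)]
    linarith
  have hTrre : ∀ χ ∈ Tr, ∀ s : ℝ, 1 < s → s ≤ 2 →
      |(Tsum c χ s).re - ∑' p, wt c s p| ≤ CB := by
    intro χ hχ s h1 h2
    have h3 := (Complex.abs_re_le_norm _).trans (hTr χ hχ s h1 h2)
    simpa using h3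
  -- Step 1: lower bound for the nontrivial characters
  have hlow : ∀ s : ℝ, 1 < s → s ≤ 2 →
      -((m.totient : ℝ) * C1 + Tr.card * (C0 + CB)) ≤ ∑ χ ∈ Nt, (Tsum c χ s).re := by
    intro s h1 h2
    have hS := sum_Tsum (m := m) c hc (hsw s h1 h2)
    rw [hsplit] at hS
    have hre := congrArg Complex.re hS
    simp only [Complex.add_re, Complex.re_sum, Complex.mul_re, Complex.natCast_re,
      Complex.natCast_im, Complex.ofReal_re, Complex.ofReal_im, zero_mul, sub_zero] at hre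
    have hD1 : (Nat.card A : ℝ)⁻¹ * Real.log (1 / (s - 1)) - C1 ≤ Dsum c (1 : ZMod m) s :=
      hC1 s h1 h2
    have hW : |(∑' p, wt c s p) - Real.log (1 / (s - 1))| ≤ C0 := hC0 s h1 h2
    rw [abs_le] at hW
    have hsumTr : ∑ χ ∈ Tr, (Tsum c χ s).re ≤ Tr.card * ((∑' p, wt c s p) + CB) := by
      calc ∑ χ ∈ Tr, (Tsum c χ s).re ≤ ∑ χ ∈ Tr, ((∑' p, wt c s p) + CB) :=
            Finset.sum_le_sum fun χ hχ => by
              have := hTrre χ hχ s h1 h2
              rw [abs_le] at this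
              linarith [this.2]
        _ = _ := by rw [Finset.sum_const, nsmul_eq_mul]
    have hlg := hlgnn s h1 h2
    have e1 : (m.totient : ℝ) * ((Nat.card A : ℝ)⁻¹ * Real.log (1 / (s - 1))) =
        Tr.card * Real.log (1 / (s - 1)) := by
      rw [← hkR]
      field_simp
    have e2 : (m.totient : ℝ) * ((Nat.card A : ℝ)⁻¹ * Real.log (1 / (s - 1)) - C1) ≤
        (m.totient : ℝ) * Dsum c (1 : ZMod m) s :=
      mul_le_mul_of_nonneg_left hD1 hφpos.le
    have e3 : (Tr.card : ℝ) * ((∑' p, wt c s p) + CB) ≤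
        Tr.card * (Real.log (1 / (s - 1)) + C0 + CB) :=
      mul_le_mul_of_nonneg_left (by linarith [hW.2]) hk0
    linarith
  -- Step 2: nonvanishing of the limits
  set K2 := (m.totient : ℝ) * C1 + Tr.card * (C0 + CB) + ∑ χ ∈ Nt, C χ with hK2
  have hexp : ∀ s : ℝ, 1 < s → s ≤ 2 →
      Real.exp (-K2) ≤ ∏ χ ∈ Nt, ‖Complex.exp (Λ χ s)‖ := by
    intro s h1 h2
    simp only [Complex.norm_exp]
    rw [← Real.exp_sum]
    apply Real.exp_le_exp.mpr
    have h3 : ∑ χ ∈ Nt, ((Tsum c χ s).re - C χ) ≤ ∑ χ ∈ Nt, (Λ χ s).re := by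
      refine Finset.sum_le_sum fun χ hχ => ?_
      have h4 := (Complex.abs_re_le_norm _).trans (hΛb χ (hNt χ hχ) s h1 h2)
      rw [Complex.sub_re, abs_le] at h4
      linarith [h4.1]
    rw [Finset.sum_sub_distrib] at h3
    linarith [hlow s h1 h2]
  have hlim : Tendsto (fun s => ∏ χ ∈ Nt, ‖Complex.exp (Λ χ s)‖) (𝓝[>] (1 : ℝ))
      (𝓝 (∏ χ ∈ Nt, ‖ℓ χ‖)) :=
    tendsto_finsetProd _ fun χ hχ => (hΛt χ (hNt χ hχ)).norm
  have hprod : Real.exp (-K2) ≤ ∏ χ ∈ Nt, ‖ℓ χ‖ :=
    ge_of_tendsto hlim (hF.mono fun s hs => hexp s hs.1 hs.2)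
  have hℓ : ∀ χ ∈ Nt, ℓ χ ≠ 0 := by
    intro χ hχ h0
    have : ∏ χ ∈ Nt, ‖ℓ χ‖ = 0 := Finset.prod_eq_zero hχ (by simp [h0])
    linarith [Real.exp_pos (-K2)]
  -- Step 3: the logarithms are bounded
  have hbd : ∀ χ ∈ Nt, ∃ Bχ : ℝ, ∀ᶠ s in 𝓝[>] (1 : ℝ), ‖Λ χ s‖ ≤ Bχ := fun χ hχ =>
    exists_bound_of_exp_tendsto (hΛc χ (hNt χ hχ)) (hℓ χ hχ) (hΛt χ (hNt χ hχ))
  choose! Bd hBd using hbd
  have hev : ∀ᶠ s in 𝓝[>] (1 : ℝ), ∀ χ ∈ Nt, ‖Λ χ s‖ ≤ Bd χ :=
    (Filter.eventually_all_finset Nt).mpr hBd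
  -- Step 4: the class of `a`
  set a' : ZMod m := ((a : (ZMod m)ˣ) : ZMod m) with ha'
  have hau : IsUnit a' := a.isUnit
  have hainv : a'⁻¹ = (((a⁻¹ : (ZMod m)ˣ) : (ZMod m)ˣ) : ZMod m) := by
    rw [ha', ZMod.inv_coe_unit]
  set K4 := (m.totient : ℝ) * (∑ p ∈ primesIn S, c p) + Tr.card * (C0 + CB) +
    ∑ χ ∈ Nt, (Bd χ + C χ) with hK4
  have hfinal : ∀ᶠ s in 𝓝[>] (1 : ℝ), (Tr.card : ℝ) * Real.log (1 / (s - 1)) ≤ K4 := by
    filter_upwards [hF, hev] with s hs hsev
    obtain ⟨h1, h2⟩ := hs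
    have hS := sum_inv_Tsum (m := m) c hc (hsw s h1 h2) hau
    rw [hsplit] at hS
    have hre := congrArg Complex.re hS
    simp only [Complex.add_re, Complex.re_sum] at hre
    rw [Complex.mul_re] at hre
    simp only [Complex.natCast_re, Complex.natCast_im, Complex.ofReal_re, Complex.ofReal_im,
      zero_mul, sub_zero] at hre
    have hW : |(∑' p, wt c s p) - Real.log (1 / (s - 1))| ≤ C0 := hC0 s h1 h2
    rw [abs_le] at hW
    have hDle : Dsum c a' s ≤ ∑ p ∈ primesIn S, c p :=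
      Dsum_le_of_forall c hc hcon' (by linarith)
    -- trivial characters
    have hT1 : (Tr.card : ℝ) * (Real.log (1 / (s - 1)) - C0 - CB) ≤
        ∑ χ ∈ Tr, (χ a'⁻¹ * Tsum c χ s).re := by
      calc (Tr.card : ℝ) * (Real.log (1 / (s - 1)) - C0 - CB)
          = ∑ χ ∈ Tr, (Real.log (1 / (s - 1)) - C0 - CB) := by
            rw [Finset.sum_const, nsmul_eq_mul]
        _ ≤ _ := Finset.sum_le_sum fun χ hχ => by
            have hχ1 : χ a'⁻¹ = 1 := by
              rw [hainv]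
              exact (Finset.mem_filter.mp hχ).2 _ (Subgroup.inv_mem A ha)
            rw [hχ1, one_mul]
            have := hTrre χ hχ s h1 h2
            rw [abs_le] at this
            linarith [this.1, hW.1]
    -- nontrivial characters
    have hT2 : -∑ χ ∈ Nt, (Bd χ + C χ) ≤ ∑ χ ∈ Nt, (χ a'⁻¹ * Tsum c χ s).re := by
      rw [← Finset.sum_neg_distrib]
      refine Finset.sum_le_sum fun χ hχ => ?_
      have h3 : ‖χ a'⁻¹ * Tsum c χ s‖ ≤ Bd χ + C χ := by
        rw [norm_mul]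
        have h4 : ‖Tsum c χ s‖ ≤ Bd χ + C χ := by
          have h5 := hΛb χ (hNt χ hχ) s h1 h2
          have h6 := hsev χ hχ
          calc ‖Tsum c χ s‖ = ‖Λ χ s - (Λ χ s - Tsum c χ s)‖ := by rw [sub_sub_cancel]
            _ ≤ ‖Λ χ s‖ + ‖Λ χ s - Tsum c χ s‖ := norm_sub_le _ _
            _ ≤ _ := by linarith
        calc ‖χ a'⁻¹‖ * ‖Tsum c χ s‖ ≤ 1 * ‖Tsum c χ s‖ :=
              mul_le_mul_of_nonneg_right (DirichletCharacter.norm_le_one χ _) (norm_nonneg _)
          _ ≤ _ := by rw [one_mul]; exact h4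
      have h7 := (Complex.abs_re_le_norm _).trans h3
      rw [abs_le] at h7
      linarith [h7.1]
    have hφD : (m.totient : ℝ) * Dsum c a' s ≤ (m.totient : ℝ) * ∑ p ∈ primesIn S, c p :=
      mul_le_mul_of_nonneg_left hDle hφpos.le
    have e4 : (Tr.card : ℝ) * (Real.log (1 / (s - 1)) - C0 - CB) =
        Tr.card * Real.log (1 / (s - 1)) - Tr.card * (C0 + CB) := by ring
    linarith
  have hgt := tendsto_log_one_div_sub.eventually_gt_atTop (K4 / Tr.card)
  obtain ⟨s, hs1, hs2⟩ := (hfinal.and hgt).exists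
  rw [div_lt_iff₀ hkpos] at hs2
  linarith

end Fermat.Agent.Lib.Cheb.H221

end
-- ===== PACK-END Lib/Cheb/H221/CycAbs.lean

-- ===== PACK-BEGIN Lib/Cheb/H941/DirichletLimitBridge.lean
section



/-!
# Bridge for the analytic core (AN) of CHEB (helper941)

`Spec.DirichletLimitStatement` is phrased with Mathlib's `LSeries` of the arithmetic function
`n ↦ χ n * idealCount F n`.  The analytic work (tent method) naturally produces statements about
the ideal-indexed series

  `idealL K χ s = ∑' I : (Ideal (𝓞 K))⁰, χ (N I) * N(I) ^ (-s)`   (real `s > 1`).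

This file proves that the two agree for real `s > 1` and deduces `Spec.DirichletLimitStatement`
from the existence of a limit (or of a continuous extension to `[1, 2]`) of `idealL`.
-/

set_option autoImplicit false

open NumberField Ideal Filter Topology
open scoped nonZeroDivisors

namespace Fermat.Agent.Lib.Cheb.H941

noncomputable section

variable (K : Type*) [Field K] [NumberField K]

/-- The ideal-indexed norm-twisted `L`-series, for a real argument. -/
def idealL {m : ℕ} (χ : DirichletCharacter ℂ m) (s : ℝ) : ℂ :=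
  ∑' I : (Ideal (𝓞 K))⁰, χ ((absNorm (I : Ideal (𝓞 K)) : ℕ) : ZMod m) *
    (((absNorm (I : Ideal (𝓞 K)) : ℝ) ^ (-s) : ℝ) : ℂ)

/-- The summand, extended to all ideals (it vanishes at the zero ideal). -/
def idealTerm {m : ℕ} (χ : DirichletCharacter ℂ m) (s : ℝ) (I : Ideal (𝓞 K)) : ℂ :=
  χ ((absNorm I : ℕ) : ZMod m) * (((absNorm I : ℝ) ^ (-s) : ℝ) : ℂ)

lemma norm_idealTerm_le {m : ℕ} (χ : DirichletCharacter ℂ m) (s : ℝ) (I : Ideal (𝓞 K)) :
    ‖idealTerm K χ s I‖ ≤ H761.normPow K s I := by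
  unfold idealTerm H761.normPow
  rw [norm_mul, Complex.norm_real, Real.norm_of_nonneg (Real.rpow_nonneg (Nat.cast_nonneg _) _)]
  calc ‖χ ((absNorm I : ℕ) : ZMod m)‖ * (absNorm I : ℝ) ^ (-s)
      ≤ 1 * (absNorm I : ℝ) ^ (-s) :=
        mul_le_mul_of_nonneg_right (DirichletCharacter.norm_le_one χ _)
          (Real.rpow_nonneg (Nat.cast_nonneg _) _)
    _ = (absNorm I : ℝ) ^ (-s) := one_mul _

lemma summable_idealTerm {m : ℕ} (χ : DirichletCharacter ℂ m) {s : ℝ} (hs : 1 < s) :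
    Summable (idealTerm K χ s) :=
  Summable.of_norm_bounded (H761.summable_normPow K hs) (norm_idealTerm_le K χ s)

lemma idealTerm_bot {m : ℕ} (χ : DirichletCharacter ℂ m) {s : ℝ} (hs : s ≠ 0) :
    idealTerm K χ s ⊥ = 0 := by
  unfold idealTerm
  simp [Real.zero_rpow (neg_ne_zero.mpr hs)]

/-- `idealL` as a sum over all ideals. -/
lemma idealL_eq_tsum {m : ℕ} (χ : DirichletCharacter ℂ m) {s : ℝ} (hs : s ≠ 0) :
    idealL K χ s = ∑' I : Ideal (𝓞 K), idealTerm K χ s I := by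
  unfold idealL
  have h1 : ∑' I : (Ideal (𝓞 K))⁰, χ ((absNorm (I : Ideal (𝓞 K)) : ℕ) : ZMod m) *
      (((absNorm (I : Ideal (𝓞 K)) : ℝ) ^ (-s) : ℝ) : ℂ)
      = ∑' I : ((Ideal (𝓞 K))⁰ : Set (Ideal (𝓞 K))), idealTerm K χ s I := rfl
  rw [h1, tsum_subtype]
  refine tsum_congr fun I => ?_
  by_cases hI : I ∈ ((Ideal (𝓞 K))⁰ : Set (Ideal (𝓞 K)))
  · rw [Set.indicator_of_mem hI]
  · rw [Set.indicator_of_notMem hI]
    have hI' : I = ⊥ := by
      by_contra hne
      exact hI (mem_nonZeroDivisors_iff_ne_zero.mpr hne)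
    rw [hI', idealTerm_bot K χ hs]

/-- The sum of the summands over the ideals of norm `n`. -/
lemma tsum_fiber_idealTerm {m : ℕ} (χ : DirichletCharacter ℂ m) (s : ℝ) (n : ℕ) :
    ∑' I : {I : Ideal (𝓞 K) // absNorm I = n}, idealTerm K χ s I.1 =
      χ ((n : ℕ) : ZMod m) * ((Nat.card {I : Ideal (𝓞 K) // absNorm I = n} : ℂ) *
        (((n : ℝ) ^ (-s) : ℝ) : ℂ)) := by
  have hfin : Finite {I : Ideal (𝓞 K) // absNorm I = n} :=
    (Ideal.finite_setOfPred_absNorm_eq n).to_subtype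
  have : Fintype {I : Ideal (𝓞 K) // absNorm I = n} := Fintype.ofFinite _
  rw [tsum_fintype]
  have h : ∀ I : {I : Ideal (𝓞 K) // absNorm I = n},
      idealTerm K χ s I.1 = χ ((n : ℕ) : ZMod m) * (((n : ℝ) ^ (-s) : ℝ) : ℂ) := by
    intro I
    simp only [idealTerm, I.2]
  simp only [h, Finset.sum_const, Finset.card_univ, nsmul_eq_mul, Nat.card_eq_fintype_card]
  ring

/-- `idealL` as a sum over the norms. -/
lemma idealL_eq_tsum_nat {m : ℕ} (χ : DirichletCharacter ℂ m) {s : ℝ} (hs : 1 < s) :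
    idealL K χ s = ∑' n : ℕ, χ ((n : ℕ) : ZMod m) *
      ((Nat.card {I : Ideal (𝓞 K) // absNorm I = n} : ℂ) * (((n : ℝ) ^ (-s) : ℝ) : ℂ)) := by
  have hsum := summable_idealTerm K χ hs
  have hsum' : Summable (fun x : Σ n : ℕ, {I : Ideal (𝓞 K) // absNorm I = n} =>
      idealTerm K χ s x.2.1) :=
    ((Equiv.sigmaFiberEquiv (fun I : Ideal (𝓞 K) => absNorm I)).summable_iff
      (f := idealTerm K χ s)).mpr hsum
  calc idealL K χ s
      = ∑' I : Ideal (𝓞 K), idealTerm K χ s I := idealL_eq_tsum K χ (by linarith)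
    _ = ∑' x : Σ n : ℕ, {I : Ideal (𝓞 K) // absNorm I = n}, idealTerm K χ s x.2.1 :=
        ((Equiv.sigmaFiberEquiv (fun I : Ideal (𝓞 K) => absNorm I)).tsum_eq
          (idealTerm K χ s)).symm
    _ = ∑' n : ℕ, ∑' I : {I : Ideal (𝓞 K) // absNorm I = n}, idealTerm K χ s I.1 :=
        hsum'.tsum_sigma
    _ = _ := tsum_congr fun n => tsum_fiber_idealTerm K χ s n

/-- The `LSeries` of `n ↦ χ n * idealCount n` at a real `s > 1` is `idealL`. -/
theorem lseries_eq_idealL {m : ℕ} (χ : DirichletCharacter ℂ m) {s : ℝ} (hs : 1 < s) :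
    LSeries (fun n => χ (n : ZMod m) *
      (Nat.card {I : Ideal (𝓞 K) // absNorm I = n} : ℂ)) (s : ℂ) = idealL K χ s := by
  rw [idealL_eq_tsum_nat K χ hs, LSeries]
  refine tsum_congr fun n => ?_
  rcases eq_or_ne n 0 with rfl | hn
  · have : (0 : ℝ) ^ (-s) = 0 := Real.zero_rpow (by linarith)
    simp [this]
  · rw [LSeries.term_of_ne_zero hn, Complex.ofReal_cpow (Nat.cast_nonneg n), Complex.ofReal_neg,
      Complex.cpow_neg]
    simp only [Complex.ofReal_natCast]
    rw [div_eq_mul_inv]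
    ring

/-- A function agreeing on `(1, 2]` with a function continuous on `[1, 2]` has a limit at `1⁺`. -/
theorem tendsto_of_continuousOn_Icc {f G : ℝ → ℂ} (hG : ContinuousOn G (Set.Icc 1 2))
    (hfG : ∀ s : ℝ, 1 < s → s ≤ 2 → G s = f s) :
    Tendsto f (𝓝[>] 1) (𝓝 (G 1)) := by
  have h1 : Tendsto G (𝓝[Set.Icc 1 2] 1) (𝓝 (G 1)) := hG 1 ⟨le_rfl, by norm_num⟩
  have h2 : 𝓝[Set.Ioc 1 2] (1:ℝ) = 𝓝[>] 1 := nhdsWithin_Ioc_eq_nhdsGT (by norm_num)
  have h3 : Tendsto G (𝓝[Set.Ioc 1 2] 1) (𝓝 (G 1)) :=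
    h1.mono_left (nhdsWithin_mono _ Set.Ioc_subset_Icc_self)
  rw [h2] at h3
  refine h3.congr' ?_
  have hev : ∀ᶠ s in 𝓝[>] (1:ℝ), s ≤ 2 :=
    mem_nhdsWithin_of_mem_nhds (Iic_mem_nhds (by norm_num))
  filter_upwards [self_mem_nhdsWithin, hev] with s hs hs2
  exact hfG s hs hs2

end

/-- **AN in the frozen `Spec` shape**, from the ideal-indexed statement. -/
theorem dirichletLimit_of_tendsto_idealL
    (h : ∀ (F : Type) [Field F] [NumberField F] (m : ℕ) [NeZero m] (χ : DirichletCharacter ℂ m)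
      (I₀ : (Ideal (𝓞 F))⁰),
      χ ((absNorm (I₀ : Ideal (𝓞 F)) : ℕ) : ZMod m) ≠ 0 →
      χ ((absNorm (I₀ : Ideal (𝓞 F)) : ℕ) : ZMod m) ≠ 1 →
      ∃ c : ℂ, Tendsto (fun s : ℝ => idealL F χ s) (𝓝[>] 1) (𝓝 c)) :
    Spec.DirichletLimitStatement := by
  intro F _ _ m _ χ hI
  obtain ⟨I, hI0, hI1⟩ := hI
  have hIne : I ≠ ⊥ := by
    rintro rfl
    rw [Ideal.absNorm_bot] at hI0 hI1
    by_cases hm : m = 1
    · subst hm
      apply hI1
      have : ((0 : ℕ) : ZMod 1) = 1 := Subsingleton.elim _ _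
      rw [this, _root_.map_one]
    · apply hI0
      have hnu : ¬ IsUnit (((0 : ℕ) : ZMod m)) := by
        have : Fact (1 < m) := ⟨by
          have := NeZero.ne m
          omega⟩
        simp
      exact χ.map_nonunit hnu
  obtain ⟨c, hc⟩ := h F m χ ⟨I, mem_nonZeroDivisors_iff_ne_zero.mpr hIne⟩ hI0 hI1
  refine ⟨c, hc.congr' ?_⟩
  filter_upwards [self_mem_nhdsWithin] with s hs
  have hs1 : (1:ℝ) < s := hs
  exact (lseries_eq_idealL F χ hs1).symm

/-- **AN in the frozen `Spec` shape**, from a continuous extension to `[1, 2]`. -/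
theorem dirichletLimit_of_continuousOn
    (h : ∀ (F : Type) [Field F] [NumberField F] (m : ℕ) [NeZero m] (χ : DirichletCharacter ℂ m)
      (I₀ : (Ideal (𝓞 F))⁰),
      χ ((absNorm (I₀ : Ideal (𝓞 F)) : ℕ) : ZMod m) ≠ 0 →
      χ ((absNorm (I₀ : Ideal (𝓞 F)) : ℕ) : ZMod m) ≠ 1 →
      ∃ G : ℝ → ℂ, ContinuousOn G (Set.Icc 1 2) ∧
        ∀ s : ℝ, 1 < s → s ≤ 2 → G s = idealL F χ s) :
    Spec.DirichletLimitStatement :=
  dirichletLimit_of_tendsto_idealL fun F _ _ m _ χ I₀ h0 h1 => by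
    obtain ⟨G, hG, hGf⟩ := h F m χ I₀ h0 h1
    exact ⟨G 1, tendsto_of_continuousOn_Icc hG hGf⟩

end Fermat.Agent.Lib.Cheb.H941

end
-- ===== PACK-END Lib/Cheb/H941/DirichletLimitBridge.lean

-- ===== PACK-BEGIN S30/H330/AdicDefs.lean
section
/-
S30 (p-adic Galois representation attached to a Hecke eigensystem) -- ADIC MODULE LAYER.
Interface definitions (sorry-free).  helper330.  Namespace `Fermat.Agent.S30.H330`.

The layer turns
  * the frozen statement S37 (through "torsion relations" on `J₀(N)(ℚ̄)[p^∞]`),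
  * a Kummer map on `ℚ/ℤ`-valued parabolic characters (p-adic form of S29 piece M4b),
  * an eigen parabolic character with values in `𝒪'` (characteristic-0 form of S29 piece M4a)
into a nonzero finite free `𝒪'`-module with adically continuous `G_ℚ`-action, unramified outside
`N p`, on which every Frobenius at `ℓ ∉ S` satisfies `σ² - χ(T_ℓ) σ + ℓ = 0` (`HasAdicFrobModule`).
The top glue of S30 (helper990) consumes `HasAdicFrobModule`.
-/



set_option autoImplicit false

noncomputable section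

namespace Fermat.Agent.S30.H330

open Fermat.Agent.S29 ModularCurve

/-- `ℚ/ℤ`, the value group of finite-order characters. -/
abbrev QZ : Type := AddCircle (1 : ℚ)

/-- OUTPUT of the adic module layer: a nonzero finite free `O`-module with an adically continuous
action of `G_ℚ`, unramified at all primes `ℓ ∤ S`, on which all Frobenii at the primes `ℓ` with
`good ℓ` satisfy `σ² - a ℓ • σ + ℓ = 0`. -/
def HasAdicFrobModule (O : Type) [CommRing O] [IsLocalRing O] (S : ℕ) (good : ℕ → Prop)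
    (a : ℕ → O) : Prop :=
  ∃ (M : Type) (_ : AddCommGroup M) (_ : Module O M) (_ : Module.Free O M) (_ : Module.Finite O M)
    (ρ : GQ →* Module.End O M),
    Nontrivial M ∧ GaloisActionIsAdicContinuous O ρ ∧
    (∀ ℓ : ℕ, ℓ.Prime → ¬ ℓ ∣ S → ∀ A : VQ, A.LiesOverPrime ℓ →
      ∀ σ ∈ A.inertiaSubgroupIn ℚ, ρ σ = 1) ∧
    (∀ ℓ : ℕ, ℓ.Prime → good ℓ → ∀ A : VQ, A.LiesOverPrime ℓ →
      ∀ σ : GQ, A.IsFrobeniusAt σ ℓ →
        ρ σ * ρ σ - a ℓ • ρ σ + (ℓ : O) • (1 : Module.End O M) = 0)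

/-- INPUT (K): the Kummer map on `ℚ/ℤ`-valued parabolic characters of `Γ₀(N)`:
additive, injective, onto the torsion of `J₀(N)(ℚ̄)`, Hecke-equivariant.
(`κ c = ` class of `div(h)`, `h` any nonzero meromorphic function on `ℍ ∪ cusps` with
`h(γ z) = exp(2πi c(γ)) h(z)`; S29 piece M4b is the restriction to `(1/p)ℤ/ℤ`.) -/
def KummerStatement (N : ℕ) [NeZero N] (p : ℕ) : Prop :=
  ∃ κ : (G0 N → QZ) → JZero N,
    (∀ c c', IsParHom c → IsParHom c' → κ (c + c') = κ c + κ c') ∧
    (∀ c, IsParHom c → κ c = 0 → c = 0) ∧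
    (∀ x : JZero N, (∃ n : ℕ, (p ^ n) • x = 0) → ∃ c, IsParHom c ∧ κ c = x) ∧
    (∀ ℓ : Nat.Primes, ¬ (ℓ : ℕ) ∣ N * p → ∀ c, IsParHom c →
      κ (heckeCoh N ℓ c) = heckeOperatorBar N ℓ (κ c))

/-- INPUT (P): the eigensystem `χ` occurs in the parabolic cohomology with coefficients in `O`. -/
def ParEigenStatement (N : ℕ) [NeZero N] (S : Finset ℕ) (O : Type) [CommRing O]
    (χ : CuspForm.heckeAlgebra N 2 (↑S : Set ℕ) →+* O) : Prop :=
  ∃ c : G0 N → O, IsParHom c ∧ c ≠ 0 ∧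
    ∀ (ℓ : ℕ) (hℓ : ℓ.Prime) (hℓN : ¬ ℓ ∣ N) (hℓS : ℓ ∉ (↑S : Set ℕ)) (γ : G0 N),
      heckeCoh N ℓ c γ = χ (CuspForm.heckeAlgebra.T hℓ hℓN hℓS) * c γ

/-- INPUT (T): the consequences of S37 on the `p`-power torsion of `J₀(N)(ℚ̄)`
(inertia acts trivially, Eichler–Shimura relation), for all primes `ℓ ∤ N p`. -/
def TorsionRelations (N : ℕ) [NeZero N] (p : ℕ) : Prop :=
  ∀ (ℓ : ℕ) (hℓ : ℓ.Prime), ¬ ℓ ∣ N * p → ∀ A : VQ, A.LiesOverPrime ℓ →
    (∀ σ ∈ A.inertiaSubgroupIn ℚ, ∀ x : JZero N, (∃ n : ℕ, (p ^ n) • x = 0) → σ • x = x) ∧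
    (∀ σ : GQ, A.IsFrobeniusAt σ ℓ → ∀ x : JZero N, (∃ n : ℕ, (p ^ n) • x = 0) →
      σ • σ • x - heckeOperatorBar N ⟨ℓ, hℓ⟩ (σ • x) + ℓ • x = 0)

/-- INPUT (Sm) = S29 piece M3. -/
def SmoothStatement (N : ℕ) [NeZero N] : Prop :=
  ∀ x : JZero N, ∃ L : IntermediateField ℚ (AlgebraicClosure ℚ), FiniteDimensional ℚ L ∧
    ∀ σ : GQ, (∀ y ∈ L, σ y = y) → σ • x = x

/-- INPUT (GH) = S29 piece M2. -/
def GaloisHeckeStatement (N : ℕ) [NeZero N] : Prop :=
  ∀ (σ : GQ) (ℓ : Nat.Primes) (x : JZero N),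
    σ • heckeOperatorBar N ℓ x = heckeOperatorBar N ℓ (σ • x)

/-- The eigenvalue function attached to `χ`. -/
def eigenvalue {N : ℕ} [NeZero N] {S : Finset ℕ} {O : Type} [CommRing O]
    (χ : CuspForm.heckeAlgebra N 2 (↑S : Set ℕ) →+* O) (ℓ : ℕ) : O :=
  open Classical in
  if h : ℓ.Prime ∧ ¬ ℓ ∣ N ∧ ℓ ∉ (↑S : Set ℕ) then χ (CuspForm.heckeAlgebra.T h.1 h.2.1 h.2.2) else 0

end Fermat.Agent.S30.H330

end
end
-- ===== PACK-END S30/H330/AdicDefs.lean

-- ===== PACK-BEGIN S24/Deg/H457_Alg.lean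
section




/-!
# S24 / DEG-ALG (helper457), part 3: the degree bound from relations over `ℂ`

Interface hypothesis `Hyp L N n` (to be proved analytically for `L = ℂ`, `n = |SL₂(ℤ)/Γ₀(N)|`):
every element of the `L`-subalgebra of `L((q))` generated by the `j(q^d)`, `d ∣ N`, is a root of a
monic polynomial of degree `n` with coefficients in `L[j]`.

Main result: `finiteDimensional_and_finrank_le`.
-/

set_option autoImplicit false

noncomputable section

open Polynomial ModularCurve IntermediateField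

namespace Fermat.Agent.S24.Deg457

section General

variable (K : Type*) [Field K] [Algebra ℚ K]

/-- `j` as a Laurent series over `K` -/
def JK : LaurentSeries K := coeffEmb K jq

theorem JK_eq : JK K = jqModC K := by
  rw [JK, coeffEmb, ← jqModC_rat, coeffMap_jqModC]

theorem aeval_JK_ne_zero {t : K[X]} (ht : t ≠ 0) : aeval (JK K) t ≠ 0 := by
  intro hp
  rw [JK_eq] at hp
  set n := t.natDegree with hn
  have hcoeff : (aeval (jqModC K) t).coeff (-(n : ℤ)) = t.coeff n := by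
    rw [aeval_def, eval₂_eq_sum_range, HahnSeries.coeff_sum, Finset.sum_eq_single n]
    · rw [algebraMap_laurentSeries_eq_single, HahnSeries.coeff_single_zero_mul,
        coeff_jqModC_pow_self, mul_one]
    · intro i hi hin
      have hilt : i < n := lt_of_le_of_ne (Nat.lt_succ_iff.mp (Finset.mem_range.mp hi)) hin
      rw [algebraMap_laurentSeries_eq_single, HahnSeries.coeff_single_zero_mul,
        coeff_jqModC_pow_of_lt, mul_zero]
      omega
    · intro hn'
      exact absurd (Finset.self_mem_range_succ n) hn'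
  rw [hp] at hcoeff
  simp only [HahnSeries.coeff_zero] at hcoeff
  exact ht (leadingCoeff_eq_zero.mp hcoeff.symm)

/-- the generators `j(q^d)`, `d ∣ N`, over `K` -/
def gens (N : ℕ) : Set (LaurentSeries K) := ⇑(coeffEmb K) '' divisorExpansions N

/-- the `K`-algebra generated by the `j(q^d)` -/
def AK (N : ℕ) : Subalgebra K (LaurentSeries K) := Algebra.adjoin K (gens K N)

theorem JK_mem_gens (N : ℕ) : JK K ∈ gens K N := by
  refine ⟨jq, ?_, rfl⟩
  have := mem_divisorExpansions N (d := 1) (one_dvd N)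
  rwa [qExpand_one_apply] at this

theorem JK_mem_AK (N : ℕ) : JK K ∈ AK K N := Algebra.subset_adjoin (JK_mem_gens K N)

theorem aeval_JK_mem_AK (N : ℕ) (t : K[X]) : aeval (JK K) t ∈ AK K N := by
  rw [aeval_def, eval₂_eq_sum_range]
  refine Subalgebra.sum_mem _ fun i _ => ?_
  exact Subalgebra.mul_mem _ (Subalgebra.algebraMap_mem _ _)
    (Subalgebra.pow_mem _ (JK_mem_AK K N) _)

/-- The interface hypothesis. -/
def Hyp (N n : ℕ) : Prop :=
  ∀ b ∈ AK K N, ∃ P : K[X][X], P.Monic ∧ P.natDegree = n ∧ P.eval₂ (evJ (JK K)) b = 0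

/-- `x` is a root of a nonzero polynomial of degree `≤ n` over `K[j]`. -/
def AlgDeg (n : ℕ) (x : LaurentSeries K) : Prop :=
  ∃ Q : K[X][X], Q ≠ 0 ∧ Q.natDegree ≤ n ∧ Q.eval₂ (evJ (JK K)) x = 0

variable {K}

theorem eval₂_mem_AK {N : ℕ} (Q : K[X][X]) {s : LaurentSeries K} (hs : s ∈ AK K N) :
    Q.eval₂ (evJ (JK K)) s ∈ AK K N := by
  rw [eval₂_eq_sum_range]
  refine Subalgebra.sum_mem _ fun i _ => ?_
  exact Subalgebra.mul_mem _ (aeval_JK_mem_AK K N _) (Subalgebra.pow_mem _ hs _)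

theorem AlgDeg.of_mul_eq {n : ℕ} {x a : LaurentSeries K} {t : K[X]} (ht : t ≠ 0)
    (hxa : x * aeval (JK K) t = a) (ha : AlgDeg K n a) : AlgDeg K n x := by
  obtain ⟨Q, hQ0, hQn, hQ⟩ := ha
  have hlin : (C t * X : K[X][X]) ≠ C ((C t * X : K[X][X]).coeff 0) := by
    intro h
    have h1 := congrArg (fun p : K[X][X] => p.coeff 1) h
    simp only [coeff_C_mul, coeff_X_one, mul_one, coeff_X_zero, mul_zero, _root_.map_zero,
      coeff_zero] at h1
    exact ht h1
  refine ⟨Q.comp (C t * X), ?_, ?_, ?_⟩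
  · intro h
    rcases (comp_eq_zero_iff.mp h) with h | ⟨_, h⟩
    · exact hQ0 h
    · exact hlin h
  · rw [natDegree_comp]
    have : (C t * X : K[X][X]).natDegree ≤ 1 := by
      refine (natDegree_C_mul_le _ _).trans ?_
      exact natDegree_X_le
    calc Q.natDegree * (C t * X : K[X][X]).natDegree ≤ Q.natDegree * 1 :=
          Nat.mul_le_mul_left _ this
      _ = Q.natDegree := mul_one _
      _ ≤ n := hQn
  · rw [eval₂_comp, eval₂_mul, eval₂_C, eval₂_X, evJ_apply, mul_comm, hxa]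
    exact hQ

/-- a nonzero algebraic element of `A` has an "inverse up to a polynomial in `j`" in `A`. -/
theorem exists_mul_eq_aeval {N n : ℕ} {s : LaurentSeries K} (hs : s ∈ AK K N) (hs0 : s ≠ 0)
    (ha : AlgDeg K n s) : ∃ g ∈ AK K N, ∃ t : K[X], t ≠ 0 ∧ s * g = aeval (JK K) t := by
  obtain ⟨Q, hQ0, -, hQ⟩ := ha
  -- strong induction on the degree to reach a nonzero constant coefficient
  have key : ∀ m : ℕ, ∀ Q : K[X][X], Q.natDegree ≤ m → Q ≠ 0 → Q.eval₂ (evJ (JK K)) s = 0 →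
      ∃ Q₁ : K[X][X], Q₁.coeff 0 ≠ 0 ∧ Q₁.eval₂ (evJ (JK K)) s = 0 := by
    intro m
    induction m with
    | zero =>
      intro Q hdeg hQ0 hQ
      refine ⟨Q, ?_, hQ⟩
      intro h0
      apply hQ0
      rw [eq_C_of_natDegree_le_zero hdeg, h0, _root_.map_zero]
    | succ m ih =>
      intro Q hdeg hQ0 hQ
      by_cases h0 : Q.coeff 0 = 0
      · have hdiv : Q = divX Q * X := by
          conv_lhs => rw [← divX_mul_X_add Q, h0, _root_.map_zero, add_zero]
        have hd0 : divX Q ≠ 0 := by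
          intro h; apply hQ0; rw [hdiv, h, zero_mul]
        have hev : (divX Q).eval₂ (evJ (JK K)) s = 0 := by
          rw [hdiv, eval₂_mul, eval₂_X] at hQ
          rcases mul_eq_zero.mp hQ with h | h
          · exact h
          · exact absurd h hs0
        refine ih (divX Q) ?_ hd0 hev
        rw [natDegree_divX_eq_natDegree_tsub_one]
        omega
      · exact ⟨Q, h0, hQ⟩
  obtain ⟨Q₁, h0, hQ₁⟩ := key Q.natDegree Q le_rfl hQ0 hQ
  refine ⟨-(divX Q₁).eval₂ (evJ (JK K)) s, Subalgebra.neg_mem _ (eval₂_mem_AK _ hs),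
    Q₁.coeff 0, h0, ?_⟩
  have hsplit : Q₁.eval₂ (evJ (JK K)) s
      = (divX Q₁).eval₂ (evJ (JK K)) s * s + aeval (JK K) (Q₁.coeff 0) := by
    conv_lhs => rw [← divX_mul_X_add Q₁]
    rw [eval₂_add, eval₂_mul, eval₂_X, eval₂_C, evJ_apply]
  rw [hQ₁] at hsplit
  linear_combination hsplit

end General

section Descent

variable {K L : Type*} [Field K] [Algebra ℚ K] [Field L] [Algebra ℚ L]

theorem coeffMap_coeffEmb' (ι : K →+* L) (y : LaurentSeries ℚ) :
    coeffMap ι (coeffEmb K y) = coeffEmb L y := by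
  rw [coeffEmb, coeffMap_coeffMap, coeffEmb]
  exact coeffMap_congr (Subsingleton.elim _ _) y

theorem coeffMap_JK (ι : K →+* L) : coeffMap ι (JK K) = JK L := coeffMap_coeffEmb' ι jq

theorem coeffMap_mem_AK (ι : K →+* L) {N : ℕ} {a : LaurentSeries K} (ha : a ∈ AK K N) :
    coeffMap ι a ∈ AK L N := by
  unfold AK at ha
  induction ha using Algebra.adjoin_induction with
  | mem x hx =>
    obtain ⟨y, hy, rfl⟩ := hx
    rw [coeffMap_coeffEmb']
    exact Algebra.subset_adjoin ⟨y, hy, rfl⟩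
  | algebraMap r =>
    rw [coeffMap_algebraMap']
    exact Subalgebra.algebraMap_mem _ _
  | add x y _ _ hx hy =>
    rw [_root_.map_add]; exact Subalgebra.add_mem _ hx hy
  | mul x y _ _ hx hy =>
    rw [_root_.map_mul]; exact Subalgebra.mul_mem _ hx hy

/-- Lemma B: elements of `A_K` are algebraic of degree `≤ n` over `K[j]`, given the hypothesis
over the bigger field `L`. -/
theorem algDeg_of_mem_AK (ι : K →+* L) {N n : ℕ} (hyp : Hyp L N n) {a : LaurentSeries K}
    (ha : a ∈ AK K N) : AlgDeg K n a := by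
  obtain ⟨P, hP, hn, h0⟩ := hyp _ (coeffMap_mem_AK ι ha)
  rw [← coeffMap_JK ι] at h0
  exact exists_relation_of_coeffMap_monic ι (JK K) a n P hP hn h0

end Descent

section Field

variable {K L : Type*} [Field K] [Algebra ℚ K] [Field L] [Algebra ℚ L]

theorem coeffEmb_mem_adjoin_gens (N : ℕ) {y : LaurentSeries ℚ}
    (hy : y ∈ IntermediateField.adjoin ℚ (divisorExpansions N)) :
    coeffEmb K y ∈ IntermediateField.adjoin K (gens K N) := by
  refine IntermediateField.adjoin_induction ℚ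
    (p := fun y _ => coeffEmb K y ∈ IntermediateField.adjoin K (gens K N)) ?_ ?_ ?_ ?_ ?_ hy
  · intro x hx
    exact IntermediateField.subset_adjoin K _ ⟨x, hx, rfl⟩
  · intro c
    have : coeffEmb K (algebraMap ℚ (LaurentSeries ℚ) c)
        = algebraMap K (LaurentSeries K) (algebraMap ℚ K c) := by
      rw [coeffEmb, coeffMap_algebraMap']
    rw [this]
    exact IntermediateField.algebraMap_mem _ _
  · intro x y _ _ hx hy
    rw [_root_.map_add]; exact _root_.AddMemClass.add_mem hx hy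
  · intro x _ hx
    rw [map_inv₀]; exact _root_.InvMemClass.inv_mem hx
  · intro x y _ _ hx hy
    rw [_root_.map_mul]; exact _root_.MulMemClass.mul_mem hx hy

/-- the base-changed function field is generated over `K` by the `j(q^d)`. -/
theorem laurentBaseChange_full_le (N : ℕ) :
    laurentBaseChange K (modularFunctionFieldFull N) ≤ IntermediateField.adjoin K (gens K N) := by
  rw [laurentBaseChange, IntermediateField.adjoin_le_iff]
  rintro _ ⟨y, hy, rfl⟩
  exact coeffEmb_mem_adjoin_gens N hy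

/-- Lemma H: every element of the function field is algebraic of degree `≤ n` over `K[j]`. -/
theorem algDeg_of_mem_field (ι : K →+* L) {N n : ℕ} (hyp : Hyp L N n) {x : LaurentSeries K}
    (hx : x ∈ laurentBaseChange K (modularFunctionFieldFull N)) : AlgDeg K n x := by
  have hx' := laurentBaseChange_full_le (K := K) N hx
  rw [IntermediateField.mem_adjoin_iff_div] at hx'
  obtain ⟨r, hr, s, hs, rfl⟩ := hx'
  have hr' : r ∈ AK K N := hr
  have hs' : s ∈ AK K N := hs
  by_cases hs0 : s = 0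
  · subst hs0
    rw [div_zero]
    exact algDeg_of_mem_AK ι hyp (Subalgebra.zero_mem _)
  · obtain ⟨g, hg, t, ht, hst⟩ := exists_mul_eq_aeval hs' hs0 (algDeg_of_mem_AK ι hyp hs')
    refine AlgDeg.of_mul_eq (a := r * g) ht ?_ (algDeg_of_mem_AK ι hyp (Subalgebra.mul_mem _ hr' hg))
    rw [← hst]
    field_simp

end Field

end Fermat.Agent.S24.Deg457

end
end
-- ===== PACK-END S24/Deg/H457_Alg.lean

-- ===== PACK-BEGIN S24/H117/RatFun.lean
section


/-!
# S24 / H117 — orders of rational functions of `t` at places over `t = 0`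

If `0 < v.ord t` then for every `e ∈ K⟮t⟯` the order `v.ord e` is `n * v.ord t` for an integer
`n` depending only on `e` (the `t`-adic order of `e`).
-/

set_option autoImplicit false

noncomputable section

open AlgebraicCurve Polynomial IntermediateField

namespace Fermat.Agent.S24.H117

variable {K F : Type*} [Field K] [Field F] [Algebra K F]

theorem aeval_mem_place (v : Place K F) {t : F} (hv : 0 ≤ v.ord t) (p : K[X]) :
    aeval t p ∈ v.toValuationSubring := by
  rw [aeval_eq_sum_range]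
  refine Subring.sum_mem v.toValuationSubring.toSubring (fun i _ => ?_)
  rw [Algebra.smul_def]
  exact _root_.MulMemClass.mul_mem (v.algebraMap_mem' _) (_root_.pow_mem (mem_of_ord_nonneg v hv) _)

theorem ord_aeval_of_coeff_zero_ne (v : Place K F) {t : F} (hv : 0 < v.ord t) (q : K[X])
    (hq : q.coeff 0 ≠ 0) : v.ord (aeval t q) = 0 := by
  have hdecomp : aeval t q = algebraMap K F (q.coeff 0) + aeval t q.divX * t := by
    conv_lhs => rw [← divX_mul_X_add q]
    simp only [_root_.map_add, _root_.map_mul, aeval_X, aeval_C]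
    ring
  have hc : v.ord (algebraMap K F (q.coeff 0)) = 0 := _root_.Fermat.Agent.S24.H117.ord_algebraMap v _
  have hc0 : algebraMap K F (q.coeff 0) ≠ 0 := by simpa using hq
  rw [hdecomp]
  rcases eq_or_ne (aeval t q.divX * t) 0 with h0 | h0
  · rw [h0, add_zero, hc]
  · have ht0 : t ≠ 0 := right_ne_zero_of_mul h0
    have hd0 : aeval t q.divX ≠ 0 := left_ne_zero_of_mul h0
    have h1 : 0 ≤ v.ord (aeval t q.divX) :=
      ord_nonneg_of_mem v (aeval_mem_place v hv.le _)
    have h2 : 0 < v.ord (aeval t q.divX * t) := by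
      rw [v.ord_mul hd0 ht0]; omega
    rw [ord_add_eq_of_lt v (by rw [hc]; exact h2) hc0, hc]

theorem ord_aeval_eq (v : Place K F) {t : F} (hv : 0 < v.ord t) (p : K[X]) (hp : p ≠ 0) :
    aeval t p ≠ 0 ∧ v.ord (aeval t p) = (p.rootMultiplicity 0 : ℤ) * v.ord t := by
  obtain ⟨q, hpq, hq⟩ := exists_eq_pow_rootMultiplicity_mul_and_not_dvd p hp 0
  have hq0 : q.coeff 0 ≠ 0 := by
    intro h
    apply hq
    rw [C_0, sub_zero]
    exact X_dvd_iff.mpr h
  have ht0 : t ≠ 0 := ne_zero_of_ord_ne_zero v hv.ne'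
  have hqu := ord_aeval_of_coeff_zero_ne v hv q hq0
  have hqne : aeval t q ≠ 0 := by
    intro h
    have hdecomp : aeval t q = algebraMap K F (q.coeff 0) + aeval t q.divX * t := by
      conv_lhs => rw [← divX_mul_X_add q]
      simp only [_root_.map_add, _root_.map_mul, aeval_X, aeval_C]
      ring
    -- if `aeval t q = 0` then the constant term has positive order
    have hc0 : algebraMap K F (q.coeff 0) ≠ 0 := by simpa using hq0
    have hc : v.ord (algebraMap K F (q.coeff 0)) = 0 := _root_.Fermat.Agent.S24.H117.ord_algebraMap v _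
    have heq : algebraMap K F (q.coeff 0) = -(aeval t q.divX * t) := by
      rw [h] at hdecomp
      exact eq_neg_of_add_eq_zero_left hdecomp.symm
    have hne : aeval t q.divX * t ≠ 0 := by
      intro h0
      rw [h0, neg_zero] at heq
      exact hc0 heq
    have hd0 : aeval t q.divX ≠ 0 := left_ne_zero_of_mul hne
    have h1 : 0 ≤ v.ord (aeval t q.divX) :=
      ord_nonneg_of_mem v (aeval_mem_place v hv.le _)
    rw [heq, _root_.Fermat.Agent.S24.H117.ord_neg, v.ord_mul hd0 ht0] at hc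
    omega
  have hval : aeval t p = t ^ p.rootMultiplicity 0 * aeval t q := by
    conv_lhs => rw [hpq]
    simp only [C_0, sub_zero, _root_.map_mul, _root_.map_pow, aeval_X]
  refine ⟨?_, ?_⟩
  · rw [hval]
    exact mul_ne_zero (pow_ne_zero _ ht0) hqne
  · rw [hval, v.ord_mul (pow_ne_zero _ ht0) hqne, ord_pow, hqu, add_zero]

/-- The order at a place over `t = 0` of an element of `K(t)` is a fixed multiple of `ord t`. -/
theorem exists_ord_eq_mul_of_mem_adjoin {t e : F} (he : e ∈ K⟮t⟯) :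
    ∃ n : ℤ, ∀ v : Place K F, 0 < v.ord t → v.ord e = n * v.ord t := by
  obtain ⟨r, s, rfl⟩ := (mem_adjoin_simple_iff K e).mp he
  by_cases hr : r = 0
  · exact ⟨0, fun v _ => by simp [hr]⟩
  by_cases hs : s = 0
  · exact ⟨0, fun v _ => by simp [hs]⟩
  refine ⟨(r.rootMultiplicity 0 : ℤ) - s.rootMultiplicity 0, fun v hv => ?_⟩
  obtain ⟨hr1, hr2⟩ := ord_aeval_eq v hv r hr
  obtain ⟨hs1, hs2⟩ := ord_aeval_eq v hv s hs
  rw [ord_div v hr1 hs1, hr2, hs2]
  ring

/-- Transfer of integrality on `K(t)` between two places over `t = 0`. -/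
theorem ord_nonneg_of_mem_adjoin {t e : F} (he : e ∈ K⟮t⟯) {v w : Place K F}
    (hv : 0 < v.ord t) (hw : 0 < w.ord t) (h : 0 ≤ w.ord e) : 0 ≤ v.ord e := by
  obtain ⟨n, hn⟩ := exists_ord_eq_mul_of_mem_adjoin (K := K) he
  rw [hn w hw] at h
  rw [hn v hv]
  have hn0 : 0 ≤ n := by
    by_contra hneg
    push Not at hneg
    nlinarith
  positivity

end Fermat.Agent.S24.H117

end
end
-- ===== PACK-END S24/H117/RatFun.lean

-- ===== PACK-BEGIN S30/H990/Lattice.lean
section
/-
S30 top glue (helper990): pure algebra, part 4.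
Restriction of a representation to a stable saturated lattice; congruences pass to saturated
lattices; rank one lattices give characters.
-/


set_option autoImplicit false

namespace Fermat.Agent.S30.H990

open Module Polynomial

section Restrict

variable {𝒪 M G : Type*} [CommRing 𝒪] [AddCommGroup M] [Module 𝒪 M] [Group G]

/-- Restriction of a representation to a stable submodule. -/
def restrictRep (ρ : G →* Module.End 𝒪 M) (Λ : Submodule 𝒪 M)
    (h : ∀ g, ∀ x ∈ Λ, ρ g x ∈ Λ) : G →* Module.End 𝒪 Λ where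
  toFun g := (ρ g).restrict (h g)
  map_one' := by
    ext x
    simp
  map_mul' g g' := by
    ext x
    simp

@[simp] theorem restrictRep_apply (ρ : G →* Module.End 𝒪 M) (Λ : Submodule 𝒪 M)
    (h : ∀ g, ∀ x ∈ Λ, ρ g x ∈ Λ) (g : G) (x : Λ) :
    ((restrictRep ρ Λ h g x : Λ) : M) = ρ g (x : M) := rfl

theorem rel_restrictRep (ρ : G →* Module.End 𝒪 M) (d : G →* 𝒪ˣ) (Λ : Submodule 𝒪 M)
    (h : ∀ g, ∀ x ∈ Λ, ρ g x ∈ Λ) {g : G} {a : 𝒪} (hr : Rel ρ d g a) :
    Rel (restrictRep ρ Λ h) d g a := by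
  unfold Rel
  ext x
  have := rel_apply ρ d hr (x : M)
  simpa using this

end Restrict

section SatCong

variable {𝒪 M : Type*} [CommRing 𝒪] [IsDomain 𝒪] [IsPrincipalIdealRing 𝒪]
  [AddCommGroup M] [Module 𝒪 M]

/-- Congruences modulo an ideal pass to saturated submodules. -/
theorem mem_smul_top_sat (N : Submodule 𝒪 M) (I : Ideal 𝒪) (x : sat N)
    (hx : (x : M) ∈ I • (⊤ : Submodule 𝒪 M)) :
    x ∈ I • (⊤ : Submodule 𝒪 (sat N)) := by
  obtain ⟨ϖ, hϖ⟩ := IsPrincipalIdealRing.principal I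
  have hI : I = Ideal.span {ϖ} := hϖ
  rw [hI, Submodule.ideal_span_singleton_smul, Submodule.mem_smul_pointwise_iff_exists] at hx
  obtain ⟨m, -, hm⟩ := hx
  by_cases h0 : ϖ = 0
  · have : x = 0 := by
      apply Subtype.ext
      rw [← hm, h0, zero_smul]; rfl
    rw [this]; exact Submodule.zero_mem _
  · have hmem : m ∈ sat N := by
      apply mem_sat_of_smul_mem h0
      rw [hm]; exact x.2
    have : x = ϖ • (⟨m, hmem⟩ : sat N) := Subtype.ext hm.symm
    rw [this]
    exact Submodule.smul_mem_smul (hI ▸ Ideal.subset_span (Set.mem_singleton ϖ))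
      Submodule.mem_top

end SatCong

section RankOne

variable {𝒪 V : Type*} [CommRing 𝒪] [IsDomain 𝒪] [AddCommGroup V] [Module 𝒪 V]
  [Module.Free 𝒪 V] [Module.Finite 𝒪 V]

/-- On a free module of rank one every endomorphism is multiplication by its determinant. -/
theorem apply_eq_det_smul (h1 : Module.finrank 𝒪 V = 1) (f : Module.End 𝒪 V) (x : V) :
    f x = LinearMap.det f • x := by
  classical
  let b : Basis (Fin 1) 𝒪 V := Module.finBasisOfFinrankEq 𝒪 V h1
  have hdet : LinearMap.det f = b.repr (f (b 0)) 0 := by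
    rw [← LinearMap.det_toMatrix b f, Matrix.det_fin_one, LinearMap.toMatrix_apply]
  have hb : f (b 0) = LinearMap.det f • b 0 := by
    conv_lhs => rw [← b.sum_repr (f (b 0))]
    rw [Fin.sum_univ_one, hdet]
  have hx : x = b.repr x 0 • b 0 := by
    conv_lhs => rw [← b.sum_repr x]
    rw [Fin.sum_univ_one]
  rw [hx, _root_.map_smul, hb, smul_comm]

/-- In a free module of rank one, `r • e ∈ I • ⊤` for a basis vector `e` forces `r ∈ I`. -/
theorem mem_of_smul_basis_mem (h1 : Module.finrank 𝒪 V = 1) (I : Ideal 𝒪) (r : 𝒪)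
    (h : ∀ x : V, r • x ∈ I • (⊤ : Submodule 𝒪 V)) : r ∈ I := by
  classical
  let b : Basis (Fin 1) 𝒪 V := Module.finBasisOfFinrankEq 𝒪 V h1
  have key : ∀ y ∈ I • (⊤ : Submodule 𝒪 V), b.repr y 0 ∈ I := by
    intro y hy
    refine Submodule.smul_induction_on hy ?_ ?_
    · intro i hi n _
      rw [_root_.map_smul, Finsupp.smul_apply, smul_eq_mul]
      exact I.mul_mem_right _ hi
    · intro y z hy hz
      rw [_root_.map_add, Finsupp.add_apply]
      exact I.add_mem hy hz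
  have := key _ (h (b 0))
  rwa [_root_.map_smul, Finsupp.smul_apply, Basis.repr_self, Finsupp.single_eq_same, smul_eq_mul,
    mul_one] at this

end RankOne

end Fermat.Agent.S30.H990

end
-- ===== PACK-END S30/H990/Lattice.lean

-- ===== PACK-BEGIN S37/H99/FrobAt.lean
section


/-!
# S37 (helper99): Frobenius elements exist at EVERY valuation subring of `ℚ̄` over a prime

`Fermat.Agent.S54.exists_frobenius` produces *some* `A`; the same proof works for a given `A`.
Also: two Frobenius elements at `A` differ by an element of the inertia subgroup.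
-/

set_option autoImplicit false

namespace Fermat.Agent.S37.H99

open scoped Pointwise
open Fermat.Agent.S54

/-- For every valuation subring `A` of `ℚ̄` over the prime `ℓ` there is a Frobenius element
at `A`. -/
theorem exists_isFrobeniusAt (ℓ : ℕ) (hℓ : ℓ.Prime)
    (A : ValuationSubring (AlgebraicClosure ℚ)) (hA : A.LiesOverPrime ℓ) :
    ∃ σ : AlgebraicClosure ℚ ≃ₐ[ℚ] AlgebraicClosure ℚ, A.IsFrobeniusAt σ ℓ := by
  have : Algebra.IsAlgebraic ℚ (AlgebraicClosure ℚ) := AlgebraicClosure.isAlgebraic ℚ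
  have := primeBelow_isPrime A
  have hℓQ : (ℓ : integralClosure ℤ (AlgebraicClosure ℚ)) ∈ primeBelow A := by
    rw [mem_primeBelow]
    exact hA
  obtain ⟨σ, hσQ', hσF⟩ := exists_frob_integralClosure ℓ hℓ (primeBelow A) hℓQ
  have hσQ : ∀ x, σ • x ∈ primeBelow A ↔ x ∈ primeBelow A := by
    intro x
    conv_lhs => rw [← hσQ']
    exact Ideal.smul_mem_pointwise_smul_iff
  have key : ∀ τ : AlgebraicClosure ℚ ≃ₐ[ℚ] AlgebraicClosure ℚ,
      (∀ x, τ • x ∈ primeBelow A ↔ x ∈ primeBelow A) → ∀ x ∈ A, τ x ∈ A := by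
    intro τ hτ x hx
    obtain ⟨b, s, hb, hs, hsA, hxs⟩ := (mem_valuationSubring_iff A ℓ hℓ hA x).mp hx
    refine (mem_valuationSubring_iff A ℓ hℓ hA (τ x)).mpr
      ⟨τ b, τ s, hb.map τ, hs.map τ, ?_, ?_⟩
    · exact (hτ ⟨s, hs⟩).not.mpr hsA
    · rw [← map_mul, hxs]
  have hσA : σ ∈ A.decompositionSubgroup ℚ := by
    rw [MulAction.mem_stabilizer_iff]
    ext x
    rw [ValuationSubring.mem_smul_pointwise_iff_exists]
    constructor
    · rintro ⟨s, hs, rfl⟩
      exact key σ hσQ s hs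
    · intro hx
      refine ⟨σ⁻¹ • x, key σ⁻¹ ?_ x hx, by simp⟩
      intro y
      rw [← hσQ (σ⁻¹ • y)]
      simp
  refine ⟨σ, hσA, ?_⟩
  intro x
  obtain ⟨a, rfl⟩ := IsLocalRing.residue_surjective x
  obtain ⟨b, s, hb, hs, hsA, hxs⟩ := (mem_valuationSubring_iff A ℓ hℓ hA a).mp a.2
  have hbA : b ∈ A := isIntegral_mem_valuationSubring A hb
  have hsA' : s ∈ A := isIntegral_mem_valuationSubring A hs
  have hint : ∀ (y : AlgebraicClosure ℚ) (hy : IsIntegral ℤ y),
      (⟨σ, hσA⟩ : A.decompositionSubgroup ℚ) •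
        IsLocalRing.residue A ⟨y, isIntegral_mem_valuationSubring A hy⟩ =
      (IsLocalRing.residue A ⟨y, isIntegral_mem_valuationSubring A hy⟩) ^ ℓ := by
    intro y hy
    rw [← IsLocalRing.ResidueField.residue_smul, ← map_pow, ← sub_eq_zero, ← map_sub,
      IsLocalRing.residue_eq_zero_iff, ← ValuationSubring.coe_mem_nonunits_iff]
    exact hσF ⟨y, hy⟩
  have h1 : IsLocalRing.residue A a * IsLocalRing.residue A ⟨s, hsA'⟩ =
      IsLocalRing.residue A ⟨b, hbA⟩ := by
    rw [← map_mul]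
    congr 1
    exact Subtype.ext hxs
  have h2 : IsLocalRing.residue A ⟨s, hsA'⟩ ≠ 0 := by
    rw [Ne, IsLocalRing.residue_eq_zero_iff, ← ValuationSubring.coe_mem_nonunits_iff]
    exact hsA
  have h3 := congrArg (fun z => (⟨σ, hσA⟩ : A.decompositionSubgroup ℚ) • z) h1
  simp only [smul_mul'] at h3
  rw [hint s hs, hint b hb, ← h1, mul_pow] at h3
  exact mul_right_cancel₀ (pow_ne_zero _ h2) h3

end Fermat.Agent.S37.H99

end
-- ===== PACK-END S37/H99/FrobAt.lean

-- ===== PACK-BEGIN S24/H864/FF3b.lean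
section




/-!
# S24 / ALG / FF1+FF3 (part b): places of a Dedekind domain with fraction field `F`
-/

set_option autoImplicit false

noncomputable section

open AlgebraicCurve IsDedekindDomain

namespace Fermat.Agent.S24.H864

section Dict

variable {K F : Type*} [Field K] [Field F] [Algebra K F]
variable {S : Type*} [CommRing S] [IsDedekindDomain S] [Algebra S F] [IsFractionRing S F]
  [Algebra K S] [IsScalarTower K S F]

/-- `ord` of the place attached to a height one prime is `-log` of the adic valuation. -/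
theorem ord_ofHeightOneSpectrum (w : HeightOneSpectrum S) (x : F) :
    (Place.ofHeightOneSpectrum (K := K) w).ord x = -(WithZero.log (w.valuation F x)) := by
  rcases eq_or_ne x 0 with rfl | hx
  · simp
  set N : F → ℤ := fun y => -(WithZero.log (w.valuation F y)) with hN
  have hmul : ∀ f g : F, f ≠ 0 → g ≠ 0 → N (f * g) = N f + N g := by
    intro f g hf hg
    simp only [hN, map_mul]
    rw [WithZero.log_mul ((Valuation.ne_zero_iff _).mpr hf) ((Valuation.ne_zero_iff _).mpr hg)]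
    ring
  have hmem : ∀ f : F, f ≠ 0 →
      (f ∈ (Place.ofHeightOneSpectrum (K := K) w).toValuationSubring ↔ 0 ≤ N f) := by
    intro f hf
    rw [Place.ofHeightOneSpectrum_toValuationSubring, Valuation.mem_valuationSubring_iff]
    have h0 : w.valuation F f ≠ 0 := (Valuation.ne_zero_iff _).mpr hf
    simp only [hN]
    rw [← WithZero.log_le_log h0 one_ne_zero, WithZero.log_one]
    omega
  obtain ⟨π, hπ⟩ := w.valuation_exists_uniformizer F
  have hπ0 : π ≠ 0 := by
    intro h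
    rw [h, map_zero] at hπ
    exact WithZero.exp_ne_zero.symm hπ
  have hNπ : N π = 1 := by
    simp only [hN, hπ, WithZero.log_exp]
    norm_num
  exact (FF.ordLike_eq_ord N hmul _ hmem hπ0 hNπ hx).symm

/-- On elements of `S`, `ord` is the multiplicity of the prime in the principal ideal. -/
theorem ord_ofHeightOneSpectrum_algebraMap (w : HeightOneSpectrum S) {s : S} (hs : s ≠ 0) :
    (Place.ofHeightOneSpectrum (K := K) w).ord (algebraMap S F s)
      = (multiplicity w.asIdeal (Ideal.span {s}) : ℤ) := by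
  rw [ord_ofHeightOneSpectrum, HeightOneSpectrum.valuation_of_algebraMap,
    HeightOneSpectrum.intValuation_eq_exp_neg_multiplicity w hs, WithZero.log_exp, neg_neg]

theorem ord_ofHeightOneSpectrum_pos_iff (w : HeightOneSpectrum S) {s : S} (hs : s ≠ 0) :
    0 < (Place.ofHeightOneSpectrum (K := K) w).ord (algebraMap S F s) ↔ s ∈ w.asIdeal := by
  rw [← HeightOneSpectrum.valuation_lt_one_iff_mem (K := F), ord_ofHeightOneSpectrum]
  have h0 : w.valuation F (algebraMap S F s) ≠ 0 :=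
    (Valuation.ne_zero_iff _).mpr ((map_ne_zero_iff _ (IsFractionRing.injective S F)).mpr hs)
  rw [← WithZero.log_lt_log h0 one_ne_zero, WithZero.log_one]
  omega

theorem ofHeightOneSpectrum_injective :
    Function.Injective (fun w : HeightOneSpectrum S => Place.ofHeightOneSpectrum (K := K) (F := F) w) := by
  intro w w' h
  simp only at h
  apply HeightOneSpectrum.ext
  ext s
  rcases eq_or_ne s 0 with rfl | hs
  · simp
  · rw [← ord_ofHeightOneSpectrum_pos_iff (K := K) (F := F) w hs,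
      ← ord_ofHeightOneSpectrum_pos_iff (K := K) (F := F) w' hs, h]

/-- The prime of `S` cut out by a place whose valuation ring contains `S`. -/
def primeOfPlace (v : Place K F) (hS : ∀ s : S, algebraMap S F s ∈ v.toValuationSubring) :
    Ideal S :=
  Ideal.comap ((algebraMap S F).codRestrict v.toValuationSubring.toSubring hS)
    (IsLocalRing.maximalIdeal v.toValuationSubring)

instance primeOfPlace_isPrime (v : Place K F)
    (hS : ∀ s : S, algebraMap S F s ∈ v.toValuationSubring) : (primeOfPlace v hS).IsPrime :=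
  Ideal.comap_isPrime _ _

theorem mem_primeOfPlace (v : Place K F)
    (hS : ∀ s : S, algebraMap S F s ∈ v.toValuationSubring) {s : S} (hs : s ≠ 0) :
    s ∈ primeOfPlace v hS ↔ 0 < v.ord (algebraMap S F s) := by
  have hs' : algebraMap S F s ≠ 0 := (map_ne_zero_iff _ (IsFractionRing.injective S F)).mpr hs
  rw [FF.ord_pos_iff_mem_nonunits v hs']
  rw [primeOfPlace, Ideal.mem_comap, IsLocalRing.mem_maximalIdeal, mem_nonunits_iff,
    ValuationSubring.mem_nonunits_iff_exists_mem_maximalIdeal]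
  constructor
  · intro h
    exact ⟨hS s, by rw [IsLocalRing.mem_maximalIdeal, mem_nonunits_iff]; exact h⟩
  · rintro ⟨_, h⟩
    rw [IsLocalRing.mem_maximalIdeal, mem_nonunits_iff] at h
    exact h

/-- **Dictionary, surjectivity.**  A place whose valuation ring contains `S` and which is
positive on some nonzero element of `S` comes from a height one prime of `S`. -/
theorem exists_heightOneSpectrum_of_place (v : Place K F)
    (hS : ∀ s : S, algebraMap S F s ∈ v.toValuationSubring)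
    {s0 : S} (hs0 : s0 ≠ 0) (hpos : 0 < v.ord (algebraMap S F s0)) :
    ∃ w : HeightOneSpectrum S,
      Place.ofHeightOneSpectrum (K := K) w = v ∧ w.asIdeal = primeOfPlace v hS := by
  have hne : primeOfPlace v hS ≠ ⊥ := by
    intro h
    have : s0 ∈ primeOfPlace v hS := (mem_primeOfPlace v hS hs0).mpr hpos
    rw [h, Ideal.mem_bot] at this
    exact hs0 this
  refine ⟨⟨primeOfPlace v hS, inferInstance, hne⟩, ?_, rfl⟩
  set w : HeightOneSpectrum S := ⟨primeOfPlace v hS, inferInstance, hne⟩ with hw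
  apply Place.ext
  rw [Place.ofHeightOneSpectrum_toValuationSubring,
    ← HeightOneSpectrum.valuationSubringAtPrime_eq_valuationSubring]
  refine ValuationSubring.eq_of_le_of_ne_top _ ?_ v.ne_top'
  rintro x ⟨a, s, hs, rfl⟩
  have hsq : s ∉ primeOfPlace v hS := hs
  have hs0' : s ≠ 0 := by
    rintro rfl
    exact hsq (Ideal.zero_mem _)
  have hsF : algebraMap S F s ≠ 0 := (map_ne_zero_iff _ (IsFractionRing.injective S F)).mpr hs0'
  have h1 : ¬ 0 < v.ord (algebraMap S F s) := fun h => hsq ((mem_primeOfPlace v hS hs0').mpr h)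
  have h2 : 0 ≤ v.ord (algebraMap S F s) := (FF.mem_iff_ord_nonneg v).mp (hS s)
  have h3 : v.ord (algebraMap S F s) = 0 := by omega
  have h4 : (algebraMap S F s)⁻¹ ∈ v.toValuationSubring := by
    rw [FF.mem_iff_ord_nonneg, Place.ord_inv, h3]
    simp
  exact mul_mem (hS a) h4

end Dict

end Fermat.Agent.S24.H864

end
end
-- ===== PACK-END S24/H864/FF3b.lean

-- ===== PACK-BEGIN S29/H152/DescMain.lean
section
/-
S29 / DESC (helper152) — DESCENT `Ω → K` of Kummer classes (piece K3 of the S29 row plan).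

Main result `desc_main`: let `K ⊆ Ω` be algebraically closed fields of characteristic `0`,
`F₀ ⊆ ℚ((q))` a field containing a series `j₀` of order `-1` such that `Ω·F₀` has bounded degree
over `Ω(j₀)`.  If `f ∈ Ω·F₀` has a `p`-th root in `Ω((q))` and the `Aut(Ω/K)`-orbit of the class of
`f` modulo `p`-th powers of `Ω·F₀` is finite, then `f · g ^ p` has coefficients in `K` and lies in
`K·F₀` for some nonzero `g ∈ Ω·F₀`.

No places, no Riemann–Roch, no analysis: the space `W = h·(Ω·F₀) ∩ {integral over Ω[j], pole order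
≤ m at the cusps}` is nonzero, stable under the finite-index stabiliser `H` of the class, and the
orders of its nonzero elements are bounded (`descBound_order_le`); its element of maximal order
with leading coefficient `1` is fixed by `H`, so its coefficients lie in `Ω^H = K`.
-/









set_option autoImplicit false

namespace Fermat.Agent.S29.H152

open ModularCurve Polynomial

variable {K Ω : Type*} [Field K] [Field Ω] [Algebra K Ω]

theorem descMain_smul_eq (c : Ω) (v : LaurentSeries Ω) :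
    c • v = algebraMap Ω (LaurentSeries Ω) c * v := by
  rw [algebraMap_laurentSeries_eq_single, HahnSeries.single_zero_mul_eq_smul]

theorem descMain_order_coeffMap {R S : Type*} [CommRing R] [CommRing S] (φ : R →+* S)
    (hφ : Function.Injective φ) (x : LaurentSeries R) : (coeffMap φ x).order = x.order := by
  by_cases hx : x = 0
  · rw [hx, _root_.map_zero, HahnSeries.order_zero, HahnSeries.order_zero]
  have hx' : coeffMap φ x ≠ 0 := by
    intro h
    apply hx
    ext k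
    have := congrArg (fun y => HahnSeries.coeff y k) h
    simp only [coeffMap_coeff, HahnSeries.coeff_zero] at this
    rw [HahnSeries.coeff_zero]
    exact hφ (by rw [this, _root_.map_zero])
  apply le_antisymm
  · apply HahnSeries.order_le_of_coeff_ne_zero
    rw [coeffMap_coeff]
    intro h
    exact hx (HahnSeries.coeff_order_eq_zero.mp (hφ (by rw [h, _root_.map_zero])))
  · apply HahnSeries.order_le_of_coeff_ne_zero
    intro h
    apply hx'
    apply HahnSeries.coeff_order_eq_zero.mp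
    rw [coeffMap_coeff, h, _root_.map_zero]

/-! ### The space `W` -/

section W

variable (F : IntermediateField Ω (LaurentSeries Ω)) (j h : LaurentSeries Ω) (m : ℕ)

/-- `W = {v ∈ h·F : v integral over Ω[j], v·j⁻ᵐ integral over Ω[j⁻¹]}`. -/
def descW : Submodule Ω (LaurentSeries Ω) where
  carrier := {v | (∃ g ∈ F, v = h * g) ∧ IsIntegral (Algebra.adjoin Ω {j}) v ∧
      IsIntegral (Algebra.adjoin Ω {j⁻¹}) (v * j⁻¹ ^ m)}
  zero_mem' := ⟨⟨0, zero_mem _, (mul_zero h).symm⟩, isIntegral_zero, by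
    rw [zero_mul]; exact isIntegral_zero⟩
  add_mem' := by
    rintro v w ⟨⟨g, hg, rfl⟩, hv1, hv2⟩ ⟨⟨g', hg', rfl⟩, hw1, hw2⟩
    refine ⟨⟨g + g', add_mem hg hg', (mul_add _ _ _).symm⟩, hv1.add hw1, ?_⟩
    rw [add_mul]
    exact hv2.add hw2
  smul_mem' := by
    rintro c v ⟨⟨g, hg, rfl⟩, hv1, hv2⟩
    show c • (h * g) ∈ _
    rw [descMain_smul_eq]
    refine ⟨⟨algebraMap Ω _ c * g, mul_mem (F.algebraMap_mem c) hg, by ring⟩, ?_, ?_⟩
    · exact (isIntegral_algebraMap
        (x := (⟨_, Subalgebra.algebraMap_mem _ c⟩ : Algebra.adjoin Ω {j}))).mul hv1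
    · rw [mul_assoc]
      exact (isIntegral_algebraMap
        (x := (⟨_, Subalgebra.algebraMap_mem _ c⟩ : Algebra.adjoin Ω {j⁻¹}))).mul hv2

variable {F j h m}

theorem mem_descW {v : LaurentSeries Ω} :
    v ∈ descW F j h m ↔ (∃ g ∈ F, v = h * g) ∧ IsIntegral (Algebra.adjoin Ω {j}) v ∧
      IsIntegral (Algebra.adjoin Ω {j⁻¹}) (v * j⁻¹ ^ m) := Iff.rfl

end W

/-! ### The main theorem -/

section Main

variable [IsAlgClosed K] [IsAlgClosed Ω] [CharZero Ω] [Algebra ℚ K] [Algebra ℚ Ω]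

open scoped IntermediateField.algebraAdjoinAdjoin in
/-- **DESCENT of Kummer classes** from `Ω` to `K`. -/
theorem desc_main (F₀ : IntermediateField ℚ (LaurentSeries ℚ))
    (j₀ : LaurentSeries ℚ) (hj₀ : j₀ ∈ F₀) (hj₀ord : j₀.order = -1) (n : ℕ)
    (hdeg : ∀ u ∈ laurentBaseChange Ω F₀,
      IsIntegral (IntermediateField.adjoin Ω {coeffEmb Ω j₀}) u ∧
        (minpoly (IntermediateField.adjoin Ω {coeffEmb Ω j₀}) u).natDegree ≤ n)
    (p : ℕ) (hp : 0 < p) (f h : LaurentSeries Ω) (hf : f ∈ laurentBaseChange Ω F₀)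
    (hf0 : f ≠ 0) (hh : h ^ p = f) (T : Set (LaurentSeries Ω)) (hT : T.Finite)
    (horb : ∀ σ : Ω ≃ₐ[K] Ω, ∃ t ∈ T, ∃ u ∈ laurentBaseChange Ω F₀, u ≠ 0 ∧
      coeffMap (σ : Ω →+* Ω) f = t * u ^ p) :
    ∃ g ∈ laurentBaseChange Ω F₀, g ≠ 0 ∧
      IsIntegral (Algebra.adjoin Ω {coeffEmb Ω j₀}) (h * g) ∧
      (∃ m : ℕ, IsIntegral (Algebra.adjoin Ω {(coeffEmb Ω j₀)⁻¹}) (h * g * (coeffEmb Ω j₀)⁻¹ ^ m)) ∧
      (∃ v' : LaurentSeries K, h * g = coeffMap (algebraMap K Ω) v') ∧
      ∃ f' ∈ laurentBaseChange K F₀, f * g ^ p = coeffMap (algebraMap K Ω) f' := by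
  classical
  set F := laurentBaseChange Ω F₀ with hFdef
  set j := coeffEmb Ω j₀ with hjdef
  have hjF : j ∈ F := coeffEmb_mem_laurentBaseChange Ω hj₀
  have hj : j.order = -1 := by
    rw [hjdef, coeffEmb, descMain_order_coeffMap _ (algebraMap ℚ Ω).injective, hj₀ord]
  have hj0 : j ≠ 0 := descBound_j_ne_zero hj
  have hh0 : h ≠ 0 := by
    rintro rfl
    rw [zero_pow hp.ne'] at hh
    exact hf0 hh.symm
  have hFstab : ∀ (σ : Ω ≃ₐ[K] Ω) (x : LaurentSeries Ω), x ∈ F → descSig σ x ∈ F :=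
    fun σ x hx => descSig_mem_laurentBaseChange F₀ σ hx
  have hσj : ∀ σ : Ω ≃ₐ[K] Ω, descSig σ j = j := fun σ => descSig_coeffEmb σ j₀
  have hσjinv : ∀ σ : Ω ≃ₐ[K] Ω, descSig σ j⁻¹ = j⁻¹ := fun σ => by
    rw [map_inv₀, hσj]
  have hadjF : ∀ x ∈ Algebra.adjoin Ω {j}, x ∈ F := by
    intro x hx
    have hle : Algebra.adjoin Ω {j} ≤ F.toSubalgebra :=
      Algebra.adjoin_le (Set.singleton_subset_iff.mpr hjF)
    exact hle hx
  -- the stabiliser
  set H := descStab F hFstab f p with hH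
  have hidx : H.index ≠ 0 := descStab_index_ne_zero F hFstab f p T hT horb
  -- a nonzero element of `W`
  obtain ⟨b, hbR, hb0, hbf⟩ : ∃ b ∈ Algebra.adjoin Ω {j}, b ≠ 0 ∧
      IsIntegral (Algebra.adjoin Ω {j}) (b * f) := by
    have halg : IsAlgebraic (Algebra.adjoin Ω {j}) f :=
      (IsFractionRing.isAlgebraic_iff (Algebra.adjoin Ω {j})
        (IntermediateField.adjoin Ω {j}) (LaurentSeries Ω)).mpr (hdeg f hf).1.isAlgebraic
    obtain ⟨y, hy0, hy⟩ := halg.exists_integral_multiple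
    refine ⟨y, y.2, fun h0 => hy0 (Subtype.ext h0), ?_⟩
    rwa [Algebra.smul_def] at hy
  have hbint : IsIntegral (Algebra.adjoin Ω {j}) b :=
    isIntegral_algebraMap (x := (⟨b, hbR⟩ : Algebra.adjoin Ω {j}))
  have hv₀int : IsIntegral (Algebra.adjoin Ω {j}) (h * b) := by
    refine IsIntegral.of_pow hp ?_
    have : (h * b) ^ p = (b * f) * b ^ (p - 1) := by
      rw [mul_pow, hh, mul_comm f, mul_assoc, mul_comm f, ← mul_assoc, ← pow_succ',
        Nat.sub_add_cancel hp, mul_comm]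
    rw [this]
    exact hbf.mul (hbint.pow _)
  obtain ⟨m, hm⟩ := descInt_exists_pow hj hv₀int
  have hv₀W : h * b ∈ descW F j h m := ⟨⟨b, hadjF b hbR, rfl⟩, hv₀int, hm⟩
  have hv₀0 : h * b ≠ 0 := mul_ne_zero hh0 hb0
  -- bounded orders
  have hbound : ∀ v ∈ descW F j h m, v ≠ 0 → v.order ≤ (m : ℤ) * ((n * p : ℕ) : ℤ) := by
    rintro v ⟨⟨g, hg, rfl⟩, hv1, hv2⟩ hv0
    refine descBound_order_le hj m (n * p) hv0 hv1 hv2 ?_
    have hvp : (h * g) ^ p ∈ F := by
      rw [mul_pow, hh]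
      exact mul_mem hf (pow_mem hg p)
    obtain ⟨hint, hdegp⟩ := hdeg _ hvp
    set E := IntermediateField.adjoin Ω {j} with hE
    have hQ0 : minpoly E ((h * g) ^ p) ≠ 0 := minpoly.ne_zero hint
    have hexp0 : Polynomial.expand E p (minpoly E ((h * g) ^ p)) ≠ 0 := by
      rwa [Ne, Polynomial.expand_eq_zero hp]
    have hroot : aeval (h * g) (Polynomial.expand E p (minpoly E ((h * g) ^ p))) = 0 := by
      rw [Polynomial.expand_aeval, minpoly.aeval]
    have h1 := minpoly.degree_le_of_ne_zero E (h * g) hexp0 hroot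
    have h2 := Polynomial.natDegree_le_natDegree h1
    rw [Polynomial.natDegree_expand] at h2
    exact h2.trans (Nat.mul_le_mul_right p hdegp)
  -- stability under `H`
  have hstab : ∀ φ ∈ {φ : Ω →+* Ω | ∃ σ ∈ H, φ = (σ : Ω →+* Ω)}, ∀ v ∈ descW F j h m,
      coeffMap φ v ∈ descW F j h m := by
    rintro φ ⟨σ, ⟨u, hu, hu0, hσ⟩, rfl⟩ v ⟨⟨g, hg, rfl⟩, hv1, hv2⟩
    show descSig σ (h * g) ∈ _
    -- `σ h = h * (ζ u)` with `ζ` a constant
    have hhu0 : h * u ≠ 0 := mul_ne_zero hh0 hu0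
    have hζ : (descSig σ h / (h * u)) ^ p = 1 := by
      rw [div_pow, ← _root_.map_pow, hh, hσ, mul_pow, hh]
      exact div_self (mul_ne_zero hf0 (pow_ne_zero _ hu0))
    obtain ⟨c, hc⟩ := descInt_mem_range_of_pow_eq_one (Ω := Ω) hp hζ
    have hσh : descSig σ h = h * (algebraMap Ω _ c * u) := by
      rw [hc, mul_comm (descSig σ h / (h * u)), ← mul_assoc, mul_div_assoc', mul_comm (h * u),
        mul_div_assoc, div_self hhu0, mul_one]
    refine ⟨⟨algebraMap Ω _ c * u * descSig σ g,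
      mul_mem (mul_mem (F.algebraMap_mem c) hu) (hFstab σ g hg), ?_⟩, ?_, ?_⟩
    · rw [_root_.map_mul, hσh]
      ring
    · exact descInt_isIntegral_map _ (descSig σ)
        (fun x hx => descInt_map_mem_adjoin (descSig σ) j (hσj σ)
          (fun c => ⟨σ c, descSig_algebraMap σ c⟩) hx) hv1
    · have h3 : descSig σ (h * g) * j⁻¹ ^ m = descSig σ (h * g * j⁻¹ ^ m) := by
        rw [_root_.map_mul (descSig σ) (h * g), _root_.map_pow, hσjinv]
      rw [h3]
      exact descInt_isIntegral_map _ (descSig σ)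
        (fun x hx => descInt_map_mem_adjoin (descSig σ) j⁻¹ (hσjinv σ)
          (fun c => ⟨σ c, descSig_algebraMap σ c⟩) hx) hv2
  -- the fixed vector
  obtain ⟨v, hvW, hv0, hvfix⟩ :=
    descEchelon_exists_fixed (descW F j h m) ⟨h * b, hv₀W, hv₀0⟩ _ hbound _ hstab
  have hcoeff : ∀ k, v.coeff k ∈ Set.range (algebraMap K Ω) := by
    intro k
    refine descAut_mem_range_of_fixed H hidx (v.coeff k) fun σ hσ => ?_
    have := congrArg (fun y => HahnSeries.coeff y k) (hvfix _ ⟨σ, hσ, rfl⟩)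
    simpa using this
  obtain ⟨v', hv'⟩ := descLin_exists_preimage v hcoeff
  obtain ⟨⟨g, hg, hvg⟩, hv1, hv2⟩ := hvW
  have hg0 : g ≠ 0 := by
    rintro rfl
    rw [mul_zero] at hvg
    exact hv0 hvg
  have hfg : f * g ^ p = coeffMap (algebraMap K Ω) (v' ^ p) := by
    rw [_root_.map_pow, hv', hvg, mul_pow, hh]
  refine ⟨g, hg, hg0, hvg ▸ hv1, ⟨m, hvg ▸ hv2⟩, ⟨v', by rw [hv', hvg]⟩, v' ^ p, ?_, hfg⟩
  apply descLin_mem_of_coeffMap_mem (Ω := Ω) F₀
  rw [← hfg]
  exact mul_mem hf (pow_mem hg p)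

end Main

end Fermat.Agent.S29.H152

end
-- ===== PACK-END S29/H152/DescMain.lean

-- ===== PACK-BEGIN S28/H685/JPrinciple.lean
section



/-!
# S28 helper (helper685): the `j`-polynomial principle (abstract Hauptmodul form)

A function on `ℍ` which is the sum of a convergent Laurent series in `q = exp (2 π i τ)` with
finitely many negative exponents and which is invariant under `τ ↦ -1/τ` is a polynomial in any
"Hauptmodul" `j` (an `S`-invariant function with a convergent expansion `q⁻¹ + O(1)`), and the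
same identity holds for the formal Laurent series.
-/

set_option autoImplicit false

namespace Fermat.Agent.S28.H685

open UpperHalfPlane Function Complex Filter HahnSeries ModularForm SlashInvariantForm
  ModularFormClass
open scoped Topology Manifold MatrixGroups

noncomputable section

local notation "𝕢" => Periodic.qParam

/-- Weight-zero slash invariance is invariance. -/
theorem slash_zero_eq_of_invariant (F : ℍ → ℂ) (γ : SL(2, ℤ))
    (hγ : ∀ τ, F (γ • τ) = F τ) : F ∣[(0 : ℤ)] γ = F := by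
  ext z
  rw [SL_slash_apply]
  simp only [neg_zero, zpow_zero, mul_one]
  exact hγ z

/-- A holomorphic function, bounded at `i∞` and invariant under `S` and `T`, as a modular form
of weight zero and level one. -/
def levelOneOfInvariant (F : ℍ → ℂ) (hol : MDiff F) (bdd : IsBoundedAtImInfty F)
    (hS : ∀ τ, F (ModularGroup.S • τ) = F τ) (hT : ∀ τ, F (ModularGroup.T • τ) = F τ) :
    ModularForm 𝒮ℒ 0 where
  toFun := F
  slash_action_eq' A hA := by
    obtain ⟨A, rfl⟩ := hA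
    exact slash_action_generators_SL2Z (slash_zero_eq_of_invariant F _ hS)
      (slash_zero_eq_of_invariant F _ hT) A
  holo' := hol
  bdd_at_cusps' hc := by
    rw [Subgroup.IsArithmetic.isCusp_iff_isCusp_SL2Z] at hc
    rw [OnePoint.isBoundedAt_iff_forall_SL2Z hc]
    intro γ _
    rw [slash_action_generators_SL2Z (slash_zero_eq_of_invariant F _ hS)
      (slash_zero_eq_of_invariant F _ hT)]
    exact bdd

/-- A holomorphic function on `ℍ`, bounded at `i∞` and invariant under `S` and `T`, is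
constant. -/
theorem exists_const_of_invariant (F : ℍ → ℂ) (hol : MDiff F) (bdd : IsBoundedAtImInfty F)
    (hS : ∀ τ, F (ModularGroup.S • τ) = F τ) (hT : ∀ τ, F (ModularGroup.T • τ) = F τ) :
    ∃ c : ℂ, ∀ τ, F τ = c := by
  obtain ⟨c, hc⟩ := levelOne_weight_zero_const (levelOneOfInvariant F hol bdd hS hT)
  exact ⟨c, fun τ => congrFun hc τ⟩

/-- Invariance under `T` of a function given by a `q`-series of period one. -/
theorem HasQLaurent.T_invariant {F : ℍ → ℂ} {φ : LaurentSeries ℂ} (hF : HasQLaurent 1 F φ)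
    (τ : ℍ) : F (ModularGroup.T • τ) = F τ := by
  refine hF.vadd_period one_pos τ _ ?_
  rw [UpperHalfPlane.modular_T_smul]
  simp [add_comm]

/-- A Laurent series without negative exponents is a power series. -/
theorem exists_ofPowerSeries_eq (φ : LaurentSeries ℂ) (hφ : ∀ n : ℤ, n < 0 → φ.coeff n = 0) :
    ∃ A : PowerSeries ℂ, HahnSeries.ofPowerSeries ℤ ℂ A = φ := by
  refine ⟨PowerSeries.mk fun n => φ.coeff n, ?_⟩
  ext n
  rcases lt_or_ge n 0 with hn | hn
  · rw [ofPS_coeff_of_neg _ hn, hφ n hn]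
  · lift n to ℕ using hn
    rw [HahnSeries.ofPowerSeries_apply_coeff, PowerSeries.coeff_mk]

/-- The constant case of the principle. -/
theorem exists_const_of_S_invariant (F : ℍ → ℂ) (φ : LaurentSeries ℂ)
    (hφ : ∀ n : ℤ, n < 0 → φ.coeff n = 0) (hF : HasQLaurent 1 F φ)
    (hS : ∀ τ, F (ModularGroup.S • τ) = F τ) :
    ∃ c : ℂ, φ = HahnSeries.C c ∧ ∀ τ, F τ = c := by
  obtain ⟨A, rfl⟩ := exists_ofPowerSeries_eq φ hφ
  have hA : HasQExp 1 F A := hF.hasQExp_of_ofPowerSeries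
  obtain ⟨c, hc⟩ := exists_const_of_invariant F (hA.mdifferentiable one_pos)
    (hA.isBoundedAtImInfty one_pos) hS hF.T_invariant
  refine ⟨c, ?_, hc⟩
  have h1 : HasQLaurent 1 (fun _ => c) (HahnSeries.ofPowerSeries ℤ ℂ A) := hF.congr_fun hc
  exact h1.unique one_pos (HasQLaurent.const c)

/-- Structure of the powers of a series `q⁻¹ (1 + O(q))`. -/
theorem hauptmodul_pow (J : PowerSeries ℂ) (n : ℕ) :
    (HahnSeries.single (-1 : ℤ) (1 : ℂ) * HahnSeries.ofPowerSeries ℤ ℂ J) ^ n =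
      HahnSeries.single (-(n : ℤ)) (1 : ℂ) * HahnSeries.ofPowerSeries ℤ ℂ (J ^ n) := by
  have h : n • (-1 : ℤ) = -(n : ℤ) := by simp
  rw [mul_pow, HahnSeries.single_pow, one_pow, h, ← map_pow]

theorem coeff_hauptmodul_pow_self (J : PowerSeries ℂ) (hJ : PowerSeries.constantCoeff J = 1)
    (n : ℕ) :
    ((HahnSeries.single (-1 : ℤ) (1 : ℂ) * HahnSeries.ofPowerSeries ℤ ℂ J) ^ n).coeff
      (-(n : ℤ)) = 1 := by
  rw [hauptmodul_pow]
  have := coeff_single_mul_ofPS (-(n : ℤ)) (J ^ n) 0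
  simp only [Nat.cast_zero, zero_add] at this
  rw [this, PowerSeries.coeff_zero_eq_constantCoeff, map_pow, hJ, one_pow]

theorem coeff_hauptmodul_pow_of_lt (J : PowerSeries ℂ) (n : ℕ) {k : ℤ} (hk : k < -(n : ℤ)) :
    ((HahnSeries.single (-1 : ℤ) (1 : ℂ) * HahnSeries.ofPowerSeries ℤ ℂ J) ^ n).coeff k = 0 := by
  rw [hauptmodul_pow]
  exact coeff_single_mul_ofPS_of_lt _ _ hk

/-- **The `j`-polynomial principle**, abstract form. -/
theorem exists_polynomial_of_S_invariant_aux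
    (jF : ℍ → ℂ) (J : PowerSeries ℂ) (hJ0 : PowerSeries.constantCoeff J = 1)
    (hj : HasQLaurent 1 jF (HahnSeries.single (-1 : ℤ) (1 : ℂ) * HahnSeries.ofPowerSeries ℤ ℂ J))
    (hjS : ∀ τ, jF (ModularGroup.S • τ) = jF τ) :
    ∀ (m : ℕ) (F : ℍ → ℂ) (φ : LaurentSeries ℂ), (∀ n : ℤ, n < -(m : ℤ) → φ.coeff n = 0) →
      HasQLaurent 1 F φ → (∀ τ, F (ModularGroup.S • τ) = F τ) →
      ∃ P : Polynomial ℂ, P.natDegree ≤ m ∧
        φ = Polynomial.aeval
          (HahnSeries.single (-1 : ℤ) (1 : ℂ) * HahnSeries.ofPowerSeries ℤ ℂ J) P ∧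
        ∀ τ, F τ = P.eval (jF τ) := by
  intro m
  induction m with
  | zero =>
    intro F φ hφ hF hS
    obtain ⟨c, hc, hFc⟩ := exists_const_of_S_invariant F φ (by simpa using hφ) hF hS
    refine ⟨Polynomial.C c, by simp, ?_, fun τ => by simpa using hFc τ⟩
    rw [hc, Polynomial.aeval_C, algebraMap_eq_C]
  | succ m ih =>
    intro F φ hφ hF hS
    set jφ := HahnSeries.single (-1 : ℤ) (1 : ℂ) * HahnSeries.ofPowerSeries ℤ ℂ J with hjφ
    set a := φ.coeff (-((m + 1 : ℕ) : ℤ)) with ha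
    have hF' : HasQLaurent 1 (fun τ => F τ - a * jF τ ^ (m + 1))
        (φ - HahnSeries.C a * jφ ^ (m + 1)) := hF.sub ((hj.pow (m + 1)).const_mul a)
    have hS' : ∀ τ, (fun τ => F τ - a * jF τ ^ (m + 1)) (ModularGroup.S • τ) =
        (fun τ => F τ - a * jF τ ^ (m + 1)) τ := by
      intro τ
      simp only [hS τ, hjS τ]
    have hφ' : ∀ n : ℤ, n < -(m : ℤ) → (φ - HahnSeries.C a * jφ ^ (m + 1)).coeff n = 0 := by
      intro n hn
      rw [HahnSeries.coeff_sub, HahnSeries.C_mul_eq_smul, HahnSeries.coeff_smul, smul_eq_mul]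
      rcases lt_or_eq_of_le (show n ≤ -((m + 1 : ℕ) : ℤ) by push_cast; omega) with h1 | h1
      · rw [hφ n h1, coeff_hauptmodul_pow_of_lt J (m + 1) h1, mul_zero, sub_zero]
      · rw [h1, coeff_hauptmodul_pow_self J hJ0 (m + 1), mul_one, ← ha, sub_self]
    obtain ⟨P, hPdeg, hPφ, hPF⟩ := ih _ _ hφ' hF' hS'
    refine ⟨P + Polynomial.C a * Polynomial.X ^ (m + 1), ?_, ?_, ?_⟩
    · refine (Polynomial.natDegree_add_le _ _).trans (max_le (hPdeg.trans (Nat.le_succ m)) ?_)
      exact (Polynomial.natDegree_C_mul_X_pow_le a (m + 1))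
    · rw [_root_.map_add, ← hPφ, _root_.map_mul, map_pow, Polynomial.aeval_X, Polynomial.aeval_C,
        algebraMap_eq_C]
      ring
    · intro τ
      have := hPF τ
      simp only [Polynomial.eval_add, Polynomial.eval_mul, Polynomial.eval_C,
        Polynomial.eval_pow, Polynomial.eval_X]
      rw [← this]
      ring

end

end Fermat.Agent.S28.H685

end
-- ===== PACK-END S28/H685/JPrinciple.lean

-- ===== PACK-BEGIN S29/H942/MeroRootUnique.lean
section


/-!
# Uniqueness of meromorphic `p`-th roots up to a root of unity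
-/

set_option autoImplicit false

noncomputable section

open Filter Topology Set Complex MeromorphicOn Function

namespace Fermat.Agent.S29.H942

/-- `h` is a `p`-th root of `f` on `V`, in normal form: `h` is meromorphic in normal form on `V`
and `h ^ p = f` on a punctured neighbourhood of every point of `V`. -/
def IsNFRootOn (h f : ℂ → ℂ) (V : Set ℂ) (p : ℕ) : Prop :=
  MeromorphicNFOn h V ∧ ∀ x ∈ V, (h ^ p) =ᶠ[𝓝[≠] x] f

lemma IsNFRootOn.mono {h f : ℂ → ℂ} {V W : Set ℂ} {p : ℕ} (hh : IsNFRootOn h f V p)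
    (hWV : W ⊆ V) : IsNFRootOn h f W p :=
  ⟨fun _ hz => hh.1 (hWV hz), fun x hx => hh.2 x (hWV hx)⟩

/-- Equality on a codiscrete subset of an open set gives equality on punctured neighbourhoods. -/
lemma eventuallyEq_nhdsNE_of_codiscreteWithin {f g : ℂ → ℂ} {V : Set ℂ} (hV : IsOpen V)
    (h : f =ᶠ[codiscreteWithin V] g) {x : ℂ} (hx : x ∈ V) : f =ᶠ[𝓝[≠] x] g := by
  have h1 := (mem_codiscreteWithin_iff_forall_mem_nhdsNE.1 h) x hx
  have h2 : V ∈ 𝓝[≠] x := mem_nhdsWithin_of_mem_nhds (hV.mem_nhds hx)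
  filter_upwards [h1, h2] with y hy hyV
  rcases hy with hy | hy
  · exact hy
  · exact absurd hyV hy

/-- From a meromorphic root to a root in normal form. -/
lemma isNFRootOn_toMeromorphicNFOn {h f : ℂ → ℂ} {V : Set ℂ} (hV : IsOpen V) {p : ℕ}
    (hh : MeromorphicOn h V) (hpow : (h ^ p) =ᶠ[codiscreteWithin V] f) :
    IsNFRootOn (toMeromorphicNFOn h V) f V p := by
  refine ⟨meromorphicNFOn_toMeromorphicNFOn h V, fun x hx => ?_⟩
  have h1 := hh.toMeromorphicNFOn_eq_self_on_nhdsNE hx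
  have h2 := eventuallyEq_nhdsNE_of_codiscreteWithin hV hpow hx
  filter_upwards [h1, h2] with y hy1 hy2
  simp only [Pi.pow_apply] at hy2 ⊢
  rw [hy1, hy2]

/-- The order of a root is finite if the order of the function is finite. -/
lemma IsNFRootOn.order_ne_top {h f : ℂ → ℂ} {V : Set ℂ} {p : ℕ} (hp : p ≠ 0)
    (hh : IsNFRootOn h f V p) {x : ℂ} (hx : x ∈ V) (hf : meromorphicOrderAt f x ≠ ⊤) :
    meromorphicOrderAt h x ≠ ⊤ := by
  intro htop
  apply hf
  rw [← meromorphicOrderAt_congr (hh.2 x hx), meromorphicOrderAt_pow (hh.1 hx).meromorphicAt,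
    htop]
  exact WithTop.mul_top (by exact_mod_cast hp)

/-- A root of a function of finite order does not vanish on a punctured neighbourhood. -/
lemma IsNFRootOn.eventually_ne_zero {h f : ℂ → ℂ} {V : Set ℂ} {p : ℕ} (hp : p ≠ 0)
    (hh : IsNFRootOn h f V p) {x : ℂ} (hx : x ∈ V) (hf : meromorphicOrderAt f x ≠ ⊤) :
    ∀ᶠ y in 𝓝[≠] x, h y ≠ 0 :=
  (meromorphicOrderAt_ne_top_iff_eventually_ne_zero (hh.1 hx).meromorphicAt).1
    (hh.order_ne_top hp hx hf)

/-- A function in normal form whose `p`-th power is `1` on a punctured neighbourhood of `x` is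
analytic at `x` and its `p`-th power is `1` at `x`. -/
lemma analyticAt_of_nf_pow_eq_one {q : ℂ → ℂ} {x : ℂ} {p : ℕ} (hp : p ≠ 0)
    (hq : MeromorphicNFAt q x) (hpow : (q ^ p) =ᶠ[𝓝[≠] x] (fun _ => (1 : ℂ))) :
    AnalyticAt ℂ q x ∧ q x ^ p = 1 := by
  have h1 : meromorphicOrderAt (q ^ p) x = 0 := by
    rw [meromorphicOrderAt_congr hpow]
    have : AnalyticAt ℂ (fun _ : ℂ => (1 : ℂ)) x := analyticAt_const
    rw [this.meromorphicOrderAt_eq]
    simp [analyticOrderAt_eq_zero]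
  rw [meromorphicOrderAt_pow hq.meromorphicAt] at h1
  have h2 : meromorphicOrderAt q x = 0 := by
    have hne : meromorphicOrderAt q x ≠ ⊤ := by
      intro h3
      rw [h3, WithTop.mul_top (by exact_mod_cast hp)] at h1
      exact absurd h1 (by simp)
    obtain ⟨n, hn⟩ := WithTop.ne_top_iff_exists.1 hne
    rw [← hn] at h1 ⊢
    have h4 : (((p : ℤ) * n : ℤ) : WithTop ℤ) = 0 := by
      rw [← h1]
      push_cast
      rfl
    have h5 : (p : ℤ) * n = 0 := by exact_mod_cast h4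
    have h6 : n = 0 := by
      rcases mul_eq_zero.1 h5 with h | h
      · exact absurd (by exact_mod_cast h) hp
      · exact h
    rw [h6]
    rfl
  have hA : AnalyticAt ℂ q x := hq.meromorphicOrderAt_nonneg_iff_analyticAt.1 (le_of_eq h2.symm)
  refine ⟨hA, ?_⟩
  have hc : ContinuousAt (q ^ p) x := (hA.pow p).continuousAt
  have hc1 : ContinuousAt (fun _ : ℂ => (1 : ℂ)) x := continuousAt_const
  have := (hc.eventuallyEq_nhds_iff_eventuallyEq_nhdsNE hc1).1 hpow
  exact this.self_of_nhds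

/-- **Uniqueness.** Two roots in normal form of the same function (of finite order everywhere)
on a preconnected open set differ by a `p`-th root of unity. -/
theorem IsNFRootOn.exists_eq_mul {h₁ h₂ f : ℂ → ℂ} {V : Set ℂ} {p : ℕ} (hp : p ≠ 0)
    (hV : IsOpen V) (hVc : IsPreconnected V) (hf : ∀ x ∈ V, meromorphicOrderAt f x ≠ ⊤)
    (hh₁ : IsNFRootOn h₁ f V p) (hh₂ : IsNFRootOn h₂ f V p) :
    ∃ ζ : ℂ, ζ ^ p = 1 ∧ ∀ x ∈ V, h₂ x = ζ * h₁ x := by
  have hm₁ : MeromorphicOn h₁ V := hh₁.1.meromorphicOn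
  have hm₂ : MeromorphicOn h₂ V := hh₂.1.meromorphicOn
  have hmq : MeromorphicOn (h₂ / h₁) V := hm₂.div hm₁
  set q := toMeromorphicNFOn (h₂ / h₁) V with hq
  have hqNF : MeromorphicNFOn q V := meromorphicNFOn_toMeromorphicNFOn _ _
  -- `q = h₂ / h₁` on punctured neighbourhoods
  have hq1 : ∀ x ∈ V, q =ᶠ[𝓝[≠] x] (h₂ / h₁) := fun x hx =>
    hmq.toMeromorphicNFOn_eq_self_on_nhdsNE hx
  -- `q ^ p = 1` on punctured neighbourhoods
  have hq2 : ∀ x ∈ V, (q ^ p) =ᶠ[𝓝[≠] x] (fun _ => (1 : ℂ)) := by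
    intro x hx
    filter_upwards [hq1 x hx, hh₁.2 x hx, hh₂.2 x hx, hh₁.eventually_ne_zero hp hx (hf x hx)]
      with y hy1 hy2 hy3 hy4
    simp only [Pi.pow_apply, Pi.div_apply] at hy1 hy2 hy3 ⊢
    rw [hy1, div_pow, hy2, hy3, div_self]
    rw [← hy2]
    exact pow_ne_zero p hy4
  have hq3 : ∀ x ∈ V, AnalyticAt ℂ q x ∧ q x ^ p = 1 := fun x hx =>
    analyticAt_of_nf_pow_eq_one hp (hqNF hx) (hq2 x hx)
  -- `q` is constant
  have hqc : ContinuousOn q V := fun x hx => (hq3 x hx).1.continuousAt.continuousWithinAt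
  have hT : IsDiscrete {t : ℂ | t ^ p = 1} := by
    have hfin : {t : ℂ | t ^ p = 1}.Finite := by
      refine Set.Finite.subset (Polynomial.nthRootsFinset p (1 : ℂ)).finite_toSet ?_
      intro t ht
      simp only [Finset.mem_coe]
      exact (Polynomial.mem_nthRootsFinset (Nat.pos_of_ne_zero hp) _).2 ht
    exact hfin.isDiscrete
  obtain ⟨ζ, hζ, hqζ⟩ := hVc.eqOn_const_of_mapsTo hT hqc (fun x hx => (hq3 x hx).2)
    ⟨1, by simp⟩
  have hζ0 : ζ ≠ 0 := by
    intro h0
    have hζ' : ζ ^ p = 1 := hζ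
    rw [h0, zero_pow hp] at hζ'
    exact zero_ne_one hζ'
  refine ⟨ζ, hζ, fun x hx => ?_⟩
  -- both sides are in normal form at `x` and agree on a punctured neighbourhood
  have hNF2 : MeromorphicNFAt h₂ x := hh₂.1 hx
  have hNF1 : MeromorphicNFAt ((fun _ : ℂ => ζ) • h₁) x :=
    (hh₁.1 hx).smul_analytic analyticAt_const hζ0
  have hVn : V ∈ 𝓝[≠] x := mem_nhdsWithin_of_mem_nhds (hV.mem_nhds hx)
  have heq : h₂ =ᶠ[𝓝[≠] x] ((fun _ : ℂ => ζ) • h₁) := by
    filter_upwards [hq1 x hx, hh₁.eventually_ne_zero hp hx (hf x hx), hVn] with y hy1 hy2 hyV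
    have h3 : q y = ζ := hqζ hyV
    simp only [Pi.div_apply] at hy1
    simp only [Pi.smul_apply', smul_eq_mul]
    rw [← h3, hy1, div_mul_cancel₀ _ hy2]
  have := (hNF2.eventuallyEq_nhdsNE_iff_eventuallyEq_nhds hNF1).1 heq
  simpa using this.self_of_nhds

end Fermat.Agent.S29.H942

end
end
-- ===== PACK-END S29/H942/MeroRootUnique.lean

-- ===== PACK-BEGIN S28/H867/Degree.lean
section



set_option autoImplicit false
noncomputable section
open ModularCurve HahnSeries IntermediateField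

namespace Fermat.Agent.S28.H867

section Generic

variable {k Ω : Type*} [Field k] [Field Ω] [Algebra k Ω]

/-- `[A(S) : A]` as a `relfinrank`. -/
theorem relfinrank_sup_adjoin (A : IntermediateField k Ω) (S : Set Ω) :
    A.relfinrank (A ⊔ adjoin k S) = Module.finrank A (adjoin A S) := by
  have h : A ≤ A ⊔ adjoin k S := le_sup_left
  rw [relfinrank_eq_finrank_of_le h]
  have : extendScalars h = adjoin A S := by
    apply IntermediateField.restrictScalars_injective k
    rw [extendScalars_restrictScalars, restrictScalars_adjoin_eq_sup]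
  rw [this]

theorem relfinrank_sup_adjoin_simple (A : IntermediateField k Ω) {x : Ω} (hx : IsIntegral A x) :
    A.relfinrank (A ⊔ adjoin k {x}) = (minpoly A x).natDegree := by
  rw [relfinrank_sup_adjoin, adjoin.finrank hx]

theorem relfinrank_sup_adjoin_ne_zero (A : IntermediateField k Ω) {S : Set Ω} (hS : S.Finite)
    (hint : ∀ x ∈ S, IsIntegral A x) : A.relfinrank (A ⊔ adjoin k S) ≠ 0 := by
  rw [relfinrank_sup_adjoin]
  have : Finite S := hS
  have := finiteDimensional_adjoin (K := A) hint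
  exact Module.finrank_pos.ne'

theorem relfinrank_ne_zero_of_le {A B C : IntermediateField k Ω} (hAB : A ≤ B) (hBC : B ≤ C)
    (h : A.relfinrank C ≠ 0) : A.relfinrank B ≠ 0 ∧ B.relfinrank C ≠ 0 := by
  rw [← relfinrank_mul_relfinrank hAB hBC] at h
  exact ⟨left_ne_zero_of_mul h, right_ne_zero_of_mul h⟩

/-- A linearly independent family of size `n` inside `C` bounds `[C : B]` from below
(when finite). -/
theorem le_relfinrank_of_linearIndependent {B C : IntermediateField k Ω} (hBC : B ≤ C)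
    (hfin : B.relfinrank C ≠ 0) {n : ℕ} (v : Fin n → Ω) (hv : ∀ i, v i ∈ C)
    (hli : LinearIndependent B v) : n ≤ B.relfinrank C := by
  rw [relfinrank_eq_finrank_of_le hBC] at hfin ⊢
  have hfd : FiniteDimensional B (extendScalars hBC) :=
    Module.finite_of_finrank_pos (Nat.pos_of_ne_zero hfin)
  let v' : Fin n → extendScalars hBC := fun i => ⟨v i, hv i⟩
  have hli' : LinearIndependent B v' := by
    apply LinearIndependent.of_comp (extendScalars hBC).val.toLinearMap
    exact hli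
  simpa using hli'.fintype_card_le_finrank

end Generic

section Basic

variable (k : Type*) [Field k]

theorem jField_le_EF (M : ℕ) : jField k ≤ EF k M := by
  rw [jField, adjoin_simple_le_iff]
  exact jqModC_mem_full k M

theorem jpField_eq_map (p : ℕ) [NeZero p] :
    jpField k p = (jField k).map (qExpandAlgHomC k p) := by
  rw [jpField, jField, adjoin_map, Set.image_singleton]
  rfl

theorem EF_le_EF_mul (M p : ℕ) [NeZero M] [NeZero p] : EF k M ≤ EF k (M * p) :=
  haveI : NeZero (M * p) := ⟨Nat.mul_ne_zero (NeZero.ne M) (NeZero.ne p)⟩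
  full_degeneracyC_le k (Dvd.intro _ rfl)

theorem map_EF_le (M p : ℕ) [NeZero p] :
    (EF k M).map (qExpandAlgHomC k p) ≤ EF k (M * p) :=
  full_degeneracyC_map_le k M p

/-- Step (b): `[E_{Mp} : k(j)] ≥ p · [E_M : k(j)]`. -/
theorem degE_mul_ge (M p : ℕ) [NeZero p] (hP : PrimeLevel k p) (hI : LeafI k p)
    (hfin : degE k (M * p) ≠ 0) : p * degE k M ≤ degE k (M * p) := by
  set V := qExpandAlgHomC k p with hV
  set A₀ := jField k with hA₀
  set A := jpField k p with hA
  set B := (EF k M).map V with hB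
  set C := B ⊔ A₀ with hC
  set E' := EF k (M * p) with hE'
  set P := A₀ ⊔ A with hPdef
  have hAB : A ≤ B := by
    rw [hA, jpField_eq_map, hB]
    exact IntermediateField.map_mono _ (jField_le_EF k M)
  have hBE : B ≤ E' := map_EF_le k M p
  have hA₀E : A₀ ≤ E' := jField_le_EF k (M * p)
  have hCE : C ≤ E' := sup_le hBE hA₀E
  have hBC : B ≤ C := le_sup_left
  have hPC : P ≤ C := sup_le le_sup_right (hAB.trans hBC)
  have hPE : P ≤ E' := hPC.trans hCE
  have hA₀P : A₀ ≤ P := le_sup_left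
  have hAP : A ≤ P := le_sup_right
  -- D_{Mp} = [E' : A]
  have h1 : A₀.relfinrank E' = A.relfinrank E' := by
    rw [← relfinrank_mul_relfinrank hA₀P hPE, ← relfinrank_mul_relfinrank hAP hPE,
      hP.deg_j, hP.deg_jp]
  have h2 : A.relfinrank E' = A.relfinrank B * (B.relfinrank C * C.relfinrank E') := by
    rw [relfinrank_mul_relfinrank hBC hCE, relfinrank_mul_relfinrank hAB hBE]
  have h3 : A.relfinrank B = degE k M := by
    rw [hA, jpField_eq_map, hB, relfinrank_map_map]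
    rfl
  have hfin' : A.relfinrank E' ≠ 0 := by rw [← h1]; exact hfin
  have hBCfin : B.relfinrank C ≠ 0 := by
    rw [h2] at hfin'
    exact left_ne_zero_of_mul (right_ne_zero_of_mul hfin')
  have hCEfin : C.relfinrank E' ≠ 0 := by
    rw [h2] at hfin'
    exact right_ne_zero_of_mul (right_ne_zero_of_mul hfin')
  have h4 : p ≤ B.relfinrank C := by
    refine le_relfinrank_of_linearIndependent hBC hBCfin _ ?_ (hI B ?_)
    · intro i
      refine _root_.pow_mem ?_ _
      exact (le_sup_right : A₀ ≤ C) (mem_adjoin_simple_self k _)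
    · rw [hB]
      intro x hx
      obtain ⟨y, -, rfl⟩ := hx
      exact ⟨y, rfl⟩
  show p * degE k M ≤ A₀.relfinrank E'
  rw [h1, h2, h3]
  calc p * degE k M = degE k M * (p * 1) := by ring
    _ ≤ degE k M * (B.relfinrank C * C.relfinrank E') := by
        apply Nat.mul_le_mul_left
        exact Nat.mul_le_mul h4 (Nat.one_le_iff_ne_zero.mpr hCEfin)

end Basic

end Fermat.Agent.S28.H867

end
end
-- ===== PACK-END S28/H867/Degree.lean

-- ===== PACK-BEGIN S28/H626/Pair.lean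
section
/-
S28 helper (helper626): the gcd lemma for the generators `j(q^d)`:
`j(q^{pre}) ∈ k(j(q^{re}), j(q^{pe}))` for distinct primes `p ≠ r` (invertible in `k`).
-/




set_option autoImplicit false

noncomputable section

open ModularCurve HahnSeries Polynomial

namespace Fermat.Agent.S28.H626

section Relations

variable (k : Type*) [Field k]

/-- `j(q^d) ∈ k((q))`. -/
abbrev jd (d : ℕ) [NeZero d] : LaurentSeries k := qExpand k d (jqModC k)

theorem jd_congr {d d' : ℕ} [NeZero d] [NeZero d'] (h : d = d') : jd k d = jd k d' := by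
  subst h; rfl

/-- the ring hom `ℤ((q)) → k((q))`, `q ↦ q^e`. -/
def levelHom (e : ℕ) [NeZero e] : LaurentSeries ℤ →+* LaurentSeries k :=
  (qExpand k e).comp (coeffMap (Int.castRingHom k))

theorem levelHom_j (e : ℕ) [NeZero e] : levelHom k e (jqModC ℤ) = jd k e := by
  simp only [levelHom, RingHom.comp_apply, coeffMap_jqModC]

theorem levelHom_jp (e : ℕ) [NeZero e] (p : ℕ) [NeZero p] :
    levelHom k e (qExpand ℤ p (jqModC ℤ)) = jd k (e * p) := by
  simp only [levelHom, RingHom.comp_apply, coeffMap_qExpand, coeffMap_jqModC, qExpand_qExpand]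

variable {k}

/-- `Φ_p(j(q^e), j(q^{ep})) = 0`. -/
theorem ev2_jd_up {p : ℕ} [NeZero p] {Φ : Polynomial (Polynomial ℤ)} (hΦ : IsModPoly p Φ)
    (e : ℕ) [NeZero e] : ev2 Φ (jd k e) (jd k (e * p)) = 0 := by
  have h := congrArg (levelHom k e) hΦ.eval_jp
  rwa [map_ev2, levelHom_j, levelHom_jp, _root_.map_zero] at h

/-- `Φ_p(j(q^{ep}), j(q^e)) = 0`. -/
theorem ev2_jd_down {p : ℕ} [NeZero p] {Φ : Polynomial (Polynomial ℤ)} (hΦ : IsModPoly p Φ)
    (e : ℕ) [NeZero e] : ev2 Φ (jd k (e * p)) (jd k e) = 0 := by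
  have h := congrArg (levelHom k e) hΦ.eval_j
  rwa [map_ev2, levelHom_j, levelHom_jp, _root_.map_zero] at h

theorem jd_ne_of_ne {d d' : ℕ} [NeZero d] [NeZero d'] (h : d ≠ d') : jd k d ≠ jd k d' := by
  have h1 : jd k d = jTw k 1 d := (jTw_one k d).symm
  have h2 : jd k d' = jTw k 1 d' := (jTw_one k d').symm
  rw [h1, h2]
  exact jTw_ne_of_ne h

end Relations

section Embedding

variable (k : Type*) [Field k] (Ω : Type*) [Field Ω] [Algebra k Ω]

/-- The embedding `k((q)) → Ω((t))`, `q ↦ t^m`. -/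
def embHom (m : ℕ) [NeZero m] : LaurentSeries k →+* LaurentSeries Ω :=
  (qExpand Ω m).comp (coeffMap (algebraMap k Ω))

theorem embHom_jd (m : ℕ) [NeZero m] (d : ℕ) [NeZero d] :
    embHom k Ω m (jd k d) = jTw Ω 1 (m * d) := by
  simp only [embHom, RingHom.comp_apply, jd, coeffMap_qExpand, coeffMap_jqModC, qExpand_qExpand,
    jTw_one]

end Embedding

section Pair

variable {k : Type*} [Field k]

theorem exists_primitiveRoot_unit (Ω : Type*) [Field Ω] (p : ℕ) [HasEnoughRootsOfUnity Ω p]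
    (hp : p ≠ 0) : ∃ ζ : Ωˣ, IsPrimitiveRoot ζ p := by
  obtain ⟨ζ, hζ⟩ := HasEnoughRootsOfUnity.exists_primitiveRoot Ω p
  obtain ⟨u, hu⟩ := hζ.isUnit hp
  refine ⟨u, ?_⟩
  rw [← IsPrimitiveRoot.coe_units_iff, hu]
  exact hζ

/-- **The gcd lemma.** For distinct primes `p ≠ r` invertible in `k`,
`j(q^{pre})` lies in every subfield of `k((q))` containing `j(q^{re})` and `j(q^{pe})`. -/
theorem jd_mem_of_pair {p r : ℕ} [NeZero p] [NeZero r] (hp : p.Prime) (hr : r.Prime)
    (hpr : p ≠ r) [NeZero (p : k)] [NeZero (r : k)]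
    {Φp Φr : Polynomial (Polynomial ℤ)} (hΦp : IsModPoly p Φp) (hΦr : IsModPoly r Φr)
    (e : ℕ) [NeZero e] (E : IntermediateField k (LaurentSeries k))
    (h1 : jd k (r * e) ∈ E) (h2 : jd k (p * e) ∈ E) : jd k (p * r * e) ∈ E := by
  classical
  obtain ⟨ζp, hζp⟩ := exists_primitiveRoot_unit (AlgebraicClosure k) p hp.ne_zero
  obtain ⟨ζr, hζr⟩ := exists_primitiveRoot_unit (AlgebraicClosure k) r hr.ne_zero
  have hp0 : 0 < p := hp.pos
  have hr0 : 0 < r := hr.pos
  have he0 : 0 < e := Nat.pos_of_ne_zero (NeZero.ne e)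
  -- the two polynomials over `E`
  set y1 : E := ⟨jd k (r * e), h1⟩ with hy1
  set y2 : E := ⟨jd k (p * e), h2⟩ with hy2
  set ι : LaurentSeries k →+* LaurentSeries (AlgebraicClosure k) :=
    embHom k (AlgebraicClosure k) (p * r) with hι
  have hP : ((spec Φp y1).map (ι.comp (algebraMap E (LaurentSeries k)))) =
      spec Φp (jTw (AlgebraicClosure k) 1 (r * r * e * p)) := by
    rw [map_spec]
    congr 1
    show ι (jd k (r * e)) = _
    rw [hι, embHom_jd]
    exact jTw_congr _ (by ring)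
  have hQ : ((spec Φr y2).map (ι.comp (algebraMap E (LaurentSeries k)))) =
      spec Φr (jTw (AlgebraicClosure k) 1 (p * p * e * r)) := by
    rw [map_spec]
    congr 1
    show ι (jd k (p * e)) = _
    rw [hι, embHom_jd]
    exact jTw_congr _ (by ring)
  have hx : ι (jd k (p * r * e)) = jTw (AlgebraicClosure k) 1 (r * r * e * p * p) := by
    rw [hι, embHom_jd]
    exact jTw_congr _ (by ring)
  have hmem : jd k (p * r * e) ∈ (algebraMap E (LaurentSeries k)).range := by
    refine mem_range_of_unique_common_root ι (jd k (p * r * e)) (spec Φp y1) (spec Φr y2)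
      (spec_monic hΦp.monic y1).ne_zero ?_ ?_ ?_ ?_ ?_
    · -- root of P
      rw [Polynomial.aeval_def, Polynomial.eval₂_eq_eval_map, map_spec, eval_spec]
      show ev2 Φp (jd k (r * e)) (jd k (p * r * e)) = 0
      rw [jd_congr k (show p * r * e = r * e * p by ring)]
      exact ev2_jd_up hΦp (r * e)
    · rw [Polynomial.aeval_def, Polynomial.eval₂_eq_eval_map, map_spec, eval_spec]
      show ev2 Φr (jd k (p * e)) (jd k (p * r * e)) = 0
      rw [jd_congr k (show p * r * e = p * e * r by ring)]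
      exact ev2_jd_up hΦr (p * e)
    · rw [hP]
      exact splits_spec hp.one_lt hΦp hζp (r * r * e)
    · rw [hP, roots_spec hp.one_lt hΦp hζp (r * r * e)]
      exact rootMultiset_nodup hp.one_lt hζp _
    · intro β hβ hQβ
      rw [hP, roots_spec hp.one_lt hΦp hζp (r * r * e)] at hβ
      rw [hx]
      rcases mem_rootMultiset.mp hβ with hβ1 | ⟨b, -, hβ1⟩
      · exact hβ1
      · exfalso
        have hβroot : β ∈ (spec Φr (jTw (AlgebraicClosure k) 1 (p * p * e * r))).roots := by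
          rw [Polynomial.mem_roots (spec_monic hΦr.monic _).ne_zero, Polynomial.IsRoot, ← hQ]
          exact hQβ
        rw [roots_spec hr.one_lt hΦr hζr (p * p * e)] at hβroot
        have hne : r * r ≠ p * p := by
          intro h
          exact hpr ((Nat.mul_self_inj.mp h).symm)
        rcases mem_rootMultiset.mp hβroot with hβ2 | ⟨c, -, hβ2⟩
        · have h3 := (jTw_inj (hβ1.symm.trans hβ2)).1
          -- r*r*e = p*p*e*r*r
          have h4 : r * r * e * 1 = r * r * e * (p * p) := by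
            rw [mul_one]; exact h3.trans (by ring)
          have h5 : 1 = p * p := Nat.eq_of_mul_eq_mul_left (by positivity) h4
          have : 1 < p * p := by nlinarith [hp.one_lt]
          omega
        · have h3 := (jTw_inj (hβ1.symm.trans hβ2)).1
          exact hne (Nat.eq_of_mul_eq_mul_right he0 h3)
  obtain ⟨z, hz⟩ := hmem
  rw [← hz]
  exact z.2

end Pair

end Fermat.Agent.S28.H626

end

end
-- ===== PACK-END S28/H626/Pair.lean

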