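import Mathlib
import Fermat.Prelude.Def_ModularCurve_HeckeModule
import Mathlib.RingTheory.Valuation.ValuationSubring
import Mathlib.RingTheory.IntegralClosure.IntegrallyClosed
import Mathlib.RingTheory.IntegralClosure.IsIntegralClosure.Basic
import Mathlib.RingTheory.Localization.FractionRing
import Mathlib.RingTheory.LocalRing.ResidueField.Basic
import Mathlib.RingTheory.Polynomial.Basic
import Mathlib.RingTheory.Valuation.LocalSubring
import Mathlib.RingTheory.Adjoin.Polynomial.Basic
import Mathlib.RingTheory.Polynomial.ScaleRoots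
import Mathlib.Algebra.Polynomial.Lifts
import Mathlib.RingTheory.Adjoin.Basic
import Mathlib.Tactic.LinearCombination
import Mathlib.RingTheory.Length
import Mathlib.RingTheory.Henselian
import Mathlib.Algebra.Polynomial.Reverse
import Mathlib.Algebra.Polynomial.Taylor
import Mathlib.FieldTheory.IsAlgClosed.Basic
import Mathlib.Tactic.Ring

-- ===== PACK-BEGIN S19/H19/Indep.lean
section
/-
A3 / S19, helper19 — piece ORD, part 1: Galois descent for equivariant functions.

`M` a set with an action of `G = Gal(ℚ̄/ℚ)`; functions `f : M → ℚ̄` with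
`f (σ m) = σ (f m)` which are linearly independent over `ℚ` are linearly independent over `ℚ̄`.
Also: a `ℚ̄`-subalgebra of `M → ℚ̄` (`M` finite) separating points is everything.
Mathlib only.
-/


set_option autoImplicit false

noncomputable section

namespace Fermat.Agent.S19.H19

open scoped BigOperators

/-- `ℚ̄`. -/
abbrev Qb : Type := AlgebraicClosure ℚ

/-- The absolute Galois group of `ℚ`. -/
abbrev GalQ : Type := _root_.Fermat.Agent.S19.H19.Qb ≃ₐ[ℚ] _root_.Fermat.Agent.S19.H19.Qb

theorem isGalois_Qb_rat : IsGalois ℚ _root_.Fermat.Agent.S19.H19.Qb := by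
  have : Algebra.IsAlgebraic ℚ (AlgebraicClosure ℚ) := AlgebraicClosure.isAlgebraic ℚ
  have : IsAlgClosure ℚ (AlgebraicClosure ℚ) := ⟨inferInstance, inferInstance⟩
  have : Normal ℚ (AlgebraicClosure ℚ) := IsAlgClosure.normal ℚ (AlgebraicClosure ℚ)
  exact isGalois_iff.mpr ⟨inferInstance, inferInstance⟩

theorem exists_rat_of_fixed (x : _root_.Fermat.Agent.S19.H19.Qb) (hx : ∀ σ : _root_.Fermat.Agent.S19.H19.GalQ, σ x = x) :
    ∃ q : ℚ, algebraMap ℚ _root_.Fermat.Agent.S19.H19.Qb q = x := by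
  have := isGalois_Qb_rat
  exact (InfiniteGalois.mem_range_algebraMap_iff_fixed (k := ℚ) (K := _root_.Fermat.Agent.S19.H19.Qb) x).mpr hx

variable {M : Type*} (act : _root_.Fermat.Agent.S19.H19.GalQ → M → M)

/-- Equivariant functions. -/
def IsEquivariant (f : M → _root_.Fermat.Agent.S19.H19.Qb) : Prop := ∀ (σ : _root_.Fermat.Agent.S19.H19.GalQ) (m : M), f (act σ m) = σ (f m)

variable {act}

/-- **Galois descent of linear relations.**  A `ℚ̄`-linear relation between equivariant functions
which are linearly independent over `ℚ` is trivial. -/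
theorem linearIndependent_of_equivariant
    (hone : ∀ m, act 1 m = m)
    (hact : ∀ σ τ m, act σ (act τ m) = act (σ * τ) m)
    {ι : Type*} [Finite ι] (f : ι → M → _root_.Fermat.Agent.S19.H19.Qb) (hf : ∀ i, IsEquivariant act (f i))
    (hQ : LinearIndependent ℚ f) : LinearIndependent _root_.Fermat.Agent.S19.H19.Qb f := by
  classical
  have := Fintype.ofFinite ι
  rw [Fintype.linearIndependent_iff]
  -- strong induction on the size of the support of a relation
  suffices H : ∀ (n : ℕ) (c : ι → _root_.Fermat.Agent.S19.H19.Qb), (Finset.univ.filter fun i => c i ≠ 0).card = n →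
      ∑ i, c i • f i = 0 → ∀ i, c i = 0 from fun c hc i => H _ c rfl hc i
  intro n
  induction n using Nat.strong_induction_on with
  | _ n ih =>
    intro c hn hc
    by_contra hne
    push Not at hne
    obtain ⟨i₀, hi₀⟩ := hne
    -- normalise `c i₀ = 1`
    set d : ι → _root_.Fermat.Agent.S19.H19.Qb := fun i => c i / c i₀ with hd
    have hd₀ : d i₀ = 1 := div_self hi₀
    have hdsupp : ∀ i, d i ≠ 0 ↔ c i ≠ 0 := fun i => by
      simp only [hd, ne_eq, div_eq_zero_iff, hi₀, or_false]
    have hdrel : ∑ i, d i • f i = 0 := by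
      have : ∑ i, d i • f i = (c i₀)⁻¹ • ∑ i, c i • f i := by
        rw [Finset.smul_sum]
        refine Finset.sum_congr rfl fun i _ => ?_
        rw [smul_smul, hd]
        congr 1
        field_simp
      rw [this, hc, smul_zero]
    -- the conjugate relation
    have hconj : ∀ σ : _root_.Fermat.Agent.S19.H19.GalQ, ∑ i, (σ (d i)) • f i = 0 := by
      intro σ
      funext m
      have h1 := congrFun hdrel (act σ⁻¹ m)
      simp only [Finset.sum_apply, Pi.smul_apply, smul_eq_mul, Pi.zero_apply] at h1 ⊢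
      have h2 := congrArg σ h1
      rw [map_sum, map_zero] at h2
      rw [← h2]
      refine Finset.sum_congr rfl fun i _ => ?_
      rw [map_mul, ← hf i σ (act σ⁻¹ m), hact, mul_inv_cancel, hone]
    -- the difference has smaller support
    have hfix : ∀ (σ : _root_.Fermat.Agent.S19.H19.GalQ) (i : ι), σ (d i) = d i := by
      intro σ
      have hrel : ∑ i, (σ (d i) - d i) • f i = 0 := by
        have : ∑ i, (σ (d i) - d i) • f i = ∑ i, (σ (d i)) • f i - ∑ i, d i • f i := by
          rw [← Finset.sum_sub_distrib]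
          refine Finset.sum_congr rfl fun i _ => ?_
          rw [sub_smul]
        rw [this, hconj σ, hdrel, sub_zero]
      have hsub : (Finset.univ.filter fun i => σ (d i) - d i ≠ 0) ⊂
          (Finset.univ.filter fun i => c i ≠ 0) := by
        rw [Finset.ssubset_iff_of_subset]
        · refine ⟨i₀, by simp [hi₀], ?_⟩
          simp [hd₀]
        · intro i hi
          simp only [Finset.mem_filter, Finset.mem_univ, true_and] at hi ⊢
          rw [← hdsupp]
          intro h0
          apply hi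
          rw [h0, map_zero, sub_zero]
      have hlt := Finset.card_lt_card hsub
      rw [hn] at hlt
      intro i
      have := ih _ hlt (fun i => σ (d i) - d i) rfl hrel i
      exact sub_eq_zero.mp this
    -- so the `d i` are rational
    have hrat : ∀ i, ∃ q : ℚ, algebraMap ℚ _root_.Fermat.Agent.S19.H19.Qb q = d i := fun i =>
      exists_rat_of_fixed (d i) fun σ => hfix σ i
    choose q hq using hrat
    have hqrel : ∑ i, q i • f i = 0 := by
      rw [← hdrel]
      refine Finset.sum_congr rfl fun i _ => ?_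
      rw [← hq i]
      funext m
      simp [Algebra.smul_def]
    have h0 := (Fintype.linearIndependent_iff.mp hQ) q hqrel i₀
    have h1 : d i₀ = 0 := by rw [← hq i₀, h0, map_zero]
    rw [hd₀] at h1
    exact one_ne_zero h1

/-- A `K`-subalgebra of `M → K`, `M` finite, which separates points is everything. -/
theorem subalgebra_eq_top_of_separates {K : Type*} [Field K] {M : Type*} [Finite M]
    (S : Subalgebra K (M → K))
    (hsep : ∀ m m' : M, m ≠ m' → ∃ f ∈ S, f m ≠ f m') : S = ⊤ := by
  classical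
  have := Fintype.ofFinite M
  -- indicator functions
  have hind : ∀ m : M, (Pi.single m (1 : K) : M → K) ∈ S := by
    intro m
    -- for each `m' ≠ m` a function in `S` which is `1` at `m` and `0` at `m'`
    have h1 : ∀ m' : M, ∃ g ∈ S, g m = 1 ∧ (m' ≠ m → g m' = 0) := by
      intro m'
      by_cases h : m' = m
      · exact ⟨1, S.one_mem, rfl, fun h' => absurd h h'⟩
      · obtain ⟨f, hfS, hf⟩ := hsep m m' (Ne.symm h)
        refine ⟨(f m - f m')⁻¹ • (f - algebraMap K (M → K) (f m')), ?_, ?_, ?_⟩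
        · exact S.smul_mem (S.sub_mem hfS (S.algebraMap_mem _)) _
        · simp only [Pi.smul_apply, Pi.sub_apply, Pi.algebraMap_apply, Algebra.algebraMap_self,
            RingHom.id_apply, smul_eq_mul]
          exact inv_mul_cancel₀ (sub_ne_zero.mpr hf)
        · intro _
          simp
    choose g hgS hg1 hg0 using h1
    have hprod : (Pi.single m (1 : K) : M → K) = ∏ m', g m' := by
      funext x
      rw [Finset.prod_apply]
      by_cases hx : x = m
      · subst hx
        rw [Pi.single_eq_same]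
        exact (Finset.prod_eq_one (f := fun m' => g m' x) fun m' _ => hg1 m').symm
      · rw [Pi.single_eq_of_ne hx]
        exact (Finset.prod_eq_zero (f := fun m' => g m' x) (Finset.mem_univ x) (hg0 x hx)).symm
    rw [hprod]
    exact S.prod_mem fun m' _ => hgS m'
  rw [eq_top_iff]
  intro f _
  have hf : f = ∑ m, f m • (Pi.single m (1 : K) : M → K) := by
    funext x
    simp [Finset.sum_apply, Pi.single_apply]
  rw [hf]
  exact S.sum_mem fun m _ => S.smul_mem (hind m) _

end Fermat.Agent.S19.H19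

end

end
-- ===== PACK-END S19/H19/Indep.lean

-- ===== PACK-BEGIN Lib/HI/H864/RelNormMult.lean
section


/-!
# Lib / HI (helper864): multiplicity of a prime in a relative ideal norm

`R ⊆ S` Dedekind domains, `S` finite over `R`, `p` a maximal ideal of `R`.  For every nonzero
ideal `I` of `S`:
`multiplicity p (relNorm R I) = ∑_{q | p} f(q | p) * multiplicity q I`.
-/

set_option autoImplicit false
set_option linter.unusedSectionVars false
set_option linter.style.haveILetI false
set_option linter.unusedVariables false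

noncomputable section

open Ideal

namespace Fermat.Agent.Lib.HI.H864

section

variable {R S : Type*} [CommRing R] [IsDedekindDomain R] [CommRing S] [IsDedekindDomain S]
  [Algebra R S] [Module.Finite R S] [Module.IsTorsionFree R S]

omit [IsDedekindDomain R] [Module.Finite R S] [Module.IsTorsionFree R S] in
theorem multiplicity_prime_prime {P Q : Ideal S} (hP : P.IsPrime) (hP0 : P ≠ ⊥)
    (hQ : Q.IsPrime) (hQ0 : Q ≠ ⊥) :
    multiplicity Q P = if Q = P then 1 else 0 := by
  split_ifs with h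
  · subst h
    exact multiplicity_self
  · rw [multiplicity_eq_zero, Ideal.dvd_iff_le]
    intro hle
    have hPmax : P.IsMaximal := hP.isMaximal hP0
    exact h (hPmax.eq_of_le hQ.ne_top hle).symm

omit [IsDedekindDomain R] [Module.Finite R S] [Module.IsTorsionFree R S] [Algebra R S] in
theorem multiplicity_top {Q : Ideal S} (hQ : Q.IsPrime) : multiplicity Q (⊤ : Ideal S) = 0 := by
  rw [multiplicity_eq_zero, Ideal.dvd_iff_le]
  intro hle
  exact hQ.ne_top (top_le_iff.mp hle)

variable [PerfectField (FractionRing R)]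

theorem multiplicity_relNorm_prime (p : Ideal R) [hp : p.IsMaximal] (hp0 : p ≠ ⊥)
    [Fintype (p.primesOver S)] (P : Ideal S) (hP : P.IsPrime) (hP0 : P ≠ ⊥) :
    multiplicity p (Ideal.relNorm R P)
      = ∑ q : p.primesOver S, q.1.inertiaDeg R * multiplicity q.1 P := by
  classical
  haveI hPmax : P.IsMaximal := hP.isMaximal hP0
  set p₀ : Ideal R := P.under R with hp₀
  haveI : P.LiesOver p₀ := ⟨rfl⟩
  haveI hp₀max : p₀.IsMaximal := Ideal.IsMaximal.under R P
  have hnorm : Ideal.relNorm R P = p₀ ^ P.inertiaDeg R := Ideal.relNorm_eq_pow_of_isMaximal P p₀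
  have hq0 : ∀ q : p.primesOver S, q.1 ≠ ⊥ := by
    intro q hq
    have h1 : q.1.under R = p := (q.2.2.over).symm
    rw [hq] at h1
    apply hp0
    rw [← h1]
    exact Ideal.under_bot R S
  by_cases hpp : p₀ = p
  · have hmem : P ∈ p.primesOver S := ⟨hP, ⟨hpp.symm⟩⟩
    rw [hnorm, hpp, multiplicity_pow_self hp0
      (fun hu => hp.ne_top (Ideal.isUnit_iff.mp hu))]
    rw [Finset.sum_eq_single (⟨P, hmem⟩ : p.primesOver S)]
    · simp
    · intro q _ hq
      rw [multiplicity_prime_prime hP hP0 q.2.1 (hq0 q), if_neg, mul_zero]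
      intro h
      exact hq (Subtype.ext h)
    · intro h
      exact absurd (Finset.mem_univ _) h
  · have h1 : multiplicity p (Ideal.relNorm R P) = 0 := by
      rw [multiplicity_eq_zero, Ideal.dvd_iff_le, hnorm]
      intro hle
      have h2 : p₀ ≤ p := hp.isPrime.le_of_pow_le hle
      exact hpp (hp₀max.eq_of_le hp.ne_top h2)
    rw [h1, eq_comm]
    refine Finset.sum_eq_zero fun q _ => ?_
    rw [multiplicity_prime_prime hP hP0 q.2.1 (hq0 q), if_neg, mul_zero]
    intro h
    apply hpp
    have h3 : q.1.under R = p := (q.2.2.over).symm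
    rw [hp₀, ← h, h3]

theorem multiplicity_relNorm_eq_sum (p : Ideal R) [hp : p.IsMaximal] (hp0 : p ≠ ⊥)
    [Fintype (p.primesOver S)] (I : Ideal S) (hI : I ≠ ⊥) :
    multiplicity p (Ideal.relNorm R I)
      = ∑ q : p.primesOver S, q.1.inertiaDeg R * multiplicity q.1 I := by
  classical
  have hpprime : Prime p := Ideal.prime_of_isPrime hp0 hp.isPrime
  have hq0 : ∀ q : p.primesOver S, q.1 ≠ ⊥ := by
    intro q hq
    have h1 : q.1.under R = p := (q.2.2.over).symm
    rw [hq] at h1
    apply hp0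
    rw [← h1]
    exact Ideal.under_bot R S
  revert hI
  refine UniqueFactorizationMonoid.induction_on_prime
    (P := fun I : Ideal S => I ≠ ⊥ →
      multiplicity p (Ideal.relNorm R I)
        = ∑ q : p.primesOver S, q.1.inertiaDeg R * multiplicity q.1 I) I ?_ ?_ ?_
  · intro h
    exact absurd rfl h
  · intro J hJ _
    rw [Ideal.isUnit_iff] at hJ
    subst hJ
    rw [Ideal.relNorm_top, multiplicity_top hp.isPrime, eq_comm]
    refine Finset.sum_eq_zero fun q _ => ?_
    rw [multiplicity_top q.2.1, mul_zero]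
  · intro J P hJ hP ih _
    have hJ' : J ≠ ⊥ := hJ
    have hPprime : P.IsPrime := Ideal.isPrime_of_prime hP
    have hP0 : P ≠ ⊥ := hP.ne_zero
    have hfin : FiniteMultiplicity p (Ideal.relNorm R P * Ideal.relNorm R J) := by
      apply FiniteMultiplicity.of_prime_left hpprime
      rw [Ne, mul_eq_zero, not_or]
      constructor
      · rw [Ideal.zero_eq_bot, Ideal.relNorm_eq_bot_iff]; exact hP0
      · rw [Ideal.zero_eq_bot, Ideal.relNorm_eq_bot_iff]; exact hJ'
    rw [_root_.map_mul, multiplicity_mul hpprime hfin, ih hJ', multiplicity_relNorm_prime p hp0 P hPprime hP0,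
      ← Finset.sum_add_distrib]
    refine Finset.sum_congr rfl fun q _ => ?_
    have hqprime : Prime q.1 := Ideal.prime_of_isPrime (hq0 q) q.2.1
    have hfin' : FiniteMultiplicity q.1 (P * J) :=
      FiniteMultiplicity.of_prime_left hqprime (mul_ne_zero hP0 hJ')
    rw [multiplicity_mul hqprime hfin', mul_add]

end

end Fermat.Agent.Lib.HI.H864

end
end
-- ===== PACK-END Lib/HI/H864/RelNormMult.lean

-- ===== PACK-BEGIN S29/H395/KummerCorr.lean
section
/-
S29 / layer M / bridge BR, piece NORM (formal half) — helper395.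

Prelude-only.  How the Prelude correspondence `T = ψ_* ∘ φ^*` (and hence the Prelude Hecke operator
`heckeOperatorBar N ℓ = α_* ∘ β^*`) acts on "Kummer data":

  if `m • D = div f` then `m • T D = div (Nm_ψ (φ f))`.

Main statements:
* `correspondence_apply_eq_ord`     : `T (div f) = div (Nm_ψ (φ f))` (pointwise form);
* `correspondence_kummer`           : the same with a multiplier `m`;
* `heckeOperatorBar_mk_kummer`      : the modular instance, for `JZero N`;
* `heckeOperatorBar_eq_mk_of_kummer`: `T_ℓ [D] = [D']` as soon as `m D' = div (Nm_α (β f))`, `m ≠ 0`.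
-/


set_option autoImplicit false
set_option linter.style.haveILetI false

noncomputable section

namespace Fermat.Agent.S29.H395

open AlgebraicCurve ModularCurve

section Abstract

variable {K F F' : Type*} [Field K] [Field F] [Field F'] [Algebra K F] [Algebra K F']

/-- The norm of `g : F'` down to `F` along `ψ : F →ₐ[K] F'`. -/
def normAlong (ψ : F →ₐ[K] F') (g : F') : F :=
  letI := algebraAlong ψ
  Algebra.norm F g

theorem normAlong_ne_zero (ψ : F →ₐ[K] F') (hfin : FiniteAlong K ψ) {g : F'} (hg : g ≠ 0) :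
    normAlong ψ g ≠ 0 := by
  letI := algebraAlong ψ
  haveI : Module.Finite F F' := hfin
  exact Algebra.norm_ne_zero_iff.mpr hg

theorem normAlong_mul (ψ : F →ₐ[K] F') (g g' : F') :
    normAlong ψ (g * g') = normAlong ψ g * normAlong ψ g' := by
  letI := algebraAlong ψ
  exact map_mul (Algebra.norm F) g g'

theorem normAlong_one (ψ : F →ₐ[K] F') : normAlong ψ (1 : F') = 1 := by
  letI := algebraAlong ψ
  exact map_one (Algebra.norm F)

theorem normAlong_pow (ψ : F →ₐ[K] F') (g : F') (n : ℕ) :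
    normAlong ψ (g ^ n) = normAlong ψ g ^ n := by
  letI := algebraAlong ψ
  exact map_pow (Algebra.norm F) g n

/-- `φ^* (div f) = div (φ f)`. -/
theorem pullbackAlong_apply_eq_ord [HasPrincipalDivisors K F'] (φ : F →ₐ[K] F')
    (hφ : φ.toRingHom.IsIntegral) {f : F} {D : Divisor K F} (hD : ∀ v, D v = v.ord f)
    (w : Place K F') : Divisor.pullbackAlong φ hφ D w = w.ord (φ f) := by
  letI := algebraAlong φ
  haveI := isScalarTower_along φ
  haveI := isIntegral_along φ hφ
  exact Divisor.pullback_apply_eq_ord hD w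

/-- `ψ_* (div g) = div (Nm_ψ g)`. -/
theorem pushforwardAlong_apply_eq_ord (ψ : F →ₐ[K] F') (hψ : ψ.toRingHom.IsIntegral)
    (hfin : FiniteAlong K ψ) (hN : NormFormulaAlong K ψ hfin) {g : F'} (hg : g ≠ 0)
    {D : Divisor K F'} (hD : ∀ w, D w = w.ord g) (v : Place K F) :
    Divisor.pushforwardAlong ψ hψ D v = v.ord (normAlong ψ g) := by
  letI := algebraAlong ψ
  haveI := isScalarTower_along ψ
  haveI := isIntegral_along ψ hψ
  haveI : Module.Finite F F' := hfin
  exact hN g hg D hD v

variable [HasPrincipalDivisors K F']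
variable (φ ψ : F →ₐ[K] F') (hφ : φ.toRingHom.IsIntegral) (hψ : ψ.toRingHom.IsIntegral)

/-- `T (div f) = div (Nm_ψ (φ f))` for the correspondence `T = ψ_* φ^*`. -/
theorem correspondence_apply_eq_ord (hfin : FiniteAlong K ψ) (hN : NormFormulaAlong K ψ hfin)
    {f : F} (hf : f ≠ 0) {D : Divisor K F} (hD : ∀ v, D v = v.ord f) (v : Place K F) :
    Divisor.correspondence φ ψ hφ hψ D v = v.ord (normAlong ψ (φ f)) := by
  rw [Divisor.correspondence_apply]
  exact pushforwardAlong_apply_eq_ord ψ hψ hfin hN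
    (by simpa using hf) (fun w => pullbackAlong_apply_eq_ord φ hφ hD w) v

/-- **Kummer data under a correspondence**: if `m • D = div f` then
`m • T D = div (Nm_ψ (φ f))`. -/
theorem correspondence_kummer (hfin : FiniteAlong K ψ) (hN : NormFormulaAlong K ψ hfin)
    {f : F} (hf : f ≠ 0) {D : Divisor K F} (m : ℤ) (hD : ∀ v, m * D v = v.ord f)
    (v : Place K F) :
    m * Divisor.correspondence φ ψ hφ hψ D v = v.ord (normAlong ψ (φ f)) := by
  have h1 : ∀ v, (m • D) v = v.ord f := fun v => by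
    rw [Finsupp.smul_apply, smul_eq_mul]; exact hD v
  have h2 := correspondence_apply_eq_ord φ ψ hφ hψ hfin hN hf h1 v
  rw [map_zsmul, Finsupp.smul_apply, smul_eq_mul] at h2
  exact h2

end Abstract

section Pic0Torsion

variable {K F : Type*} [Field K] [Field F] [Algebra K F]

/-- Two degree-zero divisors with the same nonzero multiple define the same class (divisors form a
torsion-free group). -/
theorem degZero_eq_of_zsmul_eq {D E : Divisor.degZero (K := K) (F := F)} {m : ℤ} (hm : m ≠ 0)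
    (h : ∀ v, m * (D : Divisor K F) v = m * (E : Divisor K F) v) : D = E := by
  apply Subtype.ext
  ext v
  exact mul_left_cancel₀ hm (h v)

/-- If `m • D = div f` (pointwise) then `m • [D] = 0` in `Pic0`. -/
theorem zsmul_mk_eq_zero {D : Divisor.degZero (K := K) (F := F)} {m : ℤ} {f : F} (hf : f ≠ 0)
    (h : ∀ v, m * (D : Divisor K F) v = v.ord f) : m • Pic0.mk D = 0 := by
  have h1 : m • Pic0.mk D = Pic0.mk (m • D) := rfl
  rw [h1]
  refine (QuotientAddGroup.eq_zero_iff _).mpr ?_
  rw [AddSubgroup.mem_addSubgroupOf]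
  refine ⟨f, hf, fun v => ?_⟩
  rw [AddSubgroup.coe_zsmul, Finsupp.smul_apply, smul_eq_mul]
  exact h v

/-- `[D] = 0` in `Pic0` iff `D` is the divisor of a function. -/
theorem mk_eq_zero_iff {D : Divisor.degZero (K := K) (F := F)} :
    Pic0.mk D = 0 ↔ ∃ f : F, f ≠ 0 ∧ ∀ v, (D : Divisor K F) v = v.ord f := by
  rw [Pic0.mk, QuotientAddGroup.eq_zero_iff, AddSubgroup.mem_addSubgroupOf]
  rfl

/-- `[D] = [E]` in `Pic0` iff `D - E` is the divisor of a function. -/
theorem mk_eq_mk_iff {D E : Divisor.degZero (K := K) (F := F)} :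
    Pic0.mk D = Pic0.mk E ↔
      ∃ f : F, f ≠ 0 ∧ ∀ v, (D : Divisor K F) v - (E : Divisor K F) v = v.ord f := by
  rw [← sub_eq_zero, show Pic0.mk D - Pic0.mk E = Pic0.mk (D - E) from rfl, mk_eq_zero_iff]
  simp only [AddSubgroup.coe_sub, Finsupp.coe_sub, Pi.sub_apply]

end Pic0Torsion

section Modular

variable (N : ℕ) [NeZero N]

/-- Abbreviation: the base field `ℚ̄`. -/
local notation "Qb" => AlgebraicClosure ℚ

/-- The norm `Nm_α ∘ β : F_N → F_N` (`α` = inclusion `F_N ⊆ F_{Nℓ}`, `β = (q ↦ q^ℓ)`), the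
function-level shadow of the Hecke correspondence `T_ℓ = α_* β^*`. -/
def heckeNorm (ℓ : ℕ) [NeZero ℓ] (f : modularFunctionFieldBar N) : modularFunctionFieldBar N :=
  normAlong (heckeAlphaBar Qb N ℓ) (heckeBetaBar Qb N ℓ f)

theorem heckeNorm_mul (ℓ : ℕ) [NeZero ℓ] (f g : modularFunctionFieldBar N) :
    heckeNorm N ℓ (f * g) = heckeNorm N ℓ f * heckeNorm N ℓ g := by
  unfold heckeNorm
  rw [map_mul, normAlong_mul]

theorem heckeNorm_one (ℓ : ℕ) [NeZero ℓ] : heckeNorm N ℓ 1 = 1 := by
  unfold heckeNorm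
  rw [map_one, normAlong_one]

theorem heckeNorm_pow (ℓ : ℕ) [NeZero ℓ] (f : modularFunctionFieldBar N) (n : ℕ) :
    heckeNorm N ℓ (f ^ n) = heckeNorm N ℓ f ^ n := by
  unfold heckeNorm
  rw [map_pow, normAlong_pow]

theorem heckeNorm_ne_zero (ℓ : ℕ) [NeZero ℓ] (hHI : HeckeInputsAlong Qb N ℓ)
    {f : modularFunctionFieldBar N} (hf : f ≠ 0) : heckeNorm N ℓ f ≠ 0 := by
  obtain ⟨_, _, _, hfin, _, _⟩ := hHI
  exact normAlong_ne_zero _ hfin (by simpa using hf)

/-- The Prelude Hecke operator on the class of a degree-zero divisor, at the level of divisors. -/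
theorem heckeOperatorBar_mk (ℓ : Nat.Primes)
    (hHI : haveI : NeZero (ℓ : ℕ) := ⟨ℓ.2.ne_zero⟩; HeckeInputsAlong Qb N ℓ)
    (D : Divisor.degZero (K := Qb) (F := modularFunctionFieldBar N)) :
    ∃ D' : Divisor.degZero (K := Qb) (F := modularFunctionFieldBar N),
      heckeOperatorBar N ℓ (Pic0.mk D) = Pic0.mk D' ∧
      ∀ (m : ℤ) (f : modularFunctionFieldBar N), f ≠ 0 →
        (∀ v, m * (D : Divisor Qb (modularFunctionFieldBar N)) v = v.ord f) →
        ∀ v, m * (D' : Divisor Qb (modularFunctionFieldBar N)) v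
          = v.ord (haveI : NeZero (ℓ : ℕ) := ⟨ℓ.2.ne_zero⟩; heckeNorm N ℓ f) := by
  haveI : NeZero (ℓ : ℕ) := ⟨ℓ.2.ne_zero⟩
  obtain ⟨hα, hβ, hP, hfin, hFI, hN⟩ := hHI
  haveI := hP
  refine ⟨Pic0.degZeroCorrespondence (heckeBetaBar Qb N ℓ) (heckeAlphaBar Qb N ℓ) hβ hα hFI D,
    ?_, ?_⟩
  · rw [heckeOperatorBar_apply, heckeOperatorAlong_eq hα hβ hFI hfin hN]
    rfl
  · intro m f hf hD v
    exact correspondence_kummer (heckeBetaBar Qb N ℓ) (heckeAlphaBar Qb N ℓ) hβ hα hfin hN hf m hD v

/-- **Hecke on Kummer classes.**  If `m D = div f` and `m D' = div (Nm_α (β f))` with `m ≠ 0`, then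
`T_ℓ [D] = [D']` in `J₀(N)(ℚ̄)`. -/
theorem heckeOperatorBar_eq_mk_of_kummer (ℓ : Nat.Primes)
    (hHI : haveI : NeZero (ℓ : ℕ) := ⟨ℓ.2.ne_zero⟩; HeckeInputsAlong Qb N ℓ)
    (D D' : Divisor.degZero (K := Qb) (F := modularFunctionFieldBar N))
    {m : ℤ} (hm : m ≠ 0) {f : modularFunctionFieldBar N} (hf : f ≠ 0)
    (hD : ∀ v, m * (D : Divisor Qb (modularFunctionFieldBar N)) v = v.ord f)
    (hD' : ∀ v, m * (D' : Divisor Qb (modularFunctionFieldBar N)) v
      = v.ord (haveI : NeZero (ℓ : ℕ) := ⟨ℓ.2.ne_zero⟩; heckeNorm N ℓ f)) :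
    heckeOperatorBar N ℓ (Pic0.mk D) = Pic0.mk D' := by
  obtain ⟨E, hE, hE'⟩ := heckeOperatorBar_mk N ℓ hHI D
  rw [hE]
  congr 1
  exact degZero_eq_of_zsmul_eq hm fun v => by rw [hE' m f hf hD v, hD' v]

end Modular

end Fermat.Agent.S29.H395

end

end
-- ===== PACK-END S29/H395/KummerCorr.lean

-- ===== PACK-BEGIN A2/Mod/H142/S2Core.lean
section









/-!
# A2 / MODASM sub-assembly S2 (components normal) — abstract core (helper142)

Mathlib-only.  `F` a field, `V` a valuation subring of `F`, `B ⊆ V` a subalgebra (the chart),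
`p = B ∩ 𝔪_V` (the component of the special fibre cut out by `V`).

* `isIntegrallyClosed_quotient_of_normal` (**core A**): if the image of `B` in the residue field
  `κ(V)` is integrally closed in `κ(V)` (elementwise form `NormalIn`), then `B ⧸ p` is an
  integrally closed domain.
* `normalIn_transfer` (**core B**): transfer of `NormalIn` along a ring homomorphism
  `γ : F₀ → F` (a degeneracy map) with `γ⁻¹ V = V₀`, `γ B₀ ⊆ B`, residue degree one
  (`V = γ V₀ + 𝔪_V`) and `B` integral over `γ B₀` MODULO `𝔪_V`.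

No integrality of `B` over `γ B₀` itself is needed (it fails in the chart at infinity).
-/

set_option autoImplicit false

noncomputable section

open Polynomial

namespace Fermat.Agent.A2.Mod.H142

section Integral

variable {A₀ A K : Type*} [CommRing A₀] [CommRing A] [CommRing K]

/-- Transitivity of integrality for two ring homomorphisms into a common target. -/
theorem isIntegralElem_trans (ρ₀ : A₀ →+* K) (ρ : A →+* K)
    (h : ∀ a, ρ₀.IsIntegralElem (ρ a)) {x : K} (hx : ρ.IsIntegralElem x) :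
    ρ₀.IsIntegralElem x := by
  let _ : Algebra A₀ K := ρ₀.toAlgebra
  have hmem : ∀ a, ρ a ∈ (integralClosure A₀ K).toSubring := fun a => h a
  obtain ⟨p, hp, hpx⟩ := hx
  let ρ' : A →+* (integralClosure A₀ K).toSubring := ρ.codRestrict _ hmem
  have hx' : IsIntegral (integralClosure A₀ K) x := by
    refine ⟨p.map ρ', hp.map _, ?_⟩
    rw [eval₂_map]
    exact hpx
  exact isIntegral_trans x hx'

/-- A monic relation in `Fin`-indexed form gives integrality. -/
theorem isIntegralElem_of_fin (ρ : A →+* K) {x : K} (n : ℕ) (c : Fin n → A)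
    (h : x ^ n + ∑ i : Fin n, ρ (c i) * x ^ (i : ℕ) = 0) : ρ.IsIntegralElem x := by
  refine ⟨X ^ n + ∑ i : Fin n, C (c i) * X ^ (i : ℕ),
    Polynomial.monic_X_pow_add (Polynomial.degree_sum_fin_lt c), ?_⟩
  rw [eval₂_add, eval₂_pow, eval₂_X, eval₂_finsetSum]
  simpa using h

/-- Integrality gives a monic relation in `Fin`-indexed form. -/
theorem exists_fin_of_isIntegralElem (ρ : A →+* K) {x : K} (hx : ρ.IsIntegralElem x) :
    ∃ (n : ℕ) (c : Fin n → A), x ^ n + ∑ i : Fin n, ρ (c i) * x ^ (i : ℕ) = 0 := by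
  obtain ⟨p, hp, hpx⟩ := hx
  refine ⟨p.natDegree, fun i => p.coeff i, ?_⟩
  have h1 := hp.as_sum
  have h2 : eval₂ ρ x p = x ^ p.natDegree + ∑ i : Fin p.natDegree, ρ (p.coeff i) * x ^ (i : ℕ) := by
    conv_lhs => rw [h1]
    rw [eval₂_add, eval₂_pow, eval₂_X, eval₂_finsetSum,
      ← Fin.sum_univ_eq_sum_range (fun i => eval₂ ρ x (C (p.coeff i) * X ^ i)) p.natDegree]
    simp
  rw [← h2]
  exact hpx

end Integral

section Val

variable {R F : Type*} [CommRing R] [Field F] [Algebra R F]

/-- The residue class map `B → κ(V)` of a subalgebra `B ⊆ V`. -/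
def resMap (V : ValuationSubring F) (B : Subalgebra R F) (hBV : ∀ b ∈ B, b ∈ V) :
    B →+* IsLocalRing.ResidueField V :=
  (IsLocalRing.residue V).comp
    { toFun := fun b => ⟨b.1, hBV b.1 b.2⟩
      map_one' := rfl
      map_mul' := fun _ _ => rfl
      map_zero' := rfl
      map_add' := fun _ _ => rfl }

theorem residue_eq_zero_iff_val (V : ValuationSubring F) (f : V) :
    IsLocalRing.residue V f = 0 ↔ V.valuation (f : F) < 1 := by
  rw [IsLocalRing.residue_eq_zero_iff]
  exact V.valuation_lt_one_iff f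

theorem resMap_apply (V : ValuationSubring F) (B : Subalgebra R F) (hBV : ∀ b ∈ B, b ∈ V)
    (b : B) : resMap V B hBV b = IsLocalRing.residue V ⟨b.1, hBV b.1 b.2⟩ := rfl

theorem resMap_eq_zero_iff (V : ValuationSubring F) (B : Subalgebra R F)
    (hBV : ∀ b ∈ B, b ∈ V) (b : B) : resMap V B hBV b = 0 ↔ V.valuation (b : F) < 1 := by
  rw [resMap_apply, residue_eq_zero_iff_val]

/-- `f̄ = ḡ` in `κ(V)` iff `f - g ∈ 𝔪_V`. -/
theorem residue_eq_iff_val (V : ValuationSubring F) (f g : V) :
    IsLocalRing.residue V f = IsLocalRing.residue V g ↔ V.valuation ((f : F) - g) < 1 := by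
  rw [← sub_eq_zero, ← _root_.map_sub, residue_eq_zero_iff_val]
  rfl

/-- The image of `B` in the residue field of `V` is integrally closed in it (elementwise form;
the shape of `Mod.GoodRedAt.normal`). -/
def NormalIn (V : ValuationSubring F) (B : Set F) : Prop :=
  ∀ f ∈ V, (∃ (n : ℕ) (c : Fin n → F), (∀ i, c i ∈ B) ∧
      V.valuation (f ^ n + ∑ i : Fin n, c i * f ^ (i : ℕ)) < 1) →
    ∃ b ∈ B, V.valuation (f - b) < 1

/-- A monic relation modulo `𝔪_V` with coefficients in `B` is integrality of the residue class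
over `B` (via `resMap`). -/
theorem isIntegralElem_residue_of_rel (V : ValuationSubring F) (B : Subalgebra R F)
    (hBV : ∀ b ∈ B, b ∈ V) (f : V) (n : ℕ) (c : Fin n → F) (hc : ∀ i, c i ∈ B)
    (h : V.valuation ((f : F) ^ n + ∑ i : Fin n, c i * (f : F) ^ (i : ℕ)) < 1) :
    (resMap V B hBV).IsIntegralElem (IsLocalRing.residue V f) := by
  refine isIntegralElem_of_fin _ n (fun i => ⟨c i, hc i⟩) ?_
  have h1 : (f ^ n + ∑ i : Fin n, (⟨c i, hBV _ (hc i)⟩ : V) * f ^ (i : ℕ) : V) =
      (⟨(f : F) ^ n + ∑ i : Fin n, c i * (f : F) ^ (i : ℕ),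
        V.add_mem _ _ (V.pow_mem f.2 n)
          (V.toSubring.sum_mem fun i _ => V.mul_mem _ _ (hBV _ (hc i)) (V.pow_mem f.2 _))⟩ : V) := by
    apply Subtype.ext
    push_cast
    rfl
  have h2 : IsLocalRing.residue V (f ^ n + ∑ i : Fin n, (⟨c i, hBV _ (hc i)⟩ : V) * f ^ (i : ℕ))
      = 0 := by
    rw [h1, residue_eq_zero_iff_val]
    exact h
  rw [_root_.map_add, _root_.map_pow, _root_.map_sum] at h2
  simp only [_root_.map_mul, _root_.map_pow] at h2
  exact h2

/-- Integrality of a residue class over `B` gives a monic relation modulo `𝔪_V`. -/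
theorem exists_rel_of_isIntegralElem_residue (V : ValuationSubring F) (B : Subalgebra R F)
    (hBV : ∀ b ∈ B, b ∈ V) (f : V)
    (h : (resMap V B hBV).IsIntegralElem (IsLocalRing.residue V f)) :
    ∃ (n : ℕ) (c : Fin n → F), (∀ i, c i ∈ B) ∧
      V.valuation ((f : F) ^ n + ∑ i : Fin n, c i * (f : F) ^ (i : ℕ)) < 1 := by
  obtain ⟨n, c, hrel⟩ := exists_fin_of_isIntegralElem _ h
  refine ⟨n, fun i => (c i : F), fun i => (c i).2, ?_⟩
  have h1 : (f ^ n + ∑ i : Fin n, (⟨(c i : F), hBV _ (c i).2⟩ : V) * f ^ (i : ℕ) : V) =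
      (⟨(f : F) ^ n + ∑ i : Fin n, (c i : F) * (f : F) ^ (i : ℕ),
        V.add_mem _ _ (V.pow_mem f.2 n)
          (V.toSubring.sum_mem fun i _ =>
            V.mul_mem _ _ (hBV _ (c i).2) (V.pow_mem f.2 _))⟩ : V) := by
    apply Subtype.ext
    push_cast
    rfl
  have h2 : IsLocalRing.residue V (f ^ n + ∑ i : Fin n, (⟨(c i : F), hBV _ (c i).2⟩ : V) * f ^ (i : ℕ))
      = 0 := by
    rw [_root_.map_add, _root_.map_pow, _root_.map_sum]
    simp only [_root_.map_mul, _root_.map_pow]
    exact hrel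
  rw [h1, residue_eq_zero_iff_val] at h2
  exact h2

/-- **Core A.**  If the image of `B` in `κ(V)` is integrally closed in `κ(V)`, then
`B ⧸ (B ∩ 𝔪_V)` is an integrally closed domain. -/
theorem isIntegrallyClosed_quotient_of_normal
    (V : ValuationSubring F) (B : Subalgebra R F) (hBV : ∀ b ∈ B, b ∈ V)
    (p : Ideal B) (hp : ∀ b : B, b ∈ p ↔ V.valuation (b : F) < 1)
    (hnorm : NormalIn V (B : Set F)) :
    IsIntegrallyClosed (B ⧸ p) := by
  classical
  set ρ := resMap V B hBV with hρ
  have hker : ∀ b : B, b ∈ p → ρ b = 0 := fun b hb =>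
    (resMap_eq_zero_iff V B hBV b).2 ((hp b).1 hb)
  let ρq : B ⧸ p →+* IsLocalRing.ResidueField V := Ideal.Quotient.lift p ρ hker
  have hρq : ∀ b : B, ρq (Ideal.Quotient.mk p b) = ρ b := fun b => Ideal.Quotient.lift_mk p ρ hker
  have hinj : Function.Injective ρq := by
    rw [injective_iff_map_eq_zero]
    intro a ha
    obtain ⟨b, rfl⟩ := Ideal.Quotient.mk_surjective a
    rw [hρq] at ha
    exact Ideal.Quotient.eq_zero_iff_mem.2 ((hp b).2 ((resMap_eq_zero_iff V B hBV b).1 ha))
  have : IsDomain (B ⧸ p) := hinj.isDomain ρq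
  rw [isIntegrallyClosed_iff (FractionRing (B ⧸ p))]
  intro x hx
  let ρK : FractionRing (B ⧸ p) →+* IsLocalRing.ResidueField V := IsFractionRing.lift hinj
  have hρK : ∀ a : B ⧸ p, ρK (algebraMap _ _ a) = ρq a := fun a =>
    IsFractionRing.lift_algebraMap hinj a
  -- `ρK x` is integral over `B ⧸ p`, hence over `B`
  have h1 : ρq.IsIntegralElem (ρK x) := by
    obtain ⟨P, hP, hPx⟩ := hx
    refine ⟨P, hP, ?_⟩
    have h := congrArg ρK hPx
    rw [hom_eval₂, _root_.map_zero] at h
    have hcomp : ρK.comp (algebraMap (B ⧸ p) (FractionRing (B ⧸ p))) = ρq := by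
      ext a
      exact hρK a
    rwa [hcomp] at h
  have h2 : ρ.IsIntegralElem (ρK x) := by
    obtain ⟨n, c, hrel⟩ := exists_fin_of_isIntegralElem _ h1
    choose c' hc' using fun i => Ideal.Quotient.mk_surjective (c i)
    refine isIntegralElem_of_fin _ n c' ?_
    rw [← hrel]
    congr 1
    refine Finset.sum_congr rfl fun i _ => ?_
    rw [← hρq, hc']
  obtain ⟨f, hf⟩ := IsLocalRing.residue_surjective (R := V) (ρK x)
  rw [← hf] at h2
  obtain ⟨n, c, hc, hrel⟩ := exists_rel_of_isIntegralElem_residue V B hBV f h2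
  obtain ⟨b, hb, hfb⟩ := hnorm f f.2 ⟨n, c, hc, hrel⟩
  refine ⟨Ideal.Quotient.mk p ⟨b, hb⟩, ?_⟩
  apply ρK.injective
  rw [hρK, hρq, ← hf, resMap_apply]
  symm
  rw [residue_eq_iff_val]
  exact hfb

end Val

section Transfer

variable {R F₀ F : Type*} [CommRing R] [Field F₀] [Field F] [Algebra R F₀] [Algebra R F]

/-- A ring homomorphism mapping `V₀` into `V` reflects the maximal ideals. -/
theorem val_lt_one_of_map (γ : F₀ →+* F) (V₀ : ValuationSubring F₀) (V : ValuationSubring F)
    (hγV : ∀ g ∈ V₀, γ g ∈ V) {g : F₀} (hg : g ∈ V₀) (h : V.valuation (γ g) < 1) :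
    V₀.valuation g < 1 := by
  by_contra hcon
  rw [not_lt] at hcon
  have hone : V₀.valuation g = 1 := le_antisymm ((V₀.valuation_le_one_iff _).2 hg) hcon
  have hinv : g⁻¹ ∈ V₀ := by
    rw [← V₀.valuation_le_one_iff, map_inv₀, hone, inv_one]
  have h1 : (γ g)⁻¹ ∈ V := by
    rw [← map_inv₀]
    exact hγV _ hinv
  have h2 : V.valuation (γ g)⁻¹ ≤ 1 := (V.valuation_le_one_iff _).2 h1
  have hne : V.valuation (γ g) ≠ 0 := by
    intro h0
    rw [map_inv₀, h0, inv_zero] at h2
    have hg0 : γ g = 0 := (Valuation.zero_iff _).1 h0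
    have : g = 0 := by
      by_contra hg0'
      exact (_root_.map_ne_zero γ).2 hg0' hg0
    rw [this, _root_.map_zero] at hone
    exact zero_ne_one hone
  rw [map_inv₀, inv_le_one₀ (zero_lt_iff.2 hne)] at h2
  exact absurd h (not_lt.2 h2)

/-- The restriction `B₀ → B` of a ring homomorphism `γ : F₀ → F` with `γ B₀ ⊆ B`. -/
def mapSub (γ : F₀ →+* F) (B₀ : Subalgebra R F₀) (B : Subalgebra R F)
    (hγB : ∀ b ∈ B₀, γ b ∈ B) : B₀ →+* B where
  toFun b := ⟨γ b.1, hγB b.1 b.2⟩
  map_one' := Subtype.ext (_root_.map_one γ)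
  map_mul' a b := Subtype.ext (_root_.map_mul γ a.1 b.1)
  map_zero' := Subtype.ext (_root_.map_zero γ)
  map_add' a b := Subtype.ext (_root_.map_add γ a.1 b.1)

@[simp]
theorem coe_mapSub (γ : F₀ →+* F) (B₀ : Subalgebra R F₀) (B : Subalgebra R F)
    (hγB : ∀ b ∈ B₀, γ b ∈ B) (b : B₀) : ((mapSub γ B₀ B hγB b : B) : F) = γ b := rfl

/-- **Core B.**  Transfer of normality of the special fibre along `γ : F₀ → F`:
* `γ V₀ ⊆ V` and `γ 𝔪_{V₀} ⊆ 𝔪_V`;
* `γ B₀ ⊆ B`;
* residue degree one: `V = γ V₀ + 𝔪_V`;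
* `B` is integral over `γ B₀` modulo `𝔪_V` (in the residue field of `V`). -/
theorem normalIn_transfer (γ : F₀ →+* F)
    (V₀ : ValuationSubring F₀) (V : ValuationSubring F)
    (hγV : ∀ g ∈ V₀, γ g ∈ V)
    (hγp : ∀ g : F₀, V₀.valuation g < 1 → V.valuation (γ g) < 1)
    (B₀ : Subalgebra R F₀) (B : Subalgebra R F)
    (hB₀ : ∀ b ∈ B₀, b ∈ V₀) (hB : ∀ b ∈ B, b ∈ V)
    (hγB : ∀ b ∈ B₀, γ b ∈ B)
    (hres : ∀ f ∈ V, ∃ g ∈ V₀, V.valuation (f - γ g) < 1)
    (hint : ∀ b : B, ((resMap V B hB).comp (mapSub γ B₀ B hγB)).IsIntegralElem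
      (resMap V B hB b))
    (hnorm₀ : NormalIn V₀ (B₀ : Set F₀)) :
    NormalIn V (B : Set F) := by
  classical
  intro f hf ⟨n, c, hc, hrel⟩
  -- the two residue maps into `κ(V)`
  set ρ := resMap V B hB with hρ
  set ρ₀ : B₀ →+* IsLocalRing.ResidueField V := ρ.comp (mapSub γ B₀ B hγB) with hρ₀
  -- `f̄` is integral over `γ B̄₀`
  have h2 : ρ₀.IsIntegralElem (IsLocalRing.residue V ⟨f, hf⟩) :=
    isIntegralElem_trans ρ₀ ρ hint (isIntegralElem_residue_of_rel V B hB ⟨f, hf⟩ n c hc hrel)
  -- residue degree one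
  obtain ⟨g, hg, hfg⟩ := hres f hf
  have hfg' : IsLocalRing.residue V ⟨f, hf⟩ = IsLocalRing.residue V ⟨γ g, hγV g hg⟩ := by
    rw [residue_eq_iff_val]
    exact hfg
  rw [hfg'] at h2
  obtain ⟨m, d, hrel₀⟩ := exists_fin_of_isIntegralElem _ h2
  -- descend the relation to level `F₀`
  have hmem₀ : g ^ m + ∑ i : Fin m, (d i : F₀) * g ^ (i : ℕ) ∈ V₀ :=
    V₀.add_mem _ _ (V₀.pow_mem hg m)
      (V₀.toSubring.sum_mem fun i _ => V₀.mul_mem _ _ (hB₀ _ (d i).2) (V₀.pow_mem hg _))
  have hval : V.valuation (γ (g ^ m + ∑ i : Fin m, (d i : F₀) * g ^ (i : ℕ))) < 1 := by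
    have hv : (⟨γ g, hγV g hg⟩ ^ m + ∑ i : Fin m,
        (⟨γ (d i), hB _ (hγB _ (d i).2)⟩ : V) * ⟨γ g, hγV g hg⟩ ^ (i : ℕ) : V) =
        (⟨γ (g ^ m + ∑ i : Fin m, (d i : F₀) * g ^ (i : ℕ)), hγV _ hmem₀⟩ : V) := by
      apply Subtype.ext
      push_cast
      simp only [_root_.map_add, _root_.map_pow, _root_.map_sum, _root_.map_mul]
    have h3 : IsLocalRing.residue V (⟨γ g, hγV g hg⟩ ^ m + ∑ i : Fin m,
        (⟨γ (d i), hB _ (hγB _ (d i).2)⟩ : V) * ⟨γ g, hγV g hg⟩ ^ (i : ℕ)) = 0 := by
      rw [_root_.map_add, _root_.map_pow, _root_.map_sum]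
      simp only [_root_.map_mul, _root_.map_pow]
      exact hrel₀
    rw [hv, residue_eq_zero_iff_val] at h3
    exact h3
  obtain ⟨b₀, hb₀, hgb⟩ := hnorm₀ g hg ⟨m, fun i => (d i : F₀), fun i => (d i).2,
    val_lt_one_of_map γ V₀ V hγV hmem₀ hval⟩
  refine ⟨γ b₀, hγB b₀ hb₀, ?_⟩
  have hpres : V.valuation (γ (g - b₀)) < 1 := hγp _ hgb
  have : f - γ b₀ = (f - γ g) + γ (g - b₀) := by
    rw [_root_.map_sub]
    ring
  rw [this]
  exact lt_of_le_of_lt (Valuation.map_add _ _ _) (max_lt hfg hpres)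

/-- The hypothesis `hint` of `normalIn_transfer` from a coordinate congruence:
`B` integral over `R[y]`, `y ≡ γ c₀ mod 𝔪_V` with `c₀ ∈ B₀`. -/
theorem isIntegralElem_of_coord (γ : F₀ →+* F)
    (hγR : ∀ r : R, γ (algebraMap R F₀ r) = algebraMap R F r)
    (V : ValuationSubring F) (B₀ : Subalgebra R F₀) (B : Subalgebra R F)
    (hB : ∀ b ∈ B, b ∈ V) (hγB : ∀ b ∈ B₀, γ b ∈ B)
    (y : F) (hyB : y ∈ B) (c₀ : F₀) (hc₀ : c₀ ∈ B₀) (hy : V.valuation (y - γ c₀) < 1)
    (hBint : ∀ b ∈ B, IsIntegral (Algebra.adjoin R ({y} : Set F)) b) (b : B) :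
    ((resMap V B hB).comp (mapSub γ B₀ B hγB)).IsIntegralElem (resMap V B hB b) := by
  classical
  set ρ := resMap V B hB with hρ
  set ρ₀ : B₀ →+* IsLocalRing.ResidueField V := ρ.comp (mapSub γ B₀ B hγB) with hρ₀
  have hle : Algebra.adjoin R ({y} : Set F) ≤ B :=
    Algebra.adjoin_le (Set.singleton_subset_iff.2 hyB)
  let ι : Algebra.adjoin R ({y} : Set F) →+* B := (Subalgebra.inclusion hle).toRingHom
  have hι : ∀ a, ((ι a : B) : F) = (a : F) := fun _ => rfl
  -- `b̄` is integral over the image of `R[y]`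
  have h1 : (ρ.comp ι).IsIntegralElem (ρ b) := by
    obtain ⟨Q, hQ, hQb⟩ := hBint b.1 b.2
    refine ⟨Q, hQ, ?_⟩
    have h0 : Q.eval₂ ι b = 0 := by
      apply Subtype.ext
      have := Polynomial.hom_eval₂ Q ι B.val.toRingHom b
      rw [ZeroMemClass.coe_zero]
      calc ((Q.eval₂ ι b : B) : F) = B.val.toRingHom (Q.eval₂ ι b) := rfl
        _ = Q.eval₂ (B.val.toRingHom.comp ι) (B.val.toRingHom b) := this
        _ = 0 := hQb
    have := congrArg ρ h0
    rwa [Polynomial.hom_eval₂, _root_.map_zero] at this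
  -- the image of `R[y]` lies in the image of `B₀`
  refine isIntegralElem_trans ρ₀ (ρ.comp ι) (fun a => ?_) h1
  have hmem : (a : F) ∈ (Polynomial.aeval (R := R) y).range := by
    rw [← Algebra.adjoin_singleton_eq_range_aeval]
    exact a.2
  obtain ⟨Q, hQ⟩ := hmem
  have key : ρ.comp (Polynomial.aeval (R := R) (⟨y, hyB⟩ : B)).toRingHom =
      ρ₀.comp (Polynomial.aeval (R := R) (⟨c₀, hc₀⟩ : B₀)).toRingHom := by
    apply Polynomial.ringHom_ext
    · intro r
      simp only [RingHom.comp_apply, AlgHom.toRingHom_eq_coe, RingHom.coe_coe,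
        Polynomial.aeval_C, hρ₀]
      rw [resMap_apply, resMap_apply]
      congr 1
      apply Subtype.ext
      show algebraMap R F r = γ (algebraMap R F₀ r)
      exact (hγR r).symm
    · simp only [RingHom.comp_apply, AlgHom.toRingHom_eq_coe, RingHom.coe_coe,
        Polynomial.aeval_X, hρ₀]
      rw [resMap_apply, resMap_apply, residue_eq_iff_val]
      exact hy
  have h2 : (ρ.comp ι) a = ρ₀ (Polynomial.aeval (R := R) (⟨c₀, hc₀⟩ : B₀) Q) := by
    have h3 : ι a = Polynomial.aeval (R := R) (⟨y, hyB⟩ : B) Q := by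
      apply Subtype.ext
      rw [hι, ← hQ]
      exact (Polynomial.aeval_algHom_apply B.val (⟨y, hyB⟩ : B) Q).symm ▸ rfl
    rw [RingHom.comp_apply, h3]
    exact congrArg (fun φ : Polynomial R →+* IsLocalRing.ResidueField V => φ Q) key
  rw [h2]
  exact ρ₀.isIntegralElem_map

end Transfer

section Chart

variable {R F₀ F : Type*} [CommRing R] [Field F₀] [Field F] [Algebra R F₀] [Algebra R F]

/-- Integrality over `R[y]` in the form used by `Mod.chart`. -/
theorem isIntegral_adjoin_iff (y f : F) :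
    IsIntegral (Algebra.adjoin R ({y} : Set F)) f ↔
      ∃ p : Polynomial (Polynomial R), p.Monic ∧
        p.eval₂ (Polynomial.eval₂RingHom (algebraMap R F) y) f = 0 := by
  classical
  let ψ : Polynomial R →ₐ[R] Algebra.adjoin R ({y} : Set F) :=
    (Polynomial.aeval (R := R) y).codRestrict (Algebra.adjoin R ({y} : Set F)) (fun p => by
      rw [Algebra.adjoin_singleton_eq_range_aeval]
      exact ⟨p, rfl⟩)
  have hψ : (algebraMap (Algebra.adjoin R ({y} : Set F)) F).comp ψ.toRingHom =
      Polynomial.eval₂RingHom (algebraMap R F) y := by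
    apply Polynomial.ringHom_ext
    · intro r
      simp [ψ]
    · simp [ψ]
  have hsurj : Function.Surjective ψ.toRingHom := by
    rintro ⟨a, ha⟩
    have ha' : a ∈ (Polynomial.aeval (R := R) y).range := by
      rw [← Algebra.adjoin_singleton_eq_range_aeval]
      exact ha
    obtain ⟨Q, hQ⟩ := ha'
    exact ⟨Q, Subtype.ext hQ⟩
  constructor
  · rintro ⟨Q, hQ, hQf⟩
    have hlift : Q ∈ Polynomial.lifts ψ.toRingHom := by
      rw [Polynomial.lifts_iff_coeff_lifts]
      intro n
      exact hsurj _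
    obtain ⟨p, hp, -, hpm⟩ := Polynomial.lifts_and_natDegree_eq_and_monic hlift hQ
    refine ⟨p, hpm, ?_⟩
    rw [← hψ, ← Polynomial.eval₂_map, hp]
    exact hQf
  · rintro ⟨p, hp, hpf⟩
    refine ⟨p.map ψ.toRingHom, hp.map _, ?_⟩
    rw [Polynomial.eval₂_map, hψ]
    exact hpf

/-- A valuation subring containing `R` and `y` contains the integral closure of `R[y]`. -/
theorem mem_valuationSubring_of_isIntegral_adjoin (V : ValuationSubring F)
    (hR : ∀ r : R, algebraMap R F r ∈ V) {y : F} (hy : y ∈ V) {f : F}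
    (hf : IsIntegral (Algebra.adjoin R ({y} : Set F)) f) : f ∈ V := by
  classical
  let VA : Subalgebra R F :=
    { V.toSubring.toSubsemiring with algebraMap_mem' := hR }
  have hle : Algebra.adjoin R ({y} : Set F) ≤ VA :=
    Algebra.adjoin_le (Set.singleton_subset_iff.2 hy)
  obtain ⟨Q, hQ, hQf⟩ := hf
  let ι : Algebra.adjoin R ({y} : Set F) →+* V :=
    { toFun := fun a => ⟨a.1, hle a.2⟩
      map_one' := rfl
      map_mul' := fun _ _ => rfl
      map_zero' := rfl
      map_add' := fun _ _ => rfl }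
  have hint : IsIntegral V f := by
    refine ⟨Q.map ι, hQ.map _, ?_⟩
    rw [Polynomial.eval₂_map]
    exact hQf
  obtain ⟨z, hz⟩ := (IsIntegrallyClosed.isIntegral_iff (R := V) (K := F)).mp hint
  rw [← hz]
  exact z.2

/-- Functoriality of charts: if `γ y₀` is integral over `R[y]` then `γ` maps the integral
closure of `R[y₀]` into the integral closure of `R[y]`. -/
theorem isIntegral_adjoin_map (γ : F₀ →+* F)
    (hγR : ∀ r : R, γ (algebraMap R F₀ r) = algebraMap R F r) {y₀ : F₀} {y : F}
    (hy : IsIntegral (Algebra.adjoin R ({y} : Set F)) (γ y₀)) {b : F₀}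
    (hb : IsIntegral (Algebra.adjoin R ({y₀} : Set F₀)) b) :
    IsIntegral (Algebra.adjoin R ({y} : Set F)) (γ b) := by
  classical
  rw [isIntegral_adjoin_iff] at hb
  obtain ⟨p, hp, hpb⟩ := hb
  -- `γ b` is integral over `R[γ y₀]`
  have h1 : (Polynomial.eval₂RingHom (algebraMap R F) (γ y₀)).IsIntegralElem (γ b) := by
    refine ⟨p, hp, ?_⟩
    have h := congrArg γ hpb
    rw [Polynomial.hom_eval₂, _root_.map_zero] at h
    have hcomp : γ.comp (Polynomial.eval₂RingHom (algebraMap R F₀) y₀) =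
        Polynomial.eval₂RingHom (algebraMap R F) (γ y₀) := by
      apply Polynomial.ringHom_ext
      · intro r
        simp [hγR]
      · simp
    rwa [hcomp] at h
  -- `R[γ y₀]` is integral over `R[y]`
  refine isIntegralElem_trans (algebraMap (Algebra.adjoin R ({y} : Set F)) F)
    (Polynomial.eval₂RingHom (algebraMap R F) (γ y₀)) (fun a => ?_) h1
  show IsIntegral (Algebra.adjoin R ({y} : Set F)) (Polynomial.eval₂ (algebraMap R F) (γ y₀) a)
  rw [Polynomial.eval₂_eq_sum_range]
  refine IsIntegral.sum _ fun i _ => IsIntegral.mul ?_ (hy.pow i)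
  have : algebraMap R F (a.coeff i) =
      algebraMap (Algebra.adjoin R ({y} : Set F)) F (algebraMap R _ (a.coeff i)) := rfl
  rw [this]
  exact isIntegral_algebraMap

end Chart

end Fermat.Agent.A2.Mod.H142

end
end
-- ===== PACK-END A2/Mod/H142/S2Core.lean

-- ===== PACK-BEGIN A2/Mod/H189/ChartChange.lean
section






/-!
# Cell A2 / MOD, GOODRED part G3 (helper189): CHART CHANGE, abstract form (Mathlib only)

`R` a commutative ring, `F` a field, `V` a subring of `F` (in the application the Gauss valuation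
ring), `w : F` (the uniformiser).  For an `R`-subalgebra `A ⊆ F` (`A = R[y]`) we consider the
*chart* `IC(A)` = elements of `F` integral over `A`, and the two elementwise properties that make up
`Mod.GoodRedAt` (`A2/Mod/Spec.lean`):

* `QepOn V w A`    : `b ∈ IC(A)`, `b ∈ w V` ⟹ `b / w ∈ IC(A)`;
* `NormalOn V w A` : `f ∈ V` whose residue is integral over `IC(A) / w` is congruent modulo `w V`
  to an element of `IC(A)`   (the special fibre of the chart is integrally closed in `κ(V)`).

Results: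

* `isIntegral_of_forall_isIntegral` : `IC` only depends on `A` up to integral equivalence;
* `QepOn.loc`, `NormalOn.loc`       : both properties pass from `A` to `A[1/s]` (`s ∈ A` a unit of
  `V`);
* `QepOn.glue`, `NormalOn.glue`     : both properties glue along a covering `α s₁ + β s₂ = 1`.

These are the tools for changing the coordinate of a model with good reduction (e.g. from the
Hauptmodul `t₂` or `t₃` used by row S18 for the residue characteristics `3` and `2` to `j`).
-/

set_option autoImplicit false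

namespace Fermat.Agent.A2.Mod.H189

open Polynomial

variable {R : Type*} [CommRing R] {F : Type*} [Field F] [Algebra R F]

/-- `f ∈ w V`. -/
def InWV (V : Subring F) (w f : F) : Prop := f * w⁻¹ ∈ V

theorem InWV.mul_left {V : Subring F} {w f : F} (h : InWV V w f) {c : F} (hc : c ∈ V) :
    InWV V w (c * f) := by
  unfold InWV at h ⊢
  rw [mul_assoc]
  exact V.mul_mem hc h

theorem InWV.add {V : Subring F} {w f g : F} (hf : InWV V w f) (hg : InWV V w g) :
    InWV V w (f + g) := by
  unfold InWV at hf hg ⊢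
  rw [add_mul]
  exact V.add_mem hf hg

theorem InWV.sub {V : Subring F} {w f g : F} (hf : InWV V w f) (hg : InWV V w g) :
    InWV V w (f - g) := by
  unfold InWV at hf hg ⊢
  rw [sub_mul]
  exact V.sub_mem hf hg

/-- The `q`-expansion principle for the chart of `A`, elementwise. -/
def QepOn (V : Subring F) (w : F) (A : Subalgebra R F) : Prop :=
  ∀ b : F, IsIntegral A b → InWV V w b → IsIntegral A (b * w⁻¹)

/-- Normality of the special fibre of the chart of `A`, elementwise: an element of `V` which is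
integral over the chart modulo `w V` is congruent to an element of the chart. -/
def NormalOn (V : Subring F) (w : F) (A : Subalgebra R F) : Prop :=
  ∀ f ∈ V, (∃ (n : ℕ) (c : Fin n → F), (∀ i, IsIntegral A (c i)) ∧
      InWV V w (f ^ n + ∑ i : Fin n, c i * f ^ (i : ℕ))) →
    ∃ b : F, IsIntegral A b ∧ InWV V w (f - b)

/-! ### Integral equivalence -/

/-- Integrality over a subalgebra only depends on its integral closure. -/
theorem isIntegral_of_forall_isIntegral {A A' : Subalgebra R F}
    (h : ∀ a ∈ A, IsIntegral A' a) {f : F} (hf : IsIntegral A f) : IsIntegral A' f := by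
  -- `f` is integral over the integral closure `C'` of `A'`
  let C' : Subalgebra A' F := integralClosure A' F
  let ι : A →+* C' :=
    { toFun := fun a => ⟨(a : F), h a a.2⟩
      map_one' := rfl
      map_mul' := fun _ _ => rfl
      map_zero' := rfl
      map_add' := fun _ _ => rfl }
  have h1 : IsIntegral C' f := by
    have := IsIntegral.map_of_comp_eq (R := A) (S := F) (T := C') (U := F) ι (RingHom.id F)
      (by ext a; rfl) hf
    simpa using this
  exact isIntegral_trans (R := A') (A := C') f h1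

theorem isIntegral_iff_of_forall_isIntegral {A A' : Subalgebra R F}
    (h : ∀ a ∈ A, IsIntegral A' a) (h' : ∀ a ∈ A', IsIntegral A a) {f : F} :
    IsIntegral A f ↔ IsIntegral A' f :=
  ⟨isIntegral_of_forall_isIntegral h, isIntegral_of_forall_isIntegral h'⟩

theorem isIntegral_of_le {A A' : Subalgebra R F} (h : A ≤ A') {f : F} (hf : IsIntegral A f) :
    IsIntegral A' f :=
  isIntegral_of_forall_isIntegral (fun a ha => isIntegral_algebraMap (R := A') (x := ⟨a, h ha⟩)) hf

theorem QepOn.congr {V : Subring F} {w : F} {A A' : Subalgebra R F}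
    (h : ∀ a ∈ A, IsIntegral A' a) (h' : ∀ a ∈ A', IsIntegral A a) (hq : QepOn V w A) :
    QepOn V w A' := fun b hb hbw =>
  isIntegral_of_forall_isIntegral h (hq b (isIntegral_of_forall_isIntegral h' hb) hbw)

theorem NormalOn.congr {V : Subring F} {w : F} {A A' : Subalgebra R F}
    (h : ∀ a ∈ A, IsIntegral A' a) (h' : ∀ a ∈ A', IsIntegral A a) (hn : NormalOn V w A) :
    NormalOn V w A' := by
  rintro f hf ⟨n, c, hc, hcw⟩
  obtain ⟨b, hb, hbw⟩ := hn f hf
    ⟨n, c, fun i => isIntegral_of_forall_isIntegral h' (hc i), hcw⟩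
  exact ⟨b, isIntegral_of_forall_isIntegral h hb, hbw⟩

/-! ### Localisation of a subalgebra at one element -/

/-- `A[1/s]` as a subalgebra of the field `F`. -/
def locSub (A : Subalgebra R F) (s : F) : Subalgebra R F :=
  Algebra.adjoin R ((A : Set F) ∪ {s⁻¹})

theorem le_locSub (A : Subalgebra R F) (s : F) : A ≤ locSub A s := fun _ ha =>
  Algebra.subset_adjoin (Or.inl ha)

theorem inv_mem_locSub (A : Subalgebra R F) (s : F) : s⁻¹ ∈ locSub A s :=
  Algebra.subset_adjoin (Or.inr rfl)

theorem locSub_le {A B : Subalgebra R F} {s : F} (hAB : A ≤ B) (hs : s⁻¹ ∈ B) : locSub A s ≤ B :=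
  Algebra.adjoin_le (by
    rintro x (hx | hx)
    · exact hAB hx
    · rw [Set.mem_singleton_iff] at hx
      rw [hx]
      exact hs)

/-- Every element of `A[1/s]` is of the form `a / s ^ k`. -/
theorem exists_pow_mul_mem_of_mem_loc {A : Subalgebra R F} {s : F} (hs : s ∈ A) {b : F}
    (hb : b ∈ locSub A s) : ∃ k : ℕ, ∀ k', k ≤ k' → s ^ k' * b ∈ A := by
  unfold locSub at hb
  induction hb using Algebra.adjoin_induction with
  | mem x hx =>
    rcases hx with hx | hx
    · exact ⟨0, fun k' _ => A.mul_mem (A.pow_mem hs k') hx⟩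
    · rw [Set.mem_singleton_iff] at hx
      subst hx
      refine ⟨1, fun k' hk' => ?_⟩
      by_cases h0 : s = 0
      · subst h0
        simp
      · obtain ⟨k'', rfl⟩ := Nat.exists_eq_add_of_le hk'
        rw [pow_add, pow_one, mul_comm s, mul_assoc, mul_inv_cancel₀ h0, mul_one]
        exact A.pow_mem hs k''
  | algebraMap r => exact ⟨0, fun k' _ => A.mul_mem (A.pow_mem hs k') (A.algebraMap_mem r)⟩
  | add x y _ _ hx hy =>
    obtain ⟨k₁, h₁⟩ := hx
    obtain ⟨k₂, h₂⟩ := hy
    refine ⟨max k₁ k₂, fun k' hk' => ?_⟩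
    rw [mul_add]
    exact A.add_mem (h₁ k' (le_trans (le_max_left _ _) hk'))
      (h₂ k' (le_trans (le_max_right _ _) hk'))
  | mul x y _ _ hx hy =>
    obtain ⟨k₁, h₁⟩ := hx
    obtain ⟨k₂, h₂⟩ := hy
    refine ⟨k₁ + k₂, fun k' hk' => ?_⟩
    obtain ⟨k'', rfl⟩ := Nat.exists_eq_add_of_le hk'
    have : s ^ (k₁ + k₂ + k'') * (x * y) = s ^ k'' * ((s ^ k₁ * x) * (s ^ k₂ * y)) := by
      rw [pow_add, pow_add]; ring
    rw [this]
    exact A.mul_mem (A.pow_mem hs k'') (A.mul_mem (h₁ k₁ le_rfl) (h₂ k₂ le_rfl))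

/-- An element of `A` is integral over `A`. -/
theorem isIntegral_of_mem {A : Subalgebra R F} {a : F} (ha : a ∈ A) : IsIntegral A a :=
  isIntegral_algebraMap (R := A) (x := ⟨a, ha⟩)

/-- Integral closure commutes with localisation, elementwise: if `f` is integral over `A[1/s]`
then `s ^ k f` is integral over `A` for all large `k`. -/
theorem exists_pow_mul_isIntegral {A : Subalgebra R F} {s : F} (hs : s ∈ A) {f : F}
    (hf : IsIntegral (locSub A s) f) : ∃ k : ℕ, ∀ k', k ≤ k' → IsIntegral A (s ^ k' * f) := by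
  classical
  suffices h : ∃ k : ℕ, IsIntegral A (s ^ k * f) by
    obtain ⟨k, hk⟩ := h
    refine ⟨k, fun k' hk' => ?_⟩
    obtain ⟨k'', rfl⟩ := Nat.exists_eq_add_of_le hk'
    have : s ^ (k + k'') * f = s ^ k'' * (s ^ k * f) := by rw [pow_add]; ring
    rw [this]
    exact (isIntegral_of_mem (A.pow_mem hs k'')).mul hk
  obtain ⟨p, hp, hpf⟩ := hf
  -- a common exponent for all coefficients
  have hcoef : ∀ i : ℕ, ∃ k : ℕ, ∀ k', k ≤ k' → s ^ k' * ((p.coeff i : locSub A s) : F) ∈ A :=
    fun i => exists_pow_mul_mem_of_mem_loc hs (p.coeff i).2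
  choose kc hkc using hcoef
  set K : ℕ := (Finset.range (p.natDegree + 1)).sup kc with hK
  have hKle : ∀ i, i ≤ p.natDegree → kc i ≤ K := fun i hi =>
    Finset.le_sup (f := kc) (Finset.mem_range.2 (Nat.lt_succ_of_le hi))
  -- the element `s ^ K` of `A[1/s]`
  let sK : locSub A s := ⟨s ^ K, (locSub A s).pow_mem (le_locSub A s hs) K⟩
  let ι : A →+* locSub A s := (Subalgebra.inclusion (le_locSub A s)).toRingHom
  have hιval : ∀ a : A, ((ι a : locSub A s) : F) = (a : F) := fun a => rfl
  have hlifts : scaleRoots p sK ∈ lifts ι := by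
    rw [lifts_iff_coeff_lifts]
    intro i
    rw [coeff_scaleRoots]
    by_cases hi : i < p.natDegree
    · have h1 : s ^ (K * (p.natDegree - i)) * ((p.coeff i : locSub A s) : F) ∈ A := by
        apply hkc i
        calc kc i ≤ K := hKle i hi.le
          _ = K * 1 := (mul_one K).symm
          _ ≤ K * (p.natDegree - i) := Nat.mul_le_mul_left K (by omega)
      refine ⟨⟨_, h1⟩, Subtype.ext ?_⟩
      show s ^ (K * (p.natDegree - i)) * ((p.coeff i : locSub A s) : F)
        = ((p.coeff i : locSub A s) : F) * (s ^ K) ^ (p.natDegree - i)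
      rw [← pow_mul, mul_comm]
    · by_cases hi' : i = p.natDegree
      · subst hi'
        refine ⟨1, ?_⟩
        rw [_root_.map_one, Nat.sub_self, pow_zero, mul_one]
        exact hp.coeff_natDegree.symm
      · have : p.coeff i = 0 := coeff_eq_zero_of_natDegree_lt (by omega)
        refine ⟨0, ?_⟩
        rw [_root_.map_zero, this, zero_mul]
  have hmonic : (scaleRoots p sK).Monic := (monic_scaleRoots_iff sK).2 hp
  obtain ⟨q, hq, -, hqm⟩ := lifts_and_degree_eq_and_monic hlifts hmonic
  refine ⟨K, q, hqm, ?_⟩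
  have hcomp : (algebraMap (locSub A s) F).comp ι = algebraMap A F := by
    ext a
    rfl
  have h0 : eval₂ (algebraMap (locSub A s) F) (algebraMap (locSub A s) F sK * f) (scaleRoots p sK) = 0 :=
    scaleRoots_eval₂_eq_zero (algebraMap (locSub A s) F) hpf
  rw [← hq, eval₂_map, hcomp] at h0
  exact h0

/-- Conversely `a / s ^ k` is integral over `A[1/s]` as soon as `a` is integral over `A`. -/
theorem isIntegral_loc_of_pow_mul {A : Subalgebra R F} {s : F} (hs0 : s ≠ 0) {b : F} {k : ℕ}
    (hb : IsIntegral A (s ^ k * b)) : IsIntegral (locSub A s) b := by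
  have h1 : IsIntegral (locSub A s) (s ^ k * b) := isIntegral_of_le (le_locSub A s) hb
  have h2 : IsIntegral (locSub A s) (s⁻¹ ^ k) :=
    isIntegral_of_mem ((locSub A s).pow_mem (inv_mem_locSub A s) k)
  have : b = s⁻¹ ^ k * (s ^ k * b) := by
    rw [← mul_assoc, ← mul_pow, inv_mul_cancel₀ hs0, one_pow, one_mul]
  rw [this]
  exact h2.mul h1

/-- **QEP passes to localisations.** -/
theorem QepOn.loc {V : Subring F} {w : F} {A : Subalgebra R F} (hq : QepOn V w A) {s : F}
    (hsA : s ∈ A) (hs0 : s ≠ 0) (hsV : s ∈ V) : QepOn V w (locSub A s) := by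
  intro b hb hbw
  obtain ⟨k, hk⟩ := exists_pow_mul_isIntegral hsA hb
  have h1 := hq (s ^ k * b) (hk k le_rfl) (hbw.mul_left (V.pow_mem hsV k))
  apply isIntegral_loc_of_pow_mul hs0 (k := k)
  rwa [← mul_assoc]

/-- **Normality of the special fibre passes to localisations.** -/
theorem NormalOn.loc {V : Subring F} {w : F} {A : Subalgebra R F} (hn : NormalOn V w A) {s : F}
    (hsA : s ∈ A) (hs0 : s ≠ 0) (hsV : s ∈ V) (hsV' : s⁻¹ ∈ V) : NormalOn V w (locSub A s) := by
  classical
  rintro f hf ⟨n, c, hc, hcw⟩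
  have hex : ∀ i : Fin n, ∃ k : ℕ, ∀ k', k ≤ k' → IsIntegral A (s ^ k' * c i) :=
    fun i => exists_pow_mul_isIntegral hsA (hc i)
  choose kc hkc using hex
  set K : ℕ := Finset.univ.sup kc with hK
  have hKle : ∀ i, kc i ≤ K := fun i => Finset.le_sup (f := kc) (Finset.mem_univ i)
  -- the scaled element and the scaled equation
  have hg : s ^ K * f ∈ V := V.mul_mem (V.pow_mem hsV K) hf
  have key : (s ^ K * f) ^ n + ∑ i : Fin n, (s ^ (K * (n - (i : ℕ))) * c i) * (s ^ K * f) ^ (i : ℕ)
      = s ^ (K * n) * (f ^ n + ∑ i : Fin n, c i * f ^ (i : ℕ)) := by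
    rw [mul_add, Finset.mul_sum, mul_pow, ← pow_mul]
    congr 1
    refine Finset.sum_congr rfl fun i _ => ?_
    have hi : K * n = K * (n - (i : ℕ)) + K * (i : ℕ) := by
      rw [← Nat.mul_add, Nat.sub_add_cancel i.2.le]
    rw [mul_pow, ← pow_mul, hi, pow_add]
    ring
  obtain ⟨b, hb, hbw⟩ := hn (s ^ K * f) hg ⟨n, fun i => s ^ (K * (n - (i : ℕ))) * c i,
    fun i => hkc i _ (by
      calc kc i ≤ K := hKle i
        _ = K * 1 := (mul_one K).symm
        _ ≤ K * (n - (i : ℕ)) := Nat.mul_le_mul_left K (by have := i.2; omega)),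
    by rw [key]; exact hcw.mul_left (V.pow_mem hsV _)⟩
  refine ⟨s⁻¹ ^ K * b, ?_, ?_⟩
  · apply isIntegral_loc_of_pow_mul hs0 (k := K)
    rw [← mul_assoc, ← mul_pow, mul_inv_cancel₀ hs0, one_pow, one_mul]
    exact hb
  · have : f - s⁻¹ ^ K * b = s⁻¹ ^ K * (s ^ K * f - b) := by
      rw [mul_sub, ← mul_assoc, ← mul_pow, inv_mul_cancel₀ hs0, one_pow, one_mul]
    rw [this]
    exact hbw.mul_left (V.pow_mem hsV' K)

/-! ### Gluing along a covering by two principal opens -/

/-- A partition of unity by high powers. -/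
theorem exists_partition_pow {A : Subalgebra R F} {s₁ s₂ α β : F} (hs₁ : s₁ ∈ A) (hs₂ : s₂ ∈ A)
    (hα : α ∈ A) (hβ : β ∈ A) (h1 : α * s₁ + β * s₂ = 1) (k : ℕ) :
    ∃ a₁ ∈ A, ∃ a₂ ∈ A, a₁ * s₁ ^ k + a₂ * s₂ ^ k = 1 := by
  have hc : IsCoprime (⟨s₁, hs₁⟩ : A) ⟨s₂, hs₂⟩ :=
    ⟨⟨α, hα⟩, ⟨β, hβ⟩, Subtype.ext h1⟩
  obtain ⟨a, b, hab⟩ := hc.pow (m := k) (n := k)
  exact ⟨a, a.2, b, b.2, congrArg Subtype.val hab⟩

/-- **QEP glues.** -/
theorem QepOn.glue {V : Subring F} {w : F} {A : Subalgebra R F} {s₁ s₂ α β : F}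
    (hs₁ : s₁ ∈ A) (hs₂ : s₂ ∈ A) (hα : α ∈ A) (hβ : β ∈ A) (h1 : α * s₁ + β * s₂ = 1)
    (hq₁ : QepOn V w (locSub A s₁)) (hq₂ : QepOn V w (locSub A s₂)) : QepOn V w A := by
  intro b hb hbw
  obtain ⟨k₁, hk₁⟩ := exists_pow_mul_isIntegral hs₁
    (hq₁ b (isIntegral_of_le (le_locSub A s₁) hb) hbw)
  obtain ⟨k₂, hk₂⟩ := exists_pow_mul_isIntegral hs₂
    (hq₂ b (isIntegral_of_le (le_locSub A s₂) hb) hbw)
  obtain ⟨a₁, ha₁, a₂, ha₂, ha⟩ := exists_partition_pow hs₁ hs₂ hα hβ h1 (max k₁ k₂)
  have e : b * w⁻¹ = a₁ * (s₁ ^ max k₁ k₂ * (b * w⁻¹)) + a₂ * (s₂ ^ max k₁ k₂ * (b * w⁻¹)) := by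
    linear_combination (-(b * w⁻¹)) * ha
  rw [e]
  exact ((isIntegral_of_mem ha₁).mul (hk₁ _ (le_max_left _ _))).add
    ((isIntegral_of_mem ha₂).mul (hk₂ _ (le_max_right _ _)))

/-- **Normality of the special fibre glues.** -/
theorem NormalOn.glue {V : Subring F} {w : F} {A : Subalgebra R F} {s₁ s₂ α β : F}
    (hAV : ∀ a ∈ A, a ∈ V)
    (hs₁ : s₁ ∈ A) (hs₂ : s₂ ∈ A) (hα : α ∈ A) (hβ : β ∈ A) (h1 : α * s₁ + β * s₂ = 1)
    (hn₁ : NormalOn V w (locSub A s₁)) (hn₂ : NormalOn V w (locSub A s₂)) : NormalOn V w A := by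
  rintro f hf ⟨n, c, hc, hcw⟩
  obtain ⟨b₁, hb₁, hbw₁⟩ := hn₁ f hf ⟨n, c, fun i => isIntegral_of_le (le_locSub A s₁) (hc i), hcw⟩
  obtain ⟨b₂, hb₂, hbw₂⟩ := hn₂ f hf ⟨n, c, fun i => isIntegral_of_le (le_locSub A s₂) (hc i), hcw⟩
  obtain ⟨k₁, hk₁⟩ := exists_pow_mul_isIntegral hs₁ hb₁
  obtain ⟨k₂, hk₂⟩ := exists_pow_mul_isIntegral hs₂ hb₂
  obtain ⟨a₁, ha₁, a₂, ha₂, ha⟩ := exists_partition_pow hs₁ hs₂ hα hβ h1 (max k₁ k₂)
  refine ⟨a₁ * (s₁ ^ max k₁ k₂ * b₁) + a₂ * (s₂ ^ max k₁ k₂ * b₂),
    ((isIntegral_of_mem ha₁).mul (hk₁ _ (le_max_left _ _))).add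
      ((isIntegral_of_mem ha₂).mul (hk₂ _ (le_max_right _ _))), ?_⟩
  have : f - (a₁ * (s₁ ^ max k₁ k₂ * b₁) + a₂ * (s₂ ^ max k₁ k₂ * b₂))
      = (a₁ * s₁ ^ max k₁ k₂) * (f - b₁) + (a₂ * s₂ ^ max k₁ k₂) * (f - b₂) := by
    linear_combination (-f) * ha
  rw [this]
  exact (hbw₁.mul_left (hAV _ (A.mul_mem ha₁ (A.pow_mem hs₁ _)))).add
    (hbw₂.mul_left (hAV _ (A.mul_mem ha₂ (A.pow_mem hs₂ _))))

end Fermat.Agent.A2.Mod.H189

end
-- ===== PACK-END A2/Mod/H189/ChartChange.lean

-- ===== PACK-BEGIN S18/H754/LocalUFD.lean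
section


/-!
# S18 / Route K / étale Kummer cover, piece P1 (helper754)

A Noetherian local domain whose maximal ideal is generated by a prime element `ϖ` and one more
element `t` is a unique factorisation domain.
-/

set_option autoImplicit false

noncomputable section

namespace Fermat.Agent.S18.H754

open IsLocalRing

section P1

variable {R : Type*} [CommRing R] [IsDomain R] [IsNoetherianRing R] [IsLocalRing R]

/-- The quotient of a Noetherian local domain by a prime element `ϖ` with `𝔪 = (ϖ, t)` is a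
principal ideal ring. -/
theorem isPrincipalIdealRing_quotient_of_regular_pair (ϖ t : R) (hϖ : Prime ϖ)
    (hm : maximalIdeal R = Ideal.span {ϖ, t}) :
    letI : (Ideal.span {ϖ}).IsPrime := (Ideal.span_singleton_prime hϖ.ne_zero).mpr hϖ
    IsPrincipalIdealRing (R ⧸ Ideal.span {ϖ}) := by
  haveI hprime : (Ideal.span {ϖ}).IsPrime := (Ideal.span_singleton_prime hϖ.ne_zero).mpr hϖ
  haveI : Nontrivial (R ⧸ Ideal.span {ϖ}) := Ideal.Quotient.nontrivial_iff.mpr hprime.ne_top
  haveI : IsLocalRing (R ⧸ Ideal.span {ϖ}) :=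
    IsLocalRing.of_surjective' (Ideal.Quotient.mk _) Ideal.Quotient.mk_surjective
  have hmax : maximalIdeal (R ⧸ Ideal.span {ϖ}) =
      Ideal.span {Ideal.Quotient.mk (Ideal.span {ϖ}) t} := by
    have h1 : maximalIdeal (R ⧸ Ideal.span {ϖ}) =
        (maximalIdeal R).map (Ideal.Quotient.mk (Ideal.span {ϖ})) := by
      haveI := IsLocalHom.of_surjective (Ideal.Quotient.mk (Ideal.span {ϖ}))
        Ideal.Quotient.mk_surjective
      ext x
      obtain ⟨x, rfl⟩ := Ideal.Quotient.mk_surjective x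
      simp [sup_eq_left.mpr (le_maximalIdeal hprime.ne_top)]
    rw [h1, hm, Ideal.map_span, Set.image_pair]
    have h0 : Ideal.Quotient.mk (Ideal.span {ϖ}) ϖ = 0 :=
      Ideal.Quotient.eq_zero_iff_mem.mpr (Ideal.mem_span_singleton_self ϖ)
    rw [h0]
    apply le_antisymm
    · rw [Ideal.span_le]
      rintro x (rfl | rfl)
      · exact Ideal.zero_mem _
      · exact Ideal.subset_span rfl
    · apply Ideal.span_mono
      intro x hx
      right
      exact hx
  have htfae := (tfae_of_isNoetherianRing_of_isLocalRing_of_isDomain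
    (R := R ⧸ Ideal.span {ϖ})).out 4 0
  exact htfae.mp ⟨⟨_, hmax⟩⟩

/-- **P1.** A Noetherian local domain with `𝔪 = (ϖ, t)`, `ϖ` prime, is a UFD. -/
theorem ufd_of_regular_pair (ϖ t : R) (hϖ : Prime ϖ)
    (hm : maximalIdeal R = Ideal.span {ϖ, t}) : UniqueFactorizationMonoid R := by
  haveI hprime : (Ideal.span {ϖ}).IsPrime := (Ideal.span_singleton_prime hϖ.ne_zero).mpr hϖ
  haveI hpid : IsPrincipalIdealRing (R ⧸ Ideal.span {ϖ}) :=
    isPrincipalIdealRing_quotient_of_regular_pair ϖ t hϖ hm
  apply UniqueFactorizationMonoid.of_forall_isPrincipal_of_height_eq_one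
  intro 𝔮 h𝔮 hht
  by_cases hϖ𝔮 : ϖ ∈ 𝔮
  · exact ⟨ϖ, 𝔮.eq_span_singleton_of_height_eq_one hht hϖ𝔮 hϖ⟩
  · -- the image of `𝔮` modulo `ϖ` is principal
    obtain ⟨fbar, hfbar⟩ := (hpid.principal (𝔮.map (Ideal.Quotient.mk (Ideal.span {ϖ})))).principal
    have hfmem : fbar ∈ 𝔮.map (Ideal.Quotient.mk (Ideal.span {ϖ})) := by
      rw [hfbar]
      exact Submodule.mem_span_singleton_self fbar
    obtain ⟨f, hf𝔮, rfl⟩ :=
      (Ideal.mem_map_iff_of_surjective _ Ideal.Quotient.mk_surjective).1 hfmem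
    refine ⟨f, le_antisymm ?_ ?_⟩
    · have key : 𝔮 ≤ Ideal.span {f} ⊔ Ideal.span {ϖ} • 𝔮 := by
        intro g hg
        have hgbar : Ideal.Quotient.mk (Ideal.span {ϖ}) g ∈
            𝔮.map (Ideal.Quotient.mk (Ideal.span {ϖ})) := Ideal.mem_map_of_mem _ hg
        rw [hfbar] at hgbar
        obtain ⟨abar, habar⟩ := Submodule.mem_span_singleton.1 hgbar
        obtain ⟨a, rfl⟩ := Ideal.Quotient.mk_surjective abar
        have h1 : g - a * f ∈ Ideal.span {ϖ} := by
          rw [← Ideal.Quotient.eq_zero_iff_mem, map_sub, map_mul, sub_eq_zero]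
          rw [← habar]
          rfl
        obtain ⟨g₁, hg₁⟩ := Ideal.mem_span_singleton'.1 h1
        have hg₁𝔮 : g₁ ∈ 𝔮 := by
          have h2 : g₁ * ϖ ∈ 𝔮 := by
            rw [hg₁]
            exact 𝔮.sub_mem hg (𝔮.mul_mem_left a hf𝔮)
          exact (h𝔮.mem_or_mem h2).resolve_right hϖ𝔮
        have h3 : g = a * f + ϖ * g₁ := by
          rw [mul_comm ϖ g₁, hg₁]
          ring
        rw [h3]
        refine Submodule.add_mem_sup ?_ ?_
        · exact Ideal.mul_mem_left _ a (Ideal.mem_span_singleton_self f)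
        · exact Submodule.smul_mem_smul (Ideal.mem_span_singleton_self ϖ) hg₁𝔮
      have hjac : Ideal.span {ϖ} ≤ Ideal.jacobson (⊥ : Ideal R) := by
        rw [IsLocalRing.jacobson_eq_maximalIdeal ⊥ bot_ne_top, Ideal.span_singleton_le_iff_mem]
        exact hϖ.not_unit
      exact Submodule.le_of_le_smul_of_le_jacobson_bot (IsNoetherian.noetherian 𝔮) hjac key
    · rw [Submodule.span_singleton_le_iff_mem]
      exact hf𝔮

end P1

end Fermat.Agent.S18.H754

end

end
-- ===== PACK-END S18/H754/LocalUFD.lean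

-- ===== PACK-BEGIN A2/Alg/H754/ChartDim.lean
section


/-!
# A2 / ALG / P-S (helper754): the components of a two-dimensional chart are Dedekind

`B` a domain, integral over a Noetherian ring `A₀` of Krull dimension `≤ 2` (`A₀ = R[x]`, `R` a
DVR).  Then every prime `q` strictly containing a nonzero prime `p` is maximal; hence `B ⧸ p` is
a Dedekind domain as soon as it is Noetherian and integrally closed.
-/

set_option autoImplicit false
set_option linter.style.haveILetI false

namespace Fermat.Agent.A2.Alg.H754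

section Dim

variable {A₀ B : Type*} [CommRing A₀] [IsNoetherianRing A₀] [CommRing B] [IsDomain B]
  [Algebra A₀ B] [Algebra.IsIntegral A₀ B]

/-- No chain of primes `⊥ < p < q < M` in an integral extension of a ring of dimension `≤ 2`. -/
theorem isMaximal_of_lt_of_ne_bot (hdim : ringKrullDim A₀ ≤ 2) (p q : Ideal B) [hp : p.IsPrime]
    [hq : q.IsPrime] (hp0 : p ≠ ⊥) (hpq : p < q) : q.IsMaximal := by
  by_contra hmax
  obtain ⟨M, hM, hqM⟩ := Ideal.exists_le_maximal q hq.ne_top
  have hqM' : q < M := lt_of_le_of_ne hqM (fun h => hmax (h ▸ hM))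
  haveI hMp : M.IsPrime := hM.isPrime
  haveI hbot : (⊥ : Ideal B).IsPrime := Ideal.isPrime_bot
  have key : ∀ (I J : Ideal B) [I.IsPrime], I < J →
      I.comap (algebraMap A₀ B) < J.comap (algebraMap A₀ B) := by
    intro I J _ hIJ
    obtain ⟨x, hxJ, hxI⟩ := SetLike.exists_of_lt hIJ
    exact Ideal.comap_lt_comap_of_integral_mem_sdiff hIJ.le ⟨hxJ, hxI⟩
      (Algebra.IsIntegral.isIntegral x)
  have h0 := key ⊥ p (bot_lt_iff_ne_bot.2 hp0)
  have h1 := key p q hpq
  have h2 := key q M hqM'
  haveI := Ideal.finiteHeight_of_isNoetherianRing ((⊥ : Ideal B).comap (algebraMap A₀ B))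
  haveI := Ideal.finiteHeight_of_isNoetherianRing (p.comap (algebraMap A₀ B))
  haveI := Ideal.finiteHeight_of_isNoetherianRing (q.comap (algebraMap A₀ B))
  have e0 := Order.add_one_le_of_lt (Ideal.height_strict_mono_of_isPrime h0)
  have e1 := Order.add_one_le_of_lt (Ideal.height_strict_mono_of_isPrime h1)
  have e2 := Order.add_one_le_of_lt (Ideal.height_strict_mono_of_isPrime h2)
  have hne : M.comap (algebraMap A₀ B) ≠ ⊤ := (Ideal.comap_isPrime _ M).ne_top
  have e3 : ((M.comap (algebraMap A₀ B)).height : WithBot ℕ∞) ≤ 2 :=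
    le_trans (Ideal.height_le_ringKrullDim_of_ne_top hne) hdim
  have e3' : (M.comap (algebraMap A₀ B)).height ≤ 2 := by
    have h2 : ((2 : ℕ∞) : WithBot ℕ∞) = 2 := rfl
    rw [← h2] at e3
    exact WithBot.coe_le_coe.1 e3
  have e4 : (3 : ℕ∞) ≤ (M.comap (algebraMap A₀ B)).height := by
    calc (3 : ℕ∞) = 0 + 1 + 1 + 1 := by norm_num
      _ ≤ ((⊥ : Ideal B).comap (algebraMap A₀ B)).height + 1 + 1 + 1 := by gcongr; exact zero_le
      _ ≤ (p.comap (algebraMap A₀ B)).height + 1 + 1 := by gcongr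
      _ ≤ (q.comap (algebraMap A₀ B)).height + 1 := by gcongr
      _ ≤ _ := e2
  have : (3 : ℕ∞) ≤ 2 := le_trans e4 e3'
  exact absurd this (by decide)

/-- The components of the special fibre are Dedekind. -/
theorem isDedekindDomain_quotient_of_dim [IsNoetherianRing B] (hdim : ringKrullDim A₀ ≤ 2)
    (p : Ideal B) [hp : p.IsPrime] (hp0 : p ≠ ⊥) (hnorm : IsIntegrallyClosed (B ⧸ p)) :
    IsDedekindDomain (B ⧸ p) := by
  have hsurj : Function.Surjective (Ideal.Quotient.mk p) := Ideal.Quotient.mk_surjective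
  have h1 : IsNoetherianRing (B ⧸ p) := inferInstance
  have h2 : Ring.DimensionLEOne (B ⧸ p) := by
    refine ⟨fun {Q} hQ0 hQ => ?_⟩
    haveI := hQ
    have hle : p ≤ Q.comap (Ideal.Quotient.mk p) := by
      intro b hb
      rw [Ideal.mem_comap, Ideal.Quotient.eq_zero_iff_mem.2 hb]
      exact Q.zero_mem
    have hne : p ≠ Q.comap (Ideal.Quotient.mk p) := by
      intro h
      apply hQ0
      rw [← Ideal.map_comap_of_surjective _ hsurj Q, ← h, Ideal.map_quotient_self]
    have hmax : (Q.comap (Ideal.Quotient.mk p)).IsMaximal :=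
      isMaximal_of_lt_of_ne_bot (A₀ := A₀) hdim p _ hp0 (lt_of_le_of_ne hle hne)
    rw [← Ideal.map_comap_of_surjective _ hsurj Q]
    haveI := hmax
    exact Ideal.IsMaximal.map_of_surjective_of_ker_le hsurj (by rw [Ideal.mk_ker]; exact hle)
  have h3 : IsIntegrallyClosed (B ⧸ p) := hnorm
  exact { h1, h2, h3 with }

end Dim

end Fermat.Agent.A2.Alg.H754

end
-- ===== PACK-END A2/Alg/H754/ChartDim.lean

-- ===== PACK-BEGIN A2/H609/RelLen.lean
section


/-!
# Node purity, part 2: relative lengths `ℓ(N / N')` of submodules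

`relLen N' N = Module.length R (N ⧸ N')` for submodules `N' N` of `M` (meaningful for `N' ≤ N`),
with the chain rule and a transport lemma along a linear map.  Mathlib only.
-/

set_option autoImplicit false

namespace Fermat.Agent.A2.H609

open Submodule

variable {R : Type*} [CommRing R] {M M' : Type*} [AddCommGroup M] [Module R M]
  [AddCommGroup M'] [Module R M']

/-- The relative length `ℓ(N / N')`. -/
noncomputable def relLen (N' N : Submodule R M) : ℕ∞ :=
  Module.length R (↥N ⧸ N'.submoduleOf N)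

/-- The map `N / N' → P / P'` induced by a linear map `φ` with `φ N ⊆ P`, `φ N' ⊆ P'`. -/
noncomputable def relMap (φ : M →ₗ[R] M') {N' N : Submodule R M} {P' P : Submodule R M'}
    (hNP : ∀ x ∈ N, φ x ∈ P) (hNP' : ∀ x ∈ N', φ x ∈ P') :
    (↥N ⧸ N'.submoduleOf N) →ₗ[R] (↥P ⧸ P'.submoduleOf P) :=
  Submodule.mapQ (N'.submoduleOf N) (P'.submoduleOf P) (φ.restrict hNP) (by
    intro x hx
    rw [Submodule.mem_comap]
    exact hNP' _ hx)

theorem relMap_mk (φ : M →ₗ[R] M') {N' N : Submodule R M} {P' P : Submodule R M'}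
    (hNP : ∀ x ∈ N, φ x ∈ P) (hNP' : ∀ x ∈ N', φ x ∈ P') (x : N) :
    relMap φ hNP hNP' (Submodule.Quotient.mk x) =
      Submodule.Quotient.mk (⟨φ x, hNP x x.2⟩ : P) := rfl

theorem relMap_injective (φ : M →ₗ[R] M') {N' N : Submodule R M} {P' P : Submodule R M'}
    (hNP : ∀ x ∈ N, φ x ∈ P) (hNP' : ∀ x ∈ N', φ x ∈ P')
    (hinj : ∀ x ∈ N, φ x ∈ P' → x ∈ N') : Function.Injective (relMap φ hNP hNP') := by
  rw [← LinearMap.ker_eq_bot, _root_.eq_bot_iff]
  intro y hy
  obtain ⟨x, rfl⟩ := Submodule.Quotient.mk_surjective _ y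
  rw [LinearMap.mem_ker, relMap_mk, Submodule.Quotient.mk_eq_zero] at hy
  rw [Submodule.mem_bot, Submodule.Quotient.mk_eq_zero]
  exact hinj x x.2 hy

theorem relMap_surjective (φ : M →ₗ[R] M') {N' N : Submodule R M} {P' P : Submodule R M'}
    (hNP : ∀ x ∈ N, φ x ∈ P) (hNP' : ∀ x ∈ N', φ x ∈ P')
    (hsurj : ∀ y ∈ P, ∃ x ∈ N, y - φ x ∈ P') : Function.Surjective (relMap φ hNP hNP') := by
  intro z
  obtain ⟨y, rfl⟩ := Submodule.Quotient.mk_surjective _ z
  obtain ⟨x, hx, hxy⟩ := hsurj y y.2
  refine ⟨Submodule.Quotient.mk ⟨x, hx⟩, ?_⟩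
  rw [relMap_mk, eq_comm, Submodule.Quotient.eq]
  exact hxy

/-- Transport of relative length along a linear map inducing a bijection `N / N' → P / P'`. -/
theorem relLen_eq_of_map (φ : M →ₗ[R] M') {N' N : Submodule R M} {P' P : Submodule R M'}
    (hNP : ∀ x ∈ N, φ x ∈ P) (hNP' : ∀ x ∈ N', φ x ∈ P')
    (hinj : ∀ x ∈ N, φ x ∈ P' → x ∈ N')
    (hsurj : ∀ y ∈ P, ∃ x ∈ N, y - φ x ∈ P') : relLen N' N = relLen P' P :=
  (LinearEquiv.ofBijective (relMap φ hNP hNP')
    ⟨relMap_injective φ hNP hNP' hinj, relMap_surjective φ hNP hNP' hsurj⟩).length_eq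

/-- Chain rule for relative lengths. -/
theorem relLen_add {A B C : Submodule R M} (hAB : A ≤ B) (hBC : B ≤ C) :
    relLen A C = relLen A B + relLen B C := by
  have h1 : ∀ x ∈ B, (LinearMap.id : M →ₗ[R] M) x ∈ C := fun x hx => hBC hx
  have h2 : ∀ x ∈ A, (LinearMap.id : M →ₗ[R] M) x ∈ A := fun x hx => hx
  have h3 : ∀ x ∈ C, (LinearMap.id : M →ₗ[R] M) x ∈ C := fun x hx => hx
  have h4 : ∀ x ∈ A, (LinearMap.id : M →ₗ[R] M) x ∈ B := fun x hx => hAB hx
  let f := relMap (LinearMap.id : M →ₗ[R] M) (N' := A) (N := B) (P' := A) (P := C) h1 h2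
  let g := relMap (LinearMap.id : M →ₗ[R] M) (N' := A) (N := C) (P' := B) (P := C) h3 h4
  have hf : Function.Injective f := relMap_injective _ h1 h2 (fun x _ hx => hx)
  have hg : Function.Surjective g :=
    relMap_surjective _ h3 h4 (fun y hy => ⟨y, hy, by simp⟩)
  have hfg : Function.Exact f g := by
    intro z
    constructor
    · intro hz
      obtain ⟨y, rfl⟩ := Submodule.Quotient.mk_surjective _ z
      have hy : (y : M) ∈ B := by
        have := hz
        simp only [g] at this
        rw [relMap_mk, Submodule.Quotient.mk_eq_zero] at this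
        exact this
      refine ⟨Submodule.Quotient.mk ⟨y, hy⟩, ?_⟩
      simp only [f]
      rw [relMap_mk]
      rfl
    · rintro ⟨w, rfl⟩
      obtain ⟨x, rfl⟩ := Submodule.Quotient.mk_surjective _ w
      simp only [f, g]
      rw [relMap_mk, relMap_mk, Submodule.Quotient.mk_eq_zero]
      exact x.2
  exact Module.length_eq_add_of_exact f g hf hg hfg

/-- A surjection `N / N' → P / P'` induced by a linear map bounds the relative length. -/
theorem relLen_le_of_map (φ : M →ₗ[R] M') {N' N : Submodule R M} {P' P : Submodule R M'}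
    (hNP : ∀ x ∈ N, φ x ∈ P) (hNP' : ∀ x ∈ N', φ x ∈ P')
    (hsurj : ∀ y ∈ P, ∃ x ∈ N, y - φ x ∈ P') : relLen P' P ≤ relLen N' N :=
  Module.length_le_of_surjective (relMap φ hNP hNP') (relMap_surjective φ hNP hNP' hsurj)

theorem relLen_self (A : Submodule R M) : relLen A A = 0 := by
  rw [relLen, Module.length_eq_zero_iff]
  refine ⟨fun x y => ?_⟩
  obtain ⟨a, rfl⟩ := Submodule.Quotient.mk_surjective _ x
  obtain ⟨b, rfl⟩ := Submodule.Quotient.mk_surjective _ y
  rw [Submodule.Quotient.eq]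
  exact A.sub_mem a.2 b.2

theorem relLen_mono_right {A B C : Submodule R M} (hAB : A ≤ B) (hBC : B ≤ C) :
    relLen A B ≤ relLen A C := by
  rw [relLen_add hAB hBC]
  exact le_self_add

theorem relLen_mono_left {A B C : Submodule R M} (hAB : A ≤ B) (hBC : B ≤ C) :
    relLen B C ≤ relLen A C := by
  rw [relLen_add hAB hBC]
  exact le_add_self

/-- `ℓ(M / N)` as a relative length. -/
theorem relLen_top (N : Submodule R M) : relLen N ⊤ = Module.length R (M ⧸ N) := by
  have h1 : ∀ x ∈ (⊤ : Submodule R M), (LinearMap.id : M →ₗ[R] M) x ∈ (⊤ : Submodule R M) :=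
    fun _ _ => trivial
  -- build the equivalence `⊤ / N ≃ M / N`
  let φ : (↥(⊤ : Submodule R M) ⧸ N.submoduleOf ⊤) →ₗ[R] (M ⧸ N) :=
    Submodule.mapQ (N.submoduleOf ⊤) N (⊤ : Submodule R M).subtype (by
      intro x hx
      exact hx)
  have hφ : Function.Bijective φ := by
    constructor
    · rw [← LinearMap.ker_eq_bot, _root_.eq_bot_iff]
      intro y hy
      obtain ⟨x, rfl⟩ := Submodule.Quotient.mk_surjective _ y
      rw [LinearMap.mem_ker] at hy
      have : (Submodule.Quotient.mk (x : M) : M ⧸ N) = 0 := hy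
      rw [Submodule.Quotient.mk_eq_zero] at this
      rw [Submodule.mem_bot, Submodule.Quotient.mk_eq_zero]
      exact this
    · intro z
      obtain ⟨y, rfl⟩ := Submodule.Quotient.mk_surjective _ z
      exact ⟨Submodule.Quotient.mk ⟨y, trivial⟩, rfl⟩
  exact (LinearEquiv.ofBijective φ hφ).length_eq

end Fermat.Agent.A2.H609

end
-- ===== PACK-END A2/H609/RelLen.lean

-- ===== PACK-BEGIN A2/H552/Hensel.lean
section







/-!
# A2 / ALG (c1), part 1 (helper552): Hensel's lemma for non-monic polynomials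

Mathlib's `HenselianLocalRing` only provides lifting of simple roots of **monic** polynomials.
Here we derive, for an arbitrary Henselian local ring `R`:

* `exists_root_of_coeff` : a polynomial `1 + c₁ X + (terms with coefficients in 𝔪)`, `c₁` a unit,
  has a root in `R` (reverse the polynomial, apply Hensel to the monic reverse).
* `exists_root_of_simple_root` : Hensel's lemma for arbitrary (not necessarily monic)
  polynomials: a simple root modulo `𝔪` lifts.
* `exists_root_of_approx` : the strong form ("Newton"): if `p(s) = w^(2c+1) u` and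
  `p'(s) = w^c ε` with `ε` a unit and `w ∈ 𝔪`, then `p` has a root `a` with `w^(c+1) ∣ a - s`.
* `exists_pow_eq_of_isUnit`, `exists_pow_eq_of_isUnit_of_not_dvd` : if the residue field is
  algebraically closed and `m` is invertible in it, every unit of `R` is an `m`-th power.
-/

set_option autoImplicit false

namespace Fermat.Agent.A2.H552

open Polynomial IsLocalRing

section Hensel

variable {R : Type*} [CommRing R] [HenselianLocalRing R]

/-- Hensel's lemma in residue-field form (item 2 of Mathlib's `HenselianLocalRing.TFAE`),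
stated with `Polynomial.map`. -/
theorem exists_root_of_residue_simple_root (f : R[X]) (hf : f.Monic) (a₀ : ResidueField R)
    (h₀ : (f.map (residue R)).eval a₀ = 0)
    (h₁ : (derivative (f.map (residue R))).eval a₀ ≠ 0) :
    ∃ a : R, f.IsRoot a ∧ residue R a = a₀ := by
  have H := ((HenselianLocalRing.TFAE R).out 0 1).mp ‹HenselianLocalRing R›
  refine H f hf a₀ ?_ ?_
  · rw [aeval_def, eval₂_eq_eval_map, ResidueField.algebraMap_eq]
    exact h₀
  · rw [aeval_def, eval₂_eq_eval_map, ResidueField.algebraMap_eq, ← derivative_map]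
    exact h₁

/-- A polynomial `1 + c₁ X + ∑_{i ≥ 2} cᵢ Xⁱ` with `c₁` a unit and `cᵢ ∈ 𝔪` for `i ≥ 2` has a
root in a Henselian local ring. -/
theorem exists_root_of_coeff (g : R[X]) (h0 : g.coeff 0 = 1) (h1 : IsUnit (g.coeff 1))
    (h2 : ∀ i, 2 ≤ i → g.coeff i ∈ maximalIdeal R) : ∃ b : R, g.IsRoot b := by
  set d := g.natDegree with hd
  have hd1 : 1 ≤ d := le_natDegree_of_ne_zero h1.ne_zero
  set G := reflect d g with hG
  have hGdeg : G.natDegree ≤ d := natDegree_reflect_le.trans (by simp [hd])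
  have hGm : G.Monic := by
    refine monic_of_natDegree_le_of_coeff_eq_one d hGdeg ?_
    rw [hG, coeff_reflect, revAt_le le_rfl, Nat.sub_self, h0]
  set c := residue R (g.coeff 1) with hc
  have hc0 : c ≠ 0 := by
    intro h
    rw [hc, residue_eq_zero_iff] at h
    exact (IsLocalRing.notMem_maximalIdeal.mpr h1) h
  have hgbar : g.map (residue R) = C 1 + C c * X := by
    ext i
    rcases i with _ | _ | i
    · simp [h0]
    · simp [hc, coeff_one]
    · have : residue R (g.coeff (i + 2)) = 0 :=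
        (residue_eq_zero_iff _).mpr (h2 _ (by omega))
      simp [this, coeff_one]
  have hGbar : G.map (residue R) = X ^ d + C c * X ^ (d - 1) := by
    rw [hG, ← reflect_map, hgbar, reflect_add, reflect_C, _root_.map_one, one_mul]
    have : (C c * X : (ResidueField R)[X]) = C c * X ^ 1 := by rw [pow_one]
    rw [this, reflect_C_mul_X_pow, revAt_le hd1]
  obtain ⟨e, he⟩ : ∃ e, d = e + 1 := ⟨d - 1, by omega⟩
  obtain ⟨z, hz, hzres⟩ := exists_root_of_residue_simple_root G hGm (-c)
    (by
      rw [hGbar, he]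
      simp only [eval_add, eval_pow, eval_X, eval_mul, eval_C, Nat.add_sub_cancel]
      ring)
    (by
      rw [hGbar, he]
      simp only [derivative_add, derivative_X_pow, derivative_mul, derivative_C, zero_mul,
        zero_add, eval_add, eval_mul, eval_C, eval_pow, eval_X, Nat.add_sub_cancel]
      rcases e with _ | e
      · simp
      · simp only [Nat.add_sub_cancel, Nat.cast_add, Nat.cast_one]
        have : ((e : ResidueField R) + 1 + 1) * (-c) ^ (e + 1) + c * (((e : ResidueField R) + 1)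
            * (-c) ^ e) = (-c) ^ (e + 1) := by ring
        rw [this]
        exact pow_ne_zero _ (neg_ne_zero.mpr hc0))
  have hzu : IsUnit z := by
    rw [← IsLocalRing.notMem_maximalIdeal, ← residue_eq_zero_iff, hzres]
    exact neg_ne_zero.mpr hc0
  obtain ⟨u, rfl⟩ := hzu
  refine ⟨(↑u⁻¹ : R), ?_⟩
  let _ : Invertible (u : R) := Units.invertible u
  have key := eval₂_reflect_mul_pow (RingHom.id R) (u : R) d G hGdeg
  rw [hG, reflect_reflect, ← hG, eval₂_id, eval₂_id, invOf_units] at key
  have hz' : G.eval (u : R) = 0 := hz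
  rw [hz'] at key
  have hu : IsUnit ((u : R) ^ d) := (u.isUnit).pow d
  exact (hu.mul_left_eq_zero).mp key

/-- Rescaling a polynomial: if `t₀ = A a₀`, `t₁ W = A a₁` and `W² = A B`, then
`t(W X) = A (a₀ + a₁ X + B X² q(X))` with `q = (t / X²)(W X)`. -/
theorem comp_C_mul_X_eq {S : Type*} [CommRing S] (t : S[X]) (W A B a₀ a₁ : S)
    (h0 : t.coeff 0 = A * a₀) (h1 : t.coeff 1 * W = A * a₁) (h2 : W ^ 2 = A * B) :
    t.comp (C W * X) =
      C A * (C a₀ + C a₁ * X + C B * X ^ 2 * (t.divX.divX.comp (C W * X))) := by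
  have e0 : (C (t.coeff 0) : S[X]) = C A * C a₀ := by rw [h0, C_mul]
  have e1 : (C (t.coeff 1) : S[X]) * C W = C A * C a₁ := by rw [← C_mul, h1, C_mul]
  have e2 : (C W : S[X]) * C W = C A * C B := by rw [← C_mul, ← C_mul, ← pow_two, h2]
  have ht : t = (t.divX.divX * X + C (t.coeff 1)) * X + C (t.coeff 0) := by
    have h := divX_mul_X_add t.divX
    rw [coeff_divX, zero_add] at h
    rw [h, divX_mul_X_add]
  conv_lhs => rw [ht]
  simp only [add_comp, mul_comp, X_comp, C_comp]
  linear_combination (t.divX.divX.comp (C W * X) * X ^ 2) * e2 + X * e1 + e0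

/-- Coefficients of `a + b X + B X² q`. -/
theorem coeff_quadratic_form {S : Type*} [CommRing S] (a b B : S) (q : S[X]) :
    (C a + C b * X + C B * X ^ 2 * q).coeff 0 = a ∧
    (C a + C b * X + C B * X ^ 2 * q).coeff 1 = b ∧
    ∀ j, (C a + C b * X + C B * X ^ 2 * q).coeff (j + 2) = B * q.coeff j := by
  have h : ∀ n, (C B * X ^ 2 * q).coeff n = if 2 ≤ n then B * q.coeff (n - 2) else 0 := by
    intro n
    rw [mul_assoc, coeff_C_mul, coeff_X_pow_mul']
    split_ifs <;> simp
  refine ⟨?_, ?_, fun j => ?_⟩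
  · rw [coeff_add, coeff_add, h]; simp
  · rw [coeff_add, coeff_add, h]; simp
  · rw [coeff_add, coeff_add, h, coeff_C_mul, coeff_X, coeff_C]
    simp

/-- **Hensel's lemma for arbitrary polynomials**: in a Henselian local ring a simple root
modulo the maximal ideal of a (not necessarily monic) polynomial lifts to a root. -/
theorem exists_root_of_simple_root (h : R[X]) (a₀ : R) (h₀ : h.eval a₀ ∈ maximalIdeal R)
    (h₁ : IsUnit ((derivative h).eval a₀)) :
    ∃ a : R, h.IsRoot a ∧ a - a₀ ∈ maximalIdeal R := by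
  set t := taylor a₀ h with ht
  set c₀ := h.eval a₀ with hc₀
  set c₁ := (derivative h).eval a₀ with hc₁
  have key := comp_C_mul_X_eq t c₀ c₀ c₀ 1 c₁
    (by rw [ht, taylor_coeff_zero, mul_one]) (by rw [ht, taylor_coeff_one, mul_comm])
    (by rw [pow_two])
  set g : R[X] := C 1 + C c₁ * X + C c₀ * X ^ 2 * (t.divX.divX.comp (C c₀ * X)) with hg
  obtain ⟨hg0, hg1, hg2⟩ := coeff_quadratic_form 1 c₁ c₀ (t.divX.divX.comp (C c₀ * X))
  rw [← hg] at hg0 hg1 hg2
  obtain ⟨b, hb⟩ := exists_root_of_coeff g hg0 (by rw [hg1]; exact h₁)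
    (by
      intro i hi
      obtain ⟨j, rfl⟩ : ∃ j, i = j + 2 := ⟨i - 2, by omega⟩
      rw [hg2]
      exact Ideal.mul_mem_right _ _ h₀)
  have hb' : eval b g = 0 := hb
  refine ⟨c₀ * b + a₀, ?_, ?_⟩
  · have h3 := congrArg (eval b) key
    simp only [eval_comp, eval_mul, eval_C, eval_X] at h3
    rw [hb', mul_zero, ht, taylor_eval] at h3
    exact h3
  · rw [add_sub_cancel_right]
    exact Ideal.mul_mem_right _ _ h₀

/-- **Strong form of Hensel's lemma** (Newton): if `p(s) = w^(2c+1) u` and `p'(s) = w^c ε`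
with `ε` a unit and `w` in the maximal ideal, then `p` has a root `a` with
`w^(c+1) ∣ a - s`. -/
theorem exists_root_of_approx (p : R[X]) (s w u ε : R) (c : ℕ) (hw : w ∈ maximalIdeal R)
    (hε : IsUnit ε) (h₀ : p.eval s = w ^ (2 * c + 1) * u)
    (h₁ : (derivative p).eval s = w ^ c * ε) :
    ∃ a : R, p.IsRoot a ∧ w ^ (c + 1) ∣ a - s := by
  set t := taylor s p with ht
  have key := comp_C_mul_X_eq t (w ^ (c + 1)) (w ^ (2 * c + 1)) w u ε
    (by rw [ht, taylor_coeff_zero, h₀]) (by rw [ht, taylor_coeff_one, h₁]; ring) (by ring)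
  set q := t.divX.divX.comp (C (w ^ (c + 1)) * X) with hq
  set g : R[X] := C u + C ε * X + C w * X ^ 2 * q with hg
  obtain ⟨ε', hε'⟩ := hε.exists_right_inv
  obtain ⟨b, hb, -⟩ := exists_root_of_simple_root g (-u * ε')
    (by
      have : g.eval (-u * ε') = w * ((-u * ε') ^ 2 * q.eval (-u * ε')) := by
        simp only [hg, eval_add, eval_mul, eval_C, eval_X, eval_pow]
        linear_combination (-u) * hε'
      rw [this]
      exact Ideal.mul_mem_right _ _ hw)
    (by
      have : (derivative g).eval (-u * ε') =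
          ε + w * (derivative (X ^ 2 * q)).eval (-u * ε') := by
        rw [hg, mul_assoc]
        simp only [derivative_add, derivative_C, derivative_C_mul, derivative_X, zero_add,
          eval_add, eval_mul, eval_C, mul_one]
      rw [this, ← IsLocalRing.notMem_maximalIdeal]
      intro hmem
      have h4 : w * (derivative (X ^ 2 * q)).eval (-u * ε') ∈ maximalIdeal R :=
        Ideal.mul_mem_right _ _ hw
      exact (IsLocalRing.notMem_maximalIdeal.mpr hε)
        ((Ideal.add_mem_iff_left _ h4).mp hmem))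
  have hb' : eval b g = 0 := hb
  refine ⟨w ^ (c + 1) * b + s, ?_, ?_⟩
  · have h3 := congrArg (eval b) key
    simp only [eval_comp, eval_mul, eval_C, eval_X] at h3
    rw [hb', mul_zero, ht, taylor_eval] at h3
    exact h3
  · rw [add_sub_cancel_right]
    exact Dvd.intro _ rfl

/-- In a Henselian local ring with algebraically closed residue field, every unit is an `m`-th
power, for `m` invertible in the residue field. -/
theorem exists_pow_eq_of_isUnit [IsAlgClosed (ResidueField R)] (m : ℕ)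
    (hm : (m : ResidueField R) ≠ 0) (u : R) (hu : IsUnit u) : ∃ v : R, v ^ m = u := by
  have hm0 : m ≠ 0 := by
    rintro rfl
    exact hm (by simp)
  have hu0 : residue R u ≠ 0 := by
    intro h
    rw [residue_eq_zero_iff] at h
    exact (IsLocalRing.notMem_maximalIdeal.mpr hu) h
  obtain ⟨a, ha⟩ := IsAlgClosed.exists_pow_nat_eq (residue R u) (Nat.pos_of_ne_zero hm0)
  have ha0 : a ≠ 0 := by
    rintro rfl
    rw [zero_pow hm0] at ha
    exact hu0 ha.symm
  obtain ⟨v, hv, -⟩ := exists_root_of_residue_simple_root (X ^ m - C u)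
    (monic_X_pow_sub_C u hm0) a
    (by simp [ha])
    (by
      simp only [Polynomial.map_sub, Polynomial.map_pow, map_X, map_C, derivative_sub,
        derivative_X_pow, derivative_C, sub_zero, eval_mul, eval_C, eval_pow, eval_X]
      exact mul_ne_zero hm (pow_ne_zero _ ha0))
  refine ⟨v, ?_⟩
  have : (X ^ m - C u : R[X]).eval v = 0 := hv
  simpa [sub_eq_zero] using this

/-- The same, with the hypotheses of `Fermat.Agent.A2.algSS`: the residue characteristic is the
prime `q` and `q ∤ m`. -/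
theorem exists_pow_eq_of_isUnit_of_not_dvd [IsAlgClosed (ResidueField R)] (q m : ℕ)
    (hq : q.Prime) (hqR : (q : R) ∈ maximalIdeal R) (hqm : ¬ q ∣ m) (u : R) (hu : IsUnit u) :
    ∃ v : R, v ^ m = u := by
  refine exists_pow_eq_of_isUnit m (fun hm0 => hqm ?_) u hu
  have h1 : ((q : ℕ) : ResidueField R) = 0 := by
    rw [← _root_.map_natCast (residue R)]
    exact (residue_eq_zero_iff _).mpr hqR
  have hdq : ringChar (ResidueField R) ∣ q := ringChar.dvd h1
  have hdm : ringChar (ResidueField R) ∣ m := ringChar.dvd hm0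
  rcases (Nat.dvd_prime hq).mp hdq with h | h
  · exact absurd h CharP.ringChar_ne_one
  · rwa [h] at hdm

end Hensel

end Fermat.Agent.A2.H552

end
-- ===== PACK-END A2/H552/Hensel.lean

-- ===== PACK-BEGIN A2/H12/Deck.lean
section


/-!
# Cell A2 — the abstract deck-transformation lemma (helper12)

Pure combinatorics / group theory / field theory, Mathlib-only.  This is the "10-line graph argument"
of the A2 route (origin/helper12:coord/A2-helper12.md §2, origin/helper973:coord/A2-K3-graph-helper973.md §2):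

* `fixes_all`   : a colour-preserving automorphism of a connected incidence structure
                  ("sheets" and "points") which fixes one sheet, fixes every point of a fixed sheet,
                  and such that a point carries at most one sheet of each colour, fixes every sheet.
* `commute_of_fixes_all` : if moreover a group `G` acts freely on the sheets and `τ` normalises `G`,
                  then `τ` commutes with `G`.
* `kummer_of_commute` : Kummer consequence: `y ^ m ∈ F`, `τ` commutes with `G = Aut(L/F)`-action on `y`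
                  and fixes the `m`-th roots of unity  ⟹  `τ y / y` is `G`-invariant.
-/

set_option autoImplicit false

namespace Fermat.Agent.A2.H12

section Graph

variable {S P : Type*}

/-- Two sheets are adjacent if they pass through a common point. -/
def Adj (inc : S → P → Prop) (s t : S) : Prop := ∃ p, inc s p ∧ inc t p

/-- **Graph lemma.**  `τS`, `τP` : the action of one automorphism on sheets and points. -/
theorem fixes_all {C : Type*} (inc : S → P → Prop) (col : S → C) (τS : S → S) (τP : P → P)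
    (h_col : ∀ s, col (τS s) = col s)
    (h_inc : ∀ s p, inc s p → inc (τS s) (τP p))
    (h_fix : ∀ s p, τS s = s → inc s p → τP p = p)
    (h_uni : ∀ s t p, inc s p → inc t p → col s = col t → s = t)
    (h_conn : ∀ s t : S, Relation.ReflTransGen (Adj inc) s t)
    (s₀ : S) (h₀ : τS s₀ = s₀) : ∀ s, τS s = s := by
  intro s
  have key : ∀ a b, Relation.ReflTransGen (Adj inc) a b → τS a = a → τS b = b := by
    intro a b hab
    induction hab with
    | refl => exact id
    | tail _ hbc ih =>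
      intro ha
      have hb := ih ha
      obtain ⟨p, hbp, hcp⟩ := hbc
      have hp : τP p = p := h_fix _ p hb hbp
      have h1 := h_inc _ p hcp
      rw [hp] at h1
      exact h_uni _ _ p h1 hcp (h_col _)
  exact key s₀ s (h_conn s₀ s) h₀

end Graph

section Group

variable {S : Type*} {G : Type*} [Group G] [MulAction G S]

/-- **Group part.**  `conj g` is the element `τ g τ⁻¹` of `G`; freeness of the action on sheets. -/
theorem commute_of_fixes_all (τS : S → S) (conj : G → G)
    (h_conj : ∀ (g : G) (s : S), τS (g • s) = conj g • τS s)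
    (h_free : ∀ (g : G) (s : S), g • s = s → g = 1)
    (h_all : ∀ s, τS s = s) (s₀ : S) : ∀ g, conj g = g := by
  intro g
  have h := h_conj g s₀
  rw [h_all, h_all] at h
  -- `g • s₀ = conj g • s₀`
  have h2 : (g⁻¹ * conj g) • s₀ = s₀ := by
    rw [mul_smul, ← h, inv_smul_smul]
  have h3 := h_free _ _ h2
  calc conj g = g * (g⁻¹ * conj g) := by group
    _ = g := by rw [h3, mul_one]

end Group

section Kummer

variable {L : Type*} [Field L]

/-- **Kummer part.**  If `τ` commutes with every `g ∈ G` on `y` (`τ (g y) = g (τ y)`), every `g ∈ G`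
multiplies `y` by a root of unity `ζ` with `τ ζ = ζ`, then `τ y / y` is fixed by `G`. -/
theorem kummer_of_commute (G : Set (L ≃+* L)) (τ : L ≃+* L) (y : L) (hy : y ≠ 0)
    (h_comm : ∀ g ∈ G, τ (g y) = g (τ y))
    (h_char : ∀ g ∈ G, ∃ ζ : L, g y = ζ * y ∧ τ ζ = ζ) :
    ∀ g ∈ G, g (τ y / y) = τ y / y := by
  intro g hg
  obtain ⟨ζ, hζ, hτζ⟩ := h_char g hg
  have h1 : g (τ y) = ζ * τ y := by
    rw [← h_comm g hg, hζ, map_mul, hτζ]
  have hζ0 : ζ ≠ 0 := by
    rintro rfl
    rw [zero_mul] at hζ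
    exact hy ((map_eq_zero_iff g g.injective).1 hζ)
  rw [map_div₀, h1, hζ]
  field_simp

end Kummer

end Fermat.Agent.A2.H12

end
-- ===== PACK-END A2/H12/Deck.lean

-- ===== PACK-BEGIN A2/IF/H429/Hilbert.lean
section


/-!
# A2 / IF (helper429): the inertia field is unramified (finite level, Mathlib only)

Companion of Mathlib's `IsDecompositionField.ramificationIdx_eq` for the inertia field:
if `E` is the inertia field of `P` in the finite Galois extension `L/K` and `𝓟E` is the prime of
`E` below `P`, then `e(𝓟E | p) = 1`.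
-/

set_option autoImplicit false
set_option linter.style.haveILetI false
set_option linter.unusedSectionVars false

open MulAction Pointwise Ideal NumberField IsDedekindDomain

namespace Fermat.Agent.A2.IF.H429

section

variable (A K L : Type*) {B : Type*} [Field K] [Field L] [Algebra K L] [CommRing A] [CommRing B]
  [Algebra A B] {p : Ideal A} (P : Ideal B) [P.LiesOver p]

variable [Algebra A K] [IsFractionRing A K] [Algebra A L] [IsScalarTower A K L] [Algebra B L]
  [IsScalarTower A B L] [IsFractionRing B L] [MulSemiringAction Gal(L/K) B]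
  [SMulDistribClass Gal(L/K) B L]

variable (E 𝓞E : Type*) [Field E] [Algebra E L] [IsInertiaField K L P E] [CommRing 𝓞E]
  [Algebra 𝓞E E] [IsFractionRing 𝓞E E] [Algebra 𝓞E B] [Algebra 𝓞E L] [IsScalarTower 𝓞E E L]
  [IsScalarTower 𝓞E B L] (𝓟E : Ideal 𝓞E) [hE : P.LiesOver 𝓟E]

variable [IsGalois K L] [IsDedekindDomain A] [IsDedekindDomain B] [Module.Finite A B]
  [Module.IsTorsionFree A B] [Algebra A 𝓞E] [Module.Finite A 𝓞E] [IsScalarTower A 𝓞E B]
  [IsDedekindDomain 𝓞E] [𝓟E.LiesOver p]

variable [FiniteDimensional K L] [Ring.HasFiniteQuotients A] [𝓟E.IsMaximal] [P.IsMaximal]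

omit [𝓟E.LiesOver p] in
include K L E P in
theorem inertiaField_ramificationIdxIn_eq (hp : p ≠ ⊥) [PerfectField 𝓟E.ResidueField] :
    ramificationIdxIn 𝓟E B = p.ramificationIdxIn B := by
  have inst₁ : Module.Finite 𝓞E B := Module.Finite.right A 𝓞E B
  have inst₂ : Module.IsTorsionFree 𝓞E B := by
    rw [Module.isTorsionFree_iff_faithfulSMul]
    apply Algebra.IsAlgebraic.faithfulSMul_tower_top A
  have inst₄ : IsGaloisGroup Gal(L/K) A B := .of_isFractionRing _ _ _ K L
  have inst₅ : IsGaloisGroup (inertia Gal(L/K) P) 𝓞E B := .of_isFractionRing _ _ _ E L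
  have : p.IsMaximal := over_def P p ▸ Ideal.IsMaximal.under A P
  have : Finite (A ⧸ p) := Ring.HasFiniteQuotients.finiteQuotient hp
  have h1 := card_inertia_eq_ramificationIdxIn (G := Gal(L/K)) p P
  have h2 := card_inertia_eq_ramificationIdxIn (G := inertia Gal(L/K) P) 𝓟E P
  rw [← h1, ← h2]
  have h3 : (P.inertia (inertia Gal(L/K) P)) = ⊤ := by
    rw [eq_top_iff]
    intro g _
    exact Ideal.coe_mem_inertia.mp g.2
  rw [h3]
  exact Nat.card_congr Subgroup.topEquiv.toEquiv

include K L E P in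
/-- Let `E` be the inertia field of `P` in `L/K` and `𝓟E` the prime of `E` below `P`.  Then
`𝓟E` is unramified over `K`. -/
theorem inertiaField_ramificationIdx_eq (hp : p ≠ ⊥) [PerfectField 𝓟E.ResidueField] :
    𝓟E.ramificationIdx A = 1 := by
  have inst₁ : Module.Finite 𝓞E B := Module.Finite.right A 𝓞E B
  have inst₂ : Module.IsTorsionFree 𝓞E B := by
    rw [Module.isTorsionFree_iff_faithfulSMul]
    apply Algebra.IsAlgebraic.faithfulSMul_tower_top A
  have inst₃ : Module.IsTorsionFree A 𝓞E := Module.IsTorsionFree.of_faithfulSMul _ _ B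
  have inst₄ : IsGaloisGroup Gal(L/K) A B := .of_isFractionRing _ _ _ K L
  have inst₅ : IsGaloisGroup (inertia Gal(L/K) P) 𝓞E B := .of_isFractionRing _ _ _ E L
  have := ramificationIdx_tower (R := A) 𝓟E P
  rwa [← ramificationIdxIn_eq_ramificationIdx 𝓟E P (inertia Gal(L/K) P),
    inertiaField_ramificationIdxIn_eq A K L P E 𝓞E 𝓟E hp,
    ramificationIdxIn_eq_ramificationIdx p P Gal(L/K),
    right_eq_mul₀ <| (ramificationIdx_pos P A).ne'] at this

end


/-- Finite level form of "the inertia field is unramified": an element of the finite Galois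
number field `F` fixed by the inertia group of `P` has the `P`-adic value of a power of `q`. -/
theorem exists_zpow_valuation_eq_one_of_fixed (F : Type*) [Field F] [NumberField F] [IsGalois ℚ F]
    (w : HeightOneSpectrum (𝓞 F)) (q : ℕ) (hq : q.Prime) (hqP : (q : 𝓞 F) ∈ w.asIdeal)
    (y : F) (hy : y ≠ 0) (hfix : ∀ τ ∈ w.asIdeal.inertia Gal(F/ℚ), τ y = y) :
    ∃ k : ℤ, w.valuation F (y / (q : F) ^ k) = 1 := by
  classical
  set P : Ideal (𝓞 F) := w.asIdeal with hP
  haveI : P.IsPrime := w.isPrime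
  haveI : P.IsMaximal := w.isMaximal
  let T : IntermediateField ℚ F := FixedPoints.intermediateField (inertia Gal(F/ℚ) P)
  let 𝓟T : Ideal (𝓞 T) := P.under (𝓞 T)
  let p : Ideal ℤ := P.under ℤ
  have hqp : (q : ℤ) ∈ p := by
    show algebraMap ℤ (𝓞 F) (q : ℤ) ∈ P
    simpa using hqP
  have hp : p ≠ ⊥ := by
    intro h
    rw [h, Ideal.mem_bot] at hqp
    exact hq.ne_zero (by exact_mod_cast hqp)
  have hpq : p = Ideal.span {(q : ℤ)} := by
    have hmax : (Ideal.span {(q : ℤ)}).IsMaximal :=
      PrincipalIdealRing.isMaximal_of_irreducible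
        (Nat.prime_iff_prime_int.mp hq).irreducible
    have hle : Ideal.span {(q : ℤ)} ≤ p := by
      rw [Ideal.span_singleton_le_iff_mem]; exact hqp
    exact (hmax.eq_of_le (Ideal.IsPrime.ne_top inferInstance) hle).symm
  have h𝓟T0 : 𝓟T ≠ ⊥ := Ideal.ne_bot_of_liesOver_of_ne_bot hp 𝓟T
  haveI : 𝓟T.IsMaximal := Ring.DimensionLEOne.maximalOfPrime h𝓟T0 inferInstance
  haveI : Finite (𝓞 T ⧸ 𝓟T) := Ring.HasFiniteQuotients.finiteQuotient h𝓟T0
  have he : 𝓟T.ramificationIdx ℤ = 1 :=
    inertiaField_ramificationIdx_eq ℤ ℚ F P T (𝓞 T) 𝓟T hp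
  let v : HeightOneSpectrum ℤ := ⟨p, inferInstance, hp⟩
  let wT : HeightOneSpectrum (𝓞 T) := ⟨𝓟T, inferInstance, h𝓟T0⟩
  haveI : wT.asIdeal.LiesOver v.asIdeal := (inferInstance : 𝓟T.LiesOver p)
  haveI : w.asIdeal.LiesOver wT.asIdeal := (inferInstance : P.LiesOver 𝓟T)
  have he' : v.asIdeal.ramificationIdx' wT.asIdeal = 1 := by
    rw [Ideal.ramificationIdx'_eq_ramificationIdx v.asIdeal wT.asIdeal hp]
    exact he
  -- value of `q`
  have hvq : v.valuation ℚ (q : ℚ) = WithZero.exp (-1 : ℤ) := by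
    have h1 : v.valuation ℚ ((q : ℤ) : ℚ) = v.intValuation (q : ℤ) :=
      v.valuation_of_algebraMap (q : ℤ)
    rw [Int.cast_natCast] at h1
    rw [h1]
    exact v.intValuation_singleton (by exact_mod_cast hq.ne_zero) hpq
  have hwq : wT.valuation T (q : T) = WithZero.exp (-1 : ℤ) := by
    have h1 := HeightOneSpectrum.valuation_liesOver T v wT (q : ℚ)
    rw [he', pow_one, hvq] at h1
    rw [h1]
    simp
  -- `y` in `T`
  let yT : T := ⟨y, fun g => hfix g.1 g.2⟩
  have hyT : yT ≠ 0 := fun h => hy (congrArg Subtype.val h)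
  have hwy : wT.valuation T yT ≠ 0 := (Valuation.ne_zero_iff _).mpr hyT
  refine ⟨- WithZero.log (wT.valuation T yT), ?_⟩
  have hz : wT.valuation T (yT / (q : T) ^ (- WithZero.log (wT.valuation T yT))) = 1 := by
    rw [map_div₀, map_zpow₀, hwq, ← WithZero.exp_zsmul]
    simp only [_root_.smul_eq_mul, mul_neg, mul_one, neg_neg]
    rw [WithZero.exp_log hwy]
    exact div_self hwy
  have h2 := HeightOneSpectrum.valuation_liesOver F wT w
    (yT / (q : T) ^ (- WithZero.log (wT.valuation T yT)))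
  rw [hz, one_pow] at h2
  have h3 : algebraMap T F (yT / (q : T) ^ (- WithZero.log (wT.valuation T yT))) =
      y / (q : F) ^ (- WithZero.log (wT.valuation T yT)) := by
    rw [map_div₀, map_zpow₀, map_natCast]
    rfl
  rw [← h3]
  exact h2.symm


end Fermat.Agent.A2.IF.H429

end
-- ===== PACK-END A2/IF/H429/Hilbert.lean

-- ===== PACK-BEGIN S18/MOD/H396/Sep.lean
section


/-!
# S18 / MOD, piece SEP (helper396, squad S18/S36): separability from a derivation

ABSTRACT, Mathlib-only.  `k` a perfect field, `K` a field extension of `k` with a `k`-derivation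
`D : K → K`, `x ∈ K` with `D x ≠ 0`.  Then

* `transcendental_of_D_ne_zero` : `x` is transcendental over `k`;
* `isSeparable_of_D_ne_zero`    : every `y ∈ K` algebraic over `k(x)` is separable over `k(x)`.

Application: `K = κ((q))`, `D = d/dq`, `x = j̄` (or `t̄₂`, `t̄₃`) `= q⁻¹ + …`: the function field
`F_κ ⊆ κ((q))` of the special fibre is separable over `κ(x̄)` (field G-SEP of `GoodModel`).
-/

set_option autoImplicit false

namespace Fermat.Agent.S18.MOD.H396

open Polynomial IntermediateField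

variable {k K : Type*} [Field k] [Field K] [Algebra k K] (D : Derivation k K K)

/-- Over a perfect field of characteristic `p`, a polynomial with zero derivative is a `p`-th
power. -/
theorem exists_pow_eq_of_derivative_eq_zero (p : ℕ) [hp : Fact p.Prime] [CharP k p]
    [PerfectField k] (u : k[X]) (hu : derivative u = 0) : ∃ v : k[X], v ^ p = u := by
  obtain ⟨v, hv⟩ := Polynomial.map_surjective (frobenius k p) (surjective_frobenius k p)
    (contract p u)
  refine ⟨v, ?_⟩
  rw [← map_frobenius_expand, map_expand, hv, expand_contract p hu hp.out.ne_zero]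

/-- `D x ≠ 0` forces `x` to be transcendental over the perfect field `k`. -/
theorem transcendental_of_D_ne_zero [PerfectField k] (x : K) (hx : D x ≠ 0) :
    Transcendental k x := by
  intro halg
  have hint : IsIntegral k x := halg.isIntegral
  have hsep : (minpoly k x).Separable :=
    PerfectField.separable_of_irreducible (minpoly.irreducible hint)
  have h0 : D (aeval x (minpoly k x)) = 0 := by rw [minpoly.aeval, _root_.map_zero]
  rw [Derivation.map_aeval] at h0
  have h1 : aeval x (derivative (minpoly k x)) ≠ 0 :=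
    hsep.aeval_derivative_ne_zero (minpoly.aeval k x)
  exact hx ((smul_eq_zero.mp h0).resolve_left h1)

theorem aeval_mem_adjoin_simple (x : K) (r : k[X]) : aeval x r ∈ k⟮x⟯ := by
  rw [mem_adjoin_simple_iff]
  exact ⟨r, 1, by simp⟩

/-- `D` maps `k(x)` into `k(x) · D x`. -/
theorem exists_D_eq_mul (x : K) (a : K) (ha : a ∈ k⟮x⟯) : ∃ b ∈ k⟮x⟯, D a = b * D x := by
  obtain ⟨r, s, rfl⟩ := (mem_adjoin_simple_iff k a).mp ha
  refine ⟨(aeval x s)⁻¹ ^ 2 *
    (aeval x s * aeval x (derivative r) - aeval x r * aeval x (derivative s)), ?_, ?_⟩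
  · exact _root_.MulMemClass.mul_mem (_root_.pow_mem (_root_.InvMemClass.inv_mem (aeval_mem_adjoin_simple x s)) 2)
      (_root_.sub_mem (_root_.MulMemClass.mul_mem (aeval_mem_adjoin_simple x s) (aeval_mem_adjoin_simple x _))
        (_root_.MulMemClass.mul_mem (aeval_mem_adjoin_simple x r) (aeval_mem_adjoin_simple x _)))
  · rw [Derivation.leibniz_div, Derivation.map_aeval, Derivation.map_aeval]
    simp only [smul_eq_mul]
    ring

/-- Key lemma: an element of `k(x)` killed by `D` is a `p`-th power in `k(x)`. -/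
theorem exists_pow_eq_of_D_eq_zero (p : ℕ) [hp : Fact p.Prime] [CharP k p] [PerfectField k]
    (x : K) (hx : D x ≠ 0) (a : K) (ha : a ∈ k⟮x⟯) (hDa : D a = 0) :
    ∃ b ∈ k⟮x⟯, b ^ p = a := by
  have : CharP K p := charP_of_injective_algebraMap (algebraMap k K).injective p
  obtain ⟨r, s, rfl⟩ := (mem_adjoin_simple_iff k a).mp ha
  by_cases hs : aeval x s = 0
  · refine ⟨0, _root_.ZeroMemClass.zero_mem _, ?_⟩
    rw [hs, div_zero, zero_pow hp.out.ne_zero]
  set u : k[X] := r * s ^ (p - 1) with hu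
  have hp1 : p - 1 + 1 = p := Nat.sub_add_cancel hp.out.one_le
  have ha' : aeval x r / aeval x s = aeval x u / (aeval x s) ^ p := by
    rw [hu, _root_.map_mul, _root_.map_pow, div_eq_div_iff hs (pow_ne_zero p hs)]
    rw [mul_assoc, ← pow_succ, hp1]
  have hDsp : D ((aeval x s) ^ p) = 0 := by
    rw [Derivation.leibniz_pow, ← Nat.cast_smul_eq_nsmul K, CharP.cast_eq_zero K p, zero_smul]
  have hDu : D (aeval x u) = 0 := by
    rw [ha', Derivation.leibniz_div_const _ _ _ hDsp] at hDa
    exact (smul_eq_zero.mp hDa).resolve_left (inv_ne_zero (pow_ne_zero p hs))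
  rw [Derivation.map_aeval] at hDu
  have hu' : aeval x (derivative u) = 0 := (smul_eq_zero.mp hDu).resolve_right hx
  have htr := transcendental_of_D_ne_zero D x hx
  have hu0 : derivative u = 0 := by
    by_contra h
    exact htr ⟨derivative u, h, hu'⟩
  obtain ⟨v, hv⟩ := exists_pow_eq_of_derivative_eq_zero p u hu0
  refine ⟨aeval x v / aeval x s,
    _root_.div_mem (aeval_mem_adjoin_simple x v) (aeval_mem_adjoin_simple x s), ?_⟩
  rw [div_pow, ← _root_.map_pow, hv, ← ha']

/-- **SEP.** If `D x ≠ 0`, every element of `K` algebraic over `k(x)` is separable over `k(x)`. -/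
theorem isSeparable_of_D_ne_zero [PerfectField k] (x : K) (hx : D x ≠ 0) (y : K)
    (hy : IsAlgebraic k⟮x⟯ y) : IsSeparable k⟮x⟯ y := by
  classical
  obtain ⟨p, hpc⟩ := CharP.exists k
  have hint : IsIntegral k⟮x⟯ y := hy.isIntegral
  have hirr := minpoly.irreducible hint
  rcases CharP.char_is_prime_or_zero k p with hp | hp0
  swap
  · -- characteristic zero
    subst hp0
    have : CharZero k := CharP.charP_to_charZero k
    have : CharZero k⟮x⟯ := charZero_of_injective_algebraMap (algebraMap k k⟮x⟯).injective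
    exact hirr.separable
  have := Fact.mk hp
  have : CharP k⟮x⟯ p := charP_of_injective_algebraMap (algebraMap k k⟮x⟯).injective p
  rw [IsSeparable, separable_iff_derivative_ne_zero hirr]
  intro hder
  set P := minpoly k⟮x⟯ y with hP
  set n := P.natDegree with hn
  have hmonic : P.Monic := minpoly.monic hint
  -- the coefficientwise derivative
  have hb : ∀ i : ℕ, ∃ b : k⟮x⟯, D ((P.coeff i : k⟮x⟯) : K) = (b : K) * D x := by
    intro i
    obtain ⟨b, hbm, hb⟩ := exists_D_eq_mul D x _ (P.coeff i).2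
    exact ⟨⟨b, hbm⟩, hb⟩
  choose b hb using hb
  -- the terms coming from `∂/∂T` vanish
  have hterm : ∀ i : ℕ, ((P.coeff i : k⟮x⟯) : K) * D (y ^ i) = 0 := by
    intro i
    rcases Nat.eq_zero_or_pos i with rfl | hi
    · rw [pow_zero, Derivation.map_one_eq_zero, mul_zero]
    · obtain ⟨j, rfl⟩ : ∃ j, i = j + 1 := ⟨i - 1, by omega⟩
      have hc : (derivative P).coeff j = 0 := by rw [hder, coeff_zero]
      rw [coeff_derivative] at hc
      have hcK : ((P.coeff (j + 1) : k⟮x⟯) : K) * ((j : K) + 1) = 0 := by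
        have := congrArg (fun z : k⟮x⟯ => (z : K)) hc
        simpa using this
      rw [Derivation.leibniz_pow, ← Nat.cast_smul_eq_nsmul K, smul_eq_mul, smul_eq_mul,
        ← mul_assoc, Nat.cast_succ, hcK, zero_mul]
  have hsum : (∑ i ∈ Finset.range (n + 1), (b i : K) * y ^ i) * D x = 0 := by
    have h0 : D (aeval y P) = 0 := by rw [minpoly.aeval, _root_.map_zero]
    rw [aeval_eq_sum_range, _root_.map_sum] at h0
    rw [Finset.sum_mul, ← h0]
    refine Finset.sum_congr rfl fun i _ => ?_
    rw [IntermediateField.smul_def, smul_eq_mul, Derivation.leibniz, smul_eq_mul, smul_eq_mul,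
      hterm i, zero_add, hb i]
    ring
  have hsum0 : ∑ i ∈ Finset.range (n + 1), (b i : K) * y ^ i = 0 :=
    (mul_eq_zero.mp hsum).resolve_right hx
  -- `b n = 0`
  have hbn : (b n : K) = 0 := by
    have h1 : P.coeff n = 1 := hmonic.coeff_natDegree
    have h2 := hb n
    rw [h1] at h2
    have h3 : D ((1 : k⟮x⟯) : K) = 0 := by
      rw [show (((1 : k⟮x⟯) : K)) = 1 from rfl, Derivation.map_one_eq_zero]
    rw [h3] at h2
    exact (mul_eq_zero.mp h2.symm).resolve_right hx
  rw [Finset.sum_range_succ, hbn, zero_mul, add_zero] at hsum0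
  -- the polynomial `Pδ`
  set Pδ : (k⟮x⟯)[X] := Polynomial.ofFn n (fun i : Fin n => b i) with hPδ
  have hPδy : aeval y Pδ = 0 := by
    rw [hPδ, ofFn_eq_sum_monomial, _root_.map_sum, ← hsum0,
      ← Fin.sum_univ_eq_sum_range (fun i => (b i : K) * y ^ i) n]
    refine Finset.sum_congr rfl fun i _ => ?_
    rw [aeval_monomial]
    rfl
  have hPδ0 : Pδ = 0 := by
    by_contra hne
    have h1 := minpoly.degree_le_of_ne_zero k⟮x⟯ y hne hPδy
    have h2 : Pδ.degree < n := ofFn_degree_lt _
    have h3 : P.degree = n := degree_eq_natDegree hmonic.ne_zero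
    rw [← hP, h3] at h1
    exact absurd (lt_of_le_of_lt h1 h2) (lt_irrefl _)
  have hbi : ∀ i, i < n → b i = 0 := by
    intro i hi
    have := ofFn_coeff_eq_val_of_lt (fun i : Fin n => b i) hi
    rw [← hPδ, hPδ0, coeff_zero] at this
    exact this.symm
  -- all coefficients are killed by `D`
  have hDc : ∀ i, D ((P.coeff i : k⟮x⟯) : K) = 0 := by
    intro i
    rcases lt_trichotomy i n with hi | hi | hi
    · rw [hb i, hbi i hi]
      simp
    · rw [hb i, hi, hbn, zero_mul]
    · rw [coeff_eq_zero_of_natDegree_lt hi]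
      simp
  -- hence they are `p`-th powers
  have hpow : ∀ i, ∃ c : k⟮x⟯, c ^ p = P.coeff i := by
    intro i
    obtain ⟨c, hcm, hc⟩ := exists_pow_eq_of_D_eq_zero D p x hx _ (P.coeff i).2 (hDc i)
    exact ⟨⟨c, hcm⟩, Subtype.ext hc⟩
  have hrange : contract p P ∈ (mapRingHom (frobenius k⟮x⟯ p)).range := by
    rw [Polynomial.mem_map_range]
    intro m
    rw [coeff_contract hp.ne_zero]
    obtain ⟨c, hc⟩ := hpow (m * p)
    exact ⟨c, by rw [← hc]; rfl⟩
  obtain ⟨Q, hQ⟩ := hrange
  have hPQ : P = Q ^ p := by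
    rw [← map_frobenius_expand, map_expand]
    rw [coe_mapRingHom] at hQ
    rw [hQ, expand_contract p hder hp.ne_zero]
  rw [hPQ] at hirr
  exact not_irreducible_pow hp.one_lt.ne' hirr

/-- Every element of `k(x)` is a quotient `r(x) / s(x)` with `s(x) ≠ 0`. -/
theorem exists_quot_repr (x : K) (a : K) (ha : a ∈ k⟮x⟯) :
    ∃ r s : k[X], aeval x s ≠ 0 ∧ a * aeval x s = aeval x r := by
  obtain ⟨r, s, rfl⟩ := (mem_adjoin_simple_iff k a).mp ha
  by_cases hs : aeval x s = 0
  · refine ⟨0, 1, by simp, ?_⟩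
    rw [hs, div_zero]
    simp
  · exact ⟨r, s, hs, div_mul_cancel₀ _ hs⟩

/-- **SEP, bivariate form** (what G-SEP consumes): there is `Q ∈ k[X][T]` with `Q(x, y) = 0` and
`(∂Q/∂T)(x, y) ≠ 0`. -/
theorem exists_bivariate_separable [PerfectField k] (x : K) (hx : D x ≠ 0) (y : K)
    (hy : IsAlgebraic k⟮x⟯ y) :
    ∃ Q : (k[X])[X], Q.eval₂ (aeval x : k[X] →ₐ[k] K).toRingHom y = 0 ∧
      (derivative Q).eval₂ (aeval x : k[X] →ₐ[k] K).toRingHom y ≠ 0 := by
  classical
  have hint : IsIntegral k⟮x⟯ y := hy.isIntegral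
  have hsep : (minpoly k⟮x⟯ y).Separable := isSeparable_of_D_ne_zero D x hx y hy
  set P := minpoly k⟮x⟯ y with hP
  set n := P.natDegree with hn
  have hder : aeval y (derivative P) ≠ 0 :=
    hsep.aeval_derivative_ne_zero (minpoly.aeval k⟮x⟯ y)
  -- representations of the coefficients
  have hrep : ∀ i : ℕ, ∃ r s : k[X], aeval x s ≠ 0 ∧
      ((P.coeff i : k⟮x⟯) : K) * aeval x s = aeval x r := fun i =>
    exists_quot_repr x _ (P.coeff i).2
  choose r s hs hrs using hrep
  set S : k[X] := ∏ j ∈ Finset.range (n + 1), s j with hS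
  have hSx : aeval x S ≠ 0 := by
    rw [hS, _root_.map_prod]
    exact Finset.prod_ne_zero_iff.mpr fun j _ => hs j
  set q : ℕ → k[X] := fun i => r i * ∏ j ∈ (Finset.range (n + 1)).erase i, s j with hq
  have hqx : ∀ i, i < n + 1 → aeval x (q i) = aeval x S * ((P.coeff i : k⟮x⟯) : K) := by
    intro i hi
    have hmem : i ∈ Finset.range (n + 1) := Finset.mem_range.mpr hi
    rw [hq, hS, _root_.map_mul, ← hrs i, ← Finset.mul_prod_erase _ _ hmem, _root_.map_mul]
    ring
  set φ : k[X] →+* K := (aeval x : k[X] →ₐ[k] K).toRingHom with hφ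
  set Q : (k[X])[X] := Polynomial.ofFn (n + 1) (fun i : Fin (n + 1) => q i) with hQ
  have hmap : Q.map φ = C (aeval x S) * P.map (algebraMap k⟮x⟯ K) := by
    ext i
    rw [coeff_map, coeff_C_mul, coeff_map]
    by_cases hi : i < n + 1
    · rw [hQ, ofFn_coeff_eq_val_of_lt _ hi]
      exact hqx i hi
    · rw [hQ, ofFn_coeff_eq_zero_of_ge _ (not_lt.mp hi),
        coeff_eq_zero_of_natDegree_lt (by omega : P.natDegree < i)]
      simp
  refine ⟨Q, ?_, ?_⟩
  · rw [← eval_map, hmap, eval_mul, eval_C, eval_map_algebraMap, minpoly.aeval, mul_zero]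
  · rw [← eval_map, ← derivative_map, hmap, derivative_C_mul, eval_mul, eval_C, derivative_map,
      eval_map_algebraMap]
    exact mul_ne_zero hSx hder

/-- A derivation from a function (useful when the ambient `Module k K` instance of an existing
derivation is not syntactically `Algebra.toModule`, e.g. for Laurent series). -/
noncomputable def derivationOfFun (d : K → K) (hadd : ∀ a b, d (a + b) = d a + d b)
    (hmul : ∀ a b, d (a * b) = a * d b + b * d a) (hconst : ∀ c : k, d (algebraMap k K c) = 0) :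
    Derivation k K K where
  toFun := d
  map_add' := hadd
  map_smul' c a := by
    rw [RingHom.id_apply, Algebra.smul_def, hmul, hconst, mul_zero, add_zero, Algebra.smul_def]
  map_one_eq_zero' := by
    have := hconst 1
    rwa [_root_.map_one] at this
  leibniz' a b := by
    simp only [smul_eq_mul]
    exact hmul a b

@[simp] theorem derivationOfFun_apply (d : K → K) (hadd : ∀ a b, d (a + b) = d a + d b)
    (hmul : ∀ a b, d (a * b) = a * d b + b * d a) (hconst : ∀ c : k, d (algebraMap k K c) = 0)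
    (a : K) : derivationOfFun d hadd hmul hconst a = d a := rfl

end Fermat.Agent.S18.MOD.H396

end
-- ===== PACK-END S18/MOD/H396/Sep.lean

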