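import Mathlib
import Fermat.Prelude.Def_CuspForm_HeckeGaloisRepDatum
import Mathlib.RingTheory.LocalRing.MaximalIdeal.Basic
import Mathlib.Algebra.Polynomial.RingDivision
import Mathlib.Algebra.Polynomial.AlgebraMap
import Mathlib.Algebra.Polynomial.Div
import Fermat.Prelude.Def_ModularCurve_JqCoeff
import Fermat.Prelude.Def_ModularCurve_LaurentCoeff
import Fermat.Prelude.Thm_ModularCurve_coeffMap_qExpand
import Fermat.Prelude.Def_ModularCurve_ArithmeticGalois
import Fermat.Prelude.Def_FLTPrelim_Ramification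
import Mathlib.RingTheory.Trace.Quotient
import Mathlib.RingTheory.Discriminant
import Mathlib.RingTheory.Ideal.Over
import Mathlib.FieldTheory.Separable
import Mathlib.RingTheory.IntegralClosure.IntegrallyClosed
import Mathlib.RingTheory.Ideal.Span
import Mathlib.Data.Nat.Choose.Sum
import Mathlib.Tactic.Ring
import Mathlib.RingTheory.Localization.AsSubring
import Mathlib.RingTheory.Localization.AtPrime.Basic
import Mathlib.RingTheory.Localization.Ideal
import Mathlib.RingTheory.DiscreteValuationRing.TFAE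
import Mathlib.RingTheory.Ideal.AssociatedPrime.Basic
import Mathlib.RingTheory.Valuation.ValuationSubring
import Mathlib.RingTheory.Valuation.ValuationRing
import Mathlib.Tactic
import Fermat.Agent.Pack.S33.E0L0

-- ===== PACK-BEGIN S31/Defs.lean
section




/-!
# Row S31 — frozen interface definitions (row-lead helper22)

S31: in a Hecke–Galois datum of level `N` away from `S`, the representation `H.ρ` is unramified at
every prime `q ∉ S`.

Route (plan: `coord/S31.md` on `origin/helper22`):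
`S31 ⇐ S30 + Lib/Cheb (FrobeniusDivisionStatement) + PTS (p-adic points of the Hecke algebra are
topologically separating; from S22 + SS) + ALG (trace criterion, trace of powers, continuity)`.

This file contains ONLY sorry-free definitions.  It is FROZEN once published.
-/

set_option autoImplicit false

open Polynomial

namespace Fermat.Agent.S31

/-- `ℚ̄`. -/
abbrev Qb : Type := AlgebraicClosure ℚ

/-- `Gal(ℚ̄/ℚ)`. -/
abbrev GQ : Type := Qb ≃ₐ[ℚ] Qb

/-- The exact type of the frozen statement S30 (existence of the Galois representation attached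
to a `p`-adic point of the Hecke algebra).  Input of the row, provided by the S30 row. -/
def S30Statement : Prop :=
  ∀ (p : ℕ) [Fact p.Prime] (N : ℕ) [NeZero N] (S : Finset ℕ)
    (_hpS : p ∈ S) (_hNS : ∀ q : ℕ, q.Prime → q ∣ N → q ∈ S)
    (𝒪' : Type) [CommRing 𝒪'] [IsDomain 𝒪'] [IsDiscreteValuationRing 𝒪']
    [IsAdicComplete (IsLocalRing.maximalIdeal 𝒪') 𝒪'] [Finite (IsLocalRing.ResidueField 𝒪')]
    [CharZero 𝒪'] (_hp𝒪' : (p : 𝒪') ∈ IsLocalRing.maximalIdeal 𝒪')
    (χ : CuspForm.heckeAlgebra N 2 (↑S : Set ℕ) →+* 𝒪'),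
    ∃ (𝒪'' : Type) (_ : CommRing 𝒪'') (_ : IsDomain 𝒪'') (_ : IsDiscreteValuationRing 𝒪'')
      (_ : IsAdicComplete (IsLocalRing.maximalIdeal 𝒪'') 𝒪'')
      (_ : Finite (IsLocalRing.ResidueField 𝒪'')) (_ : CharZero 𝒪'')
      (_ : Algebra 𝒪' 𝒪'') (_ : Module.Finite 𝒪' 𝒪'') (_ : IsLocalHom (algebraMap 𝒪' 𝒪'')),
    Function.Injective (algebraMap 𝒪' 𝒪'') ∧
    ∃ ρ : GaloisRepAdic 𝒪'',
      (∀ (ℓ : ℕ) (hℓ : ℓ.Prime) (hℓN : ¬ ℓ ∣ N) (hℓS : ℓ ∉ (↑S : Set ℕ)),
        ∀ A : ValuationSubring (AlgebraicClosure ℚ), A.LiesOverPrime ℓ →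
          ∀ σ : AlgebraicClosure ℚ ≃ₐ[ℚ] AlgebraicClosure ℚ, A.IsFrobeniusAt σ ℓ →
            LinearMap.charpoly (ρ.ρ σ) =
              X ^ 2 - C (algebraMap 𝒪' 𝒪'' (χ (CuspForm.heckeAlgebra.T hℓ hℓN hℓS))) * X
                + C ((ℓ : 𝒪''))) ∧
      (∀ q : ℕ, q.Prime → ¬ q ∣ N → q ≠ p → ρ.IsUnramifiedAt q)

/-- Frobenius density input (Tier 1 of the shared library CHEB, frozen on main). -/
abbrev ChebStatement : Prop := Fermat.Agent.Lib.Cheb.Spec.FrobeniusDivisionStatement

/-- A `p`-adic point of a commutative ring `R`: a ring hom to a complete DVR of characteristic zero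
with finite residue field and residue characteristic `p`. -/
structure PadicPoint (p : ℕ) (R : Type) [CommRing R] : Type 1 where
  /-- the coefficient ring -/
  O : Type
  [commRing : CommRing O]
  [isDomain : IsDomain O]
  [isDVR : IsDiscreteValuationRing O]
  [isComplete : IsAdicComplete (IsLocalRing.maximalIdeal O) O]
  [finiteResidue : Finite (IsLocalRing.ResidueField O)]
  [charZero : CharZero O]
  hp : (p : O) ∈ IsLocalRing.maximalIdeal O
  /-- the point -/
  χ : R →+* O

attribute [instance] PadicPoint.commRing PadicPoint.isDomain PadicPoint.isDVR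
  PadicPoint.isComplete PadicPoint.finiteResidue PadicPoint.charZero

/-- **PTS**: the `p`-adic points of `R` are topologically separating at every prime `m ∋ p`:
for every `n` there are finitely many `p`-adic points and `n'` such that an element of `R` lying in
the `n'`-th power of the maximal ideal at each of these points lies in `m ^ n`. -/
def PTS (p : ℕ) (R : Type) [CommRing R] : Prop :=
  ∀ (m : Ideal R), m.IsPrime → (p : R) ∈ m → ∀ n : ℕ,
    ∃ (F : List (PadicPoint p R)) (n' : ℕ), ∀ t : R,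
      (∀ P ∈ F, P.χ t ∈ IsLocalRing.maximalIdeal P.O ^ n') → t ∈ m ^ n

/-- The universal polynomial `tr (f ^ j)` in terms of `a = tr f`, `d = det f` for `2 × 2`
matrices: `P₀ = 2`, `P₁ = a`, `P_{j+2} = a P_{j+1} - d P_j`. -/
def powTr {R : Type*} [CommRing R] (a d : R) : ℕ → R
  | 0 => 2
  | 1 => a
  | (j + 2) => a * powTr a d (j + 1) - d * powTr a d j

/-- The conclusion of S31 for a given datum, as a `Prop` (to shorten statements). -/
def UnramifiedOutside {T : Type} [CommRing T] [IsLocalRing T] (ρ : GaloisRepAdic T)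
    (S : Finset ℕ) : Prop :=
  ∀ q : ℕ, q.Prime → q ∉ S → ρ.IsUnramifiedAt q

end Fermat.Agent.S31

end
-- ===== PACK-END S31/Defs.lean

-- ===== PACK-BEGIN A3/H799/Disc.lean
section





/-!
# A3 / LOCAL — disc algebras and interpolation  (helper799)

A *disc algebra* over a local ring `A` is the algebraic shadow of "integral functions on an open
residue disc with parameter `t`": an `A`-algebra `𝒪` with an element `t`, an evaluation
`ev a : 𝒪 →ₐ[A] A` at every `a ∈ 𝔪_A` with `ev a t = a`, and the Taylor property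
`f = ev a f + (t - a) * f'`.  (In the application `𝒪 = 𝒪_Q = V ∩ ⋂_{r P = Q} 𝒪_P` is the ring of
functions of Gauss norm `≤ 1` without poles in the residue disc of the point `Q` of the special
fibre; Taylor follows from conservation of zeros.)

Main results (pure algebra):

* `DiscAlg.exists_interp` : Newton/Hermite interpolation, `f = p(t) + ∏ (t - a_i) * h`, `p ∈ A[X]`;
* `DiscAlg.prod_dvd_of_aeval` : if `p(t) ∈ ∏ (t - a_i) 𝒪` then `∏ (X - a_i) ∣ p` in `A[X]`.
-/

set_option autoImplicit false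

namespace Fermat.Agent.A3.H799

open Polynomial

/-- Integral functions on a residue disc with parameter `t` (see the module docstring). -/
structure DiscAlg (A : Type*) [CommRing A] [IsLocalRing A] (𝒪 : Type*) [CommRing 𝒪]
    [Algebra A 𝒪] where
  /-- the parameter -/
  t : 𝒪
  /-- evaluation at the point with parameter value `a` -/
  ev : IsLocalRing.maximalIdeal A → 𝒪 →ₐ[A] A
  ev_t : ∀ a, ev a t = (a : A)
  taylor : ∀ (a : IsLocalRing.maximalIdeal A) (f : 𝒪),
    ∃ f' : 𝒪, f = algebraMap A 𝒪 (ev a f) + (t - algebraMap A 𝒪 (a : A)) * f'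
  nzd : ∀ (a : IsLocalRing.maximalIdeal A) (f : 𝒪), (t - algebraMap A 𝒪 (a : A)) * f = 0 → f = 0

namespace DiscAlg

variable {A : Type*} [CommRing A] [IsLocalRing A] {𝒪 : Type*} [CommRing 𝒪] [Algebra A 𝒪]
variable (D : DiscAlg A 𝒪)

/-- The monic polynomial `∏ (X - a)` attached to a list of points. -/
noncomputable def nodal (l : List (IsLocalRing.maximalIdeal A)) : A[X] :=
  (l.map fun a => X - C (a : A)).prod

@[simp] theorem nodal_nil : nodal ([] : List (IsLocalRing.maximalIdeal A)) = 1 := by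
  simp [nodal]

@[simp] theorem nodal_cons (a : IsLocalRing.maximalIdeal A) (l : List (IsLocalRing.maximalIdeal A)) :
    nodal (a :: l) = (X - C (a : A)) * nodal l := by
  simp [nodal]

theorem nodal_monic (l : List (IsLocalRing.maximalIdeal A)) : (nodal l).Monic := by
  induction l with
  | nil => simp
  | cons a l ih => rw [nodal_cons]; exact (monic_X_sub_C _).mul ih

theorem nodal_append (l l' : List (IsLocalRing.maximalIdeal A)) :
    nodal (l ++ l') = nodal l * nodal l' := by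
  simp [nodal]

theorem nodal_append_singleton (l : List (IsLocalRing.maximalIdeal A))
    (a : IsLocalRing.maximalIdeal A) : nodal (l ++ [a]) = nodal l * (X - C (a : A)) := by
  rw [nodal_append, nodal_cons, nodal_nil, mul_one]

theorem natDegree_nodal (l : List (IsLocalRing.maximalIdeal A)) :
    (nodal l).natDegree = l.length := by
  induction l with
  | nil => simp
  | cons a l ih =>
    rw [nodal_cons, ((monic_X_sub_C _).natDegree_mul (nodal_monic l)), ih, natDegree_X_sub_C]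
    simp [add_comm]

@[simp] theorem ev_aeval (a : IsLocalRing.maximalIdeal A) (p : A[X]) :
    D.ev a (aeval D.t p) = p.eval (a : A) := by
  rw [← Polynomial.aeval_algHom_apply, D.ev_t]
  simp [Polynomial.aeval_def]

theorem aeval_nodal_cons (a : IsLocalRing.maximalIdeal A)
    (l : List (IsLocalRing.maximalIdeal A)) :
    aeval D.t (nodal (a :: l)) = (D.t - algebraMap A 𝒪 (a : A)) * aeval D.t (nodal l) := by
  simp [nodal_cons]

/-- **Interpolation.**  Every disc function is a polynomial in `t` modulo `∏ (t - a_i)`. -/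
theorem exists_interp (l : List (IsLocalRing.maximalIdeal A)) (f : 𝒪) :
    ∃ (p : A[X]) (h : 𝒪), f = aeval D.t p + aeval D.t (nodal l) * h := by
  induction l generalizing f with
  | nil => exact ⟨0, f, by simp⟩
  | cons a l ih =>
    obtain ⟨f', hf'⟩ := D.taylor a f
    obtain ⟨p, h, hp⟩ := ih f'
    refine ⟨C (D.ev a f) + (X - C (a : A)) * p, h, ?_⟩
    rw [D.aeval_nodal_cons]
    conv_lhs => rw [hf', hp]
    simp only [_root_.map_add, _root_.map_mul, _root_.map_sub, aeval_C, aeval_X]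
    ring

/-- If `p(t)` is divisible by `∏ (t - a_i)` in the disc algebra, then `p` is divisible by
`∏ (X - a_i)` as a polynomial. -/
theorem nodal_dvd_of_aeval (l : List (IsLocalRing.maximalIdeal A)) (p : A[X]) (h : 𝒪)
    (hp : aeval D.t p = aeval D.t (nodal l) * h) : nodal l ∣ p := by
  induction l generalizing p h with
  | nil => simp
  | cons a l ih =>
    rw [D.aeval_nodal_cons] at hp
    have hroot : p.eval (a : A) = 0 := by
      have := congrArg (D.ev a) hp
      rw [D.ev_aeval, _root_.map_mul, _root_.map_mul, _root_.map_sub, D.ev_t] at this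
      simpa using this
    have hdiv : (X - C (a : A)) * (p /ₘ (X - C (a : A))) = p :=
      mul_divByMonic_eq_iff_isRoot.mpr hroot
    set p₁ := p /ₘ (X - C (a : A)) with hp₁
    have h1 : aeval D.t p = (D.t - algebraMap A 𝒪 (a : A)) * aeval D.t p₁ := by
      conv_lhs => rw [← hdiv]
      simp
    have h2 : (D.t - algebraMap A 𝒪 (a : A)) * (aeval D.t p₁ - aeval D.t (nodal l) * h) = 0 := by
      rw [mul_sub, ← h1, hp]; ring
    have h3 := D.nzd a _ h2
    have h4 : aeval D.t p₁ = aeval D.t (nodal l) * h := sub_eq_zero.mp h3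
    obtain ⟨q, hq⟩ := ih p₁ h h4
    refine ⟨q, ?_⟩
    rw [nodal_cons, ← hdiv, hq]
    ring

/-- Cancellation of `nodal l` in the disc algebra. -/
theorem nodal_cancel (l : List (IsLocalRing.maximalIdeal A)) (f : 𝒪)
    (h : aeval D.t (nodal l) * f = 0) : f = 0 := by
  induction l with
  | nil => simpa using h
  | cons a l ih =>
    rw [D.aeval_nodal_cons, mul_assoc] at h
    exact ih (D.nzd a _ h)

end DiscAlg

end Fermat.Agent.A3.H799

end
-- ===== PACK-END A3/H799/Disc.lean

-- ===== PACK-BEGIN A2/H528/FrobCong.lean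
section





/-!
# A2 — the Frobenius congruence `f(q^ℓ) ≡ f(q)^ℓ (mod ℓ)` for Laurent series

* `qExpand_eq_pow_zmod` : over `𝔽_ℓ`, `f(q^ℓ) = f(q)^ℓ`;
* `exists_frobCong`     : over `ℤ`, `f(q^ℓ) - f(q)^ℓ = ℓ · g` with `g ∈ ℤ((q))`.
-/

set_option autoImplicit false

noncomputable section

open ModularCurve HahnSeries

namespace Fermat.Agent.A2.H528

theorem qExpand_ofPowerSeries {R : Type*} [CommRing R] (n : ℕ) [NeZero n] (u : PowerSeries R) :
    qExpand R n (HahnSeries.ofPowerSeries ℤ R u)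
      = HahnSeries.ofPowerSeries ℤ R (u.expand n (NeZero.ne n)) := by
  have hn : (n : ℤ) ≠ 0 := by exact_mod_cast NeZero.ne n
  have hn0 : 0 < (n : ℤ) := by exact_mod_cast Nat.pos_of_ne_zero (NeZero.ne n)
  ext k
  by_cases hk : (n : ℤ) ∣ k
  · obtain ⟨m, rfl⟩ := hk
    rw [qExpand_coeff_mul]
    rcases le_or_gt 0 m with hm | hm
    · lift m to ℕ using hm
      rw [HahnSeries.ofPowerSeries_apply_coeff,
        show (n : ℤ) * (m : ℤ) = ((n * m : ℕ) : ℤ) by push_cast; ring,
        HahnSeries.ofPowerSeries_apply_coeff, PowerSeries.coeff_expand_mul]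
    · rw [ofPowerSeries_coeff_of_neg _ hm,
        ofPowerSeries_coeff_of_neg _ (mul_neg_of_pos_of_neg hn0 hm)]
  · rw [qExpand_coeff_of_not_dvd n _ hk]
    rcases le_or_gt 0 k with hk0 | hk0
    · lift k to ℕ using hk0
      rw [HahnSeries.ofPowerSeries_apply_coeff, PowerSeries.coeff_expand_of_not_dvd]
      intro h
      exact hk (by exact_mod_cast h)
    · rw [ofPowerSeries_coeff_of_neg _ hk0]

variable (ℓ : ℕ) [hℓ : Fact ℓ.Prime]

theorem powerSeries_pow_eq_expand (u : PowerSeries (ZMod ℓ)) :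
    u ^ ℓ = u.expand ℓ hℓ.out.ne_zero := by
  have h := MvPowerSeries.map_frobenius_expand (σ := Unit) (R := ZMod ℓ) ℓ hℓ.out.ne_zero (f := u)
  have hf : frobenius (ZMod ℓ) ℓ = RingHom.id (ZMod ℓ) := by
    ext a
    simp
  rw [hf, MvPowerSeries.map_id] at h
  exact h.symm

/-- **Frobenius in characteristic `ℓ`**: `f(q^ℓ) = f(q)^ℓ` for `f ∈ 𝔽_ℓ((q))`. -/
theorem qExpand_eq_pow_zmod (f : LaurentSeries (ZMod ℓ)) :
    qExpand (ZMod ℓ) ℓ f = f ^ ℓ := by
  conv_lhs => rw [← LaurentSeries.single_order_mul_powerSeriesPart f]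
  conv_rhs => rw [← LaurentSeries.single_order_mul_powerSeriesPart f]
  rw [_root_.map_mul, mul_pow, qExpand_single, HahnSeries.single_pow, one_pow, qExpand_ofPowerSeries,
    ← map_pow, powerSeries_pow_eq_expand, nsmul_eq_mul]

/-- division by `ℓ` as a zero-preserving map of `ℤ` -/
def divPrime : ZeroHom ℤ ℤ where
  toFun c := c / ℓ
  map_zero' := by simp

/-- **Frobenius congruence**: `f(q^ℓ) - f(q)^ℓ ∈ ℓ · ℤ((q))` for `f ∈ ℤ((q))`. -/
theorem exists_frobCong (x : LaurentSeries ℤ) :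
    ∃ g : LaurentSeries ℤ, qExpand ℤ ℓ x - x ^ ℓ = HahnSeries.C (ℓ : ℤ) * g := by
  set D : LaurentSeries ℤ := qExpand ℤ ℓ x - x ^ ℓ with hD
  have h0 : coeffMap (Int.castRingHom (ZMod ℓ)) D = 0 := by
    rw [hD, _root_.map_sub, map_pow, coeffMap_qExpand, qExpand_eq_pow_zmod, sub_self]
  have hdvd : ∀ k : ℤ, (ℓ : ℤ) ∣ D.coeff k := by
    intro k
    have h1 := congrArg (fun s => s.coeff k) h0
    simp only [coeffMap_coeff, HahnSeries.coeff_zero, eq_intCast] at h1
    exact (ZMod.intCast_zmod_eq_zero_iff_dvd _ _).mp h1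
  refine ⟨D.map (divPrime ℓ), ?_⟩
  ext k
  rw [HahnSeries.C_mul_eq_smul, HahnSeries.coeff_smul, HahnSeries.map_coeff, smul_eq_mul]
  show D.coeff k = (ℓ : ℤ) * (D.coeff k / ℓ)
  rw [Int.mul_ediv_cancel' (hdvd k)]

end Fermat.Agent.A2.H528

end
end
-- ===== PACK-END A2/H528/FrobCong.lean

-- ===== PACK-BEGIN A2/Spec.lean
section




/-!
# WALL A2 — frozen interfaces (row-lead helper13)

Goal (`Target N q m`): for `q ‖ N`, `q ∤ m`, every `τ` in an inertia group at `q` satisfies
`(τ - 1)² = 0` on `JZero N [m]` (`JZero N = Pic⁰(ℚ̄(X₀(N)))`, Prelude language).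

Layers (see `coord/A2.md` on `origin/helper13`):

* `Target`        : the wall, Prelude language.
* `KummerTarget`  : the same on Kummer generators (`div f ∈ m·Div ⇒ (τ-1)² f ∈ (F̄ˣ)^m`).
* `SSChart`, `SepCoord`, `AlgSSConclusion` : the abstract semistable theorem ALG (Mathlib only).
* `GoodField`     : the finite levels `E' ⊇ ℚ̄^{I}` over which ALG is applied (piece IF).

This file contains only definitions (no `sorry`).  The interface theorems are the `Prop`s
`AlgSSStatement`, `IFStatement` (this file) and `ModSSStatement` (`ModDefs.lean`).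

v2 (19:10Z, LANDED, never to change again):
* `SSChart` has the two incomparability fields `not_le₁₂`, `not_le₂₁` (audit helper154: without
  them the good-reduction case `p₁ = (w) < p₂` was admitted);
* `GoodField` has the field `finite_order` and `AlgSSStatement` the hypothesis `hfo` (the lift
  `τ` has finite order on the finite level; asked for by route G, helper12 `H12.wallG`).
-/

set_option autoImplicit false

noncomputable section

namespace Fermat.Agent.A2

open ModularCurve AlgebraicCurve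

/-- The field `ℚ̄`. -/
abbrev Qb : Type := AlgebraicClosure ℚ

/-- **The wall A2** at `(N, q, m)`: unipotent inertia on the `m`-torsion of `J₀(N)`. -/
def Target (N q m : ℕ) : Prop :=
  ∀ P : ValuationSubring Qb, P.LiesOverPrime q →
    ∀ τ ∈ P.inertiaSubgroupIn ℚ, ∀ x : JZero N, m • x = 0 →
      τ • (τ • x) + x = 2 • (τ • x)

/-- The automorphism of `F̄_N = ℚ̄(X₀(N))` induced by `τ ∈ G_ℚ` (action on coefficients). -/
abbrev act (N : ℕ) (τ : Qb ≃ₐ[ℚ] Qb) :
    modularFunctionFieldBar N ≃+* modularFunctionFieldBar N :=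
  arithmeticRingAut (modularFunctionFieldFull N) τ

/-- **Kummer form of the wall**: if `div f ∈ m · Div`, then `τ²(f) · f / τ(f)²` is an `m`-th
power in `F̄_N`. -/
def KummerTarget (N q m : ℕ) : Prop :=
  ∀ P : ValuationSubring Qb, P.LiesOverPrime q →
    ∀ τ ∈ P.inertiaSubgroupIn ℚ, ∀ f : modularFunctionFieldBar N, f ≠ 0 →
      (∀ v : Place Qb (modularFunctionFieldBar N), (m : ℤ) ∣ v.ord f) →
      ∃ h : modularFunctionFieldBar N, h ≠ 0 ∧
        act N τ (act N τ f) * f = h ^ m * (act N τ f) ^ 2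

/-! ## ALG: abstract semistable two-chart models (Mathlib only) -/

section Alg

variable {R F : Type*} [CommRing R] [Field F] [Algebra R F]

/-- A chart `B ⊆ F` of a model over `R` whose special fibre `B / wB` is reduced with exactly two
components `p₁`, `p₂`, both normal, meeting transversally (`p₁ + p₂` radical, i.e. every common
point is an ordinary double point). -/
structure SSChart (w : R) (B : Subalgebra R F) where
  /-- first component -/
  p₁ : Ideal B
  /-- second component -/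
  p₂ : Ideal B
  prime₁ : p₁.IsPrime
  prime₂ : p₂.IsPrime
  ne : p₁ ≠ p₂
  not_le₁₂ : ¬ p₁ ≤ p₂
  not_le₂₁ : ¬ p₂ ≤ p₁
  inf_eq : p₁ ⊓ p₂ = Ideal.span {algebraMap R B w}
  normal₁ : IsIntegrallyClosed (B ⧸ p₁)
  normal₂ : IsIntegrallyClosed (B ⧸ p₂)
  transversal : (p₁ ⊔ p₂).IsRadical

variable (R) in
/-- `x` is a separating coordinate for the special fibre: some `E(x)`-basis of `F` consisting of
elements of the chart `B` has a discriminant `d(x)`, `d ∈ R[X]`, which is nonzero modulo the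
maximal ideal. -/
def SepCoord [IsLocalRing R] (E : Type*) [Field E] [Algebra E F] (x : F) (B : Subalgebra R F) :
    Prop :=
  ∃ (n : ℕ) (b : Fin n → F), (∀ i, b i ∈ B) ∧
    LinearIndependent (IntermediateField.adjoin E ({x} : Set F)) b ∧
    n = Module.finrank (IntermediateField.adjoin E ({x} : Set F)) F ∧
    ∃ d : Polynomial R, d.map (IsLocalRing.residue R) ≠ 0 ∧
      Polynomial.aeval x d =
        algebraMap (IntermediateField.adjoin E ({x} : Set F)) F
          (Algebra.discr (IntermediateField.adjoin E ({x} : Set F)) b)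

/-- `m ∣ div f` on every discrete valuation ring of `F` containing `E`, in Mathlib-only form:
locally `f = u · h ^ m` with `u` a unit. -/
def DivisibleDiv (E : Type*) [Field E] [Algebra E F] (m : ℕ) (f : F) : Prop :=
  ∀ V : ValuationSubring F, IsDiscreteValuationRing V → (∀ e : E, algebraMap E F e ∈ V) →
    ∃ h u : F, h ≠ 0 ∧ u ∈ V ∧ u⁻¹ ∈ V ∧ f = u * h ^ m

/-- The conclusion of ALG: `(τ - 1)²` kills the Kummer classes with `m ∣ div`. -/
def AlgSSConclusion (E : Type*) [Field E] [Algebra E F] (m : ℕ) (τ : F ≃+* F) : Prop :=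
  ∀ f : F, f ≠ 0 → DivisibleDiv E m f →
    ∃ h : F, h ≠ 0 ∧ τ (τ f) * f = h ^ m * (τ f) ^ 2

/-- **ALG (interface statement).**  Henselian DVR `R` with algebraically closed residue field of
characteristic `q`, `F / E` a function field with coordinate `x`, `Bf`, `Bi` the integral closures
of `R[x]`, `R[1/x]` in `F`, both semistable with two components (`SSChart`) and separating
coordinate, `τ` a semilinear automorphism of finite order fixing `x` and acting trivially modulo
`w` on both charts.  Then `(τ - 1)²` kills every Kummer class `f` with `m ∣ div f`, `q ∤ m`. -/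
def AlgSSStatement : Prop :=
  ∀ {R E F : Type} [CommRing R] [IsDomain R] [IsDiscreteValuationRing R] [HenselianLocalRing R]
    [IsAlgClosed (IsLocalRing.ResidueField R)]
    [Field E] [CharZero E] [Algebra R E] [IsFractionRing R E]
    [Field F] [Algebra E F] [Algebra R F] [IsScalarTower R E F]
    (w : R) (_ : Irreducible w) (q m : ℕ) (_ : q.Prime)
    (_ : (q : R) ∈ IsLocalRing.maximalIdeal R) (_ : 0 < m) (_ : ¬ q ∣ m)
    (x : F) (_ : Transcendental E x)
    (_ : FiniteDimensional (IntermediateField.adjoin E ({x} : Set F)) F)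
    (_ : ∀ f : F, IsAlgebraic E f → f ∈ (algebraMap E F).range)
    (Bf Bi : Subalgebra R F)
    (_ : ∀ f : F, f ∈ Bf ↔ IsIntegral (Algebra.adjoin R ({x} : Set F)) f)
    (_ : ∀ f : F, f ∈ Bi ↔ IsIntegral (Algebra.adjoin R ({x⁻¹} : Set F)) f)
    (_ : SSChart w Bf) (_ : SSChart w Bi)
    (_ : SepCoord R E x Bf) (_ : SepCoord R E x⁻¹ Bi)
    (τ : F ≃+* F) (τE : E ≃+* E) (τR : R ≃+* R)
    (_ : ∀ e : E, τ (algebraMap E F e) = algebraMap E F (τE e))
    (_ : ∀ r : R, τE (algebraMap R E r) = algebraMap R E (τR r))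
    (_ : τ x = x)
    (_ : ∃ r : ℕ, 0 < r ∧ ∀ f : F, (⇑τ)^[r] f = f)
    (_ : ∀ b ∈ Bf, ∃ c ∈ Bf, τ b - b = algebraMap R F w * c)
    (_ : ∀ b ∈ Bi, ∃ c ∈ Bi, τ b - b = algebraMap R F w * c),
    AlgSSConclusion E m τ

end Alg

/-! ## IF: good levels -/

/-- `R_E := P ∩ E`. -/
abbrev RE (P : ValuationSubring Qb) (E : IntermediateField ℚ Qb) : ValuationSubring E :=
  P.comap (algebraMap E Qb)

/-- A *good level* for `P`: an intermediate field `E ⊆ ℚ̄`, stable under the inertia group of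
`P`, such that `R_E = P ∩ E` is a henselian discrete valuation ring with algebraically closed
residue field on which the inertia group acts trivially modulo the maximal ideal.
(Example: every finite extension of the inertia field `ℚ̄^{I_P}` inside `ℚ̄`.) -/
structure GoodField (P : ValuationSubring Qb) (E : IntermediateField ℚ Qb) : Prop where
  stable : ∀ τ ∈ P.inertiaSubgroupIn ℚ, ∀ e : Qb, e ∈ E → τ e ∈ E
  dvr : IsDiscreteValuationRing (RE P E)
  henselian : HenselianLocalRing (RE P E)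
  algClosed : IsAlgClosed (IsLocalRing.ResidueField (RE P E))
  trivial_mod : ∀ τ ∈ P.inertiaSubgroupIn ℚ, ∀ e : Qb, e ∈ E → e ∈ P →
    τ e - e ∈ P.nonunits
  finite_order : ∀ τ ∈ P.inertiaSubgroupIn ℚ, ∃ r : ℕ, 0 < r ∧ ∀ e : Qb, e ∈ E →
    (⇑τ)^[r] e = e

/-- **IF (interface statement).**  Every finite set of algebraic numbers lies in a good level for
`P` (`E` = compositum of the inertia field `ℚ̄^{I_P}` and a finite normal extension of `ℚ`). -/
def IFStatement : Prop :=
  ∀ (q : ℕ) (_ : q.Prime) (P : ValuationSubring Qb) (_ : P.LiesOverPrime q) (S : Finset Qb),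
    ∃ E : IntermediateField ℚ Qb, (∀ s ∈ S, s ∈ E) ∧ GoodField P E

end Fermat.Agent.A2

end
end
-- ===== PACK-END A2/Spec.lean

-- ===== PACK-BEGIN A2/H48/TwoVal.lean
section


/-!
# A2 / piece QEP2, part 1 (helper48): two valuation rings with a common uniformiser

Mathlib-only.  `F` a field, `V₁ ≠ V₂` valuation subrings of `F` whose maximal ideals are both
generated by the same element `ϖ` (both "unramified" over a common base).

* `IsUnif V ϖ` : `ϖ ∈ V`, `ϖ⁻¹ ∉ V`, and every non-unit of `V` is divisible by `ϖ` in `V`;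
* `exists_separating` : there is `c` with `c ∈ 𝔪₁` and `c⁻¹ ∈ 𝔪₂`;
* `exists_approx` : for `f ∈ V₁` with `ϖ ^ k * f ∈ V₂` there is `g ∈ V₁ ∩ V₂` with
  `g ≡ f mod ϖ V₁` and `g ∈ ϖ V₂` (explicit weak approximation).
-/

set_option autoImplicit false

namespace Fermat.Agent.A2.H48

variable {F : Type*} [Field F]

/-- `ϖ` generates the maximal ideal of the valuation subring `V` (elementwise form). -/
structure IsUnif (V : ValuationSubring F) (ϖ : F) : Prop where
  mem : ϖ ∈ V
  inv_not_mem : ϖ⁻¹ ∉ V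
  gen : ∀ f ∈ V, f⁻¹ ∉ V → f * ϖ⁻¹ ∈ V

namespace IsUnif

variable {V : ValuationSubring F} {ϖ : F}

theorem ne_zero (h : IsUnif V ϖ) : ϖ ≠ 0 := by
  rintro rfl
  exact h.inv_not_mem (by simp)

theorem val_lt_one (h : IsUnif V ϖ) : V.valuation ϖ < 1 := by
  have h1 : V.valuation ϖ ≤ 1 := (V.valuation_le_one_iff ϖ).2 h.mem
  rcases lt_or_eq_of_le h1 with h2 | h2
  · exact h2
  · exfalso
    apply h.inv_not_mem
    rw [← V.valuation_le_one_iff, map_inv₀, h2, inv_one]

theorem val_ne_zero (h : IsUnif V ϖ) : V.valuation ϖ ≠ 0 :=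
  (Valuation.ne_zero_iff _).2 h.ne_zero

theorem val_le_of_lt_one (h : IsUnif V ϖ) {f : F} (hf : V.valuation f < 1) :
    V.valuation f ≤ V.valuation ϖ := by
  by_cases hf0 : f = 0
  · subst hf0; simp
  have hfV : f ∈ V := (V.valuation_le_one_iff f).1 hf.le
  have hfinv : f⁻¹ ∉ V := by
    intro hmem
    have h1 : V.valuation f⁻¹ ≤ 1 := (V.valuation_le_one_iff _).2 hmem
    rw [map_inv₀] at h1
    have h2 : V.valuation f ≠ 0 := (Valuation.ne_zero_iff _).2 hf0
    have h3 : 1 ≤ V.valuation f := by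
      rwa [inv_le_one₀ (zero_lt_iff.2 h2)] at h1
    exact absurd hf (not_lt.2 h3)
  have h4 := h.gen f hfV hfinv
  have h5 : V.valuation (f * ϖ⁻¹) ≤ 1 := (V.valuation_le_one_iff _).2 h4
  rw [map_mul, map_inv₀] at h5
  rwa [mul_inv_le_iff₀ (zero_lt_iff.2 h.val_ne_zero), one_mul] at h5

/-- membership in `ϖ V` in terms of the valuation -/
theorem mul_inv_mem_iff (h : IsUnif V ϖ) {f : F} :
    f * ϖ⁻¹ ∈ V ↔ V.valuation f < 1 := by
  rw [← V.valuation_le_one_iff, map_mul, map_inv₀,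
    mul_inv_le_iff₀ (zero_lt_iff.2 h.val_ne_zero), one_mul]
  constructor
  · intro h1; exact lt_of_le_of_lt h1 h.val_lt_one
  · intro h1; exact h.val_le_of_lt_one h1

theorem pow_mul_inv_mem (h : IsUnif V ϖ) {f : F} (k : ℕ) (hf : V.valuation f ≤ V.valuation ϖ ^ k) :
    f * (ϖ ^ k)⁻¹ ∈ V := by
  rw [← V.valuation_le_one_iff, map_mul, map_inv₀, map_pow,
    mul_inv_le_iff₀ (pow_pos (zero_lt_iff.2 h.val_ne_zero) k), one_mul]
  exact hf

end IsUnif

section Two

variable {V₁ V₂ : ValuationSubring F} {ϖ : F}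

theorem not_le_of_ne (h₁ : IsUnif V₁ ϖ) (h₂ : IsUnif V₂ ϖ) (hne : V₁ ≠ V₂) : ¬ V₁ ≤ V₂ := by
  intro hle
  have : ¬ V₂ ≤ V₁ := fun h => hne (le_antisymm hle h)
  obtain ⟨b, hb2, hb1⟩ := SetLike.not_le_iff_exists.1 this
  have hb0 : b ≠ 0 := by rintro rfl; exact hb1 (zero_mem _)
  have hv1 : 1 < V₁.valuation b := by
    rw [← not_le, V₁.valuation_le_one_iff]; exact hb1
  have hv1' : V₁.valuation b⁻¹ < 1 := by
    rw [map_inv₀]
    exact inv_lt_one_of_one_lt₀ hv1
  have h3 : b⁻¹ * ϖ⁻¹ ∈ V₁ := h₁.mul_inv_mem_iff.2 hv1'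
  have h4 : b⁻¹ * ϖ⁻¹ ∈ V₂ := hle h3
  apply h₂.inv_not_mem
  have : ϖ⁻¹ = b * (b⁻¹ * ϖ⁻¹) := by field_simp
  rw [this]
  exact mul_mem hb2 h4

/-- Two distinct valuation rings with the same uniformiser are incomparable: there is `c` in the
maximal ideal of `V₁` whose inverse lies in the maximal ideal of `V₂`. -/
theorem exists_separating (h₁ : IsUnif V₁ ϖ) (h₂ : IsUnif V₂ ϖ) (hne : V₁ ≠ V₂) :
    ∃ c : F, c ≠ 0 ∧ V₁.valuation c < 1 ∧ V₂.valuation c⁻¹ < 1 := by
  obtain ⟨a, ha1, ha2⟩ := SetLike.not_le_iff_exists.1 (not_le_of_ne h₁ h₂ hne)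
  obtain ⟨b, hb2, hb1⟩ := SetLike.not_le_iff_exists.1 (not_le_of_ne h₂ h₁ (Ne.symm hne))
  have ha0 : a ≠ 0 := by rintro rfl; exact ha2 (zero_mem _)
  have hb0 : b ≠ 0 := by rintro rfl; exact hb1 (zero_mem _)
  have hv1a : V₁.valuation a ≤ 1 := (V₁.valuation_le_one_iff a).2 ha1
  have hv2b : V₂.valuation b ≤ 1 := (V₂.valuation_le_one_iff b).2 hb2
  have hv1b : 1 < V₁.valuation b := by
    rw [← not_le, V₁.valuation_le_one_iff]; exact hb1
  have hv2a : 1 < V₂.valuation a := by
    rw [← not_le, V₂.valuation_le_one_iff]; exact ha2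
  refine ⟨a * b⁻¹, mul_ne_zero ha0 (inv_ne_zero hb0), ?_, ?_⟩
  · rw [map_mul, map_inv₀]
    calc V₁.valuation a * (V₁.valuation b)⁻¹ ≤ 1 * (V₁.valuation b)⁻¹ :=
          mul_le_mul_left hv1a _
      _ < 1 := by rw [one_mul]; exact inv_lt_one_of_one_lt₀ hv1b
  · rw [mul_inv, inv_inv, map_mul, map_inv₀]
    calc (V₂.valuation a)⁻¹ * V₂.valuation b ≤ (V₂.valuation a)⁻¹ * 1 :=
          mul_le_mul_right hv2b _
      _ < 1 := by rw [mul_one]; exact inv_lt_one_of_one_lt₀ hv2a

/-- Explicit weak approximation: an element `f ∈ V₁` can be corrected, modulo `ϖ V₁`, to an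
element of `V₁ ∩ ϖ V₂`. -/
theorem exists_approx (h₁ : IsUnif V₁ ϖ) (h₂ : IsUnif V₂ ϖ) (hne : V₁ ≠ V₂)
    {f : F} (hf : f ∈ V₁) {k : ℕ} (hk : ϖ ^ k * f ∈ V₂) :
    ∃ g : F, g ∈ V₁ ∧ (g - f) * ϖ⁻¹ ∈ V₁ ∧ g * ϖ⁻¹ ∈ V₂ := by
  obtain ⟨c, hc0, hc1, hc2⟩ := exists_separating h₁ h₂ hne
  set n := k + 1 with hn
  have hcn1 : V₁.valuation (c ^ n) < 1 := by
    rw [map_pow]; exact pow_lt_one₀ zero_le hc1 (by omega)
  have hcn2 : V₂.valuation ((c⁻¹) ^ n) < 1 := by
    rw [map_pow]; exact pow_lt_one₀ zero_le hc2 (by omega)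
  have hu1 : V₁.valuation (1 + c ^ n) = 1 := Valuation.map_one_add_of_lt _ hcn1
  have hu2 : V₂.valuation (1 + (c⁻¹) ^ n) = 1 := Valuation.map_one_add_of_lt _ hcn2
  have hne1 : 1 + c ^ n ≠ 0 := by
    intro h; rw [h, map_zero] at hu1; exact zero_ne_one hu1
  have hne2 : 1 + (c⁻¹) ^ n ≠ 0 := by
    intro h; rw [h, map_zero] at hu2; exact zero_ne_one hu2
  set e := (1 + c ^ n)⁻¹ with he
  have he1 : V₁.valuation e = 1 := by rw [he, map_inv₀, hu1, inv_one]
  have hee : e - 1 = -(c ^ n) * e := by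
    rw [he]; field_simp; ring
  have he1' : V₁.valuation (e - 1) < 1 := by
    rw [hee, map_mul, Valuation.map_neg, he1, mul_one]; exact hcn1
  have hee2 : e = (c⁻¹) ^ n * (1 + (c⁻¹) ^ n)⁻¹ := by
    have hcn0 : c ^ n ≠ 0 := pow_ne_zero _ hc0
    have h3 : 1 + (c ^ n)⁻¹ ≠ 0 := by rwa [inv_pow] at hne2
    rw [he, inv_pow, eq_comm, ← div_eq_mul_inv, div_eq_iff h3, ← div_eq_inv_mul, 
      eq_div_iff hne1]
    field_simp
    ring
  have he2 : V₂.valuation e ≤ V₂.valuation ϖ ^ n := by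
    rw [hee2, map_mul, map_inv₀, hu2, inv_one, mul_one, map_pow]
    exact pow_le_pow_left₀ zero_le (h₂.val_le_of_lt_one hc2) n
  refine ⟨f * e, ?_, ?_, ?_⟩
  · exact mul_mem hf ((V₁.valuation_le_one_iff e).1 he1.le)
  · rw [h₁.mul_inv_mem_iff]
    have : f * e - f = f * (e - 1) := by ring
    rw [this, map_mul]
    calc V₁.valuation f * V₁.valuation (e - 1) ≤ 1 * V₁.valuation (e - 1) :=
          mul_le_mul_left ((V₁.valuation_le_one_iff f).2 hf) _
      _ < 1 := by rw [one_mul]; exact he1'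
  · rw [h₂.mul_inv_mem_iff]
    have hk' : V₂.valuation ϖ ^ k * V₂.valuation f ≤ 1 := by
      have := (V₂.valuation_le_one_iff _).2 hk
      rwa [map_mul, map_pow] at this
    rw [map_mul]
    calc V₂.valuation f * V₂.valuation e ≤ V₂.valuation f * V₂.valuation ϖ ^ n :=
          mul_le_mul_right he2 _
      _ = (V₂.valuation ϖ ^ k * V₂.valuation f) * V₂.valuation ϖ := by
          rw [hn, pow_succ, mul_comm (V₂.valuation ϖ ^ k) (V₂.valuation f), mul_assoc]
      _ ≤ 1 * V₂.valuation ϖ := mul_le_mul_left hk' _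
      _ < 1 := by rw [one_mul]; exact h₂.val_lt_one

end Two

end Fermat.Agent.A2.H48

end
-- ===== PACK-END A2/H48/TwoVal.lean

-- ===== PACK-BEGIN A2/H372/Transversal.lean
section


/-!
# A2 / T-ALG : abstract transversality at the crossing points (helper372)

Mathlib-only commutative algebra.  Intended instance (helper609 memo `coord/A2-helper609.md`, (T)):

* `A = B_M`, `B = B_N` (`N = qM`): integral closures of `R[j]` in the function fields of level
  `M` and `N` over a DVR `R` (uniformiser `w`, residue characteristic `q`);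
* `α β : A →+* B` the two degeneracy maps (`j_d ↦ j_d`, `j_d ↦ j_{qd}`);
* `P₁ P₂` the centres on `B` of the two Gauss valuations (`P₁ ⊓ P₂ = wB`);
* `n` a maximal ideal of `B` containing `P₁` and `P₂` (a crossing point).

The Kronecker congruences are used in the SEMILINEAR form `KronCong`:
`∀ a, ∃ a', β a - (α a') ^ q ∈ P₁` and `∀ a, ∃ a', α a - (β a') ^ q ∈ P₂`
(over `ℤ_(q)` one takes `a' = a`; over a general `R` one takes for `a'` a lift of the
coefficientwise inverse Frobenius of `a`), so no `𝔽_q`-structure and no base change is needed.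

Main results (all elementwise, no localisation needed to state them):

* `KronCong.exists_transversal` : a local generator `α a₀` of the branch `B/P₁` at `n` is,
  up to a unit at `n` and modulo `P₁`, an element `f ∈ P₂`.
* `KronCong.exists_local_gen`   : `n = (f) + P₁` locally at `n`, with `f ∈ P₂`.
* `KronCong.exists_node`        : node datum `f ∈ P₂`, `g ∈ P₁` with
  `n = (f, g) + P₁ ⊓ P₂`, `P₁ = (g) + P₁ ⊓ P₂`, `P₂ = (f) + P₁ ⊓ P₂` locally at `n`.
* `exists_smooth_gen`           : at a point of `P₁` not on `P₂`: `n = (α a₀) + P₁ ⊓ P₂` locally.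
* `exists_isBranchUnif_of_isDedekindDomain` : the local generator `a₀` exists when
  `A ⧸ comap α P₁` is a Dedekind domain.
* `surjective_of_birational_of_integral` : `α` is onto `B/P₁` (finite birational onto normal).
* localised forms `KronCong.maximalIdeal_eq_span_node`.
-/

set_option autoImplicit false

namespace Fermat.Agent.A2.H372

open Ideal

variable {A B : Type*} [CommRing A] [CommRing B]

/-- Semilinear Kronecker congruences between two ring homomorphisms `α β : A →+* B`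
modulo two ideals `P₁ P₂` of `B`. -/
structure KronCong (q : ℕ) (α β : A →+* B) (P₁ P₂ : Ideal B) : Prop where
  cong₁ : ∀ a : A, ∃ a' : A, β a - (α a') ^ q ∈ P₁
  cong₂ : ∀ a : A, ∃ a' : A, α a - (β a') ^ q ∈ P₂

theorem KronCong.symm {q : ℕ} {α β : A →+* B} {P₁ P₂ : Ideal B}
    (h : KronCong q α β P₁ P₂) : KronCong q β α P₂ P₁ :=
  ⟨h.cong₂, h.cong₁⟩

/-- The linear Kronecker congruences (`a' = a`) give a `KronCong`. -/
theorem KronCong.of_linear {q : ℕ} {α β : A →+* B} {P₁ P₂ : Ideal B}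
    (h₁ : ∀ a : A, β a - (α a) ^ q ∈ P₁) (h₂ : ∀ a : A, α a - (β a) ^ q ∈ P₂) :
    KronCong q α β P₁ P₂ :=
  ⟨fun a => ⟨a, h₁ a⟩, fun a => ⟨a, h₂ a⟩⟩

/-- `a₀` is a local generator at `n` of the branch `B/P` parametrised by `α`:
`α a₀ ∈ n` and every `α a ∈ n` is, up to a factor `α s ∉ n` and modulo `P`, a multiple
of `α a₀`. -/
def IsBranchUnif (α : A →+* B) (P n : Ideal B) (a₀ : A) : Prop :=
  α a₀ ∈ n ∧ ∀ a : A, α a ∈ n → ∃ s y : A, α s ∉ n ∧ α s * α a - α a₀ * α y ∈ P

theorem pow_sub_pow_mem_of_sub_mem {I : Ideal B} {x y : B} (h : x - y ∈ I) (k : ℕ) :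
    x ^ k - y ^ k ∈ I := by
  obtain ⟨c, hc⟩ := sub_dvd_pow_sub_pow x y k
  rw [hc]
  exact I.mul_mem_right c h

/-- **Transversality, core.**  A local generator `α a₀` of the first branch at a crossing
point `n` agrees modulo `P₁`, up to a factor `u ∉ n`, with an element `f` of `P₂`. -/
theorem KronCong.exists_transversal {q : ℕ} (hq : 2 ≤ q) {α β : A →+* B}
    {P₁ P₂ n : Ideal B} [n.IsPrime] (hP₁ : P₁ ≤ n) (hP₂ : P₂ ≤ n)
    (h : KronCong q α β P₁ P₂) {a₀ : A} (ha₀ : IsBranchUnif α P₁ n a₀) :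
    ∃ f ∈ P₂, ∃ u : B, u ∉ n ∧ f - u * α a₀ ∈ P₁ := by
  obtain ⟨a₁, h₁⟩ := h.cong₂ a₀
  obtain ⟨a₂, h₂⟩ := h.cong₁ a₁
  have hq0 : q ≠ 0 := by omega
  have hβ : β a₁ ∈ n := by
    have : (β a₁) ^ q ∈ n := by
      have := n.sub_mem ha₀.1 (hP₂ h₁)
      simpa using this
    exact Ideal.IsPrime.mem_of_pow_mem inferInstance q this
  have hα₂ : α a₂ ∈ n := by
    have : (α a₂) ^ q ∈ n := by
      have := n.sub_mem hβ (hP₁ h₂)
      simpa using this
    exact Ideal.IsPrime.mem_of_pow_mem inferInstance q this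
  obtain ⟨s, y, hs, hsy⟩ := ha₀.2 a₂ hα₂
  have hQ : 1 ≤ q ^ 2 := Nat.one_le_pow _ _ (by omega)
  refine ⟨(α s) ^ (q ^ 2) * (α a₀ - (β a₁) ^ q), P₂.mul_mem_left _ h₁,
    (α s) ^ (q ^ 2) - (α a₀) ^ (q ^ 2 - 1) * (α y) ^ (q ^ 2), ?_, ?_⟩
  · intro hu
    have h1 : (α a₀) ^ (q ^ 2 - 1) ∈ n := by
      have hpos : q ^ 2 - 1 ≠ 0 := by
        have : 4 ≤ q ^ 2 := by nlinarith
        omega
      exact Ideal.pow_mem_of_mem n ha₀.1 _ (Nat.pos_of_ne_zero hpos)
    have h2 : (α s) ^ (q ^ 2) ∈ n := by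
      have := n.add_mem hu (n.mul_mem_right ((α y) ^ (q ^ 2)) h1)
      simpa using this
    exact hs (Ideal.IsPrime.mem_of_pow_mem inferInstance _ h2)
  · have e1 : ((β a₁) ^ q) - ((α a₂) ^ q) ^ q ∈ P₁ := pow_sub_pow_mem_of_sub_mem h₂ q
    have e2 : (α s * α a₂) ^ (q ^ 2) - (α a₀ * α y) ^ (q ^ 2) ∈ P₁ :=
      pow_sub_pow_mem_of_sub_mem hsy (q ^ 2)
    have hpow : (α a₀) ^ (q ^ 2 - 1) * α a₀ = (α a₀) ^ (q ^ 2) := by
      rw [← pow_succ, Nat.sub_add_cancel hQ]
    have key : (α s) ^ (q ^ 2) * (α a₀ - (β a₁) ^ q)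
        - ((α s) ^ (q ^ 2) - (α a₀) ^ (q ^ 2 - 1) * (α y) ^ (q ^ 2)) * α a₀
        = -((α s) ^ (q ^ 2) * ((β a₁) ^ q - ((α a₂) ^ q) ^ q))
          - ((α s * α a₂) ^ (q ^ 2) - (α a₀ * α y) ^ (q ^ 2)) := by
      have hp2 : ((α a₂) ^ q) ^ q = (α a₂) ^ (q ^ 2) := by rw [← pow_mul, sq]
      rw [hp2, mul_pow, mul_pow, ← hpow]
      ring
    rw [key]
    exact P₁.sub_mem (P₁.neg_mem (P₁.mul_mem_left _ e1)) e2

/-- **Transversality.**  If moreover `α` is onto `B/P₁`, then locally at the crossing point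
`n` one has `n = (f) + P₁` with `f ∈ P₂`; in particular `n = P₁ + P₂` locally at `n`. -/
theorem KronCong.exists_local_gen {q : ℕ} (hq : 2 ≤ q) {α β : A →+* B}
    {P₁ P₂ n : Ideal B} [n.IsPrime] (hP₁ : P₁ ≤ n) (hP₂ : P₂ ≤ n)
    (h : KronCong q α β P₁ P₂) (hα : ∀ b : B, ∃ a : A, b - α a ∈ P₁)
    {a₀ : A} (ha₀ : IsBranchUnif α P₁ n a₀) :
    ∃ f ∈ P₂, ∀ x ∈ n, ∃ t : B, t ∉ n ∧ ∃ z : B, t * x - f * z ∈ P₁ := by
  obtain ⟨f, hf, u, hu, hfu⟩ := h.exists_transversal hq hP₁ hP₂ ha₀
  refine ⟨f, hf, fun x hx => ?_⟩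
  obtain ⟨a, ha⟩ := hα x
  have han : α a ∈ n := by
    have := n.sub_mem hx (hP₁ ha)
    simpa using this
  obtain ⟨s, y, hs, hsy⟩ := ha₀.2 a han
  refine ⟨u * α s, fun hmem => ?_, α y, ?_⟩
  · rcases Ideal.IsPrime.mem_or_mem inferInstance hmem with h' | h'
    · exact hu h'
    · exact hs h'
  · have key : u * α s * x - f * α y
        = u * α s * (x - α a) + u * (α s * α a - α a₀ * α y) - (f - u * α a₀) * α y := by
      ring
    rw [key]
    exact P₁.sub_mem (P₁.add_mem (P₁.mul_mem_left _ ha) (P₁.mul_mem_left _ hsy))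
      (P₁.mul_mem_right _ hfu)

/-- `P₁ + P₂` is the maximal ideal locally at a crossing point. -/
theorem KronCong.mem_sup_of_mem {q : ℕ} (hq : 2 ≤ q) {α β : A →+* B}
    {P₁ P₂ n : Ideal B} [n.IsPrime] (hP₁ : P₁ ≤ n) (hP₂ : P₂ ≤ n)
    (h : KronCong q α β P₁ P₂) (hα : ∀ b : B, ∃ a : A, b - α a ∈ P₁)
    {a₀ : A} (ha₀ : IsBranchUnif α P₁ n a₀) {x : B} (hx : x ∈ n) :
    ∃ t : B, t ∉ n ∧ t * x ∈ P₁ ⊔ P₂ := by
  obtain ⟨f, hf, hloc⟩ := h.exists_local_gen hq hP₁ hP₂ hα ha₀
  obtain ⟨t, ht, z, hz⟩ := hloc x hx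
  refine ⟨t, ht, ?_⟩
  have : t * x = (t * x - f * z) + f * z := by ring
  rw [this]
  exact Ideal.add_mem _ (Ideal.mem_sup_left hz) (Ideal.mem_sup_right (P₂.mul_mem_right _ hf))

/-- **Node datum at a crossing point.**  There are `f ∈ P₂`, `g ∈ P₁` such that, locally at
`n` and modulo `P₁ ⊓ P₂` (`= wB` in the application): `n = (f, g)`, `P₁ = (g)`, `P₂ = (f)`;
and `f * g ∈ P₁ ⊓ P₂`. -/
theorem KronCong.exists_node {q : ℕ} (hq : 2 ≤ q) {α β : A →+* B}
    {P₁ P₂ n : Ideal B} [n.IsPrime] (hP₁ : P₁ ≤ n) (hP₂ : P₂ ≤ n)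
    (h : KronCong q α β P₁ P₂)
    (hα : ∀ b : B, ∃ a : A, b - α a ∈ P₁) (hβ : ∀ b : B, ∃ a : A, b - β a ∈ P₂)
    {a₀ b₀ : A} (ha₀ : IsBranchUnif α P₁ n a₀) (hb₀ : IsBranchUnif β P₂ n b₀) :
    ∃ f g : B, f ∈ P₂ ∧ g ∈ P₁ ∧ f * g ∈ P₁ ⊓ P₂ ∧
      (∀ x ∈ n, ∃ t : B, t ∉ n ∧ ∃ y z : B, t * x - (f * y + g * z) ∈ P₁ ⊓ P₂) ∧
      (∀ x ∈ P₁, ∃ t : B, t ∉ n ∧ ∃ z : B, t * x - g * z ∈ P₁ ⊓ P₂) ∧
      (∀ x ∈ P₂, ∃ t : B, t ∉ n ∧ ∃ y : B, t * x - f * y ∈ P₁ ⊓ P₂) := by
  obtain ⟨f, hf, hlocf⟩ := h.exists_local_gen hq hP₁ hP₂ hα ha₀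
  obtain ⟨g, hg, hlocg⟩ := h.symm.exists_local_gen hq hP₂ hP₁ hβ hb₀
  have hP1 : ∀ x ∈ P₁, ∃ t : B, t ∉ n ∧ ∃ z : B, t * x - g * z ∈ P₁ ⊓ P₂ := by
    intro x hx
    obtain ⟨t, ht, z, hz⟩ := hlocg x (hP₁ hx)
    exact ⟨t, ht, z, ⟨P₁.sub_mem (P₁.mul_mem_left _ hx) (P₁.mul_mem_right _ hg), hz⟩⟩
  have hP2 : ∀ x ∈ P₂, ∃ t : B, t ∉ n ∧ ∃ y : B, t * x - f * y ∈ P₁ ⊓ P₂ := by
    intro x hx
    obtain ⟨t, ht, z, hz⟩ := hlocf x (hP₂ hx)
    exact ⟨t, ht, z, ⟨hz, P₂.sub_mem (P₂.mul_mem_left _ hx) (P₂.mul_mem_right _ hf)⟩⟩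
  refine ⟨f, g, hf, hg, ⟨P₁.mul_mem_left _ hg, P₂.mul_mem_right _ hf⟩, ?_, hP1, hP2⟩
  intro x hx
  obtain ⟨t, ht, y, hy⟩ := hlocf x hx
  obtain ⟨t', ht', z, hz⟩ := hP1 _ hy
  refine ⟨t' * t, fun hmem => ?_, t' * y, z, ?_⟩
  · rcases Ideal.IsPrime.mem_or_mem inferInstance hmem with h' | h'
    · exact ht' h'
    · exact ht h'
  · have key : t' * t * x - (f * (t' * y) + g * z) = t' * (t * x - f * y) - g * z := by ring
    rw [key]
    exact hz

/-- **Smooth points.**  At a point `n` of the first branch which is not on the second one,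
`n = (α a₀) + P₁ ⊓ P₂` locally at `n`. -/
theorem exists_smooth_gen {α : A →+* B} {P₁ P₂ n : Ideal B} [n.IsPrime]
    (hP₁ : P₁ ≤ n) (hP₂ : ¬ P₂ ≤ n) (hα : ∀ b : B, ∃ a : A, b - α a ∈ P₁)
    {a₀ : A} (ha₀ : IsBranchUnif α P₁ n a₀) :
    ∀ x ∈ n, ∃ t : B, t ∉ n ∧ ∃ z : B, t * x - α a₀ * z ∈ P₁ ⊓ P₂ := by
  intro x hx
  obtain ⟨e, he, hen⟩ := SetLike.not_le_iff_exists.mp hP₂
  obtain ⟨a, ha⟩ := hα x
  have han : α a ∈ n := by
    have := n.sub_mem hx (hP₁ ha)
    simpa using this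
  obtain ⟨s, y, hs, hsy⟩ := ha₀.2 a han
  refine ⟨e * α s, fun hmem => ?_, e * α y, ?_⟩
  · rcases Ideal.IsPrime.mem_or_mem inferInstance hmem with h' | h'
    · exact hen h'
    · exact hs h'
  · have key : e * α s * x - α a₀ * (e * α y)
        = e * (α s * (x - α a) + (α s * α a - α a₀ * α y)) := by ring
    rw [key]
    exact ⟨P₁.mul_mem_left _ (P₁.add_mem (P₁.mul_mem_left _ ha) hsy), P₂.mul_mem_right _ he⟩

/-! ### Existence of the local generator on a Dedekind branch -/

/-- In a Dedekind domain every prime ideal is locally principal, in elementwise form. -/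
theorem exists_local_generator_of_isDedekindDomain (D : Type*) [CommRing D]
    [IsDedekindDomain D] (m : Ideal D) [m.IsPrime] :
    ∃ a₀ ∈ m, ∀ a ∈ m, ∃ s y : D, s ∉ m ∧ s * a = a₀ * y := by
  by_cases hm : m = ⊥
  · refine ⟨0, m.zero_mem, fun a ha => ⟨1, 0, ?_, ?_⟩⟩
    · exact fun h1 => (Ideal.IsPrime.ne_top inferInstance) ((Ideal.eq_top_iff_one m).mpr h1)
    · rw [hm] at ha
      rw [Ideal.mem_bot.mp ha]
      simp
  · let L := Localization.AtPrime m
    have : IsDiscreteValuationRing L :=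
      IsLocalization.AtPrime.isDiscreteValuationRing_of_dedekind_domain D hm L
    obtain ⟨ϖ, hϖ⟩ := IsDiscreteValuationRing.exists_irreducible L
    obtain ⟨a₀, s₀, rfl⟩ := IsLocalization.exists_mk'_eq m.primeCompl ϖ
    have hs₀ : IsUnit (algebraMap D L (s₀ : D)) := IsLocalization.map_units L s₀
    have hmax : IsLocalRing.maximalIdeal L = Ideal.span {algebraMap D L a₀} := by
      rw [hϖ.maximalIdeal_eq]
      apply Ideal.span_singleton_eq_span_singleton.mpr
      refine ⟨hs₀.unit, ?_⟩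
      simp [IsLocalization.mk'_spec]
    have hinj : Function.Injective (algebraMap D L) :=
      IsLocalization.injective L (Ideal.primeCompl_le_nonZeroDivisors m)
    have ha₀ : a₀ ∈ m := by
      rw [← IsLocalization.AtPrime.to_map_mem_maximal_iff L m a₀, hmax]
      exact Ideal.mem_span_singleton_self _
    refine ⟨a₀, ha₀, fun a ha => ?_⟩
    have : algebraMap D L a ∈ Ideal.span {algebraMap D L a₀} := by
      rw [← hmax]
      exact (IsLocalization.AtPrime.to_map_mem_maximal_iff L m a).mpr ha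
    obtain ⟨c, hc⟩ := Ideal.mem_span_singleton'.mp this
    obtain ⟨y, s, rfl⟩ := IsLocalization.exists_mk'_eq m.primeCompl c
    refine ⟨s, y, s.2, hinj ?_⟩
    rw [_root_.map_mul, _root_.map_mul, ← hc, ← IsLocalization.mk'_spec L y s]
    ring

/-- If the branch `A ⧸ comap α P` is a Dedekind domain, every prime `n ⊇ P` of `B` has a
local generator in the sense of `IsBranchUnif`. -/
theorem exists_isBranchUnif_of_isDedekindDomain (α : A →+* B) (P n : Ideal B) [n.IsPrime]
    (hP : P ≤ n) [IsDedekindDomain (A ⧸ Ideal.comap α P)] :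
    ∃ a₀ : A, IsBranchUnif α P n a₀ := by
  have hle : Ideal.comap α P ≤ Ideal.comap α n := Ideal.comap_mono hP
  let ψ : A ⧸ Ideal.comap α P →+* B ⧸ n := Ideal.quotientMap n α hle
  let m : Ideal (A ⧸ Ideal.comap α P) := RingHom.ker ψ
  have : m.IsPrime := RingHom.ker_isPrime ψ
  have hmem : ∀ a : A, Ideal.Quotient.mk (Ideal.comap α P) a ∈ m ↔ α a ∈ n := by
    intro a
    simp only [m, ψ, RingHom.mem_ker, Ideal.quotientMap_mk, Ideal.Quotient.eq_zero_iff_mem]
  obtain ⟨a₀', ha₀', hgen⟩ := exists_local_generator_of_isDedekindDomain _ m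
  obtain ⟨a₀, rfl⟩ := Ideal.Quotient.mk_surjective a₀'
  refine ⟨a₀, (hmem a₀).mp ha₀', fun a ha => ?_⟩
  obtain ⟨s', y', hs', hsy'⟩ := hgen _ ((hmem a).mpr ha)
  obtain ⟨s, rfl⟩ := Ideal.Quotient.mk_surjective s'
  obtain ⟨y, rfl⟩ := Ideal.Quotient.mk_surjective y'
  refine ⟨s, y, fun h => hs' ((hmem s).mpr h), ?_⟩
  have h0 : Ideal.Quotient.mk (Ideal.comap α P) (s * a - a₀ * y) = 0 := by
    rw [map_sub, _root_.map_mul, _root_.map_mul, hsy', sub_self]
  have := Ideal.Quotient.eq_zero_iff_mem.mp h0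
  rw [Ideal.mem_comap, map_sub, _root_.map_mul, _root_.map_mul] at this
  exact this

/-! ### Localised forms -/

section Localised

variable (R : Type*) [CommRing R] [Algebra B R]

/-- If every element of `n` lies in `J` up to a factor outside `n`, then `n` and `J` generate
the same ideal in the localisation at `n`. -/
theorem map_eq_map_of_local {n J : Ideal B} [n.IsPrime] [IsLocalization.AtPrime R n]
    (hJ : J ≤ n) (h : ∀ x ∈ n, ∃ t : B, t ∉ n ∧ t * x ∈ J) :
    Ideal.map (algebraMap B R) n = Ideal.map (algebraMap B R) J := by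
  refine le_antisymm ?_ (Ideal.map_mono hJ)
  rw [Ideal.map_le_iff_le_comap]
  intro x hx
  obtain ⟨t, ht, htx⟩ := h x hx
  have hu : IsUnit (algebraMap B R t) :=
    IsLocalization.map_units R (⟨t, ht⟩ : n.primeCompl)
  rw [Ideal.mem_comap]
  have hmem : algebraMap B R t * algebraMap B R x ∈ Ideal.map (algebraMap B R) J := by
    rw [← _root_.map_mul]
    exact Ideal.mem_map_of_mem _ htx
  exact (Ideal.unit_mul_mem_iff_mem _ hu).mp hmem

/-- **Node datum, localised form.**  In the local ring `R = B_n` at a crossing point: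
`𝔪 = (f, g) + (P₁ ⊓ P₂)R`, `P₁R = (g) + (P₁ ⊓ P₂)R`, `P₂R = (f) + (P₁ ⊓ P₂)R`. -/
theorem KronCong.map_eq_span_node {q : ℕ} (hq : 2 ≤ q) {α β : A →+* B}
    {P₁ P₂ n : Ideal B} [n.IsPrime] [IsLocalization.AtPrime R n]
    (hP₁ : P₁ ≤ n) (hP₂ : P₂ ≤ n) (h : KronCong q α β P₁ P₂)
    (hα : ∀ b : B, ∃ a : A, b - α a ∈ P₁) (hβ : ∀ b : B, ∃ a : A, b - β a ∈ P₂)
    {a₀ b₀ : A} (ha₀ : IsBranchUnif α P₁ n a₀) (hb₀ : IsBranchUnif β P₂ n b₀) :
    ∃ f g : B, f ∈ P₂ ∧ g ∈ P₁ ∧ f * g ∈ P₁ ⊓ P₂ ∧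
      Ideal.map (algebraMap B R) n =
        Ideal.span {algebraMap B R f, algebraMap B R g}
          ⊔ Ideal.map (algebraMap B R) (P₁ ⊓ P₂) ∧
      Ideal.map (algebraMap B R) P₁ =
        Ideal.span {algebraMap B R g} ⊔ Ideal.map (algebraMap B R) (P₁ ⊓ P₂) ∧
      Ideal.map (algebraMap B R) P₂ =
        Ideal.span {algebraMap B R f} ⊔ Ideal.map (algebraMap B R) (P₁ ⊓ P₂) := by
  obtain ⟨f, g, hf, hg, hfg, hn, h1, h2⟩ := h.exists_node hq hP₁ hP₂ hα hβ ha₀ hb₀
  refine ⟨f, g, hf, hg, hfg, ?_, ?_, ?_⟩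
  · have hJ : Ideal.span {f, g} ⊔ (P₁ ⊓ P₂) ≤ n := by
      refine sup_le ?_ (inf_le_left.trans hP₁)
      rw [Ideal.span_le]
      rintro x (rfl | rfl)
      · exact hP₂ hf
      · exact hP₁ hg
    rw [map_eq_map_of_local R hJ, Ideal.map_sup, Ideal.map_span, Set.image_pair]
    intro x hx
    obtain ⟨t, ht, y, z, hyz⟩ := hn x hx
    refine ⟨t, ht, ?_⟩
    have : t * x = (f * y + g * z) + (t * x - (f * y + g * z)) := by ring
    rw [this]
    refine Ideal.add_mem _ (Ideal.mem_sup_left ?_) (Ideal.mem_sup_right hyz)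
    exact Ideal.add_mem _
      (Ideal.mul_mem_right _ _ (Ideal.subset_span (Set.mem_insert _ _)))
      (Ideal.mul_mem_right _ _ (Ideal.subset_span (Set.mem_insert_of_mem _ rfl)))
  · refine le_antisymm ?_ ?_
    · rw [Ideal.map_le_iff_le_comap]
      intro x hx
      obtain ⟨t, ht, z, hz⟩ := h1 x hx
      have hu : IsUnit (algebraMap B R t) :=
        IsLocalization.map_units R (⟨t, ht⟩ : n.primeCompl)
      rw [Ideal.mem_comap]
      refine (Ideal.unit_mul_mem_iff_mem _ hu).mp ?_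
      have : algebraMap B R t * algebraMap B R x
          = algebraMap B R g * algebraMap B R z + algebraMap B R (t * x - g * z) := by
        simp only [map_sub, _root_.map_mul]; ring
      rw [this]
      exact Ideal.add_mem _
        (Ideal.mem_sup_left (Ideal.mul_mem_right _ _ (Ideal.mem_span_singleton_self _)))
        (Ideal.mem_sup_right (Ideal.mem_map_of_mem _ hz))
    · refine sup_le ?_ (Ideal.map_mono inf_le_left)
      rw [Ideal.span_le, Set.singleton_subset_iff]
      exact Ideal.mem_map_of_mem _ hg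
  · refine le_antisymm ?_ ?_
    · rw [Ideal.map_le_iff_le_comap]
      intro x hx
      obtain ⟨t, ht, z, hz⟩ := h2 x hx
      have hu : IsUnit (algebraMap B R t) :=
        IsLocalization.map_units R (⟨t, ht⟩ : n.primeCompl)
      rw [Ideal.mem_comap]
      refine (Ideal.unit_mul_mem_iff_mem _ hu).mp ?_
      have : algebraMap B R t * algebraMap B R x
          = algebraMap B R f * algebraMap B R z + algebraMap B R (t * x - f * z) := by
        simp only [map_sub, _root_.map_mul]; ring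
      rw [this]
      exact Ideal.add_mem _
        (Ideal.mem_sup_left (Ideal.mul_mem_right _ _ (Ideal.mem_span_singleton_self _)))
        (Ideal.mem_sup_right (Ideal.mem_map_of_mem _ hz))
    · refine sup_le ?_ (Ideal.map_mono inf_le_right)
      rw [Ideal.span_le, Set.singleton_subset_iff]
      exact Ideal.mem_map_of_mem _ hf

/-- **Node datum with a uniformiser.**  If moreover `P₁ ⊓ P₂ = (w)` (reduced special fibre with
exactly the two branches), then in `R = B_n`: `𝔪 = (f, g, w)` and `f * g = w * h`. -/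
theorem KronCong.map_eq_span_triple {q : ℕ} (hq : 2 ≤ q) {α β : A →+* B}
    {P₁ P₂ n : Ideal B} [n.IsPrime] [IsLocalization.AtPrime R n]
    (hP₁ : P₁ ≤ n) (hP₂ : P₂ ≤ n) (h : KronCong q α β P₁ P₂)
    (hα : ∀ b : B, ∃ a : A, b - α a ∈ P₁) (hβ : ∀ b : B, ∃ a : A, b - β a ∈ P₂)
    {a₀ b₀ : A} (ha₀ : IsBranchUnif α P₁ n a₀) (hb₀ : IsBranchUnif β P₂ n b₀)
    {w : B} (hw : P₁ ⊓ P₂ = Ideal.span {w}) :
    ∃ f g k : B, f ∈ P₂ ∧ g ∈ P₁ ∧ f * g = w * k ∧
      Ideal.map (algebraMap B R) n =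
        Ideal.span {algebraMap B R f, algebraMap B R g, algebraMap B R w} ∧
      Ideal.map (algebraMap B R) P₁ = Ideal.span {algebraMap B R g, algebraMap B R w} ∧
      Ideal.map (algebraMap B R) P₂ = Ideal.span {algebraMap B R f, algebraMap B R w} := by
  obtain ⟨f, g, hf, hg, hfg, hn, h1, h2⟩ :=
    h.map_eq_span_node R hq hP₁ hP₂ hα hβ ha₀ hb₀
  rw [hw] at hfg hn h1 h2
  obtain ⟨k, hk⟩ := Ideal.mem_span_singleton'.mp hfg
  refine ⟨f, g, k, hf, hg, by rw [← hk, _root_.mul_comm], ?_, ?_, ?_⟩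
  · rw [hn, Ideal.map_span, Set.image_singleton, ← Ideal.span_union]
    congr 1
    ext x
    simp only [Set.union_singleton, Set.mem_insert_iff, Set.mem_singleton_iff]
    tauto
  · rw [h1, Ideal.map_span, Set.image_singleton, ← Ideal.span_union]
    congr 1
  · rw [h2, Ideal.map_span, Set.image_singleton, ← Ideal.span_union]
    congr 1

/-- **Smooth points, localised form.** -/
theorem map_eq_span_smooth {α : A →+* B} {P₁ P₂ n : Ideal B} [n.IsPrime]
    [IsLocalization.AtPrime R n]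
    (hP₁ : P₁ ≤ n) (hP₂ : ¬ P₂ ≤ n) (hα : ∀ b : B, ∃ a : A, b - α a ∈ P₁)
    {a₀ : A} (ha₀ : IsBranchUnif α P₁ n a₀) :
    Ideal.map (algebraMap B R) n =
      Ideal.span {algebraMap B R (α a₀)} ⊔ Ideal.map (algebraMap B R) (P₁ ⊓ P₂) := by
  have hJ : Ideal.span {α a₀} ⊔ (P₁ ⊓ P₂) ≤ n := by
    refine sup_le ?_ (inf_le_left.trans hP₁)
    rw [Ideal.span_le, Set.singleton_subset_iff]
    exact ha₀.1
  rw [map_eq_map_of_local R hJ, Ideal.map_sup, Ideal.map_span, Set.image_singleton]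
  intro x hx
  obtain ⟨t, ht, z, hz⟩ := exists_smooth_gen hP₁ hP₂ hα ha₀ x hx
  refine ⟨t, ht, ?_⟩
  have : t * x = α a₀ * z + (t * x - α a₀ * z) := by ring
  rw [this]
  exact Ideal.add_mem _
    (Ideal.mem_sup_left (Ideal.mul_mem_right _ _ (Ideal.mem_span_singleton_self _)))
    (Ideal.mem_sup_right hz)

end Localised

/-! ### `α` is onto the branch: finite birational onto a normal domain -/

/-- An injective, integral, birational ring homomorphism out of an integrally closed domain is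
surjective.  (Used for `A ⧸ wA → B ⧸ P₁`: both have the same fraction field by the residue
degree count, the target is integral over `κ[j]`, the source is normal by `b2`.) -/
theorem surjective_of_birational_of_integral {C D : Type*} [CommRing C] [IsDomain C]
    [IsIntegrallyClosed C] [CommRing D] [IsDomain D] (φ : C →+* D)
    (hinj : Function.Injective φ) (hint : φ.IsIntegral)
    (hbir : ∀ d : D, ∃ c₁ c₂ : C, c₂ ≠ 0 ∧ φ c₂ * d = φ c₁) : Function.Surjective φ := by
  intro d
  obtain ⟨c₁, c₂, hc₂, hd⟩ := hbir d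
  obtain ⟨p, hp, hpd⟩ := hint d
  let K := FractionRing C
  let L := FractionRing D
  let g : C →+* L := (algebraMap D L).comp φ
  have hg : Function.Injective g := (IsFractionRing.injective D L).comp hinj
  let ι : K →+* L := IsFractionRing.lift hg
  have hι : ∀ c : C, ι (algebraMap C K c) = algebraMap D L (φ c) := fun c =>
    IsFractionRing.lift_algebraMap hg c
  have hc₂K : algebraMap C K c₂ ≠ 0 := by
    simpa using (IsFractionRing.injective C K).ne hc₂
  have hφc₂ : φ c₂ ≠ 0 := by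
    simpa using hinj.ne hc₂
  have hc₂L : algebraMap D L (φ c₂) ≠ 0 := by
    simpa using (IsFractionRing.injective D L).ne hφc₂
  set k : K := algebraMap C K c₁ / algebraMap C K c₂ with hk
  have hιk : ι k = algebraMap D L d := by
    rw [hk, map_div₀, hι, hι, ← hd, _root_.map_mul, mul_div_cancel_left₀ _ hc₂L]
  have hcomp : ι.comp (algebraMap C K) = (algebraMap D L).comp φ := by
    ext c; exact hι c
  have he : Polynomial.eval₂ (algebraMap C K) k p = 0 := by
    apply ι.injective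
    rw [Polynomial.hom_eval₂, hcomp, hιk, ← Polynomial.hom_eval₂, hpd, map_zero, map_zero]
  have hint' : IsIntegral C k := ⟨p, hp, he⟩
  obtain ⟨c, hc⟩ := IsIntegrallyClosed.isIntegral_iff.mp hint'
  refine ⟨c, ?_⟩
  have h1 : c * c₂ = c₁ := by
    apply IsFractionRing.injective C K
    rw [_root_.map_mul, hc, hk, div_mul_cancel₀ _ hc₂K]
  apply mul_left_cancel₀ hφc₂
  rw [hd, ← h1, _root_.map_mul, _root_.mul_comm]

end Fermat.Agent.A2.H372

end
-- ===== PACK-END A2/H372/Transversal.lean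

-- ===== PACK-BEGIN A2/Mod/H31/Biv.lean
section


/-!
# A2 / MOD leaf L8 (helper31) — part 1: bivariate degree lemmas (Mathlib only)

`k ⊆ L` fields, `a b : L`, `a` transcendental over `k`.  For an irreducible `P ∈ k[X][Y]` of
positive `Y`-degree with `P(a, b) = 0` we have `[k(a)(b) : k(a)] = deg_Y P`
(`finrank_adjoin_of_irreducible`).  For a polynomial `A`, monic of degree `n` in `Y`, with
`A(a, b) = A(b, a) = 0` and `[k(a)(b) : k(a)] = n`, the polynomial `A` is symmetric up to a constant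
(`exists_swap_eq`) and `[k(ab)(a) : k(ab)] = 2 n` (`finrank_adjoin_mul`).
-/

set_option autoImplicit false

noncomputable section

namespace Fermat.Agent.A2.Mod.H31

open Polynomial IntermediateField
open scoped Polynomial.Bivariate

section Biv

variable {k L : Type*} [Field k] [Field L] [Algebra k L]

/-- The image of a bivariate polynomial over `k` in `k(a)[Y]`, `X ↦ a`. -/
def bivMap (a : L) : k[X][Y] →+* (k⟮a⟯)[X] :=
  mapRingHom (aeval (AdjoinSimple.gen k a)).toRingHom

theorem transcendental_gen {a : L} (ha : Transcendental k a) :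
    Transcendental k (AdjoinSimple.gen k a) := by
  intro h
  apply ha
  have := h.algebraMap (A := L)
  simpa using this

theorem aeval_gen_injective {a : L} (ha : Transcendental k a) :
    Function.Injective (aeval (R := k) (AdjoinSimple.gen k a)).toRingHom :=
  transcendental_iff_injective.mp (transcendental_gen ha)

theorem bivMap_injective {a : L} (ha : Transcendental k a) :
    Function.Injective (bivMap (k := k) a) :=
  Polynomial.map_injective _ (aeval_gen_injective ha)

theorem aevalAeval_eq_eval₂ (a b : L) (P : k[X][Y]) :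
    aevalAeval a b P = eval₂ (aeval (R := k) a).toRingHom b P := by
  induction P using Polynomial.induction_on' with
  | add p q hp hq => simp only [eval₂_add, _root_.map_add, hp, hq]
  | monomial n c =>
    rw [eval₂_monomial, ← C_mul_X_pow_eq_monomial, _root_.map_mul, _root_.map_pow, aevalAeval_C, aevalAeval_Y]
    rfl

theorem aeval_bivMap (a b : L) (P : k[X][Y]) :
    aeval b (bivMap a P) = aevalAeval a b P := by
  have h : (algebraMap k⟮a⟯ L).comp (aeval (R := k) (AdjoinSimple.gen k a)).toRingHom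
      = (aeval (R := k) a).toRingHom := by
    apply Polynomial.ringHom_ext
    · intro r; simp
    · simp
  rw [bivMap, coe_mapRingHom, aeval_def, eval₂_map, h, aevalAeval_eq_eval₂]

/-- The algebra structure `k[X] → k(a)`, `X ↦ a`. -/
@[reducible] def algPoly (a : L) : Algebra k[X] k⟮a⟯ :=
  (aeval (R := k) (AdjoinSimple.gen k a)).toRingHom.toAlgebra

theorem isFractionRing_poly {a : L} (ha : Transcendental k a) :
    letI := algPoly (k := k) a
    IsFractionRing k[X] k⟮a⟯ := by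
  letI := algPoly (k := k) a
  haveI : FaithfulSMul k[X] k⟮a⟯ :=
    (faithfulSMul_iff_algebraMap_injective _ _).mpr (aeval_gen_injective ha)
  refine IsFractionRing.of_field _ _ fun x => ?_
  obtain ⟨r, s, hrs⟩ := (mem_adjoin_simple_iff k (x : L)).mp x.2
  refine ⟨r, s, Subtype.ext ?_⟩
  rw [hrs]
  have h1 : ∀ p : k[X], ((algebraMap k[X] k⟮a⟯ p : k⟮a⟯) : L) = aeval a p := by
    intro p
    show ((aeval (R := k) (AdjoinSimple.gen k a) p : k⟮a⟯) : L) = aeval a p
    rw [← IntermediateField.algebraMap_apply, ← aeval_algebraMap_apply, AdjoinSimple.algebraMap_gen]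
  push_cast
  rw [h1, h1]

theorem irreducible_bivMap {a : L} (ha : Transcendental k a) {P : k[X][Y]}
    (hP : Irreducible P) (hdeg : P.natDegree ≠ 0) : Irreducible (bivMap a P) := by
  letI := algPoly (k := k) a
  haveI := isFractionRing_poly ha
  exact (IsPrimitive.irreducible_iff_irreducible_map_fraction_map (K := k⟮a⟯)
    (hP.isPrimitive hdeg)).mp hP

theorem natDegree_bivMap {a : L} (ha : Transcendental k a) (P : k[X][Y]) :
    (bivMap a P).natDegree = P.natDegree :=
  natDegree_map_eq_of_injective (aeval_gen_injective ha) P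

/-- **Degree from an irreducible relation.** -/
theorem minpoly_eq_of_irreducible {a b : L} (ha : Transcendental k a) {P : k[X][Y]}
    (hP : Irreducible P) (hdeg : P.natDegree ≠ 0) (h0 : aevalAeval a b P = 0) :
    minpoly k⟮a⟯ b = bivMap a P * C (bivMap a P).leadingCoeff⁻¹ :=
  (minpoly.eq_of_irreducible (irreducible_bivMap ha hP hdeg)
    ((aeval_bivMap a b P).trans h0)).symm

theorem isIntegral_of_irreducible {a b : L} (ha : Transcendental k a) {P : k[X][Y]}
    (hP : Irreducible P) (hdeg : P.natDegree ≠ 0) (h0 : aevalAeval a b P = 0) :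
    IsIntegral k⟮a⟯ b := by
  have hne : bivMap a P ≠ 0 := (irreducible_bivMap ha hP hdeg).ne_zero
  exact (isAlgebraic_iff_isIntegral).mp ⟨bivMap a P, hne, (aeval_bivMap a b P).trans h0⟩

theorem finrank_adjoin_of_irreducible {a b : L} (ha : Transcendental k a) {P : k[X][Y]}
    (hP : Irreducible P) (hdeg : P.natDegree ≠ 0) (h0 : aevalAeval a b P = 0) :
    Module.finrank k⟮a⟯ (k⟮a⟯)⟮b⟯ = P.natDegree := by
  have hne : bivMap a P ≠ 0 := (irreducible_bivMap ha hP hdeg).ne_zero
  rw [adjoin.finrank (isIntegral_of_irreducible ha hP hdeg h0),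
    minpoly_eq_of_irreducible ha hP hdeg h0,
    natDegree_mul_C (inv_ne_zero (leadingCoeff_ne_zero.mpr hne)), natDegree_bivMap ha]

/-- A monic relation of the right degree is irreducible, and is the minimal polynomial. -/
theorem irreducible_of_monic_of_finrank {a b : L} (ha : Transcendental k a) {P : k[X][Y]}
    (hP : P.Monic) (h0 : aevalAeval a b P = 0)
    (hfr : Module.finrank k⟮a⟯ (k⟮a⟯)⟮b⟯ = P.natDegree) :
    Irreducible P ∧ bivMap a P = minpoly k⟮a⟯ b := by
  have hmon : (bivMap a P).Monic := hP.map _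
  have hroot : aeval b (bivMap a P) = 0 := (aeval_bivMap a b P).trans h0
  have hint : IsIntegral k⟮a⟯ b := ⟨_, hmon, hroot⟩
  have hdeg : (minpoly k⟮a⟯ b).natDegree = (bivMap a P).natDegree := by
    rw [← adjoin.finrank hint, hfr, natDegree_bivMap ha]
  have heq : bivMap a P = minpoly k⟮a⟯ b :=
    Polynomial.eq_of_monic_of_dvd_of_natDegree_le (minpoly.monic hint) hmon
      (minpoly.dvd k⟮a⟯ b hroot) hdeg.ge
  refine ⟨?_, heq⟩
  apply Monic.irreducible_of_irreducible_map (aeval (R := k) (AdjoinSimple.gen k a)).toRingHom P hP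
  show Irreducible (bivMap a P)
  rw [heq]
  exact minpoly.irreducible hint

/-- **Symmetry of the modular equation** (up to a constant). -/
theorem exists_swap_eq {a b : L} (ha : Transcendental k a) {A : k[X][Y]}
    (hA : A.Monic) (h0 : aevalAeval a b A = 0) (h0' : aevalAeval b a A = 0)
    (hfr : Module.finrank k⟮a⟯ (k⟮a⟯)⟮b⟯ = A.natDegree) :
    ∃ c : k, c ≠ 0 ∧ Bivariate.swap A = C (C c) * A := by
  obtain ⟨-, heq⟩ := irreducible_of_monic_of_finrank ha hA h0 hfr
  have hdvd : A ∣ Bivariate.swap A := by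
    rw [← Polynomial.modByMonic_eq_zero_iff_dvd hA]
    apply bivMap_injective ha
    rw [_root_.map_zero]
    show (Bivariate.swap A %ₘ A).map _ = 0
    rw [Polynomial.map_modByMonic _ hA]
    show bivMap a (Bivariate.swap A) %ₘ bivMap a A = 0
    have hmon : (bivMap a A).Monic := hA.map _
    rw [Polynomial.modByMonic_eq_zero_iff_dvd hmon, heq]
    apply minpoly.dvd
    rw [aeval_bivMap, Bivariate.aevalAeval_swap]
    exact h0'
  obtain ⟨C₁, hC₁⟩ := hdvd
  have h2 : A * (C₁ * Bivariate.swap C₁) = A * 1 := by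
    have := congrArg Bivariate.swap hC₁
    rw [Bivariate.swap_swap_apply, _root_.map_mul, hC₁] at this
    rw [mul_one, ← mul_assoc]
    exact this.symm
  have h3 : C₁ * Bivariate.swap C₁ = 1 := mul_left_cancel₀ hA.ne_zero h2
  have hu : IsUnit C₁ := IsUnit.of_mul_eq_one _ h3
  obtain ⟨r, hr, rfl⟩ := Polynomial.isUnit_iff.mp hu
  obtain ⟨c, hc, rfl⟩ := Polynomial.isUnit_iff.mp hr
  exact ⟨c, hc.ne_zero, by rw [hC₁, mul_comm]⟩

theorem coeff_coeff_swap {R : Type*} [CommSemiring R] (P : R[X][Y]) (i m : ℕ) :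
    ((Bivariate.swap P).coeff i).coeff m = (P.coeff m).coeff i := by
  induction P using Polynomial.induction_on' with
  | add p q hp hq => simp only [_root_.map_add, coeff_add, hp, hq]
  | monomial n c =>
    induction c using Polynomial.induction_on' with
    | add p q hp hq => simp only [_root_.map_add, coeff_add, hp, hq]
    | monomial j r =>
      rw [Bivariate.swap_monomial_monomial, coeff_monomial, coeff_monomial]
      by_cases h1 : j = i <;> by_cases h2 : n = m <;> simp [h1, h2, coeff_monomial]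

/-- Inner degree bound from the symmetry. -/
theorem coeff_coeff_eq_zero_of_swap {A : k[X][Y]} {c : k}
    (hsw : Bivariate.swap A = C (C c) * A) (m i : ℕ) (hi : A.natDegree < i) :
    (A.coeff m).coeff i = 0 := by
  rw [← coeff_coeff_swap, hsw, coeff_C_mul, coeff_C_mul, coeff_eq_zero_of_natDegree_lt hi,
    coeff_zero, mul_zero]

theorem coeff_coeff_natDegree_of_swap {A : k[X][Y]} {c : k} (hA : A.Monic)
    (hsw : Bivariate.swap A = C (C c) * A) :
    (A.coeff 0).coeff A.natDegree = c := by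
  rw [← coeff_coeff_swap, hsw, coeff_C_mul, coeff_C_mul, coeff_natDegree, hA.leadingCoeff,
    coeff_one_zero, mul_one]

/-- The `Y`-degree of `swap (Xⁿ A(X, Y/X))` is `2 n`. -/
theorem natDegree_swap_scaleRoots {A : k[X][Y]} {c : k} (hc : c ≠ 0) (hA : A.Monic)
    (hsw : Bivariate.swap A = C (C c) * A) :
    (Bivariate.swap (scaleRoots A (X : k[X]))).natDegree = 2 * A.natDegree := by
  have key : ∀ i m : ℕ, ((Bivariate.swap (scaleRoots A (X : k[X]))).coeff i).coeff m
      = (A.coeff m * X ^ (A.natDegree - m)).coeff i := by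
    intro i m
    rw [coeff_coeff_swap, coeff_scaleRoots]
  apply le_antisymm
  · rw [natDegree_le_iff_coeff_eq_zero]
    intro N hN
    ext m
    rw [key, coeff_zero, coeff_mul_X_pow']
    split_ifs with h
    · by_cases hm : m ≤ A.natDegree
      · apply coeff_coeff_eq_zero_of_swap hsw
        omega
      · rw [coeff_eq_zero_of_natDegree_lt (not_le.mp hm), coeff_zero]
    · rfl
  · apply le_natDegree_of_ne_zero
    intro h
    have h1 : ((Bivariate.swap (scaleRoots A (X : k[X]))).coeff (2 * A.natDegree)).coeff 0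
        = 0 := by rw [h, coeff_zero]
    rw [key, Nat.sub_zero, coeff_mul_X_pow', if_pos (by omega)] at h1
    have h2 : 2 * A.natDegree - A.natDegree = A.natDegree := by omega
    rw [h2, coeff_coeff_natDegree_of_swap hA hsw] at h1
    exact hc h1

theorem aevalAeval_scaleRoots (a b : L) (A : k[X][Y]) :
    aevalAeval a (a * b) (scaleRoots A (X : k[X])) = a ^ A.natDegree * aevalAeval a b A := by
  rw [aevalAeval_eq_eval₂, aevalAeval_eq_eval₂]
  have := scaleRoots_eval₂_mul (p := A) (aeval (R := k) a).toRingHom b (X : k[X])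
  simpa using this

/-- **The degree of `k(a, b)` over `k(ab)`** for a pair `(a, b)` satisfying a symmetric monic
relation of degree `n = [k(a,b) : k(a)]`: it is `2 n`. -/
theorem finrank_adjoin_mul {a b : L} (ha : Transcendental k a) (hx : Transcendental k (a * b))
    {A : k[X][Y]} (hA : A.Monic) (h0 : aevalAeval a b A = 0) (h0' : aevalAeval b a A = 0)
    (hfr : Module.finrank k⟮a⟯ (k⟮a⟯)⟮b⟯ = A.natDegree) :
    Module.finrank k⟮a * b⟯ (k⟮a * b⟯)⟮a⟯ = 2 * A.natDegree := by
  have ha0 : a ≠ 0 := by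
    rintro rfl
    exact ha isAlgebraic_zero
  have hn : A.natDegree ≠ 0 := by
    intro hn
    have h1 : A = 1 := by
      exact hA.natDegree_eq_zero.mp hn
    rw [h1, _root_.map_one] at h0
    exact one_ne_zero h0
  -- `k(a)(ab) = k(a)(b)`
  have hfields : (k⟮a⟯)⟮a * b⟯ = (k⟮a⟯)⟮b⟯ := by
    have hamem : ∀ F : IntermediateField k⟮a⟯ L, a ∈ F := fun F =>
      F.algebraMap_mem (⟨a, mem_adjoin_simple_self k a⟩ : k⟮a⟯)
    apply le_antisymm
    · rw [adjoin_simple_le_iff]
      exact _root_.MulMemClass.mul_mem (hamem _) (mem_adjoin_simple_self _ b)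
    · rw [adjoin_simple_le_iff]
      have h1 : a⁻¹ * (a * b) = b := by field_simp
      have h2 : a⁻¹ * (a * b) ∈ (k⟮a⟯)⟮a * b⟯ :=
        _root_.MulMemClass.mul_mem (_root_.InvMemClass.inv_mem (hamem _)) (mem_adjoin_simple_self _ (a * b))
      rwa [h1] at h2
  obtain ⟨c, hc, hsw⟩ := exists_swap_eq ha hA h0 h0' hfr
  -- the scaled polynomial
  have hG'mon : (scaleRoots A (X : k[X])).Monic := (monic_scaleRoots_iff _).mpr hA
  have hG'0 : aevalAeval a (a * b) (scaleRoots A (X : k[X])) = 0 := by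
    rw [aevalAeval_scaleRoots, h0, mul_zero]
  have hG'fr : Module.finrank k⟮a⟯ (k⟮a⟯)⟮a * b⟯ = (scaleRoots A (X : k[X])).natDegree := by
    rw [natDegree_scaleRoots, hfields, hfr]
  obtain ⟨hG'irr, -⟩ := irreducible_of_monic_of_finrank ha hG'mon hG'0 hG'fr
  have hGirr : Irreducible (Bivariate.swap (scaleRoots A (X : k[X]))) :=
    (MulEquiv.irreducible_iff (Bivariate.swap (R := k))).mpr hG'irr
  have hGdeg := natDegree_swap_scaleRoots hc hA hsw
  have hG0 : aevalAeval (a * b) a (Bivariate.swap (scaleRoots A (X : k[X]))) = 0 := by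
    rw [Bivariate.aevalAeval_swap]
    exact hG'0
  rw [finrank_adjoin_of_irreducible hx hGirr (by rw [hGdeg]; omega) hG0, hGdeg]

end Biv

end Fermat.Agent.A2.Mod.H31

end

end
-- ===== PACK-END A2/Mod/H31/Biv.lean

-- ===== PACK-BEGIN A2/Mod/H732/SepEtale.lean
section





/-!
# A2 / MOD, piece S4 (SepCoord producer), part 1 (helper732): two-point etale criterion

Mathlib-only.  `R` a local ring with residue field `κ`, `S` a finite free `R`-algebra with basis
`b`.  If `𝔪 S = P₁ ⊓ P₂` for two different maximal ideals `P₁, P₂` of `S` and both residue fields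
`S ⧸ Pᵢ` are separable over `κ` (elementwise, in the "liftable" form: every `s : S` is a root
modulo `Pᵢ` of some `Q ∈ R[X]` with `Q'(s) ∉ Pᵢ`), then the discriminant of `b` is a unit of `R`.

This is the two-component version of `S18.H425.isUnit_discr_of_isSeparable_quotient`
(one component, `𝔪 S` maximal).

* `isSeparable_of_aeval_derivative_ne_zero₂` : a root `y` of `P` with `P'(y) ≠ 0` is separable;
* `traceForm_nondegenerate_of_algEquiv_prod` : the trace form of a product of two finite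
  separable field extensions is nondegenerate;
* `isUnit_discr_of_two_maximal` : the criterion.
-/

set_option autoImplicit false
set_option linter.style.haveILetI false

noncomputable section

namespace Fermat.Agent.A2.Mod.H732

open Polynomial IsLocalRing

/-- A root `y` of `P` with `P'(y) ≠ 0` is separable over the base field. -/
theorem isSeparable_of_aeval_derivative_ne_zero₂ {K F : Type*} [Field K] [Field F] [Algebra K F]
    (y : F) (P : K[X]) (h0 : aeval y P = 0) (h1 : aeval y (derivative P) ≠ 0) :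
    IsSeparable K y := by
  have hP0 : P ≠ 0 := by
    rintro rfl
    simp at h1
  have hint : IsIntegral K y := (isAlgebraic_iff_isIntegral).mp ⟨P, hP0, h0⟩
  obtain ⟨Q, hQ⟩ := minpoly.dvd K y h0
  have hirr : Irreducible (minpoly K y) := minpoly.irreducible hint
  rw [IsSeparable, separable_iff_derivative_ne_zero hirr]
  intro hd
  apply h1
  rw [hQ, derivative_mul, hd, zero_mul, zero_add, _root_.map_mul, minpoly.aeval, zero_mul]

section Prod

variable {κ C L₁ L₂ : Type*} [Field κ] [CommRing C] [Algebra κ C]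
  [Field L₁] [Field L₂] [Algebra κ L₁] [Algebra κ L₂]
  [FiniteDimensional κ L₁] [FiniteDimensional κ L₂]
  [Algebra.IsSeparable κ L₁] [Algebra.IsSeparable κ L₂]

/-- The trace form of an algebra isomorphic to a product of two finite separable field
extensions is left-separating. -/
theorem traceForm_separatingLeft_of_algEquiv_prod (e : C ≃ₐ[κ] L₁ × L₂) :
    (Algebra.traceForm κ C).SeparatingLeft := by
  intro x hx
  have key : ∀ z : C, Algebra.trace κ C z =
      Algebra.trace κ L₁ (e z).1 + Algebra.trace κ L₂ (e z).2 := by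
    intro z
    rw [← Algebra.trace_prod_apply, Algebra.trace_eq_of_algEquiv e z]
  have h1 : (e x).1 = 0 := by
    refine (_root_.traceForm_nondegenerate κ L₁).1 _ (fun c => ?_)
    have := hx (e.symm (c, 0))
    rw [Algebra.traceForm_apply, key, _root_.map_mul, AlgEquiv.apply_symm_apply] at this
    simpa [Algebra.traceForm_apply] using this
  have h2 : (e x).2 = 0 := by
    refine (_root_.traceForm_nondegenerate κ L₂).1 _ (fun c => ?_)
    have := hx (e.symm (0, c))
    rw [Algebra.traceForm_apply, key, _root_.map_mul, AlgEquiv.apply_symm_apply] at this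
    simpa [Algebra.traceForm_apply] using this
  have h3 : e x = 0 := Prod.ext h1 h2
  exact (_root_.map_eq_zero_iff e e.injective).1 h3

/-- The trace form of an algebra isomorphic to a product of two finite separable field
extensions is nondegenerate. -/
theorem traceForm_nondegenerate_of_algEquiv_prod (e : C ≃ₐ[κ] L₁ × L₂) :
    (Algebra.traceForm κ C).Nondegenerate := by
  have hl := traceForm_separatingLeft_of_algEquiv_prod e
  refine ⟨hl, ?_⟩
  intro y hy
  refine hl y (fun x => ?_)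
  have := hy x
  rw [Algebra.traceForm_apply] at this ⊢
  rwa [mul_comm]

end Prod

section TwoMax

variable {R S : Type*} [CommRing R] [CommRing S] [Algebra R S] [IsLocalRing R]

/-- A maximal ideal of `S` containing `𝔪 S` lies over `𝔪`. -/
theorem liesOver_maximalIdeal_of_map_le (P : Ideal S) (hP : P.IsMaximal)
    (hle : Ideal.map (algebraMap R S) (maximalIdeal R) ≤ P) :
    P.LiesOver (maximalIdeal R) := by
  constructor
  refine (IsLocalRing.maximalIdeal.isMaximal R).eq_of_le ?_ (Ideal.map_le_iff_le_comap.1 hle)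
  exact Ideal.comap_ne_top _ hP.ne_top

attribute [local instance] Ideal.Quotient.field

/-- Elementwise separability of `S ⧸ P` over `R ⧸ 𝔪` from the liftable form. -/
theorem isSeparable_quotient_of_lift (P : Ideal S) [P.IsMaximal] [P.LiesOver (maximalIdeal R)]
    (hsep : ∀ s : S, ∃ Q : R[X], aeval s Q ∈ P ∧ aeval s (derivative Q) ∉ P) :
    Algebra.IsSeparable (R ⧸ maximalIdeal R) (S ⧸ P) := by
  refine ⟨fun y => ?_⟩
  obtain ⟨s, rfl⟩ := Ideal.Quotient.mk_surjective y
  obtain ⟨Q, hQ0, hQ1⟩ := hsep s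
  have hcomp : (algebraMap (R ⧸ maximalIdeal R) (S ⧸ P)).comp
      (Ideal.Quotient.mk (maximalIdeal R)) = (Ideal.Quotient.mk P).comp (algebraMap R S) := by
    ext r
    rfl
  have hev : ∀ T : R[X], aeval (Ideal.Quotient.mk P s) (T.map (Ideal.Quotient.mk (maximalIdeal R)))
      = Ideal.Quotient.mk P (aeval s T) := by
    intro T
    rw [aeval_def, eval₂_map, hcomp, aeval_def, hom_eval₂]
  apply isSeparable_of_aeval_derivative_ne_zero₂ _ (Q.map (Ideal.Quotient.mk (maximalIdeal R)))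
  · rw [hev]
    exact Ideal.Quotient.eq_zero_iff_mem.2 hQ0
  · rw [derivative_map, hev]
    exact fun h => hQ1 (Ideal.Quotient.eq_zero_iff_mem.1 h)

variable [Module.Free R S] [Module.Finite R S]

/-- **Two-point etale criterion.**  `R` local, `S` finite free over `R` with basis `b`,
`𝔪 S = P₁ ⊓ P₂` with `P₁ ≠ P₂` maximal and both `S ⧸ Pᵢ` separable over `R ⧸ 𝔪` (liftable
elementwise form).  Then `discr R b` is a unit. -/
theorem isUnit_discr_of_two_maximal
    {ι : Type*} [Fintype ι] [DecidableEq ι] (b : Module.Basis ι R S)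
    (P₁ P₂ : Ideal S) (h₁ : P₁.IsMaximal) (h₂ : P₂.IsMaximal) (hne : P₁ ≠ P₂)
    (hinf : P₁ ⊓ P₂ = Ideal.map (algebraMap R S) (maximalIdeal R))
    (hsep₁ : ∀ s : S, ∃ Q : R[X], aeval s Q ∈ P₁ ∧ aeval s (derivative Q) ∉ P₁)
    (hsep₂ : ∀ s : S, ∃ Q : R[X], aeval s Q ∈ P₂ ∧ aeval s (derivative Q) ∉ P₂) :
    IsUnit (Algebra.discr R b) := by
  classical
  haveI := h₁
  haveI := h₂
  haveI : P₁.LiesOver (maximalIdeal R) :=
    liesOver_maximalIdeal_of_map_le P₁ h₁ (hinf ▸ inf_le_left)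
  haveI : P₂.LiesOver (maximalIdeal R) :=
    liesOver_maximalIdeal_of_map_le P₂ h₂ (hinf ▸ inf_le_right)
  haveI : Algebra.IsSeparable (R ⧸ maximalIdeal R) (S ⧸ P₁) :=
    isSeparable_quotient_of_lift P₁ hsep₁
  haveI : Algebra.IsSeparable (R ⧸ maximalIdeal R) (S ⧸ P₂) :=
    isSeparable_quotient_of_lift P₂ hsep₂
  haveI : Module.Finite (R ⧸ maximalIdeal R) (S ⧸ P₁) :=
    Module.Finite.of_restrictScalars_finite R _ _
  haveI : Module.Finite (R ⧸ maximalIdeal R) (S ⧸ P₂) :=
    Module.Finite.of_restrictScalars_finite R _ _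
  -- the Chinese remainder isomorphism
  have hcop : IsCoprime P₁ P₂ := by
    rw [Ideal.isCoprime_iff_sup_eq]
    exact Ideal.IsMaximal.coprime_of_ne h₁ h₂ hne
  let e₀ : (S ⧸ Ideal.map (algebraMap R S) (maximalIdeal R)) ≃+* (S ⧸ P₁) × (S ⧸ P₂) :=
    (Ideal.quotEquivOfEq hinf.symm).trans (Ideal.quotientInfEquivQuotientProd P₁ P₂ hcop)
  have he₀ : ∀ s : S, e₀ (Ideal.Quotient.mk _ s) =
      (Ideal.Quotient.mk P₁ s, Ideal.Quotient.mk P₂ s) := by
    intro s
    rfl
  let e : (S ⧸ Ideal.map (algebraMap R S) (maximalIdeal R)) ≃ₐ[R ⧸ maximalIdeal R]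
      (S ⧸ P₁) × (S ⧸ P₂) :=
    AlgEquiv.ofRingEquiv (f := e₀) (by
      intro r
      obtain ⟨r, rfl⟩ := Ideal.Quotient.mk_surjective r
      rfl)
  have hnd := traceForm_nondegenerate_of_algEquiv_prod e
  have hne0 : Algebra.discr (R ⧸ maximalIdeal R) (basisQuotient b) ≠ 0 := by
    rw [Algebra.discr_def, Algebra.traceMatrix_of_basis,
      ← LinearMap.BilinForm.nondegenerate_iff_det_ne_zero]
    exact hnd
  have hmk : Algebra.discr (R ⧸ maximalIdeal R) (basisQuotient b) =
      Ideal.Quotient.mk (maximalIdeal R) (Algebra.discr R b) := by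
    rw [Algebra.discr_def, Algebra.discr_def, RingHom.map_det]
    congr 1
    ext i j
    simp only [Algebra.traceMatrix_apply, Algebra.traceForm_apply, basisQuotient_apply,
      RingHom.mapMatrix_apply, Matrix.map_apply, ← _root_.map_mul]
    exact Algebra.trace_quotient_mk (b i * b j)
  rw [hmk] at hne0
  by_contra hu
  apply hne0
  rw [Ideal.Quotient.eq_zero_iff_mem]
  exact (IsLocalRing.mem_maximalIdeal _).mpr hu

end TwoMax

end Fermat.Agent.A2.Mod.H732

end
end
-- ===== PACK-END A2/Mod/H732/SepEtale.lean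

-- ===== PACK-BEGIN Ribet/H913/Climb.lean
section


/-!
# RIBET wall-p, W-ALGP, leaf WPS: the abstract climbing argument (helper913), Mathlib-only

`O ≤ V` subalgebras of a field `F` (`O = B_n`, `V = B_P` for a closed point `n` on the
component `P`), `W ∈ O` (the uniformiser), with

* `(H1)` `O ∩ W V = W O`;
* `(H2)` a `p`-th root modulo `W V` of an element of `O` is congruent modulo `W V` to an element
  of `O` (`O / W O` is integrally closed in `V / W V`);
* `p = W ^ ((p - 1) e) r`, `r ∈ V`.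

`climb913`: if `Γ ∈ V`, `ε ∈ O`, `Γ ^ p ≡ ε mod W ^ (p e + 1) V`, then `Γ ≡ θ mod W ^ e V` for some
`θ ∈ O` (successive approximation of the `p`-th root below the Hensel bound).

`wps_abs913`: the abstract form of wild purity at a smooth point.
-/

set_option autoImplicit false

namespace Fermat.Agent.Ribet.H913

section Abs

variable {R F : Type*} [CommRing R] [Field F] [Algebra R F]

/-- `(x + y) ^ p = x ^ p + y ^ p + p x y q` with `q` in any subalgebra containing `x`, `y`. -/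
theorem add_pow_prime_mem913 (S : Subalgebra R F) {p : ℕ} (hp : p.Prime) {x y : F}
    (hx : x ∈ S) (hy : y ∈ S) :
    ∃ q ∈ S, (x + y) ^ p = x ^ p + y ^ p + (p : F) * x * y * q := by
  refine ⟨_, ?_, add_pow_prime_eq hp x y⟩
  refine Subalgebra.sum_mem _ fun k _ => ?_
  exact S.mul_mem (S.mul_mem (S.pow_mem hx _) (S.pow_mem hy _)) (natCast_mem S _)

/-- `(H1)` iterated: `O ∩ W ^ k V = W ^ k O`. -/
theorem dvd_pow_of_dvd913 (O V : Subalgebra R F) {W : F} (hW : W ≠ 0) (hWV : W ∈ V)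
    (H1 : ∀ z ∈ O, (∃ v ∈ V, z = W * v) → ∃ o ∈ O, z = W * o) :
    ∀ (k : ℕ) (z : F), z ∈ O → (∃ v ∈ V, z = W ^ k * v) → ∃ o ∈ O, z = W ^ k * o := by
  intro k
  induction k with
  | zero =>
    intro z hz _
    exact ⟨z, hz, by simp⟩
  | succ k ih =>
    rintro z hz ⟨v, hv, hzv⟩
    obtain ⟨o₁, ho₁, h1⟩ := H1 z hz
      ⟨W ^ k * v, V.mul_mem (V.pow_mem hWV k) hv, by rw [hzv, pow_succ]; ring⟩
    have h2 : o₁ = W ^ k * v := by
      apply mul_left_cancel₀ hW
      rw [← h1, hzv, pow_succ]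
      ring
    obtain ⟨o, ho, h3⟩ := ih o₁ ho₁ ⟨v, hv, h2⟩
    exact ⟨o, ho, by rw [h1, h3, pow_succ]; ring⟩

/-- **Climbing.** -/
theorem climb913 (O V : Subalgebra R F) (hOV : O ≤ V) {W : F} (hW : W ≠ 0) (hWO : W ∈ O)
    {p : ℕ} (hp : p.Prime) (e : ℕ) {r : F} (hr : r ∈ V)
    (hpe : (p : F) = W ^ ((p - 1) * e) * r)
    (H1 : ∀ z ∈ O, (∃ v ∈ V, z = W * v) → ∃ o ∈ O, z = W * o)
    (H2 : ∀ γ ∈ V, ∀ c ∈ O, (∃ v ∈ V, γ ^ p - c = W * v) →
      ∃ γ₀ ∈ O, ∃ v ∈ V, γ - γ₀ = W * v)
    {Γ ε : F} (hΓ : Γ ∈ V) (hε : ε ∈ O)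
    (hΓε : ∃ v ∈ V, Γ ^ p - ε = W ^ (p * e + 1) * v) :
    ∀ s : ℕ, s ≤ e → ∃ θ ∈ O, ∃ v ∈ V, Γ - θ = W ^ s * v := by
  have hWV : W ∈ V := hOV hWO
  obtain ⟨p', rfl⟩ : ∃ p', p = p' + 1 := ⟨p - 1, by have := hp.pos; omega⟩
  have hp'1 : 1 ≤ p' := by have := hp.two_le; omega
  simp only [Nat.add_sub_cancel] at hpe
  intro s
  induction s with
  | zero =>
    intro _
    exact ⟨0, O.zero_mem, Γ, hΓ, by simp⟩
  | succ s ih =>
    intro hs
    obtain ⟨θ, hθ, γ, hγ, hΓθ⟩ := ih (by omega)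
    have hθV : θ ∈ V := hOV hθ
    have hΓeq : Γ = θ + W ^ s * γ := by linear_combination hΓθ
    obtain ⟨q, hq, hexp⟩ :=
      add_pow_prime_mem913 V hp hθV (V.mul_mem (V.pow_mem hWV s) hγ)
    obtain ⟨v₀, hv₀, hv₀e⟩ := hΓε
    obtain ⟨t, ht⟩ : ∃ t, p' * e + s = (p' + 1) * s + 1 + t := by
      refine ⟨p' * e + s - ((p' + 1) * s + 1), ?_⟩
      have h1 : p' * (s + 1) ≤ p' * e := Nat.mul_le_mul_left p' hs
      have h2 : p' * (s + 1) = p' * s + p' := by ring
      have h3 : (p' + 1) * s = p' * s + s := by ring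
      omega
    obtain ⟨t', ht'⟩ : ∃ t', (p' + 1) * e + 1 = (p' + 1) * s + 1 + t' := by
      refine ⟨(p' + 1) * e + 1 - ((p' + 1) * s + 1), ?_⟩
      have h1 : (p' + 1) * s ≤ (p' + 1) * e := Nat.mul_le_mul_left (p' + 1) (by omega)
      omega
    set X : F := W ^ t * (r * θ * γ * q) - W ^ t' * v₀ with hX
    have hXV : X ∈ V :=
      V.sub_mem (V.mul_mem (V.pow_mem hWV t)
        (V.mul_mem (V.mul_mem (V.mul_mem hr hθV) hγ) hq))
        (V.mul_mem (V.pow_mem hWV t') hv₀)
    have key : ε - θ ^ (p' + 1) = W ^ ((p' + 1) * s) * (γ ^ (p' + 1) + W * X) := by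
      have h1 : Γ ^ (p' + 1) = θ ^ (p' + 1) + (W ^ s * γ) ^ (p' + 1) +
          ((p' + 1 : ℕ) : F) * θ * (W ^ s * γ) * q := by
        rw [hΓeq]; exact hexp
      have h2 : ε = Γ ^ (p' + 1) - W ^ ((p' + 1) * e + 1) * v₀ := by
        linear_combination -hv₀e
      have h3 : W ^ (p' * e) * W ^ s = W ^ ((p' + 1) * s) * W * W ^ t := by
        rw [← pow_add, ht, pow_add, pow_add, pow_one]
      have h4 : W ^ ((p' + 1) * e + 1) = W ^ ((p' + 1) * s) * W * W ^ t' := by
        rw [ht', pow_add, pow_add, pow_one]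
      have h5 : (W ^ s * γ) ^ (p' + 1) = W ^ ((p' + 1) * s) * γ ^ (p' + 1) := by
        rw [mul_pow, ← pow_mul, mul_comm s]
      rw [h2, h1, hpe, h4, h5, hX]
      linear_combination (r * θ * γ * q) * h3
    obtain ⟨c, hc, hce⟩ := dvd_pow_of_dvd913 O V hW hWV H1 ((p' + 1) * s) (ε - θ ^ (p' + 1))
      (O.sub_mem hε (O.pow_mem hθ _))
      ⟨_, V.add_mem (V.pow_mem hγ _) (V.mul_mem hWV hXV), key⟩
    have hcX : c = γ ^ (p' + 1) + W * X := by
      apply mul_left_cancel₀ (pow_ne_zero ((p' + 1) * s) hW)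
      rw [← hce, key]
    obtain ⟨γ₀, hγ₀, v₁, hv₁, h⟩ := H2 γ hγ c hc ⟨-X, V.neg_mem hXV, by rw [hcX]; ring⟩
    refine ⟨θ + W ^ s * γ₀, O.add_mem hθ (O.mul_mem (O.pow_mem hWO s) hγ₀), v₁, hv₁, ?_⟩
    rw [hΓeq, pow_succ]
    linear_combination W ^ s * h

/-- **Wild purity at a smooth point, abstract form.**  `O = B_n`, `V = B_P` (`n ∈ P`),
`V' = B_{P'}` (`n ∉ P'`), `W` the uniformiser, `Λ = ζ - 1 = W ^ e ρ`, `p = Λ ^ (p - 1) z`. -/
theorem wps_abs913 (O V V' : Subalgebra R F) (hOV : O ≤ V) {W Lam ρ ρ' z : F}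
    (hW : W ≠ 0) (hWO : W ∈ O) {p : ℕ} (hp : p.Prime) (e : ℕ) (he : 1 ≤ e)
    (hLam : Lam = W ^ e * ρ) (hρ : ρ ∈ O) (hρ' : ρ' ∈ O) (hρρ' : ρ * ρ' = 1)
    (hz : z ∈ O) (hpz : (p : F) = Lam ^ (p - 1) * z)
    (H1 : ∀ z ∈ O, (∃ v ∈ V, z = W * v) → ∃ o ∈ O, z = W * o)
    (H2 : ∀ γ ∈ V, ∀ c ∈ O, (∃ v ∈ V, γ ^ p - c = W * v) →
      ∃ γ₀ ∈ O, ∃ v ∈ V, γ - γ₀ = W * v)
    (hinvO : ∀ o ∈ O, 1 + W * o ≠ 0 ∧ (1 + W * o)⁻¹ ∈ O)
    (DENS : ∀ g f : F, ∃ b ∈ O, f * (b - g) ∈ V')
    {u d₀ : F} (hu : u ≠ 0) (hd₀ : d₀ ≠ 0) (hd₀V : d₀ ∈ V)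
    (hεO : u * d₀ ^ p ∈ O) (hεO' : (u * d₀ ^ p)⁻¹ ∈ O)
    (huV : ∃ v ∈ V, u = 1 + Lam ^ p * W * v) :
    ∃ d : F, d ≠ 0 ∧ (∃ o ∈ O, u * d ^ p = 1 + Lam ^ p * o) ∧
      (∃ v ∈ V, d = 1 + Lam * v) ∧ (∃ v ∈ V', d = 1 + Lam * v) := by
  have hWV : W ∈ V := hOV hWO
  have hρV : ρ ∈ V := hOV hρ
  have hρ'V : ρ' ∈ V := hOV hρ'
  have hzV : z ∈ V := hOV hz
  have hρ0 : ρ ≠ 0 := fun h => by rw [h, zero_mul] at hρρ'; exact zero_ne_one hρρ'
  have hLam0 : Lam ≠ 0 := by rw [hLam]; exact mul_ne_zero (pow_ne_zero _ hW) hρ0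
  have hLamO : Lam ∈ O := by rw [hLam]; exact O.mul_mem (O.pow_mem hWO e) hρ
  have hLamV : Lam ∈ V := hOV hLamO
  obtain ⟨p', rfl⟩ : ∃ p', p = p' + 1 := ⟨p - 1, by have := hp.pos; omega⟩
  obtain ⟨e', rfl⟩ : ∃ e', e = e' + 1 := ⟨e - 1, by omega⟩
  have hpz' : ((p' + 1 : ℕ) : F) = Lam ^ p' * z := by simpa using hpz
  have hLamW : Lam = W * (W ^ e' * ρ) := by rw [hLam, pow_succ]; ring
  set ε : F := u * d₀ ^ (p' + 1) with hε
  have hε0 : ε ≠ 0 := mul_ne_zero hu (pow_ne_zero _ hd₀)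
  -- (1) `p = W ^ ((p - 1) e) r`
  have hpe : ((p' + 1 : ℕ) : F) = W ^ ((p' + 1 - 1) * (e' + 1)) * (ρ ^ p' * z) := by
    rw [hpz', hLam, Nat.add_sub_cancel, mul_pow, ← pow_mul, mul_comm (e' + 1) p']
    ring
  -- (2) `d₀ ^ p ≡ ε`
  obtain ⟨v, hv, huv⟩ := huV
  have hΓε : ∃ v₂ ∈ V, d₀ ^ (p' + 1) - ε = W ^ ((p' + 1) * (e' + 1) + 1) * v₂ := by
    refine ⟨-(d₀ ^ (p' + 1) * ρ ^ (p' + 1) * v),
      V.neg_mem (V.mul_mem (V.mul_mem (V.pow_mem hd₀V _) (V.pow_mem hρV _)) hv), ?_⟩
    have h1 : Lam ^ (p' + 1) = W ^ ((p' + 1) * (e' + 1)) * ρ ^ (p' + 1) := by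
      rw [hLam, mul_pow, ← pow_mul, mul_comm (e' + 1)]
    rw [hε, huv, h1, pow_succ W ((p' + 1) * (e' + 1))]
    ring
  -- (3) climbing
  obtain ⟨θ, hθ, v₁, hv₁, hθe⟩ := climb913 O V hOV hW hWO hp (e' + 1)
    (V.mul_mem (V.pow_mem hρV p') hzV) hpe H1 H2 hd₀V hεO hΓε (e' + 1) le_rfl
  have hθV : θ ∈ V := hOV hθ
  -- (4) `d₀ = θ + Λ v'`
  set v' : F := ρ' * v₁ with hv'
  have hv'V : v' ∈ V := V.mul_mem hρ'V hv₁
  have hd₀θ : d₀ = θ + Lam * v' := by
    rw [hv', hLam]
    linear_combination hθe - W ^ (e' + 1) * v₁ * hρρ'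
  obtain ⟨q, hq, hexp⟩ := add_pow_prime_mem913 V hp hθV (V.mul_mem hLamV hv'V)
  have hd₀p : d₀ ^ (p' + 1) = θ ^ (p' + 1) + Lam ^ (p' + 1) * (v' ^ (p' + 1) + z * θ * v' * q) := by
    rw [hd₀θ, hexp, hpz', pow_succ Lam p']
    ring
  -- (5) `ε - θ ^ p ∈ Λ ^ p O`
  have h5 : ∃ o₃ ∈ O, ε - θ ^ (p' + 1) = Lam ^ (p' + 1) * o₃ := by
    have hLp : Lam ^ (p' + 1) = W ^ ((p' + 1) * (e' + 1)) * ρ ^ (p' + 1) := by
      rw [hLam, mul_pow, ← pow_mul, mul_comm (e' + 1)]
    set Y : F := d₀ ^ (p' + 1) * W * v + (v' ^ (p' + 1) + z * θ * v' * q) with hY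
    have hYV : Y ∈ V :=
      V.add_mem (V.mul_mem (V.mul_mem (V.pow_mem hd₀V _) hWV) hv)
        (V.add_mem (V.pow_mem hv'V _) (V.mul_mem (V.mul_mem (V.mul_mem hzV hθV) hv'V) hq))
    have hεθ : ε - θ ^ (p' + 1) = Lam ^ (p' + 1) * Y := by
      have : ε = d₀ ^ (p' + 1) + Lam ^ (p' + 1) * (d₀ ^ (p' + 1) * W * v) := by
        rw [hε, huv]; ring
      rw [hY]
      linear_combination this + hd₀p
    obtain ⟨o, ho, hoe⟩ := dvd_pow_of_dvd913 O V hW hWV H1 ((p' + 1) * (e' + 1))
      (ε - θ ^ (p' + 1)) (O.sub_mem hεO (O.pow_mem hθ _))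
      ⟨ρ ^ (p' + 1) * Y, V.mul_mem (V.pow_mem hρV _) hYV, by rw [hεθ, hLp]; ring⟩
    refine ⟨ρ' ^ (p' + 1) * o, O.mul_mem (O.pow_mem hρ' _) ho, ?_⟩
    have hρp : ρ ^ (p' + 1) * ρ' ^ (p' + 1) = 1 := by rw [← mul_pow, hρρ', one_pow]
    rw [hoe, hLp]
    linear_combination (-(W ^ ((p' + 1) * (e' + 1)) * o)) * hρp
  obtain ⟨o₃, ho₃, hεθ⟩ := h5
  -- (6) `θ` is a unit of `O`
  set o₄ : F := -(W ^ e' * ρ * Lam ^ p' * ε⁻¹ * o₃) with ho₄
  have ho₄O : o₄ ∈ O :=
    O.neg_mem (O.mul_mem (O.mul_mem (O.mul_mem (O.mul_mem (O.pow_mem hWO _) hρ)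
      (O.pow_mem hLamO _)) hεO') ho₃)
  obtain ⟨hne4, hinv4⟩ := hinvO o₄ ho₄O
  have hθp : θ ^ (p' + 1) = ε * (1 + W * o₄) := by
    rw [ho₄]
    have h1 : ε * ε⁻¹ = 1 := mul_inv_cancel₀ hε0
    have h2 : Lam ^ (p' + 1) = W * (W ^ e' * ρ) * Lam ^ p' := by
      rw [pow_succ, mul_comm]; congr 1
    linear_combination -hεθ - o₃ * h2 + (W * (W ^ e' * ρ) * Lam ^ p' * o₃) * h1
  have hθp0 : θ ^ (p' + 1) ≠ 0 := by rw [hθp]; exact mul_ne_zero hε0 hne4
  have hθ0 : θ ≠ 0 := fun h => hθp0 (by rw [h, zero_pow (Nat.succ_ne_zero _)])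
  have hθpinv : (θ ^ (p' + 1))⁻¹ ∈ O := by
    rw [hθp, mul_inv]; exact O.mul_mem hεO' hinv4
  have hθinv : θ⁻¹ ∈ O := by
    have : θ⁻¹ = θ ^ p' * (θ ^ (p' + 1))⁻¹ := by
      rw [pow_succ]; field_simp
    rw [this]; exact O.mul_mem (O.pow_mem hθ _) hθpinv
  -- (7) `d₁ = d₀ / θ`
  set d₁ : F := d₀ * θ⁻¹ with hd₁
  have hd₁0 : d₁ ≠ 0 := mul_ne_zero hd₀ (inv_ne_zero hθ0)
  have hud₁ : u * d₁ ^ (p' + 1) = 1 + Lam ^ (p' + 1) * (o₃ * (θ ^ (p' + 1))⁻¹) := by
    have : u * d₁ ^ (p' + 1) = ε * (θ ^ (p' + 1))⁻¹ := by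
      rw [hd₁, mul_pow, hε, inv_pow]; ring
    rw [this]
    have h1 : ε = θ ^ (p' + 1) + Lam ^ (p' + 1) * o₃ := by linear_combination hεθ
    rw [h1]
    field_simp
  have hd₁V : d₁ = 1 + Lam * (v' * θ⁻¹) := by
    rw [hd₁, hd₀θ]
    field_simp
  -- (8) density on the other component
  obtain ⟨b, hb, hbg⟩ := DENS ((d₁⁻¹ - 1) * Lam⁻¹) d₁
  obtain ⟨hne8, -⟩ := hinvO (W ^ e' * ρ * b) (O.mul_mem (O.mul_mem (O.pow_mem hWO _) hρ) hb)
  have hδ : 1 + W * (W ^ e' * ρ * b) = 1 + Lam * b := by rw [hLamW]; ring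
  rw [hδ] at hne8
  obtain ⟨q', hq', hexp'⟩ := add_pow_prime_mem913 O hp O.one_mem (O.mul_mem hLamO hb)
  have hδp : (1 + Lam * b) ^ (p' + 1) = 1 + Lam ^ (p' + 1) * (b ^ (p' + 1) + z * b * q') := by
    rw [hexp', hpz', pow_succ Lam p']
    ring
  refine ⟨d₁ * (1 + Lam * b), mul_ne_zero hd₁0 hne8, ?_, ?_, ?_⟩
  · refine ⟨o₃ * (θ ^ (p' + 1))⁻¹ + (b ^ (p' + 1) + z * b * q') +
      Lam ^ (p' + 1) * (o₃ * (θ ^ (p' + 1))⁻¹) * (b ^ (p' + 1) + z * b * q'), ?_, ?_⟩
    · have hA : o₃ * (θ ^ (p' + 1))⁻¹ ∈ O := O.mul_mem ho₃ hθpinv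
      have hB : b ^ (p' + 1) + z * b * q' ∈ O :=
        O.add_mem (O.pow_mem hb _) (O.mul_mem (O.mul_mem hz hb) hq')
      exact O.add_mem (O.add_mem hA hB) (O.mul_mem (O.mul_mem (O.pow_mem hLamO _) hA) hB)
    · rw [mul_pow, ← mul_assoc, hud₁, hδp]
      ring
  · refine ⟨v' * θ⁻¹ + b + Lam * (v' * θ⁻¹) * b, ?_, ?_⟩
    · have hA : v' * θ⁻¹ ∈ V := V.mul_mem hv'V (hOV hθinv)
      exact V.add_mem (V.add_mem hA (hOV hb)) (V.mul_mem (V.mul_mem hLamV hA) (hOV hb))
    · rw [hd₁V]
      ring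
  · refine ⟨d₁ * (b - (d₁⁻¹ - 1) * Lam⁻¹), hbg, ?_⟩
    field_simp
    ring

end Abs

end Fermat.Agent.Ribet.H913

end
-- ===== PACK-END Ribet/H913/Climb.lean

-- ===== PACK-BEGIN A2/H609/RootIdeal.lean
section





/-!
# Node purity, part 1: the root ideals `I_j = {f : u ^ j ∣ f ^ m}`

`R` is an integrally closed domain, `u : R`, `m ≥ 1`.  The set `{f | u ^ j ∣ f ^ m}` is an ideal
(integral closedness), `I_0 = ⊤`, `I_m = (u)`, `I_{j+1} ≤ I_j`, `I_j * I_k ≤ I_{j+k}`.
Mathlib only.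
-/

set_option autoImplicit false

namespace Fermat.Agent.A2.H609

variable {R : Type*} [CommRing R] [IsDomain R] [IsIntegrallyClosed R]

/-- In an integrally closed domain, `a ^ m ∣ b ^ m → a ∣ b`. -/
theorem dvd_of_pow_dvd_pow {m : ℕ} (hm : m ≠ 0) {a b : R} (h : a ^ m ∣ b ^ m) : a ∣ b :=
  (IsIntegrallyClosed.pow_dvd_pow_iff hm).1 h

/-- Key closure property: if `c ∣ f ^ m` and `c ∣ g ^ m` then `c ∣ f ^ i * g ^ (m - i)`. -/
theorem dvd_pow_mul_pow {m : ℕ} (hm : m ≠ 0) {c f g : R} (hf : c ∣ f ^ m) (hg : c ∣ g ^ m)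
    {i : ℕ} (hi : i ≤ m) : c ∣ f ^ i * g ^ (m - i) := by
  apply dvd_of_pow_dvd_pow hm
  have h1 : (f ^ i * g ^ (m - i)) ^ m = (f ^ m) ^ i * (g ^ m) ^ (m - i) := by ring
  have h2 : c ^ m = c ^ i * c ^ (m - i) := by
    rw [← pow_add, Nat.add_sub_cancel' hi]
  rw [h1, h2]
  exact mul_dvd_mul (pow_dvd_pow_of_dvd hf i) (pow_dvd_pow_of_dvd hg (m - i))

/-- The root ideal `I_j = {f | u ^ j ∣ f ^ m}`. -/
def rootIdeal (u : R) (m : ℕ) (hm : m ≠ 0) (j : ℕ) : Ideal R where
  carrier := {f | u ^ j ∣ f ^ m}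
  add_mem' := by
    intro f g hf hg
    change u ^ j ∣ f ^ m at hf
    change u ^ j ∣ g ^ m at hg
    change u ^ j ∣ (f + g) ^ m
    rw [add_pow]
    refine Finset.dvd_sum fun i hi => ?_
    have hi' : i ≤ m := Nat.lt_succ_iff.mp (Finset.mem_range.mp hi)
    exact Dvd.dvd.mul_right (dvd_pow_mul_pow hm hf hg hi') _
  zero_mem' := by
    change u ^ j ∣ (0 : R) ^ m
    rw [zero_pow hm]
    exact dvd_zero _
  smul_mem' := by
    intro c f hf
    change u ^ j ∣ f ^ m at hf
    change u ^ j ∣ (c * f) ^ m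
    rw [mul_pow]
    exact Dvd.dvd.mul_left hf _

theorem mem_rootIdeal {u : R} {m : ℕ} {hm : m ≠ 0} {j : ℕ} {f : R} :
    f ∈ rootIdeal u m hm j ↔ u ^ j ∣ f ^ m := Iff.rfl

theorem rootIdeal_zero (u : R) (m : ℕ) (hm : m ≠ 0) : rootIdeal u m hm 0 = ⊤ := by
  rw [Ideal.eq_top_iff_one, mem_rootIdeal, pow_zero]
  exact one_dvd _

theorem rootIdeal_self (u : R) (m : ℕ) (hm : m ≠ 0) :
    rootIdeal u m hm m = Ideal.span {u} := by
  ext f
  rw [mem_rootIdeal, Ideal.mem_span_singleton]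
  exact IsIntegrallyClosed.pow_dvd_pow_iff hm

theorem rootIdeal_antitone (u : R) (m : ℕ) (hm : m ≠ 0) {j k : ℕ} (h : j ≤ k) :
    rootIdeal u m hm k ≤ rootIdeal u m hm j := by
  intro f hf
  rw [mem_rootIdeal] at hf ⊢
  exact (pow_dvd_pow u h).trans hf

theorem mul_mem_rootIdeal {u : R} {m : ℕ} {hm : m ≠ 0} {j k : ℕ} {f g : R}
    (hf : f ∈ rootIdeal u m hm j) (hg : g ∈ rootIdeal u m hm k) :
    f * g ∈ rootIdeal u m hm (j + k) := by
  rw [mem_rootIdeal] at hf hg ⊢
  rw [mul_pow, pow_add]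
  exact mul_dvd_mul hf hg

theorem pow_mem_rootIdeal {u : R} {m : ℕ} {hm : m ≠ 0} {f : R}
    (hf : f ∈ rootIdeal u m hm 1) (j : ℕ) : f ^ j ∈ rootIdeal u m hm j := by
  rw [mem_rootIdeal] at hf ⊢
  rw [pow_one] at hf
  rw [← pow_mul, mul_comm, pow_mul]
  exact pow_dvd_pow_of_dvd hf j

theorem self_mem_rootIdeal_one (u : R) (m : ℕ) (hm : m ≠ 0) : u ∈ rootIdeal u m hm 1 := by
  rw [mem_rootIdeal, pow_one]
  exact dvd_pow_self u hm

theorem self_mul_mem_rootIdeal_succ {u : R} {m : ℕ} {hm : m ≠ 0} {j : ℕ} {f : R}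
    (hf : f ∈ rootIdeal u m hm j) : u * f ∈ rootIdeal u m hm (j + 1) := by
  have := mul_mem_rootIdeal (self_mem_rootIdeal_one u m hm) hf
  rwa [add_comm] at this

/-- `π`-saturation: if `u` is regular modulo `π` (i.e. `π ∣ u * r → π ∣ r`), then
`π * f ∈ I_j → f ∈ I_j`. -/
theorem mem_rootIdeal_of_mul_mem {u π : R} {m : ℕ} {hm : m ≠ 0} {j : ℕ}
    (hπ0 : π ≠ 0) (hreg : ∀ r : R, π ∣ u * r → π ∣ r) {f : R}
    (hf : π * f ∈ rootIdeal u m hm j) : f ∈ rootIdeal u m hm j := by
  rw [mem_rootIdeal] at hf ⊢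
  -- `π ^ k ∣ u ^ j * r → π ^ k ∣ r`
  have hreg_pow : ∀ i : ℕ, ∀ r : R, π ∣ u ^ i * r → π ∣ r := by
    intro i
    induction i with
    | zero => intro r h; simpa using h
    | succ i ih =>
      intro r h
      apply ih
      apply hreg
      rwa [← mul_assoc, ← pow_succ']
  have hkey : ∀ k : ℕ, ∀ r x : R, π ^ k * x = u ^ j * r → ∃ r', x = u ^ j * r' := by
    intro k
    induction k with
    | zero => intro r x h; exact ⟨r, by simpa using h⟩
    | succ k ih =>
      intro r x h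
      have h1 : π ∣ u ^ j * r := ⟨π ^ k * x, by rw [← h]; ring⟩
      obtain ⟨r1, hr1⟩ := hreg_pow j r h1
      apply ih r1 x
      have h2 : π * (π ^ k * x) = π * (u ^ j * r1) := by
        rw [← mul_assoc, ← pow_succ', h, hr1]; ring
      exact mul_left_cancel₀ hπ0 h2
  obtain ⟨r, hr⟩ := hf
  rw [mul_pow] at hr
  obtain ⟨r', hr'⟩ := hkey m r (f ^ m) hr
  exact ⟨r', hr'⟩

end Fermat.Agent.A2.H609

end
-- ===== PACK-END A2/H609/RootIdeal.lean

-- ===== PACK-BEGIN A2/H849/Hartogs.lean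
section










/-!
# Algebraic Hartogs lemma for noetherian integrally closed domains (helper849, cell A2)

Mathlib-only.  `R` a noetherian integrally closed domain with fraction field `K`.

* `locAt K P` : the localisation `R_P` as a subalgebra of `K`.
* `isDiscreteValuationRing_locAt_of_colon` : if the prime `P` is a colon ideal `(a) : c`
  (`a ≠ 0`), then `R_P` is a discrete valuation ring.
* `hartogs_locAt` : an element of `K` lying in `R_P` for every prime `P` with `R_P` a DVR lies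
  in `R`.
* `exists_valuationSubring_not_mem` : if `u ∉ R` there is a discrete valuation subring `O ⊇ R`
  of `K`, equal to the localisation of `R` at its centre, with `u ∉ O`.
* `isUnit_of_forall_valuationSubring` : an element with trivial Weil divisor is a unit.
-/

set_option autoImplicit false

namespace Fermat.Agent.A2.H849

open IsLocalRing

variable {R : Type*} [CommRing R] [IsDomain R]
variable (K : Type*) [Field K] [Algebra R K] [IsFractionRing R K]

/-- The localisation `R_P` as a subalgebra of the fraction field `K`. -/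
noncomputable def locAt (P : Ideal R) [P.IsPrime] : Subalgebra R K :=
  Localization.subalgebra.ofField K P.primeCompl P.primeCompl_le_nonZeroDivisors

variable {K}

theorem mem_locAt_iff (P : Ideal R) [P.IsPrime] (x : K) :
    x ∈ locAt K P ↔ ∃ a s : R, s ∉ P ∧ x = algebraMap R K a * (algebraMap R K s)⁻¹ := by
  constructor
  · rintro ⟨a, s, hs, rfl⟩
    exact ⟨a, s, hs, rfl⟩
  · rintro ⟨a, s, hs, rfl⟩
    exact ⟨a, s, hs, rfl⟩

instance locAt_isLocalization (P : Ideal R) [P.IsPrime] :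
    IsLocalization.AtPrime (locAt K P) P :=
  Localization.subalgebra.isLocalization_ofField K P.primeCompl P.primeCompl_le_nonZeroDivisors

instance locAt_isLocalRing (P : Ideal R) [P.IsPrime] : IsLocalRing (locAt K P) :=
  IsLocalization.AtPrime.isLocalRing (locAt K P) P

instance locAt_isNoetherianRing [IsNoetherianRing R] (P : Ideal R) [P.IsPrime] :
    IsNoetherianRing (locAt K P) :=
  IsLocalization.isNoetherianRing P.primeCompl (locAt K P) inferInstance


/-- **Key lemma.** In a noetherian integrally closed domain, a prime which is a colon ideal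
`(a) : c` with `a ≠ 0` has a discrete valuation ring as localisation. -/
theorem isDiscreteValuationRing_locAt_of_colon [IsNoetherianRing R] [IsIntegrallyClosed R]
    (P : Ideal R) [hPp : P.IsPrime] (a c : R) (ha : a ≠ 0)
    (hP : ∀ r, r ∈ P ↔ a ∣ r * c) : IsDiscreteValuationRing (locAt K P) := by
  have haP : a ∈ P := (hP a).2 ⟨c, rfl⟩
  have hc : ¬ a ∣ c := fun h => by
    have h1 : (1 : R) ∈ P := (hP 1).2 (by simpa using h)
    exact (Ideal.ne_top_iff_one P).1 hPp.ne_top h1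
  have hc0 : c ≠ 0 := fun h => hc (h ▸ dvd_zero a)
  have hinj : Function.Injective (algebraMap R K) := IsFractionRing.injective R K
  have haK : algebraMap R K a ≠ 0 := fun h => ha (hinj (by rw [h, map_zero]))
  have hcK : algebraMap R K c ≠ 0 := fun h => hc0 (hinj (by rw [h, map_zero]))
  set v : K := algebraMap R K c / algebraMap R K a with hv
  have hv0 : v ≠ 0 := div_ne_zero hcK haK
  have hk : ∀ r ∈ P, ∃ k : R, algebraMap R K k = algebraMap R K r * v := by
    intro r hr
    obtain ⟨k, hk⟩ := (hP r).1 hr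
    refine ⟨k, ?_⟩
    rw [hv, mul_div_assoc', eq_div_iff haK, ← map_mul, ← map_mul, hk, mul_comm]
  by_cases hcase : ∀ r ∈ P, ∀ k : R, algebraMap R K k = algebraMap R K r * v → k ∈ P
  · exfalso
    let N : Submodule R K := Submodule.map (Algebra.linearMap R K) P
    have hint : IsIntegral R v := by
      refine isIntegral_of_smul_mem_submodule N ?_ ?_ v ?_
      · rw [Submodule.ne_bot_iff]
        exact ⟨_, ⟨a, haP, rfl⟩, haK⟩
      · exact Submodule.FG.map _ (IsNoetherian.noetherian _)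
      · rintro n ⟨r, hr, rfl⟩
        obtain ⟨k, hk'⟩ := hk r hr
        refine ⟨k, hcase r hr k hk', ?_⟩
        rw [Algebra.linearMap_apply, hk', Algebra.linearMap_apply, smul_eq_mul, mul_comm]
    obtain ⟨y, hy⟩ := IsIntegrallyClosed.algebraMap_eq_of_integral hint
    apply hc
    refine ⟨y, hinj ?_⟩
    rw [map_mul, hy, hv, mul_div_cancel₀ _ haK]
  · push Not at hcase
    obtain ⟨t, htP, k, hkt, hkP⟩ := hcase
    have hk0 : k ≠ 0 := fun h => hkP (h ▸ P.zero_mem)
    have hkK : algebraMap R K k ≠ 0 := fun h => hk0 (hinj (by rw [h, map_zero]))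
    have htK : algebraMap R K t ≠ 0 := by
      intro h
      rw [h, zero_mul] at hkt
      exact hkK hkt
    have hmax : maximalIdeal (locAt K P) =
        Ideal.span {algebraMap R (locAt K P) t} := by
      rw [← IsLocalization.AtPrime.map_eq_maximalIdeal P (locAt K P)]
      apply le_antisymm
      · rw [Ideal.map_le_iff_le_comap]
        intro r hr
        rw [Ideal.mem_comap, Ideal.mem_span_singleton']
        obtain ⟨kr, hkr⟩ := hk r hr
        refine ⟨⟨algebraMap R K kr * (algebraMap R K k)⁻¹,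
          (mem_locAt_iff P _).2 ⟨kr, k, hkP, rfl⟩⟩, ?_⟩
        apply Subtype.ext
        show algebraMap R K kr * (algebraMap R K k)⁻¹ * algebraMap R K t = algebraMap R K r
        rw [hkr, hkt]
        field_simp
      · rw [Ideal.span_le, Set.singleton_subset_iff]
        exact Ideal.mem_map_of_mem _ htP
    have hprinc : (maximalIdeal (locAt K P)).IsPrincipal := ⟨⟨_, hmax⟩⟩
    have hpir : IsPrincipalIdealRing (locAt K P) :=
      ((tfae_of_isNoetherianRing_of_isLocalRing_of_isDomain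
        (R := locAt K P)).out 4 0).mp hprinc
    refine { toIsPrincipalIdealRing := hpir, toIsLocalRing := inferInstance, not_a_field' := ?_ }
    intro hbot
    have h1 : algebraMap R (locAt K P) t ∈ maximalIdeal (locAt K P) := by
      rw [hmax]
      exact Ideal.mem_span_singleton_self _
    rw [hbot, Ideal.mem_bot] at h1
    have h2 := congrArg (fun z : locAt K P => (z : K)) h1
    exact htK h2


omit [IsDomain R] in
theorem smul_mk_span_eq_zero_iff (a r c : R) :
    r • (Ideal.Quotient.mk (Ideal.span {a}) c) = 0 ↔ a ∣ r * c := by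
  have h1 : r • (Ideal.Quotient.mk (Ideal.span {a}) c) = Ideal.Quotient.mk (Ideal.span {a}) (r * c) :=
    rfl
  rw [h1, Ideal.Quotient.eq_zero_iff_mem, Ideal.mem_span_singleton]

/-- **Algebraic Hartogs lemma**, localisation form: an element of `K` which lies in `R_P` for
every prime `P` such that `R_P` is a discrete valuation ring lies in `R`. -/
theorem hartogs_locAt [IsNoetherianRing R] [IsIntegrallyClosed R] (u : K)
    (h : ∀ (P : Ideal R) [P.IsPrime], IsDiscreteValuationRing (locAt K P) → u ∈ locAt K P) :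
    u ∈ (algebraMap R K).range := by
  have hinj : Function.Injective (algebraMap R K) := IsFractionRing.injective R K
  obtain ⟨b, a, ha, rfl⟩ := IsFractionRing.div_surjective R u
  have ha0 : a ≠ 0 := nonZeroDivisors.ne_zero ha
  have haK : algebraMap R K a ≠ 0 := fun h => ha0 (hinj (by rw [h, map_zero]))
  by_cases hab : a ∣ b
  · obtain ⟨y, rfl⟩ := hab
    refine ⟨y, ?_⟩
    rw [map_mul, mul_div_cancel_left₀ _ haK]
  exfalso
  -- the module `R / (a)` and the class of `b`
  set x : R ⧸ Ideal.span {a} := Ideal.Quotient.mk _ b with hx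
  have hx0 : x ≠ 0 := by
    rw [hx, Ne, Ideal.Quotient.eq_zero_iff_mem, Ideal.mem_span_singleton]
    exact hab
  obtain ⟨P, hPass, hle⟩ := exists_le_isAssociatedPrime_of_isNoetherianRing R x hx0
  obtain ⟨hPp, y, hy⟩ := (isAssociatedPrime_iff (I := P) (M := R ⧸ Ideal.span {a})).1 hPass
  obtain ⟨c, rfl⟩ := Ideal.Quotient.mk_surjective y
  have hP : ∀ r, r ∈ P ↔ a ∣ r * c := by
    intro r
    rw [hy, Submodule.mem_colon_singleton, Submodule.mem_bot]
    exact smul_mk_span_eq_zero_iff a r c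
  have hdvr : IsDiscreteValuationRing (locAt K P) :=
    isDiscreteValuationRing_locAt_of_colon P a c ha0 hP
  obtain ⟨r, s, hs, hrs⟩ := (mem_locAt_iff P _).1 (h P hdvr)
  have hsK : algebraMap R K s ≠ 0 := by
    intro h0
    apply hs
    rw [hinj (by rw [h0, map_zero] : algebraMap R K s = algebraMap R K 0)]
    exact P.zero_mem
  have hsb : s * b = r * a := by
    apply hinj
    rw [map_mul, map_mul]
    field_simp at hrs
    rw [mul_comm, hrs, mul_comm]
  apply hs
  apply hle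
  rw [Submodule.mem_colon_singleton, Submodule.mem_bot, hx]
  exact (smul_mk_span_eq_zero_iff a s b).2 ⟨r, by rw [hsb, mul_comm]⟩


/-- The valuation subring of `K` given by a localisation `R_P` which is a valuation ring. -/
noncomputable def locValuationSubring (P : Ideal R) [P.IsPrime]
    (h : ValuationRing (locAt K P)) : ValuationSubring K :=
  { (locAt K P).toSubring with
    mem_or_inv_mem' := fun x => by
      rcases ValuationRing.isInteger_or_isInteger (locAt K P) (K := K) x with ⟨y, hy⟩ | ⟨y, hy⟩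
      · left
        rw [← hy]
        exact y.2
      · right
        rw [← hy]
        exact y.2 }

theorem mem_locValuationSubring_iff (P : Ideal R) [P.IsPrime]
    (h : ValuationRing (locAt K P)) (x : K) :
    x ∈ locValuationSubring P h ↔ x ∈ locAt K P := Iff.rfl

theorem algebraMap_mem_locValuationSubring (P : Ideal R) [P.IsPrime]
    (h : ValuationRing (locAt K P)) (r : R) : algebraMap R K r ∈ locValuationSubring P h :=
  (locAt K P).algebraMap_mem r

/-- The obvious ring isomorphism. -/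
noncomputable def locValuationSubringEquiv (P : Ideal R) [P.IsPrime]
    (h : ValuationRing (locAt K P)) : locAt K P ≃+* locValuationSubring P h :=
  { toFun := fun x => ⟨x.1, x.2⟩
    invFun := fun x => ⟨x.1, x.2⟩
    left_inv := fun _ => rfl
    right_inv := fun _ => rfl
    map_mul' := fun _ _ => rfl
    map_add' := fun _ _ => rfl }

theorem isDiscreteValuationRing_locValuationSubring (P : Ideal R) [P.IsPrime]
    (h : IsDiscreteValuationRing (locAt K P)) :
    IsDiscreteValuationRing (locValuationSubring P (inferInstance : ValuationRing (locAt K P))) :=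
  IsDiscreteValuationRing.RingEquivClass.isDiscreteValuationRing
    (locValuationSubringEquiv P inferInstance)

/-- A prime with DVR localisation has height one: it contains no nonzero prime other than
itself. -/
theorem eq_of_le_of_isDiscreteValuationRing (P Q : Ideal R) [hP : P.IsPrime] (hQ : Q.IsPrime)
    (hdvr : IsDiscreteValuationRing (locAt K P)) (hQ0 : Q ≠ ⊥) (hle : Q ≤ P) : Q = P := by
  have hd : Disjoint (P.primeCompl : Set R) (Q : Set R) := by
    rw [Set.disjoint_left]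
    intro x hx hxQ
    exact hx (hle hxQ)
  have hdP : Disjoint (P.primeCompl : Set R) (P : Set R) := by
    rw [Set.disjoint_left]
    intro x hx hxP
    exact hx hxP
  have hQ' : (Ideal.map (algebraMap R (locAt K P)) Q).IsPrime :=
    IsLocalization.isPrime_of_isPrime_disjoint P.primeCompl (locAt K P) Q hQ hd
  have hne : Ideal.map (algebraMap R (locAt K P)) Q ≠ ⊥ := by
    obtain ⟨q, hq, hq0⟩ := Submodule.exists_mem_ne_zero_of_ne_bot hQ0
    intro h
    have h1 : algebraMap R (locAt K P) q ∈ Ideal.map (algebraMap R (locAt K P)) Q :=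
      Ideal.mem_map_of_mem _ hq
    rw [h, Ideal.mem_bot] at h1
    apply hq0
    apply IsFractionRing.injective R K
    have h2 := congrArg (fun z : locAt K P => (z : K)) h1
    simpa using h2
  have hmax : (Ideal.map (algebraMap R (locAt K P)) Q).IsMaximal := hQ'.isMaximal hne
  have h3 : Ideal.map (algebraMap R (locAt K P)) Q = maximalIdeal (locAt K P) :=
    IsLocalRing.eq_maximalIdeal hmax
  rw [← IsLocalization.AtPrime.map_eq_maximalIdeal P (locAt K P)] at h3
  have h4 : (Ideal.map (algebraMap R (locAt K P)) Q).under R =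
      (Ideal.map (algebraMap R (locAt K P)) P).under R := by rw [h3]
  rwa [IsLocalization.under_map_of_isPrime_disjoint P.primeCompl (locAt K P) hQ hd,
    IsLocalization.under_map_of_isPrime_disjoint P.primeCompl (locAt K P) hP hdP] at h4

/-- `O` is a discrete valuation subring of `K` which is the localisation of `R` at the height-one
prime `P`. -/
structure IsLocDVR (O : ValuationSubring K) (P : Ideal R) : Prop where
  prime : P.IsPrime
  ne_bot : P ≠ ⊥
  dvr : IsDiscreteValuationRing O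
  le : ∀ r : R, algebraMap R K r ∈ O
  exists_frac : ∀ x ∈ O, ∃ r s : R, s ∉ P ∧ x = algebraMap R K r * (algebraMap R K s)⁻¹
  inv_mem : ∀ s : R, s ∉ P → (algebraMap R K s)⁻¹ ∈ O
  inv_not_mem : ∀ r : R, r ∈ P → r ≠ 0 → (algebraMap R K r)⁻¹ ∉ O
  height_one : ∀ Q : Ideal R, Q.IsPrime → Q ≠ ⊥ → Q ≤ P → Q = P

theorem isLocDVR_locValuationSubring (P : Ideal R) [hPp : P.IsPrime]
    (hdvr : IsDiscreteValuationRing (locAt K P)) :
    IsLocDVR (locValuationSubring P (inferInstance : ValuationRing (locAt K P))) P := by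
  have hinj : Function.Injective (algebraMap R K) := IsFractionRing.injective R K
  refine ⟨hPp, ?_, isDiscreteValuationRing_locValuationSubring P hdvr,
    algebraMap_mem_locValuationSubring P inferInstance, ?_, ?_, ?_, ?_⟩
  · intro hbot
    apply IsDiscreteValuationRing.not_a_field (locAt K P)
    rw [← IsLocalization.AtPrime.map_eq_maximalIdeal P (locAt K P), Ideal.map_eq_bot_iff_le_ker]
    intro x hx
    rw [hbot, Ideal.mem_bot] at hx
    rw [hx]
    exact Ideal.zero_mem _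
  · intro x hx
    exact (mem_locAt_iff P x).1 hx
  · intro s hs
    exact (mem_locAt_iff P _).2 ⟨1, s, hs, by rw [map_one, one_mul]⟩
  · intro r hr hr0 hinv
    have h1 : algebraMap R (locAt K P) r ∈ maximalIdeal (locAt K P) := by
      rw [← IsLocalization.AtPrime.map_eq_maximalIdeal P (locAt K P)]
      exact Ideal.mem_map_of_mem _ hr
    have h2 : IsUnit (algebraMap R (locAt K P) r) := by
      have hrK : algebraMap R K r ≠ 0 := fun h => hr0 (hinj (by rw [h, map_zero]))
      refine IsUnit.of_mul_eq_one ⟨(algebraMap R K r)⁻¹, hinv⟩ ?_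
      apply Subtype.ext
      show algebraMap R K r * (algebraMap R K r)⁻¹ = 1
      exact mul_inv_cancel₀ hrK
    exact (mem_nonunits_iff.1 ((IsLocalRing.mem_maximalIdeal _).1 h1)) h2
  · intro Q hQ hQ0 hle
    exact eq_of_le_of_isDiscreteValuationRing P Q hQ hdvr hQ0 hle

/-- **Algebraic Hartogs lemma**, valuation form.  If `u ∈ K` is not in `R` there is a discrete
valuation subring `O` of `K`, the localisation of `R` at a height-one prime `P`, with `u ∉ O`. -/
theorem exists_isLocDVR_not_mem [IsNoetherianRing R] [IsIntegrallyClosed R] (u : K)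
    (hu : u ∉ (algebraMap R K).range) :
    ∃ (O : ValuationSubring K) (P : Ideal R), IsLocDVR O P ∧ u ∉ O := by
  by_contra hcon
  apply hu
  apply hartogs_locAt u
  intro P hPp hdvr
  by_contra huP
  exact hcon ⟨_, P, isLocDVR_locValuationSubring P hdvr, huP⟩

/-- **Algebraic Hartogs lemma**, positive form. -/
theorem mem_range_of_forall_isLocDVR [IsNoetherianRing R] [IsIntegrallyClosed R] (u : K)
    (h : ∀ (O : ValuationSubring K) (P : Ideal R), IsLocDVR O P → u ∈ O) :
    u ∈ (algebraMap R K).range := by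
  by_contra hu
  obtain ⟨O, P, hOP, huO⟩ := exists_isLocDVR_not_mem u hu
  exact huO (h O P hOP)

/-- An element of `K` lying in every discrete valuation subring of `K` containing `R` lies in
`R`. -/
theorem mem_range_of_forall_valuationSubring [IsNoetherianRing R] [IsIntegrallyClosed R] (u : K)
    (h : ∀ O : ValuationSubring K, IsDiscreteValuationRing O →
      (∀ r : R, algebraMap R K r ∈ O) → u ∈ O) :
    u ∈ (algebraMap R K).range :=
  mem_range_of_forall_isLocDVR u (fun O _ hOP => h O hOP.dvr hOP.le)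

/-- **Trivial Weil divisor ⇒ unit.**  If `u ≠ 0` is a unit of every discrete valuation subring
of `K` which is the localisation of `R` at a height-one prime, then `u` is (the image of) a unit
of `R`. -/
theorem isUnit_of_forall_isLocDVR [IsNoetherianRing R] [IsIntegrallyClosed R] (u : K)
    (hu : u ≠ 0)
    (h : ∀ (O : ValuationSubring K) (P : Ideal R), IsLocDVR O P → u ∈ O ∧ u⁻¹ ∈ O) :
    ∃ r : Rˣ, algebraMap R K (r : R) = u := by
  obtain ⟨r, hr⟩ := mem_range_of_forall_isLocDVR u (fun O P hOP => (h O P hOP).1)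
  obtain ⟨r', hr'⟩ := mem_range_of_forall_isLocDVR u⁻¹ (fun O P hOP => (h O P hOP).2)
  have hinj : Function.Injective (algebraMap R K) := IsFractionRing.injective R K
  have hmul : r * r' = 1 := by
    apply hinj
    rw [map_mul, map_one]
    show algebraMap R K r * algebraMap R K r' = 1
    rw [hr, hr', mul_inv_cancel₀ hu]
  exact ⟨⟨r, r', hmul, by rw [mul_comm, hmul]⟩, hr⟩

/-- Same with all discrete valuation subrings containing `R`. -/
theorem isUnit_of_forall_valuationSubring [IsNoetherianRing R] [IsIntegrallyClosed R] (u : K)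
    (hu : u ≠ 0)
    (h : ∀ O : ValuationSubring K, IsDiscreteValuationRing O →
      (∀ r : R, algebraMap R K r ∈ O) → u ∈ O ∧ u⁻¹ ∈ O) :
    ∃ r : Rˣ, algebraMap R K (r : R) = u :=
  isUnit_of_forall_isLocDVR u hu (fun O _ hOP => h O hOP.dvr hOP.le)

end Fermat.Agent.A2.H849

end
-- ===== PACK-END A2/H849/Hartogs.lean

-- ===== PACK-BEGIN A2/IF/H429/Dvr.lean
section


/-!
# A2 / IF (helper429): a criterion for discrete valuation rings (Mathlib only)

A valuation ring in which a fixed power `x ^ N` of every nonzero element is associated to a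
power of a fixed nonzero non-unit `ϖ` is a discrete valuation ring.
-/

set_option autoImplicit false

namespace Fermat.Agent.A2.IF.H429

section

variable {R : Type*} [CommRing R] [IsDomain R]

theorem pow_associated_inj {ϖ : R} (hϖ0 : ϖ ≠ 0) (hϖ : ¬ IsUnit ϖ) {a b : ℕ}
    (h : Associated (ϖ ^ a) (ϖ ^ b)) : a = b := by
  wlog hab : a ≤ b generalizing a b
  · exact (this h.symm (le_of_not_ge hab)).symm
  obtain ⟨c, rfl⟩ := Nat.exists_eq_add_of_le hab
  by_contra hne
  have hc : c ≠ 0 := fun h0 => hne (by simp [h0])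
  obtain ⟨u, hu⟩ := h
  rw [pow_add] at hu
  have h1 : (u : R) = ϖ ^ c := mul_left_cancel₀ (pow_ne_zero a hϖ0) hu
  have h2 : IsUnit (ϖ ^ c) := h1 ▸ u.isUnit
  exact hϖ ((isUnit_pow_iff hc).mp h2)

variable [ValuationRing R]

/-- **DVR criterion.** -/
theorem isDiscreteValuationRing_of_pow_associated (ϖ : R) (hϖ0 : ϖ ≠ 0) (hϖ : ¬ IsUnit ϖ)
    (N : ℕ) (hN : 0 < N) (h : ∀ x : R, x ≠ 0 → ∃ k : ℕ, Associated (x ^ N) (ϖ ^ k)) :
    IsDiscreteValuationRing R := by
  classical
  -- the "valuation"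
  choose! ν hν using h
  have hν_unique : ∀ x : R, x ≠ 0 → ∀ k : ℕ, Associated (x ^ N) (ϖ ^ k) → ν x = k := by
    intro x hx k hk
    exact pow_associated_inj hϖ0 hϖ ((hν x hx).symm.trans hk)
  have hν_mul : ∀ x y : R, x ≠ 0 → y ≠ 0 → ν (x * y) = ν x + ν y := by
    intro x y hx hy
    apply hν_unique _ (mul_ne_zero hx hy)
    rw [mul_pow, pow_add]
    exact (hν x hx).mul_mul (hν y hy)
  have hν_unit : ∀ x : R, x ≠ 0 → (ν x = 0 ↔ IsUnit x) := by
    intro x hx
    constructor
    · intro h0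
      have h1 := hν x hx
      rw [h0, pow_zero] at h1
      have h2 : IsUnit (x ^ N) := h1.symm.isUnit isUnit_one
      exact (isUnit_pow_iff hN.ne').mp h2
    · intro hu
      apply hν_unique x hx 0
      rw [pow_zero]
      exact associated_one_iff_isUnit.mpr (hu.pow N)
  -- a non-unit of minimal valuation
  have hex : ∃ k : ℕ, ∃ x : R, x ≠ 0 ∧ ¬ IsUnit x ∧ ν x = k := ⟨ν ϖ, ϖ, hϖ0, hϖ, rfl⟩
  obtain ⟨π, hπ0, hπu, hπk⟩ := Nat.find_spec hex
  have hmin : ∀ x : R, x ≠ 0 → ¬ IsUnit x → ν π ≤ ν x := by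
    intro x hx hxu
    rw [hπk]
    exact Nat.find_min' hex ⟨x, hx, hxu, rfl⟩
  have hπpos : 0 < ν π := by
    rcases Nat.eq_zero_or_pos (ν π) with h0 | h0
    · exact absurd ((hν_unit π hπ0).mp h0) hπu
    · exact h0
  have hirr : Irreducible π := by
    refine ⟨hπu, fun a b hab => ?_⟩
    by_contra hcon
    rw [not_or] at hcon
    have ha0 : a ≠ 0 := by
      rintro rfl
      rw [zero_mul] at hab
      exact hπ0 hab
    have hb0 : b ≠ 0 := by
      rintro rfl
      rw [mul_zero] at hab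
      exact hπ0 hab
    have h1 := hν_mul a b ha0 hb0
    rw [← hab] at h1
    have h2 := hmin a ha0 hcon.1
    have h3 := hmin b hb0 hcon.2
    omega
  have key : ∀ n : ℕ, ∀ x : R, x ≠ 0 → ν x = n → ∃ j : ℕ, Associated (π ^ j) x := by
    intro n
    induction n using Nat.strong_induction_on with
    | _ n ih =>
      intro x hx hxn
      by_cases hxu : IsUnit x
      · exact ⟨0, by rw [pow_zero]; exact (associated_one_iff_isUnit.mpr hxu).symm⟩
      · rcases ValuationRing.dvd_total π x with ⟨y, hy⟩ | ⟨z, hz⟩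
        · have hy0 : y ≠ 0 := by
            rintro rfl
            rw [mul_zero] at hy
            exact hx hy
          have h1 := hν_mul π y hπ0 hy0
          rw [← hy, hxn] at h1
          obtain ⟨j, hj⟩ := ih (ν y) (by omega) y hy0 rfl
          refine ⟨j + 1, ?_⟩
          rw [pow_succ', hy]
          exact (Associated.refl π).mul_mul hj
        · have hz0 : z ≠ 0 := by
            rintro rfl
            rw [mul_zero] at hz
            exact hπ0 hz
          rcases hirr.isUnit_or_isUnit hz with h1 | h1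
          · exact absurd h1 hxu
          · refine ⟨1, ?_⟩
            rw [pow_one, hz]
            exact (associated_mul_unit_right x z h1).symm
  exact IsDiscreteValuationRing.ofHasUnitMulPowIrreducibleFactorization
    ⟨π, hirr, fun {x} hx => key (ν x) x hx rfl⟩

end

end Fermat.Agent.A2.IF.H429

end
-- ===== PACK-END A2/IF/H429/Dvr.lean

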