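import Mathlib
import Fermat.Prelude.Def_FLTPrelim_FreyPackage
import Fermat.Prelude.Def_FLTPrelim_GaloisRep
import Fermat.Prelude.Def_FLTPrelim_Modularity
import Fermat.Prelude.Def_FLTPrelim_ModularRep
import Fermat.Prelude.Def_FLTPrelim_Ramification
import Fermat.Prelude.Def_FLTPrelim_CofixedLine
import Fermat.Prelude.Def_FreyPackage_IsConductorLevel
import Fermat.Prelude.Def_FreyPackage_LevelRaising
import Fermat.Prelude.Def_FreyPackage_EigenformResidualAttachment
import Fermat.Prelude.Def_WeierstrassCurve_PeuRamifiee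
import Fermat.Prelude.Def_ModularCurve_HeckeModule
import Mathlib.RingTheory.LaurentSeries
import Mathlib.Algebra.Polynomial.AlgebraMap
import Fermat.Prelude.Def_ModularCurve_LaurentCoeff

-- ===== PACK-BEGIN Lib/RR/H638/LinAlg.lean
section


/-!
# Linear algebra for the Čech formula (helper638)

`finrank_map_mkQ_of_exhaust`: if `V` is exhausted by an increasing chain of finite-dimensional
subspaces `Vₙ` with `dim Vₙ = dim (W ⊓ Vₙ) + g` for `n ≥ n₀`, then the image of `V` in `E ⧸ W`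
has dimension `g`.
-/

set_option autoImplicit false

namespace Fermat.Agent.Lib.RR.H638

variable {K E : Type*} [Field K] [AddCommGroup E] [Module K E]

theorem finrank_map_mkQ_add (W U : Submodule K E) [Module.Finite K U] :
    Module.finrank K ↥(U.map W.mkQ) + Module.finrank K ↥(W ⊓ U) = Module.finrank K U := by
  have h := LinearMap.finrank_range_add_finrank_ker (W.mkQ.comp U.subtype)
  have hr : LinearMap.range (W.mkQ.comp U.subtype) = U.map W.mkQ := by
    rw [LinearMap.range_comp, Submodule.range_subtype]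
  have hk : LinearMap.ker (W.mkQ.comp U.subtype) = Submodule.comap U.subtype (W ⊓ U) := by
    rw [LinearMap.ker_comp, Submodule.ker_mkQ, Submodule.comap_inf, Submodule.comap_subtype_self,
      inf_top_eq]
  rw [hr, hk] at h
  have e := Submodule.comapSubtypeEquivOfLe (inf_le_right : W ⊓ U ≤ U)
  rw [← h, e.finrank_eq]

theorem finrank_map_mkQ_of_exhaust (V W : Submodule K E) (Vn : ℕ → Submodule K E)
    (hmono : Monotone Vn) (hfin : ∀ n, Module.Finite K (Vn n)) (hVn : ∀ n, Vn n ≤ V)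
    (hex : ∀ f ∈ V, ∃ n, f ∈ Vn n) (g n0 : ℕ)
    (hdim : ∀ n, n0 ≤ n → Module.finrank K (Vn n) = Module.finrank K ↥(W ⊓ Vn n) + g) :
    Module.Finite K ↥(V.map W.mkQ) ∧ Module.finrank K ↥(V.map W.mkQ) = g := by
  have hI : ∀ n, n0 ≤ n → Module.finrank K ↥((Vn n).map W.mkQ) = g := by
    intro n hn
    have := hfin n
    have h1 := finrank_map_mkQ_add W (Vn n)
    have h2 := hdim n hn
    omega
  have hfinI : ∀ n, Module.Finite K ↥((Vn n).map W.mkQ) := fun n => by
    have := hfin n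
    infer_instance
  have heq : ∀ n, n0 ≤ n → (Vn n0).map W.mkQ = (Vn n).map W.mkQ := by
    intro n hn
    have := hfinI n
    exact Submodule.eq_of_le_of_finrank_eq (Submodule.map_mono (hmono hn))
      ((hI n0 le_rfl).trans (hI n hn).symm)
  have htop : V.map W.mkQ = (Vn n0).map W.mkQ := by
    apply le_antisymm
    · rintro _ ⟨f, hf, rfl⟩
      obtain ⟨n, hn⟩ := hex f hf
      have hle : Vn n ≤ Vn (max n n0) := hmono (le_max_left _ _)
      rw [heq (max n n0) (le_max_right _ _)]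
      exact ⟨f, hle hn, rfl⟩
    · exact Submodule.map_mono (hVn n0)
  rw [htop]
  exact ⟨hfinI n0, hI n0 le_rfl⟩

end Fermat.Agent.Lib.RR.H638

end
-- ===== PACK-END Lib/RR/H638/LinAlg.lean

-- ===== PACK-BEGIN A2/H129/GaussTwice.lean
section


/-!
# A2 / K2 (abstract part): applying `τ - 1` twice makes a function `≡ 1` along every component

Pure valuation theory, Mathlib only.

`F` is a field (in the application: the function field `Q̄(X₀(N))`), `Kc` the subfield of
constants, `V` a valuation subring of `F` (a Gauss valuation = a component of the special fibre),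
`τ` a ring automorphism of `F` (the action of an element of the inertia group through the
coefficients).

* `InInertia V τ` : `τ` acts trivially on the residue field of `V`
  (`v (τ u - u) < 1` for all `u` with `v u ≤ 1`).
* `HasConstValues Kc V` : every nonzero `f` is a constant times a unit of `V`
  (the value group of `V` is the value group of the constants).
* `PreservesConstValues Kc V τ` : `τ c / c` is a unit of `V` for every nonzero constant `c`.

Main results (multiplicative notation: `tauSubOne τ f = τ f / f`):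

* `oneAddNonunits_tauSubOne` : `u` unit of `V` ⟹ `τ u / u ∈ 1 + 𝔪_V`.
* `exists_const_twice` : for every `f ≠ 0` there is a constant `c ≠ 0` with
  `(τ - 1)² f / c ∈ 1 + 𝔪_V`.
* `exists_const_twice_two` : the same for two valuation subrings `V∞`, `V₀`
  SIMULTANEOUSLY (one constant `c` for both).
* `exists_const_once_two` : `(τ - 1) f / c ∈ 1 + 𝔪_{V∞}` and `(τ - 1) f / (c c') ∈ 1 + 𝔪_{V₀}` with a
  constant `c'` which is a unit of `V₀`.
-/

set_option autoImplicit false

namespace Fermat.Agent.A2.H129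

variable {F : Type*} [Field F]

/-- `u` is a unit of the valuation subring `V`. -/
def IsUnitOf (V : ValuationSubring F) (u : F) : Prop := V.valuation u = 1

/-- `g ∈ 1 + 𝔪_V`. -/
def OneAddNonunits (V : ValuationSubring F) (g : F) : Prop := V.valuation (g - 1) < 1

/-- `τ` acts trivially on the residue field of `V` (and hence maps `V` to itself). -/
def InInertia (V : ValuationSubring F) (τ : F ≃+* F) : Prop :=
  ∀ u : F, V.valuation u ≤ 1 → V.valuation (τ u - u) < 1

/-- every nonzero element of `F` is a constant times a unit of `V`. -/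
def HasConstValues (Kc : Subfield F) (V : ValuationSubring F) : Prop :=
  ∀ f : F, f ≠ 0 → ∃ c ∈ Kc, c ≠ 0 ∧ IsUnitOf V (f * c⁻¹)

/-- `τ` preserves the valuation of the constants. -/
def PreservesConstValues (Kc : Subfield F) (V : ValuationSubring F) (τ : F ≃+* F) : Prop :=
  ∀ c ∈ Kc, c ≠ 0 → IsUnitOf V (τ c * c⁻¹)

/-- the multiplicative version of `τ - 1`. -/
def tauSubOne (τ : F ≃+* F) (f : F) : F := τ f * f⁻¹

section basic

variable {V : ValuationSubring F} {τ : F ≃+* F}

theorem IsUnitOf.ne_zero {u : F} (hu : IsUnitOf V u) : u ≠ 0 := by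
  rintro rfl
  simp [IsUnitOf] at hu

theorem IsUnitOf.mul {u w : F} (hu : IsUnitOf V u) (hw : IsUnitOf V w) : IsUnitOf V (u * w) := by
  simp only [IsUnitOf, map_mul] at *
  rw [hu, hw, one_mul]

theorem IsUnitOf.inv {u : F} (hu : IsUnitOf V u) : IsUnitOf V u⁻¹ := by
  simp only [IsUnitOf, map_inv₀] at *
  rw [hu, inv_one]

theorem OneAddNonunits.isUnitOf {g : F} (hg : OneAddNonunits V g) : IsUnitOf V g := by
  have h1 : V.valuation (1 : F) = 1 := map_one _
  have h : V.valuation (1 + (g - 1)) = V.valuation (1 : F) :=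
    Valuation.map_add_eq_of_lt_left _ (by rw [h1]; exact hg)
  have e : (1 : F) + (g - 1) = g := by ring
  rw [e, h1] at h
  exact h

theorem OneAddNonunits.one : OneAddNonunits V (1 : F) := by
  simp [OneAddNonunits]

theorem OneAddNonunits.mul {g h : F} (hg : OneAddNonunits V g) (hh : OneAddNonunits V h) :
    OneAddNonunits V (g * h) := by
  have e : g * h - 1 = (g - 1) * h + (h - 1) := by ring
  have hh1 : V.valuation h = 1 := hh.isUnitOf
  have h1 : V.valuation ((g - 1) * h) < 1 := by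
    rw [map_mul, hh1, mul_one]; exact hg
  unfold OneAddNonunits at *
  rw [e]
  exact lt_of_le_of_lt (Valuation.map_add _ _ _) (max_lt h1 hh)

theorem OneAddNonunits.inv {g : F} (hg : OneAddNonunits V g) : OneAddNonunits V g⁻¹ := by
  have hg1 : V.valuation g = 1 := hg.isUnitOf
  have hg0 : g ≠ 0 := (hg.isUnitOf).ne_zero
  have e : g⁻¹ - 1 = -((g - 1) * g⁻¹) := by field_simp; ring
  unfold OneAddNonunits at *
  rw [e, Valuation.map_neg, map_mul, map_inv₀, hg1, inv_one, mul_one]
  exact hg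

/-- `τ` maps units of `V` to units of `V`. -/
theorem InInertia.isUnitOf (hτ : InInertia V τ) {u : F} (hu : IsUnitOf V u) :
    IsUnitOf V (τ u) := by
  have h := hτ u (le_of_eq hu)
  have h' : V.valuation (u + (τ u - u)) = V.valuation u :=
    Valuation.map_add_eq_of_lt_left _ (by rw [hu]; exact h)
  have e : u + (τ u - u) = τ u := by ring
  rw [e] at h'
  exact h'.trans hu

/-- **Lemma B.** For a unit `u` of `V`, `τ u / u ∈ 1 + 𝔪_V`. -/
theorem oneAddNonunits_tauSubOne (hτ : InInertia V τ) {u : F} (hu : IsUnitOf V u) :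
    OneAddNonunits V (tauSubOne τ u) := by
  have hu0 : u ≠ 0 := hu.ne_zero
  have e : tauSubOne τ u - 1 = (τ u - u) * u⁻¹ := by
    unfold tauSubOne; field_simp
  unfold OneAddNonunits
  rw [e, map_mul, map_inv₀, hu, inv_one, mul_one]
  exact hτ u (le_of_eq hu)

theorem tauSubOne_mul (τ : F ≃+* F) (f g : F) :
    tauSubOne τ (f * g) = tauSubOne τ f * tauSubOne τ g := by
  unfold tauSubOne
  rw [map_mul, mul_inv]
  ring

theorem tauSubOne_inv (τ : F ≃+* F) (f : F) :
    tauSubOne τ f⁻¹ = (tauSubOne τ f)⁻¹ := by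
  unfold tauSubOne
  rw [map_inv₀, mul_inv]

theorem tauSubOne_ne_zero (τ : F ≃+* F) {f : F} (hf : f ≠ 0) : tauSubOne τ f ≠ 0 := by
  unfold tauSubOne
  exact mul_ne_zero (by simpa using hf) (inv_ne_zero hf)

theorem tauSubOne_mem (Kc : Subfield F) (hK : ∀ c ∈ Kc, τ c ∈ Kc) {c : F} (hc : c ∈ Kc) :
    tauSubOne τ c ∈ Kc :=
  Kc.mul_mem (hK c hc) (Kc.inv_mem hc)

end basic

section main

variable {Kc : Subfield F} {τ : F ≃+* F}

/-- **One valuation.** For every `f ≠ 0` there is a constant `c ≠ 0` such that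
`(τ - 1) f / c ∈ 1 + 𝔪_V`. -/
theorem exists_const_once {V : ValuationSubring F}
    (hK : ∀ c ∈ Kc, τ c ∈ Kc) (hV : HasConstValues Kc V) (hτ : InInertia V τ)
    {f : F} (hf : f ≠ 0) :
    ∃ c ∈ Kc, c ≠ 0 ∧ OneAddNonunits V (tauSubOne τ f * c⁻¹) := by
  obtain ⟨c, hc, hc0, hu⟩ := hV f hf
  refine ⟨tauSubOne τ c, tauSubOne_mem Kc hK hc, tauSubOne_ne_zero τ hc0, ?_⟩
  have e : tauSubOne τ f * (tauSubOne τ c)⁻¹ = tauSubOne τ (f * c⁻¹) := by
    rw [tauSubOne_mul, tauSubOne_inv]
  rw [e]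
  exact oneAddNonunits_tauSubOne hτ hu

/-- **Two valuations, once.**  For every `f ≠ 0` there are constants `c`, `c'` with
`(τ-1) f / c ∈ 1 + 𝔪_{V₁}`, `(τ-1) f / (c c') ∈ 1 + 𝔪_{V₀}`, and `c'` a unit of `V₀`. -/
theorem exists_const_once_two {V₁ V₀ : ValuationSubring F}
    (hK : ∀ c ∈ Kc, τ c ∈ Kc)
    (hV₁ : HasConstValues Kc V₁) (hτ₁ : InInertia V₁ τ)
    (hV₀ : HasConstValues Kc V₀) (hτ₀ : InInertia V₀ τ)
    (hP₀ : PreservesConstValues Kc V₀ τ)
    {f : F} (hf : f ≠ 0) :
    ∃ c ∈ Kc, c ≠ 0 ∧ ∃ c' ∈ Kc, IsUnitOf V₀ c' ∧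
      OneAddNonunits V₁ (tauSubOne τ f * c⁻¹) ∧
      OneAddNonunits V₀ (tauSubOne τ f * c⁻¹ * c'⁻¹) := by
  obtain ⟨c, hc, hc0, hu⟩ := hV₁ f hf
  have hfc : f * c⁻¹ ≠ 0 := hu.ne_zero
  obtain ⟨d, hd, hd0, hud⟩ := hV₀ (f * c⁻¹) hfc
  refine ⟨tauSubOne τ c, tauSubOne_mem Kc hK hc, tauSubOne_ne_zero τ hc0,
    tauSubOne τ d, tauSubOne_mem Kc hK hd, hP₀ d hd hd0, ?_, ?_⟩
  · have e : tauSubOne τ f * (tauSubOne τ c)⁻¹ = tauSubOne τ (f * c⁻¹) := by
      rw [tauSubOne_mul, tauSubOne_inv]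
    rw [e]
    exact oneAddNonunits_tauSubOne hτ₁ hu
  · have e : tauSubOne τ f * (tauSubOne τ c)⁻¹ * (tauSubOne τ d)⁻¹
        = tauSubOne τ (f * c⁻¹ * d⁻¹) := by
      rw [tauSubOne_mul, tauSubOne_mul, tauSubOne_inv, tauSubOne_inv]
    rw [e]
    exact oneAddNonunits_tauSubOne hτ₀ hud

/-- **Two valuations, twice (K2).**  For every `f ≠ 0` there is ONE constant `c ≠ 0` such that
`(τ - 1)² f / c` lies in `1 + 𝔪_{V₁}` and in `1 + 𝔪_{V₀}`. -/
theorem exists_const_twice_two {V₁ V₀ : ValuationSubring F}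
    (hK : ∀ c ∈ Kc, τ c ∈ Kc)
    (hV₁ : HasConstValues Kc V₁) (hτ₁ : InInertia V₁ τ)
    (hV₀ : HasConstValues Kc V₀) (hτ₀ : InInertia V₀ τ)
    (hP₀ : PreservesConstValues Kc V₀ τ)
    {f : F} (hf : f ≠ 0) :
    ∃ c ∈ Kc, c ≠ 0 ∧
      OneAddNonunits V₁ (tauSubOne τ (tauSubOne τ f) * c⁻¹) ∧
      OneAddNonunits V₀ (tauSubOne τ (tauSubOne τ f) * c⁻¹) := by
  obtain ⟨c, hc, hc0, c', hc', hu', h₁, h₀⟩ :=
    exists_const_once_two hK hV₁ hτ₁ hV₀ hτ₀ hP₀ hf
  have hc'0 : c' ≠ 0 := hu'.ne_zero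
  -- `g₁ := (τ-1) f / c ∈ 1 + 𝔪_{V₁}`, and `g₁ / c' ∈ 1 + 𝔪_{V₀}`
  refine ⟨tauSubOne τ c, tauSubOne_mem Kc hK hc, tauSubOne_ne_zero τ hc0, ?_, ?_⟩
  · have e : tauSubOne τ (tauSubOne τ f) * (tauSubOne τ c)⁻¹
        = tauSubOne τ (tauSubOne τ f * c⁻¹) := by
      rw [tauSubOne_mul, tauSubOne_inv]
    rw [e]
    exact oneAddNonunits_tauSubOne hτ₁ h₁.isUnitOf
  · have e : tauSubOne τ (tauSubOne τ f) * (tauSubOne τ c)⁻¹
        = tauSubOne τ (tauSubOne τ f * c⁻¹ * c'⁻¹) * tauSubOne τ c' := by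
      rw [tauSubOne_mul, tauSubOne_mul, tauSubOne_inv, tauSubOne_inv]
      have : tauSubOne τ c' ≠ 0 := tauSubOne_ne_zero τ hc'0
      field_simp
    rw [e]
    exact (oneAddNonunits_tauSubOne hτ₀ h₀.isUnitOf).mul (oneAddNonunits_tauSubOne hτ₀ hu')

end main

end Fermat.Agent.A2.H129

end
-- ===== PACK-END A2/H129/GaussTwice.lean

-- ===== PACK-BEGIN Ribet/Spec.lean
section













/-!
# Row RIBET (S38/S43, S39/S40/S44, S45): interface statements

Row-lead file (helper943).  Everything here is a `Prop`-valued *definition*: no proofs, no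
`sorry`.  Owners prove `theorem foo : Spec.FooStatement`; glue consumes the statements as
hypotheses.  Plan, layers and owners: `coord/RIBET.md` on branch `origin/helper943`.

Layers
* L0  frozen statements of this row and of the rows it consumes, as `Prop`s;
* L1  eigenform-level interfaces (Frey form): model transport, Mazur principle at `q ≠ p`,
      Mazur-Ribet at `p`, auxiliary prime, old/new dichotomy, Ribet pivot;
* L3  geometric interfaces on `J₀(N)(ℚ̄)` requested from rows A2 / A3 / S29.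
-/

set_option autoImplicit false

open WeierstrassCurve WeierstrassCurve.Affine WeierstrassCurve.Affine.Point
open CuspForm ModularFormClass UpperHalfPlane

namespace Fermat.Agent.Ribet.Spec

/-- Absolute Galois group of `ℚ`. -/
abbrev GQ : Type := AlgebraicClosure ℚ ≃ₐ[ℚ] AlgebraicClosure ℚ

/-! ## L0. Frozen statements, as Props -/

/-- Frozen S43 (row 37, Frey form). -/
def S43Statement : Prop :=
  ∀ (P : FreyPackage) {N q : ℕ}, P.IsConductorLevel N → q.Prime → q ≠ 2 → q ≠ P.p → q ∣ N →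
    GaloisRepIsIrreducible (K := AlgebraicClosure ℚ) ℚ P.freyCurve P.p →
    P.ModularRepOfLevel N → P.GaloisRepUnramifiedAt q →
    ∃ M : ℕ, M ∣ N ∧ ¬ q ∣ M ∧ P.ModularRepOfLevel M

/-- Frozen S44 (row 38, Frey form). -/
def S44Statement : Prop :=
  ∀ (P : FreyPackage) {N : ℕ}, P.IsConductorLevel N → P.p ∣ N →
    GaloisRepIsIrreducible (K := AlgebraicClosure ℚ) ℚ P.freyCurve P.p →
    P.ModularRepOfLevel N →
    ∃ M : ℕ, M ∣ N ∧ ¬ P.p ∣ M ∧ P.ModularRepOfLevel M

/-- Frozen S39 (row 38, peu ramifié form). -/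
def S39Statement : Prop :=
  ∀ (W : WeierstrassCurve ℤ), W.Δ ≠ 0 → ∀ {p : ℕ}, p.Prime → p ≠ 2 →
    ((p : ℤ) ∣ W.Δ → ¬ (p : ℤ) ∣ W.c₄) → W.ModRepIsIrreducible p →
    (W.map (Int.castRingHom ℚ)).IsPeuRamifieeAt p p →
    ∀ {M : ℕ}, 0 < M → p ∣ M → ¬ p ^ 2 ∣ M → W.IsResiduallyModularOfLevel p M →
    W.IsResiduallyModularOfLevel p (M / p)

/-- Frozen S40 (row 38, good reduction form). -/
def S40Statement : Prop :=
  ∀ (W : WeierstrassCurve ℤ), W.Δ ≠ 0 → ∀ {p : ℕ}, p.Prime → p ≠ 2 →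
    W.IsGoodPrimeFor p → W.ModRepIsIrreducible p →
    ∀ {M : ℕ}, 0 < M → p ∣ M → ¬ p ^ 2 ∣ M → W.IsResiduallyModularOfLevel p M →
    W.IsResiduallyModularOfLevel p (M / p)

/-- Frozen S45. -/
def S45Statement : Prop :=
  ∀ (P : FreyPackage), P.freyCurve.IsModular →
    GaloisRepIsIrreducible (K := AlgebraicClosure ℚ) ℚ P.freyCurve P.p →
    ∃ f : CuspForm (CongruenceSubgroup.Gamma0 2) 2, f ≠ 0

/-- Frozen S05 (landed on main as `Fermat.Agent.S05.result`). -/
def S05Statement : Prop :=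
  ∀ (P : FreyPackage) {q : ℕ}, q.Prime → q ≠ 2 → q ≠ P.p → P.GaloisRepUnramifiedAt q

/-- Frozen S06 (glue row; consumed by S45). -/
def S06Statement : Prop :=
  ∀ (P : FreyPackage), ∃ N : ℕ, P.IsConductorLevel N ∧ P.ModularRepOfLevel N

/-- Frozen S42 (row S29/S42). -/
def S42Statement : Prop :=
  ∀ (P : FreyPackage) (M : ℕ), 0 < M → P.EigenformResidualAttachmentAt M

/-- Level raising in the Frey form of the Prelude (`FreyPackage.LevelRaising`); this is what
frozen S41 gives after unfolding `IsCongruentWitness` (adapter = piece G4). -/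
def LevelRaisingStatement : Prop :=
  ∀ (P : FreyPackage) (N q' : ℕ), P.LevelRaising N q'

/-! ## L1. Eigenform-level interfaces -/

/-- (G1a) ELEMENTARY.  When `p ∣ abc` the Frey curve has an integral model which is
semistable at `p` and peu ramifié at `p` (`v_p(Δ) = 2p·v_p(abc)`; take `P.freyCurveInt`). -/
def FreyModelAtPStatement : Prop :=
  ∀ (P : FreyPackage), (P.p : ℤ) ∣ P.a * P.b * P.c →
    ∃ W : WeierstrassCurve ℤ, W.IsIntegralModelOf P.freyCurve ∧ W.Δ ≠ 0 ∧
      ((P.p : ℤ) ∣ W.Δ → ¬ (P.p : ℤ) ∣ W.c₄) ∧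
      (W.map (Int.castRingHom ℚ)).IsPeuRamifieeAt P.p P.p

/-- (G1b) ELEMENTARY.  Irreducibility of the mod-`n` representation only depends on the
`ℚ`-isomorphism class. -/
def IrrTransportStatement : Prop :=
  ∀ (E : WeierstrassCurve ℚ) (W : WeierstrassCurve ℤ) (n : ℕ), W.IsIntegralModelOf E →
    GaloisRepIsIrreducible (K := AlgebraicClosure ℚ) ℚ E n → W.ModRepIsIrreducible n

/-- (G1c) ELEMENTARY.  An integral model of the Frey curve is bad at every odd prime
dividing `abc` (`j`-invariant is not `q`-integral). -/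
def FreyBadPrimeStatement : Prop :=
  ∀ (P : FreyPackage) (W : WeierstrassCurve ℤ) (q : ℕ), W.IsIntegralModelOf P.freyCurve →
    q.Prime → q ≠ 2 → (q : ℤ) ∣ P.a * P.b * P.c → ¬ W.IsGoodPrimeFor q

/-- (G2) MODEL TRANSPORT.  A congruence witness for one integral model of the Frey curve is
a congruence witness for every integral model.  Inputs: frozen S42 + `Lib/Cheb` Tier 1 + the
trace formula `a_ℓ(W) ≡ tr(Frob_ℓ | E[p])`. -/
def ModelTransportStatement : Prop :=
  ∀ (P : FreyPackage) (N : ℕ), 0 < N → P.ModularRepOfLevel N →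
    ∀ W : WeierstrassCurve ℤ, W.IsIntegralModelOf P.freyCurve →
      W.IsResiduallyModularOfLevel P.p N

/-- (TF) TRACE FORMULA.  For an integral model `W` of `E`, a prime `ℓ ≠ n` of good reduction
of `W` and any Frobenius `τ` at a place over `ℓ`, the trace of `τ` on `E[n]` is `a_ℓ(W)`.
(Shared with rows S52 / S29-S42.) -/
def TraceFormulaStatement : Prop :=
  ∀ (E : WeierstrassCurve ℚ) [E.IsElliptic] (W : WeierstrassCurve ℤ), W.IsIntegralModelOf E →
    ∀ (n ℓ : ℕ), n.Prime → ℓ.Prime → ℓ ≠ n → W.IsGoodPrimeFor ℓ →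
    ∀ A : ValuationSubring (AlgebraicClosure ℚ), A.LiesOverPrime ℓ →
    ∀ τ : GQ, A.IsFrobeniusAt τ ℓ →
      galoisTrace (S := ℚ) (K := AlgebraicClosure ℚ) E n τ = ((W.apOfModel ℓ : ℤ) : ZMod n)

/-- (MPq) MAZUR'S PRINCIPLE at `q ≠ p`, Frey form, general level `L` with `q ‖ L`,
for `q ≢ 1 mod p`. -/
def MazurPrincipleStatement : Prop :=
  ∀ (P : FreyPackage) {L q : ℕ}, 0 < L → q.Prime → q ≠ P.p → q ∣ L → ¬ q ^ 2 ∣ L →
    GaloisRepIsIrreducible (K := AlgebraicClosure ℚ) ℚ P.freyCurve P.p →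
    P.ModularRepOfLevel L → P.GaloisRepUnramifiedAt q → ¬ P.p ∣ q - 1 →
    P.ModularRepOfLevel (L / q)

/-- (MPq-weak) the same with the weaker exclusion `q ≢ ±1 mod p` (what the Prelude predicate
`ToricFrobeniusSq` gives). -/
def MazurPrincipleWeakStatement : Prop :=
  ∀ (P : FreyPackage) {L q : ℕ}, 0 < L → q.Prime → q ≠ P.p → q ∣ L → ¬ q ^ 2 ∣ L →
    GaloisRepIsIrreducible (K := AlgebraicClosure ℚ) ℚ P.freyCurve P.p →
    P.ModularRepOfLevel L → P.GaloisRepUnramifiedAt q → ¬ P.p ∣ q - 1 → ¬ P.p ∣ q + 1 →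
    P.ModularRepOfLevel (L / q)

/-- (AUX) AUXILIARY PRIME.  For every integral model `W` there is a prime `q'` of good
reduction of `W`, not dividing `N`, with `q' ≡ -1 mod p` and `a_{q'}(W) ≡ 0 mod p`
(Frobenius at `q'` = complex conjugation on `ℚ(E[p])`; `Lib/Cheb` Tier 1 + TF + det = cyclotomic). -/
def AuxPrimeStatement : Prop :=
  ∀ (P : FreyPackage) (N : ℕ) (W : WeierstrassCurve ℤ), 0 < N →
    W.IsIntegralModelOf P.freyCurve →
    GaloisRepIsIrreducible (K := AlgebraicClosure ℚ) ℚ P.freyCurve P.p →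
    ∃ q' : ℕ, q'.Prime ∧ ¬ q' ∣ N ∧ q' ≠ P.p ∧ q' ≠ 2 ∧ W.IsGoodPrimeFor q' ∧
      P.p ∣ q' + 1 ∧ (P.p : ℤ) ∣ W.apOfModel q'

/-- (ON) OLD/NEW DICHOTOMY (Atkin-Lehner; NEWFORM lib).  A normalised eigenform of level `L`
with `q ‖ L` either has `a_q² = 1` or its eigensystem away from `L` occurs at level `L / q`. -/
def OldNewStatement : Prop :=
  ∀ (L q : ℕ), 0 < L → q.Prime → q ∣ L → ¬ q ^ 2 ∣ L →
    ∀ g : CuspForm (CongruenceSubgroup.Gamma0 L) 2, g.IsNormalizedEigenform →
      g.IsNewAt q ∨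
      ∃ g' : CuspForm (CongruenceSubgroup.Gamma0 (L / q)) 2, g'.IsNormalizedEigenform ∧
        ∀ ℓ : ℕ, ℓ.Prime → ¬ ℓ ∣ L → qCoeff g' ℓ = qCoeff g ℓ

/-- (PIV) RIBET'S PIVOT = THE SHIMURA-CURVE WALL.  A witness of level `L` which is new at two
distinct primes `q, q' ‖ L` (both `≠ p`), with the representation unramified at `q`, gives a
witness of level `L / q`.  (Cerednik-Drinfeld + Ribet's exact sequence of character groups.) -/
def RibetPivotStatement : Prop :=
  ∀ (P : FreyPackage) {L q q' : ℕ}, 0 < L → q.Prime → q'.Prime → q ≠ q' → q ≠ P.p → q' ≠ P.p →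
    q ∣ L → ¬ q ^ 2 ∣ L → q' ∣ L → ¬ q' ^ 2 ∣ L →
    GaloisRepIsIrreducible (K := AlgebraicClosure ℚ) ℚ P.freyCurve P.p →
    P.GaloisRepUnramifiedAt q →
    ∀ (g : CuspForm (CongruenceSubgroup.Gamma0 L) 2) (W : WeierstrassCurve ℤ)
      (𝔪 : Ideal (integralClosure ℤ ℂ)),
      P.IsCongruentWitness L g W 𝔪 → g.IsNewAt q → g.IsNewAt q' →
      P.ModularRepOfLevel (L / q)

/-! ## L3. Geometric interfaces on `J₀(N)(ℚ̄)` (requests to rows A2, A3, S29)

Conventions: `J₀(N) = ModularCurve.JZero N` with its Prelude Galois action; the Hecke operator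
at a prime `ℓ` is `ModularCurve.heckeOperatorBar N ℓ`.  `E[p]` is
`Submodule.torsionBy ℤ (P.freyCurve⁄ℚ̄).Point P.p`.  All eigenvalues are integers acting by
`zsmul` (the eigensystem of `E[p]` is `𝔽_p`-valued, so no tensor products are needed). -/

open ModularCurve

/-- `E[p]` for the Frey curve. -/
abbrev FreyTorsion (P : FreyPackage) : Type :=
  Submodule.torsionBy ℤ (P.freyCurve⁄(AlgebraicClosure ℚ)).Point P.p

/-- "The eigensystem `a` (integers, taken mod `p`) occurs in `J₀(N)[p]` away from `S`". -/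
def OccursIn (N p : ℕ) [NeZero N] (S : Finset ℕ) (a : ℕ → ℤ) : Prop :=
  ∃ x : JZero N, x ≠ 0 ∧ p • x = 0 ∧
    ∀ ℓ : Nat.Primes, (ℓ : ℕ) ∉ S → heckeOperatorBar N ℓ x = a ℓ • x

/-- A Galois- and Hecke-equivariant embedding of `E[p]` into `J₀(N)`, away from `S`. -/
def FreyEmbedsIn (P : FreyPackage) (N : ℕ) [NeZero N] (S : Finset ℕ) (a : ℕ → ℤ) : Prop :=
  ∃ ι : FreyTorsion P →+ JZero N, Function.Injective ι ∧
    (∀ (σ : GQ) (x : FreyTorsion P), ι (σ • x) = σ • ι x) ∧
    ∀ ℓ : Nat.Primes, (ℓ : ℕ) ∉ S → ∀ x : FreyTorsion P,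
      heckeOperatorBar N ℓ (ι x) = a ℓ • ι x

/-- (BLR) [row S29/S42 + S37 + Tier 1]  Boston-Lenstra-Ribet: a congruence witness of level `N`
for an irreducible `E[p]` gives an equivariant embedding `E[p] ↪ J₀(N)[p]`, with `T_ℓ` acting
through `a_ℓ(W)` for all `ℓ` outside a finite set. -/
def EmbedStatement : Prop :=
  ∀ (P : FreyPackage) (N : ℕ) [NeZero N],
    GaloisRepIsIrreducible (K := AlgebraicClosure ℚ) ℚ P.freyCurve P.p →
    ∀ (f : CuspForm (CongruenceSubgroup.Gamma0 N) 2) (W : WeierstrassCurve ℤ)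
      (𝔪 : Ideal (integralClosure ℤ ℂ)), P.IsCongruentWitness N f W 𝔪 →
      ∃ S : Finset ℕ, FreyEmbedsIn P N S (fun ℓ => W.apOfModel ℓ)

/-- (R3) [row S29 dictionary + S21 + Deligne-Serre lifting]  An eigensystem occurring in
`J₀(M)[p]` away from a finite set `S` is the reduction of a normalised eigenform of level `M`
(congruence for the primes outside `S`). -/
def EigenformOfOccursStatement : Prop :=
  ∀ (M p : ℕ) [NeZero M], p.Prime → ∀ (S : Finset ℕ) (a : ℕ → ℤ), OccursIn M p S a →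
    ∃ (g : CuspForm (CongruenceSubgroup.Gamma0 M) 2) (𝔪 : Ideal (integralClosure ℤ ℂ)),
      g.IsNormalizedEigenform ∧ 𝔪.IsMaximal ∧ (p : integralClosure ℤ ℂ) ∈ 𝔪 ∧
      ∀ ℓ : ℕ, ℓ.Prime → ℓ ∉ S →
        ∃ b : integralClosure ℤ ℂ, (b : ℂ) = qCoeff g ℓ ∧
          b - ((a ℓ : ℤ) : integralClosure ℤ ℂ) ∈ 𝔪

/-- (R3') [S42 + Tier 1 + TF]  Upgrade "congruent outside a finite set `S`" to a congruence
witness (all good primes not dividing `M·p`). -/
def AlmostAllToWitnessStatement : Prop :=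
  ∀ (P : FreyPackage) (M : ℕ), 0 < M →
    ∀ (g : CuspForm (CongruenceSubgroup.Gamma0 M) 2) (W : WeierstrassCurve ℤ)
      (𝔪 : Ideal (integralClosure ℤ ℂ)) (S : Finset ℕ),
      g.IsNormalizedEigenform → W.IsIntegralModelOf P.freyCurve → 𝔪.IsMaximal →
      (P.p : integralClosure ℤ ℂ) ∈ 𝔪 →
      (∀ ℓ : ℕ, ℓ.Prime → ℓ ∉ S →
        ∃ b : integralClosure ℤ ℂ, (b : ℂ) = qCoeff g ℓ ∧
          b - ((W.apOfModel ℓ : ℤ) : integralClosure ℤ ℂ) ∈ 𝔪) →
      P.IsCongruentWitness M g W 𝔪

/-- (A2+) TORIC PACKAGE at `q ‖ N = q·M'`, for `p`-torsion, `p ≠ q` [row A2, helper13].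
At a place `A` over `q` there are subgroups `𝒯 ≤ 𝓕` of the inertia-fixed `p`-torsion of
`J₀(qM')` ("toric part" and "finite part") such that
* `J[p]^I / 𝓕` is Eisenstein (`T_ℓ - ℓ - 1` maps `J[p]^I` into `𝓕`; component group),
* `𝓕 / 𝒯` embeds Hecke-equivariantly (away from `q·M'·p`) in `J₀(M')²` ("abelian part"),
* Frobenius at `A` preserves `𝒯` and acts on it as `q·u` with `u` an involution commuting
  with Galois and Hecke (`u = U_q`); in particular `φ² = q²` (`ToricFrobeniusSq`). -/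
def ToricPackageStatement : Prop :=
  ∀ (M' q p : ℕ) [NeZero M'] [NeZero (q * M')], q.Prime → p.Prime → q ≠ p → ¬ q ∣ M' →
    ∀ A : ValuationSubring (AlgebraicClosure ℚ), A.LiesOverPrime q →
    ∃ (𝒯 𝓕 : AddSubgroup (JZero (q * M'))) (β : 𝓕 →+ JZero M' × JZero M')
      (u : JZero (q * M') →+ JZero (q * M')),
      𝒯 ≤ 𝓕 ∧
      (∀ x ∈ 𝓕, p • x = 0 ∧ ∀ σ ∈ A.inertiaSubgroupIn ℚ, σ • x = x) ∧
      (∀ x : JZero (q * M'), p • x = 0 → (∀ σ ∈ A.inertiaSubgroupIn ℚ, σ • x = x) →
        ∀ ℓ : Nat.Primes, ¬ (ℓ : ℕ) ∣ q * M' * p →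
          heckeOperatorBar (q * M') ℓ x - ((ℓ : ℕ) + 1) • x ∈ 𝓕) ∧
      (∀ ℓ : Nat.Primes, ¬ (ℓ : ℕ) ∣ q * M' * p → ∀ x : 𝓕,
        ∃ hx : heckeOperatorBar (q * M') ℓ (x : JZero (q * M')) ∈ 𝓕,
          β ⟨_, hx⟩ = (heckeOperatorBar M' ℓ (β x).1, heckeOperatorBar M' ℓ (β x).2)) ∧
      (∀ x : 𝓕, β x = 0 → (x : JZero (q * M')) ∈ 𝒯) ∧
      (∀ (σ : GQ) (x : JZero (q * M')), u (σ • x) = σ • u x) ∧
      (∀ (ℓ : Nat.Primes) (x : JZero (q * M')),
        u (heckeOperatorBar (q * M') ℓ x) = heckeOperatorBar (q * M') ℓ (u x)) ∧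
      (∀ x ∈ 𝒯, u (u x) = x) ∧
      (∀ φ : GQ, A.IsFrobeniusAt φ q → ∀ x ∈ 𝒯, φ • x = q • u x)

/-- (A3+) AT-`p` PACKAGE at `p ‖ N = p·M'` [rows A3 (helper15) + A2 (helper13)].
At a place `A` over `p` there are subgroups `𝒲 ≤ 𝓕 ≤ J₀(pM')[p]` ("multiplicative-type part"
and "finite part") such that
* inertia acts on `𝒲` through the mod-`p` cyclotomic character (`MultiplicativeType`),
  encoded as: `σ x = c • x` whenever `σ ζ = ζ ^ c` for all `p`-th roots of unity `ζ`;
* `𝓕 / 𝒲` embeds Hecke-equivariantly (away from `M'·p`) in `J₀(M')²`;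
* (FLAT ⇒ FINITE) the image of every Galois-equivariant map `E[p] → J₀(pM')[p]` lies in `𝓕`,
  when `E` is the Frey curve and `p ∣ abc` (Tate curve, peu ramifié). -/
def AtPPackageStatement : Prop :=
  ∀ (P : FreyPackage) (M' : ℕ) [NeZero M'] [NeZero (P.p * M')], ¬ P.p ∣ M' →
    (P.p : ℤ) ∣ P.a * P.b * P.c →
    ∀ A : ValuationSubring (AlgebraicClosure ℚ), A.LiesOverPrime P.p →
    ∃ (𝒲 𝓕 : AddSubgroup (JZero (P.p * M'))) (β : 𝓕 →+ JZero M' × JZero M'),
      𝒲 ≤ 𝓕 ∧
      (∀ x ∈ 𝓕, P.p • x = 0) ∧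
      (∀ σ ∈ A.inertiaSubgroupIn ℚ, ∀ c : ℕ,
        (∀ ζ : AlgebraicClosure ℚ, ζ ^ P.p = 1 → σ ζ = ζ ^ c) → ∀ x ∈ 𝒲, σ • x = c • x) ∧
      (∀ ℓ : Nat.Primes, ¬ (ℓ : ℕ) ∣ M' * P.p → ∀ x : 𝓕,
        ∃ hx : heckeOperatorBar (P.p * M') ℓ (x : JZero (P.p * M')) ∈ 𝓕,
          β ⟨_, hx⟩ = (heckeOperatorBar M' ℓ (β x).1, heckeOperatorBar M' ℓ (β x).2)) ∧
      (∀ x : 𝓕, β x = 0 → (x : JZero (P.p * M')) ∈ 𝒲) ∧
      (∀ ι : FreyTorsion P →+ JZero (P.p * M'),
        (∀ (σ : GQ) (x : FreyTorsion P), ι (σ • x) = σ • ι x) → ∀ x, ι x ∈ 𝓕)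

/-- (NMT) [Weil pairing: `det = cyclotomic`, Prelude `GaloisRepDetEqCyclotomic`]  `E[p]` is not
of multiplicative type at `p`: inertia at `p` does not act on all of `E[p]` through the
cyclotomic scalar (otherwise `det = χ²` on inertia, but `det = χ ≠ 1` there, `p ≥ 3`). -/
def NotMultiplicativeTypeStatement : Prop :=
  ∀ (P : FreyPackage) (A : ValuationSubring (AlgebraicClosure ℚ)), A.LiesOverPrime P.p →
    ¬ ∀ σ ∈ A.inertiaSubgroupIn ℚ, ∀ c : ℕ,
      (∀ ζ : AlgebraicClosure ℚ, ζ ^ P.p = 1 → σ ζ = ζ ^ c) →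
      ∀ x : FreyTorsion P, σ • x = c • x

/-- (DETF) [Weil pairing]  The determinant of a Frobenius at `q ≠ p` on `E[p]` is `q`. -/
def DetFrobStatement : Prop :=
  ∀ (P : FreyPackage) (q : ℕ), q.Prime → q ≠ P.p →
    ∀ A : ValuationSubring (AlgebraicClosure ℚ), A.LiesOverPrime q →
    ∀ φ : GQ, A.IsFrobeniusAt φ q →
      LinearMap.det (galoisRepModuleEnd (S := ℚ) (K := AlgebraicClosure ℚ) P.freyCurve P.p φ)
        = (q : ZMod P.p)

/-- (DIM) `E[p]` has rank two over `𝔽_p` (landed libs only have `card ≤ p²`). -/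
def TorsionRankStatement : Prop :=
  ∀ (P : FreyPackage), Module.finrank (ZMod P.p) (FreyTorsion P) = 2

/-- (NE) NON-EISENSTEIN [Tier 1 + TF + elementary group theory]  An irreducible `E[p]` has,
outside any finite set, a good prime `ℓ` with `a_ℓ(W) ≢ ℓ + 1 mod p`. -/
def NonEisensteinStatement : Prop :=
  ∀ (P : FreyPackage) (W : WeierstrassCurve ℤ), W.IsIntegralModelOf P.freyCurve →
    GaloisRepIsIrreducible (K := AlgebraicClosure ℚ) ℚ P.freyCurve P.p →
    ∀ S : Finset ℕ, ∃ ℓ : ℕ, ℓ.Prime ∧ ℓ ∉ S ∧ W.IsGoodPrimeFor ℓ ∧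
      ¬ (P.p : ℤ) ∣ W.apOfModel ℓ - (ℓ + 1)

/-- (PL) [Tier 1 lib / Mathlib]  Places and Frobenius elements exist. -/
def PlacesStatement : Prop :=
  ∀ q : ℕ, q.Prime → ∃ A : ValuationSubring (AlgebraicClosure ℚ), A.LiesOverPrime q ∧
    ∃ φ : GQ, A.IsFrobeniusAt φ q

end Fermat.Agent.Ribet.Spec

end
-- ===== PACK-END Ribet/Spec.lean

-- ===== PACK-BEGIN S28/H86/PoleTrans.lean
section




/-!
# A Laurent series of nonzero order is transcendental over the coefficient field

For a field `k` and `y : LaurentSeries k` with `y ≠ 0` and `y.order ≠ 0`, the evaluation map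
`Polynomial k → LaurentSeries k`, `P ↦ P(y)` is injective; more precisely the order of `P(y)` is
`i₀ • y.order` for the exponent `i₀` of the dominant term.
-/

namespace Fermat.Agent.S28.H86

open Polynomial

variable {k : Type*} [Field k]

theorem hahn_pow_ne_zero {y : LaurentSeries k} (hy : y ≠ 0) (n : ℕ) : y ^ n ≠ 0 :=
  pow_ne_zero n hy

theorem order_pow_eq {y : LaurentSeries k} (hy : y ≠ 0) (n : ℕ) :
    (y ^ n).order = n • y.order := by
  induction n with
  | zero => simp
  | succ n ih =>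
    rw [pow_succ, HahnSeries.order_mul (pow_ne_zero n hy) hy, ih, succ_nsmul]

theorem coeff_algebraMap_mul (c : k) (x : LaurentSeries k) (n : ℤ) :
    (algebraMap k (LaurentSeries k) c * x).coeff n = c * x.coeff n := by
  rw [ModularCurve.algebraMap_laurentSeries_eq_single, HahnSeries.coeff_single_zero_mul]

/-- The coefficient of `P(y)` at `n` as a finite sum. -/
theorem coeff_aeval_eq_sum (y : LaurentSeries k) (P : k[X]) (n : ℤ) :
    (aeval y P).coeff n = ∑ i ∈ P.support, P.coeff i * (y ^ i).coeff n := by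
  rw [aeval_def, eval₂_eq_sum, Polynomial.sum, HahnSeries.coeff_sum]
  refine Finset.sum_congr rfl fun i _ => ?_
  exact coeff_algebraMap_mul _ _ _

/-- If `i₀ ∈ P.support` strictly minimises `i • y.order` over the support, then the coefficient
of `P(y)` at `i₀ • y.order` is nonzero. -/
theorem coeff_aeval_ne_zero_of_min {y : LaurentSeries k} (hy : y ≠ 0) (P : k[X]) (i₀ : ℕ)
    (hi₀ : i₀ ∈ P.support)
    (hmin : ∀ i ∈ P.support, i ≠ i₀ → i₀ • y.order < i • y.order) :
    (aeval y P).coeff (i₀ • y.order) ≠ 0 := by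
  rw [coeff_aeval_eq_sum, Finset.sum_eq_single_of_mem i₀ hi₀]
  · refine mul_ne_zero (Polynomial.mem_support_iff.mp hi₀) ?_
    rw [← order_pow_eq hy, ← HahnSeries.leadingCoeff_eq]
    exact HahnSeries.leadingCoeff_ne_zero.mpr (pow_ne_zero _ hy)
  · intro i hi hne
    rw [HahnSeries.coeff_eq_zero_of_lt_order, mul_zero]
    rw [order_pow_eq hy]
    exact hmin i hi hne

/-- **Transcendence**: a Laurent series of nonzero order is not a root of a nonzero polynomial
with constant coefficients. -/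
theorem aeval_ne_zero_of_order_ne_zero {y : LaurentSeries k} (hy : y ≠ 0) (ho : y.order ≠ 0)
    {P : k[X]} (hP : P ≠ 0) : aeval y P ≠ 0 := by
  have hne : P.support.Nonempty := Polynomial.support_nonempty.mpr hP
  rcases lt_or_gt_of_ne ho with hneg | hpos
  · -- dominant term: the top degree
    have h := coeff_aeval_ne_zero_of_min hy P (P.support.max' hne) (Finset.max'_mem _ _) (by
      intro i hi hne'
      have hlt : i < P.support.max' hne :=
        lt_of_le_of_ne (Finset.le_max' _ _ hi) hne'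
      have h1 : (i : ℤ) < (P.support.max' hne : ℤ) := by exact_mod_cast hlt
      rw [nsmul_eq_mul, nsmul_eq_mul]
      exact mul_lt_mul_of_neg_right h1 hneg)
    intro h0
    rw [h0, HahnSeries.coeff_zero] at h
    exact h rfl
  · have h := coeff_aeval_ne_zero_of_min hy P (P.support.min' hne) (Finset.min'_mem _ _) (by
      intro i hi hne'
      have hlt : P.support.min' hne < i :=
        lt_of_le_of_ne (Finset.min'_le _ _ hi) (Ne.symm hne')
      have h1 : (P.support.min' hne : ℤ) < (i : ℤ) := by exact_mod_cast hlt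
      rw [nsmul_eq_mul, nsmul_eq_mul]
      exact mul_lt_mul_of_pos_right h1 hpos)
    intro h0
    rw [h0, HahnSeries.coeff_zero] at h
    exact h rfl

theorem aeval_injective_of_order_ne_zero {y : LaurentSeries k} (hy : y ≠ 0) (ho : y.order ≠ 0) :
    Function.Injective (aeval y : k[X] →ₐ[k] LaurentSeries k) := by
  rw [injective_iff_map_eq_zero]
  intro P hP
  by_contra h
  exact aeval_ne_zero_of_order_ne_zero hy ho h hP

/-- For `y` of negative order, the order of `P(y)` is `natDegree P • order y`. -/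
theorem order_aeval_of_order_neg {y : LaurentSeries k} (hy : y ≠ 0) (ho : y.order < 0)
    {P : k[X]} (hP : P ≠ 0) : (aeval y P).order ≤ P.natDegree • y.order := by
  have hne : P.support.Nonempty := Polynomial.support_nonempty.mpr hP
  have hdeg : P.natDegree ∈ P.support := Polynomial.natDegree_mem_support_of_nonzero hP
  have h := coeff_aeval_ne_zero_of_min hy P P.natDegree hdeg (by
    intro i hi hne'
    have hlt : i < P.natDegree :=
      lt_of_le_of_ne (Polynomial.le_natDegree_of_mem_supp i hi) hne'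
    have h1 : (i : ℤ) < (P.natDegree : ℤ) := by exact_mod_cast hlt
    rw [nsmul_eq_mul, nsmul_eq_mul]
    exact mul_lt_mul_of_neg_right h1 ho)
  exact HahnSeries.order_le_of_coeff_ne_zero h

/-- For `y` of negative order, `P(y)` has order `≤ 0`. -/
theorem order_aeval_le_zero_of_order_neg {y : LaurentSeries k} (hy : y ≠ 0) (ho : y.order < 0)
    {P : k[X]} (hP : P ≠ 0) : (aeval y P).order ≤ 0 := by
  refine le_trans (order_aeval_of_order_neg hy ho hP) ?_
  rw [nsmul_eq_mul]
  exact mul_nonpos_of_nonneg_of_nonpos (by positivity) ho.le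

end Fermat.Agent.S28.H86

end
-- ===== PACK-END S28/H86/PoleTrans.lean

-- ===== PACK-BEGIN A2/Mod/H372/KronClosure.lean
section


/-!
# A2 / MODASM S3, abstract part (helper372): closure of a chart under the Kronecker twist

Mathlib-only.  Setting (residue-field form): `S` a ring (the Gauss valuation ring `V∞_M` of
level `M`), `A → S` a subring (the level-`M` chart), `κ` a reduced ring of characteristic `q`
(the residue field of a Gauss valuation ring of level `Mq`), `f g : S →+* κ` the reductions of the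
two degeneracy maps.

* `isIntegralElem_of_forall_exists` : integrality is inherited along an inclusion of ranges;
* `isIntegralElem_of_frobenius`     : `y ^ q` integral over `Frob ∘ f` ⟹ `y` integral over `f`;
* `exists_eq_pow_of_normal`         : **Kronecker closure**: if `g s = (f s') ^ q` is solvable in
  `S` (leaf L12), `A` is "normal in `S` modulo `ker f`" (`GoodRedAt.normal`), `A` is integral over
  a polynomial ring `R[y]` with `g = f` on `R` and `g y = (f y) ^ q`, then `g a = (f a') ^ q` is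
  solvable in `A` (`a ∈ A`);
* `exists_eq_of_normal`             : **residue degree one on the chart**: the same mechanism gives
  `ρ b = f a` for `b` in a chart `B` of level `Mq` (leaf L11).
-/

set_option autoImplicit false

namespace Fermat.Agent.A2.Mod.H372

open Polynomial

section Integral

variable {A C κ : Type*} [CommRing A] [CommRing C] [CommRing κ]

/-- Integrality with respect to `h` implies integrality with respect to `f` when the range of
`h` is contained in the range of `f`. -/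
theorem isIntegralElem_of_forall_exists (h : C →+* κ) (f : A →+* κ)
    (hr : ∀ c, ∃ a, f a = h c) {x : κ} (hx : h.IsIntegralElem x) : f.IsIntegralElem x := by
  obtain ⟨p, hp, hpx⟩ := hx
  have hlift : p.map h ∈ Polynomial.lifts f := by
    rw [Polynomial.lifts_iff_coeff_lifts]
    intro n
    rw [Polynomial.coeff_map]
    obtain ⟨a, ha⟩ := hr (p.coeff n)
    exact ⟨a, ha⟩
  obtain ⟨p', hp', -, hmon⟩ := Polynomial.lifts_and_natDegree_eq_and_monic hlift (hp.map h)
  refine ⟨p', hmon, ?_⟩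
  rw [← Polynomial.eval_map, hp', Polynomial.eval_map, hpx]

/-- Integrality is preserved by ring homomorphisms. -/
theorem isIntegralElem_map {B : Type*} [CommRing B] (j : C →+* A) (φ : A →+* B) {a : A}
    (ha : j.IsIntegralElem a) : (φ.comp j).IsIntegralElem (φ a) := by
  obtain ⟨p, hp, hpa⟩ := ha
  refine ⟨p, hp, ?_⟩
  rw [← Polynomial.hom_eval₂, hpa, _root_.map_zero]

/-- Frobenius descent of integrality. -/
theorem isIntegralElem_of_frobenius (q : ℕ) [ExpChar κ q] [IsReduced κ] (f : A →+* κ) {y : κ}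
    (h : ((frobenius κ q).comp f).IsIntegralElem (y ^ q)) : f.IsIntegralElem y := by
  obtain ⟨p, hp, hpy⟩ := h
  refine ⟨p, hp, ?_⟩
  have h1 : frobenius κ q (p.eval₂ f y) = 0 := by
    rw [Polynomial.hom_eval₂, frobenius_def, hpy]
  exact frobenius_inj κ q (by rw [h1, _root_.map_zero])

end Integral

section Closure

variable {R S A κ : Type*} [CommRing R] [CommRing S] [CommRing A] [CommRing κ]

/-- **Kronecker closure of the chart.** -/
theorem exists_eq_pow_of_normal (q : ℕ) [ExpChar κ q] [IsReduced κ]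
    (f g : S →+* κ) (ι : A →+* S)
    (hnormal : ∀ s : S, (f.comp ι).IsIntegralElem (f s) → ∃ a : A, f s = f (ι a))
    (hK : ∀ s : S, ∃ s' : S, g s = (f s') ^ q)
    (c : R →+* A) (y : A)
    (hint : ∀ a : A, (Polynomial.eval₂RingHom c y).IsIntegralElem a)
    (hc : ∀ r : R, g (ι (c r)) = f (ι (c r)))
    (hy : g (ι y) = (f (ι y)) ^ q) :
    ∀ a : A, ∃ a' : A, g (ι a) = (f (ι a')) ^ q := by
  -- constants
  have hconst : ∀ r : R, ∃ a : A, g (ι (c r)) = (f (ι a)) ^ q := by
    intro r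
    obtain ⟨s', hs'⟩ := hK (ι (c r))
    have hint' : (f.comp ι).IsIntegralElem (f s') := by
      refine ⟨X ^ q - C (c r), ?_, ?_⟩
      · exact Polynomial.monic_X_pow_sub_C _ (expChar_pos κ q).ne'
      · rw [Polynomial.eval₂_sub, Polynomial.eval₂_pow, Polynomial.eval₂_X, Polynomial.eval₂_C,
          RingHom.comp_apply, ← hs', hc, sub_self]
    obtain ⟨a, ha⟩ := hnormal s' hint'
    exact ⟨a, by rw [hs', ha]⟩
  -- polynomials
  have hpoly : ∀ p : Polynomial R, ∃ a : A,
      g (ι (Polynomial.eval₂RingHom c y p)) = (f (ι a)) ^ q := by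
    intro p
    induction p using Polynomial.induction_on' with
    | add p₁ p₂ h₁ h₂ =>
      obtain ⟨a₁, h₁⟩ := h₁
      obtain ⟨a₂, h₂⟩ := h₂
      refine ⟨a₁ + a₂, ?_⟩
      rw [_root_.map_add, _root_.map_add, _root_.map_add, h₁, h₂, _root_.map_add, _root_.map_add, add_pow_expChar]
    | monomial n r =>
      obtain ⟨a, ha⟩ := hconst r
      refine ⟨a * y ^ n, ?_⟩
      rw [Polynomial.coe_eval₂RingHom, Polynomial.eval₂_monomial, _root_.map_mul, _root_.map_mul, _root_.map_pow,
        _root_.map_pow, ha, hy, _root_.map_mul, _root_.map_mul, _root_.map_pow, _root_.map_pow, mul_pow, ← pow_mul, ← pow_mul,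
        mul_comm q n]
  intro a
  obtain ⟨s', hs'⟩ := hK (ι a)
  have h1 : ((g.comp ι).comp (Polynomial.eval₂RingHom c y)).IsIntegralElem (g (ι a)) :=
    isIntegralElem_map (Polynomial.eval₂RingHom c y) (g.comp ι) (hint a)
  have h2 : ((frobenius κ q).comp (f.comp ι)).IsIntegralElem ((f s') ^ q) := by
    rw [← hs']
    refine isIntegralElem_of_forall_exists _ _ (fun p => ?_) h1
    obtain ⟨a', ha'⟩ := hpoly p
    exact ⟨a', by
      rw [RingHom.comp_apply, RingHom.comp_apply, frobenius_def, RingHom.comp_apply,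
        RingHom.comp_apply, ha']⟩
  obtain ⟨a', ha'⟩ := hnormal s' (isIntegralElem_of_frobenius q _ h2)
  exact ⟨a', by rw [hs', ha']⟩

/-- **Residue degree one on the chart.** -/
theorem exists_eq_of_normal {B : Type*} [CommRing B]
    (f : S →+* κ) (ι : A →+* S)
    (hnormal : ∀ s : S, (f.comp ι).IsIntegralElem (f s) → ∃ a : A, f s = f (ι a))
    (ρ : B →+* κ) (hres : ∀ b : B, ∃ s : S, ρ b = f s)
    (c : R →+* B) (y : B)
    (hc : ∀ r : R, ∃ a : A, ρ (c r) = f (ι a))
    (hy : ∃ a : A, ρ y = f (ι a)) :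
    ∀ b : B, (Polynomial.eval₂RingHom c y).IsIntegralElem b → ∃ a : A, ρ b = f (ι a) := by
  have hpoly : ∀ p : Polynomial R, ∃ a : A, ρ (Polynomial.eval₂RingHom c y p) = f (ι a) := by
    intro p
    induction p using Polynomial.induction_on' with
    | add p₁ p₂ h₁ h₂ =>
      obtain ⟨a₁, h₁⟩ := h₁
      obtain ⟨a₂, h₂⟩ := h₂
      exact ⟨a₁ + a₂, by rw [_root_.map_add, _root_.map_add, h₁, h₂, _root_.map_add, _root_.map_add]⟩
    | monomial n r =>
      obtain ⟨a, ha⟩ := hc r
      obtain ⟨ay, hay⟩ := hy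
      refine ⟨a * ay ^ n, ?_⟩
      rw [Polynomial.coe_eval₂RingHom, Polynomial.eval₂_monomial, _root_.map_mul, _root_.map_pow, ha, hay,
        _root_.map_mul, _root_.map_mul, _root_.map_pow, _root_.map_pow]
  intro b hb
  obtain ⟨s, hs⟩ := hres b
  have h1 : (ρ.comp (Polynomial.eval₂RingHom c y)).IsIntegralElem (ρ b) :=
    isIntegralElem_map (Polynomial.eval₂RingHom c y) ρ hb
  have h2 : (f.comp ι).IsIntegralElem (f s) := by
    rw [← hs]
    refine isIntegralElem_of_forall_exists _ _ (fun p => ?_) h1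
    obtain ⟨a, ha⟩ := hpoly p
    exact ⟨a, by rw [RingHom.comp_apply, RingHom.comp_apply, ha]⟩
  obtain ⟨a, ha⟩ := hnormal s h2
  exact ⟨a, by rw [hs, ha]⟩

end Closure

end Fermat.Agent.A2.Mod.H372

end
-- ===== PACK-END A2/Mod/H372/KronClosure.lean

-- ===== PACK-BEGIN A2/Mod/H378/L11Abstract.lean
section


/-!
# A2 / MOD leaf L11 (helper378): residue degree one, abstract form

`K` a field, `V ⊆ K` a subring (a discrete valuation ring with uniformiser `w` in the
application), `O ⊆ V` a subring with `O ∩ w V = w O` and `O ∩ Vˣ = Oˣ`, `X ⊆ V` a set of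
elements each satisfying a "Kronecker relation" `s (x - a) = w c` with `a ∈ O`,
`s, c ∈ B := O[X]`, `s ∈ Vˣ`.  If `K` is generated as a field by `O ∪ X`, then `V = O + w V`
(`ResOneData.exists_congr`): the localisation of `B` at `B ∩ w V` is a discrete valuation ring
with fraction field `K` contained in `V`, hence equal to `V`, and its residue field is the
residue field of `O`.
-/

set_option autoImplicit false

namespace Fermat.Agent.A2.Mod.H378

variable {K : Type*} [Field K]

/-- The hypotheses of the abstract residue-degree-one lemma. -/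
structure ResOneData (V O : Subring K) (w : K) (X : Set K) : Prop where
  O_le : ∀ x ∈ O, x ∈ V
  w_mem : w ∈ O
  w_ne : w ≠ 0
  w_nonunit : w⁻¹ ∉ V
  O_div : ∀ x ∈ O, x * w⁻¹ ∈ V → x * w⁻¹ ∈ O
  O_inv : ∀ x ∈ O, x⁻¹ ∈ V → x⁻¹ ∈ O
  X_le : ∀ x ∈ X, x ∈ V
  disc : ∀ x ∈ V, x ≠ 0 → ∃ (n : ℕ) (u : K), u ∈ V ∧ u⁻¹ ∈ V ∧ x = w ^ n * u
  kron : ∀ x ∈ X, ∃ a ∈ O, ∃ s ∈ Subring.closure ((O : Set K) ∪ X), s ≠ 0 ∧ s⁻¹ ∈ V ∧
    ∃ c ∈ Subring.closure ((O : Set K) ∪ X), s * (x - a) = w * c
  gen : ∀ f : K, f ∈ Subfield.closure ((O : Set K) ∪ X)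

namespace ResOneData

variable {V O : Subring K} {w : K} {X : Set K}

/-- `x ≡ g mod w V` for some `g ∈ O`. -/
def Cong (V O : Subring K) (w : K) (x : K) : Prop := ∃ g ∈ O, (x - g) * w⁻¹ ∈ V

theorem w_mem_V (h : ResOneData V O w X) : w ∈ V := h.O_le w h.w_mem

theorem closure_le (h : ResOneData V O w X) : Subring.closure ((O : Set K) ∪ X) ≤ V := by
  rw [Subring.closure_le]
  rintro x (hx | hx)
  · exact h.O_le x hx
  · exact h.X_le x hx

theorem mem_closure_of_O (O : Subring K) (X : Set K) {x : K} (hx : x ∈ O) :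
    x ∈ Subring.closure ((O : Set K) ∪ X) :=
  Subring.subset_closure (Or.inl hx)

theorem Cong.mem (h : ResOneData V O w X) {x : K} (hx : Cong V O w x) : x ∈ V := by
  obtain ⟨g, hg, hv⟩ := hx
  have h1 : x = g + w * ((x - g) * w⁻¹) := by
    have := h.w_ne
    field_simp
    ring
  rw [h1]
  exact V.add_mem (h.O_le g hg) (V.mul_mem h.w_mem_V hv)

theorem Cong.of_O {x : K} (hx : x ∈ O) : Cong V O w x :=
  ⟨x, hx, by rw [sub_self, zero_mul]; exact V.zero_mem⟩

theorem Cong.add {x y : K} (hx : Cong V O w x) (hy : Cong V O w y) : Cong V O w (x + y) := by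
  obtain ⟨g, hg, hv⟩ := hx
  obtain ⟨g', hg', hv'⟩ := hy
  refine ⟨g + g', O.add_mem hg hg', ?_⟩
  have : (x + y - (g + g')) * w⁻¹ = (x - g) * w⁻¹ + (y - g') * w⁻¹ := by ring
  rw [this]
  exact V.add_mem hv hv'

theorem Cong.neg {x : K} (hx : Cong V O w x) : Cong V O w (-x) := by
  obtain ⟨g, hg, hv⟩ := hx
  refine ⟨-g, O.neg_mem hg, ?_⟩
  have : (-x - -g) * w⁻¹ = -((x - g) * w⁻¹) := by ring
  rw [this]
  exact V.neg_mem hv

theorem Cong.mul (h : ResOneData V O w X) {x y : K} (hx : Cong V O w x) (hy : Cong V O w y) :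
    Cong V O w (x * y) := by
  have hyV := Cong.mem h hy
  obtain ⟨g, hg, hv⟩ := hx
  obtain ⟨g', hg', hv'⟩ := hy
  refine ⟨g * g', O.mul_mem hg hg', ?_⟩
  have : (x * y - g * g') * w⁻¹ = (x - g) * w⁻¹ * y + g * ((y - g') * w⁻¹) := by ring
  rw [this]
  exact V.add_mem (V.mul_mem hv hyV) (V.mul_mem (h.O_le g hg) hv')

/-- A unit of `V` which is congruent to an element of `O` has its inverse congruent to an
element of `O`. -/
theorem Cong.inv (h : ResOneData V O w X) {x : K} (hx : Cong V O w x) (hx0 : x ≠ 0)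
    (hxi : x⁻¹ ∈ V) : Cong V O w x⁻¹ := by
  obtain ⟨g, hg, hv⟩ := hx
  have hw := h.w_ne
  have hxg : x = g + w * ((x - g) * w⁻¹) := by
    field_simp
    ring
  have hgV : g ∈ V := h.O_le g hg
  -- `g` is a unit of `V`
  have hg0 : g ≠ 0 := by
    rintro rfl
    apply h.w_nonunit
    have h1 : w⁻¹ = x⁻¹ * ((x - 0) * w⁻¹) := by
      rw [sub_zero]
      field_simp
    rw [h1]
    exact V.mul_mem hxi hv
  have hgi : g⁻¹ ∈ V := by
    obtain ⟨n, u, hu, hui, hgu⟩ := h.disc g hgV hg0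
    rcases Nat.eq_zero_or_pos n with hn | hn
    · rw [hn, pow_zero, one_mul] at hgu
      rw [hgu]
      exact hui
    · exfalso
      apply h.w_nonunit
      obtain ⟨m, rfl⟩ : ∃ m, n = m + 1 := ⟨n - 1, by omega⟩
      have h1 : w⁻¹ = x⁻¹ * (w ^ m * u + (x - g) * w⁻¹) := by
        have h2 : x = w * (w ^ m * u + (x - g) * w⁻¹) := by
          have h5 : w * (w ^ m * u + (x - g) * w⁻¹)
              = w ^ (m + 1) * u + w * ((x - g) * w⁻¹) := by ring
          rw [h5, ← hgu]
          exact hxg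
        have h3 : w ^ m * u + (x - g) * w⁻¹ ≠ 0 := by
          intro h0
          rw [h0, mul_zero] at h2
          exact hx0 h2
        set z := w ^ m * u + (x - g) * w⁻¹ with hz
        have h4 : x⁻¹ = w⁻¹ * z⁻¹ := by
          rw [h2, mul_inv]
        rw [h4, mul_assoc, inv_mul_cancel₀ h3, mul_one]
      rw [h1]
      exact V.mul_mem hxi (V.add_mem (V.mul_mem (V.pow_mem h.w_mem_V m) hu) hv)
  refine ⟨g⁻¹, h.O_inv g hg hgi, ?_⟩
  have : (x⁻¹ - g⁻¹) * w⁻¹ = -((x - g) * w⁻¹) * x⁻¹ * g⁻¹ := by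
    field_simp
    ring
  rw [this]
  exact V.mul_mem (V.mul_mem (V.neg_mem hv) hxi) hgi

/-- Every element of `B = O[X]` is congruent to an element of `O`. -/
theorem cong_of_mem_closure (h : ResOneData V O w X) {b : K}
    (hb : b ∈ Subring.closure ((O : Set K) ∪ X)) : Cong V O w b := by
  induction hb using Subring.closure_induction with
  | mem x hx =>
    rcases hx with hx | hx
    · exact Cong.of_O hx
    · obtain ⟨a, ha, s, hs, hs0, hsi, c, hc, he⟩ := h.kron x hx
      refine ⟨a, ha, ?_⟩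
      have h1 : (x - a) * w⁻¹ = c * s⁻¹ := by
        have hw := h.w_ne
        field_simp
        rw [mul_comm, he, mul_comm]
      rw [h1]
      exact V.mul_mem (h.closure_le hc) hsi
  | zero => exact Cong.of_O O.zero_mem
  | one => exact Cong.of_O O.one_mem
  | add x y _ _ hx hy => exact Cong.add hx hy
  | neg x _ hx => exact Cong.neg hx
  | mul x y _ _ hx hy => exact Cong.mul h hx hy

/-- The Kronecker relation for every element of `B = O[X]`. -/
theorem kron_closure (h : ResOneData V O w X) {b : K}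
    (hb : b ∈ Subring.closure ((O : Set K) ∪ X)) :
    ∃ a ∈ O, ∃ s ∈ Subring.closure ((O : Set K) ∪ X), s ≠ 0 ∧ s⁻¹ ∈ V ∧
      ∃ c ∈ Subring.closure ((O : Set K) ∪ X), s * (b - a) = w * c := by
  induction hb using Subring.closure_induction with
  | mem x hx =>
    rcases hx with hx | hx
    · exact ⟨x, hx, 1, Subring.one_mem _, one_ne_zero, by rw [inv_one]; exact V.one_mem,
        0, Subring.zero_mem _, by rw [sub_self, mul_zero, mul_zero]⟩
    · exact h.kron x hx
  | zero =>
    exact ⟨0, O.zero_mem, 1, Subring.one_mem _, one_ne_zero, by rw [inv_one]; exact V.one_mem,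
        0, Subring.zero_mem _, by rw [sub_self, mul_zero, mul_zero]⟩
  | one =>
    exact ⟨1, O.one_mem, 1, Subring.one_mem _, one_ne_zero, by rw [inv_one]; exact V.one_mem,
        0, Subring.zero_mem _, by rw [sub_self, mul_zero, mul_zero]⟩
  | add x y _ _ hx hy =>
    obtain ⟨a, ha, s, hs, hs0, hsi, c, hc, he⟩ := hx
    obtain ⟨a', ha', s', hs', hs0', hsi', c', hc', he'⟩ := hy
    refine ⟨a + a', O.add_mem ha ha', s * s', Subring.mul_mem _ hs hs', mul_ne_zero hs0 hs0', ?_,
      s' * c + s * c', Subring.add_mem _ (Subring.mul_mem _ hs' hc) (Subring.mul_mem _ hs hc'), ?_⟩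
    · rw [mul_inv]
      exact V.mul_mem hsi hsi'
    · have : s * s' * (x + y - (a + a')) = s' * (s * (x - a)) + s * (s' * (y - a')) := by ring
      rw [this, he, he']
      ring
  | neg x _ hx =>
    obtain ⟨a, ha, s, hs, hs0, hsi, c, hc, he⟩ := hx
    refine ⟨-a, O.neg_mem ha, s, hs, hs0, hsi, -c, Subring.neg_mem _ hc, ?_⟩
    have : s * (-x - -a) = -(s * (x - a)) := by ring
    rw [this, he]
    ring
  | mul x y hxB hyB hx hy =>
    obtain ⟨a, ha, s, hs, hs0, hsi, c, hc, he⟩ := hx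
    obtain ⟨a', ha', s', hs', hs0', hsi', c', hc', he'⟩ := hy
    refine ⟨a * a', O.mul_mem ha ha', s * s', Subring.mul_mem _ hs hs', mul_ne_zero hs0 hs0', ?_,
      c * s' * y + a * s * c', Subring.add_mem _
        (Subring.mul_mem _ (Subring.mul_mem _ hc hs') hyB)
        (Subring.mul_mem _ (Subring.mul_mem _ (mem_closure_of_O O X ha) hs) hc'), ?_⟩
    · rw [mul_inv]
      exact V.mul_mem hsi hsi'
    · have : s * s' * (x * y - a * a') = (s * (x - a)) * s' * y + a * s * (s' * (y - a')) := by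
        ring
      rw [this, he, he']
      ring

/-- `B ∩ w V ⊆ w B_𝔪`. -/
theorem div_closure (h : ResOneData V O w X) {b : K}
    (hb : b ∈ Subring.closure ((O : Set K) ∪ X)) (hbw : b * w⁻¹ ∈ V) :
    ∃ s ∈ Subring.closure ((O : Set K) ∪ X), s ≠ 0 ∧ s⁻¹ ∈ V ∧
      ∃ c ∈ Subring.closure ((O : Set K) ∪ X), s * b = w * c := by
  obtain ⟨a, ha, s, hs, hs0, hsi, c, hc, he⟩ := h.kron_closure hb
  have hw := h.w_ne
  have haw : a * w⁻¹ ∈ V := by
    have h1 : a * w⁻¹ = b * w⁻¹ - c * s⁻¹ := by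
      have h2 : c = s * (b - a) * w⁻¹ := by
        rw [he]
        field_simp
      rw [h2]
      field_simp
      ring
    rw [h1]
    exact V.sub_mem hbw (V.mul_mem (h.closure_le hc) hsi)
  have haO : a * w⁻¹ ∈ O := h.O_div a ha haw
  refine ⟨s, hs, hs0, hsi, s * (a * w⁻¹) + c,
    Subring.add_mem _ (Subring.mul_mem _ hs (mem_closure_of_O O X haO)) hc, ?_⟩
  have h1 : s * b = s * (b - a) + s * a := by ring
  rw [h1, he]
  field_simp
  ring

/-- Every nonzero element of `B` is `w ^ n` times a unit of `B_𝔪`. -/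
theorem unit_closure (h : ResOneData V O w X) (n : ℕ) :
    ∀ b ∈ Subring.closure ((O : Set K) ∪ X), ∀ u : K, u ∈ V → u⁻¹ ∈ V → u ≠ 0 →
      b = w ^ n * u →
      ∃ s ∈ Subring.closure ((O : Set K) ∪ X), s ≠ 0 ∧ s⁻¹ ∈ V ∧
        ∃ s' ∈ Subring.closure ((O : Set K) ∪ X), s' ≠ 0 ∧ s'⁻¹ ∈ V ∧ s * b = w ^ n * s' := by
  have hw := h.w_ne
  induction n with
  | zero =>
    intro b hb u hu hui hu0 hbu
    rw [pow_zero, one_mul] at hbu
    refine ⟨1, Subring.one_mem _, one_ne_zero, by rw [inv_one]; exact V.one_mem,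
      b, hb, by rw [hbu]; exact hu0, by rw [hbu]; exact hui, by rw [pow_zero]⟩
  | succ n ih =>
    intro b hb u hu hui hu0 hbu
    have hbw : b * w⁻¹ ∈ V := by
      have : b * w⁻¹ = w ^ n * u := by
        rw [hbu, pow_succ]
        field_simp
      rw [this]
      exact V.mul_mem (V.pow_mem h.w_mem_V n) hu
    obtain ⟨s, hs, hs0, hsi, c, hc, he⟩ := h.div_closure hb hbw
    have hc' : c = w ^ n * (s * u) := by
      have h1 : w * c = w * (w ^ n * (s * u)) := by
        rw [← he, hbu, pow_succ]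
        ring
      exact mul_left_cancel₀ hw h1
    obtain ⟨s₁, hs₁, hs₁0, hs₁i, s₂, hs₂, hs₂0, hs₂i, he₁⟩ :=
      ih c hc (s * u) (V.mul_mem (h.closure_le hs) hu)
        (by rw [mul_inv]; exact V.mul_mem hsi hui) (mul_ne_zero hs0 hu0) hc'
    refine ⟨s₁ * s, Subring.mul_mem _ hs₁ hs, mul_ne_zero hs₁0 hs0,
      by rw [mul_inv]; exact V.mul_mem hs₁i hsi, s₂, hs₂, hs₂0, hs₂i, ?_⟩
    rw [mul_assoc, he, mul_left_comm, he₁, pow_succ]
    ring

/-- Every element of `K` is a fraction of elements of `B`. -/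
theorem exists_frac (h : ResOneData V O w X) (f : K) :
    ∃ b₁ ∈ Subring.closure ((O : Set K) ∪ X), ∃ b₂ ∈ Subring.closure ((O : Set K) ∪ X),
      b₂ ≠ 0 ∧ f * b₂ = b₁ := by
  have hf := h.gen f
  induction hf using Subfield.closure_induction with
  | mem x hx =>
    exact ⟨x, Subring.subset_closure hx, 1, Subring.one_mem _, one_ne_zero, mul_one _⟩
  | one => exact ⟨1, Subring.one_mem _, 1, Subring.one_mem _, one_ne_zero, mul_one _⟩
  | add x y _ _ hx hy =>
    obtain ⟨b₁, hb₁, b₂, hb₂, h0, he⟩ := hx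
    obtain ⟨b₁', hb₁', b₂', hb₂', h0', he'⟩ := hy
    refine ⟨b₁ * b₂' + b₁' * b₂, Subring.add_mem _ (Subring.mul_mem _ hb₁ hb₂')
      (Subring.mul_mem _ hb₁' hb₂), b₂ * b₂', Subring.mul_mem _ hb₂ hb₂', mul_ne_zero h0 h0', ?_⟩
    rw [← he, ← he']
    ring
  | neg x _ hx =>
    obtain ⟨b₁, hb₁, b₂, hb₂, h0, he⟩ := hx
    exact ⟨-b₁, Subring.neg_mem _ hb₁, b₂, hb₂, h0, by rw [← he, neg_mul]⟩
  | inv x _ hx =>
    obtain ⟨b₁, hb₁, b₂, hb₂, h0, he⟩ := hx
    by_cases hx0 : x = 0
    · exact ⟨0, Subring.zero_mem _, 1, Subring.one_mem _, one_ne_zero,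
        by rw [hx0, inv_zero, zero_mul]⟩
    · have hb₁0 : b₁ ≠ 0 := by
        rw [← he]
        exact mul_ne_zero hx0 h0
      refine ⟨b₂, hb₂, b₁, hb₁, hb₁0, ?_⟩
      rw [← he, ← mul_assoc, inv_mul_cancel₀ hx0, one_mul]
  | mul x y _ _ hx hy =>
    obtain ⟨b₁, hb₁, b₂, hb₂, h0, he⟩ := hx
    obtain ⟨b₁', hb₁', b₂', hb₂', h0', he'⟩ := hy
    refine ⟨b₁ * b₁', Subring.mul_mem _ hb₁ hb₁', b₂ * b₂', Subring.mul_mem _ hb₂ hb₂',
      mul_ne_zero h0 h0', ?_⟩
    rw [← he, ← he']
    ring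

/-- **Residue degree one.**  Every element of `V` is congruent modulo `w V` to an element
of `O`. -/
theorem exists_congr (h : ResOneData V O w X) {f : K} (hf : f ∈ V) :
    ∃ g ∈ O, (f - g) * w⁻¹ ∈ V := by
  have hw := h.w_ne
  by_cases hf0 : f = 0
  · exact ⟨0, O.zero_mem, by rw [hf0, sub_zero, zero_mul]; exact V.zero_mem⟩
  obtain ⟨b₁, hb₁, b₂, hb₂, hb₂0, he⟩ := h.exists_frac f
  have hb₁0 : b₁ ≠ 0 := by
    rw [← he]
    exact mul_ne_zero hf0 hb₂0
  obtain ⟨n₁, u₁, hu₁, hu₁i, hbu₁⟩ := h.disc b₁ (h.closure_le hb₁) hb₁0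
  obtain ⟨n₂, u₂, hu₂, hu₂i, hbu₂⟩ := h.disc b₂ (h.closure_le hb₂) hb₂0
  have hu₁0 : u₁ ≠ 0 := by
    rintro rfl
    rw [mul_zero] at hbu₁
    exact hb₁0 hbu₁
  have hu₂0 : u₂ ≠ 0 := by
    rintro rfl
    rw [mul_zero] at hbu₂
    exact hb₂0 hbu₂
  obtain ⟨s₁, hs₁, hs₁0, hs₁i, t₁, ht₁, ht₁0, ht₁i, he₁⟩ :=
    h.unit_closure n₁ b₁ hb₁ u₁ hu₁ hu₁i hu₁0 hbu₁
  obtain ⟨s₂, hs₂, hs₂0, hs₂i, t₂, ht₂, ht₂0, ht₂i, he₂⟩ :=
    h.unit_closure n₂ b₂ hb₂ u₂ hu₂ hu₂i hu₂0 hbu₂
  -- `n₂ ≤ n₁`
  have hle : n₂ ≤ n₁ := by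
    by_contra hlt
    rw [not_le] at hlt
    obtain ⟨m, rfl⟩ : ∃ m, n₂ = n₁ + (m + 1) := ⟨n₂ - n₁ - 1, by omega⟩
    apply h.w_nonunit
    have h1 : w⁻¹ = w ^ m * f * u₂ * u₁⁻¹ := by
      have h2 : f * (w ^ (n₁ + (m + 1)) * u₂) = w ^ n₁ * u₁ := by
        rw [← hbu₂, ← hbu₁, he]
      have h3 : w ^ n₁ * (w * (w ^ m * f * u₂ * u₁⁻¹)) = w ^ n₁ * 1 := by
        have : w ^ n₁ * (w * (w ^ m * f * u₂ * u₁⁻¹))
            = f * (w ^ (n₁ + (m + 1)) * u₂) * u₁⁻¹ := by
          rw [pow_add, pow_succ]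
          ring
        rw [this, h2, mul_assoc, mul_inv_cancel₀ hu₁0]
      have h4 := mul_left_cancel₀ (pow_ne_zero n₁ hw) h3
      exact (eq_inv_of_mul_eq_one_right h4).symm ▸ rfl
    rw [h1]
    exact V.mul_mem (V.mul_mem (V.mul_mem (V.pow_mem h.w_mem_V m) hf) hu₂) hu₁i
  obtain ⟨k, rfl⟩ : ∃ k, n₁ = n₂ + k := ⟨n₁ - n₂, by omega⟩
  -- `f = w ^ k * (t₁ s₂) / (s₁ t₂)`
  have hfe : f = w ^ k * ((t₁ * s₂) * (s₁ * t₂)⁻¹) := by
    have h1 : b₁ = w ^ (n₂ + k) * t₁ * s₁⁻¹ := by
      rw [← he₁]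
      field_simp
    have h2 : b₂ = w ^ n₂ * t₂ * s₂⁻¹ := by
      rw [← he₂]
      field_simp
    have h3 : f = b₁ * b₂⁻¹ := by
      rw [← he]
      field_simp
    rw [h3, h1, h2, pow_add]
    field_simp
  have hC : Cong V O w f := by
    rw [hfe]
    refine Cong.mul h ?_ (Cong.mul h (Cong.mul h (h.cong_of_mem_closure ht₁)
      (h.cong_of_mem_closure hs₂)) ?_)
    · exact Cong.of_O (O.pow_mem h.w_mem k)
    · refine Cong.inv h (Cong.mul h (h.cong_of_mem_closure hs₁) (h.cong_of_mem_closure ht₂))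
        (mul_ne_zero hs₁0 ht₂0) ?_
      rw [mul_inv]
      exact V.mul_mem hs₁i ht₂i
  exact hC

end ResOneData

end Fermat.Agent.A2.Mod.H378

end
-- ===== PACK-END A2/Mod/H378/L11Abstract.lean

-- ===== PACK-BEGIN S18/H602/LaurentDeriv.lean
section


/-!
# The derivation `d/dq` of `k((q))`  (helper602, S18 / MOD piece SEP, part 1)

Mathlib has `LaurentSeries.derivative` as a linear map only.  We prove the Leibniz rule and bundle
it as a `Derivation k k((q)) k((q))`.

* `dq_mul` : `d/dq (f g) = f · d/dq g + g · d/dq f`.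
* `dqDer k : Derivation k (LaurentSeries k) (LaurentSeries k)`.
-/

set_option autoImplicit false

noncomputable section

namespace Fermat.Agent.S18.H602

open HahnSeries

variable {k : Type*} [CommRing k]

/-- `d/dq` on `k((q))`. -/
def dq (f : LaurentSeries k) : LaurentSeries k := LaurentSeries.derivative k f

@[simp]
theorem dq_coeff (f : LaurentSeries k) (n : ℤ) : (dq f).coeff n = (n + 1) • f.coeff (n + 1) := by
  simp [dq]

theorem dq_add (f g : LaurentSeries k) : dq (f + g) = dq f + dq g := _root_.map_add _ f g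

theorem dq_single_mul (n : ℤ) (h : LaurentSeries k) :
    dq (single n (1 : k) * h) = n • (single (n - 1) (1 : k) * h) + single n (1 : k) * dq h := by
  ext m
  simp only [dq_coeff, coeff_add, coeff_single_mul, one_mul, HahnSeries.coeff_smul]
  have e1 : m + 1 - n = m - (n - 1) := by ring
  have e2 : m - n + 1 = m - (n - 1) := by ring
  rw [e1, e2]
  simp only [zsmul_eq_mul]
  push_cast
  ring

theorem dq_ofPowerSeries (F : PowerSeries k) :
    dq (ofPowerSeries ℤ k F) = ofPowerSeries ℤ k (PowerSeries.derivative k F) := by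
  ext m
  rw [dq_coeff]
  rcases lt_or_ge m 0 with hm | hm
  · have h1 : ((ofPowerSeries ℤ k) ((PowerSeries.derivative k) F)).coeff m = 0 := by
      rw [ofPowerSeries_apply]
      apply HahnSeries.embDomain_of_notMem_range
      rintro ⟨a, ha⟩
      have : (0 : ℤ) ≤ m := by rw [← ha]; simp
      omega
    rw [h1]
    rcases eq_or_lt_of_le (show m + 1 ≤ 0 by omega) with h0 | h0
    · rw [h0]; simp
    · have h2 : ((ofPowerSeries ℤ k) F).coeff (m + 1) = 0 := by
        rw [ofPowerSeries_apply]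
        apply HahnSeries.embDomain_of_notMem_range
        rintro ⟨a, ha⟩
        have : (0 : ℤ) ≤ m + 1 := by rw [← ha]; simp
        omega
      rw [h2, smul_zero]
  · lift m to ℕ using hm
    have e : ((m : ℤ) + 1) = ((m + 1 : ℕ) : ℤ) := by push_cast; ring
    rw [ofPowerSeries_apply_coeff, PowerSeries.coeff_derivative, e, ofPowerSeries_apply_coeff]
    simp only [zsmul_eq_mul]
    push_cast
    ring

theorem dq_ofPowerSeries_mul (F G : PowerSeries k) :
    dq (ofPowerSeries ℤ k F * ofPowerSeries ℤ k G) =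
      ofPowerSeries ℤ k F * dq (ofPowerSeries ℤ k G) +
        ofPowerSeries ℤ k G * dq (ofPowerSeries ℤ k F) := by
  rw [← _root_.map_mul, dq_ofPowerSeries, dq_ofPowerSeries, dq_ofPowerSeries, Derivation.leibniz,
    _root_.map_add, smul_eq_mul, smul_eq_mul, _root_.map_mul, _root_.map_mul]

/-- **Leibniz rule** for `d/dq` on Laurent series. -/
theorem dq_mul (f g : LaurentSeries k) : dq (f * g) = f * dq g + g * dq f := by
  obtain ⟨a, F, rfl⟩ : ∃ (a : ℤ) (F : PowerSeries k), single a (1 : k) * ofPowerSeries ℤ k F = f :=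
    ⟨_, _, LaurentSeries.single_order_mul_powerSeriesPart f⟩
  obtain ⟨b, G, rfl⟩ : ∃ (b : ℤ) (G : PowerSeries k), single b (1 : k) * ofPowerSeries ℤ k G = g :=
    ⟨_, _, LaurentSeries.single_order_mul_powerSeriesPart g⟩
  set F' := ofPowerSeries ℤ k F with hF'
  set G' := ofPowerSeries ℤ k G with hG'
  have h1 : single a (1 : k) * F' * (single b (1 : k) * G') =
      single (a + b) (1 : k) * (F' * G') := by
    rw [mul_mul_mul_comm, single_mul_single, one_mul]
  have s1 : (single (a - 1) (1 : k) : LaurentSeries k) * single b (1 : k) =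
      single (a + b - 1) (1 : k) := by
    rw [single_mul_single, one_mul, show a - 1 + b = a + b - 1 by ring]
  have s2 : (single a (1 : k) : LaurentSeries k) * single (b - 1) (1 : k) =
      single (a + b - 1) (1 : k) := by
    rw [single_mul_single, one_mul, show a + (b - 1) = a + b - 1 by ring]
  have s3 : (single a (1 : k) : LaurentSeries k) * single b (1 : k) =
      single (a + b) (1 : k) := by
    rw [single_mul_single, one_mul]
  rw [h1, dq_single_mul, dq_single_mul, dq_single_mul, dq_ofPowerSeries_mul]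
  simp only [zsmul_eq_mul]
  push_cast
  linear_combination ((a : LaurentSeries k) * F' * G' ) * s1.symm +
    ((b : LaurentSeries k) * F' * G') * s2.symm +
    (F' * dq G' + G' * dq F') * s3.symm

theorem dq_C (c : k) : dq (C c : LaurentSeries k) = 0 := by
  ext m
  rw [dq_coeff, coeff_zero]
  by_cases h : m + 1 = 0
  · rw [h]; simp
  · rw [C_apply, coeff_single_of_ne h, smul_zero]

theorem dq_one : dq (1 : LaurentSeries k) = 0 := by
  have := dq_C (1 : k)
  rwa [_root_.map_one] at this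

theorem algebraMap_eq_C (c : k) : algebraMap k (LaurentSeries k) c = C c := by
  have h1 : algebraMap k (PowerSeries k) c = PowerSeries.C c := by simp
  rw [HahnSeries.algebraMap_apply', h1, HahnSeries.ofPowerSeries_C]

theorem dq_algebraMap (c : k) : dq (algebraMap k (LaurentSeries k) c) = 0 := by
  rw [algebraMap_eq_C]
  exact dq_C c

/-- `d/dq` as a `k`-derivation of `k((q))`. -/
def dqDer (k : Type*) [CommRing k] : Derivation k (LaurentSeries k) (LaurentSeries k) where
  toFun := dq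
  map_add' := dq_add
  map_smul' c f := by
    rw [Algebra.smul_def, dq_mul, dq_algebraMap, mul_zero, add_zero, RingHom.id_apply,
      algebraMap_eq_C, HahnSeries.C_mul_eq_smul]
  map_one_eq_zero' := dq_one
  leibniz' a b := by
    have := dq_mul a b
    simpa [smul_eq_mul] using this

@[simp]
theorem dqDer_apply (f : LaurentSeries k) : dqDer k f = dq f := rfl

end Fermat.Agent.S18.H602

end
end
-- ===== PACK-END S18/H602/LaurentDeriv.lean

-- ===== PACK-BEGIN S18/H754/DivisorPow.lean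
section


/-!
# S18 / Route K / étale Kummer cover, piece P2 (helper754)

In a UFD `R` with fraction field `F`: if `u ∈ Fˣ` is, at every prime element `π`, a `π`-unit times
a `p`-th power, then `u` is a unit of `R` times a `p`-th power.
-/

set_option autoImplicit false

noncomputable section

namespace Fermat.Agent.S18.H754

section P2

variable {R : Type*} [CommRing R] [IsDomain R]
  {F : Type*} [Field F] [Algebra R F] [IsFractionRing R F]

/-- `u` is a `π`-adic unit times a `p`-th power. -/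
def LocallyPow (R : Type*) [CommRing R] {F : Type*} [Field F] [Algebra R F]
    (p : ℕ) (u : F) (π : R) : Prop :=
  ∃ t : F, ∃ a b : R, ¬ π ∣ a ∧ ¬ π ∣ b ∧ u * t ^ p * algebraMap R F b = algebraMap R F a

omit [IsDomain R] [IsFractionRing R F] in
lemma LocallyPow.mul_pow {p : ℕ} {u : F} {π : R} (h : LocallyPow R p u π) {c : F} (hc : c ≠ 0) :
    LocallyPow R p (u * c ^ p) π := by
  obtain ⟨t, a, b, ha, hb, h⟩ := h
  refine ⟨t / c, a, b, ha, hb, ?_⟩
  rw [← h, div_pow]
  field_simp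

omit [IsDomain R] in
lemma LocallyPow.inv {p : ℕ} {u : F} {π : R} (hu : u ≠ 0) (h : LocallyPow R p u π) :
    LocallyPow R p u⁻¹ π := by
  obtain ⟨t, a, b, ha, hb, h⟩ := h
  refine ⟨t⁻¹, b, a, hb, ha, ?_⟩
  by_cases hp : p = 0
  · subst hp
    simp only [pow_zero, mul_one] at h ⊢
    rw [← h]
    field_simp
  · have ht : t ≠ 0 := by
      rintro rfl
      rw [zero_pow hp, mul_zero, zero_mul] at h
      have ha0 : a = 0 := IsFractionRing.injective R F (by rw [← h, map_zero])
      exact ha (ha0 ▸ dvd_zero π)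
    rw [← h, inv_pow]
    field_simp

variable [UniqueFactorizationMonoid R]

/-- the key divisibility: a prime dividing the numerator but not the denominator of a locally
`p`-th power divides the numerator at least `p` times. -/
lemma pow_dvd_of_locallyPow {p : ℕ} {π : R} (hπ : Prime π) {a b : R} (ha : a ≠ 0) (hb : b ≠ 0)
    (hπa : π ∣ a) (hπb : ¬ π ∣ b)
    (h : LocallyPow R p (algebraMap R F a / algebraMap R F b) π) : π ^ p ∣ a := by
  obtain ⟨t, a', b', ha', hb', h⟩ := h
  have ha'0 : a' ≠ 0 := fun h0 => ha' (h0 ▸ dvd_zero π)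
  have hb'0 : b' ≠ 0 := fun h0 => hb' (h0 ▸ dvd_zero π)
  obtain ⟨c, d, hd, rfl⟩ := IsFractionRing.div_surjective (A := R) t
  have hd0 : d ≠ 0 := nonZeroDivisors.ne_zero hd
  have hinj := IsFractionRing.injective R F
  have hbF : algebraMap R F b ≠ 0 := fun h0 => hb (hinj (by rw [h0, map_zero]))
  have hdF : algebraMap R F d ≠ 0 := fun h0 => hd0 (hinj (by rw [h0, map_zero]))
  have hc0 : c ≠ 0 := by
    rintro rfl
    by_cases hp : p = 0
    · subst hp
      simp only [pow_zero, mul_one] at h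
      -- `a * b' = a' * b`
      have h2 : a * b' = a' * b := by
        apply hinj
        rw [map_mul, map_mul, ← h]
        field_simp
      have : π ∣ a' * b := h2 ▸ Dvd.dvd.mul_right hπa b'
      rcases hπ.dvd_or_dvd this with h3 | h3
      · exact ha' h3
      · exact hπb h3
    · rw [map_zero, zero_div, zero_pow hp, mul_zero, zero_mul] at h
      exact ha'0 (hinj (by rw [← h, map_zero]))
  have heq : a * c ^ p * b' = a' * b * d ^ p := by
    apply hinj
    simp only [map_mul, map_pow]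
    rw [← h, div_pow]
    field_simp
  -- multiplicities
  have hfin : ∀ x : R, x ≠ 0 → FiniteMultiplicity π x :=
    fun x hx => FiniteMultiplicity.of_prime_left hπ hx
  have e1 := congrArg (emultiplicity π) heq
  rw [emultiplicity_mul hπ, emultiplicity_mul hπ, emultiplicity_mul hπ, emultiplicity_mul hπ,
    emultiplicity_pow hπ, emultiplicity_pow hπ, emultiplicity_eq_zero.mpr ha',
    emultiplicity_eq_zero.mpr hb', emultiplicity_eq_zero.mpr hπb,
    (hfin a ha).emultiplicity_eq_multiplicity, (hfin c hc0).emultiplicity_eq_multiplicity,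
    (hfin d hd0).emultiplicity_eq_multiplicity] at e1
  have e2 : multiplicity π a + p * multiplicity π c = p * multiplicity π d := by
    have : ((multiplicity π a + p * multiplicity π c : ℕ) : ℕ∞) =
        ((p * multiplicity π d : ℕ) : ℕ∞) := by
      push_cast
      simpa using e1
    exact_mod_cast this
  have h1 : 1 ≤ multiplicity π a := by
    rw [← (hfin a ha).pow_dvd_iff_le_multiplicity, pow_one]
    exact hπa
  have h2 : p ∣ multiplicity π a := by
    have : p ∣ multiplicity π a + p * multiplicity π c := ⟨multiplicity π d, e2⟩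
    exact (Nat.dvd_add_left (Dvd.intro _ rfl)).mp this
  have h3 : p ≤ multiplicity π a := Nat.le_of_dvd h1 h2
  exact pow_dvd_of_le_multiplicity h3

lemma pow_dvd_of_locallyPow' {p : ℕ} {π : R} (hπ : Prime π) {a b : R} (ha : a ≠ 0) (hb : b ≠ 0)
    (hπa : ¬ π ∣ a) (hπb : π ∣ b)
    (h : LocallyPow R p (algebraMap R F a / algebraMap R F b) π) : π ^ p ∣ b := by
  have hinj := IsFractionRing.injective R F
  have haF : algebraMap R F a ≠ 0 := fun h0 => ha (hinj (by rw [h0, map_zero]))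
  have hbF : algebraMap R F b ≠ 0 := fun h0 => hb (hinj (by rw [h0, map_zero]))
  have h' := h.inv (div_ne_zero haF hbF)
  rw [inv_div] at h'
  exact pow_dvd_of_locallyPow hπ hb ha hπb hπa h'

/-- **P2.** In a UFD, an element of the fraction field which is locally (at every prime element)
a unit times a `p`-th power is a unit times a `p`-th power. -/
theorem exists_unit_mul_pow_aux (p : ℕ) (hp : 0 < p) :
    ∀ x : R, x ≠ 0 → ∀ a b : R, a * b = x →
      (∀ π : R, Prime π → LocallyPow R p (algebraMap R F a / algebraMap R F b) π) →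
      ∃ s : F, s ≠ 0 ∧ ∃ w : Rˣ,
        algebraMap R F a / algebraMap R F b * s ^ p = algebraMap R F w := by
  intro x
  refine WellFounded.induction (wellFounded_dvdNotUnit (α := R))
    (C := fun x => x ≠ 0 → ∀ a b : R, a * b = x →
      (∀ π : R, Prime π → LocallyPow R p (algebraMap R F a / algebraMap R F b) π) →
      ∃ s : F, s ≠ 0 ∧ ∃ w : Rˣ,
        algebraMap R F a / algebraMap R F b * s ^ p = algebraMap R F w) x ?_
  intro x ih hx a b hab H
  have hinj := IsFractionRing.injective R F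
  have ha : a ≠ 0 := fun h0 => hx (by rw [← hab, h0, zero_mul])
  have hb : b ≠ 0 := fun h0 => hx (by rw [← hab, h0, mul_zero])
  have haF : algebraMap R F a ≠ 0 := fun h0 => ha (hinj (by rw [h0, map_zero]))
  have hbF : algebraMap R F b ≠ 0 := fun h0 => hb (hinj (by rw [h0, map_zero]))
  by_cases hxu : IsUnit x
  · -- both `a` and `b` are units
    have hau : IsUnit a := isUnit_of_mul_isUnit_left (hab ▸ hxu)
    have hbu : IsUnit b := isUnit_of_mul_isUnit_right (hab ▸ hxu)
    obtain ⟨ua, hua⟩ := hau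
    obtain ⟨ub, hub⟩ := hbu
    refine ⟨1, one_ne_zero, ua * ub⁻¹, ?_⟩
    rw [one_pow, mul_one, Units.val_mul, map_mul, ← hua, ← hub, div_eq_mul_inv, map_units_inv]
  · obtain ⟨π, hπirr, hπx⟩ := WfDvdMonoid.exists_irreducible_factor hxu hx
    have hπ : Prime π := UniqueFactorizationMonoid.irreducible_iff_prime.mp hπirr
    have hπF : algebraMap R F π ≠ 0 := fun h0 => hπ.ne_zero (hinj (by rw [h0, map_zero]))
    by_cases hπa : π ∣ a
    · by_cases hπb : π ∣ b
      · -- cancel `π`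
        obtain ⟨a₁, rfl⟩ := hπa
        obtain ⟨b₁, rfl⟩ := hπb
        have ha₁ : a₁ ≠ 0 := right_ne_zero_of_mul ha
        have hb₁ : b₁ ≠ 0 := right_ne_zero_of_mul hb
        have hlt : DvdNotUnit (a₁ * b₁) x := by
          refine ⟨mul_ne_zero ha₁ hb₁, π * π, ?_, ?_⟩
          · intro hu
            exact hπ.not_unit (isUnit_of_mul_isUnit_left hu)
          · rw [← hab]; ring
        have hquot : algebraMap R F (π * a₁) / algebraMap R F (π * b₁) =
            algebraMap R F a₁ / algebraMap R F b₁ := by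
          rw [map_mul, map_mul]
          field_simp
        rw [hquot] at H ⊢
        exact ih (a₁ * b₁) hlt (mul_ne_zero ha₁ hb₁) a₁ b₁ rfl H
      · -- `π ^ p ∣ a`
        obtain ⟨a₂, rfl⟩ := pow_dvd_of_locallyPow hπ ha hb hπa hπb (H π hπ)
        have ha₂ : a₂ ≠ 0 := right_ne_zero_of_mul ha
        have hlt : DvdNotUnit (a₂ * b) x := by
          refine ⟨mul_ne_zero ha₂ hb, π ^ p, ?_, ?_⟩
          · intro hu
            exact hπ.not_unit (isUnit_of_dvd_unit (dvd_pow_self π hp.ne') hu)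
          · rw [← hab]; ring
        have hquot : algebraMap R F a₂ / algebraMap R F b =
            algebraMap R F (π ^ p * a₂) / algebraMap R F b * ((algebraMap R F π)⁻¹) ^ p := by
          rw [map_mul, map_pow, inv_pow]
          field_simp
        have H' : ∀ π' : R, Prime π' →
            LocallyPow R p (algebraMap R F a₂ / algebraMap R F b) π' := by
          intro π' hπ'
          rw [hquot]
          exact (H π' hπ').mul_pow (inv_ne_zero hπF)
        obtain ⟨s, hs, w, hw⟩ := ih (a₂ * b) hlt (mul_ne_zero ha₂ hb) a₂ b rfl H'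
        refine ⟨s * (algebraMap R F π)⁻¹, mul_ne_zero hs (inv_ne_zero hπF), w, ?_⟩
        rw [← hw, hquot]
        ring
    · have hπb : π ∣ b := by
        rcases hπ.dvd_or_dvd (hab ▸ hπx) with h | h
        · exact absurd h hπa
        · exact h
      obtain ⟨b₂, rfl⟩ := pow_dvd_of_locallyPow' hπ ha hb hπa hπb (H π hπ)
      have hb₂ : b₂ ≠ 0 := right_ne_zero_of_mul hb
      have hlt : DvdNotUnit (a * b₂) x := by
        refine ⟨mul_ne_zero ha hb₂, π ^ p, ?_, ?_⟩
        · intro hu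
          exact hπ.not_unit (isUnit_of_dvd_unit (dvd_pow_self π hp.ne') hu)
        · rw [← hab]; ring
      have hb₂F : algebraMap R F b₂ ≠ 0 := fun h0 => hb₂ (hinj (by rw [h0, map_zero]))
      have hquot : algebraMap R F a / algebraMap R F b₂ =
          algebraMap R F a / algebraMap R F (π ^ p * b₂) * (algebraMap R F π) ^ p := by
        rw [map_mul, map_pow]
        field_simp
      have H' : ∀ π' : R, Prime π' →
          LocallyPow R p (algebraMap R F a / algebraMap R F b₂) π' := by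
        intro π' hπ'
        rw [hquot]
        exact (H π' hπ').mul_pow hπF
      obtain ⟨s, hs, w, hw⟩ := ih (a * b₂) hlt (mul_ne_zero ha hb₂) a b₂ rfl H'
      refine ⟨s * algebraMap R F π, mul_ne_zero hs hπF, w, ?_⟩
      rw [← hw, hquot]
      ring

theorem exists_unit_mul_pow (p : ℕ) (hp : 0 < p) (u : F) (hu : u ≠ 0)
    (H : ∀ π : R, Prime π → LocallyPow R p u π) :
    ∃ s : F, s ≠ 0 ∧ ∃ w : Rˣ, u * s ^ p = algebraMap R F w := by
  obtain ⟨a, b, hb, rfl⟩ := IsFractionRing.div_surjective (A := R) u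
  have hb0 : b ≠ 0 := nonZeroDivisors.ne_zero hb
  have ha0 : a ≠ 0 := by
    rintro rfl
    rw [map_zero, zero_div] at hu
    exact hu rfl
  exact exists_unit_mul_pow_aux p hp (a * b) (mul_ne_zero ha0 hb0) a b rfl H

end P2

end Fermat.Agent.S18.H754

end

end
-- ===== PACK-END S18/H754/DivisorPow.lean

-- ===== PACK-BEGIN Ribet/H224/WPNewton.lean
section


/-!
# RIBET row 38, WALL-p, W-ALGP leaf WPN: the Mathlib-only calculus  (helper224)

`p` a prime, `A` a commutative ring, `lam, κ ∈ A` with `p = lam ^ (p - 1) * κ` (`lam = ζ - 1`).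

* `wpn_one_add_pow`  : `(1 + y) ^ p = 1 + p y + y ^ p + p y² r`.
* `wpn_newton_step`  : in a local ring, `1 + lam^p π^j c = H ^ p (1 + lam^p π^(j+1) c')`, `j ≥ 1`
  (one Newton step; no denominators, the step stays inside `A`).
* `wpn_newton`       : `1 + lam^p π c = H ^ p (1 + lam^p π^k c')` for every `k ≥ 1`:
  an element of `1 + lam^p π A` is a `p`-th power to any `π`-adic precision.
* `wpn_root_close`   : in a valuation ring, `lam^p ∣ d ^ p - 1 ⟹ lam ∣ d - 1`.
-/

set_option autoImplicit false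

namespace Fermat.Agent.Ribet.H224

open Finset

/-- `(1 + y) ^ p = 1 + p y + y ^ p + p y² r`. -/
theorem wpn_one_add_pow {A : Type*} [CommRing A] {p : ℕ} (hp : p.Prime) (y : A) :
    ∃ r : A, (1 + y) ^ p = 1 + p * y + y ^ p + p * y ^ 2 * r := by
  have h := add_pow_prime_eq hp y (1 : A)
  have h1 : 1 ∈ Ioo 0 p := by
    rw [mem_Ioo]
    exact ⟨Nat.zero_lt_one, hp.one_lt⟩
  have hsum : ∃ r : A, ∑ k ∈ Ioo 0 p, y ^ (k - 1) * (1 : A) ^ (p - k - 1) * ↑(p.choose k / p)
      = 1 + y * r := by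
    rw [← Finset.add_sum_erase _ _ h1]
    have hfirst : y ^ (1 - 1) * (1 : A) ^ (p - 1 - 1) * ((p.choose 1 / p : ℕ) : A) = 1 := by
      rw [Nat.choose_one_right, Nat.div_self hp.pos]
      simp
    rw [hfirst]
    have hdvd : y ∣ ∑ k ∈ (Ioo 0 p).erase 1,
        y ^ (k - 1) * (1 : A) ^ (p - k - 1) * ↑(p.choose k / p) := by
      apply Finset.dvd_sum
      intro k hk
      rw [mem_erase, mem_Ioo] at hk
      have hk2 : k - 1 = (k - 2) + 1 := by omega
      rw [hk2, pow_succ]
      exact ⟨y ^ (k - 2) * (1 : A) ^ (p - k - 1) * ↑(p.choose k / p), by ring⟩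
    obtain ⟨r, hr⟩ := hdvd
    exact ⟨r, by rw [hr]⟩
  obtain ⟨r, hr⟩ := hsum
  refine ⟨r, ?_⟩
  rw [add_comm (1 : A) y, h, hr]
  ring

/-- One Newton step, inside a local ring. -/
theorem wpn_newton_step {A : Type*} [CommRing A] [IsLocalRing A] {p : ℕ} (hp : p.Prime)
    {lam π κ : A} (hκ : IsUnit κ) (hpl : (p : A) = lam ^ (p - 1) * κ)
    (hπ : π ∈ IsLocalRing.maximalIdeal A) {j : ℕ} (hj : 1 ≤ j) (c : A) :
    ∃ H c' : A, IsUnit H ∧
      1 + lam ^ p * π ^ j * c = H ^ p * (1 + lam ^ p * π ^ (j + 1) * c') := by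
  obtain ⟨κ', hκ'⟩ := hκ.exists_right_inv
  set s : A := κ' * c with hs
  set y : A := lam * π ^ j * s with hy
  have hym : y ∈ IsLocalRing.maximalIdeal A := by
    rw [hy]
    apply Ideal.mul_mem_right
    apply Ideal.mul_mem_left
    exact Ideal.pow_mem_of_mem _ hπ j (by omega)
  have hH : IsUnit (1 + y) := by
    by_contra h
    have h1 : 1 + y ∈ IsLocalRing.maximalIdeal A := (IsLocalRing.mem_maximalIdeal _).mpr h
    have h2 : (1 : A) ∈ IsLocalRing.maximalIdeal A := by
      have : (1 : A) = (1 + y) - y := by ring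
      rw [this]
      exact Ideal.sub_mem _ h1 hym
    exact (Ideal.ne_top_iff_one _).mp (IsLocalRing.maximalIdeal.isMaximal A).ne_top h2
  obtain ⟨r, hr⟩ := wpn_one_add_pow hp y
  obtain ⟨Hi, hHi⟩ := hH.exists_right_inv
  have hp2 := hp.two_le
  have hpp : lam ^ p = lam ^ (p - 1) * lam := by
    rw [← pow_succ]
    congr 1
    omega
  have hpj : π ^ (p * j) = π ^ (j + 1) * π ^ (p * j - j - 1) := by
    rw [← pow_add]
    congr 1
    have : j + 1 ≤ p * j := by nlinarith
    omega
  have hjj : π ^ (2 * j) = π ^ (j + 1) * π ^ (j - 1) := by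
    rw [← pow_add]
    congr 1
    omega
  -- the expansion
  set m : A := π ^ (p * j - j - 1) * s ^ p + lam * π ^ (j - 1) * κ * s ^ 2 * r with hm
  have hexp : (1 + y) ^ p = 1 + lam ^ p * π ^ j * c + lam ^ p * π ^ (j + 1) * m := by
    have e1 : (p : A) * y = lam ^ p * π ^ j * c := by
      rw [hpl, hy, hs, hpp]
      linear_combination (lam ^ (p - 1) * lam * π ^ j * c) * hκ'
    have e2 : y ^ p = lam ^ p * π ^ (j + 1) * (π ^ (p * j - j - 1) * s ^ p) := by
      rw [hy, mul_pow, mul_pow, ← pow_mul, mul_comm j p, hpj]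
      ring
    have e3 : (p : A) * y ^ 2 * r
        = lam ^ p * π ^ (j + 1) * (lam * π ^ (j - 1) * κ * s ^ 2 * r) := by
      rw [hpl, hy, mul_pow, mul_pow, ← pow_mul, mul_comm j 2, hjj, hpp]
      ring
    rw [hr, e1, e2, e3, hm]
    ring
  refine ⟨1 + y, -(m * Hi ^ p), hH, ?_⟩
  have hHp : (1 + y) ^ p * Hi ^ p = 1 := by
    rw [← mul_pow, hHi, one_pow]
  linear_combination (lam ^ p * π ^ (j + 1) * m) * hHp - hexp

/-- **Newton approximation below the Hensel bound is unnecessary above it**: an element of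
`1 + lam ^ p π A` is a `p`-th power to any `π`-adic precision. -/
theorem wpn_newton {A : Type*} [CommRing A] [IsLocalRing A] {p : ℕ} (hp : p.Prime)
    {lam π κ : A} (hκ : IsUnit κ) (hpl : (p : A) = lam ^ (p - 1) * κ)
    (hπ : π ∈ IsLocalRing.maximalIdeal A) (c : A) :
    ∀ k : ℕ, 1 ≤ k → ∃ H c' : A, IsUnit H ∧
      1 + lam ^ p * π * c = H ^ p * (1 + lam ^ p * π ^ k * c') := by
  intro k hk
  induction k, hk using Nat.le_induction with
  | base => exact ⟨1, c, isUnit_one, by ring⟩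
  | succ k hk ih =>
    obtain ⟨H, c', hH, e⟩ := ih
    obtain ⟨H', c'', hH', e'⟩ := wpn_newton_step hp hκ hpl hπ hk c'
    refine ⟨H * H', c'', hH.mul hH', ?_⟩
    rw [e, e']
    ring

/-- In a valuation ring: `lam ^ p ∣ d ^ p - 1 ⟹ lam ∣ d - 1` (when `p = lam ^ (p-1) κ`). -/
theorem wpn_root_close {V : Type*} [CommRing V] [IsDomain V] [ValuationRing V] {p : ℕ}
    (hp : p.Prime) {lam κ : V} (hpl : (p : V) = lam ^ (p - 1) * κ) {d : V}
    (h : lam ^ p ∣ d ^ p - 1) : lam ∣ d - 1 := by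
  rcases ValuationRing.dvd_total lam (d - 1) with h1 | h1
  · exact h1
  obtain ⟨m, hm⟩ := h1
  set y : V := d - 1 with hy
  by_cases hy0 : y = 0
  · rw [hy0]
    exact dvd_zero _
  by_cases hmu : IsUnit m
  · obtain ⟨m', hm'⟩ := hmu.exists_right_inv
    exact ⟨m', by rw [hm]; linear_combination (-y) * hm'⟩
  exfalso
  have hp2 := hp.two_le
  obtain ⟨r, hr⟩ := wpn_one_add_pow hp y
  have hd : d = 1 + y := by rw [hy]; ring
  have hpp : p - 1 = (p - 2) + 1 := by omega
  -- `d ^ p - 1 = y ^ p * (1 + m * t)`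
  have hpy : (p : V) * y = y ^ p * (m * (m ^ (p - 2) * κ)) := by
    have e0 : y ^ p = y ^ (p - 1) * y := by
      rw [← pow_succ]
      congr 1
      omega
    rw [hpl, hm, mul_pow, e0, hpp, pow_succ m]
    ring
  have hfac : d ^ p - 1 = y ^ p * (1 + m * (m ^ (p - 2) * κ * (1 + y * r))) := by
    rw [hd, hr]
    linear_combination (1 + y * r) * hpy
  have hmm : m ∈ IsLocalRing.maximalIdeal V := (IsLocalRing.mem_maximalIdeal _).mpr hmu
  have hunit : IsUnit (1 + m * (m ^ (p - 2) * κ * (1 + y * r))) := by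
    by_contra hnu
    have h1 : 1 + m * (m ^ (p - 2) * κ * (1 + y * r)) ∈ IsLocalRing.maximalIdeal V :=
      (IsLocalRing.mem_maximalIdeal _).mpr hnu
    have h2 : (1 : V) ∈ IsLocalRing.maximalIdeal V := by
      have : (1 : V) = (1 + m * (m ^ (p - 2) * κ * (1 + y * r)))
          - m * (m ^ (p - 2) * κ * (1 + y * r)) := by ring
      rw [this]
      exact Ideal.sub_mem _ h1 (Ideal.mul_mem_right _ _ hmm)
    exact (Ideal.ne_top_iff_one _).mp (IsLocalRing.maximalIdeal.isMaximal V).ne_top h2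
  rw [hfac, hm, mul_pow] at h
  have h3 : m ^ p ∣ 1 + m * (m ^ (p - 2) * κ * (1 + y * r)) :=
    (mul_dvd_mul_iff_left (pow_ne_zero p hy0)).1 h
  have h4 : IsUnit (m ^ p) := isUnit_of_dvd_unit h3 hunit
  exact hmu ((isUnit_pow_iff hp.ne_zero).1 h4)

end Fermat.Agent.Ribet.H224

end
-- ===== PACK-END Ribet/H224/WPNewton.lean

-- ===== PACK-BEGIN A2/Alg/H34/Val.lean
section


/-!
# WALL A2 / ALG — the `w`-adic valuation at a component (helper34), Mathlib-only

`B` a noetherian domain, `p` a prime with `p B_p = w B_p` (elementwise: every `a ∈ p` satisfies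
`a * s = w * a'` with `s ∉ p`).  Then every `b ≠ 0` is `w ^ k * a / t` with `a, t ∉ p`
(`exists_pow_mul_eq`): `B_p` is a discrete valuation ring with uniformiser `w`.
-/

set_option autoImplicit false
set_option linter.unusedSectionVars false

namespace Fermat.Agent.A2.Alg.H34

open IsLocalRing

variable {B : Type*} [CommRing B] [IsDomain B] [IsNoetherianRing B]

theorem maximalIdeal_atPrime_eq_span (p : Ideal B) [hp : p.IsPrime] (w : B) (hw : w ∈ p)
    (hloc : ∀ a ∈ p, ∃ s, s ∉ p ∧ ∃ a', a * s = w * a') :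
    maximalIdeal (Localization.AtPrime p) =
      Ideal.span {algebraMap B (Localization.AtPrime p) w} := by
  rw [← Localization.AtPrime.map_eq_maximalIdeal]
  set L := Localization.AtPrime p with hL
  apply le_antisymm
  · rw [Ideal.map_le_iff_le_comap]
    intro a ha
    obtain ⟨s, hs, a', h⟩ := hloc a ha
    rw [Ideal.mem_comap, Ideal.mem_span_singleton']
    have hsu : IsUnit (algebraMap B L s) :=
      (IsLocalization.AtPrime.isUnit_to_map_iff _ p s).2 hs
    obtain ⟨v, hv⟩ := hsu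
    refine ⟨algebraMap B L a' * (↑v⁻¹ : L), ?_⟩
    have h2 := congrArg (algebraMap B L) h
    rw [map_mul, map_mul, ← hv] at h2
    calc algebraMap B L a' * (↑v⁻¹ : L) * algebraMap B L w
        = (algebraMap B L w * algebraMap B L a') * (↑v⁻¹ : L) := by ring
      _ = (algebraMap B L a * (↑v : L)) * (↑v⁻¹ : L) := by rw [h2]
      _ = algebraMap B L a := by rw [mul_assoc, Units.mul_inv, mul_one]
  · rw [Ideal.span_le, Set.singleton_subset_iff]
    exact Ideal.mem_map_of_mem _ hw

/-- `B_p` is a discrete valuation ring with uniformiser `w`, elementwise. -/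
theorem exists_pow_mul_eq (p : Ideal B) [hp : p.IsPrime] (w : B) (hw : w ∈ p)
    (hloc : ∀ a ∈ p, ∃ s, s ∉ p ∧ ∃ a', a * s = w * a')
    (b : B) (hb : b ≠ 0) : ∃ (k : ℕ) (a t : B), a ∉ p ∧ t ∉ p ∧ t * b = w ^ k * a := by
  set L := Localization.AtPrime p with hL
  have hinj : Function.Injective (algebraMap B L) :=
    IsLocalization.injective L p.primeCompl_le_nonZeroDivisors
  have : IsNoetherianRing L := IsLocalization.isNoetherianRing p.primeCompl L inferInstance
  have hm := maximalIdeal_atPrime_eq_span p w hw hloc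
  have hkrull : ⨅ i, maximalIdeal L ^ i = ⊥ :=
    Ideal.iInf_pow_eq_bot_of_isLocalRing _ (maximalIdeal.isMaximal L).ne_top
  have hφb : algebraMap B L b ≠ 0 := fun h => hb (hinj (by rw [h, map_zero]))
  have hex : ∃ k, algebraMap B L b ∉ maximalIdeal L ^ k := by
    by_contra hcon
    push Not at hcon
    apply hφb
    have : algebraMap B L b ∈ ⨅ i, maximalIdeal L ^ i := by
      rw [Ideal.mem_iInf]
      exact hcon
    rw [hkrull] at this
    exact this
  classical
  set k₀ := Nat.find hex with hk₀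
  have hk₀spec : algebraMap B L b ∉ maximalIdeal L ^ k₀ := Nat.find_spec hex
  have hk₀pos : k₀ ≠ 0 := by
    intro h0
    rw [h0, pow_zero, Ideal.one_eq_top] at hk₀spec
    exact hk₀spec Submodule.mem_top
  obtain ⟨k, hk⟩ := Nat.exists_eq_succ_of_ne_zero hk₀pos
  have hmem : algebraMap B L b ∈ maximalIdeal L ^ k := by
    by_contra hcon
    have := Nat.find_min' hex hcon
    omega
  rw [hm, Ideal.span_singleton_pow, Ideal.mem_span_singleton'] at hmem
  obtain ⟨y, hy⟩ := hmem
  obtain ⟨⟨a, t⟩, hat⟩ := IsLocalization.mk'_surjective p.primeCompl y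
  simp only at hat
  have htu : IsUnit (algebraMap B L t) :=
    (IsLocalization.AtPrime.isUnit_to_map_iff _ p t).2 t.2
  have hspec : y * algebraMap B L t = algebraMap B L a := by
    rw [← hat]
    exact IsLocalization.mk'_spec L a t
  refine ⟨k, a, t, ?_, t.2, ?_⟩
  · intro ha
    apply hk₀spec
    rw [hk, pow_succ]
    have hya : y ∈ maximalIdeal L := by
      have h1 : algebraMap B L a ∈ maximalIdeal L :=
        (IsLocalization.AtPrime.to_map_mem_maximal_iff L p a).2 ha
      rw [← hspec] at h1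
      rcases (maximalIdeal.isMaximal L).isPrime.mem_or_mem h1 with h | h
      · exact h
      · exact absurd htu ((IsLocalRing.mem_maximalIdeal _).1 h)
    have h1 : algebraMap B L w ^ k ∈ maximalIdeal L ^ k := by
      rw [hm, Ideal.span_singleton_pow]
      exact Ideal.mem_span_singleton_self _
    have h2 : algebraMap B L w ^ k * y ∈ maximalIdeal L ^ k * maximalIdeal L :=
      Ideal.mul_mem_mul h1 hya
    rw [← hy, mul_comm y]
    exact h2
  · apply hinj
    rw [map_mul, map_mul, map_pow, ← hspec, ← hy]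
    ring

end Fermat.Agent.A2.Alg.H34

end
-- ===== PACK-END A2/Alg/H34/Val.lean

-- ===== PACK-BEGIN Ribet/H573/WACore.lean
section


/-!
# Weak approximation for two Gauss-like valuation rings (helper573) — Mathlib only

`K ⊂ F` fields, `A` a valuation subring of `K` of rank one (`harch`), `V`, `V'` two DIFFERENT
valuation subrings of `F` which are *Gauss-like* over `A`: they induce `A` on the constants and
every nonzero element of `F` is a constant times a unit.

* `GaussLike A V`          : the hypothesis;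
* `exists_sep`             : a separator `t ∈ 𝔪_V`, `t⁻¹ ∈ 𝔪_{V'}`;
* `exists_idem`            : for constants `d₁, d₂ ≠ 0` there is `e` with `1 - e ∈ d₁ V`,
                             `e ∈ d₂ V'`;
* `exists_approx_two`      : for `g₁, g₂ ≠ 0`, `r ≠ 0` constant, there is `a` with
                             `a ∈ g₁ (1 + r V) ∩ g₂ (1 + r V')`;
* `OneModV V r u`          : `u ∈ 1 + r V`; closed under products, inverses, powers when
                             `r ∈ 𝔪_V`;
* `GaussLike.exists_depth`  : `1 + 𝔪_V = ⋃ (1 + ϖ V)`, `ϖ` running over the nonzero constants of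
                             `𝔪_A`;
* **`exists_common_root`** : `f ∈ (Fˣ)^p (1 + r V) ∩ (Fˣ)^p (1 + r V')`, `r ∈ 𝔪_A` a nonzero
                             constant ⟹ `f = g ^ p · u` with ONE `g` and
                             `u ∈ (1 + r V) ∩ (1 + r V')`.
-/

set_option autoImplicit false

namespace Fermat.Agent.Ribet.H573.WA

section OneMod

variable {F : Type*} [Field F]

/-- `u ∈ 1 + r · V`. -/
def OneModV (V : ValuationSubring F) (r u : F) : Prop :=
  ∃ y ∈ V, u = 1 + r * y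

variable {V : ValuationSubring F} {r u u' : F}

theorem OneModV.one (V : ValuationSubring F) (r : F) : OneModV V r 1 :=
  ⟨0, zero_mem _, by rw [mul_zero, add_zero]⟩

theorem OneModV.mul (hr : r ∈ V) (h : OneModV V r u) (h' : OneModV V r u') :
    OneModV V r (u * u') := by
  obtain ⟨y, hy, rfl⟩ := h
  obtain ⟨y', hy', rfl⟩ := h'
  exact ⟨y + y' + r * y * y', add_mem (add_mem hy hy') (mul_mem (mul_mem hr hy) hy'), by ring⟩

theorem OneModV.pow (hr : r ∈ V) (h : OneModV V r u) (n : ℕ) : OneModV V r (u ^ n) := by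
  induction n with
  | zero => rw [pow_zero]; exact OneModV.one V r
  | succ n ih => rw [pow_succ]; exact ih.mul hr h

theorem valuation_lt_one_of_nonunit (hr : r ∈ V.nonunits) : V.valuation r < 1 :=
  V.mem_nonunits_iff.1 hr |> fun h => h

theorem mem_of_nonunit (hr : r ∈ V.nonunits) : r ∈ V :=
  (V.valuation_le_one_iff r).1 (valuation_lt_one_of_nonunit hr).le

/-- elements of `1 + r V`, `r ∈ 𝔪_V`, have valuation one -/
theorem OneModV.valuation_eq_one (hr : r ∈ V.nonunits) (h : OneModV V r u) :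
    V.valuation u = 1 := by
  obtain ⟨y, hy, rfl⟩ := h
  apply (V.valuation).map_one_add_of_lt
  rw [map_mul]
  calc V.valuation r * V.valuation y ≤ V.valuation r * 1 :=
        mul_le_mul' le_rfl ((V.valuation_le_one_iff y).2 hy)
    _ = V.valuation r := mul_one _
    _ < 1 := valuation_lt_one_of_nonunit hr

theorem OneModV.ne_zero (hr : r ∈ V.nonunits) (h : OneModV V r u) : u ≠ 0 := by
  intro h0
  have := h.valuation_eq_one hr
  rw [h0, map_zero] at this
  exact zero_ne_one this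

theorem OneModV.inv (hr : r ∈ V.nonunits) (h : OneModV V r u) : OneModV V r u⁻¹ := by
  have hv := h.valuation_eq_one hr
  have hu0 := h.ne_zero hr
  obtain ⟨y, hy, rfl⟩ := h
  have hinv : (1 + r * y)⁻¹ ∈ V := by
    rw [← V.valuation_le_one_iff, map_inv₀, hv, inv_one]
  refine ⟨-(y * (1 + r * y)⁻¹), neg_mem (mul_mem hy hinv), ?_⟩
  field_simp
  ring

theorem OneModV.div (hr : r ∈ V.nonunits) (h : OneModV V r u) (h' : OneModV V r u') :
    OneModV V r (u * u'⁻¹) :=
  h.mul (mem_of_nonunit hr) (h'.inv hr)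

/-- depth can be lowered -/
theorem OneModV.mono {r' a : F} (ha : a ∈ V) (hr : r = r' * a) (h : OneModV V r u) :
    OneModV V r' u := by
  obtain ⟨y, hy, rfl⟩ := h
  exact ⟨a * y, mul_mem ha hy, by rw [hr]; ring⟩

end OneMod

section Gauss

variable {K F : Type*} [Field K] [Field F] [Algebra K F]

/-- `V` is *Gauss-like* over `A`: it induces `A` on the constants and every nonzero element of
`F` is a constant times a unit of `V`. -/
def GaussLike (A : ValuationSubring K) (V : ValuationSubring F) : Prop :=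
  (∀ c : K, algebraMap K F c ∈ V ↔ c ∈ A) ∧
    ∀ f : F, f ≠ 0 → ∃ c : K, c ≠ 0 ∧ V.valuation (f * (algebraMap K F c)⁻¹) = 1

variable {A : ValuationSubring K} {V V' : ValuationSubring F}

theorem algebraMap_ne_zero {c : K} (hc : c ≠ 0) : algebraMap K F c ≠ 0 := by
  rwa [Ne, map_eq_zero_iff _ (algebraMap K F).injective]

theorem GaussLike.valuation_le_one_iff (h : GaussLike A V) (c : K) :
    V.valuation (algebraMap K F c) ≤ 1 ↔ A.valuation c ≤ 1 := by
  rw [V.valuation_le_one_iff, A.valuation_le_one_iff]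
  exact h.1 c

theorem GaussLike.valuation_lt_one_iff (h : GaussLike A V) (c : K) :
    V.valuation (algebraMap K F c) < 1 ↔ A.valuation c < 1 := by
  by_cases hc : c = 0
  · subst hc
    simp
  have hc' : algebraMap K F c ≠ 0 := algebraMap_ne_zero hc
  have h1 := h.valuation_le_one_iff c⁻¹
  rw [map_inv₀, map_inv₀, map_inv₀,
    inv_le_one₀ (zero_lt_iff.mpr ((Valuation.ne_zero_iff _).mpr hc')),
    inv_le_one₀ (zero_lt_iff.mpr ((Valuation.ne_zero_iff _).mpr hc))] at h1
  constructor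
  · intro hlt
    rcases lt_or_ge (A.valuation c) 1 with h2 | h2
    · exact h2
    · exact absurd (h1.2 h2) (not_le.mpr hlt)
  · intro hlt
    rcases lt_or_ge (V.valuation (algebraMap K F c)) 1 with h2 | h2
    · exact h2
    · exact absurd (h1.1 h2) (not_le.mpr hlt)

/-- every element is a constant with the same valuation times a unit -/
theorem GaussLike.exists_const (h : GaussLike A V) {f : F} (hf : f ≠ 0) :
    ∃ c : K, c ≠ 0 ∧ V.valuation (f * (algebraMap K F c)⁻¹) = 1 ∧
      V.valuation f = V.valuation (algebraMap K F c) := by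
  obtain ⟨c, hc, hu⟩ := h.2 f hf
  refine ⟨c, hc, hu, ?_⟩
  have hc' : V.valuation (algebraMap K F c) ≠ 0 :=
    (Valuation.ne_zero_iff _).mpr (algebraMap_ne_zero hc)
  rw [map_mul, map_inv₀] at hu
  have := congrArg (· * V.valuation (algebraMap K F c)) hu
  simp only [one_mul] at this
  rwa [mul_assoc, inv_mul_cancel₀ hc', mul_one] at this

/-- Two comparable Gauss-like rings over the same `A` are equal. -/
theorem GaussLike.le_of_le (h : GaussLike A V) (h' : GaussLike A V') (hle : V ≤ V') :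
    V' ≤ V := by
  intro x hx
  by_cases hx0 : x = 0
  · rw [hx0]; exact zero_mem _
  obtain ⟨c, hc, hu⟩ := h.2 x hx0
  have hc' : algebraMap K F c ≠ 0 := algebraMap_ne_zero hc
  set u := x * (algebraMap K F c)⁻¹ with hu_def
  have hu0 : u ≠ 0 := by
    intro h0
    rw [h0, map_zero] at hu
    exact zero_ne_one hu
  have huV : u ∈ V := (V.valuation_le_one_iff u).1 hu.le
  have huiV : u⁻¹ ∈ V := by
    rw [← V.valuation_le_one_iff, map_inv₀, hu, inv_one]
  have hcx : algebraMap K F c = x * u⁻¹ := by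
    rw [hu_def]
    field_simp
  have hcV' : algebraMap K F c ∈ V' := by
    rw [hcx]
    exact mul_mem hx (hle huiV)
  have hcA : c ∈ A := (h'.1 c).1 hcV'
  have hcV : algebraMap K F c ∈ V := (h.1 c).2 hcA
  have hxe : x = u * algebraMap K F c := by
    rw [hu_def]
    field_simp
  rw [hxe]
  exact mul_mem huV hcV

/-- **Separator**: `t ∈ 𝔪_V` with `t⁻¹ ∈ 𝔪_{V'}`. -/
theorem exists_sep (h : GaussLike A V) (h' : GaussLike A V') (hne : V ≠ V') :
    ∃ t : F, t ≠ 0 ∧ V.valuation t < 1 ∧ V'.valuation t⁻¹ < 1 := by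
  have h1 : ¬ V ≤ V' := fun hle => hne (le_antisymm hle (h.le_of_le h' hle))
  have h2 : ¬ V' ≤ V := fun hle => hne (le_antisymm (h'.le_of_le h hle) hle)
  obtain ⟨x, hxV, hxV'⟩ := SetLike.not_le_iff_exists.1 h1
  obtain ⟨y, hyV', hyV⟩ := SetLike.not_le_iff_exists.1 h2
  have hx0 : x ≠ 0 := by
    rintro rfl
    exact hxV' (zero_mem _)
  have hy0 : y ≠ 0 := by
    rintro rfl
    exact hyV (zero_mem _)
  have hx1 : V.valuation x ≤ 1 := (V.valuation_le_one_iff x).2 hxV
  have hx2 : 1 < V'.valuation x := by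
    rw [← not_le, V'.valuation_le_one_iff]
    exact hxV'
  have hy1 : V'.valuation y ≤ 1 := (V'.valuation_le_one_iff y).2 hyV'
  have hy2 : 1 < V.valuation y := by
    rw [← not_le, V.valuation_le_one_iff]
    exact hyV
  refine ⟨x * y⁻¹, mul_ne_zero hx0 (inv_ne_zero hy0), ?_, ?_⟩
  · rw [map_mul, map_inv₀]
    have hy3 : (V.valuation y)⁻¹ < 1 := inv_lt_one_of_one_lt₀ hy2
    calc V.valuation x * (V.valuation y)⁻¹ ≤ 1 * (V.valuation y)⁻¹ :=
          mul_le_mul' hx1 le_rfl
      _ = (V.valuation y)⁻¹ := one_mul _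
      _ < 1 := hy3
  · rw [mul_inv, inv_inv, map_mul, map_inv₀]
    have hx3 : (V'.valuation x)⁻¹ < 1 := inv_lt_one_of_one_lt₀ hx2
    calc (V'.valuation x)⁻¹ * V'.valuation y ≤ (V'.valuation x)⁻¹ * 1 :=
          mul_le_mul' le_rfl hy1
      _ = (V'.valuation x)⁻¹ := mul_one _
      _ < 1 := hx3

/-- **Rank one**: high powers of an element of `𝔪_V` are divisible by any constant. -/
theorem GaussLike.exists_pow_div_mem (h : GaussLike A V)
    (harch : ∀ a b : K, a ∈ A.nonunits → b ≠ 0 → ∃ n : ℕ, a ^ n / b ∈ A)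
    {t : F} (ht0 : t ≠ 0) (ht : V.valuation t < 1) {d : K} (hd : d ≠ 0) :
    ∃ n₀ : ℕ, ∀ n : ℕ, n₀ ≤ n → V.valuation (t ^ n * (algebraMap K F d)⁻¹) ≤ 1 := by
  obtain ⟨c, hc, -, hvc⟩ := h.exists_const ht0
  have hcA : A.valuation c < 1 := by
    rw [← h.valuation_lt_one_iff, ← hvc]
    exact ht
  have hcn : c ∈ A.nonunits := A.mem_nonunits_iff.2 hcA
  have hcm : c ∈ A := (A.valuation_le_one_iff c).1 hcA.le
  obtain ⟨n₀, hn₀⟩ := harch c d hcn hd
  refine ⟨n₀, fun n hn => ?_⟩
  have hmem : c ^ n / d ∈ A := by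
    obtain ⟨k, rfl⟩ := Nat.exists_eq_add_of_le hn
    have e : c ^ (n₀ + k) / d = c ^ k * (c ^ n₀ / d) := by
      rw [pow_add]; ring
    rw [e]
    exact mul_mem (pow_mem hcm k) hn₀
  have h2 : V.valuation (algebraMap K F (c ^ n / d)) ≤ 1 :=
    (h.valuation_le_one_iff _).2 ((A.valuation_le_one_iff _).2 hmem)
  have e2 : V.valuation (t ^ n * (algebraMap K F d)⁻¹) =
      V.valuation (algebraMap K F (c ^ n / d)) := by
    rw [map_mul, map_pow, map_inv₀, hvc, map_div₀, map_pow, map_div₀, map_pow, div_eq_mul_inv]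
  rw [e2]
  exact h2


/-- **Depth.**  An element of `1 + 𝔪_V` lies in `1 + ϖ V` for a nonzero constant `ϖ ∈ 𝔪_A`
(`ℓ` is any nonzero constant of `𝔪_A`, used when `x = 1`). -/
theorem GaussLike.exists_depth (h : GaussLike A V) {x : F} (hx : V.valuation (x - 1) < 1)
    {ℓ : K} (hℓ0 : ℓ ≠ 0) (hℓ : ℓ ∈ A.nonunits) :
    ∃ ϖ : K, ϖ ≠ 0 ∧ ϖ ∈ A.nonunits ∧ OneModV V (algebraMap K F ϖ) x := by
  by_cases hx1 : x - 1 = 0
  · refine ⟨ℓ, hℓ0, hℓ, 0, zero_mem _, ?_⟩
    rw [mul_zero, add_zero]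
    exact sub_eq_zero.1 hx1
  obtain ⟨c, hc, hu, hvc⟩ := h.exists_const hx1
  have hcA : A.valuation c < 1 := by
    rw [← h.valuation_lt_one_iff, ← hvc]
    exact hx
  refine ⟨c, hc, A.mem_nonunits_iff.2 hcA, (x - 1) * (algebraMap K F c)⁻¹,
    (V.valuation_le_one_iff _).1 hu.le, ?_⟩
  have hc' : algebraMap K F c ≠ 0 := algebraMap_ne_zero hc
  field_simp
  ring

/-- In a valuation ring two nonzero nonunits have a common nonzero nonunit divisor. -/
theorem exists_common_div (A : ValuationSubring K) {a b : K} (ha0 : a ≠ 0) (hb0 : b ≠ 0)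
    (ha : a ∈ A.nonunits) (hb : b ∈ A.nonunits) :
    ∃ d : K, d ≠ 0 ∧ d ∈ A.nonunits ∧ (∃ x ∈ A, a = d * x) ∧ (∃ y ∈ A, b = d * y) := by
  rcases A.mem_or_inv_mem (a / b) with h | h
  · exact ⟨b, hb0, hb, ⟨a / b, h, by field_simp⟩, ⟨1, one_mem _, by ring⟩⟩
  · refine ⟨a, ha0, ha, ⟨1, one_mem _, by ring⟩, ⟨b / a, ?_, by field_simp⟩⟩
    rwa [inv_div] at h

variable (harch : ∀ a b : K, a ∈ A.nonunits → b ≠ 0 → ∃ n : ℕ, a ^ n / b ∈ A)
include harch

/-- **Approximate idempotent**: `1 - e ∈ d₁ V`, `e ∈ d₂ V'`. -/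
theorem exists_idem (h : GaussLike A V) (h' : GaussLike A V') (hne : V ≠ V')
    {d₁ d₂ : K} (hd₁ : d₁ ≠ 0) (hd₂ : d₂ ≠ 0) :
    ∃ e : F, (1 - e) * (algebraMap K F d₁)⁻¹ ∈ V ∧ e * (algebraMap K F d₂)⁻¹ ∈ V' := by
  obtain ⟨t, ht0, htV, htV'⟩ := exists_sep h h' hne
  obtain ⟨n₁, hn₁⟩ := h.exists_pow_div_mem harch ht0 htV hd₁
  obtain ⟨n₂, hn₂⟩ := h'.exists_pow_div_mem harch (inv_ne_zero ht0) htV' hd₂
  set n := n₁ + n₂ + 1 with hn
  have hn0 : n ≠ 0 := by omega
  set s := t ^ n with hs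
  have hs0 : s ≠ 0 := pow_ne_zero n ht0
  have hsV : V.valuation s < 1 := by
    rw [hs, map_pow]
    exact pow_lt_one₀ zero_le htV hn0
  have hsV' : V'.valuation s⁻¹ < 1 := by
    rw [hs, ← inv_pow, map_pow]
    exact pow_lt_one₀ zero_le htV' hn0
  have h1s : V.valuation (1 + s) = 1 := (V.valuation).map_one_add_of_lt hsV
  have h1s' : V'.valuation (1 + s⁻¹) = 1 := (V'.valuation).map_one_add_of_lt hsV'
  have hne1 : 1 + s ≠ 0 := by
    intro h0
    rw [h0, map_zero] at h1s
    exact zero_ne_one h1s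
  have hne2 : 1 + s⁻¹ ≠ 0 := by
    intro h0
    rw [h0, map_zero] at h1s'
    exact zero_ne_one h1s'
  refine ⟨(1 + s)⁻¹, ?_, ?_⟩
  · have e1 : (1 - (1 + s)⁻¹) * (algebraMap K F d₁)⁻¹ =
        (t ^ n * (algebraMap K F d₁)⁻¹) * (1 + s)⁻¹ := by
      rw [← hs]
      field_simp
      ring
    rw [e1, ← V.valuation_le_one_iff, map_mul, map_inv₀ _ (1 + s), h1s, inv_one, mul_one]
    exact hn₁ n (by omega)
  · have key : (1 + s⁻¹)⁻¹ = s * (1 + s)⁻¹ := by
      have h3 : 1 + s⁻¹ = (1 + s) * s⁻¹ := by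
        rw [add_mul, one_mul, mul_inv_cancel₀ hs0, add_comm]
      rw [h3, mul_inv, inv_inv, mul_comm]
    have e2 : (1 + s)⁻¹ * (algebraMap K F d₂)⁻¹ =
        (t⁻¹ ^ n * (algebraMap K F d₂)⁻¹) * (1 + s⁻¹)⁻¹ := by
      rw [inv_pow, ← hs, key]
      have : s⁻¹ * (algebraMap K F d₂)⁻¹ * (s * (1 + s)⁻¹) =
          (s⁻¹ * s) * ((1 + s)⁻¹ * (algebraMap K F d₂)⁻¹) := by ring
      rw [this, inv_mul_cancel₀ hs0, one_mul]
    rw [e2, ← V'.valuation_le_one_iff, map_mul, map_inv₀ _ (1 + s⁻¹), h1s', inv_one, mul_one]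
    exact hn₂ n (by omega)

/-- **Weak approximation for two elements**: `a ∈ g₁ (1 + r V) ∩ g₂ (1 + r V')`. -/
theorem exists_approx_two (h : GaussLike A V) (h' : GaussLike A V') (hne : V ≠ V')
    {g₁ g₂ : F} (hg₁ : g₁ ≠ 0) (hg₂ : g₂ ≠ 0) {r : K} (hr : r ≠ 0) :
    ∃ a : F, OneModV V (algebraMap K F r) (a * g₁⁻¹) ∧
      OneModV V' (algebraMap K F r) (a * g₂⁻¹) := by
  have hr' : algebraMap K F r ≠ 0 := algebraMap_ne_zero hr
  by_cases hg : g₁ = g₂
  · subst hg
    refine ⟨g₁, ?_, ?_⟩ <;> rw [mul_inv_cancel₀ hg₁] <;> exact OneModV.one _ _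
  have hx₁ : g₂ * g₁⁻¹ - 1 ≠ 0 := by
    intro h0
    apply hg
    have : g₂ * g₁⁻¹ = 1 := sub_eq_zero.1 h0
    field_simp at this
    exact this.symm
  have hx₂ : g₁ * g₂⁻¹ - 1 ≠ 0 := by
    intro h0
    apply hg
    have : g₁ * g₂⁻¹ = 1 := sub_eq_zero.1 h0
    field_simp at this
    exact this
  obtain ⟨c₁, hc₁, hu₁, -⟩ := h.exists_const hx₁
  obtain ⟨c₂, hc₂, hu₂, -⟩ := h'.exists_const hx₂
  have hc₁' : algebraMap K F c₁ ≠ 0 := algebraMap_ne_zero hc₁
  have hc₂' : algebraMap K F c₂ ≠ 0 := algebraMap_ne_zero hc₂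
  obtain ⟨e, he₁, he₂⟩ := exists_idem harch h h' hne (d₁ := r / c₁) (d₂ := r / c₂)
    (div_ne_zero hr hc₁) (div_ne_zero hr hc₂)
  refine ⟨g₁ * e + g₂ * (1 - e), ⟨((1 - e) * (algebraMap K F (r / c₁))⁻¹) *
      ((g₂ * g₁⁻¹ - 1) * (algebraMap K F c₁)⁻¹), mul_mem he₁
        ((V.valuation_le_one_iff _).1 hu₁.le), ?_⟩,
    ⟨(e * (algebraMap K F (r / c₂))⁻¹) * ((g₁ * g₂⁻¹ - 1) * (algebraMap K F c₂)⁻¹),
      mul_mem he₂ ((V'.valuation_le_one_iff _).1 hu₂.le), ?_⟩⟩
  · rw [map_div₀]
    field_simp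
    ring
  · rw [map_div₀]
    field_simp
    ring

/-- **One root for both places.**  If `f ∈ (Fˣ)^p (1 + r V)` and `f ∈ (Fˣ)^p (1 + r V')` for a
nonzero constant `r ∈ 𝔪_A`, then `f = g ^ p · u` with `u ∈ (1 + r V) ∩ (1 + r V')`. -/
theorem exists_common_root (h : GaussLike A V) (h' : GaussLike A V') (hne : V ≠ V')
    (p : ℕ) {r : K} (hr0 : r ≠ 0) (hr : r ∈ A.nonunits) {f g₁ g₂ u₁ u₂ : F}
    (hg₁ : g₁ ≠ 0) (hg₂ : g₂ ≠ 0) (hf₁ : f = g₁ ^ p * u₁) (hf₂ : f = g₂ ^ p * u₂)
    (hu₁ : OneModV V (algebraMap K F r) u₁) (hu₂ : OneModV V' (algebraMap K F r) u₂) :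
    ∃ g u : F, g ≠ 0 ∧ f = g ^ p * u ∧ OneModV V (algebraMap K F r) u ∧
      OneModV V' (algebraMap K F r) u := by
  have hrV : algebraMap K F r ∈ V.nonunits :=
    V.mem_nonunits_iff.2 ((h.valuation_lt_one_iff r).2 (A.mem_nonunits_iff.1 hr))
  have hrV' : algebraMap K F r ∈ V'.nonunits :=
    V'.mem_nonunits_iff.2 ((h'.valuation_lt_one_iff r).2 (A.mem_nonunits_iff.1 hr))
  obtain ⟨a, ha₁, ha₂⟩ := exists_approx_two harch h h' hne hg₁ hg₂ hr0
  have ha0 : a ≠ 0 := by
    have := ha₁.ne_zero hrV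
    exact fun h0 => this (by rw [h0, zero_mul])
  refine ⟨a, f * (a ^ p)⁻¹, ha0, ?_, ?_, ?_⟩
  · field_simp
  · have e : f * (a ^ p)⁻¹ = u₁ * ((a * g₁⁻¹) ^ p)⁻¹ := by
      rw [hf₁, mul_pow, inv_pow, mul_inv, inv_inv]
      ring
    rw [e]
    exact hu₁.div hrV (ha₁.pow (mem_of_nonunit hrV) p)
  · have e : f * (a ^ p)⁻¹ = u₂ * ((a * g₂⁻¹) ^ p)⁻¹ := by
      rw [hf₂, mul_pow, inv_pow, mul_inv, inv_inv]
      ring
    rw [e]
    exact hu₂.div hrV' (ha₂.pow (mem_of_nonunit hrV') p)

end Gauss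

end Fermat.Agent.Ribet.H573.WA

end
-- ===== PACK-END Ribet/H573/WACore.lean

-- ===== PACK-BEGIN S18/H905/Residue.lean
section



/-!
# S18 / H905 — the residue field of a valuation subring of an algebraically closed field

* `isAlgClosed_residueField` : the residue field of a valuation subring of an algebraically
  closed field is algebraically closed;
* `natCast_residue_eq_zero`  : if `A` lies over `ℓ` then `ℓ = 0` in the residue field of `A`;
* `natCast_residue_ne_zero`  : if moreover `ℓ` is prime and `ℓ ∤ n`, then `n ≠ 0` there.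
-/

set_option autoImplicit false

open Polynomial

namespace Fermat.Agent.S18.H905

variable {L : Type*} [Field L]

/-- The residue field of a valuation subring of an algebraically closed field is algebraically
closed. -/
theorem isAlgClosed_residueField [IsAlgClosed L] (A : ValuationSubring L) :
    IsAlgClosed (IsLocalRing.ResidueField A) := by
  refine IsAlgClosed.of_exists_root _ ?_
  intro p hpm hpirr
  have hsurj : Function.Surjective (IsLocalRing.residue A) := IsLocalRing.residue_surjective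
  obtain ⟨P, hPmap, hPdeg, hPm⟩ :=
    Polynomial.lifts_and_natDegree_eq_and_monic
      ((Polynomial.mem_lifts p).mpr (Polynomial.map_surjective _ hsurj p)) hpm
  have hpdeg : p.natDegree ≠ 0 := fun h =>
    hpirr.not_isUnit (by
      rw [Polynomial.Monic.isUnit_iff hpm]
      exact Polynomial.eq_one_of_monic_natDegree_zero hpm h)
  have hdeg : (P.map (algebraMap A L)).degree ≠ 0 := by
    intro h0
    have h1 : (P.map (algebraMap A L)).natDegree = 0 := Polynomial.natDegree_eq_zero_iff_degree_le_zero.mpr h0.le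
    rw [hPm.natDegree_map] at h1
    exact hpdeg (hPdeg ▸ h1)
  obtain ⟨x, hx⟩ := IsAlgClosed.exists_root (P.map (algebraMap A L)) hdeg
  have hx' : Polynomial.eval₂ (algebraMap A L) x P = 0 := by
    rw [← Polynomial.eval_map]; exact hx
  have hint : IsIntegral A x := ⟨P, hPm, hx'⟩
  obtain ⟨y, rfl⟩ := IsIntegrallyClosed.isIntegral_iff.mp hint
  refine ⟨IsLocalRing.residue A y, ?_⟩
  have hy : P.eval y = 0 := by
    have hinj : Function.Injective (algebraMap A L) := Subtype.val_injective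
    apply hinj
    rw [_root_.map_zero, ← hx', Polynomial.eval₂_at_apply]
  rw [← hPmap, Polynomial.eval_map, Polynomial.eval₂_at_apply, hy, _root_.map_zero]

/-- If `A` lies over `ℓ`, then `ℓ = 0` in the residue field. -/
theorem natCast_residue_eq_zero (A : ValuationSubring L) {ℓ : ℕ} (hA : A.LiesOverPrime ℓ) :
    ((ℓ : ℕ) : IsLocalRing.ResidueField A) = 0 := by
  have h : ((ℓ : A) : L) ∈ A.nonunits := by
    have h0 : (ℓ : L) ∈ A.nonunits := hA
    simpa using h0
  have h' : (ℓ : A) ∈ IsLocalRing.maximalIdeal A := (A.coe_mem_nonunits_iff).mp h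
  have := (IsLocalRing.residue_eq_zero_iff (ℓ : A)).mpr h'
  simpa using this

/-- If `A` lies over the prime `ℓ` and `ℓ ∤ n`, then `n ≠ 0` in the residue field. -/
theorem natCast_residue_ne_zero (A : ValuationSubring L) {ℓ : ℕ} (hℓ : ℓ.Prime)
    (hA : A.LiesOverPrime ℓ) {n : ℕ} (hn : ¬ ℓ ∣ n) :
    ((n : ℕ) : IsLocalRing.ResidueField A) ≠ 0 := by
  intro h0
  have hcop : Nat.Coprime n ℓ := ((Nat.Prime.coprime_iff_not_dvd hℓ).mpr hn).symm
  have hb := Nat.gcd_eq_gcd_ab n ℓ
  rw [hcop] at hb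
  have := congrArg (Int.cast : ℤ → IsLocalRing.ResidueField A) hb
  push_cast at this
  rw [h0, natCast_residue_eq_zero A hA, zero_mul, zero_mul, add_zero] at this
  exact one_ne_zero this

end Fermat.Agent.S18.H905

end
-- ===== PACK-END S18/H905/Residue.lean

-- ===== PACK-BEGIN S37/H88/CharpolyEmb.lean
section


/-!
# S37 / E-a (helper88): characteristic polynomial as a product over embeddings (Mathlib only)

`charpoly_map_eq_prod_embeddings` : let `K/F` be a finite field extension, `φ : F →+* Ω` a ring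
homomorphism into a field and `σ i : K →+* Ω`, `i : ι`, pairwise distinct extensions of `φ`, with
`#ι = [K : F]`.  Then for every `x : K`

  `(charpoly of multiplication by x).map φ = ∏ i, (X - C (σ i x))`.

No separability or normality hypothesis; `Ω` need not be algebraically closed.
Corollaries: `norm_map_eq_prod_embeddings`, `trace_map_eq_sum_embeddings`.
-/

set_option autoImplicit false

noncomputable section

namespace Fermat.Agent.S37.H88

open Polynomial Matrix

/-- If `P * M = D * P` with `det P ≠ 0` over a domain, then `M` and `D` have the same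
characteristic polynomial. -/
theorem charpoly_eq_of_intertwine' {S : Type*} [CommRing S] [IsDomain S] {n : Type*} [Fintype n]
    [DecidableEq n] (P M D : Matrix n n S) (hPM : P * M = D * P) (hdet : P.det ≠ 0) :
    M.charpoly = D.charpoly := by
  have hscal : (P.map C) * Matrix.scalar n (X : S[X]) = Matrix.scalar n (X : S[X]) * (P.map C) :=
    ((Matrix.scalar_commute (X : S[X]) (fun r' => Commute.all _ _)) (P.map C)).eq.symm
  have hmap : (P.map C) * (M.map C) = (D.map C) * (P.map (C : S →+* S[X])) := by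
    rw [← Matrix.map_mul, ← Matrix.map_mul, hPM]
  have hchar : (P.map C) * charmatrix M = charmatrix D * (P.map C) := by
    rw [charmatrix, charmatrix, Matrix.mul_sub, Matrix.sub_mul, hscal]
    congr 1
  have hdets := congrArg Matrix.det hchar
  rw [Matrix.det_mul, Matrix.det_mul] at hdets
  have hPC : (P.map (C : S →+* S[X])).det ≠ 0 := by
    have : (P.map (C : S →+* S[X])).det = C P.det := by
      rw [← RingHom.mapMatrix_apply, ← RingHom.map_det]
    rw [this]
    exact (_root_.map_ne_zero_iff _ C_injective).mpr hdet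
  rw [mul_comm (charmatrix D).det] at hdets
  exact mul_left_cancel₀ hPC hdets

section

variable {F K Ω ι : Type*} [Field F] [Field K] [Field Ω] [Algebra F K] [Fintype ι]
  [DecidableEq ι]

/-- the matrix `(σ i (b j))` of a family of distinct extensions of `φ` is invertible -/
theorem det_embeddings_ne_zero (φ : F →+* Ω) (σ : ι → K →+* Ω)
    (hσ : ∀ i a, σ i (algebraMap F K a) = φ a) (hinj : Function.Injective σ)
    (b : Module.Basis ι F K) :
    (Matrix.of fun i j => σ i (b j)).det ≠ 0 := by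
  intro hdet
  obtain ⟨v, hv0, hv⟩ := Matrix.exists_vecMul_eq_zero_iff.mpr hdet
  apply hv0
  have hli : LinearIndependent Ω (fun i : ι => ((σ i : K →* Ω) : K → Ω)) := by
    have h1 := linearIndependent_monoidHom K Ω
    refine h1.comp (fun i : ι => (σ i : K →* Ω)) ?_
    intro i i' h
    apply hinj
    ext y
    exact DFunLike.congr_fun h y
  have hsum : ∑ i, v i • ((σ i : K →* Ω) : K → Ω) = 0 := by
    funext y
    rw [Finset.sum_apply, Pi.zero_apply]
    simp only [Pi.smul_apply, smul_eq_mul]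
    have hy : ∀ i, (σ i : K →* Ω) y = ∑ j, φ (b.repr y j) * σ i (b j) := by
      intro i
      conv_lhs => rw [← b.sum_repr y]
      show σ i (∑ j, b.repr y j • b j) = _
      rw [_root_.map_sum]
      refine Finset.sum_congr rfl fun j _ => ?_
      rw [Algebra.smul_def, _root_.map_mul, hσ]
    simp_rw [hy, Finset.mul_sum]
    rw [Finset.sum_comm]
    refine Finset.sum_eq_zero fun j _ => ?_
    have hj := congrFun hv j
    simp only [Matrix.vecMul, dotProduct, Matrix.of_apply, Pi.zero_apply] at hj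
    calc ∑ i, v i * (φ (b.repr y j) * σ i (b j))
        = φ (b.repr y j) * ∑ i, v i * σ i (b j) := by
          rw [Finset.mul_sum]
          refine Finset.sum_congr rfl fun i _ => ?_
          ring
      _ = 0 := by rw [hj, _root_.MulZeroClass.mul_zero]
  funext i
  exact Fintype.linearIndependent_iff.mp hli v hsum i

/-- **Characteristic polynomial as a product over embeddings.** -/
theorem charpoly_map_eq_prod_embeddings [FiniteDimensional F K] (φ : F →+* Ω)
    (σ : ι → K →+* Ω) (hσ : ∀ i a, σ i (algebraMap F K a) = φ a)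
    (hinj : Function.Injective σ) (hcard : Module.finrank F K = Fintype.card ι) (x : K) :
    ((Algebra.lmul F K x).charpoly).map φ = ∏ i, (X - C (σ i x)) := by
  have hcard' : Module.finrank F K = Fintype.card ι := hcard
  let b0 : Module.Basis (Fin (Module.finrank F K)) F K := Module.finBasis F K
  let e : Fin (Module.finrank F K) ≃ ι :=
    Fintype.equivOfCardEq (by rw [Fintype.card_fin, hcard'])
  let b : Module.Basis ι F K := b0.reindex e
  have hM : (Algebra.lmul F K x).charpoly = (Algebra.leftMulMatrix b x).charpoly := by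
    rw [Algebra.leftMulMatrix_apply, LinearMap.charpoly_toMatrix]
  set M := Algebra.leftMulMatrix b x with hMdef
  set P : Matrix ι ι Ω := Matrix.of fun i j => σ i (b j) with hP
  have hPM : P * M.map φ = Matrix.diagonal (fun i => σ i x) * P := by
    ext i j
    rw [Matrix.mul_apply, Matrix.diagonal_mul]
    simp only [hP, Matrix.of_apply, Matrix.map_apply]
    have h1 : x * b j = ∑ k, M k j • b k := by
      have h2 := b.sum_repr (x * b j)
      rw [← h2]
      refine Finset.sum_congr rfl fun k _ => ?_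
      rw [hMdef, Algebra.leftMulMatrix_apply, LinearMap.toMatrix_apply]
      rfl
    have h3 := congrArg (σ i) h1
    rw [_root_.map_mul, _root_.map_sum] at h3
    rw [h3]
    refine Finset.sum_congr rfl fun k _ => ?_
    rw [Algebra.smul_def, _root_.map_mul, hσ, mul_comm]
  have hdet := det_embeddings_ne_zero φ σ hσ hinj b
  rw [hM, ← Matrix.charpoly_map, charpoly_eq_of_intertwine' P (M.map φ) _ hPM hdet,
    Matrix.charpoly_diagonal]

/-- **Norm as a product over embeddings.** -/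
theorem norm_map_eq_prod_embeddings [FiniteDimensional F K] (φ : F →+* Ω)
    (σ : ι → K →+* Ω) (hσ : ∀ i a, σ i (algebraMap F K a) = φ a)
    (hinj : Function.Injective σ) (hcard : Module.finrank F K = Fintype.card ι) (x : K) :
    φ (Algebra.norm F x) = ∏ i, σ i x := by
  have h := charpoly_map_eq_prod_embeddings φ σ hσ hinj hcard x
  have h0 := congrArg (fun p : Polynomial Ω => p.coeff 0) h
  simp only [Polynomial.coeff_map] at h0
  rw [Algebra.norm_apply, LinearMap.det_eq_sign_charpoly_coeff, _root_.map_mul, _root_.map_pow, _root_.map_neg,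
    _root_.map_one, h0, hcard, Polynomial.coeff_zero_eq_eval_zero, Polynomial.eval_prod]
  simp only [Polynomial.eval_sub, Polynomial.eval_X, Polynomial.eval_C, zero_sub]
  rw [Finset.prod_neg, Finset.card_univ, ← _root_.mul_assoc, ← mul_pow]
  simp

end

end Fermat.Agent.S37.H88

end
end
-- ===== PACK-END S37/H88/CharpolyEmb.lean

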