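import Mathlib
import Fermat.Prelude.Def_AlgebraicCurve_Correspondence
import Fermat.Prelude.Def_AlgebraicCurve_BaseChangeGalois
import Fermat.Prelude.Def_ModularCurve_LaurentCoeff
import Mathlib.RingTheory.DiscreteValuationRing.Basic
import Fermat.Agent.Pack.S33.E2L1
import Fermat.Agent.Pack.S33.E3L3
import Fermat.Agent.Pack.S33.E3L1
import Fermat.Agent.Pack.S33.E1L0
import Fermat.Agent.Pack.S33.E3L0

-- ===== PACK-BEGIN S37/H217/Integral.lean
section


/-!
# Block ALG, lemma L2 (q-expansion principle from the degree equality)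

Setting of `Lattice.lean`: `V ⊆ L` lies over `V₀ ⊆ L₀`, `b` a basis of `L/L₀` consisting of
elements of `V`, residually independent.

* `minpoly_coeff_mem`: for `y ∈ V` the minimal polynomial of `y` over `L₀` has coefficients in
  `V₀`.
* `isIntegral_inf_of_isIntegral`: if `R ⊆ L₀` is an integrally closed domain with fraction field
  `L₀` and `y ∈ V` is integral over `R`, then `y` is integral over `V₀ ∩ R`.
  (Application: `R = K[x]`, `V₀` = Gauss valuation ring, `V₀ ∩ R = A[x]`: the integral closure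
  of `A[x]` in `L` is `V ∩` (integral closure of `K[x]`).)
* `exists_scalar_of_mem_nonunits`: if every nonzero element of `𝔪_{V₀}` is divisible in `V₀` by a
  "constant" of `𝔪_{V₀}` (predicate `P`), then every nonzero `y ∈ 𝔪_V` is divisible in `V` by
  such a constant.  (Application: QEP, `y ∈ B`, `ρ y = 0` implies `y ∈ 𝔪_A B`.)
-/

namespace Fermat.Agent.S37.H217

open Polynomial

section Integral

variable {L₀ L : Type*} [Field L₀] [Field L] [Algebra L₀ L]
variable {V₀ : ValuationSubring L₀} {V : ValuationSubring L}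
variable {ι : Type*} [Fintype ι] [DecidableEq ι]

theorem aeval_charpoly_intMatrix [FiniteDimensional L₀ L] (h : ValExtends V₀ V)
    (b : Module.Basis ι L₀ L) (hR : ResidIndep V₀ V b) (hb : ∀ i, b i ∈ V) (y : V) :
    aeval (y : L) ((intMatrix h b hR hb y).charpoly.map (algebraMap V₀ L₀)) = 0 := by
  rw [← charpoly_eq_map_charpoly_intMatrix h b hR hb y]
  have h1 := LinearMap.aeval_self_charpoly (Algebra.lmul L₀ L (y : L))
  rw [aeval_algHom_apply] at h1
  have h2 := congrArg (fun f : Module.End L₀ L => f 1) h1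
  simpa using h2

/-- For `y ∈ V`, the minimal polynomial of `y` over `L₀` has coefficients in `V₀`. -/
theorem minpoly_coeff_mem [FiniteDimensional L₀ L] (h : ValExtends V₀ V)
    (b : Module.Basis ι L₀ L) (hR : ResidIndep V₀ V b) (hb : ∀ i, b i ∈ V) (y : V) (i : ℕ) :
    (minpoly L₀ (y : L)).coeff i ∈ V₀ := by
  have hdvd : minpoly L₀ (y : L) ∣ (intMatrix h b hR hb y).charpoly.map (algebraMap V₀ L₀) :=
    minpoly.dvd L₀ (y : L) (aeval_charpoly_intMatrix h b hR hb y)
  have hmon : (minpoly L₀ (y : L)).Monic := minpoly.monic (IsIntegral.of_finite L₀ (y : L))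
  have hl := integralClosure.mem_lifts_of_monic_of_dvd_map L₀
    (Matrix.charpoly_monic (intMatrix h b hR hb y)) hmon hdvd
  rw [Polynomial.lifts_iff_coeff_lifts] at hl
  obtain ⟨c, hc⟩ := hl i
  have hint : IsIntegral V₀ ((minpoly L₀ (y : L)).coeff i) := by
    rw [← hc]
    exact c.2
  obtain ⟨a, ha⟩ := IsIntegrallyClosed.isIntegral_iff.mp hint
  rw [← ha]
  exact a.2

/-- If `y ∈ V` is integral over an integrally closed domain `R` with fraction field `L₀`, then
the coefficients of its minimal polynomial over `R` land in `V₀`. -/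
theorem minpoly_coeff_mem_of_isIntegral [FiniteDimensional L₀ L] (h : ValExtends V₀ V)
    (b : Module.Basis ι L₀ L) (hR : ResidIndep V₀ V b) (hb : ∀ i, b i ∈ V)
    {R : Type*} [CommRing R] [IsDomain R] [Algebra R L₀] [IsFractionRing R L₀]
    [IsIntegrallyClosed R] [Algebra R L] [IsScalarTower R L₀ L]
    (y : V) (hy : IsIntegral R (y : L)) (i : ℕ) :
    algebraMap R L₀ ((minpoly R (y : L)).coeff i) ∈ V₀ := by
  have h1 := minpoly_coeff_mem h b hR hb y i
  rwa [minpoly.isIntegrallyClosed_eq_field_fractions' L₀ hy, coeff_map] at h1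

/-- If `y ∈ V` is integral over an integrally closed domain `R` with fraction field `L₀`, then
`y` is integral over the subring `V₀ ∩ R` of `L₀`. -/
theorem isIntegral_inf_of_isIntegral [FiniteDimensional L₀ L] (h : ValExtends V₀ V)
    (b : Module.Basis ι L₀ L) (hR : ResidIndep V₀ V b) (hb : ∀ i, b i ∈ V)
    {R : Type*} [CommRing R] [IsDomain R] [Algebra R L₀] [IsFractionRing R L₀]
    [IsIntegrallyClosed R] [Algebra R L] [IsScalarTower R L₀ L]
    (y : V) (hy : IsIntegral R (y : L)) :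
    IsIntegral (↥(V₀.toSubring ⊓ (algebraMap R L₀).range)) (y : L) := by
  set S : Subring L₀ := V₀.toSubring ⊓ (algebraMap R L₀).range with hS
  have hmin : minpoly L₀ (y : L) = (minpoly R (y : L)).map (algebraMap R L₀) :=
    minpoly.isIntegrallyClosed_eq_field_fractions' L₀ hy
  have hl : minpoly L₀ (y : L) ∈ Polynomial.lifts (algebraMap S L₀) := by
    rw [Polynomial.lifts_iff_coeff_lifts]
    intro i
    refine ⟨⟨(minpoly L₀ (y : L)).coeff i, ?_, ?_⟩, rfl⟩
    · exact minpoly_coeff_mem h b hR hb y i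
    · rw [hmin, coeff_map]
      exact ⟨_, rfl⟩
  have hmon : (minpoly L₀ (y : L)).Monic := minpoly.monic (IsIntegral.of_finite L₀ (y : L))
  obtain ⟨q, hq, -, hqm⟩ := Polynomial.lifts_and_degree_eq_and_monic hl hmon
  refine ⟨q, hqm, ?_⟩
  have h1 : aeval (y : L) (q.map (algebraMap S L₀)) = 0 := by
    rw [hq]; exact minpoly.aeval L₀ (y : L)
  rw [aeval_map_algebraMap] at h1
  exact h1

omit [DecidableEq ι] in
/-- QEP, abstract form: divisibility of elements of `𝔪_V` by constants. -/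
theorem exists_scalar_of_mem_nonunits (h : ValExtends V₀ V)
    (b : Module.Basis ι L₀ L) (hR : ResidIndep V₀ V b) (hb : ∀ i, b i ∈ V)
    (P : L₀ → Prop)
    (hgen : ∀ c ∈ V₀.nonunits, c ≠ 0 → ∃ a : L₀, a ≠ 0 ∧ a ∈ V₀.nonunits ∧ P a ∧ c / a ∈ V₀)
    {y : L} (hy : y ∈ V.nonunits) (hy0 : y ≠ 0) :
    ∃ a : L₀, a ≠ 0 ∧ a ∈ V₀.nonunits ∧ P a ∧ (algebraMap L₀ L a)⁻¹ * y ∈ V := by
  have hc0 : (fun i => b.repr y i) ≠ 0 := by
    intro h0
    apply hy0
    rw [← b.sum_repr y]
    refine Finset.sum_eq_zero fun i _ => ?_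
    have := congrFun h0 i
    simp only [Pi.zero_apply] at this
    rw [this, zero_smul]
  obtain ⟨m, hm0, hm⟩ := exists_scale V₀ (fun i => b.repr y i) hc0
  obtain ⟨a, ha0, ha, hPa, hdiv⟩ := hgen _ (repr_mem_nonunits_of_mem h b hR hy m) hm0
  refine ⟨a, ha0, ha, hPa, ?_⟩
  have hsum : (algebraMap L₀ L a)⁻¹ * y = ∑ i, algebraMap L₀ L (b.repr y i / a) * b i := by
    conv_lhs => rw [← b.sum_repr y]
    rw [Finset.mul_sum]
    refine Finset.sum_congr rfl fun i _ => ?_
    rw [Algebra.smul_def, ← mul_assoc, ← map_inv₀, ← _root_.map_mul, div_eq_inv_mul]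
  rw [hsum]
  refine V.toSubring.sum_mem fun i _ => ?_
  refine V.mul_mem _ _ ((h _).mpr ?_) (hb i)
  have : b.repr y i / a = b.repr y i / b.repr y m * (b.repr y m / a) := by
    field_simp
  rw [this]
  exact V₀.mul_mem _ _ (hm i) hdiv

end Integral

end Fermat.Agent.S37.H217

end
-- ===== PACK-END S37/H217/Integral.lean

-- ===== PACK-BEGIN S37/H818/BaseChange.lean
section
/-
S37 / LEVEL TRANSFER (helper818), part 2: the base-change identity
  `i^* ∘ a_* = a'_* ∘ i₁^*`  on divisors, for a commutative square of function fields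

      F  --a-->  F₁
      |i         |i₁
      v          v
      G  --a'->  G₁

under (1) the norm formulas for `a` and `a'`, (2) norm compatibility
`N_{G₁/G}(i₁ f) = i (N_{F₁/F} f)` (true when `G₁ = G ⊗_F F₁`), and (3) local generators in `F₁`.
-/




set_option autoImplicit false
set_option linter.style.haveILetI false

noncomputable section

namespace Fermat.Agent.S37.H818

open AlgebraicCurve

variable {K F F₁ G G₁ : Type*} [Field K] [Field F] [Field F₁] [Field G] [Field G₁]
  [Algebra K F] [Algebra K F₁] [Algebra K G] [Algebra K G₁]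

/-- Norm compatibility for the square: `N_{G₁/G}(i₁ f) = i (N_{F₁/F} f)`. -/
def NormCompat (a : F →ₐ[K] F₁) (i : F →ₐ[K] G) (a' : G →ₐ[K] G₁) (i₁ : F₁ →ₐ[K] G₁) : Prop :=
  ∀ f : F₁, (letI := algebraAlong a'; Algebra.norm G (i₁ f)) =
    i (letI := algebraAlong a; Algebra.norm F f)

/-- Local generators: every place `w` of `F₁` has a function with nonzero order at `w` and
order zero at all other places in the same fibre of `a`. -/
def HasLocalGenerators (a : F →ₐ[K] F₁) (ha : a.toRingHom.IsIntegral) : Prop :=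
  ∀ w : Place K F₁, ∃ f : F₁, f ≠ 0 ∧ w.ord f ≠ 0 ∧
    ∀ w' : Place K F₁, w' ≠ w → w'.restrictAlong a ha = w.restrictAlong a ha → w'.ord f = 0

section

variable (a : F →ₐ[K] F₁) (i : F →ₐ[K] G) (a' : G →ₐ[K] G₁) (i₁ : F₁ →ₐ[K] G₁)
  (ha : a.toRingHom.IsIntegral) (hi : i.toRingHom.IsIntegral)
  (ha' : a'.toRingHom.IsIntegral) (hi₁ : i₁.toRingHom.IsIntegral)
  (hsq : i₁.comp a = a'.comp i)

include hsq in
/-- The two ways of restricting a place of `G₁` to `F` agree. -/
theorem restrict_square (W : Place K G₁) :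
    (W.restrictAlong a' ha').restrictAlong i hi = (W.restrictAlong i₁ hi₁).restrictAlong a ha := by
  have h1 : (i₁.comp a).toRingHom.IsIntegral := RingHom.IsIntegral.trans _ _ ha hi₁
  have h2 : (a'.comp i).toRingHom.IsIntegral := RingHom.IsIntegral.trans _ _ hi ha'
  rw [← restrictAlong_comp i a' hi ha' h2 W, ← restrictAlong_comp a i₁ ha hi₁ h1 W]
  exact (Place.restrictAlong_congr hsq h1 h2 W).symm

variable [HasPrincipalDivisors K G] [HasPrincipalDivisors K G₁]

/-- The defect of the base-change identity. -/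
def bcDefect : Divisor K F₁ →+ Divisor K G :=
  (Divisor.pullbackAlong i hi).comp (Divisor.pushforwardAlong a ha) -
    (Divisor.pushforwardAlong a' ha').comp (Divisor.pullbackAlong i₁ hi₁)

theorem bcDefect_apply (D : Divisor K F₁) :
    bcDefect a i a' i₁ ha hi ha' hi₁ D =
      Divisor.pullbackAlong i hi (Divisor.pushforwardAlong a ha D) -
        Divisor.pushforwardAlong a' ha' (Divisor.pullbackAlong i₁ hi₁ D) := rfl

include hsq in
/-- Locality: the defect of a place `w` is supported over the place `w|_F`. -/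
theorem bcDefect_single_apply_of_ne (w : Place K F₁) (n : ℤ) (u : Place K G)
    (hu : u.restrictAlong i hi ≠ w.restrictAlong a ha) :
    bcDefect a i a' i₁ ha hi ha' hi₁ (Finsupp.single w n) u = 0 := by
  classical
  rw [bcDefect_apply, Finsupp.sub_apply]
  have h1 : Divisor.pullbackAlong i hi (Divisor.pushforwardAlong a ha (Finsupp.single w n)) u
      = 0 := by
    rw [Divisor.pushforwardAlong_single, Divisor.pullbackAlong_apply,
      Finsupp.single_eq_of_ne hu, mul_zero]
  have h2 : Divisor.pushforwardAlong a' ha'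
      (Divisor.pullbackAlong i₁ hi₁ (Finsupp.single w n)) u = 0 := by
    rw [Divisor.pullbackAlong_single, map_sum, Finset.sum_apply']
    refine Finset.sum_eq_zero fun W hW => ?_
    rw [Divisor.pushforwardAlong_single]
    refine Finsupp.single_eq_of_ne ?_
    intro hWu
    apply hu
    rw [hWu, restrict_square a i a' i₁ ha hi ha' hi₁ hsq W, Place.mem_fiberAlong.mp hW]
  rw [h1, h2, sub_zero]

/-- The defect vanishes on principal divisors, by the norm formulas and norm compatibility. -/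
theorem bcDefect_principal
    (hfin : FiniteAlong K a) (hN : NormFormulaAlong K a hfin)
    (hfin' : FiniteAlong K a') (hN' : NormFormulaAlong K a' hfin')
    (hnorm : NormCompat a i a' i₁)
    {f : F₁} (hf : f ≠ 0) {D : Divisor K F₁} (hD : ∀ w, D w = w.ord f) :
    bcDefect a i a' i₁ ha hi ha' hi₁ D = 0 := by
  rw [bcDefect_apply, sub_eq_zero]
  ext u
  -- left side
  have hL : Divisor.pullbackAlong i hi (Divisor.pushforwardAlong a ha D) u =
      u.ord (i (letI := algebraAlong a; Algebra.norm F f)) := by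
    letI := algebraAlong a
    haveI := isScalarTower_along a
    haveI := isIntegral_along a ha
    haveI : Module.Finite F F₁ := hfin
    have hE : ∀ v : Place K F, Divisor.pushforward F D v = v.ord (Algebra.norm F f) :=
      fun v => hN f hf D hD v
    have : Divisor.pushforwardAlong a ha D = Divisor.pushforward F D := rfl
    rw [this]
    letI := algebraAlong i
    haveI := isScalarTower_along i
    haveI := isIntegral_along i hi
    exact Divisor.pullback_apply_eq_ord (F' := G) hE u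
  -- right side
  have hR : Divisor.pushforwardAlong a' ha' (Divisor.pullbackAlong i₁ hi₁ D) u =
      u.ord (letI := algebraAlong a'; Algebra.norm G (i₁ f)) := by
    have hD' : ∀ W : Place K G₁, Divisor.pullbackAlong i₁ hi₁ D W = W.ord (i₁ f) := by
      intro W
      letI := algebraAlong i₁
      haveI := isScalarTower_along i₁
      haveI := isIntegral_along i₁ hi₁
      exact Divisor.pullback_apply_eq_ord (F' := G₁) hD W
    letI := algebraAlong a'
    haveI := isScalarTower_along a'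
    haveI := isIntegral_along a' ha'
    haveI : Module.Finite G G₁ := hfin'
    have hf' : i₁ f ≠ 0 := by simpa using hf
    exact hN' (i₁ f) hf' _ hD' u
  rw [hL, hR, hnorm f]

variable [HasPrincipalDivisors K F₁]

include hsq in
/-- **Base change identity** `i^* a_* = a'_* i₁^*` on divisors. -/
theorem pullback_pushforward_eq
    (hfin : FiniteAlong K a) (hN : NormFormulaAlong K a hfin)
    (hfin' : FiniteAlong K a') (hN' : NormFormulaAlong K a' hfin')
    (hnorm : NormCompat a i a' i₁) (hLG : HasLocalGenerators a ha) (D : Divisor K F₁) :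
    Divisor.pullbackAlong i hi (Divisor.pushforwardAlong a ha D) =
      Divisor.pushforwardAlong a' ha' (Divisor.pullbackAlong i₁ hi₁ D) := by
  classical
  rw [← sub_eq_zero, ← bcDefect_apply]
  set δ := bcDefect a i a' i₁ ha hi ha' hi₁ with hδ
  -- it suffices to treat single places
  suffices h : ∀ w : Place K F₁, δ (Finsupp.single w 1) = 0 by
    induction D using Finsupp.induction with
    | zero => simp
    | single_add w n D _ _ ih =>
      rw [map_add, ih, add_zero]
      have : Finsupp.single w n = n • Finsupp.single w (1 : ℤ) := by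
        rw [Finsupp.smul_single, smul_eq_mul, mul_one]
      rw [this, map_zsmul, h w, smul_zero]
  intro w₀
  ext u
  rw [Finsupp.zero_apply]
  by_cases hu : u.restrictAlong i hi = w₀.restrictAlong a ha
  swap
  · exact bcDefect_single_apply_of_ne a i a' i₁ ha hi ha' hi₁ hsq w₀ 1 u hu
  obtain ⟨f, hf0, hfw, hfo⟩ := hLG w₀
  obtain ⟨D, hD, -⟩ := HasPrincipalDivisors.exists_divisor (K := K) f hf0
  have h0 : δ D = 0 := bcDefect_principal a i a' i₁ ha hi ha' hi₁ hfin hN hfin' hN' hnorm hf0 hD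
  -- decompose D
  have hsum : δ D u = ∑ w ∈ D.support, δ (Finsupp.single w (D w)) u := by
    conv_lhs => rw [← Finsupp.sum_single D]
    rw [Finsupp.sum, map_sum, Finset.sum_apply']
  have hw₀ : w₀ ∈ D.support := by
    rw [Finsupp.mem_support_iff, hD]
    exact hfw
  rw [Finset.sum_eq_single_of_mem w₀ hw₀] at hsum
  · rw [h0, Finsupp.zero_apply] at hsum
    have : Finsupp.single w₀ (D w₀) = (D w₀) • Finsupp.single w₀ (1 : ℤ) := by
      rw [Finsupp.smul_single, smul_eq_mul, mul_one]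
    rw [this, map_zsmul, Finsupp.smul_apply, smul_eq_mul] at hsum
    have hne : D w₀ ≠ 0 := by rw [hD]; exact hfw
    rcases mul_eq_zero.mp hsum.symm with h | h
    · exact absurd h hne
    · exact h
  · intro w _ hw
    by_cases hwv : w.restrictAlong a ha = w₀.restrictAlong a ha
    · have : D w = 0 := by rw [hD]; exact hfo w hw hwv
      rw [this, Finsupp.single_zero, map_zero, Finsupp.zero_apply]
    · exact bcDefect_single_apply_of_ne a i a' i₁ ha hi ha' hi₁ hsq w (D w) u
        (fun h => hwv (h.symm.trans hu))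

end

end Fermat.Agent.S37.H818

end

end
-- ===== PACK-END S37/H818/BaseChange.lean

-- ===== PACK-BEGIN S37/H159/MGauss.lean
section



/-!
# Theorem M, part 1: the reduction context and the Gauss valuation ring of `K(x)`
(row S37, piece R-b = normality of the special fibre; seat helper159)

`K ⊇ A` a valuation ring with residue map `π : A ↠ k`; `F` a field which is a `K[X]`-algebra
(`X ↦ x`), `O ⊆ F` a valuation ring with residue map `ρ : O ↠ F_k`, where `F_k` is a
`k[X]`-algebra (`X ↦ x̄`), such that `ρ (P(x)) = P̄(x̄)` for `P ∈ A[X]`.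

This file: `ker ρ = 𝔪_O`, `O ∩ K = A`, `O ∩ K[x] = A[x]` (Gauss), the Gauss valuation ring
`V₀ = O ∩ K(x)` of an abstract fraction field `L₀` of `K[X]`, and the induced residue map
`ρ₀ : V₀ → L₀k` (`L₀k` a fraction field of `k[X]`).
-/

set_option autoImplicit false
set_option linter.unusedSectionVars false

namespace Fermat.Agent.S37.H159

open Polynomial

/-- A reduction context (see the module docstring). -/
structure RedCtx {K : Type*} [Field K] (A : ValuationSubring K) (k : Type*) [Field k]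
    (F : Type*) [Field F] [Algebra K[X] F] (Fk : Type*) [Field Fk] [Algebra k[X] Fk] where
  /-- residue map of the constants -/
  π : A →+* k
  π_surj : Function.Surjective π
  /-- the valuation ring of the function field -/
  O : ValuationSubring F
  /-- reduction of functions -/
  ρ : O →+* Fk
  ρ_surj : Function.Surjective ρ
  mem : ∀ p : A[X], algebraMap K[X] F (p.map A.subtype) ∈ O
  ρ_poly : ∀ p : A[X],
    ρ ⟨algebraMap K[X] F (p.map A.subtype), mem p⟩ = algebraMap k[X] Fk (p.map π)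

/-- Scaling a nonzero polynomial over the fraction field of a valuation ring to a polynomial
over the valuation ring with a coefficient equal to `1`. -/
theorem exists_primitive {K : Type*} [Field K] (A : ValuationSubring K) (P : K[X]) (hP : P ≠ 0) :
    ∃ (lam : K) (P₀ : A[X]) (m : ℕ), lam ≠ 0 ∧ P₀.coeff m = 1 ∧
      P = C lam * P₀.map A.subtype := by
  classical
  have hne : P.support.Nonempty := by
    rw [Finset.nonempty_iff_ne_empty, Ne, Polynomial.support_eq_empty]
    exact hP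
  obtain ⟨m, hm, hmax⟩ := Finset.exists_max_image P.support (fun i => A.valuation (P.coeff i)) hne
  have hlam : P.coeff m ≠ 0 := Polynomial.mem_support_iff.mp hm
  have hmem : ∀ i, (P.coeff m)⁻¹ * P.coeff i ∈ A := by
    intro i
    by_cases hi : i ∈ P.support
    · rw [← ValuationSubring.valuation_le_one_iff, _root_.map_mul, map_inv₀]
      have hv : A.valuation (P.coeff m) ≠ 0 := (_root_.map_ne_zero _).mpr hlam
      rw [inv_mul_le_iff₀ (zero_lt_iff.mpr hv), mul_one]
      exact hmax i hi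
    · rw [Polynomial.notMem_support_iff.mp hi, mul_zero]
      exact A.zero_mem
  have hl : C (P.coeff m)⁻¹ * P ∈ Polynomial.lifts A.subtype := by
    rw [Polynomial.lifts_iff_coeff_lifts]
    intro i
    rw [coeff_C_mul]
    exact ⟨⟨_, hmem i⟩, rfl⟩
  obtain ⟨P₀, hP₀⟩ := hl
  refine ⟨P.coeff m, P₀, m, hlam, ?_, ?_⟩
  · apply Subtype.ext
    have := congrArg (fun q => q.coeff m) hP₀
    simp only [coeff_C_mul] at this
    rw [show (P₀.coeff m : K) = (Polynomial.map A.subtype P₀).coeff m by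
      rw [coeff_map]; rfl]
    rw [show (Polynomial.map A.subtype P₀) = mapRingHom A.subtype P₀ from rfl, this,
      inv_mul_cancel₀ hlam]
    rfl
  · rw [show (Polynomial.map A.subtype P₀) = mapRingHom A.subtype P₀ from rfl, hP₀, ← mul_assoc,
      ← C_mul, mul_inv_cancel₀ hlam, C_1, one_mul]

namespace RedCtx

variable {K : Type*} [Field K] {A : ValuationSubring K} {k : Type*} [Field k]
  {F : Type*} [Field F] [Algebra K[X] F] {Fk : Type*} [Field Fk] [Algebra k[X] Fk]
  (G : RedCtx A k F Fk)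

theorem ρ_eq_zero_iff (u : G.O) : G.ρ u = 0 ↔ (u : F) ∈ G.O.nonunits := by
  have hmax : (RingHom.ker G.ρ).IsMaximal := RingHom.ker_isMaximal_of_surjective G.ρ G.ρ_surj
  have hker := IsLocalRing.eq_maximalIdeal hmax
  rw [← RingHom.mem_ker, hker, ValuationSubring.mem_nonunits_iff_exists_mem_maximalIdeal]
  exact ⟨fun h => ⟨u.2, h⟩, fun ⟨_, h⟩ => h⟩

theorem π_eq_zero_iff (a : A) : G.π a = 0 ↔ (a : K) ∈ A.nonunits := by
  have hmax : (RingHom.ker G.π).IsMaximal := RingHom.ker_isMaximal_of_surjective G.π G.π_surj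
  have hker := IsLocalRing.eq_maximalIdeal hmax
  rw [← RingHom.mem_ker, hker, ValuationSubring.mem_nonunits_iff_exists_mem_maximalIdeal]
  exact ⟨fun h => ⟨a.2, h⟩, fun ⟨_, h⟩ => h⟩

/-- An element of `O` with nonzero reduction is a unit of `O`. -/
theorem inv_mem_of_ρ_ne_zero (u : G.O) (hu : G.ρ u ≠ 0) : (u : F)⁻¹ ∈ G.O := by
  have h1 : (u : F) ∉ G.O.nonunits := fun h => hu ((G.ρ_eq_zero_iff u).mpr h)
  rw [ValuationSubring.mem_nonunits_iff, not_lt] at h1
  rw [← ValuationSubring.valuation_le_one_iff, map_inv₀]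
  exact inv_le_one_of_one_le₀ h1

theorem ne_zero_of_ρ_ne_zero (u : G.O) (hu : G.ρ u ≠ 0) : (u : F) ≠ 0 := by
  intro h
  apply hu
  have : u = 0 := Subtype.ext h
  rw [this, _root_.map_zero]

theorem C_mem (a : A) : algebraMap K[X] F (C (a : K)) ∈ G.O := by
  have := G.mem (C a)
  rwa [Polynomial.map_C] at this

theorem ρ_C (a : A) : G.ρ ⟨algebraMap K[X] F (C (a : K)), G.C_mem a⟩ =
    algebraMap k[X] Fk (C (G.π a)) := by
  have h := G.ρ_poly (C a)
  have e : (⟨algebraMap K[X] F (C (a : K)), G.C_mem a⟩ : G.O) =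
      ⟨algebraMap K[X] F ((C a : A[X]).map A.subtype), G.mem (C a)⟩ :=
    Subtype.ext (congrArg (algebraMap K[X] F)
      (show (C (a : K) : K[X]) = (C a : A[X]).map A.subtype by rw [Polynomial.map_C]; rfl))
  rw [e, h, Polynomial.map_C]

/-- `O ∩ K = A`. -/
theorem C_mem_iff (a : K) : algebraMap K[X] F (C a) ∈ G.O ↔ a ∈ A := by
  constructor
  · intro h
    by_contra ha
    have ha0 : a ≠ 0 := fun h0 => ha (h0 ▸ A.zero_mem)
    have hinv : a⁻¹ ∈ A.nonunits := (ValuationSubring.inv_mem_nonunits_iff A).mpr (Or.inr ha)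
    have hinvA : a⁻¹ ∈ A := A.nonunits_subset hinv
    have h1 : G.π ⟨a⁻¹, hinvA⟩ = 0 := (G.π_eq_zero_iff _).mpr hinv
    have h2 := G.ρ_C ⟨a⁻¹, hinvA⟩
    rw [h1, _root_.map_zero, _root_.map_zero] at h2
    have h3 := (G.ρ_eq_zero_iff _).mp h2
    rw [ValuationSubring.mem_nonunits_iff] at h3
    have h4 : G.O.valuation (algebraMap K[X] F (C a)) ≤ 1 :=
      (ValuationSubring.valuation_le_one_iff _ _).mpr h
    have h5 : algebraMap K[X] F (C a) * algebraMap K[X] F (C a⁻¹) = 1 := by
      rw [← _root_.map_mul, ← C_mul, mul_inv_cancel₀ ha0, C_1, _root_.map_one]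
    have h6 : G.O.valuation (algebraMap K[X] F (C a) * algebraMap K[X] F (C a⁻¹)) < 1 := by
      rw [_root_.map_mul]
      exact mul_lt_one_of_nonneg_of_lt_one_right h4 zero_le h3
    rw [h5, _root_.map_one] at h6
    exact lt_irrefl _ h6
  · intro ha
    exact G.C_mem ⟨a, ha⟩

variable (hinj : Function.Injective (algebraMap k[X] Fk))

include hinj in
/-- A polynomial over `A` with nonzero reduction is a unit of `O` at `x`. -/
theorem inv_mem_of_map_ne_zero (P₀ : A[X]) (h : P₀.map G.π ≠ 0) :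
    (algebraMap K[X] F (P₀.map A.subtype))⁻¹ ∈ G.O := by
  refine G.inv_mem_of_ρ_ne_zero ⟨_, G.mem P₀⟩ ?_
  rw [G.ρ_poly]
  exact fun h0 => h (hinj (by rw [h0, _root_.map_zero]))

include hinj in
theorem ne_zero_of_map_ne_zero (P₀ : A[X]) (h : P₀.map G.π ≠ 0) :
    algebraMap K[X] F (P₀.map A.subtype) ≠ 0 := by
  refine G.ne_zero_of_ρ_ne_zero ⟨_, G.mem P₀⟩ ?_
  rw [G.ρ_poly]
  exact fun h0 => h (hinj (by rw [h0, _root_.map_zero]))

theorem map_π_ne_zero_of_coeff_eq_one (P₀ : A[X]) (m : ℕ) (h : P₀.coeff m = 1) :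
    P₀.map G.π ≠ 0 := by
  intro h0
  have := congrArg (fun q => q.coeff m) h0
  simp only [coeff_map, h, _root_.map_one, coeff_zero] at this
  exact one_ne_zero this

include hinj in
/-- **Gauss**: `O ∩ K[x] = A[x]`. -/
theorem exists_map_eq_of_mem (P : K[X]) (hP : algebraMap K[X] F P ∈ G.O) :
    ∃ P₁ : A[X], P₁.map A.subtype = P := by
  by_cases hP0 : P = 0
  · exact ⟨0, by rw [hP0, Polynomial.map_zero]⟩
  obtain ⟨lam, P₀, m, hlam, hm, hPeq⟩ := exists_primitive A P hP0
  have hne := G.map_π_ne_zero_of_coeff_eq_one P₀ m hm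
  have hinv := G.inv_mem_of_map_ne_zero hinj P₀ hne
  have hne' := G.ne_zero_of_map_ne_zero hinj P₀ hne
  have h1 : algebraMap K[X] F (C lam) =
      algebraMap K[X] F P * (algebraMap K[X] F (P₀.map A.subtype))⁻¹ := by
    rw [hPeq, _root_.map_mul, mul_assoc, mul_inv_cancel₀ hne', mul_one]
  have h2 : algebraMap K[X] F (C lam) ∈ G.O := by
    rw [h1]
    exact G.O.mul_mem _ _ hP hinv
  have h3 : lam ∈ A := (G.C_mem_iff lam).mp h2
  refine ⟨C ⟨lam, h3⟩ * P₀, ?_⟩
  rw [Polynomial.map_mul, Polynomial.map_C, hPeq]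
  rfl

section Rational

variable (L₀ : Type*) [Field L₀] [Algebra K[X] L₀] [IsFractionRing K[X] L₀] [Algebra L₀ F]
  [IsScalarTower K[X] L₀ F]
variable (L₀k : Type*) [Field L₀k] [Algebra k[X] L₀k] [IsFractionRing k[X] L₀k] [Algebra L₀k Fk]
  [IsScalarTower k[X] L₀k Fk]

/-- the Gauss valuation ring `O ∩ K(x)` -/
def V₀ : ValuationSubring L₀ := G.O.comap (algebraMap L₀ F)

theorem mem_V₀ (v : L₀) : v ∈ G.V₀ L₀ ↔ algebraMap L₀ F v ∈ G.O := ValuationSubring.mem_comap

theorem valExtends : H217.ValExtends (G.V₀ L₀) G.O := fun _ => ValuationSubring.mem_comap.symm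

include L₀k in
theorem algebraMap_injective_k : Function.Injective (algebraMap k[X] Fk) := by
  rw [IsScalarTower.algebraMap_eq k[X] L₀k Fk]
  exact (algebraMap L₀k Fk).injective.comp (IsFractionRing.injective k[X] L₀k)

include L₀k in
/-- Normal form of the elements of the Gauss ring: `v = P₁(x) / Q₀(x)` with `P₁, Q₀ ∈ A[X]`,
`Q̄₀ ≠ 0`. -/
theorem exists_normal_form (v : L₀) (hv : algebraMap L₀ F v ∈ G.O) :
    ∃ (P₁ Q₀ : A[X]), Q₀.map G.π ≠ 0 ∧
      v * algebraMap K[X] L₀ (Q₀.map A.subtype) = algebraMap K[X] L₀ (P₁.map A.subtype) := by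
  have hinj := algebraMap_injective_k (k := k) (Fk := Fk) L₀k
  obtain ⟨P, Q, hQ, rfl⟩ := IsFractionRing.div_surjective K[X] v
  have hQ0 : Q ≠ 0 := nonZeroDivisors.ne_zero hQ
  obtain ⟨lam, Q₀, m, hlam, hm, hQeq⟩ := exists_primitive A Q hQ0
  have hne := G.map_π_ne_zero_of_coeff_eq_one Q₀ m hm
  have hQ₀F := G.ne_zero_of_map_ne_zero hinj Q₀ hne
  have hQ₀L : algebraMap K[X] L₀ (Q₀.map A.subtype) ≠ 0 := by
    intro h0
    apply hQ₀F
    rw [IsScalarTower.algebraMap_apply K[X] L₀ F, h0, _root_.map_zero]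
  have hlamL : algebraMap K[X] L₀ (C lam) ≠ 0 := by
    rw [Ne, _root_.map_eq_zero_iff _ (IsFractionRing.injective K[X] L₀), C_eq_zero]
    exact hlam
  have key : algebraMap K[X] L₀ P / algebraMap K[X] L₀ Q *
      algebraMap K[X] L₀ (Q₀.map A.subtype) = algebraMap K[X] L₀ (C lam⁻¹ * P) := by
    rw [hQeq, _root_.map_mul, _root_.map_mul]
    have : algebraMap K[X] L₀ (C lam⁻¹) = (algebraMap K[X] L₀ (C lam))⁻¹ := by
      apply eq_inv_of_mul_eq_one_left
      rw [← _root_.map_mul, ← C_mul, inv_mul_cancel₀ hlam, C_1, _root_.map_one]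
    rw [this]
    field_simp
  have hmem : algebraMap K[X] F (C lam⁻¹ * P) ∈ G.O := by
    rw [IsScalarTower.algebraMap_apply K[X] L₀ F, ← key, _root_.map_mul,
      ← IsScalarTower.algebraMap_apply K[X] L₀ F]
    exact G.O.mul_mem _ _ hv (G.mem Q₀)
  obtain ⟨P₁, hP₁⟩ := G.exists_map_eq_of_mem hinj _ hmem
  exact ⟨P₁, Q₀, hne, by rw [key, hP₁]⟩

include L₀ in
theorem exists_ρ_eq (v : L₀) (hv : algebraMap L₀ F v ∈ G.O) :
    G.ρ ⟨algebraMap L₀ F v, hv⟩ ∈ (algebraMap L₀k Fk).range := by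
  have hinj := algebraMap_injective_k (k := k) (Fk := Fk) L₀k
  obtain ⟨P₁, Q₀, hne, hvQ⟩ := G.exists_normal_form L₀ L₀k v hv
  have h1 : (⟨algebraMap L₀ F v, hv⟩ : G.O) * ⟨_, G.mem Q₀⟩ = ⟨_, G.mem P₁⟩ := by
    apply Subtype.ext
    show algebraMap L₀ F v * algebraMap K[X] F (Q₀.map A.subtype) =
      algebraMap K[X] F (P₁.map A.subtype)
    rw [IsScalarTower.algebraMap_apply K[X] L₀ F, IsScalarTower.algebraMap_apply K[X] L₀ F,
      ← _root_.map_mul, hvQ]
  have h2 := congrArg G.ρ h1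
  rw [_root_.map_mul, G.ρ_poly, G.ρ_poly] at h2
  have h3 : algebraMap k[X] Fk (Q₀.map G.π) ≠ 0 := fun h0 => hne (hinj (by rw [h0, _root_.map_zero]))
  refine ⟨algebraMap k[X] L₀k (P₁.map G.π) / algebraMap k[X] L₀k (Q₀.map G.π), ?_⟩
  rw [map_div₀, ← IsScalarTower.algebraMap_apply, ← IsScalarTower.algebraMap_apply,
    div_eq_iff h3, h2]

/-- the inclusion `V₀ → O` -/
def incl : G.V₀ L₀ →+* G.O :=
  (algebraMap L₀ F).restrict (G.V₀ L₀) G.O (fun _ hx => (G.mem_V₀ L₀ _).mp hx)

theorem incl_coe (v : G.V₀ L₀) : ((G.incl L₀ v : G.O) : F) = algebraMap L₀ F v := rfl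

/-- the residue map of the Gauss valuation ring -/
noncomputable def ρ₀ : G.V₀ L₀ →+* L₀k :=
  ((RingEquiv.ofBijective (algebraMap L₀k Fk).rangeRestrict
    ⟨(algebraMap L₀k Fk).rangeRestrict.injective,
      (algebraMap L₀k Fk).rangeRestrict_surjective⟩).symm : _ →+* L₀k).comp
    (RingHom.codRestrict (G.ρ.comp (G.incl L₀)) (algebraMap L₀k Fk).range
      (fun v => G.exists_ρ_eq L₀ L₀k v ((G.mem_V₀ L₀ _).mp v.2)))

theorem algebraMap_ρ₀ (v : G.V₀ L₀) :
    algebraMap L₀k Fk (G.ρ₀ L₀ L₀k v) = G.ρ ⟨algebraMap L₀ F v, (G.mem_V₀ L₀ _).mp v.2⟩ := by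
  set e := RingEquiv.ofBijective (algebraMap L₀k Fk).rangeRestrict
    ⟨(algebraMap L₀k Fk).rangeRestrict.injective,
      (algebraMap L₀k Fk).rangeRestrict_surjective⟩ with he
  set y : (algebraMap L₀k Fk).range := RingHom.codRestrict (G.ρ.comp (G.incl L₀))
    (algebraMap L₀k Fk).range
      (fun v => G.exists_ρ_eq L₀ L₀k v ((G.mem_V₀ L₀ _).mp v.2)) v with hy
  have h1 : G.ρ₀ L₀ L₀k v = e.symm y := rfl
  have h2 : e (e.symm y) = y := e.apply_symm_apply y
  have h3 : ((e (e.symm y) : (algebraMap L₀k Fk).range) : Fk) = algebraMap L₀k Fk (e.symm y) := rfl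
  rw [h1, ← h3, h2]
  rfl

/-- `H217`-shaped compatibility of `ρ` and `ρ₀`. -/
theorem ρ_algebraMap (v : G.V₀ L₀) :
    G.ρ ⟨algebraMap L₀ F v, ((G.valExtends L₀) v).mpr v.2⟩ = algebraMap L₀k Fk (G.ρ₀ L₀ L₀k v) :=
  (G.algebraMap_ρ₀ L₀ L₀k v).symm

theorem ρ₀_eq_zero_iff (v : G.V₀ L₀) : G.ρ₀ L₀ L₀k v = 0 ↔ (v : L₀) ∈ (G.V₀ L₀).nonunits := by
  rw [← (G.valExtends L₀).mem_nonunits_iff, ← G.ρ_eq_zero_iff ⟨_, (G.mem_V₀ L₀ _).mp v.2⟩,
    ← G.algebraMap_ρ₀ L₀ L₀k v]
  exact (_root_.map_eq_zero_iff _ (algebraMap L₀k Fk).injective).symm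

theorem poly_mem_V₀ (p : A[X]) : algebraMap K[X] L₀ (p.map A.subtype) ∈ G.V₀ L₀ := by
  rw [G.mem_V₀, ← IsScalarTower.algebraMap_apply]
  exact G.mem p

theorem ρ₀_poly (p : A[X]) :
    G.ρ₀ L₀ L₀k ⟨_, G.poly_mem_V₀ L₀ p⟩ = algebraMap k[X] L₀k (p.map G.π) := by
  apply (algebraMap L₀k Fk).injective
  rw [G.algebraMap_ρ₀, ← IsScalarTower.algebraMap_apply k[X] L₀k Fk, ← G.ρ_poly p]
  congr 1
  apply Subtype.ext
  exact (IsScalarTower.algebraMap_apply K[X] L₀ F _).symm

include L₀k in
/-- **Gauss**: `V₀ ∩ K[x] = A[x]`. -/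
theorem exists_map_eq_of_mem_V₀ (P : K[X]) (hP : algebraMap K[X] L₀ P ∈ G.V₀ L₀) :
    ∃ P₁ : A[X], P₁.map A.subtype = P := by
  refine G.exists_map_eq_of_mem (algebraMap_injective_k (k := k) (Fk := Fk) L₀k) P ?_
  rw [IsScalarTower.algebraMap_apply K[X] L₀ F]
  exact (G.mem_V₀ L₀ _).mp hP

end Rational

end RedCtx

end Fermat.Agent.S37.H159

end
-- ===== PACK-END S37/H159/MGauss.lean

-- ===== PACK-BEGIN A2/H129/Kummer.lean
section



/-!
# A2 / K1: the Kummer dictionary (Prelude language, any `K`, `F`)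

`x ∈ Pic0 K F` with `m • x = 0`, `x = [D]`, `m D = div f`.  For a semilinear automorphism `g`:
`(g - 1)² x = 0` as soon as `(g - 1)² f = c · y ^ m` for a constant `c` and a function `y`
(multiplicative notation `tauSubOne`).

* `KummerTwice g m` : the Kummer-side statement (what K2 + K3 have to prove).
* `unipotent_of_kummerTwice` : `KummerTwice g m → ∀ x, m • x = 0 → g • (g • x - x) = g • x - x`.
-/

set_option autoImplicit false

namespace Fermat.Agent.A2.H129

open AlgebraicCurve

variable {K F : Type*} [Field K] [Field F] [Algebra K F]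

/-- **Kummer-side statement.** For every `f ≠ 0` whose divisor is divisible by `m`, the function
`(g - 1)² f = g(g f / f) / (g f / f)` is a constant times an `m`-th power. -/
def KummerTwice (g : SemilinearAut K F) (m : ℕ) : Prop :=
  ∀ f : F, f ≠ 0 → (∀ v : Place K F, (m : ℤ) ∣ v.ord f) →
    ∃ y : F, ∃ c : K, c ≠ 0 ∧
      tauSubOne (SemilinearAut.toRingAut g) (tauSubOne (SemilinearAut.toRingAut g) f)
        = algebraMap K F c * y ^ m

theorem ord_algebraMap_eq_zero (v : Place K F) (c : K) : v.ord (algebraMap K F c) = 0 := by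
  rcases eq_or_ne c 0 with rfl | hc
  · simp
  have h1 : algebraMap K F c ∈ v.toValuationSubring := v.algebraMap_mem' c
  have h2 : algebraMap K F c⁻¹ ∈ v.toValuationSubring := v.algebraMap_mem' c⁻¹
  have hu : IsUnit (⟨algebraMap K F c, h1⟩ : v.toValuationSubring) := by
    refine IsUnit.of_mul_eq_one (⟨algebraMap K F c⁻¹, h2⟩ : v.toValuationSubring) ?_
    ext
    show algebraMap K F c * algebraMap K F c⁻¹ = 1
    rw [← map_mul, mul_inv_cancel₀ hc, map_one]
  exact v.ord_coe_unit hu.unit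

theorem ord_smul_eq (g : SemilinearAut K F) (w : Place K F) (f : F) :
    w.ord (SemilinearAut.toRingAut g f) = (g⁻¹ • w).ord f := by
  have h := SemilinearAut.ord_smul g (g⁻¹ • w) f
  rw [smul_inv_smul] at h
  exact h

theorem ord_div (v : Place K F) {f h : F} (hf : f ≠ 0) (hh : h ≠ 0) :
    v.ord (f * h⁻¹) = v.ord f - v.ord h := by
  rw [v.ord_mul hf (inv_ne_zero hh), v.ord_inv, sub_eq_add_neg]

theorem ord_pow (v : Place K F) (y : F) (m : ℕ) : v.ord (y ^ m) = m * v.ord y := by
  have := v.ord_zpow y (m : ℤ)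
  simpa using this

/-- **K1.**  The Kummer-side statement implies `(g - 1)² = 0` on the `m`-torsion of `Pic0`. -/
theorem unipotent_of_kummerTwice (g : SemilinearAut K F) (m : ℕ) (hm : m ≠ 0)
    (H : KummerTwice g m) (x : Pic0 K F) (hx : m • x = 0) :
    g • (g • x - x) = g • x - x := by
  obtain ⟨D, rfl⟩ := Pic0.mk_surjective x
  -- the Kummer generator
  have hprin : ((m • D : Divisor.degZero (K := K) (F := F)) : Divisor K F) ∈
      Divisor.principal (K := K) (F := F) := by
    have h0 : Pic0.mk (m • D) = 0 := hx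
    have := (QuotientAddGroup.eq_zero_iff (m • D)).1 h0
    simpa [AddSubgroup.mem_addSubgroupOf] using this
  obtain ⟨f, hf, hfD⟩ := hprin
  have hfD' : ∀ v : Place K F, v.ord f = (m : ℤ) * (D : Divisor K F) v := by
    intro v
    rw [← hfD v]
    simp [Finsupp.smul_apply]
  obtain ⟨y, c, hc, hyc⟩ := H f hf (fun v => ⟨_, hfD' v⟩)
  set τ := SemilinearAut.toRingAut g with hτ
  have hτf : τ f ≠ 0 := by simpa using hf
  have h1 : tauSubOne τ f ≠ 0 := tauSubOne_ne_zero τ hf
  have h2 : tauSubOne τ (tauSubOne τ f) ≠ 0 := tauSubOne_ne_zero τ h1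
  have hy : y ≠ 0 := by
    rintro rfl
    rw [zero_pow hm, mul_zero] at hyc
    exact h2 hyc
  have hcF : algebraMap K F c ≠ 0 := by simpa using hc
  -- the divisor `E = (g-1)² D`
  set E : Divisor.degZero (K := K) (F := F) :=
    SemilinearAut.degZeroSMulHom g (SemilinearAut.degZeroSMulHom g D - D)
      - (SemilinearAut.degZeroSMulHom g D - D) with hE
  have hgoal : g • (g • Pic0.mk D - Pic0.mk D) - (g • Pic0.mk D - Pic0.mk D) = Pic0.mk E := by
    rw [SemilinearAut.pic0_smul_mk]
    rfl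
  rw [← sub_eq_zero, hgoal]
  refine (QuotientAddGroup.eq_zero_iff E).2 ?_
  rw [AddSubgroup.mem_addSubgroupOf]
  refine ⟨y, hy, fun w => ?_⟩
  -- compare `m * E w` and `m * ord_w y`
  have hEw : (E : Divisor K F) w =
      (D : Divisor K F) (g⁻¹ • (g⁻¹ • w)) - (D : Divisor K F) (g⁻¹ • w)
        - ((D : Divisor K F) (g⁻¹ • w) - (D : Divisor K F) w) := by
    simp only [hE, AddSubgroupClass.coe_sub, SemilinearAut.coe_degZeroSMulHom, smul_sub,
      Finsupp.sub_apply, SemilinearAut.divisor_smul_apply]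
  have e1 : ∀ (h : F), h ≠ 0 → ∀ v : Place K F,
      v.ord (tauSubOne τ h) = (g⁻¹ • v).ord h - v.ord h := by
    intro h hh v
    have hτh : τ h ≠ 0 := by simpa using hh
    show v.ord (τ h * h⁻¹) = _
    rw [ord_div v hτh hh, hτ, ord_smul_eq]
  have hord : w.ord (tauSubOne τ (tauSubOne τ f)) =
      (g⁻¹ • (g⁻¹ • w)).ord f - (g⁻¹ • w).ord f - ((g⁻¹ • w).ord f - w.ord f) := by
    rw [e1 _ h1 w, e1 f hf (g⁻¹ • w), e1 f hf w]
  have hord2 : w.ord (tauSubOne τ (tauSubOne τ f)) = (m : ℤ) * w.ord y := by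
    rw [hyc, w.ord_mul hcF (pow_ne_zero m hy), ord_algebraMap_eq_zero, zero_add, ord_pow]
  have hmE : (m : ℤ) * (E : Divisor K F) w = (m : ℤ) * w.ord y := by
    rw [← hord2, hord, hEw, hfD', hfD', hfD']
    ring
  have hm' : (m : ℤ) ≠ 0 := by exact_mod_cast hm
  exact mul_left_cancel₀ hm' hmE

end Fermat.Agent.A2.H129

end
-- ===== PACK-END A2/H129/Kummer.lean

-- ===== PACK-BEGIN A2/H129/GaussTwiceB.lean
section


/-!
# A2 / K2 (abstract part), constant-free form

For ONE valuation subring `V` of `F` (value group = value group of the constants, `τ` acts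
trivially on the residue field and preserves the values of the constants):

* `oneAddNonunits_twice` : for EVERY `f ≠ 0`, `(τ - 1)² f ∈ 1 + 𝔪_V` (no constant needed).
* `oneAddNonunits_twice'` : the same for two (possibly different) automorphisms `τ`, `τ'`:
  `(τ' - 1)(τ - 1) f ∈ 1 + 𝔪_V`.

So the Kummer generator of `(τ' - 1)(τ - 1) x` is `≡ 1` along EVERY component of the special
fibre, whatever the number of components.
-/

set_option autoImplicit false

namespace Fermat.Agent.A2.H129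

variable {F : Type*} [Field F] {Kc : Subfield F} {V : ValuationSubring F}

/-- `(τ' - 1)(τ - 1) f ∈ 1 + 𝔪_V` for every `f ≠ 0`. -/
theorem oneAddNonunits_twice' {τ τ' : F ≃+* F}
    (hV : HasConstValues Kc V) (hτ : InInertia V τ) (hP : PreservesConstValues Kc V τ)
    (hτ' : InInertia V τ') {f : F} (hf : f ≠ 0) :
    OneAddNonunits V (tauSubOne τ' (tauSubOne τ f)) := by
  obtain ⟨c, hc, hc0, hu⟩ := hV f hf
  -- `f = c * u`, `u = f / c` a unit
  have e : tauSubOne τ' (tauSubOne τ f)
      = tauSubOne τ' (tauSubOne τ (f * c⁻¹)) * tauSubOne τ' (tauSubOne τ c) := by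
    rw [← tauSubOne_mul, ← tauSubOne_mul]
    congr 2
    field_simp
  rw [e]
  refine OneAddNonunits.mul ?_ ?_
  · exact oneAddNonunits_tauSubOne hτ' (oneAddNonunits_tauSubOne hτ hu).isUnitOf
  · exact oneAddNonunits_tauSubOne hτ' (hP c hc hc0)

/-- `(τ - 1)² f ∈ 1 + 𝔪_V` for every `f ≠ 0`. -/
theorem oneAddNonunits_twice {τ : F ≃+* F}
    (hV : HasConstValues Kc V) (hτ : InInertia V τ) (hP : PreservesConstValues Kc V τ)
    {f : F} (hf : f ≠ 0) :
    OneAddNonunits V (tauSubOne τ (tauSubOne τ f)) :=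
  oneAddNonunits_twice' hV hτ hP hτ hf

/-- `(τ - 1) f` is a unit of `V` for every `f ≠ 0`. -/
theorem isUnitOf_once {τ : F ≃+* F}
    (hV : HasConstValues Kc V) (hτ : InInertia V τ) (hP : PreservesConstValues Kc V τ)
    {f : F} (hf : f ≠ 0) :
    IsUnitOf V (tauSubOne τ f) := by
  obtain ⟨c, hc, hc0, hu⟩ := hV f hf
  have e : tauSubOne τ f = tauSubOne τ (f * c⁻¹) * tauSubOne τ c := by
    rw [← tauSubOne_mul]
    congr 1
    field_simp
  rw [e]
  exact (oneAddNonunits_tauSubOne hτ hu).isUnitOf.mul (hP c hc hc0)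

end Fermat.Agent.A2.H129

end
-- ===== PACK-END A2/H129/GaussTwiceB.lean

-- ===== PACK-BEGIN S28/H86/GaussGen.lean
section




/-!
# The Gauss valuation ring of `O((t))` for a general coefficient DVR `O ⊆ E`

`E` a field, `O : Subring E`, `res : O →+* k` onto-ish a field `k` with kernel `(π)`, such that
every nonzero element of `O` is `π ^ n * y` with `res y ≠ 0` (`UnifData`).

* `inclL O : LaurentSeries O →+* LaurentSeries E`, `redL res : LaurentSeries O →+* LaurentSeries k`
* `gaussRing O res : Subring (LaurentSeries E)` = localisation of `O((t))` at `(π)`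
* `gaussRed : gaussRing O res →+* LaurentSeries k`, kernel `= π · gaussRing`
* `gaussFrac O : Subfield (LaurentSeries E)`, the valuation-ring dichotomy, integral closedness.
-/

set_option autoImplicit false
set_option linter.unusedSectionVars false

noncomputable section

namespace Fermat.Agent.S28.H86

open ModularCurve

/-- Uniformiser data: `ker res = (π)`, `π ≠ 0`, every nonzero element is `π ^ n * (unit mod π)`. -/
structure UnifData {E : Type*} [Field E] (O : Subring E) {k : Type*} [Field k]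
    (res : O →+* k) (π : O) : Prop where
  ker : ∀ x : O, res x = 0 ↔ ∃ y : O, x = π * y
  ne_zero : π ≠ 0
  prim : ∀ x : O, x ≠ 0 → ∃ (n : ℕ) (y : O), x = π ^ n * y ∧ res y ≠ 0

section Basic

variable {E : Type*} [Field E] (O : Subring E) {k : Type*} [Field k] (res : O →+* k) {π : O}

/-- The inclusion `O((t)) → E((t))`. -/
def inclL : LaurentSeries O →+* LaurentSeries E := coeffMap O.subtype

@[simp] theorem inclL_coeff (a : LaurentSeries O) (n : ℤ) :
    (inclL O a).coeff n = (a.coeff n : E) := rfl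

theorem inclL_injective : Function.Injective (inclL O) := by
  intro a b h
  ext n
  have := congrArg (fun x => x.coeff n) h
  simpa using this

theorem inclL_ne_zero {a : LaurentSeries O} (ha : a ≠ 0) : inclL O a ≠ 0 :=
  fun h => ha (inclL_injective O (h.trans (map_zero _).symm))

variable {O} in
/-- Coefficientwise reduction `O((t)) → k((t))`. -/
def redL : LaurentSeries O →+* LaurentSeries k := coeffMap res

@[simp] theorem redL_coeff (a : LaurentSeries O) (n : ℤ) :
    (redL res a).coeff n = res (a.coeff n) := rfl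

variable {O res}

theorem res_pi (h : UnifData O res π) : res π = 0 := (h.ker π).mpr ⟨1, (mul_one π).symm⟩

theorem coe_pi_ne_zero (h : UnifData O res π) : (π : E) ≠ 0 :=
  fun h0 => h.ne_zero (Subtype.ext h0)

/-- Division by `π` on `O` (junk value `0` on non-multiples). -/
def divPi (π : O) : ZeroHom O O where
  toFun x := by
    classical
    exact if h : π ≠ 0 ∧ ∃ y : O, x = π * y then h.2.choose else 0
  map_zero' := by
    classical
    by_cases h : π ≠ 0 ∧ ∃ y : O, (0 : O) = π * y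
    · simp only [dif_pos h]
      have := h.2.choose_spec
      rcases mul_eq_zero.mp this.symm with h' | h'
      · exact absurd h' h.1
      · exact h'
    · simp only [dif_neg h]

theorem pi_mul_divPi (h : UnifData O res π) {x : O} (hx : res x = 0) : π * divPi π x = x := by
  classical
  have h1 : π ≠ 0 ∧ ∃ y : O, x = π * y := ⟨h.ne_zero, (h.ker x).mp hx⟩
  show π * (if h : π ≠ 0 ∧ ∃ y : O, x = π * y then h.2.choose else 0) = x
  rw [dif_pos h1]
  exact h1.2.choose_spec.symm

theorem redL_eq_zero_iff (h : UnifData O res π) (a : LaurentSeries O) :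
    redL res a = 0 ↔ ∃ a' : LaurentSeries O, a = HahnSeries.C π * a' := by
  constructor
  · intro h0
    refine ⟨a.map (divPi π), ?_⟩
    ext n
    rw [HahnSeries.C_mul_eq_smul, HahnSeries.coeff_smul, HahnSeries.map_coeff, smul_eq_mul,
      pi_mul_divPi h]
    have := congrArg (fun x => x.coeff n) h0
    simpa using this
  · rintro ⟨a', rfl⟩
    ext n
    rw [HahnSeries.C_mul_eq_smul, redL_coeff, HahnSeries.coeff_smul, smul_eq_mul, map_mul,
      res_pi h, zero_mul, HahnSeries.coeff_zero]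

theorem redL_C_pi (h : UnifData O res π) : redL res (HahnSeries.C π) = 0 :=
  (redL_eq_zero_iff h _).mpr ⟨1, by rw [mul_one]⟩

variable (O) in
/-- The uniformiser as a constant Laurent series over `E`. -/
def piL (π : O) : LaurentSeries E := HahnSeries.C (π : E)

theorem inclL_C (c : O) : inclL O (HahnSeries.C c) = HahnSeries.C (c : E) := by
  ext n
  by_cases hn : n = 0
  · subst hn; simp [HahnSeries.C_apply]
  · simp [HahnSeries.C_apply, HahnSeries.coeff_single_of_ne hn]

theorem inclL_C_pi : inclL O (HahnSeries.C π) = piL O π := inclL_C π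

theorem piL_ne_zero (h : UnifData O res π) : piL O π ≠ 0 := by
  intro h0
  exact coe_pi_ne_zero h (HahnSeries.C_injective (by rw [← piL, h0, map_zero]))

theorem redL_cross {a b c d : LaurentSeries O}
    (h : inclL O a * inclL O d = inclL O c * inclL O b) :
    redL res a * redL res d = redL res c * redL res b := by
  rw [← map_mul, ← map_mul] at h
  rw [← map_mul, ← map_mul, inclL_injective O h]

end Basic

section Ring

variable {E : Type*} [Field E] (O : Subring E) {k : Type*} [Field k] (res : O →+* k) {π : O}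

/-! ### The Gauss valuation ring -/

/-- The Gauss valuation ring: the localisation of `O((t))` at the prime `(π)`, realised inside
`E((t))`. -/
def gaussRing : Subring (LaurentSeries E) where
  carrier := {x | ∃ a b : LaurentSeries O, redL res b ≠ 0 ∧ x * inclL O b = inclL O a}
  mul_mem' := by
    rintro x y ⟨a, b, hb, hab⟩ ⟨c, d, hd, hcd⟩
    refine ⟨a * c, b * d, ?_, ?_⟩
    · rw [map_mul]; exact mul_ne_zero hb hd
    · rw [map_mul, map_mul, ← hab, ← hcd]; ring
  one_mem' := ⟨1, 1, by simp, by simp⟩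
  add_mem' := by
    rintro x y ⟨a, b, hb, hab⟩ ⟨c, d, hd, hcd⟩
    refine ⟨a * d + c * b, b * d, ?_, ?_⟩
    · rw [map_mul]; exact mul_ne_zero hb hd
    · rw [map_add, map_mul, map_mul, map_mul, ← hab, ← hcd]; ring
  zero_mem' := ⟨0, 1, by simp, by simp⟩
  neg_mem' := by
    rintro x ⟨a, b, hb, hab⟩
    exact ⟨-a, b, hb, by rw [map_neg, ← hab]; ring⟩

variable {O res}

theorem mem_gaussRing_iff {x : LaurentSeries E} :
    x ∈ gaussRing O res ↔ ∃ a b : LaurentSeries O,
      redL res b ≠ 0 ∧ x * inclL O b = inclL O a := Iff.rfl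

variable (res) in
theorem inclL_mem_gaussRing (a : LaurentSeries O) : inclL O a ∈ gaussRing O res :=
  ⟨a, 1, by simp, by simp⟩

/-- A chosen numerator. -/
def gaussNum (x : gaussRing O res) : LaurentSeries O := x.2.choose

/-- A chosen denominator. -/
def gaussDen (x : gaussRing O res) : LaurentSeries O := x.2.choose_spec.choose

theorem redL_gaussDen_ne_zero (x : gaussRing O res) : redL res (gaussDen x) ≠ 0 :=
  x.2.choose_spec.choose_spec.1

theorem gauss_spec (x : gaussRing O res) :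
    (x : LaurentSeries E) * inclL O (gaussDen x) = inclL O (gaussNum x) :=
  x.2.choose_spec.choose_spec.2

/-- The reduction map on the Gauss ring, as a function. -/
def gaussRedFun (x : gaussRing O res) : LaurentSeries k :=
  redL res (gaussNum x) / redL res (gaussDen x)

theorem gaussRedFun_eq (x : gaussRing O res) (a b : LaurentSeries O)
    (hb : redL res b ≠ 0) (h : (x : LaurentSeries E) * inclL O b = inclL O a) :
    gaussRedFun x = redL res a / redL res b := by
  rw [gaussRedFun, div_eq_div_iff (redL_gaussDen_ne_zero x) hb]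
  apply redL_cross
  rw [← gauss_spec, ← h]; ring

variable (O res) in
/-- The reduction map `V → k((t))`. -/
def gaussRed : gaussRing O res →+* LaurentSeries k where
  toFun := gaussRedFun
  map_one' := by
    rw [gaussRedFun_eq 1 1 1 (by simp) (by simp)]
    simp
  map_mul' x y := by
    rw [gaussRedFun_eq (x * y) (gaussNum x * gaussNum y) (gaussDen x * gaussDen y)
      (by rw [map_mul]; exact mul_ne_zero (redL_gaussDen_ne_zero x) (redL_gaussDen_ne_zero y))
      (by rw [map_mul, map_mul, ← gauss_spec, ← gauss_spec, Subring.coe_mul]; ring)]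
    rw [map_mul, map_mul, gaussRedFun, gaussRedFun, div_mul_div_comm]
  map_zero' := by
    rw [gaussRedFun_eq 0 0 1 (by simp) (by simp)]
    simp
  map_add' x y := by
    rw [gaussRedFun_eq (x + y) (gaussNum x * gaussDen y + gaussNum y * gaussDen x)
      (gaussDen x * gaussDen y)
      (by rw [map_mul]; exact mul_ne_zero (redL_gaussDen_ne_zero x) (redL_gaussDen_ne_zero y))
      (by rw [map_add, map_mul, map_mul, map_mul, ← gauss_spec, ← gauss_spec,
            Subring.coe_add]; ring)]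
    rw [map_add, map_mul, map_mul, map_mul, gaussRedFun, gaussRedFun,
      div_add_div _ _ (redL_gaussDen_ne_zero x) (redL_gaussDen_ne_zero y)]
    ring

theorem gaussRed_eq (x : gaussRing O res) (a b : LaurentSeries O)
    (hb : redL res b ≠ 0) (h : (x : LaurentSeries E) * inclL O b = inclL O a) :
    gaussRed O res x = redL res a / redL res b := gaussRedFun_eq x a b hb h

theorem gaussRed_inclL (a : LaurentSeries O) :
    gaussRed O res ⟨inclL O a, inclL_mem_gaussRing res a⟩ = redL res a := by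
  rw [gaussRed_eq _ a 1 (by simp) (by simp)]
  simp

theorem piL_mem_gaussRing : piL O π ∈ gaussRing O res := by
  rw [← inclL_C_pi]; exact inclL_mem_gaussRing res _

theorem gaussRed_piL (h : UnifData O res π) :
    gaussRed O res ⟨piL O π, piL_mem_gaussRing⟩ = 0 := by
  have : (⟨piL O π, piL_mem_gaussRing⟩ : gaussRing O res) =
      ⟨inclL O (HahnSeries.C π), inclL_mem_gaussRing res _⟩ := Subtype.ext inclL_C_pi.symm
  rw [this, gaussRed_inclL, redL_C_pi h]

/-- The kernel of the reduction is generated by `π`. -/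
theorem gaussRed_eq_zero_iff (h : UnifData O res π) (x : gaussRing O res) :
    gaussRed O res x = 0 ↔ ∃ y : gaussRing O res, (x : LaurentSeries E) = piL O π * y := by
  constructor
  · intro h0
    have h1 : redL res (gaussNum x) = 0 := by
      have h2 : redL res (gaussNum x) / redL res (gaussDen x) = 0 := h0
      rcases div_eq_zero_iff.mp h2 with h3 | h3
      · exact h3
      · exact absurd h3 (redL_gaussDen_ne_zero x)
    obtain ⟨a', ha'⟩ := (redL_eq_zero_iff h _).mp h1
    have hspec := gauss_spec x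
    rw [ha', map_mul, inclL_C_pi] at hspec
    have hne := piL_ne_zero h
    have hy : (x : LaurentSeries E) * (piL O π)⁻¹ ∈ gaussRing O res := by
      refine ⟨a', gaussDen x, redL_gaussDen_ne_zero x, ?_⟩
      calc (x : LaurentSeries E) * (piL O π)⁻¹ * inclL O (gaussDen x)
          = ((x : LaurentSeries E) * inclL O (gaussDen x)) * (piL O π)⁻¹ := by ring
        _ = inclL O a' := by rw [hspec]; field_simp
    refine ⟨⟨_, hy⟩, ?_⟩
    show (x : LaurentSeries E) = piL O π * ((x : LaurentSeries E) * (piL O π)⁻¹)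
    field_simp
  · rintro ⟨y, hy⟩
    have : x = ⟨piL O π, piL_mem_gaussRing⟩ * y := Subtype.ext hy
    rw [this, map_mul, gaussRed_piL h, zero_mul]

/-! ### Primitive parts -/

theorem exists_primitive_aux (h : UnifData O res π) (m : ℕ) :
    ∀ (b : LaurentSeries O) (n0 : ℤ) (y : O), b.coeff n0 = π ^ m * y → res y ≠ 0 →
      ∃ (i : ℕ) (b' : LaurentSeries O), b = HahnSeries.C π ^ i * b' ∧ redL res b' ≠ 0 := by
  induction m with
  | zero =>
    intro b n0 y hy hres
    refine ⟨0, b, by simp, ?_⟩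
    intro h0
    have := congrArg (fun x => x.coeff n0) h0
    simp only [redL_coeff, HahnSeries.coeff_zero] at this
    rw [hy, pow_zero, one_mul] at this
    exact hres this
  | succ m ih =>
    intro b n0 y hy hres
    by_cases hb : redL res b = 0
    · obtain ⟨b1, rfl⟩ := (redL_eq_zero_iff h b).mp hb
      rw [HahnSeries.C_mul_eq_smul, HahnSeries.coeff_smul, smul_eq_mul, pow_succ', mul_assoc] at hy
      have h1 : b1.coeff n0 = π ^ m * y := mul_left_cancel₀ h.ne_zero hy
      obtain ⟨i, b', hb', hred⟩ := ih b1 n0 y h1 hres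
      refine ⟨i + 1, b', ?_, hred⟩
      rw [hb', pow_succ']
      ring
    · exact ⟨0, b, by simp, hb⟩

theorem exists_primitive (h : UnifData O res π) (b : LaurentSeries O) (hb : b ≠ 0) :
    ∃ (i : ℕ) (b' : LaurentSeries O), b = HahnSeries.C π ^ i * b' ∧ redL res b' ≠ 0 := by
  obtain ⟨n0, hn0⟩ : ∃ n0, b.coeff n0 ≠ 0 := by
    by_contra h0
    exact hb (HahnSeries.ext (funext fun n => not_not.mp (not_exists.mp h0 n)))
  obtain ⟨m, y, hy, hres⟩ := h.prim _ hn0
  exact exists_primitive_aux h m b n0 y hy hres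

/-! ### The fraction field of `O((t))` inside `E((t))` -/

variable (O) in
/-- The fraction field of `O((t))`, realised inside `E((t))`. -/
def gaussFrac : Subfield (LaurentSeries E) where
  carrier := {x | ∃ a b : LaurentSeries O, b ≠ 0 ∧ x * inclL O b = inclL O a}
  mul_mem' := by
    rintro x y ⟨a, b, hb, hab⟩ ⟨c, d, hd, hcd⟩
    refine ⟨a * c, b * d, mul_ne_zero hb hd, ?_⟩
    rw [map_mul, map_mul, ← hab, ← hcd]; ring
  one_mem' := ⟨1, 1, one_ne_zero, by simp⟩
  add_mem' := by
    rintro x y ⟨a, b, hb, hab⟩ ⟨c, d, hd, hcd⟩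
    refine ⟨a * d + c * b, b * d, mul_ne_zero hb hd, ?_⟩
    rw [map_add, map_mul, map_mul, map_mul, ← hab, ← hcd]; ring
  zero_mem' := ⟨0, 1, one_ne_zero, by simp⟩
  neg_mem' := by
    rintro x ⟨a, b, hb, hab⟩
    exact ⟨-a, b, hb, by rw [map_neg, ← hab]; ring⟩
  inv_mem' := by
    rintro x ⟨a, b, hb, hab⟩
    by_cases hx : x = 0
    · subst hx
      exact ⟨0, 1, one_ne_zero, by simp⟩
    · have hb' : inclL O b ≠ 0 := inclL_ne_zero O hb
      have ha : a ≠ 0 := by
        rintro rfl
        rw [map_zero] at hab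
        rcases mul_eq_zero.mp hab with h | h
        · exact hx h
        · exact hb' h
      refine ⟨b, a, ha, ?_⟩
      rw [← hab, ← mul_assoc, inv_mul_cancel₀ hx, one_mul]

theorem mem_gaussFrac_iff {x : LaurentSeries E} :
    x ∈ gaussFrac O ↔ ∃ a b : LaurentSeries O, b ≠ 0 ∧ x * inclL O b = inclL O a := Iff.rfl

theorem inclL_mem_gaussFrac (a : LaurentSeries O) : inclL O a ∈ gaussFrac O :=
  ⟨a, 1, one_ne_zero, by simp⟩

theorem gaussRing_le_gaussFrac {x : LaurentSeries E} (hx : x ∈ gaussRing O res) :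
    x ∈ gaussFrac O := by
  obtain ⟨a, b, hb, hab⟩ := hx
  exact ⟨a, b, fun h => hb (by rw [h, map_zero]), hab⟩

/-- The valuation-ring dichotomy: an element of the fraction field lies in the Gauss ring, or
it is the inverse of an element of the Gauss ring with vanishing reduction. -/
theorem mem_gaussRing_or_inv (h : UnifData O res π) {x : LaurentSeries E}
    (hx : x ∈ gaussFrac O) :
    x ∈ gaussRing O res ∨
      ∃ y : gaussRing O res, gaussRed O res y = 0 ∧ x * (y : LaurentSeries E) = 1 := by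
  obtain ⟨a, b, hb, hab⟩ := hx
  by_cases ha : a = 0
  · left
    subst ha
    rw [map_zero] at hab
    have hb' : inclL O b ≠ 0 := inclL_ne_zero O hb
    rcases mul_eq_zero.mp hab with h | h
    · rw [h]; exact zero_mem _
    · exact absurd h hb'
  obtain ⟨i, a', rfl, ha'⟩ := exists_primitive h a ha
  obtain ⟨j, b', rfl, hb'⟩ := exists_primitive h b hb
  have hπ := piL_ne_zero h
  have ha'0 : inclL O a' ≠ 0 := by
    intro h0
    apply ha'
    rw [inclL_injective O (h0.trans (map_zero _).symm), map_zero]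
  have hb'0 : inclL O b' ≠ 0 := by
    intro h0
    apply hb'
    rw [inclL_injective O (h0.trans (map_zero _).symm), map_zero]
  rw [map_mul, map_mul, map_pow, map_pow, inclL_C_pi] at hab
  rcases le_or_gt j i with hji | hji
  · left
    refine ⟨HahnSeries.C π ^ (i - j) * a', b', hb', ?_⟩
    rw [map_mul, map_pow, inclL_C_pi]
    have hpow : piL O π ^ i = piL O π ^ j * piL O π ^ (i - j) := by
      rw [← pow_add]; congr 1; omega
    rw [hpow] at hab
    have hk : piL O π ^ j ≠ 0 := pow_ne_zero _ hπ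
    apply mul_left_cancel₀ hk
    linear_combination hab
  · right
    have hy : piL O π ^ (j - i) * inclL O b' * (inclL O a')⁻¹ ∈ gaussRing O res := by
      refine ⟨HahnSeries.C π ^ (j - i) * b', a', ha', ?_⟩
      rw [map_mul, map_pow, inclL_C_pi]
      field_simp
    refine ⟨⟨_, hy⟩, ?_, ?_⟩
    · rw [gaussRed_eq _ (HahnSeries.C π ^ (j - i) * b') a' ha'
        (by rw [map_mul, map_pow, inclL_C_pi]; field_simp)]
      rw [map_mul, map_pow, redL_C_pi h, zero_pow (by omega), zero_mul, zero_div]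
    · show x * (piL O π ^ (j - i) * inclL O b' * (inclL O a')⁻¹) = 1
      have hpow : piL O π ^ j = piL O π ^ i * piL O π ^ (j - i) := by
        rw [← pow_add]; congr 1; omega
      rw [hpow] at hab
      have hi : piL O π ^ i ≠ 0 := pow_ne_zero _ hπ
      have h2 : x * (piL O π ^ (j - i) * inclL O b') = inclL O a' := by
        apply mul_left_cancel₀ hi
        linear_combination hab
      rw [← mul_assoc, ← mul_assoc, mul_assoc x, h2, mul_inv_cancel₀ ha'0]

/-- Elements with nonzero reduction are units of the Gauss ring. -/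
theorem inv_mem_gaussRing_of_gaussRed_ne_zero (x : gaussRing O res)
    (hx : gaussRed O res x ≠ 0) : (x : LaurentSeries E)⁻¹ ∈ gaussRing O res := by
  have hnum : redL res (gaussNum x) ≠ 0 := by
    intro h0
    apply hx
    show redL res (gaussNum x) / redL res (gaussDen x) = 0
    rw [h0, zero_div]
  have hden : inclL O (gaussDen x) ≠ 0 := by
    intro h0
    apply redL_gaussDen_ne_zero x
    rw [inclL_injective O (h0.trans (map_zero _).symm), map_zero]
  have hnum' : inclL O (gaussNum x) ≠ 0 := by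
    intro h0
    apply hnum
    rw [inclL_injective O (h0.trans (map_zero _).symm), map_zero]
  have hx0 : (x : LaurentSeries E) ≠ 0 := by
    intro h0
    have := gauss_spec x
    rw [h0, zero_mul] at this
    exact hnum' this.symm
  refine ⟨gaussDen x, gaussNum x, hnum, ?_⟩
  rw [← gauss_spec x, ← mul_assoc, inv_mul_cancel₀ hx0, one_mul]

/-- `π · V` is a prime ideal of `V` (product form). -/
theorem mem_pi_mul_of_mul_mem (h : UnifData O res π) {x y : LaurentSeries E}
    (hx : x ∈ gaussRing O res) (hy : y ∈ gaussRing O res)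
    (hxy : ∃ w ∈ gaussRing O res, x * y = piL O π * w) :
    (∃ w ∈ gaussRing O res, x = piL O π * w) ∨ (∃ w ∈ gaussRing O res, y = piL O π * w) := by
  obtain ⟨w, hw, hxyw⟩ := hxy
  have h0 : gaussRed O res (⟨x, hx⟩ * ⟨y, hy⟩) = 0 :=
    (gaussRed_eq_zero_iff h _).mpr ⟨⟨w, hw⟩, hxyw⟩
  rw [map_mul] at h0
  rcases mul_eq_zero.mp h0 with h1 | h1
  · left
    obtain ⟨w', hw'⟩ := (gaussRed_eq_zero_iff h _).mp h1
    exact ⟨w', w'.2, hw'⟩
  · right
    obtain ⟨w', hw'⟩ := (gaussRed_eq_zero_iff h _).mp h1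
    exact ⟨w', w'.2, hw'⟩

theorem one_notMem_pi_mul (h : UnifData O res π) :
    ¬ ∃ w ∈ gaussRing O res, (1 : LaurentSeries E) = piL O π * w := by
  rintro ⟨w, hw, h1⟩
  have h0 : gaussRed O res (1 : gaussRing O res) = 0 :=
    (gaussRed_eq_zero_iff h _).mpr ⟨⟨w, hw⟩, h1⟩
  rw [map_one] at h0
  exact one_ne_zero h0

/-- The Gauss ring is integrally closed in the fraction field `gaussFrac`. -/
theorem mem_gaussRing_of_isIntegral (h : UnifData O res π) {x : LaurentSeries E}
    (hxF : x ∈ gaussFrac O) (hx : IsIntegral (gaussRing O res) x) : x ∈ gaussRing O res := by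
  rcases mem_gaussRing_or_inv h hxF with h1 | ⟨y, hy0, hxy⟩
  · exact h1
  exfalso
  have hx0 : x ≠ 0 := by
    rintro rfl
    simp at hxy
  have hyx : (y : LaurentSeries E) = x⁻¹ := by
    apply mul_left_cancel₀ hx0
    rw [hxy, mul_inv_cancel₀ hx0]
  obtain ⟨p, hmonic, hroot⟩ := hx
  let _ : Invertible x := invertibleOfNonzero hx0
  have h1 := Polynomial.eval₂_reverse_mul_pow (algebraMap (gaussRing O res) (LaurentSeries E)) x p
  rw [hroot] at h1
  have h2 : Polynomial.eval₂ (algebraMap (gaussRing O res) (LaurentSeries E)) (⅟x)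
      p.reverse = 0 := by
    rcases mul_eq_zero.mp h1 with h | h
    · exact h
    · exact absurd h (pow_ne_zero _ hx0)
  have h3 : (⅟x : LaurentSeries E) = algebraMap (gaussRing O res) (LaurentSeries E) y := by
    rw [invOf_eq_inv, ← hyx]; rfl
  rw [h3, Polynomial.eval₂_at_apply] at h2
  have h4 : Polynomial.eval y p.reverse = 0 := by
    have hinj : Function.Injective (algebraMap (gaussRing O res) (LaurentSeries E)) :=
      Subtype.val_injective
    exact hinj (by rw [h2, map_zero])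
  have h5 := congrArg (gaussRed O res) h4
  rw [map_zero, ← Polynomial.eval₂_id, Polynomial.hom_eval₂, hy0, Polynomial.eval₂_at_zero,
    RingHom.comp_apply, RingHom.id_apply, Polynomial.coeff_zero_reverse, hmonic.leadingCoeff,
    map_one] at h5
  exact one_ne_zero h5

/-- Integral closedness, for integrality over any ring mapping into the Gauss ring. -/
theorem mem_gaussRing_of_isIntegral' (h : UnifData O res π) {A : Type*} [CommRing A]
    [Algebra A (LaurentSeries E)]
    (hA : ∀ a : A, algebraMap A (LaurentSeries E) a ∈ gaussRing O res)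
    {x : LaurentSeries E} (hxF : x ∈ gaussFrac O) (hx : IsIntegral A x) :
    x ∈ gaussRing O res := by
  apply mem_gaussRing_of_isIntegral h hxF
  let f : A →+* gaussRing O res :=
    (algebraMap A (LaurentSeries E)).codRestrict (gaussRing O res) hA
  exact hx.map_of_comp_eq f (RingHom.id (LaurentSeries E)) (by ext; rfl)

/-! ### Transport along coefficientwise-compatible ring homomorphisms -/

/-- A ring endomorphism `f` of `E((t))` which restricts to `fO` on `O((t))`, where `fO`
preserves nonvanishing of the reduction, preserves the Gauss ring. -/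
theorem map_mem_gaussRing (f : LaurentSeries E →+* LaurentSeries E)
    (fO : LaurentSeries O → LaurentSeries O)
    (hf : ∀ a, f (inclL O a) = inclL O (fO a))
    (hred : ∀ b, redL res b ≠ 0 → redL res (fO b) ≠ 0)
    {x : LaurentSeries E} (hx : x ∈ gaussRing O res) : f x ∈ gaussRing O res := by
  obtain ⟨a, b, hb, hab⟩ := hx
  refine ⟨fO a, fO b, hred b hb, ?_⟩
  rw [← hf, ← hf, ← map_mul, hab]

/-- Same for the fraction field. -/
theorem map_mem_gaussFrac (f : LaurentSeries E →+* LaurentSeries E)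
    (fO : LaurentSeries O → LaurentSeries O)
    (hf : ∀ a, f (inclL O a) = inclL O (fO a))
    {x : LaurentSeries E} (hx : x ∈ gaussFrac O) : f x ∈ gaussFrac O := by
  obtain ⟨a, b, hb, hab⟩ := hx
  have hfb : fO b ≠ 0 := by
    intro h0
    have h1 : f (inclL O b) = 0 := by rw [hf, h0, map_zero]
    exact inclL_ne_zero O hb ((map_eq_zero f).mp h1)
  refine ⟨fO a, fO b, hfb, ?_⟩
  rw [← hf, ← hf, ← map_mul, hab]

/-! ### Twists `t ↦ c t` by units of `O` -/

/-- Coefficientwise twist on `O((t))`: `a_n ↦ c ^ n * a_n` for a unit `c` of `O`. -/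
def twistO (c : Oˣ) (a : LaurentSeries O) : LaurentSeries O where
  coeff n := ((c ^ n : Oˣ) : O) * a.coeff n
  isPWO_support' := a.isPWO_support.mono (by
    intro n hn
    simp only [Function.mem_support, ne_eq] at hn
    simp only [HahnSeries.mem_support, ne_eq]
    intro h0
    exact hn (by rw [h0, mul_zero]))

@[simp] theorem twistO_coeff (c : Oˣ) (a : LaurentSeries O) (n : ℤ) :
    (twistO c a).coeff n = ((c ^ n : Oˣ) : O) * a.coeff n := rfl

theorem redL_twistO_ne_zero (c : Oˣ) {b : LaurentSeries O} (hb : redL res b ≠ 0) :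
    redL res (twistO c b) ≠ 0 := by
  intro h0
  apply hb
  ext n
  have h1 := congrArg (fun x => x.coeff n) h0
  simp only [redL_coeff, twistO_coeff, map_mul, HahnSeries.coeff_zero] at h1 ⊢
  have hu : IsUnit (res ((c ^ n : Oˣ) : O)) := (Units.isUnit _).map res
  exact (hu.mul_right_eq_zero).mp h1

/-- Any ring endomorphism of `E((t))` acting on coefficients by `φ_n ↦ c ^ n φ_n`, for a unit `c`
of `O`, preserves the Gauss ring. -/
theorem twist_mem_gaussRing (c : Oˣ) (f : LaurentSeries E →+* LaurentSeries E)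
    (hf : ∀ (φ : LaurentSeries E) (n : ℤ), (f φ).coeff n = (((c ^ n : Oˣ) : O) : E) * φ.coeff n)
    {x : LaurentSeries E} (hx : x ∈ gaussRing O res) : f x ∈ gaussRing O res := by
  refine map_mem_gaussRing f (twistO c) ?_ (fun b hb => redL_twistO_ne_zero c hb) hx
  intro a
  ext n
  rw [hf]
  simp

theorem twist_mem_gaussFrac (c : Oˣ) (f : LaurentSeries E →+* LaurentSeries E)
    (hf : ∀ (φ : LaurentSeries E) (n : ℤ), (f φ).coeff n = (((c ^ n : Oˣ) : O) : E) * φ.coeff n)
    {x : LaurentSeries E} (hx : x ∈ gaussFrac O) : f x ∈ gaussFrac O := by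
  refine map_mem_gaussFrac f (twistO c) ?_ hx
  intro a
  ext n
  rw [hf]
  simp

/-! ### The Gauss property for polynomials in a series with a pole -/

/-- Evaluation of a polynomial with `O`-coefficients at a Laurent series over `O`. -/
def evO (J : LaurentSeries O) : Polynomial O →+* LaurentSeries O :=
  Polynomial.eval₂RingHom (HahnSeries.C : O →+* LaurentSeries O) J

theorem evO_apply (J : LaurentSeries O) (P : Polynomial O) :
    evO J P = P.eval₂ (HahnSeries.C : O →+* LaurentSeries O) J := rfl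

theorem redL_C (c : O) : redL res (HahnSeries.C c) = HahnSeries.C (res c) := by
  ext n
  by_cases hn : n = 0
  · subst hn; simp [HahnSeries.C_apply]
  · simp [HahnSeries.C_apply, HahnSeries.coeff_single_of_ne hn]

theorem redL_evO (J : LaurentSeries O) (P : Polynomial O) :
    redL res (evO J P) = Polynomial.aeval (redL res J) (P.map res) := by
  rw [evO_apply, Polynomial.hom_eval₂, Polynomial.aeval_def, Polynomial.eval₂_map]
  congr 1
  ext c : 1
  rw [RingHom.comp_apply, RingHom.comp_apply, redL_C, algebraMap_laurentSeries_eq_single]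
  rfl

/-- **Gauss property.** If the reduction of `J` has nonzero order, a polynomial in `J` with
`O`-coefficients whose reduction vanishes is divisible by `π` as a polynomial. -/
theorem exists_eq_C_mul_of_redL_evO_eq_zero (h : UnifData O res π) (J : LaurentSeries O)
    (hJ0 : redL res J ≠ 0) (hJo : (redL res J).order ≠ 0) (P : Polynomial O)
    (hP : redL res (evO J P) = 0) : ∃ P' : Polynomial O, P = Polynomial.C π * P' := by
  rw [redL_evO] at hP
  have h0 : P.map res = 0 := by
    by_contra hne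
    exact aeval_ne_zero_of_order_ne_zero hJ0 hJo hne hP
  have hmem : P ∈ Ideal.map (Polynomial.C : O →+* Polynomial O) (Ideal.span {π}) := by
    rw [Ideal.mem_map_C_iff]
    intro n
    have hn : res (P.coeff n) = 0 := by
      have := congrArg (fun Q => Q.coeff n) h0
      simpa using this
    obtain ⟨y, hy⟩ := (h.ker _).mp hn
    exact Ideal.mem_span_singleton'.mpr ⟨y, by rw [hy, mul_comm]⟩
  rw [Ideal.map_span, Set.image_singleton, Ideal.mem_span_singleton'] at hmem
  obtain ⟨P', hP'⟩ := hmem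
  exact ⟨P', by rw [← hP', mul_comm]⟩

/-- **Gauss property**, in the form used by the abstract core: if `π · w = P(J)` with `w` in
the Gauss ring, then `w = P'(J)` for some polynomial `P'` over `O`. -/
theorem exists_evO_eq_of_pi_mul_eq (h : UnifData O res π) (J : LaurentSeries O)
    (hJ0 : redL res J ≠ 0) (hJo : (redL res J).order ≠ 0) (P : Polynomial O)
    {w : LaurentSeries E} (hw : w ∈ gaussRing O res)
    (heq : piL O π * w = inclL O (evO J P)) : ∃ P' : Polynomial O, w = inclL O (evO J P') := by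
  have hred : redL res (evO J P) = 0 := by
    rw [← gaussRed_inclL (res := res)]
    exact (gaussRed_eq_zero_iff h _).mpr ⟨⟨w, hw⟩, heq.symm⟩
  obtain ⟨P', rfl⟩ := exists_eq_C_mul_of_redL_evO_eq_zero h J hJ0 hJo P hred
  refine ⟨P', ?_⟩
  apply mul_left_cancel₀ (piL_ne_zero h)
  rw [heq, map_mul, map_mul, ← inclL_C_pi]
  congr 2
  rw [evO_apply, Polynomial.eval₂_C]

end Ring

section Transport

variable {E₁ : Type*} [Field E₁] {O₁ : Subring E₁} {k₁ : Type*} [Field k₁] {res₁ : O₁ →+* k₁}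
  {E₂ : Type*} [Field E₂] {O₂ : Subring E₂} {k₂ : Type*} [Field k₂] {res₂ : O₂ →+* k₂}

/-- Transport between two Gauss rings along a ring homomorphism `F : E₁((t)) → E₂((t))` which
restricts to `FO : O₁((t)) → O₂((t))` preserving nonvanishing of the reduction. -/
theorem map_mem_gaussRing₂ (F : LaurentSeries E₁ →+* LaurentSeries E₂)
    (FO : LaurentSeries O₁ → LaurentSeries O₂)
    (hF : ∀ a, F (inclL O₁ a) = inclL O₂ (FO a))
    (hred : ∀ b, redL res₁ b ≠ 0 → redL res₂ (FO b) ≠ 0)
    {x : LaurentSeries E₁} (hx : x ∈ gaussRing O₁ res₁) : F x ∈ gaussRing O₂ res₂ := by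
  obtain ⟨a, b, hb, hab⟩ := hx
  refine ⟨FO a, FO b, hred b hb, ?_⟩
  rw [← hF, ← hF, ← map_mul, hab]

/-- Transport of the fraction fields. -/
theorem map_mem_gaussFrac₂ (F : LaurentSeries E₁ →+* LaurentSeries E₂)
    (FO : LaurentSeries O₁ → LaurentSeries O₂)
    (hF : ∀ a, F (inclL O₁ a) = inclL O₂ (FO a))
    {x : LaurentSeries E₁} (hx : x ∈ gaussFrac O₁) : F x ∈ gaussFrac O₂ := by
  obtain ⟨a, b, hb, hab⟩ := hx
  have hfb : FO b ≠ 0 := by
    intro h0
    have h1 : F (inclL O₁ b) = 0 := by rw [hF, h0, map_zero]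
    exact inclL_ne_zero O₁ hb ((map_eq_zero F).mp h1)
  refine ⟨FO a, FO b, hfb, ?_⟩
  rw [← hF, ← hF, ← map_mul, hab]

/-- Compatibility of the reductions under transport. -/
theorem gaussRed_map₂ (F : LaurentSeries E₁ →+* LaurentSeries E₂)
    (FO : LaurentSeries O₁ → LaurentSeries O₂) (Fk : LaurentSeries k₁ →+* LaurentSeries k₂)
    (hF : ∀ a, F (inclL O₁ a) = inclL O₂ (FO a))
    (hk : ∀ a, redL res₂ (FO a) = Fk (redL res₁ a))
    (x : gaussRing O₁ res₁) (hFx : F x ∈ gaussRing O₂ res₂) :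
    gaussRed O₂ res₂ ⟨F x, hFx⟩ = Fk (gaussRed O₁ res₁ x) := by
  have hb : redL res₂ (FO (gaussDen x)) ≠ 0 := by
    rw [hk]
    exact (map_ne_zero Fk).mpr (redL_gaussDen_ne_zero x)
  rw [gaussRed_eq ⟨F x, hFx⟩ (FO (gaussNum x)) (FO (gaussDen x)) hb
    (by rw [← hF, ← hF, ← map_mul, gauss_spec]), hk, hk]
  show _ = Fk (redL res₁ (gaussNum x) / redL res₁ (gaussDen x))
  rw [map_div₀]

end Transport

end Fermat.Agent.S28.H86

end
end
-- ===== PACK-END S28/H86/GaussGen.lean

-- ===== PACK-BEGIN A2/Alg/Spec.lean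
section


/-!
# WALL A2 / ALG — frozen sub-interfaces (architect helper34), Mathlib-only

Decomposition of `Fermat.Agent.A2.algSS` (statement in `Fermat/Agent/A2/Skel.lean`, row-lead
helper13).  This file contains ONLY definitions (no `sorry`).  The exact theorem statements of the
sub-pieces are in `Fermat/Agent/A2/Alg/Skel.lean`; the board is `coord/A2-ALG.md` (origin/helper34).

Notation: `R` henselian DVR, uniformiser `w`, `E = Frac R`, `F / E` the function field,
`B ⊆ F` a chart (integral closure of `R[x]` or `R[x⁻¹]`), `c : SSChart w B` its two components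
`p₁`, `p₂`; `V_i := B_{p_i}` (a DVR with uniformiser `w`).

Elementwise local conditions (no localisation types, everything is a statement about elements
of `F`):

* `LocUnit B n u`   : `u ∈ (B_n)ˣ`            (`u = a / b`, `a, b ∈ B ∖ n`);
* `LocOne B n I u`  : `u ∈ 1 + I · B_n`       (`u = a / b`, `b ∉ n`, `a - b ∈ I`);
* `OneAt B p u`     : `u ∈ 1 + p B_p`         (`u ≡ 1` on the component `p`);
* `ConstAt B p u`   : `u ∈ c · (1 + p B_p)` for a unit `c` of `R` (`u` is a unit on the component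
                      `p`, with CONSTANT residue);
* `IsSplit B c u`   : `ConstAt` on both components of the chart;
* `LocalFactor B c m u n` : local factorisation of the Kummer problem `Y ^ m = u` at the closed
                      point `n` of the special fibre.
* `ChartCtx`, `TauCtx` : the standing hypotheses of `algSS`, bundled (one chart).
-/

set_option autoImplicit false

namespace Fermat.Agent.A2.Alg

section Defs

variable {R F : Type*} [CommRing R] [Field F] [Algebra R F]

/-- `u` is a unit of the localisation `B_n`: `u = a / b` with `a, b ∈ B ∖ n`. -/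
def LocUnit (B : Subalgebra R F) (n : Ideal B) (u : F) : Prop :=
  ∃ a b : B, a ∉ n ∧ b ∉ n ∧ u * (b : F) = (a : F)

/-- `u ∈ 1 + I · B_n`: `u = a / b` with `b ∉ n` and `a - b ∈ I`. -/
def LocOne (B : Subalgebra R F) (n I : Ideal B) (u : F) : Prop :=
  ∃ a b : B, b ∉ n ∧ a - b ∈ I ∧ u * (b : F) = (a : F)

/-- `u ≡ 1` on the component `p` (`u ∈ 1 + p B_p`). -/
def OneAt (B : Subalgebra R F) (p : Ideal B) (u : F) : Prop :=
  LocOne B p p u

/-- `u` is a unit on the component `p` with constant residue: `u = a / b`, `b ∉ p`,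
`a - c b ∈ p` for a unit `c` of `R`. -/
def ConstAt (B : Subalgebra R F) (p : Ideal B) (u : F) : Prop :=
  ∃ c : R, IsUnit c ∧ ∃ a b : B, b ∉ p ∧ a - algebraMap R B c * b ∈ p ∧ u * (b : F) = (a : F)

/-- `u` has constant (unit) residue on both components of the chart. -/
def IsSplit {w : R} (B : Subalgebra R F) (c : SSChart w B) (u : F) : Prop :=
  ConstAt B c.p₁ u ∧ ConstAt B c.p₂ u

/-- The two components are incomparable (both are minimal primes over `w`, i.e. both are curves).
`SSChart` only records `p₁ ≠ p₂`, which also allows the degenerate case `p₁ = (w) ⊊ p₂`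
(good reduction, `p₂` a closed point). -/
def Incomparable {w : R} {B : Subalgebra R F} (c : SSChart w B) : Prop :=
  ¬ c.p₁ ≤ c.p₂ ∧ ¬ c.p₂ ≤ c.p₁

/-- **Purity datum at a closed point `n`** for `u`: `u · d ^ m` is a unit of `B_n`, and `d` is a
unit on both components. -/
def PureAt {w : R} (B : Subalgebra R F) (c : SSChart w B) (m : ℕ) (u : F) (n : Ideal B) : Prop :=
  ∃ d : F, d ≠ 0 ∧ LocUnit B n (u * d ^ m) ∧ LocUnit B c.p₁ d ∧ LocUnit B c.p₂ d

/-- **Local factorisation at a closed point `n`** of the special fibre of the chart `B`, for the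
Kummer problem `Y ^ m = u`:  there is `h ∈ Fˣ` with `u · h ^ m ∈ 1 + w B_n` and `h ≡ 1` on both
components.
(Then `B_n[Y]/(Y^m - u h^m)` is finite étale over `B_n` with canonically split special fibre, and
the sheet `Y h ≡ 1` is the same on the two branches through `n`.) -/
def LocalFactor {w : R} (B : Subalgebra R F) (c : SSChart w B) (m : ℕ) (u : F)
    (n : Ideal B) : Prop :=
  ∃ h : F, h ≠ 0 ∧ LocOne B n (Ideal.span {algebraMap R B w}) (u * h ^ m) ∧
    OneAt B c.p₁ h ∧ OneAt B c.p₂ h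

/-- Local factorisations at ALL closed points of the special fibre of the chart `B`. -/
def LocallyFactored {w : R} (B : Subalgebra R F) (c : SSChart w B) (m : ℕ) (u : F) : Prop :=
  ∀ n : Ideal B, n.IsMaximal → algebraMap R B w ∈ n → LocalFactor B c m u n

end Defs

section Ctx

variable {R E F : Type*} [CommRing R] [Field E] [Algebra R E] [Field F] [Algebra E F]
  [Algebra R F]

/-- The standing hypotheses of `algSS` on ONE chart `B` with coordinate `x`
(`(x, B) = (x, Bf)` or `(x⁻¹, Bi)`). -/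
structure ChartCtx (E : Type*) [Field E] [Algebra R E] [Algebra E F] (w : R) (x : F)
    (B : Subalgebra R F) : Prop where
  hw : Irreducible w
  hx : Transcendental E x
  hfin : FiniteDimensional (IntermediateField.adjoin E ({x} : Set F)) F
  hconst : ∀ f : F, IsAlgebraic E f → f ∈ (algebraMap E F).range
  hB : ∀ f : F, f ∈ B ↔ IsIntegral (Algebra.adjoin R ({x} : Set F)) f

/-- The standing hypotheses of `algSS` on the semilinear automorphism `τ`, on one chart. -/
structure TauCtx (w : R) (B : Subalgebra R F) (τ : F ≃+* F) (τE : E ≃+* E) (τR : R ≃+* R) :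
    Prop where
  hτE : ∀ e : E, τ (algebraMap E F e) = algebraMap E F (τE e)
  hτR : ∀ r : R, τE (algebraMap R E r) = algebraMap R E (τR r)
  hτB : ∀ b ∈ B, ∃ c ∈ B, τ b - b = algebraMap R F w * c

end Ctx

end Fermat.Agent.A2.Alg

end
-- ===== PACK-END A2/Alg/Spec.lean

-- ===== PACK-BEGIN A2/Mod/H372/Side.lean
section




/-!
# A2 / MODASM S3, generic part (helper372): one side of the Kronecker correspondence

Mathlib + `H48.IsUnif` only.  `V₁ ⊆ F₁`, `V₂ ⊆ F₂` valuation subrings with uniformisers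
`ϖ₁`, `ϖ₂`; `φ : F₁ →+* F₂` maps `V₁` into `V₂`, `ϖ₁` to `ϖ₂` and reflects integrality
(`φ x ∈ V₂ → x ∈ V₁`); `A ⊆ V₁` a subring which is "normal modulo `ϖ₁`" in the elementwise form
of `Mod.GoodRedAt.normal`; the residue characteristic of `V₂` is `q`.  (`SideData`.)

* `SideData.cong` : if `ψ : F₁ →+* F₂` satisfies the semilinear Kronecker congruence
  `ψ a ≡ (φ a') ^ q mod ϖ₂ V₂` on `V₁` (leaf L12) and `A` is integral over `R[y]` with
  `ψ = φ` on `R` and `ψ y ≡ (φ y) ^ q`, then the congruence is solvable inside `A`;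
* `SideData.surj` : if `V₂ = φ(V₁) + ϖ₂ V₂` (leaf L11), then every element `b` integral over
  `R[y₂]`, `y₂ ≡ φ a`, is congruent to `φ a`, `a ∈ A`, modulo `ϖ₂ V₂`.
-/

set_option autoImplicit false
set_option linter.style.haveILetI false

noncomputable section

namespace Fermat.Agent.A2.Mod.H372

open Polynomial

/-! ## Valuation subrings with a uniformiser (elementwise) -/

section Unif

variable {F : Type*} [Field F] {V : ValuationSubring F} {ϖ : F}

theorem mem_of_mul_inv_mem (hu : H48.IsUnif V ϖ) {x : F} (hx : x * ϖ⁻¹ ∈ V) : x ∈ V := by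
  have : x = x * ϖ⁻¹ * ϖ := by
    rw [mul_assoc, inv_mul_cancel₀ hu.ne_zero, mul_one]
  rw [this]
  exact V.mul_mem _ _ hx hu.mem

/-- `x ∈ ϖ V` iff the residue class of `x` vanishes. -/
theorem residue_eq_zero_iff (hu : H48.IsUnif V ϖ) (x : V) :
    IsLocalRing.residue V x = 0 ↔ (x : F) * ϖ⁻¹ ∈ V := by
  rw [IsLocalRing.residue_eq_zero_iff, IsLocalRing.mem_maximalIdeal, mem_nonunits_iff]
  constructor
  · intro hx
    rcases eq_or_ne (x : F) 0 with h0 | h0
    · rw [h0, zero_mul]; exact V.zero_mem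
    · refine hu.gen _ x.2 (fun hinv => hx ?_)
      exact isUnit_iff_exists_inv.mpr ⟨⟨_, hinv⟩, Subtype.ext (mul_inv_cancel₀ h0)⟩
  · intro hx hunit
    obtain ⟨y, hy⟩ := isUnit_iff_exists_inv.mp hunit
    have hy' : (x : F) * (y : F) = 1 := congrArg Subtype.val hy
    apply hu.inv_not_mem
    have : ϖ⁻¹ = (x : F) * ϖ⁻¹ * y := by
      rw [mul_right_comm, hy', one_mul]
    rw [this]
    exact V.mul_mem _ _ hx y.2

theorem residue_eq_iff (hu : H48.IsUnif V ϖ) (x y : V) :
    IsLocalRing.residue V x = IsLocalRing.residue V y ↔ ((x : F) - y) * ϖ⁻¹ ∈ V := by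
  rw [← sub_eq_zero, ← _root_.map_sub, residue_eq_zero_iff hu]
  rfl

end Unif

/-! ## One side -/

section Side

variable {F₁ F₂ : Type*} [Field F₁] [Field F₂]

/-- The residue of a ring homomorphism mapping `V₁` into `V₂`. -/
def resHom (V₁ : ValuationSubring F₁) (V₂ : ValuationSubring F₂) (φ : F₁ →+* F₂)
    (hφ : ∀ x ∈ V₁, φ x ∈ V₂) : V₁ →+* IsLocalRing.ResidueField V₂ :=
  (IsLocalRing.residue V₂).comp ((φ.comp V₁.subtype).codRestrict V₂ (fun x => hφ x x.2))

theorem resHom_apply (V₁ : ValuationSubring F₁) (V₂ : ValuationSubring F₂) (φ : F₁ →+* F₂)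
    (hφ : ∀ x ∈ V₁, φ x ∈ V₂) (x : V₁) :
    resHom V₁ V₂ φ hφ x = IsLocalRing.residue V₂ ⟨φ x, hφ x x.2⟩ := rfl

/-- The hypotheses on one side of the correspondence. -/
structure SideData (V₁ : ValuationSubring F₁) (V₂ : ValuationSubring F₂) (ϖ₁ : F₁) (ϖ₂ : F₂)
    (φ : F₁ →+* F₂) (q : ℕ) (A : Subring F₁) : Prop where
  unif₁ : H48.IsUnif V₁ ϖ₁
  unif₂ : H48.IsUnif V₂ ϖ₂
  map_mem : ∀ x ∈ V₁, φ x ∈ V₂
  map_unif : φ ϖ₁ = ϖ₂
  refl : ∀ x, φ x ∈ V₂ → x ∈ V₁
  prime : q.Prime
  q_mem : (q : F₂) * ϖ₂⁻¹ ∈ V₂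
  le : ∀ a ∈ A, a ∈ V₁
  normal : ∀ f ∈ V₁, (∃ (n : ℕ) (c : Fin n → F₁), (∀ i, c i ∈ A) ∧
      (f ^ n + ∑ i : Fin n, c i * f ^ (i : ℕ)) * ϖ₁⁻¹ ∈ V₁) → ∃ b ∈ A, (f - b) * ϖ₁⁻¹ ∈ V₁

namespace SideData

variable {V₁ : ValuationSubring F₁} {V₂ : ValuationSubring F₂} {ϖ₁ : F₁} {ϖ₂ : F₂}
  {φ : F₁ →+* F₂} {q : ℕ} {A : Subring F₁}

/-- The inclusion `A → V₁`. -/
def incl (h : SideData V₁ V₂ ϖ₁ ϖ₂ φ q A) : A →+* V₁ :=
  (A.subtype).codRestrict V₁ (fun a => h.le a a.2)

theorem coe_incl (h : SideData V₁ V₂ ϖ₁ ϖ₂ φ q A) (a : A) : ((h.incl a : V₁) : F₁) = a := rfl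

/-- The reduction of `φ`. -/
def red (h : SideData V₁ V₂ ϖ₁ ϖ₂ φ q A) : V₁ →+* IsLocalRing.ResidueField V₂ :=
  resHom V₁ V₂ φ h.map_mem

theorem red_eq_zero_iff (h : SideData V₁ V₂ ϖ₁ ϖ₂ φ q A) (x : V₁) :
    h.red x = 0 ↔ (x : F₁) * ϖ₁⁻¹ ∈ V₁ := by
  rw [red, resHom_apply, residue_eq_zero_iff h.unif₂]
  have e : φ ((x : F₁) * ϖ₁⁻¹) = φ x * ϖ₂⁻¹ := by rw [_root_.map_mul, map_inv₀, h.map_unif]
  constructor
  · intro hx
    exact h.refl _ (by rw [e]; exact hx)
  · intro hx
    have := h.map_mem _ hx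
    rwa [e] at this

theorem red_eq_iff (h : SideData V₁ V₂ ϖ₁ ϖ₂ φ q A) (x y : V₁) :
    h.red x = h.red y ↔ ((x : F₁) - y) * ϖ₁⁻¹ ∈ V₁ := by
  rw [← sub_eq_zero, ← _root_.map_sub, h.red_eq_zero_iff]
  rfl

theorem charP (h : SideData V₁ V₂ ϖ₁ ϖ₂ φ q A) : CharP (IsLocalRing.ResidueField V₂) q := by
  rw [CharP.charP_iff_prime_eq_zero h.prime]
  have h1 : ((q : ℕ) : IsLocalRing.ResidueField V₂) = IsLocalRing.residue V₂ ((q : ℕ) : V₂) :=
    (_root_.map_natCast (IsLocalRing.residue V₂) q).symm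
  rw [h1, residue_eq_zero_iff h.unif₂]
  exact h.q_mem

/-- `GoodRedAt.normal` in residue form. -/
theorem normal_red (h : SideData V₁ V₂ ϖ₁ ϖ₂ φ q A) (s : V₁)
    (hs : (h.red.comp h.incl).IsIntegralElem (h.red s)) : ∃ a : A, h.red s = h.red (h.incl a) := by
  obtain ⟨p, hp, hps⟩ := hs
  have h0 : h.red (p.eval₂ h.incl s) = 0 := by
    rw [Polynomial.hom_eval₂]
    exact hps
  rw [h.red_eq_zero_iff] at h0
  -- the explicit monic relation
  have hsum : ((p.eval₂ h.incl s : V₁) : F₁) =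
      (s : F₁) ^ p.natDegree + ∑ i : Fin p.natDegree, ((p.coeff i : A) : F₁) * (s : F₁) ^ (i : ℕ) := by
    have h1 : ((p.eval₂ h.incl s : V₁) : F₁) = p.eval₂ (A.subtype) (s : F₁) := by
      have := Polynomial.hom_eval₂ p h.incl V₁.subtype s
      exact this
    rw [h1]
    conv_lhs => rw [hp.as_sum]
    rw [Polynomial.eval₂_add, Polynomial.eval₂_pow, Polynomial.eval₂_X, Polynomial.eval₂_finsetSum,
      Finset.sum_range]
    congr 1
    refine Finset.sum_congr rfl (fun i _ => ?_)
    rw [Polynomial.eval₂_mul, Polynomial.eval₂_C, Polynomial.eval₂_pow, Polynomial.eval₂_X]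
    rfl
  rw [hsum] at h0
  obtain ⟨b, hb, hsb⟩ := h.normal s s.2 ⟨p.natDegree, fun i => ((p.coeff i : A) : F₁),
    fun i => (p.coeff i).2, h0⟩
  refine ⟨⟨b, hb⟩, ?_⟩
  rw [h.red_eq_iff]
  exact hsb

/-- **Kronecker congruence inside the chart.** -/
theorem cong (h : SideData V₁ V₂ ϖ₁ ϖ₂ φ q A) (ψ : F₁ →+* F₂) (hψ : ∀ x ∈ V₁, ψ x ∈ V₂)
    (hK : ∀ a ∈ V₁, ∃ a' ∈ V₁, (ψ a - (φ a') ^ q) * ϖ₂⁻¹ ∈ V₂)
    {R : Type*} [CommRing R] (c : R →+* F₁) (y : F₁)
    (hA : ∀ a ∈ A, (Polynomial.eval₂RingHom c y).IsIntegralElem a)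
    (hcA : ∀ r, c r ∈ A) (hyA : y ∈ A)
    (hc : ∀ r, ψ (c r) = φ (c r)) (hy : (ψ y - (φ y) ^ q) * ϖ₂⁻¹ ∈ V₂) :
    ∀ a ∈ A, ∃ a' ∈ A, (ψ a - (φ a') ^ q) * ϖ₂⁻¹ ∈ V₂ := by
  haveI : Fact q.Prime := ⟨h.prime⟩
  haveI := h.charP
  haveI : ExpChar (IsLocalRing.ResidueField V₂) q := ExpChar.prime h.prime
  set g : V₁ →+* IsLocalRing.ResidueField V₂ := resHom V₁ V₂ ψ hψ with hg
  set cA : R →+* A := c.codRestrict A hcA with hcA'
  set yA : A := ⟨y, hyA⟩ with hyA'
  have hcomp : (A.subtype).comp (Polynomial.eval₂RingHom cA yA) = Polynomial.eval₂RingHom c y := by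
    apply Polynomial.ringHom_ext
    · intro r
      simp [cA]
    · simp [yA]
  have key : ∀ x y' : V₁, g x = (h.red y') ^ q ↔ (ψ x - (φ y') ^ q) * ϖ₂⁻¹ ∈ V₂ := by
    intro x y'
    rw [hg, red, resHom_apply, resHom_apply, ← _root_.map_pow, residue_eq_iff h.unif₂]
    rfl
  have main := exists_eq_pow_of_normal q h.red g h.incl h.normal_red
    (fun s => by
      obtain ⟨a', ha', haa'⟩ := hK s s.2
      exact ⟨⟨a', ha'⟩, (key s ⟨a', ha'⟩).mpr haa'⟩)
    cA yA
    (fun a => by
      obtain ⟨p, hp, hpa⟩ := hA a a.2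
      refine ⟨p, hp, Subtype.ext ?_⟩
      have := Polynomial.hom_eval₂ p (Polynomial.eval₂RingHom cA yA) A.subtype a
      rw [hcomp] at this
      rw [ZeroMemClass.coe_zero, ← hpa]
      exact this)
    (fun r => by
      rw [hg, red, resHom_apply, resHom_apply]
      congr 1
      exact Subtype.ext (hc r))
    ((key _ _).mpr hy)
  intro a ha
  obtain ⟨a', ha'⟩ := main ⟨a, ha⟩
  exact ⟨a', a'.2, (key _ _).mp ha'⟩

/-- **Residue degree one on the chart.** -/
theorem surj (h : SideData V₁ V₂ ϖ₁ ϖ₂ φ q A)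
    (hres : ∀ b ∈ V₂, ∃ s ∈ V₁, (b - φ s) * ϖ₂⁻¹ ∈ V₂)
    {R : Type*} [CommRing R] (c : R →+* F₂) (y : F₂)
    (hcV : ∀ r, c r ∈ V₂) (hyV : y ∈ V₂)
    (hc : ∀ r, ∃ a ∈ A, (c r - φ a) * ϖ₂⁻¹ ∈ V₂) (hy : ∃ a ∈ A, (y - φ a) * ϖ₂⁻¹ ∈ V₂) :
    ∀ b : F₂, (Polynomial.eval₂RingHom c y).IsIntegralElem b →
      b ∈ V₂ ∧ ∃ a ∈ A, (b - φ a) * ϖ₂⁻¹ ∈ V₂ := by
  set cV : R →+* V₂ := c.codRestrict V₂ hcV with hcV'
  set yV : V₂ := ⟨y, hyV⟩ with hyV'
  have hcomp : (V₂.subtype).comp (Polynomial.eval₂RingHom cV yV) = Polynomial.eval₂RingHom c y := by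
    apply Polynomial.ringHom_ext
    · intro r
      simp [cV]
    · simp [yV]
  -- the integral closure of `R[y]` in `V₂`
  have hmemV : ∀ b : F₂, (Polynomial.eval₂RingHom c y).IsIntegralElem b → b ∈ V₂ := by
    intro b hb
    have hint : IsIntegral V₂ b := by
      obtain ⟨p, hp, hpb⟩ := hb
      refine ⟨p.map (Polynomial.eval₂RingHom cV yV), hp.map _, ?_⟩
      rw [Polynomial.eval₂_map]
      have : (algebraMap V₂ F₂).comp (Polynomial.eval₂RingHom cV yV) =
          Polynomial.eval₂RingHom c y := hcomp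
      rw [this]
      exact hpb
    obtain ⟨v, hv⟩ := (IsIntegrallyClosed.isIntegral_iff (R := V₂) (K := F₂)).mp hint
    rw [← hv]
    exact v.2
  have key : ∀ (x : V₂) (a : V₁), IsLocalRing.residue V₂ x = h.red a ↔
      ((x : F₂) - φ a) * ϖ₂⁻¹ ∈ V₂ := by
    intro x a
    rw [red, resHom_apply, residue_eq_iff h.unif₂]
  have main := exists_eq_of_normal h.red h.incl h.normal_red (IsLocalRing.residue V₂)
    (fun b => by
      obtain ⟨s, hs, hbs⟩ := hres b b.2
      exact ⟨⟨s, hs⟩, (key b ⟨s, hs⟩).mpr hbs⟩)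
    cV yV
    (fun r => by
      obtain ⟨a, ha, hra⟩ := hc r
      exact ⟨⟨a, ha⟩, (key (cV r) (h.incl ⟨a, ha⟩)).mpr hra⟩)
    (by
      obtain ⟨a, ha, hya⟩ := hy
      exact ⟨⟨a, ha⟩, (key yV (h.incl ⟨a, ha⟩)).mpr hya⟩)
  intro b hb
  have hbV := hmemV b hb
  refine ⟨hbV, ?_⟩
  have hb' : (Polynomial.eval₂RingHom cV yV).IsIntegralElem (⟨b, hbV⟩ : V₂) := by
    obtain ⟨p, hp, hpb⟩ := hb
    refine ⟨p, hp, Subtype.ext ?_⟩
    have := Polynomial.hom_eval₂ p (Polynomial.eval₂RingHom cV yV) V₂.subtype ⟨b, hbV⟩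
    rw [hcomp] at this
    rw [ZeroMemClass.coe_zero, ← hpb]
    exact this
  obtain ⟨a, ha⟩ := main ⟨b, hbV⟩ hb'
  exact ⟨a, a.2, (key ⟨b, hbV⟩ (h.incl a)).mp ha⟩

end SideData

end Side

end Fermat.Agent.A2.Mod.H372

end
end
-- ===== PACK-END A2/Mod/H372/Side.lean

-- ===== PACK-BEGIN S18/H754/IntLoc.lean
section


/-!
# S18 / Route K / étale Kummer cover: the ring `O'` (integral closure of `B_(ϖ)`) elementwise
-/

set_option autoImplicit false

noncomputable section

namespace Fermat.Agent.S18.H754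

section IntLoc

variable {B : Type*} [CommRing B] {F' : Type*} [Field F'] [Algebra B F']

/-- The ring `O'` of elements of `F'` which become integral over `B` after multiplication by
some `s ∈ B ∖ ϖB` (the integral closure of `B_(ϖ)` in `F'`). -/
def Oloc (ϖ : B) (hϖ : Prime ϖ) : Subring F' where
  carrier := {y | ∃ s : B, s ∉ Ideal.span {ϖ} ∧ IsIntegral B (algebraMap B F' s * y)}
  mul_mem' := by
    rintro x y ⟨s, hs, hx⟩ ⟨s', hs', hy⟩
    refine ⟨s * s', ?_, ?_⟩
    · intro h
      rw [Ideal.mem_span_singleton] at h hs hs'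
      rcases hϖ.dvd_or_dvd h with h | h
      · exact hs h
      · exact hs' h
    · have e : algebraMap B F' (s * s') * (x * y) =
          (algebraMap B F' s * x) * (algebraMap B F' s' * y) := by
        rw [map_mul]; ring
      rw [e]
      exact hx.mul hy
  one_mem' := by
    refine ⟨1, ?_, ?_⟩
    · rw [Ideal.mem_span_singleton]
      exact fun h => hϖ.not_unit (isUnit_of_dvd_one h)
    · rw [map_one, mul_one]
      exact isIntegral_one
  add_mem' := by
    rintro x y ⟨s, hs, hx⟩ ⟨s', hs', hy⟩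
    refine ⟨s * s', ?_, ?_⟩
    · intro h
      rw [Ideal.mem_span_singleton] at h hs hs'
      rcases hϖ.dvd_or_dvd h with h | h
      · exact hs h
      · exact hs' h
    · have h1 : IsIntegral B (algebraMap B F' s' * (algebraMap B F' s * x)) :=
        (isIntegral_algebraMap).mul hx
      have h2 : IsIntegral B (algebraMap B F' s * (algebraMap B F' s' * y)) :=
        (isIntegral_algebraMap).mul hy
      have e : algebraMap B F' (s * s') * (x + y) =
          algebraMap B F' s' * (algebraMap B F' s * x) +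
            algebraMap B F' s * (algebraMap B F' s' * y) := by
        rw [map_mul]; ring
      rw [e]
      exact h1.add h2
  zero_mem' := by
    refine ⟨1, ?_, ?_⟩
    · rw [Ideal.mem_span_singleton]
      exact fun h => hϖ.not_unit (isUnit_of_dvd_one h)
    · rw [mul_zero]
      exact isIntegral_zero
  neg_mem' := by
    rintro x ⟨s, hs, hx⟩
    refine ⟨s, hs, ?_⟩
    rw [mul_neg]
    exact hx.neg

lemma mem_Oloc {ϖ : B} {hϖ : Prime ϖ} {y : F'} :
    y ∈ Oloc (F' := F') ϖ hϖ ↔
      ∃ s : B, s ∉ Ideal.span {ϖ} ∧ IsIntegral B (algebraMap B F' s * y) := Iff.rfl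

lemma mem_Oloc_of_isIntegral {ϖ : B} (hϖ : Prime ϖ) {y : F'} (hy : IsIntegral B y) :
    y ∈ Oloc (F' := F') ϖ hϖ := by
  refine ⟨1, ?_, ?_⟩
  · rw [Ideal.mem_span_singleton]
    exact fun h => hϖ.not_unit (isUnit_of_dvd_one h)
  · rw [map_one, one_mul]
    exact hy

lemma algebraMap_mem_Oloc {ϖ : B} (hϖ : Prime ϖ) (b : B) :
    algebraMap B F' b ∈ Oloc (F' := F') ϖ hϖ :=
  mem_Oloc_of_isIntegral hϖ isIntegral_algebraMap

/-- `ϖ O'` in terms of `O'`. -/
lemma inPiO_iff [FaithfulSMul B F'] {ϖ : B} (hϖ : Prime ϖ) {y : F'} :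
    InPiO ϖ y ↔ ∃ y' ∈ Oloc (F' := F') ϖ hϖ, y = algebraMap B F' ϖ * y' := by
  have hinj : Function.Injective (algebraMap B F') := FaithfulSMul.algebraMap_injective B F'
  constructor
  · rintro ⟨s, hs, c, hc, h⟩
    have hs0 : algebraMap B F' s ≠ 0 := by
      intro h0
      apply hs
      have : s = 0 := hinj (by rw [h0, map_zero])
      rw [this]
      exact Ideal.zero_mem _
    refine ⟨c / algebraMap B F' s, ⟨s, hs, ?_⟩, ?_⟩
    · rw [mul_div_cancel₀ _ hs0]
      exact hc
    · field_simp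
      rw [mul_comm]
      exact h
  · rintro ⟨y', ⟨s, hs, hy'⟩, rfl⟩
    exact ⟨s, hs, _, hy', by ring⟩

lemma InPiO.add [FaithfulSMul B F'] {ϖ : B} (hϖ : Prime ϖ) {x y : F'}
    (hx : InPiO ϖ x) (hy : InPiO ϖ y) : InPiO ϖ (x + y) := by
  rw [inPiO_iff hϖ] at hx hy ⊢
  obtain ⟨x', hx', rfl⟩ := hx
  obtain ⟨y', hy', rfl⟩ := hy
  exact ⟨x' + y', add_mem hx' hy', by ring⟩

lemma InPiO.neg [FaithfulSMul B F'] {ϖ : B} (hϖ : Prime ϖ) {x : F'}
    (hx : InPiO ϖ x) : InPiO ϖ (-x) := by
  rw [inPiO_iff hϖ] at hx ⊢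
  obtain ⟨x', hx', rfl⟩ := hx
  exact ⟨-x', neg_mem hx', by ring⟩

lemma InPiO.sub [FaithfulSMul B F'] {ϖ : B} (hϖ : Prime ϖ) {x y : F'}
    (hx : InPiO ϖ x) (hy : InPiO ϖ y) : InPiO ϖ (x - y) := by
  rw [sub_eq_add_neg]
  exact hx.add hϖ (hy.neg hϖ)

lemma InPiO.mul_left [FaithfulSMul B F'] {ϖ : B} (hϖ : Prime ϖ) {x y : F'}
    (hx : x ∈ Oloc (F' := F') ϖ hϖ) (hy : InPiO ϖ y) : InPiO ϖ (x * y) := by
  rw [inPiO_iff hϖ] at hy ⊢
  obtain ⟨y', hy', rfl⟩ := hy
  exact ⟨x * y', mul_mem hx hy', by ring⟩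

lemma InPiO.mul_right [FaithfulSMul B F'] {ϖ : B} (hϖ : Prime ϖ) {x y : F'}
    (hx : InPiO ϖ x) (hy : y ∈ Oloc (F' := F') ϖ hϖ) : InPiO ϖ (x * y) := by
  rw [mul_comm]
  exact hx.mul_left hϖ hy

lemma InPiO.zero [FaithfulSMul B F'] {ϖ : B} (hϖ : Prime ϖ) : InPiO ϖ (0 : F') := by
  rw [inPiO_iff hϖ]
  exact ⟨0, zero_mem _, by ring⟩

lemma InPiO.sum [FaithfulSMul B F'] {ϖ : B} (hϖ : Prime ϖ) {ι : Type*} (s : Finset ι)
    (f : ι → F') (h : ∀ i ∈ s, InPiO ϖ (f i)) : InPiO ϖ (∑ i ∈ s, f i) := by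
  classical
  induction s using Finset.induction_on with
  | empty => simpa using InPiO.zero hϖ
  | insert a s ha ih =>
    rw [Finset.sum_insert ha]
    exact (h a (Finset.mem_insert_self a s)).add hϖ
      (ih fun i hi => h i (Finset.mem_insert_of_mem hi))

/-- `x ≡ y mod ϖ O'` implies `x ^ a ≡ y ^ a`. -/
lemma InPiO.pow_sub_pow [FaithfulSMul B F'] {ϖ : B} (hϖ : Prime ϖ) {x y : F'}
    (hx : x ∈ Oloc (F' := F') ϖ hϖ) (hy : y ∈ Oloc (F' := F') ϖ hϖ)
    (h : InPiO ϖ (x - y)) (a : ℕ) : InPiO ϖ (x ^ a - y ^ a) := by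
  have h1 : x ^ a - y ^ a = (∑ i ∈ Finset.range a, x ^ i * y ^ (a - 1 - i)) * (x - y) :=
    (Commute.all x y).geom_sum₂_mul a |>.symm
  rw [h1]
  refine h.mul_left hϖ ?_
  exact sum_mem fun i _ => mul_mem (pow_mem hx _) (pow_mem hy _)

end IntLoc

end Fermat.Agent.S18.H754

end

end
-- ===== PACK-END S18/H754/IntLoc.lean

-- ===== PACK-BEGIN A2/H609/Multiplicity.lean
section



/-!
# Node purity, part 3: the multiplicity identity

`R` integrally closed noetherian domain, `u π : R`, `u` regular modulo `π`, `ℓ(R/(u,π)) < ∞`.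
If `t ^ m = u * r` with `π ^ k ∈ (u, r)` (i.e. `t` generates the root ideal `I = I_1` at every
"horizontal" prime through `u`), then

  `ℓ(R / ((u) + (π))) = m • ℓ(R / (I + (π)))`.

Mathlib only.
-/

set_option autoImplicit false

namespace Fermat.Agent.A2.H609

open Ideal

variable {R : Type*} [CommRing R]

section Basic

variable [IsDomain R]

/-- `u` regular mod `π` implies `π` regular mod `u` (in a domain). -/
theorem dvd_of_dvd_mul_of_reg {u π : R} (hπ0 : π ≠ 0) (hreg : ∀ x : R, π ∣ u * x → π ∣ x)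
    {z : R} (h : u ∣ π * z) : u ∣ z := by
  obtain ⟨w, hw⟩ := h
  obtain ⟨w', hw'⟩ := hreg w ⟨z, hw.symm⟩
  refine ⟨w', ?_⟩
  have : π * z = π * (u * w') := by rw [hw, hw']; ring
  exact mul_left_cancel₀ hπ0 this

theorem dvd_of_dvd_pow_mul_of_reg {u π : R} (hπ0 : π ≠ 0) (hreg : ∀ x : R, π ∣ u * x → π ∣ x)
    (k : ℕ) {z : R} (h : u ∣ π ^ k * z) : u ∣ z := by
  induction k with
  | zero => simpa using h
  | succ k ih =>
    apply ih
    apply dvd_of_dvd_mul_of_reg hπ0 hreg
    rwa [← _root_.mul_assoc, ← pow_succ']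

/-- `r` is regular modulo `u` as soon as `π ^ k ∈ (u, r)`. -/
theorem dvd_of_dvd_mul_of_pow_mem {u π r : R} (hπ0 : π ≠ 0)
    (hreg : ∀ x : R, π ∣ u * x → π ∣ x) {k : ℕ} (hk : π ^ k ∈ Ideal.span {u, r})
    {y : R} (h : u ∣ r * y) : u ∣ y := by
  obtain ⟨a, b, hab⟩ := Ideal.mem_span_pair.mp hk
  apply dvd_of_dvd_pow_mul_of_reg hπ0 hreg k
  rw [← hab, add_mul]
  apply dvd_add
  · exact Dvd.intro_left (a * y) (by ring)
  · have : b * r * y = b * (r * y) := by ring
    rw [this]
    exact Dvd.dvd.mul_left h b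

theorem dvd_of_dvd_pow_mul_of_pow_mem {u π r : R} (hπ0 : π ≠ 0)
    (hreg : ∀ x : R, π ∣ u * x → π ∣ x) {k : ℕ} (hk : π ^ k ∈ Ideal.span {u, r})
    (j : ℕ) {y : R} (h : u ∣ r ^ j * y) : u ∣ y := by
  induction j with
  | zero => simpa using h
  | succ j ih =>
    apply ih
    apply dvd_of_dvd_mul_of_pow_mem hπ0 hreg hk
    rwa [← _root_.mul_assoc, ← pow_succ']

omit [IsDomain R] in
/-- `π ^ (k * j) ∈ (u, r ^ j)` if `π ^ k ∈ (u, r)`. -/
theorem pow_mul_mem_span_pair {u π r : R} {k : ℕ} (hk : π ^ k ∈ Ideal.span {u, r}) (j : ℕ) :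
    π ^ (k * j) ∈ Ideal.span {u, r ^ j} := by
  obtain ⟨a, b, hab⟩ := Ideal.mem_span_pair.mp hk
  rw [pow_mul, ← hab]
  -- `(a u + b r)^j - (b r)^j` is divisible by `a u`
  have h1 : (a * u + b * r - b * r) ∣ (a * u + b * r) ^ j - (b * r) ^ j := sub_dvd_pow_sub_pow _ _ j
  rw [add_sub_cancel_right] at h1
  obtain ⟨c, hc⟩ := h1
  have h2 : (a * u + b * r) ^ j = (a * c) * u + b ^ j * r ^ j := by
    have : (a * u + b * r) ^ j = a * u * c + (b * r) ^ j := by rw [← hc]; ring
    rw [this, mul_pow]; ring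
  rw [h2]
  exact Ideal.mem_span_pair.mpr ⟨a * c, b ^ j, rfl⟩

end Basic

section Finiteness

/-- A cyclic module killed by `𝔞` has length at most `ℓ(R/𝔞)`. -/
theorem relLen_span_singleton_le (𝔞 : Ideal R) (x : R) :
    relLen (𝔞 * Ideal.span {x}) (Ideal.span {x}) ≤ relLen 𝔞 (⊤ : Ideal R) := by
  refine relLen_le_of_map (LinearMap.mulRight R x) (N' := 𝔞) (N := ⊤)
    (P' := 𝔞 * Ideal.span {x}) (P := Ideal.span {x}) ?_ ?_ ?_
  · intro y _
    rw [LinearMap.mulRight_apply]
    exact Ideal.mem_span_singleton.mpr (Dvd.intro_left y rfl)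
  · intro y hy
    rw [LinearMap.mulRight_apply]
    exact Ideal.mul_mem_mul hy (Ideal.mem_span_singleton_self x)
  · intro y hy
    obtain ⟨c, rfl⟩ := Ideal.mem_span_singleton'.mp hy
    refine ⟨c, trivial, ?_⟩
    rw [LinearMap.mulRight_apply, sub_self]
    exact Ideal.zero_mem _

/-- For a finitely generated ideal `A` and an ideal `𝔞` with `ℓ(R/𝔞) < ∞`: `ℓ(A/𝔞A) < ∞`. -/
theorem relLen_mul_ne_top (𝔞 : Ideal R) (h𝔞 : relLen 𝔞 (⊤ : Ideal R) ≠ ⊤)
    (A : Ideal R) (hA : A.FG) : relLen (𝔞 * A) A ≠ ⊤ := by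
  refine Submodule.fg_induction
    (motive := fun (A : Submodule R R) _ => relLen (𝔞 * (A : Ideal R)) A ≠ ⊤) ?_ ?_ A hA
  · intro x
    exact ne_top_of_le_ne_top h𝔞 (relLen_span_singleton_le 𝔞 x)
  · intro M₁ M₂ _ _ h₁ h₂
    -- chain `𝔞 M₁ ⊔ 𝔞 M₂ ≤ M₁ ⊔ 𝔞 M₂ ≤ M₁ ⊔ M₂`
    have hmul : 𝔞 * ((M₁ ⊔ M₂ : Submodule R R) : Ideal R) = 𝔞 * (M₁ : Ideal R) ⊔ 𝔞 * (M₂ : Ideal R) :=
      Ideal.mul_sup 𝔞 M₁ M₂
    have hle1 : 𝔞 * (M₁ : Ideal R) ≤ M₁ := Ideal.mul_le_right
    have hle2 : 𝔞 * (M₂ : Ideal R) ≤ M₂ := Ideal.mul_le_right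
    have hAB : (𝔞 * (M₁ : Ideal R) ⊔ 𝔞 * (M₂ : Ideal R) : Ideal R) ≤ M₁ ⊔ 𝔞 * (M₂ : Ideal R) :=
      sup_le_sup_right hle1 _
    have hBC : (M₁ ⊔ 𝔞 * (M₂ : Ideal R) : Ideal R) ≤ M₁ ⊔ M₂ := sup_le_sup_left hle2 _
    show relLen (𝔞 * ((M₁ ⊔ M₂ : Submodule R R) : Ideal R)) (M₁ ⊔ M₂) ≠ ⊤
    rw [hmul, relLen_add hAB hBC]
    have hfirst : relLen (𝔞 * (M₁ : Ideal R) ⊔ 𝔞 * (M₂ : Ideal R) : Ideal R)
        (M₁ ⊔ 𝔞 * (M₂ : Ideal R) : Ideal R) ≤ relLen (𝔞 * (M₁ : Ideal R)) M₁ := by
      refine relLen_le_of_map (LinearMap.id : R →ₗ[R] R) ?_ ?_ ?_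
      · intro x hx
        exact Submodule.mem_sup_left hx
      · intro x hx
        exact Submodule.mem_sup_left hx
      · intro y hy
        obtain ⟨a, ha, b, hb, rfl⟩ := Submodule.mem_sup.mp hy
        refine ⟨a, ha, ?_⟩
        rw [LinearMap.id_apply, add_sub_cancel_left]
        exact Submodule.mem_sup_right hb
    have hsecond : relLen (M₁ ⊔ 𝔞 * (M₂ : Ideal R) : Ideal R) (M₁ ⊔ M₂ : Ideal R) ≤
        relLen (𝔞 * (M₂ : Ideal R)) M₂ := by
      refine relLen_le_of_map (LinearMap.id : R →ₗ[R] R) ?_ ?_ ?_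
      · intro x hx
        exact Submodule.mem_sup_right hx
      · intro x hx
        exact Submodule.mem_sup_right hx
      · intro y hy
        obtain ⟨a, ha, b, hb, rfl⟩ := Submodule.mem_sup.mp hy
        refine ⟨b, hb, ?_⟩
        rw [LinearMap.id_apply, add_sub_cancel_right]
        exact Submodule.mem_sup_left ha
    intro htop
    rcases ENat.add_eq_top.mp htop with h | h
    · exact ne_top_of_le_ne_top h₁ hfirst h
    · exact ne_top_of_le_ne_top h₂ hsecond h

/-- `ℓ(R/(u, π^N)) < ∞` if `ℓ(R/(u, π)) < ∞`. -/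
theorem relLen_span_pair_pow_ne_top (u π : R)
    (hfin : relLen (Ideal.span {u, π}) (⊤ : Ideal R) ≠ ⊤) (N : ℕ) :
    relLen (Ideal.span {u, π ^ N}) (⊤ : Ideal R) ≠ ⊤ := by
  induction N with
  | zero =>
    have : Ideal.span {u, π ^ 0} = (⊤ : Ideal R) := by
      rw [Ideal.eq_top_iff_one, pow_zero]
      exact Ideal.subset_span (by simp)
    rw [this, relLen_self]
    exact ENat.zero_ne_top
  | succ N ih =>
    have hAB : Ideal.span {u, π ^ (N + 1)} ≤ Ideal.span {u, π ^ N} := by
      rw [Ideal.span_le]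
      intro x hx
      rcases hx with rfl | rfl
      · exact Ideal.subset_span (by simp)
      · rw [pow_succ]
        exact Ideal.mul_mem_right _ _ (Ideal.subset_span (by simp))
    rw [relLen_add hAB le_top]
    intro htop
    rcases ENat.add_eq_top.mp htop with h | h
    swap
    · exact ih h
    revert h
    refine ne_top_of_le_ne_top hfin ?_
    refine relLen_le_of_map (LinearMap.mulLeft R (π ^ N)) (N' := Ideal.span {u, π})
      (N := (⊤ : Ideal R)) ?_ ?_ ?_
    · intro x _
      rw [LinearMap.mulLeft_apply]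
      exact Ideal.mul_mem_right _ _ (Ideal.subset_span (by simp))
    · intro x hx
      rw [LinearMap.mulLeft_apply]
      obtain ⟨a, b, rfl⟩ := Ideal.mem_span_pair.mp hx
      refine Ideal.mem_span_pair.mpr ⟨π ^ N * a, b, ?_⟩
      rw [pow_succ]; ring
    · intro y hy
      obtain ⟨a, b, rfl⟩ := Ideal.mem_span_pair.mp hy
      refine ⟨b, trivial, ?_⟩
      rw [LinearMap.mulLeft_apply]
      have : a * u + b * π ^ N - π ^ N * b = a * u := by ring
      rw [this]
      exact Ideal.mul_mem_left _ _ (Ideal.subset_span (by simp))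

end Finiteness

end Fermat.Agent.A2.H609

end
-- ===== PACK-END A2/H609/Multiplicity.lean

-- ===== PACK-BEGIN A2/Alg/H132/Vert.lean
section



/-!
# A2 / ALG (helper132): the discrete valuation ring of a component of the special fibre

`B` a noetherian integrally closed domain with fraction field `F`, `w ∈ B`, `w ≠ 0`, `p` a prime
of `B` and `q` an ideal with `p ⊓ q = (w)`, `q ⊄ p` (in the application `p`, `q` are the two
components of the special fibre of a semistable chart).  Then `B_p` is a discrete valuation ring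
with uniformiser `w`.

* `exists_colon`   : `p = ((w) : c₀)` for some `c₀ ∈ q ∖ p`;
* `vertVal`        : the valuation subring `B_p ⊆ F`; `isLocDVR_vertVal`;
* `mem_vertVal_iff`, `mul_inv_mem_vertVal` (`𝔪 = w · B_p`), `inv_notMem_vertVal`;
* `exists_zpow_mul_unit` : every `t ≠ 0` in `F` is `w ^ n` times a unit of `B_p`.
-/

set_option autoImplicit false
set_option linter.unusedSectionVars false
set_option linter.style.haveILetI false

namespace Fermat.Agent.A2.Alg.H132

open Fermat.Agent.A2.H849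

section Vert

variable {B : Type*} [CommRing B] [IsDomain B] [IsNoetherianRing B] [IsIntegrallyClosed B]
variable (F : Type*) [Field F] [Algebra B F] [IsFractionRing B F]

/-- The hypotheses on a component `p` of the special fibre `w = 0`, with complementary
ideal `q`. -/
structure VertData (w : B) (p q : Ideal B) : Prop where
  prime : p.IsPrime
  w_ne : w ≠ 0
  not_le : ¬ q ≤ p
  inf_eq : p ⊓ q = Ideal.span {w}

variable {F}
variable {w : B} {p q : Ideal B}

theorem VertData.w_mem (h : VertData w p q) : w ∈ p :=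
  (inf_le_left : p ⊓ q ≤ p) (h.inf_eq ▸ Ideal.mem_span_singleton_self w)

theorem VertData.w_mem' (h : VertData w p q) : w ∈ q :=
  (inf_le_right : p ⊓ q ≤ q) (h.inf_eq ▸ Ideal.mem_span_singleton_self w)

/-- `p` is the colon ideal `(w) : c₀`. -/
theorem VertData.exists_colon (h : VertData w p q) :
    ∃ c₀ : B, c₀ ∈ q ∧ c₀ ∉ p ∧ ∀ r, r ∈ p ↔ w ∣ r * c₀ := by
  have hp := h.prime
  obtain ⟨c₀, hc₀q, hc₀p⟩ := Set.not_subset.1 h.not_le
  refine ⟨c₀, hc₀q, hc₀p, fun r => ⟨fun hr => ?_, fun hr => ?_⟩⟩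
  · have hmem : r * c₀ ∈ p ⊓ q := ⟨p.mul_mem_right _ hr, q.mul_mem_left _ hc₀q⟩
    rw [h.inf_eq] at hmem
    exact Ideal.mem_span_singleton.1 hmem
  · obtain ⟨t, ht⟩ := hr
    have : r * c₀ ∈ p := by rw [ht]; exact p.mul_mem_right _ h.w_mem
    exact (hp.mem_or_mem this).resolve_right hc₀p

theorem VertData.isDiscreteValuationRing_locAt (h : VertData w p q) :
    haveI := h.prime
    IsDiscreteValuationRing (locAt F p) := by
  haveI := h.prime
  obtain ⟨c₀, -, -, hc⟩ := h.exists_colon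
  exact isDiscreteValuationRing_locAt_of_colon p w c₀ h.w_ne hc

/-- The valuation subring `B_p` of `F`. -/
noncomputable def vertVal (h : VertData w p q) : ValuationSubring F :=
  haveI := h.prime
  haveI := h.isDiscreteValuationRing_locAt (F := F)
  locValuationSubring p (inferInstance : ValuationRing (locAt F p))

theorem isLocDVR_vertVal (h : VertData w p q) : IsLocDVR (vertVal (F := F) h) p := by
  haveI := h.prime
  exact isLocDVR_locValuationSubring p (h.isDiscreteValuationRing_locAt (F := F))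

theorem mem_vertVal_iff (h : VertData w p q) (t : F) :
    t ∈ vertVal (F := F) h ↔
      ∃ a s : B, s ∉ p ∧ t = algebraMap B F a * (algebraMap B F s)⁻¹ := by
  haveI := h.prime
  exact mem_locAt_iff p t

theorem algebraMap_mem_vertVal (h : VertData w p q) (b : B) :
    algebraMap B F b ∈ vertVal (F := F) h :=
  (isLocDVR_vertVal h).le b

theorem inv_mem_vertVal (h : VertData w p q) {s : B} (hs : s ∉ p) :
    (algebraMap B F s)⁻¹ ∈ vertVal (F := F) h :=
  (isLocDVR_vertVal h).inv_mem s hs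

theorem inv_notMem_vertVal (h : VertData w p q) {r : B} (hr : r ∈ p) (hr0 : r ≠ 0) :
    (algebraMap B F r)⁻¹ ∉ vertVal (F := F) h :=
  (isLocDVR_vertVal h).inv_not_mem r hr hr0

theorem algebraMap_ne_zero {b : B} (hb : b ≠ 0) : algebraMap B F b ≠ 0 := fun h0 =>
  hb (IsFractionRing.injective B F (by rw [h0, map_zero]))

/-- the contraction of the maximal ideal of `B_p` is `p`. -/
theorem mem_of_inv_notMem_vertVal (h : VertData w p q) {b : B}
    (hb : (algebraMap B F b)⁻¹ ∉ vertVal (F := F) h) : b ∈ p := by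
  by_contra hbp
  exact hb (inv_mem_vertVal h hbp)

/-- `w` generates the maximal ideal of `B_p`. -/
theorem mul_inv_mem_vertVal (h : VertData w p q) {t : F} (ht : t ∈ vertVal (F := F) h)
    (ht' : t⁻¹ ∉ vertVal (F := F) h) : t * (algebraMap B F w)⁻¹ ∈ vertVal (F := F) h := by
  have hp := h.prime
  obtain ⟨c₀, hc₀q, hc₀p, hc⟩ := h.exists_colon
  obtain ⟨a, s, hs, rfl⟩ := (mem_vertVal_iff h t).1 ht
  have hs0 : s ≠ 0 := fun h0 => hs (h0 ▸ p.zero_mem)
  have hsF : algebraMap B F s ≠ 0 := algebraMap_ne_zero hs0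
  have hwF : algebraMap B F w ≠ 0 := algebraMap_ne_zero h.w_ne
  have hc₀0 : c₀ ≠ 0 := fun h0 => hc₀p (h0 ▸ p.zero_mem)
  have hc₀F : algebraMap B F c₀ ≠ 0 := algebraMap_ne_zero hc₀0
  have hap : a ∈ p := by
    by_contra hap
    apply ht'
    rw [mem_vertVal_iff]
    refine ⟨s, a, hap, ?_⟩
    rw [mul_inv, inv_inv, mul_comm]
  obtain ⟨a', ha'⟩ := (hc a).1 hap
  rw [mem_vertVal_iff]
  refine ⟨a', s * c₀, fun hmem => (hp.mem_or_mem hmem).elim hs hc₀p, ?_⟩
  have e : algebraMap B F a * algebraMap B F c₀ = algebraMap B F w * algebraMap B F a' := by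
    rw [← map_mul, ← map_mul, ha']
  rw [map_mul]
  field_simp
  linear_combination e

/-- Every nonzero element of `F` is a power of `w` times a unit of `B_p`. -/
theorem exists_zpow_mul_unit (h : VertData w p q) {t : F} (ht : t ≠ 0) :
    ∃ n : ℤ, t * (algebraMap B F w) ^ n ∈ vertVal (F := F) h ∧
      (t * (algebraMap B F w) ^ n)⁻¹ ∈ vertVal (F := F) h := by
  have hwF : algebraMap B F w ≠ 0 := algebraMap_ne_zero h.w_ne
  set V := vertVal (F := F) h with hV
  haveI hdvr : IsDiscreteValuationRing V := (isLocDVR_vertVal h).dvr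
  -- the element `w` of `V`
  let wV : V := ⟨algebraMap B F w, algebraMap_mem_vertVal h w⟩
  have hwV0 : wV ≠ 0 := fun h0 => hwF (congrArg Subtype.val h0)
  have hwnu : ¬ IsUnit wV := by
    intro hu
    obtain ⟨u, hu⟩ := hu
    have h1 : ((u⁻¹ : Vˣ) : V) * wV = 1 := by rw [← hu]; exact Units.inv_mul u
    have h2 : (((u⁻¹ : Vˣ) : V) : F) * algebraMap B F w = 1 := congrArg Subtype.val h1
    have h3 : (algebraMap B F w)⁻¹ = (((u⁻¹ : Vˣ) : V) : F) :=
      (eq_inv_of_mul_eq_one_left h2).symm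
    exact inv_notMem_vertVal h h.w_mem h.w_ne (h3 ▸ ((u⁻¹ : Vˣ) : V).2)
  have hgen : ∀ y : V, ¬ IsUnit y → wV ∣ y := by
    intro y hy
    by_cases hy0 : y = 0
    · rw [hy0]; exact dvd_zero _
    have hyF : (y : F) ≠ 0 := fun h0 => hy0 (Subtype.ext h0)
    have hinv : (y : F)⁻¹ ∉ V := by
      intro hmem
      apply hy
      refine IsUnit.of_mul_eq_one ⟨(y : F)⁻¹, hmem⟩ ?_
      exact Subtype.ext (mul_inv_cancel₀ hyF)
    refine ⟨⟨(y : F) * (algebraMap B F w)⁻¹, mul_inv_mem_vertVal h y.2 hinv⟩, ?_⟩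
    apply Subtype.ext
    show (y : F) = algebraMap B F w * ((y : F) * (algebraMap B F w)⁻¹)
    field_simp
  have hirr : Irreducible wV := by
    refine ⟨hwnu, fun a b hab => ?_⟩
    by_contra hcon
    rw [not_or] at hcon
    obtain ⟨a', rfl⟩ := hgen a hcon.1
    obtain ⟨b', rfl⟩ := hgen b hcon.2
    have : wV * (1 - wV * (a' * b')) = 0 := by rw [mul_sub, mul_one]; nth_rw 1 [hab]; ring
    rcases mul_eq_zero.1 this with h0 | h0
    · exact hwV0 h0
    · apply hwnu
      refine IsUnit.of_mul_eq_one (a' * b') ?_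
      rw [sub_eq_zero] at h0
      exact h0.symm
  -- integral case
  have key : ∀ y : V, y ≠ 0 → ∃ n : ℕ, (y : F) * ((algebraMap B F w) ^ n)⁻¹ ∈ V ∧
      ((y : F) * ((algebraMap B F w) ^ n)⁻¹)⁻¹ ∈ V := by
    intro y hy
    obtain ⟨n, u, hu⟩ := IsDiscreteValuationRing.eq_unit_mul_pow_irreducible hy hirr
    refine ⟨n, ?_, ?_⟩
    · have e : (y : F) * ((algebraMap B F w) ^ n)⁻¹ = ((u : V) : F) := by
        have := congrArg Subtype.val hu
        simp only [MulMemClass.coe_mul, SubmonoidClass.coe_pow] at this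
        rw [this]
        show ((u : V) : F) * (algebraMap B F w) ^ n * ((algebraMap B F w) ^ n)⁻¹ = _
        field_simp
      rw [e]
      exact (u : V).2
    · have e : ((y : F) * ((algebraMap B F w) ^ n)⁻¹)⁻¹ = (((u⁻¹ : Vˣ) : V) : F) := by
        have := congrArg Subtype.val hu
        simp only [MulMemClass.coe_mul, SubmonoidClass.coe_pow] at this
        rw [this]
        have h1 : ((u : V) : F) * (((u⁻¹ : Vˣ) : V) : F) = 1 :=
          congrArg Subtype.val (Units.mul_inv u)
        have hu0 : ((u : V) : F) ≠ 0 := left_ne_zero_of_mul_eq_one h1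
        show (((u : V) : F) * (algebraMap B F w) ^ n * ((algebraMap B F w) ^ n)⁻¹)⁻¹ = _
        field_simp
        linear_combination -h1
      rw [e]
      exact ((u⁻¹ : Vˣ) : V).2
  rcases V.mem_or_inv_mem t with htV | htV
  · obtain ⟨n, h1, h2⟩ := key ⟨t, htV⟩ (fun h0 => ht (congrArg Subtype.val h0))
    refine ⟨-(n : ℤ), ?_, ?_⟩
    · rw [zpow_neg, zpow_natCast]; exact h1
    · rw [zpow_neg, zpow_natCast]; exact h2
  · obtain ⟨n, h1, h2⟩ := key ⟨t⁻¹, htV⟩
      (fun h0 => inv_ne_zero ht (congrArg Subtype.val h0))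
    refine ⟨(n : ℤ), ?_, ?_⟩
    · rw [zpow_natCast]
      have e : t * algebraMap B F w ^ n = (t⁻¹ * ((algebraMap B F w) ^ n)⁻¹)⁻¹ := by
        rw [mul_inv, inv_inv, inv_inv]
      rw [e]; exact h2
    · rw [zpow_natCast]
      have e : (t * algebraMap B F w ^ n)⁻¹ = t⁻¹ * ((algebraMap B F w) ^ n)⁻¹ := by
        rw [mul_inv]
      rw [e]; exact h1

end Vert

end Fermat.Agent.A2.Alg.H132

end
-- ===== PACK-END A2/Alg/H132/Vert.lean

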