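import Mathlib
import Fermat.Prelude.Def_AlgebraicCurve_DivisorClassGroup
import Fermat.Prelude.Def_ModularCurve_ReductionModL
import Fermat.Prelude.Def_ModularCurve_X0ModL
import Fermat.Prelude.Def_ModularCurve_ArithmeticGalois
import Fermat.Prelude.Def_AlgebraicCurve_Correspondence
import Mathlib.RingTheory.Ideal.AssociatedPrime.Localization
import Fermat.Agent.Pack.S33.E0L1
import Fermat.Agent.Pack.S33.E2L3
import Fermat.Agent.Pack.S33.E1L3
import Fermat.Agent.Pack.S33.E2L2
import Fermat.Agent.Pack.S33.E3L2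
import Fermat.Agent.Pack.S33.E1L2
import Fermat.Agent.Pack.S33.E2L1
import Fermat.Agent.Pack.S33.E3L3
import Fermat.Agent.Pack.S33.E3L1

-- ===== PACK-BEGIN S37/H940/PlaceBasic.lean
section




/-!
# S37 / RIM (helper940): basic vocabulary on places

`InMax P f` : `f` lies in the maximal ideal of the place `P` (`f = 0` or `ord_P f > 0`);
closure properties; uniqueness of the value of a function at a place.
Everything is characteristic free.
-/

set_option autoImplicit false

namespace Fermat.Agent.S37.H940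

open AlgebraicCurve
open Fermat.Agent.S24.FF

variable {K F : Type*} [Field K] [Field F] [Algebra K F]

/-- `f` lies in the maximal ideal of the place `P`. -/
def InMax (P : Place K F) (f : F) : Prop := f = 0 ∨ 0 < P.ord f

theorem inMax_zero (P : Place K F) : InMax P (0 : F) := Or.inl rfl

theorem inMax_of_ord_pos {P : Place K F} {f : F} (h : 0 < P.ord f) : InMax P f := Or.inr h

theorem InMax.ord_pos {P : Place K F} {f : F} (h : InMax P f) (hf : f ≠ 0) : 0 < P.ord f :=
  h.resolve_left hf

theorem InMax.ord_nonneg {P : Place K F} {f : F} (h : InMax P f) : 0 ≤ P.ord f := by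
  rcases h with rfl | h
  · simp
  · exact h.le

theorem inMax_iff_mem_nonunits {P : Place K F} {f : F} :
    InMax P f ↔ f ∈ P.toValuationSubring.nonunits := by
  rcases eq_or_ne f 0 with rfl | hf
  · refine ⟨fun _ => ?_, fun _ => inMax_zero P⟩
    rw [ValuationSubring.mem_nonunits_iff_exists_mem_maximalIdeal]
    exact ⟨zero_mem _, Ideal.zero_mem _⟩
  · rw [← ord_pos_iff_mem_nonunits P hf]
    exact ⟨fun h => h.ord_pos hf, inMax_of_ord_pos⟩

theorem inMax_iff_exists_mem_maximalIdeal {P : Place K F} {f : F} :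
    InMax P f ↔ ∃ h : f ∈ P.toValuationSubring,
      (⟨f, h⟩ : P.toValuationSubring) ∈ IsLocalRing.maximalIdeal P.toValuationSubring := by
  rw [inMax_iff_mem_nonunits, ValuationSubring.mem_nonunits_iff_exists_mem_maximalIdeal]

theorem InMax.add {P : Place K F} {f g : F} (hf : InMax P f) (hg : InMax P g) :
    InMax P (f + g) := by
  rw [inMax_iff_exists_mem_maximalIdeal] at hf hg ⊢
  obtain ⟨hf1, hf2⟩ := hf
  obtain ⟨hg1, hg2⟩ := hg
  exact ⟨add_mem hf1 hg1, Ideal.add_mem _ hf2 hg2⟩

theorem InMax.neg {P : Place K F} {f : F} (hf : InMax P f) : InMax P (-f) := by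
  rw [inMax_iff_exists_mem_maximalIdeal] at hf ⊢
  obtain ⟨hf1, hf2⟩ := hf
  exact ⟨neg_mem hf1, Ideal.neg_mem_iff _ |>.mpr hf2⟩

theorem InMax.sub {P : Place K F} {f g : F} (hf : InMax P f) (hg : InMax P g) :
    InMax P (f - g) := by
  rw [sub_eq_add_neg]
  exact hf.add hg.neg

theorem InMax.mul_of_ord_nonneg {P : Place K F} {f g : F} (hf : InMax P f) (hg : 0 ≤ P.ord g) :
    InMax P (f * g) := by
  rw [inMax_iff_exists_mem_maximalIdeal] at hf ⊢
  obtain ⟨hf1, hf2⟩ := hf
  have hg1 : g ∈ P.toValuationSubring := mem_of_ord_nonneg P hg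
  exact ⟨mul_mem hf1 hg1, Ideal.mul_mem_right ⟨g, hg1⟩ _ hf2⟩

theorem InMax.ord_nonneg_mul {P : Place K F} {f g : F} (hg : 0 ≤ P.ord g) (hf : InMax P f) :
    InMax P (g * f) := by
  rw [mul_comm]
  exact hf.mul_of_ord_nonneg hg

theorem InMax.const_mul {P : Place K F} {f : F} (hf : InMax P f) (c : K) :
    InMax P (algebraMap K F c * f) :=
  hf.ord_nonneg_mul (ord_algebraMap P c).ge

theorem not_inMax_one (P : Place K F) : ¬ InMax P (1 : F) := by
  rintro (h | h)
  · exact one_ne_zero h
  · simp at h

theorem not_inMax_of_ord_eq_zero {P : Place K F} {f : F} (hf : f ≠ 0) (h : P.ord f = 0) :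
    ¬ InMax P f := by
  rintro (h0 | h0)
  · exact hf h0
  · omega

theorem inMax_algebraMap_iff {P : Place K F} {c : K} : InMax P (algebraMap K F c) ↔ c = 0 := by
  constructor
  · rintro (h | h)
    · exact (map_eq_zero_iff _ (algebraMap K F).injective).mp h
    · rw [ord_algebraMap] at h
      exact absurd h (lt_irrefl _)
  · rintro rfl
    rw [map_zero]
    exact inMax_zero P

/-- the value of a function at a place is unique -/
theorem value_unique {P : Place K F} {f : F} {a b : K}
    (ha : InMax P (f - algebraMap K F a)) (hb : InMax P (f - algebraMap K F b)) : a = b := by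
  have h := hb.sub ha
  have e : f - algebraMap K F b - (f - algebraMap K F a) = algebraMap K F (a - b) := by
    rw [map_sub]; ring
  rw [e, inMax_algebraMap_iff] at h
  exact sub_eq_zero.mp h

/-- a function congruent to a constant modulo the maximal ideal is regular -/
theorem ord_nonneg_of_inMax_sub {P : Place K F} {f : F} {a : K}
    (h : InMax P (f - algebraMap K F a)) : 0 ≤ P.ord f := by
  have h1 : f - algebraMap K F a ∈ P.toValuationSubring := mem_of_ord_nonneg P h.ord_nonneg
  have h2 : f = (f - algebraMap K F a) + algebraMap K F a := by ring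
  rw [h2]
  exact ord_nonneg_of_mem P (add_mem h1 (P.algebraMap_mem' a))

/-- a function with a nonzero value is a unit at the place -/
theorem ord_eq_zero_of_inMax_sub {P : Place K F} {f : F} {a : K}
    (h : InMax P (f - algebraMap K F a)) (ha : a ≠ 0) : P.ord f = 0 := by
  have h0 := ord_nonneg_of_inMax_sub h
  by_contra hne
  have hpos : 0 < P.ord f := lt_of_le_of_ne h0 (Ne.symm hne)
  have h1 : InMax P f := inMax_of_ord_pos hpos
  have h2 := h1.sub h
  rw [sub_sub_cancel, inMax_algebraMap_iff] at h2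
  exact ha h2

theorem ord_neg (P : Place K F) (f : F) : P.ord (-f) = P.ord f := by
  rcases eq_or_ne f 0 with rfl | hf
  · simp
  have h1 : P.ord (-1 : F) = 0 := by
    have := ord_algebraMap P (-1 : K)
    simpa using this
  rw [neg_eq_neg_one_mul, P.ord_mul (neg_ne_zero.mpr one_ne_zero) hf, h1, zero_add]

theorem ord_const_mul (P : Place K F) {c : K} (hc : c ≠ 0) (f : F) :
    P.ord (algebraMap K F c * f) = P.ord f := by
  rcases eq_or_ne f 0 with rfl | hf
  · simp
  have hc' : algebraMap K F c ≠ 0 := by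
    rwa [Ne, map_eq_zero_iff _ (algebraMap K F).injective]
  rw [P.ord_mul hc' hf, ord_algebraMap, zero_add]

theorem ord_nonneg_add {P : Place K F} {f g : F} (hf : 0 ≤ P.ord f) (hg : 0 ≤ P.ord g) :
    0 ≤ P.ord (f + g) :=
  ord_nonneg_of_mem P (add_mem (mem_of_ord_nonneg P hf) (mem_of_ord_nonneg P hg))

theorem ord_nonneg_sub {P : Place K F} {f g : F} (hf : 0 ≤ P.ord f) (hg : 0 ≤ P.ord g) :
    0 ≤ P.ord (f - g) :=
  ord_nonneg_of_mem P (sub_mem (mem_of_ord_nonneg P hf) (mem_of_ord_nonneg P hg))

theorem ord_nonneg_mul {P : Place K F} {f g : F} (hf : 0 ≤ P.ord f) (hg : 0 ≤ P.ord g) :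
    0 ≤ P.ord (f * g) :=
  ord_nonneg_of_mem P (mul_mem (mem_of_ord_nonneg P hf) (mem_of_ord_nonneg P hg))

theorem ord_nonneg_const (P : Place K F) (c : K) : 0 ≤ P.ord (algebraMap K F c) :=
  (ord_algebraMap P c).ge

end Fermat.Agent.S37.H940

end
-- ===== PACK-END S37/H940/PlaceBasic.lean

-- ===== PACK-BEGIN S37/Red/H759/Passage.lean
section
/-
S37-RED, piece E4(c) "passage R_E → A" for (H3) (helper759).  Mathlib + Prelude only.

`A ⊆ Q̄` a valuation subring, `k = A/𝔪`.  The number fields `E ⊆ Q̄` form a directed family,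
`A = ⋃ (A ∩ E)`, `k = ⋃ κ_E` (`κ_E` = image of `A ∩ E` in `k`).

* `constk A E`  : the constants of `k((q))` coming from `A ∩ E`   (`= κ_E ⊆ k((q))`)
* `constA A E`  : the constants of `Q̄((q))` coming from `A ∩ E`
* `constE E`    : the constants of `Q̄((q))` coming from `E`
* `exists_numberField_k` : `c ∈ F_{N,k}` integral over `k[s]` ⟹ for some number field `E ⊇ E₀`:
      `c ∈ κ_E(j(q^d) : d ∣ N)` and `c` is integral over `κ_E[s]`.
* `exists_numberField_A` : `b ∈ F_N` integral over `A[t]` ⟹ for some number field `E ⊇ E₀`: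
      `b ∈ E(j(q^d) : d ∣ N)` and `b` is integral over `(A ∩ E)[t]`.      (`B_A = ⋃ B_{R_E}`)
* `LiftAtLevel N A E t s` : (H3) at the level of a number field `E` (normality of the special fibre
      of the model over the DVR `A ∩ E`), in `q`-expansion language.
* `lift_of_levels` : (H3) for all number fields ⟹ (H3) over `A`.
-/




set_option autoImplicit false

noncomputable section

namespace Fermat.Agent.S37.Red.H759

open ModularCurve HahnSeries IsLocalRing IntermediateField

/-- `Q̄` -/
abbrev Qbar : Type := AlgebraicClosure ℚ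

/-- The index set: number fields inside `Q̄`. -/
abbrev NumberFieldIn : Type := {E : IntermediateField ℚ Qbar // FiniteDimensional ℚ E}

instance : Nonempty NumberFieldIn :=
  ⟨⟨⊥, inferInstanceAs (FiniteDimensional ℚ (⊥ : IntermediateField ℚ Qbar))⟩⟩

instance : IsDirected NumberFieldIn (· ≤ ·) :=
  ⟨fun E E' => by
    have := E.2
    have := E'.2
    exact ⟨⟨E.1 ⊔ E'.1, IntermediateField.finiteDimensional_sup E.1 E'.1⟩,
      (le_sup_left : E.1 ≤ E.1 ⊔ E'.1), (le_sup_right : E'.1 ≤ E.1 ⊔ E'.1)⟩⟩

/-- every element of `Q̄` lies in a number field -/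
theorem exists_numberField_mem (a : Qbar) : ∃ E : NumberFieldIn, a ∈ E.1 := by
  have halg : Algebra.IsAlgebraic ℚ Qbar := AlgebraicClosure.isAlgebraic ℚ
  have ha : IsIntegral ℚ a := (halg.isAlgebraic a).isIntegral
  exact ⟨⟨ℚ⟮a⟯, IntermediateField.adjoin.finiteDimensional ha⟩,
    IntermediateField.mem_adjoin_simple_self ℚ a⟩

variable (A : ValuationSubring Qbar)

/-- the constants of `k((q))` coming from `A ∩ E` -/
def constk (E : IntermediateField ℚ Qbar) : Set (LaurentSeries (ResidueField A)) :=
  {c | ∃ a : A, (a : Qbar) ∈ E ∧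
    c = algebraMap (ResidueField A) (LaurentSeries (ResidueField A)) (residue A a)}

/-- the constants of `Q̄((q))` coming from `A ∩ E` -/
def constA (E : IntermediateField ℚ Qbar) : Set (LaurentSeries Qbar) :=
  {c | ∃ a : A, (a : Qbar) ∈ E ∧ c = algebraMap Qbar (LaurentSeries Qbar) (a : Qbar)}

/-- the constants of `Q̄((q))` coming from `E` -/
def constE (E : IntermediateField ℚ Qbar) : Set (LaurentSeries Qbar) :=
  {c | ∃ a : Qbar, a ∈ E ∧ c = algebraMap Qbar (LaurentSeries Qbar) a}

/-- all constants of `Q̄((q))` coming from `A` -/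
def constAll : Set (LaurentSeries Qbar) :=
  {c | ∃ a : A, c = algebraMap Qbar (LaurentSeries Qbar) (a : Qbar)}

theorem constk_mono : Monotone fun E : NumberFieldIn => constk A E.1 := by
  rintro E E' h c ⟨a, ha, rfl⟩
  exact ⟨a, h ha, rfl⟩

theorem constA_mono : Monotone fun E : NumberFieldIn => constA A E.1 := by
  rintro E E' h c ⟨a, ha, rfl⟩
  exact ⟨a, h ha, rfl⟩

theorem constE_mono : Monotone fun E : NumberFieldIn => constE E.1 := by
  rintro E E' h c ⟨a, ha, rfl⟩
  exact ⟨a, h ha, rfl⟩

theorem constA_subset_constAll (E : IntermediateField ℚ Qbar) : constA A E ⊆ constAll A := by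
  rintro c ⟨a, -, rfl⟩
  exact ⟨a, rfl⟩

theorem constA_subset_constE (E : IntermediateField ℚ Qbar) : constA A E ⊆ constE E := by
  rintro c ⟨a, ha, rfl⟩
  exact ⟨a, ha, rfl⟩

theorem range_subset_iUnion_constk :
    Set.range (algebraMap (ResidueField A) (LaurentSeries (ResidueField A))) ⊆
      ⋃ E : NumberFieldIn, constk A E.1 := by
  rintro c ⟨x, rfl⟩
  obtain ⟨a, rfl⟩ := IsLocalRing.residue_surjective x
  obtain ⟨E, hE⟩ := exists_numberField_mem (a : Qbar)
  exact Set.mem_iUnion.mpr ⟨E, a, hE, rfl⟩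

theorem constAll_subset_iUnion_constA :
    constAll A ⊆ ⋃ E : NumberFieldIn, constA A E.1 := by
  rintro c ⟨a, rfl⟩
  obtain ⟨E, hE⟩ := exists_numberField_mem (a : Qbar)
  exact Set.mem_iUnion.mpr ⟨E, a, hE, rfl⟩

theorem range_subset_iUnion_constE :
    Set.range (algebraMap Qbar (LaurentSeries Qbar)) ⊆ ⋃ E : NumberFieldIn, constE E.1 := by
  rintro c ⟨a, rfl⟩
  obtain ⟨E, hE⟩ := exists_numberField_mem a
  exact Set.mem_iUnion.mpr ⟨E, a, hE, rfl⟩

/-- **Finite level in characteristic `ℓ`.**  An element of `F_{N,k}` integral over `k[s]` lies in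
`κ_E(j(q^d) : d ∣ N)` and is integral over `κ_E[s]`, for some number field `E ⊇ E₀`. -/
theorem exists_numberField_k (N : ℕ) (s : LaurentSeries (ResidueField A))
    (E₀ : NumberFieldIn) {c : LaurentSeries (ResidueField A)}
    (hc : c ∈ modularFunctionFieldFullC (ResidueField A) N)
    (hint : IsIntegral (Subring.closure
      (Set.range (algebraMap (ResidueField A) (LaurentSeries (ResidueField A))) ∪ {s})) c) :
    ∃ E : NumberFieldIn, E₀ ≤ E ∧
      c ∈ Subfield.closure (constk A E.1 ∪ divisorExpansionsC (ResidueField A) N) ∧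
      IsIntegral (Subring.closure (constk A E.1 ∪ {s})) c :=
  exists_level_ge (fun E : NumberFieldIn => constk A E.1) (constk_mono A)
    (divisorExpansionsC (ResidueField A) N) {s} (range_subset_iUnion_constk A) E₀ hc hint

/-- **Finite level in characteristic `0`** (`B_A = ⋃ B_{R_E}`).  An element of `F_N` integral over
`A[t]` lies in `E(j(q^d) : d ∣ N)` and is integral over `(A ∩ E)[t]`, for some number field
`E ⊇ E₀`. -/
theorem exists_numberField_A (N : ℕ) (t : LaurentSeries Qbar)
    (E₀ : NumberFieldIn) {b : LaurentSeries Qbar}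
    (hb : b ∈ Subfield.closure (Set.range (algebraMap Qbar (LaurentSeries Qbar)) ∪
      divisorExpansionsC Qbar N))
    (hint : IsIntegral (Subring.closure (constAll A ∪ {t})) b) :
    ∃ E : NumberFieldIn, E₀ ≤ E ∧
      b ∈ Subfield.closure (constE E.1 ∪ divisorExpansionsC Qbar N) ∧
      IsIntegral (Subring.closure (constA A E.1 ∪ {t})) b := by
  obtain ⟨E₁, h₁⟩ := exists_mem_subfield_closure (fun E : NumberFieldIn => constE E.1)
    (directed_of_monotone _ constE_mono) (divisorExpansionsC Qbar N)
    range_subset_iUnion_constE hb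
  obtain ⟨E₂, h₂⟩ := exists_isIntegral (fun E : NumberFieldIn => constA A E.1)
    (directed_of_monotone _ (constA_mono A)) {t} (constAll_subset_iUnion_constA A) hint
  obtain ⟨E₃, h₁₃, h₂₃⟩ := exists_ge_ge E₁ E₂
  obtain ⟨E, h₃, h₀⟩ := exists_ge_ge E₃ E₀
  refine ⟨E, h₀, ?_, ?_⟩
  · exact Subfield.closure_mono
      (Set.union_subset_union_left _ (constE_mono (h₁₃.trans h₃))) h₁
  · exact isIntegral_subring_mono (Subring.closure_mono
      (Set.union_subset_union_left _ (constA_mono A (h₂₃.trans h₃)))) h₂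

/-- **(H3) at the level of a number field `E`** (finite chart w.r.t. the coordinate `t`, with
reduction `s`): every element of `κ_E(j(q^d) : d ∣ N)` integral over `κ_E[s]` is the
coefficientwise reduction of a series `U ∈ A((q))` lying in `F_N` and integral over `A[t]`.
(Producers over the DVR `R = A ∩ E` prove more: `U ∈ R((q))`, `U ∈ E(j(q^d))`, integral over
`R[t]`; see `LiftAtLevel.of_strong`.) -/
def LiftAtLevel (N : ℕ) (E : IntermediateField ℚ Qbar) (t : LaurentSeries Qbar)
    (s : LaurentSeries (ResidueField A)) : Prop :=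
  ∀ c : LaurentSeries (ResidueField A),
    c ∈ Subfield.closure (constk A E ∪ divisorExpansionsC (ResidueField A) N) →
    IsIntegral (Subring.closure (constk A E ∪ {s})) c →
    ∃ U : LaurentSeries A, coeffMap A.subtype U ∈ modularFunctionFieldBar N ∧
      IsIntegral (Subring.closure (constAll A ∪ {t})) (coeffMap A.subtype U) ∧
      coeffMap (residue A) U = c

/-- The strong form of (H3) at level `E` (what the model over the DVR `A ∩ E` gives). -/
def StrongLiftAtLevel (N : ℕ) (E : IntermediateField ℚ Qbar) (t : LaurentSeries Qbar)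
    (s : LaurentSeries (ResidueField A)) : Prop :=
  ∀ c : LaurentSeries (ResidueField A),
    c ∈ Subfield.closure (constk A E ∪ divisorExpansionsC (ResidueField A) N) →
    IsIntegral (Subring.closure (constk A E ∪ {s})) c →
    ∃ U : LaurentSeries A, (∀ n : ℤ, ((U.coeff n : A) : Qbar) ∈ E) ∧
      coeffMap A.subtype U ∈ Subfield.closure (constE E ∪ divisorExpansionsC Qbar N) ∧
      IsIntegral (Subring.closure (constA A E ∪ {t})) (coeffMap A.subtype U) ∧
      coeffMap (residue A) U = c

/-- **Passage `R_E → A` for (H3)**: (H3) at the level of all number fields `E ⊇ E₀` gives (H3)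
over `A`: every element of `F_{N,k}` integral over `k[s]` is the coefficientwise reduction of a
series `U ∈ A((q))` lying in `F_N` and integral over `A[t]`. -/
theorem lift_of_levels (N : ℕ) (t : LaurentSeries Qbar) (s : LaurentSeries (ResidueField A))
    (E₀ : NumberFieldIn) (h : ∀ E : NumberFieldIn, E₀ ≤ E → LiftAtLevel A N E.1 t s)
    {c : LaurentSeries (ResidueField A)}
    (hc : c ∈ modularFunctionFieldFullC (ResidueField A) N)
    (hint : IsIntegral (Subring.closure
      (Set.range (algebraMap (ResidueField A) (LaurentSeries (ResidueField A))) ∪ {s})) c) :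
    ∃ U : LaurentSeries A, coeffMap A.subtype U ∈ modularFunctionFieldBar N ∧
      IsIntegral (Subring.closure (constAll A ∪ {t})) (coeffMap A.subtype U) ∧
      coeffMap (residue A) U = c := by
  obtain ⟨E, hE, hcE, hintE⟩ := exists_numberField_k A N s E₀ hc hint
  exact h E hE c hcE hintE

theorem subfield_closure_constE_le (N : ℕ) (E : IntermediateField ℚ Qbar) :
    Subfield.closure (constE E ∪ divisorExpansionsC Qbar N) ≤
      (modularFunctionFieldFullC Qbar N).toSubfield := by
  rw [Subfield.closure_le]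
  rintro x (⟨a, -, rfl⟩ | hx)
  · exact (modularFunctionFieldFullC Qbar N).algebraMap_mem a
  · exact IntermediateField.subset_adjoin _ _ hx

end Fermat.Agent.S37.Red.H759

end

end
-- ===== PACK-END S37/Red/H759/Passage.lean

-- ===== PACK-BEGIN S37/H340/KronFrob.lean
section



/-!
# S37 / R3-K : the Kronecker polynomial in characteristic `ℓ` (helper340)

* `pow_char_eq_qExpand` : in characteristic `ℓ`, `f ^ ℓ = V (f^φ)` where `f^φ` is `f` with
  Frobenius applied to the coefficients (`coeffMap (frobenius R ℓ) f`) and `V = qExpand R ℓ`;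
* `kronMat_mul`, `kronMat_qExpand` : the regular representation `f ↦ kronMat ℓ f`;
* `kron_char` : over a domain of characteristic `ℓ`, `kron ℓ f = Y ^ ℓ - C (f^φ)`
  (**Kronecker congruence**).
-/

set_option autoImplicit false

noncomputable section

namespace Fermat.Agent.S37.H340

open ModularCurve Polynomial Matrix

variable {R : Type*} [CommRing R] (ℓ : ℕ) [NeZero ℓ]

section Frobenius

variable [hℓ : Fact ℓ.Prime] [CharP R ℓ]

omit [NeZero ℓ] in
/-- coefficients of the `ℓ`-th power of a power series in characteristic `ℓ` -/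
lemma powerSeries_coeff_pow_char (p : PowerSeries R) (n : ℕ) :
    PowerSeries.coeff n (p ^ ℓ) = if ℓ ∣ n then (PowerSeries.coeff (n / ℓ) p) ^ ℓ else 0 := by
  have h1 : PowerSeries.coeff n (p ^ ℓ) =
      PowerSeries.coeff n (((PowerSeries.trunc (n + 1) p : R[X]) : PowerSeries R) ^ ℓ) := by
    rw [← PowerSeries.coeff_coe_trunc_of_lt (Nat.lt_succ_self n) (f := p ^ ℓ),
      ← PowerSeries.trunc_trunc_pow, PowerSeries.coeff_coe_trunc_of_lt (Nat.lt_succ_self n)]
  rw [h1, ← Polynomial.coe_pow, Polynomial.coeff_coe, ← Polynomial.map_frobenius_expand,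
    Polynomial.coeff_map, Polynomial.coeff_expand hℓ.out.pos, frobenius_def]
  split_ifs with h
  · rw [PowerSeries.coeff_trunc, if_pos]
    exact lt_of_le_of_lt (Nat.div_le_self n ℓ) (Nat.lt_succ_self n)
  · exact zero_pow hℓ.out.ne_zero

omit [NeZero ℓ] hℓ in
/-- `LaurentSeries R` has characteristic `ℓ`. -/
lemma charP_laurentSeries : CharP (LaurentSeries R) ℓ :=
  charP_of_injective_ringHom (f := (HahnSeries.C : R →+* LaurentSeries R))
    HahnSeries.C_injective ℓ

/-- In characteristic `ℓ`: `f ^ ℓ = V (f^φ)`. -/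
theorem pow_char_eq_qExpand (f : LaurentSeries R) :
    f ^ ℓ = qExpand R ℓ (coeffMap (frobenius R ℓ) f) := by
  have := charP_laurentSeries (R := R) ℓ
  have key : (frobenius (LaurentSeries R) ℓ) =
      (qExpand R ℓ).comp (coeffMap (frobenius R ℓ)) := by
    refine IsLocalization.ringHom_ext (Submonoid.powers (PowerSeries.X : PowerSeries R)) ?_
    ext p : 1
    simp only [RingHom.comp_apply, LaurentSeries.coe_algebraMap, frobenius_def]
    rw [← _root_.map_pow, coeffMap_ofPowerSeries]
    ext k
    rw [qExpand_coeff]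
    rcases le_or_gt 0 k with hk | hk
    · lift k to ℕ using hk
      rw [HahnSeries.ofPowerSeries_apply_coeff, powerSeries_coeff_pow_char]
      have hdvd : ((ℓ : ℤ) ∣ (k : ℤ)) ↔ ℓ ∣ k := Int.natCast_dvd_natCast
      by_cases h : ℓ ∣ k
      · rw [if_pos h, if_pos (hdvd.mpr h)]
        have : ((k : ℤ) / (ℓ : ℤ)) = ((k / ℓ : ℕ) : ℤ) := by push_cast; rfl
        rw [this, HahnSeries.ofPowerSeries_apply_coeff, PowerSeries.coeff_map, frobenius_def]
      · rw [if_neg h, if_neg (fun h' => h (hdvd.mp h'))]
    · rw [ofPowerSeries_coeff_of_neg _ hk]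
      split_ifs with h
      · rw [ofPowerSeries_coeff_of_neg]
        have hℓpos : (0 : ℤ) < ℓ := by exact_mod_cast hℓ.out.pos
        exact Int.ediv_neg_of_neg_of_pos hk hℓpos
      · rfl
  have := congrArg (fun φ : LaurentSeries R →+* LaurentSeries R => φ f) key
  simpa [frobenius_def] using this

end Frobenius

section RegularRep

/-- sections of a decomposed series -/
lemma sect_sum (h : Fin ℓ → LaurentSeries R) (k : Fin ℓ) :
    sect ℓ ((k : ℕ) : ℤ)
      (∑ i : Fin ℓ, (qq : LaurentSeries R) ^ (i : ℕ) * qExpand R ℓ (h i)) = h k := by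
  have hℓ : (0 : ℤ) < ℓ := by exact_mod_cast Nat.pos_of_ne_zero (NeZero.ne ℓ)
  ext n
  rw [sect_coeff, HahnSeries.coeff_sum]
  simp only [coeff_qq_pow_mul, qExpand_coeff]
  rw [Finset.sum_eq_single k]
  · have : (ℓ : ℤ) * n + (k : ℕ) - (k : ℕ) = (ℓ : ℤ) * n := by ring
    rw [this, if_pos (dvd_mul_right _ _), Int.mul_ediv_cancel_left _ hℓ.ne']
  · intro i _ hi
    rw [if_neg]
    intro hdvd
    apply hi
    have h1 : (ℓ : ℤ) ∣ ((k : ℕ) : ℤ) - ((i : ℕ) : ℤ) := by
      have h2 : (ℓ : ℤ) * n + (k : ℕ) - (i : ℕ) = (ℓ : ℤ) * n + (((k : ℕ) : ℤ) - (i : ℕ)) := by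
        ring
      rw [h2] at hdvd
      exact (Int.dvd_add_right (dvd_mul_right _ _)).mp hdvd
    have hi1 : ((i : ℕ) : ℤ) < ℓ := by exact_mod_cast i.2
    have hi0 : (0 : ℤ) ≤ ((i : ℕ) : ℤ) := Int.natCast_nonneg _
    have hk1 : ((k : ℕ) : ℤ) < ℓ := by exact_mod_cast k.2
    have hk0 : (0 : ℤ) ≤ ((k : ℕ) : ℤ) := Int.natCast_nonneg _
    obtain ⟨c, hc⟩ := h1
    have hc0 : c = 0 := by
      by_contra hne
      rcases lt_or_gt_of_ne hne with h | h
      · have : (ℓ : ℤ) * c ≤ -ℓ := by nlinarith
        omega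
      · have : (ℓ : ℤ) ≤ (ℓ : ℤ) * c := by nlinarith
        omega
    rw [hc0, _root_.MulZeroClass.mul_zero] at hc
    ext
    omega
  · intro h; exact absurd (Finset.mem_univ _) h

/-- uniqueness of the decomposition -/
lemma decomp_unique {h h' : Fin ℓ → LaurentSeries R}
    (e : ∑ i : Fin ℓ, (qq : LaurentSeries R) ^ (i : ℕ) * qExpand R ℓ (h i) =
      ∑ i : Fin ℓ, (qq : LaurentSeries R) ^ (i : ℕ) * qExpand R ℓ (h' i)) : h = h' := by
  funext k
  rw [← sect_sum ℓ h k, e, sect_sum ℓ h' k]

/-- `f ↦ kronMat ℓ f` is multiplicative. -/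
theorem kronMat_mul (f g : LaurentSeries R) :
    kronMat ℓ (f * g) = kronMat ℓ g * kronMat ℓ f := by
  refine Matrix.ext fun k j => ?_
  have e : ∑ i : Fin ℓ, (qq : LaurentSeries R) ^ (i : ℕ) * qExpand R ℓ (kronMat ℓ (f * g) i j) =
      ∑ i : Fin ℓ, (qq : LaurentSeries R) ^ (i : ℕ) *
        qExpand R ℓ ((kronMat ℓ g * kronMat ℓ f) i j) := by
    rw [← qq_pow_mul_eq_sum, ← _root_.mul_assoc, qq_pow_mul_eq_sum ℓ f j, Finset.sum_mul]
    have h1 : ∀ i : Fin ℓ, (qq : LaurentSeries R) ^ (i : ℕ) * qExpand R ℓ (kronMat ℓ f i j) * g =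
        ∑ k' : Fin ℓ, (qq : LaurentSeries R) ^ (k' : ℕ) *
          qExpand R ℓ (kronMat ℓ g k' i * kronMat ℓ f i j) := by
      intro i
      rw [mul_right_comm, qq_pow_mul_eq_sum ℓ g i, Finset.sum_mul]
      refine Finset.sum_congr rfl fun k' _ => ?_
      rw [_root_.map_mul]; ring
    simp_rw [h1]
    rw [Finset.sum_comm]
    refine Finset.sum_congr rfl fun k' _ => ?_
    rw [Matrix.mul_apply, _root_.map_sum, Finset.mul_sum]
  exact congrFun (decomp_unique ℓ (h := fun i => kronMat ℓ (f * g) i j)
    (h' := fun i => (kronMat ℓ g * kronMat ℓ f) i j) e) k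

theorem kronMat_qExpand (g : LaurentSeries R) :
    kronMat ℓ (qExpand R ℓ g) = Matrix.scalar (Fin ℓ) g := by
  have hℓ : (0 : ℤ) < ℓ := by exact_mod_cast Nat.pos_of_ne_zero (NeZero.ne ℓ)
  ext i j n
  rw [kronMat_apply, sect_coeff, qExpand_coeff, Matrix.scalar_apply, Matrix.diagonal_apply]
  by_cases hij : i = j
  · subst hij
    have : (ℓ : ℤ) * n + (((i : ℕ) : ℤ) - (i : ℕ)) = (ℓ : ℤ) * n := by ring
    rw [this, if_pos (dvd_mul_right _ _), Int.mul_ediv_cancel_left _ hℓ.ne', if_pos rfl]
  · rw [if_neg hij, if_neg]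
    · simp
    · intro hdvd
      apply hij
      have h1 : (ℓ : ℤ) ∣ ((i : ℕ) : ℤ) - ((j : ℕ) : ℤ) :=
        (Int.dvd_add_right (dvd_mul_right _ _)).mp hdvd
      have hi1 : ((i : ℕ) : ℤ) < ℓ := by exact_mod_cast i.2
      have hi0 : (0 : ℤ) ≤ ((i : ℕ) : ℤ) := Int.natCast_nonneg _
      have hj1 : ((j : ℕ) : ℤ) < ℓ := by exact_mod_cast j.2
      have hj0 : (0 : ℤ) ≤ ((j : ℕ) : ℤ) := Int.natCast_nonneg _
      obtain ⟨c, hc⟩ := h1
      have hc0 : c = 0 := by
        by_contra hne
        rcases lt_or_gt_of_ne hne with h | h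
        · have : (ℓ : ℤ) * c ≤ -ℓ := by nlinarith
          omega
        · have : (ℓ : ℤ) ≤ (ℓ : ℤ) * c := by nlinarith
          omega
      rw [hc0, _root_.MulZeroClass.mul_zero] at hc
      ext
      omega

theorem kronMat_one : kronMat ℓ (1 : LaurentSeries R) = 1 := by
  have := kronMat_qExpand ℓ (1 : LaurentSeries R)
  rwa [_root_.map_one, _root_.map_one] at this

theorem kronMat_pow (f : LaurentSeries R) (n : ℕ) : kronMat ℓ (f ^ n) = kronMat ℓ f ^ n := by
  induction n with
  | zero => rw [pow_zero, pow_zero, kronMat_one]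
  | succ n ih => rw [pow_succ, kronMat_mul, ih, pow_succ']

end RegularRep

section Congruence

variable [hℓ : Fact ℓ.Prime] [CharP R ℓ] [IsDomain R]

/-- **Kronecker congruence**: in characteristic `ℓ`, the Kronecker polynomial of `f` is
`Y ^ ℓ - f^φ`, where `f^φ` is `f` with Frobenius applied to the coefficients. -/
theorem kron_char (f : LaurentSeries R) :
    kron ℓ f = X ^ ℓ - C (coeffMap (frobenius R ℓ) f) := by
  classical
  have := charP_laurentSeries (R := R) ℓ
  set g := coeffMap (frobenius R ℓ) f with hg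
  have hVg : qExpand R ℓ g = f ^ ℓ := (pow_char_eq_qExpand ℓ f).symm
  -- `M ^ ℓ = g • 1`
  have hMpow : kronMat ℓ f ^ ℓ = Matrix.scalar (Fin ℓ) g := by
    rw [← kronMat_pow, pow_char_eq_qExpand, kronMat_qExpand]
  set M' : Matrix (Fin ℓ) (Fin ℓ) (LaurentSeries R) :=
    (qExpand R ℓ).mapMatrix (kronMat ℓ f) with hM'
  have hM'pow : M' ^ ℓ = Matrix.scalar (Fin ℓ) (f ^ ℓ) := by
    rw [hM', ← _root_.map_pow, hMpow, ← hVg]
    ext i j
    simp [Matrix.scalar_apply, Matrix.diagonal_apply, apply_ite]
  have hcomm : Commute M' (Matrix.scalar (Fin ℓ) f) :=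
    (Matrix.scalar_commute f (fun r' => Commute.all _ _) M').symm
  have hNpow : (M' - Matrix.scalar (Fin ℓ) f) ^ ℓ = 0 := by
    rw [sub_pow_char_of_commute ℓ hcomm, hM'pow, ← _root_.map_pow, sub_self]
  have hnil : IsNilpotent (M' - Matrix.scalar (Fin ℓ) f) := ⟨ℓ, hNpow⟩
  have h1 : (M' - Matrix.scalar (Fin ℓ) f).charpoly = X ^ ℓ := by
    have h := Matrix.isNilpotent_charpoly_sub_pow_of_isNilpotent hnil
    rw [Fintype.card_fin] at h
    exact sub_eq_zero.mp (IsReduced.eq_zero _ h)
  rw [Matrix.charpoly_sub_scalar] at h1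
  have h2 : M'.charpoly = (X - C f) ^ ℓ := by
    have h3 := congrArg (fun P : (LaurentSeries R)[X] => P.comp (X - C f)) h1
    simp only [Polynomial.comp_assoc, Polynomial.add_comp, Polynomial.X_comp,
      Polynomial.C_comp, sub_add_cancel, Polynomial.comp_X, Polynomial.pow_comp] at h3
    exact h3
  have h4 : (kron ℓ f).map (qExpand R ℓ) = (X ^ ℓ - C g : (LaurentSeries R)[X]).map
      (qExpand R ℓ) := by
    rw [kron, ← Matrix.charpoly_map]
    change M'.charpoly = _
    rw [h2, sub_pow_char, Polynomial.map_sub, Polynomial.map_pow, Polynomial.map_X,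
      Polynomial.map_C, hVg, ← C_pow]
  exact Polynomial.map_injective _ (qExpand_injective ℓ) h4

end Congruence

end Fermat.Agent.S37.H340

end
end
-- ===== PACK-END S37/H340/KronFrob.lean

-- ===== PACK-BEGIN S37/H939/Fibre.lean
section



/-!
# Fibres of a finite free `k[X]`-algebra over rational points
(row S37 / S18, piece b2 = R2; seat helper939)
-/

set_option autoImplicit false
set_option linter.unusedSectionVars false

namespace Fermat.Agent.S37.H939

open Polynomial Matrix

variable {k : Type*} [Field k]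

section Defs

variable (T : Type*) [CommRing T] [Algebra k[X] T]

/-- The ideal of the fibre of `T` over `X = c`. -/
def fibreIdeal (c : k) : Ideal T := Ideal.span {algebraMap k[X] T (X - C c)}

variable [Algebra k T]

/-- The dimension of the reduced fibre over `X = c`
(the number of geometric points of the fibre when `k` is perfect). -/
noncomputable def redRank (c : k) : ℕ := Module.finrank k (T ⧸ (fibreIdeal T c).radical)

end Defs

section Coord

variable {T : Type*} [CommRing T] [Algebra k[X] T] [Algebra k T] [IsScalarTower k k[X] T]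
variable {ι : Type*} [Fintype ι] [DecidableEq ι] (b : Module.Basis ι k[X] T)

lemma mem_fibreIdeal_iff (c : k) (z : T) :
    z ∈ fibreIdeal T c ↔ ∀ i, (X - C c) ∣ b.repr z i := by
  rw [fibreIdeal, Ideal.mem_span_singleton]
  constructor
  · rintro ⟨y, rfl⟩ i
    rw [← Algebra.smul_def, _root_.map_smul]
    exact ⟨b.repr y i, by simp⟩
  · intro h
    choose q hq using h
    refine ⟨∑ i, q i • b i, ?_⟩
    rw [← Algebra.smul_def, Finset.smul_sum]
    conv_lhs => rw [← b.sum_repr z]
    refine Finset.sum_congr rfl fun i _ => ?_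
    rw [hq i, _root_.SemigroupAction.mul_smul]

/-- Coordinates modulo `X - c`. -/
noncomputable def coord (c : k) : T →ₗ[k] (ι → k) where
  toFun z i := (b.repr z i).eval c
  map_add' x y := by ext i; simp
  map_smul' a z := by
    ext i
    have : a • z = (C a : k[X]) • z := by
      rw [← Polynomial.algebraMap_eq, algebraMap_smul]
    simp [this]

@[simp] lemma coord_apply (c : k) (z : T) (i : ι) : coord b c z i = (b.repr z i).eval c := rfl

/-- The constant lift of a coordinate vector. -/
noncomputable def lift : (ι → k) →ₗ[k] T where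
  toFun v := ∑ i, (C (v i) : k[X]) • b i
  map_add' x y := by simp [add_smul, Finset.sum_add_distrib]
  map_smul' a v := by
    simp only [Pi.smul_apply, smul_eq_mul, RingHom.id_apply, Finset.smul_sum]
    refine Finset.sum_congr rfl fun i _ => ?_
    rw [C_mul, _root_.SemigroupAction.mul_smul, ← Polynomial.algebraMap_eq, algebraMap_smul]

lemma lift_apply (v : ι → k) : lift b v = ∑ i, (C (v i) : k[X]) • b i := rfl

@[simp] lemma repr_lift (v : ι → k) (i : ι) : b.repr (lift b v) i = C (v i) := by
  simp [lift_apply, Finsupp.single_apply, Finset.sum_apply']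

@[simp] lemma coord_lift (c : k) (v : ι → k) : coord b c (lift b v) = v := by
  ext i; simp

lemma coord_eq_zero_iff (c : k) (z : T) : coord b c z = 0 ↔ z ∈ fibreIdeal T c := by
  rw [mem_fibreIdeal_iff b]
  constructor
  · intro h i
    rw [Polynomial.dvd_iff_isRoot]
    exact congrFun h i
  · intro h
    ext i
    exact Polynomial.dvd_iff_isRoot.mp (h i)

lemma sub_lift_coord_mem (c : k) (z : T) : z - lift b (coord b c z) ∈ fibreIdeal T c := by
  rw [← coord_eq_zero_iff b, _root_.map_sub, coord_lift, sub_self]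

lemma coord_surjective (c : k) : Function.Surjective (coord b c) :=
  fun v => ⟨lift b v, coord_lift b c v⟩

end Coord

end Fermat.Agent.S37.H939

namespace Fermat.Agent.S37.H939

open Polynomial Matrix

variable {k : Type*} [Field k]

section Trace

variable {T : Type*} [CommRing T] [Algebra k[X] T] [Algebra k T] [IsScalarTower k k[X] T]
variable {ι : Type*} [Fintype ι] [DecidableEq ι] (b : Module.Basis ι k[X] T)

include b in
/-- The trace of an element which is nilpotent on the fibre vanishes at `c`. -/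
lemma eval_trace_eq_zero_of_mem_radical (c : k) {y : T} (hy : y ∈ (fibreIdeal T c).radical) :
    (Algebra.trace k[X] T y).eval c = 0 := by
  obtain ⟨m, hm⟩ := hy
  rw [fibreIdeal, Ideal.mem_span_singleton] at hm
  obtain ⟨z, hz⟩ := hm
  set A : Matrix ι ι k[X] := Algebra.leftMulMatrix b y with hA
  have h1 : A ^ m = (X - C c) • Algebra.leftMulMatrix b z := by
    rw [hA, ← _root_.map_pow, hz, _root_.map_mul, AlgHom.commutes, Matrix.algebraMap_eq_diagonal]
    ext i j
    simp [Matrix.diagonal_mul]
  have h2 : ((evalRingHom c).mapMatrix A) ^ m = 0 := by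
    rw [← _root_.map_pow, h1]
    ext i j
    simp
  have h3 : IsNilpotent ((evalRingHom c).mapMatrix A).trace :=
    Matrix.isNilpotent_trace_of_isNilpotent ⟨m, h2⟩
  have h4 : ((evalRingHom c).mapMatrix A).trace = 0 := h3.eq_zero
  rw [Algebra.trace_eq_matrix_trace b, ← hA]
  have h5 : ((evalRingHom c).mapMatrix A).trace = (evalRingHom c) A.trace := by
    simp [Matrix.trace, _root_.map_sum]
  rw [h5] at h4
  exact h4

/-- The rank of the trace matrix evaluated at `c` is at most the dimension of the reduced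
fibre. -/
theorem rank_traceMatrix_eval_le (c : k) :
    ((Algebra.traceMatrix k[X] b).map (evalRingHom c)).rank ≤ redRank T c := by
  classical
  set G : Matrix ι ι k := (Algebra.traceMatrix k[X] b).map (evalRingHom c) with hG
  let Rad : Ideal T := (fibreIdeal T c).radical
  let Ψ : (ι → k) →ₗ[k] T ⧸ Rad := (Ideal.Quotient.mkₐ k Rad).toLinearMap ∘ₗ lift b
  have hΨsurj : Function.Surjective Ψ := by
    intro q
    obtain ⟨z, rfl⟩ := Ideal.Quotient.mk_surjective q
    refine ⟨coord b c z, ?_⟩
    show Ideal.Quotient.mk Rad (lift b (coord b c z)) = Ideal.Quotient.mk Rad z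
    rw [eq_comm, Ideal.Quotient.eq]
    exact Ideal.le_radical (sub_lift_coord_mem b c z)
  have hker : LinearMap.ker Ψ ≤ LinearMap.ker G.mulVecLin := by
    intro v hv
    rw [LinearMap.mem_ker] at hv ⊢
    have hv' : lift b v ∈ Rad := by
      have : Ideal.Quotient.mk Rad (lift b v) = 0 := hv
      exact Ideal.Quotient.eq_zero_iff_mem.mp this
    ext i
    rw [Matrix.mulVecLin_apply, Pi.zero_apply]
    have hmem : b i * lift b v ∈ Rad := Rad.mul_mem_left _ hv'
    have h0 := eval_trace_eq_zero_of_mem_radical b c hmem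
    rw [lift_apply, Finset.mul_sum, _root_.map_sum, eval_finsetSum] at h0
    rw [← h0, Matrix.mulVec, dotProduct]
    refine Finset.sum_congr rfl fun j _ => ?_
    rw [hG, Matrix.map_apply, Algebra.traceMatrix_apply, Algebra.traceForm_apply,
      mul_smul_comm, _root_.map_smul, smul_eq_mul, eval_mul, eval_C, coe_evalRingHom, mul_comm]
  have h1 := LinearMap.finrank_range_add_finrank_ker G.mulVecLin
  have h2 := LinearMap.finrank_range_add_finrank_ker Ψ
  have h3 : Module.finrank k (LinearMap.ker Ψ) ≤ Module.finrank k (LinearMap.ker G.mulVecLin) :=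
    Submodule.finrank_mono hker
  have h4 : Module.finrank k (LinearMap.range Ψ) = redRank T c := by
    rw [LinearMap.range_eq_top.mpr hΨsurj, finrank_top]
    rfl
  have h5 : G.rank = Module.finrank k (LinearMap.range G.mulVecLin) := rfl
  omega

/-- **(II)** `(X - c) ^ (n - redRank)` divides the discriminant. -/
theorem pow_dvd_discr (c : k) :
    (X - C c) ^ (Fintype.card ι - redRank T c) ∣ Algebra.discr k[X] b := by
  have h := pow_corank_dvd_det (evalRingHom c)
    (fun a => ⟨C a, by simp⟩) (X - C c)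
    (fun s hs => Polynomial.dvd_iff_isRoot.mpr hs) (Algebra.traceMatrix k[X] b)
  rw [Algebra.discr_def]
  refine dvd_trans (pow_dvd_pow _ ?_) h
  have := rank_traceMatrix_eval_le b c
  omega

end Trace

end Fermat.Agent.S37.H939

end
-- ===== PACK-END S37/H939/Fibre.lean

-- ===== PACK-BEGIN S19/H19/Order.lean
section
/-
A3 / S19, helper19 — piece ORD, part 3: the Hopf algebra structure on an order of functions.

`M` an abelian group, `K` a field, `R → K` injective, `H ⊂ (M → K)` an `R`-subalgebra which is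
"good" (finite free with `K`-independent basis) and closed under `f ↦ f(s+t)` (with values in the
image of `H ⊗ H`), `f ↦ f 0` (with values in `R`) and `f ↦ f(-t)`.  Then `H` is a commutative,
cocommutative Hopf algebra over `R`.  Mathlib only.
-/


set_option autoImplicit false
set_option linter.unusedSectionVars false
set_option linter.style.haveILetI false

noncomputable section

namespace Fermat.Agent.S19.H19

open scoped BigOperators TensorProduct

variable {R : Type} [CommRing R] {K : Type} [Field K] [Algebra R K]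
variable {M : Type} [AddCommGroup M]

/-- An `R`-subalgebra of functions on an abelian group which is a "Hopf order". -/
structure IsOrder (H : Subalgebra R (M → K)) : Prop where
  alg_inj : Function.Injective (algebraMap R K)
  good : Good H.val
  comul_mem : ∀ f ∈ H, (fun p : M × M => f (p.1 + p.2)) ∈ (prodMap H.val H.val).range
  counit_mem : ∀ f ∈ H, f 0 ∈ (Algebra.ofId R K).range
  anti_mem : ∀ f ∈ H, (fun m => f (-m)) ∈ H

namespace IsOrder

variable {H : Subalgebra R (M → K)} (hH : IsOrder H)

/-- Evaluation `H ⊗ H → (M × M → K)`. -/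
abbrev E₂ (H : Subalgebra R (M → K)) : H ⊗[R] H →ₐ[R] (M × M → K) := prodMap H.val H.val

/-- Evaluation `H ⊗ (H ⊗ H) → (M × (M × M) → K)`. -/
abbrev E₃ (H : Subalgebra R (M → K)) : H ⊗[R] (H ⊗[R] H) →ₐ[R] (M × (M × M) → K) :=
  prodMap H.val (E₂ H)

include hH in
theorem E₂_injective : Function.Injective (E₂ H) := (hH.good.prod hH.good).injective hH.alg_inj

include hH in
theorem E₃_injective : Function.Injective (E₃ H) :=
  (hH.good.prod (hH.good.prod hH.good)).injective hH.alg_inj

/-- `f ↦ ((s,t) ↦ f (s+t))`. -/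
def addFun (H : Subalgebra R (M → K)) : H →ₐ[R] (M × M → K) :=
  (pullback R K (fun p : M × M => p.1 + p.2)).comp H.val

/-- The comultiplication. -/
def comul : H →ₐ[R] H ⊗[R] H :=
  ((AlgEquiv.ofInjective (E₂ H) hH.E₂_injective).symm : (E₂ H).range →ₐ[R] H ⊗[R] H).comp
    ((addFun H).codRestrict (E₂ H).range (fun f => hH.comul_mem f f.2))

theorem E₂_comul (h : H) (p : M × M) : E₂ H (hH.comul h) p = (h : M → K) (p.1 + p.2) := by
  have h1 : E₂ H (hH.comul h) = ((addFun H).codRestrict (E₂ H).range
      (fun f => hH.comul_mem f f.2) h : M × M → K) := by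
    have := (AlgEquiv.ofInjective (E₂ H) hH.E₂_injective).apply_symm_apply
      ((addFun H).codRestrict (E₂ H).range (fun f => hH.comul_mem f f.2) h)
    exact congrArg Subtype.val this
  rw [h1]
  rfl

/-- The counit. -/
def counit : H →ₐ[R] R :=
  ((AlgEquiv.ofInjective (Algebra.ofId R K) hH.alg_inj).symm :
      (Algebra.ofId R K).range →ₐ[R] R).comp
    (((Pi.evalAlgHom R (fun _ : M => K) 0).comp H.val).codRestrict (Algebra.ofId R K).range
      (fun f => hH.counit_mem f f.2))

theorem algebraMap_counit (h : H) : algebraMap R K (hH.counit h) = (h : M → K) 0 := by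
  have := (AlgEquiv.ofInjective (Algebra.ofId R K) hH.alg_inj).apply_symm_apply
      (((Pi.evalAlgHom R (fun _ : M => K) 0).comp H.val).codRestrict (Algebra.ofId R K).range
      (fun f => hH.counit_mem f f.2) h)
  exact congrArg Subtype.val this

/-- The antipode. -/
def antipode : H →ₐ[R] H :=
  ((pullback R K (fun m : M => -m)).comp H.val).codRestrict H (fun f => hH.anti_mem f f.2)

theorem antipode_apply (h : H) (m : M) : (hH.antipode h : M → K) m = (h : M → K) (-m) := rfl

/-! ### Naturality lemmas -/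

theorem E₂_tmul (a b : H) (p : M × M) :
    E₂ H (a ⊗ₜ[R] b) p = (a : M → K) p.1 * (b : M → K) p.2 := by
  simp [E₂]

theorem E₃_tmul (a : H) (y : H ⊗[R] H) (p : M × (M × M)) :
    E₃ H (a ⊗ₜ[R] y) p = (a : M → K) p.1 * E₂ H y p.2 := by
  simp [E₃]

theorem E₃_assoc_tmul (y : H ⊗[R] H) (b : H) (p : M × (M × M)) :
    E₃ H (Algebra.TensorProduct.assoc R R R H H H (y ⊗ₜ[R] b)) p =
      E₂ H y (p.1, p.2.1) * (b : M → K) p.2.2 := by
  induction y using TensorProduct.induction_on with
  | zero => simp
  | tmul a a' =>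
    rw [Algebra.TensorProduct.assoc_tmul, E₃_tmul, E₂_tmul, E₂_tmul, mul_assoc]
  | add x y hx hy =>
    rw [TensorProduct.add_tmul, map_add, map_add, map_add, Pi.add_apply, Pi.add_apply, hx, hy,
      add_mul]

theorem E₃_assoc_map (x : H ⊗[R] H) (p : M × (M × M)) :
    E₃ H (Algebra.TensorProduct.assoc R R R H H H
        (Algebra.TensorProduct.map hH.comul (AlgHom.id R H) x)) p =
      E₂ H x (p.1 + p.2.1, p.2.2) := by
  induction x using TensorProduct.induction_on with
  | zero => simp
  | tmul a b =>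
    rw [Algebra.TensorProduct.map_tmul, E₃_assoc_tmul, hH.E₂_comul, E₂_tmul]
    rfl
  | add x y hx hy =>
    rw [map_add, map_add, map_add, map_add, Pi.add_apply, Pi.add_apply, hx, hy]

theorem E₃_map (x : H ⊗[R] H) (p : M × (M × M)) :
    E₃ H (Algebra.TensorProduct.map (AlgHom.id R H) hH.comul x) p =
      E₂ H x (p.1, p.2.1 + p.2.2) := by
  induction x using TensorProduct.induction_on with
  | zero => simp
  | tmul a b =>
    rw [Algebra.TensorProduct.map_tmul, E₃_tmul, hH.E₂_comul, E₂_tmul]
    rfl
  | add x y hx hy =>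
    rw [map_add, map_add, map_add, Pi.add_apply, Pi.add_apply, hx, hy]

theorem lid_map (x : H ⊗[R] H) (m : M) :
    ((Algebra.TensorProduct.lid R H
        (Algebra.TensorProduct.map hH.counit (AlgHom.id R H) x) : H) : M → K) m =
      E₂ H x (0, m) := by
  induction x using TensorProduct.induction_on with
  | zero => simp
  | tmul a b =>
    rw [Algebra.TensorProduct.map_tmul, Algebra.TensorProduct.lid_tmul, E₂_tmul,
      ← hH.algebraMap_counit]
    simp [_root_.Algebra.smul_def]
  | add x y hx hy =>
    rw [map_add, map_add, map_add]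
    simp only [Subalgebra.coe_add, Pi.add_apply]
    rw [hx, hy]

theorem rid_map (x : H ⊗[R] H) (m : M) :
    ((Algebra.TensorProduct.rid R R H
        (Algebra.TensorProduct.map (AlgHom.id R H) hH.counit x) : H) : M → K) m =
      E₂ H x (m, 0) := by
  induction x using TensorProduct.induction_on with
  | zero => simp
  | tmul a b =>
    rw [Algebra.TensorProduct.map_tmul, Algebra.TensorProduct.rid_tmul, E₂_tmul,
      ← hH.algebraMap_counit]
    simp [_root_.Algebra.smul_def, mul_comm]
  | add x y hx hy =>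
    rw [map_add, map_add, map_add]
    simp only [Subalgebra.coe_add, Pi.add_apply]
    rw [hx, hy]

theorem E₂_comm (x : H ⊗[R] H) (p : M × M) :
    E₂ H (TensorProduct.comm R H H x) p = E₂ H x (p.2, p.1) := by
  induction x using TensorProduct.induction_on with
  | zero => simp
  | tmul a b =>
    rw [TensorProduct.comm_tmul, E₂_tmul, E₂_tmul, mul_comm]
  | add x y hx hy =>
    rw [map_add, map_add, map_add, Pi.add_apply, Pi.add_apply, hx, hy]

theorem lift_tmul_apply (f g : H →ₐ[R] H) (x : H ⊗[R] H) (m : M) :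
    ((Algebra.TensorProduct.lift f g (fun _ _ => Commute.all _ _) x : H) : M → K) m =
      E₂ H (Algebra.TensorProduct.map f g x) (m, m) := by
  induction x using TensorProduct.induction_on with
  | zero => simp
  | tmul a b =>
    rw [Algebra.TensorProduct.lift_tmul, Algebra.TensorProduct.map_tmul, E₂_tmul]
    rfl
  | add x y hx hy =>
    rw [map_add, map_add, map_add]
    simp only [Subalgebra.coe_add, Pi.add_apply]
    rw [hx, hy]

theorem E₂_map_antipode_id (x : H ⊗[R] H) (p : M × M) :
    E₂ H (Algebra.TensorProduct.map hH.antipode (AlgHom.id R H) x) p = E₂ H x (-p.1, p.2) := by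
  induction x using TensorProduct.induction_on with
  | zero => simp
  | tmul a b =>
    rw [Algebra.TensorProduct.map_tmul, E₂_tmul, E₂_tmul]
    rfl
  | add x y hx hy =>
    rw [map_add, map_add, map_add, Pi.add_apply, Pi.add_apply, hx, hy]

theorem E₂_map_id_antipode (x : H ⊗[R] H) (p : M × M) :
    E₂ H (Algebra.TensorProduct.map (AlgHom.id R H) hH.antipode x) p = E₂ H x (p.1, -p.2) := by
  induction x using TensorProduct.induction_on with
  | zero => simp
  | tmul a b =>
    rw [Algebra.TensorProduct.map_tmul, E₂_tmul, E₂_tmul]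
    rfl
  | add x y hx hy =>
    rw [map_add, map_add, map_add, Pi.add_apply, Pi.add_apply, hx, hy]

/-! ### The structures -/

/-- The bialgebra structure on an order. -/
@[reducible] def bialgebra : Bialgebra R H :=
  Bialgebra.ofAlgHom hH.comul hH.counit
    (by
      refine AlgHom.ext fun h => hH.E₃_injective (funext fun p => ?_)
      refine (hH.E₃_assoc_map (hH.comul h) p).trans ?_
      refine Eq.trans ?_ (hH.E₃_map (hH.comul h) p).symm
      rw [hH.E₂_comul, hH.E₂_comul, add_assoc])
    (by
      refine AlgHom.ext fun h => (Algebra.TensorProduct.lid R H).injective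
        (Subtype.ext (funext fun m => ?_))
      have h1 : (Algebra.TensorProduct.lid R H) ((Algebra.TensorProduct.lid R H).symm h) = h :=
        AlgEquiv.apply_symm_apply _ _
      refine (hH.lid_map (hH.comul h) m).trans ?_
      refine Eq.trans ?_ (congrArg (fun x : H => (x : M → K) m) h1).symm
      rw [hH.E₂_comul]
      simp only [zero_add])
    (by
      refine AlgHom.ext fun h => (Algebra.TensorProduct.rid R R H).injective
        (Subtype.ext (funext fun m => ?_))
      have h1 : (Algebra.TensorProduct.rid R R H) ((Algebra.TensorProduct.rid R R H).symm h) = h :=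
        AlgEquiv.apply_symm_apply _ _
      refine (hH.rid_map (hH.comul h) m).trans ?_
      refine Eq.trans ?_ (congrArg (fun x : H => (x : M → K) m) h1).symm
      rw [hH.E₂_comul]
      simp only [add_zero])

theorem bialgebra_comul (h : H) :
    letI := hH.bialgebra
    Coalgebra.comul (R := R) h = hH.comul h := rfl

theorem bialgebra_counit (h : H) :
    letI := hH.bialgebra
    Coalgebra.counit (R := R) h = hH.counit h := rfl

/-- The Hopf algebra structure on an order. -/
@[reducible] def hopfAlgebra : HopfAlgebra R H :=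
  letI := hH.bialgebra
  HopfAlgebra.ofAlgHom hH.antipode
    (by
      refine AlgHom.ext fun h => Subtype.ext (funext fun m => ?_)
      simp only [AlgHom.comp_apply, Bialgebra.comulAlgHom_apply, Bialgebra.counitAlgHom_apply]
      rw [lift_tmul_apply, hH.bialgebra_comul, hH.bialgebra_counit, hH.E₂_map_antipode_id,
        hH.E₂_comul]
      simp only [_root_.neg_add_cancel]
      rw [← hH.algebraMap_counit]
      rfl)
    (by
      refine AlgHom.ext fun h => Subtype.ext (funext fun m => ?_)
      simp only [AlgHom.comp_apply, Bialgebra.comulAlgHom_apply, Bialgebra.counitAlgHom_apply]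
      rw [lift_tmul_apply, hH.bialgebra_comul, hH.bialgebra_counit, hH.E₂_map_id_antipode,
        hH.E₂_comul]
      simp only [add_neg_cancel]
      rw [← hH.algebraMap_counit]
      rfl)

theorem isCocomm :
    letI := hH.bialgebra
    Coalgebra.IsCocomm R H := by
  let _ := hH.bialgebra
  refine ⟨LinearMap.ext fun h => hH.E₂_injective (funext fun p => ?_)⟩
  simp only [LinearMap.comp_apply, LinearEquiv.coe_coe]
  rw [hH.bialgebra_comul, E₂_comm, hH.E₂_comul, hH.E₂_comul, add_comm]

end IsOrder

end Fermat.Agent.S19.H19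

end

end
-- ===== PACK-END S19/H19/Order.lean

-- ===== PACK-BEGIN A2/H708/GaussInf.lean
section




/-!
# A2 (helper708): the Gauss valuation at `∞`, generic construction

`L ⊇ ℚ` a field, `A` a valuation subring of `L`, `F₀ ⊆ ℚ((t))` a field,
`F = laurentBaseChange L F₀ = L·F₀ ⊆ L((t))`.  Hypotheses:

* `IntGen F₀` : every element of `F₀` is a fraction of series with INTEGER coefficients lying in
  `F₀` (true for `modularFunctionFieldFull N`, all `N`: see `GaussInfModular.lean`);
* `AttainsMax A F₀` : a nonzero element of `F` with bounded denominators has a coefficient of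
  maximal valuation (true if `A` is noetherian, e.g. a DVR: `attainsMax_of_isNoetherianRing`;
  true for every valuation subring of `ℚ̄` over a prime: `GaussInfQbar.lean`).

Results:

* `exists_normal_form` : every `f ∈ Fˣ` satisfies `f · U₂ = c · U₁` with `c ∈ Lˣ` and `U₁, U₂`
  PRIMITIVE `A`-integral series in `F` (nonzero reduction).
* `gaussInf A F₀ hgen hmax : ValuationSubring F` : the Gauss valuation ring
  `{U₁ / U₂ : U₂ primitive}`; `mem_gaussInf_iff`, `algebraMap_mem_gaussInf_iff`
  (`V ∩ L = A`), `exists_const_mul_unit` (value group of `V` = value group of `A`),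
  `valuation_lt_one_iff'` (description of the maximal ideal).
* `redInf : gaussInf →+* k((t))`, `redInf_eq_zero_iff` (kernel = maximal ideal),
  `redInf_of_incl` (on integral series it is the coefficientwise reduction).
-/

set_option autoImplicit false

noncomputable section

namespace Fermat.Agent.A2.H708

open ModularCurve HahnSeries IntermediateField Fermat.Agent.S18.H602

variable {L : Type*} [Field L] (A : ValuationSubring L)

/-- inclusion of `A`-integral series. -/
abbrev incl : LaurentSeries A →+* LaurentSeries L := coeffMap A.subtype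

/-- reduction of `A`-integral series. -/
abbrev red : LaurentSeries A →+* LaurentSeries (IsLocalRing.ResidueField A) :=
  coeffMap (IsLocalRing.residue A)

/-- constants. -/
abbrev cst (c : L) : LaurentSeries L := algebraMap L (LaurentSeries L) c

theorem incl_injective : Function.Injective (incl A) :=
  coeffMap_injective A.subtype Subtype.val_injective

theorem coeff_cst_mul (c : L) (x : LaurentSeries L) (n : ℤ) :
    (cst c * x).coeff n = c * x.coeff n := by
  rw [cst, algebraMap_laurentSeries_eq_single, HahnSeries.coeff_single_zero_mul]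

theorem cst_mul (c d : L) : cst (c * d) = cst c * cst d := _root_.map_mul _ _ _

theorem cst_one : cst (1 : L) = 1 := _root_.map_one _

theorem cst_ne_zero {c : L} (hc : c ≠ 0) : cst c ≠ 0 := by
  intro h
  have := congrArg (fun z => z.coeff 0) h
  simp [cst, algebraMap_laurentSeries_eq_single] at this
  exact hc this

theorem cst_inv_mul_cst {c : L} (hc : c ≠ 0) : cst c⁻¹ * cst c = 1 := by
  rw [← cst_mul, inv_mul_cancel₀ hc, cst_one]

theorem cst_mul_cst_inv {c : L} (hc : c ≠ 0) : cst c * cst c⁻¹ = 1 := by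
  rw [← cst_mul, mul_inv_cancel₀ hc, cst_one]

/-- constants of `A` as integral series. -/
def cstA (a : A) : LaurentSeries A := HahnSeries.single 0 a

theorem incl_cstA (a : A) : incl A (cstA A a) = cst (a : L) := by
  rw [cstA, cst, algebraMap_laurentSeries_eq_single, coeffMap_single]
  rfl

theorem red_cstA (a : A) :
    red A (cstA A a) = HahnSeries.single 0 (IsLocalRing.residue A a) := by
  rw [cstA, coeffMap_single]

theorem coeff_incl (U : LaurentSeries A) (n : ℤ) : (incl A U).coeff n = ((U.coeff n : A) : L) :=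
  rfl

theorem red_eq_zero_iff (U : LaurentSeries A) :
    red A U = 0 ↔ ∀ n, A.valuation ((U.coeff n : A) : L) < 1 := by
  constructor
  · intro h n
    have := congrArg (fun z => z.coeff n) h
    simp only [coeffMap_coeff, HahnSeries.coeff_zero, IsLocalRing.residue_eq_zero_iff] at this
    exact (A.valuation_lt_one_iff _).mp this
  · intro h
    ext n
    simp only [coeffMap_coeff, HahnSeries.coeff_zero, IsLocalRing.residue_eq_zero_iff]
    exact (A.valuation_lt_one_iff _).mpr (h n)

theorem red_ne_zero_iff (U : LaurentSeries A) :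
    red A U ≠ 0 ↔ ∃ n, A.valuation ((U.coeff n : A) : L) = 1 := by
  rw [Ne, red_eq_zero_iff]
  constructor
  · intro h
    by_contra hcon
    apply h
    intro n
    have h1 : A.valuation ((U.coeff n : A) : L) ≤ 1 := (A.valuation_le_one_iff _).mpr (U.coeff n).2
    exact lt_of_le_of_ne h1 (fun h2 => hcon ⟨n, h2⟩)
  · rintro ⟨n, hn⟩ h
    exact (h n).ne hn

theorem ne_zero_of_red_ne_zero {U : LaurentSeries A} (h : red A U ≠ 0) : U ≠ 0 := by
  rintro rfl
  exact h (_root_.map_zero _)

theorem incl_ne_zero {U : LaurentSeries A} (h : U ≠ 0) : incl A U ≠ 0 :=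
  fun h0 => h (incl_injective A (h0.trans (_root_.map_zero _).symm))

/-- Lifting a series with coefficients in `A`. -/
theorem exists_incl_eq {x : LaurentSeries L} (h : ∀ n, x.coeff n ∈ A) :
    ∃ U : LaurentSeries A, incl A U = x :=
  exists_coeffMap_eq A.subtype Subtype.val_injective x (fun n => ⟨⟨x.coeff n, h n⟩, rfl⟩)

/-- If `c · (primitive) = integral` then `c ∈ A`. -/
theorem mem_of_cst_mul_prim {c : L} {U U' : LaurentSeries A} (hU : red A U ≠ 0)
    (h : cst c * incl A U = incl A U') : c ∈ A := by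
  obtain ⟨n, hn⟩ := (red_ne_zero_iff A U).mp hU
  have h1 := congrArg (fun z => z.coeff n) h
  simp only [coeff_cst_mul, coeff_incl] at h1
  rw [← A.valuation_le_one_iff]
  have h2 : A.valuation (c * ((U.coeff n : A) : L)) ≤ 1 := by
    rw [h1]; exact (A.valuation_le_one_iff _).mpr (U'.coeff n).2
  rwa [_root_.map_mul, hn, mul_one] at h2

/-- If `c · (primitive) = integral with zero reduction` then `v(c) < 1`. -/
theorem valuation_lt_one_of_cst_mul_prim {c : L} {U U' : LaurentSeries A} (hU : red A U ≠ 0)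
    (hU' : red A U' = 0) (h : cst c * incl A U = incl A U') : A.valuation c < 1 := by
  obtain ⟨n, hn⟩ := (red_ne_zero_iff A U).mp hU
  have h1 := congrArg (fun z => z.coeff n) h
  simp only [coeff_cst_mul, coeff_incl] at h1
  have h2 : A.valuation (c * ((U.coeff n : A) : L)) < 1 := by
    rw [h1]; exact (red_eq_zero_iff A U').mp hU' n
  rwa [_root_.map_mul, hn, mul_one] at h2

/-- `c · integral` with `v(c) < 1` has zero reduction. -/
theorem red_eq_zero_of_cst_mul {c : L} (hc : A.valuation c < 1) {U U' : LaurentSeries A}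
    (h : cst c * incl A U = incl A U') : red A U' = 0 := by
  rw [red_eq_zero_iff]
  intro n
  have h1 := congrArg (fun z => z.coeff n) h
  simp only [coeff_cst_mul, coeff_incl] at h1
  rw [← h1, _root_.map_mul]
  calc A.valuation c * A.valuation ((U.coeff n : A) : L) ≤ A.valuation c * 1 := by
        exact mul_le_mul_right ((A.valuation_le_one_iff _).mpr (U.coeff n).2) _
    _ = A.valuation c := mul_one _
    _ < 1 := hc


/-! ## Attained maximum and normalisation -/

section attained

variable [Algebra ℚ L] (F₀ : IntermediateField ℚ (LaurentSeries ℚ))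

/-- A nonzero element of `F = L·F₀` with bounded denominators has a coefficient of maximal
valuation. -/
def AttainsMax : Prop :=
  ∀ x : LaurentSeries L, x ∈ laurentBaseChange L F₀ → x ≠ 0 →
    (∃ d : L, d ≠ 0 ∧ ∀ n, d * x.coeff n ∈ A) →
    ∃ n₀, x.coeff n₀ ≠ 0 ∧ ∀ n, A.valuation (x.coeff n) ≤ A.valuation (x.coeff n₀)

omit [Algebra ℚ L] in
/-- The maximum is attained for every bounded series when `A` is noetherian (e.g. a DVR). -/
theorem exists_max_coeff_of_isNoetherianRing [IsNoetherianRing A] {x : LaurentSeries L}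
    (hx0 : x ≠ 0) (hb : ∃ d : L, d ≠ 0 ∧ ∀ n, d * x.coeff n ∈ A) :
    ∃ n₀, x.coeff n₀ ≠ 0 ∧ ∀ n, A.valuation (x.coeff n) ≤ A.valuation (x.coeff n₀) := by
  classical
  obtain ⟨d, hd0, hd⟩ := hb
  have hM : Submodule.span A (Set.range x.coeff) ≤ Submodule.span A {d⁻¹} := by
    rw [Submodule.span_le]
    rintro _ ⟨n, rfl⟩
    rw [SetLike.mem_coe, Submodule.mem_span_singleton]
    refine ⟨⟨d * x.coeff n, hd n⟩, ?_⟩
    show (d * x.coeff n) * d⁻¹ = x.coeff n
    field_simp
  have hfg : (Submodule.span A (Set.range x.coeff)).FG :=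
    Submodule.FG.of_le (Submodule.fg_span_singleton _) hM
  obtain ⟨s, hs, hspan⟩ := (Submodule.fg_span_iff_fg_span_finset_subset _).mp hfg
  obtain ⟨n₁, hn₁⟩ : ∃ n, x.coeff n ≠ 0 := by
    by_contra h
    push Not at h
    exact hx0 (HahnSeries.ext (funext h))
  have hsne : s.Nonempty := by
    by_contra h
    rw [Finset.not_nonempty_iff_eq_empty] at h
    rw [h, Finset.coe_empty, Submodule.span_empty] at hspan
    have : x.coeff n₁ ∈ Submodule.span A (Set.range x.coeff) :=
      Submodule.subset_span ⟨n₁, rfl⟩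
    rw [hspan, Submodule.mem_bot] at this
    exact hn₁ this
  obtain ⟨e₀, he₀, hmax⟩ := Finset.exists_max_image s (fun e => A.valuation e) hsne
  obtain ⟨n₀, rfl⟩ := hs he₀
  have key : ∀ z ∈ Submodule.span A (s : Set L), A.valuation z ≤ A.valuation (x.coeff n₀) := by
    intro z hz
    induction hz using Submodule.span_induction with
    | mem z hz => exact hmax z hz
    | zero => simp
    | add a b _ _ ha hb => exact (A.valuation.map_add a b).trans (max_le ha hb)
    | smul r z _ hz =>
      have : r • z = (r : L) * z := rfl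
      rw [this, _root_.map_mul]
      calc A.valuation (r : L) * A.valuation z ≤ 1 * A.valuation z := by
            exact mul_le_mul_left ((A.valuation_le_one_iff _).mpr r.2) _
        _ = A.valuation z := one_mul _
        _ ≤ _ := hz
  have hall : ∀ n, A.valuation (x.coeff n) ≤ A.valuation (x.coeff n₀) := fun n =>
    key _ (hspan ▸ Submodule.subset_span ⟨n, rfl⟩)
  refine ⟨n₀, ?_, hall⟩
  intro h0
  have h1 := hall n₁
  rw [h0, _root_.map_zero] at h1
  have h2 : A.valuation (x.coeff n₁) = 0 := le_antisymm h1 zero_le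
  rw [map_eq_zero] at h2
  exact hn₁ h2

theorem attainsMax_of_isNoetherianRing [IsNoetherianRing A] : AttainsMax A F₀ :=
  fun _ _ hx0 hb => exists_max_coeff_of_isNoetherianRing A hx0 hb

variable {A F₀}

/-- **Normalisation.** A nonzero `A`-integral element of `F` is a constant times a primitive
`A`-integral series. -/
theorem exists_prim_scale (hmax : AttainsMax A F₀) {U : LaurentSeries A}
    (hU : incl A U ∈ laurentBaseChange L F₀) (hU0 : U ≠ 0) :
    ∃ (c : A) (U' : LaurentSeries A), c ≠ 0 ∧ red A U' ≠ 0 ∧ U = cstA A c * U' ∧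
      incl A U' ∈ laurentBaseChange L F₀ := by
  have hx0 : incl A U ≠ 0 := incl_ne_zero A hU0
  obtain ⟨n₀, hn₀, hmax'⟩ := hmax _ hU hx0
    ⟨1, one_ne_zero, fun n => by rw [one_mul]; exact (U.coeff n).2⟩
  set c : A := U.coeff n₀ with hc
  have hcQ : (c : L) ≠ 0 := hn₀
  have hc0 : c ≠ 0 := fun h => hcQ (by rw [h]; rfl)
  have hint : ∀ n, (cst (c : L)⁻¹ * incl A U).coeff n ∈ A := by
    intro n
    rw [coeff_cst_mul, ← A.valuation_le_one_iff, _root_.map_mul, map_inv₀]
    have hv0 : A.valuation (c : L) ≠ 0 := (Valuation.ne_zero_iff _).mpr hcQ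
    rw [inv_mul_le_iff₀ (zero_lt_iff.mpr hv0), mul_one]
    exact hmax' n
  obtain ⟨U', hU'⟩ := exists_incl_eq A hint
  have hmul : U = cstA A c * U' := by
    apply incl_injective A
    rw [_root_.map_mul, incl_cstA, hU', ← mul_assoc, ← cst_mul, mul_inv_cancel₀ hcQ, cst_one, one_mul]
  refine ⟨c, U', hc0, ?_, hmul, ?_⟩
  · rw [red_ne_zero_iff]
    refine ⟨n₀, ?_⟩
    have h1 : ((U'.coeff n₀ : A) : L) = (c : L)⁻¹ * (incl A U).coeff n₀ := by
      rw [← coeff_cst_mul, ← hU']
      rfl
    rw [h1]
    have h2 : (incl A U).coeff n₀ = (c : L) := rfl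
    rw [h2, inv_mul_cancel₀ hcQ, _root_.map_one]
  · rw [hU']
    exact _root_.MulMemClass.mul_mem ((laurentBaseChange L F₀).algebraMap_mem _) hU

end attained


/-! ## Every element of `F` is a fraction of integral series -/

section frac

variable [Algebra ℚ L] (F₀ : IntermediateField ℚ (LaurentSeries ℚ))

/-- integer series as `A`-integral series. -/
abbrev castA : LaurentSeries ℤ →+* LaurentSeries A := coeffMap (Int.castRingHom A)

/-- integer series as rational series. -/
abbrev castQ : LaurentSeries ℤ →+* LaurentSeries ℚ := coeffMap (Int.castRingHom ℚ)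

theorem incl_castA (P : LaurentSeries ℤ) : incl A (castA A P) = coeffEmb L (castQ P) := by
  rw [incl, castA, coeffMap_coeffMap, coeffEmb, castQ, coeffMap_coeffMap]
  exact coeffMap_congr (RingHom.ext_int _ _) P

theorem castA_injective : Function.Injective (castA A) := by
  have : CharZero L := algebraRat.charZero L
  have hA : Function.Injective (Int.castRingHom A) := by
    intro a b h
    have h1 : ((a : A) : L) = ((b : A) : L) := congrArg Subtype.val h
    have h2 : ((a : ℤ) : L) = ((b : ℤ) : L) := by simpa using h1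
    exact_mod_cast h2
  exact coeffMap_injective _ hA

/-- Every element of `F₀` is a fraction of series with integer coefficients lying in `F₀`. -/
def IntGen : Prop :=
  ∀ z ∈ F₀, ∃ P Q : LaurentSeries ℤ, Q ≠ 0 ∧ castQ Q ∈ F₀ ∧ z * castQ Q = castQ P

/-- `x` is a fraction of `A`-integral series of `F`. -/
def IsFrac (x : LaurentSeries L) : Prop :=
  ∃ U₁ U₂ : LaurentSeries A, U₂ ≠ 0 ∧ incl A U₂ ∈ laurentBaseChange L F₀ ∧
    x * incl A U₂ = incl A U₁

variable {A F₀}

theorem isFrac_of_mem (hgen : IntGen F₀) {x : LaurentSeries L}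
    (hx : x ∈ laurentBaseChange L F₀) : IsFrac A F₀ x := by
  have hF : ∀ y, y ∈ Subfield.closure (Set.range (algebraMap L (LaurentSeries L)) ∪
      ⇑(coeffEmb L) '' (F₀ : Set (LaurentSeries ℚ))) → y ∈ laurentBaseChange L F₀ :=
    fun y hy => mem_laurentBaseChange_iff.mpr hy
  rw [mem_laurentBaseChange_iff] at hx
  induction hx using Subfield.closure_induction with
  | mem y hy =>
    rcases hy with ⟨a, rfl⟩ | ⟨z, hz, rfl⟩
    · rcases A.mem_or_inv_mem a with ha | ha
      · refine ⟨cstA A ⟨a, ha⟩, 1, one_ne_zero, ?_, ?_⟩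
        · rw [_root_.map_one]; exact _root_.OneMemClass.one_mem _
        · rw [_root_.map_one, mul_one, incl_cstA]
      · by_cases ha0 : a = 0
        · refine ⟨0, 1, one_ne_zero, ?_, ?_⟩
          · rw [_root_.map_one]; exact _root_.OneMemClass.one_mem _
          · rw [ha0, _root_.map_zero, _root_.map_zero, zero_mul]
        · refine ⟨1, cstA A ⟨a⁻¹, ha⟩, ?_, ?_, ?_⟩
          · intro h
            have := congrArg (incl A) h
            rw [incl_cstA, _root_.map_zero] at this
            exact cst_ne_zero (inv_ne_zero ha0) this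
          · rw [incl_cstA]
            exact (laurentBaseChange L F₀).algebraMap_mem _
          · rw [incl_cstA, _root_.map_one]
            exact cst_mul_cst_inv ha0
    · obtain ⟨P, Q, hQ0, hQ, hPQ⟩ := hgen z hz
      refine ⟨castA A P, castA A Q, ?_, ?_, ?_⟩
      · intro h
        exact hQ0 (castA_injective A (h.trans (_root_.map_zero _).symm))
      · rw [incl_castA]
        exact coeffEmb_mem_laurentBaseChange L hQ
      · rw [incl_castA, incl_castA, ← _root_.map_mul, hPQ]
  | one =>
    refine ⟨1, 1, one_ne_zero, ?_, ?_⟩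
    · rw [_root_.map_one]; exact _root_.OneMemClass.one_mem _
    · rw [_root_.map_one, mul_one]
  | add x y hx hy ihx ihy =>
    obtain ⟨U₁, U₂, h0, hm, he⟩ := ihx
    obtain ⟨U₁', U₂', h0', hm', he'⟩ := ihy
    refine ⟨U₁ * U₂' + U₁' * U₂, U₂ * U₂', mul_ne_zero h0 h0', ?_, ?_⟩
    · rw [_root_.map_mul]; exact _root_.MulMemClass.mul_mem hm hm'
    · rw [_root_.map_add, _root_.map_mul, _root_.map_mul, _root_.map_mul, ← he, ← he']
      ring
  | neg x hx ihx =>
    obtain ⟨U₁, U₂, h0, hm, he⟩ := ihx
    exact ⟨-U₁, U₂, h0, hm, by rw [_root_.map_neg, ← he, neg_mul]⟩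
  | inv x hx ihx =>
    obtain ⟨U₁, U₂, h0, hm, he⟩ := ihx
    by_cases hx0 : x = 0
    · refine ⟨0, 1, one_ne_zero, ?_, ?_⟩
      · rw [_root_.map_one]; exact _root_.OneMemClass.one_mem _
      · rw [hx0, inv_zero, zero_mul, _root_.map_zero]
    · have hU₁ : U₁ ≠ 0 := by
        rintro rfl
        rw [_root_.map_zero] at he
        rcases mul_eq_zero.mp he with h | h
        · exact hx0 h
        · exact incl_ne_zero A h0 h
      refine ⟨U₂, U₁, hU₁, ?_, ?_⟩
      · rw [← he]
        exact _root_.MulMemClass.mul_mem (hF x hx) hm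
      · rw [← he, ← mul_assoc, inv_mul_cancel₀ hx0, one_mul]
  | mul x y hx hy ihx ihy =>
    obtain ⟨U₁, U₂, h0, hm, he⟩ := ihx
    obtain ⟨U₁', U₂', h0', hm', he'⟩ := ihy
    refine ⟨U₁ * U₁', U₂ * U₂', mul_ne_zero h0 h0', ?_, ?_⟩
    · rw [_root_.map_mul]; exact _root_.MulMemClass.mul_mem hm hm'
    · rw [_root_.map_mul, _root_.map_mul, ← he, ← he']
      ring

/-- **Normal form.** Every nonzero `f ∈ F` satisfies `f · U₂ = c · U₁` with `c ∈ Lˣ` and
`U₁`, `U₂` primitive integral series of `F`. -/
theorem exists_normal_form (hgen : IntGen F₀) (hmax : AttainsMax A F₀) {x : LaurentSeries L}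
    (hx : x ∈ laurentBaseChange L F₀) (hx0 : x ≠ 0) :
    ∃ (c : L) (U₁ U₂ : LaurentSeries A), c ≠ 0 ∧ red A U₁ ≠ 0 ∧ red A U₂ ≠ 0 ∧
      incl A U₁ ∈ laurentBaseChange L F₀ ∧ incl A U₂ ∈ laurentBaseChange L F₀ ∧
      x * incl A U₂ = cst c * incl A U₁ := by
  obtain ⟨W₁, W₂, h0, hm, he⟩ := isFrac_of_mem (A := A) hgen hx
  have hW₁0 : W₁ ≠ 0 := by
    rintro rfl
    rw [_root_.map_zero] at he
    rcases mul_eq_zero.mp he with h | h
    · exact hx0 h
    · exact incl_ne_zero A h0 h
  have hm₁ : incl A W₁ ∈ laurentBaseChange L F₀ := by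
    rw [← he]; exact _root_.MulMemClass.mul_mem hx hm
  obtain ⟨c₁, U₁, hc₁, hp₁, rfl, hU₁⟩ := exists_prim_scale hmax hm₁ hW₁0
  obtain ⟨c₂, U₂, hc₂, hp₂, rfl, hU₂⟩ := exists_prim_scale hmax hm h0
  have hc₂L : (c₂ : L) ≠ 0 := fun h => hc₂ (Subtype.ext h)
  have hc₁L : (c₁ : L) ≠ 0 := fun h => hc₁ (Subtype.ext h)
  refine ⟨(c₁ : L) * (c₂ : L)⁻¹, U₁, U₂, mul_ne_zero hc₁L (inv_ne_zero hc₂L), hp₁, hp₂, hU₁,
    hU₂, ?_⟩
  rw [_root_.map_mul, _root_.map_mul, incl_cstA, incl_cstA] at he
  have h1 : x * incl A U₂ = cst (c₂ : L)⁻¹ * (x * (cst (c₂ : L) * incl A U₂)) := by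
    rw [← mul_assoc, mul_comm (cst _) x, mul_assoc x, ← mul_assoc (cst _), cst_inv_mul_cst hc₂L,
      one_mul]
  rw [h1, he, ← mul_assoc, ← cst_mul, mul_comm (c₂ : L)⁻¹]

end frac


/-! ## The Gauss valuation ring -/

section gauss

variable [Algebra ℚ L] (F₀ : IntermediateField ℚ (LaurentSeries ℚ))

/-- `f = U₁ / U₂` with `U₁, U₂` integral series, `U₂ ∈ F` primitive. -/
def IsGaussInt (f : LaurentSeries L) : Prop :=
  ∃ U₁ U₂ : LaurentSeries A, red A U₂ ≠ 0 ∧ incl A U₂ ∈ laurentBaseChange L F₀ ∧
    f * incl A U₂ = incl A U₁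

variable {A F₀}

theorem IsGaussInt.zero : IsGaussInt A F₀ 0 :=
  ⟨0, 1, by rw [_root_.map_one]; exact one_ne_zero, by rw [_root_.map_one]; exact _root_.OneMemClass.one_mem _,
    by rw [zero_mul, _root_.map_zero]⟩

theorem IsGaussInt.one : IsGaussInt A F₀ 1 :=
  ⟨1, 1, by rw [_root_.map_one]; exact one_ne_zero, by rw [_root_.map_one]; exact _root_.OneMemClass.one_mem _,
    by rw [one_mul]⟩

theorem IsGaussInt.mul {f g : LaurentSeries L} (hf : IsGaussInt A F₀ f)
    (hg : IsGaussInt A F₀ g) : IsGaussInt A F₀ (f * g) := by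
  obtain ⟨U₁, U₂, h0, hm, he⟩ := hf
  obtain ⟨U₁', U₂', h0', hm', he'⟩ := hg
  refine ⟨U₁ * U₁', U₂ * U₂', ?_, ?_, ?_⟩
  · rw [_root_.map_mul]; exact mul_ne_zero h0 h0'
  · rw [_root_.map_mul]; exact _root_.MulMemClass.mul_mem hm hm'
  · rw [_root_.map_mul, _root_.map_mul, ← he, ← he']
    ring

theorem IsGaussInt.add {f g : LaurentSeries L} (hf : IsGaussInt A F₀ f)
    (hg : IsGaussInt A F₀ g) : IsGaussInt A F₀ (f + g) := by
  obtain ⟨U₁, U₂, h0, hm, he⟩ := hf
  obtain ⟨U₁', U₂', h0', hm', he'⟩ := hg
  refine ⟨U₁ * U₂' + U₁' * U₂, U₂ * U₂', ?_, ?_, ?_⟩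
  · rw [_root_.map_mul]; exact mul_ne_zero h0 h0'
  · rw [_root_.map_mul]; exact _root_.MulMemClass.mul_mem hm hm'
  · rw [_root_.map_add, _root_.map_mul, _root_.map_mul, _root_.map_mul, ← he, ← he']
    ring

theorem IsGaussInt.neg {f : LaurentSeries L} (hf : IsGaussInt A F₀ f) :
    IsGaussInt A F₀ (-f) := by
  obtain ⟨U₁, U₂, h0, hm, he⟩ := hf
  exact ⟨-U₁, U₂, h0, hm, by rw [_root_.map_neg, ← he, neg_mul]⟩

/-- integral elements of `F` are Gauss-integral. -/
theorem IsGaussInt.of_incl (U : LaurentSeries A) : IsGaussInt A F₀ (incl A U) :=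
  ⟨U, 1, by rw [_root_.map_one]; exact one_ne_zero, by rw [_root_.map_one]; exact _root_.OneMemClass.one_mem _,
    by rw [_root_.map_one, mul_one]⟩

/-- In normal form `f · U₂ = c · U₁`: `f` is Gauss-integral iff `c ∈ A`. -/
theorem isGaussInt_iff_of_normal_form {f : LaurentSeries L} {c : L} {U₁ U₂ : LaurentSeries A}
    (h₁ : red A U₁ ≠ 0) (h₂ : red A U₂ ≠ 0) (hm₂ : incl A U₂ ∈ laurentBaseChange L F₀)
    (he : f * incl A U₂ = cst c * incl A U₁) : IsGaussInt A F₀ f ↔ c ∈ A := by
  constructor
  · rintro ⟨W₁, W₂, hW, -, heW⟩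
    have key : cst c * incl A (U₁ * W₂) = incl A (W₁ * U₂) := by
      rw [_root_.map_mul, _root_.map_mul, ← mul_assoc, ← he, ← heW]
      ring
    refine mem_of_cst_mul_prim A ?_ key
    rw [_root_.map_mul]
    exact mul_ne_zero h₁ hW
  · intro hc
    exact ⟨cstA A ⟨c, hc⟩ * U₁, U₂, h₂, hm₂, by rw [_root_.map_mul, incl_cstA, he]⟩

omit [Algebra ℚ L] in
/-- In normal form `f · U₂ = c · U₁`, the inverse has normal form `f⁻¹ · U₁ = c⁻¹ · U₂`. -/
theorem normal_form_inv {f : LaurentSeries L} {c : L} {U₁ U₂ : LaurentSeries A}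
    (hf : f ≠ 0) (hc : c ≠ 0) (he : f * incl A U₂ = cst c * incl A U₁) :
    f⁻¹ * incl A U₁ = cst c⁻¹ * incl A U₂ := by
  have h1 : incl A U₁ = cst c⁻¹ * (f * incl A U₂) := by
    rw [he, ← mul_assoc, cst_inv_mul_cst hc, one_mul]
  rw [h1]
  field_simp

variable (A F₀) in
/-- **The Gauss valuation ring at `∞`** of `F = L·F₀` with respect to the valuation ring `A` of
`L`: fractions `U₁ / U₂` of `A`-integral series with `U₂` primitive. -/
def gaussInf (hgen : IntGen F₀) (hmax : AttainsMax A F₀) :
    ValuationSubring ↥(laurentBaseChange L F₀) where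
  carrier := {f | IsGaussInt A F₀ (f : LaurentSeries L)}
  mul_mem' := fun hf hg => IsGaussInt.mul hf hg
  one_mem' := IsGaussInt.one
  add_mem' := fun hf hg => IsGaussInt.add hf hg
  zero_mem' := IsGaussInt.zero
  neg_mem' := fun hf => IsGaussInt.neg hf
  mem_or_inv_mem' := by
    intro f
    by_cases hf : f = 0
    · left
      rw [hf]
      exact IsGaussInt.zero
    · have hf' : (f : LaurentSeries L) ≠ 0 := fun h => hf (Subtype.ext h)
      obtain ⟨c, U₁, U₂, hc, h₁, h₂, hm₁, hm₂, he⟩ := exists_normal_form hgen hmax f.2 hf'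
      rcases A.mem_or_inv_mem c with hcA | hcA
      · left
        exact (isGaussInt_iff_of_normal_form h₁ h₂ hm₂ he).mpr hcA
      · right
        show IsGaussInt A F₀ ((f⁻¹ : ↥(laurentBaseChange L F₀)) : LaurentSeries L)
        rw [IntermediateField.coe_inv]
        exact (isGaussInt_iff_of_normal_form h₂ h₁ hm₁ (normal_form_inv hf' hc he)).mpr hcA

variable (hgen : IntGen F₀) (hmax : AttainsMax A F₀)

theorem mem_gaussInf_iff {f : ↥(laurentBaseChange L F₀)} :
    f ∈ gaussInf A F₀ hgen hmax ↔ IsGaussInt A F₀ (f : LaurentSeries L) := Iff.rfl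

/-- `V ∩ L = A`. -/
theorem algebraMap_mem_gaussInf_iff (c : L) :
    algebraMap L ↥(laurentBaseChange L F₀) c ∈ gaussInf A F₀ hgen hmax ↔ c ∈ A := by
  rw [mem_gaussInf_iff]
  have he : ((algebraMap L ↥(laurentBaseChange L F₀) c : ↥(laurentBaseChange L F₀)) :
      LaurentSeries L) * incl A 1 = cst c * incl A 1 := rfl
  exact isGaussInt_iff_of_normal_form (by rw [_root_.map_one]; exact one_ne_zero)
    (by rw [_root_.map_one]; exact one_ne_zero) (by rw [_root_.map_one]; exact _root_.OneMemClass.one_mem _) he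

/-- membership in normal form. -/
theorem mem_gaussInf_iff_of_normal_form {f : ↥(laurentBaseChange L F₀)} {c : L}
    {U₁ U₂ : LaurentSeries A} (h₁ : red A U₁ ≠ 0) (h₂ : red A U₂ ≠ 0)
    (hm₂ : incl A U₂ ∈ laurentBaseChange L F₀)
    (he : (f : LaurentSeries L) * incl A U₂ = cst c * incl A U₁) :
    f ∈ gaussInf A F₀ hgen hmax ↔ c ∈ A :=
  isGaussInt_iff_of_normal_form h₁ h₂ hm₂ he

/-- the valuation in normal form: `v_V(f) ≤ 1 ↔ v_A(c) ≤ 1`. -/
theorem valuation_le_one_iff_of_normal_form {f : ↥(laurentBaseChange L F₀)} {c : L}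
    {U₁ U₂ : LaurentSeries A} (h₁ : red A U₁ ≠ 0) (h₂ : red A U₂ ≠ 0)
    (hm₂ : incl A U₂ ∈ laurentBaseChange L F₀)
    (he : (f : LaurentSeries L) * incl A U₂ = cst c * incl A U₁) :
    (gaussInf A F₀ hgen hmax).valuation f ≤ 1 ↔ A.valuation c ≤ 1 := by
  rw [ValuationSubring.valuation_le_one_iff, ValuationSubring.valuation_le_one_iff]
  exact mem_gaussInf_iff_of_normal_form hgen hmax h₁ h₂ hm₂ he

/-- the valuation in normal form: `v_V(f) < 1 ↔ v_A(c) < 1`. -/
theorem valuation_lt_one_iff_of_normal_form {f : ↥(laurentBaseChange L F₀)} {c : L}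
    {U₁ U₂ : LaurentSeries A} (hc : c ≠ 0) (h₁ : red A U₁ ≠ 0) (h₂ : red A U₂ ≠ 0)
    (hm₁ : incl A U₁ ∈ laurentBaseChange L F₀)
    (he : (f : LaurentSeries L) * incl A U₂ = cst c * incl A U₁) :
    (gaussInf A F₀ hgen hmax).valuation f < 1 ↔ A.valuation c < 1 := by
  have hf0 : (f : LaurentSeries L) ≠ 0 := by
    intro h
    rw [h, zero_mul] at he
    rcases mul_eq_zero.mp he.symm with h' | h'
    · exact cst_ne_zero hc h'
    · exact incl_ne_zero A (ne_zero_of_red_ne_zero A h₁) h'
  have hf : f ≠ 0 := fun h => hf0 (by rw [h]; rfl)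
  have hinv : ((f⁻¹ : ↥(laurentBaseChange L F₀)) : LaurentSeries L) * incl A U₁
      = cst c⁻¹ * incl A U₂ := by
    rw [IntermediateField.coe_inv]
    exact normal_form_inv hf0 hc he
  have h1 := valuation_le_one_iff_of_normal_form hgen hmax h₂ h₁ hm₁ hinv
  rw [map_inv₀, map_inv₀] at h1
  have hv : (gaussInf A F₀ hgen hmax).valuation f ≠ 0 := (Valuation.ne_zero_iff _).mpr hf
  have hvc : A.valuation c ≠ 0 := (Valuation.ne_zero_iff _).mpr hc
  rw [inv_le_one₀ (zero_lt_iff.mpr hv), inv_le_one₀ (zero_lt_iff.mpr hvc)] at h1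
  rw [← not_le, ← not_le, h1]

/-- **The value group of `V` is the value group of `A`**: every nonzero `f` is a constant
times a unit of `V`. -/
theorem exists_const_mul_unit {f : ↥(laurentBaseChange L F₀)} (hf : f ≠ 0) :
    ∃ c : L, c ≠ 0 ∧
      (gaussInf A F₀ hgen hmax).valuation
        (f * (algebraMap L ↥(laurentBaseChange L F₀) c)⁻¹) = 1 := by
  have hf' : (f : LaurentSeries L) ≠ 0 := fun h => hf (Subtype.ext h)
  obtain ⟨c, U₁, U₂, hc, h₁, h₂, hm₁, hm₂, he⟩ := exists_normal_form hgen hmax f.2 hf'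
  refine ⟨c, hc, ?_⟩
  set u : ↥(laurentBaseChange L F₀) := f * (algebraMap L ↥(laurentBaseChange L F₀) c)⁻¹ with hu
  have heu : (u : LaurentSeries L) * incl A U₂ = cst 1 * incl A U₁ := by
    have : (u : LaurentSeries L) = (f : LaurentSeries L) * (cst c)⁻¹ := by
      rw [hu, IntermediateField.coe_mul, IntermediateField.coe_inv]
      rfl
    rw [this, mul_assoc, mul_comm (cst c)⁻¹, ← mul_assoc, he, cst_one, one_mul,
      mul_comm (cst c), mul_assoc, mul_inv_cancel₀ (cst_ne_zero hc), mul_one]
  have h1 := valuation_le_one_iff_of_normal_form hgen hmax h₁ h₂ hm₂ heu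
  have h2 := valuation_lt_one_iff_of_normal_form hgen hmax one_ne_zero h₁ h₂ hm₁ heu
  rw [_root_.map_one] at h1 h2
  exact le_antisymm (h1.mpr le_rfl) (not_lt.mp (fun h => lt_irrefl _ (h2.mp h)))

end gauss

end Fermat.Agent.A2.H708

end
end
-- ===== PACK-END A2/H708/GaussInf.lean

-- ===== PACK-BEGIN S29/H801/M1Push.lean
section
/-
S29 / M1 (helper801), part 1: functoriality of the Prelude's `inertiaDegAlong` and
`pushforwardAlong` under composition of field embeddings.  Mathlib + Prelude + helper818's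
`S37/H818/PullFunct` only.
-/




set_option autoImplicit false
set_option linter.style.haveILetI false

noncomputable section

namespace Fermat.Agent.S29.H801

open AlgebraicCurve Fermat.Agent.S37.H818

variable {K F G G₁ : Type*} [Field K] [Field F] [Field G] [Field G₁]
  [Algebra K F] [Algebra K G] [Algebra K G₁]

section Tower

variable [Algebra F G] [Algebra G G₁] [Algebra F G₁] [IsScalarTower F G G₁]
  [IsScalarTower K F G] [IsScalarTower K G G₁] [IsScalarTower K F G₁]
  [Algebra.IsIntegral F G] [Algebra.IsIntegral G G₁] [Algebra.IsIntegral F G₁]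

theorem restrict_restrict (W : Place K G₁) : (W.restrict G).restrict F = W.restrict F := by
  apply Place.ext
  ext x
  simp only [Place.restrict_toValuationSubring, ValuationSubring.mem_comap]
  rw [IsScalarTower.algebraMap_apply F G G₁]

/-- Inertia degrees are multiplicative in towers (instance version). -/
theorem inertiaDeg_tower (W : Place K G₁) :
    W.inertiaDeg F = (W.restrict G).inertiaDeg F * W.inertiaDeg G := by
  set w := W.restrict G with hw
  have hv : w.restrict F = W.restrict F := restrict_restrict W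
  -- the composite of the residue maps
  let ι : (w.restrict F).ResidueField →+* W.ResidueField :=
    (Place.restrictResidueMap G W).comp (Place.restrictResidueMap F w)
  letI alg : Algebra (w.restrict F).ResidueField W.ResidueField := ι.toAlgebra
  haveI : IsScalarTower (w.restrict F).ResidueField w.ResidueField W.ResidueField :=
    IsScalarTower.of_algebraMap_eq fun _ => rfl
  have h1 : Module.finrank (w.restrict F).ResidueField w.ResidueField *
      Module.finrank w.ResidueField W.ResidueField =
      Module.finrank (w.restrict F).ResidueField W.ResidueField :=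
    Module.finrank_mul_finrank _ _ _
  have h2 : Module.finrank (w.restrict F).ResidueField W.ResidueField = W.inertiaDeg F := by
    unfold Place.inertiaDeg
    -- transport along `hv`
    have key : ∀ (v' : Place K F) (hv' : v' = W.restrict F)
        (j : v'.ResidueField →+* W.ResidueField),
        (∀ (a : v'.toValuationSubring) (ha : algebraMap F G₁ (a : F) ∈ W.toValuationSubring),
          j (IsLocalRing.residue _ a) =
            IsLocalRing.residue _ (⟨algebraMap F G₁ (a : F), ha⟩ : W.toValuationSubring)) →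
        @Module.finrank v'.ResidueField W.ResidueField _ _ j.toAlgebra.toModule =
          Module.finrank (W.restrict F).ResidueField W.ResidueField := by
      intro v' hv' j hj
      subst hv'
      have : j = Place.restrictResidueMap F W := by
        apply Ideal.Quotient.ringHom_ext
        ext a
        exact (hj a (ValuationSubring.mem_comap.mp a.2)).trans
          (Place.restrictResidueMap_residue W a).symm
      subst this
      rfl
    refine key (w.restrict F) hv ι ?_
    intro a ha
    show (Place.restrictResidueMap G W) ((Place.restrictResidueMap F w)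
      (IsLocalRing.residue _ a)) = _
    rw [Place.restrictResidueMap_residue, Place.restrictResidueMap_residue]
    refine congrArg _ (Subtype.ext ?_)
    show algebraMap G G₁ (algebraMap F G (a : F)) = algebraMap F G₁ (a : F)
    rw [← IsScalarTower.algebraMap_apply]
  rw [← h2, ← h1]
  rfl

end Tower

/-- Inertia degrees are multiplicative in towers (`Along` version). -/
theorem inertiaDegAlong_comp (φ : F →ₐ[K] G) (ψ : G →ₐ[K] G₁)
    (hφ : φ.toRingHom.IsIntegral) (hψ : ψ.toRingHom.IsIntegral)
    (hψφ : (ψ.comp φ).toRingHom.IsIntegral) (W : Place K G₁) :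
    W.inertiaDegAlong (ψ.comp φ) hψφ =
      (W.restrictAlong ψ hψ).inertiaDegAlong φ hφ * W.inertiaDegAlong ψ hψ := by
  letI := algebraAlong φ
  letI := algebraAlong ψ
  letI := algebraAlong (ψ.comp φ)
  haveI := isScalarTower_along φ
  haveI := isScalarTower_along ψ
  haveI := isScalarTower_along (ψ.comp φ)
  haveI := isIntegral_along φ hφ
  haveI := isIntegral_along ψ hψ
  haveI := isIntegral_along (ψ.comp φ) hψφ
  haveI : IsScalarTower F G G₁ := IsScalarTower.of_algebraMap_eq fun _ => rfl
  exact inertiaDeg_tower (F := F) (G := G) W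

/-- Pushforward of divisors is functorial. -/
theorem pushforwardAlong_comp (φ : F →ₐ[K] G) (ψ : G →ₐ[K] G₁)
    (hφ : φ.toRingHom.IsIntegral) (hψ : ψ.toRingHom.IsIntegral)
    (hψφ : (ψ.comp φ).toRingHom.IsIntegral) (D : Divisor K G₁) :
    Divisor.pushforwardAlong (ψ.comp φ) hψφ D =
      Divisor.pushforwardAlong φ hφ (Divisor.pushforwardAlong ψ hψ D) := by
  induction D using Finsupp.induction with
  | zero => simp
  | single_add W n D _ _ ih =>
    rw [map_add, map_add, map_add, ih]
    congr 1
    rw [Divisor.pushforwardAlong_single, Divisor.pushforwardAlong_single,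
      Divisor.pushforwardAlong_single, restrictAlong_comp φ ψ hφ hψ hψφ W,
      inertiaDegAlong_comp φ ψ hφ hψ hψφ W]
    congr 1
    push_cast
    ring

end Fermat.Agent.S29.H801

end

end
-- ===== PACK-END S29/H801/M1Push.lean

-- ===== PACK-BEGIN A2/H489/TwoExtB.lean
section


/-!
# A2 / M1-abs, part B (helper489): valuation subrings over a DVR and the integral closure
-/

set_option autoImplicit false

namespace Fermat.Agent.A2.H489

open IsDedekindDomain IsLocalRing

section Over

variable {A L : Type*} [CommRing A] [IsLocalRing A] [Field L] [Algebra A L]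

/-- `V` lies over the local ring `A`: it contains `A` and the maximal ideal of `A` consists of
nonunits of `V`. -/
structure IsOver (A : Type*) {L : Type*} [CommRing A] [IsLocalRing A] [Field L] [Algebra A L]
    (V : ValuationSubring L) : Prop where
  mem : ∀ a : A, algebraMap A L a ∈ V
  nonunit : ∀ a ∈ maximalIdeal A, algebraMap A L a ∈ V.nonunits

variable {V : ValuationSubring L}

theorem IsOver.integral_mem (hV : IsOver A V) {x : L} (hx : IsIntegral A x) : x ∈ V := by
  let _ : Algebra A V := (toValSub V hV.mem).toAlgebra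
  have : IsScalarTower A V L := IsScalarTower.of_algebraMap_eq (fun _ => rfl)
  have h : IsIntegral V x := hx.tower_top
  obtain ⟨y, hy⟩ := (IsIntegrallyClosed.isIntegral_iff (R := V) (K := L)).mp h
  rw [← hy]
  exact y.2

theorem IsOver.mem_integralClosure (hV : IsOver A V) (s : integralClosure A L) :
    algebraMap (integralClosure A L) L s ∈ V :=
  hV.integral_mem s.2

theorem IsOver.not_mem_nonunits_of_isUnit (hV : IsOver A V) {a : A} (ha : IsUnit a) :
    algebraMap A L a ∉ V.nonunits := by
  obtain ⟨u, rfl⟩ := ha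
  intro h
  rw [ValuationSubring.mem_nonunits_iff] at h
  have h1 : V.valuation (algebraMap A L (↑u⁻¹ : A)) ≤ 1 :=
    (ValuationSubring.valuation_le_one_iff V _).mpr (hV.mem _)
  have h2 : V.valuation (algebraMap A L (u : A)) * V.valuation (algebraMap A L (↑u⁻¹ : A)) = 1 := by
    rw [← map_mul, ← map_mul, Units.mul_inv, map_one, map_one]
  have h3 : V.valuation (algebraMap A L (u : A)) * V.valuation (algebraMap A L (↑u⁻¹ : A)) < 1 :=
    mul_lt_one_of_lt_of_le h h1
  exact absurd h2 (ne_of_lt h3)

theorem IsOver.mem_nonunits_iff (hV : IsOver A V) (a : A) :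
    algebraMap A L a ∈ V.nonunits ↔ a ∈ maximalIdeal A := by
  constructor
  · intro h
    by_contra hna
    rw [IsLocalRing.mem_maximalIdeal, _root_.mem_nonunits_iff, not_not] at hna
    exact hV.not_mem_nonunits_of_isUnit hna h
  · exact hV.nonunit a

theorem IsOver.center_liesOver (hV : IsOver A V) :
    (center V hV.mem_integralClosure).LiesOver (maximalIdeal A) := by
  constructor
  ext a
  rw [Ideal.under, Ideal.mem_comap, mem_center_iff, ← IsScalarTower.algebraMap_apply,
    hV.mem_nonunits_iff]

theorem IsOver.ne_top_of_nonunit (hV : IsOver A V) {w : A} (hw : w ∈ maximalIdeal A)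
    (hw0 : algebraMap A L w ≠ 0) : V ≠ ⊤ := by
  intro h
  have h1 := hV.nonunit w hw
  rw [ValuationSubring.mem_nonunits_iff_or] at h1
  rcases h1 with h1 | h1
  · exact hw0 h1
  · apply h1
    rw [h]
    exact ValuationSubring.mem_top _

end Over

section Main

variable {A K L : Type*} [CommRing A] [IsDomain A] [IsDiscreteValuationRing A]
  [Field K] [Algebra A K] [IsFractionRing A K]
  [Field L] [Algebra K L] [Algebra A L] [IsScalarTower A K L]

omit [IsDiscreteValuationRing A] in
theorem algebraMap_injective_AL (A K L : Type*) [CommRing A] [IsDomain A]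
    [Field K] [Algebra A K] [IsFractionRing A K]
    [Field L] [Algebra K L] [Algebra A L] [IsScalarTower A K L] :
    Function.Injective (algebraMap A L) := by
  rw [IsScalarTower.algebraMap_eq A K L]
  exact (algebraMap K L).injective.comp (IsFractionRing.injective A K)

theorem IsOver.ne_top (K : Type*) {A L : Type*} [CommRing A] [IsDomain A]
    [IsDiscreteValuationRing A] [Field K] [Algebra A K] [IsFractionRing A K]
    [Field L] [Algebra K L] [Algebra A L] [IsScalarTower A K L]
    {V : ValuationSubring L} (hV : IsOver A V) : V ≠ ⊤ := by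
  obtain ⟨w, hw⟩ := IsDiscreteValuationRing.exists_irreducible A
  refine hV.ne_top_of_nonunit (w := w) ?_ ?_
  · rw [IsLocalRing.mem_maximalIdeal, _root_.mem_nonunits_iff]
    exact hw.not_isUnit
  · intro h0
    apply hw.ne_zero
    apply algebraMap_injective_AL A K L
    rw [h0, map_zero]

end Main

end Fermat.Agent.A2.H489

end
-- ===== PACK-END A2/H489/TwoExtB.lean

-- ===== PACK-BEGIN A2/T1/H669/Embed.lean
section



/-!
# WALL A2, piece T1/T2 (helper669): the coefficient embedding `F_E → F̄`

For an intermediate field `E ⊆ ℚ̄` and `F₀ ⊆ ℚ((t))`: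

* `iota E F₀ : laurentBaseChange E F₀ →+* laurentBaseChange ℚ̄ F₀` (coefficientwise inclusion);
* `iota_algebraMap`, `iota_arithmeticRingAut` (compatibility with constants and with the
  coefficientwise Galois action restricted to a stable `E`);
* `exists_iota_eq` : every element of `laurentBaseChange ℚ̄ F₀` is `iota` of an element over any
  intermediate field containing a suitable finite set (finite descent, from `S18.H602`);
* `adjoin_algebraic_eq_top` : `F̄` is generated over `iota F_E` by constants.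
-/

set_option autoImplicit false

noncomputable section

namespace Fermat.Agent.A2.T1.H669

open ModularCurve AlgebraicCurve

/-- The field `ℚ̄`. -/
abbrev Qb : Type := AlgebraicClosure ℚ

variable (E : IntermediateField ℚ _root_.Fermat.Agent.A2.T1.H669.Qb) (F₀ : IntermediateField ℚ (LaurentSeries ℚ))

/-- Coefficientwise inclusion `F_E → F̄`. -/
def iota : ↥(laurentBaseChange E F₀) →+* ↥(laurentBaseChange _root_.Fermat.Agent.A2.T1.H669.Qb F₀) where
  toFun x := ⟨coeffMap (algebraMap E _root_.Fermat.Agent.A2.T1.H669.Qb) (x : LaurentSeries E),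
    Fermat.Agent.S18.H602.coeffMap_mem_laurentBaseChange F₀ _ x.2⟩
  map_one' := Subtype.ext (map_one _)
  map_mul' _ _ := Subtype.ext (map_mul _ _ _)
  map_zero' := Subtype.ext (map_zero _)
  map_add' _ _ := Subtype.ext (map_add _ _ _)

@[simp]
theorem coe_iota (x : ↥(laurentBaseChange E F₀)) :
    ((iota E F₀ x : ↥(laurentBaseChange _root_.Fermat.Agent.A2.T1.H669.Qb F₀)) : LaurentSeries _root_.Fermat.Agent.A2.T1.H669.Qb) =
      coeffMap (algebraMap E _root_.Fermat.Agent.A2.T1.H669.Qb) (x : LaurentSeries E) := rfl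

theorem iota_injective : Function.Injective (iota E F₀) := (iota E F₀).injective

theorem iota_ne_zero {x : ↥(laurentBaseChange E F₀)} (hx : x ≠ 0) : iota E F₀ x ≠ 0 :=
  (map_ne_zero_iff _ (iota_injective E F₀)).2 hx

theorem iota_algebraMap (e : E) :
    iota E F₀ (algebraMap E ↥(laurentBaseChange E F₀) e) =
      algebraMap _root_.Fermat.Agent.A2.T1.H669.Qb ↥(laurentBaseChange _root_.Fermat.Agent.A2.T1.H669.Qb F₀) (algebraMap E _root_.Fermat.Agent.A2.T1.H669.Qb e) :=
  Subtype.ext (Fermat.Agent.S18.H602.coeffMap_algebraMap' (algebraMap E _root_.Fermat.Agent.A2.T1.H669.Qb) e)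

/-- Compatibility with the arithmetic action: if `τE` is the restriction of `τ` to `E`. -/
theorem iota_arithmeticRingAut (τ : _root_.Fermat.Agent.A2.T1.H669.Qb ≃ₐ[ℚ] _root_.Fermat.Agent.A2.T1.H669.Qb) (τE : E ≃ₐ[ℚ] E)
    (hτ : ∀ e : E, ((τE e : E) : _root_.Fermat.Agent.A2.T1.H669.Qb) = τ (e : _root_.Fermat.Agent.A2.T1.H669.Qb)) (x : ↥(laurentBaseChange E F₀)) :
    iota E F₀ (arithmeticRingAut F₀ τE x) = arithmeticRingAut F₀ τ (iota E F₀ x) := by
  apply Subtype.ext
  show coeffMap (algebraMap E _root_.Fermat.Agent.A2.T1.H669.Qb) (coeffMap (τE : E →+* E) (x : LaurentSeries E)) =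
    coeffMap (τ : _root_.Fermat.Agent.A2.T1.H669.Qb →+* _root_.Fermat.Agent.A2.T1.H669.Qb) (coeffMap (algebraMap E _root_.Fermat.Agent.A2.T1.H669.Qb) (x : LaurentSeries E))
  rw [coeffMap_coeffMap, coeffMap_coeffMap]
  exact coeffMap_congr (RingHom.ext fun e => hτ e) _

end Fermat.Agent.A2.T1.H669

end
end
-- ===== PACK-END A2/T1/H669/Embed.lean

-- ===== PACK-BEGIN S18/H602/Sep.lean
section


/-!
# Separability from a derivation  (helper602, S18 / MOD piece SEP, part 2)

Let `k` be a perfect field, `L ⊇ k` a field with a `k`-derivation `D : L → L`, and `x ∈ L` with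
`D x ≠ 0`.  Then

* `transcendental_of_derivation_ne_zero` : `x` is transcendental over `k`;
* `separable_minpoly_of_derivation` : every `y ∈ L` integral over `k(x)` has separable minimal
  polynomial over `k(x)`;
* `isSeparable_of_derivation` : the same as `IsSeparable k⟮x⟯ y`.

Specialised to `L = k((q))`, `D = d/dq`:

* `laurent_transcendental`, `laurent_separable_minpoly`, `laurent_isSeparable`.
-/

set_option autoImplicit false

noncomputable section

namespace Fermat.Agent.S18.H602

open Polynomial IntermediateField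

section Generic

variable {k L : Type*} [Field k] [Field L] [Algebra k L]

/-- If `D x ≠ 0` for a `k`-derivation `D` and `k` is perfect, then `x` is transcendental. -/
theorem transcendental_of_derivation_ne_zero [PerfectField k] (D : Derivation k L L) (x : L)
    (hx : D x ≠ 0) : Transcendental k x := by
  intro halg
  have hint : IsIntegral k x := halg.isIntegral
  have hsep : (minpoly k x).Separable :=
    PerfectField.separable_of_irreducible (minpoly.irreducible hint)
  have h0 : aeval x (minpoly k x) = 0 := minpoly.aeval k x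
  have h1 := D.map_aeval (minpoly k x) x
  rw [h0, _root_.map_zero] at h1
  have h2 := hsep.aeval_derivative_ne_zero h0
  rcases smul_eq_zero.mp h1.symm with h | h
  · exact h2 h
  · exact hx h

theorem aeval_mem_adjoin_simple (x : L) (r : k[X]) : aeval x r ∈ k⟮x⟯ :=
  (mem_adjoin_simple_iff k _).mpr ⟨r, 1, by simp⟩

/-- For `c ∈ k(x)`, `D c ∈ k(x) · D x`. -/
theorem exists_mem_adjoin_derivation_eq (D : Derivation k L L) (x : L) {c : L}
    (hc : c ∈ k⟮x⟯) : ∃ c' ∈ k⟮x⟯, D c = c' * D x := by
  obtain ⟨r, s, rfl⟩ := (mem_adjoin_simple_iff k c).mp hc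
  refine ⟨((aeval x s)⁻¹ ^ 2 *
    (aeval x s * aeval x (derivative r) - aeval x r * aeval x (derivative s))), ?_, ?_⟩
  · exact _root_.MulMemClass.mul_mem (_root_.pow_mem (_root_.InvMemClass.inv_mem (aeval_mem_adjoin_simple x s)) 2)
      (_root_.sub_mem (_root_.MulMemClass.mul_mem (aeval_mem_adjoin_simple x s) (aeval_mem_adjoin_simple x _))
        (_root_.MulMemClass.mul_mem (aeval_mem_adjoin_simple x r) (aeval_mem_adjoin_simple x _)))
  · rw [Derivation.leibniz_div, D.map_aeval, D.map_aeval]
    simp only [smul_eq_mul]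
    ring

/-- Kernel of `D` on `k(x)`: `p`-th powers. -/
theorem exists_pow_eq_of_derivation_eq_zero [PerfectField k] (p : ℕ) [hp : Fact p.Prime]
    [CharP k p] (D : Derivation k L L) (x : L) (hx : D x ≠ 0) {c : L} (hc : c ∈ k⟮x⟯)
    (hDc : D c = 0) : ∃ d ∈ k⟮x⟯, d ^ p = c := by
  have : CharP L p := charP_of_injective_algebraMap (algebraMap k L).injective p
  obtain ⟨r, s, rfl⟩ := (mem_adjoin_simple_iff k c).mp hc
  by_cases hs : aeval x s = 0
  · refine ⟨0, _root_.ZeroMemClass.zero_mem _, ?_⟩
    rw [hs, div_zero, zero_pow hp.out.ne_zero]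
  set R := r * s ^ (p - 1) with hR
  have hpow : (aeval x s) ^ p = aeval x s ^ (p - 1) * aeval x s := by
    rw [← pow_succ, Nat.sub_add_cancel hp.out.one_le]
  have hRx : aeval x R = (aeval x r / aeval x s) * (aeval x s) ^ p := by
    rw [hR, _root_.map_mul, _root_.map_pow, hpow]
    field_simp
  have hDR : D (aeval x R) = 0 := by
    rw [hRx, D.leibniz, hDc, smul_zero, add_zero, D.leibniz_pow]
    simp [CharP.cast_eq_zero]
  have hR' : derivative R = 0 := by
    have h1 := D.map_aeval R x
    rw [hDR] at h1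
    rcases smul_eq_zero.mp h1.symm with h | h
    · exact (transcendental_iff.mp (transcendental_of_derivation_ne_zero D x hx)) _ h
    · exact absurd h hx
  have hexp := expand_contract p hR' hp.out.ne_zero
  have : ExpChar k p := ExpChar.prime hp.out
  have : PerfectRing k p := PerfectField.toPerfectRing p
  rw [polynomial_expand_eq] at hexp
  refine ⟨aeval x (_root_.Polynomial.map ((frobeniusEquiv k p).symm : k →+* k) (contract p R)) / aeval x s,
    ?_, ?_⟩
  · exact (mem_adjoin_simple_iff k _).mpr ⟨_, s, rfl⟩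
  · rw [div_pow, ← _root_.map_pow, hexp, hRx]
    field_simp

/-- **Separability from a derivation**, characteristic `p`. -/
theorem separable_minpoly_of_derivation_charP [PerfectField k] (p : ℕ) [hp : Fact p.Prime]
    [CharP k p] (D : Derivation k L L) (x : L) (hx : D x ≠ 0) (y : L)
    (hy : IsIntegral k⟮x⟯ y) : (minpoly k⟮x⟯ y).Separable := by
  have hK : CharP k⟮x⟯ p := charP_of_injective_algebraMap (algebraMap k k⟮x⟯).injective p
  have hL : CharP L p := charP_of_injective_algebraMap (algebraMap k L).injective p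
  have hE : ExpChar k⟮x⟯ p := ExpChar.prime hp.out
  have hirr := minpoly.irreducible hy
  rcases separable_or p hirr with h | ⟨-, g, hg, hgP⟩
  · exact h
  exfalso
  have hgm : g.Monic := (monic_expand_iff hp.out.pos).mp (hgP ▸ minpoly.monic hy)
  have h0 : aeval (y ^ p) g = 0 := by
    rw [← expand_aeval, hgP]
    exact minpoly.aeval _ y
  have hgmin : g = minpoly k⟮x⟯ (y ^ p) := minpoly.eq_of_irreducible_of_monic hg h0 hgm
  -- the derivative function `δ` on `k(x)`
  have hδ : ∀ c : k⟮x⟯, ∃ c' : k⟮x⟯, D (c : L) = (c' : L) * D x := fun c => by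
    obtain ⟨c', hc', h⟩ := exists_mem_adjoin_derivation_eq D x c.2
    exact ⟨⟨c', hc'⟩, h⟩
  choose δ hδ using hδ
  have hδ0 : ∀ c : k⟮x⟯, δ c = 0 → D (c : L) = 0 := fun c hc => by
    rw [hδ c, hc, ZeroMemClass.coe_zero, zero_mul]
  have hδ1 : δ 1 = 0 := by
    have h1 := hδ 1
    rw [OneMemClass.coe_one, D.map_one_eq_zero] at h1
    rcases mul_eq_zero.mp h1.symm with h | h
    · exact Subtype.ext h
    · exact absurd h hx
  have hDyp : D (y ^ p) = 0 := by
    rw [D.leibniz_pow]
    simp [CharP.cast_eq_zero]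
  have hDypj : ∀ j : ℕ, D ((y ^ p) ^ j) = 0 := fun j => by
    rw [D.leibniz_pow, hDyp, smul_zero, smul_zero]
  set n := g.natDegree with hn
  set G : (k⟮x⟯)[X] := ∑ j ∈ Finset.range (n + 1), monomial j (δ (g.coeff j)) with hG
  have hGcoeff : ∀ m, G.coeff m = if m < n + 1 then δ (g.coeff m) else 0 := fun m => by
    rw [hG, finsetSum_coeff]
    simp only [coeff_monomial]
    rw [Finset.sum_ite_eq' (Finset.range (n + 1)) m]
    simp only [Finset.mem_range]
  have hGy : aeval (y ^ p) G = 0 := by
    have h1 : D (aeval (y ^ p) g) = 0 := by rw [h0, _root_.map_zero]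
    rw [aeval_eq_sum_range, _root_.map_sum] at h1
    have h2 : aeval (y ^ p) G * D x = 0 := by
      rw [hG, _root_.map_sum, Finset.sum_mul, ← h1]
      refine Finset.sum_congr rfl fun j _ => ?_
      rw [aeval_monomial, Algebra.smul_def, D.leibniz, hDypj, smul_zero, zero_add,
        IntermediateField.algebraMap_apply, IntermediateField.algebraMap_apply, hδ,
        smul_eq_mul]
      ring
    rcases mul_eq_zero.mp h2 with h | h
    · exact h
    · exact absurd h hx
  have hG0 : G = 0 := by
    by_contra hne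
    have hle := minpoly.degree_le_of_ne_zero k⟮x⟯ (y ^ p) hne hGy
    rw [← hgmin] at hle
    have hlt : G.degree < g.degree := by
      rw [degree_eq_natDegree hgm.ne_zero, degree_lt_iff_coeff_zero]
      intro m hm
      rw [hGcoeff]
      split_ifs with h
      · have : m = n := by omega
        rw [this, hn, hgm.coeff_natDegree, hδ1]
      · rfl
    exact absurd hle (not_le.mpr hlt)
  have hcoeff : ∀ j, D ((g.coeff j : k⟮x⟯) : L) = 0 := fun j => by
    by_cases hj : j < n + 1
    · apply hδ0
      have := hGcoeff j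
      rw [if_pos hj, hG0, coeff_zero] at this
      exact this.symm
    · rw [coeff_eq_zero_of_natDegree_lt (by omega), ZeroMemClass.coe_zero, _root_.map_zero]
  have hlift : g ∈ lifts (frobenius k⟮x⟯ p) := by
    rw [lifts_iff_coeff_lifts]
    intro j
    obtain ⟨d, hd, hdp⟩ := exists_pow_eq_of_derivation_eq_zero p D x hx (g.coeff j).2 (hcoeff j)
    exact ⟨⟨d, hd⟩, Subtype.ext (by simpa [frobenius_def] using hdp)⟩
  obtain ⟨g₀, hg₀⟩ := (mem_lifts g).mp hlift
  have hpow : minpoly k⟮x⟯ y = g₀ ^ p := by
    rw [← hgP, ← hg₀, ← map_expand, map_frobenius_expand]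
  rw [hpow] at hirr
  exact not_irreducible_pow hp.out.ne_one hirr

/-- **Separability from a derivation.**  `k` perfect, `D : L → L` a `k`-derivation of the field
`L`, `D x ≠ 0`: every `y ∈ L` integral over `k(x)` has separable minimal polynomial. -/
theorem separable_minpoly_of_derivation [PerfectField k] (D : Derivation k L L) (x : L)
    (hx : D x ≠ 0) (y : L) (hy : IsIntegral k⟮x⟯ y) : (minpoly k⟮x⟯ y).Separable := by
  obtain ⟨p, hp⟩ := CharP.exists k
  rcases CharP.char_is_prime_or_zero k p with h | h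
  · have : Fact p.Prime := ⟨h⟩
    exact separable_minpoly_of_derivation_charP p D x hx y hy
  · subst h
    have : CharZero k := CharP.charP_to_charZero k
    have : CharZero k⟮x⟯ := charZero_of_injective_algebraMap (algebraMap k k⟮x⟯).injective
    exact PerfectField.separable_of_irreducible (minpoly.irreducible hy)

/-- The same, as `IsSeparable`. -/
theorem isSeparable_of_derivation [PerfectField k] (D : Derivation k L L) (x : L)
    (hx : D x ≠ 0) (y : L) (hy : IsIntegral k⟮x⟯ y) : IsSeparable k⟮x⟯ y :=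
  separable_minpoly_of_derivation D x hx y hy

/-- Consequently the relative separable closure of `k(x)` in `L` is all of the algebraic
closure: any intermediate field `k(x) ≤ F ≤ L` algebraic over `k(x)` is separable over `k(x)`. -/
theorem isSeparable_of_derivation_of_isAlgebraic [PerfectField k] (D : Derivation k L L) (x : L)
    (hx : D x ≠ 0) (F : IntermediateField k⟮x⟯ L) [Algebra.IsAlgebraic k⟮x⟯ F] :
    Algebra.IsSeparable k⟮x⟯ F := by
  refine ⟨fun z => ?_⟩
  have hz : IsIntegral k⟮x⟯ (z : L) :=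
    (isIntegral_algebraMap_iff (algebraMap F L).injective).mpr
      (Algebra.IsIntegral.isIntegral (R := k⟮x⟯) z)
  have := separable_minpoly_of_derivation D x hx (z : L) hz
  rwa [IsSeparable, ← minpoly.algebraMap_eq (algebraMap F L).injective z]

/-- Clearing denominators: a polynomial over `k(x)`, multiplied by a suitable nonzero element of
`k[x]`, has coefficients in `k[x]`. -/
theorem exists_clear_denominators (x : L) (m : (k⟮x⟯)[X]) :
    ∃ (s : k[X]) (P : k[X][X]), aeval x s ≠ 0 ∧
      P.map (aeval x : k[X] →ₐ[k] L).toRingHom = C (aeval x s) * m.map (algebraMap k⟮x⟯ L) := by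
  induction m using Polynomial.induction_on' with
  | add m₁ m₂ h₁ h₂ =>
    obtain ⟨s₁, P₁, hs₁, hP₁⟩ := h₁
    obtain ⟨s₂, P₂, hs₂, hP₂⟩ := h₂
    refine ⟨s₁ * s₂, C s₂ * P₁ + C s₁ * P₂, ?_, ?_⟩
    · rw [_root_.map_mul]
      exact mul_ne_zero hs₁ hs₂
    · rw [Polynomial.map_add, Polynomial.map_mul, Polynomial.map_mul, hP₁, hP₂, map_C, map_C,
        Polynomial.map_add, _root_.map_mul, C_mul]
      simp only [AlgHom.toRingHom_eq_coe, RingHom.coe_coe]
      ring
  | monomial n c =>
    obtain ⟨r, s, hc⟩ := (mem_adjoin_simple_iff k (c : L)).mp c.2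
    by_cases hs : aeval x s = 0
    · refine ⟨1, 0, by simp, ?_⟩
      have hc0 : algebraMap k⟮x⟯ L c = 0 := by
        rw [IntermediateField.algebraMap_apply, hc, hs, div_zero]
      rw [Polynomial.map_zero, map_monomial, hc0, monomial_zero_right, mul_zero]
    · refine ⟨s, monomial n r, hs, ?_⟩
      rw [map_monomial, map_monomial, C_mul_monomial, IntermediateField.algebraMap_apply, hc,
        mul_div_cancel₀ _ hs]
      rfl

/-- **Separability, polynomial form.**  `k` perfect, `D x ≠ 0`, `y` algebraic over `k(x)`: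
there is `P ∈ k[X][T]` with `P(x, y) = 0` and `(∂P/∂T)(x, y) ≠ 0`. -/
theorem exists_sep_poly_of_derivation [PerfectField k] (D : Derivation k L L) (x : L)
    (hx : D x ≠ 0) (y : L) (hy : IsIntegral k⟮x⟯ y) :
    ∃ P : k[X][X], eval₂ (aeval x : k[X] →ₐ[k] L).toRingHom y P = 0 ∧
      eval₂ (aeval x : k[X] →ₐ[k] L).toRingHom y (derivative P) ≠ 0 := by
  have hsep := separable_minpoly_of_derivation D x hx y hy
  obtain ⟨s, P, hs, hP⟩ := exists_clear_denominators x (minpoly k⟮x⟯ y)
  refine ⟨P, ?_, ?_⟩
  · rw [eval₂_eq_eval_map, hP, eval_mul, eval_C, eval_map_algebraMap, minpoly.aeval, mul_zero]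
  · rw [eval₂_eq_eval_map, ← derivative_map, hP, derivative_mul, derivative_C, zero_mul,
      zero_add, eval_mul, eval_C, derivative_map, eval_map_algebraMap]
    exact mul_ne_zero hs (hsep.aeval_derivative_ne_zero (minpoly.aeval _ y))

end Generic

section Laurent

/-- `Derivation k L L` for a field extension, with the `k`-module structure on `L` coming from
the algebra structure (for `L = k((q))` Mathlib has a second, non-defeq, instance path). -/
abbrev FieldDerivation (k L : Type*) [Field k] [Field L] [Algebra k L] : Type _ :=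
  Derivation k L L

variable {k : Type*} [Field k]

/-- `d/dq` as a `k`-derivation of the field `k((q))` (algebra-module structure). -/
def dqDerAlg (k : Type*) [Field k] : FieldDerivation k (LaurentSeries k) :=
  letI : Module k (LaurentSeries k) := Algebra.toModule
  { toFun := dq
    map_add' := dq_add
    map_smul' := fun c f => by
      rw [Algebra.smul_def, dq_mul, dq_algebraMap, mul_zero, add_zero, RingHom.id_apply,
        Algebra.smul_def]
    map_one_eq_zero' := dq_one
    leibniz' := fun a b => by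
      have := dq_mul a b
      simpa [smul_eq_mul] using this }

@[simp]
theorem dqDerAlg_apply (f : LaurentSeries k) : dqDerAlg k f = dq f := rfl

/-- Criterion for `dx/dq ≠ 0`: some coefficient `a_n` with `n · a_n ≠ 0`. -/
theorem dq_ne_zero_of_coeff (x : LaurentSeries k) (n : ℤ) (h : (n : k) * x.coeff n ≠ 0) :
    dq x ≠ 0 := by
  intro h0
  have h1 : (dq x).coeff (n - 1) = (n : k) * x.coeff n := by
    rw [dq_coeff, sub_add_cancel, zsmul_eq_mul]
  rw [h0, HahnSeries.coeff_zero] at h1
  exact h h1.symm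

/-- `x = a q⁻¹ + …` with `a ≠ 0` (e.g. `x = j`) has `dx/dq ≠ 0`, in any characteristic. -/
theorem dq_ne_zero_of_coeff_neg_one (x : LaurentSeries k) (h : x.coeff (-1) ≠ 0) : dq x ≠ 0 := by
  refine dq_ne_zero_of_coeff x (-1) ?_
  simpa using h

/-- `x = … + a q + …` with `a ≠ 0` (e.g. `x = 1/j`) has `dx/dq ≠ 0`, in any characteristic. -/
theorem dq_ne_zero_of_coeff_one (x : LaurentSeries k) (h : x.coeff 1 ≠ 0) : dq x ≠ 0 := by
  refine dq_ne_zero_of_coeff x 1 ?_
  simpa using h

variable [PerfectField k]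

/-- `x ∈ k((q))` with `dx/dq ≠ 0` is transcendental over the perfect field `k`. -/
theorem laurent_transcendental (x : LaurentSeries k) (hx : dq x ≠ 0) : Transcendental k x :=
  have hx' : dqDerAlg k x ≠ 0 := hx
  transcendental_of_derivation_ne_zero (dqDerAlg k) x hx'

/-- **SEP.**  `k` perfect, `x ∈ k((q))` with `dx/dq ≠ 0`: every `y ∈ k((q))` algebraic over `k(x)`
has separable minimal polynomial over `k(x)`. -/
theorem laurent_separable_minpoly (x : LaurentSeries k) (hx : dq x ≠ 0) (y : LaurentSeries k)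
    (hy : IsIntegral k⟮x⟯ y) : (minpoly k⟮x⟯ y).Separable :=
  have hx' : dqDerAlg k x ≠ 0 := hx
  separable_minpoly_of_derivation (dqDerAlg k) x hx' y hy

theorem laurent_isSeparable (x : LaurentSeries k) (hx : dq x ≠ 0) (y : LaurentSeries k)
    (hy : IsAlgebraic k⟮x⟯ y) : IsSeparable k⟮x⟯ y :=
  laurent_separable_minpoly x hx y hy.isIntegral

/-- Any intermediate field of `k((q)) / k(x)` algebraic over `k(x)` is separable over `k(x)`. -/
theorem laurent_algebra_isSeparable (x : LaurentSeries k) (hx : dq x ≠ 0)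
    (F : IntermediateField k⟮x⟯ (LaurentSeries k)) [Algebra.IsAlgebraic k⟮x⟯ F] :
    Algebra.IsSeparable k⟮x⟯ F :=
  have hx' : dqDerAlg k x ≠ 0 := hx
  isSeparable_of_derivation_of_isAlgebraic (dqDerAlg k) x hx' F

/-- **SEP, polynomial form**: `P ∈ k[X][T]` with `P(x, y) = 0`, `(∂P/∂T)(x, y) ≠ 0`. -/
theorem laurent_exists_sep_poly (x : LaurentSeries k) (hx : dq x ≠ 0) (y : LaurentSeries k)
    (hy : IsAlgebraic k⟮x⟯ y) :
    ∃ P : k[X][X], eval₂ (aeval x : k[X] →ₐ[k] LaurentSeries k).toRingHom y P = 0 ∧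
      eval₂ (aeval x : k[X] →ₐ[k] LaurentSeries k).toRingHom y (derivative P) ≠ 0 :=
  have hx' : dqDerAlg k x ≠ 0 := hx
  exists_sep_poly_of_derivation (dqDerAlg k) x hx' y hy.isIntegral

end Laurent

end Fermat.Agent.S18.H602

end
end
-- ===== PACK-END S18/H602/Sep.lean

-- ===== PACK-BEGIN A2/Alg/H132/HorDVR.lean
section



/-!
# A2 / ALG (helper132): horizontal primes and the hypothesis (H1) of node purity

`B` a noetherian integrally closed domain with fraction field `F`.

* `isDiscreteValuationRing_locAt_of_height_one` : a nonzero prime `P` which contains no other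
  nonzero prime has a discrete valuation ring `B_P`.
* `exists_isLocDVR_of_height_one` : the corresponding valuation subring of `F`.
* `exists_pow_eq_mul_of_isLocDVR` : if `g = u · h ^ m` with `u` a unit of `B_P` and
  `u₀ = g · b ^ m ∈ B`, then `f ^ m = u₀ · r` with `f, r ∈ B`, `r ∉ P`
  (the hypothesis (H1) of `H609.exists_unit_mul_pow_of_node`).
-/

set_option autoImplicit false
set_option linter.unusedSectionVars false
set_option linter.style.haveILetI false

namespace Fermat.Agent.A2.Alg.H132

open Fermat.Agent.A2.H849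

section Hor

variable {B : Type*} [CommRing B] [IsDomain B] [IsNoetherianRing B] [IsIntegrallyClosed B]
variable (F : Type*) [Field F] [Algebra B F] [IsFractionRing B F]

/-- A height-one prime of a noetherian integrally closed domain has a discrete valuation ring as
localisation. -/
theorem isDiscreteValuationRing_locAt_of_height_one (P : Ideal B) [hP : P.IsPrime]
    (hP0 : P ≠ ⊥)
    (hht : ∀ Q : Ideal B, Q.IsPrime → Q ≠ ⊥ → Q ≤ P → Q = P) :
    IsDiscreteValuationRing (locAt F P) := by
  obtain ⟨a, haP, ha0⟩ := Submodule.exists_mem_ne_zero_of_ne_bot hP0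
  have hmin : P ∈ (Ideal.span {a} : Ideal B).minimalPrimes := by
    refine ⟨⟨hP, (Ideal.span_singleton_le_iff_mem P).2 haP⟩, ?_⟩
    rintro Q ⟨hQ, hQa⟩ hQP
    have hQ0 : Q ≠ ⊥ := by
      intro h0
      have : a ∈ Q := (Ideal.span_singleton_le_iff_mem Q).1 hQa
      rw [h0, Ideal.mem_bot] at this
      exact ha0 this
    exact (hht Q hQ hQ0 hQP).ge
  have hass : P ∈ associatedPrimes B (B ⧸ Ideal.span {a}) := by
    apply Module.associatedPrimes.minimalPrimes_annihilator_subset_associatedPrimes
    rw [Ideal.annihilator_quotient]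
    exact hmin
  obtain ⟨-, y, hy⟩ := (isAssociatedPrime_iff (I := P) (M := B ⧸ Ideal.span {a})).1 hass
  obtain ⟨c, rfl⟩ := Ideal.Quotient.mk_surjective y
  have hcol : ∀ r, r ∈ P ↔ a ∣ r * c := by
    intro r
    rw [hy, Submodule.mem_colon_singleton, Submodule.mem_bot]
    exact smul_mk_span_eq_zero_iff a r c
  exact isDiscreteValuationRing_locAt_of_colon P a c ha0 hcol

variable {F}

/-- The discrete valuation subring of `F` attached to a height-one prime. -/
theorem exists_isLocDVR_of_height_one (P : Ideal B) [hP : P.IsPrime] (hP0 : P ≠ ⊥)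
    (hht : ∀ Q : Ideal B, Q.IsPrime → Q ≠ ⊥ → Q ≤ P → Q = P) :
    ∃ O : ValuationSubring F, IsLocDVR O P := by
  have hdvr := isDiscreteValuationRing_locAt_of_height_one F P hP0 hht
  exact ⟨_, isLocDVR_locValuationSubring P hdvr⟩

theorem algebraMap_ne_zero' {b : B} (hb : b ≠ 0) : algebraMap B F b ≠ 0 := fun h0 =>
  hb (IsFractionRing.injective B F (by rw [h0, map_zero]))

/-- an element whose power lies in a valuation subring lies in it. -/
theorem mem_of_pow_mem_valuationSubring (O : ValuationSubring F) {z : F} {m : ℕ} (hm : m ≠ 0)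
    (hz : z ^ m ∈ O) : z ∈ O := by
  rw [← O.valuation_le_one_iff] at hz ⊢
  rw [map_pow] at hz
  exact (pow_le_one_iff hm).1 hz

/-- **(H1) from divisibility at a horizontal prime.** -/
theorem exists_pow_eq_mul_of_isLocDVR {O : ValuationSubring F} {P : Ideal B}
    (hO : IsLocDVR O P) {m : ℕ} (hm : m ≠ 0) {g h u : F} {u₀ b : B}
    (hu₀ : algebraMap B F u₀ = g * algebraMap B F b ^ m)
    (huO : u ∈ O) (huO' : u⁻¹ ∈ O) (hu0 : u ≠ 0) (hg : g = u * h ^ m) :
    ∃ f r : B, r ∉ P ∧ f ^ m = u₀ * r := by
  have hP := hO.prime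
  have hinj : Function.Injective (algebraMap B F) := IsFractionRing.injective B F
  -- `z = h b` is integral at `P`
  have hz : (h * algebraMap B F b) ^ m ∈ O := by
    have e : (h * algebraMap B F b) ^ m = algebraMap B F u₀ * u⁻¹ := by
      rw [hu₀, hg, mul_pow]
      field_simp
    rw [e]
    exact mul_mem (hO.le u₀) huO'
  have hzO := mem_of_pow_mem_valuationSubring O hm hz
  obtain ⟨f₁, s₁, hs₁, hz1⟩ := hO.exists_frac _ hzO
  obtain ⟨r₁, r₂, hr₂, hu1⟩ := hO.exists_frac _ huO'
  have hs₁0 : s₁ ≠ 0 := fun h0 => hs₁ (h0 ▸ P.zero_mem)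
  have hr₂0 : r₂ ≠ 0 := fun h0 => hr₂ (h0 ▸ P.zero_mem)
  have hs₁F : algebraMap B F s₁ ≠ 0 := algebraMap_ne_zero' hs₁0
  have hr₂F : algebraMap B F r₂ ≠ 0 := algebraMap_ne_zero' hr₂0
  have hr₁0 : r₁ ≠ 0 := by
    rintro rfl
    rw [map_zero, zero_mul] at hu1
    exact hu0 (inv_eq_zero.1 hu1)
  have hr₁F : algebraMap B F r₁ ≠ 0 := algebraMap_ne_zero' hr₁0
  have hr₁ : r₁ ∉ P := by
    intro hmem
    apply hO.inv_not_mem r₁ hmem hr₁0
    have e : (algebraMap B F r₁)⁻¹ = u * (algebraMap B F r₂)⁻¹ := by
      have : u = (algebraMap B F r₁ * (algebraMap B F r₂)⁻¹)⁻¹ := by rw [← hu1, inv_inv]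
      rw [this]
      field_simp
    rw [e]
    exact mul_mem huO (hO.inv_mem r₂ hr₂)
  obtain ⟨k, rfl⟩ : ∃ k, m = k + 1 := Nat.exists_eq_succ_of_ne_zero hm
  refine ⟨f₁ * r₂, r₁ * s₁ ^ (k + 1) * r₂ ^ k, ?_, ?_⟩
  · intro hmem
    rcases hP.mem_or_mem hmem with h1 | h1
    · rcases hP.mem_or_mem h1 with h2 | h2
      · exact hr₁ h2
      · exact hs₁ (hP.mem_of_pow_mem _ h2)
    · exact hr₂ (hP.mem_of_pow_mem _ h1)
  · apply hinj
    have e1 : (h * algebraMap B F b) ^ (k + 1) = algebraMap B F u₀ * u⁻¹ := by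
      rw [hu₀, hg, mul_pow]
      field_simp
    rw [hz1, hu1] at e1
    simp only [map_mul, map_pow]
    have e2 : (algebraMap B F f₁) ^ (k + 1) * algebraMap B F r₂ =
        algebraMap B F u₀ * algebraMap B F r₁ * (algebraMap B F s₁) ^ (k + 1) := by
      rw [mul_pow, inv_pow] at e1
      field_simp at e1
      linear_combination e1
    rw [mul_pow, pow_succ (algebraMap B F r₂) k]
    linear_combination (algebraMap B F r₂) ^ k * e2

end Hor

end Fermat.Agent.A2.Alg.H132

end
-- ===== PACK-END A2/Alg/H132/HorDVR.lean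

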