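import Mathlib
import Mathlib.RingTheory.IntegralClosure.IsIntegralClosure.Basic
import Mathlib.RingTheory.LocalRing.MaximalIdeal.Basic
import Mathlib.RingTheory.Nakayama
import Mathlib.RingTheory.Polynomial.Basic
import Mathlib.Algebra.Polynomial.Taylor
import Mathlib.RingTheory.Finiteness.Basic
import Mathlib.RingTheory.Adjoin.FG
import Mathlib.RingTheory.Valuation.ValuationSubring
import Mathlib.RingTheory.Polynomial.Cyclotomic.Basic
import Mathlib.RingTheory.RootsOfUnity.PrimitiveRoots
import Mathlib.Algebra.Ring.GeomSum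
import Mathlib.Tactic.LinearCombination
import Mathlib.Tactic.Ring

-- ===== PACK-BEGIN S19/H19/Good.lean
section
/-
A3 / S19, helper19 — piece ORD, part 2: "good" algebra maps into function algebras.

An `R`-algebra map `φ : A → (X → K)` (`K` a field) is *good* if `A` has a finite `R`-basis whose
image is `K`-linearly independent.  Good maps are injective and the external product of two good
maps, `A ⊗[R] B → (X × Y → K)`, is good.  Mathlib only.
-/


set_option autoImplicit false

noncomputable section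

namespace Fermat.Agent.S19.H19

open scoped BigOperators TensorProduct

section Pullback

variable (R : Type) [CommSemiring R] (K : Type) [CommSemiring K] [Algebra R K]

/-- Pull back functions along `f`, as an algebra map. -/
def pullback {X Y : Type} (f : X → Y) : (Y → K) →ₐ[R] (X → K) :=
  AlgHom.pi (fun x => Pi.evalAlgHom R (fun _ => K) (f x))

@[simp] theorem pullback_apply {X Y : Type} (f : X → Y) (g : Y → K) (x : X) :
    pullback R K f g x = g (f x) := rfl

end Pullback

section ProdMap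

variable {R : Type} [CommRing R] {K : Type} [Field K] [Algebra R K]
variable {A B : Type} [Semiring A] [Algebra R A] [Semiring B] [Algebra R B]
variable {X Y : Type}

/-- External product of two algebra maps into function algebras. -/
def prodMap (φ : A →ₐ[R] (X → K)) (ψ : B →ₐ[R] (Y → K)) : A ⊗[R] B →ₐ[R] (X × Y → K) :=
  Algebra.TensorProduct.productMap ((pullback R K Prod.fst).comp φ)
    ((pullback R K Prod.snd).comp ψ)

@[simp] theorem prodMap_tmul (φ : A →ₐ[R] (X → K)) (ψ : B →ₐ[R] (Y → K)) (a : A) (b : B)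
    (p : X × Y) : prodMap φ ψ (a ⊗ₜ[R] b) p = φ a p.1 * ψ b p.2 := by
  simp [prodMap, Algebra.TensorProduct.productMap_apply_tmul]

/-- Products of two linearly independent families of functions are linearly independent. -/
theorem linearIndependent_mul {ι κ : Type} [Finite ι] [Finite κ] (f : ι → X → K)
    (g : κ → Y → K) (hf : LinearIndependent K f) (hg : LinearIndependent K g) :
    LinearIndependent K (fun (p : ι × κ) => fun (q : X × Y) => f p.1 q.1 * g p.2 q.2) := by
  classical
  have := Fintype.ofFinite ι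
  have := Fintype.ofFinite κ
  rw [Fintype.linearIndependent_iff] at hf hg ⊢
  intro c hc
  have h1 : ∀ (y : Y) (i : ι), ∑ j, c (i, j) * g j y = 0 := by
    intro y
    apply hf (fun i => ∑ j, c (i, j) * g j y)
    funext x
    have := congrFun hc (x, y)
    simp only [Finset.sum_apply, Pi.smul_apply, smul_eq_mul, Pi.zero_apply] at this ⊢
    rw [← this, Fintype.sum_prod_type]
    refine Finset.sum_congr rfl fun i _ => ?_
    rw [Finset.sum_mul]
    refine Finset.sum_congr rfl fun j _ => ?_
    ring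
  intro p
  obtain ⟨i, j⟩ := p
  apply hg (fun j => c (i, j))
  funext y
  have := h1 y i
  simp only [Finset.sum_apply, Pi.smul_apply, smul_eq_mul, Pi.zero_apply]
  exact this

end ProdMap

section Good

variable {R : Type} [CommRing R] {K : Type} [Field K] [Algebra R K]
variable {A B : Type} [Semiring A] [Algebra R A] [Semiring B] [Algebra R B]
variable {X Y : Type}

/-- `φ : A → (X → K)` is good if some finite `R`-basis of `A` has `K`-independent image. -/
def Good (φ : A →ₐ[R] (X → K)) : Prop :=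
  ∃ (ι : Type) (_ : Finite ι) (b : Module.Basis ι R A), LinearIndependent K (fun i => φ (b i))

theorem Good.injective (hRK : Function.Injective (algebraMap R K)) {φ : A →ₐ[R] (X → K)}
    (h : Good φ) : Function.Injective φ := by
  classical
  obtain ⟨ι, hι, b, hb⟩ := h
  have := Fintype.ofFinite ι
  have key : ∀ x : A, φ x = ∑ i, algebraMap R K (b.repr x i) • φ (b i) := by
    intro x
    conv_lhs => rw [← b.sum_repr x]
    rw [map_sum]
    refine Finset.sum_congr rfl fun i _ => ?_
    rw [map_smul]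
    funext m
    simp [_root_.Algebra.smul_def]
  intro x y hxy
  have h2 : ∑ i, (algebraMap R K (b.repr x i) - algebraMap R K (b.repr y i)) • φ (b i) = 0 := by
    simp only [sub_smul, Finset.sum_sub_distrib]
    rw [← key x, ← key y, hxy, sub_self]
  have h3 := (Fintype.linearIndependent_iff.mp hb) _ h2
  apply b.ext_elem
  intro i
  exact hRK (sub_eq_zero.mp (h3 i))

theorem Good.prod {φ : A →ₐ[R] (X → K)} {ψ : B →ₐ[R] (Y → K)} (hφ : Good φ) (hψ : Good ψ) :
    Good (prodMap φ ψ) := by
  obtain ⟨ι, hι, b, hb⟩ := hφ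
  obtain ⟨κ, hκ, c, hc⟩ := hψ
  refine ⟨ι × κ, inferInstance, b.tensorProduct c, ?_⟩
  have := linearIndependent_mul _ _ hb hc
  convert this using 1
  funext p q
  rw [Module.Basis.tensorProduct_apply', prodMap_tmul]

theorem Good.finite {φ : A →ₐ[R] (X → K)} (h : Good φ) : Module.Finite R A := by
  obtain ⟨ι, hι, b, -⟩ := h
  exact Module.Finite.of_basis b

theorem Good.free {φ : A →ₐ[R] (X → K)} (h : Good φ) : Module.Free R A := by
  obtain ⟨ι, hι, b, -⟩ := h
  exact Module.Free.of_basis b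

end Good

end Fermat.Agent.S19.H19

end

end
-- ===== PACK-END S19/H19/Good.lean

-- ===== PACK-BEGIN S19/H679/Star.lean
section


/-!
# Cell A3 (S19), block UNR (helper679) — the semilinear action on functions and the orbit trace

`Γ` a group acting on a field `Ω` by ring automorphisms and on a set `M` (through a plain map
`act : Γ → M → M` with `act 1 = id`, `act (σ τ) = act σ ∘ act τ`).  On functions `M → Ω` we
use the semilinear action `(σ ⋆ f) m = σ • f (act σ⁻¹ m)`; `f` is *equivariant*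
(`f (act σ m) = σ • f m`) iff `σ ⋆ f = f`.

Main result: `orbitTrace_mem` — the orbit-trace lemma used for unramified descent.
-/

set_option autoImplicit false

namespace Fermat.Agent.S19.H679

variable {Γ : Type*} [Group Γ] {Ω : Type*} [Field Ω] [MulSemiringAction Γ Ω] {M : Type*}

/-- `act` is a group action (as a plain map). -/
structure IsActH679 (act : Γ → M → M) : Prop where
  one : ∀ m, act 1 m = m
  mul : ∀ σ τ m, act (σ * τ) m = act σ (act τ m)

/-- The semilinear action on functions. -/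
def starH679 (act : Γ → M → M) (σ : Γ) (f : M → Ω) : M → Ω := fun m => σ • f (act σ⁻¹ m)

theorem starH679_apply (act : Γ → M → M) (σ : Γ) (f : M → Ω) (m : M) :
    starH679 act σ f m = σ • f (act σ⁻¹ m) := rfl

section basics

variable {act : Γ → M → M} (hact : IsActH679 act)
include hact

theorem IsActH679.inv_act (σ : Γ) (m : M) : act σ⁻¹ (act σ m) = m := by
  rw [← hact.mul, inv_mul_cancel, hact.one]

theorem IsActH679.act_inv (σ : Γ) (m : M) : act σ (act σ⁻¹ m) = m := by
  rw [← hact.mul, mul_inv_cancel, hact.one]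

theorem starH679_one (f : M → Ω) : starH679 act (1 : Γ) f = f := by
  funext m
  simp [starH679, hact.one]

theorem starH679_mul (σ τ : Γ) (f : M → Ω) :
    starH679 act (σ * τ) f = starH679 act σ (starH679 act τ f) := by
  funext m
  simp only [starH679, mul_inv_rev, hact.mul, mul_smul]

theorem starH679_inv_star (σ : Γ) (f : M → Ω) :
    starH679 act σ⁻¹ (starH679 act σ f) = f := by
  rw [← starH679_mul hact, inv_mul_cancel, starH679_one hact]

theorem starH679_star_inv (σ : Γ) (f : M → Ω) :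
    starH679 act σ (starH679 act σ⁻¹ f) = f := by
  rw [← starH679_mul hact, mul_inv_cancel, starH679_one hact]

/-- `σ ⋆ f = f` iff `f` intertwines `act σ` and `σ •`. -/
theorem starH679_eq_self_iff (σ : Γ) (f : M → Ω) :
    starH679 act σ f = f ↔ ∀ m, f (act σ m) = σ • f m := by
  constructor
  · intro h m
    have := congrFun h (act σ m)
    rw [starH679_apply, hact.inv_act] at this
    exact this.symm
  · intro h
    funext m
    rw [starH679_apply, ← h, hact.act_inv]

end basics

/-- The semilinear action as a ring homomorphism of the function ring. -/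
def starRingHomH679 (act : Γ → M → M) (σ : Γ) : (M → Ω) →+* (M → Ω) where
  toFun := starH679 act σ
  map_one' := by funext m; simp [starH679]
  map_mul' f g := by funext m; simp [starH679, smul_mul']
  map_zero' := by funext m; simp [starH679]
  map_add' f g := by funext m; simp [starH679, smul_add]

@[simp] theorem starRingHomH679_apply (act : Γ → M → M) (σ : Γ) (f : M → Ω) :
    starRingHomH679 act σ f = starH679 act σ f := rfl

theorem starH679_smul (act : Γ → M → M) (σ : Γ) (x : Ω) (f : M → Ω) :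
    starH679 act σ (x • f) = (σ • x) • starH679 act σ f := by
  funext m
  simp [starH679, smul_mul']

theorem starH679_add (act : Γ → M → M) (σ : Γ) (f g : M → Ω) :
    starH679 act σ (f + g) = starH679 act σ f + starH679 act σ g :=
  map_add (starRingHomH679 act σ) f g

theorem starH679_sum (act : Γ → M → M) (σ : Γ) {ι : Type*} (s : Finset ι) (F : ι → M → Ω) :
    starH679 act σ (∑ i ∈ s, F i) = ∑ i ∈ s, starH679 act σ (F i) :=
  map_sum (starRingHomH679 act σ) F s

/-- The action on pairs (coefficient tuple, function). -/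
def actPairH679 (act : Γ → M → M) {J : Type*} (σ : Γ) (p : (J → Ω) × (M → Ω)) :
    (J → Ω) × (M → Ω) :=
  (fun j => σ • p.1 j, starH679 act σ p.2)

theorem actPairH679_mul {act : Γ → M → M} (hact : IsActH679 act) {J : Type*} (σ τ : Γ)
    (p : (J → Ω) × (M → Ω)) :
    actPairH679 act (σ * τ) p = actPairH679 act σ (actPairH679 act τ p) := by
  simp only [actPairH679, starH679_mul hact, mul_smul]

theorem actPairH679_one {act : Γ → M → M} (hact : IsActH679 act) {J : Type*}
    (p : (J → Ω) × (M → Ω)) : actPairH679 act (1 : Γ) p = p := by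
  simp only [actPairH679, starH679_one hact, one_smul]

section trace

variable {act : Γ → M → M} (hact : IsActH679 act)
variable {A : Type*} [CommRing A] [Algebra A Ω]
variable {J : Type*} [Fintype J]

/-- The orbit trace with coefficient index `j`. -/
noncomputable def orbitTraceH679 (O : Finset ((J → Ω) × (M → Ω))) (j : J) : M → Ω :=
  ∑ p ∈ O, p.1 j • p.2

include hact in
/-- The orbit trace over a `Γ`-stable finite set is invariant. -/
theorem starH679_orbitTrace (O : Finset ((J → Ω) × (M → Ω)))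
    (hO : ∀ σ : Γ, ∀ p ∈ O, actPairH679 act σ p ∈ O) (σ : Γ) (j : J) :
    starH679 act σ (orbitTraceH679 O j) = orbitTraceH679 O j := by
  classical
  unfold orbitTraceH679
  rw [starH679_sum]
  refine Finset.sum_nbij' (fun p => actPairH679 act σ p) (fun p => actPairH679 act σ⁻¹ p)
    (fun p hp => hO σ p hp) (fun p hp => hO σ⁻¹ p hp) ?_ ?_ ?_
  · intro p _
    rw [← actPairH679_mul hact, inv_mul_cancel, actPairH679_one hact]
  · intro p _
    rw [← actPairH679_mul hact, mul_inv_cancel, actPairH679_one hact]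
  · intro p _
    rw [starH679_smul]
    rfl

include hact in
/-- **Orbit-trace lemma.**  See the module docstring of `Descent.lean` for its use. -/
theorem orbitTrace_mem (𝔪 : Ideal A) (Hloc : Submodule A (M → Ω))
    (c : J → Ω) (a : J → A) (f : M → Ω) (D : Set Γ) (hD1 : (1 : Γ) ∈ D)
    (hfin : (Set.range fun σ : Γ => actPairH679 act σ (c, f)).Finite)
    (h1 : ∀ δ ∈ D, starH679 act δ f ∈ Hloc)
    (h1' : ∀ δ ∈ D, ∀ j, ∃ y : A, algebraMap A Ω y = δ • c j)
    (h2 : ∃ e ∈ 𝔪, ∑ j, algebraMap A Ω (a j) * c j = 1 + algebraMap A Ω e)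
    (h3 : ∀ δ ∈ D, actPairH679 act δ (c, f) ≠ (c, f) →
      ∃ e ∈ 𝔪, ∑ j, algebraMap A Ω (a j) * δ • c j = algebraMap A Ω e)
    (h4 : ∀ σ : Γ, (∀ δ ∈ D, actPairH679 act σ (c, f) ≠ actPairH679 act δ (c, f)) →
      ∀ j, (σ • c j) • starH679 act σ f ∈ 𝔪 • Hloc) :
    f ∈ Submodule.span A {h | h ∈ Hloc ∧ ∀ σ : Γ, starH679 act σ h = h} ⊔ 𝔪 • Hloc := by
  classical
  set O : Finset ((J → Ω) × (M → Ω)) := hfin.toFinset with hOdef
  have hmemO : ∀ p, p ∈ O ↔ ∃ σ : Γ, actPairH679 act σ (c, f) = p := by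
    intro p
    rw [hOdef, Set.Finite.mem_toFinset]
    rfl
  have hOstable : ∀ σ : Γ, ∀ p ∈ O, actPairH679 act σ p ∈ O := by
    intro σ p hp
    obtain ⟨τ, rfl⟩ := (hmemO p).1 hp
    exact (hmemO _).2 ⟨σ * τ, actPairH679_mul hact σ τ _⟩
  have hp0 : (c, f) ∈ O := (hmemO _).2 ⟨1, actPairH679_one hact _⟩
  have hfH : f ∈ Hloc := by
    have := h1 1 hD1
    rwa [starH679_one hact] at this
  have hmH : 𝔪 • Hloc ≤ Hloc := Submodule.smul_le_right
  -- each term of each trace lies in `Hloc`
  have hterm : ∀ p ∈ O, ∀ j, p.1 j • p.2 ∈ Hloc := by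
    intro p hp j
    obtain ⟨σ, rfl⟩ := (hmemO p).1 hp
    by_cases hσ : ∃ δ ∈ D, actPairH679 act σ (c, f) = actPairH679 act δ (c, f)
    · obtain ⟨δ, hδ, hδeq⟩ := hσ
      rw [hδeq]
      obtain ⟨y, hy⟩ := h1' δ hδ j
      show (δ • c j) • starH679 act δ f ∈ Hloc
      rw [← hy, algebraMap_smul]
      exact Hloc.smul_mem y (h1 δ hδ)
    · push_neg at hσ
      exact hmH (h4 σ hσ j)
  have hT : ∀ j, orbitTraceH679 O j ∈ {h | h ∈ Hloc ∧ ∀ σ : Γ, starH679 act σ h = h} := by
    intro j
    refine ⟨?_, fun σ => starH679_orbitTrace hact O hOstable σ j⟩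
    exact Submodule.sum_mem _ fun p hp => hterm p hp j
  -- the combination
  have hcomb : ∑ j, a j • orbitTraceH679 O j
      = ∑ p ∈ O, (∑ j, algebraMap A Ω (a j) * p.1 j) • p.2 := by
    unfold orbitTraceH679
    simp_rw [Finset.smul_sum, Finset.sum_smul]
    rw [Finset.sum_comm]
    refine Finset.sum_congr rfl fun p _ => Finset.sum_congr rfl fun j _ => ?_
    rw [← algebraMap_smul Ω (a j) (p.1 j • p.2), smul_smul]
  have hrest : ∀ p ∈ O.erase (c, f), (∑ j, algebraMap A Ω (a j) * p.1 j) • p.2 ∈ 𝔪 • Hloc := by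
    intro p hp
    obtain ⟨hne, hpO⟩ := Finset.mem_erase.1 hp
    obtain ⟨σ, rfl⟩ := (hmemO p).1 hpO
    by_cases hσ : ∃ δ ∈ D, actPairH679 act σ (c, f) = actPairH679 act δ (c, f)
    · obtain ⟨δ, hδ, hδeq⟩ := hσ
      rw [hδeq] at hne ⊢
      obtain ⟨e, he, hee⟩ := h3 δ hδ hne
      show (∑ j, algebraMap A Ω (a j) * δ • c j) • starH679 act δ f ∈ 𝔪 • Hloc
      rw [hee, algebraMap_smul]
      exact Submodule.smul_mem_smul he (h1 δ hδ)
    · push_neg at hσ
      rw [Finset.sum_smul]
      refine Submodule.sum_mem _ fun j _ => ?_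
      rw [← smul_smul, algebraMap_smul]
      exact Submodule.smul_mem _ _ (h4 σ hσ j)
  obtain ⟨e, he, hee⟩ := h2
  have hsplit : ∑ j, a j • orbitTraceH679 O j
      = f + (e • f + ∑ p ∈ O.erase (c, f), (∑ j, algebraMap A Ω (a j) * p.1 j) • p.2) := by
    rw [hcomb, ← Finset.add_sum_erase O _ hp0]
    show (∑ j, algebraMap A Ω (a j) * c j) • f + _ = _
    rw [hee, add_smul, one_smul, algebraMap_smul, add_assoc]
  have hf : f = ∑ j, a j • orbitTraceH679 O j
      - (e • f + ∑ p ∈ O.erase (c, f), (∑ j, algebraMap A Ω (a j) * p.1 j) • p.2) := by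
    rw [hsplit, add_sub_cancel_right]
  rw [hf, sub_eq_add_neg]
  refine Submodule.add_mem_sup ?_ ?_
  · exact Submodule.sum_mem _ fun j _ => Submodule.smul_mem _ _ (Submodule.subset_span (hT j))
  · refine Submodule.neg_mem _ (Submodule.add_mem _ ?_ ?_)
    · exact Submodule.smul_mem_smul he hfH
    · exact Submodule.sum_mem _ hrest

end trace

end Fermat.Agent.S19.H679

end
-- ===== PACK-END S19/H679/Star.lean

-- ===== PACK-BEGIN A3/H799/FamRing.lean
section








/-!
# A3 / LOCAL — rings of "algebraic families" on a finite parameter set  (helper799)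

Cell A3 (S19/S32), piece LOCAL of the "coordinates, not schemes" route
(`coord/A3-LOCAL-helper799.md`).  Mathlib only.

`A` is a commutative ring (in the application the valuation ring of `ℚ̄` above `ℓ`), `T` a finite
set (pairs of torsion points in a residue disc), `Λ` an `A`-subalgebra of the ring `T → A` of all
`A`-valued functions on `T` (in the application `Λ = A[z_i(c), z_i(c')]`, the polynomial functions in
the disc coordinates).  Because `Λ` is a subring of a finite product of copies of `A`, every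
statement "over `Λ`" can be checked pointwise; this file proves that `Λ` is nevertheless closed
under all the operations used by Riemann–Roch with parameters:

* `inv_mem`        : pointwise units of `Λ` are units of `Λ`;
* `hensel_mem`     : a function `y : T → 𝔪` that is pointwise a simple root of a polynomial with
                     coefficients in `Λ` lies in `Λ`  (Hensel without completeness);
* `exists_conductor` : if `Λ` separates the points of `T` then `d • (T → A) ⊆ Λ` for some `d ≠ 0`;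
* `limit_mem`      : `Λ` is closed under `x`-adic limits, `x ∈ Λ` pointwise topologically nilpotent.
-/

set_option autoImplicit false

namespace Fermat.Agent.A3.H799

open Polynomial

section Units

variable {A : Type*} [CommRing A] {T : Type*} [Finite T]

/-- The ring of all functions on a finite set is integral over any subalgebra. -/
theorem isIntegral_fun (Λ : Subalgebra A (T → A)) (f : T → A) : IsIntegral Λ f := by
  have h : IsIntegral A f := Algebra.IsIntegral.isIntegral f
  exact h.tower_top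

/-- **Pointwise units are units.**  If `f ∈ Λ` is a unit at every point of the finite set `T`,
its pointwise inverse lies in `Λ`. -/
theorem inv_mem (Λ : Subalgebra A (T → A)) {f g : T → A} (hf : f ∈ Λ) (hfg : f * g = 1) :
    g ∈ Λ := by
  have hint : (algebraMap Λ (T → A)).IsIntegral := fun x => isIntegral_fun Λ x
  have hinj : Function.Injective (algebraMap Λ (T → A)) := Subtype.val_injective
  have := hint.isLocalHom hinj
  have hu : IsUnit (algebraMap Λ (T → A) ⟨f, hf⟩) :=
    IsUnit.of_mul_eq_one (a := (algebraMap Λ (T → A) ⟨f, hf⟩)) g hfg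
  obtain ⟨u, hu'⟩ := (isUnit_of_map_unit (algebraMap Λ (T → A)) _ hu)
  have h1 : f * ((u⁻¹ : Λˣ) : Λ) = 1 := by
    have := congrArg (algebraMap Λ (T → A)) (u.mul_inv)
    rw [_root_.map_mul, _root_.map_one, hu'] at this
    exact this
  have : g = ((u⁻¹ : Λˣ) : Λ) := by
    calc g = g * (f * ((u⁻¹ : Λˣ) : Λ)) := by rw [h1, mul_one]
      _ = (f * g) * ((u⁻¹ : Λˣ) : Λ) := by ring
      _ = ((u⁻¹ : Λˣ) : Λ) := by rw [hfg, one_mul]
  rw [this]
  exact Subtype.mem _

/-- Version of `inv_mem` with a pointwise hypothesis. -/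
theorem exists_inv_mem (Λ : Subalgebra A (T → A)) {f : T → A} (hf : f ∈ Λ)
    (hu : ∀ t, IsUnit (f t)) : ∃ g ∈ Λ, f * g = 1 := by
  choose u hu' using hu
  refine ⟨fun t => ((u t)⁻¹ : Aˣ), ?_, ?_⟩
  · refine inv_mem Λ hf ?_
    funext t
    simp [← hu']
  · funext t
    simp [← hu']

end Units

section Hensel

variable {A : Type*} [CommRing A] [IsLocalRing A] {T : Type*} [Finite T]

/-- The ideal of `Λ` of functions with values in the maximal ideal of `A`. -/
def radIdeal (Λ : Subalgebra A (T → A)) : Ideal Λ where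
  carrier := {f | ∀ t, (f : T → A) t ∈ IsLocalRing.maximalIdeal A}
  add_mem' := fun {f g} hf hg t => by
    simpa using (IsLocalRing.maximalIdeal A).add_mem (hf t) (hg t)
  zero_mem' := fun t => by simp
  smul_mem' := fun c f hf t => by
    simpa using (IsLocalRing.maximalIdeal A).mul_mem_left ((c : T → A) t) (hf t)

omit [Finite T] in
theorem mem_radIdeal {Λ : Subalgebra A (T → A)} {f : Λ} :
    f ∈ radIdeal Λ ↔ ∀ t, (f : T → A) t ∈ IsLocalRing.maximalIdeal A := Iff.rfl

/-- `radIdeal Λ` is contained in the Jacobson radical of `Λ`. -/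
theorem radIdeal_le_jacobson (Λ : Subalgebra A (T → A)) :
    radIdeal Λ ≤ Ideal.jacobson (⊥ : Ideal Λ) := by
  intro x hx
  rw [Ideal.mem_jacobson_bot]
  intro y
  have hu : ∀ t, IsUnit (((x * y + 1 : Λ) : T → A) t) := by
    intro t
    have h1 : ((x * y + 1 : Λ) : T → A) t = (x : T → A) t * (y : T → A) t + 1 := by simp
    rw [h1]
    have hm : (x : T → A) t * (y : T → A) t ∈ IsLocalRing.maximalIdeal A :=
      (IsLocalRing.maximalIdeal A).mul_mem_right _ (hx t)
    by_contra hnu
    have h2 : (x : T → A) t * (y : T → A) t + 1 ∈ IsLocalRing.maximalIdeal A :=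
      (IsLocalRing.mem_maximalIdeal _).mpr hnu
    have h3 : (1 : A) ∈ IsLocalRing.maximalIdeal A := by
      have := (IsLocalRing.maximalIdeal A).sub_mem h2 hm
      simpa using this
    exact (IsLocalRing.maximalIdeal.isMaximal A).ne_top
      ((Ideal.eq_top_iff_one _).mpr h3)
  obtain ⟨g, hg, hfg⟩ := exists_inv_mem Λ (x * y + 1).2 hu
  exact IsUnit.of_mul_eq_one (⟨g, hg⟩ : Λ) (Subtype.ext hfg)

/-- **Hensel without completeness.**  Let `Λ` be an `A`-algebra of functions on the finite set `T`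
(`A` local).  If `y : T → 𝔪_A` is a root of `Φ ∈ Λ[X]` and `Φ'(y)` is a unit at every point,
then `y ∈ Λ`. -/
theorem hensel_mem (Λ : Subalgebra A (T → A)) (Φ : Λ[X]) (y : T → A)
    (hy : ∀ t, y t ∈ IsLocalRing.maximalIdeal A)
    (hroot : aeval y Φ = 0)
    (hder : ∀ t, IsUnit ((aeval y (derivative Φ)) t)) : y ∈ Λ := by
  classical
  -- notation
  set Ψ : Λ[X] := divX Φ with hΨ
  set c : Λ := Φ.coeff 0 with hc
  have hΦ : Φ = Ψ * X + C c := (divX_mul_X_add Φ).symm
  -- the bigger ring Λ' = Λ[y]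
  let Λ' : Subalgebra Λ (T → A) := Algebra.adjoin Λ {y}
  have hΛ' : Λ' = (aeval y : Λ[X] →ₐ[Λ] (T → A)).range :=
    Algebra.adjoin_singleton_eq_range_aeval Λ y
  have hyΛ' : y ∈ Λ' := Algebra.subset_adjoin (Set.mem_singleton y)
  have hΨy : aeval y Ψ ∈ Λ' := by
    rw [hΛ']; exact ⟨Ψ, rfl⟩
  -- the relation Ψ(y) * y = - c
  have hrel : aeval y Ψ * y + algebraMap Λ (T → A) c = 0 := by
    have := hroot
    rw [hΦ] at this
    simpa using this
  -- Ψ(y) is a pointwise unit
  have hder' : aeval y (derivative Φ) = aeval y (derivative Ψ) * y + aeval y Ψ := by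
    conv_lhs => rw [hΦ]
    simp [derivative_mul]
  have hunit : ∀ t, IsUnit ((aeval y Ψ) t) := by
    intro t
    have h1 := hder t
    rw [hder'] at h1
    have hm : (aeval y (derivative Ψ) * y) t ∈ IsLocalRing.maximalIdeal A := by
      simpa using (IsLocalRing.maximalIdeal A).mul_mem_left _ (hy t)
    by_contra hnu
    have h2 : (aeval y Ψ) t ∈ IsLocalRing.maximalIdeal A :=
      (IsLocalRing.mem_maximalIdeal _).mpr hnu
    have h3 := (IsLocalRing.maximalIdeal A).add_mem hm h2
    exact (IsLocalRing.mem_maximalIdeal _).mp h3 (by simpa using h1)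
  -- its inverse lies in Λ'
  obtain ⟨w, hw, hww⟩ := exists_inv_mem (Λ'.restrictScalars A) (f := aeval y Ψ) hΨy hunit
  have hw' : w ∈ Λ' := hw
  -- y = - w * c
  have hyw : y = -(w * algebraMap Λ (T → A) c) := by
    have h1 : aeval y Ψ * y = -algebraMap Λ (T → A) c := eq_neg_of_add_eq_zero_left hrel
    calc y = (aeval y Ψ * w) * y := by rw [hww, one_mul]
      _ = w * (aeval y Ψ * y) := by ring
      _ = -(w * algebraMap Λ (T → A) c) := by rw [h1]; ring
  -- c lies in the radical ideal
  have hcI : c ∈ radIdeal Λ := by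
    intro t
    have h1 : (algebraMap Λ (T → A) c) t = -((aeval y Ψ) t * y t) := by
      have := congrFun hrel t
      simp only [Pi.add_apply, Pi.mul_apply, Pi.zero_apply] at this
      exact eq_neg_of_add_eq_zero_right this
    have h2 : ((c : Λ) : T → A) t = (algebraMap Λ (T → A) c) t := rfl
    rw [h2, h1]
    exact (IsLocalRing.maximalIdeal A).neg_mem ((IsLocalRing.maximalIdeal A).mul_mem_left _ (hy t))
  -- Nakayama
  have hfg : (Subalgebra.toSubmodule Λ').FG :=
    (isIntegral_fun Λ y).fg_adjoin_singleton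
  have hle : Subalgebra.toSubmodule Λ' ≤
      (Subalgebra.toSubmodule (⊥ : Subalgebra Λ (T → A))) ⊔
        (radIdeal Λ) • (Subalgebra.toSubmodule Λ') := by
    intro z hz
    have hz' : z ∈ Λ' := hz
    rw [hΛ'] at hz'
    obtain ⟨p, hpz⟩ := hz'
    have hpz' : aeval y p = z := hpz
    have hp : p = divX p * X + C (p.coeff 0) := (divX_mul_X_add p).symm
    have hpy : aeval y p = algebraMap Λ (T → A) (p.coeff 0) +
        c • (-(w * aeval y (divX p))) := by
      conv_lhs => rw [hp]
      simp only [_root_.map_add, _root_.map_mul, aeval_X, aeval_C]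
      rw [Algebra.smul_def]
      have hyw' : aeval y (divX p) * y =
          aeval y (divX p) * (-(w * algebraMap Λ (T → A) c)) := by rw [← hyw]
      rw [hyw']
      ring
    rw [← hpz', hpy]
    refine Submodule.add_mem_sup ?_ ?_
    · exact Subalgebra.algebraMap_mem _ _
    · refine Submodule.smul_mem_smul hcI ?_
      refine Subalgebra.neg_mem _ (Subalgebra.mul_mem _ hw' ?_)
      rw [hΛ']; exact ⟨_, rfl⟩
  have hfin := Submodule.le_of_le_smul_of_le_jacobson_bot hfg (radIdeal_le_jacobson Λ) hle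
  have hy1 : y ∈ Subalgebra.toSubmodule (⊥ : Subalgebra Λ (T → A)) := hfin hyΛ'
  obtain ⟨l, hl⟩ := Algebra.mem_bot.mp hy1
  rw [← hl]
  exact l.2

end Hensel

end Fermat.Agent.A3.H799

end
-- ===== PACK-END A3/H799/FamRing.lean

-- ===== PACK-BEGIN A3/H675/Ant.lean
section


/-!
# A3 / GR — arithmetic of a valuation ring of `ℚ̄` above `ℓ`  (helper675)

Pure algebra (Mathlib only).  `K` is a field all of whose elements are algebraic over `ℤ`
(e.g. `K = ℚ̄`), `A` a valuation subring of `K` with `(ℓ : K) ∈ A.nonunits`, `ℓ` prime.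

* `valuation_intCast_eq_one`     : an integer prime to `ℓ` is a unit of `A`;
* `exists_pow_le_valuation`      : for `b ≠ 0` there is `m` with `v(ℓ)^m ≤ v(b)`;
* `exists_valuation_pow_le`      : for `a ∈ 𝔪` there is `n > 0` with `v(a)^n ≤ v(ℓ)`;
* `harch`                        : **rank one**: `a ∈ 𝔪`, `b ≠ 0` ⟹ `∃ n, a^n / b ∈ A`
                                   (the hypothesis `harch` of `A3.H799.LocalStatement`);
* `exists_root_lift`             : (`K` algebraically closed) every root of the reduction of a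
                                   monic `P ∈ A[X]` lifts to a root of `P` in `A`;
* `eq_of_pow_eq_one_of_sub_mem`  : reduction is injective on `m`-th roots of unity, `ℓ ∤ m`;
* `exists_pow_eq_one_residue`    : every nonzero residue class is a root of unity of order prime
                                   to `ℓ`;
* `exists_fixed_lift`            : **Teichmüller lifts**: every `c` in the residue field has a lift
                                   `a ∈ A` fixed by every ring automorphism `σ` of `K` with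
                                   `σ x - x ∈ 𝔪` for all `x ∈ A` (the field `I_lift_const` of
                                   `A3.H799.GoodRed`).
-/

set_option autoImplicit false
set_option linter.style.haveILetI false

open Polynomial

namespace Fermat.Agent.A3.H675

variable {K : Type*} [Field K] (A : ValuationSubring K)

/-! ## Integers in `A` -/

theorem intCast_mem_vs (n : ℤ) : (n : K) ∈ A := intCast_mem A n

theorem valuation_intCast_le_one (n : ℤ) : A.valuation (n : K) ≤ 1 :=
  (A.valuation_le_one_iff _).mpr (intCast_mem_vs A n)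

/-- An integer prime to `ℓ` is a unit of `A`. -/
theorem valuation_intCast_eq_one {ℓ : ℕ} (hℓ : ℓ.Prime) (hA : (ℓ : K) ∈ A.nonunits) {n : ℤ}
    (hn : ¬ (ℓ : ℤ) ∣ n) : A.valuation (n : K) = 1 := by
  rcases (valuation_intCast_le_one A n).lt_or_eq with h | h
  · exfalso
    have hp : Prime (ℓ : ℤ) := Nat.prime_iff_prime_int.mp hℓ
    have hcop : IsCoprime (ℓ : ℤ) n := (hp.irreducible.coprime_iff_not_dvd).mpr hn
    obtain ⟨u, w, huw⟩ := hcop
    have h1 : ((u : K) * (ℓ : K)) + (w : K) * (n : K) = 1 := by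
      have := congrArg (Int.cast : ℤ → K) huw
      push_cast at this
      exact this
    have hl : A.valuation (ℓ : K) < 1 := (A.mem_nonunits_iff).mp hA
    have h2 : A.valuation ((u : K) * (ℓ : K)) < 1 := by
      rw [_root_.map_mul]
      calc A.valuation (u : K) * A.valuation (ℓ : K) ≤ 1 * A.valuation (ℓ : K) :=
            mul_le_mul_left (valuation_intCast_le_one A u) _
        _ = A.valuation (ℓ : K) := one_mul _
        _ < 1 := hl
    have h3 : A.valuation ((w : K) * (n : K)) < 1 := by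
      rw [_root_.map_mul]
      calc A.valuation (w : K) * A.valuation (n : K) ≤ 1 * A.valuation (n : K) :=
            mul_le_mul_left (valuation_intCast_le_one A w) _
        _ = A.valuation (n : K) := one_mul _
        _ < 1 := h
    have h4 : A.valuation (((u : K) * (ℓ : K)) + (w : K) * (n : K)) < 1 :=
      A.valuation.map_add_lt h2 h3
    rw [h1, _root_.map_one] at h4
    exact lt_irrefl _ h4
  · exact h


/-- The valuation of a nonzero integer is a power of the valuation of `ℓ`. -/
theorem exists_valuation_intCast_eq {ℓ : ℕ} (hℓ : ℓ.Prime) (hA : (ℓ : K) ∈ A.nonunits) {y : ℤ}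
    (hy : y ≠ 0) : ∃ e : ℕ, A.valuation (y : K) = A.valuation (ℓ : K) ^ e := by
  obtain ⟨e, n', hn', hyn⟩ :=
    Nat.exists_eq_pow_mul_and_not_dvd (Int.natAbs_ne_zero.mpr hy) ℓ hℓ.ne_one
  refine ⟨e, ?_⟩
  have h1 : A.valuation ((y.natAbs : ℤ) : K) = A.valuation (y : K) := by
    rcases Int.natAbs_eq y with h | h
    · rw [← h]
    · conv_rhs => rw [h]
      rw [Int.cast_neg, Valuation.map_neg]
  rw [← h1, hyn]
  push_cast
  rw [_root_.map_mul, _root_.map_pow]
  have h2 : A.valuation (((n' : ℤ) : K)) = 1 :=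
    valuation_intCast_eq_one A hℓ hA (by exact_mod_cast hn')
  have h3 : ((n' : ℤ) : K) = (n' : K) := by push_cast; rfl
  rw [← h3, h2, mul_one]

/-- An element integral over `ℤ` lies in `A`. -/
theorem mem_of_isIntegral_int {x : K} (hx : IsIntegral ℤ x) : x ∈ A := by
  have h : IsIntegral A x := hx.tower_top
  obtain ⟨y, hy⟩ := (IsIntegrallyClosed.isIntegral_iff (R := A) (K := K)).mp h
  rw [← hy]
  exact y.2

/-- For `b ≠ 0` algebraic over `ℤ` there is `m` with `v(ℓ)^m ≤ v(b)`. -/
theorem exists_pow_le_valuation {ℓ : ℕ} (hℓ : ℓ.Prime) (hA : (ℓ : K) ∈ A.nonunits) {b : K}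
    (hb : b ≠ 0) (halg : IsAlgebraic ℤ b) :
    ∃ m : ℕ, A.valuation (ℓ : K) ^ m ≤ A.valuation b := by
  obtain ⟨y, hy0, hyint⟩ := (halg.inv).exists_integral_multiple
  have hmem : y • b⁻¹ ∈ A := mem_of_isIntegral_int A hyint
  obtain ⟨e, he⟩ := exists_valuation_intCast_eq A hℓ hA hy0
  refine ⟨e, ?_⟩
  rw [← he]
  have h1 : A.valuation (y • b⁻¹) ≤ 1 := (A.valuation_le_one_iff _).mpr hmem
  rw [zsmul_eq_mul, _root_.map_mul, map_inv₀] at h1
  have hvb : A.valuation b ≠ 0 := (Valuation.ne_zero_iff _).mpr hb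
  have h2 := (mul_inv_le_iff₀ (zero_lt_iff.mpr hvb)).mp h1
  simpa using h2


/-- A polynomial over `ℤ` vanishing at `a`, with a coefficient prime to `ℓ`. -/
theorem exists_int_poly_not_dvd [CharZero K] {ℓ : ℕ} (hℓ : ℓ.Prime) {a : K}
    (halg : IsAlgebraic ℤ a) :
    ∃ q : ℤ[X], eval₂ (Int.castRingHom K) a q = 0 ∧ ∃ i, ¬ (ℓ : ℤ) ∣ q.coeff i := by
  obtain ⟨p, hp0, hpa⟩ := halg
  have hinj : Function.Injective (Int.castRingHom K) := Int.cast_injective
  have hpa' : eval₂ (Int.castRingHom K) a p = 0 := by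
    rw [← hpa, aeval_def]
    rfl
  refine ⟨p.primPart, eval₂_primPart_eq_zero hinj hp0 hpa', ?_⟩
  by_contra hcon
  simp only [not_exists, not_not] at hcon
  have hdvd : C (ℓ : ℤ) ∣ p.primPart := (C_dvd_iff_dvd_coeff _ _).mpr hcon
  have hu : IsUnit (ℓ : ℤ) := (isPrimitive_primPart p) _ hdvd
  have hp : Prime (ℓ : ℤ) := Nat.prime_iff_prime_int.mp hℓ
  exact hp.not_isUnit hu

/-- For `a ∈ 𝔪` algebraic over `ℤ` there is `n > 0` with `v(a)^n ≤ v(ℓ)`. -/
theorem exists_valuation_pow_le [CharZero K] {ℓ : ℕ} (hℓ : ℓ.Prime) (hA : (ℓ : K) ∈ A.nonunits)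
    {a : K} (ha : a ∈ A.nonunits) (halg : IsAlgebraic ℤ a) :
    ∃ n : ℕ, 0 < n ∧ A.valuation a ^ n ≤ A.valuation (ℓ : K) := by
  classical
  have hl : A.valuation (ℓ : K) < 1 := (A.mem_nonunits_iff).mp hA
  have hva : A.valuation a < 1 := (A.mem_nonunits_iff).mp ha
  rcases eq_or_ne a 0 with rfl | ha0
  · exact ⟨1, one_pos, by simp⟩
  have hva0 : A.valuation a ≠ 0 := (Valuation.ne_zero_iff _).mpr ha0
  obtain ⟨q, hq, hex⟩ := exists_int_poly_not_dvd hℓ halg
  set i0 := Nat.find hex with hi0
  have hi0spec : ¬ (ℓ : ℤ) ∣ q.coeff i0 := Nat.find_spec hex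
  have hmin : ∀ i, i < i0 → (ℓ : ℤ) ∣ q.coeff i := fun i hi => by
    by_contra h
    exact Nat.find_min hex hi h
  have hkey : A.valuation a ^ i0 ≤ A.valuation (ℓ : K) := by
    by_contra hcon
    rw [not_le] at hcon
    -- the term `i0` strictly dominates
    have hc0 : q.coeff i0 ≠ 0 := fun h => hi0spec (by rw [h]; exact dvd_zero _)
    have hle : i0 ≤ q.natDegree := le_natDegree_of_ne_zero hc0
    have hmem : i0 ∈ Finset.range (q.natDegree + 1) := Finset.mem_range.mpr (by omega)
    rw [eval₂_eq_sum_range, ← Finset.add_sum_erase _ _ hmem] at hq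
    have hv0 : A.valuation ((Int.castRingHom K) (q.coeff i0) * a ^ i0) = A.valuation a ^ i0 := by
      rw [_root_.map_mul, _root_.map_pow]
      have : A.valuation ((Int.castRingHom K) (q.coeff i0)) = 1 :=
        valuation_intCast_eq_one A hℓ hA hi0spec
      rw [this, one_mul]
    have hg0 : A.valuation a ^ i0 ≠ 0 := pow_ne_zero _ hva0
    have hrest : A.valuation (∑ x ∈ (Finset.range (q.natDegree + 1)).erase i0,
        (Int.castRingHom K) (q.coeff x) * a ^ x) < A.valuation a ^ i0 := by
      refine A.valuation.map_sum_lt hg0 ?_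
      intro i hi
      have hne : i ≠ i0 := (Finset.mem_erase.mp hi).1
      rw [_root_.map_mul, _root_.map_pow]
      rcases lt_or_gt_of_ne hne with hlt | hgt
      · obtain ⟨c, hc⟩ := hmin i hlt
        have h1 : A.valuation ((Int.castRingHom K) (q.coeff i)) ≤ A.valuation (ℓ : K) := by
          rw [hc]
          have : (Int.castRingHom K) ((ℓ : ℤ) * c) = (ℓ : K) * (c : K) := by
            simp
          rw [this, _root_.map_mul]
          exact mul_le_of_le_one_right' (valuation_intCast_le_one A c)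
        calc A.valuation ((Int.castRingHom K) (q.coeff i)) * A.valuation a ^ i
            ≤ A.valuation ((Int.castRingHom K) (q.coeff i)) :=
              mul_le_of_le_one_right' (Right.pow_le_one_of_le hva.le)
          _ ≤ A.valuation (ℓ : K) := h1
          _ < A.valuation a ^ i0 := hcon
      · calc A.valuation ((Int.castRingHom K) (q.coeff i)) * A.valuation a ^ i
            ≤ A.valuation a ^ i := mul_le_of_le_one_left' (valuation_intCast_le_one A _)
          _ < A.valuation a ^ i0 :=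
              pow_lt_pow_right_of_lt_one₀ (zero_lt_iff.mpr hva0) hva hgt
    have hneg : (Int.castRingHom K) (q.coeff i0) * a ^ i0 =
        - ∑ x ∈ (Finset.range (q.natDegree + 1)).erase i0,
          (Int.castRingHom K) (q.coeff x) * a ^ x := eq_neg_of_add_eq_zero_left hq
    rw [← hv0, hneg, Valuation.map_neg] at hrest
    exact lt_irrefl _ hrest
  refine ⟨i0, ?_, hkey⟩
  rcases Nat.eq_zero_or_pos i0 with h0 | h0
  · exfalso
    rw [h0, pow_zero] at hkey
    exact not_lt.mpr hkey hl
  · exact h0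

/-- **Rank one.**  If every element of `K` is algebraic over `ℤ` and `A` lies over `ℓ`, then for
`a ∈ 𝔪` and `b ≠ 0` some power of `a` is divisible by `b` in `A`. -/
theorem harch [CharZero K] (halg : ∀ x : K, IsAlgebraic ℤ x) {ℓ : ℕ} (hℓ : ℓ.Prime)
    (hA : (ℓ : K) ∈ A.nonunits) :
    ∀ a b : K, a ∈ A.nonunits → b ≠ 0 → ∃ n : ℕ, a ^ n / b ∈ A := by
  intro a b ha hb
  obtain ⟨n, -, hn⟩ := exists_valuation_pow_le A hℓ hA ha (halg a)
  obtain ⟨m, hm⟩ := exists_pow_le_valuation A hℓ hA hb (halg b)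
  refine ⟨n * m, ?_⟩
  rw [← A.valuation_le_one_iff, map_div₀, _root_.map_pow, pow_mul]
  have hvb : A.valuation b ≠ 0 := (Valuation.ne_zero_iff _).mpr hb
  have h1 : (A.valuation a ^ n) ^ m ≤ A.valuation b :=
    (pow_le_pow_left' hn m).trans hm
  rw [div_eq_mul_inv]
  refine (mul_inv_le_iff₀ (zero_lt_iff.mpr hvb)).mpr ?_
  rw [one_mul]
  exact h1


/-! ## Lifting roots -/

/-- In a valuation subring of an algebraically closed field every root of the reduction of a
monic polynomial lifts to a root of the polynomial. -/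
theorem exists_root_lift [IsAlgClosed K] (P : A[X]) (hP : P.Monic)
    (c : IsLocalRing.ResidueField A) (hc : (P.map (IsLocalRing.residue A)).eval c = 0) :
    ∃ a : A, P.eval a = 0 ∧ IsLocalRing.residue A a = c := by
  classical
  set Q := P.map (algebraMap A K) with hQ
  have hQm : Q.Monic := hP.map _
  have hsplit : Q.Splits := IsAlgClosed.splits Q
  have hprod := hsplit.eq_prod_roots_of_monic hQm
  have hinj : Function.Injective (algebraMap A K) := Subtype.val_injective
  have hroot : ∀ x ∈ Q.roots, x ∈ A := by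
    intro x hx
    have hx0 : Q.IsRoot x := (mem_roots hQm.ne_zero).mp hx
    have hx1 : eval₂ (algebraMap A K) x P = 0 := by
      rw [← eval_map]; exact hx0
    have hint : IsIntegral A x := ⟨P, hP, hx1⟩
    obtain ⟨y, hy⟩ := (IsIntegrallyClosed.isIntegral_iff (R := A) (K := K)).mp hint
    rw [← hy]
    exact y.2
  set s : Multiset A := Q.roots.pmap (fun x hx => (⟨x, hx⟩ : A)) hroot with hs
  have hPeq : P = (s.map (fun a => X - C a)).prod := by
    apply Polynomial.map_injective (algebraMap A K) hinj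
    rw [Polynomial.map_multiset_prod, Multiset.map_map]
    have h1 : (Multiset.map (Polynomial.map (algebraMap A K) ∘ fun a => X - C a) s)
        = Multiset.map (fun x => X - C x) Q.roots := by
      rw [hs, Multiset.map_pmap]
      have h2 : (fun (a : K) (h : a ∈ A) =>
          (Polynomial.map (algebraMap A K) ∘ fun a => X - C a) (⟨a, h⟩ : A))
          = fun (a : K) (_ : a ∈ A) => (X - C a : K[X]) := by
        funext a h
        simp
      rw [h2]
      exact Multiset.pmap_eq_map _ _ _ _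
    rw [h1]
    exact hprod
  have hred : P.map (IsLocalRing.residue A)
      = (s.map (fun a => X - C (IsLocalRing.residue A a))).prod := by
    conv_lhs => rw [hPeq]
    rw [Polynomial.map_multiset_prod, Multiset.map_map]
    congr 1
    refine Multiset.map_congr rfl ?_
    intro a _
    simp
  rw [hred, eval_multiset_prod, Multiset.map_map, Multiset.prod_eq_zero_iff] at hc
  obtain ⟨a, has, ha⟩ := Multiset.mem_map.mp hc
  refine ⟨a, ?_, ?_⟩
  · rw [hPeq, eval_multiset_prod, Multiset.map_map, Multiset.prod_eq_zero_iff]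
    exact Multiset.mem_map.mpr ⟨a, has, by simp⟩
  · simp only [Function.comp_apply, eval_sub, eval_X, eval_C] at ha
    exact (sub_eq_zero.mp ha).symm


/-! ## Roots of unity of order prime to `ℓ` -/

theorem valuation_eq_one_of_pow_eq_one {x : K} {m : ℕ} (hm : m ≠ 0) (hx : x ^ m = 1) :
    A.valuation x = 1 := by
  have h : A.valuation x ^ m = 1 := by rw [← _root_.map_pow, hx, _root_.map_one]
  exact (pow_eq_one_iff_left hm).mp h

theorem valuation_geom_sum₂_le_one {x y : K} (hx : A.valuation x ≤ 1) (hy : A.valuation y ≤ 1)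
    (n : ℕ) : A.valuation (∑ i ∈ Finset.range n, x ^ i * y ^ (n - 1 - i)) ≤ 1 := by
  refine A.valuation.map_sum_le ?_
  intro i _
  rw [_root_.map_mul, _root_.map_pow, _root_.map_pow]
  exact mul_le_one' (Right.pow_le_one_of_le hx) (Right.pow_le_one_of_le hy)

/-- Reduction is injective on the `m`-th roots of unity, `ℓ ∤ m`. -/
theorem eq_of_pow_eq_one_of_sub_mem {ℓ : ℕ} (hℓ : ℓ.Prime) (hA : (ℓ : K) ∈ A.nonunits) {m : ℕ}
    (hm : ¬ ℓ ∣ m) {x y : K} (hx : x ^ m = 1) (hy : y ^ m = 1) (hxy : x - y ∈ A.nonunits) :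
    x = y := by
  by_contra hne
  have hm0 : m ≠ 0 := fun h => hm (by rw [h]; exact dvd_zero _)
  have hvx : A.valuation x = 1 := valuation_eq_one_of_pow_eq_one A hm0 hx
  have hvy : A.valuation y = 1 := valuation_eq_one_of_pow_eq_one A hm0 hy
  have hvxy : A.valuation (x - y) < 1 := (A.mem_nonunits_iff).mp hxy
  have hS : (∑ i ∈ Finset.range m, x ^ i * y ^ (m - 1 - i)) = 0 := by
    have h := geom_sum₂_mul x y m
    rw [hx, hy, sub_self] at h
    rcases mul_eq_zero.mp h with h | h
    · exact h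
    · exact absurd (sub_eq_zero.mp h) hne
  -- `S - m y^(m-1) = ∑ (x^i - y^i) y^(m-1-i)` has valuation `< 1`
  have hdiff : A.valuation ((∑ i ∈ Finset.range m, x ^ i * y ^ (m - 1 - i))
      - ∑ i ∈ Finset.range m, y ^ i * y ^ (m - 1 - i)) < 1 := by
    rw [← Finset.sum_sub_distrib]
    refine A.valuation.map_sum_lt one_ne_zero ?_
    intro i _
    rw [← sub_mul, _root_.map_mul, _root_.map_pow]
    have h1 : A.valuation (x ^ i - y ^ i) < 1 := by
      rw [← geom_sum₂_mul x y i, _root_.map_mul]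
      calc A.valuation (∑ j ∈ Finset.range i, x ^ j * y ^ (i - 1 - j)) * A.valuation (x - y)
          ≤ A.valuation (x - y) :=
            mul_le_of_le_one_left' (valuation_geom_sum₂_le_one A hvx.le hvy.le i)
        _ < 1 := hvxy
    rw [hvy, one_pow, mul_one]
    exact h1
  rw [hS, zero_sub, Valuation.map_neg] at hdiff
  have hsum : (∑ i ∈ Finset.range m, y ^ i * y ^ (m - 1 - i)) = (m : K) * y ^ (m - 1) := by
    rw [Finset.sum_congr rfl (fun i hi => ?_), Finset.sum_const, Finset.card_range,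
      nsmul_eq_mul]
    rw [← pow_add]
    congr 1
    have := Finset.mem_range.mp hi
    omega
  rw [hsum, _root_.map_mul, _root_.map_pow, hvy, one_pow, mul_one] at hdiff
  have hvm : A.valuation (((m : ℤ) : K)) = 1 :=
    valuation_intCast_eq_one A hℓ hA (by exact_mod_cast hm)
  have h3 : (((m : ℤ) : K)) = (m : K) := by push_cast; rfl
  rw [h3] at hvm
  rw [hvm] at hdiff
  exact lt_irrefl _ hdiff


/-! ## The residue field -/

theorem natCast_residue_eq_zero_of_mem {ℓ : ℕ} (hA : (ℓ : K) ∈ A.nonunits) :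
    ((ℓ : ℕ) : IsLocalRing.ResidueField A) = 0 := by
  have h : ((ℓ : A) : K) ∈ A.nonunits := by simpa using hA
  have h' : (ℓ : A) ∈ IsLocalRing.maximalIdeal A := (A.coe_mem_nonunits_iff).mp h
  have := (IsLocalRing.residue_eq_zero_iff (ℓ : A)).mpr h'
  simpa using this

theorem charP_residueField {ℓ : ℕ} (hℓ : ℓ.Prime) (hA : (ℓ : K) ∈ A.nonunits) :
    CharP (IsLocalRing.ResidueField A) ℓ :=
  (CharP.charP_iff_prime_eq_zero hℓ).mpr (natCast_residue_eq_zero_of_mem A hA)

/-- Every nonzero element of the residue field is a root of unity of order prime to `ℓ`. -/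
theorem exists_pow_eq_one_residue [CharZero K] (halg : ∀ x : K, IsAlgebraic ℤ x) {ℓ : ℕ}
    (hℓ : ℓ.Prime) (hA : (ℓ : K) ∈ A.nonunits) {c : IsLocalRing.ResidueField A} (hc : c ≠ 0) :
    ∃ m : ℕ, ¬ ℓ ∣ m ∧ c ^ m = 1 := by
  classical
  haveI : Fact ℓ.Prime := ⟨hℓ⟩
  haveI : CharP (IsLocalRing.ResidueField A) ℓ := charP_residueField A hℓ hA
  letI : Algebra (ZMod ℓ) (IsLocalRing.ResidueField A) := ZMod.algebra _ ℓ
  obtain ⟨a₀, rfl⟩ := IsLocalRing.residue_surjective c
  obtain ⟨q, hq, i, hi⟩ := exists_int_poly_not_dvd hℓ (halg (a₀ : K))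
  -- the relation holds in `A`
  have hqA : eval₂ (Int.castRingHom A) a₀ q = 0 := by
    apply Subtype.val_injective
    have := hom_eval₂ q (Int.castRingHom A) A.subtype a₀
    rw [show (A.subtype.comp (Int.castRingHom A)) = Int.castRingHom K from RingHom.ext_int _ _]
      at this
    rw [ValuationSubring.coe_subtype] at this
    rw [this]
    exact hq
  -- and in the residue field
  have hqk : eval₂ (Int.castRingHom (IsLocalRing.ResidueField A)) (IsLocalRing.residue A a₀) q
      = 0 := by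
    have := hom_eval₂ q (Int.castRingHom A) (IsLocalRing.residue A) a₀
    rw [show ((IsLocalRing.residue A).comp (Int.castRingHom A))
      = Int.castRingHom (IsLocalRing.ResidueField A) from RingHom.ext_int _ _] at this
    rw [← this, hqA, _root_.map_zero]
  have halgc : IsAlgebraic (ZMod ℓ) (IsLocalRing.residue A a₀) := by
    refine ⟨q.map (Int.castRingHom (ZMod ℓ)), ?_, ?_⟩
    · intro h0
      have := congrArg (fun p => p.coeff i) h0
      simp only [coeff_map, coeff_zero] at this
      have h1 : ((q.coeff i : ℤ) : ZMod ℓ) = 0 := this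
      exact hi ((ZMod.intCast_zmod_eq_zero_iff_dvd _ _).mp h1)
    · rw [aeval_def, eval₂_map]
      rw [show ((algebraMap (ZMod ℓ) (IsLocalRing.ResidueField A)).comp
        (Int.castRingHom (ZMod ℓ))) = Int.castRingHom (IsLocalRing.ResidueField A)
        from RingHom.ext_int _ _]
      exact hqk
  have hint : IsIntegral (ZMod ℓ) (IsLocalRing.residue A a₀) :=
    isAlgebraic_iff_isIntegral.mp halgc
  haveI : FiniteDimensional (ZMod ℓ)
      (IntermediateField.adjoin (ZMod ℓ) {IsLocalRing.residue A a₀}) :=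
    IntermediateField.adjoin.finiteDimensional hint
  haveI : Finite (IntermediateField.adjoin (ZMod ℓ) {IsLocalRing.residue A a₀}) :=
    Module.finite_of_finite (ZMod ℓ)
  letI : Fintype (IntermediateField.adjoin (ZMod ℓ) {IsLocalRing.residue A a₀}) :=
    Fintype.ofFinite _
  set F := IntermediateField.adjoin (ZMod ℓ) {IsLocalRing.residue A a₀} with hF
  let c' : F := ⟨IsLocalRing.residue A a₀, IntermediateField.mem_adjoin_simple_self _ _⟩
  have hc' : c' ≠ 0 := fun h => hc (congrArg Subtype.val h)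
  have hpow := FiniteField.pow_card_sub_one_eq_one c' hc'
  obtain ⟨n, -, hcard⟩ := FiniteField.card F ℓ
  refine ⟨Fintype.card F - 1, ?_, ?_⟩
  · intro hdvd
    have h1 : ℓ ∣ Fintype.card F := by
      rw [hcard]
      exact dvd_pow_self ℓ n.ne_zero
    have hpos : 0 < Fintype.card F := Fintype.card_pos
    have h2 : ℓ ∣ 1 := by
      have : Fintype.card F = (Fintype.card F - 1) + 1 := by omega
      rw [this] at h1
      exact (Nat.dvd_add_right hdvd).mp h1
    exact hℓ.one_lt.ne' (Nat.dvd_one.mp h2)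
  · have := congrArg Subtype.val hpow
    simpa [c'] using this


/-! ## Teichmüller lifts -/

/-- **Teichmüller lifts.**  Every element of the residue field has a lift to `A` which is fixed
by every ring automorphism of `K` acting trivially on the residue field. -/
theorem exists_fixed_lift [IsAlgClosed K] [CharZero K] (halg : ∀ x : K, IsAlgebraic ℤ x) {ℓ : ℕ}
    (hℓ : ℓ.Prime) (hA : (ℓ : K) ∈ A.nonunits) (c : IsLocalRing.ResidueField A) :
    ∃ a : A, IsLocalRing.residue A a = c ∧
      ∀ σ : K ≃+* K, (∀ x : K, x ∈ A → σ x - x ∈ A.nonunits) → σ (a : K) = (a : K) := by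
  rcases eq_or_ne c 0 with rfl | hc
  · exact ⟨0, _root_.map_zero _, fun σ _ => by simp⟩
  obtain ⟨m, hm, hcm⟩ := exists_pow_eq_one_residue A halg hℓ hA hc
  have hm0 : m ≠ 0 := fun h => hm (by rw [h]; exact dvd_zero _)
  have hmon : (X ^ m - 1 : A[X]).Monic := monic_X_pow_sub_C (1 : A) hm0
  have hroot : ((X ^ m - 1 : A[X]).map (IsLocalRing.residue A)).eval c = 0 := by
    simp [hcm]
  obtain ⟨a, ha, hac⟩ := exists_root_lift A (X ^ m - 1) hmon c hroot
  have ha1 : (a : K) ^ m = 1 := by
    have h1 : a ^ m = 1 := by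
      have := ha
      simp only [eval_sub, eval_pow, eval_X, eval_one] at this
      exact sub_eq_zero.mp this
    have := congrArg (Subtype.val : A → K) h1
    simpa using this
  refine ⟨a, hac, ?_⟩
  intro σ hσ
  have h2 : (σ (a : K)) ^ m = 1 := by rw [← _root_.map_pow, ha1, _root_.map_one]
  exact eq_of_pow_eq_one_of_sub_mem A hℓ hA hm h2 ha1 (hσ (a : K) a.2)

end Fermat.Agent.A3.H675

end
-- ===== PACK-END A3/H675/Ant.lean

-- ===== PACK-BEGIN A2/H348/SubLoc.lean
section


/-!
# A2 / piece E (ALG_ss), part 2: localisations of a subalgebra of a field, conductor argument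

Mathlib-only.  `B ⊆ F` a subalgebra of a field, `F'` an `F`-algebra.

* `exists_smul_isIntegral_of_subLoc` : if `O ⊇ B` is "a localisation of `B` at `S`" inside `F`
  (every `f ∈ O` has a denominator in `S`, elements of `S` are invertible in `O`), then an element
  of `F'` integral over `O` becomes integral over `B` after multiplication by some `s ∈ S`.
* `locAt B 𝔪` : the localisation of `B` at a prime ideal, as a subalgebra of `F`.
* `mem_of_forall_maximal` : the conductor argument: a `B`-submodule `M ⊆ F'` contains `c` as soon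
  as for every maximal ideal `𝔪` some `s ∉ 𝔪` satisfies `s • c ∈ M`.
-/

set_option autoImplicit false
set_option linter.unusedSectionVars false

namespace Fermat.Agent.A2.H348

variable {A F F' : Type*} [CommRing A] [Field F] [CommRing F'] [Algebra A F] [Algebra F F']
  [Algebra A F'] [IsScalarTower A F F']

section SubLoc

variable (B O : Subalgebra A F)

/-- integrality over a localisation descends up to a denominator. -/
theorem exists_smul_isIntegral_of_subLoc (hBO : B ≤ O) (S : Submonoid B)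
    (hS0 : ∀ s ∈ S, (s : F) ≠ 0)
    (hS : ∀ f ∈ O, ∃ s ∈ S, (s : F) * f ∈ B) (hSinv : ∀ s ∈ S, ((s : F))⁻¹ ∈ O)
    (c : F') (hc : IsIntegral O c) :
    ∃ s ∈ S, IsIntegral B (algebraMap F F' (s : F) * c) := by
  letI : Algebra B O := (Subalgebra.inclusion hBO).toRingHom.toAlgebra
  have halg : ∀ b : B, ((algebraMap B O b : O) : F) = (b : F) := fun b => rfl
  haveI : IsScalarTower B O F' := IsScalarTower.of_algebraMap_eq fun b => rfl
  haveI : IsLocalization S O := by
    rw [isLocalization_iff]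
    refine ⟨?_, ?_, ?_⟩
    · intro y
      refine IsUnit.of_mul_eq_one (⟨((y : B) : F)⁻¹, hSinv y y.2⟩ : O) ?_
      apply Subtype.ext
      show ((y : B) : F) * ((y : B) : F)⁻¹ = 1
      exact mul_inv_cancel₀ (hS0 y y.2)
    · intro z
      obtain ⟨s, hs, hsz⟩ := hS z z.2
      refine ⟨(⟨(s : F) * z, hsz⟩, ⟨s, hs⟩), ?_⟩
      apply Subtype.ext
      show (z : F) * (s : F) = (s : F) * z
      exact mul_comm _ _
    · intro x y hxy
      refine ⟨1, ?_⟩
      have : (x : F) = (y : F) := congrArg (fun t : O => (t : F)) hxy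
      rw [Subtype.ext this]
  obtain ⟨m, hm⟩ := IsIntegral.exists_multiple_integral_of_isLocalization S c hc
  refine ⟨m, m.2, ?_⟩
  have : (m • c : F') = algebraMap F F' ((m : B) : F) * c := by
    rw [Submonoid.smul_def, Algebra.smul_def]; rfl
  rwa [this] at hm

end SubLoc

section LocAt

variable (B : Subalgebra A F)

/-- The localisation of `B ⊆ F` at the prime ideal `𝔪`, as a subalgebra of `F`. -/
def locAt (𝔪 : Ideal B) [h𝔪 : 𝔪.IsPrime] : Subalgebra A F where
  carrier := {f | ∃ s : B, s ∉ 𝔪 ∧ (s : F) * f ∈ B}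
  mul_mem' := by
    rintro f g ⟨s, hs, hsf⟩ ⟨t, ht, htg⟩
    refine ⟨s * t, fun h => (h𝔪.mem_or_mem h).elim hs ht, ?_⟩
    have : ((s * t : B) : F) * (f * g) = ((s : F) * f) * ((t : F) * g) := by
      push_cast; ring
    rw [this]
    exact B.mul_mem hsf htg
  add_mem' := by
    rintro f g ⟨s, hs, hsf⟩ ⟨t, ht, htg⟩
    refine ⟨s * t, fun h => (h𝔪.mem_or_mem h).elim hs ht, ?_⟩
    have : ((s * t : B) : F) * (f + g) = (t : F) * ((s : F) * f) + (s : F) * ((t : F) * g) := by
      push_cast; ring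
    rw [this]
    exact B.add_mem (B.mul_mem t.2 hsf) (B.mul_mem s.2 htg)
  algebraMap_mem' := by
    intro r
    refine ⟨1, fun h => h𝔪.ne_top ((Ideal.eq_top_iff_one _).2 h), ?_⟩
    simp only [OneMemClass.coe_one, one_mul]
    exact B.algebraMap_mem r

variable {B}

theorem mem_locAt {𝔪 : Ideal B} [𝔪.IsPrime] {f : F} :
    f ∈ locAt B 𝔪 ↔ ∃ s : B, s ∉ 𝔪 ∧ (s : F) * f ∈ B := Iff.rfl

theorem le_locAt (𝔪 : Ideal B) [h𝔪 : 𝔪.IsPrime] : B ≤ locAt B 𝔪 := by
  intro f hf
  refine ⟨1, fun h => h𝔪.ne_top ((Ideal.eq_top_iff_one _).2 h), ?_⟩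
  simpa using hf

theorem inv_mem_locAt (𝔪 : Ideal B) [𝔪.IsPrime] {s : B} (hs : s ∉ 𝔪) :
    ((s : F))⁻¹ ∈ locAt B 𝔪 := by
  refine ⟨s, hs, ?_⟩
  rcases eq_or_ne (s : F) 0 with h | h
  · rw [h, zero_mul]; exact B.zero_mem
  · rw [mul_inv_cancel₀ h]; exact B.one_mem

theorem coe_ne_zero_of_notMem (𝔪 : Ideal B) {s : B} (hs : s ∉ 𝔪) : (s : F) ≠ 0 := by
  intro h
  apply hs
  have : s = 0 := Subtype.ext h
  rw [this]
  exact 𝔪.zero_mem

/-- integrality over `B_𝔪` descends to `B` up to a denominator outside `𝔪`. -/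
theorem exists_smul_isIntegral_of_locAt (𝔪 : Ideal B) [𝔪.IsPrime] (c : F')
    (hc : IsIntegral (locAt B 𝔪) c) :
    ∃ s : B, s ∉ 𝔪 ∧ IsIntegral B (algebraMap F F' (s : F) * c) := by
  obtain ⟨s, hs, h⟩ := exists_smul_isIntegral_of_subLoc B (locAt B 𝔪) (le_locAt 𝔪) 𝔪.primeCompl
    (fun s hs => coe_ne_zero_of_notMem 𝔪 hs)
    (fun f hf => by
      obtain ⟨s, hs, hsf⟩ := hf
      exact ⟨s, hs, hsf⟩)
    (fun s hs => inv_mem_locAt 𝔪 hs) c hc
  exact ⟨s, hs, h⟩

/-- `B_𝔪` is integrally closed in `F` if `B` is. -/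
theorem locAt_integrallyClosed (hB : ∀ f : F, IsIntegral B f → f ∈ B) (𝔪 : Ideal B) [𝔪.IsPrime]
    (f : F) (hf : IsIntegral (locAt B 𝔪) f) : f ∈ locAt B 𝔪 := by
  obtain ⟨s, hs, h⟩ := exists_smul_isIntegral_of_locAt (F' := F) 𝔪 f hf
  exact ⟨s, hs, hB _ h⟩

/-- `1 + ϖ t` is invertible in `B_𝔪` for `ϖ ∈ 𝔪`. -/
theorem one_add_mul_inv_mem_locAt (𝔪 : Ideal B) [𝔪.IsPrime] {ϖ : B} (hϖ : ϖ ∈ 𝔪) {t : F}
    (ht : t ∈ locAt B 𝔪) : (1 + (ϖ : F) * t)⁻¹ ∈ locAt B 𝔪 := by
  obtain ⟨s, hs, hst⟩ := ht
  have hmem : s + ϖ * ⟨(s : F) * t, hst⟩ ∉ 𝔪 := by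
    intro h
    apply hs
    have h2 : ϖ * ⟨(s : F) * t, hst⟩ ∈ 𝔪 := 𝔪.mul_mem_right _ hϖ
    have := 𝔪.sub_mem h h2
    simpa using this
  have hs0 : (s : F) ≠ 0 := coe_ne_zero_of_notMem 𝔪 hs
  have hne : ((s + ϖ * ⟨(s : F) * t, hst⟩ : B) : F) ≠ 0 := coe_ne_zero_of_notMem 𝔪 hmem
  have hval : ((s + ϖ * ⟨(s : F) * t, hst⟩ : B) : F) = (s : F) * (1 + (ϖ : F) * t) := by
    push_cast; ring
  have h1 : (1 + (ϖ : F) * t) ≠ 0 := by
    intro h
    rw [hval, h, mul_zero] at hne
    exact hne rfl
  refine ⟨s + ϖ * ⟨(s : F) * t, hst⟩, hmem, ?_⟩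
  rw [hval, mul_assoc, mul_inv_cancel₀ h1, mul_one]
  exact s.2

end LocAt

section Conductor

variable (B : Subalgebra A F)

/-- **Conductor argument.** -/
theorem mem_of_forall_maximal (M : Submodule B F') (c : F')
    (h : ∀ 𝔪 : Ideal B, 𝔪.IsMaximal → ∃ s : B, s ∉ 𝔪 ∧ s • c ∈ M) : c ∈ M := by
  let I : Ideal B := M.comap (LinearMap.toSpanSingleton B F' c)
  have hI : ∀ s : B, s ∈ I ↔ s • c ∈ M := fun s => by
    simp [I, Submodule.mem_comap, LinearMap.toSpanSingleton_apply]
  by_cases hIt : I = ⊤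
  · have h1 : (1 : B) ∈ I := by rw [hIt]; trivial
    have := (hI 1).1 h1
    simpa using this
  · obtain ⟨𝔪, h𝔪, hle⟩ := Ideal.exists_le_maximal I hIt
    obtain ⟨s, hs, hsc⟩ := h 𝔪 h𝔪
    exact absurd (hle ((hI s).2 hsc)) hs

end Conductor

end Fermat.Agent.A2.H348

end
-- ===== PACK-END A2/H348/SubLoc.lean

-- ===== PACK-BEGIN A2/H729/RegSeq.lean
section


/-!
# A2 (helper729): the regular-sequence lemma on a normal model

`A` an integrally closed domain, `F` a field containing `A`, `w ∈ A` prime, `s ∈ A` not divisible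
by `w`.  If `w t` and `s t` are integral over `A` then `t` is integral over `A`.
(No noetherian hypothesis, no Krull domains: minimal polynomials and `scaleRoots`.)
-/

set_option autoImplicit false

namespace Fermat.Agent.A2.H729

open Polynomial

variable {A : Type*} [CommRing A] [IsDomain A] [IsIntegrallyClosed A]
  {F : Type*} [Field F] [Algebra A F] [Module.IsTorsionFree A F]

theorem isIntegral_of_smul_of_smul {w s : A} (hw : Prime w) (hs : ¬ w ∣ s) {t : F}
    (h1 : IsIntegral A (w • t)) (h2 : IsIntegral A (s • t)) : IsIntegral A t := by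
  classical
  have hw0 : w ≠ 0 := hw.ne_zero
  have hs0 : s ≠ 0 := fun h => hs (h ▸ dvd_zero w)
  set p := minpoly A (w • t) with hp
  set p' := minpoly A (s • t) with hp'
  have hcomm : s • (w • t) = w • (s • t) := smul_comm s w t
  have hE : p.scaleRoots s = p'.scaleRoots w := by
    rw [hp, hp', ← IsIntegrallyClosed.minpoly_smul hs0 h1, ← IsIntegrallyClosed.minpoly_smul hw0 h2,
      hcomm]
  set n := p.natDegree with hn
  have hn' : p'.natDegree = n := by
    have := congrArg natDegree hE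
    rw [natDegree_scaleRoots, natDegree_scaleRoots] at this
    exact this.symm
  have hcoef : ∀ i, p.coeff i * s ^ (n - i) = p'.coeff i * w ^ (n - i) := by
    intro i
    have := congrArg (fun q => q.coeff i) hE
    simp only [coeff_scaleRoots] at this
    rw [hn'] at this
    exact this
  have hspow : ∀ k : ℕ, ¬ w ∣ s ^ k := fun k h => hs (hw.dvd_of_dvd_pow h)
  have hdvd : ∀ i, w ^ (n - i) ∣ p.coeff i := by
    intro i
    refine hw.pow_dvd_of_dvd_mul_right _ (hspow (n - i)) ?_
    rw [hcoef i]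
    exact Dvd.intro_left _ rfl
  choose c hc using hdvd
  have hmonic : p.Monic := minpoly.monic h1
  -- the monic polynomial annihilating `t`
  set q : A[X] := X ^ n + ∑ i : Fin n, C (c i) * X ^ (i : ℕ) with hq
  have hqm : q.Monic := monic_X_pow_add (degree_sum_fin_lt fun i : Fin n => c i)
  refine ⟨q, hqm, ?_⟩
  have hp_eval : aeval (w • t) p = 0 := minpoly.aeval A (w • t)
  -- expand `p` as a sum over `range (n+1)`
  have hpsum : aeval (w • t) p = ∑ i ∈ Finset.range (n + 1), p.coeff i • (w • t) ^ i := by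
    rw [aeval_eq_sum_range]
  have key : (w ^ n) • (eval₂ (algebraMap A F) t q) = aeval (w • t) p := by
    rw [hpsum, hq, eval₂_add, eval₂_pow, eval₂_X, eval₂_finsetSum, Finset.sum_range_succ,
      Finset.sum_range fun i => p.coeff i • (w • t) ^ i]
    have hlead : p.coeff n = 1 := hmonic.coeff_natDegree
    rw [hlead, one_smul, smul_add, Finset.smul_sum, add_comm]
    congr 1
    · refine Finset.sum_congr rfl fun i _ => ?_
      rw [eval₂_mul, eval₂_C, eval₂_pow, eval₂_X, hc i, _root_.smul_pow, Algebra.smul_def,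
        Algebra.smul_def, Algebra.smul_def, _root_.map_mul, _root_.map_pow, _root_.map_pow, _root_.map_pow]
      have hpow : (algebraMap A F w) ^ n =
          (algebraMap A F w) ^ (n - (i : ℕ)) * (algebraMap A F w) ^ (i : ℕ) := by
        rw [← pow_add]
        congr 1
        have := i.2
        omega
      rw [hpow]
      ring
    · rw [_root_.smul_pow]
  have h0 : (w ^ n) • (eval₂ (algebraMap A F) t q) = 0 := by rw [key, hp_eval]
  rcases smul_eq_zero.1 h0 with h | h
  · exact absurd h (pow_ne_zero _ hw0)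
  · exact h

end Fermat.Agent.A2.H729

end
-- ===== PACK-END A2/H729/RegSeq.lean

-- ===== PACK-BEGIN A2/Mod/H816/L3Poly.lean
section


/-!
# A2 / MOD leaf L3, part 1 (helper816): a nonzero polynomial does not vanish at a polar series

`eval₂_C_ne_zero_of_polar`: over a field `k`, if `U ∈ k((t))` has a pole of exact order `a > 0`
(`U.coeff n = 0` for `n < -a`, `U.coeff (-a) ≠ 0`) and `g ∈ k[X]` is nonzero, then `g(U) ≠ 0`;
more precisely the coefficient of `t^(-a·deg g)` in `g(U)` is `lc(g) · U.coeff(-a)^(deg g)`.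
-/

set_option autoImplicit false

noncomputable section

namespace Fermat.Agent.A2.Mod.H816

open HahnSeries Polynomial

variable {k : Type*} [Field k]

/-- The order of a series with lowest term in degree `-a`. -/
theorem order_eq_of_polar {U : LaurentSeries k} {a : ℤ}
    (h0 : ∀ n : ℤ, n < a → U.coeff n = 0) (h1 : U.coeff a ≠ 0) : U.order = a := by
  have hU : U ≠ 0 := by
    rintro rfl
    exact h1 (by simp)
  apply le_antisymm
  · exact order_le_of_coeff_ne_zero h1
  · by_contra hlt
    push Not at hlt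
    exact (HahnSeries.coeff_order_eq_zero.not.mpr hU) (h0 _ hlt)

theorem ne_zero_of_polar {U : LaurentSeries k} {a : ℤ} (h1 : U.coeff a ≠ 0) : U ≠ 0 := by
  rintro rfl
  exact h1 (by simp)

/-- coefficients of powers of a series of order `a`. -/
theorem coeff_pow_of_lt {U : LaurentSeries k} {a : ℤ}
    (h0 : ∀ n : ℤ, n < a → U.coeff n = 0) (h1 : U.coeff a ≠ 0) (i : ℕ) {n : ℤ}
    (hn : n < i * a) : (U ^ i).coeff n = 0 := by
  apply HahnSeries.coeff_eq_zero_of_lt_order
  rw [HahnSeries.order_pow, order_eq_of_polar h0 h1, nsmul_eq_mul]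
  exact hn

/-- leading coefficient of powers of a series of order `a`. -/
theorem coeff_pow_order {U : LaurentSeries k} {a : ℤ}
    (h0 : ∀ n : ℤ, n < a → U.coeff n = 0) (h1 : U.coeff a ≠ 0) (i : ℕ) :
    (U ^ i).coeff (i * a) = U.coeff a ^ i := by
  induction i with
  | zero => simp
  | succ i ih =>
    have hU := order_eq_of_polar h0 h1
    have hUi : (U ^ i).order = i * a := by
      rw [HahnSeries.order_pow, hU, nsmul_eq_mul]
    have key := HahnSeries.coeff_mul_order_add_order (U ^ i) U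
    rw [HahnSeries.leadingCoeff_eq, HahnSeries.leadingCoeff_eq, hUi, hU, ih] at key
    rw [pow_succ, pow_succ]
    have : ((i + 1 : ℕ) : ℤ) * a = i * a + a := by push_cast; ring
    rw [this]
    exact key

/-- **Non-vanishing at a polar series.** -/
theorem coeff_eval₂_C_of_polar {U : LaurentSeries k} {a : ℤ} (ha : a < 0)
    (h0 : ∀ n : ℤ, n < a → U.coeff n = 0) (h1 : U.coeff a ≠ 0) (g : k[X]) :
    (g.eval₂ (HahnSeries.C : k →+* LaurentSeries k) U).coeff (g.natDegree * a) =
      g.leadingCoeff * U.coeff a ^ g.natDegree := by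
  rw [Polynomial.eval₂_eq_sum_range, HahnSeries.coeff_sum]
  rw [Finset.sum_eq_single g.natDegree]
  · rw [HahnSeries.C_mul_eq_smul, HahnSeries.coeff_smul, coeff_pow_order h0 h1, smul_eq_mul]
    rfl
  · intro i hi hne
    have hlt : i < g.natDegree := by
      have := Finset.mem_range.mp hi
      omega
    rw [HahnSeries.C_mul_eq_smul, HahnSeries.coeff_smul, coeff_pow_of_lt h0 h1 i, smul_zero]
    have h2 : ((i : ℤ)) < (g.natDegree : ℤ) := by exact_mod_cast hlt
    nlinarith
  · intro h
    exact absurd (Finset.mem_range.mpr (Nat.lt_succ_self _)) h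

theorem eval₂_C_ne_zero_of_polar {U : LaurentSeries k} {a : ℤ} (ha : a < 0)
    (h0 : ∀ n : ℤ, n < a → U.coeff n = 0) (h1 : U.coeff a ≠ 0) {g : k[X]} (hg : g ≠ 0) :
    g.eval₂ (HahnSeries.C : k →+* LaurentSeries k) U ≠ 0 := by
  intro h
  have := coeff_eval₂_C_of_polar ha h0 h1 g
  rw [h, HahnSeries.coeff_zero] at this
  have h2 : g.leadingCoeff * U.coeff a ^ g.natDegree ≠ 0 :=
    mul_ne_zero (Polynomial.leadingCoeff_ne_zero.mpr hg) (pow_ne_zero _ h1)
  exact h2 this.symm

end Fermat.Agent.A2.Mod.H816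

end

end
-- ===== PACK-END A2/Mod/H816/L3Poly.lean

-- ===== PACK-BEGIN A2/H489/TwoExt.lean
section


/-!
# A2 / M1-abs (helper489): extensions of a discrete valuation to a finite separable extension

Mathlib-only.  `S` Dedekind domain with fraction field `F`.

* `center V hV` : the centre on `S` of a valuation subring `V ⊇ S` of `F`.
* `eq_valuationSubring_of_center` : a valuation subring `V ≠ ⊤` of `F` containing `S` is the
  valuation subring of the `𝔓`-adic valuation, `𝔓` its centre.
-/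

set_option autoImplicit false

namespace Fermat.Agent.A2.H489

open IsDedekindDomain IsLocalRing

section Center

variable {S F : Type*} [CommRing S] [Field F] [Algebra S F]

/-- the structure map `S → V` for a valuation subring `V` of `F` containing the image of `S`. -/
def toValSub (V : ValuationSubring F) (hV : ∀ s : S, algebraMap S F s ∈ V) : S →+* V :=
  (algebraMap S F).codRestrict V.toSubring hV

@[simp]
theorem coe_toValSub (V : ValuationSubring F) (hV : ∀ s : S, algebraMap S F s ∈ V) (s : S) :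
    ((toValSub V hV s : V) : F) = algebraMap S F s := rfl

/-- The centre on `S` of a valuation subring `V ⊇ S` of `F`. -/
def center (V : ValuationSubring F) (hV : ∀ s : S, algebraMap S F s ∈ V) : Ideal S :=
  (IsLocalRing.maximalIdeal V).comap (toValSub V hV)

instance center_isPrime (V : ValuationSubring F) (hV : ∀ s : S, algebraMap S F s ∈ V) :
    (center V hV).IsPrime :=
  Ideal.comap_isPrime _ _

theorem mem_center_iff (V : ValuationSubring F) (hV : ∀ s : S, algebraMap S F s ∈ V) (s : S) :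
    s ∈ center V hV ↔ algebraMap S F s ∈ V.nonunits := by
  rw [center, Ideal.mem_comap, ← ValuationSubring.coe_mem_nonunits_iff, coe_toValSub]

theorem mem_center_iff_valuation (V : ValuationSubring F)
    (hV : ∀ s : S, algebraMap S F s ∈ V) (s : S) :
    s ∈ center V hV ↔ V.valuation (algebraMap S F s) < 1 := by
  rw [mem_center_iff, ValuationSubring.mem_nonunits_iff]

theorem inv_mem_of_not_mem_center (V : ValuationSubring F)
    (hV : ∀ s : S, algebraMap S F s ∈ V) {s : S} (hs : s ∉ center V hV) :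
    (algebraMap S F s)⁻¹ ∈ V := by
  rw [mem_center_iff, ValuationSubring.mem_nonunits_iff_or, not_or, not_not] at hs
  exact hs.2

end Center

section Dedekind

variable {S F : Type*} [CommRing S] [IsDedekindDomain S] [Field F] [Algebra S F]
  [IsFractionRing S F]

/-- A valuation subring `V ≠ ⊤` of `F = Frac S` containing the Dedekind domain `S` is the
valuation subring of the adic valuation at its centre. -/
theorem eq_valuationSubring_of_center (V : ValuationSubring F)
    (hV : ∀ s : S, algebraMap S F s ∈ V) (hne : V ≠ ⊤)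
    (v : HeightOneSpectrum S) (hv : v.asIdeal = center V hV) :
    V = (v.valuation F).valuationSubring := by
  have hle : (v.valuation F).valuationSubring ≤ V := by
    intro x hx
    obtain ⟨n, d, hnd⟩ := v.exists_primeCompl_mul_eq_of_integer x hx
    have hd : (d : S) ∉ center V hV := by
      rw [← hv]; exact d.2
    have hdinv := inv_mem_of_not_mem_center V hV hd
    have hd0 : algebraMap S F (d : S) ≠ 0 := by
      intro h0
      apply hd
      rw [mem_center_iff, h0]
      exact V.nonunits.zero_mem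
    have hx' : x = algebraMap S F n * (algebraMap S F (d : S))⁻¹ := by
      rw [← hnd]; field_simp
    rw [hx']
    exact V.mul_mem _ _ (hV n) hdinv
  have h1 := v.valuationSubringAtPrime_eq_valuationSubring (K := F)
  have h2 : v.valuationSubringAtPrime F ≤ V := by rw [h1]; exact hle
  rw [← h1]
  exact (ValuationSubring.eq_of_le_of_ne_top (v.valuationSubringAtPrime F) h2 hne).symm

/-- The centre of a valuation subring `V ≠ ⊤` containing `S` is nonzero. -/
theorem center_ne_bot (V : ValuationSubring F) (hV : ∀ s : S, algebraMap S F s ∈ V)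
    (hne : V ≠ ⊤) : center V hV ≠ ⊥ := by
  intro hbot
  apply hne
  rw [eq_top_iff]
  intro x _
  obtain ⟨a, b, hb, rfl⟩ := IsFractionRing.div_surjective (A := S) x
  have hb' : b ∉ center V hV := by
    rw [hbot]
    intro h
    exact (nonZeroDivisors.ne_zero hb) (by simpa using h)
  rw [div_eq_mul_inv]
  exact V.mul_mem _ _ (hV a) (inv_mem_of_not_mem_center V hV hb')

/-- The centre as a height-one prime. -/
def centerSpec (V : ValuationSubring F) (hV : ∀ s : S, algebraMap S F s ∈ V)
    (hne : V ≠ ⊤) : HeightOneSpectrum S where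
  asIdeal := center V hV
  isPrime := center_isPrime V hV
  ne_bot := center_ne_bot V hV hne

theorem eq_valuationSubring_centerSpec (V : ValuationSubring F)
    (hV : ∀ s : S, algebraMap S F s ∈ V) (hne : V ≠ ⊤) :
    V = ((centerSpec V hV hne).valuation F).valuationSubring :=
  eq_valuationSubring_of_center V hV hne _ rfl

/-- Two valuation subrings `≠ ⊤` containing `S` with the same centre are equal. -/
theorem eq_of_center_eq (V W : ValuationSubring F)
    (hV : ∀ s : S, algebraMap S F s ∈ V) (hW : ∀ s : S, algebraMap S F s ∈ W)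
    (hVne : V ≠ ⊤) (hWne : W ≠ ⊤) (h : center V hV = center W hW) : V = W := by
  rw [eq_valuationSubring_centerSpec V hV hVne,
    eq_valuationSubring_of_center W hW hWne (centerSpec V hV hVne) h]

end Dedekind

end Fermat.Agent.A2.H489

end
-- ===== PACK-END A2/H489/TwoExt.lean

-- ===== PACK-BEGIN A2/Alg/H754/LocU.lean
section


/-!
# A2 / ALG / P-S (helper754): elementwise local units

`B` a domain with fraction field `F`, `𝔮` a prime of `B`.  `LocU 𝔮 f` : `f` is a unit of `B_𝔮`,
elementwise (`f = a / b`, `a, b ∈ B ∖ 𝔮`).  Closure under products, inverses, integer powers;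
comparison with a valuation subring `W = B_𝔮` of `F`.
-/

set_option autoImplicit false

namespace Fermat.Agent.A2.Alg.H754

variable {B F : Type*} [CommRing B] [Field F] [Algebra B F]

/-- `f` is a unit of `B_𝔮`, elementwise. -/
def LocU (𝔮 : Ideal B) (f : F) : Prop :=
  ∃ a b : B, a ∉ 𝔮 ∧ b ∉ 𝔮 ∧ f * algebraMap B F b = algebraMap B F a

namespace LocU

variable {𝔮 : Ideal B}

theorem one (h1 : (1 : B) ∉ 𝔮) : LocU 𝔮 (1 : F) :=
  ⟨1, 1, h1, h1, by rw [map_one, mul_one]⟩

theorem of_notMem {b : B} (hb : b ∉ 𝔮) (h1 : (1 : B) ∉ 𝔮) : LocU 𝔮 (algebraMap B F b) :=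
  ⟨b, 1, hb, h1, by rw [map_one, mul_one]⟩

theorem mono {𝔮' : Ideal B} (h : 𝔮 ≤ 𝔮') {f : F} (hf : LocU 𝔮' f) : LocU 𝔮 f := by
  obtain ⟨a, b, ha, hb, hab⟩ := hf
  exact ⟨a, b, fun h' => ha (h h'), fun h' => hb (h h'), hab⟩

theorem mul [h𝔮 : 𝔮.IsPrime] {f g : F} (hf : LocU 𝔮 f) (hg : LocU 𝔮 g) : LocU 𝔮 (f * g) := by
  obtain ⟨a, b, ha, hb, hab⟩ := hf
  obtain ⟨a', b', ha', hb', hab'⟩ := hg
  refine ⟨a * a', b * b', ?_, ?_, ?_⟩
  · exact fun h => (h𝔮.mem_or_mem h).elim ha ha'
  · exact fun h => (h𝔮.mem_or_mem h).elim hb hb'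
  · rw [map_mul, map_mul, ← hab, ← hab']
    ring

theorem pow [h𝔮 : 𝔮.IsPrime] {f : F} (hf : LocU 𝔮 f) (k : ℕ) : LocU 𝔮 (f ^ k) := by
  induction k with
  | zero =>
    rw [pow_zero]
    exact one (fun h => h𝔮.ne_top ((Ideal.eq_top_iff_one _).2 h))
  | succ k ih =>
    rw [pow_succ]
    exact ih.mul hf

variable [FaithfulSMul B F]

theorem algebraMap_ne_zero {b : B} (hb : b ∉ 𝔮) : algebraMap B F b ≠ 0 := by
  intro h
  have : b = 0 := FaithfulSMul.algebraMap_injective B F (by rw [h, map_zero])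
  exact hb (this ▸ 𝔮.zero_mem)

theorem ne_zero {f : F} (hf : LocU 𝔮 f) : f ≠ 0 := by
  obtain ⟨a, b, ha, hb, hab⟩ := hf
  rintro rfl
  rw [zero_mul] at hab
  exact algebraMap_ne_zero ha hab.symm

theorem inv {f : F} (hf : LocU 𝔮 f) : LocU 𝔮 f⁻¹ := by
  have hf0 := hf.ne_zero
  obtain ⟨a, b, ha, hb, hab⟩ := hf
  refine ⟨b, a, hb, ha, ?_⟩
  rw [← hab, ← mul_assoc, inv_mul_cancel₀ hf0, one_mul]

theorem zpow [h𝔮 : 𝔮.IsPrime] {f : F} (hf : LocU 𝔮 f) (k : ℤ) : LocU 𝔮 (f ^ k) := by
  cases k with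
  | ofNat k =>
    rw [Int.ofNat_eq_natCast, zpow_natCast]
    exact hf.pow k
  | negSucc k =>
    rw [zpow_negSucc]
    exact (hf.pow (k + 1)).inv

/-- cancel a power: used with a valuation ring. -/
theorem of_mul_left [h𝔮 : 𝔮.IsPrime] {f g : F} (hfg : LocU 𝔮 (f * g)) (hg : LocU 𝔮 g) :
    LocU 𝔮 f := by
  have hg0 := hg.ne_zero
  have := hfg.mul hg.inv
  rwa [mul_assoc, mul_inv_cancel₀ hg0, mul_one] at this

end LocU

section Val

variable [FaithfulSMul B F]

/-- `f` and `f⁻¹` both in `B_𝔮` (elementwise) implies `f` is a unit of `B_𝔮`. -/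
theorem locU_of_frac_of_inv_frac (𝔮 : Ideal B) [h𝔮 : 𝔮.IsPrime] {f : F} (hf : f ≠ 0)
    (h1 : ∃ a s : B, s ∉ 𝔮 ∧ f * algebraMap B F s = algebraMap B F a)
    (h2 : ∃ a s : B, s ∉ 𝔮 ∧ f⁻¹ * algebraMap B F s = algebraMap B F a) : LocU 𝔮 f := by
  obtain ⟨a, s, hs, has⟩ := h1
  obtain ⟨a', s', hs', has'⟩ := h2
  refine ⟨a, s, ?_, hs, has⟩
  intro ha
  have e : algebraMap B F (a * a') = algebraMap B F (s * s') := by
    rw [map_mul, map_mul, ← has, ← has']
    field_simp
  have e' : a * a' = s * s' := FaithfulSMul.algebraMap_injective B F e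
  have : s * s' ∈ 𝔮 := e' ▸ 𝔮.mul_mem_right a' ha
  exact (h𝔮.mem_or_mem this).elim hs hs'

/-- Units of a valuation subring `W = B_𝔮`. -/
theorem locU_iff_of_valuationSubring (𝔮 : Ideal B) [h𝔮 : 𝔮.IsPrime] (W : ValuationSubring F)
    (hW : ∀ f : F, f ∈ W ↔ ∃ a s : B, s ∉ 𝔮 ∧ f * algebraMap B F s = algebraMap B F a)
    {f : F} (hf : f ≠ 0) : LocU 𝔮 f ↔ f ∈ W ∧ f⁻¹ ∈ W := by
  constructor
  · intro h
    refine ⟨?_, ?_⟩
    · obtain ⟨a, b, -, hb, hab⟩ := h
      exact (hW f).2 ⟨a, b, hb, hab⟩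
    · obtain ⟨a, b, -, hb, hab⟩ := h.inv
      exact (hW f⁻¹).2 ⟨a, b, hb, hab⟩
  · rintro ⟨h1, h2⟩
    exact locU_of_frac_of_inv_frac 𝔮 hf ((hW f).1 h1) ((hW f⁻¹).1 h2)

/-- In a valuation ring, an element whose positive power is a unit is a unit. -/
theorem locU_of_pow (𝔮 : Ideal B) [h𝔮 : 𝔮.IsPrime] (W : ValuationSubring F)
    (hW : ∀ f : F, f ∈ W ↔ ∃ a s : B, s ∉ 𝔮 ∧ f * algebraMap B F s = algebraMap B F a)
    {f : F} {m : ℕ} (hm : 0 < m) (h : LocU 𝔮 (f ^ m)) : LocU 𝔮 f := by
  have hf0 : f ≠ 0 := by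
    rintro rfl
    rw [zero_pow hm.ne'] at h
    exact h.ne_zero rfl
  obtain ⟨k, rfl⟩ : ∃ k, m = k + 1 := ⟨m - 1, (Nat.sub_add_cancel hm).symm⟩
  obtain ⟨h1, h2⟩ := (locU_iff_of_valuationSubring 𝔮 W hW (pow_ne_zero _ hf0)).1 h
  rw [locU_iff_of_valuationSubring 𝔮 W hW hf0]
  rcases W.mem_or_inv_mem f with hf | hf
  · refine ⟨hf, ?_⟩
    have e : f⁻¹ = f ^ k * (f ^ (k + 1))⁻¹ := by
      rw [pow_succ]
      field_simp
    rw [e]
    exact W.mul_mem _ _ (pow_mem hf k) h2
  · refine ⟨?_, hf⟩
    have e : f = f⁻¹ ^ k * f ^ (k + 1) := by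
      rw [pow_succ, inv_pow]
      field_simp
    rw [e]
    exact W.mul_mem _ _ (pow_mem hf k) h1

end Val

end Fermat.Agent.A2.Alg.H754

end
-- ===== PACK-END A2/Alg/H754/LocU.lean

-- ===== PACK-BEGIN Ribet/H704/Period.lean
section
/-
RIBET row 38, wall at p, crux (I6) / W-FLAT: the abstract PERIOD lemma (piece P-ALG + P-DESC of
`origin/helper704:coord/RIBET-I6-helper704.md`).  Mathlib only.

Setting (abstract): a field `F` (in the application `F = F'·K'`, the function field of the étale
`μ_p`-cover `X'_y` of `X₀(pM')` over the field of definition `K'` of `x`), two commuting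
automorphisms `σ` (Galois, acts on constants) and `τ` (deck transformation, acts on functions), a
multiplicative "leading coefficient" map `lc` (evaluation at a rational point / leading coefficient
of the `t`-expansion) commuting with `σ`.

Input : `τ f = f`, `σ f = f · c₀ · (h G)^p` with `σ h = h`, `τ h = ζ h`, `τ G = G`, `lc c₀ = c₀`.
Output: `f = lc f · f' · b^p` with `σ f' = f'` (descent of the class of `f` to the `σ`-fixed field),
and `τ f' = f' · ξ^p · G₁^p` with `σ G₁ = G₁` and a CONSTANT `ξ = lc ξ` with `σ ξ = ζ⁻¹ ξ`.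
So `c := ξ^p` is `σ`-fixed, is not a `p`-th power of a `σ`-fixed element, and the constants `ξ` with
`σ ξ = ζ⁻¹ ξ` generate the field of definition: `c` is the "period" of `x`.
-/


namespace Fermat.Agent.Ribet.H704

open Finset

section Hilbert90

variable {F : Type*} [Field F]

/-- The partial norms `∏_{j<i} σ^j η`. -/
noncomputable def partialNorm704 (σ : F ≃+* F) (η : F) (i : ℕ) : F :=
  ∏ j ∈ range i, (σ ^ j) η

lemma partialNorm704_zero (σ : F ≃+* F) (η : F) : partialNorm704 σ η 0 = 1 := by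
  simp [partialNorm704]

lemma partialNorm704_succ (σ : F ≃+* F) (η : F) (i : ℕ) :
    η * σ (partialNorm704 σ η i) = partialNorm704 σ η (i + 1) := by
  unfold partialNorm704
  rw [map_prod, prod_range_succ']
  have : ∀ j ∈ range i, σ ((σ ^ j) η) = (σ ^ (j + 1)) η := by
    intro j _
    rw [pow_succ', RingAut.mul_apply]
  rw [prod_congr rfl this]
  simp [mul_comm]

/-- Powers `σ^i`, `i < p`, of an automorphism of prime order are pairwise distinct. -/
lemma pow_injective_of_prime704 {p : ℕ} (hp : p.Prime) (σ : F ≃+* F) (hσp : σ ^ p = 1)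
    (hσ1 : σ ≠ 1) : Function.Injective (fun i : Fin p => σ ^ (i : ℕ)) := by
  have : Fact p.Prime := ⟨hp⟩
  have hord : orderOf σ = p := orderOf_eq_prime hσp hσ1
  intro i j hij
  have h := pow_injOn_Iio_orderOf (x := σ)
  have hi : (i : ℕ) ∈ Set.Iio (orderOf σ) := by rw [hord]; exact i.2
  have hj : (j : ℕ) ∈ Set.Iio (orderOf σ) := by rw [hord]; exact j.2
  exact Fin.ext (h hi hj hij)

/-- **Hilbert 90** for an automorphism of prime order of a field (no algebra structure needed):
if `∏_{i<p} σ^i η = 1` then `η = b / σ b`, i.e. `η * σ b = b`, for some `b ≠ 0`. -/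
theorem hilbert90_prime704 {p : ℕ} (hp : p.Prime) (σ : F ≃+* F) (hσp : σ ^ p = 1)
    (hσ1 : σ ≠ 1) (η : F) (hη : partialNorm704 σ η p = 1) :
    ∃ b : F, b ≠ 0 ∧ η * σ b = b := by
  classical
  -- the operator `B θ = ∑_{i<p} c_i σ^i θ`
  set B : F → F := fun θ => ∑ i ∈ range p, partialNorm704 σ η i * (σ ^ i) θ with hB
  have hfix : ∀ θ, η * σ (B θ) = B θ := by
    intro θ
    simp only [hB]
    rw [map_sum, mul_sum]
    have h1 : ∀ i ∈ range p, η * σ (partialNorm704 σ η i * (σ ^ i) θ)
        = partialNorm704 σ η (i + 1) * (σ ^ (i + 1)) θ := by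
      intro i _
      rw [map_mul, ← mul_assoc, partialNorm704_succ, pow_succ', RingAut.mul_apply]
    rw [sum_congr rfl h1]
    have h2 := sum_range_succ' (fun i => partialNorm704 σ η i * (σ ^ i) θ) p
    have h3 := sum_range_succ (fun i => partialNorm704 σ η i * (σ ^ i) θ) p
    rw [h3] at h2
    simp only [partialNorm704_zero, pow_zero, RingAut.one_apply, one_mul, hη, hσp] at h2
    -- h2 : ∑_{i<p} c_i σ^i θ + θ = ∑_{i<p} c_{i+1} σ^{i+1} θ + θ
    exact (add_right_cancel h2).symm
  by_cases hex : ∃ θ, B θ ≠ 0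
  · obtain ⟨θ, hθ⟩ := hex
    exact ⟨B θ, hθ, hfix θ⟩
  · exfalso
    simp only [not_exists, not_not] at hex
    -- linear independence of the characters `σ^i`
    have hli := linearIndependent_monoidHom F F
    let χ : Fin p → (F →* F) := fun i => ((σ ^ (i : ℕ) : F ≃+* F) : F →+* F).toMonoidHom
    have hχinj : Function.Injective χ := by
      intro i j hij
      apply pow_injective_of_prime704 hp σ hσp hσ1
      apply RingEquiv.ext
      intro z
      have := DFunLike.congr_fun hij z
      simpa [χ] using this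
    have hli' := hli.comp χ hχinj
    rw [Fintype.linearIndependent_iff] at hli'
    have h0 := hli' (fun i => partialNorm704 σ η (i : ℕ)) (by
      funext θ
      have := hex θ
      simp only [hB] at this
      rw [← Fin.sum_univ_eq_sum_range (fun i => partialNorm704 σ η i * (σ ^ i) θ) p] at this
      simpa [χ, Finset.sum_apply] using this) ⟨0, hp.pos⟩
    simp [partialNorm704_zero] at h0

lemma partialNorm704_mul (σ : F ≃+* F) (a b : F) (i : ℕ) :
    partialNorm704 σ (a * b) i = partialNorm704 σ a i * partialNorm704 σ b i := by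
  simp [partialNorm704, prod_mul_distrib]

lemma partialNorm704_inv (σ : F ≃+* F) (a : F) (i : ℕ) :
    partialNorm704 σ a⁻¹ i = (partialNorm704 σ a i)⁻¹ := by
  simp [partialNorm704]

lemma partialNorm704_pow (σ : F ≃+* F) (a : F) (n i : ℕ) :
    partialNorm704 σ (a ^ n) i = (partialNorm704 σ a i) ^ n := by
  simp [partialNorm704, prod_pow]

/-- Telescoping: the partial norm of `σ a / a` is `σ^i a / a`. -/
lemma partialNorm704_div (σ : F ≃+* F) (a : F) (ha : a ≠ 0) (i : ℕ) :
    partialNorm704 σ (σ a / a) i = (σ ^ i) a / a := by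
  induction i with
  | zero => simp [partialNorm704_zero, ha]
  | succ i ih =>
    rw [← partialNorm704_succ, ih, map_div₀, pow_succ', RingAut.mul_apply]
    have h1 : σ a ≠ 0 := by simpa using ha
    field_simp

end Hilbert90

section Period

variable {F : Type*} [Field F]

/-- **The period lemma (P-ALG + P-DESC).**
`σ`, `τ` commuting automorphisms of a field, `σ` of prime order `p`, `lc` a multiplicative
"leading coefficient" map (idempotent, commuting with `σ`, with `τ`-fixed values), `ζ` a primitive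
`p`-th root of unity which is a constant.  If `τ f = f` and `σ f = f · c₀ · H^p` with `c₀` constant
and `τ H = ζ H`, then the class of `f` modulo constants and `p`-th powers descends to the `σ`-fixed
field (`f = lc f · f' · b^p`, `σ f' = f'`), and the deck transformation `τ` moves the descended
function `f'` by a PERIOD: `τ f' = f' · ξ^p · G₁^p`, with `G₁` fixed by `σ` and `ξ` a constant with
`σ ξ = ζ⁻¹ ξ` (so `ξ^p` is `σ`-fixed, but `ξ` is not). -/
theorem period_exists704 {p : ℕ} (hp : p.Prime) (σ τ : F ≃+* F)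
    (hcomm : ∀ z, σ (τ z) = τ (σ z)) (hσp : σ ^ p = 1) (hσ1 : σ ≠ 1)
    (ζ : F) (hζ : IsPrimitiveRoot ζ p)
    (lc : F →*₀ F) (hlc_idem : ∀ z, lc (lc z) = lc z)
    (hlcσ : ∀ z, lc (σ z) = σ (lc z)) (hτlc : ∀ z, τ (lc z) = lc z) (hlcζ : lc ζ = ζ)
    (f H c₀ : F) (hf : f ≠ 0) (hc₀ : lc c₀ = c₀)
    (hτf : τ f = f) (hτH : τ H = ζ * H)
    (hσf : σ f = f * c₀ * H ^ p) :
    ∃ f' b ξ G₁ : F, f' ≠ 0 ∧ b ≠ 0 ∧ ξ ≠ 0 ∧ G₁ ≠ 0 ∧ σ f' = f' ∧ f = lc f * f' * b ^ p ∧
      lc ξ = ξ ∧ σ ξ = ζ⁻¹ * ξ ∧ σ G₁ = G₁ ∧ lc G₁ = 1 ∧ τ f' = f' * ξ ^ p * G₁ ^ p := by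
  have hp0 : p ≠ 0 := hp.ne_zero
  have : NeZero p := ⟨hp0⟩
  have hζ0 : ζ ≠ 0 := hζ.ne_zero hp0
  have hσf0 : σ f ≠ 0 := by simpa using hf
  have hc₀0 : c₀ ≠ 0 := by
    rintro rfl; apply hσf0; rw [hσf]; simp
  have hH0 : H ≠ 0 := by
    rintro rfl; apply hσf0; rw [hσf]; simp [hp0]
  have hlc0 : ∀ z, z ≠ 0 → lc z ≠ 0 := fun z hz => by
    simpa using hz
  have hlcf : lc f ≠ 0 := hlc0 f hf
  have hlcH : lc H ≠ 0 := hlc0 H hH0
  -- normalise
  set f₁ : F := f / lc f with hf₁
  set H₁ : F := H / lc H with hH₁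
  have hf₁0 : f₁ ≠ 0 := div_ne_zero hf hlcf
  have hH₁0 : H₁ ≠ 0 := div_ne_zero hH0 hlcH
  have hlcH₁ : lc H₁ = 1 := by
    rw [hH₁, map_div₀, hlc_idem, div_self hlcH]
  have hσlcf : σ (lc f) = lc f * c₀ * lc H ^ p := by
    rw [← hlcσ, hσf, map_mul, map_mul, map_pow, hc₀]
  have hσf₁ : σ f₁ = f₁ * H₁ ^ p := by
    rw [hf₁, hH₁, map_div₀, hσf, hσlcf, div_pow]
    field_simp
  -- the norm of `H₁` is one
  have hN : partialNorm704 σ H₁ p = 1 := by
    have h1 : (partialNorm704 σ H₁ p) ^ p = 1 := by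
      rw [← partialNorm704_pow]
      have : H₁ ^ p = σ f₁ / f₁ := by rw [hσf₁]; field_simp
      rw [this, partialNorm704_div σ f₁ hf₁0, hσp, RingAut.one_apply, div_self hf₁0]
    obtain ⟨j, _, hj⟩ := hζ.eq_pow_of_pow_eq_one h1
    have h2 : lc (partialNorm704 σ H₁ p) = 1 := by
      unfold partialNorm704
      rw [map_prod]
      apply prod_eq_one
      intro i _
      have : ∀ i : ℕ, lc ((σ ^ i) H₁) = 1 := by
        intro i
        induction i with
        | zero => simpa using hlcH₁
        | succ i ih => rw [pow_succ', RingAut.mul_apply, hlcσ, ih, _root_.map_one]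
      exact this i
    rw [← hj, map_pow, hlcζ, hj] at h2
    exact h2
  have hN' : partialNorm704 σ H₁⁻¹ p = 1 := by
    rw [partialNorm704_inv, hN, inv_one]
  obtain ⟨b, hb0, hb⟩ := hilbert90_prime704 hp σ hσp hσ1 H₁⁻¹ hN'
  have hσb : σ b = H₁ * b := by
    calc σ b = H₁ * (H₁⁻¹ * σ b) := by field_simp
      _ = H₁ * b := by rw [hb]
  have hτb0 : τ b ≠ 0 := by simpa using hb0
  -- the descended function
  set f' : F := f₁ / b ^ p with hf'
  have hf'0 : f' ≠ 0 := div_ne_zero hf₁0 (pow_ne_zero _ hb0)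
  have hσf' : σ f' = f' := by
    rw [hf', map_div₀, map_pow, hσf₁, hσb, mul_pow]
    field_simp
  have hτf₁ : τ f₁ = f₁ := by
    rw [hf₁, map_div₀, hτf, hτlc]
  have hτH₁ : τ H₁ = ζ * H₁ := by
    rw [hH₁, map_div₀, hτH, hτlc, mul_div_assoc]
  -- the quotient `w = b / τ b`
  set w : F := b / τ b with hw
  have hw0 : w ≠ 0 := div_ne_zero hb0 hτb0
  have hσw : σ w = ζ⁻¹ * w := by
    rw [hw, map_div₀, hcomm, hσb, map_mul, hτH₁]
    field_simp
  have hτf' : τ f' = f' * w ^ p := by
    rw [hf', map_div₀, map_pow, hτf₁, hw, div_pow]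
    field_simp
  have hlcw0 : lc w ≠ 0 := hlc0 w hw0
  refine ⟨f', b, lc w, w / lc w, hf'0, hb0, hlcw0, div_ne_zero hw0 hlcw0, hσf', ?_,
    hlc_idem w, ?_, ?_, ?_, ?_⟩
  · rw [hf', hf₁]; field_simp
  · rw [← hlcσ, hσw, map_mul, map_inv₀, hlcζ]
  · rw [map_div₀, ← hlcσ, hσw, map_mul, map_inv₀, hlcζ]
    field_simp
  · rw [map_div₀, hlc_idem, div_self hlcw0]
  · have h : lc w ^ p * (w / lc w) ^ p = w ^ p := by
      rw [← mul_pow, mul_div_cancel₀ _ hlcw0]
    rw [hτf', mul_assoc, h]

/-- **Period lemma, Kummer-generator form.**  With the hypotheses of `period_exists704`, for ANY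
nonzero constant `u` with `σ u = ζ⁻¹ u` (a Kummer generator of the field of definition of `x`; in
the application `K₁(E[p]) = K₁(u)`, `u^p ∈ K₁`), the descended function `f'` can be chosen with
`τ f' = f' · u^p · G₂^p`, `σ G₂ = G₂`.  Hence for every discrete valuation `v` of the `σ`-fixed
field with `p ∣ v (u^p)` ("peu ramifié"):  `v (τ f') ≡ v f'  mod p`. -/
theorem period_of_generator704 {p : ℕ} (hp : p.Prime) (σ τ : F ≃+* F)
    (hcomm : ∀ z, σ (τ z) = τ (σ z)) (hσp : σ ^ p = 1) (hσ1 : σ ≠ 1)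
    (ζ : F) (hζ : IsPrimitiveRoot ζ p)
    (lc : F →*₀ F) (hlc_idem : ∀ z, lc (lc z) = lc z)
    (hlcσ : ∀ z, lc (σ z) = σ (lc z)) (hτlc : ∀ z, τ (lc z) = lc z) (hlcζ : lc ζ = ζ)
    (f H c₀ : F) (hf : f ≠ 0) (hc₀ : lc c₀ = c₀)
    (hτf : τ f = f) (hτH : τ H = ζ * H)
    (hσf : σ f = f * c₀ * H ^ p)
    (u : F) (hu0 : u ≠ 0) (hσu : σ u = ζ⁻¹ * u) :
    ∃ f' b G₂ : F, f' ≠ 0 ∧ b ≠ 0 ∧ G₂ ≠ 0 ∧ σ f' = f' ∧ f = lc f * f' * b ^ p ∧
      σ G₂ = G₂ ∧ τ f' = f' * u ^ p * G₂ ^ p := by
  obtain ⟨f', b, ξ, G₁, hf'0, hb0, hξ0, hG₁0, hσf', hfb, -, hσξ, hσG₁, -, hτf'⟩ :=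
    period_exists704 hp σ τ hcomm hσp hσ1 ζ hζ lc hlc_idem hlcσ hτlc hlcζ f H c₀ hf hc₀
      hτf hτH hσf
  have hζ0 : ζ ≠ 0 := hζ.ne_zero hp.ne_zero
  refine ⟨f', b, ξ / u * G₁, hf'0, hb0, mul_ne_zero (div_ne_zero hξ0 hu0) hG₁0, hσf', hfb, ?_, ?_⟩
  · rw [map_mul, map_div₀, hσξ, hσu, hσG₁]
    field_simp
  · rw [hτf', mul_pow, div_pow]; field_simp

/-- The period is not a `p`-th power of a `σ`-fixed element: if `σ ξ = ζ⁻¹ ξ`, `ξ ≠ 0` and
`ξ^p = d^p` then `σ d ≠ d`. -/
theorem period_not_pow704 {p : ℕ} (hp : p.Prime) (σ : F ≃+* F)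
    (ζ : F) (hζ : IsPrimitiveRoot ζ p) (hσζ : σ ζ = ζ)
    (ξ d : F) (hξ0 : ξ ≠ 0) (hσξ : σ ξ = ζ⁻¹ * ξ) (hd : ξ ^ p = d ^ p) : σ d ≠ d := by
  intro hσd
  have hp0 : p ≠ 0 := hp.ne_zero
  have : NeZero p := ⟨hp0⟩
  have hζ0 : ζ ≠ 0 := hζ.ne_zero hp0
  have hd0 : d ≠ 0 := by
    rintro rfl
    rw [zero_pow hp0] at hd
    exact hξ0 (pow_eq_zero_iff hp0 |>.mp hd)
  have h1 : (ξ / d) ^ p = 1 := by rw [div_pow, hd, div_self (pow_ne_zero _ hd0)]
  obtain ⟨j, _, hj⟩ := hζ.eq_pow_of_pow_eq_one h1
  have h2 : σ (ξ / d) = ξ / d := by rw [← hj, map_pow, hσζ]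
  rw [map_div₀, hσξ, hσd] at h2
  have h3 : ζ⁻¹ * ξ = ξ := by
    field_simp at h2
    field_simp
    linear_combination h2
  have h4 : ζ⁻¹ = 1 := by
    have := mul_right_cancel₀ hξ0 (h3.trans (one_mul ξ).symm)
    exact this
  have h5 : ζ = 1 := by simpa using h4
  exact hζ.ne_one hp.one_lt h5

/-- **Kummer transfer.**  Two Kummer generators of the same cyclic extension differ by a power and
a `σ`-fixed element: if `σ ξ = ζ⁻¹ ξ` and `σ η = ζ⁻¹^i η` then `η / ξ^i` is `σ`-fixed.  (So the
class of the period modulo `p`-th powers of the base field depends only on the Galois module, up to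
an exponent.) -/
theorem kummer_transfer704 (σ : F ≃+* F) (ζ ξ η : F) (i : ℕ) (hζ0 : ζ ≠ 0) (hξ0 : ξ ≠ 0)
    (hσξ : σ ξ = ζ⁻¹ * ξ) (hση : σ η = (ζ⁻¹) ^ i * η) : σ (η / ξ ^ i) = η / ξ ^ i := by
  rw [map_div₀, map_pow, hσξ, hση, mul_pow]
  field_simp

end Period

end Fermat.Agent.Ribet.H704

end
-- ===== PACK-END Ribet/H704/Period.lean

-- ===== PACK-BEGIN A2/H552/KummerUnram.lean
section







/-!
# A2 / ALG, COVER-SPLIT in the cyclic case `u ≡ 1 mod w` (helper552)

`K ⊆ Ω` fields, `V` a valuation subring of `K` with uniformiser `w` (`w` generates the non-units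
of `V` and `K = V[1/w]`), `m` invertible in `V`, `ζ ∈ K` a primitive `m`-th root of unity,
`Ω = K[z]` with `z ^ m = 1 + w t`, `t ∈ V`.  Let `W` be ANY valuation subring of `Ω` containing `V`
in which `w` is not a unit.  Then

* `z = η (1 + w s)` with `η` an `m`-th root of unity and `s ∈ W`;
* `W = V[s]` (the subring generated by `V` and `s`), `V[s] = V + w V[s]`;
* hence `𝔪_W = w W` (`e = 1`) and `W = V + w W` (`f = 1`): `kummer_unramified`.

No Galois theory, no étale/Dedekind API, no completeness.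
-/

set_option autoImplicit false

namespace Fermat.Agent.A2.H552

open Polynomial

section CycUnram

variable {K Ω : Type*} [Field K] [Field Ω] [Algebra K Ω]

/-- In a valuation subring of a field: a nonzero element with `x⁻¹ ∉ W` has valuation `< 1`. -/
theorem valuation_lt_one_of_inv_notMem (W : ValuationSubring Ω) {x : Ω} (hx : x⁻¹ ∉ W) :
    W.valuation x < 1 := by
  by_contra h
  rw [not_lt] at h
  apply hx
  rw [← W.valuation_le_one_iff, map_inv₀]
  exact inv_le_one_of_one_le₀ h

/-- An element of valuation `< 1` has `x⁻¹ ∉ W` unless it is zero. -/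
theorem inv_notMem_of_valuation_lt_one (W : ValuationSubring Ω) {x : Ω} (hx0 : x ≠ 0)
    (hx : W.valuation x < 1) : x⁻¹ ∉ W := by
  intro h
  rw [← W.valuation_le_one_iff, map_inv₀] at h
  have hpos : 0 < W.valuation x := by
    rw [pos_iff_ne_zero]
    exact (Valuation.ne_zero_iff _).mpr hx0
  have := (inv_le_one₀ hpos).mp h
  exact absurd hx (not_lt.mpr this)

/-- In a linearly ordered group with zero, `a ^ n = 1` with `n ≠ 0` forces `a = 1`. -/
theorem eq_one_of_pow_eq_one₀ {Γ : Type*} [LinearOrderedCommGroupWithZero Γ] {a : Γ} {n : ℕ}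
    (hn : n ≠ 0) (h : a ^ n = 1) : a = 1 := by
  rcases lt_trichotomy a 1 with h1 | h1 | h1
  · exact absurd h (pow_lt_one₀ zero_le h1 hn).ne
  · exact h1
  · exact absurd h (one_lt_pow₀ h1 hn).ne'

/-- `x ^ m = 1` with `0 < m` gives `x⁻¹ = x ^ (m - 1)`. -/
theorem inv_eq_pow_of_pow_eq_one {F : Type*} [Field F] {x : F} {m : ℕ} (hm : 0 < m)
    (h : x ^ m = 1) : x⁻¹ = x ^ (m - 1) := by
  apply inv_eq_of_mul_eq_one_right
  rw [← pow_succ', Nat.sub_add_cancel hm, h]

/-- **Cyclic Kummer extensions with `u ≡ 1 mod w` are unramified with trivial residue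
extension** at every valuation subring `W` over `V`. -/
theorem kummer_unramified (V : ValuationSubring K) (W : ValuationSubring Ω)
    (hVW : ∀ a ∈ V, algebraMap K Ω a ∈ W)
    (w : K) (hwV : w ∈ V) (hw0 : w ≠ 0) (hwW : (algebraMap K Ω w)⁻¹ ∉ W)
    (hVgen : ∀ a ∈ V, a⁻¹ ∉ V → a * w⁻¹ ∈ V)
    (hdisc : ∀ c : K, ∃ k : ℕ, w ^ k * c ∈ V)
    (m : ℕ) (hm : 0 < m) (hm0 : (m : K) ≠ 0) (hmV : ((m : K))⁻¹ ∈ V)
    (ζ : K) (hζ : IsPrimitiveRoot ζ m)
    (t : K) (ht : t ∈ V) (z : Ω) (hz : z ^ m = algebraMap K Ω (1 + w * t))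
    (hgen : ∀ b : Ω, b ∈ Algebra.adjoin K ({z} : Set Ω)) :
    (∀ b ∈ W, b⁻¹ ∉ W → b * (algebraMap K Ω w)⁻¹ ∈ W) ∧
    (∀ b ∈ W, ∃ a ∈ V, (b - algebraMap K Ω a) * (algebraMap K Ω w)⁻¹ ∈ W) := by
  classical
  have : NeZero m := ⟨hm.ne'⟩
  set φ := algebraMap K Ω with hφ
  set v := W.valuation with hv
  have hφinj : Function.Injective φ := (algebraMap K Ω).injective
  have hφw0 : φ w ≠ 0 := fun h => hw0 (hφinj (by rw [h, _root_.map_zero]))
  have hvV : ∀ a ∈ V, v (φ a) ≤ 1 := fun a ha => (W.valuation_le_one_iff _).mpr (hVW a ha)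
  have hvw : v (φ w) < 1 := valuation_lt_one_of_inv_notMem W hwW
  have hvw0 : v (φ w) ≠ 0 := (Valuation.ne_zero_iff _).mpr hφw0
  have hunitV : ∀ a ∈ V, a⁻¹ ∈ V → a ≠ 0 → v (φ a) = 1 := by
    intro a ha hai ha0
    have h1 := hvV a ha
    have h2 := hvV _ hai
    rw [map_inv₀, map_inv₀] at h2
    have hpos : 0 < v (φ a) := by
      rw [pos_iff_ne_zero]
      exact (Valuation.ne_zero_iff _).mpr (fun h => ha0 (hφinj (by rw [h, _root_.map_zero])))
    exact le_antisymm h1 ((inv_le_one₀ hpos).mp h2)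
  -- the root of unity `ζ` is a unit of `V`
  have hζm : ζ ^ m = 1 := hζ.pow_eq_one
  have hζ0 : ζ ≠ 0 := hζ.ne_zero hm.ne'
  have hpowV : ∀ i : ℕ, ζ ^ i ∈ V := by
    have hζV : ζ ∈ V := by
      rcases V.mem_or_inv_mem ζ with h | h
      · exact h
      · have h1 : (ζ⁻¹) ^ m = 1 := by rw [inv_pow, hζm, inv_one]
        have h2 := inv_eq_pow_of_pow_eq_one hm h1
        rw [inv_inv] at h2
        rw [h2]
        exact pow_mem h _
    exact fun i => pow_mem hζV i
  -- `m` is a unit of `V`
  have hmVmem : (m : K) ∈ V := by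
    have : (m : K) = ((m : ℕ) : V) := by simp
    rw [this]
    exact Subtype.mem _
  have hvm : v (φ (m : K)) = 1 := hunitV _ hmVmem hmV hm0
  have hφm : φ (m : K) = (m : Ω) := _root_.map_natCast φ m
  -- `z` is a unit of `W`
  have hv1wt : v (φ (1 + w * t)) = 1 := by
    rw [_root_.map_add, _root_.map_one, _root_.map_mul]
    have hlt : v (φ w * φ t) < v 1 := by
      rw [_root_.map_one, _root_.map_mul]
      calc v (φ w) * v (φ t) ≤ v (φ w) * 1 := by gcongr; exact hvV t ht
        _ = v (φ w) := mul_one _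
        _ < 1 := hvw
    rw [Valuation.map_add_eq_of_lt_left _ hlt, _root_.map_one]
  have hvz : v z = 1 := by
    have h1 : v z ^ m = 1 := by rw [← _root_.map_pow, hz, hv1wt]
    exact eq_one_of_pow_eq_one₀ hm.ne' h1
  -- some `m`-th root of unity `η` is congruent to `z`
  have hζ' : IsPrimitiveRoot (φ ζ) m := hζ.map_of_injective hφinj
  have hprod : z ^ m - 1 = ∏ η ∈ nthRootsFinset m (1 : Ω), (z - η) := by
    have h := congrArg (eval z) (X_pow_sub_one_eq_prod hm hζ')
    simpa [eval_prod] using h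
  have hvη : ∀ η ∈ nthRootsFinset m (1 : Ω), v η = 1 := by
    intro η hη
    rw [mem_nthRootsFinset hm] at hη
    have h1 : v η ^ m = 1 := by rw [← _root_.map_pow, hη, _root_.map_one]
    exact eq_one_of_pow_eq_one₀ hm.ne' h1
  obtain ⟨η, hη, hzη⟩ : ∃ η ∈ nthRootsFinset m (1 : Ω), v (z - η) < 1 := by
    by_contra hcon
    have hall : ∀ η ∈ nthRootsFinset m (1 : Ω), v (z - η) = 1 := by
      intro η hη
      refine le_antisymm ?_ (not_lt.mp fun h => hcon ⟨η, hη, h⟩)
      exact (Valuation.map_sub _ _ _).trans (max_le hvz.le (hvη η hη).le)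
    have h1 : v (z ^ m - 1) = 1 := by
      rw [hprod, _root_.map_prod]
      exact Finset.prod_eq_one hall
    have h2 : v (z ^ m - 1) < 1 := by
      rw [hz, _root_.map_add, _root_.map_one, add_sub_cancel_left, _root_.map_mul]
      calc v (φ w) * v (φ t) ≤ v (φ w) * 1 := by gcongr; exact hvV t ht
        _ = v (φ w) := mul_one _
        _ < 1 := hvw
    exact absurd h1 h2.ne
  have hηm : η ^ m = 1 := (mem_nthRootsFinset hm 1).mp hη
  have hη0 : η ≠ 0 := by
    intro h
    rw [h, zero_pow hm.ne'] at hηm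
    exact zero_ne_one hηm
  obtain ⟨i, -, hi⟩ := hζ'.eq_pow_of_pow_eq_one hηm
  -- normalise: `z₁ = z / η ≡ 1`
  set z₁ := z * η⁻¹ with hz₁
  have hz₁m : z₁ ^ m = φ (1 + w * t) := by
    rw [hz₁, mul_pow, inv_pow, hηm, inv_one, mul_one, hz]
  have hvz₁ : v (z₁ - 1) < 1 := by
    have : z₁ - 1 = (z - η) * η⁻¹ := by
      rw [hz₁, sub_mul, mul_inv_cancel₀ hη0]
    rw [this, _root_.map_mul, map_inv₀, hvη η hη, inv_one, mul_one]
    exact hzη
  have hvz₁' : v z₁ ≤ 1 := by
    rw [hz₁, _root_.map_mul, map_inv₀, hvη η hη, inv_one, mul_one]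
    exact hvz.le
  set G := ∑ j ∈ Finset.range m, z₁ ^ j with hG
  have hGmul : G * (z₁ - 1) = φ w * φ t := by
    rw [hG, geom_sum_mul, hz₁m, _root_.map_add, _root_.map_one, _root_.map_mul, add_sub_cancel_left]
  set s := (z₁ - 1) * (φ w)⁻¹ with hs
  have hz₁s : z₁ = 1 + φ w * s := by
    rw [hs, mul_comm (z₁ - 1), ← mul_assoc, mul_inv_cancel₀ hφw0, one_mul]
    ring
  -- `G = m + w s c₀`
  set c₀ := ∑ j ∈ Finset.range m, ∑ l ∈ Finset.range j, z₁ ^ l with hc₀
  have hGm : G = (m : Ω) + φ w * s * c₀ := by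
    have h1 : G - (m : Ω) = ∑ j ∈ Finset.range m, (z₁ ^ j - 1) := by
      rw [hG, Finset.sum_sub_distrib]
      simp
    have h2 : ∀ j ∈ Finset.range m, z₁ ^ j - 1 = (z₁ - 1) * ∑ l ∈ Finset.range j, z₁ ^ l :=
      fun j _ => (mul_geom_sum z₁ j).symm
    rw [Finset.sum_congr rfl h2, ← Finset.mul_sum, ← hc₀] at h1
    have h3 : z₁ - 1 = φ w * s := by rw [hz₁s]; ring
    rw [h3] at h1
    rw [← h1]; ring
  have hGs : G * s = φ t := by
    have h3 : z₁ - 1 = φ w * s := by rw [hz₁s]; ring
    rw [h3] at hGmul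
    have : φ w * (G * s) = φ w * φ t := by rw [← hGmul]; ring
    exact mul_left_cancel₀ hφw0 this
  -- the subring `A = V[s]`
  set A : Subring Ω := Subring.closure (φ '' (V : Set K) ∪ {s}) with hA
  have hVA : ∀ a ∈ V, φ a ∈ A := fun a ha =>
    Subring.subset_closure (Or.inl ⟨a, ha, rfl⟩)
  have hsA : s ∈ A := Subring.subset_closure (Or.inr rfl)
  have hwA : φ w ∈ A := hVA w hwV
  have hz₁A : z₁ ∈ A := by
    rw [hz₁s]
    exact A.add_mem A.one_mem (A.mul_mem hwA hsA)
  have hc₀A : c₀ ∈ A := by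
    rw [hc₀]
    exact A.sum_mem fun j _ => A.sum_mem fun l _ => A.pow_mem hz₁A l
  -- `s ∈ W`
  have hvG : v G = 1 := by
    have h1 : v (φ w * s * c₀) < v (m : Ω) := by
      rw [← hφm, hvm]
      have hsc : φ w * s * c₀ = (z₁ - 1) * c₀ := by
        rw [hz₁s]; ring
      rw [hsc, _root_.map_mul]
      have hc₀le : v c₀ ≤ 1 := by
        rw [hc₀]
        refine Valuation.map_sum_le _ fun j _ => ?_
        refine Valuation.map_sum_le _ fun l _ => ?_
        rw [_root_.map_pow]
        exact pow_le_one₀ zero_le hvz₁'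
      calc v (z₁ - 1) * v c₀ ≤ v (z₁ - 1) * 1 := by gcongr
        _ = v (z₁ - 1) := mul_one _
        _ < 1 := hvz₁
    rw [hGm, Valuation.map_add_eq_of_lt_left _ h1, ← hφm, hvm]
  have hG0 : G ≠ 0 := by
    intro h
    rw [h, _root_.map_zero] at hvG
    exact zero_ne_one hvG
  have hsW : v s ≤ 1 := by
    have : s = φ t * G⁻¹ := by
      rw [← hGs, mul_comm G s, mul_assoc, mul_inv_cancel₀ hG0, mul_one]
    rw [this, _root_.map_mul, map_inv₀, hvG, inv_one, mul_one]
    exact hvV t ht
  have hAW : ∀ a ∈ A, v a ≤ 1 := by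
    intro a ha
    have hle : A ≤ W.toSubring := by
      rw [hA, Subring.closure_le]
      rintro x (⟨a, ha, rfl⟩ | hx)
      · exact hVW a ha
      · rw [Set.mem_singleton_iff] at hx
        rw [hx]
        exact (W.valuation_le_one_iff _).mp hsW
    exact (W.valuation_le_one_iff _).mpr (hle ha)
  -- `A = V + w A`
  have hdec : ∀ a ∈ A, ∃ a₀ ∈ V, ∃ a' ∈ A, a = φ a₀ + φ w * a' := by
    intro a ha
    induction ha using Subring.closure_induction with
    | mem x hx =>
      rcases hx with ⟨a₀, ha₀, rfl⟩ | hx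
      · exact ⟨a₀, ha₀, 0, A.zero_mem, by simp⟩
      · rw [Set.mem_singleton_iff] at hx
        subst hx
        refine ⟨t * (m : K)⁻¹, mul_mem ht hmV, -(φ ((m : K)⁻¹) * s * s * c₀),
          A.neg_mem (A.mul_mem (A.mul_mem (A.mul_mem (hVA _ hmV) hsA) hsA) hc₀A), ?_⟩
        have hmm : (m : Ω) * φ ((m : K)⁻¹) = 1 := by
          rw [← hφm, ← _root_.map_mul, mul_inv_cancel₀ hm0, _root_.map_one]
        have h5 : ((m : Ω) + φ w * s * c₀) * s = φ t := by rw [← hGm]; exact hGs
        rw [_root_.map_mul]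
        linear_combination (φ ((m : K)⁻¹)) * h5 - s * hmm
    | zero => exact ⟨0, zero_mem V, 0, A.zero_mem, by simp⟩
    | one => exact ⟨1, one_mem V, 0, A.zero_mem, by simp⟩
    | add x y hx hy ihx ihy =>
      obtain ⟨x₀, hx₀, x', hx', rfl⟩ := ihx
      obtain ⟨y₀, hy₀, y', hy', rfl⟩ := ihy
      exact ⟨x₀ + y₀, add_mem hx₀ hy₀, x' + y', A.add_mem hx' hy', by rw [_root_.map_add]; ring⟩
    | neg x hx ihx =>
      obtain ⟨x₀, hx₀, x', hx', rfl⟩ := ihx
      exact ⟨-x₀, neg_mem hx₀, -x', A.neg_mem hx', by rw [_root_.map_neg]; ring⟩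
    | mul x y hx hy ihx ihy =>
      obtain ⟨x₀, hx₀, x', hx', rfl⟩ := ihx
      obtain ⟨y₀, hy₀, y', hy', rfl⟩ := ihy
      refine ⟨x₀ * y₀, mul_mem hx₀ hy₀, φ x₀ * y' + x' * φ y₀ + φ w * x' * y', ?_, ?_⟩
      · exact A.add_mem (A.add_mem (A.mul_mem (hVA _ hx₀) hy') (A.mul_mem hx' (hVA _ hy₀)))
          (A.mul_mem (A.mul_mem hwA hx') hy')
      · rw [_root_.map_mul]; ring
  -- non-units of `A` are divisible by `w`
  have hdiv : ∀ a ∈ A, v a < 1 → ∃ a' ∈ A, a = φ w * a' := by
    intro a ha hva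
    obtain ⟨a₀, ha₀, a', ha', rfl⟩ := hdec a ha
    have h1 : v (φ w * a') < 1 := by
      rw [_root_.map_mul]
      calc v (φ w) * v a' ≤ v (φ w) * 1 := by gcongr; exact hAW a' ha'
        _ = v (φ w) := mul_one _
        _ < 1 := hvw
    have h2 : v (φ a₀) < 1 := by
      have : φ a₀ = (φ a₀ + φ w * a') - φ w * a' := by ring
      rw [this]
      exact Valuation.map_sub_lt _ hva h1
    have h3 : a₀ * w⁻¹ ∈ V := by
      by_cases h0 : a₀ = 0
      · rw [h0, zero_mul]; exact zero_mem V
      refine hVgen a₀ ha₀ fun hinv => ?_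
      have := hunitV a₀ ha₀ hinv h0
      rw [this] at h2
      exact lt_irrefl _ h2
    refine ⟨φ (a₀ * w⁻¹) + a', A.add_mem (hVA _ h3) ha', ?_⟩
    rw [mul_add, ← _root_.map_mul, mul_comm a₀, ← mul_assoc, mul_inv_cancel₀ hw0, one_mul]
  -- `Ω = A[1/w]`
  have hloc : ∀ b : Ω, ∃ k : ℕ, φ w ^ k * b ∈ A := by
    intro b
    induction hgen b using Algebra.adjoin_induction with
    | mem x hx =>
      rw [Set.mem_singleton_iff] at hx
      rw [hx]
      refine ⟨0, ?_⟩
      rw [pow_zero, one_mul]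
      have hzz : z = η * z₁ := by
        rw [hz₁, mul_comm z, ← mul_assoc, mul_inv_cancel₀ hη0, one_mul]
      rw [hzz]
      refine A.mul_mem ?_ hz₁A
      rw [← hi, ← _root_.map_pow]
      exact hVA _ (hpowV i)
    | algebraMap c =>
      obtain ⟨k, hk⟩ := hdisc c
      refine ⟨k, ?_⟩
      rw [← hφ, ← _root_.map_pow, ← _root_.map_mul]
      exact hVA _ hk
    | add x y _ _ ihx ihy =>
      obtain ⟨k₁, h₁⟩ := ihx
      obtain ⟨k₂, h₂⟩ := ihy
      refine ⟨k₁ + k₂, ?_⟩
      have : φ w ^ (k₁ + k₂) * (x + y) = φ w ^ k₂ * (φ w ^ k₁ * x) + φ w ^ k₁ * (φ w ^ k₂ * y) := by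
        rw [pow_add]; ring
      rw [this]
      exact A.add_mem (A.mul_mem (A.pow_mem hwA _) h₁) (A.mul_mem (A.pow_mem hwA _) h₂)
    | mul x y _ _ ihx ihy =>
      obtain ⟨k₁, h₁⟩ := ihx
      obtain ⟨k₂, h₂⟩ := ihy
      refine ⟨k₁ + k₂, ?_⟩
      have : φ w ^ (k₁ + k₂) * (x * y) = (φ w ^ k₁ * x) * (φ w ^ k₂ * y) := by
        rw [pow_add]; ring
      rw [this]
      exact A.mul_mem h₁ h₂
  -- `W ⊆ A`
  have hWA : ∀ b : Ω, v b ≤ 1 → b ∈ A := by
    intro b hb
    have hex := hloc b
    have hk : Nat.find hex = 0 := by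
      by_contra hne
      obtain ⟨k, hk⟩ : ∃ k, Nat.find hex = k + 1 := ⟨Nat.find hex - 1, by omega⟩
      have hmem := Nat.find_spec hex
      rw [hk] at hmem
      have hlt : v (φ w ^ (k + 1) * b) < 1 := by
        rw [_root_.map_mul, _root_.map_pow, pow_succ]
        calc v (φ w) ^ k * v (φ w) * v b ≤ 1 * v (φ w) * 1 := by
              gcongr
              exact pow_le_one₀ zero_le hvw.le
          _ = v (φ w) := by rw [one_mul, mul_one]
          _ < 1 := hvw
      obtain ⟨a', ha', h'⟩ := hdiv _ hmem hlt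
      have : φ w ^ k * b = a' := by
        have h6 : φ w * (φ w ^ k * b) = φ w * a' := by rw [← h', pow_succ]; ring
        exact mul_left_cancel₀ hφw0 h6
      have hmin := Nat.find_min hex (m := k) (by omega)
      exact hmin (this ▸ ha')
    have := Nat.find_spec hex
    rwa [hk, pow_zero, one_mul] at this
  refine ⟨fun b hbW hbinv => ?_, fun b hbW => ?_⟩
  · have hb1 : v b < 1 := valuation_lt_one_of_inv_notMem W hbinv
    obtain ⟨a', ha', h'⟩ := hdiv b (hWA b hb1.le) hb1
    rw [h', mul_comm (φ w), mul_assoc, mul_inv_cancel₀ hφw0, mul_one]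
    exact (W.valuation_le_one_iff _).mp (hAW a' ha')
  · obtain ⟨a₀, ha₀, a', ha', h'⟩ := hdec b (hWA b ((W.valuation_le_one_iff _).mpr hbW))
    refine ⟨a₀, ha₀, ?_⟩
    rw [h', add_sub_cancel_left, mul_comm (φ w), mul_assoc, mul_inv_cancel₀ hφw0, mul_one]
    exact (W.valuation_le_one_iff _).mp (hAW a' ha')

end CycUnram

end Fermat.Agent.A2.H552

end
-- ===== PACK-END A2/H552/KummerUnram.lean

-- ===== PACK-BEGIN S35/H858/NormAbs.lean
section


/-!
# S35, cell FROB, leaf QNF (helper858) — norms and base change, abstract part (Mathlib only)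

Setting: a commutative square of fields `K → L`, `K → K'`, `L → L'`, `K' → L'` (think of
`K' = K ⊗ Ω`, `L' = L ⊗ Ω` for a constant field extension `Ω`), and a family `ε` which is at the
same time a `K`-basis of `K'` and (after `K' → L'`) an `L`-basis of `L'`.

* `norm_map_of_basis` : if a `K`-basis `b` of `L` is mapped to a `K'`-basis of `L'`, then
  `ιK (N_{L/K} y) = N_{L'/K'} (ιL y)`;
* `linearIndependent_of_smul_basis` : converse of `linearIndependent_smul` for a basis;
* `linearIndependent_algebraMap_of_common_basis` : `K`-linearly independent families of `L` stay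
  linearly independent over `K'` in `L'` (linear disjointness);
* `exists_basis_of_common_basis` : a `K`-basis of `L` is a `K'`-basis of `L'`;
* `finite_of_common_basis` : `L' / K'` finite ⟹ `L / K` finite;
* `norm_algebraMap_of_common_basis` : `N_{L'/K'} (y) = N_{L/K} (y)` for `y ∈ L`.
-/

set_option autoImplicit false

noncomputable section

namespace Fermat.Agent.S35.H858

open Module

/-- Norms commute with a base change which maps a basis to a basis. -/
theorem norm_map_of_basis {K L K' L' : Type*} [Field K] [Field L] [Field K'] [Field L']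
    [Algebra K L] [Algebra K' L'] (ιK : K →+* K') (ιL : L →+* L')
    (hι : ∀ a : K, ιL (algebraMap K L a) = algebraMap K' L' (ιK a))
    {n : Type*} [Fintype n] [DecidableEq n] (b : Basis n K L) (b' : Basis n K' L')
    (hb : ∀ i, b' i = ιL (b i)) (y : L) :
    ιK (Algebra.norm K y) = Algebra.norm K' (ιL y) := by
  rw [Algebra.norm_eq_matrix_det b y, Algebra.norm_eq_matrix_det b' (ιL y), RingHom.map_det]
  congr 1
  ext i j
  rw [RingHom.mapMatrix_apply, Matrix.map_apply, Algebra.leftMulMatrix_eq_repr_mul,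
    Algebra.leftMulMatrix_eq_repr_mul]
  -- `y * b j = ∑ i, c i • b i`
  have h1 : y * b j = ∑ i, b.repr (y * b j) i • b i := (b.sum_repr (y * b j)).symm
  have h2 : ιL y * b' j = ∑ i, ιK (b.repr (y * b j) i) • b' i := by
    rw [hb j, ← map_mul, h1, map_sum]
    refine Finset.sum_congr rfl fun i _ => ?_
    rw [Algebra.smul_def, map_mul, hι, hb i, Algebra.smul_def]
    congr 2
    rw [← h1]
  rw [h2, map_sum]
  simp only [map_smul, Basis.repr_self, Finsupp.coe_finsetSum, Finsupp.coe_smul,
    Finset.sum_apply, Pi.smul_apply, smul_eq_mul]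
  rw [Finset.sum_eq_single i]
  · simp
  · intro k _ hk
    simp [hk]
  · intro h
    exact absurd (Finset.mem_univ i) h

/-- Converse of `linearIndependent_smul` when the first family is a basis. -/
theorem linearIndependent_of_smul_basis {R S A : Type*} [CommRing R] [Ring S] [AddCommGroup A]
    [Module R S] [Module S A] [Module R A] [IsScalarTower R S A] {J I : Type*}
    (b : Basis J R S) {c : I → A}
    (h : LinearIndependent R fun p : I × J => b p.2 • c p.1) : LinearIndependent S c := by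
  rw [LinearIndependent, Finsupp.linearCombination_smul] at h
  have hsurj : Function.Surjective
      (Finsupp.mapRange.linearMap (Finsupp.linearCombination R b) ∘ₗ
        (Finsupp.curryLinearEquiv R).toLinearMap : (I × J →₀ R) →ₗ[R] (I →₀ S)) := by
    rw [LinearMap.coe_comp]
    refine Function.Surjective.comp ?_ (Finsupp.curryLinearEquiv R).surjective
    intro l
    refine ⟨Finsupp.mapRange b.repr (map_zero _) l, ?_⟩
    ext i
    simp [Finsupp.mapRange.linearMap_apply, Finsupp.mapRange_apply, b.linearCombination_repr]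
  have h2 : Function.Injective
      ((⇑(Finsupp.linearCombination S c)) ∘
        ⇑(Finsupp.mapRange.linearMap (Finsupp.linearCombination R b) ∘ₗ
          (Finsupp.curryLinearEquiv R).toLinearMap : (I × J →₀ R) →ₗ[R] (I →₀ S))) := h
  exact Function.Injective.of_comp_right h2 hsurj

section CommonBasis

variable {K L K' L' : Type*} [Field K] [Field L] [Field K'] [Field L']
  [Algebra K L] [Algebra K K'] [Algebra K' L'] [Algebra L L'] [Algebra K L']
  [IsScalarTower K L L'] [IsScalarTower K K' L']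
  {J : Type*} (ε : Basis J K K') (ε' : Basis J L L')

include ε ε' in
/-- Linear disjointness: `K`-linearly independent families of `L` stay linearly independent
over `K'`. -/
theorem linearIndependent_algebraMap_of_common_basis
    (hε : ∀ j, ε' j = algebraMap K' L' (ε j)) {I : Type*} {v : I → L}
    (hv : LinearIndependent K v) :
    LinearIndependent K' fun i => algebraMap L L' (v i) := by
  apply linearIndependent_of_smul_basis (R := K) ε
  have h1 : LinearIndependent K fun p : I × J => v p.1 • ε' p.2 :=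
    linearIndependent_smul hv ε'.linearIndependent
  have h2 : (fun p : I × J => ε p.2 • algebraMap L L' (v p.1)) =
      fun p : I × J => v p.1 • ε' p.2 := by
    funext p
    rw [Algebra.smul_def, Algebra.smul_def, hε, mul_comm]
  rw [h2]
  exact h1

include ε ε' in
/-- A `K`-basis of `L` is a `K'`-basis of `L'`. -/
theorem exists_basis_of_common_basis (hε : ∀ j, ε' j = algebraMap K' L' (ε j))
    {n : Type*} (b : Basis n K L) :
    ∃ b' : Basis n K' L', ∀ i, b' i = algebraMap L L' (b i) := by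
  have hli := linearIndependent_algebraMap_of_common_basis ε ε' hε b.linearIndependent
  have hsp : ⊤ ≤ Submodule.span K' (Set.range fun i => algebraMap L L' (b i)) := by
    have h1 : Submodule.span K (Set.range ⇑(b.smulTower ε')) ≤
        (Submodule.span K' (Set.range fun i => algebraMap L L' (b i))).restrictScalars K := by
      rw [Submodule.span_le]
      rintro _ ⟨⟨i, j⟩, rfl⟩
      rw [Basis.smulTower_apply]
      show b i • ε' j ∈ Submodule.span K' (Set.range fun i => algebraMap L L' (b i))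
      have h3 : b i • ε' j = ε j • algebraMap L L' (b i) := by
        rw [Algebra.smul_def, Algebra.smul_def, hε, mul_comm]
      rw [h3]
      exact Submodule.smul_mem _ _ (Submodule.subset_span ⟨i, rfl⟩)
    rw [(b.smulTower ε').span_eq] at h1
    intro z _
    exact h1 (Submodule.mem_top (x := z))
  exact ⟨Basis.mk hli hsp, fun i => Basis.mk_apply hli hsp i⟩

include ε ε' in
/-- `L' / K'` finite ⟹ `L / K` finite. -/
theorem finite_of_common_basis (hε : ∀ j, ε' j = algebraMap K' L' (ε j))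
    [Module.Finite K' L'] : Module.Finite K L := by
  rw [← Module.rank_lt_aleph0_iff]
  have h : Module.rank K L ≤ (Module.finrank K' L' : ℕ) := by
    apply rank_le
    intro s hs
    have h1 := linearIndependent_algebraMap_of_common_basis ε ε' hε hs
    have h2 := h1.fintype_card_le_finrank
    simpa using h2
  exact lt_of_le_of_lt h Cardinal.natCast_lt_aleph0

include ε ε' in
/-- Norms commute with the base change. -/
theorem norm_algebraMap_of_common_basis (hε : ∀ j, ε' j = algebraMap K' L' (ε j))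
    [Module.Finite K L] (y : L) :
    algebraMap K K' (Algebra.norm K y) = Algebra.norm K' (algebraMap L L' y) := by
  classical
  obtain ⟨b', hb'⟩ := exists_basis_of_common_basis ε ε' hε (Module.finBasis K L)
  refine norm_map_of_basis (algebraMap K K') (algebraMap L L') (fun a => ?_)
    (Module.finBasis K L) b' hb' y
  rw [← IsScalarTower.algebraMap_apply K L L', ← IsScalarTower.algebraMap_apply K K' L']

end CommonBasis

end Fermat.Agent.S35.H858

end
end
-- ===== PACK-END S35/H858/NormAbs.lean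

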