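import Fermat.Prelude.Def_CuspForm_HeckeLocal
import Mathlib
import Mathlib.LinearAlgebra.Matrix.Rank
import Fermat.Prelude.Def_EllipticCurve_FrobeniusTrace
import Fermat.Prelude.Def_FLTPrelim_Ramification
import Mathlib.RingTheory.DiscreteValuationRing.Basic
import Mathlib.RingTheory.Valuation.ValuationSubring
import Mathlib.RingTheory.Algebraic.Integral
import Mathlib.RingTheory.Localization.FractionRing
import Mathlib.RingTheory.Polynomial.UniqueFactorization
import Mathlib.Tactic.FieldSimp
import Fermat.Agent.Pack.S33.E3L1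
import Fermat.Agent.Pack.S33.E2L0
import Fermat.Agent.Pack.S33.E2L1
import Fermat.Agent.Pack.S33.E3L3
import Fermat.Agent.Pack.S33.E3L2
import Fermat.Agent.Pack.S33.E3L0
import Fermat.Agent.Pack.S33.E1L0

-- ===== PACK-BEGIN S59/G4/Spec.lean
section



/-!
# Row S59, layer G4: existence of the Hecke–Galois datum — interface (squad-lead helper7)

Goal (`G4Statement`): for a non-Eisenstein residual character `θ` of the anemic Hecke algebra
(`S ⊇ {p} ∪ primes(N)`), the Prelude ring `T = CuspForm.heckeLocal N S 𝒪 θ` carries a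
`CuspForm.HeckeGaloisRepDatum`.  The algebraic fields are on main
(`Fermat.Agent.S59.H7.datumOfRep`); what is left is the representation `ρ_T`.

Pieces (each is a `Prop` below; prove `theorem foo : FooStatement`):

* `RedStatement`     (RED)    `T` is reduced.
* `PointsStatement`  (POINTS) a reduced finite free local `𝒪`-algebra has a finite strict family
                              of `p`-adic points.
* `TraceFnStatement` (TRFN)   the traces of the S30-representations at the points glue to a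
                              function `GQ → T` (Frobenius division + strictness + completeness).
* `DescentStatement` (DESC)   Wiles/Carayol descent: representations at a strict family of points
                              with traces in `T` and absolutely irreducible reduction come from
                              a representation over `T`.
* `ResStatement`     (RES)    the reductions at the points are absolutely irreducible.
* `OddStatement`     (ODD)    the representations at the points are odd.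

Plan, owners, status: `coord/S59-G4.md` on `origin/helper7`.
Only sorry-free definitions in this file; it is FROZEN once on main.
-/

set_option autoImplicit false

open Polynomial IsLocalRing

namespace Fermat.Agent.S59.G4

open Fermat.Agent.S31

/-- A `p`-adic point of `T` together with a Galois representation over its coefficient ring. -/
structure RepPoint (p : ℕ) (T : Type) [CommRing T] : Type 1 where
  /-- the point -/
  pt : PadicPoint p T
  /-- the representation -/
  ρ : GaloisRepAdic pt.O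

/-- The family of points is **strict**: the topology induced on `T` by the points is the
`𝔪_T`-adic one.  (For a Noetherian local `T` this implies joint injectivity.) -/
def IsStrict {p : ℕ} {T : Type} [CommRing T] [IsLocalRing T] (F : List (PadicPoint p T)) : Prop :=
  ∀ n : ℕ, ∃ n' : ℕ, ∀ t : T,
    (∀ P ∈ F, P.χ t ∈ maximalIdeal P.O ^ n') → t ∈ maximalIdeal T ^ n

/-- Frobenius condition: `ρ` over `A` has the Hecke characteristic polynomials given by
`φ : 𝕋 → A` at all primes `ℓ ∉ S`, `ℓ ∤ N`. -/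
def FrobCond {N : ℕ} [NeZero N] {S : Set ℕ} {A : Type} [CommRing A] [IsLocalRing A]
    (ρ : GaloisRepAdic A) (φ : CuspForm.heckeAlgebra N 2 S →+* A) : Prop :=
  ∀ (ℓ : ℕ) (hℓ : ℓ.Prime) (hℓN : ¬ ℓ ∣ N) (hℓS : ℓ ∉ S),
    ∀ B : ValuationSubring Qb, B.LiesOverPrime ℓ →
      ∀ σ : GQ, B.IsFrobeniusAt σ ℓ →
        LinearMap.charpoly (ρ.ρ σ) =
          X ^ 2 - C (φ (CuspForm.heckeAlgebra.T hℓ hℓN hℓS)) * X + C ((ℓ : A))

/-- The same for a residual representation. -/
def ResFrobCond {N : ℕ} [NeZero N] {S : Set ℕ} {k : Type} [Field k]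
    (ρ : ResidualGaloisRep k) (φ : CuspForm.heckeAlgebra N 2 S →+* k) : Prop :=
  ∀ (ℓ : ℕ) (hℓ : ℓ.Prime) (hℓN : ¬ ℓ ∣ N) (hℓS : ℓ ∉ S),
    ∀ B : ValuationSubring Qb, B.LiesOverPrime ℓ →
      ∀ σ : GQ, B.IsFrobeniusAt σ ℓ →
        LinearMap.charpoly (ρ.ρ σ) =
          X ^ 2 - C (φ (CuspForm.heckeAlgebra.T hℓ hℓN hℓS)) * X + C ((ℓ : k))

/-- `θ` is **non-Eisenstein**: it is the Frobenius character of an absolutely irreducible
residual representation. -/
def NonEisenstein {N : ℕ} [NeZero N] {S : Set ℕ} {k : Type} [Field k]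
    (θ : CuspForm.heckeAlgebra N 2 S →+* k) : Prop :=
  ∃ ρbar : ResidualGaloisRep k, ρbar.IsAbsolutelyIrreducible ∧ ResFrobCond ρbar θ

/-! ## The pieces -/

/-- **RED.** The local Hecke algebra is reduced (from the reducedness of the anemic Hecke
algebra, `Fermat.Agent.S31.H838.ssStatement`, by base change and localisation). -/
def RedStatement : Prop :=
  ∀ (N : ℕ) [NeZero N] (S : Set ℕ), (∀ q : ℕ, q.Prime → q ∣ N → q ∈ S) →
    ∀ (𝒪 : Type) [CommRing 𝒪] [IsDomain 𝒪] [IsDiscreteValuationRing 𝒪]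
      [IsAdicComplete (maximalIdeal 𝒪) 𝒪] [CharZero 𝒪]
      (θ : CuspForm.heckeAlgebra N 2 S →+* ResidueField 𝒪),
      IsReduced (CuspForm.heckeLocal N S 𝒪 θ)

/-- **POINTS.** A reduced local ring which is a finite free algebra over a complete DVR `𝒪`
(characteristic zero, finite residue field of characteristic `p`) has a finite strict family of
`p`-adic points, all of them local homomorphisms. -/
def PointsStatement : Prop :=
  ∀ (p : ℕ) [Fact p.Prime] (𝒪 : Type) [CommRing 𝒪] [IsDomain 𝒪] [IsDiscreteValuationRing 𝒪]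
    [IsAdicComplete (maximalIdeal 𝒪) 𝒪] [Finite (ResidueField 𝒪)] [CharZero 𝒪]
    (_hp𝒪 : (p : 𝒪) ∈ maximalIdeal 𝒪)
    (T : Type) [CommRing T] [IsLocalRing T] [Algebra 𝒪 T] [Module.Finite 𝒪 T] [Module.Free 𝒪 T]
    [IsReduced T],
    ∃ F : List (PadicPoint p T), IsStrict F ∧ ∀ P ∈ F, IsLocalHom P.χ

section Local

variable {p : ℕ} {T : Type} [CommRing T] [IsLocalRing T]

/-- The traces of the representations at the points glue to a function with values in `T`. -/
def HasTraceFn (F : List (RepPoint p T)) : Prop :=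
  ∃ τ : GQ → T, ∀ P ∈ F, ∀ σ : GQ, P.pt.χ (τ σ) = LinearMap.trace P.pt.O P.ρ.V (P.ρ.ρ σ)

/-- `ρ` over `T` specialises to the given representations at all points of the family (on the
level of characteristic polynomials). -/
def Specialises (ρ : GaloisRepAdic T) (F : List (RepPoint p T)) : Prop :=
  ∀ P ∈ F, ∀ σ : GQ,
    (LinearMap.charpoly (ρ.ρ σ)).map P.pt.χ = LinearMap.charpoly (P.ρ.ρ σ)

end Local

/-- **TRFN.** For a strict family of points of a complete Noetherian local ring `T` with Hecke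
structure `π : 𝕋 → T`, representations at the points satisfying the Frobenius condition have a
`T`-valued trace function. -/
def TraceFnStatement : Prop :=
  ∀ (p : ℕ) [Fact p.Prime] (N : ℕ) [NeZero N] (S : Finset ℕ)
    (T : Type) [CommRing T] [IsLocalRing T] [IsNoetherianRing T]
    [IsAdicComplete (maximalIdeal T) T]
    (π : CuspForm.heckeAlgebra N 2 (↑S : Set ℕ) →+* T)
    (F : List (RepPoint p T)), IsStrict (F.map RepPoint.pt) →
    (∀ P ∈ F, IsLocalHom P.pt.χ) →
    (∀ P ∈ F, FrobCond P.ρ (P.pt.χ.comp π)) → HasTraceFn F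

/-- **DESC.** (`p` odd.)  Given a nonempty strict family of points of the complete Noetherian
local ring `T`, representations at the points with determinant `-1` on every involution `≠ 1`
(oddness), with a `T`-valued trace function and absolutely irreducible reductions, there is a
representation over `T` specialising to all of them, with absolutely irreducible reduction. -/
def DescentStatement : Prop :=
  ∀ (p : ℕ) [Fact p.Prime] (_hp2 : p ≠ 2)
    (T : Type) [CommRing T] [IsLocalRing T] [IsNoetherianRing T]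
    [IsAdicComplete (maximalIdeal T) T]
    (F : List (RepPoint p T)), F ≠ [] → IsStrict (F.map RepPoint.pt) →
    (∀ P ∈ F, IsLocalHom P.pt.χ) →
    (∀ P ∈ F, ∀ c : GQ, c * c = 1 → c ≠ 1 → LinearMap.det (P.ρ.ρ c) = -1) →
    (∀ P ∈ F, P.ρ.residual.IsAbsolutelyIrreducible) →
    HasTraceFn F →
    ∃ ρ : GaloisRepAdic T, Specialises ρ F ∧ ρ.residual.IsAbsolutelyIrreducible

/-- **RES.** A representation over a complete DVR whose Frobenius characteristic polynomials
reduce to those of a non-Eisenstein `θ` has absolutely irreducible reduction.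
(Frobenius division + Brauer–Nesbitt for 2-dimensional representations with an absolutely
irreducible member.) -/
def ResStatement : Prop :=
  ∀ (p : ℕ) [Fact p.Prime] (_hp2 : p ≠ 2) (N : ℕ) [NeZero N] (S : Finset ℕ) (_hpS : p ∈ S)
    (O : Type) [CommRing O] [IsDomain O] [IsDiscreteValuationRing O]
    [IsAdicComplete (maximalIdeal O) O] [Finite (ResidueField O)] [CharZero O]
    (_hpO : (p : O) ∈ maximalIdeal O)
    (χ : CuspForm.heckeAlgebra N 2 (↑S : Set ℕ) →+* O)
    (_hθ : NonEisenstein ((residue O).comp χ))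
    (ρ : GaloisRepAdic O), FrobCond ρ χ → ρ.residual.IsAbsolutelyIrreducible

/-- **ODD.** A representation over a complete DVR with `det ρ(Frob_ℓ) = ℓ` for all primes
`ℓ ∉ S` (`p ∈ S`) has determinant `-1` on every involution `c ≠ 1` of `Gal(ℚ̄/ℚ)`.
(`det = ` cyclotomic by Frobenius division; an involution `≠ 1` inverts the roots of unity of
odd order: its fixed field `F` has `[ℚ̄ : F] = 2`, `-1` is not a square in `F` and sums of squares
of `F` are squares.) -/
def OddStatement : Prop :=
  ∀ (p : ℕ) [Fact p.Prime] (_hp2 : p ≠ 2) (N : ℕ) [NeZero N] (S : Finset ℕ) (_hpS : p ∈ S)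
    (O : Type) [CommRing O] [IsDomain O] [IsDiscreteValuationRing O]
    [IsAdicComplete (maximalIdeal O) O] [Finite (ResidueField O)] [CharZero O]
    (_hpO : (p : O) ∈ maximalIdeal O)
    (χ : CuspForm.heckeAlgebra N 2 (↑S : Set ℕ) →+* O)
    (ρ : GaloisRepAdic O), FrobCond ρ χ →
    ∀ c : GQ, c * c = 1 → c ≠ 1 → LinearMap.det (ρ.ρ c) = -1

/-! ## The goal -/

/-- **G4.** Existence of the Hecke–Galois datum on the Prelude ring `heckeLocal`. -/
def G4Statement : Prop :=
  ∀ (p : ℕ) [Fact p.Prime] (_hp2 : p ≠ 2) (N : ℕ) [NeZero N] (S : Finset ℕ) (_hpS : p ∈ S)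
    (_hNS : ∀ q : ℕ, q.Prime → q ∣ N → q ∈ S)
    (𝒪 : Type) [CommRing 𝒪] [IsDomain 𝒪] [IsDiscreteValuationRing 𝒪]
    [IsAdicComplete (maximalIdeal 𝒪) 𝒪] [Finite (ResidueField 𝒪)] [CharZero 𝒪]
    (_hp𝒪 : (p : 𝒪) ∈ maximalIdeal 𝒪)
    (θ : CuspForm.heckeAlgebra N 2 (↑S : Set ℕ) →+* ResidueField 𝒪) (_hθ : NonEisenstein θ)
    [Fact (CuspForm.HasIntegralStructure N 2)],
    ∃ H : CuspForm.HeckeGaloisRepDatum N (↑S : Set ℕ) 𝒪 θ
        (CuspForm.heckeLocal N (↑S : Set ℕ) 𝒪 θ),
      H.π = CuspForm.heckeLocal.π N (↑S : Set ℕ) 𝒪 θ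

end Fermat.Agent.S59.G4

end
-- ===== PACK-END S59/G4/Spec.lean

-- ===== PACK-BEGIN S28/H988/Purity.lean
section
/-
S28 / [L.UP] upper bound, helper988.
Newton-polygon purity for monic polynomials over `k⸨X⸩` (Mathlib only):
* `IsPure G s`: `G` is monic and its Newton polygon is the single segment of slope `s`.
* `IsPure.isCoprime`: pure polynomials of different slopes are coprime.
* `isPure_of_root`: a monic polynomial of degree `p` with coefficients of order divisible by `p`
  and with a root of order `-1` is pure of slope `-1`.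
-/



set_option autoImplicit false

noncomputable section

open Polynomial

namespace Fermat.Agent.S28.H988

variable {k : Type*} [Field k]

/-- A Laurent series of non-negative order is a power series. -/
theorem mem_range_algebraMap_of_orderTop_nonneg (f : LaurentSeries k) (h : 0 ≤ f.orderTop) :
    f ∈ Set.range (algebraMap (PowerSeries k) (LaurentSeries k)) := by
  refine ⟨PowerSeries.mk fun n => f.coeff n, ?_⟩
  rw [LaurentSeries.coe_algebraMap]
  ext n
  rcases le_or_gt 0 n with hn | hn
  · lift n to ℕ using hn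
    rw [HahnSeries.ofPowerSeries_apply_coeff, PowerSeries.coeff_mk]
  · have h1 : ((HahnSeries.ofPowerSeries ℤ k) (PowerSeries.mk fun n => f.coeff n)).coeff n = 0 := by
      rw [HahnSeries.ofPowerSeries_apply]
      apply HahnSeries.embDomain_of_notMem_range
      rintro ⟨m, hm⟩
      have : (0 : ℤ) ≤ n := by rw [← hm]; exact Int.natCast_nonneg m
      omega
    rw [h1]
    symm
    apply HahnSeries.coeff_eq_zero_of_lt_orderTop
    refine lt_of_lt_of_le ?_ h
    exact_mod_cast hn

/-- `G` is pure of slope `s`: monic, the coefficient of `X ^ i` has order at least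
`(deg G - i) * s`, with equality for `i = 0`. -/
structure IsPure (G : Polynomial (LaurentSeries k)) (s : ℤ) : Prop where
  monic : G.Monic
  le_coeff : ∀ i : ℕ, ((((G.natDegree : ℤ) - i) * s : ℤ) : WithTop ℤ) ≤ (G.coeff i).orderTop
  coeff_zero : (G.coeff 0).orderTop = (((G.natDegree : ℤ) * s : ℤ) : WithTop ℤ)

theorem orderTop_single_one (n : ℤ) :
    (HahnSeries.single n (1 : k)).orderTop = (n : WithTop ℤ) :=
  HahnSeries.orderTop_single one_ne_zero

theorem single_pow_one (n : ℤ) (m : ℕ) :
    (HahnSeries.single n (1 : k)) ^ m = HahnSeries.single ((m : ℤ) * n) (1 : k) := by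
  induction m with
  | zero => simp
  | succ m ih =>
    rw [pow_succ, ih, HahnSeries.single_mul_single, mul_one]
    congr 1
    push_cast
    ring_nf

theorem isUnit_single_one (n : ℤ) : IsUnit (HahnSeries.single n (1 : k)) := by
  refine IsUnit.of_mul_eq_one (HahnSeries.single (-n) (1 : k)) ?_
  rw [HahnSeries.single_mul_single, mul_one, add_neg_cancel]
  rfl

/-- order of the coefficients of the rescaled polynomial -/
theorem orderTop_coeff_scaleRoots (G : Polynomial (LaurentSeries k)) (t : ℤ) (i : ℕ)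
    (hi : i ≤ G.natDegree) :
    ((G.scaleRoots (HahnSeries.single t (1 : k))).coeff i).orderTop =
      (G.coeff i).orderTop + ((((G.natDegree : ℤ) - i) * t : ℤ) : WithTop ℤ) := by
  rw [coeff_scaleRoots, HahnSeries.orderTop_mul, single_pow_one, orderTop_single_one]
  congr 2
  push_cast [Nat.cast_sub hi]
  ring

/-- Pure polynomials of different slopes are coprime (auxiliary ordered version). -/
theorem IsPure.isCoprime_of_lt {G₁ G₂ : Polynomial (LaurentSeries k)} {s₁ s₂ : ℤ}
    (h₁ : IsPure G₁ s₁) (h₂ : IsPure G₂ s₂) (hs : s₁ < s₂) : IsCoprime G₁ G₂ := by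
  set u : LaurentSeries k := HahnSeries.single (-s₁) (1 : k) with hu
  set u' : LaurentSeries k := HahnSeries.single s₁ (1 : k) with hu'
  have huu' : u * u' = 1 := by
    rw [hu, hu', HahnSeries.single_mul_single, mul_one, neg_add_cancel]; rfl
  suffices h : IsCoprime (G₁.scaleRoots u) (G₂.scaleRoots u) by
    have := isCoprime_scaleRoots _ _ u' (isUnit_single_one s₁) h
    rwa [← scaleRoots_mul, ← scaleRoots_mul, huu', scaleRoots_one, scaleRoots_one] at this
  -- orders of the coefficients
  have o1 : ∀ i, (0 : WithTop ℤ) ≤ ((G₁.scaleRoots u).coeff i).orderTop := by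
    intro i
    rcases le_or_gt i G₁.natDegree with hi | hi
    · rw [orderTop_coeff_scaleRoots G₁ (-s₁) i hi]
      have := h₁.le_coeff i
      calc (0 : WithTop ℤ) = (((((G₁.natDegree : ℤ) - i) * s₁ : ℤ)) : WithTop ℤ)
            + ((((G₁.natDegree : ℤ) - i) * (-s₁) : ℤ) : WithTop ℤ) := by
              rw [← WithTop.coe_add]; norm_cast; ring
        _ ≤ _ := by gcongr
    · rw [coeff_eq_zero_of_natDegree_lt (by rwa [natDegree_scaleRoots]), HahnSeries.orderTop_zero]
      exact le_top
  have o1' : ((G₁.scaleRoots u).coeff 0).orderTop = 0 := by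
    rw [orderTop_coeff_scaleRoots G₁ (-s₁) 0 (Nat.zero_le _), h₁.coeff_zero, ← WithTop.coe_add]
    have h0 : ((G₁.natDegree : ℤ) * s₁ + ((G₁.natDegree : ℤ) - ((0 : ℕ) : ℤ)) * (-s₁)) = 0 := by
      push_cast; ring
    rw [h0]
    rfl
  have o2 : ∀ i, i < G₂.natDegree → (0 : WithTop ℤ) < ((G₂.scaleRoots u).coeff i).orderTop := by
    intro i hi
    rw [orderTop_coeff_scaleRoots G₂ (-s₁) i hi.le]
    have := h₂.le_coeff i
    have hpos : (0 : ℤ) < ((G₂.natDegree : ℤ) - i) * s₂ + ((G₂.natDegree : ℤ) - i) * (-s₁) := by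
      have h1 : (0 : ℤ) < (G₂.natDegree : ℤ) - i := by
        have : (i : ℤ) < G₂.natDegree := by exact_mod_cast hi
        linarith
      have h2 : (0 : ℤ) < s₂ - s₁ := by linarith
      nlinarith [mul_pos h1 h2]
    calc (0 : WithTop ℤ) < (((((G₂.natDegree : ℤ) - i) * s₂
            + ((G₂.natDegree : ℤ) - i) * (-s₁) : ℤ)) : WithTop ℤ) := by exact_mod_cast hpos
      _ = (((((G₂.natDegree : ℤ) - i) * s₂ : ℤ)) : WithTop ℤ)
            + ((((G₂.natDegree : ℤ) - i) * (-s₁) : ℤ) : WithTop ℤ) := by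
              rw [← WithTop.coe_add]
      _ ≤ _ := by gcongr
  have o2' : ∀ i, (0 : WithTop ℤ) ≤ ((G₂.scaleRoots u).coeff i).orderTop := by
    intro i
    rcases lt_trichotomy i G₂.natDegree with hi | hi | hi
    · exact (o2 i hi).le
    · have hm : (G₂.scaleRoots u).Monic := (monic_scaleRoots_iff u).mpr h₂.monic
      have : (G₂.scaleRoots u).coeff i = 1 := by
        rw [hi, ← natDegree_scaleRoots G₂ u]; exact hm.coeff_natDegree
      rw [this, HahnSeries.orderTop_one]
    · rw [coeff_eq_zero_of_natDegree_lt (by rwa [natDegree_scaleRoots]), HahnSeries.orderTop_zero]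
      exact le_top
  -- lift to power series
  have l1 : G₁.scaleRoots u ∈ lifts (algebraMap (PowerSeries k) (LaurentSeries k)) :=
    (lifts_iff_coeff_lifts _).mpr fun i => mem_range_algebraMap_of_orderTop_nonneg _ (o1 i)
  have l2 : G₂.scaleRoots u ∈ lifts (algebraMap (PowerSeries k) (LaurentSeries k)) :=
    (lifts_iff_coeff_lifts _).mpr fun i => mem_range_algebraMap_of_orderTop_nonneg _ (o2' i)
  obtain ⟨g₁, hg₁, hd₁, hm₁⟩ :=
    lifts_and_natDegree_eq_and_monic l1 ((monic_scaleRoots_iff u).mpr h₁.monic)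
  obtain ⟨g₂, hg₂, hd₂, hm₂⟩ :=
    lifts_and_natDegree_eq_and_monic l2 ((monic_scaleRoots_iff u).mpr h₂.monic)
  have key : ∀ (g : Polynomial (PowerSeries k)) (i : ℕ),
      PowerSeries.constantCoeff (g.coeff i) =
        ((g.map (algebraMap (PowerSeries k) (LaurentSeries k))).coeff i).coeff 0 := by
    intro g i
    rw [coeff_map, LaurentSeries.coe_algebraMap]
    have := HahnSeries.ofPowerSeries_apply_coeff (Γ := ℤ) (g.coeff i) 0
    rw [Nat.cast_zero] at this
    rw [this, PowerSeries.coeff_zero_eq_constantCoeff]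
  rw [← hg₁, ← hg₂]
  refine isCoprime_map_of_reduction g₁ g₂ hm₁ hm₂ ?_ ?_
  · rw [key, hg₁]
    exact HahnSeries.coeff_orderTop_ne (by rw [o1']; rfl)
  · intro i hi
    rw [key, hg₂]
    apply HahnSeries.coeff_eq_zero_of_lt_orderTop
    have := o2 i (by rwa [hd₂, natDegree_scaleRoots] at hi)
    exact_mod_cast this

/-- Pure polynomials of different slopes are coprime. -/
theorem IsPure.isCoprime {G₁ G₂ : Polynomial (LaurentSeries k)} {s₁ s₂ : ℤ}
    (h₁ : IsPure G₁ s₁) (h₂ : IsPure G₂ s₂) (hs : s₁ ≠ s₂) : IsCoprime G₁ G₂ := by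
  rcases lt_or_gt_of_ne hs with h | h
  · exact h₁.isCoprime_of_lt h₂ h
  · exact (h₂.isCoprime_of_lt h₁ h).symm

/-- order of a nonzero element as an integer -/
theorem exists_orderTop_eq (f : LaurentSeries k) (hf : f ≠ 0) :
    ∃ m : ℤ, f.orderTop = (m : WithTop ℤ) := by
  have : f.orderTop ≠ ⊤ := HahnSeries.orderTop_ne_top.mpr hf
  obtain ⟨m, hm⟩ := WithTop.ne_top_iff_exists.mp this
  exact ⟨m, hm.symm⟩

theorem orderTop_pow_of_eq (y : LaurentSeries k) (a : ℤ) (hy : y.orderTop = (a : WithTop ℤ))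
    (i : ℕ) : (y ^ i).orderTop = (((i : ℤ) * a : ℤ) : WithTop ℤ) := by
  induction i with
  | zero => simp
  | succ i ih =>
    rw [pow_succ, HahnSeries.orderTop_mul, ih, hy, ← WithTop.coe_add]
    congr 1
    push_cast
    ring

/-- **Purity from a root of order `-1`.** A monic polynomial of degree `p` whose coefficients
have order divisible by `p` and which has a root of order `-1` is pure of slope `-1`. -/
theorem isPure_of_root (p : ℕ) (P : Polynomial (LaurentSeries k)) (hmonic : P.Monic)
    (hdeg : P.natDegree = p)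
    (hrange : ∀ i, P.coeff i ≠ 0 → ∃ n : ℤ, (P.coeff i).orderTop = (((p : ℤ) * n : ℤ) : WithTop ℤ))
    (y : LaurentSeries k) (hy : y.orderTop = ((-1 : ℤ) : WithTop ℤ)) (hroot : P.eval y = 0) :
    IsPure P (-1) := by
  classical
  set a : ℕ → LaurentSeries k := fun i => P.coeff i * y ^ i with ha
  have hsum : ∑ i ∈ Finset.range (p + 1), a i = 0 := by
    rw [← hroot, eval_eq_sum_range, hdeg]
  have hypow : ∀ i : ℕ, (y ^ i).orderTop = ((-(i : ℤ) : ℤ) : WithTop ℤ) := by
    intro i
    rw [orderTop_pow_of_eq y (-1) hy i]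
    congr 1
    ring
  have hord : ∀ i, (a i).orderTop = (P.coeff i).orderTop + ((-(i : ℤ) : ℤ) : WithTop ℤ) := by
    intro i
    rw [ha, HahnSeries.orderTop_mul, hypow]
  have hva : ∀ i, a i ≠ 0 → ∃ n : ℤ, (a i).orderTop = (((p : ℤ) * n - i : ℤ) : WithTop ℤ) := by
    intro i hi
    have hc : P.coeff i ≠ 0 := by
      intro h0
      apply hi
      rw [ha]
      simp only [h0, zero_mul]
    obtain ⟨n, hn⟩ := hrange i hc
    refine ⟨n, ?_⟩
    rw [hord, hn, ← WithTop.coe_add]
    congr 1
  have hap : (a p).orderTop = ((-(p : ℤ) : ℤ) : WithTop ℤ) := by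
    have h1 : P.coeff p = 1 := by rw [← hdeg]; exact hmonic.coeff_natDegree
    rw [ha]
    simp only [h1, one_mul]
    exact hypow p
  -- a minimal index
  obtain ⟨i₀, hi₀, hmin⟩ := Finset.exists_min_image (Finset.range (p + 1))
    (fun i => (a i).orderTop) ⟨p, Finset.mem_range.mpr (Nat.lt_succ_self p)⟩
  have hpmem : p ∈ Finset.range (p + 1) := Finset.mem_range.mpr (Nat.lt_succ_self p)
  have hg_le : (a i₀).orderTop ≤ ((-(p : ℤ) : ℤ) : WithTop ℤ) := by
    rw [← hap]; exact hmin p hpmem
  have hg_ne_top : (a i₀).orderTop ≠ ⊤ := by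
    intro h
    rw [h] at hg_le
    exact absurd hg_le (by simp)
  have hai₀ : a i₀ ≠ 0 := HahnSeries.orderTop_ne_top.mp hg_ne_top
  -- a second index with the same order
  have hex : ∃ i₁ ∈ Finset.range (p + 1), i₁ ≠ i₀ ∧ (a i₁).orderTop = (a i₀).orderTop := by
    by_contra hcon
    push Not at hcon
    have hlt : ∀ i ∈ (Finset.range (p + 1)).erase i₀, (a i₀).orderTop < (a i).orderTop := by
      intro i hi
      have hi' := Finset.mem_erase.mp hi
      exact lt_of_le_of_ne (hmin i hi'.2) (fun h => hcon i hi'.2 hi'.1 h.symm)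
    have h1 := (HahnSeries.addVal ℤ k).map_lt_sum hg_ne_top
      (s := (Finset.range (p + 1)).erase i₀) (f := a) (by
        intro i hi
        rw [HahnSeries.addVal_apply]
        exact hlt i hi)
    have h2 : ∑ i ∈ (Finset.range (p + 1)).erase i₀, a i = - a i₀ := by
      have := Finset.add_sum_erase (Finset.range (p + 1)) a hi₀
      rw [hsum] at this
      exact eq_neg_of_add_eq_zero_right this
    rw [h2, HahnSeries.addVal_apply, HahnSeries.orderTop_neg] at h1
    exact lt_irrefl _ h1
  obtain ⟨i₁, hi₁, hne, heq⟩ := hex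
  have hai₁ : a i₁ ≠ 0 := by
    apply HahnSeries.orderTop_ne_top.mp
    rw [heq]; exact hg_ne_top
  obtain ⟨n₀, hn₀⟩ := hva i₀ hai₀
  obtain ⟨n₁, hn₁⟩ := hva i₁ hai₁
  have hi₀le : i₀ ≤ p := Nat.lt_succ_iff.mp (Finset.mem_range.mp hi₀)
  have hi₁le : i₁ ≤ p := Nat.lt_succ_iff.mp (Finset.mem_range.mp hi₁)
  have hrel : (p : ℤ) * n₁ - i₁ = (p : ℤ) * n₀ - i₀ := by
    have := heq
    rw [hn₀, hn₁] at this
    exact_mod_cast this
  have hcases : (i₀ = 0 ∧ i₁ = p) ∨ (i₀ = p ∧ i₁ = 0) := by
    have hd : (p : ℤ) * (n₁ - n₀) = (i₁ : ℤ) - i₀ := by linarith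
    have h0 : (0 : ℤ) ≤ i₀ := Int.natCast_nonneg _
    have h1 : (0 : ℤ) ≤ i₁ := Int.natCast_nonneg _
    have h0' : (i₀ : ℤ) ≤ p := by exact_mod_cast hi₀le
    have h1' : (i₁ : ℤ) ≤ p := by exact_mod_cast hi₁le
    have hne' : (i₁ : ℤ) ≠ i₀ := by exact_mod_cast hne
    have hp0 : (0 : ℤ) ≤ p := Int.natCast_nonneg _
    rcases lt_trichotomy (n₁ - n₀) 0 with hneg | hzero | hpos
    · have : (p : ℤ) * (n₁ - n₀) ≤ -(p : ℤ) := by nlinarith
      right
      constructor
      · have : (i₀ : ℤ) = p := by linarith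
        exact_mod_cast this
      · have : (i₁ : ℤ) = 0 := by linarith
        exact_mod_cast this
    · rw [hzero, mul_zero] at hd
      exact absurd (by linarith) hne'
    · have : (p : ℤ) ≤ (p : ℤ) * (n₁ - n₀) := by nlinarith
      left
      constructor
      · have : (i₀ : ℤ) = 0 := by linarith
        exact_mod_cast this
      · have : (i₁ : ℤ) = p := by linarith
        exact_mod_cast this
  have hg : (a i₀).orderTop = ((-(p : ℤ) : ℤ) : WithTop ℤ) := by
    rcases hcases with ⟨_, h⟩ | ⟨h, _⟩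
    · rw [← heq, h, hap]
    · rw [h, hap]
  have ha0 : (a 0).orderTop = ((-(p : ℤ) : ℤ) : WithTop ℤ) := by
    rcases hcases with ⟨h, _⟩ | ⟨_, h⟩
    · rw [← h, hg]
    · rw [← h, heq, hg]
  refine ⟨hmonic, ?_, ?_⟩
  · intro i
    rcases le_or_gt i p with hi | hi
    · by_cases hc : P.coeff i = 0
      · rw [hc, HahnSeries.orderTop_zero]; exact le_top
      · obtain ⟨m, hm⟩ := exists_orderTop_eq _ hc
        have h1 : (a i₀).orderTop ≤ (a i).orderTop :=
          hmin i (Finset.mem_range.mpr (Nat.lt_succ_of_le hi))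
        rw [hg, hord, hm, ← WithTop.coe_add] at h1
        have h2 : -(p : ℤ) ≤ m + -(i : ℤ) := by exact_mod_cast h1
        rw [hm, hdeg]
        have h3 : ((p : ℤ) - i) * (-1) ≤ m := by linarith
        exact_mod_cast h3
    · rw [coeff_eq_zero_of_natDegree_lt (by rwa [hdeg]), HahnSeries.orderTop_zero]
      exact le_top
  · have h0 : a 0 = P.coeff 0 := by rw [ha]; simp
    rw [← h0, ha0, hdeg]
    congr 1
    ring

end Fermat.Agent.S28.H988

end

end
-- ===== PACK-END S28/H988/Purity.lean

-- ===== PACK-BEGIN S19/H495/FieldRank.lean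
section
/-
A3 / S19 — WP-W6alg (helper495): rank and minors over a field.

* minors of size larger than the rank vanish;
* a matrix of rank `r` has a nonzero `r × r` minor, and has constant rank at that pivot;
* a matrix over a ring mapping injectively to a field has constant rank at a unit pivot as soon
  as the size of the pivot is the rank over the field.
-/



set_option linter.unusedSectionVars false
set_option linter.unusedSimpArgs false
set_option linter.style.longLine false
set_option linter.style.haveILetI false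

namespace Fermat.Agent.S19.H495

open Matrix Module

variable {K : Type*} [Field K]
variable {m n ι : Type*} [Fintype m] [Fintype n] [Fintype ι] [DecidableEq m] [DecidableEq n]
  [DecidableEq ι]

/-- Minors of size larger than the rank vanish. -/
theorem det_submatrix_eq_zero_of_rank_lt (A : Matrix m n K) (p : ι → m) (q : ι → n)
    (h : A.rank < Fintype.card ι) : (A.submatrix p q).det = 0 := by
  by_contra hne
  have h1 : (A.submatrix p q).rank = Fintype.card ι := Matrix.rank_of_det_ne_zero hne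
  have h2 := Matrix.rank_submatrix_le A p q
  omega

/-- If the columns `q` of `A` are linearly independent, some square block on these columns has
nonzero determinant. -/
theorem exists_rows_of_linearIndependent_cols (A : Matrix m n K) (q : ι → n)
    (hq : LinearIndependent K (fun a => A.col (q a))) :
    ∃ p : ι → m, (A.submatrix p q).det ≠ 0 := by
  -- C = A[·, q], an `m × ι` matrix with independent columns, so of rank `card ι`
  set C : Matrix m ι K := A.submatrix id q with hC
  have hCcol : C.col = fun a => A.col (q a) := rfl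
  have hrank : C.rank = Fintype.card ι := by
    rw [← Matrix.rank_transpose]
    apply LinearIndependent.rank_matrix
    rw [Matrix.row_transpose, hCcol]
    exact hq
  -- choose independent rows of C
  obtain ⟨κ, a, ha, hspan, hli⟩ := exists_linearIndependent' K C.row
  have : _root_.Finite κ := _root_.Finite.of_injective a ha
  let _ : Fintype κ := Fintype.ofFinite κ
  have hcard : Fintype.card κ = Fintype.card ι := by
    rw [← finrank_span_eq_card hli, hspan, ← hrank, Matrix.rank_eq_finrank_span_row]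
  let e : ι ≃ κ := (Fintype.equivOfCardEq hcard).symm
  refine ⟨a ∘ e, ?_⟩
  have hG : A.submatrix (a ∘ e) q = (C.submatrix a id).submatrix e id := rfl
  have hrows : LinearIndependent K (A.submatrix (a ∘ e) q).row := by
    have : (A.submatrix (a ∘ e) q).row = (C.row ∘ a) ∘ e := rfl
    rw [this]
    exact hli.comp e e.injective
  have := Matrix.linearIndependent_rows_iff_isUnit.mp hrows
  exact ((Matrix.isUnit_iff_isUnit_det _).mp this).ne_zero

/-- A matrix of rank `r` over a field has a nonzero `r × r` minor. -/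
theorem exists_det_submatrix_ne_zero (A : Matrix m n K) :
    ∃ (p : Fin A.rank → m) (q : Fin A.rank → n), (A.submatrix p q).det ≠ 0 := by
  obtain ⟨κ, a, ha, hspan, hli⟩ := exists_linearIndependent' K A.col
  have : _root_.Finite κ := _root_.Finite.of_injective a ha
  let _ : Fintype κ := Fintype.ofFinite κ
  have hcard : Fintype.card κ = A.rank := by
    rw [← finrank_span_eq_card hli, hspan, Matrix.rank_eq_finrank_span_cols]
  let e : Fin A.rank ≃ κ := (Fintype.equivFinOfCardEq hcard).symm
  have hq : LinearIndependent K (fun b : Fin A.rank => A.col ((a ∘ e) b)) :=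
    hli.comp e e.injective
  obtain ⟨p, hp⟩ := exists_rows_of_linearIndependent_cols A (a ∘ e) hq
  exact ⟨p, a ∘ e, hp⟩

/-- Over a field, a nonzero minor whose size is at least the rank is a pivot of constant rank. -/
theorem constRankAt_of_rank_le (A : Matrix m n K) (p : ι → m) (q : ι → n)
    (hr : A.rank ≤ Fintype.card ι) (hu : (A.submatrix p q).det ≠ 0) : ConstRankAt A p q := by
  refine ⟨hu.isUnit, fun i j => ?_⟩
  unfold borderedMinor
  apply det_submatrix_eq_zero_of_rank_lt
  simp only [Fintype.card_sum, Fintype.card_unit]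
  omega

/-- Every matrix over a field has constant rank at some pivot of size its rank. -/
theorem exists_constRankAt (A : Matrix m n K) :
    ∃ (p : Fin A.rank → m) (q : Fin A.rank → n), ConstRankAt A p q := by
  obtain ⟨p, q, h⟩ := exists_det_submatrix_ne_zero A
  exact ⟨p, q, constRankAt_of_rank_le A p q (by simp) h⟩

/-- The rank of a matrix of constant rank (over a nontrivial commutative ring) is the size of
the pivot. -/
theorem ConstRankAt.rank_eq {R : Type*} [CommRing R] [Nontrivial R] {A : Matrix m n R}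
    {p : ι → m} {q : ι → n} (h : ConstRankAt A p q) : A.rank = Fintype.card ι := by
  unfold Matrix.rank
  rw [← h.rangeEquiv.finrank_eq, Module.finrank_pi]

/-- Over a field, a nonzero minor is a pivot of constant rank iff its size is the rank. -/
theorem constRankAt_iff_rank_eq (A : Matrix m n K) (p : ι → m) (q : ι → n)
    (hu : (A.submatrix p q).det ≠ 0) : ConstRankAt A p q ↔ A.rank = Fintype.card ι :=
  ⟨fun h => h.rank_eq, fun h => constRankAt_of_rank_le A p q h.le hu⟩

/-- **Generic rank + unit pivot ⇒ constant rank.**  Let `R` be a commutative ring mapping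
injectively to a field `K` (e.g. a valuation ring and its fraction field).  If the rank of `A`
over `K` is at most the size of a pivot with unit determinant in `R`, then `A` has constant rank
at this pivot over `R` — hence over every `R`-algebra, in particular over the residue field. -/
theorem constRankAt_of_rank_map_le {R : Type*} [CommRing R] (f : R →+* K)
    (hf : Function.Injective f) (A : Matrix m n R) (p : ι → m) (q : ι → n)
    (hr : (A.map f).rank ≤ Fintype.card ι) (hu : IsUnit (A.submatrix p q).det) :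
    ConstRankAt A p q := by
  refine ⟨hu, fun i j => ?_⟩
  apply hf
  rw [← borderedMinor_map, _root_.map_zero]
  have hK : ConstRankAt (A.map f) p q := by
    apply constRankAt_of_rank_le _ _ _ hr
    rw [det_submatrix_map]
    exact (hu.map f).ne_zero
  exact hK.2 i j

/-- In the situation of `constRankAt_of_rank_map_le`, the rank is the same over every nontrivial
`R`-algebra `S` (e.g. the residue field): rank is constant. -/
theorem rank_map_eq_of_unit_pivot {R S : Type*} [CommRing R] [CommRing S] [Nontrivial S]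
    (f : R →+* K) (hf : Function.Injective f) (g : R →+* S) (A : Matrix m n R) (p : ι → m)
    (q : ι → n) (hr : (A.map f).rank ≤ Fintype.card ι) (hu : IsUnit (A.submatrix p q).det) :
    (A.map g).rank = Fintype.card ι :=
  ((constRankAt_of_rank_map_le f hf A p q hr hu).map g).rank_eq

end Fermat.Agent.S19.H495

end
-- ===== PACK-END S19/H495/FieldRank.lean

-- ===== PACK-BEGIN S33/H855/TowerGauss.lean
section


/-!
# Row S33, leaf (S1⁺): the class of functions with constant reductions (helper855)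

Pure valuation theory on top of helper129's `GaussTwice` (Mathlib only).

`F` a field, `Kc` the subfield of constants, `V` a valuation subring of `F` (a Gauss valuation).
`ConstOne Kc V f` : `f = c · g` with a nonzero constant `c` and `g ∈ 1 + 𝔪_V`
("the reduction of `f` along `V` is a constant").

* `ConstOne.mul`, `ConstOne.inv`, `constOne_of_mem` : (C1);
* `constOne_tauSubOne` : (C2), from `exists_const_once`;
* `constOne_of_pow` : (C3) root closure: residue characteristic `p` and `Kc` closed under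
  `p`-th roots.
-/

set_option autoImplicit false

namespace Fermat.Agent.S33.H855

open Fermat.Agent.A2.H129

variable {F : Type*} [Field F]

/-- `f` is a nonzero constant times an element of `1 + 𝔪_V`. -/
def ConstOne (Kc : Subfield F) (V : ValuationSubring F) (f : F) : Prop :=
  ∃ c ∈ Kc, c ≠ 0 ∧ OneAddNonunits V (f * c⁻¹)

section basic

variable {Kc : Subfield F} {V : ValuationSubring F}

theorem ConstOne.ne_zero {f : F} (hf : ConstOne Kc V f) : f ≠ 0 := by
  obtain ⟨c, -, -, h⟩ := hf
  rintro rfl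
  have := h.isUnitOf.ne_zero
  simp at this

theorem constOne_of_mem {c : F} (hc : c ∈ Kc) (hc0 : c ≠ 0) : ConstOne Kc V c :=
  ⟨c, hc, hc0, by rw [mul_inv_cancel₀ hc0]; exact OneAddNonunits.one⟩

theorem ConstOne.mul {f g : F} (hf : ConstOne Kc V f) (hg : ConstOne Kc V g) :
    ConstOne Kc V (f * g) := by
  obtain ⟨c, hc, hc0, h1⟩ := hf
  obtain ⟨d, hd, hd0, h2⟩ := hg
  refine ⟨c * d, Kc.mul_mem hc hd, mul_ne_zero hc0 hd0, ?_⟩
  have e : f * g * (c * d)⁻¹ = f * c⁻¹ * (g * d⁻¹) := by
    rw [mul_inv]; ring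
  rw [e]
  exact h1.mul h2

theorem ConstOne.inv {f : F} (hf : ConstOne Kc V f) : ConstOne Kc V f⁻¹ := by
  obtain ⟨c, hc, hc0, h1⟩ := hf
  refine ⟨c⁻¹, Kc.inv_mem hc, inv_ne_zero hc0, ?_⟩
  have e : f⁻¹ * c⁻¹⁻¹ = (f * c⁻¹)⁻¹ := by
    rw [mul_inv]
  rw [e]
  exact h1.inv

/-- (C2) "step I": for every `f ≠ 0`, `τ f / f` has constant reduction. -/
theorem constOne_tauSubOne {τ : F ≃+* F} (hK : ∀ c ∈ Kc, τ c ∈ Kc)
    (hV : HasConstValues Kc V) (hτ : InInertia V τ) {f : F} (hf : f ≠ 0) :
    ConstOne Kc V (tauSubOne τ f) :=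
  exists_const_once hK hV hτ hf

end basic

section root

variable {V : ValuationSubring F}

/-- In residue characteristic `p`: `x ^ (p ^ k) ∈ 1 + 𝔪_V` implies `x ∈ 1 + 𝔪_V`. -/
theorem oneAddNonunits_of_pow {p : ℕ} (hp : p.Prime) (hpV : V.valuation (p : F) < 1) (k : ℕ)
    {x : F} (hx : OneAddNonunits V (x ^ p ^ k)) : OneAddNonunits V x := by
  -- `x` is a unit of `V`
  have hpk : p ^ k ≠ 0 := pow_ne_zero _ hp.ne_zero
  have hx1 : V.valuation x = 1 := by
    have h := hx.isUnitOf
    unfold IsUnitOf at h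
    rw [map_pow] at h
    exact (pow_eq_one_iff.mp h).resolve_right hpk
  have hxV : x ∈ V := (V.valuation_le_one_iff x).mp (le_of_eq hx1)
  -- the residue field has characteristic `p`
  have hpm : ((p : ℕ) : V) ∈ IsLocalRing.maximalIdeal V := by
    rw [ValuationSubring.valuation_lt_one_iff]
    simpa using hpV
  have hp0 : ((p : ℕ) : IsLocalRing.ResidueField V) = 0 := by
    have := (IsLocalRing.residue_eq_zero_iff ((p : ℕ) : V)).mpr hpm
    simpa using this
  have : CharP (IsLocalRing.ResidueField V) p := (CharP.charP_iff_prime_eq_zero hp).mpr hp0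
  have : Fact p.Prime := ⟨hp⟩
  -- the residue of `x ^ (p ^ k)` is `1`
  set xV : V := ⟨x, hxV⟩ with hxVdef
  have h1 : xV ^ p ^ k - 1 ∈ IsLocalRing.maximalIdeal V := by
    rw [ValuationSubring.valuation_lt_one_iff]
    exact hx
  have h2 : IsLocalRing.residue V xV ^ p ^ k = 1 := by
    have := (IsLocalRing.residue_eq_zero_iff (xV ^ p ^ k - 1)).mpr h1
    rw [map_sub, map_pow, map_one, sub_eq_zero] at this
    exact this
  have h3 : (IsLocalRing.residue V xV - 1) ^ p ^ k = 0 := by
    rw [sub_pow_char_pow, h2, one_pow, sub_self]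
  have h4 : IsLocalRing.residue V (xV - 1) = 0 := by
    rw [map_sub, map_one]
    exact pow_eq_zero_iff hpk |>.mp h3
  have h5 := (IsLocalRing.residue_eq_zero_iff (xV - 1)).mp h4
  rw [ValuationSubring.valuation_lt_one_iff] at h5
  exact h5

/-- iterated `p`-th roots in `Kc` -/
theorem exists_pow_pow_eq {Kc : Subfield F} {p : ℕ}
    (hroot : ∀ c ∈ Kc, ∃ d ∈ Kc, d ^ p = c) (k : ℕ) :
    ∀ c ∈ Kc, ∃ d ∈ Kc, d ^ p ^ k = c := by
  induction k with
  | zero => intro c hc; exact ⟨c, hc, by simp⟩
  | succ k ih =>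
    intro c hc
    obtain ⟨d, hd, hdc⟩ := hroot c hc
    obtain ⟨e, he, hed⟩ := ih d hd
    refine ⟨e, he, ?_⟩
    rw [pow_succ, pow_mul, hed, hdc]

/-- (C3) root closure of `ConstOne`. -/
theorem constOne_of_pow {Kc : Subfield F} {p : ℕ} (hp : p.Prime)
    (hpV : V.valuation (p : F) < 1) (hroot : ∀ c ∈ Kc, ∃ d ∈ Kc, d ^ p = c) (k : ℕ)
    {h : F} (hh : ConstOne Kc V (h ^ p ^ k)) : ConstOne Kc V h := by
  obtain ⟨c, hc, hc0, h1⟩ := hh
  obtain ⟨d, hd, hdc⟩ := exists_pow_pow_eq hroot k c hc
  have hd0 : d ≠ 0 := by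
    rintro rfl
    rw [zero_pow (pow_ne_zero _ hp.ne_zero)] at hdc
    exact hc0 hdc.symm
  refine ⟨d, hd, hd0, oneAddNonunits_of_pow hp hpV k ?_⟩
  have e : (h * d⁻¹) ^ p ^ k = h ^ p ^ k * c⁻¹ := by
    rw [mul_pow, inv_pow, hdc]
  rw [e]
  exact h1

end root

end Fermat.Agent.S33.H855

end
-- ===== PACK-END S33/H855/TowerGauss.lean

-- ===== PACK-BEGIN A2/Alg/H348/CompDvr.lean
section


/-!
# A2 / ALG / GLUE, `hconst` part, step 1: the local ring of a component is a discrete valuation ring

Mathlib-only (plus `H348.locAt`).  Abstract setting: `A ≤ B` subalgebras of a field `F` over `R`,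
`p` a prime of `B` ("a component of the special fibre"), `p'` an ideal of `B` ("the union of the
other components") with `p ⊓ p' = (w)` and `p' ⊄ p`.  If moreover

* `p ∩ A = w A`                      (`contract`),
* no nonzero element of `A` is divisible by all powers of `w`   (`finite_mult`),
* every nonzero `b ∈ B` divides a nonzero element of `A` in `B`  (`cofactor`),
* `F` is the fraction field of `B`, with denominators in `A`      (`frac`),

then `B_p = locAt B p` is a valuation subring of `F` (`CompData.valuationSubring`), its maximal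
ideal is generated by `w` (`CompData.mul_inv_mem`) and it is discrete (`CompData.exists_pow_mul`).
No noetherian hypothesis on `B` is needed.
-/

set_option autoImplicit false
set_option linter.unusedSectionVars false
set_option linter.style.haveILetI false

namespace Fermat.Agent.A2.Alg.H348

open Fermat.Agent.A2.H348

variable {R F : Type*} [CommRing R] [Field F] [Algebra R F]

/-- `p` is a component of the special fibre `w = 0` of `B`, `p'` the union of the other ones;
`A ≤ B` is a "base" (polynomial ring) over which `B` is integral. -/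
structure CompData (A B : Subalgebra R F) (p p' : Ideal B) (w : R) : Prop where
  inf_eq : p ⊓ p' = Ideal.span {algebraMap R B w}
  not_le : ¬ p' ≤ p
  w_ne : algebraMap R F w ≠ 0
  contract : ∀ a : B, (a : F) ∈ A → a ∈ p → ∃ a' ∈ A, (a : F) = algebraMap R F w * a'
  finite_mult : ∀ a ∈ A, a ≠ 0 → ∃ n : ℕ, ∀ a' ∈ A, a ≠ algebraMap R F w ^ (n + 1) * a'
  cofactor : ∀ b ∈ B, b ≠ 0 → ∃ g ∈ B, b * g ∈ A ∧ b * g ≠ 0
  frac : ∀ f : F, ∃ a ∈ A, a ≠ 0 ∧ a ∈ B ∧ a * f ∈ B

namespace CompData

variable {A B : Subalgebra R F} {p p' : Ideal B} [hp : p.IsPrime] {w : R}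

theorem w_mem (D : CompData A B p p' w) : algebraMap R B w ∈ p := by
  have h : algebraMap R B w ∈ p ⊓ p' := by
    rw [D.inf_eq]; exact Ideal.mem_span_singleton_self _
  exact h.1

theorem exists_notMem (D : CompData A B p p' w) : ∃ t : B, t ∈ p' ∧ t ∉ p :=
  SetLike.not_le_iff_exists.1 D.not_le

theorem w_inv_notMem (D : CompData A B p p' w) : (algebraMap R F w)⁻¹ ∉ locAt B p := by
  rintro ⟨s, hs, hsw⟩
  apply hs
  have h1 : s = algebraMap R B w * ⟨(s : F) * (algebraMap R F w)⁻¹, hsw⟩ := by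
    apply Subtype.ext
    have hw := D.w_ne
    show (s : F) = algebraMap R F w * ((s : F) * (algebraMap R F w)⁻¹)
    field_simp
  rw [h1]
  exact p.mul_mem_right _ D.w_mem

/-- the maximal ideal of `B_p` is generated by `w`. -/
theorem mul_inv_mem (D : CompData A B p p' w) {f : F} (hf : f ∈ locAt B p)
    (hf' : f⁻¹ ∉ locAt B p) : f * (algebraMap R F w)⁻¹ ∈ locAt B p := by
  obtain ⟨s, hs, hsf⟩ := hf
  by_cases hb : (⟨(s : F) * f, hsf⟩ : B) ∈ p
  · obtain ⟨t, ht', ht⟩ := D.exists_notMem
    have hbt : (⟨(s : F) * f, hsf⟩ : B) * t ∈ p ⊓ p' :=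
      ⟨p.mul_mem_right _ hb, p'.mul_mem_left _ ht'⟩
    rw [D.inf_eq, Ideal.mem_span_singleton'] at hbt
    obtain ⟨c, hc⟩ := hbt
    refine ⟨s * t, fun h => (hp.mem_or_mem h).elim hs ht, ?_⟩
    have hc' : (c : F) * algebraMap R F w = (s : F) * f * (t : F) := congrArg Subtype.val hc
    have hw := D.w_ne
    have : ((s * t : B) : F) * (f * (algebraMap R F w)⁻¹) = (c : F) := by
      have h3 : ((s * t : B) : F) * (f * (algebraMap R F w)⁻¹)
          = ((s : F) * f * (t : F)) * (algebraMap R F w)⁻¹ := by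
        push_cast; ring
      rw [h3, ← hc', mul_assoc, mul_inv_cancel₀ hw, mul_one]
    rw [this]
    exact c.2
  · exfalso
    apply hf'
    have hf0 : f ≠ 0 := by
      rintro rfl
      apply hb
      have : (⟨(s : F) * 0, hsf⟩ : B) = 0 := Subtype.ext (mul_zero _)
      rw [this]
      exact p.zero_mem
    refine ⟨⟨(s : F) * f, hsf⟩, hb, ?_⟩
    show (s : F) * f * f⁻¹ ∈ B
    rw [mul_assoc, mul_inv_cancel₀ hf0, mul_one]
    exact s.2

/-- `B ∩ w B_p = p`. -/
theorem mem_of_eq_w_mul (D : CompData A B p p' w) {b : B} {v : F} (hv : v ∈ locAt B p)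
    (h : (b : F) = algebraMap R F w * v) : b ∈ p := by
  obtain ⟨s, hs, hsv⟩ := hv
  have h1 : s * b = algebraMap R B w * ⟨(s : F) * v, hsv⟩ := by
    apply Subtype.ext
    show (s : F) * (b : F) = algebraMap R F w * ((s : F) * v)
    rw [h]; ring
  have h2 : s * b ∈ p := by
    rw [h1]; exact p.mul_mem_right _ D.w_mem
  exact (hp.mem_or_mem h2).resolve_left hs

/-- `A ∩ w ^ k B_p = w ^ k A`. -/
theorem dvd_of_eq_pow_mul (D : CompData A B p p' w) (hAB : A ≤ B) :
    ∀ (k : ℕ) (a : F), a ∈ A → (∃ v ∈ locAt B p, a = algebraMap R F w ^ k * v) →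
      ∃ a' ∈ A, a = algebraMap R F w ^ k * a' := by
  intro k
  induction k with
  | zero =>
    intro a ha _
    exact ⟨a, ha, by simp⟩
  | succ k ih =>
    rintro a ha ⟨v, hv, hav⟩
    have hwv : algebraMap R F w ^ k * v ∈ locAt B p :=
      (locAt B p).mul_mem ((locAt B p).pow_mem ((locAt B p).algebraMap_mem w) k) hv
    have hmem : (⟨a, hAB ha⟩ : B) ∈ p := D.mem_of_eq_w_mul hwv (by
      show a = algebraMap R F w * (algebraMap R F w ^ k * v)
      rw [hav, pow_succ]; ring)
    obtain ⟨a₁, ha₁, h1⟩ := D.contract ⟨a, hAB ha⟩ ha hmem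
    have h1' : a = algebraMap R F w * a₁ := h1
    have h2 : a₁ = algebraMap R F w ^ k * v := by
      have hw := D.w_ne
      have : algebraMap R F w * a₁ = algebraMap R F w * (algebraMap R F w ^ k * v) := by
        rw [← h1', hav, pow_succ]; ring
      exact mul_left_cancel₀ hw this
    obtain ⟨a', ha', h3⟩ := ih a₁ ha₁ ⟨v, hv, h2⟩
    exact ⟨a', ha', by rw [h1', h3, pow_succ]; ring⟩

/-- a nonzero element of `B` is not divisible by all powers of `w` in `B_p`. -/
theorem exists_bound (D : CompData A B p p' w) (hAB : A ≤ B) {b : F} (hb : b ∈ B)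
    (hb0 : b ≠ 0) :
    ∃ n : ℕ, ¬ ∃ v ∈ locAt B p, b = algebraMap R F w ^ (n + 1) * v := by
  obtain ⟨g, hg, hbgA, hbg0⟩ := D.cofactor b hb hb0
  obtain ⟨n, hn⟩ := D.finite_mult _ hbgA hbg0
  refine ⟨n, ?_⟩
  rintro ⟨v, hv, hbv⟩
  obtain ⟨a', ha', h⟩ := D.dvd_of_eq_pow_mul hAB (n + 1) (b * g) hbgA
    ⟨v * g, (locAt B p).mul_mem hv (le_locAt p hg), by rw [hbv]; ring⟩
  exact hn a' ha' h

theorem exists_pow_mul_aux (D : CompData A B p p' w) :
    ∀ (n : ℕ) (v : F), v ∈ locAt B p →
      (¬ ∃ v' ∈ locAt B p, v = algebraMap R F w ^ (n + 1) * v') →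
      ∃ (k : ℕ) (ε : F), ε ∈ locAt B p ∧ ε⁻¹ ∈ locAt B p ∧ v = algebraMap R F w ^ k * ε := by
  have hw := D.w_ne
  intro n
  induction n with
  | zero =>
    intro v hv hn
    by_cases hv' : v⁻¹ ∈ locAt B p
    · exact ⟨0, v, hv, hv', by simp⟩
    · exfalso
      apply hn
      refine ⟨v * (algebraMap R F w)⁻¹, D.mul_inv_mem hv hv', ?_⟩
      rw [zero_add, pow_one]
      field_simp
  | succ n ih =>
    intro v hv hn
    by_cases hv' : v⁻¹ ∈ locAt B p
    · exact ⟨0, v, hv, hv', by simp⟩
    · have h1 := D.mul_inv_mem hv hv'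
      obtain ⟨k, ε, hε, hε', h⟩ := ih (v * (algebraMap R F w)⁻¹) h1 (by
        rintro ⟨v', hv'', h2⟩
        apply hn
        refine ⟨v', hv'', ?_⟩
        have : v = algebraMap R F w * (v * (algebraMap R F w)⁻¹) := by field_simp
        rw [this, h2, pow_succ (algebraMap R F w) (n + 1)]
        ring)
      refine ⟨k + 1, ε, hε, hε', ?_⟩
      have : v = algebraMap R F w * (v * (algebraMap R F w)⁻¹) := by field_simp
      rw [this, h, pow_succ]
      ring

/-- every nonzero element of `B` is a power of `w` times a unit of `B_p`. -/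
theorem exists_pow_mul (D : CompData A B p p' w) (hAB : A ≤ B) {b : F} (hb : b ∈ B)
    (hb0 : b ≠ 0) :
    ∃ (k : ℕ) (ε : F), ε ∈ locAt B p ∧ ε⁻¹ ∈ locAt B p ∧ b = algebraMap R F w ^ k * ε := by
  obtain ⟨n, hn⟩ := D.exists_bound hAB hb hb0
  exact D.exists_pow_mul_aux n b (le_locAt p hb) hn

/-- every nonzero element of `F` is a power of `w` times a unit of `B_p`. -/
theorem exists_zpow_mul (D : CompData A B p p' w) (hAB : A ≤ B) {f : F} (hf : f ≠ 0) :
    ∃ (k l : ℕ) (ε : F), ε ∈ locAt B p ∧ ε⁻¹ ∈ locAt B p ∧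
      f * algebraMap R F w ^ k = algebraMap R F w ^ l * ε := by
  have hw := D.w_ne
  obtain ⟨a, haA, ha0, haB, haf⟩ := D.frac f
  obtain ⟨k, ε, hε, hε', hk⟩ := D.exists_pow_mul hAB haB ha0
  obtain ⟨l, η, hη, hη', hl⟩ := D.exists_pow_mul hAB haf (mul_ne_zero ha0 hf)
  have hε0 : ε ≠ 0 := by
    rintro rfl
    apply ha0
    rw [hk, mul_zero]
  refine ⟨k, l, η * ε⁻¹, (locAt B p).mul_mem hη hε', ?_, ?_⟩
  · rw [mul_inv, inv_inv]
    exact (locAt B p).mul_mem hη' hε
  · have h1 : f * (algebraMap R F w ^ k * ε) = algebraMap R F w ^ l * η := by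
      rw [← hk, mul_comm f a, hl]
    have h2 : f * algebraMap R F w ^ k = f * (algebraMap R F w ^ k * ε) * ε⁻¹ := by
      field_simp
    rw [h2, h1]
    ring

/-- discreteness. -/
theorem exists_mul_pow_mem (D : CompData A B p p' w) (hAB : A ≤ B) (f : F) :
    ∃ k : ℕ, f * algebraMap R F w ^ k ∈ locAt B p := by
  rcases eq_or_ne f 0 with rfl | hf
  · exact ⟨0, by rw [zero_mul]; exact (locAt B p).zero_mem⟩
  obtain ⟨k, l, ε, hε, -, h⟩ := D.exists_zpow_mul hAB hf
  exact ⟨k, by
    rw [h]
    exact (locAt B p).mul_mem ((locAt B p).pow_mem ((locAt B p).algebraMap_mem w) l) hε⟩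

theorem mem_or_inv_mem (D : CompData A B p p' w) (hAB : A ≤ B) (f : F) :
    f ∈ locAt B p ∨ f⁻¹ ∈ locAt B p := by
  have hw := D.w_ne
  rcases eq_or_ne f 0 with rfl | hf
  · exact Or.inl (locAt B p).zero_mem
  obtain ⟨k, l, ε, hε, hε', h⟩ := D.exists_zpow_mul hAB hf
  have hwmem : ∀ j : ℕ, algebraMap R F w ^ j ∈ locAt B p := fun j =>
    (locAt B p).pow_mem ((locAt B p).algebraMap_mem w) j
  have hε0 : ε ≠ 0 := by
    rintro rfl
    rw [mul_zero] at h
    exact (mul_ne_zero hf (pow_ne_zero _ hw)) h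
  rcases le_total k l with hkl | hkl
  · left
    obtain ⟨d, rfl⟩ := Nat.exists_eq_add_of_le hkl
    have : f = algebraMap R F w ^ d * ε := by
      have h2 : f * algebraMap R F w ^ k = (algebraMap R F w ^ d * ε) * algebraMap R F w ^ k := by
        rw [h, pow_add]; ring
      exact mul_right_cancel₀ (pow_ne_zero _ hw) h2
    rw [this]
    exact (locAt B p).mul_mem (hwmem d) hε
  · right
    obtain ⟨d, rfl⟩ := Nat.exists_eq_add_of_le hkl
    have : f⁻¹ = algebraMap R F w ^ d * ε⁻¹ := by
      have h2 : f * algebraMap R F w ^ d * algebraMap R F w ^ l = ε * algebraMap R F w ^ l := by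
        rw [mul_assoc, ← pow_add, add_comm, h]; ring
      have h3 : f * algebraMap R F w ^ d = ε := mul_right_cancel₀ (pow_ne_zero _ hw) h2
      rw [← h3]
      field_simp
    rw [this]
    exact (locAt B p).mul_mem (hwmem d) hε'

/-- `B_p` as a valuation subring of `F`. -/
def valuationSubring (D : CompData A B p p' w) (hAB : A ≤ B) : ValuationSubring F :=
  { (locAt B p).toSubring with
    mem_or_inv_mem' := D.mem_or_inv_mem hAB }

theorem mem_valuationSubring (D : CompData A B p p' w) (hAB : A ≤ B) {f : F} :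
    f ∈ D.valuationSubring hAB ↔ f ∈ locAt B p := Iff.rfl

end CompData

end Fermat.Agent.A2.Alg.H348

end
-- ===== PACK-END A2/Alg/H348/CompDvr.lean

-- ===== PACK-BEGIN S35/G/Spec.lean
section




/-!
# S35, piece (G') — frozen TOP interfaces (architect helper450)

`(G')` of `origin/helper991:coord/S35-helper991.md`: at a prime `q ‖ N = M * q` the square `s²` of
every Frobenius lift `s` at `q` satisfies a fixed polynomial relation on the `q`-NEW part of the
`m`-torsion of `J₀(N)`, `q ∤ m`.  Form proved here (constant `c = 1`, no hypothesis of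
inertia-invariance, at the price of one more factor `s² - 1`):

  `a x = 0`, `b x = 0`, `m x = 0`  ⟹  `(s² - 1)² (s² - q²) x = 0`,

`a = α_*`, `b = β_* : J₀(M q) → J₀(M)` the two degeneracy push-forwards (`degA`, `degB`).
(The extra factor is harmless for S35: on the rank-2 eigenmodule ANY eigenvector of `s²` with
eigenvalue `1` or `q²` gives `a_q = ± (q + 1)`; see `coord/S35-G-helper450.md`.)

This file: definitions and the statements of the top layer (Prelude language, over `ℚ̄`).
Definitions only (no `sorry`).  Board: `coord/S35-G-helper450.md` on `origin/helper450`.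
-/

set_option autoImplicit false
set_option linter.style.haveILetI false

noncomputable section

namespace Fermat.Agent.S35.G

open ModularCurve AlgebraicCurve

/-- The field `ℚ̄`. -/
abbrev Qb : Type := AlgebraicClosure ℚ

/-! ## The polynomial `(T - 1)² (T - Q)`, multiplicatively and additively -/

/-- `(φ - Q) f`, multiplicatively: `φ f / f ^ Q`. -/
def frobSub {F : Type*} [Field F] (φ : F ≃+* F) (Q : ℕ) (f : F) : F := φ f * (f ^ Q)⁻¹

/-- `(φ - 1)² (φ - Q) f`, multiplicatively. -/
def frobPoly {F : Type*} [Field F] (φ : F ≃+* F) (Q : ℕ) (f : F) : F :=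
  frobSub φ Q (frobSub φ 1 (frobSub φ 1 f))

/-- `(t - 1)² (t - Q) x`, additively. -/
def frobPolyAdd {G X : Type*} [Group G] [AddCommGroup X] [DistribMulAction G X]
    (t : G) (Q : ℕ) (x : X) : X :=
  t • (t • (t • x - x) - (t • x - x)) - Q • (t • (t • x - x) - (t • x - x))

/-! ## Push-forward on `Pic⁰` and the degeneracy maps -/

section Push

variable {K F F' : Type*} [Field K] [Field F] [Field F'] [Algebra K F] [Algebra K F']

/-- Push-forward of degree-zero divisors along `φ : F → F'`. -/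
def degZeroPush (φ : F →ₐ[K] F') (hφ : φ.toRingHom.IsIntegral) :
    Divisor.degZero (K := K) (F := F') →+ Divisor.degZero (K := K) (F := F) :=
  ((Divisor.pushforwardAlong φ hφ).domRestrict (Divisor.degZero (K := K) (F := F'))).codRestrict _
    (fun D => Divisor.pushforwardAlong_mem_degZero φ hφ D.2)

/-- Push-forward `Pic⁰(F') → Pic⁰(F)` along `φ : F → F'` (finite, with the norm formula). -/
def pic0Push (φ : F →ₐ[K] F') (hφ : φ.toRingHom.IsIntegral) (hfin : FiniteAlong K φ)
    (hN : NormFormulaAlong K φ hfin) : Pic0 K F' →+ Pic0 K F :=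
  QuotientAddGroup.map _ _ (degZeroPush φ hφ) (by
    rintro ⟨D, hD0⟩ hD
    simp only [AddSubgroup.mem_addSubgroupOf] at hD ⊢
    exact Divisor.isPrincipal_pushforwardAlong φ hφ hfin hN hD)

theorem pic0Push_mk (φ : F →ₐ[K] F') (hφ : φ.toRingHom.IsIntegral) (hfin : FiniteAlong K φ)
    (hN : NormFormulaAlong K φ hfin) (D : Divisor.degZero (K := K) (F := F')) :
    pic0Push φ hφ hfin hN (Pic0.mk D) = Pic0.mk (degZeroPush φ hφ D) :=
  rfl

/-- The three inputs of `pic0Push`. -/
def PushInputs (φ : F →ₐ[K] F') : Prop :=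
  ∃ (_ : φ.toRingHom.IsIntegral) (hfin : FiniteAlong K φ), NormFormulaAlong K φ hfin

open Classical in
/-- Total form of `pic0Push` (junk value `0` if the inputs fail; they never do for the modular
degeneracy maps: leaf `DEG`). -/
def pic0PushTotal (φ : F →ₐ[K] F') : Pic0 K F' →+ Pic0 K F :=
  if h : PushInputs φ then pic0Push φ h.1 h.2.1 h.2.2 else 0

theorem pic0PushTotal_eq (φ : F →ₐ[K] F') (hφ : φ.toRingHom.IsIntegral) (hfin : FiniteAlong K φ)
    (hN : NormFormulaAlong K φ hfin) : pic0PushTotal φ = pic0Push φ hφ hfin hN := by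
  have h : PushInputs φ := ⟨hφ, hfin, hN⟩
  rw [pic0PushTotal, dif_pos h]

end Push

section Deg

variable (M q : ℕ) [NeZero M] [NeZero q]

/-- `a = α_* : J₀(M q) → J₀(M)`, `α : ℚ̄(X₀(M)) ⊆ ℚ̄(X₀(M q))` the inclusion. -/
def degA : JZero (M * q) →+ JZero M := pic0PushTotal (heckeAlphaBar Qb M q)

/-- `b = β_* : J₀(M q) → J₀(M)`, `β : ℚ̄(X₀(M)) → ℚ̄(X₀(M q))`, `f(t) ↦ f(t^q)`. -/
def degB : JZero (M * q) →+ JZero M := pic0PushTotal (heckeBetaBar Qb M q)

end Deg

/-! ## The statement (G') -/

/-- **(G') at `(M, q, m)`**: `(s² - 1)² (s² - q²)` kills the `q`-new `m`-torsion of `J₀(M q)`. -/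
def NewPartFrobAt (M q m : ℕ) [NeZero M] [NeZero q] : Prop :=
  ∀ A : ValuationSubring Qb, A.LiesOverPrime q →
    ∀ s : Qb ≃ₐ[ℚ] Qb, A.IsFrobeniusAt s q →
      ∀ x : JZero (M * q), m • x = 0 → degA M q x = 0 → degB M q x = 0 →
        frobPolyAdd (s * s) (q ^ 2) x = 0

/-- **(G'), explicit form.** -/
def NewPartFrobExplicit : Prop :=
  ∀ (M q m : ℕ) [NeZero M] [NeZero q], q.Prime → ¬ q ∣ M → 0 < m → ¬ q ∣ m →
    NewPartFrobAt M q m

/-- **(G'), bundled form** (shape asked for by helper991: the degeneracy maps are existentially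
quantified, with the only property the consumer needs, Hecke-equivariance away from `M q p`). -/
def NewPartFrobStatement : Prop :=
  ∀ (M q p : ℕ) [NeZero M] [NeZero q], q.Prime → ¬ q ∣ M → p.Prime → p ≠ q →
    ∃ a b : JZero (M * q) →+ JZero M,
      (∀ ℓ : Nat.Primes, ¬ (ℓ : ℕ) ∣ M * q * p → ∀ x : JZero (M * q),
        a (heckeOperatorBar (M * q) ℓ x) = heckeOperatorBar M ℓ (a x)) ∧
      (∀ ℓ : Nat.Primes, ¬ (ℓ : ℕ) ∣ M * q * p → ∀ x : JZero (M * q),
        b (heckeOperatorBar (M * q) ℓ x) = heckeOperatorBar M ℓ (b x)) ∧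
      ∀ A : ValuationSubring Qb, A.LiesOverPrime q →
        ∀ s : Qb ≃ₐ[ℚ] Qb, A.IsFrobeniusAt s q →
          ∀ x : JZero (M * q), (∃ n : ℕ, p ^ n • x = 0) → a x = 0 → b x = 0 →
            frobPolyAdd (s * s) (q ^ 2) x = 0

/-! ## Leaf DEG: the degeneracy maps -/

/-- **DEG.**  The inputs of `pic0Push` hold for `α`, `β`, and `degA`, `degB` commute with the
Hecke operators `T_ℓ`, `ℓ ∤ M q`.  (Inputs: `S29/H812`, `Lib/HI/H864`, `Lib/FF398`;
commutation: common cover `F_{M q ℓ}`, as `S29/H801 pic0_correspondence_comm`.) -/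
def DegStatement : Prop :=
  ∀ (M q : ℕ) [NeZero M] [NeZero q], q.Prime → ¬ q ∣ M →
    PushInputs (heckeAlphaBar Qb M q) ∧ PushInputs (heckeBetaBar Qb M q) ∧
    (∀ ℓ : Nat.Primes, ¬ (ℓ : ℕ) ∣ M * q → ∀ x : JZero (M * q),
      degA M q (heckeOperatorBar (M * q) ℓ x) = heckeOperatorBar M ℓ (degA M q x)) ∧
    (∀ ℓ : Nat.Primes, ¬ (ℓ : ℕ) ∣ M * q → ∀ x : JZero (M * q),
      degB M q (heckeOperatorBar (M * q) ℓ x) = heckeOperatorBar M ℓ (degB M q x))

/-! ## Kummer form over `ℚ̄` and leaf T0F (Kummer dictionary) -/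

/-- `σ_N(t)`: the automorphism of `F̄_N = ℚ̄(X₀(N))` induced by `t ∈ G_ℚ`. -/
abbrev actBar (N : ℕ) (t : Qb ≃ₐ[ℚ] Qb) :
    modularFunctionFieldBar N ≃+* modularFunctionFieldBar N :=
  arithmeticRingAut (modularFunctionFieldFull N) t

/-- `f` has norm a constant times an `m`-th power along `φ`. -/
def NormPow {K F F' : Type*} [Field K] [Field F] [Field F'] [Algebra K F] [Algebra K F']
    (φ : F →ₐ[K] F') (m : ℕ) (f : F') : Prop :=
  ∃ (c : K) (g : F), S29.H395.normAlong φ f = algebraMap K F c * g ^ m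

/-- **Kummer form of (G') at `(M, q, m)`**: for `f ∈ F̄_{Mq}ˣ` with `m ∣ div f` whose norms along
`α` and `β` are constants times `m`-th powers, `(σ² - 1)² (σ² - q²) f` is a constant times an
`m`-th power. -/
def KummerFrobAt (M q m : ℕ) [NeZero M] [NeZero q] : Prop :=
  ∀ A : ValuationSubring Qb, A.LiesOverPrime q →
    ∀ s : Qb ≃ₐ[ℚ] Qb, A.IsFrobeniusAt s q →
      ∀ f : modularFunctionFieldBar (M * q), f ≠ 0 →
        (∀ v : Place Qb (modularFunctionFieldBar (M * q)), (m : ℤ) ∣ v.ord f) →
        NormPow (heckeAlphaBar Qb M q) m f → NormPow (heckeBetaBar Qb M q) m f →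
        ∃ (c : Qb) (y : modularFunctionFieldBar (M * q)), c ≠ 0 ∧
          frobPoly (actBar (M * q) (s * s)) (q ^ 2) f =
            algebraMap Qb (modularFunctionFieldBar (M * q)) c * y ^ m

/-- **T0F (Kummer dictionary).**  `x = [D]`, `m D = div f`; `a x = 0` gives
`div (N_α f) = m α_* D = m div g`, i.e. `N_α f = c g ^ m` (`S29.H395.pushforwardAlong_apply_eq_ord`,
constants: `S18.H504.const_of_ord_zero`); conclusion as `A2.H129.unipotent_of_kummerTwice`. -/
def T0FStatement : Prop :=
  ∀ (M q m : ℕ) [NeZero M] [NeZero q], q.Prime → ¬ q ∣ M → 0 < m → ¬ q ∣ m →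
    PushInputs (heckeAlphaBar Qb M q) → PushInputs (heckeBetaBar Qb M q) →
    KummerFrobAt M q m → NewPartFrobAt M q m

/-! ## Leaf D2F: auxiliary level (only for `q ∈ {2, 3}`) -/

/-- The level-`M` part of the auxiliary level of `A2.Top.H994.auxLevel`:
`lcm M 2` for `q = 3`, `lcm M 3` for `q = 2`, `M` otherwise. -/
def auxM (M q : ℕ) : ℕ :=
  if q = 3 then Nat.lcm M 2 else if q = 2 then Nat.lcm M 3 else M

/-- The levels at which the semistable model is available (good reduction at level `M` from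
S18 needs the auxiliary prime). -/
def HasAux (M q : ℕ) : Prop := (q = 3 → 2 ∣ M) ∧ (q = 2 → 3 ∣ M)

/-- **D2F (auxiliary-level descent).**  `π : X₀(M' q) → X₀(M q)`, `M' = auxM M q`, has degree a
power of `q`, prime to `m`; `π^*` commutes with the Galois action and intertwines the degeneracy
push-forwards (base change `S37.H818.pullback_pushforward_eq`), `π_* π^* = deg π`. -/
def D2FStatement : Prop :=
  ∀ (M q m : ℕ) [NeZero M] [NeZero q] [NeZero (auxM M q)], q.Prime → ¬ q ∣ M → 0 < m →
    ¬ q ∣ m → NewPartFrobAt (auxM M q) q m → NewPartFrobAt M q m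

end Fermat.Agent.S35.G

end

end
-- ===== PACK-END S35/G/Spec.lean

-- ===== PACK-BEGIN A2/H48/TwoExt.lean
section


/-!
# A2 / piece QEP2, part 2 (helper48): no third extension

Mathlib-only.  `K` a field with a rank-one valuation ring `O` with uniformiser `ϖ`; `F / K` a finite
extension of degree `n`; `V₁ ≠ V₂` valuation rings of `F` lying over `O`, both with uniformiser
`ϖ` (`e = 1`); families `b` in `V₁`, `c` in `V₂` whose residues are linearly independent over the
residue field of `O`, with `f₁ + f₂ = n` members altogether.  Then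

* `TwoExt.exists_basis` : `V₁ ∩ V₂` is a free `O`-module on `n` generators which form a
  `K`-basis of `F`;
* `TwoExt.exists_monic_of_mem` : every `u ∈ V₁ ∩ V₂` is integral over `O`
  (so `V₁`, `V₂` are the only extensions of `O`: the fundamental inequality is an equality).
-/

set_option autoImplicit false

namespace Fermat.Agent.A2.H48

open Polynomial

section Closed

variable {F : Type*} [Field F]

/-- A valuation ring is integrally closed (elementwise form, for polynomials over the field). -/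
theorem mem_of_monic_root (V : ValuationSubring F) {p : F[X]} (hp : p.Monic)
    (hc : ∀ i, p.coeff i ∈ V) {g : F} (hg : p.eval g = 0) : g ∈ V := by
  by_contra hgV
  have hv : 1 < V.valuation g := by
    rw [← not_le, V.valuation_le_one_iff]; exact hgV
  have hg0 : g ≠ 0 := by rintro rfl; exact hgV (zero_mem _)
  have hvpos : 0 < V.valuation g := lt_trans zero_lt_one hv
  set d := p.natDegree with hd
  have hsum : p.eval g = g ^ d + ∑ i ∈ Finset.range d, p.coeff i * g ^ i := by
    rw [eval_eq_sum_range, Finset.sum_range_succ, ← hd, hp.coeff_natDegree, one_mul, add_comm]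
  rw [hsum] at hg
  have h1 : g ^ d = -∑ i ∈ Finset.range d, p.coeff i * g ^ i := eq_neg_of_add_eq_zero_left hg
  have h2 : V.valuation (∑ i ∈ Finset.range d, p.coeff i * g ^ i) < V.valuation g ^ d := by
    apply Valuation.map_sum_lt
    · exact pow_ne_zero _ hvpos.ne'
    · intro i hi
      rw [Finset.mem_range] at hi
      rw [_root_.map_mul, _root_.map_pow]
      calc V.valuation (p.coeff i) * V.valuation g ^ i ≤ 1 * V.valuation g ^ i :=
            mul_le_mul_left ((V.valuation_le_one_iff _).2 (hc i)) _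
        _ = V.valuation g ^ i := one_mul _
        _ < V.valuation g ^ d := pow_lt_pow_right₀ hv hi
  have h3 : V.valuation (g ^ d) = V.valuation g ^ d := _root_.map_pow _ _ _
  rw [h1, Valuation.map_neg] at h3
  exact absurd h3 h2.ne

end Closed

section Arch

variable {K F : Type*} [Field K] [Field F] [Algebra K F]

/-- A rank-one condition on `O` propagates to every valuation ring of an algebraic extension
which contains `O`. -/
theorem exists_pow_mul_mem {O : ValuationSubring K} {ϖ : K} (hϖ : ϖ ∈ O)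
    (harch : ∀ a : K, ∃ k : ℕ, ϖ ^ k * a ∈ O)
    (V : ValuationSubring F) (hOV : ∀ a ∈ O, algebraMap K F a ∈ V)
    {f : F} (hf : IsIntegral K f) : ∃ k : ℕ, (algebraMap K F ϖ) ^ k * f ∈ V := by
  classical
  set μ := minpoly K f with hμ
  have hmonic : μ.Monic := minpoly.monic hf
  choose kk hkk using fun i : ℕ => harch (μ.coeff i)
  set k := (∑ i ∈ Finset.range (μ.natDegree + 1), kk i) + 1 with hk
  have hk1 : ∀ i ∈ Finset.range (μ.natDegree + 1), ϖ ^ k * μ.coeff i ∈ O := by
    intro i hi
    have hle : kk i ≤ k := by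
      have := Finset.single_le_sum (f := kk) (fun j _ => Nat.zero_le _) hi
      omega
    obtain ⟨r, hr⟩ := Nat.exists_eq_add_of_le hle
    rw [hr, pow_add, mul_comm (ϖ ^ kk i), mul_assoc]
    exact mul_mem (pow_mem hϖ _) (hkk i)
  refine ⟨k, ?_⟩
  set p := μ.scaleRoots (ϖ ^ k) with hp
  have hpm : p.Monic := (monic_scaleRoots_iff _).2 hmonic
  have hroot : aeval (algebraMap K F (ϖ ^ k) * f) p = 0 :=
    scaleRoots_aeval_eq_zero (minpoly.aeval K f)
  have hcoef : ∀ i, p.coeff i ∈ O := by
    intro i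
    rw [hp, coeff_scaleRoots]
    rcases lt_trichotomy i μ.natDegree with h | h | h
    · obtain ⟨r, hr⟩ := Nat.exists_eq_add_of_lt (Nat.sub_pos_of_lt h)
      have h1 : μ.natDegree - i = r + 1 := by omega
      rw [h1, pow_succ, ← mul_assoc]
      have h2 : ϖ ^ k * μ.coeff i ∈ O := hk1 i (Finset.mem_range.2 (by omega))
      have h3 : μ.coeff i * (ϖ ^ k) ^ r * ϖ ^ k = (ϖ ^ k * μ.coeff i) * (ϖ ^ k) ^ r := by ring
      rw [h3]
      exact mul_mem h2 (pow_mem (pow_mem hϖ _) _)
    · rw [h, hmonic.coeff_natDegree, Nat.sub_self, pow_zero, mul_one]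
      exact one_mem _
    · rw [coeff_eq_zero_of_natDegree_lt h, zero_mul]
      exact zero_mem _
  have hq : (p.map (algebraMap K F)).eval (algebraMap K F (ϖ ^ k) * f) = 0 := by
    rw [eval_map, ← aeval_def]; exact hroot
  have := mem_of_monic_root V (hpm.map (algebraMap K F))
    (fun i => by rw [coeff_map]; exact hOV _ (hcoef i)) hq
  rwa [_root_.map_pow] at this

end Arch

section Scale

variable {K : Type*} [Field K]

/-- Scaling a finite family by its entry of largest valuation. -/
theorem exists_scale_family {ι : Type*} [Fintype ι] (O : ValuationSubring K) (g : ι → K)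
    (l : ι) :
    ∃ l₀, O.valuation (g l) ≤ O.valuation (g l₀) ∧
      ∀ l', O.valuation (g l') ≤ O.valuation (g l₀) := by
  obtain ⟨l₀, -, h⟩ := Finset.exists_max_image Finset.univ (fun l => O.valuation (g l))
    ⟨l, Finset.mem_univ l⟩
  exact ⟨l₀, h l (Finset.mem_univ l), fun l' => h l' (Finset.mem_univ l')⟩

theorem mul_inv_mem_of_val_le (O : ValuationSubring K) {x y : K} (hy : y ≠ 0)
    (h : O.valuation x ≤ O.valuation y) : x * y⁻¹ ∈ O := by
  rw [← O.valuation_le_one_iff, _root_.map_mul, map_inv₀,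
    mul_inv_le_iff₀ (zero_lt_iff.2 ((Valuation.ne_zero_iff _).2 hy)), one_mul]
  exact h

end Scale

section Main

variable {K F : Type*} [Field K] [Field F] [Algebra K F]

/-- The hypotheses of the "no third extension" theorem. -/
structure TwoExt (O : ValuationSubring K) (V₁ V₂ : ValuationSubring F) (ϖ : K)
    {f₁ f₂ : ℕ} (b : Fin f₁ → F) (c : Fin f₂ → F) : Prop where
  unifO : IsUnif O ϖ
  unif₁ : IsUnif V₁ (algebraMap K F ϖ)
  unif₂ : IsUnif V₂ (algebraMap K F ϖ)
  le₁ : ∀ a ∈ O, algebraMap K F a ∈ V₁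
  le₂ : ∀ a ∈ O, algebraMap K F a ∈ V₂
  ne : V₁ ≠ V₂
  arch : ∀ a : K, ∃ k : ℕ, ϖ ^ k * a ∈ O
  b_mem : ∀ i, b i ∈ V₁
  c_mem : ∀ j, c j ∈ V₂
  b_indep : ∀ a : Fin f₁ → K, (∀ i, a i ∈ O) →
    (∑ i, algebraMap K F (a i) * b i) * (algebraMap K F ϖ)⁻¹ ∈ V₁ → ∀ i, a i * ϖ⁻¹ ∈ O
  c_indep : ∀ a : Fin f₂ → K, (∀ j, a j ∈ O) →
    (∑ j, algebraMap K F (a j) * c j) * (algebraMap K F ϖ)⁻¹ ∈ V₂ → ∀ j, a j * ϖ⁻¹ ∈ O
  card : f₁ + f₂ = Module.finrank K F

namespace TwoExt

variable {O : ValuationSubring K} {V₁ V₂ : ValuationSubring F} {ϖ : K}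
  {f₁ f₂ : ℕ} {b : Fin f₁ → F} {c : Fin f₂ → F}

/-- A good generating family: `m` lies in `V₁ ∩ V₂` and a combination with coefficients in `O`
which is divisible by `ϖ` in both `V₁` and `V₂` has all its coefficients divisible by `ϖ`. -/
def IsGood (O : ValuationSubring K) (V₁ V₂ : ValuationSubring F) (ϖ : K)
    {ι : Type*} [Fintype ι] (m : ι → F) : Prop :=
  (∀ l, m l ∈ V₁) ∧ (∀ l, m l ∈ V₂) ∧
    ∀ a : ι → K, (∀ l, a l ∈ O) →
      (∑ l, algebraMap K F (a l) * m l) * (algebraMap K F ϖ)⁻¹ ∈ V₁ →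
      (∑ l, algebraMap K F (a l) * m l) * (algebraMap K F ϖ)⁻¹ ∈ V₂ → ∀ l, a l * ϖ⁻¹ ∈ O

theorem exists_good [FiniteDimensional K F] (h : TwoExt O V₁ V₂ ϖ b c) :
    ∃ m : Fin f₁ ⊕ Fin f₂ → F, IsGood O V₁ V₂ ϖ m := by
  classical
  set π := algebraMap K F ϖ with hπ
  have hπ0 : π ≠ 0 := h.unif₁.ne_zero
  have hA₁ : ∀ i, ∃ g : F, g ∈ V₁ ∧ (g - b i) * π⁻¹ ∈ V₁ ∧ g * π⁻¹ ∈ V₂ := fun i => by
    obtain ⟨k, hk⟩ := exists_pow_mul_mem h.unifO.mem h.arch V₂ h.le₂
      (Algebra.IsIntegral.isIntegral (R := K) (b i))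
    exact exists_approx h.unif₁ h.unif₂ h.ne (h.b_mem i) hk
  have hA₂ : ∀ j, ∃ g : F, g ∈ V₂ ∧ (g - c j) * π⁻¹ ∈ V₂ ∧ g * π⁻¹ ∈ V₁ := fun j => by
    obtain ⟨k, hk⟩ := exists_pow_mul_mem h.unifO.mem h.arch V₁ h.le₁
      (Algebra.IsIntegral.isIntegral (R := K) (c j))
    exact exists_approx h.unif₂ h.unif₁ (Ne.symm h.ne) (h.c_mem j) hk
  choose g hg1 hg2 hg3 using hA₁
  choose g' hg'1 hg'2 hg'3 using hA₂
  have hgV₂ : ∀ i, g i ∈ V₂ := fun i => by
    have : g i = g i * π⁻¹ * π := by field_simp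
    rw [this]; exact mul_mem (hg3 i) h.unif₂.mem
  have hg'V₁ : ∀ j, g' j ∈ V₁ := fun j => by
    have : g' j = g' j * π⁻¹ * π := by field_simp
    rw [this]; exact mul_mem (hg'3 j) h.unif₁.mem
  refine ⟨Sum.elim g g', ?_, ?_, ?_⟩
  · rintro (i | j)
    · exact hg1 i
    · exact hg'V₁ j
  · rintro (i | j)
    · exact hgV₂ i
    · exact hg'1 j
  · intro a ha hS₁ hS₂
    have hsplit : (∑ l, algebraMap K F (a l) * Sum.elim g g' l) =
        (∑ i, algebraMap K F (a (Sum.inl i)) * g i) +
          ∑ j, algebraMap K F (a (Sum.inr j)) * g' j := by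
      rw [Fintype.sum_sum_type]; simp only [Sum.elim_inl, Sum.elim_inr]
    rw [hsplit] at hS₁ hS₂
    rintro (i | j)
    · refine h.b_indep (fun i => a (Sum.inl i)) (fun i => ha _) ?_ i
      have e1 : (∑ i, algebraMap K F (a (Sum.inl i)) * b i) * π⁻¹ =
          ((∑ i, algebraMap K F (a (Sum.inl i)) * g i) +
            ∑ j, algebraMap K F (a (Sum.inr j)) * g' j) * π⁻¹
          - ∑ i, algebraMap K F (a (Sum.inl i)) * ((g i - b i) * π⁻¹)
          - ∑ j, algebraMap K F (a (Sum.inr j)) * (g' j * π⁻¹) := by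
        have hW : ∑ i, algebraMap K F (a (Sum.inl i)) * ((g i - b i) * π⁻¹) =
            (∑ i, algebraMap K F (a (Sum.inl i)) * g i) * π⁻¹ -
              (∑ i, algebraMap K F (a (Sum.inl i)) * b i) * π⁻¹ := by
          rw [Finset.sum_mul, Finset.sum_mul, ← Finset.sum_sub_distrib]
          exact Finset.sum_congr rfl fun i _ => by ring
        have hZ : ∑ j, algebraMap K F (a (Sum.inr j)) * (g' j * π⁻¹) =
            (∑ j, algebraMap K F (a (Sum.inr j)) * g' j) * π⁻¹ := by
          rw [Finset.sum_mul]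
          exact Finset.sum_congr rfl fun j _ => by ring
        rw [hW, hZ]; ring
      rw [e1]
      refine sub_mem (sub_mem hS₁ (sum_mem fun i _ => mul_mem (h.le₁ _ (ha _)) (hg2 i)))
        (sum_mem fun j _ => mul_mem (h.le₁ _ (ha _)) (hg'3 j))
    · refine h.c_indep (fun j => a (Sum.inr j)) (fun j => ha _) ?_ j
      have e1 : (∑ j, algebraMap K F (a (Sum.inr j)) * c j) * π⁻¹ =
          ((∑ i, algebraMap K F (a (Sum.inl i)) * g i) +
            ∑ j, algebraMap K F (a (Sum.inr j)) * g' j) * π⁻¹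
          - ∑ j, algebraMap K F (a (Sum.inr j)) * ((g' j - c j) * π⁻¹)
          - ∑ i, algebraMap K F (a (Sum.inl i)) * (g i * π⁻¹) := by
        have hW : ∑ j, algebraMap K F (a (Sum.inr j)) * ((g' j - c j) * π⁻¹) =
            (∑ j, algebraMap K F (a (Sum.inr j)) * g' j) * π⁻¹ -
              (∑ j, algebraMap K F (a (Sum.inr j)) * c j) * π⁻¹ := by
          rw [Finset.sum_mul, Finset.sum_mul, ← Finset.sum_sub_distrib]
          exact Finset.sum_congr rfl fun j _ => by ring
        have hZ : ∑ i, algebraMap K F (a (Sum.inl i)) * (g i * π⁻¹) =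
            (∑ i, algebraMap K F (a (Sum.inl i)) * g i) * π⁻¹ := by
          rw [Finset.sum_mul]
          exact Finset.sum_congr rfl fun i _ => by ring
        rw [hW, hZ]; ring
      rw [e1]
      refine sub_mem (sub_mem hS₂ (sum_mem fun j _ => mul_mem (h.le₂ _ (ha _)) (hg'2 j)))
        (sum_mem fun i _ => mul_mem (h.le₂ _ (ha _)) (hg3 i))

namespace IsGood

variable {ι : Type*} [Fintype ι] {m : ι → F}

theorem linearIndependent (hO : IsUnif O ϖ) (hm : IsGood O V₁ V₂ ϖ m) :
    LinearIndependent K m := by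
  classical
  rw [Fintype.linearIndependent_iff]
  intro g hg
  by_contra hne
  rw [not_forall] at hne
  obtain ⟨l, hl⟩ := hne
  obtain ⟨l₀, hl₀, hmax⟩ := exists_scale_family O g l
  have hg0 : g l₀ ≠ 0 := by
    intro h0
    rw [h0, _root_.map_zero] at hl₀
    exact (Valuation.ne_zero_iff _).2 hl (le_antisymm hl₀ zero_le)
  have ha : ∀ l', g l' * (g l₀)⁻¹ ∈ O := fun l' => mul_inv_mem_of_val_le O hg0 (hmax l')
  have hsum : ∑ l', algebraMap K F (g l' * (g l₀)⁻¹) * m l' = 0 := by
    have : ∑ l', algebraMap K F (g l' * (g l₀)⁻¹) * m l' =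
        algebraMap K F (g l₀)⁻¹ * ∑ l', g l' • m l' := by
      rw [Finset.mul_sum]
      refine Finset.sum_congr rfl fun l' _ => ?_
      rw [_root_.map_mul, Algebra.smul_def]; ring
    rw [this, hg, mul_zero]
  have := hm.2.2 _ ha (by rw [hsum, zero_mul]; exact zero_mem _)
    (by rw [hsum, zero_mul]; exact zero_mem _) l₀
  rw [mul_inv_cancel₀ hg0, one_mul] at this
  exact hO.inv_not_mem this

/-- The coordinates of an element of `V₁ ∩ V₂` in a good basis lie in `O`. -/
theorem repr_mem (hO : IsUnif O ϖ) (le₁ : ∀ a ∈ O, algebraMap K F a ∈ V₁)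
    (le₂ : ∀ a ∈ O, algebraMap K F a ∈ V₂) (hm : IsGood O V₁ V₂ ϖ m)
    (B : Module.Basis ι K F) (hB : ∀ l, B l = m l) {z : F} (hz₁ : z ∈ V₁) (hz₂ : z ∈ V₂)
    (l : ι) : B.repr z l ∈ O := by
  classical
  by_contra hl
  set g : ι → K := fun l => B.repr z l with hg
  obtain ⟨l₀, hl₀, hmax⟩ := exists_scale_family O g l
  have hv : 1 < O.valuation (g l₀) := by
    refine lt_of_lt_of_le ?_ hl₀
    rw [← not_le, O.valuation_le_one_iff]; exact hl
  have hg0 : g l₀ ≠ 0 := by
    intro h0
    rw [h0, _root_.map_zero] at hv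
    exact absurd hv (not_lt.2 zero_le)
  have ha : ∀ l', g l' * (g l₀)⁻¹ ∈ O := fun l' => mul_inv_mem_of_val_le O hg0 (hmax l')
  have hz : ∑ l', g l' • m l' = z := by
    have := B.sum_repr z
    simpa only [hB] using this
  have hsum : ∑ l', algebraMap K F (g l' * (g l₀)⁻¹) * m l' = algebraMap K F (g l₀)⁻¹ * z := by
    rw [← hz, Finset.mul_sum]
    refine Finset.sum_congr rfl fun l' _ => ?_
    rw [_root_.map_mul, Algebra.smul_def]; ring
  have hinv : (g l₀)⁻¹ * ϖ⁻¹ ∈ O := by
    rw [hO.mul_inv_mem_iff, map_inv₀]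
    exact inv_lt_one_of_one_lt₀ hv
  have hkey : (∑ l', algebraMap K F (g l' * (g l₀)⁻¹) * m l') * (algebraMap K F ϖ)⁻¹ =
      algebraMap K F ((g l₀)⁻¹ * ϖ⁻¹) * z := by
    rw [hsum, _root_.map_mul, map_inv₀, map_inv₀]; ring
  have := hm.2.2 _ ha (by rw [hkey]; exact mul_mem (le₁ _ hinv) hz₁)
    (by rw [hkey]; exact mul_mem (le₂ _ hinv) hz₂) l₀
  rw [mul_inv_cancel₀ hg0, one_mul] at this
  exact hO.inv_not_mem this

/-- Every element of `V₁ ∩ V₂` is integral over `O`. -/
theorem exists_monic (hO : IsUnif O ϖ) (le₁ : ∀ a ∈ O, algebraMap K F a ∈ V₁)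
    (le₂ : ∀ a ∈ O, algebraMap K F a ∈ V₂) (hm : IsGood O V₁ V₂ ϖ m)
    (hcard : Fintype.card ι = Module.finrank K F) [FiniteDimensional K F]
    {u : F} (hu₁ : u ∈ V₁) (hu₂ : u ∈ V₂) :
    ∃ p : K[X], p.Monic ∧ (∀ i, p.coeff i ∈ O) ∧ aeval u p = 0 := by
  classical
  have hpos : 0 < Module.finrank K F := Module.finrank_pos
  have : Nonempty ι := by
    rw [← Fintype.card_pos_iff, hcard]; exact hpos
  set B := basisOfLinearIndependentOfCardEqFinrank (hm.linearIndependent hO) hcard with hBdef
  have hB : ∀ l, B l = m l := fun l => by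
    rw [hBdef, coe_basisOfLinearIndependentOfCardEqFinrank]
  let _ : Algebra O F := ((algebraMap K F).comp O.subtype).toAlgebra
  have hsmul : ∀ (r : O) (x : F), r • x = algebraMap K F (r : K) * x := fun r x => rfl
  set N : Submodule O F := Submodule.span O (Set.range m) with hN
  have hmem : ∀ z : F, z ∈ V₁ → z ∈ V₂ → z ∈ N := by
    intro z hz₁ hz₂
    have hz : z = ∑ l, (⟨B.repr z l, repr_mem hO le₁ le₂ hm B hB hz₁ hz₂ l⟩ : O) • m l := by
      conv_lhs => rw [← B.sum_repr z]
      refine Finset.sum_congr rfl fun l _ => ?_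
      rw [hsmul, hB, Algebra.smul_def]
    rw [hz]
    exact Submodule.sum_mem _ fun l _ =>
      Submodule.smul_mem _ _ (Submodule.subset_span (Set.mem_range_self l))
  have hNV : ∀ n ∈ N, n ∈ V₁ ∧ n ∈ V₂ := by
    intro n hn
    induction hn using Submodule.span_induction with
    | mem x hx =>
        obtain ⟨l, rfl⟩ := hx
        exact ⟨hm.1 l, hm.2.1 l⟩
    | zero => exact ⟨zero_mem _, zero_mem _⟩
    | add x y _ _ hx hy => exact ⟨add_mem hx.1 hy.1, add_mem hx.2 hy.2⟩
    | smul r x _ hx =>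
        rw [hsmul]
        exact ⟨mul_mem (le₁ _ r.2) hx.1, mul_mem (le₂ _ r.2) hx.2⟩
  have hstable : ∀ n ∈ N, u • n ∈ N := by
    intro n hn
    obtain ⟨h1, h2⟩ := hNV n hn
    exact hmem _ (mul_mem hu₁ h1) (mul_mem hu₂ h2)
  have hNne : N ≠ ⊥ := by
    obtain ⟨l⟩ := ‹Nonempty ι›
    intro hbot
    have h1 : m l ∈ N := Submodule.subset_span (Set.mem_range_self l)
    rw [hbot, Submodule.mem_bot] at h1
    exact B.ne_zero l (by rw [hB]; exact h1)
  have hFG : N.FG := Submodule.fg_span (Set.finite_range m)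
  have hint : IsIntegral O u := isIntegral_of_smul_mem_submodule N hNne hFG u hstable
  obtain ⟨p, hp, hpu⟩ := hint
  refine ⟨p.map O.subtype, hp.map _, fun i => ?_, ?_⟩
  · rw [coeff_map]; exact (p.coeff i).2
  · rw [aeval_def, eval₂_map]; exact hpu

end IsGood

/-- **No third extension.**  Under `TwoExt`, every element of `V₁ ∩ V₂` is integral over `O`. -/
theorem exists_monic_of_mem [FiniteDimensional K F] (h : TwoExt O V₁ V₂ ϖ b c)
    {u : F} (hu₁ : u ∈ V₁) (hu₂ : u ∈ V₂) :
    ∃ p : K[X], p.Monic ∧ (∀ i, p.coeff i ∈ O) ∧ aeval u p = 0 := by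
  obtain ⟨m, hm⟩ := h.exists_good
  refine hm.exists_monic h.unifO h.le₁ h.le₂ ?_ hu₁ hu₂
  rw [Fintype.card_sum, Fintype.card_fin, Fintype.card_fin, h.card]

end TwoExt

end Main

end Fermat.Agent.A2.H48

end
-- ===== PACK-END A2/H48/TwoExt.lean

-- ===== PACK-BEGIN A2/ModDefs.lean
section


/-!
# WALL A2 — concrete objects at a good level and the MOD interface (row-lead helper13)

Definitions only (no `sorry`); LANDED, never to change again.

* `FE E N`            : `F_{N,E} = E(j(t^d) : d ∣ N) ⊆ E((t))`;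
* `algREFE`, `towerREFE` : its structure over `R_E = P ∩ E`;
* `GoodField.res`     : restriction of `τ ∈ I_P` to a good level;
* `ModSSData P E N`   : the semistable two-chart model with coordinate `x`
  (intended: `x = j(t) · j(t^q)`, so that `α^*`, `β^*` map the level-`M` charts of `j^{±1}` into
  the level-`N` charts of `x^{±1}`; any coordinate is allowed by the structure);
* `ModSSStatement`    : the MOD interface statement.
-/

set_option autoImplicit false
set_option synthInstance.maxHeartbeats 400000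
set_option maxHeartbeats 1600000

noncomputable section

namespace Fermat.Agent.A2

open ModularCurve AlgebraicCurve

section Mod

variable (P : ValuationSubring Qb) (E : IntermediateField ℚ Qb) (N q : ℕ)

/-- `F_{N,E} = E(j(t^d) : d ∣ N) ⊆ E((t))`. -/
abbrev FE : IntermediateField E (LaurentSeries E) :=
  laurentBaseChange E (modularFunctionFieldFull N)

/-- The algebra structure of `F_{N,E}` over `R_E = P ∩ E`. -/
instance algREFE : Algebra (RE P E) (FE E N) :=
  ((algebraMap E (FE E N)).comp (RE P E).subtype).toAlgebra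

instance towerREFE : IsScalarTower (RE P E) E (FE E N) :=
  IsScalarTower.of_algebraMap_eq fun _ => rfl

/-- The restriction of `τ ∈ I_P` to a good level. -/
def GoodField.res {P : ValuationSubring Qb} {E : IntermediateField ℚ Qb} (hE : GoodField P E)
    (τ : Qb ≃ₐ[ℚ] Qb) (hτ : τ ∈ P.inertiaSubgroupIn ℚ) : E ≃ₐ[ℚ] E :=
  AlgEquiv.ofBijective
    { toFun := fun e => ⟨τ (e : Qb), hE.stable τ hτ e e.2⟩
      map_one' := Subtype.ext (map_one τ)
      map_mul' := fun a b => Subtype.ext (map_mul τ (a : Qb) (b : Qb))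
      map_zero' := Subtype.ext (map_zero τ)
      map_add' := fun a b => Subtype.ext (map_add τ (a : Qb) (b : Qb))
      commutes' := fun r => Subtype.ext (τ.commutes r) }
    ⟨fun a b hab => Subtype.ext (τ.injective (congrArg Subtype.val hab)),
      fun b => ⟨⟨τ⁻¹ (b : Qb), hE.stable τ⁻¹ (inv_mem hτ) b b.2⟩,
        Subtype.ext (τ.apply_symm_apply (b : Qb))⟩⟩

/-- The semistable model of `X₀(N)`, `q ‖ N`, over `R_E` for a good level `E`, with coordinate
`x`. -/
structure ModSSData where
  /-- the coordinate -/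
  x : FE E N
  hx : Transcendental E x
  hfin : FiniteDimensional (IntermediateField.adjoin E ({x} : Set (FE E N))) (FE E N)
  hconst : ∀ f : FE E N, IsAlgebraic E f → f ∈ (algebraMap E (FE E N)).range
  /-- the finite chart -/
  Bf : Subalgebra (RE P E) (FE E N)
  /-- the chart at infinity -/
  Bi : Subalgebra (RE P E) (FE E N)
  hBf : ∀ f : FE E N, f ∈ Bf ↔ IsIntegral (Algebra.adjoin (RE P E) ({x} : Set (FE E N))) f
  hBi : ∀ f : FE E N, f ∈ Bi ↔ IsIntegral (Algebra.adjoin (RE P E) ({x⁻¹} : Set (FE E N))) f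
  cf : ∀ w : RE P E, Irreducible w → Nonempty (SSChart w Bf)
  ci : ∀ w : RE P E, Irreducible w → Nonempty (SSChart w Bi)
  sf : SepCoord (RE P E) E x Bf
  si : SepCoord (RE P E) E x⁻¹ Bi
  /-- inertia fixes the coordinate and acts trivially modulo `w` on both charts -/
  hτx : ∀ (hE : GoodField P E) (τ : Qb ≃ₐ[ℚ] Qb) (hτ : τ ∈ P.inertiaSubgroupIn ℚ),
    arithmeticRingAut (modularFunctionFieldFull N) (hE.res τ hτ) x = x
  hτf : ∀ (hE : GoodField P E) (τ : Qb ≃ₐ[ℚ] Qb) (hτ : τ ∈ P.inertiaSubgroupIn ℚ)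
    (w : RE P E), Irreducible w → ∀ b ∈ Bf, ∃ c ∈ Bf,
      arithmeticRingAut (modularFunctionFieldFull N) (hE.res τ hτ) b - b =
        algebraMap (RE P E) (FE E N) w * c
  hτi : ∀ (hE : GoodField P E) (τ : Qb ≃ₐ[ℚ] Qb) (hτ : τ ∈ P.inertiaSubgroupIn ℚ)
    (w : RE P E), Irreducible w → ∀ b ∈ Bi, ∃ c ∈ Bi,
      arithmeticRingAut (modularFunctionFieldFull N) (hE.res τ hτ) b - b =
        algebraMap (RE P E) (FE E N) w * c

end Mod

/-- **MOD (interface statement).**  For `q ‖ N` the modular function field has a semistable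
two-component model over every good level. -/
def ModSSStatement : Prop :=
  ∀ (P : ValuationSubring Qb) (E : IntermediateField ℚ Qb) (N q : ℕ),
    q.Prime → q ∣ N → ¬ q ^ 2 ∣ N → N ≠ 0 → P.LiesOverPrime q → GoodField P E →
      Nonempty (ModSSData P E N)

/-- **T1 (interface statement)**: `ALG + IF + MOD ⟹ KummerTarget`. -/
def T1Statement : Prop :=
  AlgSSStatement → IFStatement → ModSSStatement →
    ∀ (N q m : ℕ), q.Prime → q ∣ N → ¬ q ^ 2 ∣ N → N ≠ 0 → 0 < m → ¬ q ∣ m →
      KummerTarget N q m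

end Fermat.Agent.A2

end
end
-- ===== PACK-END A2/ModDefs.lean

-- ===== PACK-BEGIN Ribet/H704/I6Spec.lean
section
/-
# RIBET row 38, WALL-p, crux (I6) = (S4) of `H944.Wall.AtPFiltrationFor`:
# frozen LEAF STATEMENTS of the PERIOD package  (sub-architect helper704, v1 20:20Z)

Math: `origin/helper704:coord/RIBET-I6-helper704.md` (same proof, found independently:
`RIBET-I6-helper44.md`, `RIBET-WFLAT-helper375.md`, helper43, `RIBET-atp-helper884.md` §5,
`RIBET-WFLAT-helper640.md`, audit `RIBET-NODE-helper703.md`).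

## The proof in one paragraph
`K₁ = K(ζ_p)` (tame), `F = K₁(X₀(pM'))`, chart `B`, components `p₁, p₂`, Gauss valuations `v₁, v₂`.
`x ∈ V ∖ L`, `t ∈ L` (toric line), `σ x = x + t`, `K' = K₁(x) = K₁(u)`, `u^p ∈ K₁`, `σ u = ζ⁻¹ u`.
`f` = Kummer generator of `x` over `K'`, `f_t` of `t` over `K₁`.  By the assembly `f_t` is SPLIT
(a `p`-th power in both completions).  Cover `F' = F(h)`, `h^p = f_t`, deck transformation `τ`.
* PER  : `f = const · f' · b^p` with `f' ∈ F'` (over `K₁`!) and `τ f' = f' · u^p · G^p`.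
* SHIFT: for every valuation `W` of `F'` over `v_i`:  `W(τ f') = W(f') + v(u^p) + p W(G)`;
         peu ramifié (`p ∣ v(u^p)`) ⇒ `W(f') mod p` depends only on `i`, not on the sheet.
* COV  : the normalisation `B'` of `B` in `F'` is, locally at every point over a node of `B`,
         again a node (two branches, one over `p₁`, one over `p₂`, same uniformisers).
* NODE : two-function node relation in a node ring, THICKNESS-FREE: calibrate with the modular
         unit `D` (`D · D' = w^N`, `D ∉ p₁`, `D' ∉ p₂`, `N = 12(p-1)` prime to `p`):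
         `N · ord₂(a) ≡ v₁(a) · ord₁(D)  mod p` for `a ∉ p₂` horizontally `p`-divisible.
* Result (I6-core): the slope vector of `x` is a multiple of the slope vector of `D`; with
  `T_ℓ D = const · D^{ℓ+1}`, (I1) and NE (SLOPE package, helper884) the slopes of `x` vanish.

## Leaves (this file: Props only, Mathlib only; owners prove `theorem foo : FooStatement`)
| leaf | Prop | owners | status |
|---|---|---|---|
| PER   | `PeriodStatement`    | helper704 (`Period.lean`), 2nd copy helper44 | DONE (`period_proved` below) |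
| SHIFT | `sheet_shift`        | helper704 | DONE (below) |
| NODE  | `NodeRelStatement`   | helper403, helper463, helper703 | in progress (any equivalent shape + adapter) |
| ETNODE| `EtaleNodeStatement` | WANTED (2): étale local extension of a node ring is a node ring | open |
| WPUR  | `WildPurityStatement`| with I5 (helper103, helper43): split class ⇒ Artin–Schreier at a node | open |
| CORE  | `I6CoreStatement`    | helper704 (assembly, after NODE + ETNODE + WPUR) | open |
Files: `Fermat/Agent/Ribet/H<seat>/...`, land only complete proofs of a leaf VERBATIM.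
-/


set_option autoImplicit false

namespace Fermat.Agent.Ribet.H704.I6

open Ideal

/-! ## Vocabulary: node rings and orders on the branches (elementwise, Mathlib only) -/

/-- `a` has order `s` on the branch `𝔭` with branch uniformiser `ϖ`:
`a ≡ unit · ϖ ^ s` in the discrete valuation ring `R ⧸ 𝔭`. -/
def OrdOn {R : Type*} [CommRing R] (𝔭 : Ideal R) (ϖ a : R) (s : ℕ) : Prop :=
  Associated (Ideal.Quotient.mk 𝔭 a) ((Ideal.Quotient.mk 𝔭 ϖ) ^ s)

/-- `a` is horizontally `m`-divisible (H1 of `A2/H609`): at every prime `𝔓 ∌ π` through `a` the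
order of `a` is a multiple of `m`. -/
def HorDiv {R : Type*} [CommRing R] (π : R) (m : ℕ) (a : R) : Prop :=
  ∀ 𝔓 : Ideal R, 𝔓.IsPrime → a ∈ 𝔓 → π ∉ 𝔓 → ∃ f r : R, r ∉ 𝔓 ∧ f ^ m = a * r

/-- `a` has no horizontal zero: every prime through `a` contains `π`. -/
def NoHorZero {R : Type*} [CommRing R] (π : R) (a : R) : Prop :=
  ∀ 𝔓 : Ideal R, 𝔓.IsPrime → a ∈ 𝔓 → π ∈ 𝔓

/-- The node data of `A2/H609/Node.lean`: two branches `𝔭₁, 𝔭₂` of the special fibre `π = 0`
meeting transversally at the closed point, with branch uniformisers `x` (on `𝔭₁`, vanishing on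
`𝔭₂`) and `y` (on `𝔭₂`, vanishing on `𝔭₁`).  No hypothesis on the thickness. -/
structure IsNode {R : Type*} [CommRing R] [IsLocalRing R] (𝔭₁ 𝔭₂ : Ideal R) (π x y : R) :
    Prop where
  prime₁ : 𝔭₁.IsPrime
  prime₂ : 𝔭₂.IsPrime
  inf_eq : 𝔭₁ ⊓ 𝔭₂ = Ideal.span {π}
  sup_eq : 𝔭₁ ⊔ 𝔭₂ = IsLocalRing.maximalIdeal R
  hx : x ∈ 𝔭₂
  hy : y ∈ 𝔭₁
  /-- `R ⧸ 𝔭₁` is a DVR with uniformiser `x`. -/
  unif₁ : ∀ a : R, a ∉ 𝔭₁ → ∃ s : ℕ, OrdOn 𝔭₁ x a s
  /-- `R ⧸ 𝔭₂` is a DVR with uniformiser `y`. -/
  unif₂ : ∀ a : R, a ∉ 𝔭₂ → ∃ s : ℕ, OrdOn 𝔭₂ y a s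
  hx₁ : x ∉ 𝔭₁
  hy₂ : y ∉ 𝔭₂
  /-- the branches are not points: `x`, `y` are not units modulo the branch. -/
  nonunit₁ : ¬ IsUnit (Ideal.Quotient.mk 𝔭₁ x)
  nonunit₂ : ¬ IsUnit (Ideal.Quotient.mk 𝔭₂ y)

/-- A calibrating unit pair at the node (the modular unit `Δ(z)/Δ(pz)` and its inverse, scaled):
`D · D' = π ^ N`, `div D = N · 𝔭₂`, `div D' = N · 𝔭₁`. -/
structure IsUnitPair {R : Type*} [CommRing R] (𝔭₁ 𝔭₂ : Ideal R) (π D D' : R) (N : ℕ) : Prop where
  mul_eq : D * D' = π ^ N
  hD : D ∉ 𝔭₁
  hD' : D' ∉ 𝔭₂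

/-! ## Leaf NODE: the two-function node relation (thickness-free) -/

/-- **NODE.**  In a normal noetherian local node ring with a unit pair `(D, D')` of exponent `N`
prime to `m`: if `a ∉ 𝔭₂` is horizontally `m`-divisible and has order `n₁` along `𝔭₁`
(`a · d = π ^ n₁ · c`, `c, d ∉ 𝔭₁`), then
`N · ord₂(a) ≡ n₁ · ord₁(D)  (mod m)`.
(Both sides compute the length of `R ⧸ (a, D)` modulo `m`.) -/
def NodeRelStatement : Prop :=
  ∀ (R : Type) [CommRing R] [IsDomain R] [IsIntegrallyClosed R] [IsNoetherianRing R]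
    [IsLocalRing R] (𝔭₁ 𝔭₂ : Ideal R) (π x y : R), IsNode 𝔭₁ 𝔭₂ π x y →
    ∀ (m N : ℕ), m ≠ 0 → Nat.Coprime N m → ∀ D D' : R, IsUnitPair 𝔭₁ 𝔭₂ π D D' N →
    ∀ (a c d : R) (n₁ : ℕ), a ∉ 𝔭₂ → c ∉ 𝔭₁ → d ∉ 𝔭₁ → a * d = π ^ n₁ * c → HorDiv π m a →
    ∀ s k : ℕ, OrdOn 𝔭₂ y a s → OrdOn 𝔭₁ x D k →
      (m : ℤ) ∣ (N : ℤ) * s - (n₁ : ℤ) * k

/-- **NODE, exact form** (gives "thickness divides `N`"; optional): if `a` has no horizontal
zero, `N · ord₂(a) = n₁ · ord₁(D)`. -/
def NodeRelExactStatement : Prop :=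
  ∀ (R : Type) [CommRing R] [IsDomain R] [IsIntegrallyClosed R] [IsNoetherianRing R]
    [IsLocalRing R] (𝔭₁ 𝔭₂ : Ideal R) (π x y : R), IsNode 𝔭₁ 𝔭₂ π x y →
    ∀ (N : ℕ) (D D' : R), 0 < N → IsUnitPair 𝔭₁ 𝔭₂ π D D' N →
    ∀ (a c d : R) (n₁ : ℕ), a ∉ 𝔭₂ → c ∉ 𝔭₁ → d ∉ 𝔭₁ → a * d = π ^ n₁ * c → NoHorZero π a →
    ∀ s k : ℕ, OrdOn 𝔭₂ y a s → OrdOn 𝔭₁ x D k → N * s = n₁ * k

/-! ## Leaf PER (done) and SHIFT (done) -/

/-- **PER** = `period_of_generator704`, as a Prop. -/
def PeriodStatement : Prop :=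
  ∀ (F : Type) [Field F] (p : ℕ), p.Prime → ∀ (σ τ : F ≃+* F),
    (∀ z, σ (τ z) = τ (σ z)) → σ ^ p = 1 → σ ≠ 1 →
    ∀ ζ : F, IsPrimitiveRoot ζ p →
    ∀ lc : F →*₀ F, (∀ z, lc (lc z) = lc z) → (∀ z, lc (σ z) = σ (lc z)) →
      (∀ z, τ (lc z) = lc z) → lc ζ = ζ →
    ∀ f H c₀ : F, f ≠ 0 → lc c₀ = c₀ → τ f = f → τ H = ζ * H → σ f = f * c₀ * H ^ p →
    ∀ u : F, u ≠ 0 → σ u = ζ⁻¹ * u →
    ∃ f' b G₂ : F, f' ≠ 0 ∧ b ≠ 0 ∧ G₂ ≠ 0 ∧ σ f' = f' ∧ f = lc f * f' * b ^ p ∧
      σ G₂ = G₂ ∧ τ f' = f' * u ^ p * G₂ ^ p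

theorem period_proved : PeriodStatement := by
  intro F _ p hp σ τ hcomm hσp hσ1 ζ hζ lc h1 h2 h3 h4 f H c₀ hf hc₀ hτf hτH hσf u hu0 hσu
  exact period_of_generator704 hp σ τ hcomm hσp hσ1 ζ hζ lc h1 h2 h3 h4 f H c₀ hf hc₀ hτf hτH
    hσf u hu0 hσu

/-- **SHIFT.**  `W` an additive valuation on the nonzero elements of the `σ`-fixed field (given as
a function with `W (a b) = W a + W b`), `τ f' = f' · c · G ^ p` with `p ∣ W c` (peu ramifié):
then `W (τ f') ≡ W f'  (mod p)`. -/
theorem sheet_shift {F : Type*} [Field F] (p : ℕ) (W : F → ℤ)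
    (hW : ∀ a b : F, a ≠ 0 → b ≠ 0 → W (a * b) = W a + W b)
    (τ : F ≃+* F) (f' c G : F) (hf' : f' ≠ 0) (hc : c ≠ 0) (hG : G ≠ 0)
    (hτ : τ f' = f' * c * G ^ p) (hpeu : (p : ℤ) ∣ W c) :
    (p : ℤ) ∣ W (τ f') - W f' := by
  have hpow : ∀ n : ℕ, W (G ^ n) = n * W G + (if n = 0 then W 1 else 0) := by
    intro n
    induction n with
    | zero => simp
    | succ n ih =>
      rcases Nat.eq_zero_or_pos n with h0 | h0
      · subst h0; simp
      · rw [pow_succ, hW _ _ (pow_ne_zero _ hG) hG, ih]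
        have : n ≠ 0 := h0.ne'
        simp only [this, if_false, Nat.succ_ne_zero]
        push_cast; ring
  have h1 : W (1 : F) = 0 := by
    have := hW 1 1 one_ne_zero one_ne_zero
    rw [one_mul] at this
    linarith
  rw [hτ, hW _ _ (mul_ne_zero hf' hc) (pow_ne_zero _ hG), hW _ _ hf' hc, hpow, h1]
  obtain ⟨k, hk⟩ := hpeu
  refine ⟨k + W G, ?_⟩
  rw [hk]
  split_ifs <;> ring

/-! ## Leaf ETNODE + WPUR: the cover at a node -/

/-- **ETNODE.**  A local-étale extension of Artin–Schreier type of a node ring is a node ring.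
`R ⊆ R'` local domains, `R' = R[Y]_{𝔫'}` with `Y` a root of a monic `P ∈ R[T]` whose derivative
`P'(Y)` is a unit of `R'`, trivial residue field extension.  Then `R'` is normal noetherian and
`(𝔭₁R', 𝔭₂R', π, x, y)` is a node of `R'` (same uniformisers). -/
def EtaleNodeStatement : Prop :=
  ∀ (R R' : Type) [CommRing R] [IsDomain R] [IsIntegrallyClosed R] [IsNoetherianRing R]
    [IsLocalRing R] [CommRing R'] [IsDomain R'] [IsLocalRing R'] [Algebra R R']
    [IsLocalHom (algebraMap R R')] (𝔭₁ 𝔭₂ : Ideal R) (π x y : R), IsNode 𝔭₁ 𝔭₂ π x y →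
    Function.Injective (algebraMap R R') →
    -- `R'` is a localisation of `R[Y]`, `Y` étale over `R`
    ∀ (Y : R') (P : Polynomial R), P.Monic → Polynomial.aeval Y P = 0 →
      IsUnit (Polynomial.aeval Y (Polynomial.derivative P)) →
      (∀ z : R', ∃ (a : R') (s : R'), a ∈ Algebra.adjoin R ({Y} : Set R') ∧
        s ∈ Algebra.adjoin R ({Y} : Set R') ∧ IsUnit s ∧ z * s = a) →
      -- trivial residue extension
      (∀ z : R', ∃ r : R, z - algebraMap R R' r ∈ IsLocalRing.maximalIdeal R') →
      IsIntegrallyClosed R' ∧ IsNoetherianRing R' ∧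
        IsNode (𝔭₁.map (algebraMap R R')) (𝔭₂.map (algebraMap R R')) (algebraMap R R' π)
          (algebraMap R R' x) (algebraMap R R' y)

/-- **WPUR (wild purity at a node).**  `R` a node ring over a DVR with uniformiser `π`,
`λ = unit · π ^ e ∈ R` with `λ ^ (p - 1) = p · unit` (`λ = ζ - 1`), `g ∈ R ∖ (𝔭₁ ∪ 𝔭₂)` horizontally
`p`-divisible which is a `p`-th power in the `π`-adic completions of both branches
(`g ≡ h ^ p` modulo `π ^ k` in `R_{𝔭ᵢ}` for all `k`).  Then `g = d ^ p · s ^ p · (1 + λ ^ p z)`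
with `s` a unit of `R`, `z ∈ R`, and `d ∈ Frac R` (here: `g · d₂ ^ p = d₁ ^ p · s ^ p · (1 + λ^p z)`).
Consequently `Y := (g^{1/p} d₂/(d₁ s) - 1)/λ` is a root of the Artin–Schreier type polynomial
`((1 + λ T)^p - 1)/λ^p - z`, étale over `R`.
Proof sketch: purity at the node (`A2/H609 exists_unit_mul_pow_of_node`) gives `g = ε₀ f ^ p`;
`ε₀` is a `p`-th power on both branches, the two roots agree at the node (`p`-th roots are unique
in characteristic `p`), so they glue to a unit `s` of `R` (`R/π = R/𝔭₁ ×_k R/𝔭₂`);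
then successive approximation below the Hensel bound `p e` and Hartogs (`A2/H849`). -/
def WildPurityStatement : Prop :=
  ∀ (R : Type) [CommRing R] [IsDomain R] [IsIntegrallyClosed R] [IsNoetherianRing R]
    [IsLocalRing R] (𝔭₁ 𝔭₂ : Ideal R) (π x y : R), IsNode 𝔭₁ 𝔭₂ π x y →
    ∀ (p : ℕ), p.Prime → ∀ (lam ε η : R) (e : ℕ), IsUnit ε → lam ^ (p - 1) = (p : R) * ε →
      IsUnit η → 0 < e → lam = η * π ^ e →
    ∀ g : R, g ∉ 𝔭₁ → g ∉ 𝔭₂ → HorDiv π p g →
      (∀ k : ℕ, ∃ h r t : R, r ∉ 𝔭₁ ∧ g * r ^ p - h ^ p = π ^ k * t) →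
      (∀ k : ℕ, ∃ h r t : R, r ∉ 𝔭₂ ∧ g * r ^ p - h ^ p = π ^ k * t) →
      ∃ d₁ d₂ s z : R, d₁ ≠ 0 ∧ d₂ ≠ 0 ∧ IsUnit s ∧
        g * d₂ ^ p = d₁ ^ p * s ^ p * (1 + lam ^ p * z)

/-! ## CORE: the conclusion of the package, on the cover, over the tame field

Setting of CORE (all inside one field `F'` = function field of the cover over `K₁`):
* `ι` : the set of nodes of the chart of `X₀(pM')`;
* for each `e : ι` a subring `Rₑ ⊆ F'` (the local ring of the normalised chart of the cover at
  ONE chosen point over `e`), a node ring with branches `𝔭₁ e`, `𝔭₂ e`, the SAME `π`;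
* `τ` the deck transformation; the branch valuation rings `(Rₑ)_{𝔭ᵢ e}` for varying `e` are
  all conjugate under powers of `τ` (SHEETS: Galois is transitive on the primes over `pᵢ`);
* `D, D'` the unit pair (in every `Rₑ`, fixed by `τ`), `f'` horizontally `p`-divisible with
  `τ f' = f' · c · G ^ p`, `c` a constant with `p ∣ v(c)`.
Conclusion: `∃ δ, ∀ e, N · slopeₑ(f') ≡ δ · slopeₑ(D) (mod p)`.
The Lean form of CORE is frozen in v2 of this file, after the NODE owners have fixed the fraction
form of `NodeRelStatement` (`f'` is a fraction, not an element of `Rₑ`). -/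

end Fermat.Agent.Ribet.H704.I6

end
-- ===== PACK-END Ribet/H704/I6Spec.lean

-- ===== PACK-BEGIN A2/H552/Const.lean
section








/-!
# A2 / ALG (c1), part 2 (helper552): no new constants in an unramified extension

`R` a Henselian discrete valuation ring of characteristic zero with algebraically closed residue
field, uniformiser `w`.

* `exists_algebraMap_eq_of_isAlgebraic` (ring form): `O ⊇ R` a domain whose non-units are exactly
  the multiples of `w` (a local ring with maximal ideal `w O`: "`e = 1`"; no finiteness, no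
  noetherianity, no rank assumption).  Then every element of `O` algebraic over `R` lies in `R`.
* `mem_range_of_isAlgebraic_of_valuationSubring` (field form): `E = Frac R`, `L / E` any field
  extension, `V` a valuation subring of `L` containing `R` in which `w` is a non-unit generating
  the non-units.  Then every element of `L` algebraic over `E` lies in `E`.

Application (A2, route G, step (c1)): `E` is algebraically closed in the Kummer cover `𝔽` of `F`
as soon as ONE of the two Gauss valuations `V₁` of `F` (uniformiser `w`) has an extension to `𝔽`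
with `e = 1` (e.g. when `V₁` splits completely).
-/

set_option autoImplicit false

namespace Fermat.Agent.A2.H552

open Polynomial IsLocalRing

section RingForm

variable {R O : Type*} [CommRing R] [IsDomain R] [IsDiscreteValuationRing R]
  [CommRing O] [IsDomain O] [Algebra R O]

/-- If `w^n` divides `r` in `O`, it does so in `R`. -/
theorem pow_dvd_of_map_pow_dvd {w : R} (hw : Irreducible w)
    (hwO : ¬ IsUnit (algebraMap R O w)) (hinj : Function.Injective (algebraMap R O))
    (n : ℕ) (r : R) (h : algebraMap R O w ^ n ∣ algebraMap R O r) : w ^ n ∣ r := by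
  rcases eq_or_ne r 0 with rfl | hr
  · exact dvd_zero _
  obtain ⟨a, u, rfl⟩ := IsDiscreteValuationRing.eq_unit_mul_pow_irreducible hr hw
  rcases le_or_gt n a with hna | hna
  · exact Dvd.dvd.mul_left (pow_dvd_pow w hna) _
  exfalso
  obtain ⟨k, rfl⟩ : ∃ k, n = a + (k + 1) := ⟨n - a - 1, by omega⟩
  have hw0 : algebraMap R O w ≠ 0 := by
    intro h0
    exact hw.ne_zero (hinj (by rw [h0, _root_.map_zero]))
  rw [_root_.map_mul, _root_.map_pow, pow_add, mul_comm (algebraMap R O (u : R))] at h
  have h' := (mul_dvd_mul_iff_left (pow_ne_zero a hw0)).mp h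
  have h'' : algebraMap R O w ∣ algebraMap R O (u : R) :=
    (dvd_pow_self _ (Nat.succ_ne_zero k)).trans h'
  exact hwO (isUnit_of_dvd_unit h'' (u.isUnit.map (algebraMap R O)))

variable [IsAlgClosed (ResidueField R)]

/-- The residue field of `O` is that of `R`: every element of `O` algebraic over `R` is
congruent modulo `w` to an element of `R`. -/
theorem exists_sub_dvd_of_isAlgebraic {w : R} (hw : Irreducible w)
    (hnu : ∀ b : O, ¬ IsUnit b → algebraMap R O w ∣ b)
    (hwO : ¬ IsUnit (algebraMap R O w)) (hinj : Function.Injective (algebraMap R O))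
    (β : O) (hβ : IsAlgebraic R β) : ∃ b : R, algebraMap R O w ∣ β - algebraMap R O b := by
  obtain ⟨p, hp0, hp⟩ := hβ
  have hmax : maximalIdeal R = Ideal.span {w} := hw.maximalIdeal_eq
  have hw0 : algebraMap R O w ≠ 0 := by
    intro h0
    exact hw.ne_zero (hinj (by rw [h0, _root_.map_zero]))
  have hCw : ¬ IsUnit (C w : R[X]) := by
    rw [Polynomial.isUnit_iff]
    rintro ⟨r, hr, hrw⟩
    rw [C_inj] at hrw
    exact hw.not_isUnit (hrw ▸ hr)
  -- make `p` primitive
  obtain ⟨n, p₀, hndvd, rfl⟩ := WfDvdMonoid.max_power_factor' hp0 hCw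
  have hp₀ : aeval β p₀ = 0 := by
    rw [_root_.map_mul, _root_.map_pow, aeval_C] at hp
    exact (mul_eq_zero.mp hp).resolve_left (pow_ne_zero n hw0)
  have hbar : p₀.map (residue R) ≠ 0 := by
    intro h
    apply hndvd
    rw [C_dvd_iff_dvd_coeff]
    intro i
    have hi : residue R (p₀.coeff i) = 0 := by
      rw [← coeff_map, h, coeff_zero]
    rw [residue_eq_zero_iff, hmax, Ideal.mem_span_singleton] at hi
    exact hi
  -- split the reduction and lift the factorisation
  set pb := p₀.map (residue R) with hpb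
  have hsplit : pb = C pb.leadingCoeff * (pb.roots.map fun x => X - C x).prod :=
    (IsAlgClosed.splits pb).eq_prod_roots
  have hsurj : Function.Surjective (residue R) := Ideal.Quotient.mk_surjective
  let lift : ResidueField R → R := Function.surjInv hsurj
  have hlift : ∀ x, residue R (lift x) = x := Function.surjInv_eq hsurj
  set ℓ := lift pb.leadingCoeff with hℓ
  have hℓu : IsUnit ℓ := by
    rw [← IsLocalRing.notMem_maximalIdeal, ← residue_eq_zero_iff, hℓ, hlift]
    exact leadingCoeff_ne_zero.mpr hbar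
  set P : R[X] := C ℓ * (pb.roots.map fun x => X - C (lift x)).prod with hP
  have hPbar : P.map (residue R) = pb := by
    rw [hP, Polynomial.map_mul, map_C, hℓ, hlift, Polynomial.map_multiset_prod,
      Multiset.map_map]
    conv_rhs => rw [hsplit]
    congr 2
    refine Multiset.map_congr rfl fun x _ => ?_
    simp [hlift]
  have hdiff : C w ∣ p₀ - P := by
    rw [C_dvd_iff_dvd_coeff]
    intro i
    have hi : residue R ((p₀ - P).coeff i) = 0 := by
      rw [← coeff_map, Polynomial.map_sub, hPbar, ← hpb, sub_self, coeff_zero]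
    rw [residue_eq_zero_iff, hmax, Ideal.mem_span_singleton] at hi
    exact hi
  obtain ⟨Q, hQ⟩ := hdiff
  have heval : aeval β P = - (algebraMap R O w * aeval β Q) := by
    have h1 : aeval β p₀ - aeval β P = algebraMap R O w * aeval β Q := by
      rw [← _root_.map_sub, hQ, _root_.map_mul, aeval_C]
    rw [hp₀, zero_sub] at h1
    rw [← h1, neg_neg]
  have hPeval : aeval β P = algebraMap R O ℓ *
      (pb.roots.map fun x => β - algebraMap R O (lift x)).prod := by
    rw [hP, _root_.map_mul, aeval_C, _root_.map_multiset_prod, Multiset.map_map]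
    congr 2
    refine Multiset.map_congr rfl fun x _ => ?_
    simp
  by_contra hcon
  have hunits : ∀ x ∈ pb.roots, IsUnit (β - algebraMap R O (lift x)) := by
    intro x _
    by_contra hx
    exact hcon ⟨lift x, hnu _ hx⟩
  have hprod : IsUnit (pb.roots.map fun x => β - algebraMap R O (lift x)).prod := by
    apply Multiset.prod_induction (p := fun y : O => IsUnit y)
    · intro a b ha hb; exact ha.mul hb
    · exact isUnit_one
    · intro y hy
      obtain ⟨x, hx, rfl⟩ := Multiset.mem_map.mp hy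
      exact hunits x hx
  have hPu : IsUnit (aeval β P) := by
    rw [hPeval]
    exact (hℓu.map (algebraMap R O)).mul hprod
  apply hwO
  refine isUnit_of_dvd_unit ?_ hPu
  rw [heval]
  exact (Dvd.intro _ rfl).neg_right ..

/-- Successive approximation: an element of `O` algebraic over `R` is congruent to an element
of `R` modulo every power of `w`. -/
theorem exists_pow_dvd_sub_of_isAlgebraic {w : R} (hw : Irreducible w)
    (hnu : ∀ b : O, ¬ IsUnit b → algebraMap R O w ∣ b)
    (hwO : ¬ IsUnit (algebraMap R O w)) (hinj : Function.Injective (algebraMap R O))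
    (α : O) (hα : IsAlgebraic R α) (j : ℕ) :
    ∃ s : R, algebraMap R O w ^ j ∣ α - algebraMap R O s := by
  have hw0 : algebraMap R O w ≠ 0 := by
    intro h0
    exact hw.ne_zero (hinj (by rw [h0, _root_.map_zero]))
  induction j with
  | zero => exact ⟨0, by simp⟩
  | succ j ih =>
    obtain ⟨s, β, hβ⟩ := ih
    have hβalg : IsAlgebraic R β := by
      refine IsAlgebraic.of_mul (y := algebraMap R O w ^ j)
        (mem_nonZeroDivisors_of_ne_zero (pow_ne_zero j hw0)) ?_ ?_
      · rw [← _root_.map_pow]; exact isAlgebraic_algebraMap _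
      · rw [← hβ]; exact hα.sub (isAlgebraic_algebraMap s)
    obtain ⟨b, γ, hγ⟩ := exists_sub_dvd_of_isAlgebraic hw hnu hwO hinj β hβalg
    refine ⟨s + w ^ j * b, γ, ?_⟩
    rw [_root_.map_add, _root_.map_mul, _root_.map_pow, pow_succ]
    linear_combination hβ + algebraMap R O w ^ j * hγ

omit [IsAlgClosed (ResidueField R)] in
/-- A nonzero element of `O` algebraic over `R` has finite `w`-adic valuation. -/
theorem exists_eq_pow_mul_unit_of_isAlgebraic {w : R} (hw : Irreducible w)
    (hnu : ∀ b : O, ¬ IsUnit b → algebraMap R O w ∣ b)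
    (hwO : ¬ IsUnit (algebraMap R O w)) (hinj : Function.Injective (algebraMap R O))
    (γ : O) (hγ0 : γ ≠ 0) (hγ : IsAlgebraic R γ) :
    ∃ (c : ℕ) (η : O), IsUnit η ∧ γ = algebraMap R O w ^ c * η := by
  obtain ⟨r, hr0, hr⟩ := hγ.exists_nonzero_dvd (mem_nonZeroDivisors_of_ne_zero hγ0)
  obtain ⟨a, u, rfl⟩ := IsDiscreteValuationRing.eq_unit_mul_pow_irreducible hr0 hw
  by_contra hcon
  have hall : ∀ c, algebraMap R O w ^ c ∣ γ := by
    intro c
    induction c with
    | zero => simp
    | succ c ih =>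
      obtain ⟨η, hη⟩ := ih
      have hηu : ¬ IsUnit η := fun hu => hcon ⟨c, η, hu, hη⟩
      obtain ⟨η', hη'⟩ := hnu η hηu
      exact ⟨η', by rw [hη, hη', pow_succ, mul_assoc]⟩
  have h1 : algebraMap R O w ^ (a + 1) ∣ algebraMap R O (↑u * w ^ a) := (hall (a + 1)).trans hr
  have h2 := pow_dvd_of_map_pow_dvd hw hwO hinj (a + 1) _ h1
  rw [pow_succ, mul_comm (u : R)] at h2
  have h3 := (mul_dvd_mul_iff_left (pow_ne_zero a hw.ne_zero)).mp h2
  exact hw.not_isUnit (isUnit_of_dvd_unit h3 u.isUnit)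

/-- **No new constants (ring form).**  `R` a Henselian discrete valuation ring of characteristic
zero with algebraically closed residue field and uniformiser `w`; `O ⊇ R` a domain whose
non-units are exactly the multiples of `w`.  Then every element of `O` which is algebraic over
`R` lies in `R`. -/
theorem exists_algebraMap_eq_of_isAlgebraic [HenselianLocalRing R] [CharZero R] {w : R}
    (hw : Irreducible w)
    (hnu : ∀ b : O, ¬ IsUnit b → algebraMap R O w ∣ b)
    (hwO : ¬ IsUnit (algebraMap R O w)) (hinj : Function.Injective (algebraMap R O))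
    (α : O) (hα : IsAlgebraic R α) : ∃ r : R, algebraMap R O r = α := by
  classical
  have hw0 : algebraMap R O w ≠ 0 := by
    intro h0
    exact hw.ne_zero (hinj (by rw [h0, _root_.map_zero]))
  -- a nonzero polynomial of minimal degree killing `α`
  have hex : ∃ n, ∃ p : R[X], p ≠ 0 ∧ aeval α p = 0 ∧ p.natDegree = n := by
    obtain ⟨p, hp0, hp⟩ := hα
    exact ⟨_, p, hp0, hp, rfl⟩
  obtain ⟨p, hp0, hp, hpn⟩ := Nat.find_spec hex
  have hmin : ∀ q : R[X], q ≠ 0 → aeval α q = 0 → p.natDegree ≤ q.natDegree := by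
    intro q hq0 hq
    rw [hpn]
    exact Nat.find_min' hex ⟨q, hq0, hq, rfl⟩
  have hdeg : p.natDegree ≠ 0 := by
    intro h
    have hpC := eq_C_of_natDegree_eq_zero h
    rw [hpC, aeval_C] at hp
    have h0 : p.coeff 0 = 0 := hinj (hp.trans (_root_.map_zero _).symm)
    rw [h0, C_0] at hpC
    exact hp0 hpC
  have hder0 : derivative p ≠ 0 := fun h => hdeg (derivative_eq_zero.mp h)
  have hderα : aeval α (derivative p) ≠ 0 := fun h =>
    absurd (hmin _ hder0 h) (not_le.mpr (natDegree_derivative_lt hdeg))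
  have hγalg : IsAlgebraic R (aeval α (derivative p)) :=
    Algebra.isAlgebraic_adjoin_singleton_iff.mpr hα _ (aeval_mem_adjoin_singleton R α)
  obtain ⟨c, η, hη, hγ⟩ :=
    exists_eq_pow_mul_unit_of_isAlgebraic hw hnu hwO hinj _ hderα hγalg
  obtain ⟨s, δ, hδ⟩ := exists_pow_dvd_sub_of_isAlgebraic hw hnu hwO hinj α hα (2 * c + 1)
  have hsα : algebraMap R O s - α = -(algebraMap R O w ^ (2 * c + 1) * δ) := by
    rw [← hδ]; ring
  have hdvd : ∀ q : R[X], algebraMap R O s - α ∣ algebraMap R O (q.eval s) - aeval α q := by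
    intro q
    have := sub_dvd_eval_sub (algebraMap R O s) α (q.map (algebraMap R O))
    rwa [eval_map, eval_map, eval₂_at_apply, ← aeval_def] at this
  -- `p(s)` is divisible by `w^(2c+1)`
  have e2 : algebraMap R O w ^ (2 * c + 1) ∣ algebraMap R O (p.eval s) := by
    have e1 := hdvd p
    rw [hp, sub_zero] at e1
    refine Dvd.dvd.trans ?_ e1
    exact ⟨-δ, by rw [hsα]; ring⟩
  obtain ⟨u, hu⟩ := pow_dvd_of_map_pow_dvd hw hwO hinj _ _ e2
  -- `p'(s) = w^c * unit`
  obtain ⟨κ, hκ⟩ := hdvd (derivative p)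
  set η' := η - algebraMap R O w ^ (c + 1) * δ * κ with hη'
  have hη'eq : algebraMap R O ((derivative p).eval s) = algebraMap R O w ^ c * η' := by
    have h5 : algebraMap R O ((derivative p).eval s) =
        aeval α (derivative p) + (algebraMap R O s - α) * κ := by
      rw [← hκ]; ring
    rw [h5, hγ, hsα, hη']
    ring
  have hη'u : IsUnit η' := by
    by_contra h
    obtain ⟨t, ht⟩ := hnu _ h
    have hdvdη : algebraMap R O w ∣ η :=
      ⟨t + algebraMap R O w ^ c * δ * κ, by
        have : η = η' + algebraMap R O w ^ (c + 1) * δ * κ := by rw [hη']; ring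
        rw [this, ht]; ring⟩
    exact hwO (isUnit_of_dvd_unit hdvdη hη)
  obtain ⟨ε, hε⟩ := pow_dvd_of_map_pow_dvd hw hwO hinj c _ (Dvd.intro _ hη'eq.symm)
  have hεu : IsUnit ε := by
    have hφε : algebraMap R O ε = η' := by
      have h6 : algebraMap R O w ^ c * algebraMap R O ε = algebraMap R O w ^ c * η' := by
        rw [← hη'eq, hε, _root_.map_mul, _root_.map_pow]
      exact mul_left_cancel₀ (pow_ne_zero c hw0) h6
    by_contra h
    have hmem : ε ∈ maximalIdeal R := by rwa [mem_maximalIdeal, mem_nonunits_iff]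
    rw [hw.maximalIdeal_eq, Ideal.mem_span_singleton] at hmem
    obtain ⟨t, rfl⟩ := hmem
    apply hwO
    refine isUnit_of_dvd_unit ?_ hη'u
    rw [← hφε, _root_.map_mul]
    exact Dvd.intro _ rfl
  have hwm : w ∈ maximalIdeal R := by
    rw [hw.maximalIdeal_eq]
    exact Ideal.mem_span_singleton_self w
  obtain ⟨a, ha, -⟩ := exists_root_of_approx p s w u ε c hwm hεu hu hε
  -- split off the root
  have hfac : (X - C a) * (p /ₘ (X - C a)) = p := mul_divByMonic_eq_iff_isRoot.mpr ha
  set p₁ := p /ₘ (X - C a) with hp₁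
  have hp₁0 : p₁ ≠ 0 := by
    intro h
    rw [h, mul_zero] at hfac
    exact hp0 hfac.symm
  have hdeg1 : p.natDegree = 1 + p₁.natDegree := by
    conv_lhs => rw [← hfac]
    rw [natDegree_mul (X_sub_C_ne_zero a) hp₁0, natDegree_X_sub_C]
  have hp₁α : aeval α p₁ ≠ 0 := fun h => by
    have := hmin p₁ hp₁0 h
    omega
  refine ⟨a, ?_⟩
  have h7 := congrArg (aeval α) hfac
  rw [_root_.map_mul, hp, _root_.map_sub, aeval_X, aeval_C] at h7
  have h8 := (mul_eq_zero.mp h7).resolve_right hp₁α
  exact (sub_eq_zero.mp h8).symm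

end RingForm

section FieldForm

variable {R E L : Type*} [CommRing R] [IsDomain R] [IsDiscreteValuationRing R]
  [HenselianLocalRing R] [IsAlgClosed (ResidueField R)]
  [Field E] [CharZero E] [Algebra R E] [IsFractionRing R E]
  [Field L] [Algebra E L] [Algebra R L] [IsScalarTower R E L]

/-- **No new constants (field form).**  `R` a Henselian discrete valuation ring with
algebraically closed residue field, uniformiser `w`, fraction field `E` of characteristic zero;
`L / E` an arbitrary field extension and `V` a valuation subring of `L` containing `R`, in which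
`w` is a non-unit and generates the non-units (i.e. `V` is unramified over `R`).  Then `E` is
algebraically closed in `L`. -/
theorem mem_range_of_isAlgebraic_of_valuationSubring (w : R) (hw : Irreducible w)
    (V : ValuationSubring L) (hRV : ∀ r : R, algebraMap R L r ∈ V)
    (hwV : (algebraMap R L w)⁻¹ ∉ V)
    (hgen : ∀ b ∈ V, b⁻¹ ∉ V → b * (algebraMap R L w)⁻¹ ∈ V)
    (a : L) (ha : IsAlgebraic E a) : a ∈ (algebraMap E L).range := by
  have hinjRE : Function.Injective (algebraMap R E) := IsFractionRing.injective R E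
  have hinjRL : Function.Injective (algebraMap R L) := by
    rw [IsScalarTower.algebraMap_eq R E L]
    exact (algebraMap E L).injective.comp hinjRE
  have : CharZero R := ⟨fun m n h => Nat.cast_injective (R := E) (by
    have := congrArg (algebraMap R E) h
    simpa using this)⟩
  have hwL : algebraMap R L w ≠ 0 := by
    intro h0
    exact hw.ne_zero (hinjRL (by rw [h0, _root_.map_zero]))
  let algV : Algebra R V := ((algebraMap R L).codRestrict V.toSubring hRV).toAlgebra
  have hcoe : ∀ r : R, ((algebraMap R V r : V) : L) = algebraMap R L r := fun _ => rfl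
  have hinjV : Function.Injective (algebraMap R V) := by
    intro r r' h
    apply hinjRL
    rw [← hcoe, ← hcoe, h]
  have hnu : ∀ b : V, ¬ IsUnit b → algebraMap R V w ∣ b := by
    intro b hb
    rcases eq_or_ne (b : L) 0 with h0 | h0
    · have : b = 0 := Subtype.ext h0
      rw [this]
      exact dvd_zero _
    have hbinv : (b : L)⁻¹ ∉ V := by
      intro hmem
      apply hb
      refine IsUnit.of_mul_eq_one (⟨(b : L)⁻¹, hmem⟩ : V) (Subtype.ext ?_)
      change (b : L) * (b : L)⁻¹ = 1
      exact mul_inv_cancel₀ h0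
    refine ⟨⟨(b : L) * (algebraMap R L w)⁻¹, hgen _ b.2 hbinv⟩, Subtype.ext ?_⟩
    change (b : L) = algebraMap R L w * ((b : L) * (algebraMap R L w)⁻¹)
    field_simp
  have hwO : ¬ IsUnit (algebraMap R V w) := by
    intro hu
    obtain ⟨c, hc⟩ := hu.exists_right_inv
    have hcL : algebraMap R L w * (c : L) = 1 := by
      have := congrArg (fun x : V => (x : L)) hc
      rw [← hcoe]
      simpa using this
    have : (algebraMap R L w)⁻¹ = (c : L) := by
      rw [inv_eq_iff_eq_inv]
      exact eq_inv_of_mul_eq_one_left hcL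
    exact hwV (this ▸ c.2)
  have core : ∀ x ∈ V, IsAlgebraic E x → x ∈ (algebraMap E L).range := by
    intro x hx hxalg
    have hxR : IsAlgebraic R x := (IsFractionRing.isAlgebraic_iff R E L).mpr hxalg
    obtain ⟨p, hp0, hp⟩ := hxR
    have hx' : IsAlgebraic R (⟨x, hx⟩ : V) := by
      refine ⟨p, hp0, Subtype.ext ?_⟩
      have h1 : V.subtype (aeval (⟨x, hx⟩ : V) p) =
          eval₂ (V.subtype.comp (algebraMap R V)) (V.subtype ⟨x, hx⟩) p := by
        rw [aeval_def, hom_eval₂]
      have h2 : V.subtype.comp (algebraMap R V) = algebraMap R L := RingHom.ext fun _ => rfl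
      rw [h2] at h1
      change V.subtype (aeval (⟨x, hx⟩ : V) p) = 0
      rw [h1]
      change eval₂ (algebraMap R L) x p = 0
      rw [← aeval_def]
      exact hp
    obtain ⟨r, hr⟩ := exists_algebraMap_eq_of_isAlgebraic hw hnu hwO hinjV _ hx'
    refine ⟨algebraMap R E r, ?_⟩
    rw [← IsScalarTower.algebraMap_apply R E L, ← hcoe, hr]
  rcases V.mem_or_inv_mem a with h | h
  · exact core a h ha
  · obtain ⟨e, he⟩ := core a⁻¹ h (IsAlgebraic.inv_iff.mpr ha)
    refine ⟨e⁻¹, ?_⟩
    rw [map_inv₀, he, inv_inv]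

end FieldForm

end Fermat.Agent.A2.H552

end
-- ===== PACK-END A2/H552/Const.lean

-- ===== PACK-BEGIN S28/H386/Toolkit.lean
section
/-
S28 [L] toolkit (helper386): orders of Laurent series, the twist `q ↦ ξ q`,
and the fact that `j` has degree `≥ p` over the range of `V_p = qExpand p`.
-/



set_option autoImplicit false

noncomputable section

open ModularCurve HahnSeries Polynomial

namespace Fermat.Agent.S28.H386

variable {k : Type*} [Field k]

/-! ### Orders -/

theorem order_eq_of_coeff {x : LaurentSeries k} {n : ℤ} (h1 : x.coeff n ≠ 0)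
    (h2 : ∀ m < n, x.coeff m = 0) : x.order = n := by
  refine le_antisymm (HahnSeries.order_le_of_coeff_ne_zero h1) ?_
  by_contra hlt
  rw [not_le] at hlt
  have hx : x ≠ 0 := fun h => h1 (by rw [h]; rfl)
  exact (HahnSeries.coeff_order_eq_zero.not.mpr hx) (h2 _ hlt)

theorem jqModC_ne_zero : jqModC k ≠ 0 := jqModC_ne_zero_of_nontrivial k

theorem order_jqModC : (jqModC k).order = -1 :=
  order_eq_of_coeff (by rw [coeff_jqModC_neg_one]; exact one_ne_zero)
    (fun _ hm => coeff_jqModC_of_lt k hm)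

theorem order_jqModC_pow (i : ℕ) : ((jqModC k) ^ i).order = -(i : ℤ) := by
  rw [HahnSeries.order_pow, order_jqModC]; simp

theorem qExpand_ne_zero (p : ℕ) [NeZero p] {f : LaurentSeries k} (hf : f ≠ 0) :
    qExpand k p f ≠ 0 := fun h => hf (qExpand_injective p (by rw [h, _root_.map_zero]))

theorem order_qExpand (p : ℕ) [NeZero p] (f : LaurentSeries k) :
    (qExpand k p f).order = (p : ℤ) * f.order := by
  by_cases hf : f = 0
  · simp [hf]
  refine order_eq_of_coeff ?_ ?_
  · rw [qExpand_coeff_mul]; exact HahnSeries.coeff_order_eq_zero.not.mpr hf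
  · intro m hm
    by_cases hd : (p : ℤ) ∣ m
    · obtain ⟨c, rfl⟩ := hd
      rw [qExpand_coeff_mul]
      refine HahnSeries.coeff_eq_zero_of_lt_order ?_
      have hp : (0 : ℤ) < p := by exact_mod_cast Nat.pos_of_ne_zero (NeZero.ne p)
      exact lt_of_mul_lt_mul_left hm hp.le
    · exact qExpand_coeff_of_not_dvd p f hd

/-- The order of an element of the range of `V_p` is divisible by `p`. -/
theorem dvd_order_of_mem_range (p : ℕ) [NeZero p] {x : LaurentSeries k}
    (hx : x ∈ Set.range (qExpand k p)) : (p : ℤ) ∣ x.order := by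
  obtain ⟨f, rfl⟩ := hx
  rw [order_qExpand]; exact dvd_mul_right _ _

/-! ### `j` has degree at least `p` over the range of `V_p` -/

/-- A nonzero polynomial of degree `< p` with coefficients in the range of `V_p` does not
vanish at `j`. -/
theorem eval_jqModC_ne_zero_of_natDegree_lt (p : ℕ) [NeZero p] (P : (LaurentSeries k)[X])
    (hP : P ≠ 0) (hdeg : P.natDegree < p)
    (hcoef : ∀ i, P.coeff i ∈ Set.range (qExpand k p)) :
    P.eval (jqModC k) ≠ 0 := by
  classical
  -- valuation of the `i`-th term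
  set v : ℕ → ℤ := fun i => (P.coeff i).order - i with hv
  have hsupp : P.support.Nonempty := by
    rwa [Finset.nonempty_iff_ne_empty, Ne, Polynomial.support_eq_empty]
  obtain ⟨i₀, hi₀, hmin⟩ := Finset.exists_min_image P.support v hsupp
  have hlt : ∀ i ∈ P.support, i < p := fun i hi =>
    lt_of_le_of_lt (Polynomial.le_natDegree_of_mem_supp i hi) hdeg
  have hinj : ∀ i ∈ P.support, i ≠ i₀ → v i ≠ v i₀ := by
    intro i hi hne heq
    obtain ⟨a, ha⟩ := dvd_order_of_mem_range p (hcoef i)
    obtain ⟨b, hb⟩ := dvd_order_of_mem_range p (hcoef i₀)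
    have h1 := hlt i hi
    have h2 := hlt i₀ hi₀
    simp only [hv, ha, hb] at heq
    have h3 : (p : ℤ) * (a - b) = (i : ℤ) - i₀ := by linarith
    have h4 : (p : ℤ) ∣ (i : ℤ) - i₀ := ⟨a - b, h3.symm⟩
    have h5 : ((i : ℤ) - i₀) = 0 := by
      apply Int.eq_zero_of_abs_lt_dvd h4
      rw [abs_lt]; constructor <;> omega
    exact hne (by omega)
  have hterm : ∀ i ∈ P.support, (P.coeff i * (jqModC k) ^ i).order = v i := by
    intro i hi
    have hc : P.coeff i ≠ 0 := Polynomial.mem_support_iff.mp hi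
    rw [HahnSeries.order_mul hc (pow_ne_zero _ jqModC_ne_zero), order_jqModC_pow]
    simp [hv, sub_eq_add_neg]
  intro h0
  have hcoeff : (P.eval (jqModC k)).coeff (v i₀) = 0 := by rw [h0]; rfl
  rw [Polynomial.eval_eq_sum, Polynomial.sum_def] at hcoeff
  have hsum : (∑ n ∈ P.support, P.coeff n * jqModC k ^ n).coeff (v i₀)
      = ∑ n ∈ P.support, (P.coeff n * jqModC k ^ n).coeff (v i₀) := by
    exact _root_.map_sum (HahnSeries.coeff.addMonoidHom (v i₀)) _ _
  rw [hsum, Finset.sum_eq_single_of_mem i₀ hi₀] at hcoeff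
  · have hc : P.coeff i₀ ≠ 0 := Polynomial.mem_support_iff.mp hi₀
    have hne : P.coeff i₀ * jqModC k ^ i₀ ≠ 0 :=
      mul_ne_zero hc (pow_ne_zero _ jqModC_ne_zero)
    rw [← hterm i₀ hi₀] at hcoeff
    exact (HahnSeries.coeff_order_eq_zero.not.mpr hne) hcoeff
  · intro i hi hne
    refine HahnSeries.coeff_eq_zero_of_lt_order ?_
    rw [hterm i hi]
    exact lt_of_le_of_ne (hmin i hi) (Ne.symm (hinj i hi hne))

end Fermat.Agent.S28.H386

end
end
-- ===== PACK-END S28/H386/Toolkit.lean

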