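import Mathlib
import Fermat.Prelude.Def_ModularCurve_JqCoeff
import Fermat.Prelude.Def_ModularCurve_ReductionModL
import Mathlib.Data.Nat.Factorization.Induction
import Mathlib.Algebra.Squarefree.Basic
import Mathlib.Data.Nat.Squarefree
import Fermat.Prelude.Def_GaloisRep_Flat
import Fermat.Prelude.Def_AlgebraicCurve_DivisorClassGroup
import Mathlib.RingTheory.Valuation.Basic
import Mathlib.RingTheory.LocalRing.ResidueField.Basic
import Fermat.Agent.Pack.S33.E5L2
import Fermat.Agent.Pack.S33.E1L0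
import Fermat.Agent.Pack.S33.E1L3
import Fermat.Agent.Pack.S33.E5L3
import Fermat.Agent.Pack.S33.E5L0
import Fermat.Agent.Pack.S33.E2L0
import Fermat.Agent.Pack.S33.E4L3
import Fermat.Agent.Pack.S33.E6L1
import Fermat.Agent.Pack.S33.E6L0
import Fermat.Agent.Pack.S33.E6L3

-- ===== PACK-BEGIN S28/H25/ThetaFormal.lean
section




/-!
# The `θ`-identity for `j`, formal part (helper25, S28 piece [A-θ])

`(θ j)⁶ = Δ · j⁴ · (j - 1728)³` in `ℤ((q))`, for the Prelude's formal `j = jqModC ℤ`,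
`Δ = q · dedekindEtaUnit`, `θ = q d/dq`, assuming the two bridges
* `qExpansion 1 E₄ = eisenstein4` (proved here) and
* `qExpansion 1 Δ = X * dedekindEtaUnit` (hypothesis `DeltaBridge`).
-/

set_option autoImplicit false

open UpperHalfPlane hiding I
open ModularForm EisensteinSeries ModularCurve
open scoped MatrixGroups

noncomputable section

namespace Fermat.Agent.S28.H25

section thetaP

variable {R : Type*} [CommRing R]

theorem thetaP_mul (f g : PowerSeries R) :
    thetaP (f * g) = thetaP f * g + f * thetaP g := by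
  unfold thetaP
  rw [Derivation.leibniz]
  simp only [smul_eq_mul]
  ring

theorem thetaP_X : thetaP (PowerSeries.X : PowerSeries R) = PowerSeries.X := by
  unfold thetaP
  rw [PowerSeries.derivative_X, mul_one]

theorem thetaP_pow_three (f : PowerSeries R) :
    thetaP (f ^ 3) = 3 * f ^ 2 * thetaP f := by
  have : f ^ 3 = f * (f * f) := by ring
  rw [this, thetaP_mul, thetaP_mul]
  ring

theorem thetaP_map {S : Type*} [CommRing S] (φ : R →+* S) (f : PowerSeries R) :
    thetaP (f.map φ) = (thetaP f).map φ := by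
  ext n
  simp [coeff_thetaP]

end thetaP

/-- Pure algebra: the `θ`-identity from the two analytic relations, over a field. -/
theorem theta_identity_of_relations {K : Type*} [Field K]
    (E e6 et eti u : PowerSeries K) (h0 : et * eti = 1) (hu : u = E ^ 3 * eti)
    (hi : E ^ 3 - e6 ^ 2 = 1728 * (PowerSeries.X * et))
    (hii : 3 * E ^ 2 * thetaP E * (PowerSeries.X * et) - E ^ 3 * thetaP (PowerSeries.X * et) =
      - (E ^ 2 * e6 * (PowerSeries.X * et))) :
    (thetaP u - u) ^ 6 = et * u ^ 4 * (u - 1728 * PowerSeries.X) ^ 3 := by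
  have heta : et ≠ 0 := by
    rintro rfl
    simp at h0
  have hX : (PowerSeries.X : PowerSeries K) ≠ 0 := PowerSeries.X_ne_zero
  have hueta : u * et = E ^ 3 := by
    rw [hu]
    linear_combination E ^ 3 * h0
  have hθ : thetaP u * et + u * thetaP et = 3 * E ^ 2 * thetaP E := by
    rw [← thetaP_mul, hueta, thetaP_pow_three]
  have hbr : 3 * E ^ 2 * thetaP E * et - E ^ 3 * et - E ^ 3 * thetaP et + E ^ 2 * e6 * et = 0 := by
    have h1 : PowerSeries.X * (3 * E ^ 2 * thetaP E * et - E ^ 3 * et - E ^ 3 * thetaP et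
        + E ^ 2 * e6 * et) = 0 := by
      rw [thetaP_mul, thetaP_X] at hii
      linear_combination hii
    rcases mul_eq_zero.mp h1 with h | h
    · exact absurd h hX
    · exact h
  have h1 : (thetaP u - u) * et = - (E ^ 2 * e6) := by
    apply mul_right_cancel₀ heta
    linear_combination et * hθ + hbr - (thetaP et + et) * hueta
  have h2 : e6 ^ 2 = et * (u - 1728 * PowerSeries.X) := by
    linear_combination -hi - hueta
  have h3 : ((thetaP u - u) * et) ^ 6 = et ^ 6 * (et * u ^ 4 * (u - 1728 * PowerSeries.X) ^ 3) := by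
    calc ((thetaP u - u) * et) ^ 6 = (- (E ^ 2 * e6)) ^ 6 := by rw [h1]
      _ = (E ^ 3) ^ 4 * (e6 ^ 2) ^ 3 := by ring
      _ = (u * et) ^ 4 * (et * (u - 1728 * PowerSeries.X)) ^ 3 := by rw [hueta, h2]
      _ = et ^ 6 * (et * u ^ 4 * (u - 1728 * PowerSeries.X) ^ 3) := by ring
  apply mul_left_cancel₀ (pow_ne_zero 6 heta)
  rw [← h3]
  ring

/-- Bridge B1: the `q`-expansion of `E₄` is the Prelude's `eisenstein4`. -/
theorem qExpansion_E4_eq_eisenstein4 :
    qExpansion 1 E₄ = eisenstein4.map (Int.castRingHom ℂ) := by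
  ext m
  rw [E_qExpansion_coeff _ ⟨2, rfl⟩]
  simp only [eisenstein4, PowerSeries.coeff_map, PowerSeries.coeff_mk]
  split_ifs with h
  · simp
  · norm_num [show bernoulli 4 = -1 / 30 by decide +kernel, ArithmeticFunction.sigma_apply]

/-- Bridge B2 (to be supplied): the `q`-expansion of `Δ` is `q ∏ (1 - qⁿ)²⁴`. -/
def DeltaBridge : Prop :=
  qExpansion 1 ModularForm.discriminant =
    PowerSeries.X * dedekindEtaUnit.map (Int.castRingHom ℂ)

/-- The `θ`-identity in `ℤ⟦q⟧`: with `u = q · j = E₄³ / ∏(1-qⁿ)²⁴`,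
`(θ u - u)⁶ = ∏(1-qⁿ)²⁴ · u⁴ · (u - 1728 q)³`. -/
theorem theta_identity_powerSeries (hΔ : DeltaBridge) :
    (thetaP jNum - jNum) ^ 6 =
      dedekindEtaUnit * jNum ^ 4 * (jNum - 1728 * PowerSeries.X) ^ 3 := by
  have hinj : Function.Injective (PowerSeries.map (Int.castRingHom ℂ)) := by
    intro f g hfg
    ext n
    have := congrArg (PowerSeries.coeff n) hfg
    simpa using this
  apply hinj
  have hΔ' : qExpansion 1 ModularForm.discriminant =
      PowerSeries.X * dedekindEtaUnit.map (Int.castRingHom ℂ) := hΔ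
  have h := theta_identity_of_relations (K := ℂ) (eisenstein4.map (Int.castRingHom ℂ))
    (qExpansion 1 E₆) (dedekindEtaUnit.map (Int.castRingHom ℂ))
    (dedekindEtaUnitInv.map (Int.castRingHom ℂ)) (jNum.map (Int.castRingHom ℂ))
    (by rw [← map_mul, dedekindEtaUnit_mul_inv, map_one])
    (by rw [jNum, map_mul, map_pow])
    (by rw [← qExpansion_E4_eq_eisenstein4, ← hΔ']; exact qExp_E4_cube_sub_E6_sq)
    (by rw [← qExpansion_E4_eq_eisenstein4, ← hΔ']; exact qExp_theta_relation)
  simp only [map_pow, map_mul, map_sub, map_ofNat, PowerSeries.map_X, ← thetaP_map]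
  exact h

end Fermat.Agent.S28.H25

end
end
-- ===== PACK-END S28/H25/ThetaFormal.lean

-- ===== PACK-BEGIN S18/H516/GaussDecomp.lean
section






/-!
# S18 / MOD (helper516): Gauss decomposition from the S28 basis

`A` a valuation subring of a field `L ⊇ ℚ`, `π : A →+* k` any ring hom to a field `k`
such that `CoreData N k` holds (S28; true when `char k ∤ N`).

* `exists_gauss_decomp` (G4): every `f ≠ 0` in `F_L` is `c · U₁ / U₂` with `U₁, U₂ ∈ A((q))`,
  images in `F_L`, reductions in `F_k` and nonzero.  (This is `PrincipalGeneratedByIntegral`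
  as a theorem, valid at every level.)
* `red_mem_of_incl_mem` (G5): `U ∈ A((q))` with image in `F_L` has reduction in `F_k`.
-/

set_option autoImplicit false
set_option linter.unusedSectionVars false

noncomputable section

namespace Fermat.Agent.S18.H516

open ModularCurve IntermediateField Polynomial Fermat.Agent.S28

section Scale

variable {L : Type*} [Field L] (A : ValuationSubring L)

/-- Joint scaling of a finite family of polynomials over the fraction field of a valuation ring: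
after division by a suitable constant all coefficients are integral and one of them is `1`. -/
theorem exists_scale {n : ℕ} (H : Fin n → L[X]) (hH : ∃ i, H i ≠ 0) :
    ∃ (c : L) (H' : Fin n → A[X]), c ≠ 0 ∧
      (∀ i, (H' i).map A.subtype = C c⁻¹ * H i) ∧ ∃ i m, (H' i).coeff m = 1 := by
  classical
  set T : Finset (Σ _ : Fin n, ℕ) := Finset.univ.sigma (fun i => (H i).support) with hT
  have hTne : T.Nonempty := by
    obtain ⟨i, hi⟩ := hH
    obtain ⟨m, hm⟩ : (H i).support.Nonempty := by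
      rw [Finset.nonempty_iff_ne_empty, Ne, Polynomial.support_eq_empty]
      exact hi
    exact ⟨⟨i, m⟩, by simp [hT, hm]⟩
  obtain ⟨⟨i0, m0⟩, h0T, hmax⟩ := Finset.exists_max_image T
    (fun p => A.valuation ((H p.1).coeff p.2)) hTne
  have hc : (H i0).coeff m0 ≠ 0 := by
    have : m0 ∈ (H i0).support := by simpa [hT] using h0T
    exact Polynomial.mem_support_iff.mp this
  set c : L := (H i0).coeff m0 with hcdef
  have hmem : ∀ i m, c⁻¹ * (H i).coeff m ∈ A := by
    intro i m
    by_cases h0 : (H i).coeff m = 0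
    · rw [h0, mul_zero]; exact _root_.ZeroMemClass.zero_mem _
    · have hT' : (⟨i, m⟩ : Σ _ : Fin n, ℕ) ∈ T := by
        simp [hT, Polynomial.mem_support_iff, h0]
      have hle := hmax ⟨i, m⟩ hT'
      rw [← A.valuation_le_one_iff, _root_.map_mul, map_inv₀]
      have hvc : A.valuation c ≠ 0 := (_root_.map_ne_zero _).mpr hc
      rw [inv_mul_le_iff₀ (zero_lt_iff.mpr hvc), mul_one]
      exact hle
  have hsub : ∀ i, (↑(C c⁻¹ * H i).coeffs : Set L) ⊆ A.toSubring := by
    intro i x hx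
    rw [Finset.mem_coe, Polynomial.mem_coeffs_iff] at hx
    obtain ⟨m, -, rfl⟩ := hx
    rw [Polynomial.coeff_C_mul]
    exact hmem i m
  refine ⟨c, fun i => (C c⁻¹ * H i).toSubring A.toSubring (hsub i), hc,
    fun i => Polynomial.map_toSubring _ A.toSubring (hsub i), i0, m0, ?_⟩
  apply Subtype.ext
  rw [Polynomial.coeff_toSubring, Polynomial.coeff_C_mul]
  show c⁻¹ * c = 1
  exact inv_mul_cancel₀ hc

end Scale

section Eval

variable {R S : Type*} [CommRing R] [CommRing S]

theorem coeffMap_C (f : R →+* S) (a : R) :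
    coeffMap f (HahnSeries.C (Γ := ℤ) a) = HahnSeries.C (f a) := by
  rw [HahnSeries.C_apply, HahnSeries.C_apply, coeffMap_single]

/-- Evaluation of a polynomial at `j ∈ R((q))`. -/
def evJ (P : R[X]) : LaurentSeries R := P.eval₂ (HahnSeries.C (Γ := ℤ) (R := R)) (jqModC R)

theorem coeffMap_evJ (f : R →+* S) (P : R[X]) : coeffMap f (evJ P) = evJ (P.map f) := by
  rw [evJ, evJ, hom_eval₂, eval₂_map, coeffMap_jqModC]
  congr 1
  ext a
  exact congrArg (fun z : LaurentSeries S => z.coeff _) (coeffMap_C f a)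

theorem evJ_add (P Q : R[X]) : evJ (P + Q) = evJ P + evJ Q := eval₂_add _ _

theorem evJ_mul (P Q : R[X]) : evJ (P * Q) = evJ P * evJ Q := eval₂_mul _ _

theorem evJ_C (a : R) : evJ (C a) = HahnSeries.C a := eval₂_C _ _

theorem evJ_zero : evJ (0 : R[X]) = 0 := eval₂_zero _ _

theorem evJ_one : evJ (1 : R[X]) = 1 := eval₂_one _ _

theorem evJ_prod {ι : Type*} (s : Finset ι) (g : ι → R[X]) :
    evJ (∏ i ∈ s, g i) = ∏ i ∈ s, evJ (g i) :=
  eval₂_finsetProd _ _ _ _

end Eval

section Field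

variable (K : Type*) [Field K]

theorem aeval_eq_evJ (Q : K[X]) : aeval (jqModC K) Q = evJ Q := by
  rw [aeval_def, evJ]
  congr 1
  ext a
  rw [algebraMap_laurentSeries_eq_single, HahnSeries.C_apply]

theorem evJ_eq_zero_iff {Q : K[X]} : evJ Q = 0 ↔ Q = 0 := by
  constructor
  · intro h
    exact Fermat.Agent.S28.H806.eq_zero_of_eval₂_C_eq_zero (jqModC K)
      (Fermat.Agent.S28.H806.jqModC_order_ne_zero K) Q h
  · rintro rfl
    exact evJ_zero

theorem evJ_mem_jField (Q : K[X]) : evJ Q ∈ jField K := by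
  rw [← aeval_eq_evJ, jField, mem_adjoin_simple_iff]
  exact ⟨Q, 1, by simp⟩

theorem exists_fraction {c : LaurentSeries K} (hc : c ∈ jField K) :
    ∃ r s : K[X], s ≠ 0 ∧ evJ s * c = evJ r := by
  rw [jField, mem_adjoin_simple_iff] at hc
  obtain ⟨r, s, rfl⟩ := hc
  by_cases hs : s = 0
  · refine ⟨0, 1, one_ne_zero, ?_⟩
    rw [hs, _root_.map_zero, div_zero, mul_zero, evJ_zero]
  · refine ⟨r, s, hs, ?_⟩
    have hs' : aeval (jqModC K) s ≠ 0 := by
      rw [aeval_eq_evJ]
      exact fun h => hs (evJ_eq_zero_iff K |>.mp h)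
    rw [← aeval_eq_evJ, ← aeval_eq_evJ]
    field_simp

/-- Clearing denominators in a `K(j)`-linear combination. -/
theorem exists_cleared {n : ℕ} (v : Fin n → LaurentSeries K) {x : LaurentSeries K}
    (hx : x ∈ Submodule.span (jField K) (Set.range v)) :
    ∃ (G : K[X]) (H : Fin n → K[X]), G ≠ 0 ∧ evJ G * x = ∑ i, evJ (H i) * v i := by
  classical
  obtain ⟨c, rfl⟩ := (Submodule.mem_span_range_iff_exists_fun (jField K)).mp hx
  have hc : ∀ i, ∃ r s : K[X], s ≠ 0 ∧ evJ s * (c i : LaurentSeries K) = evJ r :=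
    fun i => exists_fraction K (c i).2
  choose r s hs hrs using hc
  refine ⟨∏ i, s i, fun i => r i * ∏ j ∈ Finset.univ.erase i, s j, ?_, ?_⟩
  · exact Finset.prod_ne_zero_iff.mpr fun i _ => hs i
  · rw [Finset.mul_sum]
    refine Finset.sum_congr rfl fun i _ => ?_
    rw [← Finset.mul_prod_erase Finset.univ s (Finset.mem_univ i), evJ_mul, evJ_mul,
      IntermediateField.smul_def, smul_eq_mul, ← hrs i]
    ring

end Field

section Decomp

variable {L : Type*} [Field L] [Algebra ℚ L] (A : ValuationSubring L)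
variable {k : Type} [Field k] (π : A →+* k) (N : ℕ) [NeZero N]

/-- Integral series: image in `F_L`, reduction in `F_k` and nonzero. -/
def IsIntSeries (U : LaurentSeries A) : Prop :=
  coeffMap A.subtype U ∈ laurentBaseChange L (modularFunctionFieldFull N) ∧
    coeffMap π U ∈ modularFunctionFieldFullC k N ∧ coeffMap π U ≠ 0

omit [Algebra ℚ L] in
theorem incl_injective : Function.Injective (coeffMap A.subtype) := by
  intro x y hxy
  ext m
  have := congrArg (fun z : LaurentSeries L => z.coeff m) hxy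
  exact this

theorem jField_le_fullC (K : Type*) [Field K] : jField K ≤ modularFunctionFieldFullC K N := by
  rw [jField, adjoin_le_iff]
  rintro x rfl
  exact jqModC_mem_full K N

theorem C_mem_baseChange (c : L) :
    HahnSeries.C (Γ := ℤ) c ∈ laurentBaseChange L (modularFunctionFieldFull N) := by
  have := (laurentBaseChange L (modularFunctionFieldFull N)).algebraMap_mem c
  rwa [algebraMap_laurentSeries_eq_single, ← HahnSeries.C_apply] at this

/-- **(G4) Gauss decomposition.** -/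
theorem exists_gauss_decomp (core : CoreData N k) {f : LaurentSeries L}
    (hf : f ∈ laurentBaseChange L (modularFunctionFieldFull N)) (hf0 : f ≠ 0) :
    ∃ (c : L) (U₁ U₂ : LaurentSeries A), c ≠ 0 ∧ IsIntSeries A π N U₁ ∧ IsIntSeries A π N U₂ ∧
      f * coeffMap A.subtype U₂ = HahnSeries.C c * coeffMap A.subtype U₁ := by
  classical
  obtain ⟨n, y, hy, hspan, hli⟩ := core.exists_basis
  have hS : SpansQ N y := ⟨hy, hspan⟩
  have hfs := (mem_baseChange_iff_mem_spanL L hS).mp hf
  obtain ⟨G, H, hG, hGH⟩ := exists_cleared L _ hfs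
  have hGne : evJ G ≠ 0 := fun h => hG ((evJ_eq_zero_iff L).mp h)
  have hH : ∃ i, H i ≠ 0 := by
    by_contra hcon
    push Not at hcon
    have : evJ G * f = 0 := by
      rw [hGH]
      exact Finset.sum_eq_zero fun i _ => by rw [hcon i, evJ_zero, zero_mul]
    rcases mul_eq_zero.mp this with h | h
    · exact hGne h
    · exact hf0 h
  obtain ⟨g0, G', hg0, hG', i1, m1, hG1⟩ := exists_scale A (fun _ : Fin 1 => G) ⟨0, hG⟩
  obtain rfl : i1 = 0 := Subsingleton.elim _ _
  obtain ⟨h0, H', hh0, hH', i0, m0, hH1⟩ := exists_scale A H hH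
  set U₂ : LaurentSeries A := evJ (G' 0) with hU₂
  set U₁ : LaurentSeries A := ∑ i, evJ (H' i) * coeffMap (Int.castRingHom A) (y i) with hU₁
  have hU₂L : coeffMap A.subtype U₂ = HahnSeries.C g0⁻¹ * evJ G := by
    rw [hU₂, coeffMap_evJ, hG' 0, evJ_mul, evJ_C]
  have hU₁L : coeffMap A.subtype U₁ =
      HahnSeries.C h0⁻¹ * ∑ i, evJ (H i) * coeffMap (Int.castRingHom L) (y i) := by
    rw [hU₁, _root_.map_sum, Finset.mul_sum]
    refine Finset.sum_congr rfl fun i _ => ?_
    rw [_root_.map_mul, coeffMap_evJ, hH' i, evJ_mul, evJ_C, coeffMap_coeffMap,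
      show (A.subtype.comp (Int.castRingHom A)) = Int.castRingHom L from RingHom.ext_int _ _]
    ring
  have hU₁k : coeffMap π U₁ =
      ∑ i, evJ ((H' i).map π) * coeffMap (Int.castRingHom k) (y i) := by
    rw [hU₁, _root_.map_sum]
    refine Finset.sum_congr rfl fun i _ => ?_
    rw [_root_.map_mul, coeffMap_evJ, coeffMap_coeffMap,
      show (π.comp (Int.castRingHom A)) = Int.castRingHom k from RingHom.ext_int _ _]
  have hU₂k : coeffMap π U₂ = evJ ((G' 0).map π) := by
    rw [hU₂, coeffMap_evJ]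
  refine ⟨h0 * g0⁻¹, U₁, U₂, mul_ne_zero hh0 (inv_ne_zero hg0), ⟨?_, ?_, ?_⟩, ⟨?_, ?_, ?_⟩, ?_⟩
  · rw [hU₁L, ← hGH]
    exact _root_.MulMemClass.mul_mem (C_mem_baseChange N _)
      (_root_.MulMemClass.mul_mem (jField_le_baseChange L (evJ_mem_jField L G)) hf)
  · rw [hU₁k]
    refine _root_.sum_mem fun i _ => _root_.MulMemClass.mul_mem (jField_le_fullC N k (evJ_mem_jField k _)) ?_
    exact coeffMap_mem_of_mem_closure N (hy i)
  · rw [hU₁k]
    intro h0'
    have hli' := Fintype.linearIndependent_iff.mp hli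
      (fun i => (⟨evJ ((H' i).map π), evJ_mem_jField k _⟩ : jField k)) h0' i0
    have h1 : evJ ((H' i0).map π) = 0 := congrArg Subtype.val hli'
    have h2 := (evJ_eq_zero_iff k).mp h1
    have h3 := congrArg (fun P : k[X] => P.coeff m0) h2
    simp only [Polynomial.coeff_map, Polynomial.coeff_zero, hH1, _root_.map_one] at h3
    exact one_ne_zero h3
  · rw [hU₂L]
    exact _root_.MulMemClass.mul_mem (C_mem_baseChange N _) (jField_le_baseChange L (evJ_mem_jField L G))
  · rw [hU₂k]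
    exact jField_le_fullC N k (evJ_mem_jField k _)
  · rw [hU₂k]
    intro h1
    have h2 := (evJ_eq_zero_iff k).mp h1
    have h3 := congrArg (fun P : k[X] => P.coeff m1) h2
    simp only [Polynomial.coeff_map, Polynomial.coeff_zero, hG1, _root_.map_one] at h3
    exact one_ne_zero h3
  · rw [hU₂L, hU₁L, ← hGH, _root_.map_mul]
    have hC : HahnSeries.C (Γ := ℤ) h0 * HahnSeries.C h0⁻¹ = 1 := by
      rw [← _root_.map_mul, mul_inv_cancel₀ hh0, _root_.map_one]
    calc f * (HahnSeries.C g0⁻¹ * evJ G)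
        = (HahnSeries.C (Γ := ℤ) h0 * HahnSeries.C h0⁻¹) * (HahnSeries.C g0⁻¹ * (evJ G * f)) := by
          rw [hC]; ring
      _ = HahnSeries.C h0 * HahnSeries.C g0⁻¹ * (HahnSeries.C h0⁻¹ * (evJ G * f)) := by ring

theorem C_mem_fullC (K : Type*) [Field K] (c : K) :
    HahnSeries.C (Γ := ℤ) c ∈ modularFunctionFieldFullC K N := by
  have := (modularFunctionFieldFullC K N).algebraMap_mem c
  rwa [algebraMap_laurentSeries_eq_single, ← HahnSeries.C_apply] at this

/-- **(G5)** A series with coefficients in `A` lying in `F_L` reduces into `F_k`. -/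
theorem red_mem_of_incl_mem (core : CoreData N k) {U : LaurentSeries A}
    (hU : coeffMap A.subtype U ∈ laurentBaseChange L (modularFunctionFieldFull N)) :
    coeffMap π U ∈ modularFunctionFieldFullC k N := by
  by_cases hU0 : U = 0
  · rw [hU0, _root_.map_zero]; exact _root_.ZeroMemClass.zero_mem _
  have hU0' : coeffMap A.subtype U ≠ 0 := fun h => hU0 (incl_injective A (by rw [h, _root_.map_zero]))
  obtain ⟨c, U₁, U₂, hc, h₁, h₂, heq⟩ := exists_gauss_decomp A π N core hU hU0'
  rcases A.mem_or_inv_mem c with hcA | hcA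
  · have h1 : U * U₂ = HahnSeries.C ⟨c, hcA⟩ * U₁ := by
      apply incl_injective A
      rw [_root_.map_mul, _root_.map_mul, coeffMap_C, heq]
      rfl
    have hk := congrArg (coeffMap π) h1
    rw [_root_.map_mul, _root_.map_mul, coeffMap_C] at hk
    have h2 : coeffMap π U =
        HahnSeries.C (π ⟨c, hcA⟩) * coeffMap π U₁ * (coeffMap π U₂)⁻¹ := by
      rw [← hk, mul_assoc, mul_inv_cancel₀ h₂.2.2, mul_one]
    rw [h2]
    exact _root_.MulMemClass.mul_mem (_root_.MulMemClass.mul_mem (C_mem_fullC N k _) h₁.2.1) (_root_.InvMemClass.inv_mem h₂.2.1)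
  · have h1 : HahnSeries.C ⟨c⁻¹, hcA⟩ * (U * U₂) = U₁ := by
      apply incl_injective A
      rw [_root_.map_mul, _root_.map_mul, coeffMap_C, heq]
      show HahnSeries.C c⁻¹ * (HahnSeries.C c * _) = _
      rw [← mul_assoc, ← _root_.map_mul, inv_mul_cancel₀ hc, _root_.map_one, one_mul]
    have hk := congrArg (coeffMap π) h1
    rw [_root_.map_mul, _root_.map_mul, coeffMap_C] at hk
    have hne : HahnSeries.C (Γ := ℤ) (π ⟨c⁻¹, hcA⟩) ≠ 0 := by
      intro h0
      rw [h0, zero_mul] at hk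
      exact h₁.2.2 hk.symm
    have h2 : coeffMap π U =
        (HahnSeries.C (Γ := ℤ) (π ⟨c⁻¹, hcA⟩))⁻¹ * coeffMap π U₁ * (coeffMap π U₂)⁻¹ := by
      rw [← hk, ← mul_assoc, inv_mul_cancel₀ hne, one_mul, mul_assoc,
        mul_inv_cancel₀ h₂.2.2, mul_one]
    rw [h2]
    exact _root_.MulMemClass.mul_mem (_root_.MulMemClass.mul_mem (_root_.InvMemClass.inv_mem (C_mem_fullC N k _)) h₁.2.1) (_root_.InvMemClass.inv_mem h₂.2.1)

end Decomp

end Fermat.Agent.S18.H516

end
end
-- ===== PACK-END S18/H516/GaussDecomp.lean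

-- ===== PACK-BEGIN S20/Comb694/Index.lean
section





/-!
# The index of `Gamma0 N` in `SL(2,ℤ)` is the Dedekind psi function

* `index_Gamma0 : (Gamma0 N).index = ModularCurve.dedekindPsi N` (all `N`, including `N = 0`)
* `card_quotient_Gamma0 : Nat.card (SL(2,ℤ) ⧸ Gamma0 N) = ModularCurve.dedekindPsi N`
-/

set_option autoImplicit false

namespace Fermat.Agent.S20.Comb694

open Matrix MatrixGroups CongruenceSubgroup

lemma dedekindPsi_prime_mul_of_dvd (p M : ℕ) (hp : p.Prime) (hM : M ≠ 0) (h : p ∣ M) :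
    ModularCurve.dedekindPsi (p * M) = p * ModularCurve.dedekindPsi M := by
  unfold ModularCurve.dedekindPsi
  have hset : (p * M).divisors.filter Squarefree = M.divisors.filter Squarefree := by
    ext d
    simp only [Finset.mem_filter, Nat.mem_divisors]
    constructor
    · rintro ⟨⟨hd, -⟩, hsq⟩
      refine ⟨⟨?_, hM⟩, hsq⟩
      by_cases hpd : p ∣ d
      · obtain ⟨d', rfl⟩ := hpd
        have hd' : d' ∣ M := (Nat.mul_dvd_mul_iff_left hp.pos).mp hd
        have hcop : Nat.Coprime p d' := by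
          rw [Nat.Prime.coprime_iff_not_dvd hp]
          intro hpd'
          have h2 : p * p ∣ p * d' := Nat.mul_dvd_mul_left p hpd'
          have h3 := hsq p h2
          exact hp.one_lt.ne' (Nat.isUnit_iff.mp h3)
        exact Nat.Coprime.mul_dvd_of_dvd_of_dvd hcop h hd'
      · exact Nat.Coprime.dvd_of_dvd_mul_left
          ((Nat.Prime.coprime_iff_not_dvd hp).mpr hpd).symm hd
    · rintro ⟨⟨hd, -⟩, hsq⟩
      exact ⟨⟨dvd_mul_of_dvd_right hd p, mul_ne_zero hp.ne_zero hM⟩, hsq⟩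
  rw [hset, Finset.mul_sum]
  refine Finset.sum_congr rfl fun d hd => ?_
  have hd' : d ∣ M := (Nat.mem_divisors.mp (Finset.mem_filter.mp hd).1).1
  exact Nat.mul_div_assoc p hd'

lemma dedekindPsi_prime_mul_of_not_dvd (p M : ℕ) (hp : p.Prime) (hM : M ≠ 0) (h : ¬ p ∣ M) :
    ModularCurve.dedekindPsi (p * M) = (p + 1) * ModularCurve.dedekindPsi M := by
  unfold ModularCurve.dedekindPsi
  rw [← Finset.sum_filter_add_sum_filter_not ((p * M).divisors.filter Squarefree) (fun d => p ∣ d)]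
  have hset1 : ((p * M).divisors.filter Squarefree).filter (fun d => ¬ p ∣ d)
      = M.divisors.filter Squarefree := by
    ext d
    simp only [Finset.mem_filter, Nat.mem_divisors]
    constructor
    · rintro ⟨⟨⟨hd, -⟩, hsq⟩, hpd⟩
      exact ⟨⟨Nat.Coprime.dvd_of_dvd_mul_left
        ((Nat.Prime.coprime_iff_not_dvd hp).mpr hpd).symm hd, hM⟩, hsq⟩
    · rintro ⟨⟨hd, -⟩, hsq⟩
      exact ⟨⟨⟨dvd_mul_of_dvd_right hd p, mul_ne_zero hp.ne_zero hM⟩, hsq⟩,
        fun hpd => h (dvd_trans hpd hd)⟩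
  have hset2 : ((p * M).divisors.filter Squarefree).filter (fun d => p ∣ d)
      = (M.divisors.filter Squarefree).image (fun d => p * d) := by
    ext d
    simp only [Finset.mem_filter, Nat.mem_divisors, Finset.mem_image]
    constructor
    · rintro ⟨⟨⟨hd, -⟩, hsq⟩, ⟨d', rfl⟩⟩
      exact ⟨d', ⟨⟨(Nat.mul_dvd_mul_iff_left hp.pos).mp hd, hM⟩, hsq.of_mul_right⟩, rfl⟩
    · rintro ⟨d', ⟨⟨hd', -⟩, hsq'⟩, rfl⟩
      have hcop : Nat.Coprime p d' :=
        (Nat.Prime.coprime_iff_not_dvd hp).mpr fun hpd => h (dvd_trans hpd hd')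
      exact ⟨⟨⟨Nat.mul_dvd_mul_left p hd', mul_ne_zero hp.ne_zero hM⟩,
        (Nat.squarefree_mul hcop).mpr ⟨hp.prime.squarefree, hsq'⟩⟩, dvd_mul_right _ _⟩
  rw [hset1, hset2, Finset.sum_image (fun x _ y _ hxy => Nat.eq_of_mul_eq_mul_left hp.pos hxy),
    _root_.add_mul, _root_.one_mul, Finset.mul_sum, add_comm]
  congr 1
  · refine Finset.sum_congr rfl fun d hd => ?_
    have hd' : d ∣ M := (Nat.mem_divisors.mp (Finset.mem_filter.mp hd).1).1
    exact Nat.mul_div_assoc p hd'
  · refine Finset.sum_congr rfl fun d hd => ?_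
    exact Nat.mul_div_mul_left M d hp.pos

lemma Gamma0_one_eq_top : Gamma0 1 = ⊤ := by
  ext g
  simp only [Gamma0_mem, Subgroup.mem_top, iff_true]
  exact Subsingleton.elim _ _

lemma index_Gamma0_zero : (Gamma0 0).index = 0 := by
  rw [Subgroup.index]
  haveI : Infinite (SL(2, ℤ) ⧸ Gamma0 0) := by
    refine Infinite.of_injective
      (fun t : ℤ => (QuotientGroup.mk (lowRep t) : SL(2, ℤ) ⧸ Gamma0 0)) ?_
    intro t t' h
    simp only at h
    rw [mk_eq_mk_iff] at h
    simp only [lowRep_apply_zero_zero, lowRep_apply_one_zero, Int.cast_one, _root_.one_mul,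
      _root_.mul_one] at h
    have h' : ((t' - t : ℤ) : ZMod 0) = 0 := h
    have h'' := (ZMod.intCast_zmod_eq_zero_iff_dvd (t' - t) 0).mp h'
    simp only [Nat.cast_zero, zero_dvd_iff] at h''
    exact (sub_eq_zero.mp h'').symm
  exact Nat.card_eq_zero_of_infinite

lemma dedekindPsi_zero : ModularCurve.dedekindPsi 0 = 0 := by
  simp [ModularCurve.dedekindPsi]

/-- **(I1)** The index of `Γ₀(N)` in `SL(2,ℤ)` is `ψ(N)` (for `N ≠ 0`). -/
theorem index_Gamma0_of_ne_zero (N : ℕ) (hN : N ≠ 0) :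
    (Gamma0 N).index = ModularCurve.dedekindPsi N := by
  induction N using induction_on_primes with
  | zero => exact absurd rfl hN
  | one => rw [ModularCurve.dedekindPsi_one, Gamma0_one_eq_top, Subgroup.index_top]
  | prime_mul p M hp ih =>
    have hM : M ≠ 0 := fun h => hN (by rw [h, _root_.MulZeroClass.mul_zero])
    rw [← Subgroup.relIndex_mul_index (Gamma0_mul_le p M), ih hM]
    by_cases h : p ∣ M
    · rw [relIndex_Gamma0_of_dvd p M hM hp h, dedekindPsi_prime_mul_of_dvd p M hp hM h]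
    · rw [relIndex_Gamma0_of_not_dvd p M hM hp h, dedekindPsi_prime_mul_of_not_dvd p M hp hM h]

/-- **(I1)** The index of `Γ₀(N)` in `SL(2,ℤ)` is `ψ(N)` (all `N`; both sides are `0` for
`N = 0`). -/
theorem index_Gamma0 (N : ℕ) : (Gamma0 N).index = ModularCurve.dedekindPsi N := by
  rcases eq_or_ne N 0 with rfl | hN
  · rw [index_Gamma0_zero, dedekindPsi_zero]
  · exact index_Gamma0_of_ne_zero N hN

/-- **(I1)** `#(SL(2,ℤ) ⧸ Γ₀(N)) = ψ(N)`. -/
theorem card_quotient_Gamma0 (N : ℕ) :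
    Nat.card (SL(2, ℤ) ⧸ Gamma0 N) = ModularCurve.dedekindPsi N :=
  index_Gamma0 N

end Fermat.Agent.S20.Comb694

end
-- ===== PACK-END S20/Comb694/Index.lean

-- ===== PACK-BEGIN S18/H107/QepTransfer.lean
section




/-!
# helper107 — S18 / M3-T : transfer of the `q`-expansion principle between coordinates

`Qep107 Fc R V w y` is the field `qep_fin` of the frozen `GoodModel` for the coordinate `y`
(`qep_inf` is `Qep107 Fc R V w y⁻¹`).

`qep_transfer107`: if QEP holds for the charts of `y₁` and `y₂` (application: `j`, `j⁻¹`) and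
`Spec R[x]` is covered by two comaximal opens `D(g₁)`, `D(g₂)` on which `x` is "controlled" by
`y₁` resp. `y₂` (`OpenData107`), then QEP holds for the chart of `x`.
No noetherian / S2 / finiteness hypothesis is used.
-/

set_option autoImplicit false

namespace Fermat.Agent.S18.H107

open Polynomial Fermat.Agent.S18.Alg

variable {Ω : Type*} [Field Ω]

/-- The `q`-expansion principle on the chart of the coordinate `y`
(= `GoodModel.qep_fin` with `x := y`). -/
def Qep107 (Fc : Subfield Ω) (R V : Subring Ω) (w y : Ω) : Prop :=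
  ∀ b ∈ chart Fc R y, b * w⁻¹ ∈ V → b * w⁻¹ ∈ chart Fc R y

/-- The open `D(g) ⊆ Spec R[x]` is controlled by the chart of `y`:
* `e` is a unit-like multiplier: `e ∈ V`, `e` and `x·e` integral over `R[y]`;
* `y ∈ R[x][1/g]` : `y * g ^ k` integral over `R[x]`;
* `e⁻¹ ∈ R[x][1/g]` : `e * f = g ^ k'` with `f` integral over `R[x]`. -/
structure OpenData107 (Fc : Subfield Ω) (R V : Subring Ω) (x y g e : Ω) : Prop where
  g_mem : g ∈ polyRing R x
  e_mem_Fc : e ∈ Fc
  e_mem_V : e ∈ V
  e_int : e ∈ intCl107 (polyRing R y)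
  xe_int : x * e ∈ intCl107 (polyRing R y)
  y_loc : ∃ k : ℕ, y * g ^ k ∈ intCl107 (polyRing R x)
  e_inv : ∃ f ∈ intCl107 (polyRing R x), ∃ k : ℕ, e * f = g ^ k

theorem OpenData107.exists_pow_mul_mem {Fc : Subfield Ω} {R V : Subring Ω} {w x y g e : Ω}
    (o : OpenData107 Fc R V x y g e) (q : Qep107 Fc R V w y) {b : Ω} (hb : b ∈ chart Fc R x)
    (hz : b * w⁻¹ ∈ V) : ∃ K : ℕ, b * w⁻¹ * g ^ K ∈ intCl107 (polyRing R x) := by
  obtain ⟨hbF, hbI⟩ := hb
  -- step 1: `b * e ^ D` is integral over `R[y]`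
  obtain ⟨D, hD⟩ := exists_pow_mul_isIntegral107 (R' := R) (T := polyRing R y) (y := x) (e := e)
    ((le_polyRing107 R y).trans (le_intCl107 _)) o.e_int o.xe_int hbI
  have hchart : b * e ^ D ∈ chart Fc R y := ⟨Fc.mul_mem hbF (Fc.pow_mem o.e_mem_Fc D), hD⟩
  -- step 2/3: QEP for `y`
  have hV : b * e ^ D * w⁻¹ ∈ V := by
    have : b * e ^ D * w⁻¹ = b * w⁻¹ * e ^ D := by ring
    rw [this]
    exact V.mul_mem hz (V.pow_mem o.e_mem_V D)
  have h3 := (q _ hchart hV).2
  -- step 4: back to `R[x]`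
  obtain ⟨k, hk⟩ := o.y_loc
  have hgI : g ∈ intCl107 (polyRing R x) := le_intCl107 _ o.g_mem
  obtain ⟨D', hD'⟩ := exists_pow_mul_isIntegral107 (R' := R) (T := polyRing R x) (y := y)
    (e := g ^ k) ((le_polyRing107 R x).trans (le_intCl107 _)) ((intCl107 _).pow_mem hgI k) hk h3
  -- step 5: remove `e ^ D`
  obtain ⟨f, hf, k', hef⟩ := o.e_inv
  refine ⟨k' * D + k * D', ?_⟩
  have : b * w⁻¹ * g ^ (k' * D + k * D') = (b * e ^ D * w⁻¹ * (g ^ k) ^ D') * f ^ D := by
    rw [pow_add, pow_mul, pow_mul, ← hef]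
    ring
  rw [this]
  exact (intCl107 _).mul_mem hD' ((intCl107 _).pow_mem hf D)

/-- **QEP transfer.** -/
theorem qep_transfer107 {Fc : Subfield Ω} {R V : Subring Ω} {w x y₁ y₂ g₁ g₂ e₁ e₂ a b : Ω}
    (hw : w ∈ Fc) (q₁ : Qep107 Fc R V w y₁) (q₂ : Qep107 Fc R V w y₂)
    (o₁ : OpenData107 Fc R V x y₁ g₁ e₁) (o₂ : OpenData107 Fc R V x y₂ g₂ e₂)
    (ha : a ∈ polyRing R x) (hb : b ∈ polyRing R x) (hab : a * g₁ + b * g₂ = 1) :
    Qep107 Fc R V w x := by
  intro c hc hz
  obtain ⟨K₁, h₁⟩ := o₁.exists_pow_mul_mem q₁ hc hz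
  obtain ⟨K₂, h₂⟩ := o₂.exists_pow_mul_mem q₂ hc hz
  refine ⟨Fc.mul_mem hc.1 (Fc.inv_mem hw), ?_⟩
  exact mem_intCl107.1 (mem_of_comaximal107 (intCl107 (polyRing R x)) (c * w⁻¹) g₁ g₂ a b
    (le_intCl107 _ o₁.g_mem) (le_intCl107 _ o₂.g_mem) (le_intCl107 _ ha) (le_intCl107 _ hb)
    hab K₁ K₂ h₁ h₂)

end Fermat.Agent.S18.H107

end
-- ===== PACK-END S18/H107/QepTransfer.lean

-- ===== PACK-BEGIN S18/H107/PolyInt.lean
section




/-!
# helper107 — S18 / M3-T : explicit monic equations (cubic, quartic) give integrality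
-/

set_option autoImplicit false

namespace Fermat.Agent.S18.H107

open Polynomial Fermat.Agent.S18.Alg

variable {Ω : Type*} [Field Ω]

theorem mem_intCl_of_cubic107 (T : Subring Ω) (b a₂ a₁ a₀ : Ω) (h₂ : a₂ ∈ T) (h₁ : a₁ ∈ T)
    (h₀ : a₀ ∈ T) (h : b ^ 3 + a₂ * b ^ 2 + a₁ * b + a₀ = 0) : b ∈ intCl107 T := by
  rw [mem_intCl107]
  refine ⟨X ^ 3 + (C (⟨a₂, h₂⟩ : T) * X ^ 2 + C (⟨a₁, h₁⟩ : T) * X + C (⟨a₀, h₀⟩ : T)),
    monic_X_pow_add (lt_of_le_of_lt degree_quadratic_le (by norm_num)), ?_⟩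
  simp only [eval₂_add, eval₂_mul, eval₂_pow, eval₂_X, eval₂_C]
  show b ^ 3 + (a₂ * b ^ 2 + a₁ * b + a₀) = 0
  linear_combination h

theorem mem_intCl_of_quartic107 (T : Subring Ω) (b a₃ a₂ a₁ a₀ : Ω) (h₃ : a₃ ∈ T) (h₂ : a₂ ∈ T)
    (h₁ : a₁ ∈ T) (h₀ : a₀ ∈ T) (h : b ^ 4 + a₃ * b ^ 3 + a₂ * b ^ 2 + a₁ * b + a₀ = 0) :
    b ∈ intCl107 T := by
  rw [mem_intCl107]
  refine ⟨X ^ 4 + (C (⟨a₃, h₃⟩ : T) * X ^ 3 + C (⟨a₂, h₂⟩ : T) * X ^ 2 + C (⟨a₁, h₁⟩ : T) * X +
      C (⟨a₀, h₀⟩ : T)),
    monic_X_pow_add (lt_of_le_of_lt degree_cubic_le (by norm_num)), ?_⟩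
  simp only [eval₂_add, eval₂_mul, eval₂_pow, eval₂_X, eval₂_C]
  show b ^ 4 + (a₃ * b ^ 3 + a₂ * b ^ 2 + a₁ * b + a₀) = 0
  linear_combination h

theorem natCast_mem_polyRing107 (R : Subring Ω) (x : Ω) (n : ℕ) : (n : Ω) ∈ polyRing R x :=
  natCast_mem _ n

end Fermat.Agent.S18.H107

end
-- ===== PACK-END S18/H107/PolyInt.lean

-- ===== PACK-BEGIN S18/H138/CechSub.lean
section


/-!
# S18, Route K, ASM (helper138): two-chart connectedness inside an ambient ring

`H558.cech_connected` is stated with `B_mid` as the ambient ring.  In the assembly the three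
charts `Bf, Bi ≤ Bm` are subalgebras of a big field `F'`; this file transports the lemma.
-/

set_option autoImplicit false
set_option linter.style.haveILetI false

namespace Fermat.Agent.S18.H138

variable {R F : Type*} [CommRing R] [CommRing F] [Algebra R F]

/-- **Two-chart connectedness, subalgebra form.**  `Bf, Bi ≤ Bm` subalgebras of an ambient
`R`-algebra `F`, `x ∈ Bf`, `y ∈ Bi`, `x y = 1`, `Bm = Bf[1/x]`, `Bf` generated over `R[x]` by
finitely many `bs i` with `y ^ D * bs i ∈ Bi`, `Bf ∩ Bi = R`, `R/w → Bf/w` injective, `w` prime.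
Then a pair `e₁ ∈ Bf`, `e₂ ∈ Bi` of idempotents modulo `w` (in their charts) which are congruent
modulo `w Bm` is `(0,0)` or `(1,1)` modulo `w`. -/
theorem cech_connected_sub [IsNoetherianRing R] {ι : Type*} [Finite ι] (w : R) (x y : F)
    (hxy : x * y = 1) (Bf Bi Bm : Subalgebra R F) (hfm : Bf ≤ Bm) (him : Bi ≤ Bm)
    (hx : x ∈ Bf) (hy : y ∈ Bi)
    (bs : ι → F) (hbs : ∀ i, bs i ∈ Bf)
    (hgen : ∀ b ∈ Bf, b ∈ Submodule.span R {z : F | ∃ (j : ℕ) (i : ι), z = x ^ j * bs i})
    (hloc : ∀ b ∈ Bm, ∃ K : ℕ, x ^ K * b ∈ Bf)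
    (hinf : ∀ i, ∃ D : ℕ, y ^ D * bs i ∈ Bi)
    (hH0 : ∀ b : F, b ∈ Bf → b ∈ Bi → ∃ a : R, algebraMap R F a = b)
    (hinj : ∀ a : R, (∃ t ∈ Bf, algebraMap R F a = algebraMap R F w * t) → w ∣ a)
    (hprime : ∀ a b : R, w ∣ a * b → w ∣ a ∨ w ∣ b)
    (e₁ e₂ : F) (he₁ : e₁ ∈ Bf) (he₂ : e₂ ∈ Bi)
    (hi₁ : ∃ t ∈ Bf, e₁ ^ 2 - e₁ = algebraMap R F w * t)
    (hi₂ : ∃ t ∈ Bi, e₂ ^ 2 - e₂ = algebraMap R F w * t)
    (h₁₂ : ∃ t ∈ Bm, e₁ - e₂ = algebraMap R F w * t) :
    ((∃ t ∈ Bf, e₁ = algebraMap R F w * t) ∧ (∃ t ∈ Bi, e₂ = algebraMap R F w * t)) ∨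
    ((∃ t ∈ Bf, 1 - e₁ = algebraMap R F w * t) ∧
      (∃ t ∈ Bi, 1 - e₂ = algebraMap R F w * t)) := by
  classical
  -- the ambient ring is `Bm`
  let ι' : Bm →ₐ[R] F := Bm.val
  have hι' : Function.Injective ι' := Subtype.val_injective
  let Bf' : Subalgebra R Bm := Bf.comap ι'
  let Bi' : Subalgebra R Bm := Bi.comap ι'
  have hxm : x ∈ Bm := hfm hx
  have hym : y ∈ Bm := him hy
  have hwm : ∀ a : R, ((algebraMap R Bm a : Bm) : F) = algebraMap R F a := fun a => rfl
  have key := H558.cech_connected (A := R) (B := Bm) (ι := ι) w ⟨x, hxm⟩ ⟨y, hym⟩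
    (Subtype.ext (by simpa using hxy)) Bf' Bi' (by simpa [Bf', ι'] using hx)
    (by simpa [Bi', ι'] using hy)
    (fun i => ⟨bs i, hfm (hbs i)⟩) (fun i => by simpa [Bf', ι'] using hbs i)
    (by
      intro b hb
      have hb' : (b : F) ∈ Bf := by simpa [Bf', ι'] using hb
      have h1 := hgen _ hb'
      -- transport the span along the injective map `Bm → F`
      have h2 : Submodule.span R {z : F | ∃ (j : ℕ) (i : ι), z = x ^ j * bs i} =
          Submodule.map ι'.toLinearMap (Submodule.span R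
            {z : Bm | ∃ (j : ℕ) (i : ι), z = (⟨x, hxm⟩ : Bm) ^ j * ⟨bs i, hfm (hbs i)⟩}) := by
        rw [Submodule.map_span]
        congr 1
        ext z
        constructor
        · rintro ⟨j, i, rfl⟩
          exact ⟨(⟨x, hxm⟩ : Bm) ^ j * ⟨bs i, hfm (hbs i)⟩, ⟨j, i, rfl⟩, by simp [ι']⟩
        · rintro ⟨z', ⟨j, i, rfl⟩, rfl⟩
          exact ⟨j, i, by simp [ι']⟩
      rw [h2] at h1
      obtain ⟨c, hc, hcb⟩ := h1
      have : c = b := hι' hcb
      rwa [this] at hc)
    (by
      intro b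
      obtain ⟨K, hK⟩ := hloc b b.2
      exact ⟨K, by simpa [Bf', ι'] using hK⟩)
    (by
      intro i
      obtain ⟨D, hD⟩ := hinf i
      exact ⟨D, by simpa [Bi', ι'] using hD⟩)
    (by
      intro b hbf hbi
      obtain ⟨a, ha⟩ := hH0 b (by simpa [Bf', ι'] using hbf) (by simpa [Bi', ι'] using hbi)
      exact ⟨a, Subtype.ext ha⟩)
    (by
      rintro a ⟨t, ht, hat⟩
      refine hinj a ⟨t, by simpa [Bf', ι'] using ht, ?_⟩
      have := congrArg (Subtype.val) hat
      simpa using this)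
    hprime ⟨e₁, hfm he₁⟩ ⟨e₂, him he₂⟩ (by simpa [Bf', ι'] using he₁)
    (by simpa [Bi', ι'] using he₂)
    (by
      obtain ⟨t, ht, h⟩ := hi₁
      exact ⟨⟨t, hfm ht⟩, by simpa [Bf', ι'] using ht, Subtype.ext (by simpa using h)⟩)
    (by
      obtain ⟨t, ht, h⟩ := hi₂
      exact ⟨⟨t, him ht⟩, by simpa [Bi', ι'] using ht, Subtype.ext (by simpa using h)⟩)
    (by
      obtain ⟨t, ht, h⟩ := h₁₂
      exact ⟨⟨t, ht⟩, Subtype.ext (by simpa using h)⟩)
  have conv : ∀ (C : Subalgebra R F) (u : F) (hu : u ∈ Bm),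
      (∃ t ∈ C.comap ι', (⟨u, hu⟩ : Bm) = algebraMap R Bm w * t) →
        ∃ t ∈ C, u = algebraMap R F w * t := by
    rintro C u hu ⟨t, ht, h⟩
    refine ⟨t, by simpa [ι'] using ht, ?_⟩
    have := congrArg Subtype.val h
    simpa using this
  rcases key with ⟨h1, h2⟩ | ⟨h1, h2⟩
  · exact Or.inl ⟨conv Bf e₁ (hfm he₁) h1, conv Bi e₂ (him he₂) h2⟩
  · refine Or.inr ⟨conv Bf (1 - e₁) (Bm.sub_mem Bm.one_mem (hfm he₁)) ?_,
      conv Bi (1 - e₂) (Bm.sub_mem Bm.one_mem (him he₂)) ?_⟩
    · obtain ⟨t, ht, h⟩ := h1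
      exact ⟨t, ht, by rw [← h]; rfl⟩
    · obtain ⟨t, ht, h⟩ := h2
      exact ⟨t, ht, by rw [← h]; rfl⟩

end Fermat.Agent.S18.H138

end
-- ===== PACK-END S18/H138/CechSub.lean

-- ===== PACK-BEGIN S18/B12/H278/Transfer.lean
section


/-!
# b2-SF core over a PID (helper278)

`Λ` a PID, `t` a prime element, `C` a finite free commutative `Λ`-algebra with basis `b`,
`f : C →ₐ[Λ] L` an injective map into a commutative `Λ`-algebra without `Λ`-torsion.
If `C / rad(tC)` is spanned by `s` elements over `Λ` and `t ^ (n - s + 1) ∤ disc(b)`, then every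
`x : L` integral over `Λ` with `g₀ • x ∈ C` for some `g₀ ≠ 0` satisfies `g • x ∈ C` for some
`g ∉ (t)`:  **`C` is integrally closed in `L ∩ (C ⊗ Frac Λ)` locally at `t`**.

Proof: localise at `(t)` and apply the DVR criterion `mem_range_of_isIntegral` of
`Fermat/Agent/S37/H278/Normal.lean`.
-/

set_option autoImplicit false
set_option linter.style.haveILetI false
set_option linter.unusedSectionVars false

namespace Fermat.Agent.S18.B12.H278

open Module Polynomial Fermat.Agent.S37.H278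

section Transfer

variable {Λ : Type*} [CommRing Λ] [IsDomain Λ] [IsPrincipalIdealRing Λ]
  {C : Type*} [CommRing C] [Algebra Λ C]
  {L : Type*} [CommRing L] [Algebra Λ L]

/-- Divisibility by powers of `t` can be tested in the localisation at `(t)`. -/
theorem pow_dvd_of_pow_dvd_algebraMap {t : Λ} (ht : Prime t) (P : Ideal Λ) [P.IsPrime]
    (hP : P = Ideal.span {t})
    (o : Type*) [CommRing o] [Algebra Λ o] [IsLocalization.AtPrime o P] (k : ℕ) (d : Λ)
    (h : algebraMap Λ o t ^ k ∣ algebraMap Λ o d) : t ^ k ∣ d := by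
  obtain ⟨e, he⟩ := h
  obtain ⟨⟨a, g⟩, hag⟩ := IsLocalization.surj P.primeCompl e
  simp only at hag
  have hinj : Function.Injective (algebraMap Λ o) :=
    IsLocalization.injective o (Ideal.primeCompl_le_nonZeroDivisors P)
  have h1 : g.1 * d = t ^ k * a := by
    apply hinj
    rw [_root_.map_mul, _root_.map_mul, _root_.map_pow, he, ← hag]
    ring
  have hg : ¬ t ∣ g.1 := by
    intro hdiv
    exact g.2 (hP.ge (Ideal.mem_span_singleton.mpr hdiv))
  exact ht.pow_dvd_of_dvd_mul_left k hg ⟨a, h1⟩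

/-- The image of `t` is a uniformiser of the localisation at `(t)`. -/
theorem irreducible_algebraMap_of_atPrime {t : Λ} (P : Ideal Λ) [P.IsPrime]
    (hP : P = Ideal.span {t})
    (o : Type*) [CommRing o] [IsDomain o] [IsDiscreteValuationRing o] [Algebra Λ o]
    [IsLocalization.AtPrime o P] : Irreducible (algebraMap Λ o t) := by
  rw [IsDiscreteValuationRing.irreducible_iff_uniformizer,
    ← IsLocalization.AtPrime.map_eq_maximalIdeal P o, hP, Ideal.map_span, Set.image_singleton]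

/-- Transfer of the spanning hypothesis to the localisation. -/
theorem sup_eq_top_of_atPrime {t : Λ} (P : Ideal Λ) [P.IsPrime]
    (o : Type*) [CommRing o] [Algebra Λ o] [IsLocalization.AtPrime o P]
    (C' : Type*) [CommRing C'] [Algebra C C'] [Algebra o C'] [Algebra Λ C']
    [IsScalarTower Λ o C'] [IsScalarTower Λ C C']
    [IsLocalization (Algebra.algebraMapSubmonoid C P.primeCompl) C']
    (s : ℕ) (y : Fin s → C)
    (hy : ∀ x : C, ∃ a : Fin s → Λ,
        x - ∑ i, a i • y i ∈ (Ideal.span {algebraMap Λ C t}).radical) :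
    ((Ideal.span {algebraMap o C' (algebraMap Λ o t)}).radical.restrictScalars o) ⊔
        Submodule.span o (Set.range fun i => algebraMap C C' (y i)) = ⊤ := by
  rw [eq_top_iff]
  intro c' _
  obtain ⟨⟨c, m⟩, hcm⟩ := IsLocalization.surj (Algebra.algebraMapSubmonoid C P.primeCompl) c'
  obtain ⟨g, hg, hgm⟩ := m.2
  simp only at hcm
  -- `algebraMap g` is a unit of `o`
  obtain ⟨v, hv⟩ := (IsLocalization.map_units o (⟨g, hg⟩ : P.primeCompl)).exists_right_inv
  simp only at hv
  have hc' : c' = v • algebraMap C C' c := by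
    rw [← hcm, ← hgm, ← IsScalarTower.algebraMap_apply, IsScalarTower.algebraMap_apply Λ o C',
      Algebra.smul_def, mul_comm c', ← mul_assoc, ← _root_.map_mul, mul_comm v, hv, _root_.map_one, one_mul]
  rw [hc']
  refine Submodule.smul_mem _ _ ?_
  obtain ⟨a, ha⟩ := hy c
  have h1 : algebraMap C C' c =
      algebraMap C C' (c - ∑ i, a i • y i) + ∑ i, algebraMap Λ o (a i) • algebraMap C C' (y i) := by
    rw [_root_.map_sub, _root_.map_sum]
    have : ∀ i, algebraMap C C' (a i • y i) = algebraMap Λ o (a i) • algebraMap C C' (y i) := by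
      intro i
      rw [Algebra.smul_def, _root_.map_mul, Algebra.smul_def, ← IsScalarTower.algebraMap_apply,
        ← IsScalarTower.algebraMap_apply]
    simp only [this]
    ring
  rw [h1]
  refine Submodule.add_mem_sup ?_ ?_
  · show algebraMap C C' (c - ∑ i, a i • y i) ∈
      (Ideal.span {algebraMap o C' (algebraMap Λ o t)}).radical
    have h2 := Ideal.map_radical_le (algebraMap C C') (Ideal.mem_map_of_mem (algebraMap C C') ha)
    rw [Ideal.map_span, Set.image_singleton, ← IsScalarTower.algebraMap_apply,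
      IsScalarTower.algebraMap_apply Λ o C'] at h2
    exact h2
  · refine Submodule.sum_mem _ fun i _ => Submodule.smul_mem _ _ (Submodule.subset_span ⟨i, rfl⟩)

/-- Main transfer theorem, with abstract localisations `o = Λ_(t)`, `C' = C_(t)`,
`L' = C' ⊗ Frac o`. -/
theorem exists_smul_mem_range_aux {t : Λ} (ht : Prime t) (P : Ideal Λ) [P.IsPrime]
    (hP : P = Ideal.span {t})
    (o : Type*) [CommRing o] [IsDomain o] [IsDiscreteValuationRing o] [Algebra Λ o]
    [IsLocalization.AtPrime o P]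
    (C' : Type*) [CommRing C'] [Algebra C C'] [Algebra o C'] [Algebra Λ C']
    [IsScalarTower Λ o C'] [IsScalarTower Λ C C']
    [IsLocalization (Algebra.algebraMapSubmonoid C P.primeCompl) C']
    (L' : Type*) [CommRing L'] [Algebra o L'] [Algebra C' L']
    [IsScalarTower o C' L']
    [IsLocalization (Algebra.algebraMapSubmonoid C' (nonZeroDivisors o)) L']
    (hL : ∀ (g : Λ) (l : L), g ≠ 0 → g • l = 0 → l = 0)
    (f : C →ₐ[Λ] L) (hf : Function.Injective f)
    {ι : Type*} [Fintype ι] [DecidableEq ι] (b : Basis ι Λ C) (s : ℕ) (y : Fin s → C)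
    (hy : ∀ x : C, ∃ a : Fin s → Λ,
        x - ∑ i, a i • y i ∈ (Ideal.span {algebraMap Λ C t}).radical)
    (hd : ¬ t ^ (Fintype.card ι - s + 1) ∣ Algebra.discr Λ b)
    (x : L) (hx : IsIntegral Λ x) (hx0 : ∃ g₀ : Λ, g₀ ≠ 0 ∧ g₀ • x ∈ f.range) :
    ∃ g : Λ, ¬ t ∣ g ∧ g • x ∈ f.range := by
  classical
  -- `L'` is an algebra over `K = Frac o`
  have hunitK : ∀ z : nonZeroDivisors o, IsUnit (algebraMap o L' z) := by
    intro z
    rw [IsScalarTower.algebraMap_apply o C' L']
    exact IsLocalization.map_units L' (⟨algebraMap o C' z, ⟨z, z.2, rfl⟩⟩ :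
      Algebra.algebraMapSubmonoid C' (nonZeroDivisors o))
  letI : Algebra (FractionRing o) L' :=
    (IsLocalization.lift (M := nonZeroDivisors o) (g := algebraMap o L') hunitK).toAlgebra
  haveI : IsScalarTower o (FractionRing o) L' :=
    IsScalarTower.of_algebraMap_eq (fun z => (IsLocalization.lift_eq hunitK z).symm)
  obtain ⟨g₀, hg₀, c₀, hc₀'⟩ := hx0
  have hc₀ : f c₀ = g₀ • x := hc₀'
  obtain ⟨p, hpm, hpx⟩ := hx
  let b' : Basis ι o C' := b.localizationLocalization o P.primeCompl C'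
  haveI : Module.Free o C' := Module.Free.of_basis b'
  haveI : Module.Finite o C' := Module.Finite.of_basis b'
  haveI : Module.Free Λ C := Module.Free.of_basis b
  have ht' : Irreducible (algebraMap Λ o t) := irreducible_algebraMap_of_atPrime P hP o
  have hu' := sup_eq_top_of_atPrime (t := t) P o C' s y hy
  have hd' : ¬ algebraMap Λ o t ^ (Fintype.card ι - s + 1) ∣ Algebra.discr o b' := by
    rw [Algebra.discr_localizationLocalization Λ P.primeCompl C' b]
    exact fun h => hd (pow_dvd_of_pow_dvd_algebraMap ht P hP o _ _ h)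
  -- the maps
  have hinjΛo : Function.Injective (algebraMap Λ o) :=
    IsLocalization.injective o (Ideal.primeCompl_le_nonZeroDivisors P)
  have hinjC : Function.Injective (algebraMap C C') := by
    apply IsLocalization.injective C' (M := Algebra.algebraMapSubmonoid C P.primeCompl)
    rintro _ ⟨g, hg, rfl⟩
    rw [mem_nonZeroDivisors_iff_right]
    intro c hc
    have hg0 : g ≠ 0 := fun h => hg (h ▸ P.zero_mem)
    apply smul_eq_zero_imp hg0
    rw [Algebra.smul_def, mul_comm]
    exact hc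
  have hinjC' : Function.Injective (algebraMap C' L') := algebraMap_injective_of_free (o := o) L'
  let φ : C →+* L' := (algebraMap C' L').comp (algebraMap C C')
  have hφ : Function.Injective φ := hinjC'.comp hinjC
  let ψ : Λ →+* L' := φ.comp (algebraMap Λ C)
  have hψ : ∀ a, ψ a = algebraMap o L' (algebraMap Λ o a) := by
    intro a
    show algebraMap C' L' (algebraMap C C' (algebraMap Λ C a)) = _
    rw [← IsScalarTower.algebraMap_apply Λ C C', IsScalarTower.algebraMap_apply Λ o C',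
      ← IsScalarTower.algebraMap_apply o C' L']
  have hunit : IsUnit (ψ g₀) := by
    have hmem : algebraMap o C' (algebraMap Λ o g₀) ∈
        Algebra.algebraMapSubmonoid C' (nonZeroDivisors o) :=
      ⟨algebraMap Λ o g₀, mem_nonZeroDivisors_of_ne_zero
        (fun h => hg₀ (hinjΛo (by rw [h, _root_.map_zero]))), rfl⟩
    have := IsLocalization.map_units L' (⟨_, hmem⟩ :
      Algebra.algebraMapSubmonoid C' (nonZeroDivisors o))
    rw [hψ, IsScalarTower.algebraMap_apply o C' L']
    exact this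
  obtain ⟨w, hw⟩ := hunit.exists_left_inv
  -- the element `x' = c₀ / g₀` of `L'`
  set x' : L' := w * φ c₀ with hx'
  have hgx' : ψ g₀ * x' = φ c₀ := by
    rw [hx', ← mul_assoc, mul_comm (ψ g₀), hw, one_mul]
  -- `c₀` is a root of the scaled polynomial
  have hq : eval₂ (algebraMap Λ C) c₀ (scaleRoots p g₀) = 0 := by
    apply hf
    rw [_root_.map_zero]
    have h1 : f (eval₂ (algebraMap Λ C) c₀ (scaleRoots p g₀)) =
        eval₂ (algebraMap Λ L) (f c₀) (scaleRoots p g₀) := by
      rw [← Polynomial.aeval_def, ← Polynomial.aeval_def, Polynomial.aeval_algHom_apply]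
    rw [h1, hc₀, Algebra.smul_def, scaleRoots_eval₂_mul, hpx, mul_zero]
  have hx'int : IsIntegral o x' := by
    refine ⟨p.map (algebraMap Λ o), hpm.map _, ?_⟩
    rw [eval₂_map]
    have h2 : eval₂ ((algebraMap o L').comp (algebraMap Λ o)) x' p = eval₂ ψ x' p := by
      congr 1
      ext a
      exact (hψ a).symm
    rw [h2]
    have h3 : ψ g₀ ^ p.natDegree * eval₂ ψ x' p = 0 := by
      rw [← scaleRoots_eval₂_mul, hgx']
      have : eval₂ ψ (φ c₀) (scaleRoots p g₀) = φ (eval₂ (algebraMap Λ C) c₀ (scaleRoots p g₀)) := by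
        rw [Polynomial.hom_eval₂]
      rw [this, hq, _root_.map_zero]
    have hu2 : IsUnit (ψ g₀ ^ p.natDegree) := hunit.pow _
    exact (hu2.mul_right_eq_zero).mp h3
  -- apply the DVR criterion
  obtain ⟨c', hc'⟩ := mem_range_of_isIntegral (K := FractionRing o) ht' b' s
    (fun i => algebraMap C C' (y i)) hu' hd' x' hx'int
  obtain ⟨⟨c, m⟩, hcm⟩ := IsLocalization.surj (Algebra.algebraMapSubmonoid C P.primeCompl) c'
  obtain ⟨g, hg, hgm⟩ := m.2
  simp only at hcm
  refine ⟨g, fun hdiv => hg (hP.ge (Ideal.mem_span_singleton.mpr hdiv)), c, ?_⟩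
  -- `g • c₀ = g₀ • c` in `C`
  have hkey : g • c₀ = g₀ • c := by
    apply hφ
    have e1 : φ (g • c₀) = ψ g * φ c₀ := by
      rw [Algebra.smul_def, _root_.map_mul]; rfl
    have e2 : φ (g₀ • c) = ψ g₀ * φ c := by
      rw [Algebra.smul_def, _root_.map_mul]; rfl
    have e3 : φ c = x' * ψ g := by
      show algebraMap C' L' (algebraMap C C' c) = _
      rw [← hcm, _root_.map_mul, hc', ← hgm]
      rfl
    rw [e1, e2, e3, ← hgx']
    ring
  show f c = g • x
  have hfin : g₀ • (f c - g • x) = 0 := by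
    rw [smul_sub, smul_comm g₀ g x, ← hc₀, ← _root_.map_smul, ← _root_.map_smul, hkey, sub_self]
  exact sub_eq_zero.mp (hL g₀ _ hg₀ hfin)

/-- **Normality criterion over a PID, local at a prime `t`.**
`C` finite free `Λ`-algebra with basis `b`, `f : C → L` injective, `L` without `Λ`-torsion.  If
`C / rad(tC)` is spanned by `s` elements and `t ^ (n - s + 1) ∤ disc(b)`, then every `x : L`
integral over `Λ` which is a fraction of an element of `C` lies in `C` locally at `t`. -/
theorem exists_smul_mem_range_of_isIntegral {t : Λ} (ht : Prime t)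
    (hL : ∀ (g : Λ) (l : L), g ≠ 0 → g • l = 0 → l = 0)
    (f : C →ₐ[Λ] L) (hf : Function.Injective f)
    {ι : Type*} [Fintype ι] [DecidableEq ι] (b : Basis ι Λ C) (s : ℕ) (y : Fin s → C)
    (hy : ∀ x : C, ∃ a : Fin s → Λ,
        x - ∑ i, a i • y i ∈ (Ideal.span {algebraMap Λ C t}).radical)
    (hd : ¬ t ^ (Fintype.card ι - s + 1) ∣ Algebra.discr Λ b)
    (x : L) (hx : IsIntegral Λ x) (hx0 : ∃ g₀ : Λ, g₀ ≠ 0 ∧ g₀ • x ∈ f.range) :
    ∃ g : Λ, ¬ t ∣ g ∧ g • x ∈ f.range := by
  haveI hP : (Ideal.span {t} : Ideal Λ).IsPrime := (Ideal.span_singleton_prime ht.ne_zero).mpr ht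
  haveI : IsDiscreteValuationRing (Localization.AtPrime (Ideal.span {t} : Ideal Λ)) :=
    IsLocalization.AtPrime.isDiscreteValuationRing_of_dedekind_domain Λ
      (P := Ideal.span {t}) (by
        rw [Ne, Ideal.span_singleton_eq_bot]; exact ht.ne_zero) _
  exact exists_smul_mem_range_aux ht (Ideal.span {t}) rfl
    (Localization.AtPrime (Ideal.span {t} : Ideal Λ))
    (Localization (Algebra.algebraMapSubmonoid C (Ideal.span {t} : Ideal Λ).primeCompl))
    (Localization (Algebra.algebraMapSubmonoid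
      (Localization (Algebra.algebraMapSubmonoid C (Ideal.span {t} : Ideal Λ).primeCompl))
      (nonZeroDivisors (Localization.AtPrime (Ideal.span {t} : Ideal Λ)))))
    hL f hf b s y hy hd x hx hx0

end Transfer

end Fermat.Agent.S18.B12.H278

end
-- ===== PACK-END S18/B12/H278/Transfer.lean

-- ===== PACK-BEGIN S19/H435/Lattice.lean
section
/-
A3 / WP-C (helper435): Hopf lattices of equivariant functions (helper135's `HopfLattice`),
bases, and the descent lemma `Zb·Λ ∩ {equivariant} = Λ`.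
-/





set_option autoImplicit false
set_option linter.style.haveILetI false

noncomputable section

namespace Fermat.Agent.S19.H435

/-- A *Hopf lattice* on a `Gal`-set-with-addition `M`: a `ℤ_(ℓ)`-subalgebra of functions
`M → Qb`, finitely generated as a module, consisting of equivariant functions, separating the
points of `M`, and closed under the comultiplication `f ↦ ((x, y) ↦ f (x + y))`. -/
structure IsHopfLattice (ℓ : ℕ) {M : Type*} [AddCommGroup M] (act : Gal → M → M)
    (Λ : Subalgebra (Zl ℓ) (M → _root_.Fermat.Agent.S19.H435.Qb)) : Prop where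
  fg : (Subalgebra.toSubmodule Λ).FG
  equivariant : ∀ f ∈ Λ, IsEquivariantFun act f
  separates : ∀ m n : M, m ≠ n → ∃ f ∈ Λ, f m ≠ f n
  comul_mem : ∀ f ∈ Λ, ∃ (n : ℕ) (a b : Fin n → M → _root_.Fermat.Agent.S19.H435.Qb), (∀ k, a k ∈ Λ) ∧ (∀ k, b k ∈ Λ) ∧
    ∀ x y : M, f (x + y) = ∑ k, a k x * b k y

section Zl

variable (ℓ : ℕ)

theorem algebraMap_Zl_Qb_injective : Function.Injective (algebraMap (Zl ℓ) _root_.Fermat.Agent.S19.H435.Qb) := by
  intro a b h
  have h1 : algebraMap ℚ _root_.Fermat.Agent.S19.H435.Qb (a : ℚ) = algebraMap ℚ _root_.Fermat.Agent.S19.H435.Qb (b : ℚ) := h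
  exact Subtype.ext ((algebraMap ℚ _root_.Fermat.Agent.S19.H435.Qb).injective h1)

instance faithfulSMul_Zl_Qb : FaithfulSMul (Zl ℓ) _root_.Fermat.Agent.S19.H435.Qb :=
  (faithfulSMul_iff_algebraMap_injective (Zl ℓ) _root_.Fermat.Agent.S19.H435.Qb).mpr (algebraMap_Zl_Qb_injective ℓ)

instance isTorsionFree_Zl_Qb : Module.IsTorsionFree (Zl ℓ) _root_.Fermat.Agent.S19.H435.Qb := by
  refine Module.IsTorsionFree.of_smul_eq_zero fun r m h => ?_
  rw [Algebra.smul_def, mul_eq_zero] at h
  rcases h with h | h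
  · left
    exact algebraMap_Zl_Qb_injective ℓ (by rw [h, map_zero])
  · exact Or.inr h

theorem isFractionRing_Zl : IsFractionRing (Zl ℓ) ℚ := by
  refine IsFractionRing.of_field (Zl ℓ) ℚ fun z => ?_
  refine ⟨⟨(z.num : ℚ), intCast_mem _ _⟩, ⟨(z.den : ℚ), natCast_mem _ _⟩, ?_⟩
  show z = (z.num : ℚ) / (z.den : ℚ)
  exact (Rat.num_div_den z).symm

/-- A Galois-fixed element of `Qb` which is integral over `ℤ_(ℓ)` lies in `ℤ_(ℓ)`. -/
theorem exists_Zl_of_fixed_of_isIntegral [Fact ℓ.Prime] (x : _root_.Fermat.Agent.S19.H435.Qb) (hx : ∀ σ : Gal, σ x = x)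
    (hint : IsIntegral (Zl ℓ) x) : ∃ r : Zl ℓ, algebraMap (Zl ℓ) _root_.Fermat.Agent.S19.H435.Qb r = x := by
  obtain ⟨q, rfl⟩ := fixed_mem_range_rat x hx
  have hq : IsIntegral (Zl ℓ) q :=
    (isIntegral_algebraMap_iff (algebraMap ℚ _root_.Fermat.Agent.S19.H435.Qb).injective).mp hint
  haveI := isFractionRing_Zl ℓ
  obtain ⟨r, hr⟩ := IsIntegrallyClosed.isIntegral_iff.mp hq
  exact ⟨r, by rw [← hr]; rfl⟩

end Zl

variable {ℓ : ℕ} {M : Type*} [AddCommGroup M] {act : Gal → M → M}
  {Λ : Subalgebra (Zl ℓ) (M → _root_.Fermat.Agent.S19.H435.Qb)}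

namespace IsHopfLattice

/-- Values of elements of a Hopf lattice are integral over `ℤ_(ℓ)`. -/
theorem isIntegral_apply (hΛ : IsHopfLattice ℓ act Λ) {f : M → _root_.Fermat.Agent.S19.H435.Qb} (hf : f ∈ Λ) (m : M) :
    IsIntegral (Zl ℓ) (f m) :=
  (IsIntegral.of_mem_of_fg Λ hΛ.fg f hf).map (Pi.evalAlgHom (Zl ℓ) (fun _ : M => _root_.Fermat.Agent.S19.H435.Qb) m)

/-- A Hopf lattice has an `ℤ_(ℓ)`-basis, which is `Qb`-linearly independent. -/
theorem exists_basis [Fact ℓ.Prime] (hΛ : IsHopfLattice ℓ act Λ) :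
    ∃ (n : ℕ) (e : Fin n → M → _root_.Fermat.Agent.S19.H435.Qb), (∀ i, e i ∈ Λ) ∧ LinearIndependent (Zl ℓ) e ∧
      LinearIndependent _root_.Fermat.Agent.S19.H435.Qb e ∧ ∀ f ∈ Λ, ∃ c : Fin n → Zl ℓ, f = ∑ i, c i • e i := by
  haveI : Module.Finite (Zl ℓ) (Subalgebra.toSubmodule Λ) := Module.Finite.iff_fg.mpr hΛ.fg
  haveI : Module.Free (Zl ℓ) (Subalgebra.toSubmodule Λ) :=
    Module.free_of_finite_type_torsion_free'
  let b := Module.finBasis (Zl ℓ) (Subalgebra.toSubmodule Λ)
  have hli : LinearIndependent (Zl ℓ) (fun i => ((b i : Subalgebra.toSubmodule Λ) : M → _root_.Fermat.Agent.S19.H435.Qb)) :=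
    b.linearIndependent.map' (Subalgebra.toSubmodule Λ).subtype (Submodule.ker_subtype _)
  refine ⟨_, fun i => ((b i : Subalgebra.toSubmodule Λ) : M → _root_.Fermat.Agent.S19.H435.Qb), fun i => (b i).2, hli, ?_, ?_⟩
  · exact linearIndependent_Qb_of_int (act := act) _ (fun i => hΛ.equivariant _ (b i).2)
      (LinearIndependent.restrict_scalars' ℤ hli)
  · intro f hf
    refine ⟨fun i => b.repr ⟨f, hf⟩ i, ?_⟩
    have := congrArg (Subalgebra.toSubmodule Λ).subtype (b.sum_repr ⟨f, hf⟩)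
    rw [map_sum] at this
    simpa using this.symm

/-- **Descent.** An equivariant function in the `Zb`-span of a Hopf lattice lies in the lattice
(`Zb` = integral closure of `ℤ_(ℓ)` in `Qb`). -/
theorem mem_of_mem_span_of_equivariant [Fact ℓ.Prime] (hΛ : IsHopfLattice ℓ act Λ)
    {u : M → _root_.Fermat.Agent.S19.H435.Qb}
    (hu : u ∈ Submodule.span (integralClosure (Zl ℓ) _root_.Fermat.Agent.S19.H435.Qb) (Λ : Set (M → _root_.Fermat.Agent.S19.H435.Qb)))
    (heq : IsEquivariantFun act u) : u ∈ Λ := by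
  obtain ⟨n, e, he, -, hliQ, hexp⟩ := hΛ.exists_basis
  -- coordinates with integral coefficients
  have hcoord : ∀ v ∈ Submodule.span (integralClosure (Zl ℓ) _root_.Fermat.Agent.S19.H435.Qb) (Λ : Set (M → _root_.Fermat.Agent.S19.H435.Qb)),
      ∃ W : Fin n → _root_.Fermat.Agent.S19.H435.Qb, (∀ i, IsIntegral (Zl ℓ) (W i)) ∧ v = ∑ i, W i • e i := by
    intro v hv
    induction hv using Submodule.span_induction with
    | mem f hf =>
      obtain ⟨c, hc⟩ := hexp f hf
      refine ⟨fun i => algebraMap (Zl ℓ) _root_.Fermat.Agent.S19.H435.Qb (c i), fun i => isIntegral_algebraMap, ?_⟩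
      rw [hc]
      refine Finset.sum_congr rfl fun i _ => ?_
      rw [algebraMap_smul]
    | zero => exact ⟨0, fun i => isIntegral_zero, by simp⟩
    | add x y _ _ hx hy =>
      obtain ⟨W, hW, rfl⟩ := hx
      obtain ⟨W', hW', rfl⟩ := hy
      refine ⟨W + W', fun i => (hW i).add (hW' i), ?_⟩
      simp [add_smul, Finset.sum_add_distrib]
    | smul z x _ hx =>
      obtain ⟨W, hW, rfl⟩ := hx
      refine ⟨fun i => (z : _root_.Fermat.Agent.S19.H435.Qb) * W i, fun i => z.2.mul (hW i), ?_⟩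
      show (z : _root_.Fermat.Agent.S19.H435.Qb) • (∑ i, W i • e i) = _
      rw [Finset.smul_sum]
      refine Finset.sum_congr rfl fun i _ => ?_
      rw [smul_smul]
  obtain ⟨W, hW, rfl⟩ := hcoord u hu
  have hpt : ∀ m : M, (∑ i, W i • e i) m = ∑ i, W i * e i m := by
    intro m
    simp [Finset.sum_apply]
  have hfix : ∀ (σ : Gal) (i : Fin n), σ (W i) = W i := by
    intro σ
    have h0 : ∑ i, (σ (W i) - W i) • e i = 0 := by
      funext m
      simp only [Finset.sum_apply, Pi.smul_apply, smul_eq_mul, Pi.zero_apply, sub_mul,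
        Finset.sum_sub_distrib]
      have h1 := heq σ⁻¹ m
      rw [hpt, hpt] at h1
      have h2 := congrArg σ h1
      rw [map_sum] at h2
      have h3 : σ (σ⁻¹ (∑ i, W i * e i m)) = ∑ i, W i * e i m :=
        AlgEquiv.apply_symm_apply σ _
      rw [h3] at h2
      rw [← h2, sub_eq_zero]
      refine Finset.sum_congr rfl fun i _ => ?_
      rw [map_mul, hΛ.equivariant _ (he i) σ⁻¹ m]
      congr 1
      exact (AlgEquiv.apply_symm_apply σ (e i m)).symm
    intro i
    have := (Fintype.linearIndependent_iff.mp hliQ) _ h0 i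
    exact sub_eq_zero.mp this
  choose r hr using fun i =>
    exists_Zl_of_fixed_of_isIntegral ℓ (W i) (fun σ => hfix σ i) (hW i)
  have : ∑ i, W i • e i = ∑ i, r i • e i := by
    refine Finset.sum_congr rfl fun i _ => ?_
    rw [← hr i, algebraMap_smul]
  rw [this]
  exact Subalgebra.sum_mem _ fun i _ => Subalgebra.smul_mem _ (he i) _

end IsHopfLattice

end Fermat.Agent.S19.H435

end
end
-- ===== PACK-END S19/H435/Lattice.lean

-- ===== PACK-BEGIN S55/Bridge/InertiaConj.lean
section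


/-!
# S55 bridge: inertia groups of valuation subrings of `ℚ̄` — membership criterion, conjugation,
and normal (Galois) levels unramified outside `S`.
-/

set_option autoImplicit false

namespace Fermat.Agent.S55.Bridge

open IntermediateField
open scoped Pointwise

attribute [local instance] isAlgebraic_Qbar isGalois_Qbar

section inertia

variable (A : ValuationSubring (AlgebraicClosure ℚ))

/-- Membership in the decomposition group, elementwise. -/
theorem mem_decompositionSubgroup_iff (σ : AlgebraicClosure ℚ ≃ₐ[ℚ] AlgebraicClosure ℚ) :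
    σ ∈ A.decompositionSubgroup ℚ ↔ ∀ x, σ x ∈ A ↔ x ∈ A := by
  rw [MulAction.mem_stabilizer_iff]
  constructor
  · intro h x
    have hinv : σ⁻¹ • A = A := by
      conv_lhs => rw [← h]
      rw [inv_smul_smul]
    have h1 := ValuationSubring.mem_pointwise_smul_iff_inv_smul_mem (S := A)
      (g := σ⁻¹) (x := x)
    rw [hinv, inv_inv] at h1
    rw [h1]
    rfl
  · intro h
    apply SetLike.ext
    intro x
    rw [ValuationSubring.mem_pointwise_smul_iff_inv_smul_mem]
    have h2 := h (σ⁻¹ • x)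
    rw [AlgEquiv.smul_def] at h2 ⊢
    rw [← h2]
    have : σ (σ⁻¹ x) = x := by
      show (σ * σ⁻¹) x = x
      rw [mul_inv_cancel]
      rfl
    rw [this]

/-- Membership in the inertia group, elementwise. -/
theorem mem_inertiaSubgroupIn_iff (σ : AlgebraicClosure ℚ ≃ₐ[ℚ] AlgebraicClosure ℚ) :
    σ ∈ A.inertiaSubgroupIn ℚ ↔
      σ ∈ A.decompositionSubgroup ℚ ∧ ∀ z ∈ A, σ z - z ∈ A.nonunits := by
  constructor
  · intro hσ
    have hD : σ ∈ A.decompositionSubgroup ℚ := by
      obtain ⟨g, -, rfl⟩ := hσ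
      exact g.2
    refine ⟨hD, fun z hz => ?_⟩
    rw [ValuationSubring.mem_nonunits_iff]
    exact inertia_val_sub_lt_one A hσ z ((A.valuation_le_one_iff z).2 hz)
  · rintro ⟨hD, h⟩
    refine ⟨⟨σ, hD⟩, ?_, rfl⟩
    show (⟨σ, hD⟩ : A.decompositionSubgroup ℚ) ∈ MonoidHom.ker
      (MulSemiringAction.toRingAut (A.decompositionSubgroup ℚ) (IsLocalRing.ResidueField A))
    rw [MonoidHom.mem_ker]
    apply RingEquiv.ext
    intro y
    obtain ⟨x, rfl⟩ := IsLocalRing.residue_surjective y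
    show (⟨σ, hD⟩ : A.decompositionSubgroup ℚ) • (IsLocalRing.residue A x)
      = IsLocalRing.residue A x
    rw [← IsLocalRing.ResidueField.residue_smul]
    rw [← sub_eq_zero, ← map_sub, IsLocalRing.residue_eq_zero_iff]
    have h3 := h x.1 x.2
    rw [ValuationSubring.mem_nonunits_iff] at h3
    rw [ValuationSubring.valuation_lt_one_iff]
    exact h3

theorem mem_smul_valuationSubring_iff (b : AlgebraicClosure ℚ ≃ₐ[ℚ] AlgebraicClosure ℚ)
    (x : AlgebraicClosure ℚ) : x ∈ b • A ↔ b⁻¹ x ∈ A := by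
  rw [ValuationSubring.mem_pointwise_smul_iff_inv_smul_mem]
  rfl

theorem mem_nonunits_iff_inv_not_mem (x : AlgebraicClosure ℚ) :
    x ∈ A.nonunits ↔ x = 0 ∨ x⁻¹ ∉ A := by
  rw [ValuationSubring.mem_nonunits_iff]
  rcases eq_or_ne x 0 with rfl | hx
  · simp
  · simp only [hx, false_or]
    rw [← A.valuation_le_one_iff, map_inv₀, not_le]
    have hpos : 0 < A.valuation x := by
      rw [zero_lt_iff]
      exact (A.valuation.ne_zero_iff).2 hx
    rw [one_lt_inv₀ hpos]

theorem mem_nonunits_smul_iff (b : AlgebraicClosure ℚ ≃ₐ[ℚ] AlgebraicClosure ℚ)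
    (x : AlgebraicClosure ℚ) : x ∈ (b • A).nonunits ↔ b⁻¹ x ∈ A.nonunits := by
  rw [mem_nonunits_iff_inv_not_mem, mem_nonunits_iff_inv_not_mem, mem_smul_valuationSubring_iff,
    map_inv₀]
  have : b⁻¹ x = 0 ↔ x = 0 := by
    rw [map_eq_zero_iff _ (b⁻¹).injective]
  rw [this]

theorem liesOverPrime_smul (b : AlgebraicClosure ℚ ≃ₐ[ℚ] AlgebraicClosure ℚ) (q : ℕ)
    (hA : A.LiesOverPrime q) : (b • A).LiesOverPrime q := by
  show (q : AlgebraicClosure ℚ) ∈ (b • A).nonunits
  rw [mem_nonunits_smul_iff, map_natCast]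
  exact hA

theorem apply_inv_conj (b σ : AlgebraicClosure ℚ ≃ₐ[ℚ] AlgebraicClosure ℚ)
    (x : AlgebraicClosure ℚ) : b⁻¹ ((b * σ * b⁻¹) x) = σ (b⁻¹ x) := by
  show (b⁻¹ * (b * σ * b⁻¹)) x = (σ * b⁻¹) x
  congr 1
  group

/-- Conjugation carries the inertia group of `A` to that of `b • A`. -/
theorem conj_mem_inertiaSubgroupIn (b σ : AlgebraicClosure ℚ ≃ₐ[ℚ] AlgebraicClosure ℚ)
    (hσ : σ ∈ A.inertiaSubgroupIn ℚ) : b * σ * b⁻¹ ∈ (b • A).inertiaSubgroupIn ℚ := by
  rw [mem_inertiaSubgroupIn_iff] at hσ ⊢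
  obtain ⟨hD, hI⟩ := hσ
  rw [mem_decompositionSubgroup_iff] at hD
  refine ⟨?_, ?_⟩
  · rw [mem_decompositionSubgroup_iff]
    intro x
    rw [mem_smul_valuationSubring_iff, mem_smul_valuationSubring_iff, apply_inv_conj, hD]
  · intro z hz
    rw [mem_smul_valuationSubring_iff] at hz
    rw [mem_nonunits_smul_iff, map_sub, apply_inv_conj]
    exact hI _ hz

end inertia

section Levels

variable (S : Finset Nat.Primes)

/-- Every finite extension unramified outside `S` is contained in a finite GALOIS extension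
unramified outside `S`. -/
theorem exists_galois_level_ge (F : IntermediateField ℚ (AlgebraicClosure ℚ))
    (hF : F.IsUnramifiedOutside S) :
    ∃ L : IntermediateField ℚ (AlgebraicClosure ℚ),
      L.IsUnramifiedOutside S ∧ IsGalois ℚ L ∧ F ≤ L := by
  haveI := hF.1
  haveI : (F.fixingSubgroup.normalCore).Normal := Subgroup.normalCore_normal _
  -- the normal closure is a finite Galois extension containing `F`
  have hfinN : FiniteDimensional ℚ (IntermediateField.normalClosure ℚ F (AlgebraicClosure ℚ)) :=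
    normalClosure.is_finiteDimensional ℚ F (AlgebraicClosure ℚ)
  have hgalN : IsGalois ℚ (IntermediateField.normalClosure ℚ F (AlgebraicClosure ℚ)) :=
    IsGalois.normalClosure ℚ F (AlgebraicClosure ℚ)
  have hnormal : (IntermediateField.normalClosure ℚ F
      (AlgebraicClosure ℚ)).fixingSubgroup.Normal :=
    (InfiniteGalois.normal_iff_isGalois _).2 hgalN
  have hle : (IntermediateField.normalClosure ℚ F (AlgebraicClosure ℚ)).fixingSubgroup
      ≤ F.fixingSubgroup.normalCore := by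
    rw [Subgroup.normal_le_normalCore]
    exact IntermediateField.fixingSubgroup_antitone (IntermediateField.le_normalClosure F)
  obtain ⟨L, hL, hgal, hfix, -⟩ := exists_galois_level_of_subgroup S F.fixingSubgroup.normalCore
    (IntermediateField.normalClosure ℚ F (AlgebraicClosure ℚ)) hfinN hle
    (by
      intro q hq A hA σ hσ
      rw [Subgroup.normalCore]
      intro b
      have h1 := conj_mem_inertiaSubgroupIn A b σ hσ
      exact hF.2 q hq (b • A) (liesOverPrime_smul A b q hA) h1)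
  refine ⟨L, hL, hgal, ?_⟩
  have h2 : L.fixingSubgroup ≤ F.fixingSubgroup := by
    rw [hfix]
    exact Subgroup.normalCore_le _
  rw [← InfiniteGalois.fixedField_fixingSubgroup F, ← InfiniteGalois.fixedField_fixingSubgroup L]
  exact IntermediateField.fixedField_antitone h2

end Levels

end Fermat.Agent.S55.Bridge

end
-- ===== PACK-END S55/Bridge/InertiaConj.lean

-- ===== PACK-BEGIN S37/H940/Core.lean
section




/-!
# S37 / RIM (helper940): the place reduction map, fibre-local core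

Abstract setting.  `K ⊇ A` a valued field with residue map `π : A → k`;  `F / K` and `F_k / k`
function fields (Prelude `Place`);  `V ⊆ F` a subring ("Gauss valuation ring") with a ring
homomorphism `ρ : V → F_k` extending `π`, such that every `u ∈ V` with `ρ u ≠ 0` is a unit of `V`.

A *fibre* is a set `𝔉` of places of `F` ("the tube") and a finite set `𝔊` of places of `F_k`
such that
* `FC`  (conservation of number in the fibre): `∑_{P ∈ 𝔉} ord_P u = ∑_{Q ∈ 𝔊} ord_Q (ρ u)`
  for every `u ∈ V` with `ρ u ≠ 0`;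
* `LP`  (smoothness 1): every `Q ∈ 𝔊` has a local parameter which lifts to an element of `V`
  regular on `𝔉`, and is a unit at the other points of `𝔊`;
* `SEP` (smoothness 2): some element of `V`, regular on `𝔉`, has a reduction separating `𝔊`.

Main result `Fibre.exists_red`: there is a surjective map `r : 𝔉 → 𝔊`, compatible with values
(`(ρ b)(r P) = π (b(P))`), with the conservation law
`∑_{P ∈ 𝔉, r P = Q} ord_P u = ord_Q (ρ u)` for every `u ∈ V` with `ρ u ≠ 0`.

No Zariski main theorem, no unique factorisation, no completions: only `FC`, used for the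
functions `1 - b/c`, `b - b(P)` and for the local parameters.
-/

set_option autoImplicit false

noncomputable section

namespace Fermat.Agent.S37.H940

open AlgebraicCurve
open Fermat.Agent.S24.FF

/-- The abstract reduction context. -/
structure Ctx (K F k Fk : Type*) [Field K] [Field F] [Algebra K F] [Field k] [Field Fk]
    [Algebra k Fk] where
  /-- the valuation ring of the base field -/
  A : ValuationSubring K
  /-- the residue map -/
  π : A →+* k
  π_surj : Function.Surjective π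
  π_eq_zero : ∀ a : A, π a = 0 ↔ ¬ IsUnit a
  /-- the ring of functions with a reduction -/
  V : Subring F
  /-- the reduction map -/
  ρ : V →+* Fk
  A_mem : ∀ a : A, algebraMap K F (a : K) ∈ V
  ρ_A : ∀ a : A, ρ ⟨algebraMap K F (a : K), A_mem a⟩ = algebraMap k Fk (π a)
  inv_mem : ∀ u : V, ρ u ≠ 0 → ((u : F))⁻¹ ∈ V

variable {K F k Fk : Type*} [Field K] [Field F] [Algebra K F] [Field k] [Field Fk]
  [Algebra k Fk]

namespace Ctx

variable (C : Ctx K F k Fk)

/-- a constant of `A` as an element of `V` -/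
def const (a : C.A) : C.V := ⟨algebraMap K F (a : K), C.A_mem a⟩

@[simp] theorem coe_const (a : C.A) : ((C.const a : C.V) : F) = algebraMap K F (a : K) := rfl

@[simp] theorem ρ_const (a : C.A) : C.ρ (C.const a) = algebraMap k Fk (C.π a) := C.ρ_A a

theorem ne_zero_of_ρ_ne_zero {u : C.V} (h : C.ρ u ≠ 0) : (u : F) ≠ 0 := by
  intro h0
  apply h
  have : u = 0 := Subtype.ext h0
  rw [this, map_zero]

/-- the inverse of an element with nonzero reduction -/
def inv (u : C.V) (h : C.ρ u ≠ 0) : C.V := ⟨((u : F))⁻¹, C.inv_mem u h⟩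

@[simp] theorem coe_inv (u : C.V) (h : C.ρ u ≠ 0) : ((C.inv u h : C.V) : F) = ((u : F))⁻¹ := rfl

theorem mul_inv (u : C.V) (h : C.ρ u ≠ 0) : u * C.inv u h = 1 := by
  apply Subtype.ext
  simp [mul_inv_cancel₀ (C.ne_zero_of_ρ_ne_zero h)]

theorem ρ_inv (u : C.V) (h : C.ρ u ≠ 0) : C.ρ (C.inv u h) = (C.ρ u)⁻¹ := by
  have := congrArg C.ρ (C.mul_inv u h)
  rw [map_mul, map_one] at this
  exact eq_inv_of_mul_eq_one_right this

theorem ρ_inv_ne_zero (u : C.V) (h : C.ρ u ≠ 0) : C.ρ (C.inv u h) ≠ 0 := by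
  rw [C.ρ_inv u h]
  exact inv_ne_zero h

/-- an element of `K` outside `A` has its inverse in the maximal ideal of `A` -/
theorem exists_inv_of_not_mem {c : K} (hc : c ∉ C.A) :
    ∃ a : C.A, (a : K) = c⁻¹ ∧ C.π a = 0 := by
  have hinv : c⁻¹ ∈ C.A := (C.A.mem_or_inv_mem c).resolve_left hc
  refine ⟨⟨c⁻¹, hinv⟩, rfl, ?_⟩
  rw [C.π_eq_zero]
  intro hu
  apply hc
  obtain ⟨b, hb⟩ := isUnit_iff_exists_inv.mp hu
  have hb' : c⁻¹ * (b : K) = 1 := by
    have := congrArg (fun x : C.A => (x : K)) hb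
    simpa using this
  have hc0 : c ≠ 0 := by
    rintro rfl
    exact hc (zero_mem _)
  have : (b : K) = c := by
    field_simp at hb'
    exact hb'
  rw [← this]
  exact b.2

end Ctx

/-- A fibre of the reduction: a tube `𝔉` of places of `F` over a finite set `𝔊` of places of
`F_k`, with conservation of number and smoothness. -/
structure Fibre (C : Ctx K F k Fk) where
  /-- the tube -/
  𝔉 : Set (Place K F)
  /-- the points of the special fibre -/
  𝔊 : Finset (Place k Fk)
  ne : 𝔊.Nonempty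
  res : ∀ P ∈ 𝔉, ∀ f : F, 0 ≤ P.ord f → ∃ c : K, InMax P (f - algebraMap K F c)
  fin : ∀ u : F, u ≠ 0 → {P | P ∈ 𝔉 ∧ P.ord u ≠ 0}.Finite
  FC : ∀ u : C.V, C.ρ u ≠ 0 → ∑ᶠ P ∈ 𝔉, P.ord (u : F) = ∑ Q ∈ 𝔊, Q.ord (C.ρ u)
  LP : ∀ Q ∈ 𝔊, ∃ t : C.V, (∀ P ∈ 𝔉, 0 ≤ P.ord (t : F)) ∧ Q.ord (C.ρ t) = 1 ∧
    ∀ Q' ∈ 𝔊, Q' ≠ Q → Q'.ord (C.ρ t) = 0
  SEP : ∃ s : C.V, (∀ P ∈ 𝔉, 0 ≤ P.ord (s : F)) ∧
    ∀ Q ∈ 𝔊, ∀ Q' ∈ 𝔊, ∀ a : k, InMax Q (C.ρ s - algebraMap k Fk a) →
      InMax Q' (C.ρ s - algebraMap k Fk a) → Q = Q'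

namespace Fibre

variable {C : Ctx K F k Fk} (Φ : Fibre C)

/-- the sum over the tube as a finite sum -/
theorem finsum_eq_sum (u : F) (hu : u ≠ 0) :
    ∑ᶠ P ∈ Φ.𝔉, P.ord u = ∑ P ∈ (Φ.fin u hu).toFinset, P.ord u := by
  rw [finsum_mem_eq_sum_of_inter_support_eq]
  ext P
  simp only [Set.mem_inter_iff, Function.mem_support, ne_eq, Set.Finite.coe_toFinset]
  constructor
  · rintro ⟨h1, h2⟩
    exact ⟨⟨h1, h2⟩, h2⟩
  · rintro ⟨⟨h1, h2⟩, -⟩
    exact ⟨h1, h2⟩

/-- if `u` is regular on the tube and vanishes at `P`, the sum over the tube is positive -/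
theorem finsum_pos {u : F} (hu : u ≠ 0) (hreg : ∀ P ∈ Φ.𝔉, 0 ≤ P.ord u) {P : Place K F}
    (hP : P ∈ Φ.𝔉) (hpos : 0 < P.ord u) : 0 < ∑ᶠ P ∈ Φ.𝔉, P.ord u := by
  rw [Φ.finsum_eq_sum u hu]
  have hmem : P ∈ (Φ.fin u hu).toFinset := by
    rw [Set.Finite.mem_toFinset]
    exact ⟨hP, hpos.ne'⟩
  refine lt_of_lt_of_le hpos
    (Finset.single_le_sum (f := fun P : Place K F => P.ord u) (fun Q hQ => ?_) hmem)
  rw [Set.Finite.mem_toFinset] at hQ
  exact hreg Q hQ.1

/-- if `u` is regular on the tube and the sum over the tube is `≤ ord_P u`,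
then `u` has no zero on the tube besides `P` -/
theorem ord_eq_zero_of_finsum_le {u : F} (hu : u ≠ 0) (hreg : ∀ P ∈ Φ.𝔉, 0 ≤ P.ord u)
    {P : Place K F} (hP : P ∈ Φ.𝔉) (hle : ∑ᶠ P ∈ Φ.𝔉, P.ord u ≤ P.ord u)
    {P' : Place K F} (hP' : P' ∈ Φ.𝔉) (hne : P' ≠ P) : P'.ord u = 0 := by
  classical
  by_contra h0
  have hpos : 0 < P'.ord u := lt_of_le_of_ne (hreg P' hP') (Ne.symm h0)
  rw [Φ.finsum_eq_sum u hu] at hle
  have hmem' : P' ∈ (Φ.fin u hu).toFinset := by
    rw [Set.Finite.mem_toFinset]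
    exact ⟨hP', h0⟩
  have hnn : ∀ Q ∈ (Φ.fin u hu).toFinset, 0 ≤ Q.ord u := fun Q hQ => by
    rw [Set.Finite.mem_toFinset] at hQ
    exact hreg Q hQ.1
  by_cases hPm : P ∈ (Φ.fin u hu).toFinset
  · have h2 : P.ord u + P'.ord u ≤ ∑ Q ∈ (Φ.fin u hu).toFinset, Q.ord u := by
      have hsub : ({P, P'} : Finset (Place K F)) ⊆ (Φ.fin u hu).toFinset := by
        intro Q hQ
        rw [Finset.mem_insert, Finset.mem_singleton] at hQ
        rcases hQ with rfl | rfl
        · exact hPm
        · exact hmem'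
      have := Finset.sum_le_sum_of_subset_of_nonneg (f := fun Q : Place K F => Q.ord u) hsub
        (fun Q hQ _ => hnn Q hQ)
      rwa [Finset.sum_pair (Ne.symm hne)] at this
    omega
  · have hP0 : P.ord u = 0 := by
      by_contra h
      exact hPm (by rw [Set.Finite.mem_toFinset]; exact ⟨hP, h⟩)
    have := Finset.single_le_sum (f := fun Q : Place K F => Q.ord u) hnn hmem'
    omega

/-- **value lemma, integrality**: the value at a point of the tube of a function of `V`
regular on the tube lies in `A`. -/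
theorem value_mem (b : C.V) (hreg : ∀ P ∈ Φ.𝔉, 0 ≤ P.ord (b : F)) {P : Place K F}
    (hP : P ∈ Φ.𝔉) {c : K} (hc : InMax P ((b : F) - algebraMap K F c)) : c ∈ C.A := by
  by_contra hcA
  obtain ⟨a, ha, hπ⟩ := C.exists_inv_of_not_mem hcA
  have hc0 : c ≠ 0 := by
    rintro rfl
    exact hcA (zero_mem _)
  -- `u = 1 - b / c`
  set u : C.V := 1 - C.const a * b with hu
  have hρ : C.ρ u = 1 := by
    rw [hu, map_sub, map_one, map_mul, C.ρ_const, hπ, map_zero, zero_mul, sub_zero]
  have hρ0 : C.ρ u ≠ 0 := by rw [hρ]; exact one_ne_zero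
  have hu0 : (u : F) ≠ 0 := C.ne_zero_of_ρ_ne_zero hρ0
  have hcoe : (u : F) = 1 - algebraMap K F c⁻¹ * (b : F) := by
    rw [hu, ← ha]
    rfl
  have hureg : ∀ P ∈ Φ.𝔉, 0 ≤ P.ord (u : F) := by
    intro P hP
    rw [hcoe]
    refine ord_nonneg_sub (by simp) (ord_nonneg_mul (ord_nonneg_const P _) (hreg P hP))
  have hmax : InMax P (u : F) := by
    have e : (u : F) = algebraMap K F (-c⁻¹) * ((b : F) - algebraMap K F c) := by
      have h1 : algebraMap K F c⁻¹ * algebraMap K F c = 1 := by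
        rw [← map_mul, inv_mul_cancel₀ hc0, map_one]
      rw [hcoe, map_neg]
      linear_combination (-1 : F) * h1
    rw [e]
    exact hc.const_mul _
  have hpos := Φ.finsum_pos hu0 hureg hP (hmax.ord_pos hu0)
  rw [Φ.FC u hρ0, hρ] at hpos
  simp at hpos

/-- the value of a function regular on the tube, as an element of `A` -/
theorem exists_value (b : C.V) (hreg : ∀ P ∈ Φ.𝔉, 0 ≤ P.ord (b : F)) {P : Place K F}
    (hP : P ∈ Φ.𝔉) : ∃ c : C.A, InMax P ((b : F) - algebraMap K F (c : K)) := by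
  obtain ⟨c, hc⟩ := Φ.res P hP b (hreg P hP)
  exact ⟨⟨c, Φ.value_mem b hreg hP hc⟩, hc⟩

/-- **zeros specialise to zeros**: if `b` has the value `c` at `P`, then `ρ b` has the value
`π c` at some point of `𝔊`. -/
theorem exists_point (b : C.V) (hreg : ∀ P ∈ Φ.𝔉, 0 ≤ P.ord (b : F)) {P : Place K F}
    (hP : P ∈ Φ.𝔉) {c : C.A} (hc : InMax P ((b : F) - algebraMap K F (c : K))) :
    ∃ Q ∈ Φ.𝔊, InMax Q (C.ρ b - algebraMap k Fk (C.π c)) := by
  set u : C.V := b - C.const c with hu
  have hρ : C.ρ u = C.ρ b - algebraMap k Fk (C.π c) := by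
    rw [hu, map_sub, C.ρ_const]
  rw [← hρ]
  by_cases h0 : C.ρ u = 0
  · obtain ⟨Q, hQ⟩ := Φ.ne
    exact ⟨Q, hQ, by rw [h0]; exact inMax_zero Q⟩
  · have hu0 : (u : F) ≠ 0 := C.ne_zero_of_ρ_ne_zero h0
    have hcoe : (u : F) = (b : F) - algebraMap K F (c : K) := by
      rw [hu]
      rfl
    have hureg : ∀ P ∈ Φ.𝔉, 0 ≤ P.ord (u : F) := fun P hP => by
      rw [hcoe]
      exact ord_nonneg_sub (hreg P hP) (ord_nonneg_const P _)
    have hpos := Φ.finsum_pos hu0 hureg hP (by rw [hcoe]; exact hc.ord_pos (hcoe ▸ hu0))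
    rw [Φ.FC u h0] at hpos
    obtain ⟨Q, hQ, hQpos⟩ := Finset.exists_lt_of_sum_lt (f := fun _ => (0 : ℤ))
      (g := fun Q : Place k Fk => Q.ord (C.ρ u)) (s := Φ.𝔊) (by simpa using hpos)
    exact ⟨Q, hQ, inMax_of_ord_pos hQpos⟩

/-! ### The reduction map on the tube -/

/-- the separating function -/
def sepFun : C.V := Φ.SEP.choose

theorem sepFun_reg : ∀ P ∈ Φ.𝔉, 0 ≤ P.ord (Φ.sepFun : F) := Φ.SEP.choose_spec.1

theorem sepFun_sep : ∀ Q ∈ Φ.𝔊, ∀ Q' ∈ Φ.𝔊, ∀ a : k,
    InMax Q (C.ρ Φ.sepFun - algebraMap k Fk a) →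
      InMax Q' (C.ρ Φ.sepFun - algebraMap k Fk a) → Q = Q' :=
  Φ.SEP.choose_spec.2

/-- the value of the separating function at a point of the tube -/
def sepValue {P : Place K F} (hP : P ∈ Φ.𝔉) : C.A :=
  (Φ.exists_value Φ.sepFun Φ.sepFun_reg hP).choose

theorem sepValue_spec {P : Place K F} (hP : P ∈ Φ.𝔉) :
    InMax P ((Φ.sepFun : F) - algebraMap K F (Φ.sepValue hP : K)) :=
  (Φ.exists_value Φ.sepFun Φ.sepFun_reg hP).choose_spec

theorem exists_red_point {P : Place K F} (hP : P ∈ Φ.𝔉) :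
    ∃ Q ∈ Φ.𝔊, InMax Q (C.ρ Φ.sepFun - algebraMap k Fk (C.π (Φ.sepValue hP))) :=
  Φ.exists_point Φ.sepFun Φ.sepFun_reg hP (Φ.sepValue_spec hP)

open Classical in
/-- **The reduction map** of the fibre (junk outside the tube). -/
def red (P : Place K F) : Place k Fk :=
  if hP : P ∈ Φ.𝔉 then (Φ.exists_red_point hP).choose else Φ.ne.choose

theorem red_mem (P : Place K F) : Φ.red P ∈ Φ.𝔊 := by
  unfold red
  split_ifs with hP
  · exact (Φ.exists_red_point hP).choose_spec.1
  · exact Φ.ne.choose_spec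

theorem red_sepFun {P : Place K F} (hP : P ∈ Φ.𝔉) :
    InMax (Φ.red P) (C.ρ Φ.sepFun - algebraMap k Fk (C.π (Φ.sepValue hP))) := by
  unfold red
  rw [dif_pos hP]
  exact (Φ.exists_red_point hP).choose_spec.2

/-- **value compatibility**: `(ρ b)(r P) = π (b(P))` for `b ∈ V` regular on the tube. -/
theorem red_value [Infinite k] (b : C.V) (hreg : ∀ P ∈ Φ.𝔉, 0 ≤ P.ord (b : F))
    {P : Place K F} (hP : P ∈ Φ.𝔉) {c : C.A}
    (hc : InMax P ((b : F) - algebraMap K F (c : K))) :
    InMax (Φ.red P) (C.ρ b - algebraMap k Fk (C.π c)) := by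
  classical
  set s := Φ.sepFun with hs
  set cs := Φ.sepValue hP with hcs
  have hsP := Φ.sepValue_spec hP
  -- for every `a : k` a point `Q_a` where `(ρ s - π cs) + a (ρ b - π c)` vanishes
  have key : ∀ a : k, ∃ Q ∈ Φ.𝔊,
      InMax Q ((C.ρ s - algebraMap k Fk (C.π cs)) +
        algebraMap k Fk a * (C.ρ b - algebraMap k Fk (C.π c))) := by
    intro a
    obtain ⟨l, hl⟩ := C.π_surj a
    have hreg' : ∀ P ∈ Φ.𝔉, 0 ≤ P.ord ((s + C.const l * b : C.V) : F) := fun P hP =>
      ord_nonneg_add (Φ.sepFun_reg P hP) (ord_nonneg_mul (ord_nonneg_const P _) (hreg P hP))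
    have hval : InMax P (((s + C.const l * b : C.V) : F) -
        algebraMap K F ((cs + l * c : C.A) : K)) := by
      have e : ((s + C.const l * b : C.V) : F) - algebraMap K F ((cs + l * c : C.A) : K)
          = ((s : F) - algebraMap K F (cs : K)) +
            algebraMap K F (l : K) * ((b : F) - algebraMap K F (c : K)) := by
        have h1 : ((s + C.const l * b : C.V) : F)
            = (s : F) + algebraMap K F (l : K) * (b : F) := rfl
        have h2 : ((cs + l * c : C.A) : K) = (cs : K) + (l : K) * (c : K) := rfl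
        rw [h1, h2, map_add, map_mul]
        ring
      rw [e]
      exact hsP.add (hc.const_mul _)
    obtain ⟨Q, hQ, hQm⟩ := Φ.exists_point _ hreg' hP hval
    refine ⟨Q, hQ, ?_⟩
    have e : C.ρ (s + C.const l * b) - algebraMap k Fk (C.π (cs + l * c))
        = (C.ρ s - algebraMap k Fk (C.π cs)) +
          algebraMap k Fk a * (C.ρ b - algebraMap k Fk (C.π c)) := by
      rw [map_add, map_mul, C.ρ_const, map_add, map_mul, hl, map_add, map_mul]
      ring
    rw [← e]
    exact hQm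
  choose Qf hQf hQm using key
  -- pigeonhole
  let f : k → Φ.𝔊 := fun a => ⟨Qf a, hQf a⟩
  obtain ⟨a₁, a₂, hne, heq⟩ := Finite.exists_ne_map_eq_of_infinite f
  have heq' : Qf a₁ = Qf a₂ := congrArg Subtype.val heq
  have h1 := hQm a₁
  have h2 := hQm a₂
  rw [← heq'] at h2
  set g := C.ρ b - algebraMap k Fk (C.π c) with hg
  set h := C.ρ s - algebraMap k Fk (C.π cs) with hh
  have h3 : InMax (Qf a₁) (algebraMap k Fk (a₁ - a₂) * g) := by
    have := h1.sub h2
    have e : h + algebraMap k Fk a₁ * g - (h + algebraMap k Fk a₂ * g)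
        = algebraMap k Fk (a₁ - a₂) * g := by
      rw [map_sub]; ring
    rwa [e] at this
  have hg' : InMax (Qf a₁) g := by
    have := h3.const_mul (a₁ - a₂)⁻¹
    have e : algebraMap k Fk (a₁ - a₂)⁻¹ * (algebraMap k Fk (a₁ - a₂) * g) = g := by
      rw [← mul_assoc, ← map_mul, inv_mul_cancel₀ (sub_ne_zero.mpr hne), map_one, one_mul]
    rwa [e] at this
  have hh' : InMax (Qf a₁) h := by
    have := h1.sub (hg'.const_mul a₁)
    rwa [add_sub_cancel_right] at this
  have hQ : Qf a₁ = Φ.red P :=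
    Φ.sepFun_sep _ (hQf a₁) _ (Φ.red_mem P) _ hh' (Φ.red_sepFun hP)
  rw [← hQ]
  exact hg'

/-- the reduction of a function of `V` regular on the tube is regular at `r P` -/
theorem ord_ρ_nonneg_red [Infinite k] (b : C.V) (hreg : ∀ P ∈ Φ.𝔉, 0 ≤ P.ord (b : F))
    {P : Place K F} (hP : P ∈ Φ.𝔉) : 0 ≤ (Φ.red P).ord (C.ρ b) := by
  obtain ⟨c, hc⟩ := Φ.exists_value b hreg hP
  exact ord_nonneg_of_inMax_sub (Φ.red_value b hreg hP hc)

/-- **local parameters**: at every point `P` of the tube there is `t ∈ V` with a simple zero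
at `P`, no other zero on the tube, whose reduction has a simple zero at `r P` and no other
zero on `𝔊`. -/
theorem exists_localParam [Infinite k] {P : Place K F} (hP : P ∈ Φ.𝔉) :
    ∃ t : C.V, C.ρ t ≠ 0 ∧ (∀ P' ∈ Φ.𝔉, 0 ≤ P'.ord (t : F)) ∧ P.ord (t : F) = 1 ∧
      (∀ P' ∈ Φ.𝔉, P' ≠ P → P'.ord (t : F) = 0) ∧
      (Φ.red P).ord (C.ρ t) = 1 ∧ ∀ Q' ∈ Φ.𝔊, Q' ≠ Φ.red P → Q'.ord (C.ρ t) = 0 := by
  classical
  obtain ⟨t₀, hreg₀, hQ₀, hQ'₀⟩ := Φ.LP (Φ.red P) (Φ.red_mem P)
  obtain ⟨c₀, hc₀⟩ := Φ.exists_value t₀ hreg₀ hP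
  have hρ₀ : C.ρ t₀ ≠ 0 := by
    intro h
    rw [h] at hQ₀
    simp at hQ₀
  -- the value of `t₀` at `P` lies in the maximal ideal
  have hπ : C.π c₀ = 0 := by
    have h1 := Φ.red_value t₀ hreg₀ hP hc₀
    have h2 : InMax (Φ.red P) (C.ρ t₀) := inMax_of_ord_pos (by omega)
    have h3 := h2.sub h1
    rw [sub_sub_cancel, inMax_algebraMap_iff] at h3
    exact h3
  set t : C.V := t₀ - C.const c₀ with ht
  have hρ : C.ρ t = C.ρ t₀ := by
    rw [ht, map_sub, C.ρ_const, hπ, map_zero, sub_zero]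
  have hρ0 : C.ρ t ≠ 0 := by rwa [hρ]
  have ht0 : (t : F) ≠ 0 := C.ne_zero_of_ρ_ne_zero hρ0
  have hcoe : (t : F) = (t₀ : F) - algebraMap K F (c₀ : K) := by
    rw [ht]
    rfl
  have hreg : ∀ P' ∈ Φ.𝔉, 0 ≤ P'.ord (t : F) := fun P' hP' => by
    rw [hcoe]
    exact ord_nonneg_sub (hreg₀ P' hP') (ord_nonneg_const P' _)
  have hpos : 0 < P.ord (t : F) := by
    rw [hcoe]
    exact hc₀.ord_pos (hcoe ▸ ht0)
  have hsum : ∑ᶠ P' ∈ Φ.𝔉, P'.ord (t : F) = 1 := by
    rw [Φ.FC t hρ0, hρ, Finset.sum_eq_single_of_mem (Φ.red P) (Φ.red_mem P)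
      (fun Q' hQ' hne => hQ'₀ Q' hQ' hne), hQ₀]
  have hle : P.ord (t : F) ≤ 1 := by
    rw [← hsum, Φ.finsum_eq_sum _ ht0]
    have hmem : P ∈ (Φ.fin _ ht0).toFinset := by
      rw [Set.Finite.mem_toFinset]
      exact ⟨hP, hpos.ne'⟩
    refine Finset.single_le_sum (f := fun P' : Place K F => P'.ord (t : F)) (fun Q hQ => ?_) hmem
    rw [Set.Finite.mem_toFinset] at hQ
    exact hreg Q hQ.1
  have hone : P.ord (t : F) = 1 := by omega
  refine ⟨t, hρ0, hreg, hone, fun P' hP' hne => ?_, by rw [hρ]; exact hQ₀,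
    fun Q' hQ' hne => by rw [hρ]; exact hQ'₀ Q' hQ' hne⟩
  exact Φ.ord_eq_zero_of_finsum_le ht0 hreg hP (by rw [hsum, hone]) hP' hne

/-- **surjectivity** of the reduction map: every point of `𝔊` lifts to the tube. -/
theorem red_surj [Infinite k] {Q : Place k Fk} (hQ : Q ∈ Φ.𝔊) : ∃ P ∈ Φ.𝔉, Φ.red P = Q := by
  classical
  obtain ⟨t, hreg, hQ1, hQ'⟩ := Φ.LP Q hQ
  have hρ0 : C.ρ t ≠ 0 := by
    intro h
    rw [h] at hQ1
    simp at hQ1
  have ht0 : (t : F) ≠ 0 := C.ne_zero_of_ρ_ne_zero hρ0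
  have hsum : ∑ᶠ P' ∈ Φ.𝔉, P'.ord (t : F) = 1 := by
    rw [Φ.FC t hρ0, Finset.sum_eq_single_of_mem Q hQ (fun Q' hQ'' hne => hQ' Q' hQ'' hne), hQ1]
  rw [Φ.finsum_eq_sum _ ht0] at hsum
  obtain ⟨P, hPm, hPpos⟩ := Finset.exists_lt_of_sum_lt (f := fun _ => (0 : ℤ))
    (g := fun P : Place K F => P.ord (t : F)) (s := (Φ.fin _ ht0).toFinset)
    (by simp [hsum])
  rw [Set.Finite.mem_toFinset] at hPm
  refine ⟨P, hPm.1, ?_⟩
  have hval : InMax P ((t : F) - algebraMap K F ((0 : C.A) : K)) := by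
    simpa using inMax_of_ord_pos hPpos
  have h1 := Φ.red_value t hreg hPm.1 hval
  rw [map_zero, map_zero, sub_zero] at h1
  by_contra hne
  have h2 := hQ' (Φ.red P) (Φ.red_mem P) hne
  exact not_inMax_of_ord_eq_zero hρ0 h2 h1

/-- **regularity transfer**: the reduction of a function of `V` regular on the tube is
regular on `𝔊`. -/
theorem ord_ρ_nonneg [Infinite k] (b : C.V) (hreg : ∀ P ∈ Φ.𝔉, 0 ≤ P.ord (b : F))
    {Q : Place k Fk} (hQ : Q ∈ Φ.𝔊) : 0 ≤ Q.ord (C.ρ b) := by
  obtain ⟨P, hP, rfl⟩ := Φ.red_surj hQ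
  exact Φ.ord_ρ_nonneg_red b hreg hP

/-! ### Conservation of number, point by point -/

end Fibre

namespace Ctx

variable (C : Ctx K F k Fk)

theorem isUnit_of_ρ_ne_zero {u : C.V} (h : C.ρ u ≠ 0) : IsUnit u :=
  ⟨⟨u, C.inv u h, C.mul_inv u h, by rw [mul_comm]; exact C.mul_inv u h⟩, rfl⟩

theorem ρ_ne_zero_of_isUnit {u : C.V} (h : IsUnit u) : C.ρ u ≠ 0 :=
  (h.map C.ρ).ne_zero

theorem ρ_unit_ne_zero (w : C.Vˣ) : C.ρ (w : C.V) ≠ 0 := C.ρ_ne_zero_of_isUnit w.isUnit

theorem coe_unit_ne_zero (w : C.Vˣ) : ((w : C.V) : F) ≠ 0 :=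
  C.ne_zero_of_ρ_ne_zero (C.ρ_unit_ne_zero w)

theorem coe_unit_inv (w : C.Vˣ) : (((w⁻¹ : C.Vˣ) : C.V) : F) = (((w : C.V) : F))⁻¹ := by
  have h := congrArg (fun x : C.V => (x : F)) (Units.mul_inv w)
  simp only [Subring.coe_mul, Subring.coe_one] at h
  exact eq_inv_of_mul_eq_one_right h

theorem coe_unit_mul (w w' : C.Vˣ) :
    (((w * w' : C.Vˣ) : C.V) : F) = ((w : C.V) : F) * ((w' : C.V) : F) := rfl

theorem ρ_unit_inv (w : C.Vˣ) : C.ρ ((w⁻¹ : C.Vˣ) : C.V) = (C.ρ (w : C.V))⁻¹ := by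
  have h := congrArg C.ρ (Units.mul_inv w)
  rw [map_mul, map_one] at h
  exact eq_inv_of_mul_eq_one_right h

theorem coe_unit_zpow (w : C.Vˣ) (n : ℤ) :
    (((w ^ n : C.Vˣ) : C.V) : F) = (((w : C.V) : F)) ^ n := by
  induction n using Int.induction_on with
  | zero => simp
  | succ n ih =>
    rw [zpow_add_one, C.coe_unit_mul, ih, zpow_add_one₀ (C.coe_unit_ne_zero w)]
  | pred n ih =>
    rw [zpow_sub_one, C.coe_unit_mul, ih, C.coe_unit_inv, zpow_sub_one₀ (C.coe_unit_ne_zero w)]

theorem ρ_unit_zpow (w : C.Vˣ) (n : ℤ) :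
    C.ρ ((w ^ n : C.Vˣ) : C.V) = (C.ρ (w : C.V)) ^ n := by
  induction n using Int.induction_on with
  | zero => simp
  | succ n ih =>
    rw [zpow_add_one, Units.val_mul, map_mul, ih, zpow_add_one₀ (C.ρ_unit_ne_zero w)]
  | pred n ih =>
    rw [zpow_sub_one, Units.val_mul, map_mul, ih, C.ρ_unit_inv,
      zpow_sub_one₀ (C.ρ_unit_ne_zero w)]

end Ctx

namespace Fibre

variable {C : Ctx K F k Fk} (Φ : Fibre C)

/-- a unit of `V` without zeros and poles on the tube reduces to a unit at every point of `𝔊` -/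
theorem ord_ρ_unit_eq_zero [Infinite k] (w : C.Vˣ)
    (h : ∀ P ∈ Φ.𝔉, P.ord ((w : C.V) : F) = 0) {Q : Place k Fk} (hQ : Q ∈ Φ.𝔊) :
    Q.ord (C.ρ (w : C.V)) = 0 := by
  have h1 := Φ.ord_ρ_nonneg (w : C.V) (fun P hP => (h P hP).ge) hQ
  have h2 := Φ.ord_ρ_nonneg ((w⁻¹ : C.Vˣ) : C.V) (fun P hP => by
    rw [C.coe_unit_inv, P.ord_inv, h P hP]; simp) hQ
  rw [C.ρ_unit_inv, Q.ord_inv] at h2
  omega

open Classical in
/-- conservation of number for units, by induction on the zeros and poles in the tube -/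
theorem ord_ρ_unit_eq_sum [Infinite k] (T : Finset (Place K F)) :
    (∀ P ∈ T, P ∈ Φ.𝔉) → ∀ w : C.Vˣ, (∀ P ∈ Φ.𝔉, P.ord ((w : C.V) : F) ≠ 0 → P ∈ T) →
      ∀ Q ∈ Φ.𝔊, Q.ord (C.ρ (w : C.V)) = ∑ P ∈ T with Φ.red P = Q, P.ord ((w : C.V) : F) := by
  induction T using Finset.induction_on with
  | empty =>
    intro _ w hw Q hQ
    rw [Finset.filter_empty, Finset.sum_empty]
    refine Φ.ord_ρ_unit_eq_zero w (fun P hP => ?_) hQ
    by_contra h
    exact absurd (hw P hP h) (Finset.notMem_empty P)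
  | insert P₀ T hP₀ ih =>
    intro hT w hw Q hQ
    have hP₀𝔉 : P₀ ∈ Φ.𝔉 := hT P₀ (Finset.mem_insert_self _ _)
    have hT' : ∀ P ∈ T, P ∈ Φ.𝔉 := fun P hP => hT P (Finset.mem_insert_of_mem hP)
    obtain ⟨t, hρt, -, ht1, ht0, hQ1, hQ0⟩ := Φ.exists_localParam hP₀𝔉
    set τ : C.Vˣ := (C.isUnit_of_ρ_ne_zero hρt).unit with hτ
    have hτc : (τ : C.V) = t := IsUnit.unit_spec _
    set n : ℤ := P₀.ord ((w : C.V) : F) with hn
    set w' : C.Vˣ := w * τ ^ (-n) with hw'
    have hw0 : ((w : C.V) : F) ≠ 0 := C.coe_unit_ne_zero w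
    have hτ0 : ((τ : C.V) : F) ≠ 0 := C.coe_unit_ne_zero τ
    -- orders of `w'` on the tube
    have hord : ∀ P : Place K F, P.ord ((w' : C.V) : F)
        = P.ord ((w : C.V) : F) - n * P.ord ((τ : C.V) : F) := by
      intro P
      rw [hw', C.coe_unit_mul, C.coe_unit_zpow, P.ord_mul hw0 (zpow_ne_zero _ hτ0), P.ord_zpow]
      ring
    have hordQ : ∀ Q : Place k Fk, Q.ord (C.ρ (w' : C.V))
        = Q.ord (C.ρ (w : C.V)) - n * Q.ord (C.ρ (τ : C.V)) := by
      intro Q
      rw [hw', Units.val_mul, map_mul, C.ρ_unit_zpow,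
        Q.ord_mul (C.ρ_unit_ne_zero w) (zpow_ne_zero _ (C.ρ_unit_ne_zero τ)), Q.ord_zpow]
      ring
    have hw'T : ∀ P ∈ Φ.𝔉, P.ord ((w' : C.V) : F) ≠ 0 → P ∈ T := by
      intro P hP hne
      rw [hord P] at hne
      by_cases hPP : P = P₀
      · subst hPP
        rw [hτc, ht1] at hne
        simp [hn] at hne
      · rw [hτc, ht0 P hP hPP, mul_zero, sub_zero] at hne
        have := hw P hP hne
        rw [Finset.mem_insert] at this
        exact this.resolve_left hPP
    have key := ih hT' w' hw'T Q hQ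
    rw [hordQ Q] at key
    have hsum : ∑ P ∈ T with Φ.red P = Q, P.ord ((w' : C.V) : F)
        = ∑ P ∈ T with Φ.red P = Q, P.ord ((w : C.V) : F) := by
      refine Finset.sum_congr rfl fun P hP => ?_
      rw [Finset.mem_filter] at hP
      have hPP : P ≠ P₀ := fun h => hP₀ (h ▸ hP.1)
      rw [hord P, hτc, ht0 P (hT' P hP.1) hPP, mul_zero, sub_zero]
    rw [hsum] at key
    rw [Finset.filter_insert]
    split_ifs with hred
    · rw [Finset.sum_insert (fun h => hP₀ (Finset.mem_filter.mp h).1)]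
      rw [hτc, ← hred, hQ1] at key
      rw [← hn]
      rw [← hred]
      omega
    · rw [hτc, hQ0 Q hQ (fun h => hred h.symm)] at key
      omega

open Classical in
/-- **Conservation of number, point by point.**  For `u ∈ V` with `ρ u ≠ 0` and `Q ∈ 𝔊`:
`∑_{P ∈ 𝔉, r P = Q} ord_P u = ord_Q (ρ u)`. -/
theorem finsum_red_eq [Infinite k] (u : C.V) (hu : C.ρ u ≠ 0) {Q : Place k Fk} (hQ : Q ∈ Φ.𝔊) :
    ∑ᶠ P ∈ {P | P ∈ Φ.𝔉 ∧ Φ.red P = Q}, P.ord (u : F) = Q.ord (C.ρ u) := by
  have hu0 : (u : F) ≠ 0 := C.ne_zero_of_ρ_ne_zero hu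
  set T := (Φ.fin (u : F) hu0).toFinset with hT
  have hTmem : ∀ P, P ∈ T ↔ P ∈ Φ.𝔉 ∧ P.ord (u : F) ≠ 0 := fun P => by
    rw [hT, Set.Finite.mem_toFinset]
    exact Iff.rfl
  have key := Φ.ord_ρ_unit_eq_sum T (fun P hP => ((hTmem P).mp hP).1)
    (C.isUnit_of_ρ_ne_zero hu).unit (fun P hP hne => (hTmem P).mpr ⟨hP, by
      rwa [IsUnit.unit_spec] at hne⟩) Q hQ
  rw [IsUnit.unit_spec] at key
  rw [key]
  apply finsum_mem_eq_sum_of_inter_support_eq
  ext P
  simp only [Set.mem_inter_iff, Function.mem_support, ne_eq, Finset.coe_filter]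
  constructor
  · rintro ⟨⟨h1, h2⟩, h3⟩
    exact ⟨⟨(hTmem P).mpr ⟨h1, h3⟩, h2⟩, h3⟩
  · rintro ⟨⟨h1, h2⟩, h3⟩
    exact ⟨⟨((hTmem P).mp h1).1, h2⟩, h3⟩

/-- **Main theorem of the fibre-local core.** -/
theorem exists_red [Infinite k] :
    ∃ r : Place K F → Place k Fk,
      (∀ P, r P ∈ Φ.𝔊) ∧
      (∀ Q ∈ Φ.𝔊, ∃ P ∈ Φ.𝔉, r P = Q) ∧
      (∀ b : C.V, (∀ P ∈ Φ.𝔉, 0 ≤ P.ord (b : F)) → ∀ P ∈ Φ.𝔉, ∀ c : C.A,
        InMax P ((b : F) - algebraMap K F (c : K)) →
          InMax (r P) (C.ρ b - algebraMap k Fk (C.π c))) ∧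
      (∀ u : C.V, C.ρ u ≠ 0 → ∀ Q ∈ Φ.𝔊,
        ∑ᶠ P ∈ {P | P ∈ Φ.𝔉 ∧ r P = Q}, P.ord (u : F) = Q.ord (C.ρ u)) :=
  ⟨Φ.red, Φ.red_mem, fun _ hQ => Φ.red_surj hQ,
    fun b hreg _ hP _ hc => Φ.red_value b hreg hP hc,
    fun u hu _ hQ => Φ.finsum_red_eq u hu hQ⟩

end Fibre

end Fermat.Agent.S37.H940

end
end
-- ===== PACK-END S37/H940/Core.lean

-- ===== PACK-BEGIN S37/H159/MInt.lean
section




/-!
# Theorem M, part 2: lifted residue bases, saturation, integrality of reductions
(row S37, piece R-b; seat helper159)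

In a reduction context `G` with `[F : K(x)] = [F_k : k(x̄)] < ∞`:

* `exists_resid_basis` : there is a `K(x)`-basis of `F` inside `O` which is residually
  independent (lift of a `k(x̄)`-basis of `F_k`);
* `isIntegralElem_of_mem` (saturation, QEP): an element of `O` integral over `K[x]` is integral
  over `A[x]`;
* `isIntegral_ρ` : its reduction is integral over `k[x̄]`.
-/

set_option autoImplicit false
set_option linter.unusedSectionVars false

namespace Fermat.Agent.S37.H159

open Polynomial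

namespace RedCtx

variable {K : Type*} [Field K] {A : ValuationSubring K} {k : Type*} [Field k]
  {F : Type*} [Field F] [Algebra K[X] F] {Fk : Type*} [Field Fk] [Algebra k[X] Fk]
  (G : RedCtx A k F Fk)

/-- `A[X] → O`, `P ↦ P(x)`. -/
noncomputable def polyO : A[X] →+* G.O :=
  RingHom.codRestrict ((algebraMap K[X] F).comp (mapRingHom A.subtype)) G.O G.mem

theorem polyO_coe (p : A[X]) : ((G.polyO p : G.O) : F) = algebraMap K[X] F (p.map A.subtype) :=
  rfl

theorem ρ_polyO (p : A[X]) : G.ρ (G.polyO p) = algebraMap k[X] Fk (p.map G.π) :=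
  G.ρ_poly p

theorem ρ_comp_polyO : G.ρ.comp G.polyO = (algebraMap k[X] Fk).comp (mapRingHom G.π) :=
  RingHom.ext fun p => G.ρ_polyO p

/-- the structure map `A[X] → F` -/
noncomputable def polyF : A[X] →+* F := (algebraMap K[X] F).comp (mapRingHom A.subtype)

theorem subtype_comp_polyO : G.O.subtype.comp G.polyO = polyF (A := A) (F := F) := rfl

/-- If `f ∈ O` is integral over `A[x]`, then `ρ f` is integral over `k[x̄]`. -/
theorem isIntegral_ρ_of_isIntegralElem (f : G.O)
    (hf : (polyF (A := A) (F := F)).IsIntegralElem (f : F)) : IsIntegral k[X] (G.ρ f) := by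
  obtain ⟨μ, hμ, hμf⟩ := hf
  have h1 : Polynomial.eval₂ G.polyO f μ = 0 := by
    apply Subtype.coe_injective
    have := Polynomial.hom_eval₂ μ G.polyO G.O.subtype f
    rw [subtype_comp_polyO] at this
    exact this.trans hμf
  have h2 := Polynomial.hom_eval₂ μ G.polyO G.ρ f
  rw [h1, _root_.map_zero, ρ_comp_polyO] at h2
  refine ⟨μ.map (mapRingHom G.π), hμ.map _, ?_⟩
  rw [Polynomial.eval₂_map]
  exact h2.symm

section Rational

variable (L₀ : Type*) [Field L₀] [Algebra K[X] L₀] [IsFractionRing K[X] L₀] [Algebra L₀ F]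
  [IsScalarTower K[X] L₀ F]
variable (L₀k : Type*) [Field L₀k] [Algebra k[X] L₀k] [IsFractionRing k[X] L₀k] [Algebra L₀k Fk]
  [IsScalarTower k[X] L₀k Fk]

/-- Reduction of a `V₀`-combination of elements of `O`. -/
theorem ρ_sum_smul {ι : Type*} [Fintype ι] (y : ι → F) (hy : ∀ i, y i ∈ G.O)
    (c : ι → L₀) (hc : ∀ i, c i ∈ G.V₀ L₀) (hs : (∑ i, c i • y i) ∈ G.O) :
    G.ρ ⟨∑ i, c i • y i, hs⟩ = ∑ i, G.ρ₀ L₀ L₀k ⟨c i, hc i⟩ • G.ρ ⟨y i, hy i⟩ := by
  have h1 : (⟨∑ i, c i • y i, hs⟩ : G.O) = ∑ i, G.incl L₀ ⟨c i, hc i⟩ * ⟨y i, hy i⟩ := by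
    apply Subtype.ext
    show (∑ i, c i • y i) = G.O.subtype (∑ i, G.incl L₀ ⟨c i, hc i⟩ * ⟨y i, hy i⟩)
    rw [_root_.map_sum]
    refine Finset.sum_congr rfl fun i _ => ?_
    rw [Algebra.smul_def]
    rfl
  rw [h1, _root_.map_sum]
  refine Finset.sum_congr rfl fun i _ => ?_
  rw [_root_.map_mul, Algebra.smul_def, G.algebraMap_ρ₀]
  rfl

/-- Lifts of a linearly independent family are residually independent. -/
theorem residIndep_of_linearIndependent {ι : Type*} [Fintype ι] (y : ι → F)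
    (hy : ∀ i, y i ∈ G.O) (hli : LinearIndependent L₀k (fun i => G.ρ ⟨y i, hy i⟩)) :
    H217.ResidIndep (G.V₀ L₀) G.O y := by
  intro c hc hs i
  have hsO : (∑ i, c i • y i) ∈ G.O := G.O.nonunits_subset hs
  have h1 := G.ρ_sum_smul L₀ L₀k y hy c hc hsO
  have h2 : G.ρ ⟨∑ i, c i • y i, hsO⟩ = 0 := (G.ρ_eq_zero_iff _).mpr hs
  rw [h2] at h1
  have h3 := Fintype.linearIndependent_iff.mp hli _ h1.symm i
  exact (G.ρ₀_eq_zero_iff L₀ L₀k _).mp h3

variable [FiniteDimensional L₀k Fk]

/-- Existence of a residually independent basis of `F / K(x)` in `O`. -/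
theorem exists_resid_basis (hdeg : Module.finrank L₀ F = Module.finrank L₀k Fk) :
    ∃ y : Module.Basis (Fin (Module.finrank L₀k Fk)) L₀ F,
      (∀ i, y i ∈ G.O) ∧ H217.ResidIndep (G.V₀ L₀) G.O y := by
  classical
  set n := Module.finrank L₀k Fk with hn
  have hpos : 0 < n := Module.finrank_pos
  have : Nonempty (Fin n) := ⟨⟨0, hpos⟩⟩
  let bk : Module.Basis (Fin n) L₀k Fk := Module.finBasis L₀k Fk
  choose u hu using fun i => G.ρ_surj (bk i)
  let y : Fin n → F := fun i => (u i : F)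
  have hy : ∀ i, y i ∈ G.O := fun i => (u i).2
  have hli : LinearIndependent L₀k (fun i => G.ρ ⟨y i, hy i⟩) := by
    have : (fun i => G.ρ ⟨y i, hy i⟩) = bk := _root_.funext fun i => hu i
    rw [this]
    exact bk.linearIndependent
  have hR := G.residIndep_of_linearIndependent L₀ L₀k y hy hli
  obtain ⟨b, hb⟩ := H217.exists_basis_of_residIndep hR (by rw [Fintype.card_fin, hdeg])
  refine ⟨b, fun i => ?_, ?_⟩
  · rw [hb]; exact hy i
  · rw [hb]; exact hR

variable [FiniteDimensional L₀ F] [Algebra.IsAlgebraic L₀ F]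

/-- **Saturation (QEP)**: an element of `O` which is integral over `K[x]` is integral over
`A[x]`. -/
theorem isIntegralElem_of_mem (hdeg : Module.finrank L₀ F = Module.finrank L₀k Fk)
    (f : F) (hfO : f ∈ G.O) (hf : IsIntegral K[X] f) :
    (polyF (A := A) (F := F)).IsIntegralElem f := by
  classical
  obtain ⟨y, hyO, hR⟩ := G.exists_resid_basis L₀ L₀k hdeg
  have hcoef : ∀ i, algebraMap K[X] L₀ ((minpoly K[X] f).coeff i) ∈ G.V₀ L₀ := fun i =>
    H217.minpoly_coeff_mem_of_isIntegral (G.valExtends L₀) y hR hyO (R := K[X]) ⟨f, hfO⟩ hf i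
  have hl : minpoly K[X] f ∈ Polynomial.lifts (mapRingHom A.subtype) := by
    rw [Polynomial.lifts_iff_coeff_lifts]
    intro i
    obtain ⟨P₁, hP₁⟩ := G.exists_map_eq_of_mem_V₀ L₀ L₀k _ (hcoef i)
    exact ⟨P₁, hP₁⟩
  obtain ⟨μ, hμ, -, hμm⟩ := Polynomial.lifts_and_degree_eq_and_monic hl (minpoly.monic hf)
  refine ⟨μ, hμm, ?_⟩
  have h1 : Polynomial.eval₂ (polyF (A := A) (F := F)) f μ =
      Polynomial.eval₂ (algebraMap K[X] F) f (μ.map (mapRingHom A.subtype)) := by
    rw [Polynomial.eval₂_map]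
    rfl
  rw [h1, hμ]
  exact minpoly.aeval K[X] f

/-- The reduction of an element of `O` integral over `K[x]` is integral over `k[x̄]`. -/
theorem isIntegral_ρ (hdeg : Module.finrank L₀ F = Module.finrank L₀k Fk)
    (f : G.O) (hf : IsIntegral K[X] (f : F)) : IsIntegral k[X] (G.ρ f) :=
  G.isIntegral_ρ_of_isIntegralElem f (G.isIntegralElem_of_mem L₀ L₀k hdeg f f.2 hf)

end Rational

end RedCtx

end Fermat.Agent.S37.H159

end
-- ===== PACK-END S37/H159/MInt.lean

-- ===== PACK-BEGIN S19/H495/Saturated.lean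
section
/-
A3 / S19 — WP-W6alg (helper495): saturated sublattices over a valuation ring, in the language
"field `K` with a valuation `v`; integral means `v x ≤ 1`".

* `chart B p = B * B[p, ·]⁻¹`: the affine Grassmannian chart of the column space of `B` at the
  rows `p`; its entries are the ratios of maximal minors (affine Plücker coordinates)
  `det B[p with a ↦ i] / det B[p]`  (`chart_apply`).
* `exists_integral_chart`: choosing the maximal minor of largest valuation gives a chart with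
  integral entries (the "unit pivot").
* `exists_integral_basis_matrix`: every subspace `W ⊆ Kⁿ` of dimension `d` is the column space of
  an integral `n × d` matrix containing the identity block; hence `W ∩ Oⁿ` is the free
  `O`-module on its columns (`integral_iff_of_submatrix_eq_one`) — a saturated sublattice, and a
  direct summand of `Oⁿ`.
* `exists_constRankAt_of_rank_eq_residue_rank`: over a local ring `O ⊆ K`, a matrix whose generic
  rank equals its residual rank has constant rank at a unit pivot.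
-/




set_option linter.unusedSectionVars false
set_option linter.unusedSimpArgs false
set_option linter.style.longLine false
set_option linter.style.haveILetI false

namespace Fermat.Agent.S19.H495

open Matrix Module

variable {K : Type*} [Field K]
variable {m n ι : Type*} [Fintype m] [Fintype n] [Fintype ι] [DecidableEq m] [DecidableEq n]
  [DecidableEq ι]

/-- The affine chart of the column space of `B` at the rows `p`: the matrix `B * B[p, ·]⁻¹`,
which has the same column space as `B` and the identity block at the rows `p` (when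
`det B[p, ·] ≠ 0`). -/
noncomputable def chart (B : Matrix n ι K) (p : ι → n) : Matrix n ι K :=
  B * (B.submatrix p id)⁻¹

theorem chart_eq_coechelon (B : Matrix n ι K) (p : ι → n) : chart B p = coechelon B p id := rfl

theorem chart_submatrix (B : Matrix n ι K) (p : ι → n) (h : (B.submatrix p id).det ≠ 0) :
    (chart B p).submatrix p id = 1 :=
  coechelon_submatrix (A := B) (p := p) (q := id) h.isUnit

theorem chart_mul_submatrix (B : Matrix n ι K) (p : ι → n) (h : (B.submatrix p id).det ≠ 0) :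
    chart B p * B.submatrix p id = B := by
  rw [chart, Matrix.mul_assoc, nonsing_inv_mul _ h.isUnit, Matrix.mul_one]

theorem submatrix_update_eq_updateRow (B : Matrix n ι K) (p : ι → n) (a : ι) (i : n) :
    B.submatrix (Function.update p a i) id = (B.submatrix p id).updateRow a (B i) := by
  ext b c
  by_cases hb : b = a
  · subst hb; simp
  · simp [Matrix.updateRow_ne hb, Function.update_of_ne hb]

/-- **Cramer's rule for charts**: the entries of the chart are ratios of maximal minors. -/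
theorem det_mul_chart_apply (B : Matrix n ι K) (p : ι → n) (h : (B.submatrix p id).det ≠ 0)
    (i : n) (a : ι) :
    (B.submatrix p id).det * chart B p i a = (B.submatrix (Function.update p a i) id).det := by
  have h1 := congrFun (Matrix.det_smul_inv_vecMul_eq_cramer_transpose (B.submatrix p id) (B i)
    h.isUnit) a
  rw [Matrix.cramer_transpose_apply, ← submatrix_update_eq_updateRow] at h1
  rw [← h1]
  simp only [Pi.smul_apply, smul_eq_mul, chart, Matrix.mul_apply, Matrix.vecMul, dotProduct]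

theorem chart_apply (B : Matrix n ι K) (p : ι → n) (h : (B.submatrix p id).det ≠ 0)
    (i : n) (a : ι) :
    chart B p i a = (B.submatrix (Function.update p a i) id).det / (B.submatrix p id).det := by
  rw [← det_mul_chart_apply B p h, mul_div_cancel_left₀ _ h]

/-- The column space of a chart is the column space of the matrix. -/
theorem range_chart (B : Matrix n ι K) (p : ι → n) (h : (B.submatrix p id).det ≠ 0) :
    LinearMap.range (chart B p).mulVecLin = LinearMap.range B.mulVecLin := by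
  apply le_antisymm
  · rintro _ ⟨c, rfl⟩
    refine ⟨(B.submatrix p id)⁻¹ *ᵥ c, ?_⟩
    simp only [Matrix.mulVecLin_apply, Matrix.mulVec_mulVec, chart]
  · rintro _ ⟨c, rfl⟩
    refine ⟨B.submatrix p id *ᵥ c, ?_⟩
    simp only [Matrix.mulVecLin_apply, Matrix.mulVec_mulVec, chart_mul_submatrix B p h]

section Valuation

variable {Γ₀ : Type*} [LinearOrderedCommGroupWithZero Γ₀] (v : Valuation K Γ₀)

/-- **Unit pivot.**  If some maximal minor of `B` is nonzero, the maximal minor of largest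
valuation gives a chart all of whose entries are integral. -/
theorem exists_integral_chart (B : Matrix n ι K) (h : ∃ p : ι → n, (B.submatrix p id).det ≠ 0) :
    ∃ p : ι → n, (B.submatrix p id).det ≠ 0 ∧ ∀ i a, v (chart B p i a) ≤ 1 := by
  obtain ⟨p₀, hp₀⟩ := h
  haveI : Nonempty (ι → n) := ⟨p₀⟩
  obtain ⟨p, hp⟩ := Finite.exists_max (fun p : ι → n => v (B.submatrix p id).det)
  have hpne : (B.submatrix p id).det ≠ 0 := by
    intro h0
    have := hp p₀
    simp only [h0, _root_.map_zero] at this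
    exact hp₀ ((map_eq_zero v).mp (le_antisymm this zero_le))
  refine ⟨p, hpne, fun i a => ?_⟩
  rw [chart_apply B p hpne, map_div₀]
  have hv : v (B.submatrix p id).det ≠ 0 := (Valuation.ne_zero_iff v).mpr hpne
  rw [div_le_iff₀ (zero_lt_iff.mpr hv), _root_.one_mul]
  exact hp _

/-- Integral combinations of integral vectors are integral. -/
theorem integral_mulVec {k : Type*} [Fintype k] (B : Matrix n k K) (hB : ∀ i a, v (B i a) ≤ 1)
    (c : k → K) (hc : ∀ a, v (c a) ≤ 1) (i : n) : v ((B *ᵥ c) i) ≤ 1 := by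
  simp only [Matrix.mulVec, dotProduct]
  apply Valuation.map_sum_le
  intro a _
  rw [_root_.map_mul]
  exact mul_le_one' (hB i a) (hc a)

/-- **Saturation.**  If `B` contains the identity block at the rows `p`, then a combination of
the columns of `B` is integral iff its coefficients are; the coefficients are the coordinates at
the rows `p`. -/
theorem coeff_eq_of_submatrix_eq_one (B : Matrix n ι K) (p : ι → n)
    (hB : B.submatrix p id = 1) (c : ι → K) (a : ι) : c a = (B *ᵥ c) (p a) := by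
  have : (B *ᵥ c) (p a) = (B.submatrix p id *ᵥ c) a := rfl
  rw [this, hB, Matrix.one_mulVec]

theorem integral_iff_of_submatrix_eq_one (B : Matrix n ι K) (p : ι → n)
    (hint : ∀ i a, v (B i a) ≤ 1) (hB : B.submatrix p id = 1) (c : ι → K) :
    (∀ i, v ((B *ᵥ c) i) ≤ 1) ↔ ∀ a, v (c a) ≤ 1 := by
  constructor
  · intro h a
    rw [coeff_eq_of_submatrix_eq_one B p hB c a]
    exact h _
  · intro h i
    exact integral_mulVec v B hint c h i

/-- **Saturated sublattices over a valuation ring are free direct summands with a unit pivot.**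
Every subspace `W ⊆ Kⁿ` is the column space of an integral matrix `B` containing an identity
block; consequently `W ∩ Oⁿ = B · O^d` (see `integral_iff_of_submatrix_eq_one`). -/
theorem exists_integral_basis_matrix (W : Submodule K (n → K)) :
    ∃ (B : Matrix n (Fin (finrank K W)) K) (p : Fin (finrank K W) → n),
      (∀ i a, v (B i a) ≤ 1) ∧ B.submatrix p id = 1 ∧ LinearMap.range B.mulVecLin = W := by
  let b : Basis (Fin (finrank K W)) K W := Module.finBasis K W
  let B₀ : Matrix n (Fin (finrank K W)) K := Matrix.of fun i a => (b a : n → K) i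
  have hcol : B₀.col = fun a => (b a : n → K) := rfl
  have hli : LinearIndependent K (fun a => B₀.col (id a)) := by
    show LinearIndependent K B₀.col
    rw [hcol]
    exact b.linearIndependent.map' W.subtype (Submodule.ker_subtype W)
  obtain ⟨p₀, hp₀⟩ := exists_rows_of_linearIndependent_cols B₀ id hli
  obtain ⟨p, hp, hint⟩ := exists_integral_chart v B₀ ⟨p₀, hp₀⟩
  refine ⟨chart B₀ p, p, hint, chart_submatrix B₀ p hp, ?_⟩
  rw [range_chart B₀ p hp, Matrix.range_mulVecLin, hcol]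
  have : Set.range (fun a => (b a : n → K)) = W.subtype '' Set.range b := by
    rw [← Set.range_comp]; rfl
  rw [this, Submodule.span_image, b.span_eq, Submodule.map_top, Submodule.range_subtype]

end Valuation

/-! ### Local rings: generic rank = residual rank ⇒ constant rank at a unit pivot -/

section Local

variable {O : Type*} [CommRing O] [IsLocalRing O]

/-- Let `O` be a local ring mapping injectively to the field `K`.  If a matrix over `O` has the
same rank `r` over `K` and over the residue field of `O`, then it has constant rank at some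
`r × r` pivot: a unit minor exists and all larger minors vanish.  Consequently (see
`ConstRankAt.kerEquiv`, `ConstRankAt.rangeEquiv`, `ConstRankAt.map`) the kernel and image over `O`
are free direct summands commuting with every base change. -/
theorem exists_constRankAt_of_rank_eq_residue_rank (f : O →+* K) (hf : Function.Injective f)
    (A : Matrix m n O) (r : ℕ) (hK : (A.map f).rank ≤ r)
    (hk : (A.map (IsLocalRing.residue O)).rank = r) :
    ∃ (p : Fin r → m) (q : Fin r → n), ConstRankAt A p q := by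
  subst hk
  obtain ⟨p, q, hpq⟩ := exists_det_submatrix_ne_zero (A.map (IsLocalRing.residue O))
  refine ⟨p, q, constRankAt_of_rank_map_le f hf A p q (by simpa using hK) ?_⟩
  rw [det_submatrix_map] at hpq
  exact (IsLocalRing.residue_ne_zero_iff_isUnit _).mp hpq

/-- Converse: constant rank at a pivot forces generic rank = residual rank = size of the pivot. -/
theorem ConstRankAt.rank_map_eq {R S : Type*} [CommRing R] [CommRing S] [Nontrivial S]
    (g : R →+* S) {A : Matrix m n R} {p : ι → m} {q : ι → n} (h : ConstRankAt A p q) :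
    (A.map g).rank = Fintype.card ι :=
  (h.map g).rank_eq

end Local

end Fermat.Agent.S19.H495

end
-- ===== PACK-END S19/H495/Saturated.lean

-- ===== PACK-BEGIN S19/H19/Anti.lean
section
/-
A3 / S19, helper19 — piece ORD, part 5: the antipode is automatic on a finite group.
Mathlib only.
-/


set_option autoImplicit false
set_option linter.unusedSectionVars false

noncomputable section

namespace Fermat.Agent.S19.H19

open scoped BigOperators TensorProduct

variable {R : Type} [CommRing R] {K : Type} [Field K] [Algebra R K]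
variable {M : Type} [AddCommGroup M]

theorem nsmul_mem_of_comul_mem (H : Subalgebra R (M → K))
    (hcomul : ∀ f ∈ H, (fun p : M × M => f (p.1 + p.2)) ∈ (prodMap H.val H.val).range)
    (hcounit : ∀ f ∈ H, f 0 ∈ (Algebra.ofId R K).range) (k : ℕ) :
    ∀ f ∈ H, (fun m : M => f (k • m)) ∈ H := by
  induction k with
  | zero =>
    intro f hf
    obtain ⟨r, hr⟩ := hcounit f hf
    have : (fun m : M => f (0 • m)) = algebraMap R (M → K) r := by
      funext m
      rw [_root_.zero_smul, ← hr]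
      rfl
    rw [this]
    exact H.algebraMap_mem r
  | succ k ih =>
    intro f hf
    obtain ⟨x, hx⟩ := hcomul f hf
    replace hx : prodMap H.val H.val x = fun p : M × M => f (p.1 + p.2) := hx
    have key : ∀ y : H ⊗[R] H, (fun m : M => prodMap H.val H.val y (k • m, m)) ∈ H := by
      intro y
      induction y using TensorProduct.induction_on with
      | zero =>
        simp only [map_zero, Pi.zero_apply]
        exact H.zero_mem
      | tmul a b =>
        have h1 : (fun m : M => prodMap H.val H.val (a ⊗ₜ[R] b) (k • m, m)) =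
            (fun m : M => (a : M → K) (k • m)) * (b : M → K) := by
          funext m
          rw [prodMap_tmul]
          rfl
        rw [h1]
        exact H.mul_mem (ih _ a.2) b.2
      | add y z hy hz =>
        have h1 : (fun m : M => prodMap H.val H.val (y + z) (k • m, m)) =
            (fun m : M => prodMap H.val H.val y (k • m, m)) +
              (fun m : M => prodMap H.val H.val z (k • m, m)) := by
          funext m
          rw [map_add]
          rfl
        rw [h1]
        exact H.add_mem hy hz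
    have h2 : (fun m : M => f ((k + 1) • m)) = fun m : M => prodMap H.val H.val x (k • m, m) := by
      funext m
      rw [hx, succ_nsmul]
    rw [h2]
    exact key x

theorem neg_mem_of_comul_mem [Finite M] (H : Subalgebra R (M → K))
    (hcomul : ∀ f ∈ H, (fun p : M × M => f (p.1 + p.2)) ∈ (prodMap H.val H.val).range)
    (hcounit : ∀ f ∈ H, f 0 ∈ (Algebra.ofId R K).range) :
    ∀ f ∈ H, (fun m : M => f (-m)) ∈ H := by
  intro f hf
  have hpos : 0 < Nat.card M := Nat.card_pos
  have h1 : ∀ m : M, -m = (Nat.card M - 1) • m := by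
    intro m
    have h2 : (Nat.card M - 1) • m + m = 0 := by
      rw [← succ_nsmul, Nat.sub_add_cancel hpos]
      exact card_nsmul_eq_zero'
    exact (eq_neg_of_add_eq_zero_left h2).symm
  have h3 : (fun m : M => f (-m)) = fun m : M => f ((Nat.card M - 1) • m) := by
    funext m
    rw [h1]
  rw [h3]
  exact nsmul_mem_of_comul_mem H hcomul hcounit _ f hf

end Fermat.Agent.S19.H19

end

end
-- ===== PACK-END S19/H19/Anti.lean

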