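import Fermat.Prelude.Def_ModularCurve_ReductionModL
import Mathlib
import Mathlib.Algebra.Polynomial.Degree.Lemmas
import Mathlib.Algebra.Polynomial.Monic
import Mathlib.Tactic.FieldSimp
import Mathlib.Tactic.Ring
import Mathlib.Tactic.FinCases
import Fermat.Prelude.Def_ModularCurve_ArithmeticGalois
import Fermat.Prelude.Def_FLTPrelim_Ramification
import Mathlib.RingTheory.DiscreteValuationRing.Basic
import Mathlib.RingTheory.LocalRing.RingHom.Basic
import Mathlib.Data.Int.GCD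
import Fermat.Agent.Pack.S33.E2L1
import Fermat.Agent.Pack.S33.E2L0
import Fermat.Agent.Pack.S33.E0L1
import Fermat.Agent.Pack.S33.E3L2
import Fermat.Agent.Pack.S33.E3L1
import Fermat.Agent.Pack.S33.E3L3
import Fermat.Agent.Pack.S33.E3L0
import Fermat.Agent.Pack.S33.E2L2
import Fermat.Agent.Pack.S33.E1L2

-- ===== PACK-BEGIN S37/H217/NormRed.lean
section


/-!
# Norms commute with reduction (RED-A1), abstract form

`K ⊇ A` valuation subring, `π : A ↠ k`; `F/K`, `F_k/k` field extensions; `O ⊆ F` a valuation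
subring containing `A`, with a surjective ring hom `ρ : O ↠ F_k` extending `π`; `t ∈ O` with
`t̄ = ρ t` transcendental over `k`, and `[F : K(t)] = [F_k : k(t̄)] < ∞`.  Then for `y ∈ O`:

  `N_{F/K(t)} y ∈ O`  and  `ρ (N_{F/K(t)} y) = N_{F_k/k(t̄)} (ρ y)`.

(`norm_red`).  Intermediate results: `ρ` maps `O ∩ K(t)` into `k(t̄)` (`rho_mem_adjoin`),
`O ∩ K = A` (`mem_of_algebraMap_mem`), primitive scaling of polynomials (`exists_primitive`).
-/

namespace Fermat.Agent.S37.H217

open IntermediateField Polynomial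

/-- An abstract Gauss reduction context. -/
structure RedCtx {K k : Type*} [Field K] [Field k] (A : ValuationSubring K) (π : A →+* k)
    (F Fk : Type*) [Field F] [Field Fk] [Algebra K F] [Algebra k Fk] where
  π_surj : Function.Surjective π
  /-- the valuation ring of the function field -/
  O : ValuationSubring F
  /-- reduction of functions -/
  ρ : O →+* Fk
  ρ_surj : Function.Surjective ρ
  const_mem : ∀ a : A, algebraMap K F (a : K) ∈ O
  ρ_const : ∀ a : A, ρ ⟨algebraMap K F (a : K), const_mem a⟩ = algebraMap k Fk (π a)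

namespace RedCtx

variable {K k : Type*} [Field K] [Field k] {A : ValuationSubring K} {π : A →+* k}
  {F Fk : Type*} [Field F] [Field Fk] [Algebra K F] [Algebra k Fk] (G : RedCtx A π F Fk)

include G in
theorem π_eq_zero_iff (a : A) : π a = 0 ↔ a ∈ IsLocalRing.maximalIdeal A := by
  have h := IsLocalRing.eq_maximalIdeal (RingHom.ker_isMaximal_of_surjective π G.π_surj)
  rw [← h, RingHom.mem_ker]

theorem ρ_eq_zero_iff (f : G.O) : G.ρ f = 0 ↔ (f : F) ∈ G.O.nonunits := by
  have h := IsLocalRing.eq_maximalIdeal (RingHom.ker_isMaximal_of_surjective G.ρ G.ρ_surj)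
  rw [ValuationSubring.coe_mem_nonunits_iff, ← h, RingHom.mem_ker]

/-- the inclusion `A → O` -/
def const : A →+* G.O where
  toFun a := ⟨algebraMap K F (a : K), G.const_mem a⟩
  map_one' := Subtype.ext (by simp)
  map_mul' a b := Subtype.ext (by simp)
  map_zero' := Subtype.ext (by simp)
  map_add' a b := Subtype.ext (by simp)

@[simp] theorem coe_const (a : A) : ((G.const a : G.O) : F) = algebraMap K F (a : K) := rfl

theorem ρ_comp_const : G.ρ.comp G.const = (algebraMap k Fk).comp π :=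
  RingHom.ext fun a => G.ρ_const a

/-- `O ∩ K = A`. -/
theorem mem_of_algebraMap_mem {c : K} (hc : algebraMap K F c ∈ G.O) : c ∈ A := by
  by_contra hcA
  have hc0 : c ≠ 0 := fun h => hcA (h ▸ A.zero_mem)
  have hinv : c⁻¹ ∈ A := (A.mem_or_inv_mem c).resolve_left hcA
  have hnon : (⟨c⁻¹, hinv⟩ : A) ∈ IsLocalRing.maximalIdeal A := by
    rw [← ValuationSubring.coe_mem_nonunits_iff]
    exact (A.inv_mem_nonunits_iff).mpr (Or.inr hcA)
  have h1 : G.ρ (G.const ⟨c⁻¹, hinv⟩) = 0 := by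
    have := G.ρ_const ⟨c⁻¹, hinv⟩
    rw [(G.π_eq_zero_iff _).mpr hnon, _root_.map_zero] at this
    exact this
  have h2 : G.ρ (⟨algebraMap K F c, hc⟩ * G.const ⟨c⁻¹, hinv⟩) = 0 := by
    rw [_root_.map_mul, h1, mul_zero]
  have h3 : (⟨algebraMap K F c, hc⟩ * G.const ⟨c⁻¹, hinv⟩ : G.O) = 1 := by
    apply Subtype.ext
    show algebraMap K F c * algebraMap K F c⁻¹ = 1
    rw [← _root_.map_mul, mul_inv_cancel₀ hc0, _root_.map_one]
  rw [h3, _root_.map_one] at h2
  exact one_ne_zero h2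

/-- evaluation at `t ∈ O` of polynomials over `A` -/
def evalO (t : G.O) : A[X] →+* G.O := Polynomial.eval₂RingHom G.const t

theorem coe_evalO (t : G.O) (P : A[X]) :
    ((G.evalO t P : G.O) : F) = aeval (t : F) (P.map (algebraMap A K)) := by
  have h1 : ((G.evalO t P : G.O) : F) = G.O.subtype (Polynomial.eval₂ G.const t P) := rfl
  rw [h1, Polynomial.hom_eval₂, aeval_def, Polynomial.eval₂_map]
  rfl

theorem ρ_evalO (t : G.O) (P : A[X]) :
    G.ρ (G.evalO t P) = aeval (G.ρ t) (P.map π) := by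
  have h1 : G.ρ (G.evalO t P) = G.ρ (Polynomial.eval₂ G.const t P) := rfl
  rw [h1, Polynomial.hom_eval₂, aeval_def, Polynomial.eval₂_map, G.ρ_comp_const]

omit [Field Fk] [Algebra k Fk] [Algebra K F] [Field F] in
/-- Primitive scaling: a nonzero polynomial over `K` is a constant times a polynomial over `A`
with nonzero reduction. -/
theorem exists_primitive (π : A →+* k) (P : K[X]) (hP : P ≠ 0) :
    ∃ (c : K) (P₁ : A[X]), c ≠ 0 ∧ P = C c * P₁.map (algebraMap A K) ∧ P₁.map π ≠ 0 := by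
  classical
  have hsupp : P.support.Nonempty := Polynomial.support_nonempty.mpr hP
  have hc0 : (fun i : P.support => P.coeff i) ≠ 0 := by
    obtain ⟨i, hi⟩ := hsupp
    intro h
    have := congrFun h ⟨i, hi⟩
    exact (Polynomial.mem_support_iff.mp hi) this
  obtain ⟨m, hm0, hm⟩ := exists_scale A (fun i : P.support => P.coeff i) hc0
  have hcoeff : ∀ i, (C (P.coeff m)⁻¹ * P).coeff i ∈ A := by
    intro i
    rw [coeff_C_mul]
    by_cases hi : i ∈ P.support
    · have := hm ⟨i, hi⟩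
      rw [div_eq_inv_mul] at this
      exact this
    · rw [Polynomial.notMem_support_iff.mp hi, mul_zero]
      exact A.zero_mem
  have hl : (C (P.coeff m)⁻¹ * P) ∈ Polynomial.lifts (algebraMap A K) := by
    rw [Polynomial.lifts_iff_coeff_lifts]
    intro i
    exact ⟨⟨_, hcoeff i⟩, rfl⟩
  obtain ⟨P₁, hP₁⟩ := (Polynomial.mem_lifts _).mp hl
  refine ⟨P.coeff m, P₁, hm0, ?_, ?_⟩
  · rw [hP₁, ← mul_assoc, ← C_mul, mul_inv_cancel₀ hm0, C_1, one_mul]
  · intro h0
    have h1 : (P₁.map π).coeff m = 0 := by rw [h0, coeff_zero]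
    rw [coeff_map] at h1
    have h2 : (P₁.coeff m : K) = 1 := by
      have := congrArg (fun Q : K[X] => Q.coeff m) hP₁
      simp only [coeff_map, coeff_C_mul] at this
      rw [inv_mul_cancel₀ hm0] at this
      exact this
    have h3 : P₁.coeff m = 1 := Subtype.ext h2
    rw [h3, _root_.map_one] at h1
    exact one_ne_zero h1

variable {t : F} (ht : t ∈ G.O) (htr : Transcendental k (G.ρ ⟨t, ht⟩))

include htr in
/-- The value at `t` of a polynomial over `A` with nonzero reduction is a unit of `O`. -/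
theorem evalO_notMem_nonunits {P : A[X]} (hP : P.map π ≠ 0) :
    ((G.evalO ⟨t, ht⟩ P : G.O) : F) ∉ G.O.nonunits := by
  rw [← G.ρ_eq_zero_iff, G.ρ_evalO]
  intro h
  exact hP (transcendental_iff.mp htr _ h)

include htr in
/-- `ρ` maps `O ∩ K(t)` into `k(t̄)`. -/
theorem rho_mem_adjoin (f : G.O) (hf : (f : F) ∈ K⟮t⟯) : G.ρ f ∈ k⟮G.ρ ⟨t, ht⟩⟯ := by
  obtain ⟨r, s, hrs⟩ := (mem_adjoin_simple_iff K (f : F)).mp hf
  by_cases hf0 : (f : F) = 0
  · have : f = 0 := Subtype.ext hf0
    rw [this, _root_.map_zero]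
    exact _root_.ZeroMemClass.zero_mem _
  have hr0 : r ≠ 0 := by
    rintro rfl
    rw [_root_.map_zero, zero_div] at hrs
    exact hf0 hrs
  have hs0 : s ≠ 0 := by
    rintro rfl
    rw [_root_.map_zero, div_zero] at hrs
    exact hf0 hrs
  obtain ⟨cr, r₁, hcr, hr, hr₁⟩ := exists_primitive π r hr0
  obtain ⟨cs, s₁, hcs, hs, hs₁⟩ := exists_primitive π s hs0
  set R₁ : G.O := G.evalO ⟨t, ht⟩ r₁ with hR₁
  set S₁ : G.O := G.evalO ⟨t, ht⟩ s₁ with hS₁
  have hRu : (R₁ : F) ∉ G.O.nonunits := G.evalO_notMem_nonunits ht htr hr₁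
  have hSu : (S₁ : F) ∉ G.O.nonunits := G.evalO_notMem_nonunits ht htr hs₁
  have hRρ : G.ρ R₁ ≠ 0 := fun h => hRu ((G.ρ_eq_zero_iff _).mp h)
  have hSρ : G.ρ S₁ ≠ 0 := fun h => hSu ((G.ρ_eq_zero_iff _).mp h)
  have hR0 : (R₁ : F) ≠ 0 := fun h => hRu (h ▸ G.O.nonunits.zero_mem)
  have hS0 : (S₁ : F) ≠ 0 := fun h => hSu (h ▸ G.O.nonunits.zero_mem)
  -- `f * S₁ = c * R₁` with `c = cr / cs`
  have hR : aeval t r = algebraMap K F cr * (R₁ : F) := by
    rw [hR₁, G.coe_evalO, hr, _root_.map_mul, aeval_C]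
  have hS : aeval t s = algebraMap K F cs * (S₁ : F) := by
    rw [hS₁, G.coe_evalO, hs, _root_.map_mul, aeval_C]
  have hcs' : algebraMap K F cs ≠ 0 := (_root_.map_ne_zero _).mpr hcs
  have hfc : algebraMap K F (cr / cs) = (f : F) * (S₁ : F) * (R₁ : F)⁻¹ := by
    rw [hrs, hR, hS, map_div₀]
    field_simp
  -- `R₁⁻¹ ∈ O`
  have hRinv : (R₁ : F)⁻¹ ∈ G.O := by
    rcases G.O.mem_or_inv_mem (R₁ : F) with h | h
    · by_contra hn
      apply hRu
      rw [ValuationSubring.mem_nonunits_iff_or]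
      exact Or.inr hn
    · exact h
  have hcO : algebraMap K F (cr / cs) ∈ G.O := by
    rw [hfc]
    exact G.O.mul_mem _ _ (G.O.mul_mem _ _ f.2 S₁.2) hRinv
  have hcA : cr / cs ∈ A := G.mem_of_algebraMap_mem hcO
  -- `f * S₁ = const c * R₁` in `O`
  have hmul : f * S₁ = G.const ⟨cr / cs, hcA⟩ * R₁ := by
    apply Subtype.ext
    show (f : F) * (S₁ : F) = algebraMap K F (cr / cs) * (R₁ : F)
    rw [hfc]
    field_simp
  have hρ := congrArg G.ρ hmul
  rw [_root_.map_mul, _root_.map_mul] at hρ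
  have hρf : G.ρ f = G.ρ (G.const ⟨cr / cs, hcA⟩) * G.ρ R₁ * (G.ρ S₁)⁻¹ := by
    rw [← hρ]
    field_simp
  rw [hρf]
  have h1 : G.ρ (G.const ⟨cr / cs, hcA⟩) ∈ k⟮G.ρ ⟨t, ht⟩⟯ := by
    have := G.ρ_const ⟨cr / cs, hcA⟩
    have h' : G.ρ (G.const ⟨cr / cs, hcA⟩) = algebraMap k Fk (π ⟨cr / cs, hcA⟩) := this
    rw [h']
    exact IntermediateField.algebraMap_mem _ _
  have h2 : ∀ P : A[X], G.ρ (G.evalO ⟨t, ht⟩ P) ∈ k⟮G.ρ ⟨t, ht⟩⟯ := by
    intro P
    rw [G.ρ_evalO]
    exact (mem_adjoin_simple_iff k _).mpr ⟨P.map π, 1, by simp⟩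
  exact _root_.MulMemClass.mul_mem (_root_.MulMemClass.mul_mem h1 (h2 r₁)) (_root_.InvMemClass.inv_mem (h2 s₁))

/-- `V₀ = O ∩ K(t)`, a valuation subring of `K(t)`. -/
def V₀ (t : F) : ValuationSubring K⟮t⟯ := G.O.comap (algebraMap K⟮t⟯ F)

theorem valExtends (t : F) : ValExtends (G.V₀ t) G.O := fun _ => Iff.rfl

/-- the inclusion `V₀ → O` -/
def incl (t : F) : G.V₀ t →+* G.O where
  toFun a := ⟨algebraMap K⟮t⟯ F (a : K⟮t⟯), a.2⟩
  map_one' := Subtype.ext (by simp)
  map_mul' a b := Subtype.ext (by simp)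
  map_zero' := Subtype.ext (by simp)
  map_add' a b := Subtype.ext (by simp)

@[simp] theorem coe_incl (t : F) (a : G.V₀ t) :
    ((G.incl t a : G.O) : F) = ((a : K⟮t⟯) : F) := rfl

/-- the reduction `ρ₀ : O ∩ K(t) → k(t̄)` -/
def ρ₀ : G.V₀ t →+* k⟮G.ρ ⟨t, ht⟩⟯ :=
  RingHom.codRestrict (G.ρ.comp (G.incl t)) k⟮G.ρ ⟨t, ht⟩⟯
    (fun f => G.rho_mem_adjoin ht htr (G.incl t f) (by rw [coe_incl]; exact (f : K⟮t⟯).2))

theorem coe_ρ₀ (a : G.V₀ t) : ((G.ρ₀ ht htr a : k⟮G.ρ ⟨t, ht⟩⟯) : Fk) = G.ρ (G.incl t a) := rfl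

include htr in
/-- **Norms commute with reduction** (RED-A1). -/
theorem norm_red [FiniteDimensional K⟮t⟯ F] [FiniteDimensional k⟮G.ρ ⟨t, ht⟩⟯ Fk]
    (hfr : Module.finrank K⟮t⟯ F = Module.finrank k⟮G.ρ ⟨t, ht⟩⟯ Fk) (y : G.O) :
    ∃ h : ((Algebra.norm K⟮t⟯ (y : F) : K⟮t⟯) : F) ∈ G.O,
      G.ρ ⟨_, h⟩ = ((Algebra.norm k⟮G.ρ ⟨t, ht⟩⟯ (G.ρ y) : k⟮G.ρ ⟨t, ht⟩⟯) : Fk) := by
  classical
  set b₁ := Module.finBasis k⟮G.ρ ⟨t, ht⟩⟯ Fk with hb₁def
  choose e he using fun i => G.ρ_surj (b₁ i)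
  have hR : ResidIndep (G.V₀ t) G.O (fun i => ((e i : G.O) : F)) := by
    intro c hc hsum
    -- the element `s = ∑ incl (c i) * e i` of `O`
    set s : G.O := ∑ i, G.incl t ⟨c i, hc i⟩ * e i with hs
    have hsF : (s : F) = ∑ i, c i • ((e i : G.O) : F) := by
      rw [hs, ← ValuationSubring.subtype_apply, _root_.map_sum]
      refine Finset.sum_congr rfl fun i _ => ?_
      rw [_root_.map_mul, Algebra.smul_def]
      rfl
    have hρs : G.ρ s = 0 := by
      rw [G.ρ_eq_zero_iff, hsF]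
      exact hsum
    have hρs' : ∑ i, G.ρ₀ ht htr ⟨c i, hc i⟩ • b₁ i = 0 := by
      rw [← hρs, hs, _root_.map_sum]
      refine Finset.sum_congr rfl fun i _ => ?_
      rw [_root_.map_mul, he, Algebra.smul_def]
      rfl
    have hzero := Fintype.linearIndependent_iff.mp b₁.linearIndependent _ hρs'
    intro i
    have h1 : G.ρ (G.incl t ⟨c i, hc i⟩) = 0 := by
      have := congrArg (fun z : k⟮G.ρ ⟨t, ht⟩⟯ => (z : Fk)) (hzero i)
      simpa [coe_ρ₀] using this
    rw [G.ρ_eq_zero_iff, coe_incl] at h1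
    exact ((G.valExtends t).mem_nonunits_iff (c i)).mp h1
  have : Nonempty (Fin (Module.finrank k⟮G.ρ ⟨t, ht⟩⟯ Fk)) :=
    ⟨⟨0, Module.finrank_pos⟩⟩
  obtain ⟨b, hb⟩ := exists_basis_of_residIndep hR (by rw [Fintype.card_fin, hfr])
  have hbi : ∀ i, b i = ((e i : G.O) : F) := fun i => congrFun hb i
  have hR' : ResidIndep (G.V₀ t) G.O b := by rw [hb]; exact hR
  have hbO : ∀ i, b i ∈ G.O := fun i => by rw [hbi]; exact (e i).2
  have key := map_norm_eq_norm_map (G.valExtends t) b hR' hbO (G.ρ₀ ht htr) G.ρ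
    (fun a => rfl) b₁ (fun i => by
      have : (⟨b i, hbO i⟩ : G.O) = e i := Subtype.ext (hbi i)
      rw [this, he]) y
  refine ⟨norm_mem (G.valExtends t) b hR' hbO y.2, ?_⟩
  have := congrArg (fun z : k⟮G.ρ ⟨t, ht⟩⟯ => (z : Fk)) key
  exact this

include htr in
/-- **Traces commute with reduction.** -/
theorem trace_red [FiniteDimensional K⟮t⟯ F] [FiniteDimensional k⟮G.ρ ⟨t, ht⟩⟯ Fk]
    (hfr : Module.finrank K⟮t⟯ F = Module.finrank k⟮G.ρ ⟨t, ht⟩⟯ Fk) (y : G.O) :
    ∃ h : ((Algebra.trace K⟮t⟯ F (y : F) : K⟮t⟯) : F) ∈ G.O,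
      G.ρ ⟨_, h⟩ = ((Algebra.trace k⟮G.ρ ⟨t, ht⟩⟯ Fk (G.ρ y) : k⟮G.ρ ⟨t, ht⟩⟯) : Fk) := by
  classical
  set b₁ := Module.finBasis k⟮G.ρ ⟨t, ht⟩⟯ Fk with hb₁def
  choose e he using fun i => G.ρ_surj (b₁ i)
  have hR : ResidIndep (G.V₀ t) G.O (fun i => ((e i : G.O) : F)) := by
    intro c hc hsum
    set s : G.O := ∑ i, G.incl t ⟨c i, hc i⟩ * e i with hs
    have hsF : (s : F) = ∑ i, c i • ((e i : G.O) : F) := by
      rw [hs, ← ValuationSubring.subtype_apply, _root_.map_sum]
      refine Finset.sum_congr rfl fun i _ => ?_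
      rw [_root_.map_mul, Algebra.smul_def]
      rfl
    have hρs : G.ρ s = 0 := by
      rw [G.ρ_eq_zero_iff, hsF]
      exact hsum
    have hρs' : ∑ i, G.ρ₀ ht htr ⟨c i, hc i⟩ • b₁ i = 0 := by
      rw [← hρs, hs, _root_.map_sum]
      refine Finset.sum_congr rfl fun i _ => ?_
      rw [_root_.map_mul, he, Algebra.smul_def]
      rfl
    have hzero := Fintype.linearIndependent_iff.mp b₁.linearIndependent _ hρs'
    intro i
    have h1 : G.ρ (G.incl t ⟨c i, hc i⟩) = 0 := by
      have := congrArg (fun z : k⟮G.ρ ⟨t, ht⟩⟯ => (z : Fk)) (hzero i)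
      simpa [coe_ρ₀] using this
    rw [G.ρ_eq_zero_iff, coe_incl] at h1
    exact ((G.valExtends t).mem_nonunits_iff (c i)).mp h1
  have : Nonempty (Fin (Module.finrank k⟮G.ρ ⟨t, ht⟩⟯ Fk)) :=
    ⟨⟨0, Module.finrank_pos⟩⟩
  obtain ⟨b, hb⟩ := exists_basis_of_residIndep hR (by rw [Fintype.card_fin, hfr])
  have hbi : ∀ i, b i = ((e i : G.O) : F) := fun i => congrFun hb i
  have hR' : ResidIndep (G.V₀ t) G.O b := by rw [hb]; exact hR
  have hbO : ∀ i, b i ∈ G.O := fun i => by rw [hbi]; exact (e i).2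
  have key := map_trace_intMatrix_eq_trace_map (G.valExtends t) b hR' hbO (G.ρ₀ ht htr) G.ρ
    (fun a => rfl) b₁ (fun i => by
      have : (⟨b i, hbO i⟩ : G.O) = e i := Subtype.ext (hbi i)
      rw [this, he]) y
  have htr' := trace_eq_trace_intMatrix (G.valExtends t) b hR' hbO y
  have hmem : ((Algebra.trace K⟮t⟯ F (y : F) : K⟮t⟯) : F) ∈ G.O := by
    rw [htr']
    exact ((intMatrix (G.valExtends t) b hR' hbO y).trace).2
  refine ⟨hmem, ?_⟩
  have h2 : (⟨((Algebra.trace K⟮t⟯ F (y : F) : K⟮t⟯) : F), hmem⟩ : G.O) =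
      G.incl t (intMatrix (G.valExtends t) b hR' hbO y).trace := by
    apply Subtype.ext
    rw [coe_incl, ← htr']
  rw [h2, ← key]
  rfl

end RedCtx

end Fermat.Agent.S37.H217

end
-- ===== PACK-END S37/H217/NormRed.lean

-- ===== PACK-BEGIN S37/H697/Unique.lean
section



/-!
# S37 (helper697): uniqueness of place reductions from a Riemann bound

`RiemannBound K F` : every divisor class of degree `0` of `F/K` contains a divisor of bounded
`ℓ¹`-norm (a consequence of Riemann's inequality: every class of degree `0` contains `E - g • P₀`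
with `E ≥ 0` of degree `g`).

Under a Riemann bound, an additive map on divisors which kills principal divisors and is bounded
on places vanishes on divisors of degree zero (`eq_zero_of_kills_principal`).  This gives the
uniqueness statement of the Prelude (`IsPlaceReductionAlong.eq_or_const_of_agree`,
`IsPlaceReductionAlong.eq_of_agree`) WITHOUT the divisibility hypothesis `hdiv` on `Pic⁰`.
-/

set_option autoImplicit false

noncomputable section

open HahnSeries IntermediateField AlgebraicCurve ModularCurve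

namespace Fermat.Agent.S37.H697

section General

variable (K F : Type*) [Field K] [Field F] [Algebra K F]

/-- Every divisor of degree `0` is linearly equivalent to a divisor of `ℓ¹`-norm `≤ B`. -/
def RiemannBound : Prop :=
  ∃ B : ℕ, ∀ D : Divisor K F, Divisor.degree D = 0 →
    ∃ E : Divisor K F, l1norm E ≤ B ∧ D - E ∈ Divisor.principal (K := K) (F := F)

variable {K F}

/-- Under a Riemann bound, a bounded additive map on divisors killing principal divisors kills
all divisors of degree zero. -/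
theorem eq_zero_of_kills_principal {Y : Type*} (hR : RiemannBound K F)
    (δ : Divisor K F →+ (Y →₀ ℤ))
    (hprin : ∀ D ∈ Divisor.principal (K := K) (F := F), δ D = 0)
    (C : ℕ) (hC : ∀ P : Place K F, l1norm (δ (Finsupp.single P 1)) ≤ C)
    (D : Divisor K F) (hD : Divisor.degree D = 0) : δ D = 0 := by
  obtain ⟨B, hB⟩ := hR
  refine eq_zero_of_bounded δ (Divisor.principal (K := K) (F := F)) hprin C hC D B ?_
  intro n
  have hn : Divisor.degree (n • D) = 0 := by rw [map_nsmul, hD, smul_zero]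
  exact hB (n • D) hn

end General

section Uniqueness

variable {L : Type*} [Field L] [Algebra ℚ L] {A : ValuationSubring L}
variable {k : Type*} [Field k] {π : A →+* k} {N : ℕ}

/-- Two maps on places which agree (after push-forward) on integral principal divisors agree on
all divisors of degree zero.  No divisibility of `Pic⁰` is needed, only a Riemann bound. -/
theorem mapDomain_eq_of_agree
    {r₁ r₂ : Place L (laurentBaseChange L (modularFunctionFieldFull N)) →
      Place k (modularFunctionFieldFullC k N)}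
    (hgen : PrincipalGeneratedByIntegral A π N)
    (hagree : ∀ D ∈ integralPrincipalDivisors A π N,
      Finsupp.mapDomain r₁ D = Finsupp.mapDomain r₂ D)
    (hR : RiemannBound L (laurentBaseChange L (modularFunctionFieldFull N)))
    (D : Divisor L (laurentBaseChange L (modularFunctionFieldFull N)))
    (hD : Divisor.degree D = 0) :
    Finsupp.mapDomain r₁ D = Finsupp.mapDomain r₂ D := by
  classical
  set δ : Divisor L (laurentBaseChange L (modularFunctionFieldFull N)) →+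
      Divisor k (modularFunctionFieldFullC k N) :=
    Finsupp.mapDomain.addMonoidHom r₁ - Finsupp.mapDomain.addMonoidHom r₂ with hδ
  have hδapp : ∀ D, δ D = Finsupp.mapDomain r₁ D - Finsupp.mapDomain r₂ D := fun D => rfl
  have hδprin : ∀ D ∈ Divisor.principal (K := L)
      (F := laurentBaseChange L (modularFunctionFieldFull N)), δ D = 0 := by
    intro D hD
    have hD' := hgen hD
    clear hD
    induction hD' using AddSubgroup.closure_induction with
    | mem E hE => rw [hδapp, hagree E hE, sub_self]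
    | zero => exact _root_.map_zero δ
    | add E E' _ _ hE hE' => rw [_root_.map_add, hE, hE', add_zero]
    | neg E _ hE => rw [_root_.map_neg, hE, neg_zero]
  have hC : ∀ P : Place L (laurentBaseChange L (modularFunctionFieldFull N)),
      l1norm (δ (Finsupp.single P 1)) ≤ 2 := by
    intro P
    rw [hδapp, Finsupp.mapDomain_single, Finsupp.mapDomain_single]
    refine (l1norm_sub_le _ _).trans ?_
    rw [l1norm_single, l1norm_single]
    simp
  have h0 := eq_zero_of_kills_principal hR δ hδprin 2 hC D hD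
  rw [hδapp, sub_eq_zero] at h0
  exact h0

/-- Variant of the Prelude's `IsPlaceReductionAlong.eq_or_const_of_agree` with a Riemann bound
instead of divisibility of `Pic⁰`. -/
theorem eq_or_const_of_agree
    {r₁ r₂ : Place L (laurentBaseChange L (modularFunctionFieldFull N)) →
      Place k (modularFunctionFieldFullC k N)}
    (hgen : PrincipalGeneratedByIntegral A π N)
    (hagree : ∀ D ∈ integralPrincipalDivisors A π N,
      Finsupp.mapDomain r₁ D = Finsupp.mapDomain r₂ D)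
    (hdeg : ∀ P : Place L (laurentBaseChange L (modularFunctionFieldFull N)), P.deg = 1)
    (hR : RiemannBound L (laurentBaseChange L (modularFunctionFieldFull N))) :
    r₁ = r₂ ∨ ∀ P Q, r₁ P = r₁ Q := by
  classical
  have hconst : ∀ P Q : Place L (laurentBaseChange L (modularFunctionFieldFull N)),
      Finsupp.single (r₁ P) (1 : ℤ) - Finsupp.single (r₂ P) 1 =
        Finsupp.single (r₁ Q) 1 - Finsupp.single (r₂ Q) 1 := by
    intro P Q
    have hPQ : Divisor.degree (Finsupp.single P (1 : ℤ) - Finsupp.single Q 1 :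
        Divisor L (laurentBaseChange L (modularFunctionFieldFull N))) = 0 := by
      rw [_root_.map_sub, Divisor.degree_single, Divisor.degree_single, hdeg, hdeg, sub_self]
    have h := mapDomain_eq_of_agree hgen hagree hR _ hPQ
    rw [Finsupp.mapDomain_sub, Finsupp.mapDomain_sub, Finsupp.mapDomain_single,
      Finsupp.mapDomain_single, Finsupp.mapDomain_single, Finsupp.mapDomain_single] at h
    exact sub_eq_sub_iff_sub_eq_sub.mpr h
  rw [or_iff_not_imp_left]
  intro hne
  obtain ⟨P₀, hP₀⟩ : ∃ P₀, r₁ P₀ ≠ r₂ P₀ := by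
    by_contra hall
    push Not at hall
    exact hne (funext hall)
  have hr₁const : ∀ Q, r₁ Q = r₁ P₀ := by
    intro Q
    have h := congrArg (fun E => E (r₁ P₀)) (hconst Q P₀)
    simp only [Finsupp.sub_apply, Finsupp.single_apply, if_neg (Ne.symm hP₀)] at h
    by_contra hQ
    rw [if_neg hQ] at h
    split_ifs at h <;> omega
  exact fun P Q => (hr₁const P).trans (hr₁const Q).symm

/-- Variant of the Prelude's `IsPlaceReductionAlong.eq_of_agree` with a Riemann bound instead of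
divisibility of `Pic⁰`. -/
theorem eq_of_agree
    {r₁ r₂ : Place L (laurentBaseChange L (modularFunctionFieldFull N)) →
      Place k (modularFunctionFieldFullC k N)}
    (hgen : PrincipalGeneratedByIntegral A π N)
    (hagree : ∀ D ∈ integralPrincipalDivisors A π N,
      Finsupp.mapDomain r₁ D = Finsupp.mapDomain r₂ D)
    (hdeg : ∀ P : Place L (laurentBaseChange L (modularFunctionFieldFull N)), P.deg = 1)
    (hprin0 : ∀ D ∈ Divisor.principal (K := L)
      (F := laurentBaseChange L (modularFunctionFieldFull N)), Divisor.degree D = 0)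
    (hR : RiemannBound L (laurentBaseChange L (modularFunctionFieldFull N)))
    (hnc : ∃ D ∈ Divisor.principal (K := L)
      (F := laurentBaseChange L (modularFunctionFieldFull N)), Finsupp.mapDomain r₁ D ≠ 0) :
    r₁ = r₂ := by
  rcases eq_or_const_of_agree hgen hagree hdeg hR with h | hconst
  · exact h
  obtain ⟨D, hDprin, hDne⟩ := hnc
  obtain ⟨P₀⟩ : Nonempty (Place L (laurentBaseChange L (modularFunctionFieldFull N))) := by
    by_contra hempty
    rw [not_nonempty_iff] at hempty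
    exact hDne (by rw [Subsingleton.elim D 0, Finsupp.mapDomain_zero])
  exfalso
  apply hDne
  have hmapconst : ∀ D : Divisor L (laurentBaseChange L (modularFunctionFieldFull N)),
      Finsupp.mapDomain r₁ D = Finsupp.single (r₁ P₀) (Divisor.degree D) := by
    intro D
    induction D using Finsupp.induction with
    | zero => simp
    | single_add P n D _ _ ih =>
      rw [Finsupp.mapDomain_add, ih, Finsupp.mapDomain_single, hconst P P₀, _root_.map_add,
        Divisor.degree_single, hdeg, Nat.cast_one, mul_one, ← Finsupp.single_add, add_comm]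
  rw [hmapconst D, hprin0 D hDprin, Finsupp.single_zero]

end Uniqueness

end Fermat.Agent.S37.H697

end
end
-- ===== PACK-END S37/H697/Unique.lean

-- ===== PACK-BEGIN S18/H213/Tame.lean
section



/-!
# S18 / b2.3 — the tame discriminant bound (helper213)

`O` a PID, `π` a prime element with residue field `κ = O/π` of characteristic zero, `C` a Dedekind
domain, finite and torsion-free over `O`, with `O`-basis `b` (`n` elements).  Then

  `ord_π (disc b) ≤ n - dim_κ (C/πC)_red`,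

stated as: `r ≤ dim_κ (C/πC)_red → ¬ π ^ (n - r + 1) ∣ disc b`  (`tame_discr_bound`).

Proof.  For a prime `P ∣ πC`, `πC = P ^ e * Q`, the idempotent of `C/πC` cut out by `Q` has trace
`e f ≠ 0` in `κ`, hence `P ^ e ∤ 𝔇` (Mathlib `not_dvd_differentIdeal_of_intTrace_not_mem`).
Ideal arithmetic then gives `s ∉ (π)` with `s π C^∨ ⊆ rad(πC)`, i.e. a matrix `H` over `O` with
`H * G = s π • 1` (`G` the Gram matrix of `b`) whose rows reduce into the coordinates of
`rad(πC)/πC`, a subspace of codimension `dim (C/πC)_red`.  The determinant–rank lemma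
(`DetRank.lean`) gives `π ^ r ∣ det H`, and `det H * disc b = (s π) ^ n`.
-/

set_option autoImplicit false
set_option linter.style.haveILetI false
set_option linter.unusedSectionVars false

open Module
open scoped nonZeroDivisors

namespace Fermat.Agent.S18.H213

attribute [local instance] FractionRing.liftAlgebra FractionRing.isScalarTower_liftAlgebra
  Ideal.Quotient.field

/-- The trace of a nonzero idempotent of a finite-dimensional algebra over a field of
characteristic zero is nonzero. -/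
theorem trace_idempotent_ne_zero {κ V : Type*} [Field κ] [CharZero κ] [CommRing V] [Algebra κ V]
    [Module.Finite κ V] (x : V) (hx : x * x = x) (hx0 : x ≠ 0) : Algebra.trace κ V x ≠ 0 := by
  rw [Algebra.trace_apply]
  have hid : IsIdempotentElem (Algebra.lmul κ V x) := by
    show Algebra.lmul κ V x * Algebra.lmul κ V x = Algebra.lmul κ V x
    rw [← map_mul, hx]
  have hproj := LinearMap.IsIdempotentElem.isProj_range _ hid
  rw [hproj.trace]
  have hpos : 0 < finrank κ (LinearMap.range (Algebra.lmul κ V x)) := by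
    rw [Module.finrank_pos_iff_exists_ne_zero]
    refine ⟨⟨x, ⟨1, by simp⟩⟩, ?_⟩
    intro h
    exact hx0 (congrArg Subtype.val h)
  exact_mod_cast hpos.ne'

section
variable {O C : Type*} [CommRing O] [IsDomain O] [IsPrincipalIdealRing O]
    [CommRing C] [IsDedekindDomain C] [Algebra O C] [Module.Finite O C] [IsTorsionFree O C]
    {π : O}

/-- **Tameness** (residue characteristic zero): if `π C = P ^ e * Q` with `P ^ e` and `Q`
comaximal and `P ^ e ≠ ⊤`, then `P ^ e` does not divide the different. -/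
theorem not_pow_dvd_differentIdeal (hπ : Prime π) [CharZero (O ⧸ Ideal.span {π})]
    [Algebra.IsSeparable (FractionRing O) (FractionRing C)]
    (Pe Q : Ideal C) (hPQ : Pe * Q = (Ideal.span {π}).map (algebraMap O C))
    (hcop : Pe ⊔ Q = ⊤) (hPe : Pe ≠ ⊤) : ¬ Pe ∣ differentIdeal O C := by
  have hmax : (Ideal.span {π}).IsMaximal :=
    PrincipalIdealRing.isMaximal_of_irreducible hπ.irreducible
  obtain ⟨a, ha, x, hxQ, hax⟩ := Submodule.mem_sup.mp (hcop ▸ Submodule.mem_top : (1 : C) ∈ Pe ⊔ Q)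
  refine not_dvd_differentIdeal_of_intTrace_not_mem O Pe Q hPQ x hxQ ?_
  rw [← Ideal.Quotient.eq_zero_iff_mem, ← Algebra.trace_quotient_eq_of_isDedekindDomain]
  apply trace_idempotent_ne_zero
  · rw [← map_mul, Ideal.Quotient.eq, ← hPQ]
    have : x * x - x = -(a * x) := by
      have : a = 1 - x := by rw [← hax]; ring
      rw [this]; ring
    rw [this]
    exact neg_mem (Ideal.mul_mem_mul ha hxQ)
  · intro h
    rw [Ideal.Quotient.eq_zero_iff_mem, ← hPQ] at h
    have hxP : x ∈ Pe := (Ideal.mul_le_left : Pe * Q ≤ Pe) h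
    apply hPe
    rw [Ideal.eq_top_iff_one, ← hax]
    exact add_mem ha hxP

/-- Key ideal arithmetic. -/
theorem exists_ideal_le_radical (hπ : Prime π) [CharZero (O ⧸ Ideal.span {π})]
    [Algebra.IsSeparable (FractionRing O) (FractionRing C)] :
    ∃ (I' : Ideal C) (s : O), ¬ π ∣ s ∧ I' ≤ ((Ideal.span {π}).map (algebraMap O C)).radical ∧
      algebraMap O C (s * π) ∈ differentIdeal O C * I' := by
  have hinj : Function.Injective (algebraMap O C) := FaithfulSMul.algebraMap_injective O C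
  set pC := (Ideal.span {π}).map (algebraMap O C) with hpC
  set D := differentIdeal O C with hD
  have hD0 : D ≠ ⊥ := differentIdeal_ne_bot
  have hπC : algebraMap O C π ∈ pC := Ideal.mem_map_of_mem _ (Ideal.mem_span_singleton_self π)
  have hpC0 : pC ≠ ⊥ := by
    intro h
    rw [h, Ideal.mem_bot] at hπC
    exact hπ.ne_zero (hinj (by rw [hπC, map_zero]))
  set a := D ⊔ pC with ha
  have ha0 : a ≠ ⊥ := fun h => hD0 (le_bot_iff.mp (h ▸ le_sup_left))
  obtain ⟨D', hD'⟩ : a ∣ D := Ideal.dvd_iff_le.mpr le_sup_left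
  obtain ⟨I', hI'⟩ : a ∣ pC := Ideal.dvd_iff_le.mpr le_sup_right
  have hcop : D' ⊔ I' = ⊤ := by
    have h1 : a * (D' ⊔ I') = a * ⊤ := by
      rw [Ideal.mul_sup, ← hD', ← hI', Ideal.mul_top]
    exact mul_left_cancel₀ ha0 h1
  -- key lemma
  have key : ∀ P : Ideal C, P.IsPrime → pC ≤ P → I' ≤ P := by
    intro P hP hle
    by_contra hnot
    have hPmax : P.IsMaximal := hP.isMaximal (ne_bot_of_le_ne_bot hpC0 hle)
    obtain ⟨Q, hPQ, hfac⟩ := Ideal.eq_prime_pow_mul_coprime hpC0 P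
    set e := Multiset.count P (UniqueFactorizationMonoid.normalizedFactors pC)
    have h1 : P ^ e ⊔ Q = ⊤ := Ideal.pow_sup_eq_top hPQ
    have h2 : P ^ e ≠ ⊤ := by
      intro h
      rw [h, Ideal.top_mul] at hfac
      rw [← hfac, sup_eq_left.mpr hle] at hPQ
      exact hPmax.ne_top hPQ
    have h3 := not_pow_dvd_differentIdeal hπ (P ^ e) Q hfac.symm h1 h2
    apply h3
    have h4 : P ^ e ∣ a := by
      have hc : IsCoprime (P ^ e) I' := by
        rw [Ideal.isCoprime_iff_sup_eq]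
        apply Ideal.pow_sup_eq_top
        by_contra hne
        apply hnot
        have := hPmax.eq_of_le hne le_sup_left
        rw [this]
        exact le_sup_right
      refine hc.dvd_of_dvd_mul_right ?_
      rw [← hI']
      exact ⟨Q, hfac⟩
    exact h4.trans ⟨D', hD'⟩
  -- the element `s`
  have hs : ∃ s : O, ¬ π ∣ s ∧ algebraMap O C s ∈ D' := by
    by_contra hcon
    push Not at hcon
    have hcomap : Ideal.comap (algebraMap O C) D' ≤ Ideal.span {π} := by
      intro s hs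
      rw [Ideal.mem_span_singleton]
      by_contra hdiv
      exact hcon s hdiv hs
    haveI : (Ideal.span {π}).IsPrime := (Ideal.span_singleton_prime hπ.ne_zero).mpr hπ
    obtain ⟨Q, hQD, hQp, hQc⟩ :=
      Ideal.exists_ideal_over_prime_of_isIntegral (Ideal.span {π}) D' hcomap
    have hle : pC ≤ Q := by
      rw [hpC, Ideal.map_le_iff_le_comap, hQc]
    have := key Q hQp hle
    have htop : (⊤ : Ideal C) ≤ Q := by
      rw [← hcop]
      exact sup_le hQD this
    exact hQp.ne_top (top_le_iff.mp htop)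
  obtain ⟨s, hsπ, hsD⟩ := hs
  refine ⟨I', s, hsπ, ?_, ?_⟩
  · rw [Ideal.radical_eq_sInf]
    exact le_sInf fun P hP => key P hP.2 hP.1
  · rw [map_mul, hD', mul_comm a D', mul_assoc, ← hI']
    exact Ideal.mul_mem_mul hsD hπC

/-- Multiples of the trace-dual basis land in the radical of `π C`. -/
theorem exists_dual_multiple (hπ : Prime π) [CharZero (O ⧸ Ideal.span {π})]
    {ι : Type*} [Fintype ι] [DecidableEq ι] (b : Basis ι O C) :
    ∃ (s : O) (z : ι → C), ¬ π ∣ s ∧
      (∀ j, z j ∈ ((Ideal.span {π}).map (algebraMap O C)).radical) ∧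
      ∀ j i, Algebra.trace O C (z j * b i) = if i = j then s * π else 0 := by
  haveI : CharZero O := RingHom.charZero (Ideal.Quotient.mk (Ideal.span {π}))
  let K := FractionRing O
  let L := FractionRing C
  haveI : CharZero K := charZero_of_injective_algebraMap (IsFractionRing.injective O K)
  haveI : IsLocalization (Algebra.algebraMapSubmonoid C O⁰) L :=
    IsIntegralClosure.isLocalization _ K _ _
  haveI : FiniteDimensional K L := .of_isLocalization O C O⁰
  haveI : Algebra.IsSeparable K L := inferInstance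
  obtain ⟨I', s, hsπ, hI', hmem⟩ := exists_ideal_le_radical (C := C) hπ
  let bL : Basis ι K L := b.localizationLocalization K O⁰ L
  have hspan := Submodule.traceDual_span_of_basis O (1 : Submodule C L) bL
    (by rw [Basis.localizationLocalization_span K O⁰ L]; ext; simp)
  have hz : ∀ j, ∃ z ∈ I', algebraMap C L z =
      algebraMap C L (algebraMap O C (s * π)) * bL.traceDual j := by
    intro j
    have hdual : bL.traceDual j ∈ FractionalIdeal.dual O K (1 : FractionalIdeal C⁰ L) := by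
      rw [← FractionalIdeal.mem_coe, FractionalIdeal.coe_dual_one]
      have : bL.traceDual j ∈ (Submodule.traceDual O K (1 : Submodule C L)).restrictScalars O := by
        rw [hspan]; exact Submodule.subset_span ⟨j, rfl⟩
      exact this
    have h1 : algebraMap C L (algebraMap O C (s * π)) ∈
        ((differentIdeal O C * I' : Ideal C) : FractionalIdeal C⁰ L) :=
      (FractionalIdeal.mem_coeIdeal _).mpr ⟨_, hmem, rfl⟩
    have h2 := FractionalIdeal.mul_mem_mul h1 hdual
    have hne : FractionalIdeal.dual O K (1 : FractionalIdeal C⁰ L) ≠ 0 :=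
      FractionalIdeal.dual_ne_zero O K one_ne_zero
    rw [FractionalIdeal.coeIdeal_mul, mul_comm (↑(differentIdeal O C) : FractionalIdeal C⁰ L) _,
      mul_assoc, coeIdeal_differentIdeal O K L C, inv_mul_cancel₀ hne, mul_one] at h2
    exact (FractionalIdeal.mem_coeIdeal _).mp h2
  choose z hzI hzeq using hz
  refine ⟨s, z, hsπ, fun j => hI' (hzI j), ?_⟩
  intro j i
  apply IsFractionRing.injective O K
  rw [← Algebra.trace_localization O O⁰ (Rₘ := K) (Sₘ := L), map_mul, hzeq, mul_assoc,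
    ← Basis.localizationLocalization_apply K O⁰ L b i]
  rw [← IsScalarTower.algebraMap_apply O C L, IsScalarTower.algebraMap_apply O K L,
    ← Algebra.smul_def, map_smul, Basis.trace_traceDual_mul, Algebra.smul_def]
  split_ifs <;> simp

/-- **Tame discriminant bound.** -/
theorem tame_discr_bound (hπ : Prime π) [CharZero (O ⧸ Ideal.span {π})]
    {ι : Type*} [Fintype ι] [DecidableEq ι] (b : Basis ι O C) (r : ℕ)
    (hr : r ≤ Module.finrank (O ⧸ Ideal.span {π})
      ((C ⧸ (Ideal.span {π}).map (algebraMap O C)) ⧸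
        nilradical (C ⧸ (Ideal.span {π}).map (algebraMap O C)))) :
    ¬ π ^ (Fintype.card ι - r + 1) ∣ Algebra.discr O b := by
  have hmax : (Ideal.span {π}).IsMaximal :=
    PrincipalIdealRing.isMaximal_of_irreducible hπ.irreducible
  obtain ⟨s, z, hsπ, hzJ, hztr⟩ := exists_dual_multiple hπ b
  set pC := (Ideal.span {π}).map (algebraMap O C) with hpC
  -- the coordinate matrix of `z`
  let H : Matrix ι ι O := Matrix.of fun j k => b.repr (z j) k
  have hHz : ∀ j, ∑ k, H j k • b k = z j := fun j => b.sum_repr (z j)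
  -- matrix identity
  have hHG : H * Algebra.traceMatrix O b = (s * π) • (1 : Matrix ι ι O) := by
    ext j i
    rw [Matrix.mul_apply]
    simp only [Algebra.traceMatrix_apply, Algebra.traceForm_apply]
    have h1 : ∑ k, H j k * Algebra.trace O C (b k * b i) = Algebra.trace O C (z j * b i) := by
      rw [← hHz j, Finset.sum_mul, map_sum]
      refine Finset.sum_congr rfl fun k _ => ?_
      rw [smul_mul_assoc, map_smul, smul_eq_mul]
    rw [h1, hztr, Matrix.smul_apply, Matrix.one_apply]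
    by_cases hij : j = i
    · subst hij; simp
    · rw [if_neg (Ne.symm hij), if_neg hij]; simp
  have hdet : H.det * Algebra.discr O b = (s * π) ^ Fintype.card ι := by
    rw [Algebra.discr_def, ← Matrix.det_mul, hHG, Matrix.det_smul, Matrix.det_one, mul_one]
  -- the reduction map
  let κ := O ⧸ Ideal.span {π}
  let V := C ⧸ pC
  let Vred := V ⧸ nilradical V
  let v : ι → Vred := fun k => Ideal.Quotient.mk (nilradical V) (Ideal.Quotient.mk pC (b k))
  let g : (ι → κ) →ₗ[κ] Vred := Fintype.linearCombination κ v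
  have hgred : ∀ w : ι → O, g (redRow π w) =
      Ideal.Quotient.mk (nilradical V) (Ideal.Quotient.mk pC (∑ k, w k • b k)) := by
    intro w
    simp only [g, Fintype.linearCombination_apply, redRow, v, map_sum]
    refine Finset.sum_congr rfl fun k _ => ?_
    rw [Algebra.smul_def, Algebra.smul_def, map_mul, map_mul]
    rfl
  have hgsurj : Function.Surjective g := by
    intro x
    obtain ⟨y, rfl⟩ := Ideal.Quotient.mk_surjective x
    obtain ⟨c, rfl⟩ := Ideal.Quotient.mk_surjective y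
    refine ⟨redRow π (fun k => b.repr c k), ?_⟩
    rw [hgred, b.sum_repr]
  have hgH : ∀ j, g (redRow π (H j)) = 0 := by
    intro j
    rw [hgred, hHz, Ideal.Quotient.eq_zero_iff_mem, mem_nilradical]
    obtain ⟨m, hm⟩ := hzJ j
    refine ⟨m, ?_⟩
    rw [← map_pow, Ideal.Quotient.eq_zero_iff_mem]
    exact hm
  -- DET–RANK
  set n := Fintype.card ι with hn
  have hrank := pow_dvd_det_of_rows_ker hπ g hgsurj (min r n) ((min_le_left _ _).trans hr) H hgH
  intro hdvd
  have h1 : π ^ (min r n) * π ^ (n - r + 1) ∣ (s * π) ^ n := by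
    rw [← hdet]
    exact mul_dvd_mul hrank hdvd
  have h2 : min r n + (n - r + 1) = n + 1 := by
    rcases le_total r n with h | h
    · rw [min_eq_left h]; omega
    · rw [min_eq_right h]; omega
  rw [← pow_add, h2, mul_pow, pow_succ, mul_comm (s ^ n)] at h1
  have h3 : π ∣ s ^ n := (mul_dvd_mul_iff_left (pow_ne_zero n hπ.ne_zero)).mp h1
  exact hsπ (hπ.dvd_of_dvd_pow h3)

end

set_option linter.overlappingInstances false in
/-- **Tame discriminant bound, witness form** (the shape of `B12.TameDiscrStatement`). -/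
theorem tame_discr_witness {Λ : Type*} [CommRing Λ] [IsDomain Λ] [IsPrincipalIdealRing Λ]
    [Algebra ℚ Λ] (t : Λ) (ht : Prime t)
    {C₀ : Type*} [CommRing C₀] [IsDomain C₀] [IsDedekindDomain C₀] [Algebra Λ C₀]
    [Module.IsTorsionFree Λ C₀]
    (n : ℕ) (β : Module.Basis (Fin n) Λ C₀) (r : ℕ) (y : Fin r → C₀)
    (hy : ∀ a : Fin r → Λ,
        (∑ i, a i • y i) ∈ (Ideal.span {algebraMap Λ C₀ t}).radical → ∀ i, t ∣ a i) :
    ¬ t ^ (n - r + 1) ∣ Algebra.discr Λ β := by
  have hmax : (Ideal.span {t}).IsMaximal :=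
    PrincipalIdealRing.isMaximal_of_irreducible ht.irreducible
  haveI : Module.Finite Λ C₀ := Module.Finite.of_basis β
  haveI : CharZero (Λ ⧸ Ideal.span {t}) := algebraRat.charZero _
  have hmap : (Ideal.span {t}).map (algebraMap Λ C₀) = Ideal.span {algebraMap Λ C₀ t} := by
    rw [Ideal.map_span, Set.image_singleton]
  set pC := (Ideal.span {t}).map (algebraMap Λ C₀) with hpC
  have key : r ≤ Module.finrank (Λ ⧸ Ideal.span {t}) ((C₀ ⧸ pC) ⧸ nilradical (C₀ ⧸ pC)) := by
    let v : Fin r → (C₀ ⧸ pC) ⧸ nilradical (C₀ ⧸ pC) :=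
      fun i => Ideal.Quotient.mk _ (Ideal.Quotient.mk pC (y i))
    have hli : LinearIndependent (Λ ⧸ Ideal.span {t}) v := by
      rw [Fintype.linearIndependent_iff]
      intro g hg i
      choose a ha using fun i => Ideal.Quotient.mk_surjective (g i)
      have h1 : ∑ i, g i • v i =
          Ideal.Quotient.mk _ (Ideal.Quotient.mk pC (∑ i, a i • y i)) := by
        simp only [v, map_sum]
        refine Finset.sum_congr rfl fun k _ => ?_
        rw [← ha k, Algebra.smul_def, Algebra.smul_def, map_mul, map_mul]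
        rfl
      rw [h1, Ideal.Quotient.eq_zero_iff_mem, mem_nilradical] at hg
      obtain ⟨m, hm⟩ := hg
      rw [← map_pow, Ideal.Quotient.eq_zero_iff_mem] at hm
      have h2 : (∑ i, a i • y i) ∈ (Ideal.span {algebraMap Λ C₀ t}).radical := by
        rw [← hmap]; exact ⟨m, hm⟩
      have h3 := hy a h2 i
      rw [← ha i, Ideal.Quotient.eq_zero_iff_mem, Ideal.mem_span_singleton]
      exact h3
    simpa using hli.fintype_card_le_finrank
  have := tame_discr_bound ht β r key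
  simpa using this

end Fermat.Agent.S18.H213

end
-- ===== PACK-END S18/H213/Tame.lean

-- ===== PACK-BEGIN S19/Glue.lean
section


/-!
# Cell A3 (S19) — top glue: frozen S19 from the three blocks ORD, FIN, ORDER
-/

set_option autoImplicit false

namespace Fermat.Agent.S19

open ModularCurve

/-- The frozen S19 conclusion, for fixed `N, ℓ, k`. -/
def FrozenConclusion (p : ℕ) (ℓ : ℕ) (k : ℕ) : Prop :=
  ∃ (H : Type) (_ : CommRing H) (_ : HopfAlgebra (GaloisRep.ratLocalizedAt ℓ) H),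
    Module.Finite (GaloisRep.ratLocalizedAt ℓ) H ∧ Module.Flat (GaloisRep.ratLocalizedAt ℓ) H ∧
    Coalgebra.IsCocomm (GaloisRep.ratLocalizedAt ℓ) H ∧
    ∃ e : WithConv (H →ₐ[GaloisRep.ratLocalizedAt ℓ] AlgebraicClosure ℚ) ≃
        ↥(Submodule.torsionBy ℤ (JZero p) ((ℓ : ℤ) ^ k)),
      (∀ f g, e (f * g) = e f + e g) ∧
      ∀ (σ : AlgebraicClosure ℚ ≃ₐ[ℚ] AlgebraicClosure ℚ)
        (f g : WithConv (H →ₐ[GaloisRep.ratLocalizedAt ℓ] AlgebraicClosure ℚ)),
        (∀ h : H, g h = σ (f h)) → ((e g : JZero p)) = σ • (e f : JZero p)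

theorem frozen_of_hopfModel (p ℓ k : ℕ) (h : HopfModel ℓ (Tors p ℓ k) (torsAct p ℓ k)) :
    FrozenConclusion p ℓ k := by
  obtain ⟨H, i1, i2, hfin, hflat, hco, e, hmul, hgal⟩ := h
  refine ⟨H, i1, i2, hfin, hflat, hco, e, hmul, ?_⟩
  intro σ f g hfg
  have := hgal σ f g hfg
  rw [this]
  rfl

/-- **Top glue**: frozen S19 from ORD + FIN + ORDER. -/
theorem S19_of_blocks (hord : OrdStatement) (hfin : FinStatement) (horder : OrderStatement)
    (p : ℕ) [NeZero p] (ℓ : ℕ) [Fact ℓ.Prime] (hℓp : ¬ ℓ ∣ p) (k : ℕ) :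
    FrozenConclusion p ℓ k := by
  haveI : Finite (Tors p ℓ k) := hfin p ℓ k
  exact frozen_of_hopfModel p ℓ k (hord ℓ (Tors p ℓ k) (torsAct p ℓ k) (horder p ℓ hℓp k))

end Fermat.Agent.S19

end
-- ===== PACK-END S19/Glue.lean

-- ===== PACK-BEGIN A3/H799/Root.lean
section



/-!
# A3 / LOCAL — the root lemma  (helper799)

`A` local ring, `T` finite, `Λ ≤ (T → A)` an `A`-algebra of functions, `𝒪` a disc algebra.
Let `W_τ = Σ_j v_j(τ) f_j ∈ 𝒪` be a family of disc functions with fixed `f_j ∈ 𝒪` and coefficients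
`v_j ∈ Λ`.  If, for every `τ`,

  `W_τ = ∏_{y ∈ ys} (t - y(τ)) * (t - c(τ)) * u_τ`,   `u_τ(c(τ))` a unit,

with known roots `ys ⊆ Λ` (values in `𝔪`), then the remaining root `c : T → 𝔪` lies in `Λ`.
(`root_mem`.)  This is "Weierstrass preparation + Hensel" for algebraic families, with no
completeness and no power series.
-/

set_option autoImplicit false

namespace Fermat.Agent.A3.H799

open Polynomial

section EvAt

variable {A : Type*} [CommRing A] {T : Type*}

/-- Evaluation of a function in `Λ` at a parameter value `τ`. -/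
def evAt (Λ : Subalgebra A (T → A)) (τ : T) : Λ →ₐ[A] A :=
  (Pi.evalAlgHom A (fun _ : T => A) τ).comp Λ.val

@[simp] theorem evAt_apply (Λ : Subalgebra A (T → A)) (τ : T) (x : Λ) :
    evAt Λ τ x = (x : T → A) τ := rfl

theorem ext_evAt {Λ : Subalgebra A (T → A)} {x y : Λ} (h : ∀ τ, evAt Λ τ x = evAt Λ τ y) :
    x = y := Subtype.ext (_root_.funext h)

/-- Polynomials over `Λ` are determined by their specialisations. -/
theorem poly_ext_evAt {Λ : Subalgebra A (T → A)} {P Q : Λ[X]}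
    (h : ∀ τ, P.map (evAt Λ τ : Λ →+* A) = Q.map (evAt Λ τ : Λ →+* A)) : P = Q := by
  ext n : 1
  refine ext_evAt fun τ => ?_
  have := congrArg (fun p => p.coeff n) (h τ)
  simpa using this

/-- Pointwise value of `aeval y P`. -/
theorem aeval_apply_eq (Λ : Subalgebra A (T → A)) (P : Λ[X]) (y : T → A) (τ : T) :
    (aeval y P) τ = (P.map (evAt Λ τ : Λ →+* A)).eval (y τ) := by
  have h1 : (aeval y P) τ = (Pi.evalRingHom (fun _ : T => A) τ) (eval₂ (algebraMap Λ (T → A)) y P) :=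
    rfl
  rw [h1, Polynomial.hom_eval₂, eval_map]
  rfl

end EvAt

section Root

variable {A : Type*} [CommRing A] [IsLocalRing A] {T : Type*} [Finite T]
variable {𝒪 : Type*} [CommRing 𝒪] [Algebra A 𝒪]

/-- The value at `τ` of a `Λ`-point of the disc. -/
def ptAt (Λ : Subalgebra A (T → A)) (τ : T) (y : radIdeal Λ) : IsLocalRing.maximalIdeal A :=
  ⟨((y : Λ) : T → A) τ, y.2 τ⟩

omit [Finite T] in
@[simp] theorem coe_ptAt (Λ : Subalgebra A (T → A)) (τ : T) (y : radIdeal Λ) :
    ((ptAt Λ τ y : IsLocalRing.maximalIdeal A) : A) = ((y : Λ) : T → A) τ := rfl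

/-- The monic polynomial `∏ (X - y)` over `Λ` attached to a list of `Λ`-points. -/
noncomputable def nodalΛ (Λ : Subalgebra A (T → A)) (ys : List (radIdeal Λ)) : Λ[X] :=
  (ys.map fun y => X - C (y : Λ)).prod

omit [Finite T] in
theorem nodalΛ_monic (Λ : Subalgebra A (T → A)) (ys : List (radIdeal Λ)) :
    (nodalΛ Λ ys).Monic := by
  induction ys with
  | nil => simp [nodalΛ]
  | cons a l ih =>
    have : nodalΛ Λ (a :: l) = (X - C (a : Λ)) * nodalΛ Λ l := by simp [nodalΛ]
    rw [this]; exact (monic_X_sub_C _).mul ih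

omit [Finite T] in
theorem map_nodalΛ (Λ : Subalgebra A (T → A)) (ys : List (radIdeal Λ)) (τ : T) :
    (nodalΛ Λ ys).map (evAt Λ τ : Λ →+* A) = DiscAlg.nodal (ys.map (ptAt Λ τ)) := by
  induction ys with
  | nil => simp [nodalΛ]
  | cons a l ih =>
    have h1 : nodalΛ Λ (a :: l) = (X - C (a : Λ)) * nodalΛ Λ l := by simp [nodalΛ]
    rw [h1, Polynomial.map_mul, ih, List.map_cons, DiscAlg.nodal_cons]
    simp

/-- Auxiliary: the list of all nodes `∏_τ (ys(τ) ++ [c τ, c τ])`. -/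
private noncomputable def allNodes (Λ : Subalgebra A (T → A)) (ys : List (radIdeal Λ))
    (c : T → IsLocalRing.maximalIdeal A) (ts : List T) : List (IsLocalRing.maximalIdeal A) :=
  ts.flatMap fun τ => ys.map (ptAt Λ τ) ++ [c τ, c τ]

omit [Finite T] in
private theorem nodal_allNodes_dvd (Λ : Subalgebra A (T → A)) (ys : List (radIdeal Λ))
    (c : T → IsLocalRing.maximalIdeal A) (ts : List T) (τ : T) (hτ : τ ∈ ts) :
    ∃ R : A[X], DiscAlg.nodal (allNodes Λ ys c ts) =
      DiscAlg.nodal (ys.map (ptAt Λ τ) ++ [c τ]) * (X - C ((c τ : IsLocalRing.maximalIdeal A) : A))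
        * R := by
  induction ts with
  | nil => simp at hτ
  | cons σ ts ih =>
    have hcons : allNodes Λ ys c (σ :: ts) =
        (ys.map (ptAt Λ σ) ++ [c σ, c σ]) ++ allNodes Λ ys c ts := by
      simp [allNodes]
    rw [hcons, DiscAlg.nodal_append]
    rcases List.mem_cons.mp hτ with h | h
    · subst h
      refine ⟨DiscAlg.nodal (allNodes Λ ys c ts), ?_⟩
      have : ys.map (ptAt Λ τ) ++ [c τ, c τ] = (ys.map (ptAt Λ τ) ++ [c τ]) ++ [c τ] := by simp
      rw [this, DiscAlg.nodal_append_singleton]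
    · obtain ⟨R, hR⟩ := ih h
      refine ⟨DiscAlg.nodal (ys.map (ptAt Λ σ) ++ [c σ, c σ]) * R, ?_⟩
      rw [hR]; ring

/-- **Root lemma.**  See the module docstring. -/
theorem root_mem (Λ : Subalgebra A (T → A)) (D : DiscAlg A 𝒪) {κ : Type*} [Fintype κ]
    (f : κ → 𝒪) (v : κ → Λ) (ys : List (radIdeal Λ)) (c : T → IsLocalRing.maximalIdeal A)
    (hW : ∀ τ, ∃ u : 𝒪, IsUnit (D.ev (c τ) u) ∧
      ∑ j, ((v j : Λ) : T → A) τ • f j =
        aeval D.t (DiscAlg.nodal (ys.map (ptAt Λ τ))) *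
          (D.t - algebraMap A 𝒪 ((c τ : IsLocalRing.maximalIdeal A) : A)) * u) :
    (fun τ => ((c τ : IsLocalRing.maximalIdeal A) : A)) ∈ Λ := by
  classical
  have : Fintype T := Fintype.ofFinite T
  set ts : List T := (Finset.univ : Finset T).toList with hts
  have hmem : ∀ τ, τ ∈ ts := fun τ => by simp [hts]
  set S := allNodes Λ ys c ts with hS
  -- interpolation of the `f j`
  choose p h hp using fun j => D.exists_interp S (f j)
  -- the polynomial with coefficients in `Λ`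
  set Φ : Λ[X] := ∑ j, C (v j) * (p j).map (algebraMap A Λ) with hΦ
  set G : Λ[X] := nodalΛ Λ ys with hG
  have hGm : G.Monic := nodalΛ_monic Λ ys
  set Φ₂ : Λ[X] := Φ /ₘ G with hΦ₂
  -- pointwise factorisation of `Φ`
  have hΦτ : ∀ τ, Φ.map (evAt Λ τ : Λ →+* A) = ∑ j, C (((v j : Λ) : T → A) τ) * p j := by
    intro τ
    rw [hΦ, Polynomial.map_sum]
    refine Finset.sum_congr rfl fun j _ => ?_
    rw [Polynomial.map_mul, Polynomial.map_C, Polynomial.map_map]
    have : ((evAt Λ τ : Λ →+* A).comp (algebraMap A Λ)) = RingHom.id A := by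
      ext a; simp
    rw [this, Polynomial.map_id]
    rfl
  have hfac : ∀ τ, ∃ q : A[X], IsUnit (q.eval ((c τ : IsLocalRing.maximalIdeal A) : A)) ∧
      Φ.map (evAt Λ τ : Λ →+* A) =
        DiscAlg.nodal (ys.map (ptAt Λ τ)) * ((X - C ((c τ : IsLocalRing.maximalIdeal A) : A)) * q) := by
    intro τ
    obtain ⟨u, hu, hWτ⟩ := hW τ
    obtain ⟨R, hR⟩ := nodal_allNodes_dvd Λ ys c ts τ (hmem τ)
    -- aeval of Φ_τ
    have h1 : aeval D.t (Φ.map (evAt Λ τ : Λ →+* A)) =
        ∑ j, ((v j : Λ) : T → A) τ • f j -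
          aeval D.t (DiscAlg.nodal S) * ∑ j, ((v j : Λ) : T → A) τ • h j := by
      rw [hΦτ τ, _root_.map_sum, Finset.mul_sum, ← Finset.sum_sub_distrib]
      refine Finset.sum_congr rfl fun j _ => ?_
      rw [_root_.map_mul, aeval_C, hp j, Algebra.smul_def, Algebra.smul_def]
      ring
    set u' : 𝒪 := u - (D.t - algebraMap A 𝒪 ((c τ : IsLocalRing.maximalIdeal A) : A)) *
        (aeval D.t R * ∑ j, ((v j : Λ) : T → A) τ • h j) with hu'
    have hR' : aeval D.t (DiscAlg.nodal S) =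
        aeval D.t (DiscAlg.nodal (ys.map (ptAt Λ τ))) *
          (D.t - algebraMap A 𝒪 ((c τ : IsLocalRing.maximalIdeal A) : A)) *
          (D.t - algebraMap A 𝒪 ((c τ : IsLocalRing.maximalIdeal A) : A)) * aeval D.t R := by
      rw [hS, hR, DiscAlg.nodal_append_singleton]
      simp only [_root_.map_mul, _root_.map_sub, aeval_X, aeval_C]
    have h2 : aeval D.t (Φ.map (evAt Λ τ : Λ →+* A)) =
        aeval D.t (DiscAlg.nodal (ys.map (ptAt Λ τ) ++ [c τ])) * u' := by
      rw [h1, hWτ, hR', DiscAlg.nodal_append_singleton, hu']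
      simp only [_root_.map_mul, _root_.map_sub, aeval_X, aeval_C]
      ring
    obtain ⟨q, hq⟩ := D.nodal_dvd_of_aeval _ _ _ h2
    refine ⟨q, ?_, ?_⟩
    · -- q(t) = u'
      have h3 : aeval D.t (DiscAlg.nodal (ys.map (ptAt Λ τ) ++ [c τ])) * (aeval D.t q - u') = 0 := by
        rw [mul_sub, ← h2, hq, _root_.map_mul]; ring
      have h4 : aeval D.t q = u' := sub_eq_zero.mp (D.nodal_cancel _ _ h3)
      have h5 : q.eval ((c τ : IsLocalRing.maximalIdeal A) : A) = D.ev (c τ) u := by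
        rw [← D.ev_aeval, h4, hu', _root_.map_sub, _root_.map_mul, _root_.map_sub, D.ev_t]
        simp
      rw [h5]; exact hu
    · rw [hq, DiscAlg.nodal_append_singleton]
      ring
  -- specialisation of Φ₂
  have hΦ₂τ : ∀ τ, ∃ q : A[X], IsUnit (q.eval ((c τ : IsLocalRing.maximalIdeal A) : A)) ∧
      Φ₂.map (evAt Λ τ : Λ →+* A) = (X - C ((c τ : IsLocalRing.maximalIdeal A) : A)) * q := by
    intro τ
    obtain ⟨q, hq, hfac'⟩ := hfac τ
    refine ⟨q, hq, ?_⟩
    rw [hΦ₂, Polynomial.map_divByMonic _ hGm, hfac', hG, map_nodalΛ]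
    exact Polynomial.mul_divByMonic_cancel_left _ (DiscAlg.nodal_monic _)
  -- apply Hensel
  refine hensel_mem Λ Φ₂ _ (fun τ => (c τ).2) ?_ ?_
  · funext τ
    rw [aeval_apply_eq]
    obtain ⟨q, -, hq⟩ := hΦ₂τ τ
    rw [hq]
    simp
  · intro τ
    rw [aeval_apply_eq, ← Polynomial.derivative_map]
    obtain ⟨q, hqu, hq⟩ := hΦ₂τ τ
    rw [hq]
    simpa [derivative_mul] using hqu

end Root

end Fermat.Agent.A3.H799

end
-- ===== PACK-END A3/H799/Root.lean

-- ===== PACK-BEGIN Ribet/Spec2.lean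
section


/-!
# Row RIBET: interface statements, second instalment (board v2, helper943)

`Spec.lean` is frozen on main.  This file adds the corrected / weakened forms agreed with the
rows that deliver them.  All definitions are `Prop`s; no proofs.

* `EigenformOfOccursAwayStatement` (R3S): R3 only for `S ⊇ {primes dividing M·p}` (the Kummer-Hecke
  dictionary of the S29 tower exists only away from `M·p`).
* `TraceFormulaFreyStatement` (TF-Frey): the trace formula for the Frey curve and `n = p` only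
  (the general form needs `det = cyclotomic` for all curves).
* `AtPOccursStatement`, `AtQOccursStatement`: the two Mazur walls in SUPPORT form (no embedding
  of the abelian part is asked for).  `AtPOccursStatement` is verbatim the statement
  `Fermat.Agent.Ribet.H884.AtPOccursStatement`.
-/

set_option autoImplicit false

open WeierstrassCurve WeierstrassCurve.Affine WeierstrassCurve.Affine.Point
open CuspForm ModularFormClass UpperHalfPlane ModularCurve

namespace Fermat.Agent.Ribet.Spec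

/-- (R3S) [row S29: architect helper201]  An eigensystem occurring in `J₀(M)[p]` away from a
finite set `S` **containing all primes dividing `M·p`** is the reduction of a normalised
eigenform of level `M` (congruence for the primes outside `S`). -/
def EigenformOfOccursAwayStatement : Prop :=
  ∀ (M p : ℕ) [NeZero M], p.Prime → ∀ (S : Finset ℕ) (a : ℕ → ℤ),
    (∀ ℓ : ℕ, ℓ.Prime → ℓ ∣ M * p → ℓ ∈ S) → OccursIn M p S a →
    ∃ (g : CuspForm (CongruenceSubgroup.Gamma0 M) 2) (𝔪 : Ideal (integralClosure ℤ ℂ)),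
      g.IsNormalizedEigenform ∧ 𝔪.IsMaximal ∧ (p : integralClosure ℤ ℂ) ∈ 𝔪 ∧
      ∀ ℓ : ℕ, ℓ.Prime → ℓ ∉ S →
        ∃ b : integralClosure ℤ ℂ, (b : ℂ) = qCoeff g ℓ ∧
          b - ((a ℓ : ℤ) : integralClosure ℤ ℂ) ∈ 𝔪

/-- (TF-Frey)  Trace formula for the Frey curve at `n = p`. -/
def TraceFormulaFreyStatement : Prop :=
  ∀ (P : FreyPackage) (W : WeierstrassCurve ℤ), W.IsIntegralModelOf P.freyCurve →
    ∀ (ℓ : ℕ), ℓ.Prime → ℓ ≠ P.p → W.IsGoodPrimeFor ℓ →
    ∀ A : ValuationSubring (AlgebraicClosure ℚ), A.LiesOverPrime ℓ →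
    ∀ τ : GQ, A.IsFrobeniusAt τ ℓ →
      galoisTrace (S := ℚ) (K := AlgebraicClosure ℚ) P.freyCurve P.p τ
        = ((W.apOfModel ℓ : ℤ) : ZMod P.p)

/-- (WALL-p)  Mazur-Ribet at `p`, support form: `p ‖ pM'`, `p ∣ abc`, `E[p]` irreducible and
embedded Galois- and Hecke-equivariantly in `J₀(pM')`; then its eigensystem occurs in
`J₀(M')[p]` away from a finite set. -/
def AtPOccursStatement : Prop :=
  ∀ (P : FreyPackage) (M' : ℕ) [NeZero M'] [NeZero (P.p * M')], ¬ P.p ∣ M' →
    (P.p : ℤ) ∣ P.a * P.b * P.c →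
    GaloisRepIsIrreducible (K := AlgebraicClosure ℚ) ℚ P.freyCurve P.p →
    ∀ (S : Finset ℕ) (a : ℕ → ℤ), FreyEmbedsIn P (P.p * M') S a →
      ∃ S' : Finset ℕ, S ⊆ S' ∧ OccursIn M' P.p S' a

/-- (WALL-q)  Mazur's principle at `q ≠ p`, support form: `q ‖ qM'`, `E[p]` irreducible,
unramified at `q`, `q ≢ 1 mod p`, embedded in `J₀(qM')`; then its eigensystem occurs in
`J₀(M')[p]` away from a finite set. -/
def AtQOccursStatement : Prop :=
  ∀ (P : FreyPackage) (M' q : ℕ) [NeZero M'] [NeZero (q * M')], q.Prime → q ≠ P.p →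
    ¬ q ∣ M' →
    GaloisRepIsIrreducible (K := AlgebraicClosure ℚ) ℚ P.freyCurve P.p →
    P.GaloisRepUnramifiedAt q → ¬ P.p ∣ q - 1 →
    ∀ (S : Finset ℕ) (a : ℕ → ℤ), FreyEmbedsIn P (q * M') S a →
      ∃ S' : Finset ℕ, S ⊆ S' ∧ OccursIn M' P.p S' a

/-- `OccursIn` is monotone in the excluded set. -/
theorem OccursIn.mono {N p : ℕ} [NeZero N] {S S' : Finset ℕ} {a : ℕ → ℤ} (h : S ⊆ S')
    (hocc : OccursIn N p S a) : OccursIn N p S' a := by
  obtain ⟨x, hx, hp, hT⟩ := hocc
  exact ⟨x, hx, hp, fun ℓ hℓ => hT ℓ (fun hS => hℓ (h hS))⟩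

/-- `FreyEmbedsIn` is monotone in the excluded set. -/
theorem FreyEmbedsIn.mono {P : FreyPackage} {N : ℕ} [NeZero N] {S S' : Finset ℕ} {a : ℕ → ℤ}
    (h : S ⊆ S') (hemb : FreyEmbedsIn P N S a) : FreyEmbedsIn P N S' a := by
  obtain ⟨ι, hinj, hgal, hT⟩ := hemb
  exact ⟨ι, hinj, hgal, fun ℓ hℓ => hT ℓ (fun hS => hℓ (h hS))⟩

/-- R3 (all `S`) implies R3S. -/
theorem eigenformOfOccursAway_of (h : EigenformOfOccursStatement) :
    EigenformOfOccursAwayStatement :=
  fun M p _ hp S a _ hocc => h M p hp S a hocc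

/-- Use of R3S with an arbitrary `S`: enlarge `S` by the primes dividing `M·p`. -/
theorem exists_eigenform_of_occursIn (h : EigenformOfOccursAwayStatement) {M p : ℕ} [NeZero M]
    (hp : p.Prime) {S : Finset ℕ} {a : ℕ → ℤ} (hocc : OccursIn M p S a) :
    ∃ (g : CuspForm (CongruenceSubgroup.Gamma0 M) 2) (𝔪 : Ideal (integralClosure ℤ ℂ)),
      g.IsNormalizedEigenform ∧ 𝔪.IsMaximal ∧ (p : integralClosure ℤ ℂ) ∈ 𝔪 ∧
      ∀ ℓ : ℕ, ℓ.Prime → ℓ ∉ S ∪ (M * p).primeFactors →
        ∃ b : integralClosure ℤ ℂ, (b : ℂ) = qCoeff g ℓ ∧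
          b - ((a ℓ : ℤ) : integralClosure ℤ ℂ) ∈ 𝔪 := by
  refine h M p hp (S ∪ (M * p).primeFactors) a ?_ (hocc.mono Finset.subset_union_left)
  intro ℓ hℓ hdvd
  apply Finset.mem_union_right
  rw [Nat.mem_primeFactors]
  exact ⟨hℓ, hdvd, Nat.mul_ne_zero (NeZero.ne M) hp.ne_zero⟩

/-- Row 38 from the support-form wall: `S44 ⇐ BLR + WALL-p + R3S + R3'`. -/
theorem S44_of_walls (hE : EmbedStatement) (hWall : AtPOccursStatement)
    (hR3 : EigenformOfOccursAwayStatement) (hR3' : AlmostAllToWitnessStatement) :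
    S44Statement := by
  intro P N hcond hpN hirr hmod
  have hsq : ¬ P.p ^ 2 ∣ N := hcond.sq_not_dvd P.pp
  have hpabc := hcond.p_dvd_abc hpN
  have hNpos := hcond.pos
  obtain ⟨M', rfl⟩ := hpN
  have hM'pos : 0 < M' := by
    rcases Nat.eq_zero_or_pos M' with h0 | h0
    · subst h0; simp at hNpos
    · exact h0
  have hpM' : ¬ P.p ∣ M' := by
    rintro ⟨k, rfl⟩
    exact hsq ⟨k, by ring⟩
  haveI : NeZero M' := ⟨hM'pos.ne'⟩
  haveI : NeZero (P.p * M') := ⟨hNpos.ne'⟩
  obtain ⟨f, W, 𝔪, hwit⟩ := hmod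
  have hwit' : P.IsCongruentWitness (P.p * M') f W 𝔪 := hwit
  obtain ⟨S, hemb⟩ := hE P (P.p * M') hirr f W 𝔪 hwit'
  obtain ⟨S', -, hocc⟩ := hWall P M' hpM' hpabc hirr S _ hemb
  obtain ⟨g, 𝔪', hg, hmax, hp, hc⟩ := exists_eigenform_of_occursIn hR3 P.pp hocc
  exact ⟨M', Dvd.intro_left _ rfl, hpM', g, W, 𝔪',
    hR3' P M' hM'pos g W 𝔪' _ hg hwit.2.1 hmax hp hc⟩

/-- Mazur's principle (L1) from the support-form wall at `q`:
`MPq ⇐ BLR + WALL-q + R3S + R3'`. -/
theorem mazurPrinciple_of_walls (hE : EmbedStatement) (hWall : AtQOccursStatement)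
    (hR3 : EigenformOfOccursAwayStatement) (hR3' : AlmostAllToWitnessStatement) :
    MazurPrincipleStatement := by
  intro P L q hLpos hq hqp hqL hsq hirr hmod hunr hq1
  obtain ⟨M', rfl⟩ := hqL
  have hM'pos : 0 < M' := by
    rcases Nat.eq_zero_or_pos M' with h0 | h0
    · subst h0; simp at hLpos
    · exact h0
  rw [Nat.mul_div_cancel_left M' hq.pos]
  have hqM' : ¬ q ∣ M' := by
    rintro ⟨k, rfl⟩
    exact hsq ⟨k, by ring⟩
  haveI : NeZero M' := ⟨hM'pos.ne'⟩
  haveI : NeZero (q * M') := ⟨hLpos.ne'⟩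
  obtain ⟨f, W, 𝔪, hwit⟩ := hmod
  have hwit' : P.IsCongruentWitness (q * M') f W 𝔪 := hwit
  obtain ⟨S, hemb⟩ := hE P (q * M') hirr f W 𝔪 hwit'
  obtain ⟨S', -, hocc⟩ := hWall P M' q hq hqp hqM' hirr hunr hq1 S _ hemb
  obtain ⟨g, 𝔪', hg, hmax, hp, hc⟩ := exists_eigenform_of_occursIn hR3 P.pp hocc
  exact ⟨g, W, 𝔪', hR3' P M' hM'pos g W 𝔪' _ hg hwit.2.1 hmax hp hc⟩

end Fermat.Agent.Ribet.Spec

end
-- ===== PACK-END Ribet/Spec2.lean

-- ===== PACK-BEGIN A2/H372/Radical.lean
section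


/-!
# A2 / MOD M5 (d4) : `p₁ + p₂` is a radical ideal (helper372)

Corollaries of `Fermat.Agent.A2.H372.Transversal` in the exact form of the field
`SSChart.transversal` of `Fermat/Agent/A2/Spec.lean` (row-lead helper13):
`(P₁ ⊔ P₂).IsRadical`.

* `isRadical_of_local` : an ideal `J` such that every maximal ideal `n ⊇ J` is generated by `J`
  locally at `n` (elementwise form) is radical.
* `KronCong.sup_isRadical` : transversality from the (semilinear) Kronecker congruences, `α` onto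
  `B/P₁`, and local generators of the first branch at the crossing points.
* `KronCong.sup_isRadical_of_isDedekindDomain` : the same when the first branch
  `A ⧸ comap α P₁` is a Dedekind domain (= `B_M / w` normal, S18 b2 at level `M`).
-/

set_option autoImplicit false

namespace Fermat.Agent.A2.H372

open Ideal

variable {A B : Type*} [CommRing A] [CommRing B]

/-- An ideal which, locally at every maximal ideal containing it, is equal to that maximal
ideal, is radical. -/
theorem isRadical_of_local {J : Ideal B}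
    (h : ∀ n : Ideal B, n.IsMaximal → J ≤ n → ∀ x ∈ n, ∃ t : B, t ∉ n ∧ t * x ∈ J) :
    J.IsRadical := by
  intro x hx
  -- the conductor `I = (J : x)`
  let I : Ideal B :=
    { carrier := {t | t * x ∈ J}
      add_mem' := fun {a b} ha hb => by
        change (a + b) * x ∈ J
        rw [add_mul]; exact J.add_mem ha hb
      zero_mem' := by simp
      smul_mem' := fun c a ha => by
        change c * a * x ∈ J
        rw [_root_.mul_assoc]; exact J.mul_mem_left c ha }
  have hI : ∀ t, t ∈ I ↔ t * x ∈ J := fun t => Iff.rfl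
  by_contra hxJ
  have hne : I ≠ ⊤ := by
    intro htop
    have : (1 : B) ∈ I := by rw [htop]; trivial
    rw [hI, one_mul] at this
    exact hxJ this
  obtain ⟨n, hn, hIn⟩ := Ideal.exists_le_maximal I hne
  have hJI : J ≤ I := fun t ht => (hI t).mpr (J.mul_mem_right x ht)
  have hJn : J ≤ n := hJI.trans hIn
  have hxn : x ∈ n := by
    obtain ⟨k, hk⟩ := hx
    exact hn.isPrime.mem_of_pow_mem k (hJn hk)
  obtain ⟨t, ht, htx⟩ := h n hn hJn x hxn
  exact ht (hIn ((hI t).mpr htx))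

/-- **Transversality** (`SSChart.transversal`): `P₁ + P₂` is radical. -/
theorem KronCong.sup_isRadical {q : ℕ} (hq : 2 ≤ q) {α β : A →+* B} {P₁ P₂ : Ideal B}
    (h : KronCong q α β P₁ P₂) (hα : ∀ b : B, ∃ a : A, b - α a ∈ P₁)
    (huni : ∀ n : Ideal B, n.IsMaximal → P₁ ≤ n → P₂ ≤ n → ∃ a₀ : A, IsBranchUnif α P₁ n a₀) :
    (P₁ ⊔ P₂).IsRadical := by
  refine isRadical_of_local fun n hn hJn x hx => ?_
  have hP₁ : P₁ ≤ n := le_sup_left.trans hJn
  have hP₂ : P₂ ≤ n := le_sup_right.trans hJn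
  obtain ⟨a₀, ha₀⟩ := huni n hn hP₁ hP₂
  have := hn.isPrime
  exact h.mem_sup_of_mem hq hP₁ hP₂ hα ha₀ hx

/-- **Transversality** when the first branch is a Dedekind domain. -/
theorem KronCong.sup_isRadical_of_isDedekindDomain {q : ℕ} (hq : 2 ≤ q) {α β : A →+* B}
    {P₁ P₂ : Ideal B} (h : KronCong q α β P₁ P₂) (hα : ∀ b : B, ∃ a : A, b - α a ∈ P₁)
    [IsDedekindDomain (A ⧸ Ideal.comap α P₁)] :
    (P₁ ⊔ P₂).IsRadical :=
  h.sup_isRadical hq hα fun n hn hP₁ _ =>
    haveI := hn.isPrime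
    exists_isBranchUnif_of_isDedekindDomain α P₁ n hP₁

end Fermat.Agent.A2.H372

end
-- ===== PACK-END A2/H372/Radical.lean

-- ===== PACK-BEGIN A2/Mod/H189/ChartChangeAux.lean
section







/-!
# Cell A2 / MOD, GOODRED part G3 (helper189): chart change, auxiliary lemmas (Mathlib only)

* `isIntegral_of_monic_eq`, `isIntegral_of_unit_eq`, `isIntegral_of_cubic`, `isIntegral_of_quartic`:
  integrality over a subalgebra from an explicit equation with unit leading coefficient;
* `icSub A` : the integral closure of a subalgebra `A ⊆ F`, as an `R`-subalgebra of `F`;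
* `GoodOn V w A := QepOn V w A ∧ NormalOn V w A` with `GoodOn.loc`, `GoodOn.glue`, `GoodOn.congr`,
  `GoodOn.of_le_of_le`.
-/

set_option autoImplicit false

namespace Fermat.Agent.A2.Mod.H189

open Polynomial

variable {R : Type*} [CommRing R] {F : Type*} [Field F] [Algebra R F]

/-- Integrality from a monic equation with coefficients in `A`. -/
theorem isIntegral_of_monic_eq {A : Subalgebra R F} {x : F} (n : ℕ) (c : Fin n → F)
    (hc : ∀ i, c i ∈ A) (h : x ^ n + ∑ i : Fin n, c i * x ^ (i : ℕ) = 0) : IsIntegral A x := by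
  refine ⟨X ^ n + ∑ i : Fin n, C (⟨c i, hc i⟩ : A) * X ^ (i : ℕ),
    monic_X_pow_add (degree_sum_fin_lt _), ?_⟩
  rw [eval₂_add, eval₂_pow, eval₂_X, eval₂_finsetSum]
  simp only [eval₂_mul, eval₂_C, eval₂_pow, eval₂_X]
  exact h

/-- Integrality from an equation whose leading coefficient is a unit of `A`. -/
theorem isIntegral_of_unit_eq {A : Subalgebra R F} {x : F} (n : ℕ) {a v : F}
    (hv : v ∈ A) (hav : v * a = 1) (c : Fin n → F)
    (hc : ∀ i, c i ∈ A) (h : a * x ^ n + ∑ i : Fin n, c i * x ^ (i : ℕ) = 0) :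
    IsIntegral A x := by
  refine isIntegral_of_monic_eq n (fun i => v * c i) (fun i => A.mul_mem hv (hc i)) ?_
  have h1 := congrArg (fun z => v * z) h
  simp only [mul_zero, mul_add, ← mul_assoc, hav, one_mul, Finset.mul_sum] at h1
  exact h1

/-- Integrality from a cubic equation with unit leading coefficient. -/
theorem isIntegral_of_cubic {A : Subalgebra R F} {x a v c₂ c₁ c₀ : F}
    (hv : v ∈ A) (hav : v * a = 1) (h₂ : c₂ ∈ A) (h₁ : c₁ ∈ A) (h₀ : c₀ ∈ A)
    (h : a * x ^ 3 + c₂ * x ^ 2 + c₁ * x + c₀ = 0) : IsIntegral A x := by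
  refine isIntegral_of_unit_eq 3 hv hav ![c₀, c₁, c₂] ?_ ?_
  · intro i
    fin_cases i <;> simpa
  · rw [Fin.sum_univ_three]
    simp only [Matrix.cons_val_zero, Matrix.cons_val_one, Matrix.cons_val_two, Matrix.head_cons,
      Matrix.tail_cons, Fin.val_zero, Fin.val_one, Fin.val_two, pow_zero, pow_one, mul_one]
    linear_combination h

/-- Integrality from a quartic equation with unit leading coefficient. -/
theorem isIntegral_of_quartic {A : Subalgebra R F} {x a v c₃ c₂ c₁ c₀ : F}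
    (hv : v ∈ A) (hav : v * a = 1) (h₃ : c₃ ∈ A) (h₂ : c₂ ∈ A) (h₁ : c₁ ∈ A) (h₀ : c₀ ∈ A)
    (h : a * x ^ 4 + c₃ * x ^ 3 + c₂ * x ^ 2 + c₁ * x + c₀ = 0) : IsIntegral A x := by
  refine isIntegral_of_unit_eq 4 hv hav ![c₀, c₁, c₂, c₃] ?_ ?_
  · intro i
    fin_cases i <;> simpa
  · rw [Fin.sum_univ_four]
    simp only [Matrix.cons_val_zero, Matrix.cons_val_one, Matrix.cons_val_two,
      Matrix.cons_val_three, Matrix.head_cons,
      Matrix.tail_cons, Fin.val_zero, Fin.val_one, Fin.val_two, pow_zero, pow_one, mul_one]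
    simp
    linear_combination h

/-- The integral closure of a subalgebra `A ⊆ F`, as an `R`-subalgebra of `F`. -/
def icSub (A : Subalgebra R F) : Subalgebra R F :=
  (integralClosure A F).restrictScalars R

theorem mem_icSub {A : Subalgebra R F} {x : F} : x ∈ icSub A ↔ IsIntegral A x := Iff.rfl

theorem le_icSub (A : Subalgebra R F) : A ≤ icSub A := fun _ ha => isIntegral_of_mem ha

/-- A subalgebra generated by integral elements is integral. -/
theorem isIntegral_of_mem_adjoin {A : Subalgebra R F} {S : Set F}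
    (hS : ∀ x ∈ S, IsIntegral A x) {b : F} (hb : b ∈ Algebra.adjoin R S) : IsIntegral A b :=
  (Algebra.adjoin_le (S := icSub A) hS) hb

/-- Elements of `A[1/s]` are integral over `A'` as soon as `A` and `1/s` are. -/
theorem isIntegral_of_mem_locSub {A A' : Subalgebra R F} {s : F}
    (hA : ∀ a ∈ A, IsIntegral A' a) (hs : IsIntegral A' s⁻¹) {b : F} (hb : b ∈ locSub A s) :
    IsIntegral A' b :=
  isIntegral_of_mem_adjoin (A := A') (by
    rintro x (hx | hx)
    · exact hA x hx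
    · rw [Set.mem_singleton_iff] at hx
      rw [hx]
      exact hs) hb

/-- Both halves of `Mod.GoodRedAt` for the chart of `A`. -/
def GoodOn (V : Subring F) (w : F) (A : Subalgebra R F) : Prop :=
  QepOn V w A ∧ NormalOn V w A

theorem GoodOn.congr {V : Subring F} {w : F} {A A' : Subalgebra R F}
    (h : ∀ a ∈ A, IsIntegral A' a) (h' : ∀ a ∈ A', IsIntegral A a) (hg : GoodOn V w A) :
    GoodOn V w A' :=
  ⟨hg.1.congr h h', hg.2.congr h h'⟩

theorem GoodOn.of_le_of_le {V : Subring F} {w : F} {A A' : Subalgebra R F}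
    (h : A ≤ A') (h' : A' ≤ A) (hg : GoodOn V w A) : GoodOn V w A' :=
  hg.congr (fun _ ha => isIntegral_of_mem (h ha)) (fun _ ha => isIntegral_of_mem (h' ha))

theorem GoodOn.loc {V : Subring F} {w : F} {A : Subalgebra R F} (hg : GoodOn V w A) {s : F}
    (hsA : s ∈ A) (hs0 : s ≠ 0) (hsV : s ∈ V) (hsV' : s⁻¹ ∈ V) : GoodOn V w (locSub A s) :=
  ⟨hg.1.loc hsA hs0 hsV, hg.2.loc hsA hs0 hsV hsV'⟩

theorem GoodOn.glue {V : Subring F} {w : F} {A : Subalgebra R F} {s₁ s₂ α β : F}
    (hAV : ∀ a ∈ A, a ∈ V)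
    (hs₁ : s₁ ∈ A) (hs₂ : s₂ ∈ A) (hα : α ∈ A) (hβ : β ∈ A) (h1 : α * s₁ + β * s₂ = 1)
    (hg₁ : GoodOn V w (locSub A s₁)) (hg₂ : GoodOn V w (locSub A s₂)) : GoodOn V w A :=
  ⟨QepOn.glue hs₁ hs₂ hα hβ h1 hg₁.1 hg₂.1, NormalOn.glue hAV hs₁ hs₂ hα hβ h1 hg₁.2 hg₂.2⟩

/-- A subalgebra generated by elements of `V` lies in `V` (`V ⊇ R` a subring). -/
theorem adjoin_subset_subring {V : Subring F} (hRV : ∀ r : R, algebraMap R F r ∈ V) {S : Set F}
    (hS : ∀ x ∈ S, x ∈ V) : ∀ a ∈ Algebra.adjoin R S, a ∈ V := by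
  intro a ha
  induction ha using Algebra.adjoin_induction with
  | mem x hx => exact hS x hx
  | algebraMap r => exact hRV r
  | add x y _ _ hx hy => exact V.add_mem hx hy
  | mul x y _ _ hx hy => exact V.mul_mem hx hy

end Fermat.Agent.A2.Mod.H189

end
-- ===== PACK-END A2/Mod/H189/ChartChangeAux.lean

-- ===== PACK-BEGIN A2/T1/H849/Iota.lean
section





/-!
# A2 / T1 (helper849), part 1: the comparison map `ι : F_{N,E} → F̄_N`

`E ⊆ Q̄` an intermediate field, `F₀ ⊆ ℚ((t))` (in the application `modularFunctionFieldFull N`).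

* `iota E F₀ : laurentBaseChange E F₀ →+* laurentBaseChange Q̄ F₀` (coefficientwise inclusion),
  injective (`iota_injective`), `iota_algebraMap`.
* `resAut` : the restriction to `E` of an automorphism `τ` of `Q̄` with `τ E ⊆ E`, `τ⁻¹ E ⊆ E`.
* `iota_arithmeticRingAut` : `ι ∘ (τ|_E) = τ ∘ ι` on function fields.
* `exists_iota_eq` : every `f ∈ laurentBaseChange Q̄ F₀` is `ι y` for some `y` over any
  intermediate field `E` containing a suitable finite set of algebraic numbers.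
* `resRE` : the restriction of `τ` in the decomposition group of `P` to `R_E = P ∩ E`.
-/

set_option autoImplicit false

noncomputable section

namespace Fermat.Agent.A2.T1.H849

open ModularCurve AlgebraicCurve HahnSeries IntermediateField

/-- The field `ℚ̄`. -/
abbrev Qb : Type := AlgebraicClosure ℚ

variable (E : IntermediateField ℚ _root_.Fermat.Agent.A2.T1.H849.Qb) (F₀ : IntermediateField ℚ (LaurentSeries ℚ))

/-- The comparison map `ι : F_E → F̄` (inclusion of coefficients). -/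
def iota : laurentBaseChange E F₀ →+* laurentBaseChange _root_.Fermat.Agent.A2.T1.H849.Qb F₀ where
  toFun y := ⟨coeffMap (algebraMap E _root_.Fermat.Agent.A2.T1.H849.Qb) (y : LaurentSeries E),
    Fermat.Agent.S18.H602.coeffMap_mem_laurentBaseChange F₀ (algebraMap E _root_.Fermat.Agent.A2.T1.H849.Qb) y.2⟩
  map_one' := Subtype.ext (_root_.map_one (coeffMap (algebraMap E _root_.Fermat.Agent.A2.T1.H849.Qb)))
  map_mul' _ _ := Subtype.ext (_root_.map_mul (coeffMap (algebraMap E _root_.Fermat.Agent.A2.T1.H849.Qb)) _ _)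
  map_zero' := Subtype.ext (_root_.map_zero (coeffMap (algebraMap E _root_.Fermat.Agent.A2.T1.H849.Qb)))
  map_add' _ _ := Subtype.ext (_root_.map_add (coeffMap (algebraMap E _root_.Fermat.Agent.A2.T1.H849.Qb)) _ _)

@[simp]
theorem coe_iota (y : laurentBaseChange E F₀) :
    ((iota E F₀ y : laurentBaseChange _root_.Fermat.Agent.A2.T1.H849.Qb F₀) : LaurentSeries _root_.Fermat.Agent.A2.T1.H849.Qb) =
      coeffMap (algebraMap E _root_.Fermat.Agent.A2.T1.H849.Qb) (y : LaurentSeries E) := rfl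

theorem iota_injective : Function.Injective (iota E F₀) := (iota E F₀).injective

theorem iota_ne_zero {y : laurentBaseChange E F₀} (hy : y ≠ 0) : iota E F₀ y ≠ 0 := by
  intro h
  exact hy (iota_injective E F₀ (h.trans (_root_.map_zero _).symm))

theorem iota_algebraMap (e : E) :
    iota E F₀ (algebraMap E (laurentBaseChange E F₀) e) =
      algebraMap _root_.Fermat.Agent.A2.T1.H849.Qb (laurentBaseChange _root_.Fermat.Agent.A2.T1.H849.Qb F₀) (e : _root_.Fermat.Agent.A2.T1.H849.Qb) := by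
  apply Subtype.ext
  show coeffMap (algebraMap E _root_.Fermat.Agent.A2.T1.H849.Qb) (algebraMap E (LaurentSeries E) e) = _
  rw [Fermat.Agent.S18.H602.coeffMap_algebraMap']
  rfl

variable {E}

/-- The restriction to `E` of an automorphism of `ℚ̄` preserving `E`. -/
def resAut (τ : _root_.Fermat.Agent.A2.T1.H849.Qb ≃ₐ[ℚ] _root_.Fermat.Agent.A2.T1.H849.Qb) (h : ∀ e : _root_.Fermat.Agent.A2.T1.H849.Qb, e ∈ E → τ e ∈ E)
    (h' : ∀ e : _root_.Fermat.Agent.A2.T1.H849.Qb, e ∈ E → τ⁻¹ e ∈ E) : E ≃ₐ[ℚ] E :=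
  AlgEquiv.ofBijective
    { toFun := fun e => ⟨τ (e : _root_.Fermat.Agent.A2.T1.H849.Qb), h e e.2⟩
      map_one' := Subtype.ext (_root_.map_one τ)
      map_mul' := fun a b => Subtype.ext (_root_.map_mul τ (a : _root_.Fermat.Agent.A2.T1.H849.Qb) (b : _root_.Fermat.Agent.A2.T1.H849.Qb))
      map_zero' := Subtype.ext (_root_.map_zero τ)
      map_add' := fun a b => Subtype.ext (_root_.map_add τ (a : _root_.Fermat.Agent.A2.T1.H849.Qb) (b : _root_.Fermat.Agent.A2.T1.H849.Qb))
      commutes' := fun r => Subtype.ext (τ.commutes r) }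
    ⟨fun _ _ hab => Subtype.ext (τ.injective (congrArg Subtype.val hab)),
      fun b => ⟨⟨τ⁻¹ (b : _root_.Fermat.Agent.A2.T1.H849.Qb), h' b b.2⟩, Subtype.ext (τ.apply_symm_apply (b : _root_.Fermat.Agent.A2.T1.H849.Qb))⟩⟩

@[simp]
theorem coe_resAut (τ : _root_.Fermat.Agent.A2.T1.H849.Qb ≃ₐ[ℚ] _root_.Fermat.Agent.A2.T1.H849.Qb) (h : ∀ e : _root_.Fermat.Agent.A2.T1.H849.Qb, e ∈ E → τ e ∈ E)
    (h' : ∀ e : _root_.Fermat.Agent.A2.T1.H849.Qb, e ∈ E → τ⁻¹ e ∈ E) (e : E) :
    ((resAut τ h h' e : E) : _root_.Fermat.Agent.A2.T1.H849.Qb) = τ (e : _root_.Fermat.Agent.A2.T1.H849.Qb) := rfl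

/-- `ι` intertwines the arithmetic action of `τ_E` on `F_E` with that of `τ` on `F̄`, for any
automorphism `τ_E` of `E` compatible with `τ`. -/
theorem iota_arithmeticRingAut (τ : _root_.Fermat.Agent.A2.T1.H849.Qb ≃ₐ[ℚ] _root_.Fermat.Agent.A2.T1.H849.Qb) (τE : E ≃ₐ[ℚ] E)
    (hτ : ∀ e : E, ((τE e : E) : _root_.Fermat.Agent.A2.T1.H849.Qb) = τ (e : _root_.Fermat.Agent.A2.T1.H849.Qb)) (y : laurentBaseChange E F₀) :
    iota E F₀ (arithmeticRingAut F₀ τE y) = arithmeticRingAut F₀ τ (iota E F₀ y) := by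
  apply Subtype.ext
  show coeffMap (algebraMap E _root_.Fermat.Agent.A2.T1.H849.Qb) (coeffMap (τE : E →+* E) (y : LaurentSeries E)) =
    coeffMap (τ : _root_.Fermat.Agent.A2.T1.H849.Qb →+* _root_.Fermat.Agent.A2.T1.H849.Qb) (coeffMap (algebraMap E _root_.Fermat.Agent.A2.T1.H849.Qb) (y : LaurentSeries E))
  rw [coeffMap_coeffMap, coeffMap_coeffMap]
  exact coeffMap_congr (RingHom.ext fun e => hτ e) _

variable (E)

/-- Descent: every element of `F̄` comes from `F_E` as soon as `E` contains a suitable finite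
set of algebraic numbers. -/
theorem exists_finset_forall_exists_iota_eq (f : laurentBaseChange _root_.Fermat.Agent.A2.T1.H849.Qb F₀) :
    ∃ S : Finset _root_.Fermat.Agent.A2.T1.H849.Qb, ∀ E : IntermediateField ℚ _root_.Fermat.Agent.A2.T1.H849.Qb, (∀ s ∈ S, s ∈ E) →
      ∃ y : laurentBaseChange E F₀, iota E F₀ y = f := by
  obtain ⟨E₀, hfin, hdesc⟩ := Fermat.Agent.S18.H602.exists_finite_descent (F₀ := F₀) f.2
  have hfg : E₀.FG := IntermediateField.essFiniteType_iff.1 inferInstance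
  obtain ⟨S, hS⟩ := hfg
  refine ⟨S, fun E hE => ?_⟩
  have hle : E₀ ≤ E := by
    rw [← hS, IntermediateField.adjoin_le_iff]
    intro s hs
    exact hE s (Finset.mem_coe.1 hs)
  obtain ⟨y, hy, hyf⟩ := hdesc.mono hle
  exact ⟨⟨y, hy⟩, Subtype.ext hyf⟩

end Fermat.Agent.A2.T1.H849

end
end
-- ===== PACK-END A2/T1/H849/Iota.lean

-- ===== PACK-BEGIN A2/H609/Branch.lean
section




/-!
# Node purity, part 6: branches

Elementary facts on a discrete valuation ring `D` with a uniformiser `ϖ`, their translation to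
a prime `𝔭` of a local ring `R` with `R ⧸ 𝔭` a discrete valuation ring (a "branch"), and the
length of the chain `(z ^ n) + 𝔞`.  Mathlib only.
-/

set_option autoImplicit false

namespace Fermat.Agent.A2.H609

open Ideal

section DVRFacts

variable {D : Type*} [CommRing D] [IsDomain D]

/-- `ϖ ^ b ≠ ϖ ^ (b + 1) * g` for an irreducible `ϖ`. -/
theorem pow_ne_pow_succ_mul {ϖ : D} (hϖ : Irreducible ϖ) (b : ℕ) (g : D) :
    ϖ ^ b ≠ ϖ ^ (b + 1) * g := by
  intro h
  have h0 : ϖ ^ b ≠ 0 := pow_ne_zero _ hϖ.ne_zero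
  have h1 : ϖ ^ b * 1 = ϖ ^ b * (ϖ * g) := by
    rw [mul_one, ← _root_.mul_assoc, ← pow_succ]
    exact h
  have h2 := mul_left_cancel₀ h0 h1
  exact hϖ.not_isUnit (IsUnit.of_mul_eq_one g h2.symm)

variable [IsDiscreteValuationRing D]

/-- In a discrete valuation ring, a nonzero element associated to an `m`-th power is
`unit * ϖ ^ (m * a)`. -/
theorem exists_eq_unit_mul_pow_mul_of_associated_pow {ϖ : D} (hϖ : Irreducible ϖ) {m : ℕ}
    (hm : m ≠ 0) {v z : D} (hz : z ≠ 0) (h : Associated (v ^ m) z) :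
    ∃ (a : ℕ) (ε : Dˣ), z = ε * ϖ ^ (m * a) := by
  have hv : v ≠ 0 := by
    rintro rfl
    rw [zero_pow hm] at h
    exact hz (by simpa using h.symm.eq_zero_iff.mpr rfl)
  obtain ⟨a, ε₀, hv'⟩ := IsDiscreteValuationRing.eq_unit_mul_pow_irreducible hv hϖ
  obtain ⟨w, hw⟩ := h
  refine ⟨a, ε₀ ^ m * w, ?_⟩
  rw [← hw, hv']
  push_cast
  ring

/-- In a discrete valuation ring, `ϖ ^ (m * a + 1) ∣ z ^ m → ϖ ^ (a + 1) ∣ z`. -/
theorem pow_succ_dvd_of_pow_mul_succ_dvd_pow {ϖ : D} (hϖ : Irreducible ϖ) {m a : ℕ}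
    {z : D} (h : ϖ ^ (m * a + 1) ∣ z ^ m) : ϖ ^ (a + 1) ∣ z := by
  by_cases hz : z = 0
  · rw [hz]
    exact dvd_zero _
  obtain ⟨n, ε, hn⟩ := IsDiscreteValuationRing.eq_unit_mul_pow_irreducible hz hϖ
  have h1 : ϖ ^ (m * a + 1) ∣ ϖ ^ (n * m) := by
    have h2 : z ^ m = (ε ^ m : Dˣ) * ϖ ^ (n * m) := by
      rw [hn]
      push_cast
      ring
    rw [h2] at h
    exact (Units.dvd_mul_left).mp h
  have h3 : m * a + 1 ≤ n * m := (pow_dvd_pow_iff hϖ.ne_zero hϖ.not_isUnit).mp h1
  have h4 : a + 1 ≤ n := by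
    rcases Nat.lt_or_ge n (a + 1) with hcon | hcon
    · have h5 : n ≤ a := Nat.lt_succ_iff.mp hcon
      have h6 : n * m ≤ m * a := by
        rw [_root_.mul_comm n m]
        exact Nat.mul_le_mul_left m h5
      omega
    · exact hcon
  rw [hn]
  exact Dvd.dvd.mul_left (pow_dvd_pow ϖ h4) _

end DVRFacts

section Branch

variable {R : Type*} [CommRing R] [IsLocalRing R]
variable (𝔭 : Ideal R) [𝔭.IsPrime] [IsDiscreteValuationRing (R ⧸ 𝔭)]

/-- Non-units of `R` are divisible by a uniformiser modulo `𝔭`. -/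
theorem exists_sub_mul_mem_of_mem_maximalIdeal {x : R}
    (hx : Irreducible (Ideal.Quotient.mk 𝔭 x)) {s : R} (hs : s ∈ IsLocalRing.maximalIdeal R) :
    ∃ g : R, s - x * g ∈ 𝔭 := by
  have hloc : IsLocalHom (Ideal.Quotient.mk 𝔭) :=
    Function.Surjective.isLocalHom _ Ideal.Quotient.mk_surjective
  have h1 : ¬ IsUnit (Ideal.Quotient.mk 𝔭 s) := by
    intro h
    exact hs (IsLocalHom.map_nonunit s h)
  have h2 : Ideal.Quotient.mk 𝔭 s ∈ IsLocalRing.maximalIdeal (R ⧸ 𝔭) := h1
  rw [hx.maximalIdeal_eq, Ideal.mem_span_singleton] at h2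
  obtain ⟨c, hc⟩ := h2
  obtain ⟨g, rfl⟩ := Ideal.Quotient.mk_surjective c
  refine ⟨g, ?_⟩
  rw [← Ideal.Quotient.eq, hc, _root_.map_mul]

omit [IsLocalRing R] [IsDiscreteValuationRing (R ⧸ 𝔭)] in
/-- `x ^ b ∉ (x ^ (b + 1)) + 𝔭` for a uniformiser `x` modulo `𝔭`. -/
theorem pow_sub_pow_succ_mul_notMem {x : R}
    (hx : Irreducible (Ideal.Quotient.mk 𝔭 x)) (b : ℕ) (g : R) :
    x ^ b - x ^ (b + 1) * g ∉ 𝔭 := by
  intro h
  rw [← Ideal.Quotient.eq, _root_.map_mul, _root_.map_pow, _root_.map_pow] at h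
  exact pow_ne_pow_succ_mul hx b _ h

omit [IsLocalRing R] in
/-- The data `(a, ε)` with `u ≡ ε x ^ (m a)` modulo `𝔭` extracted from (H2). -/
theorem exists_mk_eq_unit_mul_pow {x : R}
    (hx : Irreducible (Ideal.Quotient.mk 𝔭 x)) {m : ℕ} (hm : m ≠ 0) {u : R} (hu : u ∉ 𝔭)
    (H2 : ∃ v : R ⧸ 𝔭, Associated (v ^ m) (Ideal.Quotient.mk 𝔭 u)) :
    ∃ (a : ℕ) (ε : (R ⧸ 𝔭)ˣ),
      Ideal.Quotient.mk 𝔭 u = ε * (Ideal.Quotient.mk 𝔭 x) ^ (m * a) := by
  obtain ⟨v, hv⟩ := H2
  have hu0 : Ideal.Quotient.mk 𝔭 u ≠ 0 := by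
    rwa [Ne, Ideal.Quotient.eq_zero_iff_mem]
  exact exists_eq_unit_mul_pow_mul_of_associated_pow hx hm hu0 hv

omit [IsLocalRing R] [IsDiscreteValuationRing (R ⧸ 𝔭)] [𝔭.IsPrime] in
/-- `x ^ (m a) ∈ (u) + 𝔭` if `u ≡ ε x ^ (m a)` modulo `𝔭`. -/
theorem exists_pow_sub_mul_mem {x u : R} {n : ℕ} {ε : (R ⧸ 𝔭)ˣ}
    (hu : Ideal.Quotient.mk 𝔭 u = ε * (Ideal.Quotient.mk 𝔭 x) ^ n) :
    ∃ e : R, x ^ n - u * e ∈ 𝔭 := by
  obtain ⟨e, he⟩ := Ideal.Quotient.mk_surjective ((ε⁻¹ : (R ⧸ 𝔭)ˣ) : R ⧸ 𝔭)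
  refine ⟨e, ?_⟩
  rw [← Ideal.Quotient.eq, _root_.map_mul, _root_.map_pow, he, hu]
  rw [_root_.mul_comm, ← _root_.mul_assoc, Units.inv_mul, one_mul]

/-- If `u ≡ ε x ^ (m a)` modulo `𝔭`, `f ^ m = u r` and `r` is not a unit, then
`f ∈ (x ^ (a + 1)) + 𝔭`. -/
theorem exists_sub_pow_succ_mul_mem {x : R}
    (hx : Irreducible (Ideal.Quotient.mk 𝔭 x)) {m a : ℕ} {u : R} {ε : (R ⧸ 𝔭)ˣ}
    (hu : Ideal.Quotient.mk 𝔭 u = ε * (Ideal.Quotient.mk 𝔭 x) ^ (m * a))
    {f r : R} (hf : f ^ m = u * r) (hr : r ∈ IsLocalRing.maximalIdeal R) :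
    ∃ g : R, f - x ^ (a + 1) * g ∈ 𝔭 := by
  obtain ⟨c, hc⟩ := exists_sub_mul_mem_of_mem_maximalIdeal 𝔭 hx hr
  rw [← Ideal.Quotient.eq, _root_.map_mul] at hc
  have h0 : (Ideal.Quotient.mk 𝔭 f) ^ m =
      Ideal.Quotient.mk 𝔭 u * Ideal.Quotient.mk 𝔭 r := by
    rw [← _root_.map_pow, hf, _root_.map_mul]
  have h1 : (Ideal.Quotient.mk 𝔭 x) ^ (m * a + 1) ∣ (Ideal.Quotient.mk 𝔭 f) ^ m := by
    rw [h0, hu, hc]
    refine ⟨ε * Ideal.Quotient.mk 𝔭 c, ?_⟩
    ring
  obtain ⟨d, hd⟩ := pow_succ_dvd_of_pow_mul_succ_dvd_pow hx h1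
  obtain ⟨g, rfl⟩ := Ideal.Quotient.mk_surjective d
  refine ⟨g, ?_⟩
  rw [← Ideal.Quotient.eq, hd, _root_.map_mul, _root_.map_pow]

end Branch

section PowChain

variable {R : Type*} [CommRing R]

/-- A nonzero relative quotient has length at least one. -/
theorem one_le_relLen_of_notMem {A B : Ideal R} {z : R} (hz : z ∈ B) (hzA : z ∉ A) :
    1 ≤ relLen A B := by
  rw [relLen, Order.one_le_iff_ne_zero, Ne, Module.length_eq_zero_iff]
  intro hsub
  apply hzA
  have h := hsub.elim (Submodule.Quotient.mk (⟨z, hz⟩ : B) : ↥B ⧸ A.submoduleOf B) 0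
  rw [Submodule.Quotient.mk_eq_zero] at h
  exact h

variable [IsLocalRing R]

/-- The residue field has length one. -/
theorem relLen_maximalIdeal :
    relLen (IsLocalRing.maximalIdeal R) (⊤ : Ideal R) = 1 := by
  rw [relLen_top, Module.length_eq_one_iff, isSimpleModule_iff_isCoatom]
  exact Ideal.isMaximal_def.mp (IsLocalRing.maximalIdeal.isMaximal R)

/-- A cyclic relative quotient killed by the maximal ideal has length at most one. -/
theorem relLen_le_one_of_kill {A B : Ideal R} {z : R} (hz : z ∈ B)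
    (hB : B ≤ Ideal.span {z} ⊔ A)
    (hkill : ∀ s ∈ IsLocalRing.maximalIdeal R, s * z ∈ A) : relLen A B ≤ 1 := by
  rw [← relLen_maximalIdeal (R := R)]
  refine relLen_le_of_map (LinearMap.mulRight R z) (N' := IsLocalRing.maximalIdeal R)
    (N := ⊤) (P' := A) (P := B) ?_ ?_ ?_
  · intro y _
    rw [LinearMap.mulRight_apply]
    exact B.mul_mem_left y hz
  · intro y hy
    rw [LinearMap.mulRight_apply]
    exact hkill y hy
  · intro b hb
    obtain ⟨c, hc, a, ha, rfl⟩ := Submodule.mem_sup.mp (hB hb)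
    obtain ⟨d, rfl⟩ := Ideal.mem_span_singleton'.mp hc
    refine ⟨d, trivial, ?_⟩
    rw [LinearMap.mulRight_apply, add_sub_cancel_left]
    exact ha

/-- One step of the power chain has length one. -/
theorem relLen_pow_step (𝔭 : Ideal R) [𝔭.IsPrime] {z : R}
    (hz : Irreducible (Ideal.Quotient.mk 𝔭 z)) (𝔞 : Ideal R) (h𝔞 : 𝔞 ≤ 𝔭) (n : ℕ)
    (hkill : ∀ s ∈ IsLocalRing.maximalIdeal R, s * z ^ n ∈ Ideal.span {z ^ (n + 1)} ⊔ 𝔞) :
    relLen (Ideal.span {z ^ (n + 1)} ⊔ 𝔞) (Ideal.span {z ^ n} ⊔ 𝔞) = 1 := by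
  have hzB : z ^ n ∈ Ideal.span {z ^ n} ⊔ 𝔞 :=
    Ideal.mem_sup_left (Ideal.mem_span_singleton_self _)
  apply le_antisymm
  · refine relLen_le_one_of_kill hzB ?_ hkill
    refine sup_le le_sup_left ?_
    exact le_sup_of_le_right le_sup_right
  · refine one_le_relLen_of_notMem hzB ?_
    intro hmem
    obtain ⟨c, hc, a, ha, hca⟩ := Submodule.mem_sup.mp hmem
    obtain ⟨g, rfl⟩ := Ideal.mem_span_singleton'.mp hc
    refine pow_sub_pow_succ_mul_notMem 𝔭 hz n g ?_
    have : z ^ n - z ^ (n + 1) * g = a := by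
      rw [← hca]
      ring
    rw [this]
    exact h𝔞 ha

/-- The power chain: `ℓ(((z ^ n₀) + 𝔞) / ((z ^ (n₀ + k)) + 𝔞)) = k`. -/
theorem relLen_pow_chain (𝔭 : Ideal R) [𝔭.IsPrime] {z : R}
    (hz : Irreducible (Ideal.Quotient.mk 𝔭 z)) (𝔞 : Ideal R) (h𝔞 : 𝔞 ≤ 𝔭) (n₀ : ℕ)
    (hkill : ∀ n, n₀ ≤ n → ∀ s ∈ IsLocalRing.maximalIdeal R,
      s * z ^ n ∈ Ideal.span {z ^ (n + 1)} ⊔ 𝔞) (k : ℕ) :
    relLen (Ideal.span {z ^ (n₀ + k)} ⊔ 𝔞) (Ideal.span {z ^ n₀} ⊔ 𝔞) = k := by
  have hmono : ∀ i j : ℕ, i ≤ j → Ideal.span {z ^ j} ⊔ 𝔞 ≤ Ideal.span {z ^ i} ⊔ 𝔞 := by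
    intro i j hij
    refine sup_le_sup_right ?_ _
    rw [Ideal.span_singleton_le_span_singleton]
    exact pow_dvd_pow z hij
  induction k with
  | zero =>
    rw [add_zero, relLen_self]
    rfl
  | succ k ih =>
    rw [relLen_add (hmono (n₀ + k) (n₀ + (k + 1)) (by omega)) (hmono n₀ (n₀ + k) (by omega)), ih,
      ← add_assoc, relLen_pow_step 𝔭 hz 𝔞 h𝔞 (n₀ + k) (hkill _ (by omega))]
    push_cast
    rw [add_comm]

end PowChain

end Fermat.Agent.A2.H609

end
-- ===== PACK-END A2/H609/Branch.lean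

-- ===== PACK-BEGIN Ribet/H552/ASUnram.lean
section



/-!
# RIBET wall-p, leaf W-ALGP / GLUE-p (helper552): wild cyclic covers `y ^ p = 1 + λ ^ p w t` are
unramified

`K ⊆ Ω` fields, `V` a valuation subring of `K` with uniformiser `w` (`w` generates the non-units
of `V` and `K = V[1/w]`), `ζ ∈ K` a primitive `p`-th root of unity (`p` prime, ANY residue
characteristic, in the application the residue characteristic is `p`), `λ = ζ - 1`,
`Ω = K[z]` with `z ^ p = 1 + λ ^ p w t`, `t ∈ V`.  Let `W` be ANY valuation subring of `Ω`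
containing `V` in which `w` is not a unit.  Then

* `z = ζ ^ j (1 + λ w s)` with `s ∈ W`;
* `W = V[s]`, `V[s] = V + w V[s]`;
* hence `𝔪_W = w W` (`e = 1`) and `W = V + w W` (`f = 1`): `as_unramified`.

This is the Artin–Schreier form of `A2.H552.kummer_unramified`: with `z = ζ ^ j (1 + λ Y)` the
equation becomes `Y ^ p - Y ≡ w t` modulo `λ`.  No Galois theory, no étale/Dedekind API, no
completeness.  `unramified_of_adjoin_decomp` is the common abstract core.
-/

set_option autoImplicit false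

namespace Fermat.Agent.Ribet.H552

open Polynomial
open Fermat.Agent.A2.H552 (valuation_lt_one_of_inv_notMem eq_one_of_pow_eq_one₀)

section Abstract

variable {K Ω : Type*} [Field K] [Field Ω] [Algebra K Ω]

/-- **Abstract core.**  `W ⊇ V` valuation subrings, `w` a uniformiser of `V`, `K = V[1/w]`,
`w` a non-unit of `W`; `s ∈ W` with `s ∈ V + w V[s]` and `Ω = K[z]`, `z ∈ V[s]`.  Then
`W = V[s]` is unramified over `V` with trivial residue extension. -/
theorem unramified_of_adjoin_decomp (V : ValuationSubring K) (W : ValuationSubring Ω)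
    (hVW : ∀ a ∈ V, algebraMap K Ω a ∈ W)
    (w : K) (hwV : w ∈ V) (hw0 : w ≠ 0) (hwW : (algebraMap K Ω w)⁻¹ ∉ W)
    (hVgen : ∀ a ∈ V, a⁻¹ ∉ V → a * w⁻¹ ∈ V)
    (hdisc : ∀ c : K, ∃ k : ℕ, w ^ k * c ∈ V)
    (s : Ω) (hsW : s ∈ W)
    (hsdec : ∃ a₀ ∈ V, ∃ a' ∈ Subring.closure (algebraMap K Ω '' (V : Set K) ∪ {s}),
      s = algebraMap K Ω a₀ + algebraMap K Ω w * a')
    (z : Ω) (hzA : z ∈ Subring.closure (algebraMap K Ω '' (V : Set K) ∪ {s}))
    (hgen : ∀ b : Ω, b ∈ Algebra.adjoin K ({z} : Set Ω)) :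
    (∀ b ∈ W, b⁻¹ ∉ W → b * (algebraMap K Ω w)⁻¹ ∈ W) ∧
    (∀ b ∈ W, ∃ a ∈ V, (b - algebraMap K Ω a) * (algebraMap K Ω w)⁻¹ ∈ W) := by
  classical
  set φ := algebraMap K Ω with hφ
  set v := W.valuation with hv
  have hφinj : Function.Injective φ := (algebraMap K Ω).injective
  have hφw0 : φ w ≠ 0 := fun h => hw0 (hφinj (by rw [h, _root_.map_zero]))
  have hvV : ∀ a ∈ V, v (φ a) ≤ 1 := fun a ha => (W.valuation_le_one_iff _).mpr (hVW a ha)
  have hvw : v (φ w) < 1 := valuation_lt_one_of_inv_notMem W hwW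
  have hunitV : ∀ a ∈ V, a⁻¹ ∈ V → a ≠ 0 → v (φ a) = 1 := by
    intro a ha hai ha0
    have h1 := hvV a ha
    have h2 := hvV _ hai
    rw [map_inv₀, map_inv₀] at h2
    have hpos : 0 < v (φ a) := by
      rw [pos_iff_ne_zero]
      exact (Valuation.ne_zero_iff _).mpr (fun h => ha0 (hφinj (by rw [h, _root_.map_zero])))
    exact le_antisymm h1 ((inv_le_one₀ hpos).mp h2)
  -- the subring `A = V[s]`
  set A : Subring Ω := Subring.closure (φ '' (V : Set K) ∪ {s}) with hA
  have hVA : ∀ a ∈ V, φ a ∈ A := fun a ha =>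
    Subring.subset_closure (Or.inl ⟨a, ha, rfl⟩)
  have hwA : φ w ∈ A := hVA w hwV
  have hAW : ∀ a ∈ A, v a ≤ 1 := by
    intro a ha
    have hle : A ≤ W.toSubring := by
      rw [hA, Subring.closure_le]
      rintro x (⟨a, ha, rfl⟩ | hx)
      · exact hVW a ha
      · rw [Set.mem_singleton_iff] at hx
        rw [hx]
        exact hsW
    exact (W.valuation_le_one_iff _).mpr (hle ha)
  -- `A = V + w A`
  have hdec : ∀ a ∈ A, ∃ a₀ ∈ V, ∃ a' ∈ A, a = φ a₀ + φ w * a' := by
    intro a ha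
    induction ha using Subring.closure_induction with
    | mem x hx =>
      rcases hx with ⟨a₀, ha₀, rfl⟩ | hx
      · exact ⟨a₀, ha₀, 0, A.zero_mem, by simp⟩
      · rw [Set.mem_singleton_iff] at hx
        subst hx
        exact hsdec
    | zero => exact ⟨0, zero_mem V, 0, A.zero_mem, by simp⟩
    | one => exact ⟨1, one_mem V, 0, A.zero_mem, by simp⟩
    | add x y hx hy ihx ihy =>
      obtain ⟨x₀, hx₀, x', hx', rfl⟩ := ihx
      obtain ⟨y₀, hy₀, y', hy', rfl⟩ := ihy
      exact ⟨x₀ + y₀, add_mem hx₀ hy₀, x' + y', A.add_mem hx' hy', by rw [_root_.map_add]; ring⟩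
    | neg x hx ihx =>
      obtain ⟨x₀, hx₀, x', hx', rfl⟩ := ihx
      exact ⟨-x₀, neg_mem hx₀, -x', A.neg_mem hx', by rw [_root_.map_neg]; ring⟩
    | mul x y hx hy ihx ihy =>
      obtain ⟨x₀, hx₀, x', hx', rfl⟩ := ihx
      obtain ⟨y₀, hy₀, y', hy', rfl⟩ := ihy
      refine ⟨x₀ * y₀, mul_mem hx₀ hy₀, φ x₀ * y' + x' * φ y₀ + φ w * x' * y', ?_, ?_⟩
      · exact A.add_mem (A.add_mem (A.mul_mem (hVA _ hx₀) hy') (A.mul_mem hx' (hVA _ hy₀)))
          (A.mul_mem (A.mul_mem hwA hx') hy')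
      · rw [_root_.map_mul]; ring
  -- non-units of `A` are divisible by `w`
  have hdiv : ∀ a ∈ A, v a < 1 → ∃ a' ∈ A, a = φ w * a' := by
    intro a ha hva
    obtain ⟨a₀, ha₀, a', ha', rfl⟩ := hdec a ha
    have h1 : v (φ w * a') < 1 := by
      rw [_root_.map_mul]
      calc v (φ w) * v a' ≤ v (φ w) * 1 := by gcongr; exact hAW a' ha'
        _ = v (φ w) := mul_one _
        _ < 1 := hvw
    have h2 : v (φ a₀) < 1 := by
      have : φ a₀ = (φ a₀ + φ w * a') - φ w * a' := by ring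
      rw [this]
      exact Valuation.map_sub_lt _ hva h1
    have h3 : a₀ * w⁻¹ ∈ V := by
      by_cases h0 : a₀ = 0
      · rw [h0, zero_mul]; exact zero_mem V
      refine hVgen a₀ ha₀ fun hinv => ?_
      have := hunitV a₀ ha₀ hinv h0
      rw [this] at h2
      exact lt_irrefl _ h2
    refine ⟨φ (a₀ * w⁻¹) + a', A.add_mem (hVA _ h3) ha', ?_⟩
    rw [mul_add, ← _root_.map_mul, mul_comm a₀, ← mul_assoc, mul_inv_cancel₀ hw0, one_mul]
  -- `Ω = A[1/w]`
  have hloc : ∀ b : Ω, ∃ k : ℕ, φ w ^ k * b ∈ A := by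
    intro b
    induction hgen b using Algebra.adjoin_induction with
    | mem x hx =>
      rw [Set.mem_singleton_iff] at hx
      rw [hx]
      refine ⟨0, ?_⟩
      rw [pow_zero, one_mul]
      exact hzA
    | algebraMap c =>
      obtain ⟨k, hk⟩ := hdisc c
      refine ⟨k, ?_⟩
      rw [← hφ, ← _root_.map_pow, ← _root_.map_mul]
      exact hVA _ hk
    | add x y _ _ ihx ihy =>
      obtain ⟨k₁, h₁⟩ := ihx
      obtain ⟨k₂, h₂⟩ := ihy
      refine ⟨k₁ + k₂, ?_⟩
      have : φ w ^ (k₁ + k₂) * (x + y) = φ w ^ k₂ * (φ w ^ k₁ * x) + φ w ^ k₁ * (φ w ^ k₂ * y) := by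
        rw [pow_add]; ring
      rw [this]
      exact A.add_mem (A.mul_mem (A.pow_mem hwA _) h₁) (A.mul_mem (A.pow_mem hwA _) h₂)
    | mul x y _ _ ihx ihy =>
      obtain ⟨k₁, h₁⟩ := ihx
      obtain ⟨k₂, h₂⟩ := ihy
      refine ⟨k₁ + k₂, ?_⟩
      have : φ w ^ (k₁ + k₂) * (x * y) = (φ w ^ k₁ * x) * (φ w ^ k₂ * y) := by
        rw [pow_add]; ring
      rw [this]
      exact A.mul_mem h₁ h₂
  -- `W ⊆ A`
  have hWA : ∀ b : Ω, v b ≤ 1 → b ∈ A := by
    intro b hb
    have hex := hloc b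
    have hk : Nat.find hex = 0 := by
      by_contra hne
      obtain ⟨k, hk⟩ : ∃ k, Nat.find hex = k + 1 := ⟨Nat.find hex - 1, by omega⟩
      have hmem := Nat.find_spec hex
      rw [hk] at hmem
      have hlt : v (φ w ^ (k + 1) * b) < 1 := by
        rw [_root_.map_mul, _root_.map_pow, pow_succ]
        calc v (φ w) ^ k * v (φ w) * v b ≤ 1 * v (φ w) * 1 := by
              gcongr
              exact pow_le_one₀ zero_le hvw.le
          _ = v (φ w) := by rw [one_mul, mul_one]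
          _ < 1 := hvw
      obtain ⟨a', ha', h'⟩ := hdiv _ hmem hlt
      have : φ w ^ k * b = a' := by
        have h6 : φ w * (φ w ^ k * b) = φ w * a' := by rw [← h', pow_succ]; ring
        exact mul_left_cancel₀ hφw0 h6
      have hmin := Nat.find_min hex (m := k) (by omega)
      exact hmin (this ▸ ha')
    have := Nat.find_spec hex
    rwa [hk, pow_zero, one_mul] at this
  refine ⟨fun b hbW hbinv => ?_, fun b hbW => ?_⟩
  · have hb1 : v b < 1 := valuation_lt_one_of_inv_notMem W hbinv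
    obtain ⟨a', ha', h'⟩ := hdiv b (hWA b hb1.le) hb1
    rw [h', mul_comm (φ w), mul_assoc, mul_inv_cancel₀ hφw0, mul_one]
    exact (W.valuation_le_one_iff _).mp (hAW a' ha')
  · obtain ⟨a₀, ha₀, a', ha', h'⟩ := hdec b (hWA b ((W.valuation_le_one_iff _).mpr hbW))
    refine ⟨a₀, ha₀, ?_⟩
    rw [h', add_sub_cancel_left, mul_comm (φ w), mul_assoc, mul_inv_cancel₀ hφw0, mul_one]
    exact (W.valuation_le_one_iff _).mp (hAW a' ha')

end Abstract

section Roots

variable {K : Type*} [Field K]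

/-- The geometric sum `1 + ζ + ⋯ + ζ ^ (j - 1) = (ζ ^ j - 1) / (ζ - 1)`. -/
noncomputable def geomU (ζ : K) (j : ℕ) : K := ∑ l ∈ Finset.range j, ζ ^ l

theorem geomU_mul (ζ : K) (j : ℕ) : geomU ζ j * (ζ - 1) = ζ ^ j - 1 := geom_sum_mul ζ j

theorem geomU_mem (V : ValuationSubring K) {ζ : K} (hζV : ζ ∈ V) (j : ℕ) : geomU ζ j ∈ V :=
  sum_mem fun l _ => pow_mem hζV l

/-- Cyclotomic units: `(ζ ^ j - 1) / (ζ - 1)` is invertible, with inverse a geometric sum. -/
theorem exists_geomU_inv {p : ℕ} (hp : p.Prime) {ζ : K} (hζ : IsPrimitiveRoot ζ p) {j : ℕ}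
    (hj0 : 0 < j) (hjp : j < p) : ∃ j' : ℕ, geomU ζ j * geomU (ζ ^ j) j' = 1 := by
  have hcop : Nat.Coprime j p := (Nat.coprime_of_lt_prime hj0.ne' hjp hp).symm
  obtain ⟨j', -, hj'⟩ := Nat.exists_mul_mod_eq_one_of_coprime hcop hp.one_lt
  refine ⟨j', ?_⟩
  have hlam : ζ - 1 ≠ 0 := sub_ne_zero.2 (hζ.ne_one hp.one_lt)
  have h1 := geomU_mul ζ j
  have h2 := geomU_mul (ζ ^ j) j'
  have h3 : (ζ ^ j) ^ j' = ζ := by
    rw [← pow_mul, pow_eq_pow_mod (j * j') hζ.pow_eq_one, hj', pow_one]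
  rw [h3, ← h1] at h2
  apply mul_right_cancel₀ hlam
  rw [one_mul]
  linear_combination h2

/-- `x ^ p - 1 = ∏_{k < p} (x - ζ ^ k)`. -/
theorem prod_range_sub_pow {p : ℕ} (hp : 0 < p) {ζ : K} (hζ : IsPrimitiveRoot ζ p) (x : K) :
    ∏ k ∈ Finset.range p, (x - ζ ^ k) = x ^ p - 1 := by
  classical
  have h := congrArg (eval x) (X_pow_sub_one_eq_prod hp hζ)
  simp only [eval_sub, eval_pow, eval_X, eval_one, eval_prod, eval_C] at h
  rw [h]
  have : NeZero p := ⟨hp.ne'⟩
  refine Finset.prod_nbij (fun k => ζ ^ k) ?_ ?_ ?_ ?_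
  · intro k _
    rw [mem_nthRootsFinset hp, ← pow_mul, mul_comm, pow_mul, hζ.pow_eq_one, one_pow]
  · intro a ha b hb hab
    exact hζ.pow_inj (Finset.mem_range.1 ha) (Finset.mem_range.1 hb) hab
  · intro η hη
    rw [Finset.mem_coe, mem_nthRootsFinset hp] at hη
    obtain ⟨i, hi, rfl⟩ := hζ.eq_pow_of_pow_eq_one hη
    exact ⟨i, Finset.mem_coe.2 (Finset.mem_range.2 hi), rfl⟩
  · intro k _
    rfl

end Roots

section ASUnram

variable {K Ω : Type*} [Field K] [Field Ω] [Algebra K Ω]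

/-- **Wild cyclic covers `z ^ p = 1 + (ζ - 1) ^ p w t` are unramified with trivial residue
extension** at every valuation subring `W` over `V`. -/
theorem as_unramified (V : ValuationSubring K) (W : ValuationSubring Ω)
    (hVW : ∀ a ∈ V, algebraMap K Ω a ∈ W)
    (w : K) (hwV : w ∈ V) (hw0 : w ≠ 0) (hwW : (algebraMap K Ω w)⁻¹ ∉ W)
    (hVgen : ∀ a ∈ V, a⁻¹ ∉ V → a * w⁻¹ ∈ V)
    (hdisc : ∀ c : K, ∃ k : ℕ, w ^ k * c ∈ V)
    (p : ℕ) (hp : p.Prime)
    (ζ : K) (hζ : IsPrimitiveRoot ζ p)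
    (t : K) (ht : t ∈ V) (z : Ω) (hz : z ^ p = algebraMap K Ω (1 + (ζ - 1) ^ p * w * t))
    (hgen : ∀ b : Ω, b ∈ Algebra.adjoin K ({z} : Set Ω)) :
    (∀ b ∈ W, b⁻¹ ∉ W → b * (algebraMap K Ω w)⁻¹ ∈ W) ∧
    (∀ b ∈ W, ∃ a ∈ V, (b - algebraMap K Ω a) * (algebraMap K Ω w)⁻¹ ∈ W) := by
  classical
  have hp0 : 0 < p := hp.pos
  set φ := algebraMap K Ω with hφ
  set v := W.valuation with hv
  have hφinj : Function.Injective φ := (algebraMap K Ω).injective
  have hφw0 : φ w ≠ 0 := fun h => hw0 (hφinj (by rw [h, _root_.map_zero]))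
  have hvV : ∀ a ∈ V, v (φ a) ≤ 1 := fun a ha => (W.valuation_le_one_iff _).mpr (hVW a ha)
  have hvw : v (φ w) < 1 := valuation_lt_one_of_inv_notMem W hwW
  have hunitV : ∀ a ∈ V, a⁻¹ ∈ V → a ≠ 0 → v (φ a) = 1 := by
    intro a ha hai ha0
    have h1 := hvV a ha
    have h2 := hvV _ hai
    rw [map_inv₀, map_inv₀] at h2
    have hpos : 0 < v (φ a) := by
      rw [pos_iff_ne_zero]
      exact (Valuation.ne_zero_iff _).mpr (fun h => ha0 (hφinj (by rw [h, _root_.map_zero])))
    exact le_antisymm h1 ((inv_le_one₀ hpos).mp h2)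
  -- the root of unity
  have hζp : ζ ^ p = 1 := hζ.pow_eq_one
  have hζV : ζ ∈ V := by
    rcases V.mem_or_inv_mem ζ with h | h
    · exact h
    · have h1 : (ζ⁻¹) ^ p = 1 := by rw [inv_pow, hζp, inv_one]
      have h2 := Fermat.Agent.A2.H552.inv_eq_pow_of_pow_eq_one hp0 h1
      rw [inv_inv] at h2
      rw [h2]
      exact pow_mem h _
  have hζ' : IsPrimitiveRoot (φ ζ) p := hζ.map_of_injective hφinj
  have hvζ : v (φ ζ) = 1 := by
    have h1 : v (φ ζ) ^ p = 1 := by rw [← _root_.map_pow, ← _root_.map_pow, hζp, _root_.map_one, _root_.map_one]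
    exact eq_one_of_pow_eq_one₀ hp0.ne' h1
  set lam : K := ζ - 1 with hlam
  have hlam0 : lam ≠ 0 := sub_ne_zero.2 (hζ.ne_one hp.one_lt)
  have hφlam0 : φ lam ≠ 0 := fun h => hlam0 (hφinj (by rw [h, _root_.map_zero]))
  have hvlam0 : v (φ lam) ≠ 0 := (Valuation.ne_zero_iff _).mpr hφlam0
  have hvlampos : 0 < v (φ lam) := zero_lt_iff.2 hvlam0
  -- cyclotomic units
  have hu : ∀ j, 0 < j → j < p → v (φ (geomU ζ j)) = 1 := by
    intro j hj0 hjp
    obtain ⟨j', hj'⟩ := exists_geomU_inv hp hζ hj0 hjp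
    refine hunitV _ (geomU_mem V hζV j) ?_ (left_ne_zero_of_mul_eq_one hj')
    rw [inv_eq_of_mul_eq_one_right hj']
    exact geomU_mem V (pow_mem hζV j) j'
  have hugeom : ∀ k, φ (geomU ζ k) * φ lam = φ ζ ^ k - 1 := by
    intro k
    rw [← _root_.map_mul, geomU_mul, _root_.map_sub, _root_.map_pow, _root_.map_one]
  have hroot : ∀ j, 0 < j → j < p → v (φ ζ ^ j - 1) = v (φ lam) := by
    intro j hj0 hjp
    rw [← hugeom j, _root_.map_mul, hu j hj0 hjp, one_mul]
  -- the product formula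
  have hprod : ∀ x : Ω, ∏ k ∈ Finset.range p, (x - φ ζ ^ k) = x ^ p - 1 :=
    prod_range_sub_pow hp0 hζ'
  have hzp : z ^ p - 1 = φ lam ^ p * φ w * φ t := by
    rw [hz, _root_.map_add, _root_.map_one, _root_.map_mul, _root_.map_mul, _root_.map_pow]
    ring
  have hvwt : v (φ w) * v (φ t) < 1 :=
    calc v (φ w) * v (φ t) ≤ v (φ w) * 1 := by gcongr; exact hvV t ht
      _ = v (φ w) := mul_one _
      _ < 1 := hvw
  have hvzp : v (z ^ p - 1) < v (φ lam) ^ p := by
    rw [hzp, _root_.map_mul, _root_.map_mul, _root_.map_pow, mul_assoc]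
    calc v (φ lam) ^ p * (v (φ w) * v (φ t)) < v (φ lam) ^ p * 1 :=
          mul_lt_mul_of_pos_left hvwt (pow_pos hvlampos p)
      _ = v (φ lam) ^ p := mul_one _
  -- some root of unity is close to `z`
  obtain ⟨k₀, hk₀, hzk₀⟩ : ∃ k₀ < p, v (z - φ ζ ^ k₀) < v (φ lam) := by
    by_contra hcon
    simp only [not_exists, not_and, not_lt] at hcon
    have h1 : v (φ lam) ^ p ≤ v (z ^ p - 1) := by
      rw [← hprod z, _root_.map_prod]
      have := Finset.pow_card_le_prod (Finset.range p) (fun k => v (z - φ ζ ^ k)) (v (φ lam))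
        (fun k hk => hcon k (Finset.mem_range.1 hk))
      rwa [Finset.card_range] at this
    exact absurd hvzp (not_lt.2 h1)
  -- normalise
  set η := φ ζ ^ k₀ with hη
  have hvη : v η = 1 := by rw [hη, _root_.map_pow, hvζ, one_pow]
  have hη0 : η ≠ 0 := by
    intro h
    rw [h, _root_.map_zero] at hvη
    exact zero_ne_one hvη
  have hηp : η ^ p = 1 := by
    rw [hη, ← pow_mul, mul_comm, pow_mul, hζ'.pow_eq_one, one_pow]
  set z₁ := z * η⁻¹ with hz₁
  have hz₁p : z₁ ^ p - 1 = φ lam ^ p * φ w * φ t := by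
    rw [hz₁, mul_pow, inv_pow, hηp, inv_one, mul_one, hzp]
  have hvz₁ : v (z₁ - 1) < v (φ lam) := by
    have : z₁ - 1 = (z - η) * η⁻¹ := by
      rw [hz₁, sub_mul, mul_inv_cancel₀ hη0]
    rw [this, _root_.map_mul, map_inv₀, hvη, inv_one, mul_one]
    exact hzk₀
  have hfac : ∀ k, 0 < k → k < p → v (z₁ - φ ζ ^ k) = v (φ lam) := by
    intro k hk0 hkp
    have : z₁ - φ ζ ^ k = (z₁ - 1) - (φ ζ ^ k - 1) := by ring
    rw [this, Valuation.map_sub_eq_of_lt_right]
    · exact hroot k hk0 hkp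
    · rw [hroot k hk0 hkp]
      exact hvz₁
  -- the generator `s`
  set s := (z₁ - 1) * (φ lam * φ w)⁻¹ with hs
  have hz₁s : z₁ - 1 = φ lam * φ w * s := by
    rw [hs, mul_comm (z₁ - 1), ← mul_assoc, mul_inv_cancel₀ (mul_ne_zero hφlam0 hφw0), one_mul]
  have hfacs : ∀ k, z₁ - φ ζ ^ k = φ lam * (φ w * s - φ (geomU ζ k)) := by
    intro k
    linear_combination hz₁s + hugeom k
  set PP := ∏ k ∈ Finset.Ico 1 p, (φ w * s - φ (geomU ζ k)) with hPP
  have hsplit : z₁ ^ p - 1 = φ lam ^ p * φ w * (s * PP) := by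
    rw [← hprod z₁, Finset.range_eq_Ico, Finset.prod_eq_prod_Ico_succ_bot hp0]
    have h0 : z₁ - φ ζ ^ 0 = φ lam * φ w * s := by rw [pow_zero, hz₁s]
    rw [h0, Finset.prod_congr rfl (fun k _ => hfacs k), Finset.prod_mul_distrib,
      Finset.prod_const, Nat.card_Ico, ← hPP]
    have hpp : p = (p - 1) + 1 := by omega
    have : φ lam ^ p = φ lam ^ (p - 1) * φ lam := by
      conv_lhs => rw [hpp]
      rw [pow_succ]
    rw [this]
    ring
  have hsPP : s * PP = φ t := by
    have h1 : φ lam ^ p * φ w * (s * PP) = φ lam ^ p * φ w * φ t := by rw [← hsplit, hz₁p]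
    exact mul_left_cancel₀ (mul_ne_zero (pow_ne_zero p hφlam0) hφw0) h1
  have hvPP : v PP = 1 := by
    rw [hPP, _root_.map_prod]
    refine Finset.prod_eq_one fun k hk => ?_
    rw [Finset.mem_Ico] at hk
    have h1 := hfac k (by omega) hk.2
    rw [hfacs k, _root_.map_mul] at h1
    have h2 : v (φ lam) * v (φ w * s - φ (geomU ζ k)) = v (φ lam) * 1 := by rw [h1, mul_one]
    exact mul_left_cancel₀ hvlam0 h2
  have hPP0 : PP ≠ 0 := by
    intro h
    rw [h, _root_.map_zero] at hvPP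
    exact zero_ne_one hvPP
  have hsW : s ∈ W := by
    rw [← W.valuation_le_one_iff]
    have : s = φ t * PP⁻¹ := by
      rw [← hsPP, mul_assoc, mul_inv_cancel₀ hPP0, mul_one]
    rw [this, _root_.map_mul, map_inv₀, hvPP, inv_one, mul_one]
    exact hvV t ht
  -- the subring `A = V[s]`
  set A : Subring Ω := Subring.closure (φ '' (V : Set K) ∪ {s}) with hA
  have hVA : ∀ a ∈ V, φ a ∈ A := fun a ha =>
    Subring.subset_closure (Or.inl ⟨a, ha, rfl⟩)
  have hsA : s ∈ A := Subring.subset_closure (Or.inr rfl)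
  have hwA : φ w ∈ A := hVA w hwV
  -- `PP ∈ (unit of V) + w A`
  have hPPdec : ∀ S : Finset ℕ, (∀ k ∈ S, 0 < k ∧ k < p) →
      ∃ U ∈ V, U⁻¹ ∈ V ∧ U ≠ 0 ∧ ∃ a ∈ A,
        ∏ k ∈ S, (φ w * s - φ (geomU ζ k)) = φ U + φ w * a := by
    intro S
    induction S using Finset.induction_on with
    | empty =>
      intro _
      exact ⟨1, one_mem V, by rw [inv_one]; exact one_mem V, one_ne_zero, 0, A.zero_mem, by simp⟩
    | insert k S hkS ih =>
      intro hS
      obtain ⟨U, hU, hUi, hU0, a, ha, hprodS⟩ := ih fun k' hk' => hS k' (Finset.mem_insert_of_mem hk')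
      obtain ⟨hk0, hkp⟩ := hS k (Finset.mem_insert_self k S)
      obtain ⟨j', hj'⟩ := exists_geomU_inv hp hζ hk0 hkp
      have hgV : geomU ζ k ∈ V := geomU_mem V hζV k
      have hgi : (geomU ζ k)⁻¹ ∈ V := by
        rw [inv_eq_of_mul_eq_one_right hj']
        exact geomU_mem V (pow_mem hζV k) j'
      have hg0 : geomU ζ k ≠ 0 := left_ne_zero_of_mul_eq_one hj'
      refine ⟨-(geomU ζ k) * U, mul_mem (neg_mem hgV) hU, ?_, mul_ne_zero (neg_ne_zero.2 hg0) hU0,
        s * φ U + (φ w * s - φ (geomU ζ k)) * a, ?_, ?_⟩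
      · rw [mul_inv, inv_neg]
        exact mul_mem (neg_mem hgi) hUi
      · exact A.add_mem (A.mul_mem hsA (hVA U hU))
          (A.mul_mem (A.sub_mem (A.mul_mem hwA hsA) (hVA _ hgV)) ha)
      · rw [Finset.prod_insert hkS, hprodS, _root_.map_mul, _root_.map_neg]
        ring
  obtain ⟨U, hU, hUi, hU0, a, ha, hPPU⟩ := hPPdec (Finset.Ico 1 p) fun k hk => by
    rw [Finset.mem_Ico] at hk
    exact ⟨by omega, hk.2⟩
  rw [← hPP] at hPPU
  have hφU : φ U * φ U⁻¹ = 1 := by rw [← _root_.map_mul, mul_inv_cancel₀ hU0, _root_.map_one]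
  have hsdec : ∃ a₀ ∈ V, ∃ a' ∈ A, s = φ a₀ + φ w * a' := by
    refine ⟨U⁻¹ * t, mul_mem hUi ht, -(φ U⁻¹ * s * a), A.neg_mem
      (A.mul_mem (A.mul_mem (hVA _ hUi) hsA) ha), ?_⟩
    have h1 : s * (φ U + φ w * a) = φ t := by rw [← hPPU]; exact hsPP
    rw [_root_.map_mul]
    linear_combination (φ U⁻¹) * h1 - s * hφU
  have hzA : z ∈ A := by
    have hzz : z = η * (1 + φ lam * φ w * s) := by
      rw [← hz₁s, hz₁]
      field_simp
      ring
    rw [hzz]
    refine A.mul_mem ?_ (A.add_mem A.one_mem (A.mul_mem (A.mul_mem ?_ hwA) hsA))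
    · rw [hη, ← _root_.map_pow]
      exact hVA _ (pow_mem hζV k₀)
    · exact hVA _ (sub_mem hζV (one_mem V))
  exact unramified_of_adjoin_decomp V W hVW w hwV hw0 hwW hVgen hdisc s hsW hsdec z hzA hgen

end ASUnram

end Fermat.Agent.Ribet.H552

end
-- ===== PACK-END Ribet/H552/ASUnram.lean

-- ===== PACK-BEGIN A2/H12/SheetGraph.lean
section



/-!
# Cell A2 — GRAPH-CONN: the sheet graph of a two-chart model is connected (helper12)

Mathlib-only.  Setting (same as S18/b5 `cech_idempotent_trivial`): `A` a ring, `w : A`,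
`B` an `A`-algebra (the "mid" chart), `Bfin Binf : Subalgebra A B` the two charts.
A finite family of *sheets* is given by ideals `P s` of `B` containing `w`
(in the application: `P s = 𝔪_{V_s} ∩ B_mid` for the Gauss-type valuation rings `V_s`).

* `exists_idem_of_partition` : one chart, CRT-type construction of an element which is `≡ 1` on the sheets
  of one class and `≡ 0` on the others, when sheets of different classes are comaximal.
* `sheetGraph_connected` : if every compatible pair of idempotents mod `w` is trivial (the conclusion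
  of `cech_idempotent_trivial`), the fibres are reduced in the three charts, then any two sheets are
  joined by a chain of sheets, consecutive ones being NOT comaximal in one of the two charts.
* `exists_maximal_of_not_comaximal` : "not comaximal" = "pass through a common closed point".
-/

set_option autoImplicit false

namespace Fermat.Agent.A2.H12

open scoped Classical

section OneChart

variable {C : Type*} [CommRing C] {S : Type*} [Fintype S]

/-- CRT-type separation of two classes of pairwise comaximal ideals. -/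
theorem exists_idem_of_partition (Q : S → Ideal C) (col : S → Prop)
    (hcom : ∀ s t, col s → ¬ col t → ∃ a ∈ Q s, ∃ b ∈ Q t, a + b = 1) :
    ∃ e : C, (∀ s, col s → 1 - e ∈ Q s) ∧ (∀ t, ¬ col t → e ∈ Q t) := by
  -- for `s` in the class: `β s ∈ ⋂_{t ∉ class} Q t`, `β s ≡ 1 mod Q s`
  have hβ : ∀ s, col s → ∃ β : C, (∀ t, ¬ col t → β ∈ Q t) ∧ 1 - β ∈ Q s := by
    intro s hs
    choose! a ha b hb hab using fun t (ht : ¬ col t) => hcom s t hs ht
    refine ⟨∏ t ∈ Finset.univ.filter (fun t => ¬ col t), b t, ?_, ?_⟩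
    · intro t ht
      have hmem : t ∈ Finset.univ.filter (fun t => ¬ col t) := by simp [ht]
      rw [← Finset.mul_prod_erase _ _ hmem]
      exact Ideal.mul_mem_right _ _ (hb t ht)
    · -- product of elements `≡ 1` is `≡ 1`
      have key : ∀ T : Finset S, (∀ t ∈ T, ¬ col t) → 1 - ∏ t ∈ T, b t ∈ Q s := by
        intro T
        induction T using Finset.induction_on with
        | empty => intro _; simp
        | insert t T ht ih =>
          intro hT
          rw [Finset.prod_insert ht]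
          have h1 : 1 - b t ∈ Q s := by
            have := hab t (hT t (Finset.mem_insert_self _ _))
            have h2 : 1 - b t = a t := by rw [← this]; ring
            rw [h2]; exact ha t (hT t (Finset.mem_insert_self _ _))
          have h3 := ih (fun t' ht' => hT t' (Finset.mem_insert_of_mem ht'))
          have : 1 - b t * ∏ t ∈ T, b t = (1 - b t) + b t * (1 - ∏ t ∈ T, b t) := by ring
          rw [this]
          exact Ideal.add_mem _ h1 (Ideal.mul_mem_left _ _ h3)
      exact key _ (fun t ht => by simpa using ht)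
  choose! β hβ1 hβ2 using hβ
  refine ⟨1 - ∏ s ∈ Finset.univ.filter (fun s => col s), (1 - β s), ?_, ?_⟩
  · intro s hs
    have hmem : s ∈ Finset.univ.filter (fun s => col s) := by simp [hs]
    have : 1 - (1 - ∏ s ∈ Finset.univ.filter (fun s => col s), (1 - β s))
        = ∏ s ∈ Finset.univ.filter (fun s => col s), (1 - β s) := by ring
    rw [this, ← Finset.mul_prod_erase _ _ hmem]
    exact Ideal.mul_mem_right _ _ (hβ2 s hs)
  · intro t ht
    have key : ∀ T : Finset S, (∀ s ∈ T, col s) → 1 - ∏ s ∈ T, (1 - β s) ∈ Q t := by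
      intro T
      induction T using Finset.induction_on with
      | empty => intro _; simp
      | insert s T hs ih =>
        intro hT
        rw [Finset.prod_insert hs]
        have h1 : β s ∈ Q t := hβ1 s (hT s (Finset.mem_insert_self _ _)) t ht
        have h3 := ih (fun s' hs' => hT s' (Finset.mem_insert_of_mem hs'))
        have : 1 - (1 - β s) * ∏ s ∈ T, (1 - β s)
            = β s * ∏ s ∈ T, (1 - β s) + (1 - ∏ s ∈ T, (1 - β s)) := by ring
        rw [this]
        exact Ideal.add_mem _ (Ideal.mul_mem_right _ _ h1) h3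
    exact key _ (fun s hs => by simpa using hs)

/-- Two ideals that are not comaximal lie in a common maximal ideal. -/
theorem exists_maximal_of_not_comaximal (I J : Ideal C)
    (h : ¬ ∃ a ∈ I, ∃ b ∈ J, a + b = 1) : ∃ 𝔫 : Ideal C, 𝔫.IsMaximal ∧ I ≤ 𝔫 ∧ J ≤ 𝔫 := by
  have hne : I ⊔ J ≠ ⊤ := by
    intro htop
    apply h
    have h1 : (1 : C) ∈ I ⊔ J := by rw [htop]; trivial
    obtain ⟨a, ha, b, hb, hab⟩ := Submodule.mem_sup.1 h1
    exact ⟨a, ha, b, hb, hab⟩
  obtain ⟨𝔫, h𝔫, hle⟩ := Ideal.exists_le_maximal _ hne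
  exact ⟨𝔫, h𝔫, le_trans le_sup_left hle, le_trans le_sup_right hle⟩

end OneChart

section TwoCharts

variable {A B : Type*} [CommRing A] [CommRing B] [Algebra A B]
variable {S : Type*} [Fintype S]

/-- Sheets `s`, `t` are *separated in the chart `C`* if they are comaximal there. -/
def SepIn (C : Subalgebra A B) (P : S → Ideal B) (s t : S) : Prop :=
  ∃ a ∈ C, a ∈ P s ∧ ∃ b ∈ C, b ∈ P t ∧ a + b = 1

/-- Adjacency in the sheet graph: not separated in one of the two charts. -/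
def SheetAdj (Bfin Binf : Subalgebra A B) (P : S → Ideal B) (s t : S) : Prop :=
  ¬ SepIn Bfin P s t ∨ ¬ SepIn Binf P s t

/-- the contraction of a sheet to a chart, as an ideal of the chart -/
def contr (C : Subalgebra A B) (I : Ideal B) : Ideal C := I.comap (algebraMap C B)

theorem mem_contr (C : Subalgebra A B) (I : Ideal B) (c : C) : c ∈ contr C I ↔ (c : B) ∈ I :=
  Iff.rfl

private theorem exists_chart_idem (C : Subalgebra A B) (P : S → Ideal B) (col : S → Prop)
    (hsep : ∀ s t, col s → ¬ col t → SepIn C P s t) :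
    ∃ e ∈ C, (∀ s, col s → 1 - e ∈ P s) ∧ (∀ t, ¬ col t → e ∈ P t) := by
  obtain ⟨e, he1, he2⟩ := exists_idem_of_partition (C := C) (fun s => contr C (P s)) col (by
    intro s t hs ht
    obtain ⟨a, haC, haP, b, hbC, hbP, hab⟩ := hsep s t hs ht
    exact ⟨⟨a, haC⟩, haP, ⟨b, hbC⟩, hbP, Subtype.ext hab⟩)
  refine ⟨e, e.2, ?_, ?_⟩
  · intro s hs
    have := he1 s hs
    rw [mem_contr] at this
    simpa using this
  · intro t ht
    exact he2 t ht

/-- **GRAPH-CONN.**  `hcech` is literally the conclusion of S18/b5 `cech_idempotent_trivial`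
(for all compatible pairs of idempotents).  `hred_*` : reducedness of the special fibre in the
three charts (`⋂ P s = (w)`).  Then the sheet graph is connected. -/
theorem sheetGraph_connected (w : A) (Bfin Binf : Subalgebra A B) (P : S → Ideal B)
    (hP1 : ∀ s, (1 : B) ∉ P s)
    (hwP : ∀ s, algebraMap A B w ∈ P s)
    (hred_mid : ∀ b : B, (∀ s, b ∈ P s) → ∃ t : B, b = algebraMap A B w * t)
    (hred_fin : ∀ b ∈ Bfin, (∀ s, b ∈ P s) → ∃ t ∈ Bfin, b = algebraMap A B w * t)
    (hred_inf : ∀ b ∈ Binf, (∀ s, b ∈ P s) → ∃ t ∈ Binf, b = algebraMap A B w * t)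
    (hcech : ∀ e₁ e₂ : B, e₁ ∈ Bfin → e₂ ∈ Binf →
      (∃ t ∈ Bfin, e₁ ^ 2 - e₁ = algebraMap A B w * t) →
      (∃ t ∈ Binf, e₂ ^ 2 - e₂ = algebraMap A B w * t) →
      (∃ t : B, e₁ - e₂ = algebraMap A B w * t) →
      ((∃ t ∈ Bfin, e₁ = algebraMap A B w * t) ∧ (∃ t ∈ Binf, e₂ = algebraMap A B w * t)) ∨
      ((∃ t ∈ Bfin, 1 - e₁ = algebraMap A B w * t) ∧
        (∃ t ∈ Binf, 1 - e₂ = algebraMap A B w * t)))
    (s₀ t₀ : S) : Relation.ReflTransGen (SheetAdj Bfin Binf P) s₀ t₀ := by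
  by_contra hcon
  set col : S → Prop := fun s => Relation.ReflTransGen (SheetAdj Bfin Binf P) s₀ s with hcol
  have hs₀ : col s₀ := Relation.ReflTransGen.refl
  have ht₀ : ¬ col t₀ := hcon
  have hsep : ∀ s t, col s → ¬ col t → SepIn Bfin P s t ∧ SepIn Binf P s t := by
    intro s t hs ht
    by_contra h
    apply ht
    refine Relation.ReflTransGen.tail hs ?_
    rcases not_and_or.1 h with h | h
    · exact Or.inl h
    · exact Or.inr h
  obtain ⟨e₁, he₁C, he₁a, he₁b⟩ := exists_chart_idem Bfin P col (fun s t hs ht => (hsep s t hs ht).1)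
  obtain ⟨e₂, he₂C, he₂a, he₂b⟩ := exists_chart_idem Binf P col (fun s t hs ht => (hsep s t hs ht).2)
  have hidem : ∀ e : B, (∀ s, col s → 1 - e ∈ P s) → (∀ t, ¬ col t → e ∈ P t) →
      ∀ s, e ^ 2 - e ∈ P s := by
    intro e ha hb s
    have h : e ^ 2 - e = -(e * (1 - e)) := by ring
    rw [h]
    by_cases hs : col s
    · exact (P s).neg_mem (Ideal.mul_mem_left _ _ (ha s hs))
    · exact (P s).neg_mem (Ideal.mul_mem_right _ _ (hb s hs))
  have h1 := hred_fin _ (Bfin.sub_mem (Bfin.pow_mem he₁C 2) he₁C) (hidem e₁ he₁a he₁b)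
  have h2 := hred_inf _ (Binf.sub_mem (Binf.pow_mem he₂C 2) he₂C) (hidem e₂ he₂a he₂b)
  have h12 : ∃ t : B, e₁ - e₂ = algebraMap A B w * t := by
    apply hred_mid
    intro s
    by_cases hs : col s
    · have : e₁ - e₂ = (1 - e₂) - (1 - e₁) := by ring
      rw [this]
      exact (P s).sub_mem (he₂a s hs) (he₁a s hs)
    · exact (P s).sub_mem (he₁b s hs) (he₂b s hs)
  rcases hcech e₁ e₂ he₁C he₂C h1 h2 h12 with ⟨⟨t, _, ht⟩, _⟩ | ⟨⟨t, _, ht⟩, _⟩
  · -- `e₁ ∈ (w)`, but `1 - e₁ ∈ P s₀`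
    apply hP1 s₀
    have h3 : e₁ ∈ P s₀ := by rw [ht]; exact Ideal.mul_mem_right _ _ (hwP s₀)
    have : (1 : B) = (1 - e₁) + e₁ := by ring
    rw [this]
    exact (P s₀).add_mem (he₁a s₀ hs₀) h3
  · apply hP1 t₀
    have h3 : 1 - e₁ ∈ P t₀ := by rw [ht]; exact Ideal.mul_mem_right _ _ (hwP t₀)
    have : (1 : B) = (1 - e₁) + e₁ := by ring
    rw [this]
    exact (P t₀).add_mem h3 (he₁b t₀ ht₀)

end TwoCharts

end Fermat.Agent.A2.H12

end
-- ===== PACK-END A2/H12/SheetGraph.lean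

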