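import Mathlib
import Fermat.Prelude.Def_FLTPrelim_Ramification
import Mathlib.LinearAlgebra.Matrix.NonsingularInverse
import Mathlib.LinearAlgebra.Matrix.Determinant.Basic
import Mathlib.RingTheory.LocalRing.ResidueField.Basic
import Fermat.Agent.Pack.S33.E5L3
import Fermat.Agent.Pack.S33.E5L0
import Fermat.Agent.Pack.S33.E1L3
import Fermat.Agent.Pack.S33.E1L0
import Fermat.Agent.Pack.S33.E5L2
import Fermat.Agent.Pack.S33.E5L1
import Fermat.Agent.Pack.S33.E0L1
import Fermat.Agent.Pack.S33.E0L2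
import Fermat.Agent.Pack.S33.E2L1
import Fermat.Agent.Pack.S33.E4L2
import Fermat.Agent.Pack.S33.E2L2
import Fermat.Agent.Pack.S33.E6L1
import Fermat.Agent.Pack.S33.E6L2

-- ===== PACK-BEGIN S18/Mod/H216/Vc.lean
section


/-!
# S18 / MOD-ASM (helper216): the Gauss valuation ring `Vc M A E` as a `Subring`

`Mod.VcSet M A E` (frozen in `Mod/Defs.lean`) is only a set.  Here:

* `intE M A E : Subring (LaurentSeries A)` — the series satisfying `IsIntE M A E`;
* `Vc M A E : Subring (Om M)` with `(Vc M A E : Set (Om M)) = VcSet M A E` (`coe_Vc`);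
* `mem_Vc_iff`, `mem_Vc_of_isIntE`.
-/

set_option autoImplicit false

noncomputable section

namespace Fermat.Agent.S18.Mod.H216

open ModularCurve AlgebraicCurve HahnSeries Fermat.Agent.S18 Fermat.Agent.S18.Mod

variable (M : ℕ) (A : ValuationSubring Qb) (E : IntermediateField ℚ Qb)

/-- The coercion `Ω = F_M → Q̄((q))` as a ring homomorphism. -/
def omVal : Om M →+* LaurentSeries Qb := (modularFunctionFieldBar M).val.toRingHom

@[simp] theorem omVal_apply (f : Om M) : omVal M f = (f : LaurentSeries Qb) := rfl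

theorem omVal_injective : Function.Injective (omVal M) := Subtype.val_injective

/-- Series over `Q̄` all of whose coefficients lie in `E`. -/
def coeffsIn : Subring (LaurentSeries Qb) where
  carrier := {U | ∀ n : ℤ, U.coeff n ∈ E}
  zero_mem' := fun n => by simp
  one_mem' := fun n => by
    rw [HahnSeries.coeff_one]
    split_ifs
    · exact one_mem _
    · exact zero_mem _
  add_mem' := fun {a b} ha hb n => by
    rw [HahnSeries.coeff_add]
    exact add_mem (ha n) (hb n)
  neg_mem' := fun {a} ha n => by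
    rw [HahnSeries.coeff_neg]
    exact neg_mem (ha n)
  mul_mem' := fun {a b} ha hb n => by
    rw [HahnSeries.coeff_mul]
    exact sum_mem fun ij _ => mul_mem (ha _) (hb _)

theorem mem_coeffsIn {U : LaurentSeries Qb} : U ∈ coeffsIn E ↔ ∀ n : ℤ, U.coeff n ∈ E := Iff.rfl

/-- The subring of `A((q))` cut out by `IsIntE`. -/
def intE : Subring (LaurentSeries A) :=
  (coeffsIn E).comap (coeffMap A.subtype) ⊓
    ((Fc M E).toSubring.map (omVal M)).comap (coeffMap A.subtype)

theorem mem_intE {U : LaurentSeries A} : U ∈ intE M A E ↔ IsIntE M A E U := by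
  constructor
  · rintro ⟨h1, f, hf, hfU⟩
    exact ⟨fun n => h1 n, f, hf, hfU⟩
  · rintro ⟨h1, f, hf, hfU⟩
    exact ⟨fun n => h1 n, f, hf, hfU⟩

theorem red_mul_ne_zero {U V : LaurentSeries A}
    (hU : coeffMap (IsLocalRing.residue A) U ≠ 0) (hV : coeffMap (IsLocalRing.residue A) V ≠ 0) :
    coeffMap (IsLocalRing.residue A) (U * V) ≠ 0 := by
  rw [_root_.map_mul]
  exact mul_ne_zero hU hV

theorem red_one_ne_zero : coeffMap (IsLocalRing.residue A) (1 : LaurentSeries A) ≠ 0 := by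
  rw [_root_.map_one]
  exact one_ne_zero

/-- The Gauss valuation ring of `Fc M E`, as a subring of `Ω`. -/
def Vc : Subring (Om M) where
  carrier := VcSet M A E
  zero_mem' := by
    refine ⟨zero_mem _, 0, 1, (mem_intE M A E).mp (zero_mem _), (mem_intE M A E).mp (one_mem _),
      red_one_ne_zero A, ?_⟩
    simp
  one_mem' := by
    refine ⟨one_mem _, 1, 1, (mem_intE M A E).mp (one_mem _), (mem_intE M A E).mp (one_mem _),
      red_one_ne_zero A, ?_⟩
    simp
  add_mem' := by
    rintro f g ⟨hf, U₁, U₂, h₁, h₂, hne, heq⟩ ⟨hg, W₁, W₂, k₁, k₂, kne, keq⟩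
    rw [← mem_intE] at h₁ h₂ k₁ k₂
    refine ⟨add_mem hf hg, U₁ * W₂ + W₁ * U₂, U₂ * W₂,
      (mem_intE M A E).mp (add_mem (mul_mem h₁ k₂) (mul_mem k₁ h₂)),
      (mem_intE M A E).mp (mul_mem h₂ k₂), red_mul_ne_zero A hne kne, ?_⟩
    push_cast
    rw [_root_.map_add, _root_.map_mul, _root_.map_mul, _root_.map_mul, ← heq, ← keq]
    ring
  neg_mem' := by
    rintro f ⟨hf, U₁, U₂, h₁, h₂, hne, heq⟩
    rw [← mem_intE] at h₁ h₂
    refine ⟨neg_mem hf, -U₁, U₂, (mem_intE M A E).mp (neg_mem h₁), (mem_intE M A E).mp h₂,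
      hne, ?_⟩
    push_cast
    rw [_root_.map_neg, ← heq]
    ring
  mul_mem' := by
    rintro f g ⟨hf, U₁, U₂, h₁, h₂, hne, heq⟩ ⟨hg, W₁, W₂, k₁, k₂, kne, keq⟩
    rw [← mem_intE] at h₁ h₂ k₁ k₂
    refine ⟨mul_mem hf hg, U₁ * W₁, U₂ * W₂, (mem_intE M A E).mp (mul_mem h₁ k₁),
      (mem_intE M A E).mp (mul_mem h₂ k₂), red_mul_ne_zero A hne kne, ?_⟩
    push_cast
    rw [_root_.map_mul, _root_.map_mul, ← heq, ← keq]
    ring

@[simp] theorem coe_Vc : (Vc M A E : Set (Om M)) = VcSet M A E := rfl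

theorem mem_Vc_iff {f : Om M} : f ∈ Vc M A E ↔ f ∈ VcSet M A E := Iff.rfl

theorem Vc_le_Fc : (Vc M A E : Set (Om M)) ⊆ Fc M E := fun _ hf => hf.1

/-- An `E`-rational integral series lying in `Fc` gives an element of `Vc`. -/
theorem mem_Vc_of_isIntE {f : Om M} {U : LaurentSeries A} (hU : IsIntE M A E U)
    (hfU : (f : LaurentSeries Qb) = coeffMap A.subtype U) : f ∈ Vc M A E := by
  obtain ⟨h1, g, hg, hgU⟩ := hU
  have hfg : f = g := Subtype.ext (hfU.trans hgU.symm)
  refine ⟨hfg ▸ hg, U, 1, ⟨h1, g, hg, hgU⟩, (mem_intE M A E).mp (one_mem _), red_one_ne_zero A, ?_⟩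
  rw [_root_.map_one, mul_one, hfU]

end Fermat.Agent.S18.Mod.H216

end
end
-- ===== PACK-END S18/Mod/H216/Vc.lean

-- ===== PACK-BEGIN S18/Mod/H216/QepAbs.lean
section



/-!
# S18 / MOD (helper216): the q-expansion principle, ABSTRACT form (Mathlib-only + Lemma M)

Setting of `Alg/Spec.lean`: `R ⊆ Ec ⊆ Fc ⊆ Ω`, Gauss valuation ring `V`, uniformiser `w`,
coordinate `x`.  For `t ∈ {x, x⁻¹}` a **denominator statement**

    `Den t` : ∀ f ∈ Fc ∩ V, ∃ s ∈ R[t], s ∉ wV, s·f integral over R[t]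

implies the q-expansion principle on the chart `R[t]` (`qep_of_den`; Lemma M of S28/H806).
`den_inv_of_den` transfers `Den x` to `Den x⁻¹`, so that

    `partQep_of_den` : PartR + PartV + x ∈ V + x transcendental over R + Den x  ⟹  PartQep.
-/

set_option autoImplicit false
set_option linter.unusedSectionVars false
set_option linter.style.haveILetI false

noncomputable section

namespace Fermat.Agent.S18.Mod.H216

open Polynomial Fermat.Agent.S18.Alg

variable {Ω : Type*} [Field Ω]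

section PolyRing

variable (R : Subring Ω) (t : Ω)

/-- Evaluation `R[X] → Ω`, `X ↦ t`. -/
def evR : (↥R)[X] →+* Ω := Polynomial.eval₂RingHom R.subtype t

theorem evR_apply (p : (↥R)[X]) : evR R t p = p.eval₂ R.subtype t := rfl

theorem evR_C (r : R) : evR R t (C r) = (r : Ω) := by simp [evR]

theorem evR_X : evR R t X = t := by simp [evR]

theorem evR_eq_sum (p : (↥R)[X]) :
    evR R t p = ∑ i ∈ Finset.range (p.natDegree + 1), ((p.coeff i : R) : Ω) * t ^ i := by
  rw [evR_apply, Polynomial.eval₂_eq_sum_range]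
  rfl

theorem polyRing_eq_range : polyRing R t = (evR R t).range := by
  apply le_antisymm
  · rw [polyRing, Subring.closure_le]
    rintro u (hu | hu)
    · exact ⟨C ⟨u, hu⟩, evR_C R t _⟩
    · rw [Set.mem_singleton_iff] at hu
      rw [hu]
      exact ⟨X, evR_X R t⟩
  · rintro _ ⟨p, rfl⟩
    rw [evR_eq_sum]
    refine sum_mem fun i _ => mul_mem ?_ (pow_mem ?_ i)
    · exact Subring.subset_closure (Or.inl (p.coeff i).2)
    · exact Subring.subset_closure (Or.inr rfl)

theorem mem_polyRing_iff {u : Ω} : u ∈ polyRing R t ↔ ∃ p : (↥R)[X], evR R t p = u := by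
  rw [polyRing_eq_range]
  rfl

theorem le_polyRing : R ≤ polyRing R t := fun _ hr => Subring.subset_closure (Or.inl hr)

theorem self_mem_polyRing : t ∈ polyRing R t := Subring.subset_closure (Or.inr rfl)

theorem polyRing_le {V : Subring Ω} (hRV : R ≤ V) (ht : t ∈ V) : polyRing R t ≤ V := by
  rw [polyRing, Subring.closure_le]
  rintro u (hu | hu)
  · exact hRV hu
  · rw [Set.mem_singleton_iff] at hu
    rw [hu]
    exact ht

/-- `R[X] ≃ R[t]` when `t` is transcendental over `R`. -/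
def polyEquiv (htr : Function.Injective (evR R t)) : (↥R)[X] ≃+* ↥(polyRing R t) :=
  (RingEquiv.ofBijective (evR R t).rangeRestrict
    ⟨fun a b h => htr (congrArg Subtype.val h), (evR R t).rangeRestrict_surjective⟩).trans
    (RingEquiv.subringCongr (polyRing_eq_range R t).symm)

end PolyRing

section Main

variable {Ec Fc : Subfield Ω} {R V : Subring Ω} {w x : Ω}

theorem dvd_total_of_partR (hR : PartR Ec R w) (a b : ↥R) :
    ∃ c : ↥R, a * c = b ∨ b * c = a := by
  by_cases ha : (a : Ω) = 0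
  · refine ⟨0, Or.inr ?_⟩
    apply Subtype.ext
    simp [ha]
  by_cases hb : (b : Ω) = 0
  · refine ⟨0, Or.inl ?_⟩
    apply Subtype.ext
    simp [hb]
  have hmem : (b : Ω) * (a : Ω)⁻¹ ∈ Ec := mul_mem (hR.R_le b.2) (inv_mem (hR.R_le a.2))
  rcases hR.R_total _ hmem with h | h
  · refine ⟨⟨_, h⟩, Or.inl ?_⟩
    apply Subtype.ext
    show (a : Ω) * ((b : Ω) * (a : Ω)⁻¹) = b
    field_simp
  · refine ⟨⟨_, h⟩, Or.inr ?_⟩
    apply Subtype.ext
    show (b : Ω) * ((b : Ω) * (a : Ω)⁻¹)⁻¹ = a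
    field_simp

theorem valuationRing_of_partR (hR : PartR Ec R w) : ValuationRing ↥R :=
  haveI : PreValuationRing ↥R := ⟨dvd_total_of_partR hR⟩
  {}

end Main

section Residue

variable {Fc : Subfield Ω} {R V : Subring Ω} {w x : Ω}

/-- The ideal `wV` of `V`. -/
def wIdeal (V : Subring Ω) (w : Ω) (hw : w ∈ V) : Ideal ↥V := Ideal.span {(⟨w, hw⟩ : ↥V)}

theorem mem_wIdeal_iff (hw : w ∈ V) (hw0 : w ≠ 0) (u : ↥V) :
    u ∈ wIdeal V w hw ↔ (u : Ω) * w⁻¹ ∈ V := by
  rw [wIdeal, Ideal.mem_span_singleton]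
  constructor
  · rintro ⟨c, hc⟩
    have h1 : (u : Ω) = w * c := congrArg Subtype.val hc
    have h2 : (u : Ω) * w⁻¹ = c := by rw [h1]; field_simp
    rw [h2]
    exact c.2
  · intro h
    refine ⟨⟨_, h⟩, Subtype.ext ?_⟩
    show (u : Ω) = w * ((u : Ω) * w⁻¹)
    field_simp

theorem wIdeal_isPrime (hV : PartV Fc R V w x) (hwV : w ∈ V) (hw0 : w ≠ 0) :
    (wIdeal V w hwV).IsPrime := by
  rw [Ideal.isPrime_iff]
  constructor
  · intro h
    have h1 : (1 : ↥V) ∈ wIdeal V w hwV := by rw [h]; trivial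
    rw [mem_wIdeal_iff hwV hw0] at h1
    apply hV.w_inv_not_mem_V
    simpa using h1
  · intro a b hab
    rw [mem_wIdeal_iff hwV hw0] at hab
    rw [mem_wIdeal_iff hwV hw0, mem_wIdeal_iff hwV hw0]
    by_contra hcon
    push Not at hcon
    have ha : (a : Ω)⁻¹ ∈ V := by
      by_contra h
      exact hcon.1 (hV.V_gen a a.2 h)
    have ha0 : (a : Ω) ≠ 0 := by
      intro h0
      apply hcon.1
      rw [h0, zero_mul]
      exact zero_mem _
    have h3 : (b : Ω) * w⁻¹ = (a : Ω)⁻¹ * (((a * b : ↥V) : Ω) * w⁻¹) := by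
      push_cast
      field_simp
    exact hcon.2 (h3 ▸ mul_mem ha hab)

end Residue

section Qep

variable {Ec Fc : Subfield Ω} {R V : Subring Ω} {w x : Ω}

/-- Kernel form of the Gauss property for the chart parameter `t`: a polynomial in `t` over `R`
lying in `wV` has all its coefficients in `wR`. -/
def KernelAt (R V : Subring Ω) (w t : Ω) : Prop :=
  ∀ p : (↥R)[X], evR R t p * w⁻¹ ∈ V → ∀ i, ((p.coeff i : ↥R) : Ω) * w⁻¹ ∈ R

/-- The denominator statement on the chart `R[t]`. -/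
def DenAt (Fc : Subfield Ω) (R V : Subring Ω) (w t : Ω) : Prop :=
  ∀ f ∈ Fc, f ∈ V → ∃ s ∈ polyRing R t, s * w⁻¹ ∉ V ∧ IsIntegral (polyRing R t) (s * f)

/-- **QEP from denominators** (Lemma M). -/
theorem qep_of_den (hR : PartR Ec R w) (hV : PartV Fc R V w x) (hEF : Ec ≤ Fc) {t : Ω}
    (htV : t ∈ V) (htr : Function.Injective (evR R t)) (hker : KernelAt R V w t)
    (hden : DenAt Fc R V w t) :
    ∀ b ∈ chart Fc R t, b * w⁻¹ ∈ V → b * w⁻¹ ∈ chart Fc R t := by
  intro b hb hbV
  have hwR := hR.w_mem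
  have hwV : w ∈ V := hV.R_le_V hwR
  have hw0 := hR.w_ne_zero
  have hwF : w ∈ Fc := hEF (hR.R_le hwR)
  have hyF : b * w⁻¹ ∈ Fc := mul_mem hb.1 (inv_mem hwF)
  refine ⟨hyF, ?_⟩
  obtain ⟨s, hsP, hsV, hsint⟩ := hden _ hyF hbV
  haveI := valuationRing_of_partR hR
  haveI : IsIntegrallyClosed ↥(polyRing R t) := IsIntegrallyClosed.of_equiv (polyEquiv R t htr)
  haveI := wIdeal_isPrime hV hwV hw0
  have hPV : polyRing R t ≤ V := polyRing_le R t hV.R_le_V htV
  let red : ↥(polyRing R t) →+* (↥V ⧸ wIdeal V w hwV) :=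
    (Ideal.Quotient.mk _).comp (Subring.inclusion hPV)
  have hred : ∀ u : ↥(polyRing R t), red u = 0 ↔ (u : Ω) * w⁻¹ ∈ V := by
    intro u
    show Ideal.Quotient.mk _ (Subring.inclusion hPV u) = 0 ↔ _
    rw [Ideal.Quotient.eq_zero_iff_mem, mem_wIdeal_iff hwV hw0]
    rfl
  let ell : ↥(polyRing R t) := ⟨w, le_polyRing R t hwR⟩
  refine Fermat.Agent.S28.H806.isIntegral_of_isIntegral_smul_of_isIntegral_smul red ell ⟨s, hsP⟩
    ?_ ?_ ?_ ?_ (b * w⁻¹) ?_ ?_
  · intro h
    exact hw0 (congrArg Subtype.val h)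
  · rw [hred]
    show w * w⁻¹ ∈ V
    rw [mul_inv_cancel₀ hw0]
    exact one_mem _
  · intro u hu
    rw [hred] at hu
    obtain ⟨p, hp⟩ := (mem_polyRing_iff R t).mp u.2
    have hc := hker p (by rw [hp]; exact hu)
    have hmem : (u : Ω) * w⁻¹ ∈ polyRing R t := by
      rw [← hp, evR_eq_sum, Finset.sum_mul]
      refine sum_mem fun i _ => ?_
      have h4 : ((p.coeff i : ↥R) : Ω) * t ^ i * w⁻¹ = (((p.coeff i : ↥R) : Ω) * w⁻¹) * t ^ i := by
        ring
      rw [h4]
      exact mul_mem (le_polyRing R t (hc i)) (pow_mem (self_mem_polyRing R t) i)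
    refine ⟨⟨_, hmem⟩, Subtype.ext ?_⟩
    show (u : Ω) = w * ((u : Ω) * w⁻¹)
    field_simp
  · rw [Ne, hred]
    exact hsV
  · have h5 : ell • (b * w⁻¹) = b := by
      show w * (b * w⁻¹) = b
      field_simp
    rw [h5]
    exact hb.2
  · exact hsint

/-- The kernel property for `x` from the `gauss` field. -/
theorem kernelAt_of_gauss (hR : PartR Ec R w) (hV : PartV Fc R V w x)
    (htr : Function.Injective (evR R x)) : KernelAt R V w x := by
  intro p hp i
  by_contra hi
  have hci : ((p.coeff i : ↥R) : Ω) ≠ 0 := by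
    intro h0
    apply hi
    rw [h0, zero_mul]
    exact zero_mem _
  have hunit : ((p.coeff i : ↥R) : Ω)⁻¹ ∈ R := by
    by_contra h
    exact hi (hR.w_gen _ (p.coeff i).2 h)
  have hg := hV.gauss (p.map R.subtype) (fun k => by rw [coeff_map]; exact (p.coeff k).2)
    ⟨i, by rw [coeff_map]; exact hci, by rw [coeff_map]; exact hunit⟩
  have hev : (p.map R.subtype).eval x = evR R x p := by rw [evR_apply, eval_map]
  rw [hev] at hg
  have hne : evR R x p ≠ 0 := by
    intro h0
    have hp0 : p = 0 := htr (by rw [h0, _root_.map_zero])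
    apply hci
    rw [hp0]
    simp
  apply hV.w_inv_not_mem_V
  have h6 : w⁻¹ = (evR R x p)⁻¹ * (evR R x p * w⁻¹) := by
    field_simp
  rw [h6]
  exact mul_mem hg hp

theorem inv_mem_V_of_gauss (hV : PartV Fc R V w x) : x⁻¹ ∈ V := by
  have h1 : (1 : Ω) ∈ R := one_mem _
  have hg := hV.gauss (X : Polynomial Ω) (fun k => by
      rw [coeff_X]
      split_ifs
      · exact one_mem _
      · exact zero_mem _)
    ⟨1, by simp, by simp [h1]⟩
  simpa using hg

/-- `p(x⁻¹) = (reflect d p)(x) · x⁻ᵈ` for `d ≥ deg p`. -/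
theorem evR_inv_eq (R : Subring Ω) {x : Ω} (hx0 : x ≠ 0) (p : (↥R)[X]) (d : ℕ)
    (hd : p.natDegree ≤ d) :
    evR R x⁻¹ p = evR R x (p.reflect d) * (x⁻¹) ^ d := by
  letI : Invertible x⁻¹ := invertibleOfNonzero (inv_ne_zero hx0)
  have h := eval₂_reflect_mul_pow R.subtype x⁻¹ d p hd
  rw [invOf_eq_inv, inv_inv] at h
  rw [evR_apply, evR_apply, h]

/-- `p(x) = (reflect d p)(x⁻¹) · xᵈ` for `d ≥ deg p`. -/
theorem evR_eq_inv (R : Subring Ω) {x : Ω} (hx0 : x ≠ 0) (p : (↥R)[X]) (d : ℕ)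
    (hd : p.natDegree ≤ d) :
    evR R x p = evR R x⁻¹ (p.reflect d) * x ^ d := by
  letI : Invertible x := invertibleOfNonzero hx0
  have h := eval₂_reflect_mul_pow R.subtype x d p hd
  rw [invOf_eq_inv] at h
  rw [evR_apply, evR_apply, h]

theorem coeff_eq_coeff_reflect (p : (↥R)[X]) (d i : ℕ) :
    p.coeff i = (p.reflect d).coeff (revAt d i) := by
  rw [coeff_reflect, revAt_invol]

theorem injective_evR_inv (hx0 : x ≠ 0) (htr : Function.Injective (evR R x)) :
    Function.Injective (evR R x⁻¹) := by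
  rw [injective_iff_map_eq_zero]
  intro p hp
  rw [evR_inv_eq R hx0 p p.natDegree le_rfl] at hp
  have h1 : evR R x (p.reflect p.natDegree) = 0 := by
    rcases mul_eq_zero.mp hp with h | h
    · exact h
    · exact absurd h (pow_ne_zero _ (inv_ne_zero hx0))
  have h2 : p.reflect p.natDegree = 0 := htr (by rw [h1, _root_.map_zero])
  ext i
  rw [coeff_eq_coeff_reflect p p.natDegree i, h2]
  simp

theorem kernelAt_inv (hx0 : x ≠ 0) (hxV : x ∈ V) (hker : KernelAt R V w x) :
    KernelAt R V w x⁻¹ := by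
  intro p hp i
  rw [coeff_eq_coeff_reflect p p.natDegree i]
  apply hker
  have h0 : (x⁻¹) ^ p.natDegree * x ^ p.natDegree = 1 := by
    rw [← mul_pow, inv_mul_cancel₀ hx0, one_pow]
  have h1 : evR R x (p.reflect p.natDegree) * w⁻¹ = evR R x⁻¹ p * w⁻¹ * x ^ p.natDegree := by
    rw [evR_inv_eq R hx0 p p.natDegree le_rfl]
    calc evR R x (p.reflect p.natDegree) * w⁻¹
        = evR R x (p.reflect p.natDegree) * w⁻¹ * ((x⁻¹) ^ p.natDegree * x ^ p.natDegree) := by
          rw [h0, mul_one]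
      _ = _ := by ring
  rw [h1]
  exact mul_mem hp (pow_mem hxV _)

/-- Integral over `R[x]` ⟹ `x⁻ᴰ · z` integral over `R[x⁻¹]` for some `D`. -/
theorem exists_pow_isIntegral_inv (R : Subring Ω) {x : Ω} (hx0 : x ≠ 0) {z : Ω}
    (hz : IsIntegral (polyRing R x) z) :
    ∃ D : ℕ, IsIntegral (polyRing R x⁻¹) ((x⁻¹) ^ D * z) := by
  classical
  obtain ⟨Q, hmonic, hroot⟩ := hz
  have hcoeff : ∀ i, ∃ p : (↥R)[X], evR R x p = ((Q.coeff i : ↥(polyRing R x)) : Ω) :=
    fun i => (mem_polyRing_iff R x).mp (Q.coeff i).2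
  choose p hp using hcoeff
  set D : ℕ := ∑ i ∈ Finset.range (Q.natDegree + 1), (p i).natDegree with hD
  have hpD : ∀ i ≤ Q.natDegree, (p i).natDegree ≤ D := fun i hi =>
    Finset.single_le_sum (f := fun i => (p i).natDegree) (fun _ _ => Nat.zero_le _)
      (Finset.mem_range.mpr (Nat.lt_succ_of_le hi))
  set q : Polynomial Ω := (Q.map (algebraMap (polyRing R x) Ω)).scaleRoots ((x⁻¹) ^ D) with hq
  have hqmonic : q.Monic := (Polynomial.monic_scaleRoots_iff _).mpr (hmonic.map _)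
  have hqroot : q.eval ((x⁻¹) ^ D * z) = 0 := by
    rw [hq, Polynomial.scaleRoots_eval_mul, Polynomial.eval_map, hroot, mul_zero]
  have hxx : ∀ n : ℕ, x ^ n * (x⁻¹) ^ n = 1 := fun n => by
    rw [← mul_pow, mul_inv_cancel₀ hx0, one_pow]
  have hqcoeff : ∀ i, q.coeff i ∈ polyRing R x⁻¹ := by
    intro i
    rw [hq, Polynomial.coeff_scaleRoots, Polynomial.coeff_map, hmonic.natDegree_map]
    by_cases hi : i < Q.natDegree
    · obtain ⟨k, hk⟩ : ∃ k, Q.natDegree - i = k + 1 := ⟨Q.natDegree - i - 1, by omega⟩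
      have h1 : algebraMap (polyRing R x) Ω (Q.coeff i) = evR R x (p i) := (hp i).symm
      have h2 : evR R x (p i) * (x⁻¹) ^ D = evR R x⁻¹ ((p i).reflect D) := by
        rw [evR_eq_inv R hx0 (p i) D (hpD i hi.le), mul_assoc, hxx, mul_one]
      have h3 : algebraMap (polyRing R x) Ω (Q.coeff i) * ((x⁻¹) ^ D) ^ (Q.natDegree - i) =
          evR R x⁻¹ ((p i).reflect D) * ((x⁻¹) ^ D) ^ k := by
        rw [hk, pow_succ, h1, ← h2]
        ring
      rw [h3]
      exact mul_mem ((mem_polyRing_iff R x⁻¹).mpr ⟨_, rfl⟩)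
        (pow_mem (pow_mem (self_mem_polyRing R x⁻¹) D) k)
    · rcases (not_lt.mp hi).lt_or_eq with hlt | heq
      · rw [Polynomial.coeff_eq_zero_of_natDegree_lt hlt, _root_.map_zero, zero_mul]
        exact zero_mem _
      · rw [← heq, hmonic.coeff_natDegree, _root_.map_one, one_mul, Nat.sub_self, pow_zero]
        exact one_mem _
  have hlifts : q ∈ Polynomial.lifts (algebraMap (polyRing R x⁻¹) Ω) :=
    (Polynomial.lifts_iff_coeff_lifts q).mpr fun i => ⟨⟨q.coeff i, hqcoeff i⟩, rfl⟩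
  obtain ⟨q', hq'q, -, hq'monic⟩ := Polynomial.lifts_and_natDegree_eq_and_monic hlifts hqmonic
  refine ⟨D, q', hq'monic, ?_⟩
  rw [Polynomial.eval₂_eq_eval_map, hq'q, hqroot]

/-- Transfer of the denominator statement from the chart `R[x]` to the chart `R[x⁻¹]`. -/
theorem denAt_inv (hx0 : x ≠ 0) (hxV : x ∈ V) (hden : DenAt Fc R V w x) :
    DenAt Fc R V w x⁻¹ := by
  intro f hf hfV
  obtain ⟨s, hsP, hsV, hsint⟩ := hden f hf hfV
  obtain ⟨p, hp⟩ := (mem_polyRing_iff R x).mp hsP
  obtain ⟨D, hD⟩ := exists_pow_isIntegral_inv R hx0 hsint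
  have hxx : ∀ n : ℕ, x ^ n * (x⁻¹) ^ n = 1 := fun n => by
    rw [← mul_pow, mul_inv_cancel₀ hx0, one_pow]
  have hs1 : (x⁻¹) ^ p.natDegree * s ∈ polyRing R x⁻¹ := by
    have h1 : (x⁻¹) ^ p.natDegree * s = evR R x⁻¹ (p.reflect p.natDegree) := by
      rw [← hp, evR_eq_inv R hx0 p p.natDegree le_rfl, mul_comm, mul_assoc, hxx, mul_one]
    rw [h1]
    exact (mem_polyRing_iff R x⁻¹).mpr ⟨_, rfl⟩
  refine ⟨(x⁻¹) ^ D * ((x⁻¹) ^ p.natDegree * s),
    mul_mem (pow_mem (self_mem_polyRing R x⁻¹) D) hs1, ?_, ?_⟩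
  · intro h
    apply hsV
    have h2 : s * w⁻¹ =
        x ^ D * x ^ p.natDegree * ((x⁻¹) ^ D * ((x⁻¹) ^ p.natDegree * s) * w⁻¹) := by
      calc s * w⁻¹ = (x ^ D * (x⁻¹) ^ D) * (x ^ p.natDegree * (x⁻¹) ^ p.natDegree) * (s * w⁻¹) := by
            rw [hxx, hxx, one_mul, one_mul]
        _ = _ := by ring
    rw [h2]
    exact mul_mem (mul_mem (pow_mem hxV D) (pow_mem hxV _)) h
  · have h3 : (x⁻¹) ^ D * ((x⁻¹) ^ p.natDegree * s) * f =
        (x⁻¹) ^ p.natDegree * ((x⁻¹) ^ D * (s * f)) := by ring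
    rw [h3]
    have h4 : IsIntegral (polyRing R x⁻¹) ((x⁻¹) ^ p.natDegree) :=
      isIntegral_algebraMap (R := polyRing R x⁻¹) (A := Ω)
        (x := ⟨(x⁻¹) ^ p.natDegree, pow_mem (self_mem_polyRing R x⁻¹) _⟩)
    exact h4.mul hD

/-- **G-QEP from denominators on the finite chart.** -/
theorem partQep_of_den (hR : PartR Ec R w) (hV : PartV Fc R V w x) (hEF : Ec ≤ Fc)
    (hxV : x ∈ V) (htr : Function.Injective (evR R x)) (hden : DenAt Fc R V w x) :
    PartQep Fc R V w x := by
  have hx0 : x ≠ 0 := by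
    intro h0
    have h1 : evR R x X = evR R x 0 := by rw [evR_X, _root_.map_zero, h0]
    exact X_ne_zero (htr h1)
  have hker := kernelAt_of_gauss hR hV htr
  exact ⟨qep_of_den hR hV hEF hxV htr hker hden,
    qep_of_den hR hV hEF (inv_mem_V_of_gauss hV) (injective_evR_inv hx0 htr)
      (kernelAt_inv hx0 hxV hker) (denAt_inv hx0 hxV hden)⟩

/-- Adapter: `x` transcendental over a subfield `Lc ⊇ R` (as in `GoodModel.x_transcendental`)
gives injectivity of `R[X] → Ω`. -/
theorem injective_evR_of_transcendental {Lc : Subfield Ω} (hRL : (R : Set Ω) ⊆ Lc)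
    (hx : Transcendental Lc x) : Function.Injective (evR R x) := by
  rw [injective_iff_map_eq_zero]
  intro p hp
  let ι : ↥R →+* ↥Lc := Subring.inclusion (S := R) (T := Lc.toSubring) hRL
  have h1 : Polynomial.aeval x (p.map ι) = 0 := by
    rw [Polynomial.aeval_def, Polynomial.eval₂_map]
    exact hp
  have h2 : p.map ι = 0 := by
    by_contra hne
    exact hx ⟨_, hne, h1⟩
  exact Polynomial.map_injective ι (Subring.inclusion_injective hRL) (by rw [h2, Polynomial.map_zero])

end Qep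

end Fermat.Agent.S18.Mod.H216

end
end
-- ===== PACK-END S18/Mod/H216/QepAbs.lean

-- ===== PACK-BEGIN S18/Mod/H216/Family.lean
section


/-!
# S18 / MOD-ASM (helper216): `GoodModelStatement` from `GoodAt`

`GoodAt M A x S` : for EVERY number field `E ⊆ Q̄` the concrete objects
`(Ec M E, Fc M E, Rc M A E, V, w)` (with `V` the subring whose carrier is `VcSet M A E` and `w` some
uniformiser) form an `Alg.GoodModel`.

`goodModelStatement_of_goodAt` : the frozen MOD deliverable `Mod.GoodModelStatement M ℓ A`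
(node_mod of `Integ/Skeleton.lean`) follows from `GoodAt` for every admissible coordinate.
The family is `{ all concrete good models }`; directedness is monotonicity in `E`.
-/

set_option autoImplicit false
set_option linter.style.haveILetI false

noncomputable section

namespace Fermat.Agent.S18.Mod.H216

open ModularCurve AlgebraicCurve HahnSeries Fermat.Agent.S18 Fermat.Agent.S18.Mod

/-- The per-number-field MOD deliverable. -/
def GoodAt (M : ℕ) (A : ValuationSubring Qb) (x : Om M) (S : Finset (Om M)) : Prop :=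
  ∀ E : IntermediateField ℚ Qb, FiniteDimensional ℚ E →
    ∃ (V : Subring (Om M)) (w : Om M), (V : Set (Om M)) = VcSet M A E ∧
      Alg.GoodModel (Lc M) (Ec M E) (Fc M E) (Rc M A E) V w x S

section Mono

variable (M : ℕ) (A : ValuationSubring Qb) {E E' : IntermediateField ℚ Qb}

theorem Ec_mono (h : E ≤ E') : Ec M E ≤ Ec M E' := by
  rintro _ ⟨a, ha, rfl⟩
  exact ⟨a, h ha, rfl⟩

theorem Fc_mono (h : E ≤ E') : Fc M E ≤ Fc M E' :=
  Subfield.closure_mono (Set.union_subset_union_left _ (Ec_mono M h))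

theorem Rc_mono (h : E ≤ E') : Rc M A E ≤ Rc M A E' := by
  rintro _ ⟨a, ha, rfl⟩
  exact ⟨a, ⟨ha.1, h ha.2⟩, rfl⟩

theorem IsIntE_mono (h : E ≤ E') {U : LaurentSeries A} (hU : IsIntE M A E U) :
    IsIntE M A E' U := by
  obtain ⟨h1, f, hf, hfU⟩ := hU
  exact ⟨fun n => h (h1 n), f, Fc_mono M h hf, hfU⟩

theorem VcSet_mono (h : E ≤ E') : VcSet M A E ⊆ VcSet M A E' := by
  rintro f ⟨hf, U₁, U₂, h₁, h₂, hne, heq⟩
  exact ⟨Fc_mono M h hf, U₁, U₂, IsIntE_mono M A h h₁, IsIntE_mono M A h h₂, hne, heq⟩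

end Mono

/-- Every finite set of elements of `Q̄` lies in a number field containing a given one. -/
theorem exists_finite_ge (E : IntermediateField ℚ Qb) (hE : FiniteDimensional ℚ E)
    (T : Set Qb) (hT : T.Finite) :
    ∃ E' : IntermediateField ℚ Qb, FiniteDimensional ℚ E' ∧ E ≤ E' ∧ ∀ a ∈ T, a ∈ E' := by
  haveI := hE
  haveI : Finite T := hT
  haveI : Algebra.IsAlgebraic ℚ Qb := AlgebraicClosure.isAlgebraic ℚ
  haveI : FiniteDimensional ℚ (IntermediateField.adjoin ℚ T) :=
    IntermediateField.finiteDimensional_adjoin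
      (fun x _ => (Algebra.IsAlgebraic.isAlgebraic (R := ℚ) x).isIntegral)
  refine ⟨E ⊔ IntermediateField.adjoin ℚ T, inferInstance, le_sup_left, fun a ha => ?_⟩
  exact (le_sup_right : IntermediateField.adjoin ℚ T ≤ E ⊔ IntermediateField.adjoin ℚ T)
    (IntermediateField.subset_adjoin ℚ T ha)

/-- **MOD assembly, top step**: the frozen `GoodModelStatement` from `GoodAt`. -/
theorem goodModelStatement_of_goodAt (M ℓ : ℕ) (A : ValuationSubring Qb)
    (h : ∀ (x : Om M) (S : Finset (Om M)), IsCoordinate M ℓ x S → GoodAt M A x S) :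
    GoodModelStatement M ℓ A := by
  intro x S hxS
  have hg := h x S hxS
  refine ⟨{p | ∃ E : IntermediateField ℚ Qb, FiniteDimensional ℚ E ∧ p.1 = Ec M E ∧
      p.2.1 = Fc M E ∧ p.2.2.1 = Rc M A E ∧ (p.2.2.2.1 : Set (Om M)) = VcSet M A E ∧
      Alg.GoodModel (Lc M) p.1 p.2.1 p.2.2.1 p.2.2.2.1 p.2.2.2.2 x S}, ?_, ⟨?_, ?_⟩, ?_⟩
  · rintro p ⟨E, hE, h1, h2, h3, h4, -⟩
    exact ⟨E, hE, h1, h2, h3, h4⟩
  · rintro p ⟨E, hE, h1, h2, h3, h4, h5⟩
    exact h5
  · rintro p ⟨E, hE, h1, h2, h3, h4, h5⟩ T hT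
    have hfin : {b : Qb | algebraMap Qb (Om M) b ∈ T}.Finite :=
      T.finite_toSet.preimage (Set.injOn_of_injective (algebraMap Qb (Om M)).injective)
    obtain ⟨E', hE', hle, hT'⟩ := exists_finite_ge E hE _ hfin
    obtain ⟨V', w', hV', hgood'⟩ := hg E' hE'
    refine ⟨(Ec M E', Fc M E', Rc M A E', V', w'), ⟨E', hE', rfl, rfl, rfl, hV', hgood'⟩,
      ⟨?_, ?_, ?_, ?_⟩, ?_⟩
    · rw [h1]; exact Ec_mono M hle
    · rw [h2]; exact Fc_mono M hle
    · rw [h3]; exact Rc_mono M A hle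
    · intro f hf
      have hf' : f ∈ (p.2.2.2.1 : Set (Om M)) := hf
      rw [h4] at hf'
      have := VcSet_mono M A hle hf'
      rw [← hV'] at this
      exact this
    · intro a ha
      obtain ⟨b, rfl⟩ := hT a ha
      exact ⟨b, hT' b ha, rfl⟩
  · intro T
    obtain ⟨E', hE', -, hT'⟩ := exists_finite_ge ⊥ inferInstance (T : Set Qb) T.finite_toSet
    obtain ⟨V', w', hV', hgood'⟩ := hg E' hE'
    exact ⟨E', V', w', hE', fun a ha => hT' a ha, hV', ⟨E', hE', rfl, rfl, rfl, hV', hgood'⟩⟩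

end Fermat.Agent.S18.Mod.H216

end
end
-- ===== PACK-END S18/Mod/H216/Family.lean

-- ===== PACK-BEGIN S18/H107/T2Branch.lean
section




/-!
# helper107 — S18 / M3-T : `unramified` for the Hauptmodul `t₂` (`j t² = (t + 256)³`)

From the branch data of the `j`-line (`BranchJ107`): for every constant `c ∉ {-64, 0}`, at a place
`O` with `t ≡ c`, `t - c` is a uniformiser.  (`t = -256` lies over `j = 0` with `e(t/j) = 3`,
`t = 512` over `j = 1728` with `e(t/j) = 2`; only `t = -64`, `0`, `∞` can ramify in `Ω / Lc(t)`.)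
-/

set_option autoImplicit false

namespace Fermat.Agent.S18.H107

variable {Ω : Type*} [Field Ω] [CharZero Ω]

theorem unramified_t2_107 (Lc : Subfield Ω) (j t : Ω) (hrel : j * t ^ 2 = (t + 256) ^ 3)
    (hB : BranchJ107 Lc j) (O : ValuationSubring Ω) (hL : ∀ a ∈ Lc, a ∈ O) (c : Ω) (hc : c ∈ Lc)
    (hc64 : c ≠ -64) (hc0 : c ≠ 0) (hz : t - c ∈ O) (hz' : (t - c)⁻¹ ∉ O) :
    ∀ s ∈ O, s⁻¹ ∉ O → s * (t - c)⁻¹ ∈ O := by
  rw [← OrdLe107.one_iff]
  have hzv : O.valuation (t - c) < 1 := val_lt_one107 O hz hz'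
  have hz0 : t - c ≠ 0 := by
    intro h0
    rw [h0, inv_zero] at hz'
    exact hz' O.zero_mem
  have hcv : O.valuation c = 1 := val_const107 O Lc hL hc hc0
  have htv : O.valuation t = 1 := by
    have : t = c + (t - c) := by ring
    rw [this]
    exact val_add_eq_one107 O hcv hzv
  have ht0 : t ≠ 0 := by
    intro h0
    rw [h0, map_zero] at htv
    exact zero_ne_one htv
  have htO : t ∈ O := (O.valuation_le_one_iff _).1 htv.le
  have hcO : c ∈ O := hL c hc
  have ht2v : O.valuation ((t ^ 2)⁻¹) = 1 := by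
    rw [map_inv₀, map_pow, htv, one_pow, inv_one]
  by_cases h256 : c = -256
  · -- over `j = 0`
    subst h256
    have hy : j = (t - -256) ^ 3 * (t ^ 2)⁻¹ := by
      field_simp
      linear_combination hrel
    have hj0 : j ≠ 0 := by
      rw [hy]
      exact mul_ne_zero (pow_ne_zero _ hz0) (inv_ne_zero (pow_ne_zero _ ht0))
    have hjv : O.valuation j < 1 := by
      rw [hy, map_mul, ht2v, mul_one, map_pow]
      exact pow_lt_one₀ zero_le hzv (by norm_num)
    exact unram_of_factor107 O (k := 3) (by norm_num) hy ht2v hz0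
      (hB.zero O hL (mem_of_val_lt_one107 O hjv) (inv_not_mem_of_val_lt_one107 O hj0 hjv))
  by_cases h512 : c = 512
  · -- over `j = 1728`
    subst h512
    have h576 : O.valuation (576 : Ω) = 1 :=
      val_const107 O Lc hL (ofNat_mem Lc 576) (by norm_num)
    have ht64 : O.valuation (t + 64) = 1 := by
      have : t + 64 = 576 + (t - 512) := by ring
      rw [this]
      exact val_add_eq_one107 O h576 hzv
    have hUv : O.valuation ((t + 64) * (t ^ 2)⁻¹) = 1 := by
      rw [map_mul, ht64, ht2v, mul_one]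
    have hy : j - 1728 = (t - 512) ^ 2 * ((t + 64) * (t ^ 2)⁻¹) := by
      field_simp
      linear_combination hrel
    have hU0 : (t + 64) * (t ^ 2)⁻¹ ≠ 0 := by
      intro h0
      rw [h0, map_zero] at hUv
      exact zero_ne_one hUv
    have hy0 : j - 1728 ≠ 0 := by
      rw [hy]
      exact mul_ne_zero (pow_ne_zero _ hz0) hU0
    have hyv : O.valuation (j - 1728) < 1 := by
      rw [hy, map_mul, hUv, mul_one, map_pow]
      exact pow_lt_one₀ zero_le hzv (by norm_num)
    exact unram_of_factor107 O (k := 2) (by norm_num) hy hUv hz0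
      (hB.c1728 O hL (mem_of_val_lt_one107 O hyv) (inv_not_mem_of_val_lt_one107 O hy0 hyv))
  · -- generic point
    have hc256 : c + 256 ≠ 0 := fun h => h256 (by linear_combination h)
    have hc512 : c - 512 ≠ 0 := fun h => h512 (by linear_combination h)
    have hc64' : c + 64 ≠ 0 := fun h => hc64 (by linear_combination h)
    set a : Ω := (c + 256) ^ 3 * (c ^ 2)⁻¹ with ha
    have haL : a ∈ Lc :=
      Lc.mul_mem (Lc.pow_mem (Lc.add_mem hc (ofNat_mem Lc 256)) 3) (Lc.inv_mem (Lc.pow_mem hc 2))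
    have ha0 : a ≠ 0 := mul_ne_zero (pow_ne_zero _ hc256) (inv_ne_zero (pow_ne_zero _ hc0))
    have ha1728 : a ≠ 1728 := by
      intro h
      have h1 : (c - 512) ^ 2 * (c + 64) = 0 := by
        have h2 : (c + 256) ^ 3 = 1728 * c ^ 2 := by
          rw [ha] at h
          field_simp at h
          linear_combination h
        linear_combination h2
      rcases mul_eq_zero.1 h1 with h3 | h3
      · exact hc512 (pow_eq_zero_iff (by norm_num) |>.1 h3)
      · exact hc64' h3
    -- the cofactor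
    set W : Ω := c ^ 2 * t ^ 2 - (196608 * c + 16777216) * t - 16777216 * c with hW
    set W₀ : Ω := c * (c + 256) ^ 2 * (c - 512) with hW₀
    set W₁ : Ω := c ^ 2 * (t + c) - 196608 * c - 16777216 with hW₁
    have hW₀L : W₀ ∈ Lc :=
      Lc.mul_mem (Lc.mul_mem hc (Lc.pow_mem (Lc.add_mem hc (ofNat_mem Lc 256)) 2))
        (Lc.sub_mem hc (ofNat_mem Lc 512))
    have hW₀0 : W₀ ≠ 0 := mul_ne_zero (mul_ne_zero hc0 (pow_ne_zero _ hc256)) hc512
    have hW₁O : W₁ ∈ O :=
      sub_mem (sub_mem (mul_mem (pow_mem hcO 2) (add_mem htO hcO))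
        (mul_mem (ofNat_mem O 196608) hcO)) (ofNat_mem O 16777216)
    have hWv : O.valuation W = 1 := by
      have e : W = W₀ + (t - c) * W₁ := by
        rw [hW, hW₀, hW₁]
        ring
      rw [e]
      refine val_add_eq_one107 O (val_const107 O Lc hL hW₀L hW₀0) ?_
      rw [map_mul]
      calc O.valuation (t - c) * O.valuation W₁ ≤ O.valuation (t - c) * 1 := by
            gcongr
            exact (O.valuation_le_one_iff _).2 hW₁O
        _ = O.valuation (t - c) := mul_one _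
        _ < 1 := hzv
    have hUv : O.valuation (W * (t ^ 2 * c ^ 2)⁻¹) = 1 := by
      rw [map_mul, hWv, one_mul, map_inv₀, map_mul, map_pow, map_pow, htv, hcv, one_pow,
        mul_one, inv_one]
    have hy : j - a = (t - c) ^ 1 * (W * (t ^ 2 * c ^ 2)⁻¹) := by
      rw [ha, hW]
      field_simp
      linear_combination (c ^ 2) * hrel
    have hU0 : W * (t ^ 2 * c ^ 2)⁻¹ ≠ 0 := by
      intro h0
      rw [h0, map_zero] at hUv
      exact zero_ne_one hUv
    have hy0 : j - a ≠ 0 := by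
      rw [hy]
      exact mul_ne_zero (pow_ne_zero _ hz0) hU0
    have hyv : O.valuation (j - a) < 1 := by
      rw [hy, map_mul, hUv, mul_one, pow_one]
      exact hzv
    exact unram_of_factor107 O (k := 1) (by norm_num) hy hUv hz0
      (hB.generic O hL a haL ha0 ha1728 (mem_of_val_lt_one107 O hyv)
        (inv_not_mem_of_val_lt_one107 O hy0 hyv))

end Fermat.Agent.S18.H107

end
-- ===== PACK-END S18/H107/T2Branch.lean

-- ===== PACK-BEGIN S18/H845/ConstExtSub.lean
section


/-!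
# S18 / d1(c) in the language of `Alg/Spec.lean` (sub-objects of one field `Ω`)

`Ec ≤ Lc`, `Ec ≤ Fc` subfields of `Ω` (char 0), `Lc` algebraic over `Ec`, `Ω = Fc · Lc`.
Every discrete valuation ring `W` of `Fc` containing `Ec` is `O ∩ Fc` for a valuation subring `O`
of `Ω` containing `Lc`, in which a uniformiser of `W` is still a uniformiser.  Consequently a
divisibility statement `m ∣ ord_O(u)` at all `Lc`-places of `Ω` descends to all `Ec`-places of
`Fc`.
-/

set_option autoImplicit false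
set_option linter.unusedSectionVars false

namespace Fermat.Agent.S18.H845

section Sub

variable {Ω : Type*} [Field Ω] [CharZero Ω]

/-- **d1(c), sub-object form.** -/
theorem exists_valuationSubring_over (Lc Ec Fc : Subfield Ω) (E_le_F : Ec ≤ Fc)
    (L_algebraic : ∀ a ∈ Lc, IsAlgebraic Ec a)
    (compositum : Subfield.closure ((Fc : Set Ω) ∪ Lc) = ⊤)
    (W : ValuationSubring Fc) [IsDiscreteValuationRing W]
    (hEW : ∀ e : Fc, (e : Ω) ∈ Ec → e ∈ W) :
    ∃ O : ValuationSubring Ω, (∀ a ∈ Lc, a ∈ O) ∧ (∀ f : Fc, (f : Ω) ∈ O ↔ f ∈ W) ∧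
      IsDiscreteValuationRing O ∧
      (∀ π : W, Irreducible π → ∀ f : Ω, f ≠ 0 →
        ∃ k : ℤ, O.valuation f = O.valuation ((π : Fc) : Ω) ^ k) ∧
      ∀ π : W, Irreducible π → ((π : Fc) : Ω) ∈ O ∧ (((π : Fc) : Ω))⁻¹ ∉ O ∧
        ∀ t ∈ O, t⁻¹ ∉ O → t * (((π : Fc) : Ω))⁻¹ ∈ O := by
  let _ : Algebra Ec Fc := (Subfield.inclusion E_le_F).toAlgebra
  have : IsScalarTower Ec Fc Ω := IsScalarTower.of_algebraMap_eq (fun _ => rfl)
  have : CharZero Ec := ⟨fun a b h => by
    have h' := congrArg (Subtype.val : Ec → Ω) h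
    exact Nat.cast_injective (R := Ω) (by simpa using h')⟩
  have hEV : ∀ c : Ec, algebraMap Ec Fc c ∈ W := fun c => hEW _ c.2
  have hgen : IntermediateField.adjoin Fc {α : Ω | IsAlgebraic Ec α} = ⊤ := by
    rw [← IntermediateField.toSubfield_injective.eq_iff]
    show Subfield.closure (Set.range (algebraMap Fc Ω) ∪ {α : Ω | IsAlgebraic Ec α}) = ⊤
    rw [eq_top_iff, ← compositum]
    apply Subfield.closure_mono
    rintro x (hx | hx)
    · exact Or.inl ⟨⟨x, hx⟩, rfl⟩
    · exact Or.inr (L_algebraic x hx)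
  obtain ⟨O, hcomap, hdvr, hconst, hirr, hval⟩ :=
    exists_dvr_extension (E := Ec) (K := Fc) (L := Ω) W hEV hgen
  refine ⟨O, fun a ha => hconst a (L_algebraic a ha), ?_, hdvr, hval, ?_⟩
  · intro f
    rw [← hcomap]
    rfl
  · intro π hπ
    obtain ⟨hmem, hirrO⟩ := hirr π hπ
    have hπ0 : ((π : Fc) : Ω) ≠ 0 := by
      intro h
      apply hπ.ne_zero
      apply Subtype.ext
      apply Subtype.ext
      exact h
    have hlt : O.valuation ((π : Fc) : Ω) < 1 := by
      have h1 : ¬ IsUnit (⟨((π : Fc) : Ω), hmem⟩ : O) := hirrO.not_isUnit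
      rw [O.valuation_eq_one_iff] at h1
      exact lt_of_le_of_ne ((O.valuation_le_one_iff _).mpr hmem) h1
    have hpos : 0 < O.valuation ((π : Fc) : Ω) :=
      zero_lt_iff.mpr ((Valuation.ne_zero_iff _).mpr hπ0)
    refine ⟨hmem, ?_, ?_⟩
    · intro hinv
      have h1 : O.valuation (((π : Fc) : Ω))⁻¹ ≤ 1 := (O.valuation_le_one_iff _).mpr hinv
      rw [map_inv₀] at h1
      have h2 : 1 ≤ O.valuation ((π : Fc) : Ω) := by
        rwa [inv_le_one₀ hpos] at h1
      exact absurd hlt (not_lt.mpr h2)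
    · intro t ht htinv
      have ht0 : t ≠ 0 := by
        rintro rfl
        rw [inv_zero] at htinv
        exact htinv O.zero_mem
      obtain ⟨k, hk'⟩ := hval π hπ t ht0
      have hk : O.valuation t = O.valuation ((π : Fc) : Ω) ^ k := hk'
      have htlt : O.valuation t < 1 := by
        have h1 : O.valuation t ≤ 1 := (O.valuation_le_one_iff _).mpr ht
        refine lt_of_le_of_ne h1 ?_
        intro h1'
        apply htinv
        rw [← O.valuation_le_one_iff, map_inv₀, h1', inv_one]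
      rw [hk] at htlt
      have hk1 : 1 ≤ k := by
        have := (zpow_lt_one_iff_right_of_lt_one₀ hpos hlt).mp htlt
        omega
      rw [← O.valuation_le_one_iff, map_mul, map_inv₀, hk]
      have : O.valuation ((π : Fc) : Ω) ^ k * (O.valuation ((π : Fc) : Ω))⁻¹ =
          O.valuation ((π : Fc) : Ω) ^ (k - 1) := by
        rw [zpow_sub₀ hpos.ne', zpow_one, div_eq_mul_inv]
      rw [this]
      exact (zpow_le_one_iff_right_of_lt_one₀ hpos hlt).mpr (by omega)

/-- **Descent of divisibility.**  If `u ∈ Fc` has `m ∣ ord_O(u)` at every valuation subring `O`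
of `Ω` containing `Lc` (in the form used by `Alg.AlgMainStatement`), then `m ∣ ord_W(u)` at every
discrete valuation ring `W` of `Fc` containing `Ec`. -/
theorem exists_pow_unit_of_forall_over (Lc Ec Fc : Subfield Ω) (E_le_F : Ec ≤ Fc)
    (L_algebraic : ∀ a ∈ Lc, IsAlgebraic Ec a)
    (compositum : Subfield.closure ((Fc : Set Ω) ∪ Lc) = ⊤)
    {u : Fc} (hu : u ≠ 0) {m : ℕ}
    (hdiv : ∀ O : ValuationSubring Ω, (∀ a ∈ Lc, a ∈ O) →
      ∃ t : Ω, t ≠ 0 ∧ (u : Ω) * t ^ m ∈ O ∧ ((u : Ω) * t ^ m)⁻¹ ∈ O)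
    (W : ValuationSubring Fc) [IsDiscreteValuationRing W]
    (hEW : ∀ e : Fc, (e : Ω) ∈ Ec → e ∈ W) :
    ∃ s : Fc, s ≠ 0 ∧ u * s ^ m ∈ W ∧ (u * s ^ m)⁻¹ ∈ W := by
  obtain ⟨O, hL, hOW, _, hval, hunif⟩ :=
    exists_valuationSubring_over Lc Ec Fc E_le_F L_algebraic compositum W hEW
  obtain ⟨π, hπ⟩ := IsDiscreteValuationRing.exists_irreducible W
  obtain ⟨hπO, hπinv, _⟩ := hunif π hπ
  have hπ0 : ((π : Fc) : Ω) ≠ 0 := by
    rintro h
    rw [h, inv_zero] at hπinv
    exact hπinv O.zero_mem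
  have hπF0 : (π : Fc) ≠ 0 := fun h => hπ0 (by rw [h]; rfl)
  have hpos : 0 < O.valuation ((π : Fc) : Ω) :=
    zero_lt_iff.mpr ((Valuation.ne_zero_iff _).mpr hπ0)
  have hlt : O.valuation ((π : Fc) : Ω) < 1 := by
    refine lt_of_le_of_ne ((O.valuation_le_one_iff _).mpr hπO) ?_
    intro h1
    apply hπinv
    rw [← O.valuation_le_one_iff, map_inv₀, h1, inv_one]
  obtain ⟨t, ht0, ht1, ht2⟩ := hdiv O hL
  have hunit : O.valuation ((u : Ω) * t ^ m) = 1 := by
    have h1 : O.valuation ((u : Ω) * t ^ m) ≤ 1 := (O.valuation_le_one_iff _).mpr ht1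
    have h2 : O.valuation ((u : Ω) * t ^ m)⁻¹ ≤ 1 := (O.valuation_le_one_iff _).mpr ht2
    rw [map_inv₀] at h2
    have h0 : O.valuation ((u : Ω) * t ^ m) ≠ 0 := by
      rw [Valuation.ne_zero_iff]
      exact mul_ne_zero (fun h => hu (Subtype.ext h)) (pow_ne_zero m ht0)
    have h3 : 1 ≤ O.valuation ((u : Ω) * t ^ m) := by
      rwa [inv_le_one₀ (zero_lt_iff.mpr h0)] at h2
    exact le_antisymm h1 h3
  obtain ⟨k, hk⟩ := hval π hπ t ht0
  -- take `s = π ^ k`
  refine ⟨(π : Fc) ^ k, zpow_ne_zero k hπF0, ?_⟩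
  have hval1 : O.valuation (((u * ((π : Fc) ^ k) ^ m : Fc)) : Ω) = 1 := by
    have e : (((u * ((π : Fc) ^ k) ^ m : Fc)) : Ω) = (u : Ω) * (((π : Fc) : Ω) ^ k) ^ m := by
      push_cast
      rfl
    rw [e, map_mul, map_pow, map_zpow₀, ← hk, ← map_pow, ← map_mul]
    exact hunit
  constructor
  · rw [← hOW, ← O.valuation_le_one_iff]
    exact hval1.le
  · rw [← hOW, ← O.valuation_le_one_iff]
    have e : (((u * ((π : Fc) ^ k) ^ m)⁻¹ : Fc) : Ω) = ((((u * ((π : Fc) ^ k) ^ m : Fc)) : Ω))⁻¹ := by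
      push_cast
      rfl
    rw [e, map_inv₀, hval1, inv_one]

end Sub

end Fermat.Agent.S18.H845

end
-- ===== PACK-END S18/H845/ConstExtSub.lean

-- ===== PACK-BEGIN S18/B12/H93/LocalBasis.lean
section



/-!
# S18 / B12 / A2: `LocalBasisStatement` (helper93).

`𝔪 = (w, p)` maximal, `(p, w)` regular on the finite `P`-module `B`: a lift of a basis of `B/𝔪B`
is a basis of `B` locally at `𝔪` (Nakayama twice).
-/

set_option autoImplicit false

namespace Fermat.Agent.S18.B12.H93

open Pointwise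

attribute [local instance] Ideal.Quotient.field

universe u v

theorem localBasis : LocalBasisStatement.{u, v} := by
  intro P _ _ _ B _ _ _ _ w p hmax hreg
  classical
  set 𝔪 : Ideal P := Ideal.span {w, p} with h𝔪
  have hw𝔪 : w ∈ 𝔪 := Ideal.subset_span (by simp)
  have hp𝔪 : p ∈ 𝔪 := Ideal.subset_span (by simp)
  let N : Submodule P B := 𝔪 • ⊤
  have hfin : Module.Finite (P ⧸ 𝔪) (B ⧸ N) := Module.Finite.of_restrictScalars_finite P _ _
  let β := Module.finBasis (P ⧸ 𝔪) (B ⧸ N)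
  have hlift : ∀ i, ∃ x : B, N.mkQ x = β i := fun i => Submodule.mkQ_surjective N _
  choose x hx using hlift
  refine ⟨Module.finrank (P ⧸ 𝔪) (B ⧸ N), x, ?_⟩
  have hmksmul : ∀ (a : P) (y : B ⧸ N), (Ideal.Quotient.mk 𝔪 a) • y = a • y := by
    intro a y
    rw [← Ideal.Quotient.algebraMap_eq, algebraMap_smul]
  -- reduction of a combination
  have hred : ∀ a : Fin (Module.finrank (P ⧸ 𝔪) (B ⧸ N)) → P,
      N.mkQ (∑ i, a i • x i) = ∑ i, (Ideal.Quotient.mk 𝔪 (a i)) • β i := by
    intro a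
    rw [map_sum]
    refine Finset.sum_congr rfl fun i _ => ?_
    rw [map_smul, hx, hmksmul]
  -- spanning modulo `𝔪`
  have hspan : (⊤ : Submodule P B) ≤ Submodule.span P (Set.range x) ⊔ 𝔪 • ⊤ := by
    intro b _
    have hl : ∀ i, ∃ a : P, Ideal.Quotient.mk 𝔪 a = β.repr (N.mkQ b) i :=
      fun i => Ideal.Quotient.mk_surjective _
    choose a ha using hl
    have h1 : N.mkQ (b - ∑ i, a i • x i) = 0 := by
      rw [map_sub, hred, sub_eq_zero]
      conv_lhs => rw [← β.sum_repr (N.mkQ b)]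
      exact Finset.sum_congr rfl fun i _ => by rw [ha]
    have h2 : b - ∑ i, a i • x i ∈ N := by
      rwa [Submodule.mkQ_apply, Submodule.Quotient.mk_eq_zero] at h1
    have h3 : ∑ i, a i • x i ∈ Submodule.span P (Set.range x) :=
      Submodule.sum_mem _ fun i _ => Submodule.smul_mem _ _ (Submodule.subset_span ⟨i, rfl⟩)
    have : b = ∑ i, a i • x i + (b - ∑ i, a i • x i) := by ring
    rw [this]
    exact Submodule.add_mem_sup h3 h2
  obtain ⟨g, hg1, hgle⟩ := Submodule.exists_sub_one_mem_and_smul_le_of_fg_of_le_sup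
    (N := Submodule.span P (Set.range x)) (N' := ⊤) (P := ⊤) (I := 𝔪)
    (Module.finite_def.mp inferInstance) le_rfl hspan
  have hg𝔪 : g ∉ 𝔪 := by
    intro hg
    have : (1 : P) ∈ 𝔪 := by
      have := 𝔪.sub_mem hg hg1
      simpa using this
    exact hmax.ne_top ((Ideal.eq_top_iff_one 𝔪).mpr this)
  have hgB : ∀ b : B, g • b ∈ Submodule.span P (Set.range x) := fun b =>
    hgle (Submodule.smul_mem_pointwise_smul b g ⊤ Submodule.mem_top)
  refine ⟨?_, g, hg𝔪, hgB⟩
  -- linear independence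
  let L : (Fin (Module.finrank (P ⧸ 𝔪) (B ⧸ N)) → P) →ₗ[P] B := Fintype.linearCombination P x
  have hLapp : ∀ a, L a = ∑ i, a i • x i := fun a => Fintype.linearCombination_apply P x a
  set I : Submodule P (Fin (Module.finrank (P ⧸ 𝔪) (B ⧸ N)) → P) := LinearMap.ker L with hI
  have hIfg : I.FG := IsNoetherian.noetherian I
  -- `g • I ≤ 𝔪 • I`
  have hkey : ∀ a ∈ I, g • a ∈ 𝔪 • I := by
    intro a ha
    have ha0 : ∑ i, a i • x i = 0 := by rw [← hLapp]; exact ha
    -- coefficients lie in `𝔪`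
    have hmem : ∀ i, a i ∈ 𝔪 := by
      intro i
      have h1 := hred a
      rw [ha0, map_zero] at h1
      have h2 := (Fintype.linearIndependent_iff.mp β.linearIndependent) _ h1.symm i
      exact Ideal.Quotient.eq_zero_iff_mem.mp h2
    have hdec : ∀ i, ∃ c d : P, c * w + d * p = a i := fun i => Ideal.mem_span_pair.mp (hmem i)
    choose c d hcd using hdec
    have hrel : algebraMap P B p * (∑ i, d i • x i) = algebraMap P B w * (-∑ i, c i • x i) := by
      have : ∑ i, (c i * w + d i * p) • x i = 0 := by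
        rw [← ha0]; exact Finset.sum_congr rfl fun i _ => by rw [hcd]
      rw [← Algebra.smul_def, ← Algebra.smul_def, smul_neg, Finset.smul_sum, Finset.smul_sum,
        eq_neg_iff_add_eq_zero, ← Finset.sum_add_distrib, ← this]
      refine Finset.sum_congr rfl fun i _ => ?_
      rw [smul_smul, smul_smul, ← add_smul]
      congr 1; ring
    obtain ⟨b'', hb1, hb2⟩ := hreg _ _ hrel
    obtain ⟨e, he⟩ := (Submodule.mem_span_range_iff_exists_fun P).mp (hgB b'')
    -- two relations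
    have hr1 : (fun i => g * d i - w * e i) ∈ I := by
      rw [hI, LinearMap.mem_ker, hLapp]
      have : ∑ i, (g * d i - w * e i) • x i = g • ∑ i, d i • x i - w • ∑ i, e i • x i := by
        rw [Finset.smul_sum, Finset.smul_sum, ← Finset.sum_sub_distrib]
        exact Finset.sum_congr rfl fun i _ => by rw [sub_smul, smul_smul, smul_smul]
      rw [this, hb1, he, ← Algebra.smul_def, smul_comm, sub_self]
    have hr2 : (fun i => g * c i + p * e i) ∈ I := by
      rw [hI, LinearMap.mem_ker, hLapp]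
      have : ∑ i, (g * c i + p * e i) • x i = g • ∑ i, c i • x i + p • ∑ i, e i • x i := by
        rw [Finset.smul_sum, Finset.smul_sum, ← Finset.sum_add_distrib]
        exact Finset.sum_congr rfl fun i _ => by rw [add_smul, smul_smul, smul_smul]
      have hc : ∑ i, c i • x i = -(algebraMap P B p * b'') := by rw [← hb2, neg_neg]
      rw [this, hc, he, ← Algebra.smul_def, smul_neg, smul_comm, neg_add_cancel]
    have hsum : g • a = w • (fun i => g * c i + p * e i) + p • (fun i => g * d i - w * e i) := by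
      funext i
      simp only [Pi.smul_apply, Pi.add_apply, smul_eq_mul]
      rw [← hcd i]; ring
    rw [hsum]
    exact Submodule.add_mem _ (Submodule.smul_mem_smul hw𝔪 hr2) (Submodule.smul_mem_smul hp𝔪 hr1)
  have hIle : I ≤ 𝔪 • I := by
    intro a ha
    have h1 : g • a ∈ 𝔪 • I := hkey a ha
    have h2 : (g - 1) • a ∈ 𝔪 • I := Submodule.smul_mem_smul hg1 ha
    have : a = g • a - (g - 1) • a := by rw [sub_smul, one_smul]; abel
    rw [this]
    exact Submodule.sub_mem _ h1 h2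
  obtain ⟨r, hr1, hr0⟩ := Submodule.exists_sub_one_mem_and_smul_eq_zero_of_fg_of_le_smul 𝔪 I
    hIfg hIle
  have hrne : r ≠ 0 := by
    rintro rfl
    have : (1 : P) ∈ 𝔪 := by
      have := 𝔪.neg_mem hr1
      simpa using this
    exact hmax.ne_top ((Ideal.eq_top_iff_one 𝔪).mpr this)
  rw [Fintype.linearIndependent_iff]
  intro a ha i
  have haI : a ∈ I := by rw [hI, LinearMap.mem_ker, hLapp]; exact ha
  have h0 := hr0 a haI
  have h1 := congrFun h0 i
  rw [Pi.smul_apply, smul_eq_mul, Pi.zero_apply] at h1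
  exact (mul_eq_zero.mp h1).resolve_left hrne

end Fermat.Agent.S18.B12.H93

end
-- ===== PACK-END S18/B12/H93/LocalBasis.lean

-- ===== PACK-BEGIN S18/B12/H203/UFDStep.lean
section



/-!
# S18 / b2.5, piece A4: the UFD step (`UFDStepStatement`)

If every prime factor of `D ≠ 0` lying in the prime ideal `𝔪` is associated to the prime `p`,
then `D = p ^ a * D₁` with `D₁ ∉ 𝔪`.
-/

set_option autoImplicit false

namespace Fermat.Agent.S18.B12.H203

universe u v

/-- In a UFD, a nonzero element of a prime ideal has a prime factor in that ideal. -/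
theorem exists_prime_dvd_mem_of_mem {P : Type u} [CommRing P] [IsDomain P]
    [UniqueFactorizationMonoid P] (𝔪 : Ideal P) [h𝔪 : 𝔪.IsPrime] (d : P) (hd0 : d ≠ 0)
    (hd : d ∈ 𝔪) : ∃ π : P, Prime π ∧ π ∣ d ∧ π ∈ 𝔪 := by
  revert hd0 hd
  refine UniqueFactorizationMonoid.induction_on_prime
    (P := fun d : P => d ≠ 0 → d ∈ 𝔪 → ∃ π : P, Prime π ∧ π ∣ d ∧ π ∈ 𝔪) d ?_ ?_ ?_
  · intro h0 _
    exact absurd rfl h0
  · intro x hx _ hxm
    exact absurd (Ideal.eq_top_of_isUnit_mem 𝔪 hxm hx) h𝔪.ne_top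
  · intro a q ha0 hq ih _ hmem
    rcases h𝔪.mem_or_mem hmem with hqm | ham
    · exact ⟨q, hq, dvd_mul_right q a, hqm⟩
    · obtain ⟨π, hπ, hπa, hπm⟩ := ih ha0 ham
      exact ⟨π, hπ, hπa.mul_left q, hπm⟩

/-- **A4 (UFD step).** -/
theorem ufdStep.{w} : UFDStepStatement.{w} := by
  intro P _ _ _ 𝔪 h𝔪 p hp D hD hass
  obtain ⟨a, D₁, hpD₁, hDeq⟩ := WfDvdMonoid.max_power_factor hD hp.irreducible
  refine ⟨a, D₁, hDeq, ?_⟩
  intro hmem
  have hD₁0 : D₁ ≠ 0 := by
    rintro rfl
    exact hD (by rw [hDeq, mul_zero])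
  obtain ⟨π, hπ, hπD₁, hπm⟩ := exists_prime_dvd_mem_of_mem 𝔪 D₁ hD₁0 hmem
  have hπD : π ∣ D := by
    rw [hDeq]
    exact hπD₁.mul_left _
  have hassoc : Associated π p := hass π hπ hπD hπm
  exact hpD₁ (hassoc.symm.dvd.trans hπD₁)

end Fermat.Agent.S18.B12.H203

end
-- ===== PACK-END S18/B12/H203/UFDStep.lean

-- ===== PACK-BEGIN S18/H754/HncMain.lean
section


/-!
# S18 / ALG-FRONT / hNC adapter, main theorem

`B` Noetherian normal domain inside a field `Ω`, `Lc ≤ Ω` a subfield of constants,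
`π = lc * ∏_{c ∈ roots} (x - c)` in `Ω` with pairwise distinct `c ∈ Lc ∖ S`, `lc ∈ Lc ∖ {0}`.
Hypotheses:
* `hw`/`hLc`  : some `w ∈ B` lies in no height-one prime containing `π`, and every constant
  becomes integral over `B` after multiplication by a power of `w` (so `Lc ⊆ O` for every
  valuation ring `O` of `Ω` dominating `B_𝔓`);
* `hunr`     : the `unramified` field of `Alg.GoodModel`, verbatim.
Conclusion: `(π)` is a radical ideal of `B`  (= hypothesis `hNC` of `B12.B2RegularStatement`).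
-/

set_option autoImplicit false

noncomputable section

namespace Fermat.Agent.S18.H754

section Main

variable {B : Type*} [CommRing B] [IsDomain B] [IsNoetherianRing B] [IsIntegrallyClosed B]
  {Ω : Type*} [Field Ω] [Algebra B Ω] [FaithfulSMul B Ω]

omit [IsDomain B] [IsNoetherianRing B] [IsIntegrallyClosed B] [FaithfulSMul B Ω] in
/-- elements integral over `B` lie in every valuation subring containing `B`. -/
theorem mem_valuationSubring_of_isIntegral (O : ValuationSubring Ω)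
    (hB : ∀ b : B, algebraMap B Ω b ∈ O) {a : Ω} (ha : IsIntegral B a) : a ∈ O := by
  obtain ⟨P, hP, hPa⟩ := ha
  let g : B →+* O := (algebraMap B Ω).codRestrict O.toSubring hB
  have hint : IsIntegral O a := by
    refine ⟨P.map g, hP.map g, ?_⟩
    rw [Polynomial.eval₂_map]
    exact hPa
  obtain ⟨y, hy⟩ := IsIntegrallyClosed.isIntegral_iff.1 hint
  rw [← hy]
  exact y.2

/-- **hNC adapter** (abstract form). -/
theorem isRadical_span_of_unramified (Lc : Subfield Ω) (π : B) (hπ : π ≠ 0)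
    (w : B) (hw : ∀ 𝔓 : Ideal B, 𝔓.IsPrime → 𝔓.height = 1 → π ∈ 𝔓 → w ∉ 𝔓)
    (hLc : ∀ a ∈ Lc, ∃ n : ℕ, IsIntegral B (algebraMap B Ω w ^ n * a))
    (x : Ω) (S : Finset Ω) (roots : Finset Ω) (hroots : ∀ c ∈ roots, c ∈ Lc ∧ c ∉ S)
    (lc : Ω) (hlc : lc ∈ Lc) (hlc0 : lc ≠ 0)
    (hfac : algebraMap B Ω π = lc * ∏ c ∈ roots, (x - c))
    (hunr : ∀ O : ValuationSubring Ω, (∀ a ∈ Lc, a ∈ O) → ∀ c ∈ Lc, c ∉ S →
        x - c ∈ O → (x - c)⁻¹ ∉ O → ∀ t ∈ O, t⁻¹ ∉ O → t * (x - c)⁻¹ ∈ O) :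
    (Ideal.span {π}).IsRadical := by
  classical
  have hinj : Function.Injective (algebraMap B Ω) := FaithfulSMul.algebraMap_injective B Ω
  refine isRadical_span_singleton_of_local_gen π hπ ?_
  intro 𝔓 h𝔓 hht hπ𝔓 b hb𝔓
  haveI := h𝔓
  by_cases hb0 : b = 0
  · refine ⟨1, ?_, ?_⟩
    · exact fun h1 => h𝔓.ne_top ((Ideal.eq_top_iff_one _).2 h1)
    · rw [hb0, mul_zero]; exact dvd_zero _
  obtain ⟨O, hBO, hunitO, hnonunitO⟩ := exists_valuationSubring_dominating (Ω := Ω) 𝔓
  set v := O.valuation with hv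
  have hvle : ∀ y : Ω, v y ≤ 1 ↔ y ∈ O := fun y => O.valuation_le_one_iff y
  -- valuations of elements of `B`
  have hvB : ∀ b : B, v (algebraMap B Ω b) ≤ 1 := fun b => (hvle _).2 (hBO b)
  have hvunit : ∀ b : B, b ∉ 𝔓 → v (algebraMap B Ω b) = 1 := by
    intro b hb
    have hb0 : algebraMap B Ω b ≠ 0 := by
      intro h0
      have : b = 0 := hinj (by rw [h0, map_zero])
      exact hb (this ▸ 𝔓.zero_mem)
    have h1 := (hvle _).2 (hunitO b hb)
    rw [map_inv₀] at h1
    have h2 := hvB b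
    have hne : v (algebraMap B Ω b) ≠ 0 := (Valuation.ne_zero_iff v).2 hb0
    have h3 : 1 ≤ v (algebraMap B Ω b) := by
      rwa [inv_le_one₀ (zero_lt_iff.2 hne)] at h1
    exact le_antisymm h2 h3
  have hvlt : ∀ b : B, b ∈ 𝔓 → v (algebraMap B Ω b) < 1 := by
    intro b hb
    by_cases hb0 : b = 0
    · rw [hb0, map_zero, map_zero]; exact zero_lt_one
    have hb0' : algebraMap B Ω b ≠ 0 := fun h0 => hb0 (hinj (by rw [h0, map_zero]))
    have h1 := hnonunitO b hb hb0
    rw [← hvle, map_inv₀, not_le] at h1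
    have hne : v (algebraMap B Ω b) ≠ 0 := (Valuation.ne_zero_iff v).2 hb0'
    exact (one_lt_inv₀ (zero_lt_iff.2 hne)).1 h1
  -- constants lie in `O`
  have hLcO : ∀ a ∈ Lc, a ∈ O := by
    intro a ha
    obtain ⟨n, hn⟩ := hLc a ha
    have h1 : algebraMap B Ω w ^ n * a ∈ O := mem_valuationSubring_of_isIntegral O hBO hn
    have hw𝔓 := hw 𝔓 h𝔓 hht hπ𝔓
    have h2 : v (algebraMap B Ω w ^ n * a) ≤ 1 := (hvle _).2 h1
    rw [map_mul, map_pow, hvunit w hw𝔓, one_pow, one_mul] at h2
    exact (hvle _).1 h2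
  have hvLc : ∀ a ∈ Lc, a ≠ 0 → v a = 1 := by
    intro a ha ha0
    have h1 : v a ≤ 1 := (hvle _).2 (hLcO a ha)
    have h2 : v a⁻¹ ≤ 1 := (hvle _).2 (hLcO _ (Lc.inv_mem ha))
    rw [map_inv₀] at h2
    have hne : v a ≠ 0 := (Valuation.ne_zero_iff v).2 ha0
    have h3 : 1 ≤ v a := by rwa [inv_le_one₀ (zero_lt_iff.2 hne)] at h2
    exact le_antisymm h1 h3
  -- the valuation of `π`
  have hπ0 : algebraMap B Ω π ≠ 0 := fun h0 => hπ (hinj (by rw [h0, map_zero]))
  have hvπ : v (algebraMap B Ω π) < 1 := hvlt π hπ𝔓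
  have hprod : v (algebraMap B Ω π) = ∏ c ∈ roots, v (x - c) := by
    rw [hfac, map_mul, hvLc lc hlc hlc0, one_mul, map_prod]
  have hfactor0 : ∀ c ∈ roots, x - c ≠ 0 := by
    intro c hc h0
    apply hπ0
    rw [hfac, Finset.prod_eq_zero hc h0, mul_zero]
  -- `x ∈ O`
  have hxO : v x ≤ 1 := by
    by_contra hx
    rw [not_le] at hx
    have h1 : ∀ c ∈ roots, 1 ≤ v (x - c) := by
      intro c hc
      have hcv : v c ≤ 1 := (hvle _).2 (hLcO c (hroots c hc).1)
      have : v (x - c) = v x := Valuation.map_sub_eq_of_lt_left v (lt_of_le_of_lt hcv hx)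
      rw [this]
      exact hx.le
    have h2 : 1 ≤ ∏ c ∈ roots, v (x - c) := Finset.one_le_prod' h1
    rw [← hprod] at h2
    exact absurd hvπ (not_lt.2 h2)
  have hfle : ∀ c ∈ roots, v (x - c) ≤ 1 := by
    intro c hc
    have hcv : v c ≤ 1 := (hvle _).2 (hLcO c (hroots c hc).1)
    exact (Valuation.map_sub v x c).trans (max_le hxO hcv)
  -- some factor is a non-unit
  have hex : ∃ c₀ ∈ roots, v (x - c₀) < 1 := by
    by_contra hcon
    have h1 : ∀ c ∈ roots, v (x - c) = 1 := by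
      intro c hc
      by_contra hne
      exact hcon ⟨c, hc, lt_of_le_of_ne (hfle c hc) hne⟩
    rw [hprod, Finset.prod_eq_one h1] at hvπ
    exact lt_irrefl _ hvπ
  obtain ⟨c₀, hc₀, hvc₀⟩ := hex
  have hother : ∀ c ∈ roots.erase c₀, v (x - c) = 1 := by
    intro c hc
    rw [Finset.mem_erase] at hc
    have h1 : x - c = (x - c₀) + (c₀ - c) := by ring
    have h2 : v (c₀ - c) = 1 :=
      hvLc _ (Lc.sub_mem (hroots c₀ hc₀).1 (hroots c hc.2).1) (sub_ne_zero.2 (Ne.symm hc.1))
    rw [h1, Valuation.map_add_eq_of_lt_right v (by rw [h2]; exact hvc₀), h2]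
  have hvπ' : v (algebraMap B Ω π) = v (x - c₀) := by
    rw [hprod, ← Finset.mul_prod_erase roots _ hc₀, Finset.prod_eq_one hother, mul_one]
  -- apply `unramified`
  have hkey : ∀ t : Ω, t ≠ 0 → v t < 1 → v t ≤ v (algebraMap B Ω π) := by
    intro t ht0 hvt
    have hc₀0 := hfactor0 c₀ hc₀
    have hne : v (x - c₀) ≠ 0 := (Valuation.ne_zero_iff v).2 hc₀0
    have hnet : v t ≠ 0 := (Valuation.ne_zero_iff v).2 ht0
    have h1 : (x - c₀)⁻¹ ∉ O := by
      rw [← hvle, map_inv₀, not_le]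
      exact (one_lt_inv₀ (zero_lt_iff.2 hne)).2 hvc₀
    have h2 : t⁻¹ ∉ O := by
      rw [← hvle, map_inv₀, not_le]
      exact (one_lt_inv₀ (zero_lt_iff.2 hnet)).2 hvt
    have h3 := hunr O hLcO c₀ (hroots c₀ hc₀).1 (hroots c₀ hc₀).2
      ((hvle _).1 hvc₀.le) h1 t ((hvle _).1 hvt.le) h2
    rw [← hvle, map_mul, map_inv₀] at h3
    rw [hvπ']
    rwa [← div_eq_mul_inv, div_le_one₀ (zero_lt_iff.2 hne)] at h3
  -- `B_𝔓` is a valuation ring
  have hb0' : algebraMap B Ω b ≠ 0 := fun h0 => hb0 (hinj (by rw [h0, map_zero]))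
  obtain ⟨s, hs, hd | hd⟩ := exists_dvd_or_dvd_of_height_one 𝔓 hht b π
  · exact ⟨s, hs, hd⟩
  · obtain ⟨d, hd⟩ := hd
    -- `s π = b d`, so `v d = v π / v b ≥ 1`, so `d ∉ 𝔓`
    have h1 : v (algebraMap B Ω π) = v (algebraMap B Ω b) * v (algebraMap B Ω d) := by
      have := congrArg (fun y => v (algebraMap B Ω y)) hd
      simp only [map_mul] at this
      rwa [hvunit s hs, one_mul] at this
    have h2 := hkey _ hb0' (hvlt b hb𝔓)
    have hd𝔓 : d ∉ 𝔓 := by
      intro hd𝔓
      have h3 := hvlt d hd𝔓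
      have hnb : v (algebraMap B Ω b) ≠ 0 := (Valuation.ne_zero_iff v).2 hb0'
      have h4 : v (algebraMap B Ω b) * v (algebraMap B Ω d) < v (algebraMap B Ω b) * 1 :=
        mul_lt_mul_of_pos_left h3 (zero_lt_iff.2 hnb)
      rw [mul_one, ← h1] at h4
      exact absurd h2 (not_le.2 h4)
    refine ⟨d, hd𝔓, s, ?_⟩
    rw [mul_comm d b, ← hd, mul_comm]

end Main

end Fermat.Agent.S18.H754

end

end
-- ===== PACK-END S18/H754/HncMain.lean

-- ===== PACK-BEGIN S33/H692/OrdAlgSpec.lean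
section
/-
Row S33 (ordinary at `p ‖ N`), piece EIG, pure algebra: specialisation to a field (helper692).

`ρ : G → End_T V` (`V` free of rank two with basis `b`, `T[G] → End_T V` onto), `ψ : T → O`,
`ρM : G → End_O M` (`M` free with basis `c`) satisfying the quadratic relations of `ρ` along `ψ`.
For a ring homomorphism `ι : O → F` into a field with `2 ≠ 0` the coordinate specialisations
`specRep (ι ∘ ψ) b ρ` on `F²` and `specRep ι c ρM` on `Fⁿ` are related by a Boston–Lenstra–Ribet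
algebra homomorphism `Ψ : End (F²) → End (Fⁿ)`.
-/





set_option autoImplicit false
set_option linter.unusedSectionVars false

noncomputable section

namespace Fermat.Agent.S33.H692

open Module Fermat.Agent.S32.H152 Fermat.Agent.Lib.Ribet.H223

section Coord

variable {R : Type*} [CommRing R] {F : Type*} [Field F] (f : R →+* F) {m : Type*} [Fintype m]
  [DecidableEq m] {X : Type*} [AddCommGroup X] [Module R X] (e : Module.Basis m R X)
  {G : Type*} [Group G]

/-- The specialisation of an action, in coordinates. -/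
def specRep (r : G →* Module.End R X) : G →* Module.End F (m → F) :=
  ((embEnd f e : Module.End R X →+* _) : Module.End R X →* _).comp r

theorem specRep_apply (r : G →* Module.End R X) (g : G) :
    specRep f e r g = embEnd f e (r g) := rfl

theorem embEnd_det (E : Module.End R X) :
    LinearMap.det (embEnd f e E) = f (LinearMap.det E) := by
  rw [embEnd_eq, LinearMap.det_toLin', ← LinearMap.det_toMatrix e]
  exact (RingHom.map_det f _).symm

theorem embEnd_injective (hf : Function.Injective f) : Function.Injective (embEnd f e) := by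
  rw [injective_iff_map_eq_zero]
  intro E hE
  rw [embEnd_eq] at hE
  have h1 : (LinearMap.toMatrix e e E).map f = 0 := by
    apply Matrix.toLin'.injective
    rw [hE, map_zero]
  have h2 : LinearMap.toMatrix e e E = 0 := by
    ext i j
    apply hf
    have := congrFun (congrFun h1 i) j
    rw [Matrix.map_apply] at this
    rw [this, Matrix.zero_apply, Matrix.zero_apply, map_zero]
  exact (LinearMap.toMatrix e e).injective (by rw [h2, map_zero])

/-- The coordinate map sends `I_aug` into `I_aug`. -/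
theorem embCoord_mem_augSub (r : G →* Module.End R X) (I : Set G) {y : X}
    (hy : y ∈ augSub I r) : embCoord f e y ∈ augSub I (specRep f e r) := by
  induction hy using Submodule.span_induction with
  | mem y hy =>
    obtain ⟨σ, hσ, x, rfl⟩ := hy
    rw [map_sub, ← embEnd_coord, ← specRep_apply]
    exact sub_mem_augSub _ hσ _
  | zero =>
    rw [map_zero]
    exact zero_mem _
  | add x y _ _ hx hy =>
    rw [map_add]
    exact add_mem hx hy
  | smul a x _ hx =>
    rw [embCoord_smul]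
    exact Submodule.smul_mem _ _ hx

/-- A vector with coordinates in the image of `f` is a coordinate vector. -/
theorem exists_embCoord_eq (x : m → F) (hx : ∀ j, ∃ a : R, f a = x j) :
    ∃ v : X, embCoord f e v = x := by
  choose a ha using hx
  refine ⟨∑ j, a j • e j, ?_⟩
  funext j
  rw [embCoord_apply]
  simp only [map_sum, map_smul, Module.Basis.repr_self, Finsupp.coe_finsetSum, Finset.sum_apply,
    Finsupp.smul_apply, Finsupp.single_apply, smul_eq_mul, mul_ite, mul_one, mul_zero,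
    Finset.sum_ite_eq', Finset.mem_univ, if_true]
  exact ha j

end Coord

section Spec

variable {T : Type*} [CommRing T] {G : Type*} [Group G]
  {V : Type*} [AddCommGroup V] [Module T V] (b : Module.Basis (Fin 2) T V)
  (ρ : G →* Module.End T V)
  {O : Type*} [CommRing O] (ψ : T →+* O)
  {M : Type*} [AddCommGroup M] [Module O M] {n : Type*} [Fintype n] [DecidableEq n]
  (c : Module.Basis n O M) (ρM : G →* Module.End O M)
  {F : Type*} [Field F] (ι : O →+* F)

/-- `F[G] → End (F²)` is onto when `T[G] → End_T V` is. -/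
theorem spec_surjective (hspan : Submodule.span T (Set.range ρ) = ⊤) (f : T →+* F) :
    Function.Surjective
      (MonoidAlgebra.lift F (Module.End F (Fin 2 → F)) G (specRep f b ρ)) := by
  set A₀ := (MonoidAlgebra.lift F (Module.End F (Fin 2 → F)) G (specRep f b ρ)).range with hA₀
  have hg : ∀ g, specRep f b ρ g ∈ A₀ := fun g =>
    ⟨MonoidAlgebra.of F G g, MonoidAlgebra.lift_of _ _⟩
  have hall : ∀ E : Module.End T V, embEnd f b E ∈ A₀ := by
    intro E
    have hE : E ∈ Submodule.span T (Set.range ρ) := by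
      rw [hspan]
      exact Submodule.mem_top
    induction hE using Submodule.span_induction with
    | mem x hx =>
      obtain ⟨g, rfl⟩ := hx
      exact hg g
    | zero =>
      rw [map_zero]
      exact zero_mem _
    | add x y _ _ hx hy =>
      rw [map_add]
      exact add_mem hx hy
    | smul t x _ hx =>
      rw [embEnd_smul]
      exact Subalgebra.smul_mem _ hx _
  intro y
  have hy : y ∈ A₀ := by
    obtain ⟨Y, rfl⟩ := (Matrix.toLinAlgEquiv' : Matrix (Fin 2) (Fin 2) F ≃ₐ[F] _).surjective y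
    rw [Matrix.matrix_eq_sum_single Y]
    simp only [map_sum]
    refine Subalgebra.sum_mem _ fun i _ => Subalgebra.sum_mem _ fun j _ => ?_
    have e1 : (Matrix.single i j (Y i j) : Matrix (Fin 2) (Fin 2) F)
        = Y i j • Matrix.single i j (1 : F) := by
      rw [Matrix.smul_single, smul_eq_mul, mul_one]
    rw [e1, map_smul]
    refine Subalgebra.smul_mem _ ?_ _
    have e2 := embEnd_single f b i j
    have e3 : (Matrix.toLinAlgEquiv' : Matrix (Fin 2) (Fin 2) F ≃ₐ[F] _)
        (Matrix.single i j (1 : F)) = Matrix.toLin' (Matrix.single i j (1 : F)) := rfl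
    rw [e3, ← e2]
    exact hall _
  exact hy

/-- **Boston–Lenstra–Ribet for the specialisations.** -/
theorem exists_spec_algHom (hspan : Submodule.span T (Set.range ρ) = ⊤)
    (hrel : ∀ g : G, ρM g * ρM g - ψ (LinearMap.trace T V (ρ g)) • ρM g
      + ψ (LinearMap.det (ρ g)) • (1 : Module.End O M) = 0)
    (h2F : (2 : F) ≠ 0) :
    ∃ Ψ : Module.End F (Fin 2 → F) →ₐ[F] Module.End F (n → F),
      ∀ g, Ψ (specRep (ι.comp ψ) b ρ g) = specRep ι c ρM g := by
  set f : T →+* F := ι.comp ψ with hf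
  set d : G →* F := ((f : T →* F).comp (LinearMap.det : Module.End T V →* T)).comp ρ with hd
  have hdg : ∀ g, d g = f (LinearMap.det (ρ g)) := fun g => rfl
  have hfin2 : Module.finrank F (Fin 2 → F) = 2 := by simp
  have hπ : ∀ g, specRep ι c ρM g * specRep ι c ρM g
      - LinearMap.trace F (Fin 2 → F) (specRep f b ρ g) • specRep ι c ρM g + d g • 1 = 0 := by
    intro g
    have h := congrArg (embEnd ι c) (hrel g)
    rw [map_zero, map_add, map_sub, map_mul, embEnd_smul, embEnd_smul, map_one] at h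
    rw [specRep_apply, specRep_apply, embEnd_trace, hdg]
    exact h
  obtain ⟨Ψ, -, hΨ⟩ := blr_exists_algHom h2F (specRep f b ρ) (specRep ι c ρM) d
    (LinearMap.trace F (Fin 2 → F)) hπ (spec_surjective b ρ hspan f)
    (exists_commutator_sq_eq_one hfin2)
  exact ⟨Ψ, hΨ⟩

end Spec

end Fermat.Agent.S33.H692

end
end
-- ===== PACK-END S33/H692/OrdAlgSpec.lean

-- ===== PACK-BEGIN S56/P3/Spec.lean
section



/-!
# S56, piece P3 (`Fermat.Agent.S56.TWElementStatement`) : FROZEN SUB-INTERFACE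

Sub-architect: helper306.  Plan + mathematics of every piece: `origin/helper306:coord/S56-P3.md`.
Top glue (PROVED, sorry-free): `Fermat/Agent/S56/P3/Glue.lean`

    twElement_of_pieces : AbstractTWElementStatement → ExistsRegularStatement →
      CycloQuotientStatement → CycExpExistsStatement → DetOrderStatement →
      Fermat.Agent.S56.TWElementStatement

Every `...Statement : Prop` below is a deliverable: a piece is DONE when some file proves
`theorem <name> : Fermat.Agent.S56.P3.<Name>Statement` (sorry-free, standard axioms).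
Glue pieces take the statements they need as hypotheses.
-/

set_option autoImplicit false

open Polynomial

namespace Fermat.Agent.S56.P3

/-! ## Part A : abstract group theory (`Γ` any group, `ρ : Γ →* End V`, `dim V = 2`) -/

/-- (IRR) under `TWHyp`, `ad⁰ρ` is irreducible: a nonzero conjugation-stable subspace of the
trace-zero endomorphisms contains every trace-zero endomorphism. -/
def Ad0IrreducibleStatement : Prop :=
  ∀ (k : Type) [Field k] (V : Type) [AddCommGroup V] [Module k V] [Module.Finite k V]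
    (Γ : Type) [Group Γ] (ρ : Γ →* Module.End k V) (p : ℕ) [Fact p.Prime], p ≠ 2 → TWHyp ρ p →
    ∀ W : Submodule k (Module.End k V), (∀ A ∈ W, LinearMap.trace k V A = 0) →
      (∀ g : Γ, ∀ A ∈ W, ρ g * A * ρ g⁻¹ ∈ W) → W ≠ ⊥ →
      ∀ A : Module.End k V, LinearMap.trace k V A = 0 → A ∈ W

/-- (SPAN) `ρ|_Δ` is absolutely irreducible for `Δ ⊴ Γ` with cyclic quotient, in Burnside form:
the `k`-span of `ρ(Δ)` is all of `End V`. -/
def SpanDeltaStatement : Prop :=
  ∀ (k : Type) [Field k] (V : Type) [AddCommGroup V] [Module k V] [Module.Finite k V]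
    (Γ : Type) [Group Γ] (ρ : Γ →* Module.End k V) (p : ℕ) [Fact p.Prime], p ≠ 2 → TWHyp ρ p →
    ∀ (Δ : Subgroup Γ) [Δ.Normal], IsCyclic (Γ ⧸ Δ) →
      Submodule.span k (Set.range fun δ : Δ => ρ (δ : Γ)) = ⊤

/-- (REG) `Δ` contains an element with two distinct eigenvalues. -/
def ExistsRegularStatement : Prop :=
  ∀ (k : Type) [Field k] (V : Type) [AddCommGroup V] [Module k V] [Module.Finite k V]
    (Γ : Type) [Group Γ] (ρ : Γ →* Module.End k V) (p : ℕ) [Fact p.Prime], p ≠ 2 → TWHyp ρ p →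
    ∀ (Δ : Subgroup Γ) [Δ.Normal], IsCyclic (Γ ⧸ Δ) → ∃ σ ∈ Δ, _root_.Fermat.Agent.S56.P3.IsRegular ρ σ

/-- (H1-CORE) the matrix core of `H¹(Gal(F_n/ℚ), ad⁰ρ̄(1)) = 0` (helper726's classification-free
theorem): `ρ : G →* M₂(k)`, `H ⊴ G` with `det ρ = 1` on `H` and `span ρ(H) = M₂(k)`, some
`det ρ(g) ∉ {1, -1}` if `p = 5`; a twisted trace-zero cocycle vanishing on `H ∩ ker ρ` is a
coboundary. -/
def H1CoreStatement : Prop :=
  ∀ (k : Type) [Field k] [Finite k] (p : ℕ) [Fact p.Prime], p ≠ 2 → (p : k) = 0 →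
    ∀ (G : Type) [Group G] (ρ : G →* Matrix (Fin 2) (Fin 2) k) (H : Subgroup G) [H.Normal],
    (∀ h ∈ H, (ρ h).det = 1) → Submodule.span k (Set.range fun h : H => ρ (h : G)) = ⊤ →
    (p = 5 → ∃ g : G, (ρ g).det ≠ 1 ∧ (ρ g).det ≠ -1) →
    ∀ ψ : G → Matrix (Fin 2) (Fin 2) k, (∀ g, (ψ g).trace = 0) →
      (∀ g h, ψ (g * h) = ψ g + (ρ g).det • (ρ g * ψ h * ρ g⁻¹)) →
      (∀ h ∈ H, ρ h = 1 → ψ h = 0) →
      ∃ m : Matrix (Fin 2) (Fin 2) k, m.trace = 0 ∧
        ∀ g, ψ g = (ρ g).det • (ρ g * m * ρ g⁻¹) - m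

/-- (H1) `H¹(Gal(F_n/ℚ), ad⁰ρ̄(1)) = 0`: a cocycle vanishing on `Δ ∩ ker ρ` is a coboundary. -/
def H1VanishStatement : Prop :=
  ∀ (k : Type) [Field k] [Finite k] (V : Type) [AddCommGroup V] [Module k V]
    [Module.Finite k V] (Γ : Type) [Group Γ] (ρ : Γ →* Module.End k V) (p : ℕ)
    [Fact p.Prime], p ≠ 2 → TWHyp ρ p →
    ∀ (Δ : Subgroup Γ) [Δ.Normal], IsCyclic (Γ ⧸ Δ) → (∀ δ ∈ Δ, LinearMap.det (ρ δ) = 1) →
    (∃ γ : Γ, orderOf (LinearMap.det (ρ γ)) = p - 1) →
    ∀ ψ : Γ → Module.End k V, _root_.Fermat.Agent.S56.P3.IsTwCocycle ρ ψ → (∀ δ ∈ Δ, ρ δ = 1 → ψ δ = 0) →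
      _root_.Fermat.Agent.S56.P3.IsTwCoboundary ρ ψ

/-- (SEL) selection of a Taylor–Wiles element for a non-trivial class. -/
def AbstractTWElementStatement : Prop :=
  ∀ (k : Type) [Field k] [Finite k] (V : Type) [AddCommGroup V] [Module k V]
    [Module.Finite k V] (Γ : Type) [Group Γ] (ρ : Γ →* Module.End k V) (p : ℕ)
    [Fact p.Prime], p ≠ 2 → TWHyp ρ p →
    ∀ (Δ : Subgroup Γ) [Δ.Normal], IsCyclic (Γ ⧸ Δ) → (∀ δ ∈ Δ, LinearMap.det (ρ δ) = 1) →
    (∃ γ : Γ, orderOf (LinearMap.det (ρ γ)) = p - 1) →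
    ∀ ψ : Γ → Module.End k V, _root_.Fermat.Agent.S56.P3.IsTwCocycle ρ ψ → ¬ _root_.Fermat.Agent.S56.P3.IsTwCoboundary ρ ψ →
      ∃ σ ∈ Δ, IsTWElement ρ ψ σ

/-! ## Part B : arithmetic inputs for `Γ = G_ℚ` -/

/-- (CYC) `G_{ℚ(ζ_{p^(n+1)})}` is normal in `G_ℚ` with cyclic quotient (`p` odd). -/
def CycloQuotientStatement : Prop :=
  ∀ (p : ℕ) [Fact p.Prime], p ≠ 2 → ∀ n : ℕ,
    ∃ _ : (fixRootsSubgroup p n).Normal, IsCyclic (_root_.Fermat.Agent.S56.P3.GQ ⧸ fixRootsSubgroup p n)

/-- (CYCEXP) every `σ ∈ G_ℚ` has a cyclotomic exponent on `μ_p`. -/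
def CycExpExistsStatement : Prop :=
  ∀ (p : ℕ) [Fact p.Prime] (σ : _root_.Fermat.Agent.S56.P3.GQ), ∃ a : ℕ, Fermat.Agent.S56.IsCycExp p σ a

/-- (DETORD) the mod `p` cyclotomic character is onto `𝔽_p^×`: if `det ρ̄` is cyclotomic, it
takes a value of exact order `p - 1`. -/
def DetOrderStatement : Prop :=
  ∀ (k : Type) [Field k] (p : ℕ) [Fact p.Prime] (ρbar : ResidualGaloisRep k),
    (GaloisRepAdic.ofResidualGaloisRep ρbar).DetIsCyclotomic p →
      ∃ γ : _root_.Fermat.Agent.S56.P3.GQ, orderOf (LinearMap.det (ρbar.ρ γ)) = p - 1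

end Fermat.Agent.S56.P3

end
-- ===== PACK-END S56/P3/Spec.lean

-- ===== PACK-BEGIN S14/H937/Setup.lean
section






/-!
# S14, blocks LOCAL-I / LOCAL-D (helper937): finite-level package

`A` a valuation subring of `ℚ̄`, `K` a number field inside `ℚ̄`, `M/K` a finite Galois extension
inside `ℚ̄`.  We relate `A` to the primes of `𝓞 K` and `𝓞 M` below it, and lift elements of the
inertia / decomposition groups of `Gal(M/K)` to `Gal(ℚ̄/K)`.
-/

set_option autoImplicit false
set_option linter.style.haveILetI false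

open NumberField
open scoped Pointwise

namespace Fermat.Agent.S14.H937

/-- `ℚ̄`. -/
abbrev Qb := AlgebraicClosure ℚ

theorem h937_isAlgebraic : Algebra.IsAlgebraic ℚ Qb := AlgebraicClosure.isAlgebraic ℚ

section toZbar

variable (F : Type*) [Field F] [Algebra F Qb]

/-- The ring hom from the integers of a field mapping to `ℚ̄` to the ring of all algebraic
integers. -/
noncomputable def toZbar : 𝓞 F →+* integralClosure ℤ Qb where
  toFun x := ⟨algebraMap F Qb (x : F), map_isIntegral_int (algebraMap F Qb) x.2⟩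
  map_one' := by ext; simp
  map_mul' x y := by ext; simp
  map_zero' := by ext; simp
  map_add' x y := by ext; simp

theorem toZbar_coe (x : 𝓞 F) : ((toZbar F x : integralClosure ℤ Qb) : Qb) =
    algebraMap F Qb (x : F) := rfl

/-- The prime of `𝓞 F` below a valuation subring of `ℚ̄`. -/
noncomputable def primeOf (A : ValuationSubring Qb) : Ideal (𝓞 F) :=
  (Fermat.Agent.S54.primeBelow A).comap (toZbar F)

theorem mem_primeOf (A : ValuationSubring Qb) (x : 𝓞 F) :
    x ∈ primeOf F A ↔ algebraMap F Qb (x : F) ∈ A.nonunits := Iff.rfl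

instance primeOf_isPrime (A : ValuationSubring Qb) : (primeOf F A).IsPrime :=
  haveI := Fermat.Agent.S54.primeBelow_isPrime A
  Ideal.comap_isPrime _ _

theorem natCast_mem_primeOf (A : ValuationSubring Qb) (ℓ : ℕ) (hA : A.LiesOverPrime ℓ) :
    (ℓ : 𝓞 F) ∈ primeOf F A := by
  rw [mem_primeOf]
  have hA' : (ℓ : Qb) ∈ A.nonunits := hA
  simpa using hA'

theorem primeOf_ne_bot [CharZero F] (A : ValuationSubring Qb) (ℓ : ℕ) (hℓ : ℓ.Prime)
    (hA : A.LiesOverPrime ℓ) : primeOf F A ≠ ⊥ := by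
  intro h
  have h1 := natCast_mem_primeOf F A ℓ hA
  rw [h, Ideal.mem_bot] at h1
  have : (ℓ : 𝓞 F) ≠ 0 := by
    exact_mod_cast hℓ.ne_zero
  exact this h1

end toZbar

section dict

open IsDedekindDomain

variable (F : Type*) [Field F] [NumberField F] [Algebra F Qb]
variable (A : ValuationSubring Qb) (w : HeightOneSpectrum (𝓞 F)) (hw : w.asIdeal = primeOf F A)

omit [NumberField F] in
theorem integer_mem (x : 𝓞 F) : algebraMap F Qb (x : F) ∈ A :=
  Fermat.Agent.S54.isIntegral_mem_valuationSubring A (map_isIntegral_int (algebraMap F Qb) x.2)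

theorem mul_mem_nonunits_left {a b : Qb} (ha : a ∈ A.nonunits) (hb : b ∈ A) :
    a * b ∈ A.nonunits := by
  obtain ⟨h1, h2⟩ := ValuationSubring.mem_nonunits_iff_exists_mem_maximalIdeal.mp ha
  have := Ideal.mul_mem_right (⟨b, hb⟩ : A) _ h2
  exact ValuationSubring.mem_nonunits_iff_exists_mem_maximalIdeal.mpr ⟨_, this⟩

theorem inv_mem_of_not_mem_nonunits {a : Qb} (ha : a ∉ A.nonunits) : a⁻¹ ∈ A := by
  by_contra h
  exact ha (A.mem_nonunits_iff_or.mpr (Or.inr h))

include hw in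
theorem mem_of_valuation_le_one (x : F) (hx : w.valuation F x ≤ 1) :
    algebraMap F Qb x ∈ A := by
  obtain ⟨n, d, hnd⟩ := w.exists_primeCompl_mul_eq_of_integer x hx
  have hd : algebraMap F Qb ((d : 𝓞 F) : F) ∉ A.nonunits := by
    have h1 : (d : 𝓞 F) ∉ primeOf F A := by
      rw [← hw]; exact d.2
    rw [mem_primeOf] at h1
    exact h1
  have hd0 : algebraMap F Qb ((d : 𝓞 F) : F) ≠ 0 := fun h0 => hd (h0 ▸ A.nonunits.zero_mem)
  have h2 : algebraMap F Qb x = algebraMap F Qb ((n : 𝓞 F) : F) *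
      (algebraMap F Qb ((d : 𝓞 F) : F))⁻¹ := by
    rw [eq_mul_inv_iff_mul_eq₀ hd0, ← map_mul]
    congr 1
  rw [h2]
  exact A.mul_mem _ _ (integer_mem F A n) (inv_mem_of_not_mem_nonunits A hd)

include hw in
theorem mem_nonunits_of_valuation_lt_one (x : F) (hx : w.valuation F x < 1) :
    algebraMap F Qb x ∈ A.nonunits := by
  obtain ⟨n, d, hnd⟩ := w.exists_primeCompl_mul_eq_of_integer x hx.le
  have hd : algebraMap F Qb ((d : 𝓞 F) : F) ∉ A.nonunits := by
    have h1 : (d : 𝓞 F) ∉ primeOf F A := by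
      rw [← hw]; exact d.2
    rw [mem_primeOf] at h1
    exact h1
  have hd0 : algebraMap F Qb ((d : 𝓞 F) : F) ≠ 0 := fun h0 => hd (h0 ▸ A.nonunits.zero_mem)
  have hdv : w.valuation F ((d : 𝓞 F) : F) = 1 := by
    rw [HeightOneSpectrum.valuation_of_algebraMap, HeightOneSpectrum.intValuation_eq_one_iff_mem_primeCompl]
    exact d.2
  have hn : (n : 𝓞 F) ∈ w.asIdeal := by
    rw [← HeightOneSpectrum.valuation_lt_one_iff_mem (K := F)]
    have : w.valuation F ((n : 𝓞 F) : F) = w.valuation F x * w.valuation F ((d : 𝓞 F) : F) := by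
      rw [← map_mul]; congr 1; exact hnd.symm
    rw [this, hdv, mul_one]
    exact hx
  rw [hw, mem_primeOf] at hn
  have h2 : algebraMap F Qb x = algebraMap F Qb ((n : 𝓞 F) : F) *
      (algebraMap F Qb ((d : 𝓞 F) : F))⁻¹ := by
    rw [eq_mul_inv_iff_mul_eq₀ hd0, ← map_mul]
    congr 1
  rw [h2]
  exact _root_.Fermat.Agent.S14.H937.mul_mem_nonunits_left A hn (inv_mem_of_not_mem_nonunits A hd)

include hw in
theorem valuation_eq_one_of (x : F) (hx : w.valuation F x = 1) :
    A.valuation (algebraMap F Qb x) = 1 := by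
  have hx0 : x ≠ 0 := by
    rintro rfl
    simp at hx
  have h1 := mem_of_valuation_le_one F A w hw x hx.le
  have h2 : w.valuation F x⁻¹ ≤ 1 := by
    rw [map_inv₀, hx, inv_one]
  have h3 := mem_of_valuation_le_one F A w hw x⁻¹ h2
  rw [map_inv₀] at h3
  apply le_antisymm
  · exact (A.valuation_le_one_iff _).mpr h1
  · have h4 := (A.valuation_le_one_iff _).mpr h3
    rw [map_inv₀] at h4
    have hne : A.valuation (algebraMap F Qb x) ≠ 0 := by
      rw [Valuation.ne_zero_iff]
      simpa using hx0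
    exact (inv_le_one₀ (zero_lt_iff.mpr hne)).mp h4

include hw in
theorem valuation_le_one_of_mem (x : F) (hx : algebraMap F Qb x ∈ A) :
    w.valuation F x ≤ 1 := by
  by_contra hcon
  rw [not_le] at hcon
  have hx0 : x ≠ 0 := by
    rintro rfl
    simp at hcon
  have h1 : w.valuation F x⁻¹ < 1 := by
    rw [map_inv₀]
    exact inv_lt_one_of_one_lt₀ hcon
  have h2 := mem_nonunits_of_valuation_lt_one F A w hw x⁻¹ h1
  rw [map_inv₀, ValuationSubring.mem_nonunits_iff, map_inv₀] at h2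
  have h3 := (A.valuation_le_one_iff _).mpr hx
  have hne : A.valuation (algebraMap F Qb x) ≠ 0 := by
    rw [Valuation.ne_zero_iff]
    simpa using hx0
  have h4 : 1 < A.valuation (algebraMap F Qb x) := by
    have := (inv_lt_one₀ (zero_lt_iff.mpr hne)).mp h2
    exact this
  exact absurd h3 (not_le.mpr h4)

end dict

end Fermat.Agent.S14.H937

end
-- ===== PACK-END S14/H937/Setup.lean

-- ===== PACK-BEGIN S19/H135/Zl.lean
section
/-
Cell A3 / WP-C (helper135): arithmetic of `ℤ_(ℓ) = GaloisRep.ratLocalizedAt ℓ` inside `ℚ̄`: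
fraction field, Galois-fixed integral elements.
-/



set_option autoImplicit false

namespace Fermat.Agent.S19.H135

variable (ℓ : ℕ)

theorem intCast_mem_ratLocalizedAt (n : ℤ) : (n : ℚ) ∈ GaloisRep.ratLocalizedAt ℓ := by
  show ((n : ℚ)).den.Coprime ℓ
  simp

theorem isFractionRing_ratLocalizedAt : IsFractionRing (GaloisRep.ratLocalizedAt ℓ) ℚ := by
  refine IsFractionRing.of_field _ _ (fun z => ?_)
  refine ⟨⟨(z.num : ℚ), intCast_mem_ratLocalizedAt ℓ z.num⟩,
    ⟨((z.den : ℤ) : ℚ), intCast_mem_ratLocalizedAt ℓ z.den⟩, ?_⟩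
  show z = (z.num : ℚ) / (((z.den : ℤ) : ℚ))
  rw [Int.cast_natCast]
  exact (Rat.num_div_den z).symm

theorem algebraMap_ratLocalizedAt_apply (r : GaloisRep.ratLocalizedAt ℓ) :
    algebraMap (GaloisRep.ratLocalizedAt ℓ) (AlgebraicClosure ℚ) r =
      algebraMap ℚ (AlgebraicClosure ℚ) (r : ℚ) := rfl

theorem algebraMap_ratLocalizedAt_injective :
    Function.Injective (algebraMap (GaloisRep.ratLocalizedAt ℓ) (AlgebraicClosure ℚ)) := by
  intro r s h
  rw [algebraMap_ratLocalizedAt_apply, algebraMap_ratLocalizedAt_apply] at h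
  exact Subtype.ext ((algebraMap ℚ (AlgebraicClosure ℚ)).injective h)

/-- `ℚ̄ / ℚ` is Galois. -/
theorem isGalois_Qb_h135 : IsGalois ℚ (AlgebraicClosure ℚ) := by
  have h1 : Algebra.IsAlgebraic ℚ (AlgebraicClosure ℚ) := AlgebraicClosure.isAlgebraic ℚ
  have h2 : IsAlgClosure ℚ (AlgebraicClosure ℚ) := ⟨inferInstance, inferInstance⟩
  have h3 : Normal ℚ (AlgebraicClosure ℚ) := IsAlgClosure.normal ℚ (AlgebraicClosure ℚ)
  exact isGalois_iff.mpr ⟨inferInstance, inferInstance⟩

/-- Galois-fixed elements of `ℚ̄` are rational. -/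
theorem exists_rat_of_fixed {z : AlgebraicClosure ℚ}
    (hfix : ∀ σ : AlgebraicClosure ℚ ≃ₐ[ℚ] AlgebraicClosure ℚ, σ z = z) :
    ∃ x : ℚ, algebraMap ℚ (AlgebraicClosure ℚ) x = z := by
  have := isGalois_Qb_h135
  exact (InfiniteGalois.mem_range_algebraMap_iff_fixed (k := ℚ)
    (K := AlgebraicClosure ℚ) z).mpr hfix

variable [Fact ℓ.Prime]

/-- A rational number which is integral over `ℤ_(ℓ)` lies in `ℤ_(ℓ)`. -/
theorem mem_ratLocalizedAt_of_isIntegral {x : ℚ} (hx : IsIntegral (GaloisRep.ratLocalizedAt ℓ) x) :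
    ∃ r : GaloisRep.ratLocalizedAt ℓ, (r : ℚ) = x := by
  have := isFractionRing_ratLocalizedAt ℓ
  exact IsIntegrallyClosed.isIntegral_iff.mp hx

/-- An element of `ℚ̄` which is integral over `ℤ_(ℓ)` and fixed by the absolute Galois group
lies in `ℤ_(ℓ)`. -/
theorem exists_ratLocalizedAt_of_fixed_of_isIntegral {z : AlgebraicClosure ℚ}
    (hfix : ∀ σ : AlgebraicClosure ℚ ≃ₐ[ℚ] AlgebraicClosure ℚ, σ z = z)
    (hint : IsIntegral (GaloisRep.ratLocalizedAt ℓ) z) :
    ∃ r : GaloisRep.ratLocalizedAt ℓ, algebraMap _ (AlgebraicClosure ℚ) r = z := by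
  obtain ⟨x, rfl⟩ := exists_rat_of_fixed hfix
  have hx : IsIntegral (GaloisRep.ratLocalizedAt ℓ) x :=
    (isIntegral_algebraMap_iff (algebraMap ℚ (AlgebraicClosure ℚ)).injective).mp hint
  obtain ⟨r, rfl⟩ := mem_ratLocalizedAt_of_isIntegral ℓ hx
  exact ⟨r, rfl⟩

end Fermat.Agent.S19.H135

end
-- ===== PACK-END S19/H135/Zl.lean

-- ===== PACK-BEGIN S37/H939/Order.lean
section



/-!
# Comparison of two orders over `k[X]` and the discriminant criterion
(row S37 / S18, piece b2 = R2; seat helper939)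

`f : T₁ →ₐ[k[X]] T₂` an injective homomorphism of finite free `k[X]`-algebras of the same rank
(think: an order inside a bigger order).  If
`rootMultiplicity c (discr b₁) + redRank T₁ c ≤ n`, then `X - c` does not divide the index
`det M` of `T₁` in `T₂`.
-/

set_option autoImplicit false
set_option linter.unusedSectionVars false

namespace Fermat.Agent.S37.H939

open Polynomial Matrix

variable {k : Type*} [Field k]
variable {T₁ T₂ : Type*} [CommRing T₁] [CommRing T₂]
  [Algebra k[X] T₁] [Algebra k T₁] [IsScalarTower k k[X] T₁]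
  [Algebra k[X] T₂] [Algebra k T₂] [IsScalarTower k k[X] T₂]
variable {ι : Type*} [Fintype ι] [DecidableEq ι]
  (b₁ : Module.Basis ι k[X] T₁) (b₂ : Module.Basis ι k[X] T₂) (f : T₁ →ₐ[k[X]] T₂)

/-- The matrix of the inclusion. -/
noncomputable abbrev incMatrix : Matrix ι ι k[X] := LinearMap.toMatrix b₁ b₂ f.toLinearMap

lemma incMatrix_det_ne_zero (hf : Function.Injective f) : (incMatrix b₁ b₂ f).det ≠ 0 := by
  intro h0
  obtain ⟨v, hv, hMv⟩ := Matrix.exists_mulVec_eq_zero_iff.mpr h0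
  apply hv
  have h2 : (b₁.repr (b₁.equivFun.symm v) : ι → k[X]) = v := by
    have := b₁.equivFun.apply_symm_apply v
    funext j
    exact congrFun this j
  have h1 : f (b₁.equivFun.symm v) = 0 := by
    apply b₂.repr.injective
    rw [_root_.map_zero]
    apply DFunLike.coe_injective
    have := LinearMap.toMatrix_mulVec_repr b₁ b₂ f.toLinearMap (b₁.equivFun.symm v)
    rw [h2, hMv] at this
    exact this.symm
  have h3 : b₁.equivFun.symm v = 0 := hf (by rw [h1, _root_.map_zero])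
  exact (LinearEquiv.map_eq_zero_iff b₁.equivFun.symm).mp h3

lemma leftMulMatrix_mul_incMatrix (z : T₁) :
    Algebra.leftMulMatrix b₂ (f z) * incMatrix b₁ b₂ f =
      incMatrix b₁ b₂ f * Algebra.leftMulMatrix b₁ z := by
  rw [← Algebra.toMatrix_lmul_eq, ← Algebra.toMatrix_lmul_eq, incMatrix,
    ← LinearMap.toMatrix_comp, ← LinearMap.toMatrix_comp]
  congr 1
  ext x
  simp

include b₁ b₂ in
lemma trace_map_eq (hf : Function.Injective f) (z : T₁) :
    Algebra.trace k[X] T₂ (f z) = Algebra.trace k[X] T₁ z := by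
  rw [Algebra.trace_eq_matrix_trace b₂, Algebra.trace_eq_matrix_trace b₁]
  set M := incMatrix b₁ b₂ f
  set A := Algebra.leftMulMatrix b₂ (f z)
  set B := Algebra.leftMulMatrix b₁ z
  have hAM : A * M = M * B := leftMulMatrix_mul_incMatrix b₁ b₂ f z
  have hdet : M.det ≠ 0 := incMatrix_det_ne_zero b₁ b₂ f hf
  have h1 : M.det • A = M * B * M.adjugate := by
    rw [← hAM, Matrix.mul_assoc, Matrix.mul_adjugate, Matrix.mul_smul, Matrix.mul_one]
  have h2 : M.det * A.trace = M.det * B.trace := by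
    have := congrArg Matrix.trace h1
    rw [Matrix.trace_smul, smul_eq_mul, Matrix.trace_mul_comm, ← Matrix.mul_assoc,
      Matrix.adjugate_mul, Matrix.smul_mul, Matrix.one_mul, Matrix.trace_smul, smul_eq_mul] at this
    exact this
  exact mul_left_cancel₀ hdet h2

/-- **Index formula.** -/
theorem discr_eq_det_sq_mul (hf : Function.Injective f) :
    Algebra.discr k[X] b₁ = (incMatrix b₁ b₂ f).det ^ 2 * Algebra.discr k[X] b₂ := by
  have h1 : Algebra.discr k[X] b₁ = Algebra.discr k[X] (fun i => f (b₁ i)) := by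
    rw [Algebra.discr_def, Algebra.discr_def]
    congr 1
    refine Matrix.ext fun i j => ?_
    rw [Algebra.traceMatrix_apply, Algebra.traceMatrix_apply, Algebra.traceForm_apply,
      Algebra.traceForm_apply]
    have := trace_map_eq b₁ b₂ f hf (b₁ i * b₁ j)
    rw [_root_.map_mul f] at this
    exact this.symm
  have h2 : (fun i => f (b₁ i)) =
      ((incMatrix b₁ b₂ f).transpose.map (algebraMap k[X] T₂)).mulVec b₂ := by
    funext j
    rw [Matrix.mulVec, dotProduct]
    conv_lhs => rw [← b₂.sum_repr (f (b₁ j))]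
    refine Finset.sum_congr rfl fun i _ => ?_
    rw [Matrix.map_apply, Matrix.transpose_apply, incMatrix, LinearMap.toMatrix_apply,
      Algebra.smul_def]
    rfl
  rw [h1, h2, Algebra.discr_of_matrix_mulVec, Matrix.det_transpose]

/-- Coordinates of `f z` modulo `X - c`. -/
lemma coord_map (c : k) (z : T₁) :
    coord b₂ c (f z) = ((incMatrix b₁ b₂ f).map (evalRingHom c)).mulVec (coord b₁ c z) := by
  funext i
  have h := congrFun (LinearMap.toMatrix_mulVec_repr b₁ b₂ f.toLinearMap z) i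
  rw [coord_apply]
  have h' : b₂.repr (f z) i = ∑ j, incMatrix b₁ b₂ f i j * b₁.repr z j := by
    rw [← AlgHom.toLinearMap_apply, ← h]
    rfl
  rw [h', eval_finsetSum, Matrix.mulVec, dotProduct]
  refine Finset.sum_congr rfl fun j _ => ?_
  rw [eval_mul, Matrix.map_apply, coord_apply, coe_evalRingHom]

lemma map_mem_fibreIdeal (c : k) {z : T₁} (hz : z ∈ fibreIdeal T₁ c) :
    f z ∈ fibreIdeal T₂ c := by
  rw [fibreIdeal, Ideal.mem_span_singleton] at hz ⊢
  obtain ⟨y, rfl⟩ := hz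
  exact ⟨f y, by rw [_root_.map_mul, AlgHom.commutes]⟩

lemma map_mem_radical (c : k) {z : T₁} (hz : z ∈ (fibreIdeal T₁ c).radical) :
    f z ∈ (fibreIdeal T₂ c).radical := by
  obtain ⟨m, hm⟩ := hz
  exact ⟨m, by rw [← _root_.map_pow]; exact map_mem_fibreIdeal f c hm⟩

include b₁ in
lemma finite_quot_radical (c : k) : Module.Finite k (T₁ ⧸ (fibreIdeal T₁ c).radical) := by
  let Rad : Ideal T₁ := (fibreIdeal T₁ c).radical
  let Ψ : (ι → k) →ₗ[k] T₁ ⧸ Rad := (Ideal.Quotient.mkₐ k Rad).toLinearMap ∘ₗ lift b₁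
  have hΨsurj : Function.Surjective Ψ := by
    intro q
    obtain ⟨z, rfl⟩ := Ideal.Quotient.mk_surjective q
    refine ⟨coord b₁ c z, ?_⟩
    show Ideal.Quotient.mk Rad (lift b₁ (coord b₁ c z)) = Ideal.Quotient.mk Rad z
    rw [eq_comm, Ideal.Quotient.eq]
    exact Ideal.le_radical (sub_lift_coord_mem b₁ c z)
  exact Module.Finite.of_surjective Ψ hΨsurj

/-- **(d)** The reduced rank of the bigger order is bounded by that of the smaller order plus
the corank of the inclusion matrix modulo `X - c`. -/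
theorem redRank_le_add_corank (c : k) :
    redRank T₂ c ≤ redRank T₁ c +
      (Fintype.card ι - ((incMatrix b₁ b₂ f).map (evalRingHom c)).rank) := by
  classical
  set Mbar : Matrix ι ι k := (incMatrix b₁ b₂ f).map (evalRingHom c) with hMbar
  let Rad₁ : Ideal T₁ := (fibreIdeal T₁ c).radical
  let Rad₂ : Ideal T₂ := (fibreIdeal T₂ c).radical
  have : Module.Finite k (T₁ ⧸ Rad₁) := finite_quot_radical b₁ c
  have : Module.Finite k (T₂ ⧸ Rad₂) := finite_quot_radical b₂ c
  let Ψ : (ι → k) →ₗ[k] T₂ ⧸ Rad₂ := (Ideal.Quotient.mkₐ k Rad₂).toLinearMap ∘ₗ lift b₂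
  have hΨsurj : Function.Surjective Ψ := by
    intro q
    obtain ⟨z, rfl⟩ := Ideal.Quotient.mk_surjective q
    refine ⟨coord b₂ c z, ?_⟩
    show Ideal.Quotient.mk Rad₂ (lift b₂ (coord b₂ c z)) = Ideal.Quotient.mk Rad₂ z
    rw [eq_comm, Ideal.Quotient.eq]
    exact Ideal.le_radical (sub_lift_coord_mem b₂ c z)
  let U : Submodule k (ι → k) := LinearMap.range Mbar.mulVecLin
  let V : Submodule k (T₂ ⧸ Rad₂) := U.map Ψ
  -- the induced map on reduced fibres
  let g : (T₁ ⧸ Rad₁) →ₗ[k] (T₂ ⧸ Rad₂) :=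
    (Ideal.quotientMapₐ Rad₂ (f.restrictScalars k)
      (fun z hz => map_mem_radical f c hz)).toLinearMap
  have hVg : V ≤ LinearMap.range g := by
    rintro _ ⟨u, ⟨w, rfl⟩, rfl⟩
    refine ⟨Ideal.Quotient.mk Rad₁ (lift b₁ w), ?_⟩
    show Ideal.Quotient.mk Rad₂ (f (lift b₁ w)) =
      Ideal.Quotient.mk Rad₂ (lift b₂ (Mbar.mulVec w))
    rw [Ideal.Quotient.eq]
    apply Ideal.le_radical
    rw [← coord_eq_zero_iff b₂, _root_.map_sub, coord_lift, coord_map b₁ b₂ f c, coord_lift, sub_self]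
  have h1 : Module.finrank k V ≤ redRank T₁ c :=
    (Submodule.finrank_mono hVg).trans (LinearMap.finrank_range_le g)
  -- the quotient estimate
  have hUV : U ≤ V.comap Ψ := Submodule.le_comap_map Ψ U
  have hsurj : Function.Surjective (U.mapQ V Ψ hUV) := by
    intro q
    obtain ⟨y, rfl⟩ := Submodule.mkQ_surjective V q
    obtain ⟨x, rfl⟩ := hΨsurj y
    exact ⟨U.mkQ x, rfl⟩
  have h2 : Module.finrank k ((T₂ ⧸ Rad₂) ⧸ V) ≤ Module.finrank k ((ι → k) ⧸ U) :=
    LinearMap.finrank_le_finrank_of_surjective hsurj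
  have h3 := Submodule.finrank_quotient_add_finrank U
  have h4 := Submodule.finrank_quotient_add_finrank V
  have h5 : Module.finrank k (ι → k) = Fintype.card ι := Module.finrank_fintype_fun_eq_card k
  have h6 : Mbar.rank = Module.finrank k U := rfl
  have h7 : redRank T₂ c = Module.finrank k (T₂ ⧸ Rad₂) := rfl
  omega

/-- **Core theorem (discriminant criterion).**  If the order `T₁` satisfies
`ord_c (discr T₁) + redRank T₁ c ≤ n`, then `X - c` does not divide the index of `T₁` in any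
overorder `T₂`. -/
theorem not_dvd_det_incMatrix (hf : Function.Injective f) (c : k)
    (hd : Algebra.discr k[X] b₁ ≠ 0)
    (h : (Algebra.discr k[X] b₁).rootMultiplicity c + redRank T₁ c ≤ Fintype.card ι) :
    ¬ (X - C c) ∣ (incMatrix b₁ b₂ f).det := by
  classical
  set d := (incMatrix b₁ b₂ f).det with hd_def
  have hidx := discr_eq_det_sq_mul b₁ b₂ f hf
  rw [← hd_def] at hidx
  have hd0 : d ≠ 0 := incMatrix_det_ne_zero b₁ b₂ f hf
  have hD2 : Algebra.discr k[X] b₂ ≠ 0 := by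
    intro h0
    rw [h0, _root_.MulZeroClass.mul_zero] at hidx
    exact hd hidx
  -- multiplicities
  have ha : (Algebra.discr k[X] b₁).rootMultiplicity c =
      2 * d.rootMultiplicity c + (Algebra.discr k[X] b₂).rootMultiplicity c := by
    rw [hidx, rootMultiplicity_mul (mul_ne_zero (pow_ne_zero 2 hd0) hD2), pow_two,
      rootMultiplicity_mul (mul_ne_zero hd0 hd0)]
    ring
  have ht : Fintype.card ι - redRank T₂ c ≤ (Algebra.discr k[X] b₂).rootMultiplicity c :=
    (le_rootMultiplicity_iff hD2).mpr (pow_dvd_discr b₂ c)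
  have hr := redRank_le_add_corank b₁ b₂ f c
  have hm : Fintype.card ι - ((incMatrix b₁ b₂ f).map (evalRingHom c)).rank ≤
      d.rootMultiplicity c :=
    (le_rootMultiplicity_iff hd0).mpr
      (pow_corank_dvd_det (evalRingHom c) (fun a => ⟨C a, by simp⟩) (X - C c)
        (fun s hs => Polynomial.dvd_iff_isRoot.mpr hs) (incMatrix b₁ b₂ f))
  have hm0 : d.rootMultiplicity c = 0 := by omega
  intro hdvd
  have := (rootMultiplicity_eq_zero_iff.mp hm0) (Polynomial.dvd_iff_isRoot.mp hdvd)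
  exact hd0 this

/-- **Global form.**  If the discriminant of `T₁` splits and the criterion holds at each of its
roots, then the index of `T₁` in any overorder is a unit. -/
theorem isUnit_det_incMatrix (hf : Function.Injective f)
    (hd : Algebra.discr k[X] b₁ ≠ 0) (hs : (Algebra.discr k[X] b₁).Splits)
    (h : ∀ c : k, (Algebra.discr k[X] b₁).IsRoot c →
      (Algebra.discr k[X] b₁).rootMultiplicity c + redRank T₁ c ≤ Fintype.card ι) :
    IsUnit (incMatrix b₁ b₂ f).det := by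
  classical
  set d := (incMatrix b₁ b₂ f).det with hd_def
  have hidx := discr_eq_det_sq_mul b₁ b₂ f hf
  rw [← hd_def] at hidx
  have hdvd : d ∣ Algebra.discr k[X] b₁ := ⟨d * Algebra.discr k[X] b₂, by rw [hidx]; ring⟩
  have hsd : d.Splits := hs.of_dvd hd hdvd
  rw [Polynomial.isUnit_iff_degree_eq_zero]
  by_contra hdeg
  obtain ⟨c, hc⟩ := hsd.exists_eval_eq_zero hdeg
  have hroot : (Algebra.discr k[X] b₁).IsRoot c := by
    obtain ⟨e, he⟩ := hdvd
    rw [IsRoot, he, eval_mul, hc, _root_.MulZeroClass.zero_mul]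
  exact not_dvd_det_incMatrix b₁ b₂ f hf c hd (h c hroot) (Polynomial.dvd_iff_isRoot.mpr hc)

include b₂ in
/-- Under the hypotheses of `isUnit_det_incMatrix`, every injective algebra map into an
overorder of the same rank is bijective. -/
theorem bijective_of_discr_criterion (hf : Function.Injective f)
    (hd : Algebra.discr k[X] b₁ ≠ 0) (hs : (Algebra.discr k[X] b₁).Splits)
    (h : ∀ c : k, (Algebra.discr k[X] b₁).IsRoot c →
      (Algebra.discr k[X] b₁).rootMultiplicity c + redRank T₁ c ≤ Fintype.card ι) :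
    Function.Bijective f := by
  classical
  refine ⟨hf, ?_⟩
  have hu := isUnit_det_incMatrix b₁ b₂ f hf hd hs h
  have hM : IsUnit (incMatrix b₁ b₂ f) := (Matrix.isUnit_iff_isUnit_det _).mpr hu
  have hbij : Function.Bijective f.toLinearMap := by
    let e := LinearEquiv.ofIsUnitDet (f := f.toLinearMap) (v := b₁) (v' := b₂) hu
    exact e.bijective
  exact hbij.2

end Fermat.Agent.S37.H939

end
-- ===== PACK-END S37/H939/Order.lean

-- ===== PACK-BEGIN A3/H799/Comb.lean
section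





/-!
# A3 / LOCAL — linear systems with parameters  (helper799)

`A` local, `T` finite, `Λ ≤ (T → A)`.  Given finitely many disc algebras `𝒪 i`, `Λ`-points
`ys i r` (`r < s i`) of the `i`-th disc, and disc functions `f₀ i`, `f j i` (as many unknowns `j`
as conditions `(i, r)`), such that the matrix of the first `s i` Taylor coefficients at `0` of the
`f j i` is invertible, there are `v j ∈ Λ` such that for every parameter value `τ` the function
`f₀ i + Σ_j v_j(τ) f j i` vanishes on the divisor `Σ_r [ys i r (τ)]` of the `i`-th disc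
(`exists_comb`).  This is "Riemann–Roch with parameters": Cramer's rule over `Λ`.
-/

set_option autoImplicit false

namespace Fermat.Agent.A3.H799

open Polynomial

section Congr

variable {A : Type*} [CommRing A] [IsLocalRing A] {𝒪 : Type*} [CommRing 𝒪] [Algebra A 𝒪]

theorem map_residue_nodal (l : List (IsLocalRing.maximalIdeal A)) :
    (DiscAlg.nodal l).map (IsLocalRing.residue A) = X ^ l.length := by
  induction l with
  | nil => simp
  | cons a l ih =>
    rw [DiscAlg.nodal_cons, Polynomial.map_mul, ih, Polynomial.map_sub, Polynomial.map_X,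
      Polynomial.map_C, (IsLocalRing.residue_eq_zero_iff _).mpr a.2, _root_.map_zero, sub_zero,
      List.length_cons, pow_succ, mul_comm]

theorem coeff_nodal_mul_mem (l : List (IsLocalRing.maximalIdeal A)) (q : A[X]) (r : ℕ)
    (hr : r < l.length) : (DiscAlg.nodal l * q).coeff r ∈ IsLocalRing.maximalIdeal A := by
  rw [← IsLocalRing.residue_eq_zero_iff, ← Polynomial.coeff_map, Polynomial.map_mul,
    map_residue_nodal, Polynomial.coeff_X_pow_mul']
  simp [Nat.not_le.mpr hr]

theorem nodal_replicate_zero (n : ℕ) :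
    DiscAlg.nodal (List.replicate n (0 : IsLocalRing.maximalIdeal A)) = X ^ n := by
  induction n with
  | zero => simp
  | succ n ih => rw [List.replicate_succ, DiscAlg.nodal_cons, ih]; simp [pow_succ, mul_comm]

/-- Two interpolation polynomials of the same disc function have the same low coefficients
modulo the maximal ideal. -/
theorem DiscAlg.coeff_sub_mem (D : DiscAlg A 𝒪) (l l' : List (IsLocalRing.maximalIdeal A))
    (f : 𝒪) (p p' : A[X]) (h h' : 𝒪)
    (hp : f = aeval D.t p + aeval D.t (DiscAlg.nodal l) * h)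
    (hp' : f = aeval D.t p' + aeval D.t (DiscAlg.nodal l') * h')
    (r : ℕ) (hr : r < l.length) (hr' : r < l'.length) :
    p.coeff r - p'.coeff r ∈ IsLocalRing.maximalIdeal A := by
  set Z : List (IsLocalRing.maximalIdeal A) := List.replicate (r + 1) 0 with hZ
  obtain ⟨q, g, hq⟩ := D.exists_interp Z h
  obtain ⟨q', g', hq'⟩ := D.exists_interp Z h'
  set Δ : A[X] := p - p' + DiscAlg.nodal l * q - DiscAlg.nodal l' * q' with hΔ
  have h1 : aeval D.t Δ = aeval D.t (DiscAlg.nodal Z) *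
      (aeval D.t (DiscAlg.nodal l') * g' - aeval D.t (DiscAlg.nodal l) * g) := by
    have e1 : aeval D.t p - aeval D.t p' =
        aeval D.t (DiscAlg.nodal l') * h' - aeval D.t (DiscAlg.nodal l) * h := by
      have := hp.symm.trans hp'
      linear_combination this
    rw [hΔ]
    simp only [_root_.map_add, _root_.map_sub, _root_.map_mul]
    rw [hq, hq'] at e1
    linear_combination e1
  obtain ⟨w, hw⟩ := D.nodal_dvd_of_aeval Z Δ _ h1
  have h2 : Δ.coeff r = 0 := by
    rw [hw, hZ, nodal_replicate_zero, Polynomial.coeff_X_pow_mul']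
    simp
  have h3 : p.coeff r - p'.coeff r =
      (DiscAlg.nodal l' * q').coeff r - (DiscAlg.nodal l * q).coeff r := by
    have : Δ.coeff r = p.coeff r - p'.coeff r + (DiscAlg.nodal l * q).coeff r
        - (DiscAlg.nodal l' * q').coeff r := by
      rw [hΔ]; simp
    rw [this] at h2
    linear_combination h2
  rw [h3]
  exact (IsLocalRing.maximalIdeal A).sub_mem (coeff_nodal_mul_mem l' q' r hr')
    (coeff_nodal_mul_mem l q r hr)

end Congr

section Comb

variable {A : Type*} [CommRing A] [IsLocalRing A] {T : Type*} [Finite T]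

omit [Finite T] in
theorem natDegree_nodalΛ [Nonempty T] (Λ : Subalgebra A (T → A)) (ys : List (radIdeal Λ)) :
    (nodalΛ Λ ys).natDegree = ys.length := by
  have hnt : Nontrivial Λ := by
    obtain ⟨τ⟩ := ‹Nonempty T›
    exact RingHom.domain_nontrivial (evAt Λ τ : Λ →+* A)
  induction ys with
  | nil => simp [nodalΛ]
  | cons a l ih =>
    have h1 : nodalΛ Λ (a :: l) = (X - C (a : Λ)) * nodalΛ Λ l := by simp [nodalΛ]
    rw [h1, ((monic_X_sub_C _).natDegree_mul (nodalΛ_monic Λ l)), ih, natDegree_X_sub_C]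
    simp [add_comm]

/-- Auxiliary: the list of all values of the `Λ`-points `ys` over a list of parameters. -/
private noncomputable def allVals (Λ : Subalgebra A (T → A)) (ys : List (radIdeal Λ))
    (ts : List T) : List (IsLocalRing.maximalIdeal A) :=
  ts.flatMap fun τ => ys.map (ptAt Λ τ)

omit [Finite T] in
private theorem nodal_allVals_dvd (Λ : Subalgebra A (T → A)) (ys : List (radIdeal Λ))
    (ts : List T) (τ : T) (hτ : τ ∈ ts) :
    ∃ R : A[X], DiscAlg.nodal (allVals Λ ys ts) = DiscAlg.nodal (ys.map (ptAt Λ τ)) * R := by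
  induction ts with
  | nil => simp at hτ
  | cons σ ts ih =>
    have hcons : allVals Λ ys (σ :: ts) = ys.map (ptAt Λ σ) ++ allVals Λ ys ts := by
      simp [allVals]
    rw [hcons, DiscAlg.nodal_append]
    rcases List.mem_cons.mp hτ with h | h
    · subst h
      exact ⟨_, rfl⟩
    · obtain ⟨R, hR⟩ := ih h
      exact ⟨DiscAlg.nodal (ys.map (ptAt Λ σ)) * R, by rw [hR]; ring⟩

omit [Finite T] in
/-- One disc, one function: reduction of an interpolation polynomial modulo the moving nodes is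
again an interpolation polynomial, pointwise. -/
private theorem interp_mod (Λ : Subalgebra A (T → A)) {𝒪 : Type*} [CommRing 𝒪] [Algebra A 𝒪]
    (D : DiscAlg A 𝒪) (ys : List (radIdeal Λ)) (ts : List T) (τ : T) (hτ : τ ∈ ts)
    (f : 𝒪) (p : A[X]) (h : 𝒪)
    (hp : f = aeval D.t p + aeval D.t (DiscAlg.nodal (allVals Λ ys ts)) * h) :
    ∃ h' : 𝒪, f = aeval D.t ((p.map (algebraMap A Λ) %ₘ nodalΛ Λ ys).map (evAt Λ τ : Λ →+* A)) +
      aeval D.t (DiscAlg.nodal (ys.map (ptAt Λ τ))) * h' := by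
  obtain ⟨R, hR⟩ := nodal_allVals_dvd Λ ys ts τ hτ
  have hcomp : ((evAt Λ τ : Λ →+* A).comp (algebraMap A Λ)) = RingHom.id A := by
    ext a; simp
  have h1 : (p.map (algebraMap A Λ) %ₘ nodalΛ Λ ys).map (evAt Λ τ : Λ →+* A) =
      p %ₘ DiscAlg.nodal (ys.map (ptAt Λ τ)) := by
    rw [Polynomial.map_modByMonic _ (nodalΛ_monic Λ ys), map_nodalΛ, Polynomial.map_map, hcomp,
      Polynomial.map_id]
  refine ⟨aeval D.t (p /ₘ DiscAlg.nodal (ys.map (ptAt Λ τ))) + aeval D.t R * h, ?_⟩
  rw [h1, hp, hR]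
  have h2 := Polynomial.modByMonic_add_div p (DiscAlg.nodal (ys.map (ptAt Λ τ)))
  have h3 : aeval D.t p = aeval D.t (p %ₘ DiscAlg.nodal (ys.map (ptAt Λ τ))) +
      aeval D.t (DiscAlg.nodal (ys.map (ptAt Λ τ))) *
        aeval D.t (p /ₘ DiscAlg.nodal (ys.map (ptAt Λ τ))) := by
    conv_lhs => rw [← h2]
    simp
  rw [h3, _root_.map_mul]
  ring

/-- **Riemann–Roch with parameters (Cramer over `Λ`).**  See the module docstring. -/
theorem exists_comb {ι : Type*} [Fintype ι] {𝒪 : ι → Type*}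
    [∀ i, CommRing (𝒪 i)] [∀ i, Algebra A (𝒪 i)]
    (Λ : Subalgebra A (T → A)) (D : ∀ i, DiscAlg A (𝒪 i)) (s : ι → ℕ)
    (ys : ∀ i, Fin (s i) → radIdeal Λ)
    (f₀ : ∀ i, 𝒪 i) (f : (Σ i, Fin (s i)) → ∀ i, 𝒪 i)
    (P₀ : ∀ i, A[X]) (H₀ : ∀ i, 𝒪 i)
    (hf₀ : ∀ i, f₀ i = aeval (D i).t (P₀ i) + (D i).t ^ s i * H₀ i)
    (P : (Σ i, Fin (s i)) → ∀ i, A[X]) (H : (Σ i, Fin (s i)) → ∀ i, 𝒪 i)
    (hf : ∀ j i, f j i = aeval (D i).t (P j i) + (D i).t ^ s i * H j i)
    (hdet : ∀ [DecidableEq (Σ i, Fin (s i))],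
      IsUnit (Matrix.of fun (c j : Σ i, Fin (s i)) => (P j c.1).coeff (c.2 : ℕ)).det)
    (h₀ : ∀ i (r : Fin (s i)), (P₀ i).coeff (r : ℕ) ∈ IsLocalRing.maximalIdeal A) :
    ∃ v : (Σ i, Fin (s i)) → Λ, (∀ j, v j ∈ radIdeal Λ) ∧
      ∀ τ i, ∃ h : 𝒪 i, f₀ i + ∑ j, ((v j : Λ) : T → A) τ • f j i =
        aeval (D i).t (DiscAlg.nodal ((List.ofFn (ys i)).map (ptAt Λ τ))) * h := by
  classical
  rcases isEmpty_or_nonempty T with hT | hT
  · exact ⟨fun _ => 0, fun j => (radIdeal Λ).zero_mem, fun τ => (hT.false τ).elim⟩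
  have hnt : Nontrivial Λ := by
    obtain ⟨τ⟩ := hT
    exact RingHom.domain_nontrivial (evAt Λ τ : Λ →+* A)
  have : Fintype T := Fintype.ofFinite T
  set ts : List T := (Finset.univ : Finset T).toList with hts
  have hmem : ∀ τ, τ ∈ ts := fun τ => by simp [hts]
  have ht0 : ∀ i, (D i).t ^ s i =
      aeval (D i).t (DiscAlg.nodal (List.replicate (s i) (0 : IsLocalRing.maximalIdeal A))) := by
    intro i; rw [nodal_replicate_zero]; simp
  -- interpolation on all the nodes
  choose p₀ g₀ hp₀ using fun (i : ι) =>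
    (D i).exists_interp (allVals Λ (List.ofFn (ys i)) ts) (f₀ i)
  choose p g hp using fun (j : Σ i, Fin (s i)) (i : ι) =>
    (D i).exists_interp (allVals Λ (List.ofFn (ys i)) ts) (f j i)
  -- the polynomials over Λ
  set G : ∀ i, Λ[X] := fun i => nodalΛ Λ (List.ofFn (ys i)) with hG
  have hGm : ∀ i, (G i).Monic := fun i => nodalΛ_monic Λ _
  have hGdeg : ∀ i, (G i).degree = (s i : ℕ) := by
    intro i
    rw [degree_eq_natDegree (hGm i).ne_zero, hG, natDegree_nodalΛ]
    simp
  set B₀ : ∀ i, Λ[X] := fun i => (p₀ i).map (algebraMap A Λ) %ₘ G i with hB₀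
  set B : (Σ i, Fin (s i)) → ∀ i, Λ[X] := fun j i => (p j i).map (algebraMap A Λ) %ₘ G i with hB
  set M : Matrix (Σ i, Fin (s i)) (Σ i, Fin (s i)) Λ :=
    Matrix.of fun c j => (B j c.1).coeff (c.2 : ℕ) with hM
  set b : (Σ i, Fin (s i)) → Λ := fun c => (B₀ c.1).coeff (c.2 : ℕ) with hb
  -- congruences modulo the maximal ideal
  have hMτ : ∀ τ c j, evAt Λ τ (M c j) - (P j c.1).coeff (c.2 : ℕ) ∈
      IsLocalRing.maximalIdeal A := by
    intro τ c j
    obtain ⟨h', hh'⟩ := interp_mod Λ (D c.1) (List.ofFn (ys c.1)) ts τ (hmem τ) (f j c.1)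
      (p j c.1) (g j c.1) (hp j c.1)
    have hh2 : f j c.1 = aeval (D c.1).t (P j c.1) +
        aeval (D c.1).t (DiscAlg.nodal (List.replicate (s c.1) (0 : IsLocalRing.maximalIdeal A))) * H j c.1 := by
      rw [← ht0]; exact hf j c.1
    have := (D c.1).coeff_sub_mem _ _ (f j c.1) _ (P j c.1) h' (H j c.1) hh' hh2 (c.2 : ℕ)
      (by simp) (by simp)
    simpa [hM, hB, Polynomial.coeff_map] using this
  have hbτ : ∀ τ c, evAt Λ τ (b c) ∈ IsLocalRing.maximalIdeal A := by
    intro τ c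
    obtain ⟨h', hh'⟩ := interp_mod Λ (D c.1) (List.ofFn (ys c.1)) ts τ (hmem τ) (f₀ c.1)
      (p₀ c.1) (g₀ c.1) (hp₀ c.1)
    have hh2 : f₀ c.1 = aeval (D c.1).t (P₀ c.1) +
        aeval (D c.1).t (DiscAlg.nodal (List.replicate (s c.1) (0 : IsLocalRing.maximalIdeal A))) * H₀ c.1 := by
      rw [← ht0]; exact hf₀ c.1
    have := (D c.1).coeff_sub_mem _ _ (f₀ c.1) _ (P₀ c.1) h' (H₀ c.1) hh' hh2 (c.2 : ℕ)
      (by simp) (by simp)
    have h2 := (IsLocalRing.maximalIdeal A).add_mem this (h₀ c.1 c.2)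
    simpa [hb, hB₀, Polynomial.coeff_map] using h2
  -- the determinant is a unit
  have hdetM : IsUnit M.det := by
    have hpt : ∀ τ, IsUnit (((M.det : Λ) : T → A) τ) := by
      intro τ
      refine (IsLocalRing.residue_ne_zero_iff_isUnit (R := A) _).mp ?_
      set φ : Λ →+* IsLocalRing.ResidueField A :=
        (IsLocalRing.residue A).comp (evAt Λ τ : Λ →+* A) with hφ
      have h1 : IsLocalRing.residue A (((M.det : Λ) : T → A) τ) = φ M.det := rfl
      rw [h1, RingHom.map_det]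
      have h2 : φ.mapMatrix M = (IsLocalRing.residue A).mapMatrix
          (Matrix.of fun (c j : Σ i, Fin (s i)) => (P j c.1).coeff (c.2 : ℕ)) := by
        ext c j
        simp only [RingHom.mapMatrix_apply, Matrix.map_apply, Matrix.of_apply, hφ,
          RingHom.comp_apply]
        have := hMτ τ c j
        rw [← IsLocalRing.residue_eq_zero_iff, _root_.map_sub, sub_eq_zero] at this
        exact this
      rw [h2, ← RingHom.map_det]
      exact (IsLocalRing.residue_ne_zero_iff_isUnit (R := A) _).mpr hdet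
    obtain ⟨w, hw, hfw⟩ := exists_inv_mem Λ M.det.2 hpt
    exact IsUnit.of_mul_eq_one (⟨w, hw⟩ : Λ) (Subtype.ext hfw)
  -- the solution
  set v : (Σ i, Fin (s i)) → Λ := fun j => -(M⁻¹.mulVec b) j with hv
  have hMv : M.mulVec v = -b := by
    have h1 : v = -(M⁻¹.mulVec b) := rfl
    rw [h1, Matrix.mulVec_neg, Matrix.mulVec_mulVec, Matrix.mul_nonsing_inv M hdetM,
      Matrix.one_mulVec]
  have hbI : ∀ c, b c ∈ radIdeal Λ := fun c τ => hbτ τ c
  have hvI : ∀ j, v j ∈ radIdeal Λ := by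
    intro j
    rw [hv]
    refine (radIdeal Λ).neg_mem ?_
    simp only [Matrix.mulVec, dotProduct]
    exact (radIdeal Λ).sum_mem fun c _ => (radIdeal Λ).mul_mem_left _ (hbI c)
  refine ⟨v, hvI, fun τ i => ?_⟩
  -- divisibility in Λ[X]
  set Ψ : Λ[X] := (p₀ i).map (algebraMap A Λ) + ∑ j, C (v j) * (p j i).map (algebraMap A Λ)
    with hΨ
  have hΨmod : Ψ %ₘ G i = B₀ i + ∑ j, v j • B j i := by
    rw [hΨ, Polynomial.add_modByMonic]
    congr 1
    have : ∀ q : Λ[X], q %ₘ G i = Polynomial.modByMonicHom (G i) q := fun q => rfl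
    rw [this, _root_.map_sum]
    refine Finset.sum_congr rfl fun j _ => ?_
    rw [Polynomial.C_mul', _root_.map_smul]
    rfl
  have hdeglt : ∀ q : Λ[X], ∀ r : ℕ, s i ≤ r → (q %ₘ G i).coeff r = 0 := by
    intro q r hr
    refine Polynomial.coeff_eq_zero_of_degree_lt ?_
    refine lt_of_lt_of_le (Polynomial.degree_modByMonic_lt q (hGm i)) ?_
    rw [hGdeg i]
    exact_mod_cast hr
  have hΨ0 : Ψ %ₘ G i = 0 := by
    ext r
    rw [hΨmod, Polynomial.coeff_zero, Polynomial.coeff_add, Polynomial.finsetSum_coeff]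
    simp only [Polynomial.coeff_smul, smul_eq_mul]
    by_cases hr : r < s i
    · have h1 := congrFun hMv ⟨i, ⟨r, hr⟩⟩
      simp only [Matrix.mulVec, dotProduct, hM, Matrix.of_apply, Pi.neg_apply, hb] at h1
      have h2 : ∑ j, v j * (B j i).coeff r = ∑ j, (B j i).coeff r * v j :=
        Finset.sum_congr rfl fun j _ => mul_comm _ _
      rw [h2, h1]
      exact add_neg_cancel _
    · push Not at hr
      rw [hB₀, hdeglt _ r hr]
      have : ∀ j, (B j i).coeff r = 0 := fun j => hdeglt _ r hr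
      simp [this]
  obtain ⟨Q, hQ⟩ := (Polynomial.modByMonic_eq_zero_iff_dvd (hGm i)).mp hΨ0
  -- specialise at τ
  have hcomp : ((evAt Λ τ : Λ →+* A).comp (algebraMap A Λ)) = RingHom.id A := by
    ext a; simp
  have hΨτ : Ψ.map (evAt Λ τ : Λ →+* A) = p₀ i + ∑ j, C (((v j : Λ) : T → A) τ) * p j i := by
    rw [hΨ, Polynomial.map_add, Polynomial.map_sum, Polynomial.map_map, hcomp, Polynomial.map_id]
    congr 1
    refine Finset.sum_congr rfl fun j _ => ?_
    rw [Polynomial.map_mul, Polynomial.map_C, Polynomial.map_map, hcomp, Polynomial.map_id]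
    rfl
  have hQτ : p₀ i + ∑ j, C (((v j : Λ) : T → A) τ) * p j i =
      DiscAlg.nodal ((List.ofFn (ys i)).map (ptAt Λ τ)) * Q.map (evAt Λ τ : Λ →+* A) := by
    rw [← hΨτ, hQ, Polynomial.map_mul, hG, map_nodalΛ]
  obtain ⟨R, hR⟩ := nodal_allVals_dvd Λ (List.ofFn (ys i)) ts τ (hmem τ)
  refine ⟨aeval (D i).t (Q.map (evAt Λ τ : Λ →+* A)) +
    aeval (D i).t R * (g₀ i + ∑ j, ((v j : Λ) : T → A) τ • g j i), ?_⟩
  have h1 : f₀ i + ∑ j, ((v j : Λ) : T → A) τ • f j i =
      aeval (D i).t (p₀ i + ∑ j, C (((v j : Λ) : T → A) τ) * p j i) +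
        aeval (D i).t (DiscAlg.nodal (allVals Λ (List.ofFn (ys i)) ts)) *
          (g₀ i + ∑ j, ((v j : Λ) : T → A) τ • g j i) := by
    rw [_root_.map_add, _root_.map_sum, mul_add, Finset.mul_sum]
    have : ∀ j, ((v j : Λ) : T → A) τ • f j i =
        aeval (D i).t (C (((v j : Λ) : T → A) τ) * p j i) +
          aeval (D i).t (DiscAlg.nodal (allVals Λ (List.ofFn (ys i)) ts)) *
            (((v j : Λ) : T → A) τ • g j i) := by
      intro j
      conv_lhs => rw [hp j i]
      rw [_root_.map_mul, aeval_C, Algebra.smul_def, Algebra.smul_def]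
      ring
    rw [Finset.sum_congr rfl fun j _ => this j, Finset.sum_add_distrib]
    conv_lhs => rw [hp₀ i]
    ring
  rw [h1, hQτ, hR, _root_.map_mul, _root_.map_mul]
  ring

end Comb

end Fermat.Agent.A3.H799

end
-- ===== PACK-END A3/H799/Comb.lean

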