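import Mathlib
import Mathlib.Data.Nat.Factorization.Induction
import Mathlib.Algebra.Squarefree.Basic
import Mathlib.Data.Nat.Squarefree
import Fermat.Prelude.Thm_ModularCurve_coeffMap_qExpand
import Fermat.Agent.Pack.S33.E5L0
import Fermat.Agent.Pack.S33.E5L3
import Fermat.Agent.Pack.S33.E4L1
import Fermat.Agent.Pack.S33.E1L0
import Fermat.Agent.Pack.S33.E5L2
import Fermat.Agent.Pack.S33.E5L1
import Fermat.Agent.Pack.S33.E2L3
import Fermat.Agent.Pack.S33.E2L0
import Fermat.Agent.Pack.S33.E2L2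
import Fermat.Agent.Pack.S33.E6L2
import Fermat.Agent.Pack.S33.E4L2
import Fermat.Agent.Pack.S33.E6L1
import Fermat.Agent.Pack.S33.E3L0

-- ===== PACK-BEGIN S28/H807/Eigen.lean
section
/-
S28 / helper807 — evaluation of the section-matrix characteristic polynomial:
`charpoly (secMat p g)` evaluated at `q = y^p` is `∏_b (X - G_b)`, where `G_b` is the value of
`g` at the `p` distinct `p`-th roots `y_b` of `q`.
-/



set_option autoImplicit false
set_option maxHeartbeats 400000

noncomputable section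

open ModularCurve Polynomial Matrix

namespace Fermat.Agent.S28.H807

/-- The subring of Laurent series converging at a nonzero point `z`. -/
def convSubring (z : ℂ) (hz : z ≠ 0) : Subring (LaurentSeries ℂ) where
  carrier := {c | Summable (fun n : ℤ => c.coeff n * z ^ n)}
  mul_mem' := fun {a b} ha hb =>
    (HasLSum.mul hz (c := a) (d := b) ha.hasSum hb.hasSum).summable
  one_mem' := (hasLSum_one z).summable
  add_mem' := fun {a b} ha hb => (HasLSum.add (c := a) (d := b) ha.hasSum hb.hasSum).summable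
  zero_mem' := (hasLSum_zero z).summable
  neg_mem' := fun {a} ha => (HasLSum.neg (c := a) ha.hasSum).summable

theorem mem_convSubring {z : ℂ} {hz : z ≠ 0} {c : LaurentSeries ℂ} :
    c ∈ convSubring z hz ↔ Summable (fun n : ℤ => c.coeff n * z ^ n) := Iff.rfl

theorem HasLSum.mem_convSubring {z A : ℂ} (hz : z ≠ 0) {c : LaurentSeries ℂ}
    (h : HasLSum c z A) : c ∈ convSubring z hz := h.summable

/-- Evaluation of a Laurent series at a point (junk value if not convergent). -/
def evalL (z : ℂ) (c : LaurentSeries ℂ) : ℂ := ∑' n : ℤ, c.coeff n * z ^ n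

theorem HasLSum.evalL_eq {z A : ℂ} {c : LaurentSeries ℂ} (h : HasLSum c z A) :
    evalL z c = A := HasSum.tsum_eq h

theorem hasLSum_evalL {z : ℂ} {hz : z ≠ 0} {c : LaurentSeries ℂ} (h : c ∈ convSubring z hz) :
    HasLSum c z (evalL z c) := Summable.hasSum h

/-- Evaluation at `z` as a ring homomorphism on the convergent subring. -/
def evalHom (z : ℂ) (hz : z ≠ 0) : convSubring z hz →+* ℂ where
  toFun c := evalL z c.1
  map_one' := (hasLSum_one z).evalL_eq
  map_zero' := (hasLSum_zero z).evalL_eq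
  map_add' := fun a b => ((hasLSum_evalL a.2).add (hasLSum_evalL b.2)).evalL_eq
  map_mul' := fun a b => ((hasLSum_evalL a.2).mul hz (hasLSum_evalL b.2)).evalL_eq

theorem evalHom_apply (z : ℂ) (hz : z ≠ 0) (c : convSubring z hz) :
    evalHom z hz c = evalL z c.1 := rfl

/-- A matrix with a full system of left eigenvectors `(y_b^i)_i` (Vandermonde) has
characteristic polynomial `∏_b (X - G_b)`. -/
theorem charpoly_eq_prod_of_vandermonde {p : ℕ} (M : Matrix (Fin p) (Fin p) ℂ) (y : Fin p → ℂ)
    (hy : Function.Injective y) (G : Fin p → ℂ)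
    (h : ∀ b i : Fin p, ∑ i' : Fin p, y b ^ (i' : ℕ) * M i' i = G b * y b ^ (i : ℕ)) :
    M.charpoly = ∏ b : Fin p, (X - C (G b)) := by
  set W : Matrix (Fin p) (Fin p) ℂ := Matrix.vandermonde y with hW
  have hWM : W * M = Matrix.diagonal G * W := by
    ext b i
    rw [Matrix.mul_apply, Matrix.diagonal_mul]
    simp only [hW, Matrix.vandermonde_apply]
    exact h b i
  have hdet : IsUnit W.det := by
    rw [isUnit_iff_ne_zero]
    exact Matrix.det_vandermonde_ne_zero_iff.mpr hy
  have hWu : IsUnit W := (Matrix.isUnit_iff_isUnit_det W).mpr hdet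
  obtain ⟨u, hu⟩ := hWu
  have hM : M = u.val⁻¹ * Matrix.diagonal G * u.val := by
    have h1 : u.val⁻¹ * (u.val * M) = M := by
      rw [← Matrix.mul_assoc, Matrix.nonsing_inv_mul _ (by rw [hu]; exact hdet), Matrix.one_mul]
    rw [← h1, hu, hWM, Matrix.mul_assoc]
  rw [hM, Matrix.charpoly_units_conj', Matrix.charpoly_diagonal]

/-- **Evaluation of the section charpoly.** -/
theorem hasLSum_coeff_mul_charpoly {p : ℕ} [NeZero p] (g e : LaurentSeries ℂ) (q : ℂ)
    (y : Fin p → ℂ) (hy0 : ∀ b, y b ≠ 0) (hyq : ∀ b, y b ^ p = q) (hy : Function.Injective y)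
    (Gv : Fin p → ℂ) (hG : ∀ b, HasLSum g (y b) (Gv b)) (Ev : ℂ) (hE : HasLSum e q Ev) (k : ℕ) :
    HasLSum (((X - C e) * (secMat p g).charpoly).coeff k) q
      (((X - C Ev) * ∏ b : Fin p, (X - C (Gv b))).coeff k) := by
  have hp : 0 < p := Nat.pos_of_ne_zero (NeZero.ne p)
  set b0 : Fin p := ⟨0, hp⟩
  have hq : q ≠ 0 := by rw [← hyq b0]; exact pow_ne_zero _ (hy0 b0)
  -- entries of the section matrix converge at `q`
  have hent : ∀ i' i : Fin p, secMat p g i' i ∈ convSubring q hq := by
    intro i' i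
    have := (hG b0).hasLSum_secL p (hy0 b0) ((i' : ℤ) - (i : ℤ))
    rw [hyq b0] at this
    exact this.mem_convSubring hq
  set M' : Matrix (Fin p) (Fin p) (convSubring q hq) := fun i' i => ⟨secMat p g i' i, hent i' i⟩
    with hM'
  set e' : convSubring q hq := ⟨e, hE.mem_convSubring hq⟩ with he'
  set Φ' : Polynomial (convSubring q hq) := (X - C e') * M'.charpoly with hΦ'
  have hsub : Φ'.map (convSubring q hq).subtype = (X - C e) * (secMat p g).charpoly := by
    rw [hΦ', Polynomial.map_mul, Polynomial.map_sub, Polynomial.map_X, Polynomial.map_C,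
      ← Matrix.charpoly_map]
    rfl
  -- evaluated matrix
  set Mτ : Matrix (Fin p) (Fin p) ℂ := M'.map (evalHom q hq) with hMτ
  have hMτ_apply : ∀ i' i : Fin p, Mτ i' i = secVal p g (y b0) ((i' : ℤ) - (i : ℤ)) := by
    intro i' i
    simp only [hMτ, Matrix.map_apply, evalHom_apply, hM']
    have := (hG b0).hasLSum_secL p (hy0 b0) ((i' : ℤ) - (i : ℤ))
    rw [hyq b0] at this
    exact this.evalL_eq
  have hchar : Mτ.charpoly = ∏ b : Fin p, (X - C (Gv b)) := by
    apply charpoly_eq_prod_of_vandermonde Mτ y hy Gv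
    intro b i
    have hreg := (hG b).regroup p (hy0 b) i
    rw [← hreg]
    apply Finset.sum_congr rfl
    intro i' _
    rw [hMτ_apply, secVal_congr p g (y := y b) (y' := y b0) (by rw [hyq, hyq])]
  have hev : Φ'.map (evalHom q hq) = (X - C Ev) * ∏ b : Fin p, (X - C (Gv b)) := by
    rw [hΦ', Polynomial.map_mul, Polynomial.map_sub, Polynomial.map_X, Polynomial.map_C,
      ← Matrix.charpoly_map, ← hMτ, hchar]
    congr 3
    exact hE.evalL_eq
  have h1 : ((X - C e) * (secMat p g).charpoly).coeff k = ((Φ'.coeff k : convSubring q hq) :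
      LaurentSeries ℂ) := by
    rw [← hsub, Polynomial.coeff_map]; rfl
  have h2 : ((X - C Ev) * ∏ b : Fin p, (X - C (Gv b))).coeff k = evalHom q hq (Φ'.coeff k) := by
    rw [← hev, Polynomial.coeff_map]
  rw [h1, h2]
  exact hasLSum_evalL (Φ'.coeff k).2

end Fermat.Agent.S28.H807

end

end
-- ===== PACK-END S28/H807/Eigen.lean

-- ===== PACK-BEGIN S20/Comb/Index.lean
section





/-!
# The index of `Gamma0 N` in `SL(2,ℤ)` is the Dedekind psi function

* `index_Gamma0 : (Gamma0 N).index = ModularCurve.dedekindPsi N` (all `N`, including `N = 0`)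
* `card_quotient_Gamma0 : Nat.card (SL(2,ℤ) ⧸ Gamma0 N) = ModularCurve.dedekindPsi N`
-/

set_option autoImplicit false

namespace Fermat.Agent.S20.Comb

open Matrix MatrixGroups CongruenceSubgroup

lemma dedekindPsi_prime_mul_of_dvd (p M : ℕ) (hp : p.Prime) (hM : M ≠ 0) (h : p ∣ M) :
    ModularCurve.dedekindPsi (p * M) = p * ModularCurve.dedekindPsi M := by
  unfold ModularCurve.dedekindPsi
  have hset : (p * M).divisors.filter Squarefree = M.divisors.filter Squarefree := by
    ext d
    simp only [Finset.mem_filter, Nat.mem_divisors]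
    constructor
    · rintro ⟨⟨hd, -⟩, hsq⟩
      refine ⟨⟨?_, hM⟩, hsq⟩
      by_cases hpd : p ∣ d
      · obtain ⟨d', rfl⟩ := hpd
        have hd' : d' ∣ M := (Nat.mul_dvd_mul_iff_left hp.pos).mp hd
        have hcop : Nat.Coprime p d' := by
          rw [Nat.Prime.coprime_iff_not_dvd hp]
          intro hpd'
          have h2 : p * p ∣ p * d' := Nat.mul_dvd_mul_left p hpd'
          have h3 := hsq p h2
          exact hp.one_lt.ne' (Nat.isUnit_iff.mp h3)
        exact Nat.Coprime.mul_dvd_of_dvd_of_dvd hcop h hd'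
      · exact Nat.Coprime.dvd_of_dvd_mul_left
          ((Nat.Prime.coprime_iff_not_dvd hp).mpr hpd).symm hd
    · rintro ⟨⟨hd, -⟩, hsq⟩
      exact ⟨⟨dvd_mul_of_dvd_right hd p, mul_ne_zero hp.ne_zero hM⟩, hsq⟩
  rw [hset, Finset.mul_sum]
  refine Finset.sum_congr rfl fun d hd => ?_
  have hd' : d ∣ M := (Nat.mem_divisors.mp (Finset.mem_filter.mp hd).1).1
  exact Nat.mul_div_assoc p hd'

lemma dedekindPsi_prime_mul_of_not_dvd (p M : ℕ) (hp : p.Prime) (hM : M ≠ 0) (h : ¬ p ∣ M) :
    ModularCurve.dedekindPsi (p * M) = (p + 1) * ModularCurve.dedekindPsi M := by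
  unfold ModularCurve.dedekindPsi
  rw [← Finset.sum_filter_add_sum_filter_not ((p * M).divisors.filter Squarefree) (fun d => p ∣ d)]
  have hset1 : ((p * M).divisors.filter Squarefree).filter (fun d => ¬ p ∣ d)
      = M.divisors.filter Squarefree := by
    ext d
    simp only [Finset.mem_filter, Nat.mem_divisors]
    constructor
    · rintro ⟨⟨⟨hd, -⟩, hsq⟩, hpd⟩
      exact ⟨⟨Nat.Coprime.dvd_of_dvd_mul_left
        ((Nat.Prime.coprime_iff_not_dvd hp).mpr hpd).symm hd, hM⟩, hsq⟩
    · rintro ⟨⟨hd, -⟩, hsq⟩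
      exact ⟨⟨⟨dvd_mul_of_dvd_right hd p, mul_ne_zero hp.ne_zero hM⟩, hsq⟩,
        fun hpd => h (dvd_trans hpd hd)⟩
  have hset2 : ((p * M).divisors.filter Squarefree).filter (fun d => p ∣ d)
      = (M.divisors.filter Squarefree).image (fun d => p * d) := by
    ext d
    simp only [Finset.mem_filter, Nat.mem_divisors, Finset.mem_image]
    constructor
    · rintro ⟨⟨⟨hd, -⟩, hsq⟩, ⟨d', rfl⟩⟩
      exact ⟨d', ⟨⟨(Nat.mul_dvd_mul_iff_left hp.pos).mp hd, hM⟩, hsq.of_mul_right⟩, rfl⟩
    · rintro ⟨d', ⟨⟨hd', -⟩, hsq'⟩, rfl⟩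
      have hcop : Nat.Coprime p d' :=
        (Nat.Prime.coprime_iff_not_dvd hp).mpr fun hpd => h (dvd_trans hpd hd')
      exact ⟨⟨⟨Nat.mul_dvd_mul_left p hd', mul_ne_zero hp.ne_zero hM⟩,
        (Nat.squarefree_mul hcop).mpr ⟨hp.prime.squarefree, hsq'⟩⟩, dvd_mul_right _ _⟩
  rw [hset1, hset2, Finset.sum_image (fun x _ y _ hxy => Nat.eq_of_mul_eq_mul_left hp.pos hxy),
    _root_.add_mul, _root_.one_mul, Finset.mul_sum, add_comm]
  congr 1
  · refine Finset.sum_congr rfl fun d hd => ?_
    have hd' : d ∣ M := (Nat.mem_divisors.mp (Finset.mem_filter.mp hd).1).1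
    exact Nat.mul_div_assoc p hd'
  · refine Finset.sum_congr rfl fun d hd => ?_
    exact Nat.mul_div_mul_left M d hp.pos

lemma Gamma0_one_eq_top : Gamma0 1 = ⊤ := by
  ext g
  simp only [Gamma0_mem, Subgroup.mem_top, iff_true]
  exact Subsingleton.elim _ _

lemma index_Gamma0_zero : (Gamma0 0).index = 0 := by
  rw [Subgroup.index]
  haveI : Infinite (SL(2, ℤ) ⧸ Gamma0 0) := by
    refine Infinite.of_injective
      (fun t : ℤ => (QuotientGroup.mk (lowRep t) : SL(2, ℤ) ⧸ Gamma0 0)) ?_
    intro t t' h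
    simp only at h
    rw [mk_eq_mk_iff] at h
    simp only [lowRep_apply_zero_zero, lowRep_apply_one_zero, Int.cast_one, _root_.one_mul,
      _root_.mul_one] at h
    have h' : ((t' - t : ℤ) : ZMod 0) = 0 := h
    have h'' := (ZMod.intCast_zmod_eq_zero_iff_dvd (t' - t) 0).mp h'
    simp only [Nat.cast_zero, zero_dvd_iff] at h''
    exact (sub_eq_zero.mp h'').symm
  exact Nat.card_eq_zero_of_infinite

lemma dedekindPsi_zero : ModularCurve.dedekindPsi 0 = 0 := by
  simp [ModularCurve.dedekindPsi]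

/-- **(I1)** The index of `Γ₀(N)` in `SL(2,ℤ)` is `ψ(N)` (for `N ≠ 0`). -/
theorem index_Gamma0_of_ne_zero (N : ℕ) (hN : N ≠ 0) :
    (Gamma0 N).index = ModularCurve.dedekindPsi N := by
  induction N using induction_on_primes with
  | zero => exact absurd rfl hN
  | one => rw [ModularCurve.dedekindPsi_one, Gamma0_one_eq_top, Subgroup.index_top]
  | prime_mul p M hp ih =>
    have hM : M ≠ 0 := fun h => hN (by rw [h, _root_.MulZeroClass.mul_zero])
    rw [← Subgroup.relIndex_mul_index (Gamma0_mul_le p M), ih hM]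
    by_cases h : p ∣ M
    · rw [relIndex_Gamma0_of_dvd p M hM hp h, dedekindPsi_prime_mul_of_dvd p M hp hM h]
    · rw [relIndex_Gamma0_of_not_dvd p M hM hp h, dedekindPsi_prime_mul_of_not_dvd p M hp hM h]

/-- **(I1)** The index of `Γ₀(N)` in `SL(2,ℤ)` is `ψ(N)` (all `N`; both sides are `0` for
`N = 0`). -/
theorem index_Gamma0 (N : ℕ) : (Gamma0 N).index = ModularCurve.dedekindPsi N := by
  rcases eq_or_ne N 0 with rfl | hN
  · rw [index_Gamma0_zero, dedekindPsi_zero]
  · exact index_Gamma0_of_ne_zero N hN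

/-- **(I1)** `#(SL(2,ℤ) ⧸ Γ₀(N)) = ψ(N)`. -/
theorem card_quotient_Gamma0 (N : ℕ) :
    Nat.card (SL(2, ℤ) ⧸ Gamma0 N) = ModularCurve.dedekindPsi N :=
  index_Gamma0 N

end Fermat.Agent.S20.Comb

end
-- ===== PACK-END S20/Comb/Index.lean

-- ===== PACK-BEGIN Lib/RR/Basic.lean
section


/-!
# RR library, layer L1: the spaces `L(D)`

* `L(D) = 0` for `deg D < 0`;
* `L(D + P) ⊆ L(D) + K f₀`;
* `L(D)` is finite-dimensional and `ℓ(D) ≤ deg D + 1` for `deg D ≥ -1`;
* `L(0) = K`, `ℓ(0) = 1`;
* `ℓ(D + div z) = ℓ(D)`.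
-/

set_option autoImplicit false

noncomputable section

open AlgebraicCurve

namespace Fermat.Agent.Lib.RR

variable {K F : Type*} [Field K] [Field F] [Algebra K F]

/-! ### Divisors and degrees -/

theorem degree_eq_sum (D : Divisor K F) :
    Divisor.degree D = ∑ v ∈ D.support, D v * (v.deg : ℤ) := by
  simp [Divisor.degree, Finsupp.liftAddHom_apply, Finsupp.sum]

theorem degree_nonneg {D : Divisor K F} (h : 0 ≤ D) : 0 ≤ Divisor.degree D := by
  rw [degree_eq_sum]
  refine Finset.sum_nonneg fun v _ => mul_nonneg ?_ (Int.natCast_nonneg _)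
  simpa using Finsupp.le_def.mp h v

theorem degree_mono {D D' : Divisor K F} (h : D ≤ D') :
    Divisor.degree D ≤ Divisor.degree D' := by
  have h1 : 0 ≤ D' - D := sub_nonneg.mpr h
  have h2 := degree_nonneg h1
  rw [map_sub] at h2
  linarith

theorem degree_prim (v : Place K F) (hv : v.deg = 1) : Divisor.degree (prim v) = 1 := by
  simp [prim, hv]

@[simp] theorem prim_apply_self (v : Place K F) : prim v v = 1 := by
  simp [prim]

theorem prim_apply_of_ne {v w : Place K F} (h : w ≠ v) : prim v w = 0 := by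
  simp [prim, h.symm]

/-! ### The spaces `L(D)` -/

theorem mem_L_iff {D : Divisor K F} {f : F} :
    f ∈ riemannRochSpace D ↔ ∀ v : Place K F, f = 0 ∨ -D v ≤ v.ord f :=
  mem_riemannRochSpace_iff

theorem L_mono {D D' : Divisor K F} (h : D ≤ D') :
    riemannRochSpace D ≤ riemannRochSpace D' := by
  intro f hf
  rw [mem_L_iff] at hf ⊢
  intro v
  rcases hf v with h0 | h1
  · exact Or.inl h0
  · right
    have := Finsupp.le_def.mp h v
    omega

/-- A nonzero element of `L(D)` forces `deg D ≥ 0`. -/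
theorem degree_nonneg_of_mem_L [HasPrincipalDivisors K F] {D : Divisor K F} {f : F}
    (hf : f ∈ riemannRochSpace D) (hf0 : f ≠ 0) : 0 ≤ Divisor.degree D := by
  obtain ⟨E, hE, hE0⟩ := HasPrincipalDivisors.exists_divisor (K := K) f hf0
  have h1 : 0 ≤ D + E := by
    rw [Finsupp.le_def]
    intro v
    have := (mem_L_iff.mp hf v).resolve_left hf0
    simp only [Finsupp.coe_zero, Pi.zero_apply, Finsupp.coe_add, Pi.add_apply, hE v]
    omega
  have h2 := degree_nonneg h1
  rw [map_add, hE0, add_zero] at h2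
  exact h2

theorem L_eq_bot_of_degree_neg [HasPrincipalDivisors K F] {D : Divisor K F}
    (h : Divisor.degree D < 0) : riemannRochSpace D = ⊥ := by
  rw [eq_bot_iff]
  intro f hf
  rw [Submodule.mem_bot]
  by_contra hf0
  have := degree_nonneg_of_mem_L hf hf0
  omega

/-- One step: `L(D + P) ⊆ L(D) + K f₀` for any `f₀ ∈ L(D + P) \ L(D)`, `P` of degree one. -/
theorem L_add_prim_le (v : Place K F) (hv : v.deg = 1) (D : Divisor K F) {f₀ : F}
    (hf₀ : f₀ ∈ riemannRochSpace (D + prim v)) (hf₀' : f₀ ∉ riemannRochSpace D) :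
    riemannRochSpace (D + prim v) ≤ riemannRochSpace D ⊔ Submodule.span K {f₀} := by
  classical
  have hf₀0 : f₀ ≠ 0 := fun h => hf₀' (h ▸ Submodule.zero_mem _)
  -- the order of `f₀` at `v` is exactly `-(D v + 1)`
  have hord₀ : v.ord f₀ = -(D v + 1) := by
    have h1 := (mem_L_iff.mp hf₀ v).resolve_left hf₀0
    simp only [Finsupp.coe_add, Pi.add_apply, prim_apply_self] at h1
    by_contra hne
    apply hf₀'
    rw [mem_L_iff]
    intro w
    right
    by_cases hw : w = v
    · subst hw; omega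
    · have h2 := (mem_L_iff.mp hf₀ w).resolve_left hf₀0
      simpa [prim_apply_of_ne hw] using h2
  intro f hf
  rcases eq_or_ne f 0 with rfl | hf0
  · exact Submodule.zero_mem _
  have hordf := (mem_L_iff.mp hf v).resolve_left hf0
  simp only [Finsupp.coe_add, Pi.add_apply, prim_apply_self] at hordf
  have hg : 0 ≤ v.ord (f * f₀⁻¹) := by
    rw [v.ord_mul hf0 (inv_ne_zero hf₀0), v.ord_inv, hord₀]; omega
  obtain ⟨c, hc⟩ := exists_const_sub v hv hg
  have hdecomp : f = (f - c • f₀) + c • f₀ := by ring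
  rw [hdecomp]
  refine Submodule.add_mem _ (Submodule.mem_sup_left ?_)
    (Submodule.mem_sup_right (Submodule.smul_mem _ _ (Submodule.mem_span_singleton_self _)))
  have hmem' : f - c • f₀ ∈ riemannRochSpace (D + prim v) :=
    Submodule.sub_mem _ hf (Submodule.smul_mem _ _ hf₀)
  rw [mem_L_iff]
  intro w
  by_cases hw : w = v
  · subst hw
    have hfac : f - c • f₀ = (f * f₀⁻¹ - algebraMap K F c) * f₀ := by
      rw [Algebra.smul_def]; field_simp
    rcases hc with hc | hc
    · left; rw [hfac, hc, zero_mul]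
    · rcases eq_or_ne (f - c • f₀) 0 with h0 | h0
      · exact Or.inl h0
      right
      have hne : f * f₀⁻¹ - algebraMap K F c ≠ 0 := by
        intro h; rw [hfac, h, zero_mul] at h0; exact h0 rfl
      rw [hfac, w.ord_mul hne hf₀0, hord₀]
      omega
  · have h2 := mem_L_iff.mp hmem' w
    simpa [prim_apply_of_ne hw] using h2

/-- One step, dimension form. -/
theorem L_add_prim_finite (v : Place K F) (hv : v.deg = 1) (D : Divisor K F)
    [Module.Finite K (riemannRochSpace D)] :
    Module.Finite K (riemannRochSpace (D + prim v)) ∧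
      ell (D + prim v) ≤ ell D + 1 := by
  classical
  by_cases h : riemannRochSpace (D + prim v) ≤ riemannRochSpace D
  · have hfin : Module.Finite K (riemannRochSpace (D + prim v)) :=
      Submodule.finiteDimensional_of_le h
    exact ⟨hfin, (Submodule.finrank_mono h).trans (Nat.le_succ _)⟩
  · obtain ⟨f₀, hf₀, hf₀'⟩ := SetLike.not_le_iff_exists.mp h
    have hle := L_add_prim_le v hv D hf₀ hf₀'
    have hfin' : Module.Finite K ↥(riemannRochSpace D ⊔ Submodule.span K {f₀}) := inferInstance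
    have hfin : Module.Finite K (riemannRochSpace (D + prim v)) :=
      Submodule.finiteDimensional_of_le hle
    refine ⟨hfin, ?_⟩
    calc ell (D + prim v) ≤ Module.finrank K ↥(riemannRochSpace D ⊔ Submodule.span K {f₀}) :=
          Submodule.finrank_mono hle
      _ ≤ Module.finrank K (riemannRochSpace D) + Module.finrank K (Submodule.span K {f₀}) :=
          Submodule.finrank_add_le_finrank_add_finrank _ _
      _ ≤ ell D + 1 := by
          have := finrank_span_singleton (K := K) (fun h => hf₀' (h ▸ Submodule.zero_mem _) : f₀ ≠ 0)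
          rw [this]; rfl


/-! ### Consequences under the standing hypotheses -/

section FF1

variable [hFF : FF1 K F]

instance (priority := 100) instHasPrincipalDivisors_of_FF1 : HasPrincipalDivisors K F := hFF.hpd

theorem deg_eq_one (v : Place K F) : v.deg = 1 := FF1.deg_eq_one v

@[simp] theorem degree_prim' (v : Place K F) : Divisor.degree (prim v) = 1 :=
  degree_prim v (deg_eq_one v)

/-- `L(D)` is finite-dimensional, of dimension at most `deg D + 1`. -/
theorem finite_and_ell_le : ∀ (n : ℕ) (D : Divisor K F), Divisor.degree D + 1 ≤ n →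
    Module.Finite K (riemannRochSpace D) ∧ ell D ≤ n := by
  intro n
  induction n with
  | zero =>
    intro D hD
    have h : riemannRochSpace D = ⊥ := L_eq_bot_of_degree_neg (by push_cast at hD; omega)
    refine ⟨by rw [h]; infer_instance, ?_⟩
    have h0 : ell D = 0 := by unfold ell; rw [h]; exact finrank_bot K F
    omega
  | succ n ih =>
    intro D hD
    obtain ⟨v₀⟩ := hFF.nonempty_place
    have hdeg : Divisor.degree (D - prim v₀) + 1 ≤ n := by
      rw [map_sub, degree_prim']; push_cast at hD; omega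
    obtain ⟨hfin, hle⟩ := ih (D - prim v₀) hdeg
    have := L_add_prim_finite v₀ (deg_eq_one v₀) (D - prim v₀)
    rw [sub_add_cancel] at this
    exact ⟨this.1, this.2.trans (by omega)⟩

instance finite_L (D : Divisor K F) : Module.Finite K (riemannRochSpace D) :=
  (finite_and_ell_le (Divisor.degree D + 1).toNat D (Int.self_le_toNat _)).1

theorem ell_le_toNat (D : Divisor K F) : ell D ≤ (Divisor.degree D + 1).toNat :=
  (finite_and_ell_le (Divisor.degree D + 1).toNat D (Int.self_le_toNat _)).2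

theorem ell_le_degree_add_one {D : Divisor K F} (h : -1 ≤ Divisor.degree D) :
    (ell D : ℤ) ≤ Divisor.degree D + 1 := by
  have := ell_le_toNat D
  have h2 : ((Divisor.degree D + 1).toNat : ℤ) = Divisor.degree D + 1 :=
    Int.toNat_of_nonneg (by omega)
  omega

theorem ell_eq_zero_of_degree_neg {D : Divisor K F} (h : Divisor.degree D < 0) : ell D = 0 := by
  unfold ell; rw [L_eq_bot_of_degree_neg h]; exact finrank_bot K F

theorem ell_mono {D D' : Divisor K F} (h : D ≤ D') : ell D ≤ ell D' :=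
  Submodule.finrank_mono (L_mono h)

theorem ell_add_prim_le (D : Divisor K F) (v : Place K F) : ell (D + prim v) ≤ ell D + 1 :=
  (L_add_prim_finite v (deg_eq_one v) D).2

/-- Induction principle: from `D` upwards, adding one place at a time. -/
theorem induction_ge {P : Divisor K F → Prop} (D : Divisor K F) (h0 : P D)
    (hstep : ∀ (D' : Divisor K F) (v : Place K F), D ≤ D' → P D' → P (D' + prim v)) :
    ∀ D', D ≤ D' → P D' := by
  classical
  have key : ∀ (n : ℕ) (D' : Divisor K F), D ≤ D' → Divisor.degree (D' - D) ≤ n → P D' := by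
    intro n
    induction n with
    | zero =>
      intro D' hle hdeg
      have hE : 0 ≤ D' - D := sub_nonneg.mpr hle
      have hE0 : D' - D = 0 := by
        by_contra hne
        obtain ⟨v, hv⟩ := Finsupp.support_nonempty_iff.mpr hne
        rw [Finsupp.mem_support_iff] at hv
        have hv0 : 0 ≤ (D' - D) v := by simpa using Finsupp.le_def.mp hE v
        have hge : prim v ≤ D' - D := by
          rw [Finsupp.le_def]
          intro w
          by_cases hw : w = v
          · subst hw; rw [prim_apply_self]; omega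
          · rw [prim_apply_of_ne hw]; simpa using Finsupp.le_def.mp hE w
        have := degree_mono hge
        rw [degree_prim'] at this
        push_cast at hdeg
        omega
      rw [sub_eq_zero] at hE0
      rw [hE0]; exact h0
    | succ n ih =>
      intro D' hle hdeg
      by_cases hE0 : D' - D = 0
      · rw [sub_eq_zero] at hE0
        rw [hE0]; exact h0
      have hE : 0 ≤ D' - D := sub_nonneg.mpr hle
      obtain ⟨v, hv⟩ := Finsupp.support_nonempty_iff.mpr hE0
      rw [Finsupp.mem_support_iff] at hv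
      have hv0 : 0 ≤ (D' - D) v := by simpa using Finsupp.le_def.mp hE v
      have hge : prim v ≤ D' - D := by
        rw [Finsupp.le_def]
        intro w
        by_cases hw : w = v
        · subst hw; rw [prim_apply_self]; omega
        · rw [prim_apply_of_ne hw]; simpa using Finsupp.le_def.mp hE w
      have hle' : D ≤ D' - prim v := by
        have : D + prim v ≤ D' := by
          have := add_le_add_left hge D
          rwa [sub_add_cancel, add_comm] at this
        exact le_sub_iff_add_le.mpr this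
      have hdeg' : Divisor.degree (D' - prim v - D) ≤ n := by
        have : D' - prim v - D = (D' - D) - prim v := by abel
        rw [this, map_sub, degree_prim']
        push_cast at hdeg; omega
      have := hstep (D' - prim v) v hle' (ih (D' - prim v) hle' hdeg')
      rwa [sub_add_cancel] at this
  intro D' hle
  exact key (Divisor.degree (D' - D)).toNat D' hle (Int.self_le_toNat _)

/-- `deg D - ℓ(D)` is monotone in `D`. -/
theorem degree_sub_ell_mono {D D' : Divisor K F} (h : D ≤ D') :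
    Divisor.degree D - ell D ≤ Divisor.degree D' - ell D' := by
  refine induction_ge (P := fun D' => Divisor.degree D - ell D ≤ Divisor.degree D' - ell D')
    D le_rfl ?_ D' h
  intro D'' v _ hP
  have h1 := ell_add_prim_le D'' v
  rw [map_add, degree_prim']
  omega

/-- Functions without poles are constant. -/
theorem L_zero : riemannRochSpace (0 : Divisor K F) = LinearMap.range (Algebra.linearMap K F) := by
  apply le_antisymm
  · intro f hf
    obtain ⟨v₀⟩ := hFF.nonempty_place
    have hf0 : 0 ≤ v₀.ord f := by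
      rcases mem_L_iff.mp hf v₀ with h | h
      · simp [h]
      · simpa using h
    obtain ⟨c, hc⟩ := exists_const_sub v₀ (deg_eq_one v₀) hf0
    have hcL : algebraMap K F c ∈ riemannRochSpace (0 : Divisor K F) := by
      rw [mem_L_iff]; intro v; right; simp [ord_algebraMap]
    have hg : f - algebraMap K F c ∈ riemannRochSpace (0 : Divisor K F) :=
      Submodule.sub_mem _ hf hcL
    have hzero : f - algebraMap K F c = 0 := by
      by_contra hne
      have hpos := hc.resolve_left hne
      have hmem : f - algebraMap K F c ∈ riemannRochSpace (-prim v₀) := by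
        rw [mem_L_iff]
        intro w
        right
        by_cases hw : w = v₀
        · subst hw; simp only [Finsupp.coe_neg, Pi.neg_apply, prim_apply_self, neg_neg]; omega
        · have := (mem_L_iff.mp hg w).resolve_left hne
          simpa [prim_apply_of_ne hw] using this
      have hbot : riemannRochSpace (-prim v₀) = ⊥ :=
        L_eq_bot_of_degree_neg (by rw [map_neg, degree_prim']; omega)
      rw [hbot, Submodule.mem_bot] at hmem
      exact hne hmem
    exact ⟨c, by rw [Algebra.linearMap_apply]; exact (sub_eq_zero.mp hzero).symm⟩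
  · rintro _ ⟨c, rfl⟩
    rw [mem_L_iff]; intro v; right
    simp [ord_algebraMap]

theorem ell_zero : ell (0 : Divisor K F) = 1 := by
  unfold ell
  rw [L_zero]
  have hinj : Function.Injective (Algebra.linearMap K F) := (algebraMap K F).injective
  rw [LinearMap.finrank_range_of_inj hinj]
  exact Module.finrank_self K

/-- The divisor of a nonzero function. -/
def divOf (z : F) (hz : z ≠ 0) : Divisor K F :=
  (HasPrincipalDivisors.exists_divisor (K := K) z hz).choose

theorem divOf_apply (z : F) (hz : z ≠ 0) (v : Place K F) : divOf z hz v = v.ord z :=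
  (HasPrincipalDivisors.exists_divisor (K := K) z hz).choose_spec.1 v

@[simp] theorem degree_divOf (z : F) (hz : z ≠ 0) : Divisor.degree (divOf (K := K) z hz) = 0 :=
  (HasPrincipalDivisors.exists_divisor (K := K) z hz).choose_spec.2

/-- Multiplication by `z` maps `L(D + div z)` isomorphically onto `L(D)`. -/
theorem ell_add_divOf (D : Divisor K F) (z : F) (hz : z ≠ 0) :
    ell (D + divOf z hz) = ell D := by
  let e : F ≃ₗ[K] F :=
    LinearEquiv.ofLinearMap (LinearMap.mulLeft K z) (LinearMap.mulLeft K z⁻¹)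
      (by ext x; simp [hz]) (by ext x; simp [hz])
  have hmap : Submodule.map (e : F →ₗ[K] F) (riemannRochSpace (D + divOf z hz))
      = riemannRochSpace D := by
    ext f
    simp only [Submodule.mem_map, mem_L_iff]
    constructor
    · rintro ⟨g, hg, rfl⟩ v
      rcases hg v with h | h
      · left; simp [e, h]
      · rcases eq_or_ne g 0 with rfl | hg0
        · left; simp [e]
        right
        show -D v ≤ v.ord (z * g)
        rw [v.ord_mul hz hg0]
        simp only [Finsupp.coe_add, Pi.add_apply, divOf_apply] at h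
        omega
    · intro hf
      refine ⟨z⁻¹ * f, fun v => ?_, by simp [e, hz]⟩
      rcases hf v with h | h
      · left; simp [h]
      · rcases eq_or_ne f 0 with rfl | hf0
        · left; simp
        right
        rw [v.ord_mul (inv_ne_zero hz) hf0, v.ord_inv]
        simp only [Finsupp.coe_add, Pi.add_apply, divOf_apply]
        omega
  unfold ell
  rw [← hmap]
  exact (LinearEquiv.finrank_map_eq e _).symm

end FF1

end Fermat.Agent.Lib.RR

end
end
-- ===== PACK-END Lib/RR/Basic.lean

-- ===== PACK-BEGIN Lib/RR/Approx.lean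
section


/-!
# RR library: separation / approximation for finitely many places

(The first three lemmas follow helper144's `S24/Alg/LocApprox.lean`.)
-/

set_option autoImplicit false

noncomputable section

open AlgebraicCurve

namespace Fermat.Agent.Lib.RR

variable {K F : Type*} [Field K] [Field F] [Algebra K F]

/-- The valuation rings of two places are comparable only if the places are equal. -/
theorem place_eq_of_le {v w : Place K F} (h : v.toValuationSubring ≤ w.toValuationSubring) :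
    v = w := by
  apply Place.ext
  refine le_antisymm h ?_
  intro f hf
  by_contra hfv
  have hfw : 0 ≤ w.ord f := ord_nonneg_of_mem w hf
  have hfv' : v.ord f < 0 := by
    by_contra h0
    exact hfv (mem_of_ord_nonneg v (not_lt.mp h0))
  have hf0 : f ≠ 0 := ne_zero_of_ord_ne_zero v hfv'.ne
  obtain ⟨h1, hh1⟩ := exists_ord_eq_one w
  have hh0 : h1 ≠ 0 := ne_zero_of_ord_ne_zero w (by omega)
  set r : ℕ := (v.ord h1).toNat + 1 with hr
  have hfr : f ^ r ≠ 0 := pow_ne_zero r hf0
  have hv : v.ord (f ^ r * h1) < 0 := by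
    rw [v.ord_mul hfr hh0, ord_pow]
    have : (r : ℤ) * v.ord f ≤ -(r : ℤ) := by nlinarith
    have : v.ord h1 ≤ (v.ord h1).toNat := Int.self_le_toNat _
    have : (r : ℤ) = (v.ord h1).toNat + 1 := by rw [hr]; push_cast; ring
    omega
  have hmem : (f ^ r * h1)⁻¹ ∈ w.toValuationSubring := by
    apply h
    apply mem_of_ord_nonneg
    rw [v.ord_inv]; omega
  have hw := ord_nonneg_of_mem w hmem
  rw [w.ord_inv, w.ord_mul hfr hh0, ord_pow, hh1] at hw
  have : 0 ≤ (r : ℤ) * w.ord f := mul_nonneg (Int.natCast_nonneg r) hfw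
  omega

/-- Two distinct places are separated by a function. -/
theorem exists_sep {v w : Place K F} (hvw : v ≠ w) :
    ∃ c : F, 0 < v.ord c ∧ w.ord c < 0 := by
  have h1 : ¬ v.toValuationSubring ≤ w.toValuationSubring := fun h => hvw (place_eq_of_le h)
  have h2 : ¬ w.toValuationSubring ≤ v.toValuationSubring :=
    fun h => hvw (place_eq_of_le h).symm
  obtain ⟨a, hav, haw⟩ := SetLike.not_le_iff_exists.mp h1
  obtain ⟨b, hbw, hbv⟩ := SetLike.not_le_iff_exists.mp h2
  have hav' : 0 ≤ v.ord a := ord_nonneg_of_mem v hav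
  have hbw' : 0 ≤ w.ord b := ord_nonneg_of_mem w hbw
  have haw' : w.ord a < 0 := by
    by_contra h0; exact haw (mem_of_ord_nonneg w (not_lt.mp h0))
  have hbv' : v.ord b < 0 := by
    by_contra h0; exact hbv (mem_of_ord_nonneg v (not_lt.mp h0))
  have ha0 : a ≠ 0 := ne_zero_of_ord_ne_zero w haw'.ne
  have hb0 : b ≠ 0 := ne_zero_of_ord_ne_zero v hbv'.ne
  refine ⟨a * b⁻¹, ?_, ?_⟩
  · rw [v.ord_mul ha0 (inv_ne_zero hb0), v.ord_inv]; omega
  · rw [w.ord_mul ha0 (inv_ne_zero hb0), w.ord_inv]; omega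

/-- For a place `v` outside a finite set `S` of places there is a function with a zero at `v` and
poles at all places of `S`. -/
theorem exists_zero_poles (v : Place K F) (S : Finset (Place K F)) (hv : v ∉ S) :
    ∃ g : F, 0 < v.ord g ∧ ∀ w ∈ S, w.ord g < 0 := by
  classical
  induction S using Finset.induction_on with
  | empty =>
    obtain ⟨h, hh⟩ := exists_ord_eq_one v
    exact ⟨h, by omega, by simp⟩
  | insert w₀ S' hw₀ ih =>
    have hv' : v ∉ S' := fun h => hv (Finset.mem_insert_of_mem h)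
    have hvw₀ : v ≠ w₀ := fun h => hv (h ▸ Finset.mem_insert_self _ _)
    obtain ⟨g, hgv, hgS⟩ := ih hv'
    obtain ⟨c, hcv, hcw⟩ := exists_sep hvw₀
    have hg0 : g ≠ 0 := ne_zero_of_ord_ne_zero v hgv.ne'
    have hc0 : c ≠ 0 := ne_zero_of_ord_ne_zero v hcv.ne'
    by_cases hgw : w₀.ord g < 0
    · refine ⟨g, hgv, ?_⟩
      intro w hw
      rcases Finset.mem_insert.mp hw with rfl | hw
      · exact hgw
      · exact hgS w hw
    · have hgw := not_lt.mp hgw
      set r : ℕ := (∑ w ∈ S', (w.ord c).natAbs) + 1 with hr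
      have hrS : ∀ w ∈ S', -(r : ℤ) < w.ord c := by
        intro w hw
        have h1 : (w.ord c).natAbs ≤ ∑ w ∈ S', (w.ord c).natAbs :=
          Finset.single_le_sum (f := fun w : Place K F => (w.ord c).natAbs)
            (fun _ _ => Nat.zero_le _) hw
        have h2 : (r : ℤ) = ((∑ w ∈ S', (w.ord c).natAbs : ℕ) : ℤ) + 1 := by
          rw [hr]; push_cast; ring
        have h3 : ((w.ord c).natAbs : ℤ) ≤ ((∑ w ∈ S', (w.ord c).natAbs : ℕ) : ℤ) := by
          exact_mod_cast h1
        omega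
      have hr1 : 1 ≤ r := by omega
      have hgr0 : g ^ r ≠ 0 := pow_ne_zero r hg0
      have hw₀' : w₀.ord (c + g ^ r) = w₀.ord c := by
        apply ord_add_eq_of_lt w₀ hc0 hgr0
        rw [ord_pow]
        have : 0 ≤ (r : ℤ) * w₀.ord g := mul_nonneg (Int.natCast_nonneg r) hgw
        omega
      have hsum0 : c + g ^ r ≠ 0 := ne_zero_of_ord_ne_zero w₀ (by rw [hw₀']; omega)
      refine ⟨c + g ^ r, ?_, ?_⟩
      · have h1 := ord_add v hc0 hgr0 hsum0
        rw [ord_pow] at h1
        have h2 : 0 < (r : ℤ) * v.ord g := mul_pos (by exact_mod_cast hr1) hgv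
        have h3 : 0 < min (v.ord c) ((r : ℤ) * v.ord g) := lt_min hcv h2
        omega
      · intro w hw
        rcases Finset.mem_insert.mp hw with rfl | hw
        · rw [hw₀']; exact hcw
        · have h1 : w.ord (g ^ r) < w.ord c := by
            rw [ord_pow]
            have h2 := hgS w hw
            have h3 := hrS w hw
            have h4 : (r : ℤ) * w.ord g ≤ -(r : ℤ) := by nlinarith
            omega
          rw [add_comm, ord_add_eq_of_lt w hgr0 hc0 h1, ord_pow]
          have h2 := hgS w hw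
          have hrpos : (0 : ℤ) < r := by exact_mod_cast hr1
          exact mul_neg_of_pos_of_neg hrpos h2

/-- For a place `v` outside a finite set `S` of places and every `M` there is a function which is
a unit at `v` and vanishes to order at least `M` at all places of `S`. -/
theorem exists_unit_zeros (v : Place K F) (S : Finset (Place K F)) (hv : v ∉ S) (M : ℕ) :
    ∃ s : F, s ≠ 0 ∧ v.ord s = 0 ∧ ∀ w ∈ S, (M : ℤ) ≤ w.ord s := by
  obtain ⟨g, hgv, hgS⟩ := exists_zero_poles v S hv
  have hg0 : g ≠ 0 := ne_zero_of_ord_ne_zero v hgv.ne'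
  -- `u = g⁻¹` has a pole at `v` and zeros on `S`; `s = 1 / (1 + g ^ (M+1))`
  set r : ℕ := M + 1 with hr
  have hgr0 : g ^ r ≠ 0 := pow_ne_zero r hg0
  have hrpos : (0 : ℤ) < r := by rw [hr]; push_cast; omega
  have hv1 : v.ord (1 + g ^ r) = 0 := by
    have h1 : v.ord (1 : F) < v.ord (g ^ r) := by
      rw [v.ord_one, ord_pow]; exact mul_pos hrpos hgv
    rw [ord_add_eq_of_lt v one_ne_zero hgr0 h1, v.ord_one]
  have hne : (1 + g ^ r : F) ≠ 0 := by
    intro h0
    have h1 : v.ord (1 : F) < v.ord (g ^ r) := by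
      rw [v.ord_one, ord_pow]; exact mul_pos hrpos hgv
    have h2 : g ^ r = -1 := by rw [← sub_eq_zero, sub_neg_eq_add, add_comm]; exact h0
    rw [h2, ord_neg, v.ord_one] at h1
    exact lt_irrefl _ h1
  refine ⟨(1 + g ^ r)⁻¹, inv_ne_zero hne, by rw [v.ord_inv, hv1, neg_zero], ?_⟩
  intro w hw
  have hgw := hgS w hw
  have h1 : w.ord (g ^ r) < w.ord (1 : F) := by
    rw [w.ord_one, ord_pow]; exact mul_neg_of_pos_of_neg hrpos hgw
  have h2 : w.ord (1 + g ^ r) = w.ord (g ^ r) := by
    rw [add_comm]; exact ord_add_eq_of_lt w hgr0 one_ne_zero h1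
  rw [w.ord_inv, h2, ord_pow]
  have h3 : (r : ℤ) * w.ord g ≤ -(r : ℤ) := by nlinarith
  rw [hr] at h3 ⊢
  push_cast at h3 ⊢
  omega

/-- The order of a finite sum all of whose terms are `0` or of order `> n`. -/
theorem ord_sum_gt (v : Place K F) {ι : Type*} (s : Finset ι) (y : ι → F) (n : ℤ)
    (h : ∀ i ∈ s, y i = 0 ∨ n < v.ord (y i)) :
    ∑ i ∈ s, y i = 0 ∨ n < v.ord (∑ i ∈ s, y i) := by
  classical
  induction s using Finset.induction_on with
  | empty => left; simp
  | insert a s ha ih =>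
    rw [Finset.sum_insert ha]
    have h1 := h a (Finset.mem_insert_self _ _)
    have h2 := ih (fun i hi => h i (Finset.mem_insert_of_mem hi))
    have h1' : y a = 0 ∨ n + 1 ≤ v.ord (y a) := h1.imp id (fun h => by omega)
    have h2' : ∑ i ∈ s, y i = 0 ∨ n + 1 ≤ v.ord (∑ i ∈ s, y i) := h2.imp id (fun h => by omega)
    exact (ord_add_of_le v h1' h2').imp id (fun h => by omega)

end Fermat.Agent.Lib.RR

end
end
-- ===== PACK-END Lib/RR/Approx.lean

-- ===== PACK-BEGIN S18/H456/ModBasic.lean
section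


/-!
# S18 / MOD assembly (helper456, backup MOD-ASM): basic facts on the concrete objects

Membership lemmas for `Lc`, `Ec`, `Rc`, `Fc` and the "easy" fields of `Alg.GoodModel`
(`charZero`, `R_le`, `R_total`, `E_le_L`, `E_le_F`, `L_algebraic`, `L_algClosed`, `compositum`).
-/

set_option autoImplicit false

noncomputable section

namespace Fermat.Agent.S18.H456

open ModularCurve AlgebraicCurve HahnSeries Fermat.Agent.S18 Fermat.Agent.S18.Mod

variable (M : ℕ) (A : ValuationSubring Qb) (E : IntermediateField ℚ Qb)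

/-- The constant `c ∈ Q̄` as an element of `Ω`. -/
abbrev cst (c : Qb) : Om M := algebraMap Qb (Om M) c

theorem cst_injective : Function.Injective (cst M) := (algebraMap Qb (Om M)).injective

theorem mem_Lc_iff {f : Om M} : f ∈ Lc M ↔ ∃ c : Qb, cst M c = f := Iff.rfl

theorem cst_mem_Lc (c : Qb) : cst M c ∈ Lc M := ⟨c, rfl⟩

theorem mem_Ec_iff {f : Om M} : f ∈ Ec M E ↔ ∃ c ∈ E, cst M c = f := by
  unfold Ec
  rw [Subfield.mem_map]
  rfl

theorem cst_mem_Ec {c : Qb} (hc : c ∈ E) : cst M c ∈ Ec M E := (mem_Ec_iff M E).2 ⟨c, hc, rfl⟩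

theorem cst_mem_Ec_iff {c : Qb} : cst M c ∈ Ec M E ↔ c ∈ E := by
  refine ⟨fun h => ?_, cst_mem_Ec M E⟩
  obtain ⟨c', hc', h⟩ := (mem_Ec_iff M E).1 h
  rwa [← cst_injective M h]

theorem mem_Rc_iff {f : Om M} : f ∈ Rc M A E ↔ ∃ c, c ∈ A ∧ c ∈ E ∧ cst M c = f := by
  unfold Rc
  rw [Subring.mem_map]
  constructor
  · rintro ⟨c, hc, rfl⟩
    exact ⟨c, hc.1, hc.2, rfl⟩
  · rintro ⟨c, hA, hE, rfl⟩
    exact ⟨c, ⟨hA, hE⟩, rfl⟩

theorem cst_mem_Rc {c : Qb} (hA : c ∈ A) (hE : c ∈ E) : cst M c ∈ Rc M A E :=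
  (mem_Rc_iff M A E).2 ⟨c, hA, hE, rfl⟩

theorem cst_mem_Rc_iff {c : Qb} : cst M c ∈ Rc M A E ↔ c ∈ A ∧ c ∈ E := by
  refine ⟨fun h => ?_, fun h => cst_mem_Rc M A E h.1 h.2⟩
  obtain ⟨c', hA, hE, h⟩ := (mem_Rc_iff M A E).1 h
  rw [← cst_injective M h]
  exact ⟨hA, hE⟩

/-! ### The easy fields -/

theorem field_charZero : CharZero (Om M) :=
  charZero_of_injective_algebraMap (algebraMap Qb (Om M)).injective

theorem field_R_le : (Rc M A E : Set (Om M)) ⊆ Ec M E := by
  intro f hf
  obtain ⟨c, -, hE, rfl⟩ := (mem_Rc_iff M A E).1 hf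
  exact cst_mem_Ec M E hE

theorem field_R_total : ∀ e ∈ Ec M E, e ∈ Rc M A E ∨ e⁻¹ ∈ Rc M A E := by
  intro e he
  obtain ⟨c, hE, rfl⟩ := (mem_Ec_iff M E).1 he
  rcases A.mem_or_inv_mem c with h | h
  · exact Or.inl (cst_mem_Rc M A E h hE)
  · right
    rw [← map_inv₀]
    exact cst_mem_Rc M A E h (inv_mem hE)

theorem field_E_le_L : Ec M E ≤ Lc M := by
  intro f hf
  obtain ⟨c, -, rfl⟩ := (mem_Ec_iff M E).1 hf
  exact cst_mem_Lc M c

theorem field_E_le_F : Ec M E ≤ Fc M E := by
  intro f hf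
  exact Subfield.subset_closure (Or.inl hf)

theorem field_L_algebraic : ∀ a ∈ Lc M, IsAlgebraic (Ec M E) a := by
  intro a ha
  obtain ⟨c, rfl⟩ := (mem_Lc_iff M).1 ha
  have hc : IsAlgebraic ℚ c := (AlgebraicClosure.isAlgebraic ℚ).isAlgebraic c
  obtain ⟨p, hp0, hp⟩ := hc
  -- the ring hom ℚ → Ec
  let φ : ℚ →+* Ec M E := algebraMap ℚ (Ec M E)
  refine ⟨p.map φ, (Polynomial.map_ne_zero_iff φ.injective).2 hp0, ?_⟩
  rw [Polynomial.aeval_def, Polynomial.eval₂_map]
  have hcomp : (algebraMap (Ec M E) (Om M)).comp φ = (algebraMap Qb (Om M)).comp (algebraMap ℚ Qb) :=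
    RingHom.ext_rat _ _
  rw [hcomp, ← Polynomial.hom_eval₂]
  rw [Polynomial.aeval_def] at hp
  rw [hp, _root_.map_zero]

theorem field_L_algClosed : IsAlgClosed (Lc M) := by
  let e : Qb ≃+* Lc M := RingEquiv.ofBijective (algebraMap Qb (Om M)).rangeRestrictField
    ⟨(algebraMap Qb (Om M)).rangeRestrictField.injective, fun ⟨y, c, hc⟩ => ⟨c, Subtype.ext hc⟩⟩
  exact IsAlgClosed.of_ringEquiv Qb (Lc M) e

end Fermat.Agent.S18.H456

end
end
-- ===== PACK-END S18/H456/ModBasic.lean

-- ===== PACK-BEGIN S18/H107/T3Branch.lean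
section




/-!
# helper107 — S18 / M3-T : `unramified` for the Hauptmodul `t₃` (`j t³ = (t + 27)(t + 243)³`)

From the branch data of the `j`-line (`BranchJ107`): for every constant `c ∉ {-27, 0}`, at a place
`O` with `t ≡ c`, `t - c` is a uniformiser.  (`t = -243` lies over `j = 0` with `e(t/j) = 3`, the
two roots of `t² - 486 t - 19683` over `j = 1728` with `e(t/j) = 2`; only `t = -27`, `0`, `∞` can
ramify in `Ω / Lc(t)`.)
-/

set_option autoImplicit false

namespace Fermat.Agent.S18.H107

variable {Ω : Type*} [Field Ω] [CharZero Ω]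

theorem unramified_t3_107 (Lc : Subfield Ω) (j t : Ω)
    (hrel : j * t ^ 3 = (t + 27) * (t + 243) ^ 3)
    (hB : BranchJ107 Lc j) (O : ValuationSubring Ω) (hL : ∀ a ∈ Lc, a ∈ O) (c : Ω) (hc : c ∈ Lc)
    (hc27 : c ≠ -27) (hc0 : c ≠ 0) (hz : t - c ∈ O) (hz' : (t - c)⁻¹ ∉ O) :
    ∀ s ∈ O, s⁻¹ ∉ O → s * (t - c)⁻¹ ∈ O := by
  rw [← OrdLe107.one_iff]
  have hzv : O.valuation (t - c) < 1 := val_lt_one107 O hz hz'
  have hz0 : t - c ≠ 0 := by
    intro h0
    rw [h0, inv_zero] at hz'
    exact hz' O.zero_mem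
  have hcv : O.valuation c = 1 := val_const107 O Lc hL hc hc0
  have htv : O.valuation t = 1 := by
    have : t = c + (t - c) := by ring
    rw [this]
    exact val_add_eq_one107 O hcv hzv
  have ht0 : t ≠ 0 := by
    intro h0
    rw [h0, map_zero] at htv
    exact zero_ne_one htv
  have htO : t ∈ O := (O.valuation_le_one_iff _).1 htv.le
  have hcO : c ∈ O := hL c hc
  have ht3v : O.valuation ((t ^ 3)⁻¹) = 1 := by
    rw [map_inv₀, map_pow, htv, one_pow, inv_one]
  by_cases h243 : c = -243
  · -- over `j = 0`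
    subst h243
    have h216 : O.valuation (-216 : Ω) = 1 :=
      val_const107 O Lc hL (Lc.neg_mem (ofNat_mem Lc 216)) (by norm_num)
    have ht27 : O.valuation (t + 27) = 1 := by
      have : t + 27 = -216 + (t - -243) := by ring
      rw [this]
      exact val_add_eq_one107 O h216 hzv
    have hUv : O.valuation ((t + 27) * (t ^ 3)⁻¹) = 1 := by
      rw [map_mul, ht27, ht3v, mul_one]
    have hU0 : (t + 27) * (t ^ 3)⁻¹ ≠ 0 := by
      intro h0
      rw [h0, map_zero] at hUv
      exact zero_ne_one hUv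
    have hy : j = (t - -243) ^ 3 * ((t + 27) * (t ^ 3)⁻¹) := by
      field_simp
      linear_combination hrel
    have hj0 : j ≠ 0 := by
      rw [hy]
      exact mul_ne_zero (pow_ne_zero _ hz0) hU0
    have hjv : O.valuation j < 1 := by
      rw [hy, map_mul, hUv, mul_one, map_pow]
      exact pow_lt_one₀ zero_le hzv (by norm_num)
    exact unram_of_factor107 O (k := 3) (by norm_num) hy hUv hz0
      (hB.zero O hL (mem_of_val_lt_one107 O hjv) (inv_not_mem_of_val_lt_one107 O hj0 hjv))
  by_cases hq : c ^ 2 - 486 * c - 19683 = 0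
  · -- over `j = 1728`
    have h2c : 2 * c - 486 ≠ 0 := by
      intro h
      have h1 : (314928 : Ω) = 0 := by
        linear_combination (2 * c - 486) * h - 4 * hq
      norm_num at h1
    have h2cL : 2 * c - 486 ∈ Lc :=
      Lc.sub_mem (Lc.mul_mem (ofNat_mem Lc 2) hc) (ofNat_mem Lc 486)
    have htc : O.valuation (t + c - 486) = 1 := by
      have : t + c - 486 = (2 * c - 486) + (t - c) := by ring
      rw [this]
      exact val_add_eq_one107 O (val_const107 O Lc hL h2cL h2c) hzv
    have hUv : O.valuation ((t + c - 486) ^ 2 * (t ^ 3)⁻¹) = 1 := by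
      rw [map_mul, map_pow, htc, one_pow, ht3v, mul_one]
    have hU0 : (t + c - 486) ^ 2 * (t ^ 3)⁻¹ ≠ 0 := by
      intro h0
      rw [h0, map_zero] at hUv
      exact zero_ne_one hUv
    have hy : j - 1728 = (t - c) ^ 2 * ((t + c - 486) ^ 2 * (t ^ 3)⁻¹) := by
      field_simp
      linear_combination hrel +
        (2 * (t - c) * (t + c - 486) + (c ^ 2 - 486 * c - 19683)) * hq
    have hy0 : j - 1728 ≠ 0 := by
      rw [hy]
      exact mul_ne_zero (pow_ne_zero _ hz0) hU0
    have hyv : O.valuation (j - 1728) < 1 := by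
      rw [hy, map_mul, hUv, mul_one, map_pow]
      exact pow_lt_one₀ zero_le hzv (by norm_num)
    exact unram_of_factor107 O (k := 2) (by norm_num) hy hUv hz0
      (hB.c1728 O hL (mem_of_val_lt_one107 O hyv) (inv_not_mem_of_val_lt_one107 O hy0 hyv))
  · -- generic point
    have hc27' : c + 27 ≠ 0 := fun h => hc27 (by linear_combination h)
    have hc243 : c + 243 ≠ 0 := fun h => h243 (by linear_combination h)
    set a : Ω := (c + 27) * (c + 243) ^ 3 * (c ^ 3)⁻¹ with ha
    have haL : a ∈ Lc :=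
      Lc.mul_mem (Lc.mul_mem (Lc.add_mem hc (ofNat_mem Lc 27))
        (Lc.pow_mem (Lc.add_mem hc (ofNat_mem Lc 243)) 3)) (Lc.inv_mem (Lc.pow_mem hc 3))
    have ha0 : a ≠ 0 :=
      mul_ne_zero (mul_ne_zero hc27' (pow_ne_zero _ hc243)) (inv_ne_zero (pow_ne_zero _ hc0))
    have ha1728 : a ≠ 1728 := by
      intro h
      have h1 : (c ^ 2 - 486 * c - 19683) ^ 2 = 0 := by
        have h2 : (c + 27) * (c + 243) ^ 3 = 1728 * c ^ 3 := by
          rw [ha] at h
          field_simp at h
          linear_combination h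
        linear_combination h2
      exact hq (pow_eq_zero_iff (by norm_num) |>.1 h1)
    -- the cofactor
    set W : Ω := c ^ 3 * t ^ 3 - (196830 * c ^ 2 + 19131876 * c + 387420489) * t ^ 2 -
      (19131876 * c ^ 2 + 387420489 * c) * t - 387420489 * c ^ 2 with hW
    set W₀ : Ω := c ^ 2 * (c + 243) ^ 2 * (c ^ 2 - 486 * c - 19683) with hW₀
    set W₁ : Ω := c ^ 3 * (t ^ 2 + t * c + c ^ 2) -
      (196830 * c ^ 2 + 19131876 * c + 387420489) * (t + c) -
      (19131876 * c ^ 2 + 387420489 * c) with hW₁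
    have hW₀L : W₀ ∈ Lc :=
      Lc.mul_mem (Lc.mul_mem (Lc.pow_mem hc 2) (Lc.pow_mem (Lc.add_mem hc (ofNat_mem Lc 243)) 2))
        (Lc.sub_mem (Lc.sub_mem (Lc.pow_mem hc 2) (Lc.mul_mem (ofNat_mem Lc 486) hc))
          (ofNat_mem Lc 19683))
    have hW₀0 : W₀ ≠ 0 := mul_ne_zero (mul_ne_zero (pow_ne_zero _ hc0) (pow_ne_zero _ hc243)) hq
    have hW₁O : W₁ ∈ O :=
      sub_mem (sub_mem
        (mul_mem (pow_mem hcO 3) (add_mem (add_mem (pow_mem htO 2) (mul_mem htO hcO))
          (pow_mem hcO 2)))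
        (mul_mem (add_mem (add_mem (mul_mem (ofNat_mem O 196830) (pow_mem hcO 2))
          (mul_mem (ofNat_mem O 19131876) hcO)) (ofNat_mem O 387420489)) (add_mem htO hcO)))
        (add_mem (mul_mem (ofNat_mem O 19131876) (pow_mem hcO 2))
          (mul_mem (ofNat_mem O 387420489) hcO))
    have hWv : O.valuation W = 1 := by
      have e : W = W₀ + (t - c) * W₁ := by
        rw [hW, hW₀, hW₁]
        ring
      rw [e]
      refine val_add_eq_one107 O (val_const107 O Lc hL hW₀L hW₀0) ?_
      rw [map_mul]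
      calc O.valuation (t - c) * O.valuation W₁ ≤ O.valuation (t - c) * 1 := by
            gcongr
            exact (O.valuation_le_one_iff _).2 hW₁O
        _ = O.valuation (t - c) := mul_one _
        _ < 1 := hzv
    have hUv : O.valuation (W * (t ^ 3 * c ^ 3)⁻¹) = 1 := by
      rw [map_mul, hWv, one_mul, map_inv₀, map_mul, map_pow, map_pow, htv, hcv, one_pow,
        mul_one, inv_one]
    have hy : j - a = (t - c) ^ 1 * (W * (t ^ 3 * c ^ 3)⁻¹) := by
      rw [ha, hW]
      field_simp
      linear_combination (c ^ 3) * hrel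
    have hU0 : W * (t ^ 3 * c ^ 3)⁻¹ ≠ 0 := by
      intro h0
      rw [h0, map_zero] at hUv
      exact zero_ne_one hUv
    have hy0 : j - a ≠ 0 := by
      rw [hy]
      exact mul_ne_zero (pow_ne_zero _ hz0) hU0
    have hyv : O.valuation (j - a) < 1 := by
      rw [hy, map_mul, hUv, mul_one, pow_one]
      exact hzv
    exact unram_of_factor107 O (k := 1) (by norm_num) hy hUv hz0
      (hB.generic O hL a haL ha0 ha1728 (mem_of_val_lt_one107 O hyv)
        (inv_not_mem_of_val_lt_one107 O hy0 hyv))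

end Fermat.Agent.S18.H107

end
-- ===== PACK-END S18/H107/T3Branch.lean

-- ===== PACK-BEGIN S18/B12/H93/RegSeqAbs.lean
section




/-!
# S18 / B12 / A0: `RegSeqAbsStatement` (helper93), adapter over `H393.isIntegral_of_isIntegral_mul'`.
-/

set_option autoImplicit false

namespace Fermat.Agent.S18.B12.H93

attribute [local instance] FractionRing.liftAlgebra FractionRing.isScalarTower_liftAlgebra

universe u v

theorem regSeqAbs : RegSeqAbsStatement.{u, v} := by
  intro P _ _ _ B _ _ _ _ _ _ u w hw hwu b b' hbb'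
  classical
  have hw0 : w ≠ 0 := hw.ne_zero
  have hinjPB : Function.Injective (algebraMap P B) := FaithfulSMul.algebraMap_injective P B
  have hinjBF : Function.Injective (algebraMap B (FractionRing B)) :=
    IsFractionRing.injective B (FractionRing B)
  have hwB : algebraMap P B w ≠ 0 := fun h => hw0 (hinjPB (by rw [map_zero]; exact h))
  have hwF : algebraMap B (FractionRing B) (algebraMap P B w) ≠ 0 :=
    fun h => hwB (hinjBF (by rw [map_zero]; exact h))
  -- the element `f = b / w`
  set f : FractionRing B :=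
    algebraMap B (FractionRing B) b * (algebraMap B (FractionRing B) (algebraMap P B w))⁻¹ with hf
  have hPF : ∀ x : P, algebraMap P (FractionRing B) x =
      algebraMap B (FractionRing B) (algebraMap P B x) :=
    fun x => IsScalarTower.algebraMap_apply P B (FractionRing B) x
  have hwf : algebraMap P (FractionRing B) w * f = algebraMap B (FractionRing B) b := by
    rw [hPF, hf]
    field_simp
  have huf : algebraMap P (FractionRing B) u * f = algebraMap B (FractionRing B) b' := by
    rw [hPF, hf, ← mul_assoc, ← map_mul, hbb', map_mul]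
    field_simp
  have hintB : ∀ x : B, IsIntegral P (algebraMap B (FractionRing B) x) :=
    fun x => (Algebra.IsIntegral.isIntegral x).algebraMap
  have hfint : IsIntegral P f :=
    Fermat.Agent.S18.H393.isIntegral_of_isIntegral_mul' (FractionRing P) hw hwu
      (hwf ▸ hintB b) (huf ▸ hintB b')
  have hfintB : IsIntegral B f := hfint.tower_top
  obtain ⟨b'', hb''⟩ := IsIntegrallyClosed.isIntegral_iff.mp hfintB
  refine ⟨b'', ?_, ?_⟩
  · apply hinjBF
    rw [map_mul, hb'', ← hPF, hwf]
  · apply hinjBF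
    rw [map_mul, hb'', ← hPF, huf]

end Fermat.Agent.S18.B12.H93

end
-- ===== PACK-END S18/B12/H93/RegSeqAbs.lean

-- ===== PACK-BEGIN S18/B12/H93/LocalBasisRank.lean
section



/-!
# S18 / B12 / A2': `LocalBasisRankStatement` (helper93).
-/

set_option autoImplicit false

namespace Fermat.Agent.S18.B12.H93

universe u v

theorem localBasisRank : LocalBasisRankStatement.{u, v} := by
  intro P _ _ _ B _ _ _ _ _ _ 𝔪 _ n x hx
  obtain ⟨hli, g, hg, hgB⟩ := hx
  classical
  have hg0 : g ≠ 0 := fun h => hg (h ▸ 𝔪.zero_mem)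
  constructor
  · apply le_antisymm
    · have := hli.fintype_card_le_finrank
      simpa using this
    · have hfin : Module.Finite P (Submodule.span P (Set.range x)) :=
        Module.Finite.span_of_finite P (Set.finite_range x)
      let f : B →ₗ[P] Submodule.span P (Set.range x) :=
        (LinearMap.lsmul P B g).codRestrict _ hgB
      have hf : Function.Injective f := by
        intro a b hab
        have h1 : g • a = g • b := congrArg Subtype.val hab
        exact smul_right_injective B hg0 h1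
      have h1 := LinearMap.finrank_le_finrank_of_injective hf
      have h2 : Module.finrank P (Submodule.span P (Set.range x)) = n := by
        rw [finrank_span_eq_card hli, Fintype.card_fin]
      omega
  · intro x'
    have hU : ∀ i, ∃ c : Fin n → P, ∑ j, c j • x j = g • x' i :=
      fun i => (Submodule.mem_span_range_iff_exists_fun P).mp (hgB (x' i))
    choose U hUx using hU
    refine ⟨g ^ n, (Matrix.of U).det, fun h => hg (Ideal.IsPrime.mem_of_pow_mem inferInstance n h),
      ?_⟩
    set G : Matrix (Fin n) (Fin n) P := Matrix.of fun i j => Algebra.intTrace P B (x i * x j)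
      with hG
    set G' : Matrix (Fin n) (Fin n) P := Matrix.of fun i j => Algebra.intTrace P B (x' i * x' j)
      with hG'
    have hmat : (g ^ 2) • G' = Matrix.of U * G * (Matrix.of U).transpose := by
      ext i j
      rw [Matrix.smul_apply, hG', Matrix.of_apply, smul_eq_mul, Matrix.mul_apply]
      have h1 : g ^ 2 * Algebra.intTrace P B (x' i * x' j) =
          Algebra.intTrace P B ((g • x' i) * (g • x' j)) := by
        rw [smul_mul_smul_comm, ← sq, map_smul, smul_eq_mul]
      rw [h1, ← hUx i, ← hUx j, Finset.sum_mul_sum, map_sum]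
      simp_rw [Matrix.mul_apply, Finset.sum_mul]
      rw [Finset.sum_comm]
      refine Finset.sum_congr rfl fun k _ => ?_
      rw [map_sum]
      refine Finset.sum_congr rfl fun l _ => ?_
      rw [smul_mul_smul_comm, map_smul, smul_eq_mul, Matrix.transpose_apply, Matrix.of_apply,
        Matrix.of_apply, hG, Matrix.of_apply]
      ring
    have hdet := congrArg Matrix.det hmat
    rw [Matrix.det_smul, Matrix.det_mul, Matrix.det_mul, Matrix.det_transpose, Fintype.card_fin]
      at hdet
    show (g ^ n) ^ 2 * G'.det = (Matrix.of U).det ^ 2 * G.det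
    rw [← pow_mul, mul_comm n 2, pow_mul, hdet]
    ring

end Fermat.Agent.S18.B12.H93

end
-- ===== PACK-END S18/B12/H93/LocalBasisRank.lean

-- ===== PACK-BEGIN S18/H274/Tame.lean
section




/-!
# S18 / b2.3 (helper274) — TAME discriminant bound

Mathlib-only, sorry-free.  `Λ` a domain, `t` a prime element, `π : Λ →+* K` a surjection onto a
field of characteristic `0` with kernel `(t)`.  `C` a Dedekind domain which is free of finite rank
over `Λ` with basis `β`.

* `pow_dvd_mul_of_trace_dvd` : if `t ^ a ∣ Tr (y c)` for all `c : C`, then `t ^ a ∣ t * y` in `C`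
  ("`t` times the trace dual is integral").
* `tame_discr_of_residue` : if `y : Fin r → C` is linearly independent modulo `rad (t C)` then
  `¬ t ^ (card ι - r + 1) ∣ discr β`.
* `tameDiscr` : the same in the frozen shape `TameDiscrStatement` of
  `origin/helper33:Fermat/Agent/S18/B12/Spec.lean` (`Λ` a PID containing `ℚ`).
-/

namespace Fermat.Agent.S18.H274

open Module

section

variable {Λ : Type*} [CommRing Λ] [IsDomain Λ]
variable {C : Type*} [CommRing C] [IsDedekindDomain C] [Algebra Λ C]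
variable {ι : Type*} [Fintype ι] [DecidableEq ι] (β : Basis ι Λ C)
variable {K : Type*} [Field K] [CharZero K] (π : Λ →+* K)

include β π in
/-- **`t` times the trace dual is integral.**  If `t ^ a` divides `Tr (y c)` for all `c`, then
`t ^ a` divides `t * y` in `C`. -/
theorem pow_dvd_mul_of_trace_dvd (t : Λ) (ht0 : t ≠ 0) (hπt : π t = 0)
    (hker : ∀ x, π x = 0 → t ∣ x) (y : C) (a : ℕ)
    (hy : ∀ c, t ^ a ∣ Algebra.trace Λ C (y * c)) :
    algebraMap Λ C t ^ a ∣ algebraMap Λ C t * y := by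
  classical
  have hinj : Function.Injective (algebraMap Λ C) := β.algebraMap_injective
  have hτ : algebraMap Λ C t ≠ 0 := fun h => ht0 (hinj (by rw [h, map_zero]))
  obtain ⟨β₀, β₀', z, z₁, h1, hz, hz₁⟩ :=
    exists_split_of_isDedekindDomain (algebraMap Λ C t * y) (algebraMap Λ C t ^ a)
      (pow_ne_zero a hτ)
  have hzc : ∀ c, π (Algebra.trace Λ C (z * c)) = 0 := by
    intro c
    obtain ⟨e, he⟩ := hy (β₀' * c)
    have h2 : t ^ a * Algebra.trace Λ C (z * c) = t ^ a * (t * e) := by
      calc t ^ a * Algebra.trace Λ C (z * c)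
          = Algebra.trace Λ C ((z * algebraMap Λ C t ^ a) * c) := by
            rw [← smul_eq_mul, ← map_smul, Algebra.smul_def, map_pow]
            congr 1; ring
        _ = Algebra.trace Λ C (t • (y * (β₀' * c))) := by
            rw [hz, Algebra.smul_def]
            congr 1; ring
        _ = t ^ a * (t * e) := by
            rw [map_smul, he, smul_eq_mul]; ring
    have h3 := mul_left_cancel₀ (pow_ne_zero a ht0) h2
    rw [h3, map_mul, hπt, zero_mul]
  obtain ⟨m, c₀, hc₀⟩ := exists_pow_dvd_of_trace_map_eq_zero β π t hker z hzc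
  have hβ₀ : β₀ = 1 - z := by rw [← h1]; ring
  have hgeom := mul_neg_geom_sum z (m * a)
  refine ⟨(∑ i ∈ Finset.range (m * a), z ^ i) * z₁ + c₀ ^ a * (algebraMap Λ C t * y), ?_⟩
  have hzma : z ^ (m * a) = algebraMap Λ C t ^ a * c₀ ^ a := by
    rw [pow_mul, hc₀, mul_pow]
  calc algebraMap Λ C t * y
      = (1 - z ^ (m * a)) * (algebraMap Λ C t * y) + z ^ (m * a) * (algebraMap Λ C t * y) := by
        ring
    _ = (∑ i ∈ Finset.range (m * a), z ^ i) * (β₀ * (algebraMap Λ C t * y))
          + z ^ (m * a) * (algebraMap Λ C t * y) := by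
        rw [← hgeom, hβ₀]; ring
    _ = algebraMap Λ C t ^ a *
          ((∑ i ∈ Finset.range (m * a), z ^ i) * z₁ + c₀ ^ a * (algebraMap Λ C t * y)) := by
        rw [← hz₁, hzma]; ring

include π in
/-- **TAME discriminant bound**, residue-field form.  `π : Λ →+* K` a surjection onto a field
of characteristic `0` with kernel `(t)`, `t` prime; `C` Dedekind, free over `Λ` with basis `β`.
If `y : Fin r → C` is linearly independent modulo `rad (t C)`, then
`t ^ (card ι - r + 1)` does not divide the discriminant of `β`. -/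
theorem tame_discr_of_residue [WfDvdMonoid Λ] (hπ : Function.Surjective π)
    (t : Λ) (ht : Prime t) (hπt : π t = 0) (hker : ∀ x, π x = 0 → t ∣ x)
    (r : ℕ) (y : Fin r → C)
    (hy : ∀ a : Fin r → Λ,
        (∑ i, a i • y i) ∈ (Ideal.span {algebraMap Λ C t}).radical → ∀ i, t ∣ a i) :
    ¬ t ^ (Fintype.card ι - r + 1) ∣ Algebra.discr Λ β := by
  classical
  have ht0 : t ≠ 0 := ht.ne_zero
  have hchar : CharZero Λ := ⟨fun n m h => by
    have := congrArg π h
    simpa using this⟩
  -- Step 1: the discriminant is nonzero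
  have hD0 : Algebra.discr Λ β ≠ 0 := discr_ne_zero_of_charZero β
  -- Step 2: `D = t ^ a * D'`
  obtain ⟨a, D', hD', hD⟩ := WfDvdMonoid.max_power_factor hD0 ht.irreducible
  set G := Algebra.traceMatrix Λ β with hG
  have hGdet : G.det = t ^ a * D' := by rw [← hD, Algebra.discr_def]
  have hGsymm : ∀ i k, G i k = G k i := by
    intro i k
    simp only [hG, Algebra.traceMatrix_apply, Algebra.traceForm_apply, mul_comm]
  have hGapp : ∀ i k, G i k = Algebra.trace Λ C (β i * β k) := by
    intro i k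
    simp only [hG, Algebra.traceMatrix_apply, Algebra.traceForm_apply]
  -- trace of `(∑ i, M i j • β i) * β k` is `(G * M) k j`
  have htrcol : ∀ (M : Matrix ι ι Λ) (j k : ι),
      Algebra.trace Λ C ((∑ i, M i j • β i) * β k) = (G * M) k j := by
    intro M j k
    rw [Finset.sum_mul, map_sum, Matrix.mul_apply]
    refine Finset.sum_congr rfl fun i _ => ?_
    rw [smul_mul_assoc, map_smul, smul_eq_mul, hGsymm k i, hGapp, mul_comm]
  -- Step 3: the matrix `N` with `t • adj G = t ^ a • N`
  have hdual : ∀ j, algebraMap Λ C t ^ a ∣ algebraMap Λ C t * (∑ i, G.adjugate i j • β i) := by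
    intro j
    apply pow_dvd_mul_of_trace_dvd β π t ht0 hπt hker
    apply trace_mul_dvd_of_basis β
    intro k
    rw [htrcol, Matrix.mul_adjugate, hGdet, Matrix.smul_apply, Matrix.one_apply, smul_eq_mul]
    split_ifs
    · rw [mul_one]; exact Dvd.intro _ rfl
    · rw [mul_zero]; exact dvd_zero _
  choose x hx using hdual
  let N : Matrix ι ι Λ := fun i j => β.repr (x j) i
  have hxN : ∀ j, x j = ∑ i, N i j • β i := fun j => (β.sum_repr (x j)).symm
  have hN : ∀ i j, t * G.adjugate i j = t ^ a * N i j := by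
    intro i j
    have h1 : β.repr (algebraMap Λ C t * ∑ i, G.adjugate i j • β i) i
        = β.repr (algebraMap Λ C t ^ a * x j) i := by rw [hx j]
    rw [← Algebra.smul_def, map_smul, Finsupp.smul_apply, β.repr_sum_self, ← map_pow,
      ← Algebra.smul_def, map_smul, Finsupp.smul_apply, smul_eq_mul, smul_eq_mul] at h1
    exact h1
  -- Step 4: `G * N = (t * D') • 1`
  have hGN : G * N = (t * D') • (1 : Matrix ι ι Λ) := by
    ext i j
    apply mul_left_cancel₀ (pow_ne_zero a ht0)
    have h2 : t ^ a * (G * N) i j = t * (G * G.adjugate) i j := by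
      rw [Matrix.mul_apply, Matrix.mul_apply, Finset.mul_sum, Finset.mul_sum]
      refine Finset.sum_congr rfl fun k _ => ?_
      rw [mul_left_comm, ← hN, mul_left_comm]
    rw [h2, Matrix.mul_adjugate, hGdet]
    simp only [Matrix.smul_apply, smul_eq_mul]
    ring
  -- Step 5: the columns of `N` are nilpotent modulo `t`
  have hxrad : ∀ j, x j ∈ (Ideal.span {algebraMap Λ C t}).radical := by
    intro j
    have h3 : ∀ c, π (Algebra.trace Λ C (x j * c)) = 0 := by
      intro c
      have h4 : t ∣ Algebra.trace Λ C (x j * c) := by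
        apply trace_mul_dvd_of_basis β
        intro k
        rw [hxN j, htrcol, hGN, Matrix.smul_apply, smul_eq_mul, mul_assoc]
        exact Dvd.intro _ rfl
      obtain ⟨e, he⟩ := h4
      rw [he, map_mul, hπt, zero_mul]
    obtain ⟨m, hm⟩ := exists_pow_dvd_of_trace_map_eq_zero β π t hker (x j) h3
    rw [Ideal.mem_radical_iff]
    exact ⟨m, Ideal.mem_span_singleton.mpr hm⟩
  -- Step 6: rank bound
  let Nbar : Matrix ι ι K := N.map π
  let Ybar : Matrix ι (Fin r) K := fun i' i => π (β.repr (y i) i')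
  let W : Submodule K (ι → K) := LinearMap.range Nbar.mulVecLin
  let f : (Fin r → K) →ₗ[K] ((ι → K) ⧸ W) := W.mkQ ∘ₗ Ybar.mulVecLin
  have hfinj : Function.Injective f := by
    rw [← LinearMap.ker_eq_bot, LinearMap.ker_eq_bot']
    intro abar habar
    have h5 : Ybar.mulVec abar ∈ W := by
      have : W.mkQ (Ybar.mulVecLin abar) = 0 := habar
      rwa [Submodule.mkQ_apply, Submodule.Quotient.mk_eq_zero] at this
    obtain ⟨vbar, hvbar⟩ := h5
    choose a₀ ha₀ using fun i => hπ (abar i)
    choose v hv using fun j => hπ (vbar j)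
    -- the element `e = ∑ a i • y i - ∑ v j • x j` is divisible by `t`
    have he : algebraMap Λ C t ∣ (∑ i, a₀ i • y i) - ∑ j, v j • x j := by
      apply dvd_of_forall_dvd_repr β
      intro i'
      apply hker
      have h6 := congrFun hvbar i'
      simp only [Matrix.mulVecLin_apply, Matrix.mulVec, dotProduct, Nbar, Ybar,
        Matrix.map_apply] at h6
      rw [map_sub, Finsupp.sub_apply, map_sum, map_sum, Finsupp.finsetSum_apply,
        Finsupp.finsetSum_apply, map_sub, map_sum, map_sum, sub_eq_zero]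
      have e1 : ∀ i, π ((β.repr (a₀ i • y i)) i') = π (β.repr (y i) i') * abar i := by
        intro i
        rw [map_smul, Finsupp.smul_apply, smul_eq_mul, map_mul, ha₀, mul_comm]
      have e2 : ∀ j, π ((β.repr (v j • x j)) i') = π (N i' j) * vbar j := by
        intro j
        rw [map_smul, Finsupp.smul_apply, smul_eq_mul, map_mul, hv, mul_comm]
      simp only [e1, e2]
      exact h6.symm
    -- hence `∑ a i • y i` is in the radical
    have hrad : (∑ i, a₀ i • y i) ∈ (Ideal.span {algebraMap Λ C t}).radical := by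
      have h7 : (∑ i, a₀ i • y i) = ((∑ i, a₀ i • y i) - ∑ j, v j • x j) + ∑ j, v j • x j := by
        ring
      rw [h7]
      refine Ideal.add_mem _ (Ideal.le_radical (Ideal.mem_span_singleton.mpr he)) ?_
      refine Ideal.sum_mem _ fun j _ => ?_
      rw [Algebra.smul_def]
      exact Ideal.mul_mem_left _ _ (hxrad j)
    funext i
    rw [← ha₀ i]
    obtain ⟨e, he'⟩ := hy a₀ hrad i
    rw [he', map_mul, hπt, zero_mul, Pi.zero_apply]
  have hrank : r + Nbar.rank ≤ Fintype.card ι := by
    have h8 := LinearMap.finrank_le_finrank_of_injective hfinj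
    have h9 := Submodule.finrank_quotient_add_finrank W
    rw [Module.finrank_fin_fun, ] at h8
    rw [Module.finrank_fintype_fun_eq_card] at h9
    have h10 : Nbar.rank = finrank K W := rfl
    omega
  -- Step 7: DET-RANK
  have hdetN : t ^ r ∣ N.det := by
    refine dvd_trans (pow_dvd_pow t ?_) (pow_sub_rank_dvd_det π hπ t hker N)
    have : (N.map π).rank = Nbar.rank := rfl
    omega
  -- Step 8: `a + r ≤ card ι`
  have hdet : t ^ a * D' * N.det = t ^ Fintype.card ι * D' ^ Fintype.card ι := by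
    rw [← hGdet, ← Matrix.det_mul, hGN, Matrix.det_smul, Matrix.det_one, mul_one, mul_pow]
  have har : a + r ≤ Fintype.card ι := by
    by_contra hlt
    rw [not_le] at hlt
    obtain ⟨e, he⟩ := hdetN
    obtain ⟨d, hd⟩ : ∃ d, a + r = Fintype.card ι + (d + 1) :=
      ⟨a + r - Fintype.card ι - 1, by omega⟩
    have h11 : t ^ Fintype.card ι * (t * (t ^ d * (D' * e)))
        = t ^ Fintype.card ι * D' ^ Fintype.card ι := by
      rw [← hdet, he]
      have : t ^ a * D' * (t ^ r * e) = t ^ (a + r) * (D' * e) := by ring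
      rw [this, hd]
      ring
    have h12 := mul_left_cancel₀ (pow_ne_zero _ ht0) h11
    exact hD' (ht.dvd_of_dvd_pow (Dvd.intro _ h12))
  -- Step 9: conclusion
  intro hdvd
  rw [hD] at hdvd
  obtain ⟨d, hd⟩ : ∃ d, Fintype.card ι - r + 1 = a + (d + 1) :=
    ⟨Fintype.card ι - r - a, by omega⟩
  rw [hd, pow_add, pow_succ] at hdvd
  have h13 := (mul_dvd_mul_iff_left (pow_ne_zero a ht0)).mp hdvd
  exact hD' (dvd_trans (Dvd.intro_left _ rfl) h13)

end

universe u v

/-- **b2-α (tame discriminant)** in the frozen shape `TameDiscrStatement` of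
`origin/helper33:Fermat/Agent/S18/B12/Spec.lean` (unfolded):
`theorem foo : TameDiscrStatement := fun Λ _ _ _ _ t ht C₀ _ _ _ _ _ n β r y hy =>
   tameDiscr Λ t ht C₀ n β r y hy`. -/
theorem tameDiscr
    (Λ : Type u) [CommRing Λ] [IsDomain Λ] [IsPrincipalIdealRing Λ] [Algebra ℚ Λ]
    (t : Λ) (ht : Prime t)
    (C₀ : Type v) [CommRing C₀] [IsDomain C₀] [IsDedekindDomain C₀] [Algebra Λ C₀]
    [Module.IsTorsionFree Λ C₀]
    (n : ℕ) (β : Module.Basis (Fin n) Λ C₀) (r : ℕ) (y : Fin r → C₀)
    (hy : ∀ a : Fin r → Λ,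
        (∑ i, a i • y i) ∈ (Ideal.span {algebraMap Λ C₀ t}).radical → ∀ i, t ∣ a i) :
    ¬ t ^ (n - r + 1) ∣ Algebra.discr Λ β := by
  have hmax : (Ideal.span {t}).IsMaximal :=
    PrincipalIdealRing.isMaximal_of_irreducible ht.irreducible
  let _ : Field (Λ ⧸ Ideal.span {t}) := Ideal.Quotient.field _
  have hchar : CharZero (Λ ⧸ Ideal.span {t}) := algebraRat.charZero _
  have h := tame_discr_of_residue β (Ideal.Quotient.mk (Ideal.span {t}))
    Ideal.Quotient.mk_surjective t ht
    ((Ideal.Quotient.eq_zero_iff_dvd t t).mpr dvd_rfl)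
    (fun x hx => (Ideal.Quotient.eq_zero_iff_dvd t x).mp hx) r y hy
  rwa [Fintype.card_fin] at h

end Fermat.Agent.S18.H274

end
-- ===== PACK-END S18/H274/Tame.lean

-- ===== PACK-BEGIN S18/H394/KummerEndgame.lean
section




/-!
# S18, Route K, pieces b3+b4 (helper394): the Kummer endgame

Abstract statement (`kummer_endgame_aux`): two charts `B₀, B₁ ⊆ M ⊆ F` over a noetherian local
ring `R`, an element `u ∈ F` of exact order `m` modulo constants and `m`-th powers, and
"local existence" data `σ₀, σ₁` (`σⱼ ^ m * u ≡ 1 mod w Bⱼ`, `σ₀ ≡ σ₁`) are contradictory.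
The proof applies the two-chart connectedness theorem (b5, `H498.idem_trivial_of_cech_finite`)
to the graded Kummer algebra of `Graded.lean`.
-/

set_option autoImplicit false

namespace Fermat.Agent.S18.H394

open Polynomial

section Identities

variable {C : Type*} [CommRing C]

theorem idem_identity (t β ω ν : C) (n : ℕ) (hn : ν * (n : C) = 1) (ht : t ^ n = 1 + ω * β) :
    (ν * ∑ i ∈ Finset.range n, t ^ i) ^ 2 - ν * ∑ i ∈ Finset.range n, t ^ i =
      ω * (ν ^ 2 * β * ∑ i ∈ Finset.range n, ∑ j ∈ Finset.range i, t ^ j) := by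
  set S := ∑ i ∈ Finset.range n, t ^ i with hS
  have h1 : S * (t - 1) = ω * β := by rw [hS, geom_sum_mul, ht]; ring
  have h2 : S * S - (n : C) * S = (∑ i ∈ Finset.range n, ∑ j ∈ Finset.range i, t ^ j) * (ω * β) := by
    have : S * S - (n : C) * S = ∑ i ∈ Finset.range n, (t ^ i - 1) * S := by
      rw [← Finset.sum_mul, Finset.sum_sub_distrib, ← hS]
      simp [sub_mul]
    rw [this, Finset.sum_mul]
    refine Finset.sum_congr rfl fun i _ => ?_
    rw [← geom_sum_mul, mul_assoc, mul_comm (t - 1) S, h1]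
  have h3 : (ν * S) ^ 2 - ν * S = ν ^ 2 * (S * S - (n : C) * S) + ν * (ν * (n : C) - 1) * S := by
    ring
  rw [h3, h2, hn]
  ring

theorem diff_identity (t₀ t₁ : C) (n : ℕ) :
    ∑ i ∈ Finset.range n, t₀ ^ i - ∑ i ∈ Finset.range n, t₁ ^ i =
      (t₀ - t₁) * ∑ i ∈ Finset.range n, ∑ a ∈ Finset.range i, t₀ ^ a * t₁ ^ (i - 1 - a) := by
  rw [← Finset.sum_sub_distrib, Finset.mul_sum]
  refine Finset.sum_congr rfl fun i _ => ?_
  rw [← geom_sum₂_mul, mul_comm]

end Identities

section Localisation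

variable {R F C : Type*} [CommRing R] [Field F] [Algebra R F] [CommRing C] [Algebra F C]
  [Algebra R C] [IsScalarTower R F C]

/-- If `M = B[1/z]` then the Kummer algebra of `M` is the localisation of that of `B`. -/
theorem exists_pow_mul_mem_kummerSub (pb : PowerBasis F C) (u : F)
    (hT : pb.gen ^ pb.dim = algebraMap F C u) (hm0 : 0 < pb.dim)
    (B M : Subalgebra R F) (hB : RootClosed pb.dim B) (hM : RootClosed pb.dim M)
    (z : F) (hz : z ∈ B) (hloc : ∀ y ∈ M, ∃ n : ℕ, z ^ n * y ∈ B)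
    (c : C) (hc : c ∈ kummerSub pb u hT hm0 M hM) :
    ∃ n : ℕ, algebraMap F C z ^ n * c ∈ kummerSub pb u hT hm0 B hB := by
  classical
  have h : ∀ k : Fin pb.dim, ∃ n : ℕ, z ^ n * (co pb k c ^ pb.dim * u ^ (k : ℕ)) ∈ B :=
    fun k => hloc _ (hc k)
  choose N hN using h
  refine ⟨∑ k, N k, fun k => ?_⟩
  rw [← _root_.map_pow, co_algebraMap_mul, mem_degSet]
  have hle : N k ≤ (∑ k, N k) * pb.dim := by
    calc N k ≤ ∑ k, N k := Finset.single_le_sum (fun _ _ => Nat.zero_le _) (Finset.mem_univ k)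
      _ ≤ (∑ k, N k) * pb.dim := Nat.le_mul_of_pos_right _ hm0
  obtain ⟨d, hd⟩ := Nat.exists_eq_add_of_le hle
  have : (z ^ (∑ k, N k) * co pb k c) ^ pb.dim * u ^ (k : ℕ)
      = z ^ d * (z ^ N k * (co pb k c ^ pb.dim * u ^ (k : ℕ))) := by
    rw [mul_pow, ← pow_mul, hd, pow_add]
    ring
  rw [this]
  exact B.mul_mem (B.pow_mem hz d) (hN k)

end Localisation

section Main

variable {R F C : Type*} [CommRing R] [IsLocalRing R] [IsNoetherianRing R] [Field F] [Algebra R F]
  [CommRing C] [Algebra F C] [Algebra R C] [IsScalarTower R F C]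

omit [IsLocalRing R] [IsNoetherianRing R] in
/-- The intersection of the two Kummer charts consists of constants. -/
theorem kummerSub_inf (pb : PowerBasis F C) (u : F)
    (hT : pb.gen ^ pb.dim = algebraMap F C u) (hm0 : 0 < pb.dim)
    (B₀ B₁ : Subalgebra R F) (hrc0 : RootClosed pb.dim B₀) (hrc1 : RootClosed pb.dim B₁)
    (hint : ∀ y : F, y ∈ B₀ → y ∈ B₁ → ∃ r : R, algebraMap R F r = y)
    (hord : ∀ i : ℕ, 0 < i → i < pb.dim → ∀ f : F, f ≠ 0 → ∀ r : R,
        f ^ pb.dim * u ^ i ≠ algebraMap R F r)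
    (c : C) (h0 : c ∈ kummerSub pb u hT hm0 B₀ hrc0) (h1 : c ∈ kummerSub pb u hT hm0 B₁ hrc1) :
    ∃ r : R, algebraMap R C r = c := by
  classical
  have hk : ∀ k : Fin pb.dim, (k : ℕ) ≠ 0 → co pb k c = 0 := by
    intro k hk0
    by_contra hne
    obtain ⟨r, hr⟩ := hint _ (h0 k) (h1 k)
    exact hord k (Nat.pos_of_ne_zero hk0) k.2 _ hne r hr.symm
  have h00 : co pb ⟨0, hm0⟩ c ∈ B₀ := mem_of_mem_degSet_zero hrc0 (h0 ⟨0, hm0⟩)
  have h01 : co pb ⟨0, hm0⟩ c ∈ B₁ := mem_of_mem_degSet_zero hrc1 (h1 ⟨0, hm0⟩)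
  obtain ⟨r, hr⟩ := hint _ h00 h01
  refine ⟨r, ?_⟩
  rw [← sum_co pb c, Finset.sum_eq_single (⟨0, hm0⟩ : Fin pb.dim)]
  · rw [← hr, pow_zero, mul_one, ← IsScalarTower.algebraMap_apply]
  · intro k _ hk0
    rw [hk k (fun h => hk0 (Fin.ext h)), _root_.map_zero, zero_mul]
  · intro h
    exact absurd (Finset.mem_univ _) h

/-- **Kummer endgame (abstract form).**  See the module docstring. -/
theorem kummer_endgame_aux
    (pb : PowerBasis F C) (u : F) (hT : pb.gen ^ pb.dim = algebraMap F C u)
    (hm0 : 0 < pb.dim) (hm1 : 1 < pb.dim)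
    (ν : R) (hν : ν * (pb.dim : R) = 1)
    (w : R)
    (B₀ B₁ M : Subalgebra R F)
    (hrc0 : RootClosed pb.dim B₀) (hrc1 : RootClosed pb.dim B₁) (hrcM : RootClosed pb.dim M)
    (x : F) (hx0 : x ≠ 0) (hx : x ∈ B₀) (hx' : x⁻¹ ∈ B₁)
    (h0M : B₀ ≤ M) (h1M : B₁ ≤ M)
    (hloc0 : ∀ y ∈ M, ∃ n : ℕ, x ^ n * y ∈ B₀)
    (hloc1 : ∀ y ∈ M, ∃ n : ℕ, x⁻¹ ^ n * y ∈ B₁)
    (hint : ∀ y : F, y ∈ B₀ → y ∈ B₁ → ∃ r : R, algebraMap R F r = y)
    (ι : Type*) [Finite ι] (g : ι → C)
    (hg : ∀ i, g i ∈ kummerSub pb u hT hm0 B₀ hrc0)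
    (hgen : ∀ b ∈ kummerSub pb u hT hm0 B₀ hrc0, ∃ P : ι → Polynomial R,
        b = ∑ᶠ i, Polynomial.aeval (algebraMap F C x) (P i) * g i)
    (hw1 : ∀ b ∈ B₀, algebraMap R F w * b ≠ 1)
    (hord : ∀ i : ℕ, 0 < i → i < pb.dim → ∀ f : F, f ≠ 0 → ∀ r : R,
        f ^ pb.dim * u ^ i ≠ algebraMap R F r)
    (σ₀ σ₁ : F)
    (h₀ : ∃ b ∈ B₀, σ₀ ^ pb.dim * u - 1 = algebraMap R F w * b)
    (h₁ : ∃ b ∈ B₁, σ₁ ^ pb.dim * u - 1 = algebraMap R F w * b)
    (h₀₁ : ∃ γ : F, σ₀ - σ₁ = algebraMap R F w * γ ∧ γ ^ pb.dim * u ∈ M) : False := by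
  classical
  haveI : Fintype ι := Fintype.ofFinite ι
  obtain ⟨b₀, hb₀, hσ₀⟩ := h₀
  obtain ⟨b₁, hb₁, hσ₁⟩ := h₁
  obtain ⟨γ, hγ, hγM⟩ := h₀₁
  -- the three Kummer algebras
  set K0 := kummerSub pb u hT hm0 B₀ hrc0 with hK0
  set K1 := kummerSub pb u hT hm0 B₁ hrc1 with hK1
  set KM := kummerSub pb u hT hm0 M hrcM with hKM
  have hK0M : K0 ≤ KM := kummerSub_mono hT hm0 hrc0 hrcM h0M
  have hK1M : K1 ≤ KM := kummerSub_mono hT hm0 hrc1 hrcM h1M
  -- basic elements
  have hwC : algebraMap R C w = algebraMap F C (algebraMap R F w) :=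
    IsScalarTower.algebraMap_apply R F C w
  have hνC : algebraMap R C ν * ((pb.dim : ℕ) : C) = 1 := by
    rw [← _root_.map_natCast (algebraMap R C), ← _root_.map_mul, hν, _root_.map_one]
  set t₀ : C := algebraMap F C σ₀ * pb.gen with ht₀
  set t₁ : C := algebraMap F C σ₁ * pb.gen with ht₁
  have hσ₀B : σ₀ ∈ degSet B₀ pb.dim u 1 := by
    rw [mem_degSet, pow_one]
    have : σ₀ ^ pb.dim * u = 1 + algebraMap R F w * b₀ := by rw [← hσ₀]; ring
    rw [this]
    exact B₀.add_mem B₀.one_mem (B₀.mul_mem (B₀.algebraMap_mem w) hb₀)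
  have hσ₁B : σ₁ ∈ degSet B₁ pb.dim u 1 := by
    rw [mem_degSet, pow_one]
    have : σ₁ ^ pb.dim * u = 1 + algebraMap R F w * b₁ := by rw [← hσ₁]; ring
    rw [this]
    exact B₁.add_mem B₁.one_mem (B₁.mul_mem (B₁.algebraMap_mem w) hb₁)
  have ht₀K : t₀ ∈ K0 := by
    have := monomial_mem_kummerSub hT hm0 hrc0 hσ₀B
    rwa [pow_one] at this
  have ht₁K : t₁ ∈ K1 := by
    have := monomial_mem_kummerSub hT hm0 hrc1 hσ₁B
    rwa [pow_one] at this
  have ht₀m : t₀ ^ pb.dim = 1 + algebraMap R C w * algebraMap F C b₀ := by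
    rw [ht₀, mul_pow, hT, ← _root_.map_pow, ← _root_.map_mul, hwC, ← _root_.map_mul, ← _root_.map_one (algebraMap F C),
      ← _root_.map_add]
    congr 1
    rw [← hσ₀]; ring
  have ht₁m : t₁ ^ pb.dim = 1 + algebraMap R C w * algebraMap F C b₁ := by
    rw [ht₁, mul_pow, hT, ← _root_.map_pow, ← _root_.map_mul, hwC, ← _root_.map_mul, ← _root_.map_one (algebraMap F C),
      ← _root_.map_add]
    congr 1
    rw [← hσ₁]; ring
  set E₀ : C := algebraMap R C ν * ∑ i ∈ Finset.range pb.dim, t₀ ^ i with hE₀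
  set E₁ : C := algebraMap R C ν * ∑ i ∈ Finset.range pb.dim, t₁ ^ i with hE₁
  have hE₀K : E₀ ∈ K0 :=
    K0.mul_mem (K0.algebraMap_mem ν) (K0.sum_mem fun i _ => K0.pow_mem ht₀K i)
  have hE₁K : E₁ ∈ K1 :=
    K1.mul_mem (K1.algebraMap_mem ν) (K1.sum_mem fun i _ => K1.pow_mem ht₁K i)
  -- idempotent mod `w`
  have hid₀ : ∃ a ∈ K0, E₀ ^ 2 - E₀ = algebraMap R C w * a := by
    refine ⟨_, ?_, idem_identity t₀ (algebraMap F C b₀) (algebraMap R C w) (algebraMap R C ν)
      pb.dim hνC ht₀m⟩
    refine K0.mul_mem (K0.mul_mem (K0.pow_mem (K0.algebraMap_mem ν) 2)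
      (algebraMap_mem_kummerSub hT hm0 hrc0 hb₀)) ?_
    exact K0.sum_mem fun i _ => K0.sum_mem fun j _ => K0.pow_mem ht₀K j
  have hid₁ : ∃ a ∈ K1, E₁ ^ 2 - E₁ = algebraMap R C w * a := by
    refine ⟨_, ?_, idem_identity t₁ (algebraMap F C b₁) (algebraMap R C w) (algebraMap R C ν)
      pb.dim hνC ht₁m⟩
    refine K1.mul_mem (K1.mul_mem (K1.pow_mem (K1.algebraMap_mem ν) 2)
      (algebraMap_mem_kummerSub hT hm0 hrc1 hb₁)) ?_
    exact K1.sum_mem fun i _ => K1.sum_mem fun j _ => K1.pow_mem ht₁K j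
  -- compatibility on the overlap
  have hγK : algebraMap F C γ * pb.gen ∈ KM := by
    have hγd : γ ∈ degSet M pb.dim u 1 := by rw [mem_degSet, pow_one]; exact hγM
    have := monomial_mem_kummerSub hT hm0 hrcM hγd
    rwa [pow_one] at this
  have hdiff : ∃ y ∈ KM, E₀ - E₁ = algebraMap R C w * y := by
    refine ⟨algebraMap R C ν * ((algebraMap F C γ * pb.gen) *
      ∑ i ∈ Finset.range pb.dim, ∑ a ∈ Finset.range i, t₀ ^ a * t₁ ^ (i - 1 - a)), ?_, ?_⟩
    · refine KM.mul_mem (KM.algebraMap_mem ν) (KM.mul_mem hγK ?_)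
      exact KM.sum_mem fun i _ => KM.sum_mem fun a _ =>
        KM.mul_mem (KM.pow_mem (hK0M ht₀K) a) (KM.pow_mem (hK1M ht₁K) _)
    · have htt : t₀ - t₁ = algebraMap R C w * (algebraMap F C γ * pb.gen) := by
        rw [ht₀, ht₁, ← sub_mul, ← _root_.map_sub, hγ, _root_.map_mul, hwC, mul_assoc]
      rw [hE₀, hE₁, ← mul_sub, diff_identity, htt]
      ring
  -- the ambient ring and the charts
  let C0 : Subalgebra R KM := K0.comap KM.val
  let C1 : Subalgebra R KM := K1.comap KM.val
  have hxK0 : algebraMap F C x ∈ K0 := algebraMap_mem_kummerSub hT hm0 hrc0 hx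
  have hxK1 : algebraMap F C x⁻¹ ∈ K1 := algebraMap_mem_kummerSub hT hm0 hrc1 hx'
  let xK : KM := ⟨algebraMap F C x, hK0M hxK0⟩
  let xK' : KM := ⟨algebraMap F C x⁻¹, hK1M hxK1⟩
  have hxx' : xK * xK' = 1 := by
    apply Subtype.ext
    show algebraMap F C x * algebraMap F C x⁻¹ = 1
    rw [← _root_.map_mul, mul_inv_cancel₀ hx0, _root_.map_one]
  have hlocK : ∀ y : KM, ∃ n : ℕ, xK ^ n * y ∈ C0 := by
    intro y
    obtain ⟨n, hn⟩ := exists_pow_mul_mem_kummerSub pb u hT hm0 B₀ M hrc0 hrcM x hx hloc0 y y.2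
    exact ⟨n, hn⟩
  have hlocK' : ∀ y : KM, ∃ n : ℕ, xK' ^ n * y ∈ C1 := by
    intro y
    obtain ⟨n, hn⟩ := exists_pow_mul_mem_kummerSub pb u hT hm0 B₁ M hrc1 hrcM x⁻¹ hx' hloc1 y y.2
    exact ⟨n, hn⟩
  let gK : ι → KM := fun i => ⟨g i, hK0M (hg i)⟩
  have hgenK : ∀ b ∈ C0, ∃ P : ι → Polynomial R, b = ∑ᶠ i, Polynomial.aeval xK (P i) * gK i := by
    intro b hb
    obtain ⟨P, hP⟩ := hgen (b : C) hb
    refine ⟨P, Subtype.ext ?_⟩
    rw [hP, finsum_eq_sum_of_fintype, finsum_eq_sum_of_fintype]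
    rw [show ((∑ i, Polynomial.aeval xK (P i) * gK i : KM) : C)
        = KM.val (∑ i, Polynomial.aeval xK (P i) * gK i) from rfl, _root_.map_sum]
    refine Finset.sum_congr rfl fun i _ => ?_
    rw [_root_.map_mul, ← Polynomial.aeval_algHom_apply]
    rfl
  haveI : Module.Finite R (↥KM ⧸ (Subalgebra.toSubmodule C0 ⊔ Subalgebra.toSubmodule C1)) :=
    H498.finite_cech_quotient C0 C1 xK xK' hxK0 hxK1 hxx' ι gK hg hgenK hlocK
      (fun i => hlocK' (gK i))
  have hintK : ∀ y : KM, y ∈ C0 → y ∈ C1 → ∃ r : R, algebraMap R KM r = y := by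
    intro y hy0 hy1
    obtain ⟨r, hr⟩ := kummerSub_inf pb u hT hm0 B₀ B₁ hrc0 hrc1 hint hord (y : C) hy0 hy1
    exact ⟨r, Subtype.ext hr⟩
  let e₀ : KM := ⟨E₀, hK0M hE₀K⟩
  let e₁ : KM := ⟨E₁, hK1M hE₁K⟩
  have h1K : ∃ a ∈ C0, e₀ ^ 2 - e₀ = algebraMap R KM w * a := by
    obtain ⟨a, ha, h⟩ := hid₀
    exact ⟨⟨a, hK0M ha⟩, ha, Subtype.ext h⟩
  have h2K : ∃ a ∈ C1, e₁ ^ 2 - e₁ = algebraMap R KM w * a := by
    obtain ⟨a, ha, h⟩ := hid₁
    exact ⟨⟨a, hK1M ha⟩, ha, Subtype.ext h⟩
  have h12K : ∃ y : KM, e₀ - e₁ = algebraMap R KM w * y := by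
    obtain ⟨y, hy, h⟩ := hdiff
    exact ⟨⟨y, hy⟩, Subtype.ext h⟩
  have hconcl := H498.idem_trivial_of_cech_finite w C0 C1 hintK e₀ e₁ hE₀K hE₁K h1K h2K h12K
  -- the coefficient of `T` in `E₀`
  let k1 : Fin pb.dim := ⟨1, hm1⟩
  have hco1 : co pb k1 (1 : C) = 0 := by
    have h1 : (1 : C) = algebraMap F C 1 * pb.gen ^ (0 * pb.dim + ((⟨0, hm0⟩ : Fin pb.dim) : ℕ)) := by
      simp
    rw [h1, co_monomial pb hT, if_neg]
    intro h
    have := congrArg Fin.val h
    simp [k1] at this
  have hcoE : co pb k1 E₀ = algebraMap R F ν * σ₀ := by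
    have hE : E₀ = ∑ i : Fin pb.dim,
        algebraMap F C (algebraMap R F ν * σ₀ ^ (i : ℕ)) * pb.gen ^ (0 * pb.dim + (i : ℕ)) := by
      rw [hE₀, ← Fin.sum_univ_eq_sum_range (fun i => t₀ ^ i) pb.dim, Finset.mul_sum]
      refine Finset.sum_congr rfl fun i _ => ?_
      rw [ht₀, mul_pow, zero_mul, zero_add, _root_.map_mul, _root_.map_pow,
        ← IsScalarTower.algebraMap_apply R F C, mul_assoc]
    rw [hE, _root_.map_sum]
    rw [Finset.sum_congr rfl (fun i _ => co_monomial pb hT _ 0 i k1)]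
    rw [Finset.sum_ite_eq' Finset.univ k1]
    simp [k1]
  have hfinal : ∀ a₁ : F, a₁ ∈ degSet B₀ pb.dim u 1 → ∀ ε : F, (ε = 1 ∨ ε = -1) →
      algebraMap R F ν * σ₀ = ε * (algebraMap R F w * a₁) → False := by
    intro a₁ ha₁ ε hε h
    rw [mem_degSet, pow_one] at ha₁
    have hνF : algebraMap R F ν * ((pb.dim : ℕ) : F) = 1 := by
      rw [← _root_.map_natCast (algebraMap R F), ← _root_.map_mul, hν, _root_.map_one]
    have hσ : σ₀ = ((pb.dim : ℕ) : F) * ε * algebraMap R F w * a₁ := by
      calc σ₀ = (algebraMap R F ν * ((pb.dim : ℕ) : F)) * σ₀ := by rw [hνF, one_mul]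
        _ = ((pb.dim : ℕ) : F) * (algebraMap R F ν * σ₀) := by ring
        _ = ((pb.dim : ℕ) : F) * ε * algebraMap R F w * a₁ := by rw [h]; ring
    obtain ⟨d, hd⟩ : ∃ d, pb.dim = d + 1 := Nat.exists_eq_succ_of_ne_zero hm0.ne'
    have hεB : ε ∈ B₀ := by
      rcases hε with rfl | rfl
      · exact B₀.one_mem
      · exact B₀.neg_mem B₀.one_mem
    have hkey : (1 : F) = algebraMap R F w *
        ((((pb.dim : ℕ) : F) * ε) ^ pb.dim * algebraMap R F w ^ d * (a₁ ^ pb.dim * u) - b₀) := by
      have h1 : σ₀ ^ pb.dim * u = algebraMap R F w *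
          ((((pb.dim : ℕ) : F) * ε) ^ pb.dim * algebraMap R F w ^ d * (a₁ ^ pb.dim * u)) := by
        conv_lhs => rw [hσ]
        rw [mul_pow, mul_pow]
        conv_lhs => rw [show algebraMap R F w ^ pb.dim = algebraMap R F w ^ d * algebraMap R F w
          from by rw [hd, pow_succ]]
        ring
      rw [mul_sub, ← h1, ← hσ₀]
      ring
    refine hw1 _ ?_ hkey.symm
    refine B₀.sub_mem (B₀.mul_mem (B₀.mul_mem (B₀.pow_mem (B₀.mul_mem (natCast_mem B₀ _) hεB) _)
      (B₀.pow_mem (B₀.algebraMap_mem w) d)) ha₁) hb₀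
  rcases hconcl with ⟨a, ha, hEa⟩ | ⟨a, ha, hEa⟩
  · have hEa' : E₀ = algebraMap R C w * (a : C) := congrArg Subtype.val hEa
    have h := congrArg (co pb k1) hEa'
    rw [hcoE, hwC, co_algebraMap_mul] at h
    exact hfinal (co pb k1 (a : C)) (ha k1) 1 (Or.inl rfl) (by rw [h, one_mul])
  · have hEa' : 1 - E₀ = algebraMap R C w * (a : C) := congrArg Subtype.val hEa
    have h := congrArg (co pb k1) hEa'
    rw [_root_.map_sub, hco1, hcoE, hwC, co_algebraMap_mul, zero_sub] at h
    refine hfinal (co pb k1 (a : C)) (ha k1) (-1) (Or.inr rfl) ?_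
    rw [neg_one_mul, ← h, neg_neg]

end Main

end Fermat.Agent.S18.H394

end
-- ===== PACK-END S18/H394/KummerEndgame.lean

-- ===== PACK-BEGIN S19/H135/SubProd.lean
section
/-
Cell A3 / WP-C (helper135): Hopf lattices restrict along equivariant injections (sub-objects,
transport along isomorphisms) and are stable under binary products.
-/


set_option autoImplicit false

namespace Fermat.Agent.S19.H135

section Sub

variable {ℓ : ℕ} {M M₁ : Type} [AddCommGroup M] [AddCommGroup M₁]
  {act : (AlgebraicClosure ℚ ≃ₐ[ℚ] AlgebraicClosure ℚ) → M → M}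
  {act₁ : (AlgebraicClosure ℚ ≃ₐ[ℚ] AlgebraicClosure ℚ) → M₁ → M₁}

/-- Restriction of a Hopf lattice along an equivariant additive injection. -/
theorem IsHopfLattice.restrict {Λ : Subalgebra (GaloisRep.ratLocalizedAt ℓ) (M → AlgebraicClosure ℚ)}
    (hΛ : IsHopfLattice ℓ act Λ) (i : M₁ →+ M) (hi : Function.Injective i)
    (heq : ∀ σ m, i (act₁ σ m) = act σ (i m)) :
    IsHopfLattice ℓ act₁ (Λ.map (pull (GaloisRep.ratLocalizedAt ℓ) (AlgebraicClosure ℚ) i)) := by
  refine ⟨?_, ?_, ?_, ?_⟩
  · rw [Subalgebra.map_toSubmodule]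
    exact hΛ.fg.map _
  · rintro _ ⟨a, ha, rfl⟩ σ m
    simp only [AlgHom.coe_toRingHom, pull_apply, heq]
    exact hΛ.equivariant a ha σ (i m)
  · intro m n hmn
    apply hi
    apply hΛ.separates
    intro a ha
    exact hmn _ ⟨a, ha, rfl⟩
  · rintro _ ⟨_, ⟨a, ha, rfl⟩, rfl⟩
    have h1 := hΛ.comul_mem ha
    have h2 : pull (GaloisRep.ratLocalizedAt ℓ) (AlgebraicClosure ℚ)
        (fun p : M₁ × M₁ => p.1 + p.2)
        (pull (GaloisRep.ratLocalizedAt ℓ) (AlgebraicClosure ℚ) i a) =
        fun p : M₁ × M₁ => (fun q : M × M => a (q.1 + q.2)) (i p.1, i p.2) := by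
      funext p
      simp only [pull_apply, map_add]
    show pull (GaloisRep.ratLocalizedAt ℓ) (AlgebraicClosure ℚ)
        (fun p : M₁ × M₁ => p.1 + p.2)
        (pull (GaloisRep.ratLocalizedAt ℓ) (AlgebraicClosure ℚ) i a) ∈ _
    rw [h2]
    refine box_induction (C := fun F => (fun p : M₁ × M₁ => F (i p.1, i p.2)) ∈
      Subalgebra.map (pull (GaloisRep.ratLocalizedAt ℓ) (AlgebraicClosure ℚ)
        (Prod.fst : M₁ × M₁ → M₁))
        (Λ.map (pull (GaloisRep.ratLocalizedAt ℓ) (AlgebraicClosure ℚ) i)) ⊔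
      Subalgebra.map (pull (GaloisRep.ratLocalizedAt ℓ) (AlgebraicClosure ℚ)
        (Prod.snd : M₁ × M₁ → M₁))
        (Λ.map (pull (GaloisRep.ratLocalizedAt ℓ) (AlgebraicClosure ℚ) i))) h1 ?_ ?_
    · intro a' ha' b' hb'
      exact mul_mem_box (Λ₁ := Λ.map (pull (GaloisRep.ratLocalizedAt ℓ) (AlgebraicClosure ℚ) i))
        (Λ₂ := Λ.map (pull (GaloisRep.ratLocalizedAt ℓ) (AlgebraicClosure ℚ) i))
        ⟨a', ha', rfl⟩ ⟨b', hb', rfl⟩
    · intro F₁ F₂ h₁ h₂
      exact Subalgebra.add_mem _ h₁ h₂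

theorem HasHopfLattice.of_injective (h : HasHopfLattice ℓ M act) (i : M₁ →+ M)
    (hi : Function.Injective i) (heq : ∀ σ m, i (act₁ σ m) = act σ (i m)) :
    HasHopfLattice ℓ M₁ act₁ := by
  obtain ⟨Λ, hΛ⟩ := h
  exact ⟨_, hΛ.restrict i hi heq⟩

/-- Transport along an equivariant additive isomorphism. -/
theorem HasHopfLattice.of_addEquiv (h : HasHopfLattice ℓ M act) (e : M ≃+ M₁)
    (heq : ∀ σ m, e (act σ m) = act₁ σ (e m)) : HasHopfLattice ℓ M₁ act₁ := by
  refine h.of_injective e.symm.toAddMonoidHom e.symm.injective ?_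
  intro σ m
  apply e.injective
  simp only [AddEquiv.toAddMonoidHom_eq_coe, AddMonoidHom.coe_coe, AddEquiv.apply_symm_apply, heq]

/-- Restriction to a stable subgroup. -/
theorem HasHopfLattice.addSubgroup (h : HasHopfLattice ℓ M act) (M' : AddSubgroup M)
    (hM' : ∀ σ, ∀ m ∈ M', act σ m ∈ M') :
    HasHopfLattice ℓ M' (fun σ m => ⟨act σ m.1, hM' σ m.1 m.2⟩) :=
  h.of_injective M'.subtype Subtype.val_injective (fun _ _ => rfl)

end Sub

section Prod

variable {ℓ : ℕ} {M₁ M₂ : Type} [AddCommGroup M₁] [AddCommGroup M₂]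
  {act₁ : (AlgebraicClosure ℚ ≃ₐ[ℚ] AlgebraicClosure ℚ) → M₁ → M₁}
  {act₂ : (AlgebraicClosure ℚ ≃ₐ[ℚ] AlgebraicClosure ℚ) → M₂ → M₂}

/-- The box product of two Hopf lattices is a Hopf lattice on the product. -/
theorem IsHopfLattice.prod
    {Λ₁ : Subalgebra (GaloisRep.ratLocalizedAt ℓ) (M₁ → AlgebraicClosure ℚ)}
    {Λ₂ : Subalgebra (GaloisRep.ratLocalizedAt ℓ) (M₂ → AlgebraicClosure ℚ)}
    (h₁ : IsHopfLattice ℓ act₁ Λ₁) (h₂ : IsHopfLattice ℓ act₂ Λ₂) :
    IsHopfLattice ℓ (fun σ (m : M₁ × M₂) => (act₁ σ m.1, act₂ σ m.2))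
      (Λ₁.map (pull (GaloisRep.ratLocalizedAt ℓ) (AlgebraicClosure ℚ)
          (Prod.fst : M₁ × M₂ → M₁)) ⊔
        Λ₂.map (pull (GaloisRep.ratLocalizedAt ℓ) (AlgebraicClosure ℚ)
          (Prod.snd : M₁ × M₂ → M₂))) := by
  refine ⟨?_, ?_, ?_, ?_⟩
  · rw [← Subalgebra.mul_toSubmodule, Subalgebra.map_toSubmodule, Subalgebra.map_toSubmodule]
    exact (h₁.fg.map _).mul (h₂.fg.map _)
  · intro F hF σ m
    refine box_induction (C := fun F => F (act₁ σ m.1, act₂ σ m.2) = σ (F m)) hF ?_ ?_
    · intro a ha b hb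
      simp only [h₁.equivariant a ha, h₂.equivariant b hb, map_mul]
    · intro F₁ F₂ e₁ e₂
      simp only [Pi.add_apply, e₁, e₂, map_add]
  · intro m n hmn
    refine Prod.ext ?_ ?_
    · apply h₁.separates
      intro a ha
      exact hmn _ ((le_sup_left : Λ₁.map (pull (GaloisRep.ratLocalizedAt ℓ) (AlgebraicClosure ℚ)
          (Prod.fst : M₁ × M₂ → M₁)) ≤ _) ⟨a, ha, rfl⟩)
    · apply h₂.separates
      intro b hb
      exact hmn _ ((le_sup_right : Λ₂.map (pull (GaloisRep.ratLocalizedAt ℓ) (AlgebraicClosure ℚ)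
          (Prod.snd : M₁ × M₂ → M₂)) ≤ _) ⟨b, hb, rfl⟩)
  · set Λ := Λ₁.map (pull (GaloisRep.ratLocalizedAt ℓ) (AlgebraicClosure ℚ)
          (Prod.fst : M₁ × M₂ → M₁)) ⊔
        Λ₂.map (pull (GaloisRep.ratLocalizedAt ℓ) (AlgebraicClosure ℚ)
          (Prod.snd : M₁ × M₂ → M₂)) with hΛdef
    set B := Λ.map (pull (GaloisRep.ratLocalizedAt ℓ) (AlgebraicClosure ℚ)
          (Prod.fst : (M₁ × M₂) × (M₁ × M₂) → M₁ × M₂)) ⊔
        Λ.map (pull (GaloisRep.ratLocalizedAt ℓ) (AlgebraicClosure ℚ)
          (Prod.snd : (M₁ × M₂) × (M₁ × M₂) → M₁ × M₂)) with hBdef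
    rw [Subalgebra.map_le, hΛdef]
    refine sup_le ?_ ?_
    · rw [Subalgebra.map_le]
      intro a ha
      show (fun p : (M₁ × M₂) × (M₁ × M₂) => a ((p.1 + p.2).1)) ∈ B
      have h := h₁.comul_mem ha
      refine box_induction (C := fun F =>
        (fun p : (M₁ × M₂) × (M₁ × M₂) => F (p.1.1, p.2.1)) ∈ B) h ?_ ?_
      · intro a' ha' a'' ha''
        exact mul_mem_box (Λ₁ := Λ) (Λ₂ := Λ)
          (a := fun m : M₁ × M₂ => a' m.1) (b := fun m : M₁ × M₂ => a'' m.1)
          ((le_sup_left : Λ₁.map (pull (GaloisRep.ratLocalizedAt ℓ) (AlgebraicClosure ℚ)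
            (Prod.fst : M₁ × M₂ → M₁)) ≤ _) ⟨a', ha', rfl⟩)
          ((le_sup_left : Λ₁.map (pull (GaloisRep.ratLocalizedAt ℓ) (AlgebraicClosure ℚ)
            (Prod.fst : M₁ × M₂ → M₁)) ≤ _) ⟨a'', ha'', rfl⟩)
      · intro F₁ F₂ e₁ e₂
        exact Subalgebra.add_mem _ e₁ e₂
    · rw [Subalgebra.map_le]
      intro b hb
      show (fun p : (M₁ × M₂) × (M₁ × M₂) => b ((p.1 + p.2).2)) ∈ B
      have h := h₂.comul_mem hb
      refine box_induction (C := fun F =>
        (fun p : (M₁ × M₂) × (M₁ × M₂) => F (p.1.2, p.2.2)) ∈ B) h ?_ ?_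
      · intro b' hb' b'' hb''
        exact mul_mem_box (Λ₁ := Λ) (Λ₂ := Λ)
          (a := fun m : M₁ × M₂ => b' m.2) (b := fun m : M₁ × M₂ => b'' m.2)
          ((le_sup_right : Λ₂.map (pull (GaloisRep.ratLocalizedAt ℓ) (AlgebraicClosure ℚ)
            (Prod.snd : M₁ × M₂ → M₂)) ≤ _) ⟨b', hb', rfl⟩)
          ((le_sup_right : Λ₂.map (pull (GaloisRep.ratLocalizedAt ℓ) (AlgebraicClosure ℚ)
            (Prod.snd : M₁ × M₂ → M₂)) ≤ _) ⟨b'', hb'', rfl⟩)
      · intro F₁ F₂ e₁ e₂
        exact Subalgebra.add_mem _ e₁ e₂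

theorem HasHopfLattice.prod (h₁ : HasHopfLattice ℓ M₁ act₁) (h₂ : HasHopfLattice ℓ M₂ act₂) :
    HasHopfLattice ℓ (M₁ × M₂) (fun σ m => (act₁ σ m.1, act₂ σ m.2)) := by
  obtain ⟨Λ₁, hΛ₁⟩ := h₁
  obtain ⟨Λ₂, hΛ₂⟩ := h₂
  exact ⟨_, hΛ₁.prod hΛ₂⟩

end Prod

end Fermat.Agent.S19.H135

end
-- ===== PACK-END S19/H135/SubProd.lean

-- ===== PACK-BEGIN S37/H697/Equivariant.lean
section



/-!
# S37 (helper697): Galois-equivariance of place reductions

Let `r` be a place reduction (`IsPlaceReductionAlong` + `PrincipalGeneratedByIntegral`) and let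
`σ` be an automorphism of `L` preserving the valuation ring `A` and inducing the automorphism `φ`
on the residue field.  Then `r (σ • P) = Φ_φ • r P` for every place `P`, where `Φ_φ = coeffSL N φ`
is the coefficientwise action of `φ`.  (Inertia: `φ = id`; Frobenius: `φ = Frob`.)

The proof uses the uniqueness of place reductions under a Riemann bound (`Unique.lean`);
no explicit description of `r` is needed.
-/

set_option autoImplicit false

noncomputable section

open HahnSeries IntermediateField AlgebraicCurve ModularCurve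

namespace Fermat.Agent.S37.H697

variable {L : Type*} [Field L] [Algebra ℚ L] {A : ValuationSubring L}
variable {k : Type*} [Field k] {π : A →+* k} {N : ℕ}

/-- The restriction to `A` of an automorphism of `L` preserving `A`. -/
def restrictHom (σ : L ≃ₐ[ℚ] L) (hσ : ∀ a ∈ A, σ a ∈ A) : A →+* A where
  toFun a := ⟨σ a, hσ a a.2⟩
  map_one' := Subtype.ext (_root_.map_one σ)
  map_mul' a b := Subtype.ext (_root_.map_mul σ (a : L) (b : L))
  map_zero' := Subtype.ext (_root_.map_zero σ)
  map_add' a b := Subtype.ext (_root_.map_add σ (a : L) (b : L))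

theorem coeffMap_injective_of_injective {R S : Type*} [CommRing R] [CommRing S] (f : R →+* S)
    (hf : Function.Injective f) : Function.Injective (coeffMap f) := by
  intro x y h
  ext n
  apply hf
  have := congrArg (fun z => z.coeff n) h
  simpa using this

/-- Transport of integral principal divisors by an automorphism preserving `A`. -/
theorem smul_integral_divisor
    {r : Place L (laurentBaseChange L (modularFunctionFieldFull N)) →
      Place k (modularFunctionFieldFullC k N)}
    (hr : IsPlaceReductionAlong A π N r)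
    (σ : L ≃ₐ[ℚ] L) (hσ : ∀ a ∈ A, σ a ∈ A)
    (φ : k ≃+* k) (hφ : ∀ a : A, π ⟨σ a, hσ a a.2⟩ = φ (π a))
    {D : Divisor L (laurentBaseChange L (modularFunctionFieldFull N))}
    (hD : D ∈ integralPrincipalDivisors A π N) :
    Finsupp.mapDomain r (arithmeticGalois (modularFunctionFieldFull N) σ • D)
      = coeffSL N φ • Finsupp.mapDomain r D := by
  obtain ⟨y, hy, hyk, hne, hDy⟩ := hD
  set g := arithmeticGalois (modularFunctionFieldFull N) σ with hg
  set Φ := coeffSL N φ with hΦ
  -- the transported integral function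
  set y' : LaurentSeries A := coeffMap (restrictHom σ hσ) y with hy'def
  have h1 : coeffMap A.subtype y' = coeffMap (σ : L →+* L) (coeffMap A.subtype y) := by
    rw [hy'def, coeffMap_coeffMap, coeffMap_coeffMap]
    exact coeffMap_congr (RingHom.ext fun a => rfl) y
  have hy' : coeffMap A.subtype y' ∈ laurentBaseChange L (modularFunctionFieldFull N) := by
    rw [h1]; exact coeffMap_mem_laurentBaseChange σ hy
  have h2 : coeffMap π y' = coeffMap (φ : k →+* k) (coeffMap π y) := by
    rw [hy'def, coeffMap_coeffMap, coeffMap_coeffMap]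
    exact coeffMap_congr (RingHom.ext fun a => hφ a) y
  have hyk' : coeffMap π y' ∈ modularFunctionFieldFullC k N := by
    rw [h2]; exact coeffMap_mem_fullC N _ hyk
  have hne' : coeffMap π y' ≠ 0 := by
    rw [h2]
    intro h0
    apply hne
    apply coeffMap_injective_of_injective (φ : k →+* k) φ.injective
    rw [h0, _root_.map_zero]
  have hD' : ∀ P, (g • D) P = P.ord (⟨coeffMap A.subtype y', hy'⟩ :
      laurentBaseChange L (modularFunctionFieldFull N)) := by
    intro P
    rw [SemilinearAut.divisor_smul_apply, hDy]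
    have h3 := SemilinearAut.ord_smul g (g⁻¹ • P)
      (⟨coeffMap A.subtype y, hy⟩ : laurentBaseChange L (modularFunctionFieldFull N))
    rw [smul_inv_smul] at h3
    have h5 : (g • (⟨coeffMap A.subtype y, hy⟩ :
        laurentBaseChange L (modularFunctionFieldFull N)))
        = ⟨coeffMap A.subtype y', hy'⟩ := Subtype.ext h1.symm
    rw [← h3, h5]
  have key1 := hr.2 y' hy' hyk' hne' (g • D) hD'
  have key0 := hr.2 y hy hyk hne D hDy
  ext Q
  rw [key1 Q, SemilinearAut.divisor_smul_apply, key0]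
  have h4 := SemilinearAut.ord_smul Φ (Φ⁻¹ • Q)
    (⟨coeffMap π y, hyk⟩ : modularFunctionFieldFullC k N)
  rw [smul_inv_smul] at h4
  have h6 : (Φ • (⟨coeffMap π y, hyk⟩ : modularFunctionFieldFullC k N))
      = ⟨coeffMap π y', hyk'⟩ := Subtype.ext h2.symm
  rw [← h4, h6]

/-- **Equivariance of place reductions.** -/
theorem placeReduction_equivariant
    {r : Place L (laurentBaseChange L (modularFunctionFieldFull N)) →
      Place k (modularFunctionFieldFullC k N)}
    (hr : IsPlaceReductionAlong A π N r) (hgen : PrincipalGeneratedByIntegral A π N)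
    (hdeg : ∀ P : Place L (laurentBaseChange L (modularFunctionFieldFull N)), P.deg = 1)
    (hprin0 : ∀ D ∈ Divisor.principal (K := L)
      (F := laurentBaseChange L (modularFunctionFieldFull N)), Divisor.degree D = 0)
    (hR : RiemannBound L (laurentBaseChange L (modularFunctionFieldFull N)))
    (hnc : ∃ D ∈ Divisor.principal (K := L)
      (F := laurentBaseChange L (modularFunctionFieldFull N)), Finsupp.mapDomain r D ≠ 0)
    (σ : L ≃ₐ[ℚ] L) (hσ : ∀ a ∈ A, σ a ∈ A)
    (φ : k ≃+* k) (hφ : ∀ a : A, π ⟨σ a, hσ a a.2⟩ = φ (π a))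
    (P : Place L (laurentBaseChange L (modularFunctionFieldFull N))) :
    r (arithmeticGalois (modularFunctionFieldFull N) σ • P) = coeffSL N φ • r P := by
  set g := arithmeticGalois (modularFunctionFieldFull N) σ with hg
  set Φ := coeffSL N φ with hΦ
  set r₂ : Place L (laurentBaseChange L (modularFunctionFieldFull N)) →
      Place k (modularFunctionFieldFullC k N) := fun P => Φ⁻¹ • r (g • P) with hr₂
  have hcomp : ∀ D : Divisor L (laurentBaseChange L (modularFunctionFieldFull N)),
      Finsupp.mapDomain r₂ D = Φ⁻¹ • Finsupp.mapDomain r (g • D) := by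
    intro D
    have : r₂ = (fun Q => Φ⁻¹ • Q) ∘ r ∘ (fun P => g • P) := rfl
    rw [this, Finsupp.mapDomain_comp, Finsupp.mapDomain_comp]
    rfl
  have hagree : ∀ D ∈ integralPrincipalDivisors A π N,
      Finsupp.mapDomain r D = Finsupp.mapDomain r₂ D := by
    intro D hD
    rw [hcomp, smul_integral_divisor hr σ hσ φ hφ hD, inv_smul_smul]
  have heq : r = r₂ := eq_of_agree hgen hagree hdeg hprin0 hR hnc
  have hP : r P = Φ⁻¹ • r (g • P) := congrFun heq P
  rw [hP, smul_inv_smul]

/-- Equivariance on divisors. -/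
theorem mapDomain_smul
    {r : Place L (laurentBaseChange L (modularFunctionFieldFull N)) →
      Place k (modularFunctionFieldFullC k N)}
    (hr : IsPlaceReductionAlong A π N r) (hgen : PrincipalGeneratedByIntegral A π N)
    (hdeg : ∀ P : Place L (laurentBaseChange L (modularFunctionFieldFull N)), P.deg = 1)
    (hprin0 : ∀ D ∈ Divisor.principal (K := L)
      (F := laurentBaseChange L (modularFunctionFieldFull N)), Divisor.degree D = 0)
    (hR : RiemannBound L (laurentBaseChange L (modularFunctionFieldFull N)))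
    (hnc : ∃ D ∈ Divisor.principal (K := L)
      (F := laurentBaseChange L (modularFunctionFieldFull N)), Finsupp.mapDomain r D ≠ 0)
    (σ : L ≃ₐ[ℚ] L) (hσ : ∀ a ∈ A, σ a ∈ A)
    (φ : k ≃+* k) (hφ : ∀ a : A, π ⟨σ a, hσ a a.2⟩ = φ (π a))
    (D : Divisor L (laurentBaseChange L (modularFunctionFieldFull N))) :
    Finsupp.mapDomain r (arithmeticGalois (modularFunctionFieldFull N) σ • D)
      = coeffSL N φ • Finsupp.mapDomain r D := by
  induction D using Finsupp.induction with
  | zero => simp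
  | single_add P n D _ _ ih =>
    rw [smul_add, Finsupp.mapDomain_add, Finsupp.mapDomain_add, smul_add, ih,
      SemilinearAut.smul_single, Finsupp.mapDomain_single, Finsupp.mapDomain_single,
      SemilinearAut.smul_single,
      placeReduction_equivariant hr hgen hdeg hprin0 hR hnc σ hσ φ hφ P]

end Fermat.Agent.S37.H697

end
end
-- ===== PACK-END S37/H697/Equivariant.lean

-- ===== PACK-BEGIN S37/H697/KronDet.lean
section




/-!
# S37 (helper697): the formal Kronecker norm `V_ℓ f · det (kronMat ℓ f)`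

On top of helper340's formal Kronecker polynomial (`H340.kron`):

* `knorm ℓ f := V_ℓ f · det (kronMat ℓ f)`, compatible with coefficient homomorphisms;
* `qExpand_kdet_eq_prod` : `V_ℓ (det (kronMat ℓ f)) = ∏_{b<ℓ} f(ζ^b q)` over a domain with a
  primitive `ℓ`-th root of unity `ζ`;
* `kdet_char` : `det (kronMat ℓ f) = f^φ` (coefficientwise Frobenius) in characteristic `ℓ`;
* `knorm_char_equiv` : in characteristic `ℓ`, for an automorphism `φ` of the coefficient field
  with `φ x = x ^ ℓ`:  `knorm ℓ f = (Φ⁻¹ f) ^ ℓ · Φ f`.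
-/

set_option autoImplicit false

noncomputable section

namespace Fermat.Agent.S37.H697

open ModularCurve HahnSeries Polynomial Matrix

variable {R : Type*} [CommRing R] (ℓ : ℕ) [NeZero ℓ]

/-- The determinant of the section matrix of `f`. -/
def kdet (f : LaurentSeries R) : LaurentSeries R := (H340.kronMat ℓ f).det

/-- The formal Kronecker norm `f(q^ℓ) · det (kronMat ℓ f)`. -/
def knorm (f : LaurentSeries R) : LaurentSeries R := qExpand R ℓ f * kdet ℓ f

theorem kdet_coeffMap {S : Type*} [CommRing S] (g : R →+* S) (f : LaurentSeries R) :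
    kdet ℓ (coeffMap g f) = coeffMap g (kdet ℓ f) := by
  rw [kdet, kdet, H340.kronMat_map, RingHom.map_det]
  rfl

theorem knorm_coeffMap {S : Type*} [CommRing S] (g : R →+* S) (f : LaurentSeries R) :
    knorm ℓ (coeffMap g f) = coeffMap g (knorm ℓ f) := by
  rw [knorm, knorm, _root_.map_mul, kdet_coeffMap, coeffMap_qExpand]

theorem kdet_eq_coeff_zero (f : LaurentSeries R) :
    kdet ℓ f = (-1) ^ ℓ * (H340.kron ℓ f).coeff 0 := by
  rw [kdet, H340.kron, Matrix.det_eq_sign_charpoly_coeff, Fintype.card_fin]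

/-- **Product formula** for the determinant. -/
theorem qExpand_kdet_eq_prod [IsDomain R] {ζ : R} (hζ : IsPrimitiveRoot ζ ℓ)
    (f : LaurentSeries R) :
    qExpand R ℓ (kdet ℓ f) = ∏ b : Fin ℓ, H340.tw ℓ (ζ ^ (b : ℕ)) f := by
  have h := congrArg (fun P : (LaurentSeries R)[X] => P.coeff 0)
    (H340.kron_map_qExpand_eq_prod hζ f)
  simp only [Polynomial.coeff_map] at h
  rw [kdet_eq_coeff_zero, _root_.map_mul, _root_.map_pow, _root_.map_neg, _root_.map_one, h,
    Polynomial.coeff_zero_eq_eval_zero, Polynomial.eval_prod]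
  simp only [Polynomial.eval_sub, Polynomial.eval_X, Polynomial.eval_C, zero_sub]
  rw [Finset.prod_neg, Finset.card_univ, Fintype.card_fin, ← _root_.mul_assoc, ← mul_pow]
  simp

section CharL

variable [hℓ : Fact ℓ.Prime] [CharP R ℓ] [IsDomain R]

/-- In characteristic `ℓ`: `det (kronMat ℓ f) = f^φ`. -/
theorem kdet_char (f : LaurentSeries R) :
    kdet ℓ f = coeffMap (frobenius R ℓ) f := by
  have := H340.charP_laurentSeries (R := R) ℓ
  rw [kdet_eq_coeff_zero, H340.kron_char, Polynomial.coeff_sub, Polynomial.coeff_X_pow,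
    Polynomial.coeff_C_zero, if_neg hℓ.out.pos.ne, zero_sub]
  rcases hℓ.out.eq_two_or_odd' with h2 | hodd
  · have h2' : (2 : LaurentSeries R) = 0 := by
      have := CharP.cast_eq_zero (LaurentSeries R) ℓ
      rw [h2] at this
      exact_mod_cast this
    have hneg : -(coeffMap (frobenius R ℓ) f) = coeffMap (frobenius R ℓ) f := by
      rw [neg_eq_iff_add_eq_zero, ← two_mul, h2', _root_.MulZeroClass.zero_mul]
    have h1 : (-1 : LaurentSeries R) ^ ℓ = 1 := by rw [h2]; simp
    rw [hneg, h1, _root_.one_mul]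
  · rw [hodd.neg_one_pow]
    ring

/-- In characteristic `ℓ`: `knorm ℓ f = f(q^ℓ) · f^φ`. -/
theorem knorm_char (f : LaurentSeries R) :
    knorm ℓ f = qExpand R ℓ f * coeffMap (frobenius R ℓ) f := by
  rw [knorm, kdet_char]

/-- In characteristic `ℓ`, for an automorphism `φ` of `R` with `φ x = x ^ ℓ`:
`knorm ℓ f = (Φ⁻¹ f) ^ ℓ · Φ f`. -/
theorem knorm_char_equiv (φ : R ≃+* R) (hφ : ∀ x, φ x = x ^ ℓ) (f : LaurentSeries R) :
    knorm ℓ f = (coeffMap (φ.symm : R →+* R) f) ^ ℓ * coeffMap (φ : R →+* R) f := by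
  have hfrob : (φ : R →+* R) = frobenius R ℓ := RingHom.ext fun x => by
    rw [RingEquiv.coe_toRingHom, hφ, frobenius_def]
  rw [knorm_char, H340.pow_char_eq_qExpand, coeffMap_coeffMap, hfrob]
  congr 2
  rw [← hfrob]
  have : ((φ : R →+* R).comp (φ.symm : R →+* R)) = RingHom.id R :=
    RingHom.ext fun x => φ.apply_symm_apply x
  rw [this, coeffMap_id]

end CharL

end Fermat.Agent.S37.H697

end
end
-- ===== PACK-END S37/H697/KronDet.lean

-- ===== PACK-BEGIN S19/H19/Points.lean
section
/-
A3 / S19, helper19 — piece ORD, part 4: the points of an order of functions.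

For an order `H ⊂ (M → K)` (`M` finite) separating points, the `R`-algebra maps `H → K` are
exactly the evaluations at the points of `M`, convolution is addition, and semilinear twists
correspond to the action on `M`.  Final packaging `exists_hopf_of_isOrder`.  Mathlib only.
-/



set_option autoImplicit false
set_option linter.unusedSectionVars false
set_option linter.style.haveILetI false

noncomputable section

namespace Fermat.Agent.S19.H19

open scoped BigOperators TensorProduct

variable {R : Type} [CommRing R] {K : Type} [Field K] [Algebra R K]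
variable {M : Type} [AddCommGroup M]

namespace IsOrder

variable {H : Subalgebra R (M → K)} (hH : IsOrder H)

/-- Evaluation at a point, as an algebra map `H → K`. -/
def evPt (H : Subalgebra R (M → K)) (m : M) : H →ₐ[R] K :=
  (Pi.evalAlgHom R (fun _ : M => K) m).comp H.val

@[simp] theorem evPt_apply (m : M) (h : H) : evPt H m h = (h : M → K) m := rfl

theorem evPt_injective (hsep : ∀ m m' : M, m ≠ m' → ∃ f ∈ H, f m ≠ f m') :
    Function.Injective (evPt H) := by
  intro m m' hmm
  by_contra hne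
  obtain ⟨f, hf, hfm⟩ := hsep m m' hne
  exact hfm (congrArg (fun χ : H →ₐ[R] K => χ ⟨f, hf⟩) hmm)

include hH in
/-- The `K`-span of a separating order is everything. -/
theorem span_eq_top [Finite M] (hsep : ∀ m m' : M, m ≠ m' → ∃ f ∈ H, f m ≠ f m') :
    Submodule.span K (H : Set (M → K)) = ⊤ := by
  have h1 : Algebra.adjoin K (H : Set (M → K)) = ⊤ := by
    apply subalgebra_eq_top_of_separates
    intro m m' hne
    obtain ⟨f, hf, hfm⟩ := hsep m m' hne
    exact ⟨f, Algebra.subset_adjoin hf, hfm⟩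
  have h2 := Algebra.adjoin_eq_span K (H : Set (M → K))
  have h3 : Submonoid.closure (H : Set (M → K)) = H.toSubmonoid :=
    Submonoid.closure_eq H.toSubmonoid
  rw [h3, h1] at h2
  rw [eq_top_iff]
  intro x _
  have : x ∈ Subalgebra.toSubmodule (⊤ : Subalgebra K (M → K)) := by simp
  rw [h2] at this
  exact this

include hH in
theorem evPt_surjective [Finite M] (hsep : ∀ m m' : M, m ≠ m' → ∃ f ∈ H, f m ≠ f m') :
    Function.Surjective (evPt H) := by
  classical
  have := Fintype.ofFinite M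
  intro χ
  obtain ⟨ι, hι, b, hb⟩ := hH.good
  have := Fintype.ofFinite ι
  -- expansion of elements of `H`
  have key : ∀ x : H, (x : M → K) = ∑ i, algebraMap R K (b.repr x i) • ((b i : H) : M → K) := by
    intro x
    change H.val x = _
    conv_lhs => rw [← b.sum_repr x]
    rw [map_sum]
    refine Finset.sum_congr rfl fun i _ => ?_
    rw [map_smul]
    funext m
    simp [_root_.Algebra.smul_def]
  have keyχ : ∀ x : H, χ x = ∑ i, algebraMap R K (b.repr x i) * χ (b i) := by
    intro x
    conv_lhs => rw [← b.sum_repr x]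
    rw [map_sum]
    refine Finset.sum_congr rfl fun i _ => ?_
    rw [map_smul, _root_.Algebra.smul_def]
  have hspan : ⊤ ≤ Submodule.span K (Set.range fun i => H.val (b i)) := by
    rw [← hH.span_eq_top hsep]
    apply Submodule.span_le.mpr
    intro x hx
    have := key ⟨x, hx⟩
    simp only at this
    rw [SetLike.mem_coe, this]
    exact Submodule.sum_mem _ fun i _ =>
      Submodule.smul_mem _ _ (Submodule.subset_span ⟨i, rfl⟩)
  let B : Module.Basis ι K (M → K) := Module.Basis.mk hb hspan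
  have hB : ∀ i, B i = ((b i : H) : M → K) := fun i => by
    simp [B]
  let χ' : (M → K) →ₗ[K] K := B.constr K (fun i => χ (b i))
  have hχ'B : ∀ i, χ' (B i) = χ (b i) := fun i => by
    simp [χ']
  have hχ' : ∀ x : H, χ' (x : M → K) = χ x := by
    intro x
    rw [key x, keyχ x, map_sum]
    refine Finset.sum_congr rfl fun i _ => ?_
    rw [map_smul, ← hB, hχ'B, smul_eq_mul]
  -- multiplicativity
  have hmul1 : ∀ j, χ' ∘ₗ LinearMap.mulRight K (B j) = LinearMap.mulRight K (χ' (B j)) ∘ₗ χ' := by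
    intro j
    apply B.ext
    intro i
    simp only [LinearMap.comp_apply, LinearMap.mulRight_apply]
    rw [hB, hB]
    have : ((b i : H) : M → K) * ((b j : H) : M → K) = ((b i * b j : H) : M → K) := rfl
    rw [this, hχ', hχ', hχ', _root_.map_mul]
  have hmul2 : ∀ f : M → K, χ' ∘ₗ LinearMap.mulLeft K f = LinearMap.mulLeft K (χ' f) ∘ₗ χ' := by
    intro f
    apply B.ext
    intro j
    simp only [LinearMap.comp_apply, LinearMap.mulLeft_apply]
    have := congrArg (fun L : (M → K) →ₗ[K] K => L f) (hmul1 j)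
    simpa only [LinearMap.comp_apply, LinearMap.mulRight_apply] using this
  have hmul : ∀ f g : M → K, χ' (f * g) = χ' f * χ' g := by
    intro f g
    have := congrArg (fun L : (M → K) →ₗ[K] K => L g) (hmul2 f)
    simpa only [LinearMap.comp_apply, LinearMap.mulLeft_apply] using this
  have hone : χ' 1 = 1 := by
    have := hχ' 1
    rw [_root_.map_one] at this
    exact this
  -- find the point
  have hsum : ∑ m : M, χ' (Pi.single m (1 : K)) = 1 := by
    have h1 : (∑ m : M, Pi.single m (1 : K)) = (1 : M → K) := by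
      funext x
      simp [Finset.sum_apply, Pi.single_apply]
    rw [← map_sum, h1, hone]
  have hex : ∃ m : M, χ' (Pi.single m (1 : K)) ≠ 0 := by
    by_contra hcon
    push Not at hcon
    rw [Finset.sum_eq_zero fun m _ => hcon m] at hsum
    exact zero_ne_one hsum
  obtain ⟨m, hm⟩ := hex
  refine ⟨m, ?_⟩
  apply AlgHom.ext
  intro x
  rw [evPt_apply, ← hχ']
  have h1 : (x : M → K) * Pi.single m (1 : K) = ((x : M → K) m) • Pi.single m (1 : K) := by
    funext y
    by_cases hy : y = m
    · subst hy; simp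
    · simp [Pi.single_eq_of_ne hy]
  have h2 := hmul (x : M → K) (Pi.single m (1 : K))
  rw [h1, map_smul, smul_eq_mul] at h2
  exact (mul_right_cancel₀ hm h2)

theorem lift_evPt (s t : M) (x : H ⊗[R] H) :
    Algebra.TensorProduct.lift (evPt H s) (evPt H t) (fun _ _ => Commute.all _ _) x =
      E₂ H x (s, t) := by
  induction x using TensorProduct.induction_on with
  | zero => simp
  | tmul a b =>
    rw [Algebra.TensorProduct.lift_tmul, E₂_tmul]
    rfl
  | add x y hx hy =>
    rw [map_add, map_add, Pi.add_apply, hx, hy]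

theorem evPt_add (s t : M) :
    letI := hH.hopfAlgebra
    (WithConv.toConv (evPt H s) * WithConv.toConv (evPt H t) : WithConv (H →ₐ[R] K)) =
      WithConv.toConv (evPt H (s + t)) := by
  letI := hH.hopfAlgebra
  apply WithConv.ext
  apply AlgHom.ext
  intro h
  have := AlgHom.convMul_apply (WithConv.toConv (evPt H s)) (WithConv.toConv (evPt H t)) h
  refine this.trans ?_
  rw [lift_evPt]
  exact hH.E₂_comul h (s, t)

end IsOrder

/-- **Piece ORD.**  A separating Hopf order of functions on a finite abelian group `M` is a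
finite flat commutative cocommutative Hopf algebra over `R` whose `K`-points are `M`. -/
theorem exists_hopf_of_isOrder [Finite M] {H : Subalgebra R (M → K)} (hH : IsOrder H)
    (hsep : ∀ m m' : M, m ≠ m' → ∃ f ∈ H, f m ≠ f m') :
    ∃ (H' : Type) (_ : CommRing H') (_ : HopfAlgebra R H'),
      Module.Finite R H' ∧ Module.Flat R H' ∧ Coalgebra.IsCocomm R H' ∧
      ∃ e : WithConv (H' →ₐ[R] K) ≃ M, (∀ f g, e (f * g) = e f + e g) ∧
        ∀ (τ : K → K) (a : M → M), (∀ h ∈ H, ∀ m, h (a m) = τ (h m)) →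
          ∀ f g : WithConv (H' →ₐ[R] K), (∀ h : H', g h = τ (f h)) → e g = a (e f) := by
  have hbij : Function.Bijective (fun m : M => WithConv.toConv (IsOrder.evPt H m)) := by
    constructor
    · intro m m' hmm
      exact IsOrder.evPt_injective hsep (congrArg WithConv.ofConv hmm)
    · intro χ
      obtain ⟨m, hm⟩ := hH.evPt_surjective hsep χ.ofConv
      exact ⟨m, by simp only [hm, WithConv.toConv_ofConv]⟩
  refine ⟨H, H.toCommRing, hH.hopfAlgebra, hH.good.finite, ?_, hH.isCocomm,
    (Equiv.ofBijective _ hbij).symm, ?_, ?_⟩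
  · haveI := hH.good.free
    infer_instance
  · intro f g
    rw [Equiv.symm_apply_eq]
    have h1 := hH.evPt_add ((Equiv.ofBijective _ hbij).symm f) ((Equiv.ofBijective _ hbij).symm g)
    have hf : WithConv.toConv (IsOrder.evPt H ((Equiv.ofBijective _ hbij).symm f)) = f :=
      (Equiv.ofBijective _ hbij).apply_symm_apply f
    have hg : WithConv.toConv (IsOrder.evPt H ((Equiv.ofBijective _ hbij).symm g)) = g :=
      (Equiv.ofBijective _ hbij).apply_symm_apply g
    rw [hf, hg] at h1
    exact h1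
  · intro τ a ha f g hfg
    rw [Equiv.symm_apply_eq]
    have hf : WithConv.toConv (IsOrder.evPt H ((Equiv.ofBijective _ hbij).symm f)) = f :=
      (Equiv.ofBijective _ hbij).apply_symm_apply f
    apply WithConv.ext
    apply AlgHom.ext
    intro h
    have h1 : g.ofConv h = τ (f.ofConv h) := hfg h
    rw [h1]
    have h2 : f.ofConv h = (h : M → K) ((Equiv.ofBijective _ hbij).symm f) := by
      conv_lhs => rw [← hf]
      rfl
    rw [h2, ← ha h h.2]
    rfl

end Fermat.Agent.S19.H19

end

end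
-- ===== PACK-END S19/H19/Points.lean

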