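import Mathlib
import Fermat.Prelude.Def_ModularCurve_X0ModL
import Fermat.Prelude.Def_GaloisRep_DeformationCondition
import Fermat.Prelude.Def_AlgebraicCurve_Correspondence
import Fermat.Prelude.Def_ModularCurve_ArithmeticGalois
import Fermat.Agent.Pack.S33.E1L2
import Fermat.Agent.Pack.S33.E5L1
import Fermat.Agent.Pack.S33.E1L0
import Fermat.Agent.Pack.S33.E5L0
import Fermat.Agent.Pack.S33.E1L3
import Fermat.Agent.Pack.S33.E2L3
import Fermat.Agent.Pack.S33.E6L2
import Fermat.Agent.Pack.S33.E6L0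
import Fermat.Agent.Pack.S33.E6L1
import Fermat.Agent.Pack.S33.E6L3
import Fermat.Agent.Pack.S33.E5L2
import Fermat.Agent.Pack.S33.E2L1
import Fermat.Agent.Pack.S33.E3L3
import Fermat.Agent.Pack.S33.E2L2
import Fermat.Agent.Pack.S33.E5L3

-- ===== PACK-BEGIN S28/H326/Pairs.lean
section
/-
S28 / helper326: the conjugate families `w i` (of the modular unit `p¹² Δ(q^p)/Δ(q)`),
`Y i`, and `y i` (of `j(q^p)`), `i ∈ P¹(𝔽_p) = Option (Fin p)`, as Laurent series over `ℂ`
in `t = q^(1/p)`; their mixed power sums in terms of the integer Hecke series.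
-/





set_option autoImplicit false
set_option linter.unusedSectionVars false

noncomputable section

namespace Fermat.Agent.S28.H326

open ModularCurve HahnSeries

/-! ### Integer data -/

/-- formal `Δ = q ∏ (1 - qⁿ)²⁴` as a power series over `ℤ` -/
def DZ : PowerSeries ℤ := PowerSeries.X * dedekindEtaUnit

/-- formal `E₄³` -/
def EZ : PowerSeries ℤ := eisenstein4 ^ 3

theorem jNum_mul_unit : jNum * dedekindEtaUnit = EZ := by
  rw [jNum, EZ, mul_assoc, mul_comm dedekindEtaUnitInv, dedekindEtaUnit_mul_inv, mul_one]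

/-- formal `Δ` as a Laurent series over `ℤ` -/
def deltaZ : LaurentSeries ℤ := HahnSeries.ofPowerSeries ℤ ℤ DZ

/-- formal `Δ⁻¹` as a Laurent series over `ℤ` -/
def deltaInvZ : LaurentSeries ℤ :=
  HahnSeries.single (-1 : ℤ) 1 * HahnSeries.ofPowerSeries ℤ ℤ dedekindEtaUnitInv

theorem deltaZ_mul_deltaInvZ : deltaZ * deltaInvZ = 1 := by
  rw [deltaZ, deltaInvZ, DZ, _root_.map_mul, HahnSeries.ofPowerSeries_X]
  calc single (1 : ℤ) (1 : ℤ) * (HahnSeries.ofPowerSeries ℤ ℤ) dedekindEtaUnit *
        (single (-1 : ℤ) (1 : ℤ) * (HahnSeries.ofPowerSeries ℤ ℤ) dedekindEtaUnitInv)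
      = (single (1 : ℤ) (1 : ℤ) * single (-1 : ℤ) (1 : ℤ)) *
          ((HahnSeries.ofPowerSeries ℤ ℤ) dedekindEtaUnit *
            (HahnSeries.ofPowerSeries ℤ ℤ) dedekindEtaUnitInv) := by ring
    _ = 1 := by
      rw [← _root_.map_mul, dedekindEtaUnit_mul_inv, HahnSeries.single_mul_single]
      simp

/-- `jq · Δ = E₄³` in `ℤ((q))`. -/
theorem jq_mul_deltaZ : jqModC ℤ * deltaZ = HahnSeries.ofPowerSeries ℤ ℤ EZ := by
  rw [jqModC, deltaZ, DZ, _root_.map_mul, HahnSeries.ofPowerSeries_X, ← jNum_mul_unit, _root_.map_mul]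
  have h : (jNum.map (Int.castRingHom ℤ)) = jNum := by
    ext n; simp
  rw [h]
  calc single (-1 : ℤ) (1 : ℤ) * (HahnSeries.ofPowerSeries ℤ ℤ) jNum *
        (single (1 : ℤ) (1 : ℤ) * (HahnSeries.ofPowerSeries ℤ ℤ) dedekindEtaUnit)
      = (single (-1 : ℤ) (1 : ℤ) * single (1 : ℤ) (1 : ℤ)) *
          ((HahnSeries.ofPowerSeries ℤ ℤ) jNum *
            (HahnSeries.ofPowerSeries ℤ ℤ) dedekindEtaUnit) := by ring
    _ = _ := by
      rw [HahnSeries.single_mul_single]
      simp

/-! ### Complex versions -/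

/-- cast of power series `ℤ⟦X⟧ → ℂ⟦X⟧` -/
abbrev toC : PowerSeries ℤ →+* PowerSeries ℂ := PowerSeries.map (Int.castRingHom ℂ)

theorem kap_ofPS (g : PowerSeries ℤ) : kap (HahnSeries.ofPowerSeries ℤ ℤ g) = ofPS (toC g) :=
  coeffMap_ofPowerSeries _ g

variable (p : ℕ) [NeZero p]

/-- `U_p` on integer power series -/
def UpZ (g : PowerSeries ℤ) : PowerSeries ℤ := PowerSeries.mk fun n => g.coeff (n * p)

theorem toC_UpZ (g : PowerSeries ℤ) : toC (UpZ p g) = Up p (toC g) := by
  ext n
  simp [UpZ, Up]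

/-- the integer Hecke series `p · T_p^{(k)} φ = p^k φ(q^p) + p (U_p φ)(q)` -/
def heckeL (k : ℕ) (φ : PowerSeries ℤ) : LaurentSeries ℤ :=
  (p : LaurentSeries ℤ) ^ k * qExpand ℤ p (HahnSeries.ofPowerSeries ℤ ℤ φ) +
    (p : LaurentSeries ℤ) * HahnSeries.ofPowerSeries ℤ ℤ (UpZ p φ)

/-- **The analytic input** (to be supplied from the Hecke operator `T_p` on level one forms):
`p · T_p(E₄^{3a} Δ^r) = P(j) · Δ^{a+r}` with `P ∈ ℤ[X]`. -/
def HeckeInput : Prop :=
  ∀ a r : ℕ, ∃ P : Polynomial ℤ,
    heckeL p (12 * (a + r)) (EZ ^ a * DZ ^ r) =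
      Polynomial.aeval (jqModC ℤ) P * deltaZ ^ (a + r)

/-- `θ : ℤ[Y] → ℂ((t))`, `Y ↦ j(t^p)` -/
def theta : Polynomial ℤ →+* LaurentSeries ℂ :=
  (qExpand ℂ p).comp (kap.comp (Polynomial.aeval (jqModC ℤ)).toRingHom)

theorem theta_apply (P : Polynomial ℤ) :
    theta p P = qExpand ℂ p (kap (Polynomial.aeval (jqModC ℤ) P)) := rfl

theorem theta_X : theta p Polynomial.X = jP p := by
  rw [theta_apply, Polynomial.aeval_X, jP, coeffMap_jqModC]

theorem theta_eq_aeval (P : Polynomial ℤ) :
    theta p P = Polynomial.aeval (jP p) (P.map (Int.castRingHom ℚ)) := by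
  induction P using Polynomial.induction_on' with
  | add a b ha hb => rw [_root_.map_add, ha, hb, Polynomial.map_add, _root_.map_add]
  | monomial n c =>
    rw [← Polynomial.C_mul_X_pow_eq_monomial, _root_.map_mul, map_pow, theta_X, Polynomial.map_mul,
      Polynomial.map_pow, Polynomial.map_X, Polynomial.map_C, _root_.map_mul, map_pow,
      Polynomial.aeval_X, Polynomial.aeval_C]
    congr 1
    rw [theta_apply, Polynomial.aeval_C]
    simp

/-- The `ℚ`-subalgebra `ℚ[j(t^p)]` of `ℂ((t))`. -/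
def Bsub : Subalgebra ℚ (LaurentSeries ℂ) := (Polynomial.aeval (jP p)).range

theorem theta_mem_Bsub (P : Polynomial ℤ) : theta p P ∈ Bsub p :=
  ⟨P.map (Int.castRingHom ℚ), (theta_eq_aeval p P).symm⟩

/-! ### The conjugates -/

/-- `E₄³` over `ℂ` -/
def EC : PowerSeries ℂ := toC EZ
/-- `Δ` over `ℂ` -/
def DC : PowerSeries ℂ := toC DZ

/-- the `p + 1` conjugation maps, indexed by `P¹(𝔽_p)` -/
def conj : Option (Fin p) → (PowerSeries ℂ →+* LaurentSeries ℂ)
  | none => cInf p
  | some b => cB p b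

/-- the weight-12 scalars -/
def scal : Option (Fin p) → LaurentSeries ℂ
  | none => (p : LaurentSeries ℂ) ^ 12
  | some _ => 1

/-- `Δ(t^p)` -/
def del : LaurentSeries ℂ := cBase p DC

/-- `Δ(t^p)⁻¹` -/
def delInv : LaurentSeries ℂ := qExpand ℂ p (kap deltaInvZ)

theorem del_eq : del p = qExpand ℂ p (kap deltaZ) := by
  rw [del, cBase, RingHom.comp_apply, deltaZ, kap_ofPS, DC]

theorem del_mul_delInv : del p * delInv p = 1 := by
  rw [del_eq, delInv, ← _root_.map_mul, ← _root_.map_mul, deltaZ_mul_deltaInvZ, _root_.map_one, _root_.map_one]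

theorem delInv_mem_IntCoeff : delInv p ∈ IntCoeff :=
  qExpand_mem_IntCoeff p (kap_mem_IntCoeff _)

/-- conjugates of the unit: `w_∞ = p¹² Δ(t^(p²))/Δ(t^p)`, `w_b = Δ(ζ^b t)/Δ(t^p)` -/
def w (i : Option (Fin p)) : LaurentSeries ℂ := scal p i * conj p i DC * delInv p

/-- `Y_∞ = p¹² E₄³(t^(p²))/Δ(t^p)`, `Y_b = E₄³(ζ^b t)/Δ(t^p)` -/
def Y (i : Option (Fin p)) : LaurentSeries ℂ := scal p i * conj p i EC * delInv p

theorem sum_scal_pow_conj (m : ℕ) (φ : PowerSeries ℤ) :
    ∑ i, scal p i ^ m * conj p i (toC φ) = qExpand ℂ p (kap (heckeL p (12 * m) φ)) := by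
  rw [Fintype.sum_option]
  simp only [scal, conj, one_pow, one_mul]
  rw [Fin.sum_univ_eq_sum_range (fun b => cB p b (toC φ)) p, sum_cB, heckeL]
  simp only [_root_.map_add, _root_.map_mul, map_pow, map_natCast, coeffMap_qExpand, kap_ofPS, toC_UpZ,
    ← pow_mul]
  rfl

/-- **Mixed power sums** are in `ℤ[j(t^p)]`. -/
theorem sum_Y_pow_mul_w_pow (h : HeckeInput p) (a r : ℕ) :
    ∃ P : Polynomial ℤ, ∑ i, Y p i ^ a * w p i ^ r = theta p P := by
  obtain ⟨P, hP⟩ := h a r
  refine ⟨P, ?_⟩
  have h1 : ∀ i, Y p i ^ a * w p i ^ r =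
      (scal p i ^ (a + r) * conj p i (toC (EZ ^ a * DZ ^ r))) * delInv p ^ (a + r) := by
    intro i
    rw [Y, w, EC, DC, _root_.map_mul, _root_.map_mul, map_pow, map_pow, map_pow, map_pow]
    ring
  simp only [h1]
  rw [← Finset.sum_mul, sum_scal_pow_conj, hP, _root_.map_mul, _root_.map_mul, map_pow, map_pow, ← del_eq,
    ← theta_apply, mul_assoc, ← mul_pow, del_mul_delInv, one_pow, mul_one]

theorem sum_w_pow_mem (h : HeckeInput p) (r : ℕ) : ∑ i, w p i ^ r ∈ Bsub p := by
  obtain ⟨P, hP⟩ := sum_Y_pow_mul_w_pow p h 0 r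
  simp only [pow_zero, one_mul] at hP
  rw [hP]
  exact theta_mem_Bsub p P

end Fermat.Agent.S28.H326

end
end
-- ===== PACK-END S28/H326/Pairs.lean

-- ===== PACK-BEGIN S18/H438/Front/Transport.lean
section




/-!
# S18 / ALG-FRONT (helper438), part 4: from `Alg.GoodModel` (sub-objects of `Ω`) to the field `Fc`

For `G : Alg.GoodModel Lc Ec Fc R V w x S` we define, inside the field `↥Fc`:

* `Rf Fc R : Subring Fc`             (the DVR `R`),
* `Vf G : ValuationSubring Fc`       (the Gauss valuation ring),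
* `xf G, wf G : Fc`                  (coordinate, uniformiser),

and prove the hypotheses of `Front/Chart.lean` and `Front/Gauss.lean` for both charts
(`z = xf G` and `z = (xf G)⁻¹`).
-/

set_option autoImplicit false
set_option linter.style.haveILetI false
set_option linter.unusedSectionVars false

noncomputable section

namespace Fermat.Agent.S18.H438

open Alg Polynomial

variable {Ω : Type*} [Field Ω] {Lc Ec Fc : Subfield Ω} {R V : Subring Ω} {w x : Ω}
  {S : Finset Ω}

/-- `R` as a subring of the field `Fc`. -/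
def Rf (Fc : Subfield Ω) (R : Subring Ω) : Subring Fc := R.comap Fc.subtype

theorem mem_Rf {f : Fc} : f ∈ Rf Fc R ↔ (f : Ω) ∈ R := Iff.rfl

namespace GoodModelFront

variable (G : GoodModel Lc Ec Fc R V w x S)

include G in
theorem R_le_Fc {r : Ω} (hr : r ∈ R) : r ∈ Fc := G.E_le_F (G.R_le hr)

include G in
theorem w_mem_Fc : w ∈ Fc := R_le_Fc G G.w_mem

/-- the coordinate as an element of `Fc` -/
def xf : Fc := ⟨x, G.x_mem⟩

/-- the uniformiser as an element of `Fc` -/
def wf : Fc := ⟨w, w_mem_Fc G⟩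

@[simp] theorem coe_xf : ((xf G : Fc) : Ω) = x := rfl
@[simp] theorem coe_wf : ((wf G : Fc) : Ω) = w := rfl

/-- the Gauss valuation ring as a valuation subring of `Fc` -/
def Vf : ValuationSubring Fc :=
  { V.comap Fc.subtype with
    mem_or_inv_mem' := fun f => by
      rcases G.V_total f f.2 with h | h
      · exact Or.inl h
      · exact Or.inr h }

theorem mem_Vf {f : Fc} : f ∈ Vf G ↔ (f : Ω) ∈ V := Iff.rfl

include G

theorem wf_mem_Rf : wf G ∈ Rf Fc R := G.w_mem

theorem wf_ne_zero : wf G ≠ 0 := fun h => G.w_ne_zero (congrArg Subtype.val h)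

theorem wf_inv_not_mem_Rf : (wf G)⁻¹ ∉ Rf Fc R := fun h => G.w_inv_not_mem h

theorem wf_inv_not_mem_Vf : (wf G)⁻¹ ∉ Vf G := fun h => G.w_inv_not_mem_V h

theorem Rf_le_Vf : ∀ r ∈ Rf Fc R, r ∈ Vf G := fun _ hr => G.R_le_V hr

theorem Vf_gen : ∀ f ∈ Vf G, f⁻¹ ∉ Vf G → f * (wf G)⁻¹ ∈ Vf G :=
  fun f hf hinv => G.V_gen f hf hinv

theorem Rf_disc : ∀ r ∈ Rf Fc R, r ≠ 0 →
    ∃ n : ℕ, r * ((wf G)⁻¹) ^ n ∈ Rf Fc R ∧ (r * ((wf G)⁻¹) ^ n)⁻¹ ∈ Rf Fc R := by
  intro r hr hr0
  have hr0' : (r : Ω) ≠ 0 := fun h => hr0 (Subtype.ext h)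
  obtain ⟨n, h1, h2⟩ := G.w_discrete r hr hr0'
  exact ⟨n, h1, h2⟩

/-- **`R` is a discrete valuation ring.** -/
theorem isDiscreteValuationRing_Rf : IsDiscreteValuationRing (Rf Fc R) :=
  isDiscreteValuationRing_of_disc (Rf Fc R) (wf_mem_Rf G) (wf_ne_zero G)
    (wf_inv_not_mem_Rf G) (Rf_disc G)

theorem irreducible_wf : Irreducible (⟨wf G, wf_mem_Rf G⟩ : Rf Fc R) :=
  irreducible_unif_of_disc (Rf Fc R) (wf_mem_Rf G) (wf_ne_zero G)
    (wf_inv_not_mem_Rf G) (Rf_disc G)

theorem charZero_Fc : CharZero Fc :=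
  haveI := G.charZero
  RingHom.charZero Fc.subtype

/-- `x ∈ V` (field `x_mem_V` of the v4 interface). -/
theorem xf_mem_Vf : xf G ∈ Vf G := G.x_mem_V

/-- `x⁻¹ ∈ V` (Gauss). -/
theorem xf_inv_mem_Vf : (xf G)⁻¹ ∈ Vf G := by
  have h := G.gauss (Polynomial.X : Polynomial Ω)
    (fun i => by
      rw [Polynomial.coeff_X]
      split_ifs
      · exact R.one_mem
      · exact R.zero_mem)
    ⟨1, by simp, by simp [R.one_mem]⟩
  rw [Polynomial.eval_X] at h
  exact h

end GoodModelFront

end Fermat.Agent.S18.H438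

end
end
-- ===== PACK-END S18/H438/Front/Transport.lean

-- ===== PACK-BEGIN S18/B12/Spec3.lean
section



/-!
# S18, Route K, b2: the HEART (`B2CoreAbsStatement`) and the two OUTPUT SHAPES
(squad S18/S33, squad-lead helper33) — FROZEN statements, Mathlib-only

* `B2CoreAbsStatement` : at every closed point `t` of the special fibre `B/wB` over `Λ = P/(w)`:
  `ord_t disc(B/wB) ≤ n - s` with `(B/wB mod t)_red` spanned by `s` elements
  (exactly the hypothesis of "Theorem L", `SFLatticeStatement` / H933 / H636 / H998).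
* Output O1 `B2RegularStatement` : `B/wB` a domain ⟹ `RegularAlong w` (shape of
  `Fermat.Agent.S18.H754.RegularAlong`, consumed by the Kummer endgame K').
* Output O2 `B2Statement` (Spec.lean) : idempotents of `Frac(B/wB)` lie in `B/wB` (no domain
  hypothesis; consumed by "b4 = b2 for the cover").
-/

set_option autoImplicit false

noncomputable section

namespace Fermat.Agent.S18.B12

open Polynomial

universe u v

/-- **A6' (heart of b2).**  Abstract setting of Spec2 (`P` noetherian UFD, `w` prime, `P/(w)` and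
`P[1/w]` PIDs, char 0 generic fibre, `B` normal finite torsion-free over `P`, `hsep`, branch primes
`S` pairwise comaximal mod `w`, unramified outside `S`).  Then for every prime `t` of
`Λ = P/(w)` and every `Λ`-basis `bb` of `B/wB`: `disc bb ≠ 0`, and there is a family of `s`
elements spanning `B/wB` modulo `rad(t)` with `t ^ (n - s + 1) ∤ disc bb`. -/
def B2CoreAbsStatement : Prop :=
  ∀ (P : Type u) [CommRing P] [IsDomain P] [UniqueFactorizationMonoid P] [IsNoetherianRing P]
    (w : P) (_ : Prime w) (_ : IsPrincipalIdealRing (P ⧸ Ideal.span {w}))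
    (_ : IsPrincipalIdealRing (Localization.Away w))
    (_ : ∀ m : ℕ, m ≠ 0 → IsUnit (algebraMap P (Localization.Away w) (m : P)))
    (B : Type v) [CommRing B] [IsDomain B] [IsIntegrallyClosed B] [Algebra P B]
    [Module.Finite P B] [Module.IsTorsionFree P B]
    (_ : ∃ x : Fin (Module.finrank P B) → B, ¬ w ∣ intDiscr P B x)
    (S : Finset P)
    (_ : ∀ s ∈ S, Prime s ∧ ¬ Associated s w ∧ (Ideal.span {w, s}).IsMaximal ∧
      IsPrincipalIdealRing (P ⧸ Ideal.span {s}))
    (_ : ∀ s ∈ S, ∀ s' ∈ S, s ≠ s' → s' ∉ Ideal.span {w, s})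
    (_ : ∀ π : P, Prime π → ¬ Associated π w → (∀ s ∈ S, ¬ Associated π s) →
        (Ideal.span {algebraMap P B π}).IsRadical)
    (t : P ⧸ Ideal.span {w}) (_ : Prime t) (n : ℕ)
    (bb : Module.Basis (Fin n) (P ⧸ Ideal.span {w})
      (B ⧸ (Ideal.span {w}).map (algebraMap P B))),
    Algebra.discr (P ⧸ Ideal.span {w}) bb ≠ 0 ∧
    ∃ (s : ℕ) (y : Fin s → B ⧸ (Ideal.span {w}).map (algebraMap P B)),
      (∀ c : B ⧸ (Ideal.span {w}).map (algebraMap P B), ∃ a : Fin s → P ⧸ Ideal.span {w},
        c - ∑ i, a i • y i ∈ (Ideal.span {algebraMap (P ⧸ Ideal.span {w})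
          (B ⧸ (Ideal.span {w}).map (algebraMap P B)) t}).radical) ∧
      ¬ t ^ (n - s + 1) ∣ Algebra.discr (P ⧸ Ideal.span {w}) bb

/-- **A8 (normality from the discriminant bounds).**  `Λ` a PID, `C` a domain, free of rank `n`
over `Λ`, satisfying the bound of `B2CoreAbsStatement` at every prime `t`.  Then `C` is
integrally closed.  (Apply Theorem L to `C ⊆ C[f]`, `f` integral over `C`.) -/
def IntClosedOfDiscrStatement : Prop :=
  ∀ (Λ : Type u) [CommRing Λ] [IsDomain Λ] [IsPrincipalIdealRing Λ]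
    (C : Type v) [CommRing C] [IsDomain C] [Algebra Λ C] (n : ℕ) (b : Module.Basis (Fin n) Λ C),
    Algebra.discr Λ b ≠ 0 →
    (∀ t : Λ, Prime t → ∃ (s : ℕ) (y : Fin s → C),
      (∀ c : C, ∃ a : Fin s → Λ,
        c - ∑ i, a i • y i ∈ (Ideal.span {algebraMap Λ C t}).radical) ∧
      ¬ t ^ (n - s + 1) ∣ Algebra.discr Λ b) →
    IsIntegrallyClosed C

/-- **A9 (regularity along a Dedekind special fibre).**  If `B/ϖB` is a Dedekind domain then
every maximal ideal `𝔪 ∋ ϖ` of `B` is locally generated by `ϖ` and one more element. -/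
def RegularAlongOfDedekindStatement : Prop :=
  ∀ (B : Type u) [CommRing B] (ϖ : B), IsDedekindDomain (B ⧸ Ideal.span {ϖ}) →
    ∀ 𝔪 : Ideal B, 𝔪.IsMaximal → ϖ ∈ 𝔪 →
      ∃ t ∈ 𝔪, ∀ a ∈ 𝔪, ∃ s : B, s ∉ 𝔪 ∧ s * a ∈ Ideal.span {ϖ, t}

/-- **OUTPUT O1 (b2, regular form; concrete).**  As `B2Statement`, plus `hdom`: `w` is prime in
`B` (the special fibre is a domain; QEP).  Conclusion = `H754.RegularAlong (C w)`, unfolded. -/
def B2RegularStatement : Prop :=
  ∀ (R : Type u) [CommRing R] [IsDomain R] [IsDiscreteValuationRing R] [CharZero R]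
    (w : R) (_ : Irreducible w)
    (B : Type v) [CommRing B] [IsDomain B] [IsIntegrallyClosed B] [Algebra R[X] B]
    [Module.Finite R[X] B] [Module.IsTorsionFree R[X] B]
    (_ : Prime (algebraMap R[X] B (C w)))
    (_ : ∃ x : Fin (Module.finrank R[X] B) → B,
        ¬ C w ∣ (Matrix.of fun i j => Algebra.intTrace R[X] B (x i * x j)).det)
    (S : Finset R) (_ : ∀ c ∈ S, ∀ c' ∈ S, c ≠ c' → IsUnit (c - c'))
    (_ : ∀ π : R[X], Prime π → ¬ Associated π (C w) → (∀ c ∈ S, ¬ Associated π (X - C c)) →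
        (Ideal.span {algebraMap R[X] B π}).IsRadical)
    (𝔪 : Ideal B), 𝔪.IsMaximal → algebraMap R[X] B (C w) ∈ 𝔪 →
      ∃ t ∈ 𝔪, ∀ a ∈ 𝔪, ∃ s : B, s ∉ 𝔪 ∧
        s * a ∈ Ideal.span {algebraMap R[X] B (C w), t}

end Fermat.Agent.S18.B12

end
end
-- ===== PACK-END S18/B12/Spec3.lean

-- ===== PACK-BEGIN S18/B12/H393/DiscrRed.lean
section



/-!
# S18 / Route K / b2.5, piece A3 (helper393): `DiscrRedStatement`

`discrRed : DiscrRedStatement` (exact frozen shape of `B12/Spec2.lean`).

* `smul_trace_eq_trace_of_quasiBasis` : generic trace lemma.  `M` finite free over `A`,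
  `x` a linearly independent family with `g • M ⊆ span x`, `f` an endomorphism with
  `g • f (x j) = ∑ i, m i j • x i`.  Then `g * tr f = tr m`.
  (Proof: `tr (φ ∘ f ∘ ι) = tr (ι ∘ φ ∘ f)` for `ι : span x → M`, `φ = g • _ : M → span x`.)
* `smul_intTrace_eq` : `g * intTrace P B β = tr m` if `g • (β * x j) = ∑ i, m i j • x i`
  (`x` a local basis of `B` over `P`).
* `mk_intTrace_eq_trace` : `intTrace P B β mod w = Tr_{(B/wB)/(P/w)} (β mod w)`.
-/

set_option autoImplicit false

noncomputable section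

namespace Fermat.Agent.S18.B12.H393

open Fermat.Agent.S18.B12

universe u v

section Generic

variable {A : Type*} [CommRing A] {M : Type*} [AddCommGroup M] [Module A M]

/-- **Generic trace lemma.** -/
theorem smul_trace_eq_trace_of_quasiBasis [Module.Free A M] [Module.Finite A M]
    {n : ℕ} (f : M →ₗ[A] M) (x : Fin n → M) (hli : LinearIndependent A x) (g : A)
    (hspan : ∀ y : M, g • y ∈ Submodule.span A (Set.range x))
    (m : Matrix (Fin n) (Fin n) A) (hm : ∀ j, g • f (x j) = ∑ i, m i j • x i) :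
    g * LinearMap.trace A M f = m.trace := by
  classical
  set E : Submodule A M := Submodule.span A (Set.range x) with hE
  let bE : Module.Basis (Fin n) A E := Module.Basis.span hli
  have hbE : ∀ j, ((bE j : E) : M) = x j := fun j => Module.Basis.coe_span_apply hli j
  have : Module.Free A E := Module.Free.of_basis bE
  have : Module.Finite A E := Module.Finite.of_basis bE
  let φ : M →ₗ[A] E :=
    { toFun := fun y => ⟨g • y, hspan y⟩
      map_add' := fun y z => Subtype.ext (by simp [smul_add])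
      map_smul' := fun r y => Subtype.ext (by simp [smul_comm g r]) }
  have h1 : LinearMap.trace A M (E.subtype ∘ₗ (φ ∘ₗ f)) =
      LinearMap.trace A E ((φ ∘ₗ f) ∘ₗ E.subtype) :=
    LinearMap.trace_comp_comm' (φ ∘ₗ f) E.subtype
  have h2 : E.subtype ∘ₗ (φ ∘ₗ f) = g • f := by
    ext y; simp [φ]
  have h3 : LinearMap.toMatrix bE bE ((φ ∘ₗ f) ∘ₗ E.subtype) = m := by
    ext i j
    rw [LinearMap.toMatrix_apply]
    have : ((φ ∘ₗ f) ∘ₗ E.subtype) (bE j) = ∑ i, m i j • bE i := by
      apply Subtype.ext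
      simp only [LinearMap.coe_comp, Function.comp_apply, Submodule.subtype_apply,
        LinearMap.coe_mk, AddHom.coe_mk, φ, hbE]
      rw [hm j, Submodule.coe_sum]
      refine Finset.sum_congr rfl fun i _ => ?_
      rw [Submodule.coe_smul, hbE]
    rw [this, map_sum]
    simp [Finsupp.single_apply, Finset.sum_apply']
  rw [h2, map_smul, smul_eq_mul] at h1
  rw [h1, LinearMap.trace_eq_matrix_trace A bE, h3]

end Generic

section IntTrace

attribute [local instance] FractionRing.liftAlgebra FractionRing.isScalarTower_liftAlgebra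

variable {P : Type u} [CommRing P] [IsDomain P] [IsIntegrallyClosed P]
  {B : Type v} [CommRing B] [IsDomain B] [IsIntegrallyClosed B] [Algebra P B]
  [Module.Finite P B] [Module.IsTorsionFree P B]

/-- `g * intTrace β = tr m` when `g • (β * x j) = ∑ i, m i j • x i` for a quasi-basis `x`. -/
theorem smul_intTrace_eq {n : ℕ} (x : Fin n → B) (hli : LinearIndependent P x) (g : P)
    (hspan : ∀ b : B, g • b ∈ Submodule.span P (Set.range x)) (β : B)
    (m : Matrix (Fin n) (Fin n) P) (hm : ∀ j, g • (β * x j) = ∑ i, m i j • x i) :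
    g * Algebra.intTrace P B β = m.trace := by
  classical
  have : IsIntegralClosure B P (FractionRing B) :=
    IsIntegralClosure.of_isIntegrallyClosed _ _ _
  have : Algebra.IsAlgebraic (FractionRing P) (FractionRing B) :=
    isAlgebraic_of_isFractionRing P B ..
  have hloc : IsLocalization (Algebra.algebraMapSubmonoid B (nonZeroDivisors P))
      (FractionRing B) :=
    IsIntegralClosure.isLocalization _ (FractionRing P) _ _
  have : FiniteDimensional (FractionRing P) (FractionRing B) :=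
    .of_isLocalization P B (nonZeroDivisors P)
  set K := FractionRing P
  set L := FractionRing B
  have hinjBL : Function.Injective (algebraMap B L) := IsFractionRing.injective B L
  -- linear independence over `K`
  have hliP : LinearIndependent P (fun j => algebraMap B L (x j)) := by
    have := hli.map' (IsScalarTower.toAlgHom P B L).toLinearMap
      (LinearMap.ker_eq_bot.mpr hinjBL)
    exact this
  have hliK : LinearIndependent K (fun j => algebraMap B L (x j)) :=
    (LinearIndependent.iff_fractionRing P K).mp hliP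
  -- images of elements of the `P`-span lie in the `K`-span
  have hmemK : ∀ y : B, y ∈ Submodule.span P (Set.range x) →
      algebraMap B L y ∈ Submodule.span K (Set.range fun j => algebraMap B L (x j)) := by
    intro y hy
    rw [Submodule.mem_span_range_iff_exists_fun] at hy
    obtain ⟨c, rfl⟩ := hy
    rw [map_sum]
    refine Submodule.sum_mem _ fun i _ => ?_
    have : algebraMap B L (c i • x i) = algebraMap P K (c i) • algebraMap B L (x i) := by
      rw [Algebra.smul_def, map_mul, ← IsScalarTower.algebraMap_apply,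
        IsScalarTower.algebraMap_apply P K L, ← Algebra.smul_def]
    rw [this]
    exact Submodule.smul_mem _ _ (Submodule.subset_span ⟨i, rfl⟩)
  have hspanK : ∀ ℓ : L, algebraMap P K g • ℓ ∈
      Submodule.span K (Set.range fun j => algebraMap B L (x j)) := by
    intro ℓ
    obtain ⟨⟨b, s⟩, hs⟩ := IsLocalization.surj (Algebra.algebraMapSubmonoid B (nonZeroDivisors P)) ℓ
    obtain ⟨s₀, hs₀, hs₀'⟩ := s.2
    have hs₀K : algebraMap P K s₀ ≠ 0 := by
      have := (IsFractionRing.injective P K).ne (nonZeroDivisors.ne_zero hs₀)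
      simpa using this
    have hℓ : ℓ = (algebraMap P K s₀)⁻¹ • algebraMap B L b := by
      rw [eq_inv_smul_iff₀ hs₀K]
      simp only at hs
      rw [← hs, ← hs₀', Algebra.smul_def, ← IsScalarTower.algebraMap_apply,
        IsScalarTower.algebraMap_apply P B L, mul_comm]
    have hgb : algebraMap P K g • algebraMap B L b = algebraMap B L (g • b) := by
      rw [Algebra.smul_def (A := B), map_mul, ← IsScalarTower.algebraMap_apply,
        IsScalarTower.algebraMap_apply P K L, ← Algebra.smul_def]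
    rw [hℓ, smul_comm, hgb]
    exact Submodule.smul_mem _ _ (hmemK _ (hspan b))
  have hmK : ∀ j, algebraMap P K g • (Algebra.lmul K L (algebraMap B L β)) (algebraMap B L (x j)) =
      ∑ i, (m.map (algebraMap P K)) i j • algebraMap B L (x i) := by
    intro j
    have h := congrArg (algebraMap B L) (hm j)
    rw [map_sum] at h
    have e1 : algebraMap B L (g • (β * x j)) =
        algebraMap P K g • (Algebra.lmul K L (algebraMap B L β)) (algebraMap B L (x j)) := by
      rw [Algebra.smul_def (A := B), map_mul, ← IsScalarTower.algebraMap_apply,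
        IsScalarTower.algebraMap_apply P K L, ← Algebra.smul_def, map_mul]
      rfl
    rw [← e1, h]
    refine Finset.sum_congr rfl fun i _ => ?_
    rw [Matrix.map_apply, Algebra.smul_def (A := B), map_mul, ← IsScalarTower.algebraMap_apply,
      IsScalarTower.algebraMap_apply P K L, ← Algebra.smul_def]
  have key := smul_trace_eq_trace_of_quasiBasis (A := K) (M := L)
    (Algebra.lmul K L (algebraMap B L β)) (fun j => algebraMap B L (x j)) hliK
    (algebraMap P K g) hspanK (m.map (algebraMap P K)) hmK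
  apply IsFractionRing.injective P K
  rw [map_mul, Algebra.algebraMap_intTrace_fractionRing, Algebra.trace_apply, key]
  simp [Matrix.trace, map_sum]

end IntTrace

section Reduction

variable {P : Type u} [CommRing P]
  {B : Type v} [CommRing B] [Algebra P B]

/-- Membership in `w B` (as the ideal `(span {w}).map (algebraMap P B)`). -/
theorem mem_map_span_singleton_iff (w : P) (b : B) :
    b ∈ (Ideal.span {w}).map (algebraMap P B) ↔ ∃ β : B, b = w • β := by
  rw [Ideal.map_span, Set.image_singleton, Ideal.mem_span_singleton']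
  constructor
  · rintro ⟨β, rfl⟩; exact ⟨β, by rw [Algebra.smul_def, mul_comm]⟩
  · rintro ⟨β, rfl⟩; exact ⟨β, by rw [Algebra.smul_def, mul_comm]⟩

theorem mk_sum_smul (w : P) {n : ℕ} (c : Fin n → P) (x : Fin n → B) :
    Ideal.Quotient.mk ((Ideal.span {w}).map (algebraMap P B)) (∑ i, c i • x i) =
      ∑ i, Ideal.Quotient.mk (Ideal.span {w}) (c i) •
        Ideal.Quotient.mk ((Ideal.span {w}).map (algebraMap P B)) (x i) := by
  rw [map_sum]
  refine Finset.sum_congr rfl fun i _ => ?_
  rw [Ideal.Quotient.mk_smul_mk_quotient_map_quotient, Algebra.smul_def]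

/-- The reduction mod `w` of a quasi-basis is linearly independent over `P/(w)`. -/
theorem linearIndependent_mk_of_quasiBasis {w : P} (hw : Prime w) {n : ℕ} (x : Fin n → B)
    (hli : LinearIndependent P x) (g : P) (hg : ¬ w ∣ g)
    (hspan : ∀ b : B, g • b ∈ Submodule.span P (Set.range x)) :
    LinearIndependent (P ⧸ Ideal.span {w})
      (fun j => Ideal.Quotient.mk ((Ideal.span {w}).map (algebraMap P B)) (x j)) := by
  classical
  rw [Fintype.linearIndependent_iff]
  intro cb hcb i
  choose c hc using fun i => Ideal.Quotient.mk_surjective (cb i)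
  have h0 : Ideal.Quotient.mk ((Ideal.span {w}).map (algebraMap P B)) (∑ i, c i • x i) = 0 := by
    rw [mk_sum_smul, ← hcb]
    refine Finset.sum_congr rfl fun i _ => ?_
    rw [hc i]
  rw [Ideal.Quotient.eq_zero_iff_mem, mem_map_span_singleton_iff] at h0
  obtain ⟨β, hβ⟩ := h0
  have hgβ := hspan β
  rw [Submodule.mem_span_range_iff_exists_fun] at hgβ
  obtain ⟨d, hd⟩ := hgβ
  have hrel : ∑ i, (g * c i - w * d i) • x i = 0 := by
    simp only [sub_smul, Finset.sum_sub_distrib, mul_smul]
    rw [← Finset.smul_sum, ← Finset.smul_sum, hβ, hd, smul_comm, sub_self]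
  have := (Fintype.linearIndependent_iff.mp hli) _ hrel i
  have hdvd : w ∣ g * c i := ⟨d i, sub_eq_zero.mp this⟩
  have hwc : w ∣ c i := (hw.dvd_or_dvd hdvd).resolve_left hg
  rw [← hc i, Ideal.Quotient.eq_zero_iff_mem, Ideal.mem_span_singleton]
  exact hwc

theorem smul_mem_span_mk_of_quasiBasis (w : P) {n : ℕ} (x : Fin n → B) (g : P)
    (hspan : ∀ b : B, g • b ∈ Submodule.span P (Set.range x))
    (q : B ⧸ (Ideal.span {w}).map (algebraMap P B)) :
    Ideal.Quotient.mk (Ideal.span {w}) g • q ∈ Submodule.span (P ⧸ Ideal.span {w})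
      (Set.range fun j => Ideal.Quotient.mk ((Ideal.span {w}).map (algebraMap P B)) (x j)) := by
  obtain ⟨b, rfl⟩ := Ideal.Quotient.mk_surjective q
  have h := hspan b
  rw [Submodule.mem_span_range_iff_exists_fun] at h ⊢
  obtain ⟨c, hc⟩ := h
  refine ⟨fun i => Ideal.Quotient.mk (Ideal.span {w}) (c i), ?_⟩
  rw [← mk_sum_smul, hc, Ideal.Quotient.mk_smul_mk_quotient_map_quotient, Algebra.smul_def]

end Reduction

section Main

variable {P : Type u} [CommRing P] [IsDomain P] [IsIntegrallyClosed P]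
  {B : Type v} [CommRing B] [IsDomain B] [IsIntegrallyClosed B] [Algebra P B]
  [Module.Finite P B] [Module.IsTorsionFree P B]

/-- **Trace reduction.** `intTrace P B β mod w` is the trace of `β mod w` on `B/wB` over `P/(w)`. -/
theorem mk_intTrace_eq_trace {w : P} (hw : Prime w) {n : ℕ} (x : Fin n → B)
    (hli : LinearIndependent P x) (g : P) (hg : ¬ w ∣ g)
    (hspan : ∀ b : B, g • b ∈ Submodule.span P (Set.range x))
    [Module.Free (P ⧸ Ideal.span {w}) (B ⧸ (Ideal.span {w}).map (algebraMap P B))]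
    [Module.Finite (P ⧸ Ideal.span {w}) (B ⧸ (Ideal.span {w}).map (algebraMap P B))]
    (β : B) :
    Ideal.Quotient.mk (Ideal.span {w}) (Algebra.intTrace P B β) =
      Algebra.trace (P ⧸ Ideal.span {w}) (B ⧸ (Ideal.span {w}).map (algebraMap P B))
        (Ideal.Quotient.mk _ β) := by
  classical
  have hIp : (Ideal.span {w}).IsPrime := (Ideal.span_singleton_prime hw.ne_zero).mpr hw
  have hex : ∀ j, ∃ c : Fin n → P, ∑ i, c i • x i = g • (β * x j) := fun j =>
    (Submodule.mem_span_range_iff_exists_fun P).mp (hspan (β * x j))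
  choose c hc using hex
  let m : Matrix (Fin n) (Fin n) P := Matrix.of fun i j => c j i
  have hm : ∀ j, g • (β * x j) = ∑ i, m i j • x i := fun j => (hc j).symm
  have hP := smul_intTrace_eq x hli g hspan β m hm
  have hmΛ : ∀ j, Ideal.Quotient.mk (Ideal.span {w}) g •
      (Algebra.lmul (P ⧸ Ideal.span {w}) (B ⧸ (Ideal.span {w}).map (algebraMap P B))
        (Ideal.Quotient.mk _ β)) (Ideal.Quotient.mk _ (x j)) =
      ∑ i, (m.map (Ideal.Quotient.mk (Ideal.span {w}))) i j •
        Ideal.Quotient.mk ((Ideal.span {w}).map (algebraMap P B)) (x i) := by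
    intro j
    have h := congrArg (Ideal.Quotient.mk ((Ideal.span {w}).map (algebraMap P B))) (hm j)
    rw [mk_sum_smul] at h
    rw [show (∑ i, (m.map (Ideal.Quotient.mk (Ideal.span {w}))) i j •
        Ideal.Quotient.mk ((Ideal.span {w}).map (algebraMap P B)) (x i)) =
        ∑ i, Ideal.Quotient.mk (Ideal.span {w}) (m i j) •
          Ideal.Quotient.mk ((Ideal.span {w}).map (algebraMap P B)) (x i) from rfl, ← h]
    change Ideal.Quotient.mk (Ideal.span {w}) g •
      (Ideal.Quotient.mk ((Ideal.span {w}).map (algebraMap P B)) β *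
        Ideal.Quotient.mk ((Ideal.span {w}).map (algebraMap P B)) (x j)) = _
    rw [← map_mul, Ideal.Quotient.mk_smul_mk_quotient_map_quotient, Algebra.smul_def]
  have hΛ := smul_trace_eq_trace_of_quasiBasis (A := P ⧸ Ideal.span {w})
    (M := B ⧸ (Ideal.span {w}).map (algebraMap P B))
    (Algebra.lmul _ _ (Ideal.Quotient.mk _ β))
    (fun j => Ideal.Quotient.mk _ (x j))
    (linearIndependent_mk_of_quasiBasis hw x hli g hg hspan)
    (Ideal.Quotient.mk _ g)
    (smul_mem_span_mk_of_quasiBasis w x g hspan)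
    (m.map (Ideal.Quotient.mk _)) hmΛ
  have hg0 : Ideal.Quotient.mk (Ideal.span {w}) g ≠ 0 := by
    rw [Ne, Ideal.Quotient.eq_zero_iff_mem, Ideal.mem_span_singleton]; exact hg
  apply mul_left_cancel₀ hg0
  rw [Algebra.trace_apply, hΛ, ← map_mul, hP]
  simp [Matrix.trace, map_sum]

/-- **A3.** `DiscrRedStatement` (exact frozen shape of `B12/Spec2.lean`). -/
theorem discrRed : DiscrRedStatement.{u, v} := by
  intro P _ _ _ B _ _ _ _ _ _ w hw 𝔪 _ hw𝔪 n x hx n' bb
  classical
  obtain ⟨hli, g, hg𝔪, hspan⟩ := hx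
  have hgw : ¬ w ∣ g := fun h => hg𝔪 (Ideal.mem_of_dvd 𝔪 h hw𝔪)
  have hIp : (Ideal.span {w}).IsPrime := (Ideal.span_singleton_prime hw.ne_zero).mpr hw
  have hfree : Module.Free (P ⧸ Ideal.span {w}) (B ⧸ (Ideal.span {w}).map (algebraMap P B)) :=
    Module.Free.of_basis bb
  have hfin : Module.Finite (P ⧸ Ideal.span {w}) (B ⧸ (Ideal.span {w}).map (algebraMap P B)) :=
    Module.Finite.of_basis bb
  have hliΛ := linearIndependent_mk_of_quasiBasis hw x hli g hgw hspan
  have hspanΛ := smul_mem_span_mk_of_quasiBasis w x g hspan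
  have hg0 : Ideal.Quotient.mk (Ideal.span {w}) g ≠ 0 := by
    rw [Ne, Ideal.Quotient.eq_zero_iff_mem, Ideal.mem_span_singleton]; exact hgw
  -- ranks
  have hrank : Module.finrank (P ⧸ Ideal.span {w})
      (B ⧸ (Ideal.span {w}).map (algebraMap P B)) = n' := by
    rw [Module.finrank_eq_card_basis bb, Fintype.card_fin]
  have hn : n' = n := by
    apply le_antisymm
    · -- `B/wB` embeds into `span x̄` by multiplication by `ḡ`
      set E := Submodule.span (P ⧸ Ideal.span {w})
        (Set.range fun j => Ideal.Quotient.mk ((Ideal.span {w}).map (algebraMap P B)) (x j))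
      let bE : Module.Basis (Fin n) (P ⧸ Ideal.span {w}) E := Module.Basis.span hliΛ
      have : Module.Free (P ⧸ Ideal.span {w}) E := Module.Free.of_basis bE
      have : Module.Finite (P ⧸ Ideal.span {w}) E := Module.Finite.of_basis bE
      let φ : (B ⧸ (Ideal.span {w}).map (algebraMap P B)) →ₗ[P ⧸ Ideal.span {w}] E :=
        { toFun := fun y => ⟨Ideal.Quotient.mk (Ideal.span {w}) g • y, hspanΛ y⟩
          map_add' := fun y z => Subtype.ext (by simp [smul_add])
          map_smul' := fun r y => Subtype.ext (by simp [smul_comm (Ideal.Quotient.mk _ g) r]) }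
      have hφ : Function.Injective φ := by
        intro y z hyz
        have h1 : Ideal.Quotient.mk (Ideal.span {w}) g • y =
            Ideal.Quotient.mk (Ideal.span {w}) g • z := congrArg Subtype.val hyz
        have h2 : Ideal.Quotient.mk (Ideal.span {w}) g • (y - z) = 0 := by
          rw [smul_sub, h1, sub_self]
        exact sub_eq_zero.mp ((smul_eq_zero.mp h2).resolve_left hg0)
      have h1 := LinearMap.finrank_le_finrank_of_injective hφ
      rw [hrank, Module.finrank_eq_card_basis bE, Fintype.card_fin] at h1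
      exact h1
    · have h1 := hliΛ.fintype_card_le_finrank
      rw [Fintype.card_fin, hrank] at h1
      exact h1
  subst hn
  refine ⟨rfl, ?_⟩
  -- the matrices
  let Pm : Matrix (Fin n') (Fin n') (P ⧸ Ideal.span {w}) :=
    Matrix.of fun i j => bb.repr (Ideal.Quotient.mk _ (x i)) j
  have hex : ∀ i, ∃ c : Fin n' → (P ⧸ Ideal.span {w}),
      ∑ j, c j • Ideal.Quotient.mk ((Ideal.span {w}).map (algebraMap P B)) (x j) =
        Ideal.Quotient.mk (Ideal.span {w}) g • bb i := fun i =>
    (Submodule.mem_span_range_iff_exists_fun _).mp (hspanΛ (bb i))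
  choose V hV using hex
  let Vm : Matrix (Fin n') (Fin n') (P ⧸ Ideal.span {w}) := Matrix.of V
  have hVP : Vm * Pm = Ideal.Quotient.mk (Ideal.span {w}) g • (1 : Matrix _ _ _) := by
    ext i k
    have h := congrArg (fun y => bb.repr y k) (hV i)
    simp only [map_sum, map_smul, Finsupp.coe_finsetSum, Finsupp.coe_smul, Finset.sum_apply,
      Pi.smul_apply, smul_eq_mul, Module.Basis.repr_self, Finsupp.single_apply] at h
    rw [Matrix.mul_apply, Matrix.smul_apply, Matrix.one_apply]
    simp only [Vm, Pm, Matrix.of_apply, smul_eq_mul]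
    rw [h]
  have hdet : Vm.det * Pm.det = Ideal.Quotient.mk (Ideal.span {w}) g ^ n' := by
    rw [← Matrix.det_mul, hVP, Matrix.det_smul, Matrix.det_one, mul_one, Fintype.card_fin]
  obtain ⟨u, hu⟩ := Ideal.Quotient.mk_surjective Pm.det
  obtain ⟨v, hv⟩ := Ideal.Quotient.mk_surjective Vm.det
  refine ⟨u, ?_, ?_⟩
  · intro hu𝔪
    have h1 : Ideal.Quotient.mk (Ideal.span {w}) (v * u - g ^ n') = 0 := by
      rw [map_sub, map_mul, map_pow, hu, hv, hdet, sub_self]
    rw [Ideal.Quotient.eq_zero_iff_mem, Ideal.mem_span_singleton] at h1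
    have h2 : v * u - g ^ n' ∈ 𝔪 := Ideal.mem_of_dvd 𝔪 h1 hw𝔪
    have h3 : g ^ n' ∈ 𝔪 := by
      have := 𝔪.sub_mem (𝔪.mul_mem_left v hu𝔪) h2
      simpa using this
    exact hg𝔪 (Ideal.IsPrime.mem_of_pow_mem inferInstance n' h3)
  · -- discriminants
    have hxb : (fun i => Ideal.Quotient.mk ((Ideal.span {w}).map (algebraMap P B)) (x i)) =
        (Pm.map (algebraMap (P ⧸ Ideal.span {w})
          (B ⧸ (Ideal.span {w}).map (algebraMap P B)))).mulVec bb := by
      funext i
      simp only [Matrix.mulVec, dotProduct, Matrix.map_apply, Pm, Matrix.of_apply]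
      conv_lhs => rw [← bb.sum_repr (Ideal.Quotient.mk _ (x i))]
      refine Finset.sum_congr rfl fun j _ => ?_
      rw [Algebra.smul_def]
    have hdisc : Algebra.discr (P ⧸ Ideal.span {w})
        (fun i => Ideal.Quotient.mk ((Ideal.span {w}).map (algebraMap P B)) (x i)) =
        Pm.det ^ 2 * Algebra.discr (P ⧸ Ideal.span {w}) bb := by
      rw [hxb, Algebra.discr_of_matrix_mulVec]
    rw [hu, ← hdisc, Algebra.discr_def, intDiscr, RingHom.map_det]
    congr 1
    ext i j
    simp only [RingHom.mapMatrix_apply, Matrix.map_apply, Matrix.of_apply,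
      Algebra.traceMatrix_apply, Algebra.traceForm_apply]
    rw [mk_intTrace_eq_trace hw x hli g hgw hspan, map_mul]

end Main

end Fermat.Agent.S18.B12.H393

end
end
-- ===== PACK-END S18/B12/H393/DiscrRed.lean

-- ===== PACK-BEGIN S18/B12/H203/PolyInst.lean
section



/-!
# S18 / b2.5, piece A1: instantiation `P = R[X]` (`PolyInstStatement`)

`R` a discrete valuation ring of characteristic zero, `w` a uniformizer.
-/

set_option autoImplicit false
set_option linter.unusedSectionVars false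

noncomputable section

namespace Fermat.Agent.S18.B12.H203

open Polynomial

universe u

section

variable {R : Type u} [CommRing R] [IsDomain R] [IsDiscreteValuationRing R]

/-- The ideal generated by a uniformizer of a DVR is maximal. -/
theorem span_irreducible_isMaximal {w : R} (hw : Irreducible w) :
    (Ideal.span {w}).IsMaximal := by
  rw [← (IsDiscreteValuationRing.irreducible_iff_uniformizer w).mp hw]
  infer_instance

/-- Every nonzero element of a DVR becomes a unit after inverting a uniformizer. -/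
theorem isUnit_algebraMap_away_of_ne_zero {w : R} (hw : Irreducible w) {r : R} (hr : r ≠ 0)
    (S : Type*) [CommRing S] [Algebra R S] [IsLocalization.Away w S] :
    IsUnit (algebraMap R S r) := by
  obtain ⟨n, hn⟩ := IsDiscreteValuationRing.associated_pow_irreducible hr hw
  rw [IsLocalization.Away.algebraMap_isUnit_iff w]
  exact ⟨n, hn.dvd⟩

/-- The localization of a DVR away from a uniformizer is a field. -/
theorem isField_localization_away {w : R} (hw : Irreducible w) :
    IsField (Localization.Away w) := by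
  have hle : Submonoid.powers w ≤ nonZeroDivisors R :=
    Submonoid.powers_le.mpr (mem_nonZeroDivisors_of_ne_zero hw.ne_zero)
  have hdom : IsDomain (Localization.Away w) :=
    IsLocalization.isDomain_localization hle
  refine ⟨exists_pair_ne _, mul_comm, ?_⟩
  intro a ha
  obtain ⟨⟨r, s⟩, hrs⟩ := IsLocalization.surj (Submonoid.powers w) a
  simp only at hrs
  have hr : r ≠ 0 := by
    rintro rfl
    rw [_root_.map_zero] at hrs
    have hs : IsUnit (algebraMap R (Localization.Away w) s) :=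
      IsLocalization.map_units _ s
    exact ha ((hs.mul_left_eq_zero).mp hrs)
  have hru : IsUnit (algebraMap R (Localization.Away w) r) :=
    isUnit_algebraMap_away_of_ne_zero hw hr _
  have hau : IsUnit a := by
    have : IsUnit (a * algebraMap R (Localization.Away w) s) := hrs ▸ hru
    exact isUnit_of_mul_isUnit_left this
  obtain ⟨b, hb⟩ := hau.exists_right_inv
  exact ⟨b, hb⟩

/-- `R[X][1/C w]` is a principal ideal ring. -/
theorem isPrincipalIdealRing_away_C {w : R} (hw : Irreducible w) :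
    IsPrincipalIdealRing (Localization.Away (C w : R[X])) := by
  let _ : Field (Localization.Away w) := (isField_localization_away hw).toField
  let _ : Algebra R[X] (Localization.Away w)[X] :=
    (mapRingHom (algebraMap R (Localization.Away w))).toAlgebra
  have hloc : IsLocalization (Submonoid.powers (C w : R[X])) (Localization.Away w)[X] := by
    have := Polynomial.isLocalization (Submonoid.powers w) (Localization.Away w)
    rwa [Submonoid.map_powers] at this
  let e : (Localization.Away w)[X] ≃ₐ[R[X]] Localization.Away (C w : R[X]) :=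
    IsLocalization.algEquiv (Submonoid.powers (C w : R[X])) _ _
  exact IsPrincipalIdealRing.of_surjective e.toRingEquiv.toRingHom e.surjective

/-- Positive integers are invertible in `R[X][1/C w]` when `R` has characteristic zero. -/
theorem isUnit_natCast_away_C [CharZero R] {w : R} (hw : Irreducible w) (m : ℕ) (hm : m ≠ 0) :
    IsUnit (algebraMap R[X] (Localization.Away (C w : R[X])) (m : R[X])) := by
  have hm' : (m : R) ≠ 0 := Nat.cast_ne_zero.mpr hm
  obtain ⟨n, hn⟩ := IsDiscreteValuationRing.associated_pow_irreducible hm' hw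
  rw [IsLocalization.Away.algebraMap_isUnit_iff (C w : R[X])]
  refine ⟨n, ?_⟩
  obtain ⟨d, hd⟩ := hn.dvd
  refine ⟨C d, ?_⟩
  rw [← C_pow, hd, C_mul, C_eq_natCast]

/-- The evaluation-at-`c`-mod-`w` map `R[X] → R/(w)`. -/
def evalModHom (w c : R) : R[X] →+* R ⧸ Ideal.span {w} :=
  (Ideal.Quotient.mk (Ideal.span {w})).comp (evalRingHom c)

theorem evalModHom_apply (w c : R) (f : R[X]) :
    evalModHom w c f = Ideal.Quotient.mk (Ideal.span {w}) (f.eval c) := rfl

theorem evalModHom_surjective (w c : R) : Function.Surjective (evalModHom w c) := by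
  intro y
  obtain ⟨r, rfl⟩ := Ideal.Quotient.mk_surjective y
  exact ⟨C r, by simp [evalModHom_apply]⟩

theorem ker_evalModHom (w c : R) :
    RingHom.ker (evalModHom w c) = Ideal.span {(C w : R[X]), X - C c} := by
  apply le_antisymm
  · intro f hf
    rw [RingHom.mem_ker, evalModHom_apply, Ideal.Quotient.eq_zero_iff_mem,
      Ideal.mem_span_singleton] at hf
    obtain ⟨r, hr⟩ := hf
    obtain ⟨q, hq⟩ := (X_sub_C_dvd_sub_C_eval (a := c) (p := f))
    have hfe : f = C w * C r + (X - C c) * q := by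
      rw [← hq, ← C_mul, ← hr]
      ring
    rw [hfe]
    refine Ideal.add_mem _ (Ideal.mul_mem_right _ _ (Ideal.subset_span (by simp)))
      (Ideal.mul_mem_right _ _ (Ideal.subset_span (by simp)))
  · rw [Ideal.span_le]
    intro f hf
    rcases hf with rfl | hf
    · simp [evalModHom_apply]
    · rw [Set.mem_singleton_iff] at hf
      subst hf
      simp [evalModHom_apply]

end

/-- **A1 (instantiation `P = R[X]`).** -/
theorem polyInst.{w} : PolyInstStatement.{w} := by
  intro R _ _ _ _ w hw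
  have hmax : (Ideal.span {w}).IsMaximal := span_irreducible_isMaximal hw
  have hwp : Prime w := hw.prime
  refine ⟨Polynomial.prime_C_iff.mpr hwp, ?_, isPrincipalIdealRing_away_C hw,
    isUnit_natCast_away_C hw, ?_⟩
  · -- `R[X]/(C w) ≃ (R/w)[X]`
    let _ : Field (R ⧸ Ideal.span {w}) := Ideal.Quotient.field _
    let e : (R ⧸ Ideal.span {w})[X] ≃+* R[X] ⧸ (Ideal.span {w}).map (C : R →+* R[X]) :=
      Ideal.polynomialQuotientEquivQuotientPolynomial (Ideal.span {w})
    have hmap : (Ideal.span {w}).map (C : R →+* R[X]) = Ideal.span {(C w : R[X])} := by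
      rw [Ideal.map_span, Set.image_singleton]
    let e' : R[X] ⧸ (Ideal.span {w}).map (C : R →+* R[X]) ≃+* R[X] ⧸ Ideal.span {(C w : R[X])} :=
      Ideal.quotEquivOfEq hmap
    exact IsPrincipalIdealRing.of_surjective (e.trans e').toRingHom (e.trans e').surjective
  · intro c
    refine ⟨Polynomial.prime_X_sub_C c, ?_, ?_, ?_, ?_⟩
    · intro hass
      have hdvd : (X - C c : R[X]) ∣ C w := hass.dvd
      rw [Polynomial.dvd_iff_isRoot, IsRoot.def, eval_C] at hdvd
      exact hw.ne_zero hdvd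
    · letI : Field (R ⧸ Ideal.span {w}) := Ideal.Quotient.field _
      rw [← ker_evalModHom]
      exact RingHom.ker_isMaximal_of_surjective _ (evalModHom_surjective w c)
    · let e : (R[X] ⧸ Ideal.span {(X - C c : R[X])}) ≃ₐ[R] R :=
        Polynomial.quotientSpanXSubCAlgEquiv c
      exact IsPrincipalIdealRing.of_surjective e.symm.toRingEquiv.toRingHom e.symm.surjective
    · intro c' hmem hunit
      rw [← ker_evalModHom, RingHom.mem_ker, evalModHom_apply, eval_sub, eval_X, eval_C,
        Ideal.Quotient.eq_zero_iff_mem] at hmem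
      exact hmax.ne_top (Ideal.eq_top_of_isUnit_mem _ hmem hunit)

end Fermat.Agent.S18.B12.H203

end
end
-- ===== PACK-END S18/B12/H203/PolyInst.lean

-- ===== PACK-BEGIN S18/H203/QuotFree.lean
section


/-!
# S18 / b1 (helper203): the special fibre `B / w B` is free over `S / w S`

`S` an integrally closed domain, `w ∈ S` prime, `F / Frac S` a field extension, `B` the integral
closure of `S` in `F`.  Put `S̄ := S ⧸ (w)` and `B̄ := B ⧸ (w) B` (Mathlib instance
`Ideal.Quotient.algebraQuotientMapQuotient : Algebra S̄ B̄`).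

* `isTorsionFree_quotient` : `B̄` is a torsion-free `S̄`-module.
* `finite_quotient`        : `B̄` is a finite `S̄`-module if `B` is a finite `S`-module.
* `free_quotient`          : `B̄` is a free `S̄`-module if moreover `S̄` is a PID
  (application: `S = R[x]`, `R` a DVR with uniformiser `w`, `S̄ = κ[x]`).
-/

set_option autoImplicit false

namespace Fermat.Agent.S18.H203

open Ideal

section

variable {S B : Type*} [CommRing S] [IsDomain S] [IsIntegrallyClosed S]
  [CommRing B] [Algebra S B]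

omit [IsDomain S] [IsIntegrallyClosed S] in
/-- `(w) B` is the principal ideal generated by the image of `w`. -/
theorem map_span_singleton_eq (w : S) :
    (Ideal.span {w}).map (algebraMap S B) = Ideal.span {algebraMap S B w} := by
  rw [Ideal.map_span, Set.image_singleton]

omit [IsDomain S] [IsIntegrallyClosed S] in
/-- membership in `(w) B` is divisibility by `w`. -/
theorem mem_map_span_singleton_iff (w : S) (b : B) :
    b ∈ (Ideal.span {w}).map (algebraMap S B) ↔ algebraMap S B w ∣ b := by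
  rw [map_span_singleton_eq, Ideal.mem_span_singleton]

/-- **b1, torsion-freeness of the special fibre.** -/
theorem isTorsionFree_quotient (K F : Type*) [Field K] [Algebra S K] [IsFractionRing S K]
    [Field F] [Algebra K F] [Algebra S F] [IsScalarTower S K F]
    [Algebra B F] [IsScalarTower S B F] [IsIntegralClosure B S F]
    {w : S} (hw : Prime w) :
    Module.IsTorsionFree (S ⧸ Ideal.span {w}) (B ⧸ (Ideal.span {w}).map (algebraMap S B)) := by
  have : (Ideal.span {w}).IsPrime := (Ideal.span_singleton_prime hw.ne_zero).mpr hw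
  refine ⟨fun r hr => ?_⟩
  obtain ⟨t, rfl⟩ := Ideal.Quotient.mk_surjective r
  have ht : ¬ w ∣ t := by
    intro hdvd
    have h0 : (Ideal.Quotient.mk (Ideal.span {w}) t) = 0 := by
      rw [Ideal.Quotient.eq_zero_iff_mem, Ideal.mem_span_singleton]
      exact hdvd
    exact hr.ne_zero h0
  intro x y hxy
  obtain ⟨x, rfl⟩ := Ideal.Quotient.mk_surjective x
  obtain ⟨y, rfl⟩ := Ideal.Quotient.mk_surjective y
  simp only [Ideal.Quotient.mk_smul_mk_quotient_map_quotient] at hxy
  rw [Ideal.Quotient.eq, ← mul_sub, mem_map_span_singleton_iff] at hxy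
  rw [Ideal.Quotient.eq, mem_map_span_singleton_iff]
  exact dvd_of_dvd_mul K F hw ht hxy

omit [IsDomain S] [IsIntegrallyClosed S] in
/-- The special fibre is a finite module. -/
theorem finite_quotient [Module.Finite S B] (I : Ideal S) :
    Module.Finite (S ⧸ I) (B ⧸ I.map (algebraMap S B)) := by
  have : Module.Finite S (B ⧸ I.map (algebraMap S B)) :=
    Module.Finite.of_surjective (Ideal.Quotient.mkₐ S (I.map (algebraMap S B))).toLinearMap
      (Ideal.Quotient.mkₐ_surjective S _)
  exact Module.Finite.of_restrictScalars_finite S (S ⧸ I) (B ⧸ I.map (algebraMap S B))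

/-- **b1, freeness of the special fibre.** -/
theorem free_quotient (K F : Type*) [Field K] [Algebra S K] [IsFractionRing S K]
    [Field F] [Algebra K F] [Algebra S F] [IsScalarTower S K F]
    [Algebra B F] [IsScalarTower S B F] [IsIntegralClosure B S F] [Module.Finite S B]
    {w : S} (hw : Prime w) [IsPrincipalIdealRing (S ⧸ Ideal.span {w})] :
    Module.Free (S ⧸ Ideal.span {w}) (B ⧸ (Ideal.span {w}).map (algebraMap S B)) := by
  have : (Ideal.span {w}).IsPrime := (Ideal.span_singleton_prime hw.ne_zero).mpr hw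
  have := isTorsionFree_quotient (B := B) K F hw
  have := finite_quotient (B := B) (Ideal.span {w})
  exact Module.free_of_finite_type_torsion_free'

end

end Fermat.Agent.S18.H203

end
-- ===== PACK-END S18/H203/QuotFree.lean

-- ===== PACK-BEGIN S59/H659/Core.lean
section




/-!
# S59, piece G3 (helper659): deformation conditions, the formal core

`GaloisRep.IsDeformationCondition 𝒪 𝒟` for a predicate `𝒟 = fun _A _ _ _ ρ => Q ρ` which does not
depend on the `𝒪`-algebra structure is reduced to four properties of `Q` (`IsCoreCond Q`):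

* invariance under equivalence and stability under base change along local homomorphisms
  (for all local rings);
* descent along jointly injective pairs of local homomorphisms of Artinian local rings, for
  representations given by matrices (`of_fibre`); this contains descent along injective
  homomorphisms;
* descent from the quotients `A ⧸ 𝔪ⁿ` of a complete Noetherian local ring, for representations
  given by matrices (`of_quotients`).

Closure of `IsCoreCond` and of `IsDeformationCondition` under conjunctions and families.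
-/

set_option autoImplicit false
set_option linter.unusedSectionVars false
set_option linter.style.haveILetI false

namespace Fermat.Agent.S59.H659

open Fermat.Agent.S53 IsLocalRing

/-- Predicates on adic Galois representations over all local rings. -/
abbrev AdicPred : Type 1 :=
  ∀ ⦃A : Type⦄ [CommRing A] [IsLocalRing A], GaloisRepAdic A → Prop

/-- The properties of a predicate on adic Galois representations making it a deformation
condition. -/
structure IsCoreCond (Q : AdicPred) : Prop where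
  of_isEquiv : ∀ ⦃A : Type⦄ [CommRing A] [IsLocalRing A] ⦃ρ ρ' : GaloisRepAdic A⦄,
    ρ.IsEquiv ρ' → Q ρ → Q ρ'
  baseChangeAlong : ∀ ⦃A B : Type⦄ [CommRing A] [IsLocalRing A] [CommRing B] [IsLocalRing B]
    (φ : A →+* B) (hφ : IsLocalHom φ) ⦃ρ : GaloisRepAdic A⦄, Q ρ → Q (ρ.baseChangeAlong φ hφ)
  of_fibre : ∀ ⦃P A B : Type⦄ [CommRing P] [IsLocalRing P] [CommRing A] [IsLocalRing A]
    [CommRing B] [IsLocalRing B] [IsArtinianRing P] [IsArtinianRing A] [IsArtinianRing B]
    (pA : P →+* A) (pB : P →+* B) (hpA : IsLocalHom pA) (hpB : IsLocalHom pB),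
    Function.Injective (fun x => (pA x, pB x)) →
    ∀ (r : GQ →* M2 P) (hr : MatCont r), Q (toAdic (mapRep pA r) (hr.map pA hpA)) →
      Q (toAdic (mapRep pB r) (hr.map pB hpB)) → Q (toAdic r hr)
  of_quotients : ∀ ⦃A : Type⦄ [CommRing A] [IsLocalRing A] [IsNoetherianRing A]
    [IsAdicComplete (maximalIdeal A) A] (r : GQ →* M2 A) (hr : MatCont r),
    (∀ n : ℕ, n ≠ 0 → ∀ (hloc : IsLocalRing (A ⧸ maximalIdeal A ^ n))
      (hq : IsLocalHom (Ideal.Quotient.mk (maximalIdeal A ^ n))),
      Q (@toAdic (A ⧸ maximalIdeal A ^ n) _ hloc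
        (mapRep (Ideal.Quotient.mk (maximalIdeal A ^ n)) r)
        (@MatCont.map A (A ⧸ maximalIdeal A ^ n) _ _ _ hloc r hr _ hq))) →
    Q (toAdic r hr)

/-- The push-forward of a representation with a matrix model has the push-forward model. -/
theorem baseChangeAlong_isEquiv_toAdic {A B : Type} [CommRing A] [IsLocalRing A] [CommRing B]
    [IsLocalRing B] (φ : A →+* B) (hφ : IsLocalHom φ) (ρ : GaloisRepAdic A)
    (r : GQ →* M2 A) (hr : MatCont r) (h : ρ.IsEquiv (toAdic r hr)) :
    (ρ.baseChangeAlong φ hφ).IsEquiv (toAdic (mapRep φ r) (hr.map φ hφ)) := by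
  obtain ⟨e⟩ := h
  obtain ⟨e'⟩ := baseChangeAlong_toAdic φ hφ r hr
  exact ⟨(e.baseChangeAlong φ hφ).trans e'⟩

theorem isEquiv_symm {A : Type} [CommRing A] [IsLocalRing A] {ρ ρ' : GaloisRepAdic A}
    (h : ρ.IsEquiv ρ') : ρ'.IsEquiv ρ := by
  obtain ⟨e⟩ := h
  exact ⟨e.symm⟩

section Main

variable (𝒪 : Type) [CommRing 𝒪] [IsLocalRing 𝒪]

/-- **Deformation conditions from core conditions.** -/
theorem IsCoreCond.isDeformationCondition [Finite (ResidueField 𝒪)] {Q : AdicPred}
    (hQ : IsCoreCond Q) :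
    GaloisRep.IsDeformationCondition 𝒪 (fun _A _ _ _ ρ => Q ρ) where
  of_isEquiv := by
    intro A _ _ _ _ ρ ρ' hρ h
    exact hQ.of_isEquiv hρ h
  baseChangeAlong := by
    intro A B _ _ _ _ _ _ _ _ φ hφ ρ h
    exact hQ.baseChangeAlong (φ : A →+* B) hφ h
  of_baseChangeAlong_injective := by
    intro A B _ _ _ _ _ _ hA hB φ hφ hinj ρ h
    haveI := hA.isArtinian
    haveI := hB.isArtinian
    obtain ⟨r, hr, he⟩ := exists_toAdic ρ
    have h1 : Q (toAdic (mapRep (φ : A →+* B) r) (hr.map _ hφ)) :=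
      hQ.of_isEquiv (baseChangeAlong_isEquiv_toAdic (φ : A →+* B) hφ ρ r hr he) h
    have hinj' : Function.Injective (fun x : A => ((φ : A →+* B) x, (φ : A →+* B) x)) :=
      fun x y hxy => hinj (congrArg Prod.fst hxy)
    exact hQ.of_isEquiv (isEquiv_symm he)
      (hQ.of_fibre (φ : A →+* B) (φ : A →+* B) hφ hφ hinj' r hr h1 h1)
  of_fibreProduct := by
    intro A B C' P _ _ _ _ _ _ _ _ _ _ _ _ hA hB _ hP f g pA pB hpA hpB _ hinj _ ρ h1 h2
    haveI := hA.isArtinian
    haveI := hB.isArtinian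
    haveI := hP.isArtinian
    obtain ⟨r, hr, he⟩ := exists_toAdic ρ
    exact hQ.of_isEquiv (isEquiv_symm he)
      (hQ.of_fibre (pA : P →+* A) (pB : P →+* B) hpA hpB hinj r hr
        (hQ.of_isEquiv (baseChangeAlong_isEquiv_toAdic (pA : P →+* A) hpA ρ r hr he) h1)
        (hQ.of_isEquiv (baseChangeAlong_isEquiv_toAdic (pB : P →+* B) hpB ρ r hr he) h2))
  iff_forall_surjective := by
    intro A _ _ _ _ _ hloc hsurj ρ
    constructor
    · intro h B _ _ _ _ q hq _
      exact hQ.baseChangeAlong (q : A →+* B) hq h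
    · intro h
      obtain ⟨r, hr, he⟩ := exists_toAdic ρ
      refine hQ.of_isEquiv (isEquiv_symm he) (hQ.of_quotients r hr fun n hn hlocQ hq => ?_)
      letI := hlocQ
      have hT : GaloisRep.IsArtinianTestAlgebra 𝒪 (A ⧸ maximalIdeal A ^ n) :=
        isArtinianTestAlgebra_quotient_of_pow_le hloc hsurj _ n le_rfl
      have h1 := h hT (Ideal.Quotient.mkₐ 𝒪 (maximalIdeal A ^ n)) hq
        (Ideal.Quotient.mkₐ_surjective 𝒪 _)
      exact hQ.of_isEquiv (baseChangeAlong_isEquiv_toAdic _ hq ρ r hr he) h1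

end Main

/-! ### Closure properties -/

theorem IsCoreCond.and {Q₁ Q₂ : AdicPred} (h₁ : IsCoreCond Q₁) (h₂ : IsCoreCond Q₂) :
    IsCoreCond (fun _A _ _ ρ => Q₁ ρ ∧ Q₂ ρ) where
  of_isEquiv := fun _ _ _ _ _ he h => ⟨h₁.of_isEquiv he h.1, h₂.of_isEquiv he h.2⟩
  baseChangeAlong := fun _ _ _ _ _ _ φ hφ _ h =>
    ⟨h₁.baseChangeAlong φ hφ h.1, h₂.baseChangeAlong φ hφ h.2⟩
  of_fibre := fun _ _ _ _ _ _ _ _ _ _ _ _ pA pB hpA hpB hinj r hr hA hB =>
    ⟨h₁.of_fibre pA pB hpA hpB hinj r hr hA.1 hB.1,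
      h₂.of_fibre pA pB hpA hpB hinj r hr hA.2 hB.2⟩
  of_quotients := fun _ _ _ _ _ r hr h =>
    ⟨h₁.of_quotients r hr fun n hn hloc hq => (h n hn hloc hq).1,
      h₂.of_quotients r hr fun n hn hloc hq => (h n hn hloc hq).2⟩

theorem IsCoreCond.forall {ι : Sort*} {Q : ι → AdicPred} (h : ∀ i, IsCoreCond (Q i)) :
    IsCoreCond (fun _A _ _ ρ => ∀ i, Q i ρ) where
  of_isEquiv := fun _ _ _ _ _ he hρ i => (h i).of_isEquiv he (hρ i)
  baseChangeAlong := fun _ _ _ _ _ _ φ hφ _ hρ i => (h i).baseChangeAlong φ hφ (hρ i)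
  of_fibre := fun _ _ _ _ _ _ _ _ _ _ _ _ pA pB hpA hpB hinj r hr hA hB i =>
    (h i).of_fibre pA pB hpA hpB hinj r hr (hA i) (hB i)
  of_quotients := fun _ _ _ _ _ r hr hρ i =>
    (h i).of_quotients r hr fun n hn hloc hq => hρ n hn hloc hq i

section Closure

variable (𝒪 : Type) [CommRing 𝒪] [IsLocalRing 𝒪]

/-- Deformation conditions are closed under conjunction. -/
theorem isDeformationCondition_and
    {𝒟₁ 𝒟₂ : ∀ ⦃A : Type⦄ [CommRing A] [IsLocalRing A] [Algebra 𝒪 A], GaloisRepAdic A → Prop}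
    (h₁ : GaloisRep.IsDeformationCondition 𝒪 𝒟₁) (h₂ : GaloisRep.IsDeformationCondition 𝒪 𝒟₂) :
    GaloisRep.IsDeformationCondition 𝒪 (fun _A _ _ _ ρ => 𝒟₁ ρ ∧ 𝒟₂ ρ) where
  of_isEquiv := fun _ _ _ _ hA _ _ he h => ⟨h₁.of_isEquiv hA he h.1, h₂.of_isEquiv hA he h.2⟩
  baseChangeAlong := fun _ _ _ _ _ _ _ _ hA hB φ hφ _ h =>
    ⟨h₁.baseChangeAlong hA hB φ hφ h.1, h₂.baseChangeAlong hA hB φ hφ h.2⟩
  of_baseChangeAlong_injective := fun _ _ _ _ _ _ _ _ hA hB φ hφ hinj _ h =>
    ⟨h₁.of_baseChangeAlong_injective hA hB φ hφ hinj h.1,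
      h₂.of_baseChangeAlong_injective hA hB φ hφ hinj h.2⟩
  of_fibreProduct := fun _ _ _ _ _ _ _ _ _ _ _ _ _ _ _ _ hA hB hC hP f g pA pB hpA hpB hfg hinj
      hsurj _ hρA hρB =>
    ⟨h₁.of_fibreProduct hA hB hC hP f g pA pB hpA hpB hfg hinj hsurj hρA.1 hρB.1,
      h₂.of_fibreProduct hA hB hC hP f g pA pB hpA hpB hfg hinj hsurj hρA.2 hρB.2⟩
  iff_forall_surjective := by
    intro A _ _ _ _ _ hloc hsurj ρ
    constructor
    · intro h B _ _ _ hB q hq hqs
      exact ⟨(h₁.iff_forall_surjective hloc hsurj ρ).mp h.1 hB q hq hqs,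
        (h₂.iff_forall_surjective hloc hsurj ρ).mp h.2 hB q hq hqs⟩
    · intro h
      exact ⟨(h₁.iff_forall_surjective hloc hsurj ρ).mpr fun B _ _ _ hB q hq hqs =>
          (h hB q hq hqs).1,
        (h₂.iff_forall_surjective hloc hsurj ρ).mpr fun B _ _ _ hB q hq hqs =>
          (h hB q hq hqs).2⟩

/-- Deformation conditions are closed under arbitrary intersections. -/
theorem isDeformationCondition_forall {ι : Sort*}
    {𝒟 : ι → ∀ ⦃A : Type⦄ [CommRing A] [IsLocalRing A] [Algebra 𝒪 A], GaloisRepAdic A → Prop}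
    (h : ∀ i, GaloisRep.IsDeformationCondition 𝒪 (𝒟 i)) :
    GaloisRep.IsDeformationCondition 𝒪 (fun _A _ _ _ ρ => ∀ i, 𝒟 i ρ) where
  of_isEquiv := fun _ _ _ _ hA _ _ he hρ i => (h i).of_isEquiv hA he (hρ i)
  baseChangeAlong := fun _ _ _ _ _ _ _ _ hA hB φ hφ _ hρ i =>
    (h i).baseChangeAlong hA hB φ hφ (hρ i)
  of_baseChangeAlong_injective := fun _ _ _ _ _ _ _ _ hA hB φ hφ hinj _ hρ i =>
    (h i).of_baseChangeAlong_injective hA hB φ hφ hinj (hρ i)
  of_fibreProduct := fun _ _ _ _ _ _ _ _ _ _ _ _ _ _ _ _ hA hB hC hP f g pA pB hpA hpB hfg hinj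
      hsurj _ hρA hρB i =>
    (h i).of_fibreProduct hA hB hC hP f g pA pB hpA hpB hfg hinj hsurj (hρA i) (hρB i)
  iff_forall_surjective := by
    intro A _ _ _ _ _ hloc hsurj ρ
    constructor
    · intro hρ B _ _ _ hB q hq hqs i
      exact ((h i).iff_forall_surjective hloc hsurj ρ).mp (hρ i) hB q hq hqs
    · intro hρ i
      exact ((h i).iff_forall_surjective hloc hsurj ρ).mpr fun B _ _ _ hB q hq hqs =>
        hρ hB q hq hqs i

end Closure

end Fermat.Agent.S59.H659

end
-- ===== PACK-END S59/H659/Core.lean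

-- ===== PACK-BEGIN S37/H217/Sat.lean
section



/-!
# Saturation (H4') from the degree equality (H1), abstract form

Setting of `NormRed.lean` (`G : RedCtx A π F Fk`, `t ∈ O`, `t̄` transcendental over `k`,
`[F : K(t)] = [F_k : k(t̄)] < ∞`).  Then every `f ∈ O` which is integral over `K[t]` is integral
over `A[t]` (`isIntegral_polyRing_of_isIntegral`): **the integral closure of `A[t]` in `F` is
`O ∩` (integral closure of `K[t]`)**.  No noetherian/discreteness hypothesis on `A`.

Also: `transcendental_of_rho` (`t` is transcendental over `K`), `coeff_mem_of_aeval_mem`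
(`O ∩ K[t] = A[t]`), `exists_residBasis` (the lifted residue basis).
-/

namespace Fermat.Agent.S37.H217

open IntermediateField Polynomial

open scoped IntermediateField.algebraAdjoinAdjoin

namespace RedCtx

variable {K k : Type*} [Field K] [Field k] {A : ValuationSubring K} {π : A →+* k}
  {F Fk : Type*} [Field F] [Field Fk] [Algebra K F] [Algebra k Fk] (G : RedCtx A π F Fk)

variable {t : F} (ht : t ∈ G.O) (htr : Transcendental k (G.ρ ⟨t, ht⟩))

include htr in
/-- `O ∩ K[t] = A[t]`: a polynomial over `K` whose value at `t` lies in `O` has coefficients in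
`A`. -/
theorem coeff_mem_of_aeval_mem (P : K[X]) (hP : aeval t P ∈ G.O) (i : ℕ) : P.coeff i ∈ A := by
  by_cases hP0 : P = 0
  · rw [hP0, coeff_zero]; exact A.zero_mem
  obtain ⟨c, P₁, hc, hPc, hP₁⟩ := exists_primitive π P hP0
  set R₁ : G.O := G.evalO ⟨t, ht⟩ P₁ with hR₁
  have hRu : (R₁ : F) ∉ G.O.nonunits := G.evalO_notMem_nonunits ht htr hP₁
  have hR0 : (R₁ : F) ≠ 0 := fun h => hRu (h ▸ G.O.nonunits.zero_mem)
  have hRinv : (R₁ : F)⁻¹ ∈ G.O := by
    rcases G.O.mem_or_inv_mem (R₁ : F) with h | h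
    · by_contra hn
      apply hRu
      rw [ValuationSubring.mem_nonunits_iff_or]
      exact Or.inr hn
    · exact h
  have hval : aeval t P = algebraMap K F c * (R₁ : F) := by
    rw [hR₁, G.coe_evalO, hPc, _root_.map_mul, aeval_C]
  have hcO : algebraMap K F c ∈ G.O := by
    have : algebraMap K F c = aeval t P * (R₁ : F)⁻¹ := by
      rw [hval]; field_simp
    rw [this]
    exact G.O.mul_mem _ _ hP hRinv
  have hcA : c ∈ A := G.mem_of_algebraMap_mem hcO
  rw [hPc, coeff_C_mul, coeff_map]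
  exact A.mul_mem _ _ hcA (P₁.coeff i).2

include htr in
/-- `t` is transcendental over `K`. -/
theorem transcendental_of_rho : Transcendental K t := by
  rw [transcendental_iff]
  intro P hP
  by_contra hP0
  obtain ⟨c, P₁, hc, hPc, hP₁⟩ := exists_primitive π P hP0
  have hRu := G.evalO_notMem_nonunits ht htr hP₁
  apply hRu
  rw [G.coe_evalO]
  have h1 : aeval t P = algebraMap K F c * aeval t (P₁.map (algebraMap A K)) := by
    conv_lhs => rw [hPc]
    rw [_root_.map_mul, aeval_C]
  rw [hP] at h1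
  have h2 : aeval t (P₁.map (algebraMap A K)) = 0 := by
    rcases mul_eq_zero.mp h1.symm with h | h
    · exact absurd ((_root_.map_eq_zero _).mp h) hc
    · exact h
  rw [h2]
  exact G.O.nonunits.zero_mem

include htr in
/-- The lifted residue basis. -/
theorem exists_residBasis [FiniteDimensional K⟮t⟯ F] [FiniteDimensional k⟮G.ρ ⟨t, ht⟩⟯ Fk]
    (hfr : Module.finrank K⟮t⟯ F = Module.finrank k⟮G.ρ ⟨t, ht⟩⟯ Fk) :
    ∃ b : Module.Basis (Fin (Module.finrank k⟮G.ρ ⟨t, ht⟩⟯ Fk)) K⟮t⟯ F,
      ResidIndep (G.V₀ t) G.O b ∧ ∀ i, b i ∈ G.O := by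
  classical
  set b₁ := Module.finBasis k⟮G.ρ ⟨t, ht⟩⟯ Fk with hb₁def
  choose e he using fun i => G.ρ_surj (b₁ i)
  have hR : ResidIndep (G.V₀ t) G.O (fun i => ((e i : G.O) : F)) := by
    intro c hc hsum
    set s : G.O := ∑ i, G.incl t ⟨c i, hc i⟩ * e i with hs
    have hsF : (s : F) = ∑ i, c i • ((e i : G.O) : F) := by
      rw [hs, ← ValuationSubring.subtype_apply, _root_.map_sum]
      refine Finset.sum_congr rfl fun i _ => ?_
      rw [_root_.map_mul, Algebra.smul_def]
      rfl
    have hρs : G.ρ s = 0 := by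
      rw [G.ρ_eq_zero_iff, hsF]
      exact hsum
    have hρs' : ∑ i, G.ρ₀ ht htr ⟨c i, hc i⟩ • b₁ i = 0 := by
      rw [← hρs, hs, _root_.map_sum]
      refine Finset.sum_congr rfl fun i _ => ?_
      rw [_root_.map_mul, he, Algebra.smul_def]
      rfl
    have hzero := Fintype.linearIndependent_iff.mp b₁.linearIndependent _ hρs'
    intro i
    have h1 : G.ρ (G.incl t ⟨c i, hc i⟩) = 0 := by
      have := congrArg (fun z : k⟮G.ρ ⟨t, ht⟩⟯ => (z : Fk)) (hzero i)
      simpa [coe_ρ₀] using this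
    rw [G.ρ_eq_zero_iff, coe_incl] at h1
    exact ((G.valExtends t).mem_nonunits_iff (c i)).mp h1
  have : Nonempty (Fin (Module.finrank k⟮G.ρ ⟨t, ht⟩⟯ Fk)) :=
    ⟨⟨0, Module.finrank_pos⟩⟩
  obtain ⟨b, hb⟩ := exists_basis_of_residIndep hR (by rw [Fintype.card_fin, hfr])
  have hbi : ∀ i, b i = ((e i : G.O) : F) := fun i => congrFun hb i
  refine ⟨b, by rw [hb]; exact hR, fun i => by rw [hbi]; exact (e i).2⟩

/-- `A[t] ⊆ F` (the subring generated by the image of `A` and `t`). -/
def polyRing (_G : RedCtx A π F Fk) (t : F) : Subring F :=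
  A.toSubring.map (algebraMap K F) ⊔ Subring.closure {t}

theorem aeval_mem_polyRing (t : F) (P : K[X]) (hP : ∀ i, P.coeff i ∈ A) :
    aeval t P ∈ G.polyRing t := by
  rw [aeval_eq_sum_range]
  refine Subring.sum_mem _ fun i _ => ?_
  rw [Algebra.smul_def]
  refine Subring.mul_mem _ ?_ ?_
  · exact (le_sup_left : _ ≤ G.polyRing t) (Subring.mem_map.mpr ⟨_, hP i, rfl⟩)
  · exact Subring.pow_mem _
      ((le_sup_right : _ ≤ G.polyRing t) (Subring.subset_closure rfl)) _

include htr in
/-- **Saturation (H4')**: an element of `O` integral over `K[t]` is integral over `A[t]`. -/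
theorem isIntegral_polyRing_of_isIntegral [FiniteDimensional K⟮t⟯ F]
    [FiniteDimensional k⟮G.ρ ⟨t, ht⟩⟯ Fk]
    (hfr : Module.finrank K⟮t⟯ F = Module.finrank k⟮G.ρ ⟨t, ht⟩⟯ Fk)
    {f : F} (hfO : f ∈ G.O) (hf : IsIntegral (Algebra.adjoin K {t}) f) :
    IsIntegral (G.polyRing t) f := by
  classical
  have httr : Transcendental K t := G.transcendental_of_rho ht htr
  obtain ⟨b, hbR, hbO⟩ := G.exists_residBasis ht htr hfr
  have : IsIntegrallyClosed (Algebra.adjoin K {t}) :=
    IsIntegrallyClosed.of_equiv (algEquivOfTranscendental K t httr).toRingEquiv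
  have hmin : minpoly K⟮t⟯ f = (minpoly (Algebra.adjoin K {t}) f).map
      (algebraMap (Algebra.adjoin K {t}) K⟮t⟯) :=
    minpoly.isIntegrallyClosed_eq_field_fractions' K⟮t⟯ hf
  set q := minpoly (Algebra.adjoin K {t}) f with hq
  -- the coefficients of `q` lie in `A[t]`
  have hcoeff : ∀ i, ((q.coeff i : Algebra.adjoin K {t}) : F) ∈ G.polyRing t := by
    intro i
    have h1 := minpoly_coeff_mem (G.valExtends t) b hbR hbO ⟨f, hfO⟩ i
    have h1' : (minpoly K⟮t⟯ f).coeff i ∈ G.V₀ t := h1
    rw [hmin, coeff_map] at h1'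
    have h2 : ((q.coeff i : Algebra.adjoin K {t}) : F) ∈ G.O := h1'
    have h3 : ((q.coeff i : Algebra.adjoin K {t}) : F) ∈ (aeval (R := K) t).range := by
      rw [← Algebra.adjoin_singleton_eq_range_aeval]
      exact (q.coeff i).2
    obtain ⟨P, hP⟩ := h3
    have hP' : aeval t P = ((q.coeff i : Algebra.adjoin K {t}) : F) := hP
    rw [← hP']
    rw [← hP'] at h2
    exact G.aeval_mem_polyRing t P (G.coeff_mem_of_aeval_mem ht htr P h2)
  -- lift `q` to a monic polynomial over `A[t]`
  set Q : F[X] := q.map (algebraMap (Algebra.adjoin K {t}) F) with hQ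
  have hQmon : Q.Monic := (minpoly.monic hf).map _
  have hl : Q ∈ Polynomial.lifts (algebraMap (G.polyRing t) F) := by
    rw [Polynomial.lifts_iff_coeff_lifts]
    intro i
    refine ⟨⟨_, hcoeff i⟩, ?_⟩
    rw [hQ, coeff_map]
    rfl
  obtain ⟨q', hq', -, hq'm⟩ := Polynomial.lifts_and_degree_eq_and_monic hl hQmon
  refine ⟨q', hq'm, ?_⟩
  have h4 : Polynomial.eval₂ (algebraMap (G.polyRing t) F) f q' = Polynomial.eval f Q := by
    rw [← hq', Polynomial.eval_map]
  rw [h4, hQ, Polynomial.eval_map]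
  exact minpoly.aeval (Algebra.adjoin K {t}) f

end RedCtx

end Fermat.Agent.S37.H217

end
-- ===== PACK-END S37/H217/Sat.lean

-- ===== PACK-BEGIN S37/Red/H759/PassageDatum.lean
section
/-
S37-RED, piece E4(c) "passage R_E → A" for (H3), in the language of helper40's `Red/Spec.lean`
(helper759).

* `lift_chart_of_levels` : for a reduction datum `G` on `(F_N, F_{N,k})` satisfying the `link`
  property of `Red.ModDatum`, (H3) at the level of all number fields `E ⊇ E₀`
  (`H759.LiftAtLevel`, `q`-expansion language) implies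
      `∀ c ∈ G.chartk s, ∃ b ∈ G.chart t, ∃ hb : b ∈ G.O, G.ρ ⟨b, hb⟩ = c`.
* `lift_fin_of_levels`, `lift_inf_of_levels` : the fields `lift_fin`, `lift_inf` of `G.Good`.
-/




set_option autoImplicit false
set_option synthInstance.maxHeartbeats 400000

noncomputable section

namespace Fermat.Agent.S37.Red.H759

open ModularCurve HahnSeries IsLocalRing IntermediateField

section Transfer

variable {R Ω : Type*} [CommRing R] [CommRing Ω]

/-- integrality is preserved by ring homomorphisms (subring form) -/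
theorem isIntegral_map_subring (φ : R →+* Ω) (B : Subring R) {c : R} (hc : IsIntegral B c) :
    IsIntegral (B.map φ) (φ c) := by
  rw [isIntegral_subring_iff] at hc ⊢
  obtain ⟨P, hP, hcoeff, hPc⟩ := hc
  refine ⟨P.map φ, hP.map φ, fun i => ?_, ?_⟩
  · rw [Polynomial.coeff_map]
    exact Subring.mem_map.mpr ⟨P.coeff i, hcoeff i, rfl⟩
  · rw [Polynomial.eval_map, Polynomial.eval₂_hom, hPc, _root_.map_zero]

/-- integrality is reflected by injective ring homomorphisms (subring form) -/
theorem isIntegral_of_map_subring (φ : R →+* Ω) (hφ : Function.Injective φ) (B : Subring R)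
    {c : R} (hc : IsIntegral (B.map φ) (φ c)) : IsIntegral B c := by
  classical
  rw [isIntegral_subring_iff] at hc ⊢
  obtain ⟨P, hP, hcoeff, hPc⟩ := hc
  have hex : ∀ i, ∃ r : R, r ∈ B ∧ φ r = P.coeff i := fun i => Subring.mem_map.mp (hcoeff i)
  choose g hgB hg using hex
  let Q : Polynomial R := Polynomial.X ^ P.natDegree +
    ∑ i ∈ Finset.range P.natDegree, Polynomial.C (g i) * Polynomial.X ^ i
  have hQmap : Q.map φ = P := by
    simp only [Q, Polynomial.map_add, Polynomial.map_pow, Polynomial.map_X,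
      Polynomial.map_sum, Polynomial.map_mul, Polynomial.map_C, hg]
    exact (hP.as_sum).symm
  have hQmonic : Q.Monic := by
    apply Polynomial.monic_X_pow_add
    refine lt_of_le_of_lt (Polynomial.degree_sum_le _ _) ?_
    rw [Finset.sup_lt_iff (WithBot.bot_lt_coe _)]
    intro i hi
    refine lt_of_le_of_lt (Polynomial.degree_C_mul_X_pow_le i (g i)) ?_
    exact_mod_cast Finset.mem_range.mp hi
  refine ⟨Q, hQmonic, fun i => ?_, ?_⟩
  · simp only [Q, Polynomial.coeff_add, Polynomial.coeff_X_pow, Polynomial.finsetSum_coeff,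
      Polynomial.coeff_C_mul]
    refine _root_.AddMemClass.add_mem ?_ (_root_.sum_mem fun j _ => ?_)
    · split_ifs
      · exact _root_.OneMemClass.one_mem _
      · exact _root_.ZeroMemClass.zero_mem _
    · split_ifs
      · simpa using hgB j
      · simp
  · apply hφ
    rw [_root_.map_zero, ← Polynomial.eval₂_hom, ← Polynomial.eval_map, hQmap, hPc]

end Transfer

section Datum

variable {N : ℕ} {A : ValuationSubring Qbar}
  (G : Datum A (residue A) (modularFunctionFieldBar N)
    (modularFunctionFieldFullC (ResidueField A) N))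

/-- the `link` property of `Red.ModDatum`, for a raw datum -/
def Link : Prop :=
  ∀ (y : LaurentSeries A) (hy : coeffMap A.subtype y ∈ modularFunctionFieldBar N)
    (hyk : coeffMap (residue A) y ∈ modularFunctionFieldFullC (ResidueField A) N),
    coeffMap (residue A) y ≠ 0 →
    ∃ h : (⟨coeffMap A.subtype y, hy⟩ : modularFunctionFieldBar N) ∈ G.O,
      G.ρ ⟨⟨coeffMap A.subtype y, hy⟩, h⟩ = ⟨coeffMap (residue A) y, hyk⟩

/-- `c ∈ G.chartk s` in `q`-expansion language -/
theorem isIntegral_coe_of_mem_chartk {s c : modularFunctionFieldFullC (ResidueField A) N}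
    (hc : c ∈ G.chartk s) :
    IsIntegral (Subring.closure
      (Set.range (algebraMap (ResidueField A) (LaurentSeries (ResidueField A))) ∪
        {(s : LaurentSeries (ResidueField A))})) (c : LaurentSeries (ResidueField A)) := by
  have h1 : IsIntegral (Algebra.adjoin (ResidueField A) {s}) c := hc
  rw [isIntegral_subalgebra_iff, Algebra.adjoin_eq_ring_closure] at h1
  have h2 := isIntegral_map_subring
    (algebraMap (modularFunctionFieldFullC (ResidueField A) N)
      (LaurentSeries (ResidueField A))) _ h1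
  refine isIntegral_subring_mono ?_ h2
  rw [Subring.map_le_iff_le_comap, Subring.closure_le]
  rintro x (⟨a, rfl⟩ | hx)
  · exact Subring.subset_closure (Or.inl ⟨a, rfl⟩)
  · rw [Set.mem_singleton_iff] at hx
    subst hx
    exact Subring.subset_closure (Or.inr rfl)

/-- `b ∈ G.chart t` from `q`-expansion language -/
theorem mem_chart_of_isIntegral_coe {t b : modularFunctionFieldBar N}
    (hb : IsIntegral (Subring.closure (constAll A ∪ {(t : LaurentSeries Qbar)}))
      (b : LaurentSeries Qbar)) : b ∈ G.chart t := by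
  show IsIntegral (G.polyRing t) b
  refine isIntegral_of_map_subring
    (algebraMap (modularFunctionFieldBar N) (LaurentSeries Qbar))
    (algebraMap (modularFunctionFieldBar N) (LaurentSeries Qbar)).injective _ ?_
  refine isIntegral_subring_mono ?_ hb
  rw [Subring.closure_le]
  rintro x (⟨a, rfl⟩ | hx)
  · refine Subring.mem_map.mpr ⟨algebraMap Qbar (modularFunctionFieldBar N) (a : Qbar), ?_, rfl⟩
    exact (le_sup_left : G.constRing ≤ G.polyRing t)
      (Subring.mem_map.mpr ⟨(a : Qbar), a.2, rfl⟩)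
  · rw [Set.mem_singleton_iff] at hx
    subst hx
    exact Subring.mem_map.mpr ⟨t, (le_sup_right : Subring.closure {t} ≤ G.polyRing t)
      (Subring.subset_closure rfl), rfl⟩

/-- **Passage `R_E → A` for (H3), datum form.** -/
theorem lift_chart_of_levels (hlink : Link G)
    (t : modularFunctionFieldBar N) (s : modularFunctionFieldFullC (ResidueField A) N)
    (E₀ : NumberFieldIn)
    (h : ∀ E : NumberFieldIn, E₀ ≤ E →
      LiftAtLevel A N E.1 (t : LaurentSeries Qbar) (s : LaurentSeries (ResidueField A))) :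
    ∀ c ∈ G.chartk s, ∃ b ∈ G.chart t, ∃ hb : b ∈ G.O, G.ρ ⟨b, hb⟩ = c := by
  intro c hc
  rcases eq_or_ne c 0 with rfl | hc0
  · exact ⟨0, _root_.ZeroMemClass.zero_mem _, _root_.ZeroMemClass.zero_mem _, _root_.map_zero G.ρ⟩
  obtain ⟨U, hU, hUint, hUc⟩ := lift_of_levels A N _ _ E₀ h c.2
    (isIntegral_coe_of_mem_chartk G hc)
  have hyk : coeffMap (residue A) U ∈ modularFunctionFieldFullC (ResidueField A) N := by
    rw [hUc]; exact c.2
  have hne : coeffMap (residue A) U ≠ 0 := by
    rw [hUc]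
    exact fun h0 => hc0 (Subtype.ext h0)
  obtain ⟨hO, hρ⟩ := hlink U hU hyk hne
  refine ⟨⟨coeffMap A.subtype U, hU⟩, mem_chart_of_isIntegral_coe G hUint, hO, ?_⟩
  rw [hρ]
  exact Subtype.ext hUc

/-- field `lift_fin` of `G.Good` from (H3) at all number-field levels -/
theorem lift_fin_of_levels (hlink : Link G) (E₀ : NumberFieldIn)
    (h : ∀ E : NumberFieldIn, E₀ ≤ E →
      LiftAtLevel A N E.1 (G.x : LaurentSeries Qbar) (G.xk : LaurentSeries (ResidueField A))) :
    ∀ c ∈ G.chartk G.xk, ∃ b ∈ G.chart G.x, ∃ hb : b ∈ G.O, G.ρ ⟨b, hb⟩ = c :=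
  lift_chart_of_levels G hlink G.x G.xk E₀ h

/-- field `lift_inf` of `G.Good` from (H3) at all number-field levels (chart at infinity) -/
theorem lift_inf_of_levels (hlink : Link G) (E₀ : NumberFieldIn)
    (h : ∀ E : NumberFieldIn, E₀ ≤ E →
      LiftAtLevel A N E.1 ((G.x : LaurentSeries Qbar))⁻¹
        ((G.xk : LaurentSeries (ResidueField A)))⁻¹) :
    ∀ c ∈ G.chartk G.xk⁻¹, ∃ b ∈ G.chart G.x⁻¹, ∃ hb : b ∈ G.O, G.ρ ⟨b, hb⟩ = c :=
  lift_chart_of_levels G hlink G.x⁻¹ G.xk⁻¹ E₀ (by simpa using h)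

end Datum

end Fermat.Agent.S37.Red.H759

end

end
-- ===== PACK-END S37/Red/H759/PassageDatum.lean

-- ===== PACK-BEGIN S37/H818/HeckeComm.lean
section
/-
S37 / LEVEL TRANSFER (helper818), part 3: a correspondence `a_* b^*` commutes with pullback
along a degeneracy map `i`, at the level of divisors and of `Pic0`.

      F  ==a,b==>  F₁
      |i           |i₁
      v            v
      G  ==a',b'=> G₁          i₁ ∘ a = a' ∘ i,   i₁ ∘ b = b' ∘ i.
-/




set_option autoImplicit false
set_option linter.style.haveILetI false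

noncomputable section

namespace Fermat.Agent.S37.H818

open AlgebraicCurve

variable {K F F₁ G G₁ : Type*} [Field K] [Field F] [Field F₁] [Field G] [Field G₁]
  [Algebra K F] [Algebra K F₁] [Algebra K G] [Algebra K G₁]

theorem pullbackAlong_congr [HasPrincipalDivisors K G] {φ φ' : F →ₐ[K] G} (h : φ = φ')
    (hφ : φ.toRingHom.IsIntegral) (hφ' : φ'.toRingHom.IsIntegral) (D : Divisor K F) :
    Divisor.pullbackAlong φ hφ D = Divisor.pullbackAlong φ' hφ' D := by
  subst h
  rfl

section

variable (a b : F →ₐ[K] F₁) (i : F →ₐ[K] G) (a' b' : G →ₐ[K] G₁) (i₁ : F₁ →ₐ[K] G₁)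
  (ha : a.toRingHom.IsIntegral) (hb : b.toRingHom.IsIntegral) (hi : i.toRingHom.IsIntegral)
  (ha' : a'.toRingHom.IsIntegral) (hb' : b'.toRingHom.IsIntegral)
  (hi₁ : i₁.toRingHom.IsIntegral)
  (hsqa : i₁.comp a = a'.comp i) (hsqb : i₁.comp b = b'.comp i)

variable [HasPrincipalDivisors K G] [HasPrincipalDivisors K G₁] [HasPrincipalDivisors K F₁]

include hsqa hsqb hi₁ in
/-- **Hecke/degeneracy commutation on divisors**:
`i^* (a_* b^* D) = a'_* b'^* (i^* D)`. -/
theorem pullbackAlong_correspondence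
    (hfin : FiniteAlong K a) (hN : NormFormulaAlong K a hfin)
    (hfin' : FiniteAlong K a') (hN' : NormFormulaAlong K a' hfin')
    (hnorm : NormCompat a i a' i₁) (hLG : HasLocalGenerators a ha) (D : Divisor K F) :
    Divisor.pullbackAlong i hi (Divisor.correspondence b a hb ha D) =
      Divisor.correspondence b' a' hb' ha' (Divisor.pullbackAlong i hi D) := by
  have h1 : (i₁.comp b).toRingHom.IsIntegral := RingHom.IsIntegral.trans _ _ hb hi₁
  have h2 : (b'.comp i).toRingHom.IsIntegral := RingHom.IsIntegral.trans _ _ hi hb'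
  rw [Divisor.correspondence_apply, Divisor.correspondence_apply,
    pullback_pushforward_eq a i a' i₁ ha hi ha' hi₁ hsqa hfin hN hfin' hN' hnorm hLG,
    ← pullbackAlong_comp b i₁ hb hi₁ h1, ← pullbackAlong_comp i b' hi hb' h2,
    pullbackAlong_congr hsqb h1 h2]

end

/-! ### Pullback on `Pic0` along a homomorphism -/

section PullbackHom

variable [HasPrincipalDivisors K G] (i : F →ₐ[K] G) (hi : i.toRingHom.IsIntegral)
  (hFI : FundamentalIdentityAlong K i hi)

/-- Pullback of degree-zero divisors along `i`. -/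
def pullbackDegZeroAlong :
    Divisor.degZero (K := K) (F := F) →+ Divisor.degZero (K := K) (F := G) :=
  ((Divisor.pullbackAlong i hi).domRestrict (Divisor.degZero (K := K) (F := F))).codRestrict _
    fun D => Divisor.pullbackAlong_mem_degZero i hi hFI D.2

@[simp]
theorem coe_pullbackDegZeroAlong (D : Divisor.degZero (K := K) (F := F)) :
    (pullbackDegZeroAlong i hi hFI D : Divisor K G) =
      Divisor.pullbackAlong i hi (D : Divisor K F) := rfl

/-- Pullback on `Pic0` along `i` (the map `π^*` of the level transfer). -/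
def pullbackPic0Along : Pic0 K F →+ Pic0 K G :=
  QuotientAddGroup.map _ _ (pullbackDegZeroAlong i hi hFI) (by
    rintro ⟨D, hD0⟩ hD
    simp only [AddSubgroup.mem_addSubgroupOf] at hD ⊢
    exact Divisor.isPrincipal_pullbackAlong i hi hD)

theorem pullbackPic0Along_mk (D : Divisor.degZero (K := K) (F := F)) :
    pullbackPic0Along i hi hFI (Pic0.mk D) = Pic0.mk (pullbackDegZeroAlong i hi hFI D) := rfl

end PullbackHom

section Pic0Comm

variable (a b : F →ₐ[K] F₁) (i : F →ₐ[K] G) (a' b' : G →ₐ[K] G₁) (i₁ : F₁ →ₐ[K] G₁)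
  (ha : a.toRingHom.IsIntegral) (hb : b.toRingHom.IsIntegral) (hi : i.toRingHom.IsIntegral)
  (ha' : a'.toRingHom.IsIntegral) (hb' : b'.toRingHom.IsIntegral)
  (hi₁ : i₁.toRingHom.IsIntegral)
  (hsqa : i₁.comp a = a'.comp i) (hsqb : i₁.comp b = b'.comp i)

variable [HasPrincipalDivisors K G] [HasPrincipalDivisors K G₁] [HasPrincipalDivisors K F₁]

include hsqa hsqb hi₁ in
/-- **Hecke/degeneracy commutation on `Pic0`**: `π^* ∘ T = T' ∘ π^*`, where
`T = a_* b^*` on `Pic0 F`, `T' = a'_* b'^*` on `Pic0 G` and `π^* = i^*`. -/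
theorem pullbackPic0Along_correspondence
    (hFIb : FundamentalIdentityAlong K b hb)
    (hfin : FiniteAlong K a) (hN : NormFormulaAlong K a hfin)
    (hFIb' : FundamentalIdentityAlong K b' hb')
    (hfin' : FiniteAlong K a') (hN' : NormFormulaAlong K a' hfin')
    (hFIi : FundamentalIdentityAlong K i hi)
    (hnorm : NormCompat a i a' i₁) (hLG : HasLocalGenerators a ha) (x : Pic0 K F) :
    pullbackPic0Along i hi hFIi (Pic0.correspondence b a hb ha hFIb hfin hN x) =
      Pic0.correspondence b' a' hb' ha' hFIb' hfin' hN' (pullbackPic0Along i hi hFIi x) := by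
  obtain ⟨D, rfl⟩ := Pic0.mk_surjective x
  rw [Pic0.correspondence_mk, pullbackPic0Along_mk, pullbackPic0Along_mk,
    Pic0.correspondence_mk]
  congr 1
  apply Subtype.ext
  simp only [coe_pullbackDegZeroAlong, Pic0.coe_degZeroCorrespondence]
  exact pullbackAlong_correspondence a b i a' b' i₁ ha hb hi ha' hb' hi₁ hsqa hsqb
    hfin hN hfin' hN' hnorm hLG D

end Pic0Comm

end Fermat.Agent.S37.H818

end

end
-- ===== PACK-END S37/H818/HeckeComm.lean

-- ===== PACK-BEGIN S37/H818/NormCompat.lean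
section
/-
S37 / LEVEL TRANSFER (helper818), part 5: norm compatibility for a square

      F  --a-->  F₁
      |i         |i₁
      v          v
      G  --a'->  G₁

with `[F₁ : F] = [G₁ : G]` and `G₁ = G · i₁(F₁)`:  `N_{G₁/G}(i₁ f) = i (N_{F₁/F} f)`.
-/




set_option autoImplicit false
set_option linter.style.haveILetI false

noncomputable section

namespace Fermat.Agent.S37.H818

open AlgebraicCurve

section Abstract

variable {F F₁ G G₁ : Type*} [Field F] [Field F₁] [Field G] [Field G₁]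
  [Algebra F F₁] [Algebra G G₁] (i : F →+* G) (i₁ : F₁ →+* G₁)
  (hsq : ∀ x : F, i₁ (algebraMap F F₁ x) = algebraMap G G₁ (i x))

include hsq in
theorem map_smul_square (c : F) (x : F₁) : i₁ (c • x) = i c • i₁ x := by
  rw [Algebra.smul_def, Algebra.smul_def, map_mul, hsq]

include hsq in
/-- The image of a basis spans a subspace closed under multiplication containing `i₁(F₁)`. -/
theorem span_image_basis_eq_top {n : ℕ} (e : Module.Basis (Fin n) F F₁)
    (hgen : Algebra.adjoin G (Set.range i₁) = ⊤) :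
    Submodule.span G (Set.range fun j => i₁ (e j)) = ⊤ := by
  set S : Submodule G G₁ := Submodule.span G (Set.range fun j => i₁ (e j)) with hS
  have hgenS : ∀ f : F₁, i₁ f ∈ S := by
    intro f
    have hf : f = ∑ j, e.repr f j • e j := (e.sum_repr f).symm
    rw [hf, map_sum]
    refine Submodule.sum_mem _ fun j _ => ?_
    rw [map_smul_square i i₁ hsq]
    exact Submodule.smul_mem _ _ (Submodule.subset_span ⟨j, rfl⟩)
  have hmul : ∀ x ∈ S, ∀ y ∈ S, x * y ∈ S := by
    intro x hx y hy
    induction hx using Submodule.span_induction with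
    | mem x hx =>
      obtain ⟨j, rfl⟩ := hx
      induction hy using Submodule.span_induction with
      | mem y hy =>
        obtain ⟨k, rfl⟩ := hy
        simp only
        rw [← map_mul]
        exact hgenS _
      | zero => rw [mul_zero]; exact S.zero_mem
      | add y z _ _ hy hz => rw [mul_add]; exact S.add_mem hy hz
      | smul c y _ hy => rw [mul_smul_comm]; exact S.smul_mem c hy
    | zero => rw [zero_mul]; exact S.zero_mem
    | add x z _ _ hx hz => rw [add_mul]; exact S.add_mem hx hz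
    | smul c x _ hx => rw [smul_mul_assoc]; exact S.smul_mem c hx
  rw [eq_top_iff]
  intro x _
  have hx : x ∈ Algebra.adjoin G (Set.range i₁) := by rw [hgen]; exact Algebra.mem_top
  induction hx using Algebra.adjoin_induction with
  | mem y hy =>
    obtain ⟨f, rfl⟩ := hy
    exact hgenS f
  | algebraMap g =>
    have h1 : (1 : G₁) ∈ S := by
      have := hgenS 1
      rwa [map_one] at this
    have : algebraMap G G₁ g = g • (1 : G₁) := by rw [Algebra.smul_def, mul_one]
    rw [this]
    exact S.smul_mem g h1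
  | add y z _ _ hy hz => exact S.add_mem (hy trivial) (hz trivial)
  | mul y z _ _ hy hz => exact hmul _ (hy trivial) _ (hz trivial)

include hsq in
/-- Norm compatibility, abstract form. -/
theorem norm_square [Module.Finite F F₁] [Module.Finite G G₁]
    (hdeg : Module.finrank G G₁ = Module.finrank F F₁)
    (hgen : Algebra.adjoin G (Set.range i₁) = ⊤) (f : F₁) :
    Algebra.norm G (i₁ f) = i (Algebra.norm F f) := by
  classical
  set n := Module.finrank F F₁ with hn
  let e : Module.Basis (Fin n) F F₁ := Module.finBasis F F₁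
  have hspan := span_image_basis_eq_top i i₁ hsq e hgen
  have hcard : Fintype.card (Fin n) = Module.finrank G G₁ := by
    rw [Fintype.card_fin, hdeg]
  let e' : Module.Basis (Fin n) G G₁ :=
    basisOfTopLeSpanOfCardEqFinrank (fun j => i₁ (e j)) hspan.ge hcard
  have he' : ∀ j, e' j = i₁ (e j) := fun j => by
    simp [e', coe_basisOfTopLeSpanOfCardEqFinrank]
  rw [Algebra.norm_eq_matrix_det e' (i₁ f), Algebra.norm_eq_matrix_det e f, RingHom.map_det]
  congr 1
  ext k j
  rw [RingHom.mapMatrix_apply, Matrix.map_apply, Algebra.leftMulMatrix_eq_repr_mul,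
    Algebra.leftMulMatrix_eq_repr_mul, he']
  have hprod : i₁ f * i₁ (e j) = ∑ k, i (e.repr (f * e j) k) • e' k := by
    rw [← map_mul]
    conv_lhs => rw [← e.sum_repr (f * e j)]
    rw [map_sum]
    refine Finset.sum_congr rfl fun k _ => ?_
    rw [map_smul_square i i₁ hsq, he']
  rw [hprod, e'.repr_sum_self]

end Abstract

section Along

variable {K F F₁ G G₁ : Type*} [Field K] [Field F] [Field F₁] [Field G] [Field G₁]
  [Algebra K F] [Algebra K F₁] [Algebra K G] [Algebra K G₁]

/-- `NormCompat` from equality of degrees and generation `G₁ = a'(G)[i₁(F₁)]`. -/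
theorem normCompat_of_finrank_eq (a : F →ₐ[K] F₁) (i : F →ₐ[K] G) (a' : G →ₐ[K] G₁)
    (i₁ : F₁ →ₐ[K] G₁) (hsq : i₁.comp a = a'.comp i)
    (hfin : FiniteAlong K a) (hfin' : FiniteAlong K a')
    (hdeg : finrankAlong K a' = finrankAlong K a)
    (hgen : (letI := algebraAlong a'; Algebra.adjoin G (Set.range i₁)) = ⊤) :
    NormCompat a i a' i₁ := by
  intro f
  letI := algebraAlong a
  letI := algebraAlong a'
  haveI : Module.Finite F F₁ := hfin
  haveI : Module.Finite G G₁ := hfin'
  refine norm_square (i : F →+* G) (i₁ : F₁ →+* G₁) (fun x => ?_) hdeg ?_ f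
  · exact congrArg (fun φ : F →ₐ[K] G₁ => φ x) hsq
  · exact hgen

end Along

end Fermat.Agent.S37.H818

end

end
-- ===== PACK-END S37/H818/NormCompat.lean

-- ===== PACK-BEGIN S28/H988/Gen.lean
section
/-
S28 / [L.UP] upper bound, helper988.
The generation step (zeta-free): for distinct `p ≠ r` with modular relations
`Φ_p`, `Φ_r` and `e ≠ 0`:  `j(q^{epr}) ∈ k(j(q^{er}), j(q^{ep}))`.
-/




set_option autoImplicit false

noncomputable section

open Polynomial ModularCurve

namespace Fermat.Agent.S28.H988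

/-! ### Total versions of `qExpand` and `j(q^e)` -/

section Basic

variable (k : Type*) [Field k]

/-- `q ↦ q^m`, total in `m` (identity for `m = 0`). -/
def Vm (m : ℕ) : LaurentSeries k →+* LaurentSeries k :=
  if h : m = 0 then RingHom.id _ else @qExpand k _ m ⟨h⟩

theorem Vm_eq (m : ℕ) [NeZero m] : Vm k m = qExpand k m := by
  unfold Vm
  rw [dif_neg (NeZero.ne m)]

theorem Vm_of_ne {m : ℕ} (hm : m ≠ 0) : Vm k m = @qExpand k _ m ⟨hm⟩ := by
  unfold Vm
  rw [dif_neg hm]

theorem Vm_one : Vm k 1 = RingHom.id _ := by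
  ext1 f
  rw [Vm_eq k 1]
  exact qExpand_one_apply f

theorem Vm_injective (m : ℕ) : Function.Injective (Vm k m) := by
  by_cases h : m = 0
  · subst h
    unfold Vm
    rw [dif_pos rfl]
    exact fun _ _ h => h
  · rw [Vm_of_ne k h]
    exact @qExpand_injective k _ m ⟨h⟩

theorem Vm_Vm {m n : ℕ} (hm : m ≠ 0) (hn : n ≠ 0) (f : LaurentSeries k) :
    Vm k m (Vm k n f) = Vm k (m * n) f := by
  have : NeZero m := ⟨hm⟩
  have : NeZero n := ⟨hn⟩
  have : NeZero (m * n) := ⟨Nat.mul_ne_zero hm hn⟩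
  rw [Vm_eq k m, Vm_eq k n, Vm_eq k (m * n)]
  exact qExpand_qExpand n m f

/-- `j(q^e)`, total in `e`. -/
def jd (e : ℕ) : LaurentSeries k := Vm k e (jqModC k)

theorem jd_eq (e : ℕ) [NeZero e] : jd k e = qExpand k e (jqModC k) := by
  unfold jd
  rw [Vm_eq]

theorem jd_one : jd k 1 = jqModC k := by
  unfold jd
  rw [Vm_one]
  rfl

theorem Vm_jd {m e : ℕ} (hm : m ≠ 0) (he : e ≠ 0) : Vm k m (jd k e) = jd k (m * e) := by
  unfold jd
  exact Vm_Vm k hm he _

theorem orderTop_Vm {m : ℕ} (hm : m ≠ 0) (f : LaurentSeries k) (a : ℤ)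
    (h : f.orderTop = (a : WithTop ℤ)) :
    (Vm k m f).orderTop = (((m : ℤ) * a : ℤ) : WithTop ℤ) := by
  have : NeZero m := ⟨hm⟩
  rw [Vm_eq k m]
  have hmpos : (0 : ℤ) < m := by exact_mod_cast Nat.pos_of_ne_zero hm
  apply HahnSeries.orderTop_eq_of_le
  · rw [HahnSeries.mem_support, qExpand_coeff_mul]
    exact HahnSeries.coeff_orderTop_ne h
  · intro g hg
    rw [HahnSeries.mem_support] at hg
    by_cases hdvd : (m : ℤ) ∣ g
    · obtain ⟨c, rfl⟩ := hdvd
      rw [qExpand_coeff_mul] at hg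
      have : (a : WithTop ℤ) ≤ c := by
        rw [← h]; exact HahnSeries.orderTop_le_of_coeff_ne_zero hg
      have hac : a ≤ c := by exact_mod_cast this
      exact mul_le_mul_of_nonneg_left hac hmpos.le
    · exact absurd (qExpand_coeff_of_not_dvd m f hdvd) hg

theorem orderTop_jq : (jqModC k).orderTop = ((-1 : ℤ) : WithTop ℤ) := by
  apply HahnSeries.orderTop_eq_of_le
  · rw [HahnSeries.mem_support, coeff_jqModC_neg_one]
    exact one_ne_zero
  · intro g hg
    rw [HahnSeries.mem_support] at hg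
    by_contra hlt
    exact hg (coeff_jqModC_of_lt k (not_le.mp hlt))

theorem orderTop_jd {e : ℕ} (he : e ≠ 0) :
    (jd k e).orderTop = ((-(e : ℤ) : ℤ) : WithTop ℤ) := by
  unfold jd
  rw [orderTop_Vm k he _ (-1) (orderTop_jq k)]
  congr 1
  ring

theorem jd_ne {e e' : ℕ} (he : e ≠ 0) (he' : e' ≠ 0) (h : e ≠ e') : jd k e ≠ jd k e' := by
  intro heq
  have h1 := orderTop_jd k he
  rw [heq, orderTop_jd k he'] at h1
  have : (-(e' : ℤ)) = -(e : ℤ) := by exact_mod_cast h1
  apply h
  have : (e' : ℤ) = e := by linarith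
  exact_mod_cast this.symm

/-- `Vm` scales orders of nonzero elements. -/
theorem exists_orderTop_Vm (m : ℕ) (hm : m ≠ 0) (c : LaurentSeries k) (hc : Vm k m c ≠ 0) :
    ∃ n : ℤ, (Vm k m c).orderTop = (((m : ℤ) * n : ℤ) : WithTop ℤ) := by
  have hc' : c ≠ 0 := by
    rintro rfl
    exact hc (_root_.map_zero _)
  obtain ⟨n, hn⟩ := exists_orderTop_eq c hc'
  exact ⟨n, orderTop_Vm k hm c n hn⟩

/-- `Vm` scales slopes. -/
theorem IsPure.map_Vm {G : Polynomial (LaurentSeries k)} {s : ℤ} (h : IsPure G s) {m : ℕ}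
    (hm : m ≠ 0) : IsPure (G.map (Vm k m)) ((m : ℤ) * s) := by
  have hdeg : (G.map (Vm k m)).natDegree = G.natDegree :=
    natDegree_map_eq_of_injective (Vm_injective k m) G
  have hmpos : (0 : ℤ) < m := by exact_mod_cast Nat.pos_of_ne_zero hm
  refine ⟨h.monic.map _, ?_, ?_⟩
  · intro i
    rw [coeff_map, hdeg]
    by_cases hc : G.coeff i = 0
    · rw [hc, _root_.map_zero, HahnSeries.orderTop_zero]; exact le_top
    · obtain ⟨n, hn⟩ := exists_orderTop_eq _ hc
      rw [orderTop_Vm k hm _ n hn]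
      have := h.le_coeff i
      rw [hn] at this
      have h1 : ((G.natDegree : ℤ) - i) * s ≤ n := by exact_mod_cast this
      have h2 : ((G.natDegree : ℤ) - i) * ((m : ℤ) * s) ≤ (m : ℤ) * n := by
        have := mul_le_mul_of_nonneg_left h1 hmpos.le
        linarith
      exact_mod_cast h2
  · rw [coeff_map, hdeg, orderTop_Vm k hm _ _ h.coeff_zero]
    congr 1
    ring

end Basic

/-! ### Specialising a two-variable integral polynomial -/

section PhiAt

variable {S T : Type*} [CommRing S] [CommRing T]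

/-- `Φ(X, y)` for `Φ ∈ ℤ[Y][X]`. -/
def PhiAt (Φ : Polynomial (Polynomial ℤ)) (y : S) : Polynomial S :=
  Φ.map (eval₂RingHom (Int.castRingHom S) y)

theorem PhiAt_map (Φ : Polynomial (Polynomial ℤ)) (y : S) (σ : S →+* T) :
    (PhiAt Φ y).map σ = PhiAt Φ (σ y) := by
  unfold PhiAt
  rw [Polynomial.map_map]
  congr 1
  apply Polynomial.ringHom_ext
  · intro a
    simp
  · simp

theorem PhiAt_monic {Φ : Polynomial (Polynomial ℤ)} (hΦ : Φ.Monic) (y : S) :
    (PhiAt Φ y).Monic := hΦ.map _

theorem PhiAt_natDegree [Nontrivial S] {Φ : Polynomial (Polynomial ℤ)} (hΦ : Φ.Monic) (y : S) :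
    (PhiAt Φ y).natDegree = Φ.natDegree := hΦ.natDegree_map _

end PhiAt

/-! ### Modular relations and the quotient polynomial -/

section Rel

variable (k : Type*) [Field k]

/-- The two modular relations of level `p` over the field `k`:
`Φ(j(q^p), j) = 0` and `Φ(j, j(q^p)) = 0`, for a monic `Φ ∈ ℤ[Y][X]` of degree `p + 1`. -/
structure PhiRel (p : ℕ) (Φ : Polynomial (Polynomial ℤ)) : Prop where
  monic : Φ.Monic
  natDegree_eq : Φ.natDegree = p + 1
  root_jp : (PhiAt Φ (jqModC k)).IsRoot (jd k p)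
  root_j : (PhiAt Φ (jd k p)).IsRoot (jqModC k)

variable {k} {p : ℕ} {Φ : Polynomial (Polynomial ℤ)}

theorem PhiRel.root1 (h : PhiRel k p Φ) (hp : p ≠ 0) {e : ℕ} (he : e ≠ 0) :
    (PhiAt Φ (jd k e)).IsRoot (jd k (e * p)) := by
  have := h.root_jp.map (f := Vm k e)
  rwa [PhiAt_map, Vm_jd k he hp] at this

theorem PhiRel.root2 (h : PhiRel k p Φ) (hp : p ≠ 0) {e : ℕ} (he : e ≠ 0) :
    (PhiAt Φ (jd k (e * p))).IsRoot (jd k e) := by
  have := h.root_j.map (f := Vm k e)
  rwa [PhiAt_map, Vm_jd k he hp] at this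

variable (k) in
/-- The quotient `Φ(X, j(q^e)) / (X - j(q^{ep}))`. -/
def quot (Φ : Polynomial (Polynomial ℤ)) (p e : ℕ) : Polynomial (LaurentSeries k) :=
  PhiAt Φ (jd k e) /ₘ (X - C (jd k (e * p)))

theorem quot_map_Vm (Φ : Polynomial (Polynomial ℤ)) (hp : p ≠ 0) {e m : ℕ} (he : e ≠ 0)
    (hm : m ≠ 0) : (quot k Φ p e).map (Vm k m) = quot k Φ p (m * e) := by
  unfold quot
  rw [map_divByMonic _ (monic_X_sub_C _), PhiAt_map, Polynomial.map_sub, map_X, map_C,
    Vm_jd k hm he, Vm_jd k hm (Nat.mul_ne_zero he hp), mul_assoc]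

theorem PhiRel.quot_spec (h : PhiRel k p Φ) (hp : p ≠ 0) {e : ℕ} (he : e ≠ 0) :
    (X - C (jd k (e * p))) * quot k Φ p e = PhiAt Φ (jd k e) :=
  mul_divByMonic_eq_iff_isRoot.mpr (h.root1 hp he)

theorem PhiRel.quot_monic (h : PhiRel k p Φ) (e : ℕ) : (quot k Φ p e).Monic := by
  unfold quot
  have hm : (PhiAt Φ (jd k e)).Monic := PhiAt_monic h.monic _
  have hd : (X - C (jd k (e * p)) : Polynomial (LaurentSeries k)).degree
      ≤ (PhiAt Φ (jd k e)).degree := by
    rw [degree_X_sub_C, degree_eq_natDegree hm.ne_zero, PhiAt_natDegree h.monic, h.natDegree_eq]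
    exact_mod_cast Nat.le_add_left 1 p
  rw [Monic, leadingCoeff_divByMonic_of_monic (monic_X_sub_C _) hd]
  exact hm

theorem PhiRel.quot_natDegree (h : PhiRel k p Φ) (e : ℕ) : (quot k Φ p e).natDegree = p := by
  unfold quot
  rw [natDegree_divByMonic _ (monic_X_sub_C _), natDegree_X_sub_C, PhiAt_natDegree h.monic,
    h.natDegree_eq]
  rfl

theorem PhiRel.isPure_quot_self (h : PhiRel k p Φ) (hp : 1 < p) : IsPure (quot k Φ p p) (-1) := by
  have hp0 : p ≠ 0 := by omega
  have hmap : quot k Φ p p = (quot k Φ p 1).map (Vm k p) := by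
    rw [quot_map_Vm Φ hp0 one_ne_zero hp0, mul_one]
  refine isPure_of_root p _ (h.quot_monic p) (h.quot_natDegree p) ?_ (jqModC k) (orderTop_jq k) ?_
  · intro i hi
    rw [hmap, coeff_map] at hi ⊢
    exact exists_orderTop_Vm k p hp0 _ hi
  · have h1 := h.root2 hp0 one_ne_zero
    rw [one_mul, jd_one] at h1
    have h2 := h.quot_spec hp0 hp0
    rw [IsRoot.def, ← h2, eval_mul, eval_sub, eval_X, eval_C] at h1
    rcases mul_eq_zero.mp h1 with h3 | h3
    · exfalso
      have h4 : jd k 1 = jd k (p * p) := by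
        rw [jd_one]; exact sub_eq_zero.mp h3
      refine jd_ne k one_ne_zero (Nat.mul_ne_zero hp0 hp0) ?_ h4
      intro h5
      have : 1 < p * p := by nlinarith
      omega
    · exact h3

theorem PhiRel.isPure_quot (h : PhiRel k p Φ) (hp : 1 < p) {m : ℕ} (hm : m ≠ 0) :
    IsPure (quot k Φ p (m * p)) (-(m : ℤ)) := by
  have hp0 : p ≠ 0 := by omega
  have := (h.isPure_quot_self hp).map_Vm k hm
  rw [quot_map_Vm Φ hp0 hp0 hm] at this
  have e : (m : ℤ) * (-1) = -(m : ℤ) := by ring
  rwa [e] at this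

/-- Coprimality of the two quotient polynomials (zeta-free, via Newton polygons). -/
theorem isCoprime_quot {r : ℕ} {Φr : Polynomial (Polynomial ℤ)}
    (hΦ : PhiRel k p Φ) (hΦr : PhiRel k r Φr) (hp : 1 < p) (hr : 1 < r) (hpr : p ≠ r)
    {e : ℕ} (he : e ≠ 0) :
    IsCoprime (quot k Φ p (e * r)) (quot k Φr r (e * p)) := by
  have hp0 : p ≠ 0 := by omega
  have hr0 : r ≠ 0 := by omega
  have hpr0 : p * r ≠ 0 := Nat.mul_ne_zero hp0 hr0
  rw [← isCoprime_map (Vm k (p * r))]
  rw [quot_map_Vm Φ hp0 (Nat.mul_ne_zero he hr0) hpr0,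
    quot_map_Vm Φr hr0 (Nat.mul_ne_zero he hp0) hpr0]
  have e1 : p * r * (e * r) = (e * r * r) * p := by ring
  have e2 : p * r * (e * p) = (e * p * p) * r := by ring
  rw [e1, e2]
  have hm1 : e * r * r ≠ 0 := Nat.mul_ne_zero (Nat.mul_ne_zero he hr0) hr0
  have hm2 : e * p * p ≠ 0 := Nat.mul_ne_zero (Nat.mul_ne_zero he hp0) hp0
  refine (hΦ.isPure_quot hp hm1).isCoprime (hΦr.isPure_quot hr hm2) ?_
  intro hcon
  have h1 : ((e * r * r : ℕ) : ℤ) = ((e * p * p : ℕ) : ℤ) := by linarith
  have h2 : e * r * r = e * p * p := by exact_mod_cast h1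
  have h3 : r * r = p * p := by
    have : e * (r * r) = e * (p * p) := by rw [← mul_assoc, ← mul_assoc]; exact h2
    exact Nat.eq_of_mul_eq_mul_left (Nat.pos_of_ne_zero he) this
  have h4 : r = p := by
    rcases lt_trichotomy r p with hlt | heq | hgt
    · exact absurd h3 (ne_of_lt (Nat.mul_lt_mul'' hlt hlt))
    · exact heq
    · exact absurd h3 (ne_of_gt (Nat.mul_lt_mul'' hgt hgt))
  exact hpr h4.symm

/-- **Generation step.** If an intermediate field contains `j(q^{er})` and `j(q^{ep})`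
(`p ≠ r`), then it contains `j(q^{epr})`. -/
theorem jd_mem_of_mem {r : ℕ} {Φr : Polynomial (Polynomial ℤ)}
    (hΦ : PhiRel k p Φ) (hΦr : PhiRel k r Φr) (hp : 1 < p) (hr : 1 < r) (hpr : p ≠ r)
    {e : ℕ} (he : e ≠ 0) (F : IntermediateField k (LaurentSeries k))
    (h1 : jd k (e * r) ∈ F) (h2 : jd k (e * p) ∈ F) : jd k (e * p * r) ∈ F := by
  have hp0 : p ≠ 0 := by omega
  have hr0 : r ≠ 0 := by omega
  have hcomm : e * r * p = e * p * r := Nat.mul_right_comm e r p
  set A : Polynomial F := PhiAt Φ (⟨jd k (e * r), h1⟩ : F) with hA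
  set B : Polynomial F := PhiAt Φr (⟨jd k (e * p), h2⟩ : F) with hB
  have hAmap : A.map (algebraMap F (LaurentSeries k)) = PhiAt Φ (jd k (e * r)) := by
    rw [hA, PhiAt_map]; rfl
  have hBmap : B.map (algebraMap F (LaurentSeries k)) = PhiAt Φr (jd k (e * p)) := by
    rw [hB, PhiAt_map]; rfl
  have hAne : A ≠ 0 := (PhiAt_monic hΦ.monic _).ne_zero
  have hrootA : (A.map (algebraMap F (LaurentSeries k))).IsRoot (jd k (e * p * r)) := by
    rw [hAmap, ← hcomm]
    exact hΦ.root1 hp0 (Nat.mul_ne_zero he hr0)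
  have hrootB : (B.map (algebraMap F (LaurentSeries k))).IsRoot (jd k (e * p * r)) := by
    rw [hBmap]
    exact hΦr.root1 hr0 (Nat.mul_ne_zero he hp0)
  have hcop : IsCoprime ((A.map (algebraMap F (LaurentSeries k))) /ₘ (X - C (jd k (e * p * r))))
      ((B.map (algebraMap F (LaurentSeries k))) /ₘ (X - C (jd k (e * p * r)))) := by
    have := isCoprime_quot hΦ hΦr hp hr hpr he
    unfold quot at this
    rw [hcomm] at this
    rwa [hAmap, hBmap]
  obtain ⟨y, hy⟩ := mem_range_of_common_root A B hAne _ hrootA hrootB hcop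
  rw [← hy]
  exact y.2

end Rel

end Fermat.Agent.S28.H988

end

end
-- ===== PACK-END S28/H988/Gen.lean

-- ===== PACK-BEGIN S19/Cont.lean
section



/-!
# Cell A3 (S19) — block CONT: the Galois action on the torsion of `J₀(N)` is additive with open
stabilisers.  Uses FINLEVEL of helper571 (S29 route, on main).
-/

set_option autoImplicit false

noncomputable section

namespace Fermat.Agent.S19

open ModularCurve

/-- **CONT** (proved). -/
theorem contStatement : ContStatement := by
  intro N _ ℓ hℓ k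
  refine ⟨fun m => ?_, fun σ τ m => ?_, torsAct_add N ℓ k, fun m => ?_⟩
  · exact Subtype.ext (one_smul GalQ (m : JZero N))
  · exact Subtype.ext (mul_smul σ τ (m : JZero N))
  · have hn : ((ℓ : ℤ) ^ k) ≠ 0 := pow_ne_zero _ (by exact_mod_cast hℓ.out.ne_zero)
    have hx : ((ℓ : ℤ) ^ k) • (m : JZero N) = 0 := by
      have := m.2
      rwa [Submodule.mem_torsionBy_iff] at this
    obtain ⟨L, hL, h⟩ := Fermat.Agent.S29.H571.exists_finiteLevel_of_zsmul_eq_zero
      (modularFunctionFieldFull N) (m : JZero N) hn hx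
    exact ⟨L, hL, fun σ hσ => Subtype.ext (h σ hσ)⟩

end Fermat.Agent.S19

end

end
-- ===== PACK-END S19/Cont.lean

-- ===== PACK-BEGIN A2/H129/KummerJZero.lean
section



/-!
# A2 / K1 for `JZero N`: the wall A2 from its Kummer form

`A2Kummer N m σ` is the Kummer-side statement for the arithmetic Galois action of `σ` on
`Q̄(X₀(N)) ⊂ Q̄((q))`; `unipotent_JZero_of_kummer` turns it into `(σ - 1)² = 0` on `J₀(N)[m]`.
-/

set_option autoImplicit false

namespace Fermat.Agent.A2.H129

open AlgebraicCurve ModularCurve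

/-- The Kummer form of wall A2 for one `σ`: for every `f ∈ Q̄(X₀(N))^×` whose divisor is divisible
by `m`, `(σ-1)² f` is a constant times an `m`-th power. -/
def A2Kummer (N m : ℕ) (σ : AlgebraicClosure ℚ ≃ₐ[ℚ] AlgebraicClosure ℚ) : Prop :=
  KummerTwice (K := AlgebraicClosure ℚ) (F := modularFunctionFieldBar N)
    (arithmeticGalois (modularFunctionFieldFull N) σ) m

theorem unipotent_JZero_of_kummer (N m : ℕ) (hm : m ≠ 0)
    (σ : AlgebraicClosure ℚ ≃ₐ[ℚ] AlgebraicClosure ℚ) (H : A2Kummer N m σ)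
    (x : JZero N) (hx : m • x = 0) :
    σ • (σ • x - x) = σ • x - x := by
  have h := unipotent_of_kummerTwice
    (arithmeticGalois (modularFunctionFieldFull N) σ) m hm H x hx
  exact h

end Fermat.Agent.A2.H129

end
-- ===== PACK-END A2/H129/KummerJZero.lean

-- ===== PACK-BEGIN A2/H708/GaussInfQbar.lean
section








/-!
# A2 (helper708): the Gauss valuation at `∞` over `ℚ̄`, and the K2 hypotheses for inertia

`A` a valuation subring of `ℚ̄` over a prime `ℓ` (non-discrete!), `F₀ ⊆ ℚ((t))` generated by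
integer series, `F = laurentBaseChange ℚ̄ F₀`.

* `attainsMax_Qbar` : `AttainsMax A F₀` (every element of `F` is defined over a number field `E`,
  and `A ∩ E` is a DVR; `S18/H602`).
* `gaussInfBar A F₀ hgen hℓ hA : ValuationSubring F`.
* for `σ ∈ A.inertiaSubgroupIn ℚ`, `τ = arithmeticRingAut F₀ σ` and `Kc` = the constants:
  `hasConstValues`, `inInertia`, `preservesConstValues`, `constants_stable`
  = EXACTLY the hypotheses of `H129.exists_const_twice_two` / `H129.oneAddNonunits_twice`;
  `oneAddNonunits_twice_gaussInfBar` : `(τ - 1)² f ∈ 1 + 𝔪_V` for every `f ≠ 0`.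
-/

set_option autoImplicit false

noncomputable section

namespace Fermat.Agent.A2.H708

open ModularCurve HahnSeries IntermediateField Fermat.Agent.S18.H602 Fermat.Agent.A2.H129

local notation "Q̄" => AlgebraicClosure ℚ

variable {A : ValuationSubring Q̄}
variable {ℓ : ℕ} (hℓ : ℓ ≠ 0) (hA : (ℓ : Q̄) ∈ A.nonunits)
variable (F₀ : IntermediateField ℚ (LaurentSeries ℚ))

include hℓ hA in
/-- **Discreteness over `ℚ̄`.** A nonzero element of `F = ℚ̄·F₀` with bounded denominators has a
coefficient of maximal valuation. -/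
theorem attainsMax_Qbar : AttainsMax A F₀ := by
  classical
  intro x hx hx0 hb
  obtain ⟨d, hd0, hd⟩ := hb
  have hQalg : Algebra.IsAlgebraic ℚ Q̄ := AlgebraicClosure.isAlgebraic ℚ
  have : FiniteDimensional ℚ ℚ⟮d⟯ := IntermediateField.adjoin.finiteDimensional
    (Algebra.IsAlgebraic.isAlgebraic d).isIntegral
  obtain ⟨E, hE, hdE, hxE, -⟩ := exists_finite_descent₂ (F₀ := F₀) ℚ⟮d⟯ hx hx
  obtain ⟨y, -, rfl⟩ := hxE
  have hdmem : d ∈ E := hdE (mem_adjoin_simple_self ℚ d)
  set dE : E := ⟨d, hdmem⟩ with hdE'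
  have hdE0 : dE ≠ 0 := fun h => hd0 (congrArg Subtype.val h)
  have := isDiscreteValuationRing_RE A E hℓ hA
  have hy0 : y ≠ 0 := by
    rintro rfl
    exact hx0 (_root_.map_zero _)
  have hcoeff : ∀ n, (coeffMap (algebraMap E Q̄) y).coeff n = algebraMap E Q̄ (y.coeff n) :=
    fun n => rfl
  have hb' : ∃ d' : E, d' ≠ 0 ∧ ∀ n, d' * y.coeff n ∈ _root_.Fermat.Agent.S18.H602.RE A E := by
    refine ⟨dE, hdE0, fun n => ?_⟩
    rw [mem_RE]
    have := hd n
    rw [hcoeff] at this
    simpa using this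
  obtain ⟨n₀, hn₀, hmax⟩ := exists_max_coeff_of_isNoetherianRing (_root_.Fermat.Agent.S18.H602.RE A E) hy0 hb'
  refine ⟨n₀, ?_, fun n => ?_⟩
  · rw [hcoeff]
    exact fun h => hn₀ ((map_eq_zero_iff _ (algebraMap E Q̄).injective).mp h)
  · -- compare the valuations of `R_E` and of `A`
    rw [hcoeff, hcoeff]
    by_cases h0 : y.coeff n = 0
    · rw [h0, _root_.map_zero, _root_.map_zero]; exact zero_le
    have h1 := hmax n
    have hv0 : (_root_.Fermat.Agent.S18.H602.RE A E).valuation (y.coeff n₀) ≠ 0 := (Valuation.ne_zero_iff _).mpr hn₀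
    have h2 : (_root_.Fermat.Agent.S18.H602.RE A E).valuation (y.coeff n / y.coeff n₀) ≤ 1 := by
      rw [map_div₀, div_le_one₀ (zero_lt_iff.mpr hv0)]
      exact h1
    have h3 : y.coeff n / y.coeff n₀ ∈ _root_.Fermat.Agent.S18.H602.RE A E := ((_root_.Fermat.Agent.S18.H602.RE A E).valuation_le_one_iff _).mp h2
    rw [mem_RE] at h3
    have h4 : A.valuation (algebraMap E Q̄ (y.coeff n / y.coeff n₀)) ≤ 1 :=
      (A.valuation_le_one_iff _).mpr h3
    rw [map_div₀, map_div₀] at h4
    have hv0' : A.valuation (algebraMap E Q̄ (y.coeff n₀)) ≠ 0 :=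
      (Valuation.ne_zero_iff _).mpr
        (fun h => hn₀ ((map_eq_zero_iff _ (algebraMap E Q̄).injective).mp h))
    rwa [div_le_one₀ (zero_lt_iff.mpr hv0')] at h4

variable (A) in
/-- **The Gauss valuation ring at `∞`** of `F = ℚ̄·F₀` for a valuation subring `A` of `ℚ̄` over a
prime. -/
def gaussInfBar (hgen : IntGen F₀) : ValuationSubring ↥(laurentBaseChange Q̄ F₀) :=
  gaussInf A F₀ hgen (attainsMax_Qbar hℓ hA F₀)

/-- the subfield of constants of `F`. -/
def constField : Subfield ↥(laurentBaseChange Q̄ F₀) :=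
  (algebraMap Q̄ ↥(laurentBaseChange Q̄ F₀)).fieldRange

variable {F₀}
variable (hgen : IntGen F₀)

/-- the value group of `V` is the value group of the constants. -/
theorem hasConstValues : HasConstValues (constField F₀) (gaussInfBar A hℓ hA F₀ hgen) := by
  intro f hf
  obtain ⟨c, hc, hu⟩ := exists_const_mul_unit hgen (attainsMax_Qbar hℓ hA F₀) hf
  refine ⟨algebraMap Q̄ _ c, ⟨c, rfl⟩, ?_, hu⟩
  rw [Ne, map_eq_zero_iff _ (algebraMap Q̄ ↥(laurentBaseChange Q̄ F₀)).injective]
  exact hc

/-- valuation of constants. -/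
theorem valuation_algebraMap_eq_one {c : Q̄} (hc : A.valuation c = 1) :
    (gaussInfBar A hℓ hA F₀ hgen).valuation (algebraMap Q̄ ↥(laurentBaseChange Q̄ F₀) c) = 1 := by
  have hc0 : c ≠ 0 := by
    rintro rfl
    simp at hc
  have h1 : algebraMap Q̄ ↥(laurentBaseChange Q̄ F₀) c ∈ gaussInfBar A hℓ hA F₀ hgen :=
    (algebraMap_mem_gaussInf_iff hgen _ c).mpr ((A.valuation_le_one_iff _).mp hc.le)
  have h2 : algebraMap Q̄ ↥(laurentBaseChange Q̄ F₀) c⁻¹ ∈ gaussInfBar A hℓ hA F₀ hgen :=
    (algebraMap_mem_gaussInf_iff hgen _ c⁻¹).mpr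
      ((A.valuation_le_one_iff _).mp (by rw [map_inv₀, hc, inv_one]))
  have h1' := ((gaussInfBar A hℓ hA F₀ hgen).valuation_le_one_iff _).mpr h1
  have h2' := ((gaussInfBar A hℓ hA F₀ hgen).valuation_le_one_iff _).mpr h2
  rw [map_inv₀, map_inv₀] at h2'
  have hv0 : (gaussInfBar A hℓ hA F₀ hgen).valuation
      (algebraMap Q̄ ↥(laurentBaseChange Q̄ F₀) c) ≠ 0 := by
    rw [Valuation.ne_zero_iff, Ne, map_eq_zero_iff _ (algebraMap Q̄ _).injective]
    exact hc0
  rw [inv_le_one₀ (zero_lt_iff.mpr hv0)] at h2'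
  exact le_antisymm h1' h2'

section inertia

variable {σ : Q̄ ≃ₐ[ℚ] Q̄} (hσ : σ ∈ A.inertiaSubgroupIn ℚ)

/-- the restriction of `σ` to `A`. -/
def resA (hσ : σ ∈ A.inertiaSubgroupIn ℚ) : A →+* A :=
  ((σ : Q̄ →+* Q̄).comp A.subtype).codRestrict A.toSubring
    (fun a => apply_mem_of_mem_decomposition A (mem_decomposition_of_mem_inertiaIn A hσ) a.2)

theorem coe_resA (a : A) : ((resA hσ a : A) : Q̄) = σ (a : Q̄) := rfl

theorem incl_coeffMap_resA (U : LaurentSeries A) :
    incl A (coeffMap (resA hσ) U) = coeffMap (σ : Q̄ →+* Q̄) (incl A U) := by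
  rw [incl, coeffMap_coeffMap, coeffMap_coeffMap]
  exact coeffMap_congr (RingHom.ext fun a => rfl) U

theorem red_coeffMap_resA (U : LaurentSeries A) :
    red A (coeffMap (resA hσ) U) = red A U := by
  rw [red, coeffMap_coeffMap]
  refine coeffMap_congr (RingHom.ext fun a => ?_) U
  rw [RingHom.comp_apply, ← sub_eq_zero, ← _root_.map_sub, IsLocalRing.residue_eq_zero_iff,
    ← ValuationSubring.coe_mem_nonunits_iff]
  exact sub_mem_nonunits_of_mem_inertiaIn A hσ a.2

include hσ in
/-- **`τ` acts trivially on the residue field of `V`.** -/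
theorem inInertia :
    InInertia (gaussInfBar A hℓ hA F₀ hgen) (arithmeticRingAut F₀ σ) := by
  intro u hu
  rw [ValuationSubring.valuation_le_one_iff] at hu
  obtain ⟨U₁, U₂, hp₂, hm₂, he⟩ := hu
  set τ := arithmeticRingAut F₀ σ with hτ
  set x : ↥(laurentBaseChange Q̄ F₀) := τ u - u with hx
  by_cases hx0 : x = 0
  · rw [hx0, _root_.map_zero]; exact zero_lt_one
  have hx0' : (x : LaurentSeries Q̄) ≠ 0 := fun h => hx0 (Subtype.ext h)
  -- the integral relation for `x`
  set U₁' := coeffMap (resA hσ) U₁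
  set U₂' := coeffMap (resA hσ) U₂
  have hτu : ((τ u : ↥(laurentBaseChange Q̄ F₀)) : LaurentSeries Q̄) * incl A U₂' = incl A U₁' := by
    rw [incl_coeffMap_resA, incl_coeffMap_resA, ← he, _root_.map_mul]
    rfl
  have hxW : (x : LaurentSeries Q̄) * incl A (U₂ * U₂') = incl A (U₁' * U₂ - U₁ * U₂') := by
    have : (x : LaurentSeries Q̄) = ((τ u : ↥(laurentBaseChange Q̄ F₀)) : LaurentSeries Q̄)
        - (u : LaurentSeries Q̄) := rfl
    rw [this, _root_.map_mul, _root_.map_sub, _root_.map_mul, _root_.map_mul, ← hτu, ← he]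
    ring
  have hW : red A (U₁' * U₂ - U₁ * U₂') = 0 := by
    rw [_root_.map_sub, _root_.map_mul, _root_.map_mul, red_coeffMap_resA, red_coeffMap_resA, mul_comm, sub_self]
  have hD : red A (U₂ * U₂') ≠ 0 := by
    rw [_root_.map_mul, red_coeffMap_resA]
    exact mul_ne_zero hp₂ hp₂
  obtain ⟨c, T₁, T₂, hc, hT₁, hT₂, hmT₁, hmT₂, heT⟩ :=
    exists_normal_form hgen (attainsMax_Qbar hℓ hA F₀) x.2 hx0'
  have key : cst c * incl A (T₁ * (U₂ * U₂')) = incl A ((U₁' * U₂ - U₁ * U₂') * T₂) := by
    rw [_root_.map_mul, ← mul_assoc, ← heT, _root_.map_mul (incl A) _ T₂, ← hxW]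
    ring
  have hc1 : A.valuation c < 1 := by
    refine valuation_lt_one_of_cst_mul_prim A ?_ ?_ key
    · rw [_root_.map_mul]
      exact mul_ne_zero hT₁ hD
    · rw [_root_.map_mul, hW, zero_mul]
  exact (valuation_lt_one_iff_of_normal_form hgen _ hc hT₁ hT₂ hmT₁ heT).mpr hc1

include hσ in
/-- **`τ` preserves the values of the constants.** -/
theorem preservesConstValues :
    PreservesConstValues (constField F₀) (gaussInfBar A hℓ hA F₀ hgen)
      (arithmeticRingAut F₀ σ) := by
  have : Algebra.IsAlgebraic ℚ Q̄ := AlgebraicClosure.isAlgebraic ℚ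
  rintro _ ⟨a, rfl⟩ ha0
  have ha : a ≠ 0 := by
    rintro rfl
    exact ha0 (_root_.map_zero _)
  have h1 : arithmeticRingAut F₀ σ (algebraMap Q̄ ↥(laurentBaseChange Q̄ F₀) a)
      * (algebraMap Q̄ ↥(laurentBaseChange Q̄ F₀) a)⁻¹
      = algebraMap Q̄ ↥(laurentBaseChange Q̄ F₀) (σ a / a) := by
    rw [arithmeticRingAut_algebraMap, map_div₀, div_eq_mul_inv]
  show (gaussInfBar A hℓ hA F₀ hgen).valuation _ = 1
  rw [h1]
  exact valuation_algebraMap_eq_one hℓ hA hgen
    (valuation_apply_div_self A (mem_decomposition_of_mem_inertiaIn A hσ) ha)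

omit hσ in
/-- `τ` maps constants to constants. -/
theorem constants_stable (σ : Q̄ ≃ₐ[ℚ] Q̄) :
    ∀ c ∈ constField F₀, arithmeticRingAut F₀ σ c ∈ constField F₀ := by
  rintro _ ⟨a, rfl⟩
  exact ⟨σ a, (arithmeticRingAut_algebraMap F₀ σ a).symm⟩

include hσ in
/-- **`(τ - 1)² f ∈ 1 + 𝔪_{V∞}`** for every `f ≠ 0` and every `τ` in the inertia group. -/
theorem oneAddNonunits_twice_gaussInfBar {f : ↥(laurentBaseChange Q̄ F₀)} (hf : f ≠ 0) :
    OneAddNonunits (gaussInfBar A hℓ hA F₀ hgen)
      (tauSubOne (arithmeticRingAut F₀ σ) (tauSubOne (arithmeticRingAut F₀ σ) f)) :=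
  oneAddNonunits_twice (hasConstValues hℓ hA hgen) (inInertia hℓ hA hgen hσ)
    (preservesConstValues hℓ hA hgen hσ) hf

end inertia

/-! ## The hypotheses of `H528.comapW_ne` -/

/-- functions with an `A`-integral expansion lie in `V`. -/
theorem mem_gaussInfBar_of_incl {f : ↥(laurentBaseChange Q̄ F₀)} (U : LaurentSeries A)
    (h : (f : LaurentSeries Q̄) = incl A U) : f ∈ gaussInfBar A hℓ hA F₀ hgen := by
  show IsGaussInt A F₀ (f : LaurentSeries Q̄)
  rw [h]
  exact IsGaussInt.of_incl U

/-- functions with a primitive `A`-integral expansion are units of `V`. -/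
theorem inv_mem_gaussInfBar_of_incl {f : ↥(laurentBaseChange Q̄ F₀)} (U : LaurentSeries A)
    (h : (f : LaurentSeries Q̄) = incl A U) (hU : red A U ≠ 0) :
    f⁻¹ ∈ gaussInfBar A hℓ hA F₀ hgen := by
  show IsGaussInt A F₀ ((f⁻¹ : ↥(laurentBaseChange Q̄ F₀)) : LaurentSeries Q̄)
  have hf0 : (f : LaurentSeries Q̄) ≠ 0 := by
    rw [h]
    exact incl_ne_zero A (ne_zero_of_red_ne_zero A hU)
  refine ⟨1, U, hU, h ▸ f.2, ?_⟩
  rw [IntermediateField.coe_inv, ← h, inv_mul_cancel₀ hf0, _root_.map_one]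

/-- the prime `ℓ` is not a unit of `V`. -/
theorem inv_prime_not_mem_gaussInfBar :
    (algebraMap Q̄ ↥(laurentBaseChange Q̄ F₀) (ℓ : Q̄))⁻¹ ∉ gaussInfBar A hℓ hA F₀ hgen := by
  rw [← map_inv₀]
  intro h
  have h1 : ((ℓ : Q̄))⁻¹ ∈ A := (algebraMap_mem_gaussInf_iff hgen _ _).mp h
  have h2 : A.valuation ((ℓ : Q̄)) < 1 := A.mem_nonunits_iff.mp hA
  have h3 : A.valuation ((ℓ : Q̄))⁻¹ ≤ 1 := (A.valuation_le_one_iff _).mpr h1
  rw [map_inv₀] at h3
  have hℓ0 : (ℓ : Q̄) ≠ 0 := by exact_mod_cast hℓ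
  have hv0 : A.valuation ((ℓ : Q̄)) ≠ 0 := (Valuation.ne_zero_iff _).mpr hℓ0
  rw [inv_le_one₀ (zero_lt_iff.mpr hv0)] at h3
  exact absurd h2 (not_lt.mpr h3)

end Fermat.Agent.A2.H708

end
end
-- ===== PACK-END A2/H708/GaussInfQbar.lean

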