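import Mathlib
import Fermat.Prelude.Def_ModularForm_HeckeOperatorForms
import Fermat.Prelude.Thm_ModularFormClass_qCoeff_heckeT
import Fermat.Prelude.Thm_ModularForm_sturm_bound_Gamma0
import Fermat.Prelude.Def_GaloisRep_Flat
import Fermat.Agent.Pack.S33.E7L1
import Fermat.Agent.Pack.S33.E8L2
import Fermat.Agent.Pack.S33.E5L3
import Fermat.Agent.Pack.S33.E8L3
import Fermat.Agent.Pack.S33.E5L0
import Fermat.Agent.Pack.S33.E8L1
import Fermat.Agent.Pack.S33.E8L0
import Fermat.Agent.Pack.S33.E1L3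
import Fermat.Agent.Pack.S33.E5L1
import Fermat.Agent.Pack.S33.E5L2
import Fermat.Agent.Pack.S33.E4L2

-- ===== PACK-BEGIN S28/H867/Transfer.lean
section



set_option autoImplicit false
noncomputable section
open ModularCurve HahnSeries IntermediateField Polynomial

namespace Fermat.Agent.S28.H867

section Transfer

variable (k : Type*) [Field k]

/-- `coeffMap` commutes with `evalAt`. -/
theorem coeffMap_comp_evalAt (y : LaurentSeries ℤ) :
    (coeffMap (Int.castRingHom k)).comp (evalAt y) = evalAt (coeffMap (Int.castRingHom k) y) := by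
  apply Polynomial.ringHom_ext
  · intro a
    simp [evalAt]
  · simp [evalAt]

/-- `qExpand` commutes with `evalAt`. -/
theorem qExpand_comp_evalAt (p : ℕ) [NeZero p] (y : LaurentSeries k) :
    (qExpand k p).comp (evalAt y) = evalAt (qExpand k p y) := by
  apply Polynomial.ringHom_ext
  · intro a
    simp [evalAt]
  · simp [evalAt]

variable {k} in
theorem eval₂_evalAt_transfer (Φ : Polynomial (Polynomial ℤ)) (y x : LaurentSeries ℤ)
    (h : Φ.eval₂ (evalAt y) x = 0) :
    Φ.eval₂ (evalAt (coeffMap (Int.castRingHom k) y)) (coeffMap (Int.castRingHom k) x) = 0 := by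
  rw [← coeffMap_comp_evalAt, ← Polynomial.hom_eval₂, h, _root_.map_zero]

variable {k} in
theorem eval₂_evalAt_qExpand (p : ℕ) [NeZero p] (Φ : Polynomial (Polynomial ℤ))
    (y x : LaurentSeries k) (h : Φ.eval₂ (evalAt y) x = 0) :
    Φ.eval₂ (evalAt (qExpand k p y)) (qExpand k p x) = 0 := by
  rw [← qExpand_comp_evalAt, ← Polynomial.hom_eval₂, h, _root_.map_zero]

theorem coeffMap_jp (p : ℕ) [NeZero p] :
    coeffMap (Int.castRingHom k) (qExpand ℤ p (jqModC ℤ)) = jp k p := by
  rw [coeffMap_qExpand, coeffMap_jqModC]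

/-- `Φ_p(j_p, j) = 0` over `k`. -/
theorem modPoly_eval_jp_field {p : ℕ} [NeZero p] (D : ModPolyData p) :
    D.Φ.eval₂ (evalAt (jqModC k)) (jp k p) = 0 := by
  have := eval₂_evalAt_transfer (k := k) D.Φ _ _ D.eval_jp
  rwa [coeffMap_jp, coeffMap_jqModC] at this

/-- `Φ_p(j, j_p) = 0` over `k`. -/
theorem modPoly_eval_j_field {p : ℕ} [NeZero p] (D : ModPolyData p) :
    D.Φ.eval₂ (evalAt (jp k p)) (jqModC k) = 0 := by
  have := eval₂_evalAt_transfer (k := k) D.Φ _ _ D.eval_j
  rwa [coeffMap_jp, coeffMap_jqModC] at this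

end Transfer

section PolyOver

variable {k : Type*} [Field k]

/-- The polynomial `Φ(X, y)` with coefficients in a subfield `A ∋ y`. -/
def polyOver (A : IntermediateField k (LaurentSeries k)) (y : A) (Φ : Polynomial (Polynomial ℤ)) :
    Polynomial A :=
  Φ.map (Polynomial.aeval (R := ℤ) y).toRingHom

theorem polyOver_monic (A : IntermediateField k (LaurentSeries k)) (y : A)
    {Φ : Polynomial (Polynomial ℤ)} (h : Φ.Monic) : (polyOver A y Φ).Monic :=
  h.map _

theorem polyOver_natDegree (A : IntermediateField k (LaurentSeries k)) (y : A)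
    {Φ : Polynomial (Polynomial ℤ)} (h : Φ.Monic) : (polyOver A y Φ).natDegree = Φ.natDegree :=
  h.natDegree_map _

theorem aeval_polyOver (A : IntermediateField k (LaurentSeries k)) (y : A)
    (Φ : Polynomial (Polynomial ℤ)) (x : LaurentSeries k) :
    Polynomial.aeval x (polyOver A y Φ) = Φ.eval₂ (evalAt (y : LaurentSeries k)) x := by
  rw [polyOver, Polynomial.aeval_def, Polynomial.eval₂_map]
  congr 1
  apply Polynomial.ringHom_ext
  · intro a
    simp [evalAt]
  · simp [evalAt]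

end PolyOver

end Fermat.Agent.S28.H867

end
end
-- ===== PACK-END S28/H867/Transfer.lean

-- ===== PACK-BEGIN S28/H807/Points.lean
section
/-
S28 / helper807 — the points `(τ+b)/p` and `pτ` of the upper half plane, the nome `q(τ)`,
and `q`-expansions of functions on `ℍ`.
-/



set_option autoImplicit false
set_option maxHeartbeats 400000

noncomputable section

open ModularCurve Polynomial Matrix UpperHalfPlane Complex

namespace Fermat.Agent.S28.H807

/-- The nome `q(τ) = exp(2πiτ)`. -/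
def nome (τ : ℍ) : ℂ := Complex.exp (2 * Real.pi * Complex.I * (τ : ℂ))

theorem nome_ne_zero (τ : ℍ) : nome τ ≠ 0 := Complex.exp_ne_zero _

theorem nome_eq_qParam (τ : ℍ) : nome τ = Function.Periodic.qParam 1 (τ : ℂ) := by
  simp [nome, Function.Periodic.qParam]

/-- `f` has the (everywhere convergent) `q`-expansion `c`. -/
def HasQExp (c : LaurentSeries ℂ) (F : ℍ → ℂ) : Prop :=
  ∀ τ : ℍ, HasLSum c (nome τ) (F τ)

theorem hasQExp_iff (c : LaurentSeries ℂ) (F : ℍ → ℂ) :
    HasQExp c F ↔ ∀ τ : ℍ, HasSum (fun n : ℤ => c.coeff n *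
      (Function.Periodic.qParam 1 (τ : ℂ)) ^ n) (F τ) := by
  unfold HasQExp HasLSum
  simp only [nome_eq_qParam]

/-- The point `(τ + b)/p`. -/
def divShift (p : ℕ) [NeZero p] (b : ℤ) (τ : ℍ) : ℍ :=
  ⟨((τ : ℂ) + (b : ℂ)) / (p : ℂ), by
    have hp : (0 : ℝ) < (p : ℝ) := by exact_mod_cast Nat.pos_of_ne_zero (NeZero.ne p)
    have h1 : (((τ : ℂ) + (b : ℂ)) / (p : ℂ)).im = (τ : ℂ).im / (p : ℝ) := by
      rw [show ((p : ℂ)) = ((p : ℝ) : ℂ) by push_cast; rfl, Complex.div_ofReal_im]
      simp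
    rw [h1]
    exact div_pos τ.im_pos hp⟩

/-- The point `pτ`. -/
def mulNat (p : ℕ) [NeZero p] (τ : ℍ) : ℍ :=
  ⟨(p : ℂ) * (τ : ℂ), by
    have hp : (0 : ℝ) < (p : ℝ) := by exact_mod_cast Nat.pos_of_ne_zero (NeZero.ne p)
    have h1 : ((p : ℂ) * (τ : ℂ)).im = (p : ℝ) * (τ : ℂ).im := by
      rw [show ((p : ℂ)) = ((p : ℝ) : ℂ) by push_cast; rfl, Complex.im_ofReal_mul]
    rw [h1]
    exact mul_pos hp τ.im_pos⟩

@[simp] theorem coe_divShift (p : ℕ) [NeZero p] (b : ℤ) (τ : ℍ) :
    ((divShift p b τ : ℍ) : ℂ) = ((τ : ℂ) + (b : ℂ)) / (p : ℂ) := rfl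

@[simp] theorem coe_mulNat (p : ℕ) [NeZero p] (τ : ℍ) :
    ((mulNat p τ : ℍ) : ℂ) = (p : ℂ) * (τ : ℂ) := rfl

theorem nome_mulNat (p : ℕ) [NeZero p] (τ : ℍ) : nome (mulNat p τ) = nome τ ^ p := by
  unfold nome
  rw [← Complex.exp_nat_mul, coe_mulNat]
  congr 1; ring

theorem nome_divShift_pow (p : ℕ) [NeZero p] (b : ℤ) (τ : ℍ) :
    nome (divShift p b τ) ^ p = nome τ := by
  have hp : (p : ℂ) ≠ 0 := by exact_mod_cast NeZero.ne p
  unfold nome
  rw [← Complex.exp_nat_mul, coe_divShift]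
  have : (p : ℂ) * (2 * Real.pi * Complex.I * (((τ : ℂ) + (b : ℂ)) / (p : ℂ)))
      = 2 * Real.pi * Complex.I * (τ : ℂ) + (b : ℂ) * (2 * Real.pi * Complex.I) := by
    field_simp
  rw [this, Complex.exp_add, Complex.exp_int_mul_two_pi_mul_I, _root_.mul_one]

theorem nome_divShift_injective (p : ℕ) [NeZero p] (τ : ℍ) :
    Function.Injective (fun b : Fin p => nome (divShift p ((b : ℕ) : ℤ) τ)) := by
  have hp : (p : ℂ) ≠ 0 := by exact_mod_cast NeZero.ne p
  intro b b' h
  simp only [nome] at h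
  rw [Complex.exp_eq_exp_iff_exists_int] at h
  obtain ⟨n, hn⟩ := h
  simp only [coe_divShift] at hn
  have hpi : (2 * Real.pi * Complex.I : ℂ) ≠ 0 := by
    simp [Real.pi_ne_zero]
  have h1 : ((τ : ℂ) + ((b : ℕ) : ℤ)) / (p : ℂ) = ((τ : ℂ) + ((b' : ℕ) : ℤ)) / (p : ℂ) + n := by
    have := hn
    have h2 : 2 * Real.pi * Complex.I * (((τ : ℂ) + ((b : ℕ) : ℤ)) / (p : ℂ))
        = 2 * Real.pi * Complex.I * (((τ : ℂ) + ((b' : ℕ) : ℤ)) / (p : ℂ) + n) := by
      rw [this]; ring
    exact mul_left_cancel₀ hpi h2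
  have h3 : (((b : ℕ) : ℤ) : ℂ) = (((b' : ℕ) : ℤ) : ℂ) + (n : ℂ) * (p : ℂ) := by
    field_simp at h1
    linear_combination h1
  have h4 : ((b : ℕ) : ℤ) = ((b' : ℕ) : ℤ) + n * (p : ℤ) := by exact_mod_cast h3
  have hb := b.2
  have hb' := b'.2
  have hn0 : n = 0 := by
    by_contra hne
    rcases lt_or_gt_of_ne hne with hlt | hgt
    · have : n ≤ -1 := by omega
      have : n * (p : ℤ) ≤ -1 * (p : ℤ) := by
        apply mul_le_mul_of_nonneg_right this; positivity
      omega
    · have : 1 ≤ n := by omega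
      have : 1 * (p : ℤ) ≤ n * (p : ℤ) := by
        apply mul_le_mul_of_nonneg_right this; positivity
      omega
  rw [hn0] at h4
  apply Fin.ext
  omega

/-- **Generic analytic theorem**: the coefficients of `(X - e)·charpoly(secMat p g)` have
convergent `q`-expansions, with values the coefficients of
`(X - E(τ)) ∏_b (X - G((τ+b)/p))`. -/
theorem hasQExp_coeff_mul_charpoly (p : ℕ) [NeZero p] (g e : LaurentSeries ℂ) (G E : ℍ → ℂ)
    (hG : HasQExp g G) (hE : HasQExp e E) (k : ℕ) :
    HasQExp (((X - C e) * (secMat p g).charpoly).coeff k)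
      (fun τ => ((X - C (E τ)) *
        ∏ b : Fin p, (X - C (G (divShift p ((b : ℕ) : ℤ) τ)))).coeff k) := by
  intro τ
  exact hasLSum_coeff_mul_charpoly g e (nome τ)
    (fun b : Fin p => nome (divShift p ((b : ℕ) : ℤ) τ))
    (fun b => nome_ne_zero _) (fun b => nome_divShift_pow p _ τ)
    (nome_divShift_injective p τ)
    (fun b => G (divShift p ((b : ℕ) : ℤ) τ)) (fun b => hG _) (E τ) (hE τ) k

/-- `q`-expansion of `τ ↦ F(pτ)`. -/
theorem HasQExp.mulNat {c : LaurentSeries ℂ} {F : ℍ → ℂ} (h : HasQExp c F) (p : ℕ) [NeZero p] :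
    HasQExp (ModularCurve.qExpand ℂ p c) (fun τ => F (mulNat p τ)) := by
  intro τ
  apply HasLSum.expand
  rw [← nome_mulNat]
  exact h _

theorem HasQExp.mul {c d : LaurentSeries ℂ} {F G : ℍ → ℂ} (h1 : HasQExp c F)
    (h2 : HasQExp d G) : HasQExp (c * d) (fun τ => F τ * G τ) :=
  fun τ => (h1 τ).mul (nome_ne_zero τ) (h2 τ)

theorem HasQExp.add {c d : LaurentSeries ℂ} {F G : ℍ → ℂ} (h1 : HasQExp c F)
    (h2 : HasQExp d G) : HasQExp (c + d) (fun τ => F τ + G τ) :=
  fun τ => (h1 τ).add (h2 τ)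

theorem hasQExp_C (a : ℂ) : HasQExp (HahnSeries.C a) (fun _ => a) :=
  fun _ => hasLSum_C _ a

theorem HasQExp.unique {c : LaurentSeries ℂ} {F G : ℍ → ℂ} (h1 : HasQExp c F)
    (h2 : HasQExp c G) : F = G :=
  _root_.funext fun τ => (h1 τ).unique (h2 τ)

end Fermat.Agent.S28.H807

end

end
-- ===== PACK-END S28/H807/Points.lean

-- ===== PACK-BEGIN S28/H326/Hecke.lean
section
/-
S28 / helper326: the analytic input `HeckeInput p` from the Prelude Hecke operator `T_p`
on level-one modular forms and the level-one structure theorem (helper505).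
-/






set_option autoImplicit false
set_option linter.unusedSectionVars false

noncomputable section

namespace Fermat.Agent.S28.H326

open ModularCurve HahnSeries UpperHalfPlane ModularForm MatrixGroups

/-! ### `T_p` on level one forms -/

theorem gamma0_one_coe :
    ((CongruenceSubgroup.Gamma0 1 : Subgroup SL(2, ℤ)) : Subgroup (GL (Fin 2) ℝ)) = 𝒮ℒ := by
  have h : CongruenceSubgroup.Gamma0 1 = ⊤ := by
    ext g
    simp [CongruenceSubgroup.Gamma0_mem, Subsingleton.elim (_ : ZMod 1) 0]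
  rw [h, MonoidHom.range_eq_map]

/-- `T_p f` as a level one modular form. -/
def heckeForm (k : ℤ) {p : ℕ} (hp : p.Prime) (f : ModularForm 𝒮ℒ k) : ModularForm 𝒮ℒ k where
  toFun := ModularForm.heckeT k p ⇑f
  slash_action_eq' := fun γ hγ =>
    ModularForm.heckeT_slash_eq_self_of_mem_Gamma0 (N := 1) k hp
      (by rw [Nat.dvd_one]; exact hp.one_lt.ne')
      (fun γ' hγ' => SlashInvariantFormClass.slash_action_eq f γ' (gamma0_one_coe ▸ hγ'))
      γ (gamma0_one_coe.symm ▸ hγ)
  holo' := ModularForm.mdifferentiable_heckeT (ModularFormClass.holo f) k p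
  bdd_at_cusps' := fun hc => ModularFormClass.isBoundedAt_heckeT f p hc

theorem coe_heckeForm (k : ℤ) {p : ℕ} (hp : p.Prime) (f : ModularForm 𝒮ℒ k) :
    ⇑(heckeForm k hp f) = ModularForm.heckeT k p ⇑f := rfl

theorem qExpansion_heckeForm_coeff (k : ℤ) {p : ℕ} (hp : p.Prime) (f : ModularForm 𝒮ℒ k)
    (n : ℕ) :
    (qExpansion 1 (heckeForm k hp f)).coeff n =
      (qExpansion 1 f).coeff (n * p) +
        if p ∣ n then (p : ℂ) ^ (k - 1) * (qExpansion 1 f).coeff (n / p) else 0 := by
  have := ModularFormClass.qCoeff_heckeT f one_mem_strictPeriods_SL hp.ne_zero n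
  simpa [ModularFormClass.qCoeff, coe_heckeForm, ModularForm.coeffHeckeT] using this

/-! ### The forms `E₄^{3a} Δ^r` -/

/-- `Δ` as a modular form -/
def deltaForm : ModularForm 𝒮ℒ 12 := CuspForm.toModularFormₗ CuspForm.discriminant

theorem qExpansion_deltaForm : qExpansion 1 deltaForm = H505.deltaC :=
  H505.qExpansion_discriminant_eq_deltaC

/-- `E₄^{3a} Δ^r` -/
def monoE4Delta (a r : ℕ) (k : ℤ) (hk : ((3 * a : ℕ) : ℤ) * 4 + ((r : ℕ) : ℤ) * 12 = k) :
    ModularForm 𝒮ℒ k :=
  ModularForm.mcast hk ((E₄.pow (3 * a)).mul (deltaForm.pow r))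

theorem toC_EZ : toC EZ = H505.e4C ^ 3 := by
  rw [EZ, map_pow, H505.e4C]

theorem toC_DZ : toC DZ = H505.deltaC := by
  rw [DZ, _root_.map_mul, PowerSeries.map_X, H505.deltaC, dedekindEtaUnit, map_pow]

theorem qExpansion_monoE4Delta (a r : ℕ) (k : ℤ)
    (hk : ((3 * a : ℕ) : ℤ) * 4 + ((r : ℕ) : ℤ) * 12 = k) :
    qExpansion 1 (monoE4Delta a r k hk) = toC (EZ ^ a * DZ ^ r) := by
  rw [monoE4Delta, ModularForm.qExpansion_mcast,
    ModularForm.qExpansion_mul one_pos one_mem_strictPeriods_SL,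
    ModularForm.qExpansion_pow one_pos one_mem_strictPeriods_SL,
    ModularForm.qExpansion_pow one_pos one_mem_strictPeriods_SL,
    H505.qExpansion_E₄_eq_e4C, qExpansion_deltaForm, _root_.map_mul, map_pow, map_pow, toC_EZ, toC_DZ,
    ← pow_mul]

/-! ### Integrality by leading terms, over `ℂ` -/

theorem C_mul_coeff (c : ℂ) (x : LaurentSeries ℂ) (n : ℤ) :
    (HahnSeries.C c * x).coeff n = c * x.coeff n := by
  rw [HahnSeries.C_mul_eq_smul, HahnSeries.coeff_smul, smul_eq_mul]

theorem aeval_jC_coeff (Q : Polynomial ℂ) {n : ℕ} (hn : Q.natDegree ≤ n) :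
    (Polynomial.aeval (jqModC ℂ) Q).coeff (-(n : ℤ)) = Q.coeff n := by
  rw [H505.aeval_laurent_eq_eval₂, Polynomial.eval₂_eq_sum_range' _ (Nat.lt_succ_of_le hn),
    HahnSeries.coeff_sum, Finset.sum_range_succ]
  rw [Finset.sum_eq_zero, zero_add, C_mul_coeff, coeff_jqModC_pow_self, mul_one]
  intro i hi
  rw [C_mul_coeff, coeff_jqModC_pow_of_lt ℂ (by have := Finset.mem_range.mp hi; omega),
    mul_zero]

theorem exists_int_poly_of_kap (Q : Polynomial ℂ) (x : LaurentSeries ℤ)
    (h : Polynomial.aeval (jqModC ℂ) Q = kap x) :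
    ∃ Q' : Polynomial ℤ, Polynomial.aeval (jqModC ℤ) Q' = x := by
  suffices H : ∀ d : ℕ, ∀ (Q : Polynomial ℂ) (x : LaurentSeries ℤ), Q.natDegree < d →
      Polynomial.aeval (jqModC ℂ) Q = kap x →
        ∃ Q' : Polynomial ℤ, Polynomial.aeval (jqModC ℤ) Q' = x from
    H (Q.natDegree + 1) Q x (Nat.lt_succ_self _) h
  intro d
  induction d with
  | zero => intro Q x hQ; omega
  | succ d ih =>
    intro Q x hQ hx
    have hle : Q.natDegree ≤ d := Nat.lt_succ_iff.mp hQ
    have hlead := aeval_jC_coeff Q hle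
    rw [hx, coeffMap_coeff] at hlead
    set m : ℤ := x.coeff (-(d : ℤ)) with hm
    set Q1 : Polynomial ℂ := Q - Polynomial.C (Q.coeff d) * Polynomial.X ^ d with hQ1
    have hx1 : Polynomial.aeval (jqModC ℂ) Q1 = kap (x - (m : LaurentSeries ℤ) * jqModC ℤ ^ d) := by
      rw [hQ1, _root_.map_sub, _root_.map_mul, Polynomial.aeval_C, map_pow, Polynomial.aeval_X, hx, _root_.map_sub,
        _root_.map_mul, map_pow, coeffMap_jqModC, ← hlead]
      congr 2
      rw [H505.algebraMap_laurent_eq_C, map_intCast]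
      simp
    by_cases h0 : Q1 = 0
    · refine ⟨Polynomial.C m * Polynomial.X ^ d, ?_⟩
      rw [h0, _root_.map_zero] at hx1
      have h1 : x - (m : LaurentSeries ℤ) * jqModC ℤ ^ d = 0 :=
        kap_injective (by rw [← hx1, _root_.map_zero])
      rw [_root_.map_mul, Polynomial.aeval_C, map_pow, Polynomial.aeval_X]
      rw [sub_eq_zero] at h1
      rw [h1]
      simp
    · have hdeg : Q1.natDegree < d := by
        have h1 : Q1.natDegree ≤ d := by
          refine (Polynomial.natDegree_sub_le _ _).trans (max_le hle ?_)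
          exact Polynomial.natDegree_C_mul_X_pow_le _ _
        rcases Nat.lt_or_ge Q1.natDegree d with h2 | h2
        · exact h2
        · have h3 : Q1.natDegree = d := le_antisymm h1 h2
          have h4 : Q1.coeff d = 0 := by simp [hQ1]
          have h5 : Q1.leadingCoeff = 0 := by rw [Polynomial.leadingCoeff, h3, h4]
          exact absurd (Polynomial.leadingCoeff_eq_zero.mp h5) h0
      obtain ⟨Q', hQ'⟩ := ih Q1 _ hdeg hx1
      refine ⟨Q' + Polynomial.C m * Polynomial.X ^ d, ?_⟩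
      rw [_root_.map_add, hQ', _root_.map_mul, Polynomial.aeval_C, map_pow, Polynomial.aeval_X]
      simp

/-! ### The Hecke input -/

theorem kap_heckeL_eq_gen (p : ℕ) [NeZero p] (hp : p.Prime) (φ : PowerSeries ℤ) (k' : ℕ) (k : ℤ)
    (hk' : k = (k' : ℤ)) (F : ModularForm 𝒮ℒ k) (hF : qExpansion 1 F = toC φ) :
    kap (heckeL p k' φ) =
      (p : LaurentSeries ℂ) * ofPS (qExpansion 1 (heckeForm k hp F)) := by
  have hp0 : (p : ℂ) ≠ 0 := Nat.cast_ne_zero.mpr hp.ne_zero
  ext n
  rw [heckeL]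
  simp only [_root_.map_add, _root_.map_mul, map_pow, map_natCast, coeffMap_qExpand, kap_ofPS, toC_UpZ]
  rw [HahnSeries.coeff_add, ← Nat.cast_pow, natCast_mul_coeff, natCast_mul_coeff,
    natCast_mul_coeff]
  rcases lt_or_ge n 0 with hn | hn
  · rw [ofPS_coeff_neg _ hn, ofPS_coeff_neg _ hn, mul_zero, add_zero]
    have := cBase_coeff_neg p (toC φ) hn
    rw [cBase, RingHom.comp_apply] at this
    rw [this, mul_zero]
  · lift n to ℕ using hn
    rw [ofPS_coeff_nat, ofPS_coeff_nat, qExpansion_heckeForm_coeff, hF, coeff_Up]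
    by_cases hdvd : p ∣ n
    · obtain ⟨m, rfl⟩ := hdvd
      rw [if_pos (dvd_mul_right p m)]
      have h1 : ((p * m : ℕ) : ℤ) = (p : ℤ) * m := by push_cast; ring
      rw [h1, qExpand_coeff_mul, ofPS_coeff_nat, Nat.mul_div_cancel_left m hp.pos]
      have h2 : (p : ℂ) * (p : ℂ) ^ (k - 1) = ((p ^ k' : ℕ) : ℂ) := by
        rw [hk', ← zpow_one_add₀ hp0]
        push_cast
        rw [show (1 : ℤ) + ((k' : ℤ) - 1) = (k' : ℤ) by ring, zpow_natCast]
      rw [mul_add, ← mul_assoc, h2]
      ring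
    · rw [if_neg hdvd, add_zero]
      have h1 : ¬ (p : ℤ) ∣ (n : ℤ) := by exact_mod_cast hdvd
      rw [qExpand_coeff_of_not_dvd p _ h1, mul_zero, zero_add]

theorem kap_heckeL_eq (p : ℕ) [NeZero p] (hp : p.Prime) (a r : ℕ) (k : ℤ)
    (hk : ((3 * a : ℕ) : ℤ) * 4 + ((r : ℕ) : ℤ) * 12 = k) :
    kap (heckeL p (12 * (a + r)) (EZ ^ a * DZ ^ r)) =
      (p : LaurentSeries ℂ) *
        ofPS (qExpansion 1 (heckeForm k hp (monoE4Delta a r k hk))) :=
  kap_heckeL_eq_gen p hp _ _ k (by rw [← hk]; push_cast; ring) _ (qExpansion_monoE4Delta a r k hk)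

/-- **The Hecke input holds.** -/
theorem heckeInput (p : ℕ) [NeZero p] (hp : p.Prime) : HeckeInput p := by
  intro a r
  have hk : ((3 * a : ℕ) : ℤ) * 4 + ((r : ℕ) : ℤ) * 12 = (12 * ((a + r : ℕ) : ℤ)) := by
    push_cast; ring
  obtain ⟨P, -, -, hP⟩ := H505.levelOne_structure (a + r) _ rfl
    (heckeForm _ hp (monoE4Delta a r _ hk))
  have h1 := kap_heckeL_eq p hp a r _ hk
  rw [hP] at h1
  have hD : HahnSeries.ofPowerSeries ℤ ℂ H505.deltaC = kap deltaZ := by
    rw [deltaZ, kap_ofPS, toC_DZ]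
  have h2 : Polynomial.aeval (jqModC ℂ) (Polynomial.C (p : ℂ) * P) =
      kap (heckeL p (12 * (a + r)) (EZ ^ a * DZ ^ r) * deltaInvZ ^ (a + r)) := by
    have h3 : kap deltaZ * kap deltaInvZ = 1 := by
      rw [← _root_.map_mul, deltaZ_mul_deltaInvZ, _root_.map_one]
    have h4 : (p : LaurentSeries ℂ) = HahnSeries.C (p : ℂ) := by simp
    have h5 : kap (heckeL p (12 * (a + r)) (EZ ^ a * DZ ^ r) * deltaInvZ ^ (a + r)) =
        kap (heckeL p (12 * (a + r)) (EZ ^ a * DZ ^ r)) * kap deltaInvZ ^ (a + r) := by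
      rw [_root_.map_mul, map_pow]
    have h6 : Polynomial.aeval (jqModC ℂ) (Polynomial.C (p : ℂ) * P) =
        HahnSeries.C (p : ℂ) * Polynomial.aeval (jqModC ℂ) P := by
      rw [_root_.map_mul, Polynomial.aeval_C, H505.algebraMap_laurent_eq_C]
    rw [h5, h6, h1, hD, h4]
    calc HahnSeries.C (p : ℂ) * Polynomial.aeval (jqModC ℂ) P
        = HahnSeries.C (p : ℂ) * Polynomial.aeval (jqModC ℂ) P *
            (kap deltaZ * kap deltaInvZ) ^ (a + r) := by rw [h3, one_pow, mul_one]
      _ = _ := by rw [mul_pow]; ring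
  obtain ⟨Q', hQ'⟩ := exists_int_poly_of_kap _ _ h2
  refine ⟨Q', ?_⟩
  rw [hQ', mul_assoc, ← mul_pow, mul_comm deltaInvZ, deltaZ_mul_deltaInvZ, one_pow, mul_one]

end Fermat.Agent.S28.H326

end
end
-- ===== PACK-END S28/H326/Hecke.lean

-- ===== PACK-BEGIN S18/H333/Sturm.lean
section






/-!
# S18 / c3 (helper333): the formal level-2 / level-3 identities via the Sturm bound
-/

set_option autoImplicit false
set_option linter.unusedSectionVars false

noncomputable section

namespace Fermat.Agent.S18.H333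

open UpperHalfPlane ModularForm CongruenceSubgroup MatrixGroups EisensteinSeries

/-- coefficient map `ℤ⟦X⟧ → ℂ⟦X⟧` -/
abbrev toCs : PowerSeries ℤ →+* PowerSeries ℂ := PowerSeries.map (Int.castRingHom ℂ)

theorem toCs_injective : Function.Injective toCs := by
  intro f g h
  ext n
  have := congrArg (PowerSeries.coeff n) h
  simpa using this

theorem toCs_zsmul (c : ℤ) (f : PowerSeries ℤ) : toCs (c • f) = (c : ℂ) • toCs f := by
  ext n
  rw [PowerSeries.coeff_map, map_zsmul, PowerSeries.coeff_smul, PowerSeries.coeff_map]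
  simp

theorem toCs_Vser (p : ℕ) (f : PowerSeries ℤ) : toCs (Vser p f) = Vser p (toCs f) :=
  Vser_map _ _ _

/-- `Δ` as a level-one modular form -/
def DeltaMF : ModularForm 𝒮ℒ 12 := CuspForm.toModularFormₗ CuspForm.discriminant

theorem qExpansion_E4 : qExpansion 1 E₄ = toCs Ez :=
  Fermat.Agent.S28.H505.qExpansion_E₄_eq_e4C

theorem qExpansion_DeltaMF : qExpansion 1 DeltaMF = toCs Dz := by
  have h : qExpansion 1 DeltaMF = Fermat.Agent.S28.H505.deltaC :=
    Fermat.Agent.S28.H505.qExpansion_discriminant_eq_deltaC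
  rw [h, Fermat.Agent.S28.H505.deltaC, Dz, map_mul, map_pow, PowerSeries.map_X]

variable (p : ℕ) [NeZero p]

local notation "Γp" => (Gamma0 p : Subgroup (GL (Fin 2) ℝ))

theorem qExp_restr {k : ℤ} (H : ModularForm 𝒮ℒ k) :
    qExpansion 1 (restr p H) = qExpansion 1 H := rfl

theorem qExp_mul {a b : ℤ} (f : ModularForm Γp a) (g : ModularForm Γp b) :
    qExpansion 1 (f.mul g) = qExpansion 1 f * qExpansion 1 g :=
  ModularForm.qExpansion_mul one_pos (_root_.Fermat.Agent.S18.H333.one_mem_strictPeriods_Gamma0 p) f g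

theorem qExp_add {a : ℤ} (f g : ModularForm Γp a) :
    qExpansion 1 (⇑(f + g)) = qExpansion 1 f + qExpansion 1 g := by
  rw [FunLike.coe_add]
  exact ModularForm.qExpansion_add one_pos (_root_.Fermat.Agent.S18.H333.one_mem_strictPeriods_Gamma0 p) f g

theorem qExp_sub {a : ℤ} (f g : ModularForm Γp a) :
    qExpansion 1 (⇑(f - g)) = qExpansion 1 f - qExpansion 1 g := by
  rw [FunLike.coe_sub]
  exact ModularForm.qExpansion_sub one_pos (_root_.Fermat.Agent.S18.H333.one_mem_strictPeriods_Gamma0 p) f g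

theorem qExp_smul {a : ℤ} (c : ℂ) (f : ModularForm Γp a) :
    qExpansion 1 (⇑(c • f)) = c • qExpansion 1 f := by
  rw [FunLike.coe_smul]
  exact ModularForm.qExpansion_smul one_pos (_root_.Fermat.Agent.S18.H333.one_mem_strictPeriods_Gamma0 p) c f

theorem qExp_pow {a : ℤ} (f : ModularForm Γp a) (n : ℕ) :
    qExpansion 1 (f.pow n) = qExpansion 1 f ^ n :=
  ModularForm.qExpansion_pow one_pos (_root_.Fermat.Agent.S18.H333.one_mem_strictPeriods_Gamma0 p) f n

/-- the Sturm bound in the form we use: vanishing of `q`-expansion coefficients below `n`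
with `k * ψ(p) / 12 < n` forces a form whose `q`-expansion comes from `ℤ⟦X⟧` to vanish. -/
theorem series_eq_zero_of_sturm {k : ℤ} (F : ModularForm Γp k) (Φ : PowerSeries ℤ)
    (hF : qExpansion 1 F = toCs Φ) (n : ℕ)
    (hn : (k * ((Gamma0 p).index : ℤ)).toNat / 12 < n) (hΦ : tl n Φ = tzero n) : Φ = 0 := by
  have hzero : F = 0 := by
    refine ModularForm.sturm_bound_Gamma0 p F fun m hm => ?_
    rw [hF, PowerSeries.coeff_map, (tl_eq_tzero_iff n Φ).mp hΦ m (lt_of_le_of_lt hm hn), map_zero]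
  apply toCs_injective
  rw [map_zero, ← hF, hzero]
  exact qExpansion_zero 1

/-! ### level 2 -/

theorem index_Gamma0_two : (Gamma0 2).index = 3 := by
  rw [Fermat.Agent.S20.Comb.index_Gamma0]
  decide +kernel

theorem index_Gamma0_three : (Gamma0 3).index = 4 := by
  rw [Fermat.Agent.S20.Comb.index_Gamma0]
  decide +kernel

/-- `E₄³` on `Γ₀(p)`, weight 12 -/
def EcubeF : ModularForm Γp 12 := ((restr p E₄).pow 3).mcast (by norm_num)

/-- `E₄(p·)³` on `Γ₀(p)`, weight 12 -/
def EpcubeF : ModularForm Γp 12 := ((raise p E₄).pow 3).mcast (by norm_num)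

/-- `Δ` on `Γ₀(p)` -/
def XF : ModularForm Γp 12 := restr p DeltaMF

/-- `Δ(p·)` on `Γ₀(p)` -/
def YF : ModularForm Γp 12 := raise p DeltaMF

theorem qExp_EcubeF : qExpansion 1 (EcubeF p) = toCs (Ez ^ 3) := by
  rw [EcubeF, ModularForm.qExpansion_mcast, qExp_pow, qExp_restr, qExpansion_E4, map_pow]

theorem qExp_EpcubeF : qExpansion 1 (EpcubeF p) = toCs (Vser p Ez ^ 3) := by
  rw [EpcubeF, ModularForm.qExpansion_mcast, qExp_pow, qExpansion_raise, qExpansion_E4, map_pow,
    toCs_Vser]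

theorem qExp_XF : qExpansion 1 (XF p) = toCs Dz := by
  rw [XF, qExp_restr, qExpansion_DeltaMF]

theorem qExp_YF : qExpansion 1 (YF p) = toCs (Vser p Dz) := by
  rw [YF, qExpansion_raise, qExpansion_DeltaMF, toCs_Vser]

/-- the weight-36 form `E³ X Y - (X + c Y)³` -/
def cubicF (E : ModularForm Γp 12) (c : ℤ) : ModularForm Γp ((12 + 12) + 12) :=
  ((E.mul (XF p)).mul (YF p)) -
    (((XF p + (c : ℂ) • YF p).mul (XF p + (c : ℂ) • YF p)).mul (XF p + (c : ℂ) • YF p))

theorem qExp_cubicF (E : ModularForm Γp 12) (c : ℤ) (e : PowerSeries ℤ)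
    (hE : qExpansion 1 E = toCs e) :
    qExpansion 1 (cubicF p E c) =
      toCs (e * Dz * Vser p Dz - (Dz + c • Vser p Dz) ^ 3) := by
  rw [cubicF, qExp_sub, qExp_mul, qExp_mul, qExp_mul, qExp_mul, qExp_add, qExp_smul, hE, qExp_XF,
    qExp_YF, map_sub, map_mul, map_mul, map_pow, map_add, toCs_zsmul]
  ring

theorem Phi2a_eq_zero : Phi2a = 0 := by
  refine series_eq_zero_of_sturm 2 (cubicF 2 (EcubeF 2) 256) Phi2a ?_ 10 ?_ tl_Phi2a
  · rw [qExp_cubicF 2 _ 256 _ (qExp_EcubeF 2)]; rfl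
  · rw [index_Gamma0_two]; decide

theorem Phi2b_eq_zero : Phi2b = 0 := by
  refine series_eq_zero_of_sturm 2 (cubicF 2 (EpcubeF 2) 16) Phi2b ?_ 10 ?_ tl_Phi2b
  · rw [qExp_cubicF 2 _ 16 _ (qExp_EpcubeF 2)]; rfl
  · rw [index_Gamma0_two]; decide

/-! ### level 3 -/

/-- the weight-48 form `A² - X Y (E - B)²`, `A = X² + c₂ X Y + c₄ Y²`, `B = c₁ X + c₃ Y` -/
def quarticF (E : ModularForm Γp 12) (c₁ c₂ c₃ c₄ : ℤ) :
    ModularForm Γp ((12 + 12) + (12 + 12)) :=
  (((XF p).mul (XF p) + (c₂ : ℂ) • (XF p).mul (YF p) + (c₄ : ℂ) • (YF p).mul (YF p)).mul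
    ((XF p).mul (XF p) + (c₂ : ℂ) • (XF p).mul (YF p) + (c₄ : ℂ) • (YF p).mul (YF p))) -
  ((XF p).mul (YF p)).mul
    ((E - ((c₁ : ℂ) • XF p + (c₃ : ℂ) • YF p)).mul (E - ((c₁ : ℂ) • XF p + (c₃ : ℂ) • YF p)))

theorem qExp_quarticF (E : ModularForm Γp 12) (c₁ c₂ c₃ c₄ : ℤ) (e : PowerSeries ℤ)
    (hE : qExpansion 1 E = toCs e) :
    qExpansion 1 (quarticF p E c₁ c₂ c₃ c₄) =
      toCs ((Dz * Dz + c₂ • (Dz * Vser p Dz) + c₄ • (Vser p Dz * Vser p Dz)) *
          (Dz * Dz + c₂ • (Dz * Vser p Dz) + c₄ • (Vser p Dz * Vser p Dz)) -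
        (Dz * Vser p Dz) * ((e - (c₁ • Dz + c₃ • Vser p Dz)) * (e - (c₁ • Dz + c₃ • Vser p Dz)))) := by
  simp only [quarticF, qExp_sub, qExp_mul, qExp_add, qExp_smul, hE, qExp_XF, qExp_YF, map_sub,
    map_mul, map_add, toCs_zsmul]

theorem Phi3a_eq_zero : Phi3a = 0 := by
  refine series_eq_zero_of_sturm 3 (quarticF 3 (EcubeF 3) 756 196830 19131876 387420489) Phi3a
    ?_ 17 ?_ tl_Phi3a
  · rw [qExp_quarticF 3 _ _ _ _ _ _ (qExp_EcubeF 3)]; rfl
  · rw [index_Gamma0_three]; decide

theorem Phi3b_eq_zero : Phi3b = 0 := by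
  refine series_eq_zero_of_sturm 3 (quarticF 3 (EpcubeF 3) 36 270 756 729) Phi3b
    ?_ 17 ?_ tl_Phi3b
  · rw [qExp_quarticF 3 _ _ _ _ _ _ (qExp_EpcubeF 3)]; rfl
  · rw [index_Gamma0_three]; decide

end Fermat.Agent.S18.H333

end
end
-- ===== PACK-END S18/H333/Sturm.lean

-- ===== PACK-BEGIN S18/Mod/H216/IntE.lean
section



/-!
# S18 / MOD (helper216): the ring `intE` of `E`-rational integral series and its two homs

* `toOm : intE M A E →+* Om M`   (injective, image in `Fc M E`),
* `redE : intE M A E →+* κ((q))` (`κ` = residue field of `A`),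
* `mem_Vc_iff'` : `f ∈ Vc ↔ ∃ U₁ U₂ : intE, redE U₂ ≠ 0 ∧ f * toOm U₂ = toOm U₁`,
* constants `cInt`, the coordinate `jInt`, and division of a series by a constant (`divC`).
-/

set_option autoImplicit false
set_option linter.unusedSectionVars false

noncomputable section

namespace Fermat.Agent.S18.Mod.H216

open ModularCurve AlgebraicCurve HahnSeries Fermat.Agent.S18 Fermat.Agent.S18.Mod

variable (M : ℕ) (A : ValuationSubring Qb) (E : IntermediateField ℚ Qb)

/-- `A((q)) → Q̄((q))`. -/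
abbrev inclA : LaurentSeries ↥A →+* LaurentSeries Qb := coeffMap A.subtype

/-- `A((q)) → κ((q))`. -/
abbrev redA : LaurentSeries ↥A →+* LaurentSeries (IsLocalRing.ResidueField ↥A) :=
  coeffMap (IsLocalRing.residue ↥A)

theorem inclA_injective : Function.Injective (inclA A) := H516.incl_injective A

theorem inclA_mem_bar (U : ↥(intE M A E)) :
    inclA A (U : LaurentSeries ↥A) ∈ modularFunctionFieldBar M := by
  obtain ⟨f, -, hfU⟩ := U.2.2
  rw [← hfU]
  exact f.2

/-- The element of `Ω` defined by an integral series. -/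
def toOm : ↥(intE M A E) →+* Om M where
  toFun U := ⟨inclA A (U : LaurentSeries ↥A), inclA_mem_bar M A E U⟩
  map_one' := Subtype.ext (by simp)
  map_mul' U W := Subtype.ext (by simp)
  map_zero' := Subtype.ext (by simp)
  map_add' U W := Subtype.ext (by simp)

@[simp] theorem coe_toOm (U : ↥(intE M A E)) :
    ((toOm M A E U : Om M) : LaurentSeries Qb) = inclA A (U : LaurentSeries ↥A) := rfl

theorem toOm_injective : Function.Injective (toOm M A E) := by
  intro U W h
  apply Subtype.ext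
  apply inclA_injective A
  exact congrArg Subtype.val h

theorem toOm_mem_Fc (U : ↥(intE M A E)) : toOm M A E U ∈ Fc M E := by
  obtain ⟨f, hf, hfU⟩ := U.2.2
  have : toOm M A E U = f := Subtype.ext hfU.symm
  rw [this]
  exact hf

/-- The reduction of an integral series. -/
def redE : ↥(intE M A E) →+* LaurentSeries (IsLocalRing.ResidueField ↥A) :=
  (redA A).comp (intE M A E).subtype

@[simp] theorem redE_apply (U : ↥(intE M A E)) :
    redE M A E U = redA A (U : LaurentSeries ↥A) := rfl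

theorem toOm_ne_zero_of_redE {U : ↥(intE M A E)} (h : redE M A E U ≠ 0) :
    toOm M A E U ≠ 0 := by
  intro h0
  apply h
  have : U = 0 := toOm_injective M A E (by rw [h0, _root_.map_zero])
  rw [this, _root_.map_zero]

theorem mem_Vc_iff' {f : Om M} :
    f ∈ Vc M A E ↔ ∃ U₁ U₂ : ↥(intE M A E), redE M A E U₂ ≠ 0 ∧
      f * toOm M A E U₂ = toOm M A E U₁ := by
  constructor
  · rintro ⟨-, U₁, U₂, h₁, h₂, hne, heq⟩
    exact ⟨⟨U₁, (mem_intE M A E).mpr h₁⟩, ⟨U₂, (mem_intE M A E).mpr h₂⟩, hne, Subtype.ext heq⟩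
  · rintro ⟨U₁, U₂, hne, heq⟩
    have h2 := toOm_ne_zero_of_redE M A E hne
    have hf : f = toOm M A E U₁ * (toOm M A E U₂)⁻¹ := by
      rw [← heq, mul_assoc, mul_inv_cancel₀ h2, mul_one]
    refine ⟨?_, U₁, U₂, (mem_intE M A E).mp U₁.2, (mem_intE M A E).mp U₂.2, hne, ?_⟩
    · rw [hf]
      exact mul_mem (toOm_mem_Fc M A E U₁) (inv_mem (toOm_mem_Fc M A E U₂))
    · exact congrArg Subtype.val heq

theorem toOm_mem_Vc (U : ↥(intE M A E)) : toOm M A E U ∈ Vc M A E :=
  (mem_Vc_iff' M A E).mpr ⟨U, 1, by rw [_root_.map_one]; exact one_ne_zero, by rw [_root_.map_one, mul_one]⟩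

theorem inv_toOm_mem_Vc {U : ↥(intE M A E)} (h : redE M A E U ≠ 0) :
    (toOm M A E U)⁻¹ ∈ Vc M A E :=
  (mem_Vc_iff' M A E).mpr ⟨1, U, h, by
    rw [_root_.map_one, inv_mul_cancel₀ (toOm_ne_zero_of_redE M A E h)]⟩

/-! ### Constants -/

theorem mem_Ec_iff {r : Om M} : r ∈ Ec M E ↔ ∃ c : Qb, c ∈ E ∧ algebraMap Qb (Om M) c = r := by
  constructor
  · rintro ⟨c, hc, rfl⟩
    exact ⟨c, hc, rfl⟩
  · rintro ⟨c, hc, rfl⟩
    exact ⟨c, hc, rfl⟩

theorem mem_Rc_iff {r : Om M} :
    r ∈ Rc M A E ↔ ∃ c : Qb, c ∈ A ∧ c ∈ E ∧ algebraMap Qb (Om M) c = r := by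
  constructor
  · rintro ⟨c, ⟨hcA, hcE⟩, rfl⟩
    exact ⟨c, hcA, hcE, rfl⟩
  · rintro ⟨c, hcA, hcE, rfl⟩
    exact ⟨c, ⟨hcA, hcE⟩, rfl⟩

theorem coe_algebraMap_Om (c : Qb) :
    ((algebraMap Qb (Om M) c : Om M) : LaurentSeries Qb) = HahnSeries.C c := by
  show algebraMap Qb (LaurentSeries Qb) c = _
  rw [algebraMap_laurentSeries_eq_single, ← HahnSeries.C_apply]

theorem Ec_le_Fc : Ec M E ≤ Fc M E := fun _ h => Subfield.subset_closure (Or.inl h)

theorem Rc_le_Ec : (Rc M A E : Set (Om M)) ⊆ Ec M E := by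
  intro r hr
  obtain ⟨c, -, hcE, rfl⟩ := (mem_Rc_iff M A E).mp hr
  exact (mem_Ec_iff M E).mpr ⟨c, hcE, rfl⟩

theorem C_mem_intE {c : Qb} (hcA : c ∈ A) (hcE : c ∈ E) :
    (HahnSeries.C (⟨c, hcA⟩ : ↥A) : LaurentSeries ↥A) ∈ intE M A E := by
  rw [mem_intE]
  refine ⟨fun n => ?_, algebraMap Qb (Om M) c, Ec_le_Fc M E ((mem_Ec_iff M E).mpr ⟨c, hcE, rfl⟩), ?_⟩
  · rw [HahnSeries.C_apply, HahnSeries.coeff_single]
    split_ifs
    · exact hcE
    · exact zero_mem _
  · rw [coe_algebraMap_Om, H516.coeffMap_C]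
    rfl

/-- The constant series of `c ∈ A ∩ E`. -/
def cInt {c : Qb} (hcA : c ∈ A) (hcE : c ∈ E) : ↥(intE M A E) :=
  ⟨HahnSeries.C (⟨c, hcA⟩ : ↥A), C_mem_intE M A E hcA hcE⟩

theorem toOm_cInt {c : Qb} (hcA : c ∈ A) (hcE : c ∈ E) :
    toOm M A E (cInt M A E hcA hcE) = algebraMap Qb (Om M) c := by
  apply Subtype.ext
  rw [coe_toOm, coe_algebraMap_Om]
  show coeffMap A.subtype (HahnSeries.C (⟨c, hcA⟩ : ↥A)) = _
  rw [H516.coeffMap_C]
  rfl

theorem redE_cInt {c : Qb} (hcA : c ∈ A) (hcE : c ∈ E) :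
    redE M A E (cInt M A E hcA hcE) = HahnSeries.C (IsLocalRing.residue ↥A ⟨c, hcA⟩) := by
  show coeffMap (IsLocalRing.residue ↥A) (HahnSeries.C (⟨c, hcA⟩ : ↥A)) = _
  rw [H516.coeffMap_C]

/-! ### The coordinate `j` -/

theorem coe_jOm : ((jOm M : Om M) : LaurentSeries Qb) = jqModC Qb := by
  show coeffEmb Qb (qExpand ℚ 1 jq) = _
  rw [qExpand_one_apply, H516.coeffEmb_jq]

theorem jOm_mem_Fc : jOm M ∈ Fc M E :=
  Subfield.subset_closure (Or.inr ⟨1, inferInstance, one_dvd M, rfl⟩)

theorem jqModC_mem_intE : (jqModC ↥A : LaurentSeries ↥A) ∈ intE M A E := by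
  rw [mem_intE]
  refine ⟨fun n => ?_, jOm M, jOm_mem_Fc M E, ?_⟩
  · have h : ((jqModC ↥A).coeff n : Qb) = (((jqModC ℤ).coeff n : ℤ) : Qb) := by
      have h1 : jqModC ↥A = coeffMap (Int.castRingHom ↥A) (jqModC ℤ) := (coeffMap_jqModC (Int.castRingHom ↥A)).symm
      rw [h1, coeffMap_coeff]
      simp
    rw [h]
    exact intCast_mem E _
  · rw [coe_jOm, coeffMap_jqModC]

/-- `j` as an integral series. -/
def jInt : ↥(intE M A E) := ⟨jqModC ↥A, jqModC_mem_intE M A E⟩

theorem toOm_jInt : toOm M A E (jInt M A E) = jOm M := by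
  apply Subtype.ext
  rw [coe_toOm, coe_jOm]
  show coeffMap A.subtype (jqModC ↥A) = _
  rw [coeffMap_jqModC]

theorem redE_jInt : redE M A E (jInt M A E) = jqModC (IsLocalRing.ResidueField ↥A) := by
  show coeffMap (IsLocalRing.residue ↥A) (jqModC ↥A) = _
  rw [coeffMap_jqModC]

theorem jOm_mem_Vc : jOm M ∈ Vc M A E := by
  rw [← toOm_jInt M A E]
  exact toOm_mem_Vc M A E _

end Fermat.Agent.S18.Mod.H216

end
end
-- ===== PACK-END S18/Mod/H216/IntE.lean

-- ===== PACK-BEGIN S20/Comb694/OrbitCounts.lean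
section




/-!
# Orbit counts of `S` and `S * T` on `SL(2,ℤ) ⧸ Gamma0 N`, and the genus identity

* `two_mul_card_orbits_S : 2 * #(Q / ⟨S⟩) = ψ(N) + ν₂(N)`
* `three_mul_card_orbits_ST : 3 * #(Q / ⟨S * T⟩) = ψ(N) + 2 * ν₃(N)`
* `genusFormula_eq_of_card_orbits_T` : the Euler-characteristic identity
  `genusFormula N = 1 + (μ - o₂ - o₃ - o∞) / 2`.
-/

set_option autoImplicit false

namespace Fermat.Agent.S20.Comb694

open Matrix MatrixGroups CongruenceSubgroup MulAction Subgroup

/-- `-1` acts trivially on `SL(2,ℤ) ⧸ Γ₀(N)`. -/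
lemma neg_one_smul_quotient (N : ℕ) (q : SL(2, ℤ) ⧸ Gamma0 N) : (-1 : SL(2, ℤ)) • q = q := by
  obtain ⟨g, rfl⟩ := QuotientGroup.mk_surjective q
  rw [smul_mk_eq_mk_iff]
  have h : ∀ i j, ((-1 : SL(2, ℤ)) * g) i j = - g i j := by
    intro i j
    rw [_root_.neg_mul, _root_.one_mul, Matrix.SpecialLinearGroup.coe_neg, Matrix.neg_apply]
  rw [h, h]
  push_cast
  ring

lemma S_pow_two : ModularGroup.S ^ 2 = (-1 : SL(2, ℤ)) := by
  apply Subtype.ext
  rw [pow_two, Matrix.SpecialLinearGroup.coe_mul, ModularGroup.coe_S,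
    Matrix.SpecialLinearGroup.coe_neg, Matrix.SpecialLinearGroup.coe_one]
  ext i j
  fin_cases i <;> fin_cases j <;> simp [Matrix.mul_apply, Fin.sum_univ_two]

lemma ST_pow_three : (ModularGroup.S * ModularGroup.T) ^ 3 = (-1 : SL(2, ℤ)) := by
  apply Subtype.ext
  rw [pow_succ, pow_two, Matrix.SpecialLinearGroup.coe_mul, Matrix.SpecialLinearGroup.coe_mul,
    coe_S_mul_T, Matrix.SpecialLinearGroup.coe_neg, Matrix.SpecialLinearGroup.coe_one]
  ext i j
  fin_cases i <;> fin_cases j <;> simp [Matrix.mul_apply, Fin.sum_univ_two]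

/-- `2 * #(S-orbits) = ψ(N) + ν₂(N)`. -/
theorem two_mul_card_orbits_S (N : ℕ) [NeZero N] :
    2 * Nat.card (orbitRel.Quotient (zpowers ModularGroup.S) (SL(2, ℤ) ⧸ Gamma0 N))
      = ModularCurve.dedekindPsi N + ModularCurve.nuTwo N := by
  have h := prime_mul_card_orbits (X := SL(2, ℤ) ⧸ Gamma0 N) ModularGroup.S 2 Nat.prime_two
    (fun x => by rw [S_pow_two]; exact neg_one_smul_quotient N x)
  rw [card_quotient_Gamma0, card_fixedBy_S] at h
  exact h.trans (by norm_num)

/-- `3 * #(ST-orbits) = ψ(N) + 2 * ν₃(N)`. -/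
theorem three_mul_card_orbits_ST (N : ℕ) [NeZero N] :
    3 * Nat.card (orbitRel.Quotient (zpowers (ModularGroup.S * ModularGroup.T))
        (SL(2, ℤ) ⧸ Gamma0 N))
      = ModularCurve.dedekindPsi N + 2 * ModularCurve.nuThree N := by
  have h := prime_mul_card_orbits (X := SL(2, ℤ) ⧸ Gamma0 N)
    (ModularGroup.S * ModularGroup.T) 3 Nat.prime_three
    (fun x => by rw [ST_pow_three]; exact neg_one_smul_quotient N x)
  rw [card_quotient_Gamma0, card_fixedBy_ST] at h
  exact h.trans (by norm_num)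

/-- The Euler-characteristic identity: with `μ = #Q`, `o₂`, `o₃`, `o∞` the numbers of orbits of
`S`, `S * T`, `T` on `Q = SL(2,ℤ) ⧸ Γ₀(N)`, one has `genusFormula N = 1 + (μ - o₂ - o₃ - o∞) / 2`,
provided `o∞ = cuspCount N`. -/
theorem genusFormula_eq_of_card_orbits_T (N : ℕ) [NeZero N]
    (hT : Nat.card (orbitRel.Quotient (zpowers ModularGroup.T) (SL(2, ℤ) ⧸ Gamma0 N))
      = ModularCurve.cuspCount N) :
    ModularCurve.genusFormula N
      = 1 + ((Nat.card (SL(2, ℤ) ⧸ Gamma0 N) : ℚ)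
          - (Nat.card (orbitRel.Quotient (zpowers ModularGroup.S) (SL(2, ℤ) ⧸ Gamma0 N)) : ℚ)
          - (Nat.card (orbitRel.Quotient (zpowers (ModularGroup.S * ModularGroup.T))
              (SL(2, ℤ) ⧸ Gamma0 N)) : ℚ)
          - (Nat.card (orbitRel.Quotient (zpowers ModularGroup.T)
              (SL(2, ℤ) ⧸ Gamma0 N)) : ℚ)) / 2 := by
  have h2 := two_mul_card_orbits_S N
  have h3 := three_mul_card_orbits_ST N
  have h2' := congrArg (Nat.cast : ℕ → ℚ) h2
  have h3' := congrArg (Nat.cast : ℕ → ℚ) h3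
  push_cast at h2' h3'
  rw [hT, card_quotient_Gamma0, ModularCurve.genusFormula]
  linear_combination (1 / 4 : ℚ) * h2' + (1 / 6 : ℚ) * h3'

/-- Orbit-count form used by dimension bounds: `μ + 2 - o₂ - o₃ - o∞ = 2 * genusFormula N`. -/
theorem two_mul_genusFormula_of_card_orbits_T (N : ℕ) [NeZero N]
    (hT : Nat.card (orbitRel.Quotient (zpowers ModularGroup.T) (SL(2, ℤ) ⧸ Gamma0 N))
      = ModularCurve.cuspCount N) :
    2 * ModularCurve.genusFormula N
      + (Nat.card (orbitRel.Quotient (zpowers ModularGroup.S) (SL(2, ℤ) ⧸ Gamma0 N)) : ℚ)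
      + (Nat.card (orbitRel.Quotient (zpowers (ModularGroup.S * ModularGroup.T))
          (SL(2, ℤ) ⧸ Gamma0 N)) : ℚ)
      + (Nat.card (orbitRel.Quotient (zpowers ModularGroup.T) (SL(2, ℤ) ⧸ Gamma0 N)) : ℚ)
      = (Nat.card (SL(2, ℤ) ⧸ Gamma0 N) : ℚ) + 2 := by
  rw [genusFormula_eq_of_card_orbits_T N hT]
  ring

end Fermat.Agent.S20.Comb694

end
-- ===== PACK-END S20/Comb694/OrbitCounts.lean

-- ===== PACK-BEGIN S18/B12/H278/SF.lean
section


/-!
# b2-SF and b2-SF' (helper278): proofs of the frozen statements `SFIdemStatement` and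
`SFLatticeStatement` of `Fermat/Agent/S18/B12/Spec.lean`.

Both are instances of `exists_smul_mem_range_of_isIntegral` (`Transfer.lean`), which is the
localisation at `(t)` of the DVR normality criterion `mem_range_of_isIntegral`
(`Fermat/Agent/S37/H278/Normal.lean`).
-/

set_option autoImplicit false
set_option linter.style.haveILetI false
set_option linter.unusedSectionVars false

namespace Fermat.Agent.S18.B12.H278

open Module Polynomial Fermat.Agent.S37.H278

universe u v

/-- An idempotent is integral. -/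
theorem isIntegral_of_mul_self_eq {Λ : Type*} [CommRing Λ] [Nontrivial Λ] {L : Type*} [CommRing L] [Algebra Λ L]
    {ε : L} (hε : ε * ε = ε) : IsIntegral Λ ε := by
  refine ⟨X ^ 2 - X, ?_, ?_⟩
  · apply monic_X_pow_sub
    rw [degree_X]
    norm_num
  · simp [pow_two, hε]

/-- **b2-SF'** (= frozen statement `SFIdemStatement` of `B12/Spec.lean`, unfolded). -/
theorem sfIdem :
  ∀ (Λ : Type u) [CommRing Λ] [IsDomain Λ] [IsPrincipalIdealRing Λ] (t : Λ) (_ : Prime t)
    (L : Type v) [CommRing L] [Algebra Λ L] [Module.IsTorsionFree Λ L] (C : Subalgebra Λ L)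
    (n : ℕ) (b : Module.Basis (Fin n) Λ C)
    (s : ℕ) (y : Fin s → C)
    (_ : ∀ x : C, ∃ a : Fin s → Λ,
        x - ∑ i, a i • y i ∈ (Ideal.span {algebraMap Λ C t}).radical),
    Algebra.discr Λ b ≠ 0 → ¬ t ^ (n - s + 1) ∣ Algebra.discr Λ b →
    ∀ ε : L, ε * ε = ε → (∃ g₀ : Λ, g₀ ≠ 0 ∧ g₀ • ε ∈ C) → ∃ g : Λ, ¬ t ∣ g ∧ g • ε ∈ C := by
  intro Λ _ _ _ t ht L _ _ _ C n b s y hy _ hd ε hε hε0
  have hL : ∀ (g : Λ) (l : L), g ≠ 0 → g • l = 0 → l = 0 := by
    intro g l hg h
    have hreg : IsSMulRegular L g := Module.IsTorsionFree.isSMulRegular (IsRegular.of_ne_zero hg)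
    exact hreg (by simpa using h)
  have hx0 : ∃ g₀ : Λ, g₀ ≠ 0 ∧ g₀ • ε ∈ (C.val : C →ₐ[Λ] L).range := by
    obtain ⟨g₀, h0, h1⟩ := hε0
    exact ⟨g₀, h0, ⟨⟨_, h1⟩, rfl⟩⟩
  obtain ⟨g, hg, c, hc⟩ := exists_smul_mem_range_of_isIntegral ht hL C.val
    Subtype.val_injective b s y hy (by simpa using hd) ε (isIntegral_of_mul_self_eq hε) hx0
  refine ⟨g, hg, ?_⟩
  have hc' : (c : L) = g • ε := hc
  rw [← hc']
  exact c.2

/-- An injective linear map between free modules of the same finite rank over a domain has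
torsion cokernel: `d • N ⊆ range f` for some `d ≠ 0` (`d` = determinant). -/
theorem exists_smul_mem_range_of_injective {Λ : Type*} [CommRing Λ] [IsDomain Λ]
    {M N : Type*} [AddCommGroup M] [AddCommGroup N] [Module Λ M] [Module Λ N]
    {ι : Type*} [Fintype ι] [DecidableEq ι] (b : Basis ι Λ M) (bt : Basis ι Λ N)
    (f : M →ₗ[Λ] N) (hf : Function.Injective f) :
    ∃ d : Λ, d ≠ 0 ∧ ∀ z : N, d • z ∈ LinearMap.range f := by
  classical
  set A := LinearMap.toMatrix b bt f with hA
  have hdet : A.det ≠ 0 := by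
    intro h0
    obtain ⟨v, hv, hAv⟩ := Matrix.exists_mulVec_eq_zero_iff.mpr h0
    have h1 : f (b.equivFun.symm v) = 0 := by
      apply bt.equivFun.injective
      rw [_root_.map_zero]
      have := LinearMap.toMatrix_mulVec_repr b bt f (b.equivFun.symm v)
      rw [← hA] at this
      have hv' : ⇑(b.repr (b.equivFun.symm v)) = v := by
        rw [← Basis.equivFun_apply, LinearEquiv.apply_symm_apply]
      rw [hv', hAv] at this
      funext i
      have := congrFun this i
      simpa using this.symm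
    have h2 : b.equivFun.symm v = 0 := hf (by rw [h1, _root_.map_zero])
    apply hv
    have := congrArg b.equivFun h2
    rw [LinearEquiv.apply_symm_apply, _root_.map_zero] at this
    exact this
  refine ⟨A.det, hdet, fun z => ⟨Matrix.toLin bt b A.adjugate z, ?_⟩⟩
  have h3 : f ∘ₗ Matrix.toLin bt b A.adjugate = A.det • LinearMap.id := by
    conv_lhs => rw [← Matrix.toLin_toMatrix b bt f, ← hA]
    rw [← Matrix.toLin_mul, Matrix.mul_adjugate, _root_.map_smul, Matrix.toLin_one]
  have := LinearMap.congr_fun h3 z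
  simpa using this

/-- **b2-SF** (= frozen statement `SFLatticeStatement` of `B12/Spec.lean`, unfolded). -/
theorem sfLattice :
  ∀ (Λ : Type u) [CommRing Λ] [IsDomain Λ] [IsPrincipalIdealRing Λ] (t : Λ) (_ : Prime t)
    (L : Type v) [CommRing L] [Algebra Λ L] (C Ct : Subalgebra Λ L) (_ : C ≤ Ct)
    (n : ℕ) (b : Module.Basis (Fin n) Λ C) (_ : Module.Basis (Fin n) Λ Ct)
    (s : ℕ) (y : Fin s → C)
    (_ : ∀ x : C, ∃ a : Fin s → Λ,
        x - ∑ i, a i • y i ∈ (Ideal.span {algebraMap Λ C t}).radical),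
    Algebra.discr Λ b ≠ 0 → ¬ t ^ (n - s + 1) ∣ Algebra.discr Λ b →
    ∀ x ∈ Ct, ∃ g : Λ, ¬ t ∣ g ∧ g • x ∈ C := by
  intro Λ _ _ _ t ht L _ _ C Ct hle n b bt s y hy _ hd x hx
  haveI : Module.Free Λ Ct := Module.Free.of_basis bt
  have hL : ∀ (g : Λ) (l : Ct), g ≠ 0 → g • l = 0 → l = 0 := by
    intro g l hg h
    exact smul_eq_zero_imp hg h
  have hf : Function.Injective (Subalgebra.inclusion hle) := Subalgebra.inclusion_injective hle
  haveI : Module.Finite Λ Ct := Module.Finite.of_basis bt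
  have hxint : IsIntegral Λ (⟨x, hx⟩ : Ct) := Algebra.IsIntegral.isIntegral _
  obtain ⟨d, hd0, hdr⟩ := exists_smul_mem_range_of_injective b bt
    (Subalgebra.inclusion hle).toLinearMap hf
  have hx0 : ∃ g₀ : Λ, g₀ ≠ 0 ∧ g₀ • (⟨x, hx⟩ : Ct) ∈ (Subalgebra.inclusion hle).range := by
    obtain ⟨c, hc⟩ := hdr ⟨x, hx⟩
    exact ⟨d, hd0, c, hc⟩
  obtain ⟨g, hg, c, hc⟩ := exists_smul_mem_range_of_isIntegral ht hL (Subalgebra.inclusion hle)
    hf b s y hy (by simpa using hd) ⟨x, hx⟩ hxint hx0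
  refine ⟨g, hg, ?_⟩
  have hc' : ((Subalgebra.inclusion hle c : Ct) : L) = g • x := congrArg Subtype.val hc
  rw [← hc']
  exact c.2

end Fermat.Agent.S18.B12.H278

end
-- ===== PACK-END S18/B12/H278/SF.lean

-- ===== PACK-BEGIN S18/H754/HncTyped.lean
section


/-!
# S18 / ALG-FRONT / hNC adapter, typed form

The hypothesis `hNC` of `B12.B2RegularStatement`, from the `unramified` field of `Alg.GoodModel`:

    hNC_typed : ∀ π : R[X], Prime π → ¬ Associated π (C w) → (∀ c ∈ S, ¬ Associated π (X - C c)) →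
        (Ideal.span {algebraMap R[X] B π}).IsRadical

for `R` a DVR of characteristic `0`, `B` a finite torsion-free integrally closed `R[X]`-algebra,
domain, with `C w` prime in `B`, embedded in a field `Ω` with an algebraically closed subfield of
constants `Lc ⊇ R`, algebraic over `R`.
-/

set_option autoImplicit false

noncomputable section

namespace Fermat.Agent.S18.H754

open Polynomial

section Dvd

variable {A B : Type*} [CommRing A] [IsDomain A] [IsIntegrallyClosed A]
  [CommRing B] [IsDomain B] [Algebra A B] [Module.IsTorsionFree A B] [Algebra.IsIntegral A B]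

/-- Divisibility in an integral torsion-free extension domain of an integrally closed domain
descends. -/
theorem dvd_of_algebraMap_dvd {a q : A} (ha : a ≠ 0)
    (h : algebraMap A B a ∣ algebraMap A B q) : a ∣ q := by
  have hinj : Function.Injective (algebraMap A B) := FaithfulSMul.algebraMap_injective A B
  obtain ⟨b, hb⟩ := h
  have hbint : IsIntegral A b := Algebra.IsIntegral.isIntegral b
  set p : A[X] := C a * X - C q with hp
  have hpb : aeval b p = 0 := by
    rw [hp, _root_.map_sub, _root_.map_mul, aeval_C, aeval_C, aeval_X, hb, sub_self]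
  have hdvd : minpoly A b ∣ p := minpoly.isIntegrallyClosed_dvd hbint hpb
  have hp1 : p.coeff 1 = a := by
    rw [hp]
    simp
  have hp0 : p ≠ 0 := by
    intro h0
    rw [h0, coeff_zero] at hp1
    exact ha hp1.symm
  have hpdeg : p.natDegree ≤ 1 := by
    rw [hp]
    refine (natDegree_sub_le _ _).trans (max_le ?_ ?_)
    · exact (natDegree_C_mul_X a ha).le
    · rw [natDegree_C]; exact Nat.zero_le _
  have hmdeg : (minpoly A b).natDegree ≤ 1 := (natDegree_le_of_dvd hdvd hp0).trans hpdeg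
  have hmpos : 0 < (minpoly A b).natDegree := minpoly.natDegree_pos hbint
  have hm1 : (minpoly A b).natDegree = 1 := le_antisymm hmdeg hmpos
  have hmonic : (minpoly A b).Monic := minpoly.monic hbint
  have hmeq := eq_X_add_C_of_natDegree_le_one hmdeg
  have hlead : (minpoly A b).coeff 1 = 1 := by
    have := hmonic.coeff_natDegree
    rwa [hm1] at this
  rw [hlead, C_1, one_mul] at hmeq
  have hmb : aeval b (minpoly A b) = 0 := minpoly.aeval A b
  rw [hmeq, _root_.map_add, aeval_X, aeval_C] at hmb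
  have hb' : b = algebraMap A B (-(minpoly A b).coeff 0) := by
    rw [_root_.map_neg]
    exact eq_neg_of_add_eq_zero_left hmb
  refine ⟨-(minpoly A b).coeff 0, ?_⟩
  apply hinj
  rw [_root_.map_mul, ← hb', hb]

end Dvd

section Constants

variable {R : Type*} [CommRing R] [IsDomain R] [IsDiscreteValuationRing R]
  {Ω : Type*} [Field Ω]

/-- An element algebraic over a DVR `R` becomes integral after multiplication by a power of the
uniformiser. -/
theorem exists_pow_mul_isIntegralElem (ι : R →+* Ω) (w : R) (hw : Irreducible w)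
    (a : Ω) (ha : ∃ p : R[X], p ≠ 0 ∧ eval₂ ι a p = 0) :
    ∃ n : ℕ, ι.IsIntegralElem (ι w ^ n * a) := by
  letI : Algebra R Ω := ι.toAlgebra
  have halg : IsAlgebraic R a := by
    obtain ⟨p, hp0, hp⟩ := ha
    exact ⟨p, hp0, by rw [aeval_def]; exact hp⟩
  obtain ⟨y, hy0, hy⟩ := halg.exists_integral_multiple
  obtain ⟨n, u, rfl⟩ := IsDiscreteValuationRing.eq_unit_mul_pow_irreducible hy0 hw
  refine ⟨n, ?_⟩
  have h1 : IsIntegral R ((((u⁻¹ : Rˣ) : R)) • ((u : R) * w ^ n) • a) :=
    IsIntegral.smul _ hy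
  have h2 : (((u⁻¹ : Rˣ) : R)) • ((u : R) * w ^ n) • a = ι w ^ n * a := by
    rw [smul_smul, ← mul_assoc, Units.inv_mul, one_mul, Algebra.smul_def, _root_.map_pow]
    rfl
  rw [h2] at h1
  exact h1

variable [CharZero R]

/-- Factorisation over the constants of a nonconstant irreducible polynomial over `R`: pairwise
distinct roots. -/
theorem exists_factorization_of_irreducible (ι : R →+* Ω) (hι : Function.Injective ι)
    (Lc : Subfield Ω) (hLcl : IsAlgClosed Lc) (hRL : ∀ r, ι r ∈ Lc)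
    (π : R[X]) (hπ : Irreducible π) (hdeg : π.natDegree ≠ 0) :
    ∃ (roots : Finset Ω) (lc : Ω), lc ∈ Lc ∧ lc ≠ 0 ∧
      (∀ c ∈ roots, c ∈ Lc ∧ eval₂ ι c π = 0) ∧
      ∀ x : Ω, eval₂ ι x π = lc * ∏ c ∈ roots, (x - c) := by
  classical
  haveI := hLcl
  let K := FractionRing R
  have hprim : π.IsPrimitive := hπ.isPrimitive hdeg
  have hK : Irreducible (π.map (algebraMap R K)) :=
    (hprim.irreducible_iff_irreducible_map_fraction_map).1 hπ
  haveI : CharZero K := charZero_of_injective_algebraMap (IsFractionRing.injective R K)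
  have hsepK : (π.map (algebraMap R K)).Separable := hK.separable
  let ιL : R →+* Lc := ι.codRestrict Lc hRL
  have hιL : Function.Injective ιL := by
    intro a b hab
    apply hι
    exact congrArg Subtype.val hab
  let φ : K →+* Lc := IsFractionRing.lift hιL
  have hφ : φ.comp (algebraMap R K) = ιL := by
    ext r
    exact congrArg Subtype.val (IsFractionRing.lift_algebraMap hιL r)
  set Q : Lc[X] := π.map ιL with hQ
  have hQ' : Q = (π.map (algebraMap R K)).map φ := by
    rw [Polynomial.map_map, hφ]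
  have hsepQ : Q.Separable := by
    rw [hQ']
    exact hsepK.map
  have hsplit : Q.Splits := IsAlgClosed.splits Q
  have hQfac := hsplit.eq_prod_roots
  have hnodup : Q.roots.Nodup := nodup_roots hsepQ
  have hQ0 : Q ≠ 0 := by
    rw [hQ]
    exact (Polynomial.map_ne_zero_iff hιL).2 hπ.ne_zero
  have hsub : (Lc.subtype).comp ιL = ι := by
    ext r
    rfl
  have heval : ∀ x : Ω, eval₂ ι x π = eval₂ Lc.subtype x Q := by
    intro x
    rw [hQ, eval₂_map, hsub]
  refine ⟨Q.roots.toFinset.map ⟨Subtype.val, Subtype.val_injective⟩, (Q.leadingCoeff : Ω),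
    Q.leadingCoeff.2, ?_, ?_, ?_⟩
  · intro h0
    have : Q.leadingCoeff = 0 := Subtype.ext h0
    exact hQ0 (leadingCoeff_eq_zero.1 this)
  · intro c hc
    rw [Finset.mem_map] at hc
    obtain ⟨a, ha, rfl⟩ := hc
    rw [Multiset.mem_toFinset] at ha
    refine ⟨a.2, ?_⟩
    have hroot : Q.eval a = 0 := (mem_roots hQ0).1 ha
    rw [heval]
    change eval₂ Lc.subtype (Lc.subtype a) Q = 0
    rw [eval₂_at_apply, hroot, _root_.map_zero]
  · intro x
    rw [heval]
    conv_lhs => rw [hQfac]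
    rw [eval₂_mul, eval₂_C, eval₂_multiset_prod, Multiset.map_map, Finset.prod_map,
      Finset.prod_eq_multiset_prod, Multiset.toFinset_val, Multiset.dedup_eq_self.2 hnodup]
    congr 2
    refine Multiset.map_congr rfl fun a _ => ?_
    simp [eval₂_sub, eval₂_X, eval₂_C]

end Constants

section Typed

variable (R : Type*) [CommRing R] [IsDomain R] [IsDiscreteValuationRing R] [CharZero R]
  (B : Type*) [CommRing B] [IsDomain B] [IsIntegrallyClosed B] [Algebra R[X] B]
  [Module.Finite R[X] B] [Module.IsTorsionFree R[X] B]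
  {Ω : Type*} [Field Ω] [Algebra B Ω] [FaithfulSMul B Ω]

/-- **hNC, typed form** = the hypothesis `hNC` of `B12.B2RegularStatement`, from the `unramified`
field of `Alg.GoodModel` (with `x = algebraMap B Ω (algebraMap R[X] B X)`). -/
theorem hNC_typed (w : R) (hw : Irreducible w)
    (hwB : Prime (algebraMap R[X] B (C w)))
    (Lc : Subfield Ω) (hLcl : IsAlgClosed Lc)
    (hRL : ∀ r : R, algebraMap B Ω (algebraMap R[X] B (C r)) ∈ Lc)
    (hLalg : ∀ a ∈ Lc, ∃ p : R[X], p ≠ 0 ∧
      eval₂ ((algebraMap B Ω).comp ((algebraMap R[X] B).comp C)) a p = 0)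
    (S : Finset R) (SΩ : Finset Ω)
    (hS : ∀ c ∈ SΩ, ∃ s ∈ S, algebraMap B Ω (algebraMap R[X] B (C s)) = c)
    (hunr : ∀ O : ValuationSubring Ω, (∀ a ∈ Lc, a ∈ O) → ∀ c ∈ Lc, c ∉ SΩ →
        algebraMap B Ω (algebraMap R[X] B X) - c ∈ O →
        (algebraMap B Ω (algebraMap R[X] B X) - c)⁻¹ ∉ O →
        ∀ t ∈ O, t⁻¹ ∉ O → t * (algebraMap B Ω (algebraMap R[X] B X) - c)⁻¹ ∈ O) :
    ∀ π : R[X], Prime π → ¬ Associated π (C w) → (∀ c ∈ S, ¬ Associated π (X - C c)) →
        (Ideal.span {algebraMap R[X] B π}).IsRadical := by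
  classical
  intro π hπ hπw hπS
  haveI : IsNoetherianRing B := IsNoetherianRing.of_finite R[X] B
  haveI : Algebra.IsIntegral R[X] B := Algebra.IsIntegral.of_finite R[X] B
  have hinjRB : Function.Injective (algebraMap R[X] B) :=
    FaithfulSMul.algebraMap_injective R[X] B
  have hinjBΩ : Function.Injective (algebraMap B Ω) := FaithfulSMul.algebraMap_injective B Ω
  set ι : R →+* Ω := (algebraMap B Ω).comp ((algebraMap R[X] B).comp C) with hιdef
  have hι : Function.Injective ι := by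
    intro a b hab
    exact C_injective (hinjRB (hinjBΩ hab))
  have hwprime : Prime w := hw.prime
  have hCw : Irreducible (C w : R[X]) := (prime_C_iff.2 hwprime).irreducible
  -- `π` is not constant
  have hdeg : π.natDegree ≠ 0 := by
    intro h0
    obtain ⟨r, hr⟩ : ∃ r : R, π = C r := ⟨π.coeff 0, eq_C_of_natDegree_eq_zero h0⟩
    have hrp : Prime r := by
      rw [hr] at hπ
      exact prime_C_iff.1 hπ
    have hass : Associated r w :=
      IsDiscreteValuationRing.associated_of_irreducible R hrp.irreducible hw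
    apply hπw
    rw [hr]
    obtain ⟨u, hu⟩ := hass
    refine ⟨Units.map (C : R →+* R[X]).toMonoidHom u, ?_⟩
    simp only [Units.coe_map, RingHom.toMonoidHom_eq_coe, MonoidHom.coe_coe]
    rw [← _root_.map_mul, hu]
  have hπ'0 : algebraMap R[X] B π ≠ 0 := by
    intro h0
    exact hπ.ne_zero (hinjRB (by rw [h0, _root_.map_zero]))
  -- `w` lies in no height-one prime containing `π`
  have hwP : ∀ 𝔓 : Ideal B, 𝔓.IsPrime → 𝔓.height = 1 → algebraMap R[X] B π ∈ 𝔓 →
      algebraMap R[X] B (C w) ∉ 𝔓 := by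
    intro 𝔓 h𝔓 hht hπ𝔓 hw𝔓
    haveI := h𝔓
    haveI hwI : (Ideal.span {algebraMap R[X] B (C w)}).IsPrime :=
      (Ideal.span_singleton_prime hwB.ne_zero).2 hwB
    have hle : Ideal.span {algebraMap R[X] B (C w)} ≤ 𝔓 :=
      (Ideal.span_singleton_le_iff_mem _).2 hw𝔓
    by_cases heq : Ideal.span {algebraMap R[X] B (C w)} = 𝔓
    · rw [← heq, Ideal.mem_span_singleton] at hπ𝔓
      have hCw0 : (C w : R[X]) ≠ 0 := hCw.ne_zero
      have hdvd : (C w : R[X]) ∣ π := dvd_of_algebraMap_dvd (B := B) hCw0 hπ𝔓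
      exact hπw (hCw.associated_of_dvd hπ.irreducible hdvd).symm
    · have hlt : Ideal.span {algebraMap R[X] B (C w)} < 𝔓 := lt_of_le_of_ne hle heq
      have hfin : (Ideal.span {algebraMap R[X] B (C w)}).FiniteHeight := by
        refine ⟨Or.inr ?_⟩
        intro htop
        have h2 := Ideal.height_mono hle
        rw [htop, hht, top_le_iff] at h2
        exact ENat.one_ne_top h2
      have h3 := Ideal.height_strict_mono_of_isPrime hlt
      rw [hht, ENat.lt_one_iff_eq_zero] at h3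
      rw [Ideal.height_eq_zero_iff, IsDomain.minimalPrimes_eq_singleton_bot,
        Set.mem_singleton_iff, Ideal.span_singleton_eq_bot] at h3
      exact hwB.ne_zero h3
  -- constants become integral after multiplication by a power of `w`
  have hLc' : ∀ a ∈ Lc, ∃ n : ℕ,
      IsIntegral B (algebraMap B Ω (algebraMap R[X] B (C w)) ^ n * a) := by
    intro a ha
    obtain ⟨n, P, hP, hPa⟩ := exists_pow_mul_isIntegralElem ι w hw a (hLalg a ha)
    refine ⟨n, P.map ((algebraMap R[X] B).comp C), hP.map _, ?_⟩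
    rw [eval₂_map]
    exact hPa
  -- factorisation of `π` over the constants
  obtain ⟨roots, lc, hlc, hlc0, hroots, hfac⟩ :=
    exists_factorization_of_irreducible ι hι Lc hLcl hRL π hπ.irreducible hdeg
  have hcomp : (algebraMap B Ω).comp (algebraMap R[X] B) =
      eval₂RingHom ι (algebraMap B Ω (algebraMap R[X] B X)) := by
    apply Polynomial.ringHom_ext
    · intro r
      simp [hιdef]
    · simp
  have hfac' : algebraMap B Ω (algebraMap R[X] B π) =
      lc * ∏ c ∈ roots, (algebraMap B Ω (algebraMap R[X] B X) - c) := by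
    rw [← hfac]
    have := congrArg (fun f : R[X] →+* Ω => f π) hcomp
    simpa using this
  have hroots' : ∀ c ∈ roots, c ∈ Lc ∧ c ∉ SΩ := by
    intro c hc
    refine ⟨(hroots c hc).1, fun hcS => ?_⟩
    obtain ⟨s, hs, rfl⟩ := hS c hcS
    have h1 := (hroots _ hc).2
    change eval₂ ι (ι s) π = 0 at h1
    rw [eval₂_at_apply] at h1
    have h2 : π.eval s = 0 := hι (by rw [h1, _root_.map_zero])
    have h3 : (X - C s : R[X]) ∣ π := dvd_iff_isRoot.2 h2
    exact hπS s hs ((prime_X_sub_C s).irreducible.associated_of_dvd hπ.irreducible h3).symm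
  exact isRadical_span_of_unramified Lc (algebraMap R[X] B π) hπ'0 (algebraMap R[X] B (C w))
    hwP hLc' (algebraMap B Ω (algebraMap R[X] B X)) SΩ roots hroots' lc hlc hlc0 hfac' hunr

end Typed

end Fermat.Agent.S18.H754

end

end
-- ===== PACK-END S18/H754/HncTyped.lean

-- ===== PACK-BEGIN S56/FO/H6/CharInt.lean
section


/-!
# S56 / FLAT-O / CHAR-INT (helper6): characters are integral combinations of a Hopf lattice

`Λ` a Hopf lattice (cell A3, `Fermat.Agent.S19.H435.IsHopfLattice`) on a finite abelian group `M`.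

* `span_Qb_eq_top`: the `ℚ̄`-span of `Λ` is the space of all functions `M → ℚ̄` (a separating
  subalgebra of functions on a finite set).
* `isIntegral_coeff_of_character`: if `χ : M → ℚ̄` is multiplicative (`χ 0 = 1`,
  `χ (x + y) = χ x * χ y`) and `e` is a basis of `Λ` as in `IsHopfLattice.exists_basis`, then
  `χ = ∑ c i • e i` with all `c i` INTEGRAL over `ℤ_(ℓ)`.

Proof of integrality: if `e j (x + y) = ∑ γ j i k * e i x * e k y` (`γ ∈ ℤ_(ℓ)`), multiplicativity
of `χ` gives `c i * c k = ∑ j, γ j i k * c j`; so every `c i` stabilises the finitely generated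
`ℤ_(ℓ)`-module `∑ ℤ_(ℓ) c j ≠ 0`.  (No dual Hopf algebra, no group algebra.)
-/

set_option autoImplicit false
set_option linter.style.haveILetI false
set_option linter.unusedSectionVars false

noncomputable section

namespace Fermat.Agent.S56.FO.H6

open Fermat.Agent.S19.H435
open scoped BigOperators

variable {ℓ : ℕ} {M : Type*} [AddCommGroup M] {act : Gal → M → M}
  {Λ : Subalgebra (Zl ℓ) (M → _root_.Fermat.Agent.S19.H435.Qb)}

/-- The `ℚ̄`-span of a separating `ℤ_(ℓ)`-subalgebra of functions on a finite set is everything. -/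
theorem span_Qb_eq_top [Finite M] (hsep : ∀ m n : M, m ≠ n → ∃ f ∈ Λ, f m ≠ f n) :
    Submodule.span _root_.Fermat.Agent.S19.H435.Qb (Λ : Set (M → _root_.Fermat.Agent.S19.H435.Qb)) = ⊤ := by
  classical
  haveI : Fintype M := Fintype.ofFinite M
  set A : Subalgebra _root_.Fermat.Agent.S19.H435.Qb (M → _root_.Fermat.Agent.S19.H435.Qb) := Algebra.adjoin _root_.Fermat.Agent.S19.H435.Qb (Λ : Set (M → _root_.Fermat.Agent.S19.H435.Qb)) with hA
  have hδ : ∀ m : M, (Pi.single m (1 : _root_.Fermat.Agent.S19.H435.Qb) : M → _root_.Fermat.Agent.S19.H435.Qb) ∈ A := by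
    intro m
    have hex : ∀ n : M, ∃ g ∈ A, g m = 1 ∧ (n ≠ m → g n = 0) := by
      intro n
      by_cases h : n = m
      · exact ⟨1, A.one_mem, rfl, fun h' => absurd h h'⟩
      · obtain ⟨f, hf, hne⟩ := hsep m n (Ne.symm h)
        have hne' : f m - f n ≠ 0 := sub_ne_zero.mpr hne
        refine ⟨(f m - f n)⁻¹ • (f - algebraMap _root_.Fermat.Agent.S19.H435.Qb (M → _root_.Fermat.Agent.S19.H435.Qb) (f n)), ?_, ?_, ?_⟩
        · exact A.smul_mem (A.sub_mem (Algebra.subset_adjoin hf) (A.algebraMap_mem _)) _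
        · show (f m - f n)⁻¹ * (f m - f n) = 1
          exact inv_mul_cancel₀ hne'
        · intro _
          show (f m - f n)⁻¹ * (f n - f n) = 0
          rw [sub_self, mul_zero]
    choose g hgA hgm hgn using hex
    have hprod : (Pi.single m (1 : _root_.Fermat.Agent.S19.H435.Qb) : M → _root_.Fermat.Agent.S19.H435.Qb) = ∏ n, g n := by
      funext x
      rw [Finset.prod_apply]
      by_cases hx : x = m
      · subst hx
        rw [Pi.single_eq_same]
        exact (Finset.prod_eq_one fun n _ => hgm n).symm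
      · rw [Pi.single_eq_of_ne hx]
        exact (Finset.prod_eq_zero (f := fun c => g c x) (Finset.mem_univ x) (hgn x hx)).symm
    rw [hprod]
    exact A.prod_mem fun n _ => hgA n
  have hAtop : ∀ F : M → _root_.Fermat.Agent.S19.H435.Qb, F ∈ A := by
    intro F
    have hF : F = ∑ m, F m • (Pi.single m (1 : _root_.Fermat.Agent.S19.H435.Qb) : M → _root_.Fermat.Agent.S19.H435.Qb) := by
      funext x
      rw [Finset.sum_apply, Finset.sum_eq_single x]
      · simp
      · intro b _ hb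
        simp [Pi.single_eq_of_ne (Ne.symm hb)]
      · intro h
        exact absurd (Finset.mem_univ x) h
    rw [hF]
    exact A.sum_mem fun m _ => A.smul_mem (hδ m) _
  have hspan : Subalgebra.toSubmodule A = Submodule.span _root_.Fermat.Agent.S19.H435.Qb (Λ : Set (M → _root_.Fermat.Agent.S19.H435.Qb)) := by
    rw [hA, Algebra.adjoin_eq_span]
    congr 1
    exact congrArg SetLike.coe (Submonoid.closure_eq Λ.toSubmonoid)
  rw [eq_top_iff]
  intro F _
  rw [← hspan]
  exact hAtop F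

/-- Every function is a `ℚ̄`-combination of a basis of a Hopf lattice. -/
theorem exists_coeff_of_basis [Finite M] (hsep : ∀ m n : M, m ≠ n → ∃ f ∈ Λ, f m ≠ f n)
    {n : ℕ} (e : Fin n → M → _root_.Fermat.Agent.S19.H435.Qb)
    (hexp : ∀ f ∈ Λ, ∃ c : Fin n → Zl ℓ, f = ∑ i, c i • e i) (F : M → _root_.Fermat.Agent.S19.H435.Qb) :
    ∃ c : Fin n → _root_.Fermat.Agent.S19.H435.Qb, F = ∑ i, c i • e i := by
  have h1 : F ∈ Submodule.span _root_.Fermat.Agent.S19.H435.Qb (Λ : Set (M → _root_.Fermat.Agent.S19.H435.Qb)) := by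
    rw [span_Qb_eq_top hsep]
    exact Submodule.mem_top
  have h2 : Submodule.span _root_.Fermat.Agent.S19.H435.Qb (Λ : Set (M → _root_.Fermat.Agent.S19.H435.Qb)) ≤ Submodule.span _root_.Fermat.Agent.S19.H435.Qb (Set.range e) := by
    rw [Submodule.span_le]
    intro f hf
    obtain ⟨c, rfl⟩ := hexp f hf
    refine Submodule.sum_mem _ fun i _ => ?_
    have : c i • e i = (algebraMap (Zl ℓ) _root_.Fermat.Agent.S19.H435.Qb (c i)) • e i := (algebraMap_smul _root_.Fermat.Agent.S19.H435.Qb (c i) (e i)).symm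
    rw [this]
    exact Submodule.smul_mem _ _ (Submodule.subset_span ⟨i, rfl⟩)
  obtain ⟨c, hc⟩ := (Submodule.mem_span_range_iff_exists_fun _root_.Fermat.Agent.S19.H435.Qb).mp (h2 h1)
  exact ⟨c, hc.symm⟩

/-- Pointwise form of an expansion with `ℤ_(ℓ)`-coefficients. -/
theorem sum_Zl_smul_apply {n : ℕ} (c : Fin n → Zl ℓ) (e : Fin n → M → _root_.Fermat.Agent.S19.H435.Qb) (x : M) :
    (∑ i, c i • e i) x = ∑ i, algebraMap (Zl ℓ) _root_.Fermat.Agent.S19.H435.Qb (c i) * e i x := by
  rw [Finset.sum_apply]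
  refine Finset.sum_congr rfl fun i _ => ?_
  show c i • e i x = _
  rw [Algebra.smul_def]

/-- Pointwise form of an expansion with `ℚ̄`-coefficients. -/
theorem sum_Qb_smul_apply {n : ℕ} (c : Fin n → _root_.Fermat.Agent.S19.H435.Qb) (e : Fin n → M → _root_.Fermat.Agent.S19.H435.Qb) (x : M) :
    (∑ i, c i • e i) x = ∑ i, c i * e i x := by
  rw [Finset.sum_apply]
  rfl

/-- Comultiplication constants of a Hopf lattice in a basis. -/
theorem exists_comul_constants (hΛ : IsHopfLattice ℓ act Λ) {n : ℕ} (e : Fin n → M → _root_.Fermat.Agent.S19.H435.Qb)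
    (he : ∀ i, e i ∈ Λ) (hexp : ∀ f ∈ Λ, ∃ c : Fin n → Zl ℓ, f = ∑ i, c i • e i) :
    ∃ γ : Fin n → Fin n → Fin n → Zl ℓ, ∀ (j : Fin n) (x y : M),
      e j (x + y) = ∑ i, ∑ k, algebraMap (Zl ℓ) _root_.Fermat.Agent.S19.H435.Qb (γ j i k) * (e i x * e k y) := by
  have key : ∀ j : Fin n, ∃ γ : Fin n → Fin n → Zl ℓ, ∀ x y : M,
      e j (x + y) = ∑ i, ∑ k, algebraMap (Zl ℓ) _root_.Fermat.Agent.S19.H435.Qb (γ i k) * (e i x * e k y) := by
    intro j
    obtain ⟨N, a, b, ha, hb, hab⟩ := hΛ.comul_mem (e j) (he j)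
    choose α hα using fun t => hexp (a t) (ha t)
    choose β hβ using fun t => hexp (b t) (hb t)
    refine ⟨fun i k => ∑ t, α t i * β t k, fun x y => ?_⟩
    rw [hab x y]
    have h1 : ∀ t, a t x * b t y =
        ∑ i, ∑ k, algebraMap (Zl ℓ) _root_.Fermat.Agent.S19.H435.Qb (α t i * β t k) * (e i x * e k y) := by
      intro t
      rw [hα t, hβ t, sum_Zl_smul_apply, sum_Zl_smul_apply, Finset.sum_mul_sum]
      refine Finset.sum_congr rfl fun i _ => Finset.sum_congr rfl fun k _ => ?_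
      rw [map_mul]
      ring
    simp_rw [h1]
    rw [Finset.sum_comm]
    refine Finset.sum_congr rfl fun i _ => ?_
    rw [Finset.sum_comm]
    refine Finset.sum_congr rfl fun k _ => ?_
    rw [map_sum, Finset.sum_mul]
  choose γ hγ using key
  exact ⟨γ, hγ⟩

/-- `ℚ̄`-linear independence of the products `e i x * e k y`. -/
theorem eq_zero_of_sum_mul_eq_zero {n : ℕ} (e : Fin n → M → _root_.Fermat.Agent.S19.H435.Qb) (hli : LinearIndependent _root_.Fermat.Agent.S19.H435.Qb e)
    (w : Fin n → Fin n → _root_.Fermat.Agent.S19.H435.Qb) (h : ∀ x y : M, ∑ i, ∑ k, w i k * (e i x * e k y) = 0) :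
    ∀ i k, w i k = 0 := by
  have hli' := Fintype.linearIndependent_iff.mp hli
  have h1 : ∀ (y : M) (i : Fin n), ∑ k, w i k * e k y = 0 := by
    intro y
    apply hli'
    funext x
    rw [sum_Qb_smul_apply, Pi.zero_apply, ← h x y]
    refine Finset.sum_congr rfl fun i _ => ?_
    rw [Finset.sum_mul]
    refine Finset.sum_congr rfl fun k _ => ?_
    ring
  intro i
  apply hli'
  funext y
  rw [sum_Qb_smul_apply, Pi.zero_apply]
  exact h1 y i

/-- **CHAR-INT.**  A multiplicative function on `M` is an INTEGRAL combination of any basis of a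
Hopf lattice. -/
theorem isIntegral_coeff_of_character [Finite M] (hΛ : IsHopfLattice ℓ act Λ)
    {n : ℕ} (e : Fin n → M → _root_.Fermat.Agent.S19.H435.Qb) (he : ∀ i, e i ∈ Λ) (hli : LinearIndependent _root_.Fermat.Agent.S19.H435.Qb e)
    (hexp : ∀ f ∈ Λ, ∃ c : Fin n → Zl ℓ, f = ∑ i, c i • e i)
    (χ : M → _root_.Fermat.Agent.S19.H435.Qb) (h0 : χ 0 = 1) (hadd : ∀ x y : M, χ (x + y) = χ x * χ y) :
    ∃ c : Fin n → _root_.Fermat.Agent.S19.H435.Qb, (∀ i, IsIntegral (Zl ℓ) (c i)) ∧ χ = ∑ i, c i • e i := by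
  obtain ⟨c, hc⟩ := exists_coeff_of_basis hΛ.separates e hexp χ
  obtain ⟨γ, hγ⟩ := exists_comul_constants hΛ e he hexp
  refine ⟨c, ?_, hc⟩
  have hχ : ∀ x : M, χ x = ∑ i, c i * e i x := by
    intro x
    rw [hc, sum_Qb_smul_apply]
  -- the group-like identity
  have hgl : ∀ i k : Fin n, c i * c k = ∑ j, algebraMap (Zl ℓ) _root_.Fermat.Agent.S19.H435.Qb (γ j i k) * c j := by
    have := eq_zero_of_sum_mul_eq_zero e hli
      (fun i k => c i * c k - ∑ j, algebraMap (Zl ℓ) _root_.Fermat.Agent.S19.H435.Qb (γ j i k) * c j) (by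
        intro x y
        have h1 : ∑ i, ∑ k, c i * c k * (e i x * e k y) = χ x * χ y := by
          rw [hχ x, hχ y, Finset.sum_mul_sum]
          refine Finset.sum_congr rfl fun i _ => Finset.sum_congr rfl fun k _ => ?_
          ring
        have h2 : χ (x + y) =
            ∑ i, ∑ k, (∑ j, algebraMap (Zl ℓ) _root_.Fermat.Agent.S19.H435.Qb (γ j i k) * c j) * (e i x * e k y) := by
          rw [hχ (x + y)]
          have h3 : ∀ j, c j * e j (x + y) =
              ∑ i, ∑ k, algebraMap (Zl ℓ) _root_.Fermat.Agent.S19.H435.Qb (γ j i k) * c j * (e i x * e k y) := by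
            intro j
            rw [hγ j x y, Finset.mul_sum]
            refine Finset.sum_congr rfl fun i _ => ?_
            rw [Finset.mul_sum]
            refine Finset.sum_congr rfl fun k _ => ?_
            ring
          simp_rw [h3]
          rw [Finset.sum_comm]
          refine Finset.sum_congr rfl fun i _ => ?_
          rw [Finset.sum_comm]
          refine Finset.sum_congr rfl fun k _ => ?_
          rw [Finset.sum_mul]
        simp only [sub_mul, Finset.sum_sub_distrib]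
        rw [h1, ← h2, hadd, sub_self])
    intro i k
    exact sub_eq_zero.mp (this i k)
  -- the module generated by the coefficients
  set N : Submodule (Zl ℓ) _root_.Fermat.Agent.S19.H435.Qb := Submodule.span (Zl ℓ) (Set.range c) with hN
  have hNfg : N.FG := Submodule.fg_span (Set.finite_range c)
  have hNne : N ≠ ⊥ := by
    intro hbot
    have hc0 : ∀ i, c i = 0 := by
      intro i
      have : c i ∈ N := Submodule.subset_span ⟨i, rfl⟩
      rw [hbot] at this
      exact (Submodule.mem_bot _).mp this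
    have : χ 0 = 0 := by
      rw [hχ 0]
      exact Finset.sum_eq_zero fun i _ => by rw [hc0 i, zero_mul]
    rw [h0] at this
    exact one_ne_zero this
  intro i
  refine isIntegral_of_smul_mem_submodule (R := Zl ℓ) (A := _root_.Fermat.Agent.S19.H435.Qb) (M := _root_.Fermat.Agent.S19.H435.Qb) N hNne hNfg (c i) ?_
  intro z hz
  induction hz using Submodule.span_induction with
  | mem z hz =>
    obtain ⟨k, rfl⟩ := hz
    show c i * c k ∈ N
    rw [hgl i k]
    refine Submodule.sum_mem _ fun j _ => ?_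
    have : algebraMap (Zl ℓ) _root_.Fermat.Agent.S19.H435.Qb (γ j i k) * c j = γ j i k • c j := (Algebra.smul_def _ _).symm
    rw [this]
    exact Submodule.smul_mem _ _ (Submodule.subset_span ⟨j, rfl⟩)
  | zero =>
    rw [smul_zero]
    exact Submodule.zero_mem _
  | add x y _ _ hx hy =>
    rw [smul_add]
    exact Submodule.add_mem _ hx hy
  | smul r x _ hx =>
    rw [smul_comm]
    exact Submodule.smul_mem _ _ hx

end Fermat.Agent.S56.FO.H6

end
end
-- ===== PACK-END S56/FO/H6/CharInt.lean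

-- ===== PACK-BEGIN S19/H435/Quot.lean
section
/-
A3 / WP-C piece F (helper435): quotients of Hopf lattices.

For a surjective additive map `π : M →+ M''` compatible with the Galois actions, the functions
`g : M'' → Qb` with `g ∘ π ∈ Λ` form a Hopf lattice on `M''`.  No Cartier duality is used:
* the invariant sublattice is saturated, hence a direct summand (`exists_retraction`);
* `Δ`-closedness follows from `Qb`-independence of a basis (F1);
* separation of cosets uses norms `m ↦ ∏_{k ∈ ker π} h (m + k)` and Neumann's covering lemma.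
-/





set_option autoImplicit false
set_option linter.style.haveILetI false

noncomputable section

namespace Fermat.Agent.S19.H435

/-- A saturated submodule of a finite module over a PID is a direct summand. -/
theorem exists_retraction {R V : Type*} [CommRing R] [IsDomain R] [IsPrincipalIdealRing R]
    [AddCommGroup V] [Module R V] [Module.Finite R V] (N : Submodule R V)
    (hsat : ∀ (r : R) (v : V), r ≠ 0 → r • v ∈ N → v ∈ N) :
    ∃ ρ : V →ₗ[R] V, (∀ v, ρ v ∈ N) ∧ ∀ v ∈ N, ρ v = v := by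
  haveI : Module.IsTorsionFree R (V ⧸ N) := by
    refine Module.IsTorsionFree.of_smul_eq_zero fun r m h => ?_
    obtain ⟨v, rfl⟩ := N.mkQ_surjective m
    by_cases hr : r = 0
    · exact Or.inl hr
    · right
      rw [← map_smul, Submodule.mkQ_apply, Submodule.Quotient.mk_eq_zero] at h
      rw [Submodule.mkQ_apply, Submodule.Quotient.mk_eq_zero]
      exact hsat r v hr h
  haveI : Module.Free R (V ⧸ N) := Module.free_of_finite_type_torsion_free'
  obtain ⟨s, hs⟩ := Module.projective_lifting_property N.mkQ LinearMap.id N.mkQ_surjective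
  refine ⟨LinearMap.id - s ∘ₗ N.mkQ, ?_, ?_⟩
  · intro v
    rw [← Submodule.Quotient.mk_eq_zero]
    have h1 := LinearMap.congr_fun hs (N.mkQ v)
    simp only [LinearMap.comp_apply, LinearMap.id_apply, Submodule.mkQ_apply] at h1
    simp only [LinearMap.sub_apply, LinearMap.id_apply, LinearMap.comp_apply,
      Submodule.mkQ_apply, Submodule.Quotient.mk_sub, h1, sub_self]
  · intro v hv
    have h1 : N.mkQ v = 0 := by
      rw [Submodule.mkQ_apply, Submodule.Quotient.mk_eq_zero]
      exact hv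
    simp only [LinearMap.sub_apply, LinearMap.id_apply, LinearMap.comp_apply, h1, map_zero,
      sub_zero]

variable {ℓ : ℕ} {M : Type*} [AddCommGroup M] {act : Gal → M → M}
  {Λ : Subalgebra (Zl ℓ) (M → _root_.Fermat.Agent.S19.H435.Qb)}

namespace IsHopfLattice

theorem act_add (hΛ : IsHopfLattice ℓ act Λ) (σ : Gal) (x y : M) :
    act σ (x + y) = act σ x + act σ y := by
  by_contra hne
  obtain ⟨f, hf, hfne⟩ := hΛ.separates _ _ hne
  apply hfne
  obtain ⟨n, a, b, ha, hb, hab⟩ := hΛ.comul_mem f hf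
  rw [hΛ.equivariant f hf σ, hab, hab, map_sum]
  refine Finset.sum_congr rfl fun k _ => ?_
  rw [map_mul, hΛ.equivariant _ (ha k) σ, hΛ.equivariant _ (hb k) σ]

theorem act_zero (hΛ : IsHopfLattice ℓ act Λ) (σ : Gal) : act σ 0 = 0 := by
  have h := hΛ.act_add σ 0 0
  rw [add_zero] at h
  exact left_eq_add.mp h

theorem act_inv_act (hΛ : IsHopfLattice ℓ act Λ) (σ : Gal) (m : M) :
    act σ⁻¹ (act σ m) = m := by
  by_contra hne
  obtain ⟨f, hf, hfne⟩ := hΛ.separates _ _ hne
  apply hfne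
  rw [hΛ.equivariant f hf σ⁻¹, hΛ.equivariant f hf σ]
  exact AlgEquiv.symm_apply_apply σ (f m)

theorem act_act_inv (hΛ : IsHopfLattice ℓ act Λ) (σ : Gal) (m : M) :
    act σ (act σ⁻¹ m) = m := by
  have := hΛ.act_inv_act σ⁻¹ m
  rwa [inv_inv] at this

end IsHopfLattice

/-- `f` factors through `π`. -/
def IsInvFun {M'' : Type*} (π : M → M'') (f : M → _root_.Fermat.Agent.S19.H435.Qb) : Prop :=
  ∀ x y : M, π x = π y → f x = f y

omit [AddCommGroup M] in
theorem sum_smul_apply' {n : ℕ} (c : Fin n → Zl ℓ) (g : Fin n → M → _root_.Fermat.Agent.S19.H435.Qb) (x : M) :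
    (∑ i, c i • g i) x = ∑ i, algebraMap (Zl ℓ) _root_.Fermat.Agent.S19.H435.Qb (c i) * g i x := by
  simp [Finset.sum_apply, Algebra.smul_def]

namespace IsHopfLattice

/-- **F3.** The comultiplication of an invariant element of a Hopf lattice can be written with
invariant elements of the lattice. -/
theorem comul_inv [Fact ℓ.Prime] (hΛ : IsHopfLattice ℓ act Λ) {M'' : Type*} [AddCommGroup M'']
    (π : M →+ M'') {f : M → _root_.Fermat.Agent.S19.H435.Qb} (hf : f ∈ Λ) (hinv : IsInvFun π f) :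
    ∃ (n : ℕ) (a b : Fin n → M → _root_.Fermat.Agent.S19.H435.Qb), (∀ k, a k ∈ Λ ∧ IsInvFun π (a k)) ∧
      (∀ k, b k ∈ Λ ∧ IsInvFun π (b k)) ∧ ∀ x y : M, f (x + y) = ∑ k, a k x * b k y := by
  classical
  obtain ⟨n, e, he, -, hliQ, hexp⟩ := hΛ.exists_basis
  obtain ⟨p, a, b, ha, hb, hab⟩ := hΛ.comul_mem f hf
  choose β hβ using fun k => hexp (b k) (hb k)
  -- Step 1
  set u : Fin n → M → _root_.Fermat.Agent.S19.H435.Qb := fun j => ∑ k, β k j • a k with hu
  have hu_mem : ∀ j, u j ∈ Λ := fun j =>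
    Subalgebra.sum_mem _ fun k _ => Subalgebra.smul_mem _ (ha k) _
  have hu_apply : ∀ j x, u j x = ∑ k, algebraMap (Zl ℓ) _root_.Fermat.Agent.S19.H435.Qb (β k j) * a k x := by
    intro j x
    simp [hu, Finset.sum_apply, Algebra.smul_def]
  have hfu : ∀ x y, f (x + y) = ∑ j, u j x * e j y := by
    intro x y
    rw [hab]
    simp only [hu_apply, Finset.sum_mul]
    rw [Finset.sum_comm]
    refine Finset.sum_congr rfl fun k _ => ?_
    conv_lhs => rw [hβ k, sum_smul_apply', Finset.mul_sum]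
    refine Finset.sum_congr rfl fun j _ => ?_
    ring
  have key : ∀ (d : Fin n → _root_.Fermat.Agent.S19.H435.Qb), (∀ y, ∑ j, d j * e j y = 0) → ∀ j, d j = 0 := by
    intro d hd
    refine Fintype.linearIndependent_iff.mp hliQ d ?_
    funext y
    simpa [Finset.sum_apply] using hd y
  have hu_inv : ∀ j, IsInvFun π (u j) := by
    intro j x x' hxx'
    have h0 : ∀ y, ∑ j, (u j x - u j x') * e j y = 0 := by
      intro y
      simp only [sub_mul, Finset.sum_sub_distrib]
      rw [← hfu, ← hfu, sub_eq_zero]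
      exact hinv _ _ (by rw [map_add, map_add, hxx'])
    exact sub_eq_zero.mp (key _ h0 j)
  -- Step 2
  choose γ hγ using fun j => hexp (u j) (hu_mem j)
  -- Step 3
  set w : Fin n → M → _root_.Fermat.Agent.S19.H435.Qb := fun i => ∑ j, γ j i • e j with hw
  have hw_mem : ∀ i, w i ∈ Λ := fun i =>
    Subalgebra.sum_mem _ fun j _ => Subalgebra.smul_mem _ (he j) _
  have hw_apply : ∀ i y, w i y = ∑ j, algebraMap (Zl ℓ) _root_.Fermat.Agent.S19.H435.Qb (γ j i) * e j y := by
    intro i y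
    simp [hw, Finset.sum_apply, Algebra.smul_def]
  have hfw : ∀ x y, f (x + y) = ∑ i, e i x * w i y := by
    intro x y
    rw [hfu]
    simp only [hw_apply, Finset.mul_sum]
    rw [Finset.sum_comm]
    refine Finset.sum_congr rfl fun j _ => ?_
    conv_lhs => rw [hγ j, sum_smul_apply', Finset.sum_mul]
    refine Finset.sum_congr rfl fun i _ => ?_
    ring
  have hw_inv : ∀ i, IsInvFun π (w i) := by
    intro i y y' hyy'
    have h0 : ∀ x, ∑ i, (w i y - w i y') * e i x = 0 := by
      intro x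
      simp only [sub_mul, Finset.sum_sub_distrib]
      have h1 := hfw x y
      have h2 := hfw x y'
      have h3 : f (x + y) = f (x + y') := hinv _ _ (by rw [map_add, map_add, hyy'])
      rw [sub_eq_zero]
      calc ∑ i, w i y * e i x = f (x + y) := by
            rw [h1]; exact Finset.sum_congr rfl fun i _ => mul_comm _ _
        _ = f (x + y') := h3
        _ = ∑ i, w i y' * e i x := by
            rw [h2]; exact Finset.sum_congr rfl fun i _ => mul_comm _ _
    exact sub_eq_zero.mp (key _ h0 i)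
  -- Step 4: the retraction
  haveI : Module.Finite (Zl ℓ) (Subalgebra.toSubmodule Λ) := Module.Finite.iff_fg.mpr hΛ.fg
  let N : Submodule (Zl ℓ) (Subalgebra.toSubmodule Λ) :=
    { carrier := {v | IsInvFun π (v : M → _root_.Fermat.Agent.S19.H435.Qb)}
      add_mem' := by
        intro v v' hv hv' x y hxy
        show (v : M → _root_.Fermat.Agent.S19.H435.Qb) x + (v' : M → _root_.Fermat.Agent.S19.H435.Qb) x = (v : M → _root_.Fermat.Agent.S19.H435.Qb) y + (v' : M → _root_.Fermat.Agent.S19.H435.Qb) y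
        rw [hv x y hxy, hv' x y hxy]
      zero_mem' := fun x y _ => rfl
      smul_mem' := by
        intro r v hv x y hxy
        show r • (v : M → _root_.Fermat.Agent.S19.H435.Qb) x = r • (v : M → _root_.Fermat.Agent.S19.H435.Qb) y
        rw [hv x y hxy] }
  have hsat : ∀ (r : Zl ℓ) (v : Subalgebra.toSubmodule Λ), r ≠ 0 → r • v ∈ N → v ∈ N := by
    intro r v hr hv x y hxy
    have h1 : r • (v : M → _root_.Fermat.Agent.S19.H435.Qb) x = r • (v : M → _root_.Fermat.Agent.S19.H435.Qb) y := hv x y hxy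
    rw [Algebra.smul_def, Algebra.smul_def] at h1
    have h2 : algebraMap (Zl ℓ) _root_.Fermat.Agent.S19.H435.Qb r ≠ 0 := fun h =>
      hr (algebraMap_Zl_Qb_injective ℓ (by rw [h, map_zero]))
    exact mul_left_cancel₀ h2 h1
  obtain ⟨ρ, hρN, hρid⟩ := exists_retraction N hsat
  let E : Fin n → Subalgebra.toSubmodule Λ := fun i => ⟨e i, he i⟩
  have hρu : ∀ j x, u j x = ∑ i, algebraMap (Zl ℓ) _root_.Fermat.Agent.S19.H435.Qb (γ j i) * ((ρ (E i) : Subalgebra.toSubmodule Λ) : M → _root_.Fermat.Agent.S19.H435.Qb) x := by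
    intro j x
    have h1 : (⟨u j, hu_mem j⟩ : Subalgebra.toSubmodule Λ) = ∑ i, γ j i • E i := by
      apply Subtype.ext
      rw [Submodule.coe_sum]
      exact hγ j
    calc u j x = ((ρ ⟨u j, hu_mem j⟩ : Subalgebra.toSubmodule Λ) : M → _root_.Fermat.Agent.S19.H435.Qb) x := by
          rw [hρid _ (hu_inv j)]
      _ = ((∑ i, γ j i • ρ (E i) : Subalgebra.toSubmodule Λ) : M → _root_.Fermat.Agent.S19.H435.Qb) x := by
          rw [h1, map_sum]
          simp only [map_smul]
      _ = (∑ i, γ j i • ((ρ (E i) : Subalgebra.toSubmodule Λ) : M → _root_.Fermat.Agent.S19.H435.Qb)) x := by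
          rw [Submodule.coe_sum]
          rfl
      _ = _ := sum_smul_apply' _ _ x
  refine ⟨n, fun i => ((ρ (E i) : Subalgebra.toSubmodule Λ) : M → _root_.Fermat.Agent.S19.H435.Qb), w,
    fun i => ⟨(ρ (E i)).2, hρN (E i)⟩, fun i => ⟨hw_mem i, hw_inv i⟩, ?_⟩
  intro x y
  rw [hfu]
  simp only [hρu, hw_apply, Finset.sum_mul, Finset.mul_sum]
  rw [Finset.sum_comm]
  refine Finset.sum_congr rfl fun i _ => Finset.sum_congr rfl fun j _ => ?_
  ring

/-- Translates of lattice elements lie in the `Zb`-span of the lattice. -/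
theorem translate_mem_span (hΛ : IsHopfLattice ℓ act Λ) {h : M → _root_.Fermat.Agent.S19.H435.Qb} (hh : h ∈ Λ) (k : M) :
    (fun m => h (m + k)) ∈
      Submodule.span (integralClosure (Zl ℓ) _root_.Fermat.Agent.S19.H435.Qb) (Λ : Set (M → _root_.Fermat.Agent.S19.H435.Qb)) := by
  obtain ⟨n, a, b, ha, hb, hab⟩ := hΛ.comul_mem h hh
  have : (fun m => h (m + k)) =
      ∑ j, (⟨b j k, hΛ.isIntegral_apply (hb j) k⟩ : integralClosure (Zl ℓ) _root_.Fermat.Agent.S19.H435.Qb) • a j := by
    funext m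
    rw [hab, Finset.sum_apply]
    refine Finset.sum_congr rfl fun j _ => ?_
    show a j m * b j k = b j k * a j m
    exact mul_comm _ _
  rw [this]
  exact Submodule.sum_mem _ fun j _ => Submodule.smul_mem _ _ (Submodule.subset_span (ha j))

omit [AddCommGroup M] in
theorem span_eq_adjoin (Λ : Subalgebra (Zl ℓ) (M → _root_.Fermat.Agent.S19.H435.Qb)) :
    Submodule.span (integralClosure (Zl ℓ) _root_.Fermat.Agent.S19.H435.Qb) (Λ : Set (M → _root_.Fermat.Agent.S19.H435.Qb)) =
      Subalgebra.toSubmodule (Algebra.adjoin (integralClosure (Zl ℓ) _root_.Fermat.Agent.S19.H435.Qb) (Λ : Set (M → _root_.Fermat.Agent.S19.H435.Qb))) := by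
  rw [Algebra.adjoin_eq_span]
  congr 1
  have : (Λ : Set (M → _root_.Fermat.Agent.S19.H435.Qb)) = ((Λ.toSubmonoid : Submonoid (M → _root_.Fermat.Agent.S19.H435.Qb)) : Set (M → _root_.Fermat.Agent.S19.H435.Qb)) := rfl
  rw [this, Submonoid.closure_eq]

section Norm

variable [Fintype M] [DecidableEq M] {M'' : Type*} [AddCommGroup M''] [DecidableEq M'']

/-- The kernel of `π` as a finset. -/
def kerFinset (π : M →+ M'') : Finset M := Finset.univ.filter (fun k => π k = 0)

omit [DecidableEq M] in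
theorem mem_kerFinset (π : M →+ M'') (k : M) : k ∈ kerFinset π ↔ π k = 0 := by
  simp [kerFinset]

/-- The norm of a function along the fibres of `π`. -/
def normFun (π : M →+ M'') (h : M → _root_.Fermat.Agent.S19.H435.Qb) : M → _root_.Fermat.Agent.S19.H435.Qb := fun m => ∏ k ∈ kerFinset π, h (m + k)

omit [DecidableEq M] in
theorem normFun_inv (π : M →+ M'') (h : M → _root_.Fermat.Agent.S19.H435.Qb) : IsInvFun π (normFun π h) := by
  intro x x' hxx'
  unfold normFun
  have hk₀ : π (x' - x) = 0 := by rw [map_sub, hxx', sub_self]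
  refine Finset.prod_nbij' (fun k => k - (x' - x)) (fun k => k + (x' - x)) ?_ ?_ ?_ ?_ ?_
  · intro k hk
    rw [mem_kerFinset] at hk ⊢
    rw [map_sub, hk, hk₀, sub_zero]
  · intro k hk
    rw [mem_kerFinset] at hk ⊢
    rw [map_add, hk, hk₀, add_zero]
  · intro k _
    abel
  · intro k _
    abel
  · intro k _
    congr 1
    abel

omit [DecidableEq M] in
theorem normFun_mem [Fact ℓ.Prime] (hΛ : IsHopfLattice ℓ act Λ) (π : M →+ M'')
    (act'' : Gal → M'' → M'') (hcompat : ∀ σ m, act'' σ (π m) = π (act σ m))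
    {h : M → _root_.Fermat.Agent.S19.H435.Qb} (hh : h ∈ Λ) : normFun π h ∈ Λ := by
  have hstab : ∀ (σ : Gal) (k : M), k ∈ kerFinset π → act σ k ∈ kerFinset π := by
    intro σ k hk
    rw [mem_kerFinset] at hk ⊢
    rw [← hcompat, hk, ← map_zero π, hcompat, hΛ.act_zero, map_zero]
  apply hΛ.mem_of_mem_span_of_equivariant
  · rw [span_eq_adjoin]
    have : normFun π h = ∏ k ∈ kerFinset π, (fun m => h (m + k)) := by
      funext m
      simp [normFun, Finset.prod_apply]
    rw [this]
    refine Subalgebra.prod_mem _ fun k _ => ?_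
    have := hΛ.translate_mem_span hh k
    rw [span_eq_adjoin] at this
    exact this
  · intro σ m
    unfold normFun
    rw [map_prod]
    refine Finset.prod_nbij' (fun k => act σ⁻¹ k) (fun k => act σ k) ?_ ?_ ?_ ?_ ?_
    · intro k hk
      exact hstab σ⁻¹ k hk
    · intro k hk
      exact hstab σ k hk
    · intro k _
      exact hΛ.act_act_inv σ k
    · intro k _
      exact hΛ.act_inv_act σ k
    · intro k _
      rw [← hΛ.equivariant h hh σ, hΛ.act_add, hΛ.act_act_inv]

end Norm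

/-- **F4.** Invariant elements of a Hopf lattice separate the fibres of `π`. -/
theorem exists_inv_separating [Fact ℓ.Prime] [Finite M] (hΛ : IsHopfLattice ℓ act Λ)
    {M'' : Type*} [AddCommGroup M''] (π : M →+ M'')
    (act'' : Gal → M'' → M'') (hcompat : ∀ σ m, act'' σ (π m) = π (act σ m))
    (x y : M) (hxy : π x ≠ π y) : ∃ f ∈ Λ, IsInvFun π f ∧ f x ≠ f y := by
  classical
  haveI : Fintype M := Fintype.ofFinite M
  by_contra hcon
  push Not at hcon
  -- Step a
  have stepa : ∀ h ∈ Λ, ∃ k ∈ kerFinset π, h x = h (y + k) := by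
    intro h hh
    let P : Polynomial _root_.Fermat.Agent.S19.H435.Qb := ∏ k ∈ kerFinset π, (Polynomial.C (h (x + k)) - Polynomial.X)
    let Q : Polynomial _root_.Fermat.Agent.S19.H435.Qb := ∏ k ∈ kerFinset π, (Polynomial.C (h (y + k)) - Polynomial.X)
    have hevalP : ∀ z : _root_.Fermat.Agent.S19.H435.Qb, Polynomial.eval z P = ∏ k ∈ kerFinset π, (h (x + k) - z) := by
      intro z
      simp [P, Polynomial.eval_prod]
    have hevalQ : ∀ z : _root_.Fermat.Agent.S19.H435.Qb, Polynomial.eval z Q = ∏ k ∈ kerFinset π, (h (y + k) - z) := by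
      intro z
      simp [Q, Polynomial.eval_prod]
    have hPQ : P = Q := by
      apply Polynomial.eq_of_infinite_eval_eq
      refine Set.infinite_of_injective_forall_mem (f := fun n : ℤ => (n : _root_.Fermat.Agent.S19.H435.Qb))
        Int.cast_injective fun c => ?_
      show Polynomial.eval (c : _root_.Fermat.Agent.S19.H435.Qb) P = Polynomial.eval (c : _root_.Fermat.Agent.S19.H435.Qb) Q
      rw [hevalP, hevalQ]
      have hmem : h - algebraMap (Zl ℓ) (M → _root_.Fermat.Agent.S19.H435.Qb) (c : Zl ℓ) ∈ Λ :=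
        Subalgebra.sub_mem _ hh (Subalgebra.algebraMap_mem _ _)
      have := hcon _ (hΛ.normFun_mem π act'' hcompat hmem) (normFun_inv π _)
      have hpt : ∀ m : M, (h - algebraMap (Zl ℓ) (M → _root_.Fermat.Agent.S19.H435.Qb) (c : Zl ℓ)) m = h m - (c : _root_.Fermat.Agent.S19.H435.Qb) := by
        intro m
        rw [Pi.sub_apply, Pi.algebraMap_apply, map_intCast]
      simpa [normFun, hpt] using this
    have h0 : Polynomial.eval (h x) P = 0 := by
      rw [hevalP]
      refine Finset.prod_eq_zero (i := 0) ((mem_kerFinset π 0).mpr (map_zero π)) ?_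
      rw [add_zero, sub_self]
    rw [hPQ, hevalQ, Finset.prod_eq_zero_iff] at h0
    obtain ⟨k, hk, hk0⟩ := h0
    exact ⟨k, hk, (sub_eq_zero.mp hk0).symm⟩
  -- Step b
  let φ : M → (Subalgebra.toSubmodule Λ) →ₗ[Zl ℓ] _root_.Fermat.Agent.S19.H435.Qb := fun k =>
    ((LinearMap.proj x : (M → _root_.Fermat.Agent.S19.H435.Qb) →ₗ[Zl ℓ] _root_.Fermat.Agent.S19.H435.Qb) -
      (LinearMap.proj (y + k) : (M → _root_.Fermat.Agent.S19.H435.Qb) →ₗ[Zl ℓ] _root_.Fermat.Agent.S19.H435.Qb)) ∘ₗ (Subalgebra.toSubmodule Λ).subtype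
  have hφ : ∀ k (v : Subalgebra.toSubmodule Λ), φ k v = (v : M → _root_.Fermat.Agent.S19.H435.Qb) x - (v : M → _root_.Fermat.Agent.S19.H435.Qb) (y + k) :=
    fun k v => rfl
  let pk : M → Submodule (Zl ℓ) (Subalgebra.toSubmodule Λ) := fun k => LinearMap.ker (φ k)
  have hcover : ⋃ k ∈ kerFinset π, ((pk k : Submodule (Zl ℓ) (Subalgebra.toSubmodule Λ)) :
      Set (Subalgebra.toSubmodule Λ)) = Set.univ := by
    rw [Set.eq_univ_iff_forall]
    intro v
    obtain ⟨k, hk, hvk⟩ := stepa v.1 v.2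
    simp only [Set.mem_iUnion]
    refine ⟨k, hk, ?_⟩
    show φ k v = 0
    rw [hφ, sub_eq_zero]
    exact hvk
  obtain ⟨k, hk, hfi⟩ := Submodule.exists_finiteIndex_of_cover hcover
  have hxk : x ≠ y + k := by
    intro h
    apply hxy
    rw [h, map_add, (mem_kerFinset π k).mp hk, add_zero]
  obtain ⟨h₀, hh₀, hne⟩ := hΛ.separates _ _ hxk
  haveI : (pk k).toAddSubgroup.FiniteIndex := hfi
  haveI : Finite ((Subalgebra.toSubmodule Λ) ⧸ (pk k).toAddSubgroup) :=
    AddSubgroup.finite_quotient_of_finiteIndex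
  let v₀ : Subalgebra.toSubmodule Λ := ⟨h₀, hh₀⟩
  have hinj : Function.Injective
      (fun n : ℕ => (QuotientAddGroup.mk (n • v₀) :
        (Subalgebra.toSubmodule Λ) ⧸ (pk k).toAddSubgroup)) := by
    intro n n' hnn'
    have h1 := QuotientAddGroup.eq.mp hnn'
    have h2 : φ k (-(n • v₀) + n' • v₀) = 0 := h1
    rw [map_add, map_neg, map_nsmul, map_nsmul, hφ] at h2
    have h3 : h₀ x - h₀ (y + k) ≠ 0 := sub_ne_zero.mpr hne
    have h4 : ((n' : _root_.Fermat.Agent.S19.H435.Qb) - (n : _root_.Fermat.Agent.S19.H435.Qb)) * (h₀ x - h₀ (y + k)) = 0 := by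
      have : (v₀ : M → _root_.Fermat.Agent.S19.H435.Qb) = h₀ := rfl
      rw [this] at h2
      rw [← h2]
      simp only [nsmul_eq_mul]
      ring
    rcases mul_eq_zero.mp h4 with h | h
    · have : (n' : _root_.Fermat.Agent.S19.H435.Qb) = (n : _root_.Fermat.Agent.S19.H435.Qb) := sub_eq_zero.mp h
      exact (Nat.cast_injective this).symm
    · exact absurd h h3
  haveI : Finite ℕ := Finite.of_injective _ hinj
  exact not_finite ℕ

end IsHopfLattice

/-- Precomposition with `π`, as a `ℤ_(ℓ)`-algebra homomorphism. -/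
def precompAlgHom (ℓ : ℕ) {M M'' : Type*} (π : M → M'') : (M'' → _root_.Fermat.Agent.S19.H435.Qb) →ₐ[Zl ℓ] (M → _root_.Fermat.Agent.S19.H435.Qb) where
  toFun g := g ∘ π
  map_one' := rfl
  map_mul' _ _ := rfl
  map_zero' := rfl
  map_add' _ _ := rfl
  commutes' _ := rfl

@[simp]
theorem precompAlgHom_apply (ℓ : ℕ) {M M'' : Type*} (π : M → M'') (g : M'' → _root_.Fermat.Agent.S19.H435.Qb) (m : M) :
    precompAlgHom ℓ π g m = g (π m) := rfl

namespace IsHopfLattice

/-- **Piece F (quotients).** If `Λ` is a Hopf lattice on `M` and `π : M →+ M''` is a surjective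
additive map compatible with the Galois actions, then the functions `g` on `M''` with
`g ∘ π ∈ Λ` form a Hopf lattice on `M''`. -/
theorem quotient [Fact ℓ.Prime] [Finite M] (hΛ : IsHopfLattice ℓ act Λ)
    {M'' : Type*} [AddCommGroup M''] (π : M →+ M'') (hπ : Function.Surjective π)
    (act'' : Gal → M'' → M'') (hcompat : ∀ σ m, act'' σ (π m) = π (act σ m)) :
    IsHopfLattice ℓ act'' (Λ.comap (precompAlgHom ℓ π)) := by
  have hdesc : ∀ f : M → _root_.Fermat.Agent.S19.H435.Qb, IsInvFun π f → (f ∘ Function.surjInv hπ) ∘ π = f := by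
    intro f hf
    funext m
    exact hf _ _ (Function.surjInv_eq hπ (π m))
  refine ⟨?_, ?_, ?_, ?_⟩
  · have hinj : Function.Injective (precompAlgHom ℓ π).toLinearMap := by
      intro g g' h
      funext m''
      obtain ⟨m, rfl⟩ := hπ m''
      exact congrFun h m
    apply Submodule.fg_of_fg_map_injective (precompAlgHom ℓ π).toLinearMap hinj
    apply Submodule.FG.of_le hΛ.fg
    rintro _ ⟨g, hg, rfl⟩
    exact hg
  · intro g hg σ m''
    obtain ⟨m, rfl⟩ := hπ m''
    rw [hcompat]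
    exact hΛ.equivariant _ hg σ m
  · intro m'' n'' hne
    obtain ⟨x, rfl⟩ := hπ m''
    obtain ⟨y, rfl⟩ := hπ n''
    obtain ⟨f, hf, hfinv, hfne⟩ := hΛ.exists_inv_separating π act'' hcompat x y hne
    refine ⟨f ∘ Function.surjInv hπ, ?_, ?_⟩
    · show (f ∘ Function.surjInv hπ) ∘ π ∈ Λ
      rw [hdesc f hfinv]
      exact hf
    · have h1 := congrFun (hdesc f hfinv) x
      have h2 := congrFun (hdesc f hfinv) y
      simp only [Function.comp_apply] at h1 h2 ⊢
      rw [h1, h2]
      exact hfne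
  · intro g hg
    have hginv : IsInvFun π (g ∘ π) := fun x y hxy => by
      simp only [Function.comp_apply, hxy]
    obtain ⟨n, a, b, ha, hb, hab⟩ := hΛ.comul_inv π (f := g ∘ π) hg hginv
    refine ⟨n, fun k => a k ∘ Function.surjInv hπ, fun k => b k ∘ Function.surjInv hπ,
      fun k => ?_, fun k => ?_, ?_⟩
    · show (a k ∘ Function.surjInv hπ) ∘ π ∈ Λ
      rw [hdesc _ (ha k).2]
      exact (ha k).1
    · show (b k ∘ Function.surjInv hπ) ∘ π ∈ Λ
      rw [hdesc _ (hb k).2]
      exact (hb k).1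
    · intro x'' y''
      obtain ⟨x, rfl⟩ := hπ x''
      obtain ⟨y, rfl⟩ := hπ y''
      have h1 := hab x y
      simp only [Function.comp_apply, map_add] at h1
      rw [h1]
      refine Finset.sum_congr rfl fun k _ => ?_
      have h2 := congrFun (hdesc _ (ha k).2) x
      have h3 := congrFun (hdesc _ (hb k).2) y
      simp only [Function.comp_apply] at h2 h3 ⊢
      rw [h2, h3]

end IsHopfLattice

end Fermat.Agent.S19.H435

end
end
-- ===== PACK-END S19/H435/Quot.lean

-- ===== PACK-BEGIN S14/H937/GalLift.lean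
section



/-!
# S14, LOCAL-I / LOCAL-D (helper937): lifting from `Gal(M/K)` to `Gal(ℚ̄/K)`

`K ⊆ M ⊆ ℚ̄`, `M/K` finite Galois, `A` a valuation subring of `ℚ̄`.  An element of the inertia
(resp. decomposition) group of the prime of `𝓞 M` below `A` lifts to an element of
`Gal(ℚ̄/K)` acting trivially modulo (resp. stabilising) the prime of `ℤ̄` below `A`.
-/

set_option autoImplicit false
set_option linter.style.haveILetI false

open NumberField
open scoped Pointwise

namespace Fermat.Agent.S14.H937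

theorem isGalois_Qb_over (K : IntermediateField ℚ Qb) : IsGalois K Qb :=
  haveI := Fermat.Agent.S54.isGalois_algebraicClosure_rat
  IsGalois.tower_top_of_isGalois ℚ K Qb

/-- `Gal(ℚ̄/K)` acts continuously on the discrete ring of all algebraic integers. -/
theorem continuousSMul_over (K : IntermediateField ℚ Qb) :
    letI : TopologicalSpace (integralClosure ℤ Qb) := ⊥
    ContinuousSMul (Qb ≃ₐ[K] Qb) (integralClosure ℤ Qb) := by
  letI : TopologicalSpace (integralClosure ℤ Qb) := ⊥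
  haveI : DiscreteTopology (integralClosure ℤ Qb) := ⟨rfl⟩
  haveI := isGalois_Qb_over K
  refine ⟨?_⟩
  rw [continuous_prod_of_discrete_right]
  intro b
  rw [continuous_discrete_rng]
  intro c
  rw [isOpen_iff_mem_nhds]
  intro g hg
  let E : IntermediateField K Qb := IntermediateField.adjoin K {(b : Qb)}
  haveI : FiniteDimensional K E :=
    IntermediateField.adjoin.finiteDimensional (Algebra.IsIntegral.isIntegral _)
  have hopen : IsOpen ((g • (E.fixingSubgroup : Set (Qb ≃ₐ[K] Qb)))) :=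
    (E.fixingSubgroup_isOpen).smul g
  refine Filter.mem_of_superset (hopen.mem_nhds ⟨1, one_mem _, by simp⟩) ?_
  rintro _ ⟨h, hh, rfl⟩
  simp only [Set.mem_preimage, Set.mem_singleton_iff] at hg ⊢
  rw [← hg]
  apply Subtype.ext
  have hb : h (b : Qb) = b := by
    have := (IntermediateField.mem_fixingSubgroup_iff E h).mp hh b
      (IntermediateField.subset_adjoin K _ (Set.mem_singleton _))
    exact this
  show (g * h) (b : Qb) = g (b : Qb)
  rw [AlgEquiv.mul_apply, hb]

section

variable (K : IntermediateField ℚ Qb)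
variable (M : IntermediateField K Qb) [FiniteDimensional K M] [IsGalois K M]
variable (A : ValuationSubring Qb)

omit [FiniteDimensional K M] [IsGalois K M] in
/-- An algebraic integer fixed by `Gal(ℚ̄/M)` comes from `𝓞 M`. -/
theorem exists_integer_of_fixed (x : integralClosure ℤ Qb)
    (hx : ∀ n ∈ (M.fixingSubgroup : Subgroup (Qb ≃ₐ[K] Qb)), n • x = x) :
    ∃ y : 𝓞 M, toZbar M y = x := by
  haveI := isGalois_Qb_over K
  have hxM : (x : Qb) ∈ M := by
    rw [← InfiniteGalois.fixedField_fixingSubgroup M, IntermediateField.mem_fixedField_iff]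
    intro f hf
    exact congrArg Subtype.val (hx f hf)
  have hxint : IsIntegral ℤ (⟨(x : Qb), hxM⟩ : M) := by
    have h1 : IsIntegral ℤ (x : Qb) := x.2
    exact (isIntegral_algebraMap_iff (A := M) (B := Qb)
      (FaithfulSMul.algebraMap_injective M Qb)).mp h1
  exact ⟨⟨⟨(x : Qb), hxM⟩, hxint⟩, Subtype.ext rfl⟩

theorem exists_lift_inertia (τ : M ≃ₐ[K] M) (hτ : ∀ x : 𝓞 M, τ • x - x ∈ primeOf M A) :
    ∃ σ : Qb ≃ₐ[K] Qb, (∀ x : M, σ (x : Qb) = ((τ x : M) : Qb)) ∧
      ∀ x : Qb, IsIntegral ℤ x → σ x - x ∈ A.nonunits := by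
  haveI := isGalois_Qb_over K
  haveI hQ := Fermat.Agent.S54.primeBelow_isPrime A
  obtain ⟨g₀, hg₀⟩ := AlgEquiv.restrictNormalHom_surjective (F := K) (K₁ := M) Qb τ
  have hg₀M : ∀ x : M, g₀ (x : Qb) = ((τ x : M) : Qb) := by
    intro x
    rw [← hg₀]
    exact (AlgEquiv.restrictNormal_commutes g₀ M x).symm
  have h₀ : ∀ x : integralClosure ℤ Qb,
      (∀ n ∈ (M.fixingSubgroup : Subgroup (Qb ≃ₐ[K] Qb)), n • x = x) →
        g₀ • x - x ∈ Fermat.Agent.S54.primeBelow A := by
    intro x hx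
    obtain ⟨y, rfl⟩ := exists_integer_of_fixed K M x hx
    have h2 := hτ y
    rw [mem_primeOf] at h2
    rw [Fermat.Agent.S54.mem_primeBelow]
    have h4 : ((g₀ • toZbar M y - toZbar M y : integralClosure ℤ Qb) : Qb) =
        g₀ ((y : M) : Qb) - ((y : M) : Qb) := rfl
    rw [h4, hg₀M]
    exact h2
  letI : TopologicalSpace (integralClosure ℤ Qb) := ⊥
  haveI : DiscreteTopology (integralClosure ℤ Qb) := ⟨rfl⟩
  haveI := continuousSMul_over K
  have hclosed : IsClosed ((M.fixingSubgroup : Subgroup (Qb ≃ₐ[K] Qb)) : Set (Qb ≃ₐ[K] Qb)) :=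
    IntermediateField.fixingSubgroup_isClosed M
  obtain ⟨σ, hσN, hσ⟩ := Fermat.Agent.S13.H175.exists_inertia_lift
    (G := Qb ≃ₐ[K] Qb) (M.fixingSubgroup) hclosed (Fermat.Agent.S54.primeBelow A) g₀ h₀
  refine ⟨σ, fun x => ?_, fun x hx => hσ ⟨x, hx⟩⟩
  have h1 := (IntermediateField.mem_fixingSubgroup_iff M _).mp hσN x x.2
  rw [AlgEquiv.mul_apply] at h1
  have h2 : σ (x : Qb) = g₀ (x : Qb) := by
    have := congrArg g₀ h1
    simpa using this
  rw [h2, hg₀M]

theorem exists_lift_decomp (τ : M ≃ₐ[K] M)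
    (hτ : ∀ x : 𝓞 M, τ • x ∈ primeOf M A ↔ x ∈ primeOf M A) :
    ∃ σ : Qb ≃ₐ[K] Qb, (∀ x : M, σ (x : Qb) = ((τ x : M) : Qb)) ∧
      ∀ x : Qb, IsIntegral ℤ x → (σ x ∈ A.nonunits ↔ x ∈ A.nonunits) := by
  haveI := isGalois_Qb_over K
  haveI hQ := Fermat.Agent.S54.primeBelow_isPrime A
  obtain ⟨g₀, hg₀⟩ := AlgEquiv.restrictNormalHom_surjective (F := K) (K₁ := M) Qb τ
  have hg₀M : ∀ x : M, g₀ (x : Qb) = ((τ x : M) : Qb) := by
    intro x
    rw [← hg₀]
    exact (AlgEquiv.restrictNormal_commutes g₀ M x).symm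
  have h₀ : ∀ x : integralClosure ℤ Qb,
      (∀ n ∈ (M.fixingSubgroup : Subgroup (Qb ≃ₐ[K] Qb)), n • x = x) →
        (g₀ • x ∈ Fermat.Agent.S54.primeBelow A ↔ x ∈ Fermat.Agent.S54.primeBelow A) := by
    intro x hx
    obtain ⟨y, rfl⟩ := exists_integer_of_fixed K M x hx
    have h2 := hτ y
    rw [mem_primeOf, mem_primeOf] at h2
    rw [Fermat.Agent.S54.mem_primeBelow, Fermat.Agent.S54.mem_primeBelow]
    have h4 : ((g₀ • toZbar M y : integralClosure ℤ Qb) : Qb) = g₀ ((y : M) : Qb) := rfl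
    rw [h4, hg₀M]
    exact h2
  letI : TopologicalSpace (integralClosure ℤ Qb) := ⊥
  haveI : DiscreteTopology (integralClosure ℤ Qb) := ⟨rfl⟩
  haveI := continuousSMul_over K
  have hclosed : IsClosed ((M.fixingSubgroup : Subgroup (Qb ≃ₐ[K] Qb)) : Set (Qb ≃ₐ[K] Qb)) :=
    IntermediateField.fixingSubgroup_isClosed M
  obtain ⟨σ, hσN, hσ⟩ := exists_stabilizer_lift
    (G := Qb ≃ₐ[K] Qb) (M.fixingSubgroup) hclosed (Fermat.Agent.S54.primeBelow A) g₀ h₀
  refine ⟨σ, fun x => ?_, fun x hx => ?_⟩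
  · have h1 := (IntermediateField.mem_fixingSubgroup_iff M _).mp hσN x x.2
    rw [AlgEquiv.mul_apply] at h1
    have h2 : σ (x : Qb) = g₀ (x : Qb) := by
      have := congrArg g₀ h1
      simpa using this
    rw [h2, hg₀M]
  · have h2 : (σ • (⟨x, hx⟩ : integralClosure ℤ Qb)) ∈ Fermat.Agent.S54.primeBelow A ↔
        (⟨x, hx⟩ : integralClosure ℤ Qb) ∈ Fermat.Agent.S54.primeBelow A := by
      conv_lhs => rw [← hσ]
      exact Ideal.smul_mem_pointwise_smul_iff
    exact h2

end

end Fermat.Agent.S14.H937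

end
-- ===== PACK-END S14/H937/GalLift.lean

-- ===== PACK-BEGIN S55/Bridge/H594/PrimeBelow.lean
section



/-!
# S55 bridge (helper594): valuation subrings of `ℚ̄` versus primes of `ℤ̄`

For a valuation subring `A` of `ℚ̄` lying over a prime number `q`, the decomposition group of `A`
is the stabiliser of the prime `primeBelow A` of the ring `ℤ̄` of all algebraic integers, and the
inertia group of `A` is the inertia group of `primeBelow A`.
-/

set_option autoImplicit false

namespace Fermat.Agent.S55.Bridge.H594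

open Fermat.Agent.S54 Fermat.Agent.S55.Bridge
open scoped Pointwise

attribute [local instance] isAlgebraic_Qbar isGalois_Qbar

section basic

variable (A : ValuationSubring (AlgebraicClosure ℚ))

/-- Algebraic integers lie in every valuation subring. -/
theorem coe_mem (b : integralClosure ℤ (AlgebraicClosure ℚ)) : (b : AlgebraicClosure ℚ) ∈ A :=
  isIntegral_mem_valuationSubring A b.2

theorem coe_smul (σ : AlgebraicClosure ℚ ≃ₐ[ℚ] AlgebraicClosure ℚ)
    (b : integralClosure ℤ (AlgebraicClosure ℚ)) :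
    ((σ • b : integralClosure ℤ (AlgebraicClosure ℚ)) : AlgebraicClosure ℚ) = σ b := rfl

/-- `σ` stabilises `primeBelow A` iff it preserves membership. -/
theorem smul_primeBelow_eq_iff (σ : AlgebraicClosure ℚ ≃ₐ[ℚ] AlgebraicClosure ℚ) :
    σ • primeBelow A = primeBelow A ↔
      ∀ b : integralClosure ℤ (AlgebraicClosure ℚ), σ • b ∈ primeBelow A ↔ b ∈ primeBelow A := by
  constructor
  · intro h b
    conv_lhs => rw [← h]
    exact Ideal.smul_mem_pointwise_smul_iff
  · intro h
    ext b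
    rw [Ideal.mem_pointwise_smul_iff_inv_smul_mem]
    rw [← h (σ⁻¹ • b), smul_inv_smul]

/-- If `σ` preserves the prime below `A`, it maps `A` into `A`. -/
theorem map_mem_of_smul_primeBelow {q : ℕ} (hq : q.Prime) (hA : A.LiesOverPrime q)
    (τ : AlgebraicClosure ℚ ≃ₐ[ℚ] AlgebraicClosure ℚ)
    (hτ : ∀ b : integralClosure ℤ (AlgebraicClosure ℚ), τ • b ∈ primeBelow A ↔ b ∈ primeBelow A)
    (x : AlgebraicClosure ℚ) (hx : x ∈ A) : τ x ∈ A := by
  obtain ⟨b, s, hb, hs, hsA, hxs⟩ := (mem_valuationSubring_iff A q hq hA x).mp hx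
  refine (mem_valuationSubring_iff A q hq hA (τ x)).mpr
    ⟨τ b, τ s, hb.map τ, hs.map τ, ?_, ?_⟩
  · exact (hτ ⟨s, hs⟩).not.mpr hsA
  · rw [← map_mul, hxs]

/-- The decomposition group of `A` is the stabiliser of the prime of `ℤ̄` below `A`. -/
theorem mem_decompositionSubgroup_iff_smul_primeBelow {q : ℕ} (hq : q.Prime)
    (hA : A.LiesOverPrime q) (σ : AlgebraicClosure ℚ ≃ₐ[ℚ] AlgebraicClosure ℚ) :
    σ ∈ A.decompositionSubgroup ℚ ↔ σ • primeBelow A = primeBelow A := by
  rw [smul_primeBelow_eq_iff]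
  constructor
  · intro hσ b
    have h1 := (mem_decompositionSubgroup_iff A σ).mp hσ
    rw [mem_primeBelow, mem_primeBelow, coe_smul, ValuationSubring.mem_nonunits_iff_or,
      ValuationSubring.mem_nonunits_iff_or, ← map_inv₀, h1, map_eq_zero_iff σ σ.injective]
  · intro hσ
    rw [mem_decompositionSubgroup_iff]
    intro x
    constructor
    · intro hx
      have h2 : ∀ b : integralClosure ℤ (AlgebraicClosure ℚ),
          σ⁻¹ • b ∈ primeBelow A ↔ b ∈ primeBelow A := by
        intro b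
        rw [← hσ (σ⁻¹ • b), smul_inv_smul]
      have := map_mem_of_smul_primeBelow A hq hA σ⁻¹ h2 (σ x) hx
      simpa using this
    · exact map_mem_of_smul_primeBelow A hq hA σ hσ x

/-- An integral element outside the prime below `A` has valuation `1`. -/
theorem valuation_eq_one_of_not_mem_nonunits {s : AlgebraicClosure ℚ} (hs : IsIntegral ℤ s)
    (hsA : s ∉ A.nonunits) : A.valuation s = 1 := by
  have h1 : A.valuation s ≤ 1 :=
    (A.valuation_le_one_iff _).mpr (isIntegral_mem_valuationSubring A hs)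
  rw [ValuationSubring.mem_nonunits_iff, not_lt] at hsA
  exact le_antisymm h1 hsA

/-- The inertia group of `A` is the inertia group of the prime of `ℤ̄` below `A`. -/
theorem mem_inertiaSubgroupIn_iff_primeBelow {q : ℕ} (hq : q.Prime)
    (hA : A.LiesOverPrime q) (σ : AlgebraicClosure ℚ ≃ₐ[ℚ] AlgebraicClosure ℚ) :
    σ ∈ A.inertiaSubgroupIn ℚ ↔
      ∀ b : integralClosure ℤ (AlgebraicClosure ℚ), σ • b - b ∈ primeBelow A := by
  constructor
  · intro hσ b
    exact ((mem_inertiaSubgroupIn_iff A σ).mp hσ).2 b (coe_mem A b)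
  · intro hσ
    have hstab : ∀ b : integralClosure ℤ (AlgebraicClosure ℚ),
        σ • b ∈ primeBelow A ↔ b ∈ primeBelow A := by
      intro b
      constructor
      · intro h
        have := (primeBelow A).sub_mem h (hσ b)
        simpa using this
      · intro h
        have := (primeBelow A).add_mem (hσ b) h
        simpa using this
    have hD : σ ∈ A.decompositionSubgroup ℚ :=
      (mem_decompositionSubgroup_iff_smul_primeBelow A hq hA σ).mpr
        ((smul_primeBelow_eq_iff A σ).mpr hstab)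
    rw [mem_inertiaSubgroupIn_iff]
    refine ⟨hD, fun z hz => ?_⟩
    obtain ⟨b, s, hb, hs, hsA, hzs⟩ := (mem_valuationSubring_iff A q hq hA z).mp hz
    have hs0 : s ≠ 0 := fun h => hsA (h ▸ A.nonunits.zero_mem)
    have hσs0 : σ s ≠ 0 := (map_ne_zero_iff σ σ.injective).mpr hs0
    have hσsA : σ s ∉ A.nonunits := (hstab ⟨s, hs⟩).not.mpr hsA
    have hvs : A.valuation s = 1 := valuation_eq_one_of_not_mem_nonunits A hs hsA
    have hvσs : A.valuation (σ s) = 1 :=
      valuation_eq_one_of_not_mem_nonunits A (hs.map σ) hσsA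
    have hz' : z = b / s := by rw [← hzs]; field_simp
    have hnum : (σ b - b) * s - b * (σ s - s) ∈ A.nonunits := by
      rw [ValuationSubring.mem_nonunits_iff]
      have h1 : A.valuation ((σ b - b) * s) < 1 := by
        rw [map_mul, hvs, mul_one]
        exact (ValuationSubring.mem_nonunits_iff A).mp (hσ ⟨b, hb⟩)
      have h2 : A.valuation (b * (σ s - s)) < 1 := by
        rw [map_mul]
        have hb1 : A.valuation b ≤ 1 :=
          (A.valuation_le_one_iff _).mpr (isIntegral_mem_valuationSubring A hb)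
        have hs1 : A.valuation (σ s - s) < 1 :=
          (ValuationSubring.mem_nonunits_iff A).mp (hσ ⟨s, hs⟩)
        exact mul_lt_one_of_nonneg_of_lt_one_right hb1 zero_le hs1
      exact lt_of_le_of_lt (Valuation.map_sub _ _ _) (max_lt h1 h2)
    have hval : σ z - z = ((σ b - b) * s - b * (σ s - s)) / (s * σ s) := by
      rw [hz', map_div₀]
      field_simp
      ring
    rw [hval, ValuationSubring.mem_nonunits_iff, map_div₀, map_mul, hvs, hvσs, mul_one,
      div_one]
    exact (ValuationSubring.mem_nonunits_iff A).mp hnum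

end basic

end Fermat.Agent.S55.Bridge.H594

end
-- ===== PACK-END S55/Bridge/H594/PrimeBelow.lean

-- ===== PACK-BEGIN S19/H135/Power.lean
section
/-
Cell A3 / WP-C (helper135): Hopf lattices on trivial groups and on finite powers / finite
products of copies of one module.
-/


set_option autoImplicit false

namespace Fermat.Agent.S19.H135

section Trivial

variable {ℓ : ℕ} {M : Type} [AddCommGroup M]
  {act : (AlgebraicClosure ℚ ≃ₐ[ℚ] AlgebraicClosure ℚ) → M → M}

/-- On a trivial group the scalars form a Hopf lattice. -/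
theorem isHopfLattice_bot [Subsingleton M] :
    IsHopfLattice ℓ act (⊥ : Subalgebra (GaloisRep.ratLocalizedAt ℓ) (M → AlgebraicClosure ℚ)) := by
  refine ⟨?_, ?_, ?_, ?_⟩
  · exact Subalgebra.fg_bot_toSubmodule
  · intro f hf σ m
    obtain ⟨r, rfl⟩ := Algebra.mem_bot.mp hf
    show algebraMap ℚ (AlgebraicClosure ℚ) (r : ℚ) = σ (algebraMap ℚ (AlgebraicClosure ℚ) (r : ℚ))
    exact (σ.commutes (r : ℚ)).symm
  · intro m n _
    exact Subsingleton.elim m n
  · rintro _ ⟨f, hf, rfl⟩
    obtain ⟨r, rfl⟩ := Algebra.mem_bot.mp hf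
    rw [AlgHom.coe_toRingHom, AlgHom.commutes]
    exact Subalgebra.algebraMap_mem _ r

theorem hasHopfLattice_of_subsingleton [Subsingleton M] : HasHopfLattice ℓ M act :=
  ⟨⊥, isHopfLattice_bot⟩

end Trivial

section Power

variable {ℓ : ℕ} {M : Type} [AddCommGroup M]
  {act : (AlgebraicClosure ℚ ≃ₐ[ℚ] AlgebraicClosure ℚ) → M → M}

/-- Finite powers, indexed by `Fin r`. -/
theorem HasHopfLattice.finPower (h : HasHopfLattice ℓ M act) (r : ℕ) :
    HasHopfLattice ℓ (Fin r → M) (fun σ v i => act σ (v i)) := by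
  induction r with
  | zero => exact hasHopfLattice_of_subsingleton
  | succ r ih =>
    have hprod := h.prod ih
    let i : (Fin (r + 1) → M) →+ M × (Fin r → M) :=
      { toFun := fun v => (v 0, fun j => v j.succ)
        map_zero' := rfl
        map_add' := fun _ _ => rfl }
    refine hprod.of_injective i ?_ (fun _ _ => rfl)
    intro v w hvw
    have h0 : v 0 = w 0 := congrArg Prod.fst hvw
    have hs : (fun j : Fin r => v j.succ) = fun j => w j.succ := congrArg Prod.snd hvw
    funext j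
    refine Fin.cases h0 (fun j => congrFun hs j) j

/-- Finite powers, indexed by an arbitrary finite type. -/
theorem HasHopfLattice.power (h : HasHopfLattice ℓ M act) (ι : Type) [Finite ι] :
    HasHopfLattice ℓ (ι → M) (fun σ v i => act σ (v i)) := by
  obtain ⟨r, ⟨e⟩⟩ := Finite.exists_equiv_fin ι
  let i : (ι → M) →+ (Fin r → M) :=
    { toFun := fun v j => v (e.symm j)
      map_zero' := rfl
      map_add' := fun _ _ => rfl }
  refine (h.finPower r).of_injective i ?_ (fun _ _ => rfl)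
  intro v w hvw
  funext x
  have := congrFun hvw (e x)
  simpa [i] using this

end Power

end Fermat.Agent.S19.H135

end
-- ===== PACK-END S19/H135/Power.lean

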