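import Mathlib
import Fermat.Prelude.Def_FLTPrelim_Ramification
import Fermat.Prelude.Def_GaloisRep_Adic
import Fermat.Prelude.Def_ModularCurve_X0ModL
import Fermat.Prelude.Def_ModularCurve_X0
import Fermat.Agent.Pack.S33.E0L0
import Fermat.Agent.Pack.S33.E4L2
import Fermat.Agent.Pack.S33.E0L1
import Fermat.Agent.Pack.S33.E0L3
import Fermat.Agent.Pack.S33.E4L3
import Fermat.Agent.Pack.S33.E4L0
import Fermat.Agent.Pack.S33.E4L1
import Fermat.Agent.Pack.S33.E1L3
import Fermat.Agent.Pack.S33.E1L2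
import Fermat.Agent.Pack.S33.E5L1

-- ===== PACK-BEGIN Lib/Cheb/H221/CycEP.lean
section





/-!
# CYC, Euler product of `L_F(s, χ ∘ N)` (helper221)
-/

set_option autoImplicit false

open NumberField IsDedekindDomain Filter Topology

namespace Fermat.Agent.Lib.Cheb.H221

set_option linter.unusedSectionVars false

section

variable (F : Type) [Field F] [NumberField F] {m : ℕ} [NeZero m] (χ : DirichletCharacter ℂ m)

/-- `χ(N I) N(I)^(-s)` -/
noncomputable def twTerm (s : ℝ) (I : Ideal (𝓞 F)) : ℂ :=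
  χ (Ideal.absNorm I : ZMod m) * (((Ideal.absNorm I : ℝ) ^ (-s) : ℝ) : ℂ)

lemma twTerm_mul (s : ℝ) (I J : Ideal (𝓞 F)) :
    twTerm F χ s (I * J) = twTerm F χ s I * twTerm F χ s J := by
  unfold twTerm
  have h := H761.normPow_mul F s I J
  unfold H761.normPow at h
  rw [h, _root_.map_mul, Nat.cast_mul, _root_.map_mul]
  push_cast
  ring

lemma twTerm_top (s : ℝ) : twTerm F χ s ⊤ = 1 := by
  simp [twTerm]

lemma twTerm_bot {s : ℝ} (hs : s ≠ 0) : twTerm F χ s ⊥ = 0 := by
  have h0 : (0 : ℝ) ^ (-s) = 0 := Real.zero_rpow (neg_ne_zero.mpr hs)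
  simp [twTerm, h0]

lemma norm_twTerm_le (s : ℝ) (I : Ideal (𝓞 F)) : ‖twTerm F χ s I‖ ≤ H761.normPow F s I := by
  unfold twTerm H761.normPow
  rw [norm_mul, Complex.norm_real, Real.norm_of_nonneg (Real.rpow_nonneg (Nat.cast_nonneg _) _)]
  calc ‖χ (Ideal.absNorm I : ZMod m)‖ * (Ideal.absNorm I : ℝ) ^ (-s)
      ≤ 1 * (Ideal.absNorm I : ℝ) ^ (-s) :=
        mul_le_mul_of_nonneg_right (DirichletCharacter.norm_le_one χ _)
          (Real.rpow_nonneg (Nat.cast_nonneg _) _)
    _ = _ := one_mul _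

lemma summable_twTerm {s : ℝ} (hs : 1 < s) : Summable (twTerm F χ s) :=
  Summable.of_norm_bounded (H761.summable_normPow F hs) (norm_twTerm_le F χ s)

/-- the sum over the ideals of norm `n` -/
lemma tsum_fiber_twTerm (s : ℝ) (n : ℕ) :
    ∑' I : {I : Ideal (𝓞 F) // Ideal.absNorm I = n}, twTerm F χ s I.1 =
      χ (n : ZMod m) * ((Spec.idealCount F n : ℂ) * (((n : ℝ) ^ (-s) : ℝ) : ℂ)) := by
  have hfin : Finite {I : Ideal (𝓞 F) // Ideal.absNorm I = n} :=
    (Ideal.finite_setOfPred_absNorm_eq n).to_subtype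
  have : Fintype {I : Ideal (𝓞 F) // Ideal.absNorm I = n} := Fintype.ofFinite _
  rw [tsum_fintype]
  have h1 : ∀ I : {I : Ideal (𝓞 F) // Ideal.absNorm I = n},
      twTerm F χ s I.1 = χ (n : ZMod m) * (((n : ℝ) ^ (-s) : ℝ) : ℂ) := by
    intro I
    simp only [twTerm, I.2]
  simp only [h1, Finset.sum_const, Finset.card_univ, nsmul_eq_mul, Spec.idealCount,
    Nat.card_eq_fintype_card]
  ring

lemma tsum_twTerm_eq_lseries {s : ℝ} (hs : 1 < s) :
    ∑' I : Ideal (𝓞 F), twTerm F χ s I =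
      LSeries (fun n => χ (n : ZMod m) * (Spec.idealCount F n : ℂ)) (s : ℂ) := by
  have hsum := summable_twTerm F χ hs
  have hsum' : Summable (fun x : Σ n : ℕ, {I : Ideal (𝓞 F) // Ideal.absNorm I = n} =>
      twTerm F χ s x.2.1) :=
    ((Equiv.sigmaFiberEquiv (fun I : Ideal (𝓞 F) => Ideal.absNorm I)).summable_iff
      (f := twTerm F χ s)).mpr hsum
  calc ∑' I : Ideal (𝓞 F), twTerm F χ s I
      = ∑' x : Σ n : ℕ, {I : Ideal (𝓞 F) // Ideal.absNorm I = n}, twTerm F χ s x.2.1 :=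
        ((Equiv.sigmaFiberEquiv (fun I : Ideal (𝓞 F) => Ideal.absNorm I)).tsum_eq
          (twTerm F χ s)).symm
    _ = ∑' n : ℕ, ∑' I : {I : Ideal (𝓞 F) // Ideal.absNorm I = n}, twTerm F χ s I.1 :=
        hsum'.tsum_sigma
    _ = _ := by
        unfold LSeries
        refine tsum_congr fun n => ?_
        rw [tsum_fiber_twTerm]
        rcases eq_or_ne n 0 with rfl | hn
        · have : (0 : ℝ) ^ (-s) = 0 := Real.zero_rpow (by linarith)
          simp [this]
        · rw [LSeries.term_of_ne_zero hn, Complex.ofReal_cpow (Nat.cast_nonneg n),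
            Complex.ofReal_neg, Complex.cpow_neg]
          simp [div_eq_mul_inv, mul_assoc]

lemma tsum_sieveSet_empty_twTerm {s : ℝ} (hs : 1 < s) :
    ∑' I : H761.sieveSet (∅ : Set (HeightOneSpectrum (𝓞 F))), twTerm F χ s I =
      ∑' I : Ideal (𝓞 F), twTerm F χ s I := by
  have hs0 : s ≠ 0 := by linarith
  rw [← tsum_subtype_eq_of_support_subset (f := twTerm F χ s)
    (s := H761.sieveSet (∅ : Set (HeightOneSpectrum (𝓞 F))))]
  intro I hI
  rw [H761.mem_sieveSet_empty]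
  rintro rfl
  exact hI (twTerm_bot F χ hs0)

theorem eulerProduct : EulerProductStatement := by
  intro F _ _ m _ χ s hs
  have hf := summable_twTerm F χ hs
  have h1 := H761.hasProd_one_sub hf (twTerm_mul F χ s) (twTerm_top F χ s)
  have hne := H761.tsum_sieve_empty_ne_zero hf (twTerm_mul F χ s) (twTerm_top F χ s)
  have h2 := h1.inv₀ (inv_ne_zero hne)
  rw [inv_inv, tsum_sieveSet_empty_twTerm F χ hs, tsum_twTerm_eq_lseries F χ hs] at h2
  exact h2

end

end Fermat.Agent.Lib.Cheb.H221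

end
-- ===== PACK-END Lib/Cheb/H221/CycEP.lean

-- ===== PACK-BEGIN S14/H894/Profinite.lean
section




/-!
# S14 / H894 : profinite lifting for closed subgroups of `Gal(ℚ̄/ℚ)` acting on `ℤ̄`

Two wrappers around Mathlib's `RingTheory/Invariant/Profinite`, specialised to a closed subgroup
`H` of the absolute Galois group of `ℚ` acting on the ring `ℤ̄` of all algebraic integers, with
the ring of `H`-invariants as base ring (no Galois correspondence needed at this stage).
-/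

set_option autoImplicit false
set_option linter.style.haveILetI false

open scoped Pointwise

namespace Fermat.Agent.S14.H894

local notation "Qb" => AlgebraicClosure ℚ
local notation "GQ" => (AlgebraicClosure ℚ ≃ₐ[ℚ] AlgebraicClosure ℚ)
local notation "Zb" => integralClosure ℤ (AlgebraicClosure ℚ)

/-- Transitivity: a closed subgroup `H` of `Gal(ℚ̄/ℚ)` acts transitively on the primes of `ℤ̄`
having the same intersection with the ring of `H`-invariants. -/
theorem exists_smul_eq_of_closed (H : Subgroup GQ) (hH : IsClosed (H : Set GQ))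
    (P Q : Ideal Zb) [P.IsPrime] [Q.IsPrime]
    (hPQ : ∀ y : Zb, (∀ h ∈ H, h • y = y) → (y ∈ P ↔ y ∈ Q)) :
    ∃ g ∈ H, Q = g • P := by
  haveI := Fermat.Agent.S54.isGalois_algebraicClosure_rat
  letI : TopologicalSpace Zb := ⊥
  haveI : DiscreteTopology Zb := ⟨rfl⟩
  haveI := Fermat.Agent.S54.continuousSMul_integralClosure
  haveI : CompactSpace H := isCompact_iff_compactSpace.mp hH.isCompact
  haveI : TotallyDisconnectedSpace H := Subtype.totallyDisconnectedSpace
  haveI : SMulCommClass H ℤ Zb := ⟨fun g n x => smul_comm (g : GQ) n x⟩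
  let A0 := FixedPoints.subalgebra ℤ Zb H
  haveI : SMulCommClass H A0 Zb :=
    ⟨fun g a x => by
      show g • ((a : Zb) * x) = (a : Zb) * g • x
      rw [smul_mul', a.2 g]⟩
  haveI : Algebra.IsInvariant A0 Zb H := ⟨fun b hb => ⟨⟨b, hb⟩, rfl⟩⟩
  have hunder : P.under A0 = Q.under A0 := by
    ext y
    simp only [Ideal.under_def, Ideal.mem_comap]
    exact hPQ y.1 (fun h hh => y.2 ⟨h, hh⟩)
  obtain ⟨g, hg⟩ :=
    Algebra.IsInvariant.exists_smul_of_under_eq_of_profinite (A := A0) (G := H) P Q hunder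
  exact ⟨g.1, g.2, hg⟩

/-- Surjectivity of the stabiliser onto residue automorphisms, in elementwise form: if `σ`
stabilises the prime `Q` of `ℤ̄` and acts trivially modulo `Q` on the `H`-invariants, then some
`g ∈ H` stabilises `Q` and acts on `ℤ̄ / Q` like `σ`. -/
theorem exists_mem_stabilizer_of_closed (H : Subgroup GQ) (hH : IsClosed (H : Set GQ))
    (Q : Ideal Zb) [Q.IsPrime] (σ : GQ) (hσQ : σ • Q = Q)
    (hσ : ∀ y : Zb, (∀ h ∈ H, h • y = y) → σ • y - y ∈ Q) :
    ∃ g ∈ H, g • Q = Q ∧ ∀ x : Zb, g • x - σ • x ∈ Q := by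
  haveI := Fermat.Agent.S54.isGalois_algebraicClosure_rat
  letI : TopologicalSpace Zb := ⊥
  haveI : DiscreteTopology Zb := ⟨rfl⟩
  haveI := Fermat.Agent.S54.continuousSMul_integralClosure
  haveI : CompactSpace H := isCompact_iff_compactSpace.mp hH.isCompact
  haveI : TotallyDisconnectedSpace H := Subtype.totallyDisconnectedSpace
  haveI : SMulCommClass H ℤ Zb := ⟨fun g n x => smul_comm (g : GQ) n x⟩
  let A0 := FixedPoints.subalgebra ℤ Zb H
  haveI : SMulCommClass H A0 Zb :=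
    ⟨fun g a x => by
      show g • ((a : Zb) * x) = (a : Zb) * g • x
      rw [smul_mul', a.2 g]⟩
  haveI : Algebra.IsInvariant A0 Zb H := ⟨fun b hb => ⟨⟨b, hb⟩, rfl⟩⟩
  let P : Ideal A0 := Q.under A0
  haveI : Q.LiesOver P := ⟨rfl⟩
  let eσ : Zb ≃+* Zb := MulSemiringAction.toRingEquiv GQ Zb σ
  have hmap : Q = Q.map (eσ : Zb →+* Zb) := by
    conv_lhs => rw [← hσQ]
    rfl
  let f : (Zb ⧸ Q) ≃+* (Zb ⧸ Q) := Ideal.quotientEquiv Q Q eσ hmap
  have hf : ∀ x : Zb, f (Ideal.Quotient.mk Q x) = Ideal.Quotient.mk Q (σ • x) := fun x => rfl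
  let e : (Zb ⧸ Q) ≃ₐ[A0 ⧸ P] (Zb ⧸ Q) :=
    AlgEquiv.ofRingEquiv (f := f) (by
      intro x
      obtain ⟨a, rfl⟩ := Ideal.Quotient.mk_surjective x
      have h1 : algebraMap (A0 ⧸ P) (Zb ⧸ Q) (Ideal.Quotient.mk P a) =
          Ideal.Quotient.mk Q (a : Zb) :=
        Ideal.Quotient.algebraMap_mk_of_liesOver Q P a
      rw [h1, hf, Ideal.Quotient.eq]
      exact hσ a.1 (fun h hh => a.2 ⟨h, hh⟩))
  obtain ⟨g, hg⟩ := Ideal.Quotient.stabilizerHom_surjective_of_profinite (G := H) P Q e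
  refine ⟨g.1.1, g.1.2, g.2, fun x => ?_⟩
  have h2 := congrArg (fun t => t (Ideal.Quotient.mk Q x)) hg
  simp only [Ideal.Quotient.stabilizerHom_apply] at h2
  rw [← Ideal.Quotient.eq]
  exact h2

end Fermat.Agent.S14.H894

end
-- ===== PACK-END S14/H894/Profinite.lean

-- ===== PACK-BEGIN S56/H734/KummerCore.lean
section





/-!
# S56 / H734 : Kummer count at `p`, core (`𝔽_p`-coefficients, abstract local datum)

`D ≤ G_ℚ` is the image of `loc : Gal(ℚ̄_p/ℚ_p) → G_ℚ`, compatible with an embedding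
`ι : ℚ̄ → ℚ̄_p`.  Every twisted cocycle `c : D → 𝔽_p(1)` of finite level is, on `D`,
`x κ₁ + y κ₂ + coboundary`, where `κ₁, κ₂` are the Kummer cocycles of `p` and `1 + p`.
-/

set_option autoImplicit false
set_option linter.style.haveILetI false

namespace Fermat.Agent.S56.H734

open Fermat.Agent.S56

section Roots

variable {p : ℕ} [hp : Fact p.Prime]

theorem pow_mod_of_isPrimitiveRoot {F : Type*} [Field F] {ζ : F} (hζ : IsPrimitiveRoot ζ p)
    (n : ℕ) : ζ ^ n = ζ ^ (n % p) := by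
  conv_lhs => rw [← Nat.div_add_mod n p, pow_add, pow_mul, hζ.pow_eq_one, one_pow, one_mul]

/-- Powers of a primitive `p`-th root of unity are equal iff the exponents agree in `ZMod p`. -/
theorem pow_eq_pow_iff_zmod {F : Type*} [Field F] {ζ : F} (hζ : IsPrimitiveRoot ζ p)
    (n m : ℕ) : ζ ^ n = ζ ^ m ↔ (n : ZMod p) = (m : ZMod p) := by
  rw [pow_mod_of_isPrimitiveRoot hζ n, pow_mod_of_isPrimitiveRoot hζ m,
    ZMod.natCast_eq_natCast_iff']
  constructor
  · intro h
    exact hζ.pow_inj (Nat.mod_lt _ hp.out.pos) (Nat.mod_lt _ hp.out.pos) h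
  · intro h
    rw [h]

theorem pow_val_eq {F : Type*} [Field F] {ζ : F} (hζ : IsPrimitiveRoot ζ p)
    (j : ZMod p) (n : ℕ) (h : (n : ZMod p) = j) : ζ ^ j.val = ζ ^ n := by
  rw [pow_eq_pow_iff_zmod hζ, ZMod.natCast_zmod_val, h]

/-- Every element of `G_ℚ` has a cyclotomic exponent. -/
theorem exists_isCycExp {ζ : Qb} (hζ : IsPrimitiveRoot ζ p) (σ : GQ) :
    ∃ a : ℕ, IsCycExp p σ a := by
  haveI : NeZero p := ⟨hp.out.ne_zero⟩
  have h1 : (σ ζ) ^ p = 1 := by rw [← map_pow, hζ.pow_eq_one, map_one]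
  obtain ⟨a, -, ha⟩ := hζ.eq_pow_of_pow_eq_one h1
  refine ⟨a, fun μ hμ => ?_⟩
  obtain ⟨i, -, hi⟩ := hζ.eq_pow_of_pow_eq_one hμ
  rw [← hi, map_pow, ← ha, ← pow_mul, ← pow_mul, mul_comm]

/-- The Kummer exponent of `σ` on a `p`-th root `θ` of a rational number. -/
theorem exists_kummer_exp {ζ : Qb} (hζ : IsPrimitiveRoot ζ p) (θ : Qb) (hθ : θ ≠ 0)
    (r : ℚ) (hr : θ ^ p = algebraMap ℚ Qb r) (σ : GQ) :
    ∃ j : ZMod p, σ θ = ζ ^ j.val * θ := by
  haveI : NeZero p := ⟨hp.out.ne_zero⟩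
  have h1 : (σ θ / θ) ^ p = 1 := by
    rw [div_pow, ← map_pow, hr, AlgEquiv.commutes, div_self]
    rw [← hr]
    exact pow_ne_zero _ hθ
  obtain ⟨i, -, hi⟩ := hζ.eq_pow_of_pow_eq_one h1
  refine ⟨(i : ZMod p), ?_⟩
  rw [pow_val_eq hζ (i : ZMod p) i rfl, hi, div_mul_cancel₀ _ hθ]

/-- A Kummer exponent function is a twisted cocycle on all of `G_ℚ`. -/
theorem kummer_exp_cocycle {ζ : Qb} (hζ : IsPrimitiveRoot ζ p) (θ : Qb) (hθ : θ ≠ 0)
    (κ : GQ → ZMod p) (hκ : ∀ σ, σ θ = ζ ^ (κ σ).val * θ) (σ τ : GQ) (a : ℕ)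
    (ha : IsCycExp p σ a) : κ (σ * τ) = κ σ + (a : ZMod p) * κ τ := by
  haveI : NeZero p := ⟨hp.out.ne_zero⟩
  have h1 : (σ * τ) θ = σ (τ θ) := rfl
  rw [hκ (σ * τ), hκ τ, map_mul, map_pow, ha ζ hζ.pow_eq_one, hκ σ, ← mul_assoc, ← pow_mul,
    ← pow_add] at h1
  have h2 := mul_right_cancel₀ hθ h1
  rw [pow_eq_pow_iff_zmod hζ] at h2
  push_cast at h2
  rw [ZMod.natCast_zmod_val, ZMod.natCast_zmod_val, ZMod.natCast_zmod_val] at h2
  rw [h2]
  ring

/-- A Kummer exponent function has finite level. -/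
theorem kummer_exp_level {ζ : Qb} (hζ : IsPrimitiveRoot ζ p) (θ : Qb) (hθ : θ ≠ 0)
    (κ : GQ → ZMod p) (hκ : ∀ σ, σ θ = ζ ^ (κ σ).val * θ) :
    ∃ L : IntermediateField ℚ Qb, FiniteDimensional ℚ L ∧
      ∀ σ τ : GQ, (∀ x ∈ L, τ x = x) → κ (σ * τ) = κ σ := by
  haveI : NeZero p := ⟨hp.out.ne_zero⟩
  haveI : Algebra.IsAlgebraic ℚ Qb := AlgebraicClosure.isAlgebraic ℚ
  refine ⟨IntermediateField.adjoin ℚ {θ},
    IntermediateField.adjoin.finiteDimensional (Algebra.IsIntegral.isIntegral θ), ?_⟩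
  intro σ τ hτ
  have h0 : τ θ = θ := hτ θ (IntermediateField.subset_adjoin ℚ _ (Set.mem_singleton θ))
  have h1 : (σ * τ) θ = σ θ := by
    show σ (τ θ) = σ θ
    rw [h0]
  rw [hκ (σ * τ), hκ σ] at h1
  have h2 := mul_right_cancel₀ hθ h1
  rw [pow_eq_pow_iff_zmod hζ, ZMod.natCast_zmod_val, ZMod.natCast_zmod_val] at h2
  exact h2

end Roots

section Core

variable (p : ℕ) [hp : Fact p.Prime]

/-- **Kummer count, core form.**  Abstract local datum `(ι, loc)` with image `D`. -/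
theorem kummer_core (hp2 : p ≠ 2) (D : Subgroup GQ)
    (ι : Qb →+* PadicAlgCl p) (loc : (PadicAlgCl p ≃ₐ[ℚ_[p]] PadicAlgCl p) →* GQ)
    (compat : ∀ τ x, ι (loc τ x) = τ (ι x)) (hrange : loc.range = D)
    (hlevel : ∀ L : IntermediateField ℚ Qb, FiniteDimensional ℚ L →
      ∃ E : IntermediateField ℚ_[p] (PadicAlgCl p), FiniteDimensional ℚ_[p] E ∧
        ∀ τ : PadicAlgCl p ≃ₐ[ℚ_[p]] PadicAlgCl p, (∀ y ∈ E, τ y = y) →
          ∀ x ∈ L, loc τ x = x)
    (ζ π β : Qb) (hζ : IsPrimitiveRoot ζ p) (hπ : π ^ p = (p : Qb)) (hβ : β ^ p = 1 + (p : Qb))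
    (κ₁ κ₂ : GQ → ZMod p) (hκ₁ : ∀ σ, σ π = ζ ^ (κ₁ σ).val * π)
    (hκ₂ : ∀ σ, σ β = ζ ^ (κ₂ σ).val * β)
    (c : GQ → ZMod p)
    (hcoc : ∀ σ ∈ D, ∀ τ ∈ D, ∀ a, IsCycExp p σ a → c (σ * τ) = c σ + (a : ZMod p) * c τ)
    (hlev : ∃ L : IntermediateField ℚ Qb, FiniteDimensional ℚ L ∧
      ∀ σ ∈ D, ∀ τ ∈ D, (∀ x ∈ L, τ x = x) → c (σ * τ) = c σ) :
    ∃ x y m : ZMod p, ∀ σ ∈ D, ∀ a, IsCycExp p σ a →
      c σ = x * κ₁ σ + y * κ₂ σ + ((a : ZMod p) - 1) * m := by
  haveI : NeZero p := ⟨hp.out.ne_zero⟩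
  have hιinj : Function.Injective ι := ι.injective
  have hmemD : ∀ τ, loc τ ∈ D := fun τ => hrange ▸ ⟨τ, rfl⟩
  have hζ0 : ζ ≠ 0 := hζ.ne_zero hp.out.ne_zero
  have hp0 : (p : Qb) ≠ 0 := by exact_mod_cast hp.out.ne_zero
  have hπ0 : π ≠ 0 := by
    intro h
    rw [h, zero_pow hp.out.ne_zero] at hπ
    exact hp0 hπ.symm
  have h1p : (1 : Qb) + (p : Qb) ≠ 0 := by
    have : ((1 + p : ℕ) : Qb) ≠ 0 := by exact_mod_cast (Nat.succ_ne_zero p ∘ (by omega))
    simpa using this
  have hβ0 : β ≠ 0 := by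
    intro h
    rw [h, zero_pow hp.out.ne_zero] at hβ
    exact h1p hβ.symm
  -- the multiplicative cocycle on the local Galois group
  set F : (PadicAlgCl p ≃ₐ[ℚ_[p]] PadicAlgCl p) → PadicAlgCl p :=
    fun τ => ι (ζ ^ (c (loc τ)).val) with hF
  have hF0 : ∀ τ, F τ ≠ 0 := fun τ => by
    rw [hF]
    exact (map_ne_zero ι).mpr (pow_ne_zero _ hζ0)
  have hFp : ∀ τ, F τ ^ p = 1 := fun τ => by
    rw [hF]
    simp only
    rw [← map_pow, ← pow_mul, mul_comm, pow_mul, hζ.pow_eq_one, one_pow, map_one]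
  have hFcoc : ∀ τ₁ τ₂, F (τ₁ * τ₂) = F τ₁ * τ₁ (F τ₂) := by
    intro τ₁ τ₂
    obtain ⟨a, ha⟩ := exists_isCycExp hζ (loc τ₁)
    have h1 := hcoc (loc τ₁) (hmemD τ₁) (loc τ₂) (hmemD τ₂) a ha
    rw [hF]
    simp only
    rw [← compat, ← map_mul, map_mul loc, h1]
    congr 1
    have h2 : loc τ₁ (ζ ^ (c (loc τ₂)).val) = (ζ ^ (c (loc τ₂)).val) ^ a := by
      apply ha
      rw [← pow_mul, mul_comm, pow_mul, hζ.pow_eq_one, one_pow]
    rw [h2, ← pow_mul, ← pow_add]
    apply pow_val_eq hζ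
    push_cast
    rw [ZMod.natCast_zmod_val, ZMod.natCast_zmod_val, mul_comm]
  obtain ⟨L, hLfin, hL⟩ := hlev
  obtain ⟨E, hEfin, hE⟩ := hlevel L hLfin
  have hFlev : ∀ τ₁ τ₂ : PadicAlgCl p ≃ₐ[ℚ_[p]] PadicAlgCl p, (∀ y ∈ E, τ₂ y = y) →
      F (τ₁ * τ₂) = F τ₁ := by
    intro τ₁ τ₂ h
    rw [hF]
    simp only
    rw [map_mul loc, hL (loc τ₁) (hmemD τ₁) (loc τ₂) (hmemD τ₂) (hE τ₂ h)]
  obtain ⟨α, hα0, hα⟩ := hilbert90_of_level F hF0 hFcoc E hFlev
  -- `A = α⁻¹` satisfies `τ A = F τ * A`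
  set A : PadicAlgCl p := α⁻¹ with hA
  have hA0 : A ≠ 0 := inv_ne_zero hα0
  have hAτ : ∀ τ : PadicAlgCl p ≃ₐ[ℚ_[p]] PadicAlgCl p, τ A = F τ * A := by
    intro τ
    have h1 : τ α ≠ 0 := (map_ne_zero τ).mpr hα0
    rw [hA, map_inv₀]
    field_simp
    rw [mul_comm]
    exact (hα τ).symm
  -- `A ^ p ∈ ℚ_p`
  have hfix : ∀ τ : PadicAlgCl p ≃ₐ[ℚ_[p]] PadicAlgCl p, τ (A ^ p) = A ^ p := by
    intro τ
    rw [map_pow, hAτ, mul_pow, hFp, one_mul]
  obtain ⟨x, hx⟩ : ∃ x : ℚ_[p], algebraMap ℚ_[p] (PadicAlgCl p) x = A ^ p := by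
    have := (InfiniteGalois.mem_bot_iff_fixed (k := ℚ_[p]) (K := PadicAlgCl p) (A ^ p)).2 hfix
    exact IntermediateField.mem_bot.1 this
  have hx0 : x ≠ 0 := by
    intro h
    rw [h, map_zero] at hx
    exact pow_ne_zero _ hA0 hx.symm
  obtain ⟨i, j, w, hw0, hxw⟩ := padic_eq_pow_mul_nat p hp2 x hx0
  set W : PadicAlgCl p := algebraMap ℚ_[p] (PadicAlgCl p) w with hW
  have hW0 : W ≠ 0 := (map_ne_zero _).mpr hw0
  have hWτ : ∀ τ : PadicAlgCl p ≃ₐ[ℚ_[p]] PadicAlgCl p, τ W = W := fun τ => τ.commutes w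
  -- the `p`-th root of unity `γ`
  set γ : PadicAlgCl p := A / (ι π ^ i * ι β ^ j * W) with hγ
  have hden0 : ι π ^ i * ι β ^ j * W ≠ 0 :=
    mul_ne_zero (mul_ne_zero (pow_ne_zero _ ((map_ne_zero ι).mpr hπ0))
      (pow_ne_zero _ ((map_ne_zero ι).mpr hβ0))) hW0
  have hιπ : ι π ^ p = (p : PadicAlgCl p) := by rw [← map_pow, hπ, map_natCast]
  have hιβ : ι β ^ p = 1 + (p : PadicAlgCl p) := by
    rw [← map_pow, hβ, map_add, map_one, map_natCast]
  have hAp : A ^ p = (p : PadicAlgCl p) ^ i * (1 + (p : PadicAlgCl p)) ^ j * W ^ p := by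
    rw [← hx, hxw, hW]
    simp only [map_mul, map_pow, map_add, map_one, map_natCast]
  have hγp : γ ^ p = 1 := by
    have h1 : (ι π ^ i * ι β ^ j * W) ^ p =
        (p : PadicAlgCl p) ^ i * (1 + (p : PadicAlgCl p)) ^ j * W ^ p := by
      rw [mul_pow, mul_pow, ← pow_mul, ← pow_mul, mul_comm i p, mul_comm j p, pow_mul, pow_mul,
        hιπ, hιβ]
    rw [hγ, div_pow, h1, hAp, div_self]
    rw [← h1]
    exact pow_ne_zero _ hden0
  have hιζ : IsPrimitiveRoot (ι ζ) p := hζ.map_of_injective hιinj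
  obtain ⟨m, -, hm⟩ := hιζ.eq_pow_of_pow_eq_one hγp
  -- `A = ι ξ * W`
  set ξ : Qb := ζ ^ m * π ^ i * β ^ j with hξ
  have hξ0 : ξ ≠ 0 := mul_ne_zero (mul_ne_zero (pow_ne_zero _ hζ0) (pow_ne_zero _ hπ0))
    (pow_ne_zero _ hβ0)
  have hAξ : A = ι ξ * W := by
    have h1 : A = γ * (ι π ^ i * ι β ^ j * W) := by
      rw [hγ, div_mul_cancel₀ _ hden0]
    rw [h1, ← hm, hξ]
    simp only [map_mul, map_pow]
    ring
  have hkey : ∀ τ : PadicAlgCl p ≃ₐ[ℚ_[p]] PadicAlgCl p,
      loc τ ξ = ζ ^ (c (loc τ)).val * ξ := by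
    intro τ
    apply hιinj
    have h1 := hAτ τ
    rw [hAξ, map_mul, hWτ, ← compat, ← mul_assoc] at h1
    have h2 := mul_right_cancel₀ hW0 h1
    rw [h2, hF]
    simp only [map_mul]
  refine ⟨(i : ZMod p), (j : ZMod p), (m : ZMod p), ?_⟩
  intro σ hσ a ha
  obtain ⟨τ, rfl⟩ : ∃ τ, loc τ = σ := by
    rw [← hrange] at hσ
    exact hσ
  have h1 := hkey τ
  have hζa : loc τ ζ = ζ ^ a := ha ζ hζ.pow_eq_one
  rw [hξ, map_mul, map_mul, map_pow, map_pow, map_pow, hζa, hκ₁, hκ₂, mul_pow, mul_pow] at h1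
  have h2 : ζ ^ (a * m + (κ₁ (loc τ)).val * i + (κ₂ (loc τ)).val * j) * (π ^ i * β ^ j) =
      ζ ^ ((c (loc τ)).val + m) * (π ^ i * β ^ j) := by
    rw [pow_add, pow_add, pow_add, pow_mul, pow_mul, pow_mul]
    rw [← mul_assoc] at h1
    linear_combination h1
  have h3 := mul_right_cancel₀ (mul_ne_zero (pow_ne_zero _ hπ0) (pow_ne_zero _ hβ0)) h2
  rw [pow_eq_pow_iff_zmod hζ] at h3
  push_cast at h3
  rw [ZMod.natCast_zmod_val, ZMod.natCast_zmod_val, ZMod.natCast_zmod_val] at h3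
  linear_combination -h3

end Core

end Fermat.Agent.S56.H734

end
-- ===== PACK-END S56/H734/KummerCore.lean

-- ===== PACK-BEGIN S30/H529/AdicEigen.lean
section




/-!
# S30 helper (helper529): the adic eigenmodule attached to a Galois module with finite
`p`-torsion

Specialisation of `exists_adic_eigenmodule` to `G = Gal(ℚ̄/ℚ)`, with the conclusion in the
language of the Prelude (`GaloisActionIsAdicContinuous`).
-/

set_option autoImplicit false
set_option linter.unusedSectionVars false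

namespace Fermat.Agent.S30.H529

open IsLocalRing TensorProduct

noncomputable section

/-- If `J[p]` is finite then `J[p ^ n]` is finite. -/
theorem finite_torsion_pow (J : Type*) [AddCommGroup J] (p : ℕ)
    (hfin : {x : J | p • x = 0}.Finite) (n : ℕ) : {x : J | p ^ n • x = 0}.Finite := by
  induction n with
  | zero =>
    have : {x : J | p ^ 0 • x = 0} = {0} := by
      ext x
      simp
    rw [this]
    exact Set.finite_singleton 0
  | succ n ih =>
    have hsub : {x : J | p ^ (n + 1) • x = 0}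
        ⊆ ⋃ y ∈ {y : J | p ^ n • y = 0}, {x : J | p • x = y} := by
      intro x hx
      simp only [Set.mem_ofPred_eq] at hx
      simp only [Set.mem_iUnion, Set.mem_ofPred_eq, exists_prop]
      refine ⟨p • x, ?_, rfl⟩
      rw [← mul_smul, ← pow_succ]
      exact hx
    refine Set.Finite.subset (Set.Finite.biUnion ih ?_) hsub
    intro y _
    by_cases hy : ∃ x₀ : J, p • x₀ = y
    · obtain ⟨x₀, hx₀⟩ := hy
      have hsub2 : {x : J | p • x = y} ⊆ (fun z => x₀ + z) '' {z : J | p • z = 0} := by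
        intro x hx
        simp only [Set.mem_ofPred_eq] at hx
        refine ⟨x - x₀, ?_, add_sub_cancel x₀ x⟩
        simp only [Set.mem_ofPred_eq]
        rw [smul_sub, hx, hx₀, sub_self]
      exact Set.Finite.subset (hfin.image _) hsub2
    · have : {x : J | p • x = y} = ∅ := by
        ext x
        simp only [Set.mem_ofPred_eq, Set.mem_empty_iff_false, iff_false]
        intro hx
        exact hy ⟨x, hx⟩
      rw [this]
      exact Set.finite_empty

/-- A common finite level for finitely many smooth vectors. -/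
theorem exists_common_level {J : Type*} [AddCommGroup J]
    [DistribMulAction (AlgebraicClosure ℚ ≃ₐ[ℚ] AlgebraicClosure ℚ) J] (S : Set J)
    (hS : S.Finite)
    (hsm : ∀ x ∈ S, ∃ L : IntermediateField ℚ (AlgebraicClosure ℚ), FiniteDimensional ℚ L ∧
      ∀ σ : AlgebraicClosure ℚ ≃ₐ[ℚ] AlgebraicClosure ℚ, (∀ y ∈ L, σ y = y) → σ • x = x) :
    ∃ L : IntermediateField ℚ (AlgebraicClosure ℚ), FiniteDimensional ℚ L ∧
      ∀ σ : AlgebraicClosure ℚ ≃ₐ[ℚ] AlgebraicClosure ℚ, (∀ y ∈ L, σ y = y) →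
        ∀ x ∈ S, σ • x = x := by
  induction S, hS using Set.Finite.induction_on with
  | empty =>
    exact ⟨⊥, inferInstance, fun _ _ x hx => absurd hx (Set.notMem_empty x)⟩
  | @insert b S _ _ ih =>
    obtain ⟨L₁, hL₁, h₁⟩ := ih (fun x hx => hsm x (Set.mem_insert_of_mem _ hx))
    obtain ⟨L₂, hL₂, h₂⟩ := hsm b (Set.mem_insert _ _)
    refine ⟨L₁ ⊔ L₂, inferInstance, fun σ hσ x hx => ?_⟩
    rcases Set.mem_insert_iff.mp hx with rfl | hx
    · exact h₂ σ (fun y hy => hσ y ((le_sup_right : L₂ ≤ L₁ ⊔ L₂) hy))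
    · exact h₁ σ (fun y hy => hσ y ((le_sup_left : L₁ ≤ L₁ ⊔ L₂) hy)) x hx

section Main

variable (p : ℕ)
variable (O : Type) [CommRing O] [IsDomain O] [IsDiscreteValuationRing O]
  [IsAdicComplete (maximalIdeal O) O] [CharZero O]
variable (J : Type) [AddCommGroup J]
  [DistribMulAction (AlgebraicClosure ℚ ≃ₐ[ℚ] AlgebraicClosure ℚ) J]
variable {ι : Type*} (T : ι → J →+ J) (a : ι → O)

/-- **Adic eigenmodule from a smooth Galois module with finite `p`-torsion.** -/
theorem exists_adic_galois_eigenmodule (hpO : (p : O) ∈ maximalIdeal O) (hp0 : p ≠ 0)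
    (hT : ∀ (i : ι) (γ : AlgebraicClosure ℚ ≃ₐ[ℚ] AlgebraicClosure ℚ) (x : J),
      T i (γ • x) = γ • T i x)
    (hfin : {x : J | p • x = 0}.Finite)
    (hsm : ∀ x : J, (∃ n : ℕ, p ^ n • x = 0) →
      ∃ L : IntermediateField ℚ (AlgebraicClosure ℚ), FiniteDimensional ℚ L ∧
        ∀ σ : AlgebraicClosure ℚ ≃ₐ[ℚ] AlgebraicClosure ℚ, (∀ y ∈ L, σ y = y) → σ • x = x)
    (v : ℕ → O ⊗[ℤ] J) (hv0 : (p : O) • v 0 = 0) (hv : ∀ n, (p : O) • v (n + 1) = v n)
    (hne : v ≠ 0) (heig : ∀ i n, tensorOp O T i (v n) = a i • v n) :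
    ∃ (M : Type) (_ : AddCommGroup M) (_ : Module O M) (_ : Module.Free O M)
      (_ : Module.Finite O M)
      (ρ : (AlgebraicClosure ℚ ≃ₐ[ℚ] AlgebraicClosure ℚ) →* Module.End O M),
      Nontrivial M ∧ GaloisActionIsAdicContinuous O ρ ∧
      (∀ γ : AlgebraicClosure ℚ ≃ₐ[ℚ] AlgebraicClosure ℚ,
        (∀ x : J, (∃ n : ℕ, p ^ n • x = 0) → γ • x = x) → ρ γ = 1) ∧
      (∀ (γ : AlgebraicClosure ℚ ≃ₐ[ℚ] AlgebraicClosure ℚ) (i : ι) (c : ℤ),
        (∀ x : J, (∃ n : ℕ, p ^ n • x = 0) → γ • γ • x - T i (γ • x) + c • x = 0) →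
        ρ γ * ρ γ - a i • ρ γ + (c : O) • (1 : Module.End O M) = 0) := by
  obtain ⟨M, i1, i2, i3, i4, ρ, hnt, hcont, hunr, hquad⟩ :=
    exists_adic_eigenmodule p O J T a hpO hp0 hT hfin v hv0 hv hne heig
  refine ⟨M, i1, i2, i3, i4, ρ, hnt, ?_, hunr, hquad⟩
  intro n
  obtain ⟨L, hL, hLfix⟩ := exists_common_level {x : J | p ^ n • x = 0}
    (finite_torsion_pow J p hfin n) (fun x hx => hsm x ⟨n, hx⟩)
  exact ⟨L, hL, fun σ hσ m => hcont n σ (fun x hx => hLfix σ hσ x hx) m⟩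

end Main

end

end Fermat.Agent.S30.H529

end
-- ===== PACK-END S30/H529/AdicEigen.lean

-- ===== PACK-BEGIN S24/Deg/H648JBound.lean
section


/-!
# S24 / M6-AN (helper648): the concrete `j`-function satisfies the hypotheses of
`J_scale_mem_goodRing`
-/

set_option autoImplicit false

noncomputable section

open UpperHalfPlane ModularGroup CongruenceSubgroup Polynomial ModularForm Filter Asymptotics
open scoped MatrixGroups Manifold Modular Real

namespace Fermat.Agent.S24.H648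

/-- A continuous function on `ℍ` which is `O(exp(2π m im τ))` at `i∞` is bounded by a multiple
of `exp(2π m im τ)` on the whole fundamental domain. -/
lemma exists_bound_fd_of_isBigO_exp {f : ℍ → ℂ} (hf : Continuous f) (m : ℝ)
    (hO : f =O[atImInfty] fun τ : ℍ => Real.exp (2 * π * m * τ.im)) :
    ∃ C : ℝ, ∀ τ : ℍ, τ ∈ 𝒟 → ‖f τ‖ ≤ C * Real.exp (2 * π * m * τ.im) := by
  obtain ⟨D, hD, hO'⟩ := hO.exists_pos
  rw [IsBigOWith, atImInfty, eventually_comap, eventually_atTop] at hO'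
  obtain ⟨y, hy⟩ := hO'
  have hfm : ContinuousOn (fun τ : ℍ => ‖f τ‖ / Real.exp (2 * π * m * τ.im))
      (truncatedFundamentalDomain y) := by
    apply Continuous.continuousOn
    refine hf.norm.div ?_ fun τ => (Real.exp_pos _).ne'
    exact Real.continuous_exp.comp (continuous_const.mul UpperHalfPlane.continuous_im)
  obtain ⟨E, hE⟩ : ∃ E, ∀ τ ∈ truncatedFundamentalDomain y,
      ‖f τ‖ / Real.exp (2 * π * m * τ.im) ≤ E := by
    obtain ⟨E, hE⟩ := (isCompact_truncatedFundamentalDomain y).exists_bound_of_continuousOn hfm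
    refine ⟨E, fun τ hτ => ?_⟩
    have := hE τ hτ
    rwa [Real.norm_of_nonneg (by positivity)] at this
  refine ⟨max D E, fun τ hτ => ?_⟩
  rcases le_total y (im τ) with hτ' | hτ'
  · have := hy _ hτ' τ rfl
    rw [Real.norm_of_nonneg (Real.exp_pos _).le] at this
    exact this.trans (mul_le_mul_of_nonneg_right (le_max_left _ _) (Real.exp_pos _).le)
  · rw [← div_le_iff₀ (Real.exp_pos _)]
    exact (hE τ ⟨hτ, hτ'⟩).trans (le_max_right _ _)

/-- The analytic `j`-function `E₄³/Δ`. -/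
def jFun (τ : ℍ) : ℂ := E₄ τ ^ 3 / ModularForm.discriminant τ

lemma jFun_def (τ : ℍ) : jFun τ = E₄ τ ^ 3 / ModularForm.discriminant τ := rfl

lemma mdifferentiable_jFun : MDifferentiable 𝓘(ℂ) 𝓘(ℂ) jFun := by
  have h4 : MDifferentiable 𝓘(ℂ) 𝓘(ℂ) (E₄ : ℍ → ℂ) := ModularFormClass.holo E₄
  have hΔ : MDifferentiable 𝓘(ℂ) 𝓘(ℂ) (ModularForm.discriminant : ℍ → ℂ) :=
    ModularFormClass.holo CuspForm.discriminant
  rw [UpperHalfPlane.mdifferentiable_iff] at h4 hΔ ⊢
  have : DifferentiableOn ℂ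
      (fun z => ((E₄ : ℍ → ℂ) ∘ ofComplex) z ^ 3 / ((ModularForm.discriminant : ℍ → ℂ) ∘ ofComplex) z)
      {z | 0 < z.im} :=
    (h4.pow 3).div hΔ fun z _ => discriminant_ne_zero _
  exact this

lemma jFun_smul (γ : SL(2, ℤ)) (τ : ℍ) : jFun (γ • τ) = jFun τ := by
  have : SlashInvariantFormClass (ModularForm 𝒮ℒ 4) Γ(1) 4 := Gamma_one_coe_eq_SL ▸ inferInstance
  have : SlashInvariantFormClass (CuspForm 𝒮ℒ 12) Γ(1) 12 :=
    Gamma_one_coe_eq_SL ▸ inferInstance
  have h4 := SlashInvariantForm.slash_action_eqn_SL'' E₄ (mem_Gamma_one γ) τ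
  have h12 := SlashInvariantForm.slash_action_eqn_SL'' CuspForm.discriminant (mem_Gamma_one γ) τ
  have hd : denom γ τ ≠ 0 := denom_ne_zero _ τ
  have hΔ : ModularForm.discriminant τ ≠ 0 := discriminant_ne_zero τ
  have h12' : ModularForm.discriminant (γ • τ) = denom γ τ ^ (12 : ℤ) * ModularForm.discriminant τ :=
    h12
  rw [jFun_def, jFun_def, h4, h12']
  have e1 : (denom γ τ ^ (4 : ℤ) * E₄ τ) ^ 3 = denom γ τ ^ (12 : ℤ) * E₄ τ ^ 3 := by
    rw [mul_pow, ← zpow_natCast, ← zpow_mul]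
    norm_num
  rw [e1, mul_div_mul_left _ _ (zpow_ne_zero _ hd)]

lemma continuous_jFun : Continuous jFun := mdifferentiable_jFun.continuous

lemma jFun_isBigO : jFun =O[atImInfty] fun τ : ℍ => Real.exp (2 * π * (1 : ℝ) * τ.im) := by
  have h4 : IsBoundedAtImInfty (E₄ : ℍ → ℂ) := ModularFormClass.bdd_at_infty E₄
  have h4' : (fun τ : ℍ => E₄ τ ^ 3) =O[atImInfty] (fun _ : ℍ => (1 : ℝ)) := by
    have h1 : (E₄ : ℍ → ℂ) =O[atImInfty] (fun _ : ℍ => (1 : ℝ)) := h4
    simpa using h1.pow 3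
  have hΔ := exp_isBigO_discriminant
  -- `1/Δ = O(exp(2π im))`
  have hinv : (fun τ : ℍ => (ModularForm.discriminant τ)⁻¹)
      =O[atImInfty] fun τ : ℍ => (Real.exp (-2 * π * τ.im))⁻¹ := by
    refine hΔ.inv_rev ?_
    exact Eventually.of_forall fun τ h => absurd h (Real.exp_pos _).ne'
  have hmul := h4'.mul hinv
  refine (hmul.congr_left fun τ => by rw [jFun_def, div_eq_mul_inv]).congr_right fun τ => ?_
  rw [one_mul, ← Real.exp_neg]
  congr 1
  ring

theorem jFun_bound_fd :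
    ∃ C : ℝ, ∀ τ : ℍ, τ ∈ 𝒟 → ‖jFun τ‖ ≤ C * Real.exp (2 * π * τ.im) := by
  obtain ⟨C, hC⟩ := exists_bound_fd_of_isBigO_exp continuous_jFun 1 jFun_isBigO
  exact ⟨C, fun τ hτ => by simpa using hC τ hτ⟩

/-- **`τ ↦ j (d τ)` is a good function of level `N` for `d ∣ N`.** -/
theorem jFun_scale_mem_goodRing (N : ℕ) (d : ℕ) (hd : 0 < d) (hdN : d ∣ N) (s : ℍ → ℍ)
    (hs : ∀ τ : ℍ, (s τ : ℂ) = d * τ) : (fun τ => jFun (s τ)) ∈ goodRing N :=
  J_scale_mem_goodRing N mdifferentiable_jFun jFun_smul jFun_bound_fd d hd hdN s hs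

end Fermat.Agent.S24.H648

end
end
-- ===== PACK-END S24/Deg/H648JBound.lean

-- ===== PACK-BEGIN S29/H149/HCoh.lean
section


/-!
# S29 layer M, piece `HCoh` (helper149)

For a prime `ℓ ∤ N` the factorisation `α_i γ = γ'_i α_{π(i)}` (`heckeFac`) exists, is unique,
permutes the index set and satisfies the cocycle rule; hence the cohomological Hecke operator
`heckeCoh` preserves parabolic characters (`IsParHom`): additivity is the transfer computation,
vanishing on parabolic / finite-order elements is the cycle argument (the product of the `γ'_i`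
over a cycle of `π` is conjugate to a power of `γ`), done over the orbits of `π` so that it is
valid with torsion coefficients (`A = ZMod p`).

Main results: `isParHom_heckeCoh` (the piece), `HCoh_isFactorSystem`, `HCoh_heckeFac_spec`,
`HCoh_heckeFac_unique`, `HCoh_exists_factor`, `HCoh_factor_unique`, `HCoh_perm`,
`HCoh_transfer_mul`, `HCoh_transfer_eq_zero`, `HCoh_sum_eq_zero_of_orbits`.
-/

set_option autoImplicit false

namespace Fermat.Agent.S29.H149

open Fermat.Agent.S29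
open scoped MatrixGroups

/-! ### A combinatorial lemma: sums over the orbits of a permutation -/

theorem HCoh_sum_eq_zero_of_orbits {ι : Type*} [Fintype ι] [DecidableEq ι] {A : Type*}
    [AddCommMonoid A] (σ : Equiv.Perm ι) (f : ι → A)
    (h : ∀ i : ι, ∀ r : ℕ, 0 < r → (σ ^ r) i = i → ∑ k ∈ Finset.range r, f ((σ ^ k) i) = 0) :
    ∑ i, f i = 0 := by
  suffices H : ∀ n : ℕ, ∀ s : Finset ι, s.card = n → (∀ i ∈ s, σ i ∈ s) → ∑ i ∈ s, f i = 0 from
    H _ Finset.univ rfl (fun i _ => Finset.mem_univ _)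
  intro n
  induction n using Nat.strong_induction_on with
  | _ n ih =>
    intro s hs hinv
    rcases s.eq_empty_or_nonempty with rfl | ⟨i₀, hi₀⟩
    · simp
    · have hpow : ∀ k : ℕ, (σ ^ k) i₀ ∈ s := by
        intro k
        induction k with
        | zero => simpa using hi₀
        | succ k ihk =>
          rw [pow_succ', Equiv.Perm.mul_apply]
          exact hinv _ ihk
      have hper : i₀ ∈ Function.periodicPts σ := by
        refine Function.mk_mem_periodicPts (orderOf_pos σ) ?_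
        show σ^[orderOf σ] i₀ = i₀
        rw [Equiv.Perm.iterate_eq_pow, pow_orderOf_eq_one]
        rfl
      set r := Function.minimalPeriod σ i₀ with hr
      have hrpos : 0 < r := Function.minimalPeriod_pos_of_mem_periodicPts hper
      have hfix : (σ ^ r) i₀ = i₀ := by
        have := Function.isPeriodicPt_minimalPeriod σ i₀
        rw [← Equiv.Perm.iterate_eq_pow]
        exact this
      set O : Finset ι := (Finset.range r).image (fun k => (σ ^ k) i₀) with hO
      have hOs : O ⊆ s := by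
        intro x hx
        rw [hO, Finset.mem_image] at hx
        obtain ⟨k, -, rfl⟩ := hx
        exact hpow k
      have hOne : O.Nonempty :=
        ⟨i₀, Finset.mem_image.mpr ⟨0, Finset.mem_range.mpr hrpos, by simp⟩⟩
      have hsumO : ∑ i ∈ O, f i = 0 := by
        rw [hO, Finset.sum_image]
        · exact h i₀ r hrpos hfix
        · intro a ha b hb hab
          rw [Finset.coe_range, Set.mem_Iio] at ha hb
          simp only [← Equiv.Perm.iterate_eq_pow] at hab
          exact (Function.iterate_eq_iterate_iff_of_lt_minimalPeriod ha hb).mp hab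
      have hinv' : ∀ i ∈ s \ O, σ i ∈ s \ O := by
        intro i hi
        rw [Finset.mem_sdiff] at hi ⊢
        refine ⟨hinv i hi.1, fun hσ => hi.2 ?_⟩
        rw [hO, Finset.mem_image] at hσ
        obtain ⟨k, hk, hk'⟩ := hσ
        rw [Finset.mem_range] at hk
        have key : ∃ m, m < r ∧ (σ ^ (m + 1)) i₀ = σ i := by
          rcases Nat.eq_zero_or_pos k with rfl | hkpos
          · refine ⟨r - 1, by omega, ?_⟩
            rw [Nat.sub_add_cancel hrpos, hfix, ← hk']
            simp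
          · refine ⟨k - 1, by omega, ?_⟩
            rw [Nat.sub_add_cancel hkpos, hk']
        obtain ⟨m, hm, hm'⟩ := key
        rw [pow_succ', Equiv.Perm.mul_apply] at hm'
        have := σ.injective hm'
        rw [hO, Finset.mem_image]
        exact ⟨m, Finset.mem_range.mpr hm, this⟩
      have hcard : (s \ O).card < n := by
        rw [← hs]
        exact Finset.card_lt_card (Finset.sdiff_ssubset hOs hOne)
      have := ih _ hcard (s \ O) rfl hinv'
      rw [← Finset.sum_sdiff hOs, this, hsumO, add_zero]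

/-! ### Abstract factor systems -/

section abstract

variable {Γ : Type*} [Group Γ] {ι : Type*}

/-- A "factor system": `fac γ i = (π_γ i, γ'_i)` with the cocycle rule. -/
structure HCoh_IsFactorSystem (fac : Γ → ι → ι × Γ) : Prop where
  one : ∀ i, fac 1 i = (i, 1)
  mul : ∀ γ δ i, fac (γ * δ) i = ((fac δ (fac γ i).1).1, (fac γ i).2 * (fac δ (fac γ i).1).2)

variable {fac : Γ → ι → ι × Γ}

/-- The permutation of the index set attached to `γ`. -/
def HCoh_perm (hf : HCoh_IsFactorSystem fac) (γ : Γ) : Equiv.Perm ι where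
  toFun i := (fac γ i).1
  invFun i := (fac γ⁻¹ i).1
  left_inv i := by
    have := hf.mul γ γ⁻¹ i
    rw [mul_inv_cancel, hf.one] at this
    exact (congrArg Prod.fst this).symm
  right_inv i := by
    have := hf.mul γ⁻¹ γ i
    rw [inv_mul_cancel, hf.one] at this
    exact (congrArg Prod.fst this).symm

@[simp] theorem HCoh_perm_apply (hf : HCoh_IsFactorSystem fac) (γ : Γ) (i : ι) :
    HCoh_perm hf γ i = (fac γ i).1 := rfl

theorem HCoh_pow_fst (hf : HCoh_IsFactorSystem fac) (γ : Γ) (n : ℕ) (i : ι) :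
    (fac (γ ^ n) i).1 = (HCoh_perm hf γ ^ n) i := by
  induction n with
  | zero => simp [hf.one]
  | succ n ih =>
    rw [pow_succ, hf.mul, pow_succ', Equiv.Perm.mul_apply, ← ih]
    rfl

theorem HCoh_map_one {A : Type*} [AddCommGroup A] {c : Γ → A}
    (hc : ∀ γ δ, c (γ * δ) = c γ + c δ) : c 1 = 0 := by
  have := hc 1 1
  rw [mul_one] at this
  exact (add_eq_left.mp this.symm)

theorem HCoh_map_pow_snd (hf : HCoh_IsFactorSystem fac) {A : Type*} [AddCommGroup A] {c : Γ → A}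
    (hc : ∀ γ δ, c (γ * δ) = c γ + c δ) (γ : Γ) (n : ℕ) (i : ι) :
    c (fac (γ ^ n) i).2 = ∑ k ∈ Finset.range n, c (fac γ ((HCoh_perm hf γ ^ k) i)).2 := by
  induction n with
  | zero => simp [hf.one, HCoh_map_one hc]
  | succ n ih =>
    rw [pow_succ, hf.mul, Finset.sum_range_succ, ← ih, hc, HCoh_pow_fst hf]

theorem HCoh_pow_of_fixed (hf : HCoh_IsFactorSystem fac) (g : Γ) (i : ι) (hi : (fac g i).1 = i)
    (m : ℕ) : fac (g ^ m) i = (i, (fac g i).2 ^ m) := by
  induction m with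
  | zero => simp [hf.one]
  | succ m ih =>
    rw [pow_succ, hf.mul, ih]
    simp only
    rw [hi, pow_succ]

/-- Additivity of the transfer. -/
theorem HCoh_transfer_mul [Fintype ι] (hf : HCoh_IsFactorSystem fac) {A : Type*}
    [AddCommGroup A] {c : Γ → A} (hc : ∀ γ δ, c (γ * δ) = c γ + c δ) (γ δ : Γ) :
    ∑ i, c (fac (γ * δ) i).2 = ∑ i, c (fac γ i).2 + ∑ i, c (fac δ i).2 := by
  simp only [hf.mul, hc, Finset.sum_add_distrib]
  congr 1
  exact Equiv.sum_comp (HCoh_perm hf γ) (fun j => c (fac δ j).2)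

/-- Vanishing of the transfer on a class `Z` of elements stable under "cycle products". -/
theorem HCoh_transfer_eq_zero [Fintype ι] (hf : HCoh_IsFactorSystem fac) {A : Type*}
    [AddCommGroup A] {c : Γ → A} (hc : ∀ γ δ, c (γ * δ) = c γ + c δ) (Z : Γ → Prop)
    (hZ : ∀ γ, Z γ → c γ = 0)
    (hclosed : ∀ γ, Z γ → ∀ r : ℕ, 0 < r → ∀ i, (fac (γ ^ r) i).1 = i → Z (fac (γ ^ r) i).2)
    (γ : Γ) (hγ : Z γ) : ∑ i, c (fac γ i).2 = 0 := by
  classical
  refine HCoh_sum_eq_zero_of_orbits (HCoh_perm hf γ) (fun i => c (fac γ i).2) ?_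
  intro i r hr hfix
  rw [← HCoh_map_pow_snd hf hc]
  refine hZ _ (hclosed γ hγ r hr i ?_)
  rw [HCoh_pow_fst hf]
  exact hfix

/-- Cycle products of elements of finite order have finite order. -/
theorem HCoh_finite_order_closed (hf : HCoh_IsFactorSystem fac) (γ : Γ) (n : ℕ) (hn : γ ^ n = 1)
    (r : ℕ) (i : ι) (hi : (fac (γ ^ r) i).1 = i) : (fac (γ ^ r) i).2 ^ n = 1 := by
  have h1 := HCoh_pow_of_fixed hf (γ ^ r) i hi n
  rw [← pow_mul, mul_comm, pow_mul, hn, one_pow, hf.one] at h1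
  exact (congrArg Prod.snd h1).symm

end abstract

/-! ### Integer matrices of elements of `Γ₀(N)` -/

section mat

variable {N : ℕ}

theorem HCoh_mat_one : (1 : G0 N).mat = 1 := rfl

theorem HCoh_mat_mul (γ γ' : G0 N) : (γ * γ').mat = γ.mat * γ'.mat := rfl

theorem HCoh_mat_pow (γ : G0 N) (n : ℕ) : (γ ^ n).mat = γ.mat ^ n := by
  induction n with
  | zero => simp [HCoh_mat_one]
  | succ n ih => rw [pow_succ, pow_succ, HCoh_mat_mul, ih]

theorem HCoh_mat_det (γ : G0 N) : γ.mat.det = 1 := (γ : SL(2, ℤ)).2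

theorem HCoh_mat_det' (γ : G0 N) : γ.mat 0 0 * γ.mat 1 1 - γ.mat 0 1 * γ.mat 1 0 = 1 := by
  rw [← Matrix.det_fin_two, HCoh_mat_det]

theorem HCoh_mat_injective :
    Function.Injective (G0.mat : G0 N → Matrix (Fin 2) (Fin 2) ℤ) := by
  intro γ γ' h
  apply Subtype.ext
  apply Subtype.ext
  exact h

theorem HCoh_mat_dvd (γ : G0 N) : (N : ℤ) ∣ γ.mat 1 0 := by
  have := CongruenceSubgroup.Gamma0_mem.mp γ.2
  exact (ZMod.intCast_zmod_eq_zero_iff_dvd _ _).mp this

/-- Build an element of `Γ₀(N)` from an integer matrix. -/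
def HCoh_mk (M : Matrix (Fin 2) (Fin 2) ℤ) (hdet : M.det = 1) (hN : (N : ℤ) ∣ M 1 0) : G0 N :=
  ⟨⟨M, hdet⟩, CongruenceSubgroup.Gamma0_mem.mpr ((ZMod.intCast_zmod_eq_zero_iff_dvd _ _).mpr hN)⟩

@[simp] theorem HCoh_mk_mat (M : Matrix (Fin 2) (Fin 2) ℤ) (hdet : M.det = 1)
    (hN : (N : ℤ) ∣ M 1 0) : (HCoh_mk M hdet hN : G0 N).mat = M := rfl

theorem HCoh_heckeRep_det {ℓ : ℕ} (i : Option (Fin ℓ)) : (heckeRep ℓ i).det = ℓ := by
  cases i <;> simp [heckeRep, Matrix.det_fin_two]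

/-- Existence of the factorisation `M = γ' * α_j` for `det M = ℓ`, `N ∣ M₁₀`. -/
theorem HCoh_exists_factor {ℓ : ℕ} (hℓ : ℓ.Prime) (hℓN : ¬ ℓ ∣ N)
    (M : Matrix (Fin 2) (Fin 2) ℤ) (hdet : M.det = ℓ) (hN : (N : ℤ) ∣ M 1 0) :
    ∃ q : Option (Fin ℓ) × G0 N, M = q.2.mat * heckeRep ℓ q.1 := by
  have : Fact ℓ.Prime := ⟨hℓ⟩
  have hd : M 0 0 * M 1 1 - M 0 1 * M 1 0 = ℓ := by rw [← hdet, Matrix.det_fin_two]
  have hℓ0 : (ℓ : ℤ) ≠ 0 := by exact_mod_cast hℓ.ne_zero
  by_cases h0 : (ℓ : ℤ) ∣ M 0 0 ∧ (ℓ : ℤ) ∣ M 1 0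
  · obtain ⟨⟨a', ha'⟩, ⟨c', hc'⟩⟩ := h0
    have hdet' : (!![a', M 0 1; c', M 1 1] : Matrix (Fin 2) (Fin 2) ℤ).det = 1 := by
      rw [Matrix.det_fin_two_of]
      apply mul_left_cancel₀ hℓ0
      rw [ha', hc'] at hd
      linear_combination hd
    have hN' : (N : ℤ) ∣ (!![a', M 0 1; c', M 1 1] : Matrix (Fin 2) (Fin 2) ℤ) 1 0 := by
      have hcop : IsCoprime (N : ℤ) (ℓ : ℤ) := by
        rw [Int.isCoprime_iff_gcd_eq_one, Int.gcd_natCast_natCast]
        exact Nat.Coprime.symm ((Nat.Prime.coprime_iff_not_dvd hℓ).mpr hℓN)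
      have : (N : ℤ) ∣ (ℓ : ℤ) * c' := hc' ▸ hN
      simpa using hcop.dvd_of_dvd_mul_left this
    refine ⟨(none, HCoh_mk _ hdet' hN'), ?_⟩
    ext i j
    fin_cases i <;> fin_cases j <;>
      simp [heckeRep, Matrix.mul_apply, Fin.sum_univ_two, ha', hc', mul_comm]
  · -- find `k` with `M₀₁ ≡ k M₀₀`, `M₁₁ ≡ k M₁₀` mod `ℓ`
    have hdz : ((M 0 0 : ℤ) : ZMod ℓ) * (M 1 1 : ℤ) - (M 0 1 : ℤ) * (M 1 0 : ℤ) = 0 := by
      have := congrArg (Int.cast : ℤ → ZMod ℓ) hd
      push_cast at this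
      rw [this]
      simp
    have hk : ∃ k : ZMod ℓ, ((M 0 1 : ℤ) : ZMod ℓ) = (M 0 0 : ℤ) * k ∧
        ((M 1 1 : ℤ) : ZMod ℓ) = (M 1 0 : ℤ) * k := by
      by_cases ha : ((M 0 0 : ℤ) : ZMod ℓ) = 0
      · have hc : ((M 1 0 : ℤ) : ZMod ℓ) ≠ 0 := by
          intro hc
          exact h0 ⟨(ZMod.intCast_zmod_eq_zero_iff_dvd _ _).mp ha,
            (ZMod.intCast_zmod_eq_zero_iff_dvd _ _).mp hc⟩
        refine ⟨(M 1 1 : ℤ) / (M 1 0 : ℤ), ?_, ?_⟩
        · rw [ha, zero_mul]
          rw [ha, zero_mul, zero_sub, neg_eq_zero] at hdz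
          exact (mul_eq_zero.mp hdz).resolve_right hc
        · field_simp
      · refine ⟨(M 0 1 : ℤ) / (M 0 0 : ℤ), ?_, ?_⟩
        · field_simp
        · field_simp
          linear_combination hdz
    obtain ⟨k, hk1, hk2⟩ := hk
    obtain ⟨kv, hkv, h1, h2⟩ : ∃ kv : ℕ, kv < ℓ ∧ (ℓ : ℤ) ∣ M 0 1 - M 0 0 * (kv : ℤ) ∧
        (ℓ : ℤ) ∣ M 1 1 - M 1 0 * (kv : ℤ) := by
      refine ⟨k.val, ZMod.val_lt k, ?_, ?_⟩
      · rw [← ZMod.intCast_zmod_eq_zero_iff_dvd]
        push_cast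
        rw [ZMod.natCast_zmod_val, hk1, sub_self]
      · rw [← ZMod.intCast_zmod_eq_zero_iff_dvd]
        push_cast
        rw [ZMod.natCast_zmod_val, hk2, sub_self]
    obtain ⟨b', hb'⟩ := h1
    obtain ⟨d', hd'⟩ := h2
    have hdet' : (!![M 0 0, b'; M 1 0, d'] : Matrix (Fin 2) (Fin 2) ℤ).det = 1 := by
      rw [Matrix.det_fin_two_of]
      apply mul_left_cancel₀ hℓ0
      linear_combination hd - M 0 0 * hd' + M 1 0 * hb'
    have hN' : (N : ℤ) ∣ (!![M 0 0, b'; M 1 0, d'] : Matrix (Fin 2) (Fin 2) ℤ) 1 0 := by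
      simpa using hN
    refine ⟨(some ⟨kv, hkv⟩, HCoh_mk _ hdet' hN'), ?_⟩
    ext i j
    fin_cases i <;> fin_cases j
    · simp [heckeRep, Matrix.mul_apply, Fin.sum_univ_two]
    · simp [heckeRep, Matrix.mul_apply, Fin.sum_univ_two]
      linear_combination hb'
    · simp [heckeRep, Matrix.mul_apply, Fin.sum_univ_two]
    · simp [heckeRep, Matrix.mul_apply, Fin.sum_univ_two]
      linear_combination hd'

end mat

section unique

variable {N : ℕ}

theorem HCoh_mul_right_cancel {A : Matrix (Fin 2) (Fin 2) ℤ} (hA : A.det ≠ 0)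
    {X Y : Matrix (Fin 2) (Fin 2) ℤ} (h : X * A = Y * A) : X = Y := by
  have h2 := congrArg (· * A.adjugate) h
  simp only [Matrix.mul_assoc, Matrix.mul_adjugate, Matrix.mul_smul, Matrix.mul_one] at h2
  ext i j
  have h3 := congrFun (congrFun h2 i) j
  simp only [Matrix.smul_apply, smul_eq_mul] at h3
  exact mul_left_cancel₀ hA h3

/-- Uniqueness of the factorisation. -/
theorem HCoh_factor_unique {ℓ : ℕ} (hℓ : ℓ.Prime) {i j : Option (Fin ℓ)} {γ γ' : G0 N}
    (h : γ.mat * heckeRep ℓ i = γ'.mat * heckeRep ℓ j) : i = j ∧ γ = γ' := by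
  have hℓ0 : (ℓ : ℤ) ≠ 0 := by exact_mod_cast hℓ.ne_zero
  have hℓp : Prime (ℓ : ℤ) := Nat.prime_iff_prime_int.mp hℓ
  have hnd : ¬ (ℓ : ℤ) ∣ 1 := fun h1 => hℓp.not_isUnit (isUnit_of_dvd_one h1)
  have hγ := HCoh_mat_det' γ
  have hγ' := HCoh_mat_det' γ'
  have e00 := congrFun (congrFun h 0) 0
  have e01 := congrFun (congrFun h 0) 1
  have e10 := congrFun (congrFun h 1) 0
  have e11 := congrFun (congrFun h 1) 1
  have hij : i = j := by
    rcases i with _ | k <;> rcases j with _ | k'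
    · rfl
    · exfalso
      simp [heckeRep, Matrix.mul_apply, Fin.sum_univ_two] at e00 e10
      apply hnd
      refine ⟨γ.mat 0 0 * γ'.mat 1 1 - γ'.mat 0 1 * γ.mat 1 0, ?_⟩
      rw [← e00, ← e10] at hγ'
      linear_combination -hγ'
    · exfalso
      simp [heckeRep, Matrix.mul_apply, Fin.sum_univ_two] at e00 e10
      apply hnd
      refine ⟨γ'.mat 0 0 * γ.mat 1 1 - γ.mat 0 1 * γ'.mat 1 0, ?_⟩
      rw [e00, e10] at hγ
      linear_combination -hγ
    · simp [heckeRep, Matrix.mul_apply, Fin.sum_univ_two] at e00 e01 e10 e11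
      by_contra hne
      have hkk : (k : ℕ) ≠ (k' : ℕ) := fun hk => hne (by rw [Fin.ext hk])
      have hnd' : ¬ (ℓ : ℤ) ∣ ((k : ℕ) : ℤ) - ((k' : ℕ) : ℤ) := by
        intro hd
        have hlt : |((k : ℕ) : ℤ) - ((k' : ℕ) : ℤ)| < (ℓ : ℤ) := by
          have h1 := k.2
          have h2 := k'.2
          rw [abs_lt]
          constructor <;> omega
        have := Int.eq_zero_of_abs_lt_dvd hd hlt
        apply hkk
        omega
      have ha : (ℓ : ℤ) ∣ γ.mat 0 0 := by
        have : (ℓ : ℤ) ∣ γ.mat 0 0 * (((k : ℕ) : ℤ) - ((k' : ℕ) : ℤ)) := by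
          refine ⟨γ'.mat 0 1 - γ.mat 0 1, ?_⟩
          rw [← e00] at e01
          linear_combination e01
        exact (hℓp.dvd_or_dvd this).resolve_right hnd'
      have hc : (ℓ : ℤ) ∣ γ.mat 1 0 := by
        have : (ℓ : ℤ) ∣ γ.mat 1 0 * (((k : ℕ) : ℤ) - ((k' : ℕ) : ℤ)) := by
          refine ⟨γ'.mat 1 1 - γ.mat 1 1, ?_⟩
          rw [← e10] at e11
          linear_combination e11
        exact (hℓp.dvd_or_dvd this).resolve_right hnd'
      apply hnd
      rw [← hγ]
      exact dvd_sub (Dvd.dvd.mul_right ha _) (Dvd.dvd.mul_left hc _)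
  subst hij
  refine ⟨rfl, HCoh_mat_injective (HCoh_mul_right_cancel ?_ h)⟩
  rw [HCoh_heckeRep_det]
  exact hℓ0

theorem HCoh_exists_isHeckeFactor {ℓ : ℕ} (hℓ : ℓ.Prime) (hℓN : ¬ ℓ ∣ N) (γ : G0 N)
    (i : Option (Fin ℓ)) : ∃ q : Option (Fin ℓ) × G0 N, IsHeckeFactor ℓ γ i q := by
  refine HCoh_exists_factor hℓ hℓN (heckeRep ℓ i * γ.mat) ?_ ?_
  · rw [Matrix.det_mul, HCoh_heckeRep_det, HCoh_mat_det, mul_one]
  · have := HCoh_mat_dvd γ
    rcases i with _ | k
    · simpa [heckeRep, Matrix.mul_apply, Fin.sum_univ_two] using this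
    · simpa [heckeRep, Matrix.mul_apply, Fin.sum_univ_two] using Dvd.dvd.mul_left this _

theorem HCoh_heckeFac_spec {ℓ : ℕ} (hℓ : ℓ.Prime) (hℓN : ¬ ℓ ∣ N) (γ : G0 N)
    (i : Option (Fin ℓ)) : IsHeckeFactor ℓ γ i (heckeFac N ℓ γ i) := by
  unfold heckeFac
  rw [dif_pos (HCoh_exists_isHeckeFactor hℓ hℓN γ i)]
  exact Classical.choose_spec (HCoh_exists_isHeckeFactor hℓ hℓN γ i)

theorem HCoh_heckeFac_unique {ℓ : ℕ} (hℓ : ℓ.Prime) (hℓN : ¬ ℓ ∣ N) {γ : G0 N}
    {i : Option (Fin ℓ)} {q : Option (Fin ℓ) × G0 N} (h : IsHeckeFactor ℓ γ i q) :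
    heckeFac N ℓ γ i = q := by
  have h' := HCoh_heckeFac_spec hℓ hℓN γ i
  unfold IsHeckeFactor at h h'
  obtain ⟨h1, h2⟩ := HCoh_factor_unique hℓ (h'.symm.trans h)
  exact Prod.ext h1 h2

theorem HCoh_isFactorSystem {ℓ : ℕ} (hℓ : ℓ.Prime) (hℓN : ¬ ℓ ∣ N) :
    HCoh_IsFactorSystem (heckeFac N ℓ) where
  one i := by
    apply HCoh_heckeFac_unique hℓ hℓN
    unfold IsHeckeFactor
    simp [HCoh_mat_one]
  mul γ δ i := by
    apply HCoh_heckeFac_unique hℓ hℓN
    have h1 := HCoh_heckeFac_spec hℓ hℓN γ i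
    have h2 := HCoh_heckeFac_spec hℓ hℓN δ (heckeFac N ℓ γ i).1
    unfold IsHeckeFactor at h1 h2 ⊢
    simp only [HCoh_mat_mul]
    rw [← Matrix.mul_assoc, h1, Matrix.mul_assoc, h2, Matrix.mul_assoc]

end unique

/-! ### Traces -/

section trace

theorem HCoh_trace_eq_of_conj {A G D : Matrix (Fin 2) (Fin 2) ℤ} (hA : A.det ≠ 0)
    (h : A * G = D * A) : G.trace = D.trace := by
  have h1 : (A.adjugate * (A * G)).trace = A.det * G.trace := by
    rw [← Matrix.mul_assoc, Matrix.adjugate_mul, Matrix.smul_mul, Matrix.one_mul,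
      Matrix.trace_smul, smul_eq_mul]
  have h2 : (A.adjugate * (D * A)).trace = A.det * D.trace := by
    rw [Matrix.trace_mul_comm, Matrix.mul_assoc, Matrix.mul_adjugate, Matrix.mul_smul,
      Matrix.mul_one, Matrix.trace_smul, smul_eq_mul]
  rw [h, h2] at h1
  exact (mul_left_cancel₀ hA h1).symm

theorem HCoh_sq_eq {G : Matrix (Fin 2) (Fin 2) ℤ} (hdet : G.det = 1) :
    G * G = G.trace • G - 1 := by
  rw [Matrix.det_fin_two] at hdet
  ext i j
  rw [Matrix.sub_apply, Matrix.smul_apply, Matrix.trace_fin_two, Matrix.mul_apply,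
    Fin.sum_univ_two, smul_eq_mul]
  fin_cases i <;> fin_cases j
  · simp only [Fin.zero_eta, Fin.isValue, Matrix.one_apply_eq]
    linear_combination (-1 : ℤ) * hdet
  · simp only [Fin.zero_eta, Fin.isValue, Fin.mk_one, ne_eq, zero_ne_one, not_false_eq_true,
      Matrix.one_apply_ne, sub_zero]
    ring
  · simp only [Fin.mk_one, Fin.isValue, Fin.zero_eta, ne_eq, one_ne_zero, not_false_eq_true,
      Matrix.one_apply_ne, sub_zero]
    ring
  · simp only [Fin.mk_one, Fin.isValue, Matrix.one_apply_eq]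
    linear_combination (-1 : ℤ) * hdet

theorem HCoh_trace_pow_rec {G : Matrix (Fin 2) (Fin 2) ℤ} (hdet : G.det = 1) (n : ℕ) :
    (G ^ (n + 2)).trace = G.trace * (G ^ (n + 1)).trace - (G ^ n).trace := by
  have : G ^ (n + 2) = G.trace • G ^ (n + 1) - G ^ n := by
    rw [pow_add, pow_two, HCoh_sq_eq hdet, mul_sub, mul_one, Matrix.mul_smul, ← pow_succ]
  rw [this, Matrix.trace_sub, Matrix.trace_smul, smul_eq_mul]

theorem HCoh_trace_pow {G : Matrix (Fin 2) (Fin 2) ℤ} (hdet : G.det = 1)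
    (ht : G.trace = 2 ∨ G.trace = -2) (r : ℕ) :
    (G ^ r).trace = 2 ∨ (G ^ r).trace = -2 := by
  have key : ∀ n : ℕ, ((G ^ n).trace = 2 ∨ (G ^ n).trace = -2) ∧
      ((G ^ (n + 1)).trace = G.trace * (G ^ n).trace / 2) := by
    intro n
    induction n with
    | zero =>
      refine ⟨Or.inl (by simp), ?_⟩
      simp
    | succ n ih =>
      obtain ⟨ih1, ih2⟩ := ih
      have hrec := HCoh_trace_pow_rec hdet n
      rcases ht with ht | ht <;> rcases ih1 with ih1 | ih1 <;>
        rw [ht, ih1] at ih2 <;> norm_num at ih2 <;>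
        rw [ht, ih1, ih2] at hrec <;> norm_num at hrec <;>
        rw [ht, ih2, hrec] <;> norm_num
  exact (key r).1

end trace

/-! ### The piece `HCoh` -/

theorem isParHom_heckeCoh {N : ℕ} {ℓ : ℕ} (hℓ : ℓ.Prime) (hℓN : ¬ ℓ ∣ N) {A : Type*}
    [AddCommGroup A] {c : G0 N → A} (hc : IsParHom c) : IsParHom (heckeCoh N ℓ c) := by
  have hf := HCoh_isFactorSystem (N := N) hℓ hℓN
  have hℓ0 : (ℓ : ℤ) ≠ 0 := by exact_mod_cast hℓ.ne_zero
  refine ⟨?_, ?_, ?_⟩
  · intro γ γ'
    exact HCoh_transfer_mul hf hc.map_mul γ γ'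
  · intro γ hγ
    refine HCoh_transfer_eq_zero hf hc.map_mul
      (fun γ : G0 N => γ.mat.trace = 2 ∨ γ.mat.trace = -2) hc.parabolic ?_ γ hγ
    intro γ hγ r _ i hi
    have h1 := HCoh_heckeFac_spec hℓ hℓN (γ ^ r) i
    unfold IsHeckeFactor at h1
    rw [hi] at h1
    have h2 := HCoh_trace_eq_of_conj (by rw [HCoh_heckeRep_det]; exact hℓ0) h1
    show (heckeFac N ℓ (γ ^ r) i).2.mat.trace = 2 ∨ (heckeFac N ℓ (γ ^ r) i).2.mat.trace = -2
    rw [← h2, HCoh_mat_pow]
    exact HCoh_trace_pow (HCoh_mat_det γ) hγ r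
  · intro γ n hn hγn
    refine HCoh_transfer_eq_zero hf hc.map_mul
      (fun γ : G0 N => ∃ n : ℕ, 0 < n ∧ γ ^ n = 1) (fun γ ⟨n, hn, h⟩ => hc.elliptic γ n hn h)
      ?_ γ ⟨n, hn, hγn⟩
    rintro γ ⟨n, hn, hγn⟩ r _ i hi
    exact ⟨n, hn, HCoh_finite_order_closed hf γ n hγn r i hi⟩

end Fermat.Agent.S29.H149

end
-- ===== PACK-END S29/H149/HCoh.lean

-- ===== PACK-BEGIN S29/M4a/Fac.lean
section
/-
S29 / M4a-TOP (helper391) — part 1: the factorisation `heckeFac` of `DefsM.lean` coincides with the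
transfer element `H201.trf` of helper201's `Transfer.lean` (Prelude coset representatives).

* `M4aTop_heckeRep_unique` : uniqueness of `t * heckeRep ℓ j` (integer matrices, `det t = 1`).
* `M4aTop_heckeFac_eq`     : `IsHeckeFactor ℓ γ i q → heckeFac N ℓ γ i = q`.
* `M4aTop_idx`             : the bijection `Option (Fin ℓ) ≃ OnePoint (ZMod ℓ)`.
* `M4aTop_isHeckeFactor_trf`, `M4aTop_heckeFac_eq_trf`, `M4aTop_heckeCoh_eq_sum_trf`.
-/



set_option autoImplicit false

noncomputable section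

namespace Fermat.Agent.S29

open CongruenceSubgroup Matrix.SpecialLinearGroup
open scoped MatrixGroups

/-! ### Uniqueness of the factorisation -/

theorem M4aTop_heckeRep_none (ℓ : ℕ) : heckeRep ℓ none = !![(ℓ : ℤ), 0; 0, 1] := rfl

theorem M4aTop_heckeRep_some (ℓ : ℕ) (b : Fin ℓ) :
    heckeRep ℓ (some b) = !![1, ((b : ℕ) : ℤ); 0, (ℓ : ℤ)] := rfl

theorem M4aTop_det_heckeRep (ℓ : ℕ) (j : Option (Fin ℓ)) : (heckeRep ℓ j).det = (ℓ : ℤ) := by
  cases j with
  | none => rw [M4aTop_heckeRep_none, Matrix.det_fin_two_of]; ring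
  | some b => rw [M4aTop_heckeRep_some, Matrix.det_fin_two_of]; ring

/-- Right cancellation of a coset representative. -/
theorem M4aTop_mul_heckeRep_cancel {ℓ : ℕ} (hℓ : ℓ ≠ 0) (j : Option (Fin ℓ))
    {t t' : Matrix (Fin 2) (Fin 2) ℤ} (h : t * heckeRep ℓ j = t' * heckeRep ℓ j) : t = t' := by
  have h2 := congrArg (fun M => M * (heckeRep ℓ j).adjugate) h
  simp only [Matrix.mul_assoc, Matrix.mul_adjugate, M4aTop_det_heckeRep] at h2
  have hℓ' : (ℓ : ℤ) ≠ 0 := by exact_mod_cast hℓ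
  ext a b
  have h3 := congrFun (congrFun h2 a) b
  simp only [Matrix.mul_smul, Matrix.mul_one, Matrix.smul_apply, smul_eq_mul] at h3
  exact mul_left_cancel₀ hℓ' h3

theorem M4aTop_heckeRep_unique {ℓ : ℕ} (hℓ : 2 ≤ ℓ) {t t' : Matrix (Fin 2) (Fin 2) ℤ}
    (ht : t.det = 1) (ht' : t'.det = 1) {j j' : Option (Fin ℓ)}
    (h : t * heckeRep ℓ j = t' * heckeRep ℓ j') : j = j' ∧ t = t' := by
  have hℓ0 : ℓ ≠ 0 := by omega
  have hj : j = j' := by
    rw [Matrix.det_fin_two] at ht ht'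
    have h00 := congrFun (congrFun h 0) 0
    have h01 := congrFun (congrFun h 0) 1
    have h10 := congrFun (congrFun h 1) 0
    have h11 := congrFun (congrFun h 1) 1
    have hnot : ¬ ((ℓ : ℤ) ∣ 1) := by
      intro hd
      have := Int.le_of_dvd one_pos hd
      have : (2 : ℤ) ≤ ℓ := by exact_mod_cast hℓ
      omega
    cases j with
    | none =>
      cases j' with
      | none => rfl
      | some b' =>
        exfalso
        simp only [M4aTop_heckeRep_none, M4aTop_heckeRep_some, Matrix.mul_apply, Fin.sum_univ_two,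
          Matrix.of_apply, Matrix.cons_val_zero, Matrix.cons_val_one, Matrix.cons_val',
          Matrix.cons_val_fin_one] at h00 h10
        -- `t' 0 0 = ℓ * t 0 0`, `t' 1 0 = ℓ * t 1 0`
        apply hnot
        refine ⟨t 0 0 * t' 1 1 - t' 0 1 * t 1 0, ?_⟩
        rw [← ht']
        have e0 : t' 0 0 = t 0 0 * ℓ := by linarith
        have e1 : t' 1 0 = t 1 0 * ℓ := by linarith
        rw [e0, e1]; ring
    | some b =>
      cases j' with
      | none =>
        exfalso
        simp only [M4aTop_heckeRep_none, M4aTop_heckeRep_some, Matrix.mul_apply, Fin.sum_univ_two,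
          Matrix.of_apply, Matrix.cons_val_zero, Matrix.cons_val_one, Matrix.cons_val',
          Matrix.cons_val_fin_one] at h00 h10
        apply hnot
        refine ⟨t' 0 0 * t 1 1 - t 0 1 * t' 1 0, ?_⟩
        rw [← ht]
        have e0 : t 0 0 = t' 0 0 * ℓ := by linarith
        have e1 : t 1 0 = t' 1 0 * ℓ := by linarith
        rw [e0, e1]; ring
      | some b' =>
        simp only [M4aTop_heckeRep_some, Matrix.mul_apply, Fin.sum_univ_two,
          Matrix.of_apply, Matrix.cons_val_zero, Matrix.cons_val_one, Matrix.cons_val',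
          Matrix.cons_val_fin_one] at h00 h01 h10 h11
        have e0 : t 0 0 = t' 0 0 := by linarith
        have e1 : t 1 0 = t' 1 0 := by linarith
        -- `(b - b') = ℓ * (...)`
        have hd : (ℓ : ℤ) ∣ ((b : ℕ) : ℤ) - ((b' : ℕ) : ℤ) := by
          refine ⟨(t' 0 1 - t 0 1) * t 1 1 - (t' 1 1 - t 1 1) * t 0 1, ?_⟩
          have k0 : t 0 0 * ((b : ℕ) : ℤ) + t 0 1 * ℓ = t 0 0 * ((b' : ℕ) : ℤ) + t' 0 1 * ℓ := by
            rw [← e0] at h01; exact h01
          have k1 : t 1 0 * ((b : ℕ) : ℤ) + t 1 1 * ℓ = t 1 0 * ((b' : ℕ) : ℤ) + t' 1 1 * ℓ := by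
            rw [← e1] at h11; exact h11
          have : ((b : ℕ) : ℤ) - ((b' : ℕ) : ℤ)
              = (t 0 0 * t 1 1 - t 0 1 * t 1 0) * (((b : ℕ) : ℤ) - ((b' : ℕ) : ℤ)) := by
            rw [ht, one_mul]
          rw [this]
          linear_combination t 1 1 * k0 - t 0 1 * k1
        have hb : (b : ℕ) < ℓ := b.2
        have hb' : (b' : ℕ) < ℓ := b'.2
        have : ((b : ℕ) : ℤ) - ((b' : ℕ) : ℤ) = 0 := by
          apply Int.eq_zero_of_abs_lt_dvd hd
          rw [abs_lt]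
          constructor <;> omega
        have hbb : (b : ℕ) = (b' : ℕ) := by omega
        rw [Fin.ext hbb]
  subst hj
  exact ⟨rfl, M4aTop_mul_heckeRep_cancel hℓ0 j h⟩

theorem M4aTop_G0_ext {N : ℕ} {γ γ' : G0 N} (h : γ.mat = γ'.mat) : γ = γ' :=
  Subtype.ext (Subtype.ext h)

theorem M4aTop_det_mat {N : ℕ} (γ : G0 N) : γ.mat.det = 1 := (γ : SL(2, ℤ)).2

theorem M4aTop_isHeckeFactor_unique {N ℓ : ℕ} (hℓ : 2 ≤ ℓ) {γ : G0 N} {i : Option (Fin ℓ)}
    {q q' : Option (Fin ℓ) × G0 N} (hq : IsHeckeFactor ℓ γ i q) (hq' : IsHeckeFactor ℓ γ i q') :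
    q = q' := by
  have h : q.2.mat * heckeRep ℓ q.1 = q'.2.mat * heckeRep ℓ q'.1 := by
    rw [← hq, ← hq']
  obtain ⟨h1, h2⟩ := M4aTop_heckeRep_unique hℓ (M4aTop_det_mat q.2) (M4aTop_det_mat q'.2) h
  exact Prod.ext h1 (M4aTop_G0_ext h2)

theorem M4aTop_heckeFac_spec {N ℓ : ℕ} {γ : G0 N} {i : Option (Fin ℓ)}
    (h : ∃ q : Option (Fin ℓ) × G0 N, IsHeckeFactor ℓ γ i q) :
    IsHeckeFactor ℓ γ i (heckeFac N ℓ γ i) := by
  unfold heckeFac
  rw [dif_pos h]
  exact Classical.choose_spec h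

theorem M4aTop_heckeFac_eq {N ℓ : ℕ} (hℓ : 2 ≤ ℓ) {γ : G0 N} {i : Option (Fin ℓ)}
    {q : Option (Fin ℓ) × G0 N} (hq : IsHeckeFactor ℓ γ i q) : heckeFac N ℓ γ i = q :=
  M4aTop_isHeckeFactor_unique hℓ (M4aTop_heckeFac_spec ⟨q, hq⟩) hq


/-! ### Comparison with the Prelude coset representatives and `H201.trf` -/

/-- The Prelude's coset representative (in `GL₂(ℝ)`, indexed by `ℙ¹(𝔽_ℓ)`). -/
abbrev M4aTop_pRep (ℓ : ℕ) (x : OnePoint (ZMod ℓ)) : GL (Fin 2) ℝ :=
  P2MW.S_ModularForm_heckeT_slash_eq_self_of_mem_Gamma0.ModularForm.HeckeSlashInvariance.heckeRep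
    ℓ x

/-- The index bijection `Option (Fin ℓ) ≃ OnePoint (ZMod ℓ)`. -/
def M4aTop_idx (ℓ : ℕ) [NeZero ℓ] : Option (Fin ℓ) ≃ OnePoint (ZMod ℓ) :=
  Equiv.optionCongr (ZMod.finEquiv ℓ).toEquiv

theorem M4aTop_idx_none (ℓ : ℕ) [NeZero ℓ] : M4aTop_idx ℓ none = OnePoint.infty := rfl

theorem M4aTop_idx_some (ℓ : ℕ) [NeZero ℓ] (b : Fin ℓ) :
    M4aTop_idx ℓ (some b) = OnePoint.some (ZMod.finEquiv ℓ b) := rfl

theorem M4aTop_val_finEquiv (ℓ : ℕ) [NeZero ℓ] (b : Fin ℓ) : (ZMod.finEquiv ℓ b).val = (b : ℕ) := by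
  cases ℓ with
  | zero => exact (NeZero.ne 0 rfl).elim
  | succ n => rfl

/-- The Prelude representative is the real image of the integral one. -/
theorem M4aTop_pRep_idx (ℓ : ℕ) [NeZero ℓ] (i : Option (Fin ℓ)) :
    ((M4aTop_pRep ℓ (M4aTop_idx ℓ i) : GL (Fin 2) ℝ) : Matrix (Fin 2) (Fin 2) ℝ)
      = (heckeRep ℓ i).map (Int.castRingHom ℝ) := by
  have hℓ : ℓ ≠ 0 := NeZero.ne ℓ
  cases i with
  | none =>
    rw [M4aTop_idx_none, M4aTop_heckeRep_none]
    show ((ModularForm.heckeDiagMatrix ℓ : GL (Fin 2) ℝ) : Matrix (Fin 2) (Fin 2) ℝ) = _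
    rw [ModularForm.val_heckeDiagMatrix hℓ]
    ext a b
    fin_cases a <;> fin_cases b <;> simp
  | some b =>
    rw [M4aTop_idx_some, M4aTop_heckeRep_some]
    show ((ModularForm.heckeMatrix ℓ (ZMod.finEquiv ℓ b).val : GL (Fin 2) ℝ) :
      Matrix (Fin 2) (Fin 2) ℝ) = _
    rw [ModularForm.val_heckeMatrix hℓ, M4aTop_val_finEquiv]
    ext a b
    fin_cases a <;> fin_cases b <;> simp

theorem M4aTop_mapGL_coe {N : ℕ} (γ : G0 N) :
    ((mapGL ℝ (γ : SL(2, ℤ)) : GL (Fin 2) ℝ) : Matrix (Fin 2) (Fin 2) ℝ)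
      = γ.mat.map (Int.castRingHom ℝ) := rfl

section Trf

variable {N ℓ : ℕ} [Fact ℓ.Prime]

/-- The index permutation induced by `γ`, transported to `Option (Fin ℓ)`. -/
def M4aTop_perm (γ : G0 N) : Equiv.Perm (Option (Fin ℓ)) :=
  ((M4aTop_idx ℓ).trans (H201.permOf (p := ℓ) γ)).trans (M4aTop_idx ℓ).symm

theorem M4aTop_idx_perm (γ : G0 N) (i : Option (Fin ℓ)) :
    M4aTop_idx ℓ (M4aTop_perm γ i)
      = P2MW.S_ModularForm_heckeT_slash_eq_self_of_mem_Gamma0.ModularForm.HeckeSlashInvariance.redMatrix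
          ℓ (γ : SL(2, ℤ)) • M4aTop_idx ℓ i := by
  simp [M4aTop_perm, H201.permOf_apply]

/-- `H201.trf` realises the factorisation of `DefsM.lean`. -/
theorem M4aTop_isHeckeFactor_trf (hℓN : ¬ ℓ ∣ N) (γ : G0 N) (i : Option (Fin ℓ)) :
    IsHeckeFactor ℓ γ i (M4aTop_perm γ i, H201.trf hℓN γ (M4aTop_idx ℓ i)) := by
  have h := H201.trf_spec hℓN γ (M4aTop_idx ℓ i)
  rw [← M4aTop_idx_perm] at h
  have h2 := congrArg (fun M : GL (Fin 2) ℝ => (M : Matrix (Fin 2) (Fin 2) ℝ)) h
  simp only [Matrix.GeneralLinearGroup.coe_mul] at h2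
  have h3 : (heckeRep ℓ i * γ.mat).map (Int.castRingHom ℝ)
      = (G0.mat (H201.trf hℓN γ (M4aTop_idx ℓ i)) * heckeRep ℓ (M4aTop_perm γ i)).map
          (Int.castRingHom ℝ) := by
    rw [Matrix.map_mul, Matrix.map_mul, ← M4aTop_pRep_idx, ← M4aTop_pRep_idx, ← M4aTop_mapGL_coe,
      ← M4aTop_mapGL_coe]
    exact h2
  exact Matrix.map_injective (RingHom.injective_int (Int.castRingHom ℝ)) h3

theorem M4aTop_heckeFac_eq_trf (hℓN : ¬ ℓ ∣ N) (γ : G0 N) (i : Option (Fin ℓ)) :
    heckeFac N ℓ γ i = (M4aTop_perm γ i, H201.trf hℓN γ (M4aTop_idx ℓ i)) :=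
  M4aTop_heckeFac_eq (Fact.out : ℓ.Prime).two_le (M4aTop_isHeckeFactor_trf hℓN γ i)

/-- The cohomological Hecke operator of `DefsM.lean` is helper201's transfer sum. -/
theorem M4aTop_heckeCoh_eq_sum_trf (hℓN : ¬ ℓ ∣ N) {A : Type*} [AddCommMonoid A] (c : G0 N → A)
    (γ : G0 N) :
    heckeCoh N ℓ c γ = ∑ x : OnePoint (ZMod ℓ), c (H201.trf hℓN γ x) := by
  unfold heckeCoh
  simp only [M4aTop_heckeFac_eq_trf hℓN]
  exact Equiv.sum_comp (M4aTop_idx ℓ) (fun x => c (H201.trf hℓN γ x))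

end Trf

end Fermat.Agent.S29

end
end
-- ===== PACK-END S29/M4a/Fac.lean

-- ===== PACK-BEGIN S29/Parts.lean
section
/-
S29 row — the REMAINING INPUTS of the final chain, as `Prop`s (row-lead helper269).
`Fermat/Agent/S29/Main.lean` proves  `S29_of_parts : FrobeniusDivisionStatement → RawESStatement →
M4aStatement → M4bStatement → HCohStatement → (frozen S29 statement)`,  sorry-free.
A piece is DONE when it proves one of these `Prop`s verbatim.
-/


set_option autoImplicit false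

noncomputable section

namespace Fermat.Agent.S29

open ModularCurve AlgebraicCurve

/-- EXTERNAL (rows S37/S18): RAW Eichler–Shimura on the `p`-torsion of the Prelude `JZero N`:
inertia at `ℓ ∤ N p` acts trivially and every Frobenius at `ℓ` satisfies `σ² - T_ℓ σ + ℓ = 0`,
`T_ℓ = heckeOperatorBar N ℓ`.  (Implied by `M.ESStatement` of helper30, by `M.RedStatement`, and by
the frozen S37 together with `HeckeOperatorsCommuteBar`.) -/
def RawESStatement : Prop :=
  ∀ (N p : ℕ) [NeZero N], p.Prime → ∀ (ℓ : ℕ) (hℓ : ℓ.Prime), ¬ ℓ ∣ N * p →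
    ∀ A : VQ, A.LiesOverPrime ℓ →
      (∀ σ ∈ A.inertiaSubgroupIn ℚ, ∀ x : JZero N, (p : ℤ) • x = 0 → σ • x = x) ∧
      (∀ σ : GQ, A.IsFrobeniusAt σ ℓ → ∀ x : JZero N, (p : ℤ) • x = 0 →
        σ • σ • x - heckeOperatorBar N ⟨ℓ, hℓ⟩ (σ • x) + (ℓ : ℤ) • x = 0)

/-- PIECE `M4a` (eigensystem occurs in `Hom_par(Γ₀(N), 𝔽_p) ⊗ F`, in coordinates). -/
def M4aStatement : Prop :=
  ∀ (N : ℕ) [NeZero N] (g : CuspForm (CongruenceSubgroup.Gamma0 N) 2),
    g.IsNormalizedEigenform → ∀ (p : ℕ) [Fact p.Prime] (F : Type) [Field F] [IsAlgClosed F]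
    [CharP F p] [Algebra (ZMod p) F] (ψ : integralClosure ℤ ℂ →+* F)
    (a : ℕ → integralClosure ℤ ℂ),
    (∀ ℓ : ℕ, ℓ.Prime → ¬ ℓ ∣ N →
      ((a ℓ : integralClosure ℤ ℂ) : ℂ) = ModularFormClass.qCoeff g ℓ) →
    ∃ (n : ℕ) (w : Fin n → F) (c : Fin n → G0 N → ZMod p),
      LinearIndependent (ZMod p) w ∧ (∀ j, IsParHom (c j)) ∧ (∃ j, c j ≠ 0) ∧
      ∀ ℓ : ℕ, ℓ.Prime → ¬ ℓ ∣ N * p → ∀ γ : G0 N,
        ∑ j, w j * algebraMap (ZMod p) F (heckeCoh N ℓ (c j) γ)
          = ψ (a ℓ) * ∑ j, w j * algebraMap (ZMod p) F (c j γ)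

/-- PIECE `M4b` (the Kummer map / bridge). -/
def M4bStatement : Prop :=
  ∀ (N : ℕ) [NeZero N] (p : ℕ) [Fact p.Prime],
    ∃ κ : (G0 N → ZMod p) → Jp N p,
      (∀ c c', IsParHom c → IsParHom c' → κ (c + c') = κ c + κ c') ∧
      (∀ c, IsParHom c → κ c = 0 → c = 0) ∧
      (∀ ℓ : Nat.Primes, ¬ (ℓ : ℕ) ∣ N * p → ∀ c, IsParHom c →
        κ (heckeCoh N ℓ c) = heckeJp N p ℓ (κ c))

/-- PIECE `HCoh` (the cohomological Hecke operator preserves parabolic characters), for the
coefficient groups `ℤ/p`. -/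
def HCohStatement : Prop :=
  ∀ (N : ℕ) [NeZero N] (p : ℕ) (ℓ : ℕ), ℓ.Prime → ¬ ℓ ∣ N →
    ∀ c : G0 N → ZMod p, IsParHom c → IsParHom (heckeCoh N ℓ c)

end Fermat.Agent.S29

end
end
-- ===== PACK-END S29/Parts.lean

-- ===== PACK-BEGIN S28/H565/JExp.lean
section





/-!
# S28 analytic bridge, part 3: the `q`-expansions of `Δ`, `E₄` and `j` (helper565)

We identify the analytic `q`-expansions of Mathlib's `Δ`, `E₄` and of `j = E₄³/Δ` with the
formal series of the Prelude (`ModularCurve.etaProd`, `ModularCurve.eisenstein4`,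
`ModularCurve.jqModC ℂ`).
-/

set_option autoImplicit false

noncomputable section

open UpperHalfPlane Complex Function Filter Topology ModularForm
open scoped Real PowerSeries.WithPiTopology MatrixGroups

namespace Fermat.Agent.S28.H565

local notation "𝕢" => Periodic.qParam

/-- The Taylor series at `0` of a function on the unit disc, as a formal power series. -/
def taylorPS (G : ℂ → ℂ) : PowerSeries ℂ :=
  PowerSeries.mk fun n => (n.factorial : ℂ)⁻¹ * iteratedDeriv n G 0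

theorem hasPExp_of_differentiableOn {G : ℂ → ℂ}
    (hG : DifferentiableOn ℂ G (Metric.ball 0 1)) {h : ℝ} (hh : 0 < h) :
    HasPExp h (fun τ => G (𝕢 h τ)) (taylorPS G) := by
  intro τ
  have hq : 𝕢 h τ ∈ Metric.ball (0 : ℂ) 1 := by
    simpa using Periodic.norm_qParam_lt_one hh τ.im_pos
  have := hasSum_taylorSeries_on_ball hG hq
  refine this.congr_fun ?_ |>.mono_left le_rfl
  intro k
  simp only [taylorPS, PowerSeries.coeff_mk, sub_zero, smul_eq_mul]
  ring

theorem hasPExp_eulerFun {h : ℝ} (hh : 0 < h) :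
    HasPExp h (fun τ => eulerFun (𝕢 h τ)) etaProdC :=
  fun τ => hasSum_etaProdC (Periodic.norm_qParam_lt_one hh τ.im_pos)

theorem eulerFun_zero : eulerFun 0 = 1 := by
  simp [eulerFun]

theorem eulerFun_ne_zero {q : ℂ} (hq : ‖q‖ < 1) : eulerFun q ≠ 0 := by
  rcases eq_or_ne q 0 with rfl | hq0
  · rw [eulerFun_zero]; exact one_ne_zero
  · have him := Periodic.im_invQParam_pos_of_norm_lt_one one_pos hq hq0
    have h1 := ModularForm.eta_tprod_ne_zero (z := Periodic.invQParam 1 q) him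
    have h2 : ∀ n : ℕ, ModularForm.eta_q n (Periodic.invQParam 1 q) = q ^ (n + 1) := by
      intro n
      rw [ModularForm.eta_q_eq_pow]
      congr 1
      have := Periodic.qParam_right_inv one_ne_zero hq0
      simpa [Periodic.qParam] using this
    simpa [eulerFun, h2] using h1

theorem discriminant_eq_eulerFun (τ : ℍ) :
    ModularForm.discriminant τ = 𝕢 1 τ * eulerFun (𝕢 1 τ) ^ 24 := by
  rw [ModularForm.discriminant_eq_q_prod]
  have hq : ‖𝕢 1 (τ : ℂ)‖ < 1 := Periodic.norm_qParam_lt_one one_pos τ.im_pos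
  have h2 : ∀ n : ℕ, ModularForm.eta_q n (τ : ℂ) = 𝕢 1 τ ^ (n + 1) := by
    intro n
    rw [ModularForm.eta_q_eq_pow]
    simp [Periodic.qParam]
  simp only [h2]
  rw [(ModularForm.multipliable_one_sub_pow hq).tprod_pow 24]
  rfl

/-- The complex version of the formal series `dedekindEtaUnit = etaProd ^ 24`. -/
theorem map_dedekindEtaUnit :
    PowerSeries.map (Int.castRingHom ℂ) ModularCurve.dedekindEtaUnit = etaProdC ^ 24 := by
  rw [ModularCurve.dedekindEtaUnit, map_pow, etaProdC]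

/-- The complex version of the formal inverse of `etaProd ^ 24`. -/
def etaInvC : PowerSeries ℂ := PowerSeries.map (Int.castRingHom ℂ) ModularCurve.dedekindEtaUnitInv

theorem etaProdC_pow_mul_etaInvC : etaProdC ^ 24 * etaInvC = 1 := by
  rw [← map_dedekindEtaUnit, etaInvC, ← _root_.map_mul, ModularCurve.dedekindEtaUnit_mul_inv, _root_.map_one]

theorem hasPExp_eulerFun_pow_inv {h : ℝ} (hh : 0 < h) :
    HasPExp h (fun τ => (eulerFun (𝕢 h τ) ^ 24)⁻¹) etaInvC := by
  have hd : DifferentiableOn ℂ (fun q => (eulerFun q ^ 24)⁻¹) (Metric.ball 0 1) := by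
    refine DifferentiableOn.inv (differentiableOn_eulerFun.pow 24) ?_
    intro q hq
    exact pow_ne_zero _ (eulerFun_ne_zero (by simpa using hq))
  have h1 := hasPExp_of_differentiableOn hd hh
  have h2 := (hasPExp_eulerFun hh).pow 24
  have h3 := h1.mul h2
  have h4 : HasPExp h 1 (taylorPS (fun q => (eulerFun q ^ 24)⁻¹) * etaProdC ^ 24) := by
    refine h3.congr fun τ => ?_
    have hne : eulerFun (𝕢 h τ) ^ 24 ≠ 0 :=
      pow_ne_zero _ (eulerFun_ne_zero (Periodic.norm_qParam_lt_one hh τ.im_pos))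
    simp only [Pi.mul_apply, Pi.pow_apply, Pi.one_apply]
    exact inv_mul_cancel₀ hne
  have h5 : HasPExp h 1 1 := by
    have := HasPExp.const (h := h) 1
    rwa [_root_.map_one] at this
  have h6 := h4.unique hh h5
  have h7 : taylorPS (fun q => (eulerFun q ^ 24)⁻¹) = etaInvC := by
    calc taylorPS (fun q => (eulerFun q ^ 24)⁻¹)
        = taylorPS (fun q => (eulerFun q ^ 24)⁻¹) * (etaProdC ^ 24 * etaInvC) := by
          rw [etaProdC_pow_mul_etaInvC, mul_one]
      _ = etaInvC := by rw [← mul_assoc, h6, one_mul]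
  rw [← h7]
  exact h1

/-- The formal `q`-expansion of `Δ`, over `ℂ`. -/
def deltaSeriesC : LaurentSeries ℂ :=
  HahnSeries.single (1 : ℤ) (1 : ℂ) * HahnSeries.ofPowerSeries ℤ ℂ (etaProdC ^ 24)

/-- The formal `q`-expansion of `Δ⁻¹`, over `ℂ`. -/
def deltaInvSeriesC : LaurentSeries ℂ :=
  HahnSeries.single (-1 : ℤ) (1 : ℂ) * HahnSeries.ofPowerSeries ℤ ℂ etaInvC

theorem deltaSeriesC_mul_inv : deltaSeriesC * deltaInvSeriesC = 1 := by
  rw [deltaSeriesC, deltaInvSeriesC]
  have h1 : HahnSeries.single (1 : ℤ) (1 : ℂ) * HahnSeries.single (-1 : ℤ) (1 : ℂ) = 1 := by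
    rw [HahnSeries.single_mul_single]
    simp
  have h2 : HahnSeries.ofPowerSeries ℤ ℂ (etaProdC ^ 24) * HahnSeries.ofPowerSeries ℤ ℂ etaInvC
      = 1 := by
    rw [← _root_.map_mul, etaProdC_pow_mul_etaInvC, _root_.map_one]
  calc HahnSeries.single (1 : ℤ) (1 : ℂ) * HahnSeries.ofPowerSeries ℤ ℂ (etaProdC ^ 24) *
        (HahnSeries.single (-1 : ℤ) (1 : ℂ) * HahnSeries.ofPowerSeries ℤ ℂ etaInvC)
      = (HahnSeries.single (1 : ℤ) (1 : ℂ) * HahnSeries.single (-1 : ℤ) (1 : ℂ)) *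
        (HahnSeries.ofPowerSeries ℤ ℂ (etaProdC ^ 24) * HahnSeries.ofPowerSeries ℤ ℂ etaInvC) := by
          ring
    _ = 1 := by rw [h1, h2, mul_one]

/-- **`q`-expansion of `Δ`**. -/
theorem hasTExp_discriminant : HasTExp 1 ModularForm.discriminant deltaSeriesC := by
  rw [deltaSeriesC, hasTExp_single_mul_iff]
  refine ((hasPExp_eulerFun one_pos).pow 24).congr fun τ => ?_
  have hq : 𝕢 1 (τ : ℂ) ≠ 0 := Periodic.qParam_ne_zero _
  rw [discriminant_eq_eulerFun, zpow_neg, zpow_one]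
  simp only [Pi.pow_apply]
  field_simp

/-- **`q`-expansion of `Δ⁻¹`**. -/
theorem hasTExp_discriminant_inv :
    HasTExp 1 (fun τ => (ModularForm.discriminant τ)⁻¹) deltaInvSeriesC := by
  rw [deltaInvSeriesC, hasTExp_single_mul_iff]
  refine (hasPExp_eulerFun_pow_inv one_pos).congr fun τ => ?_
  have hq : 𝕢 1 (τ : ℂ) ≠ 0 := Periodic.qParam_ne_zero _
  rw [discriminant_eq_eulerFun, neg_neg, zpow_one, mul_inv]
  field_simp

/-- The complex version of the formal Eisenstein series `E₄`. -/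
def e4C : PowerSeries ℂ := PowerSeries.map (Int.castRingHom ℂ) ModularCurve.eisenstein4

theorem qExpansion_E₄ : qExpansion 1 E₄ = e4C := by
  ext m
  rw [EisensteinSeries.E_qExpansion_coeff _ ⟨2, rfl⟩, e4C, PowerSeries.coeff_map,
    ModularCurve.eisenstein4, PowerSeries.coeff_mk]
  by_cases hm : m = 0
  · simp [hm]
  · rw [if_neg hm, if_neg hm, show bernoulli 4 = -1 / 30 by decide +kernel,
      ArithmeticFunction.sigma_apply, eq_intCast]
    push_cast
    ring

/-- **`q`-expansion of `E₄`**. -/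
theorem hasPExp_E₄ : HasPExp 1 E₄ e4C := by
  intro τ
  have := ModularForm.hasSum_qExpansion E₄ one_pos one_mem_strictPeriods_SL τ
  rwa [qExpansion_E₄] at this

/-- The analytic `j`-function `E₄³/Δ`. -/
def jFun (τ : ℍ) : ℂ := E₄ τ ^ 3 / ModularForm.discriminant τ

theorem jqModC_eq : ModularCurve.jqModC ℂ =
    HahnSeries.single (-1 : ℤ) (1 : ℂ) * HahnSeries.ofPowerSeries ℤ ℂ (e4C ^ 3 * etaInvC) := by
  rw [ModularCurve.jqModC, ModularCurve.jNum, _root_.map_mul, map_pow, e4C, etaInvC]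

/-- **`q`-expansion of `j`**: the analytic `j`-function has the Prelude's formal series
`jqModC ℂ` as its convergent Laurent expansion in `q = exp (2πiτ)`. -/
theorem hasTExp_jFun : HasTExp 1 jFun (ModularCurve.jqModC ℂ) := by
  rw [jqModC_eq, hasTExp_single_mul_iff]
  refine ((hasPExp_E₄.pow 3).mul (hasPExp_eulerFun_pow_inv one_pos)).congr fun τ => ?_
  have hq : 𝕢 1 (τ : ℂ) ≠ 0 := Periodic.qParam_ne_zero _
  have hE : eulerFun (𝕢 1 τ) ^ 24 ≠ 0 :=
    pow_ne_zero _ (eulerFun_ne_zero (Periodic.norm_qParam_lt_one one_pos τ.im_pos))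
  simp only [Pi.mul_apply, Pi.pow_apply, jFun]
  rw [discriminant_eq_eulerFun, neg_neg, zpow_one]
  field_simp

end Fermat.Agent.S28.H565

end
end
-- ===== PACK-END S28/H565/JExp.lean

-- ===== PACK-BEGIN S29/H751/PthRootUHP.lean
section


/-!
# Holomorphic `p`-th roots on `ℍ` and the character of a root (helper751, S29 / P5)

* `exists_pow_eq_UHP`: a holomorphic `F : ℍ → ℂ` all of whose orders of vanishing are finite and
  divisible by `p` is a `p`-th power of a holomorphic function.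
* `eq_of_pow_eq_UHP`: two holomorphic functions on `ℍ` with the same `p`-th power which agree
  at one point where they do not vanish are equal.
* `exists_character_of_pow_eq`: if `U ^ p` is weakly modular of weight `k * p` for a group `Γ`
  of matrices of positive determinant, then `U` is weakly modular of weight `k` with a character
  `χ : Γ →* ℂˣ`, `χ ^ p = 1`.
-/

set_option autoImplicit false

open Complex Set Metric Filter Topology UpperHalfPlane
open scoped Manifold MatrixGroups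

namespace Fermat.Agent.S29.H751

/-- `F ∘ ofComplex` agrees with `u` on the upper half plane when `F τ = u τ`. -/
theorem comp_ofComplex_eqOn (u : ℂ → ℂ) :
    EqOn ((fun τ : ℍ => u τ) ∘ ofComplex) u {z : ℂ | 0 < z.im} := by
  intro z hz
  simp only [Function.comp_apply, ofComplex_apply_of_im_pos hz]

/-- **Holomorphic `p`-th roots on `ℍ`.** -/
theorem exists_pow_eq_UHP {F : ℍ → ℂ} (hF : MDifferentiable 𝓘(ℂ) 𝓘(ℂ) F) (p : ℕ) (hp : p ≠ 0)
    (hord : ∀ τ : ℍ, ∃ m : ℕ, analyticOrderAt (F ∘ ofComplex) (τ : ℂ) = ((p * m : ℕ) : ℕ∞)) :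
    ∃ U : ℍ → ℂ, MDifferentiable 𝓘(ℂ) 𝓘(ℂ) U ∧ ∀ τ : ℍ, U τ ^ p = F τ := by
  obtain ⟨u, hu, hup⟩ := exists_pow_eq_on_upperHalfPlane (G := F ∘ ofComplex) p hp
    (UpperHalfPlane.mdifferentiable_iff.1 hF) (fun z hz => hord ⟨z, hz⟩)
  refine ⟨fun τ => u τ, ?_, fun τ => ?_⟩
  · rw [UpperHalfPlane.mdifferentiable_iff]
    exact hu.congr (comp_ofComplex_eqOn u)
  · have := hup τ τ.im_pos
    rw [this, comp_ofComplex]

/-- Uniqueness of normalised holomorphic `p`-th roots on `ℍ`. -/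
theorem eq_of_pow_eq_UHP {A B : ℍ → ℂ} (hA : MDifferentiable 𝓘(ℂ) 𝓘(ℂ) A)
    (hB : MDifferentiable 𝓘(ℂ) 𝓘(ℂ) B) {p : ℕ} (hp : p ≠ 0)
    (h : ∀ τ : ℍ, A τ ^ p = B τ ^ p) {τ₀ : ℍ} (h0 : A τ₀ = B τ₀) (hne : A τ₀ ≠ 0) : A = B := by
  have hHo : IsOpen {z : ℂ | 0 < z.im} := isOpen_lt continuous_const Complex.continuous_im
  have hHc : IsPreconnected {z : ℂ | 0 < z.im} :=
    (convex_halfSpace_im_gt 0).isPreconnected
  have key := eqOn_of_pow_eq_of_eq hHo hHc (UpperHalfPlane.mdifferentiable_iff.1 hA)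
    (UpperHalfPlane.mdifferentiable_iff.1 hB) hp
    (fun z hz => by
      simp only [Function.comp_apply]
      exact h _)
    (z₀ := (τ₀ : ℂ)) τ₀.im_pos
    (by simp only [Function.comp_apply, ofComplex_apply]; exact h0)
    (by simp only [Function.comp_apply, ofComplex_apply]; exact hne)
  funext τ
  have := key τ.im_pos
  simpa only [Function.comp_apply, ofComplex_apply] using this

/-- **The character of a `p`-th root.**  Let `Γ` be a group of real matrices of positive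
determinant and `U` a holomorphic function on `ℍ`, not identically zero, such that `U ^ p`
is weakly modular of weight `k * p` for `Γ`.  Then `U` is weakly modular of weight `k` up to
a character `χ` of `Γ` with `χ ^ p = 1`. -/
theorem exists_character_of_pow_eq (Γ : Subgroup (GL (Fin 2) ℝ))
    (hdet : ∀ γ ∈ Γ, 0 < (γ.det : ℝ)) (k : ℤ) {p : ℕ} (hp : p ≠ 0) {U : ℍ → ℂ}
    (hU : MDifferentiable 𝓘(ℂ) 𝓘(ℂ) U) (hne : ∃ τ, U τ ≠ 0)
    (hpow : ∀ γ ∈ Γ, ∀ τ : ℍ, U (γ • τ) ^ p = (denom γ τ ^ k * U τ) ^ p) :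
    ∃ χ : Γ →* ℂˣ, (∀ γ, χ γ ^ p = 1) ∧
      ∀ (γ : Γ) (τ : ℍ), U ((γ : GL (Fin 2) ℝ) • τ) = χ γ * denom γ τ ^ k * U τ := by
  classical
  obtain ⟨τ₁, hτ₁⟩ := hne
  -- for each `γ`, the constant
  have key : ∀ γ : Γ, ∃ ζ : ℂˣ, ζ ^ p = 1 ∧
      ∀ τ : ℍ, U ((γ : GL (Fin 2) ℝ) • τ) = ζ * denom γ τ ^ k * U τ := by
    intro γ
    have hB1 : denom (γ : GL (Fin 2) ℝ) τ₁ ^ k * U τ₁ ≠ 0 :=
      mul_ne_zero (zpow_ne_zero _ (denom_ne_zero _ _)) hτ₁
    have hA1 : U ((γ : GL (Fin 2) ℝ) • τ₁) ≠ 0 := by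
      intro h0
      have := hpow γ γ.2 τ₁
      rw [h0, zero_pow hp] at this
      exact pow_ne_zero p hB1 this.symm
    set z : ℂ := U ((γ : GL (Fin 2) ℝ) • τ₁) / (denom (γ : GL (Fin 2) ℝ) τ₁ ^ k * U τ₁) with hz
    have hz0 : z ≠ 0 := div_ne_zero hA1 hB1
    have hzp : z ^ p = 1 := by
      rw [hz, div_pow, hpow γ γ.2 τ₁, div_self (pow_ne_zero p hB1)]
    refine ⟨Units.mk0 z hz0, ?_, ?_⟩
    · ext
      simp [hzp]
    · intro τ
      have hAd : MDifferentiable 𝓘(ℂ) 𝓘(ℂ) (fun τ : ℍ => U ((γ : GL (Fin 2) ℝ) • τ)) :=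
        hU.comp (UpperHalfPlane.mdifferentiable_smul (hdet γ γ.2))
      have hBd : MDifferentiable 𝓘(ℂ) 𝓘(ℂ)
          (fun τ : ℍ => z * denom (γ : GL (Fin 2) ℝ) τ ^ k * U τ) := by
        have h1 : MDifferentiable 𝓘(ℂ) 𝓘(ℂ)
            (fun τ : ℍ => denom (γ : GL (Fin 2) ℝ) τ ^ k) := mdifferentiable_denom_zpow _ k
        have h2 : MDifferentiable 𝓘(ℂ) 𝓘(ℂ)
            (fun τ : ℍ => z * denom (γ : GL (Fin 2) ℝ) τ ^ k) :=
          (mdifferentiable_const (c := z)).mul h1
        exact h2.mul hU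
      have := eq_of_pow_eq_UHP hAd hBd hp (fun τ => by
        rw [hpow γ γ.2 τ, mul_assoc, mul_pow z, hzp, one_mul]) (τ₀ := τ₁)
        (by
          simp only [hz]
          field_simp) hA1
      simpa using congrFun this τ
  choose χ hχp hχ using key
  have hmul : ∀ γ δ : Γ, χ (γ * δ) = χ γ * χ δ := by
    intro γ δ
    have h1 := hχ (γ * δ) τ₁
    have h2 := hχ γ ((δ : GL (Fin 2) ℝ) • τ₁)
    have h3 := hχ δ τ₁
    have hco : denom ((γ : GL (Fin 2) ℝ) * δ) τ₁ =
        denom (γ : GL (Fin 2) ℝ) (((δ : GL (Fin 2) ℝ) • τ₁ : ℍ) : ℂ) *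
          denom (δ : GL (Fin 2) ℝ) τ₁ := by
      rw [denom_cocycle _ _ τ₁.im_ne_zero, coe_smul_of_det_pos (hdet δ δ.2)]
    have hsm : ((γ * δ : Γ) : GL (Fin 2) ℝ) • τ₁ =
        (γ : GL (Fin 2) ℝ) • ((δ : GL (Fin 2) ℝ) • τ₁) := by
      rw [Subgroup.coe_mul, mul_smul]
    rw [hsm, h2, h3, Subgroup.coe_mul, hco, mul_zpow] at h1
    have hd1 := zpow_ne_zero k (denom_ne_zero (γ : GL (Fin 2) ℝ) ((δ : GL (Fin 2) ℝ) • τ₁))
    have hd2 := zpow_ne_zero k (denom_ne_zero (δ : GL (Fin 2) ℝ) τ₁)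
    have h4 : ((χ (γ * δ) : ℂˣ) : ℂ) = (χ γ : ℂ) * (χ δ : ℂ) := by
      have h5 : (χ γ : ℂ) * (χ δ : ℂ) *
          (denom (γ : GL (Fin 2) ℝ) (((δ : GL (Fin 2) ℝ) • τ₁ : ℍ) : ℂ) ^ k *
            denom (δ : GL (Fin 2) ℝ) τ₁ ^ k * U τ₁) =
          (χ (γ * δ) : ℂ) *
          (denom (γ : GL (Fin 2) ℝ) (((δ : GL (Fin 2) ℝ) • τ₁ : ℍ) : ℂ) ^ k *
            denom (δ : GL (Fin 2) ℝ) τ₁ ^ k * U τ₁) := by
        linear_combination h1
      exact (mul_right_cancel₀ (mul_ne_zero (mul_ne_zero hd1 hd2) hτ₁) h5).symm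
    exact Units.ext (by simpa using h4)
  exact ⟨MonoidHom.mk' χ hmul, fun γ => hχp γ, fun γ τ => hχ γ τ⟩

end Fermat.Agent.S29.H751

end
-- ===== PACK-END S29/H751/PthRootUHP.lean

-- ===== PACK-BEGIN S37/H400/KronNorm.lean
section
/-
S37 / helper400 — piece KRON, part (K6): the Kronecker NORM, formal version.

`kronNorm p f := V_p f · det (secMat p f)`  (classically `f(q^p) · ∏_b f(ζ^b q^{1/p})`, i.e. the
`q`-expansion of `Nm_α(β f)` once NORM-ID identifies the characteristic polynomial of `β f` over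
`α F_N` with `kronPoly p f`).

* `kronNorm_mul`, `kronNorm_one`, `kronNorm_pow` : multiplicativity.
* `coeffMap_kronNorm` : compatibility with coefficient homomorphisms (reduction `A → k`).
* `det_secMat_char`, `kronNorm_char` : over a domain of characteristic `p`
    `det (secMat p f) = frob f`,  `kronNorm p f = V_p f · frob f`.
* `kronNorm_char_of_frobenius` : if `f = frob g` coefficientwise then
    `kronNorm p f = g ^ p · frob f`  (`= (Φ⁻¹ f)^p · Φ f`, the form used in step (E)).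
* `coeffMap_kronNorm_char` : the reduction statement
    `coeffMap φ (kronNorm p f) = V_p f̄ · frob f̄` for `φ : S → R`, `R` a domain of char. `p`.
* `kronPoly_coeff_zero` : constant term of `kronPoly` is `(-1)^(p+1) · kronNorm`.
-/


set_option autoImplicit false

noncomputable section

set_option linter.style.haveILetI false

open ModularCurve Polynomial Matrix

namespace Fermat.Agent.S37.H400

variable {R : Type*} [CommRing R]

/-- The formal Kronecker norm `V_p f · det (secMat p f)`. -/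
def kronNorm (p : ℕ) [NeZero p] (f : LaurentSeries R) : LaurentSeries R :=
  qExpand R p f * (secMat p f).det

theorem kronNorm_mul (p : ℕ) [NeZero p] (f g : LaurentSeries R) :
    kronNorm p (f * g) = kronNorm p f * kronNorm p g := by
  rw [kronNorm, kronNorm, kronNorm, _root_.map_mul, secMat_mul, Matrix.det_mul]
  ring

theorem kronNorm_one (p : ℕ) [NeZero p] : kronNorm p (1 : LaurentSeries R) = 1 := by
  rw [kronNorm, _root_.map_one, secMat_one, Matrix.det_one, _root_.mul_one]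

/-- `kronNorm` as a monoid homomorphism. -/
def kronNormHom (p : ℕ) [NeZero p] : LaurentSeries R →* LaurentSeries R where
  toFun := kronNorm p
  map_one' := kronNorm_one p
  map_mul' := kronNorm_mul p

theorem kronNormHom_apply (p : ℕ) [NeZero p] (f : LaurentSeries R) :
    kronNormHom p f = kronNorm p f := rfl

theorem kronNorm_pow (p : ℕ) [NeZero p] (f : LaurentSeries R) (n : ℕ) :
    kronNorm p (f ^ n) = kronNorm p f ^ n :=
  _root_.map_pow (kronNormHom p) f n

theorem coeffMap_qExpand_h400 {S : Type*} [CommRing S] (φ : R →+* S) (n : ℕ)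
    [NeZero n] (x : LaurentSeries R) : coeffMap φ (qExpand R n x) = qExpand S n (coeffMap φ x) := by
  ext k
  by_cases hk : (n : ℤ) ∣ k
  · obtain ⟨m, rfl⟩ := hk
    rw [coeffMap_coeff, qExpand_coeff_mul, qExpand_coeff_mul, coeffMap_coeff]
  · rw [coeffMap_coeff, qExpand_coeff_of_not_dvd n _ hk, qExpand_coeff_of_not_dvd n _ hk,
      _root_.map_zero]

/-- Base change of the Kronecker norm along a coefficient homomorphism. -/
theorem coeffMap_kronNorm {S : Type*} [CommRing S] (φ : R →+* S) (p : ℕ) [NeZero p]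
    (f : LaurentSeries R) :
    coeffMap φ (kronNorm p f) = kronNorm p (coeffMap φ f) := by
  rw [kronNorm, kronNorm, _root_.map_mul, coeffMap_qExpand_h400, RingHom.map_det,
    RingHom.mapMatrix_apply, secMat_coeffMap]

/-- Over a domain of characteristic `p`, `det (secMat p f) = frob f`. -/
theorem det_secMat_char [IsDomain R] (p : ℕ) [Fact p.Prime] [CharP R p]
    (f : LaurentSeries R) :
    haveI : NeZero p := ⟨(Fact.out : p.Prime).ne_zero⟩
    (secMat p f).det = coeffMap (frobenius R p) f := by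
  haveI : NeZero p := ⟨(Fact.out : p.Prime).ne_zero⟩
  haveI := charP_laurentSeries (R := R) p
  show (secMat p f).det = coeffMap (frobenius R p) f
  rw [Matrix.det_eq_sign_charpoly_coeff, charpoly_secMat_char, Fintype.card_fin,
    coeff_sub, coeff_X_pow, coeff_C_zero, if_neg (Fact.out : p.Prime).pos.ne, zero_sub]
  rcases (Fact.out : p.Prime).eq_two_or_odd' with h2 | hodd
  · subst h2
    have h2' : (2 : LaurentSeries R) = 0 := by
      have := CharP.cast_eq_zero (LaurentSeries R) 2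
      exact_mod_cast this
    have : -(coeffMap (frobenius R 2) f) = coeffMap (frobenius R 2) f := by
      rw [neg_eq_iff_add_eq_zero, ← two_mul, h2', _root_.MulZeroClass.zero_mul]
    rw [this]
    simp
  · rw [hodd.neg_one_pow]
    ring

/-- Over a domain of characteristic `p`: `kronNorm p f = V_p f · frob f`. -/
theorem kronNorm_char [IsDomain R] (p : ℕ) [Fact p.Prime] [CharP R p] (f : LaurentSeries R) :
    haveI : NeZero p := ⟨(Fact.out : p.Prime).ne_zero⟩
    kronNorm p f = qExpand R p f * coeffMap (frobenius R p) f := by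
  haveI : NeZero p := ⟨(Fact.out : p.Prime).ne_zero⟩
  show kronNorm p f = _
  rw [kronNorm, det_secMat_char]

/-- Over a domain of characteristic `p`, if `f = frob g` coefficientwise (`g = Φ⁻¹ f`), then
`kronNorm p f = g ^ p · frob f = (Φ⁻¹ f) ^ p · Φ f`. -/
theorem kronNorm_char_of_frobenius [IsDomain R] (p : ℕ) [Fact p.Prime] [CharP R p]
    (f g : LaurentSeries R) (hg : coeffMap (frobenius R p) g = f) :
    haveI : NeZero p := ⟨(Fact.out : p.Prime).ne_zero⟩
    kronNorm p f = g ^ p * coeffMap (frobenius R p) f := by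
  haveI : NeZero p := ⟨(Fact.out : p.Prime).ne_zero⟩
  show kronNorm p f = _
  rw [kronNorm_char, laurent_pow_char, hg]

/-- Over `𝔽_p`: `kronNorm p f = f ^ (p + 1)`. -/
theorem kronNorm_zmod (p : ℕ) [Fact p.Prime] (f : LaurentSeries (ZMod p)) :
    haveI : NeZero p := ⟨(Fact.out : p.Prime).ne_zero⟩
    kronNorm p f = f ^ (p + 1) := by
  haveI : NeZero p := ⟨(Fact.out : p.Prime).ne_zero⟩
  show kronNorm p f = _
  rw [kronNorm_char_of_frobenius p f f (coeffMap_frobenius_zmod p f), coeffMap_frobenius_zmod,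
    pow_succ]

/-- **Kronecker congruence for norms.**  For `f` with coefficients in `S` and a reduction
`φ : S → R` to a domain of characteristic `p`, the reduction of the Kronecker norm of `f` is
`V_p f̄ · frob f̄`. -/
theorem coeffMap_kronNorm_char {S : Type*} [CommRing S] [IsDomain R] (p : ℕ) [Fact p.Prime]
    [CharP R p] (φ : S →+* R) (f : LaurentSeries S) :
    haveI : NeZero p := ⟨(Fact.out : p.Prime).ne_zero⟩
    coeffMap φ (kronNorm p f) =
      qExpand R p (coeffMap φ f) * coeffMap (frobenius R p) (coeffMap φ f) := by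
  haveI : NeZero p := ⟨(Fact.out : p.Prime).ne_zero⟩
  show coeffMap φ (kronNorm p f) = _
  rw [coeffMap_kronNorm, kronNorm_char]

/-- The reduction of the Kronecker norm is nonzero as soon as the reduction of `f` is. -/
theorem coeffMap_kronNorm_ne_zero {S : Type*} [CommRing S] [IsDomain R] (p : ℕ) [Fact p.Prime]
    [CharP R p] (φ : S →+* R) (f : LaurentSeries S) (hf : coeffMap φ f ≠ 0) :
    haveI : NeZero p := ⟨(Fact.out : p.Prime).ne_zero⟩
    coeffMap φ (kronNorm p f) ≠ 0 := by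
  haveI : NeZero p := ⟨(Fact.out : p.Prime).ne_zero⟩
  show coeffMap φ (kronNorm p f) ≠ 0
  rw [coeffMap_kronNorm_char]
  refine mul_ne_zero ?_ ?_
  · intro h
    exact hf (qExpand_injective (R := R) (N := p) (by rw [h, _root_.map_zero]))
  · intro h
    apply hf
    ext k
    have hk := congrArg (fun x : LaurentSeries R => x.coeff k) h
    simp only [coeffMap_coeff, HahnSeries.coeff_zero] at hk ⊢
    exact frobenius_inj R p (by rw [hk, _root_.map_zero])

/-- The constant term of `kronPoly` is `(-1)^(p+1)` times the Kronecker norm. -/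
theorem kronPoly_coeff_zero (p : ℕ) [NeZero p] (f : LaurentSeries R) :
    (kronPoly p f).coeff 0 = (-1) ^ (p + 1) * kronNorm p f := by
  rw [kronPoly, Polynomial.mul_coeff_zero, coeff_sub, coeff_X_zero, coeff_C_zero, zero_sub,
    kronNorm, Matrix.det_eq_sign_charpoly_coeff, Fintype.card_fin, pow_succ]
  have h : ((-1 : LaurentSeries R) ^ p) * (-1) ^ p = 1 := by
    rw [← mul_pow]; simp
  linear_combination (qExpand R p f * (secMat p f).charpoly.coeff 0) * h

end Fermat.Agent.S37.H400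

end

end
-- ===== PACK-END S37/H400/KronNorm.lean

-- ===== PACK-BEGIN S28/H685/EtaBridge.lean
section




/-!
# S28 helper (helper685): the formal eta product is the Taylor series of the analytic one

The Prelude defines `ModularCurve.etaProd = ∏' n, (1 - X ^ (n + 1))` as a formal product in
`PowerSeries ℤ` (Pi topology).  We show that its coefficients are the Taylor coefficients of the
analytic function `q ↦ ∏' n, (1 - q ^ (n + 1))` on the open unit disc.
-/

set_option autoImplicit false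

namespace Fermat.Agent.S28.H685

open UpperHalfPlane Function Complex Filter
open scoped Topology Manifold PowerSeries.WithPiTopology

noncomputable section

local notation "𝕢" => Periodic.qParam

/-- Iterated derivatives of a locally uniform limit of holomorphic functions. -/
theorem tendstoLocallyUniformlyOn_iteratedDeriv {ι : Type*} {l : Filter ι} {U : Set ℂ}
    (hU : IsOpen U) {F : ι → ℂ → ℂ} {f : ℂ → ℂ} (hF : TendstoLocallyUniformlyOn F f l U)
    (hd : ∀ᶠ i in l, DifferentiableOn ℂ (F i) U) (k : ℕ) :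
    TendstoLocallyUniformlyOn (fun i => iteratedDeriv k (F i)) (iteratedDeriv k f) l U ∧
      ∀ᶠ i in l, DifferentiableOn ℂ (iteratedDeriv k (F i)) U := by
  induction k with
  | zero =>
    simp only [iteratedDeriv_zero]
    exact ⟨hF, hd⟩
  | succ k ih =>
    obtain ⟨h1, h2⟩ := ih
    refine ⟨?_, ?_⟩
    · have := h1.deriv h2 hU
      simpa only [iteratedDeriv_succ, Function.comp_def] using this
    · filter_upwards [h2] with i hi
      simpa only [iteratedDeriv_succ] using hi.deriv hU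

theorem iteratedDeriv_polynomial_eval (P : Polynomial ℂ) (k : ℕ) :
    iteratedDeriv k (fun x => P.eval x) = fun x => (Polynomial.derivative^[k] P).eval x := by
  induction k with
  | zero => simp
  | succ k ih =>
    rw [iteratedDeriv_succ, ih]
    funext x
    rw [Polynomial.deriv, Function.iterate_succ_apply']

theorem iteratedDeriv_polynomial_eval_zero (P : Polynomial ℂ) (k : ℕ) :
    iteratedDeriv k (fun x => P.eval x) 0 = k.factorial * P.coeff k := by
  rw [iteratedDeriv_polynomial_eval]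
  beta_reduce
  rw [← Polynomial.coeff_zero_eq_eval_zero,
    Polynomial.coeff_iterate_derivative, zero_add, Nat.descFactorial_self, nsmul_eq_mul]

/-- The analytic eta product `∏ (1 - q ^ (n + 1))`. -/
def etaC (q : ℂ) : ℂ := ∏' n : ℕ, (1 - q ^ (n + 1))

/-- Partial products of the eta product, as integer polynomials. -/
def etaPartial (s : Finset ℕ) : Polynomial ℤ := ∏ n ∈ s, (1 - Polynomial.X ^ (n + 1))

theorem coe_etaPartial (s : Finset ℕ) :
    ((etaPartial s : Polynomial ℤ) : PowerSeries ℤ) = ∏ n ∈ s, (1 - PowerSeries.X ^ (n + 1)) := by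
  have := _root_.map_prod (Polynomial.coeToPowerSeries.ringHom (R := ℤ))
    (fun n : ℕ => (1 - Polynomial.X ^ (n + 1) : Polynomial ℤ)) s
  rw [etaPartial]
  rw [Polynomial.coeToPowerSeries.ringHom_apply] at this
  rw [this]
  refine Finset.prod_congr rfl fun n _ => ?_
  rw [Polynomial.coeToPowerSeries.ringHom_apply]
  simp

theorem eval_etaPartial (s : Finset ℕ) (q : ℂ) :
    ((etaPartial s).map (Int.castRingHom ℂ)).eval q = ∏ n ∈ s, (1 - q ^ (n + 1)) := by
  simp [etaPartial, Polynomial.map_prod, Polynomial.eval_prod]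

theorem tendsto_coeff_etaPartial (k : ℕ) :
    Tendsto (fun s : Finset ℕ => (((etaPartial s).coeff k : ℤ) : ℂ)) atTop
      (𝓝 ((PowerSeries.coeff k ModularCurve.etaProd : ℤ) : ℂ)) := by
  have h1 : HasProd (fun n : ℕ => (1 - PowerSeries.X ^ (n + 1) : PowerSeries ℤ))
      ModularCurve.etaProd :=
    (PowerSeries.WithPiTopology.multipliable_one_sub_X_pow ℤ).hasProd
  have h2 : Tendsto (fun s : Finset ℕ => ∏ n ∈ s, (1 - PowerSeries.X ^ (n + 1) : PowerSeries ℤ))
      atTop (𝓝 ModularCurve.etaProd) := h1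
  have h3 := ((PowerSeries.WithPiTopology.continuous_coeff ℤ k).tendsto _).comp h2
  have h4 : Continuous (fun n : ℤ => (n : ℂ)) := continuous_of_discreteTopology
  have h5 := (h4.tendsto _).comp h3
  refine h5.congr fun s => ?_
  simp only [Function.comp_apply]
  rw [← coe_etaPartial, Polynomial.coeff_coe]

theorem differentiableOn_etaC : DifferentiableOn ℂ etaC (Metric.ball 0 1) :=
  ModularForm.differentiableOn_tprod_one_sub_pow

theorem taylor_etaC (k : ℕ) :
    (k.factorial : ℂ)⁻¹ * iteratedDeriv k etaC 0 =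
      ((PowerSeries.coeff k ModularCurve.etaProd : ℤ) : ℂ) := by
  have hloc : TendstoLocallyUniformlyOn
      (fun (s : Finset ℕ) (q : ℂ) => ∏ n ∈ s, (1 - q ^ (n + 1))) etaC atTop (Metric.ball 0 1) :=
    hasProdLocallyUniformlyOn_iff_tendstoLocallyUniformlyOn.mp
      ModularForm.multipliableLocallyUniformlyOn_one_sub_pow.hasProdLocallyUniformlyOn
  have hd : ∀ᶠ s : Finset ℕ in atTop,
      DifferentiableOn ℂ (fun q : ℂ => ∏ n ∈ s, (1 - q ^ (n + 1))) (Metric.ball 0 1) :=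
    .of_forall fun s => by
      have : DifferentiableOn ℂ (∏ n ∈ s, fun q : ℂ => (1 - q ^ (n + 1))) (Metric.ball 0 1) :=
        DifferentiableOn.finsetProd (fun _ _ => by fun_prop)
      simpa [Finset.prod_fn] using this
  have h1 := (tendstoLocallyUniformlyOn_iteratedDeriv Metric.isOpen_ball hloc hd k).1.tendsto_at
    (Metric.mem_ball_self (one_pos : (0 : ℝ) < 1))
  have h2 : ∀ s : Finset ℕ, iteratedDeriv k (fun q : ℂ => ∏ n ∈ s, (1 - q ^ (n + 1))) 0 =
      k.factorial * (((etaPartial s).coeff k : ℤ) : ℂ) := by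
    intro s
    have := iteratedDeriv_polynomial_eval_zero ((etaPartial s).map (Int.castRingHom ℂ)) k
    simp only [eval_etaPartial, Polynomial.coeff_map, eq_intCast] at this
    exact this
  simp only [h2] at h1
  have h3 := (tendsto_coeff_etaPartial k).const_mul (k.factorial : ℂ)
  have h4 := tendsto_nhds_unique h1 h3
  rw [h4, ← mul_assoc, inv_mul_cancel₀ (by exact_mod_cast k.factorial_ne_zero), one_mul]

/-- The formal eta product with complex coefficients. -/
def etaProdC : PowerSeries ℂ := ModularCurve.etaProd.map (Int.castRingHom ℂ)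

theorem hasSum_etaC {q : ℂ} (hq : ‖q‖ < 1) :
    HasSum (fun n : ℕ => PowerSeries.coeff n etaProdC * q ^ n) (etaC q) := by
  have := Complex.hasSum_taylorSeries_on_ball differentiableOn_etaC
    (z := q) (by simpa using hq)
  simp only [sub_zero, smul_eq_mul] at this
  have hfun : (fun n : ℕ => PowerSeries.coeff n etaProdC * q ^ n) =
      fun n : ℕ => ((n.factorial : ℂ))⁻¹ * (q ^ n * iteratedDeriv n etaC 0) := by
    funext n
    rw [etaProdC, PowerSeries.coeff_map, eq_intCast, ← taylor_etaC]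
    ring
  rw [hfun]
  exact this

/-- The function `τ ↦ ∏ (1 - q ^ (n + 1))` has `q`-expansion the formal eta product. -/
theorem hasQExp_etaC : HasQExp 1 (fun τ => etaC (𝕢 1 τ)) etaProdC :=
  fun τ => hasSum_etaC (Periodic.norm_qParam_lt_one one_pos τ.im_pos)

end

end Fermat.Agent.S28.H685

end
-- ===== PACK-END S28/H685/EtaBridge.lean

-- ===== PACK-BEGIN S24/Alg/LocApprox.lean
section


/-!
# S24 / ALG-LOC: approximation for finitely many places

Distinct places are incomparable; for a place `v` outside a finite set `S` of places there is a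
function with a pole at `v` and zeros at all places of `S`.
-/

set_option autoImplicit false

noncomputable section

open AlgebraicCurve

namespace Fermat.Agent.S24.H144

variable {K F : Type*} [Field K] [Field F] [Algebra K F]

/-- Every place has an element of order `1`. -/
theorem loc_exists_ord_eq_one (v : Place K F) : ∃ h : F, v.ord h = 1 := by
  obtain ⟨π, hπ⟩ := IsDiscreteValuationRing.exists_irreducible v.toValuationSubring
  exact ⟨π, v.ord_coe_irreducible hπ⟩

theorem loc_ne_zero_of_ord_ne_zero (v : Place K F) {f : F} (h : v.ord f ≠ 0) : f ≠ 0 := by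
  rintro rfl; exact h v.ord_zero

/-- The valuation rings of two places are comparable only if the places are equal. -/
theorem loc_eq_of_le {v w : Place K F} (h : v.toValuationSubring ≤ w.toValuationSubring) :
    v = w := by
  apply Place.ext
  refine le_antisymm h ?_
  intro f hf
  by_contra hfv
  have hfw : 0 ≤ w.ord f := loc_ord_nonneg_of_mem w hf
  have hfv' : v.ord f < 0 := by
    by_contra h0
    exact hfv (loc_mem_of_ord_nonneg v (not_lt.mp h0))
  have hf0 : f ≠ 0 := loc_ne_zero_of_ord_ne_zero v hfv'.ne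
  obtain ⟨h1, hh1⟩ := loc_exists_ord_eq_one w
  have hh0 : h1 ≠ 0 := loc_ne_zero_of_ord_ne_zero w (by omega)
  -- choose `r` large
  set r : ℕ := (v.ord h1).toNat + 1 with hr
  have hfr : f ^ r ≠ 0 := pow_ne_zero r hf0
  have hv : v.ord (f ^ r * h1) < 0 := by
    rw [v.ord_mul hfr hh0, loc_ord_pow]
    have : (r : ℤ) * v.ord f ≤ -(r : ℤ) := by nlinarith
    have : v.ord h1 ≤ (v.ord h1).toNat := Int.self_le_toNat _
    have : (r : ℤ) = (v.ord h1).toNat + 1 := by rw [hr]; push_cast; ring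
    omega
  have hmem : (f ^ r * h1)⁻¹ ∈ w.toValuationSubring := by
    apply h
    apply loc_mem_of_ord_nonneg
    rw [v.ord_inv]; omega
  have hw := loc_ord_nonneg_of_mem w hmem
  rw [w.ord_inv, w.ord_mul hfr hh0, loc_ord_pow, hh1] at hw
  have : 0 ≤ (r : ℤ) * w.ord f := mul_nonneg (Int.natCast_nonneg r) hfw
  omega

/-- Two distinct places are separated by a function. -/
theorem loc_exists_sep {v w : Place K F} (hvw : v ≠ w) :
    ∃ c : F, 0 < v.ord c ∧ w.ord c < 0 := by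
  have h1 : ¬ v.toValuationSubring ≤ w.toValuationSubring := fun h => hvw (loc_eq_of_le h)
  have h2 : ¬ w.toValuationSubring ≤ v.toValuationSubring :=
    fun h => hvw (loc_eq_of_le h).symm
  obtain ⟨a, hav, haw⟩ := SetLike.not_le_iff_exists.mp h1
  obtain ⟨b, hbw, hbv⟩ := SetLike.not_le_iff_exists.mp h2
  have hav' : 0 ≤ v.ord a := loc_ord_nonneg_of_mem v hav
  have hbw' : 0 ≤ w.ord b := loc_ord_nonneg_of_mem w hbw
  have haw' : w.ord a < 0 := by
    by_contra h0; exact haw (loc_mem_of_ord_nonneg w (not_lt.mp h0))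
  have hbv' : v.ord b < 0 := by
    by_contra h0; exact hbv (loc_mem_of_ord_nonneg v (not_lt.mp h0))
  have ha0 : a ≠ 0 := loc_ne_zero_of_ord_ne_zero w haw'.ne
  have hb0 : b ≠ 0 := loc_ne_zero_of_ord_ne_zero v hbv'.ne
  refine ⟨a * b⁻¹, ?_, ?_⟩
  · rw [v.ord_mul ha0 (inv_ne_zero hb0), v.ord_inv]; omega
  · rw [w.ord_mul ha0 (inv_ne_zero hb0), w.ord_inv]; omega

/-- **Approximation.** For a place `v` outside a finite set `S` of places there is a function
with a zero at `v` and poles at all places of `S`. -/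
theorem loc_exists_zero_poles (v : Place K F) (S : Finset (Place K F)) (hv : v ∉ S) :
    ∃ g : F, 0 < v.ord g ∧ ∀ w ∈ S, w.ord g < 0 := by
  classical
  induction S using Finset.induction_on with
  | empty =>
    obtain ⟨h, hh⟩ := loc_exists_ord_eq_one v
    exact ⟨h, by omega, by simp⟩
  | insert w₀ S' hw₀ ih =>
    have hv' : v ∉ S' := fun h => hv (Finset.mem_insert_of_mem h)
    have hvw₀ : v ≠ w₀ := fun h => hv (h ▸ Finset.mem_insert_self _ _)
    obtain ⟨g, hgv, hgS⟩ := ih hv'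
    obtain ⟨c, hcv, hcw⟩ := loc_exists_sep hvw₀
    have hg0 : g ≠ 0 := loc_ne_zero_of_ord_ne_zero v hgv.ne'
    have hc0 : c ≠ 0 := loc_ne_zero_of_ord_ne_zero v hcv.ne'
    by_cases hgw : w₀.ord g < 0
    · refine ⟨g, hgv, ?_⟩
      intro w hw
      rcases Finset.mem_insert.mp hw with rfl | hw
      · exact hgw
      · exact hgS w hw
    · have hgw := not_lt.mp hgw
      -- choose `r` large
      set r : ℕ := (∑ w ∈ S', (w.ord c).natAbs) + 1 with hr
      have hrS : ∀ w ∈ S', -(r : ℤ) < w.ord c := by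
        intro w hw
        have h1 : (w.ord c).natAbs ≤ ∑ w ∈ S', (w.ord c).natAbs :=
          Finset.single_le_sum (f := fun w : Place K F => (w.ord c).natAbs)
            (fun _ _ => Nat.zero_le _) hw
        have h2 : (r : ℤ) = ((∑ w ∈ S', (w.ord c).natAbs : ℕ) : ℤ) + 1 := by
          rw [hr]; push_cast; ring
        have h3 : ((w.ord c).natAbs : ℤ) ≤ ((∑ w ∈ S', (w.ord c).natAbs : ℕ) : ℤ) := by
          exact_mod_cast h1
        omega
      have hr1 : 1 ≤ r := by omega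
      have hgr0 : g ^ r ≠ 0 := pow_ne_zero r hg0
      have hw₀ : w₀.ord (c + g ^ r) = w₀.ord c := by
        apply loc_ord_add_eq_of_lt w₀ hc0 hgr0
        rw [loc_ord_pow]
        have : 0 ≤ (r : ℤ) * w₀.ord g := mul_nonneg (Int.natCast_nonneg r) hgw
        omega
      have hsum0 : c + g ^ r ≠ 0 := loc_ne_zero_of_ord_ne_zero w₀ (by rw [hw₀]; omega)
      refine ⟨c + g ^ r, ?_, ?_⟩
      · have h1 := loc_ord_add v hc0 hgr0 hsum0
        rw [loc_ord_pow] at h1
        have h2 : 0 < (r : ℤ) * v.ord g := mul_pos (by exact_mod_cast hr1) hgv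
        have h3 : 0 < min (v.ord c) ((r : ℤ) * v.ord g) := lt_min hcv h2
        omega
      · intro w hw
        rcases Finset.mem_insert.mp hw with rfl | hw
        · rw [hw₀]; exact hcw
        · have h1 : w.ord (g ^ r) < w.ord c := by
            rw [loc_ord_pow]
            have h2 := hgS w hw
            have h3 := hrS w hw
            have h4 : (r : ℤ) * w.ord g ≤ -(r : ℤ) := by nlinarith
            omega
          rw [add_comm, loc_ord_add_eq_of_lt w hgr0 hc0 h1, loc_ord_pow]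
          have h2 := hgS w hw
          have : (r : ℤ) * w.ord g < 0 := by
            have hrpos : (0 : ℤ) < r := by exact_mod_cast hr1
            exact mul_neg_of_pos_of_neg hrpos h2
          exact this

/-- **Approximation**, pole version: for a place `v` outside a finite set `S` of places there is
a function with a pole at `v` and zeros at all places of `S`. -/
theorem loc_exists_pole_zeros (v : Place K F) (S : Finset (Place K F)) (hv : v ∉ S) :
    ∃ u : F, v.ord u < 0 ∧ ∀ w ∈ S, 0 < w.ord u := by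
  obtain ⟨g, hg, hgS⟩ := loc_exists_zero_poles v S hv
  refine ⟨g⁻¹, ?_, ?_⟩
  · rw [v.ord_inv]; omega
  · intro w hw
    rw [w.ord_inv]
    have := hgS w hw
    omega

end Fermat.Agent.S24.H144

end
end
-- ===== PACK-END S24/Alg/LocApprox.lean

-- ===== PACK-BEGIN S37/H700/GaussSpan.lean
section


/-!
# S37 / piece GAUSS (helper700): the integral monomials span `F̄_N` over `L(j)`
-/

set_option autoImplicit false

noncomputable section

namespace Fermat.Agent.S37.H700

open ModularCurve HahnSeries Polynomial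
open Fermat.Agent.S28 (jField intDivisorExpansions)

section IntSeries

variable (K : Type*) [Field K]

/-- Reduction/base change of an element of `ℤ[j(q^d) : d ∣ N]` lies in `K(j(q^d) : d ∣ N)`. -/
theorem coeffMap_intCast_mem_fullC (N : ℕ) {y : LaurentSeries ℤ}
    (hy : y ∈ Subring.closure (intDivisorExpansions N)) :
    coeffMap (Int.castRingHom K) y ∈ modularFunctionFieldFullC K N := by
  induction hy using Subring.closure_induction with
  | mem x hx =>
    obtain ⟨d, hd, hdN, rfl⟩ := hx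
    rw [coeffMap_qExpand, coeffMap_jqModC]
    exact jqModCd_mem_full K N hdN
  | zero => simp
  | one => simp
  | add x y _ _ hx hy => rw [_root_.map_add]; exact add_mem hx hy
  | neg x _ hx => rw [_root_.map_neg]; exact neg_mem hx
  | mul x y _ _ hx hy => rw [_root_.map_mul]; exact mul_mem hx hy

theorem smul_jField_def (c : jField K) (x : LaurentSeries K) :
    c • x = (c : LaurentSeries K) * x := rfl

end IntSeries

section Span

variable (L : Type*) [Field L] [Algebra ℚ L]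

theorem coeffEmb_evalJ (P : ℚ[X]) :
    coeffEmb L (evalJ ℚ P) = evalJ L (P.map (algebraMap ℚ L)) :=
  coeffMap_evalJ _ P

theorem coeffEmb_intCast (y : LaurentSeries ℤ) :
    coeffEmb L (coeffMap (Int.castRingHom ℚ) y) = coeffMap (Int.castRingHom L) y := by
  rw [coeffEmb, coeffMap_coeffMap]
  exact coeffMap_congr (RingHom.ext_int _ _) y

/-- `coeffEmb` maps `ℚ(j)` into `L(j)`. -/
theorem coeffEmb_mem_jField {c : LaurentSeries ℚ} (hc : c ∈ jField ℚ) :
    coeffEmb L c ∈ jField L := by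
  obtain ⟨r, s, hs, hrs⟩ := exists_evalJ_of_mem_jField ℚ hc
  have h := congrArg (coeffEmb L) hrs
  rw [_root_.map_mul, coeffEmb_evalJ, coeffEmb_evalJ] at h
  have hs' : evalJ L (s.map (algebraMap ℚ L)) ≠ 0 := by
    rw [Ne, evalJ_eq_zero_iff]
    exact (Polynomial.map_ne_zero_iff (algebraMap ℚ L).injective).mpr hs
  have : coeffEmb L c = evalJ L (r.map (algebraMap ℚ L)) * (evalJ L (s.map (algebraMap ℚ L)))⁻¹ := by
    rw [← h, mul_assoc, mul_inv_cancel₀ hs', mul_one]
  rw [this]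
  exact mul_mem (evalJ_mem_jField L _) (inv_mem (evalJ_mem_jField L _))

variable {n : ℕ} (y : Fin n → LaurentSeries ℤ)

/-- The `L(j)`-span of the base-changed monomials. -/
def spanL : Submodule (jField L) (LaurentSeries L) :=
  Submodule.span (jField L) (Set.range fun i => coeffMap (Int.castRingHom L) (y i))

theorem coeffEmb_mem_spanL {x : LaurentSeries ℚ}
    (hx : x ∈ Submodule.span (jField ℚ)
      (Set.range fun i => coeffMap (Int.castRingHom ℚ) (y i))) :
    coeffEmb L x ∈ spanL L y := by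
  induction hx using Submodule.span_induction with
  | mem x hx =>
    obtain ⟨i, rfl⟩ := hx
    rw [coeffEmb_intCast]
    exact Submodule.subset_span ⟨i, rfl⟩
  | zero => rw [_root_.map_zero]; exact zero_mem _
  | add x y _ _ hx hy => rw [_root_.map_add]; exact add_mem hx hy
  | smul c x _ hx =>
    rw [smul_jField_def, _root_.map_mul]
    exact (spanL L y).smul_mem ⟨coeffEmb L c, coeffEmb_mem_jField L c.2⟩ hx

variable (N : ℕ)
variable (hy_mem : ∀ i, y i ∈ Subring.closure (intDivisorExpansions N))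
variable (hy_span : ∀ x ∈ modularFunctionFieldFull N,
      x ∈ Submodule.span (jField ℚ)
        (Set.range fun i => coeffMap (Int.castRingHom ℚ) (y i)))

include hy_span in
theorem coeffEmb_mem_spanL_of_mem {x : LaurentSeries ℚ} (hx : x ∈ modularFunctionFieldFull N) :
    coeffEmb L x ∈ spanL L y :=
  coeffEmb_mem_spanL L y (hy_span x hx)

include hy_span in
theorem one_mem_spanL : (1 : LaurentSeries L) ∈ spanL L y := by
  have := coeffEmb_mem_spanL_of_mem L y N hy_span (one_mem (modularFunctionFieldFull N))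
  rwa [_root_.map_one] at this

include hy_mem hy_span in
theorem gen_mul_gen_mem_spanL (i j : Fin n) :
    coeffMap (Int.castRingHom L) (y i) * coeffMap (Int.castRingHom L) (y j) ∈ spanL L y := by
  rw [← coeffEmb_intCast L (y i), ← coeffEmb_intCast L (y j), ← _root_.map_mul]
  refine coeffEmb_mem_spanL_of_mem L y N hy_span (mul_mem ?_ ?_)
  · rw [← modularFunctionFieldFullC_rat]; exact coeffMap_intCast_mem_fullC ℚ N (hy_mem i)
  · rw [← modularFunctionFieldFullC_rat]; exact coeffMap_intCast_mem_fullC ℚ N (hy_mem j)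

include hy_mem hy_span in
theorem mul_mem_spanL {a b : LaurentSeries L} (ha : a ∈ spanL L y) (hb : b ∈ spanL L y) :
    a * b ∈ spanL L y := by
  induction ha using Submodule.span_induction with
  | mem a ha =>
    obtain ⟨i, rfl⟩ := ha
    induction hb using Submodule.span_induction with
    | mem b hb =>
      obtain ⟨j, rfl⟩ := hb
      exact gen_mul_gen_mem_spanL L y N hy_mem hy_span i j
    | zero => rw [mul_zero]; exact zero_mem _
    | add x z _ _ hx hz => rw [mul_add]; exact add_mem hx hz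
    | smul c x _ hx =>
      rw [smul_jField_def, mul_left_comm]
      exact (spanL L y).smul_mem c hx
  | zero => rw [zero_mul]; exact zero_mem _
  | add x z _ _ hx hz => rw [add_mul]; exact add_mem hx hz
  | smul c x _ hx =>
    rw [smul_jField_def, mul_assoc]
    exact (spanL L y).smul_mem c hx

/-- The span as a subalgebra over `L(j)`. -/
def spanAlg : Subalgebra (jField L) (LaurentSeries L) :=
  (spanL L y).toSubalgebra (one_mem_spanL L y N hy_span)
    (fun _ _ ha hb => mul_mem_spanL L y N hy_mem hy_span ha hb)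

include hy_mem hy_span in
theorem inv_mem_spanL {a : LaurentSeries L} (ha : a ∈ spanL L y) : a⁻¹ ∈ spanL L y := by
  have hfg : (spanAlg L y N hy_mem hy_span).toSubmodule.FG := by
    show (spanL L y).FG
    exact Submodule.fg_span (Set.finite_range _)
  have hint : IsIntegral (jField L) a :=
    IsIntegral.of_mem_of_fg (spanAlg L y N hy_mem hy_span) hfg a ha
  exact (spanAlg L y N hy_mem hy_span).inv_mem_of_algebraic
    (x := ⟨a, ha⟩) hint.isAlgebraic

include hy_mem hy_span in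
/-- **Spanning over `L`**: every element of `F̄_N = L·F_N` is an `L(j)`-combination of the
integral monomials. -/
theorem mem_spanL_of_mem_baseChange {x : LaurentSeries L}
    (hx : x ∈ laurentBaseChange L (modularFunctionFieldFull N)) : x ∈ spanL L y := by
  rw [mem_laurentBaseChange_iff] at hx
  induction hx using Subfield.closure_induction with
  | mem x hx =>
    rcases hx with ⟨a, rfl⟩ | ⟨z, hz, rfl⟩
    · have h1 := one_mem_spanL L y N hy_span
      have := (spanL L y).smul_mem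
        (⟨algebraMap L (LaurentSeries L) a, (jField L).algebraMap_mem a⟩ : jField L) h1
      rwa [smul_jField_def, mul_one] at this
    · exact coeffEmb_mem_spanL_of_mem L y N hy_span hz
  | one => exact one_mem_spanL L y N hy_span
  | add x z _ _ hx hz => exact add_mem hx hz
  | neg x _ hx => exact neg_mem hx
  | inv x _ hx => exact inv_mem_spanL L y N hy_mem hy_span hx
  | mul x z _ _ hx hz => exact mul_mem_spanL L y N hy_mem hy_span hx hz

end Span

end Fermat.Agent.S37.H700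

end
end
-- ===== PACK-END S37/H700/GaussSpan.lean

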