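import Mathlib
import Fermat.Prelude.Def_EllipticCurve_FrobeniusTrace
import Fermat.Prelude.Def_FLTPrelim_Ramification
import Fermat.Agent.Pack.S33.E0L0
import Fermat.Agent.Pack.S33.E4L2
import Fermat.Agent.Pack.S33.E4L0
import Fermat.Agent.Pack.S33.E4L3
import Fermat.Agent.Pack.S33.E5L3

-- ===== PACK-BEGIN Lib/Cheb/H221/CycAlg.lean
section






/-!
# CYC, algebraic part (helper221)

Setting of `Spec.CycStatement`: `L/ℚ` Galois, `ζ ∈ L` a primitive `m`-th root of unity,
`g ∈ Gal(L/ℚ)` such that `⟨g⟩` acts faithfully on `ζ`.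
-/

set_option autoImplicit false

open NumberField

namespace Fermat.Agent.Lib.Cheb.H221

set_option linter.unusedSectionVars false

section basic

variable {L : Type} [Field L] [NumberField L] [IsGalois ℚ L]

lemma modEq_of_pow_eq_pow {m : ℕ} [NeZero m] {ζ : L} (hζ : IsPrimitiveRoot ζ m) {i j : ℕ}
    (h : ζ ^ i = ζ ^ j) : i ≡ j [MOD m] := by
  have ho := hζ.eq_orderOf
  have h1 : ζ ^ (i % m) = ζ ^ (j % m) := by
    rw [ho, pow_mod_orderOf, pow_mod_orderOf, h]
  exact hζ.pow_inj (Nat.mod_lt _ (NeZero.pos m)) (Nat.mod_lt _ (NeZero.pos m)) h1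

lemma card_quot_under_eq {p : ℕ} (hp : p.Prime) {P : Ideal (𝓞 L)} (hP : P.IsPrime)
    (hpP : (p : 𝓞 L) ∈ P) : Nat.card (ℤ ⧸ P.under ℤ) = p := by
  have : Fact p.Prime := ⟨hp⟩
  have hmax := Int.ideal_span_isMaximal_of_prime p
  have hle : Ideal.span {(p : ℤ)} ≤ P.under ℤ := by
    rw [Ideal.span_le, Set.singleton_subset_iff]
    change (p : ℤ) ∈ Ideal.comap (algebraMap ℤ (𝓞 L)) P
    rw [Ideal.mem_comap]
    simpa using hpP
  have hne : P.under ℤ ≠ ⊤ := (Ideal.IsPrime.under ℤ P).ne_top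
  have heq : Ideal.span {(p : ℤ)} = P.under ℤ := hmax.eq_of_le hne hle
  rw [← heq, ← Submodule.cardQuot_apply, ← Ideal.absNorm_apply, Ideal.absNorm_span_singleton]
  simp

lemma natCast_notMem_of_not_dvd {p m : ℕ} (hp : p.Prime) (hpm : ¬ p ∣ m) {P : Ideal (𝓞 L)}
    (hP : P.IsPrime) (hpP : (p : 𝓞 L) ∈ P) : (m : 𝓞 L) ∉ P := by
  intro hm
  have hcop : Nat.Coprime p m := (Nat.Prime.coprime_iff_not_dvd hp).mpr hpm
  have h1 : ((p : ℤ) * Nat.gcdA p m + (m : ℤ) * Nat.gcdB p m : ℤ) = 1 := by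
    have := Nat.gcd_eq_gcd_ab p m
    rw [hcop] at this
    simpa using this.symm
  have h2 : ((1 : ℤ) : 𝓞 L) ∈ P := by
    rw [← h1]
    push_cast
    exact P.add_mem (P.mul_mem_right _ hpP) (P.mul_mem_right _ hm)
  exact hP.ne_top ((Ideal.eq_top_iff_one P).mpr (by simpa using h2))

variable {m : ℕ} [NeZero m] {ζ : L} (hζ : IsPrimitiveRoot ζ m)

include hζ in
/-- A Frobenius at a prime above `p ∤ m` raises `ζ` to the `p`-th power. -/
lemma frob_apply_zeta {p : ℕ} (hp : p.Prime) (hpm : ¬ p ∣ m) {P : Ideal (𝓞 L)}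
    (hP : P.IsPrime) (hpP : (p : 𝓞 L) ∈ P) {τ : L ≃ₐ[ℚ] L} (hτ : IsArithFrobAt ℤ τ P) :
    τ ζ = ζ ^ p := by
  have h1 : hζ.toInteger ^ m = 1 := hζ.toInteger_isPrimitiveRoot.pow_eq_one
  have h2 := AlgHom.IsArithFrobAt.apply_of_pow_eq_one hτ h1
    (natCast_notMem_of_not_dvd hp hpm hP hpP)
  rw [card_quot_under_eq hp hP hpP] at h2
  have h3 := congrArg (fun x : 𝓞 L => (x : L)) h2
  exact h3

/-- The cyclotomic character of a Frobenius at a prime above `p ∤ m` is `p mod m`. -/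
lemma autToPow_frob {p : ℕ} (hp : p.Prime) (hpm : ¬ p ∣ m) {P : Ideal (𝓞 L)}
    (hP : P.IsPrime) (hpP : (p : 𝓞 L) ∈ P) {τ : L ≃ₐ[ℚ] L} (hτ : IsArithFrobAt ℤ τ P) :
    ((hζ.autToPow ℚ τ : (ZMod m)ˣ) : ZMod m) = (p : ZMod m) := by
  have h1 := frob_apply_zeta hζ hp hpm hP hpP hτ
  have h2 := hζ.autToPow_spec ℚ τ
  rw [h1] at h2
  have h3 := modEq_of_pow_eq_pow hζ h2
  have := (ZMod.natCast_eq_natCast_iff _ _ m).mpr h3
  simpa using this

include hζ in
lemma apply_zeta_of_autToPow_eq_one {σ : L ≃ₐ[ℚ] L} (h : hζ.autToPow ℚ σ = 1) : σ ζ = ζ := by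
  have h2 := hζ.autToPow_spec ℚ σ
  rw [h] at h2
  rw [← h2]
  have ho := hζ.eq_orderOf
  have h3 : ((1 : (ZMod m)ˣ) : ZMod m).val = 1 % m := by
    rw [Units.val_one, ZMod.val_one_eq_one_mod]
  rw [h3]
  conv_lhs => rw [ho, pow_mod_orderOf]
  exact pow_one ζ

lemma autToPow_eq_one_of_apply_zeta {σ : L ≃ₐ[ℚ] L} (h : σ ζ = ζ) : hζ.autToPow ℚ σ = 1 := by
  have h2 := hζ.autToPow_spec ℚ σ
  rw [h] at h2
  have h3 : (hζ.autToPow ℚ σ : ZMod m).val ≡ 1 [MOD m] := by
    apply modEq_of_pow_eq_pow hζ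
    rw [h2, pow_one]
  have := (ZMod.natCast_eq_natCast_iff _ _ m).mpr h3
  ext
  simpa using this

variable {g : L ≃ₐ[ℚ] L} (hg : ∀ k : ℕ, (g ^ k) ζ = ζ → g ^ k = 1)

include hg in
lemma eq_one_of_mem_zpowers {τ : L ≃ₐ[ℚ] L} (hτ : τ ∈ Subgroup.zpowers g)
    (h : hζ.autToPow ℚ τ = 1) : τ = 1 := by
  rw [← mem_powers_iff_mem_zpowers] at hτ
  obtain ⟨k, rfl⟩ := hτ
  exact hg k (apply_zeta_of_autToPow_eq_one hζ h)

include hg in
lemma eq_of_mem_zpowers {τ : L ≃ₐ[ℚ] L} (hτ : τ ∈ Subgroup.zpowers g)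
    (h : hζ.autToPow ℚ τ = hζ.autToPow ℚ g) : τ = g := by
  have h1 : τ * g⁻¹ ∈ Subgroup.zpowers g :=
    Subgroup.mul_mem _ hτ (Subgroup.inv_mem _ (Subgroup.mem_zpowers g))
  have h2 : hζ.autToPow ℚ (τ * g⁻¹) = 1 := by
    rw [map_mul, map_inv, h, mul_inv_cancel]
  have := eq_one_of_mem_zpowers hζ hg h1 h2
  exact mul_inv_eq_one.mp this

include hg in
lemma orderOf_autToPow : orderOf (hζ.autToPow ℚ g) = orderOf g := by
  rw [orderOf_eq_orderOf_iff]
  intro n
  rw [← map_pow]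
  constructor
  · intro h
    exact hg n (apply_zeta_of_autToPow_eq_one hζ h)
  · intro h
    rw [h, map_one]

end basic

section weight

variable (L : Type) [Field L] [NumberField L] [IsGalois ℚ L]

lemma primesLe_finite (H : Subgroup (L ≃ₐ[ℚ] L)) {p : ℕ} (hp : p.Prime) :
    (Spec.primesLe L H p).Finite :=
  (H341.primesAbove_finite L hp).subset (fun _ hP => ⟨hP.1, hP.2.1⟩)

variable {L}

lemma exists_of_decompWeight_ne_zero {H : Subgroup (L ≃ₐ[ℚ] L)} {p : ℕ}
    (h : Spec.decompWeight L H p ≠ 0) : ∃ P, P ∈ Spec.primesLe L H p := by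
  by_contra hcon
  push Not at hcon
  apply h
  unfold Spec.decompWeight
  have : IsEmpty (Spec.primesLe L H p) := ⟨fun P => hcon P.1 P.2⟩
  exact finsum_of_isEmpty _

lemma decompWeight_ne_zero {H : Subgroup (L ≃ₐ[ℚ] L)} {p : ℕ} (hp : p.Prime)
    {P : Ideal (𝓞 L)} (hP : P ∈ Spec.primesLe L H p) : Spec.decompWeight L H p ≠ 0 := by
  unfold Spec.decompWeight
  have hfin : Finite (Spec.primesLe L H p) := (primesLe_finite L H hp).to_subtype
  have : Fintype (Spec.primesLe L H p) := Fintype.ofFinite _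
  rw [finsum_eq_sum_of_fintype]
  intro h0
  rw [Finset.sum_eq_zero_iff] at h0
  have h1 := h0 ⟨P, hP⟩ (Finset.mem_univ _)
  exact Nat.card_pos.ne' h1

lemma decompWeight_congr {H H' : Subgroup (L ≃ₐ[ℚ] L)} {p : ℕ}
    (h : Spec.primesLe L H p = Spec.primesLe L H' p) :
    Spec.decompWeight L H p = Spec.decompWeight L H' p := by
  unfold Spec.decompWeight
  rw [finsum_set_coe_eq_finsum_mem (f := fun P : Ideal (𝓞 L) => Nat.card (Spec.decomp L P))
      (Spec.primesLe L H p),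
    finsum_set_coe_eq_finsum_mem (f := fun P : Ideal (𝓞 L) => Nat.card (Spec.decomp L P))
      (Spec.primesLe L H' p), h]

lemma decompWeight_eq_zero {H : Subgroup (L ≃ₐ[ℚ] L)} {p : ℕ}
    (h : ∀ P, P ∉ Spec.primesLe L H p) : Spec.decompWeight L H p = 0 := by
  by_contra h0
  obtain ⟨P, hP⟩ := exists_of_decompWeight_ne_zero h0
  exact h P hP

end weight

section main

variable {L : Type} [Field L] [NumberField L] [IsGalois ℚ L]
variable {m : ℕ} [NeZero m] {ζ : L} (hζ : IsPrimitiveRoot ζ m)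
variable {g : L ≃ₐ[ℚ] L} (hg : ∀ k : ℕ, (g ^ k) ζ = ζ → g ^ k = 1)

/-- Frobenius data at a prime `P ∣ p` whose decomposition group lies in `⟨g⟩`. -/
lemma exists_frob_of_mem_primesLe {B : Finset ℕ}
    (hB : ∀ p : ℕ, p.Prime → p ∉ B → ∀ P : Ideal (𝓞 L), P.IsPrime → (p : 𝓞 L) ∈ P →
        Spec.InertiaTrivial L P ∧
        ∃ τ : L ≃ₐ[ℚ] L, IsArithFrobAt ℤ τ P ∧ Spec.decomp L P = Subgroup.zpowers τ)
    {p : ℕ} (hp : p.Prime) (hpB : p ∉ B) (hpm : ¬ p ∣ m) {H : Subgroup (L ≃ₐ[ℚ] L)}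
    {P : Ideal (𝓞 L)} (hP : P ∈ Spec.primesLe L H p) :
    Spec.InertiaTrivial L P ∧ ∃ τ : L ≃ₐ[ℚ] L, IsArithFrobAt ℤ τ P ∧
      Spec.decomp L P = Subgroup.zpowers τ ∧ τ ∈ H ∧
      ((hζ.autToPow ℚ τ : (ZMod m)ˣ) : ZMod m) = (p : ZMod m) := by
  obtain ⟨hI, τ, hτ, hD⟩ := hB p hp hpB P hP.1 hP.2.1
  refine ⟨hI, τ, hτ, hD, ?_, autToPow_frob hζ hp hpm hP.1 hP.2.1 hτ⟩
  apply hP.2.2
  rw [hD]
  exact Subgroup.mem_zpowers τ

theorem cycAlg : CycAlgStatement := by
  intro hA hD hM L _ _ _ m _ ζ hζ g hg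
  classical
  refine ⟨by rw [Nat.card_zpowers]; exact orderOf_autToPow hζ hg, ?_⟩
  obtain ⟨B1, hB1⟩ := hA L (Subgroup.zpowers g)
  obtain ⟨B2, hB2⟩ := hA L ⊥
  obtain ⟨B3, hB3⟩ := hD L
  have hcard : 0 < Nat.card (Subgroup.zpowers g) := Nat.card_pos
  refine ⟨B1 ∪ B2 ∪ B3 ∪ m.primeFactors, ?_, ?_, ?_, ?_⟩
  · -- SUPP
    intro p hp hpB hc
    simp only [Finset.mem_union, not_or] at hpB
    obtain ⟨⟨⟨hp1, hp2⟩, hp3⟩, hp4⟩ := hpB
    have hpm : ¬ p ∣ m := fun h => hp4 (Nat.mem_primeFactors.mpr ⟨hp, h, NeZero.ne m⟩)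
    have hw : Spec.decompWeight L (Subgroup.zpowers g) p ≠ 0 := by
      rw [← hB1 p hp hp1]
      exact Nat.mul_ne_zero hc hcard.ne'
    obtain ⟨P, hP⟩ := exists_of_decompWeight_ne_zero hw
    obtain ⟨-, τ, -, -, hτg, hτp⟩ := exists_frob_of_mem_primesLe hζ hB3 hp hp3 hpm hP
    refine ⟨hζ.autToPow ℚ τ, ?_, hτp⟩
    obtain ⟨k, rfl⟩ := Subgroup.mem_zpowers_iff.mp hτg
    rw [map_zpow]
    exact Subgroup.zpow_mem _ (Subgroup.mem_zpowers _) k
  · -- SPLIT
    intro p hp hpB
    simp only [Finset.mem_union, not_or] at hpB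
    obtain ⟨⟨⟨hp1, hp2⟩, hp3⟩, hp4⟩ := hpB
    have hpm : ¬ p ∣ m := fun h => hp4 (Nat.mem_primeFactors.mpr ⟨hp, h, NeZero.ne m⟩)
    have h1 := hB1 p hp hp1
    have h2 := hB2 p hp hp2
    rw [Nat.card_eq_one_iff_unique.mpr ⟨inferInstance, inferInstance⟩, mul_one] at h2
    rw [Nat.card_zpowers] at h1
    split_ifs with hp1m
    · -- p ≡ 1
      have hset : Spec.primesLe L (Subgroup.zpowers g) p = Spec.primesLe L ⊥ p := by
        ext P
        constructor
        · intro hP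
          obtain ⟨-, τ, -, hDP, hτg, hτp⟩ := exists_frob_of_mem_primesLe hζ hB3 hp hp3 hpm hP
          have hτ1 : τ = 1 := by
            apply eq_one_of_mem_zpowers hζ hg hτg
            ext
            rw [hτp, hp1m]
            simp
          refine ⟨hP.1, hP.2.1, ?_⟩
          rw [hDP, hτ1]
          simp
        · intro hP
          exact ⟨hP.1, hP.2.1, hP.2.2.trans bot_le⟩
      rw [h2, ← decompWeight_congr hset, ← h1, mul_comm]
    · -- p ≢ 1
      rw [h2]
      apply decompWeight_eq_zero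
      intro P hP
      obtain ⟨-, τ, -, hDP, hτg, hτp⟩ := exists_frob_of_mem_primesLe hζ hB3 hp hp3 hpm hP
      apply hp1m
      rw [← hτp]
      have : τ = 1 := by simpa using hτg
      rw [this, map_one]
      simp
  · -- NT
    intro χ hχ
    obtain ⟨p, P, τ, hp, hpB, hP, hpP, hI, hτ, hτg⟩ :=
      hM L g (B1 ∪ B2 ∪ B3 ∪ m.primeFactors)
    simp only [Finset.mem_union, not_or] at hpB
    obtain ⟨⟨⟨hp1, hp2⟩, hp3⟩, hp4⟩ := hpB
    have hpm : ¬ p ∣ m := fun h => hp4 (Nat.mem_primeFactors.mpr ⟨hp, h, NeZero.ne m⟩)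
    have hDP : Spec.decomp L P = Subgroup.zpowers g := by
      have := hP
      rw [H943.decomp_eq_zpowers hp hpP hI hτ, hτg]
    have hPle : P ∈ Spec.primesLe L (Subgroup.zpowers g) p := ⟨hP, hpP, hDP.le⟩
    have hw := decompWeight_ne_zero hp hPle
    rw [← hB1 p hp hp1] at hw
    have hc : Spec.primeCount (fixM L g) p ≠ 0 := fun h => hw (by rw [h, zero_mul])
    -- a prime of norm `p`
    have hne : Nonempty {𝔮 : Ideal (𝓞 (fixM L g)) // 𝔮.IsPrime ∧ Ideal.absNorm 𝔮 = p} := by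
      by_contra hemp
      rw [not_nonempty_iff] at hemp
      exact hc Nat.card_of_isEmpty
    obtain ⟨𝔮, -, h𝔮⟩ := hne
    refine ⟨𝔮, ?_, ?_⟩
    · rw [h𝔮]
      have hu : IsUnit (p : ZMod m) := by
        rw [ZMod.isUnit_iff_coprime]
        exact (Nat.Prime.coprime_iff_not_dvd hp).mpr hpm
      exact (hu.map χ).ne_zero
    · rw [h𝔮]
      intro h1
      apply hχ
      have hτp := autToPow_frob hζ hp hpm hP hpP hτ
      have hgτ : g ∈ Subgroup.zpowers τ := by rw [hτg]; exact Subgroup.mem_zpowers g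
      obtain ⟨k, hk⟩ := (mem_powers_iff_mem_zpowers.mpr hgτ)
      rw [← hk, map_pow, Units.val_pow_eq_pow_val, hτp, map_pow, h1, one_pow]
  · -- FIN
    intro p hp hpB hc hpa
    simp only [Finset.mem_union, not_or] at hpB
    obtain ⟨⟨⟨hp1, hp2⟩, hp3⟩, hp4⟩ := hpB
    have hpm : ¬ p ∣ m := fun h => hp4 (Nat.mem_primeFactors.mpr ⟨hp, h, NeZero.ne m⟩)
    have hw : Spec.decompWeight L (Subgroup.zpowers g) p ≠ 0 := by
      rw [← hB1 p hp hp1]
      exact Nat.mul_ne_zero hc hcard.ne'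
    obtain ⟨P, hP⟩ := exists_of_decompWeight_ne_zero hw
    obtain ⟨hI, τ, hτ, -, hτg, hτp⟩ := exists_frob_of_mem_primesLe hζ hB3 hp hp3 hpm hP
    have : τ = g := by
      apply eq_of_mem_zpowers hζ hg hτg
      ext
      rw [hτp, hpa]
    exact ⟨P, hP.1, hP.2.1, hI, this ▸ hτ⟩

end main

end Fermat.Agent.Lib.Cheb.H221

end
-- ===== PACK-END Lib/Cheb/H221/CycAlg.lean

-- ===== PACK-BEGIN Lib/Cheb/H476/FrobAt.lean
section





/-!
# CHEB piece F6 (bridge), part 1: Frobenius elements at a GIVEN valuation subring of `ℚ̄`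

`exists_frobenius_at`: for every valuation subring `A` of `ℚ̄` over a prime number `ℓ` there is
`σ ∈ Gal(ℚ̄/ℚ)` which is a Frobenius element at `A`, and which satisfies `σ x ≡ x ^ ℓ` modulo
the prime of `ℤ̄` below `A`.

Also: elementwise descriptions of Frobenius elements and of the inertia group.
-/

set_option autoImplicit false

open scoped Pointwise

namespace Fermat.Agent.Lib.Cheb.H476

open Fermat.Agent.Lib.Cheb.Spec

/-- Frobenius elements exist at every valuation subring of `ℚ̄` over a prime number. -/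
theorem exists_frobenius_at (ℓ : ℕ) (hℓ : ℓ.Prime) (A : ValuationSubring Qb)
    (hA : A.LiesOverPrime ℓ) :
    ∃ σ : GQ, A.IsFrobeniusAt σ ℓ ∧
      ∀ x : integralClosure ℤ Qb, σ • x - x ^ ℓ ∈ Fermat.Agent.S54.primeBelow A := by
  have : Algebra.IsAlgebraic ℚ (AlgebraicClosure ℚ) := AlgebraicClosure.isAlgebraic ℚ
  have := Fermat.Agent.S54.primeBelow_isPrime A
  have hℓQ : (ℓ : integralClosure ℤ (AlgebraicClosure ℚ)) ∈ Fermat.Agent.S54.primeBelow A := by
    rw [Fermat.Agent.S54.mem_primeBelow]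
    exact hA
  obtain ⟨σ, hσQ', hσF⟩ :=
    Fermat.Agent.S54.exists_frob_integralClosure ℓ hℓ (Fermat.Agent.S54.primeBelow A) hℓQ
  have hσQ : ∀ x, σ • x ∈ Fermat.Agent.S54.primeBelow A ↔
      x ∈ Fermat.Agent.S54.primeBelow A := by
    intro x
    conv_lhs => rw [← hσQ']
    exact Ideal.smul_mem_pointwise_smul_iff
  have key : ∀ τ : AlgebraicClosure ℚ ≃ₐ[ℚ] AlgebraicClosure ℚ,
      (∀ x, τ • x ∈ Fermat.Agent.S54.primeBelow A ↔ x ∈ Fermat.Agent.S54.primeBelow A) →
      ∀ x ∈ A, τ x ∈ A := by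
    intro τ hτ x hx
    obtain ⟨b, s, hb, hs, hsA, hxs⟩ :=
      (Fermat.Agent.S54.mem_valuationSubring_iff A ℓ hℓ hA x).mp hx
    refine (Fermat.Agent.S54.mem_valuationSubring_iff A ℓ hℓ hA (τ x)).mpr
      ⟨τ b, τ s, hb.map τ, hs.map τ, ?_, ?_⟩
    · exact (hτ ⟨s, hs⟩).not.mpr hsA
    · rw [← map_mul, hxs]
  have hσA : σ ∈ A.decompositionSubgroup ℚ := by
    rw [MulAction.mem_stabilizer_iff]
    ext x
    rw [ValuationSubring.mem_smul_pointwise_iff_exists]
    constructor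
    · rintro ⟨s, hs, rfl⟩
      exact key σ hσQ s hs
    · intro hx
      refine ⟨σ⁻¹ • x, key σ⁻¹ ?_ x hx, by simp⟩
      intro y
      rw [← hσQ (σ⁻¹ • y)]
      simp
  refine ⟨σ, ⟨hσA, ?_⟩, hσF⟩
  intro x
  obtain ⟨a, rfl⟩ := IsLocalRing.residue_surjective x
  obtain ⟨b, s, hb, hs, hsA, hxs⟩ :=
    (Fermat.Agent.S54.mem_valuationSubring_iff A ℓ hℓ hA a).mp a.2
  have hbA : b ∈ A := Fermat.Agent.S54.isIntegral_mem_valuationSubring A hb
  have hsA' : s ∈ A := Fermat.Agent.S54.isIntegral_mem_valuationSubring A hs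
  have hint : ∀ (y : AlgebraicClosure ℚ) (hy : IsIntegral ℤ y),
      (⟨σ, hσA⟩ : A.decompositionSubgroup ℚ) •
        IsLocalRing.residue A ⟨y, Fermat.Agent.S54.isIntegral_mem_valuationSubring A hy⟩ =
      (IsLocalRing.residue A ⟨y, Fermat.Agent.S54.isIntegral_mem_valuationSubring A hy⟩) ^ ℓ := by
    intro y hy
    rw [← IsLocalRing.ResidueField.residue_smul, ← map_pow, ← sub_eq_zero, ← map_sub,
      IsLocalRing.residue_eq_zero_iff, ← ValuationSubring.coe_mem_nonunits_iff]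
    exact hσF ⟨y, hy⟩
  have h1 : IsLocalRing.residue A a * IsLocalRing.residue A ⟨s, hsA'⟩ =
      IsLocalRing.residue A ⟨b, hbA⟩ := by
    rw [← map_mul]
    congr 1
    exact Subtype.ext hxs
  have h2 : IsLocalRing.residue A ⟨s, hsA'⟩ ≠ 0 := by
    rw [Ne, IsLocalRing.residue_eq_zero_iff, ← ValuationSubring.coe_mem_nonunits_iff]
    exact hsA
  have h3 := congrArg (fun z => (⟨σ, hσA⟩ : A.decompositionSubgroup ℚ) • z) h1
  simp only [smul_mul'] at h3
  rw [hint s hs, hint b hb, ← h1, mul_pow] at h3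
  exact mul_right_cancel₀ (pow_ne_zero _ h2) h3

/-- Elements of the inertia group move elements of the valuation ring by nonunits. -/
theorem sub_mem_nonunits_of_mem_inertia (A : ValuationSubring Qb) (ι : GQ)
    (hι : ι ∈ A.inertiaSubgroupIn ℚ) (a : Qb) (ha : a ∈ A) : ι a - a ∈ A.nonunits := by
  obtain ⟨ι', hι', rfl⟩ := hι
  have h1 : ι' • IsLocalRing.residue A ⟨a, ha⟩ = IsLocalRing.residue A ⟨a, ha⟩ := by
    have := congrArg (fun f => f (IsLocalRing.residue A ⟨a, ha⟩)) (MonoidHom.mem_ker.mp hι')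
    simpa using this
  rw [← IsLocalRing.ResidueField.residue_smul, ← sub_eq_zero, ← map_sub,
    IsLocalRing.residue_eq_zero_iff, ← ValuationSubring.coe_mem_nonunits_iff] at h1
  exact h1

end Fermat.Agent.Lib.Cheb.H476

end
-- ===== PACK-END Lib/Cheb/H476/FrobAt.lean

-- ===== PACK-BEGIN S14/H894/InertiaMem.lean
section




/-!
# S14 / H894 : membership criteria for the decomposition / inertia subgroup of a valuation
subring of `ℚ̄`, in terms of the prime of `ℤ̄` below it.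
-/

set_option autoImplicit false
set_option linter.style.haveILetI false

open scoped Pointwise

namespace Fermat.Agent.S14.H894

open Fermat.Agent.S54

local notation "Qb" => AlgebraicClosure ℚ
local notation "GQ" => (AlgebraicClosure ℚ ≃ₐ[ℚ] AlgebraicClosure ℚ)
local notation "Zb" => integralClosure ℤ (AlgebraicClosure ℚ)

theorem smul_mem_primeBelow_iff (A : ValuationSubring Qb) (σ : GQ)
    (hQ : σ • primeBelow A = primeBelow A) (x : Zb) :
    σ • x ∈ primeBelow A ↔ x ∈ primeBelow A := by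
  conv_lhs => rw [← hQ]
  exact Ideal.smul_mem_pointwise_smul_iff

theorem map_mem_of_smul_primeBelow (A : ValuationSubring Qb) (ℓ : ℕ) (hℓ : ℓ.Prime)
    (hA : A.LiesOverPrime ℓ) (τ : GQ)
    (hτ : ∀ x : Zb, τ • x ∈ primeBelow A ↔ x ∈ primeBelow A) (x : Qb) (hx : x ∈ A) :
    τ x ∈ A := by
  haveI : Algebra.IsAlgebraic ℚ Qb := AlgebraicClosure.isAlgebraic ℚ
  obtain ⟨b, s, hb, hs, hsA, hxs⟩ := (mem_valuationSubring_iff A ℓ hℓ hA x).mp hx
  refine (mem_valuationSubring_iff A ℓ hℓ hA (τ x)).mpr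
    ⟨τ b, τ s, hb.map τ, hs.map τ, ?_, ?_⟩
  · exact (hτ ⟨s, hs⟩).not.mpr hsA
  · rw [← map_mul, hxs]

/-- An automorphism stabilising the prime of `ℤ̄` below `A` lies in the decomposition group. -/
theorem mem_decompositionSubgroup_of_smul_primeBelow (A : ValuationSubring Qb) (ℓ : ℕ)
    (hℓ : ℓ.Prime) (hA : A.LiesOverPrime ℓ) (σ : GQ)
    (hQ : σ • primeBelow A = primeBelow A) : σ ∈ A.decompositionSubgroup ℚ := by
  have hσQ := smul_mem_primeBelow_iff A σ hQ
  rw [MulAction.mem_stabilizer_iff]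
  ext x
  rw [ValuationSubring.mem_smul_pointwise_iff_exists]
  constructor
  · rintro ⟨s, hs, rfl⟩
    exact map_mem_of_smul_primeBelow A ℓ hℓ hA σ hσQ s hs
  · intro hx
    refine ⟨σ⁻¹ • x, map_mem_of_smul_primeBelow A ℓ hℓ hA σ⁻¹ ?_ x hx, by simp⟩
    intro y
    rw [← hσQ (σ⁻¹ • y)]
    simp

/-- An automorphism stabilising the prime `Q` of `ℤ̄` below `A` and acting trivially on `ℤ̄ / Q`
lies in the inertia group of `A`. -/
theorem mem_inertiaSubgroupIn_of_forall (A : ValuationSubring Qb) (ℓ : ℕ)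
    (hℓ : ℓ.Prime) (hA : A.LiesOverPrime ℓ) (σ : GQ)
    (hQ : σ • primeBelow A = primeBelow A)
    (h : ∀ x : Zb, σ • x - x ∈ primeBelow A) : σ ∈ A.inertiaSubgroupIn ℚ := by
  haveI : Algebra.IsAlgebraic ℚ Qb := AlgebraicClosure.isAlgebraic ℚ
  have hσA := mem_decompositionSubgroup_of_smul_primeBelow A ℓ hℓ hA σ hQ
  have hσQ := smul_mem_primeBelow_iff A σ hQ
  refine ⟨⟨σ, hσA⟩, ?_, rfl⟩
  show (⟨σ, hσA⟩ : A.decompositionSubgroup ℚ) ∈ MonoidHom.ker _
  rw [MonoidHom.mem_ker]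
  ext x
  show (⟨σ, hσA⟩ : A.decompositionSubgroup ℚ) • x = x
  obtain ⟨a, rfl⟩ := IsLocalRing.residue_surjective x
  obtain ⟨b, s, hb, hs, hsA, hxs⟩ := (mem_valuationSubring_iff A ℓ hℓ hA a).mp a.2
  have hbA : b ∈ A := isIntegral_mem_valuationSubring A hb
  have hsA' : s ∈ A := isIntegral_mem_valuationSubring A hs
  have hint : ∀ (y : Qb) (hy : IsIntegral ℤ y),
      (⟨σ, hσA⟩ : A.decompositionSubgroup ℚ) •
        IsLocalRing.residue A ⟨y, isIntegral_mem_valuationSubring A hy⟩ =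
      IsLocalRing.residue A ⟨y, isIntegral_mem_valuationSubring A hy⟩ := by
    intro y hy
    rw [← IsLocalRing.ResidueField.residue_smul, ← sub_eq_zero, ← map_sub,
      IsLocalRing.residue_eq_zero_iff, ← ValuationSubring.coe_mem_nonunits_iff]
    exact h ⟨y, hy⟩
  have h1 : IsLocalRing.residue A a * IsLocalRing.residue A ⟨s, hsA'⟩ =
      IsLocalRing.residue A ⟨b, hbA⟩ := by
    rw [← map_mul]
    congr 1
    exact Subtype.ext hxs
  have h2 : IsLocalRing.residue A ⟨s, hsA'⟩ ≠ 0 := by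
    rw [Ne, IsLocalRing.residue_eq_zero_iff, ← ValuationSubring.coe_mem_nonunits_iff]
    exact hsA
  have h3 := congrArg (fun z => (⟨σ, hσA⟩ : A.decompositionSubgroup ℚ) • z) h1
  simp only [smul_mul'] at h3
  rw [hint s hs, hint b hb, ← h1] at h3
  exact mul_right_cancel₀ h2 h3

end Fermat.Agent.S14.H894

end
-- ===== PACK-END S14/H894/InertiaMem.lean

-- ===== PACK-BEGIN S30/H990/Limit.lean
section
/-
S30 top glue (helper990): the quadratic relation for every element of `G_ℚ`.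
* `adic_compactness`: a decreasing sequence of nonempty "closed" subsets of a complete ring with
  finite quotients `R ⧸ I ^ n` has a common point.
* `rel_mod_of_mul`: the quadratic relation is stable under multiplication by elements
  congruent to `1`.
* `exists_rel_of_mod`: relations modulo all `𝔪 ^ n` give an exact relation.
-/


set_option autoImplicit false

namespace Fermat.Agent.S30.H990

section Compactness

variable {R : Type*} [CommRing R] (I : Ideal R)

theorem adic_compactness [IsPrecomplete I R] (hfin : ∀ n, Finite (R ⧸ I ^ n))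
    (A : ℕ → Set R) (hne : ∀ n, (A n).Nonempty) (hanti : ∀ m n, m ≤ n → A n ⊆ A m)
    (hclosed : ∀ n a a', a ∈ A n → a' - a ∈ I ^ n → a' ∈ A n) :
    ∃ a, ∀ n, a ∈ A n := by
  classical
  -- `x` is approximable to order `n` by elements of all `A N`
  let Good : ℕ → R → Prop := fun n x => ∀ N, ∃ a ∈ A N, a - x ∈ I ^ n
  have good0 : Good 0 0 := by
    intro N
    obtain ⟨a, ha⟩ := hne N
    exact ⟨a, ha, by simp⟩
  have step : ∀ n x, Good n x → ∃ y, y - x ∈ I ^ n ∧ Good (n + 1) y := by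
    intro n x hx
    choose a ha hax using hx
    have := hfin (n + 1)
    obtain ⟨y₀, hy₀⟩ := Finite.exists_infinite_fiber
      (fun N : ℕ => Ideal.Quotient.mk (I ^ (n + 1)) (a N))
    have hinf : (((fun N : ℕ => Ideal.Quotient.mk (I ^ (n + 1)) (a N)) ⁻¹' {y₀}) : Set ℕ).Infinite :=
      Set.infinite_coe_iff.mp hy₀
    obtain ⟨N₀, hN₀⟩ := hinf.nonempty
    refine ⟨a N₀, hax N₀, fun N => ?_⟩
    obtain ⟨N', hN', hlt⟩ := hinf.exists_gt N
    refine ⟨a N', hanti N N' hlt.le (ha N'), ?_⟩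
    rw [← Ideal.Quotient.eq]
    have h1 : Ideal.Quotient.mk (I ^ (n + 1)) (a N') = y₀ := hN'
    have h2 : Ideal.Quotient.mk (I ^ (n + 1)) (a N₀) = y₀ := hN₀
    rw [h1, h2]
  let s : (n : ℕ) → {x : R // Good n x} := fun n =>
    Nat.rec (motive := fun n => {x : R // Good n x}) ⟨0, good0⟩
      (fun n prev => ⟨(step n prev.1 prev.2).choose, (step n prev.1 prev.2).choose_spec.2⟩) n
  have hs : ∀ n, (s (n + 1)).1 - (s n).1 ∈ I ^ n := fun n =>
    (step n (s n).1 (s n).2).choose_spec.1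
  have hcauchy : ∀ m n, m ≤ n → (s n).1 - (s m).1 ∈ I ^ m := by
    intro m n hmn
    induction n, hmn using Nat.le_induction with
    | base => simp
    | succ n hmn ih =>
      have h1 : (s (n + 1)).1 - (s n).1 ∈ I ^ m := Ideal.pow_le_pow_right hmn (hs n)
      have : (s (n + 1)).1 - (s m).1 = ((s (n + 1)).1 - (s n).1) + ((s n).1 - (s m).1) := by ring
      rw [this]
      exact (I ^ m).add_mem h1 ih
  obtain ⟨L, hL⟩ := IsPrecomplete.prec' (I := I) (M := R) (fun n => (s n).1) (by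
    intro m n hmn
    rw [SModEq.sub_mem, smul_eq_mul, Ideal.mul_top]
    have := hcauchy m n hmn
    rw [← neg_sub]
    exact (I ^ m).neg_mem this)
  refine ⟨L, fun n => ?_⟩
  obtain ⟨a, ha, hax⟩ := (s n).2 n
  refine hclosed n a L ha ?_
  have h1 := hL n
  rw [SModEq.sub_mem, smul_eq_mul, Ideal.mul_top] at h1
  have : L - a = -((s n).1 - L) - (a - (s n).1) := by ring
  rw [this]
  exact (I ^ n).sub_mem ((I ^ n).neg_mem h1) hax

end Compactness

section ModRel

variable {𝒪 M : Type*} [CommRing 𝒪] [AddCommGroup M] [Module 𝒪 M]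

theorem map_mem_smul_top (I : Ideal 𝒪) (f : M →ₗ[𝒪] M) {x : M}
    (hx : x ∈ I • (⊤ : Submodule 𝒪 M)) : f x ∈ I • (⊤ : Submodule 𝒪 M) := by
  refine Submodule.smul_induction_on hx ?_ ?_
  · intro r hr n _
    rw [map_smul]
    exact Submodule.smul_mem_smul hr Submodule.mem_top
  · intro x y hx hy
    rw [map_add]
    exact Submodule.add_mem _ hx hy

/-- The quadratic relation of `h` passes, modulo `I`, to `h * s` for `s ≡ 1` and `u ≡ 1`. -/
theorem rel_mod_of_mul (I : Ideal 𝒪) (h s : Module.End 𝒪 M) (t b u : 𝒪)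
    (hrel : h * h - t • h + b • (1 : Module.End 𝒪 M) = 0)
    (hs : ∀ v, s v - v ∈ I • (⊤ : Submodule 𝒪 M)) (hu : u - 1 ∈ I) (v : M) :
    (h * s) ((h * s) v) - t • (h * s) v + (b * u) • v ∈ I • (⊤ : Submodule 𝒪 M) := by
  have h0 : h (h v) - t • h v + b • v = 0 := by
    have := congrArg (fun f : Module.End 𝒪 M => f v) hrel
    simpa using this
  have key : (h * s) ((h * s) v) - t • (h * s) v + (b * u) • v
      = h (s (h v) - h v) + h (s (h (s v - v))) - t • h (s v - v) + (b * (u - 1)) • v := by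
    simp only [Module.End.mul_apply, map_sub]
    rw [← sub_eq_zero]
    rw [← h0]
    module
  rw [key]
  have m1 : s v - v ∈ I • (⊤ : Submodule 𝒪 M) := hs v
  have m2 : s (h v) - h v ∈ I • (⊤ : Submodule 𝒪 M) := hs (h v)
  refine Submodule.add_mem _ (Submodule.sub_mem _ (Submodule.add_mem _ ?_ ?_) ?_) ?_
  · exact map_mem_smul_top I h m2
  · exact map_mem_smul_top I h (map_mem_smul_top I s (map_mem_smul_top I h m1))
  · exact Submodule.smul_mem _ _ (map_mem_smul_top I h m1)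
  · exact Submodule.smul_mem_smul (I.mul_mem_left _ hu) Submodule.mem_top

end ModRel

section Exact

variable {𝒪 M G : Type*} [CommRing 𝒪] [IsLocalRing 𝒪] [IsNoetherianRing 𝒪]
  [IsPrecomplete (IsLocalRing.maximalIdeal 𝒪) 𝒪] [Finite (IsLocalRing.ResidueField 𝒪)]
  [AddCommGroup M] [Module 𝒪 M] [Module.Finite 𝒪 M] [Group G]

/-- Relations modulo all powers of the maximal ideal give an exact relation. -/
theorem exists_rel_of_mod (ρ : G →* Module.End 𝒪 M) (d : G →* 𝒪ˣ) (g : G)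
    (hmod : ∀ n : ℕ, ∃ a : 𝒪, ∀ v : M,
      ρ g (ρ g v) - a • ρ g v + ((d g : 𝒪ˣ) : 𝒪) • v
        ∈ (IsLocalRing.maximalIdeal 𝒪 ^ n) • (⊤ : Submodule 𝒪 M)) :
    ∃ a, Rel ρ d g a := by
  have hfin : ∀ n, Finite (𝒪 ⧸ IsLocalRing.maximalIdeal 𝒪 ^ n) := by
    intro n
    have : Finite (𝒪 ⧸ IsLocalRing.maximalIdeal 𝒪) :=
      (inferInstance : Finite (IsLocalRing.ResidueField 𝒪))
    exact Ideal.finite_quotient_pow (IsNoetherian.noetherian _) n
  obtain ⟨a, ha⟩ := adic_compactness (IsLocalRing.maximalIdeal 𝒪) hfin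
    (fun n => {a : 𝒪 | ∀ v : M, ρ g (ρ g v) - a • ρ g v + ((d g : 𝒪ˣ) : 𝒪) • v
        ∈ (IsLocalRing.maximalIdeal 𝒪 ^ n) • (⊤ : Submodule 𝒪 M)})
    (fun n => hmod n)
    (fun m n hmn a ha v =>
      Submodule.smul_mono_left (Ideal.pow_le_pow_right hmn) (ha v))
    (fun n a a' ha haa' v => by
      have : ρ g (ρ g v) - a' • ρ g v + ((d g : 𝒪ˣ) : 𝒪) • v
          = (ρ g (ρ g v) - a • ρ g v + ((d g : 𝒪ˣ) : 𝒪) • v) - (a' - a) • ρ g v := by
        module
      rw [this]
      exact Submodule.sub_mem _ (ha v) (Submodule.smul_mem_smul haa' Submodule.mem_top))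
  refine ⟨a, ?_⟩
  unfold Rel
  ext v
  have hv : ρ g (ρ g v) - a • ρ g v + ((d g : 𝒪ˣ) : 𝒪) • v
      ∈ ⨅ i : ℕ, (IsLocalRing.maximalIdeal 𝒪 ^ i) • (⊤ : Submodule 𝒪 M) := by
    rw [Submodule.mem_iInf]
    exact fun n => ha n v
  rw [Ideal.iInf_pow_smul_eq_bot_of_isLocalRing _ (IsLocalRing.maximalIdeal.isMaximal 𝒪).ne_top,
    Submodule.mem_bot] at hv
  simpa using hv

end Exact

end Fermat.Agent.S30.H990

end
-- ===== PACK-END S30/H990/Limit.lean

-- ===== PACK-BEGIN Lib/Cheb/H993/Glue.lean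
section



/-!
# Piece `M` of CHEB: the finite-level Frobenius density theorem from `Z`, `B0`, `A`, `D`

`frobFinite : PrimeSumStatement → PrimeCountBoundStatement → CountStatement → FrobStatement →
  FrobFiniteStatement`.
-/

set_option autoImplicit false

namespace Fermat.Agent.Lib.Cheb.H993

open NumberField
open scoped Pointwise Classical
open Fermat.Agent.Lib.Cheb

noncomputable section

variable (L : Type) [Field L] [NumberField L]

/-- The primes of `𝓞 L` above `p` whose decomposition group is exactly `X`. -/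
def primesEq (X : Subgroup (L ≃ₐ[ℚ] L)) (p : ℕ) : Set (Ideal (𝓞 L)) :=
  {P | P.IsPrime ∧ (p : 𝓞 L) ∈ P ∧ Spec.decomp L P = X}

/-- `|D_P|`. -/
def dcard (P : Ideal (𝓞 L)) : ℕ := Nat.card (Spec.decomp L P)

theorem finite_above {p : ℕ} (hp : p ≠ 0) : {P : Ideal (𝓞 L) | (p : 𝓞 L) ∈ P}.Finite := by
  refine (Ideal.finite_setOfPred_absNorm_le (S := 𝓞 L) (p ^ Module.finrank ℤ (𝓞 L))).subset ?_
  intro P hP
  have hle : Ideal.span {(p : 𝓞 L)} ≤ P := (Ideal.span_singleton_le_iff_mem P).mpr hP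
  have hdvd := Ideal.absNorm_dvd_absNorm_of_le hle
  rw [Ideal.absNorm_span_natCast] at hdvd
  exact Nat.le_of_dvd (pow_pos (Nat.pos_of_ne_zero hp) _) hdvd

theorem finite_primesEq (X : Subgroup (L ≃ₐ[ℚ] L)) {p : ℕ} (hp : p ≠ 0) :
    (primesEq L X p).Finite :=
  (finite_above L hp).subset fun _ h => h.2.1

theorem finite_primesLe (H : Subgroup (L ≃ₐ[ℚ] L)) {p : ℕ} (hp : p ≠ 0) :
    (Spec.primesLe L H p).Finite :=
  (finite_above L hp).subset fun _ h => h.2.1

/-- The weight of the subgroup `X` at `p`. -/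
def wt (X : Subgroup (L ≃ₐ[ℚ] L)) (p : ℕ) : ℕ := ∑ᶠ P ∈ primesEq L X p, dcard L P

theorem decompWeight_eq (H : Subgroup (L ≃ₐ[ℚ] L)) (p : ℕ) :
    Spec.decompWeight L H p = ∑ᶠ P ∈ Spec.primesLe L H p, dcard L P := by
  unfold Spec.decompWeight dcard
  exact finsum_set_coe_eq_finsum_mem (s := Spec.primesLe L H p)
    (f := fun P => Nat.card (Spec.decomp L P))

variable [IsGalois ℚ L]

theorem primesLe_eq_iUnion (H : Subgroup (L ≃ₐ[ℚ] L)) (p : ℕ) :
    Spec.primesLe L H p = ⋃ X ∈ (below H : Set (Subgroup (L ≃ₐ[ℚ] L))), primesEq L X p := by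
  ext P
  simp only [Spec.primesLe, primesEq, Set.mem_iUnion, Finset.mem_coe, mem_below,
    Set.mem_ofPred_eq, exists_prop]
  constructor
  · rintro ⟨h1, h2, h3⟩
    exact ⟨_, h3, h1, h2, rfl⟩
  · rintro ⟨X, hX, h1, h2, h3⟩
    exact ⟨h1, h2, h3 ▸ hX⟩

theorem decompWeight_eq_sum (H : Subgroup (L ≃ₐ[ℚ] L)) {p : ℕ} (hp : p ≠ 0) :
    Spec.decompWeight L H p = ∑ X ∈ below H, wt L X p := by
  rw [decompWeight_eq, primesLe_eq_iUnion, finsum_mem_biUnion]
  · exact finsum_mem_coe_finset (fun X => ∑ᶠ P ∈ primesEq L X p, dcard L P) (below H)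
  · intro X _ Y _ hXY
    rw [Function.onFun, Set.disjoint_left]
    intro P hPX hPY
    exact hXY (hPX.2.2.symm.trans hPY.2.2)
  · exact (below H).finite_toSet
  · intro X _
    exact finite_primesEq L X hp

theorem exists_of_wt_pos {X : Subgroup (L ≃ₐ[ℚ] L)} {p : ℕ} (h : 0 < wt L X p) :
    ∃ P : Ideal (𝓞 L), P.IsPrime ∧ (p : 𝓞 L) ∈ P ∧ Spec.decomp L P = X := by
  by_contra hcon
  have hempty : primesEq L X p = ∅ := by
    ext P
    simp only [primesEq, Set.mem_ofPred_eq, Set.mem_empty_iff_false, iff_false]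
    exact fun hP => hcon ⟨P, hP⟩
  unfold wt at h
  rw [hempty] at h
  simp at h

theorem wt_le_decompWeight_top (X : Subgroup (L ≃ₐ[ℚ] L)) {p : ℕ} (hp : p ≠ 0) :
    wt L X p ≤ Spec.decompWeight L ⊤ p := by
  rw [decompWeight_eq_sum L ⊤ hp]
  exact Finset.single_le_sum (f := fun X => wt L X p) (fun _ _ => Nat.zero_le _)
    (mem_below.mpr le_top)

/-- **Piece M.** -/
theorem frobFinite (hZ : Spec.PrimeSumStatement) (hB0 : Spec.PrimeCountBoundStatement)
    (hA : Spec.CountStatement) (hD : Spec.FrobStatement) : Spec.FrobFiniteStatement := by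
  intro L _ _ _ σ S
  haveI : Fintype (Subgroup (L ≃ₐ[ℚ] L)) := Fintype.ofFinite _
  -- bad primes
  choose BA hBA using fun H : Subgroup (L ≃ₐ[ℚ] L) => hA L H
  obtain ⟨BD, hBD⟩ := hD L
  let Bad : Finset ℕ := Finset.univ.biUnion BA
  have hBad : ∀ (H : Subgroup (L ≃ₐ[ℚ] L)) (p : ℕ), p ∉ Bad → p ∉ BA H := by
    intro H p hp hpH
    exact hp (Finset.mem_biUnion.mpr ⟨H, Finset.mem_univ _, hpH⟩)
  -- weights
  let v : Subgroup (L ≃ₐ[ℚ] L) → ℕ → ℝ := fun X p =>
    if p.Prime ∧ p ∉ Bad then (wt L X p : ℝ) else 0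
  let K : ℝ := (Module.finrank ℚ (IntermediateField.fixedField (⊤ : Subgroup (L ≃ₐ[ℚ] L))) : ℝ) *
    (Nat.card (⊤ : Subgroup (L ≃ₐ[ℚ] L)) : ℝ)
  have hv0 : ∀ X p, 0 ≤ v X p := by
    intro X p
    simp only [v]
    split_ifs
    · exact Nat.cast_nonneg _
    · exact le_rfl
  have hK0 : 0 ≤ K := by positivity
  have hvK : ∀ X p, v X p ≤ K := by
    intro X p
    simp only [v]
    split_ifs with h
    · have h1 := wt_le_decompWeight_top L X h.1.ne_zero
      have h2 := hBA ⊤ p h.1 (hBad ⊤ p h.2)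
      have h3 := hB0 (IntermediateField.fixedField (⊤ : Subgroup (L ≃ₐ[ℚ] L))) p
      have h4 : wt L X p ≤ Module.finrank ℚ (IntermediateField.fixedField
          (⊤ : Subgroup (L ≃ₐ[ℚ] L))) * Nat.card (⊤ : Subgroup (L ≃ₐ[ℚ] L)) := by
        rw [← h2] at h1
        exact h1.trans (Nat.mul_le_mul_right _ h3)
      simp only [K]
      exact_mod_cast h4
    · exact hK0
  -- the hypothesis of the induction
  have hW : ∀ H : Subgroup (L ≃ₐ[ℚ] L),
      LogAsymp (pSum (fun p => ∑ X ∈ below H, v X p)) (Nat.card H) := by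
    intro H
    set F := IntermediateField.fixedField H with hF
    obtain ⟨C, hC⟩ := hZ F
    -- full prime sum of `primeCount F`
    have h1 : LogAsymp (pSum (fun p => (Spec.primeCount F p : ℝ))) 1 := by
      refine ⟨C, fun s hs1 hs2 => ?_⟩
      rw [one_mul]
      exact hC s hs1 hs2
    -- the part supported on the bad primes
    let b : ℕ → ℝ := fun p => if p ∈ Bad then (Spec.primeCount F p : ℝ) else 0
    have hb0 : ∀ p, 0 ≤ b p := fun p => by
      simp only [b]; split_ifs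
      · exact Nat.cast_nonneg _
      · exact le_rfl
    have hbK : ∀ p, b p ≤ (Module.finrank ℚ F : ℝ) := fun p => by
      simp only [b]; split_ifs
      · exact_mod_cast hB0 F p
      · exact Nat.cast_nonneg _
    have h2 : LogAsymp (pSum b) 0 :=
      LogAsymp.zero_of_bounded (K := (Module.finrank ℚ F : ℝ) * Bad.card) fun s hs1 _ =>
        abs_pSum_le_of_support Bad hb0 hbK (fun p hp => by simp [b, hp]) hs1
    have h3 := (h1.sub h2).const_mul (Nat.card H : ℝ)
    rw [sub_zero, mul_one] at h3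
    refine h3.congr fun s hs1 _ => ?_
    -- pointwise identity of the coefficients at primes
    have hc0 : ∀ p, 0 ≤ (Spec.primeCount F p : ℝ) := fun p => Nat.cast_nonneg _
    have hcK : ∀ p, (Spec.primeCount F p : ℝ) ≤ (Module.finrank ℚ F : ℝ) := fun p => by
      exact_mod_cast hB0 F p
    have hs1' := summable_pSum hc0 hcK hs1
    have hs2' := summable_pSum hb0 hbK hs1
    unfold pSum
    rw [← Summable.tsum_sub hs1' hs2', ← tsum_mul_left]
    congr 1
    funext p
    by_cases hp : (p : ℕ) ∈ Bad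
    · have hv : ∀ X, v X p = 0 := fun X => by simp [v, hp]
      simp [hv, b, hp]
    · have hv : ∀ X, v X p = (wt L X p : ℝ) := fun X => by simp [v, hp, p.2]
      have h5 := decompWeight_eq_sum L H p.2.ne_zero
      have h6 := hBA H p p.2 (hBad H p hp)
      simp only [hv, b, hp, if_false, sub_zero]
      rw [← Nat.cast_sum, ← h5, ← h6]
      push_cast
      ring
  -- apply the induction to `X = zpowers σ`
  have hgens : 0 < gens (Subgroup.zpowers σ) := by
    unfold gens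
    haveI : Nonempty {x : L ≃ₐ[ℚ] L // Subgroup.zpowers x = Subgroup.zpowers σ} := ⟨⟨σ, rfl⟩⟩
    exact Nat.card_pos
  obtain ⟨p, hp, hpS, hpos⟩ :=
    exists_pos_of_gens_pos v K hv0 hvK hW (Subgroup.zpowers σ) hgens (S ∪ Bad ∪ BD)
  have hpS' : p ∉ S := fun h => hpS (Finset.mem_union_left _ (Finset.mem_union_left _ h))
  have hpBad : p ∉ Bad := fun h => hpS (Finset.mem_union_left _ (Finset.mem_union_right _ h))
  have hpBD : p ∉ BD := fun h => hpS (Finset.mem_union_right _ h)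
  have hwt : 0 < wt L (Subgroup.zpowers σ) p := by
    have : v (Subgroup.zpowers σ) p = (wt L (Subgroup.zpowers σ) p : ℝ) := by
      simp [v, hp, hpBad]
    rw [this] at hpos
    exact_mod_cast hpos
  obtain ⟨P, hP, hpP, hdec⟩ := exists_of_wt_pos L hwt
  obtain ⟨hin, τ, hτ, hτd⟩ := hBD p hp hpBD P hP hpP
  exact ⟨p, P, τ, hp, hpS', hP, hpP, hin, hτ, hτd.symm.trans hdec⟩

end

end Fermat.Agent.Lib.Cheb.H993

end
-- ===== PACK-END Lib/Cheb/H993/Glue.lean

-- ===== PACK-BEGIN S21/IntA.lean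
section


/-!
# S21 — INT-A: the `Γ₀(N)`-partition of unity `chi N χ₁` built from an `SL(2,ℤ)`-partition `χ₁`
-/

set_option autoImplicit false
set_option linter.unusedSectionVars false
set_option linter.style.haveILetI false

open UpperHalfPlane CongruenceSubgroup MeasureTheory
open scoped MatrixGroups ContDiff

namespace Fermat.Agent.S21

namespace IntAAux

theorem mob_mem_Uhp (g : SL(2, ℤ)) (z : ℂ) : mob g z ∈ Uhp := (g • ofComplex z).im_pos

theorem mob_mul (g h : SL(2, ℤ)) (z : ℂ) : mob (g * h) z = mob g (mob h z) := by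
  simp only [mob, ofComplex_apply, mul_smul]

theorem continuousOn_mob (g : SL(2, ℤ)) : ContinuousOn (mob g) Uhp := by
  intro z hz
  have h1 : ContinuousAt (ofComplex : ℂ → ℍ) z := (contMDiffAt_ofComplex (n := 0) hz).continuousAt
  have h2 : ContinuousAt (fun w : ℍ => g • w) (ofComplex z) :=
    (continuous_const_smul (g : GL (Fin 2) ℝ)).continuousAt
  have h3 : ContinuousAt (fun w : ℍ => (w : ℂ)) (g • ofComplex z) :=
    UpperHalfPlane.continuous_coe.continuousAt
  have h4 : ContinuousAt (fun w : ℂ => g • ofComplex w) z :=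
    ContinuousAt.comp (f := (ofComplex : ℂ → ℍ)) (g := fun w : ℍ => g • w) h2 h1
  exact (ContinuousAt.comp (f := fun w : ℂ => g • ofComplex w)
    (g := fun w : ℍ => (w : ℂ)) h3 h4).continuousWithinAt

/-- The support of `g ↦ χ₁ (mob g z)` is finite. -/
theorem finite_support (χ₁ : ℂ → ℝ) (hχ : IsSL2ZPartition χ₁) (z : ℂ) (hz : z ∈ Uhp) :
    (Function.support fun g : SL(2, ℤ) => χ₁ (mob g z)).Finite := by
  refine (hχ.locfin {z} isCompact_singleton (by simpa using hz)).subset ?_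
  intro g hg
  exact ⟨z, rfl, hg⟩

/-- `chi` on the upper half plane. -/
theorem chi_of_mem (N : ℕ) (χ₁ : ℂ → ℝ) {z : ℂ} (hz : z ∈ Uhp) :
    chi N χ₁ z = ∑ᶠ q : SL(2, ℤ) ⧸ Gamma0 N, χ₁ (mob (Quotient.out q) z) := by
  unfold chi
  rw [Set.indicator_of_mem hz]

theorem chi_of_notMem (N : ℕ) (χ₁ : ℂ → ℝ) {z : ℂ} (hz : z ∉ Uhp) :
    chi N χ₁ z = 0 := by
  unfold chi
  rw [Set.indicator_of_notMem hz]

/-- The bijection `(γ, q) ↦ q.out * γ`. -/
noncomputable def prodEquiv (Γ : Subgroup SL(2, ℤ)) : Γ × (SL(2, ℤ) ⧸ Γ) ≃ SL(2, ℤ) where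
  toFun p := Quotient.out p.2 * (p.1 : SL(2, ℤ))
  invFun g := (⟨(Quotient.out (QuotientGroup.mk g : SL(2, ℤ) ⧸ Γ))⁻¹ * g, by
      rw [← QuotientGroup.eq]
      exact QuotientGroup.out_eq' _⟩, QuotientGroup.mk g)
  left_inv := by
    rintro ⟨γ, q⟩
    have h : (QuotientGroup.mk (Quotient.out q * (γ : SL(2, ℤ))) : SL(2, ℤ) ⧸ Γ) = q := by
      rw [QuotientGroup.mk_mul_of_mem _ γ.2]
      exact QuotientGroup.out_eq' q
    ext1
    · apply Subtype.ext
      simp only [h]
      group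
    · exact h
  right_inv := by
    intro g
    simp

theorem prodEquiv_apply (Γ : Subgroup SL(2, ℤ)) (γ : Γ) (q : SL(2, ℤ) ⧸ Γ) :
    prodEquiv Γ (γ, q) = Quotient.out q * (γ : SL(2, ℤ)) := rfl

end IntAAux

open IntAAux

section INT

variable (N : ℕ) [NeZero N] {χ₁ : ℂ → ℝ}

theorem chi_nonneg (hχ : IsSL2ZPartition χ₁) (z : ℂ) : 0 ≤ chi N χ₁ z := by
  unfold chi
  exact Set.indicator_nonneg (fun w _ => finsum_nonneg fun q => hχ.nonneg _) z

theorem chi_le_one (hχ : IsSL2ZPartition χ₁) (z : ℂ) : chi N χ₁ z ≤ 1 := by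
  by_cases hz : z ∈ Uhp
  · rw [chi_of_mem N χ₁ hz, ← hχ.sum_eq_one z hz]
    have hfin := finite_support χ₁ hχ z hz
    -- rewrite the left-hand side as a sum over `SL(2,ℤ)` supported on the range of `Quotient.out`
    classical
    have hinj : Function.Injective (Quotient.out : SL(2, ℤ) ⧸ Gamma0 N → SL(2, ℤ)) :=
      Quotient.out_injective
    have h1 : ∑ᶠ q : SL(2, ℤ) ⧸ Gamma0 N, χ₁ (mob (Quotient.out q) z)
        = ∑ᶠ g ∈ Set.range (Quotient.out : SL(2, ℤ) ⧸ Gamma0 N → SL(2, ℤ)), χ₁ (mob g z) :=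
      (finsum_mem_range (f := fun g : SL(2, ℤ) => χ₁ (mob g z)) hinj).symm
    rw [h1, finsum_mem_def]
    refine finsum_le_finsum' ?_ hfin (fun g => ?_)
    · refine hfin.subset fun g hg => ?_
      simp only [Function.mem_support, ne_eq] at hg ⊢
      intro h0
      apply hg
      rw [Set.indicator_apply, h0, ite_self]
    · show Set.indicator _ _ g ≤ _
      rw [Set.indicator_apply]
      split_ifs
      · exact le_rfl
      · exact hχ.nonneg _
  · rw [chi_of_notMem N χ₁ hz]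
    exact zero_le_one

theorem continuousOn_chi (hχ : IsSL2ZPartition χ₁) : ContinuousOn (chi N χ₁) Uhp := by
  haveI : Finite (SL(2, ℤ) ⧸ Gamma0 N) := Subgroup.finite_quotient_of_finiteIndex
  letI : Fintype (SL(2, ℤ) ⧸ Gamma0 N) := Fintype.ofFinite _
  have h : ContinuousOn
      (fun z => ∑ q : SL(2, ℤ) ⧸ Gamma0 N, χ₁ (mob (Quotient.out q) z)) Uhp := by
    refine continuousOn_finsetSum _ fun q _ => ?_
    exact hχ.smooth.continuousOn.comp (continuousOn_mob _) fun z _ => mob_mem_Uhp _ z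
  refine h.congr fun z hz => ?_
  rw [chi_of_mem N χ₁ hz, finsum_eq_sum_of_fintype]

theorem measurable_chi (hχ : IsSL2ZPartition χ₁) : Measurable (chi N χ₁) := by
  classical
  have h1 : chi N χ₁ = Uhp.piecewise (chi N χ₁) (fun _ => (0 : ℝ)) := by
    funext z
    by_cases hz : z ∈ Uhp
    · rw [Set.piecewise_eq_of_mem _ _ _ hz]
    · rw [Set.piecewise_eq_of_notMem _ _ _ hz, chi_of_notMem N χ₁ hz]
  rw [h1]
  exact (continuousOn_chi N hχ).measurable_piecewise continuousOn_const isOpen_Uhp.measurableSet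

theorem chi_locfin (hχ : IsSL2ZPartition χ₁) (K : Set ℂ) (hK : IsCompact K) (hKU : K ⊆ Uhp) :
    {γ : Gamma0 N | ∃ z ∈ K, chi N χ₁ (mob (γ : SL(2, ℤ)) z) ≠ 0}.Finite := by
  haveI : Finite (SL(2, ℤ) ⧸ Gamma0 N) := Subgroup.finite_quotient_of_finiteIndex
  have hF := hχ.locfin K hK hKU
  -- the finite set of all `q.out⁻¹ * g`, `g ∈ F`
  have hfin : (Set.image2 (fun (q : SL(2, ℤ) ⧸ Gamma0 N) (g : SL(2, ℤ)) => (Quotient.out q)⁻¹ * g)
      Set.univ {g : SL(2, ℤ) | ∃ z ∈ K, χ₁ (mob g z) ≠ 0}).Finite :=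
    Set.Finite.image2 _ Set.finite_univ hF
  refine Set.Finite.of_finite_image (f := fun γ : Gamma0 N => (γ : SL(2, ℤ)))
    (hfin.subset ?_) Subtype.val_injective.injOn
  rintro _ ⟨γ, ⟨z, hzK, hz⟩, rfl⟩
  rw [chi_of_mem N χ₁ (mob_mem_Uhp _ z)] at hz
  obtain ⟨q, hq⟩ : ∃ q : SL(2, ℤ) ⧸ Gamma0 N,
      χ₁ (mob (Quotient.out q) (mob (γ : SL(2, ℤ)) z)) ≠ 0 := by
    by_contra hcon
    push Not at hcon
    exact hz (by simp [hcon])
  refine ⟨q, Set.mem_univ _, Quotient.out q * (γ : SL(2, ℤ)), ⟨z, hzK, ?_⟩, by group⟩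
  rwa [mob_mul]

theorem chi_sum_eq_one (hχ : IsSL2ZPartition χ₁) (z : ℂ) (hz : z ∈ Uhp) :
    ∑ᶠ γ : Gamma0 N, chi N χ₁ (mob (γ : SL(2, ℤ)) z) = 1 := by
  have hfin := finite_support χ₁ hχ z hz
  have h1 : ∀ γ : Gamma0 N, chi N χ₁ (mob (γ : SL(2, ℤ)) z)
      = ∑ᶠ q : SL(2, ℤ) ⧸ Gamma0 N, χ₁ (mob (prodEquiv (Gamma0 N) (γ, q)) z) := by
    intro γ
    rw [chi_of_mem N χ₁ (mob_mem_Uhp _ z)]
    refine finsum_congr fun q => ?_
    rw [prodEquiv_apply, mob_mul]
  simp only [h1]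
  have hfin' : (Function.support fun p : Gamma0 N × (SL(2, ℤ) ⧸ Gamma0 N) =>
      χ₁ (mob (prodEquiv (Gamma0 N) p) z)).Finite := by
    have : (Function.support fun p : Gamma0 N × (SL(2, ℤ) ⧸ Gamma0 N) =>
        χ₁ (mob (prodEquiv (Gamma0 N) p) z))
        = (prodEquiv (Gamma0 N)) ⁻¹' (Function.support fun g : SL(2, ℤ) => χ₁ (mob g z)) := rfl
    rw [this]
    exact hfin.preimage (prodEquiv (Gamma0 N)).injective.injOn
  rw [← finsum_curry (fun p : Gamma0 N × (SL(2, ℤ) ⧸ Gamma0 N) =>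
      χ₁ (mob (prodEquiv (Gamma0 N) p) z)) hfin']
  rw [finsum_comp_equiv (prodEquiv (Gamma0 N)) (f := fun g : SL(2, ℤ) => χ₁ (mob g z))]
  exact hχ.sum_eq_one z hz

end INT

end Fermat.Agent.S21

end
-- ===== PACK-END S21/IntA.lean

-- ===== PACK-BEGIN S22/H262/Cocycle2.lean
section


set_option autoImplicit false

/-!
# Further properties of the Eichler cocycle: upper triangular matrices, additivity
-/

open Complex Filter Function Metric Set
open UpperHalfPlane hiding I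
open scoped Real Topology Manifold ModularForm MatrixGroups

namespace Fermat.Agent.S22.H262

theorem bigG_add (n : ℕ) (E₁ E₂ : ℕ → ℍ → ℂ) (z : ℍ) (v : ℂ × ℂ) :
    bigG n (E₁ + E₂) z v = bigG n E₁ z v + bigG n E₂ z v := by
  simp only [bigG, Pi.add_apply, ← Finset.sum_add_distrib]
  refine Finset.sum_congr rfl fun j _ => ?_
  ring

theorem bigG_smul (n : ℕ) (c : ℂ) (E : ℕ → ℍ → ℂ) (z : ℍ) (v : ℂ × ℂ) :
    bigG n (c • E) z v = c * bigG n E z v := by
  simp only [bigG, Pi.smul_apply, smul_eq_mul, Finset.mul_sum]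
  refine Finset.sum_congr rfl fun j _ => ?_
  ring

theorem bigG_zero (n : ℕ) (z : ℍ) (v : ℂ × ℂ) : bigG n 0 z v = 0 := by
  simp [bigG]

theorem bigG_sum {ι : Type*} (n : ℕ) (s : Finset ι) (E : ι → ℕ → ℍ → ℂ) (z : ℍ) (v : ℂ × ℂ) :
    bigG n (∑ i ∈ s, E i) z v = ∑ i ∈ s, bigG n (E i) z v := by
  classical
  induction s using Finset.induction_on with
  | empty => simp [bigG_zero]
  | insert a s ha ih => rw [Finset.sum_insert ha, Finset.sum_insert ha, bigG_add, ih]

/-- On the "diagonal" `v = (z y, y)` only the top term of `bigG` survives. -/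
theorem bigG_diag (n : ℕ) (E : ℕ → ℍ → ℂ) (z : ℍ) (y : ℂ) :
    bigG n E z ((z : ℂ) * y, y) = (n.factorial : ℂ) * E (n + 1) z * y ^ n := by
  unfold bigG
  rw [Finset.sum_range_succ, Finset.sum_eq_zero]
  · simp [Nat.descFactorial_self]
  · intro j hj
    have hj' : j < n := Finset.mem_range.mp hj
    have : n - j ≠ 0 := by omega
    simp [this]

theorem cocyc_add (n : ℕ) {h₁ h₂ : ℍ → ℂ} (A : GL (Fin 2) ℝ) (h1 : HasTower h₁)
    (h2 : HasTower h₂) (h1A : HasTower (h₁ ∣[(n : ℤ) + 2] A))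
    (h2A : HasTower (h₂ ∣[(n : ℤ) + 2] A)) (v : ℂ × ℂ) :
    cocyc n (h₁ + h₂) A v = cocyc n h₁ A v + cocyc n h₂ A v := by
  unfold cocyc
  rw [SlashAction.add_slash, tower_add h1 h2, tower_add h1A h2A, bigG_add, bigG_add]
  ring

theorem cocyc_smul (n : ℕ) {h : ℍ → ℂ} (A : GL (Fin 2) ℝ) (hA : 0 < A.det.val)
    (hh : HasTower h) (hhA : HasTower (h ∣[(n : ℤ) + 2] A)) (c : ℂ) (v : ℂ × ℂ) :
    cocyc n (c • h) A v = c * cocyc n h A v := by
  unfold cocyc
  have hs : (c • h) ∣[(n : ℤ) + 2] A = c • (h ∣[(n : ℤ) + 2] A) := by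
    rw [ModularForm.smul_slash, UpperHalfPlane.σ, if_pos hA]
    rfl
  rw [hs, tower_smul hh, tower_smul hhA, bigG_smul, bigG_smul]
  ring

theorem cocyc_sum {ι : Type*} (n : ℕ) (s : Finset ι) (h : ι → ℍ → ℂ) (A : GL (Fin 2) ℝ)
    (hh : ∀ i ∈ s, HasTower (h i)) (hhA : ∀ i ∈ s, HasTower (h i ∣[(n : ℤ) + 2] A))
    (v : ℂ × ℂ) :
    cocyc n (∑ i ∈ s, h i) A v = ∑ i ∈ s, cocyc n (h i) A v := by
  unfold cocyc
  rw [SlashAction.sum_slash, (tower_sum s h hh).2,
    (tower_sum s (fun i => h i ∣[(n : ℤ) + 2] A) hhA).2, bigG_sum, bigG_sum,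
    ← Finset.sum_sub_distrib]

/-- The explicit tower of `h ∣[k] δ` for an upper triangular `δ` with positive determinant. -/
theorem IsTower.slash_upper (n : ℕ) {h : ℍ → ℂ} {E : ℕ → ℍ → ℂ} (hE : IsTower h E)
    (δ : GL (Fin 2) ℝ) (hδ : 0 < δ.det.val) (h10 : δ 1 0 = 0) :
    IsTower (h ∣[(n : ℤ) + 2] δ) (fun r z =>
      (δ.det.val : ℂ) ^ (n + 1) * ((δ 1 1 : ℝ) : ℂ)⁻¹ ^ (n + 2) *
        (((δ 1 1 : ℝ) : ℂ) ^ 2 / (δ.det.val : ℂ)) ^ r * E r (δ • z)) where
  zero := by
    funext z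
    rw [ModularForm.slash_apply, UpperHalfPlane.σ, if_pos hδ]
    simp only [ContinuousAlgEquiv.refl_apply, abs_of_pos hδ, pow_zero, mul_one, hE.zero]
    have e1 : ((n : ℤ) + 2 - 1) = ((n + 1 : ℕ) : ℤ) := by push_cast; ring
    have e2 : -((n : ℤ) + 2) = -((n + 2 : ℕ) : ℤ) := by push_cast; ring
    have hden : denom δ z = ((δ 1 1 : ℝ) : ℂ) := by simp [denom, h10]
    rw [e1, e2, zpow_natCast, zpow_neg, zpow_natCast, hden, inv_pow]
    ring
  hasDeriv r z := by
    have h1 : HasDerivAt (E (r + 1) ∘ ofComplex) (E r (δ • z)) ((δ • z : ℍ) : ℂ) :=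
      hE.hasDeriv r (δ • z)
    have h2 : HasDerivAt (fun w : ℂ => ((δ • ofComplex w : ℍ) : ℂ))
        (δ.det.val / denom δ z ^ 2) (z : ℂ) := (hasStrictDerivAt_smul hδ z).hasDerivAt
    have h3 := h1.comp_of_eq (x := (z : ℂ)) h2 (by simp)
    have h4 := h3.const_mul ((δ.det.val : ℂ) ^ (n + 1) * ((δ 1 1 : ℝ) : ℂ)⁻¹ ^ (n + 2) *
        (((δ 1 1 : ℝ) : ℂ) ^ 2 / (δ.det.val : ℂ)) ^ (r + 1))
    have hden : denom δ z = ((δ 1 1 : ℝ) : ℂ) := by simp [denom, h10]
    have hdet : (δ.det.val : ℂ) ≠ 0 := by exact_mod_cast hδ.ne'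
    have hd : ((δ 1 1 : ℝ) : ℂ) ≠ 0 := by
      rw [← hden]
      exact denom_ne_zero δ z
    refine (h4.congr_deriv ?_).congr_of_eventuallyEq ?_
    · rw [hden, pow_succ (((δ 1 1 : ℝ) : ℂ) ^ 2 / (δ.det.val : ℂ)) r]
      field_simp
    · filter_upwards with w
      simp [Function.comp_def]
  isZero r := by
    have h1 : Tendsto (fun z : ℍ => E (r + 1) (δ • z)) atImInfty (𝓝 0) :=
      (hE.isZero r).comp (tendsto_smul_atImInfty h10)
    have h2 := h1.const_mul ((δ.det.val : ℂ) ^ (n + 1) * ((δ 1 1 : ℝ) : ℂ)⁻¹ ^ (n + 2) *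
        (((δ 1 1 : ℝ) : ℂ) ^ 2 / (δ.det.val : ℂ)) ^ (r + 1))
    rw [mul_zero] at h2
    exact h2

theorem HasTower.slash_upper (n : ℕ) {h : ℍ → ℂ} (hh : HasTower h)
    (δ : GL (Fin 2) ℝ) (hδ : 0 < δ.det.val) (h10 : δ 1 0 = 0) :
    HasTower (h ∣[(n : ℤ) + 2] δ) :=
  ⟨_, hh.isTower.slash_upper n δ hδ h10⟩

/-- The cocycle vanishes on upper triangular matrices. -/
theorem cocyc_upper (n : ℕ) {h : ℍ → ℂ} (hh : HasTower h)
    (δ : GL (Fin 2) ℝ) (hδ : 0 < δ.det.val) (h10 : δ 1 0 = 0) (v : ℂ × ℂ) :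
    cocyc n h δ v = 0 := by
  unfold cocyc
  rw [(hh.isTower.slash_upper n δ hδ h10).tower_eq, sub_eq_zero]
  unfold bigG
  refine Finset.sum_congr rfl fun j hj => ?_
  have hj' : j ≤ n := Nat.lt_succ_iff.mp (Finset.mem_range.mp hj)
  have hden : denom δ UpperHalfPlane.I = ((δ 1 1 : ℝ) : ℂ) := by simp [denom, h10]
  have hdet : (δ.det.val : ℂ) ≠ 0 := by exact_mod_cast hδ.ne'
  have hd : ((δ 1 1 : ℝ) : ℂ) ≠ 0 := by
    rw [← hden]
    exact denom_ne_zero δ _
  rw [actV_sub δ hδ, hden]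
  have hv2 : (actV δ v).2 = ((δ 1 1 : ℝ) : ℂ) * v.2 := by simp [actV, h10]
  rw [hv2]
  obtain ⟨m, rfl⟩ : ∃ m, n = j + m := ⟨n - j, by omega⟩
  simp only [Nat.add_sub_cancel_left, div_pow, mul_pow, inv_pow]
  field_simp
  ring

end Fermat.Agent.S22.H262

end
-- ===== PACK-END S22/H262/Cocycle2.lean

-- ===== PACK-BEGIN S24/Mod/H997Bridge.lean
section


/-!
# S24 / MOD — analytic interface (`HolBase`) and the bridge `e : R_N → Hol`

`HolBase N` packages a ring `Hol` of functions `ℍ → ℂ` (intended: holomorphic functions on `ℍ`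
invariant under `Γ(N)` and meromorphic at the cusps), stable under the action of `SL(2,ℤ)`,
containing the functions `J d = (τ ↦ j(dτ))` for `d ∣ N`, together with ONE injective expansion
ring hom `qexp : Hol →+* ℂ((z))` (intended: expansion at `i∞` in `z = q^{1/N}`) such that the
expansion of `J d` is the formal series `jq(z^{N d})` of the Prelude.

From this we construct the *bridge* `e : R_N →+* Hol` (injective, `e (j(q^d)) = J d`,
`e c = const (ι c)`), i.e. "formal relation ⇔ analytic relation".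
-/

set_option autoImplicit false

noncomputable section

open ModularCurve HahnSeries UpperHalfPlane
open scoped MatrixGroups

namespace Fermat.Agent.S24.H997

/-- Precomposition of a function on `ℍ` with the action of `g ∈ SL(2,ℤ)`. -/
def compSL (g : SL(2, ℤ)) (f : ℍ → ℂ) : ℍ → ℂ := fun τ => f (g • τ)

@[simp] theorem compSL_apply (g : SL(2, ℤ)) (f : ℍ → ℂ) (τ : ℍ) : compSL g f τ = f (g • τ) := rfl

theorem compSL_one (f : ℍ → ℂ) : compSL 1 f = f := by
  funext τ; simp [compSL]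

theorem compSL_mul (g h : SL(2, ℤ)) (f : ℍ → ℂ) : compSL (g * h) f = compSL h (compSL g f) := by
  funext τ; simp [compSL, mul_smul]

/-- The fixed embedding `ℚ̄ → ℂ`. -/
def ιKAlg : Kbar →ₐ[ℚ] ℂ :=
  haveI : Algebra.IsAlgebraic ℚ (AlgebraicClosure ℚ) := AlgebraicClosure.isAlgebraic ℚ
  IsAlgClosed.lift

/-- The fixed embedding `ℚ̄ → ℂ`. -/
def ιK : Kbar →+* ℂ := ιKAlg.toRingHom

theorem ιK_injective : Function.Injective ιK := ιK.injective

theorem ιK_algebraMap (c : ℚ) : ιK (algebraMap ℚ Kbar c) = (c : ℂ) := by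
  have := ιKAlg.commutes c
  simpa [ιK] using this

/-- Basic analytic interface. -/
structure HolBase (N : ℕ) [NeZero N] where
  /-- the ring of nice functions on `ℍ` -/
  Hol : Subring (ℍ → ℂ)
  const_mem : ∀ c : ℂ, (fun _ : ℍ => c) ∈ Hol
  comp_mem : ∀ (g : SL(2, ℤ)) (f : ℍ → ℂ), f ∈ Hol → compSL g f ∈ Hol
  /-- `J d τ = j(dτ)` -/
  J : ℕ → ℍ → ℂ
  J_mem : ∀ d, d ∣ N → J d ∈ Hol
  J_one_inv : ∀ (g : SL(2, ℤ)) (τ : ℍ), J 1 (g • τ) = J 1 τ
  J_inv : ∀ d, d ∣ N → ∀ g ∈ CongruenceSubgroup.Gamma0 N, ∀ τ : ℍ, J d (g • τ) = J d τ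
  J_distinct : ∀ g : SL(2, ℤ), (∀ τ : ℍ, J N (g • τ) = J N τ) → g ∈ CongruenceSubgroup.Gamma0 N
  /-- expansion at `i∞` in the variable `z = q^{1/N}` -/
  qexp : Hol →+* LaurentSeries ℂ
  qexp_injective : Function.Injective qexp
  qexp_const : ∀ c : ℂ, qexp ⟨_, const_mem c⟩ = HahnSeries.C c
  qexp_J : ∀ (d : ℕ) (hd : d ∣ N) (k : ℤ),
    (qexp ⟨J d, J_mem d hd⟩).coeff k
      = if ((N * d : ℕ) : ℤ) ∣ k then ((jq.coeff (k / ((N * d : ℕ) : ℤ)) : ℚ) : ℂ) else 0

namespace HolBase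

variable {N : ℕ} [NeZero N] (B : HolBase N)

/-- constant functions as elements of `Hol` -/
def constH (c : ℂ) : B.Hol := ⟨_, B.const_mem c⟩

/-- `J d` as an element of `Hol` -/
def JH (d : ℕ) (hd : d ∣ N) : B.Hol := ⟨B.J d, B.J_mem d hd⟩

/-- precomposition with `g ∈ SL(2,ℤ)` as a ring endomorphism of `Hol` -/
def compH (g : SL(2, ℤ)) : B.Hol →+* B.Hol where
  toFun h := ⟨compSL g h.1, B.comp_mem g h.1 h.2⟩
  map_one' := rfl
  map_mul' _ _ := rfl
  map_zero' := rfl
  map_add' _ _ := rfl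

@[simp] theorem compH_apply (g : SL(2, ℤ)) (h : B.Hol) (τ : ℍ) :
    (B.compH g h : ℍ → ℂ) τ = (h : ℍ → ℂ) (g • τ) := rfl

theorem compH_one (h : B.Hol) : B.compH 1 h = h := by
  apply Subtype.ext; funext τ; simp

theorem compH_mul (g g' : SL(2, ℤ)) (h : B.Hol) :
    B.compH (g * g') h = B.compH g' (B.compH g h) := by
  apply Subtype.ext; funext τ; simp [mul_smul]

theorem compH_injective (g : SL(2, ℤ)) : Function.Injective (B.compH g) := by
  intro h h' hh
  have := congrArg (B.compH g⁻¹) hh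
  rwa [← compH_mul, ← compH_mul, mul_inv_cancel, compH_one, compH_one] at this

theorem compH_constH (g : SL(2, ℤ)) (c : ℂ) : B.compH g (B.constH c) = B.constH c := rfl

theorem compH_JH_one (g : SL(2, ℤ)) : B.compH g (B.JH 1 (one_dvd N)) = B.JH 1 (one_dvd N) := by
  apply Subtype.ext; funext τ; exact B.J_one_inv g τ

theorem compH_JH_of_mem (d : ℕ) (hd : d ∣ N) {g : SL(2, ℤ)}
    (hg : g ∈ CongruenceSubgroup.Gamma0 N) : B.compH g (B.JH d hd) = B.JH d hd := by
  apply Subtype.ext; funext τ; exact B.J_inv d hd g hg τ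

/-- The formal comparison map `ℚ̄((q)) → ℂ((z))`, `q ↦ z^N`, coefficients via `ιK`. -/
def Φ (N : ℕ) [NeZero N] : LaurentSeries Kbar →+* LaurentSeries ℂ :=
  (qExpand ℂ N).comp (coeffMap ιK)

theorem Φ_injective : Function.Injective (Φ N) := by
  intro x y h
  have h1 : coeffMap ιK x = coeffMap ιK y := qExpand_injective N h
  ext k
  apply ιK_injective
  have := congrArg (fun s => s.coeff k) h1
  simpa using this

theorem Φ_coeff (x : LaurentSeries Kbar) (k : ℤ) :
    (Φ N x).coeff k = if (N : ℤ) ∣ k then ιK (x.coeff (k / N)) else 0 := by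
  split_ifs with h
  · obtain ⟨m, rfl⟩ := h
    have hN : (N : ℤ) ≠ 0 := by exact_mod_cast NeZero.ne N
    rw [Int.mul_ediv_cancel_left _ hN]
    show (qExpand ℂ N (coeffMap ιK x)).coeff (N * m) = _
    rw [qExpand_coeff_mul]; rfl
  · exact qExpand_coeff_of_not_dvd N _ h

theorem Φ_algebraMap (c : Kbar) :
    Φ N (algebraMap Kbar (LaurentSeries Kbar) c) = HahnSeries.C (ιK c) := by
  rw [algebraMap_laurentSeries_eq_single]
  show qExpand ℂ N (coeffMap ιK (HahnSeries.single 0 c)) = _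
  rw [coeffMap_single, qExpand_single, mul_zero]; rfl

theorem Φ_gen (d : ℕ) [NeZero d] (hd : d ∣ N) :
    Φ N (coeffEmb Kbar (qExpand ℚ d jq)) = B.qexp (B.JH d hd) := by
  ext k
  rw [Φ_coeff]
  show _ = (B.qexp ⟨B.J d, B.J_mem d hd⟩).coeff k
  rw [B.qexp_J d hd k]
  have hN : (N : ℤ) ≠ 0 := by exact_mod_cast NeZero.ne N
  have hd0 : (d : ℤ) ≠ 0 := by exact_mod_cast NeZero.ne d
  by_cases h1 : (N : ℤ) ∣ k
  · obtain ⟨m, rfl⟩ := h1
    rw [if_pos (dvd_mul_right _ _), Int.mul_ediv_cancel_left _ hN, coeffEmb_coeff, ιK_algebraMap]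
    by_cases h2 : (d : ℤ) ∣ m
    · obtain ⟨l, rfl⟩ := h2
      have h3 : ((N * d : ℕ) : ℤ) ∣ (N : ℤ) * (d * l) := ⟨l, by push_cast; ring⟩
      rw [if_pos h3, qExpand_coeff_mul]
      have : (N : ℤ) * (d * l) / ((N * d : ℕ) : ℤ) = l := by
        have h4 : (N : ℤ) * (d * l) = ((N * d : ℕ) : ℤ) * l := by push_cast; ring
        rw [h4, Int.mul_ediv_cancel_left]
        exact_mod_cast (Nat.mul_ne_zero (NeZero.ne N) (NeZero.ne d))
      rw [this]
    · have h3 : ¬ ((N * d : ℕ) : ℤ) ∣ (N : ℤ) * m := by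
        rintro ⟨l, hl⟩
        apply h2
        refine ⟨l, ?_⟩
        have : (N : ℤ) * m = N * (d * l) := by rw [hl]; push_cast; ring
        exact mul_left_cancel₀ hN this
      rw [if_neg h3, qExpand_coeff_of_not_dvd d _ h2]
      simp
  · have h3 : ¬ ((N * d : ℕ) : ℤ) ∣ k := by
      intro h; apply h1
      exact dvd_trans ⟨(d : ℤ), by push_cast; ring⟩ h
    rw [if_neg h1, if_neg h3]

theorem Φ_mem_range {r : LaurentSeries Kbar} (hr : r ∈ RN N) : Φ N r ∈ B.qexp.range := by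
  induction hr using Algebra.adjoin_induction with
  | mem x hx =>
      obtain ⟨y, ⟨d, hne, hd, rfl⟩, rfl⟩ := hx
      exact ⟨B.JH d hd, (B.Φ_gen d hd).symm⟩
  | algebraMap c =>
      exact ⟨B.constH (ιK c), by rw [Φ_algebraMap]; exact B.qexp_const _⟩
  | add _ _ _ _ hx hy => rw [_root_.map_add]; exact add_mem hx hy
  | mul _ _ _ _ hx hy => rw [_root_.map_mul]; exact mul_mem hx hy

/-- `Hol ≃ range qexp`. -/
def qexpEquiv : B.Hol ≃+* B.qexp.range :=
  RingEquiv.ofBijective B.qexp.rangeRestrict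
    ⟨fun x y h => B.qexp_injective (congrArg Subtype.val h), B.qexp.rangeRestrict_surjective⟩

/-- The bridge `e : R_N →+* Hol`. -/
def bridge : RN N →+* B.Hol :=
  (B.qexpEquiv.symm : B.qexp.range →+* B.Hol).comp
    (((Φ N).comp (RN N).val.toRingHom).codRestrict B.qexp.range fun r => B.Φ_mem_range r.2)

theorem qexp_bridge (r : RN N) : B.qexp (B.bridge r) = Φ N (r : LaurentSeries Kbar) := by
  have h := B.qexpEquiv.apply_symm_apply
    ((((Φ N).comp (RN N).val.toRingHom).codRestrict B.qexp.range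
      fun r => B.Φ_mem_range r.2) r)
  exact congrArg Subtype.val h

theorem bridge_injective : Function.Injective B.bridge := by
  intro r r' h
  apply Subtype.ext
  apply Φ_injective (N := N)
  rw [← qexp_bridge, ← qexp_bridge, h]

theorem bridge_algebraMap (c : Kbar) : B.bridge (algebraMap Kbar (RN N) c) = B.constH (ιK c) := by
  apply B.qexp_injective
  rw [qexp_bridge]
  show Φ N (algebraMap Kbar (LaurentSeries Kbar) c) = _
  rw [Φ_algebraMap]
  exact (B.qexp_const _).symm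

theorem bridge_jR (d : ℕ) [NeZero d] (hd : d ∣ N) : B.bridge (jR N d hd) = B.JH d hd := by
  apply B.qexp_injective
  rw [qexp_bridge]
  exact B.Φ_gen d hd

/-- Every `e r` is `Γ₀(N)`-invariant. -/
theorem compH_bridge_of_mem {g : SL(2, ℤ)} (hg : g ∈ CongruenceSubgroup.Gamma0 N) (r : RN N) :
    B.compH g (B.bridge r) = B.bridge r := by
  obtain ⟨r, hr⟩ := r
  induction hr using Algebra.adjoin_induction with
  | mem x hx =>
      obtain ⟨y, ⟨d, hne, hd, rfl⟩, rfl⟩ := hx
      have : (⟨coeffEmb Kbar (qExpand ℚ d jq), Algebra.subset_adjoin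
          ⟨_, ⟨d, hne, hd, rfl⟩, rfl⟩⟩ : RN N) = jR N d hd := rfl
      rw [this, bridge_jR]
      exact B.compH_JH_of_mem d hd hg
  | algebraMap c =>
      have : (⟨algebraMap Kbar (LaurentSeries Kbar) c, Subalgebra.algebraMap_mem _ c⟩ : RN N)
          = algebraMap Kbar (RN N) c := rfl
      rw [this, bridge_algebraMap]
      rfl
  | add x y hx hy ihx ihy =>
      have : (⟨x + y, add_mem hx hy⟩ : RN N) = ⟨x, hx⟩ + ⟨y, hy⟩ := rfl
      rw [this, _root_.map_add, _root_.map_add, ihx, ihy]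
  | mul x y hx hy ihx ihy =>
      have : (⟨x * y, mul_mem hx hy⟩ : RN N) = ⟨x, hx⟩ * ⟨y, hy⟩ := rfl
      rw [this, _root_.map_mul, _root_.map_mul, ihx, ihy]

end HolBase

end Fermat.Agent.S24.H997

end
end
-- ===== PACK-END S24/Mod/H997Bridge.lean

-- ===== PACK-BEGIN S24/Inf/Unique.lean
section


/-!
# S24 / MOD-INF — uniqueness of convergent Laurent expansions, the expansion ring
-/

set_option autoImplicit false

noncomputable section

open HahnSeries ModularCurve UpperHalfPlane Complex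
open scoped Real

namespace Fermat.Agent.S24

/-- A power series converging to `0` on the punctured unit disc has zero constant coefficient. -/
theorem inf_coeff_zero_eq_zero_of_hasSum_zero (a : ℕ → ℂ)
    (h : ∀ z : ℂ, z ≠ 0 → ‖z‖ < 1 → HasSum (fun n => a n * z ^ n) 0) : a 0 = 0 := by
  have hhalf : HasSum (fun n => a n * ((1 / 2 : ℝ) : ℂ) ^ n) 0 :=
    h _ (by norm_num) (by rw [Complex.norm_real]; norm_num)
  have hs1 : Summable (fun n => ‖a (n + 1)‖ * (1 / 2 : ℝ) ^ n) := by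
    have h1 : Summable (fun n => ‖a n * ((1 / 2 : ℝ) : ℂ) ^ n‖) := hhalf.summable.norm
    have h2 := (summable_nat_add_iff 1).mpr h1
    have h3 := h2.mul_left 2
    refine h3.congr fun n => ?_
    rw [_root_.norm_mul, _root_.norm_pow, Complex.norm_real, pow_succ]
    simp only [Real.norm_eq_abs]
    rw [abs_of_pos (by norm_num : (0 : ℝ) < 1 / 2)]
    ring
  set C : ℝ := ∑' n, ‖a (n + 1)‖ * (1 / 2 : ℝ) ^ n with hC
  have hC0 : 0 ≤ C := tsum_nonneg fun n => by positivity
  have key : ∀ t : ℝ, 0 < t → t ≤ 1 / 2 → ‖a 0‖ ≤ t * C := by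
    intro t ht0 ht
    have hz : HasSum (fun n => a n * ((t : ℝ) : ℂ) ^ n) 0 :=
      h _ (by exact_mod_cast ht0.ne') (by
        rw [Complex.norm_real, Real.norm_eq_abs, abs_of_pos ht0]; linarith)
    have hz' := (hasSum_nat_add_iff' 1).mpr hz
    simp only [Finset.range_one, Finset.sum_singleton, pow_zero, mul_one, zero_sub] at hz'
    have hb : HasSum (fun n => t * (‖a (n + 1)‖ * (1 / 2 : ℝ) ^ n)) (t * C) :=
      hs1.hasSum.mul_left t
    have := hz'.norm_le_of_bounded hb (fun n => by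
      rw [_root_.norm_mul, _root_.norm_pow, Complex.norm_real, Real.norm_eq_abs, abs_of_pos ht0, pow_succ]
      have : t ^ n ≤ (1 / 2 : ℝ) ^ n := pow_le_pow_left₀ ht0.le ht n
      have h0 : 0 ≤ ‖a (n + 1)‖ := _root_.norm_nonneg _
      calc ‖a (n + 1)‖ * (t ^ n * t) = t * (‖a (n + 1)‖ * t ^ n) := by ring
        _ ≤ t * (‖a (n + 1)‖ * (1 / 2 : ℝ) ^ n) := by gcongr)
    rwa [norm_neg] at this
  by_contra hne
  have hpos : 0 < ‖a 0‖ := norm_pos_iff.mpr hne
  set t : ℝ := min (1 / 2) (‖a 0‖ / (2 * (C + 1))) with ht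
  have ht0 : 0 < t := lt_min (by norm_num) (by positivity)
  have ht1 : t ≤ 1 / 2 := min_le_left _ _
  have ht2 : t ≤ ‖a 0‖ / (2 * (C + 1)) := min_le_right _ _
  have h1 := key t ht0 ht1
  have h2 : t * C ≤ ‖a 0‖ / (2 * (C + 1)) * C := by gcongr
  have h3 : ‖a 0‖ / (2 * (C + 1)) * C < ‖a 0‖ := by
    rw [div_mul_eq_mul_div, div_lt_iff₀ (by positivity)]
    nlinarith
  linarith

variable {N : ℕ} [NeZero N]

theorem InfPExp.coeff_zero_eq_zero {ψ : PowerSeries ℂ} (h : InfPExp N (fun _ => 0) ψ) :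
    PowerSeries.coeff 0 ψ = 0 := by
  refine inf_coeff_zero_eq_zero_of_hasSum_zero (fun n => PowerSeries.coeff n ψ) ?_
  intro z hz hz1
  obtain ⟨τ, rfl⟩ := exists_infZ_eq N hz hz1
  exact h τ

/-- Uniqueness of the expansion: only the zero series converges to the zero function. -/
theorem InfExp.eq_zero {φ : LaurentSeries ℂ} (h : InfExp N (fun _ => 0) φ) : φ = 0 := by
  by_contra hφ
  have h1 := h.powerSeriesPart
  simp only [mul_zero] at h1
  have h2 := h1.coeff_zero_eq_zero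
  rw [LaurentSeries.powerSeriesPart_coeff] at h2
  simp only [Nat.cast_zero, add_zero] at h2
  exact hφ (coeff_order_eq_zero.mp h2)

theorem InfExp.unique {f : ℍ → ℂ} {φ ψ : LaurentSeries ℂ} (hφ : InfExp N f φ)
    (hψ : InfExp N f ψ) : φ = ψ := by
  have h := hφ.sub hψ
  simp only [sub_self] at h
  exact sub_eq_zero.mp h.eq_zero

theorem InfExp.unique' {f g : ℍ → ℂ} {φ ψ : LaurentSeries ℂ} (hφ : InfExp N f φ)
    (hψ : InfExp N g ψ) (hfg : ∀ τ, f τ = g τ) : φ = ψ :=
  (hφ.congr hfg).unique hψ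

variable (N) in
/-- The ring of functions on `ℍ` admitting a convergent Laurent expansion in
`z = exp (2πiτ/N)` (finitely many negative exponents). -/
def expRing : Subring (ℍ → ℂ) where
  carrier := {f | ∃ φ, InfExp N f φ}
  mul_mem' := by
    rintro f g ⟨φ, hφ⟩ ⟨ψ, hψ⟩
    exact ⟨φ * ψ, hφ.mul hψ⟩
  one_mem' := ⟨1, InfExp.one⟩
  add_mem' := by
    rintro f g ⟨φ, hφ⟩ ⟨ψ, hψ⟩
    exact ⟨φ + ψ, hφ.add hψ⟩
  zero_mem' := ⟨0, InfExp.zero⟩
  neg_mem' := by
    rintro f ⟨φ, hφ⟩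
    exact ⟨-φ, hφ.neg⟩

theorem mem_expRing {f : ℍ → ℂ} : f ∈ expRing N ↔ ∃ φ, InfExp N f φ := Iff.rfl

theorem InfExp.mem_expRing {f : ℍ → ℂ} {φ : LaurentSeries ℂ} (h : InfExp N f φ) :
    f ∈ expRing N := ⟨φ, h⟩

variable (N) in
/-- The expansion at `∞` as a function. -/
def expInfFun (f : expRing N) : LaurentSeries ℂ := Classical.choose f.2

theorem expInfFun_spec (f : expRing N) : InfExp N (f : ℍ → ℂ) (expInfFun N f) :=
  Classical.choose_spec f.2

theorem InfExp.expInfFun_eq {f : ℍ → ℂ} {φ : LaurentSeries ℂ} (h : InfExp N f φ) :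
    expInfFun N ⟨f, h.mem_expRing⟩ = φ :=
  (expInfFun_spec _).unique h

variable (N) in
/-- The expansion at `∞` as a ring homomorphism. -/
def expInf : expRing N →+* LaurentSeries ℂ where
  toFun := expInfFun N
  map_one' := (expInfFun_spec (1 : expRing N)).unique InfExp.one
  map_mul' f g := (expInfFun_spec (f * g)).unique ((expInfFun_spec f).mul (expInfFun_spec g))
  map_zero' := (expInfFun_spec (0 : expRing N)).unique InfExp.zero
  map_add' f g := (expInfFun_spec (f + g)).unique ((expInfFun_spec f).add (expInfFun_spec g))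

theorem expInf_spec (f : expRing N) : InfExp N (f : ℍ → ℂ) (expInf N f) :=
  expInfFun_spec f

theorem InfExp.expInf_eq {f : ℍ → ℂ} {φ : LaurentSeries ℂ} (h : InfExp N f φ) :
    expInf N ⟨f, h.mem_expRing⟩ = φ :=
  h.expInfFun_eq

theorem expInf_injective : Function.Injective (expInf N) := by
  intro f g hfg
  apply Subtype.ext
  have hf := expInf_spec f
  have hg := expInf_spec g
  rw [hfg] at hf
  exact hf.fun_unique hg

instance expRing_isDomain : IsDomain (expRing N) :=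
  Function.Injective.isDomain (expInf N) expInf_injective

end Fermat.Agent.S24

end
end
-- ===== PACK-END S24/Inf/Unique.lean

-- ===== PACK-BEGIN S24/H117/EmbPlace.lean
section


/-!
# S24 / H117 — the place induced by an embedding into Laurent series (LT1)

For a ring homomorphism `σ : F →+* LaurentSeries C` which is "constant on `K`" and nontrivial
(some element has nonzero order), `{f | 0 ≤ (σ f).order}` is a discrete valuation ring of `F`
containing `K`, i.e. a `Place K F`, and `(σ f).order = k * v.ord f` for a fixed `k > 0`.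
-/

set_option autoImplicit false

noncomputable section

open AlgebraicCurve

namespace Fermat.Agent.S24.H117

variable {K F : Type*} [Field K] [Field F] [Algebra K F]
variable {C : Type*} [Field C]

section Laurent

theorem order_inv' (g : LaurentSeries C) : (g⁻¹).order = -g.order := by
  rcases eq_or_ne g 0 with rfl | hg
  · simp
  have h := HahnSeries.order_mul hg (inv_ne_zero hg)
  rw [mul_inv_cancel₀ hg, HahnSeries.order_one] at h
  omega

theorem order_add_ge' {g h : LaurentSeries C} (hg : 0 ≤ g.order) (hh : 0 ≤ h.order) :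
    0 ≤ (g + h).order := by
  rcases eq_or_ne (g + h) 0 with h0 | h0
  · rw [h0, HahnSeries.order_zero]
  · exact le_trans (le_min hg hh) (HahnSeries.min_order_le_order_add h0)

/-- The valuation subring of `C((z))` of series of non-negative order. -/
def OL (C : Type*) [Field C] : ValuationSubring (LaurentSeries C) where
  carrier := {g | 0 ≤ g.order}
  mul_mem' := by
    intro a b ha hb
    simp only [Set.mem_ofPred_eq] at ha hb ⊢
    rcases eq_or_ne a 0 with rfl | ha0
    · simp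
    rcases eq_or_ne b 0 with rfl | hb0
    · simp
    rw [HahnSeries.order_mul ha0 hb0]
    omega
  one_mem' := by simp
  add_mem' := by
    intro a b ha hb
    exact order_add_ge' ha hb
  zero_mem' := by simp
  neg_mem' := by
    intro a ha
    simp only [Set.mem_ofPred_eq] at ha ⊢
    rwa [HahnSeries.order_neg]
  mem_or_inv_mem' := by
    intro a
    simp only [Set.mem_ofPred_eq]
    rw [order_inv']
    omega

@[simp]
theorem mem_OL {g : LaurentSeries C} : g ∈ OL C ↔ 0 ≤ g.order := Iff.rfl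

end Laurent

section Emb

variable (σ : F →+* LaurentSeries C)

/-- The order function of an embedding. -/
def eord (f : F) : ℤ := (σ f).order

@[simp] theorem eord_zero : eord σ 0 = 0 := by simp [eord]

@[simp] theorem eord_one : eord σ 1 = 0 := by simp [eord]

theorem eord_mul {f g : F} (hf : f ≠ 0) (hg : g ≠ 0) :
    eord σ (f * g) = eord σ f + eord σ g := by
  simp only [eord, map_mul]
  exact HahnSeries.order_mul ((map_ne_zero σ).mpr hf) ((map_ne_zero σ).mpr hg)

theorem eord_inv (f : F) : eord σ f⁻¹ = -eord σ f := by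
  simp only [eord, map_inv₀]
  exact order_inv' _

theorem eord_pow (f : F) (n : ℕ) : eord σ (f ^ n) = n * eord σ f := by
  simp only [eord, map_pow, HahnSeries.order_pow, nsmul_eq_mul]

theorem eord_zpow (f : F) (n : ℤ) : eord σ (f ^ n) = n * eord σ f := by
  cases n with
  | ofNat n => simpa using eord_pow σ f n
  | negSucc n =>
    rw [zpow_negSucc, eord_inv, eord_pow]
    simp only [Int.negSucc_eq]
    push_cast
    ring

theorem eord_neg (f : F) : eord σ (-f) = eord σ f := by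
  simp only [eord, map_neg, HahnSeries.order_neg]

theorem eord_add_ge {f g : F} (hfg : f + g ≠ 0) :
    min (eord σ f) (eord σ g) ≤ eord σ (f + g) := by
  simp only [eord, map_add]
  apply HahnSeries.min_order_le_order_add
  rw [← map_add]
  exact (map_ne_zero σ).mpr hfg

/-- The valuation subring of `F` induced by `σ`. -/
def embRing : ValuationSubring F := (OL C).comap σ

@[simp]
theorem mem_embRing {f : F} : f ∈ embRing σ ↔ 0 ≤ eord σ f := Iff.rfl

theorem coe_ne_zero_embRing {a : embRing σ} (ha : a ≠ 0) : (a : F) ≠ 0 :=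
  fun h => ha (Subtype.ext h)

theorem isUnit_embRing_iff {a : embRing σ} (ha : a ≠ 0) : IsUnit a ↔ eord σ (a : F) = 0 := by
  have ha0 : (a : F) ≠ 0 := coe_ne_zero_embRing σ ha
  constructor
  · intro h
    obtain ⟨b, hb⟩ := isUnit_iff_exists_inv.mp h
    have hb' : (a : F) * (b : F) = 1 := congrArg Subtype.val hb
    have hbne : (b : F) ≠ 0 := by
      intro h0
      rw [h0, mul_zero] at hb'
      exact zero_ne_one hb'
    have hsum := eord_mul σ ha0 hbne
    rw [hb', eord_one] at hsum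
    have h1 : 0 ≤ eord σ (a : F) := a.2
    have h2 : 0 ≤ eord σ (b : F) := b.2
    omega
  · intro h0
    have hinv : (a : F)⁻¹ ∈ embRing σ := by
      rw [mem_embRing, eord_inv]; omega
    exact ⟨⟨a, ⟨(a : F)⁻¹, hinv⟩, Subtype.ext (mul_inv_cancel₀ ha0),
      Subtype.ext (inv_mul_cancel₀ ha0)⟩, rfl⟩

/-- If some element has nonzero order, then `embRing σ` is a discrete valuation ring: there is
an element `π` of minimal positive order `k`, and every order is a multiple of `k`. -/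
theorem exists_min_pos (hnt : ∃ t : F, eord σ t ≠ 0) :
    ∃ (k : ℕ) (π : F), 0 < k ∧ π ≠ 0 ∧ eord σ π = k ∧ ∀ f : F, (k : ℤ) ∣ eord σ f := by
  classical
  obtain ⟨t, ht⟩ := hnt
  have hex : ∃ n : ℕ, 0 < n ∧ ∃ f : F, eord σ f = n := by
    rcases lt_or_gt_of_ne ht with h | h
    · refine ⟨(eord σ t⁻¹).toNat, ?_, t⁻¹, ?_⟩
      · rw [eord_inv]; omega
      · rw [eord_inv]; omega
    · exact ⟨(eord σ t).toNat, by omega, t, by omega⟩
  let k := Nat.find hex
  obtain ⟨hk0, π, hπ⟩ := Nat.find_spec hex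
  have hmin : ∀ n : ℕ, 0 < n → (∃ f : F, eord σ f = n) → k ≤ n := fun n hn hf =>
    Nat.find_min' hex ⟨hn, hf⟩
  have hπ0 : π ≠ 0 := by
    rintro rfl
    rw [eord_zero] at hπ
    have : (k : ℤ) = 0 := hπ.symm
    have hk0' : 0 < k := hk0
    omega
  refine ⟨k, π, hk0, hπ0, hπ, fun f => ?_⟩
  rcases eq_or_ne f 0 with rfl | hf
  · simp
  -- division with remainder
  set q := eord σ f / (k : ℤ) with hq
  set r := eord σ f % (k : ℤ) with hr
  have hk0' : (0 : ℤ) < k := by exact_mod_cast hk0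
  have hr0 : 0 ≤ r := Int.emod_nonneg _ hk0'.ne'
  have hrk : r < k := Int.emod_lt_of_pos _ hk0'
  have hdecomp : eord σ f = k * q + r := (Int.mul_ediv_add_emod _ _).symm
  have hg : eord σ (f * π ^ (-q)) = r := by
    rw [eord_mul σ hf (zpow_ne_zero _ hπ0), eord_zpow, hπ, hdecomp]
    ring
  by_cases hr' : r = 0
  · exact Int.dvd_of_emod_eq_zero hr'
  · exfalso
    have := hmin r.toNat (by omega) ⟨_, by rw [hg]; omega⟩
    have hk0'' : 0 < k := hk0
    omega

theorem isDiscreteValuationRing_embRing (hnt : ∃ t : F, eord σ t ≠ 0) :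
    IsDiscreteValuationRing (embRing σ) := by
  obtain ⟨k, π, hk0, hπ0, hπ, hdvd⟩ := exists_min_pos σ hnt
  have hπmem : π ∈ embRing σ := by rw [mem_embRing, hπ]; positivity
  have hk0' : (0 : ℤ) < k := by exact_mod_cast hk0
  apply IsDiscreteValuationRing.ofHasUnitMulPowIrreducibleFactorization
  refine ⟨⟨π, hπmem⟩, ?_, ?_⟩
  · -- irreducible
    have hπne : (⟨π, hπmem⟩ : embRing σ) ≠ 0 := fun h => hπ0 (congrArg Subtype.val h)
    refine ⟨fun hu => ?_, fun a b hab => ?_⟩
    · have := (isUnit_embRing_iff σ hπne).mp hu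
      simp only at this
      omega
    · have hab' : π = (a : F) * (b : F) := congrArg Subtype.val hab
      have ha0 : a ≠ 0 := by
        rintro rfl
        apply hπ0
        simpa using hab'
      have hb0 : b ≠ 0 := by
        rintro rfl
        apply hπ0
        simpa using hab'
      have ha0' : (a : F) ≠ 0 := coe_ne_zero_embRing σ ha0
      have hb0' : (b : F) ≠ 0 := coe_ne_zero_embRing σ hb0
      have hsum := eord_mul σ ha0' hb0'
      rw [← hab', hπ] at hsum
      obtain ⟨ca, hca⟩ := hdvd (a : F)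
      obtain ⟨cb, hcb⟩ := hdvd (b : F)
      have h1 : 0 ≤ eord σ (a : F) := a.2
      have h2 : 0 ≤ eord σ (b : F) := b.2
      rw [isUnit_embRing_iff σ ha0, isUnit_embRing_iff σ hb0]
      have hca0 : 0 ≤ ca := by
        by_contra hneg
        push Not at hneg
        rw [hca] at h1
        nlinarith
      have hcb0 : 0 ≤ cb := by
        by_contra hneg
        push Not at hneg
        rw [hcb] at h2
        nlinarith
      have hsum' : (k : ℤ) * (ca + cb) = k * 1 := by rw [hca, hcb] at hsum; linarith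
      have h3 : ca + cb = 1 := mul_left_cancel₀ hk0'.ne' hsum'
      rcases (show ca = 0 ∨ cb = 0 by omega) with h | h
      · left; rw [hca, h, mul_zero]
      · right; rw [hcb, h, mul_zero]
  · intro x hx
    have hx0 : (x : F) ≠ 0 := coe_ne_zero_embRing σ hx
    obtain ⟨c, hc⟩ := hdvd (x : F)
    have hxnn : 0 ≤ eord σ (x : F) := x.2
    have hc0 : 0 ≤ c := by
      by_contra hneg
      push Not at hneg
      rw [hc] at hxnn
      nlinarith
    refine ⟨c.toNat, ?_⟩
    have hu : eord σ ((x : F) * (π ^ c.toNat)⁻¹) = 0 := by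
      rw [eord_mul σ hx0 (inv_ne_zero (pow_ne_zero _ hπ0)), eord_inv, eord_pow, hπ, hc]
      have : ((c.toNat : ℕ) : ℤ) = c := Int.toNat_of_nonneg hc0
      rw [this]; ring
    have hmem : (x : F) * (π ^ c.toNat)⁻¹ ∈ embRing σ := by
      rw [mem_embRing, hu]
    have hne : (⟨_, hmem⟩ : embRing σ) ≠ 0 := fun h =>
      (mul_ne_zero hx0 (inv_ne_zero (pow_ne_zero _ hπ0))) (congrArg Subtype.val h)
    have hunit : IsUnit (⟨_, hmem⟩ : embRing σ) := (isUnit_embRing_iff σ hne).mpr hu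
    refine ⟨hunit.unit, ?_⟩
    apply Subtype.ext
    have hπpow : π ^ c.toNat ≠ 0 := pow_ne_zero _ hπ0
    show π ^ c.toNat * ((x : F) * (π ^ c.toNat)⁻¹) = (x : F)
    field_simp

/-- The place of `F/K` induced by an embedding `σ : F → C((z))` which has non-negative order on
the constants and is nontrivial. -/
def placeOfEmb (hK : ∀ c : K, 0 ≤ eord σ (algebraMap K F c)) (hnt : ∃ t : F, eord σ t ≠ 0) :
    Place K F where
  toValuationSubring := embRing σ
  algebraMap_mem' := hK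
  ne_top' := by
    obtain ⟨t, ht⟩ := hnt
    intro htop
    have h1 : t ∈ embRing σ := htop ▸ ValuationSubring.mem_top t
    have h2 : t⁻¹ ∈ embRing σ := htop ▸ ValuationSubring.mem_top t⁻¹
    rw [mem_embRing] at h1 h2
    rw [eord_inv] at h2
    omega
  isPrincipalIdealRing' :=
    haveI := isDiscreteValuationRing_embRing σ hnt
    inferInstance

@[simp]
theorem placeOfEmb_toValuationSubring (hK : ∀ c : K, 0 ≤ eord σ (algebraMap K F c))
    (hnt : ∃ t : F, eord σ t ≠ 0) :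
    (placeOfEmb σ hK hnt).toValuationSubring = embRing σ := rfl

/-- If the valuation ring of a place `v` is `{f | 0 ≤ ord (σ f)}`, then `ord ∘ σ = k * v.ord`
for some `k > 0`. -/
theorem exists_mult_of_eq (v : Place K F) (hv : v.toValuationSubring = embRing σ) :
    ∃ k : ℕ, 0 < k ∧ ∀ f : F, eord σ f = k * v.ord f := by
  have hmem : ∀ f : F, f ∈ v.toValuationSubring ↔ 0 ≤ eord σ f := fun f => by
    rw [hv]; rfl
  obtain ⟨π, hπ⟩ := IsDiscreteValuationRing.exists_irreducible v.toValuationSubring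
  have hπ0 : (π : F) ≠ 0 := fun h => hπ.ne_zero (Subtype.ext h)
  have hπnn : 0 ≤ eord σ (π : F) := (hmem _).mp π.2
  have hπpos : 0 < eord σ (π : F) := by
    rcases hπnn.lt_or_eq with h | h
    · exact h
    · exfalso
      have hinv : (π : F)⁻¹ ∈ v.toValuationSubring := by
        rw [hmem, eord_inv]; omega
      apply hπ.not_isUnit
      exact ⟨⟨π, ⟨(π : F)⁻¹, hinv⟩, Subtype.ext (mul_inv_cancel₀ hπ0),
        Subtype.ext (inv_mul_cancel₀ hπ0)⟩, rfl⟩
  refine ⟨(eord σ (π : F)).toNat, by omega, fun f => ?_⟩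
  rcases eq_or_ne f 0 with rfl | hf
  · simp
  obtain ⟨u, hu⟩ := v.exists_unit_mul_zpow hf hπ
  have hu0 : ((u : v.toValuationSubring) : F) ≠ 0 := by
    intro h
    exact u.ne_zero (Subtype.ext h)
  have hu1 : 0 ≤ eord σ ((u : v.toValuationSubring) : F) := (hmem _).mp (u : v.toValuationSubring).2
  have hu2 : 0 ≤ eord σ (((u⁻¹ : v.toValuationSubringˣ) : v.toValuationSubring) : F) :=
    (hmem _).mp ((u⁻¹ : v.toValuationSubringˣ) : v.toValuationSubring).2
  have hmul : ((u : v.toValuationSubring) : F)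
      * (((u⁻¹ : v.toValuationSubringˣ) : v.toValuationSubring) : F) = 1 := by
    exact congrArg Subtype.val (Units.mul_inv u)
  have hu2' : eord σ (((u⁻¹ : v.toValuationSubringˣ) : v.toValuationSubring) : F)
      = - eord σ ((u : v.toValuationSubring) : F) := by
    rw [← eord_inv]
    congr 1
    exact eq_inv_of_mul_eq_one_right hmul
  have hu3 : eord σ ((u : v.toValuationSubring) : F) = 0 := by omega
  conv_lhs => rw [hu]
  rw [eord_mul σ hu0 (zpow_ne_zero _ hπ0), eord_zpow, hu3, zero_add,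
    Int.toNat_of_nonneg hπnn]
  ring

theorem exists_mult (hK : ∀ c : K, 0 ≤ eord σ (algebraMap K F c))
    (hnt : ∃ t : F, eord σ t ≠ 0) :
    ∃ k : ℕ, 0 < k ∧ ∀ f : F, eord σ f = k * (placeOfEmb σ hK hnt).ord f :=
  exists_mult_of_eq σ _ rfl

end Emb

section LocalDataPlaces

variable {X : Type*} {t : F} (L : LocalData K F C X t)

theorem eord_const (x : X) (c : K) : eord (L.σ x) (algebraMap K F c) = 0 := by
  simp only [eord, L.σ_const, HahnSeries.order_C]

theorem eord_t (x : X) : eord (L.σ x) t = L.m := L.σ_t_order x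

theorem nontrivial_σ (x : X) : ∃ s : F, eord (L.σ x) s ≠ 0 :=
  ⟨t, by rw [eord_t]; exact_mod_cast L.m_pos.ne'⟩

/-- **LT1.** The place of `F/K` induced by the embedding `L.σ x`. -/
def placeOf (x : X) : Place K F :=
  placeOfEmb (L.σ x) (fun c => (eord_const L x c).ge) (nontrivial_σ L x)

theorem exists_mult_placeOf (x : X) :
    ∃ k : ℕ, 0 < k ∧ ∀ f : F, ((L.σ x) f).order = k * (placeOf L x).ord f :=
  exists_mult (L.σ x) _ _

/-- The multiplicity `k_x` with `ord_z ∘ σ_x = k_x * ord_{v_x}`. -/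
def mult (x : X) : ℕ := (exists_mult_placeOf L x).choose

theorem mult_pos (x : X) : 0 < mult L x := (exists_mult_placeOf L x).choose_spec.1

theorem order_eq (x : X) (f : F) :
    ((L.σ x) f).order = mult L x * (placeOf L x).ord f :=
  (exists_mult_placeOf L x).choose_spec.2 f

theorem mem_placeOf_iff (x : X) (f : F) :
    f ∈ (placeOf L x).toValuationSubring ↔ 0 ≤ ((L.σ x) f).order := Iff.rfl

theorem ord_placeOf_nonneg_iff (x : X) (f : F) :
    0 ≤ (placeOf L x).ord f ↔ 0 ≤ ((L.σ x) f).order := by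
  rw [← mem_iff_ord_nonneg]; rfl

theorem mult_mul_ord_t (x : X) : (mult L x : ℤ) * (placeOf L x).ord t = L.m := by
  rw [← order_eq, L.σ_t_order]

theorem ord_t_pos (x : X) : 0 < (placeOf L x).ord t := by
  have h := mult_mul_ord_t L x
  have hk : (0 : ℤ) < mult L x := by exact_mod_cast mult_pos L x
  have hm : (0 : ℤ) < L.m := by exact_mod_cast L.m_pos
  by_contra hcon
  push Not at hcon
  nlinarith

theorem placeOf_perm (x : X) : placeOf L (L.perm x) = placeOf L x := by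
  apply Place.ext
  ext f
  show 0 ≤ ((L.σ (L.perm x)) f).order ↔ 0 ≤ ((L.σ x) f).order
  rw [L.σ_perm_order]

theorem mult_perm (x : X) : mult L (L.perm x) = mult L x := by
  obtain ⟨π, hπ0, hπ⟩ := exists_ord_eq_one (placeOf L x)
  have h1 := order_eq L x π
  have h2 := order_eq L (L.perm x) π
  rw [L.σ_perm_order, placeOf_perm, h1, hπ] at h2
  have : (mult L x : ℤ) = mult L (L.perm x) := by linarith
  exact_mod_cast this.symm

end LocalDataPlaces

end Fermat.Agent.S24.H117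

end
end
-- ===== PACK-END S24/H117/EmbPlace.lean

-- ===== PACK-BEGIN S24/H117/Approx.lean
section


/-!
# S24 / H117 — a weak approximation lemma for places

For a place `v` and a finite set `s` of places not containing `v`, there is `f : F` with
`v.ord f < 0` and `0 < w.ord f` for all `w ∈ s`.
-/

set_option autoImplicit false

noncomputable section

open AlgebraicCurve

namespace Fermat.Agent.S24.H117

variable {K F : Type*} [Field K] [Field F] [Algebra K F]

/-- Two distinct places are separated by a function. -/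
theorem exists_ord_pos_neg {v w : Place K F} (h : v ≠ w) :
    ∃ y : F, 0 < v.ord y ∧ w.ord y < 0 := by
  have h1 : ∃ a : F, 0 ≤ v.ord a ∧ w.ord a < 0 := by
    by_contra hcon
    push Not at hcon
    exact h (place_ext_of_le hcon)
  have h2 : ∃ b : F, 0 ≤ w.ord b ∧ v.ord b < 0 := by
    by_contra hcon
    push Not at hcon
    exact h (place_ext_of_le hcon).symm
  obtain ⟨a, ha1, ha2⟩ := h1
  obtain ⟨b, hb1, hb2⟩ := h2
  have ha0 : a ≠ 0 := ne_zero_of_ord_ne_zero w ha2.ne
  have hb0 : b ≠ 0 := ne_zero_of_ord_ne_zero v hb2.ne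
  refine ⟨a / b, ?_, ?_⟩
  · rw [ord_div v ha0 hb0]; omega
  · rw [ord_div w ha0 hb0]; omega

/-- There is a function with a zero at `v` and poles at all places of `s`. -/
theorem exists_ord_pos_forall_neg (v : Place K F) (s : Finset (Place K F)) (hv : v ∉ s) :
    ∃ u : F, 0 < v.ord u ∧ ∀ w ∈ s, w.ord u < 0 := by
  classical
  induction s using Finset.induction_on with
  | empty =>
    obtain ⟨π, -, hπ⟩ := exists_ord_eq_one v
    exact ⟨π, by omega, by simp⟩
  | insert w s hw ih =>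
    have hvs : v ∉ s := fun h => hv (Finset.mem_insert_of_mem h)
    have hvw : v ≠ w := fun h => hv (h ▸ Finset.mem_insert_self _ _)
    obtain ⟨u, hu1, hu2⟩ := ih hvs
    by_cases hwu : w.ord u < 0
    · refine ⟨u, hu1, fun w' hw' => ?_⟩
      rcases Finset.mem_insert.mp hw' with rfl | h
      · exact hwu
      · exact hu2 w' h
    · push Not at hwu
      obtain ⟨y, hy1, hy2⟩ := exists_ord_pos_neg hvw
      have hu0 : u ≠ 0 := ne_zero_of_ord_ne_zero v hu1.ne'
      have hy0 : y ≠ 0 := ne_zero_of_ord_ne_zero v hy1.ne'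
      -- choose a large exponent
      obtain ⟨N, hN1, hNbig⟩ : ∃ N : ℕ, 1 ≤ N ∧ ∀ w' ∈ s, (w'.ord u).natAbs < N := by
        refine ⟨1 + ∑ w' ∈ s, (w'.ord u).natAbs, by omega, fun w' hw' => ?_⟩
        have := Finset.single_le_sum (f := fun w' : Place K F => (w'.ord u).natAbs)
          (fun _ _ => Nat.zero_le _) hw'
        have h2 : (w'.ord u).natAbs ≤ ∑ w' ∈ s, (w'.ord u).natAbs := this
        omega
      have hyN0 : y ^ N ≠ 0 := pow_ne_zero _ hy0
      have hwlt : w.ord (y ^ N) < w.ord u := by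
        rw [ord_pow]
        have : (N : ℤ) * w.ord y < 0 := by
          have : (1 : ℤ) ≤ N := by exact_mod_cast hN1
          nlinarith
        omega
      have hsum_w : w.ord (u + y ^ N) = w.ord (y ^ N) := by
        rw [add_comm]
        exact ord_add_eq_of_lt w hwlt hyN0
      have hne : u + y ^ N ≠ 0 := by
        apply ne_zero_of_ord_ne_zero w
        rw [hsum_w, ord_pow]
        have : (1 : ℤ) ≤ N := by exact_mod_cast hN1
        nlinarith
      refine ⟨u + y ^ N, ?_, fun w' hw' => ?_⟩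
      · have := ord_add_ge v hne
        have h2 : 0 < v.ord (y ^ N) := by
          rw [ord_pow]
          have : (1 : ℤ) ≤ N := by exact_mod_cast hN1
          nlinarith
        have : 0 < min (v.ord u) (v.ord (y ^ N)) := lt_min hu1 h2
        omega
      · rcases Finset.mem_insert.mp hw' with rfl | h
        · rw [hsum_w, ord_pow]
          have : (1 : ℤ) ≤ N := by exact_mod_cast hN1
          nlinarith
        · have hu' := hu2 w' h
          have hbig := hNbig w' h
          have hneq : w'.ord (y ^ N) ≠ w'.ord u := by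
            rw [ord_pow]
            intro heq
            rcases eq_or_ne (w'.ord y) 0 with h0 | h0
            · rw [h0, mul_zero] at heq
              omega
            · have h1 : (w'.ord u).natAbs = N * (w'.ord y).natAbs := by
                rw [← heq, Int.natAbs_mul, Int.natAbs_natCast]
              have h2 : 1 ≤ (w'.ord y).natAbs := Int.natAbs_pos.mpr h0
              have h3 : N ≤ N * (w'.ord y).natAbs := Nat.le_mul_of_pos_right N h2
              omega
          rcases lt_or_gt_of_ne hneq with hlt | hgt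
          · rw [add_comm, ord_add_eq_of_lt w' hlt hyN0]
            omega
          · rw [ord_add_eq_of_lt w' hgt hu0]
            exact hu'

/-- **Weak approximation (the form we need).** -/
theorem exists_ord_neg_forall_pos (v : Place K F) (s : Finset (Place K F)) (hv : v ∉ s) :
    ∃ f : F, v.ord f < 0 ∧ ∀ w ∈ s, 0 < w.ord f := by
  obtain ⟨u, hu1, hu2⟩ := exists_ord_pos_forall_neg v s hv
  refine ⟨u⁻¹, ?_, fun w hw => ?_⟩
  · rw [v.ord_inv]; omega
  · rw [w.ord_inv]
    have := hu2 w hw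
    omega

end Fermat.Agent.S24.H117

end
end
-- ===== PACK-END S24/H117/Approx.lean

-- ===== PACK-BEGIN S29/H509/TwistedMF.lean
section


/-!
# Twisted Eisenstein series: modular forms and twisted quotients (helper509, S29 piece TES, file 3)

For a finite index subgroup `Γ ≤ SL(2, ℤ)` and a character `χ : Γ →* ℂˣ` with `χ ^ p = 1`,
trivial on the stabiliser of `∞` in `Γ`:

* `twEisPowMF` : the `p`-th power of the twisted Eisenstein series as a `ModularForm Γ (k * p)`;
* `twEisOneMF` : the untwisted Eisenstein series of `Γ` as a `ModularForm Γ k`;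
* `exists_twisted_pair` : the summary statement used downstream.
-/

set_option autoImplicit false

namespace Fermat.Agent.S29.H509

open ModularForm UpperHalfPlane Matrix CongruenceSubgroup EisensteinSeries Filter Topology
open scoped MatrixGroups Manifold

noncomputable section

/-- Slash action on powers. -/
lemma pow_slash_SL2 (f : ℍ → ℂ) (k : ℤ) (n : ℕ) (A : SL(2, ℤ)) :
    (f ^ n) ∣[k * n] A = (f ∣[k] A) ^ n := by
  ext z
  simp only [SL_slash_apply, Pi.pow_apply, mul_pow]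
  congr 1
  rw [← zpow_natCast, ← _root_.zpow_mul, _root_.neg_mul]

lemma isBoundedAtImInfty_pow {f : ℍ → ℂ} (hf : IsBoundedAtImInfty f) (n : ℕ) :
    IsBoundedAtImInfty (f ^ n) := by
  induction n with
  | zero =>
    simp only [pow_zero]
    exact Filter.const_boundedAtFilter _ (1 : ℂ)
  | succ n ih =>
    rw [pow_succ]
    exact Filter.BoundedAtFilter.mul ih hf

lemma norm_eq_one_of_pow_eq_one' {u : ℂˣ} {p : ℕ} (hp : p ≠ 0) (h : u ^ p = 1) :
    ‖(u : ℂ)‖ = 1 := by
  have h1 : (u : ℂ) ^ p = 1 := by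
    have := congrArg (fun x : ℂˣ => (x : ℂ)) h
    simpa using this
  exact Complex.norm_eq_one_of_pow_eq_one h1 hp

variable {Γ : Subgroup SL(2, ℤ)}

/-- The `p`-th power of the twisted Eisenstein series is slash invariant under `Γ`. -/
lemma twEis_pow_slash {χ : Γ →* ℂˣ} (hχ : TrivOnUnip χ) {p : ℕ} (hχp : ∀ γ, χ γ ^ p = 1)
    (k : ℤ) (δ : Γ) :
    (twEis χ k ^ p) ∣[k * p] (δ : SL(2, ℤ)) = twEis χ k ^ p := by
  rw [pow_slash_SL2, twEis_slash hχ]
  ext z
  simp only [Pi.pow_apply, Pi.smul_apply, smul_eq_mul, mul_pow]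
  have h1 : (χ δ : ℂ) ^ p = 1 := by
    have := congrArg (fun x : ℂˣ => (x : ℂ)) (hχp δ)
    simpa using this
  rw [h1, _root_.one_mul]

/-- The `p`-th power of the twisted Eisenstein series, as a modular form of weight `k * p`. -/
def twEisPowMF [Γ.FiniteIndex] (χ : Γ →* ℂˣ) (hχ : TrivOnUnip χ) {p : ℕ} (hp : p ≠ 0)
    (hχp : ∀ γ, χ γ ^ p = 1) {k : ℤ} (hk : 3 ≤ k) :
    ModularForm (Γ : Subgroup (GL (Fin 2) ℝ)) (k * p) where
  toFun := twEis χ k ^ p
  slash_action_eq' A hA := by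
    obtain ⟨A, hA, rfl⟩ := hA
    exact twEis_pow_slash hχ hχp k ⟨A, hA⟩
  holo' := (twEis_mdifferentiable (fun γ => norm_eq_one_of_pow_eq_one' hp (hχp γ)) hk).pow p
  bdd_at_cusps' {c} hc := by
    rw [Subgroup.IsArithmetic.isCusp_iff_isCusp_SL2Z] at hc
    rw [OnePoint.isBoundedAt_iff_forall_SL2Z hc]
    intro γ _
    rw [pow_slash_SL2]
    exact isBoundedAtImInfty_pow
      (isBoundedAtImInfty_twEis_slash (fun γ => norm_eq_one_of_pow_eq_one' hp (hχp γ)) hk γ) p

@[simp] lemma twEisPowMF_apply [Γ.FiniteIndex] (χ : Γ →* ℂˣ) (hχ : TrivOnUnip χ) {p : ℕ}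
    (hp : p ≠ 0) (hχp : ∀ γ, χ γ ^ p = 1) {k : ℤ} (hk : 3 ≤ k) (z : ℍ) :
    twEisPowMF χ hχ hp hχp hk z = twEis χ k z ^ p := rfl

lemma twEisPowMF_ne_zero [Γ.FiniteIndex] (χ : Γ →* ℂˣ) (hχ : TrivOnStabInfty χ) {p : ℕ}
    (hp : p ≠ 0) (hχp : ∀ γ, χ γ ^ p = 1) {k : ℤ} (hk : 3 ≤ k) (heven : Even k) :
    twEisPowMF χ hχ.trivOnUnip hp hχp hk ≠ 0 := by
  intro h0
  have hne := twEis_ne_zero (fun γ => norm_eq_one_of_pow_eq_one' hp (hχp γ)) hχ hk heven
  apply hne
  funext z
  have h1 : twEisPowMF χ hχ.trivOnUnip hp hχp hk z = 0 := by rw [h0]; rfl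
  rw [twEisPowMF_apply] at h1
  exact pow_eq_zero_iff hp |>.mp h1

/-- Summary: existence of the twisted Eisenstein series with all the properties used downstream.
For a character `χ` of `Γ` of order dividing `p`, trivial on the stabiliser of `∞`, and every even
weight `k ≥ 4` there is a nonzero holomorphic `E : ℍ → ℂ` with `E ∣[k] δ = χ δ • E` on `Γ`, all
of whose `SL(2, ℤ)`-translates are bounded at `i∞`, and such that `E ^ p` is a modular form of
weight `k * p` on `Γ`. -/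
theorem exists_twisted_eisenstein [Γ.FiniteIndex] (χ : Γ →* ℂˣ) (hχ : TrivOnStabInfty χ)
    {p : ℕ} (hp : p ≠ 0) (hχp : ∀ γ, χ γ ^ p = 1) {k : ℤ} (hk : 3 ≤ k) (heven : Even k) :
    ∃ (E : ℍ → ℂ) (F : ModularForm (Γ : Subgroup (GL (Fin 2) ℝ)) (k * p)),
      MDiff E ∧ E ≠ 0 ∧
      (∀ δ : Γ, E ∣[k] (δ : SL(2, ℤ)) = (χ δ : ℂ) • E) ∧
      (∀ (δ : Γ) (z : ℍ), E ((δ : SL(2, ℤ)) • z) =
        (χ δ : ℂ) * denom (δ : SL(2, ℤ)) z ^ k * E z) ∧
      (∀ A : SL(2, ℤ), IsBoundedAtImInfty (E ∣[k] A)) ∧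
      (∀ z, F z = E z ^ p) ∧ F ≠ 0 :=
  ⟨twEis χ k, twEisPowMF χ hχ.trivOnUnip hp hχp hk,
    twEis_mdifferentiable (fun γ => norm_eq_one_of_pow_eq_one' hp (hχp γ)) hk,
    twEis_ne_zero (fun γ => norm_eq_one_of_pow_eq_one' hp (hχp γ)) hχ hk heven,
    twEis_slash hχ.trivOnUnip k,
    twEis_smul_apply hχ.trivOnUnip k,
    isBoundedAtImInfty_twEis_slash (fun γ => norm_eq_one_of_pow_eq_one' hp (hχp γ)) hk,
    fun _ => rfl,
    twEisPowMF_ne_zero χ hχ hp hχp hk heven⟩

end

end Fermat.Agent.S29.H509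

end
-- ===== PACK-END S29/H509/TwistedMF.lean

-- ===== PACK-BEGIN S24/Alg/LocRat.lean
section



/-!
# S24 / ALG-LOC: valuations on the rational subfield `K(t)`

Any two "valuations" of `F` which are trivial on `K` and positive on `t` are proportional on
`K(t)`: on `K(t)` each of them is a multiple of the `t`-adic order.
-/

set_option autoImplicit false

noncomputable section

open AlgebraicCurve Polynomial IntermediateField

namespace Fermat.Agent.S24.H144

variable {K F : Type*} [Field K] [Field F] [Algebra K F]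

/-- An integer valued discrete valuation (with the convention `w 0 = 0`) which is trivial on
`K` and positive at `t`. -/
structure IsTVal (K : Type*) {F : Type*} [Field K] [Field F] [Algebra K F] (t : F)
    (w : F → ℤ) : Prop where
  map_zero : w 0 = 0
  map_mul : ∀ f g : F, f ≠ 0 → g ≠ 0 → w (f * g) = w f + w g
  map_add : ∀ f g : F, f ≠ 0 → g ≠ 0 → f + g ≠ 0 → min (w f) (w g) ≤ w (f + g)
  map_neg : ∀ f : F, w (-f) = w f
  map_const : ∀ c : K, w (algebraMap K F c) = 0
  pos : 0 < w t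

namespace IsTVal

variable {t : F} {w : F → ℤ}

theorem ne_zero_of_ne (hw : IsTVal K t w) {f : F} (h : w f ≠ 0) : f ≠ 0 := by
  rintro rfl; exact h hw.map_zero

theorem t_ne_zero (hw : IsTVal K t w) : t ≠ 0 := hw.ne_zero_of_ne hw.pos.ne'

theorem map_one (hw : IsTVal K t w) : w 1 = 0 := by
  have := hw.map_const 1
  rwa [_root_.map_one] at this

theorem map_inv (hw : IsTVal K t w) (f : F) : w f⁻¹ = -w f := by
  rcases eq_or_ne f 0 with rfl | hf
  · simp [hw.map_zero]
  have h := hw.map_mul f f⁻¹ hf (inv_ne_zero hf)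
  rw [mul_inv_cancel₀ hf, hw.map_one] at h
  omega

theorem map_div (hw : IsTVal K t w) {f g : F} (hf : f ≠ 0) (hg : g ≠ 0) :
    w (f / g) = w f - w g := by
  rw [div_eq_mul_inv, hw.map_mul f g⁻¹ hf (inv_ne_zero hg), hw.map_inv]; ring

/-- Strict case of the ultrametric inequality. -/
theorem map_add_of_lt (hw : IsTVal K t w) {f g : F} (hf : f ≠ 0) (hg : g ≠ 0)
    (h : w f < w g) : f + g ≠ 0 ∧ w (f + g) = w f := by
  have hfg : f + g ≠ 0 := by
    intro h0
    have : g = -f := by rw [← sub_eq_zero]; rw [sub_neg_eq_add, add_comm]; exact h0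
    rw [this, hw.map_neg] at h
    exact lt_irrefl _ h
  refine ⟨hfg, ?_⟩
  have h1 := hw.map_add f g hf hg hfg
  rw [min_eq_left h.le] at h1
  have hng : -g ≠ 0 := neg_ne_zero.mpr hg
  have h2 := hw.map_add (f + g) (-g) hfg hng (by simpa using hf)
  rw [add_neg_cancel_right, hw.map_neg] at h2
  rcases le_total (w (f + g)) (w g) with h3 | h3
  · rw [min_eq_left h3] at h2; omega
  · rw [min_eq_right h3] at h2; omega

end IsTVal

/-- The order of vanishing of a place at which `t` vanishes is a `t`-valuation. -/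
theorem isTVal_ord (v : Place K F) {t : F} (ht : 0 < v.ord t) : IsTVal K t v.ord where
  map_zero := v.ord_zero
  map_mul := fun _ _ hf hg => v.ord_mul hf hg
  map_add := fun _ _ hf hg hfg => loc_ord_add v hf hg hfg
  map_neg := loc_ord_neg v
  map_const := loc_ord_algebraMap v
  pos := ht

/-- The order of an embedding into Laurent series, constant on `K`, is a `t`-valuation. -/
theorem isTVal_order {C : Type*} [Field C] (σ : F →+* LaurentSeries C) {t : F}
    (hK : ∀ c : K, (σ (algebraMap K F c)).order = 0) (ht : 0 < (σ t).order) :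
    IsTVal K t (fun f => (σ f).order) where
  map_zero := by simp
  map_mul := fun _ _ hf hg => loc_order_map_mul σ hf hg
  map_add := fun _ _ _ _ hfg => loc_order_map_add_le σ hfg
  map_neg := fun f => by simp only [_root_.map_neg, HahnSeries.order_neg]
  map_const := hK
  pos := ht

/-- For a nonzero polynomial `p` over `K`, every `t`-valuation of `p(t)` is the same multiple
of the valuation of `t`. -/
theorem loc_exists_mult_aeval (t : F) (p : K[X]) (hp : p ≠ 0) :
    ∃ k : ℕ, (p.coeff 0 = 0 → 0 < k) ∧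
      ∀ w : F → ℤ, IsTVal K t w → aeval t p ≠ 0 ∧ w (aeval t p) = k * w t := by
  induction p using Polynomial.recOnHorner with
  | M0 => exact absurd rfl hp
  | MC p a hp0 ha ih =>
    refine ⟨0, ?_, ?_⟩
    · intro h
      rw [coeff_add, hp0, coeff_C_zero, zero_add] at h
      exact absurd h ha
    · intro w hw
      have haF : algebraMap K F a ≠ 0 := by
        simpa using ha
      rcases eq_or_ne p 0 with rfl | hpne
      · simp only [zero_add, aeval_C]
        exact ⟨haF, by rw [hw.map_const]; simp⟩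
      obtain ⟨k, hk, hkw⟩ := ih hpne
      obtain ⟨hne, hval⟩ := hkw w hw
      have hkpos := hk hp0
      have hlt : w (algebraMap K F a) < w (aeval t p) := by
        rw [hw.map_const, hval]
        exact mul_pos (by exact_mod_cast hkpos) hw.pos
      obtain ⟨h1, h2⟩ := hw.map_add_of_lt haF hne hlt
      rw [_root_.map_add, aeval_C, add_comm]
      refine ⟨h1, ?_⟩
      rw [h2, hw.map_const]; simp
  | MX p hpne ih =>
    obtain ⟨k, _, hkw⟩ := ih hpne
    refine ⟨k + 1, fun _ => Nat.succ_pos k, ?_⟩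
    intro w hw
    obtain ⟨hne, hval⟩ := hkw w hw
    rw [_root_.map_mul, aeval_X]
    refine ⟨mul_ne_zero hne hw.t_ne_zero, ?_⟩
    rw [hw.map_mul _ _ hne hw.t_ne_zero, hval]
    push_cast; ring

/-- **Valuations on `K(t)`.** For `y ∈ K(t)` there is an integer `n` (the `t`-adic order of `y`)
such that `w y = n * w t` for every `t`-valuation `w`. -/
theorem loc_exists_mult_of_mem_adjoin (t : F) {y : F} (hy : y ∈ K⟮t⟯) :
    ∃ n : ℤ, ∀ w : F → ℤ, IsTVal K t w → w y = n * w t := by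
  obtain ⟨r, s, rfl⟩ := (mem_adjoin_simple_iff K y).mp hy
  rcases eq_or_ne r 0 with rfl | hr
  · exact ⟨0, fun w hw => by simp [hw.map_zero]⟩
  rcases eq_or_ne s 0 with rfl | hs
  · exact ⟨0, fun w hw => by simp [hw.map_zero]⟩
  obtain ⟨kr, _, hkr⟩ := loc_exists_mult_aeval t r hr
  obtain ⟨ks, _, hks⟩ := loc_exists_mult_aeval t s hs
  refine ⟨(kr : ℤ) - ks, fun w hw => ?_⟩
  obtain ⟨hr0, hrv⟩ := hkr w hw
  obtain ⟨hs0, hsv⟩ := hks w hw
  rw [hw.map_div hr0 hs0, hrv, hsv]; ring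

/-- Two `t`-valuations are proportional on `K(t)`. -/
theorem loc_tval_proportional (t : F) {y : F} (hy : y ∈ K⟮t⟯) {w₁ w₂ : F → ℤ}
    (h₁ : IsTVal K t w₁) (h₂ : IsTVal K t w₂) : w₂ t * w₁ y = w₁ t * w₂ y := by
  obtain ⟨n, hn⟩ := loc_exists_mult_of_mem_adjoin (K := K) t hy
  rw [hn w₁ h₁, hn w₂ h₂]; ring

/-- Sign transfer on `K(t)`. -/
theorem loc_tval_nonneg (t : F) {y : F} (hy : y ∈ K⟮t⟯) {w₁ w₂ : F → ℤ}
    (h₁ : IsTVal K t w₁) (h₂ : IsTVal K t w₂) (h : 0 ≤ w₁ y) : 0 ≤ w₂ y := by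
  have hprop := loc_tval_proportional t hy h₁ h₂
  have hp1 := h₁.pos
  have hp2 := h₂.pos
  by_contra hneg
  have hneg' : w₂ y < 0 := not_le.mp hneg
  have h3 : w₁ t * w₂ y < 0 := mul_neg_of_pos_of_neg hp1 hneg'
  have h4 : 0 ≤ w₂ t * w₁ y := mul_nonneg hp2.le h
  omega

end Fermat.Agent.S24.H144

end
end
-- ===== PACK-END S24/Alg/LocRat.lean

-- ===== PACK-BEGIN S28/H867/GFun.lean
section



set_option autoImplicit false
noncomputable section

namespace Fermat.Agent.S28.H867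

section GFun

theorem gFun_one : gFun 1 = 1 := by
  simp [gFun]

theorem gFun_pos (N : ℕ) : 0 < gFun N := by
  unfold gFun
  apply Finset.prod_pos
  intro p hp
  have hp' := Nat.prime_of_mem_primeFactors hp
  exact Nat.mul_pos (Nat.succ_pos _) (pow_pos hp'.pos _)

theorem gFun_mul_of_dvd {M p : ℕ} (hM : M ≠ 0) (hp : p.Prime) (hpM : p ∣ M) :
    gFun (M * p) = p * gFun M := by
  unfold gFun
  have hpf : (M * p).primeFactors = M.primeFactors := by
    rw [Nat.primeFactors_mul hM hp.ne_zero, hp.primeFactors, Finset.union_eq_left,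
      Finset.singleton_subset_iff]
    exact Nat.mem_primeFactors.mpr ⟨hp, hpM, hM⟩
  have hpmem : p ∈ M.primeFactors := Nat.mem_primeFactors.mpr ⟨hp, hpM, hM⟩
  rw [hpf, ← Finset.mul_prod_erase _ _ hpmem, ← Finset.mul_prod_erase _ _ hpmem]
  have hv : 1 ≤ M.factorization p := (hp.dvd_iff_one_le_factorization hM).mp hpM
  have h1 : (M * p).factorization p = M.factorization p + 1 := by
    rw [Nat.factorization_mul hM hp.ne_zero]
    simp [hp.factorization]
  have h2 : ∀ q ∈ M.primeFactors.erase p, (M * p).factorization q = M.factorization q := by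
    intro q hq
    rw [Nat.factorization_mul hM hp.ne_zero]
    have hqp : q ≠ p := Finset.ne_of_mem_erase hq
    simp [hp.factorization, Finsupp.single_apply, hqp.symm]
  rw [Finset.prod_congr rfl fun q hq => by rw [h2 q hq], h1]
  have h3 : M.factorization p + 1 - 1 = (M.factorization p - 1) + 1 := by omega
  rw [h3, pow_succ]
  ring

theorem gFun_mul_of_not_dvd {M p : ℕ} (hM : M ≠ 0) (hp : p.Prime) (hpM : ¬ p ∣ M) :
    gFun (M * p) = (p + 1) * gFun M := by
  unfold gFun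
  have hpnmem : p ∉ M.primeFactors := fun h => hpM (Nat.dvd_of_mem_primeFactors h)
  have hpf : (M * p).primeFactors = insert p M.primeFactors := by
    rw [Nat.primeFactors_mul hM hp.ne_zero, hp.primeFactors, Finset.union_comm]
    rfl
  rw [hpf, Finset.prod_insert hpnmem]
  have h1 : (M * p).factorization p = 1 := by
    rw [Nat.factorization_mul hM hp.ne_zero]
    simp [hp.factorization, Nat.factorization_eq_zero_of_not_dvd hpM]
  have h2 : ∀ q ∈ M.primeFactors, (M * p).factorization q = M.factorization q := by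
    intro q hq
    rw [Nat.factorization_mul hM hp.ne_zero]
    have hqp : q ≠ p := fun h => hpnmem (h ▸ hq)
    simp [hp.factorization, Finsupp.single_apply, hqp.symm]
  rw [Finset.prod_congr rfl fun q hq => by rw [h2 q hq], h1]
  simp

theorem gFun_prime {p : ℕ} (hp : p.Prime) : gFun p = p + 1 := by
  have := gFun_mul_of_not_dvd (M := 1) one_ne_zero hp (by simpa using hp.one_lt.ne')
  rwa [one_mul, gFun_one, mul_one] at this

end GFun

end Fermat.Agent.S28.H867

end
end
-- ===== PACK-END S28/H867/GFun.lean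

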