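import Mathlib
import Fermat.Prelude.Def_AlgebraicCurve_DivisorPushPull
import Fermat.Prelude.Def_ModularCurve_JqCoeff
import Fermat.Prelude.Def_AlgebraicCurve_DivisorClassGroup
import Mathlib.FieldTheory.IsAlgClosed.Basic
import Mathlib.Algebra.Polynomial.Reverse
import Fermat.Agent.Pack.S33.E7L1
import Fermat.Agent.Pack.S33.E1L0
import Fermat.Agent.Pack.S33.E7L2
import Fermat.Agent.Pack.S33.E7L0
import Fermat.Agent.Pack.S33.E8L0
import Fermat.Agent.Pack.S33.E1L2
import Fermat.Agent.Pack.S33.E8L3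
import Fermat.Agent.Pack.S33.E8L2
import Fermat.Agent.Pack.S33.E5L3
import Fermat.Agent.Pack.S33.E2L1
import Fermat.Agent.Pack.S33.E5L1

-- ===== PACK-BEGIN S24/H864/FF3c.lean
section


/-!
# S24 / ALG / FF1+FF3 (part c): the fundamental identity, abstract form

`R ⊆ S` Dedekind domains, `S` finite over `R`, `F = Frac S`, `p = (τ)` a maximal ideal of `R`
with residue field `K` (algebraically closed).  Then the places `v` of `F/K` with `0 < v(τ)`
(assumed to contain `R` in their valuation ring) correspond to the primes of `S` over `p`, and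
`∑_v v(τ) = rank_R S`.
-/

set_option autoImplicit false

noncomputable section

open AlgebraicCurve IsDedekindDomain

namespace Fermat.Agent.S24.H864

/-- universe-polymorphic version of `IsAlgClosed.of_ringEquiv` -/
theorem isAlgClosed_of_ringEquiv {k : Type*} {k' : Type*} [Field k] [Field k'] [IsAlgClosed k]
    (e : k ≃+* k') : IsAlgClosed k' := by
  apply IsAlgClosed.of_exists_root
  intro p hmp hp
  have hpe : (p.map e.symm.toRingHom).degree ≠ 0 := by
    rw [Polynomial.degree_map]
    exact ne_of_gt (Polynomial.degree_pos_of_irreducible hp)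
  rcases IsAlgClosed.exists_root (k := k) (p.map e.symm.toRingHom) hpe with ⟨x, hx⟩
  use e x
  rw [Polynomial.IsRoot] at hx
  apply e.symm.injective
  rw [map_zero, ← hx]
  clear hx hpe hp hmp
  induction p using Polynomial.induction_on <;> simp_all

section Rel

variable {K F : Type*} [Field K] [Field F] [Algebra K F]
variable {S : Type*} [CommRing S] [IsDedekindDomain S] [Algebra S F] [IsFractionRing S F]
  [Algebra K S] [IsScalarTower K S F]
variable {R : Type*} [CommRing R] [IsDomain R] [Algebra R S] [Algebra R F] [IsScalarTower R S F]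
  [Module.Finite R S]

omit [IsDedekindDomain S] [IsFractionRing S F] [Algebra K S] [IsScalarTower K S F] [IsDomain R] in
/-- valuation rings are integrally closed: `S ⊆ O_v` as soon as `R ⊆ O_v`. -/
theorem algebraMap_mem_of_base (v : Place K F)
    (hR : ∀ r : R, algebraMap R F r ∈ v.toValuationSubring) (s : S) :
    algebraMap S F s ∈ v.toValuationSubring := by
  have hint : IsIntegral R s := Algebra.IsIntegral.isIntegral s
  obtain ⟨P, hP, hPs⟩ := hint
  set φ : R →+* v.toValuationSubring :=
    (algebraMap R F).codRestrict v.toValuationSubring.toSubring hR with hφ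
  have hcomp : (algebraMap v.toValuationSubring F).comp φ = algebraMap R F := by
    ext r; rfl
  have h1 : IsIntegral v.toValuationSubring (algebraMap S F s) := by
    refine ⟨P.map φ, hP.map φ, ?_⟩
    rw [Polynomial.eval₂_map, hcomp]
    have h2 := congrArg (algebraMap S F) hPs
    rw [map_zero, Polynomial.hom_eval₂, ← IsScalarTower.algebraMap_eq] at h2
    exact h2
  obtain ⟨y, hy⟩ := IsIntegrallyClosed.isIntegral_iff.mp h1
  rw [← hy]
  exact y.2

variable (p : Ideal R) [hpmax : p.IsMaximal] (τ : R)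

omit [IsFractionRing S F] [Algebra K S] [IsScalarTower K S F] [Algebra R F] [IsScalarTower R S F]
  [Module.Finite R S] [IsDedekindDomain S] [IsDomain R] hpmax in
theorem algebraMap_mem_of_primesOver (hp : p = Ideal.span {τ}) (q : p.primesOver S) :
    algebraMap R S τ ∈ q.1 := by
  have h1 : τ ∈ p := by rw [hp]; exact Ideal.mem_span_singleton_self τ
  have h2 := q.1.over_def p
  rw [h2] at h1
  exact h1

omit [IsFractionRing S F] [Algebra K S] [IsScalarTower K S F] [Algebra R F] [IsScalarTower R S F]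
  [Module.Finite R S] [IsDedekindDomain S] [IsDomain R] hpmax in
theorem primesOver_ne_bot (hp : p = Ideal.span {τ}) (hτ : τ ≠ 0)
    (hinj : Function.Injective (algebraMap R S)) (q : p.primesOver S) : q.1 ≠ ⊥ := by
  intro h
  have h1 := algebraMap_mem_of_primesOver p τ hp q
  rw [h, Ideal.mem_bot] at h1
  exact hτ (hinj (by rw [h1, map_zero]))

/-- the height one prime attached to a prime over `p` -/
def wOf (hp : p = Ideal.span {τ}) (hτ : τ ≠ 0)
    (hinj : Function.Injective (algebraMap R S)) (q : p.primesOver S) : HeightOneSpectrum S :=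
  ⟨q.1, q.2.1, primesOver_ne_bot p τ hp hτ hinj q⟩

omit hpmax [Module.Finite R S] in
theorem ord_wOf (hp : p = Ideal.span {τ}) (hτ : τ ≠ 0)
    (hinj : Function.Injective (algebraMap R S)) (q : p.primesOver S) :
    (Place.ofHeightOneSpectrum (K := K) (F := F) (wOf p τ hp hτ hinj q)).ord (algebraMap R F τ)
      = (q.1.ramificationIdx R : ℤ) := by
  have hτ' : algebraMap R S τ ≠ 0 := fun h => hτ (hinj (by rw [h, map_zero]))
  rw [IsScalarTower.algebraMap_apply R S F, ord_ofHeightOneSpectrum_algebraMap _ hτ']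
  have hmap : p.map (algebraMap R S) = Ideal.span {algebraMap R S τ} := by
    rw [hp, Ideal.map_span, Set.image_singleton]
  have hne : p.map (algebraMap R S) ≠ ⊥ := by
    rw [hmap, Ne, Ideal.span_singleton_eq_bot]
    exact hτ'
  rw [Ideal.IsDedekindDomain.ramificationIdx_eq_multiplicity p q.1 hne, hmap]
  rfl

section Inertia

variable [IsAlgClosed K] [Algebra K R] [IsScalarTower K R S]

omit [IsFractionRing S F] [Algebra K S] [IsScalarTower K S F] [Algebra R F] [IsScalarTower R S F]
  [IsDedekindDomain S] [IsDomain R] [Algebra K F] [IsScalarTower K R S] in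
/-- residue field `K` algebraically closed ⟹ all inertia degrees are `1`. -/
theorem inertiaDeg_eq_one (hres : ∀ r : R, ∃ c : K, r - algebraMap K R c ∈ p)
    (q : p.primesOver S) : q.1.inertiaDeg R = 1 := by
  haveI : q.1.IsMaximal := Ideal.primesOver.isMaximal q
  rw [Ideal.inertiaDeg_eq_of_isMaximal p q.1]
  letI : Field (R ⧸ p) := Ideal.Quotient.field p
  letI : Field (S ⧸ q.1) := Ideal.Quotient.field q.1
  -- `K ≃ R ⧸ p`
  let f : K →+* R ⧸ p := (Ideal.Quotient.mk p).comp (algebraMap K R)
  have hf : Function.Bijective f := by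
    refine ⟨f.injective, fun y => ?_⟩
    obtain ⟨r, rfl⟩ := Ideal.Quotient.mk_surjective y
    obtain ⟨c, hc⟩ := hres r
    refine ⟨c, ?_⟩
    show Ideal.Quotient.mk p (algebraMap K R c) = Ideal.Quotient.mk p r
    rw [eq_comm, Ideal.Quotient.eq]
    exact hc
  haveI : IsAlgClosed (R ⧸ p) := isAlgClosed_of_ringEquiv (RingEquiv.ofBijective f hf)
  haveI : Algebra.IsIntegral (R ⧸ p) (S ⧸ q.1) := inferInstance
  have hbij : Function.Bijective (algebraMap (R ⧸ p) (S ⧸ q.1)) :=
    IsAlgClosed.algebraMap_bijective_of_isIntegral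
  have htop : (⊥ : Subalgebra (R ⧸ p) (S ⧸ q.1)) = ⊤ :=
    (Algebra.surjective_algebraMap_iff.mp hbij.2).symm
  exact Subalgebra.bot_eq_top_iff_finrank_eq_one.mp htop

end Inertia

section Main

variable [IsAlgClosed K] [Algebra K R] [IsScalarTower K R S] [Module.Flat R S]

/-- **Fundamental identity, abstract form.** -/
theorem fundamental_identity_abstract
    (hp : p = Ideal.span {τ}) (hτ : τ ≠ 0) (hinj : Function.Injective (algebraMap R S))
    (hres : ∀ r : R, ∃ c : K, r - algebraMap K R c ∈ p)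
    (hR : ∀ v : Place K F, 0 < v.ord (algebraMap R F τ) →
      ∀ r : R, algebraMap R F r ∈ v.toValuationSubring)
    (s : Finset (Place K F)) (hs : ∀ v, v ∈ s ↔ 0 < v.ord (algebraMap R F τ)) :
    ∑ v ∈ s, v.ord (algebraMap R F τ) = (Module.finrank R S : ℤ) := by
  classical
  haveI : Fintype (p.primesOver S) := (Algebra.QuasiFinite.finite_primesOver p).fintype
  have hsum := Ideal.sum_ramification_inertia_eq_finrank p S
  have hτ' : algebraMap R S τ ≠ 0 := fun h => hτ (hinj (by rw [h, map_zero]))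
  set g : p.primesOver S → Place K F :=
    fun q => Place.ofHeightOneSpectrum (K := K) (wOf p τ hp hτ hinj q) with hg
  have hg_inj : Function.Injective g := by
    intro q q' h
    have h1 : wOf p τ hp hτ hinj q = wOf p τ hp hτ hinj q' :=
      ofHeightOneSpectrum_injective (K := K) (F := F) h
    exact Subtype.ext (congrArg HeightOneSpectrum.asIdeal h1)
  have hg_ord : ∀ q, (g q).ord (algebraMap R F τ) = (q.1.ramificationIdx R : ℤ) :=
    fun q => ord_wOf p τ hp hτ hinj q
  have himg : Finset.univ.image g = s := by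
    ext v
    rw [Finset.mem_image, hs]
    constructor
    · rintro ⟨q, -, rfl⟩
      rw [hg_ord]
      exact_mod_cast Ideal.ramificationIdx_pos q.1 R
    · intro hv
      have hS := algebraMap_mem_of_base (S := S) v (hR v hv)
      have hv' : 0 < v.ord (algebraMap S F (algebraMap R S τ)) := by
        rwa [← IsScalarTower.algebraMap_apply R S F]
      obtain ⟨w, hw, hwq⟩ := exists_heightOneSpectrum_of_place v hS hτ' hv'
      have hle : p ≤ w.asIdeal.under R := by
        rw [hp, Ideal.span_singleton_le_iff_mem, Ideal.under_def, Ideal.mem_comap, hwq]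
        exact (mem_primeOfPlace v hS hτ').mpr hv'
      have hne : w.asIdeal.under R ≠ ⊤ := (Ideal.IsPrime.under R w.asIdeal).ne_top
      have hq : w.asIdeal ∈ p.primesOver S := ⟨w.isPrime, ⟨hpmax.eq_of_le hne hle⟩⟩
      refine ⟨⟨w.asIdeal, hq⟩, Finset.mem_univ _, ?_⟩
      rw [← hw]
      show Place.ofHeightOneSpectrum (K := K) (wOf p τ hp hτ hinj ⟨w.asIdeal, hq⟩) = _
      congr 1
  rw [← himg, Finset.sum_image (fun a _ b _ h => hg_inj h)]
  simp_rw [hg_ord]
  rw [← hsum]
  push_cast
  refine Finset.sum_congr rfl fun q _ => ?_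
  rw [inertiaDeg_eq_one p hres q, Nat.cast_one, mul_one]

end Main

end Rel

end Fermat.Agent.S24.H864

end
end
-- ===== PACK-END S24/H864/FF3c.lean

-- ===== PACK-BEGIN S29/H812/OrdSum.lean
section





/-!
# S29 / H812 — order of a finite sum with a unique strictly minimal term, and local
"indicator" functions at the places of a finite set (from weak approximation).
-/

set_option autoImplicit false

noncomputable section

open AlgebraicCurve WithZero

namespace Fermat.Agent.S29.H812

open Fermat.Agent.S24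

variable {K F : Type*} [Field K] [Field F] [Algebra K F] (v : Place K F)

/-- If one term of a finite sum has strictly smaller order than all other nonzero terms, then the
sum is nonzero and has the order of that term. -/
theorem ord_sum_eq_of_lt {ι : Type*} (s : Finset ι) (f : ι → F) (j : ι) (hj : j ∈ s)
    (hfj : f j ≠ 0) (h : ∀ i ∈ s, i ≠ j → f i = 0 ∨ v.ord (f j) < v.ord (f i)) :
    (∑ i ∈ s, f i) ≠ 0 ∧ v.ord (∑ i ∈ s, f i) = v.ord (f j) := by
  classical
  have key : v.adicValuation (∑ i ∈ s, f i) = v.adicValuation (f j) := by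
    apply Valuation.map_sum_eq_of_lt _ hj
    intro i hi
    rw [Finset.mem_sdiff, Finset.mem_singleton] at hi
    by_cases hi0 : f i = 0
    · rw [hi0, map_zero]
      exact zero_lt_iff.mpr (v.adicValuation_ne_zero hfj)
    · rcases h i hi.1 hi.2 with h0 | hlt
      · exact absurd h0 hi0
      · rw [H504.adicValuation_eq_exp_neg_ord v hi0, H504.adicValuation_eq_exp_neg_ord v hfj,
          exp_lt_exp]
        omega
  have hne : (∑ i ∈ s, f i) ≠ 0 := by
    intro h0
    rw [h0, map_zero] at key
    exact v.adicValuation_ne_zero hfj key.symm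
  refine ⟨hne, ?_⟩
  rw [H504.adicValuation_eq_exp_neg_ord v hne, H504.adicValuation_eq_exp_neg_ord v hfj] at key
  have := WithZero.exp_injective key
  omega

/-- `ord` of a finite sum is at least a common lower bound of the orders of the nonzero terms,
provided the sum is nonzero. -/
theorem le_ord_sum {ι : Type*} (s : Finset ι) (f : ι → F) (m : ℤ)
    (h : ∀ i ∈ s, f i = 0 ∨ m ≤ v.ord (f i)) (hne : (∑ i ∈ s, f i) ≠ 0) :
    m ≤ v.ord (∑ i ∈ s, f i) := by
  classical
  have key : v.adicValuation (∑ i ∈ s, f i) ≤ exp (-m) := by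
    apply Valuation.map_sum_le
    intro i hi
    by_cases hi0 : f i = 0
    · rw [hi0, map_zero]; exact _root_.zero_le
    · rcases h i hi with h0 | hle
      · exact absurd h0 hi0
      · rw [H504.adicValuation_eq_exp_neg_ord v hi0, exp_le_exp]
        omega
  rw [H504.adicValuation_eq_exp_neg_ord v hne, exp_le_exp] at key
  omega

/-- Membership version: a finite sum of elements of the valuation ring is in the valuation
ring. -/
theorem ord_one_add_of_neg {f : F} (hf : v.ord f < 0) :
    1 + f ≠ 0 ∧ v.ord (1 + f) = v.ord f := by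
  have hf0 : f ≠ 0 := H117.ne_zero_of_ord_ne_zero v hf.ne
  have h := H117.ord_add_eq_of_lt v (f := f) (g := 1) (by rw [v.ord_one]; exact hf) hf0
  rw [add_comm] at h
  refine ⟨?_, h⟩
  intro h0
  rw [h0, v.ord_zero] at h
  omega

theorem ord_one_add_of_pos {f : F} (hf : 0 < v.ord f) :
    1 + f ≠ 0 ∧ v.ord (1 + f) = 0 := by
  have h := H117.ord_add_eq_of_lt v (f := 1) (g := f) (by rw [v.ord_one]; exact hf) one_ne_zero
  rw [v.ord_one] at h
  refine ⟨?_, h⟩
  intro h0
  have hf1 : f = -1 := by linear_combination h0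
  rw [hf1, H117.ord_neg, v.ord_one] at hf
  exact lt_irrefl _ hf

/-- **Indicator functions.**  For a place `w` and a finite set `s` of other places there is
`ε` with `ε ≡ 1` at `w` (i.e. `ord_w (1 - ε) > 0`, `ord_w ε = 0`) and `ord_{w'} ε > 0`,
`ord_{w'} (1 - ε) = 0` for `w' ∈ s`. -/
theorem exists_indicator (w : Place K F) (s : Finset (Place K F)) (hw : w ∉ s) :
    ∃ ε : F, ε ≠ 0 ∧ 1 - ε ≠ 0 ∧ w.ord ε = 0 ∧ 0 < w.ord (1 - ε) ∧
      ∀ w' ∈ s, 0 < w'.ord ε ∧ w'.ord (1 - ε) = 0 := by
  obtain ⟨f, hf1, hf2⟩ := H117.exists_ord_neg_forall_pos w s hw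
  have hf0 : f ≠ 0 := H117.ne_zero_of_ord_ne_zero w hf1.ne
  obtain ⟨h1, h2⟩ := ord_one_add_of_neg w hf1
  have hinv : (1 + f)⁻¹ ≠ 0 := inv_ne_zero h1
  have hε : 1 - f / (1 + f) = (1 + f)⁻¹ := by field_simp; ring
  refine ⟨f / (1 + f), div_ne_zero hf0 h1, by rw [hε]; exact hinv, ?_, ?_, ?_⟩
  · rw [H117.ord_div w hf0 h1, h2]; ring
  · rw [hε, w.ord_inv, h2]; omega
  · intro w' hw'
    obtain ⟨h3, h4⟩ := ord_one_add_of_pos w' (hf2 w' hw')
    constructor
    · rw [H117.ord_div w' hf0 h3, h4]; have := hf2 w' hw'; omega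
    · rw [hε, w'.ord_inv, h4]; rfl

end Fermat.Agent.S29.H812

end
end
-- ===== PACK-END S29/H812/OrdSum.lean

-- ===== PACK-BEGIN S28/H685/JFun.lean
section





/-!
# S28 helper (helper685): the analytic `j`-function and its formal `q`-expansion

* `jFun τ = E₄ τ ^ 3 / Δ τ`, holomorphic on `ℍ`, invariant under `SL(2, ℤ)`.
* `hasQLaurent_jFun` : `jFun` is the sum of the Prelude's formal series `ModularCurve.jqModC ℂ`
  (the image of `ModularCurve.jq` in `ℂ((q))`).
* `exists_polynomial_of_S_invariant` : **the `j`-polynomial principle**.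
* `exists_polynomial_of_S_invariant_of_mem` : integrality of the polynomial.
-/

set_option autoImplicit false

namespace Fermat.Agent.S28.H685

open UpperHalfPlane Function Complex Filter HahnSeries ModularForm SlashInvariantForm
  ModularFormClass EisensteinSeries
open scoped Topology Manifold MatrixGroups

noncomputable section

local notation "𝕢" => Periodic.qParam

/-- The analytic `j`-function (normalised as `q⁻¹ + 744 + ⋯`). -/
def jFun (τ : ℍ) : ℂ := E₄ τ ^ 3 / ModularForm.discriminant τ

/-- The formal `q`-expansion of `E₄`, with complex coefficients. -/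
def eisenstein4C : PowerSeries ℂ := ModularCurve.eisenstein4.map (Int.castRingHom ℂ)

theorem qExpansion_E4_eq : qExpansion 1 E₄ = eisenstein4C := by
  ext m
  rw [E_qExpansion_coeff _ ⟨2, rfl⟩]
  simp only [eisenstein4C, ModularCurve.eisenstein4, PowerSeries.coeff_map, PowerSeries.coeff_mk]
  split_ifs with h
  · simp
  · rw [show bernoulli 4 = -1 / 30 by decide +kernel, ArithmeticFunction.sigma_apply]
    simp only [eq_intCast]
    push_cast
    norm_num

theorem hasQExp_E4 : HasQExp 1 E₄ eisenstein4C := by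
  intro τ
  have := ModularForm.hasSum_qExpansion E₄ one_pos one_mem_strictPeriods_SL τ
  rwa [qExpansion_E4_eq] at this

theorem discriminant_eq_etaC (τ : ℍ) :
    ModularForm.discriminant τ = 𝕢 1 τ * etaC (𝕢 1 τ) ^ 24 := by
  rw [discriminant_eq_q_prod]
  congr 1
  have hq : ‖𝕢 1 (τ : ℂ)‖ < 1 := Periodic.norm_qParam_lt_one one_pos τ.im_pos
  rw [etaC, ← (multipliable_one_sub_pow hq).tprod_pow]

theorem etaC_qParam_ne_zero (τ : ℍ) : etaC (𝕢 1 τ) ≠ 0 := by
  intro h0
  have := discriminant_ne_zero τ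
  rw [discriminant_eq_etaC, h0] at this
  simp at this

/-- The formal series `η^24 / q`, with complex coefficients. -/
def dedekindEtaUnitC : PowerSeries ℂ := ModularCurve.dedekindEtaUnit.map (Int.castRingHom ℂ)

theorem dedekindEtaUnitC_eq : dedekindEtaUnitC = etaProdC ^ 24 := by
  rw [dedekindEtaUnitC, ModularCurve.dedekindEtaUnit, map_pow, etaProdC]

theorem hasQExp_dedekindEtaUnitC : HasQExp 1 (fun τ => etaC (𝕢 1 τ) ^ 24) dedekindEtaUnitC := by
  rw [dedekindEtaUnitC_eq]
  exact hasQExp_etaC.pow 24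

theorem dedekindEtaUnitC_inv :
    dedekindEtaUnitC⁻¹ = ModularCurve.dedekindEtaUnitInv.map (Int.castRingHom ℂ) := by
  have h0 : PowerSeries.constantCoeff dedekindEtaUnitC ≠ 0 := by
    rw [dedekindEtaUnitC, ← PowerSeries.coeff_zero_eq_constantCoeff, PowerSeries.coeff_map,
      PowerSeries.coeff_zero_eq_constantCoeff, ModularCurve.constantCoeff_dedekindEtaUnit]
    simp
  symm
  rw [PowerSeries.eq_inv_iff_mul_eq_one h0, dedekindEtaUnitC, ← _root_.map_mul, mul_comm,
    ModularCurve.dedekindEtaUnit_mul_inv, _root_.map_one]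

/-- The formal numerator of `j`, with complex coefficients. -/
def jNumC : PowerSeries ℂ := ModularCurve.jNum.map (Int.castRingHom ℂ)

theorem jNumC_eq : jNumC = eisenstein4C ^ 3 * dedekindEtaUnitC⁻¹ := by
  rw [jNumC, ModularCurve.jNum, _root_.map_mul, map_pow, dedekindEtaUnitC_inv, eisenstein4C]

theorem constantCoeff_jNumC : PowerSeries.constantCoeff jNumC = 1 := by
  rw [jNumC, ← PowerSeries.coeff_zero_eq_constantCoeff, PowerSeries.coeff_map,
    PowerSeries.coeff_zero_eq_constantCoeff, ModularCurve.constantCoeff_jNum]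
  simp

theorem hasQExp_jNumC : HasQExp 1 (fun τ => E₄ τ ^ 3 * (etaC (𝕢 1 τ) ^ 24)⁻¹) jNumC := by
  rw [jNumC_eq]
  refine (hasQExp_E4.pow 3).mul (hasQExp_dedekindEtaUnitC.inv one_pos
    (fun τ => pow_ne_zero _ (etaC_qParam_ne_zero τ)) ?_)
  rw [dedekindEtaUnitC, PowerSeries.coeff_map, PowerSeries.coeff_zero_eq_constantCoeff,
    ModularCurve.constantCoeff_dedekindEtaUnit]
  simp

theorem jqModC_eq : ModularCurve.jqModC ℂ =
    HahnSeries.single (-1 : ℤ) (1 : ℂ) * HahnSeries.ofPowerSeries ℤ ℂ jNumC := rfl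

/-- **Bridge**: the analytic `j`-function is the sum of the Prelude's formal series `jq`. -/
theorem hasQLaurent_jFun : HasQLaurent 1 jFun (ModularCurve.jqModC ℂ) := by
  rw [jqModC_eq, hasQLaurent_single_mul_iff]
  refine hasQExp_jNumC.congr_fun fun τ => ?_
  have hq : 𝕢 1 (τ : ℂ) ≠ 0 := Periodic.qParam_ne_zero _
  have hη := etaC_qParam_ne_zero τ
  rw [jFun, discriminant_eq_etaC]
  simp only [neg_neg, zpow_one]
  field_simp

/-- `jFun` in the explicit `HasSum` form, in terms of `ModularCurve.jq`. -/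
theorem hasSum_jq (τ : ℍ) :
    HasSum (fun n : ℤ => ((ModularCurve.jq.coeff n : ℚ) : ℂ) * 𝕢 1 τ ^ n) (jFun τ) := by
  have := hasQLaurent_jFun τ
  have hc : ∀ n : ℤ, (ModularCurve.jqModC ℂ).coeff n = ((ModularCurve.jq.coeff n : ℚ) : ℂ) := by
    intro n
    rw [← ModularCurve.jqModC_rat, ← ModularCurve.map_jqModC (algebraMap ℚ ℂ),
      HahnSeries.map_coeff]
    rfl
  simpa only [hc] using this

theorem jFun_S (τ : ℍ) : jFun (ModularGroup.S • τ) = jFun τ := by
  have hS : ((ModularGroup.S : SL(2, ℤ)) : GL (Fin 2) ℝ) ∈ 𝒮ℒ := ⟨ModularGroup.S, rfl⟩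
  have h1 : E₄ (ModularGroup.S • τ) = _ := slash_action_eqn'' E₄ hS τ
  have h2 : CuspForm.discriminant (ModularGroup.S • τ) = _ :=
    slash_action_eqn'' CuspForm.discriminant hS τ
  have hd : denom ((ModularGroup.S : SL(2, ℤ)) : GL (Fin 2) ℝ) τ ≠ 0 := denom_ne_zero _ _
  have hΔ := discriminant_ne_zero τ
  rw [CuspForm.coe_discriminant] at h2
  rw [jFun, jFun]
  rw [h1, h2]
  rw [div_eq_div_iff (_root_.mul_ne_zero (zpow_ne_zero _ hd) hΔ) hΔ]
  rw [mul_pow, ← zpow_natCast, ← zpow_mul]
  norm_num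
  ring

theorem jFun_T (τ : ℍ) : jFun (ModularGroup.T • τ) = jFun τ :=
  hasQLaurent_jFun.T_invariant τ

theorem mdifferentiable_jFun : MDiff jFun :=
  hasQLaurent_jFun.mdifferentiable one_pos

/-- **The `j`-polynomial principle.**  A function on `ℍ` which is the sum of a convergent
Laurent series `φ` in `q = exp (2 π i τ)` with exponents `≥ -m` and which is invariant under
`τ ↦ -1/τ` is a polynomial of degree `≤ m` in `j`; the same identity holds formally. -/
theorem exists_polynomial_of_S_invariant (m : ℕ) (F : ℍ → ℂ) (φ : LaurentSeries ℂ)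
    (hφ : ∀ n : ℤ, n < -(m : ℤ) → φ.coeff n = 0) (hF : HasQLaurent 1 F φ)
    (hS : ∀ τ, F (ModularGroup.S • τ) = F τ) :
    ∃ P : Polynomial ℂ, P.natDegree ≤ m ∧ φ = Polynomial.aeval (ModularCurve.jqModC ℂ) P ∧
      ∀ τ, F τ = P.eval (jFun τ) :=
  exists_polynomial_of_S_invariant_aux jFun jNumC constantCoeff_jNumC hasQLaurent_jFun jFun_S
    m F φ hφ hF hS

/-- Version without an a priori bound on the pole order. -/
theorem exists_polynomial_of_S_invariant' (F : ℍ → ℂ) (φ : LaurentSeries ℂ)
    (hF : HasQLaurent 1 F φ) (hS : ∀ τ, F (ModularGroup.S • τ) = F τ) :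
    ∃ P : Polynomial ℂ, φ = Polynomial.aeval (ModularCurve.jqModC ℂ) P ∧
      ∀ τ, F τ = P.eval (jFun τ) := by
  obtain ⟨P, -, h1, h2⟩ := exists_polynomial_of_S_invariant (-φ.order).toNat F φ
    (fun n hn => HahnSeries.coeff_eq_zero_of_lt_order (by omega)) hF hS
  exact ⟨P, h1, h2⟩

end

end Fermat.Agent.S28.H685

end
-- ===== PACK-END S28/H685/JFun.lean

-- ===== PACK-BEGIN S28/H25/ThetaLaurent.lean
section




/-!
# The `θ`-identity for `j` in `ℤ((q))` (helper25, S28 piece [A-θ])

`(θ j)⁶ = Δ · j⁴ · (j - 1728)³` for `j = jqModC ℤ`, `Δ = q ∏ (1 - qⁿ)²⁴`, `θ = q d/dq`,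
under the bridge hypothesis `DeltaBridge`.
-/

set_option autoImplicit false

open ModularCurve HahnSeries

noncomputable section

namespace Fermat.Agent.S28.H25

/-- `θ = q d/dq` on Laurent series: multiplies the coefficient of `qⁿ` by `n`.
(Same definition as `thetaL` in helper28's skeleton.) -/
def thetaLaurent (R : Type*) [CommRing R] (f : LaurentSeries R) : LaurentSeries R where
  coeff n := (n : R) * f.coeff n
  isPWO_support' := f.isPWO_support.mono fun n hn => by
    simp only [Function.mem_support, ne_eq] at hn ⊢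
    intro h
    exact hn (by rw [h, mul_zero])

@[simp] theorem thetaLaurent_coeff (R : Type*) [CommRing R] (f : LaurentSeries R) (n : ℤ) :
    (thetaLaurent R f).coeff n = (n : R) * f.coeff n := rfl

theorem thetaLaurent_single_neg_one_mul {R : Type*} [CommRing R] (u : PowerSeries R) :
    thetaLaurent R (single (-1 : ℤ) 1 * ofPowerSeries ℤ R u) =
      single (-1 : ℤ) 1 * ofPowerSeries ℤ R (thetaP u - u) := by
  ext n
  rw [thetaLaurent_coeff, coeff_single_mul, coeff_single_mul, one_mul, one_mul, sub_neg_eq_add]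
  rcases le_or_gt 0 (n + 1) with hn | hn
  · obtain ⟨m, hm⟩ := Int.eq_ofNat_of_zero_le hn
    rw [hm, ofPowerSeries_apply_coeff, ofPowerSeries_apply_coeff, _root_.map_sub, coeff_thetaP]
    have hn' : (n : R) = (m : R) - 1 := by
      have : n = (m : ℤ) - 1 := by omega
      rw [this]
      push_cast
      ring
    rw [hn']
    ring
  · rw [ofPowerSeries_coeff_of_neg _ hn, ofPowerSeries_coeff_of_neg _ hn, mul_zero]

theorem jNum_map_int : jNum.map (Int.castRingHom ℤ) = jNum := by
  ext n
  simp

theorem jqModC_int_eq : jqModC ℤ = single (-1 : ℤ) 1 * ofPowerSeries ℤ ℤ jNum := by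
  rw [jqModC, jNum_map_int]

/-- The formal discriminant `Δ = q ∏ (1 - qⁿ)²⁴` in `ℤ((q))`. -/
def deltaLaurentInt : LaurentSeries ℤ :=
  single (1 : ℤ) 1 * ofPowerSeries ℤ ℤ dedekindEtaUnit

/-- **θ-identity**: `(θ j)⁶ = Δ · j⁴ · (j - 1728)³` in `ℤ((q))`. -/
theorem theta_identity_laurent (hΔ : DeltaBridge) :
    (thetaLaurent ℤ (jqModC ℤ)) ^ 6 =
      deltaLaurentInt * (jqModC ℤ) ^ 4 * (jqModC ℤ - 1728) ^ 3 := by
  have hP := theta_identity_powerSeries hΔ
  have hst : (single (-1 : ℤ) (1 : ℤ) : LaurentSeries ℤ) * single (1 : ℤ) (1 : ℤ) = 1 := by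
    rw [single_mul_single]
    simp
  have hj' : jqModC ℤ - 1728 =
      single (-1 : ℤ) 1 * ofPowerSeries ℤ ℤ (jNum - 1728 * PowerSeries.X) := by
    rw [jqModC_int_eq, _root_.map_sub, _root_.map_mul, ofPowerSeries_X, map_ofNat (ofPowerSeries ℤ ℤ) 1728]
    linear_combination (1728 : LaurentSeries ℤ) * hst
  have hP' : (ofPowerSeries ℤ ℤ (thetaP jNum - jNum)) ^ 6 =
      ofPowerSeries ℤ ℤ dedekindEtaUnit * (ofPowerSeries ℤ ℤ jNum) ^ 4 *
        (ofPowerSeries ℤ ℤ (jNum - 1728 * PowerSeries.X)) ^ 3 := by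
    rw [← map_pow, hP]
    simp only [_root_.map_mul, map_pow]
  rw [hj', jqModC_int_eq, thetaLaurent_single_neg_one_mul, deltaLaurentInt]
  linear_combination (single (-1 : ℤ) (1 : ℤ) : LaurentSeries ℤ) ^ 6 * hP' -
    (single (-1 : ℤ) (1 : ℤ) : LaurentSeries ℤ) ^ 6 * ofPowerSeries ℤ ℤ dedekindEtaUnit *
      (ofPowerSeries ℤ ℤ jNum) ^ 4 * (ofPowerSeries ℤ ℤ (jNum - 1728 * PowerSeries.X)) ^ 3 * hst

end Fermat.Agent.S28.H25

end
end
-- ===== PACK-END S28/H25/ThetaLaurent.lean

-- ===== PACK-BEGIN S28/H326/Polys.lean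
section
/-
S28 / helper326: from the Hecke input to the polynomials
`W = ∏ (X - w i)` and `Φ = ∏ (X - y i)` with coefficients in `ℤ[j(t^p)]`.
-/




set_option autoImplicit false
set_option linter.unusedSectionVars false

noncomputable section

namespace Fermat.Agent.S28.H326

open ModularCurve HahnSeries

/-! ### Series without negative part -/

/-- Laurent series over `ℂ` without terms of negative degree. -/
def NonNeg : Subring (LaurentSeries ℂ) where
  carrier := {x | ∀ n : ℤ, n < 0 → x.coeff n = 0}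
  mul_mem' {x y} hx hy n hn := by
    rw [HahnSeries.coeff_mul]
    refine Finset.sum_eq_zero fun ij hij => ?_
    rw [Finset.mem_antidiagonal] at hij
    rcases lt_or_ge ij.1 0 with h1 | h1
    · rw [hx _ h1, zero_mul]
    · have h2 : ij.2 < 0 := by
        have := hij.2.2
        omega
      rw [hy _ h2, mul_zero]
  one_mem' n hn := by
    rw [HahnSeries.coeff_one, if_neg hn.ne]
  add_mem' {x y} hx hy n hn := by
    rw [HahnSeries.coeff_add, hx n hn, hy n hn, add_zero]
  zero_mem' n _ := HahnSeries.coeff_zero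
  neg_mem' {x} hx n hn := by
    rw [HahnSeries.coeff_neg, hx n hn, neg_zero]

theorem C_mem_NonNeg (c : ℂ) : HahnSeries.C c ∈ NonNeg := fun n hn => by
  show (HahnSeries.single 0 c).coeff n = 0
  exact HahnSeries.coeff_single_of_ne hn.ne

variable (p : ℕ) [NeZero p]

theorem qExpand_mem_NonNeg {x : LaurentSeries ℂ} (hx : x ∈ NonNeg) :
    qExpand ℂ p x ∈ NonNeg := fun n hn => by
  by_cases h : (p : ℤ) ∣ n
  · obtain ⟨m, rfl⟩ := h
    rw [qExpand_coeff_mul]
    refine hx m ?_
    have hp : (0 : ℤ) < p := by exact_mod_cast Nat.pos_of_ne_zero (NeZero.ne p)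
    by_contra hm
    rw [not_lt] at hm
    have := mul_nonneg hp.le hm
    omega
  · exact qExpand_coeff_of_not_dvd p _ h

theorem ofPS_mem_NonNeg (g : PowerSeries ℂ) : ofPS g ∈ NonNeg := fun _ hn => ofPS_coeff_neg g hn

theorem conj_mem_NonNeg (i : Option (Fin p)) (g : PowerSeries ℂ) : conj p i g ∈ NonNeg := by
  cases i with
  | none => exact qExpand_mem_NonNeg p (qExpand_mem_NonNeg p (ofPS_mem_NonNeg g))
  | some b => exact ofPS_mem_NonNeg _

theorem cBase_mem_NonNeg (g : PowerSeries ℂ) : cBase p g ∈ NonNeg :=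
  qExpand_mem_NonNeg p (ofPS_mem_NonNeg g)

/-- An element of `ℚ[j(t^p)]` without negative part is a constant. -/
theorem exists_const_of_mem_Bsub_of_mem_NonNeg {x : LaurentSeries ℂ} (hB : x ∈ Bsub p)
    (hN : x ∈ NonNeg) : ∃ c : ℚ, x = algebraMap ℚ (LaurentSeries ℂ) c := by
  obtain ⟨Q, rfl⟩ := hB
  rcases Nat.eq_zero_or_pos Q.natDegree with h0 | hpos
  · refine ⟨Q.coeff 0, ?_⟩
    rw [Polynomial.eq_C_of_natDegree_eq_zero h0]
    simp
  · exfalso
    have h1 := aeval_jP_coeff p Q le_rfl
    have hneg : -((p : ℤ) * (Q.natDegree : ℤ)) < 0 := by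
      have hp : (0 : ℤ) < p := by exact_mod_cast Nat.pos_of_ne_zero (NeZero.ne p)
      have hd : (0 : ℤ) < Q.natDegree := by exact_mod_cast hpos
      have := mul_pos hp hd
      omega
    have h2 : (Polynomial.aeval (jP p) Q).coeff (-((p : ℤ) * (Q.natDegree : ℤ))) = 0 :=
      hN _ hneg
    rw [h1] at h2
    have h3 : Q.coeff Q.natDegree = 0 := by exact_mod_cast h2
    have h4 : Q = 0 := Polynomial.leadingCoeff_eq_zero.mp h3
    rw [h4] at hpos
    simp at hpos

/-! ### The unit part of the `w i` -/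

/-- the unit `∏ (1 - qⁿ)²⁴` over `ℂ` -/
def UC : PowerSeries ℂ := toC dedekindEtaUnit
/-- its inverse -/
def UinvC : PowerSeries ℂ := toC dedekindEtaUnitInv

theorem DC_eq : DC = PowerSeries.X * UC := by
  rw [DC, DZ, _root_.map_mul, PowerSeries.map_X, UC]

theorem UC_mul_UinvC : UC * UinvC = 1 := by
  rw [UC, UinvC, ← _root_.map_mul, dedekindEtaUnit_mul_inv, _root_.map_one]

theorem delInv_eq : delInv p = HahnSeries.single (-(p : ℤ)) 1 * cBase p UinvC := by
  rw [delInv, deltaInvZ, _root_.map_mul, _root_.map_mul, coeffMap_single, qExpand_single, kap_ofPS, cBase,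
    RingHom.comp_apply, UinvC, _root_.map_one, mul_neg, mul_one]

/-- exponent of the monomial part of `w i` -/
def wExp : Option (Fin p) → ℤ
  | none => (p : ℤ) * p - p
  | some _ => 1 - p

/-- leading constant of `conj i X` -/
def wConst : Option (Fin p) → ℂ
  | none => 1
  | some b => zeta p ^ (b : ℕ)

/-- degree of `conj i X` -/
def xExp : Option (Fin p) → ℤ
  | none => (p : ℤ) * p
  | some _ => 1

theorem conj_X (i : Option (Fin p)) :
    conj p i PowerSeries.X = HahnSeries.C (wConst p i) * HahnSeries.single (xExp p i) 1 := by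
  cases i with
  | none =>
    simp only [conj, cInf, cBase, RingHom.comp_apply, wConst, xExp, _root_.map_one, one_mul]
    rw [HahnSeries.ofPowerSeries_X, qExpand_single, qExpand_single, mul_one]
  | some b =>
    simp only [conj, cB, RingHom.comp_apply, wConst, xExp]
    rw [PowerSeries.rescale_X, _root_.map_mul, HahnSeries.ofPowerSeries_C, HahnSeries.ofPowerSeries_X]

theorem wExp_eq (i : Option (Fin p)) : wExp p i = xExp p i - p := by
  cases i <;> simp [wExp, xExp]

/-- the power series part of `w i` -/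
def wUnit (i : Option (Fin p)) : LaurentSeries ℂ :=
  scal p i * HahnSeries.C (wConst p i) * conj p i UC * cBase p UinvC

theorem w_eq (i : Option (Fin p)) : w p i = HahnSeries.single (wExp p i) 1 * wUnit p i := by
  have h : HahnSeries.single (wExp p i) (1 : ℂ) =
      HahnSeries.single (xExp p i) 1 * HahnSeries.single (-(p : ℤ)) 1 := by
    rw [HahnSeries.single_mul_single, wExp_eq, mul_one, sub_eq_add_neg]
  rw [w, wUnit, DC_eq, _root_.map_mul, conj_X, delInv_eq, h]
  ring

theorem scal_mem_NonNeg (i : Option (Fin p)) : scal p i ∈ NonNeg := by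
  cases i with
  | none => exact Subring.pow_mem _ (natCast_mem _ p) 12
  | some b => exact Subring.one_mem _

theorem wUnit_mem_NonNeg (i : Option (Fin p)) : wUnit p i ∈ NonNeg :=
  Subring.mul_mem _ (Subring.mul_mem _ (Subring.mul_mem _ (scal_mem_NonNeg p i)
    (C_mem_NonNeg _)) (conj_mem_NonNeg p i UC)) (cBase_mem_NonNeg p UinvC)

theorem prod_single {ι : Type*} (s : Finset ι) (e : ι → ℤ) :
    ∏ i ∈ s, HahnSeries.single (e i) (1 : ℂ) = HahnSeries.single (∑ i ∈ s, e i) 1 := by
  classical
  induction s using Finset.induction_on with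
  | empty => simp
  | insert a s ha ih =>
    rw [Finset.prod_insert ha, Finset.sum_insert ha, ih, HahnSeries.single_mul_single, mul_one]

theorem sum_wExp : ∑ i, wExp p i = 0 := by
  rw [Fintype.sum_option]
  simp only [wExp, Finset.sum_const, Finset.card_univ, Fintype.card_fin, nsmul_eq_mul]
  ring

theorem prod_w_mem_NonNeg : ∏ i, w p i ∈ NonNeg := by
  simp only [w_eq]
  rw [Finset.prod_mul_distrib, prod_single, sum_wExp]
  have : HahnSeries.single (0 : ℤ) (1 : ℂ) = 1 := rfl
  rw [this, one_mul]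
  exact Subring.prod_mem _ fun i _ => wUnit_mem_NonNeg p i

/-! ### Nonvanishing -/

theorem toC_injective : Function.Injective toC := by
  intro x y h
  ext n
  have := congrArg (fun z => PowerSeries.coeff n z) h
  simpa using this

theorem conj_injective (i : Option (Fin p)) : Function.Injective (conj p i) := by
  cases i with
  | none =>
    exact (qExpand_injective p).comp ((qExpand_injective p).comp
      HahnSeries.ofPowerSeries_injective)
  | some b =>
    exact HahnSeries.ofPowerSeries_injective.comp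
      (PowerSeries.rescale_injective (pow_ne_zero _ (zeta_ne_zero p)))

theorem DZ_ne_zero : DZ ≠ 0 := by
  intro h
  have h1 : DZ.coeff 1 = 1 := by
    rw [DZ, show (1 : ℕ) = 0 + 1 from rfl, PowerSeries.coeff_succ_X_mul,
      PowerSeries.coeff_zero_eq_constantCoeff, constantCoeff_dedekindEtaUnit]
  rw [h] at h1
  simp at h1

theorem DC_ne_zero : DC ≠ 0 := fun h => DZ_ne_zero (toC_injective (by rw [← DC, h, _root_.map_zero]))

theorem delInv_ne_zero : delInv p ≠ 0 := fun h => by
  have := del_mul_delInv p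
  rw [h, mul_zero] at this
  exact zero_ne_one this

theorem scal_ne_zero (i : Option (Fin p)) : scal p i ≠ 0 := by
  cases i with
  | none =>
    refine pow_ne_zero _ fun h => ?_
    have h1 := natCast_mul_coeff p 1 0
    rw [mul_one, h, HahnSeries.coeff_zero, HahnSeries.coeff_one, if_pos rfl, mul_one] at h1
    exact NeZero.ne p (by exact_mod_cast h1.symm)
  | some b => exact one_ne_zero

theorem w_ne_zero (i : Option (Fin p)) : w p i ≠ 0 := by
  rw [w]
  refine mul_ne_zero (mul_ne_zero (scal_ne_zero p i) ?_) (delInv_ne_zero p)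
  rw [Ne, map_eq_zero_iff _ (_root_.Fermat.Agent.S28.H326.conj_injective p i)]
  exact DC_ne_zero

/-! ### The polynomial `W` -/

/-- `W = ∏ (X - w i)` over `ℂ((t))` -/
def WPoly : Polynomial (LaurentSeries ℂ) := ∏ i, (Polynomial.X - Polynomial.C (w p i))

theorem WPoly_monic : (WPoly p).Monic :=
  Polynomial.monic_prod_of_monic _ _ fun _ _ => Polynomial.monic_X_sub_C _

theorem WPoly_natDegree : (WPoly p).natDegree = p + 1 := by
  rw [WPoly, Polynomial.natDegree_prod_of_monic _ _ fun i _ => Polynomial.monic_X_sub_C _]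
  simp

theorem WPoly_coeff_mem (h : HeckeInput p) (n : ℕ) : (WPoly p).coeff n ∈ Bsub p :=
  prod_X_sub_C_mem_of_psum_mem (Bsub p) (w p) (fun m _ => sum_w_pow_mem p h m) n

theorem WPoly_eval (i : Option (Fin p)) : (WPoly p).eval (w p i) = 0 := by
  rw [WPoly, Polynomial.eval_prod]
  exact Finset.prod_eq_zero (Finset.mem_univ i) (by simp)

theorem WPoly_coeff_zero : (WPoly p).coeff 0 = ∏ i, (-(w p i)) := by
  rw [Polynomial.coeff_zero_eq_eval_zero, WPoly, Polynomial.eval_prod]
  simp

theorem exists_WPoly_coeff_zero (h : HeckeInput p) :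
    ∃ c : ℚ, c ≠ 0 ∧ (WPoly p).coeff 0 = algebraMap ℚ (LaurentSeries ℂ) c := by
  have hN : (WPoly p).coeff 0 ∈ NonNeg := by
    rw [WPoly_coeff_zero]
    have : ∏ i, (-(w p i)) = (∏ _i : Option (Fin p), (-1 : LaurentSeries ℂ)) * ∏ i, w p i := by
      rw [← Finset.prod_mul_distrib]
      refine Finset.prod_congr rfl fun i _ => ?_
      ring
    rw [this]
    exact Subring.mul_mem _ (Subring.prod_mem _ fun _ _ => Subring.neg_mem _ (Subring.one_mem _))
      (prod_w_mem_NonNeg p)
  obtain ⟨c, hc⟩ := exists_const_of_mem_Bsub_of_mem_NonNeg p (WPoly_coeff_mem p h 0) hN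
  refine ⟨c, ?_, hc⟩
  rintro rfl
  rw [_root_.map_zero, WPoly_coeff_zero] at hc
  rw [Finset.prod_eq_zero_iff] at hc
  obtain ⟨i, -, hi⟩ := hc
  exact w_ne_zero p i (neg_eq_zero.mp hi)

end Fermat.Agent.S28.H326

end
end
-- ===== PACK-END S28/H326/Polys.lean

-- ===== PACK-BEGIN Lib/RR/Zeros.lean
section



/-!
# RR library, layer L2: the zeros of `x` number at most `[F : K(x)]`  (Stichtenoth 1.3.3)

Proof.  Let `P_1, …, P_r` be distinct zeros of `x`, `e_i = ord_{P_i} x`.  Choose
uniformizers `t_i` at `P_i` and (approximation) `s_i` with `ord_{P_i} s_i = 0` and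
`ord_{P_k} s_i ≥ M` for `k ≠ i`, `M` large.  The `∑ e_i` elements `t_i ^ a * s_i`
(`0 ≤ a < e_i`) are linearly independent over `K(x)`: the order of a nonzero element of `K(x)`
at `P_i` is `n * e_i` with `n` independent of `i`; in a nontrivial relation pick the term with
lexicographically least `(n, a)`; at its place it has strictly smaller order than all others.
-/

set_option autoImplicit false

noncomputable section

open AlgebraicCurve Polynomial

namespace Fermat.Agent.Lib.RR

variable {K F : Type*} [Field K] [Field F] [Algebra K F]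

theorem add_ne_zero_of_ord_lt (v : Place K F) {f g : F}
    (h : v.ord f < v.ord g) : f + g ≠ 0 := by
  intro h0
  have : g = -f := by rw [← sub_eq_zero, sub_neg_eq_add, add_comm]; exact h0
  rw [this, ord_neg] at h
  exact lt_irrefl _ h

theorem aeval_mem (v : Place K F) {x : F} (hx : 0 ≤ v.ord x) (p : K[X]) :
    aeval x p ∈ v.toValuationSubring := by
  induction p using Polynomial.induction_on' with
  | add p q hp hq => rw [_root_.map_add]; exact add_mem hp hq
  | monomial n c =>
    rw [aeval_monomial]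
    exact mul_mem (v.algebraMap_mem' c) (pow_mem (mem_of_ord_nonneg v hx) n)

/-- A polynomial in `x` with nonzero constant term is a unit at every zero of `x`. -/
theorem aeval_of_coeff_zero_ne (v : Place K F) {x : F} (hx : 0 < v.ord x) {p : K[X]}
    (hp : p.coeff 0 ≠ 0) : aeval x p ≠ 0 ∧ v.ord (aeval x p) = 0 := by
  have hdecomp : aeval x p = algebraMap K F (p.coeff 0) + aeval x p.divX * x := by
    conv_lhs => rw [← Polynomial.divX_mul_X_add p]
    simp [add_comm]
  have hc0 : algebraMap K F (p.coeff 0) ≠ 0 := by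
    simpa using hp
  have hc : v.ord (algebraMap K F (p.coeff 0)) = 0 := ord_algebraMap v _
  rcases eq_or_ne (aeval x p.divX * x) 0 with h0 | h0
  · rw [hdecomp, h0, add_zero]; exact ⟨hc0, hc⟩
  · have hx0 : x ≠ 0 := right_ne_zero_of_mul h0
    have hr0 : aeval x p.divX ≠ 0 := left_ne_zero_of_mul h0
    have hr : 0 ≤ v.ord (aeval x p.divX) := ord_nonneg_of_mem v (aeval_mem v hx.le _)
    have hlt : v.ord (algebraMap K F (p.coeff 0)) < v.ord (aeval x p.divX * x) := by
      rw [hc, v.ord_mul hr0 hx0]; omega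
    rw [hdecomp]
    exact ⟨add_ne_zero_of_ord_lt v hlt, by rw [ord_add_eq_of_lt v hc0 h0 hlt, hc]⟩

/-- The order of a nonzero polynomial in `x` at a zero of `x`. -/
theorem aeval_ord (v : Place K F) {x : F} (hx : 0 < v.ord x) {p : K[X]} (hp : p ≠ 0) :
    aeval x p ≠ 0 ∧ v.ord (aeval x p) = (p.rootMultiplicity 0 : ℤ) * v.ord x := by
  obtain ⟨q, hq, hq'⟩ := Polynomial.exists_eq_pow_rootMultiplicity_mul_and_not_dvd p hp 0
  have hq0 : q.coeff 0 ≠ 0 := by
    intro h; apply hq'
    rw [C_0, sub_zero]; exact Polynomial.X_dvd_iff.mpr h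
  obtain ⟨h1, h2⟩ := aeval_of_coeff_zero_ne v hx hq0
  have hx0 : x ≠ 0 := ne_zero_of_ord_ne_zero v hx.ne'
  have hval : aeval x p = x ^ (p.rootMultiplicity 0) * aeval x q := by
    conv_lhs => rw [hq]
    simp
  rw [hval]
  refine ⟨mul_ne_zero (pow_ne_zero _ hx0) h1, ?_⟩
  rw [v.ord_mul (pow_ne_zero _ hx0) h1, ord_pow, h2, add_zero]

/-- **Lemma A**: the order of a nonzero element of `K(x)` at a zero `v` of `x` is a multiple
`n * ord_v x`, with `n` independent of `v`. -/
theorem exists_ord_eq_mul {x : F} (c : IntermediateField.adjoin K {x}) (hc : c ≠ 0) :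
    ∃ n : ℤ, ∀ v : Place K F, 0 < v.ord x → v.ord (c : F) = n * v.ord x := by
  obtain ⟨r, s, hrs⟩ := (IntermediateField.mem_adjoin_simple_iff K (c : F)).mp c.2
  have hcF : (c : F) ≠ 0 := by simpa using hc
  have hr : r ≠ 0 := by
    rintro rfl; apply hcF; rw [hrs]; simp
  have hs : s ≠ 0 := by
    rintro rfl; apply hcF; rw [hrs]; simp
  refine ⟨(r.rootMultiplicity 0 : ℤ) - (s.rootMultiplicity 0 : ℤ), fun v hv => ?_⟩
  obtain ⟨hr1, hr2⟩ := aeval_ord v hv hr
  obtain ⟨hs1, hs2⟩ := aeval_ord v hv hs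
  rw [hrs, div_eq_mul_inv, v.ord_mul hr1 (inv_ne_zero hs1), v.ord_inv, hr2, hs2]
  ring


/-- **L2** (zeros): the zeros of `x`, counted with multiplicity, number at most `[F : K(x)]`. -/
theorem sum_ord_le_finrank (hdeg : ∀ v : Place K F, v.deg = 1) (x : F)
    [FiniteDimensional (IntermediateField.adjoin K {x}) F]
    (S : Finset (Place K F)) (hS : ∀ v ∈ S, 0 < v.ord x) :
    ∑ v ∈ S, v.ord x ≤ (Module.finrank (IntermediateField.adjoin K {x}) F : ℤ) := by
  classical
  have _ := hdeg
  -- multiplicities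
  set e : Place K F → ℕ := fun v => (v.ord x).toNat with he
  have he_cast : ∀ v ∈ S, (e v : ℤ) = v.ord x := fun v hv =>
    Int.toNat_of_nonneg (hS v hv).le
  -- uniformizers
  choose t ht using fun v : Place K F => exists_ord_eq_one v
  have ht0 : ∀ v, t v ≠ 0 := fun v => ne_zero_of_ord_ne_zero v (by rw [ht v]; omega)
  -- the bound `M`
  set M : ℕ := ∑ v ∈ S, e v + ∑ v ∈ S, ∑ w ∈ S, e w * (v.ord (t w)).natAbs with hM
  have hMbound : ∀ v ∈ S, ∀ w ∈ S, e v + e w * (v.ord (t w)).natAbs ≤ M := by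
    intro v hv w hw
    have h1 : e v ≤ ∑ v ∈ S, e v := Finset.single_le_sum (fun _ _ => Nat.zero_le _) hv
    have h2 : e w * (v.ord (t w)).natAbs ≤ ∑ w ∈ S, e w * (v.ord (t w)).natAbs :=
      Finset.single_le_sum (f := fun w => e w * (v.ord (t w)).natAbs)
        (fun _ _ => Nat.zero_le _) hw
    have h3 : ∑ w ∈ S, e w * (v.ord (t w)).natAbs
        ≤ ∑ v ∈ S, ∑ w ∈ S, e w * (v.ord (t w)).natAbs :=
      Finset.single_le_sum (f := fun v => ∑ w ∈ S, e w * (v.ord (t w)).natAbs)
        (fun _ _ => Nat.zero_le _) hv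
    omega
  -- approximating units
  choose s hs0 hsv hsw using fun w : Place K F =>
    exists_unit_zeros w (S.erase w) (Finset.notMem_erase w S) M
  -- the family
  let I := Σ v : S, Fin (e v)
  let b : I → F := fun i => t i.1 ^ (i.2 : ℕ) * s i.1
  have hb0 : ∀ i, b i ≠ 0 := fun i => mul_ne_zero (pow_ne_zero _ (ht0 _)) (hs0 _)
  -- orders of the family
  have hb_self : ∀ (i : I) (v : Place K F), v = i.1 → v.ord (b i) = ((i.2 : ℕ) : ℤ) := by
    rintro i v rfl
    show (i.1 : Place K F).ord (t i.1 ^ (i.2 : ℕ) * s i.1) = _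
    rw [Place.ord_mul _ (pow_ne_zero _ (ht0 _)) (hs0 _), ord_pow, ht, hsv]
    simp
  have hb_other : ∀ (i : I) (v : Place K F), v ∈ S → v ≠ i.1 → (e v : ℤ) ≤ v.ord (b i) := by
    intro i v hv hne
    show (e v : ℤ) ≤ v.ord (t i.1 ^ (i.2 : ℕ) * s i.1)
    rw [Place.ord_mul _ (pow_ne_zero _ (ht0 _)) (hs0 _), ord_pow]
    have h1 : (M : ℤ) ≤ v.ord (s i.1) :=
      hsw i.1 v (Finset.mem_erase.mpr ⟨hne, hv⟩)
    have h2 := hMbound v hv i.1 i.1.2
    have h3 : ((i.2 : ℕ) : ℤ) < e i.1 := by exact_mod_cast i.2.2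
    have h4 : -(((v.ord (t i.1)).natAbs : ℕ) : ℤ) ≤ v.ord (t i.1) := by
      rw [Int.natCast_natAbs]; exact neg_abs_le _
    have h5 : -((e i.1 : ℤ) * ((v.ord (t i.1)).natAbs : ℤ)) ≤ ((i.2 : ℕ) : ℤ) * v.ord (t i.1) := by
      have h6 : (0 : ℤ) ≤ ((i.2 : ℕ) : ℤ) := Int.natCast_nonneg _
      have h7 : (0 : ℤ) ≤ ((v.ord (t i.1)).natAbs : ℤ) := Int.natCast_nonneg _
      nlinarith
    have h2' : (e v : ℤ) + (e i.1 : ℤ) * ((v.ord (t i.1)).natAbs : ℤ) ≤ M := by
      exact_mod_cast h2
    omega
  -- linear independence over `K(x)`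
  have hli : LinearIndependent (IntermediateField.adjoin K {x}) b := by
    rw [Fintype.linearIndependent_iff]
    intro g hg
    by_contra hcon
    simp only [not_forall] at hcon
    obtain ⟨j, hj⟩ := hcon
    -- orders of the coefficients
    have hn : ∀ i : I, ∃ n : ℤ, g i ≠ 0 →
        ∀ v : Place K F, 0 < v.ord x → v.ord ((g i : F)) = n * v.ord x := by
      intro i
      by_cases hgi : g i = 0
      · exact ⟨0, fun h => absurd hgi h⟩
      · obtain ⟨n, hn⟩ := exists_ord_eq_mul (g i) hgi
        exact ⟨n, fun _ => hn⟩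
    choose n hn using hn
    set E : ℤ := ∑ v ∈ S, (e v : ℤ) with hE
    have hE_ge : ∀ v ∈ S, (e v : ℤ) ≤ E := fun v hv =>
      Finset.single_le_sum (f := fun v => (e v : ℤ)) (fun _ _ => Int.natCast_nonneg _) hv
    let T : Finset I := Finset.univ.filter fun i => g i ≠ 0
    have hT : T.Nonempty := ⟨j, by simp [T, hj]⟩
    obtain ⟨i₀, hi₀T, hmin⟩ := T.exists_min_image (fun i => n i * E + ((i.2 : ℕ) : ℤ)) hT
    have hgi₀ : g i₀ ≠ 0 := by simpa [T] using hi₀T
    set v₀ : Place K F := i₀.1.1 with hv₀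
    have hv₀S : v₀ ∈ S := i₀.1.2
    have hv₀x : 0 < v₀.ord x := hS v₀ hv₀S
    have ha₀ : ((i₀.2 : ℕ) : ℤ) < e v₀ := by exact_mod_cast i₀.2.2
    have he₀ : (e v₀ : ℤ) = v₀.ord x := he_cast v₀ hv₀S
    let y : I → F := fun i => (g i : F) * b i
    have hy : ∀ i, g i • b i = y i := fun i => by
      show g i • b i = (g i : F) * b i
      rw [Algebra.smul_def]; rfl
    have hgF : ∀ i, g i ≠ 0 → (g i : F) ≠ 0 := fun i h => by simpa using h
    have hy₀ : y i₀ ≠ 0 := mul_ne_zero (hgF i₀ hgi₀) (hb0 i₀)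
    have hord₀ : v₀.ord (y i₀) = n i₀ * v₀.ord x + ((i₀.2 : ℕ) : ℤ) := by
      show v₀.ord ((g i₀ : F) * b i₀) = _
      rw [v₀.ord_mul (hgF i₀ hgi₀) (hb0 i₀), hn i₀ hgi₀ v₀ hv₀x, hb_self i₀ v₀ rfl]
    have hothers : ∀ i ∈ Finset.univ.erase i₀, y i = 0 ∨ v₀.ord (y i₀) < v₀.ord (y i) := by
      intro i hi
      have hne : i ≠ i₀ := Finset.ne_of_mem_erase hi
      by_cases hgi : g i = 0
      · left; show (g i : F) * b i = 0; rw [hgi]; simp
      right
      have hiT : i ∈ T := by simp [T, hgi]
      have hmin_i := hmin i hiT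
      have hai : ((i.2 : ℕ) : ℤ) < e i.1 := by exact_mod_cast i.2.2
      have hai0 : (0 : ℤ) ≤ ((i.2 : ℕ) : ℤ) := Int.natCast_nonneg _
      have ha₀0 : (0 : ℤ) ≤ ((i₀.2 : ℕ) : ℤ) := Int.natCast_nonneg _
      have hEi : (e i.1 : ℤ) ≤ E := hE_ge i.1 i.1.2
      have hE₀ : (e v₀ : ℤ) ≤ E := hE_ge v₀ hv₀S
      -- `n i ≥ n i₀`
      have hnge : n i₀ ≤ n i := by
        by_contra hlt
        have hlt' : n i + 1 ≤ n i₀ := by omega
        have : (n i + 1) * E ≤ n i₀ * E :=
          mul_le_mul_of_nonneg_right hlt' (by linarith)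
        nlinarith
      have hordi : v₀.ord (y i) = n i * v₀.ord x + v₀.ord (b i) := by
        show v₀.ord ((g i : F) * b i) = _
        rw [v₀.ord_mul (hgF i hgi) (hb0 i), hn i hgi v₀ hv₀x]
      rw [hord₀, hordi]
      by_cases hvi : (i.1 : Place K F) = v₀
      · -- same place
        have hbi : v₀.ord (b i) = ((i.2 : ℕ) : ℤ) := hb_self i v₀ hvi.symm
        rw [hbi]
        rcases hnge.lt_or_eq with hlt | heq
        · have hlt' : n i₀ + 1 ≤ n i := by omega
          have : (n i₀ + 1) * v₀.ord x ≤ n i * v₀.ord x :=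
            mul_le_mul_of_nonneg_right hlt' hv₀x.le
          nlinarith
        · have h1 : ((i₀.2 : ℕ) : ℤ) ≤ ((i.2 : ℕ) : ℤ) := by
            rw [heq] at hmin_i; linarith
          have h2 : ((i₀.2 : ℕ) : ℤ) ≠ ((i.2 : ℕ) : ℤ) := by
            intro h
            apply hne
            have h3 : (i.2 : ℕ) = (i₀.2 : ℕ) := by exact_mod_cast h.symm
            have h4 : i.1 = i₀.1 := Subtype.ext hvi
            obtain ⟨iv, ia⟩ := i
            obtain ⟨jv, ja⟩ := i₀
            simp only at h4 h3
            subst h4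
            congr 1
            exact Fin.ext h3
          rw [heq]
          omega
      · -- different place
        have hbi : (e v₀ : ℤ) ≤ v₀.ord (b i) := hb_other i v₀ hv₀S (fun h => hvi h.symm)
        have : n i₀ * v₀.ord x ≤ n i * v₀.ord x :=
          mul_le_mul_of_nonneg_right hnge hv₀x.le
        omega
    have hsum : y i₀ + ∑ i ∈ Finset.univ.erase i₀, y i = 0 := by
      rw [Finset.add_sum_erase _ _ (Finset.mem_univ i₀)]
      simpa [hy] using hg
    rcases ord_sum_gt v₀ (Finset.univ.erase i₀) y (v₀.ord (y i₀)) hothers with h0 | hgt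
    · rw [h0, add_zero] at hsum; exact hy₀ hsum
    · have : ∑ i ∈ Finset.univ.erase i₀, y i = -y i₀ := by
        rw [← sub_eq_zero, sub_neg_eq_add, add_comm]; exact hsum
      rw [this, ord_neg] at hgt
      exact lt_irrefl _ hgt
  have hcard := hli.fintype_card_le_finrank
  have hcardI : Fintype.card I = ∑ v ∈ S, e v := by
    simp only [I, Fintype.card_sigma, Fintype.card_fin]
    exact Finset.sum_coe_sort S e
  rw [hcardI] at hcard
  have hsum : ∑ v ∈ S, v.ord x = ((∑ v ∈ S, e v : ℕ) : ℤ) := by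
    push_cast
    exact Finset.sum_congr rfl fun v hv => (he_cast v hv).symm
  rw [hsum]
  exact_mod_cast hcard


theorem sum_ord_le_finrank_of_eq (hdeg : ∀ v : Place K F, v.deg = 1) (x : F)
    (L : IntermediateField K F) (hL : L = IntermediateField.adjoin K {x})
    [FiniteDimensional L F]
    (S : Finset (Place K F)) (hS : ∀ v ∈ S, 0 < v.ord x) :
    ∑ v ∈ S, v.ord x ≤ (Module.finrank L F : ℤ) := by
  subst hL
  exact sum_ord_le_finrank hdeg x S hS

theorem adjoin_inv_eq (x : F) :
    IntermediateField.adjoin K {x} = IntermediateField.adjoin K {x⁻¹} := by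
  apply le_antisymm
  · rw [IntermediateField.adjoin_simple_le_iff]
    have := inv_mem (IntermediateField.mem_adjoin_simple_self K x⁻¹)
    rwa [inv_inv] at this
  · rw [IntermediateField.adjoin_simple_le_iff]
    exact inv_mem (IntermediateField.mem_adjoin_simple_self K x)

/-- **L2** (poles): the poles of `x`, counted with multiplicity, number at most `[F : K(x)]`. -/
theorem sum_neg_ord_le_finrank (hdeg : ∀ v : Place K F, v.deg = 1) (x : F)
    [FiniteDimensional (IntermediateField.adjoin K {x}) F]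
    (S : Finset (Place K F)) (hS : ∀ v ∈ S, v.ord x < 0) :
    ∑ v ∈ S, -v.ord x ≤ (Module.finrank (IntermediateField.adjoin K {x}) F : ℤ) := by
  have h := sum_ord_le_finrank_of_eq hdeg x⁻¹ (IntermediateField.adjoin K {x})
    (adjoin_inv_eq x) S (fun v hv => by rw [v.ord_inv]; have := hS v hv; omega)
  simpa [Place.ord_inv] using h

end Fermat.Agent.Lib.RR

end
end
-- ===== PACK-END Lib/RR/Zeros.lean

-- ===== PACK-BEGIN S18/H138/Connected.lean
section



/-!
# S18, Route K, ASM (helper138): the special fibre of the `x`-line model is connected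

Setting: `R` a noetherian domain with `R[X]` integrally closed (e.g. a DVR), `w ∈ R` a prime
element, `F` a field of characteristic `0` containing `R`, `x ∈ F` transcendental over `R`,
`F` finite over the subfield `baseField R x` generated by `R` and `x`, and `R` integrally closed
in `F` (i.e. `Frac R` is algebraically closed in `F` and `R` is normal).

`B_fin = chart R {x}`, `B_inf = chart R {x⁻¹}`, `B_mid = chart R {x, x⁻¹}` are the integral
closures of `R[x]`, `R[x⁻¹]`, `R[x, x⁻¹]` in `F`.

**Theorem** (`connected_special_fibre`).  If `e₁ ∈ B_fin`, `e₂ ∈ B_inf` are idempotent modulo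
`w` (in their charts) and `e₁ ≡ e₂ mod w B_mid`, then `(e₁, e₂) ≡ (0, 0)` or `(1, 1)` modulo `w`.

This is the statement "`H⁰(X_k, O) = k`" for the normal model `X = Spec B_fin ∪ Spec B_inf`,
proved by the two-chart Čech argument of `H558.cech_connected` (`H¹(X, O)` is a finitely
generated `R`-module).
-/

set_option autoImplicit false
set_option linter.style.haveILetI false

namespace Fermat.Agent.S18.H138

open Polynomial

variable {R : Type*} [CommRing R] {F : Type*} [Field F] [Algebra R F]

/-- Elements of the base field integral over an integrally closed subalgebra with that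
fraction field lie in the subalgebra. -/
theorem mem_of_isIntegral_of_mem (A : Subalgebra R F) [IsIntegrallyClosed A] (K : Subfield F)
    (hAK : ∀ a ∈ A, a ∈ K) (hfrac : ∀ z ∈ K, ∃ a ∈ A, ∃ b ∈ A, z = a / b)
    {z : F} (hzK : z ∈ K) (hz : IsIntegral A z) : z ∈ A := by
  have h := minpoly_coeff_mem A K hAK hfrac hz 0
  have h2 : minpoly K z = X - C (⟨z, hzK⟩ : K) :=
    minpoly.eq_X_sub_C_of_algebraMap_inj (⟨z, hzK⟩ : K) (algebraMap K F).injective
  rw [h2] at h
  simp only [coeff_sub, coeff_X_zero, coeff_C_zero, zero_sub] at h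
  have : -(-z) ∈ A := A.neg_mem h
  simpa using this

/-- `R / w → B_fin / w` is injective. -/
theorem dvd_of_algebraMap_eq_mul [IsIntegrallyClosed R[X]]
    (hinjR : Function.Injective (algebraMap R F)) {x : F} (hx : Transcendental R x)
    (w a : R) {t : F} (ht : t ∈ chart R ({x} : Set F))
    (h : algebraMap R F a = algebraMap R F w * t) : w ∣ a := by
  by_cases hw : w = 0
  · subst hw
    rw [_root_.map_zero, zero_mul] at h
    have : a = 0 := hinjR (by rw [h, _root_.map_zero])
    rw [this]
  have hwF : algebraMap R F w ≠ 0 := fun h0 => hw (hinjR (by rw [h0, _root_.map_zero]))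
  haveI := isIntegrallyClosed_adjoin_singleton (R := R) hx
  have htK : t ∈ baseField R x := by
    have : t = algebraMap R F a / algebraMap R F w := by
      rw [h, mul_div_cancel_left₀ _ hwF]
    rw [this]
    exact (baseField R x).div_mem (Subfield.subset_closure (Or.inl ⟨a, rfl⟩))
      (Subfield.subset_closure (Or.inl ⟨w, rfl⟩))
  have htA : t ∈ Algebra.adjoin R ({x} : Set F) :=
    mem_of_isIntegral_of_mem _ (baseField R x) (fun a ha => adjoin_le_baseField x ha)
      (fun z hz => exists_div_of_mem_baseField x hz) htK ht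
  obtain ⟨P, rfl⟩ := mem_adjoin_singleton_iff.1 htA
  have h3 : aeval x (C a - C w * P) = 0 := by
    rw [_root_.map_sub, _root_.map_mul, aeval_C, aeval_C, h, sub_self]
  have h4 := (transcendental_iff.1 hx) _ h3
  have h5 : C a = C w * P := sub_eq_zero.1 h4
  refine ⟨P.coeff 0, ?_⟩
  have := congrArg (fun p : R[X] => p.coeff 0) h5
  simpa using this

section Finite

variable [IsNoetherianRing R] [IsIntegrallyClosed R[X]] [CharZero F]

/-- `B_fin` is generated as an `R`-module by finitely many families `x ^ j * bs i`. -/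
theorem exists_finite_gens {x : F} (hx : Transcendental R x)
    [FiniteDimensional (baseField R x) F] :
    ∃ (n : ℕ) (bs : Fin n → F), (∀ i, bs i ∈ chart R ({x} : Set F)) ∧
      ∀ b ∈ chart R ({x} : Set F),
        b ∈ Submodule.span R {z : F | ∃ (j : ℕ) (i : Fin n), z = x ^ j * bs i} := by
  classical
  set A : Subalgebra R F := Algebra.adjoin R ({x} : Set F) with hA
  set K : Subfield F := baseField R x with hK
  haveI := isIntegrallyClosed_adjoin_singleton (R := R) hx
  haveI := isNoetherianRing_adjoin_singleton (R := R) hx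
  let φ : A →+* K :=
    { toFun := fun a => ⟨a, adjoin_le_baseField x a.2⟩
      map_one' := rfl
      map_mul' := fun _ _ => rfl
      map_zero' := rfl
      map_add' := fun _ _ => rfl }
  letI : Algebra A K := φ.toAlgebra
  haveI : IsScalarTower A K F := IsScalarTower.of_algebraMap_eq (fun _ => rfl)
  have hinj : Function.Injective (algebraMap A K) := by
    intro a b hab
    have : (a : F) = b := congrArg (fun t : K => (t : F)) hab
    exact Subtype.ext this
  haveI : FaithfulSMul A K := (faithfulSMul_iff_algebraMap_injective A K).2 hinj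
  haveI : IsFractionRing A K := by
    refine IsFractionRing.of_field A K (fun z => ?_)
    obtain ⟨a, ha, b, hb, h⟩ := exists_div_of_mem_baseField (R := R) x z.2
    exact ⟨⟨a, ha⟩, ⟨b, hb⟩, Subtype.ext h⟩
  haveI : CharZero K := (algebraMap K F).charZero
  haveI : Module.Finite A (integralClosure A F) :=
    IsIntegralClosure.finite A K F (integralClosure A F)
  obtain ⟨n, s, hs⟩ := Module.Finite.exists_fin (R := A) (M := integralClosure A F)
  refine ⟨n, fun i => (s i : F), fun i => (s i).2, ?_⟩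
  intro b hb
  set T : Submodule R F :=
    Submodule.span R {z : F | ∃ (j : ℕ) (i : Fin n), z = x ^ j * (s i : F)} with hT
  -- `T` is stable under multiplication by `x`, hence by `A`
  have hxT : ∀ z ∈ T, x * z ∈ T := by
    intro z hz
    induction hz using Submodule.span_induction with
    | mem z hz =>
      obtain ⟨j, i, rfl⟩ := hz
      exact Submodule.subset_span ⟨j + 1, i, by ring⟩
    | zero => simp
    | add y z _ _ hy hz => rw [mul_add]; exact T.add_mem hy hz
    | smul r z _ hz => rw [mul_smul_comm]; exact T.smul_mem r hz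
  have hAT : ∀ a ∈ A, ∀ z ∈ T, a * z ∈ T := by
    intro a ha
    induction ha using Algebra.adjoin_induction with
    | mem y hy =>
      rw [Set.mem_singleton_iff] at hy
      subst hy
      exact hxT
    | algebraMap r =>
      intro z hz
      rw [← Algebra.smul_def]
      exact T.smul_mem r hz
    | add y z _ _ hy hz =>
      intro u hu
      rw [add_mul]
      exact T.add_mem (hy u hu) (hz u hu)
    | mul y z _ _ hy hz =>
      intro u hu
      rw [mul_assoc]
      exact hy _ (hz u hu)
  have hb' : (⟨b, hb⟩ : integralClosure A F) ∈ Submodule.span A (Set.range s) := by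
    rw [hs]; trivial
  have key : ∀ c : integralClosure A F, c ∈ Submodule.span A (Set.range s) → (c : F) ∈ T := by
    intro c hc
    induction hc using Submodule.span_induction with
    | mem c hc =>
      obtain ⟨i, rfl⟩ := hc
      exact Submodule.subset_span ⟨0, i, by simp⟩
    | zero => simp
    | add y z _ _ hy hz => exact T.add_mem hy hz
    | smul a z _ hz => exact hAT a a.2 _ hz
  exact key _ hb'

/-- **Connectedness of the special fibre of the normal `x`-line model.** -/
theorem connected_special_fibre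
    (hinjR : Function.Injective (algebraMap R F))
    (hRF : ∀ y : F, IsIntegral R y → y ∈ Set.range (algebraMap R F))
    {x : F} (hx : Transcendental R x) [FiniteDimensional (baseField R x) F]
    (w : R) (hw : Prime w)
    (e₁ e₂ : F) (he₁ : e₁ ∈ chart R ({x} : Set F)) (he₂ : e₂ ∈ chart R ({x⁻¹} : Set F))
    (hi₁ : ∃ t ∈ chart R ({x} : Set F), e₁ ^ 2 - e₁ = algebraMap R F w * t)
    (hi₂ : ∃ t ∈ chart R ({x⁻¹} : Set F), e₂ ^ 2 - e₂ = algebraMap R F w * t)
    (h₁₂ : ∃ t ∈ chart R ({x, x⁻¹} : Set F), e₁ - e₂ = algebraMap R F w * t) :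
    ((∃ t ∈ chart R ({x} : Set F), e₁ = algebraMap R F w * t) ∧
      (∃ t ∈ chart R ({x⁻¹} : Set F), e₂ = algebraMap R F w * t)) ∨
    ((∃ t ∈ chart R ({x} : Set F), 1 - e₁ = algebraMap R F w * t) ∧
      (∃ t ∈ chart R ({x⁻¹} : Set F), 1 - e₂ = algebraMap R F w * t)) := by
  have hx0 : x ≠ 0 := ne_zero_of_transcendental hx
  obtain ⟨n, bs, hbs, hgen⟩ := exists_finite_gens (R := R) hx
  exact cech_connected_sub (ι := Fin n) w x x⁻¹ (mul_inv_cancel₀ hx0)
    (chart R {x}) (chart R {x⁻¹}) (chart R {x, x⁻¹})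
    (chart_mono (by simp)) (chart_mono (by simp))
    (mem_chart_of_mem rfl) (mem_chart_of_mem rfl) bs hbs hgen
    (fun b hb => exists_pow_mul_mem_chart hx0 hb)
    (fun i => exists_inv_pow_mul_mem_chart hx0 (hbs i))
    (fun b hbf hbi => by
      obtain ⟨a, ha⟩ := hRF b (isIntegral_of_mem_chart_inter hx hbf hbi)
      exact ⟨a, ha⟩)
    (fun a ⟨t, ht, h⟩ => dvd_of_algebraMap_eq_mul hinjR hx w a ht h)
    (fun a b h => hw.dvd_or_dvd h)
    e₁ e₂ he₁ he₂ hi₁ hi₂ h₁₂

end Finite

end Fermat.Agent.S18.H138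

end
-- ===== PACK-END S18/H138/Connected.lean

-- ===== PACK-BEGIN S18/B12/H33/CoreAux.lean
section



/-!
# S18 b2.5 (helper33): auxiliary lemmas for the assembly of `B2CoreAbsStatement`
-/

set_option autoImplicit false

noncomputable section

namespace Fermat.Agent.S18.B12.H33

open Polynomial

universe u v

section Quot

variable {P : Type u} [CommRing P] (w : P)

/-- `a ∈ (w, p)` iff `mk p ∣ mk a` in `P/(w)`. -/
theorem mem_span_pair_iff_mk_dvd (p a : P) :
    a ∈ Ideal.span {w, p} ↔
      Ideal.Quotient.mk (Ideal.span {w}) p ∣ Ideal.Quotient.mk (Ideal.span {w}) a := by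
  constructor
  · intro h
    rw [Ideal.mem_span_pair] at h
    obtain ⟨c, d, rfl⟩ := h
    refine ⟨Ideal.Quotient.mk _ d, ?_⟩
    have hw0 : Ideal.Quotient.mk (Ideal.span {w}) w = 0 :=
      Ideal.Quotient.eq_zero_iff_mem.mpr (Ideal.mem_span_singleton_self w)
    simp [_root_.map_add, _root_.map_mul, hw0, mul_comm]
  · rintro ⟨c, hc⟩
    obtain ⟨d, rfl⟩ := Ideal.Quotient.mk_surjective c
    rw [← _root_.map_mul, Ideal.Quotient.eq, Ideal.mem_span_singleton] at hc
    obtain ⟨e, he⟩ := hc
    rw [Ideal.mem_span_pair]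
    refine ⟨e, d, ?_⟩
    have : a = w * e + p * d := by linear_combination he
    rw [this]; ring

theorem span_pair_eq_comap (p : P) :
    Ideal.span {w, p} = Ideal.comap (Ideal.Quotient.mk (Ideal.span {w}))
      (Ideal.span {Ideal.Quotient.mk (Ideal.span {w}) p}) := by
  ext a
  rw [mem_span_pair_iff_mk_dvd, Ideal.mem_comap, Ideal.mem_span_singleton]

end Quot

end Fermat.Agent.S18.B12.H33

end
end
-- ===== PACK-END S18/B12/H33/CoreAux.lean

-- ===== PACK-BEGIN S18/H203/LiftBasis.lean
section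


/-!
# S18 / b1 (helper203): lifting a basis of the special fibre — local freeness along `w = 0`

`S` a Noetherian integrally closed domain, `w ∈ S` prime, `S̄ = S ⧸ (w)`, `B` the integral
closure of `S` in a finite extension `F` of `K = Frac S`, finite over `S`, `B̄ = B ⧸ (w) B`.
Let `b : ι → B` be a finite family whose reduction is an `S̄`-basis of `B̄`.  Then

* `exists_smul_mem_span` : there is `r ∈ S`, `r ≡ 1 mod w`, with `r • B ⊆ span_S b`
  (Nakayama), i.e. `b` generates `B` over the localisation `S[1/r]`;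
* `linearIndependent_lift` : `b` is linearly independent over `S`;
* `basisOfLift` : the image of `b` in `F` is a `K`-basis of `F`; in particular
  `card ι = [F : K]` (`card_eq_finrank`).

So `B` is free with basis `b` over the semi-local ring `(1 + w S)⁻¹ S`, in particular over the
local rings of `S` at all primes containing `w`: "B is locally free of rank `[F : K]` along the
special fibre".
-/

set_option autoImplicit false

namespace Fermat.Agent.S18.H203

open Ideal

section

variable {S B : Type*} [CommRing S] [CommRing B] [Algebra S B]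

/-- The reduction map `B → B ⧸ (w) B`. -/
abbrev redB (w : S) : B →+* B ⧸ (Ideal.span {w}).map (algebraMap S B) :=
  Ideal.Quotient.mk _

/-- The reduction map `S → S ⧸ (w)`. -/
abbrev redS (w : S) : S →+* S ⧸ Ideal.span {w} :=
  Ideal.Quotient.mk _

theorem redB_smul (w : S) (s : S) (β : B) :
    redB w (s • β) = redS w s • redB (S := S) w β := by
  rw [Ideal.Quotient.mk_smul_mk_quotient_map_quotient, Algebra.smul_def]

theorem redB_eq_zero_iff (w : S) (β : B) :
    redB (S := S) w β = 0 ↔ algebraMap S B w ∣ β := by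
  rw [Ideal.Quotient.eq_zero_iff_mem, mem_map_span_singleton_iff]

theorem redS_eq_zero_iff (w : S) (s : S) : redS w s = 0 ↔ w ∣ s := by
  rw [Ideal.Quotient.eq_zero_iff_mem, Ideal.mem_span_singleton]

variable {ι : Type*} [Fintype ι]

/-- Every element of `B` is congruent mod `w` to an `S`-combination of the lifts. -/
theorem exists_sum_add_mul (w : S) (b : ι → B)
    (hspan : Submodule.span (S ⧸ Ideal.span {w}) (Set.range fun i => redB (S := S) w (b i)) = ⊤)
    (β : B) : ∃ (c : ι → S) (β' : B), β = ∑ i, c i • b i + algebraMap S B w * β' := by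
  have hβ : redB (S := S) w β ∈
      Submodule.span (S ⧸ Ideal.span {w}) (Set.range fun i => redB (S := S) w (b i)) := by
    rw [hspan]; exact Submodule.mem_top
  obtain ⟨cb, hcb⟩ := (Submodule.mem_span_range_iff_exists_fun _).mp hβ
  choose c hc using fun i => Ideal.Quotient.mk_surjective (cb i)
  have h1 : redB (S := S) w (β - ∑ i, c i • b i) = 0 := by
    rw [map_sub, map_sum, ← hcb, sub_eq_zero]
    refine Finset.sum_congr rfl fun i _ => ?_
    rw [redB_smul, hc i]
  rw [redB_eq_zero_iff] at h1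
  obtain ⟨β', hβ'⟩ := h1
  exact ⟨c, β', by rw [← hβ']; ring⟩

/-- **Nakayama**: a single `r ≡ 1 mod w` with `r • B ⊆ span_S b`. -/
theorem exists_smul_mem_span [Module.Finite S B] (w : S) (b : ι → B)
    (hspan : Submodule.span (S ⧸ Ideal.span {w}) (Set.range fun i => redB (S := S) w (b i)) = ⊤) :
    ∃ r : S, r - 1 ∈ Ideal.span {w} ∧
      ∀ β : B, r • β ∈ Submodule.span S (Set.range b) := by
  set N : Submodule S B := Submodule.span S (Set.range b) with hN
  have hfg : (⊤ : Submodule S (B ⧸ N)).FG := Module.finite_def.mp inferInstance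
  have hle : (⊤ : Submodule S (B ⧸ N)) ≤ Ideal.span {w} • ⊤ := by
    intro x _
    obtain ⟨β, rfl⟩ := N.mkQ_surjective x
    obtain ⟨c, β', hβ⟩ := exists_sum_add_mul w b hspan β
    have h1 : N.mkQ β = w • N.mkQ β' := by
      rw [hβ, map_add, ← map_smul, Algebra.smul_def]
      have h2 : N.mkQ (∑ i, c i • b i) = 0 := by
        rw [Submodule.mkQ_apply, Submodule.Quotient.mk_eq_zero]
        exact Submodule.sum_mem _ fun i _ =>
          Submodule.smul_mem _ _ (Submodule.subset_span ⟨i, rfl⟩)
      rw [h2, zero_add]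
    rw [h1]
    exact Submodule.smul_mem_smul (Ideal.mem_span_singleton_self w) Submodule.mem_top
  obtain ⟨r, hr1, hr⟩ :=
    Submodule.exists_sub_one_mem_and_smul_eq_zero_of_fg_of_le_smul (Ideal.span {w}) ⊤ hfg hle
  refine ⟨r, hr1, fun β => ?_⟩
  have h3 := hr (N.mkQ β) Submodule.mem_top
  rw [← map_smul, Submodule.mkQ_apply, Submodule.Quotient.mk_eq_zero] at h3
  exact h3

end

section Indep

variable {S B : Type*} [CommRing S] [IsDomain S] [IsNoetherianRing S]
  [CommRing B] [Algebra S B] [Module.IsTorsionFree S B]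
  {ι : Type*} [Fintype ι]

/-- In a Noetherian domain, an element divisible by all powers of a prime element is zero. -/
theorem eq_zero_of_forall_pow_dvd {w : S} (hw : Prime w) {a : S} (h : ∀ k : ℕ, w ^ k ∣ a) :
    a = 0 := by
  by_contra ha
  have hfin : FiniteMultiplicity w a := FiniteMultiplicity.of_not_isUnit hw.not_isUnit ha
  obtain ⟨n, hn⟩ := hfin
  exact hn (h (n + 1))

/-- **Linear independence of the lifts.** -/
theorem linearIndependent_lift {w : S} (hw : Prime w) (b : ι → B)
    (hli : LinearIndependent (S ⧸ Ideal.span {w}) fun i => redB (S := S) w (b i)) :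
    LinearIndependent S b := by
  rw [Fintype.linearIndependent_iff]
  intro a ha
  -- all coefficients are divisible by all powers of `w`
  have key : ∀ k : ℕ, ∀ a : ι → S, ∑ i, a i • b i = 0 → ∀ i, w ^ k ∣ a i := by
    intro k
    induction k with
    | zero => intro a _ i; simp
    | succ k ih =>
      intro a ha i
      have h1 := ih a ha
      choose a' ha' using h1
      have h2 : ∑ i, a' i • b i = 0 := by
        have h3 : w ^ k • ∑ i, a' i • b i = 0 := by
          rw [Finset.smul_sum, ← ha]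
          refine Finset.sum_congr rfl fun i _ => ?_
          rw [smul_smul, ← ha' i]
        exact (smul_eq_zero_iff_right (pow_ne_zero k hw.ne_zero)).mp h3
      have h4 : ∑ i, redS w (a' i) • redB (S := S) w (b i) = 0 := by
        have := congrArg (redB (S := S) w) h2
        rw [map_sum, map_zero] at this
        rw [← this]
        refine Finset.sum_congr rfl fun i _ => ?_
        rw [redB_smul]
      have h5 := Fintype.linearIndependent_iff.mp hli _ h4 i
      rw [redS_eq_zero_iff] at h5
      obtain ⟨c, hc⟩ := h5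
      exact ⟨c, by rw [ha' i, hc, pow_succ]; ring⟩
  intro i
  exact eq_zero_of_forall_pow_dvd hw fun k => key k a ha i

end Indep

end Fermat.Agent.S18.H203

end
-- ===== PACK-END S18/H203/LiftBasis.lean

-- ===== PACK-BEGIN S18/B12/H444/GenericDiscr.lean
section




/-!
# S18 / b2.5 / A5 (helper444): the generic-fibre discriminant bound

Frozen statement: `GenericDiscrStatement` of `Fermat/Agent/S18/B12/Spec2.lean` (helper33);
exact-shape theorem `genericDiscr : GenericDiscrStatement` in `GenericDiscrSpec.lean`.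

Main theorem here (abstract over the localisations `Λ = P[1/w]`, `C₀ = B[1/w]`):

    theorem genericDiscr_abs  -- P int. closed noetherian domain, B normal finite torsion-free / P,
        (w : P) (hw0 : w ≠ 0) Λ C₀ [IsLocalization (powers w) Λ]
        [IsLocalization (algebraMapSubmonoid B (powers w)) C₀] [IsPrincipalIdealRing Λ] [Algebra ℚ Λ]
        (π : P) (hπ : Prime π) (hπw : ¬ π ∣ w) (n) (x : Fin n → B) (hli : LinearIndependent P x)
        (g : P) (hgπ : ¬ π ∣ g) (hg : ∀ b, g • b ∈ span P (range x)) (r) (y : Fin r → B)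
        (hy : ∀ a, ∑ i, a i • y i ∈ (span {algebraMap P B π}).radical → ∀ i, π ∣ a i) :
        ¬ π ^ (n - r + 1) ∣ (Matrix.of fun i j => Algebra.intTrace P B (x i * x j)).det

Proof: `C₀` is a Dedekind domain, free of rank `n` over the PID `Λ`; the integral trace localises
(`Algebra.intTrace_eq_of_isLocalization`); the base-change matrix `U` from a `Λ`-basis `β` of `C₀`
to `x` has `t ∤ det U` (`t` = image of `π`), so `t^k ∣ disc(x) = det U² · disc β` forces
`t^k ∣ disc β`, contradicting helper274's tame bound `H274.tameDiscr`.  The independence of `y`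
modulo `rad(t C₀)` descends from `B` by clearing denominators and the regular-sequence lemma
`dvd_of_mul_eq_mul` (A0-type, via helper203's `isIntegral_of_isIntegral_mul`).
-/

set_option autoImplicit false

noncomputable section

namespace Fermat.Agent.S18.B12.H444

open Polynomial Module Matrix

universe u v

section RegSeq

variable {P : Type u} [CommRing P] [IsDomain P] [IsIntegrallyClosed P]
  {B : Type v} [CommRing B] [IsDomain B] [IsIntegrallyClosed B] [Algebra P B]
  [Algebra.IsIntegral P B] [Module.IsTorsionFree P B]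

/-- Regular sequence (A0-type): `π` prime in `P`, `π ∤ u`, `u z ∈ π B` implies `z ∈ π B`. -/
theorem dvd_of_mul_eq_mul {π u : P} (hπ : Prime π) (hu : ¬ π ∣ u) {z b : B}
    (h : algebraMap P B u * z = algebraMap P B π * b) :
    ∃ b'' : B, z = algebraMap P B π * b'' := by
  let K := FractionRing P
  let F := FractionRing B
  letI : Algebra K F := FractionRing.liftAlgebra P F
  haveI : IsScalarTower P K F := FractionRing.isScalarTower_liftAlgebra P F
  have hinjPB : Function.Injective (algebraMap P B) := FaithfulSMul.algebraMap_injective P B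
  have hπB : algebraMap P B π ≠ 0 := (_root_.map_ne_zero_iff _ hinjPB).mpr hπ.ne_zero
  have hπF : algebraMap P F π ≠ 0 := by
    rw [IsScalarTower.algebraMap_apply P B F]
    exact (_root_.map_ne_zero_iff _ (IsFractionRing.injective B F)).mpr hπB
  set ζ : F := (algebraMap P F π)⁻¹ * algebraMap B F z with hζ
  have h1 : algebraMap P F π * ζ = algebraMap B F z := by
    rw [hζ, mul_inv_cancel_left₀ hπF]
  have h2 : algebraMap P F u * ζ = algebraMap B F b := by
    have h' := congrArg (algebraMap B F) h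
    rw [_root_.map_mul, _root_.map_mul, ← IsScalarTower.algebraMap_apply P B F,
      ← IsScalarTower.algebraMap_apply P B F] at h'
    rw [hζ, mul_left_comm, h', inv_mul_cancel_left₀ hπF]
  have hint : IsIntegral P ζ := by
    refine Fermat.Agent.S18.H203.isIntegral_of_isIntegral_mul K hπ hu ?_ ?_
    · rw [h1]
      exact (Algebra.IsIntegral.isIntegral (R := P) z).map (IsScalarTower.toAlgHom P B F)
    · rw [h2]
      exact (Algebra.IsIntegral.isIntegral (R := P) b).map (IsScalarTower.toAlgHom P B F)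
  have hintB : IsIntegral B ζ := hint.tower_top
  obtain ⟨b'', hb''⟩ := (IsIntegrallyClosed.isIntegral_iff (R := B) (K := F)).mp hintB
  refine ⟨b'', ?_⟩
  apply IsFractionRing.injective B F
  rw [_root_.map_mul, hb'', ← h1, IsScalarTower.algebraMap_apply P B F]

end RegSeq

section Loc

theorem powers_le_nonZeroDivisors' {P : Type u} [CommRing P] [IsDomain P] (w : P) (hw0 : w ≠ 0) :
    Submonoid.powers w ≤ nonZeroDivisors P := by
  rintro a ⟨k, rfl⟩
  exact mem_nonZeroDivisors_of_ne_zero (pow_ne_zero k hw0)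

theorem map_powers_le_nonZeroDivisors' {P : Type u} [CommRing P] [IsDomain P]
    (B : Type v) [CommRing B] [IsDomain B] [Algebra P B] [Module.IsTorsionFree P B]
    (w : P) (hw0 : w ≠ 0) :
    Algebra.algebraMapSubmonoid B (Submonoid.powers w) ≤ nonZeroDivisors B := by
  rintro a ⟨b, ⟨k, rfl⟩, rfl⟩
  refine mem_nonZeroDivisors_of_ne_zero ?_
  exact (_root_.map_ne_zero_iff _ (FaithfulSMul.algebraMap_injective P B)).mpr (pow_ne_zero k hw0)

theorem isDomain_loc {P : Type u} [CommRing P] [IsDomain P]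
    (B : Type v) [CommRing B] [IsDomain B] [Algebra P B] [Module.IsTorsionFree P B]
    (w : P) (C₀ : Type v) [CommRing C₀] [Algebra B C₀]
    [IsLocalization (Algebra.algebraMapSubmonoid B (Submonoid.powers w)) C₀]
    (hw0 : w ≠ 0) : IsDomain C₀ :=
  IsLocalization.isDomain_of_le_nonZeroDivisors _ (map_powers_le_nonZeroDivisors' B w hw0)

theorem injective_algebraMap_loc {P : Type u} [CommRing P] [IsDomain P]
    (B : Type v) [CommRing B] [IsDomain B] [Algebra P B] [Module.IsTorsionFree P B]
    (w : P)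
    (Λ : Type u) [CommRing Λ] [Algebra P Λ] [IsLocalization (Submonoid.powers w) Λ]
    (C₀ : Type v) [CommRing C₀] [Algebra B C₀] [Algebra Λ C₀] [Algebra P C₀]
    [IsScalarTower P Λ C₀] [IsScalarTower P B C₀]
    [IsLocalization (Algebra.algebraMapSubmonoid B (Submonoid.powers w)) C₀]
    (hw0 : w ≠ 0) : Function.Injective (algebraMap Λ C₀) := by
  have hBC : Function.Injective (algebraMap B C₀) :=
    IsLocalization.injective C₀ (map_powers_le_nonZeroDivisors' B w hw0)
  have hPB : Function.Injective (algebraMap P B) := FaithfulSMul.algebraMap_injective P B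
  rw [injective_iff_map_eq_zero]
  intro a ha
  obtain ⟨⟨p, s⟩, hps⟩ := IsLocalization.surj (Submonoid.powers w) a
  simp only at hps
  have h1 : algebraMap Λ C₀ (algebraMap P Λ p) = 0 := by
    rw [← hps, _root_.map_mul, ha, _root_.MulZeroClass.zero_mul]
  rw [← IsScalarTower.algebraMap_apply, IsScalarTower.algebraMap_apply P B C₀] at h1
  have h2 : p = 0 := by
    have := (_root_.map_eq_zero_iff _ hBC).mp h1
    exact (_root_.map_eq_zero_iff _ hPB).mp this
  rw [h2, _root_.map_zero] at hps
  have hu : IsUnit (algebraMap P Λ s) := IsLocalization.map_units Λ s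
  exact (hu.mul_left_eq_zero).mp hps

theorem isDedekindDomain_loc {P : Type u} [CommRing P] [IsDomain P] [IsNoetherianRing P]
    (B : Type v) [CommRing B] [IsDomain B] [IsIntegrallyClosed B] [Algebra P B]
    [Module.Finite P B] [Module.IsTorsionFree P B]
    (w : P)
    (Λ : Type u) [CommRing Λ] [Algebra P Λ] [IsLocalization (Submonoid.powers w) Λ]
    (C₀ : Type v) [CommRing C₀] [Algebra B C₀] [Algebra Λ C₀] [Algebra P C₀]
    [IsScalarTower P Λ C₀] [IsScalarTower P B C₀]
    [IsLocalization (Algebra.algebraMapSubmonoid B (Submonoid.powers w)) C₀]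
    [IsDomain Λ] [IsPrincipalIdealRing Λ] (hw0 : w ≠ 0) :
    IsDedekindDomain C₀ := by
  have : IsDomain C₀ := isDomain_loc B w C₀ hw0
  have : IsNoetherianRing B := IsNoetherianRing.of_finite P B
  have : IsNoetherianRing C₀ :=
    IsLocalization.isNoetherianRing (Algebra.algebraMapSubmonoid B (Submonoid.powers w)) C₀
      inferInstance
  have : IsIntegrallyClosed C₀ :=
    isIntegrallyClosed_of_isLocalization C₀ _ (map_powers_le_nonZeroDivisors' B w hw0)
  have : Module.Finite Λ C₀ := Module.Finite.of_isLocalization P B (Submonoid.powers w)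
  have : Algebra.IsIntegral Λ C₀ := Algebra.IsIntegral.of_finite Λ C₀
  have : Ring.DimensionLEOne C₀ := Ring.DimensionLEOne.of_isIntegral Λ C₀
  exact { }

end Loc

section Abstract

variable {P : Type u} [CommRing P] [IsDomain P]
  (w : P)
  (Λ : Type u) [CommRing Λ] [Algebra P Λ] [IsLocalization (Submonoid.powers w) Λ]

include w in
omit [IsDomain P] in
theorem not_dvd_pow_of_not_dvd {π : P} (hπ : Prime π) (hπw : ¬ π ∣ w) (k : ℕ) : ¬ π ∣ w ^ k :=
  fun h => hπw (hπ.dvd_of_dvd_pow h)

omit [IsDomain P] in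
theorem disjoint_powers {π : P} (hπ : Prime π) (hπw : ¬ π ∣ w) :
    Disjoint (Submonoid.powers w : Set P) (Ideal.span {π} : Ideal P) := by
  rw [Set.disjoint_left]
  rintro a ⟨k, rfl⟩ ha
  exact not_dvd_pow_of_not_dvd w hπ hπw k (Ideal.mem_span_singleton.mp ha)

theorem prime_map {π : P} (hπ : Prime π) (hπw : ¬ π ∣ w) (hw0 : w ≠ 0) :
    Prime (algebraMap P Λ π) := by
  have hinj : Function.Injective (algebraMap P Λ) :=
    IsLocalization.injective Λ (powers_le_nonZeroDivisors' w hw0)
  have h0 : algebraMap P Λ π ≠ 0 := (_root_.map_ne_zero_iff _ hinj).mpr hπ.ne_zero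
  rw [← Ideal.span_singleton_prime h0]
  have := IsLocalization.isPrime_of_isPrime_disjoint (Submonoid.powers w) Λ (Ideal.span {π})
    ((Ideal.span_singleton_prime hπ.ne_zero).mpr hπ) (disjoint_powers w hπ hπw)
  rwa [Ideal.map_span, Set.image_singleton] at this

omit [IsDomain P] in
theorem dvd_of_map_dvd {π : P} (hπ : Prime π) (hπw : ¬ π ∣ w) {a : P}
    (h : algebraMap P Λ π ∣ algebraMap P Λ a) : π ∣ a := by
  have h1 := IsLocalization.under_map_of_isPrime_disjoint (Submonoid.powers w) Λ
    ((Ideal.span_singleton_prime hπ.ne_zero).mpr hπ) (disjoint_powers w hπ hπw)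
  have h2 : a ∈ (Ideal.map (algebraMap P Λ) (Ideal.span {π})).under P := by
    rw [Ideal.under_def, Ideal.mem_comap, Ideal.map_span, Set.image_singleton]
    exact Ideal.mem_span_singleton.mpr h
  rw [h1] at h2
  exact Ideal.mem_span_singleton.mp h2

end Abstract
section Loc2

/-- The trace of `B[1/w]` over `P[1/w]` restricts to the integral trace of `B` over `P`. -/
theorem map_intTrace_eq_trace {P : Type u} [CommRing P] [IsDomain P] [IsIntegrallyClosed P]
    (B : Type v) [CommRing B] [IsDomain B] [IsIntegrallyClosed B] [Algebra P B]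
    [Module.Finite P B] [Module.IsTorsionFree P B]
    (w : P)
    (Λ : Type u) [CommRing Λ] [Algebra P Λ] [IsLocalization (Submonoid.powers w) Λ]
    (C₀ : Type v) [CommRing C₀] [Algebra B C₀] [Algebra Λ C₀] [Algebra P C₀]
    [IsScalarTower P Λ C₀] [IsScalarTower P B C₀]
    [IsLocalization (Algebra.algebraMapSubmonoid B (Submonoid.powers w)) C₀]
    [IsDomain Λ] [IsPrincipalIdealRing Λ] (hw0 : w ≠ 0) (b : B) :
    algebraMap P Λ (Algebra.intTrace P B b) = Algebra.trace Λ C₀ (algebraMap B C₀ b) := by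
  have : IsDomain C₀ := isDomain_loc B w C₀ hw0
  have : IsIntegrallyClosed C₀ :=
    isIntegrallyClosed_of_isLocalization C₀ _ (map_powers_le_nonZeroDivisors' B w hw0)
  have : Module.Finite Λ C₀ := Module.Finite.of_isLocalization P B (Submonoid.powers w)
  have : Module.IsTorsionFree Λ C₀ :=
    isTorsionFree_iff_algebraMap_injective.mpr (injective_algebraMap_loc B w Λ C₀ hw0)
  have : Module.Free Λ C₀ := Module.free_of_finite_type_torsion_free'
  rw [Algebra.intTrace_eq_of_isLocalization P B (Submonoid.powers w) (Aₘ := Λ) (Bₘ := C₀) b,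
    Algebra.intTrace_eq_trace]

/-- Radical membership descends from `B[1/w]` to `B` (regular sequence `π, w`). -/
theorem mem_radical_of_map_mem_radical {P : Type u} [CommRing P] [IsDomain P]
    [IsIntegrallyClosed P]
    (B : Type v) [CommRing B] [IsDomain B] [IsIntegrallyClosed B] [Algebra P B]
    [Module.Finite P B] [Module.IsTorsionFree P B]
    (w : P)
    (Λ : Type u) [CommRing Λ] [Algebra P Λ]
    (C₀ : Type v) [CommRing C₀] [Algebra B C₀] [Algebra Λ C₀] [Algebra P C₀]
    [IsScalarTower P Λ C₀] [IsScalarTower P B C₀]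
    [IsLocalization (Algebra.algebraMapSubmonoid B (Submonoid.powers w)) C₀]
    (hw0 : w ≠ 0) {π : P} (hπ : Prime π) (hπw : ¬ π ∣ w) {z : B}
    (h : algebraMap B C₀ z ∈ (Ideal.span {algebraMap Λ C₀ (algebraMap P Λ π)}).radical) :
    z ∈ (Ideal.span {algebraMap P B π}).radical := by
  have hBC : Function.Injective (algebraMap B C₀) :=
    IsLocalization.injective C₀ (map_powers_le_nonZeroDivisors' B w hw0)
  obtain ⟨N, hN⟩ := h
  obtain ⟨c, hc⟩ := Ideal.mem_span_singleton'.mp hN
  obtain ⟨⟨b, s⟩, hbs⟩ :=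
    IsLocalization.surj (Algebra.algebraMapSubmonoid B (Submonoid.powers w)) c
  simp only at hbs
  obtain ⟨s', ⟨k, rfl⟩, hs'⟩ := s.2
  have hs'' : (s : B) = algebraMap P B (w ^ k) := hs'.symm
  have e1 : algebraMap Λ C₀ (algebraMap P Λ π) = algebraMap B C₀ (algebraMap P B π) := by
    rw [← IsScalarTower.algebraMap_apply, ← IsScalarTower.algebraMap_apply]
  have key : algebraMap P B (w ^ k) * z ^ N = algebraMap P B π * b := by
    apply hBC
    rw [_root_.map_mul, _root_.map_mul, _root_.map_pow (algebraMap B C₀) z N, ← hc, e1, ← hbs, hs'']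
    ring
  have hnd : ¬ π ∣ w ^ k := fun h => hπw (hπ.dvd_of_dvd_pow h)
  obtain ⟨b'', hb''⟩ := dvd_of_mul_eq_mul hπ hnd key
  refine ⟨N, Ideal.mem_span_singleton'.mpr ⟨b'', ?_⟩⟩
  rw [hb'', mul_comm]

/-- A local spanning family stays spanning (up to `g`) after inverting `w`. -/
theorem smul_mem_span_loc {P : Type u} [CommRing P]
    (B : Type v) [CommRing B] [Algebra P B]
    (w : P)
    (Λ : Type u) [CommRing Λ] [Algebra P Λ] [IsLocalization (Submonoid.powers w) Λ]
    (C₀ : Type v) [CommRing C₀] [Algebra B C₀] [Algebra Λ C₀] [Algebra P C₀]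
    [IsScalarTower P Λ C₀] [IsScalarTower P B C₀]
    [IsLocalization (Algebra.algebraMapSubmonoid B (Submonoid.powers w)) C₀]
    {n : ℕ} (x : Fin n → B) (g : P)
    (hg : ∀ b : B, g • b ∈ Submodule.span P (Set.range x)) (c : C₀) :
    algebraMap P Λ g • c ∈ Submodule.span Λ (Set.range (algebraMap B C₀ ∘ x)) := by
  obtain ⟨⟨b, s⟩, hbs⟩ :=
    IsLocalization.surj (Algebra.algebraMapSubmonoid B (Submonoid.powers w)) c
  simp only at hbs
  obtain ⟨s', ⟨k, rfl⟩, hs'⟩ := s.2
  have hs'' : (s : B) = algebraMap P B (w ^ k) := hs'.symm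
  have hu : IsUnit (algebraMap P Λ (w ^ k)) :=
    IsLocalization.map_units Λ (⟨w ^ k, k, rfl⟩ : Submonoid.powers w)
  obtain ⟨v, hv⟩ := hu.exists_left_inv
  -- `c = v • ι b`
  have hc : c = v • algebraMap B C₀ b := by
    rw [← hbs, hs'', ← IsScalarTower.algebraMap_apply P B C₀,
      IsScalarTower.algebraMap_apply P Λ C₀, Algebra.smul_def, ← _root_.mul_assoc, mul_comm _ c,
      _root_.mul_assoc, ← _root_.map_mul, hv, _root_.map_one, _root_.mul_one]
  -- `ι (g • b)` lies in the span
  have h1 : algebraMap B C₀ (g • b) ∈ Submodule.span Λ (Set.range (algebraMap B C₀ ∘ x)) := by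
    have h2 := hg b
    have h3 : (IsScalarTower.toAlgHom P B C₀).toLinearMap (g • b) ∈
        Submodule.map (IsScalarTower.toAlgHom P B C₀).toLinearMap
          (Submodule.span P (Set.range x)) := Submodule.mem_map_of_mem h2
    rw [Submodule.map_span, ← Set.range_comp] at h3
    have h4 : Submodule.span P (Set.range ((IsScalarTower.toAlgHom P B C₀).toLinearMap ∘ x)) ≤
        (Submodule.span Λ (Set.range (algebraMap B C₀ ∘ x))).restrictScalars P :=
      Submodule.span_le_restrictScalars P Λ _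
    exact h4 h3
  have h5 : algebraMap P Λ g • c = v • algebraMap B C₀ (g • b) := by
    rw [hc, Algebra.smul_def g b, _root_.map_mul, ← IsScalarTower.algebraMap_apply P B C₀,
      IsScalarTower.algebraMap_apply P Λ C₀, ← Algebra.smul_def, smul_comm]
  rw [h5]
  exact Submodule.smul_mem _ _ h1

end Loc2

section Main

/-- **A5, abstract form.**  `Λ = P[1/w]` a PID containing `ℚ`, `C₀ = B[1/w]`. -/
theorem genericDiscr_abs {P : Type u} [CommRing P] [IsDomain P] [IsIntegrallyClosed P]
    [IsNoetherianRing P]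
    (B : Type v) [CommRing B] [IsDomain B] [IsIntegrallyClosed B] [Algebra P B]
    [Module.Finite P B] [Module.IsTorsionFree P B]
    (w : P) (hw0 : w ≠ 0)
    (Λ : Type u) [CommRing Λ] [Algebra P Λ] [IsLocalization (Submonoid.powers w) Λ]
    (C₀ : Type v) [CommRing C₀] [Algebra B C₀] [Algebra Λ C₀] [Algebra P C₀]
    [IsScalarTower P Λ C₀] [IsScalarTower P B C₀]
    [IsLocalization (Algebra.algebraMapSubmonoid B (Submonoid.powers w)) C₀]
    [IsDomain Λ] [IsPrincipalIdealRing Λ] [Algebra ℚ Λ]
    (π : P) (hπ : Prime π) (hπw : ¬ π ∣ w)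
    (n : ℕ) (x : Fin n → B) (hli : LinearIndependent P x)
    (g : P) (hgπ : ¬ π ∣ g) (hg : ∀ b : B, g • b ∈ Submodule.span P (Set.range x))
    (r : ℕ) (y : Fin r → B)
    (hy : ∀ a : Fin r → P,
      (∑ i, a i • y i) ∈ (Ideal.span {algebraMap P B π}).radical → ∀ i, π ∣ a i) :
    ¬ π ^ (n - r + 1) ∣ (Matrix.of fun i j => Algebra.intTrace P B (x i * x j)).det := by
  classical
  have hD : IsDedekindDomain C₀ := isDedekindDomain_loc B w Λ C₀ hw0
  have : Module.Finite Λ C₀ := Module.Finite.of_isLocalization P B (Submonoid.powers w)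
  have hinjΛ := injective_algebraMap_loc B w Λ C₀ hw0
  have : Module.IsTorsionFree Λ C₀ := isTorsionFree_iff_algebraMap_injective.mpr hinjΛ
  have : Module.Free Λ C₀ := Module.free_of_finite_type_torsion_free'
  have hinjP : Function.Injective (algebraMap P Λ) :=
    IsLocalization.injective Λ (powers_le_nonZeroDivisors' w hw0)
  set t := algebraMap P Λ π with ht_def
  have ht : Prime t := prime_map w Λ hπ hπw hw0
  set x' : Fin n → C₀ := algebraMap B C₀ ∘ x with hx'
  have hli' : LinearIndependent Λ x' :=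
    hli.localization_localization (Rₛ := Λ) (Submonoid.powers w) C₀
  have hg0 : algebraMap P Λ g ≠ 0 := by
    intro h
    apply hgπ
    have : g = 0 := hinjP (by rw [h, _root_.map_zero])
    rw [this]
    exact dvd_zero π
  have hspan : ∀ c : C₀, algebraMap P Λ g • c ∈ Submodule.span Λ (Set.range x') :=
    fun c => smul_mem_span_loc B w Λ C₀ x g hg c
  -- rank
  have hn : Module.finrank Λ C₀ = n := by
    apply le_antisymm
    · let φ : C₀ →ₗ[Λ] Submodule.span Λ (Set.range x') :=
        LinearMap.codRestrict _ (algebraMap P Λ g • LinearMap.id) hspan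
      have hφ : Function.Injective φ := by
        intro c c' hcc
        have h1 : algebraMap P Λ g • c = algebraMap P Λ g • c' := congrArg Subtype.val hcc
        exact smul_right_injective C₀ hg0 h1
      calc Module.finrank Λ C₀
          ≤ Module.finrank Λ (Submodule.span Λ (Set.range x')) :=
            LinearMap.finrank_le_finrank_of_injective hφ
        _ ≤ Fintype.card (Fin n) := finrank_range_le_card x'
        _ = n := Fintype.card_fin n
    · have := hli'.fintype_card_le_finrank
      simpa using this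
  let β : Module.Basis (Fin n) Λ C₀ := Module.finBasisOfFinrankEq Λ C₀ hn
  let U : Matrix (Fin n) (Fin n) Λ := fun i j => β.repr (x' i) j
  have hU : x' = (U.map (algebraMap Λ C₀)) *ᵥ β := by
    ext i
    simp only [Matrix.mulVec, dotProduct]
    calc x' i = ∑ j, β.repr (x' i) j • β j := (β.sum_repr (x' i)).symm
      _ = _ := Finset.sum_congr rfl (fun j _ => by rw [Matrix.map_apply, Algebra.smul_def])
  have hV : ∀ j, ∃ c : Fin n → Λ, ∑ i, c i • x' i = algebraMap P Λ g • β j := fun j =>
    (Submodule.mem_span_range_iff_exists_fun Λ).mp (hspan (β j))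
  choose V hVeq using hV
  have hVU : (Matrix.of V) * U = algebraMap P Λ g • (1 : Matrix (Fin n) (Fin n) Λ) := by
    ext j l
    have h1 := congrArg (fun z => β.repr z l) (hVeq j)
    simp only [_root_.map_sum, _root_.map_smul, Finsupp.coe_finsetSum, Finsupp.coe_smul, Finset.sum_apply,
      Pi.smul_apply, smul_eq_mul, Module.Basis.repr_self] at h1
    rw [Matrix.mul_apply, Matrix.smul_apply, Matrix.one_apply, smul_eq_mul]
    simp only [Matrix.of_apply, U]
    rw [h1, Finsupp.single_apply]
  have hdetU : ¬ t ∣ U.det := by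
    intro hdvd
    have h1 : (Matrix.of V).det * U.det = (algebraMap P Λ g) ^ n := by
      rw [← Matrix.det_mul, hVU, Matrix.det_smul, Matrix.det_one, _root_.mul_one, Fintype.card_fin]
    have h2 : t ∣ algebraMap P Λ g ^ n := h1 ▸ Dvd.dvd.mul_left hdvd _
    have h3 : t ∣ algebraMap P Λ g := ht.dvd_of_dvd_pow h2
    exact hgπ (dvd_of_map_dvd w Λ hπ hπw h3)
  have hdisc : algebraMap P Λ ((Matrix.of fun i j => Algebra.intTrace P B (x i * x j)).det)
      = U.det ^ 2 * Algebra.discr Λ β := by
    rw [← Algebra.discr_of_matrix_mulVec, ← hU, Algebra.discr_def, RingHom.map_det]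
    congr 1
    ext i j
    simp only [RingHom.mapMatrix_apply, Matrix.map_apply, Matrix.of_apply,
      Algebra.traceMatrix_apply, Algebra.traceForm_apply, hx', Function.comp_apply]
    rw [map_intTrace_eq_trace B w Λ C₀ hw0, _root_.map_mul]
  have hy' : ∀ a : Fin r → Λ,
      (∑ i, a i • (algebraMap B C₀ ∘ y) i) ∈ (Ideal.span {algebraMap Λ C₀ t}).radical →
        ∀ i, t ∣ a i := by
    intro a ha i
    obtain ⟨s, hs⟩ := IsLocalization.exist_integer_multiples_of_finite (Submonoid.powers w) a
    choose a' ha' using hs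
    have hz : algebraMap B C₀ (∑ i, a' i • y i) =
        algebraMap Λ C₀ (algebraMap P Λ (s : P)) * ∑ i, a i • (algebraMap B C₀ ∘ y) i := by
      rw [_root_.map_sum, Finset.mul_sum]
      refine Finset.sum_congr rfl fun i _ => ?_
      rw [Algebra.smul_def (a' i) (y i), _root_.map_mul, ← IsScalarTower.algebraMap_apply P B C₀,
        IsScalarTower.algebraMap_apply P Λ C₀, ha' i, Algebra.smul_def, _root_.map_mul,
        Algebra.smul_def, Function.comp_apply]
      ring
    have hmem : algebraMap B C₀ (∑ i, a' i • y i) ∈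
        (Ideal.span {algebraMap Λ C₀ (algebraMap P Λ π)}).radical := by
      rw [hz]
      exact Ideal.mul_mem_left _ _ ha
    have h1 : π ∣ a' i :=
      hy a' (mem_radical_of_map_mem_radical B w Λ C₀ hw0 hπ hπw hmem) i
    have h2 : t ∣ algebraMap P Λ (a' i) := _root_.map_dvd (algebraMap P Λ) h1
    rw [ha' i, Algebra.smul_def] at h2
    exact ((IsLocalization.map_units Λ s).dvd_mul_left).mp h2
  have htame := Fermat.Agent.S18.H274.tameDiscr Λ t ht C₀ n β r (algebraMap B C₀ ∘ y) hy'
  intro hdvd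
  apply htame
  have h4 : t ^ (n - r + 1) ∣ U.det ^ 2 * Algebra.discr Λ β := by
    rw [← hdisc, ht_def, ← _root_.map_pow]
    exact _root_.map_dvd (algebraMap P Λ) hdvd
  exact ht.pow_dvd_of_dvd_mul_left _ (fun h => hdetU (ht.dvd_of_dvd_pow h)) h4

end Main

end Fermat.Agent.S18.B12.H444

end
end
-- ===== PACK-END S18/B12/H444/GenericDiscr.lean

-- ===== PACK-BEGIN S18/H394/KummerMain.lean
section




/-!
# S18, Route K, pieces b3+b4 (helper394): the Kummer endgame, user-facing form

`kummer_endgame`: two charts `B₀ ∋ x`, `B₁ ∋ x⁻¹` of a "curve over `R`" inside a field `F`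
(`M = B₀[1/x] = B₁[x]`, `B₀ ∩ B₁ = R`, `B₀` finite over `R[x]`, all three `m`-root closed), `m`
invertible in `R`, `m ≥ 2`.  Then there is NO `u ∈ Fˣ` such that
* `u` has exact order `m` modulo constants and `m`-th powers (`hord`), and
* `u` is "congruent to an `m`-th power modulo `w`" on both charts, compatibly
  (`σ₀ ^ m * u ≡ 1 mod w B₀`, `σ₁ ^ m * u ≡ 1 mod w B₁`, `σ₀ ≡ σ₁ mod w`, in the graded sense),
where `w ∈ R` is not a unit of `B₀`.

No Kummer field, no integral closure, no discriminant: the proof applies the two-chart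
connectedness theorem (b5) to the graded algebra `⨁ᵢ {f | f ^ m * u ^ i ∈ B} Tⁱ ⊆ F[T]/(T^m - u)`.
-/

set_option autoImplicit false

namespace Fermat.Agent.S18.H394

open Polynomial

variable {R F : Type*} [CommRing R] [IsLocalRing R] [IsNoetherianRing R] [Field F] [Algebra R F]

/-- **Kummer endgame** (pieces b3+b4+b5 of Route K in one statement). -/
theorem kummer_endgame
    (m : ℕ) (hm : 2 ≤ m) (ν : R) (hν : ν * (m : R) = 1)
    (w : R) (u : F) (hu : u ≠ 0)
    (B₀ B₁ M : Subalgebra R F)
    (hrc0 : RootClosed m B₀) (hrc1 : RootClosed m B₁) (hrcM : RootClosed m M)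
    (x : F) (hx0 : x ≠ 0) (hx : x ∈ B₀) (hx' : x⁻¹ ∈ B₁)
    (h0M : B₀ ≤ M) (h1M : B₁ ≤ M)
    (hloc0 : ∀ y ∈ M, ∃ n : ℕ, x ^ n * y ∈ B₀)
    (hloc1 : ∀ y ∈ M, ∃ n : ℕ, x⁻¹ ^ n * y ∈ B₁)
    (hint : ∀ y : F, y ∈ B₀ → y ∈ B₁ → ∃ r : R, algebraMap R F r = y)
    (hfin : ∃ s : Finset F, ∀ b ∈ B₀, ∃ P : F → Polynomial R,
      b = ∑ β ∈ s, Polynomial.aeval x (P β) * β)
    (hden : ∃ d ∈ B₀, d ≠ 0 ∧ d * u⁻¹ ∈ B₀)
    (hw1 : ∀ b ∈ B₀, algebraMap R F w * b ≠ 1)
    (hord : ∀ i : ℕ, 0 < i → i < m → ∀ f : F, f ≠ 0 → ∀ r : R,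
        f ^ m * u ^ i ≠ algebraMap R F r)
    (σ₀ σ₁ : F)
    (h₀ : ∃ b ∈ B₀, σ₀ ^ m * u - 1 = algebraMap R F w * b)
    (h₁ : ∃ b ∈ B₁, σ₁ ^ m * u - 1 = algebraMap R F w * b)
    (h₀₁ : ∃ γ : F, σ₀ - σ₁ = algebraMap R F w * γ ∧ γ ^ m * u ∈ M) : False := by
  classical
  have hm0 : m ≠ 0 := by omega
  have hp : (X ^ m - C u : F[X]).Monic := monic_X_pow_sub_C u hm0
  set pb := AdjoinRoot.powerBasis' hp with hpb
  have hdim : pb.dim = m := by
    rw [hpb, AdjoinRoot.powerBasis'_dim]
    exact natDegree_X_pow_sub_C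
  have hT : pb.gen ^ pb.dim = algebraMap F (AdjoinRoot (X ^ m - C u : F[X])) u := by
    rw [hdim, hpb, AdjoinRoot.powerBasis'_gen]
    have := AdjoinRoot.eval₂_root (X ^ m - C u : F[X])
    simp only [eval₂_sub, eval₂_pow, eval₂_X, eval₂_C] at this
    rw [sub_eq_zero] at this
    rw [this]
    rfl
  have hd0 : 0 < pb.dim := by omega
  have hd1 : 1 < pb.dim := by omega
  have hrc0' : RootClosed pb.dim B₀ := by rw [hdim]; exact hrc0
  have hrc1' : RootClosed pb.dim B₁ := by rw [hdim]; exact hrc1
  have hrcM' : RootClosed pb.dim M := by rw [hdim]; exact hrcM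
  obtain ⟨S, hS, hgen⟩ := kummerSub_fg pb u hu hT hd0 B₀ hrc0' x hx hfin hden
  refine kummer_endgame_aux pb u hT hd0 hd1 ν (by rw [hdim]; exact hν) w B₀ B₁ M hrc0' hrc1' hrcM'
    x hx0 hx hx' h0M h1M hloc0 hloc1 hint (↥S) (fun c => (c : AdjoinRoot (X ^ m - C u : F[X])))
    (fun c => hS c c.2) ?_ hw1 (by rw [hdim]; exact hord) σ₀ σ₁ (by rw [hdim]; exact h₀)
    (by rw [hdim]; exact h₁) (by rw [hdim]; exact h₀₁)
  intro b hb
  obtain ⟨P, hP⟩ := hgen b hb
  refine ⟨fun c => P c, ?_⟩
  rw [finsum_eq_sum_of_fintype, hP]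
  exact (Finset.sum_coe_sort S (fun c => Polynomial.aeval (algebraMap F _ x) (P c) * c)).symm

end Fermat.Agent.S18.H394

end
-- ===== PACK-END S18/H394/KummerMain.lean

-- ===== PACK-BEGIN S37/H940/Assembly.lean
section




/-!
# S37 / RIM (helper940): assembling the fibres into a global place reduction map

If the places of `F` and of `F_k` are partitioned into fibres `(𝔉 i, 𝔊 i)` each satisfying the
hypotheses of the fibre-local core, the fibre-local reduction maps glue to a map
`r : Place K F → Place k F_k` such that, for every `u ∈ V` with `ρ u ≠ 0` and every divisor `D`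
with `D = div u`,  `r_* D = div (ρ u)`  — the shape of clause (ii) of the Prelude's
`ModularCurve.IsPlaceReductionAlong`.  Degrees are preserved as soon as residue fields are trivial.
-/

set_option autoImplicit false

noncomputable section

namespace Fermat.Agent.S37.H940

open AlgebraicCurve
open Fermat.Agent.S24.FF

variable {K F k Fk : Type*} [Field K] [Field F] [Algebra K F] [Field k] [Field Fk]
  [Algebra k Fk]

/-- `Finsupp.mapDomain` evaluated at a point, as a sum over the support. -/
theorem mapDomain_apply_eq_sum {α β : Type*} [DecidableEq β] (r : α → β) (D : α →₀ ℤ) (Q : β) :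
    Finsupp.mapDomain r D Q = ∑ P ∈ D.support, if r P = Q then D P else 0 := by
  rw [Finsupp.mapDomain, Finsupp.sum_apply, Finsupp.sum]
  refine Finset.sum_congr rfl fun P _ => ?_
  rw [Finsupp.single_apply]

/-- a place all of whose regular functions have a value in `K` has degree one -/
theorem deg_eq_one_of_res (P : Place K F)
    (h : ∀ f : F, 0 ≤ P.ord f → ∃ c : K, InMax P (f - algebraMap K F c)) : P.deg = 1 := by
  unfold Place.deg
  rw [finrank_eq_one_iff_of_nonzero' (1 : P.ResidueField) one_ne_zero]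
  intro w
  obtain ⟨f, rfl⟩ := IsLocalRing.residue_surjective (R := P.toValuationSubring) w
  obtain ⟨c, hc⟩ := h (f : F) (ord_nonneg_of_mem P f.2)
  refine ⟨c, ?_⟩
  rw [Algebra.smul_def, mul_one]
  rw [inMax_iff_exists_mem_maximalIdeal] at hc
  obtain ⟨hmem, hmax⟩ := hc
  have e : (⟨(f : F) - algebraMap K F c, hmem⟩ : P.toValuationSubring)
      = f - algebraMap K P.toValuationSubring c := by
    apply Subtype.ext
    rfl
  rw [e, ← IsLocalRing.residue_eq_zero_iff, map_sub, sub_eq_zero] at hmax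
  rw [hmax]
  rfl

/-- A partition of the places of `F` and of `F_k` into fibres. -/
structure Atlas (C : Ctx K F k Fk) (ι : Type*) where
  /-- the fibres -/
  Φ : ι → Fibre C
  cover : ∀ P : Place K F, ∃ i, P ∈ (Φ i).𝔉
  disj : ∀ i j, ∀ P : Place K F, P ∈ (Φ i).𝔉 → P ∈ (Φ j).𝔉 → i = j
  cover' : ∀ Q : Place k Fk, ∃ i, Q ∈ (Φ i).𝔊
  disj' : ∀ i j, ∀ Q : Place k Fk, Q ∈ (Φ i).𝔊 → Q ∈ (Φ j).𝔊 → i = j

namespace Atlas

variable {C : Ctx K F k Fk} {ι : Type*} (𝔄 : Atlas C ι)

/-- the index of the fibre of a place of `F` -/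
def idx (P : Place K F) : ι := (𝔄.cover P).choose

theorem mem_idx (P : Place K F) : P ∈ (𝔄.Φ (𝔄.idx P)).𝔉 := (𝔄.cover P).choose_spec

theorem idx_eq {P : Place K F} {i : ι} (h : P ∈ (𝔄.Φ i).𝔉) : 𝔄.idx P = i :=
  𝔄.disj _ _ P (𝔄.mem_idx P) h

/-- **The global reduction map.** -/
def red (P : Place K F) : Place k Fk := (𝔄.Φ (𝔄.idx P)).red P

theorem red_eq {P : Place K F} {i : ι} (h : P ∈ (𝔄.Φ i).𝔉) : 𝔄.red P = (𝔄.Φ i).red P := by
  unfold red
  rw [𝔄.idx_eq h]

theorem red_mem {P : Place K F} {i : ι} (h : P ∈ (𝔄.Φ i).𝔉) : 𝔄.red P ∈ (𝔄.Φ i).𝔊 := by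
  rw [𝔄.red_eq h]
  exact (𝔄.Φ i).red_mem P

theorem mem_of_red_mem {P : Place K F} {i : ι} (h : 𝔄.red P ∈ (𝔄.Φ i).𝔊) :
    P ∈ (𝔄.Φ i).𝔉 := by
  have h1 := 𝔄.red_mem (𝔄.mem_idx P)
  have := 𝔄.disj' _ _ _ h1 h
  rw [← this]
  exact 𝔄.mem_idx P

theorem red_surj [Infinite k] (Q : Place k Fk) : ∃ P, 𝔄.red P = Q := by
  obtain ⟨i, hi⟩ := 𝔄.cover' Q
  obtain ⟨P, hP, hPQ⟩ := (𝔄.Φ i).red_surj hi
  exact ⟨P, by rw [𝔄.red_eq hP, hPQ]⟩

/-- value compatibility of the global reduction map -/
theorem red_value [Infinite k] {i : ι} (b : C.V)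
    (hreg : ∀ P ∈ (𝔄.Φ i).𝔉, 0 ≤ P.ord (b : F)) {P : Place K F} (hP : P ∈ (𝔄.Φ i).𝔉)
    {c : C.A} (hc : InMax P ((b : F) - algebraMap K F (c : K))) :
    InMax (𝔄.red P) (C.ρ b - algebraMap k Fk (C.π c)) := by
  rw [𝔄.red_eq hP]
  exact (𝔄.Φ i).red_value b hreg hP hc

open Classical in
/-- **Specialisation of principal divisors** (clause (ii) of `IsPlaceReductionAlong`):
`r_* div u = div (ρ u)` for every `u ∈ V` with `ρ u ≠ 0`. -/
theorem mapDomain_red [Infinite k] (u : C.V) (hu : C.ρ u ≠ 0) (D : Divisor K F)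
    (hD : ∀ P, D P = P.ord (u : F)) (Q : Place k Fk) :
    Finsupp.mapDomain 𝔄.red D Q = Q.ord (C.ρ u) := by
  obtain ⟨i, hi⟩ := 𝔄.cover' Q
  rw [← (𝔄.Φ i).finsum_red_eq u hu hi, mapDomain_apply_eq_sum]
  symm
  rw [← Finset.sum_filter]
  have hsum : ∑ P ∈ D.support with 𝔄.red P = Q, D P
      = ∑ P ∈ D.support with 𝔄.red P = Q, P.ord (u : F) :=
    Finset.sum_congr rfl fun P _ => hD P
  rw [hsum]
  apply finsum_mem_eq_sum_of_inter_support_eq
  ext P
  simp only [Set.mem_inter_iff, Function.mem_support, ne_eq, Finset.coe_filter,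
    Finsupp.mem_support_iff]
  constructor
  · rintro ⟨⟨h1, h2⟩, h3⟩
    refine ⟨⟨?_, ?_⟩, h3⟩
    · rw [hD P]; exact h3
    · rw [𝔄.red_eq h1]; exact h2
  · rintro ⟨⟨h1, h2⟩, h3⟩
    have hP : P ∈ (𝔄.Φ i).𝔉 := 𝔄.mem_of_red_mem (by rw [h2]; exact hi)
    refine ⟨⟨hP, ?_⟩, h3⟩
    rw [← 𝔄.red_eq hP]; exact h2

/-- **Existence of the place reduction map** from an atlas of fibres. -/
theorem exists_red [Infinite k] (𝔄 : Atlas C ι)
    (hresK : ∀ (P : Place K F) (f : F), 0 ≤ P.ord f → ∃ c : K, InMax P (f - algebraMap K F c))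
    (hresk : ∀ (Q : Place k Fk) (g : Fk), 0 ≤ Q.ord g →
      ∃ a : k, InMax Q (g - algebraMap k Fk a)) :
    ∃ r : Place K F → Place k Fk,
      (∀ P, (r P).deg = P.deg) ∧
      (∀ u : C.V, C.ρ u ≠ 0 → ∀ D : Divisor K F, (∀ P, D P = P.ord (u : F)) →
        ∀ Q, Finsupp.mapDomain r D Q = Q.ord (C.ρ u)) :=
  ⟨𝔄.red, fun P => by
      rw [deg_eq_one_of_res P (hresK P), deg_eq_one_of_res (𝔄.red P) (hresk _)],
    fun u hu D hD Q => 𝔄.mapDomain_red u hu D hD Q⟩

end Atlas

end Fermat.Agent.S37.H940

end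
end
-- ===== PACK-END S37/H940/Assembly.lean

-- ===== PACK-BEGIN S24/H324/RatOrd.lean
section




/-!
# S24 / ALG (helper324) — orders of elements of `K(j)` at the places of `F`; the divisor of a
rational function on `ℙ¹` has degree zero

For `r ∈ K(j)`, `r ≠ 0` (`K` algebraically closed) there are integers `ν a` (`a : K`, almost all
zero) and `νinf` with `νinf + ∑ ν a = 0` such that for every place `v` of `F`:
`v.ord r = ν a * v.ord (j - a)` if `v` lies over `a`, and `v.ord r = νinf * v.ord j⁻¹` if `v` is a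
pole of `j`.
-/

set_option autoImplicit false

noncomputable section

open AlgebraicCurve Polynomial IntermediateField
open Fermat.Agent.S24.H117

namespace Fermat.Agent.S24.H324

variable {K F : Type*} [Field K] [Field F] [Algebra K F]

/-- Order of `P(j)` at a place over `j = a`. -/
theorem ord_aeval_at (v : Place K F) (j : F) (a : K)
    (hv : 0 < v.ord (j - algebraMap K F a)) (P : K[X]) (hP : P ≠ 0) :
    aeval j P ≠ 0 ∧
      v.ord (aeval j P) = (P.rootMultiplicity a : ℤ) * v.ord (j - algebraMap K F a) := by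
  have hcomp : P.comp (X + C a) ≠ 0 := fun h => hP (comp_X_add_C_eq_zero_iff.mp h)
  have h := ord_aeval_eq v hv (P.comp (X + C a)) hcomp
  have he : aeval (j - algebraMap K F a) (P.comp (X + C a)) = aeval j P := by
    rw [aeval_comp]
    congr 1
    simp
  rw [he, ← rootMultiplicity_eq_rootMultiplicity] at h
  exact h

/-- Order of `P(j)` at a pole of `j`. -/
theorem ord_aeval_at_inf (v : Place K F) (j : F) (hv : v.ord j < 0) (P : K[X]) (hP : P ≠ 0) :
    aeval j P ≠ 0 ∧ v.ord (aeval j P) = (P.natDegree : ℤ) * v.ord j := by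
  have hj0 : j ≠ 0 := ne_zero_of_ord_ne_zero v hv.ne
  have hinv : 0 < v.ord j⁻¹ := by rw [v.ord_inv]; omega
  letI : Invertible j := invertibleOfNonzero hj0
  have hrev := eval₂_reverse_mul_pow (algebraMap K F) j P
  rw [invOf_eq_inv] at hrev
  have hq : P.reverse.coeff 0 ≠ 0 := by
    rw [coeff_zero_reverse]
    exact leadingCoeff_ne_zero.mpr hP
  have hrev0 : P.reverse ≠ 0 := fun h => hq (by rw [h, coeff_zero])
  have h1 := ord_aeval_of_coeff_zero_ne v hinv P.reverse hq
  have h2 := (ord_aeval_eq v hinv P.reverse hrev0).1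
  have he : aeval j P = aeval j⁻¹ P.reverse * j ^ P.natDegree := hrev.symm
  refine ⟨?_, ?_⟩
  · rw [he]
    exact mul_ne_zero h2 (pow_ne_zero _ hj0)
  · rw [he, v.ord_mul h2 (pow_ne_zero _ hj0), h1, ord_pow, zero_add]

/-- Sum of the root multiplicities over any finite set containing the roots. -/
theorem sum_rootMultiplicity [IsAlgClosed K] [DecidableEq K] (P : K[X]) (T : Finset K)
    (hT : ∀ a ∈ P.roots, a ∈ T) :
    ∑ a ∈ T, (P.rootMultiplicity a : ℤ) = P.natDegree := by
  have h := Multiset.sum_count_eq_card hT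
  rw [IsAlgClosed.card_roots_eq_natDegree] at h
  simp only [count_roots] at h
  exact_mod_cast h

/-- **The divisor of a rational function on `ℙ¹`**, read on the places of `F`. -/
theorem exists_pointOrd [IsAlgClosed K] (j r : F) (hr : r ∈ K⟮j⟯) (hr0 : r ≠ 0) :
    ∃ (ν : K → ℤ) (νinf : ℤ) (T : Finset K), (∀ a, a ∉ T → ν a = 0) ∧
      νinf + ∑ a ∈ T, ν a = 0 ∧
      (∀ (v : Place K F) (a : K), 0 < v.ord (j - algebraMap K F a) →
        v.ord r = ν a * v.ord (j - algebraMap K F a)) ∧
      (∀ v : Place K F, 0 < v.ord j⁻¹ → v.ord r = νinf * v.ord j⁻¹) := by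
  classical
  obtain ⟨P, Q, rfl⟩ := (mem_adjoin_simple_iff K r).mp hr
  have hP0 : aeval j P ≠ 0 := fun h => hr0 (by rw [h, zero_div])
  have hQ0 : aeval j Q ≠ 0 := fun h => hr0 (by rw [h, div_zero])
  have hP : P ≠ 0 := fun h => hP0 (by rw [h, _root_.map_zero])
  have hQ : Q ≠ 0 := fun h => hQ0 (by rw [h, _root_.map_zero])
  refine ⟨fun a => (P.rootMultiplicity a : ℤ) - Q.rootMultiplicity a,
    (Q.natDegree : ℤ) - P.natDegree, P.roots.toFinset ∪ Q.roots.toFinset, ?_, ?_, ?_, ?_⟩
  · intro a ha
    have haP : ¬ P.IsRoot a := fun h =>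
      ha (Finset.mem_union_left _ (Multiset.mem_toFinset.mpr ((mem_roots hP).mpr h)))
    have haQ : ¬ Q.IsRoot a := fun h =>
      ha (Finset.mem_union_right _ (Multiset.mem_toFinset.mpr ((mem_roots hQ).mpr h)))
    simp only [rootMultiplicity_eq_zero haP, rootMultiplicity_eq_zero haQ]
    simp
  · rw [Finset.sum_sub_distrib,
      sum_rootMultiplicity P _ (fun a ha => Finset.mem_union_left _ (Multiset.mem_toFinset.mpr ha)),
      sum_rootMultiplicity Q _
        (fun a ha => Finset.mem_union_right _ (Multiset.mem_toFinset.mpr ha))]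
    ring
  · intro v a hv
    obtain ⟨-, h1⟩ := ord_aeval_at v j a hv P hP
    obtain ⟨-, h2⟩ := ord_aeval_at v j a hv Q hQ
    rw [ord_div v hP0 hQ0, h1, h2]
    ring
  · intro v hv
    have hj : v.ord j < 0 := by
      rw [v.ord_inv] at hv
      omega
    obtain ⟨-, h1⟩ := ord_aeval_at_inf v j hj P hP
    obtain ⟨-, h2⟩ := ord_aeval_at_inf v j hj Q hQ
    rw [ord_div v hP0 hQ0, h1, h2, v.ord_inv]
    ring

end Fermat.Agent.S24.H324

end
end
-- ===== PACK-END S24/H324/RatOrd.lean

-- ===== PACK-BEGIN Lib/RR/H409/RiemannOf.lean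
section


/-!
# RR library, layer L3.1: Riemann's theorem, with the pole bound (L2) as an explicit hypothesis

`exists_riemann_bound_of`: if for every `x` with `F` finite over `K(x)` the poles of `x`, counted
with multiplicity, number at most `[F : K(x)]`, then `deg D - ℓ(D)` is bounded above.
(Stichtenoth 1.4.17.)
-/

set_option autoImplicit false

noncomputable section

open AlgebraicCurve

namespace Fermat.Agent.Lib.RR.H409

open Fermat.Agent.Lib.RR

variable {K F : Type*} [Field K] [Field F] [Algebra K F]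

/-- The negative part `v ↦ max 0 (-(D v))` of a divisor. -/
def negPartDiv (D : Divisor K F) : Divisor K F :=
  Finsupp.mapRange (fun n : ℤ => max 0 (-n)) (by simp) D

@[simp] theorem negPartDiv_apply (D : Divisor K F) (v : Place K F) :
    negPartDiv D v = max 0 (-(D v)) := by
  simp [negPartDiv]

/-- The positive part `v ↦ max 0 (D v)` of a divisor. -/
def posPartDiv (D : Divisor K F) : Divisor K F :=
  Finsupp.mapRange (fun n : ℤ => max 0 n) (by simp) D

@[simp] theorem posPartDiv_apply (D : Divisor K F) (v : Place K F) :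
    posPartDiv D v = max 0 (D v) := by
  simp [posPartDiv]

theorem negPartDiv_nonneg (D : Divisor K F) : 0 ≤ negPartDiv D := by
  rw [Finsupp.le_def]; intro v; simp

theorem posPartDiv_nonneg (D : Divisor K F) : 0 ≤ posPartDiv D := by
  rw [Finsupp.le_def]; intro v; simp

theorem le_posPartDiv (D : Divisor K F) : D ≤ posPartDiv D := by
  rw [Finsupp.le_def]; intro v; simp

/-- The `K`-linear independence of the powers of a transcendental element. -/
theorem linearIndependent_pow_of_transcendental {x : F} (hx : Transcendental K x) :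
    LinearIndependent K (fun i : ℕ => x ^ i) := by
  have h1 := (Polynomial.basisMonomials K).linearIndependent.map'
    (Polynomial.aeval x).toLinearMap
    (LinearMap.ker_eq_bot.mpr (transcendental_iff_injective.mp hx))
  have h2 : (fun i : ℕ => x ^ i)
      = (Polynomial.aeval x).toLinearMap ∘ (Polynomial.basisMonomials K) := by
    ext i
    simp [Polynomial.coe_basisMonomials]
  rw [h2]
  exact h1

/-- Key independence: `x ^ i * u j` are `K`-linearly independent. -/
theorem linearIndependent_pow_mul {x : F} (hx : Transcendental K x) {n : ℕ}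
    (u : Fin n → F) (hu : LinearIndependent (IntermediateField.adjoin K {x}) u) (l : ℕ) :
    LinearIndependent K (fun p : Fin (l + 1) × Fin n => x ^ (p.1 : ℕ) * u p.2) := by
  let x' : IntermediateField.adjoin K {x} := IntermediateField.AdjoinSimple.gen K x
  have hx' : ∀ i : ℕ, ((x' ^ i : IntermediateField.adjoin K {x}) : F) = x ^ i := by
    intro i; simp [x']
  have hb : LinearIndependent K (fun i : Fin (l + 1) => x' ^ (i : ℕ)) := by
    have h0 : LinearIndependent K (fun i : ℕ => x' ^ i) := by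
      apply LinearIndependent.of_comp
        (IsScalarTower.toAlgHom K (IntermediateField.adjoin K {x}) F).toLinearMap
      have h3 := linearIndependent_pow_of_transcendental (K := K) hx
      have h4 : (⇑(IsScalarTower.toAlgHom K (IntermediateField.adjoin K {x}) F).toLinearMap ∘
          fun i : ℕ => x' ^ i) = fun i : ℕ => x ^ i := by
        ext i
        simp [x']
      rw [h4]
      exact h3
    exact h0.comp _ Fin.val_injective
  have h := linearIndependent_smul hb hu
  have h5 : (fun p : Fin (l + 1) × Fin n => x ^ (p.1 : ℕ) * u p.2)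
      = fun p : Fin (l + 1) × Fin n => x' ^ (p.1 : ℕ) • u p.2 := by
    ext p
    rw [IntermediateField.smul_def, smul_eq_mul, hx']
  rw [h5]
  exact h

section FF1

variable [hFF : FF1 K F]

/-- The pole divisor `(z)_∞` of a nonzero function. -/
def poleDiv (z : F) (hz : z ≠ 0) : Divisor K F := negPartDiv (divOf z hz)

theorem poleDiv_apply (z : F) (hz : z ≠ 0) (v : Place K F) :
    poleDiv z hz v = max 0 (-(v.ord z)) := by
  simp [poleDiv, divOf_apply]

theorem poleDiv_nonneg (z : F) (hz : z ≠ 0) : 0 ≤ poleDiv (K := K) z hz := negPartDiv_nonneg _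

theorem neg_poleDiv_le_ord (z : F) (hz : z ≠ 0) (v : Place K F) :
    -(poleDiv z hz v) ≤ v.ord z := by
  rw [poleDiv_apply]
  have := le_max_right 0 (-(v.ord z))
  omega

/-- The degree of the pole divisor, as the sum of the pole orders. -/
theorem degree_poleDiv_le (z : F) (hz : z ≠ 0) (n : ℤ)
    (h : ∀ S : Finset (Place K F), (∀ v ∈ S, v.ord z < 0) → ∑ v ∈ S, -v.ord z ≤ n) :
    Divisor.degree (poleDiv (K := K) z hz) ≤ n := by
  rw [degree_eq_sum]
  have hS : ∀ v ∈ (poleDiv (K := K) z hz).support, v.ord z < 0 := by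
    intro v hv
    rw [Finsupp.mem_support_iff, poleDiv_apply] at hv
    by_contra hcon
    apply hv
    rw [max_eq_left (by omega)]
  refine le_trans (le_of_eq ?_) (h _ hS)
  refine Finset.sum_congr rfl fun v hv => ?_
  have := hS v hv
  rw [poleDiv_apply, deg_eq_one v, max_eq_right (by omega)]
  simp

/-- Step 1: the `n (l + 1)` functions `x ^ i * u j` lie in `L(l B + C)`. -/
theorem le_ell_of_basis {x : F} (hx : Transcendental K x) {n : ℕ} (u : Fin n → F)
    (hu : LinearIndependent (IntermediateField.adjoin K {x}) u)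
    (B C : Divisor K F) (hB0 : 0 ≤ B) (hB : ∀ v : Place K F, -(B v) ≤ v.ord x)
    (hC : ∀ (j : Fin n) (v : Place K F), -(C v) ≤ v.ord (u j)) (l : ℕ) :
    n * (l + 1) ≤ ell (l • B + C) := by
  classical
  have hx0 : x ≠ 0 := fun h => hx (h ▸ isAlgebraic_zero)
  have hli := linearIndependent_pow_mul hx u hu l
  have hmem : ∀ p : Fin (l + 1) × Fin n,
      x ^ (p.1 : ℕ) * u p.2 ∈ riemannRochSpace (l • B + C) := by
    intro p
    rw [mem_L_iff]
    intro v
    right
    rw [v.ord_mul (pow_ne_zero _ hx0) (hu.ne_zero p.2), ord_pow]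
    have h1 := hB v
    have h2 := hC p.2 v
    have h3 : 0 ≤ B v := by simpa using Finsupp.le_def.mp hB0 v
    have h4 : ((p.1 : ℕ) : ℤ) ≤ (l : ℤ) := by exact_mod_cast Nat.lt_succ_iff.mp p.1.2
    have h5 : (0 : ℤ) ≤ ((p.1 : ℕ) : ℤ) := Nat.cast_nonneg _
    rw [Finsupp.add_apply, Finsupp.smul_apply, nsmul_eq_mul]
    nlinarith [mul_nonneg h5 (show (0 : ℤ) ≤ v.ord x + B v by omega),
      mul_nonneg (show (0 : ℤ) ≤ (l : ℤ) - ((p.1 : ℕ) : ℤ) by omega) h3]
  have hspan : Submodule.span K
      (Set.range fun p : Fin (l + 1) × Fin n => x ^ (p.1 : ℕ) * u p.2)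
        ≤ riemannRochSpace (l • B + C) :=
    Submodule.span_le.mpr (by rintro _ ⟨p, rfl⟩; exact hmem p)
  have h1 := Submodule.finrank_mono hspan
  rw [finrank_span_eq_card hli] at h1
  simpa [ell, Fintype.card_prod, mul_comm] using h1

/-- **Riemann's theorem**, with the pole bound (layer L2) as an explicit hypothesis. -/
theorem exists_riemann_bound_of
    (hL2 : ∀ (x : F) [FiniteDimensional (IntermediateField.adjoin K {x}) F]
      (S : Finset (Place K F)), (∀ v ∈ S, v.ord x < 0) →
      ∑ v ∈ S, -v.ord x ≤ (Module.finrank (IntermediateField.adjoin K {x}) F : ℤ)) :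
    ∃ γ : ℤ, ∀ D : Divisor K F, Divisor.degree D - ell D ≤ γ := by
  classical
  obtain ⟨x, hx, hfin⟩ := hFF.exists_finite
  have hfin' : FiniteDimensional (IntermediateField.adjoin K {x}) F := hfin
  have hx0 : x ≠ 0 := fun h => hx (h ▸ isAlgebraic_zero)
  obtain ⟨n, hn⟩ : ∃ n : ℕ, n = Module.finrank (IntermediateField.adjoin K {x}) F := ⟨_, rfl⟩
  have hnpos : 0 < n := hn ▸ Module.finrank_pos
  let b := Module.finBasis (IntermediateField.adjoin K {x}) F
  have hu : LinearIndependent (IntermediateField.adjoin K {x}) (fun j => b j) :=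
    b.linearIndependent
  let B : Divisor K F := poleDiv x hx0
  let C : Divisor K F := ∑ j, poleDiv (b j) (hu.ne_zero j)
  have hC0 : 0 ≤ C := Finset.sum_nonneg fun j _ => poleDiv_nonneg _ _
  have hC : ∀ (j : Fin (Module.finrank (IntermediateField.adjoin K {x}) F)) (v : Place K F),
      -(C v) ≤ v.ord (b j) := by
    intro j v
    have h1 : poleDiv (b j) (hu.ne_zero j) ≤ C :=
      Finset.single_le_sum (f := fun j => poleDiv (K := K) (b j) (hu.ne_zero j))
        (fun i _ => poleDiv_nonneg _ _) (Finset.mem_univ j)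
    have h2 := Finsupp.le_def.mp h1 v
    have h3 := neg_poleDiv_le_ord (K := K) (b j) (hu.ne_zero j) v
    omega
  have hdegB : Divisor.degree B ≤ n :=
    degree_poleDiv_le x hx0 n (fun S hS => hn ▸ hL2 x S hS)
  have key : ∀ l : ℕ, (n : ℤ) * (l + 1) - Divisor.degree C ≤ ell (l • B) := by
    intro l
    have h1 := le_ell_of_basis hx (fun j => b j) hu B C (poleDiv_nonneg _ _)
      (neg_poleDiv_le_ord _ _) hC l
    have h2 := degree_sub_ell_mono (D := l • B) (D' := l • B + C) (le_add_of_nonneg_right hC0)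
    rw [map_add] at h2
    have h3 : ((Module.finrank (IntermediateField.adjoin K {x}) F * (l + 1) : ℕ) : ℤ)
        ≤ ell (l • B + C) := by exact_mod_cast h1
    rw [← hn] at h3
    push_cast at h3
    linarith
  have keyB : ∀ l : ℕ, Divisor.degree (l • B) - ell (l • B) ≤ Divisor.degree C - n := by
    intro l
    have h1 := key l
    have h2 : Divisor.degree (l • B) = l * Divisor.degree B := by
      rw [map_nsmul, nsmul_eq_mul]
    have h3 : (l : ℤ) * Divisor.degree B ≤ l * n :=
      mul_le_mul_of_nonneg_left hdegB (Nat.cast_nonneg l)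
    rw [h2]
    linarith
  refine ⟨Divisor.degree C - n, fun A => ?_⟩
  have hA : Divisor.degree A - ell A
      ≤ Divisor.degree (posPartDiv A) - ell (posPartDiv A) :=
    degree_sub_ell_mono (le_posPartDiv A)
  obtain ⟨A₁, hA₁, hA₁0⟩ : ∃ A₁ : Divisor K F, A₁ = posPartDiv A ∧ 0 ≤ A₁ :=
    ⟨_, rfl, posPartDiv_nonneg A⟩
  rw [← hA₁] at hA
  refine hA.trans ?_
  obtain ⟨l, hl⟩ : ∃ l : ℕ, l = (Divisor.degree C + Divisor.degree A₁).toNat := ⟨_, rfl⟩
  have hl1 : Divisor.degree C + Divisor.degree A₁ ≤ l := hl ▸ Int.self_le_toNat _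
  have hpos : 0 < ell (l • B - A₁) := by
    have h1 := degree_sub_ell_mono (D := l • B - A₁) (D' := l • B)
      (sub_le_self _ hA₁0)
    rw [map_sub] at h1
    have h2 := key l
    have h3 : (l : ℤ) + 1 ≤ (n : ℤ) * (l + 1) := by
      have : (1 : ℤ) ≤ n := by exact_mod_cast hnpos
      nlinarith
    have h4 : (0 : ℤ) < ell (l • B - A₁) := by linarith
    exact_mod_cast h4
  obtain ⟨⟨z, hzL⟩, hz⟩ := Module.finrank_pos_iff_exists_ne_zero.mp hpos
  have hz0 : z ≠ 0 := fun h => hz (Subtype.ext h)
  have hD' : A₁ + divOf z⁻¹ (inv_ne_zero hz0) ≤ l • B := by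
    rw [Finsupp.le_def]
    intro v
    have h1 := (mem_L_iff.mp hzL v).resolve_left hz0
    rw [Finsupp.sub_apply, Finsupp.smul_apply, nsmul_eq_mul] at h1
    rw [Finsupp.add_apply, Finsupp.smul_apply, nsmul_eq_mul, divOf_apply, v.ord_inv]
    omega
  have h5 := degree_sub_ell_mono hD'
  rw [map_add, degree_divOf, add_zero, ell_add_divOf] at h5
  exact h5.trans (keyB l)

end FF1

end Fermat.Agent.Lib.RR.H409

end
end
-- ===== PACK-END Lib/RR/H409/RiemannOf.lean

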