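import Fermat.Prelude.Def_ModularCurve_JqCoeff
import Mathlib
import Fermat.Prelude.Def_AlgebraicCurve_DivisorClassGroup
import Fermat.Prelude.Def_ModularCurve_PeriodHomPair
import Fermat.Agent.Pack.S33.E4L1
import Fermat.Agent.Pack.S33.E4L3
import Fermat.Agent.Pack.S33.E4L2
import Fermat.Agent.Pack.S33.E3L1
import Fermat.Agent.Pack.S33.E4L0
import Fermat.Agent.Pack.S33.E1L3
import Fermat.Agent.Pack.S33.E5L2
import Fermat.Agent.Pack.S33.E5L3
import Fermat.Agent.Pack.S33.E1L0
import Fermat.Agent.Pack.S33.E5L0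

-- ===== PACK-BEGIN S14/H74/Support.lean
section


/-!
# S14/N1 (helper74): the support of `rho` (piece P5a)

On the support of `rho` all the `normAtPlace w x` are comparable with `‖x‖`.
-/

namespace Fermat.Agent.S14.H74

open NumberField NumberField.mixedEmbedding NumberField.Units
  NumberField.Units.dirichletUnitTheorem NumberField.InfinitePlace Module

open scoped Classical

variable {K : Type*} [Field K] [NumberField K]

theorem normAtPlace_le_norm (w : InfinitePlace K) (x : mixedSpace K) :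
    normAtPlace w x ≤ ‖x‖ := by
  classical
  rw [norm_eq_sup'_normAtPlace]
  exact Finset.le_sup' (fun w ↦ normAtPlace w x) (Finset.mem_univ w)

theorem exists_norm_eq_normAtPlace (x : mixedSpace K) : ∃ w, ‖x‖ = normAtPlace w x := by
  classical
  obtain ⟨w, -, hw⟩ := Finset.exists_mem_eq_sup' Finset.univ_nonempty
    (fun w : InfinitePlace K ↦ normAtPlace w x)
  exact ⟨w, by rw [norm_eq_sup'_normAtPlace, hw]⟩

theorem log_norm_eq_sum {x : mixedSpace K} (hx : mixedEmbedding.norm x ≠ 0) :
    Real.log (mixedEmbedding.norm x) = ∑ w, (mult w : ℝ) * Real.log (normAtPlace w x) := by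
  rw [mixedEmbedding.norm_apply, Real.log_prod]
  · exact Finset.sum_congr rfl fun w _ ↦ by rw [Real.log_pow]
  · intro w _
    exact pow_ne_zero _ (mixedEmbedding.norm_ne_zero_iff.mp hx w)

theorem norm_ne_zero_of_rho_ne_zero {x : mixedSpace K} (h : rho K x ≠ 0) :
    mixedEmbedding.norm x ≠ 0 := by
  intro h0
  exact h (by simp [rho, h0])

theorem rho_eq_prod {x : mixedSpace K} (hx : mixedEmbedding.norm x ≠ 0) :
    rho K x = ∏ j, tent (logCoord K x j) := by
  simp [rho, hx]

theorem rho_nonneg (x : mixedSpace K) : 0 ≤ rho K x := by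
  unfold rho
  split_ifs
  · exact le_rfl
  · exact Finset.prod_nonneg fun j _ ↦ tent_nonneg _

theorem rho_le_one (x : mixedSpace K) : rho K x ≤ 1 := by
  unfold rho
  split_ifs
  · exact zero_le_one
  · exact Finset.prod_le_one (fun j _ ↦ tent_nonneg _) fun j _ ↦ tent_le_one _

theorem abs_logCoord_lt_one_of_rho_ne_zero {x : mixedSpace K} (h : rho K x ≠ 0)
    (j : Fin (rank K)) : |logCoord K x j| < 1 := by
  have hx := norm_ne_zero_of_rho_ne_zero h
  rw [rho_eq_prod hx] at h
  exact abs_lt_one_of_tent_ne_zero fun h0 ↦ h (Finset.prod_eq_zero (Finset.mem_univ j) h0)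

theorem logMap_eq_sum_logCoord (x : mixedSpace K) :
    logMap x = ∑ j, logCoord K x j • ((basisUnitLattice K).ofZLatticeBasis ℝ (unitLattice K)) j :=
  (((basisUnitLattice K).ofZLatticeBasis ℝ (unitLattice K)).sum_repr (logMap x)).symm

/-- A bound for `logMap` on the support of `rho`. -/
theorem exists_logMap_bound : ∃ B : ℝ, 0 ≤ B ∧ ∀ x : mixedSpace K, rho K x ≠ 0 →
    ‖logMap x‖ ≤ B := by
  refine ⟨∑ j, ‖((basisUnitLattice K).ofZLatticeBasis ℝ (unitLattice K)) j‖,
    Finset.sum_nonneg fun j _ ↦ _root_.norm_nonneg _, fun x hx ↦ ?_⟩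
  rw [logMap_eq_sum_logCoord x]
  refine (norm_sum_le _ _).trans (Finset.sum_le_sum fun j _ ↦ ?_)
  rw [_root_.norm_smul, Real.norm_eq_abs]
  exact mul_le_of_le_one_left (_root_.norm_nonneg _) (abs_logCoord_lt_one_of_rho_ne_zero hx j).le

theorem sum_mult_mul_log_sub {x : mixedSpace K} (hx : mixedEmbedding.norm x ≠ 0) :
    ∑ w : InfinitePlace K, (mult w : ℝ) * (Real.log (normAtPlace w x) -
      Real.log (mixedEmbedding.norm x) * (_root_.Module.finrank ℚ K : ℝ)⁻¹) = 0 := by
  have h1 : (∑ w : InfinitePlace K, (mult w : ℝ)) = (_root_.Module.finrank ℚ K : ℝ) := by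
    rw [← Nat.cast_sum, sum_mult_eq]
  have h2 : (_root_.Module.finrank ℚ K : ℝ) ≠ 0 := Nat.cast_ne_zero.mpr finrank_pos.ne'
  simp_rw [mul_sub]
  rw [Finset.sum_sub_distrib, ← log_norm_eq_sum hx, ← Finset.sum_mul, h1]
  field_simp
  ring

/-- On the support of `rho`, all `log (normAtPlace w x)` are within a bounded distance of
`log (norm x) / n`. -/
theorem exists_log_normAtPlace_bound : ∃ B : ℝ, 0 ≤ B ∧ ∀ x : mixedSpace K, rho K x ≠ 0 →
    ∀ w, |Real.log (normAtPlace w x) -
      Real.log (mixedEmbedding.norm x) * (_root_.Module.finrank ℚ K : ℝ)⁻¹| ≤ B := by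
  obtain ⟨B, hB0, hB⟩ := exists_logMap_bound (K := K)
  refine ⟨(Fintype.card (InfinitePlace K) + 1) * B, by positivity, fun x hx w ↦ ?_⟩
  have hN := norm_ne_zero_of_rho_ne_zero hx
  set d : InfinitePlace K → ℝ := fun w ↦ Real.log (normAtPlace w x) -
      Real.log (mixedEmbedding.norm x) * (_root_.Module.finrank ℚ K : ℝ)⁻¹ with hd
  have hne : ∀ w : InfinitePlace K, w ≠ w₀ → |(mult w : ℝ) * d w| ≤ B := by
    intro w hw
    have h1 : logMap x ⟨w, hw⟩ = (mult w : ℝ) * d w := by simp [hd]
    rw [← h1]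
    exact (norm_le_pi_norm (logMap x) ⟨w, hw⟩).trans (hB x hx)
  have hall : ∀ w : InfinitePlace K, |(mult w : ℝ) * d w| ≤ Fintype.card (InfinitePlace K) * B := by
    intro w
    by_cases hw : w = w₀
    · have hsum := sum_mult_mul_log_sub hN
      rw [← Finset.add_sum_erase Finset.univ _ (Finset.mem_univ w)] at hsum
      have h2 : (mult w : ℝ) * d w = - ∑ v ∈ Finset.univ.erase w, (mult v : ℝ) * d v := by
        linarith
      rw [h2, abs_neg]
      refine (Finset.abs_sum_le_sum_abs _ _).trans ?_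
      calc ∑ v ∈ Finset.univ.erase w, |(mult v : ℝ) * d v|
          ≤ ∑ v ∈ Finset.univ.erase w, B := by
            refine Finset.sum_le_sum fun v hv ↦ hne v ?_
            rw [← hw]
            exact Finset.ne_of_mem_erase hv
        _ = (Finset.univ.erase w).card * B := by rw [Finset.sum_const, nsmul_eq_mul]
        _ ≤ Fintype.card (InfinitePlace K) * B := by
            gcongr
            exact Finset.card_le_univ _
    · refine (hne w hw).trans ?_
      have : (1 : ℝ) ≤ Fintype.card (InfinitePlace K) := by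
        exact_mod_cast Fintype.card_pos
      nlinarith
  have h1 : |d w| ≤ |(mult w : ℝ) * d w| := by
    rw [abs_mul, abs_of_nonneg (by positivity : (0 : ℝ) ≤ mult w)]
    exact le_mul_of_one_le_left (abs_nonneg _) one_le_mult
  refine h1.trans ((hall w).trans ?_)
  nlinarith

/-- On the support of `rho`, all `normAtPlace w x` are comparable with `‖x‖`. -/
theorem exists_support_bound : ∃ A : ℝ, 1 ≤ A ∧ ∀ x : mixedSpace K, rho K x ≠ 0 →
    ∀ w, ‖x‖ ≤ A * normAtPlace w x := by
  obtain ⟨B, hB0, hB⟩ := exists_log_normAtPlace_bound (K := K)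
  refine ⟨Real.exp (2 * B), Real.one_le_exp (by positivity), fun x hx w ↦ ?_⟩
  have hN := norm_ne_zero_of_rho_ne_zero hx
  have hpos : ∀ v, 0 < normAtPlace v x := fun v ↦
    lt_of_le_of_ne (normAtPlace_nonneg v x) (mixedEmbedding.norm_ne_zero_iff.mp hN v).symm
  obtain ⟨v, hv⟩ := exists_norm_eq_normAtPlace x
  rw [hv]
  have h1 := abs_le.mp (hB x hx v)
  have h2 := abs_le.mp (hB x hx w)
  have h3 : Real.log (normAtPlace v x) ≤ 2 * B + Real.log (normAtPlace w x) := by linarith
  calc normAtPlace v x = Real.exp (Real.log (normAtPlace v x)) := (Real.exp_log (hpos v)).symm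
    _ ≤ Real.exp (2 * B + Real.log (normAtPlace w x)) := Real.exp_le_exp.mpr h3
    _ = Real.exp (2 * B) * normAtPlace w x := by rw [Real.exp_add, Real.exp_log (hpos w)]

end Fermat.Agent.S14.H74

end
-- ===== PACK-END S14/H74/Support.lean

-- ===== PACK-BEGIN S55/H414/CycloLevel.lean
section


/-!
# S55, leaf CYC-INF (helper414), part 1: the cyclotomic levels `ℚ(ζ_N) ⊆ ℚ̄`

For `N ≠ 0` we define `cycloLevel N = ℚ(ζ_N)` as an intermediate field of `ℚ̄/ℚ`, show that it is
Galois with commutative Galois group, and that it is unramified at every prime not dividing `N`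
(in the Prelude sense: inertia groups of valuation subrings of `ℚ̄` fix it pointwise).
-/

set_option autoImplicit false

namespace Fermat.Agent.S55.H414

open ExtCitation Fermat.Agent.S55.Bridge

/-- A chosen primitive `N`-th root of unity in `ℚ̄`. -/
noncomputable def zetaBar (N : ℕ) [NeZero N] : AlgebraicClosure ℚ :=
  (HasEnoughRootsOfUnity.exists_primitiveRoot (AlgebraicClosure ℚ) N).choose

theorem zetaBar_spec (N : ℕ) [NeZero N] : IsPrimitiveRoot (zetaBar N) N :=
  (HasEnoughRootsOfUnity.exists_primitiveRoot (AlgebraicClosure ℚ) N).choose_spec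

/-- The cyclotomic field `ℚ(ζ_N)` inside `ℚ̄`. -/
noncomputable def cycloLevel (N : ℕ) [NeZero N] : IntermediateField ℚ (AlgebraicClosure ℚ) :=
  IntermediateField.adjoin ℚ {zetaBar N}

theorem zetaBar_mem_cycloLevel (N : ℕ) [NeZero N] : zetaBar N ∈ cycloLevel N :=
  IntermediateField.subset_adjoin ℚ _ rfl

instance isCyclotomicExtension_cycloLevel (N : ℕ) [NeZero N] :
    IsCyclotomicExtension {N} ℚ (cycloLevel N) :=
  haveI : Algebra.IsAlgebraic ℚ (AlgebraicClosure ℚ) := AlgebraicClosure.isAlgebraic ℚ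
  haveI : Algebra.IsIntegral ℚ (AlgebraicClosure ℚ) := Algebra.IsAlgebraic.isIntegral
  (zetaBar_spec N).intermediateField_adjoin_isCyclotomicExtension ℚ

instance finiteDimensional_cycloLevel (N : ℕ) [NeZero N] :
    FiniteDimensional ℚ (cycloLevel N) :=
  IsCyclotomicExtension.finiteDimensional {N} ℚ (cycloLevel N)

instance isGalois_cycloLevel (N : ℕ) [NeZero N] : IsGalois ℚ (cycloLevel N) :=
  IsCyclotomicExtension.isGalois {N} ℚ (cycloLevel N)

/-- An automorphism of `ℚ̄` fixes `ℚ(ζ_N)` pointwise iff it fixes `ζ_N`. -/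
theorem mem_fixingSubgroup_cycloLevel_iff (N : ℕ) [NeZero N]
    (σ : AlgebraicClosure ℚ ≃ₐ[ℚ] AlgebraicClosure ℚ) :
    σ ∈ (cycloLevel N).fixingSubgroup ↔ σ (zetaBar N) = zetaBar N := by
  constructor
  · intro h
    exact (IntermediateField.mem_fixingSubgroup_iff _ σ).1 h _ (zetaBar_mem_cycloLevel N)
  · intro h
    rw [IntermediateField.mem_fixingSubgroup_iff]
    intro x hx
    have hle : cycloLevel N ≤ IntermediateField.fixedField (Subgroup.zpowers σ) := by
      rw [cycloLevel, IntermediateField.adjoin_le_iff]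
      rintro y rfl
      rw [SetLike.mem_coe, IntermediateField.mem_fixedField_iff]
      intro τ hτ
      obtain ⟨k, rfl⟩ := Subgroup.mem_zpowers_iff.1 hτ
      have hfix : ∀ m : ℕ, (σ ^ m) (zetaBar N) = zetaBar N := by
        intro m
        induction m with
        | zero => simp
        | succ m ih => rw [pow_succ, AlgEquiv.mul_apply, h, ih]
      rcases Int.eq_nat_or_neg k with ⟨m, rfl | rfl⟩
      · rw [zpow_natCast]; exact hfix m
      · rw [zpow_neg, zpow_natCast]
        have := hfix m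
        calc (σ ^ m)⁻¹ (zetaBar N) = (σ ^ m)⁻¹ ((σ ^ m) (zetaBar N)) := by rw [this]
          _ = zetaBar N := by
            show ((σ ^ m)⁻¹ * (σ ^ m)) (zetaBar N) = zetaBar N
            rw [inv_mul_cancel]; rfl
    have := hle hx
    rw [IntermediateField.mem_fixedField_iff] at this
    exact this σ (Subgroup.mem_zpowers σ)

/-- Any `N`-th root of unity has valuation `1`. -/
theorem valuation_eq_one_of_pow_eq_one (A : ValuationSubring (AlgebraicClosure ℚ)) {N : ℕ}
    (hN : N ≠ 0) {a : AlgebraicClosure ℚ} (ha : a ^ N = 1) : A.valuation a = 1 := by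
  have h : (A.valuation a) ^ N = 1 := by rw [← map_pow, ha, map_one]
  exact (pow_eq_one_iff.1 h).resolve_right hN

/-- If `N` is a unit at `A` then `ℚ(ζ_N)` is fixed by the inertia group at `A`. -/
theorem inertia_le_fixingSubgroup_cycloLevel (N : ℕ) [NeZero N]
    (A : ValuationSubring (AlgebraicClosure ℚ))
    (hNv : A.valuation (N : AlgebraicClosure ℚ) = 1) :
    A.inertiaSubgroupIn ℚ ≤ (cycloLevel N).fixingSubgroup := by
  intro σ hσ
  rw [mem_fixingSubgroup_cycloLevel_iff]
  by_contra hne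
  have hz : zetaBar N ^ N = 1 := (zetaBar_spec N).pow_eq_one
  have hσz : (σ (zetaBar N)) ^ N = 1 := by rw [← map_pow, hz, map_one]
  have h1 := val_sub_roots_eq_one (A := A) (NeZero.ne N) hNv hσz hz hne
  have h2 := inertia_val_sub_lt_one A hσ (zetaBar N)
    (valuation_eq_one_of_pow_eq_one A (NeZero.ne N) hz).le
  rw [h1] at h2
  exact lt_irrefl _ h2

/-- `ℚ(ζ_{p^n})` is unramified outside every set of primes containing `p`. -/
theorem isUnramifiedOutside_cycloLevel (p : ℕ) [Fact p.Prime] (n : ℕ)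
    (S : Finset Nat.Primes) (hpS : pPrime p ∈ S) :
    (cycloLevel (p ^ n)).IsUnramifiedOutside S := by
  refine ⟨inferInstance, fun q hq A hA => ?_⟩
  apply inertia_le_fixingSubgroup_cycloLevel
  have hp : p.Prime := Fact.out
  have hqp : (q : ℕ) ≠ p := by
    rintro h
    apply hq
    have : q = pPrime p := Subtype.ext h
    rw [this]; exact hpS
  have := val_prime_eq_one (A := A) hA q.2 hp hqp
  rw [Nat.cast_pow, map_pow, this, one_pow]

end Fermat.Agent.S55.H414

end
-- ===== PACK-END S55/H414/CycloLevel.lean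

-- ===== PACK-BEGIN S56/H716/TBDefs.lean
section


/-!
# Row S56 — tangent bound (TB), layer 1: FROZEN definitions (deputy helper716)

Same conventions as the frozen layer 0 (`Fermat/Agent/S56/Defs.lean`): cocycles are plain functions
`c : G_ℚ → End_k V`, `V = ρbar.V`.

* `IsAdCocycle ρbar c`   — `c ∈ Z¹(G_ℚ, ad⁰ρ̄)` (UNTWISTED): `tr c(σ) = 0`,
  `c(στ) = c(σ) + ρ̄(σ) c(τ) ρ̄(σ)⁻¹`, finite level.
* `IsAdCoboundary ρbar c` — `c(σ) = ρ̄(σ) m ρ̄(σ)⁻¹ − m` for some `m`.
* `liftEnd ρbar c σ`     — the endomorphism `(1 + ε c(σ)) ρ̄(σ)` of `k[ε] ⊗ V`.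
* `IsLiftOf ρbar c ρ'`   — `ρ' : GaloisRepAdic k[ε]` is isomorphic to `σ ↦ liftEnd ρbar c σ`.
* `IsTanCocycle 𝒪 ρbar 𝒟 c` — `c` is an ad⁰-cocycle whose lift to `k[ε]` is of type `𝒟`
  (for the `𝒪`-algebra structure `tanAlgebra 𝒪` on `k[ε]`).

Nothing unproved in this file.  Plan: `coord/S56-TB.md` on `origin/helper716`.
-/

set_option autoImplicit false

open Polynomial IsLocalRing
open scoped TensorProduct

noncomputable section

namespace Fermat.Agent.S56.H716

open Fermat.Agent.S56

section Cocycles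

variable {k : Type} [Field k] (ρbar : ResidualGaloisRep k)

/-- `c` is an (untwisted) cocycle with values in trace-zero endomorphisms, of finite level. -/
structure IsAdCocycle (c : GQ → Module.End k ρbar.V) : Prop where
  trace_eq_zero : ∀ σ, LinearMap.trace k ρbar.V (c σ) = 0
  map_mul : ∀ σ τ, c (σ * τ) = c σ + ρbar.ρ σ * c τ * ρbar.ρ σ⁻¹
  level : ∃ L : IntermediateField ℚ Qb, FiniteDimensional ℚ L ∧
    ∀ σ τ : GQ, (∀ x ∈ L, τ x = x) → c (σ * τ) = c σ

/-- `c` is the (untwisted) coboundary of some endomorphism `m`. -/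
def IsAdCoboundary (c : GQ → Module.End k ρbar.V) : Prop :=
  ∃ m : Module.End k ρbar.V, ∀ σ, c σ = ρbar.ρ σ * m * ρbar.ρ σ⁻¹ - m

/-- The endomorphism `(1 + ε c(σ)) ρ̄(σ)` of `k[ε] ⊗_k V`. -/
def liftEnd (c : GQ → Module.End k ρbar.V) (σ : GQ) :
    Module.End (DualNumber k) (DualNumber k ⊗[k] ρbar.V) :=
  (ρbar.ρ σ).baseChange (DualNumber k) +
    (DualNumber.eps : DualNumber k) • (c σ * ρbar.ρ σ).baseChange (DualNumber k)

/-- `ρ'` is (isomorphic to) the lift `σ ↦ (1 + ε c(σ)) ρ̄(σ)` of `ρ̄` to the dual numbers. -/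
def IsLiftOf (c : GQ → Module.End k ρbar.V) (ρ' : GaloisRepAdic (DualNumber k)) : Prop :=
  ∃ e : ρ'.V ≃ₗ[DualNumber k] (DualNumber k ⊗[k] ρbar.V),
    ∀ (σ : GQ) (v : ρ'.V), e (ρ'.ρ σ v) = liftEnd ρbar c σ (e v)

end Cocycles

section Tan

variable (𝒪 : Type) [CommRing 𝒪] [IsLocalRing 𝒪]
  (ρbar : ResidualGaloisRep (ResidueField 𝒪))

/-- `c` is an ad⁰-cocycle whose lift to the dual numbers is a deformation of type `𝒟`. -/
def IsTanCocycle (𝒟 : DefCond 𝒪) (c : GQ → Module.End (ResidueField 𝒪) ρbar.V) : Prop :=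
  IsAdCocycle ρbar c ∧
    ∃ ρ' : GaloisRepAdic (DualNumber (ResidueField 𝒪)),
      IsLiftOf ρbar c ρ' ∧ @𝒟 (DualNumber (ResidueField 𝒪)) _ _ (tanAlgebra 𝒪) ρ'

end Tan

end Fermat.Agent.S56.H716

end

end
-- ===== PACK-END S56/H716/TBDefs.lean

-- ===== PACK-BEGIN S31/H982/TracePow.lean
section


/-!
# Row S31 (helper982): trace of powers in rank 2 and local constancy of traces

Self-contained versions of the small algebra pieces used by the transfer principle
(`Fermat/Agent/S31/H982/Transfer.lean`).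
-/

set_option autoImplicit false

open Polynomial

namespace Fermat.Agent.S31.H982

open Fermat.Agent.S31

section PowTr

variable {R : Type*} [CommRing R]

theorem powTr_zero (a d : R) : powTr a d 0 = 2 := by
  rw [powTr]

theorem powTr_one (a d : R) : powTr a d 1 = a := by
  rw [powTr]

theorem powTr_add_two (a d : R) (j : ℕ) :
    powTr a d (j + 2) = a * powTr a d (j + 1) - d * powTr a d j := by
  rw [powTr]

/-- Ring homomorphisms commute with `powTr`. -/
theorem map_powTr' {R' : Type*} [CommRing R'] (φ : R →+* R') (a d : R) (j : ℕ) :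
    φ (powTr a d j) = powTr (φ a) (φ d) j := by
  induction j using Nat.strong_induction_on with
  | _ j ih =>
    match j, ih with
    | 0, _ => rw [powTr_zero, powTr_zero, _root_.map_ofNat]
    | 1, _ => rw [powTr_one, powTr_one]
    | (j + 2), ih =>
      rw [powTr_add_two, powTr_add_two, _root_.map_sub, _root_.map_mul, _root_.map_mul, ih (j + 1) (by omega),
        ih j (by omega)]

variable {M : Type*} [AddCommGroup M] [Module R M] [Module.Free R M] [Module.Finite R M]

/-- The trace of an endomorphism is minus the next-to-leading coefficient of its characteristic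
polynomial. -/
theorem trace_eq_neg_nextCoeff_charpoly (f : Module.End R M) :
    LinearMap.trace R M f = -f.charpoly.nextCoeff := by
  classical
  let b := Module.Free.chooseBasis R M
  rw [LinearMap.trace_eq_matrix_trace R b, Matrix.trace_eq_neg_charpoly_nextCoeff,
    LinearMap.charpoly_toMatrix]

/-- **B1**.  Cayley–Hamilton in rank 2: the trace of `f ^ j` is `powTr a d j` if the
characteristic polynomial of `f` is `X ^ 2 - a X + d`. -/
theorem trace_pow_of_charpoly' (hrk : Module.finrank R M = 2) (f : Module.End R M)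
    (a d : R) (h : f.charpoly = X ^ 2 - C a * X + C d) (j : ℕ) :
    LinearMap.trace R M (f ^ j) = powTr a d j := by
  rcases subsingleton_or_nontrivial R with hR | hR
  · exact Subsingleton.elim _ _
  have hCH : f ^ 2 = a • f - d • (1 : Module.End R M) := by
    have h1 := LinearMap.aeval_self_charpoly f
    rw [h] at h1
    simp only [_root_.map_add, _root_.map_sub, _root_.map_mul, _root_.map_pow, aeval_X, aeval_C] at h1
    rw [Algebra.algebraMap_eq_smul_one, Algebra.algebraMap_eq_smul_one] at h1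
    rw [smul_mul_assoc, one_mul] at h1
    rw [← sub_eq_zero]
    rw [← h1]
    abel
  have htr1 : LinearMap.trace R M f = a := by
    have hdeg : f.charpoly.natDegree = 2 := by
      rw [LinearMap.charpoly_natDegree, hrk]
    rw [trace_eq_neg_nextCoeff_charpoly,
      nextCoeff_of_natDegree_pos (by rw [hdeg]; norm_num), hdeg, h]
    simp [coeff_X, coeff_C]
  induction j using Nat.strong_induction_on with
  | _ j ih =>
    match j, ih with
    | 0, _ =>
      rw [pow_zero, LinearMap.trace_one, hrk, powTr_zero]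
      norm_num
    | 1, _ => rw [pow_one, htr1, powTr_one]
    | (j + 2), ih =>
      have hpow : f ^ (j + 2) = a • f ^ (j + 1) - d • f ^ j := by
        rw [pow_add, hCH, mul_sub, mul_smul_comm, mul_smul_comm, mul_one, ← pow_succ]
      rw [hpow, _root_.map_sub, _root_.map_smul, _root_.map_smul, ih (j + 1) (by omega), ih j (by omega),
        powTr_add_two, smul_eq_mul, smul_eq_mul]

end PowTr

section TraceCongr

/-- A linear map sends `I • ⊤` into `I • ⊤`. -/
theorem map_mem_smul_top {R M : Type*} [CommRing R] [AddCommGroup M] [Module R M]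
    (I : Ideal R) (f : Module.End R M) {x : M} (hx : x ∈ I • (⊤ : Submodule R M)) :
    f x ∈ I • (⊤ : Submodule R M) := by
  refine Submodule.smul_induction_on hx ?_ ?_
  · intro a ha w _
    rw [_root_.map_smul]
    exact Submodule.smul_mem_smul ha Submodule.mem_top
  · intro x y hx hy
    rw [_root_.map_add]
    exact Submodule.add_mem _ hx hy

/-- Coordinates of an element of `I • ⊤` lie in `I`. -/
theorem repr_mem_of_mem_smul_top {R M ι : Type*} [CommRing R] [AddCommGroup M] [Module R M]
    (b : Module.Basis ι R M) (I : Ideal R) {x : M} (hx : x ∈ I • (⊤ : Submodule R M)) (i : ι) :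
    b.repr x i ∈ I := by
  refine Submodule.smul_induction_on hx ?_ ?_
  · intro a ha w _
    rw [_root_.map_smul, Finsupp.smul_apply, smul_eq_mul]
    exact I.mul_mem_right _ ha
  · intro x y hx hy
    rw [_root_.map_add, Finsupp.add_apply]
    exact I.add_mem hx hy

/-- If an endomorphism of a finite free module has image in `I • ⊤`, its trace lies in `I`. -/
theorem trace_mem_of_forall_mem_smul_top {R M : Type*} [CommRing R] [AddCommGroup M]
    [Module R M] [Module.Free R M] [Module.Finite R M] (I : Ideal R) (f : Module.End R M)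
    (hf : ∀ v, f v ∈ I • (⊤ : Submodule R M)) : LinearMap.trace R M f ∈ I := by
  classical
  let b := Module.Free.chooseBasis R M
  rw [LinearMap.trace_eq_matrix_trace R b, Matrix.trace]
  refine I.sum_mem fun i _ => ?_
  rw [Matrix.diag_apply, LinearMap.toMatrix_apply]
  exact repr_mem_of_mem_smul_top b I (hf _) i

variable {A : Type} [CommRing A] [IsLocalRing A]

/-- **C**.  Traces are locally constant modulo `m ^ n`. -/
theorem trace_congr_of_agree' (ρ : GaloisRepAdic A) (n : ℕ) :
    ∃ L : IntermediateField ℚ Qb, FiniteDimensional ℚ L ∧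
      ∀ g g' : GQ, (∀ x ∈ L, g x = g' x) →
        ρ.trace g - ρ.trace g' ∈ IsLocalRing.maximalIdeal A ^ n := by
  obtain ⟨L, hL, h1⟩ := ρ.isAdicContinuous n
  refine ⟨L, hL, fun g g' hgg' => ?_⟩
  have hσ : ∀ x ∈ L, (g'⁻¹ * g) x = x := by
    intro x hx
    rw [AlgEquiv.mul_apply, hgg' x hx]
    exact g'.symm_apply_apply x
  have hg : g = g' * (g'⁻¹ * g) := by group
  have key : ∀ v, (ρ.ρ g - ρ.ρ g') v ∈
      (IsLocalRing.maximalIdeal A ^ n) • (⊤ : Submodule A ρ.V) := by
    intro v
    have h2 : (ρ.ρ g - ρ.ρ g') v = ρ.ρ g' (ρ.ρ (g'⁻¹ * g) v - v) := by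
      conv_lhs => rw [hg]
      rw [_root_.map_mul, LinearMap.sub_apply, Module.End.mul_apply, _root_.map_sub]
    rw [h2]
    exact map_mem_smul_top _ _ (h1 _ hσ v)
  have := trace_mem_of_forall_mem_smul_top _ _ key
  rwa [_root_.map_sub] at this

end TraceCongr

end Fermat.Agent.S31.H982

end
-- ===== PACK-END S31/H982/TracePow.lean

-- ===== PACK-BEGIN S24/JFun/Laurent.lean
section



/-!
# Laurent (ℤ-indexed) form of the bridge `j(τ) = ∑ₙ jq_n qⁿ`

Adapters of `hasSum_qjFun` to the Prelude's Laurent series `ModularCurve.jqModC ℂ`.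
-/

set_option autoImplicit false

namespace Fermat.Agent.S24.JFun

open Filter Topology Complex Function
open UpperHalfPlane hiding I
open ModularForm EisensteinSeries MatrixGroups

local notation "𝕢" => Function.Periodic.qParam

/-- Coefficients of the Prelude's Laurent series `jqModC ℂ` in terms of `jNum`. -/
theorem coeff_jqModC_natCast_sub_one (k : ℕ) :
    (ModularCurve.jqModC ℂ).coeff ((k : ℤ) - 1) = ((ModularCurve.jNum.coeff k : ℤ) : ℂ) := by
  rw [ModularCurve.jqModC, HahnSeries.coeff_single_mul, one_mul,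
    show ((k : ℤ) - 1 - (-1)) = (k : ℤ) by ring, HahnSeries.ofPowerSeries_apply_coeff,
    PowerSeries.coeff_map]
  simp

theorem coeff_jqModC_of_lt {n : ℤ} (hn : n < -1) : (ModularCurve.jqModC ℂ).coeff n = 0 := by
  rw [ModularCurve.jqModC, HahnSeries.coeff_single_mul, one_mul]
  exact ModularCurve.ofPowerSeries_coeff_of_neg _ (by omega)

/-- **Bridge, Laurent form**: `j(τ) = ∑_{n ∈ ℤ} (jqModC ℂ)_n qⁿ` for every `τ : ℍ`. -/
theorem hasSum_jFun (τ : ℍ) :
    HasSum (fun n : ℤ => (ModularCurve.jqModC ℂ).coeff n * 𝕢 1 (τ : ℂ) ^ n) (jFun τ) := by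
  have hq : 𝕢 1 (τ : ℂ) ≠ 0 := qParam_one_ne_zero _
  have hinj : Function.Injective (fun k : ℕ => ((k : ℤ) - 1)) := by
    intro a b hab
    simp only [sub_left_inj, Nat.cast_inj] at hab
    exact hab
  have hsupp : ∀ n : ℤ, n ∉ Set.range (fun k : ℕ => ((k : ℤ) - 1)) →
      (ModularCurve.jqModC ℂ).coeff n * 𝕢 1 (τ : ℂ) ^ n = 0 := by
    intro n hn
    have hlt : n < -1 := by
      by_contra hcon
      have hcon : -1 ≤ n := not_lt.mp hcon
      apply hn
      refine ⟨(n + 1).toNat, ?_⟩
      simp only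
      rw [Int.toNat_of_nonneg (by omega)]
      ring
    rw [coeff_jqModC_of_lt hlt, zero_mul]
  rw [← hinj.hasSum_iff hsupp]
  have h := (hasSum_qjFun τ).mul_left ((𝕢 1 (τ : ℂ))⁻¹)
  rw [← mul_assoc, inv_mul_cancel₀ hq, one_mul] at h
  have hfun : ((fun n : ℤ => (ModularCurve.jqModC ℂ).coeff n * 𝕢 1 (τ : ℂ) ^ n) ∘
      fun k : ℕ => ((k : ℤ) - 1))
      = fun i : ℕ => (𝕢 1 (τ : ℂ))⁻¹ *
          (((ModularCurve.jNum.coeff i : ℤ) : ℂ) * 𝕢 1 (τ : ℂ) ^ i) := by
    funext k
    simp only [comp_apply]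
    rw [coeff_jqModC_natCast_sub_one, zpow_sub₀ hq, zpow_natCast, zpow_one]
    field_simp
  rw [hfun]
  exact h

/-- The same with `q` written out as `exp (2πiτ)`. -/
theorem hasSum_jFun_cexp (τ : ℍ) :
    HasSum (fun n : ℤ => (ModularCurve.jqModC ℂ).coeff n *
      Complex.exp (2 * (Real.pi : ℂ) * _root_.Complex.I * (τ : ℂ)) ^ n) (jFun τ) := by
  have h := hasSum_jFun τ
  have hq : 𝕢 1 (τ : ℂ) = Complex.exp (2 * (Real.pi : ℂ) * _root_.Complex.I * (τ : ℂ)) := by
    simp [Function.Periodic.qParam]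
  rw [hq] at h
  exact h

/-- `ℕ`-indexed form with `q` written out as `exp (2πiτ)`. -/
theorem hasSum_qjFun_cexp (τ : ℍ) :
    HasSum (fun n : ℕ => ((ModularCurve.jNum.coeff n : ℤ) : ℂ) *
      Complex.exp (2 * (Real.pi : ℂ) * _root_.Complex.I * (τ : ℂ)) ^ n)
      (Complex.exp (2 * (Real.pi : ℂ) * _root_.Complex.I * (τ : ℂ)) * jFun τ) := by
  have h := hasSum_qjFun τ
  have hq : 𝕢 1 (τ : ℂ) = Complex.exp (2 * (Real.pi : ℂ) * _root_.Complex.I * (τ : ℂ)) := by
    simp [Function.Periodic.qParam]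
  rw [hq] at h
  exact h

end Fermat.Agent.S24.JFun

end
-- ===== PACK-END S24/JFun/Laurent.lean

-- ===== PACK-BEGIN S24/H624/Moebius.lean
section


/-!
# Order of vanishing under Möbius transformations; the rotation lemma
-/

set_option autoImplicit false

namespace Fermat.Agent.S24.H624

open UpperHalfPlane Complex
open scoped Manifold Topology MatrixGroups

/-- The Möbius map of `g` on `ℂ` (junk where the denominator vanishes). -/
noncomputable def moeb (g : GL (Fin 2) ℝ) (z : ℂ) : ℂ := num g z / denom g z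

theorem moeb_coe {g : GL (Fin 2) ℝ} (hg : 0 < g.det.val) (τ : ℍ) :
    moeb g (τ : ℂ) = ((g • τ : ℍ) : ℂ) :=
  (coe_smul_of_det_pos hg τ).symm

theorem hasDerivAt_num (g : GL (Fin 2) ℝ) (z : ℂ) :
    HasDerivAt (num g) ((g 0 0 : ℝ) : ℂ) z := by
  have h : HasDerivAt (fun w : ℂ => ((g 0 0 : ℝ) : ℂ) * w + ((g 0 1 : ℝ) : ℂ))
      (((g 0 0 : ℝ) : ℂ) * 1) z :=
    ((hasDerivAt_id z).const_mul _).add_const _
  rw [mul_one] at h
  exact h

theorem hasDerivAt_denom (g : GL (Fin 2) ℝ) (z : ℂ) :
    HasDerivAt (denom g) ((g 1 0 : ℝ) : ℂ) z := by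
  have h : HasDerivAt (fun w : ℂ => ((g 1 0 : ℝ) : ℂ) * w + ((g 1 1 : ℝ) : ℂ))
      (((g 1 0 : ℝ) : ℂ) * 1) z :=
    ((hasDerivAt_id z).const_mul _).add_const _
  rw [mul_one] at h
  exact h

theorem det_eq (g : GL (Fin 2) ℝ) :
    ((g.det.val : ℝ) : ℂ) = (g 0 0 : ℂ) * (g 1 1 : ℂ) - (g 0 1 : ℂ) * (g 1 0 : ℂ) := by
  rw [Matrix.GeneralLinearGroup.val_det_apply, Matrix.det_fin_two]
  push_cast
  rfl

theorem hasDerivAt_moeb (g : GL (Fin 2) ℝ) {z : ℂ} (hz : denom g z ≠ 0) :
    HasDerivAt (moeb g) (((g.det.val : ℝ) : ℂ) / denom g z ^ 2) z := by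
  have h := (hasDerivAt_num g z).div (hasDerivAt_denom g z) hz
  have e : (((g 0 0 : ℝ) : ℂ) * denom g z - num g z * ((g 1 0 : ℝ) : ℂ)) / denom g z ^ 2
      = ((g.det.val : ℝ) : ℂ) / denom g z ^ 2 := by
    rw [det_eq]
    congr 1
    simp only [num, denom]
    ring
  rw [e] at h
  exact h

theorem analyticAt_moeb (g : GL (Fin 2) ℝ) {z : ℂ} (hz : denom g z ≠ 0) :
    AnalyticAt ℂ (moeb g) z := by
  have hn : AnalyticAt ℂ (num g) z := by
    have : num g = fun w : ℂ => ((g 0 0 : ℝ) : ℂ) * w + ((g 0 1 : ℝ) : ℂ) := by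
      funext w; simp [num]
    rw [this]
    fun_prop
  have hd : AnalyticAt ℂ (denom g) z := by
    have : denom g = fun w : ℂ => ((g 1 0 : ℝ) : ℂ) * w + ((g 1 1 : ℝ) : ℂ) := by
      funext w; simp [denom]
    rw [this]
    fun_prop
  exact hn.div hd hz

theorem deriv_moeb_ne_zero {g : GL (Fin 2) ℝ} (hg : 0 < g.det.val) {z : ℂ}
    (hz : denom g z ≠ 0) : deriv (moeb g) z ≠ 0 := by
  rw [(hasDerivAt_moeb g hz).deriv]
  refine div_ne_zero ?_ (pow_ne_zero _ hz)
  exact_mod_cast hg.ne'

theorem eventuallyEq_comp_smul {g : GL (Fin 2) ℝ} (hg : 0 < g.det.val) (f : ℍ → ℂ) (τ : ℍ) :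
    ((fun z : ℍ => f (g • z)) ∘ ofComplex) =ᶠ[𝓝 (τ : ℂ)] ((f ∘ ofComplex) ∘ moeb g) := by
  filter_upwards [isOpen_upperHalfPlaneSet.mem_nhds τ.im_pos] with z hz
  have hz' : 0 < z.im := hz
  simp only [Function.comp_apply]
  rw [ofComplex_apply_of_im_pos hz']
  have : moeb g z = ((g • (⟨z, hz'⟩ : ℍ) : ℍ) : ℂ) := moeb_coe hg ⟨z, hz'⟩
  rw [this, ofComplex_apply]

/-- Order of vanishing is invariant under Möbius transformations. -/
theorem ordAt_comp_smul {g : GL (Fin 2) ℝ} (hg : 0 < g.det.val) (f : ℍ → ℂ) (τ : ℍ) :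
    ordAt τ (fun z : ℍ => f (g • z)) = ordAt (g • τ) f := by
  have hd : denom g (τ : ℂ) ≠ 0 := denom_ne_zero g τ
  rw [ordAt_def, analyticOrderAt_congr (eventuallyEq_comp_smul hg f τ),
    analyticOrderAt_comp_of_deriv_ne_zero (analyticAt_moeb g hd) (deriv_moeb_ne_zero hg hd),
    moeb_coe hg, ordAt_def]

theorem mdiff_comp_smul {g : GL (Fin 2) ℝ} (hg : 0 < g.det.val) {f : ℍ → ℂ} (hf : MDiff f) :
    MDiff (fun z : ℍ => f (g • z)) :=
  hf.comp (mdifferentiable_smul hg)

/-- Key algebraic identity: `g z - g w = det g * (z - w) / (denom z * denom w)`. -/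
theorem moeb_sub_moeb (g : GL (Fin 2) ℝ) {z w : ℂ} (hz : denom g z ≠ 0) (hw : denom g w ≠ 0) :
    moeb g z - moeb g w = ((g.det.val : ℝ) : ℂ) * (z - w) / (denom g z * denom g w) := by
  rw [det_eq]
  unfold moeb
  rw [div_sub_div _ _ hz hw]
  congr 1
  simp only [num, denom]
  ring

/-- **Rotation lemma.** If `g` fixes `τ`, and the nonzero holomorphic function `f` is invariant
under `g`, then `(deriv of g at τ) ^ ord_τ f = 1`, i.e. `(det g / denom g τ ^ 2) ^ n = 1`. -/
theorem rotation_lemma {g : GL (Fin 2) ℝ} (hg : 0 < g.det.val) {f : ℍ → ℂ} (hf : MDiff f)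
    (hf0 : f ≠ 0) {τ : ℍ} (hτ : g • τ = τ) (hinv : ∀ z : ℍ, f (g • z) = f z) :
    (((g.det.val : ℝ) : ℂ) / denom g (τ : ℂ) ^ 2) ^ (ordAt τ f).toNat = 1 := by
  set n := (ordAt τ f).toNat with hn
  have hne := ordAt_ne_top hf hf0 τ
  have hord : analyticOrderAt (f ∘ ofComplex) (τ : ℂ) = (n : ℕ∞) := by
    rw [← ordAt_def, hn, ENat.natCast_toNat hne]
  obtain ⟨u, hu, hu0, hfu⟩ :=
    ((analyticAt_of_mdiff hf τ).analyticOrderAt_eq_natCast).mp hord
  have hd : denom g (τ : ℂ) ≠ 0 := denom_ne_zero g τ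
  have hmτ : moeb g (τ : ℂ) = (τ : ℂ) := by rw [moeb_coe hg, hτ]
  have hmcont : ContinuousAt (moeb g) (τ : ℂ) := (analyticAt_moeb g hd).continuousAt
  -- near τ: f ∘ ofComplex ∘ moeb = f ∘ ofComplex
  have h1 : ∀ᶠ z in 𝓝 (τ : ℂ), (f ∘ ofComplex) (moeb g z) = (f ∘ ofComplex) z := by
    filter_upwards [eventuallyEq_comp_smul hg f τ] with z hz
    have := hz
    simp only [Function.comp_apply] at this ⊢
    rw [← this, hinv]
  -- near τ: moeb z is near τ so factorization applies at moeb z
  have h2 : ∀ᶠ z in 𝓝 (τ : ℂ), (f ∘ ofComplex) (moeb g z)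
      = (moeb g z - (τ : ℂ)) ^ n • u (moeb g z) := by
    have : Filter.Tendsto (moeb g) (𝓝 (τ : ℂ)) (𝓝 (τ : ℂ)) := by
      have := hmcont.tendsto
      rwa [hmτ] at this
    exact this.eventually hfu
  have h3 : ∀ᶠ z in 𝓝 (τ : ℂ), denom g z ≠ 0 :=
    (hasDerivAt_denom g _).continuousAt.eventually_ne hd
  set c : ℂ := ((g.det.val : ℝ) : ℂ) with hc
  -- on a punctured neighbourhood: (c / (denom z * denom τ))^n * u (moeb z) = u z
  have h4 : ∀ᶠ z in 𝓝[≠] (τ : ℂ),
      (c / (denom g z * denom g (τ : ℂ))) ^ n * u (moeb g z) = u z := by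
    have hall := (h1.and (h2.and (h3.and hfu)))
    filter_upwards [hall.filter_mono nhdsWithin_le_nhds, self_mem_nhdsWithin] with z hz hzne
    obtain ⟨e1, e2, e3, e4⟩ := hz
    have hzne' : z - (τ : ℂ) ≠ 0 := sub_ne_zero.mpr hzne
    have e5 : moeb g z - (τ : ℂ) = c * (z - (τ : ℂ)) / (denom g z * denom g (τ : ℂ)) := by
      have := moeb_sub_moeb g e3 hd
      rwa [hmτ] at this
    rw [e2, e4, e5] at e1
    simp only [smul_eq_mul] at e1
    have e6 : c * (z - (τ : ℂ)) / (denom g z * denom g (τ : ℂ))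
        = (z - (τ : ℂ)) * (c / (denom g z * denom g (τ : ℂ))) := by ring
    rw [e6, mul_pow, mul_assoc] at e1
    exact mul_left_cancel₀ (pow_ne_zero n hzne') e1
  -- pass to the limit
  have hL : Filter.Tendsto (fun z => (c / (denom g z * denom g (τ : ℂ))) ^ n * u (moeb g z))
      (𝓝[≠] (τ : ℂ)) (𝓝 ((c / (denom g (τ : ℂ) * denom g (τ : ℂ))) ^ n * u (τ : ℂ))) := by
    have hcd : ContinuousAt (fun z => (c / (denom g z * denom g (τ : ℂ))) ^ n) (τ : ℂ) := by
      have hden : ContinuousAt (fun z => denom g z * denom g (τ : ℂ)) (τ : ℂ) :=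
        ((hasDerivAt_denom g _).continuousAt).mul continuousAt_const
      exact ((continuousAt_const.div hden (mul_ne_zero hd hd))).pow n
    have hu' : ContinuousAt (fun z => u (moeb g z)) (τ : ℂ) := by
      have : ContinuousAt u (moeb g (τ : ℂ)) := by rw [hmτ]; exact hu.continuousAt
      exact ContinuousAt.comp (f := moeb g) (g := u) this hmcont
    have hmul : ContinuousAt
        (fun z => (c / (denom g z * denom g (τ : ℂ))) ^ n * u (moeb g z)) (τ : ℂ) := hcd.mul hu'
    have := hmul.tendsto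
    simp only [hmτ] at this
    exact this.mono_left nhdsWithin_le_nhds
  have hR : Filter.Tendsto u (𝓝[≠] (τ : ℂ)) (𝓝 (u (τ : ℂ))) :=
    hu.continuousAt.tendsto.mono_left nhdsWithin_le_nhds
  have hlim := tendsto_nhds_unique (hL.congr' h4) hR
  have hfin : (c / (denom g (τ : ℂ) * denom g (τ : ℂ))) ^ n = 1 := by
    have := mul_right_cancel₀ hu0 (hlim.trans (one_mul _).symm)
    exact this
  rw [← hfin, sq]

end Fermat.Agent.S24.H624

end
-- ===== PACK-END S24/H624/Moebius.lean

-- ===== PACK-BEGIN S24/FFFinite.lean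
section




/-!
# S24 / FF layer: change of coordinate, residue degree one

Embedding-free algebraic core (helper804).
-/

set_option autoImplicit false

namespace Fermat.Agent.S24.FF

open AlgebraicCurve Polynomial IntermediateField

variable {K F : Type*} [Field K] [Field F] [Algebra K F]

/-- Exchange: if `F` is finite over `K(x)` and `y` is transcendental, then `F` is finite over
`K(y)`.  (Intrinsic version of Mathlib's `finiteDimensional_of_adjoin_transcendental`.) -/
theorem finiteDimensional_adjoin_of_transcendental {x y : F} (hx : Transcendental K x)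
    (hy : Transcendental K y) [hfin : FiniteDimensional K⟮x⟯ F] : FiniteDimensional K⟮y⟯ F := by
  have halg : Algebra.IsAlgebraic K⟮x⟯ F := Algebra.IsAlgebraic.of_finite _ _
  have hxy : IsAlgebraic K⟮y⟯ x :=
    isAlgebraic_adjoin_iff.mpr
      (IsAlgebraic.adjoin_singleton hx hy (isAlgebraic_adjoin_iff.mp (halg.isAlgebraic y)))
  let Fyx := restrictScalars K K⟮y⟯⟮x⟯
  let Fxy := restrictScalars K K⟮x⟯⟮y⟯
  let : Algebra K⟮y⟯ Fyx := K⟮y⟯⟮x⟯.algebra
  let : Module K⟮y⟯ Fyx := Algebra.toModule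
  let : SMul K⟮y⟯ Fyx := Algebra.toSMul
  let : Algebra K⟮x⟯ Fxy := K⟮x⟯⟮y⟯.algebra
  let : Module K⟮x⟯ Fxy := Algebra.toModule
  let : SMul K⟮x⟯ Fxy := Algebra.toSMul
  have : FiniteDimensional K⟮y⟯ Fyx :=
    adjoin.finiteDimensional (isAlgebraic_iff_isIntegral.mp hxy)
  have : FiniteDimensional Fyx F := by
    unfold Fyx
    rw [adjoin_simple_comm]
    have : IsScalarTower K⟮x⟯ Fxy F := isScalarTower_mid' K⟮x⟯⟮y⟯
    exact .right K⟮x⟯ Fxy F
  have : IsScalarTower K⟮y⟯ Fyx F := isScalarTower_mid' K⟮y⟯⟮x⟯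
  exact .trans K⟮y⟯ Fyx F

/-- In an algebraically closed field `K ⊆ F`, an element of `F` algebraic over `K` is a
constant. -/
theorem mem_range_of_isAlgebraic [IsAlgClosed K] {f : F} (hf : IsAlgebraic K f) :
    f ∈ (algebraMap K F).range := by
  have hint : IsIntegral K f := hf.isIntegral
  exact minpoly.mem_range_of_degree_eq_one K f
    (IsAlgClosed.degree_eq_one_of_irreducible K (minpoly.irreducible hint))

/-- Non-constants are transcendental (for `K` algebraically closed). -/
theorem transcendental_of_not_mem_range [IsAlgClosed K] {f : F}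
    (hf : f ∉ (algebraMap K F).range) : Transcendental K f :=
  fun h => hf (mem_range_of_isAlgebraic h)

/-- Every element integral at `v` is congruent to a constant modulo the maximal ideal. -/
theorem exists_const_sub_mem_nonunits [IsAlgClosed K] (v : Place K F) {x : F}
    (hx : Transcendental K x) [FiniteDimensional K⟮x⟯ F] {f : F}
    (hf : f ∈ v.toValuationSubring) :
    ∃ a : K, f - algebraMap K F a ∈ v.toValuationSubring.nonunits := by
  by_cases hfK : f ∈ (algebraMap K F).range
  · obtain ⟨a, rfl⟩ := hfK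
    refine ⟨a, ?_⟩
    rw [sub_self]
    exact (ValuationSubring.mem_nonunits_iff _).mpr (by simp)
  · have hft := transcendental_of_not_mem_range hfK
    have : FiniteDimensional K⟮f⟯ F := finiteDimensional_adjoin_of_transcendental hx hft
    have halg : Algebra.IsAlgebraic K⟮f⟯ F := Algebra.IsAlgebraic.of_finite _ _
    obtain ⟨a, ha⟩ := exists_ord_sub_pos v f (ord_nonneg_of_mem v hf)
    refine ⟨a, (ord_pos_iff_mem_nonunits v ?_).mp ha⟩
    intro h0
    rw [h0, v.ord_zero] at ha
    exact lt_irrefl _ ha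

end Fermat.Agent.S24.FF

namespace Fermat.Agent.S24.FF

open AlgebraicCurve Polynomial IntermediateField

variable {K F : Type*} [Field K] [Field F] [Algebra K F]

/-- **FF2.** Over an algebraically closed constant field every place of a function field of
one variable has degree one. -/
theorem deg_eq_one [IsAlgClosed K] (v : Place K F) {x : F}
    (hx : Transcendental K x) [FiniteDimensional K⟮x⟯ F] : v.deg = 1 := by
  have hsurj : Function.Surjective (algebraMap K v.ResidueField) := by
    intro c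
    obtain ⟨f, rfl⟩ := IsLocalRing.residue_surjective c
    obtain ⟨a, ha⟩ := exists_const_sub_mem_nonunits v hx f.2
    refine ⟨a, ?_⟩
    have hmem : f - algebraMap K v.toValuationSubring a ∈
        IsLocalRing.maximalIdeal v.toValuationSubring := by
      rw [← ValuationSubring.coe_mem_nonunits_iff]
      exact ha
    have h0 := (IsLocalRing.residue_eq_zero_iff _).mpr hmem
    rw [_root_.map_sub, sub_eq_zero] at h0
    rw [h0]
    rfl
  have hbij : Function.Bijective (algebraMap K v.ResidueField) :=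
    ⟨(algebraMap K v.ResidueField).injective, hsurj⟩
  show Module.finrank K v.ResidueField = 1
  rw [← Module.finrank_self K]
  exact ((AlgEquiv.ofBijective (Algebra.ofId K v.ResidueField) hbij).toLinearEquiv.finrank_eq).symm

end Fermat.Agent.S24.FF

end
-- ===== PACK-END S24/FFFinite.lean

-- ===== PACK-BEGIN S21/H381/Parabolic.lean
section




/-!
# S21, piece B: periods of cusp forms are parabolic homomorphisms
-/

set_option autoImplicit false

namespace Fermat.Agent.S21.H381

open CongruenceSubgroup ModularCurve ModularCurve.Period Filter Topology Function Complex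
open UpperHalfPlane hiding I
open scoped Manifold MatrixGroups ModularForm

/-- An element of `SL(2, ℤ)` with `trace ^ 2 = 4` is conjugate (as a Möbius transformation)
to a translation `T ^ n`. -/
theorem exists_conj_T_zpow (γ : SL(2, ℤ))
    (htr : ((γ : Matrix (Fin 2) (Fin 2) ℤ).trace) ^ 2 = 4) :
    ∃ δ : SL(2, ℤ), ∃ n : ℤ, ∀ w : ℍ, γ • (δ • w) = δ • (ModularGroup.T ^ n • w) := by
  have hdet := γ.det_coe
  rw [Matrix.det_fin_two] at hdet
  rw [Matrix.trace_fin_two] at htr
  by_cases hc : γ 1 0 = 0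
  · obtain ⟨n, hn⟩ := ModularGroup.exists_eq_T_zpow_of_c_eq_zero hc
    exact ⟨1, n, fun w => by simp [hn]⟩
  · set a := γ 0 0 with ha
    set b := γ 0 1 with hb
    set c := γ 1 0 with hc'
    set d := γ 1 1 with hd
    set g : ℤ := (Int.gcd (a - d) (2 * c) : ℤ) with hg
    have hg0 : g ≠ 0 := by
      rw [hg]
      intro h
      have h2 : Int.gcd (a - d) (2 * c) = 0 := by exact_mod_cast h
      rw [Int.gcd_eq_zero_iff] at h2
      have : c = 0 := by omega
      exact hc this
    have hga : g ∣ (a - d) := Int.gcd_dvd_left _ _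
    have hgc : g ∣ (2 * c) := Int.gcd_dvd_right _ _
    obtain ⟨p, hp⟩ := hga
    obtain ⟨q, hq⟩ := hgc
    have hcop : IsCoprime p q := by
      have hbez := Int.gcd_eq_gcd_ab (a - d) (2 * c)
      rw [← hg] at hbez
      refine ⟨Int.gcdA (a - d) (2 * c), Int.gcdB (a - d) (2 * c), ?_⟩
      have : g * (Int.gcdA (a - d) (2 * c) * p + Int.gcdB (a - d) (2 * c) * q) = g * 1 := by
        have e1 : g * p = a - d := hp.symm
        have e2 : g * q = 2 * c := hq.symm
        calc g * (Int.gcdA (a - d) (2 * c) * p + Int.gcdB (a - d) (2 * c) * q)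
            = (g * p) * Int.gcdA (a - d) (2 * c) + (g * q) * Int.gcdB (a - d) (2 * c) := by ring
          _ = g := by rw [e1, e2]; exact hbez.symm
          _ = g * 1 := (mul_one g).symm
      exact mul_left_cancel₀ hg0 this
    obtain ⟨δ, hδ0, hδ1⟩ := hcop.exists_SL2_col 0
    have hδdet := δ.det_coe
    rw [Matrix.det_fin_two, hδ0, hδ1] at hδdet
    have hM : (δ⁻¹ * γ * δ) 1 0 = 0 := by
      have hQ : g ^ 2 * (c * p ^ 2 + (d - a) * p * q - b * q ^ 2) = 0 := by
        have e1 : g * p = a - d := hp.symm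
        have e2 : g * q = 2 * c := hq.symm
        have : g ^ 2 * (c * p ^ 2 + (d - a) * p * q - b * q ^ 2)
            = c * (g * p) ^ 2 + (d - a) * (g * p) * (g * q) - b * (g * q) ^ 2 := by ring
        rw [this, e1, e2]
        have h4 : (a + d) ^ 2 = 4 := htr
        have h1 : a * d - b * c = 1 := hdet
        linear_combination (-c) * h4 + (4 * c) * h1
      have hQ' : c * p ^ 2 + (d - a) * p * q - b * q ^ 2 = 0 := by
        rcases mul_eq_zero.mp hQ with h | h
        · exact absurd (pow_eq_zero_iff two_ne_zero |>.mp h) hg0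
        · exact h
      simp only [Matrix.SpecialLinearGroup.coe_mul, Matrix.SpecialLinearGroup.coe_inv,
        Matrix.adjugate_fin_two, Matrix.mul_apply, Fin.sum_univ_two, Matrix.of_apply,
        Matrix.cons_val', Matrix.cons_val_zero, Matrix.cons_val_one, Matrix.empty_val',
        Matrix.cons_val_fin_one, hδ0, hδ1]
      rw [← ha, ← hb, ← hc', ← hd]
      linear_combination hQ'
    obtain ⟨n, hn⟩ := ModularGroup.exists_eq_T_zpow_of_c_eq_zero hM
    refine ⟨δ, n, fun w => ?_⟩
    rw [← hn w, ← mul_smul, ← mul_smul]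
    congr 1
    group

/-- Translation by `T ^ n` preserves the filter `atImInfty`. -/
theorem tendsto_T_zpow_smul_atImInfty (n : ℤ) :
    Tendsto (fun w : ℍ => ModularGroup.T ^ n • w) atImInfty atImInfty := by
  rw [atImInfty, tendsto_comap_iff]
  have : (UpperHalfPlane.im ∘ fun w : ℍ => ModularGroup.T ^ n • w) = UpperHalfPlane.im := by
    funext w
    exact ModularGroup.im_T_zpow_smul w n
  rw [this]
  exact tendsto_comap

variable {N : ℕ} [NeZero N]

/-- **Piece B**: the period homomorphism of a cusp form kills every `γ` with `trace ^ 2 = 4`. -/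
theorem periodMap_mem_parabolicHoms (f : CuspForm (Gamma0 N) 2) :
    periodMap N f ∈ parabolicHoms ℂ (Gamma0 N) ℂ := by
  rw [mem_parabolicHoms_iff]
  intro γ hγ
  obtain ⟨F, hF⟩ := exists_hasEquivariantPrimitive f
  obtain ⟨δ, n, hδ⟩ := exists_conj_T_zpow (γ : SL(2, ℤ)) hγ
  obtain ⟨L, hL⟩ := hF.2.2.2 δ
  have hconst : ∀ w : ℍ, periodMap N f (Additive.ofMul γ)
      = F (δ • (ModularGroup.T ^ n • w)) - F (δ • w) := by
    intro w
    rw [periodMap_apply hF γ (δ • w), hδ w]
  have h1 : Tendsto (fun w : ℍ => F (δ • (ModularGroup.T ^ n • w)) - F (δ • w)) atImInfty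
      (𝓝 (L - L)) :=
    (hL.comp (tendsto_T_zpow_smul_atImInfty n)).sub hL
  have h2 : Tendsto (fun w : ℍ => F (δ • (ModularGroup.T ^ n • w)) - F (δ • w)) atImInfty
      (𝓝 (periodMap N f (Additive.ofMul γ))) := by
    have : (fun w : ℍ => F (δ • (ModularGroup.T ^ n • w)) - F (δ • w))
        = fun _ => periodMap N f (Additive.ofMul γ) := funext fun w => (hconst w).symm
    rw [this]; exact tendsto_const_nhds
  have := tendsto_nhds_unique h2 h1
  rw [sub_self] at this
  exact this

/-- **Piece B'**: the range of `periodHomPair` consists of parabolic homomorphisms. -/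
theorem range_periodHomPair_le :
    LinearMap.range (periodHomPair N) ≤ parabolicHoms ℂ (Gamma0 N) ℂ := by
  rintro ψ ⟨⟨f, g⟩, rfl⟩
  rw [periodHomPair_apply]
  have hf := periodMap_mem_parabolicHoms f
  have hg := periodMap_mem_parabolicHoms g
  exact Submodule.add_mem _
    (Submodule.add_mem _ hf (charInvolution_mem_parabolicHoms N ℂ ℂ hf))
    (Submodule.sub_mem _ hg (charInvolution_mem_parabolicHoms N ℂ ℂ hg))

end Fermat.Agent.S21.H381

end
-- ===== PACK-END S21/H381/Parabolic.lean

-- ===== PACK-BEGIN S29/H201/PeriodHecke.lean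
section



/-!
# S29 / P5-E2 (helper201) — Hecke equivariance of the period map

`periodMap N (T_p f) = heckeHom p (periodMap N f)` for `p ∤ N`.
-/

set_option autoImplicit false

open CongruenceSubgroup Matrix.SpecialLinearGroup UpperHalfPlane ModularCurve ModularCurve.Period
open Filter Topology
open scoped MatrixGroups ModularForm
open P2MW.S_ModularForm_heckeT_slash_eq_self_of_mem_Gamma0.ModularForm.HeckeSlashInvariance

namespace Fermat.Agent.S29.H201

variable {N : ℕ} {p : ℕ} [Fact p.Prime]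

/-- The Hecke transform of a primitive. -/
noncomputable def heckePrim (p : ℕ) [Fact p.Prime] (F : ℍ → ℂ) : ℍ → ℂ :=
  fun τ => ∑ x : OnePoint (ZMod p), F (_root_.P2MW.S_ModularForm_heckeT_slash_eq_self_of_mem_Gamma0.ModularForm.HeckeSlashInvariance.heckeRep p x • τ)

omit [Fact p.Prime] in
theorem det_heckeRep_pos (x : OnePoint (ZMod p)) :
    0 < ((_root_.P2MW.S_ModularForm_heckeT_slash_eq_self_of_mem_Gamma0.ModularForm.HeckeSlashInvariance.heckeRep p x : GL (Fin 2) ℝ) : Matrix (Fin 2) (Fin 2) ℝ).det := by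
  induction x using OnePoint.rec with
  | infty =>
    have := ModularForm.det_heckeDiagMatrix_pos p
    rwa [Matrix.GeneralLinearGroup.val_det_apply] at this
  | coe j =>
    have := ModularForm.det_heckeMatrix_pos p j.val
    rwa [Matrix.GeneralLinearGroup.val_det_apply] at this

/-- Chain rule for the action of `g ∈ GL₂(ℝ)⁺`. -/
theorem hasDerivAt_comp_smul_GL {F f : ℍ → ℂ}
    (hF : ∀ τ : ℍ, HasDerivAt (F ∘ ofComplex) (f τ) ↑τ) (g : GL (Fin 2) ℝ)
    (hpos : 0 < (g : Matrix (Fin 2) (Fin 2) ℝ).det) (τ : ℍ) :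
    HasDerivAt ((fun w : ℍ => F (g • w)) ∘ ofComplex) ((f ∣[(2 : ℤ)] g) τ) ↑τ := by
  have h_smul : HasDerivAt (fun w ↦ ↑(g • ofComplex w) : ℂ → ℂ)
      (((g : Matrix (Fin 2) (Fin 2) ℝ).det : ℂ) / denom g τ ^ 2) ↑τ :=
    (hasStrictDerivAt_smul hpos τ).hasDerivAt
  have h_F : HasDerivAt (F ∘ ofComplex) (f (g • τ)) ↑(g • ofComplex (τ : ℂ)) := by
    rw [ofComplex_apply]
    exact hF (g • τ)
  have hcomp := h_F.comp (τ : ℂ) h_smul
  have heq : ((fun w : ℍ => F (g • w)) ∘ ofComplex)
      = (F ∘ ofComplex) ∘ (fun w ↦ ↑(g • ofComplex w) : ℂ → ℂ) := by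
    funext z
    simp only [Function.comp_apply, ofComplex_apply]
  rw [heq]
  refine hcomp.congr_deriv ?_
  have hdet' : 0 < (g.det : ℝ) := by
    rwa [Matrix.GeneralLinearGroup.val_det_apply]
  rw [ModularForm.slash_apply, UpperHalfPlane.σ, if_pos hdet']
  have hz := denom_ne_zero g τ
  simp only [ContinuousAlgEquiv.refl_apply]
  rw [show (2 : ℤ) - 1 = 1 by norm_num, zpow_one, zpow_neg, abs_of_pos hdet',
    Matrix.GeneralLinearGroup.val_det_apply]
  rw [div_eq_mul_inv, mul_assoc]
  norm_cast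

theorem im_heckeRep_smul (x : OnePoint (ZMod p)) (τ : ℍ) :
    τ.im / p ≤ (_root_.P2MW.S_ModularForm_heckeT_slash_eq_self_of_mem_Gamma0.ModularForm.HeckeSlashInvariance.heckeRep p x • τ).im := by
  have hp : p ≠ 0 := (Fact.out : p.Prime).ne_zero
  have hp1 : (1 : ℝ) ≤ p := by exact_mod_cast (Fact.out : p.Prime).one_le
  have hpos : (0 : ℝ) < p := by linarith
  have him : 0 < τ.im := τ.im_pos
  induction x using OnePoint.rec with
  | infty =>
    have h := ModularForm.coe_heckeDiagMatrix_smul hp τ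
    have h2 : (_root_.P2MW.S_ModularForm_heckeT_slash_eq_self_of_mem_Gamma0.ModularForm.HeckeSlashInvariance.heckeRep p (OnePoint.infty : OnePoint (ZMod p)) • τ).im = p * τ.im := by
      have := congrArg Complex.im h
      simpa using this
    rw [h2]
    calc τ.im / p ≤ τ.im := div_le_self him.le hp1
      _ ≤ p * τ.im := le_mul_of_one_le_left him.le hp1
  | coe j =>
    have h := ModularForm.coe_heckeMatrix_smul hp j.val τ
    have h2 : (_root_.P2MW.S_ModularForm_heckeT_slash_eq_self_of_mem_Gamma0.ModularForm.HeckeSlashInvariance.heckeRep p (j : OnePoint (ZMod p)) • τ).im = τ.im / p := by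
      have := congrArg Complex.im h
      rw [UpperHalfPlane.coe_im] at this
      show (ModularForm.heckeMatrix p j.val • τ).im = _
      rw [this, Complex.div_natCast_im, Complex.add_im, Complex.natCast_im, add_zero,
        UpperHalfPlane.coe_im]
    rw [h2]

theorem tendsto_heckeRep_smul (x : OnePoint (ZMod p)) :
    Tendsto (fun τ : ℍ => _root_.P2MW.S_ModularForm_heckeT_slash_eq_self_of_mem_Gamma0.ModularForm.HeckeSlashInvariance.heckeRep p x • τ) atImInfty atImInfty := by
  have hpos : (0 : ℝ) < p := by exact_mod_cast (Fact.out : p.Prime).pos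
  rw [atImInfty, tendsto_comap_iff]
  refine tendsto_atTop_mono (fun τ => im_heckeRep_smul x τ) ?_
  exact (tendsto_comap.atTop_div_const hpos)

theorem SL_smul_eq_mapGL_smul (γ : SL(2, ℤ)) (τ : ℍ) : γ • τ = (mapGL ℝ γ) • τ := rfl

theorem heckePrim_smul_sub (hpN : ¬ p ∣ N)
    {f : CuspForm (Gamma0 N) 2} {F : ℍ → ℂ} (hF : HasEquivariantPrimitive N f F)
    (γ : Gamma0 N) (τ : ℍ) :
    heckePrim p F ((γ : SL(2, ℤ)) • τ) - heckePrim p F τ
      = ∑ x : OnePoint (ZMod p), hF.2.2.1.period (trf hpN γ x) := by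
  have key : ∀ x : OnePoint (ZMod p), F (_root_.P2MW.S_ModularForm_heckeT_slash_eq_self_of_mem_Gamma0.ModularForm.HeckeSlashInvariance.heckeRep p x • ((γ : SL(2, ℤ)) • τ))
      = F (_root_.P2MW.S_ModularForm_heckeT_slash_eq_self_of_mem_Gamma0.ModularForm.HeckeSlashInvariance.heckeRep p (permOf γ x) • τ) + hF.2.2.1.period (trf hpN γ x) := by
    intro x
    have h1 : _root_.P2MW.S_ModularForm_heckeT_slash_eq_self_of_mem_Gamma0.ModularForm.HeckeSlashInvariance.heckeRep p x • ((γ : SL(2, ℤ)) • τ)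
        = ((trf hpN γ x : Gamma0 N) : SL(2, ℤ)) • (_root_.P2MW.S_ModularForm_heckeT_slash_eq_self_of_mem_Gamma0.ModularForm.HeckeSlashInvariance.heckeRep p (permOf γ x) • τ) := by
      rw [SL_smul_eq_mapGL_smul, SL_smul_eq_mapGL_smul, ← mul_smul, ← mul_smul, trf_spec hpN γ x]
      rfl
    rw [h1, ← hF.2.2.1.sub_eq_period (trf hpN γ x) (_root_.P2MW.S_ModularForm_heckeT_slash_eq_self_of_mem_Gamma0.ModularForm.HeckeSlashInvariance.heckeRep p (permOf γ x) • τ)]
    ring
  unfold heckePrim
  simp only [key, Finset.sum_add_distrib]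
  rw [Equiv.sum_comp (permOf γ) (fun y => F (_root_.P2MW.S_ModularForm_heckeT_slash_eq_self_of_mem_Gamma0.ModularForm.HeckeSlashInvariance.heckeRep p y • τ))]
  ring

theorem hasEquivariantPrimitive_heckePrim (hp : p.Prime) (hpN : ¬ p ∣ N)
    {f : CuspForm (Gamma0 N) 2} {F : ℍ → ℂ} (hF : HasEquivariantPrimitive N f F) :
    HasEquivariantPrimitive N (CuspForm.heckeTLin 2 hp hpN f) (heckePrim p F) := by
  refine ⟨fun τ => ?_, ?_, fun γ => ?_, fun δ => ?_⟩
  · -- derivative
    have hsum : (heckePrim p F ∘ ofComplex)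
        = fun z => ∑ x : OnePoint (ZMod p), ((fun w : ℍ => F (_root_.P2MW.S_ModularForm_heckeT_slash_eq_self_of_mem_Gamma0.ModularForm.HeckeSlashInvariance.heckeRep p x • w)) ∘ ofComplex) z := by
      funext z
      rfl
    rw [hsum, CuspForm.heckeTLin_apply_apply, heckeT_eq_sum_onePoint, Finset.sum_apply]
    exact HasDerivAt.fun_sum fun x _ =>
      hasDerivAt_comp_smul_GL hF.1 (_root_.P2MW.S_ModularForm_heckeT_slash_eq_self_of_mem_Gamma0.ModularForm.HeckeSlashInvariance.heckeRep p x) (det_heckeRep_pos x) τ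
  · -- limit `0` at `i∞`
    have h : Tendsto (fun τ : ℍ => ∑ x : OnePoint (ZMod p), F (_root_.P2MW.S_ModularForm_heckeT_slash_eq_self_of_mem_Gamma0.ModularForm.HeckeSlashInvariance.heckeRep p x • τ)) atImInfty
        (𝓝 (∑ _x : OnePoint (ZMod p), (0 : ℂ))) :=
      tendsto_finsetSum _ fun x _ => hF.2.1.comp (tendsto_heckeRep_smul x)
    rw [Finset.sum_const_zero] at h
    exact h
  · exact ⟨_, fun z => heckePrim_smul_sub hpN hF γ z⟩
  · -- limits at the cusps
    have h1 : ¬ p ∣ 1 := fun h => hp.one_lt.ne' (Nat.dvd_one.mp h)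
    have hx : ∀ x : OnePoint (ZMod p), ∃ L : ℂ,
        Tendsto (fun w : ℍ => F (_root_.P2MW.S_ModularForm_heckeT_slash_eq_self_of_mem_Gamma0.ModularForm.HeckeSlashInvariance.heckeRep p x • (δ • w))) atImInfty (𝓝 L) := by
      intro x
      obtain ⟨g', -, hg'⟩ := heckeRep_mul (N := 1) h1 δ (one_dvd _) x
      obtain ⟨L, hL⟩ := hF.2.2.2 g'
      refine ⟨L, ?_⟩
      have heq : (fun w : ℍ => F (_root_.P2MW.S_ModularForm_heckeT_slash_eq_self_of_mem_Gamma0.ModularForm.HeckeSlashInvariance.heckeRep p x • (δ • w)))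
          = (fun w : ℍ => F (g' • w)) ∘ (fun w : ℍ => _root_.P2MW.S_ModularForm_heckeT_slash_eq_self_of_mem_Gamma0.ModularForm.HeckeSlashInvariance.heckeRep p (redMatrix p δ • x) • w) := by
        funext w
        simp only [Function.comp_apply]
        rw [SL_smul_eq_mapGL_smul, SL_smul_eq_mapGL_smul, ← mul_smul, ← mul_smul, hg']
      rw [heq]
      exact hL.comp (tendsto_heckeRep_smul _)
    choose L hL using hx
    exact ⟨∑ x : OnePoint (ZMod p), L x, tendsto_finsetSum _ fun x _ => hL x⟩

/-- **E2a**: Hecke equivariance of the period map. -/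
theorem periodMap_heckeTLin (hp : p.Prime) (hpN : ¬ p ∣ N) (f : CuspForm (Gamma0 N) 2) :
    periodMap N (CuspForm.heckeTLin 2 hp hpN f) = heckeHom p hpN ℂ (periodMap N f) := by
  haveI : NeZero N := ⟨fun h => hpN (h ▸ dvd_zero p)⟩
  obtain ⟨F, hF⟩ := Fermat.Agent.S21.H381.exists_hasEquivariantPrimitive f
  refine AddMonoidHom.ext fun γ => ?_
  obtain ⟨γ, rfl⟩ : ∃ γ' : Gamma0 N, Additive.ofMul γ' = γ := ⟨Additive.toMul γ, rfl⟩
  rw [Fermat.Agent.S21.H381.periodMap_apply (hasEquivariantPrimitive_heckePrim hp hpN hF) γ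
    UpperHalfPlane.I, heckePrim_smul_sub hpN hF γ UpperHalfPlane.I, heckeHom_apply]
  refine Finset.sum_congr rfl fun x _ => ?_
  rw [Fermat.Agent.S21.H381.periodMap_apply hF (trf hpN γ x) UpperHalfPlane.I,
    hF.2.2.1.sub_eq_period]

end Fermat.Agent.S29.H201

end
-- ===== PACK-END S29/H201/PeriodHecke.lean

-- ===== PACK-BEGIN S24/Alg/LocUniq.lean
section




/-!
# S24 / ALG-LOC: local uniqueness of embeddings

Two embeddings `σ τ : F → C((z))` inducing the same place `v` (with residue field `K`), agreeing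
on `K` and on some `t` with `ord_v t > 0`, and having the same leading coefficient on a
uniformizer, are equal.  No completion, no Hensel.
-/

set_option autoImplicit false

noncomputable section

open AlgebraicCurve

namespace Fermat.Agent.S24.H144

variable {K F : Type*} [Field K] [Field F] [Algebra K F] {C : Type*} [Field C]

/-- The residue field of `v` is `K`: every element of the valuation ring is congruent to a
constant modulo the maximal ideal. -/
def ResidueTrivial (v : Place K F) : Prop :=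
  ∀ f ∈ v.toValuationSubring, ∃ a : K, f = algebraMap K F a ∨ 0 < v.ord (f - algebraMap K F a)

/-- First step of the `π`-adic expansion. -/
theorem loc_exists_expand {v : Place K F} (hres : ResidueTrivial v) {π : F} (hπ : v.ord π = 1)
    {f : F} (hf : f ∈ v.toValuationSubring) :
    ∃ a : K, ∃ f₁ ∈ v.toValuationSubring, f = algebraMap K F a + π * f₁ := by
  have hπ0 : π ≠ 0 := by rintro rfl; simp at hπ
  obtain ⟨a, h | h⟩ := hres f hf
  · exact ⟨a, 0, zero_mem _, by rw [h]; simp⟩
  · have h0 : f - algebraMap K F a ≠ 0 := by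
      intro h0; rw [h0, v.ord_zero] at h; exact lt_irrefl _ h
    refine ⟨a, (f - algebraMap K F a) * π⁻¹, ?_, ?_⟩
    · apply loc_mem_of_ord_nonneg
      rw [v.ord_mul h0 (inv_ne_zero hπ0), v.ord_inv, hπ]; omega
    · field_simp; ring

theorem loc_sub_mul (σ τ : F →+* LaurentSeries C) (f h : F) :
    σ (f * h) - τ (f * h) = (σ f - τ f) * σ h + τ f * (σ h - τ h) := by
  rw [map_mul, map_mul]; ring

/-- Main induction: if `σ π - τ π` has order at least `d`, so has `σ f - τ f` for every `f` in
the valuation ring (up to any bound `r`). -/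
theorem loc_sub_big {v : Place K F} (hres : ResidueTrivial v) {π : F} (hπ : v.ord π = 1)
    (ι : K →+* C) (σ τ : F →+* LaurentSeries C)
    (hσK : ∀ c, σ (algebraMap K F c) = HahnSeries.C (ι c))
    (hτK : ∀ c, τ (algebraMap K F c) = HahnSeries.C (ι c))
    (hσ : Induces σ v) (hτ : Induces τ v)
    (d : ℤ) (hd : LocBig d (σ π - τ π)) :
    ∀ r : ℕ, ∀ f ∈ v.toValuationSubring, LocBig (min d r) (σ f - τ f) := by
  obtain ⟨gτ, hgτ, hτord⟩ := loc_exists_mult v τ hτ
  have hτπ : LocBig 1 (τ π) := by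
    refine LocBig.of_le_order ?_
    rw [hτord, hπ, mul_one]; exact_mod_cast hgτ
  intro r
  induction r with
  | zero =>
    intro f hf
    have h1 : LocBig 0 (σ f) := LocBig.of_le_order ((hσ f).mp hf)
    have h2 : LocBig 0 (τ f) := LocBig.of_le_order ((hτ f).mp hf)
    exact (h1.sub h2).mono (by simp)
  | succ r ih =>
    intro f hf
    obtain ⟨a, f₁, hf₁, rfl⟩ := loc_exists_expand hres hπ hf
    have h1 : σ (algebraMap K F a + π * f₁) - τ (algebraMap K F a + π * f₁)
        = (σ π - τ π) * σ f₁ + τ π * (σ f₁ - τ f₁) := by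
      rw [map_add, map_add, hσK, hτK, ← loc_sub_mul]; ring
    rw [h1]
    have h2 : LocBig 0 (σ f₁) := LocBig.of_le_order ((hσ f₁).mp hf₁)
    have h3 : LocBig (d + 0) ((σ π - τ π) * σ f₁) := hd.mul h2
    have h4 : LocBig (1 + min d r) (τ π * (σ f₁ - τ f₁)) := hτπ.mul (ih f₁ hf₁)
    refine (h3.mono ?_).add (h4.mono ?_)
    · simp
    · push_cast
      rcases le_total d (r : ℤ) with h | h
      · rw [min_eq_left h, min_eq_left (by omega)]; omega
      · rw [min_eq_right h]; exact le_trans (min_le_right _ _) (by omega)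

/-- If `σ π = τ π` then `σ = τ`. -/
theorem loc_emb_eq_of_uniformizer_eq {v : Place K F} (hres : ResidueTrivial v) {π : F}
    (hπ : v.ord π = 1) (ι : K →+* C) (σ τ : F →+* LaurentSeries C)
    (hσK : ∀ c, σ (algebraMap K F c) = HahnSeries.C (ι c))
    (hτK : ∀ c, τ (algebraMap K F c) = HahnSeries.C (ι c))
    (hσ : Induces σ v) (hτ : Induces τ v) (h : σ π = τ π) : σ = τ := by
  have key : ∀ f ∈ v.toValuationSubring, σ f = τ f := by
    intro f hf
    rw [← sub_eq_zero]
    apply LocBig.eq_zero_of_forall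
    intro k
    have := loc_sub_big hres hπ ι σ τ hσK hτK hσ hτ k (by rw [h, sub_self]; exact LocBig.zero _)
      k f hf
    rwa [min_self] at this
  ext1 f
  rcases v.toValuationSubring.mem_or_inv_mem f with hf | hf
  · exact key f hf
  · have := key f⁻¹ hf
    rw [map_inv₀, map_inv₀] at this
    exact inv_injective this

/-- The coefficient at the bound of a power. -/
theorem LocBig.coeff_pow {n : ℤ} {a : LaurentSeries C} (ha : LocBig n a) (k : ℕ) :
    (a ^ k).coeff (k * n) = (a.coeff n) ^ k := by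
  induction k with
  | zero => simp [HahnSeries.coeff_one]
  | succ k ih =>
    have h := (ha.pow k).coeff_mul ha
    rw [pow_succ, pow_succ, ← ih, ← h]
    congr 1
    push_cast; ring

/-- Expansion of `a ^ (k+1) - b ^ (k+1)` to first order in `a - b`. -/
theorem loc_pow_sub_pow_big {g d : ℤ} {a b : LaurentSeries C} (ha : LocBig g a)
    (hb : LocBig g b) (hab : a.coeff g = b.coeff g) (hd : LocBig d (a - b)) (k : ℕ) :
    LocBig (d + k * g) (a ^ (k + 1) - b ^ (k + 1)) ∧
      (a ^ (k + 1) - b ^ (k + 1)).coeff (d + k * g)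
        = (k + 1) * (a.coeff g) ^ k * (a - b).coeff d := by
  induction k with
  | zero => simpa using hd
  | succ k ih =>
    obtain ⟨ih1, ih2⟩ := ih
    have hid : a ^ (k + 1 + 1) - b ^ (k + 1 + 1)
        = (a - b) * a ^ (k + 1) + b * (a ^ (k + 1) - b ^ (k + 1)) := by ring
    have h1 : LocBig (d + ((k + 1 : ℕ) : ℤ) * g) ((a - b) * a ^ (k + 1)) := hd.mul (ha.pow (k + 1))
    have h2 : LocBig (g + (d + k * g)) (b * (a ^ (k + 1) - b ^ (k + 1))) := hb.mul ih1
    have hidx : g + (d + (k : ℤ) * g) = d + ((k + 1 : ℕ) : ℤ) * g := by push_cast; ring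
    rw [hidx] at h2
    have c1 : ((a - b) * a ^ (k + 1)).coeff (d + ((k + 1 : ℕ) : ℤ) * g)
        = (a - b).coeff d * (a.coeff g) ^ (k + 1) := by
      rw [hd.coeff_mul (ha.pow (k + 1)), ha.coeff_pow]
    have c2 : (b * (a ^ (k + 1) - b ^ (k + 1))).coeff (d + ((k + 1 : ℕ) : ℤ) * g)
        = b.coeff g * ((k + 1) * (a.coeff g) ^ k * (a - b).coeff d) := by
      rw [← hidx, hb.coeff_mul ih1, ih2]
    refine ⟨by rw [hid]; exact h1.add h2, ?_⟩
    rw [hid, HahnSeries.coeff_add, c1, c2, ← hab]
    push_cast; ring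

/-- **Local uniqueness.** Two embeddings inducing the same place, agreeing on `K` and on `t`
(`ord_v t > 0`), with the same leading coefficient at a uniformizer, are equal. -/
theorem loc_emb_eq_of_leadingCoeff_eq [CharZero C] {v : Place K F} (hres : ResidueTrivial v)
    {t : F} (ht : 0 < v.ord t) {π : F} (hπ : v.ord π = 1)
    (ι : K →+* C) (σ τ : F →+* LaurentSeries C)
    (hσK : ∀ c, σ (algebraMap K F c) = HahnSeries.C (ι c))
    (hτK : ∀ c, τ (algebraMap K F c) = HahnSeries.C (ι c))
    (hσ : Induces σ v) (hτ : Induces τ v) (hσt : σ t = τ t)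
    (hlc : (σ π).leadingCoeff = (τ π).leadingCoeff) : σ = τ := by
  apply loc_emb_eq_of_uniformizer_eq hres hπ ι σ τ hσK hτK hσ hτ
  by_contra hne
  have hδ : σ π - τ π ≠ 0 := sub_ne_zero.mpr hne
  have hπ0 : π ≠ 0 := by rintro rfl; simp at hπ
  have ht0 : t ≠ 0 := by rintro rfl; simp at ht
  obtain ⟨gσ, hgσ, hσord⟩ := loc_exists_mult v σ hσ
  obtain ⟨gτ, hgτ, hτord⟩ := loc_exists_mult v τ hτ
  -- the two multiplicities agree
  have hg : gσ = gτ := by
    have h1 := hσord t
    rw [hσt, hτord t] at h1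
    have h2 : (gτ : ℤ) = gσ := mul_right_cancel₀ ht.ne' h1
    exact_mod_cast h2.symm
  subst hg
  set g : ℤ := (gσ : ℤ) with hgdef
  have hgpos : 0 < g := Int.natCast_pos.mpr hgσ
  have hoσ : (σ π).order = g := by rw [hσord, hπ, mul_one]
  have hoτ : (τ π).order = g := by rw [hτord, hπ, mul_one]
  have hbσ : LocBig g (σ π) := LocBig.of_le_order hoσ.ge
  have hbτ : LocBig g (τ π) := LocBig.of_le_order hoτ.ge
  have hcoef : (σ π).coeff g = (τ π).coeff g := by
    rw [← hoσ, ← HahnSeries.leadingCoeff_eq, hlc, HahnSeries.leadingCoeff_eq, hoτ, hoσ]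
  have ha0 : (σ π).coeff g ≠ 0 := by
    rw [← hoσ]
    exact HahnSeries.coeff_order_eq_zero.not.mpr ((map_ne_zero σ).mpr hπ0)
  -- the difference `δ`
  set d : ℤ := (σ π - τ π).order with hddef
  have hdbig : LocBig d (σ π - τ π) := LocBig.self_order _
  have hdge : g + 1 ≤ d := by
    have := LocBig.sub_of_leadingCoeff_eq (hoσ.trans hoτ.symm) hlc
    rw [hoσ] at this
    exact this.resolve_left hδ
  have hc0 : (σ π - τ π).coeff d ≠ 0 := HahnSeries.coeff_order_eq_zero.not.mpr hδ
  -- the exponent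
  obtain ⟨k, hk⟩ : ∃ k : ℕ, v.ord t = (k : ℤ) + 1 := ⟨(v.ord t - 1).toNat, by omega⟩
  -- the unit part of `t`
  set u : F := t * (π ^ (k + 1))⁻¹ with hu
  have hpk : π ^ (k + 1) ≠ 0 := pow_ne_zero _ hπ0
  have hu0 : u ≠ 0 := mul_ne_zero ht0 (inv_ne_zero hpk)
  have hut : t = u * π ^ (k + 1) := by rw [hu]; field_simp
  have hordu : v.ord u = 0 := by
    rw [hu, v.ord_mul ht0 (inv_ne_zero hpk), v.ord_inv, loc_ord_pow, hπ, hk]
    push_cast; ring
  have humem : u ∈ v.toValuationSubring := loc_mem_of_ord_nonneg v hordu.ge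
  have hτu : (τ u).order = 0 := by rw [hτord, hordu, mul_zero]
  have hτu0 : (τ u).coeff 0 ≠ 0 := by
    rw [← hτu]
    exact HahnSeries.coeff_order_eq_zero.not.mpr ((map_ne_zero τ).mpr hu0)
  -- `σ u - τ u` has order at least `d`
  have hΔu : LocBig d (σ u - τ u) := by
    have := loc_sub_big hres hπ ι σ τ hσK hτK hσ hτ d hdbig d.toNat u humem
    rwa [Int.toNat_of_nonneg (by omega), min_self] at this
  -- expand `0 = σ t - τ t`
  have hzero : (σ u - τ u) * σ (π ^ (k + 1)) + τ u * (σ (π ^ (k + 1)) - τ (π ^ (k + 1))) = 0 := by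
    rw [← loc_sub_mul, ← hut, hσt, sub_self]
  obtain ⟨hD1, hD2⟩ := loc_pow_sub_pow_big hbσ hbτ hcoef hdbig k
  have hcoeff := congrArg (fun s : LaurentSeries C => s.coeff (d + k * g)) hzero
  simp only [HahnSeries.coeff_add, HahnSeries.coeff_zero] at hcoeff
  -- first term vanishes
  have hfirst : ((σ u - τ u) * σ (π ^ (k + 1))).coeff (d + k * g) = 0 := by
    have hb : LocBig (d + ((k + 1 : ℕ) : ℤ) * g) ((σ u - τ u) * σ (π ^ (k + 1))) := by
      rw [map_pow]
      exact hΔu.mul (hbσ.pow (k + 1))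
    apply hb.coeff_eq_zero
    push_cast
    nlinarith
  -- second term does not
  have hsecond : (τ u * (σ (π ^ (k + 1)) - τ (π ^ (k + 1)))).coeff (d + k * g)
      = (τ u).coeff 0 * ((k + 1) * ((σ π).coeff g) ^ k * (σ π - τ π).coeff d) := by
    have hτu' : LocBig 0 (τ u) := LocBig.of_le_order hτu.ge
    rw [map_pow, map_pow]
    have := hτu'.coeff_mul hD1
    rw [zero_add] at this
    rw [this, hD2]
  rw [hfirst, hsecond, zero_add] at hcoeff
  have hk1 : ((k : C) + 1) ≠ 0 := by exact_mod_cast Nat.succ_ne_zero k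
  exact (mul_ne_zero hτu0 (mul_ne_zero (mul_ne_zero hk1 (pow_ne_zero k ha0)) hc0)) hcoeff

end Fermat.Agent.S24.H144

end
end
-- ===== PACK-END S24/Alg/LocUniq.lean

-- ===== PACK-BEGIN S24/Alg/LocPlace.lean
section


/-!
# S24 / ALG-LOC, part 2: the place cut out by an embedding into Laurent series
-/

set_option autoImplicit false

noncomputable section

open AlgebraicCurve

namespace Fermat.Agent.S24.H144

variable {K F : Type*} [Field K] [Field F] [Algebra K F]
variable {C : Type*} [Field C]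

/-- The valuation subring of `F` cut out by an embedding `σ : F → C((z))`. -/
def locValSubring (σ : F →+* LaurentSeries C) : ValuationSubring F where
  carrier := {f | 0 ≤ (σ f).order}
  mul_mem' := by
    intro a b ha hb
    simp only [Set.mem_setOf_eq] at ha hb ⊢
    rcases eq_or_ne a 0 with rfl | ha0
    · simp
    rcases eq_or_ne b 0 with rfl | hb0
    · simp
    rw [loc_order_map_mul σ ha0 hb0]; omega
  one_mem' := by simp [loc_order_map_one]
  add_mem' := by
    intro a b ha hb
    simp only [Set.mem_setOf_eq] at ha hb ⊢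
    rcases eq_or_ne (a + b) 0 with h | h
    · rw [h]; simp
    · have := loc_order_map_add_le σ h
      exact le_trans (le_min ha hb) this
  zero_mem' := by simp
  neg_mem' := by
    intro a ha
    simp only [Set.mem_setOf_eq] at ha ⊢
    rw [map_neg, HahnSeries.order_neg]; exact ha
  mem_or_inv_mem' := by
    intro a
    simp only [Set.mem_setOf_eq]
    rw [loc_order_map_inv]
    omega

@[simp]
theorem mem_locValSubring (σ : F →+* LaurentSeries C) (f : F) :
    f ∈ locValSubring σ ↔ 0 ≤ (σ f).order := Iff.rfl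

theorem locValSubring_isPrincipalIdealRing (σ : F →+* LaurentSeries C) :
    IsPrincipalIdealRing (locValSubring σ) := by
  classical
  refine ⟨fun I => ?_⟩
  by_cases hI : I = ⊥
  · rw [hI]; exact ⟨⟨0, by simp⟩⟩
  -- pick a nonzero element of minimal order
  have hne : ∃ n : ℕ, ∃ a ∈ I, a ≠ 0 ∧ (σ (a : F)).order.toNat = n := by
    obtain ⟨a, ha, ha0⟩ := Submodule.exists_mem_ne_zero_of_ne_bot hI
    exact ⟨_, a, ha, ha0, rfl⟩
  obtain ⟨a, haI, ha0, han⟩ := Nat.find_spec hne
  have hmin : ∀ b ∈ I, b ≠ 0 → (σ (a : F)).order ≤ (σ (b : F)).order := by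
    intro b hb hb0
    have h1 : Nat.find hne ≤ (σ (b : F)).order.toNat := Nat.find_min' hne ⟨b, hb, hb0, rfl⟩
    have h2 : 0 ≤ (σ (a : F)).order := a.2
    have h3 : 0 ≤ (σ (b : F)).order := b.2
    omega
  have haF : (a : F) ≠ 0 := by simpa using ha0
  refine ⟨⟨a, le_antisymm ?_ ?_⟩⟩
  · intro b hb
    rw [Submodule.mem_span_singleton]
    rcases eq_or_ne b 0 with rfl | hb0
    · exact ⟨0, by simp⟩
    have hbF : (b : F) ≠ 0 := by simpa using hb0
    have hq : (b : F) * (a : F)⁻¹ ∈ locValSubring σ := by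
      rw [mem_locValSubring, loc_order_map_mul σ hbF (inv_ne_zero haF), loc_order_map_inv]
      have := hmin b hb hb0
      omega
    refine ⟨⟨_, hq⟩, ?_⟩
    ext
    simp [haF]
  · rw [Submodule.span_le]
    intro b hb
    rw [Set.mem_singleton_iff] at hb
    rw [hb]; exact haI

/-- The place of `F` cut out by an embedding `σ : F → C((z))` which is constant on `K`
and has some element of negative order. -/
def placeOfEmb (σ : F →+* LaurentSeries C)
    (hK : ∀ c : K, 0 ≤ (σ (algebraMap K F c)).order)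
    (hneg : ∃ f : F, (σ f).order < 0) : Place K F where
  toValuationSubring := locValSubring σ
  algebraMap_mem' := hK
  ne_top' := by
    obtain ⟨f, hf⟩ := hneg
    intro h
    have : f ∈ locValSubring σ := by rw [h]; exact ValuationSubring.mem_top f
    rw [mem_locValSubring] at this
    omega
  isPrincipalIdealRing' := locValSubring_isPrincipalIdealRing σ

theorem induces_placeOfEmb (σ : F →+* LaurentSeries C)
    (hK : ∀ c : K, 0 ≤ (σ (algebraMap K F c)).order)
    (hneg : ∃ f : F, (σ f).order < 0) : Induces σ (placeOfEmb σ hK hneg) :=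
  fun _ => Iff.rfl

/-- Two places induced by the same embedding coincide. -/
theorem Induces.unique {σ : F →+* LaurentSeries C} {v w : Place K F}
    (hv : Induces σ v) (hw : Induces σ w) : v = w := by
  apply Place.ext
  ext f
  rw [hv f, hw f]

/-- If two embeddings have the same order function, they induce the same places. -/
theorem Induces.of_order_eq {σ τ : F →+* LaurentSeries C} {v : Place K F}
    (hv : Induces σ v) (h : ∀ f, (τ f).order = (σ f).order) : Induces τ v :=
  fun f => by rw [hv f, h f]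

end Fermat.Agent.S24.H144

end
end
-- ===== PACK-END S24/Alg/LocPlace.lean

-- ===== PACK-BEGIN S24/H504/Fibre.lean
section




/-!
# Embeddings inducing the same place: rigidity

Two embeddings `σ, τ : F → C((z))` over `K(t)` inducing the same place `v` over `t = 0` and
having the same leading coefficient on a uniformizer are equal.  Hence at most `e = v(t)`
embeddings induce `v`.
-/

set_option autoImplicit false

namespace Fermat.Agent.S24.H504

open AlgebraicCurve

variable {K F : Type*} [Field K] [Field F] [Algebra K F]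
variable {C : Type*} [Field C]

theorem le_ot_add {A B : LaurentSeries C} {k : ℤ} (hA : (k : WithTop ℤ) ≤ A.orderTop)
    (hB : (k : WithTop ℤ) ≤ B.orderTop) : (k : WithTop ℤ) ≤ (A + B).orderTop :=
  le_trans (le_min hA hB) HahnSeries.min_orderTop_le_orderTop_add

theorem le_ot_mul {A B : LaurentSeries C} {k l : ℤ} (hA : (k : WithTop ℤ) ≤ A.orderTop)
    (hB : (l : WithTop ℤ) ≤ B.orderTop) : ((k + l : ℤ) : WithTop ℤ) ≤ (A * B).orderTop := by
  rw [HahnSeries.orderTop_mul]
  push_cast
  exact add_le_add hA hB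

theorem le_ot_of_order {A : LaurentSeries C} {k : ℤ} (h : k ≤ A.order) :
    (k : WithTop ℤ) ≤ A.orderTop := by
  rcases eq_or_ne A 0 with rfl | hA
  · simp
  · rw [ls_orderTop_eq_order hA]
    exact_mod_cast h

theorem ot_le_of_forall {d e : WithTop ℤ} (h : ∀ k : ℤ, (k : WithTop ℤ) ≤ d → (k : WithTop ℤ) ≤ e) :
    d ≤ e := by
  induction d using WithTop.recTopCoe with
  | top =>
    induction e using WithTop.recTopCoe with
    | top => exact le_rfl
    | coe e =>
      have := h (e + 1) le_top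
      have h2 : e + 1 ≤ e := by exact_mod_cast this
      omega
  | coe d => exact h d le_rfl

section delta

variable {v : Place K F} {ι : K →+* C} {σ τ : F →+* LaurentSeries C}

/-- Key estimate: the difference `σ - τ` is as small on the whole valuation ring as on a
uniformizer. -/
theorem orderTop_sub_uniformizer_le [IsAlgClosed K] {t : F} (ht : 0 < v.ord t)
    [Algebra.IsAlgebraic (IntermediateField.adjoin K {t}) F]
    (hσK : ∀ c, σ (algebraMap K F c) = HahnSeries.C (ι c))
    (hτK : ∀ c, τ (algebraMap K F c) = HahnSeries.C (ι c))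
    (hσ : Induces σ v) (hτ : Induces τ v)
    {ϖ : F} (hϖ : v.ord ϖ = 1) {f : F} (hf : 0 ≤ v.ord f) :
    (σ ϖ - τ ϖ).orderTop ≤ (σ f - τ f).orderTop := by
  have hσϖ : 0 < (σ ϖ).order := by
    have h1 := (hσ.order_nonneg_iff ϖ).mpr (by omega)
    have h2 := (hσ.order_eq_zero_iff ϖ).not.mpr (by omega)
    omega
  set μ := (σ ϖ).order with hμ
  -- the inductive statement
  have key : ∀ (N : ℕ) (f : F), 0 ≤ v.ord f → ∀ k : ℤ, k ≤ N * μ →
      (k : WithTop ℤ) ≤ (σ ϖ - τ ϖ).orderTop → (k : WithTop ℤ) ≤ (σ f - τ f).orderTop := by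
    intro N
    induction N with
    | zero =>
      intro f hf k hk _
      have h1 : (0 : WithTop ℤ) ≤ (σ f).orderTop :=
        (ls_orderTop_nonneg_iff _).mpr ((hσ.order_nonneg_iff f).mpr hf)
      have h2 : (0 : WithTop ℤ) ≤ (τ f).orderTop :=
        (ls_orderTop_nonneg_iff _).mpr ((hτ.order_nonneg_iff f).mpr hf)
      have h3 : (0 : WithTop ℤ) ≤ (σ f - τ f).orderTop :=
        le_trans (le_min h1 h2) HahnSeries.min_orderTop_le_orderTop_sub
      have hk0 : k ≤ 0 := by simpa using hk
      exact le_trans (by exact_mod_cast hk0) h3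
    | succ N ih =>
      intro f hf k hk hkd
      obtain ⟨c, f₁, hf₁, rfl⟩ := exists_eq_const_add_mul ht hϖ hf
      have hdecomp : σ (algebraMap K F c + ϖ * f₁) - τ (algebraMap K F c + ϖ * f₁)
          = σ ϖ * (σ f₁ - τ f₁) + (σ ϖ - τ ϖ) * τ f₁ := by
        simp only [map_add, map_mul, hσK, hτK]
        ring
      rw [hdecomp]
      have hτf₁ : ((0 : ℤ) : WithTop ℤ) ≤ (τ f₁).orderTop := by
        have := (ls_orderTop_nonneg_iff _).mpr ((hτ.order_nonneg_iff f₁).mpr hf₁)
        exact_mod_cast this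
      have hk1 : ((k - μ : ℤ) : WithTop ℤ) ≤ (σ f₁ - τ f₁).orderTop := by
        apply ih f₁ hf₁ (k - μ)
        · push_cast at hk
          linarith
        · refine le_trans ?_ hkd
          exact_mod_cast (by omega : k - μ ≤ k)
      have hμ' : ((μ : ℤ) : WithTop ℤ) ≤ (σ ϖ).orderTop := le_ot_of_order le_rfl
      have h1 := le_ot_mul hμ' hk1
      have h2 := le_ot_mul hkd hτf₁
      rw [show μ + (k - μ) = k by ring] at h1
      rw [add_zero] at h2
      exact le_ot_add h1 h2
  apply ot_le_of_forall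
  intro k hk
  refine key k.toNat f hf k ?_ hk
  have : k ≤ (k.toNat : ℤ) := Int.self_le_toNat k
  have h0 : (0 : ℤ) ≤ (k.toNat : ℤ) := Nat.cast_nonneg _
  nlinarith [hσϖ]

end delta

/-! ### The geometric-sum factor -/

theorem ls_leadingCoeff_pow (A : LaurentSeries C) (n : ℕ) :
    (A ^ n).leadingCoeff = A.leadingCoeff ^ n := by
  induction n with
  | zero => simp
  | succ n ih => rw [pow_succ, HahnSeries.leadingCoeff_mul, ih, pow_succ]

theorem ls_ne_zero_of_order_ne_zero {A : LaurentSeries C} (h : A.order ≠ 0) : A ≠ 0 := by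
  rintro rfl
  simp at h

theorem ls_coeff_eq_zero_of_lt {A : LaurentSeries C} {k g : ℤ} (hg : g ≤ A.order) (hk : k < g) :
    A.coeff k = 0 :=
  HahnSeries.coeff_eq_zero_of_lt_order (lt_of_lt_of_le hk hg)

/-- A series whose coefficients vanish below `g` and whose `g`-th coefficient is nonzero has
order `g`. -/
theorem ls_order_eq_of_coeff {A : LaurentSeries C} {g : ℤ} (h0 : ∀ k < g, A.coeff k = 0)
    (hg : A.coeff g ≠ 0) : A ≠ 0 ∧ A.order = g := by
  have hA : A ≠ 0 := by
    rintro rfl
    simp at hg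
  refine ⟨hA, le_antisymm (HahnSeries.order_le_of_coeff_ne_zero hg) ?_⟩
  by_contra hlt
  push Not at hlt
  exact (HahnSeries.coeff_order_eq_zero.not.mpr hA) (h0 _ hlt)

theorem order_geom_sum₂ [CharZero C] {A B : LaurentSeries C} (hA : A ≠ 0) (hB : B ≠ 0)
    (hord : A.order = B.order) (hlc : A.leadingCoeff = B.leadingCoeff) {e : ℕ} (he : 0 < e) :
    (∑ i ∈ Finset.range e, A ^ i * B ^ (e - 1 - i)) ≠ 0 ∧
      (∑ i ∈ Finset.range e, A ^ i * B ^ (e - 1 - i)).order = ((e : ℤ) - 1) * A.order := by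
  have hterm : ∀ i ∈ Finset.range e, (A ^ i * B ^ (e - 1 - i)) ≠ 0 ∧
      (A ^ i * B ^ (e - 1 - i)).order = ((e : ℤ) - 1) * A.order ∧
      (A ^ i * B ^ (e - 1 - i)).leadingCoeff = A.leadingCoeff ^ (e - 1) := by
    intro i hi
    have hi' : i < e := Finset.mem_range.mp hi
    refine ⟨mul_ne_zero (pow_ne_zero _ hA) (pow_ne_zero _ hB), ?_, ?_⟩
    · rw [HahnSeries.order_mul (pow_ne_zero _ hA) (pow_ne_zero _ hB), HahnSeries.order_pow,
        HahnSeries.order_pow, ← hord]
      simp only [nsmul_eq_mul]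
      have : ((e - 1 - i : ℕ) : ℤ) = (e : ℤ) - 1 - i := by omega
      rw [this]
      ring
    · rw [HahnSeries.leadingCoeff_mul, ls_leadingCoeff_pow, ls_leadingCoeff_pow, ← hlc,
        ← pow_add]
      congr 1
      omega
  apply ls_order_eq_of_coeff
  · intro k hk
    rw [HahnSeries.coeff_sum]
    apply Finset.sum_eq_zero
    intro i hi
    exact ls_coeff_eq_zero_of_lt (hterm i hi).2.1.ge hk
  · rw [HahnSeries.coeff_sum]
    have : ∀ i ∈ Finset.range e, (A ^ i * B ^ (e - 1 - i)).coeff (((e : ℤ) - 1) * A.order)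
        = A.leadingCoeff ^ (e - 1) := by
      intro i hi
      rw [← (hterm i hi).2.1, ← HahnSeries.leadingCoeff_eq, (hterm i hi).2.2]
    rw [Finset.sum_congr rfl this, Finset.sum_const, Finset.card_range, nsmul_eq_mul]
    refine mul_ne_zero ?_ (pow_ne_zero _ (HahnSeries.leadingCoeff_ne_zero.mpr hA))
    exact_mod_cast he.ne'

section rigidity

variable {v : Place K F} {ι : K →+* C} {σ τ : F →+* LaurentSeries C}

theorem Induces.order_pos_of_ord_pos (hσ : Induces σ v) {f : F} (hf : 0 < v.ord f) :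
    0 < (σ f).order := by
  have h1 := (hσ.order_nonneg_iff f).mpr hf.le
  have h2 := (hσ.order_eq_zero_iff f).not.mpr hf.ne'
  omega

/-- Two embeddings inducing the same place and agreeing at `t` have the same multiplicity. -/
theorem Induces.order_eq_of_eq_at {t : F} (ht : 0 < v.ord t) (hσ : Induces σ v)
    (hτ : Induces τ v) (hst : σ t = τ t) (f : F) : (σ f).order = (τ f).order := by
  obtain ⟨μσ, _, hμσ⟩ := hσ.exists_mult
  obtain ⟨μτ, _, hμτ⟩ := hτ.exists_mult
  have h1 := hμσ t
  have h2 := hμτ t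
  rw [hst, h2] at h1
  have h3 : (μσ : ℤ) = μτ := by
    have := mul_right_cancel₀ ht.ne' h1
    exact this.symm
  rw [hμσ f, hμτ f, h3]

/-- **Rigidity.** Two embeddings over `K(t)` inducing the same place over `t = 0`, with the same
leading coefficient on a uniformizer, are equal. -/
theorem emb_eq_of_leadingCoeff_eq [IsAlgClosed K] [CharZero C] {t : F} (ht : 0 < v.ord t)
    [Algebra.IsAlgebraic (IntermediateField.adjoin K {t}) F]
    (hσK : ∀ c, σ (algebraMap K F c) = HahnSeries.C (ι c))
    (hτK : ∀ c, τ (algebraMap K F c) = HahnSeries.C (ι c))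
    (hσ : Induces σ v) (hτ : Induces τ v) (hst : σ t = τ t)
    {ϖ : F} (hϖ : v.ord ϖ = 1)
    (hlc : (σ ϖ).leadingCoeff = (τ ϖ).leadingCoeff) : σ = τ := by
  have hϖ0 : ϖ ≠ 0 := ne_zero_of_ord_ne_zero v (by omega)
  have ht0 : t ≠ 0 := ne_zero_of_ord_ne_zero v ht.ne'
  have hσϖ0 : σ ϖ ≠ 0 := (map_ne_zero σ).mpr hϖ0
  have hτϖ0 : τ ϖ ≠ 0 := (map_ne_zero τ).mpr hϖ0
  have hμ : 0 < (σ ϖ).order := hσ.order_pos_of_ord_pos (by omega)
  have hord : (σ ϖ).order = (τ ϖ).order := Induces.order_eq_of_eq_at ht hσ hτ hst ϖ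
  -- first show σ ϖ = τ ϖ
  have hD : σ ϖ - τ ϖ = 0 := by
    by_contra hD
    obtain ⟨e, he⟩ : ∃ e : ℕ, v.ord t = e := ⟨(v.ord t).toNat, (Int.toNat_of_nonneg ht.le).symm⟩
    have he0 : 0 < e := by omega
    set u := t / ϖ ^ e with hu
    have hu_ord : v.ord u = 0 := by
      rw [hu, ord_div v ht0 (pow_ne_zero _ hϖ0), ord_pow, hϖ, he]
      ring
    have hu0 : u ≠ 0 := div_ne_zero ht0 (pow_ne_zero _ hϖ0)
    have htu : t = u * ϖ ^ e := by
      rw [hu]; field_simp
    have hσu : (σ u).order = 0 := (hσ.order_eq_zero_iff u).mpr hu_ord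
    obtain ⟨hS0, hSord⟩ := order_geom_sum₂ hσϖ0 hτϖ0 hord hlc he0
    set S := ∑ i ∈ Finset.range e, σ ϖ ^ i * τ ϖ ^ (e - 1 - i) with hS
    have hgeom : S * (σ ϖ - τ ϖ) = σ ϖ ^ e - τ ϖ ^ e := geom_sum₂_mul _ _ _
    have hzero : σ u * S * (σ ϖ - τ ϖ) + (σ u - τ u) * τ ϖ ^ e = 0 := by
      have h1 : σ t - τ t = 0 := by rw [hst, sub_self]
      rw [htu, map_mul, map_mul, map_pow, map_pow] at h1
      rw [mul_assoc, hgeom]
      linear_combination h1
    have hσu0 : σ u ≠ 0 := (map_ne_zero σ).mpr hu0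
    have hX1 : σ u * S * (σ ϖ - τ ϖ) ≠ 0 := mul_ne_zero (mul_ne_zero hσu0 hS0) hD
    have hX1ord : (σ u * S * (σ ϖ - τ ϖ)).orderTop
        = (((e : ℤ) - 1) * (σ ϖ).order + (σ ϖ - τ ϖ).order : ℤ) := by
      rw [ls_orderTop_eq_order hX1, HahnSeries.order_mul (mul_ne_zero hσu0 hS0) hD,
        HahnSeries.order_mul hσu0 hS0, hσu, hSord, zero_add]
    have hX2 : (((σ ϖ - τ ϖ).order + e * (σ ϖ).order : ℤ) : WithTop ℤ)
        ≤ ((σ u - τ u) * τ ϖ ^ e).orderTop := by
      apply le_ot_mul
      · rw [← ls_orderTop_eq_order hD]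
        exact orderTop_sub_uniformizer_le ht hσK hτK hσ hτ hϖ hu_ord.ge
      · apply le_ot_of_order
        rw [HahnSeries.order_pow, ← hord]
        simp
    have hlt : (σ u * S * (σ ϖ - τ ϖ)).orderTop < ((σ u - τ u) * τ ϖ ^ e).orderTop := by
      refine lt_of_lt_of_le ?_ hX2
      rw [hX1ord]
      have : ((e : ℤ) - 1) * (σ ϖ).order + (σ ϖ - τ ϖ).order
          < (σ ϖ - τ ϖ).order + e * (σ ϖ).order := by linarith
      exact_mod_cast this
    have h3 := HahnSeries.orderTop_add_eq_left hlt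
    rw [hzero, HahnSeries.orderTop_zero] at h3
    exact hX1 (HahnSeries.orderTop_eq_top.mp h3.symm)
  -- now σ = τ on the valuation ring, hence everywhere
  have hint : ∀ f : F, 0 ≤ v.ord f → σ f = τ f := by
    intro f hf
    have := orderTop_sub_uniformizer_le ht hσK hτK hσ hτ hϖ hf
    rw [hD, HahnSeries.orderTop_zero, top_le_iff, HahnSeries.orderTop_eq_top, sub_eq_zero] at this
    exact this
  ext1 f
  rcases le_total 0 (v.ord f) with h | h
  · exact hint f h
  · have h' : 0 ≤ v.ord f⁻¹ := by rw [Place.ord_inv]; omega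
    have := hint f⁻¹ h'
    rw [map_inv₀, map_inv₀] at this
    exact inv_injective this

theorem ls_leadingCoeff_C (r : C) : (HahnSeries.C r : LaurentSeries C).leadingCoeff = r := by
  rw [HahnSeries.C_apply, HahnSeries.leadingCoeff_of_single]

theorem ls_orderTop_C {r : C} (hr : r ≠ 0) : (HahnSeries.C r : LaurentSeries C).orderTop = 0 := by
  rw [HahnSeries.C_apply, HahnSeries.orderTop_single hr]
  rfl

/-- The leading coefficient of `σ t` is a fixed constant times the `e`-th power of the leading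
coefficient of `σ ϖ`. -/
theorem exists_const_leadingCoeff [IsAlgClosed K] {t : F} (ht : 0 < v.ord t)
    [Algebra.IsAlgebraic (IntermediateField.adjoin K {t}) F] {ϖ : F} (hϖ : v.ord ϖ = 1)
    (ι : K →+* C) :
    ∃ c : K, c ≠ 0 ∧ ∀ σ : F →+* LaurentSeries C,
      (∀ c, σ (algebraMap K F c) = HahnSeries.C (ι c)) → Induces σ v →
      (σ t).leadingCoeff = ι c * (σ ϖ).leadingCoeff ^ (v.ord t).toNat := by
  have hϖ0 : ϖ ≠ 0 := ne_zero_of_ord_ne_zero v (by omega)
  have ht0 : t ≠ 0 := ne_zero_of_ord_ne_zero v ht.ne'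
  set e := (v.ord t).toNat with he
  have he' : v.ord t = e := (Int.toNat_of_nonneg ht.le).symm
  set u := t / ϖ ^ e with hu
  have hu_ord : v.ord u = 0 := by
    rw [hu, ord_div v ht0 (pow_ne_zero _ hϖ0), ord_pow, hϖ, he']
    ring
  have hu0 : u ≠ 0 := div_ne_zero ht0 (pow_ne_zero _ hϖ0)
  have htu : t = u * ϖ ^ e := by
    rw [hu]; field_simp
  obtain ⟨c, g, hg, hcg⟩ := exists_eq_const_add ht hu_ord.ge
  have hc : c ≠ 0 := by
    rintro rfl
    rw [map_zero, zero_add] at hcg
    rw [← hcg] at hg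
    rcases hg with h | h
    · exact hu0 h
    · omega
  refine ⟨c, hc, fun σ hσK hσ => ?_⟩
  have hιc : ι c ≠ 0 := (map_ne_zero ι).mpr hc
  have hlcu : (σ u).leadingCoeff = ι c := by
    rw [hcg, map_add, hσK]
    rcases hg with rfl | hg
    · rw [map_zero, add_zero, ls_leadingCoeff_C]
    · have hgo : 0 < (σ g).order := hσ.order_pos_of_ord_pos hg
      have hσg0 : σ g ≠ 0 := ls_ne_zero_of_order_ne_zero hgo.ne'
      have hlt : (HahnSeries.C (ι c) : LaurentSeries C).orderTop < (σ g).orderTop := by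
        rw [ls_orderTop_C hιc, ls_orderTop_eq_order hσg0]
        exact_mod_cast hgo
      rw [HahnSeries.leadingCoeff_add_eq_left hlt, ls_leadingCoeff_C]
  conv_lhs => rw [htu]
  rw [map_mul, map_pow, HahnSeries.leadingCoeff_mul, ls_leadingCoeff_pow, hlcu]

/-- **Fibre bound.** At most `e = v(t)` embeddings (over `K(t)`) induce the place `v`. -/
theorem card_induces_le [IsAlgClosed K] [CharZero C] {X : Type*} [Finite X] {t : F}
    (ht : 0 < v.ord t) [Algebra.IsAlgebraic (IntermediateField.adjoin K {t}) F]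
    (ι : K →+* C) (σ : X → (F →+* LaurentSeries C)) (hinj : Function.Injective σ)
    (hK : ∀ x c, σ x (algebraMap K F c) = HahnSeries.C (ι c))
    (hteq : ∀ x y, σ x t = σ y t) :
    Nat.card {x : X // Induces (σ x) v} ≤ (v.ord t).toNat := by
  classical
  obtain ⟨ϖ, hϖ⟩ := exists_ord_eq_one v
  obtain ⟨c, hc, hcσ⟩ := exists_const_leadingCoeff ht hϖ ι
  have hιc : ι c ≠ 0 := (map_ne_zero ι).mpr hc
  have he0 : 0 < (v.ord t).toNat := by omega
  rcases isEmpty_or_nonempty {x : X // Induces (σ x) v} with hemp | ⟨⟨x₀, hx₀⟩⟩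
  · simp
  set a : C := (σ x₀ t).leadingCoeff / ι c with ha
  have hmem : ∀ x : {x : X // Induces (σ x) v},
      (σ x.1 ϖ).leadingCoeff ∈ Polynomial.nthRootsFinset (v.ord t).toNat a := by
    intro x
    rw [Polynomial.mem_nthRootsFinset he0, ha, hteq x₀ x.1, hcσ (σ x.1) (hK x.1) x.2]
    field_simp
  let φ : {x : X // Induces (σ x) v} → Polynomial.nthRootsFinset (v.ord t).toNat a :=
    fun x => ⟨_, hmem x⟩
  have hφ : Function.Injective φ := by
    intro x y hxy
    have hlc : (σ x.1 ϖ).leadingCoeff = (σ y.1 ϖ).leadingCoeff := congrArg Subtype.val hxy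
    have := emb_eq_of_leadingCoeff_eq ht (hK x.1) (hK y.1) x.2 y.2 (hteq x.1 y.1) hϖ hlc
    exact Subtype.ext (hinj this)
  calc Nat.card {x : X // Induces (σ x) v}
      ≤ Nat.card (Polynomial.nthRootsFinset (v.ord t).toNat a) :=
        Nat.card_le_card_of_injective φ hφ
    _ = (Polynomial.nthRootsFinset (v.ord t).toNat a).card := Nat.card_eq_finsetCard _
    _ ≤ Multiset.card (Polynomial.nthRoots (v.ord t).toNat a) := by
        rw [Polynomial.nthRootsFinset_def]
        exact Multiset.toFinset_card_le _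
    _ ≤ (v.ord t).toNat := Polynomial.card_nthRoots _ _

end rigidity

end Fermat.Agent.S24.H504

end
-- ===== PACK-END S24/H504/Fibre.lean

-- ===== PACK-BEGIN S28/H88/PrimeLevel.lean
section
/-
S28 (Igusa) -- helper88: prime-level step [L2]: `j(q^p) ∉ k(j)` for `(p : k) ≠ 0`.
Inputs (explicit hypotheses): the unit polynomial `UnitPolyData p` and the θ-identity
`(θ j)^6 = Δ j^4 (j - 1728)^3` over `ℤ`.
-/


set_option autoImplicit false

noncomputable section

open ModularCurve HahnSeries

namespace Fermat.Agent.S28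

section KeyOrder

variable (k : Type*) [Field k]

/-- The coefficient of `q^{-deg P}` in `P(j)` is the leading coefficient of `P`. -/
theorem h88_coeff_aeval_jqModC (P : Polynomial k) :
    (Polynomial.aeval (jqModC k) P).coeff (-(P.natDegree : ℤ)) = P.leadingCoeff := by
  rw [Polynomial.aeval_eq_sum_range, HahnSeries.coeff_sum,
    Finset.sum_eq_single_of_mem P.natDegree (Finset.self_mem_range_succ _)]
  · rw [Algebra.smul_def, algebraMap_laurentSeries_eq_single, HahnSeries.coeff_single_zero_mul,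
      coeff_jqModC_pow_self, mul_one]; rfl
  · intro i hi hne
    have hlt : i < P.natDegree :=
      lt_of_le_of_ne (Nat.lt_succ_iff.mp (Finset.mem_range.mp hi)) hne
    rw [Algebra.smul_def, algebraMap_laurentSeries_eq_single, HahnSeries.coeff_single_zero_mul,
      coeff_jqModC_pow_of_lt k (by omega), mul_zero]

theorem h88_aeval_jqModC_injective :
    Function.Injective (Polynomial.aeval (jqModC k) : Polynomial k →ₐ[k] LaurentSeries k) := by
  rw [injective_iff_map_eq_zero]
  intro P hP
  have h := h88_coeff_aeval_jqModC k P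
  rw [hP, HahnSeries.coeff_zero] at h
  exact Polynomial.leadingCoeff_eq_zero.mp h.symm

theorem h88_order_aeval_jqModC_le {P : Polynomial k} (hP : P ≠ 0) :
    (Polynomial.aeval (jqModC k) P).order ≤ 0 := by
  have h : (Polynomial.aeval (jqModC k) P).coeff (-(P.natDegree : ℤ)) ≠ 0 := by
    rw [h88_coeff_aeval_jqModC]
    exact Polynomial.leadingCoeff_ne_zero.mpr hP
  have := HahnSeries.order_le_of_coeff_ne_zero h
  omega

theorem h88_jqModC_mem_jField : jqModC k ∈ jField k :=
  IntermediateField.subset_adjoin k _ (Set.mem_singleton _)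

/-- Chain rule: `θ` maps `k(j)` into `k(j) · θ j`. -/
theorem h88_chain_rule {x : LaurentSeries k} (hx : x ∈ jField k) :
    ∃ c ∈ jField k, thetaL k x = c * thetaL k (jqModC k) := by
  unfold jField at hx
  induction hx using IntermediateField.adjoin_induction with
  | mem x hx =>
    rw [Set.mem_singleton_iff] at hx; subst hx
    exact ⟨1, one_mem _, (one_mul _).symm⟩
  | algebraMap c =>
    refine ⟨0, zero_mem _, ?_⟩
    rw [zero_mul, algebraMap_laurentSeries_eq_single]
    exact h88_thetaL_single_zero c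
  | add x y hx hy ihx ihy =>
    obtain ⟨a, ha, hxa⟩ := ihx
    obtain ⟨b, hb, hyb⟩ := ihy
    exact ⟨a + b, add_mem ha hb, by rw [h88_thetaL_add, hxa, hyb, add_mul]⟩
  | inv x hx ih =>
    obtain ⟨a, ha, hxa⟩ := ih
    refine ⟨-a * x⁻¹ * x⁻¹, mul_mem (mul_mem (neg_mem ha) (inv_mem hx)) (inv_mem hx), ?_⟩
    by_cases hx0 : x = 0
    · subst hx0; simp [h88_thetaL_zero]
    · have h1 : thetaL k (x * x⁻¹) = 0 := by
        rw [mul_inv_cancel₀ hx0]; exact h88_thetaL_one
      rw [h88_thetaL_mul, hxa] at h1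
      have h2 : x * thetaL k x⁻¹ = -(a * thetaL k (jqModC k) * x⁻¹) :=
        eq_neg_of_add_eq_zero_right h1
      have h3 : thetaL k x⁻¹ = x⁻¹ * (x * thetaL k x⁻¹) := by
        rw [← mul_assoc, inv_mul_cancel₀ hx0, one_mul]
      rw [h3, h2]; ring
  | mul x y hx hy ihx ihy =>
    obtain ⟨a, ha, hxa⟩ := ihx
    obtain ⟨b, hb, hyb⟩ := ihy
    exact ⟨a * y + x * b, add_mem (mul_mem ha hy) (mul_mem hx hb), by
      rw [h88_thetaL_mul, hxa, hyb]; ring⟩

end KeyOrder

section DeltaCoeff

variable (R : Type*) [CommRing R]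

theorem h88_deltaL_coeff_of_le {m : ℤ} (hm : m ≤ 0) : (deltaL R).coeff m = 0 := by
  rw [deltaL, HahnSeries.coeff_single_mul, ofPowerSeries_coeff_of_neg _ (by omega), mul_zero]

theorem h88_deltaL_coeff_one : (deltaL R).coeff 1 = 1 := by
  rw [deltaL, HahnSeries.coeff_single_mul, sub_self, one_mul]
  have h := HahnSeries.ofPowerSeries_apply_coeff (Γ := ℤ)
    (dedekindEtaUnit.map (Int.castRingHom R)) 0
  rw [Nat.cast_zero] at h
  rw [h, PowerSeries.coeff_map, PowerSeries.coeff_zero_eq_constantCoeff,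
    constantCoeff_dedekindEtaUnit]
  simp

theorem h88_qExpand_deltaL_coeff_of_lt (p : ℕ) [NeZero p] {n : ℤ} (hn : n < p) :
    (qExpand R p (deltaL R)).coeff n = 0 := by
  by_cases hdvd : (p : ℤ) ∣ n
  · obtain ⟨m, rfl⟩ := hdvd
    rw [qExpand_coeff_mul]
    apply h88_deltaL_coeff_of_le
    by_contra hm
    rw [not_le] at hm
    have hp : (0 : ℤ) < p := by exact_mod_cast Nat.pos_of_ne_zero (NeZero.ne p)
    nlinarith
  · exact qExpand_coeff_of_not_dvd p _ hdvd

end DeltaCoeff

section Transport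

variable (k : Type*) [Field k]

theorem h88_coeffMap_comp_evalAt :
    (coeffMap (Int.castRingHom k)).comp (evalAt (jqModC ℤ)) = evalAt (jqModC k) := by
  apply Polynomial.ringHom_ext
  · intro a
    simp [evalAt]
  · simp [evalAt, coeffMap_jqModC]

/-- The θ-identity over `k`, transported from `ℤ`. -/
theorem h88_theta_identity_field
    (hθ : (thetaL ℤ (jqModC ℤ)) ^ 6 = deltaL ℤ * (jqModC ℤ) ^ 4 * (jqModC ℤ - 1728) ^ 3) :
    (thetaL k (jqModC k)) ^ 6 = deltaL k * (jqModC k) ^ 4 * (jqModC k - 1728) ^ 3 := by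
  have h := congrArg (coeffMap (Int.castRingHom k)) hθ
  simpa only [map_pow, _root_.map_mul, _root_.map_sub, h88_coeffMap_thetaL, coeffMap_jqModC,
    h88_coeffMap_deltaL, map_ofNat] using h

/-- The unit polynomial relation over `k`, transported from `ℤ`. -/
theorem h88_unitPoly_field (p : ℕ) [NeZero p] (W : UnitPolyData p) :
    W.W.eval₂ (evalAt (jqModC k)) ((p : LaurentSeries k) ^ 12 * unitL k p) = 0 := by
  have h := congrArg (coeffMap (Int.castRingHom k)) W.eval_unit
  rw [Polynomial.hom_eval₂, _root_.map_zero, _root_.map_mul, map_pow, map_natCast, h88_coeffMap_unitL,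
    h88_coeffMap_comp_evalAt] at h
  exact h

end Transport

section RatFuncEmbedding

variable (k : Type*) [Field k]

/-- The embedding `k(X) → k((q))`, `X ↦ j`. -/
def h88_iota : RatFunc k →ₐ[k] LaurentSeries k :=
  RatFunc.liftAlgHom (Polynomial.aeval (jqModC k))
    (nonZeroDivisors_le_comap_nonZeroDivisors_of_injective _ (h88_aeval_jqModC_injective k))

theorem h88_iota_injective : Function.Injective (h88_iota k) :=
  RatFunc.liftAlgHom_injective _ (h88_aeval_jqModC_injective k)

theorem h88_iota_algebraMap (P : Polynomial k) :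
    h88_iota k (algebraMap (Polynomial k) (RatFunc k) P) = Polynomial.aeval (jqModC k) P := by
  have h := RatFunc.liftAlgHom_apply_div (Polynomial.aeval (jqModC k))
    (nonZeroDivisors_le_comap_nonZeroDivisors_of_injective _ (h88_aeval_jqModC_injective k)) P 1
  simpa [h88_iota] using h

theorem h88_jField_le_range : jField k ≤ (h88_iota k).fieldRange := by
  unfold jField
  rw [IntermediateField.adjoin_le_iff]
  intro x hx
  rw [Set.mem_singleton_iff] at hx
  subst hx
  exact ⟨algebraMap (Polynomial k) (RatFunc k) Polynomial.X,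
    (h88_iota_algebraMap k Polynomial.X).trans (Polynomial.aeval_X _)⟩

/-- An element of `k(j)` which is a root of a monic polynomial with coefficients in the
image of `ℤ[j]` is a polynomial in `j`. -/
theorem h88_exists_poly_of_integral {w : LaurentSeries k} (hw : w ∈ jField k)
    (W : Polynomial (Polynomial ℤ)) (hW : W.Monic)
    (hroot : W.eval₂ (evalAt (jqModC k)) w = 0) :
    ∃ P : Polynomial k, w = Polynomial.aeval (jqModC k) P := by
  obtain ⟨r, hr⟩ := h88_jField_le_range k hw
  let ψ : Polynomial ℤ →+* Polynomial k := Polynomial.mapRingHom (Int.castRingHom k)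
  have hcomp : ((h88_iota k).toRingHom.comp (algebraMap (Polynomial k) (RatFunc k))).comp ψ
      = evalAt (jqModC k) := by
    apply Polynomial.ringHom_ext
    · intro a
      simp [ψ, evalAt]
    · show h88_iota k (algebraMap (Polynomial k) (RatFunc k)
          (Polynomial.map (Int.castRingHom k) Polynomial.X))
        = Polynomial.aeval (jqModC k) Polynomial.X
      rw [Polynomial.map_X, h88_iota_algebraMap, Polynomial.aeval_X]
      exact (Polynomial.aeval_X (R := ℤ) (jqModC k)).symm
  have hint : IsIntegral (Polynomial k) r := by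
    refine ⟨W.map ψ, hW.map ψ, ?_⟩
    apply h88_iota_injective k
    rw [_root_.map_zero, Polynomial.eval₂_map]
    have h2 := Polynomial.hom_eval₂ W ((algebraMap (Polynomial k) (RatFunc k)).comp ψ)
      (h88_iota k).toRingHom r
    rw [← RingHom.comp_assoc, hcomp, hr, hroot] at h2
    exact h2
  obtain ⟨P, hP⟩ := IsIntegrallyClosed.isIntegral_iff.mp hint
  refine ⟨P, ?_⟩
  rw [← h88_iota_algebraMap, hP]
  exact hr.symm

end RatFuncEmbedding

section Main

variable (k : Type*) [Field k]

theorem h88_natCast_mem_jField (n : ℕ) : (n : LaurentSeries k) ∈ jField k :=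
  natCast_mem _ n

theorem h88_natCast_ne_zero {p : ℕ} (hpk : (p : k) ≠ 0) : (p : LaurentSeries k) ≠ 0 := by
  have h : (p : LaurentSeries k) = algebraMap k (LaurentSeries k) (p : k) :=
    (map_natCast _ p).symm
  rw [h]
  exact (map_ne_zero (algebraMap k (LaurentSeries k))).mpr hpk

theorem h88_deltaL_ne_zero : deltaL k ≠ 0 := by
  intro h
  have := h88_deltaL_coeff_one k
  rw [h, HahnSeries.coeff_zero] at this
  exact zero_ne_one this

theorem h88_qExpand_jqModC_coeff (p : ℕ) [NeZero p] :
    (qExpand k p (jqModC k)).coeff (-(p : ℤ)) = 1 := by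
  have h := qExpand_coeff_mul (R := k) p (jqModC k) (-1)
  rw [coeff_jqModC_neg_one] at h
  rw [← h]
  congr 1
  ring

/-- **[L2]** For `(p : k) ≠ 0`, `p > 1`: `j(q^p) ∉ k(j)`. -/
theorem h88_jp_not_mem_jField (p : ℕ) [NeZero p] (hpk : (p : k) ≠ 0) (hp1 : 1 < p)
    (W : UnitPolyData p)
    (hθ : (thetaL ℤ (jqModC ℤ)) ^ 6 = deltaL ℤ * (jqModC ℤ) ^ 4 * (jqModC ℤ - 1728) ^ 3) :
    qExpand k p (jqModC k) ∉ jField k := by
  intro hmem
  have hθk := h88_theta_identity_field k hθ
  have hjmem := h88_jqModC_mem_jField k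
  have hp0 : (p : LaurentSeries k) ≠ 0 := h88_natCast_ne_zero k hpk
  have hpmem : (p : LaurentSeries k) ∈ jField k := h88_natCast_mem_jField k p
  have h1728 : (1728 : LaurentSeries k) ∈ jField k := by
    have := h88_natCast_mem_jField k 1728
    rwa [Nat.cast_ofNat] at this
  have hd := h88_deltaL_mul_deltaInvL k
  obtain ⟨c, hc, hcj⟩ := h88_chain_rule k hmem
  have h1 : thetaL k (qExpand k p (jqModC k))
      = (p : LaurentSeries k) * qExpand k p (thetaL k (jqModC k)) :=
    h88_thetaL_qExpand p (jqModC k)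
  have hVθ : (qExpand k p (thetaL k (jqModC k))) ^ 6
      = qExpand k p (deltaL k) * (qExpand k p (jqModC k)) ^ 4
        * (qExpand k p (jqModC k) - 1728) ^ 3 := by
    have h := congrArg (qExpand k p) hθk
    simpa only [map_pow, _root_.map_mul, _root_.map_sub, map_ofNat] using h
  have h2 : (p : LaurentSeries k) ^ 6 * (qExpand k p (deltaL k) * (qExpand k p (jqModC k)) ^ 4
        * (qExpand k p (jqModC k) - 1728) ^ 3)
      = c ^ 6 * (deltaL k * (jqModC k) ^ 4 * (jqModC k - 1728) ^ 3) := by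
    rw [← hVθ, ← hθk, ← mul_pow, ← mul_pow, ← h1, hcj]
  have h3 : (p : LaurentSeries k) ^ 6 * unitL k p * ((qExpand k p (jqModC k)) ^ 4
        * (qExpand k p (jqModC k) - 1728) ^ 3)
      = c ^ 6 * ((jqModC k) ^ 4 * (jqModC k - 1728) ^ 3) := by
    have h : (p : LaurentSeries k) ^ 6 * (qExpand k p (deltaL k) * (qExpand k p (jqModC k)) ^ 4
              * (qExpand k p (jqModC k) - 1728) ^ 3) * deltaInvL k
        = c ^ 6 * (deltaL k * (jqModC k) ^ 4 * (jqModC k - 1728) ^ 3) * deltaInvL k := by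
      rw [h2]
    unfold unitL
    calc _ = (p : LaurentSeries k) ^ 6 * (qExpand k p (deltaL k) * (qExpand k p (jqModC k)) ^ 4
              * (qExpand k p (jqModC k) - 1728) ^ 3) * deltaInvL k := by ring
      _ = c ^ 6 * (deltaL k * (jqModC k) ^ 4 * (jqModC k - 1728) ^ 3) * deltaInvL k := h
      _ = c ^ 6 * ((jqModC k) ^ 4 * (jqModC k - 1728) ^ 3) * (deltaL k * deltaInvL k) := by ring
      _ = _ := by rw [hd, mul_one]
  have hp_neg : (-(p : ℤ)) ≠ 0 := by
    have : (0 : ℤ) < p := by exact_mod_cast Nat.pos_of_ne_zero (NeZero.ne p)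
    omega
  have hVj : qExpand k p (jqModC k) ≠ 0 := by
    intro h
    have := h88_qExpand_jqModC_coeff k p
    rw [h, HahnSeries.coeff_zero] at this
    exact zero_ne_one this
  have hVj' : qExpand k p (jqModC k) - 1728 ≠ 0 := by
    intro h
    have h4 := h88_qExpand_jqModC_coeff k p
    have h5 : qExpand k p (jqModC k) = ((1728 : ℕ) : LaurentSeries k) := by
      rw [Nat.cast_ofNat]; exact sub_eq_zero.mp h
    have h6 : ((1728 : ℕ) : LaurentSeries k) = HahnSeries.single 0 ((1728 : ℕ) : k) := by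
      rw [← algebraMap_laurentSeries_eq_single, map_natCast]
    rw [h5, h6, HahnSeries.coeff_single_of_ne hp_neg] at h4
    exact zero_ne_one h4
  have hden : (p : LaurentSeries k) ^ 6 * ((qExpand k p (jqModC k)) ^ 4
        * (qExpand k p (jqModC k) - 1728) ^ 3) ≠ 0 :=
    mul_ne_zero (pow_ne_zero _ hp0) (mul_ne_zero (pow_ne_zero _ hVj) (pow_ne_zero _ hVj'))
  have hu : unitL k p ∈ jField k := by
    have h : unitL k p = c ^ 6 * ((jqModC k) ^ 4 * (jqModC k - 1728) ^ 3)
        * ((p : LaurentSeries k) ^ 6 * ((qExpand k p (jqModC k)) ^ 4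
          * (qExpand k p (jqModC k) - 1728) ^ 3))⁻¹ := by
      rw [eq_mul_inv_iff_mul_eq₀ hden, ← h3]; ring
    rw [h]
    exact mul_mem (mul_mem (pow_mem hc 6)
      (mul_mem (pow_mem hjmem 4) (pow_mem (sub_mem hjmem h1728) 3)))
      (inv_mem (mul_mem (pow_mem hpmem 6)
        (mul_mem (pow_mem hmem 4) (pow_mem (sub_mem hmem h1728) 3))))
  have hw : (p : LaurentSeries k) ^ 12 * unitL k p ∈ jField k :=
    mul_mem (pow_mem hpmem 12) hu
  obtain ⟨P, hP⟩ := h88_exists_poly_of_integral k hw W.W W.monic (h88_unitPoly_field k p W)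
  -- order contradiction
  have hwΔ : Polynomial.aeval (jqModC k) P * deltaL k
      = (p : LaurentSeries k) ^ 12 * qExpand k p (deltaL k) := by
    rw [← hP]
    unfold unitL
    calc _ = (p : LaurentSeries k) ^ 12 * qExpand k p (deltaL k) * (deltaL k * deltaInvL k) := by
          ring
      _ = _ := by rw [hd, mul_one]
  have hVΔ : qExpand k p (deltaL k) ≠ 0 := fun h =>
    h88_deltaL_ne_zero k (qExpand_injective p (by rw [h, _root_.map_zero]))
  have hrhs : (p : LaurentSeries k) ^ 12 * qExpand k p (deltaL k) ≠ 0 :=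
    mul_ne_zero (pow_ne_zero _ hp0) hVΔ
  have hP0 : P ≠ 0 := by
    intro h
    rw [h, _root_.map_zero, zero_mul] at hwΔ
    exact hrhs hwΔ.symm
  have hPj : Polynomial.aeval (jqModC k) P ≠ 0 := fun h =>
    hP0 (h88_aeval_jqModC_injective k (by rw [h, _root_.map_zero]))
  have hord : (Polynomial.aeval (jqModC k) P * deltaL k).order ≤ 1 := by
    rw [HahnSeries.order_mul hPj (h88_deltaL_ne_zero k)]
    have ha := h88_order_aeval_jqModC_le k hP0
    have hb : (deltaL k).order ≤ 1 := HahnSeries.order_le_of_coeff_ne_zero (by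
      rw [h88_deltaL_coeff_one]; exact one_ne_zero)
    omega
  have hne : (Polynomial.aeval (jqModC k) P * deltaL k).coeff
      (Polynomial.aeval (jqModC k) P * deltaL k).order ≠ 0 := by
    rw [Ne, HahnSeries.coeff_order_eq_zero]
    exact mul_ne_zero hPj (h88_deltaL_ne_zero k)
  have hlt : (Polynomial.aeval (jqModC k) P * deltaL k).order < (p : ℤ) := by
    have : (1 : ℤ) < p := by exact_mod_cast hp1
    omega
  have hzero : ∀ n : ℤ, n < p →
      ((p : LaurentSeries k) ^ 12 * qExpand k p (deltaL k)).coeff n = 0 := by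
    intro n hn
    rw [← Nat.cast_pow, ← nsmul_eq_mul, HahnSeries.coeff_smul,
      h88_qExpand_deltaL_coeff_of_lt k p hn, smul_zero]
  rw [hwΔ] at hne hlt
  exact hne (hzero _ hlt)

end Main

end Fermat.Agent.S28

end

end
-- ===== PACK-END S28/H88/PrimeLevel.lean

-- ===== PACK-BEGIN S28/H325/Glue.lean
section




/-!
# S28, piece [L-glue], part 2: from degree bounds to `CoreData`

Input: integrality of the `j(q^d)` over `ℤ[j]`, an upper bound `n` for the degree of
`F = ℚ(j(q^d) : d ∣ N)` over `ℚ(j)` and `n` elements of `K'(j(q^d) : d ∣ N)` which are linearly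
independent over `K'(j)` (for some field `K' ⊇ K`).  Output: `CoreData N K`.
-/

set_option autoImplicit false

noncomputable section

open ModularCurve HahnSeries Polynomial

namespace Fermat.Agent.S28.H325

/-- reduction of integral `q`-series to a ring `k`. -/
abbrev castL (k : Type*) [CommRing k] : LaurentSeries ℤ →+* LaurentSeries k :=
  coeffMap (Int.castRingHom k)

theorem castL_jqModC (k : Type*) [CommRing k] : castL k (jqModC ℤ) = jqModC k :=
  coeffMap_jqModC _

theorem castL_comp {k k' : Type*} [CommRing k] [CommRing k'] (φ : k →+* k')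
    (x : LaurentSeries ℤ) : coeffMap φ (castL k x) = castL k' x := by
  rw [castL, castL, coeffMap_coeffMap]
  exact coeffMap_congr (RingHom.ext_int _ _) x

theorem castL_image_intDivisorExpansions (k : Type*) [Field k] (N : ℕ) :
    castL k '' intDivisorExpansions N = divisorExpansionsC k N := by
  ext x
  constructor
  · rintro ⟨y, ⟨d, hd, hdN, rfl⟩, rfl⟩
    exact ⟨d, hd, hdN, by rw [castL, coeffMap_qExpand, coeffMap_jqModC]⟩
  · rintro ⟨d, hd, hdN, rfl⟩
    exact ⟨_, ⟨d, hd, hdN, rfl⟩, by rw [castL, coeffMap_qExpand, coeffMap_jqModC]⟩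

/-- `jField k` is `k(j)`. -/
theorem jField_eq (k : Type*) [Field k] : jField k = IntermediateField.adjoin k {jqModC k} := rfl

theorem jqModC_mem_jField (k : Type*) [Field k] : jqModC k ∈ jField k :=
  IntermediateField.subset_adjoin k _ (Set.mem_singleton _)

/-- The transfer theorem: linear independence over `K'(j)` of the reductions implies linear
independence over `K(j)` (for a subfield `K → K'`) and over `ℚ(j)`. -/
theorem linearIndependent_transfer {K K' : Type*} [Field K] [Field K'] (φ : K →+* K') {n : ℕ}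
    (Y : Fin n → LaurentSeries ℤ)
    (h : LinearIndependent (jField K') (fun i => castL K' (Y i))) :
    LinearIndependent (jField K) (fun i => castL K (Y i)) ∧
      LinearIndependent (jField ℚ) (fun i => castL ℚ (Y i)) := by
  have h1 : PolyIndep (jqModC K') (fun i => castL K' (Y i)) :=
    polyIndep_of_linearIndependent (fun P hP => (aeval_jqModC_eq_zero_iff K' P).mp hP) h
  constructor
  · apply linearIndependent_of_polyIndep
    apply PolyIndep.of_injective φ φ.injective
    rw [coeffMap_jqModC]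
    simpa only [castL_comp] using h1
  · have h2 : PolyIndep (jqModC ℤ) Y := by
      apply PolyIndep.int_of_field (k := K')
      rw [coeffMap_jqModC]
      exact h1
    have h3 := PolyIndep.rat_of_int h2
    rw [coeffMap_jqModC] at h3
    exact linearIndependent_of_polyIndep h3

/-! ### Integrality and the monomial spanning set -/

theorem castL_comp_evalAt (k : Type*) [CommRing k] :
    (castL k).comp (evalAt (jqModC ℤ)) = evalAt (jqModC k) := by
  refine Polynomial.ringHom_ext' (Subsingleton.elim _ _) ?_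
  simp [evalAt, castL_jqModC]

/-- `ℤ[X] → k(j)`, `X ↦ j`. -/
def evalJField (k : Type*) [Field k] : Polynomial ℤ →+* jField k :=
  Polynomial.eval₂RingHom (Int.castRingHom (jField k)) ⟨jqModC k, jqModC_mem_jField k⟩

theorem algebraMap_comp_evalJField (k : Type*) [Field k] :
    (algebraMap (jField k) (LaurentSeries k)).comp (evalJField k) = evalAt (jqModC k) := by
  refine Polynomial.ringHom_ext' (Subsingleton.elim _ _) ?_
  simp [evalAt, evalJField]

theorem isIntegral_jField_of_monic (k : Type*) [Field k] (d : ℕ) [NeZero d]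
    (h : ∃ P : Polynomial (Polynomial ℤ), P.Monic ∧
      P.eval₂ (evalAt (jqModC ℤ)) (qExpand ℤ d (jqModC ℤ)) = 0) :
    IsIntegral (jField k) (qExpand k d (jqModC k)) := by
  obtain ⟨P, hmonic, hP⟩ := h
  refine ⟨P.map (evalJField k), hmonic.map _, ?_⟩
  rw [Polynomial.eval₂_map, algebraMap_comp_evalJField, ← castL_comp_evalAt]
  have := congrArg (castL k) hP
  rw [Polynomial.hom_eval₂, _root_.map_zero, castL, coeffMap_qExpand, coeffMap_jqModC] at this
  exact this

/-- Under integrality, `k(j(q^d) : d ∣ N)` is spanned over `k(j)` by the monomials in the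
`j(q^d)`. -/
theorem mem_span_monomials_of_mem_full (k : Type*) [Field k] (N : ℕ) [NeZero N]
    (hint : ∀ (d : ℕ) [NeZero d], d ∣ N →
      ∃ P : Polynomial (Polynomial ℤ), P.Monic ∧
        P.eval₂ (evalAt (jqModC ℤ)) (qExpand ℤ d (jqModC ℤ)) = 0)
    {x : LaurentSeries k} (hx : x ∈ modularFunctionFieldFullC k N) :
    x ∈ Submodule.span (jField k)
      ((Submonoid.closure (divisorExpansionsC k N) : Submonoid (LaurentSeries k)) :
        Set (LaurentSeries k)) := by
  have halg : ∀ y ∈ divisorExpansionsC k N, IsAlgebraic (jField k) y := by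
    rintro y ⟨d, hd, hdN, rfl⟩
    exact (isIntegral_jField_of_monic k d (hint d hdN)).isAlgebraic
  have h1 : x ∈ IntermediateField.adjoin (jField k) (divisorExpansionsC k N) := by
    have h2 : modularFunctionFieldFullC k N ≤
        (IntermediateField.adjoin (jField k) (divisorExpansionsC k N)).restrictScalars k := by
      rw [modularFunctionFieldFullC, IntermediateField.adjoin_le_iff]
      intro y hy
      exact IntermediateField.subset_adjoin (jField k) _ hy
    exact h2 hx
  have h3 := IntermediateField.adjoin_toSubalgebra_of_isAlgebraic halg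
  have h4 : x ∈ (IntermediateField.adjoin (jField k) (divisorExpansionsC k N)).toSubalgebra := h1
  rw [h3] at h4
  have h5 := Algebra.adjoin_eq_span (R := jField k) (s := divisorExpansionsC k N)
  have h6 : x ∈ Subalgebra.toSubmodule (Algebra.adjoin (jField k) (divisorExpansionsC k N)) := h4
  rw [h5] at h6
  exact h6

theorem monomials_subset_full (k : Type*) [Field k] (N : ℕ) :
    ((Submonoid.closure (divisorExpansionsC k N) : Submonoid (LaurentSeries k)) :
        Set (LaurentSeries k)) ⊆ modularFunctionFieldFullC k N := by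
  intro x hx
  have : Submonoid.closure (divisorExpansionsC k N) ≤
      (modularFunctionFieldFullC k N).toSubalgebra.toSubmonoid := by
    rw [Submonoid.closure_le]
    intro y hy
    exact IntermediateField.subset_adjoin k _ hy
  exact this hx

theorem castL_image_closure (k : Type*) [Field k] (N : ℕ) :
    castL k '' ((Submonoid.closure (intDivisorExpansions N) : Submonoid (LaurentSeries ℤ)) :
        Set (LaurentSeries ℤ)) =
      ((Submonoid.closure (divisorExpansionsC k N) : Submonoid (LaurentSeries k)) :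
        Set (LaurentSeries k)) := by
  rw [← castL_image_intDivisorExpansions]
  have := MonoidHom.map_mclosure ((castL k : LaurentSeries ℤ →+* LaurentSeries k) :
    LaurentSeries ℤ →* LaurentSeries k) (intDivisorExpansions N)
  have h2 := congrArg (fun S : Submonoid (LaurentSeries k) => (S : Set (LaurentSeries k))) this
  simp only [Submonoid.coe_map] at h2
  exact h2

/-! ### Extraction of independent monomials -/

open Cardinal in
/-- If `k(j(q^d) : d ∣ N)` contains `n` elements linearly independent over `k(j)`, then there are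
`n` integral monomials in the `j(q^d)` whose reductions are linearly independent over `k(j)`. -/
theorem exists_monomials_linearIndependent (k : Type*) [Field k] (N : ℕ) [NeZero N]
    (hint : ∀ (d : ℕ) [NeZero d], d ∣ N →
      ∃ P : Polynomial (Polynomial ℤ), P.Monic ∧
        P.eval₂ (evalAt (jqModC ℤ)) (qExpand ℤ d (jqModC ℤ)) = 0)
    (n : ℕ)
    (hL : ∃ x : Fin n → LaurentSeries k, (∀ i, x i ∈ modularFunctionFieldFullC k N) ∧
      LinearIndependent (jField k) x) :
    ∃ Y : Fin n → LaurentSeries ℤ,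
      (∀ i, Y i ∈ Submonoid.closure (intDivisorExpansions N)) ∧
      LinearIndependent (jField k) (fun i => castL k (Y i)) := by
  classical
  obtain ⟨x, hxF, hxli⟩ := hL
  set T : Set (LaurentSeries k) :=
    ((Submonoid.closure (divisorExpansionsC k N) : Submonoid (LaurentSeries k)) :
        Set (LaurentSeries k)) with hT
  obtain ⟨b, hbT, hspan, hli⟩ := exists_linearIndependent (jField k) T
  have hxb : ∀ i, x i ∈ Submodule.span (jField k) b := fun i => by
    rw [hspan]
    exact mem_span_monomials_of_mem_full k N hint (hxF i)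
  have hli' : LinearIndependent (jField k)
      (fun i => (⟨x i, hxb i⟩ : Submodule.span (jField k) b)) := by
    apply LinearIndependent.of_comp (Submodule.span (jField k) b).subtype
    exact hxli
  have h1 := hli'.cardinal_lift_le_rank
  have h2 : Module.rank (jField k) (Submodule.span (jField k) b) = #b := rank_span_set hli
  rw [h2] at h1
  obtain ⟨e⟩ := Cardinal.lift_mk_le'.mp h1
  have hmem : ∀ i, ∃ Y : LaurentSeries ℤ,
      Y ∈ Submonoid.closure (intDivisorExpansions N) ∧ castL k Y = (e i : LaurentSeries k) := by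
    intro i
    have h3 : (e i : LaurentSeries k) ∈ T := hbT (e i).2
    rw [hT, ← castL_image_closure] at h3
    obtain ⟨Y, hY, hYe⟩ := h3
    exact ⟨Y, hY, hYe⟩
  choose Y hY hYe using hmem
  refine ⟨Y, hY, ?_⟩
  have h4 : (fun i => castL k (Y i)) = (fun z : b => (z : LaurentSeries k)) ∘ e := by
    funext i
    exact hYe i
  rw [h4]
  exact hli.comp e e.injective

/-! ### Assembly -/

/-- **Glue.** Degree bounds (upper bound `n` over `ℚ`, lower bound `n` over some field `K' ⊇ K`)
together with integrality of the `j(q^d)` produce `CoreData N K`. -/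
theorem coreData_of_bounds (N : ℕ) [NeZero N] (K : Type) [Field K] {K' : Type*} [Field K']
    (φ : K →+* K') (n : ℕ)
    (hint : ∀ (d : ℕ) [NeZero d], d ∣ N →
      ∃ P : Polynomial (Polynomial ℤ), P.Monic ∧
        P.eval₂ (evalAt (jqModC ℤ)) (qExpand ℤ d (jqModC ℤ)) = 0)
    (hU : ∀ (m : ℕ) (x : Fin m → LaurentSeries ℚ), (∀ i, x i ∈ modularFunctionFieldFull N) →
      LinearIndependent (jField ℚ) x → m ≤ n)
    (hL : ∃ x : Fin n → LaurentSeries K', (∀ i, x i ∈ modularFunctionFieldFullC K' N) ∧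
      LinearIndependent (jField K') x) :
    CoreData N K := by
  obtain ⟨Y, hY, hYli⟩ := exists_monomials_linearIndependent K' N hint n hL
  obtain ⟨hK, hQ⟩ := linearIndependent_transfer φ Y hYli
  refine ⟨⟨n, Y, ?_, ?_, hK⟩, fun d _ hd => hint d hd⟩
  · intro i
    have : Submonoid.closure (intDivisorExpansions N) ≤
        (Subring.closure (intDivisorExpansions N)).toSubmonoid := by
      rw [Submonoid.closure_le]
      exact Subring.subset_closure
    exact this (hY i)
  · intro x hx
    by_contra hxs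
    have hYF : ∀ i, castL ℚ (Y i) ∈ modularFunctionFieldFull N := by
      intro i
      have h1 : castL ℚ (Y i) ∈ castL ℚ ''
          ((Submonoid.closure (intDivisorExpansions N) : Submonoid (LaurentSeries ℤ)) :
            Set (LaurentSeries ℤ)) := ⟨Y i, hY i, rfl⟩
      rw [castL_image_closure] at h1
      exact monomials_subset_full ℚ N h1
    have hcons : LinearIndependent (jField ℚ)
        (Fin.cons x (fun i => castL ℚ (Y i)) : Fin (n + 1) → LaurentSeries ℚ) :=
      linearIndependent_finCons.mpr ⟨hQ, hxs⟩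
    have := hU (n + 1) _ (fun i => by
      refine Fin.cases ?_ (fun j => ?_) i
      · simpa using hx
      · simpa using hYF j) hcons
    omega

end Fermat.Agent.S28.H325

end
end
-- ===== PACK-END S28/H325/Glue.lean

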