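import Fermat.Prelude.Def_ModularCurve_HeckeModule
import Fermat.Prelude.Def_EllipticCurve_FrobeniusTrace
import Mathlib
import Fermat.Prelude.Def_ModularCurve_X0ModL
import Fermat.Agent.Pack.S33.E1L1
import Fermat.Agent.Pack.S33.E7L0
import Fermat.Agent.Pack.S33.E1L2
import Fermat.Agent.Pack.S33.E4L0
import Fermat.Agent.Pack.S33.E7L3
import Fermat.Agent.Pack.S33.E4L3
import Fermat.Agent.Pack.S33.E7L2
import Fermat.Agent.Pack.S33.E0L1
import Fermat.Agent.Pack.S33.E7L1
import Fermat.Agent.Pack.S33.E5L3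
import Fermat.Agent.Pack.S33.E8L2
import Fermat.Agent.Pack.S33.E1L0
import Fermat.Agent.Pack.S33.E8L0
import Fermat.Agent.Pack.S33.E5L2
import Fermat.Agent.Pack.S33.E8L3
import Fermat.Agent.Pack.S33.E8L1
import Fermat.Agent.Pack.S33.E2L3

-- ===== PACK-BEGIN S29/H222/ESKSpec.lean
section
/-
S29 / helper222 — piece ESK: the Eichler–Shimura input of layer M ("ES raw": inertia acts trivially
on `J₀(N)(ℚ̄)[m]`, Frobenius satisfies `σ² - T_ℓ σ + ℓ = 0` on `J₀(N)(ℚ̄)[m]`) DIRECTLY from the
S18 hub `CoreStatement N A m`, WITHOUT S37 (no special fibre, no place reduction map, no `J'`, no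
commutativity of Hecke operators).

This file: the interface (definitions + the two target statements as `Prop`s).
-/





set_option autoImplicit false

noncomputable section

namespace Fermat.Agent.S29.H222

open ModularCurve AlgebraicCurve HahnSeries
open Fermat.Agent.S18 (Qb IsInt toF CoreStatement)

/-- The absolute Galois group of `ℚ`. -/
abbrev GQ' : Type := Qb ≃ₐ[ℚ] Qb

/-- The norm along `α : F_N → F_{Nℓ}` (inclusion) of `β y` (`β = q ↦ q^ℓ`): the function whose
divisor is `T_ℓ (div y)` for the Prelude Hecke correspondence. -/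
def heckeNorm (N ℓ : ℕ) [NeZero N] [NeZero ℓ] (y : modularFunctionFieldBar N) :
    modularFunctionFieldBar N :=
  letI := algebraAlong (heckeAlphaBar Qb N ℓ)
  Algebra.norm (modularFunctionFieldBar N) (heckeBetaBar Qb N ℓ y)

/-- **NORM-ID** (piece NKI of the S37 row): the norm along `α` of `β y` has `q`-expansion the
formal Kronecker norm `V_ℓ y · det (secMat ℓ y)` (`Fermat.Agent.S37.H400.kronNorm`, on main). -/
def NormId (N ℓ : ℕ) [NeZero N] [NeZero ℓ] : Prop :=
  ∀ y : modularFunctionFieldBar N,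
    ((heckeNorm N ℓ y : modularFunctionFieldBar N) : LaurentSeries Qb)
      = Fermat.Agent.S37.H400.kronNorm ℓ (y : LaurentSeries Qb)

/-- Target (U): inertia at `A` acts trivially on the `m`-torsion of `J₀(N)(ℚ̄)`. -/
def InertiaTrivialOn (N : ℕ) (A : ValuationSubring Qb) (m : ℕ) : Prop :=
  ∀ τ ∈ A.inertiaSubgroupIn ℚ, ∀ x : JZero N, (m : ℤ) • x = 0 → τ • x = x

/-- Target (F): every Frobenius element at `A` satisfies the Eichler–Shimura relation
`σ² - T_ℓ σ + ℓ = 0` on the `m`-torsion of `J₀(N)(ℚ̄)` (`T_ℓ` = the RAW Prelude operator). -/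
def FrobQuadraticOn (N : ℕ) [NeZero N] (ℓ : ℕ) (hℓ : ℓ.Prime) (A : ValuationSubring Qb)
    (m : ℕ) : Prop :=
  ∀ σ : GQ', A.IsFrobeniusAt σ ℓ → ∀ x : JZero N, (m : ℤ) • x = 0 →
    σ • σ • x - heckeOperatorBar N ⟨ℓ, hℓ⟩ (σ • x) + (ℓ : ℤ) • x = 0

/-- The statement of piece ESK-U. -/
def ESKInertiaStatement : Prop :=
  ∀ (N : ℕ) [NeZero N] (m : ℕ), m ≠ 0 → ∀ A : ValuationSubring Qb,
    CoreStatement N A m → PrincipalGeneratedByIntegral A (IsLocalRing.residue A) N →
      InertiaTrivialOn N A m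

/-- The statement of piece ESK-F. -/
def ESKFrobStatement : Prop :=
  ∀ (N : ℕ) [NeZero N] (ℓ : ℕ) (hℓ : ℓ.Prime) (m : ℕ), m ≠ 0 → ∀ A : ValuationSubring Qb,
    A.LiesOverPrime ℓ →
    CoreStatement N A m → PrincipalGeneratedByIntegral A (IsLocalRing.residue A) N →
    (haveI : NeZero ℓ := ⟨hℓ.ne_zero⟩; HeckeInputsAlong Qb N ℓ) →
    (haveI : NeZero ℓ := ⟨hℓ.ne_zero⟩; NormId N ℓ) →
      FrobQuadraticOn N ℓ hℓ A m

end Fermat.Agent.S29.H222

end
end
-- ===== PACK-END S29/H222/ESKSpec.lean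

-- ===== PACK-BEGIN S28/H565/PolyPrinciple.lean
section






/-!
# S28 analytic bridge, part 4: the polynomial principle (helper565)

A holomorphic function on `ℍ` which is invariant under `SL(2, ℤ)` and has a convergent Laurent
expansion at `∞` (finitely many negative exponents) is a polynomial in `j`; consequently its
expansion is the same polynomial in the formal series `jqModC ℂ`.
-/

set_option autoImplicit false

noncomputable section

open UpperHalfPlane Complex Function Filter Topology ModularForm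
open scoped Real MatrixGroups Manifold

namespace Fermat.Agent.S28.H565

local notation "𝕢" => Periodic.qParam
local notation "Δ" => ModularForm.discriminant

theorem discriminant_slash (γ : SL(2, ℤ)) : (Δ ∣[(12 : ℤ)] γ) = Δ :=
  SlashInvariantForm.slash_action_generators_SL2Z discriminant_S_invariant
    discriminant_T_invariant γ

theorem discriminant_smul (γ : SL(2, ℤ)) (τ : ℍ) :
    Δ (γ • τ) = ((γ 1 0 : ℂ) * τ + (γ 1 1 : ℂ)) ^ (12 : ℤ) * Δ τ :=
  (slash_action_eq'_iff 12 Δ γ τ).mp (congrFun (discriminant_slash γ) τ)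

theorem E₄_smul (γ : SL(2, ℤ)) (τ : ℍ) :
    E₄ (γ • τ) = ((γ 1 0 : ℂ) * τ + (γ 1 1 : ℂ)) ^ (4 : ℤ) * E₄ τ := by
  have h : (⇑E₄ ∣[(4 : ℤ)] γ) = ⇑E₄ :=
    SlashInvariantForm.slash_action_eqn E₄ _ ⟨γ, rfl⟩
  exact (slash_action_eq'_iff 4 E₄ γ τ).mp (congrFun h τ)

theorem denom_ne_zero' (γ : SL(2, ℤ)) (τ : ℍ) : ((γ 1 0 : ℂ) * τ + (γ 1 1 : ℂ)) ≠ 0 := by
  have := UpperHalfPlane.denom_ne_zero (γ : GL (Fin 2) ℝ) τ
  simpa [UpperHalfPlane.denom] using this

/-- `j` is invariant under `SL(2, ℤ)`. -/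
theorem jFun_smul (γ : SL(2, ℤ)) (τ : ℍ) : jFun (γ • τ) = jFun τ := by
  have hd := denom_ne_zero' γ τ
  have hΔ := discriminant_ne_zero τ
  simp only [jFun]
  rw [discriminant_smul, E₄_smul]
  rw [mul_pow, ← zpow_natCast (((γ 1 0 : ℂ) * τ + (γ 1 1 : ℂ)) ^ (4 : ℤ)) 3, ← zpow_mul]
  norm_num
  field_simp

theorem mdifferentiable_discriminant : MDiff Δ := CuspForm.discriminant.holo'

theorem mdifferentiable_jFun : MDiff jFun := by
  have h1 : MDiff (fun τ => E₄ τ ^ 3) := (ModularFormClass.holo E₄).pow 3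
  exact h1.div mdifferentiable_discriminant discriminant_ne_zero

theorem E₄_pow_three (τ : ℍ) : E₄ τ ^ 3 = jFun τ * Δ τ := by
  rw [jFun, div_mul_cancel₀ _ (discriminant_ne_zero τ)]

theorem hasPExp_modularForm {k : ℤ} (G : ModularForm 𝒮ℒ k) :
    HasPExp 1 G (qExpansion 1 G) :=
  fun τ => ModularForm.hasSum_qExpansion G one_pos one_mem_strictPeriods_SL τ

theorem constantCoeff_e4C : PowerSeries.constantCoeff e4C = 1 := by
  rw [e4C, ← PowerSeries.coeff_zero_eq_constantCoeff, PowerSeries.coeff_map,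
    PowerSeries.coeff_zero_eq_constantCoeff, ModularCurve.constantCoeff_eisenstein4]
  simp

/-- Level one modular forms of weight `12 m` are of the form `Q(j) Δ^m` with `deg Q ≤ m`. -/
theorem exists_polynomial_of_modularForm (m : ℕ) : ∀ (k : ℤ), k = 12 * m →
    ∀ G : ModularForm 𝒮ℒ k,
      ∃ Q : Polynomial ℂ, Q.natDegree ≤ m ∧ ∀ τ, G τ = Q.eval (jFun τ) * Δ τ ^ m := by
  induction m with
  | zero =>
    intro k hk G
    have hk0 : k = 0 := by simpa using hk
    obtain ⟨c, hc⟩ := ModularFormClass.levelOne_weight_zero_const (ModularForm.mcast hk0 G)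
    refine ⟨Polynomial.C c, by simp, fun τ => ?_⟩
    have := congrFun hc τ
    simpa using this
  | succ m ih =>
    intro k hk G
    set c : ℂ := PowerSeries.coeff 0 (qExpansion 1 G) with hc
    have hw : ((3 * (m + 1) : ℕ) : ℤ) * 4 = k := by rw [hk]; push_cast; ring
    set E4pow : ModularForm 𝒮ℒ k := ModularForm.mcast hw (E₄.pow (3 * (m + 1))) with hE4pow
    have hE4pow_apply : ∀ τ, E4pow τ = E₄ τ ^ (3 * (m + 1)) := by
      intro τ
      rw [hE4pow, ModularForm.coe_mcast, ModularForm.coe_pow]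
      rfl
    set G₁ : ModularForm 𝒮ℒ k := G - c • E4pow with hG₁
    have hG₁_apply : ∀ τ, G₁ τ = G τ - c * E₄ τ ^ (3 * (m + 1)) := by
      intro τ
      simp [hG₁, hE4pow_apply]
    have hexp1 : HasPExp 1 G₁ (qExpansion 1 G - c • e4C ^ (3 * (m + 1))) := by
      refine ((hasPExp_modularForm G).sub ((hasPExp_E₄.pow (3 * (m + 1))).smul c)).congr ?_
      intro τ
      simp [hG₁_apply]
    have hq : qExpansion 1 G₁ = qExpansion 1 G - c • e4C ^ (3 * (m + 1)) :=
      (hasPExp_modularForm G₁).unique one_pos hexp1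
    have hcusp : PowerSeries.coeff 0 (qExpansion 1 G₁) = 0 := by
      rw [hq, map_sub, PowerSeries.coeff_smul, ← hc]
      simp [constantCoeff_e4C]
    have hw' : k - 12 = 12 * (m : ℤ) := by rw [hk]; push_cast; ring
    obtain ⟨Q', hQ'deg, hQ'⟩ := ih (k - 12) hw' (CuspForm.discriminantEquiv (G₁.toCuspForm hcusp))
    refine ⟨Polynomial.C c * Polynomial.X ^ (m + 1) + Q', ?_, fun τ => ?_⟩
    · refine (Polynomial.natDegree_add_le _ _).trans (max_le ?_ (hQ'deg.trans (Nat.le_succ m)))
      exact Polynomial.natDegree_C_mul_X_pow_le c (m + 1)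
    · have h1 := hQ' τ
      rw [CuspForm.discriminantEquiv_apply, ModularForm.toCuspForm_apply, hG₁_apply] at h1
      have hΔ := discriminant_ne_zero τ
      have h2 : G τ - c * E₄ τ ^ (3 * (m + 1)) = Q'.eval (jFun τ) * Δ τ ^ m * Δ τ := by
        rw [← h1, div_mul_cancel₀ _ hΔ]
      have h3 : E₄ τ ^ (3 * (m + 1)) = (jFun τ * Δ τ) ^ (m + 1) := by
        rw [pow_mul, E₄_pow_three]
      rw [h3] at h2
      simp only [Polynomial.eval_add, Polynomial.eval_mul, Polynomial.eval_C, Polynomial.eval_pow,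
        Polynomial.eval_X]
      linear_combination h2

/-- `q = t^N` for the parameters `q = exp (2πiτ)` and `t = exp (2πiτ/N)`. -/
theorem qParam_one_eq_pow (N : ℕ) (hN : N ≠ 0) (z : ℂ) : 𝕢 1 z = 𝕢 N z ^ N := by
  have h := qParam_mul_pow 1 N hN z 1
  rw [one_mul, mul_one, zpow_one, zpow_natCast] at h
  exact h.symm

theorem isBoundedAtImInfty_mul_discriminant_pow {N : ℕ} [NeZero N] {f : ℍ → ℂ}
    {φ : LaurentSeries ℂ} (hexp : HasTExp N f φ) (m : ℕ) (hm : 0 ≤ φ.order + N * m) :
    IsBoundedAtImInfty (fun τ => f τ * Δ τ ^ m) := by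
  have hN : (0 : ℝ) < N := by exact_mod_cast Nat.pos_of_ne_zero (NeZero.ne N)
  obtain ⟨k, hk⟩ := Int.eq_ofNat_of_zero_le hm
  have b1 := hexp.hasPExp.isBoundedAtImInfty hN
  have b2 := ((HasPExp.X (h := N)).pow k).isBoundedAtImInfty hN
  have b3 := ((hasPExp_eulerFun one_pos).pow (24 * m)).isBoundedAtImInfty one_pos
  have b := (b1.mul b2).mul b3
  have hfun : (fun τ : ℍ => f τ * Δ τ ^ m) =
      ((fun τ : ℍ => f τ * 𝕢 N τ ^ (-φ.order)) * ((fun τ : ℍ => 𝕢 N τ) ^ k)) *
        ((fun τ : ℍ => eulerFun (𝕢 1 τ)) ^ (24 * m)) := by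
    funext τ
    have ht : 𝕢 N (τ : ℂ) ≠ 0 := Periodic.qParam_ne_zero _
    simp only [Pi.mul_apply, Pi.pow_apply]
    rw [discriminant_eq_eulerFun, qParam_one_eq_pow N (NeZero.ne N)]
    have e1 : 𝕢 N (τ : ℂ) ^ (-φ.order) * 𝕢 N (τ : ℂ) ^ k = 𝕢 N (τ : ℂ) ^ (N * m) := by
      rw [← zpow_natCast (𝕢 N (τ : ℂ)) k, ← zpow_add₀ ht, ← hk, ← zpow_natCast]
      congr 1
      push_cast
      ring
    rw [mul_pow, ← pow_mul]
    linear_combination (-(f τ * eulerFun (𝕢 N (τ : ℂ) ^ N) ^ (24 * m))) * e1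
  rw [hfun]
  exact b

/-- **Polynomial principle.** A holomorphic `SL(2, ℤ)`-invariant function on `ℍ` with a
convergent Laurent expansion `φ` in `t = exp (2πiτ/N)` is a polynomial `Q` in `j`, and
`φ = Q (j(t^N))` as formal Laurent series. -/
theorem exists_polynomial_of_invariant {N : ℕ} [NeZero N] {f : ℍ → ℂ} {φ : LaurentSeries ℂ}
    (hf : MDiff f) (hinv : ∀ (γ : SL(2, ℤ)) (τ : ℍ), f (γ • τ) = f τ)
    (hexp : HasTExp N f φ) :
    ∃ Q : Polynomial ℂ, (∀ τ, f τ = Q.eval (jFun τ)) ∧
      φ = Polynomial.aeval (ModularCurve.qExpand ℂ N (ModularCurve.jqModC ℂ)) Q := by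
  have hN : (0 : ℝ) < N := by exact_mod_cast Nat.pos_of_ne_zero (NeZero.ne N)
  set m : ℕ := (-φ.order).toNat with hm
  have hm0 : 0 ≤ φ.order + N * m := by
    have h1 : -φ.order ≤ (m : ℤ) := Int.self_le_toNat _
    have h2 : (1 : ℤ) ≤ N := by exact_mod_cast Nat.pos_of_ne_zero (NeZero.ne N)
    nlinarith [Int.natCast_nonneg m]
  have hbdd := isBoundedAtImInfty_mul_discriminant_pow hexp m hm0
  have hslash : ∀ γ : SL(2, ℤ),
      ((fun τ => f τ * Δ τ ^ m) ∣[(12 * m : ℤ)] γ) = fun τ => f τ * Δ τ ^ m := by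
    intro γ
    funext τ
    rw [slash_action_eq'_iff, hinv, discriminant_smul, mul_pow, ← zpow_natCast
      (((γ 1 0 : ℂ) * τ + (γ 1 1 : ℂ)) ^ (12 : ℤ)) m, ← zpow_mul]
    ring
  let G : ModularForm 𝒮ℒ (12 * m) :=
    { toFun := fun τ => f τ * Δ τ ^ m
      slash_action_eq' := fun _ ⟨γ, hγ⟩ => hγ ▸ hslash γ
      holo' := hf.mul (mdifferentiable_discriminant.pow m)
      bdd_at_cusps' := fun {c} hc => by
        rw [Subgroup.IsArithmetic.isCusp_iff_isCusp_SL2Z] at hc
        rw [OnePoint.isBoundedAt_iff_forall_SL2Z hc]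
        intro γ _
        rw [hslash γ]
        exact hbdd }
  obtain ⟨Q, -, hQ⟩ := exists_polynomial_of_modularForm m _ rfl G
  have hfQ : ∀ τ, f τ = Q.eval (jFun τ) := by
    intro τ
    have h1 : f τ * Δ τ ^ m = Q.eval (jFun τ) * Δ τ ^ m := hQ τ
    exact mul_right_cancel₀ (pow_ne_zero m (discriminant_ne_zero τ)) h1
  refine ⟨Q, hfQ, ?_⟩
  have h1 : HasTExp N jFun (ModularCurve.qExpand ℂ N (ModularCurve.jqModC ℂ)) :=
    hasTExp_jFun.qExpand_one N
  have h2 := h1.polynomial_aeval Q
  have h3 : HasTExp N f (Polynomial.aeval (ModularCurve.qExpand ℂ N (ModularCurve.jqModC ℂ)) Q) :=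
    h2.congr fun τ => (hfQ τ).symm
  exact hexp.unique hN h3

end Fermat.Agent.S28.H565

end
end
-- ===== PACK-END S28/H565/PolyPrinciple.lean

-- ===== PACK-BEGIN S24/Alg/LocSurj.lean
section





/-!
# S24 / ALG-LOC, part 2 (LOC2): every place over `t = 0` is induced by an embedding

For local data `L : LocalData K F C X t` with `[F : F₀] = |X|` (`F₀ ⊆ K(t)`), every place `v` of
`F/K` with `ord_v t > 0` is the place cut out by one of the embeddings `L.σ x`.
-/

set_option autoImplicit false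

noncomputable section

open AlgebraicCurve Polynomial IntermediateField

namespace Fermat.Agent.S24.H144

variable {K F : Type*} [Field K] [Field F] [Algebra K F]
variable {C : Type*} [Field C] {X : Type*} {t : F}

theorem loc_order_const (L : LocalData K F C X t) (x : X) (c : K) :
    (L.σ x (algebraMap K F c)).order = 0 := by
  rw [L.σ_const]; exact HahnSeries.order_C

theorem loc_order_t_pos (L : LocalData K F C X t) (x : X) : 0 < (L.σ x t).order := by
  rw [L.σ_t_order]; exact_mod_cast L.m_pos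

theorem loc_isTVal (L : LocalData K F C X t) (x : X) :
    IsTVal K t (fun f => (L.σ x f).order) :=
  isTVal_order (L.σ x) (loc_order_const L x) (loc_order_t_pos L x)

/-- The place of `F` cut out by the embedding `L.σ x`. -/
def locPlace (L : LocalData K F C X t) (x : X) : Place K F :=
  placeOfEmb (L.σ x) (fun c => (loc_order_const L x c).ge)
    ⟨t⁻¹, by rw [loc_order_map_inv]; have := loc_order_t_pos L x; omega⟩

theorem loc_induces_locPlace (L : LocalData K F C X t) (x : X) :
    Induces (L.σ x) (locPlace L x) :=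
  induces_placeOfEmb _ _ _

theorem loc_mem_locPlace (L : LocalData K F C X t) (x : X) (f : F) :
    f ∈ (locPlace L x).toValuationSubring ↔ 0 ≤ (L.σ x f).order :=
  loc_induces_locPlace L x f

/-- All the embeddings `L.σ x` agree on `K(t)`. -/
theorem loc_agree (L : LocalData K F C X t) (x y : X) {c : F} (hc : c ∈ K⟮t⟯) :
    L.σ x c = L.σ y c := by
  induction hc using IntermediateField.adjoin_induction with
  | mem c hc =>
    rw [Set.mem_singleton_iff] at hc
    rw [hc]; exact L.σ_t_eq x y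
  | algebraMap c => rw [L.σ_const, L.σ_const]
  | add a b _ _ iha ihb => rw [_root_.map_add, _root_.map_add, iha, ihb]
  | inv a _ iha => rw [map_inv₀, map_inv₀, iha]
  | mul a b _ _ iha ihb => rw [_root_.map_mul, _root_.map_mul, iha, ihb]

/-- The subring of Laurent series of non-negative order. -/
def locPowerSubring (C : Type*) [Field C] : Subring (LaurentSeries C) :=
  (locValSubring (RingHom.id (LaurentSeries C))).toSubring

theorem mem_locPowerSubring {s : LaurentSeries C} : s ∈ locPowerSubring C ↔ 0 ≤ s.order :=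
  Iff.rfl

/-- **Integrality criterion.** If all conjugates `L.σ x u` have non-negative order, then `u` lies
in the valuation ring of every place `v` at which `t` vanishes. -/
theorem loc_mem_of_forall_order_nonneg [CharZero K] [Finite X] (L : LocalData K F C X t)
    (F₀ : IntermediateField K F) (hF₀ : F₀ ≤ K⟮t⟯) [FiniteDimensional F₀ F]
    (hrank : Module.finrank F₀ F = Nat.card X)
    (v : Place K F) (hv : 0 < v.ord t) (u : F) (hu : ∀ x, 0 ≤ (L.σ x u).order) :
    u ∈ v.toValuationSubring := by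
  classical
  -- `X` is nonempty
  have hX : Nonempty X := by
    have hpos : 0 < Module.finrank F₀ F := Module.finrank_pos
    rw [hrank] at hpos
    exact (Nat.card_pos_iff.mp hpos).1
  obtain ⟨x₀⟩ := hX
  have hagree : ∀ (x y : X) (c : F₀), L.σ x (algebraMap F₀ F c) = L.σ y (algebraMap F₀ F c) :=
    fun x y c => loc_agree L x y (hF₀ c.2)
  -- coefficients of the minimal polynomial have non-negative order
  have hcoeff : ∀ i, (algebraMap F₀ F ((minpoly F₀ u).coeff i)) ∈ v.toValuationSubring := by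
    intro i
    have h1 := loc_minpoly_coeff_mem (F₀ := F₀) L.σ L.σ_inj hagree hrank (locPowerSubring C) u
      (fun x => mem_locPowerSubring.mpr (hu x)) x₀ i
    rw [mem_locPowerSubring] at h1
    apply loc_mem_of_ord_nonneg
    exact loc_tval_nonneg (K := K) t (hF₀ ((minpoly F₀ u).coeff i).2) (loc_isTVal L x₀)
      (isTVal_ord v hv) h1
  -- hence `u` is integral over the valuation ring
  have hint : IsIntegral F₀ u := Algebra.IsIntegral.isIntegral u
  have hmonic : ((minpoly F₀ u).map (algebraMap F₀ F)).Monic := (minpoly.monic hint).map _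
  have hlift : (minpoly F₀ u).map (algebraMap F₀ F)
      ∈ Polynomial.lifts (algebraMap v.toValuationSubring F) := by
    rw [lifts_iff_coeff_lifts]
    intro i
    rw [coeff_map]
    exact ⟨⟨_, hcoeff i⟩, rfl⟩
  obtain ⟨q, hq, _, hqm⟩ := lifts_and_degree_eq_and_monic hlift hmonic
  have hroot : eval₂ (algebraMap v.toValuationSubring F) u q = 0 := by
    rw [← eval_map, hq, eval_map, ← aeval_def]
    exact minpoly.aeval F₀ u
  have hintv : IsIntegral v.toValuationSubring u := ⟨q, hqm, hroot⟩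
  obtain ⟨y, hy⟩ := IsIntegrallyClosed.isIntegral_iff.mp hintv
  rw [← hy]; exact y.2

/-- **LOC2.** Every place at which `t` vanishes is induced by one of the embeddings. -/
theorem loc_exists_emb [CharZero K] [Finite X] (L : LocalData K F C X t)
    (F₀ : IntermediateField K F) (hF₀ : F₀ ≤ K⟮t⟯) [FiniteDimensional F₀ F]
    (hrank : Module.finrank F₀ F = Nat.card X)
    (v : Place K F) (hv : 0 < v.ord t) : ∃ x, Induces (L.σ x) v := by
  classical
  by_contra hno
  have hne : ∀ x, v ≠ locPlace L x := by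
    intro x hx
    exact hno ⟨x, hx ▸ loc_induces_locPlace L x⟩
  have : Fintype X := Fintype.ofFinite X
  have hvS : v ∉ Finset.univ.image (locPlace L) := by
    intro h
    obtain ⟨x, _, hx⟩ := Finset.mem_image.mp h
    exact hne x hx.symm
  obtain ⟨u, huv, huS⟩ := loc_exists_pole_zeros v _ hvS
  have hu : ∀ x, 0 ≤ (L.σ x u).order := by
    intro x
    have h1 := huS (locPlace L x) (Finset.mem_image_of_mem _ (Finset.mem_univ x))
    exact (loc_mem_locPlace L x u).mp (loc_mem_of_ord_nonneg _ h1.le)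
  have := loc_ord_nonneg_of_mem v (loc_mem_of_forall_order_nonneg L F₀ hF₀ hrank v hv u hu)
  omega

end Fermat.Agent.S24.H144

end
end
-- ===== PACK-END S24/Alg/LocSurj.lean

-- ===== PACK-BEGIN S24/H504/FF1.lean
section



/-!
# The fundamental inequality `n ≤ ∑_{v | t} e_v` from local embedding data

Dedekind-free: every embedding `σ x` induces a place over `t = 0`, and at most `e_v = v(t)`
embeddings induce a given place `v` (rigidity, `card_induces_le`).
-/

set_option autoImplicit false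

namespace Fermat.Agent.S24.H504

open AlgebraicCurve

variable {K F : Type*} [Field K] [Field F] [Algebra K F]
variable {C : Type*} [Field C] {X : Type*} {t : F}

theorem LocalData.order_const_nonneg (L : LocalData K F C X t) (x : X) (c : K) :
    0 ≤ (L.σ x (algebraMap K F c)).order := by
  rw [L.σ_const, HahnSeries.order_C]

theorem LocalData.exists_order_ne_zero (L : LocalData K F C X t) (x : X) :
    ∃ f : F, (L.σ x f).order ≠ 0 :=
  ⟨t, by rw [L.σ_t_order]; exact_mod_cast L.m_pos.ne'⟩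

/-- The place of `F/K` induced by the embedding `σ x`. -/
noncomputable def LocalData.placeAt (L : LocalData K F C X t) (x : X) : Place K F :=
  placeOfEmb (L.σ x) (LocalData.order_const_nonneg L x) (LocalData.exists_order_ne_zero L x)

theorem LocalData.induces_placeAt (L : LocalData K F C X t) (x : X) :
    Induces (L.σ x) (LocalData.placeAt L x) :=
  induces_placeOfEmb _ _ _

theorem LocalData.ord_t_pos_of_induces (L : LocalData K F C X t) {x : X} {v : Place K F}
    (h : Induces (L.σ x) v) : 0 < v.ord t := by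
  have hm : 0 < (L.σ x t).order := by rw [L.σ_t_order]; exact_mod_cast L.m_pos
  have h1 := (h.order_nonneg_iff t).mp hm.le
  have h2 := (h.order_eq_zero_iff t).not.mp hm.ne'
  omega

theorem LocalData.placeAt_ord_t_pos (L : LocalData K F C X t) (x : X) :
    0 < (LocalData.placeAt L x).ord t :=
  LocalData.ord_t_pos_of_induces L (LocalData.induces_placeAt L x)

theorem LocalData.placeAt_eq_iff (L : LocalData K F C X t) (x : X) (v : Place K F) :
    LocalData.placeAt L x = v ↔ Induces (L.σ x) v :=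
  ⟨fun h => h ▸ LocalData.induces_placeAt L x,
    fun h => (LocalData.induces_placeAt L x).unique h⟩

/-- **Fibre bound** in `LocalData` language: at most `v(t)` of the embeddings induce `v`. -/
theorem LocalData.card_fibre_le [IsAlgClosed K] [CharZero C] [Finite X]
    [Algebra.IsAlgebraic (IntermediateField.adjoin K {t}) F]
    (L : LocalData K F C X t) (v : Place K F) (hv : 0 < v.ord t) :
    (Nat.card {x : X // Induces (L.σ x) v} : ℤ) ≤ v.ord t := by
  have := card_induces_le hv L.ι L.σ L.σ_inj L.σ_const L.σ_t_eq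
  have h2 : ((v.ord t).toNat : ℤ) = v.ord t := Int.toNat_of_nonneg hv.le
  rw [← h2]
  exact_mod_cast this

/-- **Fundamental inequality (FF1).** `n = #X ≤ ∑_{v over t = 0} v(t)`. -/
theorem LocalData.card_le_sum_ord [IsAlgClosed K] [CharZero C] [Finite X]
    [Algebra.IsAlgebraic (IntermediateField.adjoin K {t}) F]
    (L : LocalData K F C X t) (s : Finset (Place K F)) (hs : ∀ v, v ∈ s ↔ 0 < v.ord t) :
    (Nat.card X : ℤ) ≤ ∑ v ∈ s, v.ord t := by
  classical
  have := Fintype.ofFinite X
  have hmaps : ∀ x ∈ (Finset.univ : Finset X), LocalData.placeAt L x ∈ s :=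
    fun x _ => (hs _).mpr (LocalData.placeAt_ord_t_pos L x)
  have hcard := Finset.card_eq_sum_card_fiberwise hmaps
  rw [Nat.card_eq_fintype_card, ← Finset.card_univ, hcard]
  push_cast
  apply Finset.sum_le_sum
  intro v hv
  have hfib := LocalData.card_fibre_le L v ((hs v).mp hv)
  refine le_trans (le_of_eq ?_) hfib
  congr 1
  rw [Nat.card_eq_fintype_card, Fintype.card_subtype]
  congr 1
  ext x
  simp only [Finset.mem_filter, Finset.mem_univ, true_and]
  exact LocalData.placeAt_eq_iff L x v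

end Fermat.Agent.S24.H504

end
-- ===== PACK-END S24/H504/FF1.lean

-- ===== PACK-BEGIN S37/H700/GaussNorm.lean
section


/-!
# S37 / piece GAUSS (helper700): normal forms

* `exists_normaliser` : among finitely many elements of `L`, not all zero, one divides all
  the others in the valuation ring `A`.
* `normalize_family`  : a finite family of polynomials over `L`, not all zero, can be scaled
  into `A[X]` such that one member has nonzero reduction.
* `exists_denominator`: every element of the span satisfies `Q(j)·x = ∑ Pᵢ(j)·yᵢ`.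
-/

set_option autoImplicit false

noncomputable section

namespace Fermat.Agent.S37.H700

open ModularCurve HahnSeries Polynomial
open Fermat.Agent.S28 (jField intDivisorExpansions)

section Normalise

variable {L : Type*} [Field L] (A : ValuationSubring L)

theorem exists_normaliser (C : Finset L) (hC : ∃ x ∈ C, x ≠ 0) :
    ∃ x₀ ∈ C, x₀ ≠ 0 ∧ ∀ x ∈ C, x₀⁻¹ * x ∈ A := by
  obtain ⟨x₁, hx₁, hx₁0⟩ := hC
  obtain ⟨x₀, hx₀, hmax⟩ := Finset.exists_max_image C (fun x => A.valuation x) ⟨x₁, hx₁⟩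
  have hx₀0 : x₀ ≠ 0 := by
    intro h
    have h1 := hmax x₁ hx₁
    simp only [h, _root_.map_zero] at h1
    exact hx₁0 ((_root_.map_eq_zero _).mp (le_antisymm h1 zero_le))
  refine ⟨x₀, hx₀, hx₀0, fun x hx => ?_⟩
  rw [← A.valuation_le_one_iff, _root_.map_mul, map_inv₀]
  have hv0 : A.valuation x₀ ≠ 0 := (_root_.map_ne_zero _).mpr hx₀0
  rw [inv_mul_le_iff₀ (lt_of_le_of_ne zero_le hv0.symm), mul_one]
  exact hmax x hx

theorem exists_lift_of_coeff_mem (P : L[X]) (h : ∀ m, P.coeff m ∈ A) :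
    ∃ P' : Polynomial A, P'.map A.subtype = P := by
  have : P ∈ Polynomial.lifts A.subtype := by
    rw [Polynomial.lifts_iff_coeff_lifts]
    intro m
    exact ⟨⟨P.coeff m, h m⟩, rfl⟩
  exact (Polynomial.mem_lifts P).mp this

theorem normalize_family {ι : Type*} [Fintype ι] (P : ι → L[X]) (h : ∃ i, P i ≠ 0) :
    ∃ c : L, c ≠ 0 ∧ ∃ P' : ι → Polynomial A,
      (∀ i, (P' i).map A.subtype = Polynomial.C c * P i) ∧
      ∃ i, (P' i).map (IsLocalRing.residue A) ≠ 0 := by
  classical
  set C : Finset L := Finset.univ.biUnion (fun i => (P i).coeffs) with hCdef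
  have hCne : ∃ x ∈ C, x ≠ 0 := by
    obtain ⟨i, hi⟩ := h
    refine ⟨(P i).leadingCoeff, ?_, Polynomial.leadingCoeff_ne_zero.mpr hi⟩
    rw [hCdef, Finset.mem_biUnion]
    exact ⟨i, Finset.mem_univ _, Polynomial.coeff_mem_coeffs (Polynomial.leadingCoeff_ne_zero.mpr hi)⟩
  obtain ⟨x₀, hx₀C, hx₀0, hx₀⟩ := exists_normaliser A C hCne
  have hcoeff : ∀ i m, x₀⁻¹ * (P i).coeff m ∈ A := by
    intro i m
    by_cases hz : (P i).coeff m = 0
    · rw [hz, mul_zero]; exact A.zero_mem
    · apply hx₀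
      rw [hCdef, Finset.mem_biUnion]
      exact ⟨i, Finset.mem_univ _, Polynomial.coeff_mem_coeffs hz⟩
  have hlift : ∀ i, ∃ P' : Polynomial A, P'.map A.subtype = Polynomial.C x₀⁻¹ * P i := by
    intro i
    apply exists_lift_of_coeff_mem
    intro m
    rw [Polynomial.coeff_C_mul]
    exact hcoeff i m
  choose P' hP' using hlift
  refine ⟨x₀⁻¹, inv_ne_zero hx₀0, P', hP', ?_⟩
  rw [hCdef, Finset.mem_biUnion] at hx₀C
  obtain ⟨i₀, -, hi₀⟩ := hx₀C
  rw [Polynomial.mem_coeffs_iff] at hi₀
  obtain ⟨m₀, -, hm₀⟩ := hi₀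
  refine ⟨i₀, fun hzero => ?_⟩
  have h1 : ((P' i₀).coeff m₀ : L) = 1 := by
    have := congrArg (fun p => Polynomial.coeff p m₀) (hP' i₀)
    simp only [Polynomial.coeff_map, Polynomial.coeff_C_mul] at this
    rw [← hm₀, inv_mul_cancel₀ hx₀0] at this
    exact this
  have h2 : (P' i₀).coeff m₀ = 1 := Subtype.ext h1
  have h3 := congrArg (fun p => Polynomial.coeff p m₀) hzero
  simp only [Polynomial.coeff_map, Polynomial.coeff_zero, h2, _root_.map_one] at h3
  exact one_ne_zero h3

end Normalise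

section Denominator

variable (L : Type*) [Field L] {n : ℕ} (y : Fin n → LaurentSeries ℤ)

/-- Every element of the `L(j)`-span has a polynomial denominator. -/
theorem exists_denominator {x : LaurentSeries L} (hx : x ∈ spanL L y) :
    ∃ (Q : L[X]) (P : Fin n → L[X]), Q ≠ 0 ∧
      evalJ L Q * x = ∑ i, evalJ L (P i) * coeffMap (Int.castRingHom L) (y i) := by
  classical
  induction hx using Submodule.span_induction with
  | mem x hx =>
    obtain ⟨i, rfl⟩ := hx
    refine ⟨1, fun j => if j = i then 1 else 0, one_ne_zero, ?_⟩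
    rw [evalJ_one, one_mul, Finset.sum_eq_single i]
    · simp [evalJ_one]
    · intro j _ hj
      simp [hj, evalJ_zero]
    · intro h
      exact absurd (Finset.mem_univ i) h
  | zero =>
    exact ⟨1, fun _ => 0, one_ne_zero, by simp [evalJ_zero]⟩
  | add x z _ _ hx hz =>
    obtain ⟨Q₁, P₁, hQ₁, h₁⟩ := hx
    obtain ⟨Q₂, P₂, hQ₂, h₂⟩ := hz
    refine ⟨Q₁ * Q₂, fun i => Q₂ * P₁ i + Q₁ * P₂ i, mul_ne_zero hQ₁ hQ₂, ?_⟩
    simp only [evalJ_mul, evalJ_add, add_mul, Finset.sum_add_distrib, mul_assoc]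
    rw [← Finset.mul_sum, ← Finset.mul_sum, ← h₁, ← h₂]
    ring
  | smul c x _ hx =>
    obtain ⟨Q, P, hQ, h⟩ := hx
    obtain ⟨r, s, hs, hrs⟩ := exists_evalJ_of_mem_jField L c.2
    refine ⟨s * Q, fun i => r * P i, mul_ne_zero hs hQ, ?_⟩
    simp only [evalJ_mul, mul_assoc]
    rw [← Finset.mul_sum, ← h, smul_jField_def, ← hrs]
    ring

end Denominator

end Fermat.Agent.S37.H700

end
end
-- ===== PACK-END S37/H700/GaussNorm.lean

-- ===== PACK-BEGIN S28/H626/Tower.lean
section
/-
S28 helper (helper626): generation of `k(j(q^d) : d ∣ Mp)` over `k(j(q^d) : d ∣ M)` by a single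
element, and the degree bounds `≤ p + 1` (`p ∤ M`), `≤ p` (`p ∣ M`).
-/




set_option autoImplicit false

noncomputable section

open ModularCurve HahnSeries Polynomial IntermediateField

namespace Fermat.Agent.S28.H626

section Hyp

variable (k : Type*) [Field k]

/-- Hypothesis package for level `N`: every prime `p ∣ N` is invertible in `k` and has a
modular polynomial. -/
def HasModPolys (N : ℕ) : Prop :=
  ∀ p (hp : p.Prime), p ∣ N →
    (p : k) ≠ 0 ∧ ∃ Φ : Polynomial (Polynomial ℤ), @IsModPoly p ⟨hp.ne_zero⟩ Φ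

variable {k}

theorem HasModPolys.mono {N M : ℕ} (H : HasModPolys k N) (h : M ∣ N) : HasModPolys k M :=
  fun p hp hpM => H p hp (hpM.trans h)

end Hyp

section Generation

variable {k : Type*} [Field k]

/-- **Generation.** If an intermediate field `E` contains `j(q^d)` for all `d ∣ M` and
`j(q^{p^{b+1}})` for the exact power `p^b ∥ M`, then it contains `j(q^d)` for all `d ∣ M p`. -/
theorem jd_mem_of_gen {M p : ℕ} (hp : p.Prime) (H : HasModPolys k (M * p))
    (E : IntermediateField k (LaurentSeries k))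
    (h1 : ∀ (d : ℕ) [NeZero d], d ∣ M → jd k d ∈ E)
    (h2 : ∀ (b : ℕ) [NeZero (p ^ (b + 1))], p ^ b ∣ M → ¬ p ^ (b + 1) ∣ M →
      jd k (p ^ (b + 1)) ∈ E) :
    ∀ (d : ℕ) [NeZero d], d ∣ M * p → jd k d ∈ E := by
  intro d
  induction d using Nat.strong_induction_on with
  | _ d ih =>
    intro inst hd
    by_cases hdM : d ∣ M
    · exact h1 d hdM
    have hpd : p ∣ d := by
      by_contra hpd
      have hcop : Nat.Coprime d p := ((Nat.Prime.coprime_iff_not_dvd hp).2 hpd).symm
      exact hdM (hcop.dvd_of_dvd_mul_right hd)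
    obtain ⟨g, rfl⟩ := hpd
    have hg0 : g ≠ 0 := by
      rintro rfl
      exact (NeZero.ne (p * 0)) (mul_zero p)
    have hgM : g ∣ M := by
      rw [mul_comm M p] at hd
      exact Nat.dvd_of_mul_dvd_mul_left hp.pos hd
    have : NeZero p := ⟨hp.ne_zero⟩
    by_cases hg : ∃ r, r.Prime ∧ r ∣ g ∧ r ≠ p
    · obtain ⟨r, hr, ⟨e, rfl⟩, hrp⟩ := hg
      have he0 : e ≠ 0 := by
        rintro rfl
        exact hg0 (mul_zero r)
      have : NeZero r := ⟨hr.ne_zero⟩
      have : NeZero e := ⟨he0⟩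
      have hrM : r ∣ M * p := (Dvd.intro e rfl : r ∣ r * e).trans (hgM.trans (Dvd.intro p rfl))
      obtain ⟨hpk, Φp, hΦp⟩ := H p hp (Dvd.intro_left M rfl)
      obtain ⟨hrk, Φr, hΦr⟩ := H r hr hrM
      have : NeZero (p : k) := ⟨hpk⟩
      have : NeZero (r : k) := ⟨hrk⟩
      have m1 : jd k (r * e) ∈ E := h1 (r * e) hgM
      have m2 : jd k (p * e) ∈ E := by
        refine ih (p * e) ?_ ?_
        · have : e < r * e := by
            have := hr.one_lt
            have he : 0 < e := Nat.pos_of_ne_zero he0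
            nlinarith
          exact Nat.mul_lt_mul_of_pos_left this hp.pos
        · refine Dvd.dvd.trans ?_ hd
          exact mul_dvd_mul_left p (Dvd.intro_left r rfl)
      have := jd_mem_of_pair hp hr hrp.symm hΦp hΦr e E m1 m2
      rwa [jd_congr k (show p * r * e = p * (r * e) by ring)] at this
    · have hg' : ∀ {r : ℕ}, r.Prime → r ∣ g → r = p := by
        intro r hr hrg
        by_contra hne
        exact hg ⟨r, hr, hrg, hne⟩
      have hgp := Nat.eq_prime_pow_of_unique_prime_dvd hg0 hg'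
      set b := g.primeFactorsList.length with hb
      have hd' : p * g = p ^ (b + 1) := by rw [pow_succ, mul_comm, ← hgp]
      have : NeZero (p ^ (b + 1)) := ⟨pow_ne_zero _ hp.ne_zero⟩
      rw [jd_congr k hd']
      refine h2 b ?_ ?_
      · rw [← hgp]; exact hgM
      · rw [← hd']; exact hdM

end Generation

/-! ### Degree of a simple extension, in `relrank` form -/

section Degree

variable {K L : Type*} [Field K] [Field L] [Algebra K L]

/-- If `A ≤ B ≤ A(x)`, `x ∈ B` and `x` is a root of a monic `P ∈ A[X]`, then `[B : A] ≤ deg P`. -/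
theorem relrank_le_natDegree (A B : IntermediateField K L) (hAB : A ≤ B)
    (x : L) (P : Polynomial A) (hP : P.Monic) (hx : Polynomial.aeval x P = 0)
    (hB : B ≤ (IntermediateField.adjoin A {x}).restrictScalars K) (hxB : x ∈ B) :
    IntermediateField.relrank A B ≤ (P.natDegree : Cardinal) := by
  have hint : IsIntegral A x := ⟨P, hP, hx⟩
  have hBeq : B = (IntermediateField.adjoin A {x}).restrictScalars K := by
    refine le_antisymm hB ?_
    rw [IntermediateField.restrictScalars_adjoin_eq_sup]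
    refine sup_le hAB ?_
    rw [IntermediateField.adjoin_le_iff]
    intro y hy
    rw [Set.mem_singleton_iff] at hy
    rw [hy]
    exact hxB
  rw [IntermediateField.relrank_eq_rank_of_le hAB]
  have hext : IntermediateField.extendScalars hAB = IntermediateField.adjoin A {x} := by
    ext y
    rw [IntermediateField.mem_extendScalars, hBeq]
    rfl
  rw [hext]
  have := IntermediateField.adjoin.finiteDimensional hint
  rw [← Module.finrank_eq_rank, IntermediateField.adjoin.finrank hint, Nat.cast_le]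
  exact Polynomial.natDegree_le_natDegree (minpoly.degree_le_of_ne_zero A x hP.ne_zero hx)

end Degree

/-! ### The tower steps -/

section Steps

variable {k : Type*} [Field k]

theorem jd_mem_full (N : ℕ) [NeZero N] (d : ℕ) [NeZero d] (hd : d ∣ N) :
    jd k d ∈ modularFunctionFieldFullC k N :=
  jqModCd_mem_full k N hd

theorem full_le_of_forall_mem (N : ℕ) [NeZero N] (E : IntermediateField k (LaurentSeries k))
    (h : ∀ (d : ℕ) [NeZero d], d ∣ N → jd k d ∈ E) : modularFunctionFieldFullC k N ≤ E := by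
  rw [modularFunctionFieldFullC, IntermediateField.adjoin_le_iff]
  rintro x ⟨d, hne, hdvd, rfl⟩
  exact h d hdvd

theorem jd_one : jd k 1 = jqModC k := qExpand_one_apply _

/-- uniqueness of the exact exponent -/
theorem exact_pow_unique {p M a b : ℕ} (ha : p ^ a ∣ M) (ha' : ¬ p ^ (a + 1) ∣ M)
    (hb : p ^ b ∣ M) (hb' : ¬ p ^ (b + 1) ∣ M) : b = a := by
  rcases lt_trichotomy b a with h | h | h
  · exact absurd ((pow_dvd_pow p (Nat.succ_le_of_lt h)).trans ha) hb'
  · exact h
  · exact absurd ((pow_dvd_pow p (Nat.succ_le_of_lt h)).trans hb) ha'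

/-- **Generation, packaged.** `k(j_d : d ∣ Mp) ≤ k(j_d : d ∣ M)(j_{p^{a+1}})` for `p^a ∥ M`. -/
theorem full_mul_le_adjoin {M p a : ℕ} [NeZero M] [NeZero (M * p)] [NeZero (p ^ (a + 1))]
    (hp : p.Prime) (H : HasModPolys k (M * p))
    (ha : p ^ a ∣ M) (ha' : ¬ p ^ (a + 1) ∣ M) :
    modularFunctionFieldFullC k (M * p) ≤
      (IntermediateField.adjoin (modularFunctionFieldFullC k M)
        {jd k (p ^ (a + 1))}).restrictScalars k := by
  refine full_le_of_forall_mem (M * p) _ ?_
  refine jd_mem_of_gen hp H _ ?_ ?_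
  · intro d _ hd
    rw [IntermediateField.mem_restrictScalars]
    exact IntermediateField.algebraMap_mem _ (⟨jd k d, jd_mem_full M d hd⟩ :
      modularFunctionFieldFullC k M)
  · intro b _ hb hb'
    have hba : b = a := exact_pow_unique ha ha' hb hb'
    subst hba
    rw [IntermediateField.mem_restrictScalars]
    exact IntermediateField.subset_adjoin _ _ (Set.mem_singleton _)

/-- **Step, `p ∤ M`**: `[k(j_d : d ∣ Mp) : k(j_d : d ∣ M)] ≤ p + 1`. -/
theorem relrank_full_step_of_not_dvd {M p : ℕ} [NeZero M] [NeZero (M * p)]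
    (hp : p.Prime) (H : HasModPolys k (M * p)) (hpM : ¬ p ∣ M) :
    IntermediateField.relrank (modularFunctionFieldFullC k M)
      (modularFunctionFieldFullC k (M * p)) ≤ ((p + 1 : ℕ) : Cardinal) := by
  have instp : NeZero p := ⟨hp.ne_zero⟩
  have instp1 : NeZero (p ^ (0 + 1)) := ⟨pow_ne_zero _ hp.ne_zero⟩
  obtain ⟨-, Φ, hΦ⟩ := H p hp (Dvd.intro_left M rfl)
  have hAB : modularFunctionFieldFullC k M ≤ modularFunctionFieldFullC k (M * p) :=
    full_degeneracyC_le k (Dvd.intro p rfl)
  have hj : jqModC k ∈ modularFunctionFieldFullC k M := jqModC_mem_full k M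
  have hx : jd k (p ^ (0 + 1)) = jd k p := jd_congr k (by simp)
  have key := relrank_le_natDegree (modularFunctionFieldFullC k M)
    (modularFunctionFieldFullC k (M * p)) hAB (jd k (p ^ (0 + 1)))
    (spec Φ (⟨jqModC k, hj⟩ : modularFunctionFieldFullC k M)) (spec_monic hΦ.monic _) ?_
    (full_mul_le_adjoin hp H (by simp) (by simpa using hpM)) ?_
  · rwa [spec_natDegree hΦ.monic, hΦ.natDegree_eq] at key
  · rw [Polynomial.aeval_def, Polynomial.eval₂_eq_eval_map, map_spec, eval_spec, hx]
    show ev2 Φ (jqModC k) (jd k p) = 0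
    have := ev2_jd_up (k := k) hΦ 1
    rwa [jd_one, jd_congr k (one_mul p)] at this
  · rw [hx]
    exact jd_mem_full (M * p) p (Dvd.intro_left M rfl)

/-- **Step, `p ∣ M`**: `[k(j_d : d ∣ Mp) : k(j_d : d ∣ M)] ≤ p`. -/
theorem relrank_full_step_of_dvd {M p : ℕ} [NeZero M] [NeZero (M * p)]
    (hp : p.Prime) (H : HasModPolys k (M * p)) (hpM : p ∣ M) :
    IntermediateField.relrank (modularFunctionFieldFullC k M)
      (modularFunctionFieldFullC k (M * p)) ≤ ((p : ℕ) : Cardinal) := by
  classical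
  have instp : NeZero p := ⟨hp.ne_zero⟩
  obtain ⟨-, Φ, hΦ⟩ := H p hp (Dvd.intro_left M rfl)
  -- the exact exponent
  obtain ⟨a, M', hM', hMeq⟩ := Nat.exists_eq_pow_mul_and_not_dvd (NeZero.ne M) p hp.ne_one
  have ha : p ^ a ∣ M := ⟨M', hMeq⟩
  have ha' : ¬ p ^ (a + 1) ∣ M := by
    rintro ⟨c, hc⟩
    apply hM'
    have h3 : p ^ a * M' = p ^ a * (p * c) := by rw [← hMeq, hc, pow_succ]; ring
    exact ⟨c, Nat.eq_of_mul_eq_mul_left (pow_pos hp.pos a) h3⟩
  have ha1 : a ≠ 0 := by
    rintro rfl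
    apply hM'
    rw [pow_zero, one_mul] at hMeq
    rwa [← hMeq]
  obtain ⟨a', rfl⟩ := Nat.exists_eq_succ_of_ne_zero ha1
  have inst1 : NeZero (p ^ (a' + 1 + 1)) := ⟨pow_ne_zero _ hp.ne_zero⟩
  have inst2 : NeZero (p ^ (a' + 1)) := ⟨pow_ne_zero _ hp.ne_zero⟩
  have inst3 : NeZero (p ^ a') := ⟨pow_ne_zero _ hp.ne_zero⟩
  have hAB : modularFunctionFieldFullC k M ≤ modularFunctionFieldFullC k (M * p) :=
    full_degeneracyC_le k (Dvd.intro p rfl)
  have hy : jd k (p ^ (a' + 1)) ∈ modularFunctionFieldFullC k M := jd_mem_full M _ ha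
  have hz : jd k (p ^ a') ∈ modularFunctionFieldFullC k M :=
    jd_mem_full M _ ((pow_dvd_pow p (Nat.le_succ a')).trans ha)
  set y' : modularFunctionFieldFullC k M := ⟨jd k (p ^ (a' + 1)), hy⟩ with hy'
  set z' : modularFunctionFieldFullC k M := ⟨jd k (p ^ a'), hz⟩ with hz'
  set x : LaurentSeries k := jd k (p ^ (a' + 1 + 1)) with hxdef
  -- `z'` is a root of `P₀ = Φ(y', X)`
  have hroot : (spec Φ y').IsRoot z' := by
    rw [Polynomial.IsRoot, eval_spec]
    apply (algebraMap (modularFunctionFieldFullC k M) (LaurentSeries k)).injective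
    rw [map_ev2, _root_.map_zero]
    show ev2 Φ (jd k (p ^ (a' + 1))) (jd k (p ^ a')) = 0
    have := ev2_jd_down (k := k) hΦ (p ^ a')
    rwa [jd_congr k (show p ^ a' * p = p ^ (a' + 1) from (pow_succ p a').symm)] at this
  have hfac : (Polynomial.X - Polynomial.C z') * (spec Φ y' /ₘ (Polynomial.X - Polynomial.C z')) = spec Φ y' :=
    Polynomial.mul_divByMonic_eq_iff_isRoot.mpr hroot
  have hmonic0 : (spec Φ y').Monic := spec_monic hΦ.monic _
  have hmonic : (spec Φ y' /ₘ (Polynomial.X - Polynomial.C z')).Monic := by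
    refine Polynomial.Monic.of_mul_monic_left (Polynomial.monic_X_sub_C z') ?_
    rw [hfac]
    exact hmonic0
  have hdeg : (spec Φ y' /ₘ (Polynomial.X - Polynomial.C z')).natDegree = p := by
    rw [Polynomial.natDegree_divByMonic _ (Polynomial.monic_X_sub_C z'),
      spec_natDegree hΦ.monic, hΦ.natDegree_eq, Polynomial.natDegree_X_sub_C]
    rfl
  have hx0 : Polynomial.aeval x (spec Φ y') = 0 := by
    rw [Polynomial.aeval_def, Polynomial.eval₂_eq_eval_map, map_spec, eval_spec]
    show ev2 Φ (jd k (p ^ (a' + 1))) (jd k (p ^ (a' + 1 + 1))) = 0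
    have := ev2_jd_up (k := k) hΦ (p ^ (a' + 1))
    rwa [jd_congr k (show p ^ (a' + 1) * p = p ^ (a' + 1 + 1) from (pow_succ p (a' + 1)).symm)]
      at this
  have hxz : x - jd k (p ^ a') ≠ 0 := by
    rw [sub_ne_zero]
    refine jd_ne_of_ne ?_
    intro h
    have := Nat.pow_right_injective hp.two_le h
    omega
  have hx1 : Polynomial.aeval x (spec Φ y' /ₘ (Polynomial.X - Polynomial.C z')) = 0 := by
    have h := hx0
    rw [← hfac, _root_.map_mul, _root_.map_sub, Polynomial.aeval_X, Polynomial.aeval_C] at h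
    rcases mul_eq_zero.mp h with h | h
    · exact absurd h hxz
    · exact h
  have key := relrank_le_natDegree (modularFunctionFieldFullC k M)
    (modularFunctionFieldFullC k (M * p)) hAB x
    (spec Φ y' /ₘ (Polynomial.X - Polynomial.C z')) hmonic hx1
    (full_mul_le_adjoin hp H ha ha') ?_
  · rwa [hdeg] at key
  · refine jd_mem_full (M * p) _ ?_
    rw [pow_succ]
    exact mul_dvd_mul_right ha p

end Steps

end Fermat.Agent.S28.H626

end

end
-- ===== PACK-END S28/H626/Tower.lean

-- ===== PACK-BEGIN S20/Comb/OrbitCounts.lean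
section




/-!
# Orbit counts of `S` and `S * T` on `SL(2,ℤ) ⧸ Gamma0 N`, and the genus identity

* `two_mul_card_orbits_S : 2 * #(Q / ⟨S⟩) = ψ(N) + ν₂(N)`
* `three_mul_card_orbits_ST : 3 * #(Q / ⟨S * T⟩) = ψ(N) + 2 * ν₃(N)`
* `genusFormula_eq_of_card_orbits_T` : the Euler-characteristic identity
  `genusFormula N = 1 + (μ - o₂ - o₃ - o∞) / 2`.
-/

set_option autoImplicit false

namespace Fermat.Agent.S20.Comb

open Matrix MatrixGroups CongruenceSubgroup MulAction Subgroup

/-- `-1` acts trivially on `SL(2,ℤ) ⧸ Γ₀(N)`. -/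
lemma neg_one_smul_quotient (N : ℕ) (q : SL(2, ℤ) ⧸ Gamma0 N) : (-1 : SL(2, ℤ)) • q = q := by
  obtain ⟨g, rfl⟩ := QuotientGroup.mk_surjective q
  rw [smul_mk_eq_mk_iff]
  have h : ∀ i j, ((-1 : SL(2, ℤ)) * g) i j = - g i j := by
    intro i j
    rw [_root_.neg_mul, _root_.one_mul, Matrix.SpecialLinearGroup.coe_neg, Matrix.neg_apply]
  rw [h, h]
  push_cast
  ring

lemma S_pow_two : ModularGroup.S ^ 2 = (-1 : SL(2, ℤ)) := by
  apply Subtype.ext
  rw [pow_two, Matrix.SpecialLinearGroup.coe_mul, ModularGroup.coe_S,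
    Matrix.SpecialLinearGroup.coe_neg, Matrix.SpecialLinearGroup.coe_one]
  ext i j
  fin_cases i <;> fin_cases j <;> simp [Matrix.mul_apply, Fin.sum_univ_two]

lemma ST_pow_three : (ModularGroup.S * ModularGroup.T) ^ 3 = (-1 : SL(2, ℤ)) := by
  apply Subtype.ext
  rw [pow_succ, pow_two, Matrix.SpecialLinearGroup.coe_mul, Matrix.SpecialLinearGroup.coe_mul,
    coe_S_mul_T, Matrix.SpecialLinearGroup.coe_neg, Matrix.SpecialLinearGroup.coe_one]
  ext i j
  fin_cases i <;> fin_cases j <;> simp [Matrix.mul_apply, Fin.sum_univ_two]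

/-- `2 * #(S-orbits) = ψ(N) + ν₂(N)`. -/
theorem two_mul_card_orbits_S (N : ℕ) [NeZero N] :
    2 * Nat.card (orbitRel.Quotient (zpowers ModularGroup.S) (SL(2, ℤ) ⧸ Gamma0 N))
      = ModularCurve.dedekindPsi N + ModularCurve.nuTwo N := by
  have h := prime_mul_card_orbits (X := SL(2, ℤ) ⧸ Gamma0 N) ModularGroup.S 2 Nat.prime_two
    (fun x => by rw [S_pow_two]; exact neg_one_smul_quotient N x)
  rw [card_quotient_Gamma0, card_fixedBy_S] at h
  exact h.trans (by norm_num)

/-- `3 * #(ST-orbits) = ψ(N) + 2 * ν₃(N)`. -/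
theorem three_mul_card_orbits_ST (N : ℕ) [NeZero N] :
    3 * Nat.card (orbitRel.Quotient (zpowers (ModularGroup.S * ModularGroup.T))
        (SL(2, ℤ) ⧸ Gamma0 N))
      = ModularCurve.dedekindPsi N + 2 * ModularCurve.nuThree N := by
  have h := prime_mul_card_orbits (X := SL(2, ℤ) ⧸ Gamma0 N)
    (ModularGroup.S * ModularGroup.T) 3 Nat.prime_three
    (fun x => by rw [ST_pow_three]; exact neg_one_smul_quotient N x)
  rw [card_quotient_Gamma0, card_fixedBy_ST] at h
  exact h.trans (by norm_num)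

/-- The Euler-characteristic identity: with `μ = #Q`, `o₂`, `o₃`, `o∞` the numbers of orbits of
`S`, `S * T`, `T` on `Q = SL(2,ℤ) ⧸ Γ₀(N)`, one has `genusFormula N = 1 + (μ - o₂ - o₃ - o∞) / 2`,
provided `o∞ = cuspCount N`. -/
theorem genusFormula_eq_of_card_orbits_T (N : ℕ) [NeZero N]
    (hT : Nat.card (orbitRel.Quotient (zpowers ModularGroup.T) (SL(2, ℤ) ⧸ Gamma0 N))
      = ModularCurve.cuspCount N) :
    ModularCurve.genusFormula N
      = 1 + ((Nat.card (SL(2, ℤ) ⧸ Gamma0 N) : ℚ)
          - (Nat.card (orbitRel.Quotient (zpowers ModularGroup.S) (SL(2, ℤ) ⧸ Gamma0 N)) : ℚ)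
          - (Nat.card (orbitRel.Quotient (zpowers (ModularGroup.S * ModularGroup.T))
              (SL(2, ℤ) ⧸ Gamma0 N)) : ℚ)
          - (Nat.card (orbitRel.Quotient (zpowers ModularGroup.T)
              (SL(2, ℤ) ⧸ Gamma0 N)) : ℚ)) / 2 := by
  have h2 := two_mul_card_orbits_S N
  have h3 := three_mul_card_orbits_ST N
  have h2' := congrArg (Nat.cast : ℕ → ℚ) h2
  have h3' := congrArg (Nat.cast : ℕ → ℚ) h3
  push_cast at h2' h3'
  rw [hT, card_quotient_Gamma0, ModularCurve.genusFormula]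
  linear_combination (1 / 4 : ℚ) * h2' + (1 / 6 : ℚ) * h3'

/-- Orbit-count form used by dimension bounds: `μ + 2 - o₂ - o₃ - o∞ = 2 * genusFormula N`. -/
theorem two_mul_genusFormula_of_card_orbits_T (N : ℕ) [NeZero N]
    (hT : Nat.card (orbitRel.Quotient (zpowers ModularGroup.T) (SL(2, ℤ) ⧸ Gamma0 N))
      = ModularCurve.cuspCount N) :
    2 * ModularCurve.genusFormula N
      + (Nat.card (orbitRel.Quotient (zpowers ModularGroup.S) (SL(2, ℤ) ⧸ Gamma0 N)) : ℚ)
      + (Nat.card (orbitRel.Quotient (zpowers (ModularGroup.S * ModularGroup.T))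
          (SL(2, ℤ) ⧸ Gamma0 N)) : ℚ)
      + (Nat.card (orbitRel.Quotient (zpowers ModularGroup.T) (SL(2, ℤ) ⧸ Gamma0 N)) : ℚ)
      = (Nat.card (SL(2, ℤ) ⧸ Gamma0 N) : ℚ) + 2 := by
  rw [genusFormula_eq_of_card_orbits_T N hT]
  ring

end Fermat.Agent.S20.Comb

end
-- ===== PACK-END S20/Comb/OrbitCounts.lean

-- ===== PACK-BEGIN S18/H107/Base.lean
section






/-!
# helper107 — S18 / M3-T : `BaseModel107` = `GoodModel` without the branch-set fields

`BaseModel107 Lc Ec Fc R V w x` consists of all fields of the frozen `Alg.GoodModel` (v4) except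
`S_mem`, `S_distinct`, `S_unit`, `unramified`.  For `x = j` it holds for every `ℓ ∤ M`
(including `ℓ = 2, 3`, where `GoodModel … j {0, 1728}` is FALSE because `0 ≡ 1728`).

Generic transfer lemmas `j ↦ t` for the easy fields: `transcendental`, `finite`, `separable`,
`t ∈ V` (integral closedness of `V` in `Fc`).
-/

set_option autoImplicit false

namespace Fermat.Agent.S18.H107

open Polynomial Fermat.Agent.S18.Alg

variable {Ω : Type*} [Field Ω]

/-- All fields of `Alg.GoodModel` that do not mention the branch set `S`. -/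
structure BaseModel107 (Lc Ec Fc : Subfield Ω) (R V : Subring Ω) (w x : Ω) : Prop where
  charZero : CharZero Ω
  R_le : (R : Set Ω) ⊆ Ec
  R_total : ∀ e ∈ Ec, e ∈ R ∨ e⁻¹ ∈ R
  w_mem : w ∈ R
  w_ne_zero : w ≠ 0
  w_inv_not_mem : w⁻¹ ∉ R
  w_gen : ∀ r ∈ R, r⁻¹ ∉ R → r * w⁻¹ ∈ R
  w_discrete : ∀ r ∈ R, r ≠ 0 → ∃ n : ℕ, r * (w⁻¹) ^ n ∈ R ∧ (r * (w⁻¹) ^ n)⁻¹ ∈ R
  residue_perfect : ∃ p : ℕ, p.Prime ∧ (p : Ω) * w⁻¹ ∈ R ∧
    ∀ r ∈ R, ∃ s ∈ R, (r - s ^ p) * w⁻¹ ∈ R
  E_le_L : Ec ≤ Lc
  E_le_F : Ec ≤ Fc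
  L_algebraic : ∀ a ∈ Lc, IsAlgebraic Ec a
  L_algClosed : IsAlgClosed Lc
  E_closed_in_F : ∀ f ∈ Fc, IsAlgebraic Ec f → f ∈ Ec
  compositum : Subfield.closure ((Fc : Set Ω) ∪ Lc) = ⊤
  x_mem : x ∈ Fc
  x_transcendental : Transcendental Lc x
  finite : ∃ s : Finset Ω, (s : Set Ω) ⊆ Fc ∧
    ∀ f ∈ Fc, f ∈ Submodule.span (ratField Ec x) (s : Set Ω)
  V_le : (V : Set Ω) ⊆ Fc
  V_total : ∀ f ∈ Fc, f ∈ V ∨ f⁻¹ ∈ V
  R_le_V : R ≤ V
  w_inv_not_mem_V : w⁻¹ ∉ V
  V_gen : ∀ f ∈ V, f⁻¹ ∉ V → f * w⁻¹ ∈ V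
  x_mem_V : x ∈ V
  gauss : ∀ P : Polynomial Ω, (∀ i, P.coeff i ∈ R) → (∃ i, P.coeff i ≠ 0 ∧ (P.coeff i)⁻¹ ∈ R) →
    (P.eval x)⁻¹ ∈ V
  qep_fin : ∀ b ∈ chart Fc R x, b * w⁻¹ ∈ V → b * w⁻¹ ∈ chart Fc R x
  qep_inf : ∀ b ∈ chart Fc R x⁻¹, b * w⁻¹ ∈ V → b * w⁻¹ ∈ chart Fc R x⁻¹
  separable : ∀ f ∈ V, ∃ P : Polynomial Ω, (∀ i, P.coeff i ∈ polyRing R x) ∧
    P.eval f * w⁻¹ ∈ V ∧ (Polynomial.derivative P).eval f ≠ 0 ∧
    ((Polynomial.derivative P).eval f)⁻¹ ∈ V

theorem baseModel_of_goodModel107 {Lc Ec Fc : Subfield Ω} {R V : Subring Ω} {w x : Ω}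
    {S : Finset Ω} (h : GoodModel Lc Ec Fc R V w x S) : BaseModel107 Lc Ec Fc R V w x where
  charZero := h.charZero
  R_le := h.R_le
  R_total := h.R_total
  w_mem := h.w_mem
  w_ne_zero := h.w_ne_zero
  w_inv_not_mem := h.w_inv_not_mem
  w_gen := h.w_gen
  w_discrete := h.w_discrete
  residue_perfect := h.residue_perfect
  E_le_L := h.E_le_L
  E_le_F := h.E_le_F
  L_algebraic := h.L_algebraic
  L_algClosed := h.L_algClosed
  E_closed_in_F := h.E_closed_in_F
  compositum := h.compositum
  x_mem := h.x_mem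
  x_transcendental := h.x_transcendental
  finite := h.finite
  V_le := h.V_le
  V_total := h.V_total
  R_le_V := h.R_le_V
  w_inv_not_mem_V := h.w_inv_not_mem_V
  V_gen := h.V_gen
  x_mem_V := h.x_mem_V
  gauss := h.gauss
  qep_fin := h.qep_fin
  qep_inf := h.qep_inf
  separable := h.separable

theorem BaseModel107.toGoodModel {Lc Ec Fc : Subfield Ω} {R V : Subring Ω} {w x : Ω}
    (h : BaseModel107 Lc Ec Fc R V w x) (S : Finset Ω) (S_mem : ∀ s ∈ S, s ∈ R)
    (S_distinct : ∀ s ∈ S, ∀ t ∈ S, s ≠ t → (s - t)⁻¹ ∈ R)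
    (S_unit : ∀ s ∈ S, s ≠ 0 → s⁻¹ ∈ R)
    (unramified : ∀ O : ValuationSubring Ω, (∀ a ∈ Lc, a ∈ O) → ∀ c ∈ Lc, c ∉ S →
      x - c ∈ O → (x - c)⁻¹ ∉ O → ∀ t ∈ O, t⁻¹ ∉ O → t * (x - c)⁻¹ ∈ O) :
    GoodModel Lc Ec Fc R V w x S where
  charZero := h.charZero
  R_le := h.R_le
  R_total := h.R_total
  w_mem := h.w_mem
  w_ne_zero := h.w_ne_zero
  w_inv_not_mem := h.w_inv_not_mem
  w_gen := h.w_gen
  w_discrete := h.w_discrete
  residue_perfect := h.residue_perfect
  E_le_L := h.E_le_L
  E_le_F := h.E_le_F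
  L_algebraic := h.L_algebraic
  L_algClosed := h.L_algClosed
  E_closed_in_F := h.E_closed_in_F
  compositum := h.compositum
  x_mem := h.x_mem
  x_transcendental := h.x_transcendental
  finite := h.finite
  V_le := h.V_le
  V_total := h.V_total
  R_le_V := h.R_le_V
  w_inv_not_mem_V := h.w_inv_not_mem_V
  V_gen := h.V_gen
  x_mem_V := h.x_mem_V
  gauss := h.gauss
  qep_fin := h.qep_fin
  qep_inf := h.qep_inf
  separable := h.separable
  S_mem := S_mem
  S_distinct := S_distinct
  S_unit := S_unit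
  unramified := unramified

/-- A subring `V` that is "total at `b`" contains `b` as soon as `b` is integral over a subring
of `V` (valuation rings are integrally closed). -/
theorem mem_of_isIntegral_of_total107 (V T : Subring Ω) (hT : T ≤ V) {b : Ω}
    (hb : b ∈ V ∨ b⁻¹ ∈ V) (hint : IsIntegral T b) : b ∈ V := by
  rcases hb with h | h
  · exact h
  obtain ⟨P, hP, hc, hPb⟩ := (isIntegral_iff_exists_poly107 T b).1 hint
  rcases eq_or_ne b 0 with rfl | hb0
  · exact V.zero_mem
  have hn : P.natDegree ≠ 0 := by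
    intro h0
    have h1 : P = 1 := by
      have := Polynomial.eq_C_of_natDegree_eq_zero h0
      rw [this, ← h0]
      have hl : P.coeff P.natDegree = 1 := hP
      rw [hl, _root_.map_one]
    rw [h1, eval_one] at hPb
    exact one_ne_zero hPb
  obtain ⟨n, hn'⟩ := Nat.exists_eq_succ_of_ne_zero hn
  rw [eval_eq_sum_range, hn', Finset.sum_range_succ] at hPb
  have hlead : P.coeff (n + 1) = 1 := by
    have : P.coeff P.natDegree = 1 := hP
    rwa [hn'] at this
  rw [hlead, one_mul] at hPb
  -- `b = - ∑ i < n+1, a_i * (b⁻¹) ^ (n - i)`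
  have key : b = -∑ i ∈ Finset.range (n + 1), P.coeff i * (b⁻¹) ^ (n - i) := by
    have h1 : b ^ (n + 1) = -∑ i ∈ Finset.range (n + 1), P.coeff i * b ^ i := by
      linear_combination hPb
    calc b = b ^ (n + 1) * (b⁻¹) ^ n := by
          rw [pow_succ, inv_pow]
          field_simp
      _ = (-∑ i ∈ Finset.range (n + 1), P.coeff i * b ^ i) * (b⁻¹) ^ n := by rw [h1]
      _ = -∑ i ∈ Finset.range (n + 1), P.coeff i * (b⁻¹) ^ (n - i) := by
          rw [neg_mul, Finset.sum_mul]
          congr 1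
          refine Finset.sum_congr rfl fun i hi => ?_
          have hi' : i ≤ n := Nat.lt_succ_iff.1 (Finset.mem_range.1 hi)
          have e : (b⁻¹) ^ n = (b⁻¹) ^ i * (b⁻¹) ^ (n - i) := by
            rw [← pow_add, Nat.add_sub_cancel' hi']
          rw [e, mul_assoc, ← mul_assoc (b ^ i), inv_pow b i,
            mul_inv_cancel₀ (pow_ne_zero _ hb0), one_mul]
  rw [key]
  refine V.neg_mem (V.sum_mem fun i _ => V.mul_mem (hT (hc i)) (V.pow_mem h _))

theorem ratField_le107 {Ec : Subfield Ω} {x y : Ω} (h : x ∈ ratField Ec y) :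
    ratField Ec x ≤ ratField Ec y := by
  refine Subfield.closure_le.2 ?_
  rintro c (hc | hc)
  · exact Subfield.subset_closure (Or.inl hc)
  · rw [Set.mem_singleton_iff] at hc
    rw [hc]
    exact h

theorem self_mem_ratField107 (Ec : Subfield Ω) (x : Ω) : x ∈ ratField Ec x :=
  Subfield.subset_closure (Or.inr rfl)

theorem natCast_mem_ratField107 (Ec : Subfield Ω) (x : Ω) (n : ℕ) [n.AtLeastTwo] :
    (OfNat.ofNat n : Ω) ∈ ratField Ec x := ofNat_mem _ n

/-- Spans over a bigger subfield are bigger. -/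
theorem span_mono_subfield107 {K₁ K₂ : Subfield Ω} (h : K₁ ≤ K₂) (s : Set Ω) {f : Ω}
    (hf : f ∈ Submodule.span K₁ s) : f ∈ Submodule.span K₂ s := by
  induction hf using Submodule.span_induction with
  | mem x hx => exact Submodule.subset_span hx
  | zero => exact Submodule.zero_mem _
  | add x y _ _ hx hy => exact Submodule.add_mem _ hx hy
  | smul a x _ hx =>
    have : a • x = (⟨(a : Ω), h a.2⟩ : K₂) • x := rfl
    rw [this]
    exact Submodule.smul_mem _ _ hx

theorem finite_transfer107 {Ec Fc : Subfield Ω} {j t : Ω} (hj : j ∈ ratField Ec t)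
    (h : ∃ s : Finset Ω, (s : Set Ω) ⊆ Fc ∧
      ∀ f ∈ Fc, f ∈ Submodule.span (ratField Ec j) (s : Set Ω)) :
    ∃ s : Finset Ω, (s : Set Ω) ⊆ Fc ∧
      ∀ f ∈ Fc, f ∈ Submodule.span (ratField Ec t) (s : Set Ω) := by
  obtain ⟨s, hs, hspan⟩ := h
  exact ⟨s, hs, fun f hf => span_mono_subfield107 (ratField_le107 hj) _ (hspan f hf)⟩

/-- `separable` passes from `j` to `t` when `j * e ∈ R[t]` for some `e ∈ R[t]` that is a unit
of `V`. -/
theorem separable_transfer107 {R V : Subring Ω} {w j t e : Ω} (he : e ∈ polyRing R t)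
    (hje : j * e ∈ polyRing R t) (heV : e ∈ V) (heV' : e⁻¹ ∈ V) (he0 : e ≠ 0)
    (h : ∀ f ∈ V, ∃ P : Polynomial Ω, (∀ i, P.coeff i ∈ polyRing R j) ∧
      P.eval f * w⁻¹ ∈ V ∧ (Polynomial.derivative P).eval f ≠ 0 ∧
      ((Polynomial.derivative P).eval f)⁻¹ ∈ V) :
    ∀ f ∈ V, ∃ P : Polynomial Ω, (∀ i, P.coeff i ∈ polyRing R t) ∧
      P.eval f * w⁻¹ ∈ V ∧ (Polynomial.derivative P).eval f ≠ 0 ∧
      ((Polynomial.derivative P).eval f)⁻¹ ∈ V := by
  intro f hf
  obtain ⟨P, hc, hPf, hd0, hdV⟩ := h f hf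
  have hex : ∀ i, ∃ d : ℕ, ∀ d', d ≤ d' → P.coeff i * e ^ d' ∈ polyRing R t := fun i =>
    exists_pow_mul_mem107 (le_polyRing107 R t) he hje (hc i)
  choose d hd using hex
  set D := (Finset.range (P.natDegree + 1)).sup d with hD
  have hDi : ∀ i, P.coeff i * e ^ D ∈ polyRing R t := by
    intro i
    by_cases hi : i ∈ Finset.range (P.natDegree + 1)
    · exact hd i D (Finset.le_sup hi)
    · rw [Finset.mem_range, not_lt] at hi
      rw [coeff_eq_zero_of_natDegree_lt (by omega), zero_mul]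
      exact Subring.zero_mem _
  refine ⟨C (e ^ D) * P, fun i => ?_, ?_, ?_, ?_⟩
  · rw [coeff_C_mul, mul_comm]
    exact hDi i
  · rw [eval_mul, eval_C, mul_assoc]
    exact V.mul_mem (V.pow_mem heV D) hPf
  · rw [derivative_C_mul, eval_mul, eval_C]
    exact mul_ne_zero (pow_ne_zero _ he0) hd0
  · rw [derivative_C_mul, eval_mul, eval_C, mul_inv, ← inv_pow]
    exact V.mul_mem (V.pow_mem heV' D) hdV

end Fermat.Agent.S18.H107

end
-- ===== PACK-END S18/H107/Base.lean

-- ===== PACK-BEGIN S18/H438/Front/Transport2.lean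
section


/-!
# S18 / ALG-FRONT (helper438), part 5: transport of charts and of the `q`-expansion principle

* `mem_baseRing_iff`  : `a ∈ R[z] ⊆ Fc`  ↔  `(a : Ω) ∈ Alg.polyRing R z`;
* `mem_chartRing_iff` : `b ∈ chartRing (Rf Fc R) z`  ↔  `(b : Ω) ∈ Alg.chart Fc R z`;
* `transcendental_xf`, `transcendental_xf_inv`;
* `qep_fin`, `qep_inf` in the form used by `Front/Gauss.lean`.
-/

set_option autoImplicit false
set_option linter.style.haveILetI false
set_option linter.unusedSectionVars false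

noncomputable section

namespace Fermat.Agent.S18.H438

open Alg Polynomial

variable {Ω : Type*} [Field Ω] {Lc Ec Fc : Subfield Ω} {R V : Subring Ω} {w x : Ω}
  {S : Finset Ω}

section Generic

variable (Fc R) (z : Fc)

/-- `R[z] ⊆ Fc` maps into `polyRing R z ⊆ Ω`. -/
theorem coe_mem_polyRing_of_mem_baseRing {a : Fc} (ha : a ∈ baseRing (Rf Fc R) z) :
    (a : Ω) ∈ polyRing R (z : Ω) := by
  unfold baseRing at ha
  induction ha using Algebra.adjoin_induction with
  | mem y hy =>
    rw [Set.mem_singleton_iff] at hy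
    subst hy
    exact Subring.subset_closure (Or.inr rfl)
  | algebraMap r => exact Subring.subset_closure (Or.inl r.2)
  | add y y' _ _ hy hy' => exact (polyRing R (z : Ω)).add_mem hy hy'
  | mul y y' _ _ hy hy' => exact (polyRing R (z : Ω)).mul_mem hy hy'

/-- `polyRing R z ⊆ Ω` comes from `R[z] ⊆ Fc`, provided `R ⊆ Fc`. -/
theorem exists_mem_baseRing_of_mem_polyRing (hR : ∀ r ∈ R, r ∈ Fc) {c : Ω}
    (hc : c ∈ polyRing R (z : Ω)) : ∃ a ∈ baseRing (Rf Fc R) z, (a : Ω) = c := by
  have hle : polyRing R (z : Ω) ≤ (baseRing (Rf Fc R) z).toSubring.map Fc.subtype := by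
    unfold polyRing
    rw [Subring.closure_le]
    rintro y (hy | hy)
    · refine ⟨⟨y, hR y hy⟩, ?_, rfl⟩
      exact (baseRing (Rf Fc R) z).algebraMap_mem (⟨⟨y, hR y hy⟩, hy⟩ : Rf Fc R)
    · rw [Set.mem_singleton_iff] at hy
      subst hy
      exact ⟨z, self_mem_baseRing (Rf Fc R) z, rfl⟩
  obtain ⟨a, ha, rfl⟩ := hle hc
  exact ⟨a, ha, rfl⟩

theorem mem_baseRing_iff (hR : ∀ r ∈ R, r ∈ Fc) {a : Fc} :
    a ∈ baseRing (Rf Fc R) z ↔ (a : Ω) ∈ polyRing R (z : Ω) := by
  refine ⟨coe_mem_polyRing_of_mem_baseRing Fc R z, fun h => ?_⟩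
  obtain ⟨a', ha', h'⟩ := exists_mem_baseRing_of_mem_polyRing Fc R z hR h
  rwa [← Subtype.ext h']

/-- the comparison map `R[z] → polyRing R z` -/
def baseToPoly : baseRing (Rf Fc R) z →+* polyRing R (z : Ω) :=
  (Fc.subtype.comp (baseRing (Rf Fc R) z).toSubring.subtype).codRestrict (polyRing R (z : Ω))
    (fun a => coe_mem_polyRing_of_mem_baseRing Fc R z a.2)

theorem coe_baseToPoly (a : baseRing (Rf Fc R) z) :
    ((baseToPoly Fc R z a : polyRing R (z : Ω)) : Ω) = ((a : Fc) : Ω) := rfl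

theorem algebraMap_comp_baseToPoly :
    (algebraMap (polyRing R (z : Ω)) Ω).comp (baseToPoly Fc R z) =
      Fc.subtype.comp (algebraMap (baseRing (Rf Fc R) z) Fc) := rfl

theorem baseToPoly_surjective (hR : ∀ r ∈ R, r ∈ Fc) :
    Function.Surjective (baseToPoly Fc R z) := by
  rintro ⟨c, hc⟩
  obtain ⟨a, ha, h⟩ := exists_mem_baseRing_of_mem_polyRing Fc R z hR hc
  exact ⟨⟨a, ha⟩, Subtype.ext h⟩

/-- integrality over `R[z]` (inside `Fc`) is integrality over `polyRing R z` (inside `Ω`) -/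
theorem isIntegral_baseRing_iff (hR : ∀ r ∈ R, r ∈ Fc) {b : Fc} :
    IsIntegral (baseRing (Rf Fc R) z) b ↔ IsIntegral (polyRing R (z : Ω)) (b : Ω) := by
  constructor
  · intro h
    exact IsIntegral.map_of_comp_eq (baseToPoly Fc R z) Fc.subtype
      (algebraMap_comp_baseToPoly Fc R z) h
  · rintro ⟨q, hq, hqb⟩
    -- lift the monic polynomial along the surjection
    obtain ⟨p, hpq, hpdeg, hpmonic⟩ :=
      Polynomial.lifts_and_degree_eq_and_monic
        ((Polynomial.mem_lifts q).2 (by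
          have hsurj := Polynomial.map_surjective (baseToPoly Fc R z)
            (baseToPoly_surjective Fc R z hR)
          exact hsurj q)) hq
    refine ⟨p, hpmonic, ?_⟩
    have h1 : Fc.subtype (Polynomial.eval₂ (algebraMap (baseRing (Rf Fc R) z) Fc) b p) = 0 := by
      rw [Polynomial.hom_eval₂, ← algebraMap_comp_baseToPoly, ← Polynomial.eval₂_map, hpq]
      exact hqb
    exact Fc.subtype_injective (by rw [h1, _root_.map_zero])

theorem mem_chartRing_iff (hR : ∀ r ∈ R, r ∈ Fc) {b : Fc} :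
    b ∈ chartRing (Rf Fc R) z ↔ (b : Ω) ∈ chart Fc R (z : Ω) := by
  show IsIntegral (baseRing (Rf Fc R) z) b ↔ _
  rw [isIntegral_baseRing_iff Fc R z hR]
  exact ⟨fun h => ⟨b.2, h⟩, fun h => h.2⟩

end Generic

namespace GoodModelFront

variable (G : GoodModel Lc Ec Fc R V w x S)

include G

/-- `x` is transcendental over `R`. -/
theorem transcendental_xf : Transcendental (Rf Fc R) (xf G) := by
  rintro ⟨p, hp0, hp⟩
  let i : Rf Fc R →+* Lc :=
    (Fc.subtype.comp (Rf Fc R).subtype).codRestrict Lc.toSubring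
      (fun r => G.E_le_L (G.R_le r.2))
  have hi : Function.Injective i := by
    intro a b hab
    apply Subtype.ext
    apply Subtype.ext
    exact congrArg (fun t : Lc => (t : Ω)) hab
  have hcomp : (algebraMap Lc Ω).comp i = Fc.subtype.comp (algebraMap (Rf Fc R) Fc) := rfl
  apply G.x_transcendental
  refine ⟨p.map i, (Polynomial.map_ne_zero_iff hi).2 hp0, ?_⟩
  rw [Polynomial.aeval_def, Polynomial.eval₂_map, hcomp]
  have h1 := Polynomial.hom_eval₂ p (algebraMap (Rf Fc R) Fc) Fc.subtype (xf G)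
  rw [Polynomial.aeval_def] at hp
  rw [hp, _root_.map_zero] at h1
  exact h1.symm

theorem transcendental_xf_inv : Transcendental (Rf Fc R) (xf G)⁻¹ :=
  fun h => transcendental_xf G (IsAlgebraic.inv_iff.1 h)

/-- `qep` on the finite chart, in `Fc`. -/
theorem qep_fin' : ∀ b ∈ chartRing (Rf Fc R) (xf G), b * (wf G)⁻¹ ∈ Vf G →
    b * (wf G)⁻¹ ∈ chartRing (Rf Fc R) (xf G) := by
  intro b hb hbV
  rw [mem_chartRing_iff Fc R _ (fun r hr => R_le_Fc G hr)] at hb ⊢
  exact G.qep_fin _ hb hbV

/-- `qep` on the chart at infinity, in `Fc`. -/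
theorem qep_inf' : ∀ b ∈ chartRing (Rf Fc R) (xf G)⁻¹, b * (wf G)⁻¹ ∈ Vf G →
    b * (wf G)⁻¹ ∈ chartRing (Rf Fc R) (xf G)⁻¹ := by
  intro b hb hbV
  rw [mem_chartRing_iff Fc R _ (fun r hr => R_le_Fc G hr)] at hb ⊢
  exact G.qep_inf _ hb hbV

end GoodModelFront

end Fermat.Agent.S18.H438

end
end
-- ===== PACK-END S18/H438/Front/Transport2.lean

-- ===== PACK-BEGIN S33/H692/OrdAlg.lean
section
/-
Row S33 (ordinary at `p ‖ N`), piece EIG, pure algebra (helper692).

Setting: `ρ : G → End_T V`, `V` free of rank two with basis `b`, `T[G] → End_T V` onto;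
`ψ : T → O` a ring homomorphism into a local domain `O` in which `2` is a unit;
`ρM : G → End_O M`, `M` free with finite nonempty basis `c`, such that every `g` satisfies on `M`
the characteristic polynomial of `ρ g` specialised along `ψ` (shape of `S32.RelStatement`);
`I` a set of elements of `G` (the inertia subgroup), `I_aug M = augSub I ρM`.

* `augSub_sup_ne_top` (residual part): if some functional `l` on `V`, not zero modulo `ψ⁻¹ 𝔪`,
  kills all `σ v - v` (`σ ∈ I`) modulo `ψ⁻¹ 𝔪` (a residual ordinary line), then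
  `I_aug M + 𝔪 M ≠ M`.
* `exists_smul_mem_augSub` : if `I_aug (M ⊗ K) = M ⊗ K` then `a M ⊆ I_aug M` for some `a ≠ 0`.
* `ord_identities_of_not_exists` (generic part): if no `a ≠ 0` has `a M ⊆ I_aug M`, then for
  `σ₀, σ ∈ I` and `τ` normalising `I`, with `d₀ = ψ (det ρ σ₀)`:
  `(ρM σ₀ - d₀)(ρM σ - 1) = 0` and `(ρM σ₀ - d₀) ρM τ (ρM σ₀ - 1) = 0`.
* `ordEig_of_geo` : the two identities from the residual line and the geometric input
  `GEO : a ≠ 0, a M ⊆ I_aug M ⟹ I_aug M + 𝔪 M = M`.
-/



set_option autoImplicit false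
set_option linter.unusedSectionVars false

noncomputable section

namespace Fermat.Agent.S33.H692

open Module IsLocalRing Fermat.Agent.S32.H152 Fermat.Agent.Lib.Ribet.H223

section Residual

variable {T : Type*} [CommRing T] {G : Type*} [Group G]
  {V : Type*} [AddCommGroup V] [Module T V] (b : Module.Basis (Fin 2) T V)
  (ρ : G →* Module.End T V)
  {O : Type*} [CommRing O] [IsLocalRing O] (ψ : T →+* O)
  {M : Type*} [AddCommGroup M] [Module O M] {n : Type*} [Fintype n] [DecidableEq n]
  (c : Module.Basis n O M) (ρM : G →* Module.End O M)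

include b c in
/-- **Residual part.**  A residual ordinary line forces `I_aug M + 𝔪 M ≠ M`. -/
theorem augSub_sup_ne_top [Nonempty n] (hspan : Submodule.span T (Set.range ρ) = ⊤)
    (hrel : ∀ g : G, ρM g * ρM g - ψ (LinearMap.trace T V (ρ g)) • ρM g
      + ψ (LinearMap.det (ρ g)) • (1 : Module.End O M) = 0)
    (h2 : IsUnit (2 : O)) (I : Set G) (l : V →ₗ[T] T) (hl1 : ∃ v, IsUnit (ψ (l v)))
    (hl2 : ∀ σ ∈ I, ∀ v, ψ (l (ρ σ v - v)) ∈ maximalIdeal O) :
    augSub I ρM ⊔ (maximalIdeal O) • (⊤ : Submodule O M) ≠ ⊤ := by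
  classical
  set k := ResidueField O with hk
  set ι : O →+* k := residue O with hι
  set f : T →+* k := ι.comp ψ with hf
  have h2F : (2 : k) ≠ 0 := by
    have h := (residue_ne_zero_iff_isUnit (2 : O)).mpr h2
    rwa [map_ofNat] at h
  obtain ⟨Ψ, hΨ⟩ := exists_spec_algHom b ρ ψ c ρM ι hspan hrel h2F
  -- the functional
  set Λ : (Fin 2 → k) →ₗ[k] k := ∑ i, f (l (b i)) • LinearMap.proj i with hΛ
  have hΛapp : ∀ x : Fin 2 → k, Λ x = ∑ i, f (l (b i)) * x i := by
    intro x
    simp [hΛ]
  have hΛcoord : ∀ v : V, Λ (embCoord f b v) = f (l v) := by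
    intro v
    rw [hΛapp]
    conv_rhs => rw [← b.sum_repr v]
    simp only [map_sum, map_smul, smul_eq_mul, map_mul, embCoord_apply]
    exact Finset.sum_congr rfl fun i _ => mul_comm _ _
  have hfin2 : Module.finrank k (Fin 2 → k) = 2 := by simp
  have hL : LinearMap.ker Λ ≠ ⊤ := by
    obtain ⟨v, hv⟩ := hl1
    intro htop
    have h0 : Λ (embCoord f b v) = 0 := by
      have : embCoord f b v ∈ LinearMap.ker Λ := by
        rw [htop]
        exact Submodule.mem_top
      exact LinearMap.mem_ker.mp this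
    rw [hΛcoord] at h0
    exact (residue_ne_zero_iff_isUnit _).mpr hv h0
  have hI : ∀ σ ∈ I, ∀ x, specRep f b ρ σ x - x ∈ LinearMap.ker Λ := by
    intro σ hσ x
    have hz : Λ ∘ₗ (specRep f b ρ σ - 1) = 0 := by
      refine (Pi.basisFun k (Fin 2)).ext fun i => ?_
      rw [Pi.basisFun_apply, ← embCoord_basis f b i, LinearMap.comp_apply, LinearMap.sub_apply,
        Module.End.one_apply, specRep_apply, embEnd_coord, ← map_sub, hΛcoord,
        LinearMap.zero_apply]
      exact (residue_eq_zero_iff _).mpr (hl2 σ hσ (b i))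
    have := congrArg (fun E : (Fin 2 → k) →ₗ[k] k => E x) hz
    rw [LinearMap.mem_ker]
    simpa only [LinearMap.comp_apply, LinearMap.sub_apply, Module.End.one_apply,
      LinearMap.zero_apply] using this
  have hne := augSub_ne_top_of_line hfin2 (specRep f b ρ) (specRep ι c ρM) Ψ hΨ I
    (LinearMap.ker Λ) hL hI
  intro htop
  apply hne
  rw [eq_top_iff]
  intro x _
  obtain ⟨m, rfl⟩ := exists_embCoord_eq ι c x fun j => residue_surjective (x j)
  have hm : m ∈ augSub I ρM ⊔ (maximalIdeal O) • (⊤ : Submodule O M) := by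
    rw [htop]
    exact Submodule.mem_top
  obtain ⟨y, hy, z, hz, rfl⟩ := Submodule.mem_sup.mp hm
  have hz0 : embCoord ι c z = 0 := by
    funext j
    rw [embCoord_apply]
    exact (residue_eq_zero_iff _).mpr (embCoord_repr_mem c _ hz j)
  rw [map_add, hz0, add_zero]
  exact embCoord_mem_augSub ι c ρM I hy

end Residual

section Generic

variable {T : Type*} [CommRing T] {G : Type*} [Group G]
  {V : Type*} [AddCommGroup V] [Module T V] (b : Module.Basis (Fin 2) T V)
  (ρ : G →* Module.End T V)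
  {O : Type*} [CommRing O] [IsDomain O] (ψ : T →+* O)
  {M : Type*} [AddCommGroup M] [Module O M] {n : Type*} [Fintype n] [DecidableEq n]
  (c : Module.Basis n O M) (ρM : G →* Module.End O M)
  (K : Type*) [Field K] [Algebra O K] [IsFractionRing O K]

/-- Clearing denominators in `I_aug`. -/
theorem exists_embCoord_eq_smul (I : Set G) {y : n → K}
    (hy : y ∈ augSub I (specRep (algebraMap O K) c ρM)) :
    ∃ a : O, a ≠ 0 ∧ ∃ m ∈ augSub I ρM, embCoord (algebraMap O K) c m = algebraMap O K a • y := by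
  classical
  set ι : O →+* K := algebraMap O K with hι
  induction hy using Submodule.span_induction with
  | mem y hy =>
    obtain ⟨σ, hσ, x, rfl⟩ := hy
    obtain ⟨a, ha⟩ := IsLocalization.exist_integer_multiples_of_finite (nonZeroDivisors O) x
    have hx : ∀ j, ∃ r : O, ι r = (ι a • x) j := by
      intro j
      obtain ⟨r, hr⟩ := ha j
      refine ⟨r, ?_⟩
      rw [hr, Pi.smul_apply, Algebra.smul_def, smul_eq_mul]
    obtain ⟨x', hx'⟩ := exists_embCoord_eq ι c (ι a • x) hx
    refine ⟨a, nonZeroDivisors.ne_zero a.2, ρM σ x' - x', sub_mem_augSub ρM hσ x', ?_⟩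
    rw [map_sub, ← embEnd_coord, hx', ← specRep_apply, map_smul, smul_sub]
  | zero =>
    exact ⟨1, one_ne_zero, 0, zero_mem _, by rw [map_zero, smul_zero]⟩
  | add y₁ y₂ _ _ h₁ h₂ =>
    obtain ⟨a₁, ha₁, m₁, hm₁, e₁⟩ := h₁
    obtain ⟨a₂, ha₂, m₂, hm₂, e₂⟩ := h₂
    refine ⟨a₁ * a₂, mul_ne_zero ha₁ ha₂, a₂ • m₁ + a₁ • m₂,
      add_mem (Submodule.smul_mem _ _ hm₁) (Submodule.smul_mem _ _ hm₂), ?_⟩
    rw [map_add, embCoord_smul, embCoord_smul, e₁, e₂, smul_add, smul_smul, smul_smul, map_mul,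
      mul_comm (ι a₂) (ι a₁)]
  | smul r y _ h =>
    obtain ⟨a, ha, m, hm, e⟩ := h
    obtain ⟨s, t, ht, rfl⟩ := IsFractionRing.div_surjective (A := O) r
    have ht0 : t ≠ 0 := nonZeroDivisors.ne_zero ht
    have hιt : ι t ≠ 0 := by
      intro h0
      apply ht0
      apply IsFractionRing.injective O K
      rw [map_zero]
      exact h0
    refine ⟨t * a, mul_ne_zero ht0 ha, s • m, Submodule.smul_mem _ _ hm, ?_⟩
    have hcalc : ι s * ι a = ι t * ι a * (ι s / ι t) := by
      field_simp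
    rw [embCoord_smul, e, smul_smul, smul_smul, map_mul]
    exact congrArg (fun r : K => r • y) hcalc

/-- If `I_aug (M ⊗ K) = M ⊗ K` then `a M ⊆ I_aug M` for some `a ≠ 0`. -/
theorem exists_smul_mem_augSub (I : Set G)
    (h : augSub I (specRep (algebraMap O K) c ρM) = ⊤) :
    ∃ a : O, a ≠ 0 ∧ ∀ x : M, a • x ∈ augSub I ρM := by
  classical
  set ι : O →+* K := algebraMap O K with hι
  have hιinj : Function.Injective ι := IsFractionRing.injective O K
  have hj : ∀ j : n, ∃ a : O, a ≠ 0 ∧ a • c j ∈ augSub I ρM := by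
    intro j
    have hmem : embCoord ι c (c j) ∈ augSub I (specRep ι c ρM) := by
      rw [h]
      exact Submodule.mem_top
    obtain ⟨a, ha, m, hm, e⟩ := exists_embCoord_eq_smul c ρM K I hmem
    refine ⟨a, ha, ?_⟩
    have : m = a • c j := by
      apply embCoord_injective ι c hιinj
      rw [e, embCoord_smul]
    rw [← this]
    exact hm
  choose a ha0 ha using hj
  refine ⟨∏ j, a j, Finset.prod_ne_zero_iff.mpr fun j _ => ha0 j, fun x => ?_⟩
  rw [← c.sum_repr x, Finset.smul_sum]
  refine Submodule.sum_mem _ fun j _ => ?_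
  have e : (∏ i, a i) • c.repr x j • c j
      = (c.repr x j * ∏ i ∈ Finset.univ.erase j, a i) • (a j • c j) := by
    rw [smul_smul, smul_smul, ← Finset.mul_prod_erase Finset.univ a (Finset.mem_univ j)]
    congr 1
    ring
  rw [e]
  exact Submodule.smul_mem _ _ (ha j)

include b c K in
/-- **Generic part.** -/
theorem ord_identities_of_not_exists (hspan : Submodule.span T (Set.range ρ) = ⊤)
    (hrel : ∀ g : G, ρM g * ρM g - ψ (LinearMap.trace T V (ρ g)) • ρM g
      + ψ (LinearMap.det (ρ g)) • (1 : Module.End O M) = 0)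
    (h2 : (2 : O) ≠ 0) (I : Set G)
    (hno : ¬ ∃ a : O, a ≠ 0 ∧ ∀ x : M, a • x ∈ augSub I ρM)
    {σ₀ σ τ : G} (hσ₀ : σ₀ ∈ I) (hσ : σ ∈ I) (hτ : ∀ s ∈ I, τ * s * τ⁻¹ ∈ I) :
    (ρM σ₀ - ψ (LinearMap.det (ρ σ₀)) • (1 : Module.End O M)) * (ρM σ - 1) = 0 ∧
    (ρM σ₀ - ψ (LinearMap.det (ρ σ₀)) • (1 : Module.End O M)) * ρM τ * (ρM σ₀ - 1) = 0 := by
  classical
  set ι : O →+* K := algebraMap O K with hι
  have hιinj : Function.Injective ι := IsFractionRing.injective O K
  set f : T →+* K := ι.comp ψ with hf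
  have h2K : (2 : K) ≠ 0 := by
    intro h0
    apply h2
    apply hιinj
    rw [map_zero, map_ofNat]
    exact h0
  obtain ⟨Ψ, hΨ⟩ := exists_spec_algHom b ρ ψ c ρM ι hspan hrel h2K
  have hfin2 : Module.finrank K (Fin 2 → K) = 2 := by simp
  have hneM : augSub I (specRep ι c ρM) ≠ ⊤ := fun h => hno (exists_smul_mem_augSub c ρM K I h)
  have hneW : augSub I (specRep f b ρ) ≠ ⊤ := fun h =>
    hneM (augSub_eq_top_of_algHom (specRep f b ρ) (specRep ι c ρM) Ψ hΨ I h)
  have hdet : LinearMap.det (specRep f b ρ σ₀) = ι (ψ (LinearMap.det (ρ σ₀))) := by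
    rw [specRep_apply, embEnd_det]
    rfl
  have hinj := embEnd_injective ι c hιinj
  constructor
  · have h := ord_identity_two hfin2 (specRep f b ρ) I hneW hσ₀ hσ
    have h' := congrArg Ψ h
    rw [map_mul, map_sub, map_sub, map_smul, map_one, hΨ, hΨ, map_zero, hdet] at h'
    apply hinj
    rw [map_zero, map_mul, map_sub, map_sub, embEnd_smul, map_one]
    exact h'
  · have h := ord_identity_three hfin2 (specRep f b ρ) I hneW hσ₀ hτ
    have h' := congrArg Ψ h
    rw [map_mul, map_mul, map_sub, map_sub, map_smul, map_one, hΨ, hΨ, map_zero, hdet] at h'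
    apply hinj
    rw [map_zero, map_mul, map_mul, map_sub, map_sub, embEnd_smul, map_one]
    exact h'

end Generic

section Main

variable {T : Type*} [CommRing T] {G : Type*} [Group G]
  {V : Type*} [AddCommGroup V] [Module T V] (b : Module.Basis (Fin 2) T V)
  (ρ : G →* Module.End T V)
  {O : Type*} [CommRing O] [IsDomain O] [IsLocalRing O] (ψ : T →+* O)
  {M : Type*} [AddCommGroup M] [Module O M] {n : Type*} [Fintype n] [DecidableEq n]
  (c : Module.Basis n O M) (ρM : G →* Module.End O M)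

include b c in
/-- **EIG, pure algebra.**  The identities (O2), (O3) on `M` from a residual ordinary line and the
geometric input `GEO`. -/
theorem ordEig_of_geo [Nonempty n] (hspan : Submodule.span T (Set.range ρ) = ⊤)
    (hrel : ∀ g : G, ρM g * ρM g - ψ (LinearMap.trace T V (ρ g)) • ρM g
      + ψ (LinearMap.det (ρ g)) • (1 : Module.End O M) = 0)
    (h2 : IsUnit (2 : O)) (I : Set G) (l : V →ₗ[T] T) (hl1 : ∃ v, IsUnit (ψ (l v)))
    (hl2 : ∀ σ ∈ I, ∀ v, ψ (l (ρ σ v - v)) ∈ maximalIdeal O)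
    (hgeo : ∀ a : O, a ≠ 0 → (∀ x : M, a • x ∈ augSub I ρM) →
      augSub I ρM ⊔ (maximalIdeal O) • (⊤ : Submodule O M) = ⊤)
    {σ₀ σ τ : G} (hσ₀ : σ₀ ∈ I) (hσ : σ ∈ I) (hτ : ∀ s ∈ I, τ * s * τ⁻¹ ∈ I) :
    (ρM σ₀ - ψ (LinearMap.det (ρ σ₀)) • (1 : Module.End O M)) * (ρM σ - 1) = 0 ∧
    (ρM σ₀ - ψ (LinearMap.det (ρ σ₀)) • (1 : Module.End O M)) * ρM τ * (ρM σ₀ - 1) = 0 := by
  have hres := augSub_sup_ne_top b ρ ψ c ρM hspan hrel h2 I l hl1 hl2
  refine ord_identities_of_not_exists b ρ ψ c ρM (FractionRing O) hspan hrel h2.ne_zero I ?_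
    hσ₀ hσ hτ
  rintro ⟨a, ha, hax⟩
  exact hres (hgeo a ha hax)

end Main

end Fermat.Agent.S33.H692

end
end
-- ===== PACK-END S33/H692/OrdAlg.lean

-- ===== PACK-BEGIN S19/H135/Indep.lean
section
/-
Cell A3 / WP-C (helper135): independence and descent for lattices of Galois-equivariant functions.
* `linearIndependent_Qb_of_equivariant`: `ℚ`-independent equivariant functions are `ℚ̄`-independent;
* `exists_basis_of_fg_equivariant`: a f.g. `ℤ_(ℓ)`-module of equivariant functions has a finite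
  basis which is `ℚ̄`-linearly independent;
* `mem_of_integral_combination`: an equivariant combination of the basis with integral
  coefficients has coefficients in `ℤ_(ℓ)`.
-/


set_option autoImplicit false

namespace Fermat.Agent.S19.H135

section Indep

variable {M : Type*} {ι : Type*}

/-- Artin-type lemma: a `ℚ`-linearly independent family of functions `M → ℚ̄` which are
equivariant for a family of surjections `act σ : M → M` is `ℚ̄`-linearly independent. -/
theorem linearIndependent_Qb_of_equivariant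
    (act : (AlgebraicClosure ℚ ≃ₐ[ℚ] AlgebraicClosure ℚ) → M → M)
    (hact : ∀ σ, Function.Surjective (act σ))
    (f : ι → M → AlgebraicClosure ℚ) (hf : ∀ i σ m, f i (act σ m) = σ (f i m))
    (hli : LinearIndependent ℚ f) : LinearIndependent (AlgebraicClosure ℚ) f := by
  classical
  rw [linearIndependent_iff']
  intro s
  induction s using Finset.strongInduction with
  | H s ih =>
    intro g hg i hi
    by_contra hne
    set c : ι → AlgebraicClosure ℚ := fun k => (g i)⁻¹ * g k with hc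
    have hci : c i = 1 := inv_mul_cancel₀ hne
    have hsum : ∑ k ∈ s, c k • f k = 0 := by
      have : ∑ k ∈ s, c k • f k = (g i)⁻¹ • ∑ k ∈ s, g k • f k := by
        rw [Finset.smul_sum]
        refine Finset.sum_congr rfl (fun k _ => ?_)
        rw [smul_smul]
      rw [this, hg, smul_zero]
    have hfix : ∀ σ : AlgebraicClosure ℚ ≃ₐ[ℚ] AlgebraicClosure ℚ, ∀ k ∈ s, σ (c k) = c k := by
      intro σ
      have h1 : ∑ k ∈ s, σ (c k) • f k = 0 := by
        funext m
        obtain ⟨m', rfl⟩ := hact σ m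
        have h := congrArg σ (congrFun hsum m')
        simp only [Finset.sum_apply, Pi.smul_apply, smul_eq_mul, map_sum, map_mul, map_zero,
          Pi.zero_apply] at h ⊢
        rw [← h]
        refine Finset.sum_congr rfl (fun k _ => ?_)
        rw [hf]
      have h3 : ∑ k ∈ s, (σ (c k) - c k) • f k = 0 := by
        simp only [sub_smul, Finset.sum_sub_distrib, h1, hsum, sub_zero]
      have h2 : ∑ k ∈ s.erase i, (σ (c k) - c k) • f k = 0 := by
        rw [← Finset.add_sum_erase s _ hi] at h3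
        simpa [hci] using h3
      intro k hk
      by_cases hki : k = i
      · subst hki
        rw [hci, map_one]
      · have := ih (s.erase i) (Finset.erase_ssubset hi) (fun k => σ (c k) - c k) h2 k
          (Finset.mem_erase.mpr ⟨hki, hk⟩)
        exact sub_eq_zero.mp this
    have hrat : ∀ k ∈ s, ∃ q : ℚ, algebraMap ℚ (AlgebraicClosure ℚ) q = c k :=
      fun k hk => exists_rat_of_fixed (fun σ => hfix σ k hk)
    choose! q hq using hrat
    have hsumq : ∑ k ∈ s, q k • f k = 0 := by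
      rw [← hsum]
      refine Finset.sum_congr rfl (fun k hk => ?_)
      rw [← hq k hk, algebraMap_smul]
    have hqi := linearIndependent_iff'.mp hli s q hsumq i hi
    have h1 : c i = 0 := by rw [← hq i hi, hqi, map_zero]
    rw [hci] at h1
    exact one_ne_zero h1

end Indep

section Lattice

variable {ℓ : ℕ} [Fact ℓ.Prime] {M : Type}

omit [Fact ℓ.Prime] in
theorem isTorsionFree_fun_h135
    (N : Submodule (GaloisRep.ratLocalizedAt ℓ) (M → AlgebraicClosure ℚ)) :
    Module.IsTorsionFree (GaloisRep.ratLocalizedAt ℓ) N := by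
  refine Module.IsTorsionFree.of_smul_eq_zero ?_
  intro r f hrf
  by_cases hr : r = 0
  · exact Or.inl hr
  · right
    apply Subtype.ext
    funext m
    have h1 : (r • (f : M → AlgebraicClosure ℚ)) m = 0 := by
      have := congrArg (fun x : N => (x : M → AlgebraicClosure ℚ) m) hrf
      simpa using this
    rw [Pi.smul_apply, Algebra.smul_def, mul_eq_zero] at h1
    rcases h1 with h1 | h1
    · exfalso
      apply hr
      exact algebraMap_ratLocalizedAt_injective ℓ (by rw [h1, map_zero])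
    · exact h1

/-- A finitely generated `ℤ_(ℓ)`-module of equivariant functions has a finite basis that is
linearly independent over `ℚ̄`. -/
theorem exists_basis_of_fg_equivariant
    (act : (AlgebraicClosure ℚ ≃ₐ[ℚ] AlgebraicClosure ℚ) → M → M)
    (hact : ∀ σ, Function.Surjective (act σ))
    (N : Submodule (GaloisRep.ratLocalizedAt ℓ) (M → AlgebraicClosure ℚ)) (hfg : N.FG)
    (heq : ∀ f ∈ N, ∀ σ m, f (act σ m) = σ (f m)) :
    ∃ (n : ℕ) (b : Fin n → M → AlgebraicClosure ℚ), (∀ i, b i ∈ N) ∧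
      LinearIndependent (AlgebraicClosure ℚ) b ∧
      Submodule.span (GaloisRep.ratLocalizedAt ℓ) (Set.range b) = N := by
  have hfin : Module.Finite (GaloisRep.ratLocalizedAt ℓ) N := Module.Finite.iff_fg.mpr hfg
  have htf : Module.IsTorsionFree (GaloisRep.ratLocalizedAt ℓ) N := isTorsionFree_fun_h135 N
  have hfree : Module.Free (GaloisRep.ratLocalizedAt ℓ) N := inferInstance
  let B := Module.finBasis (GaloisRep.ratLocalizedAt ℓ) N
  refine ⟨_, fun i => (B i : M → AlgebraicClosure ℚ), fun i => (B i).2, ?_, ?_⟩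
  · have h1 : LinearIndependent (GaloisRep.ratLocalizedAt ℓ)
        (fun i => (B i : M → AlgebraicClosure ℚ)) :=
      B.linearIndependent.map' N.subtype (Submodule.ker_subtype N)
    have hfr := isFractionRing_ratLocalizedAt ℓ
    have h2 : LinearIndependent ℚ (fun i => (B i : M → AlgebraicClosure ℚ)) :=
      (LinearIndependent.iff_fractionRing (GaloisRep.ratLocalizedAt ℓ) ℚ).mp h1
    exact linearIndependent_Qb_of_equivariant act hact _ (fun i σ m => heq _ (B i).2 σ m) h2
  · have h1 : Set.range (fun i => (B i : M → AlgebraicClosure ℚ)) = N.subtype '' Set.range B := by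
      rw [← Set.range_comp]
      rfl
    rw [h1, ← Submodule.map_span, B.span_eq, Submodule.map_subtype_top]

/-- Descent of coefficients: an equivariant combination of a `ℚ̄`-independent family of
equivariant functions with coefficients integral over `ℤ_(ℓ)` has coefficients in `ℤ_(ℓ)`. -/
theorem mem_of_integral_combination
    (act : (AlgebraicClosure ℚ ≃ₐ[ℚ] AlgebraicClosure ℚ) → M → M)
    (hact : ∀ σ, Function.Surjective (act σ))
    {n : ℕ} (b : Fin n → M → AlgebraicClosure ℚ)
    (hb : ∀ i σ m, b i (act σ m) = σ (b i m))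
    (hli : LinearIndependent (AlgebraicClosure ℚ) b)
    (z : Fin n → AlgebraicClosure ℚ) (hz : ∀ i, IsIntegral (GaloisRep.ratLocalizedAt ℓ) (z i))
    (hF : ∀ σ m, (∑ i, z i • b i) (act σ m) = σ ((∑ i, z i • b i) m)) :
    ∑ i, z i • b i ∈ Submodule.span (GaloisRep.ratLocalizedAt ℓ) (Set.range b) := by
  have hfix : ∀ σ : AlgebraicClosure ℚ ≃ₐ[ℚ] AlgebraicClosure ℚ, ∀ i, σ (z i) = z i := by
    intro σ
    have h1 : ∑ i, (σ (z i) - z i) • b i = 0 := by
      funext m
      obtain ⟨m', rfl⟩ := hact σ m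
      have h := hF σ m'
      simp only [Finset.sum_apply, Pi.smul_apply, smul_eq_mul, map_sum, map_mul, hb] at h
      simp only [Finset.sum_apply, Pi.smul_apply, smul_eq_mul, sub_mul, Finset.sum_sub_distrib,
        Pi.zero_apply, hb]
      rw [h, sub_self]
    intro i
    have := linearIndependent_iff'.mp hli Finset.univ _ h1 i (Finset.mem_univ i)
    exact sub_eq_zero.mp this
  have hr : ∀ i, ∃ r : GaloisRep.ratLocalizedAt ℓ,
      algebraMap _ (AlgebraicClosure ℚ) r = z i :=
    fun i => exists_ratLocalizedAt_of_fixed_of_isIntegral ℓ (fun σ => hfix σ i) (hz i)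
  choose r hr using hr
  have : ∑ i, z i • b i = ∑ i, r i • b i := by
    refine Finset.sum_congr rfl (fun i _ => ?_)
    rw [← hr i, algebraMap_smul]
  rw [this]
  exact Submodule.sum_mem _ (fun i _ => Submodule.smul_mem _ _ (Submodule.subset_span ⟨i, rfl⟩))

end Lattice

end Fermat.Agent.S19.H135

end
-- ===== PACK-END S19/H135/Indep.lean

-- ===== PACK-BEGIN S37/Red/H160/DatumBasic.lean
section




/-!
# S37-RED (helper160): basic facts on a reduction datum `G : Datum A π F Fk`

* `ker_π`, `ρ_eq_zero_iff` : kernels of `π` and `ρ` are the maximal ideals;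
* `inv_mem` : elements of `O` with nonzero reduction are units of `O`;
* `mem_of_algebraMap_mem` : `O ∩ K = A`;
* `aeval_mem`, `ρ_aeval` : polynomials over `A` in `t ∈ O` lie in `O`, and reduce coefficientwise;
* `valAt_iff_ord_pos`, `valAt_unique` : on helper40's `ValAt`.
-/

set_option autoImplicit false

noncomputable section

namespace Fermat.Agent.S37.Red.H160

open AlgebraicCurve Polynomial IntermediateField
open Fermat.Agent.S37.Red

universe u

section Datum

variable {K k F Fk : Type u} [Field K] [Field k] [Field F] [Field Fk]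
  [Algebra K F] [Algebra k Fk] {A : ValuationSubring K} {π : A →+* k} (G : Datum A π F Fk)

include G in
theorem ker_π (a : A) : π a = 0 ↔ a ∈ IsLocalRing.maximalIdeal A := by
  have hmax := RingHom.ker_isMaximal_of_surjective π G.π_surj
  rw [← IsLocalRing.eq_maximalIdeal hmax, RingHom.mem_ker]

theorem ρ_eq_zero_iff (f : G.O) : G.ρ f = 0 ↔ f ∈ IsLocalRing.maximalIdeal G.O := by
  have hmax := RingHom.ker_isMaximal_of_surjective G.ρ G.ρ_surj
  rw [← IsLocalRing.eq_maximalIdeal hmax, RingHom.mem_ker]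

theorem isUnit_of_ρ_ne_zero {f : G.O} (h : G.ρ f ≠ 0) : IsUnit f := by
  by_contra hu
  exact h ((ρ_eq_zero_iff G f).mpr ((IsLocalRing.mem_maximalIdeal f).mpr hu))

theorem inv_mem {y : F} (hy : y ∈ G.O) (h : G.ρ ⟨y, hy⟩ ≠ 0) : y⁻¹ ∈ G.O := by
  obtain ⟨u, hu⟩ := isUnit_of_ρ_ne_zero G h
  have h1 : ((u⁻¹ : G.Oˣ) : G.O) * ⟨y, hy⟩ = 1 := by rw [← hu]; simp
  have h2 : (((u⁻¹ : G.Oˣ) : G.O) : F) * y = 1 := by
    have := congrArg Subtype.val h1
    simpa using this
  have hy0 : y ≠ 0 := by
    rintro rfl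
    rw [mul_zero] at h2
    exact zero_ne_one h2
  have h3 : y⁻¹ = (((u⁻¹ : G.Oˣ) : G.O) : F) := by
    field_simp
    rw [mul_comm]
    exact h2.symm
  rw [h3]
  exact ((u⁻¹ : G.Oˣ) : G.O).2

theorem ρ_inv {y : F} (hy : y ∈ G.O) (h : G.ρ ⟨y, hy⟩ ≠ 0) :
    G.ρ ⟨y⁻¹, _root_.Fermat.Agent.S37.Red.H160.inv_mem G hy h⟩ = (G.ρ ⟨y, hy⟩)⁻¹ := by
  have hy0 : y ≠ 0 := by
    rintro rfl
    apply h
    have : (⟨0, hy⟩ : G.O) = 0 := rfl
    rw [this, _root_.map_zero]
  have h1 : (⟨y⁻¹, _root_.Fermat.Agent.S37.Red.H160.inv_mem G hy h⟩ : G.O) * ⟨y, hy⟩ = 1 := by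
    apply Subtype.ext
    simp [hy0]
  have h2 := congrArg G.ρ h1
  rw [_root_.map_mul, _root_.map_one] at h2
  exact eq_inv_of_mul_eq_one_left h2

/-- `O ∩ K = A`. -/
theorem mem_of_algebraMap_mem {u : K} (h : algebraMap K F u ∈ G.O) : u ∈ A := by
  by_contra hu
  have hinv : u⁻¹ ∈ A := (A.mem_or_inv_mem u).resolve_left hu
  have hu0 : u ≠ 0 := by
    rintro rfl
    exact hu A.zero_mem
  have hker : π ⟨u⁻¹, hinv⟩ = 0 := by
    rw [ker_π G, IsLocalRing.mem_maximalIdeal, mem_nonunits_iff]
    rintro ⟨w, hw⟩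
    apply hu
    have h1 : ((w⁻¹ : Aˣ) : A) * ⟨u⁻¹, hinv⟩ = 1 := by rw [← hw]; simp
    have h2 : (((w⁻¹ : Aˣ) : A) : K) * u⁻¹ = 1 := by
      have := congrArg Subtype.val h1
      simpa using this
    have h3 : (((w⁻¹ : Aˣ) : A) : K) = u := by
      field_simp at h2
      exact h2
    rw [← h3]
    exact ((w⁻¹ : Aˣ) : A).2
  have h1 := G.ρ_const ⟨u⁻¹, hinv⟩
  rw [hker, _root_.map_zero] at h1
  have h2 : (⟨algebraMap K F u, h⟩ : G.O) * ⟨algebraMap K F (u⁻¹), G.const_mem ⟨u⁻¹, hinv⟩⟩ = 1 := by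
    apply Subtype.ext
    simp [hu0]
  have h3 := congrArg G.ρ h2
  rw [_root_.map_mul, h1, mul_zero, _root_.map_one] at h3
  exact zero_ne_one h3

/-- The inclusion `A → O`. -/
def constHom : A →+* G.O where
  toFun a := ⟨algebraMap K F (a : K), G.const_mem a⟩
  map_one' := by apply Subtype.ext; simp
  map_mul' a b := by apply Subtype.ext; simp
  map_zero' := by apply Subtype.ext; simp
  map_add' a b := by apply Subtype.ext; simp

theorem ρ_comp_constHom : G.ρ.comp (constHom G) = (algebraMap k Fk).comp π := by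
  ext a
  exact G.ρ_const a

theorem coe_eval₂_constHom {t : F} (ht : t ∈ G.O) (p : A[X]) :
    ((eval₂ (constHom G) ⟨t, ht⟩ p : G.O) : F) = aeval t (p.map A.subtype) := by
  have h := hom_eval₂ p (constHom G) G.O.subtype ⟨t, ht⟩
  rw [aeval_def, eval₂_map]
  exact h

theorem aeval_mem {t : F} (ht : t ∈ G.O) (p : A[X]) : aeval t (p.map A.subtype) ∈ G.O := by
  rw [← coe_eval₂_constHom G ht p]
  exact (eval₂ (constHom G) ⟨t, ht⟩ p).2

theorem ρ_aeval {t : F} (ht : t ∈ G.O) (p : A[X]) :
    G.ρ ⟨aeval t (p.map A.subtype), aeval_mem G ht p⟩ = aeval (G.ρ ⟨t, ht⟩) (p.map π) := by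
  have h1 : (⟨aeval t (p.map A.subtype), aeval_mem G ht p⟩ : G.O)
      = eval₂ (constHom G) ⟨t, ht⟩ p := Subtype.ext (coe_eval₂_constHom G ht p).symm
  rw [h1, hom_eval₂, ρ_comp_constHom, aeval_def, eval₂_map]

theorem red_of_mem {f : F} (hf : f ∈ G.O) : G.red f = G.ρ ⟨f, hf⟩ := by
  simp [Datum.red, hf]

/-- A coordinate with transcendental reduction is transcendental. -/
theorem transcendental_of_red [IsAlgClosed K] {t : F} (ht : t ∈ G.O)
    (htb : Transcendental k (G.red t)) : Transcendental K t := by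
  intro halg
  obtain ⟨u, hu⟩ := Fermat.Agent.S24.FF.mem_range_of_isAlgebraic halg
  apply htb
  have hu' : algebraMap K F u = t := hu
  have huO : algebraMap K F u ∈ G.O := hu' ▸ ht
  have huA := mem_of_algebraMap_mem G huO
  have h1 := G.ρ_const ⟨u, huA⟩
  have h2 : G.red t = algebraMap k Fk (π ⟨u, huA⟩) := by
    rw [red_of_mem G ht, ← h1]
    congr 1
    exact Subtype.ext hu'.symm
  rw [h2]
  exact isAlgebraic_algebraMap _

end Datum

section ValAt

variable {K F : Type u} [Field K] [Field F] [Algebra K F]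

theorem valAt_iff_mem_nonunits (P : Place K F) (f : F) (a : K) :
    ValAt P f a ↔ f - algebraMap K F a ∈ P.toValuationSubring.nonunits :=
  (ValuationSubring.mem_nonunits_iff _).symm

theorem valAt_iff_ord_pos (P : Place K F) {f : F} {a : K} (h : f - algebraMap K F a ≠ 0) :
    ValAt P f a ↔ 0 < P.ord (f - algebraMap K F a) := by
  rw [valAt_iff_mem_nonunits, Fermat.Agent.S24.FF.ord_pos_iff_mem_nonunits P h]

theorem valAt_unique (P : Place K F) {f : F} {a a' : K} (h : ValAt P f a) (h' : ValAt P f a') :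
    a = a' := by
  by_contra hne
  rw [valAt_iff_mem_nonunits] at h h'
  have h1 : algebraMap K F (a - a') ∈ P.toValuationSubring.nonunits := by
    have h2 : algebraMap K F (a - a') = (f - algebraMap K F a') - (f - algebraMap K F a) := by
      rw [_root_.map_sub]; ring
    rw [h2, ValuationSubring.mem_nonunits_iff] at *
    calc P.toValuationSubring.valuation ((f - algebraMap K F a') - (f - algebraMap K F a))
        ≤ max (P.toValuationSubring.valuation (f - algebraMap K F a'))
            (P.toValuationSubring.valuation (f - algebraMap K F a)) :=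
          Valuation.map_sub _ _ _
      _ < 1 := max_lt h' h
  have hne' : algebraMap K F (a - a') ≠ 0 := by
    rw [Ne, _root_.map_eq_zero, sub_eq_zero]
    exact hne
  have h3 := (Fermat.Agent.S24.FF.ord_pos_iff_mem_nonunits P hne').mpr h1
  rw [Fermat.Agent.S24.FF.ord_algebraMap] at h3
  exact lt_irrefl _ h3

end ValAt

end Fermat.Agent.S37.Red.H160

end
end
-- ===== PACK-END S37/Red/H160/DatumBasic.lean

-- ===== PACK-BEGIN Lib/RR/H98/DegreeBoundCore.lean
section


/-!
# RR library, L3.2 (helper98): `ℓ(D) = deg D + 1 - g` for all divisors of large degree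

Stichtenoth 1.4.17(b).  Take `D₀` attaining Riemann's bound (`exists_ell_eq`) and
`c := deg D₀ + g`.  If `deg D ≥ c`, Riemann's inequality gives `ℓ(D - D₀) ≥ 1`, so there is
`z ≠ 0` in `L(D - D₀)`; then `D₀ ≤ D + div z`, hence the bound is attained at `D + div z`
(`ell_eq_of_le`), and `ℓ`, `deg` do not change when adding `div z`.

`ell_eq_of_degree_ge` is the hypothesis-explicit form (any `g` satisfying Riemann's inequality
and attained at some `D₀`); it only needs layer L1 (`Lib/RR/Basic`, on main).  The frozen skeleton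
statement `exists_degree_bound` is deduced from it in `H98/DegreeBound.lean`.
-/

set_option autoImplicit false

noncomputable section

open AlgebraicCurve

namespace Fermat.Agent.Lib.RR.H98

open Fermat.Agent.Lib.RR

variable {K F : Type*} [Field K] [Field F] [Algebra K F]

/-- A nonzero element of `L(D)` exists as soon as `ℓ(D) ≥ 1`. -/
theorem exists_ne_zero_mem_L_of_ell_pos {D : Divisor K F} (h : 0 < ell D) :
    ∃ z : F, z ≠ 0 ∧ z ∈ riemannRochSpace D := by
  have hne : riemannRochSpace D ≠ ⊥ := by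
    intro hbot
    unfold ell at h
    rw [hbot, finrank_bot] at h
    exact lt_irrefl _ h
  obtain ⟨z, hz, hz0⟩ := Submodule.exists_mem_ne_zero_of_ne_bot hne
  exact ⟨z, hz0, hz⟩

/-- If `z ≠ 0` lies in `L(D - D₀)` then `D₀ ≤ D + div z`. -/
theorem le_add_divOf_of_mem_L [FF1 K F] {D D₀ : Divisor K F} {z : F}
    (hz : z ≠ 0) (hmem : z ∈ riemannRochSpace (D - D₀)) : D₀ ≤ D + divOf (K := K) z hz := by
  rw [Finsupp.le_def]
  intro v
  rw [mem_L_iff] at hmem
  rcases hmem v with h0 | h
  · exact absurd h0 hz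
  · have h1 : (D + divOf (K := K) z hz : Divisor K F) v = D v + v.ord z := by
      rw [Finsupp.add_apply, divOf_apply]
    have h2 : (D - D₀) v = D v - D₀ v := Finsupp.sub_apply (g₁ := D) (g₂ := D₀) (a := v)
    rw [h1]
    rw [h2] at h
    omega

/-- Hypothesis-explicit form of L3.2: if `g` satisfies Riemann's inequality
`deg D + 1 - g ≤ ℓ(D)` for all `D`, and `D₀` attains it, then `ℓ(D) = deg D + 1 - g` for all `D`
with `deg D ≥ deg D₀ + g`. -/
theorem ell_eq_of_degree_ge [FF1 K F] (g : ℤ)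
    (hR : ∀ D : Divisor K F, Divisor.degree D + 1 - g ≤ ell D)
    {D₀ : Divisor K F} (h₀ : (ell D₀ : ℤ) = Divisor.degree D₀ + 1 - g)
    {D : Divisor K F} (hD : Divisor.degree D₀ + g ≤ Divisor.degree D) :
    (ell D : ℤ) = Divisor.degree D + 1 - g := by
  -- `ℓ(D - D₀) ≥ 1`
  have h1 := hR (D - D₀)
  rw [map_sub] at h1
  have hpos : 0 < ell (D - D₀) := by
    have : (0 : ℤ) < ell (D - D₀) := by omega
    exact_mod_cast this
  obtain ⟨z, hz, hmem⟩ := exists_ne_zero_mem_L_of_ell_pos hpos
  have hle : D₀ ≤ D + divOf z hz := le_add_divOf_of_mem_L hz hmem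
  -- the bound is attained above `D₀`
  have h2 := degree_sub_ell_mono hle
  have h3 := hR (D + divOf z hz)
  rw [ell_add_divOf] at h2 h3
  rw [map_add, degree_divOf, add_zero] at h2 h3
  have h4 := hR D
  omega

end Fermat.Agent.Lib.RR.H98

end
end
-- ===== PACK-END Lib/RR/H98/DegreeBoundCore.lean

-- ===== PACK-BEGIN Lib/RR/H742/AdelesCore.lean
section


/-!
# RR library, layer L4 (core, hypothesis-explicit): repartitions and `H¹(D)`

Everything here depends only on layer L1 (`Basic.lean`).  The input from Riemann's theorem is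
taken as explicit hypotheses `hg` (Riemann's inequality with constant `g`) and `h₀` (the bound is
attained at `D₀`).
-/

set_option autoImplicit false

noncomputable section

open AlgebraicCurve

namespace Fermat.Agent.Lib.RR.H742

open Fermat.Agent.Lib.RR

variable {K F : Type*} [Field K] [Field F] [Algebra K F]

/-! ### L4.0 : repartitions = families with finitely many poles -/

theorem finite_poles [HasPrincipalDivisors K F] (f : F) :
    {v : Place K F | v.ord f < 0}.Finite := by
  rcases eq_or_ne f 0 with rfl | hf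
  · simp
  obtain ⟨D, hD, -⟩ := HasPrincipalDivisors.exists_divisor (K := K) f hf
  refine D.support.finite_toSet.subset fun v hv => ?_
  simp only [Set.mem_ofPred_eq] at hv
  rw [Finset.mem_coe, Finsupp.mem_support_iff, hD v]
  omega

theorem ord_add_nonneg (v : Place K F) {a b : F} (ha : 0 ≤ v.ord a) (hb : 0 ≤ v.ord b) :
    0 ≤ v.ord (a + b) :=
  ord_nonneg_of_mem v (add_mem (mem_of_ord_nonneg v ha) (mem_of_ord_nonneg v hb))

theorem ord_mul_nonneg (v : Place K F) {a b : F} (ha : 0 ≤ v.ord a) (hb : 0 ≤ v.ord b) :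
    0 ≤ v.ord (a * b) :=
  ord_nonneg_of_mem v (mul_mem (mem_of_ord_nonneg v ha) (mem_of_ord_nonneg v hb))

theorem finite_poles_of_mem_repartitions [HasPrincipalDivisors K F] {α : Place K F → F}
    (hα : α ∈ repartitions K F) : {v : Place K F | v.ord (α v) < 0}.Finite := by
  unfold repartitions at hα
  induction hα using Algebra.adjoin_induction with
  | mem x hx =>
    have : {v : Place K F | v.ord (x v) < 0} = {v : Place K F | ¬v.adicValuation (x v) ≤ 1} :=
      Set.ext fun v => (v.not_adicValuation_le_one_iff).symm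
    rw [this]; exact hx
  | algebraMap f => exact finite_poles f
  | add x y _ _ hx hy =>
    refine (hx.union hy).subset fun v hv => ?_
    simp only [Set.mem_ofPred_eq, Pi.add_apply, Set.mem_union] at hv ⊢
    by_contra hcon
    push Not at hcon
    have := ord_add_nonneg v hcon.1 hcon.2
    omega
  | mul x y _ _ hx hy =>
    refine (hx.union hy).subset fun v hv => ?_
    simp only [Set.mem_ofPred_eq, Pi.mul_apply, Set.mem_union] at hv ⊢
    by_contra hcon
    push Not at hcon
    have := ord_mul_nonneg v hcon.1 hcon.2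
    omega

/-- **L4.0** -/
theorem mem_repartitions_iff' [HasPrincipalDivisors K F] {α : Place K F → F} :
    α ∈ repartitions K F ↔ {v : Place K F | v.ord (α v) < 0}.Finite :=
  ⟨finite_poles_of_mem_repartitions, mem_repartitions_of_finite_ord⟩

/-! ### Single-place repartitions -/

/-- The repartition which is `x` at `v` and `0` elsewhere. -/
def single (v : Place K F) (x : F) : ↥(repartitions K F) :=
  ⟨fun w => by classical exact if w = v then x else 0,
    mem_repartitions_of_finite_ord <| (Set.finite_singleton v).subset fun w hw => by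
      classical
      simp only [Set.mem_ofPred_eq] at hw
      by_contra hne
      rw [Set.mem_singleton_iff] at hne
      simp [hne] at hw⟩

@[simp] theorem single_apply_self (v : Place K F) (x : F) :
    (single v x : Place K F → F) v = x := by
  simp [single]

theorem single_apply_of_ne {v w : Place K F} (h : w ≠ v) (x : F) :
    (single v x : Place K F → F) w = 0 := by
  simp [single, h]

/-- The principal repartition of `f`. -/
def iota (f : F) : ↥(repartitions K F) := algebraMap F ↥(repartitions K F) f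

@[simp] theorem iota_apply (f : F) (v : Place K F) :
    (iota (K := K) f : Place K F → F) v = f := rfl

theorem iota_mem_principal (f : F) : iota (K := K) f ∈ principalRepartitions K F :=
  mem_principalRepartitions_iff.mpr ⟨f, rfl⟩

theorem iota_mem_repartitionsOf_iff {D : Divisor K F} {f : F} :
    iota (K := K) f ∈ repartitionsOf D ↔ f ∈ riemannRochSpace D := by
  rw [mem_repartitionsOf_iff, mem_riemannRochSpace_iff]
  rfl

@[simp] theorem coe_smul_apply (c : K) (α : ↥(repartitions K F)) (v : Place K F) :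
    ((c • α : ↥(repartitions K F)) : Place K F → F) v =
      algebraMap K F c * (α : Place K F → F) v := by
  show c • ((α : Place K F → F) v) = _
  rw [Algebra.smul_def]

@[simp] theorem coe_sub_apply (α β : ↥(repartitions K F)) (v : Place K F) :
    ((α - β : ↥(repartitions K F)) : Place K F → F) v =
      (α : Place K F → F) v - (β : Place K F → F) v := rfl

@[simp] theorem coe_add_apply (α β : ↥(repartitions K F)) (v : Place K F) :
    ((α + β : ↥(repartitions K F)) : Place K F → F) v =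
      (α : Place K F → F) v + (β : Place K F → F) v := rfl

/-! ### One step -/

/-- One step for repartitions: `𝔸(D + P) ⊆ 𝔸(D) + K α₀` whenever `α₀` has order exactly
`-(D P + 1)` at `P`. -/
theorem repartitionsOf_add_prim_le (v : Place K F) (hv : v.deg = 1) (D : Divisor K F)
    {α₀ : ↥(repartitions K F)} (hα₀ : α₀ ∈ repartitionsOf (D + prim v))
    (h0 : (α₀ : Place K F → F) v ≠ 0) (hord : v.ord ((α₀ : Place K F → F) v) = -(D v + 1)) :
    repartitionsOf (D + prim v) ≤ repartitionsOf D ⊔ Submodule.span K {α₀} := by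
  intro α hα
  have hg : 0 ≤ v.ord ((α : Place K F → F) v * ((α₀ : Place K F → F) v)⁻¹) := by
    rcases eq_or_ne ((α : Place K F → F) v) 0 with h | h
    · simp [h]
    · have h1 := ((mem_repartitionsOf_iff.mp hα) v).resolve_left h
      simp only [Finsupp.coe_add, Pi.add_apply, prim_apply_self] at h1
      rw [v.ord_mul h (inv_ne_zero h0), v.ord_inv, hord]
      omega
  obtain ⟨c, hc⟩ := exists_const_sub v hv hg
  have hdecomp : α = (α - c • α₀) + c • α₀ := by abel
  rw [hdecomp]
  refine Submodule.add_mem _ (Submodule.mem_sup_left ?_)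
    (Submodule.mem_sup_right (Submodule.smul_mem _ _ (Submodule.mem_span_singleton_self _)))
  have hmem' : α - c • α₀ ∈ repartitionsOf (D + prim v) :=
    Submodule.sub_mem _ hα (Submodule.smul_mem _ _ hα₀)
  rw [mem_repartitionsOf_iff]
  intro w
  by_cases hw : w = v
  · subst hw
    have hfac : ((α - c • α₀ : ↥(repartitions K F)) : Place K F → F) w =
        ((α : Place K F → F) w * ((α₀ : Place K F → F) w)⁻¹ - algebraMap K F c) *
          (α₀ : Place K F → F) w := by
      rw [coe_sub_apply, coe_smul_apply]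
      field_simp
    rcases hc with hc | hc
    · left; rw [hfac, hc, zero_mul]
    · rcases eq_or_ne (((α - c • α₀ : ↥(repartitions K F)) : Place K F → F) w) 0 with h0' | h0'
      · exact Or.inl h0'
      right
      have hne : (α : Place K F → F) w * ((α₀ : Place K F → F) w)⁻¹ - algebraMap K F c ≠ 0 := by
        intro h; rw [hfac, h, zero_mul] at h0'; exact h0' rfl
      rw [hfac, w.ord_mul hne h0, hord]
      omega
  · have h2 := mem_repartitionsOf_iff.mp hmem' w
    simpa [prim_apply_of_ne hw] using h2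

/-- A repartition in `𝔸(D + P)` of exact order `-(D P + 1)` at `P`. -/
theorem exists_alpha0 (v : Place K F) (D : Divisor K F) :
    ∃ α₀ : ↥(repartitions K F), α₀ ∈ repartitionsOf (D + prim v) ∧
      (α₀ : Place K F → F) v ≠ 0 ∧ v.ord ((α₀ : Place K F → F) v) = -(D v + 1) := by
  obtain ⟨t, ht⟩ := exists_ord_eq_one v
  have ht0 : t ≠ 0 := ne_zero_of_ord_ne_zero v (by omega)
  refine ⟨single v (t ^ (-(D v + 1))), ?_, ?_, ?_⟩
  · rw [mem_repartitionsOf_iff]
    intro w
    by_cases hw : w = v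
    · subst hw
      right
      rw [single_apply_self, w.ord_zpow, ht]
      simp
    · left; exact single_apply_of_ne hw _
  · rw [single_apply_self]; exact zpow_ne_zero _ ht0
  · rw [single_apply_self, v.ord_zpow, ht, mul_one]

/-- `𝔸(D) + F`. -/
abbrev SS (D : Divisor K F) : Submodule K ↥(repartitions K F) :=
  repartitionsOf D ⊔ principalRepartitions K F

theorem SS_mono {D D' : Divisor K F} (h : D ≤ D') : SS D ≤ SS D' :=
  sup_le_sup_right (repartitionsOf_mono h) _

theorem not_mem_repartitionsOf_of_ord (v : Place K F) (D : Divisor K F)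
    {α₀ : ↥(repartitions K F)} (h0 : (α₀ : Place K F → F) v ≠ 0)
    (hord : v.ord ((α₀ : Place K F → F) v) = -(D v + 1)) : α₀ ∉ repartitionsOf D := by
  intro h
  have := ((mem_repartitionsOf_iff.mp h) v).resolve_left h0
  omega

theorem mem_SS_iff {D : Divisor K F} {α : ↥(repartitions K F)} :
    α ∈ SS D ↔ ∃ f : F, α - iota f ∈ repartitionsOf D := by
  constructor
  · intro h
    obtain ⟨β, hβ, γ, hγ, rfl⟩ := Submodule.mem_sup.mp h
    obtain ⟨f, hf⟩ := mem_principalRepartitions_iff.mp hγ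
    refine ⟨f, ?_⟩
    have : γ = iota f := Subtype.ext hf
    rw [this, add_sub_cancel_right]
    exact hβ
  · rintro ⟨f, hf⟩
    have : α = (α - iota f) + iota f := by abel
    rw [this]
    exact Submodule.add_mem _ (Submodule.mem_sup_left hf)
      (Submodule.mem_sup_right (iota_mem_principal f))

section FF1

variable [hFF : FF1 K F]

/-- Case A of the step: if `ℓ` jumps, `𝔸(D + P) + F = 𝔸(D) + F`. -/
theorem SS_add_prim_of_ell (D : Divisor K F) (v : Place K F)
    (h : ell (D + prim v) = ell D + 1) : SS (D + prim v) = SS D := by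
  apply le_antisymm _ (SS_mono (le_add_of_nonneg_right (by simp [prim])))
  have hle : riemannRochSpace D ≤ riemannRochSpace (D + prim v) :=
    L_mono (le_add_of_nonneg_right (by simp [prim]))
  have hne : ¬ riemannRochSpace (D + prim v) ≤ riemannRochSpace D := by
    intro hcon
    have := Submodule.finrank_mono hcon
    unfold ell at h
    omega
  obtain ⟨f, hf, hf'⟩ := SetLike.not_le_iff_exists.mp hne
  have hf0 : f ≠ 0 := fun h => hf' (h ▸ Submodule.zero_mem _)
  have hord : v.ord f = -(D v + 1) := by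
    have h1 := (mem_L_iff.mp hf v).resolve_left hf0
    simp only [Finsupp.coe_add, Pi.add_apply, prim_apply_self] at h1
    by_contra hne'
    apply hf'
    rw [mem_L_iff]
    intro w
    right
    by_cases hw : w = v
    · subst hw; omega
    · have h2 := (mem_L_iff.mp hf w).resolve_left hf0
      simpa [prim_apply_of_ne hw] using h2
  have hstep := repartitionsOf_add_prim_le v (deg_eq_one v) D
    (α₀ := iota f) (iota_mem_repartitionsOf_iff.mpr hf) (by simpa using hf0)
    (by simpa using hord)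
  refine sup_le (hstep.trans (sup_le le_sup_left ?_)) le_sup_right
  rw [Submodule.span_singleton_le_iff_mem]
  exact Submodule.mem_sup_right (iota_mem_principal f)

/-- Case B of the step: if `ℓ` does not jump, `α₀ ∉ 𝔸(D) + F`. -/
theorem not_mem_SS_of_ell (D : Divisor K F) (v : Place K F)
    (h : ell (D + prim v) = ell D) {α₀ : ↥(repartitions K F)}
    (hα₀ : α₀ ∈ repartitionsOf (D + prim v))
    (h0 : (α₀ : Place K F → F) v ≠ 0) (hord : v.ord ((α₀ : Place K F → F) v) = -(D v + 1)) :
    α₀ ∉ SS D := by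
  intro hmem
  obtain ⟨f, hf⟩ := mem_SS_iff.mp hmem
  have hle : riemannRochSpace D ≤ riemannRochSpace (D + prim v) :=
    L_mono (le_add_of_nonneg_right (by simp [prim]))
  have heq : riemannRochSpace D = riemannRochSpace (D + prim v) :=
    Submodule.eq_of_le_of_finrank_eq hle h.symm
  have hf' : α₀ - iota f ∈ repartitionsOf (D + prim v) :=
    repartitionsOf_mono (le_add_of_nonneg_right (by simp [prim])) hf
  have hif : iota (K := K) f ∈ repartitionsOf (D + prim v) := by
    have := Submodule.sub_mem _ hα₀ hf'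
    rwa [sub_sub_cancel] at this
  have hfL : f ∈ riemannRochSpace D := by
    rw [heq]; exact iota_mem_repartitionsOf_iff.mp hif
  have : α₀ ∈ repartitionsOf D := by
    have := Submodule.add_mem _ hf (iota_mem_repartitionsOf_iff.mpr hfL)
    rwa [sub_add_cancel] at this
  exact not_mem_repartitionsOf_of_ord v D h0 hord this

theorem SS_add_prim_eq_sup (D : Divisor K F) (v : Place K F) {α₀ : ↥(repartitions K F)}
    (hα₀ : α₀ ∈ repartitionsOf (D + prim v))
    (h0 : (α₀ : Place K F → F) v ≠ 0) (hord : v.ord ((α₀ : Place K F → F) v) = -(D v + 1)) :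
    SS (D + prim v) = SS D ⊔ Submodule.span K {α₀} := by
  apply le_antisymm
  · refine sup_le ((repartitionsOf_add_prim_le v (deg_eq_one v) D hα₀ h0 hord).trans ?_) ?_
    · exact sup_le (le_sup_left.trans le_sup_left) le_sup_right
    · exact le_sup_right.trans le_sup_left
  · refine sup_le (SS_mono (le_add_of_nonneg_right (by simp [prim]))) ?_
    rw [Submodule.span_singleton_le_iff_mem]
    exact Submodule.mem_sup_left hα₀

/-- Linear algebra: extending a complement by one vector. -/
theorem ext_step {A : Type*} [AddCommGroup A] [Module K A] (S W : Submodule K A)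
    [Module.Finite K W] (hd : Disjoint S W) {a : A} (ha : a ∉ S ⊔ W) :
    Disjoint S (W ⊔ Submodule.span K {a}) ∧ Module.Finite K ↥(W ⊔ Submodule.span K {a}) ∧
      Module.finrank K ↥(W ⊔ Submodule.span K {a}) = Module.finrank K W + 1 := by
  have haW : a ∉ W := fun h => ha (Submodule.mem_sup_right h)
  have ha0 : a ≠ 0 := fun h => haW (h ▸ Submodule.zero_mem _)
  refine ⟨?_, inferInstance, ?_⟩
  · rw [Submodule.disjoint_def]
    intro x hxS hx
    obtain ⟨w, hw, y, hy, rfl⟩ := Submodule.mem_sup.mp hx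
    obtain ⟨c, rfl⟩ := Submodule.mem_span_singleton.mp hy
    by_cases hc : c = 0
    · subst hc
      rw [zero_smul, add_zero] at hxS ⊢
      exact (Submodule.disjoint_def.mp hd) w hxS hw
    · exfalso
      apply ha
      have : a = c⁻¹ • (w + c • a) + (-(c⁻¹ • w)) := by
        rw [smul_add, smul_smul, inv_mul_cancel₀ hc, one_smul]; abel
      rw [this]
      exact Submodule.add_mem _ (Submodule.mem_sup_left (Submodule.smul_mem _ _ hxS))
        (Submodule.mem_sup_right (Submodule.neg_mem _ (Submodule.smul_mem _ _ hw)))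
  · have h1 := Submodule.finrank_sup_add_finrank_inf_eq W (Submodule.span K {a})
    have h2 : W ⊓ Submodule.span K {a} = ⊥ := by
      rw [← disjoint_iff, Submodule.disjoint_span_singleton]
      intro h; exact absurd h haW
    rw [h2, finrank_bot, add_zero, finrank_span_singleton ha0] at h1
    exact h1

/-- For `D ≤ D'`, the space `𝔸(D') + F` is the direct sum of `𝔸(D) + F` and a finite-dimensional
space of dimension `(deg D' - ℓ(D')) - (deg D - ℓ(D))`. -/
theorem exists_compl_of_le (D : Divisor K F) : ∀ D' : Divisor K F, D ≤ D' →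
    ∃ W : Submodule K ↥(repartitions K F), Module.Finite K W ∧ Disjoint (SS D) W ∧
      SS D ⊔ W = SS D' ∧
      (Module.finrank K W : ℤ) =
        (Divisor.degree D' - ell D') - (Divisor.degree D - ell D) := by
  refine induction_ge D ?_ ?_
  · exact ⟨⊥, inferInstance, disjoint_bot_right, sup_bot_eq _, by simp⟩
  · rintro D'' v - ⟨W, hfin, hdisj, hsup, hrank⟩
    have h1 := ell_add_prim_le D'' v
    have h2 : ell D'' ≤ ell (D'' + prim v) :=
      ell_mono (le_add_of_nonneg_right (by simp [prim]))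
    have hdeg : Divisor.degree (D'' + prim v) = Divisor.degree D'' + 1 := by
      rw [map_add, degree_prim']
    by_cases hA : ell (D'' + prim v) = ell D'' + 1
    · refine ⟨W, hfin, hdisj, ?_, ?_⟩
      · rw [hsup, SS_add_prim_of_ell D'' v hA]
      · rw [hrank, hdeg, hA]; push_cast; ring
    · have hB : ell (D'' + prim v) = ell D'' := by omega
      obtain ⟨α₀, hα₀, h0, hord⟩ := exists_alpha0 v D''
      have hnot : α₀ ∉ SS D ⊔ W := by
        rw [hsup]; exact not_mem_SS_of_ell D'' v hB hα₀ h0 hord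
      obtain ⟨hd', hfin', hrank'⟩ := ext_step (SS D) W hdisj hnot
      refine ⟨W ⊔ Submodule.span K {α₀}, hfin', hd', ?_, ?_⟩
      · rw [← sup_assoc, hsup, SS_add_prim_eq_sup D'' v hα₀ h0 hord]
      · rw [hrank', hdeg, hB]; push_cast; rw [hrank]; ring

/-- Every repartition lies in some `𝔸(E)`. -/
theorem exists_mem_repartitionsOf (α : ↥(repartitions K F)) :
    ∃ E : Divisor K F, α ∈ repartitionsOf E := by
  classical
  have hfin := finite_poles_of_mem_repartitions α.2
  let E : Divisor K F := Finsupp.ofSupportFinite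
    (fun v => if v.ord ((α : Place K F → F) v) < 0 then -v.ord ((α : Place K F → F) v) else 0)
    (hfin.subset fun v hv => by
      simp only [Function.mem_support, ne_eq, ite_eq_right_iff, not_forall] at hv
      exact hv.1)
  refine ⟨E, mem_repartitionsOf_iff.mpr fun v => Or.inr ?_⟩
  show -(if v.ord ((α : Place K F → F) v) < 0 then -v.ord ((α : Place K F → F) v) else 0) ≤ _
  split_ifs with h
  · omega
  · omega

/-- If Riemann's bound is attained at `D₀` then `𝔸 = 𝔸(D₀) + F`. -/
theorem SS_eq_top_of_attained (g : ℤ)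
    (hg : ∀ D : Divisor K F, Divisor.degree D + 1 - g ≤ ell D) {D₀ : Divisor K F}
    (h₀ : (ell D₀ : ℤ) = Divisor.degree D₀ + 1 - g) : SS D₀ = ⊤ := by
  rw [eq_top_iff]
  intro α _
  obtain ⟨E, hE⟩ := exists_mem_repartitionsOf α
  obtain ⟨W, hfin, -, hsup, hrank⟩ := exists_compl_of_le D₀ (D₀ ⊔ E) le_sup_left
  have h1 := hg (D₀ ⊔ E)
  have h2 : Module.finrank K W = 0 := by omega
  have h3 : W = ⊥ := Submodule.finrank_eq_zero.mp h2
  rw [h3, sup_bot_eq] at hsup
  rw [hsup]
  exact Submodule.mem_sup_left (repartitionsOf_mono le_sup_right hE)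

/-- **L4.1 + L4.2, hypothesis-explicit**: `H¹(D)` is finite-dimensional and
`ℓ(D) - dim H¹(D) = deg D + 1 - g`, where `g` is the constant of Riemann's inequality,
attained at some `D₀`. -/
theorem H1_core (g : ℤ)
    (hg : ∀ D : Divisor K F, Divisor.degree D + 1 - g ≤ ell D) {D₀ : Divisor K F}
    (h₀ : (ell D₀ : ℤ) = Divisor.degree D₀ + 1 - g) (D : Divisor K F) :
    Module.Finite K (H1 D) ∧
      (ell D : ℤ) - Module.finrank K (H1 D) = Divisor.degree D + 1 - g := by
  have hmono := degree_sub_ell_mono (le_sup_right : D₀ ≤ D ⊔ D₀)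
  have h1 := hg (D ⊔ D₀)
  have hatt : (ell (D ⊔ D₀) : ℤ) = Divisor.degree (D ⊔ D₀) + 1 - g := by omega
  have htop := SS_eq_top_of_attained g hg hatt
  obtain ⟨W, hfin, hdisj, hsup, hrank⟩ := exists_compl_of_le D (D ⊔ D₀) le_sup_left
  rw [htop] at hsup
  have hcompl : IsCompl (SS D) W := ⟨hdisj, codisjoint_iff.mpr hsup⟩
  let e : (↥(repartitions K F) ⧸ SS D) ≃ₗ[K] W := Submodule.quotientEquivOfIsCompl _ _ hcompl
  have hfinH : Module.Finite K (H1 D) := Module.Finite.equiv e.symm
  refine ⟨hfinH, ?_⟩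
  have hr : Module.finrank K (H1 D) = Module.finrank K W := e.finrank_eq
  rw [hr, hrank]
  omega

end FF1

end Fermat.Agent.Lib.RR.H742

end
end
-- ===== PACK-END Lib/RR/H742/AdelesCore.lean

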