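import Mathlib
import Fermat.Prelude.Def_AlgebraicCurve_DivisorClassGroup
import Fermat.Prelude.Def_AlgebraicCurve_Repartitions
import Fermat.Agent.Pack.S33.E7L1
import Fermat.Agent.Pack.S33.E8L2
import Fermat.Agent.Pack.S33.E8L1
import Fermat.Agent.Pack.S33.E5L0
import Fermat.Agent.Pack.S33.E1L0
import Fermat.Agent.Pack.S33.E5L3
import Fermat.Agent.Pack.S33.E8L0
import Fermat.Agent.Pack.S33.E1L2
import Fermat.Agent.Pack.S33.E8L3
import Fermat.Agent.Pack.S33.E2L2
import Fermat.Agent.Pack.S33.E7L2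
import Fermat.Agent.Pack.S33.E2L3
import Fermat.Agent.Pack.S33.E7L3
import Fermat.Agent.Pack.S33.E4L1

-- ===== PACK-BEGIN S29/H942/MeroRootGlue.lean
section


/-!
# Gluing meromorphic `p`-th roots along an exhaustion by simply connected open sets
-/

set_option autoImplicit false

noncomputable section

open Filter Topology Set Complex MeromorphicOn Function

namespace Fermat.Agent.S29.H942

/-- Existence of a root in normal form on a simply connected open set on which `f` has finitely
many zeros and poles. -/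
theorem exists_isNFRootOn_of_finite {f : ℂ → ℂ} {U : Set ℂ}
    (hUc : IsSimplyConnected U) (hU : IsOpen U) (hf : MeromorphicOn f U)
    (h₂f : ∀ x ∈ U, meromorphicOrderAt f x ≠ ⊤) (h₃f : (divisor f U).support.Finite)
    {p : ℕ} (hp : p ≠ 0) (hdiv : ∀ x ∈ U, (p : ℤ) ∣ (meromorphicOrderAt f x).untop₀) :
    ∃ h : ℂ → ℂ, IsNFRootOn h f U p := by
  have hdiv' : ∀ z, (p : ℤ) ∣ divisor f U z := by
    intro z
    by_cases hz : z ∈ U
    · rw [divisor_apply hf hz]
      exact hdiv z hz
    · have : divisor f U z = 0 := by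
        rw [divisor_def]
        simp [hz]
      rw [this]
      exact dvd_zero _
  obtain ⟨h, hh, hpow⟩ := exists_meromorphicOn_pow_eq_of_finite hUc hU hf
    (fun u => h₂f u u.2) h₃f hp hdiv'
  exact ⟨_, isNFRootOn_toMeromorphicNFOn hU hh hpow⟩

/-- Multiplying a root by a root of unity gives a root. -/
lemma IsNFRootOn.const_mul {h f : ℂ → ℂ} {V : Set ℂ} {p : ℕ} (hh : IsNFRootOn h f V p)
    {ζ : ℂ} (hζ : ζ ^ p = 1) (hζ0 : ζ ≠ 0) : IsNFRootOn (fun z => ζ * h z) f V p := by
  refine ⟨fun x hx => ?_, fun x hx => ?_⟩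
  · have := (hh.1 hx).smul_analytic (g := fun _ : ℂ => ζ) analyticAt_const hζ0
    exact this
  · filter_upwards [hh.2 x hx] with y hy
    simp only [Pi.pow_apply] at hy ⊢
    rw [mul_pow, hζ, one_mul, hy]

/-- A root (of a function of finite order) on a nonempty open set is non-zero somewhere. -/
lemma IsNFRootOn.exists_ne_zero {h f : ℂ → ℂ} {V : Set ℂ} {p : ℕ} (hp : p ≠ 0)
    (hh : IsNFRootOn h f V p) (hV : IsOpen V) (hne : V.Nonempty)
    (hf : ∀ x ∈ V, meromorphicOrderAt f x ≠ ⊤) : ∃ y ∈ V, h y ≠ 0 := by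
  obtain ⟨x, hx⟩ := hne
  have h1 := hh.eventually_ne_zero hp hx (hf x hx)
  have h2 : V ∈ 𝓝[≠] x := mem_nhdsWithin_of_mem_nhds (hV.mem_nhds hx)
  obtain ⟨y, hy1, hy2⟩ := (h1.and h2).exists
  exact ⟨y, hy2, hy1⟩

/-- **Gluing.** -/
theorem exists_isNFRootOn_iUnion {f : ℂ → ℂ} {p : ℕ} (hp : p ≠ 0) (V : ℕ → Set ℂ)
    (hVo : ∀ n, IsOpen (V n)) (hVsc : ∀ n, IsSimplyConnected (V n)) (hmono : Monotone V)
    (hf : ∀ n, MeromorphicOn f (V n)) (hford : ∀ n, ∀ x ∈ V n, meromorphicOrderAt f x ≠ ⊤)
    (hfin : ∀ n, (divisor f (V n)).support.Finite)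
    (hdiv : ∀ n, ∀ x ∈ V n, (p : ℤ) ∣ (meromorphicOrderAt f x).untop₀) :
    ∃ h : ℂ → ℂ, IsNFRootOn h f (⋃ n, V n) p := by
  classical
  -- roots on each `V n`
  have h1 : ∀ n, ∃ h : ℂ → ℂ, IsNFRootOn h f (V n) p := fun n =>
    exists_isNFRootOn_of_finite (hVsc n) (hVo n) (hf n) (hford n) (hfin n) hp (hdiv n)
  choose H hH using h1
  have hpc : ∀ n, IsPreconnected (V n) := fun n =>
    (hVsc n).isPathConnected.isConnected.isPreconnected
  have hV0 : ∀ n, V 0 ⊆ V n := fun n => hmono (Nat.zero_le n)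
  -- normalisation against `H 0` on `V 0`
  have h2 : ∀ n, ∃ ζ : ℂ, ζ ^ p = 1 ∧ ∀ x ∈ V 0, H n x = ζ * H 0 x := fun n =>
    IsNFRootOn.exists_eq_mul hp (hVo 0) (hpc 0) (hford 0) (hH 0) ((hH n).mono (hV0 n))
  choose ζ hζ hζH using h2
  have hζ0 : ∀ n, ζ n ≠ 0 := by
    intro n h0
    have := hζ n
    rw [h0, zero_pow hp] at this
    exact zero_ne_one this
  set H' : ℕ → ℂ → ℂ := fun n z => (ζ n)⁻¹ * H n z with hH'def
  have hH' : ∀ n, IsNFRootOn (H' n) f (V n) p := fun n =>
    (hH n).const_mul (by rw [inv_pow, hζ n, inv_one]) (inv_ne_zero (hζ0 n))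
  have hH'0 : ∀ n, ∀ x ∈ V 0, H' n x = H 0 x := by
    intro n x hx
    simp only [hH'def]
    rw [hζH n x hx, ← mul_assoc, inv_mul_cancel₀ (hζ0 n), one_mul]
  obtain ⟨y₀, hy₀V, hy₀⟩ := (hH 0).exists_ne_zero hp (hVo 0) (hVsc 0).nonempty (hford 0)
  -- compatibility
  have h3 : ∀ n m, n ≤ m → ∀ x ∈ V n, H' m x = H' n x := by
    intro n m hnm x hx
    obtain ⟨ξ, -, hξH⟩ := IsNFRootOn.exists_eq_mul hp (hVo n) (hpc n) (hford n) (hH' n)
      ((hH' m).mono (hmono hnm))
    have h4 := hξH y₀ (hV0 n hy₀V)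
    rw [hH'0 m y₀ hy₀V, hH'0 n y₀ hy₀V] at h4
    have h5 : ξ = 1 := by
      have : (ξ - 1) * H 0 y₀ = 0 := by rw [sub_mul, one_mul, ← h4, sub_self]
      rcases mul_eq_zero.1 this with h | h
      · exact sub_eq_zero.1 h
      · exact absurd h hy₀
    rw [hξH x hx, h5, one_mul]
  -- the glued function
  set idx : ℂ → ℕ := fun z => if hz : ∃ n, z ∈ V n then Nat.find hz else 0 with hidx
  set h : ℂ → ℂ := fun z => H' (idx z) z with hh
  have h6 : ∀ m, ∀ x ∈ V m, h x = H' m x := by
    intro m x hx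
    have hex : ∃ n, x ∈ V n := ⟨m, hx⟩
    have hi : idx x = Nat.find hex := by simp only [hidx, dif_pos hex]
    have hle : idx x ≤ m := by rw [hi]; exact Nat.find_min' hex hx
    have hmem : x ∈ V (idx x) := by rw [hi]; exact Nat.find_spec hex
    exact (h3 (idx x) m hle x hmem).symm
  refine ⟨h, fun x hx => ?_, fun x hx => ?_⟩
  · obtain ⟨m, hm⟩ := mem_iUnion.1 hx
    have heq : h =ᶠ[𝓝 x] H' m := by
      filter_upwards [(hVo m).mem_nhds hm] with y hy using h6 m y hy
    exact (meromorphicNFAt_congr heq).2 ((hH' m).1 hm)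
  · obtain ⟨m, hm⟩ := mem_iUnion.1 hx
    have hVn : V m ∈ 𝓝[≠] x := mem_nhdsWithin_of_mem_nhds ((hVo m).mem_nhds hm)
    filter_upwards [(hH' m).2 x hm, hVn] with y hy hyV
    simp only [Pi.pow_apply] at hy ⊢
    rw [h6 m y hyV, hy]

end Fermat.Agent.S29.H942

end
end
-- ===== PACK-END S29/H942/MeroRootGlue.lean

-- ===== PACK-BEGIN Lib/RR/H443/Discrete.lean
section




/-!
# RR bridge (helper443), part 1: valuation rings of a function field are discrete

Characteristic-free.  Let `F / K` be a field extension such that `F` is finite over `K(x)` for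
every transcendental `x`.  Then every valuation subring `O ≠ ⊤` of `F` containing `K` is a
principal ideal ring (Stichtenoth, Thm. 1.1.6), hence defines a `Place K F`.
-/

set_option autoImplicit false

noncomputable section

open AlgebraicCurve Polynomial IntermediateField

namespace Fermat.Agent.Lib.RR.H443

variable {K F : Type*} [Field K] [Field F] [Algebra K F]

section Valuation

variable {Γ : Type*} [LinearOrderedCommGroupWithZero Γ] (v : Valuation F Γ)

/-- A finite sum whose nonzero terms have pairwise distinct valuations vanishes only if all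
terms vanish. -/
theorem eq_zero_of_sum_eq_zero {ι : Type*} (s : Finset ι) (f : ι → F)
    (hinj : ∀ i ∈ s, ∀ j ∈ s, f i ≠ 0 → f j ≠ 0 → v (f i) = v (f j) → i = j)
    (hsum : ∑ i ∈ s, f i = 0) : ∀ i ∈ s, f i = 0 := by
  classical
  by_contra hcon
  push Not at hcon
  obtain ⟨i₁, hi₁, hfi₁⟩ := hcon
  have hne : (s.filter fun i => f i ≠ 0).Nonempty := ⟨i₁, Finset.mem_filter.mpr ⟨hi₁, hfi₁⟩⟩
  obtain ⟨i₀, hi₀, hmax⟩ := Finset.exists_max_image _ (fun i => v (f i)) hne
  rw [Finset.mem_filter] at hi₀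
  have hv0 : v (f i₀) ≠ 0 := (Valuation.ne_zero_iff v).mpr hi₀.2
  have hrest : v (∑ j ∈ s.erase i₀, f j) < v (f i₀) := by
    refine Valuation.map_sum_lt v hv0 fun j hj => ?_
    rw [Finset.mem_erase] at hj
    by_cases hfj : f j = 0
    · rw [hfj, _root_.map_zero]
      exact zero_lt_iff.mpr hv0
    · have hle := hmax j (Finset.mem_filter.mpr ⟨hj.2, hfj⟩)
      refine lt_of_le_of_ne hle fun heq => hj.1 ?_
      exact hinj j hj.2 i₀ hi₀.1 hfj hi₀.2 heq
  have htot : v (∑ j ∈ s, f j) = v (f i₀) := by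
    rw [← Finset.add_sum_erase s f hi₀.1]
    exact Valuation.map_add_eq_of_lt_left v hrest
  rw [hsum, _root_.map_zero] at htot
  exact hv0 htot.symm

variable (hK : ∀ a : K, a ≠ 0 → v (algebraMap K F a) = 1)

include hK in
theorem v_algebraMap_le_one (a : K) : v (algebraMap K F a) ≤ 1 := by
  rcases eq_or_ne a 0 with rfl | ha
  · simp
  · exact (hK a ha).le

include hK in
theorem v_aeval_le_one {x : F} (hx : v x ≤ 1) (p : K[X]) : v (aeval x p) ≤ 1 := by
  rw [aeval_eq_sum_range]
  refine Valuation.map_sum_le v fun i _ => ?_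
  rw [Algebra.smul_def, _root_.map_mul, _root_.map_pow]
  exact mul_le_one' (v_algebraMap_le_one v hK _) (pow_le_one' hx i)

include hK in
/-- `v (p(x)) = 1` when `p(0) ≠ 0` and `v x < 1`. -/
theorem v_aeval_eq_one {x : F} (hx : v x < 1) (p : K[X]) (hp : p.coeff 0 ≠ 0) :
    v (aeval x p) = 1 := by
  have hdecomp : aeval x p = algebraMap K F (p.coeff 0) + x * aeval x p.divX := by
    have := congrArg (aeval x) (Polynomial.divX_mul_X_add p)
    simp only [_root_.map_add, _root_.map_mul, aeval_X, aeval_C] at this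
    rw [← this]
    ring
  rw [hdecomp]
  have h1 : v (x * aeval x p.divX) < v (algebraMap K F (p.coeff 0)) := by
    rw [hK _ hp, _root_.map_mul]
    calc v x * v (aeval x p.divX) ≤ v x * 1 :=
          mul_le_mul' le_rfl (v_aeval_le_one v hK hx.le _)
      _ = v x := mul_one _
      _ < 1 := hx
  rw [Valuation.map_add_eq_of_lt_left v h1, hK _ hp]

include hK in
/-- `v (p(x)) = v(x) ^ ord₀ p` for `p ≠ 0`, when `v x < 1`. -/
theorem v_aeval {x : F} (hx : v x < 1) (p : K[X]) (hp : p ≠ 0) :
    v (aeval x p) = v x ^ p.rootMultiplicity 0 := by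
  obtain ⟨q, hq, hndvd⟩ := Polynomial.exists_eq_pow_rootMultiplicity_mul_and_not_dvd p hp 0
  have hq0 : q.coeff 0 ≠ 0 := by
    intro h0
    apply hndvd
    rw [_root_.map_zero, sub_zero]
    exact Polynomial.X_dvd_iff.mpr h0
  conv_lhs => rw [hq]
  rw [_root_.map_zero, sub_zero, _root_.map_mul, _root_.map_pow, aeval_X, _root_.map_mul, _root_.map_pow,
    v_aeval_eq_one v hK hx q hq0, mul_one]

include hK in
/-- **Chain lemma** (Stichtenoth 1.1.6 (a)). -/
theorem chain_le_finrank {x : F} (hx0 : x ≠ 0) (hx : v x < 1) [FiniteDimensional K⟮x⟯ F]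
    {m : ℕ} (y : Fin m → F) (hy1 : ∀ i, v (y i) < 1) (hyx : ∀ i, v x ≤ v (y i))
    (hmono : StrictMono fun i => v (y i)) :
    m ≤ Module.finrank K⟮x⟯ F := by
  classical
  have hvx0 : v x ≠ 0 := (Valuation.ne_zero_iff v).mpr hx0
  have hy0 : ∀ i, y i ≠ 0 := fun i h => by
    have := hyx i
    rw [h, _root_.map_zero] at this
    exact hvx0 (le_antisymm this zero_le)
  open scoped IntermediateField.algebraAdjoinAdjoin in
  have hli : LinearIndependent K⟮x⟯ y := by
    rw [← LinearIndependent.iff_fractionRing (R := Algebra.adjoin K {x}) (K := K⟮x⟯)]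
    rw [Fintype.linearIndependent_iff]
    intro c hc i
    -- choose polynomials
    have hex : ∀ j, ∃ p : K[X], aeval x p = (c j : F) := fun j => by
      have : (c j : F) ∈ (aeval x : K[X] →ₐ[K] F).range := by
        rw [← Algebra.adjoin_singleton_eq_range_aeval]
        exact (c j).2
      exact this
    choose p hp using hex
    have hsum : ∑ j ∈ Finset.univ, aeval x (p j) * y j = 0 := by
      rw [← hc]
      refine Finset.sum_congr rfl fun j _ => ?_
      rw [hp j]
      rfl
    have hval : ∀ j, aeval x (p j) * y j ≠ 0 →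
        v (aeval x (p j) * y j) = v x ^ (p j).rootMultiplicity 0 * v (y j) := by
      intro j hj
      have hpj : p j ≠ 0 := by
        rintro h
        rw [h, _root_.map_zero, zero_mul] at hj
        exact hj rfl
      rw [_root_.map_mul, v_aeval v hK hx (p j) hpj]
    have key := eq_zero_of_sum_eq_zero v Finset.univ (fun j => aeval x (p j) * y j) (by
      intro i _ j _ hi hj heq
      rw [hval i hi, hval j hj] at heq
      -- wlog on the multiplicities
      have aux : ∀ (a b : ℕ) (i j : Fin m), a ≤ b →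
          v x ^ a * v (y i) = v x ^ b * v (y j) → i = j := by
        intro a b i j hab h
        obtain ⟨d, rfl⟩ := Nat.exists_eq_add_of_le hab
        rw [pow_add, mul_assoc] at h
        have hpa : v x ^ a ≠ 0 := pow_ne_zero _ hvx0
        have h' : v (y i) = v x ^ d * v (y j) := mul_left_cancel₀ hpa h
        rcases Nat.eq_zero_or_pos d with rfl | hd
        · rw [pow_zero, one_mul] at h'
          exact hmono.injective h'
        · exfalso
          have h1 : v x ^ d ≤ v x := by
            calc v x ^ d = v x ^ (d - 1 + 1) := by rw [Nat.sub_add_cancel hd]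
              _ = v x ^ (d - 1) * v x := pow_succ _ _
              _ ≤ 1 * v x := mul_le_mul' (pow_le_one' hx.le _) le_rfl
              _ = v x := one_mul _
          have h2 : v x ^ d * v (y j) < v x := by
            calc v x ^ d * v (y j) ≤ v x * v (y j) := mul_le_mul' h1 le_rfl
              _ < v x * 1 := by
                  exact mul_lt_mul_of_pos_left (hy1 j) (zero_lt_iff.mpr hvx0)
              _ = v x := mul_one _
          have h3 := hyx i
          rw [h'] at h3
          exact absurd h2 (not_lt.mpr h3)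
      rcases le_total ((p i).rootMultiplicity 0) ((p j).rootMultiplicity 0) with h | h
      · exact aux _ _ i j h heq
      · exact (aux _ _ j i h heq.symm).symm) hsum
    have hi := key i (Finset.mem_univ i)
    have : aeval x (p i) = 0 := (mul_eq_zero.mp hi).resolve_right (hy0 i)
    apply Subtype.ext
    rw [← hp i, this]
    rfl
  simpa using hli.fintype_card_le_finrank

end Valuation

section ValuationSubring

variable (O : ValuationSubring F)

/-- The valuation of a valuation subring containing `K` is trivial on `Kˣ`. -/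
theorem valuation_algebraMap_eq_one (hK : ∀ a : K, algebraMap K F a ∈ O) (a : K) (ha : a ≠ 0) :
    O.valuation (algebraMap K F a) = 1 := by
  have h1 : O.valuation (algebraMap K F a) ≤ 1 := (O.valuation_le_one_iff _).mpr (hK a)
  have h2 : O.valuation (algebraMap K F a⁻¹) ≤ 1 := (O.valuation_le_one_iff _).mpr (hK a⁻¹)
  have hne : algebraMap K F a ≠ 0 := (_root_.map_ne_zero (algebraMap K F)).mpr ha
  have hv0 : O.valuation (algebraMap K F a) ≠ 0 := (Valuation.ne_zero_iff _).mpr hne
  have hprod : O.valuation (algebraMap K F a) * O.valuation (algebraMap K F a⁻¹) = 1 := by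
    rw [← _root_.map_mul, ← _root_.map_mul, mul_inv_cancel₀ ha, _root_.map_one, _root_.map_one]
  have h3 : 1 ≤ O.valuation (algebraMap K F a) := by
    by_contra hlt
    rw [not_le] at hlt
    have h4 : O.valuation (algebraMap K F a) * O.valuation (algebraMap K F a⁻¹) < 1 := by
      calc O.valuation (algebraMap K F a) * O.valuation (algebraMap K F a⁻¹)
          ≤ O.valuation (algebraMap K F a) * 1 := mul_le_mul' le_rfl h2
        _ = O.valuation (algebraMap K F a) := mul_one _
        _ < 1 := hlt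
    rw [hprod] at h4
    exact lt_irrefl _ h4
  exact le_antisymm h1 h3

/-- A nonzero nonunit of a valuation subring containing `K` is transcendental over `K`. -/
theorem transcendental_of_valuation_lt_one (hK : ∀ a : K, algebraMap K F a ∈ O) {x : F}
    (hx : O.valuation x < 1) (hx0 : x ≠ 0) : Transcendental K x := by
  intro halg
  have hint : IsIntegral K x := halg.isIntegral
  have hinv : x⁻¹ ∈ Algebra.adjoin K {x} := by
    have h := IntermediateField.adjoin_simple_toSubalgebra_of_isAlgebraic halg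
    have hmem' : x⁻¹ ∈ K⟮x⟯ := _root_.InvMemClass.inv_mem (mem_adjoin_simple_self K x)
    have hmem : x⁻¹ ∈ (K⟮x⟯).toSubalgebra := hmem'
    rwa [h] at hmem
  have hxO : x ∈ O := (O.valuation_le_one_iff _).mp hx.le
  let S : Subalgebra K F := { O.toSubring with algebraMap_mem' := hK }
  have hle : Algebra.adjoin K {x} ≤ S :=
    Algebra.adjoin_le (Set.singleton_subset_iff.mpr (show x ∈ S from hxO))
  have hinvO : x⁻¹ ∈ O := hle hinv
  have h1 : O.valuation x⁻¹ ≤ 1 := (O.valuation_le_one_iff _).mpr hinvO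
  have hv0 : O.valuation x ≠ 0 := (Valuation.ne_zero_iff _).mpr hx0
  have h2 : O.valuation x * O.valuation x⁻¹ = 1 := by
    rw [← _root_.map_mul, mul_inv_cancel₀ hx0, _root_.map_one]
  have h3 : O.valuation x * O.valuation x⁻¹ < 1 := by
    calc O.valuation x * O.valuation x⁻¹ ≤ O.valuation x * 1 := mul_le_mul' le_rfl h1
      _ = O.valuation x := mul_one _
      _ < 1 := hx
  rw [h2] at h3
  exact lt_irrefl _ h3

/-- **Stichtenoth 1.1.6**: divisibility is well-founded in a valuation ring of a function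
field. -/
theorem wfDvdMonoid_of_finite (hK : ∀ a : K, algebraMap K F a ∈ O)
    (hfin : ∀ x : F, Transcendental K x → FiniteDimensional K⟮x⟯ F) : WfDvdMonoid O := by
  constructor
  rw [wellFounded_iff_isEmpty_descending_chain]
  refine ⟨fun ⟨f, hf⟩ => ?_⟩
  set v := O.valuation with hv
  have hne : ∀ n, ((f (n + 1) : O) : F) ≠ 0 := fun n h => by
    have := (hf n).1
    exact this (Subtype.ext h)
  have hle1 : ∀ n, v (f n : F) ≤ 1 := fun n => (O.valuation_le_one_iff _).mpr (f n).2
  have hstep : ∀ n, v (f (n + 1) : F) < v (f (n + 2) : F) := by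
    intro n
    obtain ⟨-, c, hc, hfc⟩ := hf (n + 1)
    have hcv : v (c : F) < 1 := by
      have : c ∈ IsLocalRing.maximalIdeal O := by
        rw [IsLocalRing.mem_maximalIdeal, mem_nonunits_iff]
        exact hc
      exact (O.valuation_lt_one_iff c).mp this
    have h0 : v (f (n + 2) : F) ≠ 0 := (Valuation.ne_zero_iff _).mpr (hne (n + 1))
    have : (f (n + 1) : F) = (f (n + 1 + 1) : F) * (c : F) := by
      rw [hfc]; rfl
    rw [this, _root_.map_mul]
    calc v (f (n + 1 + 1) : F) * v (c : F) < v (f (n + 1 + 1) : F) * 1 :=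
          mul_lt_mul_of_pos_left hcv (zero_lt_iff.mpr h0)
      _ = v (f (n + 2) : F) := mul_one _
  have hmono : StrictMono fun n : ℕ => v (f (n + 1) : F) := strictMono_nat_of_lt_succ hstep
  have hlt1 : ∀ n, v (f (n + 1) : F) < 1 := fun n => lt_of_lt_of_le (hstep n) (hle1 _)
  set x : F := (f 1 : F) with hx
  have hx0 : x ≠ 0 := hne 0
  have hxt : Transcendental K x := transcendental_of_valuation_lt_one O hK (hlt1 0) hx0
  have := hfin x hxt
  have key := chain_le_finrank v (valuation_algebraMap_eq_one O hK) hx0 (hlt1 0)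
    (m := Module.finrank K⟮x⟯ F + 1) (fun i => (f (i.1 + 1) : F)) (fun i => hlt1 _)
    (fun i => hmono.monotone (Nat.zero_le _)) (fun i j hij => hmono hij)
  omega

/-- A valuation subring `≠ ⊤` of a function field, containing the constants, is a place. -/
def placeOfValuationSubring (hK : ∀ a : K, algebraMap K F a ∈ O) (hO : O ≠ ⊤)
    (hfin : ∀ x : F, Transcendental K x → FiniteDimensional K⟮x⟯ F) : Place K F where
  toValuationSubring := O
  algebraMap_mem' := hK
  ne_top' := hO
  isPrincipalIdealRing' := by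
    have h := wfDvdMonoid_of_finite O hK hfin
    exact ((IsBezout.TFAE (R := O)).out 3 1).mp h

@[simp]
theorem placeOfValuationSubring_toValuationSubring (hK : ∀ a : K, algebraMap K F a ∈ O)
    (hO : O ≠ ⊤) (hfin : ∀ x : F, Transcendental K x → FiniteDimensional K⟮x⟯ F) :
    (placeOfValuationSubring O hK hO hfin).toValuationSubring = O := rfl

end ValuationSubring

section Existence

variable (hfin : ∀ x : F, Transcendental K x → FiniteDimensional K⟮x⟯ F)

include hfin in
/-- Every transcendental element has a zero. -/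
theorem exists_place_ord_pos {t : F} (ht : Transcendental K t) :
    ∃ v : Place K F, 0 < v.ord t := by
  have ht0 : t ≠ 0 := fun h => ht (h ▸ isAlgebraic_zero)
  let A : Subring F := (Algebra.adjoin K {t}).toSubring
  have htA : t ∈ A := Algebra.self_mem_adjoin_singleton K t
  let I : Ideal A := Ideal.span {⟨t, htA⟩}
  have hI : I ≠ ⊤ := by
    intro h
    rw [Ideal.eq_top_iff_one, Ideal.mem_span_singleton'] at h
    obtain ⟨g, hg⟩ := h
    have hgF : (g : F) * t = 1 := congrArg Subtype.val hg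
    have hgmem : (g : F) ∈ (aeval t : K[X] →ₐ[K] F).range := by
      rw [← Algebra.adjoin_singleton_eq_range_aeval]
      exact g.2
    obtain ⟨p, hp⟩ := hgmem
    have hp' : aeval t p = (g : F) := hp
    apply ht
    refine ⟨p * X - 1, ?_, ?_⟩
    · intro h0
      have := congrArg (fun q => Polynomial.coeff q 0) h0
      simp at this
    · simp [hp', hgF]
  obtain ⟨B, hAB, hIB⟩ := Ideal.image_subset_nonunits_valuationSubring I hI
  have hK : ∀ a : K, algebraMap K F a ∈ B := fun a =>
    hAB ((Algebra.adjoin K {t}).algebraMap_mem a)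
  have htB : t ∈ B.nonunits := hIB ⟨⟨t, htA⟩, Ideal.subset_span rfl, rfl⟩
  have htv : B.valuation t < 1 := (B.mem_nonunits_iff).mp htB
  have hB : B ≠ ⊤ := by
    intro h
    have h1 : t⁻¹ ∈ B := h ▸ ValuationSubring.mem_top _
    have h2 : B.valuation t⁻¹ ≤ 1 := (B.valuation_le_one_iff _).mpr h1
    have h3 : B.valuation t * B.valuation t⁻¹ = 1 := by
      rw [← _root_.map_mul, mul_inv_cancel₀ ht0, _root_.map_one]
    have h4 : B.valuation t * B.valuation t⁻¹ < 1 := by
      calc B.valuation t * B.valuation t⁻¹ ≤ B.valuation t * 1 := mul_le_mul' le_rfl h2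
        _ = B.valuation t := mul_one _
        _ < 1 := htv
    rw [h3] at h4
    exact lt_irrefl _ h4
  refine ⟨placeOfValuationSubring B hK hB hfin, ?_⟩
  set v := placeOfValuationSubring B hK hB hfin with hv
  have hmem : (⟨t, (B.valuation_le_one_iff _).mp htv.le⟩ : v.toValuationSubring) ∈
      IsLocalRing.maximalIdeal v.toValuationSubring :=
    (B.valuation_lt_one_iff _).mpr htv
  rcases (mem_maximalIdeal_iff v _).mp hmem with h | h
  · exact absurd h ht0
  · exact h

include hfin in
/-- Every transcendental element has a pole. -/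
theorem exists_place_ord_neg {t : F} (ht : Transcendental K t) :
    ∃ v : Place K F, v.ord t < 0 := by
  have ht' : Transcendental K t⁻¹ := fun h => ht (by simpa using h.inv)
  obtain ⟨v, hv⟩ := exists_place_ord_pos hfin ht'
  refine ⟨v, ?_⟩
  rw [v.ord_inv] at hv
  omega

end Existence

end Fermat.Agent.Lib.RR.H443

end
end
-- ===== PACK-END Lib/RR/H443/Discrete.lean

-- ===== PACK-BEGIN S18/Mod/H216/Asm.lean
section




/-!
# S18 / MOD-ASM (helper216): node_mod from the six PARTS at the concrete objects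

Targets for the MOD owners (exact statements; `E` ranges over ALL number fields `E ⊆ Q̄`):

| part | statement to prove | content |
|---|---|---|
| G-R   | `PartRStatement M A`         | `A ∩ E` is a DVR of `E`, finite residue field (needs `A.LiesOverPrime ℓ`) |
| G-FLD | `PartFldStatement M x`       | constants, `x` transcendental, `[Fc : Ec(x)] < ∞` |
| G-V   | `PartVStatement M A x`       | `Vc M A E` is the Gauss valuation ring (needs S28 `CoreData`, i.e. `ℓ ∤ M`) |
| G-QEP | `PartQepStatement M A x`     | q-expansion principle on the charts `R[x]`, `R[x⁻¹]` |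
| G-SEP | `PartSepStatement M A x`     | separability of the residue field of `Vc` over `κ(x̄)` |
| G-BR  | `PartBrStatement M A x S`    | branch values |

`goodAt_of_parts` : the six statements give `GoodAt M A x S`.
`goodModelStatement_of_parts` : the frozen node `Mod.GoodModelStatement M ℓ A` from the six
statements for `x = j` (`ℓ ≥ 5`) and `GoodAt` for the Hauptmodul coordinates (`ℓ = 2, 3`; M3-T).
-/

set_option autoImplicit false

noncomputable section

namespace Fermat.Agent.S18.Mod.H216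

open ModularCurve AlgebraicCurve HahnSeries Fermat.Agent.S18 Fermat.Agent.S18.Mod
open Fermat.Agent.S18.Alg

/-- **G-R** at the concrete objects. -/
def PartRStatement (M : ℕ) (A : ValuationSubring Qb) : Prop :=
  ∀ E : IntermediateField ℚ Qb, FiniteDimensional ℚ E →
    ∃ w : Om M, PartR (Ec M E) (Rc M A E) w

/-- **G-FLD** at the concrete objects. -/
def PartFldStatement (M : ℕ) (x : Om M) : Prop :=
  ∀ E : IntermediateField ℚ Qb, FiniteDimensional ℚ E →
    PartFld (Lc M) (Ec M E) (Fc M E) x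

/-- **G-V** at the concrete objects, for every uniformiser `w`. -/
def PartVStatement (M : ℕ) (A : ValuationSubring Qb) (x : Om M) : Prop :=
  ∀ E : IntermediateField ℚ Qb, FiniteDimensional ℚ E →
    ∀ w : Om M, PartR (Ec M E) (Rc M A E) w →
      PartV (Fc M E) (Rc M A E) (Vc M A E) w x

/-- **G-QEP** at the concrete objects, for every uniformiser `w`. -/
def PartQepStatement (M : ℕ) (A : ValuationSubring Qb) (x : Om M) : Prop :=
  ∀ E : IntermediateField ℚ Qb, FiniteDimensional ℚ E →
    ∀ w : Om M, PartR (Ec M E) (Rc M A E) w →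
      PartQep (Fc M E) (Rc M A E) (Vc M A E) w x

/-- **G-SEP** at the concrete objects, for every uniformiser `w`. -/
def PartSepStatement (M : ℕ) (A : ValuationSubring Qb) (x : Om M) : Prop :=
  ∀ E : IntermediateField ℚ Qb, FiniteDimensional ℚ E →
    ∀ w : Om M, PartR (Ec M E) (Rc M A E) w →
      PartSep (Rc M A E) (Vc M A E) w x

/-- **G-BR** at the concrete objects. -/
def PartBrStatement (M : ℕ) (A : ValuationSubring Qb) (x : Om M) (S : Finset (Om M)) : Prop :=
  ∀ E : IntermediateField ℚ Qb, FiniteDimensional ℚ E →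
    PartBr (Lc M) (Rc M A E) x S

theorem charZero_Om (M : ℕ) : CharZero (Om M) :=
  charZero_of_injective_algebraMap (algebraMap Qb (Om M)).injective

/-- The six parts give `GoodAt`. -/
theorem goodAt_of_parts {M : ℕ} {A : ValuationSubring Qb} {x : Om M} {S : Finset (Om M)}
    (hR : PartRStatement M A) (hF : PartFldStatement M x) (hV : PartVStatement M A x)
    (hQ : PartQepStatement M A x) (hS : PartSepStatement M A x)
    (hB : PartBrStatement M A x S) : GoodAt M A x S := by
  intro E hE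
  obtain ⟨w, hw⟩ := hR E hE
  exact ⟨Vc M A E, w, coe_Vc M A E,
    goodModel_of_parts (charZero_Om M) hw (hF E hE) (hV E hE w hw) (hQ E hE w hw)
      (hS E hE w hw) (hB E hE)⟩

/-- **MOD assembly**: the frozen node `Mod.GoodModelStatement M ℓ A` from the parts for the
coordinate `j` (used when `ℓ ≥ 5`) and `GoodAt` for the Hauptmodul coordinates (`ℓ = 2, 3`). -/
theorem goodModelStatement_of_parts (M ℓ : ℕ) (A : ValuationSubring Qb)
    (hR : 5 ≤ ℓ → PartRStatement M A)
    (hF : 5 ≤ ℓ → PartFldStatement M (jOm M))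
    (hV : 5 ≤ ℓ → PartVStatement M A (jOm M))
    (hQ : 5 ≤ ℓ → PartQepStatement M A (jOm M))
    (hS : 5 ≤ ℓ → PartSepStatement M A (jOm M))
    (hB : 5 ≤ ℓ → ∀ S : Finset (Om M), (∀ s, s ∈ S ↔ s = 0 ∨ s = 1728) →
      PartBrStatement M A (jOm M) S)
    (ht : ¬ 5 ≤ ℓ → ∀ (x : Om M) (S : Finset (Om M)), IsCoordinate M ℓ x S → GoodAt M A x S) :
    GoodModelStatement M ℓ A := by
  refine goodModelStatement_of_goodAt M ℓ A fun x S hxS => ?_
  by_cases h5 : 5 ≤ ℓ
  · rcases hxS with ⟨-, rfl, hS'⟩ | ⟨h | h, -⟩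
    · exact goodAt_of_parts (hR h5) (hF h5) (hV h5) (hQ h5) (hS h5) (hB h5 S hS')
    · omega
    · omega
  · exact ht h5 x S hxS

end Fermat.Agent.S18.Mod.H216

end
end
-- ===== PACK-END S18/Mod/H216/Asm.lean

-- ===== PACK-BEGIN S18/H456/ModFields.lean
section


/-!
# S18 / MOD assembly (helper456): the fields `compositum`, `E_closed_in_F`, `x_mem`,
`x_transcendental` of `Alg.GoodModel` for the concrete objects
-/

set_option autoImplicit false

noncomputable section

namespace Fermat.Agent.S18.H456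

open ModularCurve AlgebraicCurve HahnSeries Fermat.Agent.S18 Fermat.Agent.S18.Mod

/-! ### Algebraic Laurent series are constant -/

section LaurentConst

variable {K : Type*} [Field K]

/-- A Laurent series over a field `K` which is algebraic over `K` is constant. -/
theorem laurent_const_of_isAlgebraic (f : LaurentSeries K) (hf : IsAlgebraic K f) :
    ∃ c : K, f = algebraMap K (LaurentSeries K) c := by
  have key : ∀ g : LaurentSeries K, IsAlgebraic K g →
      ∃ y : PowerSeries K, algebraMap (PowerSeries K) (LaurentSeries K) y = g := by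
    intro g hg
    obtain ⟨p, hpm, hp⟩ := hg.isIntegral
    have h2 : IsIntegral (PowerSeries K) g := by
      refine ⟨p.map (PowerSeries.C (R := K)), hpm.map _, ?_⟩
      rw [Polynomial.eval₂_map]
      exact hp
    exact IsIntegrallyClosed.isIntegral_iff.mp h2
  obtain ⟨y, hy⟩ := key f hf
  set c₀ := PowerSeries.constantCoeff y with hc₀
  by_cases hg : y - PowerSeries.C c₀ = 0
  · refine ⟨c₀, ?_⟩
    rw [← hy, sub_eq_zero.mp hg]
    rfl
  · exfalso
    have hg' : algebraMap (PowerSeries K) (LaurentSeries K) (y - PowerSeries.C c₀) ≠ 0 := by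
      intro h
      exact hg ((injective_iff_map_eq_zero _).1
        (IsFractionRing.injective (PowerSeries K) (LaurentSeries K)) _ h)
    have halg : IsAlgebraic K (algebraMap (PowerSeries K) (LaurentSeries K)
        (y - PowerSeries.C c₀)) := by
      rw [_root_.map_sub, hy]
      refine hf.sub ?_
      have : algebraMap (PowerSeries K) (LaurentSeries K) (PowerSeries.C c₀) =
          algebraMap K (LaurentSeries K) c₀ := rfl
      rw [this]
      exact isAlgebraic_algebraMap c₀
    obtain ⟨z, hz⟩ := key _ halg.inv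
    have h1 : algebraMap (PowerSeries K) (LaurentSeries K) ((y - PowerSeries.C c₀) * z) =
        algebraMap (PowerSeries K) (LaurentSeries K) 1 := by
      rw [_root_.map_mul, hz, _root_.map_one, mul_inv_cancel₀ hg']
    have h2 := IsFractionRing.injective (PowerSeries K) (LaurentSeries K) h1
    have h3 := congrArg (PowerSeries.constantCoeff (R := K)) h2
    rw [_root_.map_mul, _root_.map_sub, PowerSeries.constantCoeff_C, ← hc₀, sub_self, zero_mul, _root_.map_one] at h3
    exact zero_ne_one h3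

end LaurentConst

variable (M : ℕ) (A : ValuationSubring Qb) (E : IntermediateField ℚ Qb)

/-! ### Coefficients of elements of `Fc` lie in `E` -/

/-- The subfield of `Q̄((q))` of series with coefficients in `E`. -/
def coeffField : Subfield (LaurentSeries Qb) :=
  (coeffMap (algebraMap E Qb)).fieldRange

theorem mem_coeffField_iff {g : LaurentSeries Qb} :
    g ∈ coeffField E ↔ ∃ h : LaurentSeries E, coeffMap (algebraMap E Qb) h = g := Iff.rfl

theorem coeff_mem_of_mem_coeffField {g : LaurentSeries Qb} (hg : g ∈ coeffField E) (n : ℤ) :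
    g.coeff n ∈ E := by
  obtain ⟨h, rfl⟩ := hg
  rw [coeffMap_coeff]
  exact (h.coeff n).2

theorem val_cst (c : Qb) : ((cst M c : Om M) : LaurentSeries Qb) =
    HahnSeries.single 0 c := by
  show algebraMap Qb (LaurentSeries Qb) c = _
  exact algebraMap_laurentSeries_eq_single Qb c

theorem coeffEmb_mem_coeffField (z : LaurentSeries ℚ) : coeffEmb Qb z ∈ coeffField E := by
  refine ⟨coeffMap (algebraMap ℚ E) z, ?_⟩
  rw [coeffMap_coeffMap, coeffEmb]
  exact coeffMap_congr (RingHom.ext_rat _ _) z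

theorem val_mem_coeffField {f : Om M} (hf : f ∈ Fc M E) :
    (f : LaurentSeries Qb) ∈ coeffField E := by
  unfold Fc at hf
  induction hf using Subfield.closure_induction with
  | mem y hy =>
      rcases hy with hy | hy
      · obtain ⟨c, hc, rfl⟩ := (mem_Ec_iff M E).1 hy
        rw [val_cst]
        exact ⟨HahnSeries.single 0 ⟨c, hc⟩, by rw [coeffMap_single]; rfl⟩
      · obtain ⟨d, hd, hdM, rfl⟩ := hy
        exact coeffEmb_mem_coeffField E _
  | one => exact one_mem _
  | add x y _ _ hx hy => exact add_mem hx hy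
  | neg x _ hx => exact neg_mem hx
  | inv x _ hx =>
      show ((x⁻¹ : Om M) : LaurentSeries Qb) ∈ _
      rw [show ((x⁻¹ : Om M) : LaurentSeries Qb) = (x : LaurentSeries Qb)⁻¹ from rfl]
      exact inv_mem hx
  | mul x y _ _ hx hy => exact mul_mem hx hy

theorem coeff_mem_of_mem_Fc {f : Om M} (hf : f ∈ Fc M E) (n : ℤ) :
    (f : LaurentSeries Qb).coeff n ∈ E :=
  coeff_mem_of_mem_coeffField E (val_mem_coeffField M E hf) n

/-! ### Elements of `ℚ(j_d)` lie in `Fc` -/

theorem ratCast_mem_Fc (c : ℚ) : cst M (algebraMap ℚ Qb c) ∈ Fc M E :=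
  field_E_le_F M E (cst_mem_Ec M E (E.algebraMap_mem c))

/-- The image of `z ∈ ℚ(j_d : d ∣ M)` in `Ω`. -/
def ofFull [NeZero M] (z : LaurentSeries ℚ) (hz : z ∈ modularFunctionFieldFull M) : Om M :=
  ⟨coeffEmb Qb z, coeffEmb_mem_laurentBaseChange Qb hz⟩

theorem ofFull_mem_Fc [NeZero M] (z : LaurentSeries ℚ) (hz : z ∈ modularFunctionFieldFull M) :
    ofFull M z hz ∈ Fc M E := by
  have hz' := hz
  unfold modularFunctionFieldFull at hz'
  -- induction over the adjoin, keeping track of membership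
  have key : ∀ y (hy : y ∈ IntermediateField.adjoin ℚ (divisorExpansions M)),
      ∃ h : y ∈ modularFunctionFieldFull M, ofFull M y h ∈ Fc M E := by
    intro y hy
    induction hy using IntermediateField.adjoin_induction with
    | mem y hy =>
        obtain ⟨d, hd, hdM, rfl⟩ := hy
        refine ⟨jqd_mem_full M hdM, ?_⟩
        exact Subfield.subset_closure (Or.inr ⟨d, hd, hdM, rfl⟩)
    | algebraMap c =>
        refine ⟨(modularFunctionFieldFull M).algebraMap_mem c, ?_⟩
        have : ofFull M (algebraMap ℚ (LaurentSeries ℚ) c)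
            ((modularFunctionFieldFull M).algebraMap_mem c) = cst M (algebraMap ℚ Qb c) := by
          apply Subtype.ext
          show coeffEmb Qb (algebraMap ℚ (LaurentSeries ℚ) c) = _
          rw [val_cst, coeffEmb, algebraMap_laurentSeries_eq_single, coeffMap_single]
        rw [this]
        exact ratCast_mem_Fc M E c
    | add x y _ _ hx hy =>
        obtain ⟨hx1, hx2⟩ := hx
        obtain ⟨hy1, hy2⟩ := hy
        refine ⟨add_mem hx1 hy1, ?_⟩
        have : ofFull M (x + y) (add_mem hx1 hy1) = ofFull M x hx1 + ofFull M y hy1 :=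
          Subtype.ext (_root_.map_add (coeffEmb Qb) x y)
        rw [this]
        exact add_mem hx2 hy2
    | inv x _ hx =>
        obtain ⟨hx1, hx2⟩ := hx
        refine ⟨inv_mem hx1, ?_⟩
        have : ofFull M x⁻¹ (inv_mem hx1) = (ofFull M x hx1)⁻¹ :=
          Subtype.ext (map_inv₀ (coeffEmb Qb) x)
        rw [this]
        exact inv_mem hx2
    | mul x y _ _ hx hy =>
        obtain ⟨hx1, hx2⟩ := hx
        obtain ⟨hy1, hy2⟩ := hy
        refine ⟨mul_mem hx1 hy1, ?_⟩
        have : ofFull M (x * y) (mul_mem hx1 hy1) = ofFull M x hx1 * ofFull M y hy1 :=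
          Subtype.ext (_root_.map_mul (coeffEmb Qb) x y)
        rw [this]
        exact mul_mem hx2 hy2
  obtain ⟨_, h⟩ := key z hz'
  exact h

/-! ### `compositum` -/

theorem field_compositum [NeZero M] :
    Subfield.closure ((Fc M E : Set (Om M)) ∪ Lc M) = ⊤ := by
  rw [eq_top_iff]
  rintro ⟨f, hf⟩ -
  set T : Subfield (Om M) := Subfield.closure ((Fc M E : Set (Om M)) ∪ Lc M) with hT
  let val : Om M →+* LaurentSeries Qb := (modularFunctionFieldBar M).val.toRingHom
  have hle : Subfield.closure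
        (Set.range (algebraMap Qb (LaurentSeries Qb)) ∪
          (⇑(coeffEmb Qb) '' (modularFunctionFieldFull M : Set (LaurentSeries ℚ)))) ≤
      T.map val := by
    rw [Subfield.closure_le]
    rintro y (⟨c, rfl⟩ | ⟨z, hz, rfl⟩)
    · exact ⟨cst M c, Subfield.subset_closure (Or.inr (cst_mem_Lc M c)), rfl⟩
    · exact ⟨ofFull M z hz, Subfield.subset_closure (Or.inl (ofFull_mem_Fc M E z hz)), rfl⟩
  obtain ⟨t, ht, htf⟩ := hle (mem_laurentBaseChange_iff.1 hf)
  have : t = ⟨f, hf⟩ := Subtype.ext htf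
  rw [← this]
  exact ht

end Fermat.Agent.S18.H456

end
end
-- ===== PACK-END S18/H456/ModFields.lean

-- ===== PACK-BEGIN S18/H107/T2Qep.lean
section






/-!
# helper107 — S18 / M3-T : QEP for the Hauptmodul `t = t₂` of `X₀(2)` (case `ℓ = 3`)

Input: the relation `j * t ^ 2 = (t + 256) ^ 3`, `2⁻¹ ∈ R`, QEP for the charts of `j` and `j⁻¹`.
Output: QEP for the charts of `t` and `t⁻¹` (`qep_t2_fin107`, `qep_t2_inf107`).
-/

set_option autoImplicit false

namespace Fermat.Agent.S18.H107

open Polynomial Fermat.Agent.S18.Alg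

variable {Ω : Type*} [Field Ω]

/-- The Hauptmodul relation for `X₀(2)` together with the needed side conditions. -/
structure HauptT2107 (Fc : Subfield Ω) (R V : Subring Ω) (j t : Ω) : Prop where
  rel : j * t ^ 2 = (t + 256) ^ 3
  two_inv : (2 : Ω)⁻¹ ∈ R
  two_ne : (2 : Ω) ≠ 0
  j_ne : j ≠ 0
  t_mem_Fc : t ∈ Fc
  t_mem_V : t ∈ V
  t256_inv_mem_V : (t + 256)⁻¹ ∈ V

namespace HauptT2107

variable {Fc : Subfield Ω} {R V : Subring Ω} {j t : Ω}

theorem c256_ne (h : HauptT2107 Fc R V j t) : (256 : Ω) ≠ 0 := by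
  have : (256 : Ω) = 2 ^ 8 := by norm_num
  rw [this]
  exact pow_ne_zero _ h.two_ne

theorem inv256_mem (h : HauptT2107 Fc R V j t) : (256 : Ω)⁻¹ ∈ R := by
  have := R.pow_mem h.two_inv 8
  have e : ((2 : Ω)⁻¹) ^ 8 = (256 : Ω)⁻¹ := by norm_num
  rwa [e] at this

theorem t_ne (h : HauptT2107 Fc R V j t) : t ≠ 0 := by
  intro ht
  have := h.rel
  rw [ht] at this
  have h256 := h.c256_ne
  have h3 : (256 : Ω) ^ 3 = 0 := by
    have e : ((0 : Ω) + 256) ^ 3 = 256 ^ 3 := by ring
    rw [← e, ← this]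
    ring
  exact h256 (pow_eq_zero_iff (by norm_num) |>.1 h3)

theorem t256_ne (h : HauptT2107 Fc R V j t) : t + 256 ≠ 0 := by
  intro ht
  have := h.rel
  rw [ht] at this
  have h0 : j * t ^ 2 = 0 := by rw [this]; ring
  rcases mul_eq_zero.1 h0 with hj | ht0
  · exact h.j_ne hj
  · exact h.t_ne (pow_eq_zero_iff (by norm_num) |>.1 ht0)

/-- `t` is integral over `R[j]`. -/
theorem t_int (h : HauptT2107 Fc R V j t) : t ∈ intCl107 (polyRing R j) := by
  refine mem_intCl_of_cubic107 _ t (768 - j) 196608 16777216 ?_ (ofNat_mem _ _) (ofNat_mem _ _) ?_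
  · exact Subring.sub_mem _ (ofNat_mem _ _) (self_mem_polyRing107 R j)
  · linear_combination -h.rel

/-- `h = t / (t + 256)` is integral over `R[j⁻¹]`. -/
theorem h_int (h : HauptT2107 Fc R V j t) : t * (t + 256)⁻¹ ∈ intCl107 (polyRing R j⁻¹) := by
  refine mem_intCl_of_cubic107 _ _ (-1) 0 (256 * j⁻¹) ?_ (Subring.zero_mem _) ?_ ?_
  · exact Subring.neg_mem _ (Subring.one_mem _)
  · exact Subring.mul_mem _ (ofNat_mem _ _) (self_mem_polyRing107 R j⁻¹)
  · have hj := h.j_ne
    have ht := h.t256_ne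
    field_simp
    linear_combination (-256 : Ω) * h.rel

/-- `t⁻¹` is integral over `R[j]` (uses `2⁻¹ ∈ R`). -/
theorem tinv_int (h : HauptT2107 Fc R V j t) : t⁻¹ ∈ intCl107 (polyRing R j) := by
  have h256 := h.inv256_mem
  have hR := le_polyRing107 R j
  refine mem_intCl_of_cubic107 _ _ (3 * (256 : Ω)⁻¹) ((768 - j) * ((256 : Ω)⁻¹) ^ 3)
    (((256 : Ω)⁻¹) ^ 3) ?_ ?_ ?_ ?_
  · exact Subring.mul_mem _ (ofNat_mem _ _) (hR h256)
  · exact Subring.mul_mem _ (Subring.sub_mem _ (ofNat_mem _ _) (self_mem_polyRing107 R j))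
      (Subring.pow_mem _ (hR h256) 3)
  · exact Subring.pow_mem _ (hR h256) 3
  · have ht := h.t_ne
    have hc := h.c256_ne
    field_simp
    linear_combination -h.rel

theorem open1_fin (h : HauptT2107 Fc R V j t) : OpenData107 Fc R V t j t 1 where
  g_mem := self_mem_polyRing107 R t
  e_mem_Fc := Fc.one_mem
  e_mem_V := V.one_mem
  e_int := Subring.one_mem _
  xe_int := by rw [mul_one]; exact h.t_int
  y_loc := ⟨2, by
    rw [h.rel]
    exact le_intCl107 _ (Subring.pow_mem _
      (Subring.add_mem _ (self_mem_polyRing107 R t) (ofNat_mem _ _)) 3)⟩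
  e_inv := ⟨1, Subring.one_mem _, 0, by simp⟩

theorem open2_fin (h : HauptT2107 Fc R V j t) :
    OpenData107 Fc R V t j⁻¹ (t + 256) (256 * (t + 256)⁻¹) where
  g_mem := Subring.add_mem _ (self_mem_polyRing107 R t) (ofNat_mem _ _)
  e_mem_Fc := Fc.mul_mem (ofNat_mem _ _)
    (Fc.inv_mem (Fc.add_mem h.t_mem_Fc (ofNat_mem _ _)))
  e_mem_V := V.mul_mem (ofNat_mem _ _) h.t256_inv_mem_V
  e_int := by
    have e : 256 * (t + 256)⁻¹ = 1 - t * (t + 256)⁻¹ := by
      have ht := h.t256_ne
      field_simp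
      ring
    rw [e]
    exact Subring.sub_mem _ (Subring.one_mem _) h.h_int
  xe_int := by
    have e : t * (256 * (t + 256)⁻¹) = 256 * (t * (t + 256)⁻¹) := by ring
    rw [e]
    exact Subring.mul_mem _ (ofNat_mem _ _) h.h_int
  y_loc := ⟨3, by
    have e : j⁻¹ * (t + 256) ^ 3 = t ^ 2 := by
      have hj := h.j_ne
      field_simp
      linear_combination -h.rel
    rw [e]
    exact le_intCl107 _ (Subring.pow_mem _ (self_mem_polyRing107 R t) 2)⟩
  e_inv := ⟨(t + 256) * (256 : Ω)⁻¹,
    le_intCl107 _ (Subring.mul_mem _ (Subring.add_mem _ (self_mem_polyRing107 R t) (ofNat_mem _ _))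
      (le_polyRing107 R t h.inv256_mem)), 0, by
    have ht := h.t256_ne
    have hc := h.c256_ne
    field_simp⟩

theorem open1_inf (h : HauptT2107 Fc R V j t) : OpenData107 Fc R V t⁻¹ j t⁻¹ 1 where
  g_mem := self_mem_polyRing107 R t⁻¹
  e_mem_Fc := Fc.one_mem
  e_mem_V := V.one_mem
  e_int := Subring.one_mem _
  xe_int := by rw [mul_one]; exact h.tinv_int
  y_loc := ⟨1, by
    have e : j * t⁻¹ ^ 1 = (1 + 256 * t⁻¹) ^ 3 := by
      have ht := h.t_ne
      field_simp
      linear_combination h.rel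
    rw [e]
    exact le_intCl107 _ (Subring.pow_mem _ (Subring.add_mem _ (Subring.one_mem _)
      (Subring.mul_mem _ (ofNat_mem _ _) (self_mem_polyRing107 R t⁻¹))) 3)⟩
  e_inv := ⟨1, Subring.one_mem _, 0, by simp⟩

theorem open2_inf (h : HauptT2107 Fc R V j t) :
    OpenData107 Fc R V t⁻¹ j⁻¹ (1 + 256 * t⁻¹) (t * (t + 256)⁻¹) where
  g_mem := Subring.add_mem _ (Subring.one_mem _)
    (Subring.mul_mem _ (ofNat_mem _ _) (self_mem_polyRing107 R t⁻¹))
  e_mem_Fc := Fc.mul_mem h.t_mem_Fc (Fc.inv_mem (Fc.add_mem h.t_mem_Fc (ofNat_mem _ _)))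
  e_mem_V := V.mul_mem h.t_mem_V h.t256_inv_mem_V
  e_int := h.h_int
  xe_int := by
    have e : t⁻¹ * (t * (t + 256)⁻¹) = (1 - t * (t + 256)⁻¹) * (256 : Ω)⁻¹ := by
      have ht := h.t_ne
      have ht' := h.t256_ne
      have hc := h.c256_ne
      field_simp
      ring
    rw [e]
    exact Subring.mul_mem _ (Subring.sub_mem _ (Subring.one_mem _) h.h_int)
      (le_intCl107 _ (le_polyRing107 R j⁻¹ h.inv256_mem))
  y_loc := ⟨3, by
    have e : j⁻¹ * (1 + 256 * t⁻¹) ^ 3 = t⁻¹ := by
      have hj := h.j_ne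
      have ht := h.t_ne
      field_simp
      linear_combination -h.rel
    rw [e]
    exact le_intCl107 _ (self_mem_polyRing107 R t⁻¹)⟩
  e_inv := ⟨1 + 256 * t⁻¹, le_intCl107 _ (Subring.add_mem _ (Subring.one_mem _)
      (Subring.mul_mem _ (ofNat_mem _ _) (self_mem_polyRing107 R t⁻¹))), 0, by
    have ht := h.t_ne
    have ht' := h.t256_ne
    field_simp⟩

/-- **QEP for the chart of `t₂`.** -/
theorem qep_fin (h : HauptT2107 Fc R V j t) {w : Ω} (hw : w ∈ Fc)
    (q₁ : Qep107 Fc R V w j) (q₂ : Qep107 Fc R V w j⁻¹) : Qep107 Fc R V w t := by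
  refine qep_transfer107 (a := -(256 : Ω)⁻¹) (b := (256 : Ω)⁻¹) hw q₁ q₂ h.open1_fin h.open2_fin
    (Subring.neg_mem _ (le_polyRing107 R t h.inv256_mem)) (le_polyRing107 R t h.inv256_mem) ?_
  have hc := h.c256_ne
  field_simp
  ring

/-- **QEP for the chart of `t₂⁻¹`.** -/
theorem qep_inf (h : HauptT2107 Fc R V j t) {w : Ω} (hw : w ∈ Fc)
    (q₁ : Qep107 Fc R V w j) (q₂ : Qep107 Fc R V w j⁻¹) : Qep107 Fc R V w t⁻¹ := by
  refine qep_transfer107 (a := -256) (b := 1) hw q₁ q₂ h.open1_inf h.open2_inf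
    (Subring.neg_mem _ (ofNat_mem _ _)) (Subring.one_mem _) ?_
  ring

end HauptT2107

end Fermat.Agent.S18.H107

end
-- ===== PACK-END S18/H107/T2Qep.lean

-- ===== PACK-BEGIN S18/H107/T3Qep.lean
section






/-!
# helper107 — S18 / M3-T : QEP for the Hauptmodul `t = t₃` of `X₀(3)` (case `ℓ = 2`)

Input: the relation `j * t ^ 3 = (t + 27) * (t + 243) ^ 3`, `3⁻¹ ∈ R`, QEP for the charts of `j`
and `j⁻¹`.  Output: QEP for the charts of `t` and `t⁻¹`.
-/

set_option autoImplicit false

namespace Fermat.Agent.S18.H107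

open Polynomial Fermat.Agent.S18.Alg

variable {Ω : Type*} [Field Ω]

/-- The Hauptmodul relation for `X₀(3)` together with the needed side conditions. -/
structure HauptT3107 (Fc : Subfield Ω) (R V : Subring Ω) (j t : Ω) : Prop where
  rel : j * t ^ 3 = (t + 27) * (t + 243) ^ 3
  three_inv : (3 : Ω)⁻¹ ∈ R
  three_ne : (3 : Ω) ≠ 0
  j_ne : j ≠ 0
  t_mem_Fc : t ∈ Fc
  t_mem_V : t ∈ V
  t27_inv_mem_V : (t + 27)⁻¹ ∈ V

namespace HauptT3107

variable {Fc : Subfield Ω} {R V : Subring Ω} {j t : Ω}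

theorem c27_ne (h : HauptT3107 Fc R V j t) : (27 : Ω) ≠ 0 := by
  have : (27 : Ω) = 3 ^ 3 := by norm_num
  rw [this]
  exact pow_ne_zero _ h.three_ne

theorem c243_ne (h : HauptT3107 Fc R V j t) : (243 : Ω) ≠ 0 := by
  have : (243 : Ω) = 3 ^ 5 := by norm_num
  rw [this]
  exact pow_ne_zero _ h.three_ne

theorem c6561_ne (h : HauptT3107 Fc R V j t) : (6561 : Ω) ≠ 0 := by
  have : (6561 : Ω) = 3 ^ 8 := by norm_num
  rw [this]
  exact pow_ne_zero _ h.three_ne

theorem cBig_ne (h : HauptT3107 Fc R V j t) : (387420489 : Ω) ≠ 0 := by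
  have : (387420489 : Ω) = 3 ^ 18 := by norm_num
  rw [this]
  exact pow_ne_zero _ h.three_ne

theorem inv27_mem (h : HauptT3107 Fc R V j t) : (27 : Ω)⁻¹ ∈ R := by
  have := R.pow_mem h.three_inv 3
  have e : ((3 : Ω)⁻¹) ^ 3 = (27 : Ω)⁻¹ := by norm_num
  rwa [e] at this

theorem inv6561_mem (h : HauptT3107 Fc R V j t) : (6561 : Ω)⁻¹ ∈ R := by
  have := R.pow_mem h.three_inv 8
  have e : ((3 : Ω)⁻¹) ^ 8 = (6561 : Ω)⁻¹ := by norm_num
  rwa [e] at this

theorem invBig_mem (h : HauptT3107 Fc R V j t) : (387420489 : Ω)⁻¹ ∈ R := by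
  have := R.pow_mem h.three_inv 18
  have e : ((3 : Ω)⁻¹) ^ 18 = (387420489 : Ω)⁻¹ := by norm_num
  rwa [e] at this

theorem t_ne (h : HauptT3107 Fc R V j t) : t ≠ 0 := by
  intro ht
  have := h.rel
  rw [ht] at this
  have h0 : (27 : Ω) * 243 ^ 3 = 0 := by
    have e : ((0 : Ω) + 27) * (0 + 243) ^ 3 = 27 * 243 ^ 3 := by ring
    rw [← e, ← this]
    ring
  rcases mul_eq_zero.1 h0 with h1 | h1
  · exact h.c27_ne h1
  · exact h.c243_ne (pow_eq_zero_iff (by norm_num) |>.1 h1)

theorem t27_ne (h : HauptT3107 Fc R V j t) : t + 27 ≠ 0 := by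
  intro ht
  have := h.rel
  rw [ht] at this
  have h0 : j * t ^ 3 = 0 := by rw [this]; ring
  rcases mul_eq_zero.1 h0 with hj | ht0
  · exact h.j_ne hj
  · exact h.t_ne (pow_eq_zero_iff (by norm_num) |>.1 ht0)

theorem t243_ne (h : HauptT3107 Fc R V j t) : t + 243 ≠ 0 := by
  intro ht
  have := h.rel
  rw [ht] at this
  have h0 : j * t ^ 3 = 0 := by rw [this]; ring
  rcases mul_eq_zero.1 h0 with hj | ht0
  · exact h.j_ne hj
  · exact h.t_ne (pow_eq_zero_iff (by norm_num) |>.1 ht0)

/-- `t` is integral over `R[j]`. -/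
theorem t_int (h : HauptT3107 Fc R V j t) : t ∈ intCl107 (polyRing R j) := by
  refine mem_intCl_of_quartic107 _ t (756 - j) 196830 19131876 387420489 ?_ (ofNat_mem _ _)
    (ofNat_mem _ _) (ofNat_mem _ _) ?_
  · exact Subring.sub_mem _ (ofNat_mem _ _) (self_mem_polyRing107 R j)
  · linear_combination -h.rel

/-- `h₁ = t / (t + 27)` is integral over `R[j⁻¹]`. -/
theorem h_int (h : HauptT3107 Fc R V j t) : t * (t + 27)⁻¹ ∈ intCl107 (polyRing R j⁻¹) := by
  have hj' := self_mem_polyRing107 R j⁻¹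
  refine mem_intCl_of_quartic107 _ _ (-1 - 13824 * j⁻¹) (46656 * j⁻¹) (-(52488 * j⁻¹))
    (19683 * j⁻¹) ?_ ?_ ?_ ?_ ?_
  · exact Subring.sub_mem _ (Subring.neg_mem _ (Subring.one_mem _))
      (Subring.mul_mem _ (ofNat_mem _ _) hj')
  · exact Subring.mul_mem _ (ofNat_mem _ _) hj'
  · exact Subring.neg_mem _ (Subring.mul_mem _ (ofNat_mem _ _) hj')
  · exact Subring.mul_mem _ (ofNat_mem _ _) hj'
  · have hj := h.j_ne
    have ht := h.t27_ne
    field_simp
    linear_combination (-27 : Ω) * h.rel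

/-- `t⁻¹` is integral over `R[j]` (uses `3⁻¹ ∈ R`). -/
theorem tinv_int (h : HauptT3107 Fc R V j t) : t⁻¹ ∈ intCl107 (polyRing R j) := by
  have hB := le_polyRing107 R j h.invBig_mem
  refine mem_intCl_of_quartic107 _ _ (19131876 * (387420489 : Ω)⁻¹) (196830 * (387420489 : Ω)⁻¹)
    ((756 - j) * (387420489 : Ω)⁻¹) ((387420489 : Ω)⁻¹) ?_ ?_ ?_ hB ?_
  · exact Subring.mul_mem _ (ofNat_mem _ _) hB
  · exact Subring.mul_mem _ (ofNat_mem _ _) hB
  · exact Subring.mul_mem _ (Subring.sub_mem _ (ofNat_mem _ _) (self_mem_polyRing107 R j)) hB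
  · have ht := h.t_ne
    have hc := h.cBig_ne
    field_simp
    linear_combination -h.rel

theorem open1_fin (h : HauptT3107 Fc R V j t) : OpenData107 Fc R V t j t 1 where
  g_mem := self_mem_polyRing107 R t
  e_mem_Fc := Fc.one_mem
  e_mem_V := V.one_mem
  e_int := Subring.one_mem _
  xe_int := by rw [mul_one]; exact h.t_int
  y_loc := ⟨3, by
    rw [h.rel]
    have ht := self_mem_polyRing107 R t
    exact le_intCl107 _ (Subring.mul_mem _ (Subring.add_mem _ ht (ofNat_mem _ _))
      (Subring.pow_mem _ (Subring.add_mem _ ht (ofNat_mem _ _)) 3))⟩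
  e_inv := ⟨1, Subring.one_mem _, 0, by simp⟩

theorem open2_fin (h : HauptT3107 Fc R V j t) :
    OpenData107 Fc R V t j⁻¹ ((t + 27) * (t + 243)) (27 * (t + 27)⁻¹) where
  g_mem := by
    have ht := self_mem_polyRing107 R t
    exact Subring.mul_mem _ (Subring.add_mem _ ht (ofNat_mem _ _))
      (Subring.add_mem _ ht (ofNat_mem _ _))
  e_mem_Fc := Fc.mul_mem (ofNat_mem _ _)
    (Fc.inv_mem (Fc.add_mem h.t_mem_Fc (ofNat_mem _ _)))
  e_mem_V := V.mul_mem (ofNat_mem _ _) h.t27_inv_mem_V
  e_int := by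
    have e : 27 * (t + 27)⁻¹ = 1 - t * (t + 27)⁻¹ := by
      have ht := h.t27_ne
      field_simp
      ring
    rw [e]
    exact Subring.sub_mem _ (Subring.one_mem _) h.h_int
  xe_int := by
    have e : t * (27 * (t + 27)⁻¹) = 27 * (t * (t + 27)⁻¹) := by ring
    rw [e]
    exact Subring.mul_mem _ (ofNat_mem _ _) h.h_int
  y_loc := ⟨3, by
    have e : j⁻¹ * ((t + 27) * (t + 243)) ^ 3 = t ^ 3 * (t + 27) ^ 2 := by
      have hj := h.j_ne
      field_simp
      linear_combination (-(t + 27) ^ 2) * h.rel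
    rw [e]
    have ht := self_mem_polyRing107 R t
    exact le_intCl107 _ (Subring.mul_mem _ (Subring.pow_mem _ ht 3)
      (Subring.pow_mem _ (Subring.add_mem _ ht (ofNat_mem _ _)) 2))⟩
  e_inv := ⟨(t + 27) * (27 : Ω)⁻¹,
    le_intCl107 _ (Subring.mul_mem _ (Subring.add_mem _ (self_mem_polyRing107 R t) (ofNat_mem _ _))
      (le_polyRing107 R t h.inv27_mem)), 0, by
    have ht := h.t27_ne
    have hc := h.c27_ne
    field_simp⟩

theorem open1_inf (h : HauptT3107 Fc R V j t) : OpenData107 Fc R V t⁻¹ j t⁻¹ 1 where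
  g_mem := self_mem_polyRing107 R t⁻¹
  e_mem_Fc := Fc.one_mem
  e_mem_V := V.one_mem
  e_int := Subring.one_mem _
  xe_int := by rw [mul_one]; exact h.tinv_int
  y_loc := ⟨1, by
    have e : j * t⁻¹ ^ 1 = (1 + 27 * t⁻¹) * (1 + 243 * t⁻¹) ^ 3 := by
      have ht := h.t_ne
      field_simp
      linear_combination h.rel
    rw [e]
    have hs := self_mem_polyRing107 R t⁻¹
    exact le_intCl107 _ (Subring.mul_mem _
      (Subring.add_mem _ (Subring.one_mem _) (Subring.mul_mem _ (ofNat_mem _ _) hs))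
      (Subring.pow_mem _ (Subring.add_mem _ (Subring.one_mem _)
        (Subring.mul_mem _ (ofNat_mem _ _) hs)) 3))⟩
  e_inv := ⟨1, Subring.one_mem _, 0, by simp⟩

theorem open2_inf (h : HauptT3107 Fc R V j t) :
    OpenData107 Fc R V t⁻¹ j⁻¹ ((1 + 27 * t⁻¹) * (1 + 243 * t⁻¹)) (t * (t + 27)⁻¹) where
  g_mem := by
    have hs := self_mem_polyRing107 R t⁻¹
    exact Subring.mul_mem _
      (Subring.add_mem _ (Subring.one_mem _) (Subring.mul_mem _ (ofNat_mem _ _) hs))
      (Subring.add_mem _ (Subring.one_mem _) (Subring.mul_mem _ (ofNat_mem _ _) hs))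
  e_mem_Fc := Fc.mul_mem h.t_mem_Fc (Fc.inv_mem (Fc.add_mem h.t_mem_Fc (ofNat_mem _ _)))
  e_mem_V := V.mul_mem h.t_mem_V h.t27_inv_mem_V
  e_int := h.h_int
  xe_int := by
    have e : t⁻¹ * (t * (t + 27)⁻¹) = (1 - t * (t + 27)⁻¹) * (27 : Ω)⁻¹ := by
      have ht := h.t_ne
      have ht' := h.t27_ne
      have hc := h.c27_ne
      field_simp
      ring
    rw [e]
    exact Subring.mul_mem _ (Subring.sub_mem _ (Subring.one_mem _) h.h_int)
      (le_intCl107 _ (le_polyRing107 R j⁻¹ h.inv27_mem))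
  y_loc := ⟨3, by
    have e : j⁻¹ * ((1 + 27 * t⁻¹) * (1 + 243 * t⁻¹)) ^ 3 = t⁻¹ * (1 + 27 * t⁻¹) ^ 2 := by
      have hj := h.j_ne
      have ht := h.t_ne
      field_simp
      linear_combination (-(t + 27) ^ 2) * h.rel
    rw [e]
    have hs := self_mem_polyRing107 R t⁻¹
    exact le_intCl107 _ (Subring.mul_mem _ hs (Subring.pow_mem _
      (Subring.add_mem _ (Subring.one_mem _) (Subring.mul_mem _ (ofNat_mem _ _) hs)) 2))⟩
  e_inv := ⟨1 + 27 * t⁻¹, le_intCl107 _ (Subring.add_mem _ (Subring.one_mem _)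
      (Subring.mul_mem _ (ofNat_mem _ _) (self_mem_polyRing107 R t⁻¹))), 0, by
    have ht := h.t_ne
    have ht' := h.t27_ne
    field_simp⟩

/-- **QEP for the chart of `t₃`.** -/
theorem qep_fin (h : HauptT3107 Fc R V j t) {w : Ω} (hw : w ∈ Fc)
    (q₁ : Qep107 Fc R V w j) (q₂ : Qep107 Fc R V w j⁻¹) : Qep107 Fc R V w t := by
  have h6 := le_polyRing107 R t h.inv6561_mem
  refine qep_transfer107 (a := -((t + 270) * (6561 : Ω)⁻¹)) (b := (6561 : Ω)⁻¹) hw q₁ q₂
    h.open1_fin h.open2_fin
    (Subring.neg_mem _ (Subring.mul_mem _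
      (Subring.add_mem _ (self_mem_polyRing107 R t) (ofNat_mem _ _)) h6)) h6 ?_
  have hc := h.c6561_ne
  field_simp
  ring

/-- **QEP for the chart of `t₃⁻¹`.** -/
theorem qep_inf (h : HauptT3107 Fc R V j t) {w : Ω} (hw : w ∈ Fc)
    (q₁ : Qep107 Fc R V w j) (q₂ : Qep107 Fc R V w j⁻¹) : Qep107 Fc R V w t⁻¹ := by
  refine qep_transfer107 (a := -(270 + 6561 * t⁻¹)) (b := 1) hw q₁ q₂ h.open1_inf h.open2_inf
    (Subring.neg_mem _ (Subring.add_mem _ (ofNat_mem _ _)
      (Subring.mul_mem _ (ofNat_mem _ _) (self_mem_polyRing107 R t⁻¹)))) (Subring.one_mem _) ?_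
  ring

end HauptT3107

end Fermat.Agent.S18.H107

end
-- ===== PACK-END S18/H107/T3Qep.lean

-- ===== PACK-BEGIN S18/H438/Front/Divisor.lean
section





/-!
# S18 / ALG-FRONT (helper438), part 8: `H754.DivisibleDivisor` for a chart

* `divisibleDivisor_of_places` (generic, Mathlib + `H754/KummerSpec`): `B` a Noetherian
  integrally closed domain with fraction field `F`, `ϖ ∈ B` prime, `u ≡ 1 mod ϖ`
  (`H754.OneModPi ϖ u`), and at every discrete valuation subring `W ⊇ B[1/ϖ]` of `F` the element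
  `u` is a unit times an `m`-th power.  Then `H754.DivisibleDivisor B m u`.
* `GoodModelFront.exists_pow_unit_of_dvr` : the place hypothesis from the divisor hypothesis of
  `Alg.AlgMainStatement` (over valuation subrings of `Ω` containing `Lc`), via
  `H845.exists_pow_unit_of_forall_over`.
* `GoodModelFront.divisibleDivisor` : `H754.DivisibleDivisor B m u` for ANY realisation `B` of a
  chart of a good model (`B ⊇ R`, `ϖ ↦ w`).
-/

set_option autoImplicit false
set_option linter.style.haveILetI false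
set_option linter.unusedSectionVars false

noncomputable section

namespace Fermat.Agent.S18.H438

/-- **`DivisibleDivisor` from the places over `B[1/ϖ]`.** -/
theorem divisibleDivisor_of_places {B : Type*} [CommRing B] [IsDomain B] [IsNoetherianRing B]
    [IsIntegrallyClosed B] {F : Type*} [Field F] [Algebra B F] [IsFractionRing B F]
    (ϖ : B) (hϖ : Prime ϖ) (u : F) (hu1 : H754.OneModPi ϖ u) (m : ℕ)
    (hplace : ∀ W : ValuationSubring F, IsDiscreteValuationRing W →
      (∀ b : B, algebraMap B F b ∈ W) → (algebraMap B F ϖ)⁻¹ ∈ W →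
      ∃ s : F, s ≠ 0 ∧ u * s ^ m ∈ W ∧ (u * s ^ m)⁻¹ ∈ W) :
    H754.DivisibleDivisor B m u := by
  have hinj : Function.Injective (algebraMap B F) := IsFractionRing.injective B F
  obtain ⟨a₀, s₀, hs₀, has₀, hu₀⟩ := hu1
  have ha₀ : a₀ ∉ Ideal.span {ϖ} := by
    intro ha
    apply hs₀
    have := Ideal.sub_mem _ ha has₀
    simpa using this
  have hu0 : u ≠ 0 := by
    rintro rfl
    rw [zero_mul] at hu₀
    have : a₀ = 0 := hinj (by rw [← hu₀, map_zero])
    exact ha₀ (this ▸ Ideal.zero_mem _)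
  intro 𝔭 h𝔭 hht
  haveI := h𝔭
  by_cases hϖ𝔭 : ϖ ∈ 𝔭
  · -- `𝔭 = (ϖ)`
    have hP : (Ideal.span {ϖ} : Ideal B).IsPrime :=
      (Ideal.span_singleton_prime hϖ.ne_zero).2 hϖ
    have hle : Ideal.span {ϖ} ≤ 𝔭 := (Ideal.span_singleton_le_iff_mem _).2 hϖ𝔭
    have hne : (Ideal.span {ϖ} : Ideal B) ≠ ⊥ := by
      rw [Ne, Ideal.span_singleton_eq_bot]; exact hϖ.ne_zero
    have h1 : 𝔭.height ≤ (Ideal.span {ϖ} : Ideal B).height := by
      rw [hht, Order.one_le_iff_pos, pos_iff_ne_zero, Ne, Ideal.height_eq_zero_iff_eq_bot]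
      exact hne
    have heq : Ideal.span {ϖ} = 𝔭 := Ideal.eq_of_le_of_height_le (h := hle) (h_height := h1)
    refine ⟨1, a₀, s₀, ?_, ?_, ?_⟩
    · rw [← heq]; exact ha₀
    · rw [← heq]; exact hs₀
    · rw [one_pow, mul_one]; exact hu₀
  · -- a horizontal prime: `B_𝔭` is a DVR containing `B[1/ϖ]`
    obtain ⟨W, hW, hmem⟩ := exists_dvr_of_height_one (F := F) 𝔭 hht
    have h1𝔭 : (1 : B) ∉ 𝔭 := fun h => h𝔭.ne_top ((Ideal.eq_top_iff_one _).2 h)
    have hBW : ∀ b : B, algebraMap B F b ∈ W := fun b =>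
      (hmem _).2 ⟨b, 1, h1𝔭, by rw [map_one, mul_one]⟩
    have hϖ0 : algebraMap B F ϖ ≠ 0 := fun h => hϖ.ne_zero (hinj (by rw [h, map_zero]))
    have hϖW : (algebraMap B F ϖ)⁻¹ ∈ W :=
      (hmem _).2 ⟨1, ϖ, hϖ𝔭, by rw [inv_mul_cancel₀ hϖ0, map_one]⟩
    obtain ⟨t, ht0, h1, h2⟩ := hplace W hW hBW hϖW
    obtain ⟨a, s, hs, has⟩ := (hmem _).1 h1
    obtain ⟨a', s', hs', has'⟩ := (hmem _).1 h2
    refine ⟨t, a, s, ?_, hs, has⟩
    intro ha
    have hut : u * t ^ m ≠ 0 := mul_ne_zero hu0 (pow_ne_zero _ ht0)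
    have h3 : algebraMap B F (a * a') = algebraMap B F (s * s') := by
      rw [map_mul, map_mul, ← has, ← has']
      field_simp
    have h4 : a * a' = s * s' := hinj h3
    have h5 : s * s' ∈ 𝔭 := h4 ▸ 𝔭.mul_mem_right _ ha
    rcases h𝔭.mem_or_mem h5 with h | h
    · exact hs h
    · exact hs' h

open Alg

variable {Ω : Type*} [Field Ω] {Lc Ec Fc : Subfield Ω} {R V : Subring Ω} {w x : Ω}
  {S : Finset Ω}

namespace GoodModelFront

variable (G : GoodModel Lc Ec Fc R V w x S)

include G

/-- A valuation subring of `Fc` containing `R` and `w⁻¹` contains `Ec`. -/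
theorem ec_mem_of_inv_mem (W : ValuationSubring Fc) (hRW : ∀ r ∈ Rf Fc R, r ∈ W)
    (hwW : (wf G)⁻¹ ∈ W) : ∀ e : Fc, (e : Ω) ∈ Ec → e ∈ W := by
  intro e he
  rcases G.R_total e he with h1 | h1
  · exact hRW e h1
  · by_cases he0 : e = 0
    · rw [he0]; exact W.zero_mem
    have he0' : (e : Ω) ≠ 0 := fun h => he0 (Subtype.ext h)
    obtain ⟨n, -, hn⟩ := G.w_discrete (e : Ω)⁻¹ h1 (inv_ne_zero he0')
    have hmem : (e⁻¹ * (wf G)⁻¹ ^ n)⁻¹ ∈ W := hRW _ hn
    have hw0 : wf G ≠ 0 := wf_ne_zero G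
    have : e = (e⁻¹ * (wf G)⁻¹ ^ n)⁻¹ * (wf G)⁻¹ ^ n := by
      field_simp
    rw [this]
    exact mul_mem hmem (pow_mem hwW n)

/-- **The place hypothesis** of `divisibleDivisor_of_places` from the divisor hypothesis of
`Alg.AlgMainStatement`. -/
theorem exists_pow_unit_of_dvr {u : Fc} (hu : u ≠ 0) {m : ℕ}
    (hdiv : ∀ O : ValuationSubring Ω, (∀ a ∈ Lc, a ∈ O) →
      ∃ t : Ω, t ≠ 0 ∧ (u : Ω) * t ^ m ∈ O ∧ ((u : Ω) * t ^ m)⁻¹ ∈ O)
    (W : ValuationSubring Fc) (hW : IsDiscreteValuationRing W)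
    (hRW : ∀ r ∈ Rf Fc R, r ∈ W) (hwW : (wf G)⁻¹ ∈ W) :
    ∃ s : Fc, s ≠ 0 ∧ u * s ^ m ∈ W ∧ (u * s ^ m)⁻¹ ∈ W := by
  haveI := G.charZero
  exact H845.exists_pow_unit_of_forall_over Lc Ec Fc G.E_le_F G.L_algebraic G.compositum hu hdiv W
    (ec_mem_of_inv_mem G W hRW hwW)

/-- **`DivisibleDivisor` for any realisation `B` of a chart of a good model.** -/
theorem divisibleDivisor {B : Type*} [CommRing B] [IsDomain B] [IsNoetherianRing B]
    [IsIntegrallyClosed B] [Algebra B Fc] [IsFractionRing B Fc]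
    (hRB : ∀ r ∈ Rf Fc R, ∃ b : B, algebraMap B Fc b = r)
    (ϖ : B) (hϖ : Prime ϖ) (hϖw : algebraMap B Fc ϖ = wf G)
    {u : Fc} (hu1 : H754.OneModPi ϖ u) {m : ℕ}
    (hdiv : ∀ O : ValuationSubring Ω, (∀ a ∈ Lc, a ∈ O) →
      ∃ t : Ω, t ≠ 0 ∧ (u : Ω) * t ^ m ∈ O ∧ ((u : Ω) * t ^ m)⁻¹ ∈ O) :
    H754.DivisibleDivisor B m u := by
  have hinj : Function.Injective (algebraMap B Fc) := IsFractionRing.injective B Fc
  have hu0 : u ≠ 0 := by
    obtain ⟨a₀, s₀, hs₀, has₀, hu₀⟩ := hu1
    rintro rfl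
    rw [zero_mul] at hu₀
    have : a₀ = 0 := hinj (by rw [← hu₀, map_zero])
    apply hs₀
    have := Ideal.sub_mem _ (this ▸ Ideal.zero_mem (Ideal.span {ϖ}) : a₀ ∈ Ideal.span {ϖ}) has₀
    simpa using this
  refine divisibleDivisor_of_places ϖ hϖ u hu1 m fun W hW hBW hϖW => ?_
  refine exists_pow_unit_of_dvr G hu0 hdiv W hW (fun r hr => ?_) (by rwa [hϖw] at hϖW)
  obtain ⟨b, hb⟩ := hRB r hr
  rw [← hb]
  exact hBW b

end GoodModelFront

end Fermat.Agent.S18.H438

end
end
-- ===== PACK-END S18/H438/Front/Divisor.lean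

-- ===== PACK-BEGIN S59/H659/Basic.lean
section



/-!
# S59, piece G3 (helper659): elementary descent lemmas

* the representation `toAdic r hr` in terms of the matrices `r σ`;
* elements, polynomials and matrices are detected by a jointly injective pair of homomorphisms;
* in a Noetherian local ring they are detected by the quotients `A ⧸ 𝔪ⁿ`, and membership in an
  ideal is detected by these quotients (Krull's intersection theorem).
-/

set_option autoImplicit false
set_option linter.unusedSectionVars false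
set_option linter.style.haveILetI false

namespace Fermat.Agent.S59.H659

open Fermat.Agent.S53 IsLocalRing Polynomial

section toAdic

variable {A : Type} [CommRing A] [IsLocalRing A]

theorem toAdic_rho_eq_one_iff (r : GQ →* M2 A) (hr : MatCont r) (σ : GQ) :
    (toAdic r hr).ρ σ = 1 ↔ r σ = 1 := by
  constructor
  · intro h
    apply matEnd_injective A
    rw [_root_.map_one]
    exact h
  · intro h
    show matEnd A (r σ) = 1
    rw [h, _root_.map_one]

theorem det_toAdic (r : GQ →* M2 A) (hr : MatCont r) (σ : GQ) :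
    LinearMap.det ((toAdic r hr).ρ σ) = (r σ).det :=
  LinearMap.det_toLin' (r σ)

theorem charpoly_toAdic (r : GQ →* M2 A) (hr : MatCont r) (σ : GQ) :
    LinearMap.charpoly ((toAdic r hr).ρ σ) = (r σ).charpoly :=
  Matrix.charpoly_toLin' (r σ)

end toAdic

section Fibre

variable {P A B : Type} [CommRing P] [CommRing A] [CommRing B] (pA : P →+* A) (pB : P →+* B)
  (hinj : Function.Injective (fun x => (pA x, pB x)))

include hinj

theorem eq_of_fibre {x y : P} (hA : pA x = pA y) (hB : pB x = pB y) : x = y :=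
  hinj (Prod.ext hA hB)

theorem eq_zero_of_fibre {x : P} (hA : pA x = 0) (hB : pB x = 0) : x = 0 :=
  eq_of_fibre pA pB hinj (by rw [hA, _root_.map_zero]) (by rw [hB, _root_.map_zero])

theorem mat_eq_of_fibre {M N : M2 P} (hA : M.map pA = N.map pA) (hB : M.map pB = N.map pB) :
    M = N := by
  ext i j
  refine eq_of_fibre pA pB hinj ?_ ?_
  · have := congrFun (congrFun hA i) j
    simpa using this
  · have := congrFun (congrFun hB i) j
    simpa using this

theorem poly_eq_of_fibre {f g : P[X]} (hA : f.map pA = g.map pA) (hB : f.map pB = g.map pB) :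
    f = g := by
  ext k
  refine eq_of_fibre pA pB hinj ?_ ?_
  · have := congrArg (fun h => Polynomial.coeff h k) hA
    simpa using this
  · have := congrArg (fun h => Polynomial.coeff h k) hB
    simpa using this

end Fibre

section Quot

variable {A : Type} [CommRing A] [IsLocalRing A] [IsNoetherianRing A]

/-- Krull's intersection theorem, elementwise. -/
theorem eq_zero_of_quotients {x : A}
    (h : ∀ n : ℕ, n ≠ 0 → Ideal.Quotient.mk (maximalIdeal A ^ n) x = 0) : x = 0 := by
  have h1 : x ∈ ⨅ n : ℕ, maximalIdeal A ^ n := by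
    rw [Ideal.mem_iInf]
    intro n
    rcases Nat.eq_zero_or_pos n with rfl | hn
    · simp
    · exact Ideal.Quotient.eq_zero_iff_mem.mp (h n hn.ne')
  rw [Ideal.iInf_pow_eq_bot_of_isLocalRing (maximalIdeal A) Ideal.IsPrime.ne_top'] at h1
  exact h1

theorem eq_of_quotients {x y : A}
    (h : ∀ n : ℕ, n ≠ 0 → Ideal.Quotient.mk (maximalIdeal A ^ n) x =
      Ideal.Quotient.mk (maximalIdeal A ^ n) y) : x = y := by
  rw [← sub_eq_zero]
  exact eq_zero_of_quotients fun n hn => by rw [_root_.map_sub, h n hn, sub_self]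

theorem mat_eq_of_quotients {M N : M2 A}
    (h : ∀ n : ℕ, n ≠ 0 → M.map (Ideal.Quotient.mk (maximalIdeal A ^ n)) =
      N.map (Ideal.Quotient.mk (maximalIdeal A ^ n))) : M = N := by
  ext i j
  refine eq_of_quotients fun n hn => ?_
  have := congrFun (congrFun (h n hn) i) j
  simpa using this

theorem poly_eq_of_quotients {f g : A[X]}
    (h : ∀ n : ℕ, n ≠ 0 → f.map (Ideal.Quotient.mk (maximalIdeal A ^ n)) =
      g.map (Ideal.Quotient.mk (maximalIdeal A ^ n))) : f = g := by
  ext k
  refine eq_of_quotients fun n hn => ?_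
  have := congrArg (fun h => Polynomial.coeff h k) (h n hn)
  simpa using this

/-- Ideals of a Noetherian local ring are closed: membership is detected modulo the powers of
the maximal ideal. -/
theorem mem_of_quotients (I : Ideal A) {x : A}
    (h : ∀ n : ℕ, n ≠ 0 → Ideal.Quotient.mk (maximalIdeal A ^ n) x ∈
      I.map (Ideal.Quotient.mk (maximalIdeal A ^ n))) : x ∈ I := by
  have h1 : ∀ n : ℕ, x ∈ I ⊔ maximalIdeal A ^ n := by
    intro n
    rcases Nat.eq_zero_or_pos n with rfl | hn
    · simp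
    · have h2 := h n hn.ne'
      rw [← Ideal.mem_comap, Ideal.comap_map_of_surjective _ Ideal.Quotient.mk_surjective,
        ← RingHom.ker_eq_comap_bot, Ideal.mk_ker] at h2
      exact h2
  -- pass to the quotient `A ⧸ I`
  by_cases hI : I = ⊤
  · rw [hI]; trivial
  haveI : Nontrivial (A ⧸ I) := Ideal.Quotient.nontrivial_iff.mpr hI
  haveI : IsLocalRing (A ⧸ I) :=
    IsLocalRing.of_surjective' (Ideal.Quotient.mk I) Ideal.Quotient.mk_surjective
  have h3 : Ideal.Quotient.mk I x ∈ ⨅ n : ℕ, (maximalIdeal A).map (Ideal.Quotient.mk I) ^ n := by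
    rw [Ideal.mem_iInf]
    intro n
    rw [← Ideal.map_pow]
    obtain ⟨a, ha, b, hb, hab⟩ := Submodule.mem_sup.mp (h1 n)
    rw [← hab, _root_.map_add, Ideal.Quotient.eq_zero_iff_mem.mpr ha, zero_add]
    exact Ideal.mem_map_of_mem _ hb
  have hne : (maximalIdeal A).map (Ideal.Quotient.mk I) ≠ ⊤ := by
    intro htop
    have h4 : (1 : A ⧸ I) ∈ (maximalIdeal A).map (Ideal.Quotient.mk I) := by rw [htop]; trivial
    rw [← _root_.map_one (Ideal.Quotient.mk I), ← Ideal.mem_comap,
      Ideal.comap_map_of_surjective _ Ideal.Quotient.mk_surjective,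
      ← RingHom.ker_eq_comap_bot, Ideal.mk_ker] at h4
    have h5 : maximalIdeal A ⊔ I = maximalIdeal A :=
      sup_eq_left.mpr (IsLocalRing.le_maximalIdeal hI)
    rw [h5] at h4
    exact (Ideal.ne_top_iff_one _).mp Ideal.IsPrime.ne_top' h4
  rw [Ideal.iInf_pow_eq_bot_of_isLocalRing _ hne] at h3
  exact Ideal.Quotient.eq_zero_iff_mem.mp h3

end Quot

section Local

variable {A B : Type} [CommRing A] [IsLocalRing A] [CommRing B] [IsLocalRing B]

/-- Ring homomorphisms of local rings reflect membership of the maximal ideal. -/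
theorem mem_maximalIdeal_of_map (φ : A →+* B) {a : A}
    (h : φ a ∈ maximalIdeal B) : a ∈ maximalIdeal A := by
  rw [IsLocalRing.mem_maximalIdeal, mem_nonunits_iff] at h ⊢
  exact fun ha => h (ha.map φ)

theorem natCast_mem_maximalIdeal_of_map (φ : A →+* B) {p : ℕ}
    (h : (p : B) ∈ maximalIdeal B) : (p : A) ∈ maximalIdeal A :=
  mem_maximalIdeal_of_map φ (by rwa [_root_.map_natCast])

end Local

end Fermat.Agent.S59.H659

end
-- ===== PACK-END S59/H659/Basic.lean

-- ===== PACK-BEGIN S56/P3/Glue.lean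
section


/-!
# S56, piece P3 : top glue (sorry-free)

`twElement_of_pieces : SEL → REG → CYC → CYCEXP → DETORD → Fermat.Agent.S56.TWElementStatement`.
-/

set_option autoImplicit false

open Polynomial IsLocalRing

namespace Fermat.Agent.S56.P3

/-- In a field, `DetIsCyclotomic p` forces `p = 0`. -/
theorem natCast_eq_zero_of_detIsCyclotomic {k : Type} [Field k] {p : ℕ}
    {ρbar : ResidualGaloisRep k}
    (hdet : (GaloisRepAdic.ofResidualGaloisRep ρbar).DetIsCyclotomic p) : (p : k) = 0 := by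
  have h := hdet.1
  rwa [IsLocalRing.maximalIdeal_eq_bot, Ideal.mem_bot] at h

/-- (DET) `det ρ̄ σ` is any cyclotomic exponent of `σ` on `μ_p`. -/
theorem det_eq_of_isCycExp {k : Type} [Field k] {p : ℕ} {ρbar : ResidualGaloisRep k}
    (hdet : (GaloisRepAdic.ofResidualGaloisRep ρbar).DetIsCyclotomic p) {σ : _root_.Fermat.Agent.S56.P3.GQ} {a : ℕ}
    (h : Fermat.Agent.S56.IsCycExp p σ a) : LinearMap.det (ρbar.ρ σ) = (a : k) := by
  have hp0 : (p : k) = 0 := natCast_eq_zero_of_detIsCyclotomic hdet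
  have h1 := hdet.2 1 σ a (fun μ hμ => h μ (by simpa using hμ))
  have h0 : ((p ^ 1 : ℕ) : k) = 0 := by simpa using hp0
  rw [h0, Ideal.mem_span_singleton, zero_dvd_iff, sub_eq_zero] at h1
  exact h1

/-- `σ` fixing `μ_{p^(n+1)}` has cyclotomic exponent `1` on `μ_p`. -/
theorem isCycExp_one_of_fixesRoots {p n : ℕ} {σ : _root_.Fermat.Agent.S56.P3.GQ} (h : FixesRoots p n σ) :
    Fermat.Agent.S56.IsCycExp p σ 1 := by
  intro μ hμ
  rw [pow_one]
  refine h μ ?_
  rw [pow_succ', pow_mul, hμ, one_pow]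

/-- (HYP) the S56 hypotheses give the abstract package `TWHyp`. -/
theorem twHyp_of_hyp {𝒪 : Type} [CommRing 𝒪] [IsDomain 𝒪] [IsDiscreteValuationRing 𝒪]
    {p : ℕ} {ρbar : ResidualGaloisRep (ResidueField 𝒪)} {S Smin : Finset ℕ}
    (H : Fermat.Agent.S56.Hyp 𝒪 p ρbar S Smin) : TWHyp ρbar.ρ p where
  finrank_eq := ρbar.finrank_eq
  char_p := natCast_eq_zero_of_detIsCyclotomic H.hdet
  absIrr := fun W hW => H.habs W hW
  tw := fun K _ _ G hG W hW => H.hTW K G hG W hW
  split := H.hsplit

/-- a cocycle in the sense of the row interface is a cocycle in End-form. -/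
theorem isTwCocycle_of_row {k : Type} [Field k] {p : ℕ} {ρbar : ResidualGaloisRep k}
    (hdet : (GaloisRepAdic.ofResidualGaloisRep ρbar).DetIsCyclotomic p)
    (hexp : ∀ σ : _root_.Fermat.Agent.S56.P3.GQ, ∃ a : ℕ, Fermat.Agent.S56.IsCycExp p σ a)
    {c : _root_.Fermat.Agent.S56.P3.GQ → Module.End k ρbar.V} (hc : Fermat.Agent.S56.IsTwCocycle ρbar p c) :
    _root_.Fermat.Agent.S56.P3.IsTwCocycle ρbar.ρ c where
  trace_zero := hc.trace_eq_zero
  map_mul := by
    intro g h
    obtain ⟨a, ha⟩ := hexp g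
    rw [hc.map_mul g h a ha, twEnd, det_eq_of_isCycExp hdet ha]
    rfl

/-- a coboundary in End-form is a coboundary in the sense of the row interface. -/
theorem row_isTwCoboundary {k : Type} [Field k] {p : ℕ} {ρbar : ResidualGaloisRep k}
    (hdet : (GaloisRepAdic.ofResidualGaloisRep ρbar).DetIsCyclotomic p)
    {c : _root_.Fermat.Agent.S56.P3.GQ → Module.End k ρbar.V} (hc : _root_.Fermat.Agent.S56.P3.IsTwCoboundary ρbar.ρ c) :
    Fermat.Agent.S56.IsTwCoboundary ρbar p c := by
  obtain ⟨m, hm, h⟩ := hc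
  refine ⟨m, hm, fun σ _ a ha => ?_⟩
  rw [h σ, twEnd, det_eq_of_isCycExp hdet ha]
  rfl

/-- **P3 from its pieces.** -/
theorem twElement_of_pieces (hsel : AbstractTWElementStatement) (hreg : ExistsRegularStatement)
    (hcyc : CycloQuotientStatement) (hexp : CycExpExistsStatement) (hord : DetOrderStatement) :
    Fermat.Agent.S56.TWElementStatement := by
  intro 𝒪 _ _ _ _ _ p ρbar S Smin H
  haveI : Fact p.Prime := ⟨H.hp⟩
  have hT : TWHyp ρbar.ρ p := twHyp_of_hyp H
  refine ⟨fun c hc hnc n => ?_, fun n => ?_⟩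
  · obtain ⟨hN, hC⟩ := hcyc p H.hp2 n
    have hdet1 : ∀ δ ∈ fixRootsSubgroup p n, LinearMap.det (ρbar.ρ δ) = 1 := by
      intro δ hδ
      rw [det_eq_of_isCycExp H.hdet (isCycExp_one_of_fixesRoots hδ), Nat.cast_one]
    obtain ⟨σ, hσΔ, hσreg, hσdet, hσ⟩ :=
      hsel (ResidueField 𝒪) ρbar.V _root_.Fermat.Agent.S56.P3.GQ ρbar.ρ p H.hp2 hT (fixRootsSubgroup p n) hC hdet1
        (hord (ResidueField 𝒪) p ρbar H.hdet) c
        (isTwCocycle_of_row H.hdet (hexp p) hc)
        (fun h => hnc (row_isTwCoboundary H.hdet h))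
    refine ⟨σ, hσΔ, hσreg, fun m hm heq => hσ ⟨m, hm, ?_⟩⟩
    rw [twEnd, hσdet, one_smul]
    exact heq
  · obtain ⟨hN, hC⟩ := hcyc p H.hp2 n
    obtain ⟨σ, hσΔ, hσreg⟩ :=
      hreg (ResidueField 𝒪) ρbar.V _root_.Fermat.Agent.S56.P3.GQ ρbar.ρ p H.hp2 hT (fixRootsSubgroup p n) hC
    exact ⟨σ, hσΔ, hσreg⟩

end Fermat.Agent.S56.P3

end
-- ===== PACK-END S56/P3/Glue.lean

-- ===== PACK-BEGIN Lib/RR/H623/WeakApprox.lean
section




/-!
# Shared library RR (helper623): the weak approximation theorem for places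

Prelude language (`AlgebraicCurve.Place`).  For finitely many places `v ∈ s`, targets `x v : F`
and orders `r v : ℤ` there is `z : F` with `ord_v (z - x v) = r v` for all `v ∈ s`
(Stichtenoth, Thm. 1.3.1).  No hypothesis on `K`, `F`.

* `Big v r f` : `f = 0 ∨ r ≤ ord_v f` with its calculus
* `exists_near_one`, `exists_approx`, `weak_approximation`, `weak_approximation_ge`
-/

set_option autoImplicit false

noncomputable section

namespace Fermat.Agent.Lib.RR.H623

open AlgebraicCurve Fermat.Agent.S24.H117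

variable {K F : Type*} [Field K] [Field F] [Algebra K F]

/-- `f = 0` or `r ≤ ord_v f`. -/
def Big (v : Place K F) (r : ℤ) (f : F) : Prop := f = 0 ∨ r ≤ v.ord f

namespace Big

variable {v : Place K F} {r s : ℤ} {f g : F}

theorem zero (v : Place K F) (r : ℤ) : Big v r (0 : F) := Or.inl rfl

theorem of_le (hf : r ≤ v.ord f) : Big v r f := Or.inr hf

theorem le_ord (h : Big v r f) (hf : f ≠ 0) : r ≤ v.ord f := h.resolve_left hf

theorem mono (h : Big v r f) (hsr : s ≤ r) : Big v s f := by
  rcases h with h | h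
  · exact Or.inl h
  · exact Or.inr (hsr.trans h)

theorem neg (h : Big v r f) : Big v r (-f) := by
  rcases h with h | h
  · exact Or.inl (by rw [h, neg_zero])
  · exact Or.inr (by rwa [_root_.Fermat.Agent.S24.H117.ord_neg])

theorem add (hf : Big v r f) (hg : Big v r g) : Big v r (f + g) := by
  rcases eq_or_ne (f + g) 0 with h0 | h0
  · exact Or.inl h0
  rcases hf with rfl | hf
  · rwa [zero_add]
  rcases hg with rfl | hg
  · rw [add_zero]; exact Or.inr hf
  exact Or.inr ((le_min hf hg).trans (ord_add_ge v h0))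

theorem sub (hf : Big v r f) (hg : Big v r g) : Big v r (f - g) := by
  rw [sub_eq_add_neg]; exact hf.add hg.neg

theorem mul (hf : Big v r f) (hg : Big v s g) : Big v (r + s) (f * g) := by
  rcases hf with rfl | hf
  · exact Or.inl (zero_mul _)
  rcases hg with rfl | hg
  · exact Or.inl (mul_zero _)
  rcases eq_or_ne f 0 with rfl | hf0
  · exact Or.inl (zero_mul _)
  rcases eq_or_ne g 0 with rfl | hg0
  · exact Or.inl (mul_zero _)
  refine Or.inr ?_
  rw [v.ord_mul hf0 hg0]
  omega

theorem sum {ι : Type*} (t : Finset ι) (φ : ι → F) (h : ∀ i ∈ t, Big v r (φ i)) :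
    Big v r (∑ i ∈ t, φ i) := by
  classical
  induction t using Finset.induction_on with
  | empty => simp [zero]
  | insert a t ha ih =>
    rw [Finset.sum_insert ha]
    exact (h a (Finset.mem_insert_self _ _)).add
      (ih fun i hi => h i (Finset.mem_insert_of_mem hi))

theorem self (v : Place K F) (f : F) : Big v (v.ord f) f := Or.inr le_rfl

end Big

theorem big_iff_adicValuation_le {v : Place K F} {r : ℤ} {f : F} :
    Big v r f ↔ v.adicValuation f ≤ WithZero.exp (-r) := by
  rw [Place.adicValuation_le_exp_iff, neg_neg]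
  rfl

/-- **Step 2**: an element close to `1` at `v` and close to `0` at the places of `s`. -/
theorem exists_near_one (v : Place K F) (s : Finset (Place K F)) (hv : v ∉ s) (r : ℤ) :
    ∃ w : F, Big v r (w - 1) ∧ ∀ w' ∈ s, Big w' r w := by
  obtain ⟨u, hu1, hu2⟩ := exists_ord_pos_forall_neg v s hv
  obtain ⟨n, hn1, hnr⟩ : ∃ n : ℕ, 1 ≤ n ∧ r ≤ (n : ℤ) :=
    ⟨r.toNat + 1, by omega, by have := Int.self_le_toNat r; push_cast; omega⟩
  have hn1' : (1 : ℤ) ≤ n := by exact_mod_cast hn1
  have hu0 : u ≠ 0 := _root_.Fermat.Agent.S24.H117.ne_zero_of_ord_ne_zero v hu1.ne'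
  set t : F := u ^ n with ht
  have ht0 : t ≠ 0 := pow_ne_zero _ hu0
  have hvt : (n : ℤ) ≤ v.ord t := by
    rw [ht, _root_.Fermat.Agent.S24.H117.ord_pow]
    nlinarith
  have h1t : v.ord (1 + t) = 0 := by
    have := _root_.Fermat.Agent.S24.H117.ord_add_eq_of_lt v (f := (1 : F)) (g := t) (by rw [v.ord_one]; omega) one_ne_zero
    rw [this, v.ord_one]
  have hne : (1 : F) + t ≠ 0 := by
    intro h0
    have ht1 : t = -1 := eq_neg_of_add_eq_zero_right h0
    have : v.ord t = 0 := by rw [ht1, _root_.Fermat.Agent.S24.H117.ord_neg, v.ord_one]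
    omega
  refine ⟨(1 + t)⁻¹, ?_, ?_⟩
  · have hw : (1 + t)⁻¹ - 1 = -(t / (1 + t)) := by
      field_simp
      ring
    rw [hw]
    apply Big.neg
    apply Big.of_le
    rw [ord_div v ht0 hne, h1t]
    omega
  · intro w' hw'
    have hw't : w'.ord t ≤ -(n : ℤ) := by
      rw [ht, _root_.Fermat.Agent.S24.H117.ord_pow]
      have := hu2 w' hw'
      nlinarith
    have h1 : w'.ord (t + 1) = w'.ord t :=
      _root_.Fermat.Agent.S24.H117.ord_add_eq_of_lt w' (by rw [w'.ord_one]; omega) ht0
    apply Big.of_le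
    rw [w'.ord_inv, add_comm, h1]
    omega

/-- **Step 3**: simultaneous approximation of arbitrary targets to arbitrary precision. -/
theorem exists_approx (s : Finset (Place K F)) (y : Place K F → F) (r : ℤ) :
    ∃ z : F, ∀ v ∈ s, Big v r (z - y v) := by
  classical
  -- a uniform lower bound for the orders of the targets
  set M : ℤ := ∑ v ∈ s, ∑ v' ∈ s, |v.ord (y v')| with hM
  have hMbound : ∀ v ∈ s, ∀ v' ∈ s, Big v (-M) (y v') := by
    intro v hv v' hv'
    apply Big.of_le
    have h1 : |v.ord (y v')| ≤ ∑ v'' ∈ s, |v.ord (y v'')| :=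
      Finset.single_le_sum (f := fun v'' => |v.ord (y v'')|) (fun _ _ => abs_nonneg _) hv'
    have h2 : ∑ v'' ∈ s, |v.ord (y v'')| ≤ M :=
      Finset.single_le_sum (f := fun v₀ : Place K F => ∑ v'' ∈ s, |v₀.ord (y v'')|)
        (fun _ _ => Finset.sum_nonneg fun _ _ => abs_nonneg _) hv
    have h3 := neg_abs_le (v.ord (y v'))
    omega
  have hex : ∀ v : Place K F, ∃ w : F, Big v (r + M) (w - 1) ∧
      ∀ w' ∈ s.erase v, Big w' (r + M) w :=
    fun v => exists_near_one v (s.erase v) (Finset.notMem_erase v s) (r + M)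
  choose w hw1 hw2 using hex
  refine ⟨∑ v' ∈ s, y v' * w v', fun v hv => ?_⟩
  have hsplit : ∑ v' ∈ s, y v' * w v' - y v =
      y v * (w v - 1) + ∑ v' ∈ s.erase v, y v' * w v' := by
    rw [← Finset.add_sum_erase s _ hv]
    ring
  rw [hsplit]
  refine Big.add ?_ (Big.sum _ _ fun v' hv' => ?_)
  · have := (hMbound v hv v hv).mul (hw1 v)
    exact this.mono (by omega)
  · have hv's : v' ∈ s := Finset.mem_of_mem_erase hv'
    have hvv' : v ∈ s.erase v' :=
      Finset.mem_erase.mpr ⟨(Finset.ne_of_mem_erase hv').symm, hv⟩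
    have := (hMbound v hv v' hv's).mul (hw2 v' v hvv')
    exact this.mono (by omega)

theorem exists_ord_eq' (v : Place K F) (n : ℤ) : ∃ c : F, c ≠ 0 ∧ v.ord c = n := by
  obtain ⟨π, hπ0, hπ1⟩ := _root_.Fermat.Agent.S24.H117.exists_ord_eq_one v
  refine ⟨π ^ n, zpow_ne_zero _ hπ0, ?_⟩
  rw [v.ord_zpow, hπ1, mul_one]

/-- **Weak approximation theorem**, exact orders. -/
theorem weak_approximation (s : Finset (Place K F)) (x : Place K F → F) (r : Place K F → ℤ) :
    ∃ z : F, ∀ v ∈ s, z - x v ≠ 0 ∧ v.ord (z - x v) = r v := by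
  classical
  choose c hc0 hc using fun v : Place K F => exists_ord_eq' v (r v)
  set R : ℤ := ∑ v ∈ s, |r v| + 1 with hR
  have hRbound : ∀ v ∈ s, r v < R := by
    intro v hv
    have h1 : |r v| ≤ ∑ v' ∈ s, |r v'| :=
      Finset.single_le_sum (f := fun v' => |r v'|) (fun _ _ => abs_nonneg _) hv
    have h2 := le_abs_self (r v)
    omega
  obtain ⟨z, hz⟩ := exists_approx s (fun v => x v + c v) R
  refine ⟨z, fun v hv => ?_⟩
  have hdecomp : z - x v = c v + (z - (x v + c v)) := by ring
  have hlt : ∀ e : F, Big v R e → v.ord (c v + e) = v.ord (c v) := by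
    intro e he
    rcases eq_or_ne e 0 with rfl | he0
    · rw [add_zero]
    · exact _root_.Fermat.Agent.S24.H117.ord_add_eq_of_lt v (by have := he.le_ord he0; have := hRbound v hv; rw [hc v]; omega)
        (hc0 v)
  have hord : v.ord (z - x v) = r v := by
    rw [hdecomp, hlt _ (hz v hv), hc v]
  refine ⟨?_, hord⟩
  intro h0
  rcases hz v hv with h | h
  · have : z - x v = c v := by rw [hdecomp, h, add_zero]
    exact hc0 v (this ▸ h0)
  · have h1 : z - (x v + c v) = -(c v) := by
      have : z - (x v + c v) = (z - x v) - c v := by ring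
      rw [this, h0, zero_sub]
    rw [h1, _root_.Fermat.Agent.S24.H117.ord_neg, hc v] at h
    have := hRbound v hv
    omega

/-- **Weak approximation theorem**, `≥` form. -/
theorem weak_approximation_ge (s : Finset (Place K F)) (x : Place K F → F)
    (r : Place K F → ℤ) : ∃ z : F, ∀ v ∈ s, Big v (r v) (z - x v) := by
  obtain ⟨z, hz⟩ := weak_approximation s x r
  exact ⟨z, fun v hv => Big.of_le (hz v hv).2.ge⟩

end Fermat.Agent.Lib.RR.H623

end
end
-- ===== PACK-END Lib/RR/H623/WeakApprox.lean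

-- ===== PACK-BEGIN S37/Red/H217/Sat.lean
section



/-!
# S37-RED, (H4') saturation is a CONSEQUENCE of (H1)  (helper217)

For a reduction datum `G : Red.Datum A π F Fk` (helper40's `Red/Spec.lean`), the two saturation
fields `sat_fin`, `sat_inf` of `Datum.Good` follow from the degree equality
`[F : K(x)] = [F_k : k(x̄)] < ∞` alone (`sat_fin_of_finrank_eq`, `sat_inf_of_finrank_eq`);
`good_of` assembles `G.Good` from (H1) and (H3).  No noetherian hypothesis, no descent.
-/

set_option autoImplicit false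

namespace Fermat.Agent.S37.Red.H217

open AlgebraicCurve IntermediateField Fermat.Agent.S37.H217

universe u

variable {K k : Type u} [Field K] [Field k] {A : ValuationSubring K} {π : A →+* k}
  {F Fk : Type u} [Field F] [Field Fk] [Algebra K F] [Algebra k Fk]

/-- the abstract Gauss context underlying a datum -/
def toRedCtx (G : Datum A π F Fk) : RedCtx A π F Fk where
  π_surj := G.π_surj
  O := G.O
  ρ := G.ρ
  ρ_surj := G.ρ_surj
  const_mem := G.const_mem
  ρ_const := G.ρ_const

theorem mem_chart_iff (G : Datum A π F Fk) (t f : F) :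
    f ∈ G.chart t ↔ IsIntegral (G.polyRing t) f := Iff.rfl

theorem mem_chartK_iff (G : Datum A π F Fk) (t f : F) :
    f ∈ G.chartK t ↔ IsIntegral (Algebra.adjoin K {t}) f := Iff.rfl

/-- saturation for an arbitrary coordinate `t ∈ O` with transcendental reduction and equal
degrees -/
theorem sat_of_finrank_eq (G : Datum A π F Fk) {t : F} (ht : t ∈ G.O)
    (htr : Transcendental k (G.ρ ⟨t, ht⟩))
    [FiniteDimensional K⟮t⟯ F] [hk : FiniteDimensional k⟮G.ρ ⟨t, ht⟩⟯ Fk]
    (hfr : Module.finrank K⟮t⟯ F = Module.finrank k⟮G.ρ ⟨t, ht⟩⟯ Fk) :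
    ∀ f ∈ G.O, f ∈ G.chartK t → f ∈ G.chart t := by
  intro f hfO hf
  rw [mem_chart_iff]
  rw [mem_chartK_iff] at hf
  have hk' : FiniteDimensional k⟮(toRedCtx G).ρ ⟨t, ht⟩⟯ Fk := hk
  exact (toRedCtx G).isIntegral_polyRing_of_isIntegral ht htr hfr hfO hf

/-- **(H4') at the finite chart from (H1).** -/
theorem sat_fin_of_finrank_eq (G : Datum A π F Fk)
    [FiniteDimensional K⟮G.x⟯ F] [hk : FiniteDimensional k⟮G.xk⟯ Fk]
    (hfr : Module.finrank K⟮G.x⟯ F = Module.finrank k⟮G.xk⟯ Fk) :
    ∀ f ∈ G.O, f ∈ G.chartK G.x → f ∈ G.chart G.x := by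
  have hk' : FiniteDimensional k⟮G.ρ ⟨G.x, G.x_mem⟩⟯ Fk := hk
  exact sat_of_finrank_eq G G.x_mem G.xk_transc hfr

theorem adjoin_inv_eq' {K F : Type*} [Field K] [Field F] [Algebra K F] (f : F) :
    K⟮f⁻¹⟯ = K⟮f⟯ := by
  apply le_antisymm
  · rw [adjoin_simple_le_iff]
    exact _root_.InvMemClass.inv_mem (mem_adjoin_simple_self K f)
  · rw [adjoin_simple_le_iff]
    have := _root_.InvMemClass.inv_mem (mem_adjoin_simple_self K f⁻¹)
    rwa [inv_inv] at this

theorem xk_ne_zero (G : Datum A π F Fk) : G.xk ≠ 0 := by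
  intro h
  have := G.xk_transc
  rw [show G.ρ ⟨G.x, G.x_mem⟩ = 0 from h] at this
  exact this (isAlgebraic_zero)

theorem x_inv_mem (G : Datum A π F Fk) : G.x⁻¹ ∈ G.O := by
  rcases G.O.mem_or_inv_mem G.x with h | h
  · by_contra hn
    have hnon : G.x ∈ G.O.nonunits := by
      rw [ValuationSubring.mem_nonunits_iff_or]
      exact Or.inr hn
    have := ((toRedCtx G).ρ_eq_zero_iff ⟨G.x, G.x_mem⟩).mpr hnon
    exact xk_ne_zero G this
  · exact h

theorem ρ_x_inv (G : Datum A π F Fk) : G.ρ ⟨G.x⁻¹, x_inv_mem G⟩ = G.xk⁻¹ := by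
  have hx0 : G.x ≠ 0 := by
    intro h
    apply xk_ne_zero G
    have : (⟨G.x, G.x_mem⟩ : G.O) = 0 := Subtype.ext h
    show G.ρ ⟨G.x, G.x_mem⟩ = 0
    rw [this, map_zero]
  have h1 : (⟨G.x⁻¹, x_inv_mem G⟩ : G.O) * ⟨G.x, G.x_mem⟩ = 1 :=
    Subtype.ext (inv_mul_cancel₀ hx0)
  have h2 := congrArg G.ρ h1
  rw [map_mul, map_one] at h2
  exact eq_inv_of_mul_eq_one_left h2

/-- **(H4') at the chart at infinity from (H1).** -/
theorem sat_inf_of_finrank_eq (G : Datum A π F Fk)
    [hfin : FiniteDimensional K⟮G.x⟯ F] [hfink : FiniteDimensional k⟮G.xk⟯ Fk]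
    (hfr : Module.finrank K⟮G.x⟯ F = Module.finrank k⟮G.xk⟯ Fk) :
    ∀ f ∈ G.O, f ∈ G.chartK G.x⁻¹ → f ∈ G.chart G.x⁻¹ := by
  have hρ := ρ_x_inv G
  have htr : Transcendental k (G.ρ ⟨G.x⁻¹, x_inv_mem G⟩) := by
    rw [hρ]
    intro h
    apply G.xk_transc
    have := h.inv
    rwa [inv_inv] at this
  have : FiniteDimensional K⟮G.x⁻¹⟯ F := by
    rw [adjoin_inv_eq']; exact hfin
  have : FiniteDimensional k⟮G.ρ ⟨G.x⁻¹, x_inv_mem G⟩⟯ Fk := by
    rw [hρ, adjoin_inv_eq']; exact hfink
  have hfr' : Module.finrank K⟮G.x⁻¹⟯ F =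
      Module.finrank k⟮G.ρ ⟨G.x⁻¹, x_inv_mem G⟩⟯ Fk := by
    rw [hρ, adjoin_inv_eq', adjoin_inv_eq']
    exact hfr
  exact sat_of_finrank_eq G (x_inv_mem G) htr hfr'

/-- `G.Good` from (H1) and (H3) alone. -/
theorem good_of (G : Datum A π F Fk)
    (finite : FiniteDimensional K⟮G.x⟯ F) (finite_k : FiniteDimensional k⟮G.xk⟯ Fk)
    (sep_k : Algebra.IsSeparable k⟮G.xk⟯ Fk)
    (finrank_eq : Module.finrank K⟮G.x⟯ F = Module.finrank k⟮G.xk⟯ Fk)
    (lift_fin : ∀ c ∈ G.chartk G.xk, ∃ b ∈ G.chart G.x, ∃ hb : b ∈ G.O, G.ρ ⟨b, hb⟩ = c)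
    (lift_inf : ∀ c ∈ G.chartk G.xk⁻¹, ∃ b ∈ G.chart G.x⁻¹, ∃ hb : b ∈ G.O, G.ρ ⟨b, hb⟩ = c) :
    G.Good where
  finite := finite
  finite_k := finite_k
  sep_k := sep_k
  finrank_eq := finrank_eq
  lift_fin := lift_fin
  lift_inf := lift_inf
  sat_fin := sat_fin_of_finrank_eq G finrank_eq
  sat_inf := sat_inf_of_finrank_eq G finrank_eq

end Fermat.Agent.S37.Red.H217

end
-- ===== PACK-END S37/Red/H217/Sat.lean

-- ===== PACK-BEGIN Lib/RR/H383/ValRing.lean
section





/-!
# RR library (helper383): valuation rings of a function field are discrete (any characteristic)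

`K` any field, `F / K` a field extension which is finite over `K(y)` for every transcendental `y`
(equivalently for one).  Then every valuation subring `V` of `F` containing `K` is a principal ideal
ring (Stichtenoth, Thm 1.1.6), and every transcendental `t` has a zero: there is a
`Place K F` with `0 < ord t` (Chevalley's extension theorem, Stichtenoth Cor. 1.1.20).
No separability, no characteristic assumption.

Main statements
* `isPrincipalIdealRing_of_finite`
* `exists_place_ord_pos`, `exists_place_ord_neg`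
-/

set_option autoImplicit false

noncomputable section

open AlgebraicCurve Polynomial IntermediateField

namespace Fermat.Agent.Lib.RR.H383

variable {K F : Type*} [Field K] [Field F] [Algebra K F]

section Val

variable (V : ValuationSubring F)

theorem valuation_algebraMap_eq_one (hK : ∀ a : K, algebraMap K F a ∈ V) {a : K} (ha : a ≠ 0) :
    V.valuation (algebraMap K F a) = 1 := by
  have h1 : V.valuation (algebraMap K F a) ≤ 1 := (V.valuation_le_one_iff _).mpr (hK a)
  have h2 : V.valuation (algebraMap K F a⁻¹) ≤ 1 := (V.valuation_le_one_iff _).mpr (hK a⁻¹)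
  have hne : V.valuation (algebraMap K F a) ≠ 0 :=
    (Valuation.ne_zero_iff _).mpr (by simpa using ha)
  rw [map_inv₀, map_inv₀] at h2
  have h3 : 1 ≤ V.valuation (algebraMap K F a) :=
    (inv_le_one₀ (zero_lt_iff.mpr hne)).mp h2
  exact le_antisymm h1 h3

theorem valuation_algebraMap_le_one (hK : ∀ a : K, algebraMap K F a ∈ V) (a : K) :
    V.valuation (algebraMap K F a) ≤ 1 :=
  (V.valuation_le_one_iff _).mpr (hK a)

/-- A finite sum of terms, the nonzero ones having pairwise distinct valuations and at least one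
being nonzero, is nonzero. -/
theorem sum_ne_zero_of_valuation_injOn {ι : Type*} (s : Finset ι) (f : ι → F)
    (hne : ∃ i ∈ s, f i ≠ 0)
    (hinj : ∀ i ∈ s, ∀ j ∈ s, f i ≠ 0 → f j ≠ 0 → V.valuation (f i) = V.valuation (f j) → i = j) :
    ∑ i ∈ s, f i ≠ 0 := by
  classical
  set s' := s.filter (fun i => f i ≠ 0) with hs'
  have hsum : ∑ i ∈ s, f i = ∑ i ∈ s', f i := by
    rw [hs', Finset.sum_filter]
    refine Finset.sum_congr rfl fun i _ => ?_
    by_cases h : f i = 0
    · simp [h]
    · simp [h]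
  have hne' : s'.Nonempty := by
    obtain ⟨i, hi, hfi⟩ := hne
    exact ⟨i, Finset.mem_filter.mpr ⟨hi, hfi⟩⟩
  obtain ⟨i₀, hi₀, hmax⟩ := Finset.exists_max_image s' (fun i => V.valuation (f i)) hne'
  have hi₀' := Finset.mem_filter.mp hi₀
  have hv0 : V.valuation (f i₀) ≠ 0 := (Valuation.ne_zero_iff _).mpr hi₀'.2
  have hlt : V.valuation (∑ i ∈ s'.erase i₀, f i) < V.valuation (f i₀) := by
    refine Valuation.map_sum_lt _ hv0 fun i hi => ?_
    have hi' := Finset.mem_erase.mp hi
    have hi'' := Finset.mem_filter.mp hi'.2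
    refine lt_of_le_of_ne (hmax i hi'.2) fun heq => ?_
    exact hi'.1 (hinj i hi''.1 i₀ hi₀'.1 hi''.2 hi₀'.2 heq)
  rw [hsum, ← Finset.add_sum_erase s' f hi₀]
  intro h0
  have := Valuation.map_add_eq_of_lt_left V.valuation hlt
  rw [h0, _root_.map_zero] at this
  exact hv0 this.symm

/-- The valuation of a nonzero polynomial in a nonzero non-unit `x`, with coefficients in `K`,
is a power of the valuation of `x`. -/
theorem valuation_aeval (hK : ∀ a : K, algebraMap K F a ∈ V) {x : F} (hx0 : x ≠ 0)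
    (hx : V.valuation x < 1) {p : K[X]} (hp : p ≠ 0) :
    V.valuation (aeval x p) = V.valuation x ^ p.natTrailingDegree := by
  classical
  have hvx0 : V.valuation x ≠ 0 := (Valuation.ne_zero_iff _).mpr hx0
  have hk : p.natTrailingDegree ∈ p.support :=
    Polynomial.natTrailingDegree_mem_support_of_nonzero hp
  have hck : p.coeff p.natTrailingDegree ≠ 0 := Polynomial.mem_support_iff.mp hk
  rw [aeval_def, eval₂_eq_sum, Polynomial.sum_def, ← Finset.add_sum_erase _ _ hk]
  have hmain : V.valuation (algebraMap K F (p.coeff p.natTrailingDegree) * x ^ p.natTrailingDegree)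
      = V.valuation x ^ p.natTrailingDegree := by
    rw [_root_.map_mul, valuation_algebraMap_eq_one V hK hck, one_mul, _root_.map_pow]
  have hpow0 : V.valuation x ^ p.natTrailingDegree ≠ 0 := pow_ne_zero _ hvx0
  have hlt : V.valuation (∑ i ∈ p.support.erase p.natTrailingDegree,
      algebraMap K F (p.coeff i) * x ^ i) < V.valuation x ^ p.natTrailingDegree := by
    refine Valuation.map_sum_lt _ hpow0 fun i hi => ?_
    have hi' := Finset.mem_erase.mp hi
    have hle : p.natTrailingDegree ≤ i := Polynomial.natTrailingDegree_le_of_mem_supp i hi'.2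
    have hlt' : p.natTrailingDegree < i := lt_of_le_of_ne hle (Ne.symm hi'.1)
    rw [_root_.map_mul, _root_.map_pow]
    calc V.valuation (algebraMap K F (p.coeff i)) * V.valuation x ^ i
        ≤ 1 * V.valuation x ^ i :=
          mul_le_mul_left (valuation_algebraMap_le_one V hK _) _
      _ = V.valuation x ^ i := one_mul _
      _ < V.valuation x ^ p.natTrailingDegree :=
          pow_lt_pow_right_of_lt_one₀ (zero_lt_iff.mpr hvx0) hx hlt'
  rw [Valuation.map_add_eq_of_lt_left V.valuation (by rw [hmain]; exact hlt), hmain]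

/-- The valuation of a nonzero element of `K(x)` is an integral power of the valuation of `x`. -/
theorem exists_valuation_eq_zpow (hK : ∀ a : K, algebraMap K F a ∈ V) {x : F} (hx0 : x ≠ 0)
    (hx : V.valuation x < 1) {φ : F} (hφ : φ ∈ K⟮x⟯) (hφ0 : φ ≠ 0) :
    ∃ m : ℤ, V.valuation φ = V.valuation x ^ m := by
  obtain ⟨r, s, hrs⟩ := (IntermediateField.mem_adjoin_simple_iff K φ).mp hφ
  have hr : aeval x r ≠ 0 := by
    intro h
    rw [hrs, h, zero_div] at hφ0
    exact hφ0 rfl
  have hs : aeval x s ≠ 0 := by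
    intro h
    rw [hrs, h, div_zero] at hφ0
    exact hφ0 rfl
  have hr0 : r ≠ 0 := fun h => hr (by rw [h, _root_.map_zero])
  have hs0 : s ≠ 0 := fun h => hs (by rw [h, _root_.map_zero])
  refine ⟨(r.natTrailingDegree : ℤ) - s.natTrailingDegree, ?_⟩
  have hvx0 : V.valuation x ≠ 0 := (Valuation.ne_zero_iff _).mpr hx0
  rw [hrs, map_div₀, valuation_aeval V hK hx0 hx hr0, valuation_aeval V hK hx0 hx hs0,
    zpow_sub₀ hvx0, zpow_natCast, zpow_natCast]

/-- No integral power of `γ < 1` lies strictly between `γ` and `1`. -/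
theorem zpow_ne_of_lt_of_lt {Γ : Type*} [LinearOrderedCommGroupWithZero Γ] {γ r : Γ}
    (hγ0 : γ ≠ 0) (hγ : γ < 1) (h1 : γ < r) (h2 : r < 1) (m : ℤ) : r ≠ γ ^ m := by
  intro h
  rcases le_or_gt m 0 with hm | hm
  · -- γ^m ≥ 1
    have : (1 : Γ) ≤ γ ^ m := by
      obtain ⟨n, rfl⟩ : ∃ n : ℕ, m = -n := ⟨(-m).toNat, by omega⟩
      rw [zpow_neg, zpow_natCast]
      exact (one_le_inv₀ (pow_pos (zero_lt_iff.mpr hγ0) n)).mpr (pow_le_one₀ zero_le hγ.le)
    rw [← h] at this
    exact absurd h2 (not_lt.mpr this)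
  · -- γ^m ≤ γ
    have : γ ^ m ≤ γ := by
      obtain ⟨n, rfl⟩ : ∃ n : ℕ, m = (n + 1 : ℕ) := ⟨(m - 1).toNat, by omega⟩
      rw [zpow_natCast, pow_succ]
      exact mul_le_of_le_one_left' (pow_le_one₀ zero_le hγ.le)
    rw [← h] at this
    exact absurd h1 (not_lt.mpr this)

/-- Elements whose valuations increase strictly inside `[v x, 1)` are linearly independent
over `K(x)`. -/
theorem linearIndependent_of_strictMono (hK : ∀ a : K, algebraMap K F a ∈ V) {x : F} (hx0 : x ≠ 0)
    (hx : V.valuation x < 1) {n : ℕ} (y : Fin n → F)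
    (hmono : StrictMono fun i => V.valuation (y i))
    (hlow : ∀ i, V.valuation x ≤ V.valuation (y i))
    (hhigh : ∀ i, V.valuation (y i) < 1) :
    LinearIndependent K⟮x⟯ y := by
  classical
  have hvx0 : V.valuation x ≠ 0 := (Valuation.ne_zero_iff _).mpr hx0
  have hy0 : ∀ i, y i ≠ 0 := fun i h => by
    have := hlow i
    rw [h, _root_.map_zero] at this
    exact hvx0 (le_antisymm this zero_le)
  rw [Fintype.linearIndependent_iff]
  intro g hg
  by_contra hcon
  push Not at hcon
  obtain ⟨i₁, hi₁⟩ := hcon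
  have hsum : ∑ i ∈ (Finset.univ : Finset (Fin n)), (g i : F) * y i ≠ 0 := by
    refine sum_ne_zero_of_valuation_injOn V Finset.univ (fun i => (g i : F) * y i)
      ⟨i₁, Finset.mem_univ _, mul_ne_zero (by simpa using hi₁) (hy0 i₁)⟩ ?_
    intro i _ j _ hi hj hij
    by_contra hne
    have hgi : (g i : F) ≠ 0 := left_ne_zero_of_mul hi
    have hgj : (g j : F) ≠ 0 := left_ne_zero_of_mul hj
    obtain ⟨a, ha⟩ := exists_valuation_eq_zpow V hK hx0 hx (g i).2 hgi
    obtain ⟨b, hb⟩ := exists_valuation_eq_zpow V hK hx0 hx (g j).2 hgj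
    simp only [_root_.map_mul] at hij
    rw [ha, hb] at hij
    have hvi0 : V.valuation (y i) ≠ 0 := (Valuation.ne_zero_iff _).mpr (hy0 i)
    have hvj0 : V.valuation (y j) ≠ 0 := (Valuation.ne_zero_iff _).mpr (hy0 j)
    -- wlog i < j
    have key : ∀ (i j : Fin n) (a b : ℤ), i < j →
        V.valuation x ^ a * V.valuation (y i) = V.valuation x ^ b * V.valuation (y j) →
        False := by
      intro i j a b hlt h
      have hvi0 : V.valuation (y i) ≠ 0 := (Valuation.ne_zero_iff _).mpr (hy0 i)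
      have hvj0 : V.valuation (y j) ≠ 0 := (Valuation.ne_zero_iff _).mpr (hy0 j)
      have hr : V.valuation (y i) * (V.valuation (y j))⁻¹ = V.valuation x ^ (b - a) := by
        rw [zpow_sub₀ hvx0]
        field_simp
        rw [mul_comm, h, mul_comm]
      have hlt' : V.valuation (y i) < V.valuation (y j) := hmono hlt
      have h2 : V.valuation (y i) * (V.valuation (y j))⁻¹ < 1 := by
        rw [mul_inv_lt_iff₀ (zero_lt_iff.mpr hvj0), one_mul]
        exact hlt'
      have h1 : V.valuation x < V.valuation (y i) * (V.valuation (y j))⁻¹ := by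
        rw [lt_mul_inv_iff₀ (zero_lt_iff.mpr hvj0)]
        calc V.valuation x * V.valuation (y j) < V.valuation x * 1 :=
              mul_lt_mul_of_pos_left (hhigh j) (zero_lt_iff.mpr hvx0)
          _ = V.valuation x := mul_one _
          _ ≤ V.valuation (y i) := hlow i
      exact zpow_ne_of_lt_of_lt hvx0 hx h1 h2 (b - a) hr
    rcases lt_or_gt_of_ne hne with h | h
    · exact key i j a b h hij
    · exact key j i b a h hij.symm
  apply hsum
  have : ∑ i, g i • y i = ∑ i ∈ (Finset.univ : Finset (Fin n)), (g i : F) * y i := by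
    refine Finset.sum_congr rfl fun i _ => ?_
    rfl
  rw [← this]
  exact hg

/-- A nonzero non-unit of a valuation ring containing `K` is transcendental over `K`. -/
theorem transcendental_of_valuation_lt_one (hK : ∀ a : K, algebraMap K F a ∈ V) {x : F}
    (hx0 : x ≠ 0) (hx : V.valuation x < 1) : Transcendental K x := by
  intro halg
  have hint : IsIntegral K x := halg.isIntegral
  have hxV : x ∈ V := (V.valuation_le_one_iff x).mp hx.le
  let S : Subalgebra K F :=
    { V.toSubring with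
      algebraMap_mem' := fun a => hK a }
  have hxS : x ∈ S := hxV
  have hinv : x⁻¹ ∈ S := hint.inv_mem hxS
  have hinvV : x⁻¹ ∈ V := hinv
  have h1 : V.valuation x⁻¹ ≤ 1 := (V.valuation_le_one_iff _).mpr hinvV
  rw [map_inv₀] at h1
  have hvx0 : V.valuation x ≠ 0 := (Valuation.ne_zero_iff _).mpr hx0
  have h2 : 1 ≤ V.valuation x := (inv_le_one₀ (zero_lt_iff.mpr hvx0)).mp h1
  exact absurd hx (not_lt.mpr h2)

/-- **Stichtenoth 1.1.6.** A valuation ring of a function field (containing the constants) is a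
principal ideal ring. -/
theorem isPrincipalIdealRing_of_finite (hK : ∀ a : K, algebraMap K F a ∈ V)
    (hfin : ∀ y : F, Transcendental K y → FiniteDimensional K⟮y⟯ F) :
    IsPrincipalIdealRing V := by
  classical
  have hwf : WfDvdMonoid V := by
    refine ⟨wellFounded_iff_isEmpty_descending_chain.mpr ⟨?_⟩⟩
    rintro ⟨f, hf⟩
    -- y i := f (i + 1), nonzero, with strictly increasing valuations < 1
    have hne : ∀ i, f (i + 1) ≠ 0 := fun i => (hf i).1
    have hstep : ∀ i, V.valuation (f i : F) < V.valuation (f (i + 1) : F) := by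
      intro i
      obtain ⟨-, c, hc, hfc⟩ := hf i
      have hc' : V.valuation (c : F) < 1 := by
        rcases V.valuation_lt_one_or_eq_one c with h | h
        · exact h
        · exact absurd ((V.valuation_eq_one_iff c).mpr h) hc
      have hv0 : V.valuation (f (i + 1) : F) ≠ 0 :=
        (Valuation.ne_zero_iff _).mpr (by simpa using hne i)
      rw [hfc]
      push_cast
      rw [_root_.map_mul]
      calc V.valuation (f (i + 1) : F) * V.valuation (c : F)
          < V.valuation (f (i + 1) : F) * 1 :=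
            mul_lt_mul_of_pos_left hc' (zero_lt_iff.mpr hv0)
        _ = _ := mul_one _
    have hmonoN : StrictMono fun i : ℕ => V.valuation (f i : F) := strictMono_nat_of_lt_succ hstep
    have hlt1 : ∀ i, V.valuation (f i : F) < 1 := fun i =>
      lt_of_lt_of_le (hstep i) (V.valuation_le_one _)
    set x : F := (f 1 : F) with hxdef
    have hx0 : x ≠ 0 := fun h => hne 0 (Subtype.ext (by simpa [hxdef] using h))
    have hx : V.valuation x < 1 := hlt1 1
    have hxt : Transcendental K x := transcendental_of_valuation_lt_one V hK hx0 hx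
    have := hfin x hxt
    set n := Module.finrank K⟮x⟯ F with hn
    let y : Fin (n + 1) → F := fun i => (f (i + 1) : F)
    have hli : LinearIndependent K⟮x⟯ y := by
      refine linearIndependent_of_strictMono V hK hx0 hx y ?_ ?_ ?_
      · intro i j hij
        exact hmonoN (by simpa using hij)
      · intro i
        exact hmonoN.monotone (by omega)
      · intro i
        exact hlt1 _
    have := hli.fintype_card_le_finrank
    rw [Fintype.card_fin] at this
    omega
  exact ((IsBezout.TFAE (R := V)).out 3 1).mp hwf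

end Val

section Exists

/-- In `K[t]`, `t` transcendental, the ideal generated by `t` is proper. -/
theorem span_ne_top_of_transcendental {t : F} (ht : Transcendental K t) :
    Ideal.span {(⟨t, Algebra.subset_adjoin (Set.mem_singleton t)⟩ :
      (Algebra.adjoin K {t}).toSubring)} ≠ ⊤ := by
  intro h
  rw [Ideal.span_singleton_eq_top] at h
  obtain ⟨⟨s, hs⟩, hts⟩ := isUnit_iff_exists_inv.mp h
  have hs' : s ∈ Algebra.adjoin K {t} := hs
  rw [Algebra.adjoin_singleton_eq_range_aeval] at hs'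
  obtain ⟨p, rfl⟩ := hs'
  have h1 : t * aeval t p = 1 := congrArg Subtype.val hts
  have h2 : aeval t (X * p - 1 : K[X]) = 0 := by
    rw [_root_.map_sub, _root_.map_mul, aeval_X, _root_.map_one, h1, sub_self]
  have h3 : (X * p - 1 : K[X]) = 0 := by
    by_contra hne
    exact ht ⟨_, hne, h2⟩
  have h4 := congrArg (Polynomial.eval 0) h3
  simp at h4

/-- **Existence of a zero** (Chevalley + discreteness): every transcendental function has a zero
at some place. -/
theorem exists_place_ord_pos (hfin : ∀ y : F, Transcendental K y → FiniteDimensional K⟮y⟯ F)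
    {t : F} (ht : Transcendental K t) : ∃ v : Place K F, 0 < v.ord t := by
  classical
  have ht0 : t ≠ 0 := fun h => ht (h ▸ isAlgebraic_zero)
  obtain ⟨B, hAB, hIB⟩ :=
    Ideal.image_subset_nonunits_valuationSubring _ (span_ne_top_of_transcendental ht)
  have hK : ∀ a : K, algebraMap K F a ∈ B := fun a =>
    hAB (show algebraMap K F a ∈ (Algebra.adjoin K {t}).toSubring from
      (Algebra.adjoin K {t}).algebraMap_mem a)
  have htB : t ∈ B.nonunits := by
    apply hIB
    exact ⟨⟨t, Algebra.subset_adjoin (Set.mem_singleton t)⟩,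
      Ideal.subset_span (Set.mem_singleton _), rfl⟩
  have hvt : B.valuation t < 1 := (ValuationSubring.mem_nonunits_iff B).mp htB
  have htop : B ≠ ⊤ := by
    intro h
    have hinv : t⁻¹ ∈ B := h ▸ ValuationSubring.mem_top _
    have h1 : B.valuation t⁻¹ ≤ 1 := (B.valuation_le_one_iff _).mpr hinv
    rw [map_inv₀] at h1
    have hv0 : B.valuation t ≠ 0 := (Valuation.ne_zero_iff _).mpr ht0
    have h2 : 1 ≤ B.valuation t := (inv_le_one₀ (zero_lt_iff.mpr hv0)).mp h1
    exact absurd hvt (not_lt.mpr h2)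
  let v : Place K F :=
    { toValuationSubring := B
      algebraMap_mem' := hK
      ne_top' := htop
      isPrincipalIdealRing' := isPrincipalIdealRing_of_finite B hK hfin }
  refine ⟨v, ?_⟩
  have htV : t ∈ v.toValuationSubring := (B.valuation_le_one_iff t).mp hvt.le
  have hmem : (⟨t, htV⟩ : v.toValuationSubring) ∈
      IsLocalRing.maximalIdeal v.toValuationSubring :=
    ValuationSubring.coe_mem_nonunits_iff.mp htB
  rcases (Fermat.Agent.Lib.RR.mem_maximalIdeal_iff v _).mp hmem with h | h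
  · exact absurd h ht0
  · exact h

/-- **Existence of a pole**: every transcendental function has a pole at some place. -/
theorem exists_place_ord_neg (hfin : ∀ y : F, Transcendental K y → FiniteDimensional K⟮y⟯ F)
    {t : F} (ht : Transcendental K t) : ∃ v : Place K F, v.ord t < 0 := by
  have ht' : Transcendental K t⁻¹ := fun h => ht (by simpa using h.inv)
  obtain ⟨v, hv⟩ := exists_place_ord_pos hfin ht'
  refine ⟨v, ?_⟩
  rw [v.ord_inv] at hv
  omega

end Exists

end Fermat.Agent.Lib.RR.H383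

end
end
-- ===== PACK-END Lib/RR/H383/ValRing.lean

-- ===== PACK-BEGIN Lib/RR/H653/MemRepartitions.lean
section


/-!
# RR library, piece L4.0: the repartitions are exactly the families with finitely many poles

`repartitions K F` is defined in the Prelude as the `F`-subalgebra of `Place K F → F` generated by
the families with finitely many poles.  Under `HasPrincipalDivisors` (constants have finitely many
poles) this generating set is already a subalgebra.
-/

set_option autoImplicit false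

noncomputable section

open AlgebraicCurve

namespace Fermat.Agent.Lib.RR.H653

variable {K F : Type*} [Field K] [Field F] [Algebra K F]

/-- The poles of a nonzero function are finitely many (from `HasPrincipalDivisors`). -/
theorem finite_poles_const [HasPrincipalDivisors K F] (f : F) :
    {v : Place K F | v.ord f < 0}.Finite := by
  rcases eq_or_ne f 0 with rfl | hf
  · simp
  obtain ⟨D, hD, -⟩ := HasPrincipalDivisors.exists_divisor (K := K) f hf
  refine D.support.finite_toSet.subset fun v hv => ?_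
  rw [Finset.mem_coe, Finsupp.mem_support_iff, hD v]
  exact ne_of_lt hv

/-- Poles of a sum are among the poles of the summands. -/
theorem poles_add_subset (α β : Place K F → F) :
    {v : Place K F | v.ord ((α + β) v) < 0} ⊆
      {v : Place K F | v.ord (α v) < 0} ∪ {v : Place K F | v.ord (β v) < 0} := by
  intro v hv
  simp only [Set.mem_ofPred_eq, Pi.add_apply, Set.mem_union] at hv ⊢
  by_contra hcon
  rw [not_or, not_lt, not_lt] at hcon
  have h := Fermat.Agent.Lib.RR.ord_add_of_le v (n := 0) (Or.inr hcon.1) (Or.inr hcon.2)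
  rcases h with h | h
  · rw [h, v.ord_zero] at hv; exact lt_irrefl _ hv
  · exact absurd hv (not_lt.mpr h)

/-- Poles of a product are among the poles of the factors. -/
theorem poles_mul_subset (α β : Place K F → F) :
    {v : Place K F | v.ord ((α * β) v) < 0} ⊆
      {v : Place K F | v.ord (α v) < 0} ∪ {v : Place K F | v.ord (β v) < 0} := by
  intro v hv
  simp only [Set.mem_ofPred_eq, Pi.mul_apply, Set.mem_union] at hv ⊢
  by_contra hcon
  rw [not_or, not_lt, not_lt] at hcon
  rcases eq_or_ne (α v) 0 with h0 | h0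
  · rw [h0, zero_mul, v.ord_zero] at hv; exact lt_irrefl _ hv
  rcases eq_or_ne (β v) 0 with h1 | h1
  · rw [h1, mul_zero, v.ord_zero] at hv; exact lt_irrefl _ hv
  rw [v.ord_mul h0 h1] at hv
  omega

/-- **L4.0**: the repartitions are exactly the families with finitely many poles. -/
theorem mem_repartitions_iff [HasPrincipalDivisors K F] {α : Place K F → F} :
    α ∈ repartitions K F ↔ {v : Place K F | v.ord (α v) < 0}.Finite := by
  refine ⟨fun h => ?_, mem_repartitions_of_finite_ord⟩
  unfold repartitions at h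
  induction h using Algebra.adjoin_induction with
  | mem x hx =>
    have hx' : {v : Place K F | ¬v.adicValuation (x v) ≤ 1}.Finite := hx
    rwa [show {v : Place K F | ¬v.adicValuation (x v) ≤ 1}
        = {v : Place K F | v.ord (x v) < 0} from
      Set.ext fun v => v.not_adicValuation_le_one_iff] at hx'
  | algebraMap r => exact finite_poles_const r
  | add x y _ _ hx hy => exact (hx.union hy).subset (poles_add_subset x y)
  | mul x y _ _ hx hy => exact (hx.union hy).subset (poles_mul_subset x y)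

end Fermat.Agent.Lib.RR.H653

end
end
-- ===== PACK-END Lib/RR/H653/MemRepartitions.lean

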