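import Mathlib
import Fermat.Statements.S37
import Fermat.Prelude.Def_ModularCurve_X0ModL
import Fermat.Prelude.Def_AlgebraicCurve_Correspondence
import Fermat.Agent.Pack.S33.E7L1
import Fermat.Agent.Pack.S33.E7L3
import Fermat.Agent.Pack.S33.E7L2
import Fermat.Agent.Pack.S33.E6L1
import Fermat.Agent.Pack.S33.E6L0
import Fermat.Agent.Pack.S33.E6L2
import Fermat.Agent.Pack.S33.E6L3

-- ===== PACK-BEGIN Lib/Cheb/H761/PrimeCountBound.lean
section


/-!
# Piece B0 of the shared library CHEB: `Spec.PrimeCountBoundStatement`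

There are at most `[F : ℚ]` prime ideals of `𝓞 F` of any given norm.
-/

set_option autoImplicit false

namespace Fermat.Agent.Lib.Cheb.H761

open IsDedekindDomain NumberField Ideal

/-- A nonzero prime ideal of norm `n` contains the least prime factor of `n`. -/
lemma minFac_mem_of_absNorm_eq {F : Type} [Field F] [NumberField F]
    (𝔭 : HeightOneSpectrum (𝓞 F)) : ((absNorm 𝔭.asIdeal).minFac : 𝓞 F) ∈ 𝔭.asIdeal := by
  have := 𝔭.isMaximal
  obtain ⟨p, n, hn, hmem, hp, hN⟩ := Ideal.exists_prime_and_absNorm_eq_pow 𝔭.asIdeal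
  rw [hN, hp.pow_minFac hn.ne']
  exact hmem

/-- **Piece B0**: `Spec.PrimeCountBoundStatement`. -/
theorem primeCountBound_statement : Spec.PrimeCountBoundStatement := by
  classical
  intro F _ _ p
  rw [Spec.primeCount]
  have hfinset : {𝔮 : Ideal (𝓞 F) | 𝔮.IsPrime ∧ Ideal.absNorm 𝔮 = p}.Finite :=
    (Ideal.finite_setOfPred_absNorm_eq (S := 𝓞 F) p).subset (fun 𝔮 h𝔮 => h𝔮.2)
  have hd : 1 ≤ Module.finrank ℚ F := Module.finrank_pos
  rcases Nat.eq_zero_or_pos p with rfl | hp0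
  · -- only the zero ideal has norm `0`
    have hsub : Subsingleton {𝔮 : Ideal (𝓞 F) // 𝔮.IsPrime ∧ Ideal.absNorm 𝔮 = 0} := by
      refine ⟨fun a b => Subtype.ext ?_⟩
      rw [Ideal.absNorm_eq_zero_iff.mp a.2.2, Ideal.absNorm_eq_zero_iff.mp b.2.2]
    exact (Finite.card_le_one_iff_subsingleton.mpr hsub).trans hd
  · have hfin : Finite {𝔮 : Ideal (𝓞 F) // 𝔮.IsPrime ∧ Ideal.absNorm 𝔮 = p} :=
      hfinset.to_subtype
    have : Fintype {𝔮 : Ideal (𝓞 F) // 𝔮.IsPrime ∧ Ideal.absNorm 𝔮 = p} := Fintype.ofFinite _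
    rw [Nat.card_eq_fintype_card]
    by_cases hne : Nonempty {𝔮 : Ideal (𝓞 F) // 𝔮.IsPrime ∧ Ideal.absNorm 𝔮 = p}
    · -- every such prime contains `p.minFac`, which is prime
      let ι : {𝔮 : Ideal (𝓞 F) // 𝔮.IsPrime ∧ Ideal.absNorm 𝔮 = p} → HeightOneSpectrum (𝓞 F) :=
        fun 𝔮 => ⟨𝔮.1, 𝔮.2.1, by
          rintro h
          have := 𝔮.2.2
          rw [h, Ideal.absNorm_bot] at this
          omega⟩
      have hι : Function.Injective ι := by
        intro a b h
        apply Subtype.ext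
        exact congrArg HeightOneSpectrum.asIdeal h
      have hp1 : p ≠ 1 := by
        rintro rfl
        obtain ⟨𝔮⟩ := hne
        exact 𝔮.2.1.ne_top (Ideal.absNorm_eq_one_iff.mp 𝔮.2.2)
      have hprime : p.minFac.Prime := Nat.minFac_prime hp1
      have hcard := card_le_of_natCast_mem F hprime (Finset.univ.image ι) (by
        intro 𝔭 h𝔭
        obtain ⟨𝔮, -, rfl⟩ := Finset.mem_image.mp h𝔭
        have := minFac_mem_of_absNorm_eq (ι 𝔮)
        have hN : absNorm (ι 𝔮).asIdeal = p := 𝔮.2.2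
        rwa [hN] at this)
      rw [Finset.card_image_of_injective _ hι, Finset.card_univ,
        NumberField.RingOfIntegers.rank] at hcard
      exact hcard
    · rw [not_nonempty_iff] at hne
      rw [Fintype.card_eq_zero]
      exact Nat.zero_le _

end Fermat.Agent.Lib.Cheb.H761

end
-- ===== PACK-END Lib/Cheb/H761/PrimeCountBound.lean

-- ===== PACK-BEGIN S14/H74/UnitSum.lean
section


/-!
# S14/N1 (helper74): `rho` is a partition of unity for the action of the units (piece P2)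
-/

namespace Fermat.Agent.S14.H74

open NumberField NumberField.mixedEmbedding NumberField.Units
  NumberField.Units.dirichletUnitTheorem NumberField.InfinitePlace Module

open scoped Classical

variable (K : Type*) [Field K] [NumberField K]

/-- The decomposition of the units as torsion times the free part. -/
noncomputable def unitsEquiv : torsion K × (Fin (rank K) → ℤ) ≃ (𝓞 K)ˣ :=
  Equiv.ofBijective (fun p ↦ (p.1 : (𝓞 K)ˣ) * ∏ i, (fundSystem K i) ^ (p.2 i)) (by
    constructor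
    · intro p q h
      obtain ⟨c, -, hc⟩ := exist_unique_eq_mul_prod K
        ((p.1 : (𝓞 K)ˣ) * ∏ i, (fundSystem K i) ^ (p.2 i))
      rw [hc p rfl, hc q h]
    · intro x
      obtain ⟨c, hc, -⟩ := exist_unique_eq_mul_prod K x
      exact ⟨c, hc.symm⟩)

theorem unitsEquiv_apply (p : torsion K × (Fin (rank K) → ℤ)) :
    unitsEquiv K p = (p.1 : (𝓞 K)ˣ) * ∏ i, (fundSystem K i) ^ (p.2 i) := rfl

theorem logEmbedding_unitsEquiv (p : torsion K × (Fin (rank K) → ℤ)) :
    logEmbedding K (Additive.ofMul (unitsEquiv K p)) =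
      ∑ i, ((p.2 i : ℤ) : ℝ) • ((basisUnitLattice K).ofZLatticeBasis ℝ (unitLattice K)) i := by
  rw [unitsEquiv_apply, ofMul_mul, map_add, ofMul_prod, map_sum]
  have h1 : logEmbedding K (Additive.ofMul (p.1 : (𝓞 K)ˣ)) = 0 := by
    rw [logEmbedding_eq_zero_iff]
    exact p.1.2
  rw [h1, zero_add]
  refine Finset.sum_congr rfl fun i _ ↦ ?_
  rw [ofMul_zpow, map_zsmul, logEmbedding_fundSystem, Basis.ofZLatticeBasis_apply,
    Int.cast_smul_eq_zsmul]

variable {K}

theorem logCoord_unitsEquiv_smul (p : torsion K × (Fin (rank K) → ℤ)) {x : mixedSpace K}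
    (hx : mixedEmbedding.norm x ≠ 0) (j : Fin (rank K)) :
    logCoord K (unitsEquiv K p • x) j = logCoord K x j + p.2 j := by
  unfold logCoord
  rw [logMap_unit_smul _ hx, map_add, Finsupp.add_apply, logEmbedding_unitsEquiv,
    Basis.repr_sum_self, add_comm]

theorem rho_unitsEquiv_smul (p : torsion K × (Fin (rank K) → ℤ)) {x : mixedSpace K}
    (hx : mixedEmbedding.norm x ≠ 0) :
    rho K (unitsEquiv K p • x) = ∏ j, tent (logCoord K x j + p.2 j) := by
  have h : mixedEmbedding.norm (unitsEquiv K p • x) ≠ 0 := by rwa [norm_unit_smul]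
  rw [rho_eq_prod h]
  exact Finset.prod_congr rfl fun j _ ↦ by rw [logCoord_unitsEquiv_smul p hx]

/-- **P2**: the translates of `rho` by the units sum to the number of roots of unity. -/
theorem hasSum_rho_unit_smul {x : mixedSpace K} (hx : mixedEmbedding.norm x ≠ 0) :
    HasSum (fun u : (𝓞 K)ˣ ↦ rho K (u • x)) (torsionOrder K) := by
  rw [← (unitsEquiv K).hasSum_iff]
  have hfun : ((fun u : (𝓞 K)ˣ ↦ rho K (u • x)) ∘ unitsEquiv K) =
      fun p : torsion K × (Fin (rank K) → ℤ) ↦ ∏ j, tent (logCoord K x j + p.2 j) := by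
    funext p
    exact rho_unitsEquiv_smul p hx
  rw [hfun]
  have h1 := tent_prod_hasSum (fun j ↦ logCoord K x j)
  have hnn : (0 : torsion K × (Fin (rank K) → ℤ) → ℝ) ≤
      fun p ↦ ∏ j, tent (logCoord K x j + p.2 j) :=
    fun p ↦ Finset.prod_nonneg fun j _ ↦ tent_nonneg _
  have : Fintype (torsion K) := Fintype.ofFinite _
  have hsum : Summable fun p : torsion K × (Fin (rank K) → ℤ) ↦
      ∏ j, tent (logCoord K x j + p.2 j) := by
    rw [summable_prod_of_nonneg hnn]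
    exact ⟨fun _ ↦ h1.summable, Summable.of_finite⟩
  have h2 := hsum.tsum_prod' (fun _ ↦ h1.summable)
  simp only [h1.tsum_eq, tsum_fintype, Finset.sum_const, Finset.card_univ, nsmul_eq_mul,
    mul_one] at h2
  have h3 : (Fintype.card (torsion K) : ℝ) = torsionOrder K := by
    rw [torsionOrder, Nat.card_eq_fintype_card]
  rw [← h3, ← h2]
  exact hsum.hasSum

end Fermat.Agent.S14.H74

end
-- ===== PACK-END S14/H74/UnitSum.lean

-- ===== PACK-BEGIN S24/H117/Integral.lean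
section




/-!
# S24 / H117 — integrality at all places over `t = 0` from the embeddings

Key lemma for LT2: if `F / E` (`E ⊆ K(t)`) has degree `#X` and `L : LocalData K F C X t`, then an
element `f : F` whose images under all the embeddings `L.σ x` have non-negative order has
non-negative order at **every** place `v` of `F` with `0 < v.ord t`.
-/

set_option autoImplicit false
set_option linter.style.haveILetI false

noncomputable section

open AlgebraicCurve Polynomial IntermediateField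

namespace Fermat.Agent.S24.H117

variable {K F : Type*} [Field K] [Field F] [Algebra K F]
variable {C : Type*} [Field C] {X : Type*}
variable {t : F} (L : LocalData K F C X t)

theorem σ_aeval_eq (x y : X) (p : K[X]) : L.σ x (aeval t p) = L.σ y (aeval t p) := by
  rw [aeval_eq_sum_range]
  simp only [_root_.map_sum, Algebra.smul_def, _root_.map_mul, _root_.map_pow, L.σ_const, L.σ_t_eq x y]

/-- All the embeddings of a `LocalData` agree on `K(t)`. -/
theorem σ_eq_of_mem_adjoin (x y : X) {e : F} (he : e ∈ K⟮t⟯) : L.σ x e = L.σ y e := by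
  obtain ⟨r, s, rfl⟩ := (mem_adjoin_simple_iff K e).mp he
  rw [map_div₀, map_div₀, σ_aeval_eq L x y r, σ_aeval_eq L x y s]

variable [CharZero K]

/-- **Integrality lemma.** -/
theorem ord_nonneg_of_forall_order_nonneg
    (E : IntermediateField K F) (hE : E ≤ K⟮t⟯) [FiniteDimensional E F]
    (hrank : Module.finrank E F = Nat.card X)
    (f : F) (hf : ∀ x, 0 ≤ ((L.σ x) f).order)
    (v : Place K F) (hv : 0 < v.ord t) : 0 ≤ v.ord f := by
  classical
  have hXne : Nonempty X := by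
    have h0 : 0 < Nat.card X := hrank ▸ Module.finrank_pos
    exact (Nat.card_pos_iff.mp h0).1
  obtain ⟨x₀⟩ := hXne
  have : CharZero E := charZero_of_injective_algebraMap (algebraMap K E).injective
  let σ₀ : E →+* LaurentSeries C := (L.σ x₀).comp (algebraMap E F)
  letI algELS : Algebra E (LaurentSeries C) := σ₀.toAlgebra
  -- the embeddings as `E`-algebra homomorphisms into the algebraic closure
  let τ : X → (F →ₐ[E] AlgebraicClosure (LaurentSeries C)) := fun x =>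
    { toRingHom := (algebraMap (LaurentSeries C) (AlgebraicClosure (LaurentSeries C))).comp (L.σ x)
      commutes' := fun e => by
        show algebraMap (LaurentSeries C) (AlgebraicClosure (LaurentSeries C)) (L.σ x (e : F))
          = algebraMap (LaurentSeries C) (AlgebraicClosure (LaurentSeries C)) (L.σ x₀ (e : F))
        rw [σ_eq_of_mem_adjoin L x x₀ (hE e.2)] }
  have hτapply : ∀ x g, τ x g
      = algebraMap (LaurentSeries C) (AlgebraicClosure (LaurentSeries C)) (L.σ x g) :=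
    fun _ _ => rfl
  have hτinj : Function.Injective τ := by
    intro x y hxy
    apply L.σ_inj
    ext g : 1
    have := DFunLike.congr_fun hxy g
    rw [hτapply, hτapply] at this
    exact (algebraMap (LaurentSeries C) (AlgebraicClosure (LaurentSeries C))).injective this
  have hcard : Nat.card (F →ₐ[E] AlgebraicClosure (LaurentSeries C)) = Nat.card X := by
    rw [← hrank, ← Fintype.card_eq_nat_card]
    exact AlgHom.card E F (AlgebraicClosure (LaurentSeries C))
  have hτsurj : Function.Surjective τ :=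
    ((Nat.bijective_iff_injective_and_card τ).mpr ⟨hτinj, hcard.symm⟩).2
  -- the minimal polynomial of `f`
  have hfint : IsIntegral E f := Algebra.IsIntegral.isIntegral f
  have hPmonic : (minpoly E f).Monic := minpoly.monic hfint
  -- coefficients of the minimal polynomial are integral at `x₀`
  have hcoeff : ∀ i, 0 ≤ ((L.σ x₀) (((minpoly E f).coeff i : E) : F)).order := by
    intro i
    have hint : IsIntegral (OL C)
        (((minpoly E f).map (algebraMap E (AlgebraicClosure (LaurentSeries C)))).coeff i) := by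
      refine Polynomial.isIntegral_coeff_of_factors _ ?_ (IsAlgClosed.splits _) ?_ i
      · rw [(hPmonic.map _).leadingCoeff]
        exact isIntegral_one
      · intro r hr
        have hr' : r ∈ (minpoly E f).rootSet (AlgebraicClosure (LaurentSeries C)) := by
          rw [mem_rootSet']
          refine ⟨(hPmonic.map _).ne_zero, ?_⟩
          rw [IsRoot, eval_map_algebraMap] at hr
          exact hr
        rw [← Algebra.IsAlgebraic.range_eval_eq_rootSet_minpoly] at hr'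
        obtain ⟨ψ, rfl⟩ := hr'
        obtain ⟨x, rfl⟩ := hτsurj ψ
        show IsIntegral (OL C) (τ x f)
        rw [hτapply]
        have : algebraMap (LaurentSeries C) (AlgebraicClosure (LaurentSeries C)) (L.σ x f)
            = algebraMap (OL C) (AlgebraicClosure (LaurentSeries C)) ⟨L.σ x f, hf x⟩ := rfl
        rw [this]
        exact isIntegral_algebraMap
    rw [coeff_map] at hint
    have h2 : IsIntegral (OL C) (σ₀ ((minpoly E f).coeff i)) := by
      have : algebraMap E (AlgebraicClosure (LaurentSeries C)) ((minpoly E f).coeff i)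
          = algebraMap (LaurentSeries C) (AlgebraicClosure (LaurentSeries C))
            (σ₀ ((minpoly E f).coeff i)) := rfl
      rw [this] at hint
      exact (isIntegral_algebraMap_iff
        (algebraMap (LaurentSeries C) (AlgebraicClosure (LaurentSeries C))).injective).mp hint
    obtain ⟨y, hy⟩ := IsIntegrallyClosed.isIntegral_iff.mp h2
    have : σ₀ ((minpoly E f).coeff i) ∈ OL C := hy ▸ y.2
    exact this
  -- transfer to `v`
  have hcoeffv : ∀ i, (((minpoly E f).coeff i : E) : F) ∈ v.toValuationSubring := fun i =>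
    mem_of_ord_nonneg v (ord_nonneg_of_mem_adjoin (hE ((minpoly E f).coeff i).2) hv
      (ord_t_pos L x₀) ((ord_placeOf_nonneg_iff L x₀ _).mpr (hcoeff i)))
  -- `f` is integral over `O_v`
  have hint : IsIntegral v.toValuationSubring f := by
    have hlifts : (minpoly E f).map (algebraMap E F)
        ∈ Polynomial.lifts (algebraMap v.toValuationSubring F) := by
      rw [lifts_iff_coeff_lifts]
      intro n
      rw [coeff_map]
      exact ⟨⟨_, hcoeffv n⟩, rfl⟩
    obtain ⟨q, hq, -, hqm⟩ := lifts_and_natDegree_eq_and_monic hlifts (hPmonic.map _)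
    refine ⟨q, hqm, ?_⟩
    rw [← eval_map, hq, eval_map_algebraMap]
    exact minpoly.aeval E f
  obtain ⟨y, hy⟩ := IsIntegrallyClosed.isIntegral_iff.mp hint
  exact ord_nonneg_of_mem v (hy ▸ y.2)

end Fermat.Agent.S24.H117

end
end
-- ===== PACK-END S24/H117/Integral.lean

-- ===== PACK-BEGIN S30/H990/TwoDim.lean
section
/-
S30 top glue (helper990): pure algebra, part 5: the two-dimensional representation.
-/


set_option autoImplicit false

namespace Fermat.Agent.S30.H990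

open Module Polynomial

/-- Output of the extraction: a rank two representation with prescribed characteristic
polynomials, as congruent to `1` as the input data. -/
structure TwoDimOut {𝒪 M G : Type} [CommRing 𝒪] [AddCommGroup M] [Module 𝒪 M] [Group G]
    (ρ : G →* Module.End 𝒪 M) (d : G →* 𝒪ˣ) : Type 1 where
  V : Type
  [instAddCommGroup : AddCommGroup V]
  [instModule : Module 𝒪 V]
  [instFree : Module.Free 𝒪 V]
  [instFinite : Module.Finite 𝒪 V]
  finrank_eq : Module.finrank 𝒪 V = 2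
  ρ₂ : G →* Module.End 𝒪 V
  charpoly_eq : ∀ (g : G) (a : 𝒪), Rel ρ d g a →
    LinearMap.charpoly (ρ₂ g) = X ^ 2 - C a * X + C ((d g : 𝒪ˣ) : 𝒪)
  cong : ∀ (I : Ideal 𝒪) (g : G), (∀ v : M, ρ g v - v ∈ I • (⊤ : Submodule 𝒪 M)) →
    ((d g : 𝒪ˣ) : 𝒪) - 1 ∈ I → ∀ v : V, ρ₂ g v - v ∈ I • (⊤ : Submodule 𝒪 V)

attribute [instance] TwoDimOut.instAddCommGroup TwoDimOut.instModule TwoDimOut.instFree
  TwoDimOut.instFinite

section Constructions

variable {𝒪 M G : Type} [CommRing 𝒪] [IsDomain 𝒪] [IsPrincipalIdealRing 𝒪]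
  [AddCommGroup M] [Module 𝒪 M] [Module.Free 𝒪 M] [Module.Finite 𝒪 M] [Group G]
  (ρ : G →* Module.End 𝒪 M) (d : G →* 𝒪ˣ)

/-- Stability of the saturation of a span, checked on generators. -/
theorem sat_span_stable (s : Set M)
    (h : ∀ g, ∀ x ∈ s, ∃ r : 𝒪, r ≠ 0 ∧ r • ρ g x ∈ Submodule.span 𝒪 s) :
    ∀ g, ∀ x ∈ sat (Submodule.span 𝒪 s), ρ g x ∈ sat (Submodule.span 𝒪 s) := by
  intro g x hx
  refine map_mem_sat (ρ g) (fun y hy => ?_) hx
  refine map_span_le_sat (ρ g) (fun z hz => ?_) hy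
  obtain ⟨r, hr, hrz⟩ := h g z hz
  exact ⟨r, hr, hrz⟩

/-- The rank two case. -/
theorem twoDim_of_rank_two (hrel : ∀ g, ∃ a, Rel ρ d g a) (h2 : (2 : 𝒪) ≠ 0)
    (c : G) (hdc : d c = -1)
    (u w : M) (ε : 𝒪) (hε : ε * ε = 1) (hu0 : u ≠ 0) (hw0 : w ≠ 0)
    (hu : ρ c u = ε • u) (hw : ρ c w = -ε • w)
    (hsu : ∀ g, ∃ r : 𝒪, r ≠ 0 ∧ r • ρ g u ∈ Submodule.span 𝒪 {u, w})
    (hsw : ∀ g, ∃ r : 𝒪, r ≠ 0 ∧ r • ρ g w ∈ Submodule.span 𝒪 {u, w}) :
    Nonempty (TwoDimOut ρ d) := by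
  classical
  have hε0 : ε ≠ 0 := by rintro rfl; simp at hε
  -- linear independence
  have hli : LinearIndependent 𝒪 ![u, w] := by
    rw [LinearIndependent.pair_iff]
    intro s t hst
    have h1 := congrArg (ρ c) hst
    rw [_root_.map_add, _root_.map_smul, _root_.map_smul, hu, hw, _root_.map_zero] at h1
    have h3 : (2 * ε * s) • u = 0 := by
      have : (2 * ε * s) • u = ε • (s • u + t • w) + (s • ε • u + t • (-ε • w)) := by
        module
      rw [this, hst, h1, smul_zero, add_zero]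
    have hs : s = 0 := by
      rcases smul_eq_zero.mp h3 with h | h
      · rcases mul_eq_zero.mp h with h | h
        · exact absurd h (mul_ne_zero h2 hε0)
        · exact h
      · exact absurd h hu0
    refine ⟨hs, ?_⟩
    rw [hs, zero_smul, zero_add] at hst
    exact (smul_eq_zero.mp hst).resolve_right hw0
  have hrange : Set.range ![u, w] = ({u, w} : Set M) := by
    ext x
    simp only [Set.mem_range, Set.mem_insert_iff, Set.mem_singleton_iff]
    constructor
    · rintro ⟨i, rfl⟩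
      fin_cases i <;> simp
    · rintro (rfl | rfl)
      · exact ⟨0, rfl⟩
      · exact ⟨1, rfl⟩
  set Λ : Submodule 𝒪 M := sat (Submodule.span 𝒪 ({u, w} : Set M)) with hΛ
  have hfr : Module.finrank 𝒪 Λ = 2 := by
    have := finrank_sat_span ![u, w] hli
    rwa [hrange] at this
  have hstab : ∀ g, ∀ x ∈ Λ, ρ g x ∈ Λ := by
    apply sat_span_stable
    intro g x hx
    rcases hx with rfl | hx
    · exact hsu g
    · rw [Set.mem_singleton_iff] at hx
      subst hx
      exact hsw g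
  have huΛ : u ∈ Λ := le_sat _ (Submodule.subset_span (by simp))
  have hwΛ : w ∈ Λ := le_sat _ (Submodule.subset_span (by simp))
  set ρΛ := restrictRep ρ Λ hstab with hρΛ
  let b : Basis (Fin 2) 𝒪 Λ := Module.finBasisOfFinrankEq 𝒪 Λ hfr
  let A : G →* Matrix (Fin 2) (Fin 2) 𝒪 :=
    ((LinearMap.toMatrixAlgEquiv b : Module.End 𝒪 Λ ≃ₐ[𝒪] Matrix (Fin 2) (Fin 2) 𝒪) :
      Module.End 𝒪 Λ →* Matrix (Fin 2) (Fin 2) 𝒪).comp ρΛ
  have hA : ∀ g, A g = LinearMap.toMatrixAlgEquiv b (ρΛ g) := fun g => rfl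
  have hArel : ∀ g a, Rel ρ d g a →
      A g * A g - a • A g + ((d g : 𝒪ˣ) : 𝒪) • (1 : Matrix (Fin 2) (Fin 2) 𝒪) = 0 := by
    intro g a hr
    have := rel_restrictRep ρ d Λ hstab hr
    unfold Rel at this
    have h' := congrArg (LinearMap.toMatrixAlgEquiv b) this
    simpa only [_root_.map_add, _root_.map_sub, _root_.map_mul, _root_.map_smul, _root_.map_one, _root_.map_zero, hA] using h'
  have hcns : ¬ ∃ l : 𝒪, A c = l • (1 : Matrix (Fin 2) (Fin 2) 𝒪) := by
    rintro ⟨l, hl⟩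
    have h1 : ρΛ c = l • (1 : Module.End 𝒪 Λ) := by
      apply (LinearMap.toMatrixAlgEquiv b).injective
      rw [← hA, hl, _root_.map_smul, _root_.map_one]
    have e1 : ρ c u = l • u := by
      have := congrArg (fun f : Module.End 𝒪 Λ => ((f ⟨u, huΛ⟩ : Λ) : M)) h1
      exact this
    have e2 : ρ c w = l • w := by
      have := congrArg (fun f : Module.End 𝒪 Λ => ((f ⟨w, hwΛ⟩ : Λ) : M)) h1
      exact this
    have f1 : l = ε := by
      have : (l - ε) • u = 0 := by rw [sub_smul, ← e1, ← hu, sub_self]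
      exact sub_eq_zero.mp ((smul_eq_zero.mp this).resolve_right hu0)
    have f2 : l = -ε := by
      have : (l - -ε) • w = 0 := by rw [sub_smul, ← e2, ← hw, sub_self]
      exact sub_eq_zero.mp ((smul_eq_zero.mp this).resolve_right hw0)
    have : 2 * ε = 0 := by
      have := f1.symm.trans f2
      linear_combination this
    exact mul_ne_zero h2 hε0 this
  refine ⟨{ V := Λ
            finrank_eq := hfr
            ρ₂ := ρΛ
            charpoly_eq := ?_
            cong := ?_ }⟩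
  · intro g a hr
    obtain ⟨ht, hd⟩ := mat2_trace_det_of_rel A d (fun g => by
      obtain ⟨a, ha⟩ := hrel g
      exact ⟨a, hArel g a ha⟩) c hdc hcns g a (hArel g a hr)
    rw [← LinearMap.charpoly_toMatrix (ρΛ g) b]
    have : LinearMap.toMatrix b b (ρΛ g) = A g := rfl
    rw [this, Matrix.charpoly_fin_two, ht, hd]
  · intro I g hg _ v
    have hmem : ((ρΛ g v - v : Λ) : M) ∈ I • (⊤ : Submodule 𝒪 M) := hg (v : M)
    exact mem_smul_top_sat _ I _ hmem

end Constructions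

end Fermat.Agent.S30.H990

end
-- ===== PACK-END S30/H990/TwoDim.lean

-- ===== PACK-BEGIN S37/H99/Formal.lean
section



/-!
# S37 (helper99): formal reduction R1

`SpecializationExists N p J` follows from the existence, for every prime `ℓ ∤ N * p` and every
valuation subring `A` over `ℓ`, of an additive "reduction map" `red : J →+ Y` (into ANY additive
group, no Hecke structure on `Y`) with four pointwise properties.  The quotient `J'`, the map `sp`
and the Frobenius `F` of `IsSpecialization` are then constructed formally.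
-/

set_option autoImplicit false

noncomputable section

namespace Fermat.Agent.S37.H99

open ModularCurve ValuationSubring

section Abstract

variable {K L : Type*} [Field K] [Field L] [Algebra K L]
variable (p : ℕ) (J : Type) [AddCommGroup J] [Module HeckeAlg J]
  [DistribMulAction (L ≃ₐ[K] L) J] [SMulCommClass (L ≃ₐ[K] L) HeckeAlg J]

/-- The four pointwise properties of a reduction map at `(A, ℓ)`. -/
structure IsRed (A : ValuationSubring L) (ℓ : ℕ) (hℓ : ℓ.Prime) {Y : Type*} [AddCommGroup Y]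
    (red : J →+ Y) : Prop where
  inertia : ∀ τ ∈ A.inertiaSubgroupIn K, ∀ x : J, red (τ • x) = red x
  frob_ker : ∀ σ : L ≃ₐ[K] L, A.IsFrobeniusAt σ ℓ → ∀ x : J, red x = 0 → red (σ • x) = 0
  inj_torsion : ∀ x : J, (∃ n : ℕ, p ^ n • x = 0) → red x = 0 → x = 0
  relation : ∀ σ : L ≃ₐ[K] L, A.IsFrobeniusAt σ ℓ → ∀ x : J,
    red (σ • σ • x - heckeGen ⟨ℓ, hℓ⟩ • (σ • x) + ℓ • x) = 0

variable {p J}

/-- The largest Hecke submodule contained in the kernel of `red`. -/
def redKer {Y : Type*} [AddCommGroup Y] (red : J →+ Y) : Submodule HeckeAlg J where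
  carrier := {x | ∀ t : HeckeAlg, red (t • x) = 0}
  zero_mem' := fun t => by simp
  add_mem' := by
    intro x y hx hy t
    rw [smul_add, map_add, hx t, hy t, add_zero]
  smul_mem' := by
    intro c x hx t
    rw [← mul_smul]
    exact hx (t * c)

theorem mem_redKer {Y : Type*} [AddCommGroup Y] (red : J →+ Y) (x : J) :
    x ∈ redKer red ↔ ∀ t : HeckeAlg, red (t • x) = 0 := Iff.rfl

/-- two Frobenius elements at `A` differ by inertia -/
theorem inv_mul_mem_inertiaSubgroupIn {A : ValuationSubring L} {ℓ : ℕ} {σ₀ σ : L ≃ₐ[K] L}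
    (h₀ : A.IsFrobeniusAt σ₀ ℓ) (h : A.IsFrobeniusAt σ ℓ) :
    σ₀⁻¹ * σ ∈ A.inertiaSubgroupIn K := by
  have hσ₀ := h₀.mem_decompositionSubgroup
  have hσ := h.mem_decompositionSubgroup
  let d₀ : A.decompositionSubgroup K := ⟨σ₀, hσ₀⟩
  let d : A.decompositionSubgroup K := ⟨σ, hσ⟩
  refine ⟨d₀⁻¹ * d, ?_, rfl⟩
  refine MonoidHom.mem_ker.mpr ?_
  ext x
  show (d₀⁻¹ * d) • x = x
  rw [mul_smul]
  have h1 : d • x = x ^ ℓ := h.smul_residue_eq x
  have h2 : d₀ • x = x ^ ℓ := h₀.smul_residue_eq x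
  rw [h1, ← h2, inv_smul_smul]

variable (p) in
/-- **R1 at one place.** -/
theorem exists_specialization_of_isRed (A : ValuationSubring L) (ℓ : ℕ) (hℓ : ℓ.Prime)
    (hfrob : ∃ σ₀ : L ≃ₐ[K] L, A.IsFrobeniusAt σ₀ ℓ)
    {Y : Type*} [AddCommGroup Y] (red : J →+ Y) (hred : IsRed (K := K) p J A ℓ hℓ red) :
    ∃ (J' : Type) (_ : AddCommGroup J') (_ : Module HeckeAlg J') (sp : J →+ J')
      (F : J' →+ J'),
      IsSpecialization (K := K) p J J' A ℓ sp F ∧ SpecialFibreRelation J' ℓ hℓ F := by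
  obtain ⟨σ₀, hσ₀⟩ := hfrob
  let M : Submodule HeckeAlg J := redKer red
  -- commutation of Galois with Hecke
  have hcomm : ∀ (g : L ≃ₐ[K] L) (t : HeckeAlg) (x : J), t • (g • x) = g • (t • x) :=
    fun g t x => (smul_comm g t x).symm
  -- Frobenius elements preserve `M`
  have hFM : ∀ σ : L ≃ₐ[K] L, A.IsFrobeniusAt σ ℓ → ∀ x ∈ M, σ • x ∈ M := by
    intro σ hσ x hx t
    rw [hcomm]
    exact hred.frob_ker σ hσ _ (hx t)
  -- inertia acts trivially modulo `M`
  have hIM : ∀ τ ∈ A.inertiaSubgroupIn K, ∀ x : J, τ • x - x ∈ M := by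
    intro τ hτ x t
    rw [smul_sub, map_sub, hcomm, hred.inertia τ hτ, sub_self]
  -- the additive endomorphism `x ↦ σ₀ • x` of `J`
  let φ : J →+ J := DistribSMul.toAddMonoidHom J σ₀
  have hφ : ∀ x, φ x = σ₀ • x := fun _ => rfl
  -- the induced map on the quotient
  let F : (J ⧸ M) →+ (J ⧸ M) :=
    QuotientAddGroup.map M.toAddSubgroup M.toAddSubgroup φ (by
      intro x hx
      exact hFM σ₀ hσ₀ x hx)
  have hF : ∀ x : J, F (Submodule.Quotient.mk x) = Submodule.Quotient.mk (σ₀ • x) := fun _ => rfl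
  let sp : J →+ (J ⧸ M) := (Submodule.mkQ M).toAddMonoidHom
  have hsp : ∀ x : J, sp x = Submodule.Quotient.mk x := fun _ => rfl
  refine ⟨J ⧸ M, inferInstance, inferInstance, sp, F, ⟨?_, ?_, ?_, ?_⟩, ?_⟩
  · -- hecke_comm
    intro T x
    rfl
  · -- inertia_comm
    intro τ hτ x
    rw [hsp, hsp, Submodule.Quotient.eq]
    exact hIM τ hτ x
  · -- frobenius_comm
    intro σ hσ x
    rw [hsp, hsp, hF, Submodule.Quotient.eq]
    have hτ := inv_mul_mem_inertiaSubgroupIn hσ₀ hσ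
    have h1 : σ • x - σ₀ • x = σ₀ • ((σ₀⁻¹ * σ) • x - x) := by
      rw [smul_sub, ← mul_smul, mul_inv_cancel_left]
    rw [h1]
    exact hFM σ₀ hσ₀ _ (hIM _ hτ x)
  · -- injective_torsion
    intro x hx hx0
    rw [hsp, Submodule.Quotient.mk_eq_zero] at hx0
    have := hx0 1
    rw [one_smul] at this
    exact hred.inj_torsion x hx this
  · -- special fibre relation
    intro y
    obtain ⟨x, rfl⟩ := Submodule.Quotient.mk_surjective M y
    rw [hF, hF]
    have h2 : (Submodule.Quotient.mk (σ₀ • σ₀ • x) : J ⧸ M)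
        - heckeGen ⟨ℓ, hℓ⟩ • (Submodule.Quotient.mk (σ₀ • x) : J ⧸ M)
        + ℓ • (Submodule.Quotient.mk x : J ⧸ M)
        = Submodule.Quotient.mk (σ₀ • σ₀ • x - heckeGen ⟨ℓ, hℓ⟩ • (σ₀ • x) + ℓ • x) := by
      rfl
    rw [h2, Submodule.Quotient.mk_eq_zero]
    intro t
    have h3 : t • (σ₀ • σ₀ • x - heckeGen ⟨ℓ, hℓ⟩ • (σ₀ • x) + ℓ • x)
        = σ₀ • σ₀ • (t • x) - heckeGen ⟨ℓ, hℓ⟩ • (σ₀ • (t • x)) + ℓ • (t • x) := by
      rw [smul_add, smul_sub, hcomm, hcomm, smul_comm t (heckeGen ⟨ℓ, hℓ⟩), hcomm,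
        smul_comm t ℓ]
    rw [h3]
    exact hred.relation σ₀ hσ₀ (t • x)

end Abstract

section Rat

variable (N p : ℕ) (J : Type) [AddCommGroup J] [Module HeckeAlg J]
  [DistribMulAction (AlgebraicClosure ℚ ≃ₐ[ℚ] AlgebraicClosure ℚ) J]
  [SMulCommClass (AlgebraicClosure ℚ ≃ₐ[ℚ] AlgebraicClosure ℚ) HeckeAlg J]

/-- **R1.**  Over `ℚ`, `SpecializationExists` follows from the existence of reduction maps. -/
theorem specializationExists_of_isRed
    (H : ∀ ℓ : ℕ, (hℓ : ℓ.Prime) → ¬ ℓ ∣ N * p →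
      ∀ A : ValuationSubring (AlgebraicClosure ℚ), A.LiesOverPrime ℓ →
        ∃ (Y : Type) (_ : AddCommGroup Y) (red : J →+ Y),
          IsRed (K := ℚ) p J A ℓ hℓ red) :
    SpecializationExists (K := ℚ) (L := AlgebraicClosure ℚ) N p J := by
  intro ℓ hℓ hdvd A hA
  obtain ⟨Y, _, red, hred⟩ := H ℓ hℓ hdvd A hA
  exact exists_specialization_of_isRed p A ℓ hℓ (exists_isFrobeniusAt ℓ hℓ A hA) red hred

end Rat

end Fermat.Agent.S37.H99

end
end
-- ===== PACK-END S37/H99/Formal.lean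

-- ===== PACK-BEGIN A2/H708/GaussInfModular.lean
section




/-!
# A2 (helper708): `modularFunctionFieldFull N` is generated by integer series

`intGen_full N : IntGen (modularFunctionFieldFull N)` : every element of
`ℚ(j(t^d) : d ∣ N) ⊆ ℚ((t))` is a fraction `P / Q` of series with INTEGER coefficients lying in
the field.  This is the hypothesis `hgen` of the Gauss valuation ring `gaussInf` (all levels `N`,
all residue characteristics).
-/

set_option autoImplicit false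

noncomputable section

namespace Fermat.Agent.A2.H708

open ModularCurve HahnSeries IntermediateField Fermat.Agent.S18.H602

theorem castQ_injective : Function.Injective castQ :=
  coeffMap_injective _ (RingHom.injective_int (Int.castRingHom ℚ))

/-- `j(t^d)` with integer coefficients. -/
def jInt (d : ℕ) [NeZero d] : LaurentSeries ℤ := jqNModC ℤ d

theorem castQ_jInt (d : ℕ) [NeZero d] : castQ (jInt d) = qExpand ℚ d jq := by
  rw [castQ, jInt, coeffMap_jqNModC, jqNModC, jqModC_rat]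

theorem castQ_single_zero (a : ℤ) :
    castQ (HahnSeries.single 0 a) = algebraMap ℚ (LaurentSeries ℚ) (a : ℚ) := by
  rw [castQ, coeffMap_single, algebraMap_laurentSeries_eq_single]
  rfl

/-- fractions of integer series in a subfield of `ℚ((t))`. -/
def IsIntFrac (F₀ : IntermediateField ℚ (LaurentSeries ℚ)) (z : LaurentSeries ℚ) : Prop :=
  ∃ P Q : LaurentSeries ℤ, Q ≠ 0 ∧ castQ Q ∈ F₀ ∧ z * castQ Q = castQ P

theorem castQ_ne_zero {Q : LaurentSeries ℤ} (h : Q ≠ 0) : castQ Q ≠ 0 :=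
  fun h0 => h (castQ_injective (h0.trans (_root_.map_zero _).symm))

/-- A field generated over `ℚ` by integer series consists of fractions of integer series. -/
theorem intGen_adjoin (S : Set (LaurentSeries ℤ)) :
    IntGen (IntermediateField.adjoin ℚ (castQ '' S)) := by
  intro z hz
  show IsIntFrac _ z
  induction hz using IntermediateField.adjoin_induction with
  | mem y hy =>
    obtain ⟨s, hs, rfl⟩ := hy
    refine ⟨s, 1, one_ne_zero, ?_, ?_⟩
    · rw [_root_.map_one]; exact _root_.OneMemClass.one_mem _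
    · rw [_root_.map_one, mul_one]
  | algebraMap c =>
    refine ⟨HahnSeries.single 0 c.num, HahnSeries.single 0 (c.den : ℤ), ?_, ?_, ?_⟩
    · intro h
      have := congrArg (fun z => z.coeff 0) h
      simp at this
    · rw [castQ_single_zero]
      exact IntermediateField.algebraMap_mem _ _
    · rw [castQ_single_zero, castQ_single_zero, ← _root_.map_mul]
      congr 1
      have := Rat.mul_den_eq_num c
      exact_mod_cast this
  | add x y hx hy ihx ihy =>
    obtain ⟨P, Q, h0, hm, he⟩ := ihx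
    obtain ⟨P', Q', h0', hm', he'⟩ := ihy
    refine ⟨P * Q' + P' * Q, Q * Q', mul_ne_zero h0 h0', ?_, ?_⟩
    · rw [_root_.map_mul]; exact _root_.MulMemClass.mul_mem hm hm'
    · rw [_root_.map_add, _root_.map_mul, _root_.map_mul, _root_.map_mul, ← he, ← he']
      ring
  | inv x hx ihx =>
    obtain ⟨P, Q, h0, hm, he⟩ := ihx
    by_cases hx0 : x = 0
    · refine ⟨0, 1, one_ne_zero, ?_, ?_⟩
      · rw [_root_.map_one]; exact _root_.OneMemClass.one_mem _
      · rw [hx0, inv_zero, zero_mul, _root_.map_zero]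
    · have hP : P ≠ 0 := by
        rintro rfl
        rw [_root_.map_zero] at he
        rcases mul_eq_zero.mp he with h | h
        · exact hx0 h
        · exact castQ_ne_zero h0 h
      refine ⟨Q, P, hP, ?_, ?_⟩
      · rw [← he]
        exact _root_.MulMemClass.mul_mem hx hm
      · rw [← he, ← mul_assoc, inv_mul_cancel₀ hx0, one_mul]
  | mul x y hx hy ihx ihy =>
    obtain ⟨P, Q, h0, hm, he⟩ := ihx
    obtain ⟨P', Q', h0', hm', he'⟩ := ihy
    refine ⟨P * P', Q * Q', mul_ne_zero h0 h0', ?_, ?_⟩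
    · rw [_root_.map_mul]; exact _root_.MulMemClass.mul_mem hm hm'
    · rw [_root_.map_mul, _root_.map_mul, ← he, ← he']
      ring

/-- the integer generators of `modularFunctionFieldFull N`. -/
def intGens (N : ℕ) : Set (LaurentSeries ℤ) :=
  {x | ∃ (d : ℕ) (_ : NeZero d), d ∣ N ∧ x = jInt d}

theorem castQ_image_intGens (N : ℕ) : castQ '' intGens N = divisorExpansions N := by
  ext x
  constructor
  · rintro ⟨_, ⟨d, hd, hdN, rfl⟩, rfl⟩
    exact ⟨d, hd, hdN, castQ_jInt d⟩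
  · rintro ⟨d, hd, hdN, rfl⟩
    exact ⟨jInt d, ⟨d, hd, hdN, rfl⟩, castQ_jInt d⟩

/-- **`ℚ(j(t^d) : d ∣ N)` is generated by integer series** (every level `N`). -/
theorem intGen_full (N : ℕ) : IntGen (modularFunctionFieldFull N) := by
  have h := intGen_adjoin (intGens N)
  rw [castQ_image_intGens] at h
  exact h

end Fermat.Agent.A2.H708

end
end
-- ===== PACK-END A2/H708/GaussInfModular.lean

-- ===== PACK-BEGIN S29/H801/M1Norm.lean
section
/-
S29 / M1 (helper801), part 4: norm compatibility of a commutative square of field extensions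

      F  --a-->  F₁
      |i         |i₁
      v          v
      G  --a'->  G₁

from "linear disjointness": `i₁` maps `F`-linearly independent families of `F₁` to `G`-linearly
independent families of `G₁`, and `[G₁ : G] ≤ [F₁ : F]`.  (Generic; Mathlib + Prelude + H818.)
-/




set_option autoImplicit false
set_option linter.style.haveILetI false

noncomputable section

namespace Fermat.Agent.S29.H801

open AlgebraicCurve Fermat.Agent.S37.H818

section Abstract

variable {F F₁ G G₁ : Type*} [Field F] [Field F₁] [Field G] [Field G₁]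
  [Algebra F F₁] [Algebra G G₁]

/-- Norms commute with a map of extensions which sends a basis to a basis. -/
theorem norm_map_of_basis (i : F →+* G) (i₁ : F₁ →+* G₁)
    (hsq : ∀ x : F, i₁ (algebraMap F F₁ x) = algebraMap G G₁ (i x))
    {ι : Type*} [Fintype ι] [DecidableEq ι] (b : Module.Basis ι F F₁) (b' : Module.Basis ι G G₁)
    (hb : ∀ k, b' k = i₁ (b k)) (f : F₁) :
    Algebra.norm G (i₁ f) = i (Algebra.norm F f) := by
  rw [Algebra.norm_eq_matrix_det b', Algebra.norm_eq_matrix_det b, RingHom.map_det]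
  congr 1
  ext j k
  rw [RingHom.mapMatrix_apply, Matrix.map_apply, Algebra.leftMulMatrix_eq_repr_mul,
    Algebra.leftMulMatrix_eq_repr_mul]
  have h1 : f * b k = ∑ m, (b.repr (f * b k) m) • b m := (b.sum_repr (f * b k)).symm
  have h2 : i₁ f * b' k = ∑ m, (i (b.repr (f * b k) m)) • b' m := by
    rw [hb k, ← map_mul, h1, map_sum]
    refine Finset.sum_congr rfl fun m _ => ?_
    rw [Algebra.smul_def, map_mul, hsq, hb m, Algebra.smul_def]
    congr 2
    rw [← h1]
  rw [h2, map_sum]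
  simp only [map_smul, Module.Basis.repr_self, Finsupp.coe_finsetSum, Finsupp.coe_smul,
    Finset.sum_apply, Pi.smul_apply, Finsupp.single_apply, smul_eq_mul, mul_ite, mul_one,
    mul_zero, Finset.sum_ite_eq', Finset.mem_univ, if_true]

/-- Norm compatibility from preservation of linear independence and a rank bound. -/
theorem norm_map_of_linearIndependent [Module.Finite F F₁] [Module.Finite G G₁]
    (i : F →+* G) (i₁ : F₁ →+* G₁)
    (hsq : ∀ x : F, i₁ (algebraMap F F₁ x) = algebraMap G G₁ (i x))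
    (hrk : Module.finrank G G₁ ≤ Module.finrank F F₁)
    (hLD : ∀ (n : ℕ) (b : Fin n → F₁), LinearIndependent F b → LinearIndependent G (i₁ ∘ b))
    (f : F₁) :
    Algebra.norm G (i₁ f) = i (Algebra.norm F f) := by
  classical
  set n := Module.finrank F F₁ with hn
  let b : Module.Basis (Fin n) F F₁ := Module.finBasis F F₁
  have hli : LinearIndependent G (i₁ ∘ b) := hLD n b b.linearIndependent
  have hcard : Fintype.card (Fin n) = Module.finrank G G₁ := by
    have h1 := hli.fintype_card_le_finrank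
    rw [Fintype.card_fin] at h1 ⊢
    omega
  haveI : Nonempty (Fin n) := ⟨⟨0, by rw [hn]; exact Module.finrank_pos⟩⟩
  let b' : Module.Basis (Fin n) G G₁ := basisOfLinearIndependentOfCardEqFinrank hli hcard
  have hb : ∀ k, b' k = i₁ (b k) := fun k => by
    simp only [b', coe_basisOfLinearIndependentOfCardEqFinrank, Function.comp_apply]
  exact norm_map_of_basis i i₁ hsq b b' hb f

/-- Norm compatibility from a rank bound and generation: the image of `i₁` spans `G₁` over `G`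
and `[F₁ : F] ≤ [G₁ : G]`. -/
theorem norm_map_of_span [Module.Finite F F₁] [Module.Finite G G₁]
    (i : F →+* G) (i₁ : F₁ →+* G₁)
    (hsq : ∀ x : F, i₁ (algebraMap F F₁ x) = algebraMap G G₁ (i x))
    (hrk : Module.finrank F F₁ ≤ Module.finrank G G₁)
    (hspan : Submodule.span G (Set.range i₁) = ⊤) (f : F₁) :
    Algebra.norm G (i₁ f) = i (Algebra.norm F f) := by
  classical
  set n := Module.finrank F F₁ with hn
  let b : Module.Basis (Fin n) F F₁ := Module.finBasis F F₁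
  have hsp : ⊤ ≤ Submodule.span G (Set.range (i₁ ∘ b)) := by
    rw [← hspan, Submodule.span_le]
    rintro _ ⟨x, rfl⟩
    have hx : x = ∑ k, b.repr x k • b k := (b.sum_repr x).symm
    rw [hx, map_sum]
    refine Submodule.sum_mem _ fun k _ => ?_
    rw [Algebra.smul_def, map_mul, hsq, ← Algebra.smul_def]
    exact Submodule.smul_mem _ _ (Submodule.subset_span ⟨k, rfl⟩)
  have hcard : Fintype.card (Fin n) = Module.finrank G G₁ := by
    have h1 : Module.finrank G G₁ ≤ Fintype.card (Fin n) := by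
      have h2 := finrank_range_le_card (R := G) (i₁ ∘ b)
      have h3 : Submodule.span G (Set.range (i₁ ∘ b)) = ⊤ := top_le_iff.mp hsp
      rw [Set.finrank, h3, finrank_top] at h2
      exact h2
    rw [Fintype.card_fin] at h1 ⊢
    omega
  let b' : Module.Basis (Fin n) G G₁ := basisOfTopLeSpanOfCardEqFinrank (i₁ ∘ b) hsp hcard
  have hb : ∀ k, b' k = i₁ (b k) := fun k => by
    simp only [b', coe_basisOfTopLeSpanOfCardEqFinrank, Function.comp_apply]
  exact norm_map_of_basis i i₁ hsq b b' hb f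

end Abstract

section Along

variable {K F F₁ G G₁ : Type*} [Field K] [Field F] [Field F₁] [Field G] [Field G₁]
  [Algebra K F] [Algebra K F₁] [Algebra K G] [Algebra K G₁]

/-- **`NormCompat` from linear disjointness.** -/
theorem normCompat_of_linearIndependent
    (a : F →ₐ[K] F₁) (i : F →ₐ[K] G) (a' : G →ₐ[K] G₁) (i₁ : F₁ →ₐ[K] G₁)
    (hsq : i₁.comp a = a'.comp i)
    (hfin : FiniteAlong K a) (hfin' : FiniteAlong K a')
    (hrk : finrankAlong K a' ≤ finrankAlong K a)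
    (hLD : letI := algebraAlong a; letI := algebraAlong a';
      ∀ (n : ℕ) (b : Fin n → F₁), LinearIndependent F b → LinearIndependent G (i₁ ∘ b)) :
    NormCompat a i a' i₁ := by
  intro f
  letI := algebraAlong a
  letI := algebraAlong a'
  haveI : Module.Finite F F₁ := hfin
  haveI : Module.Finite G G₁ := hfin'
  exact norm_map_of_linearIndependent (i : F →+* G) (i₁ : F₁ →+* G₁)
    (fun x => by
      show i₁ (a x) = a' (i x)
      exact AlgHom.congr_fun hsq x)
    hrk hLD f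

/-- **`NormCompat` from generation and a rank bound.** -/
theorem normCompat_of_span
    (a : F →ₐ[K] F₁) (i : F →ₐ[K] G) (a' : G →ₐ[K] G₁) (i₁ : F₁ →ₐ[K] G₁)
    (hsq : i₁.comp a = a'.comp i)
    (hfin : FiniteAlong K a) (hfin' : FiniteAlong K a')
    (hrk : finrankAlong K a ≤ finrankAlong K a')
    (hspan : letI := algebraAlong a';
      Submodule.span G (Set.range i₁) = ⊤) :
    NormCompat a i a' i₁ := by
  intro f
  letI := algebraAlong a
  letI := algebraAlong a'
  haveI : Module.Finite F F₁ := hfin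
  haveI : Module.Finite G G₁ := hfin'
  exact norm_map_of_span (i : F →+* G) (i₁ : F₁ →+* G₁)
    (fun x => by
      show i₁ (a x) = a' (i x)
      exact AlgHom.congr_fun hsq x)
    hrk hspan f

end Along

section Sup

variable {K E : Type*} [Field K] [Field E] [Algebra K E]

/-- If `B` is algebraic over `A`, the compositum `A ⊔ B` is the `A`-span of `B`. -/
theorem mem_span_of_mem_sup (A B : IntermediateField K E)
    (halg : ∀ x ∈ B, IsAlgebraic A x) {t : E} (ht : t ∈ A ⊔ B) :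
    t ∈ Submodule.span A (B : Set E) := by
  have h1 : (IntermediateField.adjoin A (B : Set E)).restrictScalars K = A ⊔ B := by
    rw [IntermediateField.restrictScalars_adjoin_eq_sup, IntermediateField.adjoin_self]
  have h2 : t ∈ IntermediateField.adjoin A (B : Set E) := by
    have h : t ∈ (IntermediateField.adjoin A (B : Set E)).restrictScalars K := by
      rw [h1]; exact ht
    exact h
  have h3 := IntermediateField.adjoin_toSubalgebra_of_isAlgebraic halg
  have h4 : t ∈ Algebra.adjoin A (B : Set E) := by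
    rw [← h3]; exact h2
  have h5 : t ∈ Subalgebra.toSubmodule (Algebra.adjoin A (B : Set E)) := h4
  rw [Algebra.adjoin_eq_span] at h5
  have h6 : ((Submonoid.closure (B : Set E) : Submonoid E) : Set E) = (B : Set E) := by
    have := Submonoid.closure_eq B.toSubalgebra.toSubmonoid
    exact congrArg (fun S : Submonoid E => (S : Set E)) this
  rwa [h6] at h5

end Sup

end Fermat.Agent.S29.H801

end

end
-- ===== PACK-END S29/H801/M1Norm.lean

-- ===== PACK-BEGIN A2/Alg/H34/Basic.lean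
section


/-!
# WALL A2 / ALG — leaves A1' and ASM (helper34)

* `divisibleDiv_mul_inv`, `divisibleDiv_tau` : `DivisibleDiv` is stable under quotients and under
  a semilinear automorphism.
* `chartCtx_inv` : the standing hypotheses for the chart at infinity.
* `locOne_tau_div` : `v ∈ (B_n)ˣ`, `τ ≡ id mod w`, `w ∈ I`  ⟹  `τ v / v ∈ 1 + I B_n`.
* `localFactor_of_pureAt` (**ASM**) : `PureAt u n ⟹ LocalFactor (τ u / u) n`.

Statements are VERBATIM those of `Fermat/Agent/A2/Alg/Skel.lean` (origin/helper34).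
-/

set_option autoImplicit false

namespace Fermat.Agent.A2.Alg.H34

open Fermat.Agent.A2 Fermat.Agent.A2.Alg

section Div

variable {E F : Type*} [Field E] [Field F] [Algebra E F]

/-- **A1'.** -/
theorem divisibleDiv_mul_inv (m : ℕ) (f g : F) (hf : DivisibleDiv E m f)
    (hg : DivisibleDiv E m g) : DivisibleDiv E m (f * g⁻¹) := by
  intro V hV hE
  obtain ⟨h₁, u₁, hh₁, hu₁, hu₁', rfl⟩ := hf V hV hE
  obtain ⟨h₂, u₂, hh₂, hu₂, hu₂', rfl⟩ := hg V hV hE
  refine ⟨h₁ * h₂⁻¹, u₁ * u₂⁻¹, mul_ne_zero hh₁ (inv_ne_zero hh₂), V.mul_mem _ _ hu₁ hu₂', ?_, ?_⟩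
  · rw [mul_inv, inv_inv]
    exact V.mul_mem _ _ hu₁' hu₂
  · rw [mul_pow, inv_pow, mul_inv]
    ring

/-- The ring isomorphism `V.comap τ ≃ V` induced by `τ`. -/
noncomputable def comapEquiv (τ : F ≃+* F) (V : ValuationSubring F) :
    V.comap (τ : F →+* F) ≃+* V where
  toFun a := ⟨τ a.1, a.2⟩
  invFun b := ⟨τ.symm b.1, by
    show (τ : F →+* F) (τ.symm b.1) ∈ V
    simpa using b.2⟩
  left_inv a := Subtype.ext (by simp)
  right_inv b := Subtype.ext (by simp)
  map_mul' a b := Subtype.ext (by simp)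
  map_add' a b := Subtype.ext (by simp)

/-- **A1'.**  `τ` permutes the discrete valuation rings of `F` containing `E`. -/
theorem divisibleDiv_tau (τ : F ≃+* F) (τE : E ≃+* E)
    (hτE : ∀ e : E, τ (algebraMap E F e) = algebraMap E F (τE e)) (m : ℕ) (f : F)
    (h : DivisibleDiv E m f) : DivisibleDiv E m (τ f) := by
  intro V hV hE
  have hV' : IsDiscreteValuationRing (V.comap (τ : F →+* F)) :=
    IsDiscreteValuationRing.RingEquivClass.isDiscreteValuationRing (comapEquiv τ V).symm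
  have hE' : ∀ e : E, algebraMap E F e ∈ V.comap (τ : F →+* F) := fun e => by
    show τ (algebraMap E F e) ∈ V
    rw [hτE]
    exact hE _
  obtain ⟨h₀, u, hh₀, hu, hu', rfl⟩ := h _ hV' hE'
  refine ⟨τ h₀, τ u, (map_ne_zero τ).2 hh₀, hu, ?_, ?_⟩
  · rw [← map_inv₀]
    exact hu'
  · rw [map_mul, map_pow]

end Div

section Chart

variable {R E F : Type*} [CommRing R] [Field E] [Algebra R E] [Field F] [Algebra E F]
  [Algebra R F]

theorem adjoin_inv_eq (x : F) :
    IntermediateField.adjoin E ({x⁻¹} : Set F) = IntermediateField.adjoin E ({x} : Set F) := by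
  apply le_antisymm
  · rw [IntermediateField.adjoin_le_iff]
    rintro y hy
    rw [Set.mem_singleton_iff] at hy
    subst hy
    exact inv_mem (IntermediateField.subset_adjoin E _ (Set.mem_singleton x))
  · rw [IntermediateField.adjoin_le_iff]
    rintro y hy
    rw [Set.mem_singleton_iff] at hy
    subst hy
    have := inv_mem (IntermediateField.subset_adjoin E ({y⁻¹} : Set F) (Set.mem_singleton _))
    rwa [inv_inv] at this

/-- **A1'.**  The chart at infinity satisfies the same standing hypotheses with `x⁻¹`. -/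
theorem chartCtx_inv (w : R) (hw : Irreducible w) (x : F) (hx : Transcendental E x)
    (hfin : FiniteDimensional (IntermediateField.adjoin E ({x} : Set F)) F)
    (hconst : ∀ f : F, IsAlgebraic E f → f ∈ (algebraMap E F).range)
    (Bi : Subalgebra R F)
    (hBi : ∀ f : F, f ∈ Bi ↔ IsIntegral (Algebra.adjoin R ({x⁻¹} : Set F)) f) :
    ChartCtx E w x⁻¹ Bi := by
  refine ⟨hw, ?_, ?_, hconst, hBi⟩
  · intro h
    apply hx
    have := h.inv
    rwa [inv_inv] at this
  · rw [adjoin_inv_eq]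
    exact hfin

end Chart

section Asm

variable {R F : Type*} [CommRing R] [Field F] [Algebra R F]

/-- `τ` maps `B` into `B`, and is the identity modulo `w`. -/
theorem exists_tau_eq (w : R) (B : Subalgebra R F) (τ : F ≃+* F)
    (hτB : ∀ b ∈ B, ∃ c ∈ B, τ b - b = algebraMap R F w * c) (b : B) :
    ∃ b' c : B, (b' : F) = τ b ∧ b' - b = algebraMap R B w * c := by
  obtain ⟨c, hc, h⟩ := hτB b b.2
  refine ⟨⟨τ b, ?_⟩, ⟨c, hc⟩, rfl, ?_⟩
  · have : τ (b : F) = b + algebraMap R F w * c := by linear_combination h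
    rw [this]
    exact B.add_mem b.2 (B.mul_mem (B.algebraMap_mem w) hc)
  · apply Subtype.ext
    simpa using h

/-- `v ∈ (B_n)ˣ`, `τ ≡ id mod w`, `w ∈ n`, `w ∈ I`  ⟹  `τ v / v ∈ 1 + I B_n`. -/
theorem locOne_tau_div (w : R) (B : Subalgebra R F) (τ : F ≃+* F)
    (hτB : ∀ b ∈ B, ∃ c ∈ B, τ b - b = algebraMap R F w * c)
    (n : Ideal B) (hn : n.IsPrime) (hwn : algebraMap R B w ∈ n)
    (I : Ideal B) (hwI : algebraMap R B w ∈ I) (v : F) (hv : LocUnit B n v) :
    LocOne B n I (τ v * v⁻¹) := by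
  obtain ⟨a, b, ha, hb, hab⟩ := hv
  obtain ⟨a', ca, ha', hca⟩ := exists_tau_eq w B τ hτB a
  obtain ⟨b', cb, hb', hcb⟩ := exists_tau_eq w B τ hτB b
  have hb'n : b' ∉ n := by
    intro h
    apply hb
    have h1 : b = b' - algebraMap R B w * cb := by rw [← hcb]; ring
    rw [h1]
    exact n.sub_mem h (n.mul_mem_right _ hwn)
  have ha0 : (a : F) ≠ 0 := by
    intro h
    apply ha
    have : a = 0 := Subtype.ext h
    rw [this]
    exact n.zero_mem
  have hb0 : (b : F) ≠ 0 := by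
    intro h
    apply hb
    have : b = 0 := Subtype.ext h
    rw [this]
    exact n.zero_mem
  have hv0 : v ≠ 0 := by
    rintro rfl
    rw [zero_mul] at hab
    exact ha0 hab.symm
  have hb'0 : (b' : F) ≠ 0 := by
    rw [hb']
    exact (map_ne_zero τ).2 hb0
  refine ⟨a' * b, a * b', ?_, ?_, ?_⟩
  · intro h
    rcases hn.mem_or_mem h with h | h
    · exact ha h
    · exact hb'n h
  · have h1 : a' * b - a * b' = algebraMap R B w * (ca * b - a * cb) := by
      have e1 : a' = a + algebraMap R B w * ca := by rw [← hca]; ring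
      have e2 : b' = b + algebraMap R B w * cb := by rw [← hcb]; ring
      rw [e1, e2]
      ring
    rw [h1]
    exact I.mul_mem_right _ hwI
  · -- `τ v * v⁻¹ * (a * b') = a' * b`
    have hτ : τ v * (b' : F) = (a' : F) := by
      rw [hb', ha', ← map_mul, hab]
    have hv' : v = (a : F) * (b : F)⁻¹ := by
      field_simp
      exact hab
    push_cast
    have : τ v = (a' : F) * (b' : F)⁻¹ := by
      field_simp
      exact hτ
    rw [this, hv']
    field_simp

/-- **ASM.**  `u d ^ m = ε ∈ (B_n)ˣ`; `h := τ d / d`; then `(τ u / u) h ^ m = τ ε / ε ∈ 1 + w B_n`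
and `h ≡ 1` on both components (`d` is a unit there, `τ ≡ id mod w`). -/
theorem localFactor_of_pureAt {E : Type*} [Field E] [Algebra R E] [Algebra E F]
    (w : R) (B : Subalgebra R F) (c : SSChart w B)
    (τ : F ≃+* F) (τE : E ≃+* E) (τR : R ≃+* R) (hτ : TauCtx w B τ τE τR)
    (m : ℕ) (u : F) (hu : u ≠ 0) (n : Ideal B) (hn : n.IsPrime) (hwn : algebraMap R B w ∈ n)
    (h : PureAt B c m u n) : LocalFactor B c m (τ u * u⁻¹) n := by
  obtain ⟨d, hd, hε, hd₁, hd₂⟩ := h
  have hw₁ : algebraMap R B w ∈ c.p₁ := by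
    have : algebraMap R B w ∈ c.p₁ ⊓ c.p₂ := by
      rw [c.inf_eq]
      exact Ideal.mem_span_singleton_self _
    exact this.1
  have hw₂ : algebraMap R B w ∈ c.p₂ := by
    have : algebraMap R B w ∈ c.p₁ ⊓ c.p₂ := by
      rw [c.inf_eq]
      exact Ideal.mem_span_singleton_self _
    exact this.2
  have hτd : τ d ≠ 0 := (map_ne_zero τ).2 hd
  refine ⟨τ d * d⁻¹, mul_ne_zero hτd (inv_ne_zero hd), ?_,
    locOne_tau_div w B τ hτ.hτB c.p₁ c.prime₁ hw₁ c.p₁ hw₁ d hd₁,
    locOne_tau_div w B τ hτ.hτB c.p₂ c.prime₂ hw₂ c.p₂ hw₂ d hd₂⟩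
  have key : τ u * u⁻¹ * (τ d * d⁻¹) ^ m = τ (u * d ^ m) * (u * d ^ m)⁻¹ := by
    rw [map_mul, map_pow, mul_pow, inv_pow, mul_inv]
    ring
  rw [key]
  exact locOne_tau_div w B τ hτ.hτB n hn hwn _ (Ideal.mem_span_singleton_self _) _ hε

end Asm

end Fermat.Agent.A2.Alg.H34

end
-- ===== PACK-END A2/Alg/H34/Basic.lean

-- ===== PACK-BEGIN A2/H12/DeckTwo.lean
section


/-!
# Cell A2 — route G: the deck lemma for a two-chart model, ring form (helper12)

Mathlib-only.  `R₁`, `R₂` are the two charts of the model of the cover, `Q₁ s`, `Q₂ s` the ideal of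
the sheet `s` in the two charts, `ρ₁`, `ρ₂` the restriction of `τ̃⁻¹` to the charts.

* `fixes_all_two` : if `τ̃` fixes one sheet, is the identity modulo every fixed sheet (`h_triv`),
  a closed point carries at most one sheet of each colour (`h_uni` = COUNT), and the sheet graph
  is connected (`h_conn`), then `τ̃` fixes every sheet.
-/

set_option autoImplicit false

namespace Fermat.Agent.A2.H12

section Two

variable {R₁ R₂ : Type*} [CommRing R₁] [CommRing R₂] {S C : Type*}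

/-- adjacency: not comaximal in one of the two charts -/
def TwoAdj (Q₁ : S → Ideal R₁) (Q₂ : S → Ideal R₂) (s t : S) : Prop :=
  (¬ ∃ a ∈ Q₁ s, ∃ b ∈ Q₁ t, a + b = 1) ∨ (¬ ∃ a ∈ Q₂ s, ∃ b ∈ Q₂ t, a + b = 1)

/-- **Deck lemma, two charts, ring form.** -/
theorem fixes_all_two (ρ₁ : R₁ →+* R₁) (hρ₁ : Function.Surjective ρ₁)
    (ρ₂ : R₂ →+* R₂) (hρ₂ : Function.Surjective ρ₂)
    (Q₁ : S → Ideal R₁) (Q₂ : S → Ideal R₂) (τS : S → S) (col : S → C)
    (hQ₁ : ∀ s b, b ∈ Q₁ (τS s) → ρ₁ b ∈ Q₁ s)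
    (hQ₂ : ∀ s b, b ∈ Q₂ (τS s) → ρ₂ b ∈ Q₂ s)
    (h_col : ∀ s, col (τS s) = col s)
    (h_triv₁ : ∀ s, τS s = s → ∀ b, ρ₁ b - b ∈ Q₁ s)
    (h_triv₂ : ∀ s, τS s = s → ∀ b, ρ₂ b - b ∈ Q₂ s)
    (h_uni₁ : ∀ 𝔫 : Ideal R₁, 𝔫.IsMaximal → ∀ s t, col s = col t →
      Q₁ s ≤ 𝔫 → Q₁ t ≤ 𝔫 → s = t)
    (h_uni₂ : ∀ 𝔫 : Ideal R₂, 𝔫.IsMaximal → ∀ s t, col s = col t →
      Q₂ s ≤ 𝔫 → Q₂ t ≤ 𝔫 → s = t)
    (h_conn : ∀ s t : S, Relation.ReflTransGen (TwoAdj Q₁ Q₂) s t)
    (s₀ : S) (h₀ : τS s₀ = s₀) : ∀ s, τS s = s := by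
  classical
  -- points: maximal ideals of the two charts
  let Pt := {𝔫 : Ideal R₁ // 𝔫.IsMaximal} ⊕ {𝔫 : Ideal R₂ // 𝔫.IsMaximal}
  let inc : S → Pt → Prop := fun s p =>
    Sum.elim (fun 𝔫 => Q₁ s ≤ 𝔫.1) (fun 𝔫 => Q₂ s ≤ 𝔫.1) p
  let τP : Pt → Pt := fun p =>
    Sum.elim
      (fun 𝔫 => Sum.inl ⟨𝔫.1.comap ρ₁, by
        have := 𝔫.2
        exact Ideal.comap_isMaximal_of_surjective ρ₁ hρ₁⟩)
      (fun 𝔫 => Sum.inr ⟨𝔫.1.comap ρ₂, by
        have := 𝔫.2
        exact Ideal.comap_isMaximal_of_surjective ρ₂ hρ₂⟩) p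
  refine fixes_all inc col τS τP h_col ?_ ?_ ?_ ?_ s₀ h₀
  · -- incidence is preserved
    rintro s (𝔫 | 𝔫) hsp
    · intro b hb
      exact hsp (hQ₁ s b hb)
    · intro b hb
      exact hsp (hQ₂ s b hb)
  · -- points of a fixed sheet are fixed
    rintro s (𝔫 | 𝔫) hs hsp
    · have : 𝔫.1.comap ρ₁ = 𝔫.1 := by
        ext b
        rw [Ideal.mem_comap]
        have h1 : ρ₁ b - b ∈ 𝔫.1 := hsp (h_triv₁ s hs b)
        constructor
        · intro h
          have : b = ρ₁ b - (ρ₁ b - b) := by ring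
          rw [this]
          exact 𝔫.1.sub_mem h h1
        · intro h
          have : ρ₁ b = (ρ₁ b - b) + b := by ring
          rw [this]
          exact 𝔫.1.add_mem h1 h
      exact congrArg Sum.inl (Subtype.ext this)
    · have : 𝔫.1.comap ρ₂ = 𝔫.1 := by
        ext b
        rw [Ideal.mem_comap]
        have h1 : ρ₂ b - b ∈ 𝔫.1 := hsp (h_triv₂ s hs b)
        constructor
        · intro h
          have : b = ρ₂ b - (ρ₂ b - b) := by ring
          rw [this]
          exact 𝔫.1.sub_mem h h1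
        · intro h
          have : ρ₂ b = (ρ₂ b - b) + b := by ring
          rw [this]
          exact 𝔫.1.add_mem h1 h
      exact congrArg Sum.inr (Subtype.ext this)
  · -- COUNT
    rintro s t (𝔫 | 𝔫) hs ht hc
    · exact h_uni₁ 𝔫.1 𝔫.2 s t hc hs ht
    · exact h_uni₂ 𝔫.1 𝔫.2 s t hc hs ht
  · -- connectedness
    intro s t
    refine Relation.ReflTransGen.mono ?_ _ _ (h_conn s t)
    rintro a b (h | h)
    · obtain ⟨𝔫, h𝔫, ha, hb⟩ := exists_maximal_of_not_comaximal _ _ h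
      exact ⟨Sum.inl ⟨𝔫, h𝔫⟩, ha, hb⟩
    · obtain ⟨𝔫, h𝔫, ha, hb⟩ := exists_maximal_of_not_comaximal _ _ h
      exact ⟨Sum.inr ⟨𝔫, h𝔫⟩, ha, hb⟩

end Two

end Fermat.Agent.A2.H12

end
-- ===== PACK-END A2/H12/DeckTwo.lean

-- ===== PACK-BEGIN Ribet/H232/NormContraction.lean
section


/-!
# RIBET / WALL-p, leaf W-NC = I4 (norm contraction): abstract core  (helper232)

Mathlib + `A2/H48` (Mathlib-only) only.  NO completions, NO Hensel.

## Setting `NLSetting O V₁ V₂ ϖ p θ g`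
`K ⊆ F` fields, `[F : K] = p + 1`; `O` a rank-one valuation ring of `K` with uniformiser `ϖ`,
residue characteristic `p`; `V₁ ≠ V₂` valuation rings of `F` over `O`, both with uniformiser `ϖ`;
`θ ∈ V₁ ∩ V₂` with `1, θ, …, θ^(p-1)` residually independent over `O` at `V₂` and
`θ^p ≡ g mod ϖ V₂`, `g ∈ O`.  (So `V₁` has residue degree one and `V₂` a purely inseparable
residue extension of degree `p`: the situation of `α, β : X₀(pM') → X₀(M')` at the two Gauss
valuations, by Kronecker's congruence.)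

## Results
* `NLSetting.trace_dv`        : `η ∈ V₂`, `η ∈ π V₁` ⟹ `Tr η ∈ ϖ O`;
* `NLSetting.norm_sub_one_dv` : `u ∈ 1 + π^(s+1) V₁`, `u ∈ 1 + π^s V₂`, `s ≥ 1`
  ⟹ `N u ∈ 1 + ϖ^(s+1) O`  (**contraction** at the inseparable place);
* `NLSetting.norm_locconst_dv`: `r ≡ ρ₁` at `V₁`, `r ≡ ρ₂` at `V₂` mod `π^m` multiplicatively
  ⟹ `N r ≡ ρ₁ ρ₂^p` mod `ϖ^m`;
* `NLSetting.norm_loc`        : **NORM-LOC** `u ≡ v` at `V₁` mod `π^(s+1)`, `u ≡ c` at `V₂` mod
  `π^s` (`v, c ∈ Kˣ`, multiplicatively) ⟹ `N u ≡ v c^p` mod `ϖ^(s+1)`;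
* `NLSetting.exists_approx_mul`: multiplicative approximation at `V₁` by elements of `Kˣ`;
* `Side`, `NLSetting.side`, `Depth`, `IsPthNorm`, `Side.step`;
* `pingpong_inf`, `pingpong_zero` : **PING-PONG**.  For two embeddings `α, β : K → L` with the
  roles of the two places exchanged: if `N_α u, N_β u ∈ C · (Kˣ)^p` (`u` is "new") and
  `u ∈ C · (Lˣ)^p · (1 + π V)` at ONE of the two places, then `u ∈ C · (Lˣ)^p · (1 + π^s V)` for
  EVERY `s` at BOTH places.
-/

set_option autoImplicit false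

namespace Fermat.Agent.Ribet.H232

/-! ## Part 1: NormLocBasic -/

section Part1

open Fermat.Agent.A2.H48

section Dv

variable {F : Type*} [Field F]

/-- `x ∈ c · A` (elementwise divisibility in a valuation subring). -/
def Dv (A : ValuationSubring F) (c x : F) : Prop := ∃ y ∈ A, x = c * y

namespace Dv

variable {A : ValuationSubring F} {c d x y : F}

theorem zero : Dv A c 0 := ⟨0, zero_mem _, by simp⟩

theorem self : Dv A c c := ⟨1, one_mem _, by simp⟩

theorem add (hx : Dv A c x) (hy : Dv A c y) : Dv A c (x + y) := by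
  obtain ⟨a, ha, rfl⟩ := hx
  obtain ⟨b, hb, rfl⟩ := hy
  exact ⟨a + b, add_mem ha hb, by ring⟩

theorem neg (hx : Dv A c x) : Dv A c (-x) := by
  obtain ⟨a, ha, rfl⟩ := hx
  exact ⟨-a, neg_mem ha, by ring⟩

theorem sub (hx : Dv A c x) (hy : Dv A c y) : Dv A c (x - y) := by
  obtain ⟨a, ha, rfl⟩ := hx
  obtain ⟨b, hb, rfl⟩ := hy
  exact ⟨a - b, sub_mem ha hb, by ring⟩

theorem mul (hx : Dv A c x) (hy : Dv A d y) : Dv A (c * d) (x * y) := by
  obtain ⟨a, ha, rfl⟩ := hx
  obtain ⟨b, hb, rfl⟩ := hy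
  exact ⟨a * b, mul_mem ha hb, by ring⟩

theorem mul_left {a : F} (ha : a ∈ A) (hx : Dv A c x) : Dv A c (a * x) := by
  obtain ⟨b, hb, rfl⟩ := hx
  exact ⟨a * b, mul_mem ha hb, by ring⟩

theorem mul_right {a : F} (ha : a ∈ A) (hx : Dv A c x) : Dv A c (x * a) := by
  obtain ⟨b, hb, rfl⟩ := hx
  exact ⟨b * a, mul_mem hb ha, by ring⟩

theorem pow (hx : Dv A c x) (n : ℕ) : Dv A (c ^ n) (x ^ n) := by
  obtain ⟨a, ha, rfl⟩ := hx
  exact ⟨a ^ n, pow_mem ha n, by ring⟩

theorem of_mem (hx : x ∈ A) : Dv A 1 x := ⟨x, hx, by simp⟩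

theorem mem_of (hc : c ∈ A) (hx : Dv A c x) : x ∈ A := by
  obtain ⟨a, ha, rfl⟩ := hx
  exact mul_mem hc ha

theorem one_iff : Dv A 1 x ↔ x ∈ A :=
  ⟨fun h => mem_of (one_mem _) h, of_mem⟩

theorem of_mul (hd : d ∈ A) (hx : Dv A (c * d) x) : Dv A c x := by
  obtain ⟨a, ha, rfl⟩ := hx
  exact ⟨d * a, mul_mem hd ha, by ring⟩

theorem pow_mono {π : F} (hπ : π ∈ A) {m n : ℕ} (hmn : m ≤ n) (hx : Dv A (π ^ n) x) :
    Dv A (π ^ m) x := by
  obtain ⟨k, rfl⟩ := Nat.exists_eq_add_of_le hmn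
  rw [pow_add] at hx
  exact of_mul (pow_mem hπ k) hx

theorem of_pow {π : F} (hπ : π ∈ A) {n : ℕ} (hn : 1 ≤ n) (hx : Dv A (π ^ n) x) :
    Dv A π x := by
  have := pow_mono hπ hn hx
  rwa [pow_one] at this

theorem sum {ι : Type*} (s : Finset ι) (f : ι → F) (h : ∀ i ∈ s, Dv A c (f i)) :
    Dv A c (∑ i ∈ s, f i) := by
  classical
  induction s using Finset.induction_on with
  | empty => simpa using zero
  | insert i s hi ih =>
    rw [Finset.sum_insert hi]
    exact add (h i (Finset.mem_insert_self i s))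
      (ih fun j hj => h j (Finset.mem_insert_of_mem hj))

theorem iff_mul_inv (hc : c ≠ 0) : Dv A c x ↔ x * c⁻¹ ∈ A := by
  constructor
  · rintro ⟨a, ha, rfl⟩
    have : c * a * c⁻¹ = a := by field_simp
    rw [this]; exact ha
  · intro h
    exact ⟨x * c⁻¹, h, by field_simp⟩

theorem smul_iff (hd : d ≠ 0) : Dv A (d * c) (d * x) ↔ Dv A c x := by
  constructor
  · rintro ⟨a, ha, h⟩
    refine ⟨a, ha, ?_⟩
    have : d * x = d * (c * a) := by rw [h]; ring
    exact mul_left_cancel₀ hd this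
  · rintro ⟨a, ha, rfl⟩
    exact ⟨a, ha, by ring⟩

end Dv

end Dv

section Unif

variable {F : Type*} [Field F] {V : ValuationSubring F} {π : F}

/-- A unit of `V` is not divisible by the uniformiser. -/
theorem not_dv_one (h : IsUnif V π) : ¬ Dv V π 1 := by
  rintro ⟨a, ha, h1⟩
  apply h.inv_not_mem
  have hπ := h.ne_zero
  have : π⁻¹ = a := by
    field_simp
    exact h1
  rw [this]; exact ha

/-- `1 + π x` is a unit of `V`. -/
theorem inv_mem_of_dv_sub_one (h : IsUnif V π) {u : F} (hu : Dv V π (u - 1)) : u⁻¹ ∈ V := by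
  have huV : u ∈ V := by
    have := Dv.mem_of h.mem hu
    have h2 : u = (u - 1) + 1 := by ring
    rw [h2]; exact add_mem this (one_mem _)
  by_contra hinv
  have := h.gen u huV hinv
  have h1 : Dv V π u := (Dv.iff_mul_inv h.ne_zero).2 this
  apply not_dv_one h
  have h2 : (1 : F) = u - (u - 1) := by ring
  rw [h2]; exact h1.sub hu

theorem ne_zero_of_dv_sub_one (h : IsUnif V π) {u : F} (hu : Dv V π (u - 1)) : u ≠ 0 := by
  rintro rfl
  apply not_dv_one h
  have : (1 : F) = -(0 - 1) := by ring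
  rw [this]; exact hu.neg

/-- `(1 + π^n x)⁻¹ ∈ 1 + π^n V` for `n ≥ 1`. -/
theorem dv_inv_sub_one (h : IsUnif V π) {n : ℕ} (hn : 1 ≤ n) {u : F}
    (hu : Dv V (π ^ n) (u - 1)) : Dv V (π ^ n) (u⁻¹ - 1) := by
  have hu1 : Dv V π (u - 1) := Dv.of_pow h.mem hn hu
  have hinv := inv_mem_of_dv_sub_one h hu1
  have hu0 := ne_zero_of_dv_sub_one h hu1
  have : u⁻¹ - 1 = u⁻¹ * (-(u - 1)) := by field_simp; ring
  rw [this]
  exact Dv.mul_left hinv hu.neg

/-- `1 + π^n V` is closed under multiplication. -/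
theorem dv_mul_sub_one (h : IsUnif V π) {n : ℕ} {u v : F}
    (hu : Dv V (π ^ n) (u - 1)) (hv : Dv V (π ^ n) (v - 1)) : Dv V (π ^ n) (u * v - 1) := by
  have hvV : v ∈ V := by
    have := Dv.mem_of (pow_mem h.mem n) hv
    have h2 : v = (v - 1) + 1 := by ring
    rw [h2]; exact add_mem this (one_mem _)
  have : u * v - 1 = (u - 1) * v + (v - 1) := by ring
  rw [this]
  exact (Dv.mul_right hvV hu).add hv

end Unif

section Idem

variable {F : Type*} [Field F] {V₁ V₂ : ValuationSubring F} {π : F}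

/-- Approximate idempotents of any order: `e ≡ 1 mod π^T V₁`, `e ≡ 0 mod π^T V₂`. -/
theorem exists_idem (h₁ : IsUnif V₁ π) (h₂ : IsUnif V₂ π) (hne : V₁ ≠ V₂) (T : ℕ) :
    ∃ e : F, e ∈ V₁ ∧ e ∈ V₂ ∧ Dv V₁ (π ^ T) (e - 1) ∧ Dv V₂ (π ^ T) e := by
  have hπ := h₁.ne_zero
  obtain ⟨x, hx1, hx2, hx3⟩ := exists_approx (k := 0) h₁ h₂ hne (one_mem V₁)
    (by simp)
  have hxa : Dv V₁ π (x - 1) := (Dv.iff_mul_inv hπ).2 hx2
  have hxb : Dv V₂ π x := (Dv.iff_mul_inv hπ).2 hx3
  have hx2' : x ∈ V₂ := Dv.mem_of h₂.mem hxb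
  refine ⟨1 - (1 - x ^ T) ^ T, ?_, ?_, ?_, ?_⟩
  · exact sub_mem (one_mem _) (pow_mem (sub_mem (one_mem _) (pow_mem hx1 _)) _)
  · exact sub_mem (one_mem _) (pow_mem (sub_mem (one_mem _) (pow_mem hx2' _)) _)
  · -- at V₁
    have e1 : 1 - x ^ T = (1 - x) * ∑ i ∈ Finset.range T, x ^ i := (mul_neg_geom_sum x T).symm
    have h1 : Dv V₁ π (1 - x ^ T) := by
      rw [e1]
      have : Dv V₁ π (1 - x) := by
        have := hxa.neg
        rwa [neg_sub] at this
      exact Dv.mul_right (sum_mem fun i _ => pow_mem hx1 i) this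
    have h2 := h1.pow T
    have : 1 - (1 - x ^ T) ^ T - 1 = -((1 - x ^ T) ^ T) := by ring
    rw [this]; exact h2.neg
  · -- at V₂
    have e2 : 1 - (1 - x ^ T) ^ T = (1 - (1 - x ^ T)) * ∑ i ∈ Finset.range T, (1 - x ^ T) ^ i :=
      (mul_neg_geom_sum (1 - x ^ T) T).symm
    rw [e2]
    have : 1 - (1 - x ^ T) = x ^ T := by ring
    rw [this]
    exact Dv.mul_right (sum_mem fun i _ =>
      pow_mem (sub_mem (one_mem _) (pow_mem hx2' _)) i) (hxb.pow T)

end Idem

end Part1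

/-! ## Part 2: NormLocBasis -/

section Part2

open Fermat.Agent.A2.H48

variable {K F : Type*} [Field K] [Field F] [Algebra K F]

/-- The setting of the local norm congruence. -/
structure NLSetting (O : ValuationSubring K) (V₁ V₂ : ValuationSubring F) (ϖ : K) (p : ℕ)
    (θ : F) (g : K) : Prop where
  unifO : IsUnif O ϖ
  unif₁ : IsUnif V₁ (algebraMap K F ϖ)
  unif₂ : IsUnif V₂ (algebraMap K F ϖ)
  le₁ : ∀ a ∈ O, algebraMap K F a ∈ V₁
  le₂ : ∀ a ∈ O, algebraMap K F a ∈ V₂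
  ne : V₁ ≠ V₂
  arch : ∀ a : K, ∃ k : ℕ, ϖ ^ k * a ∈ O
  char_p : Dv O ϖ (p : K)
  θ_mem₁ : θ ∈ V₁
  θ_mem₂ : θ ∈ V₂
  g_mem : g ∈ O
  θ_pow : Dv V₂ (algebraMap K F ϖ) (θ ^ p - algebraMap K F g)
  θ_indep : ∀ a : Fin p → K, (∀ i, a i ∈ O) →
    Dv V₂ (algebraMap K F ϖ) (∑ i, algebraMap K F (a i) * θ ^ (i : ℕ)) → ∀ i, Dv O ϖ (a i)
  card : Module.finrank K F = p + 1

section Comap

variable {O : ValuationSubring K} {V : ValuationSubring F} {ϖ : K}

/-- `V ∩ K = O` for a valuation ring `V` of `F` over `O` with the same uniformiser. -/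
theorem mem_of_map_mem (hO : IsUnif O ϖ) (hV : IsUnif V (algebraMap K F ϖ))
    (le : ∀ a ∈ O, algebraMap K F a ∈ V) {a : K} (ha : algebraMap K F a ∈ V) : a ∈ O := by
  by_contra hmem
  have ha0 : a ≠ 0 := by rintro rfl; exact hmem (zero_mem _)
  have hinv : a⁻¹ ∈ O := (O.mem_or_inv_mem a).resolve_left hmem
  have h1 : a⁻¹ * ϖ⁻¹ ∈ O := hO.gen a⁻¹ hinv (by rwa [inv_inv])
  have h2 := le _ h1
  apply hV.inv_not_mem
  have : (algebraMap K F ϖ)⁻¹ = algebraMap K F a * algebraMap K F (a⁻¹ * ϖ⁻¹) := by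
    rw [← map_mul, ← map_inv₀]
    congr 1
    field_simp
  rw [this]
  exact mul_mem ha h2

theorem dv_of_map_dv (hO : IsUnif O ϖ) (hV : IsUnif V (algebraMap K F ϖ))
    (le : ∀ a ∈ O, algebraMap K F a ∈ V) {a : K} {n : ℕ}
    (ha : Dv V (algebraMap K F ϖ ^ n) (algebraMap K F a)) : Dv O (ϖ ^ n) a := by
  have hϖ := hO.ne_zero
  rw [Dv.iff_mul_inv (pow_ne_zero _ hV.ne_zero)] at ha
  rw [Dv.iff_mul_inv (pow_ne_zero _ hϖ)]
  apply mem_of_map_mem hO hV le
  rw [map_mul, map_inv₀, map_pow]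
  exact ha

theorem map_dv (le : ∀ a ∈ O, algebraMap K F a ∈ V) {a c : K}
    (ha : Dv O c a) : Dv V (algebraMap K F c) (algebraMap K F a) := by
  obtain ⟨b, hb, rfl⟩ := ha
  exact ⟨algebraMap K F b, le b hb, by rw [map_mul]⟩

end Comap

/-- The adapted family `e, (1 - e) θ ^ i` (`i < p`). -/
def fam (p : ℕ) (e θ : F) : Fin (p + 1) → F :=
  Fin.cons e (fun i : Fin p => (1 - e) * θ ^ (i : ℕ))

@[simp] theorem fam_zero (p : ℕ) (e θ : F) : fam p e θ 0 = e := rfl

@[simp] theorem fam_succ (p : ℕ) (e θ : F) (i : Fin p) :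
    fam p e θ i.succ = (1 - e) * θ ^ (i : ℕ) := by
  simp [fam]

namespace NLSetting

variable {O : ValuationSubring K} {V₁ V₂ : ValuationSubring F} {ϖ : K} {p : ℕ} {θ : F} {g : K}

theorem pi_ne_zero (h : NLSetting O V₁ V₂ ϖ p θ g) : algebraMap K F ϖ ≠ 0 := h.unif₁.ne_zero

/-- An approximate idempotent of order `T`. -/
structure IsIdem (V₁ V₂ : ValuationSubring F) (π : F) (T : ℕ) (e : F) : Prop where
  mem₁ : e ∈ V₁
  mem₂ : e ∈ V₂
  dv₁ : Dv V₁ (π ^ T) (e - 1)
  dv₂ : Dv V₂ (π ^ T) e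

theorem exists_isIdem (h : NLSetting O V₁ V₂ ϖ p θ g) (T : ℕ) :
    ∃ e : F, IsIdem V₁ V₂ (algebraMap K F ϖ) T e := by
  obtain ⟨e, h1, h2, h3, h4⟩ := exists_idem h.unif₁ h.unif₂ h.ne T
  exact ⟨e, h1, h2, h3, h4⟩

section Fam

variable (h : NLSetting O V₁ V₂ ϖ p θ g) {T : ℕ} {e : F}
  (he : IsIdem V₁ V₂ (algebraMap K F ϖ) T e)

include h he

theorem fam_mem₁ (l : Fin (p + 1)) : fam p e θ l ∈ V₁ := by
  refine Fin.cases ?_ (fun i => ?_) l
  · exact he.mem₁
  · rw [fam_succ]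
    exact mul_mem (sub_mem (one_mem _) he.mem₁) (pow_mem h.θ_mem₁ _)

theorem fam_mem₂ (l : Fin (p + 1)) : fam p e θ l ∈ V₂ := by
  refine Fin.cases ?_ (fun i => ?_) l
  · exact he.mem₂
  · rw [fam_succ]
    exact mul_mem (sub_mem (one_mem _) he.mem₂) (pow_mem h.θ_mem₂ _)

set_option linter.unusedSectionVars false in
/-- `(1 - e) ∈ π^T V₁`. -/
theorem one_sub_dv₁ : Dv V₁ (algebraMap K F ϖ ^ T) (1 - e) := by
  have := he.dv₁.neg
  rwa [neg_sub] at this

/-- the members `(1-e) θ^i` are `≡ 0 mod π^T V₁`. -/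
theorem fam_succ_dv₁ (i : Fin p) : Dv V₁ (algebraMap K F ϖ ^ T) (fam p e θ i.succ) := by
  rw [fam_succ]
  exact Dv.mul_right (pow_mem h.θ_mem₁ _) (one_sub_dv₁ h he)

/-- the members `(1-e) θ^i` are `≡ θ^i mod π^T V₂`. -/
theorem fam_succ_dv₂ (i : Fin p) :
    Dv V₂ (algebraMap K F ϖ ^ T) (fam p e θ i.succ - θ ^ (i : ℕ)) := by
  rw [fam_succ]
  have : (1 - e) * θ ^ (i : ℕ) - θ ^ (i : ℕ) = -(e * θ ^ (i : ℕ)) := by ring
  rw [this]
  exact (Dv.mul_right (pow_mem h.θ_mem₂ _) he.dv₂).neg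

/-- A combination of the adapted family, read at `V₁`: it is `≡ a 0`. -/
theorem sum_fam_dv₁ (a : Fin (p + 1) → K) (ha : ∀ l, a l ∈ O) :
    Dv V₁ (algebraMap K F ϖ ^ T)
      ((∑ l, algebraMap K F (a l) * fam p e θ l) - algebraMap K F (a 0)) := by
  rw [Fin.sum_univ_succ, fam_zero]
  have : algebraMap K F (a 0) * e + ∑ i : Fin p, algebraMap K F (a i.succ) * fam p e θ i.succ
      - algebraMap K F (a 0) =
      algebraMap K F (a 0) * (e - 1) +
        ∑ i : Fin p, algebraMap K F (a i.succ) * fam p e θ i.succ := by ring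
  rw [this]
  refine (Dv.mul_left (h.le₁ _ (ha 0)) he.dv₁).add (Dv.sum _ _ fun i _ => ?_)
  exact Dv.mul_left (h.le₁ _ (ha _)) (fam_succ_dv₁ h he i)

/-- A combination of the adapted family, read at `V₂`: it is `≡ ∑ a (i+1) θ^i`. -/
theorem sum_fam_dv₂ (a : Fin (p + 1) → K) (ha : ∀ l, a l ∈ O) :
    Dv V₂ (algebraMap K F ϖ ^ T)
      ((∑ l, algebraMap K F (a l) * fam p e θ l) -
        ∑ i : Fin p, algebraMap K F (a i.succ) * θ ^ (i : ℕ)) := by
  rw [Fin.sum_univ_succ, fam_zero, add_sub_assoc, ← Finset.sum_sub_distrib]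
  refine (Dv.mul_left (h.le₂ _ (ha 0)) he.dv₂).add (Dv.sum _ _ fun i _ => ?_)
  rw [← mul_sub]
  exact Dv.mul_left (h.le₂ _ (ha _)) (fam_succ_dv₂ h he i)

/-- The adapted family is good in the sense of `A2/H48`. -/
theorem fam_isGood (hT : 1 ≤ T) : TwoExt.IsGood O V₁ V₂ ϖ (fam p e θ) := by
  have hπ := h.pi_ne_zero
  refine ⟨fam_mem₁ h he, fam_mem₂ h he, ?_⟩
  intro a ha hS₁ hS₂
  rw [← Dv.iff_mul_inv hπ] at hS₁ hS₂
  have h0 : Dv O ϖ (a 0) := by
    have h1 := Dv.of_pow h.unif₁.mem hT (sum_fam_dv₁ h he a ha)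
    have h2 := hS₁.sub h1
    rw [sub_sub_cancel] at h2
    have h3 : Dv V₁ (algebraMap K F ϖ ^ 1) (algebraMap K F (a 0)) := by rwa [pow_one]
    have := dv_of_map_dv h.unifO h.unif₁ h.le₁ h3
    rwa [pow_one] at this
  have hs : ∀ i : Fin p, Dv O ϖ (a i.succ) := by
    apply h.θ_indep (fun i => a i.succ) (fun i => ha _)
    have h1 := Dv.of_pow h.unif₂.mem hT (sum_fam_dv₂ h he a ha)
    have h2 := hS₂.sub h1
    rwa [sub_sub_cancel] at h2
  intro l
  rw [← Dv.iff_mul_inv h.unifO.ne_zero]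
  refine Fin.cases h0 hs l

theorem fam_linearIndependent (hT : 1 ≤ T) : LinearIndependent K (fam p e θ) :=
  (fam_isGood h he hT).linearIndependent h.unifO

end Fam

/-- The adapted basis. -/
noncomputable def basis (h : NLSetting O V₁ V₂ ϖ p θ g) {T : ℕ} {e : F}
    (he : IsIdem V₁ V₂ (algebraMap K F ϖ) T e) (hT : 1 ≤ T) :
    Module.Basis (Fin (p + 1)) K F :=
  basisOfLinearIndependentOfCardEqFinrank (fam_linearIndependent h he hT)
    (by rw [Fintype.card_fin, h.card])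

section Basis

variable (h : NLSetting O V₁ V₂ ϖ p θ g) {T : ℕ} {e : F}
  (he : IsIdem V₁ V₂ (algebraMap K F ϖ) T e) (hT : 1 ≤ T)

theorem basis_apply (l : Fin (p + 1)) : h.basis he hT l = fam p e θ l := by
  simp [basis]

theorem basis_zero : h.basis he hT 0 = e := by rw [basis_apply, fam_zero]

theorem basis_succ (i : Fin p) : h.basis he hT i.succ = (1 - e) * θ ^ (i : ℕ) := by
  rw [basis_apply, fam_succ]

/-- Coordinates of elements of `V₁ ∩ V₂` are integral. -/
theorem repr_mem {z : F} (hz₁ : z ∈ V₁) (hz₂ : z ∈ V₂) (l : Fin (p + 1)) :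
    (h.basis he hT).repr z l ∈ O :=
  (fam_isGood h he hT).repr_mem h.unifO h.le₁ h.le₂ (h.basis he hT)
    (basis_apply h he hT) hz₁ hz₂ l

/-- Coordinates of elements of `π^n (V₁ ∩ V₂)` are in `ϖ^n O`. -/
theorem repr_dv {z : F} {n : ℕ} (hz₁ : Dv V₁ (algebraMap K F ϖ ^ n) z)
    (hz₂ : Dv V₂ (algebraMap K F ϖ ^ n) z) (l : Fin (p + 1)) :
    Dv O (ϖ ^ n) ((h.basis he hT).repr z l) := by
  have hπ := h.pi_ne_zero
  obtain ⟨y, hy, rfl⟩ := hz₁
  have hy₂ : y ∈ V₂ := by
    obtain ⟨y', hy', hyy⟩ := hz₂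
    have : y = y' := mul_left_cancel₀ (pow_ne_zero n hπ) hyy
    rw [this]; exact hy'
  refine ⟨(h.basis he hT).repr y l, repr_mem h he hT hy hy₂ l, ?_⟩
  have : algebraMap K F ϖ ^ n * y = (ϖ ^ n) • y := by
    rw [Algebra.smul_def, map_pow]
  rw [this, map_smul, Finsupp.smul_apply, smul_eq_mul]

/-- The `0`-th coordinate of `z ∈ V₁ ∩ V₂` is `≡ z mod π V₁`. -/
theorem repr_zero_dv {z : F} (hz₁ : z ∈ V₁) (hz₂ : z ∈ V₂) :
    Dv V₁ (algebraMap K F ϖ) (z - algebraMap K F ((h.basis he hT).repr z 0)) := by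
  set a : Fin (p + 1) → K := fun l => (h.basis he hT).repr z l with ha
  have haO : ∀ l, a l ∈ O := fun l => repr_mem h he hT hz₁ hz₂ l
  have hz : z = ∑ l, algebraMap K F (a l) * fam p e θ l := by
    conv_lhs => rw [← (h.basis he hT).sum_repr z]
    refine Finset.sum_congr rfl fun l _ => ?_
    rw [Algebra.smul_def, basis_apply]
  have := Dv.of_pow h.unif₁.mem hT (sum_fam_dv₁ h he a haO)
  rw [← hz] at this
  exact this

/-- If `z ∈ V₁ ∩ V₂` is `≡ 0 mod π V₁` then its `0`-th coordinate is divisible by `ϖ`. -/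
theorem repr_zero_dv_of_dv {z : F} (hz₁ : Dv V₁ (algebraMap K F ϖ) z) (hz₂ : z ∈ V₂) :
    Dv O ϖ ((h.basis he hT).repr z 0) := by
  have h1 := repr_zero_dv h he hT (Dv.mem_of h.unif₁.mem hz₁) hz₂
  have h2 := hz₁.sub h1
  rw [sub_sub_cancel] at h2
  have h3 : Dv V₁ (algebraMap K F ϖ ^ 1) (algebraMap K F ((h.basis he hT).repr z 0)) := by
    rwa [pow_one]
  have := dv_of_map_dv h.unifO h.unif₁ h.le₁ h3
  rwa [pow_one] at this

end Basis

end NLSetting

end Part2

/-! ## Part 3: NormLocDet -/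

section Part3

open Fermat.Agent.A2.H48 Matrix

variable {K : Type*} [Field K] {ι : Type*} [Fintype ι] [DecidableEq ι]

/-- `det (1 + c • X) = 1 + tr X · c + y · c²` with `y` integral, for `c` and `X` integral. -/
theorem det_one_add_smul_mem (O : ValuationSubring K) {c : K} (hc : c ∈ O)
    (X : Matrix ι ι K) (hX : ∀ i j, X i j ∈ O) :
    ∃ y ∈ O, Matrix.det (1 + c • X) = 1 + X.trace * c + y * c ^ 2 := by
  set X' : Matrix ι ι O := fun i j => ⟨X i j, hX i j⟩ with hX'
  set c' : O := ⟨c, hc⟩ with hc'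
  have key := Matrix.det_one_add_smul c' X'
  set y' : O := (Polynomial.eval c'
    (Matrix.det (1 + (Polynomial.X : Polynomial O) • X'.map Polynomial.C)).divX.divX) with hy'
  have hmap : (O.subtype).mapMatrix (1 + c' • X') = 1 + c • X := by
    ext i j
    simp only [RingHom.mapMatrix_apply, Matrix.map_apply, Matrix.add_apply, Matrix.smul_apply,
      Matrix.one_apply, _root_.map_add]
    congr 1
    split_ifs <;> simp
  have htr : (O.subtype) (X'.trace) = X.trace := by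
    simp only [Matrix.trace, map_sum, Matrix.diag_apply]
    rfl
  refine ⟨(y' : K), y'.2, ?_⟩
  have h2 := congrArg (O.subtype) key
  rw [RingHom.map_det, hmap] at h2
  rw [h2, _root_.map_add, _root_.map_add, _root_.map_mul, _root_.map_mul, _root_.map_pow, _root_.map_one, htr]
  rfl

/-- `det (1 + c • X) ∈ 1 + c O`. -/
theorem det_one_add_smul_dv (O : ValuationSubring K) {c : K} (hc : c ∈ O)
    (X : Matrix ι ι K) (hX : ∀ i j, X i j ∈ O) :
    Dv O c (Matrix.det (1 + c • X) - 1) := by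
  obtain ⟨y, hy, h⟩ := det_one_add_smul_mem O hc X hX
  have htr : X.trace ∈ O := sum_mem fun i _ => hX i i
  refine ⟨X.trace + y * c, add_mem htr (mul_mem hy hc), ?_⟩
  rw [h]; ring

/-- `det (1 + ϖ^s • X) ∈ 1 + ϖ^(s+1) O` if `tr X ∈ ϖ O` and `s ≥ 1`. -/
theorem det_one_add_smul_dv_succ (O : ValuationSubring K) {ϖ : K} (hϖ : ϖ ∈ O) {s : ℕ}
    (hs : 1 ≤ s) (X : Matrix ι ι K) (hX : ∀ i j, X i j ∈ O) (htr : Dv O ϖ X.trace) :
    Dv O (ϖ ^ (s + 1)) (Matrix.det (1 + ϖ ^ s • X) - 1) := by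
  obtain ⟨y, hy, h⟩ := det_one_add_smul_mem O (pow_mem hϖ s) X hX
  obtain ⟨t, ht, htt⟩ := htr
  obtain ⟨k, rfl⟩ := Nat.exists_eq_add_of_le hs
  refine ⟨t + y * ϖ ^ k, add_mem ht (mul_mem hy (pow_mem hϖ _)), ?_⟩
  rw [h, htt]; ring

end Part3

/-! ## Part 4: NormLocTrace -/

section Part4

open Fermat.Agent.A2.H48 Matrix

variable {K F : Type*} [Field K] [Field F] [Algebra K F]
variable {O : ValuationSubring K} {V₁ V₂ : ValuationSubring F} {ϖ : K} {p : ℕ} {θ : F} {g : K}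

namespace NLSetting

section

variable (h : NLSetting O V₁ V₂ ϖ p θ g) {T : ℕ} {e : F}
  (he : IsIdem V₁ V₂ (algebraMap K F ϖ) T e) (hT : 1 ≤ T)

include h he hT

theorem basis_mem₁ (l : Fin (p + 1)) : h.basis he hT l ∈ V₁ := by
  rw [basis_apply]; exact fam_mem₁ h he l

theorem basis_mem₂ (l : Fin (p + 1)) : h.basis he hT l ∈ V₂ := by
  rw [basis_apply]; exact fam_mem₂ h he l

/-- Entries of the multiplication matrix of an integral element are integral. -/
theorem leftMulMatrix_mem {z : F} (hz₁ : z ∈ V₁) (hz₂ : z ∈ V₂) (i j : Fin (p + 1)) :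
    Algebra.leftMulMatrix (h.basis he hT) z i j ∈ O := by
  rw [Algebra.leftMulMatrix_eq_repr_mul]
  exact repr_mem h he hT (mul_mem hz₁ (basis_mem₁ h he hT j))
    (mul_mem hz₂ (basis_mem₂ h he hT j)) i

/-- `1 - e ∈ π V₁`. -/
theorem one_sub_dv_pi : Dv V₁ (algebraMap K F ϖ) (1 - e) :=
  Dv.of_pow h.unif₁.mem hT (one_sub_dv₁ h he)

/-- `e ∈ π V₂`. -/
theorem e_dv_pi : Dv V₂ (algebraMap K F ϖ) e :=
  Dv.of_pow h.unif₂.mem hT he.dv₂

/-- Coordinates of an element of `π (V₁ ∩ V₂)`. -/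
theorem repr_dv_one {z : F} (hz₁ : Dv V₁ (algebraMap K F ϖ) z)
    (hz₂ : Dv V₂ (algebraMap K F ϖ) z) (l : Fin (p + 1)) :
    Dv O ϖ ((h.basis he hT).repr z l) := by
  have h1 : Dv V₁ (algebraMap K F ϖ ^ 1) z := by rwa [pow_one]
  have h2 : Dv V₂ (algebraMap K F ϖ ^ 1) z := by rwa [pow_one]
  have := repr_dv h he hT h1 h2 l
  rwa [pow_one] at this

/-- Products of the `V₂`-part of the basis, case `i + k < p`. -/
theorem mul_basis_lt (i k : Fin p) (hn : (i : ℕ) + (k : ℕ) < p) (l : Fin (p + 1)) :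
    Dv O ϖ ((h.basis he hT).repr (h.basis he hT i.succ * h.basis he hT k.succ) l -
      (h.basis he hT).repr (h.basis he hT (Fin.succ ⟨(i : ℕ) + (k : ℕ), hn⟩)) l) := by
  rw [← Finsupp.sub_apply, ← _root_.map_sub]
  have hid : h.basis he hT i.succ * h.basis he hT k.succ -
      h.basis he hT (Fin.succ ⟨(i : ℕ) + (k : ℕ), hn⟩) =
      -(e * ((1 - e) * θ ^ ((i : ℕ) + (k : ℕ)))) := by
    rw [basis_succ, basis_succ, basis_succ]
    simp only
    ring
  rw [hid]
  apply repr_dv_one h he hT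
  · refine Dv.neg (Dv.mul_left he.mem₁ ?_)
    exact Dv.mul_right (pow_mem h.θ_mem₁ _) (one_sub_dv_pi h he hT)
  · refine Dv.neg ?_
    exact Dv.mul_right (mul_mem (sub_mem (one_mem _) he.mem₂) (pow_mem h.θ_mem₂ _))
      (e_dv_pi h he hT)

/-- Products of the `V₂`-part of the basis, case `i + k = p + m`. -/
theorem mul_basis_ge (i k m : Fin p) (hn : (i : ℕ) + (k : ℕ) = p + (m : ℕ))
    (l : Fin (p + 1)) :
    Dv O ϖ ((h.basis he hT).repr (h.basis he hT i.succ * h.basis he hT k.succ) l -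
      g * (h.basis he hT).repr (h.basis he hT m.succ) l) := by
  have hg : g * (h.basis he hT).repr (h.basis he hT m.succ) l =
      (h.basis he hT).repr (algebraMap K F g * h.basis he hT m.succ) l := by
    rw [← Algebra.smul_def, _root_.map_smul, Finsupp.smul_apply, smul_eq_mul]
  rw [hg, ← Finsupp.sub_apply, ← _root_.map_sub]
  have hpow : θ ^ (i : ℕ) * θ ^ (k : ℕ) = θ ^ p * θ ^ (m : ℕ) := by
    rw [← pow_add, ← pow_add, hn]
  have hid : h.basis he hT i.succ * h.basis he hT k.succ -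
      algebraMap K F g * h.basis he hT m.succ =
      (1 - e) * θ ^ (m : ℕ) * ((θ ^ p - algebraMap K F g) - e * θ ^ p) := by
    rw [basis_succ, basis_succ, basis_succ]
    linear_combination (1 - e) ^ 2 * hpow
  rw [hid]
  apply repr_dv_one h he hT
  · refine Dv.mul_right ?_ (Dv.mul_right (pow_mem h.θ_mem₁ _) (one_sub_dv_pi h he hT))
    exact sub_mem (sub_mem (pow_mem h.θ_mem₁ _) (h.le₁ _ h.g_mem))
      (mul_mem he.mem₁ (pow_mem h.θ_mem₁ _))
  · refine Dv.mul_left (mul_mem (sub_mem (one_mem _) he.mem₂) (pow_mem h.θ_mem₂ _)) ?_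
    exact h.θ_pow.sub (Dv.mul_right (pow_mem h.θ_mem₂ _) (e_dv_pi h he hT))

/-- Diagonal entries of the multiplication matrix of `(1 - e) θ^i` on the `V₂`-block. -/
theorem diag_basis_succ (i k : Fin p) :
    Dv O ϖ (Algebra.leftMulMatrix (h.basis he hT) (h.basis he hT i.succ) k.succ k.succ -
      (if (i : ℕ) = 0 then 1 else 0)) := by
  rw [Algebra.leftMulMatrix_eq_repr_mul]
  by_cases hn : (i : ℕ) + (k : ℕ) < p
  · have h1 := mul_basis_lt h he hT i k hn k.succ
    rw [Module.Basis.repr_self, Finsupp.single_apply] at h1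
    have hiff : (Fin.succ ⟨(i : ℕ) + (k : ℕ), hn⟩ = k.succ) ↔ (i : ℕ) = 0 := by
      rw [Fin.succ_inj, Fin.ext_iff]
      simp
    by_cases hi : (i : ℕ) = 0
    · rw [if_pos (hiff.2 hi)] at h1
      rw [if_pos hi]; exact h1
    · rw [if_neg (fun hh => hi (hiff.1 hh))] at h1
      rw [if_neg hi]; exact h1
  · have hi0 : (i : ℕ) ≠ 0 := by
      intro hi
      have := k.2
      omega
    have hm : (i : ℕ) + (k : ℕ) - p < p := by
      have := i.2
      have := k.2
      omega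
    have h1 := mul_basis_ge h he hT i k ⟨(i : ℕ) + (k : ℕ) - p, hm⟩ (by simp only; omega) k.succ
    rw [Module.Basis.repr_self, Finsupp.single_apply] at h1
    have hne : ¬ (Fin.succ ⟨(i : ℕ) + (k : ℕ) - p, hm⟩ = k.succ) := by
      rw [Fin.succ_inj, Fin.ext_iff]
      simp only
      have := i.2
      omega
    rw [if_neg hne, _root_.MulZeroClass.mul_zero] at h1
    rw [if_neg hi0]; exact h1

/-- `Tr ((1 - e) θ^i) ∈ ϖ O`. -/
theorem trace_basis_succ_dv (i : Fin p) :
    Dv O ϖ (Algebra.leftMulMatrix (h.basis he hT) (h.basis he hT i.succ)).trace := by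
  rw [Matrix.trace, Fin.sum_univ_succ]
  simp only [Matrix.diag_apply]
  refine Dv.add ?_ ?_
  · rw [Algebra.leftMulMatrix_eq_repr_mul]
    apply repr_dv_one h he hT
    · rw [basis_succ, basis_zero]
      exact Dv.mul_right he.mem₁
        (Dv.mul_right (pow_mem h.θ_mem₁ _) (one_sub_dv_pi h he hT))
    · rw [basis_succ, basis_zero]
      exact Dv.mul_left (mul_mem (sub_mem (one_mem _) he.mem₂) (pow_mem h.θ_mem₂ _))
        (e_dv_pi h he hT)
  · have hsplit : ∑ k : Fin p,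
        Algebra.leftMulMatrix (h.basis he hT) (h.basis he hT i.succ) k.succ k.succ =
        (∑ k : Fin p,
          (Algebra.leftMulMatrix (h.basis he hT) (h.basis he hT i.succ) k.succ k.succ -
            (if (i : ℕ) = 0 then 1 else 0))) + (p : K) * (if (i : ℕ) = 0 then 1 else 0) := by
      rw [Finset.sum_sub_distrib, Finset.sum_const, Finset.card_univ, Fintype.card_fin,
        nsmul_eq_mul]
      ring
    rw [hsplit]
    refine Dv.add (Dv.sum _ _ fun k _ => diag_basis_succ h he hT i k) ?_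
    refine Dv.mul_right ?_ h.char_p
    split_ifs
    · exact one_mem _
    · exact zero_mem _

/-- **Trace lemma.**  `η ∈ V₂`, `η ∈ π V₁`  ⟹  the trace of the multiplication matrix of `η` is
divisible by `ϖ`. -/
theorem trace_dv {η : F} (hη₁ : Dv V₁ (algebraMap K F ϖ) η) (hη₂ : η ∈ V₂) :
    Dv O ϖ (Algebra.leftMulMatrix (h.basis he hT) η).trace := by
  have hη₁' : η ∈ V₁ := Dv.mem_of h.unif₁.mem hη₁
  have hη : η = ∑ l, (h.basis he hT).repr η l • h.basis he hT l :=
    ((h.basis he hT).sum_repr η).symm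
  have hX : Algebra.leftMulMatrix (h.basis he hT) η =
      ∑ l, (h.basis he hT).repr η l • Algebra.leftMulMatrix (h.basis he hT) (h.basis he hT l) := by
    conv_lhs => rw [hη]
    rw [map_sum]
    refine Finset.sum_congr rfl fun l _ => ?_
    rw [_root_.map_smul]
  rw [hX, Matrix.trace_sum]
  refine Dv.sum _ _ fun l _ => ?_
  rw [Matrix.trace_smul, smul_eq_mul]
  refine Fin.cases ?_ (fun i => ?_) l
  · -- l = 0
    refine Dv.mul_right ?_ (repr_zero_dv_of_dv h he hT hη₁ hη₂)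
    exact sum_mem fun j _ => leftMulMatrix_mem h he hT (basis_mem₁ h he hT 0)
      (basis_mem₂ h he hT 0) j j
  · exact Dv.mul_left (repr_mem h he hT hη₁' hη₂ _) (trace_basis_succ_dv h he hT i)

end

end NLSetting

end Part4

/-! ## Part 5: NormLoc -/

section Part5

open Fermat.Agent.A2.H48 Matrix

variable {K F : Type*} [Field K] [Field F] [Algebra K F]
variable {O : ValuationSubring K} {V₁ V₂ : ValuationSubring F} {ϖ : K} {p : ℕ} {θ : F} {g : K}

namespace NLSetting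

/-- **Contraction.**  `u ∈ 1 + π^(s+1) V₁`, `u ∈ 1 + π^s V₂`, `s ≥ 1` ⟹ `N(u) ∈ 1 + ϖ^(s+1) O`. -/
theorem norm_sub_one_dv (h : NLSetting O V₁ V₂ ϖ p θ g) {s : ℕ} (hs : 1 ≤ s) {u : F}
    (hu₁ : Dv V₁ (algebraMap K F ϖ ^ (s + 1)) (u - 1))
    (hu₂ : Dv V₂ (algebraMap K F ϖ ^ s) (u - 1)) :
    Dv O (ϖ ^ (s + 1)) (Algebra.norm K u - 1) := by
  obtain ⟨e, he⟩ := h.exists_isIdem 1
  have hT : 1 ≤ 1 := le_rfl
  obtain ⟨η, hη₂, hη⟩ := hu₂
  obtain ⟨η₁, hη₁, hη'⟩ := hu₁
  have hπ := h.pi_ne_zero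
  have hηη : η = algebraMap K F ϖ * η₁ := by
    have : algebraMap K F ϖ ^ s * η = algebraMap K F ϖ ^ s * (algebraMap K F ϖ * η₁) := by
      rw [← hη, hη', pow_succ]; ring
    exact mul_left_cancel₀ (pow_ne_zero s hπ) this
  have hdv : Dv V₁ (algebraMap K F ϖ) η := ⟨η₁, hη₁, hηη⟩
  have hu : u = 1 + (ϖ ^ s) • η := by
    rw [Algebra.smul_def, _root_.map_pow, ← hη]; ring
  rw [Algebra.norm_eq_matrix_det (h.basis he hT), hu, _root_.map_add, _root_.map_one, _root_.map_smul]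
  exact det_one_add_smul_dv_succ O h.unifO.mem hs _
    (fun i j => leftMulMatrix_mem h he hT (Dv.mem_of h.unif₁.mem hdv) hη₂ i j)
    (trace_dv h he hT hdv hη₂)

/-- Auxiliary: if `x ≡ 1 mod π^m V` and `ϖ^n · t ∈ O` then `π^n (t x - 1) ∈ V`. -/
theorem aux_scale {V : ValuationSubring F} (hV : IsUnif V (algebraMap K F ϖ))
    (le : ∀ a ∈ O, algebraMap K F a ∈ V) {m n : ℕ} {x : F} {t : K}
    (hx : Dv V (algebraMap K F ϖ ^ m) (x - 1)) (ht : ϖ ^ n * t ∈ O) :
    algebraMap K F ϖ ^ n * (algebraMap K F t * x - 1) ∈ V := by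
  have hxV : x ∈ V := by
    have := Dv.mem_of (pow_mem hV.mem m) hx
    have h2 : x = (x - 1) + 1 := by ring
    rw [h2]; exact add_mem this (one_mem _)
  have h1 : algebraMap K F ϖ ^ n * algebraMap K F t ∈ V := by
    have := le _ ht
    rwa [_root_.map_mul, _root_.map_pow] at this
  have : algebraMap K F ϖ ^ n * (algebraMap K F t * x - 1) =
      algebraMap K F ϖ ^ n * algebraMap K F t * x - algebraMap K F ϖ ^ n := by ring
  rw [this]
  exact sub_mem (mul_mem h1 hxV) (pow_mem hV.mem n)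

/-- **Locally constant elements.**  `r/ρ₁ ∈ 1 + π^m V₁`, `r/ρ₂ ∈ 1 + π^m V₂`
⟹ `N(r)/(ρ₁ ρ₂^p) ∈ 1 + ϖ^m O`. -/
theorem norm_locconst_dv (h : NLSetting O V₁ V₂ ϖ p θ g) {m : ℕ} {r : F} {ρ₁ ρ₂ : K}
    (hρ₁ : ρ₁ ≠ 0) (hρ₂ : ρ₂ ≠ 0)
    (hr₁ : Dv V₁ (algebraMap K F ϖ ^ m) (r * (algebraMap K F ρ₁)⁻¹ - 1))
    (hr₂ : Dv V₂ (algebraMap K F ϖ ^ m) (r * (algebraMap K F ρ₂)⁻¹ - 1)) :
    Dv O (ϖ ^ m) (Algebra.norm K r * (ρ₁ * ρ₂ ^ p)⁻¹ - 1) := by
  classical
  have hπ := h.pi_ne_zero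
  have hϖ := h.unifO.ne_zero
  obtain ⟨n₁, hn₁⟩ := h.arch (ρ₂ * ρ₁⁻¹)
  obtain ⟨n₂, hn₂⟩ := h.arch (ρ₁ * ρ₂⁻¹)
  set T := m + n₁ + n₂ + 1 with hTdef
  have hT : 1 ≤ T := by omega
  obtain ⟨e, he⟩ := h.exists_isIdem T
  set B := h.basis he hT with hB
  set π := algebraMap K F ϖ with hπdef
  have hR₁ : algebraMap K F ρ₁ ≠ 0 := by
    rw [Ne, map_eq_zero]; exact hρ₁
  have hR₂ : algebraMap K F ρ₂ ≠ 0 := by
    rw [Ne, map_eq_zero]; exact hρ₂
  -- the scaling vector
  set d : Fin (p + 1) → K := Fin.cons ρ₁ (fun _ => ρ₂) with hd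
  have hd0 : d 0 = ρ₁ := rfl
  have hds : ∀ i : Fin p, d i.succ = ρ₂ := fun i => by simp [d]
  have hdne : ∀ j, d j ≠ 0 := by
    intro j
    refine Fin.cases ?_ (fun i => ?_) j
    · rw [hd0]; exact hρ₁
    · rw [hds]; exact hρ₂
  -- the integral elements
  set z : Fin (p + 1) → F := fun j => (r * (algebraMap K F (d j))⁻¹ - 1) * B j * (π ^ m)⁻¹
    with hz
  have hz₁ : ∀ j, z j ∈ V₁ := by
    intro j
    refine Fin.cases ?_ (fun i => ?_) j
    · -- j = 0
      obtain ⟨y, hy, hyy⟩ := hr₁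
      have : z 0 = y * e := by
        simp only [hz, hd0, hB, basis_zero]
        rw [hyy]; field_simp
      rw [this]; exact mul_mem hy he.mem₁
    · -- j = i.succ: use the idempotent
      obtain ⟨e'', he'', hee⟩ := one_sub_dv₁ h he
      have hx : r * (algebraMap K F ρ₂)⁻¹ =
          algebraMap K F (ρ₁ * ρ₂⁻¹) * (r * (algebraMap K F ρ₁)⁻¹) := by
        rw [_root_.map_mul, map_inv₀]; field_simp
      have h1 := aux_scale (n := n₂) h.unif₁ h.le₁ hr₁ hn₂
      rw [← hx] at h1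
      have : z i.succ = (π ^ n₂ * (r * (algebraMap K F ρ₂)⁻¹ - 1)) *
          (π ^ (n₁ + 1) * (e'' * θ ^ (i : ℕ))) := by
        simp only [hz, hds, hB, basis_succ]
        rw [hee, hTdef]
        field_simp
        ring
      rw [this]
      exact mul_mem h1 (mul_mem (pow_mem h.unif₁.mem _) (mul_mem he'' (pow_mem h.θ_mem₁ _)))
  have hz₂ : ∀ j, z j ∈ V₂ := by
    intro j
    refine Fin.cases ?_ (fun i => ?_) j
    · obtain ⟨e', he', hee⟩ := he.dv₂
      have hx : r * (algebraMap K F ρ₁)⁻¹ =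
          algebraMap K F (ρ₂ * ρ₁⁻¹) * (r * (algebraMap K F ρ₂)⁻¹) := by
        rw [_root_.map_mul, map_inv₀]; field_simp
      have h1 := aux_scale (n := n₁) h.unif₂ h.le₂ hr₂ hn₁
      rw [← hx] at h1
      have : z 0 = (π ^ n₁ * (r * (algebraMap K F ρ₁)⁻¹ - 1)) * (π ^ (n₂ + 1) * e') := by
        simp only [hz, hd0, hB, basis_zero]
        rw [hee, hTdef]
        field_simp
        ring
      rw [this]
      exact mul_mem h1 (mul_mem (pow_mem h.unif₂.mem _) he')
    · obtain ⟨y, hy, hyy⟩ := hr₂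
      have : z i.succ = y * ((1 - e) * θ ^ (i : ℕ)) := by
        simp only [hz, hds, hB, basis_succ]
        rw [hyy]; field_simp
      rw [this]
      exact mul_mem hy (mul_mem (sub_mem (one_mem _) he.mem₂) (pow_mem h.θ_mem₂ _))
  -- the matrix identity
  set X : Matrix (Fin (p + 1)) (Fin (p + 1)) K := fun i j => B.repr (z j) i with hX
  have hXmem : ∀ i j, X i j ∈ O := fun i j => repr_mem h he hT (hz₁ j) (hz₂ j) i
  have hmat : Algebra.leftMulMatrix B r = (1 + ϖ ^ m • X) * Matrix.diagonal d := by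
    ext i j
    rw [Algebra.leftMulMatrix_eq_repr_mul, Matrix.mul_diagonal, Matrix.add_apply,
      Matrix.smul_apply, smul_eq_mul]
    have hrB : r * B j = (d j) • B j + (d j * ϖ ^ m) • z j := by
      simp only [hz, Algebra.smul_def, _root_.map_mul, _root_.map_pow]
      have := hdne j
      have hdj : algebraMap K F (d j) ≠ 0 := by rw [Ne, map_eq_zero]; exact this
      field_simp
      ring
    rw [hrB, _root_.map_add, _root_.map_smul, _root_.map_smul, Module.Basis.repr_self, Finsupp.add_apply,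
      Finsupp.smul_apply, Finsupp.smul_apply, Finsupp.single_apply, Matrix.one_apply,
      smul_eq_mul, smul_eq_mul]
    by_cases hij : i = j
    · subst hij; simp only [if_true]; ring
    · rw [if_neg hij, if_neg (fun hh => hij hh.symm)]; ring
  have hprod : ∏ j, d j = ρ₁ * ρ₂ ^ p := by
    rw [Fin.prod_univ_succ, hd0]
    simp only [hds, Finset.prod_const, Finset.card_univ, Fintype.card_fin]
  have hne : ρ₁ * ρ₂ ^ p ≠ 0 := mul_ne_zero hρ₁ (pow_ne_zero _ hρ₂)
  rw [Algebra.norm_eq_matrix_det B, hmat, Matrix.det_mul, Matrix.det_diagonal, hprod,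
    _root_.mul_assoc, mul_inv_cancel₀ hne, _root_.mul_one]
  exact det_one_add_smul_dv O (pow_mem h.unifO.mem m) X hXmem

/-- **NORM-LOC.**  `u/v ∈ 1 + π^(s+1) V₁`, `u/c ∈ 1 + π^s V₂`, `s ≥ 1`, `v, c ∈ Kˣ`
⟹ `N(u)/(v c^p) ∈ 1 + ϖ^(s+1) O`. -/
theorem norm_loc (h : NLSetting O V₁ V₂ ϖ p θ g) {s : ℕ} (hs : 1 ≤ s) {u : F} {c v : K}
    (hc : c ≠ 0) (hv : v ≠ 0)
    (hu₁ : Dv V₁ (algebraMap K F ϖ ^ (s + 1)) (u * (algebraMap K F v)⁻¹ - 1))
    (hu₂ : Dv V₂ (algebraMap K F ϖ ^ s) (u * (algebraMap K F c)⁻¹ - 1)) :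
    Dv O (ϖ ^ (s + 1)) (Algebra.norm K u * (v * c ^ p)⁻¹ - 1) := by
  have hπ := h.pi_ne_zero
  obtain ⟨n, hn⟩ := h.arch (c * v⁻¹)
  obtain ⟨n', hn'⟩ := h.arch (v * c⁻¹)
  set T := s + 1 + n + n' with hTdef
  obtain ⟨e, he⟩ := h.exists_isIdem T
  set π := algebraMap K F ϖ with hπdef
  have hC : algebraMap K F c ≠ 0 := by rw [Ne, map_eq_zero]; exact hc
  have hV : algebraMap K F v ≠ 0 := by rw [Ne, map_eq_zero]; exact hv
  set r : F := algebraMap K F v * e + algebraMap K F c * (1 - e) with hr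
  -- r ≈ (v, c) to order s + 1
  have hr₁ : Dv V₁ (π ^ (s + 1)) (r * (algebraMap K F v)⁻¹ - 1) := by
    obtain ⟨e'', he'', hee⟩ := one_sub_dv₁ h he
    have h1 : π ^ n * (algebraMap K F (c * v⁻¹) * 1 - 1) ∈ V₁ :=
      aux_scale (m := 0) (x := 1) h.unif₁ h.le₁ (by simpa using Dv.zero) hn
    refine ⟨(π ^ n * (algebraMap K F (c * v⁻¹) * 1 - 1)) * (π ^ n' * e''),
      mul_mem h1 (mul_mem (pow_mem h.unif₁.mem _) he''), ?_⟩
    have : r * (algebraMap K F v)⁻¹ - 1 = (1 - e) * (algebraMap K F (c * v⁻¹) * 1 - 1) := by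
      rw [hr, _root_.map_mul, map_inv₀]; field_simp; ring
    rw [this, hee, hTdef]
    ring
  have hr₂ : Dv V₂ (π ^ (s + 1)) (r * (algebraMap K F c)⁻¹ - 1) := by
    obtain ⟨e', he', hee⟩ := he.dv₂
    have h1 : π ^ n' * (algebraMap K F (v * c⁻¹) * 1 - 1) ∈ V₂ :=
      aux_scale (m := 0) (x := 1) h.unif₂ h.le₂ (by simpa using Dv.zero) hn'
    refine ⟨(π ^ n' * (algebraMap K F (v * c⁻¹) * 1 - 1)) * (π ^ n * e'),
      mul_mem h1 (mul_mem (pow_mem h.unif₂.mem _) he'), ?_⟩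
    have : r * (algebraMap K F c)⁻¹ - 1 = e * (algebraMap K F (v * c⁻¹) * 1 - 1) := by
      rw [hr, _root_.map_mul, map_inv₀]; field_simp; ring
    rw [this, hee, hTdef]
    ring
  have hN := norm_locconst_dv h hv hc hr₁ hr₂
  -- r ≠ 0
  have hr0 : r ≠ 0 := by
    have h1 : Dv V₁ π (r * (algebraMap K F v)⁻¹ - 1) :=
      Dv.of_pow h.unif₁.mem (by omega) hr₁
    have := ne_zero_of_dv_sub_one h.unif₁ h1
    exact left_ne_zero_of_mul this
  -- u' = u / r
  have hu'₁ : Dv V₁ (π ^ (s + 1)) (u * r⁻¹ - 1) := by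
    have h1 := dv_inv_sub_one h.unif₁ (n := s + 1) (by omega) hr₁
    have h2 := dv_mul_sub_one h.unif₁ hu₁ h1
    have : u * (algebraMap K F v)⁻¹ * (r * (algebraMap K F v)⁻¹)⁻¹ = u * r⁻¹ := by
      field_simp
    rwa [this] at h2
  have hu'₂ : Dv V₂ (π ^ s) (u * r⁻¹ - 1) := by
    have h1 := dv_inv_sub_one h.unif₂ (n := s + 1) (by omega) hr₂
    have h1' := Dv.pow_mono h.unif₂.mem (Nat.le_succ s) h1
    have h2 := dv_mul_sub_one h.unif₂ hu₂ h1'
    have : u * (algebraMap K F c)⁻¹ * (r * (algebraMap K F c)⁻¹)⁻¹ = u * r⁻¹ := by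
      field_simp
    rwa [this] at h2
  have hN' := norm_sub_one_dv h hs hu'₁ hu'₂
  have hmul := dv_mul_sub_one h.unifO hN' hN
  have hu : u = u * r⁻¹ * r := by field_simp
  have : Algebra.norm K (u * r⁻¹) * (Algebra.norm K r * (v * c ^ p)⁻¹) =
      Algebra.norm K u * (v * c ^ p)⁻¹ := by
    rw [← _root_.mul_assoc, ← _root_.map_mul, ← hu]
  rwa [this] at hmul

end NLSetting

end Part5

/-! ## Part 6: NormLocApprox -/

section Part6

open Fermat.Agent.A2.H48

variable {K F : Type*} [Field K] [Field F] [Algebra K F]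
variable {O : ValuationSubring K} {V₁ V₂ : ValuationSubring F} {ϖ : K} {p : ℕ} {θ : F} {g : K}

namespace NLSetting

theorem finiteDimensional (h : NLSetting O V₁ V₂ ϖ p θ g) : FiniteDimensional K F :=
  Module.finite_of_finrank_pos (by rw [h.card]; omega)

/-- Residue degree one at `V₁`. -/
theorem exists_res (h : NLSetting O V₁ V₂ ϖ p θ g) {f : F} (hf : f ∈ V₁) :
    ∃ a ∈ O, Dv V₁ (algebraMap K F ϖ) (f - algebraMap K F a) := by
  have := h.finiteDimensional
  have hπ := h.pi_ne_zero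
  obtain ⟨e, he⟩ := h.exists_isIdem 1
  have hT : 1 ≤ 1 := le_rfl
  obtain ⟨k, hk⟩ := exists_pow_mul_mem h.unifO.mem h.arch V₂ h.le₂
    (Algebra.IsIntegral.isIntegral (R := K) f)
  obtain ⟨f', hf'1, hf'2, hf'3⟩ := exists_approx h.unif₁ h.unif₂ h.ne hf hk
  have hf'V₂ : f' ∈ V₂ := Dv.mem_of h.unif₂.mem ((Dv.iff_mul_inv hπ).2 hf'3)
  refine ⟨(h.basis he hT).repr f' 0, repr_mem h he hT hf'1 hf'V₂ 0, ?_⟩
  have h1 := repr_zero_dv h he hT hf'1 hf'V₂
  have h2 : Dv V₁ (algebraMap K F ϖ) (f' - f) := (Dv.iff_mul_inv hπ).2 hf'2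
  have : f - algebraMap K F ((h.basis he hT).repr f' 0) =
      (f' - algebraMap K F ((h.basis he hT).repr f' 0)) - (f' - f) := by ring
  rw [this]
  exact h1.sub h2

/-- Additive approximation to any order at `V₁`. -/
theorem exists_approx_add (h : NLSetting O V₁ V₂ ϖ p θ g) (s : ℕ) {f : F} (hf : f ∈ V₁) :
    ∃ a ∈ O, Dv V₁ (algebraMap K F ϖ ^ s) (f - algebraMap K F a) := by
  induction s with
  | zero =>
    refine ⟨0, zero_mem _, ?_⟩
    rw [pow_zero, map_zero, sub_zero]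
    exact Dv.of_mem hf
  | succ s ih =>
    obtain ⟨a, ha, y, hy, hya⟩ := ih
    obtain ⟨b, hb, z, hz, hzb⟩ := h.exists_res hy
    refine ⟨a + ϖ ^ s * b, add_mem ha (mul_mem (pow_mem h.unifO.mem _) hb), z, hz, ?_⟩
    rw [map_add, map_mul, map_pow, pow_succ]
    have : f - (algebraMap K F a + algebraMap K F ϖ ^ s * algebraMap K F b) =
        (f - algebraMap K F a) - algebraMap K F ϖ ^ s * algebraMap K F b := by ring
    rw [this, hya]
    have hy' : y = algebraMap K F b + algebraMap K F ϖ * z := by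
      rw [← hzb]; ring
    rw [hy']; ring

/-- Every nonzero element of `V₁` is a power of the uniformiser times a unit. -/
theorem exists_pow_unit (h : NLSetting O V₁ V₂ ϖ p θ g) {u : F} (hu : u ≠ 0) (huV : u ∈ V₁) :
    ∃ (k : ℕ) (w : F), w ∈ V₁ ∧ w⁻¹ ∈ V₁ ∧ u = algebraMap K F ϖ ^ k * w := by
  classical
  have := h.finiteDimensional
  have hπ := h.pi_ne_zero
  have hex : ∃ k : ℕ, algebraMap K F ϖ ^ k * u⁻¹ ∈ V₁ :=
    exists_pow_mul_mem h.unifO.mem h.arch V₁ h.le₁ (Algebra.IsIntegral.isIntegral (R := K) u⁻¹)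
  set k := Nat.find hex with hk
  have hk1 : algebraMap K F ϖ ^ k * u⁻¹ ∈ V₁ := Nat.find_spec hex
  refine ⟨k, (algebraMap K F ϖ ^ k * u⁻¹)⁻¹, ?_, ?_, ?_⟩
  · -- the inverse is integral: else `π^k u⁻¹ ∈ π V₁`
    by_contra hcon
    have h2 := h.unif₁.gen _ hk1 hcon
    rcases Nat.eq_zero_or_pos k with h0 | hpos
    · -- k = 0: u⁻¹ ∈ V₁ and u ∈ V₁
      apply hcon
      rw [h0, pow_zero, one_mul, inv_inv]
      exact huV
    · have hlt : k - 1 < k := by omega
      apply Nat.find_min hex hlt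
      have : algebraMap K F ϖ ^ (k - 1) * u⁻¹ =
          algebraMap K F ϖ ^ k * u⁻¹ * (algebraMap K F ϖ)⁻¹ := by
        obtain ⟨j, hj⟩ : ∃ j, k = j + 1 := ⟨k - 1, by omega⟩
        rw [hj, Nat.add_sub_cancel, pow_succ]
        field_simp
      rw [this]
      exact h2
  · rw [inv_inv]; exact hk1
  · field_simp

/-- Multiplicative approximation to any order at `V₁` by elements of `Kˣ`. -/
theorem exists_approx_mul (h : NLSetting O V₁ V₂ ϖ p θ g) (s : ℕ) {u : F} (hu : u ≠ 0) :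
    ∃ v : K, v ≠ 0 ∧ Dv V₁ (algebraMap K F ϖ ^ s) (u * (algebraMap K F v)⁻¹ - 1) := by
  have hπ := h.pi_ne_zero
  have hϖ := h.unifO.ne_zero
  -- the case of a unit
  have hunit : ∀ w : F, w ∈ V₁ → w⁻¹ ∈ V₁ → w ≠ 0 →
      ∃ a : K, a ≠ 0 ∧ Dv V₁ (algebraMap K F ϖ ^ (s + 1)) (w * (algebraMap K F a)⁻¹ - 1) := by
    intro w hw hwinv hw0
    obtain ⟨a, ha, y, hy, hya⟩ := h.exists_approx_add (s + 1) hw
    have hay : algebraMap K F a = w * (1 - algebraMap K F ϖ ^ (s + 1) * (y * w⁻¹)) := by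
      field_simp
      rw [← hya]; ring
    have hdv : Dv V₁ (algebraMap K F ϖ ^ (s + 1))
        ((1 - algebraMap K F ϖ ^ (s + 1) * (y * w⁻¹)) - 1) :=
      ⟨-(y * w⁻¹), neg_mem (mul_mem hy hwinv), by ring⟩
    have hne : (1 - algebraMap K F ϖ ^ (s + 1) * (y * w⁻¹)) ≠ 0 :=
      ne_zero_of_dv_sub_one h.unif₁ (Dv.of_pow h.unif₁.mem (by omega) hdv)
    have ha0 : a ≠ 0 := by
      intro h0
      rw [h0, map_zero] at hay
      rcases mul_eq_zero.1 hay.symm with h1 | h1
      · exact hw0 h1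
      · exact hne h1
    refine ⟨a, ha0, ?_⟩
    have := dv_inv_sub_one h.unif₁ (n := s + 1) (by omega) hdv
    have e1 : w * (algebraMap K F a)⁻¹ =
        (1 - algebraMap K F ϖ ^ (s + 1) * (y * w⁻¹))⁻¹ := by
      rw [hay]; field_simp
    rw [e1]; exact this
  -- integral case
  have hint : ∀ u : F, u ≠ 0 → u ∈ V₁ →
      ∃ v : K, v ≠ 0 ∧ Dv V₁ (algebraMap K F ϖ ^ (s + 1)) (u * (algebraMap K F v)⁻¹ - 1) := by
    intro u hu huV
    obtain ⟨k, w, hw, hwinv, huw⟩ := h.exists_pow_unit hu huV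
    have hw0 : w ≠ 0 := by
      rintro rfl
      rw [mul_zero] at huw
      exact hu huw
    obtain ⟨a, ha0, hdv⟩ := hunit w hw hwinv hw0
    refine ⟨ϖ ^ k * a, mul_ne_zero (pow_ne_zero _ hϖ) ha0, ?_⟩
    have hA : algebraMap K F a ≠ 0 := by rw [Ne, map_eq_zero]; exact ha0
    have : u * (algebraMap K F (ϖ ^ k * a))⁻¹ = w * (algebraMap K F a)⁻¹ := by
      rw [huw, map_mul, map_pow]; field_simp
    rw [this]; exact hdv
  rcases V₁.mem_or_inv_mem u with huV | huV
  · obtain ⟨v, hv, hdv⟩ := hint u hu huV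
    exact ⟨v, hv, Dv.pow_mono h.unif₁.mem (Nat.le_succ s) hdv⟩
  · obtain ⟨v, hv, hdv⟩ := hint u⁻¹ (inv_ne_zero hu) huV
    refine ⟨v⁻¹, inv_ne_zero hv, ?_⟩
    have h1 := dv_inv_sub_one h.unif₁ (n := s + 1) (by omega) hdv
    have hV : algebraMap K F v ≠ 0 := by rw [Ne, map_eq_zero]; exact hv
    have : (u⁻¹ * (algebraMap K F v)⁻¹)⁻¹ = u * (algebraMap K F v⁻¹)⁻¹ := by
      rw [map_inv₀]; field_simp
    rw [this] at h1
    exact Dv.pow_mono h.unif₁.mem (Nat.le_succ s) h1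

end NLSetting

end Part6

/-! ## Part 7: NormPingPong -/

section Part7

open Fermat.Agent.A2.H48

variable {K L : Type*} [Field K] [Field L]

/-- One side of the ping-pong. -/
structure Side (O : ValuationSubring K) (Vd Vi : ValuationSubring L) (ϖ : K) (p : ℕ)
    (φ : K →+* L) (N : L →* K) : Prop where
  unifO : IsUnif O ϖ
  unif_d : IsUnif Vd (φ ϖ)
  unif_i : IsUnif Vi (φ ϖ)
  le_d : ∀ a ∈ O, φ a ∈ Vd
  norm_base : ∀ a : K, N (φ a) = a ^ (p + 1)
  approx : ∀ (s : ℕ) (u : L), u ≠ 0 → ∃ v : K, v ≠ 0 ∧ Dv Vd (φ ϖ ^ s) (u * (φ v)⁻¹ - 1)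
  loc : ∀ (s : ℕ), 1 ≤ s → ∀ (u : L) (c v : K), c ≠ 0 → v ≠ 0 →
    Dv Vd (φ ϖ ^ (s + 1)) (u * (φ v)⁻¹ - 1) → Dv Vi (φ ϖ ^ s) (u * (φ c)⁻¹ - 1) →
    Dv O (ϖ ^ (s + 1)) (N u * (v * c ^ p)⁻¹ - 1)

/-- The setting `NLSetting` gives a side (degree-one place `V₁`, inseparable place `V₂`). -/
theorem NLSetting.side {K F : Type*} [Field K] [Field F] [Algebra K F]
    {O : ValuationSubring K} {V₁ V₂ : ValuationSubring F} {ϖ : K} {p : ℕ} {θ : F} {g : K}
    (h : NLSetting O V₁ V₂ ϖ p θ g) :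
    Side O V₁ V₂ ϖ p (algebraMap K F) (Algebra.norm K) where
  unifO := h.unifO
  unif_d := h.unif₁
  unif_i := h.unif₂
  le_d := h.le₁
  norm_base := fun a => by
    have := h.finiteDimensional
    rw [Algebra.norm_algebraMap, h.card]
  approx := fun s _ hu => h.exists_approx_mul s hu
  loc := fun _ hs _ _ _ hc hv h1 h2 => h.norm_loc hs hc hv h1 h2

/-- `u ∈ ι(C) · (Lˣ)^p · (1 + π^s V)`. -/
def Depth (V : ValuationSubring L) (π : L) (p : ℕ) (ι : K →+* L) (C : Set K) (s : ℕ)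
    (u : L) : Prop :=
  ∃ c ∈ C, ∃ g : L, g ≠ 0 ∧ Dv V (π ^ s) (u * (ι c * g ^ p)⁻¹ - 1)

/-- `N u ∈ C · (Kˣ)^p`. -/
def IsPthNorm (N : L →* K) (p : ℕ) (C : Set K) (u : L) : Prop :=
  ∃ c ∈ C, ∃ h : K, h ≠ 0 ∧ N u = c * h ^ p

/-- A multiplicatively closed set of nonzero constants. -/
structure IsConstSet (C : Set K) : Prop where
  ne_zero : ∀ c ∈ C, c ≠ 0
  mul_mem : ∀ c ∈ C, ∀ d ∈ C, c * d ∈ C
  inv_mem : ∀ c ∈ C, c⁻¹ ∈ C

theorem Depth.mono {V : ValuationSubring L} {π : L} {p : ℕ} {ι : K →+* L} {C : Set K}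
    (hπ : π ∈ V) {s t : ℕ} (hst : s ≤ t) {u : L} (h : Depth V π p ι C t u) :
    Depth V π p ι C s u := by
  obtain ⟨c, hc, g, hg, hdv⟩ := h
  exact ⟨c, hc, g, hg, Dv.pow_mono hπ hst hdv⟩

section MonoidHom

theorem norm_ne_zero_of_ne_zero (N : L →* K) {x : L} (hx : x ≠ 0) : N x ≠ 0 := by
  intro h0
  have h1 : N (x * x⁻¹) = 1 := by rw [mul_inv_cancel₀ hx, map_one]
  rw [map_mul, h0, zero_mul] at h1
  exact zero_ne_one h1

theorem norm_inv_of_ne_zero (N : L →* K) {x : L} (hx : x ≠ 0) : N x⁻¹ = (N x)⁻¹ := by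
  have h1 : N (x * x⁻¹) = 1 := by rw [mul_inv_cancel₀ hx, map_one]
  rw [map_mul] at h1
  exact eq_inv_of_mul_eq_one_right h1

end MonoidHom

theorem ringHom_dv {O : ValuationSubring K} {V : ValuationSubring L} (φ : K →+* L)
    (le : ∀ a ∈ O, φ a ∈ V) {a c : K} (ha : Dv O c a) : Dv V (φ c) (φ a) := by
  obtain ⟨b, hb, rfl⟩ := ha
  exact ⟨φ b, le b hb, by rw [map_mul]⟩

/-- **One step of the ping-pong.** -/
theorem Side.step {O : ValuationSubring K} {Vd Vi : ValuationSubring L} {ϖ : K} {p : ℕ}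
    {φ : K →+* L} {N : L →* K} (hS : Side O Vd Vi ϖ p φ N)
    {ι : K →+* L} {C : Set K} (hC : IsConstSet C) (hφι : ∀ c ∈ C, φ c = ι c)
    {s : ℕ} (hs : 1 ≤ s) {u : L} (hN : IsPthNorm N p C u)
    (hd : Depth Vi (φ ϖ) p ι C s u) : Depth Vd (φ ϖ) p ι C (s + 1) u := by
  obtain ⟨c, hc, g, hg, hdv⟩ := hd
  obtain ⟨c₁, hc₁, h₁, hh₁, hNu⟩ := hN
  have hc0 := hC.ne_zero c hc
  have hc₁0 := hC.ne_zero c₁ hc₁
  have hιc : ι c ≠ 0 := by rw [← hφι c hc, Ne, map_eq_zero]; exact hc0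
  have hx0 : ι c * g ^ p ≠ 0 := mul_ne_zero hιc (pow_ne_zero _ hg)
  set u' : L := u * (ι c * g ^ p)⁻¹ with hu'
  have hu'0 : u' ≠ 0 :=
    ne_zero_of_dv_sub_one hS.unif_i (Dv.of_pow hS.unif_i.mem hs hdv)
  -- the norm of u'
  have hNg : N g ≠ 0 := norm_ne_zero_of_ne_zero N hg
  have hNu' : N u' = (c₁ * c⁻¹) * (h₁ * (c * N g)⁻¹) ^ p := by
    rw [hu', map_mul, norm_inv_of_ne_zero N hx0, map_mul, map_pow, ← hφι c hc, hS.norm_base,
      hNu, pow_succ, mul_pow, inv_pow, mul_pow]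
    field_simp
  set c₂ : K := c₁ * c⁻¹ with hc₂
  set h₂ : K := h₁ * (c * N g)⁻¹ with hh₂
  have hc₂C : c₂ ∈ C := hC.mul_mem _ hc₁ _ (hC.inv_mem _ hc)
  have hc₂0 : c₂ ≠ 0 := hC.ne_zero _ hc₂C
  have hh₂0 : h₂ ≠ 0 := mul_ne_zero hh₁ (inv_ne_zero (mul_ne_zero hc0 hNg))
  -- approximation at the degree-one place
  obtain ⟨v, hv0, hv⟩ := hS.approx (s + 1) u' hu'0
  have hloc := hS.loc s hs u' 1 v one_ne_zero hv0 hv (by simpa using hdv)
  rw [one_pow, mul_one, hNu'] at hloc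
  have hmap := ringHom_dv φ hS.le_d hloc
  rw [map_sub, map_one, map_mul, map_mul, map_pow, map_inv₀, map_pow] at hmap
  have hφv : φ v ≠ 0 := by rw [Ne, map_eq_zero]; exact hv0
  have hφc₂ : φ c₂ ≠ 0 := by rw [Ne, map_eq_zero]; exact hc₂0
  have hφh₂ : φ h₂ ≠ 0 := by rw [Ne, map_eq_zero]; exact hh₂0
  have hinv := dv_inv_sub_one hS.unif_d (n := s + 1) (by omega) hmap
  have hprod := dv_mul_sub_one hS.unif_d hv hinv
  have e1 : u' * (φ v)⁻¹ * (φ c₂ * φ h₂ ^ p * (φ v)⁻¹)⁻¹ = u' * (φ c₂ * φ h₂ ^ p)⁻¹ := by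
    field_simp
  rw [e1] at hprod
  refine ⟨c * c₂, hC.mul_mem _ hc _ hc₂C, g * φ h₂, mul_ne_zero hg hφh₂, ?_⟩
  have e2 : u * (ι (c * c₂) * (g * φ h₂) ^ p)⁻¹ = u' * (φ c₂ * φ h₂ ^ p)⁻¹ := by
    rw [hu', map_mul, ← hφι c₂ hc₂C, mul_pow]
    field_simp
  rw [e2]
  exact hprod

/-- **Ping-pong (norm contraction).**  Two sides: `α` with degree-one place `V∞` and inseparable
place `V₀`; `β` with the roles exchanged.  If `N_α u` and `N_β u` are constants times `p`-th
powers and `u` has depth `≥ 1` at `V∞`, then `u` has every depth at `V∞` and at `V₀`. -/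
theorem pingpong_inf {O : ValuationSubring K} {Vinf V0 : ValuationSubring L} {ϖ : K} {p : ℕ}
    {α β : K →+* L} {Nα Nβ : L →* K}
    (hα : Side O Vinf V0 ϖ p α Nα) (hβ : Side O V0 Vinf ϖ p β Nβ)
    {C : Set K} (hC : IsConstSet C) (hαβ : ∀ c ∈ C, β c = α c) (hϖ : β ϖ = α ϖ)
    {u : L} (hNα : IsPthNorm Nα p C u) (hNβ : IsPthNorm Nβ p C u)
    (h1 : Depth Vinf (α ϖ) p α C 1 u) :
    ∀ s : ℕ, Depth Vinf (α ϖ) p α C s u ∧ Depth V0 (α ϖ) p α C s u := by
  have stepα : ∀ s, 1 ≤ s → Depth V0 (α ϖ) p α C s u → Depth Vinf (α ϖ) p α C (s + 1) u :=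
    fun s hs hd => hα.step hC (fun _ _ => rfl) hs hNα hd
  have stepβ : ∀ s, 1 ≤ s → Depth Vinf (α ϖ) p α C s u → Depth V0 (α ϖ) p α C (s + 1) u := by
    intro s hs hd
    have := hβ.step hC hαβ hs hNβ (by rw [hϖ]; exact hd)
    rwa [hϖ] at this
  have hπinf : α ϖ ∈ Vinf := hα.unif_d.mem
  have hπ0 : α ϖ ∈ V0 := hα.unif_i.mem
  have key : ∀ s : ℕ, Depth Vinf (α ϖ) p α C (s + 1) u ∧ Depth V0 (α ϖ) p α C (s + 1) u := by
    intro s
    induction s with
    | zero =>
      exact ⟨h1, Depth.mono hπ0 (Nat.le_succ 1) (stepβ 1 le_rfl h1)⟩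
    | succ s ih =>
      exact ⟨stepα (s + 1) (by omega) ih.2, stepβ (s + 1) (by omega) ih.1⟩
  intro s
  exact ⟨Depth.mono hπinf (Nat.le_succ s) (key s).1, Depth.mono hπ0 (Nat.le_succ s) (key s).2⟩

/-- The same, starting from depth `≥ 1` at `V₀`. -/
theorem pingpong_zero {O : ValuationSubring K} {Vinf V0 : ValuationSubring L} {ϖ : K} {p : ℕ}
    {α β : K →+* L} {Nα Nβ : L →* K}
    (hα : Side O Vinf V0 ϖ p α Nα) (hβ : Side O V0 Vinf ϖ p β Nβ)
    {C : Set K} (hC : IsConstSet C) (hαβ : ∀ c ∈ C, β c = α c) (hϖ : β ϖ = α ϖ)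
    {u : L} (hNα : IsPthNorm Nα p C u) (hNβ : IsPthNorm Nβ p C u)
    (h1 : Depth V0 (α ϖ) p α C 1 u) :
    ∀ s : ℕ, Depth Vinf (α ϖ) p α C s u ∧ Depth V0 (α ϖ) p α C s u := by
  have h2 : Depth Vinf (α ϖ) p α C 1 u :=
    Depth.mono hα.unif_d.mem (Nat.le_succ 1) (hα.step hC (fun _ _ => rfl) le_rfl hNα h1)
  exact pingpong_inf hα hβ hC hαβ hϖ hNα hNβ h2

end Part7

end Fermat.Agent.Ribet.H232

end
-- ===== PACK-END Ribet/H232/NormContraction.lean

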