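import Mathlib
import Fermat.Prelude.Def_EllipticCurve_FrobeniusTrace
import Fermat.Agent.Pack.S33.E0L0
import Fermat.Agent.Pack.S33.E4L2
import Fermat.Agent.Pack.S33.E7L2
import Fermat.Agent.Pack.S33.E7L0
import Fermat.Agent.Pack.S33.E0L3
import Fermat.Agent.Pack.S33.E7L3
import Fermat.Agent.Pack.S33.E4L3
import Fermat.Agent.Pack.S33.E7L1
import Fermat.Agent.Pack.S33.E6L0
import Fermat.Agent.Pack.S33.E6L3
import Fermat.Agent.Pack.S33.E5L3
import Fermat.Agent.Pack.S33.E6L2
import Fermat.Agent.Pack.S33.E3L3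
import Fermat.Agent.Pack.S33.E3L0

-- ===== PACK-BEGIN Lib/Cheb/H476/Core.lean
section






/-!
# CHEB piece F6 (bridge), part 2: from a prime of a Galois number field inside `ℚ̄`
to a valuation subring of `ℚ̄` with a Frobenius element
-/

set_option autoImplicit false

open NumberField
open scoped Pointwise

namespace Fermat.Agent.Lib.Cheb.H476

open Fermat.Agent.Lib.Cheb.Spec

/-- The inclusion of the ring of integers of a subfield of `ℚ̄` into `ℚ̄`. -/
noncomputable def incl (L : IntermediateField ℚ Qb) : 𝓞 L →+* Qb :=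
  (algebraMap L Qb).comp (algebraMap (𝓞 L) L)

theorem incl_apply (L : IntermediateField ℚ Qb) (x : 𝓞 L) :
    incl L x = ((x : L) : Qb) := rfl

theorem incl_injective (L : IntermediateField ℚ Qb) : Function.Injective (incl L) := by
  intro x y h
  have h1 : ((x : L) : Qb) = ((y : L) : Qb) := h
  exact RingOfIntegers.ext (Subtype.ext h1)

theorem incl_isIntegral (L : IntermediateField ℚ Qb) (x : 𝓞 L) : IsIntegral ℤ (incl L x) := by
  have h1 : IsIntegral ℤ (x : L) := RingOfIntegers.isIntegral_coe x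
  exact h1.map (IsScalarTower.toAlgHom ℤ L Qb)

/-- A valuation subring of `ℚ̄` whose maximal ideal contains a given proper ideal of the ring of
integers of a subfield. -/
theorem exists_valuationSubring_over (L : IntermediateField ℚ Qb) (P : Ideal (𝓞 L))
    (hP : P ≠ ⊤) : ∃ A : ValuationSubring Qb, ∀ x ∈ P, incl L x ∈ A.nonunits := by
  let I : Ideal (incl L).range := P.map (incl L).rangeRestrict
  have hI : I ≠ ⊤ := by
    intro h
    have h1 : (1 : (incl L).range) ∈ I := by rw [h]; trivial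
    rw [Ideal.mem_map_iff_of_surjective _ (incl L).rangeRestrict_surjective] at h1
    obtain ⟨x, hx, hx1⟩ := h1
    have h2 : incl L x = incl L 1 := by
      have := congrArg Subtype.val hx1
      simpa using this
    have h3 : x = 1 := incl_injective L h2
    exact hP ((Ideal.eq_top_iff_one P).mpr (h3 ▸ hx))
  obtain ⟨A, -, hA⟩ := Ideal.image_subset_nonunits_valuationSubring I hI
  refine ⟨A, fun x hx => hA ⟨(incl L).rangeRestrict x, Ideal.mem_map_of_mem _ hx, rfl⟩⟩

/-- The maximal ideal of `A` cuts out exactly `P`. -/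
theorem incl_mem_nonunits_iff (L : IntermediateField ℚ Qb) [NumberField L]
    (A : ValuationSubring Qb) (P : Ideal (𝓞 L)) (hP : P.IsMaximal)
    (hA : ∀ x ∈ P, incl L x ∈ A.nonunits) (x : 𝓞 L) :
    incl L x ∈ A.nonunits ↔ x ∈ P := by
  refine ⟨fun hx => ?_, hA x⟩
  by_contra hxP
  obtain ⟨y, m, hm, hxy⟩ := hP.exists_inv hxP
  have h1 : incl L y * incl L x + incl L m = 1 := by
    rw [← map_mul, ← map_add, hxy, map_one]
  have hy : A.valuation (incl L y) ≤ 1 :=
    (A.valuation_le_one_iff _).mpr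
      (Fermat.Agent.S54.isIntegral_mem_valuationSubring A (incl_isIntegral L y))
  have hx' : A.valuation (incl L x) < 1 := A.mem_nonunits_iff.mp hx
  have hm' : A.valuation (incl L m) < 1 := A.mem_nonunits_iff.mp (hA m hm)
  have h2 : A.valuation (incl L y * incl L x) < 1 := by
    rw [map_mul]
    exact mul_lt_of_le_one_of_lt hy hx'
  have h3 : A.valuation (incl L y * incl L x + incl L m) < 1 :=
    lt_of_le_of_lt (A.valuation.map_add _ _) (max_lt h2 hm')
  rw [h1, map_one] at h3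
  exact lt_irrefl _ h3


/-- The prime of `ℤ` below a prime of `𝓞 L` containing the prime number `p` has residue field of
cardinality `p`. -/
theorem card_quot_under (L : IntermediateField ℚ Qb) [NumberField L] (p : ℕ) (hp : p.Prime)
    (P : Ideal (𝓞 L)) (hP : P.IsPrime) (hpP : (p : 𝓞 L) ∈ P) :
    Nat.card (ℤ ⧸ P.under ℤ) = p := by
  have : Fact p.Prime := ⟨hp⟩
  have hle : Ideal.span {(p : ℤ)} ≤ P.under ℤ := by
    rw [Ideal.span_le, Set.singleton_subset_iff]
    show algebraMap ℤ (𝓞 L) (p : ℤ) ∈ P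
    simpa using hpP
  have hne : P.under ℤ ≠ ⊤ := (Ideal.IsPrime.under ℤ P).ne_top
  have heq : Ideal.span {(p : ℤ)} = P.under ℤ :=
    (Int.ideal_span_isMaximal_of_prime p).eq_of_le hne hle
  rw [← heq, Int.card_ideal_quot]

/-- **Core of the bridge.**  A prime `P` of a Galois number field `L ⊆ ℚ̄` above `p`, with trivial
inertia group and arithmetic Frobenius `τ`, is induced by a valuation subring `A` of `ℚ̄`
over `p` carrying a Frobenius element `φ` which restricts to `τ`; the inertia group of `A` acts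
trivially on `L`. -/
theorem exists_frobenius_restrict (L : IntermediateField ℚ Qb) [NumberField L] [IsGalois ℚ L]
    (p : ℕ) (hp : p.Prime) (P : Ideal (𝓞 L)) (hP : P.IsPrime) (hpP : (p : 𝓞 L) ∈ P)
    (hI : InertiaTrivial L P) (τ : L ≃ₐ[ℚ] L) (hτ : IsArithFrobAt ℤ τ P) :
    ∃ (A : ValuationSubring Qb) (φ : GQ), A.LiesOverPrime p ∧ A.IsFrobeniusAt φ p ∧
      (∀ ι ∈ A.inertiaSubgroupIn ℚ, ∀ x : L, ι (x : Qb) = x) ∧
      (∀ x : L, φ (x : Qb) = (τ x : L)) := by
  have hP0 : P ≠ ⊥ := by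
    intro h
    rw [h, Ideal.mem_bot] at hpP
    exact hp.ne_zero (by exact_mod_cast hpP)
  have hPmax : P.IsMaximal := hP.isMaximal hP0
  obtain ⟨A, hA⟩ := exists_valuationSubring_over L P hP.ne_top
  have hAp : A.LiesOverPrime p := by
    have h := hA _ hpP
    have h' : incl L (p : 𝓞 L) = (p : Qb) := by simp
    rw [h'] at h
    exact h
  obtain ⟨φ, hφ, hφF⟩ := exists_frobenius_at p hp A hAp
  have hmem := incl_mem_nonunits_iff L A P hPmax hA
  have hres : ∀ (g : GQ) (x : L), ((AlgEquiv.restrictNormal g L x : L) : Qb) = g (x : Qb) :=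
    fun g x => AlgEquiv.restrictNormal_commutes g L x
  have hcard := card_quot_under L p hp P hP hpP
  refine ⟨A, φ, hAp, hφ, ?_, ?_⟩
  · intro ι hι x
    have h1 : AlgEquiv.restrictNormal ι L = 1 := by
      apply hI
      intro y
      rw [← hmem]
      have h2 : incl L (AlgEquiv.restrictNormal ι L • y - y) = ι (incl L y) - incl L y := by
        rw [map_sub]
        congr 1
        exact hres ι y
      rw [h2]
      exact sub_mem_nonunits_of_mem_inertia A ι hι _
        (Fermat.Agent.S54.isIntegral_mem_valuationSubring A (incl_isIntegral L y))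
    rw [← hres, h1]
    rfl
  · have h1 : IsArithFrobAt ℤ (AlgEquiv.restrictNormal φ L) P := by
      intro y
      rw [hcard]
      rw [← hmem]
      have h2 : incl L ((MulSemiringAction.toAlgHom ℤ (𝓞 L) (AlgEquiv.restrictNormal φ L)) y
          - y ^ p) = φ (incl L y) - incl L y ^ p := by
        rw [map_sub, map_pow]
        congr 1
        exact hres φ y
      rw [h2]
      exact hφF ⟨incl L y, incl_isIntegral L y⟩
    have h2 := IsArithFrobAt.mul_inv_mem_inertia h1 hτ
    have h3 : AlgEquiv.restrictNormal φ L * τ⁻¹ = 1 := hI _ h2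
    have h4 : AlgEquiv.restrictNormal φ L = τ := mul_inv_eq_one.mp h3
    intro x
    rw [← hres, h4]

end Fermat.Agent.Lib.Cheb.H476

end
-- ===== PACK-END Lib/Cheb/H476/Core.lean

-- ===== PACK-BEGIN S14/H894/TotRam.lean
section




/-!
# S14 / H894 : inertia surjects onto the embeddings of a totally ramified simple extension

`exists_inertia_eq_on_adjoin` : let `A` be a valuation subring of `ℚ̄` over a prime, `K` an
intermediate field, `γ` a root of a monic `f ∈ K[X]` of degree `n` such that the valuations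
`v(γ)^k`, `0 < k < n`, are not valuations of elements of `K` and all `K`-conjugates of `γ` have
the valuation of `γ`.  Then for every `τ ∈ Gal(ℚ̄/K)` there is `σ` in the inertia group of `A`,
fixing `K` pointwise, with `σ γ = τ γ`.
-/

set_option autoImplicit false
set_option linter.style.haveILetI false

open scoped Pointwise

namespace Fermat.Agent.S14.H894

open Polynomial Fermat.Agent.S54

local notation "Qb" => AlgebraicClosure ℚ
local notation "GQ" => (AlgebraicClosure ℚ ≃ₐ[ℚ] AlgebraicClosure ℚ)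
local notation "Zb" => integralClosure ℤ (AlgebraicClosure ℚ)

/-- The field `K(γ)` as an intermediate field of `ℚ̄/ℚ`. -/
noncomputable def adjoinField (K : IntermediateField ℚ Qb) (γ : Qb) : IntermediateField ℚ Qb :=
  IntermediateField.adjoin ℚ ((K : Set Qb) ∪ {γ})

theorem mem_fixingSubgroup_adjoinField_iff (K : IntermediateField ℚ Qb) (γ : Qb) (σ : GQ) :
    σ ∈ (adjoinField K γ).fixingSubgroup ↔ (∀ x ∈ K, σ x = x) ∧ σ γ = γ := by
  rw [IntermediateField.mem_fixingSubgroup_iff]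
  constructor
  · intro h
    refine ⟨fun x hx => h x ?_, h γ ?_⟩
    · exact IntermediateField.subset_adjoin ℚ _ (Set.mem_union_left _ hx)
    · exact IntermediateField.subset_adjoin ℚ _ (Set.mem_union_right _ rfl)
  · rintro ⟨hK, hγ⟩ x hx
    induction hx using IntermediateField.adjoin_induction with
    | mem x hx =>
      rcases hx with hx | hx
      · exact hK x hx
      · rw [Set.mem_singleton_iff] at hx; rw [hx]; exact hγ
    | algebraMap x => exact σ.commutes x
    | add x y _ _ hx hy => rw [_root_.map_add, hx, hy]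
    | inv x _ hx => rw [map_inv₀, hx]
    | mul x y _ _ hx hy => rw [_root_.map_mul, hx, hy]

theorem exists_coeffs_of_mem_adjoinField (K : IntermediateField ℚ Qb) (γ : Qb) (f : K[X])
    (hf : f.Monic) (hγ : aeval γ f = 0) (y : Qb) (hy : y ∈ adjoinField K γ) :
    ∃ c : ℕ → Qb, (∀ i, c i ∈ K) ∧ y = ∑ i ∈ Finset.range f.natDegree, c i * γ ^ i := by
  have h1 : adjoinField K γ = (IntermediateField.adjoin K {γ}).restrictScalars ℚ :=
    (IntermediateField.restrictScalars_adjoin ℚ K ({γ} : Set Qb)).symm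
  rw [h1] at hy
  have hy' : y ∈ IntermediateField.adjoin K {γ} := hy
  have halg : IsAlgebraic K γ := ⟨f, hf.ne_zero, hγ⟩
  have hy2 : y ∈ (IntermediateField.adjoin K {γ}).toSubalgebra := hy'
  rw [IntermediateField.adjoin_simple_toSubalgebra_of_isAlgebraic halg,
    Algebra.adjoin_singleton_eq_range_aeval] at hy2
  obtain ⟨q, rfl⟩ := hy2
  have hf1 : f ≠ 1 := by
    rintro rfl
    simp at hγ
  have hdeg : (q %ₘ f).natDegree < f.natDegree := natDegree_modByMonic_lt q hf hf1
  have hq : aeval γ q = aeval γ (q %ₘ f) := by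
    conv_lhs => rw [← modByMonic_add_div q f]
    rw [_root_.map_add, _root_.map_mul, hγ, zero_mul, add_zero]
  refine ⟨fun i => ((q %ₘ f).coeff i : Qb), fun i => SetLike.coe_mem _, ?_⟩
  show aeval γ q = _
  rw [hq, aeval_eq_sum_range' hdeg]
  refine Finset.sum_congr rfl fun i _ => ?_
  rw [Algebra.smul_def]
  rfl

section main

variable (A : ValuationSubring Qb) (K : IntermediateField ℚ Qb) (γ : Qb) (n : ℕ)

/-- The terms of a `K`-linear combination of powers of a conjugate of `γ` have pairwise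
distinct valuations. -/
theorem distinct_terms
    (hindep : ∀ k : ℕ, 0 < k → k < n → ∀ c ∈ K, A.valuation γ ^ k ≠ A.valuation c)
    (c : ℕ → Qb) (hc : ∀ i, c i ∈ K) (γ' : Qb) (hγ' : A.valuation γ' = A.valuation γ) :
    ∀ i ∈ Finset.range n, ∀ j ∈ Finset.range n, i ≠ j → c i * γ' ^ i ≠ 0 →
      A.valuation (c i * γ' ^ i) ≠ A.valuation (c j * γ' ^ j) := by
  intro i hi j hj hij hne heq
  rw [Finset.mem_range] at hi hj
  rw [_root_.map_mul, _root_.map_mul, _root_.map_pow, _root_.map_pow, hγ'] at heq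
  have hn2 : 1 < n := by omega
  have hv0 : A.valuation γ ≠ 0 := by
    have := hindep 1 one_pos hn2 0 K.zero_mem
    simpa using this
  have hci : c i ≠ 0 := left_ne_zero_of_mul hne
  have hvci : A.valuation (c i) ≠ 0 := (Valuation.ne_zero_iff _).mpr hci
  have hcj : c j ≠ 0 := by
    rintro h0
    rw [h0, _root_.map_zero, zero_mul] at heq
    exact mul_ne_zero hvci (pow_ne_zero _ hv0) heq
  have hvcj : A.valuation (c j) ≠ 0 := (Valuation.ne_zero_iff _).mpr hcj
  rcases lt_or_gt_of_ne hij with hlt | hlt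
  · refine hindep (j - i) (by omega) (by omega) (c i / c j) (K.div_mem (hc i) (hc j)) ?_
    rw [map_div₀, eq_div_iff hvcj]
    have hpow : A.valuation γ ^ j = A.valuation γ ^ (j - i) * A.valuation γ ^ i := by
      rw [← pow_add]; congr 1; omega
    rw [hpow, ← mul_assoc] at heq
    have h2 := mul_right_cancel₀ (pow_ne_zero i hv0) heq
    rw [h2, mul_comm]
  · refine hindep (i - j) (by omega) (by omega) (c j / c i) (K.div_mem (hc j) (hc i)) ?_
    rw [map_div₀, eq_div_iff hvci]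
    have hpow : A.valuation γ ^ i = A.valuation γ ^ (i - j) * A.valuation γ ^ j := by
      rw [← pow_add]; congr 1; omega
    rw [hpow, ← mul_assoc] at heq
    have h2 := mul_right_cancel₀ (pow_ne_zero j hv0) heq
    rw [← h2, mul_comm]

end main

/-- **Inertia surjects onto the embeddings of a totally ramified simple extension.** -/
theorem exists_inertia_eq_on_adjoin (A : ValuationSubring Qb) (ℓ : ℕ) (hℓ : ℓ.Prime)
    (hA : A.LiesOverPrime ℓ) (K : IntermediateField ℚ Qb) (γ : Qb) (f : K[X]) (hf : f.Monic)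
    (hγ : aeval γ f = 0)
    (hindep : ∀ k : ℕ, 0 < k → k < f.natDegree → ∀ c ∈ K, A.valuation γ ^ k ≠ A.valuation c)
    (hconj : ∀ τ : GQ, (∀ x ∈ K, τ x = x) → A.valuation (τ γ) = A.valuation γ)
    (τ : GQ) (hτ : ∀ x ∈ K, τ x = x) :
    ∃ σ ∈ A.inertiaSubgroupIn ℚ, (∀ x ∈ K, σ x = x) ∧ σ γ = τ γ := by
  haveI := isGalois_algebraicClosure_rat
  set n := f.natDegree with hn
  set L := adjoinField K γ with hL
  set H : Subgroup GQ := L.fixingSubgroup with hH
  have hHclosed : IsClosed (H : Set GQ) := InfiniteGalois.fixingSubgroup_isClosed L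
  have hHmem : ∀ σ : GQ, σ ∈ H ↔ (∀ x ∈ K, σ x = x) ∧ σ γ = γ :=
    mem_fixingSubgroup_adjoinField_iff K γ
  haveI hQprime := primeBelow_isPrime A
  set Q := primeBelow A with hQ
  -- invariants lie in `L`
  have hinv : ∀ y : Zb, (∀ h ∈ H, h • y = y) → (y : Qb) ∈ L := by
    intro y hy
    rw [← InfiniteGalois.fixedField_fixingSubgroup L, IntermediateField.mem_fixedField_iff]
    intro g hg
    exact congrArg Subtype.val (hy g hg)
  -- valuation formula
  have hval : ∀ (σ : GQ), (∀ x ∈ K, σ x = x) → ∀ y ∈ L,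
      A.valuation (σ y) = A.valuation y := by
    intro σ hσ y hy
    obtain ⟨c, hc, rfl⟩ := exists_coeffs_of_mem_adjoinField K γ f hf hγ y hy
    rw [_root_.map_sum]
    have h1 : ∀ i ∈ Finset.range n, σ (c i * γ ^ i) = c i * (σ γ) ^ i := by
      intro i _
      rw [_root_.map_mul, _root_.map_pow, hσ _ (hc i)]
    rw [Finset.sum_congr rfl h1]
    rw [valuation_sum_eq_sup _ _ _ (distinct_terms A K γ n hindep c hc (σ γ) (hconj σ hσ)),
      valuation_sum_eq_sup _ _ _ (distinct_terms A K γ n hindep c hc γ rfl)]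
    refine Finset.sup_congr rfl fun i _ => ?_
    rw [_root_.map_mul, _root_.map_mul, _root_.map_pow, _root_.map_pow, hconj σ hσ]
  -- residue formula
  have hres : ∀ (σ : GQ), (∀ x ∈ K, σ x = x) → ∀ y ∈ L, y ∈ A →
      A.valuation (σ y - y) < 1 := by
    intro σ hσ y hy hyA
    obtain ⟨c, hc, rfl⟩ := exists_coeffs_of_mem_adjoinField K γ f hf hγ y hy
    have hdist := distinct_terms A K γ n hindep c hc γ rfl
    have hle : ∀ i ∈ Finset.range n, A.valuation (c i * γ ^ i) ≤ 1 := by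
      rw [← valuation_sum_le_one_iff _ _ _ hdist]
      exact (A.valuation_le_one_iff _).mpr hyA
    have hlt : ∀ i ∈ Finset.range n, 0 < i → A.valuation (c i * γ ^ i) < 1 := by
      intro i hi hi0
      refine lt_of_le_of_ne (hle i hi) ?_
      intro h1
      by_cases hci : c i = 0
      · rw [hci, zero_mul, _root_.map_zero] at h1; exact zero_ne_one h1
      · have hvci : A.valuation (c i) ≠ 0 := (Valuation.ne_zero_iff _).mpr hci
        refine hindep i hi0 (Finset.mem_range.mp hi) (c i)⁻¹ (K.inv_mem (hc i)) ?_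
        rw [map_inv₀]
        refine eq_inv_of_mul_eq_one_left ?_
        rw [mul_comm, ← _root_.map_pow, ← _root_.map_mul]
        exact h1
    rw [_root_.map_sum, ← Finset.sum_sub_distrib]
    refine Valuation.map_sum_lt _ one_ne_zero fun i hi => ?_
    by_cases hi0 : i = 0
    · subst hi0
      simp [hσ _ (hc 0)]
    · have hi0' : 0 < i := Nat.pos_of_ne_zero hi0
      have h2 : σ (c i * γ ^ i) = c i * (σ γ) ^ i := by rw [_root_.map_mul, _root_.map_pow, hσ _ (hc i)]
      have h3 : A.valuation (σ (c i * γ ^ i)) < 1 := by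
        rw [h2, _root_.map_mul, _root_.map_pow, hconj σ hσ, ← _root_.map_pow, ← _root_.map_mul]
        exact hlt i hi hi0'
      exact lt_of_le_of_lt (Valuation.map_sub _ _ _) (max_lt h3 (hlt i hi hi0'))
  have hmemQ : ∀ y : Zb, y ∈ Q ↔ A.valuation (y : Qb) < 1 := by
    intro y
    rw [hQ, mem_primeBelow, ValuationSubring.mem_nonunits_iff]
  -- Step 3: move `τ⁻¹ • Q` back to `Q` by an element of `H`
  have hPQ : ∀ y : Zb, (∀ h ∈ H, h • y = y) → (y ∈ Q ↔ y ∈ τ⁻¹ • Q) := by
    intro y hy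
    rw [Ideal.mem_inv_pointwise_smul_iff, hmemQ, hmemQ]
    have : ((τ • y : Zb) : Qb) = τ (y : Qb) := rfl
    rw [this, hval τ hτ _ (hinv y hy)]
  obtain ⟨g, hgH, hg⟩ := exists_smul_eq_of_closed H hHclosed Q (τ⁻¹ • Q) hPQ
  have hgK := (hHmem g).mp hgH
  set σ₁ : GQ := τ * g with hσ₁
  have hσ₁Q : σ₁ • Q = Q := by
    rw [hσ₁, mul_smul, ← hg, smul_inv_smul]
  have hσ₁K : ∀ x ∈ K, σ₁ x = x := by
    intro x hx
    rw [hσ₁, AlgEquiv.mul_apply, hgK.1 x hx, hτ x hx]
  have hσ₁γ : σ₁ γ = τ γ := by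
    rw [hσ₁, AlgEquiv.mul_apply, hgK.2]
  -- Step 4: correct the residue action by an element of `H`
  have hσ₁res : ∀ y : Zb, (∀ h ∈ H, h • y = y) → σ₁ • y - y ∈ Q := by
    intro y hy
    rw [hmemQ]
    exact hres σ₁ hσ₁K _ (hinv y hy) (isIntegral_mem_valuationSubring A y.2)
  obtain ⟨g', hg'H, hg'Q, hg'⟩ := exists_mem_stabilizer_of_closed H hHclosed Q σ₁ hσ₁Q hσ₁res
  have hg'K := (hHmem g').mp hg'H
  have hg'invK : ∀ x ∈ K, g'⁻¹ x = x := by
    intro x hx
    have := hg'K.1 x hx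
    calc g'⁻¹ x = g'⁻¹ (g' x) := by rw [this]
      _ = x := by rw [← AlgEquiv.mul_apply, inv_mul_cancel, AlgEquiv.one_apply]
  have hg'invγ : g'⁻¹ γ = γ := by
    calc g'⁻¹ γ = g'⁻¹ (g' γ) := by rw [hg'K.2]
      _ = γ := by rw [← AlgEquiv.mul_apply, inv_mul_cancel, AlgEquiv.one_apply]
  refine ⟨σ₁ * g'⁻¹, ?_, ?_, ?_⟩
  · refine mem_inertiaSubgroupIn_of_forall A ℓ hℓ hA _ ?_ ?_
    · rw [mul_smul, inv_smul_eq_iff.mpr hg'Q.symm, hσ₁Q]
    · intro x
      have h1 := hg' (g'⁻¹ • x)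
      rw [smul_inv_smul] at h1
      rw [mul_smul]
      have h2 : σ₁ • g'⁻¹ • x - x = -(x - σ₁ • g'⁻¹ • x) := by ring
      rw [h2]
      exact Q.neg_mem h1
  · intro x hx
    rw [AlgEquiv.mul_apply, hg'invK x hx, hσ₁K x hx]
  · rw [AlgEquiv.mul_apply, hg'invγ, hσ₁γ]

end Fermat.Agent.S14.H894

end
-- ===== PACK-END S14/H894/TotRam.lean

-- ===== PACK-BEGIN S56/H716/TBSpec.lean
section


/-!
# Row S56 — tangent bound (TB), layer 1: FROZEN statements (deputy helper716)

`TB(cond)  ⇐  DICT(cond) + SELBOUND(cond)`     (glue: `H716/TBGlue.lean`, proved)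

* `DictOrdStatement`, `DictFlatStatement` (DICT): for every universal ring `DQ` of type `cond Q`
  there is a map `f : Hom_𝒪(R_Q, k[ε]) → {functions G_ℚ → End_k V}` whose values are tangent cocycles
  of type `cond Q` (or the zero function: so the trivial tangent vector needs no base change along
  the non-surjective map `R_Q → k → k[ε]`) and which is injective modulo coboundaries.
* `SelBoundOrdStatement`, `SelBoundFlatStatement` (SELBOUND = the cohomological wall): there is a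
  dual Selmer frame `D` such that for every set `Q` of Taylor–Wiles primes killing `D`, all tangent
  cocycles of type `cond Q` lie, modulo coboundaries, in a `k`-space of cocycles of dimension
  `≤ #Q`.

Nothing unproved in this file.
-/

set_option autoImplicit false

open Polynomial IsLocalRing

noncomputable section

namespace Fermat.Agent.S56.H716

open Fermat.Agent.S56

section

variable (𝒪 : Type) [CommRing 𝒪] [IsDomain 𝒪] [IsDiscreteValuationRing 𝒪]
  [IsAdicComplete (maximalIdeal 𝒪) 𝒪]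
  (p : ℕ) (ρbar : ResidualGaloisRep (ResidueField 𝒪)) (S : Finset ℕ)

/-- (DICT) for one condition `𝒟` and one universal ring of type `𝒟`. -/
def Dict (𝒟 : DefCond 𝒪) : Prop :=
  ∀ DQ : GaloisRep.DeformationRingData 𝒪 ρbar 𝒟,
    ∃ f : TanHom 𝒪 DQ.R → (GQ → Module.End (ResidueField 𝒪) ρbar.V),
      (∀ φ, IsTanCocycle 𝒪 ρbar 𝒟 (f φ) ∨ f φ = 0) ∧
      ∀ φ φ', IsAdCoboundary ρbar (f φ - f φ') → φ = φ'

/-- (SELBOUND) for a family of conditions indexed by the auxiliary set `Q`. -/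
def SelBound (cond : Finset ℕ → DefCond 𝒪) : Prop :=
  ∃ D : Submodule (ResidueField 𝒪) (GQ → Module.End (ResidueField 𝒪) ρbar.V),
    IsDualFrame ρbar p D ∧
    ∀ Q : Finset ℕ, (∀ q ∈ Q, IsTWPrime ρbar p S q) → Kills ρbar p D Q →
      ∃ T : Submodule (ResidueField 𝒪) (GQ → Module.End (ResidueField 𝒪) ρbar.V),
        Module.Finite (ResidueField 𝒪) T ∧ Module.finrank (ResidueField 𝒪) T ≤ Q.card ∧
        ∀ c, IsTanCocycle 𝒪 ρbar (cond Q) c → ∃ t ∈ T, IsAdCoboundary ρbar (c - t)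

end

/-- (DICT-ord). -/
def DictOrdStatement : Prop :=
  ∀ (𝒪 : Type) [CommRing 𝒪] [IsDomain 𝒪] [IsDiscreteValuationRing 𝒪]
    [IsAdicComplete (maximalIdeal 𝒪) 𝒪] [Finite (ResidueField 𝒪)]
    (p : ℕ) (ρbar : ResidualGaloisRep (ResidueField 𝒪)) (S Smin : Finset ℕ),
    Hyp 𝒪 p ρbar S Smin → ∀ Q : Finset ℕ, Dict 𝒪 ρbar (ordCond 𝒪 p Smin Q)

/-- (DICT-flat). -/
def DictFlatStatement : Prop :=
  ∀ (𝒪 : Type) [CommRing 𝒪] [IsDomain 𝒪] [IsDiscreteValuationRing 𝒪]
    [IsAdicComplete (maximalIdeal 𝒪) 𝒪] [Finite (ResidueField 𝒪)]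
    (p : ℕ) (ρbar : ResidualGaloisRep (ResidueField 𝒪)) (S Smin : Finset ℕ),
    Hyp 𝒪 p ρbar S Smin → ∀ Q : Finset ℕ, Dict 𝒪 ρbar (flatCond 𝒪 p Smin Q)

/-- (SELBOUND-ord): the cohomological wall, strict-ordinary half. -/
def SelBoundOrdStatement : Prop :=
  ∀ (𝒪 : Type) [CommRing 𝒪] [IsDomain 𝒪] [IsDiscreteValuationRing 𝒪]
    [IsAdicComplete (maximalIdeal 𝒪) 𝒪] [Finite (ResidueField 𝒪)]
    (p : ℕ) (ρbar : ResidualGaloisRep (ResidueField 𝒪)) (S Smin : Finset ℕ),
    Hyp 𝒪 p ρbar S Smin → SelBound 𝒪 p ρbar S (ordCond 𝒪 p Smin)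

/-- (SELBOUND-flat): the cohomological wall, flat half. -/
def SelBoundFlatStatement : Prop :=
  ∀ (𝒪 : Type) [CommRing 𝒪] [IsDomain 𝒪] [IsDiscreteValuationRing 𝒪]
    [IsAdicComplete (maximalIdeal 𝒪) 𝒪] [Finite (ResidueField 𝒪)]
    (p : ℕ) (ρbar : ResidualGaloisRep (ResidueField 𝒪)) (S Smin : Finset ℕ),
    Hyp 𝒪 p ρbar S Smin → SelBound 𝒪 p ρbar S (flatCond 𝒪 p Smin)

end Fermat.Agent.S56.H716

end

end
-- ===== PACK-END S56/H716/TBSpec.lean

-- ===== PACK-BEGIN S31/H862/Weight.lean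
section




/-!
# S31 / SS (helper862) — a `Γ₀(N)`-partition weight on the upper half plane

`wt N : ℍ → ℝ` is nonnegative, continuous, integrable for the invariant measure of `ℍ`, and
`∑_{γ ∈ Γ₀(N)} wt N (γ • z) = 1` for every `z`.
-/

set_option autoImplicit false

open UpperHalfPlane CongruenceSubgroup MeasureTheory
open scoped MatrixGroups ENNReal NNReal

namespace Fermat.Agent.S31.H862

/-- A chosen `SL(2,ℤ)`-partition of unity. -/
noncomputable def chiBase : ℂ → ℝ := Classical.choose Fermat.Agent.S21.exists_partition_SL2Z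

theorem isPartition_chiBase : Fermat.Agent.S21.IsSL2ZPartition chiBase := by
  obtain ⟨h1, h2, h3, h4, h5⟩ := Classical.choose_spec Fermat.Agent.S21.exists_partition_SL2Z
  exact ⟨h1, h2, h3, h4, h5⟩

/-- The weight function on `ℍ`. -/
noncomputable def wt (N : ℕ) (z : ℍ) : ℝ := Fermat.Agent.S21.chi N chiBase (z : ℂ)

theorem mob_coe_eq (g : SL(2, ℤ)) (z : ℍ) :
    Fermat.Agent.S21.mob g (z : ℂ) = ((g • z : ℍ) : ℂ) := by
  simp [Fermat.Agent.S21.mob]

theorem wt_smul_eq (N : ℕ) (γ : SL(2, ℤ)) (z : ℍ) :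
    wt N (γ • z) = Fermat.Agent.S21.chi N chiBase (Fermat.Agent.S21.mob γ (z : ℂ)) := by
  rw [wt, mob_coe_eq]

section

variable (N : ℕ) [NeZero N]

theorem wt_nonneg (z : ℍ) : 0 ≤ wt N z :=
  Fermat.Agent.S21.chi_nonneg N isPartition_chiBase _

theorem wt_le_one (z : ℍ) : wt N z ≤ 1 :=
  Fermat.Agent.S21.chi_le_one N isPartition_chiBase _

theorem continuous_wt : Continuous (wt N) := by
  have h := Fermat.Agent.S21.continuousOn_chi N isPartition_chiBase
  exact h.comp_continuous _root_.UpperHalfPlane.continuous_coe fun z => z.im_pos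

theorem finite_support_wt (z : ℍ) :
    (Function.support fun γ : Gamma0 N => wt N ((γ : SL(2, ℤ)) • z)).Finite := by
  have h := Fermat.Agent.S21.chi_locfin N isPartition_chiBase {(z : ℂ)} isCompact_singleton
    (by
      intro w hw
      rw [Set.mem_singleton_iff] at hw
      subst hw
      exact z.im_pos)
  refine h.subset fun γ hγ => ⟨(z : ℂ), rfl, ?_⟩
  rw [← wt_smul_eq]
  exact hγ

theorem hasSum_wt (z : ℍ) : HasSum (fun γ : Gamma0 N => wt N ((γ : SL(2, ℤ)) • z)) 1 := by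
  classical
  have hfin := finite_support_wt N z
  have h1 := Fermat.Agent.S21.chi_sum_eq_one N isPartition_chiBase (z : ℂ) z.im_pos
  have h2 : ∑ᶠ γ : Gamma0 N, wt N ((γ : SL(2, ℤ)) • z) = 1 := by
    rw [← h1]
    exact finsum_congr fun γ => wt_smul_eq N _ z
  rw [← h2, finsum_eq_sum _ hfin]
  exact hasSum_sum_of_ne_finset_zero fun γ hγ => by
    simpa using hγ

end

/-- the density on `ℂ` -/
noncomputable def dens (z : ℂ) : ℝ≥0∞ := ↑((1 / ‖z.im‖₊) ^ 2 : NNReal)

/-- the Siegel-type box in `ℂ` -/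
def boxC : Set ℂ := {z : ℂ | |z.re| ≤ 1 ∧ 1 / 2 < z.im}

theorem lintegral_Ioi_half_lt_top :
    ∫⁻ y in Set.Ioi (1 / 2 : ℝ), (↑((1 / ‖y‖₊) ^ 2 : NNReal) : ℝ≥0∞) < ∞ := by
  have h := integrableOn_Ioi_rpow_of_lt (a := -2) (c := 1 / 2) (by norm_num) (by norm_num)
  have h2 := h.hasFiniteIntegral
  rw [HasFiniteIntegral] at h2
  refine lt_of_le_of_lt (le_of_eq ?_) h2
  refine setLIntegral_congr_fun measurableSet_Ioi fun y hy => ?_
  have hy0 : (0 : ℝ) < y := lt_trans (by norm_num) hy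
  rw [enorm_eq_nnnorm]
  congr 1
  ext
  simp only [NNReal.coe_pow, one_div, NNReal.coe_inv, coe_nnnorm, Real.norm_eq_abs]
  rw [abs_of_pos hy0, abs_of_pos (Real.rpow_pos_of_pos hy0 _),
    Real.rpow_neg hy0.le, _root_.inv_pow]
  norm_num

theorem lintegral_boxC_lt_top : ∫⁻ z in boxC, dens z < ∞ := by
  have hmp := Complex.volume_preserving_equiv_real_prod
  have hbox : boxC = Complex.measurableEquivRealProd ⁻¹' (Set.Icc (-1 : ℝ) 1 ×ˢ Set.Ioi (1 / 2 : ℝ)) := by
    ext z
    simp [boxC, abs_le, Complex.measurableEquivRealProd]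
  have hdens : ∀ z : ℂ, dens z =
      (fun p : ℝ × ℝ => (↑((1 / ‖p.2‖₊) ^ 2 : NNReal) : ℝ≥0∞)) (Complex.measurableEquivRealProd z) := by
    intro z
    simp [dens, Complex.measurableEquivRealProd]
  have key := hmp.setLIntegral_comp_preimage_emb Complex.measurableEquivRealProd.measurableEmbedding
    (fun p : ℝ × ℝ => (↑((1 / ‖p.2‖₊) ^ 2 : NNReal) : ℝ≥0∞)) (Set.Icc (-1 : ℝ) 1 ×ˢ Set.Ioi (1 / 2 : ℝ))
  have e1 : ∫⁻ z in boxC, dens z = ∫⁻ (b : ℝ × ℝ) in Set.Icc (-1 : ℝ) 1 ×ˢ Set.Ioi (1 / 2 : ℝ),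
      (↑((1 / ‖b.2‖₊) ^ 2 : NNReal) : ℝ≥0∞) := by
    rw [← key, hbox]
    exact lintegral_congr fun z => hdens z
  rw [e1, Measure.volume_eq_prod, setLIntegral_prod]
  · simp only
    rw [lintegral_const]
    exact ENNReal.mul_lt_top lintegral_Ioi_half_lt_top (by simp)
  · apply Measurable.aemeasurable
    fun_prop


/-- the Siegel-type box in `ℍ` -/
def boxH : Set ℍ := {z : ℍ | |z.re| ≤ 1 ∧ 1 / 2 < z.im}

theorem volume_boxH_lt_top : volume boxH < ∞ := by
  rw [UpperHalfPlane.volume_eq_lintegral]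
  refine lt_of_le_of_lt (lintegral_mono_set ?_) lintegral_boxC_lt_top
  rintro _ ⟨z, hz, rfl⟩
  exact hz

theorem measurableSet_boxH : MeasurableSet boxH := by
  have h1 : Continuous fun z : ℍ => |z.re| := continuous_abs.comp UpperHalfPlane.continuous_re
  have h2 : Continuous fun z : ℍ => z.im := UpperHalfPlane.continuous_im
  exact (isClosed_le h1 continuous_const).measurableSet.inter
    (isOpen_lt continuous_const h2).measurableSet

theorem continuous_chiBase_coe : Continuous fun z : ℍ => chiBase (z : ℂ) :=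
  isPartition_chiBase.smooth.continuousOn.comp_continuous _root_.UpperHalfPlane.continuous_coe fun z => z.im_pos

theorem chiBase_le_one (z : ℍ) : chiBase (z : ℂ) ≤ 1 := by
  classical
  have hfin := Fermat.Agent.S21.IntAAux.finite_support chiBase isPartition_chiBase (z : ℂ) z.im_pos
  have h1 := isPartition_chiBase.sum_eq_one (z : ℂ) z.im_pos
  rw [finsum_eq_sum _ hfin] at h1
  by_cases h0 : chiBase (z : ℂ) = 0
  · rw [h0]; exact zero_le_one
  · have hmem : (1 : SL(2, ℤ)) ∈ hfin.toFinset := by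
      rw [Set.Finite.mem_toFinset, Function.mem_support]
      simpa [Fermat.Agent.S21.mob] using h0
    have h2 := Finset.single_le_sum (f := fun g : SL(2, ℤ) => chiBase (Fermat.Agent.S21.mob g (z : ℂ)))
      (fun g _ => isPartition_chiBase.nonneg _) hmem
    rw [h1] at h2
    simpa [Fermat.Agent.S21.mob] using h2

theorem integrable_chiBase : Integrable (fun z : ℍ => chiBase (z : ℂ)) volume := by
  have hb : Integrable (boxH.indicator fun _ : ℍ => (1 : ℝ)) volume :=
    (integrable_indicator_iff measurableSet_boxH).mpr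
      (integrableOn_const (by exact volume_boxH_lt_top.ne))
  refine hb.mono' continuous_chiBase_coe.aestronglyMeasurable (Filter.Eventually.of_forall fun z => ?_)
  rw [Real.norm_of_nonneg (isPartition_chiBase.nonneg _)]
  by_cases hz : z ∈ boxH
  · rw [Set.indicator_of_mem hz]
    exact chiBase_le_one z
  · rw [Set.indicator_of_notMem hz]
    by_contra hne
    push Not at hne
    exact hz (isPartition_chiBase.supp _ (ne_of_gt hne))

theorem integrable_chiBase_smul (g : SL(2, ℤ)) :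
    Integrable (fun z : ℍ => chiBase ((g • z : ℍ) : ℂ)) volume := by
  have hmp : MeasurePreserving (fun z : ℍ => (g : GL (Fin 2) ℝ) • z) volume volume :=
    measurePreserving_smul (g : GL (Fin 2) ℝ) volume
  have h := hmp.integrable_comp_of_integrable integrable_chiBase
  refine h.congr (Filter.Eventually.of_forall fun z => ?_)
  simp only [Function.comp_apply]
  rw [ModularGroup.sl_moeb]

variable (N : ℕ) [NeZero N]

omit [NeZero N] in
theorem wt_eq_sum (z : ℍ) [Fintype (SL(2, ℤ) ⧸ Gamma0 N)] :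
    wt N z = ∑ q : SL(2, ℤ) ⧸ Gamma0 N, chiBase ((((Quotient.out q : SL(2, ℤ)) • z : ℍ)) : ℂ) := by
  rw [wt, Fermat.Agent.S21.IntAAux.chi_of_mem N chiBase z.im_pos, finsum_eq_sum_of_fintype]
  exact Finset.sum_congr rfl fun q _ => by rw [mob_coe_eq]

theorem integrable_wt : Integrable (wt N) volume := by
  have : Finite (SL(2, ℤ) ⧸ Gamma0 N) := Subgroup.finite_quotient_of_finiteIndex
  let _ : Fintype (SL(2, ℤ) ⧸ Gamma0 N) := Fintype.ofFinite _
  have h : Integrable (fun z : ℍ => ∑ q : SL(2, ℤ) ⧸ Gamma0 N,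
      chiBase ((((Quotient.out q : SL(2, ℤ)) • z : ℍ)) : ℂ)) volume :=
    integrable_finsetSum _ fun q _ => integrable_chiBase_smul _
  exact h.congr (Filter.Eventually.of_forall fun z => (wt_eq_sum N z).symm)

end Fermat.Agent.S31.H862

end
-- ===== PACK-END S31/H862/Weight.lean

-- ===== PACK-BEGIN S30/H330/AdicAssembly.lean
section
/-
S30 -- ADIC MODULE LAYER, pieces 2-4 (helper330): eigenvector, finiteness of `J[p]`, assembly.
`hasAdicFrobModule_of_inputs` : (K) + (P) + (T) + (Sm) + (GH)  ⟹  `HasAdicFrobModule`.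
-/



set_option autoImplicit false

noncomputable section

namespace Fermat.Agent.S30.H330

open Fermat.Agent.S29 ModularCurve
open scoped MatrixGroups

/-! ### Generalities on parabolic characters -/

section ParHom

variable {N : ℕ}

theorem isParHom_zero {A : Type*} [AddCommGroup A] : IsParHom (0 : G0 N → A) :=
  ⟨fun _ _ => by simp, fun _ _ => rfl, fun _ _ _ _ => rfl⟩

theorem isParHom_add {A : Type*} [AddCommGroup A] {c c' : G0 N → A} (hc : IsParHom c)
    (hc' : IsParHom c') : IsParHom (c + c') :=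
  ⟨fun γ γ' => by simp only [Pi.add_apply, hc.map_mul, hc'.map_mul]; abel,
    fun γ h => by simp only [Pi.add_apply, hc.parabolic γ h, hc'.parabolic γ h, add_zero],
    fun γ n hn h => by
      simp only [Pi.add_apply, hc.elliptic γ n hn h, hc'.elliptic γ n hn h, add_zero]⟩

theorem isParHom_nsmul {A : Type*} [AddCommGroup A] {c : G0 N → A} (hc : IsParHom c) (n : ℕ) :
    IsParHom (n • c) := by
  induction n with
  | zero => rw [zero_nsmul]; exact isParHom_zero
  | succ n ih => rw [succ_nsmul]; exact isParHom_add ih hc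

/-- Push-forward of a parabolic character along an additive map. -/
theorem isParHom_comp {A B : Type*} [AddCommGroup A] [AddCommGroup B] {c : G0 N → A}
    (hc : IsParHom c) (φ : A →+ B) : IsParHom (fun γ => φ (c γ)) :=
  ⟨fun γ γ' => by simp only [hc.map_mul, map_add],
    fun γ h => by simp only [hc.parabolic γ h, map_zero],
    fun γ n hn h => by simp only [hc.elliptic γ n hn h, map_zero]⟩

theorem isParHom_map_one {A : Type*} [AddCommGroup A] {c : G0 N → A} (hc : IsParHom c) :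
    c 1 = 0 := by
  have := hc.map_mul 1 1
  rw [mul_one] at this
  exact left_eq_add.mp this

theorem heckeCoh_comp {A B : Type*} [AddCommGroup A] [AddCommGroup B] (ℓ : ℕ) (c : G0 N → A)
    (φ : A →+ B) : heckeCoh N ℓ (fun γ => φ (c γ)) = fun γ => φ (heckeCoh N ℓ c γ) := by
  funext γ
  simp only [heckeCoh, map_sum]

end ParHom

/-! ### Consequences of the Kummer statement -/

section Kummer

variable {N : ℕ}

theorem kummer_zero {κ : (G0 N → QZ) → JZero N}
    (hadd : ∀ c c', IsParHom c → IsParHom c' → κ (c + c') = κ c + κ c') : κ 0 = 0 := by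
  have := hadd 0 0 isParHom_zero isParHom_zero
  rw [add_zero] at this
  exact left_eq_add.mp this

theorem kummer_nsmul {κ : (G0 N → QZ) → JZero N}
    (hadd : ∀ c c', IsParHom c → IsParHom c' → κ (c + c') = κ c + κ c') {c : G0 N → QZ}
    (hc : IsParHom c) (n : ℕ) : κ (n • c) = n • κ c := by
  induction n with
  | zero => rw [zero_nsmul, zero_nsmul]; exact kummer_zero hadd
  | succ n ih => rw [succ_nsmul, succ_nsmul, hadd _ _ (isParHom_nsmul hc n) hc, ih]

end Kummer

/-! ### Piece 3: finiteness of the `p`-torsion -/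

section Fin

variable {N : ℕ} [NeZero N]

theorem fg_SL2Z : Group.FG SL(2, ℤ) := by
  rw [Group.fg_iff]
  exact ⟨{ModularGroup.S, ModularGroup.T}, SpecialLinearGroup.SL2Z_generators,
    Set.toFinite _⟩

theorem fg_G0 : Group.FG (G0 N) := by
  have := fg_SL2Z
  exact Subgroup.fg_of_index_ne_zero (CongruenceSubgroup.Gamma0 N)

/-- The `p`-torsion of `ℚ/ℤ` is finite. -/
theorem finite_QZ_torsion {p : ℕ} (hp : p.Prime) : {y : QZ | p • y = 0}.Finite := by
  have h1 := AddCircle.finite_setOfPred_addOrderOf_eq (1 : ℚ) (n := 1) one_pos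
  have hp' := AddCircle.finite_setOfPred_addOrderOf_eq (1 : ℚ) (n := p) hp.pos
  refine (h1.union hp').subset ?_
  intro y hy
  have hdvd : addOrderOf y ∣ p := addOrderOf_dvd_of_nsmul_eq_zero hy
  rcases (Nat.dvd_prime hp).mp hdvd with h | h
  · exact Or.inl h
  · exact Or.inr h

/-- A parabolic character as a monoid homomorphism. -/
def parHomToMonoidHom {c : G0 N → QZ} (hc : IsParHom c) : G0 N →* Multiplicative QZ where
  toFun γ := Multiplicative.ofAdd (c γ)
  map_one' := by rw [isParHom_map_one hc]; rfl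
  map_mul' γ γ' := by rw [hc.map_mul]; rfl

omit [NeZero N] in
theorem parHom_ext {S₀ : Set (G0 N)} (hS₀ : Subgroup.closure S₀ = ⊤) {c c' : G0 N → QZ}
    (hc : IsParHom c) (hc' : IsParHom c') (h : ∀ s ∈ S₀, c s = c' s) : c = c' := by
  have heq : parHomToMonoidHom hc = parHomToMonoidHom hc' := by
    refine MonoidHom.eq_of_eqOn_dense hS₀ ?_
    intro s hs
    show Multiplicative.ofAdd (c s) = Multiplicative.ofAdd (c' s)
    rw [h s hs]
  funext γ
  have := congrArg (fun φ : G0 N →* Multiplicative QZ => Multiplicative.toAdd (φ γ)) heq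
  exact this

/-- The set of parabolic characters of exponent `p` is finite. -/
theorem finite_parHom_torsion {p : ℕ} (hp : p.Prime) :
    {c : G0 N → QZ | IsParHom c ∧ p • c = 0}.Finite := by
  classical
  obtain ⟨S₀, hS₀, hS₀fin⟩ := Group.fg_iff.mp (fg_G0 (N := N))
  have : Finite S₀ := hS₀fin.to_subtype
  let f : (G0 N → QZ) → (S₀ → QZ) := fun c s => c s
  refine Set.Finite.of_finite_image (f := f) ?_ ?_
  · refine (Set.Finite.pi (t := fun _ : S₀ => {y : QZ | p • y = 0})
      (fun _ => finite_QZ_torsion hp)).subset ?_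
    rintro _ ⟨c, ⟨-, hc⟩, rfl⟩
    intro s _
    show p • c s = 0
    have := congrFun hc s
    simpa using this
  · rintro c ⟨hc, -⟩ c' ⟨hc', -⟩ h
    refine parHom_ext hS₀ hc hc' fun s hs => ?_
    exact congrFun h ⟨s, hs⟩

/-- PIECE 3: finiteness of the `p`-torsion of `J₀(N)(ℚ̄)`. -/
theorem finite_torsion {p : ℕ} [Fact p.Prime] (hK : KummerStatement N p) :
    {x : JZero N | p • x = 0}.Finite := by
  obtain ⟨κ, hadd, hinj, hsurj, -⟩ := hK
  refine ((finite_parHom_torsion (N := N) (Fact.out : p.Prime)).image κ).subset ?_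
  intro x hx
  obtain ⟨c, hc, rfl⟩ := hsurj x ⟨1, by simpa using hx⟩
  refine ⟨c, ⟨hc, ?_⟩, rfl⟩
  apply hinj _ (isParHom_nsmul hc p)
  rw [kummer_nsmul hadd hc]
  exact hx

end Fin

/-! ### Piece 2: the eigenvector -/

section Eigen

/-- A nonzero additive character `ϑ : L → ℚ/ℤ` killing `O`, with `ϑ(1/ϖ) ≠ 0`. -/
theorem exists_character {O : Type} [CommRing O] [IsDomain O] {ϖ : O} (hϖ : Irreducible ϖ) :
    ∃ ϑ : FractionRing O →+ QZ, (∀ r : O, ϑ (algebraMap O (FractionRing O) r) = 0) ∧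
      ϑ ((algebraMap O (FractionRing O) ϖ)⁻¹) ≠ 0 := by
  let Osub : AddSubgroup (FractionRing O) := (algebraMap O (FractionRing O)).toAddMonoidHom.range
  have hne : (QuotientAddGroup.mk ((algebraMap O (FractionRing O) ϖ)⁻¹) : FractionRing O ⧸ Osub)
      ≠ 0 := by
    intro h
    rw [QuotientAddGroup.eq_zero_iff] at h
    obtain ⟨r, hr⟩ := h
    have hϖ0 : algebraMap O (FractionRing O) ϖ ≠ 0 := algebraMap_irreducible_ne_zero hϖ
    have h1 : algebraMap O (FractionRing O) (r * ϖ) = algebraMap O (FractionRing O) 1 := by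
      rw [map_mul, map_one]
      have : algebraMap O (FractionRing O) r = (algebraMap O (FractionRing O) ϖ)⁻¹ := hr
      rw [this, inv_mul_cancel₀ hϖ0]
    have h2 : r * ϖ = 1 := IsFractionRing.injective O (FractionRing O) h1
    exact hϖ.not_isUnit (IsUnit.of_mul_eq_one r (by rw [mul_comm]; exact h2))
  obtain ⟨ϑ₀, hϑ₀⟩ := CharacterModule.exists_character_apply_ne_zero_of_ne_zero hne
  refine ⟨(show (FractionRing O ⧸ Osub) →+ QZ from ϑ₀).comp (QuotientAddGroup.mk' Osub),
    fun r => ?_, hϑ₀⟩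
  show ϑ₀ (QuotientAddGroup.mk (algebraMap O (FractionRing O) r)) = 0
  have : (QuotientAddGroup.mk (algebraMap O (FractionRing O) r) : FractionRing O ⧸ Osub) = 0 := by
    rw [QuotientAddGroup.eq_zero_iff]
    exact ⟨r, rfl⟩
  rw [this, map_zero]

theorem eigenvalue_eq {N : ℕ} [NeZero N] {S : Finset ℕ} {O : Type} [CommRing O]
    (χ : CuspForm.heckeAlgebra N 2 (↑S : Set ℕ) →+* O) {ℓ : ℕ} (hℓ : ℓ.Prime) (hℓN : ¬ ℓ ∣ N)
    (hℓS : ℓ ∉ (↑S : Set ℕ)) : eigenvalue χ ℓ = χ (CuspForm.heckeAlgebra.T hℓ hℓN hℓS) := by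
  unfold eigenvalue
  rw [dif_pos ⟨hℓ, hℓN, hℓS⟩]

/-- PIECE 2: the eigenvector `f(x) = κ(γ ↦ ϑ(c(γ) x))`. -/
theorem exists_eigenHom {p : ℕ} [Fact p.Prime] {N : ℕ} [NeZero N] {S : Finset ℕ}
    (hpS : p ∈ S) (hNS : ∀ q : ℕ, q.Prime → q ∣ N → q ∈ S)
    {O : Type} [CommRing O] [IsDomain O] [IsDiscreteValuationRing O]
    (χ : CuspForm.heckeAlgebra N 2 (↑S : Set ℕ) →+* O)
    (hK : KummerStatement N p) (hP : ParEigenStatement N S O χ) :
    ∃ f : FractionRing O →+ JZero N,
      (∀ r : O, f (algebraMap O (FractionRing O) r) = 0) ∧ f ≠ 0 ∧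
      ∀ (ℓ : Nat.Primes), (ℓ : ℕ) ∉ S → ∀ x,
        heckeOperatorBar N ℓ (f x) =
          f (algebraMap O (FractionRing O) (eigenvalue χ ℓ) * x) := by
  classical
  obtain ⟨κ, hadd, hinj, -, hhecke⟩ := hK
  obtain ⟨c, hc, hc0, hceig⟩ := hP
  obtain ⟨ϖ, hϖ⟩ := IsDiscreteValuationRing.exists_irreducible O
  obtain ⟨ϑ, hϑ0, hϑ1⟩ := exists_character hϖ
  -- the additive map `r ↦ ϑ (r x)`
  let φ : FractionRing O → (O →+ QZ) := fun x =>
    ϑ.comp ((AddMonoidHom.mulRight x).comp (algebraMap O (FractionRing O)).toAddMonoidHom)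
  have hφ : ∀ x r, φ x r = ϑ (algebraMap O (FractionRing O) r * x) := fun x r => rfl
  let cx : FractionRing O → (G0 N → QZ) := fun x γ => φ x (c γ)
  have hcx : ∀ x, IsParHom (cx x) := fun x => isParHom_comp hc (φ x)
  have hcx_add : ∀ x y, cx (x + y) = cx x + cx y := by
    intro x y
    funext γ
    show φ (x + y) (c γ) = φ x (c γ) + φ y (c γ)
    rw [hφ, hφ, hφ, mul_add, map_add]
  let f : FractionRing O →+ JZero N := AddMonoidHom.mk' (fun x => κ (cx x)) (fun x y => by
    show κ (cx (x + y)) = κ (cx x) + κ (cx y)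
    rw [hcx_add, hadd _ _ (hcx x) (hcx y)])
  have hf : ∀ x, f x = κ (cx x) := fun x => rfl
  refine ⟨f, fun r => ?_, ?_, fun ℓ hℓS x => ?_⟩
  · rw [hf]
    have : cx (algebraMap O (FractionRing O) r) = 0 := by
      funext γ
      show φ _ (c γ) = 0
      rw [hφ, ← map_mul]
      exact hϑ0 _
    rw [this]
    exact kummer_zero hadd
  · intro hf0
    obtain ⟨γ₀, hγ₀⟩ : ∃ γ₀, c γ₀ ≠ 0 := by
      by_contra h
      push Not at h
      exact hc0 (funext h)
    have hcγ : algebraMap O (FractionRing O) (c γ₀) ≠ 0 := by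
      simpa using hγ₀
    set x₀ : FractionRing O :=
      (algebraMap O (FractionRing O) (c γ₀))⁻¹ * (algebraMap O (FractionRing O) ϖ)⁻¹ with hx₀
    have h1 : κ (cx x₀) = 0 := by
      rw [← hf, hf0]
      rfl
    have h2 := hinj _ (hcx x₀) h1
    have h3 : cx x₀ γ₀ = 0 := by rw [h2]; rfl
    apply hϑ1
    have h4 : cx x₀ γ₀ = ϑ ((algebraMap O (FractionRing O) ϖ)⁻¹) := by
      show φ x₀ (c γ₀) = _
      rw [hφ, hx₀, mul_inv_cancel_left₀ hcγ]
    rw [← h4, h3]
  · have hℓ : (ℓ : ℕ).Prime := ℓ.2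
    have hℓN : ¬ (ℓ : ℕ) ∣ N := fun h => hℓS (hNS _ hℓ h)
    have hℓS' : (ℓ : ℕ) ∉ (↑S : Set ℕ) := by simpa using hℓS
    have hℓNp : ¬ (ℓ : ℕ) ∣ N * p := by
      intro h
      rcases (Nat.Prime.dvd_mul hℓ).mp h with h | h
      · exact hℓN h
      · have : (ℓ : ℕ) = p := (Nat.prime_dvd_prime_iff_eq hℓ (Fact.out : p.Prime)).mp h
        exact hℓS (this ▸ hpS)
    rw [hf, hf, ← hhecke ℓ hℓNp _ (hcx x)]
    congr 1
    rw [show cx x = fun γ => φ x (c γ) from rfl, heckeCoh_comp]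
    funext γ
    show φ x (heckeCoh N ℓ c γ) = φ _ (c γ)
    rw [hφ, hφ, hceig ℓ hℓ hℓN hℓS' γ, eigenvalue_eq χ hℓ hℓN hℓS']
    congr 1
    rw [map_mul (algebraMap O (FractionRing O))]
    ring

end Eigen

/-! ### Piece 4: assembly -/

/-- ASSEMBLY of the adic module layer: (K) + (P) + (T) + (Sm) + (GH) ⟹ `HasAdicFrobModule`. -/
theorem hasAdicFrobModule_of_inputs {p : ℕ} [Fact p.Prime] {N : ℕ} [NeZero N] {S : Finset ℕ}
    (hpS : p ∈ S) (hNS : ∀ q : ℕ, q.Prime → q ∣ N → q ∈ S)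
    {O : Type} [CommRing O] [IsDomain O] [IsDiscreteValuationRing O]
    [IsAdicComplete (IsLocalRing.maximalIdeal O) O] [Finite (IsLocalRing.ResidueField O)]
    [CharZero O] (hpO : (p : O) ∈ IsLocalRing.maximalIdeal O)
    (χ : CuspForm.heckeAlgebra N 2 (↑S : Set ℕ) →+* O)
    (hK : KummerStatement N p) (hP : ParEigenStatement N S O χ) (hT : TorsionRelations N p)
    (hSm : SmoothStatement N) (hGH : GaloisHeckeStatement N) :
    HasAdicFrobModule O (N * p) (fun ℓ => ℓ ∉ S) (eigenvalue χ) := by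
  classical
  obtain ⟨f, hf0, hf, hfe⟩ := exists_eigenHom hpS hNS χ hK hP
  have hfin := finite_torsion hK
  -- index set of Hecke operators
  let t : {ℓ : Nat.Primes // (ℓ : ℕ) ∉ S} → JZero N →+ JZero N := fun i =>
    (heckeOperatorBar N i.1).toAddMonoidHom
  let a : {ℓ : Nat.Primes // (ℓ : ℕ) ∉ S} → O := fun i => eigenvalue χ (i.1 : ℕ)
  have ht : ∀ i (σ : GQ) (x : JZero N), σ • t i x = t i (σ • x) := fun i σ x => hGH σ i.1 x
  obtain ⟨M, i1, i2, i3, i4, ρ, hnt, hcont, hunr, hquad⟩ :=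
    adicModule_of_torsion (J := JZero N) (Fact.out : p.Prime) hpO (fun x => hSm x) hfin t ht a f
      hf0 hf (fun i x => hfe i.1 i.2 x)
  refine ⟨M, i1, i2, i3, i4, ρ, hnt, hcont, ?_, ?_⟩
  · intro ℓ hℓ hℓNp A hA σ hσ
    exact hunr σ fun x hx => (hT ℓ hℓ hℓNp A hA).1 σ hσ x hx
  · intro ℓ hℓ hℓS A hA σ hσ
    have hℓN : ¬ ℓ ∣ N := fun h => hℓS (hNS _ hℓ h)
    have hℓNp : ¬ ℓ ∣ N * p := by
      intro h
      rcases (Nat.Prime.dvd_mul hℓ).mp h with h | h
      · exact hℓN h
      · have : ℓ = p := (Nat.prime_dvd_prime_iff_eq hℓ (Fact.out : p.Prime)).mp h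
        exact hℓS (this ▸ hpS)
    exact hquad ⟨⟨ℓ, hℓ⟩, hℓS⟩ ℓ σ fun x hx => (hT ℓ hℓ hℓNp A hA).2 σ hσ x hx

end Fermat.Agent.S30.H330

end
end
-- ===== PACK-END S30/H330/AdicAssembly.lean

-- ===== PACK-BEGIN S24/Deg/H457_Main.lean
section


/-!
# S24 / DEG-ALG (helper457), part 4: the degree bound for `FF N / Kbar(jF N)`

`finiteDimensional_and_finrank_le`: from the interface hypothesis `Hyp ℂ N n` (relations over `ℂ`)
we get `FiniteDimensional Kbar⟮jF N⟯ (FF N)` and `finrank ≤ n`.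
-/

set_option autoImplicit false

noncomputable section

open Polynomial ModularCurve IntermediateField

namespace Fermat.Agent.S24.Deg457

/-- Lemma X: a bivariate relation gives integrality + degree bound over an intermediate field. -/
theorem isIntegral_and_natDegree_le_of_relation {K M E : Type*} [Field K] [Field M] [Field E]
    [Algebra K M] [Algebra M E] [Algebra K E] [IsScalarTower K M E] (j : M)
    (hj : ∀ t : K[X], t ≠ 0 → aeval j t ≠ 0) (x : E) (Q : K[X][X]) (hQ0 : Q ≠ 0) (n : ℕ)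
    (hQn : Q.natDegree ≤ n)
    (hQ : Q.eval₂ ((aeval (algebraMap M E j) : K[X] →ₐ[K] E).toRingHom) x = 0) :
    IsIntegral M x ∧ (minpoly M x).natDegree ≤ n := by
  set φ : K[X] →+* M := (aeval j : K[X] →ₐ[K] M).toRingHom with hφ
  have hφinj : Function.Injective φ := by
    rw [injective_iff_map_eq_zero]
    intro t ht
    by_contra h0
    exact hj t h0 ht
  have hp0 : Q.map φ ≠ 0 := by
    rw [Ne, Polynomial.map_eq_zero_iff hφinj]
    exact hQ0
  have hcomp : (algebraMap M E).comp φ = (aeval (algebraMap M E j) : K[X] →ₐ[K] E).toRingHom := by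
    refine Polynomial.ringHom_ext ?_ ?_
    · intro c
      simp [hφ, ← IsScalarTower.algebraMap_apply]
    · simp [hφ]
  have hroot : aeval x (Q.map φ) = 0 := by
    rw [aeval_def, eval₂_map, hcomp]
    exact hQ
  have hint : IsIntegral M x := (IsAlgebraic.isIntegral ⟨Q.map φ, hp0, hroot⟩)
  refine ⟨hint, ?_⟩
  have h1 := minpoly.degree_le_of_ne_zero M x hp0 hroot
  have h2 := natDegree_le_natDegree h1
  exact h2.trans ((natDegree_map_le).trans hQn)

/-- an embedding `ℚ̄ → ℂ` -/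
def iotaC : Kbar →+* ℂ := by
  haveI : Algebra.IsAlgebraic ℚ (AlgebraicClosure ℚ) := AlgebraicClosure.isAlgebraic ℚ
  exact ((IsAlgClosed.lift : AlgebraicClosure ℚ →ₐ[ℚ] ℂ) : AlgebraicClosure ℚ →+* ℂ)

variable (N : ℕ) [NeZero N]

theorem coe_jF : ((jF N : FF N) : LaurentSeries Kbar) = JK Kbar := rfl

/-- **Degree bound** (DEG-ALG): from the analytic interface hypothesis over `ℂ`. -/
theorem finiteDimensional_and_finrank_le (n : ℕ) (hyp : Hyp ℂ N n) :
    FiniteDimensional ↥(IntermediateField.adjoin Kbar {jF N}) (FF N) ∧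
      Module.finrank ↥(IntermediateField.adjoin Kbar {jF N}) (FF N) ≤ n := by
  refine finiteDimensional_and_finrank_le_of_forall_natDegree_minpoly_le n fun x => ?_
  obtain ⟨Q, hQ0, hQn, hQ⟩ := algDeg_of_mem_field iotaC hyp x.2
  have hinc : Function.Injective (algebraMap (FF N) (LaurentSeries Kbar)) :=
    (algebraMap (FF N) (LaurentSeries Kbar)).injective
  refine isIntegral_and_natDegree_le_of_relation (K := Kbar)
    (AdjoinSimple.gen Kbar (jF N)) ?_ x Q hQ0 n hQn ?_
  · intro t ht h0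
    apply aeval_JK_ne_zero Kbar ht
    have h1 := congrArg (algebraMap ↥(IntermediateField.adjoin Kbar {jF N}) (FF N)) h0
    rw [← aeval_algebraMap_apply, _root_.map_zero, AdjoinSimple.algebraMap_gen] at h1
    have h2 := congrArg (algebraMap (FF N) (LaurentSeries Kbar)) h1
    rw [← aeval_algebraMap_apply, _root_.map_zero] at h2
    exact h2
  · apply hinc
    rw [_root_.map_zero, Polynomial.hom_eval₂, AdjoinSimple.algebraMap_gen]
    have hcomp : (algebraMap (FF N) (LaurentSeries Kbar)).comp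
        ((aeval (jF N) : Kbar[X] →ₐ[Kbar] FF N).toRingHom) = evJ (JK Kbar) := by
      refine Polynomial.ringHom_ext ?_ ?_
      · intro c
        simp [evJ, ← IsScalarTower.algebraMap_apply]
      · simp [evJ]
        rfl
    rw [hcomp]
    exact hQ

end Fermat.Agent.S24.Deg457

end
end
-- ===== PACK-END S24/Deg/H457_Main.lean

-- ===== PACK-BEGIN S24/Inf/Subst.lean
section


/-!
# S24 / MOD-INF — substitution `τ ↦ (aτ + b)/d` in convergent Laurent expansions
-/

set_option autoImplicit false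

noncomputable section

open HahnSeries ModularCurve UpperHalfPlane Complex
open scoped Real

namespace Fermat.Agent.S24

/-- The map `τ ↦ (aτ + b)/d` of `ℍ` (the identity if `a = 0` or `d = 0`). -/
def infAff (a : ℕ) (b : ℤ) (d : ℕ) (τ : ℍ) : ℍ :=
  if h : 0 < a ∧ 0 < d then
    ⟨((a : ℂ) * τ + b) / d, by
      have ha : (0 : ℝ) < a := by exact_mod_cast h.1
      have hd : (0 : ℝ) < d := by exact_mod_cast h.2
      have e : (((a : ℂ) * τ + b) / d).im = a * τ.im / d := by
        have : ((a : ℂ) * τ + b) / d = (((a : ℝ) : ℂ) * τ + ((b : ℝ) : ℂ)) / ((d : ℝ) : ℂ) := by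
          push_cast; rfl
        rw [this, Complex.div_ofReal_im]
        simp
      rw [e]
      have := τ.im_pos
      positivity⟩
  else τ

theorem infAff_coe {a d : ℕ} (ha : 0 < a) (hd : 0 < d) (b : ℤ) (τ : ℍ) :
    (infAff a b d τ : ℂ) = ((a : ℂ) * τ + b) / d := by
  rw [infAff, dif_pos ⟨ha, hd⟩]

@[simp]
theorem infAff_one_zero_one (τ : ℍ) : infAff 1 0 1 τ = τ := by
  apply UpperHalfPlane.ext
  rw [infAff_coe one_pos one_pos]
  simp

/-- The unit `exp (2πi b/n)` of `ℂ`. -/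
def infRoot (b : ℤ) (n : ℕ) : ℂˣ :=
  Units.mk0 (Complex.exp (2 * π * Complex.I * b / n)) (Complex.exp_ne_zero _)

@[simp]
theorem infRoot_coe (b : ℤ) (n : ℕ) :
    ((infRoot b n : ℂˣ) : ℂ) = Complex.exp (2 * π * Complex.I * b / n) := rfl

theorem infRoot_zpow_coe (b : ℤ) (n : ℕ) (k : ℤ) :
    (((infRoot b n) ^ k : ℂˣ) : ℂ) = Complex.exp (2 * π * Complex.I * b / n) ^ k := by
  rw [Units.val_zpow_eq_zpow_val, infRoot_coe]

theorem infRoot_zero (n : ℕ) : infRoot 0 n = 1 := by
  apply Units.ext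
  simp

/-- Key computation: `z_M((aτ+b)/d) = exp(2πi b/(dM)) · z_N(τ)^e` when `e·d·M = a·N`. -/
theorem infZ_infAff {M N a d e : ℕ} (b : ℤ) (ha : 0 < a) (hd : 0 < d) (hM : 0 < M)
    (hN : 0 < N) (he : e * (d * M) = a * N) (τ : ℍ) :
    infZ M (infAff a b d τ) = (infRoot b (d * M) : ℂ) * infZ N τ ^ e := by
  rw [infZ_def, infZ_def, infAff_coe ha hd, infRoot_coe, ← Complex.exp_nat_mul, ← Complex.exp_add]
  congr 1
  have hd' : (d : ℂ) ≠ 0 := by exact_mod_cast hd.ne'
  have hM' : (M : ℂ) ≠ 0 := by exact_mod_cast hM.ne'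
  have hN' : (N : ℂ) ≠ 0 := by exact_mod_cast hN.ne'
  have he' : (e : ℂ) * ((d : ℂ) * M) = a * N := by exact_mod_cast congrArg (Nat.cast : ℕ → ℂ) he
  push_cast
  field_simp
  linear_combination (-(τ : ℂ)) * he'

/-- **Substitution (general form).** If `z_M(u τ) = c · z_N(τ)^k` then `f ∘ u` has the
expansion `φ(c · z^k)` in `z_N`. -/
theorem InfExp.subst {M N : ℕ} {f : ℍ → ℂ} {φ : LaurentSeries ℂ} (hf : InfExp M f φ)
    (u : ℍ → ℍ) (c : ℂˣ) (k : ℕ) [NeZero k]
    (hu : ∀ τ : ℍ, infZ M (u τ) = (c : ℂ) * infZ N τ ^ k) :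
    InfExp N (fun τ => f (u τ)) (qExpand ℂ k (infTwist c φ)) := by
  intro τ
  have h := hf (u τ)
  rw [hu τ] at h
  have he0 : (k : ℤ) ≠ 0 := by exact_mod_cast NeZero.ne k
  have hinj : Function.Injective (fun n : ℤ => (k : ℤ) * n) :=
    mul_right_injective₀ he0
  have hrange : ∀ m : ℤ, m ∉ Set.range (fun n : ℤ => (k : ℤ) * n) →
      (qExpand ℂ k (infTwist c φ)).coeff m * infZ N τ ^ m = 0 := by
    intro m hm
    rw [qExpand_coeff_of_not_dvd k _ (fun ⟨j, hj⟩ => hm ⟨j, hj.symm⟩), zero_mul]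
  rw [← hinj.hasSum_iff hrange]
  convert h using 1
  funext n
  simp only [Function.comp_apply, qExpand_coeff_mul, infTwist_coeff]
  rw [mul_zpow, ← zpow_natCast (infZ N τ) k, ← zpow_mul, Units.val_zpow_eq_zpow_val]
  ring

/-- **Substitution.** If `φ` converges to `f` in `z_M`, then `f ∘ (τ ↦ (aτ+b)/d)` has the
expansion `φ(u · z_N^e)` in `z_N`, `u = exp(2πi b/(dM))`, `e = aN/(dM)`. -/
theorem InfExp.comp_infAff {M N a d e : ℕ} [NeZero e] (b : ℤ) (ha : 0 < a) (hd : 0 < d)
    (hM : 0 < M) (hN : 0 < N) (he : e * (d * M) = a * N) {f : ℍ → ℂ} {φ : LaurentSeries ℂ}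
    (hf : InfExp M f φ) :
    InfExp N (fun τ => f (infAff a b d τ)) (qExpand ℂ e (infTwist (infRoot b (d * M)) φ)) :=
  hf.subst (infAff a b d) (infRoot b (d * M)) e (infZ_infAff b ha hd hM hN he)

/-- Translation `τ ↦ τ + 1`: the expansion in `z_N` is twisted by `ζ_N = exp(2πi/N)`. -/
theorem InfExp.comp_translate {N : ℕ} [NeZero N] {f : ℍ → ℂ} {φ : LaurentSeries ℂ}
    (hf : InfExp N f φ) (b : ℤ) :
    InfExp N (fun τ => f (infAff 1 b 1 τ)) (infTwist (infRoot b N) φ) := by
  have hN : 0 < N := Nat.pos_of_ne_zero (NeZero.ne N)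
  have h := hf.comp_infAff (e := 1) b one_pos one_pos hN hN (by ring)
  rw [qExpand_one_apply, one_mul] at h
  exact h

end Fermat.Agent.S24

end
end
-- ===== PACK-END S24/Inf/Subst.lean

-- ===== PACK-BEGIN Ribet/H495/AlgPSpec.lean
section


/-!
# RIBET row 38 / S33, WALL-p, piece **W-ALGP** (= I5, second half of (S2)): frozen interface
(sub-architect helper495)

`(S2)`: a NEW class `x ∈ J₀(pM')[p]` in the split part has `σ x = χ(σ) x` for `σ` in inertia at `p`.
W-NC (norm contraction, owners helper232 / helper400 / helper279) turns "new + constant reductions"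
into "the Kummer function is a `p`-th power in the completions at `V₁`, `V₂`".  THIS piece is the
rest: the `m = p` analogue of A2's ALG (route S), Mathlib + `A2/Spec` + `A2/Alg/Spec` only.

## Setting (= `A2.AlgSSStatement`, with `q = m = p`)
`R` henselian DVR, uniformiser `w`, residue field algebraically closed of characteristic `p`,
`E = Frac R`, `F / E` function field with coordinate `x`, charts `Bf`, `Bi` (integral closures of
`R[x]`, `R[x⁻¹]`), semistable (`SSChart`: components `p₁`, `p₂`, `V_i = B_{p_i}`),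
`τ` semilinear, `τ ≡ id mod w` on both charts.  NEW: `ζ ∈ R` a primitive `p`-th root of unity,
`λ := ζ - 1` (`λ ^ (p-1) = p · unit`, `λ ∈ (w)`), and `τ ζ = ζ ^ c`.

## Statement `AlgPStatement`
`u ≠ 0`, `p ∣ div u` (`DivisibleDiv`), `u ∈ 1 + λ^p w V_i` for `i = 1, 2` (`DeepOne`, on both charts)
`⟹ ∃ h ≠ 0, τ u = h ^ p * u ^ c`.
(`DeepOne` is the NORMALISED output of W-NC: a class `f ∈ c_i · F̂_{V_i}^p` becomes, after adjoining
`p`-th roots of the constants to the level and multiplying by a `p`-th power (weak approximation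
for `V₁, V₂`), a `u ∈ 1 + λ^p w (V₁ ∩ V₂)`; depth `λ^p w` is the Hensel bound `p e/(p-1) + 1`.)

## Route S-p (all checked on paper; see `origin/helper495:coord/RIBET-ALGP-helper495.md`)
* **WPS / WPN** (wild purity at a smooth point / at a node of the special fibre) `⟹ PureAtP`:
  `∃ d, u · d^p ∈ 1 + λ^p B_n` and `d ∈ μ_p · (1 + λ V_i)` on both components.
  (Then `Z := ((u d^p)^{1/p} - 1)/λ` satisfies an Artin–Schreier equation `Z^p - Z ≡ t mod w`,
  étale over `B_n`.)  Proof: A2 purity (`H754`/`H609`, valid for every exponent) gives a unit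
  `ε = u d₀^p ∈ B_nˣ`; successive approximation of the `p`-th root of `ε` below the Hensel bound
  (`B_n/p_i` normal, `p`-th roots unique in characteristic `p`, glue the two branches at a node);
  at a smooth point adjust `d` on the other component by an element of `1 + λ B_n`.
  The node case in node-ring form is `H704.I6.WildPurityStatement`.
* **LF-p** (PROVED in `AlgPAsm.lean`): `PureAtP u n ⟹ LocalFactorP (τ u / u ^ c) n`, with
  `h := τ d / d ^ c`:  `τ (1 + λ^p t) ≡ 1 + c λ^p t ≡ (1 + λ^p t)^c mod λ^p w B_n`, and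
  `h ∈ 1 + λ w V_i` because `τ (ζ^j) = (ζ^j)^c`: the sheet labels `j` cancel.
* **GLUE-p**: `v` with local factorisations `v h^p ∈ 1 + λ^p w B_n`, `h ∈ 1 + λ w V_i (i = 1, 2)`,
  at every closed point of the special fibre of both charts `⟹ v = y ^ p`.
  (A2 `H348` pattern with the Artin–Schreier coordinate `Z = (Y h - 1)/λ`: the sheet `Z ≡ 0 mod w`
  is a global idempotent of the normalisation; `R` henselian.)
* **Assembly** (PROVED in `AlgPAsm.lean`): `algP_of_leaves`.
-/

set_option autoImplicit false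

namespace Fermat.Agent.Ribet.H495.AlgP

open Fermat.Agent.A2 Fermat.Agent.A2.Alg

section Defs

variable {R F : Type*} [CommRing R] [Field F] [Algebra R F]

/-- `u ∈ 1 + r · B_n` for a scalar `r ∈ R` (`A2.Alg.LocOne` for the principal ideal `(r)`). -/
def LocOneR (B : Subalgebra R F) (n : Ideal B) (r : R) (u : F) : Prop :=
  LocOne B n (Ideal.span {algebraMap R B r}) u

/-- `u ∈ 1 + λ^p w V₁` and `u ∈ 1 + λ^p w V₂` (`V_i = B_{p_i}`): the normalised form of
"`u` is a `p`-th power in both completions". -/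
def DeepOne {w : R} (B : Subalgebra R F) (c : SSChart w B) (p : ℕ) (lam : R) (u : F) : Prop :=
  LocOneR B c.p₁ (lam ^ p * w) u ∧ LocOneR B c.p₂ (lam ^ p * w) u

/-- **Wild purity datum at a closed point `n`**: `u · d ^ p ∈ 1 + λ^p B_n`, and on each component
`d` is a `p`-th root of unity times an element of `1 + λ V_i`. -/
def PureAtP {w : R} (B : Subalgebra R F) (c : SSChart w B) (p : ℕ) (ζ : R) (u : F)
    (n : Ideal B) : Prop :=
  ∃ d : F, d ≠ 0 ∧ LocOneR B n ((ζ - 1) ^ p) (u * d ^ p) ∧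
    (∃ j : ℕ, LocOneR B c.p₁ (ζ - 1) (algebraMap R F (ζ ^ j) * d)) ∧
    (∃ j : ℕ, LocOneR B c.p₂ (ζ - 1) (algebraMap R F (ζ ^ j) * d))

/-- **Local factorisation at a closed point `n`** for the Kummer problem `Y ^ p = v`:
`v · h ^ p ∈ 1 + λ^p w B_n` and `h ∈ 1 + λ w V_i` on both components. -/
def LocalFactorP {w : R} (B : Subalgebra R F) (c : SSChart w B) (p : ℕ) (lam : R) (v : F)
    (n : Ideal B) : Prop :=
  ∃ h : F, h ≠ 0 ∧ LocOneR B n (lam ^ p * w) (v * h ^ p) ∧
    LocOneR B c.p₁ (lam * w) h ∧ LocOneR B c.p₂ (lam * w) h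

/-- Local factorisations at all closed points of the special fibre of the chart. -/
def LocallyFactoredP {w : R} (B : Subalgebra R F) (c : SSChart w B) (p : ℕ) (lam : R)
    (v : F) : Prop :=
  ∀ n : Ideal B, n.IsMaximal → algebraMap R B w ∈ n → LocalFactorP B c p lam v n

end Defs

/-! ## The leaves -/

/-- **Leaf WPS** (wild purity at a closed point lying on ONE component). -/
def WPSmoothLeaf : Prop :=
  ∀ {R E F : Type} [CommRing R] [IsDomain R] [IsDiscreteValuationRing R]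
    [HenselianLocalRing R] [IsAlgClosed (IsLocalRing.ResidueField R)]
    [Field E] [CharZero E] [Algebra R E] [IsFractionRing R E]
    [Field F] [Algebra E F] [Algebra R F] [IsScalarTower R E F]
    (p : ℕ) (_ : p.Prime) (_ : p ≠ 2) (_ : (p : R) ∈ IsLocalRing.maximalIdeal R)
    (ζ : R) (_ : IsPrimitiveRoot ζ p)
    (w : R) (x : F) (B : Subalgebra R F) (_ : ChartCtx E w x B)
    (c : SSChart w B) (_ : Incomparable c)
    (u : F) (_ : u ≠ 0) (_ : DivisibleDiv E p u) (_ : DeepOne B c p (ζ - 1) u)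
    (n : Ideal B) (_ : n.IsMaximal) (_ : algebraMap R B w ∈ n)
    (_ : ¬ (c.p₁ ≤ n ∧ c.p₂ ≤ n)), PureAtP B c p ζ u n

/-- **Leaf WPN** (wild purity at a crossing point). -/
def WPNodeLeaf : Prop :=
  ∀ {R E F : Type} [CommRing R] [IsDomain R] [IsDiscreteValuationRing R]
    [HenselianLocalRing R] [IsAlgClosed (IsLocalRing.ResidueField R)]
    [Field E] [CharZero E] [Algebra R E] [IsFractionRing R E]
    [Field F] [Algebra E F] [Algebra R F] [IsScalarTower R E F]
    (p : ℕ) (_ : p.Prime) (_ : p ≠ 2) (_ : (p : R) ∈ IsLocalRing.maximalIdeal R)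
    (ζ : R) (_ : IsPrimitiveRoot ζ p)
    (w : R) (x : F) (B : Subalgebra R F) (_ : ChartCtx E w x B)
    (c : SSChart w B) (_ : Incomparable c)
    (u : F) (_ : u ≠ 0) (_ : DivisibleDiv E p u) (_ : DeepOne B c p (ζ - 1) u)
    (n : Ideal B) (_ : n.IsMaximal) (_ : algebraMap R B w ∈ n)
    (_ : c.p₁ ≤ n) (_ : c.p₂ ≤ n), PureAtP B c p ζ u n

/-- **Leaf GLUE-p** (a Kummer class of order `p` which is locally factored, at depth `λ^p w`, at
every closed point of the special fibre of both charts is trivial). -/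
def GluePLeaf : Prop :=
  ∀ {R E F : Type} [CommRing R] [IsDomain R] [IsDiscreteValuationRing R]
    [HenselianLocalRing R] [IsAlgClosed (IsLocalRing.ResidueField R)]
    [Field E] [CharZero E] [Algebra R E] [IsFractionRing R E]
    [Field F] [Algebra E F] [Algebra R F] [IsScalarTower R E F]
    (p : ℕ) (_ : p.Prime) (_ : p ≠ 2) (_ : (p : R) ∈ IsLocalRing.maximalIdeal R)
    (ζ : R) (_ : IsPrimitiveRoot ζ p)
    (w : R) (x : F) (Bf Bi : Subalgebra R F)
    (_ : ChartCtx E w x Bf) (_ : ChartCtx E w x⁻¹ Bi)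
    (cf : SSChart w Bf) (ci : SSChart w Bi) (_ : Incomparable cf) (_ : Incomparable ci)
    (v : F) (_ : v ≠ 0) (_ : DivisibleDiv E p v)
    (_ : LocallyFactoredP Bf cf p (ζ - 1) v) (_ : LocallyFactoredP Bi ci p (ζ - 1) v),
    ∃ y : F, y ≠ 0 ∧ v = y ^ p

/-! ## The interface statement -/

/-- The conclusion of ALG-p: `τ` acts on the deeply split Kummer classes of order `p` through the
cyclotomic exponent `c`. -/
def AlgPConclusion {R F : Type*} [CommRing R] [Field F] [Algebra R F] (E : Type*) [Field E]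
    [Algebra E F] {w : R} (Bf Bi : Subalgebra R F) (cf : SSChart w Bf) (ci : SSChart w Bi)
    (p : ℕ) (lam : R) (c : ℕ) (τ : F ≃+* F) : Prop :=
  ∀ u : F, u ≠ 0 → DivisibleDiv E p u → DeepOne Bf cf p lam u → DeepOne Bi ci p lam u →
    ∃ h : F, h ≠ 0 ∧ τ u = h ^ p * u ^ c

/-- **ALG-p (interface statement).**  Setting of `A2.AlgSSStatement` with `q = m = p` (no
separating coordinate, no finite order needed), `ζ ∈ R` a primitive `p`-th root of unity with
`τ ζ = ζ ^ c`. -/
def AlgPStatement : Prop :=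
  ∀ {R E F : Type} [CommRing R] [IsDomain R] [IsDiscreteValuationRing R] [HenselianLocalRing R]
    [IsAlgClosed (IsLocalRing.ResidueField R)]
    [Field E] [CharZero E] [Algebra R E] [IsFractionRing R E]
    [Field F] [Algebra E F] [Algebra R F] [IsScalarTower R E F]
    (w : R) (_ : Irreducible w) (p : ℕ) (_ : p.Prime) (_ : p ≠ 2)
    (_ : (p : R) ∈ IsLocalRing.maximalIdeal R)
    (ζ : R) (_ : IsPrimitiveRoot ζ p)
    (x : F) (_ : Transcendental E x)
    (_ : FiniteDimensional (IntermediateField.adjoin E ({x} : Set F)) F)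
    (_ : ∀ f : F, IsAlgebraic E f → f ∈ (algebraMap E F).range)
    (Bf Bi : Subalgebra R F)
    (_ : ∀ f : F, f ∈ Bf ↔ IsIntegral (Algebra.adjoin R ({x} : Set F)) f)
    (_ : ∀ f : F, f ∈ Bi ↔ IsIntegral (Algebra.adjoin R ({x⁻¹} : Set F)) f)
    (cf : SSChart w Bf) (ci : SSChart w Bi)
    (τ : F ≃+* F) (τE : E ≃+* E) (τR : R ≃+* R)
    (_ : ∀ e : E, τ (algebraMap E F e) = algebraMap E F (τE e))
    (_ : ∀ r : R, τE (algebraMap R E r) = algebraMap R E (τR r))
    (_ : ∀ b ∈ Bf, ∃ c ∈ Bf, τ b - b = algebraMap R F w * c)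
    (_ : ∀ b ∈ Bi, ∃ c ∈ Bi, τ b - b = algebraMap R F w * c)
    (c : ℕ) (_ : τR ζ = ζ ^ c),
    AlgPConclusion E Bf Bi cf ci p (ζ - 1) c τ

end Fermat.Agent.Ribet.H495.AlgP

end
-- ===== PACK-END Ribet/H495/AlgPSpec.lean

-- ===== PACK-BEGIN A2/H48/Qep2.lean
section


/-!
# A2 / piece QEP2, part 3 (helper48): the `q`-expansion principle for a two-component model

Mathlib-only.  `R` a factorial domain with prime element `ϖ` (in the application a discrete
valuation ring `A ∩ E`), `K = Frac R[X]` (`X ↦ j` or `X ↦ 1/j`), `F / K` finite of degree `n`,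
`V₁ ≠ V₂` valuation rings of `F` which both

* contain `R[X]`, have maximal ideal generated by `ϖ`,
* induce the Gauss valuation on `K` (a polynomial not divisible by `ϖ` is a unit),

together with families `b` in `V₁`, `c` in `V₂` with `f₁ + f₂ = n` members whose residues are
linearly independent over `(R/ϖ)[X]` (`GaussPair`).  Then

* `GaussPair.exists_monic_of_mem` : every element of `V₁ ∩ V₂` is integral over the Gauss
  ring `O = V₁ ∩ K` (no third extension of the Gauss valuation to `F`);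
* `GaussPair.qep2` : **if `u` is integral over `R[X]` and `u/ϖ ∈ V₁ ∩ V₂` then `u/ϖ` is integral
  over `R[X]`**, i.e. for the chart `B` = integral closure of `R[X]` in `F`:
  `B ∩ ϖ (V₁ ∩ V₂) = ϖ B`;
* `GaussPair.reduced` : `u` integral over `R[X]`, `u ^ k / ϖ` integral over `R[X]`, `k ≥ 1`
  `⟹ u/ϖ` integral over `R[X]` (the special fibre `B/ϖB` is reduced).
-/

set_option autoImplicit false
set_option linter.unusedSectionVars false

namespace Fermat.Agent.A2.H48

open Polynomial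

variable {R : Type*} [CommRing R] [IsDomain R] [UniqueFactorizationMonoid R]
variable {K F : Type*} [Field K] [Field F] [Algebra R[X] K] [IsFractionRing R[X] K]
  [Algebra K F] [Algebra R[X] F] [IsScalarTower R[X] K F]

/-- The hypotheses of the two-component `q`-expansion principle. -/
structure GaussPair (ϖ : R) (V₁ V₂ : ValuationSubring F)
    {f₁ f₂ : ℕ} (b : Fin f₁ → F) (c : Fin f₂ → F) : Prop where
  prime : Prime ϖ
  unif₁ : IsUnif V₁ (algebraMap R[X] F (C ϖ))
  unif₂ : IsUnif V₂ (algebraMap R[X] F (C ϖ))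
  poly₁ : ∀ P : R[X], algebraMap R[X] F P ∈ V₁
  poly₂ : ∀ P : R[X], algebraMap R[X] F P ∈ V₂
  gauss₁ : ∀ P : R[X], ¬ C ϖ ∣ P → (algebraMap R[X] F P)⁻¹ ∈ V₁
  gauss₂ : ∀ P : R[X], ¬ C ϖ ∣ P → (algebraMap R[X] F P)⁻¹ ∈ V₂
  ne : V₁ ≠ V₂
  b_mem : ∀ i, b i ∈ V₁
  c_mem : ∀ j, c j ∈ V₂
  b_indep : ∀ a : Fin f₁ → R[X],
    (∑ i, algebraMap R[X] F (a i) * b i) * (algebraMap R[X] F (C ϖ))⁻¹ ∈ V₁ → ∀ i, C ϖ ∣ a i
  c_indep : ∀ a : Fin f₂ → R[X],
    (∑ j, algebraMap R[X] F (a j) * c j) * (algebraMap R[X] F (C ϖ))⁻¹ ∈ V₂ → ∀ j, C ϖ ∣ a j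
  card : f₁ + f₂ = Module.finrank K F

section GaussRing

variable (K)

/-- The Gauss ring `V ∩ K`. -/
def gaussRing (V : ValuationSubring F) : ValuationSubring K := V.comap (algebraMap K F)

variable {K}

theorem mem_gaussRing {V : ValuationSubring F} {a : K} :
    a ∈ gaussRing K V ↔ algebraMap K F a ∈ V := ValuationSubring.mem_comap

variable {ϖ : R} {V : ValuationSubring F}

theorem prime_C (hϖ : Prime ϖ) : Prime (C ϖ : R[X]) := prime_C_iff.2 hϖ

theorem algebraMap_C_ne_zero (hϖ : Prime ϖ) : algebraMap R[X] K (C ϖ) ≠ 0 := by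
  intro h
  have := (IsFractionRing.injective R[X] K) (h.trans (_root_.map_zero _).symm)
  exact (prime_C hϖ).ne_zero this

theorem map_eq (P : R[X]) : algebraMap K F (algebraMap R[X] K P) = algebraMap R[X] F P :=
  (IsScalarTower.algebraMap_apply R[X] K F P).symm

/-- Elements of the form `P / Q`, `ϖ ∤ Q`, lie in the Gauss ring. -/
theorem div_mem_gaussRing (hpoly : ∀ P : R[X], algebraMap R[X] F P ∈ V)
    (hgauss : ∀ P : R[X], ¬ C ϖ ∣ P → (algebraMap R[X] F P)⁻¹ ∈ V)
    (P : R[X]) {Q : R[X]} (hQ : ¬ C ϖ ∣ Q) :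
    algebraMap R[X] K P / algebraMap R[X] K Q ∈ gaussRing K V := by
  rw [mem_gaussRing, map_div₀, map_eq, map_eq, div_eq_mul_inv]
  exact mul_mem (hpoly P) (hgauss Q hQ)

/-- Every element of the Gauss ring is of the form `P / Q` with `ϖ ∤ Q`. -/
theorem exists_div_of_mem_gaussRing (hϖ : Prime ϖ) (hunif : IsUnif V (algebraMap R[X] F (C ϖ)))
    (hpoly : ∀ P : R[X], algebraMap R[X] F P ∈ V)
    (hgauss : ∀ P : R[X], ¬ C ϖ ∣ P → (algebraMap R[X] F P)⁻¹ ∈ V)
    {a : K} (ha : a ∈ gaussRing K V) :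
    ∃ P Q : R[X], ¬ C ϖ ∣ Q ∧ a = algebraMap R[X] K P / algebraMap R[X] K Q := by
  obtain ⟨P, Q, hQ, rfl⟩ := IsFractionRing.div_surjective R[X] (K := K) a
  have hQ0 : Q ≠ 0 := nonZeroDivisors.ne_zero hQ
  by_cases hP0 : P = 0
  · refine ⟨0, 1, ?_, ?_⟩
    · intro h
      exact (prime_C hϖ).not_isUnit (isUnit_of_dvd_one h)
    · rw [hP0]; simp
  obtain ⟨k, Q', hQ', hQk⟩ := WfDvdMonoid.max_power_factor' hQ0 (prime_C hϖ).not_isUnit
  obtain ⟨j, P', hP', hPj⟩ := WfDvdMonoid.max_power_factor' hP0 (prime_C hϖ).not_isUnit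
  have hϖK : algebraMap R[X] K (C ϖ) ≠ 0 := algebraMap_C_ne_zero hϖ
  have hQ'0 : algebraMap R[X] K Q' ≠ 0 := by
    intro h
    have := (IsFractionRing.injective R[X] K) (h.trans (_root_.map_zero _).symm)
    rw [this] at hQ'
    exact hQ' (dvd_zero _)
  rcases le_or_gt k j with hkj | hkj
  · obtain ⟨r, rfl⟩ := Nat.exists_eq_add_of_le hkj
    refine ⟨C ϖ ^ r * P', Q', hQ', ?_⟩
    rw [hPj, hQk, _root_.map_mul, _root_.map_mul, _root_.map_mul, _root_.map_pow, _root_.map_pow, _root_.map_pow, pow_add]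
    field_simp
  · exfalso
    obtain ⟨r, hr⟩ := Nat.exists_eq_add_of_lt hkj
    have hP'0 : algebraMap R[X] F P' ≠ 0 := by
      intro h
      rw [← map_eq (K := K)] at h
      have h1 := (algebraMap K F).injective (h.trans (_root_.map_zero _).symm)
      have := (IsFractionRing.injective R[X] K) (h1.trans (_root_.map_zero _).symm)
      rw [this] at hP'
      exact hP' (dvd_zero _)
    have hπ0 : algebraMap R[X] F (C ϖ) ≠ 0 := hunif.ne_zero
    rw [mem_gaussRing, map_div₀, map_eq, map_eq] at ha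
    apply hunif.inv_not_mem
    have hQ'F : algebraMap R[X] F Q' ≠ 0 := by
      rw [← map_eq (K := K)]
      exact (_root_.map_ne_zero _).2 hQ'0
    have e : (algebraMap R[X] F (C ϖ))⁻¹ =
        (algebraMap R[X] F P / algebraMap R[X] F Q) *
          (algebraMap R[X] F (C ϖ ^ r * Q') * (algebraMap R[X] F P')⁻¹) := by
      rw [hPj, hQk, hr, _root_.map_mul, _root_.map_mul, _root_.map_mul, _root_.map_pow, _root_.map_pow, _root_.map_pow]
      field_simp
      ring
    rw [e]
    exact mul_mem ha (mul_mem (hpoly _) (hgauss P' hP'))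

theorem isUnif_gaussRing (hunif : IsUnif V (algebraMap R[X] F (C ϖ))) :
    IsUnif (gaussRing K V) (algebraMap R[X] K (C ϖ)) where
  mem := by rw [mem_gaussRing, map_eq]; exact hunif.mem
  inv_not_mem := by rw [mem_gaussRing, map_inv₀, map_eq]; exact hunif.inv_not_mem
  gen := by
    intro a ha hainv
    rw [mem_gaussRing] at ha hainv ⊢
    rw [map_inv₀] at hainv
    rw [_root_.map_mul, map_inv₀, map_eq]
    exact hunif.gen _ ha hainv

theorem arch_gaussRing (hϖ : Prime ϖ) (hpoly : ∀ P : R[X], algebraMap R[X] F P ∈ V)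
    (hgauss : ∀ P : R[X], ¬ C ϖ ∣ P → (algebraMap R[X] F P)⁻¹ ∈ V) (a : K) :
    ∃ k : ℕ, algebraMap R[X] K (C ϖ) ^ k * a ∈ gaussRing K V := by
  obtain ⟨P, Q, hQ, rfl⟩ := IsFractionRing.div_surjective R[X] (K := K) a
  have hQ0 : Q ≠ 0 := nonZeroDivisors.ne_zero hQ
  obtain ⟨k, Q', hQ', hQk⟩ := WfDvdMonoid.max_power_factor' hQ0 (prime_C hϖ).not_isUnit
  refine ⟨k, ?_⟩
  have hϖK : algebraMap R[X] K (C ϖ) ≠ 0 := algebraMap_C_ne_zero hϖ
  have hQ'0 : algebraMap R[X] K Q' ≠ 0 := by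
    intro h
    have := (IsFractionRing.injective R[X] K) (h.trans (_root_.map_zero _).symm)
    rw [this] at hQ'
    exact hQ' (dvd_zero _)
  have e : algebraMap R[X] K (C ϖ) ^ k * (algebraMap R[X] K P / algebraMap R[X] K Q) =
      algebraMap R[X] K P / algebraMap R[X] K Q' := by
    rw [hQk, _root_.map_mul, _root_.map_pow]
    field_simp
  rw [e]
  exact div_mem_gaussRing hpoly hgauss P hQ'

/-- **Gauss intersection**: `P / ϖ ^ k` in the Gauss ring forces `ϖ ^ k ∣ P` in `R[X]`. -/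
theorem pow_dvd_of_mem_gaussRing (hunif : IsUnif V (algebraMap R[X] F (C ϖ)))
    (hgauss : ∀ P : R[X], ¬ C ϖ ∣ P → (algebraMap R[X] F P)⁻¹ ∈ V) :
    ∀ (k : ℕ) (P : R[X]),
      algebraMap R[X] K P * ((algebraMap R[X] K (C ϖ))⁻¹) ^ k ∈ gaussRing K V → C ϖ ^ k ∣ P := by
  have hπ0 : algebraMap R[X] F (C ϖ) ≠ 0 := hunif.ne_zero
  have hϖK : algebraMap R[X] K (C ϖ) ≠ 0 := by
    intro h
    apply hπ0
    rw [← map_eq (K := K), h, _root_.map_zero]
  intro k
  induction k with
  | zero => intro P _; simp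
  | succ k ih =>
      intro P hP
      have h1 : algebraMap R[X] K P * ((algebraMap R[X] K (C ϖ))⁻¹) ^ k ∈ gaussRing K V := by
        have e : algebraMap R[X] K P * ((algebraMap R[X] K (C ϖ))⁻¹) ^ k =
            algebraMap R[X] K P * ((algebraMap R[X] K (C ϖ))⁻¹) ^ (k + 1) *
              algebraMap R[X] K (C ϖ) := by
          rw [pow_succ]; field_simp
        rw [e]
        exact mul_mem hP (isUnif_gaussRing hunif).mem
      obtain ⟨P₁, rfl⟩ := ih P h1
      by_cases hdvd : C ϖ ∣ P₁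
      · obtain ⟨P₂, rfl⟩ := hdvd
        exact ⟨P₂, by rw [pow_succ]; ring⟩
      · exfalso
        apply hunif.inv_not_mem
        have h2 := hgauss P₁ hdvd
        rw [mem_gaussRing] at hP
        have hP₁0 : algebraMap R[X] F P₁ ≠ 0 := by
          intro h
          rw [h, inv_zero] at h2
          have h3 : P₁ = 0 := by
            rw [← map_eq (K := K)] at h
            have h4 := (algebraMap K F).injective (h.trans (_root_.map_zero _).symm)
            exact (IsFractionRing.injective R[X] K) (h4.trans (_root_.map_zero _).symm)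
          exact hdvd (h3 ▸ dvd_zero _)
        have e : (algebraMap R[X] F (C ϖ))⁻¹ =
            algebraMap K F (algebraMap R[X] K (C ϖ ^ k * P₁) *
              ((algebraMap R[X] K (C ϖ))⁻¹) ^ (k + 1)) * (algebraMap R[X] F P₁)⁻¹ := by
          rw [_root_.map_mul, _root_.map_pow, map_inv₀, map_eq, map_eq, _root_.map_mul, _root_.map_pow, pow_succ, inv_pow]
          field_simp
        rw [e]
        exact mul_mem hP h2

end GaussRing

section Indep

variable {ϖ : R} {V : ValuationSubring F}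

/-- Linear independence of residues over `(R/ϖ)[X]` implies linear independence over the residue
field of the Gauss ring. -/
theorem indep_gaussRing (hϖ : Prime ϖ) (hunif : IsUnif V (algebraMap R[X] F (C ϖ)))
    (hpoly : ∀ P : R[X], algebraMap R[X] F P ∈ V)
    (hgauss : ∀ P : R[X], ¬ C ϖ ∣ P → (algebraMap R[X] F P)⁻¹ ∈ V)
    {f : ℕ} {b : Fin f → F}
    (hind : ∀ a : Fin f → R[X],
      (∑ i, algebraMap R[X] F (a i) * b i) * (algebraMap R[X] F (C ϖ))⁻¹ ∈ V → ∀ i, C ϖ ∣ a i)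
    (a : Fin f → K) (ha : ∀ i, a i ∈ gaussRing K V)
    (hsum : (∑ i, algebraMap K F (a i) * b i) * (algebraMap K F (algebraMap R[X] K (C ϖ)))⁻¹ ∈ V)
    (i : Fin f) : a i * (algebraMap R[X] K (C ϖ))⁻¹ ∈ gaussRing K V := by
  classical
  choose P Q hQ hPQ using fun i => exists_div_of_mem_gaussRing hϖ hunif hpoly hgauss (ha i)
  have hQ0 : ∀ i, algebraMap R[X] K (Q i) ≠ 0 := by
    intro i h
    have := (IsFractionRing.injective R[X] K) (h.trans (_root_.map_zero _).symm)
    exact hQ i (this ▸ dvd_zero _)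
  set Qtot : R[X] := ∏ i, Q i with hQtot
  set a' : Fin f → R[X] := fun i => P i * ∏ i' ∈ Finset.univ.erase i, Q i' with ha'
  have hmul : ∀ i, algebraMap R[X] K (a' i) = a i * algebraMap R[X] K Qtot := by
    intro i
    have h1 : Q i * ∏ i' ∈ Finset.univ.erase i, Q i' = Qtot :=
      Finset.mul_prod_erase _ _ (Finset.mem_univ i)
    rw [ha', ← h1, hPQ i, _root_.map_mul, _root_.map_mul]
    field_simp [hQ0 i]
  have hsum' : (∑ i, algebraMap R[X] F (a' i) * b i) * (algebraMap R[X] F (C ϖ))⁻¹ ∈ V := by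
    have e : (∑ i, algebraMap R[X] F (a' i) * b i) * (algebraMap R[X] F (C ϖ))⁻¹ =
        algebraMap R[X] F Qtot *
          ((∑ i, algebraMap K F (a i) * b i) *
            (algebraMap K F (algebraMap R[X] K (C ϖ)))⁻¹) := by
      rw [map_eq, ← mul_assoc, Finset.mul_sum]
      congr 1
      refine Finset.sum_congr rfl fun i _ => ?_
      rw [← map_eq (K := K) (a' i), hmul, _root_.map_mul, map_eq]
      ring
    rw [e]
    exact mul_mem (hpoly _) hsum
  have hdvd := hind a' hsum' i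
  have hdvdP : C ϖ ∣ P i := by
    rcases (prime_C hϖ).dvd_or_dvd hdvd with h | h
    · exact h
    · exfalso
      obtain ⟨i', -, hi'⟩ := ((prime_C hϖ).dvd_finsetProd_iff _).1 h
      exact hQ i' hi'
  obtain ⟨P', hP'⟩ := hdvdP
  have hϖK : algebraMap R[X] K (C ϖ) ≠ 0 := algebraMap_C_ne_zero hϖ
  have e : a i * (algebraMap R[X] K (C ϖ))⁻¹ =
      algebraMap R[X] K P' / algebraMap R[X] K (Q i) := by
    rw [hPQ i, hP', _root_.map_mul]
    field_simp [hQ0 i]
  rw [e]
  exact div_mem_gaussRing hpoly hgauss P' (hQ i)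

end Indep

namespace GaussPair

variable {ϖ : R} {V₁ V₂ : ValuationSubring F} {f₁ f₂ : ℕ} {b : Fin f₁ → F} {c : Fin f₂ → F}

theorem gaussRing_eq (h : GaussPair (K := K) ϖ V₁ V₂ b c) : gaussRing K V₁ = gaussRing K V₂ := by
  apply le_antisymm
  · intro a ha
    obtain ⟨P, Q, hQ, rfl⟩ := exists_div_of_mem_gaussRing h.prime h.unif₁ h.poly₁ h.gauss₁ ha
    exact div_mem_gaussRing h.poly₂ h.gauss₂ P hQ
  · intro a ha
    obtain ⟨P, Q, hQ, rfl⟩ := exists_div_of_mem_gaussRing h.prime h.unif₂ h.poly₂ h.gauss₂ ha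
    exact div_mem_gaussRing h.poly₁ h.gauss₁ P hQ

/-- A `GaussPair` gives the data of the "no third extension" theorem over the Gauss ring. -/
theorem twoExt (h : GaussPair (K := K) ϖ V₁ V₂ b c) :
    TwoExt (gaussRing K V₁) V₁ V₂ (algebraMap R[X] K (C ϖ)) b c where
  unifO := isUnif_gaussRing h.unif₁
  unif₁ := by rw [map_eq]; exact h.unif₁
  unif₂ := by rw [map_eq]; exact h.unif₂
  le₁ := fun a ha => mem_gaussRing.1 ha
  le₂ := fun a ha => mem_gaussRing.1 (h.gaussRing_eq ▸ ha)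
  ne := h.ne
  arch := arch_gaussRing h.prime h.poly₁ h.gauss₁
  b_mem := h.b_mem
  c_mem := h.c_mem
  b_indep := fun a ha hsum i =>
    indep_gaussRing h.prime h.unif₁ h.poly₁ h.gauss₁ h.b_indep a ha hsum i
  c_indep := fun a ha hsum j => by
    rw [h.gaussRing_eq]
    exact indep_gaussRing h.prime h.unif₂ h.poly₂ h.gauss₂ h.c_indep a
      (fun j => h.gaussRing_eq ▸ ha j) hsum j
  card := h.card

/-- **No third extension**: every element of `V₁ ∩ V₂` is integral over the Gauss ring. -/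
theorem exists_monic_of_mem [FiniteDimensional K F] (h : GaussPair (K := K) ϖ V₁ V₂ b c)
    {u : F} (hu₁ : u ∈ V₁) (hu₂ : u ∈ V₂) :
    ∃ p : K[X], p.Monic ∧ (∀ i, p.coeff i ∈ gaussRing K V₁) ∧ aeval u p = 0 :=
  h.twoExt.exists_monic_of_mem hu₁ hu₂

/-- Elements of `V₁ ∩ V₂` have their minimal polynomial over `K` with coefficients in the Gauss
ring. -/
theorem minpoly_coeff_mem [FiniteDimensional K F] (h : GaussPair (K := K) ϖ V₁ V₂ b c)
    {z : F} (hz₁ : z ∈ V₁) (hz₂ : z ∈ V₂) (i : ℕ) :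
    (minpoly K z).coeff i ∈ gaussRing K V₁ := by
  classical
  obtain ⟨p, hp, hpc, hpz⟩ := h.exists_monic_of_mem hz₁ hz₂
  let _ : Algebra (gaussRing K V₁) F :=
    ((algebraMap K F).comp (gaussRing K V₁).subtype).toAlgebra
  have : IsScalarTower (gaussRing K V₁) K F := IsScalarTower.of_algebraMap_eq (fun x => rfl)
  have hlift : p ∈ lifts (gaussRing K V₁).subtype := by
    rw [lifts_iff_coeff_lifts]
    intro n
    exact ⟨⟨p.coeff n, hpc n⟩, rfl⟩
  obtain ⟨q, hq, -, hqm⟩ := lifts_and_natDegree_eq_and_monic hlift hp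
  have hzO : IsIntegral (gaussRing K V₁) z := by
    refine ⟨q, hqm, ?_⟩
    have : eval₂ (algebraMap (gaussRing K V₁) F) z q =
        eval₂ (algebraMap K F) z (q.map (gaussRing K V₁).subtype) := by
      rw [eval₂_map]; rfl
    rw [this, hq, ← aeval_def]
    exact hpz
  have hμ := minpoly.isIntegrallyClosed_eq_field_fractions' K hzO
  rw [hμ, coeff_map]
  exact ((minpoly (gaussRing K V₁) z).coeff i).2

/-- **`q`-expansion principle for the two-component model.**  If `u` is integral over `R[X]`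
and `u / ϖ` lies in both `V₁` and `V₂`, then `u / ϖ` is integral over `R[X]`. -/
theorem qep2 [FiniteDimensional K F] (h : GaussPair (K := K) ϖ V₁ V₂ b c) {u : F}
    (hu : IsIntegral R[X] u)
    (h₁ : u * (algebraMap R[X] F (C ϖ))⁻¹ ∈ V₁) (h₂ : u * (algebraMap R[X] F (C ϖ))⁻¹ ∈ V₂) :
    IsIntegral R[X] (u * (algebraMap R[X] F (C ϖ))⁻¹) := by
  classical
  set ϖK := algebraMap R[X] K (C ϖ) with hϖKdef
  have hϖK : ϖK ≠ 0 := algebraMap_C_ne_zero h.prime
  set z := u * (algebraMap R[X] F (C ϖ))⁻¹ with hz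
  have hz_eq : z = algebraMap K F ϖK⁻¹ * u := by
    rw [hz, map_inv₀, map_eq, mul_comm]
  have hu_eq : u = algebraMap K F ϖK * z := by
    rw [hz_eq, ← mul_assoc, ← _root_.map_mul, mul_inv_cancel₀ hϖK, _root_.map_one, one_mul]
  have huK : IsIntegral K u := Algebra.IsIntegral.isIntegral u
  have hzK : IsIntegral K z := Algebra.IsIntegral.isIntegral z
  have hμu := minpoly.isIntegrallyClosed_eq_field_fractions' K hu
  have hscale : (minpoly K u).scaleRoots ϖK⁻¹ = minpoly K z := by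
    apply minpoly.unique
    · exact (monic_scaleRoots_iff _).2 (minpoly.monic huK)
    · rw [hz_eq]; exact scaleRoots_aeval_eq_zero (minpoly.aeval K u)
    · intro r hr hrz
      rw [degree_scaleRoots]
      have h3 : aeval u (r.scaleRoots ϖK) = 0 := by
        rw [hu_eq]; exact scaleRoots_aeval_eq_zero hrz
      calc (minpoly K u).degree ≤ (r.scaleRoots ϖK).degree :=
            minpoly.min K u ((monic_scaleRoots_iff _).2 hr) h3
        _ = r.degree := degree_scaleRoots _
  have hcoef : ∀ i, (minpoly K z).coeff i ∈ Set.range (algebraMap R[X] K) := by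
    intro i
    have h1 : (minpoly K z).coeff i ∈ gaussRing K V₁ := h.minpoly_coeff_mem h₁ h₂ i
    rw [← hscale, coeff_scaleRoots, hμu, coeff_map] at h1 ⊢
    obtain ⟨P', hP'⟩ := pow_dvd_of_mem_gaussRing h.unif₁ h.gauss₁ _ _ h1
    refine ⟨P', ?_⟩
    rw [hP', _root_.map_mul, _root_.map_pow, inv_pow, ← hϖKdef]
    field_simp
  obtain ⟨q, hq, -, hqm⟩ :=
    lifts_and_natDegree_eq_and_monic ((lifts_iff_coeff_lifts _).2 hcoef) (minpoly.monic hzK)
  refine ⟨q, hqm, ?_⟩
  have e : eval₂ (algebraMap R[X] F) z q = aeval z (q.map (algebraMap R[X] K)) := by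
    rw [aeval_def, eval₂_map, ← IsScalarTower.algebraMap_eq]
  rw [e, hq]
  exact minpoly.aeval K z

/-- **The special fibre is reduced.**  If `u` is integral over `R[X]` and `u ^ k / ϖ` is integral
over `R[X]` for some `k ≥ 1` then `u / ϖ` is integral over `R[X]`. -/
theorem reduced [FiniteDimensional K F] (h : GaussPair (K := K) ϖ V₁ V₂ b c) {u : F}
    (hu : IsIntegral R[X] u) {k : ℕ}
    (h₁ : u ^ k * (algebraMap R[X] F (C ϖ))⁻¹ ∈ V₁)
    (h₂ : u ^ k * (algebraMap R[X] F (C ϖ))⁻¹ ∈ V₂) :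
    IsIntegral R[X] (u * (algebraMap R[X] F (C ϖ))⁻¹) := by
  have key : ∀ (V : ValuationSubring F), IsUnif V (algebraMap R[X] F (C ϖ)) →
      u ^ k * (algebraMap R[X] F (C ϖ))⁻¹ ∈ V → u * (algebraMap R[X] F (C ϖ))⁻¹ ∈ V := by
    intro V hV hk
    rw [hV.mul_inv_mem_iff] at hk ⊢
    by_contra hcon
    have h1 : 1 ≤ V.valuation u := not_lt.1 hcon
    have h2 : 1 ≤ V.valuation (u ^ k) := by
      rw [_root_.map_pow]; exact one_le_pow₀ h1
    exact absurd hk (not_lt.2 h2)
  exact h.qep2 hu (key V₁ h.unif₁ h₁) (key V₂ h.unif₂ h₂)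

end GaussPair

end Fermat.Agent.A2.H48

end
-- ===== PACK-END A2/H48/Qep2.lean

-- ===== PACK-BEGIN S18/H576/Skel.lean
section


/-!
# S18 / MOD-ASM (helper576): `node_mod` from field lemmas about the concrete objects

Skeleton: each `field_*` lemma below is one field (or group of fields) of
`Alg.GoodModel (Lc M) (Ec M E) (Fc M E) (Rc M A E) V w x S` for the concrete objects of
`Mod/Defs.lean`.  `goodModelStatement_of_fields` assembles them into `Mod.GoodModelStatement`.
-/

set_option autoImplicit false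

noncomputable section

namespace Fermat.Agent.S18.H576

open ModularCurve AlgebraicCurve HahnSeries Fermat.Agent.S18 Fermat.Agent.S18.Mod

/-- The part of `GoodModel` that does not mention `V`, `w`, `x`, `S`. -/
structure FieldFacts (M : ℕ) (A : ValuationSubring Qb) (E : IntermediateField ℚ Qb) : Prop where
  R_le : (Rc M A E : Set (Om M)) ⊆ Ec M E
  R_total : ∀ e ∈ Ec M E, e ∈ Rc M A E ∨ e⁻¹ ∈ Rc M A E
  E_le_L : Ec M E ≤ Lc M
  E_le_F : Ec M E ≤ Fc M E
  L_algebraic : ∀ a ∈ Lc M, IsAlgebraic (Ec M E) a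
  L_algClosed : IsAlgClosed (Lc M)
  E_closed_in_F : ∀ f ∈ Fc M E, IsAlgebraic (Ec M E) f → f ∈ Ec M E
  compositum : Subfield.closure ((Fc M E : Set (Om M)) ∪ Lc M) = ⊤

/-- The uniformiser facts. -/
structure UnifFacts (M : ℕ) (A : ValuationSubring Qb) (E : IntermediateField ℚ Qb)
    (w : Om M) : Prop where
  w_mem : w ∈ Rc M A E
  w_ne_zero : w ≠ 0
  w_inv_not_mem : w⁻¹ ∉ Rc M A E
  w_gen : ∀ r ∈ Rc M A E, r⁻¹ ∉ Rc M A E → r * w⁻¹ ∈ Rc M A E
  w_discrete : ∀ r ∈ Rc M A E, r ≠ 0 →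
    ∃ n : ℕ, r * (w⁻¹) ^ n ∈ Rc M A E ∧ (r * (w⁻¹) ^ n)⁻¹ ∈ Rc M A E
  residue_perfect : ∃ p : ℕ, p.Prime ∧ (p : Om M) * w⁻¹ ∈ Rc M A E ∧
    ∀ r ∈ Rc M A E, ∃ s ∈ Rc M A E, (r - s ^ p) * w⁻¹ ∈ Rc M A E

/-- The coordinate facts. -/
structure CoordFacts (M : ℕ) (E : IntermediateField ℚ Qb) (x : Om M) : Prop where
  x_mem : x ∈ Fc M E
  x_transcendental : Transcendental (Lc M) x
  finite : ∃ s : Finset (Om M), (s : Set (Om M)) ⊆ Fc M E ∧
    ∀ f ∈ Fc M E, f ∈ Submodule.span (Alg.ratField (Ec M E) x) (s : Set (Om M))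

/-- The Gauss valuation ring facts. -/
structure ValFacts (M : ℕ) (A : ValuationSubring Qb) (E : IntermediateField ℚ Qb)
    (V : Subring (Om M)) (w x : Om M) : Prop where
  V_le : (V : Set (Om M)) ⊆ Fc M E
  x_mem_V : x ∈ V
  V_total : ∀ f ∈ Fc M E, f ∈ V ∨ f⁻¹ ∈ V
  R_le_V : Rc M A E ≤ V
  w_inv_not_mem_V : w⁻¹ ∉ V
  V_gen : ∀ f ∈ V, f⁻¹ ∉ V → f * w⁻¹ ∈ V
  gauss : ∀ P : Polynomial (Om M), (∀ i, P.coeff i ∈ Rc M A E) →
    (∃ i, P.coeff i ≠ 0 ∧ (P.coeff i)⁻¹ ∈ Rc M A E) → (P.eval x)⁻¹ ∈ V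
  separable : ∀ f ∈ V, ∃ P : Polynomial (Om M),
    (∀ i, P.coeff i ∈ Alg.polyRing (Rc M A E) x) ∧
    P.eval f * w⁻¹ ∈ V ∧ (Polynomial.derivative P).eval f ≠ 0 ∧
    ((Polynomial.derivative P).eval f)⁻¹ ∈ V

/-- The `q`-expansion principle on both charts. -/
structure QepFacts (M : ℕ) (A : ValuationSubring Qb) (E : IntermediateField ℚ Qb)
    (V : Subring (Om M)) (w x : Om M) : Prop where
  qep_fin : ∀ b ∈ Alg.chart (Fc M E) (Rc M A E) x, b * w⁻¹ ∈ V →
    b * w⁻¹ ∈ Alg.chart (Fc M E) (Rc M A E) x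
  qep_inf : ∀ b ∈ Alg.chart (Fc M E) (Rc M A E) x⁻¹, b * w⁻¹ ∈ V →
    b * w⁻¹ ∈ Alg.chart (Fc M E) (Rc M A E) x⁻¹

/-- The branch facts. -/
structure BranchFacts (M : ℕ) (A : ValuationSubring Qb) (E : IntermediateField ℚ Qb)
    (x : Om M) (S : Finset (Om M)) : Prop where
  S_mem : ∀ s ∈ S, s ∈ Rc M A E
  S_distinct : ∀ s ∈ S, ∀ t ∈ S, s ≠ t → (s - t)⁻¹ ∈ Rc M A E
  S_unit : ∀ s ∈ S, s ≠ 0 → s⁻¹ ∈ Rc M A E
  unramified : ∀ O : ValuationSubring (Om M), (∀ a ∈ Lc M, a ∈ O) → ∀ c ∈ Lc M, c ∉ S →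
    x - c ∈ O → (x - c)⁻¹ ∉ O → ∀ t ∈ O, t⁻¹ ∉ O → t * (x - c)⁻¹ ∈ O

/-- Assembly of one `GoodModel` from the six groups of facts. -/
theorem goodModel_of_facts {M : ℕ} {A : ValuationSubring Qb} {E : IntermediateField ℚ Qb}
    {V : Subring (Om M)} {w x : Om M} {S : Finset (Om M)}
    (hcz : CharZero (Om M))
    (hF : FieldFacts M A E) (hU : UnifFacts M A E w) (hC : CoordFacts M E x)
    (hV : ValFacts M A E V w x) (hQ : QepFacts M A E V w x) (hB : BranchFacts M A E x S) :
    Alg.GoodModel (Lc M) (Ec M E) (Fc M E) (Rc M A E) V w x S where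
  charZero := hcz
  R_le := hF.R_le
  R_total := hF.R_total
  w_mem := hU.w_mem
  w_ne_zero := hU.w_ne_zero
  w_inv_not_mem := hU.w_inv_not_mem
  w_gen := hU.w_gen
  w_discrete := hU.w_discrete
  residue_perfect := hU.residue_perfect
  E_le_L := hF.E_le_L
  E_le_F := hF.E_le_F
  L_algebraic := hF.L_algebraic
  L_algClosed := hF.L_algClosed
  E_closed_in_F := hF.E_closed_in_F
  compositum := hF.compositum
  x_mem := hC.x_mem
  x_transcendental := hC.x_transcendental
  finite := hC.finite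
  V_le := hV.V_le
  x_mem_V := hV.x_mem_V
  V_total := hV.V_total
  R_le_V := hV.R_le_V
  w_inv_not_mem_V := hV.w_inv_not_mem_V
  V_gen := hV.V_gen
  gauss := hV.gauss
  qep_fin := hQ.qep_fin
  qep_inf := hQ.qep_inf
  separable := hV.separable
  S_mem := hB.S_mem
  S_distinct := hB.S_distinct
  S_unit := hB.S_unit
  unramified := hB.unramified

end Fermat.Agent.S18.H576

end
end
-- ===== PACK-END S18/H576/Skel.lean

-- ===== PACK-BEGIN A2/Mod/H189/ChartChangeT2.lean
section


/-!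
# Cell A2 / MOD, GOODRED part G3 (helper189): from the `t₂`-charts to the `j`-charts (`q = 3`)

Abstract setting (Mathlib only): `F` a field over `R`, `2` a unit of `R`, `t, j ∈ F` with
`j t² = (t + 256)³` (`t` = Hauptmodul of `X₀(2)`), `j ≠ 0`; `V` a subring of `F` containing `R`
in which `t` and `t + 256` are units (the Gauss valuation ring), `w : F`.

* `goodOn_j_of_t2`    : `GoodOn` for the chart of `R[t]` ⟹ `GoodOn` for the chart of `R[j]`
  (`IC(R[j]) = IC(R[t])[1/t]`);
* `goodOn_jinv_of_t2` : `GoodOn` for the charts of `R[t]` and `R[1/t]` ⟹ `GoodOn` for the chart of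
  `R[1/j]`  (`IC(R[1/j]) = IC(R[u])`, `u = 1/(t+256)`, glued from `IC(R[t])[1/(t+256)]` and
  `IC(R[1/t])[1/(1+256/t)]`).
-/

set_option autoImplicit false

namespace Fermat.Agent.A2.Mod.H189

variable {R : Type*} [CommRing R] {F : Type*} [Field F] [Algebra R F]

/-- `R[y] ⊆ F`. -/
abbrev Aof (R : Type*) [CommRing R] {F : Type*} [Field F] [Algebra R F] (y : F) :
    Subalgebra R F := Algebra.adjoin R ({y} : Set F)

theorem self_mem_Aof (y : F) : y ∈ Aof R y := Algebra.subset_adjoin rfl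

theorem Aof_le {y : F} {B : Subalgebra R F} (hy : y ∈ B) : Aof R y ≤ B :=
  Algebra.adjoin_le (by
    intro x hx
    rw [Set.mem_singleton_iff] at hx
    rw [hx]
    exact hy)

theorem ofNat_mem_sub (A : Subalgebra R F) (n : ℕ) [n.AtLeastTwo] : (OfNat.ofNat n : F) ∈ A := by
  have : (OfNat.ofNat n : F) = algebraMap R F (OfNat.ofNat n) := (map_ofNat _ n).symm
  rw [this]
  exact A.algebraMap_mem _

section T2

variable {V : Subring F} {w : F} {t j : F} (i : R)

include i in
theorem t2_facts (hi : (256 : R) * i = 1) (hj : j ≠ 0) (hrel : j * t ^ 2 = (t + 256) ^ 3) :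
    (256 : F) * algebraMap R F i = 1 ∧ (256 : F) ≠ 0 ∧ t ≠ 0 ∧ t + 256 ≠ 0 := by
  have h1 : (256 : F) * algebraMap R F i = 1 := by
    have := congrArg (algebraMap R F) hi
    rwa [map_mul, map_one, map_ofNat] at this
  have h2 : (256 : F) ≠ 0 := fun h => by rw [h, zero_mul] at h1; exact zero_ne_one h1
  have h3 : t ≠ 0 := by
    intro h
    rw [h] at hrel
    simp only [ne_eq, OfNat.ofNat_ne_zero, not_false_eq_true, zero_pow, mul_zero, zero_add] at hrel
    exact pow_ne_zero 3 h2 hrel.symm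
  refine ⟨h1, h2, h3, fun h => ?_⟩
  rw [h] at hrel
  simp only [ne_eq, OfNat.ofNat_ne_zero, not_false_eq_true, zero_pow, mul_eq_zero,
    pow_eq_zero_iff] at hrel
  rcases hrel with h | h
  · exact hj h
  · exact h3 h

include i in
/-- **`t₂ → j`, finite chart.** -/
theorem goodOn_j_of_t2 (hi : (256 : R) * i = 1) (hj : j ≠ 0) (hrel : j * t ^ 2 = (t + 256) ^ 3)
    (htV : t ∈ V) (htV' : t⁻¹ ∈ V) (hg : GoodOn V w (Aof R t)) : GoodOn V w (Aof R j) := by
  obtain ⟨hi', h256, ht0, -⟩ := t2_facts i hi hj hrel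
  have hjeq : j = (t + 256) ^ 3 * t⁻¹ ^ 2 := by
    field_simp
    exact hrel
  refine (hg.loc (self_mem_Aof t) ht0 htV htV').congr ?_ ?_
  · -- `R[t, 1/t]` is integral over `R[j]`
    intro a ha
    refine isIntegral_of_mem_locSub (A' := Aof R j) (fun a ha => ?_) ?_ ha
    · refine isIntegral_of_mem_adjoin (A := Aof R j) (S := {t}) (fun x hx => ?_) ha
      rw [Set.mem_singleton_iff] at hx
      subst hx
      -- `t ^ 3 + (768 - j) t ^ 2 + 196608 t + 16777216 = 0`
      refine isIntegral_of_cubic (a := 1) (v := 1) (c₂ := 768 - j) (c₁ := 196608)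
        (c₀ := 16777216) (Subalgebra.one_mem _) (one_mul 1)
        (Subalgebra.sub_mem _ (ofNat_mem_sub _ 768) (self_mem_Aof j))
        (ofNat_mem_sub _ 196608) (ofNat_mem_sub _ 16777216) ?_
      linear_combination -hrel
    · -- `1 / t`
      refine isIntegral_of_cubic (a := 16777216) (v := algebraMap R F (i ^ 3))
        (c₂ := 196608) (c₁ := 768 - j) (c₀ := 1) (Subalgebra.algebraMap_mem _ _) ?_
        (ofNat_mem_sub _ 196608)
        (Subalgebra.sub_mem _ (ofNat_mem_sub _ 768) (self_mem_Aof j)) (Subalgebra.one_mem _) ?_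
      · rw [map_pow]
        have : (16777216 : F) = 256 ^ 3 := by norm_num
        rw [this, ← mul_pow, mul_comm, hi', one_pow]
      · field_simp
        linear_combination -hrel
  · -- `R[j] ⊆ R[t, 1/t]`
    intro a ha
    refine isIntegral_of_mem (Aof_le (B := locSub (Aof R t) t) ?_ ha)
    rw [hjeq]
    refine Subalgebra.mul_mem _ (Subalgebra.pow_mem _ (Subalgebra.add_mem _
      (le_locSub _ _ (self_mem_Aof t)) (ofNat_mem_sub _ 256)) 3)
      (Subalgebra.pow_mem _ (inv_mem_locSub _ _) 2)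

include i in
/-- **`t₂ → j`, chart at infinity.** -/
theorem goodOn_jinv_of_t2 (hi : (256 : R) * i = 1) (hj : j ≠ 0)
    (hrel : j * t ^ 2 = (t + 256) ^ 3) (hRV : ∀ r : R, algebraMap R F r ∈ V)
    (htV : t ∈ V) (htV' : t⁻¹ ∈ V) (huV : (t + 256)⁻¹ ∈ V)
    (hg : GoodOn V w (Aof R t)) (hg' : GoodOn V w (Aof R t⁻¹)) : GoodOn V w (Aof R j⁻¹) := by
  obtain ⟨hi', h256, ht0, htu0⟩ := t2_facts i hi hj hrel
  have h256V : (256 : F) ∈ V := by
    have := hRV 256
    rwa [map_ofNat] at this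
  set u : F := (t + 256)⁻¹ with hu
  have hu0 : u ≠ 0 := inv_ne_zero htu0
  have htu : t * u = 1 - 256 * u := by
    rw [hu]
    field_simp
    ring
  have hjinv : j⁻¹ = (1 - 256 * u) ^ 2 * u := by
    rw [← htu, hu]
    field_simp
    linear_combination -hrel
  have h1u0 : 1 - 256 * u ≠ 0 := by
    rw [← htu]
    exact mul_ne_zero ht0 hu0
  have h1t0 : 1 + 256 * t⁻¹ ≠ 0 := by
    have : 1 + 256 * t⁻¹ = (t + 256) * t⁻¹ := by field_simp
    rw [this]
    exact mul_ne_zero htu0 (inv_ne_zero ht0)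
  have hinv1 : (1 - 256 * u)⁻¹ = 1 + 256 * t⁻¹ := by
    rw [← htu, hu]
    field_simp
  have hinv2 : (1 + 256 * t⁻¹)⁻¹ = 1 - 256 * u := by
    rw [← hinv1, inv_inv]
  -- the chart of `R[u]`
  have hgu : GoodOn V w (Aof R u) := by
    refine GoodOn.glue (s₁ := u) (s₂ := 1 - 256 * u) (α := 256) (β := 1)
      (adjoin_subset_subring hRV (by
        intro x hx
        rw [Set.mem_singleton_iff] at hx
        rw [hx]
        exact huV))
      (self_mem_Aof u)
      (Subalgebra.sub_mem _ (Subalgebra.one_mem _)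
        (Subalgebra.mul_mem _ (ofNat_mem_sub _ 256) (self_mem_Aof u)))
      (ofNat_mem_sub _ 256) (Subalgebra.one_mem _) (by ring) ?_ ?_
    · -- `R[u, 1/u] = R[t, 1/(t+256)]`
      refine (hg.loc (s := t + 256) (Subalgebra.add_mem _ (self_mem_Aof t) (ofNat_mem_sub _ 256))
        htu0 (V.add_mem htV h256V) huV).of_le_of_le ?_ ?_
      · refine locSub_le (Aof_le ?_) ?_
        · -- `t = 1/u - 256`
          have : t = u⁻¹ - 256 := by rw [hu, inv_inv]; ring
          rw [this]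
          exact Subalgebra.sub_mem _ (inv_mem_locSub _ _) (ofNat_mem_sub _ 256)
        · exact le_locSub _ _ (self_mem_Aof u)
      · refine locSub_le (Aof_le ?_) ?_
        · exact inv_mem_locSub _ _
        · rw [hu, inv_inv]
          exact le_locSub _ _ (Subalgebra.add_mem _ (self_mem_Aof t) (ofNat_mem_sub _ 256))
    · -- `R[u, 1/(1-256u)] = R[1/t, 1/(1+256/t)]`
      refine (hg'.loc (s := 1 + 256 * t⁻¹)
        (Subalgebra.add_mem _ (Subalgebra.one_mem _)
          (Subalgebra.mul_mem _ (ofNat_mem_sub _ 256) (self_mem_Aof t⁻¹)))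
        h1t0 (V.add_mem V.one_mem (V.mul_mem h256V htV')) ?_).of_le_of_le ?_ ?_
      · rw [hinv2, ← htu]
        exact V.mul_mem htV huV
      · refine locSub_le (Aof_le ?_) ?_
        · -- `1/t = i ((1 - 256 u)⁻¹ - 1)`
          have : t⁻¹ = algebraMap R F i * ((1 - 256 * u)⁻¹ - 1) := by
            rw [hinv1]
            linear_combination (-t⁻¹) * hi'
          rw [this]
          exact Subalgebra.mul_mem _ (Subalgebra.algebraMap_mem _ _)
            (Subalgebra.sub_mem _ (inv_mem_locSub _ _) (Subalgebra.one_mem _))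
        · rw [hinv2]
          exact le_locSub _ _ (Subalgebra.sub_mem _ (Subalgebra.one_mem _)
            (Subalgebra.mul_mem _ (ofNat_mem_sub _ 256) (self_mem_Aof u)))
      · refine locSub_le (Aof_le ?_) ?_
        · -- `u = (1/t) (1 + 256/t)⁻¹`
          have : u = t⁻¹ * (1 + 256 * t⁻¹)⁻¹ := by
            rw [hinv2, ← htu]
            field_simp
          rw [this]
          exact Subalgebra.mul_mem _ (le_locSub _ _ (self_mem_Aof t⁻¹)) (inv_mem_locSub _ _)
        · rw [hinv1]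
          exact le_locSub _ _ (Subalgebra.add_mem _ (Subalgebra.one_mem _)
            (Subalgebra.mul_mem _ (ofNat_mem_sub _ 256) (self_mem_Aof t⁻¹)))
  -- `IC(R[1/j]) = IC(R[u])`
  refine hgu.congr ?_ ?_
  · intro a ha
    refine isIntegral_of_mem_adjoin (A := Aof R j⁻¹) (S := {u}) (fun x hx => ?_) ha
    rw [Set.mem_singleton_iff] at hx
    subst hx
    -- `65536 u ^ 3 - 512 u ^ 2 + u - 1/j = 0`
    refine isIntegral_of_cubic (a := 65536) (v := algebraMap R F (i ^ 2))
      (c₂ := -512) (c₁ := 1) (c₀ := -j⁻¹) (Subalgebra.algebraMap_mem _ _) ?_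
      (Subalgebra.neg_mem _ (ofNat_mem_sub _ 512)) (Subalgebra.one_mem _)
      (Subalgebra.neg_mem _ (self_mem_Aof j⁻¹)) ?_
    · rw [map_pow]
      have : (65536 : F) = 256 ^ 2 := by norm_num
      rw [this, ← mul_pow, mul_comm, hi', one_pow]
    · rw [hjinv]
      ring
  · intro a ha
    refine isIntegral_of_mem (Aof_le (B := Aof R u) ?_ ha)
    rw [hjinv]
    exact Subalgebra.mul_mem _ (Subalgebra.pow_mem _ (Subalgebra.sub_mem _ (Subalgebra.one_mem _)
      (Subalgebra.mul_mem _ (ofNat_mem_sub _ 256) (self_mem_Aof u))) 2) (self_mem_Aof u)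

end T2

end Fermat.Agent.A2.Mod.H189

end
-- ===== PACK-END A2/Mod/H189/ChartChangeT2.lean

-- ===== PACK-BEGIN S18/H754/KummerLocal.lean
section




/-!
# S18 / Route K / étale Kummer cover: the LOCAL lifting theorem

`R` a Noetherian local domain with `𝔪 = (ϖ, t)`, `ϖ` prime (so `R` is a UFD), `u ∈ Frac R` with
`u ≡ 1 mod ϖ` which is locally a unit times a `p`-th power at every prime element.
Then `u = w (d/c)^p` with `w ∈ Rˣ`, `ϖ ∤ c, d` and `c ≡ σ d mod ϖ` for a unit `σ`, and the Kummer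
idempotents lift to elements integral over `R`.
-/

set_option autoImplicit false

noncomputable section

namespace Fermat.Agent.S18.H754

open Polynomial IsLocalRing

section Local

variable {R : Type*} [CommRing R] [IsDomain R] [IsNoetherianRing R] [IsLocalRing R]
  {F : Type*} [Field F] [Algebra R F] [IsFractionRing R F]

/-- Normal form of a locally-`p`-th-power `u ≡ 1 mod ϖ` over a regular local ring of the shape
`𝔪 = (ϖ, t)`. -/
theorem exists_kummer_normal_form (ϖ t : R) (hϖ : Prime ϖ)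
    (hm : maximalIdeal R = Ideal.span {ϖ, t})
    (p : ℕ) (hp : 0 < p) (u : F) (h1 : OneModPi ϖ u)
    (hdiv : ∀ π : R, Prime π → LocallyPow R p u π) :
    ∃ (c d : R) (w σ : Rˣ), ¬ ϖ ∣ c ∧ ¬ ϖ ∣ d ∧
      u * algebraMap R F c ^ p = algebraMap R F w * algebraMap R F d ^ p ∧
      ϖ ∣ c - σ * d := by
  classical
  haveI : UniqueFactorizationMonoid R := ufd_of_regular_pair ϖ t hϖ hm
  have hinj : Function.Injective (algebraMap R F) := IsFractionRing.injective R F
  obtain ⟨a, s, hs, has, hu⟩ := h1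
  rw [Ideal.mem_span_singleton] at hs has
  have ha : ¬ ϖ ∣ a := by
    intro h
    apply hs
    have := dvd_sub h has
    rwa [sub_sub_cancel] at this
  have ha0 : a ≠ 0 := fun h => ha (h ▸ dvd_zero _)
  have hs0 : s ≠ 0 := fun h => hs (h ▸ dvd_zero _)
  have hsF : algebraMap R F s ≠ 0 := fun h => hs0 (hinj (by rw [h, _root_.map_zero]))
  have haF : algebraMap R F a ≠ 0 := fun h => ha0 (hinj (by rw [h, _root_.map_zero]))
  have hu0 : u ≠ 0 := by
    rintro rfl
    rw [zero_mul] at hu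
    exact haF hu.symm
  obtain ⟨s₀, hs₀, w, hw⟩ := exists_unit_mul_pow (R := R) p hp u hu0 hdiv
  obtain ⟨c, ⟨d, hd⟩, hrel, hcd⟩ := IsFractionRing.exists_reduced_fraction R (K := F) s₀
  have hd0 : d ≠ 0 := nonZeroDivisors.ne_zero hd
  have hdF : algebraMap R F d ≠ 0 := fun h => hd0 (hinj (by rw [h, _root_.map_zero]))
  rw [IsFractionRing.mk'_eq_div] at hcd
  simp only at hcd hrel
  -- the key equation in `R`
  have key : a * c ^ p = w * s * d ^ p := by
    apply hinj
    simp only [_root_.map_mul, _root_.map_pow]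
    rw [← hu, ← hw, ← hcd, div_pow]
    field_simp
  have hc : ¬ ϖ ∣ c := by
    intro h
    have h2 : ϖ ∣ (w : R) * s * d ^ p := by
      rw [← key]
      exact Dvd.dvd.mul_left (dvd_pow h hp.ne') a
    rcases hϖ.dvd_or_dvd h2 with h3 | h3
    · rcases hϖ.dvd_or_dvd h3 with h4 | h4
      · exact hϖ.not_unit (isUnit_of_dvd_unit h4 w.isUnit)
      · exact hs h4
    · exact hϖ.not_unit (hrel h (hϖ.dvd_of_dvd_pow h3))
  have hd' : ¬ ϖ ∣ d := by
    intro h
    have h2 : ϖ ∣ a * c ^ p := by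
      rw [key]
      exact Dvd.dvd.mul_left (dvd_pow h hp.ne') _
    rcases hϖ.dvd_or_dvd h2 with h3 | h3
    · exact ha h3
    · exact hc (hϖ.dvd_of_dvd_pow h3)
  -- pass to the quotient `R/ϖ`, a local principal ideal domain
  haveI hprime : (Ideal.span {ϖ}).IsPrime := (Ideal.span_singleton_prime hϖ.ne_zero).mpr hϖ
  haveI hpid : IsPrincipalIdealRing (R ⧸ Ideal.span {ϖ}) :=
    isPrincipalIdealRing_quotient_of_regular_pair ϖ t hϖ hm
  haveI : Nontrivial (R ⧸ Ideal.span {ϖ}) := Ideal.Quotient.nontrivial_iff.mpr hprime.ne_top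
  haveI : IsLocalRing (R ⧸ Ideal.span {ϖ}) :=
    IsLocalRing.of_surjective' (Ideal.Quotient.mk _) Ideal.Quotient.mk_surjective
  haveI : IsDomain (R ⧸ Ideal.span {ϖ}) := Ideal.Quotient.isDomain _
  haveI : ValuationRing (R ⧸ Ideal.span {ϖ}) :=
    ValuationRing.iff_local_bezout_domain.mpr ⟨inferInstance, inferInstance⟩
  set mk := Ideal.Quotient.mk (Ideal.span {ϖ}) with hmk
  have hmk0 : ∀ x : R, mk x = 0 ↔ ϖ ∣ x := fun x => by
    rw [hmk, Ideal.Quotient.eq_zero_iff_mem, Ideal.mem_span_singleton]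
  have hmc : mk c ≠ 0 := fun h => hc ((hmk0 c).1 h)
  have hmd : mk d ≠ 0 := fun h => hd' ((hmk0 d).1 h)
  have hms : mk s ≠ 0 := fun h => hs ((hmk0 s).1 h)
  have hmas : mk a = mk s := by
    rw [← sub_eq_zero, ← _root_.map_sub]
    exact (hmk0 _).2 has
  have hmw : IsUnit (mk (w : R)) := w.isUnit.map mk
  have key' : mk c ^ p = mk (w : R) * mk d ^ p := by
    have := congrArg mk key
    simp only [_root_.map_mul, _root_.map_pow] at this
    rw [hmas] at this
    have h3 : mk s * mk c ^ p = mk s * (mk (w : R) * mk d ^ p) := by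
      rw [this]; ring
    exact mul_left_cancel₀ hms h3
  have hx : ∃ x : R ⧸ Ideal.span {ϖ}, IsUnit x ∧ mk c = x * mk d := by
    rcases ValuationRing.dvd_total (mk c) (mk d) with ⟨y, hy⟩ | ⟨y, hy⟩
    · -- `mk d = mk c * y`
      have h4 : mk c ^ p * 1 = mk c ^ p * (mk (w : R) * y ^ p) := by
        rw [mul_one]
        conv_lhs => rw [key', hy, mul_pow]
        ring
      have h5 : 1 = mk (w : R) * y ^ p := mul_left_cancel₀ (pow_ne_zero p hmc) h4
      have h6 : IsUnit (y ^ p) := IsUnit.of_mul_eq_one_right _ h5.symm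
      have h7 : IsUnit y := (isUnit_pow_iff hp.ne').1 h6
      obtain ⟨y', rfl⟩ := h7
      refine ⟨((y'⁻¹ : (R ⧸ Ideal.span {ϖ})ˣ) : R ⧸ Ideal.span {ϖ}), Units.isUnit _, ?_⟩
      rw [hy]
      rw [mul_comm (mk c), ← mul_assoc, Units.inv_mul, one_mul]
    · -- `mk c = mk d * y`
      have h4 : mk d ^ p * y ^ p = mk d ^ p * mk (w : R) := by
        rw [← mul_pow, ← hy, key']
        ring
      have h5 : y ^ p = mk (w : R) := mul_left_cancel₀ (pow_ne_zero p hmd) h4
      have h7 : IsUnit y := (isUnit_pow_iff hp.ne').1 (h5 ▸ hmw)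
      exact ⟨y, h7, by rw [hy, mul_comm]⟩
  obtain ⟨x, hxu, hxc⟩ := hx
  obtain ⟨σ', rfl⟩ := Ideal.Quotient.mk_surjective x
  have hσ' : IsUnit σ' := by
    rw [← IsLocalRing.notMem_maximalIdeal]
    intro hmem
    obtain ⟨y, hy⟩ := hxu.exists_right_inv
    obtain ⟨y', rfl⟩ := Ideal.Quotient.mk_surjective y
    have h8 : ϖ ∣ σ' * y' - 1 := by
      rw [← hmk0, _root_.map_sub, _root_.map_mul, _root_.map_one, sub_eq_zero]
      exact hy
    have h9 : ϖ ∈ maximalIdeal R := by
      rw [hm]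
      exact Ideal.subset_span (Set.mem_insert _ _)
    have h10 : σ' * y' - 1 ∈ maximalIdeal R := Ideal.mem_of_dvd _ h8 h9
    have h11 : σ' * y' ∈ maximalIdeal R := Ideal.mul_mem_right _ _ hmem
    have h12 : (1 : R) ∈ maximalIdeal R := by
      have := Ideal.sub_mem _ h11 h10
      rwa [sub_sub_cancel] at this
    exact (Ideal.ne_top_iff_one _).1 (IsLocalRing.maximalIdeal.isMaximal R).ne_top h12
  obtain ⟨σ, rfl⟩ := hσ'
  refine ⟨c, d, w, σ, hc, hd', ?_, ?_⟩
  · rw [← hw, ← hcd, div_pow]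
    field_simp
  · rw [← hmk0, _root_.map_sub, _root_.map_mul, sub_eq_zero]
    exact hxc

section Lift

variable {F' : Type*} [Field F'] [Algebra F F'] [Algebra R F'] [IsScalarTower R F F']

omit [IsNoetherianRing R] [IsLocalRing R] in
lemma faithfulSMul_of_tower (R F F' : Type*) [CommRing R] [IsDomain R] [Field F] [Algebra R F]
    [IsFractionRing R F] [Field F'] [Algebra F F'] [Algebra R F'] [IsScalarTower R F F'] :
    FaithfulSMul R F' := by
  rw [faithfulSMul_iff_algebraMap_injective]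
  rw [IsScalarTower.algebraMap_eq R F F']
  exact (algebraMap F F').injective.comp (IsFractionRing.injective R F)

/-- **Local lifting theorem** for the Kummer idempotents. -/
theorem kummer_lift_local (ϖ t : R) (hϖ : Prime ϖ)
    (hm : maximalIdeal R = Ideal.span {ϖ, t})
    (p : ℕ) (hp : 0 < p) (hpu : IsUnit (p : R))
    (u : F) (z : F') (hz : z ^ p = algebraMap F F' u) (h1 : OneModPi ϖ u)
    (hdiv : ∀ π : R, Prime π → LocallyPow R p u π) (η : R) :
    ∃ b : F', IsIntegral R b ∧ InPiO ϖ (b - kummerIdem p η z) := by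
  classical
  haveI : FaithfulSMul R F' := faithfulSMul_of_tower R F F'
  have hinj' : Function.Injective (algebraMap R F') := FaithfulSMul.algebraMap_injective R F'
  obtain ⟨c, d, w, σ, hc, hd, hcd, hσ⟩ := exists_kummer_normal_form ϖ t hϖ hm p hp u h1 hdiv
  have hc0 : c ≠ 0 := fun h => hc (h ▸ dvd_zero _)
  have hd0 : d ≠ 0 := fun h => hd (h ▸ dvd_zero _)
  have hcF : algebraMap R F' c ≠ 0 := fun h => hc0 (hinj' (by rw [h, _root_.map_zero]))
  have hdF : algebraMap R F' d ≠ 0 := fun h => hd0 (hinj' (by rw [h, _root_.map_zero]))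
  have hcd' : algebraMap F F' u * algebraMap R F' c ^ p =
      algebraMap R F' w * algebraMap R F' d ^ p := by
    have := congrArg (algebraMap F F') hcd
    simpa only [_root_.map_mul, _root_.map_pow, ← IsScalarTower.algebraMap_apply] using this
  -- `θ = z c / d`, `θ ^ p = w`
  set θ : F' := z * algebraMap R F' c / algebraMap R F' d with hθ
  have hθp : θ ^ p = algebraMap R F' w := by
    rw [hθ, div_pow, mul_pow, hz, hcd']
    field_simp
  have hθi : IsIntegral R θ := by
    refine IsIntegral.of_pow hp ?_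
    rw [hθp]
    exact isIntegral_algebraMap
  -- `z c = θ d`
  have hzc : algebraMap R F' c * z = θ * algebraMap R F' d := by
    rw [hθ]
    field_simp
  set τ : R := ((σ⁻¹ : Rˣ) : R) with hτ
  set y : F' := θ * algebraMap R F' τ with hy
  have hyi : IsIntegral R y := hθi.mul isIntegral_algebraMap
  have hyO : y ∈ Oloc (F' := F') ϖ hϖ := mem_Oloc_of_isIntegral hϖ hyi
  have hcs : c ∉ Ideal.span {ϖ} := by
    rw [Ideal.mem_span_singleton]
    exact hc
  have hzO : z ∈ Oloc (F' := F') ϖ hϖ := by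
    refine ⟨c, hcs, ?_⟩
    rw [hzc]
    exact hθi.mul isIntegral_algebraMap
  -- `y ≡ z mod ϖ O'`
  obtain ⟨r, hr⟩ := hσ
  have hr' : τ * c - d = ϖ * (τ * r) := by
    have h2 : τ * (c - σ * d) = τ * c - d := by
      rw [mul_sub, ← mul_assoc, hτ, Units.inv_mul, one_mul]
    rw [← h2, hr]
    ring
  have hyz : InPiO ϖ (y - z) := by
    refine ⟨c, hcs, θ * algebraMap R F' (τ * r), hθi.mul isIntegral_algebraMap, ?_⟩
    have h3 : algebraMap R F' c * (y - z) = θ * algebraMap R F' (τ * c - d) := by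
      rw [mul_sub, hzc, hy, _root_.map_sub, _root_.map_mul]
      ring
    rw [h3, hr', _root_.map_mul]
    ring
  -- the lift
  have hpinv : ((p : F'))⁻¹ = algebraMap R F' ((hpu.unit⁻¹ : Rˣ) : R) := by
    have h4 : algebraMap R F' ((hpu.unit⁻¹ : Rˣ) : R) * (p : F') = 1 := by
      rw [← _root_.map_natCast (algebraMap R F') p, ← _root_.map_mul]
      rw [IsUnit.val_inv_mul hpu, _root_.map_one]
    exact (eq_inv_of_mul_eq_one_left h4).symm
  refine ⟨(p : F')⁻¹ * ∑ a ∈ Finset.range p, algebraMap R F' (η ^ a) * y ^ a, ?_, ?_⟩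
  · rw [hpinv]
    refine isIntegral_algebraMap.mul ?_
    refine IsIntegral.sum _ fun a _ => ?_
    exact isIntegral_algebraMap.mul (hyi.pow a)
  · have h5 : (p : F')⁻¹ * ∑ a ∈ Finset.range p, algebraMap R F' (η ^ a) * y ^ a -
        kummerIdem p η z =
        (p : F')⁻¹ * ∑ a ∈ Finset.range p, algebraMap R F' (η ^ a) * (y ^ a - z ^ a) := by
      rw [kummerIdem, ← mul_sub, ← Finset.sum_sub_distrib]
      congr 1
      refine Finset.sum_congr rfl fun a _ => ?_
      ring
    rw [h5, hpinv]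
    refine InPiO.mul_left hϖ (algebraMap_mem_Oloc hϖ _) ?_
    refine InPiO.sum hϖ _ _ fun a _ => ?_
    refine InPiO.mul_left hϖ (algebraMap_mem_Oloc hϖ _) ?_
    exact InPiO.pow_sub_pow hϖ hyO hzO hyz a

end Lift

end Local

end Fermat.Agent.S18.H754

end

end
-- ===== PACK-END S18/H754/KummerLocal.lean

-- ===== PACK-BEGIN Ribet/H704/I6Core.lean
section
/-
# RIBET row 38, WALL-p, crux (I6): SPEC v2 of the PERIOD package  (sub-architect helper704)

`I6Spec.lean` (v1, on main) froze the element forms of the leaves.  This file adds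
* the FRACTION form of NODE (`NodeRelFracStatement`): the form the assembly consumes
  (`f'` is an element of the fraction field of the node ring, not of the ring);
* the PROVED core bookkeeping `i6core`: sheets + shift + node relation
  ⇒ the slope vector of `f'` is proportional to the slope vector of the calibrating unit `D`.

Instantiation (who provides what):
* `ι`            : the nodes of the chart of `X₀(pM')` over the tame level `E₁ ∋ ζ_p`;
* for `e : ι`    : ONE point of the cover above `e`, its node ring `R'ₑ ⊆ F'` (WPUR + ETNODE),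
                   `W₁ e`, `W₂ e` = the valuations of `F'` at the two branches of `R'ₑ`,
                   `S e` = slope along the branch `𝔭₂` (`SlopeAt`), `k e` = `ord₁ D` at `e`;
* `hsheet`       : Galois is transitive on the valuations of `F'` above `v₁`, `v₂` (Mathlib);
* `hNR`          : `NodeRelFracStatement` in `R'ₑ`;
* `f'`, `c`, `G` : PER (`period_proved`), `c = u ^ p` with `p ∣ v(c)` (peu ramifié).
-/


set_option autoImplicit false

namespace Fermat.Agent.Ribet.H704.I6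

open Ideal

section FracVocabulary

variable {R : Type*} [CommRing R] (K : Type*) [Field K] [Algebra R K]

/-- `u ∈ K = Frac R` has valuation `v` along the branch `𝔭` (uniformiser `π` of `R_𝔭`):
`u · b = π ^ v · a` with `a, b ∈ R ∖ 𝔭`. -/
def ValAt (𝔭 : Ideal R) (π : R) (u : K) (v : ℤ) : Prop :=
  ∃ a b : R, a ∉ 𝔭 ∧ b ∉ 𝔭 ∧ u * algebraMap R K b = (algebraMap R K π) ^ v * algebraMap R K a

/-- `u ∈ K` has slope `s` along the branch `𝔭` at the closed point: after scaling by a power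
of `π`, `u = a / b` with `a, b ∈ R ∖ 𝔭` and `s = ord(a mod 𝔭) - ord(b mod 𝔭)` (orders in the
discrete valuation ring `R ⧸ 𝔭` with uniformiser `y`). -/
def SlopeAt (𝔭 : Ideal R) (π y : R) (u : K) (s : ℤ) : Prop :=
  ∃ (v : ℤ) (a b : R) (i j : ℕ), a ∉ 𝔭 ∧ b ∉ 𝔭 ∧
    u * algebraMap R K b = (algebraMap R K π) ^ v * algebraMap R K a ∧
    OrdOn 𝔭 y a i ∧ OrdOn 𝔭 y b j ∧ s = (i : ℤ) - (j : ℤ)

/-- `u ∈ K` is horizontally `m`-divisible: `u = a / b` with `a · b ^ (m - 1) = u · b ^ m`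
horizontally `m`-divisible in `R`. -/
def HorDivFrac (π : R) (m : ℕ) (u : K) : Prop :=
  ∃ a b : R, b ≠ 0 ∧ u * algebraMap R K b = algebraMap R K a ∧ HorDiv π m (a * b ^ (m - 1))

end FracVocabulary

/-- **NODE, fraction form** (the form consumed by the assembly).  In a normal noetherian local
node ring `R` with fraction field `K` and a unit pair `(D, D')` of exponent `N` prime to `m`:
for `u ∈ Kˣ` horizontally `m`-divisible, with valuations `v₁`, `v₂` along the two branches and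
slope `s` along `𝔭₂`,
`N · s ≡ (v₁ - v₂) · ord₁(D)   (mod m)`. -/
def NodeRelFracStatement : Prop :=
  ∀ (R K : Type) [CommRing R] [IsDomain R] [IsIntegrallyClosed R] [IsNoetherianRing R]
    [IsLocalRing R] [Field K] [Algebra R K] [IsFractionRing R K]
    (𝔭₁ 𝔭₂ : Ideal R) (π x y : R), IsNode 𝔭₁ 𝔭₂ π x y →
    ∀ (m N : ℕ), m ≠ 0 → Nat.Coprime N m → ∀ D D' : R, IsUnitPair 𝔭₁ 𝔭₂ π D D' N →
    ∀ (u : K), u ≠ 0 → HorDivFrac K π m u →
    ∀ (v₁ v₂ s : ℤ) (k : ℕ), ValAt K 𝔭₁ π u v₁ → ValAt K 𝔭₂ π u v₂ → SlopeAt K 𝔭₂ π y u s →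
      OrdOn 𝔭₁ x D k → (m : ℤ) ∣ (N : ℤ) * s - (v₁ - v₂) * k

section Core

variable {F : Type*} [Field F]

/-- Iterating `τ f' = f' · c · G ^ p` with `τ c = c`. -/
theorem iterate_period (p : ℕ) (τ : F ≃+* F) (f' c G : F) (hτ : τ f' = f' * c * G ^ p)
    (hτc : τ c = c) (j : ℕ) : ∃ H : F, (τ ^ j) f' = f' * c ^ j * H ^ p ∧ (G ≠ 0 → H ≠ 0) := by
  induction j with
  | zero => exact ⟨1, by simp, fun _ => one_ne_zero⟩
  | succ j ih =>
    obtain ⟨H, hH, hH0⟩ := ih
    refine ⟨G * τ H, ?_, fun hG => mul_ne_zero hG (by simpa using hH0 hG)⟩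
    rw [pow_succ', RingAut.mul_apply, hH, _root_.map_mul, _root_.map_mul, _root_.map_pow, _root_.map_pow, hτ, hτc]
    ring

/-- An additive valuation on nonzero elements takes the value `n · W a` on `a ^ n`. -/
theorem val_pow (W : F → ℤ) (hW : ∀ a b : F, a ≠ 0 → b ≠ 0 → W (a * b) = W a + W b)
    (a : F) (ha : a ≠ 0) (n : ℕ) : W (a ^ n) = n * W a := by
  have h1 : W (1 : F) = 0 := by
    have := hW 1 1 one_ne_zero one_ne_zero
    rw [one_mul] at this
    linarith
  induction n with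
  | zero => simp [h1]
  | succ n ih =>
    rw [pow_succ, hW _ _ (pow_ne_zero _ ha) ha, ih]
    push_cast; ring

/-- **I6, core bookkeeping (PROVED).**  `W₁ e`, `W₂ e` the two branch valuations and `S e` the
slope at (a point of the cover above) the node `e`; all `W₁ e` are conjugate under powers of the
deck transformation `τ`, and so are all `W₂ e` (sheets); the node relation holds at every `e`
with calibration `k e`; `τ f' = f' · c · G ^ p` with `c` a `τ`-fixed constant whose valuations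
are divisible by `p` (peu ramifié).  Then the slopes of `f'` are proportional to the calibration:
`∃ δ, ∀ e, N · S e f' ≡ δ · k e (mod p)`. -/
theorem i6core (p N : ℕ) (τ : F ≃+* F) {ι : Type*} (W₁ W₂ S : ι → F → ℤ) (k : ι → ℤ)
    (Hor : ι → F → Prop)
    (hW₁ : ∀ e (a b : F), a ≠ 0 → b ≠ 0 → W₁ e (a * b) = W₁ e a + W₁ e b)
    (hW₂ : ∀ e (a b : F), a ≠ 0 → b ≠ 0 → W₂ e (a * b) = W₂ e a + W₂ e b)
    (hsheet₁ : ∀ e e' : ι, ∃ j : ℕ, ∀ a : F, W₁ e' a = W₁ e ((τ ^ j) a))
    (hsheet₂ : ∀ e e' : ι, ∃ j : ℕ, ∀ a : F, W₂ e' a = W₂ e ((τ ^ j) a))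
    (hNR : ∀ e (u : F), u ≠ 0 → Hor e u →
      (p : ℤ) ∣ (N : ℤ) * S e u - (W₁ e u - W₂ e u) * k e)
    (f' c G : F) (hf' : f' ≠ 0) (hc : c ≠ 0) (hG : G ≠ 0)
    (hτ : τ f' = f' * c * G ^ p) (hτc : τ c = c)
    (hpeu₁ : ∀ e, (p : ℤ) ∣ W₁ e c) (hpeu₂ : ∀ e, (p : ℤ) ∣ W₂ e c)
    (hHor : ∀ e, Hor e f') :
    ∃ δ : ℤ, ∀ e, (p : ℤ) ∣ (N : ℤ) * S e f' - δ * k e := by
  classical
  -- valuations of `f'` do not depend on the sheet, modulo `p`
  have key : ∀ (W : F → ℤ), (∀ a b : F, a ≠ 0 → b ≠ 0 → W (a * b) = W a + W b) →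
      (p : ℤ) ∣ W c → ∀ j : ℕ, (p : ℤ) ∣ W ((τ ^ j) f') - W f' := by
    intro W hW hpc j
    obtain ⟨H, hH, hH0⟩ := iterate_period p τ f' c G hτ hτc j
    have hH0' := hH0 hG
    rw [hH, hW _ _ (mul_ne_zero hf' (pow_ne_zero _ hc)) (pow_ne_zero _ hH0'),
      hW _ _ hf' (pow_ne_zero _ hc), val_pow W hW c hc, val_pow W hW H hH0']
    obtain ⟨q, hq⟩ := hpc
    refine ⟨j * q + W H, ?_⟩
    rw [hq]; ring
  by_cases hι : Nonempty ι
  · obtain ⟨e₀⟩ := hι
    refine ⟨W₁ e₀ f' - W₂ e₀ f', fun e => ?_⟩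
    obtain ⟨j₁, h₁⟩ := hsheet₁ e₀ e
    obtain ⟨j₂, h₂⟩ := hsheet₂ e₀ e
    have e1 : (p : ℤ) ∣ W₁ e f' - W₁ e₀ f' := by
      rw [h₁ f']; exact key (W₁ e₀) (hW₁ e₀) (hpeu₁ e₀) j₁
    have e2 : (p : ℤ) ∣ W₂ e f' - W₂ e₀ f' := by
      rw [h₂ f']; exact key (W₂ e₀) (hW₂ e₀) (hpeu₂ e₀) j₂
    have e3 := hNR e f' hf' (hHor e)
    have : (N : ℤ) * S e f' - (W₁ e₀ f' - W₂ e₀ f') * k e
        = ((N : ℤ) * S e f' - (W₁ e f' - W₂ e f') * k e)
          + ((W₁ e f' - W₁ e₀ f') - (W₂ e f' - W₂ e₀ f')) * k e := by ring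
    rw [this]
    exact dvd_add e3 (Dvd.dvd.mul_right (dvd_sub e1 e2) _)
  · exact ⟨0, fun e => absurd ⟨e⟩ hι⟩

end Core

end Fermat.Agent.Ribet.H704.I6

end
-- ===== PACK-END Ribet/H704/I6Core.lean

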