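import Mathlib
import Fermat.Prelude.Def_EllipticCurve_FrobeniusTrace
import Fermat.Prelude.Def_GaloisRep_Residual
import Fermat.Prelude.Thm_Subgroup_IsArithmetic_exists_nat_mem_strictPeriods_conj
import Fermat.Prelude.Def_CuspForm_HeckeAlgebra
import Fermat.Prelude.Def_GaloisRep_Adic
import Fermat.Prelude.Def_ModularCurve_LaurentCoeff
import Mathlib.RingTheory.Valuation.LocalSubring
import Mathlib.RingTheory.AdjoinRoot
import Fermat.Agent.Pack.S33.E0L0
import Fermat.Agent.Pack.S33.E4L2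
import Fermat.Agent.Pack.S33.E7L2
import Fermat.Agent.Pack.S33.E0L2
import Fermat.Agent.Pack.S33.E7L0
import Fermat.Agent.Pack.S33.E7L3
import Fermat.Agent.Pack.S33.E6L2
import Fermat.Agent.Pack.S33.E6L0
import Fermat.Agent.Pack.S33.E3L3
import Fermat.Agent.Pack.S33.E5L0
import Fermat.Agent.Pack.S33.E6L1
import Fermat.Agent.Pack.S33.E5L1
import Fermat.Agent.Pack.S33.E6L3

-- ===== PACK-BEGIN Lib/Cheb/H476/FrobConj.lean
section







/-!
# Frobenius elements at a prime form one conjugacy class modulo inertia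

For a prime number `ℓ`:

* `exists_smul_eq` : `Gal(ℚ̄/ℚ)` acts transitively on the valuation subrings of `ℚ̄` over `ℓ`;
* `isFrobeniusAt_iff`, `mem_inertiaSubgroupIn_iff'` : elementwise descriptions;
* `isFrobeniusAt_conj`, `conj_mem_inertia` : conjugation;
* `mul_inv_mem_inertia_of_isFrobeniusAt` : two Frobenius elements at `A` differ by inertia;
* `exists_conj_of_isFrobeniusAt` : any two Frobenius elements at (possibly different) valuation
  subrings over `ℓ` are conjugate modulo inertia;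
* consequences for homomorphisms: `map_inertia_eq_one_of_liesOver` (unramified at one valuation
  subring over `ℓ` ⇒ unramified at all of them), `charpoly_eq_of_isFrobeniusAt`
  (for `ResidualGaloisRep`, unramified at `ℓ`: the characteristic polynomial of Frobenius at `ℓ`
  is well defined).
-/

set_option autoImplicit false
set_option linter.style.haveILetI false

open scoped Pointwise

namespace Fermat.Agent.Lib.Cheb.H476

open Fermat.Agent.Lib.Cheb.Spec

/-! ### Elementwise descriptions -/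

theorem mem_smul_iff (g : GQ) (A : ValuationSubring Qb) (x : Qb) :
    x ∈ g • A ↔ g⁻¹ x ∈ A := by
  rw [ValuationSubring.mem_pointwise_smul_iff_inv_smul_mem]
  rfl

theorem apply_inv_apply (g : GQ) (x : Qb) : g (g⁻¹ x) = x := by
  show (g * g⁻¹) x = x
  rw [mul_inv_cancel]
  rfl

theorem inv_apply_apply (g : GQ) (x : Qb) : g⁻¹ (g x) = x := by
  show (g⁻¹ * g) x = x
  rw [inv_mul_cancel]
  rfl

theorem mem_nonunits_iff_or (A : ValuationSubring Qb) (x : Qb) :
    x ∈ A.nonunits ↔ x = 0 ∨ x⁻¹ ∉ A :=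
  A.mem_nonunits_iff_or

theorem mem_nonunits_smul_iff (g : GQ) (A : ValuationSubring Qb) (x : Qb) :
    x ∈ (g • A).nonunits ↔ g⁻¹ x ∈ A.nonunits := by
  rw [mem_nonunits_iff_or, mem_nonunits_iff_or, mem_smul_iff, map_inv₀,
    map_eq_zero_iff _ (g⁻¹).injective]

theorem liesOverPrime_smul' (g : GQ) {A : ValuationSubring Qb} {ℓ : ℕ}
    (hA : A.LiesOverPrime ℓ) : (g • A).LiesOverPrime ℓ := by
  show (ℓ : Qb) ∈ (g • A).nonunits
  rw [mem_nonunits_smul_iff, map_natCast]
  exact hA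

theorem mem_decomposition_iff (A : ValuationSubring Qb) (σ : GQ) :
    σ ∈ A.decompositionSubgroup ℚ ↔ ∀ x, σ x ∈ A ↔ x ∈ A := by
  rw [MulAction.mem_stabilizer_iff]
  constructor
  · intro h x
    have h1 : σ x ∈ σ • A ↔ x ∈ A := by
      rw [mem_smul_iff, inv_apply_apply]
    rw [h] at h1
    exact h1
  · intro h
    apply SetLike.ext
    intro x
    rw [mem_smul_iff, ← h (σ⁻¹ x), apply_inv_apply]

/-- Elementwise description of Frobenius elements. -/
theorem isFrobeniusAt_iff (A : ValuationSubring Qb) (σ : GQ) (ℓ : ℕ) :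
    A.IsFrobeniusAt σ ℓ ↔
      σ ∈ A.decompositionSubgroup ℚ ∧ ∀ x ∈ A, σ x - x ^ ℓ ∈ A.nonunits := by
  constructor
  · rintro ⟨hσ, h⟩
    refine ⟨hσ, fun x hx => ?_⟩
    have h1 := h (IsLocalRing.residue A ⟨x, hx⟩)
    rw [← IsLocalRing.ResidueField.residue_smul, ← map_pow, ← sub_eq_zero, ← map_sub,
      IsLocalRing.residue_eq_zero_iff, ← ValuationSubring.coe_mem_nonunits_iff] at h1
    exact h1
  · rintro ⟨hσ, h⟩
    refine ⟨hσ, fun y => ?_⟩
    obtain ⟨a, rfl⟩ := IsLocalRing.residue_surjective y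
    rw [← IsLocalRing.ResidueField.residue_smul, ← map_pow, ← sub_eq_zero, ← map_sub,
      IsLocalRing.residue_eq_zero_iff, ← ValuationSubring.coe_mem_nonunits_iff]
    exact h a.1 a.2

/-- Elementwise description of the inertia group. -/
theorem mem_inertiaSubgroupIn_iff' (A : ValuationSubring Qb) (σ : GQ) :
    σ ∈ A.inertiaSubgroupIn ℚ ↔
      σ ∈ A.decompositionSubgroup ℚ ∧ ∀ x ∈ A, σ x - x ∈ A.nonunits := by
  constructor
  · intro hσ
    have hD : σ ∈ A.decompositionSubgroup ℚ := by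
      obtain ⟨g, -, rfl⟩ := hσ
      exact g.2
    exact ⟨hD, fun x hx => sub_mem_nonunits_of_mem_inertia A σ hσ x hx⟩
  · rintro ⟨hD, h⟩
    refine ⟨⟨σ, hD⟩, ?_, rfl⟩
    show (⟨σ, hD⟩ : A.decompositionSubgroup ℚ) ∈ MonoidHom.ker
      (MulSemiringAction.toRingAut (A.decompositionSubgroup ℚ) (IsLocalRing.ResidueField A))
    rw [MonoidHom.mem_ker]
    apply RingEquiv.ext
    intro y
    obtain ⟨x, rfl⟩ := IsLocalRing.residue_surjective y
    show (⟨σ, hD⟩ : A.decompositionSubgroup ℚ) • (IsLocalRing.residue A x)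
      = IsLocalRing.residue A x
    rw [← IsLocalRing.ResidueField.residue_smul, ← sub_eq_zero, ← map_sub,
      IsLocalRing.residue_eq_zero_iff, ← ValuationSubring.coe_mem_nonunits_iff]
    exact h x.1 x.2

/-! ### Conjugation -/

theorem conj_apply (g σ : GQ) (x : Qb) : (g * σ * g⁻¹) x = g (σ (g⁻¹ x)) := rfl

theorem conj_mem_decomposition (g : GQ) {A : ValuationSubring Qb} {σ : GQ}
    (hσ : σ ∈ A.decompositionSubgroup ℚ) : g * σ * g⁻¹ ∈ (g • A).decompositionSubgroup ℚ := by
  rw [mem_decomposition_iff] at hσ ⊢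
  intro x
  rw [mem_smul_iff, mem_smul_iff, conj_apply, inv_apply_apply, hσ]

/-- Conjugation carries Frobenius elements at `A` to Frobenius elements at `g • A`. -/
theorem isFrobeniusAt_conj (g : GQ) {A : ValuationSubring Qb} {σ : GQ} {ℓ : ℕ}
    (hσ : A.IsFrobeniusAt σ ℓ) : (g • A).IsFrobeniusAt (g * σ * g⁻¹) ℓ := by
  rw [isFrobeniusAt_iff] at hσ ⊢
  refine ⟨conj_mem_decomposition g hσ.1, fun x hx => ?_⟩
  rw [mem_smul_iff] at hx
  rw [mem_nonunits_smul_iff, map_sub, map_pow, conj_apply, inv_apply_apply]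
  exact hσ.2 _ hx

/-- Conjugation carries the inertia group of `A` into the inertia group of `g • A`. -/
theorem conj_mem_inertia (g : GQ) {A : ValuationSubring Qb} {σ : GQ}
    (hσ : σ ∈ A.inertiaSubgroupIn ℚ) : g * σ * g⁻¹ ∈ (g • A).inertiaSubgroupIn ℚ := by
  rw [mem_inertiaSubgroupIn_iff'] at hσ ⊢
  refine ⟨conj_mem_decomposition g hσ.1, fun x hx => ?_⟩
  rw [mem_smul_iff] at hx
  rw [mem_nonunits_smul_iff, map_sub, conj_apply, inv_apply_apply]
  exact hσ.2 _ hx

/-- Two Frobenius elements at the same valuation subring differ by an element of the inertia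
group. -/
theorem mul_inv_mem_inertia_of_isFrobeniusAt {A : ValuationSubring Qb} {σ τ : GQ} {ℓ : ℕ}
    (hσ : A.IsFrobeniusAt σ ℓ) (hτ : A.IsFrobeniusAt τ ℓ) :
    τ * σ⁻¹ ∈ A.inertiaSubgroupIn ℚ := by
  rw [isFrobeniusAt_iff] at hσ hτ
  rw [mem_inertiaSubgroupIn_iff']
  refine ⟨mul_mem hτ.1 (inv_mem hσ.1), fun x hx => ?_⟩
  have hy : σ⁻¹ x ∈ A := ((mem_decomposition_iff A σ⁻¹).mp (inv_mem hσ.1) x).mpr hx
  have h1 := hτ.2 _ hy
  have h2 := hσ.2 _ hy
  rw [apply_inv_apply] at h2
  have h3 : (τ * σ⁻¹) x - x = (τ (σ⁻¹ x) - (σ⁻¹ x) ^ ℓ) - (x - (σ⁻¹ x) ^ ℓ) := by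
    rw [AlgEquiv.mul_apply]
    ring
  rw [h3]
  exact A.nonunits.sub_mem h1 h2

/-! ### Transitivity -/

/-- A valuation subring of `ℚ̄` over `ℓ` is determined by the prime of `ℤ̄` below it. -/
theorem map_mem_of_primeBelow {ℓ : ℕ} (hℓ : ℓ.Prime) {A A' : ValuationSubring Qb}
    (hA : A.LiesOverPrime ℓ) (hA' : A'.LiesOverPrime ℓ) (τ : GQ)
    (h : ∀ x : integralClosure ℤ Qb,
      τ • x ∈ Fermat.Agent.S54.primeBelow A' ↔ x ∈ Fermat.Agent.S54.primeBelow A)
    (x : Qb) (hx : x ∈ A) : τ x ∈ A' := by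
  haveI : Algebra.IsAlgebraic ℚ Qb := AlgebraicClosure.isAlgebraic ℚ
  obtain ⟨b, s, hb, hs, hsA, hxs⟩ := (Fermat.Agent.S54.mem_valuationSubring_iff A ℓ hℓ hA x).mp hx
  refine (Fermat.Agent.S54.mem_valuationSubring_iff A' ℓ hℓ hA' (τ x)).mpr
    ⟨τ b, τ s, hb.map τ, hs.map τ, ?_, ?_⟩
  · exact (h ⟨s, hs⟩).not.mpr hsA
  · rw [← map_mul, hxs]

theorem smul_eq_of_primeBelow {ℓ : ℕ} (hℓ : ℓ.Prime) {A A' : ValuationSubring Qb}
    (hA : A.LiesOverPrime ℓ) (hA' : A'.LiesOverPrime ℓ) (τ : GQ)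
    (h : ∀ x : integralClosure ℤ Qb,
      τ • x ∈ Fermat.Agent.S54.primeBelow A' ↔ x ∈ Fermat.Agent.S54.primeBelow A) :
    τ • A = A' := by
  apply SetLike.ext
  intro x
  rw [mem_smul_iff]
  constructor
  · intro hx
    have := map_mem_of_primeBelow hℓ hA hA' τ h _ hx
    rwa [apply_inv_apply] at this
  · intro hx
    refine map_mem_of_primeBelow hℓ hA' hA τ⁻¹ (fun y => ?_) x hx
    rw [← h (τ⁻¹ • y), smul_inv_smul]

/-- **Transitivity**: `Gal(ℚ̄/ℚ)` acts transitively on the valuation subrings of `ℚ̄` over a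
prime number. -/
theorem exists_smul_eq {ℓ : ℕ} (hℓ : ℓ.Prime) {A A' : ValuationSubring Qb}
    (hA : A.LiesOverPrime ℓ) (hA' : A'.LiesOverPrime ℓ) : ∃ g : GQ, g • A = A' := by
  haveI := Fermat.Agent.S54.isGalois_algebraicClosure_rat
  haveI : Algebra.IsAlgebraic ℚ (AlgebraicClosure ℚ) := AlgebraicClosure.isAlgebraic ℚ
  letI : TopologicalSpace (integralClosure ℤ (AlgebraicClosure ℚ)) := ⊥
  haveI : DiscreteTopology (integralClosure ℤ (AlgebraicClosure ℚ)) := ⟨rfl⟩
  haveI := Fermat.Agent.S54.continuousSMul_integralClosure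
  haveI := Fermat.Agent.S54.isInvariant_integralClosure
  haveI := Fermat.Agent.S54.primeBelow_isPrime A
  haveI := Fermat.Agent.S54.primeBelow_isPrime A'
  have hmax : (Ideal.span {(ℓ : ℤ)}).IsMaximal :=
    PrincipalIdealRing.isMaximal_of_irreducible (Nat.prime_iff_prime_int.mp hℓ).irreducible
  have hunder : ∀ B : ValuationSubring Qb, B.LiesOverPrime ℓ →
      (Fermat.Agent.S54.primeBelow B).under ℤ = Ideal.span {(ℓ : ℤ)} := by
    intro B hB
    haveI := Fermat.Agent.S54.primeBelow_isPrime B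
    have hle : Ideal.span {(ℓ : ℤ)} ≤ (Fermat.Agent.S54.primeBelow B).under ℤ := by
      rw [Ideal.span_le, Set.singleton_subset_iff]
      show algebraMap ℤ (integralClosure ℤ (AlgebraicClosure ℚ)) (ℓ : ℤ) ∈
        Fermat.Agent.S54.primeBelow B
      rw [Fermat.Agent.S54.mem_primeBelow]
      have : ((algebraMap ℤ (integralClosure ℤ (AlgebraicClosure ℚ)) (ℓ : ℤ) :
          integralClosure ℤ (AlgebraicClosure ℚ)) : AlgebraicClosure ℚ) = (ℓ : Qb) := by
        simp
      rw [this]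
      exact hB
    have hne : (Fermat.Agent.S54.primeBelow B).under ℤ ≠ ⊤ :=
      (Ideal.IsPrime.under ℤ (Fermat.Agent.S54.primeBelow B)).ne_top
    exact (hmax.eq_of_le hne hle).symm
  obtain ⟨g, hg⟩ := Algebra.IsInvariant.exists_smul_of_under_eq_of_profinite
    (A := ℤ) (G := GQ) (Fermat.Agent.S54.primeBelow A) (Fermat.Agent.S54.primeBelow A')
    ((hunder A hA).trans (hunder A' hA').symm)
  refine ⟨g, smul_eq_of_primeBelow hℓ hA hA' g fun x => ?_⟩
  rw [hg]
  exact Ideal.smul_mem_pointwise_smul_iff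

/-! ### Conjugacy of Frobenius elements -/

/-- **Frobenius elements over `ℓ` are conjugate modulo inertia.** -/
theorem exists_conj_of_isFrobeniusAt {ℓ : ℕ} (hℓ : ℓ.Prime) {A A' : ValuationSubring Qb}
    (hA : A.LiesOverPrime ℓ) (hA' : A'.LiesOverPrime ℓ) {φ φ' : GQ}
    (hφ : A.IsFrobeniusAt φ ℓ) (hφ' : A'.IsFrobeniusAt φ' ℓ) :
    ∃ g : GQ, g • A = A' ∧ φ' * (g * φ * g⁻¹)⁻¹ ∈ A'.inertiaSubgroupIn ℚ := by
  obtain ⟨g, hg⟩ := exists_smul_eq hℓ hA hA'
  refine ⟨g, hg, ?_⟩
  have h1 := isFrobeniusAt_conj g hφ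
  rw [hg] at h1
  exact mul_inv_mem_inertia_of_isFrobeniusAt h1 hφ'

/-- The inertia groups at the valuation subrings over `ℓ` are conjugate. -/
theorem exists_conj_of_mem_inertia {ℓ : ℕ} (hℓ : ℓ.Prime) {A A' : ValuationSubring Qb}
    (hA : A.LiesOverPrime ℓ) (hA' : A'.LiesOverPrime ℓ) {ι' : GQ}
    (hι' : ι' ∈ A'.inertiaSubgroupIn ℚ) :
    ∃ g : GQ, ∃ ι ∈ A.inertiaSubgroupIn ℚ, ι' = g * ι * g⁻¹ := by
  obtain ⟨g, hg⟩ := exists_smul_eq hℓ hA' hA
  have h1 := conj_mem_inertia g hι'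
  rw [hg] at h1
  refine ⟨g⁻¹, _, h1, ?_⟩
  group

/-! ### Consequences for homomorphisms -/

/-- A homomorphism which is trivial on the inertia group at ONE valuation subring over `ℓ` is
trivial on the inertia groups at ALL valuation subrings over `ℓ`. -/
theorem map_inertia_eq_one_of_liesOver {M : Type*} [Monoid M] (ρ : GQ →* M) {ℓ : ℕ}
    (hℓ : ℓ.Prime) {A A' : ValuationSubring Qb} (hA : A.LiesOverPrime ℓ)
    (hA' : A'.LiesOverPrime ℓ) (h : ∀ ι ∈ A.inertiaSubgroupIn ℚ, ρ ι = 1) :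
    ∀ ι ∈ A'.inertiaSubgroupIn ℚ, ρ ι = 1 := by
  intro ι' hι'
  obtain ⟨g, ι, hι, rfl⟩ := exists_conj_of_mem_inertia hℓ hA hA' hι'
  rw [map_mul, map_mul, h ι hι, mul_one, ← map_mul, mul_inv_cancel, map_one]

/-- If `ρ` is trivial on inertia at `ℓ`, the values of `ρ` at any two Frobenius elements over `ℓ`
are conjugate: `ρ φ' * ρ g = ρ g * ρ φ`. -/
theorem exists_map_conj_of_isFrobeniusAt {M : Type*} [Monoid M] (ρ : GQ →* M) {ℓ : ℕ}
    (hℓ : ℓ.Prime) {A A' : ValuationSubring Qb} (hA : A.LiesOverPrime ℓ)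
    (hA' : A'.LiesOverPrime ℓ) (h : ∀ ι ∈ A'.inertiaSubgroupIn ℚ, ρ ι = 1) {φ φ' : GQ}
    (hφ : A.IsFrobeniusAt φ ℓ) (hφ' : A'.IsFrobeniusAt φ' ℓ) :
    ∃ g : GQ, ρ φ' = ρ g * ρ φ * ρ g⁻¹ := by
  obtain ⟨g, -, hg⟩ := exists_conj_of_isFrobeniusAt hℓ hA hA' hφ hφ'
  refine ⟨g, ?_⟩
  have h1 := h _ hg
  have h2 : φ' = (φ' * (g * φ * g⁻¹)⁻¹) * (g * φ * g⁻¹) := by group
  rw [h2, map_mul, h1, one_mul, map_mul, map_mul]

/-- For a residual representation unramified at `ℓ`, the characteristic polynomial of Frobenius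
at `ℓ` does not depend on the choice of the valuation subring over `ℓ` and of the Frobenius
element. -/
theorem charpoly_eq_of_isFrobeniusAt {k : Type} [Field k] (ρ : ResidualGaloisRep k) {ℓ : ℕ}
    (hℓ : ℓ.Prime) (hur : ρ.IsUnramifiedAt ℓ) {A A' : ValuationSubring Qb}
    (hA : A.LiesOverPrime ℓ) (hA' : A'.LiesOverPrime ℓ) {φ φ' : GQ}
    (hφ : A.IsFrobeniusAt φ ℓ) (hφ' : A'.IsFrobeniusAt φ' ℓ) :
    LinearMap.charpoly (ρ.ρ φ') = LinearMap.charpoly (ρ.ρ φ) := by
  obtain ⟨g, hg⟩ := exists_map_conj_of_isFrobeniusAt ρ.ρ hℓ hA hA' (hur A' hA') hφ hφ'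
  have h1 : ρ.ρ g * ρ.ρ g⁻¹ = 1 := by rw [← map_mul, mul_inv_cancel, map_one]
  have h2 : ρ.ρ g⁻¹ * ρ.ρ g = 1 := by rw [← map_mul, inv_mul_cancel, map_one]
  let e : ρ.V ≃ₗ[k] ρ.V :=
    { toLinearMap := ρ.ρ g
      invFun := ρ.ρ g⁻¹
      left_inv := fun x => by
        show (ρ.ρ g⁻¹ * ρ.ρ g) x = x
        rw [h2]; rfl
      right_inv := fun x => by
        show (ρ.ρ g * ρ.ρ g⁻¹) x = x
        rw [h1]; rfl }
  have h3 : ρ.ρ φ' = e.conj (ρ.ρ φ) := by
    rw [hg]
    rfl
  rw [h3, LinearEquiv.charpoly_conj]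

end Fermat.Agent.Lib.Cheb.H476

end
-- ===== PACK-END Lib/Cheb/H476/FrobConj.lean

-- ===== PACK-BEGIN S22/H262/Nice.lean
section




set_option autoImplicit false

/-!
# Towers exist for `f ∣[k] A`, `f` a cusp form on `Γ₀(N)`, `A` an integer matrix of positive
determinant.
-/

open Complex Filter Function Metric Set
open UpperHalfPlane hiding I
open scoped Real Topology Manifold ModularForm MatrixGroups Pointwise

namespace Fermat.Agent.S22.H262

open Matrix.SpecialLinearGroup in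
theorem hasTower_slash_SL {N : ℕ} [NeZero N] {k : ℤ}
    (f : CuspForm (CongruenceSubgroup.Gamma0 N) k) (g : SL(2, ℤ)) :
    HasTower (⇑f ∣[k] (mapGL ℝ g)) := by
  obtain ⟨M, hM, hper⟩ := Subgroup.IsArithmetic.exists_nat_mem_strictPeriods_conj
    ((CongruenceSubgroup.Gamma0 N).map (mapGL ℝ))
  have hM' : (0 : ℝ) < M := by exact_mod_cast hM
  have h1 := hper g⁻¹
  rw [_root_.map_inv] at h1
  let F := CuspForm.translate f (mapGL ℝ g)
  have hF : ⇑F = ⇑f ∣[k] (mapGL ℝ g) := rfl
  rw [← hF]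
  refine exists_isTower hM' (SlashInvariantFormClass.periodic_comp_ofComplex F h1)
    (CuspFormClass.holo F) ?_
  rw [hF]
  exact CuspFormClass.zero_at_infty_slash f g

end Fermat.Agent.S22.H262

end
-- ===== PACK-END S22/H262/Nice.lean

-- ===== PACK-BEGIN S30/H529/HomTate.lean
section





/-!
# S30 helper (helper529): the adic module `Hom(L/O, J)` — piece 1 of the adic module layer

`adicModule_of_torsion`: the statement of the piece `adicModule_of_torsion` of the adic module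
layer (interface of helper330), proved from `TateCore` applied to the `O`-module
`X = Hom_ℤ(O, J)` (`O` acting by precomposition).
-/

set_option autoImplicit false
set_option linter.unusedSectionVars false

namespace Fermat.Agent.S30.H529

open IsLocalRing

noncomputable section

/-- `Hom_ℤ(O, J)` with `O` acting by precomposition. -/
def PreHom (O J : Type*) [CommRing O] [AddCommGroup J] : Type _ := O →+ J

namespace PreHom

variable {O J : Type*} [CommRing O] [AddCommGroup J]

instance : AddCommGroup (PreHom O J) := inferInstanceAs (AddCommGroup (O →+ J))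

/-- The underlying homomorphism. -/
def toHom (h : PreHom O J) : O →+ J := h

/-- The element attached to a homomorphism. -/
def ofHom (h : O →+ J) : PreHom O J := h

@[simp] theorem toHom_ofHom (h : O →+ J) : toHom (ofHom h) = h := rfl

@[simp] theorem toHom_add (h h' : PreHom O J) : toHom (h + h') = toHom h + toHom h' := rfl

@[simp] theorem toHom_zero : toHom (0 : PreHom O J) = 0 := rfl

@[simp] theorem toHom_sub (h h' : PreHom O J) : toHom (h - h') = toHom h - toHom h' := rfl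

@[simp] theorem toHom_neg (h : PreHom O J) : toHom (-h) = -toHom h := rfl

theorem ext {h h' : PreHom O J} (H : ∀ x, toHom h x = toHom h' x) : h = h' :=
  AddMonoidHom.ext H

theorem ext_iff' {h h' : PreHom O J} : h = h' ↔ ∀ x, toHom h x = toHom h' x :=
  ⟨fun H _ => by rw [H], ext⟩

instance : SMul O (PreHom O J) where
  smul a h := ofHom ((toHom h).comp (AddMonoidHom.mulLeft a))

@[simp] theorem smul_apply (a : O) (h : PreHom O J) (x : O) :
    toHom (a • h) x = toHom h (a * x) := rfl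

instance : Module O (PreHom O J) where
  one_smul h := ext fun x => by simp
  mul_smul a b h := ext fun x => by
    simp only [_root_.Fermat.Agent.S30.H529.PreHom.smul_apply]
    congr 1
    ring
  smul_zero a := ext fun x => by simp
  smul_add a h h' := ext fun x => by simp
  add_smul a b h := ext fun x => by
    simp only [_root_.Fermat.Agent.S30.H529.PreHom.smul_apply, toHom_add, AddMonoidHom.add_apply, add_mul, map_add]
  zero_smul h := ext fun x => by simp

/-- Postcomposition with an endomorphism of `J`. -/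
def post (φ : J →+ J) : PreHom O J →ₗ[O] PreHom O J where
  toFun h := ofHom (φ.comp (toHom h))
  map_add' h h' := ext fun x => by simp
  map_smul' a h := ext fun x => by simp

@[simp] theorem post_apply (φ : J →+ J) (h : PreHom O J) (x : O) :
    toHom (post φ h) x = φ (toHom h x) := rfl

theorem natCast_pow_smul_apply (p n : ℕ) (h : PreHom O J) (x : O) :
    toHom (((p : O)) ^ n • h) x = p ^ n • toHom h x := by
  rw [_root_.Fermat.Agent.S30.H529.PreHom.smul_apply]
  have h1 : ((p : O)) ^ n * x = (p ^ n) • x := by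
    rw [nsmul_eq_mul]
    push_cast
    rfl
  rw [h1, map_nsmul]

theorem natCast_smul_apply (n : ℕ) (h : PreHom O J) (x : O) :
    toHom ((n : O) • h) x = n • toHom h x := by
  rw [_root_.Fermat.Agent.S30.H529.PreHom.smul_apply]
  have h1 : (n : O) * x = n • x := by
    rw [nsmul_eq_mul]
  rw [h1, map_nsmul]

end PreHom

section Finiteness

variable {O : Type*} [CommRing O] [IsDomain O] [IsDiscreteValuationRing O]
  [Finite (ResidueField O)]
variable {J : Type*} [AddCommGroup J]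

theorem finite_quotient_maximalIdeal_pow (N : ℕ) : Finite (O ⧸ maximalIdeal O ^ N) := by
  have h1 : Finite (O ⧸ maximalIdeal O) := inferInstanceAs (Finite (ResidueField O))
  exact Ideal.finite_quotient_pow (IsNoetherian.noetherian _) N

/-- The `p`-torsion of `Hom(O, J)` is finite. -/
theorem preHom_torsion_finite (p : ℕ) (hp0 : (p : O) ≠ 0)
    (hfin : {x : J | p • x = 0}.Finite) :
    {h : PreHom O J | (p : O) • h = 0}.Finite := by
  obtain ⟨N, hN⟩ := exists_pow_maximalIdeal_le_span hp0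
  have hQ : Finite (O ⧸ maximalIdeal O ^ N) := finite_quotient_maximalIdeal_pow N
  have hJ : Finite {x : J // p • x = 0} := Set.finite_coe_iff.mpr hfin
  have hval : ∀ (h : PreHom O J), (p : O) • h = 0 → ∀ y : O, p • PreHom.toHom h y = 0 := by
    intro h hh y
    have h1 := PreHom.natCast_smul_apply p h y
    rw [hh] at h1
    rw [← h1]
    rfl
  let Φ : {h : PreHom O J // (p : O) • h = 0} →
      ((O ⧸ maximalIdeal O ^ N) → {x : J // p • x = 0}) :=
    fun h q => ⟨PreHom.toHom h.1 (Quotient.out q), hval h.1 h.2 _⟩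
  have hΦ : Function.Injective Φ := by
    intro h h' hh
    apply Subtype.ext
    apply PreHom.ext
    intro x
    have hx : x - Quotient.out (Ideal.Quotient.mk (maximalIdeal O ^ N) x)
        ∈ maximalIdeal O ^ N := by
      rw [← Ideal.Quotient.eq]
      exact (Quotient.out_eq _).symm
    obtain ⟨y, hy⟩ := Ideal.mem_span_singleton'.mp (hN hx)
    have key : ∀ g : {h : PreHom O J // (p : O) • h = 0},
        PreHom.toHom g.1 x
          = PreHom.toHom g.1 (Quotient.out (Ideal.Quotient.mk (maximalIdeal O ^ N) x)) := by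
      intro g
      have h2 : x = Quotient.out (Ideal.Quotient.mk (maximalIdeal O ^ N) x) + (p : O) * y := by
        rw [mul_comm, hy]
        ring
      have h3 : PreHom.toHom g.1 ((p : O) * y) = 0 := by
        have := PreHom.smul_apply (p : O) g.1 y
        rw [g.2] at this
        exact this.symm
      conv_lhs => rw [h2]
      rw [map_add, h3, add_zero]
    rw [key h, key h']
    have := congrFun hh (Ideal.Quotient.mk (maximalIdeal O ^ N) x)
    exact congrArg Subtype.val this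
  have : Finite {h : PreHom O J // (p : O) • h = 0} := Finite.of_injective Φ hΦ
  exact Set.finite_coe_iff.mp this

end Finiteness

section Main

open Fermat.Agent.S29

variable {O : Type} [CommRing O] [IsDomain O]
variable {J : Type} [AddCommGroup J] [DistribMulAction GQ J]

/-- The action of the Galois group on `Hom(O, J)`. -/
def preHomRep (O : Type) [CommRing O] (J : Type) [AddCommGroup J] [DistribMulAction GQ J] :
    GQ →* Module.End O (PreHom O J) where
  toFun σ := PreHom.post (DistribSMul.toAddMonoidHom J σ)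
  map_one' := by
    apply LinearMap.ext
    intro h
    apply PreHom.ext
    intro x
    simp
  map_mul' σ τ := by
    apply LinearMap.ext
    intro h
    apply PreHom.ext
    intro x
    simp [mul_smul]

@[simp] theorem preHomRep_apply (σ : GQ) (h : PreHom O J) (x : O) :
    PreHom.toHom (preHomRep O J σ h) x = σ • PreHom.toHom h x := rfl

/-- The sequence attached to a homomorphism `L/O → J`. -/
def seqOfHom (p : ℕ) (f : FractionRing O →+ J) (n : ℕ) : PreHom O J :=
  PreHom.ofHom (f.comp ((AddMonoidHom.mulRight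
    ((algebraMap O (FractionRing O) (p : O) ^ (n + 1))⁻¹)).comp
      (algebraMap O (FractionRing O)).toAddMonoidHom))

theorem seqOfHom_apply (p : ℕ) (f : FractionRing O →+ J) (n : ℕ) (x : O) :
    PreHom.toHom (seqOfHom p f n) x
      = f (algebraMap O (FractionRing O) x
          * (algebraMap O (FractionRing O) (p : O) ^ (n + 1))⁻¹) := rfl

/-- **Piece 1 of the adic module layer** (statement of helper330's `adicModule_of_torsion`). -/
theorem adicModule_of_torsion
    {p : ℕ} (hp : p.Prime)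
    {O : Type} [CommRing O] [IsDomain O] [IsDiscreteValuationRing O]
    [IsAdicComplete (IsLocalRing.maximalIdeal O) O] [Finite (IsLocalRing.ResidueField O)]
    [CharZero O] (hpO : (p : O) ∈ IsLocalRing.maximalIdeal O)
    {J : Type} [AddCommGroup J] [DistribMulAction GQ J]
    (hsm : ∀ x : J, ∃ L : IntermediateField ℚ (AlgebraicClosure ℚ), FiniteDimensional ℚ L ∧
      ∀ σ : GQ, (∀ y ∈ L, σ y = y) → σ • x = x)
    (hfin : {x : J | p • x = 0}.Finite)
    {ι : Type} (t : ι → J →+ J) (ht : ∀ i (σ : GQ) (x : J), σ • t i x = t i (σ • x))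
    (a : ι → O)
    (f : FractionRing O →+ J) (hf0 : ∀ r : O, f (algebraMap O (FractionRing O) r) = 0)
    (hf : f ≠ 0)
    (hfe : ∀ i x, t i (f x) = f (algebraMap O (FractionRing O) (a i) * x)) :
    ∃ (M : Type) (_ : AddCommGroup M) (_ : Module O M) (_ : Module.Free O M)
      (_ : Module.Finite O M) (ρ : GQ →* Module.End O M),
      Nontrivial M ∧ GaloisActionIsAdicContinuous O ρ ∧
      (∀ σ : GQ, (∀ x : J, (∃ n : ℕ, p ^ n • x = 0) → σ • x = x) → ρ σ = 1) ∧
      (∀ (i : ι) (n : ℕ) (σ : GQ),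
        (∀ x : J, (∃ k : ℕ, p ^ k • x = 0) → σ • σ • x - t i (σ • x) + n • x = 0) →
        ρ σ * ρ σ - a i • ρ σ + (n : O) • (1 : Module.End O M) = 0) := by
  have hϖ0 : (p : O) ≠ 0 := by exact_mod_cast hp.ne_zero
  have hpL : algebraMap O (FractionRing O) (p : O) ≠ 0 := by
    intro h
    exact hϖ0 ((IsFractionRing.injective O (FractionRing O)) (by rw [h, map_zero]))
  -- operators
  set t' : ι → PreHom O J →ₗ[O] PreHom O J := fun i => PreHom.post (t i) with ht'
  have hρ : ∀ (σ : GQ) (i : ι) (h : PreHom O J),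
      preHomRep O J σ (t' i h) = t' i (preHomRep O J σ h) := by
    intro σ i h
    apply PreHom.ext
    intro x
    simp only [ht', preHomRep_apply, PreHom.post_apply]
    exact ht i σ _
  -- finiteness
  have hX : ∃ Y : Submodule O (PreHom O J), Y.FG ∧
      ∀ h : PreHom O J, (p : O) • h = 0 → h ∈ Y := by
    have hfinX := preHom_torsion_finite (O := O) (J := J) p hϖ0 hfin
    exact ⟨Submodule.span O {h : PreHom O J | (p : O) • h = 0},
      Submodule.fg_span hfinX, fun h hh => Submodule.subset_span hh⟩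
  have hfree := tateEigen_free (t := t') (a := a) hpO hϖ0 hX
  have hfinite := tateEigen_finite (t := t') (a := a) hpO hϖ0 hX
  -- torsion values
  have hval : ∀ (k : ℕ) (h : PreHom O J), (p : O) ^ k • h = 0 →
      ∀ x : O, p ^ k • PreHom.toHom h x = 0 := by
    intro k h hh x
    rw [← PreHom.natCast_pow_smul_apply, hh]
    rfl
  refine ⟨tateEigen (p : O) t' a, inferInstance, inferInstance, hfree, hfinite,
    tateRep (preHomRep O J) hρ, ?_, ?_, ?_, ?_⟩
  · -- nontrivial
    have hmem : seqOfHom p f ∈ tateEigen (p : O) t' a := by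
      refine ⟨?_, ?_, ?_⟩
      · apply PreHom.ext
        intro x
        rw [PreHom.smul_apply, seqOfHom_apply, (algebraMap O (FractionRing O)).map_mul]
        have : algebraMap O (FractionRing O) (p : O) * algebraMap O (FractionRing O) x
            * (algebraMap O (FractionRing O) (p : O) ^ (0 + 1))⁻¹
            = algebraMap O (FractionRing O) x := by
          field_simp
          ring
        rw [this, hf0]
        rfl
      · intro n
        apply PreHom.ext
        intro x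
        rw [PreHom.smul_apply, seqOfHom_apply, seqOfHom_apply,
          (algebraMap O (FractionRing O)).map_mul]
        congr 1
        field_simp
        ring
      · intro i n
        apply PreHom.ext
        intro x
        rw [PreHom.smul_apply, seqOfHom_apply]
        simp only [ht', PreHom.post_apply]
        rw [seqOfHom_apply, hfe, (algebraMap O (FractionRing O)).map_mul, mul_assoc]
    have hne : seqOfHom p f ≠ 0 := by
      intro h0
      apply hf
      apply AddMonoidHom.ext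
      intro y
      obtain ⟨x, s, hs, rfl⟩ := IsFractionRing.div_surjective (A := O) y
      have hs0 : s ≠ 0 := nonZeroDivisors.ne_zero hs
      obtain ⟨k, c, hc⟩ := exists_dvd_pow_of_mem_maximalIdeal hpO hs0
      have h1 := congrArg (fun h => PreHom.toHom h (x * c * (p : O))) (congrFun h0 k)
      simp only [seqOfHom_apply] at h1
      have hsL : algebraMap O (FractionRing O) s ≠ 0 := by
        intro h
        exact hs0 ((IsFractionRing.injective O (FractionRing O)) (by rw [h, map_zero]))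
      have h2 : algebraMap O (FractionRing O) (x * c * (p : O))
          * (algebraMap O (FractionRing O) (p : O) ^ (k + 1))⁻¹
          = algebraMap O (FractionRing O) x / algebraMap O (FractionRing O) s := by
        have h3 : algebraMap O (FractionRing O) (p : O) ^ k
            = algebraMap O (FractionRing O) s * algebraMap O (FractionRing O) c := by
          rw [← map_pow, hc, map_mul]
        rw [pow_succ, h3, (algebraMap O (FractionRing O)).map_mul,
          (algebraMap O (FractionRing O)).map_mul]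
        have hcL : algebraMap O (FractionRing O) c ≠ 0 := by
          intro h
          rw [h, mul_zero] at h3
          exact hpL (pow_eq_zero_iff (by
            intro hk
            subst hk
            simp at h3) |>.mp h3)
        field_simp
      rw [h2] at h1
      rw [h1]
      rfl
    refine ⟨⟨⟨seqOfHom p f, hmem⟩, 0, ?_⟩⟩
    intro h
    exact hne (congrArg Subtype.val h)
  · -- continuity
    intro n
    obtain ⟨L, hL, hLfix⟩ := exists_common_level {x : J | p ^ n • x = 0}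
      (finite_torsion_pow J p hfin n) (fun x _ => hsm x)
    refine ⟨L, hL, fun σ hσ m => ?_⟩
    apply tateRep_sub_mem (preHomRep O J) hρ hpO n σ
    intro h hh
    apply PreHom.ext
    intro x
    rw [preHomRep_apply]
    exact hLfix σ hσ _ (hval n h hh x)
  · -- trivial action
    intro σ hσ
    apply tateRep_eq_one
    rintro h ⟨k, hh⟩
    apply PreHom.ext
    intro x
    rw [preHomRep_apply]
    exact hσ _ ⟨k, hval k h hh x⟩
  · -- quadratic relations
    intro i n σ hσ
    apply tateRep_quadratic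
    rintro h ⟨k, hh⟩
    apply PreHom.ext
    intro x
    have h1 := hσ (PreHom.toHom h x) ⟨k, hval k h hh x⟩
    simp only [ht', PreHom.toHom_add, PreHom.toHom_sub, AddMonoidHom.add_apply,
      AddMonoidHom.sub_apply, preHomRep_apply, PreHom.post_apply, PreHom.natCast_smul_apply,
      PreHom.toHom_zero, AddMonoidHom.zero_apply]
    exact h1

end Main

end

end Fermat.Agent.S30.H529

end
-- ===== PACK-END S30/H529/HomTate.lean

-- ===== PACK-BEGIN S24/Deg/H648D5.lean
section


/-!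
# S24 / M6-AN (helper648): the polynomiality principle (D5) in `ExpGrowth` form

A holomorphic `SL₂(ℤ)`-invariant function on `ℍ` of at most exponential growth at `i∞` is a
polynomial in `j = E₄³/Δ`.  (The function-level induction follows helper505's
`levelOne_structure`, re-proved here from Mathlib only.)
-/

set_option autoImplicit false

noncomputable section

open UpperHalfPlane ModularGroup CongruenceSubgroup ModularForm Filter Asymptotics
  SlashInvariantForm SlashInvariantFormClass ModularFormClass CuspFormClass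
open scoped MatrixGroups Manifold Modular Real

namespace Fermat.Agent.S24.H648

/-- `E₄ ^ n` as a modular form of weight `k = 4 n`. -/
def E4pow (n : ℕ) (k : ℤ) (hk : (n : ℤ) * 4 = k) : ModularForm 𝒮ℒ k :=
  ModularForm.mcast hk (E₄.pow n)

theorem E4pow_apply (n : ℕ) (k : ℤ) (hk : (n : ℤ) * 4 = k) (z : ℍ) :
    E4pow n k hk z = E₄ z ^ n := by
  simp [E4pow]

theorem qExpansion_E4pow_coeff_zero (n : ℕ) (k : ℤ) (hk : (n : ℤ) * 4 = k) :
    (qExpansion 1 (E4pow n k hk)).coeff 0 = 1 := by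
  have h4 : (qExpansion 1 E₄).coeff 0 = 1 := EisensteinSeries.E_qExpansion_coeff_zero (by norm_num) (by decide)
  rw [E4pow, ModularForm.qExpansion_mcast,
    ModularForm.qExpansion_pow one_pos one_mem_strictPeriods_SL,
    PowerSeries.coeff_zero_eq_constantCoeff, map_pow, ← PowerSeries.coeff_zero_eq_constantCoeff,
    h4, one_pow]

/-- Level one structure theorem, function level: a modular form of weight `12 m` is
`Δ^m · P(j)` with `deg P ≤ m`. -/
theorem levelOne_poly (m : ℕ) : ∀ (k : ℤ) (_ : k = 12 * m) (F : ModularForm 𝒮ℒ k),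
    ∃ P : Polynomial ℂ, P.natDegree ≤ m ∧
      ∀ z : ℍ, F z = ModularForm.discriminant z ^ m * P.eval (jFun z) := by
  induction m with
  | zero =>
    intro k hk F
    simp only [Nat.cast_zero, mul_zero] at hk
    subst hk
    obtain ⟨c, hc⟩ := levelOne_weight_zero_const F
    exact ⟨Polynomial.C c, by simp, fun z => by simp [hc]⟩
  | succ m ih =>
    intro k hk F
    set c₀ : ℂ := (qExpansion 1 F).coeff 0 with hc₀
    have hk4 : ((3 * (m + 1) : ℕ) : ℤ) * 4 = k := by rw [hk]; push_cast; ring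
    set G : ModularForm 𝒮ℒ k := F - c₀ • E4pow (3 * (m + 1)) k hk4 with hG
    have hGq : qExpansion 1 G
        = qExpansion 1 F - c₀ • qExpansion 1 (E4pow (3 * (m + 1)) k hk4) := by
      have h1 : (G : ℍ → ℂ) = ⇑F - ⇑(c₀ • E4pow (3 * (m + 1)) k hk4) := rfl
      rw [h1, ModularForm.qExpansion_sub one_pos one_mem_strictPeriods_SL]
      have h2 : (⇑(c₀ • E4pow (3 * (m + 1)) k hk4) : ℍ → ℂ)
          = c₀ • ⇑(E4pow (3 * (m + 1)) k hk4) := rfl
      rw [h2, ModularForm.qExpansion_smul one_pos one_mem_strictPeriods_SL]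
    have hG0 : (qExpansion 1 G).coeff 0 = 0 := by
      rw [hGq, map_sub, PowerSeries.coeff_smul, qExpansion_E4pow_coeff_zero]
      simp [hc₀]
    set H : ModularForm 𝒮ℒ (k - 12) := CuspForm.discriminantEquiv (G.toCuspForm hG0) with hH
    obtain ⟨P, hPdeg, hPval⟩ := ih (k - 12) (by rw [hk]; push_cast; ring) H
    have hGH : ∀ z, G z = ModularForm.discriminant z * H z := fun z => by
      rw [hH, discriminant_mul_discriminantEquiv_apply]; rfl
    have hFG : ∀ z, F z = c₀ * E₄ z ^ (3 * (m + 1)) + G z := fun z => by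
      have : G z = F z - c₀ * E4pow (3 * (m + 1)) k hk4 z := rfl
      rw [this, E4pow_apply]; ring
    refine ⟨Polynomial.C c₀ * Polynomial.X ^ (m + 1) + P, ?_, ?_⟩
    · refine (Polynomial.natDegree_add_le _ _).trans (max_le ?_ (hPdeg.trans (Nat.le_succ m)))
      exact Polynomial.natDegree_C_mul_X_pow_le _ _
    · intro z
      rw [hFG, hGH, hPval, Polynomial.eval_add, Polynomial.eval_mul, Polynomial.eval_C,
        Polynomial.eval_pow, Polynomial.eval_X, jFun_def]
      have hΔ := discriminant_ne_zero z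
      have hJ : ModularForm.discriminant z * (E₄ z ^ 3 / ModularForm.discriminant z) = E₄ z ^ 3 :=
        mul_div_cancel₀ _ hΔ
      have : ModularForm.discriminant z ^ (m + 1) *
          (c₀ * (E₄ z ^ 3 / ModularForm.discriminant z) ^ (m + 1) +
            Polynomial.eval (E₄ z ^ 3 / ModularForm.discriminant z) P) =
          c₀ * (ModularForm.discriminant z * (E₄ z ^ 3 / ModularForm.discriminant z)) ^ (m + 1) +
          ModularForm.discriminant z * (ModularForm.discriminant z ^ m *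
            Polynomial.eval (E₄ z ^ 3 / ModularForm.discriminant z) P) := by ring
      rw [this, hJ, pow_mul]


lemma discriminant_smul (γ : SL(2, ℤ)) (τ : ℍ) :
    ModularForm.discriminant (γ • τ) = denom γ τ ^ (12 : ℤ) * ModularForm.discriminant τ := by
  have : SlashInvariantFormClass (CuspForm 𝒮ℒ 12) Γ(1) 12 :=
    Gamma_one_coe_eq_SL ▸ inferInstance
  exact SlashInvariantForm.slash_action_eqn_SL'' CuspForm.discriminant (mem_Gamma_one γ) τ

lemma discriminant_pow_mul_slash (m : ℕ) (F : ℍ → ℂ)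
    (inv : ∀ (γ : SL(2, ℤ)) (τ : ℍ), F (γ • τ) = F τ) (γ : SL(2, ℤ)) :
    (fun z => ModularForm.discriminant z ^ m * F z) ∣[(12 * m : ℤ)] γ
      = fun z => ModularForm.discriminant z ^ m * F z := by
  funext z
  rw [ModularForm.SL_slash_apply]
  rw [inv, discriminant_smul, mul_pow, ← zpow_natCast (denom γ z ^ (12 : ℤ)) m, ← zpow_mul]
  have hd : denom γ z ≠ 0 := denom_ne_zero _ z
  have : denom γ z ^ ((12 : ℤ) * m) * ModularForm.discriminant z ^ m * F z
      * denom γ z ^ (-(12 * (m : ℤ)))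
      = (denom γ z ^ ((12 : ℤ) * m) * denom γ z ^ (-(12 * (m : ℤ))))
        * (ModularForm.discriminant z ^ m * F z) := by ring
  rw [this, ← zpow_add₀ hd]
  simp

/-- `Δ^m · F` as a modular form of weight `12 m`. -/
def mfOfInvariant (m : ℕ) (F : ℍ → ℂ) (hol : MDifferentiable 𝓘(ℂ) 𝓘(ℂ) F)
    (inv : ∀ (γ : SL(2, ℤ)) (τ : ℍ), F (γ • τ) = F τ)
    (bdd : IsBoundedAtImInfty (fun z => ModularForm.discriminant z ^ m * F z)) :
    ModularForm 𝒮ℒ (12 * m) where
  toFun := fun z => ModularForm.discriminant z ^ m * F z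
  slash_action_eq' := fun _ ⟨γ, hγ⟩ => hγ ▸ discriminant_pow_mul_slash m F inv γ
  holo' := by
    have hΔ : MDifferentiable 𝓘(ℂ) 𝓘(ℂ) (ModularForm.discriminant : ℍ → ℂ) :=
      ModularFormClass.holo CuspForm.discriminant
    exact (hΔ.pow m).mul hol
  bdd_at_cusps' {c} hc := by
    rw [Subgroup.IsArithmetic.isCusp_iff_isCusp_SL2Z] at hc
    rw [OnePoint.isBoundedAt_iff_forall_SL2Z hc]
    intro γ _
    rw [discriminant_pow_mul_slash m F inv γ]
    exact bdd

lemma mfOfInvariant_apply (m : ℕ) (F : ℍ → ℂ) (hol : MDifferentiable 𝓘(ℂ) 𝓘(ℂ) F)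
    (inv : ∀ (γ : SL(2, ℤ)) (τ : ℍ), F (γ • τ) = F τ)
    (bdd : IsBoundedAtImInfty (fun z => ModularForm.discriminant z ^ m * F z)) (z : ℍ) :
    mfOfInvariant m F hol inv bdd z = ModularForm.discriminant z ^ m * F z := rfl

/-- Polynomiality principle, `IsBoundedAtImInfty` form. -/
theorem exists_polynomial_of_isBoundedAtImInfty (m : ℕ) (F : ℍ → ℂ)
    (hol : MDifferentiable 𝓘(ℂ) 𝓘(ℂ) F)
    (inv : ∀ (γ : SL(2, ℤ)) (τ : ℍ), F (γ • τ) = F τ)
    (bdd : IsBoundedAtImInfty (fun z => ModularForm.discriminant z ^ m * F z)) :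
    ∃ p : Polynomial ℂ, p.natDegree ≤ m ∧ ∀ τ, F τ = p.eval (jFun τ) := by
  obtain ⟨P, hdeg, hP⟩ := levelOne_poly m (12 * m) rfl (mfOfInvariant m F hol inv bdd)
  refine ⟨P, hdeg, fun τ => ?_⟩
  have h := hP τ
  rw [mfOfInvariant_apply] at h
  exact mul_left_cancel₀ (pow_ne_zero m (discriminant_ne_zero τ)) h

lemma ExpGrowth.isBigO {F : ℍ → ℂ} {C : ℝ} {m : ℕ}
    (h : ∀ τ : ℍ, 1 ≤ τ.im → ‖F τ‖ ≤ C * Real.exp (2 * π * m * τ.im)) :
    F =O[atImInfty] fun τ : ℍ => Real.exp (2 * π * m * τ.im) := by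
  refine IsBigO.of_bound C ?_
  rw [atImInfty, eventually_comap, eventually_atTop]
  refine ⟨1, fun y hy τ hτ => ?_⟩
  rw [Real.norm_of_nonneg (Real.exp_pos _).le]
  exact h τ (hτ ▸ hy)

/-- **Polynomiality principle (D5), `ExpGrowth` form.** -/
theorem exists_polynomial_of_expGrowth (F : ℍ → ℂ)
    (hol : MDifferentiable 𝓘(ℂ) 𝓘(ℂ) F)
    (inv : ∀ (γ : SL(2, ℤ)) (τ : ℍ), F (γ • τ) = F τ) (gr : ExpGrowth F) :
    ∃ p : Polynomial ℂ, ∀ τ, F τ = p.eval (jFun τ) := by
  obtain ⟨C, m, h⟩ := gr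
  have hF := ExpGrowth.isBigO h
  have hΔ : (ModularForm.discriminant : ℍ → ℂ)
      =O[atImInfty] fun τ : ℍ => Real.exp (-2 * π * τ.im / 1) :=
    CuspFormClass.exp_decay_atImInfty CuspForm.discriminant one_pos one_mem_strictPeriods_SL
  have hprod := (hΔ.pow m).mul hF
  have bdd : IsBoundedAtImInfty (fun z => ModularForm.discriminant z ^ m * F z) := by
    refine hprod.congr_right fun τ => ?_
    rw [← Real.exp_nat_mul, ← Real.exp_add]
    have : (m : ℝ) * (-2 * π * τ.im / 1) + 2 * π * m * τ.im = 0 := by ring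
    rw [this, Real.exp_zero]
    rfl
  obtain ⟨p, -, hp⟩ := exists_polynomial_of_isBoundedAtImInfty m F hol inv bdd
  exact ⟨p, hp⟩

section final

variable {N : ℕ} [Fintype (SL(2, ℤ) ⧸ Gamma0 N)]

/-- **M6-AN, unconditional.**  For every good function `f` of level `N` the conjugate product
`∏ₓ (Y - f ∘ gₓ⁻¹)` has coefficients in `ℂ[j]`. -/
theorem exists_charPoly_jFun {f : ℍ → ℂ} (hf : f ∈ goodRing N) :
    ∃ P : Polynomial (Polynomial ℂ), P.Monic ∧
      P.natDegree = Fintype.card (SL(2, ℤ) ⧸ Gamma0 N) ∧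
      ∀ τ : ℍ, P.map (Polynomial.evalRingHom (jFun τ)) = charPolyAt N f τ :=
  exists_charPoly jFun exists_polynomial_of_expGrowth hf

/-- **Function-level `HYP(n)`, unconditional.** -/
theorem exists_charPoly_jFun_eval_eq_zero {f : ℍ → ℂ} (hf : f ∈ goodRing N) :
    ∃ P : Polynomial (Polynomial ℂ), P.Monic ∧
      P.natDegree = Fintype.card (SL(2, ℤ) ⧸ Gamma0 N) ∧
      ∀ τ : ℍ, (P.map (Polynomial.evalRingHom (jFun τ))).eval (f τ) = 0 :=
  exists_charPoly_eval_eq_zero jFun exists_polynomial_of_expGrowth hf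

end final

end Fermat.Agent.S24.H648

end
end
-- ===== PACK-END S24/Deg/H648D5.lean

-- ===== PACK-BEGIN S24/Mod/H997Local.lean
section


/-!
# S24 / MOD — construction of `LocalData` from an abstract expansion with rotation data
-/

set_option autoImplicit false

noncomputable section

open ModularCurve HahnSeries UpperHalfPlane
open scoped MatrixGroups

namespace Fermat.Agent.S24.H997

/-! ### The "rotation relation" on Laurent series -/

/-- `b` has the same order as `a`, and leading coefficient `ζ ^ order * (leading coeff of a)`. -/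
def RotRel (ζ : ℂ) (a b : LaurentSeries ℂ) : Prop :=
  b.order = a.order ∧ b.leadingCoeff = ζ ^ a.order * a.leadingCoeff

namespace RotRel

variable {ζ : ℂ} {a b a' b' : LaurentSeries ℂ}

theorem zero : RotRel ζ 0 0 := ⟨rfl, by simp⟩

theorem eq_zero_iff (h : RotRel ζ a b) (hζ : ζ ≠ 0) : b = 0 ↔ a = 0 := by
  rw [← leadingCoeff_eq_zero (x := b), ← leadingCoeff_eq_zero (x := a), h.2]
  simp [zpow_ne_zero _ hζ]

theorem mul (hζ : ζ ≠ 0) (h : RotRel ζ a b) (h' : RotRel ζ a' b') :
    RotRel ζ (a * a') (b * b') := by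
  by_cases ha : a = 0
  · have hb : b = 0 := (h.eq_zero_iff hζ).mpr ha
    simp only [ha, hb, zero_mul]; exact zero
  by_cases ha' : a' = 0
  · have hb' : b' = 0 := (h'.eq_zero_iff hζ).mpr ha'
    simp only [ha', hb', mul_zero]; exact zero
  have hb : b ≠ 0 := fun hb => ha ((h.eq_zero_iff hζ).mp hb)
  have hb' : b' ≠ 0 := fun hb' => ha' ((h'.eq_zero_iff hζ).mp hb')
  have hab : a.leadingCoeff * a'.leadingCoeff ≠ 0 :=
    mul_ne_zero (leadingCoeff_ne_zero.mpr ha) (leadingCoeff_ne_zero.mpr ha')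
  have hbb : b.leadingCoeff * b'.leadingCoeff ≠ 0 :=
    mul_ne_zero (leadingCoeff_ne_zero.mpr hb) (leadingCoeff_ne_zero.mpr hb')
  refine ⟨?_, ?_⟩
  · rw [order_mul_of_ne_zero hab, order_mul_of_ne_zero hbb, h.1, h'.1]
  · rw [leadingCoeff_mul, leadingCoeff_mul, order_mul_of_ne_zero hab, h.2, h'.2, zpow_add₀ hζ]
    ring

theorem one : RotRel ζ 1 1 := ⟨rfl, by simp⟩

theorem order_inv' {x : LaurentSeries ℂ} (hx : x ≠ 0) : x⁻¹.order = -x.order := by
  have hxi : x⁻¹ ≠ 0 := inv_ne_zero hx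
  have h : x.leadingCoeff * x⁻¹.leadingCoeff ≠ 0 :=
    mul_ne_zero (leadingCoeff_ne_zero.mpr hx) (leadingCoeff_ne_zero.mpr hxi)
  have := order_mul_of_ne_zero h
  rw [mul_inv_cancel₀ hx, order_one] at this
  omega

theorem leadingCoeff_inv' {x : LaurentSeries ℂ} (hx : x ≠ 0) :
    x⁻¹.leadingCoeff = (x.leadingCoeff)⁻¹ := by
  have := leadingCoeff_mul x x⁻¹
  rw [mul_inv_cancel₀ hx, leadingCoeff_one] at this
  exact eq_inv_of_mul_eq_one_right this.symm

theorem inv (hζ : ζ ≠ 0) (h : RotRel ζ a b) : RotRel ζ a⁻¹ b⁻¹ := by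
  by_cases ha : a = 0
  · have hb : b = 0 := (h.eq_zero_iff hζ).mpr ha
    simp only [ha, hb, inv_zero]; exact zero
  have hb : b ≠ 0 := fun hb => ha ((h.eq_zero_iff hζ).mp hb)
  refine ⟨?_, ?_⟩
  · rw [order_inv' hb, order_inv' ha, h.1]
  · rw [leadingCoeff_inv' hb, leadingCoeff_inv' ha, order_inv' ha, h.2, mul_inv, zpow_neg]

theorem div (hζ : ζ ≠ 0) (h : RotRel ζ a b) (h' : RotRel ζ a' b') :
    RotRel ζ (a / a') (b / b') := by
  rw [div_eq_mul_inv, div_eq_mul_inv]
  exact h.mul hζ (h'.inv hζ)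

end RotRel

variable {N : ℕ} [NeZero N]

/-- An abstract injective expansion ring hom on `Hol`. -/
structure Expansion (B : HolBase N) where
  E : B.Hol →+* LaurentSeries ℂ
  inj : Function.Injective E
  const : ∀ c : ℂ, E (B.constH c) = HahnSeries.C c

/-- Rotation data for an expansion: precomposition with `ε` rotates the local coordinate
by the primitive `m`-th root of unity `ζ` (to first order). -/
structure RotData (B : HolBase N) (X : Expansion B) (ε : SL(2, ℤ)) where
  m : ℕ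
  m_pos : 0 < m
  ζ : ℂ
  hζ : IsPrimitiveRoot ζ m
  rot : ∀ h : B.Hol, RotRel ζ (X.E h) (X.E (B.compH ε h))

namespace HolBase

variable (B : HolBase N) (X : Expansion B)

/-- the ring hom `R_N → ℂ((z))`, `r ↦ E (e r ∘ g⁻¹)` -/
def sG (g : SL(2, ℤ)) : RN N →+* LaurentSeries ℂ :=
  X.E.comp ((B.compH g⁻¹).comp B.bridge)

theorem sG_apply (g : SL(2, ℤ)) (r : RN N) :
    B.sG X g r = X.E (B.compH g⁻¹ (B.bridge r)) := rfl

theorem sG_injective (g : SL(2, ℤ)) : Function.Injective (B.sG X g) :=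
  X.inj.comp ((B.compH_injective g⁻¹).comp B.bridge_injective)

/-- the embedding `FF N → ℂ((z))` attached to `g` -/
def sigmaG (g : SL(2, ℤ)) : FF N →+* LaurentSeries ℂ :=
  liftF (B.sG X g) (B.sG_injective X g)

theorem sigmaG_inclRN (g : SL(2, ℤ)) (r : RN N) :
    B.sigmaG X g (inclRN N r) = X.E (B.compH g⁻¹ (B.bridge r)) :=
  liftF_inclRN _ _ r

theorem sigmaG_algebraMap (g : SL(2, ℤ)) (c : Kbar) :
    B.sigmaG X g (algebraMap Kbar (FF N) c) = HahnSeries.C (ιK c) := by
  rw [sigmaG, liftF_algebraMap, sG_apply, bridge_algebraMap, compH_constH, X.const]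

theorem sigmaG_jF (g : SL(2, ℤ)) :
    B.sigmaG X g (jF N) = X.E (B.JH 1 (one_dvd N)) := by
  rw [← inclRN_jR_one, sigmaG_inclRN, bridge_jR, compH_JH_one]

theorem sG_mul_of_mem (g : SL(2, ℤ)) {δ : SL(2, ℤ)} (hδ : δ ∈ CongruenceSubgroup.Gamma0 N) :
    B.sG X (g * δ) = B.sG X g := by
  ext1 r
  rw [sG_apply, sG_apply, mul_inv_rev, compH_mul,
    B.compH_bridge_of_mem (inv_mem hδ)]

theorem sigmaG_mul_of_mem (g : SL(2, ℤ)) {δ : SL(2, ℤ)}
    (hδ : δ ∈ CongruenceSubgroup.Gamma0 N) : B.sigmaG X (g * δ) = B.sigmaG X g := by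
  unfold sigmaG
  congr 1
  exact B.sG_mul_of_mem X g hδ

theorem sigmaG_eq_of_mk_eq {g g' : SL(2, ℤ)}
    (h : (g : XX N) = (g' : XX N)) : B.sigmaG X g = B.sigmaG X g' := by
  have hmem : g⁻¹ * g' ∈ CongruenceSubgroup.Gamma0 N := QuotientGroup.eq.mp h
  have := B.sigmaG_mul_of_mem X g hmem
  rw [mul_inv_cancel_left] at this
  exact this.symm

/-- the embedding attached to a coset -/
def sigmaX (x : XX N) : FF N →+* LaurentSeries ℂ := B.sigmaG X (Quotient.out x)

theorem sigmaX_mk (g : SL(2, ℤ)) : B.sigmaX X (g : XX N) = B.sigmaG X g :=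
  B.sigmaG_eq_of_mk_eq X (QuotientGroup.out_eq' _)

theorem sigmaX_injective : Function.Injective (B.sigmaX X) := by
  intro x y hxy
  obtain ⟨g, rfl⟩ := QuotientGroup.mk_surjective x
  obtain ⟨g', rfl⟩ := QuotientGroup.mk_surjective y
  rw [sigmaX_mk, sigmaX_mk] at hxy
  have h1 := congrArg (fun s => s (inclRN N (jR N N dvd_rfl))) hxy
  simp only [sigmaG_inclRN, bridge_jR] at h1
  have h2 := X.inj h1
  apply QuotientGroup.eq.mpr
  apply B.J_distinct
  intro τ
  have h3 := congrArg (fun h : B.Hol => (h : ℍ → ℂ) (g' • τ)) h2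
  simp only [compH_apply] at h3
  rw [← mul_smul, ← mul_smul, inv_mul_cancel, one_smul] at h3
  exact h3

theorem rotRel_sigmaG (ε : SL(2, ℤ)) (R : RotData B X ε) (g : SL(2, ℤ)) (f : FF N) :
    RotRel R.ζ (B.sigmaG X g f) (B.sigmaG X (ε⁻¹ * g) f) := by
  have hζ : R.ζ ≠ 0 := R.hζ.ne_zero R.m_pos.ne'
  obtain ⟨r, t, -, rfl⟩ := exists_div_inclRN N f
  rw [map_div₀, map_div₀]
  have key : ∀ r : RN N, RotRel R.ζ (B.sigmaG X g (inclRN N r))
      (B.sigmaG X (ε⁻¹ * g) (inclRN N r)) := by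
    intro r
    rw [sigmaG_inclRN, sigmaG_inclRN, mul_inv_rev, inv_inv, compH_mul]
    exact R.rot _
  exact (key r).div hζ (key t)

/-- `LocalData` from an expansion with rotation data. -/
def mkLocalData (ε : SL(2, ℤ)) (R : RotData B X ε) (t : FF N) (u : LaurentSeries ℂ)
    (ht : ∀ g : SL(2, ℤ), B.sigmaG X g t = u) (hu : u.order = (R.m : ℤ)) :
    LocalData Kbar (FF N) ℂ (XX N) t where
  m := R.m
  m_pos := R.m_pos
  ζ := R.ζ
  hζ := R.hζ
  ι := ιK
  perm := permOf N ε⁻¹
  σ := B.sigmaX X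
  σ_inj := B.sigmaX_injective X
  σ_const x c := B.sigmaG_algebraMap X _ c
  σ_t_eq x y := by
    show B.sigmaG X _ t = B.sigmaG X _ t
    rw [ht, ht]
  σ_t_order x := by
    show (B.sigmaG X _ t).order = _
    rw [ht, hu]
  σ_perm_order x f := by
    obtain ⟨g, rfl⟩ := QuotientGroup.mk_surjective x
    have h : permOf N ε⁻¹ (g : XX N) = ((ε⁻¹ * g : SL(2, ℤ)) : XX N) := rfl
    rw [h, sigmaX_mk, sigmaX_mk]
    exact (B.rotRel_sigmaG X ε R g f).1
  σ_perm_leadingCoeff x f := by
    obtain ⟨g, rfl⟩ := QuotientGroup.mk_surjective x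
    have h : permOf N ε⁻¹ (g : XX N) = ((ε⁻¹ * g : SL(2, ℤ)) : XX N) := rfl
    rw [h, sigmaX_mk, sigmaX_mk]
    exact (B.rotRel_sigmaG X ε R g f).2

@[simp] theorem mkLocalData_perm (ε : SL(2, ℤ)) (R : RotData B X ε) (t : FF N)
    (u : LaurentSeries ℂ) (ht : ∀ g : SL(2, ℤ), B.sigmaG X g t = u)
    (hu : u.order = (R.m : ℤ)) :
    (B.mkLocalData X ε R t u ht hu).perm = permOf N ε⁻¹ := rfl

end HolBase

end Fermat.Agent.S24.H997

end
end
-- ===== PACK-END S24/Mod/H997Local.lean

-- ===== PACK-BEGIN S24/H624/SL2Z.lean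
section


/-!
# `SL(2, ℤ)` acting on holomorphic functions; divisibility of orders at elliptic points
-/

set_option autoImplicit false

namespace Fermat.Agent.S24.H624

open UpperHalfPlane Complex
open scoped Manifold Topology MatrixGroups

theorem det_coe_SL_pos (γ : SL(2, ℤ)) : 0 < ((γ : GL (Fin 2) ℝ).det.val : ℝ) := by
  simp

theorem det_coe_SL (γ : SL(2, ℤ)) : ((γ : GL (Fin 2) ℝ).det.val : ℝ) = 1 := by
  simp

/-- Precomposition with `γ ∈ SL(2, ℤ)` as an algebra endomorphism of `holoRing`. -/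
noncomputable def precompSL (γ : SL(2, ℤ)) : holoRing →ₐ[ℂ] holoRing where
  toFun f := ⟨fun τ => (f : ℍ → ℂ) (γ • τ), mdiff_comp_smul (det_coe_SL_pos γ) f.2⟩
  map_one' := rfl
  map_mul' _ _ := rfl
  map_zero' := rfl
  map_add' _ _ := rfl
  commutes' _ := rfl

@[simp]
theorem precompSL_apply (γ : SL(2, ℤ)) (f : holoRing) (τ : ℍ) :
    (precompSL γ f : ℍ → ℂ) τ = (f : ℍ → ℂ) (γ • τ) := rfl

theorem precompSL_one (f : holoRing) : precompSL 1 f = f := by
  ext τ
  simp

theorem precompSL_mul (γ δ : SL(2, ℤ)) (f : holoRing) :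
    precompSL (γ * δ) f = precompSL δ (precompSL γ f) := by
  ext τ
  simp [mul_smul]

/-- Left action of `SL(2, ℤ)` on holomorphic functions: `(γ • f) τ = f (γ⁻¹ • τ)`. -/
noncomputable instance instMulSemiringActionHoloRing : MulSemiringAction SL(2, ℤ) holoRing where
  smul γ f := precompSL γ⁻¹ f
  one_smul f := by
    show precompSL (1 : SL(2, ℤ))⁻¹ f = f
    rw [inv_one, precompSL_one]
  mul_smul γ δ f := by
    show precompSL (γ * δ)⁻¹ f = precompSL γ⁻¹ (precompSL δ⁻¹ f)
    rw [mul_inv_rev, precompSL_mul]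
  smul_zero γ := map_zero _
  smul_add γ f g := map_add _ f g
  smul_one γ := map_one _
  smul_mul γ f g := map_mul _ f g

theorem smul_holoRing_apply (γ : SL(2, ℤ)) (f : holoRing) (τ : ℍ) :
    ((γ • f : holoRing) : ℍ → ℂ) τ = (f : ℍ → ℂ) (γ⁻¹ • τ) := rfl

theorem smul_holoRing_def (γ : SL(2, ℤ)) (f : holoRing) : γ • f = precompSL γ⁻¹ f := rfl

instance instSMulCommClassHoloRing : SMulCommClass SL(2, ℤ) ℂ holoRing where
  smul_comm γ c f := by
    ext τ
    rfl

theorem ordAt_precompSL (γ : SL(2, ℤ)) (f : holoRing) (τ : ℍ) :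
    ordAt τ (precompSL γ f : ℍ → ℂ) = ordAt (γ • τ) (f : ℍ → ℂ) :=
  ordAt_comp_smul (det_coe_SL_pos γ) (f : ℍ → ℂ) τ

theorem ordAt_smul_holoRing (γ : SL(2, ℤ)) (f : holoRing) (τ : ℍ) :
    ordAt (γ • τ) ((γ • f : holoRing) : ℍ → ℂ) = ordAt τ (f : ℍ → ℂ) := by
  rw [smul_holoRing_def, ordAt_precompSL, inv_smul_smul]

/-- Rotation lemma for `SL(2, ℤ)`: if `γ` fixes `τ` and `f ≠ 0` is `γ`-invariant of order `n`
at `τ`, then `(c τ + d) ^ (2 n) = 1`. -/
theorem denom_pow_eq_one {γ : SL(2, ℤ)} {f : ℍ → ℂ} (hf : MDiff f) (hf0 : f ≠ 0) {τ : ℍ}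
    (hτ : γ • τ = τ) (hinv : ∀ z : ℍ, f (γ • z) = f z) :
    denom (γ : GL (Fin 2) ℝ) (τ : ℂ) ^ (2 * (ordAt τ f).toNat) = 1 := by
  have h := rotation_lemma (g := (γ : GL (Fin 2) ℝ)) (det_coe_SL_pos γ) hf hf0 hτ hinv
  rw [det_coe_SL γ] at h
  have hd : denom (γ : GL (Fin 2) ℝ) (τ : ℂ) ≠ 0 := denom_ne_zero _ τ
  rw [Complex.ofReal_one, div_pow, one_pow, ← pow_mul] at h
  have h2 := (div_eq_one_iff_eq (pow_ne_zero _ hd)).mp h
  exact h2.symm

/-- The quadratic relation satisfied by `λ = c τ + d` at a fixed point: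
`λ ^ 2 - (a + d) λ + 1 = 0`. -/
theorem denom_sq_eq_of_fixed {γ : SL(2, ℤ)} {τ : ℍ} (hτ : γ • τ = τ) :
    denom (γ : GL (Fin 2) ℝ) (τ : ℂ) ^ 2
      = (((γ 0 0 + γ 1 1 : ℤ) : ℂ)) * denom (γ : GL (Fin 2) ℝ) (τ : ℂ) - 1 := by
  have hd : denom (γ : GL (Fin 2) ℝ) (τ : ℂ) ≠ 0 := denom_ne_zero _ τ
  have h1 : ((γ • τ : ℍ) : ℂ) = num (γ : GL (Fin 2) ℝ) τ / denom (γ : GL (Fin 2) ℝ) τ :=
    coe_smul_of_det_pos (det_coe_SL_pos γ) τ
  rw [hτ] at h1
  have h2 : (τ : ℂ) * denom (γ : GL (Fin 2) ℝ) τ = num (γ : GL (Fin 2) ℝ) τ :=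
    (eq_div_iff hd).mp h1
  have hdet : ((γ 0 0 : ℤ) : ℂ) * ((γ 1 1 : ℤ) : ℂ) - ((γ 0 1 : ℤ) : ℂ) * ((γ 1 0 : ℤ) : ℂ) = 1 := by
    have := γ.det_coe
    rw [Matrix.det_fin_two] at this
    exact_mod_cast this
  have hnum : num (γ : GL (Fin 2) ℝ) (τ : ℂ) = ((γ 0 0 : ℤ) : ℂ) * τ + ((γ 0 1 : ℤ) : ℂ) := by
    simp [num]
  have hden : denom (γ : GL (Fin 2) ℝ) (τ : ℂ) = ((γ 1 0 : ℤ) : ℂ) * τ + ((γ 1 1 : ℤ) : ℂ) := by
    simp [denom]
  rw [hnum, hden] at h2
  rw [hden]
  push_cast
  linear_combination (((γ 1 0 : ℤ) : ℂ)) * h2 - hdet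

/-- At a fixed point of an element of trace `0`, invariant functions vanish to even order. -/
theorem even_ordAt_of_trace_zero {γ : SL(2, ℤ)} {f : ℍ → ℂ} (hf : MDiff f) (hf0 : f ≠ 0)
    {τ : ℍ} (hτ : γ • τ = τ) (htr : γ 0 0 + γ 1 1 = 0) (hinv : ∀ z : ℍ, f (γ • z) = f z) :
    Even (ordAt τ f).toNat := by
  have h1 := denom_pow_eq_one hf hf0 hτ hinv
  have h2 := denom_sq_eq_of_fixed hτ
  rw [htr] at h2
  simp only [Int.cast_zero, zero_mul, zero_sub] at h2
  rw [pow_mul, h2] at h1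
  by_contra hodd
  rw [Nat.not_even_iff_odd] at hodd
  rw [hodd.neg_one_pow] at h1
  norm_num at h1

theorem three_dvd_of_root {μ : ℂ} (hμ : μ ^ 2 + μ + 1 = 0) {n : ℕ} (hn : μ ^ n = 1) : 3 ∣ n := by
  have h3 : μ ^ 3 = 1 := by linear_combination (μ - 1) * hμ
  have hμ1 : μ ≠ 1 := by
    rintro rfl
    norm_num at hμ
  have hμ2 : μ ^ 2 ≠ 1 := by
    intro h
    have : μ = -2 := by linear_combination hμ - h
    rw [this] at h
    norm_num at h
  have hdiv : μ ^ n = μ ^ (n % 3) := by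
    conv_lhs => rw [← Nat.div_add_mod n 3, pow_add, pow_mul, h3, one_pow, one_mul]
  rw [hdiv] at hn
  have hlt : n % 3 < 3 := Nat.mod_lt _ (by norm_num)
  interval_cases h : n % 3
  · exact Nat.dvd_of_mod_eq_zero h
  · rw [pow_one] at hn; exact absurd hn hμ1
  · exact absurd hn hμ2

/-- At a fixed point of an element of trace `±1`, invariant functions vanish to order divisible
by `3`. -/
theorem three_dvd_ordAt_of_trace {γ : SL(2, ℤ)} {f : ℍ → ℂ} (hf : MDiff f) (hf0 : f ≠ 0)
    {τ : ℍ} (hτ : γ • τ = τ) (htr : γ 0 0 + γ 1 1 = 1 ∨ γ 0 0 + γ 1 1 = -1)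
    (hinv : ∀ z : ℍ, f (γ • z) = f z) :
    3 ∣ (ordAt τ f).toNat := by
  have h1 := denom_pow_eq_one hf hf0 hτ hinv
  have h2 := denom_sq_eq_of_fixed hτ
  rw [pow_mul] at h1
  set lam := denom (γ : GL (Fin 2) ℝ) (τ : ℂ) with hlam
  refine three_dvd_of_root (μ := lam ^ 2) ?_ h1
  rcases htr with htr | htr
  · rw [htr] at h2
    simp only [Int.cast_one, one_mul] at h2
    linear_combination (lam ^ 2 + lam + 1) * h2
  · rw [htr] at h2
    simp only [Int.cast_neg, Int.cast_one, neg_mul, one_mul] at h2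
    linear_combination (lam ^ 2 - lam + 1) * h2

end Fermat.Agent.S24.H624

end
-- ===== PACK-END S24/H624/SL2Z.lean

-- ===== PACK-BEGIN Ribet/Spec3.lean
section



/-!
# Row RIBET, TARGET S40 (good reduction at `p`): interface statements in `W`-form (helper943)

Frozen S40: `W : WeierstrassCurve ℤ`, `Δ ≠ 0`, `p` odd, `W` good at `p`, `W[p]` irreducible,
`p ‖ M`, `W` residually modular of level `M`  ⊢  `W` residually modular of level `M / p`.

`S40_of_walls : BLR-W → WALL-p (good) → R3S → R3'-W → S40Statement`   (proved below).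

All curve-dependent interfaces are stated for an arbitrary integral Weierstrass curve `W`
(`E = W.map ℤ→ℚ`); the Frey forms of `Spec.lean` are the special case `W = P.freyCurveInt`.
-/

set_option autoImplicit false

open WeierstrassCurve WeierstrassCurve.Affine WeierstrassCurve.Affine.Point
open CuspForm ModularFormClass UpperHalfPlane ModularCurve

namespace Fermat.Agent.Ribet.Spec

/-- `E[p]` for `E = W ⊗ ℚ`. -/
abbrev WTorsion (W : WeierstrassCurve ℤ) (p : ℕ) : Type :=
  Submodule.torsionBy ℤ ((W.map (Int.castRingHom ℚ))⁄(AlgebraicClosure ℚ)).Point p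

/-- The congruence data of `W.IsResiduallyModularOfLevel p N` for a fixed form and ideal. -/
def IsWitnessW (W : WeierstrassCurve ℤ) (p N : ℕ)
    (f : CuspForm (CongruenceSubgroup.Gamma0 N) 2) (𝔪 : Ideal (integralClosure ℤ ℂ)) : Prop :=
  f.IsNormalizedEigenform ∧ 𝔪.IsMaximal ∧ (p : integralClosure ℤ ℂ) ∈ 𝔪 ∧
    ∀ ℓ : ℕ, ℓ.Prime → W.IsGoodPrimeFor ℓ → ¬ ℓ ∣ N → ℓ ≠ p →
      ∃ a : integralClosure ℤ ℂ, (a : ℂ) = ModularFormClass.qCoeff f ℓ ∧
        a - ((W.apOfModel ℓ : ℤ) : integralClosure ℤ ℂ) ∈ 𝔪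

theorem isResiduallyModularOfLevel_iff_exists_witness (W : WeierstrassCurve ℤ) (p N : ℕ) :
    W.IsResiduallyModularOfLevel p N ↔ ∃ f 𝔪, IsWitnessW W p N f 𝔪 :=
  Iff.rfl

/-- A Galois- and Hecke-equivariant embedding of `W[p]` into `J₀(N)`, with `T_ℓ` acting through
`a_ℓ(W)` away from `S`. -/
def WEmbedsIn (W : WeierstrassCurve ℤ) (p N : ℕ) [NeZero N] (S : Finset ℕ) : Prop :=
  ∃ ι : WTorsion W p →+ JZero N, Function.Injective ι ∧
    (∀ (σ : GQ) (x : WTorsion W p), ι (σ • x) = σ • ι x) ∧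
    ∀ ℓ : Nat.Primes, (ℓ : ℕ) ∉ S → ∀ x : WTorsion W p,
      heckeOperatorBar N ℓ (ι x) = W.apOfModel ℓ • ι x

/-- (BLR-W) [row S29, architect helper709]  Boston-Lenstra-Ribet for an arbitrary integral
curve: a congruence witness of level `N` for an irreducible `W[p]`, `p` odd, gives an
equivariant embedding `W[p] ↪ J₀(N)[p]`. -/
def EmbedWStatement : Prop :=
  ∀ (W : WeierstrassCurve ℤ) (p N : ℕ) [NeZero N], W.Δ ≠ 0 → p.Prime → p ≠ 2 →
    W.ModRepIsIrreducible p →
    ∀ (f : CuspForm (CongruenceSubgroup.Gamma0 N) 2) (𝔪 : Ideal (integralClosure ℤ ℂ)),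
      IsWitnessW W p N f 𝔪 → ∃ S : Finset ℕ, WEmbedsIn W p N S

/-- (WALL-p, good reduction)  Mazur-Ribet at `p` in support form: `W` good at `p`, `W[p]`
irreducible and embedded in `J₀(pM')`; then the eigensystem `a_ℓ(W)` occurs in `J₀(M')[p]`. -/
def AtPOccursGoodStatement : Prop :=
  ∀ (W : WeierstrassCurve ℤ) (p M' : ℕ) [NeZero M'] [NeZero (p * M')], W.Δ ≠ 0 → p.Prime →
    p ≠ 2 → ¬ p ∣ M' → W.IsGoodPrimeFor p → W.ModRepIsIrreducible p →
    ∀ S : Finset ℕ, WEmbedsIn W p (p * M') S →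
      ∃ S' : Finset ℕ, S ⊆ S' ∧ OccursIn M' p S' (fun ℓ => W.apOfModel ℓ)

/-- (R3'-W) [frozen S29 + Chebotarev + trace formula]  For an irreducible `W[p]`, a normalised
eigenform congruent to `W` outside a finite set is congruent at every good prime `ℓ ∤ M·p`. -/
def AlmostAllToWitnessWStatement : Prop :=
  ∀ (W : WeierstrassCurve ℤ) (p M : ℕ), W.Δ ≠ 0 → p.Prime → p ≠ 2 → 0 < M →
    W.ModRepIsIrreducible p →
    ∀ (g : CuspForm (CongruenceSubgroup.Gamma0 M) 2) (𝔪 : Ideal (integralClosure ℤ ℂ))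
      (S : Finset ℕ),
      g.IsNormalizedEigenform → 𝔪.IsMaximal → (p : integralClosure ℤ ℂ) ∈ 𝔪 →
      (∀ ℓ : ℕ, ℓ.Prime → ℓ ∉ S →
        ∃ b : integralClosure ℤ ℂ, (b : ℂ) = qCoeff g ℓ ∧
          b - ((W.apOfModel ℓ : ℤ) : integralClosure ℤ ℂ) ∈ 𝔪) →
      IsWitnessW W p M g 𝔪

/-- Frozen S29 as a Prop (consumed by R3'-W). -/
def S29Statement : Prop :=
  ∀ {N : ℕ} {g : CuspForm (CongruenceSubgroup.Gamma0 N) 2}, g.IsNormalizedEigenform →
    ∀ {p : ℕ}, p.Prime → ∀ {k : Type} [Field k] [CharP k p]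
    (φ : integralClosure ℤ ℂ →+* k),
    ∃ ρ : ResidualGaloisRep k, ρ.IsAttachedTo g φ ∧
      ∀ ℓ : ℕ, ℓ.Prime → ¬ ℓ ∣ N * p → ρ.IsUnramifiedAt ℓ

/-- (TF-W)  Trace formula for an integral curve with irreducible `W[p]`. -/
def TraceFormulaWStatement : Prop :=
  ∀ (W : WeierstrassCurve ℤ) (p : ℕ), W.Δ ≠ 0 → p.Prime → p ≠ 2 → W.ModRepIsIrreducible p →
    ∀ (ℓ : ℕ), ℓ.Prime → ℓ ≠ p → W.IsGoodPrimeFor ℓ →
    ∀ A : ValuationSubring (AlgebraicClosure ℚ), A.LiesOverPrime ℓ →
    ∀ τ : GQ, A.IsFrobeniusAt τ ℓ →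
      galoisTrace (S := ℚ) (K := AlgebraicClosure ℚ) (W.map (Int.castRingHom ℚ)) p τ
        = ((W.apOfModel ℓ : ℤ) : ZMod p)

/-- **TARGET S40 from its four inputs.** -/
theorem S40_of_walls (hE : EmbedWStatement) (hWall : AtPOccursGoodStatement)
    (hR3 : EigenformOfOccursAwayStatement) (hR3' : AlmostAllToWitnessWStatement) :
    S40Statement := by
  intro W hΔ p hp hp2 hgood hirr M hM hpM hp2M hmod
  obtain ⟨M', rfl⟩ := hpM
  have hM'pos : 0 < M' := by
    rcases Nat.eq_zero_or_pos M' with h0 | h0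
    · subst h0; simp at hM
    · exact h0
  rw [Nat.mul_div_cancel_left M' hp.pos]
  have hpM' : ¬ p ∣ M' := by
    rintro ⟨k, rfl⟩
    exact hp2M ⟨k, by ring⟩
  haveI : NeZero M' := ⟨hM'pos.ne'⟩
  haveI : NeZero (p * M') := ⟨hM.ne'⟩
  obtain ⟨f, 𝔪, hwit⟩ := hmod
  obtain ⟨S, hemb⟩ := hE W p (p * M') hΔ hp hp2 hirr f 𝔪 hwit
  obtain ⟨S', -, hocc⟩ := hWall W p M' hΔ hp hp2 hpM' hgood hirr S hemb
  obtain ⟨g, 𝔪', hg, hmax, hpm, hc⟩ := exists_eigenform_of_occursIn hR3 hp hocc
  exact ⟨g, 𝔪', hR3' W p M' hΔ hp hp2 hM'pos hirr g 𝔪' _ hg hmax hpm hc⟩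

end Fermat.Agent.Ribet.Spec

end
-- ===== PACK-END Ribet/Spec3.lean

-- ===== PACK-BEGIN A2/H553/GaussA.lean
section




/-!
# A2 / K2c (helper553): the Gauss ring of `K((q))` attached to a valuation subring `A ⊆ K`

`K` a field, `A : ValuationSubring K` (no discreteness assumption), `k` its residue field.

* `gaussA A : Subring (LaurentSeries K)` : quotients `a / b` of `A`-integral series with `b`
  primitive (some coefficient a unit of `A`)  (= helper86's `gaussRing` for `O = A`);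
* `redA A : gaussA A →+* LaurentSeries k` : the reduction map;
* `HasGaussForm A x` : `x = c · a / b` with `c ∈ Kˣ` and `a`, `b` primitive;
* `const_mem_gaussA` : a constant lies in `gaussA A` iff it lies in `A`;
* `HasGaussForm.mem_or_inv_mem`, `HasGaussForm.mem_iff`, unit criteria.
-/

set_option autoImplicit false
set_option linter.unusedSectionVars false

noncomputable section

namespace Fermat.Agent.A2.H553

open ModularCurve HahnSeries Fermat.Agent.S28.H86

variable {K : Type*} [Field K] (A : ValuationSubring K)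

/-- The residue map of `A`, on the underlying subring. -/
def resA : ↥A.toSubring →+* IsLocalRing.ResidueField ↥A := IsLocalRing.residue ↥A

theorem resA_eq_zero_iff (x : ↥A.toSubring) : resA A x = 0 ↔ A.valuation (x : K) < 1 := by
  have h1 : resA A x = 0 ↔ (x : ↥A) ∈ IsLocalRing.maximalIdeal ↥A :=
    IsLocalRing.residue_eq_zero_iff (R := ↥A) x
  exact h1.trans (A.valuation_lt_one_iff x)

theorem resA_ne_zero_iff (x : ↥A.toSubring) : resA A x ≠ 0 ↔ A.valuation (x : K) = 1 := by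
  rw [Ne, resA_eq_zero_iff, not_lt]
  constructor
  · intro h; exact le_antisymm (A.valuation_le_one x) h
  · intro h; exact h.ge

/-- The Gauss ring attached to `A`. -/
def gaussA : Subring (LaurentSeries K) := gaussRing A.toSubring (resA A)

/-- The reduction map `gaussA A → k((q))`. -/
def redA : gaussA A →+* LaurentSeries (IsLocalRing.ResidueField ↥A) :=
  gaussRed A.toSubring (resA A)

variable {A}

theorem mem_gaussA_iff {x : LaurentSeries K} :
    x ∈ gaussA A ↔ ∃ a b : LaurentSeries ↥A.toSubring,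
      redL (resA A) b ≠ 0 ∧ x * inclL A.toSubring b = inclL A.toSubring a := Iff.rfl

theorem redL_ne_zero_iff (b : LaurentSeries ↥A.toSubring) :
    redL (resA A) b ≠ 0 ↔ ∃ n, A.valuation ((b.coeff n : K)) = 1 := by
  constructor
  · intro h
    by_contra hcon
    push Not at hcon
    apply h
    ext n
    rw [redL_coeff, HahnSeries.coeff_zero]
    by_contra h0
    exact hcon n ((resA_ne_zero_iff A _).mp h0)
  · rintro ⟨n, hn⟩ h
    have := congrArg (fun z => z.coeff n) h
    simp only [redL_coeff, HahnSeries.coeff_zero] at this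
    exact (resA_ne_zero_iff A _).mpr hn this

theorem redL_eq_zero_iff' (b : LaurentSeries ↥A.toSubring) :
    redL (resA A) b = 0 ↔ ∀ n, A.valuation ((b.coeff n : K)) < 1 := by
  constructor
  · intro h n
    have := congrArg (fun z => z.coeff n) h
    simp only [redL_coeff, HahnSeries.coeff_zero] at this
    exact (resA_eq_zero_iff A _).mp this
  · intro h
    ext n
    rw [redL_coeff, HahnSeries.coeff_zero]
    exact (resA_eq_zero_iff A _).mpr (h n)

theorem inclL_ne_zero_of_redL_ne_zero {b : LaurentSeries ↥A.toSubring}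
    (hb : redL (resA A) b ≠ 0) : inclL A.toSubring b ≠ 0 := by
  intro h0
  apply hb
  rw [inclL_injective A.toSubring (h0.trans (_root_.map_zero _).symm), _root_.map_zero]

/-- coefficients of `C c * x`. -/
theorem coeff_C_mul' (c : K) (x : LaurentSeries K) (n : ℤ) :
    (HahnSeries.C c * x).coeff n = c * x.coeff n := by
  rw [HahnSeries.C_mul_eq_smul, HahnSeries.coeff_smul, smul_eq_mul]

/-- A constant lies in the Gauss ring iff it lies in `A`. -/
theorem const_mem_gaussA {c : K} : HahnSeries.C c ∈ gaussA A ↔ c ∈ A := by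
  constructor
  · rintro ⟨a, b, hb, hab⟩
    obtain ⟨n, hn⟩ := (redL_ne_zero_iff b).mp hb
    have h1 := congrArg (fun z => z.coeff n) hab
    simp only [coeff_C_mul', inclL_coeff] at h1
    have hbn : (b.coeff n : K) ≠ 0 := by
      intro h0
      rw [h0, _root_.map_zero] at hn
      exact zero_ne_one hn
    have hc : c = (a.coeff n : K) * (b.coeff n : K)⁻¹ := by
      field_simp
      exact h1
    rw [hc, ← A.valuation_le_one_iff, _root_.map_mul, map_inv₀, hn, inv_one, mul_one]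
    exact A.valuation_le_one (a.coeff n)
  · intro hc
    refine ⟨HahnSeries.C (⟨c, hc⟩ : ↥A.toSubring), 1, by simp, ?_⟩
    rw [_root_.map_one, mul_one, inclL_C]

/-- reduction of an integral series -/
theorem redA_inclL (a : LaurentSeries ↥A.toSubring) :
    redA A ⟨inclL A.toSubring a, inclL_mem_gaussRing (resA A) a⟩ = redL (resA A) a :=
  gaussRed_inclL a

theorem redA_eq (x : gaussA A) (a b : LaurentSeries ↥A.toSubring)
    (hb : redL (resA A) b ≠ 0)
    (h : (x : LaurentSeries K) * inclL A.toSubring b = inclL A.toSubring a) :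
    redA A x = redL (resA A) a / redL (resA A) b := gaussRed_eq x a b hb h

/-- elements with nonzero reduction are units -/
theorem inv_mem_gaussA_of_redA_ne_zero (x : gaussA A) (hx : redA A x ≠ 0) :
    (x : LaurentSeries K)⁻¹ ∈ gaussA A :=
  inv_mem_gaussRing_of_gaussRed_ne_zero x hx

/-- units have nonzero reduction -/
theorem redA_ne_zero_of_inv_mem (x : gaussA A) (hx0 : (x : LaurentSeries K) ≠ 0)
    (hx : (x : LaurentSeries K)⁻¹ ∈ gaussA A) : redA A x ≠ 0 := by
  intro h0
  have h1 : x * ⟨_, hx⟩ = (1 : gaussA A) := Subtype.ext (mul_inv_cancel₀ hx0)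
  have h2 := congrArg (redA A) h1
  rw [_root_.map_mul, h0, zero_mul, _root_.map_one] at h2
  exact zero_ne_one h2

/-- `x = c · (a / b)` with `c` a nonzero constant and `a`, `b` primitive integral series. -/
def HasGaussForm (A : ValuationSubring K) (x : LaurentSeries K) : Prop :=
  ∃ c : K, c ≠ 0 ∧ ∃ a b : LaurentSeries ↥A.toSubring,
    redL (resA A) a ≠ 0 ∧ redL (resA A) b ≠ 0 ∧
      x * inclL A.toSubring b = HahnSeries.C c * inclL A.toSubring a

theorem C_ne_zero' {c : K} (hc : c ≠ 0) : (HahnSeries.C c : LaurentSeries K) ≠ 0 := by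
  intro h
  exact hc (HahnSeries.C_injective (h.trans (_root_.map_zero _).symm))

theorem HasGaussForm.ne_zero {x : LaurentSeries K} (h : HasGaussForm A x) : x ≠ 0 := by
  obtain ⟨c, hc, a, b, ha, hb, hab⟩ := h
  rintro rfl
  rw [zero_mul] at hab
  exact mul_ne_zero (C_ne_zero' hc) (inclL_ne_zero_of_redL_ne_zero ha) hab.symm

/-- pure field algebra: invert a relation `x * b = C * a`. -/
theorem inv_form_aux {L : Type*} [Field L] {x C a b : L} (hx : x ≠ 0) (hC : C ≠ 0)
    (hab : x * b = C * a) : x⁻¹ * a = C⁻¹ * b := by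
  rw [inv_mul_eq_iff_eq_mul₀ hx]
  calc a = C⁻¹ * (C * a) := by rw [← mul_assoc, inv_mul_cancel₀ hC, one_mul]
    _ = C⁻¹ * (x * b) := by rw [hab]
    _ = x * (C⁻¹ * b) := by ring

theorem HasGaussForm.inv {x : LaurentSeries K} (h : HasGaussForm A x) : HasGaussForm A x⁻¹ := by
  have hx := h.ne_zero
  obtain ⟨c, hc, a, b, ha, hb, hab⟩ := h
  refine ⟨c⁻¹, inv_ne_zero hc, b, a, hb, ha, ?_⟩
  have hC := C_ne_zero' (K := K) hc
  have hCinv : (HahnSeries.C c⁻¹ : LaurentSeries K) = (HahnSeries.C c)⁻¹ := by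
    apply eq_inv_of_mul_eq_one_left
    rw [← _root_.map_mul, inv_mul_cancel₀ hc, _root_.map_one]
  rw [hCinv]
  exact inv_form_aux hx hC hab

/-- The form of the constant decides membership. -/
theorem HasGaussForm.mem_of_const_mem {x : LaurentSeries K} {c : K}
    {a b : LaurentSeries ↥A.toSubring} (hb : redL (resA A) b ≠ 0)
    (hab : x * inclL A.toSubring b = HahnSeries.C c * inclL A.toSubring a) (hc : c ∈ A) :
    x ∈ gaussA A := by
  refine ⟨HahnSeries.C (⟨c, hc⟩ : ↥A.toSubring) * a, b, hb, ?_⟩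
  rw [hab, _root_.map_mul, inclL_C]

theorem HasGaussForm.mem_or_inv_mem {x : LaurentSeries K} (h : HasGaussForm A x) :
    x ∈ gaussA A ∨ x⁻¹ ∈ gaussA A := by
  have hinv := h.inv
  obtain ⟨c, hc, a, b, ha, hb, hab⟩ := h
  rcases A.mem_or_inv_mem c with h1 | h1
  · exact Or.inl (HasGaussForm.mem_of_const_mem hb hab h1)
  · right
    have hx : x ≠ 0 := by
      rintro rfl
      rw [zero_mul] at hab
      exact mul_ne_zero (C_ne_zero' hc) (inclL_ne_zero_of_redL_ne_zero ha) hab.symm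
    have hC := C_ne_zero' (K := K) hc
    have hCinv : (HahnSeries.C c⁻¹ : LaurentSeries K) = (HahnSeries.C c)⁻¹ := by
      apply eq_inv_of_mul_eq_one_left
      rw [← _root_.map_mul, inv_mul_cancel₀ hc, _root_.map_one]
    refine HasGaussForm.mem_of_const_mem (c := c⁻¹) (a := b) (b := a) ha ?_ h1
    rw [hCinv]
    exact inv_form_aux hx hC hab

/-- For an element in Gauss form, membership in the Gauss ring is read off from the constant. -/
theorem HasGaussForm.const_mem_of_mem {x : LaurentSeries K} {c : K}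
    {a b : LaurentSeries ↥A.toSubring} (ha : redL (resA A) a ≠ 0)
    (hab : x * inclL A.toSubring b = HahnSeries.C c * inclL A.toSubring a)
    (hx : x ∈ gaussA A) : c ∈ A := by
  obtain ⟨a₁, b₁, hb₁, hab₁⟩ := hx
  rw [← const_mem_gaussA]
  refine ⟨a₁ * b, a * b₁, ?_, ?_⟩
  · rw [_root_.map_mul]; exact mul_ne_zero ha hb₁
  · rw [_root_.map_mul, _root_.map_mul, ← hab₁]
    linear_combination (-(inclL A.toSubring b₁)) * hab

/-- A unit of the Gauss ring in Gauss form: the constant is a unit of `A`. -/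
theorem HasGaussForm.isUnit_const {x : LaurentSeries K} {c : K} (hc : c ≠ 0)
    {a b : LaurentSeries ↥A.toSubring} (ha : redL (resA A) a ≠ 0) (hb : redL (resA A) b ≠ 0)
    (hab : x * inclL A.toSubring b = HahnSeries.C c * inclL A.toSubring a)
    (hx : x ∈ gaussA A) (hx' : x⁻¹ ∈ gaussA A) : A.valuation c = 1 := by
  have h1 : c ∈ A := HasGaussForm.const_mem_of_mem ha hab hx
  have hx0 : x ≠ 0 := by
    rintro rfl
    rw [zero_mul] at hab
    exact mul_ne_zero (C_ne_zero' hc) (inclL_ne_zero_of_redL_ne_zero ha) hab.symm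
  have hC := C_ne_zero' (K := K) hc
  have hCinv : (HahnSeries.C c⁻¹ : LaurentSeries K) = (HahnSeries.C c)⁻¹ := by
    apply eq_inv_of_mul_eq_one_left
    rw [← _root_.map_mul, inv_mul_cancel₀ hc, _root_.map_one]
  have h2 : c⁻¹ ∈ A := by
    refine HasGaussForm.const_mem_of_mem (x := x⁻¹) (a := b) (b := a) hb ?_ hx'
    rw [hCinv]
    exact inv_form_aux hx0 hC hab
  have e1 : A.valuation c ≤ 1 := (A.valuation_le_one_iff c).mpr h1
  have e2 : A.valuation c⁻¹ ≤ 1 := (A.valuation_le_one_iff _).mpr h2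
  rw [map_inv₀] at e2
  have hv : A.valuation c ≠ 0 := (Valuation.ne_zero_iff _).mpr hc
  have e3 : 1 ≤ A.valuation c := by
    have := (inv_le_one₀ (zero_lt_iff.mpr hv)).mp e2
    exact this
  exact le_antisymm e1 e3

end Fermat.Agent.A2.H553

end
end
-- ===== PACK-END A2/H553/GaussA.lean

-- ===== PACK-BEGIN A2/Mod/H372/Branch.lean
section




/-!
# A2 / MODASM S3, generic part (helper372): the branches are Dedekind

Mathlib + `A2.H372` only.

* `dimensionLEOne_quotient_of_integral` : `B` integral over `R[y]` (`R` local), `p` a prime of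
  `B` containing the maximal ideal of `R` ⟹ every nonzero prime of `B ⧸ p` is maximal;
* `isDedekindDomain_quotient_of_integral` : if moreover `B` is noetherian and `B ⧸ p` is
  integrally closed, then `B ⧸ p` is a Dedekind domain;
* `exists_isBranchUnif_of_quotient` : local generators of the branch `B ⧸ P` in terms of a
  parametrisation `α : A → B` onto `B ⧸ P`;
* `KronCong.sup_isRadical_of_quotient` : transversality (`SSChart.transversal`) from the
  semilinear Kronecker congruences when the branch `B ⧸ P₁` is Dedekind.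
-/

set_option autoImplicit false
set_option linter.style.haveILetI false

namespace Fermat.Agent.A2.Mod.H372

open Polynomial

section Dim

variable {R B : Type*} [CommRing R] [IsLocalRing R] [CommRing B]

/-- Every nonzero prime of `B ⧸ p` is maximal. -/
theorem dimensionLEOne_quotient_of_integral (c : R →+* B) (y : B)
    (hint : ∀ b : B, (Polynomial.eval₂RingHom c y).IsIntegralElem b)
    (p : Ideal B) [p.IsPrime] (hp : ∀ r ∈ IsLocalRing.maximalIdeal R, c r ∈ p) :
    Ring.DimensionLEOne (B ⧸ p) := by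
  let k := IsLocalRing.ResidueField R
  let ι : k →+* B ⧸ p :=
    Ideal.Quotient.lift (IsLocalRing.maximalIdeal R) ((Ideal.Quotient.mk p).comp c)
      (fun r hr => Ideal.Quotient.eq_zero_iff_mem.mpr (hp r hr))
  let θ : Polynomial k →+* B ⧸ p := Polynomial.eval₂RingHom ι (Ideal.Quotient.mk p y)
  have hθ : θ.IsIntegral := by
    intro z
    obtain ⟨b, rfl⟩ := Ideal.Quotient.mk_surjective z
    have h1 := isIntegralElem_map (Polynomial.eval₂RingHom c y) (Ideal.Quotient.mk p) (hint b)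
    refine isIntegralElem_of_forall_exists _ _ (fun f => ?_) h1
    refine ⟨f.map (IsLocalRing.residue R), ?_⟩
    show Polynomial.eval₂ ι (Ideal.Quotient.mk p y) (f.map (IsLocalRing.residue R)) = _
    rw [Polynomial.eval₂_map, RingHom.comp_apply, Polynomial.coe_eval₂RingHom,
      Polynomial.hom_eval₂]
    rfl
  letI := θ.toAlgebra
  haveI : Algebra.IsIntegral (Polynomial k) (B ⧸ p) := ⟨hθ⟩
  refine ⟨fun {𝔮} h𝔮 hprime => ?_⟩
  have hne : 𝔮.comap (algebraMap (Polynomial k) (B ⧸ p)) ≠ ⊥ := fun h =>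
    h𝔮 (Ideal.eq_bot_of_comap_eq_bot h)
  have hmax : (𝔮.comap (algebraMap (Polynomial k) (B ⧸ p))).IsMaximal :=
    Ring.DimensionLEOne.maximalOfPrime hne (Ideal.comap_isPrime _ _)
  exact Ideal.isMaximal_of_isIntegral_of_isMaximal_comap 𝔮 hmax

/-- The branch `B ⧸ p` is a Dedekind domain. -/
theorem isDedekindDomain_quotient_of_integral [IsNoetherianRing B] (c : R →+* B) (y : B)
    (hint : ∀ b : B, (Polynomial.eval₂RingHom c y).IsIntegralElem b)
    (p : Ideal B) [p.IsPrime] (hp : ∀ r ∈ IsLocalRing.maximalIdeal R, c r ∈ p)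
    [IsIntegrallyClosed (B ⧸ p)] : IsDedekindDomain (B ⧸ p) :=
  { dimensionLEOne_quotient_of_integral c y hint p hp with
    toIsDomain := inferInstance }

end Dim

section Branch

variable {A B : Type*} [CommRing A] [CommRing B]

open Fermat.Agent.A2.H372 in
/-- If the branch `B ⧸ P` is a Dedekind domain and `α` is onto `B ⧸ P`, every prime `n ⊇ P` has
a local generator in the sense of `IsBranchUnif`. -/
theorem exists_isBranchUnif_of_quotient (α : A →+* B) (P n : Ideal B) [n.IsPrime]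
    (hP : P ≤ n) [IsDedekindDomain (B ⧸ P)] (hα : ∀ b : B, ∃ a : A, b - α a ∈ P) :
    ∃ a₀ : A, IsBranchUnif α P n a₀ := by
  let ψ : B ⧸ P →+* B ⧸ n := Ideal.Quotient.factor hP
  let m : Ideal (B ⧸ P) := RingHom.ker ψ
  have : m.IsPrime := RingHom.ker_isPrime ψ
  have hmem : ∀ b : B, Ideal.Quotient.mk P b ∈ m ↔ b ∈ n := by
    intro b
    simp only [m, ψ, RingHom.mem_ker, Ideal.Quotient.factor_mk, Ideal.Quotient.eq_zero_iff_mem]
  have hmk : ∀ z : B ⧸ P, ∃ a : A, z = Ideal.Quotient.mk P (α a) := by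
    intro z
    obtain ⟨b, rfl⟩ := Ideal.Quotient.mk_surjective z
    obtain ⟨a, ha⟩ := hα b
    exact ⟨a, Ideal.Quotient.eq.mpr ha⟩
  obtain ⟨a₀', ha₀', hgen⟩ := H372.exists_local_generator_of_isDedekindDomain _ m
  obtain ⟨a₀, rfl⟩ := hmk a₀'
  refine ⟨a₀, (hmem _).mp ha₀', fun a ha => ?_⟩
  obtain ⟨s', y', hs', hsy'⟩ := hgen _ ((hmem (α a)).mpr ha)
  obtain ⟨s, rfl⟩ := hmk s'
  obtain ⟨y, rfl⟩ := hmk y'
  refine ⟨s, y, fun h => hs' ((hmem _).mpr h), ?_⟩
  have h0 : Ideal.Quotient.mk P (α s * α a - α a₀ * α y) = 0 := by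
    rw [_root_.map_sub, _root_.map_mul, _root_.map_mul, hsy', sub_self]
  exact Ideal.Quotient.eq_zero_iff_mem.mp h0

open Fermat.Agent.A2.H372 in
/-- **Transversality** when the first branch `B ⧸ P₁` is a Dedekind domain. -/
theorem sup_isRadical_of_quotient {q : ℕ} (hq : 2 ≤ q) {α β : A →+* B}
    {P₁ P₂ : Ideal B} (h : KronCong q α β P₁ P₂) (hα : ∀ b : B, ∃ a : A, b - α a ∈ P₁)
    [IsDedekindDomain (B ⧸ P₁)] : (P₁ ⊔ P₂).IsRadical :=
  h.sup_isRadical hq hα fun n hn hP₁ _ =>
    haveI := hn.isPrime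
    exists_isBranchUnif_of_quotient α P₁ n hP₁ hα

end Branch

end Fermat.Agent.A2.Mod.H372

end
-- ===== PACK-END A2/Mod/H372/Branch.lean

-- ===== PACK-BEGIN S18/H438/Front/PolyAlg.lean
section


/-!
# S18 / ALG-FRONT (helper438), part 7: the chart as an `R[X]`-algebra

`B = chartRing R z` (integral closure of `R[z]` in `F`) is an `R[X]`-algebra via `X ↦ z`:

* `chartPolyHom R z : R[X] →+* chartRing R z`, `chartPolyAlgebra R z` (a `def`, use with `letI`);
* `chartPolyHom_C_eq_chartUnif` : `C w ↦ ϖ`;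
* `chartPolyHom_injective`, `chartPoly_finite`, `chartPoly_isTorsionFree`
  (the instance hypotheses of `B12.B2RegularStatement` and of `H425.hsep_poly`).
-/

set_option autoImplicit false
set_option linter.style.haveILetI false
set_option linter.unusedSectionVars false

noncomputable section

namespace Fermat.Agent.S18.H438

open Polynomial

variable {F : Type*} [Field F] (R : Subring F) (z : F)

/-- `R[X] → R[z]`, `X ↦ z`. -/
def basePolyHom : R[X] →+* baseRing R z :=
  (Polynomial.aeval (⟨z, self_mem_baseRing R z⟩ : baseRing R z)).toRingHom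

theorem coe_basePolyHom (P : R[X]) :
    ((basePolyHom R z P : baseRing R z) : F) = Polynomial.aeval z P := by
  have : ((basePolyHom R z P : baseRing R z) : F) =
      (baseRing R z).val (Polynomial.aeval (⟨z, self_mem_baseRing R z⟩ : baseRing R z) P) := rfl
  rw [this, ← Polynomial.aeval_algHom_apply]
  rfl

theorem basePolyHom_surjective : Function.Surjective (basePolyHom R z) := by
  rintro ⟨a, ha⟩
  obtain ⟨P, hP⟩ := exists_aeval_eq_of_mem_baseRing R z ha
  exact ⟨P, Subtype.ext (by rw [coe_basePolyHom, hP])⟩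

/-- `R[X] → B`, `X ↦ z`. -/
def chartPolyHom : R[X] →+* chartRing R z :=
  (algebraMap (baseRing R z) (chartRing R z)).comp (basePolyHom R z)

theorem coe_chartPolyHom (P : R[X]) :
    ((chartPolyHom R z P : chartRing R z) : F) = Polynomial.aeval z P :=
  coe_basePolyHom R z P

theorem chartPolyHom_C_eq_chartUnif {w : F} (hwR : w ∈ R) :
    chartPolyHom R z (C (⟨w, hwR⟩ : R)) = chartUnif (z := z) hwR := by
  apply Subtype.ext
  rw [coe_chartPolyHom, Polynomial.aeval_C]
  rfl

theorem chartPolyHom_injective (hz : Transcendental R z) :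
    Function.Injective (chartPolyHom R z) := by
  intro P Q hPQ
  have h := congrArg (fun b : chartRing R z => (b : F)) hPQ
  simp only [coe_chartPolyHom] at h
  exact (transcendental_iff_injective.1 hz) h

/-- The `R[X]`-algebra structure on the chart (`X ↦ z`). -/
@[reducible] def chartPolyAlgebra : Algebra R[X] (chartRing R z) := (chartPolyHom R z).toAlgebra

theorem chartPoly_isTorsionFree (hz : Transcendental R z) :
    letI := chartPolyAlgebra R z
    Module.IsTorsionFree R[X] (chartRing R z) := by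
  letI := chartPolyAlgebra R z
  refine Module.IsTorsionFree.of_smul_eq_zero (R := R[X]) (M := chartRing R z) fun r m h => ?_
  rw [Algebra.smul_def] at h
  rcases mul_eq_zero.1 h with h | h
  · left
    exact chartPolyHom_injective R z hz (by rw [_root_.map_zero]; exact h)
  · exact Or.inr h

section Instances

attribute [local instance] FractionRing.liftAlgebra

variable [CharZero F] [hfin : FiniteDimensional (FractionRing (baseRing R z)) F]
  [IsDiscreteValuationRing R]

theorem chartPoly_finite (hz : Transcendental R z) :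
    letI := chartPolyAlgebra R z
    Module.Finite R[X] (chartRing R z) := by
  letI a1 : Algebra R[X] (baseRing R z) := (basePolyHom R z).toAlgebra
  letI := chartPolyAlgebra R z
  haveI : IsScalarTower R[X] (baseRing R z) (chartRing R z) :=
    IsScalarTower.of_algebraMap_eq (fun _ => rfl)
  haveI : Module.Finite R[X] (baseRing R z) :=
    Module.Finite.of_surjective (Algebra.linearMap R[X] (baseRing R z))
      (basePolyHom_surjective R z)
  haveI := chartRing_finite R z hz
  exact Module.Finite.trans (baseRing R z) (chartRing R z)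

end Instances

end Fermat.Agent.S18.H438

end
end
-- ===== PACK-END S18/H438/Front/PolyAlg.lean

-- ===== PACK-BEGIN A2/T1/H669/T2.lean
section



/-!
# WALL A2, piece T2 (helper669): divisibility of the divisor descends from `F̄` to `F_E`

`E ⊆ ℚ̄` an intermediate field, `F_E = laurentBaseChange E F₀`, `F̄ = laurentBaseChange ℚ̄ F₀`,
`iota : F_E → F̄`.  If `y ∈ F_E` and `m ∣ ord_v (iota y)` for every `Place` `v` of `F̄ / ℚ̄`, then
for every discrete valuation subring `V` of `F_E` containing `E` we have `y = u · h ^ m` with `u` a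
unit of `V`, i.e. `Spec.DivisibleDiv E m y` (definition unfolded in the statement).

Proof: `S18.H845.exists_dvr_extension` (constant field extensions are unramified) extends `V` to a
discrete valuation subring `B` of `F̄` with the same uniformiser; `B` is a `Place`.
-/

set_option autoImplicit false
set_option synthInstance.maxHeartbeats 400000
set_option maxHeartbeats 1600000

noncomputable section

namespace Fermat.Agent.A2.T1.H669

open ModularCurve AlgebraicCurve

variable (E : IntermediateField ℚ _root_.Fermat.Agent.A2.T1.H669.Qb) (F₀ : IntermediateField ℚ (LaurentSeries ℚ))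

/-- `F̄` as an algebra over `F_E` (via `iota`). -/
@[reducible] def algFEFbar : Algebra ↥(laurentBaseChange E F₀) ↥(laurentBaseChange _root_.Fermat.Agent.A2.T1.H669.Qb F₀) :=
  (iota E F₀).toAlgebra

theorem towerEFEFbar :
    letI := algFEFbar E F₀
    IsScalarTower E ↥(laurentBaseChange E F₀) ↥(laurentBaseChange _root_.Fermat.Agent.A2.T1.H669.Qb F₀) := by
  letI := algFEFbar E F₀
  exact IsScalarTower.of_algebraMap_eq fun e => (iota_algebraMap E F₀ e).symm

theorem isAlgebraic_const (a : _root_.Fermat.Agent.A2.T1.H669.Qb) :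
    IsAlgebraic E (algebraMap _root_.Fermat.Agent.A2.T1.H669.Qb ↥(laurentBaseChange _root_.Fermat.Agent.A2.T1.H669.Qb F₀) a) := by
  have hQ : Algebra.IsAlgebraic ℚ _root_.Fermat.Agent.A2.T1.H669.Qb := AlgebraicClosure.isAlgebraic ℚ
  have ha : IsAlgebraic E a := (hQ.isAlgebraic a).tower_top E
  exact ha.algebraMap

/-- `F̄` is generated over `F_E` by algebraic constants. -/
theorem adjoin_algebraic_eq_top :
    letI := algFEFbar E F₀
    IntermediateField.adjoin ↥(laurentBaseChange E F₀)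
      {α : ↥(laurentBaseChange _root_.Fermat.Agent.A2.T1.H669.Qb F₀) | IsAlgebraic E α} = ⊤ := by
  letI := algFEFbar E F₀
  rw [eq_top_iff]
  rintro ⟨z, hz⟩ -
  have key : ∃ w : ↥(laurentBaseChange _root_.Fermat.Agent.A2.T1.H669.Qb F₀),
      w ∈ IntermediateField.adjoin ↥(laurentBaseChange E F₀)
        {α : ↥(laurentBaseChange _root_.Fermat.Agent.A2.T1.H669.Qb F₀) | IsAlgebraic E α} ∧
      (w : LaurentSeries _root_.Fermat.Agent.A2.T1.H669.Qb) = z := by
    have hz2 := hz
    rw [mem_laurentBaseChange_iff] at hz2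
    induction hz2 using Subfield.closure_induction with
    | mem y hy =>
        rcases hy with ⟨a, rfl⟩ | ⟨z₀, hz₀, rfl⟩
        · exact ⟨algebraMap _root_.Fermat.Agent.A2.T1.H669.Qb ↥(laurentBaseChange _root_.Fermat.Agent.A2.T1.H669.Qb F₀) a,
            IntermediateField.subset_adjoin _ _ (isAlgebraic_const E F₀ a), rfl⟩
        · refine ⟨algebraMap ↥(laurentBaseChange E F₀) ↥(laurentBaseChange _root_.Fermat.Agent.A2.T1.H669.Qb F₀)
                ⟨coeffEmb E z₀, coeffEmb_mem_laurentBaseChange E hz₀⟩,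
            IntermediateField.algebraMap_mem _ _, ?_⟩
          exact Fermat.Agent.S18.H602.coeffMap_coeffEmb' (algebraMap E _root_.Fermat.Agent.A2.T1.H669.Qb) z₀
    | one => exact ⟨1, one_mem _, rfl⟩
    | add x y hx' hy' hx hy =>
        obtain ⟨w₁, hw₁, rfl⟩ := hx ((mem_laurentBaseChange_iff).2 hx')
        obtain ⟨w₂, hw₂, rfl⟩ := hy ((mem_laurentBaseChange_iff).2 hy')
        exact ⟨w₁ + w₂, add_mem hw₁ hw₂, rfl⟩
    | neg x hx' hx =>
        obtain ⟨w₁, hw₁, rfl⟩ := hx ((mem_laurentBaseChange_iff).2 hx')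
        exact ⟨-w₁, neg_mem hw₁, rfl⟩
    | inv x hx' hx =>
        obtain ⟨w₁, hw₁, rfl⟩ := hx ((mem_laurentBaseChange_iff).2 hx')
        exact ⟨w₁⁻¹, inv_mem hw₁, IntermediateField.coe_inv _ _⟩
    | mul x y hx' hy' hx hy =>
        obtain ⟨w₁, hw₁, rfl⟩ := hx ((mem_laurentBaseChange_iff).2 hx')
        obtain ⟨w₂, hw₂, rfl⟩ := hy ((mem_laurentBaseChange_iff).2 hy')
        exact ⟨w₁ * w₂, mul_mem hw₁ hw₂, rfl⟩
  obtain ⟨w, hw, hwz⟩ := key
  have hwz' : w = ⟨z, hz⟩ := Subtype.ext hwz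
  rw [← hwz']
  exact hw

/-- **T2.**  `m ∣ div (iota y)` on `F̄ / ℚ̄` implies `Spec.DivisibleDiv E m y` (unfolded). -/
theorem divisibleDiv_of_ord (m : ℕ) (y : ↥(laurentBaseChange E F₀)) (hy : y ≠ 0)
    (hdiv : ∀ v : Place _root_.Fermat.Agent.A2.T1.H669.Qb ↥(laurentBaseChange _root_.Fermat.Agent.A2.T1.H669.Qb F₀), (m : ℤ) ∣ v.ord (iota E F₀ y)) :
    ∀ V : ValuationSubring ↥(laurentBaseChange E F₀), IsDiscreteValuationRing V →
      (∀ e : E, algebraMap E ↥(laurentBaseChange E F₀) e ∈ V) →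
      ∃ h u : ↥(laurentBaseChange E F₀), h ≠ 0 ∧ u ∈ V ∧ u⁻¹ ∈ V ∧ y = u * h ^ m := by
  intro V hV hEV
  letI := algFEFbar E F₀
  haveI := towerEFEFbar E F₀
  obtain ⟨B, hcomap, hBdvr, hBalg, hBunif, -⟩ :=
    Fermat.Agent.S18.H845.exists_dvr_extension (E := E) (K := ↥(laurentBaseChange E F₀))
      (L := ↥(laurentBaseChange _root_.Fermat.Agent.A2.T1.H669.Qb F₀)) V hEV (adjoin_algebraic_eq_top E F₀)
  obtain ⟨π, hπ⟩ := IsDiscreteValuationRing.exists_irreducible V
  obtain ⟨hπB, hπirr⟩ := hBunif π hπ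
  have hmemV : ∀ x : ↥(laurentBaseChange E F₀), x ∈ V ↔ iota E F₀ x ∈ B := by
    intro x
    rw [← hcomap]
    exact Iff.rfl
  have hπ0 : (π : ↥(laurentBaseChange E F₀)) ≠ 0 := fun h => hπ.ne_zero (Subtype.ext h)
  -- `B` is a place of `F̄ / ℚ̄`
  have hne : B ≠ ⊤ := by
    intro htop
    apply hπirr.not_isUnit
    have hinv : (iota E F₀ (π : ↥(laurentBaseChange E F₀)))⁻¹ ∈ B := by
      rw [htop]; exact ValuationSubring.mem_top _
    refine IsUnit.of_mul_eq_one (⟨_, hinv⟩ : B) (Subtype.ext ?_)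
    exact mul_inv_cancel₀ (iota_ne_zero E F₀ hπ0)
  let v : Place _root_.Fermat.Agent.A2.T1.H669.Qb ↥(laurentBaseChange _root_.Fermat.Agent.A2.T1.H669.Qb F₀) :=
    { toValuationSubring := B
      algebraMap_mem' := fun a => hBalg _ (isAlgebraic_const E F₀ a)
      ne_top' := hne
      isPrincipalIdealRing' := inferInstance }
  obtain ⟨k, hk⟩ := hdiv v
  obtain ⟨u, hu⟩ := v.exists_unit_mul_zpow (iota_ne_zero E F₀ hy)
    (π := (⟨iota E F₀ (π : ↥(laurentBaseChange E F₀)), hπB⟩ : B)) hπirr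
  rw [hk] at hu
  have hu' : iota E F₀ y =
      ((u : B) : ↥(laurentBaseChange _root_.Fermat.Agent.A2.T1.H669.Qb F₀)) *
        (iota E F₀ (π : ↥(laurentBaseChange E F₀))) ^ ((m : ℤ) * k) := hu
  -- the unit over `E`
  set uK : ↥(laurentBaseChange E F₀) :=
    y * ((π : ↥(laurentBaseChange E F₀)) ^ ((m : ℤ) * k))⁻¹ with huK
  have hιuK : iota E F₀ uK = ((u : B) : ↥(laurentBaseChange _root_.Fermat.Agent.A2.T1.H669.Qb F₀)) := by
    rw [huK, map_mul, map_inv₀, map_zpow₀, hu', mul_assoc,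
      mul_inv_cancel₀ (zpow_ne_zero _ (iota_ne_zero E F₀ hπ0)), mul_one]
  refine ⟨(π : ↥(laurentBaseChange E F₀)) ^ k, uK, zpow_ne_zero _ hπ0, ?_, ?_, ?_⟩
  · rw [hmemV, hιuK]; exact (u : B).2
  · rw [hmemV, map_inv₀, hιuK]
    have h1 : ((u⁻¹ : Bˣ) : B) * (u : B) = 1 := by
      rw [← Units.val_mul, inv_mul_cancel, Units.val_one]
    have h2 : (((u⁻¹ : Bˣ) : B) : ↥(laurentBaseChange _root_.Fermat.Agent.A2.T1.H669.Qb F₀)) *
        ((u : B) : ↥(laurentBaseChange _root_.Fermat.Agent.A2.T1.H669.Qb F₀)) = 1 := congrArg Subtype.val h1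
    have h3 : (((u : B) : ↥(laurentBaseChange _root_.Fermat.Agent.A2.T1.H669.Qb F₀)))⁻¹ =
        (((u⁻¹ : Bˣ) : B) : ↥(laurentBaseChange _root_.Fermat.Agent.A2.T1.H669.Qb F₀)) :=
      (eq_inv_of_mul_eq_one_left h2).symm
    rw [h3]; exact ((u⁻¹ : Bˣ) : B).2
  · rw [huK, ← zpow_natCast ((π : ↥(laurentBaseChange E F₀)) ^ k) m, ← zpow_mul,
      mul_comm k (m : ℤ), mul_assoc,
      inv_mul_cancel₀ (zpow_ne_zero _ hπ0), mul_one]

end Fermat.Agent.A2.T1.H669

end
end
-- ===== PACK-END A2/T1/H669/T2.lean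

-- ===== PACK-BEGIN A2/H609/Chain.lean
section


/-!
# Node purity, part 4: `ℓ(R/((u)+(π))) = m • ℓ(R/(I_1+(π)))`

Mathlib only.  See `Multiplicity.lean` for the setting.
-/

set_option autoImplicit false

namespace Fermat.Agent.A2.H609

open Ideal

variable {R : Type*} [CommRing R] [IsDomain R] [IsIntegrallyClosed R]

section Generator

variable {u π t r : R} {m : ℕ} {hm : m ≠ 0}

/-- (d) `t ^ j * g ∈ I_{j+1} → g ∈ I_1` when `t ^ m = u * r` and `r` is regular modulo `u`. -/
theorem mem_rootIdeal_one_of_pow_mul_mem (hu0 : u ≠ 0) (hπ0 : π ≠ 0)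
    (hreg : ∀ x : R, π ∣ u * x → π ∣ x) (ht : t ^ m = u * r)
    {k : ℕ} (hk : π ^ k ∈ Ideal.span {u, r}) {j : ℕ} {g : R}
    (h : t ^ j * g ∈ rootIdeal u m hm (j + 1)) : g ∈ rootIdeal u m hm 1 := by
  rw [mem_rootIdeal] at h ⊢
  rw [pow_one]
  have h1 : (t ^ j * g) ^ m = u ^ j * (r ^ j * g ^ m) := by
    rw [mul_pow, ← pow_mul, _root_.mul_comm j m, pow_mul, ht, mul_pow]; ring
  rw [h1, pow_succ] at h
  have h2 : u ∣ r ^ j * g ^ m := (mul_dvd_mul_iff_left (pow_ne_zero j hu0)).mp h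
  exact dvd_of_dvd_pow_mul_of_pow_mem hπ0 hreg hk j h2

/-- (e') `r ^ j * I_j ⊆ (t ^ j)`. -/
theorem pow_dvd_pow_mul_of_mem_rootIdeal (ht : t ^ m = u * r) {j : ℕ} {g : R}
    (hg : g ∈ rootIdeal u m hm j) : t ^ j ∣ r ^ j * g := by
  rw [mem_rootIdeal] at hg
  obtain ⟨x, hx⟩ := hg
  apply dvd_of_pow_dvd_pow hm
  have h1 : (t ^ j) ^ m = u ^ j * r ^ j := by
    rw [← pow_mul, _root_.mul_comm j m, pow_mul, ht, mul_pow]
  have h2 : (r ^ j * g) ^ m = (u ^ j * r ^ j) * ((r ^ j) ^ (m - 1) * x) := by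
    rw [mul_pow, hx]
    have : (r ^ j) ^ m = r ^ j * (r ^ j) ^ (m - 1) := by
      rw [← pow_succ', Nat.sub_add_cancel (Nat.one_le_iff_ne_zero.mpr hm)]
    rw [this]; ring
  rw [h1, h2]
  exact Dvd.intro _ rfl

theorem pow_mem_rootIdeal_of_pow_eq (ht : t ^ m = u * r) (j : ℕ) :
    t ^ j ∈ rootIdeal u m hm j := by
  apply pow_mem_rootIdeal
  rw [mem_rootIdeal, pow_one, ht]
  exact Dvd.intro _ rfl

end Generator

section Chain

variable [IsNoetherianRing R]
variable {u π t r : R} {m : ℕ} {hm : m ≠ 0}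

/-- (e) finiteness of `ℓ(I_j / ((t^j) + I_{j+1}))`. -/
theorem relLen_span_sup_rootIdeal_ne_top
    (ht : t ^ m = u * r) {k : ℕ} (hk : π ^ k ∈ Ideal.span {u, r})
    (hfin : relLen (Ideal.span {u, π}) (⊤ : Ideal R) ≠ ⊤) (j : ℕ) :
    relLen (Ideal.span {t ^ j} ⊔ rootIdeal u m hm (j + 1)) (rootIdeal u m hm j) ≠ ⊤ := by
  set A := rootIdeal u m hm j with hA
  set A' := Ideal.span {t ^ j} ⊔ rootIdeal u m hm (j + 1) with hA'
  set 𝔞 : Ideal R := Ideal.span {u, r ^ j} with h𝔞
  have hA'A : A' ≤ A := by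
    refine sup_le ?_ (rootIdeal_antitone u m hm (Nat.le_succ j))
    rw [Ideal.span_le, Set.singleton_subset_iff]
    exact pow_mem_rootIdeal_of_pow_eq ht j
  have h𝔞A : 𝔞 * A ≤ A' := by
    rw [Ideal.mul_le]
    intro a ha g hg
    obtain ⟨c, d, rfl⟩ := Ideal.mem_span_pair.mp ha
    rw [add_mul]
    refine Ideal.add_mem _ ?_ ?_
    · refine Submodule.mem_sup_right ?_
      have : c * u * g = c * (u * g) := by ring
      rw [this]
      exact Ideal.mul_mem_left _ _ (self_mul_mem_rootIdeal_succ hg)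
    · refine Submodule.mem_sup_left ?_
      have : d * r ^ j * g = d * (r ^ j * g) := by ring
      rw [this]
      exact Ideal.mul_mem_left _ _
        (Ideal.mem_span_singleton.mpr (pow_dvd_pow_mul_of_mem_rootIdeal ht hg))
  have h𝔟 : Ideal.span {u, π ^ (k * j)} ≤ 𝔞 := by
    rw [Ideal.span_le]
    intro x hx
    rcases hx with rfl | rfl
    · exact Ideal.subset_span (by simp)
    · exact pow_mul_mem_span_pair hk j
  have h𝔞fin : relLen 𝔞 (⊤ : Ideal R) ≠ ⊤ :=
    ne_top_of_le_ne_top (relLen_span_pair_pow_ne_top u π hfin (k * j))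
      (relLen_mono_left h𝔟 le_top)
  exact ne_top_of_le_ne_top
    (relLen_mul_ne_top 𝔞 h𝔞fin A (IsNoetherian.noetherian A))
    (relLen_mono_left h𝔞A hA'A)

omit [IsNoetherianRing R] in
/-- Step Z: `ℓ((I_j + (π)) / (I_{j+1} + (π))) = ℓ(I_j / (I_{j+1} + π I_j))`. -/
theorem relLen_stepZ (hπ0 : π ≠ 0) (hreg : ∀ x : R, π ∣ u * x → π ∣ x) (j : ℕ) :
    relLen (rootIdeal u m hm (j + 1) ⊔ Ideal.span {π} * rootIdeal u m hm j)
        (rootIdeal u m hm j) =
      relLen (rootIdeal u m hm (j + 1) ⊔ Ideal.span {π})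
        (rootIdeal u m hm j ⊔ Ideal.span {π}) := by
  refine relLen_eq_of_map (LinearMap.id : R →ₗ[R] R) ?_ ?_ ?_ ?_
  · intro x hx
    exact Submodule.mem_sup_left hx
  · intro x hx
    obtain ⟨a, ha, b, hb, rfl⟩ := Submodule.mem_sup.mp hx
    refine Ideal.add_mem _ (Submodule.mem_sup_left ha) (Submodule.mem_sup_right ?_)
    exact Ideal.mul_le_left hb
  · intro x hx hx'
    rw [LinearMap.id_apply] at hx'
    obtain ⟨a, ha, b, hb, hab⟩ := Submodule.mem_sup.mp hx'
    obtain ⟨c, rfl⟩ := Ideal.mem_span_singleton'.mp hb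
    have hc : c ∈ rootIdeal u m hm j := by
      apply mem_rootIdeal_of_mul_mem hπ0 hreg
      have : π * c = x - a := by rw [← hab]; ring
      rw [this]
      exact Ideal.sub_mem _ hx (rootIdeal_antitone u m hm (Nat.le_succ j) ha)
    rw [← hab]
    refine Ideal.add_mem _ (Submodule.mem_sup_left ha) (Submodule.mem_sup_right ?_)
    rw [_root_.mul_comm c π]
    exact Ideal.mul_mem_mul (Ideal.mem_span_singleton_self π) hc
  · intro y hy
    obtain ⟨a, ha, b, hb, rfl⟩ := Submodule.mem_sup.mp hy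
    refine ⟨a, ha, ?_⟩
    rw [LinearMap.id_apply, add_sub_cancel_left]
    exact Submodule.mem_sup_right hb

/-- Step Y: replace `I_j` by its finite-colength submodule `(t^j) + I_{j+1}`. -/
theorem relLen_stepY (hπ0 : π ≠ 0) (hreg : ∀ x : R, π ∣ u * x → π ∣ x)
    (ht : t ^ m = u * r) {k : ℕ} (hk : π ^ k ∈ Ideal.span {u, r})
    (hfin : relLen (Ideal.span {u, π}) (⊤ : Ideal R) ≠ ⊤) (j : ℕ) :
    relLen (rootIdeal u m hm (j + 1) ⊔ Ideal.span {π} * rootIdeal u m hm j)
        (rootIdeal u m hm j) =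
      relLen (rootIdeal u m hm (j + 1) ⊔
          Ideal.span {π} * (Ideal.span {t ^ j} ⊔ rootIdeal u m hm (j + 1)))
        (Ideal.span {t ^ j} ⊔ rootIdeal u m hm (j + 1)) := by
  set A := rootIdeal u m hm j with hA
  set J := rootIdeal u m hm (j + 1) with hJ
  set A' := Ideal.span {t ^ j} ⊔ J with hA'
  set B := J ⊔ Ideal.span {π} * A with hB
  set B' := J ⊔ Ideal.span {π} * A' with hB'
  have hJA : J ≤ A := rootIdeal_antitone u m hm (Nat.le_succ j)
  have hA'A : A' ≤ A := by
    refine sup_le ?_ hJA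
    rw [Ideal.span_le, Set.singleton_subset_iff]
    exact pow_mem_rootIdeal_of_pow_eq ht j
  have hB'A' : B' ≤ A' := sup_le le_sup_right Ideal.mul_le_right
  have hB'B : B' ≤ B := sup_le_sup_left (Ideal.mul_mono_right hA'A) _
  have hBA : B ≤ A := sup_le hJA Ideal.mul_le_right
  have hfinA : relLen A' A ≠ ⊤ := relLen_span_sup_rootIdeal_ne_top ht hk hfin j
  -- `A / A' ≃ B / B'` via multiplication by `π`
  have hiso : relLen A' A = relLen B' B := by
    refine relLen_eq_of_map (LinearMap.mulLeft R π) ?_ ?_ ?_ ?_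
    · intro x hx
      rw [LinearMap.mulLeft_apply]
      exact Submodule.mem_sup_right (Ideal.mul_mem_mul (Ideal.mem_span_singleton_self π) hx)
    · intro x hx
      rw [LinearMap.mulLeft_apply]
      exact Submodule.mem_sup_right (Ideal.mul_mem_mul (Ideal.mem_span_singleton_self π) hx)
    · intro x hx hx'
      rw [LinearMap.mulLeft_apply] at hx'
      obtain ⟨a, ha, b, hb, hab⟩ := Submodule.mem_sup.mp hx'
      obtain ⟨c, hc, rfl⟩ := Ideal.mem_span_singleton_mul.mp hb
      -- `π * (x - c) = a ∈ J`, so `x - c ∈ J`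
      have h1 : x - c ∈ J := by
        apply mem_rootIdeal_of_mul_mem hπ0 hreg
        have : π * (x - c) = a := by rw [mul_sub, ← hab]; ring
        rw [this]
        exact ha
      have : x = (x - c) + c := by ring
      rw [this]
      exact Ideal.add_mem _ (Submodule.mem_sup_right h1) hc
    · intro y hy
      obtain ⟨a, ha, b, hb, rfl⟩ := Submodule.mem_sup.mp hy
      obtain ⟨c, hc, rfl⟩ := Ideal.mem_span_singleton_mul.mp hb
      refine ⟨c, hc, ?_⟩
      rw [LinearMap.mulLeft_apply, add_sub_cancel_right]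
      exact Submodule.mem_sup_left ha
  have e1 : relLen B' A = relLen B' A' + relLen A' A := relLen_add hB'A' hA'A
  have e2 : relLen B' A = relLen B' B + relLen B A := relLen_add hB'B hBA
  rw [e1, ← hiso, add_comm (relLen A' A)] at e2
  exact (ENat.add_left_injective_of_ne_top hfinA e2).symm

omit [IsNoetherianRing R] in
/-- Step X: `ℓ(((t^j) + I_{j+1}) / (I_{j+1} + π ((t^j) + I_{j+1}))) = ℓ(R / (I_1 + (π)))`. -/
theorem relLen_stepX (hu0 : u ≠ 0) (hπ0 : π ≠ 0) (hreg : ∀ x : R, π ∣ u * x → π ∣ x)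
    (ht : t ^ m = u * r) {k : ℕ} (hk : π ^ k ∈ Ideal.span {u, r}) (j : ℕ) :
    relLen (rootIdeal u m hm 1 ⊔ Ideal.span {π}) (⊤ : Ideal R) =
      relLen (rootIdeal u m hm (j + 1) ⊔
          Ideal.span {π} * (Ideal.span {t ^ j} ⊔ rootIdeal u m hm (j + 1)))
        (Ideal.span {t ^ j} ⊔ rootIdeal u m hm (j + 1)) := by
  set J := rootIdeal u m hm (j + 1) with hJ
  refine relLen_eq_of_map (LinearMap.mulLeft R (t ^ j)) ?_ ?_ ?_ ?_
  · intro x _
    rw [LinearMap.mulLeft_apply]
    exact Submodule.mem_sup_left (Ideal.mul_mem_right _ _ (Ideal.mem_span_singleton_self _))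
  · intro x hx
    rw [LinearMap.mulLeft_apply]
    obtain ⟨a, ha, b, hb, rfl⟩ := Submodule.mem_sup.mp hx
    obtain ⟨c, rfl⟩ := Ideal.mem_span_singleton'.mp hb
    rw [mul_add]
    refine Ideal.add_mem _ (Submodule.mem_sup_left ?_) (Submodule.mem_sup_right ?_)
    · have := mul_mem_rootIdeal (pow_mem_rootIdeal_of_pow_eq (hm := hm) ht j) ha
      exact this
    · have : t ^ j * (c * π) = π * (c * t ^ j) := by ring
      rw [this]
      refine Ideal.mul_mem_mul (Ideal.mem_span_singleton_self π) (Submodule.mem_sup_left ?_)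
      exact Ideal.mul_mem_left _ _ (Ideal.mem_span_singleton_self _)
  · intro x _ hx'
    rw [LinearMap.mulLeft_apply] at hx'
    obtain ⟨a, ha, b, hb, hab⟩ := Submodule.mem_sup.mp hx'
    obtain ⟨c, hc, rfl⟩ := Ideal.mem_span_singleton_mul.mp hb
    obtain ⟨d, hd, e, he, rfl⟩ := Submodule.mem_sup.mp hc
    obtain ⟨y, rfl⟩ := Ideal.mem_span_singleton'.mp hd
    -- `t^j (x - π y) = a + π e ∈ J`
    have h1 : t ^ j * (x - π * y) ∈ J := by
      have : t ^ j * (x - π * y) = a + π * e := by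
        have h2 : t ^ j * x = a + π * (y * t ^ j + e) := hab.symm
        rw [mul_sub, h2]; ring
      rw [this]
      exact Ideal.add_mem _ ha (Ideal.mul_mem_left _ _ he)
    have h2 : x - π * y ∈ rootIdeal u m hm 1 :=
      mem_rootIdeal_one_of_pow_mul_mem hu0 hπ0 hreg ht hk h1
    have : x = (x - π * y) + y * π := by ring
    rw [this]
    exact Ideal.add_mem _ (Submodule.mem_sup_left h2)
      (Submodule.mem_sup_right (Ideal.mul_mem_left _ _ (Ideal.mem_span_singleton_self π)))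
  · intro y hy
    obtain ⟨a, ha, b, hb, rfl⟩ := Submodule.mem_sup.mp hy
    obtain ⟨c, rfl⟩ := Ideal.mem_span_singleton'.mp ha
    refine ⟨c, trivial, ?_⟩
    rw [LinearMap.mulLeft_apply]
    have : c * t ^ j + b - t ^ j * c = b := by ring
    rw [this]
    exact Submodule.mem_sup_left hb

/-- The colength function `c(j) = ℓ(R / (I_j + (π)))` is additive: `c(j+1) = c(j) + c(1)`. -/
theorem relLen_succ (hu0 : u ≠ 0) (hπ0 : π ≠ 0) (hreg : ∀ x : R, π ∣ u * x → π ∣ x)
    (ht : t ^ m = u * r) {k : ℕ} (hk : π ^ k ∈ Ideal.span {u, r})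
    (hfin : relLen (Ideal.span {u, π}) (⊤ : Ideal R) ≠ ⊤) (j : ℕ) :
    relLen (rootIdeal u m hm (j + 1) ⊔ Ideal.span {π}) (⊤ : Ideal R) =
      relLen (rootIdeal u m hm j ⊔ Ideal.span {π}) (⊤ : Ideal R) +
        relLen (rootIdeal u m hm 1 ⊔ Ideal.span {π}) (⊤ : Ideal R) := by
  have hAB : rootIdeal u m hm (j + 1) ⊔ Ideal.span {π} ≤ rootIdeal u m hm j ⊔ Ideal.span {π} :=
    sup_le_sup_right (rootIdeal_antitone u m hm (Nat.le_succ j)) _
  rw [relLen_add hAB le_top, ← relLen_stepZ hπ0 hreg j, relLen_stepY hπ0 hreg ht hk hfin j,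
    ← relLen_stepX hu0 hπ0 hreg ht hk j, add_comm]

/-- **Multiplicity identity**: `ℓ(R/((u)+(π))) = m • ℓ(R/(I_1+(π)))`. -/
theorem relLen_span_pair_eq_nsmul (hu0 : u ≠ 0) (hπ0 : π ≠ 0)
    (hreg : ∀ x : R, π ∣ u * x → π ∣ x)
    (ht : t ^ m = u * r) {k : ℕ} (hk : π ^ k ∈ Ideal.span {u, r})
    (hfin : relLen (Ideal.span {u, π}) (⊤ : Ideal R) ≠ ⊤) :
    relLen (Ideal.span {u, π}) (⊤ : Ideal R) =
      m • relLen (rootIdeal u m hm 1 ⊔ Ideal.span {π}) (⊤ : Ideal R) := by
  have key : ∀ j : ℕ, relLen (rootIdeal u m hm j ⊔ Ideal.span {π}) (⊤ : Ideal R) =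
      j • relLen (rootIdeal u m hm 1 ⊔ Ideal.span {π}) (⊤ : Ideal R) := by
    intro j
    induction j with
    | zero =>
      rw [rootIdeal_zero, top_sup_eq, relLen_self, zero_smul]
    | succ j ih =>
      rw [relLen_succ hu0 hπ0 hreg ht hk hfin j, ih, succ_nsmul]
  have h := key m
  rw [rootIdeal_self] at h
  have hspan : Ideal.span {u} ⊔ Ideal.span {π} = Ideal.span {u, π} := by
    rw [← Ideal.span_union]
    rfl
  rw [hspan] at h
  exact h

end Chain

end Fermat.Agent.A2.H609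

end
-- ===== PACK-END A2/H609/Chain.lean

-- ===== PACK-BEGIN Ribet/H552/ASConst.lean
section





/-!
# RIBET wall-p, leaf W-ALGP / GLUE-p (helper552): a wild cyclic cover `K(u^{1/p})`,
`u ≡ 1 mod λ ^ p w`, has no new constants over a Henselian base

`R` a Henselian discrete valuation ring with algebraically closed residue field, uniformiser `w`,
`E = Frac R` of characteristic zero, `ζ ∈ R` a primitive `p`-th root of unity, `λ = ζ - 1`
(in the application the residue characteristic is `p`, so `λ` is NOT a unit).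

* `as_no_new_constants` : `K ⊇ R` a field with a valuation subring `V ⊇ R` with uniformiser
  `w` (in the application: the valuation ring of a component of the special fibre),
  `Ω = K[z]`, `z ^ p = 1 + λ ^ p w t`, `t ∈ V`.  Then `E` is algebraically closed in `Ω`.
* `as_isIntegral_mem_range` : hence `R` is integrally closed in `Ω`.
* `hconstP_of_henselian` : constants do not grow in the residue fields of the algebra
  `F[X]/(X ^ p - u)`, `u = 1 + λ ^ p w t` — the wild form of `A2.H552.hconst_of_henselian`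
  (hypothesis `hconst` of the route-S glue theorem).
-/

set_option autoImplicit false

namespace Fermat.Agent.Ribet.H552

open Polynomial IsLocalRing
open Fermat.Agent.A2.H552 (mem_range_of_isAlgebraic_of_valuationSubring)

section Cover

variable {R E K Ω : Type*} [CommRing R] [IsDomain R] [IsDiscreteValuationRing R]
  [HenselianLocalRing R] [IsAlgClosed (ResidueField R)]
  [Field E] [CharZero E] [Algebra R E] [IsFractionRing R E]
  [Field K] [Algebra R K] [Field Ω] [Algebra K Ω] [Algebra E Ω] [Algebra R Ω]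
  [IsScalarTower R E Ω] [IsScalarTower R K Ω]

/-- **COVER-CONST, wild form.**  A cover `Ω = K[z]`, `z ^ p = 1 + (ζ - 1) ^ p w t`, of a field
`K` carrying an unramified discrete valuation ring `V ⊇ R` has no new constants: `E = Frac R` is
algebraically closed in `Ω`. -/
theorem as_no_new_constants (w : R) (hw : Irreducible w) (V : ValuationSubring K)
    (hRV : ∀ r : R, algebraMap R K r ∈ V)
    (hwV : (algebraMap R K w)⁻¹ ∉ V)
    (hVgen : ∀ a ∈ V, a⁻¹ ∉ V → a * (algebraMap R K w)⁻¹ ∈ V)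
    (hdisc : ∀ c : K, ∃ k : ℕ, algebraMap R K w ^ k * c ∈ V)
    (p : ℕ) (hp : p.Prime) (ζ : R) (hζ : IsPrimitiveRoot ζ p)
    (t : K) (ht : t ∈ V) (z : Ω)
    (hz : z ^ p = algebraMap K Ω (1 + algebraMap R K ((ζ - 1) ^ p * w) * t))
    (hgen : ∀ b : Ω, b ∈ Algebra.adjoin K ({z} : Set Ω))
    (y : Ω) (hy : IsAlgebraic E y) : y ∈ (algebraMap E Ω).range := by
  have hinjRE : Function.Injective (algebraMap R E) := IsFractionRing.injective R E
  have hinjRΩ : Function.Injective (algebraMap R Ω) := by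
    rw [IsScalarTower.algebraMap_eq R E Ω]
    exact (algebraMap E Ω).injective.comp hinjRE
  have hinjRK : Function.Injective (algebraMap R K) := by
    intro a b h
    apply hinjRΩ
    rw [IsScalarTower.algebraMap_apply R K Ω, IsScalarTower.algebraMap_apply R K Ω, h]
  have hwK0 : algebraMap R K w ≠ 0 := fun h => hw.ne_zero (hinjRK (by rw [h, _root_.map_zero]))
  have hζK : IsPrimitiveRoot (algebraMap R K ζ) p := hζ.map_of_injective hinjRK
  -- a valuation subring of `Ω` dominating `V`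
  obtain ⟨W, hle, hloc⟩ := (LocalSubring.range
    ((algebraMap K Ω).comp V.subtype)).exists_le_valuationSubring
  have hVW : ∀ a ∈ V, algebraMap K Ω a ∈ W := fun a ha =>
    hle ⟨⟨a, ha⟩, rfl⟩
  have hwW : (algebraMap K Ω (algebraMap R K w))⁻¹ ∉ W := by
    intro hmem
    set f := (algebraMap K Ω).comp V.subtype with hf
    have hwr : algebraMap K Ω (algebraMap R K w) ∈ (LocalSubring.range f).toSubring :=
      ⟨⟨algebraMap R K w, hRV w⟩, rfl⟩
    have hu : IsUnit (Subring.inclusion hle ⟨_, hwr⟩) := by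
      refine IsUnit.of_mul_eq_one ⟨(algebraMap K Ω (algebraMap R K w))⁻¹, hmem⟩
        (Subtype.ext ?_)
      change algebraMap K Ω (algebraMap R K w) * (algebraMap K Ω (algebraMap R K w))⁻¹ = 1
      exact mul_inv_cancel₀ (fun h => hwK0 ((algebraMap K Ω).injective (by rw [h, _root_.map_zero])))
    have hu' := hloc.map_nonunit _ hu
    obtain ⟨c, hc⟩ := hu'.exists_right_inv
    obtain ⟨⟨b, hb⟩, hbc⟩ := c.2
    have h1 : algebraMap K Ω (algebraMap R K w) * algebraMap K Ω b = 1 := by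
      have := congrArg Subtype.val hc
      simp only [Subring.coe_mul, Subring.coe_one] at this
      rw [← this, ← hbc]
      rfl
    have h2 : algebraMap R K w * b = 1 := by
      apply (algebraMap K Ω).injective
      rw [_root_.map_mul, h1, _root_.map_one]
    apply hwV
    rw [inv_eq_of_mul_eq_one_right h2]
    exact hb
  have hz' : z ^ p = algebraMap K Ω (1 + (algebraMap R K ζ - 1) ^ p * algebraMap R K w * t) := by
    rw [hz, _root_.map_mul, _root_.map_pow, _root_.map_sub, _root_.map_one]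
  have hunr := (as_unramified V W hVW (algebraMap R K w) (hRV w) hwK0 hwW hVgen hdisc p hp
    (algebraMap R K ζ) hζK t ht z hz' hgen).1
  have hRW : ∀ r : R, algebraMap R Ω r ∈ W := fun r => by
    rw [IsScalarTower.algebraMap_apply R K Ω]
    exact hVW _ (hRV r)
  rw [← IsScalarTower.algebraMap_apply R K Ω] at hwW hunr
  exact mem_range_of_isAlgebraic_of_valuationSubring w hw W hRW hwW hunr y hy

variable (E) in
include E in
/-- **COVER-CONST, wild integral form**: `R` is integrally closed in the cover `Ω`. -/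
theorem as_isIntegral_mem_range (w : R) (hw : Irreducible w) (V : ValuationSubring K)
    (hRV : ∀ r : R, algebraMap R K r ∈ V)
    (hwV : (algebraMap R K w)⁻¹ ∉ V)
    (hVgen : ∀ a ∈ V, a⁻¹ ∉ V → a * (algebraMap R K w)⁻¹ ∈ V)
    (hdisc : ∀ c : K, ∃ k : ℕ, algebraMap R K w ^ k * c ∈ V)
    (p : ℕ) (hp : p.Prime) (ζ : R) (hζ : IsPrimitiveRoot ζ p)
    (t : K) (ht : t ∈ V) (z : Ω)
    (hz : z ^ p = algebraMap K Ω (1 + algebraMap R K ((ζ - 1) ^ p * w) * t))
    (hgen : ∀ b : Ω, b ∈ Algebra.adjoin K ({z} : Set Ω))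
    (y : Ω) (hy : IsIntegral R y) : y ∈ Set.range (algebraMap R Ω) := by
  have hyalg : IsAlgebraic E y :=
    (IsFractionRing.isAlgebraic_iff R E Ω).mp hy.isAlgebraic
  obtain ⟨e, rfl⟩ := as_no_new_constants (E := E) w hw V hRV hwV hVgen hdisc p hp ζ hζ t ht z hz
    hgen y hyalg
  have he : IsIntegral R e :=
    (isIntegral_algebraMap_iff (algebraMap E Ω).injective).mp hy
  obtain ⟨r, rfl⟩ := (IsIntegrallyClosed.isIntegral_iff (R := R) (K := E)).mp he
  exact ⟨r, IsScalarTower.algebraMap_apply R E Ω r⟩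

end Cover

section HConst

variable {R E F : Type*} [CommRing R] [IsDomain R] [IsDiscreteValuationRing R]
  [HenselianLocalRing R] [IsAlgClosed (ResidueField R)]
  [Field E] [CharZero E] [Algebra R E] [IsFractionRing R E]
  [Field F] [Algebra R F] [Algebra E F] [IsScalarTower R E F]

variable (E) in
include E in
/-- **`hconst` over a Henselian base, wild form.** -/
theorem hconstP_of_henselian (w : R) (hw : Irreducible w) (V : ValuationSubring F)
    (hRV : ∀ r : R, algebraMap R F r ∈ V)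
    (hwV : (algebraMap R F w)⁻¹ ∉ V)
    (hVgen : ∀ a ∈ V, a⁻¹ ∉ V → a * (algebraMap R F w)⁻¹ ∈ V)
    (hdisc : ∀ c : F, ∃ k : ℕ, algebraMap R F w ^ k * c ∈ V)
    (p : ℕ) (hp : p.Prime) (ζ : R) (hζ : IsPrimitiveRoot ζ p)
    (t : F) (ht : t ∈ V) (u : F) (hu : u = 1 + algebraMap R F ((ζ - 1) ^ p * w) * t) :
    ∀ 𝔫 : Ideal (AdjoinRoot (X ^ p - C u)), 𝔫.IsMaximal →
      ∀ y : AdjoinRoot (X ^ p - C u) ⧸ 𝔫, IsIntegral R y →
        y ∈ Set.range (algebraMap R (AdjoinRoot (X ^ p - C u) ⧸ 𝔫)) := by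
  intro 𝔫 h𝔫 y hy
  let _ : Field (AdjoinRoot (X ^ p - C u) ⧸ 𝔫) := Ideal.Quotient.field 𝔫
  have : IsScalarTower R E (AdjoinRoot (X ^ p - C u) ⧸ 𝔫) :=
    IsScalarTower.of_algebraMap_eq fun r => by
      change Ideal.Quotient.mk 𝔫 (AdjoinRoot.of _ (algebraMap R F r)) =
        Ideal.Quotient.mk 𝔫 (AdjoinRoot.of _ (algebraMap E F (algebraMap R E r)))
      rw [← IsScalarTower.algebraMap_apply R E F]
  have : IsScalarTower R F (AdjoinRoot (X ^ p - C u) ⧸ 𝔫) :=
    IsScalarTower.of_algebraMap_eq fun r => rfl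
  set z : AdjoinRoot (X ^ p - C u) ⧸ 𝔫 := Ideal.Quotient.mk 𝔫 (AdjoinRoot.root _) with hzdef
  have hz : z ^ p = algebraMap F (AdjoinRoot (X ^ p - C u) ⧸ 𝔫)
      (1 + algebraMap R F ((ζ - 1) ^ p * w) * t) := by
    rw [← hu]
    have h := AdjoinRoot.eval₂_root (X ^ p - C u : F[X])
    rw [eval₂_sub, eval₂_pow, eval₂_X, eval₂_C, sub_eq_zero] at h
    rw [hzdef, ← _root_.map_pow, h]
    rfl
  have hgen : ∀ b : AdjoinRoot (X ^ p - C u) ⧸ 𝔫,
      b ∈ Algebra.adjoin F ({z} : Set (AdjoinRoot (X ^ p - C u) ⧸ 𝔫)) := by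
    intro b
    obtain ⟨a, rfl⟩ := Ideal.Quotient.mk_surjective b
    have ha : a ∈ Algebra.adjoin F ({AdjoinRoot.root (X ^ p - C u)} : Set (AdjoinRoot _)) := by
      rw [AdjoinRoot.adjoinRoot_eq_top]
      exact Algebra.mem_top
    have := Algebra.adjoin_image F (Ideal.Quotient.mkₐ F 𝔫)
      ({AdjoinRoot.root (X ^ p - C u)} : Set (AdjoinRoot _))
    rw [Set.image_singleton] at this
    rw [hzdef]
    change Ideal.Quotient.mkₐ F 𝔫 a ∈ Algebra.adjoin F {Ideal.Quotient.mkₐ F 𝔫 (AdjoinRoot.root _)}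
    rw [this]
    exact ⟨a, ha, rfl⟩
  exact as_isIntegral_mem_range E w hw V hRV hwV hVgen hdisc p hp ζ hζ t ht z hz hgen y hy

end HConst

end Fermat.Agent.Ribet.H552

end
-- ===== PACK-END Ribet/H552/ASConst.lean

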