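import Mathlib
import Fermat.Prelude.Def_EllipticCurve_FrobeniusTrace
import Fermat.Prelude.Def_ModularCurve_X0ModL
import Mathlib.RingTheory.Ideal.KrullsHeightTheorem
import Mathlib.RingTheory.Ideal.MinimalPrime.Noetherian
import Mathlib.RingTheory.Ideal.BigOperators
import Fermat.Agent.Pack.S33.E0L0
import Fermat.Agent.Pack.S33.E9L1
import Fermat.Agent.Pack.S33.E8L3
import Fermat.Agent.Pack.S33.E8L1
import Fermat.Agent.Pack.S33.E9L2
import Fermat.Agent.Pack.S33.E9L0
import Fermat.Agent.Pack.S33.E6L0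
import Fermat.Agent.Pack.S33.E6L1

-- ===== PACK-BEGIN Lib/Cheb/H476/Bridge.lean
section





/-!
# CHEB piece F6 (bridge): `Spec.BridgeDivisionStatement` and `Spec.BridgeStatement`

From the finite-level statements (Galois number fields, primes of rings of integers, Mathlib's
`IsArithFrobAt`) to the Prelude-level statements (valuation subrings of `ℚ̄`, Prelude's
`IsFrobeniusAt`, `inertiaSubgroupIn`).
-/

set_option autoImplicit false
set_option linter.style.haveILetI false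

open NumberField
open scoped Pointwise

namespace Fermat.Agent.Lib.Cheb.H476

open Fermat.Agent.Lib.Cheb.Spec

/-- The normal closure of a finite extension of `ℚ` inside `ℚ̄` is a number field. -/
theorem numberField_normalClosure (E : IntermediateField ℚ Qb) [FiniteDimensional ℚ E] :
    NumberField (IntermediateField.normalClosure ℚ E Qb) :=
  { to_charZero := inferInstance
    to_finiteDimensional := inferInstance }

/-- The normal closure of a finite extension of `ℚ` inside `ℚ̄` is Galois over `ℚ`. -/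
theorem isGalois_normalClosure (E : IntermediateField ℚ Qb) [FiniteDimensional ℚ E] :
    IsGalois ℚ (IntermediateField.normalClosure ℚ E Qb) := by
  haveI : Algebra.IsAlgebraic ℚ Qb := AlgebraicClosure.isAlgebraic ℚ
  haveI : IsAlgClosure ℚ Qb := ⟨inferInstance, inferInstance⟩
  haveI : Normal ℚ Qb := IsAlgClosure.normal ℚ Qb
  have hn : Normal ℚ (IntermediateField.normalClosure ℚ E Qb) := normalClosure.normal ℚ E Qb
  exact isGalois_iff.mpr ⟨inferInstance, hn⟩

theorem restrictNormal_coe (L : IntermediateField ℚ Qb) [Normal ℚ L] (g : GQ) (x : L) :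
    ((AlgEquiv.restrictNormal g L x : L) : Qb) = g (x : Qb) :=
  AlgEquiv.restrictNormal_commutes g L x

theorem restrictNormal_pow (L : IntermediateField ℚ Qb) [Normal ℚ L] (g : GQ) (n : ℕ) :
    AlgEquiv.restrictNormal (g ^ n) L = (AlgEquiv.restrictNormal g L) ^ n :=
  map_pow (AlgEquiv.restrictNormalHom L) g n

/-- **F6 / W5, Tier 1**: the bridge from the finite-level Frobenius density theorem to the
Prelude-level division statement. -/
theorem bridgeDivision : BridgeDivisionStatement := by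
  intro hF E hE σ S
  haveI := hE
  haveI := numberField_normalClosure E
  haveI := isGalois_normalClosure E
  obtain ⟨p, P, τ, hp, hpS, hP, hpP, hI, hτ, hz⟩ :=
    hF (IntermediateField.normalClosure ℚ E Qb)
      (AlgEquiv.restrictNormal σ (IntermediateField.normalClosure ℚ E Qb)) S
  obtain ⟨A, φ, hAp, hφ, hin, hφτ⟩ :=
    exists_frobenius_restrict (IntermediateField.normalClosure ℚ E Qb) p hp P hP hpP hI τ hτ
  have h1 : τ ∈ Subgroup.zpowers
      (AlgEquiv.restrictNormal σ (IntermediateField.normalClosure ℚ E Qb)) :=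
    hz ▸ Subgroup.mem_zpowers τ
  have h2 : AlgEquiv.restrictNormal σ (IntermediateField.normalClosure ℚ E Qb) ∈
      Subgroup.zpowers τ := hz.symm ▸ Subgroup.mem_zpowers _
  obtain ⟨k, hk⟩ := (isOfFinOrder_of_finite
    (AlgEquiv.restrictNormal σ (IntermediateField.normalClosure ℚ E Qb))).mem_powers_iff_mem_zpowers.mpr h1
  obtain ⟨j, hj⟩ := (isOfFinOrder_of_finite τ).mem_powers_iff_mem_zpowers.mpr h2
  replace hk : AlgEquiv.restrictNormal σ (IntermediateField.normalClosure ℚ E Qb) ^ k = τ := hk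
  replace hj : τ ^ j = AlgEquiv.restrictNormal σ (IntermediateField.normalClosure ℚ E Qb) := hj
  have hEL : E ≤ IntermediateField.normalClosure ℚ E Qb := IntermediateField.le_normalClosure E
  refine ⟨p, A, φ, k, j, hp, hpS, hAp, hφ, ?_, ?_, ?_⟩
  · intro ι hι x hx
    exact hin ι hι ⟨x, hEL hx⟩
  · intro x hx
    have h3 := hφτ ⟨x, hEL hx⟩
    rw [← hk, ← restrictNormal_pow, restrictNormal_coe] at h3
    exact h3
  · intro x hx
    have h4 : AlgEquiv.restrictNormal (φ ^ j) (IntermediateField.normalClosure ℚ E Qb) =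
        AlgEquiv.restrictNormal σ (IntermediateField.normalClosure ℚ E Qb) := by
      rw [restrictNormal_pow, ← hj]
      congr 1
      apply AlgEquiv.ext
      intro y
      apply Subtype.ext
      rw [restrictNormal_coe]
      exact hφτ y
    have h5 := restrictNormal_coe (IntermediateField.normalClosure ℚ E Qb) (φ ^ j) ⟨x, hEL hx⟩
    rw [h4, restrictNormal_coe] at h5
    exact h5.symm

/-- **Bridge, Tier 2**: from finite-level qualitative Chebotarev to the Prelude-level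
statement. -/
theorem bridge : BridgeStatement := by
  intro hF E hE σ S
  haveI := hE
  haveI := numberField_normalClosure E
  haveI := isGalois_normalClosure E
  obtain ⟨p, P, hp, hpS, hP, hpP, hI, hτ⟩ :=
    hF (IntermediateField.normalClosure ℚ E Qb)
      (AlgEquiv.restrictNormal σ (IntermediateField.normalClosure ℚ E Qb)) S
  obtain ⟨A, φ, hAp, hφ, hin, hφτ⟩ :=
    exists_frobenius_restrict (IntermediateField.normalClosure ℚ E Qb) p hp P hP hpP hI _ hτ
  have hEL : E ≤ IntermediateField.normalClosure ℚ E Qb := IntermediateField.le_normalClosure E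
  refine ⟨p, A, φ, hp, hpS, hAp, hφ, ?_, ?_⟩
  · intro ι hι x hx
    exact hin ι hι ⟨x, hEL hx⟩
  · intro x hx
    have h3 := hφτ ⟨x, hEL hx⟩
    rw [restrictNormal_coe] at h3
    exact h3

end Fermat.Agent.Lib.Cheb.H476

end
-- ===== PACK-END Lib/Cheb/H476/Bridge.lean

-- ===== PACK-BEGIN S28/H988/Tower.lean
section
/-
S28 / [L.UP] upper bound, helper988.
The tower step over ANY field `k`:  `E_{Mp} = E_M(j(q^{p^{a+1}}))` and
`[E_{Mp} : E_M] ≤ p + 1` (`p ∤ M`), `≤ p` (`p ∣ M`), where `E_N = k(j(q^d) : d ∣ N)`.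
Input: the modular relations `PhiRel k r (Φ r)` for the primes `r ∣ M p`.
-/




set_option autoImplicit false

noncomputable section

open Polynomial ModularCurve

namespace Fermat.Agent.S28.H988

variable (k : Type*) [Field k]

/-! ### The fields `E_N` -/

theorem jd_mem_full {N d : ℕ} (hN : N ≠ 0) (hd : d ∣ N) :
    jd k d ∈ modularFunctionFieldFullC k N := by
  have hd0 : d ≠ 0 := fun h => hN (by rw [h] at hd; exact Nat.eq_zero_of_zero_dvd hd)
  have : NeZero d := ⟨hd0⟩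
  rw [jd_eq k d]
  exact jqModCd_mem_full k N hd

theorem full_le_iff {N : ℕ} (hN : N ≠ 0) (F : IntermediateField k (LaurentSeries k)) :
    modularFunctionFieldFullC k N ≤ F ↔ ∀ d, d ∣ N → jd k d ∈ F := by
  constructor
  · intro h d hd
    exact h (jd_mem_full k hN hd)
  · intro h
    rw [modularFunctionFieldFullC, IntermediateField.adjoin_le_iff]
    rintro x ⟨d, hne, hdvd, rfl⟩
    have := h d hdvd
    rwa [jd_eq k d] at this

theorem full_mono {M N : ℕ} (hN : N ≠ 0) (h : M ∣ N) :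
    modularFunctionFieldFullC k M ≤ modularFunctionFieldFullC k N := by
  have hM : M ≠ 0 := fun h0 => hN (by rw [h0] at h; exact Nat.eq_zero_of_zero_dvd h)
  rw [full_le_iff k hM]
  intro d hd
  exact jd_mem_full k hN (hd.trans h)

/-! ### Generation -/

variable {k}

/-- **Generation.** If `F ⊇ E_M` contains `j(q^{p^b})` for all `p^b ∣ M p`, then `F ⊇ E_{Mp}`. -/
theorem jd_mem_of_dvd_mul (Φ : ℕ → Polynomial (Polynomial ℤ)) {M p : ℕ} (hM : M ≠ 0)
    (hp : p.Prime) (hΦ : ∀ r, r.Prime → r ∣ M * p → PhiRel k r (Φ r))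
    (F : IntermediateField k (LaurentSeries k)) (hF : ∀ d, d ∣ M → jd k d ∈ F)
    (hpow : ∀ b, p ^ b ∣ M * p → jd k (p ^ b) ∈ F) :
    ∀ d, d ∣ M * p → jd k d ∈ F := by
  intro d
  induction d using Nat.strong_induction_on with
  | _ d ih =>
    intro hd
    have hMp : M * p ≠ 0 := Nat.mul_ne_zero hM hp.ne_zero
    have hd0 : d ≠ 0 := fun h => hMp (by rw [h] at hd; exact Nat.eq_zero_of_zero_dvd hd)
    by_cases hdM : d ∣ M
    · exact hF d hdM
    have hpd : p ∣ d := by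
      by_contra hnp
      have hcop : Nat.Coprime d p := (Nat.Coprime.symm ((Nat.Prime.coprime_iff_not_dvd hp).mpr hnp))
      exact hdM (hcop.dvd_of_dvd_mul_right hd)
    by_cases hex : ∃ r, r.Prime ∧ r ∣ d ∧ r ≠ p
    · obtain ⟨r, hr, hrd, hrp⟩ := hex
      have hcop : Nat.Coprime p r := (Nat.coprime_primes hp hr).mpr (Ne.symm hrp)
      have hprd : p * r ∣ d := hcop.mul_dvd_of_dvd_of_dvd hpd hrd
      obtain ⟨e, he⟩ := hprd
      have hde : d = e * p * r := by rw [he]; ring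
      have he0 : e ≠ 0 := by
        rintro rfl
        apply hd0
        rw [hde]; simp
      have h1 : jd k (e * r) ∈ F := by
        apply hF
        have : e * r * p ∣ M * p := by
          rw [show e * r * p = d by rw [hde]; ring]; exact hd
        exact (Nat.mul_dvd_mul_iff_right hp.pos).mp this
      have h2 : jd k (e * p) ∈ F := by
        apply ih (e * p)
        · rw [hde]
          have : 1 < r := hr.one_lt
          have hpos : 0 < e * p := Nat.pos_of_ne_zero (Nat.mul_ne_zero he0 hp.ne_zero)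
          nlinarith
        · exact (Dvd.intro r hde.symm).trans hd
      rw [hde]
      exact jd_mem_of_mem (hΦ p hp (Dvd.intro_left M rfl)) (hΦ r hr (hrd.trans hd))
        hp.one_lt hr.one_lt (Ne.symm hrp) he0 F h1 h2
    · push Not at hex
      have hdpow : d = p ^ d.primeFactorsList.length :=
        Nat.eq_prime_pow_of_unique_prime_dvd hd0 (fun {r} hr hrd => hex r hr hrd)
      rw [hdpow]
      apply hpow
      rw [← hdpow]
      exact hd

/-! ### The top generator and its polynomial -/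

/-- The exponent of the top `p`-power: `p ^ (topExp M p) ∣ M * p` exactly. -/
def topExp (M p : ℕ) : ℕ := M.factorization p + 1

theorem pow_dvd_mul_iff {M p : ℕ} (hM : M ≠ 0) (hp : p.Prime) (b : ℕ) :
    p ^ b ∣ M * p ↔ b ≤ topExp M p := by
  have hMp : M * p ≠ 0 := Nat.mul_ne_zero hM hp.ne_zero
  rw [hp.pow_dvd_iff_le_factorization hMp, Nat.factorization_mul hM hp.ne_zero]
  simp only [Finsupp.coe_add, Pi.add_apply, hp.factorization_self, topExp]

theorem pow_dvd_iff' {M p : ℕ} (hM : M ≠ 0) (hp : p.Prime) (b : ℕ) :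
    p ^ b ∣ M ↔ b + 1 ≤ topExp M p := by
  rw [hp.pow_dvd_iff_le_factorization hM, topExp]
  omega

variable (k) in
/-- The top generator `j(q^{p^{a+1}})`, `a = v_p(M)`. -/
def topGen (M p : ℕ) : LaurentSeries k := jd k (p ^ topExp M p)

theorem topGen_mem {M p : ℕ} (hM : M ≠ 0) (hp : p.Prime) :
    topGen k M p ∈ modularFunctionFieldFullC k (M * p) :=
  jd_mem_full k (Nat.mul_ne_zero hM hp.ne_zero) ((pow_dvd_mul_iff hM hp _).mpr le_rfl)

/-- **Generation, packaged**: `E_{Mp} = E_M(topGen)`. -/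
theorem full_mul_eq (Φ : ℕ → Polynomial (Polynomial ℤ)) {M p : ℕ} (hM : M ≠ 0)
    (hp : p.Prime) (hΦ : ∀ r, r.Prime → r ∣ M * p → PhiRel k r (Φ r)) :
    modularFunctionFieldFullC k (M * p) =
      (IntermediateField.adjoin (modularFunctionFieldFullC k M) {topGen k M p}).restrictScalars k := by
  have hMp : M * p ≠ 0 := Nat.mul_ne_zero hM hp.ne_zero
  set L' := IntermediateField.adjoin (modularFunctionFieldFullC k M) {topGen k M p} with hL'
  have hsub : ∀ x ∈ modularFunctionFieldFullC k M, x ∈ L'.restrictScalars k := by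
    intro x hx
    rw [IntermediateField.mem_restrictScalars]
    exact L'.algebraMap_mem ⟨x, hx⟩
  have htop : topGen k M p ∈ L'.restrictScalars k := by
    rw [IntermediateField.mem_restrictScalars]
    exact IntermediateField.mem_adjoin_simple_self _ _
  apply le_antisymm
  · rw [full_le_iff k hMp]
    refine jd_mem_of_dvd_mul Φ hM hp hΦ _ (fun d hd => hsub _ (jd_mem_full k hM hd)) ?_
    intro b hb
    rw [pow_dvd_mul_iff hM hp] at hb
    rcases Nat.lt_or_ge b (topExp M p) with hlt | hge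
    · exact hsub _ (jd_mem_full k hM ((pow_dvd_iff' hM hp b).mpr hlt))
    · have : b = topExp M p := le_antisymm hb hge
      rw [this]
      exact htop
  · intro x hx
    rw [IntermediateField.mem_restrictScalars] at hx
    have hle : L' ≤ IntermediateField.extendScalars
        (full_mono k hMp (Dvd.intro p rfl) :
          modularFunctionFieldFullC k M ≤ modularFunctionFieldFullC k (M * p)) := by
      rw [hL', IntermediateField.adjoin_le_iff]
      rintro y hy
      rw [Set.mem_singleton_iff] at hy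
      rw [hy]
      exact (IntermediateField.mem_extendScalars _).mpr (topGen_mem hM hp)
    exact (IntermediateField.mem_extendScalars _).mp (hle hx)

/-! ### The degree of the top generator -/

/-- `topGen` is a root of a monic polynomial over `E_M` of degree `p + 1`, and of degree `p`
if `p ∣ M`. -/
theorem exists_monic_root_topGen (Φ : Polynomial (Polynomial ℤ)) {M p : ℕ} (hM : M ≠ 0)
    (hp : p.Prime) (hΦ : PhiRel k p Φ) :
    ∃ Q : Polynomial (modularFunctionFieldFullC k M), Q.Monic ∧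
      Q.natDegree = (if p ∣ M then p else p + 1) ∧ aeval (topGen k M p) Q = 0 := by
  set E := modularFunctionFieldFullC k M with hE
  have hp0 : p ≠ 0 := hp.ne_zero
  by_cases hpM : p ∣ M
  · rw [if_pos hpM]
    -- `a ≥ 1`
    obtain ⟨a, ha⟩ : ∃ a, topExp M p = a + 2 := by
      have h1 : 1 + 1 ≤ topExp M p := (pow_dvd_iff' hM hp 1).mp (by rwa [pow_one])
      exact ⟨topExp M p - 2, by omega⟩
    have hmemy : jd k (p ^ (a + 1)) ∈ E :=
      jd_mem_full k hM ((pow_dvd_iff' hM hp (a + 1)).mpr (by omega))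
    have hmemc : jd k (p ^ a) ∈ E :=
      jd_mem_full k hM ((pow_dvd_iff' hM hp a).mpr (by omega))
    set y : E := ⟨jd k (p ^ (a + 1)), hmemy⟩ with hy
    set c : E := ⟨jd k (p ^ a), hmemc⟩ with hc
    set A : Polynomial E := PhiAt Φ y with hA
    have hAmap : A.map (algebraMap E (LaurentSeries k)) = PhiAt Φ (jd k (p ^ (a + 1))) := by
      rw [hA, PhiAt_map]; rfl
    have hpa0 : p ^ a ≠ 0 := pow_ne_zero _ hp0
    have hpa1 : p ^ (a + 1) ≠ 0 := pow_ne_zero _ hp0
    have hrootc : A.IsRoot c := by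
      have h1 : (A.map (algebraMap E (LaurentSeries k))).IsRoot
          (algebraMap E (LaurentSeries k) c) := by
        rw [hAmap]
        have := hΦ.root2 hp0 hpa0
        rwa [← pow_succ] at this
      exact IsRoot.of_map h1 (algebraMap E (LaurentSeries k)).injective
    have hAeq : (X - C c) * (A /ₘ (X - C c)) = A := mul_divByMonic_eq_iff_isRoot.mpr hrootc
    have hAmonic : A.Monic := PhiAt_monic hΦ.monic _
    have hAdeg : A.natDegree = p + 1 := by rw [hA, PhiAt_natDegree hΦ.monic, hΦ.natDegree_eq]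
    refine ⟨A /ₘ (X - C c), ?_, ?_, ?_⟩
    · have hd : (X - C c : Polynomial E).degree ≤ A.degree := by
        rw [degree_X_sub_C, degree_eq_natDegree hAmonic.ne_zero, hAdeg]
        exact_mod_cast Nat.le_add_left 1 p
      rw [Monic, leadingCoeff_divByMonic_of_monic (monic_X_sub_C _) hd]
      exact hAmonic
    · rw [natDegree_divByMonic _ (monic_X_sub_C _), natDegree_X_sub_C, hAdeg]
      rfl
    · have hrootA : aeval (topGen k M p) A = 0 := by
        rw [aeval_def, eval₂_eq_eval_map, hAmap]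
        have := hΦ.root1 hp0 hpa1
        rw [← pow_succ] at this
        unfold topGen
        rw [ha]
        exact this
      rw [← hAeq, _root_.map_mul, _root_.map_sub, aeval_X, aeval_C] at hrootA
      rcases mul_eq_zero.mp hrootA with h | h
      · exfalso
        have h' : topGen k M p = jd k (p ^ a) := sub_eq_zero.mp h
        unfold topGen at h'
        rw [ha] at h'
        refine jd_ne k (pow_ne_zero _ hp0) hpa0 ?_ h'
        intro hcon
        have := Nat.pow_right_injective hp.two_le hcon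
        omega
      · exact h
  · rw [if_neg hpM]
    have htop : topExp M p = 1 := by
      unfold topExp
      rw [Nat.factorization_eq_zero_of_not_dvd hpM]
    have hmemy : jd k 1 ∈ E := jd_mem_full k hM (one_dvd M)
    set y : E := ⟨jd k 1, hmemy⟩ with hy
    set A : Polynomial E := PhiAt Φ y with hA
    have hAmap : A.map (algebraMap E (LaurentSeries k)) = PhiAt Φ (jd k 1) := by
      rw [hA, PhiAt_map]; rfl
    refine ⟨A, PhiAt_monic hΦ.monic _, ?_, ?_⟩
    · rw [hA, PhiAt_natDegree hΦ.monic, hΦ.natDegree_eq]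
    · rw [aeval_def, eval₂_eq_eval_map, hAmap]
      have := hΦ.root1 hp0 one_ne_zero
      rw [one_mul] at this
      unfold topGen
      rw [htop, pow_one]
      exact this

/-- **Tower step.** `0 < [E_{Mp} : E_M] ≤ p + 1`, and `≤ p` if `p ∣ M`. -/
theorem relfinrank_step (Φ : ℕ → Polynomial (Polynomial ℤ)) {M p : ℕ} (hM : M ≠ 0)
    (hp : p.Prime) (hΦ : ∀ r, r.Prime → r ∣ M * p → PhiRel k r (Φ r)) :
    0 < IntermediateField.relfinrank (modularFunctionFieldFullC k M)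
        (modularFunctionFieldFullC k (M * p)) ∧
    IntermediateField.relfinrank (modularFunctionFieldFullC k M)
        (modularFunctionFieldFullC k (M * p)) ≤ (if p ∣ M then p else p + 1) := by
  have hMp : M * p ≠ 0 := Nat.mul_ne_zero hM hp.ne_zero
  have hle : modularFunctionFieldFullC k M ≤ modularFunctionFieldFullC k (M * p) :=
    full_mono k hMp (Dvd.intro p rfl)
  obtain ⟨Q, hQm, hQd, hQr⟩ :=
    exists_monic_root_topGen (Φ p) hM hp (hΦ p hp (Dvd.intro_left M rfl))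
  have hint : IsIntegral (modularFunctionFieldFullC k M) (topGen k M p) := ⟨Q, hQm, by
    rwa [← aeval_def]⟩
  have heq : IntermediateField.extendScalars hle =
      IntermediateField.adjoin (modularFunctionFieldFullC k M) {topGen k M p} := by
    ext x
    rw [IntermediateField.mem_extendScalars, full_mul_eq Φ hM hp hΦ,
      IntermediateField.mem_restrictScalars]
  rw [IntermediateField.relfinrank_eq_finrank_of_le hle, heq,
    IntermediateField.adjoin.finrank hint]
  refine ⟨minpoly.natDegree_pos hint, ?_⟩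
  rw [← hQd]
  exact natDegree_le_of_dvd (minpoly.dvd _ _ hQr) hQm.ne_zero

end Fermat.Agent.S28.H988

end

end
-- ===== PACK-END S28/H988/Tower.lean

-- ===== PACK-BEGIN S37/H939/Normal.lean
section



/-!
# Normality from the discriminant criterion
(row S37 / S18, piece b2 = R-b; seat helper939)

`T` a domain, free of rank `n` over `k[X]` with basis `b`.  If the discriminant of `b` is nonzero,
splits, and `ord_c (discr b) + redRank T c ≤ n` at each root `c`, then `T` is integrally closed.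
-/

set_option autoImplicit false
set_option linter.unusedSectionVars false
set_option linter.style.haveILetI false

namespace Fermat.Agent.S37.H939

open Polynomial Matrix

variable {k : Type*} [Field k]
variable {T : Type*} [CommRing T] [IsDomain T]
  [Algebra k[X] T] [Algebra k T] [IsScalarTower k k[X] T]
variable {ι : Type*} [Fintype ι] [DecidableEq ι] (b : Module.Basis ι k[X] T)

include b in
/-- An overorder `T₂ ⊆ Frac T` which is a finite `T`-module has the same rank as `T`. -/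
lemma finrank_overorder_eq (L : Type*) [Field L] [Algebra T L] [IsFractionRing T L]
    [Algebra k[X] L] [IsScalarTower k[X] T L]
    (T₂ : Subalgebra k[X] L) [Module.Finite k[X] T₂]
    (hT : ∀ t : T, algebraMap T L t ∈ T₂)
    (hfrac : ∃ s : T, s ≠ 0 ∧ ∀ z ∈ T₂, ∃ t : T, algebraMap T L t = algebraMap T L s * z) :
    Module.finrank k[X] T₂ = Fintype.card ι := by
  classical
  haveI : Module.Finite k[X] T := Module.Finite.of_basis b
  have hn : Module.finrank k[X] T = Fintype.card ι := Module.finrank_eq_card_basis b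
  have hinj : Function.Injective (algebraMap T L) := IsFractionRing.injective T L
  -- the inclusion `T → T₂`
  let f : T →ₗ[k[X]] T₂ :=
    ((IsScalarTower.toAlgHom k[X] T L).toLinearMap).codRestrict (Subalgebra.toSubmodule T₂)
      (fun t => hT t)
  have hf : Function.Injective f := by
    intro x y hxy
    apply hinj
    exact congrArg (fun z : T₂ => (z : L)) hxy
  have h1 : Module.finrank k[X] T ≤ Module.finrank k[X] T₂ :=
    LinearMap.finrank_le_finrank_of_injective hf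
  -- multiplication by the denominator `T₂ → T`
  obtain ⟨s, hs0, hs⟩ := hfrac
  choose! g hg using hs
  let φ : T₂ →ₗ[k[X]] T :=
    { toFun := fun z => g z
      map_add' := by
        intro x y
        apply hinj
        rw [_root_.map_add, hg _ x.2, hg _ y.2, hg _ (x + y).2]
        push_cast
        ring
      map_smul' := by
        intro a x
        apply hinj
        have e1 : ((a • x : T₂) : L) = algebraMap k[X] L a * (x : L) := by
          rw [Subalgebra.coe_smul, Algebra.smul_def]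
        have e2 : algebraMap T L (a • g x) = algebraMap k[X] L a * algebraMap T L (g x) := by
          rw [Algebra.smul_def, _root_.map_mul, ← IsScalarTower.algebraMap_apply]
        rw [RingHom.id_apply, e2, hg _ (a • x).2, hg _ x.2, e1]
        ring }
  have hφ : Function.Injective φ := by
    intro x y hxy
    have h2 : algebraMap T L (g x) = algebraMap T L (g y) := congrArg _ hxy
    rw [hg _ x.2, hg _ y.2] at h2
    have hs' : algebraMap T L s ≠ 0 := fun h0 => hs0 (hinj (by rw [h0, _root_.map_zero]))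
    exact Subtype.ext (mul_left_cancel₀ hs' h2)
  have h2 : Module.finrank k[X] T₂ ≤ Module.finrank k[X] T :=
    LinearMap.finrank_le_finrank_of_injective hφ
  omega

/-- **Normality criterion.** -/
theorem isIntegrallyClosed_of_discr_criterion
    (hd : Algebra.discr k[X] b ≠ 0) (hs : (Algebra.discr k[X] b).Splits)
    (h : ∀ c : k, (Algebra.discr k[X] b).IsRoot c →
      (Algebra.discr k[X] b).rootMultiplicity c + redRank T c ≤ Fintype.card ι) :
    IsIntegrallyClosed T := by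
  classical
  haveI : Module.Finite k[X] T := Module.Finite.of_basis b
  haveI : Module.Free k[X] T := Module.Free.of_basis b
  refine (isIntegrallyClosed_iff (FractionRing T)).mpr ?_
  intro y hy
  let L := FractionRing T
  have hinj : Function.Injective (algebraMap T L) := IsFractionRing.injective T L
  have hinjX : Function.Injective (algebraMap k[X] T) := FaithfulSMul.algebraMap_injective _ _
  have hinjXL : Function.Injective (algebraMap k[X] L) := by
    rw [IsScalarTower.algebraMap_eq k[X] T L]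
    exact hinj.comp hinjX
  let T₂' : Subalgebra T L := Algebra.adjoin T {y}
  let T₂ : Subalgebra k[X] L := T₂'.restrictScalars k[X]
  haveI hfin' : Module.Finite T T₂' := by
    have := Module.Finite.of_fg hy.fg_adjoin_singleton
    exact this
  haveI hfinT₂ : Module.Finite k[X] T₂ := by
    have : Module.Finite k[X] T₂' := Module.Finite.trans T T₂'
    exact this
  haveI : Module.IsTorsionFree k[X] L := Module.isTorsionFree_iff_algebraMap_injective.mpr hinjXL
  haveI : Module.IsTorsionFree k[X] T₂ := inferInstance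
  haveI : Module.Free k[X] T₂ := inferInstance
  -- denominators
  have hfrac : ∃ s : T, s ≠ 0 ∧ ∀ z ∈ T₂, ∃ t : T, algebraMap T L t = algebraMap T L s * z := by
    obtain ⟨s, hs, hs'⟩ := FractionalIdeal.isFractional_adjoin_integral (nonZeroDivisors T) y hy
    refine ⟨s, nonZeroDivisors.ne_zero hs, fun z hz => ?_⟩
    obtain ⟨t, ht⟩ := hs' z hz
    exact ⟨t, by rw [ht, Algebra.smul_def]⟩
  have hT : ∀ t : T, algebraMap T L t ∈ T₂ := fun t => T₂'.algebraMap_mem t
  have hrank : Module.finrank k[X] T₂ = Fintype.card ι :=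
    finrank_overorder_eq b L T₂ hT hfrac
  -- a basis of the overorder
  let b₂ : Module.Basis ι k[X] T₂ :=
    (Module.finBasisOfFinrankEq k[X] T₂ hrank).reindex (Fintype.equivFin ι).symm
  let f : T →ₐ[k[X]] T₂ := (IsScalarTower.toAlgHom k[X] T L).codRestrict T₂ hT
  have hf : Function.Injective f := by
    intro x x' hxx
    apply hinj
    exact congrArg (fun z : T₂ => (z : L)) hxx
  obtain ⟨-, hsurj⟩ := bijective_of_discr_criterion b b₂ f hf hd hs h
  obtain ⟨t, ht⟩ := hsurj ⟨y, Algebra.self_mem_adjoin_singleton T y⟩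
  exact ⟨t, congrArg (fun z : T₂ => (z : L)) ht⟩

end Fermat.Agent.S37.H939

end
-- ===== PACK-END S37/H939/Normal.lean

-- ===== PACK-BEGIN A3/H799/Local.lean
section


/-!
# A3 / LOCAL — the abstract LOCAL theorem  (helper799)

Combination of `exists_comb` (Cramer over `Λ`) and `root_mem` (Weierstrass + Hensel for algebraic
families).  In the application (addition law of the Jacobian in disc coordinates):

* `ι = Fin g`, `𝒪 i` = integral functions on the residue disc of `Q_i`, `E = Σ P_i`, `Ē = Σ Q_i`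
  non-special, `s i = 2`, `ys i = (z_i(x), z_i(y))`, `f₀ i = t_i³ · 1`, `f j i = t_i³ · φ_j` with
  `1, φ_j` an integral basis of `L(3E)`; the unique `φ = 1 + Σ v_j φ_j` vanishing on `D_x + D_y`
  has divisor `D_x + D_y + D_{-(x+y)} - 3E`, so `c i = z_i(-(x+y))`;
* negation: `s i = 1`, `L(2E)`, `c i = z_i(-x)`.

The hypothesis `hgeo` is the only geometric input and it is POINTWISE (one parameter value `τ`,
honest functions over the valuation ring `A`).
-/

set_option autoImplicit false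

namespace Fermat.Agent.A3.H799

open Polynomial

variable {A : Type*} [CommRing A] [IsLocalRing A] {T : Type*} [Finite T]

/-- **Abstract LOCAL theorem.**  If the linear system "`f₀ + Σ a_j f_j` vanishes on the moving
nodes" is non-degenerate modulo `𝔪` and every solution has exactly one further zero `c i τ` in the
`i`-th disc, then `τ ↦ c i τ` lies in every algebra `Λ` of functions containing the nodes. -/
theorem local_mem {ι : Type*} [Fintype ι] {𝒪 : ι → Type*}
    [∀ i, CommRing (𝒪 i)] [∀ i, Algebra A (𝒪 i)]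
    (Λ : Subalgebra A (T → A)) (D : ∀ i, DiscAlg A (𝒪 i)) (s : ι → ℕ)
    (ys : ∀ i, Fin (s i) → radIdeal Λ)
    (f₀ : ∀ i, 𝒪 i) (f : (Σ i, Fin (s i)) → ∀ i, 𝒪 i)
    (P₀ : ∀ i, A[X]) (H₀ : ∀ i, 𝒪 i)
    (hf₀ : ∀ i, f₀ i = aeval (D i).t (P₀ i) + (D i).t ^ s i * H₀ i)
    (P : (Σ i, Fin (s i)) → ∀ i, A[X]) (H : (Σ i, Fin (s i)) → ∀ i, 𝒪 i)
    (hf : ∀ j i, f j i = aeval (D i).t (P j i) + (D i).t ^ s i * H j i)
    (hdet : ∀ [DecidableEq (Σ i, Fin (s i))],
      IsUnit (Matrix.of fun (c j : Σ i, Fin (s i)) => (P j c.1).coeff (c.2 : ℕ)).det)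
    (h₀ : ∀ i (r : Fin (s i)), (P₀ i).coeff (r : ℕ) ∈ IsLocalRing.maximalIdeal A)
    (c : ι → T → IsLocalRing.maximalIdeal A)
    (hgeo : ∀ (τ : T) (a : (Σ i, Fin (s i)) → IsLocalRing.maximalIdeal A),
      (∀ i, ∃ h : 𝒪 i, f₀ i + ∑ j, ((a j : IsLocalRing.maximalIdeal A) : A) • f j i =
        aeval (D i).t (DiscAlg.nodal ((List.ofFn (ys i)).map (ptAt Λ τ))) * h) →
      ∀ i, ∃ u : 𝒪 i, IsUnit ((D i).ev (c i τ) u) ∧
        f₀ i + ∑ j, ((a j : IsLocalRing.maximalIdeal A) : A) • f j i =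
          aeval (D i).t (DiscAlg.nodal ((List.ofFn (ys i)).map (ptAt Λ τ))) *
            ((D i).t - algebraMap A (𝒪 i) ((c i τ : IsLocalRing.maximalIdeal A) : A)) * u) :
    ∀ i, (fun τ => ((c i τ : IsLocalRing.maximalIdeal A) : A)) ∈ Λ := by
  classical
  obtain ⟨v, hvI, hv⟩ := exists_comb Λ D s ys f₀ f P₀ H₀ hf₀ P H hf hdet h₀
  intro i
  refine root_mem Λ (D i) (κ := Option (Σ i, Fin (s i)))
    (fun o => o.elim (f₀ i) fun j => f j i) (fun o => o.elim 1 v) (List.ofFn (ys i)) (c i) ?_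
  intro τ
  obtain ⟨u, hu, hW⟩ := hgeo τ (fun j => ⟨((v j : Λ) : T → A) τ, hvI j τ⟩) (hv τ) i
  refine ⟨u, hu, ?_⟩
  rw [← hW, Fintype.sum_option]
  simp

end Fermat.Agent.A3.H799
end
-- ===== PACK-END A3/H799/Local.lean

-- ===== PACK-BEGIN A2/Mod/H189/ChartChangeT3.lean
section


/-!
# Cell A2 / MOD, GOODRED part G3 (helper189): from the `t₃`-charts to the `j`-charts (`q = 2`)

Abstract setting (Mathlib only): `F` a field over `R`, `3` a unit of `R`, `t, j ∈ F` with
`j t³ = (t + 27)(t + 243)³` (`t` = Hauptmodul of `X₀(3)`), `j ≠ 0`; `V` a subring of `F`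
containing `R` in which `t`, `t + 27`, `t + 243` are units (the Gauss valuation ring), `w : F`.

* `goodOn_j_of_t3`    : `GoodOn` for the chart of `R[t]` ⟹ `GoodOn` for the chart of `R[j]`;
* `goodOn_jinv_of_t3` : `GoodOn` for the charts of `R[t]` and `R[1/t]` ⟹ `GoodOn` for the chart of
  `R[1/j]`  (`IC(R[1/j]) = IC(R[u₁, u₂])`, `u₁ = 1/(t+27)`, `u₂ = 1/(t+243)`, glued from
  `IC(R[t])[1/((t+27)(t+243))]` and `IC(R[1/t])[1/((1+27/t)(1+243/t))]`).
-/

set_option autoImplicit false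

namespace Fermat.Agent.A2.Mod.H189

variable {R : Type*} [CommRing R] {F : Type*} [Field F] [Algebra R F]

section T3

variable {V : Subring F} {w : F} {t j : F} (i : R)

include i in
theorem t3_facts (hi : (3 : R) * i = 1) (hj : j ≠ 0)
    (hrel : j * t ^ 3 = (t + 27) * (t + 243) ^ 3) :
    (3 : F) * algebraMap R F i = 1 ∧ (3 : F) ≠ 0 ∧ t ≠ 0 ∧ t + 27 ≠ 0 ∧ t + 243 ≠ 0 := by
  have h1 : (3 : F) * algebraMap R F i = 1 := by
    have := congrArg (algebraMap R F) hi
    rwa [map_mul, map_one, map_ofNat] at this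
  have h2 : (3 : F) ≠ 0 := fun h => by rw [h, zero_mul] at h1; exact zero_ne_one h1
  have h27 : (27 : F) ≠ 0 := by
    have : (27 : F) = 3 ^ 3 := by norm_num
    rw [this]
    exact pow_ne_zero 3 h2
  have h243 : (243 : F) ≠ 0 := by
    have : (243 : F) = 3 ^ 5 := by norm_num
    rw [this]
    exact pow_ne_zero 5 h2
  have h3 : t ≠ 0 := by
    intro h
    rw [h] at hrel
    simp only [ne_eq, OfNat.ofNat_ne_zero, not_false_eq_true, zero_pow, mul_zero, zero_add] at hrel
    exact mul_ne_zero h27 (pow_ne_zero 3 h243) hrel.symm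
  have hjt : j * t ^ 3 ≠ 0 := mul_ne_zero hj (pow_ne_zero 3 h3)
  refine ⟨h1, h2, h3, fun h => hjt ?_, fun h => hjt ?_⟩
  · rw [hrel, h, zero_mul]
  · rw [hrel, h]
    simp

include i in
/-- **`t₃ → j`, finite chart.** -/
theorem goodOn_j_of_t3 (hi : (3 : R) * i = 1) (hj : j ≠ 0)
    (hrel : j * t ^ 3 = (t + 27) * (t + 243) ^ 3)
    (htV : t ∈ V) (htV' : t⁻¹ ∈ V) (hg : GoodOn V w (Aof R t)) : GoodOn V w (Aof R j) := by
  obtain ⟨hi', h3, ht0, -, -⟩ := t3_facts i hi hj hrel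
  have hjeq : j = (t + 27) * (t + 243) ^ 3 * t⁻¹ ^ 3 := by
    field_simp
    exact hrel
  refine (hg.loc (self_mem_Aof t) ht0 htV htV').congr ?_ ?_
  · intro a ha
    refine isIntegral_of_mem_locSub (A' := Aof R j) (fun a ha => ?_) ?_ ha
    · refine isIntegral_of_mem_adjoin (A := Aof R j) (S := {t}) (fun x hx => ?_) ha
      rw [Set.mem_singleton_iff] at hx
      subst hx
      refine isIntegral_of_quartic (a := 1) (v := 1) (c₃ := 756 - j) (c₂ := 196830)
        (c₁ := 19131876) (c₀ := 387420489) (Subalgebra.one_mem _) (one_mul 1)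
        (Subalgebra.sub_mem _ (ofNat_mem_sub _ 756) (self_mem_Aof j))
        (ofNat_mem_sub _ 196830) (ofNat_mem_sub _ 19131876) (ofNat_mem_sub _ 387420489) ?_
      linear_combination -hrel
    · refine isIntegral_of_quartic (a := 387420489) (v := algebraMap R F (i ^ 18))
        (c₃ := 19131876) (c₂ := 196830) (c₁ := 756 - j) (c₀ := 1)
        (Subalgebra.algebraMap_mem _ _) ?_
        (ofNat_mem_sub _ 19131876) (ofNat_mem_sub _ 196830)
        (Subalgebra.sub_mem _ (ofNat_mem_sub _ 756) (self_mem_Aof j)) (Subalgebra.one_mem _) ?_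
      · rw [map_pow]
        have : (387420489 : F) = 3 ^ 18 := by norm_num
        rw [this, ← mul_pow, mul_comm, hi', one_pow]
      · field_simp
        linear_combination -hrel
  · intro a ha
    refine isIntegral_of_mem (Aof_le (B := locSub (Aof R t) t) ?_ ha)
    rw [hjeq]
    refine Subalgebra.mul_mem _ (Subalgebra.mul_mem _ (Subalgebra.add_mem _
        (le_locSub _ _ (self_mem_Aof t)) (ofNat_mem_sub _ 27))
      (Subalgebra.pow_mem _ (Subalgebra.add_mem _
        (le_locSub _ _ (self_mem_Aof t)) (ofNat_mem_sub _ 243)) 3))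
      (Subalgebra.pow_mem _ (inv_mem_locSub _ _) 3)

include i in
/-- **`t₃ → j`, chart at infinity.** -/
theorem goodOn_jinv_of_t3 (hi : (3 : R) * i = 1) (hj : j ≠ 0)
    (hrel : j * t ^ 3 = (t + 27) * (t + 243) ^ 3) (hRV : ∀ r : R, algebraMap R F r ∈ V)
    (htV : t ∈ V) (htV' : t⁻¹ ∈ V) (hu₁V : (t + 27)⁻¹ ∈ V) (hu₂V : (t + 243)⁻¹ ∈ V)
    (hg : GoodOn V w (Aof R t)) (hg' : GoodOn V w (Aof R t⁻¹)) : GoodOn V w (Aof R j⁻¹) := by
  obtain ⟨hi', h3, ht0, ht27, ht243⟩ := t3_facts i hi hj hrel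
  have hi27 : (27 : F) * algebraMap R F (i ^ 3) = 1 := by
    rw [map_pow]
    have : (27 : F) = 3 ^ 3 := by norm_num
    rw [this, ← mul_pow, hi', one_pow]
  have h27V : (27 : F) ∈ V := by
    have := hRV 27
    rwa [map_ofNat] at this
  have h243V : (243 : F) ∈ V := by
    have := hRV 243
    rwa [map_ofNat] at this
  set u₁ : F := (t + 27)⁻¹ with hu₁
  set u₂ : F := (t + 243)⁻¹ with hu₂
  have hu₁0 : u₁ ≠ 0 := inv_ne_zero ht27
  have hu₂0 : u₂ ≠ 0 := inv_ne_zero ht243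
  have htu₁ : t * u₁ = 1 - 27 * u₁ := by
    rw [hu₁]
    field_simp
    ring
  have htu₂ : t * u₂ = 1 - 243 * u₂ := by
    rw [hu₂]
    field_simp
    ring
  have hjinv : j⁻¹ = (1 - 243 * u₂) ^ 2 * (1 - 27 * u₁) * u₂ := by
    rw [← htu₁, ← htu₂, hu₁, hu₂]
    field_simp
    linear_combination -hrel
  have h1u₁0 : 1 - 27 * u₁ ≠ 0 := by
    rw [← htu₁]
    exact mul_ne_zero ht0 hu₁0
  have h1u₂0 : 1 - 243 * u₂ ≠ 0 := by
    rw [← htu₂]
    exact mul_ne_zero ht0 hu₂0
  have hinv1 : (1 - 27 * u₁)⁻¹ = 1 + 27 * t⁻¹ := by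
    rw [← htu₁, hu₁]
    field_simp
  have hinv2 : (1 - 243 * u₂)⁻¹ = 1 + 243 * t⁻¹ := by
    rw [← htu₂, hu₂]
    field_simp
  -- the two denominators
  set D : F := (t + 27) * (t + 243) with hD
  set D' : F := (1 + 27 * t⁻¹) * (1 + 243 * t⁻¹) with hD'
  have hD0 : D ≠ 0 := mul_ne_zero ht27 ht243
  have hDinv : D⁻¹ = u₁ * u₂ := by rw [hD, mul_inv]
  have hD'inv : D'⁻¹ = (1 - 27 * u₁) * (1 - 243 * u₂) := by
    rw [hD', mul_inv, ← hinv1, ← hinv2, inv_inv, inv_inv]
  have hD'0 : D' ≠ 0 := by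
    intro h
    rw [h, inv_zero] at hD'inv
    exact mul_ne_zero h1u₁0 h1u₂0 hD'inv.symm
  -- the chart of `R[u₁, u₂]`
  set A' : Subalgebra R F := Algebra.adjoin R ({u₁, u₂} : Set F) with hA'
  have hu₁A : u₁ ∈ A' := Algebra.subset_adjoin (Set.mem_insert _ _)
  have hu₂A : u₂ ∈ A' := Algebra.subset_adjoin (Set.mem_insert_of_mem _ rfl)
  have hA'le : ∀ {B : Subalgebra R F}, u₁ ∈ B → u₂ ∈ B → A' ≤ B := by
    intro B h1 h2
    refine Algebra.adjoin_le ?_
    rintro x (hx | hx)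
    · rw [hx]; exact h1
    · rw [Set.mem_singleton_iff] at hx
      rw [hx]; exact h2
  have hgA : GoodOn V w A' := by
    refine GoodOn.glue (s₁ := u₁) (s₂ := 1 - 27 * u₁) (α := 27) (β := 1)
      (adjoin_subset_subring hRV (by
        rintro x (hx | hx)
        · rw [hx]; exact hu₁V
        · rw [Set.mem_singleton_iff] at hx
          rw [hx]; exact hu₂V))
      hu₁A
      (Subalgebra.sub_mem _ (Subalgebra.one_mem _)
        (Subalgebra.mul_mem _ (ofNat_mem_sub _ 27) hu₁A))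
      (ofNat_mem_sub _ 27) (Subalgebra.one_mem _) (by ring) ?_ ?_
    · -- `R[u₁, u₂, 1/u₁] = R[t, 1/D]`
      refine (hg.loc (s := D) (Subalgebra.mul_mem _
          (Subalgebra.add_mem _ (self_mem_Aof t) (ofNat_mem_sub _ 27))
          (Subalgebra.add_mem _ (self_mem_Aof t) (ofNat_mem_sub _ 243)))
        hD0 (V.mul_mem (V.add_mem htV h27V) (V.add_mem htV h243V)) ?_).of_le_of_le ?_ ?_
      · rw [hDinv]
        exact V.mul_mem hu₁V hu₂V
      · refine locSub_le (Aof_le ?_) ?_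
        · have : t = u₁⁻¹ - 27 := by rw [hu₁, inv_inv]; ring
          rw [this]
          exact Subalgebra.sub_mem _ (inv_mem_locSub _ _) (ofNat_mem_sub _ 27)
        · rw [hDinv]
          exact le_locSub _ _ (Subalgebra.mul_mem _ hu₁A hu₂A)
      · refine locSub_le (hA'le ?_ ?_) ?_
        · have : u₁ = (t + 243) * D⁻¹ := by
            rw [hD, hu₁]
            field_simp
          rw [this]
          exact Subalgebra.mul_mem _ (le_locSub _ _
            (Subalgebra.add_mem _ (self_mem_Aof t) (ofNat_mem_sub _ 243))) (inv_mem_locSub _ _)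
        · have : u₂ = (t + 27) * D⁻¹ := by
            rw [hD, hu₂]
            field_simp
          rw [this]
          exact Subalgebra.mul_mem _ (le_locSub _ _
            (Subalgebra.add_mem _ (self_mem_Aof t) (ofNat_mem_sub _ 27))) (inv_mem_locSub _ _)
        · rw [hu₁, inv_inv]
          exact le_locSub _ _ (Subalgebra.add_mem _ (self_mem_Aof t) (ofNat_mem_sub _ 27))
    · -- `R[u₁, u₂, 1/(1 - 27 u₁)] = R[1/t, 1/D']`
      refine (hg'.loc (s := D') (Subalgebra.mul_mem _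
          (Subalgebra.add_mem _ (Subalgebra.one_mem _)
            (Subalgebra.mul_mem _ (ofNat_mem_sub _ 27) (self_mem_Aof t⁻¹)))
          (Subalgebra.add_mem _ (Subalgebra.one_mem _)
            (Subalgebra.mul_mem _ (ofNat_mem_sub _ 243) (self_mem_Aof t⁻¹))))
        hD'0 (V.mul_mem (V.add_mem V.one_mem (V.mul_mem h27V htV'))
          (V.add_mem V.one_mem (V.mul_mem h243V htV'))) ?_).of_le_of_le ?_ ?_
      · rw [hD'inv, ← htu₁, ← htu₂]
        exact V.mul_mem (V.mul_mem htV hu₁V) (V.mul_mem htV hu₂V)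
      · refine locSub_le (Aof_le ?_) ?_
        · have : t⁻¹ = algebraMap R F (i ^ 3) * ((1 - 27 * u₁)⁻¹ - 1) := by
            rw [hinv1]
            linear_combination (-t⁻¹) * hi27
          rw [this]
          exact Subalgebra.mul_mem _ (Subalgebra.algebraMap_mem _ _)
            (Subalgebra.sub_mem _ (inv_mem_locSub _ _) (Subalgebra.one_mem _))
        · rw [hD'inv]
          exact le_locSub _ _ (Subalgebra.mul_mem _
            (Subalgebra.sub_mem _ (Subalgebra.one_mem _)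
              (Subalgebra.mul_mem _ (ofNat_mem_sub _ 27) hu₁A))
            (Subalgebra.sub_mem _ (Subalgebra.one_mem _)
              (Subalgebra.mul_mem _ (ofNat_mem_sub _ 243) hu₂A)))
      · refine locSub_le (hA'le ?_ ?_) ?_
        · have : u₁ = t⁻¹ * (1 + 243 * t⁻¹) * D'⁻¹ := by
            rw [hD', hu₁]
            field_simp
          rw [this]
          exact Subalgebra.mul_mem _ (le_locSub _ _ (Subalgebra.mul_mem _ (self_mem_Aof t⁻¹)
            (Subalgebra.add_mem _ (Subalgebra.one_mem _)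
              (Subalgebra.mul_mem _ (ofNat_mem_sub _ 243) (self_mem_Aof t⁻¹)))))
            (inv_mem_locSub _ _)
        · have : u₂ = t⁻¹ * (1 + 27 * t⁻¹) * D'⁻¹ := by
            rw [hD', hu₂]
            field_simp
          rw [this]
          exact Subalgebra.mul_mem _ (le_locSub _ _ (Subalgebra.mul_mem _ (self_mem_Aof t⁻¹)
            (Subalgebra.add_mem _ (Subalgebra.one_mem _)
              (Subalgebra.mul_mem _ (ofNat_mem_sub _ 27) (self_mem_Aof t⁻¹)))))
            (inv_mem_locSub _ _)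
        · rw [hinv1]
          exact le_locSub _ _ (Subalgebra.add_mem _ (Subalgebra.one_mem _)
            (Subalgebra.mul_mem _ (ofNat_mem_sub _ 27) (self_mem_Aof t⁻¹)))
  -- `IC(R[1/j]) = IC(R[u₁, u₂])`
  refine hgA.congr ?_ ?_
  · intro a ha
    refine isIntegral_of_mem_adjoin (A := Aof R j⁻¹) (S := {u₁, u₂}) (fun x hx => ?_) ha
    rcases hx with hx | hx
    · rw [hx]
      -- `(1 - 27 u₁)³ u₁ = (1/j) (1 + 216 u₁)³`
      have hrel₁ : (1 - 27 * u₁) ^ 3 * u₁ = j⁻¹ * (1 + 216 * u₁) ^ 3 := by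
        rw [hjinv, hu₁, hu₂]
        field_simp
        ring
      refine isIntegral_of_quartic (a := -19683) (v := algebraMap R F (-(i ^ 9)))
        (c₃ := 2187 - 10077696 * j⁻¹) (c₂ := -81 - 139968 * j⁻¹) (c₁ := 1 - 648 * j⁻¹)
        (c₀ := -j⁻¹) (Subalgebra.algebraMap_mem _ _) ?_ ?_ ?_ ?_ ?_ ?_
      · rw [map_neg, map_pow]
        have : (-19683 : F) = -(3 ^ 9) := by norm_num
        rw [this, neg_mul_neg, ← mul_pow, mul_comm, hi', one_pow]
      · exact Subalgebra.sub_mem _ (ofNat_mem_sub _ 2187)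
          (Subalgebra.mul_mem _ (ofNat_mem_sub _ 10077696) (self_mem_Aof j⁻¹))
      · exact Subalgebra.sub_mem _ (Subalgebra.neg_mem _ (ofNat_mem_sub _ 81))
          (Subalgebra.mul_mem _ (ofNat_mem_sub _ 139968) (self_mem_Aof j⁻¹))
      · exact Subalgebra.sub_mem _ (Subalgebra.one_mem _)
          (Subalgebra.mul_mem _ (ofNat_mem_sub _ 648) (self_mem_Aof j⁻¹))
      · exact Subalgebra.neg_mem _ (self_mem_Aof j⁻¹)
      · linear_combination hrel₁
    · rw [Set.mem_singleton_iff] at hx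
      rw [hx]
      -- `(1 - 243 u₂)³ u₂ = (1/j) (1 - 216 u₂)`
      have hrel₂ : (1 - 243 * u₂) ^ 3 * u₂ = j⁻¹ * (1 - 216 * u₂) := by
        rw [hjinv, hu₁, hu₂]
        field_simp
        ring
      refine isIntegral_of_quartic (a := -14348907) (v := algebraMap R F (-(i ^ 15)))
        (c₃ := 177147) (c₂ := -729) (c₁ := 1 + 216 * j⁻¹)
        (c₀ := -j⁻¹) (Subalgebra.algebraMap_mem _ _) ?_ ?_ ?_ ?_ ?_ ?_
      · rw [map_neg, map_pow]
        have : (-14348907 : F) = -(3 ^ 15) := by norm_num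
        rw [this, neg_mul_neg, ← mul_pow, mul_comm, hi', one_pow]
      · exact ofNat_mem_sub _ 177147
      · exact Subalgebra.neg_mem _ (ofNat_mem_sub _ 729)
      · exact Subalgebra.add_mem _ (Subalgebra.one_mem _)
          (Subalgebra.mul_mem _ (ofNat_mem_sub _ 216) (self_mem_Aof j⁻¹))
      · exact Subalgebra.neg_mem _ (self_mem_Aof j⁻¹)
      · linear_combination hrel₂
  · intro a ha
    refine isIntegral_of_mem (Aof_le (B := A') ?_ ha)
    rw [hjinv]
    exact Subalgebra.mul_mem _ (Subalgebra.mul_mem _ (Subalgebra.pow_mem _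
      (Subalgebra.sub_mem _ (Subalgebra.one_mem _)
        (Subalgebra.mul_mem _ (ofNat_mem_sub _ 243) hu₂A)) 2)
      (Subalgebra.sub_mem _ (Subalgebra.one_mem _)
        (Subalgebra.mul_mem _ (ofNat_mem_sub _ 27) hu₁A))) hu₂A

end T3

end Fermat.Agent.A2.Mod.H189

end
-- ===== PACK-END A2/Mod/H189/ChartChangeT3.lean

-- ===== PACK-BEGIN A2/T1/H669/T1Core.lean
section


/-!
# WALL A2, piece T1, core (helper669): from finite levels to `F̄`

`kummerTarget_of_levels` : the Kummer form of the wall (`Spec.KummerTarget`, unfolded) follows from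
the corresponding statement at ONE suitable level `E ⊆ ℚ̄` for each finite set of constants:

  for every finite `S ⊆ ℚ̄` there are an intermediate field `E ⊇ S`, an automorphism `τE` of `E`
  which is the restriction of `τ`, such that for every `y ∈ F_E^×` with `DivisibleDiv E m y`
  (unfolded: `y = u · h^m` at every discrete valuation subring of `F_E` containing `E`) the
  element `(τE - 1)² y` is an `m`-th power in `F_E`.

This file imports only files which are on main (Prelude, `S18.H602`, `S18.H845`); the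
instantiation from ALG / MOD / IF of `origin/helper13:Fermat/Agent/A2/Skel.lean` is `T1.lean`.
-/

set_option autoImplicit false
set_option synthInstance.maxHeartbeats 400000
set_option maxHeartbeats 1600000

noncomputable section

namespace Fermat.Agent.A2.T1.H669

open ModularCurve AlgebraicCurve

/-- A finite-dimensional intermediate field is contained in every intermediate field containing
a suitable finite set. -/
theorem exists_finset_le (E₀ : IntermediateField ℚ _root_.Fermat.Agent.A2.T1.H669.Qb) [FiniteDimensional ℚ E₀] :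
    ∃ S : Finset _root_.Fermat.Agent.A2.T1.H669.Qb, ∀ E : IntermediateField ℚ _root_.Fermat.Agent.A2.T1.H669.Qb, (∀ s ∈ S, s ∈ E) → E₀ ≤ E := by
  classical
  let b := Module.finBasis ℚ E₀
  refine ⟨Finset.univ.image fun i => ((b i : E₀) : _root_.Fermat.Agent.A2.T1.H669.Qb), fun E hE x hx => ?_⟩
  have hx' : (⟨x, hx⟩ : E₀) = ∑ i, (b.repr ⟨x, hx⟩ i) • b i := (b.sum_repr ⟨x, hx⟩).symm
  have hcoe : x = ((∑ i, (b.repr ⟨x, hx⟩ i) • b i : E₀) : _root_.Fermat.Agent.A2.T1.H669.Qb) :=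
    congrArg (fun z : E₀ => (z : _root_.Fermat.Agent.A2.T1.H669.Qb)) hx'
  rw [hcoe, IntermediateField.coe_sum]
  refine sum_mem fun i _ => ?_
  have hi : ((b i : E₀) : _root_.Fermat.Agent.A2.T1.H669.Qb) ∈ E := hE _ (Finset.mem_image.2 ⟨i, Finset.mem_univ i, rfl⟩)
  rw [IntermediateField.coe_smul, Algebra.smul_def]
  exact mul_mem (E.algebraMap_mem _) hi

/-- Every element of `F̄` comes from `F_E` for every intermediate field `E` containing a suitable
finite set of constants. -/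
theorem exists_finset_descent (F₀ : IntermediateField ℚ (LaurentSeries ℚ))
    (f : ↥(laurentBaseChange _root_.Fermat.Agent.A2.T1.H669.Qb F₀)) :
    ∃ S : Finset _root_.Fermat.Agent.A2.T1.H669.Qb, ∀ E : IntermediateField ℚ _root_.Fermat.Agent.A2.T1.H669.Qb, (∀ s ∈ S, s ∈ E) →
      ∃ y : ↥(laurentBaseChange E F₀), iota E F₀ y = f := by
  obtain ⟨E₀, hE₀fin, y₀, hy₀mem, hy₀⟩ :=
    Fermat.Agent.S18.H602.exists_finite_descent (F₀ := F₀) f.2
  haveI := hE₀fin
  obtain ⟨S, hS⟩ := exists_finset_le E₀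
  refine ⟨S, fun E hSE => ?_⟩
  obtain ⟨y₁, hy₁mem, hy₁⟩ :=
    Fermat.Agent.S18.H602.DescendsTo.mono (hS E hSE)
      (⟨y₀, hy₀mem, hy₀⟩ : Fermat.Agent.S18.H602.DescendsTo F₀ E₀ (f : LaurentSeries _root_.Fermat.Agent.A2.T1.H669.Qb))
  exact ⟨⟨y₁, hy₁mem⟩, Subtype.ext hy₁⟩

/-- **T1, core.**  One `τ`: the Kummer statement on `F̄` from the Kummer statement at suitable
finite levels. -/
theorem kummer_of_levels (F₀ : IntermediateField ℚ (LaurentSeries ℚ)) (m : ℕ)
    (τ : _root_.Fermat.Agent.A2.T1.H669.Qb ≃ₐ[ℚ] _root_.Fermat.Agent.A2.T1.H669.Qb)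
    (hlevel : ∀ S : Finset _root_.Fermat.Agent.A2.T1.H669.Qb, ∃ E : IntermediateField ℚ _root_.Fermat.Agent.A2.T1.H669.Qb, (∀ s ∈ S, s ∈ E) ∧
      ∃ τE : E ≃ₐ[ℚ] E, (∀ e : E, ((τE e : E) : _root_.Fermat.Agent.A2.T1.H669.Qb) = τ (e : _root_.Fermat.Agent.A2.T1.H669.Qb)) ∧
        ∀ y : ↥(laurentBaseChange E F₀), y ≠ 0 →
          (∀ V : ValuationSubring ↥(laurentBaseChange E F₀), IsDiscreteValuationRing V →
            (∀ e : E, algebraMap E ↥(laurentBaseChange E F₀) e ∈ V) →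
            ∃ h u : ↥(laurentBaseChange E F₀), h ≠ 0 ∧ u ∈ V ∧ u⁻¹ ∈ V ∧ y = u * h ^ m) →
          ∃ h : ↥(laurentBaseChange E F₀), h ≠ 0 ∧
            arithmeticRingAut F₀ τE (arithmeticRingAut F₀ τE y) * y =
              h ^ m * (arithmeticRingAut F₀ τE y) ^ 2)
    (f : ↥(laurentBaseChange _root_.Fermat.Agent.A2.T1.H669.Qb F₀)) (hf : f ≠ 0)
    (hdiv : ∀ v : Place _root_.Fermat.Agent.A2.T1.H669.Qb ↥(laurentBaseChange _root_.Fermat.Agent.A2.T1.H669.Qb F₀), (m : ℤ) ∣ v.ord f) :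
    ∃ h : ↥(laurentBaseChange _root_.Fermat.Agent.A2.T1.H669.Qb F₀), h ≠ 0 ∧
      arithmeticRingAut F₀ τ (arithmeticRingAut F₀ τ f) * f =
        h ^ m * (arithmeticRingAut F₀ τ f) ^ 2 := by
  obtain ⟨S, hS⟩ := exists_finset_descent F₀ f
  obtain ⟨E, hSE, τE, hτE, hE⟩ := hlevel S
  obtain ⟨y, hιy⟩ := hS E hSE
  have hy0 : y ≠ 0 := by
    rintro h0
    apply hf
    rw [← hιy, h0, map_zero]
  obtain ⟨h, hh0, hh⟩ := hE y hy0
    (divisibleDiv_of_ord E F₀ m y hy0 (fun v => by rw [hιy]; exact hdiv v))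
  refine ⟨iota E F₀ h, iota_ne_zero E _ hh0, ?_⟩
  have := congrArg (iota E F₀) hh
  rw [map_mul, map_mul, map_pow, map_pow,
    iota_arithmeticRingAut E F₀ τ τE hτE,
    iota_arithmeticRingAut E F₀ τ τE hτE, hιy] at this
  exact this

end Fermat.Agent.A2.T1.H669

end
end
-- ===== PACK-END A2/T1/H669/T1Core.lean

-- ===== PACK-BEGIN Ribet/H103/AlgPSpec.lean
section


/-!
# RIBET, wall at `p`, target S2 (I4 + I5) — ALG-p: frozen abstract interface (helper103)

Sub-architect file for `Fermat.Agent.Ribet.H944.Wall.S2For` ("inertia acts through the cyclotomic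
character on the new part of the split part").  This file is the ABSTRACT half (Mathlib + the
definitions of `A2/Spec.lean`, `A2/Alg/Spec.lean` only): the analogue at `m = p = ` residue
characteristic of A2's `AlgSSStatement`.  It contains definitions, three leaf `Prop`s and the
PROVED assembly `algP_of_leaves`.

Setting (verbatim the context of `A2.AlgSSStatement`): `R` henselian DVR with algebraically closed
residue field of characteristic `p`, `E = Frac R` of characteristic `0`, `ζ ∈ R` a primitive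
`p`-th root of unity, `lam := ζ - 1` (so `p = unit * lam ^ (p - 1)` and `w ∣ lam`), `F / E` a
function field, `B` a chart with `c : SSChart w B` (components `p₁`, `p₂`; `V_i := B_{p_i}`),
`τ` a semilinear automorphism, `≡ id` modulo `w` on the charts, with `τ ζ = ζ ^ k`.

Predicates (all elementwise, in the style of `A2/Alg/Spec.lean`):

* `DeepAt B 𝔮 π u`        : `u ∈ 1 + π · B_𝔮`;
* `IsDeepSplit B c π u`   : `u ∈ 1 + π V₁` and `u ∈ 1 + π V₂`   (used with `π = lam ^ p * w`: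
                            then `u` is a `p`-th power in the completions at `V₁`, `V₂`, and the
                            sheet `Y ≡ 0` of the Artin–Schreier cover
                            `(1 + lam Y) ^ p = u`, i.e. `Y ^ p - Y ≡ (u - 1) / lam ^ p`, is
                            canonical on both components);
* `WildPureAt B c p lam u n` : `u · g ^ p ∈ 1 + lam ^ p · B_n` for some `g ≡ 1 mod lam` on the
                            components through `n` (the Kummer cover is Artin–Schreier, hence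
                            ETALE, over `B_n`);
* `LocalFactorP B c p lam u n` : `u · h ^ p ∈ 1 + lam ^ p w · B_n` for some `h ≡ 1 mod lam w` on
                            the components through `n` (étale at `n` with TRIVIAL label: the
                            canonical sheets of the components through `n` meet over `n`).

Leaves:

* `WildPurityLeaf` (WP)  : `PureAt` (A2) + `IsDeepSplit` ⟹ `WildPureAt`.
     Proof sketch: `u d ^ p = υ ∈ B_nˣ`.  Induction on `0 ≤ j ≤ a` (`lam = unit * w ^ a`): there is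
     `s ∈ B_nˣ` with `s / d ∈ 1 + w ^ j V_i` for the components through `n`.  Step: write
     `s / d = 1 + w ^ j b_i`; then `υ / s ^ p ≡ 1 - w ^ (j p) b_i ^ p  mod w ^ (j p + 1) V_i`
     (`j < a`), so `(1 - υ / s ^ p) / w ^ (j p) ∈ B_n` (`p₁ ⊓ p₂ = (w)`) has residue `b̄_i ^ p` on
     `C_i`; `B ⧸ p_i` is normal, so `b̄_i` is regular at `n`; at a crossing point the two values
     `b̄_1(n)`, `b̄_2(n)` are `p`-th roots of the same element of `k`, hence equal, and
     `(p₁ ⊔ p₂)` radical gives `b ∈ B_n` lifting both; replace `s` by `s (1 + w ^ j b)`.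
     At `j = a`: `g := d / s`, `u g ^ p = υ / s ^ p ∈ (1 + lam ^ p V₁) ∩ (1 + lam ^ p V₂) ∩ B_n`.
* `LabelLeaf` (LABEL)    : `WildPureAt u n` ⟹ `LocalFactorP (τ u / u ^ k) n`   (`τ ζ = ζ ^ k`).
     Proof: `v := u g ^ p = 1 + lam ^ p z`, `h := τ g / g ^ k`; `τ lam = lam (k + lam r)`,
     `(k + lam r) ^ p ∈ k + lam ^ (p - 1) R`, `τ z - z ∈ w B_n`, `τ g' - g' ∈ w V_i`.
* `GluePLeaf` (GLUE-p)   : `LocallyFactoredP` on both charts ⟹ `u` is a `p`-th power.
     Proof: `A2.H729.generic_idempotent_trivial` for the field `F(y)`, `y ^ p = u`, and the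
     generic idempotent `e₀ = 1 - Y ^ (p - 1)`, `Y = (y - 1) / lam` (`Y ^ p ≡ Y mod w`); the
     generator of `Gal(F(y)/F)` acts by `Y ↦ Y + 1 mod lam`, so `e₀ ≢ 0, 1` if `y ∉ F`.
     (`E` is algebraically closed in `F(y)`: `V₁` splits completely, cf. `A2/H552/HConst.lean`.)

Assembly (PROVED here): `algP_of_leaves : WP → LABEL → GLUE-p → AlgPStatement`.
-/

set_option autoImplicit false

namespace Fermat.Agent.Ribet.H103.AlgP

open Fermat.Agent.A2 Fermat.Agent.A2.Alg Fermat.Agent.A2.Alg.H34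

section Defs

variable {R F : Type*} [CommRing R] [Field F] [Algebra R F]

/-- `u ∈ 1 + π · B_𝔮`: `u = a / b` with `b ∉ 𝔮` and `a - b ∈ π B`. -/
def DeepAt (B : Subalgebra R F) (𝔮 : Ideal B) (π : R) (u : F) : Prop :=
  LocOne B 𝔮 (Ideal.span {algebraMap R B π}) u

/-- `u ≡ 1` modulo `π` on both components of the chart. -/
def IsDeepSplit {w : R} (B : Subalgebra R F) (c : SSChart w B) (π : R) (u : F) : Prop :=
  DeepAt B c.p₁ π u ∧ DeepAt B c.p₂ π u

/-- **Wild purity datum at `n`**: `u · g ^ p ∈ 1 + lam ^ p · B_n` with `g ≡ 1 mod lam` on the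
components through `n`. -/
def WildPureAt {w : R} (B : Subalgebra R F) (c : SSChart w B) (p : ℕ) (lam : R) (u : F)
    (n : Ideal B) : Prop :=
  ∃ g : F, g ≠ 0 ∧ DeepAt B n (lam ^ p) (u * g ^ p) ∧
    (c.p₁ ≤ n → DeepAt B c.p₁ lam g) ∧ (c.p₂ ≤ n → DeepAt B c.p₂ lam g)

/-- **Local factorisation at `n` (wild form, trivial label)**:
`u · h ^ p ∈ 1 + lam ^ p w · B_n` with `h ≡ 1 mod lam w` on the components through `n`. -/
def LocalFactorP {w : R} (B : Subalgebra R F) (c : SSChart w B) (p : ℕ) (lam : R) (u : F)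
    (n : Ideal B) : Prop :=
  ∃ h : F, h ≠ 0 ∧ DeepAt B n (lam ^ p * w) (u * h ^ p) ∧
    (c.p₁ ≤ n → DeepAt B c.p₁ (lam * w) h) ∧ (c.p₂ ≤ n → DeepAt B c.p₂ (lam * w) h)

/-- Wild local factorisations at ALL closed points of the special fibre of the chart `B`. -/
def LocallyFactoredP {w : R} (B : Subalgebra R F) (c : SSChart w B) (p : ℕ) (lam : R)
    (u : F) : Prop :=
  ∀ n : Ideal B, n.IsMaximal → algebraMap R B w ∈ n → LocalFactorP B c p lam u n

end Defs

/-! ## The three leaves -/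

/-- **Leaf WP** (wild purity): a deeply split class which is pure at the closed point `n` is
wildly pure at `n`. -/
def WildPurityLeaf : Prop :=
  ∀ {R E F : Type} [CommRing R] [IsDomain R] [IsDiscreteValuationRing R]
    [HenselianLocalRing R] [IsAlgClosed (IsLocalRing.ResidueField R)]
    [Field E] [CharZero E] [Algebra R E] [IsFractionRing R E]
    [Field F] [Algebra E F] [Algebra R F] [IsScalarTower R E F]
    (p : ℕ) (_ : p.Prime) (_ : (p : R) ∈ IsLocalRing.maximalIdeal R)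
    (ζ : R) (_ : IsPrimitiveRoot ζ p)
    (w : R) (x : F) (B : Subalgebra R F) (_ : ChartCtx E w x B)
    (c : SSChart w B)
    (u : F) (_ : u ≠ 0) (_ : IsDeepSplit B c ((ζ - 1) ^ p * w) u)
    (n : Ideal B) (_ : n.IsMaximal) (_ : algebraMap R B w ∈ n)
    (_ : PureAt B c p u n), WildPureAt B c p (ζ - 1) u n

/-- **Leaf LABEL**: inertia multiplies the Artin–Schreier labels by the cyclotomic character:
if `u` is wildly pure at `n` and `τ ζ = ζ ^ k`, then `τ u / u ^ k` is locally factored at `n`. -/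
def LabelLeaf : Prop :=
  ∀ {R E F : Type} [CommRing R] [IsDomain R] [IsDiscreteValuationRing R]
    [HenselianLocalRing R] [IsAlgClosed (IsLocalRing.ResidueField R)]
    [Field E] [CharZero E] [Algebra R E] [IsFractionRing R E]
    [Field F] [Algebra E F] [Algebra R F] [IsScalarTower R E F]
    (p : ℕ) (_ : p.Prime) (_ : (p : R) ∈ IsLocalRing.maximalIdeal R)
    (ζ : R) (_ : IsPrimitiveRoot ζ p)
    (w : R) (_ : Irreducible w) (B : Subalgebra R F) (c : SSChart w B)
    (τ : F ≃+* F) (τE : E ≃+* E) (τR : R ≃+* R) (_ : TauCtx w B τ τE τR)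
    (k : ℕ) (_ : τR ζ = ζ ^ k)
    (u : F) (_ : u ≠ 0)
    (n : Ideal B) (_ : n.IsPrime) (_ : algebraMap R B w ∈ n)
    (_ : WildPureAt B c p (ζ - 1) u n),
    LocalFactorP B c p (ζ - 1) (τ u * (u ^ k)⁻¹) n

/-- **Leaf GLUE-p**: a class of order `p` which is locally factored (wild form) at every closed
point of the special fibre of both charts is trivial. -/
def GluePLeaf : Prop :=
  ∀ {R E F : Type} [CommRing R] [IsDomain R] [IsDiscreteValuationRing R]
    [HenselianLocalRing R] [IsAlgClosed (IsLocalRing.ResidueField R)]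
    [Field E] [CharZero E] [Algebra R E] [IsFractionRing R E]
    [Field F] [Algebra E F] [Algebra R F] [IsScalarTower R E F]
    (p : ℕ) (_ : p.Prime) (_ : (p : R) ∈ IsLocalRing.maximalIdeal R)
    (ζ : R) (_ : IsPrimitiveRoot ζ p)
    (w : R) (x : F) (Bf Bi : Subalgebra R F)
    (_ : ChartCtx E w x Bf) (_ : ChartCtx E w x⁻¹ Bi)
    (cf : SSChart w Bf) (ci : SSChart w Bi)
    (u : F) (_ : u ≠ 0) (_ : DivisibleDiv E p u)
    (_ : LocallyFactoredP Bf cf p (ζ - 1) u) (_ : LocallyFactoredP Bi ci p (ζ - 1) u),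
    ∃ y : F, y ≠ 0 ∧ u = y ^ p

/-! ## The interface statement and the assembly -/

/-- **ALG-p (interface statement).**  In the setting of `A2.AlgSSStatement` with residue
characteristic `p` and `ζ_p ∈ R`: if `u` has divisor divisible by `p`, is deeply split
(`≡ 1 mod (ζ-1)^p w` on both components of both charts) and pure at every closed point of the
special fibre, and `τ ζ = ζ ^ k`, then `τ u = h ^ p * u ^ k`. -/
def AlgPStatement : Prop :=
  ∀ {R E F : Type} [CommRing R] [IsDomain R] [IsDiscreteValuationRing R]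
    [HenselianLocalRing R] [IsAlgClosed (IsLocalRing.ResidueField R)]
    [Field E] [CharZero E] [Algebra R E] [IsFractionRing R E]
    [Field F] [Algebra E F] [Algebra R F] [IsScalarTower R E F]
    (p : ℕ) (_ : p.Prime) (_ : (p : R) ∈ IsLocalRing.maximalIdeal R)
    (ζ : R) (_ : IsPrimitiveRoot ζ p)
    (w : R) (_ : Irreducible w)
    (x : F) (_ : Transcendental E x)
    (_ : FiniteDimensional (IntermediateField.adjoin E ({x} : Set F)) F)
    (_ : ∀ f : F, IsAlgebraic E f → f ∈ (algebraMap E F).range)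
    (Bf Bi : Subalgebra R F)
    (_ : ∀ f : F, f ∈ Bf ↔ IsIntegral (Algebra.adjoin R ({x} : Set F)) f)
    (_ : ∀ f : F, f ∈ Bi ↔ IsIntegral (Algebra.adjoin R ({x⁻¹} : Set F)) f)
    (cf : SSChart w Bf) (ci : SSChart w Bi)
    (τ : F ≃+* F) (τE : E ≃+* E) (τR : R ≃+* R)
    (_ : ∀ e : E, τ (algebraMap E F e) = algebraMap E F (τE e))
    (_ : ∀ r : R, τE (algebraMap R E r) = algebraMap R E (τR r))
    (_ : ∀ b ∈ Bf, ∃ c ∈ Bf, τ b - b = algebraMap R F w * c)
    (_ : ∀ b ∈ Bi, ∃ c ∈ Bi, τ b - b = algebraMap R F w * c)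
    (k : ℕ) (_ : τR ζ = ζ ^ k)
    (u : F) (_ : u ≠ 0) (_ : DivisibleDiv E p u)
    (_ : IsDeepSplit Bf cf ((ζ - 1) ^ p * w) u) (_ : IsDeepSplit Bi ci ((ζ - 1) ^ p * w) u)
    (_ : ∀ n : Ideal Bf, n.IsMaximal → algebraMap R Bf w ∈ n → PureAt Bf cf p u n)
    (_ : ∀ n : Ideal Bi, n.IsMaximal → algebraMap R Bi w ∈ n → PureAt Bi ci p u n),
    ∃ h : F, h ≠ 0 ∧ τ u = h ^ p * u ^ k

section Asm

variable {R E F : Type} [CommRing R] [Field E] [Algebra R E] [Field F] [Algebra E F]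
  [Algebra R F]

/-- `m ∣ div (f ^ k)` if `m ∣ div f`. -/
theorem divisibleDiv_pow_h103 (m k : ℕ) (f : F) (hf : DivisibleDiv E m f) :
    DivisibleDiv E m (f ^ k) := by
  intro V hV hE
  obtain ⟨h, u, hh, hu, hu', rfl⟩ := hf V hV hE
  refine ⟨h ^ k, u ^ k, pow_ne_zero k hh, V.pow_mem hu k, ?_, ?_⟩
  · rw [← inv_pow]
    exact V.pow_mem hu' k
  · rw [mul_pow, ← pow_mul, ← pow_mul, mul_comm m k]

end Asm

/-- **ALG-p from its three leaves.** -/
theorem algP_of_leaves (hWP : WildPurityLeaf) (hL : LabelLeaf) (hG : GluePLeaf) :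
    AlgPStatement := by
  intro R E F _ _ _ _ _ _ _ _ _ _ _ _ _ p hp hpR ζ hζ w hw x hx hfin hconst Bf Bi hBf hBi
    cf ci τ τE τR hτE hτR hτf hτi k hk u hu hdiv hsf hsi hpf hpi
  have hCf : ChartCtx E w x Bf := ⟨hw, hx, hfin, hconst, hBf⟩
  have hCi : ChartCtx E w x⁻¹ Bi := chartCtx_inv w hw x hx hfin hconst Bi hBi
  have hTf : TauCtx w Bf τ τE τR := ⟨hτE, hτR, hτf⟩
  have hTi : TauCtx w Bi τ τE τR := ⟨hτE, hτR, hτi⟩
  have hτu : τ u ≠ 0 := (map_ne_zero τ).2 hu
  have huk : u ^ k ≠ 0 := pow_ne_zero k hu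
  have hu' : τ u * (u ^ k)⁻¹ ≠ 0 := mul_ne_zero hτu (inv_ne_zero huk)
  have hdiv' : DivisibleDiv E p (τ u * (u ^ k)⁻¹) :=
    divisibleDiv_mul_inv p _ _ (divisibleDiv_tau τ τE hτE p u hdiv)
      (divisibleDiv_pow_h103 p k u hdiv)
  have hf : LocallyFactoredP Bf cf p (ζ - 1) (τ u * (u ^ k)⁻¹) := fun n hn hwn =>
    hL p hp hpR ζ hζ w hw Bf cf τ τE τR hTf k hk u hu n hn.isPrime hwn
      (hWP p hp hpR ζ hζ w x Bf hCf cf u hu hsf n hn hwn (hpf n hn hwn))
  have hi : LocallyFactoredP Bi ci p (ζ - 1) (τ u * (u ^ k)⁻¹) := fun n hn hwn =>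
    hL p hp hpR ζ hζ w hw Bi ci τ τE τR hTi k hk u hu n hn.isPrime hwn
      (hWP p hp hpR ζ hζ w x⁻¹ Bi hCi ci u hu hsi n hn hwn (hpi n hn hwn))
  obtain ⟨y, hy, hyu⟩ := hG p hp hpR ζ hζ w x Bf Bi hCf hCi cf ci _ hu' hdiv' hf hi
  refine ⟨y, hy, ?_⟩
  rw [← hyu, mul_assoc, inv_mul_cancel₀ huk, mul_one]

end Fermat.Agent.Ribet.H103.AlgP

end
-- ===== PACK-END Ribet/H103/AlgPSpec.lean

-- ===== PACK-BEGIN Ribet/H495/AlgPLoc.lean
section


/-!
# W-ALGP: the local calculus (helper495)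

* `locSub B n` : the localisation `B_n ⊆ F` as a subalgebra (`n` prime);
* `locOneR_iff` : `LocOneR B n r u ↔ u ∈ 1 + r · B_n`;
* `TauLoc` : what is needed from `τ` on a subalgebra `S` (`τ ≡ id mod w`, `1 + w S ⊆ Sˣ`);
* `tau_one_add` (**key computation**): `τ (1 + Λ^k t) = (1 + Λ^k t)^c · (1 + Λ^k w s)`.
-/

set_option autoImplicit false

namespace Fermat.Agent.Ribet.H495.AlgP

open Fermat.Agent.A2 Fermat.Agent.A2.Alg

section Loc

variable {R F : Type*} [CommRing R] [Field F] [Algebra R F]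

/-- The localisation `B_n ⊆ F`. -/
def locSub (B : Subalgebra R F) (n : Ideal B) (hn : n.IsPrime) : Subalgebra R F where
  carrier := {f | ∃ a b : B, b ∉ n ∧ f * (b : F) = (a : F)}
  mul_mem' := by
    rintro f g ⟨a, b, hb, hab⟩ ⟨a', b', hb', hab'⟩
    refine ⟨a * a', b * b', fun h => ?_, ?_⟩
    · rcases hn.mem_or_mem h with h | h
      · exact hb h
      · exact hb' h
    · push_cast
      rw [← hab, ← hab']
      ring
  add_mem' := by
    rintro f g ⟨a, b, hb, hab⟩ ⟨a', b', hb', hab'⟩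
    refine ⟨a * b' + a' * b, b * b', fun h => ?_, ?_⟩
    · rcases hn.mem_or_mem h with h | h
      · exact hb h
      · exact hb' h
    · push_cast
      rw [← hab, ← hab']
      ring
  algebraMap_mem' r :=
    ⟨algebraMap R B r, 1, fun h => hn.ne_top ((Ideal.eq_top_iff_one n).2 h), by simp⟩

theorem mem_locSub {B : Subalgebra R F} {n : Ideal B} {hn : n.IsPrime} {f : F} :
    f ∈ locSub B n hn ↔ ∃ a b : B, b ∉ n ∧ f * (b : F) = (a : F) := Iff.rfl

theorem coe_ne_zero_of_notMem495 {B : Subalgebra R F} {n : Ideal B} {b : B} (hb : b ∉ n) :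
    (b : F) ≠ 0 := by
  intro h
  apply hb
  have : b = 0 := Subtype.ext h
  rw [this]
  exact n.zero_mem

/-- `LocOneR B n r u ↔ u ∈ 1 + r · B_n`. -/
theorem locOneR_iff {B : Subalgebra R F} {n : Ideal B} (hn : n.IsPrime) {r : R} {u : F} :
    LocOneR B n r u ↔ ∃ t ∈ locSub B n hn, u = 1 + algebraMap R F r * t := by
  constructor
  · rintro ⟨a, b, hb, hab, e⟩
    obtain ⟨c, hc⟩ := Ideal.mem_span_singleton'.1 hab
    have hb0 : (b : F) ≠ 0 := coe_ne_zero_of_notMem495 hb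
    have hcF : (c : F) * algebraMap R F r = (a : F) - (b : F) := by
      have := congrArg (fun z : B => (z : F)) hc
      simpa using this
    refine ⟨(c : F) * (b : F)⁻¹, ⟨c, b, hb, by field_simp⟩, ?_⟩
    have hu : u = (a : F) * (b : F)⁻¹ := by
      field_simp
      exact e
    rw [hu]
    field_simp
    linear_combination -hcF
  · rintro ⟨t, ⟨a, b, hb, hab⟩, rfl⟩
    refine ⟨b + algebraMap R B r * a, b, hb, ?_, ?_⟩
    · rw [add_sub_cancel_left]
      exact Ideal.mul_mem_right _ _ (Ideal.mem_span_singleton_self _)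
    · push_cast
      rw [add_mul, one_mul, mul_assoc, hab]

end Loc

section Tau

variable {R F : Type*} [CommRing R] [Field F] [Algebra R F]

/-- The properties of a subalgebra `S ⊆ F` (a localisation of a chart at a prime containing `w`)
with respect to `τ` used in the computations. -/
structure TauLoc (w : R) (S : Subalgebra R F) (τ : F ≃+* F) : Prop where
  /-- `1 + w S ⊆ Sˣ` -/
  inv_mem : ∀ s ∈ S, (1 + algebraMap R F w * s) ≠ 0 ∧ (1 + algebraMap R F w * s)⁻¹ ∈ S
  /-- `τ ≡ id mod w` on `S` -/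
  tau : ∀ s ∈ S, ∃ s' ∈ S, τ s = s + algebraMap R F w * s'

/-- `τ ≡ id mod w` on the chart passes to the localisation at a prime containing `w`. -/
theorem tauLoc_locSub (w : R) (B : Subalgebra R F) (τ : F ≃+* F)
    (hτB : ∀ b ∈ B, ∃ c ∈ B, τ b - b = algebraMap R F w * c)
    (n : Ideal B) (hn : n.IsPrime) (hwn : algebraMap R B w ∈ n) :
    TauLoc w (locSub B n hn) τ := by
  constructor
  · rintro s ⟨a, b, hb, hab⟩
    have hb0 : (b : F) ≠ 0 := coe_ne_zero_of_notMem495 hb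
    have hbn : b + algebraMap R B w * a ∉ n := by
      intro h
      apply hb
      have h2 : b = (b + algebraMap R B w * a) - algebraMap R B w * a := by ring
      rw [h2]
      exact n.sub_mem h (n.mul_mem_right _ hwn)
    have hne : ((b + algebraMap R B w * a : B) : F) ≠ 0 := coe_ne_zero_of_notMem495 hbn
    have hs : s = (a : F) * (b : F)⁻¹ := by
      field_simp
      exact hab
    have hcast : ((b + algebraMap R B w * a : B) : F) = (b : F) + algebraMap R F w * (a : F) := by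
      push_cast
      rfl
    have key : 1 + algebraMap R F w * s = ((b : F) + algebraMap R F w * (a : F)) * (b : F)⁻¹ := by
      rw [hs]
      field_simp
    rw [hcast] at hne
    refine ⟨?_, ?_⟩
    · rw [key]
      exact mul_ne_zero hne (inv_ne_zero hb0)
    · refine ⟨b, b + algebraMap R B w * a, hbn, ?_⟩
      rw [key, hcast]
      field_simp
  · rintro s ⟨a, b, hb, hab⟩
    obtain ⟨ca, hca, ea⟩ := hτB a a.2
    obtain ⟨cb, hcb, eb⟩ := hτB b b.2
    have hb0 : (b : F) ≠ 0 := coe_ne_zero_of_notMem495 hb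
    have hτb : τ (b : F) = (b : F) + algebraMap R F w * cb := by linear_combination eb
    have hτa : τ (a : F) = (a : F) + algebraMap R F w * ca := by linear_combination ea
    have hb'n : (⟨(b : F) + algebraMap R F w * cb,
        B.add_mem b.2 (B.mul_mem (B.algebraMap_mem w) hcb)⟩ : B) ∉ n := by
      intro h
      apply hb
      have h2 : b = (⟨(b : F) + algebraMap R F w * cb,
          B.add_mem b.2 (B.mul_mem (B.algebraMap_mem w) hcb)⟩ : B) -
          algebraMap R B w * ⟨cb, hcb⟩ := by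
        apply Subtype.ext
        push_cast
        ring
      rw [h2]
      exact n.sub_mem h (n.mul_mem_right _ hwn)
    have hτb0 : (b : F) + algebraMap R F w * cb ≠ 0 := by
      have := coe_ne_zero_of_notMem495 (F := F) hb'n
      simpa using this
    have hs : s = (a : F) * (b : F)⁻¹ := by
      field_simp
      exact hab
    have hτs : τ s = ((a : F) + algebraMap R F w * ca) * ((b : F) + algebraMap R F w * cb)⁻¹ := by
      rw [hs, map_mul, map_inv₀, hτa, hτb]
    refine ⟨(ca * (b : F) - (a : F) * cb) * ((b : F) * ((b : F) + algebraMap R F w * cb))⁻¹,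
      ⟨⟨ca, hca⟩ * b - a * ⟨cb, hcb⟩,
        b * ⟨(b : F) + algebraMap R F w * cb,
          B.add_mem b.2 (B.mul_mem (B.algebraMap_mem w) hcb)⟩, ?_, ?_⟩, ?_⟩
    · intro h
      rcases hn.mem_or_mem h with h | h
      · exact hb h
      · exact hb'n h
    · push_cast
      rw [mul_assoc, inv_mul_cancel₀ (mul_ne_zero hb0 hτb0), mul_one]
    · rw [hτs, hs]
      field_simp
      ring

end Tau

end Fermat.Agent.Ribet.H495.AlgP

end
-- ===== PACK-END Ribet/H495/AlgPLoc.lean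

-- ===== PACK-BEGIN S18/H754/KummerTransfer.lean
section


/-!
# S18 / Route K / étale Kummer cover: transfer between `B` and its localisation `R = B_𝔪`
-/

set_option autoImplicit false

noncomputable section

namespace Fermat.Agent.S18.H754

open Polynomial IsLocalRing

section Transfer

variable {B : Type*} [CommRing B] [IsDomain B]
  (𝔪 : Ideal B) [h𝔪 : 𝔪.IsPrime]
  (R : Type*) [CommRing R] [Algebra B R] [IsLocalization.AtPrime R 𝔪]

include h𝔪 in
lemma algebraMap_loc_injective : Function.Injective (algebraMap B R) :=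
  IsLocalization.injective R 𝔪.primeCompl_le_nonZeroDivisors

lemma disjoint_primeCompl_span {ϖ : B} (hϖ𝔪 : ϖ ∈ 𝔪) :
    Disjoint (𝔪.primeCompl : Set B) (Ideal.span {ϖ} : Ideal B) := by
  rw [Set.disjoint_left]
  intro x hx hx'
  apply hx
  have h : Ideal.span {ϖ} ≤ 𝔪 := (Ideal.span_singleton_le_iff_mem _).2 hϖ𝔪
  exact h hx'

lemma span_map_singleton (ϖ : B) :
    Ideal.span {algebraMap B R ϖ} = Ideal.map (algebraMap B R) (Ideal.span {ϖ}) := by
  rw [Ideal.map_span, Set.image_singleton]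

lemma prime_algebraMap_loc {ϖ : B} (hϖ : Prime ϖ) (hϖ𝔪 : ϖ ∈ 𝔪) :
    Prime (algebraMap B R ϖ) := by
  have h0 : algebraMap B R ϖ ≠ 0 := by
    intro h
    exact hϖ.ne_zero (algebraMap_loc_injective 𝔪 R (by rw [h, _root_.map_zero]))
  rw [← Ideal.span_singleton_prime h0, span_map_singleton]
  exact IsLocalization.isPrime_of_isPrime_disjoint 𝔪.primeCompl R _
    ((Ideal.span_singleton_prime hϖ.ne_zero).2 hϖ) (disjoint_primeCompl_span 𝔪 hϖ𝔪)

lemma not_dvd_algebraMap_loc {ϖ : B} (hϖ : Prime ϖ) (hϖ𝔪 : ϖ ∈ 𝔪) {x : B}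
    (hx : x ∉ Ideal.span {ϖ}) : algebraMap B R x ∉ Ideal.span {algebraMap B R ϖ} := by
  intro h
  apply hx
  rw [span_map_singleton] at h
  have := IsLocalization.comap_map_of_isPrime_disjoint 𝔪.primeCompl R
    ((Ideal.span_singleton_prime hϖ.ne_zero).2 hϖ) (disjoint_primeCompl_span 𝔪 hϖ𝔪)
  rw [← this]
  exact h

lemma maximalIdeal_loc_eq_span_pair [IsLocalRing R] {ϖ t : B} (hϖ𝔪 : ϖ ∈ 𝔪) (ht𝔪 : t ∈ 𝔪)
    (h : ∀ a ∈ 𝔪, ∃ s : B, s ∉ 𝔪 ∧ s * a ∈ Ideal.span {ϖ, t}) :
    maximalIdeal R = Ideal.span {algebraMap B R ϖ, algebraMap B R t} := by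
  rw [← IsLocalization.AtPrime.map_eq_maximalIdeal 𝔪 R]
  have hspan : Ideal.span {algebraMap B R ϖ, algebraMap B R t} =
      Ideal.map (algebraMap B R) (Ideal.span {ϖ, t}) := by
    rw [Ideal.map_span, Set.image_pair]
  apply le_antisymm
  · rw [Ideal.map_le_iff_le_comap]
    intro a ha
    obtain ⟨s, hs, hsa⟩ := h a ha
    rw [Ideal.mem_comap, hspan]
    have h1 : algebraMap B R (s * a) ∈ Ideal.map (algebraMap B R) (Ideal.span {ϖ, t}) :=
      Ideal.mem_map_of_mem _ hsa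
    rw [_root_.map_mul] at h1
    have hu : IsUnit (algebraMap B R s) := IsLocalization.map_units R (⟨s, hs⟩ : 𝔪.primeCompl)
    exact (Ideal.unit_mul_mem_iff_mem _ hu).1 h1
  · rw [Ideal.span_le]
    intro x hx
    rcases hx with rfl | hx
    · exact Ideal.mem_map_of_mem _ hϖ𝔪
    · rw [Set.mem_singleton_iff] at hx
      subst hx
      exact Ideal.mem_map_of_mem _ ht𝔪

section Field

variable {F : Type*} [Field F] [Algebra B F] [Algebra R F] [IsScalarTower B R F]

lemma oneModPi_loc {ϖ : B} (hϖ : Prime ϖ) (hϖ𝔪 : ϖ ∈ 𝔪) {u : F} (h : OneModPi ϖ u) :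
    OneModPi (algebraMap B R ϖ) u := by
  obtain ⟨a, s, hs, has, hu⟩ := h
  refine ⟨algebraMap B R a, algebraMap B R s, not_dvd_algebraMap_loc 𝔪 R hϖ hϖ𝔪 hs, ?_, ?_⟩
  · rw [← _root_.map_sub, span_map_singleton]
    exact Ideal.mem_map_of_mem _ has
  · rw [← IsScalarTower.algebraMap_apply, ← IsScalarTower.algebraMap_apply]
    exact hu

include 𝔪 in
lemma locallyPow_of_divisibleDivisor [IsDomain R] [IsNoetherianRing R] {p : ℕ} {u : F}
    (h : DivisibleDivisor B p u) (π : R) (hπ : Prime π) : LocallyPow R p u π := by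
  haveI hP : (Ideal.span {π}).IsPrime := (Ideal.span_singleton_prime hπ.ne_zero).2 hπ
  have hht : (Ideal.span {π} : Ideal R).height = 1 := by
    apply le_antisymm
    · refine Ideal.height_le_one_of_isPrincipal_of_mem_minimalPrimes (Ideal.span {π}) _ ?_
      rw [Ideal.minimalPrimes_eq_subsingleton_self]
      exact Set.mem_singleton _
    · rw [Order.one_le_iff_pos, pos_iff_ne_zero]
      intro h0
      rw [Ideal.height_eq_zero_iff, IsDomain.minimalPrimes_eq_singleton_bot] at h0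
      rw [Set.mem_singleton_iff, Ideal.span_singleton_eq_bot] at h0
      exact hπ.ne_zero h0
  have hht' : ((Ideal.span {π} : Ideal R).under B).height = 1 := by
    rw [IsLocalization.height_comap 𝔪.primeCompl, hht]
  obtain ⟨t, a, s, ha, hs, hu⟩ := h ((Ideal.span {π} : Ideal R).under B) inferInstance hht'
  refine ⟨t, algebraMap B R a, algebraMap B R s, ?_, ?_, ?_⟩
  · intro hd
    apply ha
    rw [Ideal.under_def, Ideal.mem_comap, Ideal.mem_span_singleton]
    exact hd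
  · intro hd
    apply hs
    rw [Ideal.under_def, Ideal.mem_comap, Ideal.mem_span_singleton]
    exact hd
  · rw [← IsScalarTower.algebraMap_apply, ← IsScalarTower.algebraMap_apply]
    exact hu

end Field

section Int

variable {F' : Type*} [Field F'] [Algebra B F'] [Algebra R F'] [IsScalarTower B R F']

/-- an element integral over `R = B_𝔪` has a multiple by some `m ∉ 𝔪` integral over `B`. -/
lemma exists_notMem_isIntegral_mul {c : F'} (hc : IsIntegral R c) :
    ∃ m : B, m ∉ 𝔪 ∧ IsIntegral B (algebraMap B F' m * c) := by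
  obtain ⟨⟨m, hm⟩, h⟩ := IsIntegral.exists_multiple_integral_of_isLocalization 𝔪.primeCompl c hc
  refine ⟨m, hm, ?_⟩
  rw [← Algebra.smul_def]
  exact h

/-- `ϖ O'`-membership over `R = B_𝔪` gives `ϖ O'`-membership over `B` (same `O'`). -/
lemma inPiO_of_loc {ϖ : B} (hϖ : Prime ϖ) (hϖ𝔪 : ϖ ∈ 𝔪) {y : F'}
    (h : InPiO (algebraMap B R ϖ) y) : InPiO ϖ y := by
  obtain ⟨s', hs', c, hc, hsc⟩ := h
  obtain ⟨m, hm, hmc⟩ := exists_notMem_isIntegral_mul 𝔪 R hc
  obtain ⟨s₁, ⟨s₂, hs₂⟩, hs⟩ := IsLocalization.exists_mk'_eq 𝔪.primeCompl s'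
  have hs12 : s' * algebraMap B R s₂ = algebraMap B R s₁ := by
    rw [← hs]
    exact IsLocalization.mk'_spec R s₁ ⟨s₂, hs₂⟩
  have hπ' := prime_algebraMap_loc 𝔪 R hϖ hϖ𝔪
  have hs₁ : s₁ ∉ Ideal.span {ϖ} := by
    intro h1
    have h2 : algebraMap B R s₁ ∈ Ideal.span {algebraMap B R ϖ} := by
      rw [span_map_singleton]
      exact Ideal.mem_map_of_mem _ h1
    rw [← hs12, Ideal.mem_span_singleton] at h2
    rw [Ideal.mem_span_singleton] at hs'
    rcases hπ'.dvd_or_dvd h2 with h3 | h3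
    · exact hs' h3
    · have hu : IsUnit (algebraMap B R s₂) :=
        IsLocalization.map_units R (⟨s₂, hs₂⟩ : 𝔪.primeCompl)
      exact hπ'.not_unit (isUnit_of_dvd_unit h3 hu)
  have hm' : m ∉ Ideal.span {ϖ} := by
    intro h1
    apply hm
    have h : Ideal.span {ϖ} ≤ 𝔪 := (Ideal.span_singleton_le_iff_mem _).2 hϖ𝔪
    exact h h1
  refine ⟨s₁ * m, ?_, algebraMap B F' s₂ * (algebraMap B F' m * c),
    isIntegral_algebraMap.mul hmc, ?_⟩
  · intro h1
    rw [Ideal.mem_span_singleton] at h1 hs₁ hm'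
    rcases hϖ.dvd_or_dvd h1 with h2 | h2
    · exact hs₁ h2
    · exact hm' h2
  · have e1 : algebraMap B F' s₁ = algebraMap R F' s' * algebraMap B F' s₂ := by
      rw [IsScalarTower.algebraMap_apply B R F' s₁, ← hs12, _root_.map_mul,
        ← IsScalarTower.algebraMap_apply]
    have e2 : algebraMap R F' (algebraMap B R ϖ) = algebraMap B F' ϖ :=
      (IsScalarTower.algebraMap_apply B R F' ϖ).symm
    rw [e2] at hsc
    rw [_root_.map_mul, e1]
    calc algebraMap R F' s' * algebraMap B F' s₂ * algebraMap B F' m * y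
        = algebraMap B F' s₂ * algebraMap B F' m * (algebraMap R F' s' * y) := by ring
      _ = algebraMap B F' s₂ * algebraMap B F' m * (algebraMap B F' ϖ * c) := by rw [hsc]
      _ = algebraMap B F' ϖ * (algebraMap B F' s₂ * (algebraMap B F' m * c)) := by ring

/-- `ϖ O'`-membership over `B` gives `ϖ O'`-membership over `R = B_𝔪`. -/
lemma inPiO_to_loc {ϖ : B} (hϖ : Prime ϖ) (hϖ𝔪 : ϖ ∈ 𝔪) {y : F'}
    (h : InPiO ϖ y) : InPiO (algebraMap B R ϖ) y := by
  obtain ⟨s, hs, c, hc, hsc⟩ := h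
  refine ⟨algebraMap B R s, not_dvd_algebraMap_loc 𝔪 R hϖ hϖ𝔪 hs, c, hc.tower_top, ?_⟩
  rw [← IsScalarTower.algebraMap_apply, ← IsScalarTower.algebraMap_apply]
  exact hsc

end Int

end Transfer

end Fermat.Agent.S18.H754

end

end
-- ===== PACK-END S18/H754/KummerTransfer.lean

-- ===== PACK-BEGIN A2/H609/Generator.lean
section





/-!
# Node purity, part 5: a simultaneous local generator of the root ideal

`R` noetherian local integrally closed domain, `u ≠ 0`, `π ∈ 𝔪`, `V(u, π) = {𝔪}`.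
If `m ∣ ord_𝔓 (u)` at every prime `𝔓 ∋ u`, `𝔓 ∌ π` (hypothesis `H1`), then there are `t r : R` with
`t ^ m = u * r` and `π ^ k ∈ (u, r)`.  Mathlib only.
-/

set_option autoImplicit false

namespace Fermat.Agent.A2.H609

open Ideal

variable {R : Type*} [CommRing R] [IsDomain R] [IsIntegrallyClosed R]

/-- `S_𝔓 = {f | f ^ m ∈ (u) * 𝔓}`: the elements of the root ideal that do not generate it
at `𝔓`. -/
def nonGenIdeal (u : R) (m : ℕ) (hm : m ≠ 0) (𝔓 : Ideal R) [𝔓.IsPrime] : Ideal R where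
  carrier := {f | f ^ m ∈ Ideal.span {u} * 𝔓}
  add_mem' := by
    intro f g hf hg
    show (f + g) ^ m ∈ Ideal.span {u} * 𝔓
    have hf' : f ^ m ∈ Ideal.span {u} * 𝔓 := hf
    have hg' : g ^ m ∈ Ideal.span {u} * 𝔓 := hg
    obtain ⟨x, hx, hfx⟩ := Ideal.mem_span_singleton_mul.mp hf'
    obtain ⟨y, hy, hgy⟩ := Ideal.mem_span_singleton_mul.mp hg'
    by_cases hu0 : u = 0
    · subst hu0
      have h0 : f ^ m = 0 := by rw [← hfx, zero_mul]
      have h1 : g ^ m = 0 := by rw [← hgy, zero_mul]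
      have hf0 : f = 0 := pow_eq_zero_iff hm |>.mp h0
      have hg0 : g = 0 := pow_eq_zero_iff hm |>.mp h1
      rw [hf0, hg0, add_zero, zero_pow hm]
      exact Ideal.zero_mem _
    rw [add_pow]
    refine Ideal.sum_mem _ fun i hi => ?_
    have hi' : i ≤ m := Nat.lt_succ_iff.mp (Finset.mem_range.mp hi)
    refine Ideal.mul_mem_right _ _ ?_
    -- `f^i g^(m-i) = u z` with `z ∈ 𝔓`
    obtain ⟨z, hz⟩ : u ∣ f ^ i * g ^ (m - i) :=
      dvd_pow_mul_pow hm (Dvd.intro x hfx) (Dvd.intro y hgy) hi'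
    have hzm : z ^ m = x ^ i * y ^ (m - i) := by
      have h1 : (u * z) ^ m = u ^ m * (x ^ i * y ^ (m - i)) := by
        rw [← hz]
        have : (f ^ i * g ^ (m - i)) ^ m = (f ^ m) ^ i * (g ^ m) ^ (m - i) := by ring
        rw [this, ← hfx, ← hgy, mul_pow, mul_pow]
        have hum : u ^ m = u ^ i * u ^ (m - i) := by
          rw [← pow_add, Nat.add_sub_cancel' hi']
        rw [hum]; ring
      rw [mul_pow] at h1
      exact mul_left_cancel₀ (pow_ne_zero m hu0) h1
    have hzP : z ∈ 𝔓 := by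
      apply Ideal.IsPrime.mem_of_pow_mem (inferInstance : 𝔓.IsPrime) m
      rw [hzm]
      by_cases hi0 : i = 0
      · subst hi0
        rw [pow_zero, one_mul, Nat.sub_zero]
        exact Ideal.pow_mem_of_mem _ hy m (Nat.pos_of_ne_zero hm)
      · exact Ideal.mul_mem_right _ _ (Ideal.pow_mem_of_mem _ hx i (Nat.pos_of_ne_zero hi0))
    rw [hz]
    exact Ideal.mul_mem_mul (Ideal.mem_span_singleton_self u) hzP
  zero_mem' := by
    show (0 : R) ^ m ∈ Ideal.span {u} * 𝔓
    rw [zero_pow hm]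
    exact Ideal.zero_mem _
  smul_mem' := by
    intro c f hf
    show (c • f) ^ m ∈ Ideal.span {u} * 𝔓
    rw [_root_.smul_eq_mul, mul_pow]
    exact Ideal.mul_mem_left _ _ hf

theorem mem_nonGenIdeal {u : R} {m : ℕ} {hm : m ≠ 0} {𝔓 : Ideal R} [𝔓.IsPrime] {f : R} :
    f ∈ nonGenIdeal u m hm 𝔓 ↔ f ^ m ∈ Ideal.span {u} * 𝔓 := Iff.rfl

/-- If `f ^ m = u * r` then `f ∈ S_𝔓 ↔ r ∈ 𝔓`. -/
theorem mem_nonGenIdeal_iff_of_eq {u : R} (hu0 : u ≠ 0) {m : ℕ} {hm : m ≠ 0} {𝔓 : Ideal R}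
    [𝔓.IsPrime] {f r : R} (hf : f ^ m = u * r) : f ∈ nonGenIdeal u m hm 𝔓 ↔ r ∈ 𝔓 := by
  rw [mem_nonGenIdeal, Ideal.mem_span_singleton_mul]
  constructor
  · rintro ⟨z, hz, hzf⟩
    rw [hf] at hzf
    rwa [← mul_left_cancel₀ hu0 hzf]
  · intro hr
    exact ⟨r, hr, hf.symm⟩

variable [IsNoetherianRing R] [IsLocalRing R]

omit [IsIntegrallyClosed R] in
/-- Dimension argument: in a local ring in which `𝔪` is the only prime containing `u` and `π`,
there is no chain `u ∈ 𝔓 < 𝔔` of primes with `π ∉ 𝔔`. -/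
theorem not_lt_of_mem_of_not_mem {u π : R} (hu0 : u ≠ 0)
    (hπ : π ∈ IsLocalRing.maximalIdeal R)
    (huπ : ∀ 𝔮 : Ideal R, 𝔮.IsPrime → u ∈ 𝔮 → π ∈ 𝔮 → 𝔮 = IsLocalRing.maximalIdeal R)
    {𝔓 𝔔 : Ideal R} [h𝔓 : 𝔓.IsPrime] [h𝔔 : 𝔔.IsPrime] (hu : u ∈ 𝔓) (hπ𝔔 : π ∉ 𝔔) (hlt : 𝔓 < 𝔔) :
    False := by
  classical
  have hbot : (⊥ : Ideal R) < 𝔓 := by
    rw [bot_lt_iff_ne_bot]
    intro h
    rw [h, Ideal.mem_bot] at hu
    exact hu0 hu
  have h𝔔𝔪 : 𝔔 < IsLocalRing.maximalIdeal R := by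
    refine lt_of_le_of_ne (IsLocalRing.le_maximalIdeal h𝔔.ne_top) ?_
    intro h
    rw [h] at hπ𝔔
    exact hπ𝔔 hπ
  have hmin : IsLocalRing.maximalIdeal R ∈ (Ideal.span (({u, π} : Finset R) : Set R)).minimalPrimes := by
    refine ⟨⟨inferInstance, ?_⟩, ?_⟩
    · rw [Ideal.span_le]
      intro x hx
      simp only [Finset.coe_insert, Finset.coe_singleton, Set.mem_insert_iff,
        Set.mem_singleton_iff] at hx
      rcases hx with rfl | rfl
      · exact (IsLocalRing.le_maximalIdeal h𝔓.ne_top) hu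
      · exact hπ
    · rintro 𝔮 ⟨h𝔮, h𝔮le⟩ _
      have h1 : u ∈ 𝔮 := h𝔮le (Ideal.subset_span (by simp))
      have h2 : π ∈ 𝔮 := h𝔮le (Ideal.subset_span (by simp))
      exact (huπ 𝔮 h𝔮 h1 h2).ge
  have hle : (IsLocalRing.maximalIdeal R).height ≤ (({u, π} : Finset R)).card :=
    Ideal.height_le_card_of_mem_minimalPrimes_span_finset hmin
  have hcard : ((({u, π} : Finset R)).card : ℕ∞) ≤ 2 := by
    exact_mod_cast Finset.card_le_two
  have h1 : (⊥ : Ideal R).height + 1 ≤ 𝔓.height :=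
    Ideal.height_add_one_le_of_lt_of_isPrime hbot
  have h2 : 𝔓.height + 1 ≤ 𝔔.height := Ideal.height_add_one_le_of_lt_of_isPrime hlt
  have h3 : 𝔔.height + 1 ≤ (IsLocalRing.maximalIdeal R).height :=
    Ideal.height_add_one_le_of_lt_of_isPrime h𝔔𝔪
  have h4 : (3 : ℕ∞) ≤ (IsLocalRing.maximalIdeal R).height := by
    calc (3 : ℕ∞) = 0 + 1 + 1 + 1 := by norm_num
      _ ≤ (⊥ : Ideal R).height + 1 + 1 + 1 := by gcongr; exact zero_le
      _ ≤ 𝔓.height + 1 + 1 := by gcongr
      _ ≤ 𝔔.height + 1 := by gcongr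
      _ ≤ _ := h3
  have h5 : (3 : ℕ∞) ≤ 2 := h4.trans (hle.trans hcard)
  exact absurd h5 (by norm_num)

/-- Existence of a simultaneous local generator. -/
theorem exists_generator {u π : R} {m : ℕ} (hm : m ≠ 0) (hu0 : u ≠ 0)
    (hπ : π ∈ IsLocalRing.maximalIdeal R)
    (huπ : ∀ 𝔮 : Ideal R, 𝔮.IsPrime → u ∈ 𝔮 → π ∈ 𝔮 → 𝔮 = IsLocalRing.maximalIdeal R)
    (H1 : ∀ 𝔓 : Ideal R, 𝔓.IsPrime → u ∈ 𝔓 → π ∉ 𝔓 → ∃ f r : R, r ∉ 𝔓 ∧ f ^ m = u * r) :
    ∃ t r : R, ∃ k : ℕ, t ^ m = u * r ∧ π ^ k ∈ Ideal.span {u, r} := by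
  classical
  have hfinite : (Ideal.span {u}).minimalPrimes.Finite :=
    Ideal.finite_minimalPrimes_of_isNoetherianRing R _
  set s : Finset (Ideal R) := hfinite.toFinset.filter (fun 𝔓 => π ∉ 𝔓) with hs
  have hs_mem : ∀ 𝔓, 𝔓 ∈ s ↔ 𝔓 ∈ (Ideal.span {u}).minimalPrimes ∧ π ∉ 𝔓 := by
    intro 𝔓
    rw [hs, Finset.mem_filter, Set.Finite.mem_toFinset]
  have hs_prime : ∀ 𝔓 ∈ s, 𝔓.IsPrime := fun 𝔓 h𝔓 => ((hs_mem 𝔓).mp h𝔓).1.1.1
  have hs_u : ∀ 𝔓 ∈ s, u ∈ 𝔓 := fun 𝔓 h𝔓 =>
    ((hs_mem 𝔓).mp h𝔓).1.1.2 (Ideal.mem_span_singleton_self u)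
  -- local generators
  have hex : ∀ 𝔓 : Ideal R, ∃ f r : R, 𝔓 ∈ s → (r ∉ 𝔓 ∧ f ^ m = u * r) := by
    intro 𝔓
    by_cases h𝔓 : 𝔓 ∈ s
    · obtain ⟨f, r, hr, hf⟩ := H1 𝔓 (hs_prime 𝔓 h𝔓) (hs_u 𝔓 h𝔓) ((hs_mem 𝔓).mp h𝔓).2
      exact ⟨f, r, fun _ => ⟨hr, hf⟩⟩
    · exact ⟨0, 0, fun h => absurd h h𝔓⟩
  choose f r hfr using hex
  -- separating elements
  have hexe : ∀ 𝔓 : Ideal R, ∃ e : R, 𝔓 ∈ s → (e ∉ 𝔓 ∧ ∀ 𝔔 ∈ s, 𝔔 ≠ 𝔓 → e ∈ 𝔔) := by
    intro 𝔓
    by_cases h𝔓 : 𝔓 ∈ s
    · have := hs_prime 𝔓 h𝔓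
      have hnle : ¬ (∏ 𝔔 ∈ s.erase 𝔓, 𝔔) ≤ 𝔓 := by
        intro hle
        obtain ⟨𝔔, h𝔔, h𝔔le⟩ := (Ideal.IsPrime.prod_le (hs_prime 𝔓 h𝔓)).mp hle
        have h𝔔s : 𝔔 ∈ s := Finset.mem_of_mem_erase h𝔔
        have h𝔔ne : 𝔔 ≠ 𝔓 := Finset.ne_of_mem_erase h𝔔
        have hmin𝔓 := ((hs_mem 𝔓).mp h𝔓).1
        have hmin𝔔 := ((hs_mem 𝔔).mp h𝔔s).1
        exact h𝔔ne (le_antisymm h𝔔le (hmin𝔓.2 hmin𝔔.1 h𝔔le))
      obtain ⟨e, he, he'⟩ := SetLike.not_le_iff_exists.mp hnle
      refine ⟨e, fun _ => ⟨he', fun 𝔔 h𝔔 hne => ?_⟩⟩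
      have : (∏ 𝔔' ∈ s.erase 𝔓, 𝔔') ≤ 𝔔 :=
        Ideal.prod_le_inf.trans (Finset.inf_le (Finset.mem_erase.mpr ⟨hne, h𝔔⟩))
      exact this he
    · exact ⟨0, fun h => absurd h h𝔓⟩
  choose e he using hexe
  set t : R := ∑ 𝔓 ∈ s, e 𝔓 * f 𝔓 with ht
  -- `t ∈ I_1`
  have hterm : ∀ 𝔓 ∈ s, e 𝔓 * f 𝔓 ∈ rootIdeal u m hm 1 := by
    intro 𝔓 h𝔓
    refine Ideal.mul_mem_left _ _ ?_
    rw [mem_rootIdeal, pow_one, (hfr 𝔓 h𝔓).2]
    exact Dvd.intro _ rfl
  have htI : t ∈ rootIdeal u m hm 1 := Ideal.sum_mem _ hterm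
  obtain ⟨r₀, hr₀⟩ : u ∣ t ^ m := by
    have := htI
    rwa [mem_rootIdeal, pow_one] at this
  -- `r₀ ∉ 𝔓` for `𝔓 ∈ s`
  have hr₀s : ∀ 𝔓 ∈ s, r₀ ∉ 𝔓 := by
    intro 𝔓 h𝔓 hr𝔓
    have := hs_prime 𝔓 h𝔓
    have h1 : t ∈ nonGenIdeal u m hm 𝔓 := (mem_nonGenIdeal_iff_of_eq hu0 hr₀).mpr hr𝔓
    have h2 : ∀ 𝔔 ∈ s.erase 𝔓, e 𝔔 * f 𝔔 ∈ nonGenIdeal u m hm 𝔓 := by
      intro 𝔔 h𝔔
      have h𝔔s : 𝔔 ∈ s := Finset.mem_of_mem_erase h𝔔
      have h𝔔ne : 𝔔 ≠ 𝔓 := Finset.ne_of_mem_erase h𝔔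
      have hmem : e 𝔔 ∈ 𝔓 := (he 𝔔 h𝔔s).2 𝔓 h𝔓 (Ne.symm h𝔔ne)
      have hpow : (e 𝔔 * f 𝔔) ^ m = u * (e 𝔔 ^ m * r 𝔔) := by
        rw [mul_pow, (hfr 𝔔 h𝔔s).2]; ring
      exact (mem_nonGenIdeal_iff_of_eq hu0 hpow).mpr
        (Ideal.mul_mem_right _ _ (Ideal.pow_mem_of_mem _ hmem m (Nat.pos_of_ne_zero hm)))
    have h3 : e 𝔓 * f 𝔓 ∈ nonGenIdeal u m hm 𝔓 := by
      have hsum : t = e 𝔓 * f 𝔓 + ∑ 𝔔 ∈ s.erase 𝔓, e 𝔔 * f 𝔔 := by
        rw [ht, ← Finset.add_sum_erase s _ h𝔓]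
      have : e 𝔓 * f 𝔓 = t - ∑ 𝔔 ∈ s.erase 𝔓, e 𝔔 * f 𝔔 := by rw [hsum]; ring
      rw [this]
      exact Ideal.sub_mem _ h1 (Ideal.sum_mem _ h2)
    have hpow : (e 𝔓 * f 𝔓) ^ m = u * (e 𝔓 ^ m * r 𝔓) := by
      rw [mul_pow, (hfr 𝔓 h𝔓).2]; ring
    have h4 : e 𝔓 ^ m * r 𝔓 ∈ 𝔓 := (mem_nonGenIdeal_iff_of_eq hu0 hpow).mp h3
    rcases Ideal.IsPrime.mem_or_mem (hs_prime 𝔓 h𝔓) h4 with h | h
    · exact (he 𝔓 h𝔓).1 (Ideal.IsPrime.mem_of_pow_mem (hs_prime 𝔓 h𝔓) m h)
    · exact (hfr 𝔓 h𝔓).1 h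
  -- `π ∈ √(u, r₀)`
  have hrad : π ∈ (Ideal.span {u, r₀}).radical := by
    rw [Ideal.radical_eq_sInf, Ideal.mem_sInf]
    rintro 𝔔 ⟨h𝔔le, h𝔔⟩
    by_contra hπ𝔔
    have hu𝔔 : u ∈ 𝔔 := h𝔔le (Ideal.subset_span (by simp))
    have hr𝔔 : r₀ ∈ 𝔔 := h𝔔le (Ideal.subset_span (by simp))
    have hle : Ideal.span {u} ≤ 𝔔 := by
      rw [Ideal.span_le, Set.singleton_subset_iff]
      exact hu𝔔
    obtain ⟨𝔓, h𝔓min, h𝔓le⟩ := Ideal.exists_minimalPrimes_le hle
    have hπ𝔓 : π ∉ 𝔓 := fun h => hπ𝔔 (h𝔓le h)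
    have h𝔓s : 𝔓 ∈ s := (hs_mem 𝔓).mpr ⟨h𝔓min, hπ𝔓⟩
    have := hs_prime 𝔓 h𝔓s
    have hne : 𝔓 ≠ 𝔔 := by
      intro h
      rw [← h] at hr𝔔
      exact hr₀s 𝔓 h𝔓s hr𝔔
    exact not_lt_of_mem_of_not_mem hu0 hπ huπ (hs_u 𝔓 h𝔓s) hπ𝔔 (lt_of_le_of_ne h𝔓le hne)
  obtain ⟨k, hk⟩ := hrad
  exact ⟨t, r₀, k, hr₀, hk⟩

end Fermat.Agent.A2.H609

end
-- ===== PACK-END A2/H609/Generator.lean

-- ===== PACK-BEGIN Ribet/H132/NodeVal.lean
section





/-!
# RIBET wall-p, I6: the node-ring library for the assembly (helper132)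

`R` a noetherian integrally closed local domain with fraction field `K`, `hN : I6.IsNode 𝔭₁ 𝔭₂ π x y`
(a node ring in the sense of `Ribet/H704/I6Spec.lean`).  The assembly of (S4) (`I6Core.i6core`)
consumes FUNCTIONS `W₁ W₂ S : K → ℤ` (branch valuations and slope).  This file provides them.

## Branch valuations (any `VertData π 𝔭 𝔮`, e.g. both branches of a node ring)
* `valAt_iff`        : `I6.ValAt K 𝔭 π u v ↔ u π ^ (-v)` is a unit of the valuation subring `R_𝔭`
                       (`A2.Alg.H132.vertVal`);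
* `exists_valAt`, `valAt_unique`, `valAt_mul`, `valAt_inv`, `valAt_pi`, `valAt_of_notMem`;
* `branchVal h : K → ℤ` with `branchVal_spec`, `branchVal_mul`, `branchVal_eq`, `branchVal_eq_iff`;
* `branchVal_map`, `branchVal_comap` : transport along field isomorphisms (SHEETS) and field
  inclusions (covers).

## Slopes (node rings)
* `ordOn_unique`, `ordOn_mul`, `exists_slopeAt`, `slopeAt_unique`, `slopeAt_mul`, `slopeAt_inv`,
  `slopeAt_of_ordOn`, `slopeAt_pi`;
* `BranchData π 𝔭 𝔮 ϖ`, `branchSlope h : K → ℤ` with `branchSlope_spec`, `branchSlope_mul`,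
  `branchSlope_eq`; `branchData_left/right`, `vertData_left/right` for a node ring.

## Horizontal divisibility
* `horizontal_height_one` : a prime of a node ring not containing `π` has height `≤ 1`;
* `horDiv_of_divisible`, `horDivFrac_of_divisible` : `I6.HorDiv` / `I6.HorDivFrac` from
  "`u` is locally a unit times an `m`-th power at every discrete valuation ring of `K` containing
  `R[1/π]`" (the shape of `A2.DivisibleDiv` and of `hdiv` in `A2.H609.exists_pureAt_node`).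

Mathlib + `A2.H849` only.
-/

set_option autoImplicit false
set_option linter.unusedSectionVars false
set_option linter.style.haveILetI false

namespace Fermat.Agent.Ribet.H132

open Fermat.Agent.Ribet.H704 Fermat.Agent.A2.H849 Fermat.Agent.A2.Alg.H132

section Branch

variable {R : Type*} [CommRing R] [IsDomain R] [IsNoetherianRing R] [IsIntegrallyClosed R]
variable {K : Type*} [Field K] [Algebra R K] [IsFractionRing R K]
variable {π : R} {𝔭 𝔮 : Ideal R}

/-- A unit of `R_𝔭` is a fraction of two elements outside `𝔭`. -/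
theorem exists_frac_of_unit_vertVal (h : VertData π 𝔭 𝔮) {ε : K} (hε : ε ∈ vertVal (F := K) h)
    (hε' : ε⁻¹ ∈ vertVal (F := K) h) (hε0 : ε ≠ 0) :
    ∃ a b : R, a ∉ 𝔭 ∧ b ∉ 𝔭 ∧ ε * algebraMap R K b = algebraMap R K a := by
  have hp := h.prime
  obtain ⟨a, s, hs, has⟩ := (mem_vertVal_iff h ε).1 hε
  obtain ⟨a', s', hs', has'⟩ := (mem_vertVal_iff h ε⁻¹).1 hε'
  have hs0 : algebraMap R K s ≠ 0 := algebraMap_ne_zero (fun h0 => hs (h0 ▸ 𝔭.zero_mem))
  have hs'0 : algebraMap R K s' ≠ 0 := algebraMap_ne_zero (fun h0 => hs' (h0 ▸ 𝔭.zero_mem))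
  refine ⟨a, s, ?_, hs, ?_⟩
  · intro ha
    have e : a * a' = s * s' := by
      apply IsFractionRing.injective R K
      have h1 : (algebraMap R K a * (algebraMap R K s)⁻¹) *
          (algebraMap R K a' * (algebraMap R K s')⁻¹) = 1 := by
        rw [← has, ← has']
        exact mul_inv_cancel₀ hε0
      rw [map_mul, map_mul]
      field_simp at h1
      linear_combination h1
    have : s * s' ∈ 𝔭 := e ▸ 𝔭.mul_mem_right _ ha
    exact (hp.mem_or_mem this).elim hs hs'
  · rw [has]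
    field_simp

/-- `ValAt` in terms of the valuation subring `R_𝔭`. -/
theorem valAt_iff (h : VertData π 𝔭 𝔮) (u : K) (v : ℤ) :
    I6.ValAt K 𝔭 π u v ↔
      u * (algebraMap R K π) ^ (-v) ∈ vertVal (F := K) h ∧
        (u * (algebraMap R K π) ^ (-v))⁻¹ ∈ vertVal (F := K) h ∧ u ≠ 0 := by
  have hp := h.prime
  have hπ : algebraMap R K π ≠ 0 := algebraMap_ne_zero h.w_ne
  constructor
  · rintro ⟨a, b, ha, hb, hab⟩
    have ha0 : algebraMap R K a ≠ 0 := algebraMap_ne_zero (fun h0 => ha (h0 ▸ 𝔭.zero_mem))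
    have hb0 : algebraMap R K b ≠ 0 := algebraMap_ne_zero (fun h0 => hb (h0 ▸ 𝔭.zero_mem))
    have e : u * (algebraMap R K π) ^ (-v) = algebraMap R K a * (algebraMap R K b)⁻¹ := by
      have : u = (algebraMap R K π) ^ v * algebraMap R K a * (algebraMap R K b)⁻¹ := by
        rw [← hab]; field_simp
      rw [this, zpow_neg]
      field_simp
    have hu0 : u ≠ 0 := by
      rintro rfl
      rw [zero_mul] at hab
      exact mul_ne_zero (zpow_ne_zero _ hπ) ha0 hab.symm
    refine ⟨?_, ?_, hu0⟩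
    · rw [e]
      exact mul_mem (algebraMap_mem_vertVal h a) (inv_mem_vertVal h hb)
    · rw [e, mul_inv, inv_inv, mul_comm]
      exact mul_mem (algebraMap_mem_vertVal h b) (inv_mem_vertVal h ha)
  · rintro ⟨h1, h2, hu0⟩
    obtain ⟨a, b, ha, hb, hab⟩ := exists_frac_of_unit_vertVal h h1 h2
      (mul_ne_zero hu0 (zpow_ne_zero _ hπ))
    refine ⟨a, b, ha, hb, ?_⟩
    rw [← hab, zpow_neg]
    field_simp

/-- Every nonzero element of `K` has a valuation along the branch `𝔭`. -/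
theorem exists_valAt (h : VertData π 𝔭 𝔮) {u : K} (hu : u ≠ 0) : ∃ v : ℤ, I6.ValAt K 𝔭 π u v := by
  obtain ⟨n, h1, h2⟩ := exists_zpow_mul_unit (F := K) h hu
  refine ⟨-n, (valAt_iff h u (-n)).2 ⟨?_, ?_, hu⟩⟩
  · rwa [neg_neg]
  · rwa [neg_neg]

theorem valAt_ne_zero (h : VertData π 𝔭 𝔮) {u : K} {v : ℤ} (hv : I6.ValAt K 𝔭 π u v) : u ≠ 0 :=
  ((valAt_iff h u v).1 hv).2.2

/-- The valuation along a branch is unique. -/
theorem valAt_unique (h : VertData π 𝔭 𝔮) {u : K} {v v' : ℤ} (hv : I6.ValAt K 𝔭 π u v)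
    (hv' : I6.ValAt K 𝔭 π u v') : v = v' := by
  have hp := h.prime
  have hπ : algebraMap R K π ≠ 0 := algebraMap_ne_zero h.w_ne
  -- it suffices to exclude `v < v'` for any two representations
  have key : ∀ {v v' : ℤ}, I6.ValAt K 𝔭 π u v → I6.ValAt K 𝔭 π u v' → ¬ v < v' := by
    rintro v v' ⟨a, b, ha, hb, hab⟩ ⟨a', b', ha', hb', hab'⟩ hlt
    obtain ⟨k, hk⟩ : ∃ k : ℕ, v' = v + (k + 1 : ℕ) := by
      obtain ⟨k, hk⟩ := Int.eq_ofNat_of_zero_le (by omega : 0 ≤ v' - v - 1)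
      exact ⟨k, by push_cast; omega⟩
    have hb0 : algebraMap R K b ≠ 0 := algebraMap_ne_zero (fun h0 => hb (h0 ▸ 𝔭.zero_mem))
    have hb'0 : algebraMap R K b' ≠ 0 := algebraMap_ne_zero (fun h0 => hb' (h0 ▸ 𝔭.zero_mem))
    have e : a * b' = π ^ (k + 1) * a' * b := by
      apply IsFractionRing.injective R K
      simp only [map_mul, map_pow]
      have h1 : (algebraMap R K π) ^ v * algebraMap R K a * algebraMap R K b' =
          (algebraMap R K π) ^ v' * algebraMap R K a' * algebraMap R K b := by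
        rw [← hab, ← hab']; ring
      rw [hk, zpow_add₀ hπ, zpow_natCast] at h1
      have h2 := mul_left_cancel₀ (zpow_ne_zero v hπ)
        (by linear_combination h1 :
          (algebraMap R K π) ^ v * (algebraMap R K a * algebraMap R K b') =
          (algebraMap R K π) ^ v * ((algebraMap R K π) ^ (k + 1) * algebraMap R K a' *
            algebraMap R K b))
      exact h2
    have hmem : a * b' ∈ 𝔭 := by
      rw [e, mul_assoc, pow_succ, mul_assoc]
      exact 𝔭.mul_mem_left _ (𝔭.mul_mem_right _ h.w_mem)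
    exact (hp.mem_or_mem hmem).elim ha hb'
  rcases lt_trichotomy v v' with hlt | heq | hgt
  · exact absurd hlt (key hv hv')
  · exact heq
  · exact absurd hgt (key hv' hv)

theorem valAt_mul (h : VertData π 𝔭 𝔮) {u u' : K} {v v' : ℤ} (hv : I6.ValAt K 𝔭 π u v)
    (hv' : I6.ValAt K 𝔭 π u' v') : I6.ValAt K 𝔭 π (u * u') (v + v') := by
  have hp := h.prime
  have hπ : algebraMap R K π ≠ 0 := algebraMap_ne_zero h.w_ne
  obtain ⟨a, b, ha, hb, hab⟩ := hv
  obtain ⟨a', b', ha', hb', hab'⟩ := hv'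
  refine ⟨a * a', b * b', fun hm => (hp.mem_or_mem hm).elim ha ha',
    fun hm => (hp.mem_or_mem hm).elim hb hb', ?_⟩
  rw [map_mul, map_mul, zpow_add₀ hπ]
  linear_combination (u' * algebraMap R K b') * hab +
    ((algebraMap R K π) ^ v * algebraMap R K a) * hab'

theorem valAt_inv (h : VertData π 𝔭 𝔮) {u : K} {v : ℤ} (hv : I6.ValAt K 𝔭 π u v) :
    I6.ValAt K 𝔭 π u⁻¹ (-v) := by
  have hp := h.prime
  have hπ : algebraMap R K π ≠ 0 := algebraMap_ne_zero h.w_ne
  have hu0 := valAt_ne_zero h hv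
  obtain ⟨a, b, ha, hb, hab⟩ := hv
  have ha0 : algebraMap R K a ≠ 0 := algebraMap_ne_zero (fun h0 => ha (h0 ▸ 𝔭.zero_mem))
  refine ⟨b, a, hb, ha, ?_⟩
  have hz : (algebraMap R K π) ^ v ≠ 0 := zpow_ne_zero _ hπ
  rw [zpow_neg]
  field_simp
  linear_combination -hab

theorem valAt_of_notMem (h : VertData π 𝔭 𝔮) {a : R} (ha : a ∉ 𝔭) :
    I6.ValAt K 𝔭 π (algebraMap R K a) 0 :=
  ⟨a, 1, ha, fun h1 => h.prime.ne_top ((Ideal.eq_top_iff_one _).2 h1), by simp⟩

theorem valAt_one (h : VertData π 𝔭 𝔮) : I6.ValAt K 𝔭 π (1 : K) 0 := by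
  have := valAt_of_notMem (K := K) h (a := 1)
    (fun h1 => h.prime.ne_top ((Ideal.eq_top_iff_one _).2 h1))
  rwa [map_one] at this

theorem valAt_pi (h : VertData π 𝔭 𝔮) : I6.ValAt K 𝔭 π (algebraMap R K π) 1 := by
  have h1 : (1 : R) ∉ 𝔭 := fun h1 => h.prime.ne_top ((Ideal.eq_top_iff_one _).2 h1)
  exact ⟨1, 1, h1, h1, by simp⟩

theorem valAt_pow (h : VertData π 𝔭 𝔮) {u : K} {v : ℤ} (hv : I6.ValAt K 𝔭 π u v) (n : ℕ) :
    I6.ValAt K 𝔭 π (u ^ n) (n * v) := by
  induction n with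
  | zero => simpa using valAt_one (K := K) h
  | succ n ih =>
    rw [pow_succ]
    have := valAt_mul h ih hv
    have e : (n : ℤ) * v + v = ((n + 1 : ℕ) : ℤ) * v := by push_cast; ring
    rwa [e] at this

open Classical in
/-- The valuation of `K` along the branch `𝔭` (normalised by `π ↦ 1`; junk value `0` at `0`). -/
noncomputable def branchVal (h : VertData π 𝔭 𝔮) (u : K) : ℤ :=
  if hu : u = 0 then 0 else (exists_valAt (K := K) h hu).choose

theorem branchVal_spec (h : VertData π 𝔭 𝔮) {u : K} (hu : u ≠ 0) :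
    I6.ValAt K 𝔭 π u (branchVal h u) := by
  unfold branchVal
  rw [dif_neg hu]
  exact (exists_valAt (K := K) h hu).choose_spec

theorem branchVal_eq (h : VertData π 𝔭 𝔮) {u : K} {v : ℤ} (hv : I6.ValAt K 𝔭 π u v) :
    branchVal h u = v :=
  valAt_unique h (branchVal_spec h (valAt_ne_zero h hv)) hv

theorem branchVal_mul (h : VertData π 𝔭 𝔮) (a b : K) (ha : a ≠ 0) (hb : b ≠ 0) :
    branchVal h (a * b) = branchVal h a + branchVal h b :=
  branchVal_eq h (valAt_mul h (branchVal_spec h ha) (branchVal_spec h hb))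

theorem branchVal_pi (h : VertData π 𝔭 𝔮) : branchVal h (algebraMap R K π) = 1 :=
  branchVal_eq h (valAt_pi h)

/-- `branchVal` is determined by the valuation subring `R_𝔭` and the uniformiser `π`. -/
theorem branchVal_eq_iff (h : VertData π 𝔭 𝔮) {u : K} (hu : u ≠ 0) (v : ℤ) :
    branchVal h u = v ↔
      u * (algebraMap R K π) ^ (-v) ∈ vertVal (F := K) h ∧
        (u * (algebraMap R K π) ^ (-v))⁻¹ ∈ vertVal (F := K) h := by
  constructor
  · rintro rfl
    have := (valAt_iff h u _).1 (branchVal_spec h hu)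
    exact ⟨this.1, this.2.1⟩
  · rintro ⟨h1, h2⟩
    exact branchVal_eq h ((valAt_iff h u v).2 ⟨h1, h2, hu⟩)

end Branch

section Transport

variable {R : Type*} [CommRing R] [IsDomain R] [IsNoetherianRing R] [IsIntegrallyClosed R]
variable {R' : Type*} [CommRing R'] [IsDomain R'] [IsNoetherianRing R'] [IsIntegrallyClosed R']
variable {K : Type*} [Field K] [Algebra R K] [IsFractionRing R K]
variable {K' : Type*} [Field K'] [Algebra R' K'] [IsFractionRing R' K']
variable {π : R} {𝔭 𝔮 : Ideal R} {π' : R'} {𝔭' 𝔮' : Ideal R'}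

/-- **Transport of branch valuations** (for SHEETS and for base change): if a field isomorphism
`σ : K ≃+* K'` maps the valuation subring `R_𝔭` onto `R'_𝔭'` and `π` to `π'`, then
`branchVal h' (σ u) = branchVal h u`. -/
theorem branchVal_map (h : VertData π 𝔭 𝔮) (h' : VertData π' 𝔭' 𝔮') (σ : K ≃+* K')
    (hσ : ∀ z : K, z ∈ vertVal (F := K) h ↔ σ z ∈ vertVal (F := K') h')
    (hπ : σ (algebraMap R K π) = algebraMap R' K' π') (u : K) :
    branchVal h' (σ u) = branchVal h u := by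
  by_cases hu : u = 0
  · subst hu
    simp [branchVal]
  have hσu : σ u ≠ 0 := fun h0 => hu (by simpa using h0)
  rw [branchVal_eq_iff h' hσu]
  obtain ⟨h1, h2⟩ := (branchVal_eq_iff h hu (branchVal h u)).1 rfl
  have e : σ u * (algebraMap R' K' π') ^ (-branchVal h u) =
      σ (u * (algebraMap R K π) ^ (-branchVal h u)) := by
    rw [map_mul, map_zpow₀, hπ]
  rw [e]
  refine ⟨(hσ _).1 h1, ?_⟩
  rw [← map_inv₀]
  exact (hσ _).1 h2

/-- Transport along an inclusion of fields `K → K'` (base ring `R ⊆ R'`, e.g. a cover): if the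
valuation subring `R'_𝔭'` contracts to `R_𝔭` and `π ↦ π'`, then `branchVal h' (φ u) =
branchVal h u`  (the extension is unramified along the branch). -/
theorem branchVal_comap (h : VertData π 𝔭 𝔮) (h' : VertData π' 𝔭' 𝔮') (φ : K →+* K')
    (hφ : ∀ z : K, z ∈ vertVal (F := K) h → φ z ∈ vertVal (F := K') h')
    (hπ : φ (algebraMap R K π) = algebraMap R' K' π') (u : K) :
    branchVal h' (φ u) = branchVal h u := by
  by_cases hu : u = 0
  · subst hu
    simp [branchVal]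
  have hφu : φ u ≠ 0 := fun h0 => hu ((map_eq_zero φ).1 h0)
  rw [branchVal_eq_iff h' hφu]
  obtain ⟨h1, h2⟩ := (branchVal_eq_iff h hu (branchVal h u)).1 rfl
  have e : φ u * (algebraMap R' K' π') ^ (-branchVal h u) =
      φ (u * (algebraMap R K π) ^ (-branchVal h u)) := by
    rw [map_mul, map_zpow₀, hπ]
  rw [e]
  refine ⟨hφ _ h1, ?_⟩
  rw [← map_inv₀]
  exact hφ _ h2

end Transport

/-! ## Orders on a branch and slopes -/

section Ord

variable {R : Type*} [CommRing R]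

theorem ordOn_mul {𝔭 : Ideal R} {ϖ a b : R} {i j : ℕ} (hi : I6.OrdOn 𝔭 ϖ a i)
    (hj : I6.OrdOn 𝔭 ϖ b j) : I6.OrdOn 𝔭 ϖ (a * b) (i + j) := by
  unfold I6.OrdOn at *
  rw [map_mul, pow_add]
  exact hi.mul_mul hj

theorem ordOn_one {𝔭 : Ideal R} {ϖ : R} : I6.OrdOn 𝔭 ϖ 1 0 := by
  unfold I6.OrdOn
  rw [map_one, pow_zero]

/-- The order on a branch is unique. -/
theorem ordOn_unique {𝔭 : Ideal R} [h𝔭 : 𝔭.IsPrime] {ϖ a : R} (hϖ : ϖ ∉ 𝔭)
    (hnu : ¬ IsUnit (Ideal.Quotient.mk 𝔭 ϖ)) {i j : ℕ} (hi : I6.OrdOn 𝔭 ϖ a i)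
    (hj : I6.OrdOn 𝔭 ϖ a j) : i = j := by
  have hq0 : Ideal.Quotient.mk 𝔭 ϖ ≠ 0 := fun h => hϖ (Ideal.Quotient.eq_zero_iff_mem.1 h)
  have hass : Associated ((Ideal.Quotient.mk 𝔭 ϖ) ^ i) ((Ideal.Quotient.mk 𝔭 ϖ) ^ j) :=
    hi.symm.trans hj
  have key : ∀ {i j : ℕ}, i ≤ j →
      Associated ((Ideal.Quotient.mk 𝔭 ϖ) ^ i) ((Ideal.Quotient.mk 𝔭 ϖ) ^ j) → i = j := by
    intro i j hij h
    obtain ⟨c, hc⟩ := h
    obtain ⟨k, rfl⟩ := Nat.exists_eq_add_of_le hij
    rw [pow_add] at hc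
    have h2 := mul_left_cancel₀ (pow_ne_zero i hq0) hc
    by_contra hne
    have hk : k ≠ 0 := fun h0 => hne (by rw [h0, add_zero])
    exact hnu ((isUnit_pow_iff hk).1 (h2 ▸ c.isUnit))
  rcases le_total i j with hij | hji
  · exact key hij hass
  · exact (key hji hass.symm).symm

end Ord

section Slope

variable {R : Type*} [CommRing R] [IsDomain R] [IsNoetherianRing R] [IsIntegrallyClosed R]
variable {K : Type*} [Field K] [Algebra R K] [IsFractionRing R K]
variable {π ϖ : R} {𝔭 𝔮 : Ideal R}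

/-- A branch `𝔭` of the special fibre `π = 0` (complementary ideal `𝔮`) with a uniformiser `ϖ` of
the discrete valuation ring `R ⧸ 𝔭`. -/
structure BranchData (π : R) (𝔭 𝔮 : Ideal R) (ϖ : R) : Prop where
  vert : VertData π 𝔭 𝔮
  notMem : ϖ ∉ 𝔭
  nonunit : ¬ IsUnit (Ideal.Quotient.mk 𝔭 ϖ)
  unif : ∀ a : R, a ∉ 𝔭 → ∃ s : ℕ, I6.OrdOn 𝔭 ϖ a s

theorem exists_slopeAt (h : BranchData π 𝔭 𝔮 ϖ) {u : K} (hu : u ≠ 0) :
    ∃ s : ℤ, I6.SlopeAt K 𝔭 π ϖ u s := by
  obtain ⟨v, a, b, ha, hb, hab⟩ := exists_valAt (K := K) h.vert hu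
  obtain ⟨i, hi⟩ := h.unif a ha
  obtain ⟨j, hj⟩ := h.unif b hb
  exact ⟨(i : ℤ) - j, v, a, b, i, j, ha, hb, hab, hi, hj, rfl⟩

theorem slopeAt_ne_zero (h : BranchData π 𝔭 𝔮 ϖ) {u : K} {s : ℤ}
    (hs : I6.SlopeAt K 𝔭 π ϖ u s) : u ≠ 0 := by
  obtain ⟨v, a, b, i, j, ha, hb, hab, -, -, -⟩ := hs
  exact valAt_ne_zero h.vert ⟨a, b, ha, hb, hab⟩

theorem slopeAt_unique (h : BranchData π 𝔭 𝔮 ϖ) {u : K} {s s' : ℤ}
    (hs : I6.SlopeAt K 𝔭 π ϖ u s) (hs' : I6.SlopeAt K 𝔭 π ϖ u s') : s = s' := by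
  have hp := h.vert.prime
  have hπ : algebraMap R K π ≠ 0 := algebraMap_ne_zero h.vert.w_ne
  obtain ⟨v, a, b, i, j, ha, hb, hab, hi, hj, rfl⟩ := hs
  obtain ⟨v', a', b', i', j', ha', hb', hab', hi', hj', rfl⟩ := hs'
  have hv : v = v' := valAt_unique h.vert ⟨a, b, ha, hb, hab⟩ ⟨a', b', ha', hb', hab'⟩
  subst hv
  have e : a * b' = a' * b := by
    apply IsFractionRing.injective R K
    simp only [map_mul]
    have h1 : (algebraMap R K π) ^ v * (algebraMap R K a * algebraMap R K b') =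
        (algebraMap R K π) ^ v * (algebraMap R K a' * algebraMap R K b) := by
      linear_combination (-algebraMap R K b') * hab + (algebraMap R K b) * hab'
    exact mul_left_cancel₀ (zpow_ne_zero v hπ) h1
  have h1 : I6.OrdOn 𝔭 ϖ (a * b') (i + j') := ordOn_mul hi hj'
  have h2 : I6.OrdOn 𝔭 ϖ (a * b') (i' + j) := e ▸ ordOn_mul hi' hj
  have := ordOn_unique h.notMem h.nonunit h1 h2
  omega

theorem slopeAt_mul (h : BranchData π 𝔭 𝔮 ϖ) {u u' : K} {s s' : ℤ}
    (hs : I6.SlopeAt K 𝔭 π ϖ u s) (hs' : I6.SlopeAt K 𝔭 π ϖ u' s') :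
    I6.SlopeAt K 𝔭 π ϖ (u * u') (s + s') := by
  have hp := h.vert.prime
  have hπ : algebraMap R K π ≠ 0 := algebraMap_ne_zero h.vert.w_ne
  obtain ⟨v, a, b, i, j, ha, hb, hab, hi, hj, rfl⟩ := hs
  obtain ⟨v', a', b', i', j', ha', hb', hab', hi', hj', rfl⟩ := hs'
  refine ⟨v + v', a * a', b * b', i + i', j + j', fun hm => (hp.mem_or_mem hm).elim ha ha',
    fun hm => (hp.mem_or_mem hm).elim hb hb', ?_, ordOn_mul hi hi', ordOn_mul hj hj', ?_⟩
  · rw [map_mul, map_mul, zpow_add₀ hπ]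
    linear_combination (u' * algebraMap R K b') * hab +
      ((algebraMap R K π) ^ v * algebraMap R K a) * hab'
  · push_cast; ring

theorem slopeAt_inv (h : BranchData π 𝔭 𝔮 ϖ) {u : K} {s : ℤ}
    (hs : I6.SlopeAt K 𝔭 π ϖ u s) : I6.SlopeAt K 𝔭 π ϖ u⁻¹ (-s) := by
  have hu0 := slopeAt_ne_zero h hs
  obtain ⟨v, a, b, i, j, ha, hb, hab, hi, hj, rfl⟩ := hs
  obtain ⟨a₁, b₁, ha₁, hb₁, hab₁⟩ := valAt_inv h.vert ⟨a, b, ha, hb, hab⟩
  have hπ : algebraMap R K π ≠ 0 := algebraMap_ne_zero h.vert.w_ne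
  have hz : (algebraMap R K π) ^ v ≠ 0 := zpow_ne_zero _ hπ
  refine ⟨-v, b, a, j, i, hb, ha, ?_, hj, hi, by ring⟩
  rw [zpow_neg]
  field_simp
  linear_combination -hab

theorem slopeAt_one (h : BranchData π 𝔭 𝔮 ϖ) : I6.SlopeAt K 𝔭 π ϖ (1 : K) 0 := by
  have h1 : (1 : R) ∉ 𝔭 := fun h1 => h.vert.prime.ne_top ((Ideal.eq_top_iff_one _).2 h1)
  exact ⟨0, 1, 1, 0, 0, h1, h1, by simp, ordOn_one, ordOn_one, by simp⟩

theorem slopeAt_pi (h : BranchData π 𝔭 𝔮 ϖ) : I6.SlopeAt K 𝔭 π ϖ (algebraMap R K π) 0 := by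
  have h1 : (1 : R) ∉ 𝔭 := fun h1 => h.vert.prime.ne_top ((Ideal.eq_top_iff_one _).2 h1)
  exact ⟨1, 1, 1, 0, 0, h1, h1, by simp, ordOn_one, ordOn_one, by simp⟩

/-- The slope of an element of `R ∖ 𝔭` is its order on the branch. -/
theorem slopeAt_of_ordOn (h : BranchData π 𝔭 𝔮 ϖ) {a : R} (ha : a ∉ 𝔭) {i : ℕ}
    (hi : I6.OrdOn 𝔭 ϖ a i) : I6.SlopeAt K 𝔭 π ϖ (algebraMap R K a) i := by
  have h1 : (1 : R) ∉ 𝔭 := fun h1 => h.vert.prime.ne_top ((Ideal.eq_top_iff_one _).2 h1)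
  exact ⟨0, a, 1, i, 0, ha, h1, by simp, hi, ordOn_one, by simp⟩

theorem slopeAt_pow (h : BranchData π 𝔭 𝔮 ϖ) {u : K} {s : ℤ}
    (hs : I6.SlopeAt K 𝔭 π ϖ u s) (n : ℕ) : I6.SlopeAt K 𝔭 π ϖ (u ^ n) (n * s) := by
  induction n with
  | zero => simpa using slopeAt_one (K := K) h
  | succ n ih =>
    rw [pow_succ]
    have := slopeAt_mul h ih hs
    have e : (n : ℤ) * s + s = ((n + 1 : ℕ) : ℤ) * s := by push_cast; ring
    rwa [e] at this

open Classical in
/-- The slope of `u ∈ Kˣ` along the branch `𝔭` at the closed point (junk value `0` at `0`). -/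
noncomputable def branchSlope (h : BranchData π 𝔭 𝔮 ϖ) (u : K) : ℤ :=
  if hu : u = 0 then 0 else (exists_slopeAt (K := K) h hu).choose

theorem branchSlope_spec (h : BranchData π 𝔭 𝔮 ϖ) {u : K} (hu : u ≠ 0) :
    I6.SlopeAt K 𝔭 π ϖ u (branchSlope h u) := by
  unfold branchSlope
  rw [dif_neg hu]
  exact (exists_slopeAt (K := K) h hu).choose_spec

theorem branchSlope_eq (h : BranchData π 𝔭 𝔮 ϖ) {u : K} {s : ℤ}
    (hs : I6.SlopeAt K 𝔭 π ϖ u s) : branchSlope h u = s :=
  slopeAt_unique h (branchSlope_spec h (slopeAt_ne_zero h hs)) hs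

theorem branchSlope_mul (h : BranchData π 𝔭 𝔮 ϖ) (a b : K) (ha : a ≠ 0) (hb : b ≠ 0) :
    branchSlope h (a * b) = branchSlope h a + branchSlope h b :=
  branchSlope_eq h (slopeAt_mul h (branchSlope_spec h ha) (branchSlope_spec h hb))

end Slope

/-! ## Node rings -/

section Node

variable {R : Type*} [CommRing R] [IsDomain R] [IsLocalRing R]
variable {𝔭₁ 𝔭₂ : Ideal R} {π x y : R}

omit [IsDomain R] in
/-- The two branches of a node play symmetric roles. -/
theorem isNode_symm (hN : I6.IsNode 𝔭₁ 𝔭₂ π x y) : I6.IsNode 𝔭₂ 𝔭₁ π y x where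
  prime₁ := hN.prime₂
  prime₂ := hN.prime₁
  inf_eq := by rw [inf_comm]; exact hN.inf_eq
  sup_eq := by rw [sup_comm]; exact hN.sup_eq
  hx := hN.hy
  hy := hN.hx
  unif₁ := hN.unif₂
  unif₂ := hN.unif₁
  hx₁ := hN.hy₂
  hy₂ := hN.hx₁
  nonunit₁ := hN.nonunit₂
  nonunit₂ := hN.nonunit₁

theorem isNode_pi_ne_zero (hN : I6.IsNode 𝔭₁ 𝔭₂ π x y) : π ≠ 0 := by
  rintro rfl
  have hxy : x * y ∈ 𝔭₁ ⊓ 𝔭₂ := ⟨𝔭₁.mul_mem_left _ hN.hy, 𝔭₂.mul_mem_right _ hN.hx⟩
  rw [hN.inf_eq, Ideal.mem_span_singleton, zero_dvd_iff] at hxy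
  rcases mul_eq_zero.1 hxy with h0 | h0
  · exact hN.hx₁ (h0 ▸ 𝔭₁.zero_mem)
  · exact hN.hy₂ (h0 ▸ 𝔭₂.zero_mem)

theorem vertData_left (hN : I6.IsNode 𝔭₁ 𝔭₂ π x y) : VertData π 𝔭₁ 𝔭₂ where
  prime := hN.prime₁
  w_ne := isNode_pi_ne_zero hN
  not_le := fun h => hN.hx₁ (h hN.hx)
  inf_eq := hN.inf_eq

theorem vertData_right (hN : I6.IsNode 𝔭₁ 𝔭₂ π x y) : VertData π 𝔭₂ 𝔭₁ :=
  vertData_left (isNode_symm hN)

variable [IsNoetherianRing R] [IsIntegrallyClosed R]

/-- The first branch of a node ring, with its uniformiser `x`. -/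
theorem branchData_left (hN : I6.IsNode 𝔭₁ 𝔭₂ π x y) : BranchData π 𝔭₁ 𝔭₂ x where
  vert := vertData_left hN
  notMem := hN.hx₁
  nonunit := hN.nonunit₁
  unif := hN.unif₁

/-- The second branch of a node ring, with its uniformiser `y`. -/
theorem branchData_right (hN : I6.IsNode 𝔭₁ 𝔭₂ π x y) : BranchData π 𝔭₂ 𝔭₁ y :=
  branchData_left (isNode_symm hN)

/-! ### Horizontal primes of a node ring have height one -/

omit [IsDomain R] [IsNoetherianRing R] [IsIntegrallyClosed R] in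
/-- `𝔪 = 𝔭₁ + (x)`. -/
theorem isNode_mem_sup_span (hN : I6.IsNode 𝔭₁ 𝔭₂ π x y) {z : R}
    (hz : z ∈ IsLocalRing.maximalIdeal R) : z ∈ 𝔭₁ ⊔ Ideal.span {x} := by
  have hp := hN.prime₁
  by_cases hz₁ : z ∈ 𝔭₁
  · exact Ideal.mem_sup_left hz₁
  obtain ⟨s, hs⟩ := hN.unif₁ z hz₁
  have hs0 : s ≠ 0 := by
    rintro rfl
    unfold I6.OrdOn at hs
    rw [pow_zero] at hs
    have hu : IsUnit (Ideal.Quotient.mk 𝔭₁ z) := hs.symm.isUnit isUnit_one
    obtain ⟨c, hc⟩ := hu.exists_right_inv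
    obtain ⟨c, rfl⟩ := Ideal.Quotient.mk_surjective c
    rw [← map_mul, ← map_one (Ideal.Quotient.mk 𝔭₁), Ideal.Quotient.eq] at hc
    have h1 : z * c - 1 ∈ IsLocalRing.maximalIdeal R := IsLocalRing.le_maximalIdeal hp.ne_top hc
    have h2 : z * c ∈ IsLocalRing.maximalIdeal R := Ideal.mul_mem_right _ _ hz
    have h3 : (1 : R) ∈ IsLocalRing.maximalIdeal R := by
      have : (1 : R) = z * c - (z * c - 1) := by ring
      rw [this]
      exact Ideal.sub_mem _ h2 h1
    exact (Ideal.ne_top_iff_one _).1 (IsLocalRing.maximalIdeal.isMaximal R).ne_top h3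
  obtain ⟨c, hc⟩ := hs.symm
  obtain ⟨c', hc'⟩ := Ideal.Quotient.mk_surjective (c : R ⧸ 𝔭₁)
  obtain ⟨k, rfl⟩ := Nat.exists_eq_succ_of_ne_zero hs0
  have e : Ideal.Quotient.mk 𝔭₁ z = Ideal.Quotient.mk 𝔭₁ (x ^ (k + 1) * c') := by
    rw [map_mul, map_pow, hc', hc]
  rw [Ideal.Quotient.eq] at e
  have : z = (z - x ^ (k + 1) * c') + x * (x ^ k * c') := by ring
  rw [this]
  exact Ideal.add_mem _ (Ideal.mem_sup_left e)
    (Ideal.mem_sup_right (Ideal.mul_mem_right _ _ (Ideal.mem_span_singleton_self x)))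

omit [IsDomain R] [IsNoetherianRing R] [IsIntegrallyClosed R] in
/-- The maximal ideal of a node ring is a minimal prime over `(π, x + y)`. -/
theorem isNode_maximalIdeal_mem_minimalPrimes (hN : I6.IsNode 𝔭₁ 𝔭₂ π x y) :
    IsLocalRing.maximalIdeal R ∈ (Ideal.span ({π, x + y} : Set R)).minimalPrimes := by
  have hπ₁ : π ∈ 𝔭₁ := (inf_le_left : 𝔭₁ ⊓ 𝔭₂ ≤ 𝔭₁) (hN.inf_eq ▸ Ideal.mem_span_singleton_self π)
  have hle₁ : 𝔭₁ ≤ IsLocalRing.maximalIdeal R := IsLocalRing.le_maximalIdeal hN.prime₁.ne_top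
  have hle₂ : 𝔭₂ ≤ IsLocalRing.maximalIdeal R := IsLocalRing.le_maximalIdeal hN.prime₂.ne_top
  refine ⟨⟨(IsLocalRing.maximalIdeal.isMaximal R).isPrime, ?_⟩, ?_⟩
  · rw [Ideal.span_le]
    rintro z (rfl | rfl)
    · exact hle₁ hπ₁
    · exact Ideal.add_mem _ (hle₂ hN.hx) (hle₁ hN.hy)
  · rintro Q ⟨hQ, hQle⟩ -
    have hπQ : π ∈ Q := hQle (Ideal.subset_span (by simp))
    have hxyQ : x + y ∈ Q := hQle (Ideal.subset_span (by simp))
    have hinf : 𝔭₁ ⊓ 𝔭₂ ≤ Q := by
      rw [hN.inf_eq, Ideal.span_le, Set.singleton_subset_iff]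
      exact hπQ
    -- the symmetric statement
    have key : ∀ {𝔭₁ 𝔭₂ : Ideal R} {x y : R}, I6.IsNode 𝔭₁ 𝔭₂ π x y → x + y ∈ Q → 𝔭₁ ≤ Q →
        IsLocalRing.maximalIdeal R ≤ Q := by
      intro 𝔭₁ 𝔭₂ x y hN hxy h₁ z hz
      have hx : x ∈ Q := by
        have : x = (x + y) - y := by ring
        rw [this]
        exact Q.sub_mem hxy (h₁ hN.hy)
      have := isNode_mem_sup_span hN hz
      exact (sup_le h₁ ((Ideal.span_singleton_le_iff_mem Q).2 hx)) this
    rcases (Ideal.IsPrime.inf_le hQ).1 hinf with h₁ | h₂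
    · exact key hN hxyQ h₁
    · exact key (isNode_symm hN) (by rwa [add_comm]) h₂

omit [IsDomain R] [IsIntegrallyClosed R] in
theorem isNode_height_le_two (hN : I6.IsNode 𝔭₁ 𝔭₂ π x y) :
    (IsLocalRing.maximalIdeal R).height ≤ 2 := by
  classical
  have h := Ideal.height_le_card_of_mem_minimalPrimes_span_finset
    (p := IsLocalRing.maximalIdeal R) (s := ({π, x + y} : Finset R))
    (by
      have : ((({π, x + y} : Finset R) : Set R)) = ({π, x + y} : Set R) := by simp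
      rw [this]
      exact isNode_maximalIdeal_mem_minimalPrimes hN)
  refine h.trans ?_
  have : ({π, x + y} : Finset R).card ≤ 2 := Finset.card_le_two
  exact_mod_cast this

omit [IsIntegrallyClosed R] in
/-- A prime of a node ring which does not contain `π` has height `≤ 1`. -/
theorem horizontal_height_one (hN : I6.IsNode 𝔭₁ 𝔭₂ π x y) (𝔓 : Ideal R) [h𝔓 : 𝔓.IsPrime]
    (hπ : π ∉ 𝔓) : ∀ Q : Ideal R, Q.IsPrime → Q ≠ ⊥ → Q ≤ 𝔓 → Q = 𝔓 := by
  intro Q hQ hQ0 hQ𝔓
  by_contra hne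
  have hlt₂ : Q < 𝔓 := lt_of_le_of_ne hQ𝔓 hne
  have hlt₁ : (⊥ : Ideal R) < Q := bot_lt_iff_ne_bot.2 hQ0
  have hπ₁ : π ∈ 𝔭₁ := (inf_le_left : 𝔭₁ ⊓ 𝔭₂ ≤ 𝔭₁) (hN.inf_eq ▸ Ideal.mem_span_singleton_self π)
  have hπm : π ∈ IsLocalRing.maximalIdeal R := IsLocalRing.le_maximalIdeal hN.prime₁.ne_top hπ₁
  have hlt₃ : 𝔓 < IsLocalRing.maximalIdeal R :=
    lt_of_le_of_ne (IsLocalRing.le_maximalIdeal h𝔓.ne_top) (fun h => hπ (h ▸ hπm))
  haveI : (⊥ : Ideal R).IsPrime := Ideal.isPrime_bot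
  haveI := hQ
  have h1 := Ideal.height_strict_mono_of_isPrime_of_isPrime hlt₁
  have h2 := Ideal.height_strict_mono_of_isPrime_of_isPrime hlt₂
  have h3 := Ideal.height_strict_mono_of_isPrime_of_isPrime hlt₃
  have h4 := isNode_height_le_two hN
  have hfin : (IsLocalRing.maximalIdeal R).height ≠ ⊤ :=
    ne_top_of_le_ne_top (by simp) h4
  have hfin𝔓 : 𝔓.height ≠ ⊤ := ne_top_of_lt h3
  have hfinQ : Q.height ≠ ⊤ := ne_top_of_lt h2
  have hfin0 : (⊥ : Ideal R).height ≠ ⊤ := ne_top_of_lt h1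
  lift (IsLocalRing.maximalIdeal R).height to ℕ using hfin with a
  lift 𝔓.height to ℕ using hfin𝔓 with b
  lift Q.height to ℕ using hfinQ with c
  lift (⊥ : Ideal R).height to ℕ using hfin0 with d
  norm_cast at h1 h2 h3 h4
  omega

/-- **Horizontal divisibility in a node ring.**  If `u' ∈ R ∖ {0}` equals `u · bᵐ` in `K` and
`u` is a unit times an `m`-th power at every discrete valuation ring of `K` containing
`R[1/π]`, then `u'` is horizontally `m`-divisible. -/
theorem horDiv_of_divisible {K : Type*} [Field K] [Algebra R K] [IsFractionRing R K]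
    (hN : I6.IsNode 𝔭₁ 𝔭₂ π x y) {m : ℕ} (hm : m ≠ 0) {u : K} (hu : u ≠ 0) {u' b : R}
    (hu' : algebraMap R K u' = u * algebraMap R K b ^ m)
    (hdiv : ∀ V : ValuationSubring K, IsDiscreteValuationRing V →
      (∀ r : R, algebraMap R K r ∈ V) → (algebraMap R K π)⁻¹ ∈ V →
      ∃ h u₀ : K, u₀ ∈ V ∧ u₀⁻¹ ∈ V ∧ u = u₀ * h ^ m) :
    I6.HorDiv π m u' := by
  intro 𝔓 h𝔓 hu'𝔓 hπ𝔓
  by_cases h0 : u' = 0
  · exact ⟨0, 1, fun h1 => h𝔓.ne_top ((Ideal.eq_top_iff_one _).2 h1), by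
      rw [h0, zero_mul, zero_pow hm]⟩
  have h𝔓0 : 𝔓 ≠ ⊥ := fun hb => h0 (by rw [hb, Ideal.mem_bot] at hu'𝔓; exact hu'𝔓)
  obtain ⟨O, hO⟩ := exists_isLocDVR_of_height_one (F := K) 𝔓 h𝔓0
    (horizontal_height_one hN 𝔓 hπ𝔓)
  obtain ⟨h, u₀, hu₀, hu₀', huh⟩ := hdiv O hO.dvr hO.le (hO.inv_mem π hπ𝔓)
  have hu₀0 : u₀ ≠ 0 := by
    rintro rfl
    rw [zero_mul] at huh
    exact hu huh
  exact exists_pow_eq_mul_of_isLocDVR hO hm hu' hu₀ hu₀' hu₀0 huh

/-- **`I6.HorDivFrac` from divisibility** (the shape of `A2.DivisibleDiv`). -/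
theorem horDivFrac_of_divisible {K : Type*} [Field K] [Algebra R K] [IsFractionRing R K]
    (hN : I6.IsNode 𝔭₁ 𝔭₂ π x y) {m : ℕ} (hm : m ≠ 0) {u : K} (hu : u ≠ 0)
    (hdiv : ∀ V : ValuationSubring K, IsDiscreteValuationRing V →
      (∀ r : R, algebraMap R K r ∈ V) → (algebraMap R K π)⁻¹ ∈ V →
      ∃ h u₀ : K, u₀ ∈ V ∧ u₀⁻¹ ∈ V ∧ u = u₀ * h ^ m) :
    I6.HorDivFrac K π m u := by
  obtain ⟨a, b, hb, hab⟩ := IsFractionRing.div_surjective (A := R) u
  have hb0 : b ≠ 0 := nonZeroDivisors.ne_zero hb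
  have hbK : algebraMap R K b ≠ 0 := algebraMap_ne_zero hb0
  have hub : u * algebraMap R K b = algebraMap R K a := by
    rw [← hab]; field_simp
  refine ⟨a, b, hb0, hub, horDiv_of_divisible hN hm hu (b := b) ?_ hdiv⟩
  obtain ⟨k, rfl⟩ := Nat.exists_eq_succ_of_ne_zero hm
  rw [Nat.succ_sub_one, map_mul, map_pow, ← hub, pow_succ]
  ring

end Node

end Fermat.Agent.Ribet.H132

end
-- ===== PACK-END Ribet/H132/NodeVal.lean

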