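import Mathlib
import Fermat.Prelude.Def_AlgebraicCurve_DivisorClassGroup
import Fermat.Prelude.Def_CuspForm_HeckeAlgebra
import Fermat.Prelude.Def_ModularCurve_PeriodHomPair
import Fermat.Prelude.Def_AlgebraicCurve_BaseChangeGalois
import Fermat.Agent.Pack.S33.E0L1
import Fermat.Agent.Pack.S33.E6L3
import Fermat.Agent.Pack.S33.E0L0
import Fermat.Agent.Pack.S33.E7L1
import Fermat.Agent.Pack.S33.E4L2
import Fermat.Agent.Pack.S33.E7L3
import Fermat.Agent.Pack.S33.E0L3
import Fermat.Agent.Pack.S33.E7L2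
import Fermat.Agent.Pack.S33.E4L3
import Fermat.Agent.Pack.S33.E4L1
import Fermat.Agent.Pack.S33.E6L0
import Fermat.Agent.Pack.S33.E6L1
import Fermat.Agent.Pack.S33.E3L1
import Fermat.Agent.Pack.S33.E6L2

-- ===== PACK-BEGIN S32/Spec.lean
section
/-
Row S32 (flat at `p`), TOP GLUE — interface (helper32).

Goal: the frozen statement S32 (`H.ρ.IsFlatAt p` for a Hecke–Galois datum of level `N`, `p ∤ N`,
`p` odd) from

* the frozen S19 in the form `HopfModel p (Tors N p k)` (cell A3, the wall),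
* the six inputs of the S30 skeleton (tower),
* `S59.G4.PointsStatement` (strict finite families of `p`-adic points of `T`).

Pieces (each a `Prop` below; `Top.lean` proves S32 from them):

* `FlatEigenStatement` (EIG): every eigencharacter has an adic eigenmodule all of whose finite
  quotients carry Hopf models.
* `RelStatement` (REL): on the eigenmodule at a point `P` of `T`, EVERY `g ∈ G_ℚ` satisfies the
  characteristic polynomial of `H.ρ g`, specialised at `P`.
* `EmbedStatement` (EMB): Boston–Lenstra–Ribet + lattices + Artin–Rees: a strict semilinear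
  equivariant embedding of `H.ρ.V` in the eigenmodule.
* `RedStatement` (RED): the coefficient ring `T` of a datum is reduced.
-/




set_option autoImplicit false

noncomputable section

namespace Fermat.Agent.S32

open IsLocalRing Fermat.Agent.S19 Fermat.Agent.S31

/-- The action induced on `M / I M`. -/
def modAct {A M : Type} [CommRing A] [AddCommGroup M] [Module A M]
    (ρ : GalQ →* Module.End A M) (I : Ideal A) (σ : GalQ) :
    (M ⧸ (I • (⊤ : Submodule A M))) →ₗ[A] (M ⧸ (I • (⊤ : Submodule A M))) :=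
  Submodule.mapQ _ _ (ρ σ) (by
    rw [← Submodule.map_le_iff_le_comap, Submodule.map_smul'']
    exact Submodule.smul_mono le_rfl le_top)

@[simp] theorem modAct_mk {A M : Type} [CommRing A] [AddCommGroup M] [Module A M]
    (ρ : GalQ →* Module.End A M) (I : Ideal A) (σ : GalQ) (v : M) :
    modAct ρ I σ (Submodule.Quotient.mk v) = Submodule.Quotient.mk (ρ σ v) := rfl

/-- A module with Galois action all of whose finite quotients `M / I M` carry Hopf models over
`ℤ_(p)` (the rank-free form of `GaloisRepAdic.IsFlatAt`). -/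
def IsFlatMod (p : ℕ) {A M : Type} [CommRing A] [AddCommGroup M] [Module A M]
    (ρ : GalQ →* Module.End A M) : Prop :=
  ∀ I : Ideal A, Finite (A ⧸ I) →
    HopfModel p (M ⧸ (I • (⊤ : Submodule A M))) (fun σ x => modAct ρ I σ x)

/-- **EIG.**  For `p ∤ N`, every eigencharacter with values in a complete DVR has an adic
eigenmodule which is flat. -/
def FlatEigenStatement : Prop :=
  ∀ (p : ℕ) [Fact p.Prime] (N : ℕ) [NeZero N] (S : Finset ℕ)
    (_hpS : p ∈ S) (_hNS : ∀ q : ℕ, q.Prime → q ∣ N → q ∈ S) (_hpN : ¬ p ∣ N)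
    (𝒪' : Type) [CommRing 𝒪'] [IsDomain 𝒪'] [IsDiscreteValuationRing 𝒪']
    [IsAdicComplete (maximalIdeal 𝒪') 𝒪'] [Finite (ResidueField 𝒪')]
    [CharZero 𝒪'] (_hp𝒪' : (p : 𝒪') ∈ maximalIdeal 𝒪')
    (χ : CuspForm.heckeAlgebra N 2 (↑S : Set ℕ) →+* 𝒪'),
    ∃ E : Fermat.Agent.S30.H990.AdicEigenModule p N S 𝒪' χ, IsFlatMod p E.ρ

/-- **REL.**  At a local point `P` of the coefficient ring of a datum, every element of `G_ℚ`
satisfies on the eigenmodule of `P.χ ∘ π` the characteristic polynomial of `H.ρ`. -/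
def RelStatement : Prop :=
  ∀ (p : ℕ) [Fact p.Prime] (N : ℕ) [NeZero N] (S : Finset ℕ)
    (_hpS : p ∈ S) (_hNS : ∀ q : ℕ, q.Prime → q ∣ N → q ∈ S)
    (𝒪 : Type) [CommRing 𝒪] [IsDomain 𝒪] [IsDiscreteValuationRing 𝒪]
    [IsAdicComplete (maximalIdeal 𝒪) 𝒪]
    (θ : CuspForm.heckeAlgebra N 2 (↑S : Set ℕ) →+* ResidueField 𝒪)
    (T : Type) [CommRing T] [IsLocalRing T] [IsNoetherianRing T]
    [IsAdicComplete (maximalIdeal T) T] [Algebra 𝒪 T] [IsLocalHom (algebraMap 𝒪 T)]
    [Module.Finite 𝒪 T] [Module.Free 𝒪 T]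
    (H : CuspForm.HeckeGaloisRepDatum N (↑S : Set ℕ) 𝒪 θ T)
    (P : PadicPoint p T) (_hloc : IsLocalHom P.χ)
    (E : Fermat.Agent.S30.H990.AdicEigenModule p N S P.O (P.χ.comp H.π)) (g : GalQ),
    E.ρ g * E.ρ g - P.χ (H.ρ.trace g) • E.ρ g
      + P.χ ((H.ρ.det g : Tˣ) : T) • (1 : Module.End P.O E.M) = 0

/-- **EMB.**  Let `ρ` be a two-dimensional representation over a local ring `T` whose image spans
`End_T V`, `ψ : T → 𝒪'` a point with values in a DVR with `2 ≠ 0`, and `M ≠ 0` a finite free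
`𝒪'`-module with Galois action on which every `g` satisfies the characteristic polynomial of
`ρ g` specialised along `ψ`.  Then there is a `ψ`-semilinear equivariant map `φ : V → M` which
is strict: `φ v ∈ 𝔪 ^ (m + k) M` implies `v ∈ ψ⁻¹(𝔪 ^ m) V`. -/
def EmbedStatement : Prop :=
  ∀ (T : Type) [CommRing T] [IsLocalRing T] (ρ : GaloisRepAdic T),
    Submodule.span T (Set.range ρ.ρ) = ⊤ →
    ∀ (𝒪' : Type) [CommRing 𝒪'] [IsDomain 𝒪'] [IsDiscreteValuationRing 𝒪'],
      (2 : 𝒪') ≠ 0 → ∀ (ψ : T →+* 𝒪')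
      (M : Type) [AddCommGroup M] [Module 𝒪' M] [Module.Free 𝒪' M] [Module.Finite 𝒪' M]
      [Nontrivial M] (ρM : GalQ →* Module.End 𝒪' M),
      (∀ g : GalQ, ρM g * ρM g - ψ (ρ.trace g) • ρM g
        + ψ ((ρ.det g : Tˣ) : T) • (1 : Module.End 𝒪' M) = 0) →
      ∃ φ : ρ.V →+ M, (∀ (t : T) (v : ρ.V), φ (t • v) = ψ t • φ v) ∧
        (∀ (g : GalQ) (v : ρ.V), φ (ρ.ρ g v) = ρM g (φ v)) ∧
        ∃ k : ℕ, ∀ (m : ℕ) (v : ρ.V),
          φ v ∈ (maximalIdeal 𝒪' ^ (m + k)) • (⊤ : Submodule 𝒪' M) →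
            v ∈ (Ideal.comap ψ (maximalIdeal 𝒪' ^ m)) • (⊤ : Submodule T ρ.V)

/-- **RED.**  The coefficient ring of a Hecke–Galois datum is reduced. -/
def RedStatement : Prop :=
  ∀ (N : ℕ) [NeZero N] (S : Finset ℕ) (_hNS : ∀ q : ℕ, q.Prime → q ∣ N → q ∈ S)
    (𝒪 : Type) [CommRing 𝒪] [IsDomain 𝒪] [IsDiscreteValuationRing 𝒪]
    [IsAdicComplete (maximalIdeal 𝒪) 𝒪] [CharZero 𝒪]
    (θ : CuspForm.heckeAlgebra N 2 (↑S : Set ℕ) →+* ResidueField 𝒪)
    (T : Type) [CommRing T] [IsLocalRing T] [IsNoetherianRing T]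
    [IsAdicComplete (maximalIdeal T) T] [Algebra 𝒪 T] [IsLocalHom (algebraMap 𝒪 T)]
    [Module.Finite 𝒪 T] [Module.Free 𝒪 T]
    (_H : CuspForm.HeckeGaloisRepDatum N (↑S : Set ℕ) 𝒪 θ T), IsReduced T

/-- The frozen statement S32, as a `Prop`. -/
def S32Statement : Prop :=
  ∀ {p : ℕ} {N : ℕ} [NeZero N] {S : Finset ℕ}
    {𝒪 : Type} [CommRing 𝒪] [IsDomain 𝒪] [IsDiscreteValuationRing 𝒪]
    [IsAdicComplete (maximalIdeal 𝒪) 𝒪]
    {θ : CuspForm.heckeAlgebra N 2 (↑S : Set ℕ) →+* ResidueField 𝒪}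
    {T : Type} [CommRing T] [IsLocalRing T] [IsNoetherianRing T]
    [IsAdicComplete (maximalIdeal T) T] [Algebra 𝒪 T] [IsLocalHom (algebraMap 𝒪 T)]
    [Module.Finite 𝒪 T] [Module.Free 𝒪 T]
    [Finite (ResidueField 𝒪)] [CharZero 𝒪],
    p.Prime → p ≠ 2 → (p : 𝒪) ∈ maximalIdeal 𝒪 → ¬ p ∣ N → p ∈ S →
    (∀ q : ℕ, q.Prime → q ∣ N → q ∈ S) →
    ∀ H : CuspForm.HeckeGaloisRepDatum N (↑S : Set ℕ) 𝒪 θ T, H.ρ.IsFlatAt p

end Fermat.Agent.S32

end
end
-- ===== PACK-END S32/Spec.lean

-- ===== PACK-BEGIN Lib/Cheb/H221/CycDeg.lean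
section





/-!
# CYC, twisted prime sums: prime ideals versus rational primes (helper221)
-/

set_option autoImplicit false

open NumberField IsDedekindDomain Filter Topology

namespace Fermat.Agent.Lib.Cheb.H221

set_option linter.unusedSectionVars false

section

variable (F : Type) [Field F] [NumberField F] {m : ℕ} [NeZero m] (χ : DirichletCharacter ℂ m)

/-- `χ(N 𝔭) N(𝔭)^(-s)` -/
noncomputable def twP (s : ℝ) (𝔭 : HeightOneSpectrum (𝓞 F)) : ℂ :=
  χ (Ideal.absNorm 𝔭.asIdeal : ZMod m) * (((Ideal.absNorm 𝔭.asIdeal : ℝ) ^ (-s) : ℝ) : ℂ)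

lemma norm_twP_le (s : ℝ) (𝔭 : HeightOneSpectrum (𝓞 F)) :
    ‖twP F χ s 𝔭‖ ≤ H761.normPow F s 𝔭.asIdeal := by
  unfold twP H761.normPow
  rw [norm_mul, Complex.norm_real, Real.norm_of_nonneg (Real.rpow_nonneg (Nat.cast_nonneg _) _)]
  calc ‖χ (Ideal.absNorm 𝔭.asIdeal : ZMod m)‖ * (Ideal.absNorm 𝔭.asIdeal : ℝ) ^ (-s)
      ≤ 1 * (Ideal.absNorm 𝔭.asIdeal : ℝ) ^ (-s) :=
        mul_le_mul_of_nonneg_right (DirichletCharacter.norm_le_one χ _)
          (Real.rpow_nonneg (Nat.cast_nonneg _) _)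
    _ = _ := one_mul _

lemma summable_twP {s : ℝ} (hs : 1 < s) : Summable (twP F χ s) :=
  Summable.of_norm_bounded (H761.summable_primeSum F hs) (norm_twP_le F χ s)

lemma tsum_fibre_twP (s : ℝ) (p : Nat.Primes) :
    ∑' x : {𝔭 : H761.lowPrimes F // H761.lowNorm F 𝔭 = p}, twP F χ s x.1.1 =
      χ ((p : ℕ) : ZMod m) * (((Spec.primeCount F p : ℝ) * ((p : ℕ) : ℝ) ^ (-s) : ℝ) : ℂ) := by
  have := H761.finite_fibre F p
  have : Fintype {𝔭 : H761.lowPrimes F // H761.lowNorm F 𝔭 = p} := Fintype.ofFinite _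
  rw [tsum_fintype]
  have h : ∀ x : {𝔭 : H761.lowPrimes F // H761.lowNorm F 𝔭 = p},
      twP F χ s x.1.1 = χ ((p : ℕ) : ZMod m) * ((((p : ℕ) : ℝ) ^ (-s) : ℝ) : ℂ) := by
    intro x
    have := congrArg Subtype.val x.2
    simp only [H761.lowNorm] at this
    simp only [twP, this]
  simp only [h, Finset.sum_const, Finset.card_univ, nsmul_eq_mul, ← H761.card_fibre F p,
    Nat.card_eq_fintype_card]
  push_cast
  ring

lemma summable_primeCount {s : ℝ} (hs : 1 < s) :
    Summable (fun p : Nat.Primes => (Spec.primeCount F p : ℝ) * ((p : ℕ) : ℝ) ^ (-s)) := by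
  have hsum : Summable (fun 𝔭 : H761.lowPrimes F => H761.normPow F s 𝔭.1.asIdeal) :=
    (H761.summable_primeSum F hs).subtype _
  have hsum' : Summable (fun y : Σ p : Nat.Primes,
      {𝔭 : H761.lowPrimes F // H761.lowNorm F 𝔭 = p} => H761.normPow F s y.2.1.1.asIdeal) :=
    ((Equiv.sigmaFiberEquiv (H761.lowNorm F)).summable_iff
      (f := fun 𝔭 : H761.lowPrimes F => H761.normPow F s 𝔭.1.asIdeal)).mpr hsum
  have := hsum'.sigma
  refine this.congr fun p => ?_
  exact H761.tsum_fibre F s p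

lemma tsum_lowPrimes_twP {s : ℝ} (hs : 1 < s) :
    ∑' 𝔭 : H761.lowPrimes F, twP F χ s 𝔭.1 =
      ∑' p : Nat.Primes, χ ((p : ℕ) : ZMod m) *
        (((Spec.primeCount F p : ℝ) * ((p : ℕ) : ℝ) ^ (-s) : ℝ) : ℂ) := by
  have hsum : Summable (fun 𝔭 : H761.lowPrimes F => twP F χ s 𝔭.1) :=
    (summable_twP F χ hs).subtype _
  have hsum' : Summable (fun y : Σ p : Nat.Primes,
      {𝔭 : H761.lowPrimes F // H761.lowNorm F 𝔭 = p} => twP F χ s y.2.1.1) :=
    ((Equiv.sigmaFiberEquiv (H761.lowNorm F)).summable_iff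
      (f := fun 𝔭 : H761.lowPrimes F => twP F χ s 𝔭.1)).mpr hsum
  calc ∑' 𝔭 : H761.lowPrimes F, twP F χ s 𝔭.1
      = ∑' y : Σ p : Nat.Primes, {𝔭 : H761.lowPrimes F // H761.lowNorm F 𝔭 = p},
          twP F χ s y.2.1.1 :=
        ((Equiv.sigmaFiberEquiv (H761.lowNorm F)).tsum_eq
          (fun 𝔭 : H761.lowPrimes F => twP F χ s 𝔭.1)).symm
    _ = ∑' p : Nat.Primes, ∑' x : {𝔭 : H761.lowPrimes F // H761.lowNorm F 𝔭 = p},
          twP F χ s x.1.1 := hsum'.tsum_sigma
    _ = _ := tsum_congr fun p => tsum_fibre_twP F χ s p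

theorem twistedPrimeSum : TwistedPrimeSumStatement := by
  intro _ F _ _ m _ χ
  refine ⟨H761.highBound F, fun s hs1 _ => ⟨summable_primeCount F hs1, ?_⟩⟩
  have hsum := summable_twP F χ hs1
  have hsplit : ∑' 𝔭 : HeightOneSpectrum (𝓞 F), twP F χ s 𝔭 =
      (∑' 𝔭 : H761.lowPrimes F, twP F χ s 𝔭.1) +
        ∑' 𝔭 : H761.highPrimes F, twP F χ s 𝔭.1 := by
    have hc : H761.highPrimes F = (H761.lowPrimes F)ᶜ := rfl
    rw [hc]
    exact ((hsum.subtype _).tsum_add_tsum_compl (hsum.subtype _)).symm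
  have hhigh : ‖∑' 𝔭 : H761.highPrimes F, twP F χ s 𝔭.1‖ ≤ H761.highBound F := by
    have hs' : Summable (fun 𝔭 : H761.highPrimes F => H761.normPow F s 𝔭.1.asIdeal) :=
      (H761.summable_primeSum F hs1).subtype _
    calc ‖∑' 𝔭 : H761.highPrimes F, twP F χ s 𝔭.1‖
        ≤ ∑' 𝔭 : H761.highPrimes F, H761.normPow F s 𝔭.1.asIdeal :=
          tsum_of_norm_bounded hs'.hasSum (fun 𝔭 => norm_twP_le F χ s 𝔭.1)
      _ ≤ _ := H761.tsum_highPrimes_le F hs1
  change ‖(∑' 𝔭 : HeightOneSpectrum (𝓞 F), twP F χ s 𝔭) - _‖ ≤ _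
  rw [hsplit, tsum_lowPrimes_twP F χ hs1, add_sub_cancel_left]
  exact hhigh

end

end Fermat.Agent.Lib.Cheb.H221

end
-- ===== PACK-END Lib/Cheb/H221/CycDeg.lean

-- ===== PACK-BEGIN S14/H74/Lipschitz.lean
section


/-!
# S14/N1 (helper74): Lipschitz estimate for `fS` (piece P5)
-/

namespace Fermat.Agent.S14.H74

open NumberField NumberField.mixedEmbedding NumberField.Units
  NumberField.Units.dirichletUnitTheorem NumberField.InfinitePlace Module

open scoped Classical

variable {K : Type*} [Field K] [NumberField K]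

theorem abs_log_sub_log_le {a b : ℝ} (ha : 0 < a) (hab : |b - a| ≤ a / 2) :
    |Real.log b - Real.log a| ≤ 2 * |b - a| / a := by
  have hb : 0 < b := by
    have := (abs_le.mp hab).1
    linarith
  have hb2 : a / 2 ≤ b := by
    have := (abs_le.mp hab).1
    linarith
  rw [← Real.log_div hb.ne' ha.ne']
  have hr : 0 < b / a := div_pos hb ha
  have h1 : Real.log (b / a) ≤ b / a - 1 := Real.log_le_sub_one_of_pos hr
  have h2 : 1 - (b / a)⁻¹ ≤ Real.log (b / a) := Real.one_sub_inv_le_log_of_pos hr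
  have e1 : b / a - 1 = (b - a) / a := by field_simp
  have e2 : 1 - (b / a)⁻¹ = (b - a) / b := by field_simp
  rw [e1] at h1
  rw [e2] at h2
  have h3 : (b - a) / a ≤ 2 * |b - a| / a := by
    apply div_le_div_of_nonneg_right _ ha.le
    have := le_abs_self (b - a)
    have := abs_nonneg (b - a)
    linarith
  have h4 : -(2 * |b - a| / a) ≤ (b - a) / b := by
    rw [neg_le, ← neg_div, div_le_div_iff₀ hb ha]
    have h5 := neg_abs_le (b - a)
    have h6 := abs_nonneg (b - a)
    have h7 : -(b - a) ≤ |b - a| := by linarith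
    calc -(b - a) * a ≤ |b - a| * a := by gcongr
      _ ≤ |b - a| * (2 * b) := by gcongr; linarith
      _ = 2 * |b - a| * b := by ring
  exact abs_le.mpr ⟨by linarith, by linarith⟩

theorem abs_normAtPlace_add_sub_le (w : InfinitePlace K) (x t : mixedSpace K) :
    |normAtPlace w (x + t) - normAtPlace w x| ≤ ‖t‖ := by
  have h1 := normAtPlace_add_le w x t
  have h2 := normAtPlace_add_le w (x + t) (-t)
  rw [normAtPlace_neg, add_neg_cancel_right] at h2
  have h3 := normAtPlace_le_norm w t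
  exact abs_le.mpr ⟨by linarith, by linarith⟩

/-- Bound for the coordinates in the unit lattice basis. -/
theorem exists_logCoord_bound : ∃ M : ℝ, 0 ≤ M ∧ ∀ (v : logSpace K) (j : Fin (rank K)),
    |((basisUnitLattice K).ofZLatticeBasis ℝ (unitLattice K)).repr v j| ≤ M * ‖v‖ := by
  set b := (basisUnitLattice K).ofZLatticeBasis ℝ (unitLattice K) with hb
  refine ⟨‖(b.equivFunL : logSpace K →L[ℝ] (Fin (rank K) → ℝ))‖, _root_.norm_nonneg _, fun v j ↦ ?_⟩
  have h1 := (b.equivFunL : logSpace K →L[ℝ] (Fin (rank K) → ℝ)).le_opNorm v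
  have h2 : b.repr v j = (b.equivFunL : logSpace K →L[ℝ] (Fin (rank K) → ℝ)) v j := by
    simp [Basis.equivFunL]
  rw [h2, ← Real.norm_eq_abs]
  exact (norm_le_pi_norm _ j).trans h1

theorem mult_le_two_real (w : InfinitePlace K) : (mult w : ℝ) ≤ 2 := by
  unfold mult
  split_ifs <;> norm_num

theorem normAtPlace_pos_of_norm_ne_zero {x : mixedSpace K} (hx : mixedEmbedding.norm x ≠ 0)
    (w : InfinitePlace K) : 0 < normAtPlace w x :=
  lt_of_le_of_ne (normAtPlace_nonneg w x) (mixedEmbedding.norm_ne_zero_iff.mp hx w).symm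

/-- L1: a small perturbation keeps the norm nonzero and moves the logarithms of the
`normAtPlace` by a small amount. -/
theorem log_normAtPlace_add_sub {x t : mixedSpace K} (hx : mixedEmbedding.norm x ≠ 0)
    (ht : ∀ w, ‖t‖ ≤ normAtPlace w x / 2) :
    mixedEmbedding.norm (x + t) ≠ 0 ∧ ∀ w, |Real.log (normAtPlace w (x + t)) -
      Real.log (normAtPlace w x)| ≤ 2 * ‖t‖ / normAtPlace w x := by
  have hpos := normAtPlace_pos_of_norm_ne_zero hx
  have h1 : ∀ w, |normAtPlace w (x + t) - normAtPlace w x| ≤ normAtPlace w x / 2 :=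
    fun w ↦ (abs_normAtPlace_add_sub_le w x t).trans (ht w)
  refine ⟨mixedEmbedding.norm_ne_zero_iff.mpr fun w ↦ ?_, fun w ↦ ?_⟩
  · have := (abs_le.mp (h1 w)).1
    have := hpos w
    exact ne_of_gt (by linarith)
  · refine (abs_log_sub_log_le (hpos w) (h1 w)).trans ?_
    apply div_le_div_of_nonneg_right _ (hpos w).le
    have := abs_normAtPlace_add_sub_le w x t
    linarith

/-- L2 (i): the logarithm of the norm moves by at most `n δ`. -/
theorem abs_log_norm_sub_le {x y : mixedSpace K} (hx : mixedEmbedding.norm x ≠ 0)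
    (hy : mixedEmbedding.norm y ≠ 0) {δ : ℝ}
    (h : ∀ w, |Real.log (normAtPlace w y) - Real.log (normAtPlace w x)| ≤ δ) :
    |Real.log (mixedEmbedding.norm y) - Real.log (mixedEmbedding.norm x)|
      ≤ (_root_.Module.finrank ℚ K : ℝ) * δ := by
  rw [log_norm_eq_sum hx, log_norm_eq_sum hy, ← Finset.sum_sub_distrib]
  refine (Finset.abs_sum_le_sum_abs _ _).trans ?_
  have h1 : (∑ w : InfinitePlace K, (mult w : ℝ)) = (_root_.Module.finrank ℚ K : ℝ) := by
    rw [← Nat.cast_sum, sum_mult_eq]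
  rw [← h1, Finset.sum_mul]
  refine Finset.sum_le_sum fun w _ ↦ ?_
  rw [← mul_sub, abs_mul, abs_of_nonneg (by positivity : (0 : ℝ) ≤ mult w)]
  exact mul_le_mul_of_nonneg_left (h w) (by positivity)

/-- L2 (ii): `logMap` moves by at most `4 δ`. -/
theorem norm_logMap_sub_le {x y : mixedSpace K} (hx : mixedEmbedding.norm x ≠ 0)
    (hy : mixedEmbedding.norm y ≠ 0) {δ : ℝ} (hδ : 0 ≤ δ)
    (h : ∀ w, |Real.log (normAtPlace w y) - Real.log (normAtPlace w x)| ≤ δ) :
    ‖logMap y - logMap x‖ ≤ 4 * δ := by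
  rw [pi_norm_le_iff_of_nonneg (by positivity)]
  intro w
  have hn : (0 : ℝ) < _root_.Module.finrank ℚ K := Nat.cast_pos.mpr finrank_pos
  have h1 := abs_log_norm_sub_le hx hy h
  have h2 := h w.1
  rw [Pi.sub_apply, logMap_apply, logMap_apply, ← mul_sub, Real.norm_eq_abs, abs_mul,
    abs_of_nonneg (by positivity : (0 : ℝ) ≤ mult w.1)]
  have h3 : |Real.log (normAtPlace w.1 y) -
      Real.log (mixedEmbedding.norm y) * (_root_.Module.finrank ℚ K : ℝ)⁻¹ -
      (Real.log (normAtPlace w.1 x) - Real.log (mixedEmbedding.norm x) * (_root_.Module.finrank ℚ K : ℝ)⁻¹)|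
      ≤ 2 * δ := by
    have e : Real.log (normAtPlace w.1 y) -
      Real.log (mixedEmbedding.norm y) * (_root_.Module.finrank ℚ K : ℝ)⁻¹ -
      (Real.log (normAtPlace w.1 x) - Real.log (mixedEmbedding.norm x) * (_root_.Module.finrank ℚ K : ℝ)⁻¹)
      = (Real.log (normAtPlace w.1 y) - Real.log (normAtPlace w.1 x)) -
        (Real.log (mixedEmbedding.norm y) - Real.log (mixedEmbedding.norm x)) *
          (_root_.Module.finrank ℚ K : ℝ)⁻¹ := by ring
    rw [e]
    refine (abs_sub _ _).trans ?_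
    rw [abs_mul, abs_of_pos (inv_pos.mpr hn)]
    have h4 : |Real.log (mixedEmbedding.norm y) - Real.log (mixedEmbedding.norm x)| *
        (_root_.Module.finrank ℚ K : ℝ)⁻¹ ≤ δ := by
      rw [← div_eq_mul_inv, div_le_iff₀ hn]
      linarith
    linarith
  calc (mult w.1 : ℝ) * _ ≤ 2 * (2 * δ) :=
        mul_le_mul (mult_le_two_real w.1) h3 (abs_nonneg _) (by norm_num)
    _ = 4 * δ := by ring

/-- L2 (iii): `rho` moves by at most `r M 4 δ`. -/
theorem exists_rho_sub_bound : ∃ M : ℝ, 0 ≤ M ∧ ∀ (x y : mixedSpace K),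
    mixedEmbedding.norm x ≠ 0 → mixedEmbedding.norm y ≠ 0 → ∀ δ : ℝ, 0 ≤ δ →
    (∀ w, |Real.log (normAtPlace w y) - Real.log (normAtPlace w x)| ≤ δ) →
    |rho K y - rho K x| ≤ M * δ := by
  obtain ⟨M, hM0, hM⟩ := exists_logCoord_bound (K := K)
  refine ⟨rank K * (M * 4), by positivity, fun x y hx hy δ hδ h ↦ ?_⟩
  rw [rho_eq_prod hx, rho_eq_prod hy]
  refine (abs_prod_sub_prod_le_sum _ _ _ (fun _ ↦ tent_nonneg _) (fun _ ↦ tent_le_one _)
    (fun _ ↦ tent_nonneg _) (fun _ ↦ tent_le_one _)).trans ?_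
  have h1 : ∀ j, |tent (logCoord K y j) - tent (logCoord K x j)| ≤ M * 4 * δ := by
    intro j
    refine (tent_lipschitz _ _).trans ?_
    have e : logCoord K y j - logCoord K x j =
        ((basisUnitLattice K).ofZLatticeBasis ℝ (unitLattice K)).repr (logMap y - logMap x) j := by
      simp [logCoord]
    rw [e]
    refine (hM _ j).trans ?_
    rw [mul_assoc]
    exact mul_le_mul_of_nonneg_left (norm_logMap_sub_le hx hy hδ h) hM0
  calc ∑ j, |tent (logCoord K y j) - tent (logCoord K x j)|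
      ≤ ∑ _j : Fin (rank K), M * 4 * δ := Finset.sum_le_sum fun j _ ↦ h1 j
    _ = rank K * (M * 4) * δ := by
        rw [Finset.sum_const, Finset.card_univ, Fintype.card_fin, nsmul_eq_mul]
        ring

theorem pow_le_norm_of_support {A : ℝ} (hA : 1 ≤ A) {x : mixedSpace K}
    (h : ∀ w, ‖x‖ ≤ A * normAtPlace w x) :
    (‖x‖ / A) ^ (_root_.Module.finrank ℚ K) ≤ mixedEmbedding.norm x := by
  have hA0 : 0 < A := by linarith
  rw [mixedEmbedding.norm_apply, ← sum_mult_eq, ← Finset.prod_pow_eq_pow_sum]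
  refine Finset.prod_le_prod (fun w _ ↦ by positivity) fun w _ ↦ ?_
  refine pow_le_pow_left₀ (by positivity) ?_ _
  rw [div_le_iff₀ hA0, mul_comm]
  exact h w

theorem fS_eq_zero_of_rho_eq_zero {s : ℝ} {x : mixedSpace K} (h : rho K x = 0) :
    fS K s x = 0 := by
  simp [fS, h]

/-- P5, core case: Lipschitz estimate at points of the support of `rho`. -/
theorem exists_fS_lipschitz_core : ∃ C A : ℝ, 0 ≤ C ∧ 1 ≤ A ∧ ∀ s : ℝ, 1 ≤ s → s ≤ 2 →
    ∀ x t : mixedSpace K, rho K x ≠ 0 → 4 * (_root_.Module.finrank ℚ K : ℝ) * A * ‖t‖ ≤ ‖x‖ → A ≤ ‖x‖ →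
    |fS K s (x + t) - fS K s x| ≤ C * ‖t‖ / ‖x‖ ^ (_root_.Module.finrank ℚ K + 1) := by
  obtain ⟨A, hA1, hA⟩ := exists_support_bound (K := K)
  obtain ⟨M, hM0, hM⟩ := exists_rho_sub_bound (K := K)
  have hA0 : 0 < A := by linarith
  have hn1 : (1 : ℝ) ≤ _root_.Module.finrank ℚ K := by exact_mod_cast finrank_pos
  set n : ℕ := _root_.Module.finrank ℚ K with hn
  refine ⟨(3 * M + 4 * n) * 2 * A ^ (n + 1), A, by positivity, hA1,
    fun s hs1 hs2 x t hρ hxt hxA ↦ ?_⟩
  have hN := norm_ne_zero_of_rho_ne_zero hρ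
  have hsupp := hA x hρ
  have hxpos : 0 < ‖x‖ := by linarith
  have hapos := normAtPlace_pos_of_norm_ne_zero hN
  have htn : 0 ≤ ‖t‖ := _root_.norm_nonneg t
  -- `‖t‖` is small with respect to all `normAtPlace w x`
  have ht4 : ∀ w, 4 * (n : ℝ) * ‖t‖ ≤ normAtPlace w x := by
    intro w
    have h1 := hsupp w
    have h2 : A * (4 * (n : ℝ) * ‖t‖) ≤ A * normAtPlace w x := by
      calc A * (4 * (n : ℝ) * ‖t‖) = 4 * (n : ℝ) * A * ‖t‖ := by ring
        _ ≤ ‖x‖ := hxt
        _ ≤ A * normAtPlace w x := h1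
    exact le_of_mul_le_mul_left h2 hA0
  have ht : ∀ w, ‖t‖ ≤ normAtPlace w x / 2 := by
    intro w
    have := ht4 w
    nlinarith
  obtain ⟨hN', hlog⟩ := log_normAtPlace_add_sub hN ht
  set δ : ℝ := 2 * A * ‖t‖ / ‖x‖ with hδ
  have hδ0 : 0 ≤ δ := by positivity
  have hδ1 : 2 * (n : ℝ) * δ ≤ 1 := by
    rw [hδ, ← mul_div_assoc, div_le_one hxpos]
    calc 2 * (n : ℝ) * (2 * A * ‖t‖) = 4 * (n : ℝ) * A * ‖t‖ := by ring
      _ ≤ ‖x‖ := hxt
  have hlogδ : ∀ w, |Real.log (normAtPlace w (x + t)) - Real.log (normAtPlace w x)| ≤ δ := by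
    intro w
    refine (hlog w).trans ?_
    rw [hδ, div_le_div_iff₀ (hapos w) hxpos]
    calc 2 * ‖t‖ * ‖x‖ ≤ 2 * ‖t‖ * (A * normAtPlace w x) := by gcongr; exact hsupp w
      _ = 2 * A * ‖t‖ * normAtPlace w x := by ring
  have hΔ := abs_log_norm_sub_le hN hN' hlogδ
  have hρ' := hM x (x + t) hN hN' δ hδ0 hlogδ
  set Δ : ℝ := Real.log (mixedEmbedding.norm (x + t)) - Real.log (mixedEmbedding.norm x) with hΔdef
  have hNpos : 0 < mixedEmbedding.norm x :=
    lt_of_le_of_ne (mixedEmbedding.norm_nonneg x) hN.symm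
  have hNpos' : 0 < mixedEmbedding.norm (x + t) :=
    lt_of_le_of_ne (mixedEmbedding.norm_nonneg _) hN'.symm
  -- the exponential factor
  have hsΔ : |(-s) * Δ| ≤ 2 * (n : ℝ) * δ := by
    rw [abs_mul, abs_neg, abs_of_nonneg (by linarith : (0 : ℝ) ≤ s)]
    calc s * |Δ| ≤ 2 * ((n : ℝ) * δ) := mul_le_mul hs2 hΔ (abs_nonneg _) (by norm_num)
      _ = 2 * (n : ℝ) * δ := by ring
  have he1 : |Real.exp ((-s) * Δ) - 1| ≤ 4 * (n : ℝ) * δ := by
    refine (Real.abs_exp_sub_one_le (hsΔ.trans hδ1)).trans ?_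
    linarith
  have he2 : Real.exp ((-s) * Δ) ≤ 3 := by
    have := (abs_le.mp he1).2
    linarith
  have he0 : 0 ≤ Real.exp ((-s) * Δ) := (Real.exp_pos _).le
  have hpow : (mixedEmbedding.norm (x + t)) ^ (-s) =
      (mixedEmbedding.norm x) ^ (-s) * Real.exp ((-s) * Δ) := by
    rw [Real.rpow_def_of_pos hNpos, Real.rpow_def_of_pos hNpos', ← Real.exp_add, hΔdef]
    congr 1
    ring
  -- bound for `N(x)^(-s)`
  have hNge := pow_le_norm_of_support hA1 hsupp
  have hxA1 : 1 ≤ ‖x‖ / A := by rwa [le_div_iff₀ hA0, one_mul]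
  have hN1 : 1 ≤ mixedEmbedding.norm x := (one_le_pow₀ hxA1).trans hNge
  have hNs : (mixedEmbedding.norm x) ^ (-s) ≤ (A / ‖x‖) ^ n := by
    calc (mixedEmbedding.norm x) ^ (-s) ≤ (mixedEmbedding.norm x) ^ (-1 : ℝ) :=
          Real.rpow_le_rpow_of_exponent_le hN1 (by linarith)
      _ = (mixedEmbedding.norm x)⁻¹ := Real.rpow_neg_one _
      _ ≤ ((‖x‖ / A) ^ n)⁻¹ := inv_anti₀ (by positivity) hNge
      _ = (A / ‖x‖) ^ n := by rw [← inv_pow, inv_div]
  have hNs0 : 0 ≤ (mixedEmbedding.norm x) ^ (-s) := Real.rpow_nonneg hNpos.le _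
  -- assemble
  have hρ0 := rho_nonneg (K := K) x
  have hρ1 := rho_le_one (K := K) x
  have key : fS K s (x + t) - fS K s x = (mixedEmbedding.norm x) ^ (-s) *
      ((rho K (x + t) - rho K x) * Real.exp ((-s) * Δ) +
        rho K x * (Real.exp ((-s) * Δ) - 1)) := by
    have e1 : fS K s (x + t) = rho K (x + t) * (mixedEmbedding.norm (x + t)) ^ (-s) := rfl
    have e2 : fS K s x = rho K x * (mixedEmbedding.norm x) ^ (-s) := rfl
    rw [e1, e2, hpow]
    generalize rho K (x + t) = r1
    generalize rho K x = r2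
    generalize (mixedEmbedding.norm x) ^ (-s) = q
    generalize Real.exp ((-s) * Δ) = e
    ring
  rw [key, abs_mul, abs_of_nonneg hNs0]
  have hin : |(rho K (x + t) - rho K x) * Real.exp ((-s) * Δ) +
        rho K x * (Real.exp ((-s) * Δ) - 1)| ≤ (3 * M + 4 * n) * δ := by
    refine (abs_add_le _ _).trans ?_
    rw [abs_mul, abs_mul, abs_of_nonneg he0, abs_of_nonneg hρ0]
    have h1 : |rho K (x + t) - rho K x| * Real.exp ((-s) * Δ) ≤ (M * δ) * 3 :=
      mul_le_mul hρ' he2 he0 (mul_nonneg hM0 hδ0)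
    have h2 : rho K x * |Real.exp ((-s) * Δ) - 1| ≤ 1 * (4 * (n : ℝ) * δ) :=
      mul_le_mul hρ1 he1 (abs_nonneg _) (by norm_num)
    linarith
  calc (mixedEmbedding.norm x) ^ (-s) * _ ≤ (A / ‖x‖) ^ n * ((3 * M + 4 * n) * δ) :=
        mul_le_mul hNs hin (abs_nonneg _) (by positivity)
    _ = (3 * M + 4 * n) * 2 * A ^ (n + 1) * ‖t‖ / ‖x‖ ^ (n + 1) := by
        rw [hδ, div_pow]
        field_simp
        ring

/-- **P5**: Lipschitz estimate for `fS`, uniform in `s ∈ [1, 2]`. -/
theorem exists_fS_lipschitz {T : ℝ} (hT : 0 ≤ T) : ∃ R C : ℝ, 0 < R ∧ 0 ≤ C ∧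
    ∀ s : ℝ, 1 ≤ s → s ≤ 2 → ∀ x t : mixedSpace K, ‖t‖ ≤ T → R ≤ ‖x‖ →
    |fS K s (x + t) - fS K s x| ≤ C / ‖x‖ ^ (_root_.Module.finrank ℚ K + 1) := by
  obtain ⟨C, A, hC0, hA1, h⟩ := exists_fS_lipschitz_core (K := K)
  have hA0 : 0 < A := by linarith
  have hn1 : (1 : ℝ) ≤ _root_.Module.finrank ℚ K := by exact_mod_cast finrank_pos
  set n : ℕ := _root_.Module.finrank ℚ K with hn
  have hnAT : 0 ≤ (n : ℝ) * A * T := by positivity
  refine ⟨2 * A + 8 * n * A * T + 2 * T, C * T * 2 ^ (n + 1), by positivity, by positivity,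
    fun s hs1 hs2 x t ht hx ↦ ?_⟩
  have hxpos : 0 < ‖x‖ := by linarith
  have htn : 0 ≤ ‖t‖ := _root_.norm_nonneg t
  have h2pow : (1 : ℝ) ≤ 2 ^ (n + 1) := one_le_pow₀ (by norm_num)
  by_cases hρ : rho K x = 0
  · by_cases hρ' : rho K (x + t) = 0
    · rw [fS_eq_zero_of_rho_eq_zero hρ, fS_eq_zero_of_rho_eq_zero hρ', sub_zero, abs_zero]
      positivity
    · -- apply the core case at `x + t` with `-t`
      have hxt : ‖x‖ / 2 ≤ ‖x + t‖ := by
        have h1 : ‖x‖ ≤ ‖x + t‖ + ‖t‖ := by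
          calc ‖x‖ = ‖(x + t) - t‖ := by rw [add_sub_cancel_right]
            _ ≤ ‖x + t‖ + ‖t‖ := norm_sub_le _ _
        linarith
      have hxt0 : 0 < ‖x + t‖ := by linarith
      have h1 := h s hs1 hs2 (x + t) (-t) hρ' (by
        rw [norm_neg]
        calc 4 * (n : ℝ) * A * ‖t‖ ≤ 4 * (n : ℝ) * A * T := by gcongr
          _ ≤ ‖x‖ / 2 := by linarith
          _ ≤ ‖x + t‖ := hxt) (by linarith)
      rw [add_neg_cancel_right, norm_neg, abs_sub_comm] at h1
      refine h1.trans ?_
      rw [div_le_div_iff₀ (by positivity) (by positivity)]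
      have h3 : ‖x‖ ^ (n + 1) ≤ 2 ^ (n + 1) * ‖x + t‖ ^ (n + 1) := by
        rw [← mul_pow]
        exact pow_le_pow_left₀ hxpos.le (by linarith) _
      calc C * ‖t‖ * ‖x‖ ^ (n + 1) ≤ C * T * (2 ^ (n + 1) * ‖x + t‖ ^ (n + 1)) := by gcongr
        _ = C * T * 2 ^ (n + 1) * ‖x + t‖ ^ (n + 1) := by ring
  · have h1 := h s hs1 hs2 x t hρ (by
      calc 4 * (n : ℝ) * A * ‖t‖ ≤ 4 * (n : ℝ) * A * T := by gcongr
        _ ≤ ‖x‖ := by linarith) (by linarith)
    refine h1.trans ?_
    apply div_le_div_of_nonneg_right _ (by positivity)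
    calc C * ‖t‖ ≤ C * T * 1 := by rw [mul_one]; gcongr
      _ ≤ C * T * 2 ^ (n + 1) := by gcongr

end Fermat.Agent.S14.H74

end
-- ===== PACK-END S14/H74/Lipschitz.lean

-- ===== PACK-BEGIN S55/H414/CycloPow.lean
section




/-!
# S55, leaf CYC-INF (helper414), part 3: the cyclotomic character mod `N` on `G_ℚ`, Frobenius

* `cycloPow N : G_ℚ →* (ZMod N)ˣ`, `σ ζ_N = ζ_N ^ (cycloPow N σ)`, with kernel the fixing subgroup
  of `ℚ(ζ_N)`;
* every valuation subring `A` of `ℚ̄` over a prime `q` has a Frobenius element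
  (`exists_isFrobeniusAt`, the proof of `Fermat.Agent.S54.exists_frobenius` for a given `A`);
* a Frobenius element at `A | q`, `q ∤ N`, acts on `ζ_N` by `ζ ↦ ζ ^ q`;
* hence for `q ≠ p` the local degree of `ℚ(ζ_{p^n})` at `A` is divisible by `p ^ k` for `n ≫ 0`.
-/

set_option autoImplicit false

namespace Fermat.Agent.S55.H414

open ExtCitation Fermat.Agent.S55.Bridge

/-- The cyclotomic character modulo `N` of `G_ℚ`. -/
noncomputable def cycloPow (N : ℕ) [NeZero N] :
    (AlgebraicClosure ℚ ≃ₐ[ℚ] AlgebraicClosure ℚ) →* (ZMod N)ˣ :=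
  (zetaBar_spec N).autToPow ℚ

theorem cycloPow_spec (N : ℕ) [NeZero N] (σ : AlgebraicClosure ℚ ≃ₐ[ℚ] AlgebraicClosure ℚ) :
    σ (zetaBar N) = zetaBar N ^ ((cycloPow N σ : (ZMod N)ˣ) : ZMod N).val :=
  ((zetaBar_spec N).autToPow_spec ℚ σ).symm

/-- Two powers of a primitive `N`-th root of unity agree iff the exponents agree in `ZMod N`. -/
theorem pow_eq_pow_iff_natCast_eq {R : Type*} [CommRing R] [IsDomain R] {ζ : R} {N : ℕ}
    [NeZero N] (hζ : IsPrimitiveRoot ζ N) (a b : ℕ) :
    ζ ^ a = ζ ^ b ↔ (a : ZMod N) = (b : ZMod N) := by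
  obtain ⟨u, rfl⟩ := hζ.isUnit (NeZero.ne N)
  have hu : IsPrimitiveRoot u N := IsPrimitiveRoot.coe_units_iff.1 hζ
  rw [ZMod.natCast_eq_natCast_iff, ← Units.val_pow_eq_pow_val, ← Units.val_pow_eq_pow_val,
    Units.val_inj, pow_eq_pow_iff_modEq, ← hu.eq_orderOf]

/-- Characterisation of the value of the cyclotomic character. -/
theorem cycloPow_eq_iff (N : ℕ) [NeZero N] (σ : AlgebraicClosure ℚ ≃ₐ[ℚ] AlgebraicClosure ℚ)
    (u : (ZMod N)ˣ) :
    cycloPow N σ = u ↔ σ (zetaBar N) = zetaBar N ^ (u : ZMod N).val := by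
  rw [cycloPow_spec, pow_eq_pow_iff_natCast_eq (zetaBar_spec N), ZMod.natCast_zmod_val,
    ZMod.natCast_zmod_val]
  exact Units.ext_iff

/-- If `σ ζ = ζ ^ a` then `cycloPow N σ` is the class of `a`. -/
theorem coe_cycloPow_of_apply_eq_pow (N : ℕ) [NeZero N]
    (σ : AlgebraicClosure ℚ ≃ₐ[ℚ] AlgebraicClosure ℚ) (a : ℕ)
    (h : σ (zetaBar N) = zetaBar N ^ a) :
    ((cycloPow N σ : (ZMod N)ˣ) : ZMod N) = (a : ZMod N) := by
  rw [cycloPow_spec, pow_eq_pow_iff_natCast_eq (zetaBar_spec N), ZMod.natCast_zmod_val] at h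
  exact h

theorem ker_cycloPow (N : ℕ) [NeZero N] :
    (cycloPow N).ker = (cycloLevel N).fixingSubgroup := by
  ext σ
  rw [MonoidHom.mem_ker, mem_fixingSubgroup_cycloLevel_iff, cycloPow_eq_iff]
  have h1 : zetaBar N ^ ((1 : (ZMod N)ˣ) : ZMod N).val = zetaBar N := by
    conv_rhs => rw [← pow_one (zetaBar N)]
    rw [pow_eq_pow_iff_natCast_eq (zetaBar_spec N), ZMod.natCast_zmod_val, Units.val_one,
      Nat.cast_one]
  rw [h1]

/-- The local degree `[D : D ∩ G_F]` for `F = ℚ(ζ_N)` is the order of the image of `D` under the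
cyclotomic character. -/
theorem relIndex_fixingSubgroup_cycloLevel (N : ℕ) [NeZero N]
    (D : Subgroup (AlgebraicClosure ℚ ≃ₐ[ℚ] AlgebraicClosure ℚ)) :
    (cycloLevel N).fixingSubgroup.relIndex D = Nat.card (D.map (cycloPow N)) := by
  rw [← ker_cycloPow, Subgroup.relIndex_ker]

/-- The local degree `[D : D ∩ G_F]` is the order of the image of `D` in `Gal(F/ℚ)`. -/
theorem relIndex_fixingSubgroup_eq_card_map_restrictNormalHom
    (F : IntermediateField ℚ (AlgebraicClosure ℚ)) [Normal ℚ F]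
    (D : Subgroup (AlgebraicClosure ℚ ≃ₐ[ℚ] AlgebraicClosure ℚ)) :
    F.fixingSubgroup.relIndex D = Nat.card (D.map (AlgEquiv.restrictNormalHom F)) := by
  have hker : (AlgEquiv.restrictNormalHom (F := ℚ) (K₁ := AlgebraicClosure ℚ) F).ker
      = F.fixingSubgroup := by
    ext x
    rw [MonoidHom.mem_ker, IntermediateField.mem_fixingSubgroup_iff]
    constructor
    · intro h a ha
      have h1 := AlgEquiv.restrictNormal_commutes x F ⟨a, ha⟩
      have h2 : x.restrictNormal F = 1 := h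
      rw [h2] at h1
      exact h1.symm
    · intro h
      apply AlgEquiv.ext
      intro a
      apply Subtype.ext
      have h1 := AlgEquiv.restrictNormal_commutes x F a
      have h2 := h a a.2
      exact h1.trans h2
  rw [← hker, Subgroup.relIndex_ker]

/-- Every valuation subring of `ℚ̄` over a prime number `ℓ` has a Frobenius element. -/
theorem exists_isFrobeniusAt (A : ValuationSubring (AlgebraicClosure ℚ)) (ℓ : ℕ) (hℓ : ℓ.Prime)
    (hA : A.LiesOverPrime ℓ) :
    ∃ σ : AlgebraicClosure ℚ ≃ₐ[ℚ] AlgebraicClosure ℚ, A.IsFrobeniusAt σ ℓ := by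
  open Fermat.Agent.S54 in
  open scoped Pointwise in
  have : Algebra.IsAlgebraic ℚ (AlgebraicClosure ℚ) := AlgebraicClosure.isAlgebraic ℚ
  have := primeBelow_isPrime A
  have hℓQ : (ℓ : integralClosure ℤ (AlgebraicClosure ℚ)) ∈ primeBelow A := by
    rw [mem_primeBelow]
    exact hA
  obtain ⟨σ, hσQ', hσF⟩ := exists_frob_integralClosure ℓ hℓ (primeBelow A) hℓQ
  have hσQ : ∀ x, σ • x ∈ primeBelow A ↔ x ∈ primeBelow A := by
    intro x
    conv_lhs => rw [← hσQ']
    exact Ideal.smul_mem_pointwise_smul_iff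
  have key : ∀ τ : AlgebraicClosure ℚ ≃ₐ[ℚ] AlgebraicClosure ℚ,
      (∀ x, τ • x ∈ primeBelow A ↔ x ∈ primeBelow A) → ∀ x ∈ A, τ x ∈ A := by
    intro τ hτ x hx
    obtain ⟨b, s, hb, hs, hsA, hxs⟩ := (mem_valuationSubring_iff A ℓ hℓ hA x).mp hx
    refine (mem_valuationSubring_iff A ℓ hℓ hA (τ x)).mpr
      ⟨τ b, τ s, hb.map τ, hs.map τ, ?_, ?_⟩
    · exact (hτ ⟨s, hs⟩).not.mpr hsA
    · rw [← map_mul, hxs]
  have hσA : σ ∈ A.decompositionSubgroup ℚ := by
    rw [MulAction.mem_stabilizer_iff]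
    ext x
    rw [ValuationSubring.mem_smul_pointwise_iff_exists]
    constructor
    · rintro ⟨s, hs, rfl⟩
      exact key σ hσQ s hs
    · intro hx
      refine ⟨σ⁻¹ • x, key σ⁻¹ ?_ x hx, by simp⟩
      intro y
      rw [← hσQ (σ⁻¹ • y)]
      simp
  refine ⟨σ, hσA, ?_⟩
  intro x
  obtain ⟨a, rfl⟩ := IsLocalRing.residue_surjective x
  obtain ⟨b, s, hb, hs, hsA, hxs⟩ := (mem_valuationSubring_iff A ℓ hℓ hA a).mp a.2
  have hbA : b ∈ A := isIntegral_mem_valuationSubring A hb
  have hsA' : s ∈ A := isIntegral_mem_valuationSubring A hs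
  have hint : ∀ (y : AlgebraicClosure ℚ) (hy : IsIntegral ℤ y),
      (⟨σ, hσA⟩ : A.decompositionSubgroup ℚ) •
        IsLocalRing.residue A ⟨y, isIntegral_mem_valuationSubring A hy⟩ =
      (IsLocalRing.residue A ⟨y, isIntegral_mem_valuationSubring A hy⟩) ^ ℓ := by
    intro y hy
    rw [← IsLocalRing.ResidueField.residue_smul, ← map_pow, ← sub_eq_zero, ← map_sub,
      IsLocalRing.residue_eq_zero_iff, ← ValuationSubring.coe_mem_nonunits_iff]
    exact hσF ⟨y, hy⟩
  have h1 : IsLocalRing.residue A a * IsLocalRing.residue A ⟨s, hsA'⟩ =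
      IsLocalRing.residue A ⟨b, hbA⟩ := by
    rw [← map_mul]
    congr 1
    exact Subtype.ext hxs
  have h2 : IsLocalRing.residue A ⟨s, hsA'⟩ ≠ 0 := by
    rw [Ne, IsLocalRing.residue_eq_zero_iff, ← ValuationSubring.coe_mem_nonunits_iff]
    exact hsA
  have h3 := congrArg (fun z => (⟨σ, hσA⟩ : A.decompositionSubgroup ℚ) • z) h1
  simp only [smul_mul'] at h3
  rw [hint s hs, hint b hb, ← h1, mul_pow] at h3
  exact mul_right_cancel₀ (pow_ne_zero _ h2) h3

/-- A Frobenius element at `A` is congruent to the `q`-th power map on `A`. -/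
theorem IsFrobeniusAt_val_sub_pow_lt_one {A : ValuationSubring (AlgebraicClosure ℚ)}
    {σ : AlgebraicClosure ℚ ≃ₐ[ℚ] AlgebraicClosure ℚ} {q : ℕ} (hσ : A.IsFrobeniusAt σ q)
    (z : AlgebraicClosure ℚ) (hz : z ∈ A) : A.valuation (σ z - z ^ q) < 1 := by
  obtain ⟨hσD, hF⟩ := hσ
  have h2 := hF (IsLocalRing.residue A ⟨z, hz⟩)
  rw [← IsLocalRing.ResidueField.residue_smul, ← map_pow] at h2
  have h3 : ((⟨σ, hσD⟩ : A.decompositionSubgroup ℚ) • (⟨z, hz⟩ : A)) - (⟨z, hz⟩ : A) ^ q
      ∈ IsLocalRing.maximalIdeal A := by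
    rw [← Ideal.Quotient.eq]
    exact h2
  rw [ValuationSubring.valuation_lt_one_iff] at h3
  exact h3

/-- A Frobenius element at `A | q` acts on `N`-th roots of unity (`N` a unit at `A`) by
`ζ ↦ ζ ^ q`. -/
theorem IsFrobeniusAt_apply_root {A : ValuationSubring (AlgebraicClosure ℚ)}
    {σ : AlgebraicClosure ℚ ≃ₐ[ℚ] AlgebraicClosure ℚ} {q : ℕ} (hσ : A.IsFrobeniusAt σ q)
    {N : ℕ} (hN : N ≠ 0) (hNv : A.valuation (N : AlgebraicClosure ℚ) = 1)
    {z : AlgebraicClosure ℚ} (hz : z ^ N = 1) : σ z = z ^ q := by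
  by_contra hne
  have hσz : (σ z) ^ N = 1 := by rw [← map_pow, hz, map_one]
  have hzq : (z ^ q) ^ N = 1 := by rw [← pow_mul, mul_comm, pow_mul, hz, one_pow]
  have h1 := val_sub_roots_eq_one (A := A) hN hNv hσz hzq hne
  have hzA : z ∈ A := (A.valuation_le_one_iff z).1 (valuation_eq_one_of_pow_eq_one A hN hz).le
  have h2 := IsFrobeniusAt_val_sub_pow_lt_one hσ z hzA
  rw [h1] at h2
  exact lt_irrefl _ h2

/-- **CYC-INF, case `q ≠ p`.** For a valuation subring `A` of `ℚ̄` over a prime `q ≠ p` and every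
`k`, for all large `n` the local degree at `A` of `ℚ(ζ_{p^n})/ℚ` is divisible by `p ^ k`. -/
theorem exists_forall_pow_dvd_relIndex_of_ne (p : ℕ) [Fact p.Prime] (q : ℕ) (hq : q.Prime)
    (hqp : q ≠ p) (A : ValuationSubring (AlgebraicClosure ℚ)) (hA : A.LiesOverPrime q) (k : ℕ) :
    ∃ n₀ : ℕ, ∀ n, n₀ ≤ n →
      p ^ k ∣ (cycloLevel (p ^ n)).fixingSubgroup.relIndex (A.decompositionSubgroup ℚ) := by
  have hp : p.Prime := Fact.out
  obtain ⟨n₀, hn₀⟩ := exists_forall_pow_dvd_orderOf p q hp hq.two_le k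
  obtain ⟨σ, hσ⟩ := exists_isFrobeniusAt A q hq hA
  refine ⟨n₀, fun n hn => ?_⟩
  rw [relIndex_fixingSubgroup_cycloLevel]
  have hNv : A.valuation ((p ^ n : ℕ) : AlgebraicClosure ℚ) = 1 := by
    rw [Nat.cast_pow, map_pow, val_prime_eq_one (A := A) hA hq hp hqp, one_pow]
  have hζ : σ (zetaBar (p ^ n)) = zetaBar (p ^ n) ^ q :=
    IsFrobeniusAt_apply_root hσ (NeZero.ne _) hNv (zetaBar_spec (p ^ n)).pow_eq_one
  have hu := coe_cycloPow_of_apply_eq_pow (p ^ n) σ q hζ
  have hdvd := hn₀ n hn (cycloPow (p ^ n) σ) hu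
  have hmem : cycloPow (p ^ n) σ ∈ (A.decompositionSubgroup ℚ).map (cycloPow (p ^ n)) :=
    Subgroup.mem_map_of_mem _ hσ.mem_decompositionSubgroup
  have h2 : orderOf (cycloPow (p ^ n) σ) ∣
      Nat.card ((A.decompositionSubgroup ℚ).map (cycloPow (p ^ n))) := by
    have := Subgroup.orderOf_dvd_natCard
      ((A.decompositionSubgroup ℚ).map (cycloPow (p ^ n))) hmem
    exact this
  exact hdvd.trans h2

end Fermat.Agent.S55.H414

end
-- ===== PACK-END S55/H414/CycloPow.lean

-- ===== PACK-BEGIN S22/H262/IntMat.lean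
section


set_option autoImplicit false

/-!
# Integer matrices of positive determinant inside `GL₂(ℝ)`; Hermite decomposition
-/

open Complex Filter Function Metric Set
open UpperHalfPlane hiding I
open scoped Real Topology Manifold ModularForm MatrixGroups

namespace Fermat.Agent.S22.H262

open Matrix.SpecialLinearGroup

/-- Integer matrices of positive determinant, as a submonoid of `GL₂(ℝ)`. -/
def posInt : Submonoid (GL (Fin 2) ℝ) where
  carrier := {A | (∀ i j, ∃ m : ℤ, A i j = m) ∧ 0 < A.det.val}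
  one_mem' := by
    refine ⟨fun i j => ?_, by simp⟩
    by_cases h : i = j
    · exact ⟨1, by simp [h]⟩
    · exact ⟨0, by simp [h]⟩
  mul_mem' := by
    rintro A B ⟨hA, hA'⟩ ⟨hB, hB'⟩
    refine ⟨fun i j => ?_, ?_⟩
    · obtain ⟨a0, ha0⟩ := hA i 0
      obtain ⟨a1, ha1⟩ := hA i 1
      obtain ⟨b0, hb0⟩ := hB 0 j
      obtain ⟨b1, hb1⟩ := hB 1 j
      refine ⟨a0 * b0 + a1 * b1, ?_⟩
      simp only [Matrix.GeneralLinearGroup.coe_mul, Matrix.mul_apply, Fin.sum_univ_two, ha0, ha1,
        hb0, hb1]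
      push_cast
      ring
    · rw [_root_.map_mul, Units.val_mul]
      exact mul_pos hA' hB'

theorem mem_posInt {A : GL (Fin 2) ℝ} :
    A ∈ posInt ↔ (∀ i j, ∃ m : ℤ, A i j = m) ∧ 0 < A.det.val := Iff.rfl

theorem det_pos_of_mem_posInt {A : GL (Fin 2) ℝ} (hA : A ∈ posInt) : 0 < A.det.val := hA.2

theorem mapGL_mem_posInt (g : SL(2, ℤ)) : (mapGL ℝ g : GL (Fin 2) ℝ) ∈ posInt := by
  refine ⟨fun i j => ⟨g i j, by simp⟩, by simp⟩

/-- Integer vectors in `ℂ²`. -/
def Vint : Set (ℂ × ℂ) := {v | ∃ x y : ℤ, v = ((x : ℂ), (y : ℂ))}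

theorem actV_mem_Vint {A : GL (Fin 2) ℝ} (hA : A ∈ posInt) {v : ℂ × ℂ} (hv : v ∈ Vint) :
    actV A v ∈ Vint := by
  obtain ⟨x, y, rfl⟩ := hv
  obtain ⟨a, ha⟩ := hA.1 0 0
  obtain ⟨b, hb⟩ := hA.1 0 1
  obtain ⟨c, hc⟩ := hA.1 1 0
  obtain ⟨d, hd⟩ := hA.1 1 1
  refine ⟨a * x + b * y, c * x + d * y, ?_⟩
  simp only [actV, ha, hb, hc, hd]
  push_cast
  rfl

/-- The element of `GL₂(ℝ)` attached to an integer matrix with positive determinant. -/
noncomputable def glOfInt (M : Matrix (Fin 2) (Fin 2) ℤ) (hM : 0 < M.det) : GL (Fin 2) ℝ :=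
  Matrix.GeneralLinearGroup.mkOfDetNeZero (M.map (Int.castRingHom ℝ)) (by
    have : (M.map (Int.castRingHom ℝ)).det = ((M.det : ℤ) : ℝ) := by
      rw [← RingHom.mapMatrix_apply, ← RingHom.map_det]
      rfl
    rw [this]
    exact_mod_cast hM.ne')

theorem glOfInt_apply (M : Matrix (Fin 2) (Fin 2) ℤ) (hM : 0 < M.det) (i j : Fin 2) :
    (glOfInt M hM) i j = (M i j : ℝ) := rfl

theorem det_glOfInt (M : Matrix (Fin 2) (Fin 2) ℤ) (hM : 0 < M.det) :
    (glOfInt M hM).det.val = (M.det : ℝ) := by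
  rw [Matrix.GeneralLinearGroup.val_det_apply]
  show (M.map (Int.castRingHom ℝ)).det = _
  rw [← RingHom.mapMatrix_apply, ← RingHom.map_det]
  rfl

theorem glOfInt_mem_posInt (M : Matrix (Fin 2) (Fin 2) ℤ) (hM : 0 < M.det) :
    glOfInt M hM ∈ posInt :=
  ⟨fun i j => ⟨M i j, rfl⟩, by rw [det_glOfInt]; exact_mod_cast hM⟩

theorem exists_eq_glOfInt {A : GL (Fin 2) ℝ} (hA : A ∈ posInt) :
    ∃ (M : Matrix (Fin 2) (Fin 2) ℤ) (hM : 0 < M.det), A = glOfInt M hM := by
  choose m hm using hA.1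
  let M : Matrix (Fin 2) (Fin 2) ℤ := Matrix.of m
  have hAM : (A : Matrix (Fin 2) (Fin 2) ℝ) = M.map (Int.castRingHom ℝ) := by
    ext i j
    simp [M, hm i j]
  have hdet : ((M.det : ℤ) : ℝ) = A.det.val := by
    rw [Matrix.GeneralLinearGroup.val_det_apply, hAM, ← RingHom.mapMatrix_apply,
      ← RingHom.map_det]
    rfl
  have hM : 0 < M.det := by
    have := hA.2
    rw [← hdet] at this
    exact_mod_cast this
  refine ⟨M, hM, ?_⟩
  ext i j
  rw [glOfInt_apply]
  exact hm i j

/-- Hermite decomposition of integer matrices with nonzero determinant. -/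
theorem exists_SL_mul_upper (m : ℤ) (hm : m ≠ 0) (A : FixedDetMatrix (Fin 2) ℤ m) :
    ∃ (g : SL(2, ℤ)) (D : FixedDetMatrix (Fin 2) ℤ m), D.1 1 0 = 0 ∧ A.1 = g.1 * D.1 := by
  induction A using FixedDetMatrices.induction_on hm with
  | h0 A h _ _ _ => exact ⟨1, A, h, by simp⟩
  | hS B ih =>
    obtain ⟨g, D, hD, hB⟩ := ih
    exact ⟨ModularGroup.S * g, D, hD, by
      rw [FixedDetMatrices.smul_coe, hB, Matrix.SpecialLinearGroup.coe_mul, Matrix.mul_assoc]⟩
  | hT B ih =>
    obtain ⟨g, D, hD, hB⟩ := ih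
    exact ⟨ModularGroup.T * g, D, hD, by
      rw [FixedDetMatrices.smul_coe, hB, Matrix.SpecialLinearGroup.coe_mul, Matrix.mul_assoc]⟩

/-- Hermite decomposition inside `GL₂(ℝ)`. -/
theorem exists_mapGL_mul_upper {A : GL (Fin 2) ℝ} (hA : A ∈ posInt) :
    ∃ (g : SL(2, ℤ)) (δ : GL (Fin 2) ℝ), δ ∈ posInt ∧ δ 1 0 = 0 ∧ A = mapGL ℝ g * δ := by
  obtain ⟨M, hM, rfl⟩ := exists_eq_glOfInt hA
  obtain ⟨g, D, hD, hMD⟩ := exists_SL_mul_upper M.det hM.ne' ⟨M, rfl⟩
  have hDdet : 0 < D.1.det := by rw [D.2]; exact hM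
  refine ⟨g, glOfInt D.1 hDdet, glOfInt_mem_posInt _ _, ?_, ?_⟩
  · rw [glOfInt_apply, hD]
    simp
  · ext i j
    simp only [Matrix.GeneralLinearGroup.coe_mul, Matrix.mul_apply, Fin.sum_univ_two,
      glOfInt_apply]
    have := congrFun (congrFun hMD i) j
    simp only [Matrix.mul_apply, Fin.sum_univ_two] at this
    have h2 : (M i j : ℝ) = ((g.1 i 0 * D.1 0 j + g.1 i 1 * D.1 1 j : ℤ) : ℝ) := by
      exact_mod_cast congrArg (Int.cast : ℤ → ℝ) this
    rw [h2]
    simp

end Fermat.Agent.S22.H262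

end
-- ===== PACK-END S22/H262/IntMat.lean

-- ===== PACK-BEGIN S59/G4/H109/Points.lean
section



/-!
# Row S59, layer G4, piece POINTS — part 3, assembly (helper109)

`points : PointsStatement`.  For a reduced local ring `T`, finite free over a complete DVR `𝒪` of
characteristic zero with fraction field `K`, the algebra `E = K ⊗[𝒪] T` is a finite reduced
`K`-algebra, hence (Artinian decomposition) the product of the finitely many fields `L_J = E ⧸ J`,
finite over `K`.  The rings of integers `integralClosure 𝒪 L_J` are complete discrete valuation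
rings of characteristic zero with finite residue field (`PointsDVR.lean`), the points
`T → integralClosure 𝒪 L_J` are jointly strict (`PointsStrict.lean`) and local homomorphisms
(integrality of `T` over `𝒪`).
(Port of `S31/H262/Points.lean` (helper262) from `ℤ_[p]` to a general `𝒪`.)
-/

set_option autoImplicit false
set_option linter.unusedSectionVars false
set_option linter.style.haveILetI false

noncomputable section

namespace Fermat.Agent.S59.G4.H109

open scoped TensorProduct
open IsLocalRing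

section Local

/-- A ring homomorphism of local rings over a local base `𝒪`, with integral source and with
target a local `𝒪`-algebra, is local. -/
theorem isLocalHom_of_isIntegral (𝒪 T O : Type) [CommRing 𝒪] [IsLocalRing 𝒪] [CommRing T]
    [IsLocalRing T] [Algebra 𝒪 T] [Algebra.IsIntegral 𝒪 T] [CommRing O] [IsLocalRing O]
    [Algebra 𝒪 O] [IsLocalHom (algebraMap 𝒪 O)] (χ : T →+* O)
    (hχ : ∀ a, χ (algebraMap 𝒪 T a) = algebraMap 𝒪 O a) : IsLocalHom χ := by
  set q : Ideal T := (maximalIdeal O).comap χ with hq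
  haveI : q.IsPrime := Ideal.comap_isPrime χ _
  have hcomap : q.comap (algebraMap 𝒪 T) = maximalIdeal 𝒪 := by
    have h1 : q.comap (algebraMap 𝒪 T) = (maximalIdeal O).comap (algebraMap 𝒪 O) := by
      ext a
      simp only [hq, Ideal.mem_comap, hχ]
    rw [h1]
    exact IsLocalRing.maximalIdeal_comap (algebraMap 𝒪 O)
  have hmax : q.IsMaximal := by
    apply Ideal.isMaximal_of_isIntegral_of_isMaximal_comap (R := 𝒪) q
    rw [hcomap]
    exact IsLocalRing.maximalIdeal.isMaximal 𝒪
  have hqm : q = maximalIdeal T := IsLocalRing.eq_maximalIdeal hmax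
  exact ((IsLocalRing.local_hom_TFAE χ).out 0 4).mpr hqm

/-- The structure map of a local integral algebra over a local ring is local. -/
theorem algebraMap_mem_maximalIdeal (𝒪 T : Type) [CommRing 𝒪] [IsLocalRing 𝒪] [CommRing T]
    [IsLocalRing T] [Algebra 𝒪 T] [Algebra.IsIntegral 𝒪 T] (a : 𝒪) (ha : a ∈ maximalIdeal 𝒪) :
    algebraMap 𝒪 T a ∈ maximalIdeal T := by
  have hmax : ((maximalIdeal T).comap (algebraMap 𝒪 T)).IsMaximal :=
    Ideal.isMaximal_comap_of_isIntegral_of_isMaximal (R := 𝒪) (maximalIdeal T)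
  have h : (maximalIdeal T).comap (algebraMap 𝒪 T) = maximalIdeal 𝒪 :=
    IsLocalRing.eq_maximalIdeal hmax
  rw [← h] at ha
  exact ha

end Local

section Points

variable (p : ℕ)
variable (𝒪 : Type) [CommRing 𝒪] [IsDomain 𝒪] [IsDiscreteValuationRing 𝒪]
  [IsAdicComplete (maximalIdeal 𝒪) 𝒪] [Finite (ResidueField 𝒪)] [CharZero 𝒪]
variable (K : Type) [Field K] [Algebra 𝒪 K] [IsFractionRing 𝒪 K]
variable (T : Type) [CommRing T] [Algebra 𝒪 T] [Module.Finite 𝒪 T] [Module.Free 𝒪 T]

attribute [local instance] IsArtinianRing.fieldOfSubtypeIsMaximal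

theorem isArtinianRing_tensorO : IsArtinianRing (K ⊗[𝒪] T) :=
  isArtinian_of_tower K inferInstance

attribute [local instance] Algebra.TensorProduct.rightAlgebra in
theorem isReduced_tensorO [IsReduced T] : IsReduced (K ⊗[𝒪] T) := by
  haveI : IsLocalization (Algebra.algebraMapSubmonoid T (nonZeroDivisors 𝒪)) (K ⊗[𝒪] T) :=
    IsLocalization.tensorRight (R := 𝒪) (S := T) K (nonZeroDivisors 𝒪)
  exact isReduced_localizationPreserves
    (Algebra.algebraMapSubmonoid T (nonZeroDivisors 𝒪)) (K ⊗[𝒪] T) inferInstance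

include K in
/-- **Strict points** (unbundled form, generic fraction field). -/
theorem exists_points_aux [IsLocalRing T] [IsReduced T] (hp𝒪 : (p : 𝒪) ∈ maximalIdeal 𝒪) :
    ∃ (ι : Type) (_ : Finite ι) (O : ι → Type) (_ : ∀ j, CommRing (O j))
      (_ : ∀ j, IsDomain (O j)) (_ : ∀ j, IsDiscreteValuationRing (O j))
      (_ : ∀ j, IsAdicComplete (maximalIdeal (O j)) (O j))
      (_ : ∀ j, Finite (ResidueField (O j))) (_ : ∀ j, CharZero (O j))
      (χ : ∀ j, T →+* O j),
      (∀ j, ((p : ℕ) : O j) ∈ maximalIdeal (O j)) ∧ (∀ j, IsLocalHom (χ j)) ∧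
      ∀ n : ℕ, ∃ m : ℕ, ∀ t : T, (∀ j, χ j t ∈ maximalIdeal (O j) ^ m) →
        t ∈ maximalIdeal T ^ n := by
  haveI := isArtinianRing_tensorO 𝒪 K T
  haveI := isReduced_tensorO 𝒪 K T
  let E := K ⊗[𝒪] T
  let L : MaximalSpectrum E → Type := fun J => E ⧸ J.asIdeal
  let Φ : E →ₐ[K] (∀ J, L J) := ((IsArtinianRing.equivPi E).restrictScalars K).toAlgHom
  have hΦ : Function.Injective Φ := ((IsArtinianRing.equivPi E).restrictScalars K).injective
  haveI hloc : ∀ J, IsLocalRing (intRingO 𝒪 (L J)) := fun J => intRingO_isLocalRing 𝒪 K (L J)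
  haveI hlh : ∀ J, IsLocalHom (algebraMap 𝒪 (intRingO 𝒪 (L J))) :=
    fun J => intRingO_isLocalHom 𝒪 K (L J)
  obtain ⟨ϖ, hϖ⟩ := IsDiscreteValuationRing.exists_irreducible 𝒪
  refine ⟨MaximalSpectrum E, inferInstance, fun J => intRingO 𝒪 (L J), fun J => inferInstance,
    fun J => inferInstance, fun J => intRingO_isDiscreteValuationRing 𝒪 K (L J),
    fun J => intRingO_isAdicComplete 𝒪 K (L J),
    fun J => intRingO_finite_residueField 𝒪 K (L J),
    fun J => intRingO_charZero 𝒪 K (L J), fun J => pt 𝒪 K T L Φ J, ?_, ?_, ?_⟩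
  · intro J
    have h1 : ((p : ℕ) : intRingO 𝒪 (L J)) = algebraMap 𝒪 (intRingO 𝒪 (L J)) (p : 𝒪) :=
      (map_natCast _ p).symm
    rw [h1]
    exact algebraMap_mem_maximalIdeal 𝒪 (intRingO 𝒪 (L J)) _ hp𝒪
  · intro J
    exact isLocalHom_of_isIntegral 𝒪 T (intRingO 𝒪 (L J)) (pt 𝒪 K T L Φ J)
      (pt_algebraMap 𝒪 K T L Φ J)
  · intro n
    obtain ⟨m, hm⟩ := strict_of_injective hΦ hϖ n
    refine ⟨m, fun t ht => ?_⟩
    have h1 : t ∈ Ideal.span {algebraMap 𝒪 T ϖ ^ n} := hm t ht
    have h2 : Ideal.span {algebraMap 𝒪 T ϖ ^ n} ≤ maximalIdeal T ^ n := by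
      rw [Ideal.span_le, Set.singleton_subset_iff]
      exact Ideal.pow_mem_pow (algebraMap_mem_maximalIdeal 𝒪 T ϖ
        ((IsLocalRing.mem_maximalIdeal _).mpr hϖ.not_isUnit)) n
    exact h2 h1

end Points

section Statement

open Fermat.Agent.S31

/-- **Piece POINTS of row S59, layer G4.** -/
theorem points : Fermat.Agent.S59.G4.PointsStatement := by
  classical
  intro p _ 𝒪 _ _ _ _ _ _ hp𝒪 T _ _ _ _ _ _
  obtain ⟨ι, hι, O, i1, i2, i3, i4, i5, i6, χ, hpm, hloc, hstrict⟩ :=
    exists_points_aux p 𝒪 (FractionRing 𝒪) T hp𝒪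
  haveI : Fintype ι := Fintype.ofFinite ι
  refine ⟨(Finset.univ : Finset ι).toList.map
    (fun j => (⟨O j, hpm j, χ j⟩ : PadicPoint p T)), ?_, ?_⟩
  · intro n
    obtain ⟨n', hn'⟩ := hstrict n
    refine ⟨n', fun t ht => ?_⟩
    apply hn'
    intro j
    exact ht ⟨O j, hpm j, χ j⟩ (List.mem_map.mpr ⟨j, by simp, rfl⟩)
  · intro P hP
    obtain ⟨j, -, rfl⟩ := List.mem_map.mp hP
    exact hloc j

end Statement

end Fermat.Agent.S59.G4.H109

end
end
-- ===== PACK-END S59/G4/H109/Points.lean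

-- ===== PACK-BEGIN S24/FFSum.lean
section





/-!
# S24 / FF layer: zeros of a coordinate function, `∑ ord_v(t) = [F : K(t)]`

Bridge between the Prelude's `Place K F` and the primes of the integral closure of `K[t]`
in `F`, and the fundamental identity.  (helper804)
-/

set_option autoImplicit false

namespace Fermat.Agent.S24.FF

open AlgebraicCurve Polynomial IntermediateField IsDedekindDomain

open scoped IntermediateField.algebraAdjoinAdjoin

variable {K F : Type*} [Field K] [Field F] [Algebra K F]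

variable (K) in
/-- `K[t] ⊆ F`. -/
abbrev coordRing (t : F) : Subalgebra K F := Algebra.adjoin K {t}

variable (K) in
/-- The integral closure of `K[t]` in `F`. -/
abbrev intRing (t : F) : Subalgebra (coordRing K t) F := integralClosure (coordRing K t) F

variable (K) in
/-- `t` is a coordinate function on the curve with function field `F`: transcendental over `K`
with `F` finite over `K(t)`. -/
class IsCoord (t : F) : Prop where
  transcendental : Transcendental K t
  finite : FiniteDimensional K⟮t⟯ F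

variable {t : F}

instance instFiniteOfIsCoord [h : IsCoord K t] : FiniteDimensional K⟮t⟯ F := h.finite

instance instPIDCoordRing [h : IsCoord K t] : IsPrincipalIdealRing (coordRing K t) :=
  IsPrincipalIdealRing.of_surjective
    (algEquivOfTranscendental K t h.transcendental : K[X] →+* coordRing K t)
    (algEquivOfTranscendental K t h.transcendental).surjective

instance instDedekindIntRing [CharZero K] [IsCoord K t] : IsDedekindDomain (intRing K t) :=
  integralClosure.isDedekindDomain (coordRing K t) K⟮t⟯ F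

instance instFractionIntRing [IsCoord K t] : IsFractionRing (intRing K t) F :=
  integralClosure.isFractionRing_of_finite_extension K⟮t⟯ F

instance instFiniteIntRing [CharZero K] [IsCoord K t] :
    Module.Finite (coordRing K t) (intRing K t) :=
  IsIntegralClosure.finite (coordRing K t) K⟮t⟯ F (intRing K t)

/-- Any transcendental element is a coordinate as soon as one coordinate exists. -/
theorem IsCoord.of_transcendental {x : F} [hx : IsCoord K x] {y : F} (hy : Transcendental K y) :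
    IsCoord K y :=
  ⟨hy, finiteDimensional_adjoin_of_transcendental hx.transcendental hy⟩

section placeOfPrime

variable [CharZero K] [IsCoord K t]

variable (K t) in
/-- The place attached to a nonzero prime of the integral closure of `K[t]`. -/
noncomputable def placeOfPrime (q : HeightOneSpectrum (intRing K t)) : Place K F :=
  Place.ofHeightOneSpectrum (K := K) q

theorem placeOfPrime_toValuationSubring (q : HeightOneSpectrum (intRing K t)) :
    (placeOfPrime K t q).toValuationSubring = (q.valuation F).valuationSubring := rfl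

theorem ord_placeOfPrime (q : HeightOneSpectrum (intRing K t)) (f : F) :
    (placeOfPrime K t q).ord f = -WithZero.log (q.valuation F f) := by
  rcases eq_or_ne f 0 with rfl | hf
  · simp
  obtain ⟨π, hπ⟩ := q.valuation_exists_uniformizer F
  have hπ0 : π ≠ 0 := by
    rintro rfl
    rw [_root_.map_zero] at hπ
    exact WithZero.exp_ne_zero hπ.symm
  symm
  refine ordLike_eq_ord (fun f => -WithZero.log (q.valuation F f)) ?_ (placeOfPrime K t q) ?_
    hπ0 ?_ hf
  · intro f g hf hg
    simp only [_root_.map_mul]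
    rw [WithZero.log_mul ((Valuation.ne_zero_iff _).mpr hf) ((Valuation.ne_zero_iff _).mpr hg)]
    ring
  · intro f hf
    rw [placeOfPrime_toValuationSubring, Valuation.mem_valuationSubring_iff,
      neg_nonneg, WithZero.log_le_iff_le_exp ((Valuation.ne_zero_iff _).mpr hf)]
    simp
  · simp [hπ]

end placeOfPrime

end Fermat.Agent.S24.FF

end
-- ===== PACK-END S24/FFSum.lean

-- ===== PACK-BEGIN S30/H709/PeriodLattice.lean
section






/-!
# S30-OCC, the period lattice

`perFun N γ` is the period functional `f ↦ ∫_z^{γ z} f` on `S₂(Γ₀(N))` (Prelude `periodMap`),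
`perLattice N` is the subgroup of the dual of `S₂(Γ₀(N))` generated by the period functionals.
It is a finitely generated free abelian group; under the hypothesis `PeriodHecke N fac`
(Hecke-equivariance of the period map: `λ_γ ∘ T_ℓ = ∑_{δ ∈ fac ℓ γ} λ_δ`) it is stable under the
transposes of all elements of the Hecke algebra, and the Hecke algebra acts faithfully on it
(`perRho`, `perRho_injective`).
-/

set_option autoImplicit false

noncomputable section

namespace Fermat.Agent.S30.H709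

open CongruenceSubgroup ModularCurve ModularCurve.Period
open scoped MatrixGroups

/-- `SL(2, ℤ)` is finitely generated. -/
theorem fg_SL2Z : Group.FG SL(2, ℤ) :=
  Group.fg_iff.mpr ⟨{ModularGroup.S, ModularGroup.T}, SpecialLinearGroup.SL2Z_generators,
    Set.toFinite _⟩

/-- `Γ₀(N)` is finitely generated (Schreier). -/
theorem fg_Gamma0 (N : ℕ) [NeZero N] : Group.FG (Gamma0 N) := by
  have := fg_SL2Z
  exact Subgroup.fg_of_index_ne_zero (Gamma0 N)

section PerFun

variable (N : ℕ) [NeZero N]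

/-- The period functional `λ_γ : f ↦ periodMap N f γ` on weight-2 cusp forms. -/
def perFun (γ : Gamma0 N) : Module.Dual ℂ (CuspForm (Gamma0 N) 2) where
  toFun f := periodMap N f (Additive.ofMul γ)
  map_add' f g := by rw [Fermat.Agent.S21.H381.periodMap_add]; rfl
  map_smul' a f := by rw [Fermat.Agent.S21.H381.periodMap_smul]; rfl

theorem perFun_apply (γ : Gamma0 N) (f : CuspForm (Gamma0 N) 2) :
    perFun N γ f = periodMap N f (Additive.ofMul γ) := rfl

theorem perFun_mul (γ δ : Gamma0 N) : perFun N (γ * δ) = perFun N γ + perFun N δ := by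
  refine LinearMap.ext fun f => ?_
  rw [LinearMap.add_apply, perFun_apply, perFun_apply, perFun_apply, ofMul_mul, map_add]

theorem perFun_one : perFun N 1 = 0 := by
  refine LinearMap.ext fun f => ?_
  rw [perFun_apply, ofMul_one, map_zero, LinearMap.zero_apply]

theorem perFun_inv (γ : Gamma0 N) : perFun N γ⁻¹ = - perFun N γ := by
  refine LinearMap.ext fun f => ?_
  rw [LinearMap.neg_apply, perFun_apply, perFun_apply, ofMul_inv, map_neg]

/-- Period functionals vanish on elements of trace `±2`. -/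
theorem perFun_eq_zero_of_trace (γ : Gamma0 N)
    (hγ : ((γ : SL(2, ℤ)) : Matrix (Fin 2) (Fin 2) ℤ).trace ^ 2 = 4) : perFun N γ = 0 := by
  refine LinearMap.ext fun f => ?_
  rw [perFun_apply, LinearMap.zero_apply]
  exact (mem_parabolicHoms_iff.mp (Fermat.Agent.S21.H381.periodMap_mem_parabolicHoms f)) γ hγ

/-- The period map is injective on cusp forms. -/
theorem periodMap_eq_zero {f : CuspForm (Gamma0 N) 2} (hf : periodMap N f = 0) : f = 0 := by
  have hinj := Fermat.Agent.S21.H81.injective_periodHomPair_of N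
    (Fermat.Agent.S21.H381.existsPeriodMapLinear N)
    (fun f => Fermat.Agent.S21.H381.exists_hasEquivariantPrimitive f)
  have h0 : periodHomPair N (f, f) = periodHomPair N 0 := by
    rw [Fermat.Agent.S21.H381.periodHomPair_apply, hf, map_zero, map_zero]
    simp
  have := hinj h0
  exact congrArg Prod.fst this

/-- The period lattice: the subgroup of the dual of `S₂(Γ₀(N))` generated by the period
functionals. -/
def perLattice : Submodule ℤ (Module.Dual ℂ (CuspForm (Gamma0 N) 2)) :=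
  Submodule.span ℤ (Set.range (perFun N))

theorem perFun_mem_perLattice (γ : Gamma0 N) : perFun N γ ∈ perLattice N :=
  Submodule.subset_span ⟨γ, rfl⟩

theorem perLattice_fg : (perLattice N).FG := by
  obtain ⟨G, hG, hfin⟩ := Group.fg_iff.mp (fg_Gamma0 N)
  have hle : perLattice N ≤ Submodule.span ℤ (perFun N '' G) := by
    refine Submodule.span_le.mpr ?_
    rintro _ ⟨γ, rfl⟩
    have hγ : γ ∈ Subgroup.closure G := by rw [hG]; exact Subgroup.mem_top γ
    induction hγ using Subgroup.closure_induction with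
    | mem x hx => exact Submodule.subset_span ⟨x, hx, rfl⟩
    | one => rw [perFun_one]; exact Submodule.zero_mem _
    | mul x y _ _ hx hy => rw [perFun_mul]; exact Submodule.add_mem _ hx hy
    | inv x _ hx => rw [perFun_inv]; exact Submodule.neg_mem _ hx
  have heq : perLattice N = Submodule.span ℤ (perFun N '' G) :=
    le_antisymm hle (Submodule.span_mono (Set.image_subset_range _ _))
  rw [heq]
  exact Submodule.fg_span (hfin.image _)

instance perLattice_finite : Module.Finite ℤ (perLattice N) :=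
  Module.Finite.iff_fg.mpr (perLattice_fg N)

instance perLattice_free : Module.Free ℤ (perLattice N) :=
  Module.free_of_finite_type_torsion_free'

end PerFun

section Hecke

variable (N : ℕ) [NeZero N]

/-- **Hypothesis `PeriodHecke`** (Hecke-equivariance of the period map, to be supplied by the
`M4a`/`E2a` owners): for every prime `ℓ ∤ N`, the period of `T_ℓ f` along `γ` is the sum of the
periods of `f` along the elements of the multiset `fac ℓ γ`
(`= {γ'ᵢ}` with `αᵢ γ = γ'ᵢ α_{π i}`, `αᵢ` the standard coset representatives of `T_ℓ`). -/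
def PeriodHecke (fac : ℕ → Gamma0 N → Multiset (Gamma0 N)) : Prop :=
  ∀ (ℓ : ℕ) (hℓ : ℓ.Prime) (hℓN : ¬ ℓ ∣ N) (f : CuspForm (Gamma0 N) 2) (γ : Gamma0 N),
    periodMap N (CuspForm.heckeTLin 2 hℓ hℓN f) (Additive.ofMul γ)
      = ((fac ℓ γ).map fun δ => periodMap N f (Additive.ofMul δ)).sum

variable {N}

theorem PeriodHecke.transpose_perFun {fac : ℕ → Gamma0 N → Multiset (Gamma0 N)}
    (hPH : PeriodHecke N fac) {ℓ : ℕ} (hℓ : ℓ.Prime) (hℓN : ¬ ℓ ∣ N) (γ : Gamma0 N) :
    Module.Dual.transpose (CuspForm.heckeTLin 2 hℓ hℓN) (perFun N γ)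
      = ((fac ℓ γ).map (perFun N)).sum := by
  refine LinearMap.ext fun f => ?_
  rw [Module.Dual.transpose_apply, LinearMap.comp_apply, perFun_apply, hPH ℓ hℓ hℓN f γ]
  have : ∀ m : Multiset (Gamma0 N),
      ((m.map (perFun N)).sum : Module.Dual ℂ (CuspForm (Gamma0 N) 2)) f
        = (m.map fun δ => periodMap N f (Additive.ofMul δ)).sum := by
    intro m
    induction m using Multiset.induction_on with
    | empty => simp
    | cons a m ih =>
      rw [Multiset.map_cons, Multiset.sum_cons, LinearMap.add_apply, ih, Multiset.map_cons,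
        Multiset.sum_cons, perFun_apply]
  rw [this]

/-- Under `PeriodHecke`, and when `S` contains the primes dividing `N`, the period lattice is
stable under the transpose of every element of the Hecke algebra. -/
theorem transpose_mem_perLattice {fac : ℕ → Gamma0 N → Multiset (Gamma0 N)}
    (hPH : PeriodHecke N fac) {S : Set ℕ} (hNS : ∀ q : ℕ, q.Prime → q ∣ N → q ∈ S)
    {t : Module.End ℂ (CuspForm (Gamma0 N) 2)} (ht : t ∈ CuspForm.heckeAlgebra N 2 S)
    {x : Module.Dual ℂ (CuspForm (Gamma0 N) 2)} (hx : x ∈ perLattice N) :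
    Module.Dual.transpose t x ∈ perLattice N := by
  induction ht using Algebra.adjoin_induction generalizing x with
  | mem t ht =>
    rcases ht with ⟨ℓ, hℓ, hℓN, -, rfl⟩ | ⟨q, hqN, hq, hqS, rfl⟩
    · induction hx using Submodule.span_induction with
      | mem y hy =>
        obtain ⟨γ, rfl⟩ := hy
        rw [hPH.transpose_perFun hℓ hℓN γ]
        refine multiset_sum_mem _ ?_
        intro z hz
        obtain ⟨δ, -, rfl⟩ := Multiset.mem_map.mp hz
        exact perFun_mem_perLattice N δ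
      | zero => rw [map_zero]; exact Submodule.zero_mem _
      | add y z _ _ hy hz => rw [map_add]; exact Submodule.add_mem _ hy hz
      | smul n y _ hy =>
        have : Module.Dual.transpose (CuspForm.heckeTLin 2 hℓ hℓN) (n • y)
            = n • Module.Dual.transpose (CuspForm.heckeTLin 2 hℓ hℓN) y := map_zsmul _ _ _
        rw [this]
        exact Submodule.smul_mem _ _ hy
    · exact absurd (hNS q hq hqN) hqS
  | algebraMap n =>
    have : Module.Dual.transpose (algebraMap ℤ (Module.End ℂ (CuspForm (Gamma0 N) 2)) n) x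
        = n • x := by
      refine LinearMap.ext fun f => ?_
      rw [Module.Dual.transpose_apply, LinearMap.comp_apply, Module.algebraMap_end_apply,
        map_zsmul, LinearMap.smul_apply]
    rw [this]
    exact Submodule.smul_mem _ _ hx
  | add t s _ _ iht ihs =>
    rw [map_add, LinearMap.add_apply]
    exact Submodule.add_mem _ (iht hx) (ihs hx)
  | mul t s _ _ iht ihs =>
    have : Module.Dual.transpose (t * s) x
        = Module.Dual.transpose s (Module.Dual.transpose t x) := by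
      refine LinearMap.ext fun f => ?_
      simp only [Module.Dual.transpose_apply, LinearMap.comp_apply, Module.End.mul_apply]
    rw [this]
    exact ihs (iht hx)

/-- The transpose of a Hecke operator, restricted to the period lattice. -/
def perRhoAux {fac : ℕ → Gamma0 N → Multiset (Gamma0 N)}
    (hPH : PeriodHecke N fac) {S : Set ℕ} (hNS : ∀ q : ℕ, q.Prime → q ∣ N → q ∈ S)
    (t : CuspForm.heckeAlgebra N 2 S) : Module.End ℤ (perLattice N) :=
  ((Module.Dual.transpose (R := ℂ)
      (t : Module.End ℂ (CuspForm (Gamma0 N) 2))).restrictScalars ℤ).restrict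
        (p := perLattice N) (q := perLattice N) (fun _ hx => transpose_mem_perLattice hPH hNS t.2 hx)

theorem perRhoAux_apply {fac : ℕ → Gamma0 N → Multiset (Gamma0 N)}
    (hPH : PeriodHecke N fac) {S : Set ℕ} (hNS : ∀ q : ℕ, q.Prime → q ∣ N → q ∈ S)
    (t : CuspForm.heckeAlgebra N 2 S) (x : perLattice N) (f : CuspForm (Gamma0 N) 2) :
    ((perRhoAux hPH hNS t x : perLattice N) : Module.Dual ℂ (CuspForm (Gamma0 N) 2)) f
      = (x : Module.Dual ℂ (CuspForm (Gamma0 N) 2))
          ((t : Module.End ℂ (CuspForm (Gamma0 N) 2)) f) :=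
  rfl

/-- The action of the Hecke algebra on the period lattice (by transposes). -/
def perRho {fac : ℕ → Gamma0 N → Multiset (Gamma0 N)}
    (hPH : PeriodHecke N fac) {S : Set ℕ} (hNS : ∀ q : ℕ, q.Prime → q ∣ N → q ∈ S) :
    CuspForm.heckeAlgebra N 2 S →+* Module.End ℤ (perLattice N) where
  toFun t := perRhoAux hPH hNS t
  map_one' := by
    refine LinearMap.ext fun x => Subtype.ext ?_
    refine LinearMap.ext fun f => ?_
    rw [perRhoAux_apply]
    rfl
  map_mul' t s := by
    refine LinearMap.ext fun x => Subtype.ext ?_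
    refine LinearMap.ext fun f => ?_
    rw [Module.End.mul_apply, perRhoAux_apply, perRhoAux_apply, perRhoAux_apply, mul_comm t s]
    rfl
  map_zero' := by
    refine LinearMap.ext fun x => Subtype.ext ?_
    refine LinearMap.ext fun f => ?_
    rw [perRhoAux_apply]
    simp
  map_add' t s := by
    refine LinearMap.ext fun x => Subtype.ext ?_
    refine LinearMap.ext fun f => ?_
    rw [LinearMap.add_apply, Submodule.coe_add, LinearMap.add_apply, perRhoAux_apply,
      perRhoAux_apply, perRhoAux_apply, Subalgebra.coe_add, LinearMap.add_apply, map_add]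

theorem perRho_apply_apply {fac : ℕ → Gamma0 N → Multiset (Gamma0 N)}
    (hPH : PeriodHecke N fac) {S : Set ℕ} (hNS : ∀ q : ℕ, q.Prime → q ∣ N → q ∈ S)
    (t : CuspForm.heckeAlgebra N 2 S) (x : perLattice N) (f : CuspForm (Gamma0 N) 2) :
    ((perRho hPH hNS t x : perLattice N) : Module.Dual ℂ (CuspForm (Gamma0 N) 2)) f
      = (x : Module.Dual ℂ (CuspForm (Gamma0 N) 2))
          ((t : Module.End ℂ (CuspForm (Gamma0 N) 2)) f) :=
  rfl

/-- The Hecke algebra acts faithfully on the period lattice. -/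
theorem perRho_injective {fac : ℕ → Gamma0 N → Multiset (Gamma0 N)}
    (hPH : PeriodHecke N fac) {S : Set ℕ} (hNS : ∀ q : ℕ, q.Prime → q ∣ N → q ∈ S) :
    Function.Injective (perRho hPH hNS : CuspForm.heckeAlgebra N 2 S →+* _) := by
  rw [injective_iff_map_eq_zero]
  intro t ht
  apply Subtype.ext
  refine LinearMap.ext fun f => ?_
  rw [ZeroMemClass.coe_zero, LinearMap.zero_apply]
  apply periodMap_eq_zero N
  refine AddMonoidHom.ext fun γ => ?_
  obtain ⟨γ, rfl⟩ : ∃ γ' : Gamma0 N, Additive.ofMul γ' = γ := ⟨Additive.toMul γ, rfl⟩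
  have h1 := congrArg (fun u : Module.End ℤ (perLattice N) =>
    ((u ⟨perFun N γ, perFun_mem_perLattice N γ⟩ : perLattice N) :
      Module.Dual ℂ (CuspForm (Gamma0 N) 2)) f) ht
  simp only [perRho_apply_apply, perFun_apply,
    LinearMap.zero_apply, ZeroMemClass.coe_zero] at h1
  rw [h1, AddMonoidHom.zero_apply]

end Hecke

end Fermat.Agent.S30.H709

end
end
-- ===== PACK-END S30/H709/PeriodLattice.lean

-- ===== PACK-BEGIN S33/H855/TowerCore.lean
section



/-!
# Row S33, leaf (S1⁺): the tower lemma, abstract core (helper855)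

Prelude language, any `K`, `F`.  `I` a subgroup of `SemilinearAut K F` ("inertia"), `p`, `n`
natural numbers, `C ⊆ F` a class of functions ("constant reductions at both Gauss valuations")
such that

* (C1) `C` is stable under products and inverses and contains the nonzero constants;
* (C2) `g f / f ∈ C` for all `g ∈ I`, `f ≠ 0`                     ("step I", any `f`);
* (C3) `h ^ (p ^ k) ∈ C → h ∈ C`                                   (root closure).

If every function with trivial divisor is a constant, then every class `y` in the subgroup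
generated by the `g • x - x`, `g ∈ I`, `p ^ n • x = 0`, which is killed by `p`, has a Kummer
generator `h ∈ C`: `y = [D]`, `div h = p • D`.

`mem_of_mem_closure_of_torsion` is the form consumed by the S33 board
(`𝒮⁺ := ⋃ₙ I_aug(J[pⁿ]) ∩ J[p] ⊆ 𝒮`).
-/

set_option autoImplicit false

namespace Fermat.Agent.S33.H855

open AlgebraicCurve Fermat.Agent.A2.H129

variable {K F : Type*} [Field K] [Field F] [Algebra K F]

/-- The axioms (C1)-(C3) on the class `C` of functions with "constant reductions". -/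
structure TowerClass (I : Subgroup (SemilinearAut K F)) (p : ℕ) (C : Set F) : Prop where
  mul_mem : ∀ f g : F, f ∈ C → g ∈ C → f * g ∈ C
  inv_mem : ∀ f : F, f ∈ C → f⁻¹ ∈ C
  const_mem : ∀ c : K, c ≠ 0 → algebraMap K F c ∈ C
  tau_mem : ∀ g ∈ I, ∀ f : F, f ≠ 0 → tauSubOne (SemilinearAut.toRingAut g) f ∈ C
  root_mem : ∀ (h : F) (k : ℕ), h ≠ 0 → h ^ (p ^ k) ∈ C → h ∈ C

/-- `y = [D]` has a Kummer generator of level `m` in `C`. -/
def HasGenIn (C : Set F) (m : ℕ) (y : Pic0 K F) : Prop :=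
  ∃ (D : Divisor.degZero (K := K) (F := F)) (u : F), u ≠ 0 ∧ u ∈ C ∧ Pic0.mk D = y ∧
    ∀ v : Place K F, v.ord u = (m : ℤ) * (D : Divisor K F) v

theorem TowerClass.one_mem {I : Subgroup (SemilinearAut K F)} {p : ℕ} {C : Set F}
    (hC : TowerClass I p C) : (1 : F) ∈ C := by
  have := hC.const_mem 1 one_ne_zero
  simpa using this

/-- The order of `g f / f`. -/
theorem ord_tauSubOne (g : SemilinearAut K F) {f : F} (hf : f ≠ 0) (v : Place K F) :
    v.ord (tauSubOne (SemilinearAut.toRingAut g) f) = (g⁻¹ • v).ord f - v.ord f := by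
  have hτf : SemilinearAut.toRingAut g f ≠ 0 := by simpa using hf
  show v.ord (SemilinearAut.toRingAut g f * f⁻¹) = _
  rw [ord_div v hτf hf, ord_smul_eq]

/-- A torsion class has a Kummer generator. -/
theorem exists_gen_of_torsion (m : ℕ) (x : Pic0 K F) (hx : m • x = 0) :
    ∃ (D : Divisor.degZero (K := K) (F := F)) (f : F), f ≠ 0 ∧ Pic0.mk D = x ∧
      ∀ v : Place K F, v.ord f = (m : ℤ) * (D : Divisor K F) v := by
  obtain ⟨D, rfl⟩ := Pic0.mk_surjective x
  have hprin : ((m • D : Divisor.degZero (K := K) (F := F)) : Divisor K F) ∈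
      Divisor.principal (K := K) (F := F) := by
    have h0 : Pic0.mk (m • D) = 0 := hx
    have := (QuotientAddGroup.eq_zero_iff (m • D)).1 h0
    simpa [AddSubgroup.mem_addSubgroupOf] using this
  obtain ⟨f, hf, hfD⟩ := hprin
  refine ⟨D, f, hf, rfl, fun v => ?_⟩
  rw [← hfD v]
  simp [Finsupp.smul_apply]

/-- Step A: every element of the augmentation subgroup of the `m`-torsion has a Kummer
generator of level `m` in `C`. -/
theorem hasGenIn_of_mem_closure {I : Subgroup (SemilinearAut K F)} {p : ℕ} {C : Set F}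
    (hC : TowerClass I p C) (m : ℕ) (y : Pic0 K F)
    (hy : y ∈ AddSubgroup.closure
      {z : Pic0 K F | ∃ g ∈ I, ∃ x : Pic0 K F, m • x = 0 ∧ z = g • x - x}) :
    HasGenIn C m y := by
  induction hy using AddSubgroup.closure_induction with
  | mem z hz =>
    obtain ⟨g, hg, x, hx, rfl⟩ := hz
    obtain ⟨D, f, hf, rfl, hfD⟩ := exists_gen_of_torsion m x hx
    refine ⟨SemilinearAut.degZeroSMulHom g D - D, tauSubOne (SemilinearAut.toRingAut g) f,
      tauSubOne_ne_zero _ hf, hC.tau_mem g hg f hf, ?_, fun v => ?_⟩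
    · rw [SemilinearAut.pic0_smul_mk]
      rfl
    · rw [ord_tauSubOne g hf v, hfD, hfD]
      simp only [AddSubgroupClass.coe_sub, SemilinearAut.coe_degZeroSMulHom,
        Finsupp.sub_apply, SemilinearAut.divisor_smul_apply]
      ring
  | zero =>
    refine ⟨0, 1, one_ne_zero, hC.one_mem, rfl, fun v => ?_⟩
    simp [Place.ord_one]
  | add a b _ _ ha hb =>
    obtain ⟨D, u, hu, huC, rfl, hD⟩ := ha
    obtain ⟨E, w, hw, hwC, rfl, hE⟩ := hb
    refine ⟨D + E, u * w, mul_ne_zero hu hw, hC.mul_mem u w huC hwC, rfl, fun v => ?_⟩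
    rw [v.ord_mul hu hw, hD, hE]
    simp only [AddSubgroup.coe_add, Finsupp.add_apply]
    ring
  | neg a _ ha =>
    obtain ⟨D, u, hu, huC, rfl, hD⟩ := ha
    refine ⟨-D, u⁻¹, inv_ne_zero hu, hC.inv_mem u huC, rfl, fun v => ?_⟩
    rw [v.ord_inv, hD]
    simp only [AddSubgroup.coe_neg, Finsupp.neg_apply]
    ring

/-- Step B: a class killed by `p` with a Kummer generator of level `p ^ n` (`n ≥ 1`) in `C`
has a Kummer generator of level `p` in `C`. -/
theorem hasGenIn_of_hasGenIn_pow {I : Subgroup (SemilinearAut K F)} {p : ℕ} {C : Set F}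
    (hC : TowerClass I p C)
    (hconst : ∀ u : F, u ≠ 0 → (∀ v : Place K F, v.ord u = 0) →
      ∃ c : K, algebraMap K F c = u)
    (n : ℕ) (y : Pic0 K F) (hy : HasGenIn C (p ^ (n + 1)) y) (hpy : p • y = 0) :
    HasGenIn C p y := by
  obtain ⟨D, u, hu, huC, rfl, hD⟩ := hy
  -- a Kummer generator of level `p`
  have hprin : ((p • D : Divisor.degZero (K := K) (F := F)) : Divisor K F) ∈
      Divisor.principal (K := K) (F := F) := by
    have h0 : Pic0.mk (p • D) = 0 := hpy
    have := (QuotientAddGroup.eq_zero_iff (p • D)).1 h0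
    simpa [AddSubgroup.mem_addSubgroupOf] using this
  obtain ⟨h, hh, hhD⟩ := hprin
  have hhD' : ∀ v : Place K F, v.ord h = (p : ℤ) * (D : Divisor K F) v := by
    intro v
    rw [← hhD v]
    simp [Finsupp.smul_apply]
  -- `u / h ^ (p ^ n)` has trivial divisor
  have hpow : h ^ (p ^ n) ≠ 0 := pow_ne_zero _ hh
  have hq : u * (h ^ (p ^ n))⁻¹ ≠ 0 := mul_ne_zero hu (inv_ne_zero hpow)
  have hord : ∀ v : Place K F, v.ord (u * (h ^ (p ^ n))⁻¹) = 0 := by
    intro v
    rw [ord_div v hu hpow, ord_pow, hD, hhD']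
    push_cast
    ring
  obtain ⟨c, hc⟩ := hconst _ hq hord
  have hc0 : c ≠ 0 := by
    rintro rfl
    rw [map_zero] at hc
    exact hq hc.symm
  have hcF : algebraMap K F c ≠ 0 := by simpa using hc0
  -- hence `h ^ (p ^ n) ∈ C`
  have hmem : h ^ (p ^ n) ∈ C := by
    have e : h ^ (p ^ n) = u * (algebraMap K F c)⁻¹ := by
      rw [hc]
      field_simp
    rw [e]
    exact hC.mul_mem _ _ huC (hC.inv_mem _ (hC.const_mem c hc0))
  exact ⟨D, h, hh, hC.root_mem h n hh hmem, rfl, hhD'⟩

/-- **Tower lemma (S1⁺), abstract form.**  A class killed by `p` in the augmentation subgroup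
of the `p ^ (n+1)`-torsion has a Kummer generator of level `p` in `C`. -/
theorem hasGenIn_of_mem_closure_of_torsion {I : Subgroup (SemilinearAut K F)} {p : ℕ}
    {C : Set F} (hC : TowerClass I p C)
    (hconst : ∀ u : F, u ≠ 0 → (∀ v : Place K F, v.ord u = 0) →
      ∃ c : K, algebraMap K F c = u)
    (n : ℕ) (y : Pic0 K F)
    (hy : y ∈ AddSubgroup.closure
      {z : Pic0 K F | ∃ g ∈ I, ∃ x : Pic0 K F, p ^ (n + 1) • x = 0 ∧ z = g • x - x})
    (hpy : p • y = 0) : HasGenIn C p y :=
  hasGenIn_of_hasGenIn_pow hC hconst n y (hasGenIn_of_mem_closure hC _ y hy) hpy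

/-- **Tower lemma (S1⁺), subgroup form.**  If `𝒮` contains every class with a Kummer generator
of level `p` in `C`, then `I_aug(J[p ^ (n+1)]) ∩ J[p] ⊆ 𝒮`. -/
theorem mem_of_mem_closure_of_torsion {I : Subgroup (SemilinearAut K F)} {p : ℕ}
    {C : Set F} (hC : TowerClass I p C)
    (hconst : ∀ u : F, u ≠ 0 → (∀ v : Place K F, v.ord u = 0) →
      ∃ c : K, algebraMap K F c = u)
    (𝒮 : AddSubgroup (Pic0 K F))
    (h𝒮 : ∀ (D : Divisor.degZero (K := K) (F := F)) (h : F), h ≠ 0 → h ∈ C →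
      (∀ v : Place K F, v.ord h = (p : ℤ) * (D : Divisor K F) v) → Pic0.mk D ∈ 𝒮)
    (n : ℕ) (y : Pic0 K F)
    (hy : y ∈ AddSubgroup.closure
      {z : Pic0 K F | ∃ g ∈ I, ∃ x : Pic0 K F, p ^ (n + 1) • x = 0 ∧ z = g • x - x})
    (hpy : p • y = 0) : y ∈ 𝒮 := by
  obtain ⟨D, h, hh, hhC, rfl, hD⟩ := hasGenIn_of_mem_closure_of_torsion hC hconst n y hy hpy
  exact h𝒮 D h hh hhC hD

end Fermat.Agent.S33.H855

end
-- ===== PACK-END S33/H855/TowerCore.lean

-- ===== PACK-BEGIN A2/H489/TwoExtC.lean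
section


/-!
# A2 / M1-abs, part C (helper489): residues and the counting argument
-/

set_option autoImplicit false

namespace Fermat.Agent.A2.H489

open IsDedekindDomain IsLocalRing

section Residue

variable (K : Type*) {A L : Type*} [CommRing A] [IsDomain A] [IsDiscreteValuationRing A]
  [Field K] [Algebra A K] [IsFractionRing A K]
  [Field L] [Algebra K L] [Algebra A L] [IsScalarTower A K L]
  [FiniteDimensional K L] [Algebra.IsSeparable K L]

theorem mul_mem_nonunits {V : ValuationSubring L} {x y : L} (hx : x ∈ V) (hy : y ∈ V.nonunits) :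
    x * y ∈ V.nonunits := by
  rw [ValuationSubring.mem_nonunits_iff] at hy ⊢
  rw [map_mul]
  exact Right.mul_lt_one_of_le_of_lt ((ValuationSubring.valuation_le_one_iff V x).mpr hx) hy

include K in
/-- every element of `V` is congruent modulo the maximal ideal to an element of the integral
closure of `A`. -/
theorem IsOver.exists_sub_mem_nonunits {V : ValuationSubring L} (hV : IsOver A V)
    {x : L} (hx : x ∈ V) :
    ∃ s : integralClosure A L, x - algebraMap (integralClosure A L) L s ∈ V.nonunits := by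
  have : IsDedekindDomain (integralClosure A L) := integralClosure.isDedekindDomain A K L
  have : IsFractionRing (integralClosure A L) L :=
    integralClosure.isFractionRing_of_finite_extension K L
  have hne : V ≠ ⊤ := hV.ne_top K
  set v := centerSpec V hV.mem_integralClosure hne with hvdef
  have hVv : V = (v.valuation L).valuationSubring :=
    eq_valuationSubring_centerSpec V hV.mem_integralClosure hne
  have hx' : v.valuation L x ≤ 1 := by
    rw [hVv] at hx
    exact hx
  obtain ⟨n, d, hnd⟩ := v.exists_primeCompl_mul_eq_of_integer x hx'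
  have hd : (d : integralClosure A L) ∉ v.asIdeal := d.2
  obtain ⟨d', i, hi, hdi⟩ := v.isMaximal.exists_inv hd
  refine ⟨n * d', ?_⟩
  have hi' : algebraMap (integralClosure A L) L i ∈ V.nonunits :=
    (mem_center_iff V hV.mem_integralClosure i).mp hi
  have key : x - algebraMap (integralClosure A L) L (n * d')
      = x * algebraMap (integralClosure A L) L i := by
    have h1 : algebraMap (integralClosure A L) L (d' * (d : integralClosure A L) + i) = 1 := by
      rw [hdi, map_one]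
    rw [map_add, map_mul] at h1
    rw [map_mul]
    linear_combination (algebraMap (integralClosure A L) L d') * hnd - x * h1
  rw [key]
  exact mul_mem_nonunits hx hi'

/-- Lifts `s i` of elements `u i ∈ V` with independent residues have independent residues in the
quotient of the integral closure by the centre. -/
theorem IsOver.linearIndependent_mk {V : ValuationSubring L} (hV : IsOver A V)
    [hlo : (center V hV.mem_integralClosure).LiesOver (maximalIdeal A)] {f : ℕ}
    (u : Fin f → L) (s : Fin f → integralClosure A L)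
    (hs : ∀ i, u i - algebraMap (integralClosure A L) L (s i) ∈ V.nonunits)
    (hind : ∀ a : Fin f → A, (∑ i, algebraMap A L (a i) * u i) ∈ V.nonunits →
      ∀ i, a i ∈ maximalIdeal A) :
    LinearIndependent (A ⧸ maximalIdeal A)
      (fun i => Ideal.Quotient.mk (center V hV.mem_integralClosure) (s i)) := by
  rw [Fintype.linearIndependent_iff]
  intro c hc i
  choose a ha using fun i => Ideal.Quotient.mk_surjective (c i)
  have h1 : ∀ i, c i • Ideal.Quotient.mk (center V hV.mem_integralClosure) (s i)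
      = Ideal.Quotient.mk (center V hV.mem_integralClosure)
          (algebraMap A (integralClosure A L) (a i) * s i) := by
    intro i
    rw [Algebra.smul_def, ← ha i, Ideal.Quotient.algebraMap_mk_of_liesOver, map_mul]
  simp only [h1] at hc
  rw [← map_sum, Ideal.Quotient.eq_zero_iff_mem, mem_center_iff] at hc
  have h2 : (∑ i, algebraMap A L (a i) * u i)
      = algebraMap (integralClosure A L) L
          (∑ i, algebraMap A (integralClosure A L) (a i) * s i)
        + ∑ i, algebraMap A L (a i) * (u i - algebraMap (integralClosure A L) L (s i)) := by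
    rw [map_sum, ← Finset.sum_add_distrib]
    refine Finset.sum_congr rfl fun i _ => ?_
    rw [map_mul, ← IsScalarTower.algebraMap_apply]
    ring
  have h3 : (∑ i, algebraMap A L (a i) * u i) ∈ V.nonunits := by
    rw [h2]
    refine add_mem hc (sum_mem fun i _ => ?_)
    exact mul_mem_nonunits (hV.mem _) (hs i)
  have h4 := hind a h3 i
  rw [← ha i]
  exact Ideal.Quotient.eq_zero_iff_mem.mpr h4

include K in
/-- A family of `f` elements of `V` whose residues are independent over the residue field of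
`A` bounds the inertia degree of the centre from below. -/
theorem IsOver.le_inertiaDeg {V : ValuationSubring L} (hV : IsOver A V) {f : ℕ}
    (u : Fin f → L) (hu : ∀ i, u i ∈ V)
    (hind : ∀ a : Fin f → A, (∑ i, algebraMap A L (a i) * u i) ∈ V.nonunits →
      ∀ i, a i ∈ maximalIdeal A) :
    f ≤ Ideal.inertiaDeg' (maximalIdeal A) (center V hV.mem_integralClosure) := by
  have hlo := hV.center_liesOver
  have hfin : Module.Finite A (integralClosure A L) := IsIntegralClosure.finite A K L _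
  rw [Ideal.inertiaDeg'_algebraMap]
  choose s hs using fun i => hV.exists_sub_mem_nonunits K (hu i)
  have hli := hV.linearIndependent_mk u s hs hind
  have h5 := hli.fintype_card_le_finrank
  simpa using h5

end Residue

section Count

variable (K : Type*) {A L : Type*} [CommRing A] [IsDomain A] [IsDiscreteValuationRing A]
  [Field K] [Algebra A K] [IsFractionRing A K]
  [Field L] [Algebra K L] [Algebra A L] [IsScalarTower A K L]
  [FiniteDimensional K L] [Algebra.IsSeparable K L]

include K in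
/-- **Counting core.**  Two distinct valuation subrings over `A` whose inertia degrees add up to
at least `[L : K]` are the only ones, are unramified, and the bounds are equalities. -/
theorem twoExt_core {V₁ V₂ : ValuationSubring L} (h₁ : IsOver A V₁) (h₂ : IsOver A V₂)
    (hne : V₁ ≠ V₂) {f₁ f₂ : ℕ} (hf : Module.finrank K L ≤ f₁ + f₂)
    (hf₁ : f₁ ≤ Ideal.inertiaDeg' (maximalIdeal A) (center V₁ h₁.mem_integralClosure))
    (hf₂ : f₂ ≤ Ideal.inertiaDeg' (maximalIdeal A) (center V₂ h₂.mem_integralClosure)) :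
    (∀ P : Ideal (integralClosure A L), P.IsPrime → P.LiesOver (maximalIdeal A) →
        P = center V₁ h₁.mem_integralClosure ∨ P = center V₂ h₂.mem_integralClosure) ∧
      Ideal.ramificationIdx' (maximalIdeal A) (center V₁ h₁.mem_integralClosure) = 1 ∧
      Ideal.ramificationIdx' (maximalIdeal A) (center V₂ h₂.mem_integralClosure) = 1 ∧
      Ideal.inertiaDeg' (maximalIdeal A) (center V₁ h₁.mem_integralClosure) = f₁ ∧
      Ideal.inertiaDeg' (maximalIdeal A) (center V₂ h₂.mem_integralClosure) = f₂ := by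
  have hD : IsDedekindDomain (integralClosure A L) := integralClosure.isDedekindDomain A K L
  have hFr : IsFractionRing (integralClosure A L) L :=
    integralClosure.isFractionRing_of_finite_extension K L
  have hfin : Module.Finite A (integralClosure A L) := IsIntegralClosure.finite A K L _
  have hTF : Module.IsTorsionFree A (integralClosure A L) := by
    rw [Module.isTorsionFree_iff_algebraMap_injective]
    intro a b hab
    apply algebraMap_injective_AL A K L
    have := congrArg (algebraMap (integralClosure A L) L) hab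
    rwa [← IsScalarTower.algebraMap_apply, ← IsScalarTower.algebraMap_apply] at this
  have hlo₁ := h₁.center_liesOver
  have hlo₂ := h₂.center_liesOver
  have hp0 : maximalIdeal A ≠ ⊥ := IsDiscreteValuationRing.not_a_field A
  set P₁ := center V₁ h₁.mem_integralClosure with hP₁
  set P₂ := center V₂ h₂.mem_integralClosure with hP₂
  have hP₁₂ : P₁ ≠ P₂ := fun h =>
    hne (eq_of_center_eq V₁ V₂ h₁.mem_integralClosure h₂.mem_integralClosure
      (h₁.ne_top K) (h₂.ne_top K) h)
  have hmem₁ : P₁ ∈ IsDedekindDomain.primesOverFinset (maximalIdeal A) (integralClosure A L) :=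
    (IsDedekindDomain.mem_primesOverFinset_iff hp0 _).mpr ⟨inferInstance, hlo₁⟩
  have hmem₂ : P₂ ∈ IsDedekindDomain.primesOverFinset (maximalIdeal A) (integralClosure A L) :=
    (IsDedekindDomain.mem_primesOverFinset_iff hp0 _).mpr ⟨inferInstance, hlo₂⟩
  have hsum := by
    set_option linter.deprecated false in
    exact Ideal.sum_ramification_inertia (integralClosure A L) K L hp0
  have hpos : ∀ P ∈ IsDedekindDomain.primesOverFinset (maximalIdeal A) (integralClosure A L),
      1 ≤ Ideal.ramificationIdx' (maximalIdeal A) P ∧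
      1 ≤ Ideal.inertiaDeg' (maximalIdeal A) P := by
    intro P hP
    obtain ⟨hPp, hPl⟩ := (IsDedekindDomain.mem_primesOverFinset_iff hp0 _).mp hP
    exact ⟨Nat.one_le_iff_ne_zero.mpr
        (Ideal.IsDedekindDomain.ramificationIdx'_ne_zero_of_liesOver P hp0),
      Nat.one_le_iff_ne_zero.mpr (Ideal.inertiaDeg'_ne_zero (maximalIdeal A) P)⟩
  rw [← Finset.add_sum_erase _ _ hmem₁] at hsum
  have hmem₂' : P₂ ∈ (IsDedekindDomain.primesOverFinset (maximalIdeal A) (integralClosure A L)).erase P₁ :=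
    Finset.mem_erase.mpr ⟨hP₁₂.symm, hmem₂⟩
  rw [← Finset.add_sum_erase _ _ hmem₂'] at hsum
  set T := ((IsDedekindDomain.primesOverFinset (maximalIdeal A) (integralClosure A L)).erase P₁).erase P₂ with hT
  have hrest : T.card ≤ ∑ P ∈ T, Ideal.ramificationIdx' (maximalIdeal A) P *
      Ideal.inertiaDeg' (maximalIdeal A) P := by
    rw [Finset.card_eq_sum_ones]
    refine Finset.sum_le_sum fun P hP => ?_
    have hP' : P ∈ IsDedekindDomain.primesOverFinset (maximalIdeal A) (integralClosure A L) :=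
      Finset.mem_of_mem_erase (Finset.mem_of_mem_erase hP)
    exact Right.one_le_mul (hpos P hP').1 (hpos P hP').2
  obtain ⟨he₁, hi₁⟩ := hpos P₁ hmem₁
  obtain ⟨he₂, hi₂⟩ := hpos P₂ hmem₂
  have hm₁ : Ideal.inertiaDeg' (maximalIdeal A) P₁ ≤
      Ideal.ramificationIdx' (maximalIdeal A) P₁ * Ideal.inertiaDeg' (maximalIdeal A) P₁ :=
    Nat.le_mul_of_pos_left _ he₁
  have hm₂ : Ideal.inertiaDeg' (maximalIdeal A) P₂ ≤
      Ideal.ramificationIdx' (maximalIdeal A) P₂ * Ideal.inertiaDeg' (maximalIdeal A) P₂ :=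
    Nat.le_mul_of_pos_left _ he₂
  have hT0 : T.card = 0 := by omega
  have hi₁' : Ideal.inertiaDeg' (maximalIdeal A) P₁ = f₁ := by omega
  have hi₂' : Ideal.inertiaDeg' (maximalIdeal A) P₂ = f₂ := by omega
  have hem₁ : Ideal.ramificationIdx' (maximalIdeal A) P₁ *
      Ideal.inertiaDeg' (maximalIdeal A) P₁ = Ideal.inertiaDeg' (maximalIdeal A) P₁ := by omega
  have hem₂ : Ideal.ramificationIdx' (maximalIdeal A) P₂ *
      Ideal.inertiaDeg' (maximalIdeal A) P₂ = Ideal.inertiaDeg' (maximalIdeal A) P₂ := by omega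
  refine ⟨?_, ?_, ?_, hi₁', hi₂'⟩
  · intro P hPp hPl
    have hP : P ∈ IsDedekindDomain.primesOverFinset (maximalIdeal A) (integralClosure A L) :=
      (IsDedekindDomain.mem_primesOverFinset_iff hp0 _).mpr ⟨hPp, hPl⟩
    by_contra hcon
    rw [not_or] at hcon
    have : P ∈ T := Finset.mem_erase.mpr ⟨hcon.2, Finset.mem_erase.mpr ⟨hcon.1, hP⟩⟩
    rw [Finset.card_eq_zero] at hT0
    rw [hT0] at this
    exact absurd this (Finset.notMem_empty _)
  · exact Nat.eq_of_mul_eq_mul_right (by omega : 0 < Ideal.inertiaDeg' (maximalIdeal A) P₁)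
      (by rw [hem₁, one_mul])
  · exact Nat.eq_of_mul_eq_mul_right (by omega : 0 < Ideal.inertiaDeg' (maximalIdeal A) P₂)
      (by rw [hem₂, one_mul])

end Count

end Fermat.Agent.A2.H489

end
-- ===== PACK-END A2/H489/TwoExtC.lean

-- ===== PACK-BEGIN A2/Mod/H732/SepTwoVal.lean
section



/-!
# A2 / MOD, piece S4 (SepCoord producer), part 2 (helper732): unit discriminant for two
unramified extensions with separable residue fields

Mathlib + `A2/H48` (`TwoVal`, `TwoExt`).  `K` a field with a valuation ring `O` with uniformiser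
`ϖ`, `F / K` finite, `V₁ ≠ V₂` valuation rings of `F` over `O`, both with uniformiser `ϖ`,
`m` a *good* family (`H48.TwoExt.IsGood`: an `O`-basis of `V₁ ∩ V₂`) with `[F : K]` members.
If both residue extensions are separable (liftable elementwise form), then the discriminant of
`m` is a unit of `O`.

* `valIdeal`, `mem_valIdeal`, `valIdeal_isPrime` : the prime `𝒪 ∩ 𝔪_V` of `𝒪 = V₁ ∩ V₂`;
* `discr_unit_of_isGood` : the theorem.
-/

set_option autoImplicit false
set_option linter.style.haveILetI false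
set_option linter.unusedSectionVars false

noncomputable section

namespace Fermat.Agent.A2.Mod.H732

open Polynomial Fermat.Agent.A2.H48

section Ring

variable {K F : Type*} [Field K] [Field F] [Algebra K F]

/-- `𝒪 = V₁ ∩ V₂` as a subring of `F`. -/
def twoRing (V₁ V₂ : ValuationSubring F) : Subring F := V₁.toSubring ⊓ V₂.toSubring

theorem mem_twoRing {V₁ V₂ : ValuationSubring F} {z : F} :
    z ∈ twoRing V₁ V₂ ↔ z ∈ V₁ ∧ z ∈ V₂ := Iff.rfl

/-- The structure map `O → V₁ ∩ V₂`. -/
def twoRingHom {O : ValuationSubring K} {V₁ V₂ : ValuationSubring F}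
    (le₁ : ∀ a ∈ O, algebraMap K F a ∈ V₁) (le₂ : ∀ a ∈ O, algebraMap K F a ∈ V₂) :
    O →+* twoRing V₁ V₂ where
  toFun a := ⟨algebraMap K F (a : K), le₁ a a.2, le₂ a a.2⟩
  map_one' := Subtype.ext (_root_.map_one (algebraMap K F))
  map_mul' a b := Subtype.ext (_root_.map_mul (algebraMap K F) (a : K) (b : K))
  map_zero' := Subtype.ext (_root_.map_zero (algebraMap K F))
  map_add' a b := Subtype.ext (_root_.map_add (algebraMap K F) (a : K) (b : K))

/-- The ideal `T ∩ 𝔪_V` of a subring `T ⊆ V`. -/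
def valIdeal (T : Subring F) (V : ValuationSubring F) (hTV : ∀ z ∈ T, z ∈ V) : Ideal T where
  carrier := {s | V.valuation (s : F) < 1}
  add_mem' := fun {a b} ha hb => by
    show V.valuation ((a : F) + (b : F)) < 1
    exact Valuation.map_add_lt _ ha hb
  zero_mem' := by
    show V.valuation ((0 : T) : F) < 1
    rw [ZeroMemClass.coe_zero, _root_.map_zero]
    exact zero_lt_one
  smul_mem' := fun c a ha => by
    show V.valuation ((c : F) * (a : F)) < 1
    rw [_root_.map_mul]
    calc V.valuation (c : F) * V.valuation (a : F) ≤ 1 * V.valuation (a : F) :=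
          mul_le_mul_left ((V.valuation_le_one_iff _).2 (hTV c c.2)) _
      _ < 1 := by rw [one_mul]; exact ha

theorem mem_valIdeal {T : Subring F} {V : ValuationSubring F} {hTV : ∀ z ∈ T, z ∈ V} {s : T} :
    s ∈ valIdeal T V hTV ↔ V.valuation (s : F) < 1 := Iff.rfl

theorem valIdeal_isPrime (T : Subring F) (V : ValuationSubring F) (hTV : ∀ z ∈ T, z ∈ V) :
    (valIdeal T V hTV).IsPrime := by
  refine ⟨?_, ?_⟩
  · intro h
    have h1 : (1 : T) ∈ valIdeal T V hTV := by rw [h]; trivial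
    rw [mem_valIdeal, OneMemClass.coe_one, _root_.map_one] at h1
    exact lt_irrefl _ h1
  · intro a b hab
    rw [mem_valIdeal, Subring.coe_mul, _root_.map_mul] at hab
    by_contra hcon
    rw [not_or, mem_valIdeal, mem_valIdeal, not_lt, not_lt] at hcon
    have h1 : (1 : _) ≤ V.valuation (a : F) * V.valuation (b : F) := by
      calc (1 : _) = 1 * 1 := (one_mul 1).symm
        _ ≤ V.valuation (a : F) * V.valuation (b : F) := mul_le_mul' hcon.1 hcon.2
    exact absurd hab (not_lt.2 h1)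

end Ring

section Main

variable {K F : Type*} [Field K] [Field F] [Algebra K F]
variable {O : ValuationSubring K} {V₁ V₂ : ValuationSubring F} {ϖ : K}

/-- `V ∩ K = O` on non-units: for `r ∈ O`, `r` is a non-unit of `O` iff it is one of `V`. -/
theorem val_algebraMap_lt_one_iff (hO : IsUnif O ϖ) (hu : IsUnif V₁ (algebraMap K F ϖ))
    (le₁ : ∀ a ∈ O, algebraMap K F a ∈ V₁) {r : K} (hr : r ∈ O) :
    V₁.valuation (algebraMap K F r) < 1 ↔ O.valuation r < 1 := by
  constructor
  · intro h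
    by_contra hcon
    have h1 : O.valuation r = 1 :=
      le_antisymm ((O.valuation_le_one_iff r).2 hr) (not_lt.1 hcon)
    have hr0 : r ≠ 0 := by
      rintro rfl
      rw [_root_.map_zero] at h1
      exact zero_ne_one h1
    have h2 : r⁻¹ ∈ O := by
      rw [← O.valuation_le_one_iff, map_inv₀, h1, inv_one]
    have h3 : V₁.valuation (algebraMap K F r⁻¹) ≤ 1 := (V₁.valuation_le_one_iff _).2 (le₁ _ h2)
    have h4 : V₁.valuation (algebraMap K F r) * V₁.valuation (algebraMap K F r⁻¹) = 1 := by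
      rw [← _root_.map_mul, ← _root_.map_mul, mul_inv_cancel₀ hr0, _root_.map_one, _root_.map_one]
    have h5 : V₁.valuation (algebraMap K F r) * V₁.valuation (algebraMap K F r⁻¹) < 1 := by
      calc V₁.valuation (algebraMap K F r) * V₁.valuation (algebraMap K F r⁻¹)
          ≤ V₁.valuation (algebraMap K F r) * 1 := mul_le_mul_right h3 _
        _ < 1 := by rw [mul_one]; exact h
    rw [h4] at h5
    exact lt_irrefl _ h5
  · intro h
    have h1 : r * ϖ⁻¹ ∈ O := hO.mul_inv_mem_iff.2 h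
    have h2 : algebraMap K F r = algebraMap K F (r * ϖ⁻¹) * algebraMap K F ϖ := by
      rw [← _root_.map_mul, mul_assoc, inv_mul_cancel₀ hO.ne_zero, mul_one]
    rw [h2, _root_.map_mul]
    calc V₁.valuation (algebraMap K F (r * ϖ⁻¹)) * V₁.valuation (algebraMap K F ϖ)
        ≤ 1 * V₁.valuation (algebraMap K F ϖ) :=
          mul_le_mul_left ((V₁.valuation_le_one_iff _).2 (le₁ _ h1)) _
      _ < 1 := by rw [one_mul]; exact hu.val_lt_one

/-- **Unit discriminant.**  In the situation of `H48.TwoExt` (two unramified extensions `V₁ ≠ V₂`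
of `O` exhausting the degree), if both residue extensions are separable, then the discriminant
of every good family `m` is a unit of `O`. -/
theorem discr_unit_of_isGood [FiniteDimensional K F]
    {ι : Type*} [Fintype ι] [DecidableEq ι] {m : ι → F}
    (hO : IsUnif O ϖ) (hu₁ : IsUnif V₁ (algebraMap K F ϖ)) (hu₂ : IsUnif V₂ (algebraMap K F ϖ))
    (le₁ : ∀ a ∈ O, algebraMap K F a ∈ V₁) (le₂ : ∀ a ∈ O, algebraMap K F a ∈ V₂)
    (hne : V₁ ≠ V₂)
    (hm : TwoExt.IsGood O V₁ V₂ ϖ m) (hcard : Fintype.card ι = Module.finrank K F)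
    (hs₁ : ∀ f : F, f ∈ V₁ → f ∈ V₂ → ∃ Q : Polynomial O,
        V₁.valuation (Q.eval₂ ((algebraMap K F).comp O.subtype) f) < 1 ∧
        V₁.valuation ((derivative Q).eval₂ ((algebraMap K F).comp O.subtype) f) = 1)
    (hs₂ : ∀ f : F, f ∈ V₁ → f ∈ V₂ → ∃ Q : Polynomial O,
        V₂.valuation (Q.eval₂ ((algebraMap K F).comp O.subtype) f) < 1 ∧
        V₂.valuation ((derivative Q).eval₂ ((algebraMap K F).comp O.subtype) f) = 1) :
    O.valuation (Algebra.discr K m) = 1 := by
  classical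
  set π := algebraMap K F ϖ with hπ
  have hπ0 : π ≠ 0 := hu₁.ne_zero
  -- the basis of `F / K`
  have hpos : 0 < Module.finrank K F := Module.finrank_pos
  haveI : Nonempty ι := by
    rw [← Fintype.card_pos_iff, hcard]; exact hpos
  set B := basisOfLinearIndependentOfCardEqFinrank (hm.linearIndependent hO) hcard with hBdef
  have hB : ∀ l, B l = m l := fun l => by
    rw [hBdef, coe_basisOfLinearIndependentOfCardEqFinrank]
  -- the ring `S = V₁ ∩ V₂` as an `O`-algebra
  letI algS : Algebra O (twoRing V₁ V₂) := (twoRingHom le₁ le₂).toAlgebra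
  have hcoe_alg : ∀ r : O, ((algebraMap O (twoRing V₁ V₂) r : twoRing V₁ V₂) : F) =
      algebraMap K F (r : K) := fun _ => rfl
  have hsmul : ∀ (r : O) (s : twoRing V₁ V₂), ((r • s : twoRing V₁ V₂) : F) =
      (r : K) • (s : F) := by
    intro r s
    rw [Algebra.smul_def, Subring.coe_mul, hcoe_alg, Algebra.smul_def]
  -- the coordinate map
  let φ : twoRing V₁ V₂ →ₗ[O] (ι → O) :=
    { toFun := fun s l => ⟨B.repr (s : F) l,
        TwoExt.IsGood.repr_mem hO le₁ le₂ hm B hB s.2.1 s.2.2 l⟩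
      map_add' := fun s t => by
        funext l
        apply Subtype.ext
        simp only [Subring.coe_add, _root_.map_add, Finsupp.coe_add, Pi.add_apply]
        rfl
      map_smul' := fun r s => by
        funext l
        apply Subtype.ext
        simp only [hsmul, _root_.map_smul, Finsupp.coe_smul, Pi.smul_apply, RingHom.id_apply]
        rfl }
  have hφ : ∀ (s : twoRing V₁ V₂) (l : ι), ((φ s l : O) : K) = B.repr (s : F) l := fun _ _ => rfl
  have hφinj : Function.Injective φ := by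
    intro s t hst
    apply Subtype.ext
    apply B.repr.injective
    ext l
    rw [← hφ, ← hφ, hst]
  have hmS : ∀ l, m l ∈ twoRing V₁ V₂ := fun l => ⟨hm.1 l, hm.2.1 l⟩
  have hφm : ∀ l, φ ⟨m l, hmS l⟩ = Pi.single l 1 := by
    intro l
    funext l'
    apply Subtype.ext
    rw [hφ]
    show B.repr (m l) l' = (((Pi.single l (1 : O) : ι → O) l' : O) : K)
    rw [← hB, B.repr_self, Finsupp.single_apply, Pi.single_apply]
    by_cases h : l = l'
    · subst h; simp
    · rw [if_neg h, if_neg (fun h' => h h'.symm)]; rfl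
  have hφsurj : Function.Surjective φ := by
    intro f
    refine ⟨∑ l, f l • (⟨m l, hmS l⟩ : twoRing V₁ V₂), ?_⟩
    rw [_root_.map_sum]
    simp only [_root_.map_smul, hφm]
    funext l'
    rw [Finset.sum_apply]
    simp only [Pi.smul_apply, Pi.single_apply, smul_eq_mul, mul_ite, mul_one, mul_zero]
    rw [Finset.sum_eq_single l']
    · simp
    · intro l _ hl
      rw [if_neg (fun h => hl h.symm)]
    · intro h
      exact absurd (Finset.mem_univ l') h
  let bS : Module.Basis ι O (twoRing V₁ V₂) :=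
    Module.Basis.ofEquivFun (LinearEquiv.ofBijective φ ⟨hφinj, hφsurj⟩)
  have hbS : ∀ l, bS l = ⟨m l, hmS l⟩ := by
    intro l
    show (Module.Basis.ofEquivFun (LinearEquiv.ofBijective φ ⟨hφinj, hφsurj⟩)) l = _
    rw [Module.Basis.coe_ofEquivFun]
    rw [LinearEquiv.symm_apply_eq]
    exact (hφm l).symm
  have hbSrepr : ∀ (s : twoRing V₁ V₂) (l : ι), ((bS.repr s l : O) : K) = B.repr (s : F) l := by
    intro s l
    show (((Module.Basis.ofEquivFun (LinearEquiv.ofBijective φ ⟨hφinj, hφsurj⟩)).repr s l : O)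
      : K) = _
    rw [Module.Basis.ofEquivFun_repr_apply]
    rfl
  haveI : Module.Free O (twoRing V₁ V₂) := Module.Free.of_basis bS
  haveI : Module.Finite O (twoRing V₁ V₂) := Module.Finite.of_basis bS
  haveI : Algebra.IsIntegral O (twoRing V₁ V₂) := Algebra.IsIntegral.of_finite _ _
  -- the two primes
  set P₁ : Ideal (twoRing V₁ V₂) := valIdeal (twoRing V₁ V₂) V₁ (fun z hz => hz.1) with hP₁
  set P₂ : Ideal (twoRing V₁ V₂) := valIdeal (twoRing V₁ V₂) V₂ (fun z hz => hz.2) with hP₂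
  have hP₁prime : P₁.IsPrime := valIdeal_isPrime _ _ _
  have hP₂prime : P₂.IsPrime := valIdeal_isPrime _ _ _
  have hϖmem : (⟨ϖ, hO.mem⟩ : O) ∈ IsLocalRing.maximalIdeal O :=
    (ValuationSubring.valuation_lt_one_iff O _).2 hO.val_lt_one
  have hmap₁ : Ideal.map (algebraMap O (twoRing V₁ V₂)) (IsLocalRing.maximalIdeal O) ≤ P₁ := by
    rw [Ideal.map_le_iff_le_comap]
    intro r hr
    rw [Ideal.mem_comap, hP₁, mem_valIdeal, hcoe_alg]
    exact (val_algebraMap_lt_one_iff hO hu₁ le₁ r.2).2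
      ((ValuationSubring.valuation_lt_one_iff O r).1 hr)
  have hmap₂ : Ideal.map (algebraMap O (twoRing V₁ V₂)) (IsLocalRing.maximalIdeal O) ≤ P₂ := by
    rw [Ideal.map_le_iff_le_comap]
    intro r hr
    rw [Ideal.mem_comap, hP₂, mem_valIdeal, hcoe_alg]
    exact (val_algebraMap_lt_one_iff hO hu₂ le₂ r.2).2
      ((ValuationSubring.valuation_lt_one_iff O r).1 hr)
  have hinf : P₁ ⊓ P₂ = Ideal.map (algebraMap O (twoRing V₁ V₂)) (IsLocalRing.maximalIdeal O) := by
    refine le_antisymm ?_ (le_inf hmap₁ hmap₂)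
    rintro s ⟨hs1, hs2⟩
    have h1 : (s : F) * π⁻¹ ∈ V₁ := hu₁.mul_inv_mem_iff.2 hs1
    have h2 : (s : F) * π⁻¹ ∈ V₂ := hu₂.mul_inv_mem_iff.2 hs2
    have hs : s = algebraMap O (twoRing V₁ V₂) ⟨ϖ, hO.mem⟩ *
        (⟨(s : F) * π⁻¹, h1, h2⟩ : twoRing V₁ V₂) := by
      apply Subtype.ext
      rw [Subring.coe_mul, hcoe_alg]
      show (s : F) = π * ((s : F) * π⁻¹)
      field_simp
    rw [hs]
    exact Ideal.mul_mem_right _ _ (Ideal.mem_map_of_mem _ hϖmem)
  have hcomap : ∀ P : Ideal (twoRing V₁ V₂), P.IsPrime →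
      Ideal.map (algebraMap O (twoRing V₁ V₂)) (IsLocalRing.maximalIdeal O) ≤ P → P.IsMaximal := by
    intro P hP hle
    haveI := hP
    apply Ideal.isMaximal_of_isIntegral_of_isMaximal_comap (R := O) P
    have : Ideal.comap (algebraMap O (twoRing V₁ V₂)) P = IsLocalRing.maximalIdeal O :=
      ((IsLocalRing.maximalIdeal.isMaximal O).eq_of_le (Ideal.comap_ne_top _ hP.ne_top)
        (Ideal.map_le_iff_le_comap.1 hle)).symm
    rw [this]
    exact IsLocalRing.maximalIdeal.isMaximal O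
  have hP₁max : P₁.IsMaximal := hcomap P₁ hP₁prime hmap₁
  have hP₂max : P₂.IsMaximal := hcomap P₂ hP₂prime hmap₂
  have hPne : P₁ ≠ P₂ := by
    obtain ⟨g, hg1, hg2, hg3⟩ := exists_approx hu₁ hu₂ hne (f := 1) (k := 0) (one_mem _)
      (by rw [pow_zero, one_mul]; exact one_mem _)
    have hgV₂ : g ∈ V₂ := by
      have : g = g * π⁻¹ * π := by field_simp
      rw [this]
      exact mul_mem hg3 hu₂.mem
    intro hP
    have hgP₂ : (⟨g, hg1, hgV₂⟩ : twoRing V₁ V₂) ∈ P₂ := by
      rw [hP₂, mem_valIdeal]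
      exact hu₂.mul_inv_mem_iff.1 hg3
    rw [← hP, hP₁, mem_valIdeal] at hgP₂
    have h1 : V₁.valuation (g - 1) < 1 := hu₁.mul_inv_mem_iff.1 hg2
    have h2 : V₁.valuation (1 : F) < 1 := by
      have : (1 : F) = g - (g - 1) := by ring
      rw [this]
      exact Valuation.map_sub_lt _ hgP₂ h1
    rw [_root_.map_one] at h2
    exact lt_irrefl _ h2
  -- evaluation of polynomials
  have hev : ∀ (Q : Polynomial O) (s : twoRing V₁ V₂),
      ((aeval s Q : twoRing V₁ V₂) : F) = Q.eval₂ ((algebraMap K F).comp O.subtype) (s : F) := by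
    intro Q s
    have h := Polynomial.hom_eval₂ Q (algebraMap O (twoRing V₁ V₂)) (twoRing V₁ V₂).subtype s
    rw [aeval_def]
    exact h
  have hsepS₁ : ∀ s : twoRing V₁ V₂, ∃ Q : Polynomial O,
      aeval s Q ∈ P₁ ∧ aeval s (derivative Q) ∉ P₁ := by
    intro s
    obtain ⟨Q, hQ1, hQ2⟩ := hs₁ s s.2.1 s.2.2
    refine ⟨Q, ?_, ?_⟩
    · rw [hP₁, mem_valIdeal, hev]; exact hQ1
    · rw [hP₁, mem_valIdeal, hev, hQ2]; exact lt_irrefl _
  have hsepS₂ : ∀ s : twoRing V₁ V₂, ∃ Q : Polynomial O,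
      aeval s Q ∈ P₂ ∧ aeval s (derivative Q) ∉ P₂ := by
    intro s
    obtain ⟨Q, hQ1, hQ2⟩ := hs₂ s s.2.1 s.2.2
    refine ⟨Q, ?_, ?_⟩
    · rw [hP₂, mem_valIdeal, hev]; exact hQ1
    · rw [hP₂, mem_valIdeal, hev, hQ2]; exact lt_irrefl _
  have hunit : IsUnit (Algebra.discr O bS) :=
    isUnit_discr_of_two_maximal bS P₁ P₂ hP₁max hP₂max hPne hinf hsepS₁ hsepS₂
  -- comparison of traces and discriminants
  have htr : ∀ s : twoRing V₁ V₂, ((Algebra.trace O (twoRing V₁ V₂) s : O) : K) =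
      Algebra.trace K F (s : F) := by
    intro s
    rw [Algebra.trace_eq_matrix_trace bS, Algebra.trace_eq_matrix_trace B, Matrix.trace,
      Matrix.trace]
    rw [← ValuationSubring.algebraMap_apply, _root_.map_sum]
    refine Finset.sum_congr rfl fun i _ => ?_
    rw [Matrix.diag_apply, Matrix.diag_apply, Algebra.leftMulMatrix_eq_repr_mul,
      Algebra.leftMulMatrix_eq_repr_mul, ValuationSubring.algebraMap_apply, hbSrepr,
      Subring.coe_mul, hbS, hB]
  have hdiscr : ((Algebra.discr O bS : O) : K) = Algebra.discr K m := by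
    rw [Algebra.discr_def, Algebra.discr_def, ← ValuationSubring.algebraMap_apply,
      RingHom.map_det]
    congr 1
    ext i j
    rw [RingHom.mapMatrix_apply, Matrix.map_apply, Algebra.traceMatrix_apply,
      Algebra.traceMatrix_apply, Algebra.traceForm_apply, Algebra.traceForm_apply,
      ValuationSubring.algebraMap_apply, htr, Subring.coe_mul, hbS, hbS]
  obtain ⟨u, hu⟩ := hunit
  rw [← hdiscr, ← hu]
  exact ValuationSubring.valuation_unit O u

end Main

end Fermat.Agent.A2.Mod.H732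

end
end
-- ===== PACK-END A2/Mod/H732/SepTwoVal.lean

-- ===== PACK-BEGIN A2/H372/NodeLoc.lean
section


/-!
# A2 / NODE-LOC : from the global semistable chart to the local data at a closed point (helper372)

Adapter between MODEL (global statements on a chart `B`: the fields of `SSChart` in
`Fermat/Agent/A2/Spec.lean`) and the local purity / LP lemmas
(`A2.H609.exists_unit_mul_pow_of_node`, `exists_unit_mul_pow_of_smooth`, `A2.H673`, `A2.H672`),
which live in the local ring `O = B_n` at a closed point `n` of the special fibre.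

INPUT (global, on the chart `B`): primes `p₁ p₂` with `p₁ ⊓ p₂ = (w)`, `B ⧸ pᵢ` Dedekind,
`p₁ ⊔ p₂` radical (or the elementwise local generation of `Transversal.lean`), `n` a prime
(maximal) ideal containing `w`.

OUTPUT (local, in `O` with `[IsLocalization.AtPrime O n]`), `Pᵢ := pᵢ O`:

* node (`p₁ ≤ n`, `p₂ ≤ n`) : `P₁`, `P₂` prime, `P₁ ⊓ P₂ = (w)`, `P₁ ⊔ P₂ = n O`
  (`= maximalIdeal O`), `O ⧸ Pᵢ` discrete valuation rings       — `node_local_data`;
* smooth (`p₁ ≤ n`, `¬ p₂ ≤ n`) : `P₁` prime, `P₁ = (w)`, `O ⧸ P₁` a discrete valuation ring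
                                                               — `smooth_local_data`;
* `exists_mul_mem_of_isRadical` : elementwise local generation `t x ∈ J`, `t ∉ n`, for a
  radical ideal `J ≤ n` containing a prime `p` with `B ⧸ p` Dedekind, `J ≠ p`.
-/

set_option autoImplicit false

namespace Fermat.Agent.A2.H372

open Ideal

variable {B : Type*} [CommRing B]

/-- In a discrete valuation ring, a nonzero proper radical ideal is the maximal ideal. -/
theorem eq_maximalIdeal_of_isRadical_of_dvr {L : Type*} [CommRing L] [IsDomain L]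
    [IsDiscreteValuationRing L] {I : Ideal L} (hI : I.IsRadical) (h0 : I ≠ ⊥) (h1 : I ≠ ⊤) :
    I = IsLocalRing.maximalIdeal L := by
  obtain ⟨ϖ, hϖ⟩ := IsDiscreteValuationRing.exists_irreducible L
  obtain ⟨k, hk⟩ := IsDiscreteValuationRing.ideal_eq_span_pow_irreducible h0 hϖ
  have hk0 : k ≠ 0 := by
    rintro rfl
    apply h1
    rw [hk, pow_zero, Ideal.span_singleton_one]
  have hmem : ϖ ∈ I := hI ⟨k, by rw [hk]; exact Ideal.mem_span_singleton_self _⟩
  refine le_antisymm (IsLocalRing.le_maximalIdeal h1) ?_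
  rw [hϖ.maximalIdeal_eq, Ideal.span_le, Set.singleton_subset_iff]
  exact hmem

/-- The image of a prime `n ⊇ p` in `B ⧸ p`. -/
theorem map_mk_isPrime {p n : Ideal B} [n.IsPrime] (hpn : p ≤ n) :
    (n.map (Ideal.Quotient.mk p)).IsPrime :=
  Ideal.map_isPrime_of_surjective Ideal.Quotient.mk_surjective
    (by rw [Ideal.mk_ker]; exact hpn)

theorem mk_mem_map_mk_iff {p n : Ideal B} (hpn : p ≤ n) (x : B) :
    Ideal.Quotient.mk p x ∈ n.map (Ideal.Quotient.mk p) ↔ x ∈ n := by
  constructor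
  · intro h
    obtain ⟨y, hy, hxy⟩ :=
      (Ideal.mem_map_iff_of_surjective _ Ideal.Quotient.mk_surjective).mp h
    have : x - y ∈ p := by
      rw [← Ideal.Quotient.eq]
      exact hxy.symm
    have := n.add_mem (hpn this) hy
    simpa using this
  · exact fun h => Ideal.mem_map_of_mem _ h

theorem map_mk_ne_bot {p n : Ideal B} (hpn : p ≤ n) (hne : p ≠ n) :
    n.map (Ideal.Quotient.mk p) ≠ ⊥ := by
  intro h
  apply hne
  refine le_antisymm hpn fun x hx => ?_
  have : Ideal.Quotient.mk p x ∈ n.map (Ideal.Quotient.mk p) := Ideal.mem_map_of_mem _ hx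
  rw [h, Ideal.mem_bot] at this
  exact Ideal.Quotient.eq_zero_iff_mem.mp this

/-- **Local generation from radicality.**  `p` prime with `B ⧸ p` Dedekind, `J` a radical ideal
with `p ≤ J ≤ n`, `J ≠ p`, `n` prime.  Then `J` generates `n` locally at `n`. -/
theorem exists_mul_mem_of_isRadical {p J n : Ideal B} [p.IsPrime] [n.IsPrime]
    [IsDedekindDomain (B ⧸ p)] (hpJ : p ≤ J) (hJn : J ≤ n) (hne : ¬ J ≤ p)
    (hJ : J.IsRadical) {x : B} (hx : x ∈ n) : ∃ t : B, t ∉ n ∧ t * x ∈ J := by
  have hpn : p ≤ n := hpJ.trans hJn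
  set D := B ⧸ p
  set nb : Ideal D := n.map (Ideal.Quotient.mk p) with hnb
  set Jb : Ideal D := J.map (Ideal.Quotient.mk p) with hJb
  have : nb.IsPrime := map_mk_isPrime hpn
  have hJbn : Jb ≤ nb := Ideal.map_mono hJn
  have hJb0 : Jb ≠ ⊥ := by
    intro h
    apply hne
    intro y hy
    have : Ideal.Quotient.mk p y ∈ Jb := Ideal.mem_map_of_mem _ hy
    rw [h, Ideal.mem_bot] at this
    exact Ideal.Quotient.eq_zero_iff_mem.mp this
  have hnb0 : nb ≠ ⊥ := fun h => hJb0 (le_bot_iff.mp (h ▸ hJbn))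
  have hJbrad : Jb.IsRadical := by
    intro y hy
    obtain ⟨y, rfl⟩ := Ideal.Quotient.mk_surjective y
    obtain ⟨k, hk⟩ := hy
    rw [← _root_.map_pow] at hk
    have hk' : y ^ k ∈ J := (mk_mem_map_mk_iff hpJ _).mp hk
    exact Ideal.mem_map_of_mem _ (hJ ⟨k, hk'⟩)
  let L := Localization.AtPrime nb
  have : IsDiscreteValuationRing L :=
    IsLocalization.AtPrime.isDiscreteValuationRing_of_dedekind_domain D hnb0 L
  have hinj : Function.Injective (algebraMap D L) :=
    IsLocalization.injective L (Ideal.primeCompl_le_nonZeroDivisors nb)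
  set I : Ideal L := Jb.map (algebraMap D L) with hI
  have hIrad : I.IsRadical := by
    have := IsLocalization.map_radical nb.primeCompl L Jb
    rw [hJbrad.radical] at this
    rw [Ideal.IsRadical, hI, ← this]
  have hI0 : I ≠ ⊥ := by
    intro h
    apply hJb0
    rw [eq_bot_iff]
    intro y hy
    have : algebraMap D L y ∈ I := Ideal.mem_map_of_mem _ hy
    rw [h, Ideal.mem_bot] at this
    rw [Ideal.mem_bot]
    exact hinj (by rw [this, map_zero])
  have hI1 : I ≠ ⊤ := by
    rw [hI]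
    exact (IsLocalization.map_algebraMap_ne_top_iff_disjoint nb.primeCompl L Jb).mpr
      (Set.disjoint_left.mpr fun y hy hyJ => hy (hJbn hyJ))
  have hImax : I = IsLocalRing.maximalIdeal L :=
    eq_maximalIdeal_of_isRadical_of_dvr hIrad hI0 hI1
  have hxL : algebraMap D L (Ideal.Quotient.mk p x) ∈ I := by
    rw [hImax]
    exact (IsLocalization.AtPrime.to_map_mem_maximal_iff L nb _).mpr
      (Ideal.mem_map_of_mem _ hx)
  obtain ⟨tb, htb, htx⟩ :=
    (IsLocalization.algebraMap_mem_map_algebraMap_iff nb.primeCompl L Jb _).mp hxL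
  obtain ⟨t, rfl⟩ := Ideal.Quotient.mk_surjective tb
  refine ⟨t, fun ht => htb (Ideal.mem_map_of_mem _ ht), ?_⟩
  rw [← _root_.map_mul] at htx
  exact (mk_mem_map_mk_iff hpJ _).mp htx

section Local

variable (O : Type*) [CommRing O] [Algebra B O]

/-- The quotient of the local ring `O = B_n` by `p O` is a discrete valuation ring when
`B ⧸ p` is Dedekind and `p < n`. -/
theorem isDiscreteValuationRing_quotient_map {p n : Ideal B} [p.IsPrime] [n.IsPrime]
    [IsLocalization.AtPrime O n] [IsDedekindDomain (B ⧸ p)] (hpn : p ≤ n) (hne : p ≠ n)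
    [(p.map (algebraMap B O)).IsPrime] :
    IsDiscreteValuationRing (O ⧸ p.map (algebraMap B O)) := by
  set nb : Ideal (B ⧸ p) := n.map (Ideal.Quotient.mk p) with hnb
  have : nb.IsPrime := map_mk_isPrime hpn
  have hnb0 : nb ≠ ⊥ := map_mk_ne_bot hpn hne
  have hM : Algebra.algebraMapSubmonoid (B ⧸ p) n.primeCompl = nb.primeCompl := by
    ext y
    obtain ⟨y, rfl⟩ := Ideal.Quotient.mk_surjective y
    constructor
    · rintro ⟨z, hz, hzy⟩
      intro hy
      have hzy' : Ideal.Quotient.mk p z = Ideal.Quotient.mk p y := hzy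
      have hy' : Ideal.Quotient.mk p z ∈ nb := by rw [hzy']; exact hy
      exact hz ((mk_mem_map_mk_iff hpn z).mp hy')
    · intro hy
      exact ⟨y, fun h => hy (Ideal.mem_map_of_mem _ h), rfl⟩
  have h1 : IsLocalization (Algebra.algebraMapSubmonoid (B ⧸ p) n.primeCompl)
      (O ⧸ p.map (algebraMap B O)) := inferInstance
  have : IsLocalization.AtPrime (O ⧸ p.map (algebraMap B O)) nb := by
    change IsLocalization nb.primeCompl _
    rw [← hM]
    exact h1
  exact IsLocalization.AtPrime.isDiscreteValuationRing_of_dedekind_domain (B ⧸ p) hnb0 _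

/-- **NODE-LOC, node case.**  Local data at a crossing point `n ⊇ p₁ + p₂` of a semistable
chart, in the exact shape of the hypotheses of `A2.H609.exists_unit_mul_pow_of_node`. -/
theorem node_local_data {p₁ p₂ n : Ideal B} [p₁.IsPrime] [p₂.IsPrime] [n.IsPrime]
    [IsLocalization.AtPrime O n] [IsDedekindDomain (B ⧸ p₁)] [IsDedekindDomain (B ⧸ p₂)]
    {w : B} (hinf : p₁ ⊓ p₂ = Ideal.span {w}) (h₁₂ : ¬ p₁ ≤ p₂) (h₂₁ : ¬ p₂ ≤ p₁)
    (htr : (p₁ ⊔ p₂).IsRadical) (h₁ : p₁ ≤ n) (h₂ : p₂ ≤ n) :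
    ∃ (_ : (p₁.map (algebraMap B O)).IsPrime) (_ : (p₂.map (algebraMap B O)).IsPrime),
      p₁.map (algebraMap B O) ⊓ p₂.map (algebraMap B O) = Ideal.span {algebraMap B O w} ∧
      p₁.map (algebraMap B O) ⊔ p₂.map (algebraMap B O) = n.map (algebraMap B O) ∧
      IsDiscreteValuationRing (O ⧸ p₁.map (algebraMap B O)) ∧
      IsDiscreteValuationRing (O ⧸ p₂.map (algebraMap B O)) := by
  have hd₁ : Disjoint (n.primeCompl : Set B) (p₁ : Set B) :=
    Set.disjoint_left.mpr fun y hy hyp => hy (h₁ hyp)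
  have hd₂ : Disjoint (n.primeCompl : Set B) (p₂ : Set B) :=
    Set.disjoint_left.mpr fun y hy hyp => hy (h₂ hyp)
  have hP₁ : (p₁.map (algebraMap B O)).IsPrime :=
    IsLocalization.isPrime_of_isPrime_disjoint n.primeCompl O p₁ inferInstance hd₁
  have hP₂ : (p₂.map (algebraMap B O)).IsPrime :=
    IsLocalization.isPrime_of_isPrime_disjoint n.primeCompl O p₂ inferInstance hd₂
  have hne₁ : p₁ ≠ n := fun h => h₂₁ (h ▸ h₂)
  have hne₂ : p₂ ≠ n := fun h => h₁₂ (h ▸ h₁)
  refine ⟨hP₁, hP₂, ?_, ?_, ?_, ?_⟩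
  · rw [← IsLocalization.map_inf n.primeCompl O, hinf, Ideal.map_span, Set.image_singleton]
  · rw [← Ideal.map_sup]
    symm
    refine map_eq_map_of_local O (sup_le h₁ h₂) fun x hx => ?_
    exact exists_mul_mem_of_isRadical (p := p₁) le_sup_left (sup_le h₁ h₂)
      (fun h => h₂₁ (le_sup_right.trans h)) htr hx
  · exact isDiscreteValuationRing_quotient_map O h₁ hne₁
  · exact isDiscreteValuationRing_quotient_map O h₂ hne₂

/-- **NODE-LOC, smooth case.**  Local data at a point `n` of the first component which is not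
on the second one, in the exact shape of `A2.H609.exists_unit_mul_pow_of_smooth`. -/
theorem smooth_local_data {p₁ p₂ n : Ideal B} [p₁.IsPrime] [n.IsPrime]
    [IsLocalization.AtPrime O n] [IsDedekindDomain (B ⧸ p₁)]
    {w : B} (hinf : p₁ ⊓ p₂ = Ideal.span {w}) (h₁ : p₁ ≤ n) (hne : p₁ ≠ n) (h₂ : ¬ p₂ ≤ n) :
    ∃ (_ : (p₁.map (algebraMap B O)).IsPrime),
      p₁.map (algebraMap B O) = Ideal.span {algebraMap B O w} ∧
      IsDiscreteValuationRing (O ⧸ p₁.map (algebraMap B O)) := by
  have hd₁ : Disjoint (n.primeCompl : Set B) (p₁ : Set B) :=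
    Set.disjoint_left.mpr fun y hy hyp => hy (h₁ hyp)
  have hP₁ : (p₁.map (algebraMap B O)).IsPrime :=
    IsLocalization.isPrime_of_isPrime_disjoint n.primeCompl O p₁ inferInstance hd₁
  have htop : p₂.map (algebraMap B O) = ⊤ := by
    obtain ⟨e, he, hen⟩ := SetLike.not_le_iff_exists.mp h₂
    rw [Ideal.eq_top_iff_one]
    have hu : IsUnit (algebraMap B O e) := IsLocalization.map_units O (⟨e, hen⟩ : n.primeCompl)
    have : algebraMap B O e ∈ p₂.map (algebraMap B O) := Ideal.mem_map_of_mem _ he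
    exact (Ideal.eq_top_of_isUnit_mem _ this hu) ▸ Submodule.mem_top
  refine ⟨hP₁, ?_, isDiscreteValuationRing_quotient_map O h₁ hne⟩
  have := IsLocalization.map_inf n.primeCompl O p₁ p₂
  rw [htop, inf_top_eq, hinf, Ideal.map_span, Set.image_singleton] at this
  exact this.symm

end Local

/-- **NODE-LOC, node case**, for `O = Localization.AtPrime n`, with `IsLocalRing.maximalIdeal`:
verbatim the hypotheses `hinf`, `hsup` and the instances of
`A2.H609.exists_unit_mul_pow_of_node`. -/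
theorem node_local_data_atPrime {p₁ p₂ n : Ideal B} [p₁.IsPrime] [p₂.IsPrime] [n.IsPrime]
    [IsDedekindDomain (B ⧸ p₁)] [IsDedekindDomain (B ⧸ p₂)]
    {w : B} (hinf : p₁ ⊓ p₂ = Ideal.span {w}) (h₁₂ : ¬ p₁ ≤ p₂) (h₂₁ : ¬ p₂ ≤ p₁)
    (htr : (p₁ ⊔ p₂).IsRadical) (h₁ : p₁ ≤ n) (h₂ : p₂ ≤ n) :
    ∃ (_ : (p₁.map (algebraMap B (Localization.AtPrime n))).IsPrime)
      (_ : (p₂.map (algebraMap B (Localization.AtPrime n))).IsPrime),
      p₁.map (algebraMap B (Localization.AtPrime n)) ⊓
          p₂.map (algebraMap B (Localization.AtPrime n)) =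
        Ideal.span {algebraMap B (Localization.AtPrime n) w} ∧
      p₁.map (algebraMap B (Localization.AtPrime n)) ⊔
          p₂.map (algebraMap B (Localization.AtPrime n)) =
        IsLocalRing.maximalIdeal (Localization.AtPrime n) ∧
      IsDiscreteValuationRing
        (Localization.AtPrime n ⧸ p₁.map (algebraMap B (Localization.AtPrime n))) ∧
      IsDiscreteValuationRing
        (Localization.AtPrime n ⧸ p₂.map (algebraMap B (Localization.AtPrime n))) := by
  obtain ⟨hP₁, hP₂, hi, hs, hd₁, hd₂⟩ :=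
    node_local_data (Localization.AtPrime n) hinf h₁₂ h₂₁ htr h₁ h₂
  exact ⟨hP₁, hP₂, hi, by rw [hs, Localization.AtPrime.map_eq_maximalIdeal], hd₁, hd₂⟩

end Fermat.Agent.A2.H372

end
-- ===== PACK-END A2/H372/NodeLoc.lean

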