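import Mathlib
import Fermat.Prelude.Def_AlgebraicCurve_DivisorClassGroup
import Fermat.Prelude.Def_ModularCurve_HeckeOperator
import Fermat.Prelude.Def_FLTPrelim_Ramification
import Fermat.Agent.Pack.S33.E9L1
import Fermat.Agent.Pack.S33.E8L0
import Fermat.Agent.Pack.S33.E2L2
import Fermat.Agent.Pack.S33.E8L1
import Fermat.Agent.Pack.S33.E6L2
import Fermat.Agent.Pack.S33.E8L3
import Fermat.Agent.Pack.S33.E8L2
import Fermat.Agent.Pack.S33.E9L2
import Fermat.Agent.Pack.S33.E6L1
import Fermat.Agent.Pack.S33.E1L0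
import Fermat.Agent.Pack.S33.E9L3
import Fermat.Agent.Pack.S33.E9L0
import Fermat.Agent.Pack.S33.E3L1

-- ===== PACK-BEGIN S14/H894/LocalI.lean
section


/-!
# S14 / H894 : LOCAL-I

`exists_inertia_moving_root` : if `β ^ p ∈ K` (`p` prime) and the valuation of `β` is not the
valuation of an element of `K`, then some element of the inertia group of `A` fixes `K`
pointwise and moves `β`.

Contrapositive (`exists_valuation_eq_of_inertia_fixed`): if every element of `I_A` fixing `K`
pointwise fixes `β`, then `v(β) = v(c)` for some `c ∈ K`, hence `v(β ^ p) = v(c) ^ p`.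
-/

set_option autoImplicit false
set_option linter.style.haveILetI false

open scoped Pointwise

namespace Fermat.Agent.S14.H894

open Polynomial Fermat.Agent.S54

local notation "Qb" => AlgebraicClosure ℚ
local notation "GQ" => (AlgebraicClosure ℚ ≃ₐ[ℚ] AlgebraicClosure ℚ)

/-- An element of `ℚ̄` outside the intermediate field `K` is moved by some element of
`Gal(ℚ̄/K)`. -/
theorem exists_fixing_ne_of_not_mem (K : IntermediateField ℚ Qb) (β : Qb) (hβ : β ∉ K) :
    ∃ τ : GQ, (∀ x ∈ K, τ x = x) ∧ τ β ≠ β := by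
  haveI := isGalois_algebraicClosure_rat
  by_contra hcon
  push Not at hcon
  apply hβ
  rw [← InfiniteGalois.fixedField_fixingSubgroup K, IntermediateField.mem_fixedField_iff]
  intro τ hτ
  exact hcon τ (fun x hx => (IntermediateField.mem_fixingSubgroup_iff K τ).mp hτ x hx)

/-- **LOCAL-I**, existence form. -/
theorem exists_inertia_moving_root (A : ValuationSubring Qb) (ℓ : ℕ) (hℓ : ℓ.Prime)
    (hA : A.LiesOverPrime ℓ) (K : IntermediateField ℚ Qb) (p : ℕ) (hp : p.Prime)
    (β : Qb) (hβK : β ^ p ∈ K) (hval : ∀ c ∈ K, A.valuation β ≠ A.valuation c) :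
    ∃ σ ∈ A.inertiaSubgroupIn ℚ, (∀ x ∈ K, σ x = x) ∧ σ β ≠ β := by
  have hβ0 : β ≠ 0 := by
    rintro rfl
    exact hval 0 K.zero_mem rfl
  have hvβ0 : A.valuation β ≠ 0 := (Valuation.ne_zero_iff _).mpr hβ0
  have hβK' : β ∉ K := fun h => hval β h rfl
  obtain ⟨τ, hτK, hτβ⟩ := exists_fixing_ne_of_not_mem K β hβK'
  -- the polynomial
  let α : K := ⟨β ^ p, hβK⟩
  let f : K[X] := X ^ p - C α
  have hf : f.Monic := monic_X_pow_sub_C α hp.ne_zero
  have hdeg : f.natDegree = p := natDegree_X_pow_sub_C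
  have hγ : aeval β f = 0 := by
    simp only [f, _root_.map_sub, _root_.map_pow, aeval_X, aeval_C]
    show β ^ p - (α : Qb) = 0
    exact sub_self _
  have hindep : ∀ k : ℕ, 0 < k → k < f.natDegree → ∀ c ∈ K,
      A.valuation β ^ k ≠ A.valuation c := by
    intro k hk0 hkp c hc heq
    rw [hdeg] at hkp
    have hcop : Nat.Coprime k p :=
      (Nat.coprime_of_lt_prime hk0.ne' hkp hp).symm
    obtain ⟨m, -, hm⟩ := Nat.exists_mul_mod_eq_one_of_coprime hcop hp.one_lt
    have hkm : k * m = p * (k * m / p) + 1 := by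
      have := Nat.div_add_mod (k * m) p
      rw [hm] at this
      exact this.symm
    set t := k * m / p with ht
    have h1 : A.valuation β ^ (k * m) = A.valuation (c ^ m) := by
      rw [pow_mul, heq, _root_.map_pow]
    have h2 : A.valuation β ^ (k * m) = A.valuation ((β ^ p) ^ t) * A.valuation β := by
      rw [hkm, pow_succ, pow_mul, _root_.map_pow, _root_.map_pow]
    have hα0 : A.valuation ((β ^ p) ^ t) ≠ 0 :=
      (Valuation.ne_zero_iff _).mpr (pow_ne_zero _ (pow_ne_zero _ hβ0))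
    refine hval (c ^ m / (β ^ p) ^ t) (K.div_mem (pow_mem hc m) (pow_mem hβK t)) ?_
    rw [map_div₀, eq_div_iff hα0, mul_comm, ← h2, h1]
  have hconj : ∀ τ : GQ, (∀ x ∈ K, τ x = x) → A.valuation (τ β) = A.valuation β := by
    intro τ hτ
    have h1 : (τ β) ^ p = β ^ p := by
      rw [← _root_.map_pow]; exact hτ _ hβK
    have h2 : A.valuation (τ β) ^ p = A.valuation β ^ p := by
      rw [← Valuation.map_pow, h1, Valuation.map_pow]
    exact (pow_left_inj hp.ne_zero).mp h2
  obtain ⟨σ, hσI, hσK, hσβ⟩ :=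
    exists_inertia_eq_on_adjoin A ℓ hℓ hA K β f hf hγ hindep hconj τ hτK
  exact ⟨σ, hσI, hσK, by rw [hσβ]; exact hτβ⟩

/-- **LOCAL-I**: if every element of the inertia group of `A` fixing `K` pointwise fixes `β`,
where `β ^ p ∈ K`, then the valuation of `β` is the valuation of an element of `K`. -/
theorem exists_valuation_eq_of_inertia_fixed (A : ValuationSubring Qb) (ℓ : ℕ) (hℓ : ℓ.Prime)
    (hA : A.LiesOverPrime ℓ) (K : IntermediateField ℚ Qb) (p : ℕ) (hp : p.Prime)
    (β : Qb) (hβK : β ^ p ∈ K)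
    (hfix : ∀ σ ∈ A.inertiaSubgroupIn ℚ, (∀ x ∈ K, σ x = x) → σ β = β) :
    ∃ c ∈ K, A.valuation β = A.valuation c := by
  by_contra hcon
  push Not at hcon
  obtain ⟨σ, hσI, hσK, hσβ⟩ := exists_inertia_moving_root A ℓ hℓ hA K p hp β hβK hcon
  exact hσβ (hfix σ hσI hσK)

/-- **LOCAL-I**, Kummer form: the valuation of `α = β ^ p` is a `p`-th power of the valuation
of an element of `K`. -/
theorem exists_valuation_eq_pow_of_inertia_fixed (A : ValuationSubring Qb) (ℓ : ℕ)
    (hℓ : ℓ.Prime) (hA : A.LiesOverPrime ℓ) (K : IntermediateField ℚ Qb) (p : ℕ)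
    (hp : p.Prime) (β : Qb) (hβK : β ^ p ∈ K)
    (hfix : ∀ σ ∈ A.inertiaSubgroupIn ℚ, (∀ x ∈ K, σ x = x) → σ β = β) :
    ∃ c ∈ K, A.valuation (β ^ p) = A.valuation (c ^ p) := by
  obtain ⟨c, hc, h⟩ := exists_valuation_eq_of_inertia_fixed A ℓ hℓ hA K p hp β hβK hfix
  exact ⟨c, hc, by rw [_root_.map_pow, _root_.map_pow, h]⟩

end Fermat.Agent.S14.H894

end
-- ===== PACK-END S14/H894/LocalI.lean

-- ===== PACK-BEGIN S56/H716/SBDefs.lean
section


/-!
# Row S56 — SELBOUND, layer 2: FROZEN definitions (deputy helper716)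

Plain-function language of layers 0 and 1 (`c : G_ℚ → End_k V`, `V = ρbar.V`).

* `IsAdCoboundaryOn ρbar H c` — `c` is an (untwisted) coboundary on the subgroup `H ≤ G_ℚ`.
* `adInv ρbar H`              — `H⁰(H, ad⁰ρ̄)`: trace-zero endomorphisms commuting with `ρ̄(H)`.
* `UnramAt c q`               — `c` vanishes on every inertia group above `q`.
* `IsSelCocycle ρbar Pl Λ Smin Q c` — `c ∈ Z¹(G_ℚ, ad⁰ρ̄)` (finite level), unramified outside
  `Smin ∪ Q`, and for every `v ∈ Smin` the restriction of `c` to the decomposition group of the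
  chosen place `Pl v` above `v` is cohomologous to (the restriction of) an element of `Λ v`.
  ("Selmer cocycles" for the local conditions `L_v = image of Λ v in H¹(D_{Pl v}, ad⁰ρ̄)`.)

Nothing unproved in this file.  Plan: `coord/S56-TB.md` on `origin/main`.
-/

set_option autoImplicit false

open Polynomial IsLocalRing

noncomputable section

namespace Fermat.Agent.S56.H716

open Fermat.Agent.S56

section

variable {k : Type} [Field k] (ρbar : ResidualGaloisRep k)

/-- `c` is an (untwisted) coboundary on the subgroup `H`. -/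
def IsAdCoboundaryOn (H : Subgroup GQ) (c : GQ → Module.End k ρbar.V) : Prop :=
  ∃ m : Module.End k ρbar.V, ∀ σ ∈ H, c σ = ρbar.ρ σ * m * ρbar.ρ σ⁻¹ - m

/-- `H⁰(H, ad⁰ρ̄)`: the trace-zero endomorphisms fixed by the adjoint action of `H`. -/
def adInv (H : Subgroup GQ) : Submodule k (Module.End k ρbar.V) where
  carrier := {m | LinearMap.trace k ρbar.V m = 0 ∧ ∀ σ ∈ H, ρbar.ρ σ * m * ρbar.ρ σ⁻¹ = m}
  add_mem' := by
    rintro a b ⟨ha, ha'⟩ ⟨hb, hb'⟩
    refine ⟨by rw [_root_.map_add, ha, hb, add_zero], fun σ hσ => ?_⟩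
    rw [mul_add, add_mul, ha' σ hσ, hb' σ hσ]
  zero_mem' := ⟨_root_.map_zero _, fun σ _ => by rw [mul_zero, zero_mul]⟩
  smul_mem' := by
    rintro r a ⟨ha, ha'⟩
    refine ⟨by rw [_root_.map_smul, ha, smul_zero], fun σ hσ => ?_⟩
    rw [mul_smul_comm, smul_mul_assoc, ha' σ hσ]

/-- `c` vanishes on every inertia group above the prime `q`. -/
def UnramAt (c : GQ → Module.End k ρbar.V) (q : ℕ) : Prop :=
  ∀ P : ValuationSubring Qb, P.LiesOverPrime q → ∀ σ ∈ P.inertiaSubgroupIn ℚ, c σ = 0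

/-- Selmer cocycles for the local conditions cut out by the spaces `Λ v` (`v ∈ Smin`) at the
places `Pl v`, with no condition at `Q` and the unramified condition elsewhere. -/
structure IsSelCocycle (Pl : ℕ → ValuationSubring Qb)
    (Λ : ℕ → Submodule k (GQ → Module.End k ρbar.V)) (Smin Q : Finset ℕ)
    (c : GQ → Module.End k ρbar.V) : Prop where
  cocycle : IsAdCocycle ρbar c
  unram : ∀ q : ℕ, q.Prime → q ∉ Smin ∪ Q → UnramAt ρbar c q
  loc : ∀ v ∈ Smin, ∃ t ∈ Λ v, IsAdCoboundaryOn ρbar ((Pl v).decompositionSubgroup ℚ) (c - t)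

end

end Fermat.Agent.S56.H716

end

end
-- ===== PACK-END S56/H716/SBDefs.lean

-- ===== PACK-BEGIN S37/H940/Frac.lean
section




/-!
# S37 / RIM (helper940): the reduction context of fractions

Given a subring `O ⊆ F` ("integral functions") with a ring homomorphism `ρ₀ : O → F_k`
extending the residue map `π : A → k`, the ring `V` of fractions `a / b` (`a, b ∈ O`,
`ρ₀ b ≠ 0`) carries the reduction map `ρ (a / b) = ρ₀ a / ρ₀ b`, and `(A, π, V, ρ)` is a
reduction context in the sense of `Core.lean`.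
-/

set_option autoImplicit false

noncomputable section

namespace Fermat.Agent.S37.H940

open AlgebraicCurve

variable {K F k Fk : Type*} [Field K] [Field F] [Algebra K F] [Field k] [Field Fk]
  [Algebra k Fk]

/-- Input data for the context of fractions. -/
structure FracData (K F k Fk : Type*) [Field K] [Field F] [Algebra K F] [Field k] [Field Fk]
    [Algebra k Fk] where
  /-- the valuation ring of the base field -/
  A : ValuationSubring K
  /-- the residue map -/
  π : A →+* k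
  π_surj : Function.Surjective π
  π_eq_zero : ∀ a : A, π a = 0 ↔ ¬ IsUnit a
  /-- the integral functions -/
  O : Subring F
  /-- the reduction of integral functions -/
  ρ₀ : O →+* Fk
  A_mem : ∀ a : A, algebraMap K F (a : K) ∈ O
  ρ₀_A : ∀ a : A, ρ₀ ⟨algebraMap K F (a : K), A_mem a⟩ = algebraMap k Fk (π a)

namespace FracData

variable (𝔇 : FracData K F k Fk)

/-- `f` is a fraction `a / b` with `a, b` integral and `ρ₀ b ≠ 0`. -/
def IsFrac (f : F) : Prop := ∃ a b : 𝔇.O, 𝔇.ρ₀ b ≠ 0 ∧ f * (b : F) = (a : F)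

theorem coe_ne_zero {b : 𝔇.O} (hb : 𝔇.ρ₀ b ≠ 0) : (b : F) ≠ 0 := by
  intro h
  apply hb
  have : b = 0 := Subtype.ext h
  rw [this, map_zero]

theorem isFrac_of_mem (a : 𝔇.O) : 𝔇.IsFrac (a : F) :=
  ⟨a, 1, by rw [map_one]; exact one_ne_zero, by simp⟩

theorem IsFrac.add {f g : F} (hf : 𝔇.IsFrac f) (hg : 𝔇.IsFrac g) : 𝔇.IsFrac (f + g) := by
  obtain ⟨a, b, hb, hab⟩ := hf
  obtain ⟨c, d, hd, hcd⟩ := hg
  refine ⟨a * d + c * b, b * d, by rw [map_mul]; exact mul_ne_zero hb hd, ?_⟩
  push_cast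
  rw [← hab, ← hcd]
  ring

theorem IsFrac.mul {f g : F} (hf : 𝔇.IsFrac f) (hg : 𝔇.IsFrac g) : 𝔇.IsFrac (f * g) := by
  obtain ⟨a, b, hb, hab⟩ := hf
  obtain ⟨c, d, hd, hcd⟩ := hg
  refine ⟨a * c, b * d, by rw [map_mul]; exact mul_ne_zero hb hd, ?_⟩
  push_cast
  rw [← hab, ← hcd]
  ring

theorem IsFrac.neg {f : F} (hf : 𝔇.IsFrac f) : 𝔇.IsFrac (-f) := by
  obtain ⟨a, b, hb, hab⟩ := hf
  refine ⟨-a, b, hb, ?_⟩
  push_cast
  rw [← hab]
  ring

/-- the ring of fractions -/
def V : Subring F where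
  carrier := {f | 𝔇.IsFrac f}
  mul_mem' := fun hf hg => hf.mul 𝔇 hg
  one_mem' := by
    have := 𝔇.isFrac_of_mem 1
    simpa using this
  add_mem' := fun hf hg => hf.add 𝔇 hg
  zero_mem' := by
    have := 𝔇.isFrac_of_mem 0
    simpa using this
  neg_mem' := fun hf => hf.neg 𝔇

theorem mem_V {f : F} : f ∈ 𝔇.V ↔ 𝔇.IsFrac f := Iff.rfl

/-- numerator of a fraction -/
def num (f : 𝔇.V) : 𝔇.O := (f.2 : 𝔇.IsFrac f).choose

/-- denominator of a fraction -/
def den (f : 𝔇.V) : 𝔇.O := (f.2 : 𝔇.IsFrac f).choose_spec.choose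

theorem ρ₀_den_ne_zero (f : 𝔇.V) : 𝔇.ρ₀ (𝔇.den f) ≠ 0 :=
  (f.2 : 𝔇.IsFrac f).choose_spec.choose_spec.1

theorem mul_den (f : 𝔇.V) : (f : F) * (𝔇.den f : F) = (𝔇.num f : F) :=
  (f.2 : 𝔇.IsFrac f).choose_spec.choose_spec.2

/-- the reduction of a fraction, as a function -/
def ρfun (f : 𝔇.V) : Fk := 𝔇.ρ₀ (𝔇.num f) / 𝔇.ρ₀ (𝔇.den f)

/-- the reduction of a fraction does not depend on the representation -/
theorem ρfun_eq (f : 𝔇.V) {a b : 𝔇.O} (hb : 𝔇.ρ₀ b ≠ 0) (hab : (f : F) * (b : F) = (a : F)) :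
    𝔇.ρfun f = 𝔇.ρ₀ a / 𝔇.ρ₀ b := by
  unfold ρfun
  rw [div_eq_div_iff (𝔇.ρ₀_den_ne_zero f) hb, ← map_mul, ← map_mul]
  congr 1
  apply Subtype.ext
  push_cast
  rw [← 𝔇.mul_den f, ← hab]
  ring

/-- the reduction map on fractions -/
def ρ : 𝔇.V →+* Fk where
  toFun := 𝔇.ρfun
  map_one' := by
    rw [𝔇.ρfun_eq 1 (a := 1) (b := 1) (by rw [map_one]; exact one_ne_zero) (by simp)]
    simp
  map_mul' f g := by
    rw [𝔇.ρfun_eq (f * g) (a := 𝔇.num f * 𝔇.num g) (b := 𝔇.den f * 𝔇.den g)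
      (by rw [map_mul]; exact mul_ne_zero (𝔇.ρ₀_den_ne_zero f) (𝔇.ρ₀_den_ne_zero g))
      (by push_cast; rw [← 𝔇.mul_den f, ← 𝔇.mul_den g]; ring)]
    unfold ρfun
    rw [map_mul, map_mul, mul_div_mul_comm]
  map_zero' := by
    rw [𝔇.ρfun_eq 0 (a := 0) (b := 1) (by rw [map_one]; exact one_ne_zero) (by simp)]
    simp
  map_add' f g := by
    rw [𝔇.ρfun_eq (f + g) (a := 𝔇.num f * 𝔇.den g + 𝔇.num g * 𝔇.den f)
      (b := 𝔇.den f * 𝔇.den g)
      (by rw [map_mul]; exact mul_ne_zero (𝔇.ρ₀_den_ne_zero f) (𝔇.ρ₀_den_ne_zero g))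
      (by push_cast; rw [← 𝔇.mul_den f, ← 𝔇.mul_den g]; ring)]
    unfold ρfun
    rw [map_add, map_mul, map_mul, map_mul, div_add_div _ _ (𝔇.ρ₀_den_ne_zero f)
      (𝔇.ρ₀_den_ne_zero g)]
    ring

theorem ρ_apply (f : 𝔇.V) {a b : 𝔇.O} (hb : 𝔇.ρ₀ b ≠ 0) (hab : (f : F) * (b : F) = (a : F)) :
    𝔇.ρ f = 𝔇.ρ₀ a / 𝔇.ρ₀ b :=
  𝔇.ρfun_eq f hb hab

/-- integral functions as fractions -/
def ofO (a : 𝔇.O) : 𝔇.V := ⟨(a : F), 𝔇.isFrac_of_mem a⟩

@[simp] theorem coe_ofO (a : 𝔇.O) : ((𝔇.ofO a : 𝔇.V) : F) = (a : F) := rfl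

@[simp] theorem ρ_ofO (a : 𝔇.O) : 𝔇.ρ (𝔇.ofO a) = 𝔇.ρ₀ a := by
  rw [𝔇.ρ_apply (𝔇.ofO a) (a := a) (b := 1) (by rw [map_one]; exact one_ne_zero) (by simp)]
  simp

/-- **The reduction context of fractions.** -/
def ctx : Ctx K F k Fk where
  A := 𝔇.A
  π := 𝔇.π
  π_surj := 𝔇.π_surj
  π_eq_zero := 𝔇.π_eq_zero
  V := 𝔇.V
  ρ := 𝔇.ρ
  A_mem a := 𝔇.isFrac_of_mem ⟨_, 𝔇.A_mem a⟩
  ρ_A a := by
    have := 𝔇.ρ_ofO ⟨_, 𝔇.A_mem a⟩
    rw [𝔇.ρ₀_A] at this
    exact this
  inv_mem u hu := by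
    have hnum : 𝔇.ρ₀ (𝔇.num u) ≠ 0 := by
      intro h
      apply hu
      show 𝔇.ρfun u = 0
      unfold ρfun
      rw [h, zero_div]
    refine ⟨𝔇.den u, 𝔇.num u, hnum, ?_⟩
    have hu0 : (u : F) ≠ 0 := by
      intro h
      apply 𝔇.coe_ne_zero hnum
      rw [← 𝔇.mul_den u, h, zero_mul]
    rw [← 𝔇.mul_den u]
    field_simp

@[simp] theorem ctx_V : 𝔇.ctx.V = 𝔇.V := rfl

@[simp] theorem ctx_ρ : 𝔇.ctx.ρ = 𝔇.ρ := rfl

@[simp] theorem ctx_A : 𝔇.ctx.A = 𝔇.A := rfl

@[simp] theorem ctx_π : 𝔇.ctx.π = 𝔇.π := rfl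

end FracData

end Fermat.Agent.S37.H940

end
end
-- ===== PACK-END S37/H940/Frac.lean

-- ===== PACK-BEGIN S37/H159/MRoots.lean
section




/-!
# Theorem M, part 7: Gauss root count for an arbitrary residue map; `redRank ≤ n`
(row S37, piece R-b; seat helper159)
-/

set_option autoImplicit false
set_option linter.unusedSectionVars false
set_option linter.style.haveILetI false

namespace Fermat.Agent.S37.H159

open Polynomial

section Roots

variable {K : Type*} [Field K] [IsAlgClosed K] (A : ValuationSubring K)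
  {k : Type*} [Field k] (π : A →+* k) (hπ : Function.Surjective π)

include hπ in
theorem isLocalHom_of_surjective : IsLocalHom π := by
  refine ⟨fun a ha => ?_⟩
  by_contra hna
  have hmax : (RingHom.ker π).IsMaximal := RingHom.ker_isMaximal_of_surjective π hπ
  have hker := IsLocalRing.eq_maximalIdeal hmax
  have h1 : a ∈ IsLocalRing.maximalIdeal A := (IsLocalRing.mem_maximalIdeal a).mpr hna
  rw [← hker, RingHom.mem_ker] at h1
  rw [h1] at ha
  exact not_isUnit_zero ha

include hπ in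
/-- Gauss root count, general residue map. -/
theorem rootMultiplicity_map_eq_card_filter (D : A[X]) (hD : D.map π ≠ 0) (c : A) :
    (D.map π).rootMultiplicity (π c) =
      (open Classical in ((D.map (algebraMap A K)).roots.filter
        (fun c' => ∃ h : c' ∈ A, π ⟨c', h⟩ = π c)).card) := by
  classical
  haveI := isLocalHom_of_surjective A π hπ
  let φ : IsLocalRing.ResidueField A →+* k := IsLocalRing.ResidueField.lift π
  have hφ : ∀ a : A, φ (IsLocalRing.residue A a) = π a := fun a => rfl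
  have hmap : (D.map (IsLocalRing.residue A)).map φ = D.map π := by
    rw [Polynomial.map_map]
    rfl
  have hN : D.map (IsLocalRing.residue A) ≠ 0 := by
    intro h0
    apply hD
    rw [← hmap, h0, Polynomial.map_zero]
  have h1 : (D.map π).rootMultiplicity (π c) =
      (D.map (IsLocalRing.residue A)).rootMultiplicity (IsLocalRing.residue A c) := by
    rw [← hmap, ← hφ c]
    exact (Polynomial.eq_rootMultiplicity_map φ.injective _).symm
  rw [h1, H217.rootMultiplicity_map_residue_eq_card_filter A D hN]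
  congr 1
  refine Multiset.filter_congr fun c' _ => ?_
  constructor
  · rintro ⟨h, hc'⟩
    exact ⟨h, by rw [← hφ, hc', hφ]⟩
  · rintro ⟨h, hc'⟩
    exact ⟨h, φ.injective (by rw [hφ, hφ, hc'])⟩

include hπ in
/-- A root of the reduction lifts to a root in `A`. -/
theorem exists_root_of_isRoot_map (D : A[X]) (hD : D.map π ≠ 0) (cbar : k)
    (h : (D.map π).IsRoot cbar) :
    ∃ c : A, π c = cbar ∧ (D.map (algebraMap A K)).IsRoot (c : K) := by
  classical
  obtain ⟨c₀, rfl⟩ := hπ cbar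
  have h1 : 0 < (D.map π).rootMultiplicity (π c₀) := (Polynomial.rootMultiplicity_pos hD).mpr h
  rw [rootMultiplicity_map_eq_card_filter A π hπ D hD c₀, Multiset.card_pos_iff_exists_mem] at h1
  obtain ⟨c', hc'⟩ := h1
  rw [Multiset.mem_filter] at hc'
  obtain ⟨hroot, hA, hπc⟩ := hc'
  exact ⟨⟨c', hA⟩, hπc, Polynomial.isRoot_of_mem_roots hroot⟩

include hπ in
/-- Gauss + uniqueness of the root in the residue disc. -/
theorem rootMultiplicity_map_le (D : A[X]) (hD : D.map π ≠ 0) (c : A)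
    (huniq : ∀ c' : A, (D.map (algebraMap A K)).IsRoot (c' : K) → π c' = π c → c' = c) :
    (D.map π).rootMultiplicity (π c) ≤ (D.map (algebraMap A K)).rootMultiplicity (c : K) := by
  classical
  rw [rootMultiplicity_map_eq_card_filter A π hπ D hD c]
  set s := (D.map (algebraMap A K)).roots.filter (fun c' => ∃ h : c' ∈ A, π ⟨c', h⟩ = π c)
    with hs
  have hall : ∀ c' ∈ s, c' = (c : K) := by
    intro c' hc'
    rw [hs, Multiset.mem_filter] at hc'
    obtain ⟨hroot, hA, hπc⟩ := hc'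
    have := huniq ⟨c', hA⟩ (Polynomial.isRoot_of_mem_roots hroot) hπc
    exact congrArg Subtype.val this
  have h1 : s = Multiset.replicate (Multiset.card s) (c : K) :=
    Multiset.eq_replicate.mpr ⟨rfl, hall⟩
  have h2 : Multiset.count (c : K) s = Multiset.card s := by
    conv_lhs => rw [h1]
    rw [Multiset.count_replicate_self]
  rw [← h2, ← Polynomial.count_roots]
  exact Multiset.count_le_of_le _ (Multiset.filter_le _ _)

end Roots

section RedRank

variable {k : Type*} [Field k] {T : Type*} [CommRing T] [Algebra k[X] T] [Algebra k T]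
  [IsScalarTower k k[X] T] {ι : Type*} [Fintype ι] [DecidableEq ι] (b : Module.Basis ι k[X] T)

include b in
theorem redRank_le_card (c : k) : H939.redRank T c ≤ Fintype.card ι := by
  let Rad : Ideal T := (H939.fibreIdeal T c).radical
  let Ψ : (ι → k) →ₗ[k] T ⧸ Rad := (Ideal.Quotient.mkₐ k Rad).toLinearMap ∘ₗ H939.lift b
  have hΨsurj : Function.Surjective Ψ := by
    intro q
    obtain ⟨z, rfl⟩ := Ideal.Quotient.mk_surjective q
    refine ⟨H939.coord b c z, ?_⟩
    show Ideal.Quotient.mk Rad (H939.lift b (H939.coord b c z)) = Ideal.Quotient.mk Rad z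
    rw [eq_comm, Ideal.Quotient.eq]
    exact Ideal.le_radical (H939.sub_lift_coord_mem b c z)
  have := LinearMap.finrank_le_finrank_of_surjective hΨsurj
  rw [Module.finrank_pi] at this
  exact this

end RedRank

end Fermat.Agent.S37.H159

end
-- ===== PACK-END S37/H159/MRoots.lean

-- ===== PACK-BEGIN S19/Top.lean
section



/-!
# Cell A3 (S19) — top assembly: frozen S19 from the five open blocks

    ORD   : OrdStatement      (pure algebra:  OrderDatum ==> Hopf model)
    FIN   : FinStatement      (torsion finite)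
    UNR   : UnrStatement      (pure algebra:  local coordinates ==> global coordinates)
    LOCAL : LocalStatement    (DISC + GR: local coordinates at good levels)
    LEVEL : LevelStatement    (ℓ = 2, 3: conorm embedding into a good level)

CONT is proved (`contStatement`, from FINLEVEL of helper571).
-/

set_option autoImplicit false

namespace Fermat.Agent.S19

/-- ORDER from the open blocks. -/
theorem orderStatement_of_blocks (hfin : FinStatement) (hunr : UnrStatement)
    (hlocal : LocalStatement) (hlevel : LevelStatement) : OrderStatement :=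
  orderStatement_of_good (orderStatementGood_of hfin contStatement hunr hlocal) hlevel

/-- **Top assembly**: frozen S19 from ORD, FIN, UNR, LOCAL, LEVEL. -/
theorem S19_of_five (hord : OrdStatement) (hfin : FinStatement) (hunr : UnrStatement)
    (hlocal : LocalStatement) (hlevel : LevelStatement)
    (p : ℕ) [NeZero p] (ℓ : ℕ) [Fact ℓ.Prime] (hℓp : ¬ ℓ ∣ p) (k : ℕ) :
    FrozenConclusion p ℓ k :=
  S19_of_blocks hord hfin (orderStatement_of_blocks hfin hunr hlocal hlevel) p ℓ hℓp k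

end Fermat.Agent.S19

end
-- ===== PACK-END S19/Top.lean

-- ===== PACK-BEGIN S19/H19/Equivariant.lean
section
/-
A3 / S19, helper19 — piece ORD, part 6: Galois-equivariant orders over a subring of `ℚ`.

`R ⊂ ℚ` a principal ideal ring which is integrally closed in `ℚ`; `M` a finite abelian group with
an action of `G_ℚ` fixing `0`; `H ⊂ (M → ℚ̄)` a finitely generated `R`-subalgebra of equivariant
functions, separating points, with `f(s+t) ∈ im (H ⊗ H)`.  Then `H` is a finite flat commutative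
cocommutative Hopf algebra over `R` with `H(ℚ̄) = M`, Galois-equivariantly.  Mathlib only.
-/



set_option autoImplicit false
set_option linter.unusedSectionVars false
set_option linter.style.haveILetI false

noncomputable section

namespace Fermat.Agent.S19.H19

open scoped BigOperators TensorProduct

variable (R : Subring ℚ)

theorem algebraMap_subring_injective : Function.Injective (algebraMap R _root_.Fermat.Agent.S19.H19.Qb) := by
  have h1 : (algebraMap R _root_.Fermat.Agent.S19.H19.Qb : R → _root_.Fermat.Agent.S19.H19.Qb) = (algebraMap ℚ _root_.Fermat.Agent.S19.H19.Qb) ∘ (Subtype.val : R → ℚ) := by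
    funext x
    rfl
  rw [h1]
  exact (algebraMap ℚ _root_.Fermat.Agent.S19.H19.Qb).injective.comp Subtype.val_injective

theorem mem_range_of_fixed_of_isIntegral (hR : ∀ q : ℚ, IsIntegral R q → q ∈ R) (x : _root_.Fermat.Agent.S19.H19.Qb)
    (hfix : ∀ σ : _root_.Fermat.Agent.S19.H19.GalQ, σ x = x) (hint : IsIntegral R x) : x ∈ (Algebra.ofId R _root_.Fermat.Agent.S19.H19.Qb).range := by
  obtain ⟨q, hq⟩ := exists_rat_of_fixed x hfix
  have h1 : IsIntegral R q := by
    rw [← hq] at hint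
    exact (isIntegral_algebraMap_iff (algebraMap ℚ _root_.Fermat.Agent.S19.H19.Qb).injective).mp hint
  exact ⟨⟨q, hR q h1⟩, hq⟩

variable {M : Type}

section Good

variable {act : _root_.Fermat.Agent.S19.H19.GalQ → M → M}

theorem isTorsionFree_subalgebra (H : Subalgebra R (M → _root_.Fermat.Agent.S19.H19.Qb)) : Module.IsTorsionFree R H := by
  rw [Module.isTorsionFree_iff_smul_eq_zero]
  intro r f hrf
  by_cases hr : r = 0
  · exact Or.inl hr
  · right
    apply Subtype.ext
    funext m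
    have h1 : (r • (f : M → _root_.Fermat.Agent.S19.H19.Qb)) m = 0 := by
      have := congrArg (fun g : H => (g : M → _root_.Fermat.Agent.S19.H19.Qb) m) hrf
      exact this
    rw [Pi.smul_apply, _root_.Algebra.smul_def, mul_eq_zero] at h1
    rcases h1 with h1 | h1
    · exact absurd (algebraMap_subring_injective R (h1.trans (map_zero _).symm)) hr
    · exact h1

theorem good_of_equivariant [IsPrincipalIdealRing R]
    (hone : ∀ m, act 1 m = m) (hact : ∀ σ τ m, act σ (act τ m) = act (σ * τ) m)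
    (H : Subalgebra R (M → _root_.Fermat.Agent.S19.H19.Qb)) (hequiv : ∀ f ∈ H, IsEquivariant act f)
    (hfg : (Subalgebra.toSubmodule H).FG) : Good H.val := by
  haveI : Module.Finite R H := Module.Finite.iff_fg.mpr hfg
  haveI : Module.IsTorsionFree R H := isTorsionFree_subalgebra R H
  haveI : Module.Free R H := Module.free_of_finite_type_torsion_free'
  let b := Module.Free.chooseBasis R H
  refine ⟨Module.Free.ChooseBasisIndex R H, inferInstance, b, ?_⟩
  apply linearIndependent_of_equivariant hone hact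
  · intro i
    exact hequiv _ (b i).2
  · -- `ℚ`-linear independence
    have h1 : LinearIndependent R (fun i => H.val (b i)) :=
      b.linearIndependent.map' H.val.toLinearMap (LinearMap.ker_eq_bot.mpr Subtype.val_injective)
    have h2 : LinearIndependent ℤ (fun i => H.val (b i)) := by
      refine LinearIndependent.restrict_scalars (K := R) ?_ h1
      intro x y hxy
      simp only [zsmul_eq_mul, mul_one] at hxy
      exact_mod_cast hxy
    exact LinearIndependent.localization ℚ (nonZeroDivisors ℤ) h2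

end Good

section Main

variable [AddCommGroup M] [Finite M] {act : _root_.Fermat.Agent.S19.H19.GalQ → M → M}

theorem counit_mem_of_equivariant (hR : ∀ q : ℚ, IsIntegral R q → q ∈ R)
    (hzero : ∀ σ, act σ 0 = 0)
    (H : Subalgebra R (M → _root_.Fermat.Agent.S19.H19.Qb)) (hequiv : ∀ f ∈ H, IsEquivariant act f)
    (hfg : (Subalgebra.toSubmodule H).FG) :
    ∀ f ∈ H, f 0 ∈ (Algebra.ofId R _root_.Fermat.Agent.S19.H19.Qb).range := by
  intro f hf
  haveI : Module.Finite R H := Module.Finite.iff_fg.mpr hfg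
  apply mem_range_of_fixed_of_isIntegral R hR
  · intro σ
    rw [← hequiv f hf σ 0, hzero]
  · have h1 : IsIntegral R (⟨f, hf⟩ : H) := Algebra.IsIntegral.isIntegral _
    exact h1.map (IsOrder.evPt H 0)

/-- A finitely generated, equivariant subalgebra closed under `f ↦ f(s+t)` is an order. -/
theorem isOrder_of_equivariant [IsPrincipalIdealRing R]
    (hR : ∀ q : ℚ, IsIntegral R q → q ∈ R)
    (hone : ∀ m, act 1 m = m) (hact : ∀ σ τ m, act σ (act τ m) = act (σ * τ) m)
    (hzero : ∀ σ, act σ 0 = 0)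
    (H : Subalgebra R (M → _root_.Fermat.Agent.S19.H19.Qb)) (hequiv : ∀ f ∈ H, IsEquivariant act f)
    (hfg : (Subalgebra.toSubmodule H).FG)
    (hcomul : ∀ f ∈ H, (fun p : M × M => f (p.1 + p.2)) ∈ (prodMap H.val H.val).range) :
    IsOrder H where
  alg_inj := algebraMap_subring_injective R
  good := good_of_equivariant R hone hact H hequiv hfg
  comul_mem := hcomul
  counit_mem := counit_mem_of_equivariant R hR hzero H hequiv hfg
  anti_mem := neg_mem_of_comul_mem H hcomul (counit_mem_of_equivariant R hR hzero H hequiv hfg)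

/-- **Piece ORD, Galois form.** -/
theorem exists_hopf_of_equivariant_order [IsPrincipalIdealRing R]
    (hR : ∀ q : ℚ, IsIntegral R q → q ∈ R)
    (hone : ∀ m, act 1 m = m) (hact : ∀ σ τ m, act σ (act τ m) = act (σ * τ) m)
    (hzero : ∀ σ, act σ 0 = 0)
    (H : Subalgebra R (M → _root_.Fermat.Agent.S19.H19.Qb)) (hequiv : ∀ f ∈ H, IsEquivariant act f)
    (hfg : (Subalgebra.toSubmodule H).FG)
    (hsep : ∀ m m' : M, m ≠ m' → ∃ f ∈ H, f m ≠ f m')
    (hcomul : ∀ f ∈ H, (fun p : M × M => f (p.1 + p.2)) ∈ (prodMap H.val H.val).range) :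
    ∃ (H' : Type) (_ : CommRing H') (_ : HopfAlgebra R H'),
      Module.Finite R H' ∧ Module.Flat R H' ∧ Coalgebra.IsCocomm R H' ∧
      ∃ e : WithConv (H' →ₐ[R] _root_.Fermat.Agent.S19.H19.Qb) ≃ M, (∀ f g, e (f * g) = e f + e g) ∧
        ∀ (σ : _root_.Fermat.Agent.S19.H19.GalQ) (f g : WithConv (H' →ₐ[R] _root_.Fermat.Agent.S19.H19.Qb)),
          (∀ h : H', g h = σ (f h)) → e g = act σ (e f) := by
  obtain ⟨H', i1, i2, h1, h2, h3, e, he1, he2⟩ := exists_hopf_of_isOrder
    (isOrder_of_equivariant R hR hone hact hzero H hequiv hfg hcomul) hsep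
  exact ⟨H', i1, i2, h1, h2, h3, e, he1, fun σ f g hfg =>
    he2 σ (act σ) (fun h hh m => hequiv h hh σ m) f g hfg⟩

end Main

end Fermat.Agent.S19.H19

end

end
-- ===== PACK-END S19/H19/Equivariant.lean

-- ===== PACK-BEGIN Lib/RR/H439/Adeles.lean
section


/-!
# RR library, layer L4 (repartitions and `H¹(D)`), hypothesis-explicit version (helper439)

Everything is proved on top of layer L1 (`Fermat.Agent.Lib.RR.Basic`, on main).  The two inputs
from layer L3 (Riemann's theorem) enter as explicit hypotheses: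

* `hR : ∀ D, deg D + 1 - g ≤ ℓ(D)`         (Riemann's inequality for the constant `g`),
* `h₀ : ℓ(D₀) = deg D₀ + 1 - g`            (the bound is attained at some `D₀`).

Main results (namespace `Fermat.Agent.Lib.RR.H439`):

* `mem_repartitions_iff`   : `α ∈ repartitions K F ↔ {v | ord_v (α v) < 0}.Finite`;
* `H1_step`                : `H¹(D + P)` finite ⇒ `H¹(D)` finite and
                             `i(D) + ℓ(D + P) = i(D + P) + ℓ(D) + 1`;
* `sup_eq_top_of_attains`  : `ℓ(B) = deg B + 1 - g` ⇒ `𝔸 = 𝔸(B) + F`;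
* `finite_H1_and_formula`  : `H¹(D)` is finite-dimensional and
                             `ℓ(D) - dim H¹(D) = deg D + 1 - g` for every divisor `D`.
-/

set_option autoImplicit false

noncomputable section

open AlgebraicCurve

namespace Fermat.Agent.Lib.RR.H439

open Fermat.Agent.Lib.RR

variable {K F : Type*} [Field K] [Field F] [Algebra K F]

/-! ### L4.0: repartitions = families with finitely many poles -/

/-- A constant has finitely many poles. -/
theorem finite_poles_const [HasPrincipalDivisors K F] (f : F) :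
    {v : Place K F | v.ord f < 0}.Finite := by
  rcases eq_or_ne f 0 with rfl | hf
  · simp
  obtain ⟨D, hD, -⟩ := HasPrincipalDivisors.exists_divisor (K := K) f hf
  refine D.support.finite_toSet.subset fun v hv => ?_
  have hv' : v.ord f < 0 := hv
  rw [Finset.mem_coe, Finsupp.mem_support_iff, hD v]
  omega

theorem ord_add_nonneg (v : Place K F) {f g : F} (hf : 0 ≤ v.ord f) (hg : 0 ≤ v.ord g) :
    0 ≤ v.ord (f + g) :=
  ord_nonneg_of_mem v (add_mem (mem_of_ord_nonneg v hf) (mem_of_ord_nonneg v hg))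

theorem ord_mul_nonneg (v : Place K F) {f g : F} (hf : 0 ≤ v.ord f) (hg : 0 ≤ v.ord g) :
    0 ≤ v.ord (f * g) :=
  ord_nonneg_of_mem v (mul_mem (mem_of_ord_nonneg v hf) (mem_of_ord_nonneg v hg))

/-- **L4.0**: the repartitions are exactly the families with finitely many poles. -/
theorem mem_repartitions_iff [HasPrincipalDivisors K F] {α : Place K F → F} :
    α ∈ repartitions K F ↔ {v : Place K F | v.ord (α v) < 0}.Finite := by
  refine ⟨fun h => ?_, mem_repartitions_of_finite_ord⟩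
  unfold repartitions at h
  induction h using Algebra.adjoin_induction with
  | mem x hx =>
    have hx' : {v : Place K F | ¬v.adicValuation (x v) ≤ 1}.Finite := hx
    rwa [show {v : Place K F | ¬v.adicValuation (x v) ≤ 1}
        = {v : Place K F | v.ord (x v) < 0} from
      Set.ext fun v => v.not_adicValuation_le_one_iff] at hx'
  | algebraMap f => exact finite_poles_const f
  | add x y _ _ hx hy =>
    refine (hx.union hy).subset fun v hv => ?_
    have hv' : v.ord (x v + y v) < 0 := hv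
    by_contra hcon
    rw [Set.mem_union, not_or] at hcon
    have h1 : 0 ≤ v.ord (x v) := not_lt.mp hcon.1
    have h2 : 0 ≤ v.ord (y v) := not_lt.mp hcon.2
    have := ord_add_nonneg v h1 h2
    omega
  | mul x y _ _ hx hy =>
    refine (hx.union hy).subset fun v hv => ?_
    have hv' : v.ord (x v * y v) < 0 := hv
    by_contra hcon
    rw [Set.mem_union, not_or] at hcon
    have h1 : 0 ≤ v.ord (x v) := not_lt.mp hcon.1
    have h2 : 0 ≤ v.ord (y v) := not_lt.mp hcon.2
    have := ord_mul_nonneg v h1 h2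
    omega

/-! ### The repartition supported at one place -/

open scoped Classical in
/-- The repartition with value `t` at `v` and `0` elsewhere. -/
def single (v : Place K F) (t : F) : ↥(repartitions K F) :=
  ⟨Pi.single v t, mem_repartitions_of_finite_ord <|
    (Set.finite_singleton v).subset fun w hw => by
      have hw' : w.ord ((Pi.single v t : Place K F → F) w) < 0 := hw
      by_contra hne
      rw [Set.mem_singleton_iff] at hne
      rw [Pi.single_eq_of_ne hne, Place.ord_zero] at hw'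
      exact lt_irrefl _ hw'⟩

@[simp] theorem single_apply_self (v : Place K F) (t : F) :
    (single v t : Place K F → F) v = t := by
  classical
  simp [single]

theorem single_apply_of_ne {v w : Place K F} (h : w ≠ v) (t : F) :
    (single v t : Place K F → F) w = 0 := by
  classical
  simp [single, Pi.single_eq_of_ne h]

theorem coe_smul_apply (c : K) (α : ↥(repartitions K F)) (w : Place K F) :
    ((c • α : ↥(repartitions K F)) : Place K F → F) w
      = algebraMap K F c * (α : Place K F → F) w := by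
  show (c • (α : Place K F → F)) w = _
  rw [Pi.smul_apply, Algebra.smul_def]

theorem coe_sub_apply (α β : ↥(repartitions K F)) (w : Place K F) :
    ((α - β : ↥(repartitions K F)) : Place K F → F) w
      = (α : Place K F → F) w - (β : Place K F → F) w := rfl

theorem coe_add_apply (α β : ↥(repartitions K F)) (w : Place K F) :
    ((α + β : ↥(repartitions K F)) : Place K F → F) w
      = (α : Place K F → F) w + (β : Place K F → F) w := rfl

theorem single_mem_repartitionsOf (v : Place K F) (D : Divisor K F) {t : F}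
    (ht : v.ord t = -(D v + 1)) : single v t ∈ repartitionsOf (D + prim v) := by
  rw [mem_repartitionsOf_iff]
  intro w
  by_cases hw : w = v
  · subst hw
    right
    rw [single_apply_self, ht]
    simp only [Finsupp.coe_add, Pi.add_apply, prim_apply_self]
    omega
  · left
    exact single_apply_of_ne hw t

/-! ### Lemma A: `𝔸(D + P) = 𝔸(D) + K α₀` -/

theorem repartitionsOf_add_prim_le (v : Place K F) (hv : v.deg = 1) (D : Divisor K F) {t : F}
    (ht0 : t ≠ 0) (ht : v.ord t = -(D v + 1)) :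
    repartitionsOf (D + prim v) ≤ repartitionsOf D ⊔ Submodule.span K {single v t} := by
  intro β hβ
  rw [mem_repartitionsOf_iff] at hβ
  obtain ⟨b, hb⟩ : ∃ b : F, b = (β : Place K F → F) v := ⟨_, rfl⟩
  have hg : 0 ≤ v.ord (b * t⁻¹) := by
    rcases eq_or_ne b 0 with h0 | h0
    · rw [h0, zero_mul, Place.ord_zero]
    · have h1 := (hβ v).resolve_left (hb ▸ h0)
      simp only [Finsupp.coe_add, Pi.add_apply, prim_apply_self] at h1
      rw [← hb] at h1
      rw [v.ord_mul h0 (inv_ne_zero ht0), v.ord_inv, ht]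
      omega
  obtain ⟨c, hc⟩ := exists_const_sub v hv hg
  have hdecomp : β = (β - c • single v t) + c • single v t := by abel
  rw [hdecomp]
  refine Submodule.add_mem _ (Submodule.mem_sup_left ?_)
    (Submodule.mem_sup_right (Submodule.smul_mem _ _ (Submodule.mem_span_singleton_self _)))
  rw [mem_repartitionsOf_iff]
  intro w
  rw [coe_sub_apply, coe_smul_apply]
  by_cases hw : w = v
  · subst hw
    rw [single_apply_self]
    have hfac : b - algebraMap K F c * t = (b * t⁻¹ - algebraMap K F c) * t := by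
      field_simp
    rw [← hb, hfac]
    rcases hc with hc | hc
    · left; rw [hc, zero_mul]
    · rcases eq_or_ne (b * t⁻¹ - algebraMap K F c) 0 with h0 | h0
      · left; rw [h0, zero_mul]
      right
      rw [w.ord_mul h0 ht0, ht]
      omega
  · rw [single_apply_of_ne hw, mul_zero, sub_zero]
    have := hβ w
    simpa [prim_apply_of_ne hw] using this

/-! ### Lemma B: `α₀ ∈ 𝔸(D) + F` iff `L(D + P) ≠ L(D)` -/

theorem ord_eq_of_mem_of_not_mem (v : Place K F) (D : Divisor K F) {f₀ : F}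
    (hf₀ : f₀ ∈ riemannRochSpace (D + prim v)) (hf₀' : f₀ ∉ riemannRochSpace D) :
    f₀ ≠ 0 ∧ v.ord f₀ = -(D v + 1) := by
  have hf₀0 : f₀ ≠ 0 := fun h => hf₀' (h ▸ Submodule.zero_mem _)
  refine ⟨hf₀0, ?_⟩
  have h1 := (mem_L_iff.mp hf₀ v).resolve_left hf₀0
  simp only [Finsupp.coe_add, Pi.add_apply, prim_apply_self] at h1
  by_contra hne
  apply hf₀'
  rw [mem_L_iff]
  intro w
  right
  by_cases hw : w = v
  · subst hw; omega
  · have h2 := (mem_L_iff.mp hf₀ w).resolve_left hf₀0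
    simpa [prim_apply_of_ne hw] using h2

/-- The constant repartition attached to `f`. -/
def const (f : F) : ↥(repartitions K F) := algebraMap F ↥(repartitions K F) f

@[simp] theorem const_apply (f : F) (w : Place K F) :
    (const (K := K) f : Place K F → F) w = f := rfl

theorem const_mem_principal (f : F) : const (K := K) f ∈ principalRepartitions K F :=
  mem_principalRepartitions_iff.mpr ⟨f, rfl⟩

theorem single_mem_sup_of_not_le (v : Place K F) (hv : v.deg = 1) (D : Divisor K F) {t : F}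
    (ht0 : t ≠ 0) (ht : v.ord t = -(D v + 1))
    (h : ¬ riemannRochSpace (D + prim v) ≤ riemannRochSpace D) :
    single v t ∈ repartitionsOf D ⊔ principalRepartitions K F := by
  obtain ⟨f₀, hf₀, hf₀'⟩ := SetLike.not_le_iff_exists.mp h
  obtain ⟨hf₀0, hord⟩ := ord_eq_of_mem_of_not_mem v D hf₀ hf₀'
  have hg0 : v.ord (f₀ * t⁻¹) = 0 := by
    rw [v.ord_mul hf₀0 (inv_ne_zero ht0), v.ord_inv, ht, hord]; omega
  obtain ⟨c, hc⟩ := exists_const_sub v hv (le_of_eq hg0.symm)
  have hc0 : c ≠ 0 := by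
    rintro rfl
    rw [map_zero, sub_zero] at hc
    rcases hc with hc | hc
    · exact (mul_ne_zero hf₀0 (inv_ne_zero ht0)) hc
    · omega
  have hcF : algebraMap K F c ≠ 0 := by simpa using hc0
  -- `α₀ = c⁻¹ f₀ - (c⁻¹ f₀ - α₀)`
  have hdecomp : single v t
      = (single v t - c⁻¹ • const (K := K) f₀) + c⁻¹ • const (K := K) f₀ := by abel
  rw [hdecomp]
  refine Submodule.add_mem _ (Submodule.mem_sup_left ?_)
    (Submodule.mem_sup_right (Submodule.smul_mem _ _ (const_mem_principal f₀)))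
  rw [mem_repartitionsOf_iff]
  intro w
  rw [coe_sub_apply, coe_smul_apply, const_apply]
  by_cases hw : w = v
  · subst hw
    rw [single_apply_self]
    have hfac : t - algebraMap K F c⁻¹ * f₀
        = -(algebraMap K F c⁻¹ * ((f₀ * t⁻¹ - algebraMap K F c) * t)) := by
      rw [map_inv₀]
      field_simp
      ring
    rw [hfac]
    rcases hc with hc | hc
    · left; rw [hc, zero_mul, mul_zero, neg_zero]
    · right
      have hne : f₀ * t⁻¹ - algebraMap K F c ≠ 0 := by
        intro h0; rw [h0, Place.ord_zero] at hc; exact lt_irrefl _ hc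
      have hcinv : algebraMap K F c⁻¹ ≠ 0 := by simpa using hc0
      rw [ord_neg, w.ord_mul hcinv (mul_ne_zero hne ht0), ord_algebraMap, w.ord_mul hne ht0, ht]
      omega
  · rw [single_apply_of_ne hw, zero_sub]
    have h2 := (mem_L_iff.mp hf₀ w).resolve_left hf₀0
    right
    have hcinv : algebraMap K F c⁻¹ ≠ 0 := by simpa using hc0
    rw [ord_neg, w.ord_mul hcinv hf₀0, ord_algebraMap]
    simpa [prim_apply_of_ne hw] using h2

theorem not_le_of_single_mem_sup (v : Place K F) (D : Divisor K F) {t : F}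
    (ht0 : t ≠ 0) (ht : v.ord t = -(D v + 1))
    (h : single v t ∈ repartitionsOf D ⊔ principalRepartitions K F) :
    ¬ riemannRochSpace (D + prim v) ≤ riemannRochSpace D := by
  obtain ⟨β, hβ, γ, hγ, hsum⟩ := Submodule.mem_sup.mp h
  obtain ⟨f, hf⟩ := mem_principalRepartitions_iff.mp hγ
  rw [mem_repartitionsOf_iff] at hβ
  -- values
  have hval : ∀ w, (single v t : Place K F → F) w = (β : Place K F → F) w + f := by
    intro w
    have := congrArg (fun x : ↥(repartitions K F) => (x : Place K F → F) w) hsum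
    simp only [coe_add_apply, hf] at this
    exact this.symm
  have hv := hval v
  rw [single_apply_self] at hv
  -- `f = t - β v` has order exactly `-(D v + 1)` at `v`
  have hfv : f = t + -(β : Place K F → F) v := by rw [hv]; ring
  have hford : f ≠ 0 ∧ v.ord f = -(D v + 1) := by
    rcases eq_or_ne ((β : Place K F → F) v) 0 with h0 | h0
    · rw [hfv, h0, neg_zero, add_zero]; exact ⟨ht0, ht⟩
    · have h1 := (hβ v).resolve_left h0
      have hlt : v.ord t < v.ord (-(β : Place K F → F) v) := by rw [ord_neg, ht]; omega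
      have := ord_add_eq_of_lt v ht0 (neg_ne_zero.mpr h0) hlt
      rw [← hfv] at this
      refine ⟨?_, this.trans ht⟩
      intro hf0
      rw [hf0, Place.ord_zero, ht] at this
      rw [hf0] at hfv
      have h2 : (β : Place K F → F) v = t := by
        have := congrArg (fun x => x + (β : Place K F → F) v) hfv
        simpa using this
      rw [h2, ht] at h1
      omega
  intro hle
  have hfL : f ∈ riemannRochSpace (D + prim v) := by
    rw [mem_L_iff]
    intro w
    right
    by_cases hw : w = v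
    · subst hw
      simp only [Finsupp.coe_add, Pi.add_apply, prim_apply_self]
      have := hford.2
      omega
    · have hw' := hval w
      rw [single_apply_of_ne hw] at hw'
      have hβw : (β : Place K F → F) w = -f := by
        have := congrArg (fun x => x - f) hw'
        simpa using this.symm
      have hβ0 : (β : Place K F → F) w ≠ 0 := by rw [hβw]; exact neg_ne_zero.mpr hford.1
      have h1 := (hβ w).resolve_left hβ0
      rw [hβw, ord_neg] at h1
      simpa [prim_apply_of_ne hw] using h1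
  have := (mem_L_iff.mp (hle hfL) v).resolve_left hford.1
  rw [hford.2] at this
  omega

theorem single_mem_sup_iff (v : Place K F) (hv : v.deg = 1) (D : Divisor K F) {t : F}
    (ht0 : t ≠ 0) (ht : v.ord t = -(D v + 1)) :
    single v t ∈ repartitionsOf D ⊔ principalRepartitions K F ↔
      ¬ riemannRochSpace (D + prim v) ≤ riemannRochSpace D :=
  ⟨not_le_of_single_mem_sup v D ht0 ht, single_mem_sup_of_not_le v hv D ht0 ht⟩

/-- A function with prescribed order at `v`. -/
theorem exists_ord_eq (v : Place K F) (n : ℤ) : ∃ t : F, t ≠ 0 ∧ v.ord t = n := by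
  obtain ⟨π, hπ⟩ := exists_ord_eq_one v
  have hπ0 : π ≠ 0 := ne_zero_of_ord_ne_zero v (by rw [hπ]; exact one_ne_zero)
  exact ⟨π ^ n, zpow_ne_zero n hπ0, by rw [v.ord_zpow, hπ, mul_one]⟩

end Fermat.Agent.Lib.RR.H439

end
end
-- ===== PACK-END Lib/RR/H439/Adeles.lean

-- ===== PACK-BEGIN Ribet/H944/WallSpec.lean
section


/-!
# Row 38, WALL-p (Mazur-Ribet at `p`): frozen decomposition + proved glue  (wall architect helper944)

Target of the row: `Spec.AtPOccursGoodStatement` (S40) or `Spec.AtPOccursStatement` (S44).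
`N = p·M'`, `p ∤ M'`, `J = JZero (p * M')`, `A` a valuation ring of `ℚ̄` over `p`,
`I = A.inertiaSubgroupIn ℚ`, `χ` = mod-`p` cyclotomic character, encoded as in `Spec.lean`:
`CycloAt p σ c` means `σ ζ = ζ ^ c` for all `p`-th roots of unity `ζ`.

## Level 1 (W0 + WP + ordinary case)
* `IsDegPair p M' S₀ α β`  : `α, β : J₀(pM') → J₀(M')` additive, Galois-equivariant, Hecke-equivariant
  off `S₀` (the two degeneracy pushforwards; piece W-DEG).
* `WPFor p M' α β`         : **(WP)** on the new part `ker α ∩ ker β` of `J[p]`, every `σ ∈ I` satisfies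
  `(σ - χ(σ))(σ - 1) = 0`   ("A2 at `p`, twisted").
* `NewKernelStatement`     : W-DEG + WP.
* `OrdCaseGoodStatement` / `OrdCaseFreyStatement` : the wall under the extra hypothesis
  `OrdinaryInertiaAt` (`(σ - χ(σ))(σ - 1) = 0` on `E[p]` for `σ ∈ I`), i.e. the ORDINARY case.
* PROVED: `wallGood_of`, `wallFrey_of` : Places + NewKernel + OrdCase ⇒ wall.
  (Supersingular curves never satisfy `OrdinaryInertiaAt`, piece ELOC-ss; so the supersingular
  case is W-DEG + WP alone.)

## Level 2 (the ordinary case = filtration package + local theory of `E[p]`)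
* `AtPFiltrationStatement` : subgroups `𝓕` ("finite part", `ker` of the slope map) and `𝒮`
  ("split part", trivial reductions on both components) of `J` with
  (S1) `σ x - x ∈ 𝒮` for `x ∈ J[p]`, `σ ∈ I`;
  (S2) `I` acts through `χ` on the new part of `𝒮`;
  (S3) a new Hecke-eigen class in `𝓕 ∖ 𝒮` has its eigensystem at level `M'`;
  (S4) **crux (I6)**: a new, non-Eisenstein, ordinary, peu ramifiée class lies in `𝓕`.
* `ELOCOrdGoodStatement` / `ELOCOrdFreyStatement` : for `E` with `OrdinaryInertiaAt`: the line `⟨t⟩`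
  with `I` acting by `χ`, trivial action on `E[p]/⟨t⟩`, and `E[p]` peu ramifiée (`PeuFixes`).
* PROVED: `newKernel_of_filtration`, `ordCaseGood_of`, `ordCaseFrey_of`, and the total glue
  `wallGood_of_filtration`, `wallFrey_of_filtration`; `atPOccursGood_of` lands in the Spec3 shape
  when (S3) is proved with `OccursIn`.

Conclusions are stated with `Lowered` (`OccursIn` at level `M'` OR a congruent eigenform of level
`M'`), the weakest form the top glue accepts: `S40_of_wall`, `S44_of_wall` below.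
-/

set_option autoImplicit false
set_option linter.style.haveILetI false

open WeierstrassCurve WeierstrassCurve.Affine WeierstrassCurve.Affine.Point
open CuspForm ModularFormClass UpperHalfPlane ModularCurve

namespace Fermat.Agent.Ribet.H944.Wall

open Fermat.Agent.Ribet.Spec

/-! ## Vocabulary -/

/-- `σ` acts on the `p`-th roots of unity as the `c`-th power (`c = χ(σ)`). -/
def CycloAt (p : ℕ) (σ : GQ) (c : ℕ) : Prop :=
  ∀ ζ : AlgebraicClosure ℚ, ζ ^ p = 1 → σ ζ = ζ ^ c

/-- `E[p]` for an elliptic curve over `ℚ` (`WTorsion W p`, `FreyTorsion P` are instances). -/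
abbrev ETorsion (E : WeierstrassCurve ℚ) (p : ℕ) : Type :=
  Submodule.torsionBy ℤ (E⁄(AlgebraicClosure ℚ)).Point p

/-- `x` is a Hecke eigenvector with eigenvalues `a` away from `S`. -/
def EigenAt (N : ℕ) [NeZero N] (S : Finset ℕ) (a : ℕ → ℤ) (x : JZero N) : Prop :=
  ∀ ℓ : Nat.Primes, (ℓ : ℕ) ∉ S → heckeOperatorBar N ℓ x = a ℓ • x

/-- A Galois- and Hecke-equivariant embedding of `E[p]` into `J₀(N)`, eigenvalues `a` off `S`. -/
def EEmbedsIn (E : WeierstrassCurve ℚ) (p N : ℕ) [NeZero N] (S : Finset ℕ) (a : ℕ → ℤ) :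
    Prop :=
  ∃ ι : ETorsion E p →+ JZero N, Function.Injective ι ∧
    (∀ (σ : GQ) (x : ETorsion E p), ι (σ • x) = σ • ι x) ∧
    ∀ ℓ : Nat.Primes, (ℓ : ℕ) ∉ S → ∀ x : ETorsion E p,
      heckeOperatorBar N ℓ (ι x) = a ℓ • ι x

/-- A normalised eigenform of level `M` congruent to `a` modulo a prime over `p`, off `S`. -/
def EigenAway (M p : ℕ) (S : Finset ℕ) (a : ℕ → ℤ) : Prop :=
  ∃ (g : CuspForm (CongruenceSubgroup.Gamma0 M) 2) (𝔪 : Ideal (integralClosure ℤ ℂ)),
    g.IsNormalizedEigenform ∧ 𝔪.IsMaximal ∧ (p : integralClosure ℤ ℂ) ∈ 𝔪 ∧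
    ∀ ℓ : ℕ, ℓ.Prime → ℓ ∉ S →
      ∃ b : integralClosure ℤ ℂ, (b : ℂ) = qCoeff g ℓ ∧
        b - ((a ℓ : ℤ) : integralClosure ℤ ℂ) ∈ 𝔪

/-- The conclusion of the wall, weakest form: the eigensystem `a` lives at level `M'`, either on
`J₀(M')[p]` or on a congruent eigenform, away from a finite set containing `S`. -/
def Lowered (M' p : ℕ) [NeZero M'] (S : Finset ℕ) (a : ℕ → ℤ) : Prop :=
  ∃ S' : Finset ℕ, S ⊆ S' ∧ (OccursIn M' p S' a ∨ EigenAway M' p S' a)

/-- The eigensystem `a` is not Eisenstein: outside every finite set there is a prime `ℓ` with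
`a ℓ ≢ ℓ + 1 mod p`. -/
def NonEisAway (p : ℕ) (a : ℕ → ℤ) : Prop :=
  ∀ S : Finset ℕ, ∃ ℓ : ℕ, ℓ.Prime ∧ ℓ ∉ S ∧ ¬ (p : ℤ) ∣ a ℓ - (ℓ + 1)

/-- **(H)** inertia at `A` acts "ordinarily" on `E[p]`: `(σ - χ(σ))(σ - 1) = 0`. -/
def OrdinaryInertiaAt (E : WeierstrassCurve ℚ) (p : ℕ)
    (A : ValuationSubring (AlgebraicClosure ℚ)) : Prop :=
  ∀ σ ∈ A.inertiaSubgroupIn ℚ, ∀ c : ℕ, CycloAt p σ c →
    ∀ x : ETorsion E p, σ • σ • x + c • x = (c + 1) • σ • x

/-- `σ` lies in the "peu ramifiée" subgroup of inertia at `A`: it fixes every unit `y` of `A`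
whose `p`-th power lies in `K = ℚ̄^I(ζ_p)`.  (So `σ` fixes `ζ_p` and `u^{1/p}` for units `u`.) -/
def PeuFixes (A : ValuationSubring (AlgebraicClosure ℚ)) (p : ℕ) (σ : GQ) : Prop :=
  σ ∈ A.inertiaSubgroupIn ℚ ∧
    ∀ y : AlgebraicClosure ℚ, y ∈ A → y⁻¹ ∈ A →
      (∀ τ ∈ A.inertiaSubgroupIn ℚ, CycloAt p τ 1 → τ (y ^ p) = y ^ p) → σ y = y

/-! ## Level 1 -/

/-- (W-DEG) a degeneracy pair. -/
structure IsDegPair (p M' : ℕ) [NeZero M'] [NeZero (p * M')] (S₀ : Finset ℕ)
    (α β : JZero (p * M') →+ JZero M') : Prop where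
  galois_left : ∀ (σ : GQ) (x : JZero (p * M')), α (σ • x) = σ • α x
  galois_right : ∀ (σ : GQ) (x : JZero (p * M')), β (σ • x) = σ • β x
  hecke_left : ∀ ℓ : Nat.Primes, (ℓ : ℕ) ∉ S₀ → ∀ x : JZero (p * M'),
    α (heckeOperatorBar (p * M') ℓ x) = heckeOperatorBar M' ℓ (α x)
  hecke_right : ∀ ℓ : Nat.Primes, (ℓ : ℕ) ∉ S₀ → ∀ x : JZero (p * M'),
    β (heckeOperatorBar (p * M') ℓ x) = heckeOperatorBar M' ℓ (β x)

/-- **(WP)** for the pair `(α, β)`: `(σ - χ(σ))(σ - 1) = 0` on the new part of `J[p]`. -/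
def WPFor (p M' : ℕ) [NeZero M'] [NeZero (p * M')]
    (α β : JZero (p * M') →+ JZero M') : Prop :=
  ∀ A : ValuationSubring (AlgebraicClosure ℚ), A.LiesOverPrime p →
    ∀ σ ∈ A.inertiaSubgroupIn ℚ, ∀ c : ℕ, CycloAt p σ c →
    ∀ x : JZero (p * M'), p • x = 0 → α x = 0 → β x = 0 →
      σ • σ • x + c • x = (c + 1) • σ • x

/-- (W-DEG + WP). -/
def NewKernelStatement : Prop :=
  ∀ (p M' : ℕ) [NeZero M'] [NeZero (p * M')], p.Prime → p ≠ 2 → ¬ p ∣ M' →
    ∃ (S₀ : Finset ℕ) (α β : JZero (p * M') →+ JZero M'),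
      IsDegPair p M' S₀ α β ∧ WPFor p M' α β

/-- The wall for S40 (good reduction at `p`), conclusion `Lowered`. -/
def WallGoodStatement : Prop :=
  ∀ (W : WeierstrassCurve ℤ) (p M' : ℕ) [NeZero M'] [NeZero (p * M')], W.Δ ≠ 0 → p.Prime →
    p ≠ 2 → ¬ p ∣ M' → W.IsGoodPrimeFor p → W.ModRepIsIrreducible p →
    ∀ S : Finset ℕ, EEmbedsIn (W.map (Int.castRingHom ℚ)) p (p * M') S (fun ℓ => W.apOfModel ℓ) →
      Lowered M' p S (fun ℓ => W.apOfModel ℓ)

/-- The wall for S44 (Frey curve, `p ∣ abc`), conclusion `Lowered`, non-Eisenstein eigensystem. -/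
def WallFreyStatement : Prop :=
  ∀ (P : FreyPackage) (M' : ℕ) [NeZero M'] [NeZero (P.p * M')], ¬ P.p ∣ M' →
    (P.p : ℤ) ∣ P.a * P.b * P.c →
    GaloisRepIsIrreducible (K := AlgebraicClosure ℚ) ℚ P.freyCurve P.p →
    ∀ (S : Finset ℕ) (a : ℕ → ℤ), NonEisAway P.p a →
      EEmbedsIn P.freyCurve P.p (P.p * M') S a → Lowered M' P.p S a

/-- The ORDINARY case of the wall, good reduction form. -/
def OrdCaseGoodStatement : Prop :=
  ∀ (W : WeierstrassCurve ℤ) (p M' : ℕ) [NeZero M'] [NeZero (p * M')], W.Δ ≠ 0 → p.Prime →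
    p ≠ 2 → ¬ p ∣ M' → W.IsGoodPrimeFor p → W.ModRepIsIrreducible p →
    ∀ A : ValuationSubring (AlgebraicClosure ℚ), A.LiesOverPrime p →
    OrdinaryInertiaAt (W.map (Int.castRingHom ℚ)) p A →
    ∀ S : Finset ℕ, EEmbedsIn (W.map (Int.castRingHom ℚ)) p (p * M') S (fun ℓ => W.apOfModel ℓ) →
      Lowered M' p S (fun ℓ => W.apOfModel ℓ)

/-- The ORDINARY case of the wall, Frey form. -/
def OrdCaseFreyStatement : Prop :=
  ∀ (P : FreyPackage) (M' : ℕ) [NeZero M'] [NeZero (P.p * M')], ¬ P.p ∣ M' →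
    (P.p : ℤ) ∣ P.a * P.b * P.c →
    GaloisRepIsIrreducible (K := AlgebraicClosure ℚ) ℚ P.freyCurve P.p →
    ∀ A : ValuationSubring (AlgebraicClosure ℚ), A.LiesOverPrime P.p →
    OrdinaryInertiaAt P.freyCurve P.p A →
    ∀ (S : Finset ℕ) (a : ℕ → ℤ), NonEisAway P.p a →
      EEmbedsIn P.freyCurve P.p (P.p * M') S a → Lowered M' P.p S a

section Core

variable {E : WeierstrassCurve ℚ} {p M' : ℕ} [NeZero M'] [NeZero (p * M')]

omit [NeZero M'] [NeZero (p * M')] in
theorem nsmul_torsion_eq_zero (x : ETorsion E p) : p • x = 0 := by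
  apply Subtype.ext
  have h := x.2
  rw [Submodule.mem_torsionBy_iff] at h
  rw [AddSubmonoidClass.coe_nsmul, ZeroMemClass.coe_zero, ← natCast_zsmul]
  exact h

omit [NeZero M'] [NeZero (p * M')] in
theorem nsmul_emb_eq_zero (ι : ETorsion E p →+ JZero (p * M')) (x : ETorsion E p) :
    p • ι x = 0 := by
  rw [← map_nsmul, nsmul_torsion_eq_zero, _root_.map_zero]

/-- **(W0)** if the embedded `E[p]` is not contained in the new part, the eigensystem occurs at
level `M'`. -/
theorem occursIn_of_not_new {S S₀ : Finset ℕ} {a : ℕ → ℤ}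
    {α β : JZero (p * M') →+ JZero M'} (hdeg : IsDegPair p M' S₀ α β)
    (ι : ETorsion E p →+ JZero (p * M'))
    (hT : ∀ ℓ : Nat.Primes, (ℓ : ℕ) ∉ S → ∀ x : ETorsion E p,
      heckeOperatorBar (p * M') ℓ (ι x) = a ℓ • ι x)
    (h : ∃ x, α (ι x) ≠ 0 ∨ β (ι x) ≠ 0) :
    OccursIn M' p (S ∪ S₀) a := by
  obtain ⟨x, hx | hx⟩ := h
  · refine ⟨α (ι x), hx, ?_, fun ℓ hℓ => ?_⟩
    · rw [← map_nsmul, nsmul_emb_eq_zero, _root_.map_zero]
    · rw [Finset.mem_union, not_or] at hℓ
      rw [← hdeg.hecke_left ℓ hℓ.2, hT ℓ hℓ.1, map_zsmul]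
  · refine ⟨β (ι x), hx, ?_, fun ℓ hℓ => ?_⟩
    · rw [← map_nsmul, nsmul_emb_eq_zero, _root_.map_zero]
    · rw [Finset.mem_union, not_or] at hℓ
      rw [← hdeg.hecke_right ℓ hℓ.2, hT ℓ hℓ.1, map_zsmul]

/-- (WP) transported to `E[p]` along an embedding into the new part. -/
theorem ordinaryInertiaAt_of_new {α β : JZero (p * M') →+ JZero M'}
    (hWP : WPFor p M' α β) {A : ValuationSubring (AlgebraicClosure ℚ)}
    (hA : A.LiesOverPrime p) (ι : ETorsion E p →+ JZero (p * M'))
    (hinj : Function.Injective ι)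
    (hgal : ∀ (σ : GQ) (x : ETorsion E p), ι (σ • x) = σ • ι x)
    (hnew : ∀ x, α (ι x) = 0 ∧ β (ι x) = 0) :
    OrdinaryInertiaAt E p A := by
  intro σ hσ c hc x
  apply hinj
  rw [map_add, map_nsmul, map_nsmul, hgal, hgal]
  exact hWP A hA σ hσ c hc (ι x) (nsmul_emb_eq_zero ι x) (hnew x).1 (hnew x).2

/-- Level 1 core: W-DEG + WP + the ordinary case give the wall (any curve). -/
theorem lowered_of_newKernel {S : Finset ℕ} {a : ℕ → ℤ}
    {A : ValuationSubring (AlgebraicClosure ℚ)} (hA : A.LiesOverPrime p)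
    (hK : ∃ (S₀ : Finset ℕ) (α β : JZero (p * M') →+ JZero M'),
      IsDegPair p M' S₀ α β ∧ WPFor p M' α β)
    (hO : OrdinaryInertiaAt E p A → Lowered M' p S a)
    (hemb : EEmbedsIn E p (p * M') S a) : Lowered M' p S a := by
  obtain ⟨S₀, α, β, hdeg, hWP⟩ := hK
  obtain ⟨ι, hinj, hgal, hT⟩ := hemb
  by_cases h : ∃ x, α (ι x) ≠ 0 ∨ β (ι x) ≠ 0
  · exact ⟨S ∪ S₀, Finset.subset_union_left, Or.inl (occursIn_of_not_new hdeg ι hT h)⟩
  · have hnew : ∀ x, α (ι x) = 0 ∧ β (ι x) = 0 := by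
      intro x
      by_contra hx
      apply h
      refine ⟨x, ?_⟩
      by_cases h1 : α (ι x) = 0
      · exact Or.inr (fun h2 => hx ⟨h1, h2⟩)
      · exact Or.inl h1
    exact hO (ordinaryInertiaAt_of_new hWP hA ι hinj hgal hnew)

end Core

/-- **Level 1 glue, S40 form.** -/
theorem wallGood_of (hPl : PlacesStatement) (hK : NewKernelStatement)
    (hO : OrdCaseGoodStatement) : WallGoodStatement := by
  intro W p M' _ _ hΔ hp hp2 hpM' hgood hirr S hemb
  obtain ⟨A, hA, -⟩ := hPl p hp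
  exact lowered_of_newKernel hA (hK p M' hp hp2 hpM')
    (fun hH => hO W p M' hΔ hp hp2 hpM' hgood hirr A hA hH S hemb) hemb

/-- **Level 1 glue, S44 form.** -/
theorem wallFrey_of (hPl : PlacesStatement) (hK : NewKernelStatement)
    (hO : OrdCaseFreyStatement) : WallFreyStatement := by
  intro P M' _ _ hpM' hpabc hirr S a hNE hemb
  obtain ⟨A, hA, -⟩ := hPl P.p P.pp
  have hp2 : P.p ≠ 2 := by
    have := P.hp5
    omega
  exact lowered_of_newKernel hA (hK P.p M' P.pp hp2 hpM')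
    (fun hH => hO P M' hpM' hpabc hirr A hA hH S a hNE hemb) hemb

/-! ## Level 2 -/

/-- **The at-`p` filtration package** (pieces W-DEG, I1-I5 and the crux I6 of the board). -/
def AtPFiltrationStatement : Prop :=
  ∀ (p M' : ℕ) [NeZero M'] [NeZero (p * M')], p.Prime → p ≠ 2 → ¬ p ∣ M' →
    ∃ (S₀ : Finset ℕ) (α β : JZero (p * M') →+ JZero M'), IsDegPair p M' S₀ α β ∧
    ∀ A : ValuationSubring (AlgebraicClosure ℚ), A.LiesOverPrime p →
    ∃ 𝓕 𝒮 : AddSubgroup (JZero (p * M')),
      -- (S1) inertia acts trivially on `J[p] / 𝒮`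
      (∀ x : JZero (p * M'), p • x = 0 → ∀ σ ∈ A.inertiaSubgroupIn ℚ, σ • x - x ∈ 𝒮) ∧
      -- (S2) inertia acts through `χ` on the new part of `𝒮`
      (∀ x ∈ 𝒮, p • x = 0 → α x = 0 → β x = 0 →
        ∀ σ ∈ A.inertiaSubgroupIn ℚ, ∀ c : ℕ, CycloAt p σ c → σ • x = c • x) ∧
      -- (S3) a new eigenclass in `𝓕 ∖ 𝒮` has its eigensystem at level `M'`
      (∀ (S : Finset ℕ) (a : ℕ → ℤ), ∀ x ∈ 𝓕, x ∉ 𝒮 → p • x = 0 → α x = 0 → β x = 0 →
        EigenAt (p * M') S a x → Lowered M' p S a) ∧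
      -- (S4) = I6, the crux: new + non-Eisenstein + ordinary shape + peu ramifiée ⇒ in `𝓕`
      (∀ (S : Finset ℕ) (a : ℕ → ℤ), NonEisAway p a → ∀ x t : JZero (p * M'),
        p • x = 0 → α x = 0 → β x = 0 → EigenAt (p * M') S a x →
        p • t = 0 → α t = 0 → β t = 0 → EigenAt (p * M') S a t →
        (∀ σ ∈ A.inertiaSubgroupIn ℚ, ∀ c : ℕ, CycloAt p σ c → σ • t = c • t) →
        (∀ σ ∈ A.inertiaSubgroupIn ℚ, ∃ n : ℕ, σ • x = x + n • t) →
        (∀ σ : GQ, PeuFixes A p σ → σ • x = x) → x ∈ 𝓕)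

/-- Local structure of `E[p]` at `A` in the ordinary case: the line `⟨t⟩` and peu ramifiée. -/
def ELOCOrdAt (E : WeierstrassCurve ℚ) (p : ℕ)
    (A : ValuationSubring (AlgebraicClosure ℚ)) : Prop :=
  ∃ t : ETorsion E p,
    (∀ σ ∈ A.inertiaSubgroupIn ℚ, ∀ c : ℕ, CycloAt p σ c → σ • t = c • t) ∧
    (∀ x : ETorsion E p, ∀ σ ∈ A.inertiaSubgroupIn ℚ, ∃ n : ℕ, σ • x = x + n • t) ∧
    (∀ x : ETorsion E p, ∀ σ : GQ, PeuFixes A p σ → σ • x = x)

/-- (ELOC-ord, good reduction)  `W` good at `p` with ordinary inertia action: line + peu. -/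
def ELOCOrdGoodStatement : Prop :=
  ∀ (W : WeierstrassCurve ℤ) (p : ℕ), W.Δ ≠ 0 → p.Prime → p ≠ 2 → W.IsGoodPrimeFor p →
    ∀ A : ValuationSubring (AlgebraicClosure ℚ), A.LiesOverPrime p →
    OrdinaryInertiaAt (W.map (Int.castRingHom ℚ)) p A →
    ELOCOrdAt (W.map (Int.castRingHom ℚ)) p A

/-- (ELOC-ord, Frey curve with `p ∣ abc`: Tate curve with `p ∣ v_p(Δ)`)  line + peu. -/
def ELOCOrdFreyStatement : Prop :=
  ∀ (P : FreyPackage), (P.p : ℤ) ∣ P.a * P.b * P.c →
    ∀ A : ValuationSubring (AlgebraicClosure ℚ), A.LiesOverPrime P.p →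
    ELOCOrdAt P.freyCurve P.p A

/-- (NMT-W)  an irreducible `W[p]` is not of multiplicative type at `p` (`det = χ`). -/
def NotMultTypeWStatement : Prop :=
  ∀ (W : WeierstrassCurve ℤ) (p : ℕ), W.Δ ≠ 0 → p.Prime → p ≠ 2 → W.ModRepIsIrreducible p →
    ∀ A : ValuationSubring (AlgebraicClosure ℚ), A.LiesOverPrime p →
    ¬ ∀ σ ∈ A.inertiaSubgroupIn ℚ, ∀ c : ℕ, CycloAt p σ c →
      ∀ x : ETorsion (W.map (Int.castRingHom ℚ)) p, σ • x = c • x

/-- (NE-W)  the eigensystem of an irreducible `W[p]` is not Eisenstein. -/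
def NonEisWStatement : Prop :=
  ∀ (W : WeierstrassCurve ℤ) (p : ℕ), W.Δ ≠ 0 → p.Prime → p ≠ 2 → W.ModRepIsIrreducible p →
    NonEisAway p (fun ℓ => W.apOfModel ℓ)

/-- WP is a consequence of (S1) + (S2). -/
theorem newKernel_of_filtration (hF : AtPFiltrationStatement) :
    NewKernelStatement := by
  intro p M' _ _ hp hp2 hpM'
  obtain ⟨S₀, α, β, hdeg, hA'⟩ := hF p M' hp hp2 hpM'
  refine ⟨S₀, α, β, hdeg, ?_⟩
  intro A hA σ hσ c hc x hpx hαx hβx
  obtain ⟨𝓕, 𝒮, h1, h2, -, -⟩ := hA' A hA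
  have hy : σ • x - x ∈ 𝒮 := h1 x hpx σ hσ
  have hpy : p • (σ • x - x) = 0 := by
    rw [nsmul_sub, smul_comm p σ x, hpx, sub_zero]
    exact smul_zero (A := JZero (p * M')) σ
  have hαy : α (σ • x - x) = 0 := by
    rw [map_sub, hdeg.galois_left, hαx, sub_zero]
    exact smul_zero (A := JZero M') σ
  have hβy : β (σ • x - x) = 0 := by
    rw [map_sub, hdeg.galois_right, hβx, sub_zero]
    exact smul_zero (A := JZero M') σ
  have h := h2 _ hy hpy hαy hβy σ hσ c hc
  rw [smul_sub, nsmul_sub] at h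
  have h' : σ • σ • x = c • σ • x - c • x + σ • x := by
    rw [← h]; abel
  rw [h', add_nsmul, one_nsmul]; abel

section Core2

variable {E : WeierstrassCurve ℚ} {p M' : ℕ} [NeZero M'] [NeZero (p * M')]

/-- Level 2 core: the ordinary case from the filtration package at `A`, the local structure of
`E[p]` and NMT (any curve). -/
theorem lowered_of_filtration {S : Finset ℕ} {a : ℕ → ℤ}
    {A : ValuationSubring (AlgebraicClosure ℚ)}
    {S₀ : Finset ℕ} {α β : JZero (p * M') →+ JZero M'} (hdeg : IsDegPair p M' S₀ α β)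
    {𝓕 𝒮 : AddSubgroup (JZero (p * M'))}
    (h2 : ∀ x ∈ 𝒮, p • x = 0 → α x = 0 → β x = 0 →
        ∀ σ ∈ A.inertiaSubgroupIn ℚ, ∀ c : ℕ, CycloAt p σ c → σ • x = c • x)
    (h3 : ∀ (S : Finset ℕ) (a : ℕ → ℤ), ∀ x ∈ 𝓕, x ∉ 𝒮 → p • x = 0 → α x = 0 → β x = 0 →
        EigenAt (p * M') S a x → Lowered M' p S a)
    (h4 : ∀ (S : Finset ℕ) (a : ℕ → ℤ), NonEisAway p a → ∀ x t : JZero (p * M'),
        p • x = 0 → α x = 0 → β x = 0 → EigenAt (p * M') S a x →
        p • t = 0 → α t = 0 → β t = 0 → EigenAt (p * M') S a t →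
        (∀ σ ∈ A.inertiaSubgroupIn ℚ, ∀ c : ℕ, CycloAt p σ c → σ • t = c • t) →
        (∀ σ ∈ A.inertiaSubgroupIn ℚ, ∃ n : ℕ, σ • x = x + n • t) →
        (∀ σ : GQ, PeuFixes A p σ → σ • x = x) → x ∈ 𝓕)
    (hEL : ELOCOrdAt E p A)
    (hNMT : ¬ ∀ σ ∈ A.inertiaSubgroupIn ℚ, ∀ c : ℕ, CycloAt p σ c →
      ∀ x : ETorsion E p, σ • x = c • x)
    (hNE : NonEisAway p a)
    (hemb : EEmbedsIn E p (p * M') S a) : Lowered M' p S a := by
  obtain ⟨ι, hinj, hgal, hT⟩ := hemb
  by_cases h : ∃ x, α (ι x) ≠ 0 ∨ β (ι x) ≠ 0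
  · exact ⟨S ∪ S₀, Finset.subset_union_left, Or.inl (occursIn_of_not_new hdeg ι hT h)⟩
  have hnew : ∀ x, α (ι x) = 0 ∧ β (ι x) = 0 := by
    intro x
    by_contra hx
    apply h
    refine ⟨x, ?_⟩
    by_cases h1 : α (ι x) = 0
    · exact Or.inr (fun h2 => hx ⟨h1, h2⟩)
    · exact Or.inl h1
  have heig : ∀ x, EigenAt (p * M') S a (ι x) := fun x ℓ hℓ => hT ℓ hℓ x
  obtain ⟨t, ht, hxt, hpeu⟩ := hEL
  have hF : ∀ x, ι x ∈ 𝓕 := by
    intro x
    refine h4 S a hNE (ι x) (ι t) (nsmul_emb_eq_zero ι x) (hnew x).1 (hnew x).2 (heig x)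
      (nsmul_emb_eq_zero ι t) (hnew t).1 (hnew t).2 (heig t) ?_ ?_ ?_
    · intro σ hσ c hc
      rw [← hgal, ht σ hσ c hc, map_nsmul]
    · intro σ hσ
      obtain ⟨n, hn⟩ := hxt x σ hσ
      exact ⟨n, by rw [← hgal, hn, map_add, map_nsmul]⟩
    · intro σ hσ
      rw [← hgal, hpeu x σ hσ]
  by_cases hS : ∃ x, ι x ∉ 𝒮
  · obtain ⟨x, hx⟩ := hS
    exact h3 S a (ι x) (hF x) hx (nsmul_emb_eq_zero ι x) (hnew x).1 (hnew x).2 (heig x)
  · exfalso
    apply hNMT
    intro σ hσ c hc x
    apply hinj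
    rw [hgal, map_nsmul]
    have hx : ι x ∈ 𝒮 := by
      by_contra hx
      exact hS ⟨x, hx⟩
    exact h2 (ι x) hx (nsmul_emb_eq_zero ι x) (hnew x).1 (hnew x).2 σ hσ c hc

end Core2

/-- **Level 2 glue, ordinary case, S40 form.** -/
theorem ordCaseGood_of (hF : AtPFiltrationStatement) (hEL : ELOCOrdGoodStatement)
    (hNMT : NotMultTypeWStatement) (hNE : NonEisWStatement) : OrdCaseGoodStatement := by
  intro W p M' _ _ hΔ hp hp2 hpM' hgood hirr A hA hH S hemb
  obtain ⟨S₀, α, β, hdeg, hA'⟩ := hF p M' hp hp2 hpM'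
  obtain ⟨𝓕, 𝒮, -, h2, h3, h4⟩ := hA' A hA
  exact lowered_of_filtration hdeg h2 h3 h4 (hEL W p hΔ hp hp2 hgood A hA hH)
    (hNMT W p hΔ hp hp2 hirr A hA) (hNE W p hΔ hp hp2 hirr) hemb

/-- **Level 2 glue, ordinary case, S44 form** (NMT is `Spec.NotMultiplicativeTypeStatement`,
landed). -/
theorem ordCaseFrey_of (hF : AtPFiltrationStatement) (hEL : ELOCOrdFreyStatement)
    (hNMT : NotMultiplicativeTypeStatement) : OrdCaseFreyStatement := by
  intro P M' _ _ hpM' hpabc hirr A hA hH S a hNE hemb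
  have hp2 : P.p ≠ 2 := by
    have := P.hp5
    omega
  obtain ⟨S₀, α, β, hdeg, hA'⟩ := hF P.p M' P.pp hp2 hpM'
  obtain ⟨𝓕, 𝒮, -, h2, h3, h4⟩ := hA' A hA
  exact lowered_of_filtration hdeg h2 h3 h4 (hEL P hpabc A hA) (hNMT P A hA) hNE hemb

/-- **Total glue, S40 form**: the wall from the filtration package and the local theory. -/
theorem wallGood_of_filtration (hPl : PlacesStatement) (hF : AtPFiltrationStatement)
    (hEL : ELOCOrdGoodStatement) (hNMT : NotMultTypeWStatement) (hNE : NonEisWStatement) :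
    WallGoodStatement :=
  wallGood_of hPl (newKernel_of_filtration hF) (ordCaseGood_of hF hEL hNMT hNE)

/-- **Total glue, S44 form.** -/
theorem wallFrey_of_filtration (hPl : PlacesStatement) (hF : AtPFiltrationStatement)
    (hEL : ELOCOrdFreyStatement) (hNMT : NotMultiplicativeTypeStatement) :
    WallFreyStatement :=
  wallFrey_of hPl (newKernel_of_filtration hF) (ordCaseFrey_of hF hEL hNMT)

/-! ## Top glue: the frozen statements from the walls in `Lowered` form -/

/-- (M4c-type converse of R3S, row S29)  a congruent eigenform of level `M` makes the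
eigensystem occur in `J₀(M)[p]`.  Only needed to land in the `OccursIn` shape of `Spec3`. -/
def OccursOfEigenStatement : Prop :=
  ∀ (M p : ℕ) [NeZero M], p.Prime → ∀ (S : Finset ℕ) (a : ℕ → ℤ), EigenAway M p S a →
    ∃ S' : Finset ℕ, S ⊆ S' ∧ OccursIn M p S' a

/-- The wall in the exact shape `Spec.AtPOccursGoodStatement` of `Spec3.lean`. -/
theorem atPOccursGood_of (hConv : OccursOfEigenStatement) (hWall : WallGoodStatement) :
    AtPOccursGoodStatement := by
  intro W p M' _ _ hΔ hp hp2 hpM' hgood hirr S hemb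
  obtain ⟨S', hSS', hocc | heig⟩ := hWall W p M' hΔ hp hp2 hpM' hgood hirr S hemb
  · exact ⟨S', hSS', hocc⟩
  · obtain ⟨S'', hS'', hocc⟩ := hConv M' p hp S' _ heig
    exact ⟨S'', hSS'.trans hS'', hocc⟩

/-- Conversely the `Spec3` wall gives the `Lowered` wall. -/
theorem wallGood_of_atPOccursGood (h : AtPOccursGoodStatement) : WallGoodStatement := by
  intro W p M' _ _ hΔ hp hp2 hpM' hgood hirr S hemb
  obtain ⟨S', hSS', hocc⟩ := h W p M' hΔ hp hp2 hpM' hgood hirr S hemb
  exact ⟨S', hSS', Or.inl hocc⟩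

/-- `Lowered` gives a congruent eigenform (R3S turns `OccursIn` into an eigenform). -/
theorem eigenAway_of_lowered (hR3 : EigenformOfOccursAwayStatement) {M' p : ℕ} [NeZero M']
    (hp : p.Prime) {S : Finset ℕ} {a : ℕ → ℤ} (h : Lowered M' p S a) :
    ∃ S' : Finset ℕ, EigenAway M' p S' a := by
  obtain ⟨S', -, hocc | heig⟩ := h
  · exact ⟨_, exists_eigenform_of_occursIn hR3 hp hocc⟩
  · exact ⟨S', heig⟩

/-- **S40 from the wall in `Lowered` form**: `BLR-W + WALL + R3S + R3'-W ⇒ S40`. -/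
theorem S40_of_wall (hE : EmbedWStatement) (hWall : WallGoodStatement)
    (hR3 : EigenformOfOccursAwayStatement) (hR3' : AlmostAllToWitnessWStatement) :
    S40Statement := by
  intro W hΔ p hp hp2 hgood hirr M hM hpM hp2M hmod
  obtain ⟨M', rfl⟩ := hpM
  have hM'pos : 0 < M' := by
    rcases Nat.eq_zero_or_pos M' with h0 | h0
    · subst h0; simp at hM
    · exact h0
  rw [Nat.mul_div_cancel_left M' hp.pos]
  have hpM' : ¬ p ∣ M' := by
    rintro ⟨k, rfl⟩
    exact hp2M ⟨k, by ring⟩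
  haveI : NeZero M' := ⟨hM'pos.ne'⟩
  haveI : NeZero (p * M') := ⟨hM.ne'⟩
  obtain ⟨f, 𝔪, hwit⟩ := hmod
  obtain ⟨S, hemb⟩ := hE W p (p * M') hΔ hp hp2 hirr f 𝔪 hwit
  obtain ⟨S', g, 𝔪', hg, hmax, hpm, hc⟩ :=
    eigenAway_of_lowered hR3 hp (hWall W p M' hΔ hp hp2 hpM' hgood hirr S hemb)
  exact ⟨g, 𝔪', hR3' W p M' hΔ hp hp2 hM'pos hirr g 𝔪' _ hg hmax hpm hc⟩

/-- **S44 from the wall in `Lowered` form**:
`BLR + WALL + NE + R3S + R3' ⇒ S44` (NE = `Spec.NonEisensteinStatement`, landed). -/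
theorem S44_of_wall (hE : EmbedStatement) (hWall : WallFreyStatement)
    (hNE : NonEisensteinStatement)
    (hR3 : EigenformOfOccursAwayStatement) (hR3' : AlmostAllToWitnessStatement) :
    S44Statement := by
  intro P N hcond hpN hirr hmod
  have hsq : ¬ P.p ^ 2 ∣ N := hcond.sq_not_dvd P.pp
  have hpabc := hcond.p_dvd_abc hpN
  have hNpos := hcond.pos
  obtain ⟨M', rfl⟩ := hpN
  have hM'pos : 0 < M' := by
    rcases Nat.eq_zero_or_pos M' with h0 | h0
    · subst h0; simp at hNpos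
    · exact h0
  have hpM' : ¬ P.p ∣ M' := by
    rintro ⟨k, rfl⟩
    exact hsq ⟨k, by ring⟩
  haveI : NeZero M' := ⟨hM'pos.ne'⟩
  haveI : NeZero (P.p * M') := ⟨hNpos.ne'⟩
  obtain ⟨f, W, 𝔪, hwit⟩ := hmod
  have hwit' : P.IsCongruentWitness (P.p * M') f W 𝔪 := hwit
  obtain ⟨S, hemb⟩ := hE P (P.p * M') hirr f W 𝔪 hwit'
  have hNE' : NonEisAway P.p (fun ℓ => W.apOfModel ℓ) := by
    intro S₁
    obtain ⟨ℓ, hℓ, hℓS, -, hne⟩ := hNE P W hwit.2.1 hirr S₁
    exact ⟨ℓ, hℓ, hℓS, hne⟩
  obtain ⟨S', g, 𝔪', hg, hmax, hp, hc⟩ :=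
    eigenAway_of_lowered hR3 P.pp (hWall P M' hpM' hpabc hirr S _ hNE' hemb)
  exact ⟨M', Dvd.intro_left _ rfl, hpM', g, W, 𝔪',
    hR3' P M' hM'pos g W 𝔪' _ hg hwit.2.1 hmax hp hc⟩

end Fermat.Agent.Ribet.H944.Wall

end
-- ===== PACK-END Ribet/H944/WallSpec.lean

-- ===== PACK-BEGIN A2/Mod/Spec.lean
section






/-!
# WALL A2 / MOD — frozen CONCRETE leaves (architect: deputy helper994)

Level `N = M * q`, `q` prime, `q ∤ M`.  `P` a valuation subring of `Q̄` over `q`, `E ⊆ Q̄` an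
intermediate field such that `R = R_E = P ∩ E` is a discrete valuation ring with uniformiser `w`
(number field, or a finite extension of the inertia field).  `k = R / w` (automatically perfect).

* `F_N = FE E N = E(j_d : d ∣ N) ⊆ E((t))`, `j_d = j(t^d)`;
* `α = heckeAlphaBar E M q : F_M → F_N` (inclusion), `β = heckeBetaBar E M q` (`t ↦ t^q`, `j_d ↦ j_{dq}`);
* `V∞` = Gauss valuation ring of the `t`-expansion (`H708.gaussInf`, here via the predicate `IsVinf`);
* `W` = Fricke involution of `F_N` over `E` (`j_d ↦ j_{N/d}`), `V₀ := V∞.comap W`;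
* **coordinate `x := j · j_q`** (NOT `j`, NOT `j + j_q`):  `j, j_q` are integral over `ℤ[x]` and
  `1/j, 1/j_q` are integral over `ℤ[1/x]` (leaf `ChartCompat`), hence BOTH `α` and `β` map the
  level-`M` charts for the coordinate `j` (finite chart AND chart at infinity) into the level-`N`
  charts for the coordinate `x`; `x̄ = j̄^(q+1)` on `C∞`, `x̄ = j̄_q^(q+1)` on `C₀`: separable (tame)
  on both components;  `[F_N : E(x)] = 2 ψ(N) = 2 (q+1) ψ(M)`, residue degrees `ψ(N)` and `ψ(N)`.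

Every `def …Statement : Prop` below is ONE leaf: prove `theorem foo : FooStatement` in
`Fermat/Agent/A2/Mod/H<seat>/*.lean` (namespace `Fermat.Agent.A2.Mod.H<seat>`), importing this file.
The abstract pieces on main (H48 QEP2, H492 M4, H372 T-ALG, H168/H132 nodes, H296/H373/H969 normal)
turn the leaves + `GoodRedAt` (level `M`, = output of S18 b2) into helper13's `SSChart`s (MODASM).
-/

set_option autoImplicit false
set_option synthInstance.maxHeartbeats 400000
set_option maxHeartbeats 1600000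

noncomputable section

namespace Fermat.Agent.A2.Mod

open ModularCurve HahnSeries Polynomial

/-- The field `ℚ̄`. -/
abbrev Qb : Type := AlgebraicClosure ℚ

/-! ## Objects -/

section Defs

variable (P : ValuationSubring _root_.Fermat.Agent.A2.Mod.Qb) (E : IntermediateField ℚ _root_.Fermat.Agent.A2.Mod.Qb) (N : ℕ)

/-- `R_E = P ∩ E`. -/
abbrev RE : ValuationSubring E := P.comap (algebraMap E _root_.Fermat.Agent.A2.Mod.Qb)

/-- `F_{N,E} = E(j(t^d) : d ∣ N) ⊆ E((t))`. -/
abbrev FE : IntermediateField E (LaurentSeries E) :=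
  laurentBaseChange E (modularFunctionFieldFull N)

/-- The constant `r ∈ R_E` as an element of `F_{N,E}`. -/
def cE (r : _root_.Fermat.Agent.A2.Mod.RE P E) : _root_.Fermat.Agent.A2.Mod.FE E N := algebraMap E (_root_.Fermat.Agent.A2.Mod.FE E N) (r : E)

/-- The generator `j_d = j(t^d)` of `F_{N,E}`, `d ∣ N`. -/
def jE (d : ℕ) [NeZero d] (hd : d ∣ N) : _root_.Fermat.Agent.A2.Mod.FE E N :=
  ⟨coeffEmb E (qExpand ℚ d jq), coeffEmb_mem_laurentBaseChange E (jqd_mem_full N hd)⟩

/-- Evaluation of a polynomial over `R_E` at an element of `F_{N,E}`. -/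
def ev (x : _root_.Fermat.Agent.A2.Mod.FE E N) (a : Polynomial (_root_.Fermat.Agent.A2.Mod.RE P E)) : _root_.Fermat.Agent.A2.Mod.FE E N :=
  a.eval₂ ((algebraMap E (_root_.Fermat.Agent.A2.Mod.FE E N)).comp (_root_.Fermat.Agent.A2.Mod.RE P E).subtype) x

/-- `V` is the Gauss valuation ring `V∞` of `F_{N,E}` with respect to `R_E`
(`= H708.gaussInf (RE P E) (modularFunctionFieldFull N) _ _`). -/
def IsVinf (V : ValuationSubring (_root_.Fermat.Agent.A2.Mod.FE E N)) : Prop :=
  ∀ f : _root_.Fermat.Agent.A2.Mod.FE E N, f ∈ V ↔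
    H708.IsGaussInt (_root_.Fermat.Agent.A2.Mod.RE P E) (modularFunctionFieldFull N) (f : LaurentSeries E)

/-- `W` is the Fricke involution of `F_{N,E}` over `E`: `j_d ↦ j_{N/d}`. -/
def IsFricke (W : _root_.Fermat.Agent.A2.Mod.FE E N ≃ₐ[E] _root_.Fermat.Agent.A2.Mod.FE E N) : Prop :=
  (∀ (d d' : ℕ) [NeZero d] [NeZero d'] (hd : d ∣ N) (hd' : d' ∣ N), d * d' = N →
    W (jE E N d hd) = jE E N d' hd') ∧ ∀ f, W (W f) = f

/-- `f ∈ w · V`. -/
def InW (V : ValuationSubring (_root_.Fermat.Agent.A2.Mod.FE E N)) (w : _root_.Fermat.Agent.A2.Mod.RE P E) (f : _root_.Fermat.Agent.A2.Mod.FE E N) : Prop :=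
  f * (cE P E N w)⁻¹ ∈ V

/-- Residues of the family `b` are linearly independent over `k[x̄]`, in the elementwise form used
by `H48.GaussPair`: `∑ aᵢ(x) bᵢ ∈ w V ⟹ w ∣ aᵢ` for all `i`. -/
def IndepMod (V : ValuationSubring (_root_.Fermat.Agent.A2.Mod.FE E N)) (w : _root_.Fermat.Agent.A2.Mod.RE P E) (x : _root_.Fermat.Agent.A2.Mod.FE E N) {n : ℕ}
    (b : Fin n → _root_.Fermat.Agent.A2.Mod.FE E N) : Prop :=
  ∀ a : Fin n → Polynomial (_root_.Fermat.Agent.A2.Mod.RE P E),
    InW P E N V w (∑ i, ev P E N x (a i) * b i) → ∀ i, Polynomial.C w ∣ a i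

/-- The chart: elements of `F_{N,E}` integral over `R_E[x]` (as a set; `R_E[x]` = image of `ev`). -/
def chart (x : _root_.Fermat.Agent.A2.Mod.FE E N) : Set (_root_.Fermat.Agent.A2.Mod.FE E N) :=
  {f | ∃ p : Polynomial (Polynomial (_root_.Fermat.Agent.A2.Mod.RE P E)), p.Monic ∧
    p.eval₂ (Polynomial.eval₂RingHom ((algebraMap E (_root_.Fermat.Agent.A2.Mod.FE E N)).comp (_root_.Fermat.Agent.A2.Mod.RE P E).subtype) x) f = 0}

end Defs

/-! ## Standing hypotheses of all leaves -/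

/-- The standing hypotheses: `q` prime, `q ∤ M`, `P` over `q`, `R_E` a DVR with uniformiser `w`. -/
structure Setting (P : ValuationSubring _root_.Fermat.Agent.A2.Mod.Qb) (E : IntermediateField ℚ _root_.Fermat.Agent.A2.Mod.Qb) (M q : ℕ)
    (w : _root_.Fermat.Agent.A2.Mod.RE P E) : Prop where
  q_prime : q.Prime
  q_not_dvd : ¬ q ∣ M
  M_ne_zero : M ≠ 0
  lies_over : P.LiesOverPrime q
  dvr : IsDiscreteValuationRing (_root_.Fermat.Agent.A2.Mod.RE P E)
  unif : Irreducible w

section Leaves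

variable (P : ValuationSubring _root_.Fermat.Agent.A2.Mod.Qb) (E : IntermediateField ℚ _root_.Fermat.Agent.A2.Mod.Qb) (M q : ℕ) [NeZero M] [NeZero q]
  (w : _root_.Fermat.Agent.A2.Mod.RE P E)

/-- The coordinate `x = j · j_q` of level `M * q`. -/
def xE : _root_.Fermat.Agent.A2.Mod.FE E (M * q) :=
  jE E (M * q) 1 (one_dvd _) * jE E (M * q) q (dvd_mul_left q M)

/-- `α : F_M → F_{Mq}`, the inclusion. -/
abbrev αE : _root_.Fermat.Agent.A2.Mod.FE E M →ₐ[E] _root_.Fermat.Agent.A2.Mod.FE E (M * q) := heckeAlphaBar E M q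

/-- `β : F_M → F_{Mq}`, `t ↦ t^q`. -/
abbrev βE : _root_.Fermat.Agent.A2.Mod.FE E M →ₐ[E] _root_.Fermat.Agent.A2.Mod.FE E (M * q) := heckeBetaBar E M q

/-! ### L1  VINF: the Gauss valuation exists at every level (owner: helper708 / helper553) -/

/-- **L1.** The Gauss valuation ring exists (any level `N`):
`H708.gaussInf` + `H708.IntGen (modularFunctionFieldFull N)` + `attainsMax_of_isNoetherianRing`. -/
def VinfExistsStatement : Prop :=
  ∀ N : ℕ, N ≠ 0 → IsDiscreteValuationRing (_root_.Fermat.Agent.A2.Mod.RE P E) →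
    ∃ V : ValuationSubring (_root_.Fermat.Agent.A2.Mod.FE E N), IsVinf P E N V

/-- **L2.** `w` is a uniformiser of `V∞`, `V∞ ∩ E = R_E`, and the generators `j_d` are units. -/
def VinfBasicStatement : Prop :=
  ∀ N : ℕ, N ≠ 0 → IsDiscreteValuationRing (_root_.Fermat.Agent.A2.Mod.RE P E) → Irreducible w →
    ∀ V : ValuationSubring (_root_.Fermat.Agent.A2.Mod.FE E N), IsVinf P E N V →
      H48.IsUnif V (cE P E N w) ∧
      (∀ e : E, algebraMap E (_root_.Fermat.Agent.A2.Mod.FE E N) e ∈ V ↔ e ∈ _root_.Fermat.Agent.A2.Mod.RE P E) ∧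
      ∀ (d : ℕ) [NeZero d] (hd : d ∣ N), jE E N d hd ∈ V ∧ (jE E N d hd)⁻¹ ∈ V

/-- **L3.** Gauss property for every "polar" element: if `u ∈ F_N` is the image of an `R`-integral
series `t^{-a}(c + …)`, `a > 0`, `c` a unit of `R`, then every `p ∈ R[X]` not divisible by `w`
gives a unit `p(u)` of `V∞`.  (Applied to `u = x`, `W x`, and with `V∞ ∋ u⁻¹`.) -/
def VinfGaussStatement : Prop :=
  ∀ N : ℕ, N ≠ 0 → IsDiscreteValuationRing (_root_.Fermat.Agent.A2.Mod.RE P E) → Irreducible w →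
    ∀ V : ValuationSubring (_root_.Fermat.Agent.A2.Mod.FE E N), IsVinf P E N V →
    ∀ (u : _root_.Fermat.Agent.A2.Mod.FE E N) (U : LaurentSeries (_root_.Fermat.Agent.A2.Mod.RE P E)) (a : ℕ), 0 < a →
      (u : LaurentSeries E) = H708.incl (_root_.Fermat.Agent.A2.Mod.RE P E) U →
      (∀ n : ℤ, n < -(a : ℤ) → U.coeff n = 0) → IsUnit (U.coeff (-(a : ℤ))) →
      ∀ p : Polynomial (_root_.Fermat.Agent.A2.Mod.RE P E), ¬ Polynomial.C w ∣ p →
        ev P E N u p ∈ V ∧ (ev P E N u p)⁻¹ ∈ V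

/-! ### L4  W: the Fricke involution at level `E` (from H528 `wF`, `wF_rat` over `Q̄`) -/

/-- **L4.** The Fricke involution exists over `E` (restrict `H528.wF` to `E(j_d : d ∣ N)`). -/
def FrickeExistsStatement : Prop :=
  ∀ N : ℕ, N ≠ 0 → ∃ W : _root_.Fermat.Agent.A2.Mod.FE E N ≃ₐ[E] _root_.Fermat.Agent.A2.Mod.FE E N, IsFricke E N W

/-- **L5.** Compatibility of Fricke involutions of levels `M` and `Mq` with `α`, `β`:
`W_N ∘ α = β ∘ W_M` and `W_N ∘ β = α ∘ W_M`. -/
def FrickeCompatStatement : Prop :=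
  ∀ (WM : _root_.Fermat.Agent.A2.Mod.FE E M ≃ₐ[E] _root_.Fermat.Agent.A2.Mod.FE E M) (WN : _root_.Fermat.Agent.A2.Mod.FE E (M * q) ≃ₐ[E] _root_.Fermat.Agent.A2.Mod.FE E (M * q)),
    IsFricke E M WM → IsFricke E (M * q) WN →
    ∀ f : _root_.Fermat.Agent.A2.Mod.FE E M, WN (αE E M q f) = βE E M q (WM f) ∧ WN (βE E M q f) = αE E M q (WM f)

/-- **L6.** `V₀ := V∞ ∘ W ≠ V∞` at level `Mq` (level-`E` form of `H528.comapW_ne`). -/
def VzeroNeStatement : Prop :=
  Setting P E M q w →
    ∀ (V : ValuationSubring (_root_.Fermat.Agent.A2.Mod.FE E (M * q))) (W : _root_.Fermat.Agent.A2.Mod.FE E (M * q) ≃ₐ[E] _root_.Fermat.Agent.A2.Mod.FE E (M * q)),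
      IsVinf P E (M * q) V → IsFricke E (M * q) W →
      V.comap (W : _root_.Fermat.Agent.A2.Mod.FE E (M * q) →+* _root_.Fermat.Agent.A2.Mod.FE E (M * q)) ≠ V

/-- **L7.** At level `M` (good reduction) the Fricke involution preserves `V∞`
(uniqueness of the extension of the Gauss valuation of `E(j)`: residue degree `ψ(M)` = degree). -/
def FrickeStableStatement : Prop :=
  Setting P E M q w →
    ∀ (V : ValuationSubring (_root_.Fermat.Agent.A2.Mod.FE E M)) (W : _root_.Fermat.Agent.A2.Mod.FE E M ≃ₐ[E] _root_.Fermat.Agent.A2.Mod.FE E M),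
      IsVinf P E M V → IsFricke E M W → ∀ f ∈ V, W f ∈ V

/-! ### L8–L10  degrees and residue independence (from `S28.CoreData M k`, on main) -/

/-- **L8.** `[F_{Mq} : E(x)] = 2 (q+1) ψ(M)`, `x` transcendental over `E`,
and `E` is algebraically closed in `F_{Mq}`. -/
def DegStatement : Prop :=
  q.Prime → ¬ q ∣ M →
    Transcendental E (xE E M q) ∧
    Module.finrank (IntermediateField.adjoin E ({xE E M q} : Set (_root_.Fermat.Agent.A2.Mod.FE E (M * q))))
      (_root_.Fermat.Agent.A2.Mod.FE E (M * q)) = 2 * ((q + 1) * dedekindPsi M) ∧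
    ∀ f : _root_.Fermat.Agent.A2.Mod.FE E (M * q), IsAlgebraic E f → f ∈ (algebraMap E (_root_.Fermat.Agent.A2.Mod.FE E (M * q))).range

/-- **L9.** Residue independence on `C∞`: there are `(q+1) ψ(M)` elements of `α(V∞_M)·j^a`
(`bᵢ = α(yᵢ) j^a`, `yᵢ` the `ψ(M)` monomials of `S28.CoreData M k`, `0 ≤ a ≤ q`) in `V∞`
whose residues are independent over `k[x̄]`, `x̄ = j̄^(q+1)`. -/
def IndInfStatement : Prop :=
  Setting P E M q w →
    ∀ V : ValuationSubring (_root_.Fermat.Agent.A2.Mod.FE E (M * q)), IsVinf P E (M * q) V →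
      ∃ b : Fin ((q + 1) * dedekindPsi M) → _root_.Fermat.Agent.A2.Mod.FE E (M * q),
        (∀ i, b i ∈ V) ∧ IndepMod P E (M * q) V w (xE E M q) b

/-- **L10.** Residue independence on `C₀`: the same for `V₀ = V∞ ∘ W`
(`cᵢ = β(yᵢ') j_q^a`; apply `W` and use L7 at level `M`). -/
def IndZeroStatement : Prop :=
  Setting P E M q w →
    ∀ (V : ValuationSubring (_root_.Fermat.Agent.A2.Mod.FE E (M * q))) (W : _root_.Fermat.Agent.A2.Mod.FE E (M * q) ≃ₐ[E] _root_.Fermat.Agent.A2.Mod.FE E (M * q)),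
      IsVinf P E (M * q) V → IsFricke E (M * q) W →
      ∃ c : Fin ((q + 1) * dedekindPsi M) → _root_.Fermat.Agent.A2.Mod.FE E (M * q),
        (∀ i, W (c i) ∈ V) ∧
        IndepMod P E (M * q) (V.comap (W : _root_.Fermat.Agent.A2.Mod.FE E (M * q) →+* _root_.Fermat.Agent.A2.Mod.FE E (M * q))) w (xE E M q) c

/-! ### L11–L12  residue fields and Kronecker (semilinear form, `k` perfect) -/

/-- **L11.** Residue degree one over level `M` on `C∞`: every element of `V∞` (level `Mq`) is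
congruent modulo `w V∞` to `α g`, `g ∈ V∞_M`. -/
def ResInfStatement : Prop :=
  Setting P E M q w →
    ∀ (VM : ValuationSubring (_root_.Fermat.Agent.A2.Mod.FE E M)) (V : ValuationSubring (_root_.Fermat.Agent.A2.Mod.FE E (M * q))),
      IsVinf P E M VM → IsVinf P E (M * q) V →
      ∀ f ∈ V, ∃ g ∈ VM, InW P E (M * q) V w (f - αE E M q g)

/-- **L12.** Kronecker congruence, semilinear form: for `a ∈ V∞_M` there is `a' ∈ V∞_M`
(`ā' = ā` with coefficients twisted by the inverse Frobenius of `k`) with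
`β a ≡ (α a')^q mod w V∞`.  (On `C₀` the swapped congruence follows from L5 and L7.) -/
def KronStatement : Prop :=
  Setting P E M q w →
    ∀ (VM : ValuationSubring (_root_.Fermat.Agent.A2.Mod.FE E M)) (V : ValuationSubring (_root_.Fermat.Agent.A2.Mod.FE E (M * q))),
      IsVinf P E M VM → IsVinf P E (M * q) V →
      ∀ a ∈ VM, ∃ a' ∈ VM, InW P E (M * q) V w (βE E M q a - (αE E M q a') ^ q)

/-! ### L13  chart compatibility (from `S28.ModPolyData q`, on main) -/

/-- **L13.** `j, j_q` are integral over `ℤ[x]` and `1/j, 1/j_q` are integral over `ℤ[1/x]`,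
`x = j j_q` (monicity of `Φ_q` in each variable suffices). -/
def ChartCompatStatement : Prop :=
  q.Prime →
    (jE E (M * q) 1 (one_dvd _) ∈ chart P E (M * q) (xE E M q)) ∧
    (jE E (M * q) q (dvd_mul_left q M) ∈ chart P E (M * q) (xE E M q)) ∧
    ((jE E (M * q) 1 (one_dvd _))⁻¹ ∈ chart P E (M * q) (xE E M q)⁻¹) ∧
    ((jE E (M * q) q (dvd_mul_left q M))⁻¹ ∈ chart P E (M * q) (xE E M q)⁻¹)

/-! ### L14  inertia acts trivially on both residue fields -/

/-- The restriction to `E` of an automorphism of `Q̄` stabilising `E`. -/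
def resE (τ : _root_.Fermat.Agent.A2.Mod.Qb ≃ₐ[ℚ] _root_.Fermat.Agent.A2.Mod.Qb) (hτ : ∀ e : _root_.Fermat.Agent.A2.Mod.Qb, e ∈ E → τ e ∈ E ∧ τ.symm e ∈ E) : E ≃ₐ[ℚ] E :=
  AlgEquiv.ofBijective
    { toFun := fun e => ⟨τ (e : _root_.Fermat.Agent.A2.Mod.Qb), (hτ e e.2).1⟩
      map_one' := Subtype.ext (_root_.map_one τ)
      map_mul' := fun a b => Subtype.ext (_root_.map_mul τ (a : _root_.Fermat.Agent.A2.Mod.Qb) (b : _root_.Fermat.Agent.A2.Mod.Qb))
      map_zero' := Subtype.ext (_root_.map_zero τ)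
      map_add' := fun a b => Subtype.ext (_root_.map_add τ (a : _root_.Fermat.Agent.A2.Mod.Qb) (b : _root_.Fermat.Agent.A2.Mod.Qb))
      commutes' := fun r => Subtype.ext (τ.commutes r) }
    ⟨fun a b hab => Subtype.ext (τ.injective (congrArg Subtype.val hab)),
      fun b => ⟨⟨τ.symm (b : _root_.Fermat.Agent.A2.Mod.Qb), (hτ b b.2).2⟩, Subtype.ext (τ.apply_symm_apply (b : _root_.Fermat.Agent.A2.Mod.Qb))⟩⟩

/-- **L14.** For `τ` in the inertia group of `P` stabilising `E`: `τ` stabilises `V∞` and `V₀`,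
acts trivially on both residue fields, and commutes with `W`. -/
def InertiaStatement : Prop :=
  ∀ N : ℕ, N ≠ 0 → IsDiscreteValuationRing (_root_.Fermat.Agent.A2.Mod.RE P E) → Irreducible w →
    ∀ (V : ValuationSubring (_root_.Fermat.Agent.A2.Mod.FE E N)) (W : _root_.Fermat.Agent.A2.Mod.FE E N ≃ₐ[E] _root_.Fermat.Agent.A2.Mod.FE E N),
      IsVinf P E N V → IsFricke E N W →
      ∀ (τ : _root_.Fermat.Agent.A2.Mod.Qb ≃ₐ[ℚ] _root_.Fermat.Agent.A2.Mod.Qb) (hτ : ∀ e : _root_.Fermat.Agent.A2.Mod.Qb, e ∈ E → τ e ∈ E ∧ τ.symm e ∈ E),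
        τ ∈ P.inertiaSubgroupIn ℚ →
        (∀ f : _root_.Fermat.Agent.A2.Mod.FE E N, arithmeticRingAut (modularFunctionFieldFull N) (resE E τ hτ) (W f) =
          W (arithmeticRingAut (modularFunctionFieldFull N) (resE E τ hτ) f)) ∧
        ∀ f ∈ V, InW P E N V w
          (arithmeticRingAut (modularFunctionFieldFull N) (resE E τ hτ) f - f)

/-! ### HYPOTHESIS at level `M` (output of S18 b2 — NOT a leaf of MOD) -/

/-- **Good reduction at level `M`** in the chart of the coordinate `y` (`y = j` and `y = j⁻¹`),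
elementwise: (qep) `B_M ∩ w V∞ = w B_M`; (normal) the image of `B_M` in the residue field of `V∞`
is integrally closed in it, i.e. `B_M / w B_M` is a normal domain with fraction field `κ(V∞)`. -/
structure GoodRedAt (VM : ValuationSubring (_root_.Fermat.Agent.A2.Mod.FE E M)) (y : _root_.Fermat.Agent.A2.Mod.FE E M) : Prop where
  qep : ∀ b ∈ chart P E M y, InW P E M VM w b → b * (cE P E M w)⁻¹ ∈ chart P E M y
  normal : ∀ f ∈ VM,
    (∃ (n : ℕ) (c : Fin n → _root_.Fermat.Agent.A2.Mod.FE E M), (∀ i, c i ∈ chart P E M y) ∧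
      InW P E M VM w (f ^ n + ∑ i : Fin n, c i * f ^ (i : ℕ))) →
    ∃ b ∈ chart P E M y, InW P E M VM w (f - b)

end Leaves

end Fermat.Agent.A2.Mod

end

end
-- ===== PACK-END A2/Mod/Spec.lean

-- ===== PACK-BEGIN A2/H48/Qep2Le.lean
section


/-!
# A2 / piece QEP2, part 4 (helper48): the degree hypothesis as an inequality

In `TwoExt` / `GaussPair` the hypothesis `card : f₁ + f₂ = [F : K]` can be weakened to
`[F : K] ≤ f₁ + f₂` (the other inequality is automatic: the lifts of the two families are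
linearly independent).  This is the form in which the modular side supplies it (upper bound for
the degree of the function field in characteristic `0`, lower bounds for the residue degrees in
characteristic `q`).

* `TwoExtLe`, `TwoExtLe.card`, `TwoExtLe.twoExt`;
* `GaussPairLe`, `GaussPairLe.gaussPair`, hence `GaussPairLe.qep2`, `GaussPairLe.reduced`,
  `GaussPairLe.exists_monic_of_mem`.
-/

set_option autoImplicit false
set_option linter.unusedSectionVars false

namespace Fermat.Agent.A2.H48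

open Polynomial

section Main

variable {K F : Type*} [Field K] [Field F] [Algebra K F]

/-- `TwoExt` with the degree hypothesis weakened to an inequality. -/
structure TwoExtLe (O : ValuationSubring K) (V₁ V₂ : ValuationSubring F) (ϖ : K)
    {f₁ f₂ : ℕ} (b : Fin f₁ → F) (c : Fin f₂ → F) : Prop where
  unifO : IsUnif O ϖ
  unif₁ : IsUnif V₁ (algebraMap K F ϖ)
  unif₂ : IsUnif V₂ (algebraMap K F ϖ)
  le₁ : ∀ a ∈ O, algebraMap K F a ∈ V₁
  le₂ : ∀ a ∈ O, algebraMap K F a ∈ V₂
  ne : V₁ ≠ V₂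
  arch : ∀ a : K, ∃ k : ℕ, ϖ ^ k * a ∈ O
  b_mem : ∀ i, b i ∈ V₁
  c_mem : ∀ j, c j ∈ V₂
  b_indep : ∀ a : Fin f₁ → K, (∀ i, a i ∈ O) →
    (∑ i, algebraMap K F (a i) * b i) * (algebraMap K F ϖ)⁻¹ ∈ V₁ → ∀ i, a i * ϖ⁻¹ ∈ O
  c_indep : ∀ a : Fin f₂ → K, (∀ j, a j ∈ O) →
    (∑ j, algebraMap K F (a j) * c j) * (algebraMap K F ϖ)⁻¹ ∈ V₂ → ∀ j, a j * ϖ⁻¹ ∈ O
  le : Module.finrank K F ≤ f₁ + f₂

namespace TwoExtLe

variable {O : ValuationSubring K} {V₁ V₂ : ValuationSubring F} {ϖ : K}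
  {f₁ f₂ : ℕ} {b : Fin f₁ → F} {c : Fin f₂ → F}

theorem exists_good [FiniteDimensional K F] (h : TwoExtLe O V₁ V₂ ϖ b c) :
    ∃ m : Fin f₁ ⊕ Fin f₂ → F, TwoExt.IsGood O V₁ V₂ ϖ m := by
  classical
  set π := algebraMap K F ϖ with hπ
  have hπ0 : π ≠ 0 := h.unif₁.ne_zero
  have hA₁ : ∀ i, ∃ g : F, g ∈ V₁ ∧ (g - b i) * π⁻¹ ∈ V₁ ∧ g * π⁻¹ ∈ V₂ := fun i => by
    obtain ⟨k, hk⟩ := exists_pow_mul_mem h.unifO.mem h.arch V₂ h.le₂
      (Algebra.IsIntegral.isIntegral (R := K) (b i))
    exact exists_approx h.unif₁ h.unif₂ h.ne (h.b_mem i) hk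
  have hA₂ : ∀ j, ∃ g : F, g ∈ V₂ ∧ (g - c j) * π⁻¹ ∈ V₂ ∧ g * π⁻¹ ∈ V₁ := fun j => by
    obtain ⟨k, hk⟩ := exists_pow_mul_mem h.unifO.mem h.arch V₁ h.le₁
      (Algebra.IsIntegral.isIntegral (R := K) (c j))
    exact exists_approx h.unif₂ h.unif₁ (Ne.symm h.ne) (h.c_mem j) hk
  choose g hg1 hg2 hg3 using hA₁
  choose g' hg'1 hg'2 hg'3 using hA₂
  have hgV₂ : ∀ i, g i ∈ V₂ := fun i => by
    have : g i = g i * π⁻¹ * π := by field_simp
    rw [this]; exact mul_mem (hg3 i) h.unif₂.mem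
  have hg'V₁ : ∀ j, g' j ∈ V₁ := fun j => by
    have : g' j = g' j * π⁻¹ * π := by field_simp
    rw [this]; exact mul_mem (hg'3 j) h.unif₁.mem
  refine ⟨Sum.elim g g', ?_, ?_, ?_⟩
  · rintro (i | j)
    · exact hg1 i
    · exact hg'V₁ j
  · rintro (i | j)
    · exact hgV₂ i
    · exact hg'1 j
  · intro a ha hS₁ hS₂
    have hsplit : (∑ l, algebraMap K F (a l) * Sum.elim g g' l) =
        (∑ i, algebraMap K F (a (Sum.inl i)) * g i) +
          ∑ j, algebraMap K F (a (Sum.inr j)) * g' j := by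
      rw [Fintype.sum_sum_type]; simp only [Sum.elim_inl, Sum.elim_inr]
    rw [hsplit] at hS₁ hS₂
    rintro (i | j)
    · refine h.b_indep (fun i => a (Sum.inl i)) (fun i => ha _) ?_ i
      have e1 : (∑ i, algebraMap K F (a (Sum.inl i)) * b i) * π⁻¹ =
          ((∑ i, algebraMap K F (a (Sum.inl i)) * g i) +
            ∑ j, algebraMap K F (a (Sum.inr j)) * g' j) * π⁻¹
          - ∑ i, algebraMap K F (a (Sum.inl i)) * ((g i - b i) * π⁻¹)
          - ∑ j, algebraMap K F (a (Sum.inr j)) * (g' j * π⁻¹) := by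
        have hW : ∑ i, algebraMap K F (a (Sum.inl i)) * ((g i - b i) * π⁻¹) =
            (∑ i, algebraMap K F (a (Sum.inl i)) * g i) * π⁻¹ -
              (∑ i, algebraMap K F (a (Sum.inl i)) * b i) * π⁻¹ := by
          rw [Finset.sum_mul, Finset.sum_mul, ← Finset.sum_sub_distrib]
          exact Finset.sum_congr rfl fun i _ => by ring
        have hZ : ∑ j, algebraMap K F (a (Sum.inr j)) * (g' j * π⁻¹) =
            (∑ j, algebraMap K F (a (Sum.inr j)) * g' j) * π⁻¹ := by
          rw [Finset.sum_mul]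
          exact Finset.sum_congr rfl fun j _ => by ring
        rw [hW, hZ]; ring
      rw [e1]
      refine sub_mem (sub_mem hS₁ (sum_mem fun i _ => mul_mem (h.le₁ _ (ha _)) (hg2 i)))
        (sum_mem fun j _ => mul_mem (h.le₁ _ (ha _)) (hg'3 j))
    · refine h.c_indep (fun j => a (Sum.inr j)) (fun j => ha _) ?_ j
      have e1 : (∑ j, algebraMap K F (a (Sum.inr j)) * c j) * π⁻¹ =
          ((∑ i, algebraMap K F (a (Sum.inl i)) * g i) +
            ∑ j, algebraMap K F (a (Sum.inr j)) * g' j) * π⁻¹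
          - ∑ j, algebraMap K F (a (Sum.inr j)) * ((g' j - c j) * π⁻¹)
          - ∑ i, algebraMap K F (a (Sum.inl i)) * (g i * π⁻¹) := by
        have hW : ∑ j, algebraMap K F (a (Sum.inr j)) * ((g' j - c j) * π⁻¹) =
            (∑ j, algebraMap K F (a (Sum.inr j)) * g' j) * π⁻¹ -
              (∑ j, algebraMap K F (a (Sum.inr j)) * c j) * π⁻¹ := by
          rw [Finset.sum_mul, Finset.sum_mul, ← Finset.sum_sub_distrib]
          exact Finset.sum_congr rfl fun j _ => by ring
        have hZ : ∑ i, algebraMap K F (a (Sum.inl i)) * (g i * π⁻¹) =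
            (∑ i, algebraMap K F (a (Sum.inl i)) * g i) * π⁻¹ := by
          rw [Finset.sum_mul]
          exact Finset.sum_congr rfl fun i _ => by ring
        rw [hW, hZ]; ring
      rw [e1]
      refine sub_mem (sub_mem hS₂ (sum_mem fun j _ => mul_mem (h.le₂ _ (ha _)) (hg'2 j)))
        (sum_mem fun i _ => mul_mem (h.le₂ _ (ha _)) (hg3 i))

/-- The fundamental inequality is an equality. -/
theorem card [FiniteDimensional K F] (h : TwoExtLe O V₁ V₂ ϖ b c) :
    f₁ + f₂ = Module.finrank K F := by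
  obtain ⟨m, hm⟩ := h.exists_good
  have hli := TwoExt.IsGood.linearIndependent h.unifO hm
  have h1 := hli.fintype_card_le_finrank
  rw [Fintype.card_sum, Fintype.card_fin, Fintype.card_fin] at h1
  exact le_antisymm h1 h.le

theorem twoExt [FiniteDimensional K F] (h : TwoExtLe O V₁ V₂ ϖ b c) :
    TwoExt O V₁ V₂ ϖ b c where
  unifO := h.unifO
  unif₁ := h.unif₁
  unif₂ := h.unif₂
  le₁ := h.le₁
  le₂ := h.le₂
  ne := h.ne
  arch := h.arch
  b_mem := h.b_mem
  c_mem := h.c_mem
  b_indep := h.b_indep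
  c_indep := h.c_indep
  card := h.card

end TwoExtLe

end Main

section Gauss

variable {R : Type*} [CommRing R] [IsDomain R] [UniqueFactorizationMonoid R]
variable {K F : Type*} [Field K] [Field F] [Algebra R[X] K] [IsFractionRing R[X] K]
  [Algebra K F] [Algebra R[X] F] [IsScalarTower R[X] K F]

/-- `GaussPair` with the degree hypothesis weakened to an inequality. -/
structure GaussPairLe (ϖ : R) (V₁ V₂ : ValuationSubring F)
    {f₁ f₂ : ℕ} (b : Fin f₁ → F) (c : Fin f₂ → F) : Prop where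
  prime : Prime ϖ
  unif₁ : IsUnif V₁ (algebraMap R[X] F (C ϖ))
  unif₂ : IsUnif V₂ (algebraMap R[X] F (C ϖ))
  poly₁ : ∀ P : R[X], algebraMap R[X] F P ∈ V₁
  poly₂ : ∀ P : R[X], algebraMap R[X] F P ∈ V₂
  gauss₁ : ∀ P : R[X], ¬ C ϖ ∣ P → (algebraMap R[X] F P)⁻¹ ∈ V₁
  gauss₂ : ∀ P : R[X], ¬ C ϖ ∣ P → (algebraMap R[X] F P)⁻¹ ∈ V₂
  ne : V₁ ≠ V₂
  b_mem : ∀ i, b i ∈ V₁
  c_mem : ∀ j, c j ∈ V₂
  b_indep : ∀ a : Fin f₁ → R[X],
    (∑ i, algebraMap R[X] F (a i) * b i) * (algebraMap R[X] F (C ϖ))⁻¹ ∈ V₁ → ∀ i, C ϖ ∣ a i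
  c_indep : ∀ a : Fin f₂ → R[X],
    (∑ j, algebraMap R[X] F (a j) * c j) * (algebraMap R[X] F (C ϖ))⁻¹ ∈ V₂ → ∀ j, C ϖ ∣ a j
  le : Module.finrank K F ≤ f₁ + f₂

namespace GaussPairLe

variable {ϖ : R} {V₁ V₂ : ValuationSubring F} {f₁ f₂ : ℕ} {b : Fin f₁ → F} {c : Fin f₂ → F}

theorem gaussRing_eq (h : GaussPairLe (K := K) ϖ V₁ V₂ b c) :
    gaussRing K V₁ = gaussRing K V₂ := by
  apply le_antisymm
  · intro a ha
    obtain ⟨P, Q, hQ, rfl⟩ := exists_div_of_mem_gaussRing h.prime h.unif₁ h.poly₁ h.gauss₁ ha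
    exact div_mem_gaussRing h.poly₂ h.gauss₂ P hQ
  · intro a ha
    obtain ⟨P, Q, hQ, rfl⟩ := exists_div_of_mem_gaussRing h.prime h.unif₂ h.poly₂ h.gauss₂ ha
    exact div_mem_gaussRing h.poly₁ h.gauss₁ P hQ

theorem twoExtLe (h : GaussPairLe (K := K) ϖ V₁ V₂ b c) :
    TwoExtLe (gaussRing K V₁) V₁ V₂ (algebraMap R[X] K (C ϖ)) b c where
  unifO := isUnif_gaussRing h.unif₁
  unif₁ := by rw [map_eq]; exact h.unif₁
  unif₂ := by rw [map_eq]; exact h.unif₂
  le₁ := fun a ha => mem_gaussRing.1 ha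
  le₂ := fun a ha => mem_gaussRing.1 (h.gaussRing_eq ▸ ha)
  ne := h.ne
  arch := arch_gaussRing h.prime h.poly₁ h.gauss₁
  b_mem := h.b_mem
  c_mem := h.c_mem
  b_indep := fun a ha hsum i =>
    indep_gaussRing h.prime h.unif₁ h.poly₁ h.gauss₁ h.b_indep a ha hsum i
  c_indep := fun a ha hsum j => by
    rw [h.gaussRing_eq]
    exact indep_gaussRing h.prime h.unif₂ h.poly₂ h.gauss₂ h.c_indep a
      (fun j => h.gaussRing_eq ▸ ha j) hsum j
  le := h.le

/-- The fundamental inequality is an equality: `[F : K] = f₁ + f₂`. -/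
theorem card [FiniteDimensional K F] (h : GaussPairLe (K := K) ϖ V₁ V₂ b c) :
    f₁ + f₂ = Module.finrank K F := h.twoExtLe.card

theorem gaussPair [FiniteDimensional K F] (h : GaussPairLe (K := K) ϖ V₁ V₂ b c) :
    GaussPair (K := K) ϖ V₁ V₂ b c where
  prime := h.prime
  unif₁ := h.unif₁
  unif₂ := h.unif₂
  poly₁ := h.poly₁
  poly₂ := h.poly₂
  gauss₁ := h.gauss₁
  gauss₂ := h.gauss₂
  ne := h.ne
  b_mem := h.b_mem
  c_mem := h.c_mem
  b_indep := h.b_indep
  c_indep := h.c_indep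
  card := h.card

/-- **`q`-expansion principle for the two-component model** (inequality form). -/
theorem qep2 [FiniteDimensional K F] (h : GaussPairLe (K := K) ϖ V₁ V₂ b c) {u : F}
    (hu : IsIntegral R[X] u)
    (h₁ : u * (algebraMap R[X] F (C ϖ))⁻¹ ∈ V₁) (h₂ : u * (algebraMap R[X] F (C ϖ))⁻¹ ∈ V₂) :
    IsIntegral R[X] (u * (algebraMap R[X] F (C ϖ))⁻¹) :=
  h.gaussPair.qep2 hu h₁ h₂

/-- The special fibre is reduced (inequality form). -/
theorem reduced [FiniteDimensional K F] (h : GaussPairLe (K := K) ϖ V₁ V₂ b c) {u : F}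
    (hu : IsIntegral R[X] u) {k : ℕ}
    (h₁ : u ^ k * (algebraMap R[X] F (C ϖ))⁻¹ ∈ V₁)
    (h₂ : u ^ k * (algebraMap R[X] F (C ϖ))⁻¹ ∈ V₂) :
    IsIntegral R[X] (u * (algebraMap R[X] F (C ϖ))⁻¹) :=
  h.gaussPair.reduced hu h₁ h₂

/-- No third extension (inequality form). -/
theorem exists_monic_of_mem [FiniteDimensional K F] (h : GaussPairLe (K := K) ϖ V₁ V₂ b c)
    {u : F} (hu₁ : u ∈ V₁) (hu₂ : u ∈ V₂) :
    ∃ p : K[X], p.Monic ∧ (∀ i, p.coeff i ∈ gaussRing K V₁) ∧ aeval u p = 0 :=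
  h.gaussPair.exists_monic_of_mem hu₁ hu₂

end GaussPairLe

end Gauss

end Fermat.Agent.A2.H48

end
-- ===== PACK-END A2/H48/Qep2Le.lean

-- ===== PACK-BEGIN A2/Mod/H732/SepGauss.lean
section



/-!
# A2 / MOD, piece S4 (SepCoord producer), part 3 (helper732): integral basis with discriminant
prime to `ϖ`, in the `H48.GaussPair` framework

`R` factorial with prime `ϖ`, `R[X]` integrally closed, `K = Frac R[X]`, `F / K` finite,
`GaussPair ϖ V₁ V₂ b c` (two extensions of the Gauss valuation, `e = 1`, residue degrees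
`f₁ + f₂ = [F : K]`) with separable residue extensions (liftable elementwise form over `R[X]`).
Then there are `[F : K]` elements of `F`, integral over `R[X]`, `K`-linearly independent, whose
discriminant is `d(X)` with `d ∈ R[X]` not divisible by `ϖ`.

* `GaussPair.exists_mul_isIntegral` : elements of `V₁ ∩ V₂` are integral over `R[X]` up to a
  denominator prime to `ϖ`;
* `GaussPair.exists_integral_basis_discr` : the theorem.
-/

set_option autoImplicit false
set_option linter.style.haveILetI false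
set_option linter.unusedSectionVars false

noncomputable section

namespace Fermat.Agent.A2.Mod.H732

open Polynomial Fermat.Agent.A2.H48

variable {R : Type*} [CommRing R] [IsDomain R] [UniqueFactorizationMonoid R]
variable {K F : Type*} [Field K] [Field F] [Algebra R[X] K] [IsFractionRing R[X] K]
  [Algebra K F] [Algebra R[X] F] [IsScalarTower R[X] K F]
variable {ϖ : R} {V₁ V₂ : ValuationSubring F} {f₁ f₂ : ℕ} {b : Fin f₁ → F} {c : Fin f₂ → F}

/-- Elements of `V₁ ∩ V₂` are integral over `R[X]` up to a denominator prime to `ϖ`. -/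
theorem exists_mul_isIntegral [FiniteDimensional K F] (h : GaussPair (K := K) ϖ V₁ V₂ b c)
    {z : F} (hz₁ : z ∈ V₁) (hz₂ : z ∈ V₂) :
    ∃ g : R[X], ¬ C ϖ ∣ g ∧ IsIntegral R[X] (algebraMap R[X] F g * z) := by
  classical
  obtain ⟨p, hp, hpc, hpz⟩ := h.exists_monic_of_mem hz₁ hz₂
  have hex : ∀ i : ℕ, ∃ P Q : R[X], ¬ C ϖ ∣ Q ∧
      p.coeff i = algebraMap R[X] K P / algebraMap R[X] K Q := fun i =>
    exists_div_of_mem_gaussRing h.prime h.unif₁ h.poly₁ h.gauss₁ (hpc i)
  choose P Q hQ hPQ using hex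
  have hQ0 : ∀ i, algebraMap R[X] K (Q i) ≠ 0 := by
    intro i h0
    have := (IsFractionRing.injective R[X] K) (h0.trans (_root_.map_zero _).symm)
    exact hQ i (this ▸ dvd_zero _)
  set g : R[X] := ∏ i ∈ Finset.range p.natDegree, Q i with hg
  have hgϖ : ¬ C ϖ ∣ g := by
    rw [hg, (prime_C h.prime).dvd_finsetProd_iff]
    rintro ⟨i, -, hi⟩
    exact hQ i hi
  have hgcoef : ∀ i ∈ Finset.range p.natDegree,
      p.coeff i * algebraMap R[X] K g ∈ Set.range (algebraMap R[X] K) := by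
    intro i hi
    refine ⟨P i * ∏ j ∈ (Finset.range p.natDegree).erase i, Q j, ?_⟩
    rw [hg, ← Finset.mul_prod_erase _ _ hi, _root_.map_mul, _root_.map_mul, hPQ i]
    field_simp [hQ0 i]
  refine ⟨g, hgϖ, ?_⟩
  set q := p.scaleRoots (algebraMap R[X] K g) with hq
  have hqm : q.Monic := (monic_scaleRoots_iff _).2 hp
  have hqlift : q ∈ lifts (algebraMap R[X] K) := by
    rw [lifts_iff_coeff_lifts]
    intro i
    rw [hq, coeff_scaleRoots]
    rcases lt_trichotomy i p.natDegree with hi | hi | hi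
    · obtain ⟨r, hr⟩ : ∃ r, p.natDegree - i = r + 1 := ⟨p.natDegree - i - 1, by omega⟩
      obtain ⟨a, ha⟩ := hgcoef i (Finset.mem_range.2 hi)
      refine ⟨a * g ^ r, ?_⟩
      rw [_root_.map_mul, _root_.map_pow, ha, hr, pow_succ]
      ring
    · refine ⟨1, ?_⟩
      rw [hi, hp.coeff_natDegree, Nat.sub_self, pow_zero, mul_one, _root_.map_one]
    · refine ⟨0, ?_⟩
      rw [coeff_eq_zero_of_natDegree_lt hi, zero_mul, _root_.map_zero]
  obtain ⟨q', hq', -, hq'm⟩ := lifts_and_natDegree_eq_and_monic hqlift hqm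
  refine ⟨q', hq'm, ?_⟩
  have e : eval₂ (algebraMap R[X] F) (algebraMap R[X] F g * z) q' =
      aeval (algebraMap K F (algebraMap R[X] K g) * z) (q'.map (algebraMap R[X] K)) := by
    rw [aeval_def, eval₂_map, ← IsScalarTower.algebraMap_eq, map_eq]
  rw [e, hq', hq]
  exact scaleRoots_aeval_eq_zero hpz

/-- **Integral basis with discriminant prime to `ϖ`.** -/
theorem exists_integral_basis_discr [FiniteDimensional K F] [IsIntegrallyClosed R[X]]
    (h : GaussPair (K := K) ϖ V₁ V₂ b c)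
    (hs₁ : ∀ f : F, f ∈ V₁ → f ∈ V₂ → ∃ Q : R[X][X],
        V₁.valuation (Q.eval₂ (algebraMap R[X] F) f) < 1 ∧
        V₁.valuation ((derivative Q).eval₂ (algebraMap R[X] F) f) = 1)
    (hs₂ : ∀ f : F, f ∈ V₁ → f ∈ V₂ → ∃ Q : R[X][X],
        V₂.valuation (Q.eval₂ (algebraMap R[X] F) f) < 1 ∧
        V₂.valuation ((derivative Q).eval₂ (algebraMap R[X] F) f) = 1) :
    ∃ y : Fin (f₁ + f₂) → F, (∀ i, IsIntegral R[X] (y i)) ∧ LinearIndependent K y ∧
      ∃ d : R[X], ¬ C ϖ ∣ d ∧ algebraMap R[X] K d = Algebra.discr K y := by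
  classical
  have T := h.twoExt
  set O := gaussRing K V₁ with hOdef
  set ϖK := algebraMap R[X] K (C ϖ) with hϖK
  obtain ⟨m, hm⟩ := T.exists_good
  have hcard : Fintype.card (Fin f₁ ⊕ Fin f₂) = Module.finrank K F := by
    rw [Fintype.card_sum, Fintype.card_fin, Fintype.card_fin, h.card]
  haveI : Nonempty (Fin f₁ ⊕ Fin f₂) := by
    rw [← Fintype.card_pos_iff, hcard]; exact Module.finrank_pos
  -- polynomials over `R[X]` as polynomials over the Gauss ring
  let ψ : R[X] →+* O :=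
    { toFun := fun P => ⟨algebraMap R[X] K P, by
        rw [hOdef, mem_gaussRing, map_eq]; exact h.poly₁ P⟩
      map_one' := Subtype.ext (_root_.map_one _)
      map_mul' := fun P Q => Subtype.ext (_root_.map_mul _ P Q)
      map_zero' := Subtype.ext (_root_.map_zero _)
      map_add' := fun P Q => Subtype.ext (_root_.map_add _ P Q) }
  have hψ : ((algebraMap K F).comp O.subtype).comp ψ = algebraMap R[X] F := by
    ext P
    · show algebraMap K F (algebraMap R[X] K (C P)) = algebraMap R[X] F (C P)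
      exact map_eq (C P)
    · show algebraMap K F (algebraMap R[X] K X) = algebraMap R[X] F X
      exact map_eq X
  have hconv : ∀ (Q : R[X][X]) (f : F),
      (Q.map ψ).eval₂ ((algebraMap K F).comp O.subtype) f = Q.eval₂ (algebraMap R[X] F) f := by
    intro Q f
    rw [eval₂_map, hψ]
  have hs₁' : ∀ f : F, f ∈ V₁ → f ∈ V₂ → ∃ Q : Polynomial O,
      V₁.valuation (Q.eval₂ ((algebraMap K F).comp O.subtype) f) < 1 ∧
      V₁.valuation ((derivative Q).eval₂ ((algebraMap K F).comp O.subtype) f) = 1 := by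
    intro f hf1 hf2
    obtain ⟨Q, hQ1, hQ2⟩ := hs₁ f hf1 hf2
    refine ⟨Q.map ψ, ?_, ?_⟩
    · rw [hconv]; exact hQ1
    · rw [derivative_map, hconv]; exact hQ2
  have hs₂' : ∀ f : F, f ∈ V₁ → f ∈ V₂ → ∃ Q : Polynomial O,
      V₂.valuation (Q.eval₂ ((algebraMap K F).comp O.subtype) f) < 1 ∧
      V₂.valuation ((derivative Q).eval₂ ((algebraMap K F).comp O.subtype) f) = 1 := by
    intro f hf1 hf2
    obtain ⟨Q, hQ1, hQ2⟩ := hs₂ f hf1 hf2
    refine ⟨Q.map ψ, ?_, ?_⟩
    · rw [hconv]; exact hQ1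
    · rw [derivative_map, hconv]; exact hQ2
  have hdm : O.valuation (Algebra.discr K m) = 1 :=
    discr_unit_of_isGood T.unifO T.unif₁ T.unif₂ T.le₁ T.le₂ T.ne hm hcard hs₁' hs₂'
  -- clearing denominators
  have hex : ∀ l, ∃ g : R[X], ¬ C ϖ ∣ g ∧ IsIntegral R[X] (algebraMap R[X] F g * m l) :=
    fun l => exists_mul_isIntegral h (hm.1 l) (hm.2.1 l)
  choose g hgϖ hgint using hex
  set G : R[X] := ∏ l, g l with hG
  have hGϖ : ¬ C ϖ ∣ G := by
    rw [hG, (prime_C h.prime).dvd_finsetProd_iff]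
    rintro ⟨l, -, hl⟩
    exact hgϖ l hl
  set GK : K := algebraMap R[X] K G with hGK
  have hGK0 : GK ≠ 0 := by
    intro h0
    have := (IsFractionRing.injective R[X] K) (h0.trans (_root_.map_zero _).symm)
    exact hGϖ (this ▸ dvd_zero _)
  set y₀ : Fin f₁ ⊕ Fin f₂ → F := fun l => algebraMap R[X] F G * m l with hy₀
  have hy₀int : ∀ l, IsIntegral R[X] (y₀ l) := by
    intro l
    have e : y₀ l = algebraMap R[X] F (∏ l' ∈ Finset.univ.erase l, g l') *
        (algebraMap R[X] F (g l) * m l) := by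
      rw [hy₀, hG, ← Finset.mul_prod_erase _ _ (Finset.mem_univ l), _root_.map_mul]
      ring
    rw [e]
    exact isIntegral_algebraMap.mul (hgint l)
  have hy₀smul : ∀ l, y₀ l = GK • m l := by
    intro l
    rw [hy₀, Algebra.smul_def, hGK, map_eq]
  -- the discriminant of `y₀`
  have hdy₀ : Algebra.discr K y₀ = (GK ^ 2) ^ (f₁ + f₂) * Algebra.discr K m := by
    have hmat : Algebra.traceMatrix K y₀ = GK ^ 2 • Algebra.traceMatrix K m := by
      ext i j
      rw [Matrix.smul_apply, Algebra.traceMatrix_apply, Algebra.traceMatrix_apply,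
        Algebra.traceForm_apply, Algebra.traceForm_apply, hy₀smul, hy₀smul, smul_mul_smul_comm,
        _root_.map_smul, pow_two]
    rw [Algebra.discr_def, Algebra.discr_def, hmat, Matrix.det_smul, Fintype.card_sum,
      Fintype.card_fin, Fintype.card_fin]
  have hGKinv : O.valuation GK = 1 := by
    have h1 : GK ∈ O := by rw [hOdef, mem_gaussRing, hGK, map_eq]; exact h.poly₁ G
    have h2 : GK⁻¹ ∈ O := by
      rw [hOdef, mem_gaussRing, map_inv₀, hGK, map_eq]; exact h.gauss₁ G hGϖ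
    have h3 : O.valuation GK ≤ 1 := (O.valuation_le_one_iff _).2 h1
    have h4 : O.valuation GK⁻¹ ≤ 1 := (O.valuation_le_one_iff _).2 h2
    rw [map_inv₀] at h4
    have h5 : O.valuation GK ≠ 0 := (Valuation.ne_zero_iff _).2 hGK0
    have h6 : 1 ≤ O.valuation GK := (inv_le_one₀ (zero_lt_iff.2 h5)).1 h4
    exact le_antisymm h3 h6
  have hvy₀ : O.valuation (Algebra.discr K y₀) = 1 := by
    rw [hdy₀, _root_.map_mul, _root_.map_pow, _root_.map_pow, hGKinv, hdm, one_pow, one_pow, one_mul]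
  have hli₀ : LinearIndependent K y₀ := by
    by_contra hcon
    rw [Algebra.discr_zero_of_not_linearIndependent K hcon, _root_.map_zero] at hvy₀
    exact zero_ne_one hvy₀
  -- reindexing
  let B₀ : Module.Basis (Fin f₁ ⊕ Fin f₂) K F :=
    basisOfLinearIndependentOfCardEqFinrank hli₀ hcard
  have hB₀ : ⇑B₀ = y₀ := coe_basisOfLinearIndependentOfCardEqFinrank hli₀ hcard
  refine ⟨y₀ ∘ finSumFinEquiv.symm, fun i => hy₀int _, ?_, ?_⟩
  · exact hli₀.comp _ finSumFinEquiv.symm.injective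
  · have hre : Algebra.discr K (y₀ ∘ finSumFinEquiv.symm) = Algebra.discr K y₀ := by
      have := Algebra.discr_reindex K B₀ finSumFinEquiv
      rwa [hB₀] at this
    obtain ⟨d, hd⟩ := (IsIntegrallyClosed.isIntegral_iff (R := R[X]) (K := K)).1
      (Algebra.discr_isIntegral K hy₀int)
    refine ⟨d, ?_, ?_⟩
    · rintro ⟨d', rfl⟩
      rw [_root_.map_mul] at hd
      have h1 : O.valuation (algebraMap R[X] K (C ϖ) * algebraMap R[X] K d') = 1 := by
        rw [hd]; exact hvy₀
      rw [_root_.map_mul] at h1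
      have h2 : O.valuation (algebraMap R[X] K (C ϖ)) < 1 := T.unifO.val_lt_one
      have h3 : O.valuation (algebraMap R[X] K d') ≤ 1 := by
        rw [O.valuation_le_one_iff, hOdef, mem_gaussRing, map_eq]
        exact h.poly₁ d'
      have h4 : O.valuation (algebraMap R[X] K (C ϖ)) * O.valuation (algebraMap R[X] K d') < 1 := by
        calc O.valuation (algebraMap R[X] K (C ϖ)) * O.valuation (algebraMap R[X] K d')
            ≤ O.valuation (algebraMap R[X] K (C ϖ)) * 1 := mul_le_mul_right h3 _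
          _ < 1 := by rw [mul_one]; exact h2
      rw [h1] at h4
      exact lt_irrefl _ h4
    · rw [hd, hre]

end Fermat.Agent.A2.Mod.H732

end
end
-- ===== PACK-END A2/Mod/H732/SepGauss.lean

-- ===== PACK-BEGIN A2/Mod/H872/GaussJ.lean
section



/-!
# A2 / MOD leaf L7 (helper872), part 2: elementary facts on the Gauss valuation ring

`L ⊇ ℚ` a field, `A` a valuation subring of `L`, `F₀ ⊆ ℚ((t))`, `F = L·F₀ ⊆ L((t))`,
`V` a valuation subring of `F` with `f ∈ V ↔ H708.IsGaussInt A F₀ f` (the Gauss valuation ring).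

* `mem_of_incl`, `inv_mem_of_incl` : integral series lie in `V`; primitive ones are units;
* `red_eq_zero_of_mul_inv_mem` : an integral series divisible by a non-unit constant in `V` has
  zero reduction;
* `isUnif_of_isGauss` : if `A` is a discrete valuation ring with uniformiser `w`, then `w`
  generates the maximal ideal of `V` (`H48.IsUnif`).
-/

set_option autoImplicit false

noncomputable section

namespace Fermat.Agent.A2.Mod.H872

open ModularCurve HahnSeries Fermat.Agent.A2.H708 Fermat.Agent.A2.H48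

variable {L : Type*} [Field L] [Algebra ℚ L] {A : ValuationSubring L}
  {F₀ : IntermediateField ℚ (LaurentSeries ℚ)}
  {V : ValuationSubring ↥(laurentBaseChange L F₀)}

/-- Integral series lie in the Gauss ring. -/
theorem mem_of_incl (hV : ∀ f : ↥(laurentBaseChange L F₀), f ∈ V ↔
      IsGaussInt A F₀ (f : LaurentSeries L))
    {f : ↥(laurentBaseChange L F₀)} {U : LaurentSeries A}
    (hf : (f : LaurentSeries L) = incl A U) : f ∈ V := by
  rw [hV, hf]
  exact IsGaussInt.of_incl U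

/-- Primitive integral series are units of the Gauss ring. -/
theorem inv_mem_of_incl (hV : ∀ f : ↥(laurentBaseChange L F₀), f ∈ V ↔
      IsGaussInt A F₀ (f : LaurentSeries L))
    {f : ↥(laurentBaseChange L F₀)} {U : LaurentSeries A}
    (hf : (f : LaurentSeries L) = incl A U) (hU : red A U ≠ 0) : f⁻¹ ∈ V := by
  rw [hV]
  have hU0 : incl A U ≠ 0 := incl_ne_zero A (ne_zero_of_red_ne_zero A hU)
  refine ⟨1, U, hU, ?_, ?_⟩
  · rw [← hf]; exact f.2
  · rw [IntermediateField.coe_inv, hf, inv_mul_cancel₀ hU0, _root_.map_one]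

/-- The constant `c ∈ A` as an integral series. -/
theorem coe_algebraMap_eq_incl (c : A) :
    ((algebraMap L ↥(laurentBaseChange L F₀) (c : L) : ↥(laurentBaseChange L F₀)) :
      LaurentSeries L) = incl A (cstA A c) := by
  rw [incl_cstA]
  rfl

/-- An integral series which is divisible in `V` by a non-unit constant has zero reduction. -/
theorem red_eq_zero_of_mul_inv_mem (hV : ∀ f : ↥(laurentBaseChange L F₀), f ∈ V ↔
      IsGaussInt A F₀ (f : LaurentSeries L))
    {f : ↥(laurentBaseChange L F₀)} {U : LaurentSeries A}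
    (hf : (f : LaurentSeries L) = incl A U) {w : A} (hw0 : (w : L) ≠ 0)
    (hw : IsLocalRing.residue A w = 0)
    (h : f * (algebraMap L ↥(laurentBaseChange L F₀) (w : L))⁻¹ ∈ V) : red A U = 0 := by
  rw [hV] at h
  obtain ⟨U₁, U₂, hU₂, -, he⟩ := h
  have hcw : cst (w : L) ≠ 0 := cst_ne_zero hw0
  have h1 : incl A (U * U₂) = incl A (cstA A w * U₁) := by
    rw [_root_.map_mul, _root_.map_mul, incl_cstA, ← he, ← hf]
    have : ((f * (algebraMap L ↥(laurentBaseChange L F₀) (w : L))⁻¹ :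
        ↥(laurentBaseChange L F₀)) : LaurentSeries L) =
        (f : LaurentSeries L) * (cst (w : L))⁻¹ := by
      rw [IntermediateField.coe_mul, IntermediateField.coe_inv]
      rfl
    rw [this]
    field_simp
  have h2 : U * U₂ = cstA A w * U₁ := incl_injective A h1
  have h3 := congrArg (red A) h2
  rw [_root_.map_mul, _root_.map_mul, red_cstA, hw, HahnSeries.single_eq_zero, zero_mul] at h3
  rcases mul_eq_zero.mp h3 with h4 | h4
  · exact h4
  · exact absurd h4 hU₂

section Unif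

variable [IsDiscreteValuationRing A]

/-- `V` is the valuation subring `H708.gaussInf`. -/
theorem eq_gaussInf (hV : ∀ f : ↥(laurentBaseChange L F₀), f ∈ V ↔
      IsGaussInt A F₀ (f : LaurentSeries L)) (hgen : IntGen F₀) :
    V = gaussInf A F₀ hgen (attainsMax_of_isNoetherianRing A F₀) := by
  ext f
  rw [hV, mem_gaussInf_iff]

/-- If `A` is a discrete valuation ring with uniformiser `w`, then `w` generates the maximal
ideal of the Gauss valuation ring. -/
theorem isUnif_of_isGauss (hV : ∀ f : ↥(laurentBaseChange L F₀), f ∈ V ↔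
      IsGaussInt A F₀ (f : LaurentSeries L)) (hgen : IntGen F₀)
    {w : A} (hw : Irreducible w) :
    IsUnif V (algebraMap L ↥(laurentBaseChange L F₀) (w : L)) := by
  have hVG := eq_gaussInf hV hgen
  set G := gaussInf A F₀ hgen (attainsMax_of_isNoetherianRing A F₀) with hG
  have hw0 : (w : L) ≠ 0 := by
    intro h
    exact hw.ne_zero (Subtype.ext h)
  have hconst : ∀ c : L, algebraMap L ↥(laurentBaseChange L F₀) c ∈ V ↔ c ∈ A := by
    intro c
    rw [hVG]
    exact algebraMap_mem_gaussInf_iff hgen _ c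
  have hwinv : (w : L)⁻¹ ∉ A := by
    intro h
    apply hw.not_isUnit
    refine isUnit_iff_exists_inv.mpr ⟨⟨(w : L)⁻¹, h⟩, ?_⟩
    apply Subtype.ext
    show (w : L) * (w : L)⁻¹ = 1
    exact mul_inv_cancel₀ hw0
  refine ⟨(hconst _).mpr w.2, ?_, ?_⟩
  · rw [← map_inv₀, hconst]
    exact hwinv
  · intro f hf hfinv
    have hf0 : f ≠ 0 := by
      rintro rfl
      exact hfinv (by rw [inv_zero]; exact zero_mem _)
    rw [hVG] at hf hfinv ⊢
    obtain ⟨c, hc0, hc⟩ := exists_const_mul_unit hgen (attainsMax_of_isNoetherianRing A F₀) hf0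
    -- `v(f) < 1`
    have hvf : G.valuation f < 1 := by
      have h1 : G.valuation f ≤ 1 := (G.valuation_le_one_iff f).mpr hf
      rcases lt_or_eq_of_le h1 with h2 | h2
      · exact h2
      · exfalso
        apply hfinv
        rw [← G.valuation_le_one_iff, map_inv₀, h2, inv_one]
    -- `v(c) = v(f)`
    have hvc0 : G.valuation (algebraMap L ↥(laurentBaseChange L F₀) c) ≠ 0 :=
      (Valuation.ne_zero_iff _).mpr (by
        intro h
        exact hc0 ((map_eq_zero _).mp h))
    have hvc : G.valuation (algebraMap L ↥(laurentBaseChange L F₀) c) = G.valuation f := by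
      rw [_root_.map_mul, map_inv₀] at hc
      have := (mul_inv_eq_one₀ hvc0).mp hc
      exact this.symm
    -- `c ∈ A`, `c` not a unit
    have hcA : c ∈ A := by
      rw [← algebraMap_mem_gaussInf_iff hgen (attainsMax_of_isNoetherianRing A F₀) c,
        ← G.valuation_le_one_iff, hvc]
      exact hvf.le
    have hcinv : c⁻¹ ∉ A := by
      intro h
      have h1 : algebraMap L ↥(laurentBaseChange L F₀) c⁻¹ ∈ G :=
        (algebraMap_mem_gaussInf_iff hgen (attainsMax_of_isNoetherianRing A F₀) c⁻¹).mpr h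
      rw [← G.valuation_le_one_iff, map_inv₀, map_inv₀, hvc] at h1
      have hvf0 : G.valuation f ≠ 0 := (Valuation.ne_zero_iff _).mpr hf0
      rw [inv_le_one₀ (zero_lt_iff.mpr hvf0)] at h1
      exact absurd hvf (not_lt.mpr h1)
    -- `w ∣ c` in `A`
    have hcm : (⟨c, hcA⟩ : A) ∈ IsLocalRing.maximalIdeal A := by
      rw [IsLocalRing.mem_maximalIdeal, mem_nonunits_iff]
      intro hu
      obtain ⟨d, hd⟩ := isUnit_iff_exists_inv.mp hu
      apply hcinv
      have h1 : c * (d : L) = 1 := congrArg Subtype.val hd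
      have : c⁻¹ = (d : L) := inv_eq_of_mul_eq_one_right h1
      rw [this]
      exact d.2
    rw [hw.maximalIdeal_eq, Ideal.mem_span_singleton] at hcm
    obtain ⟨r, hr⟩ := hcm
    have hcr : c = (w : L) * (r : L) := congrArg Subtype.val hr
    -- conclusion
    rw [← G.valuation_le_one_iff]
    have hfw : f * (algebraMap L ↥(laurentBaseChange L F₀) (w : L))⁻¹ =
        (f * (algebraMap L ↥(laurentBaseChange L F₀) c)⁻¹) *
          algebraMap L ↥(laurentBaseChange L F₀) (r : L) := by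
      have hwF : algebraMap L ↥(laurentBaseChange L F₀) (w : L) ≠ 0 := by
        intro h
        exact hw0 ((map_eq_zero _).mp h)
      have hcF : algebraMap L ↥(laurentBaseChange L F₀) c ≠ 0 := by
        intro h
        exact hc0 ((map_eq_zero _).mp h)
      have hcr' : algebraMap L ↥(laurentBaseChange L F₀) c =
          algebraMap L ↥(laurentBaseChange L F₀) (w : L) *
            algebraMap L ↥(laurentBaseChange L F₀) (r : L) := by
        rw [hcr, _root_.map_mul]
      have hrF : algebraMap L ↥(laurentBaseChange L F₀) (r : L) ≠ 0 := by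
        intro h
        rw [hcr', h, mul_zero] at hcF
        exact hcF rfl
      rw [hcr']
      field_simp
    rw [hfw, _root_.map_mul, hc, one_mul, G.valuation_le_one_iff]
    exact (algebraMap_mem_gaussInf_iff hgen (attainsMax_of_isNoetherianRing A F₀) _).mpr r.2

end Unif

end Fermat.Agent.A2.Mod.H872

end
end
-- ===== PACK-END A2/Mod/H872/GaussJ.lean

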