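import Fermat.Prelude.Def_ModularCurve_HeckeModule
import Mathlib
import Fermat.Prelude.Def_AlgebraicCurve_Correspondence
import Fermat.Prelude.Thm_ModularCurve_coeffMap_qExpand
import Fermat.Agent.Pack.S33.E4L2
import Fermat.Agent.Pack.S33.E9L2
import Fermat.Agent.Pack.S33.E8L2
import Fermat.Agent.Pack.S33.E8L3
import Fermat.Agent.Pack.S33.E8L1
import Fermat.Agent.Pack.S33.E8L0
import Fermat.Agent.Pack.S33.E3L3
import Fermat.Agent.Pack.S33.E9L1
import Fermat.Agent.Pack.S33.E9L0
import Fermat.Agent.Pack.S33.E3L2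
import Fermat.Agent.Pack.S33.E3L0

-- ===== PACK-BEGIN S56/H966/Tw.lean
section
/-
S56 helper (helper966), piece TWP (2nd owner): the twisted adjoint action as a group action,
cocycle calculus, and TWP2 = local triviality does not depend on the valuation subring over `q`.
-/



set_option autoImplicit false
set_option linter.style.haveILetI false

open scoped Pointwise

noncomputable section

namespace Fermat.Agent.S56.H966

open Fermat.Agent.S56

/-! ### Cyclotomic exponents -/

section cyc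

variable (p : ℕ)

theorem isCycExp_one : IsCycExp p 1 1 := fun μ _ => by simp

theorem isCycExp_mul {g h : GQ} {a b : ℕ} (hg : IsCycExp p g a) (hh : IsCycExp p h b) :
    IsCycExp p (g * h) (a * b) := by
  intro μ hμ
  rw [AlgEquiv.mul_apply, hh μ hμ, map_pow, hg μ hμ, ← pow_mul]

/-- A primitive `p`-th root of unity in `ℚ̄`. -/
theorem exists_primitiveRoot_Qb (N : ℕ) (hN : N ≠ 0) : ∃ ζ : Qb, IsPrimitiveRoot ζ N := by
  haveI : NeZero (N : ℚ) := ⟨by exact_mod_cast hN⟩
  exact HasEnoughRootsOfUnity.exists_primitiveRoot Qb N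

theorem exists_isCycExp (hp : p ≠ 0) (g : GQ) : ∃ a, IsCycExp p g a := by
  haveI : NeZero p := ⟨hp⟩
  obtain ⟨ζ, hζ⟩ := exists_primitiveRoot_Qb p hp
  have hgζ : (g ζ) ^ p = 1 := by rw [← map_pow, hζ.pow_eq_one, map_one]
  obtain ⟨a, -, ha⟩ := hζ.eq_pow_of_pow_eq_one hgζ
  refine ⟨a, fun μ hμ => ?_⟩
  obtain ⟨i, -, rfl⟩ := hζ.eq_pow_of_pow_eq_one hμ
  rw [map_pow, ← ha, ← pow_mul, ← pow_mul, mul_comm]

theorem isCycExp_cast_eq {k : Type} [Field k] [CharP k p] (hp : p ≠ 0) {g : GQ} {a b : ℕ}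
    (ha : IsCycExp p g a) (hb : IsCycExp p g b) : (a : k) = (b : k) := by
  obtain ⟨ζ, hζ⟩ := exists_primitiveRoot_Qb p hp
  have h1 : ζ ^ a = ζ ^ b := by rw [← ha ζ hζ.pow_eq_one, hb ζ hζ.pow_eq_one]
  have hfin : IsOfFinOrder ζ := isOfFinOrder_iff_pow_eq_one.mpr ⟨p, Nat.pos_of_ne_zero hp, hζ.pow_eq_one⟩
  rw [hfin.pow_eq_pow_iff_modEq, ← hζ.eq_orderOf] at h1
  exact (CharP.natCast_eq_natCast k p).mpr h1

end cyc

/-! ### The twisted adjoint action as an action of `G_ℚ` -/

section action

variable {k : Type} [Field k] (ρbar : ResidualGaloisRep k) (p : ℕ)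

/-- The value in `k` of the mod `p` cyclotomic character. -/
def chi (k : Type) [Field k] (p : ℕ) (g : GQ) : k :=
  open Classical in
  if h : ∃ a, IsCycExp p g a then ((Classical.choose h : ℕ) : k) else 0

theorem chi_eq [CharP k p] (hp : p ≠ 0) {g : GQ} {a : ℕ} (ha : IsCycExp p g a) :
    chi k p g = (a : k) := by
  have h : ∃ a, IsCycExp p g a := ⟨a, ha⟩
  unfold chi
  rw [dif_pos h]
  exact isCycExp_cast_eq p hp (Classical.choose_spec h) ha

theorem chi_one [CharP k p] (hp : p ≠ 0) : chi k p 1 = 1 := by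
  rw [chi_eq p hp (isCycExp_one p), Nat.cast_one]

theorem chi_mul [CharP k p] (hp : p ≠ 0) (g h : GQ) :
    chi k p (g * h) = chi k p g * chi k p h := by
  obtain ⟨a, ha⟩ := exists_isCycExp p hp g
  obtain ⟨b, hb⟩ := exists_isCycExp p hp h
  rw [chi_eq p hp (isCycExp_mul p ha hb), chi_eq p hp ha, chi_eq p hp hb, Nat.cast_mul]

/-- The twisted adjoint action `m ↦ χ(g) ρ̄(g) m ρ̄(g)⁻¹`. -/
def T (g : GQ) (m : Module.End k ρbar.V) : Module.End k ρbar.V :=
  chi k p g • (ρbar.ρ g * m * ρbar.ρ g⁻¹)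

theorem twAd_eq_T [CharP k p] (hp : p ≠ 0) {g : GQ} {a : ℕ} (ha : IsCycExp p g a)
    (m : Module.End k ρbar.V) : twAd ρbar g a m = T ρbar p g m := by
  unfold twAd T
  rw [chi_eq p hp ha]

theorem rho_mul_inv (g : GQ) : ρbar.ρ g * ρbar.ρ g⁻¹ = 1 := by
  rw [← map_mul, mul_inv_cancel, map_one]

theorem rho_inv_mul (g : GQ) : ρbar.ρ g⁻¹ * ρbar.ρ g = 1 := by
  rw [← map_mul, inv_mul_cancel, map_one]

theorem T_one [CharP k p] (hp : p ≠ 0) (m : Module.End k ρbar.V) : T ρbar p 1 m = m := by
  unfold T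
  rw [chi_one p hp, one_smul, inv_one, map_one, one_mul, mul_one]

theorem T_mul [CharP k p] (hp : p ≠ 0) (g h : GQ) (m : Module.End k ρbar.V) :
    T ρbar p (g * h) m = T ρbar p g (T ρbar p h m) := by
  unfold T
  rw [chi_mul p hp, mul_inv_rev, map_mul, map_mul, mul_smul_comm, smul_mul_assoc, smul_smul]
  simp only [mul_assoc]

theorem T_add (g : GQ) (m m' : Module.End k ρbar.V) :
    T ρbar p g (m + m') = T ρbar p g m + T ρbar p g m' := by
  unfold T
  rw [mul_add, add_mul, smul_add]

theorem T_neg (g : GQ) (m : Module.End k ρbar.V) :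
    T ρbar p g (-m) = -T ρbar p g m := by
  unfold T
  rw [mul_neg, neg_mul, smul_neg]

theorem T_sub (g : GQ) (m m' : Module.End k ρbar.V) :
    T ρbar p g (m - m') = T ρbar p g m - T ρbar p g m' := by
  rw [sub_eq_add_neg, T_add, T_neg, ← sub_eq_add_neg]

theorem T_smul (g : GQ) (a : k) (m : Module.End k ρbar.V) :
    T ρbar p g (a • m) = a • T ρbar p g m := by
  unfold T
  rw [mul_smul_comm, smul_mul_assoc, smul_comm]

theorem trace_T (g : GQ) (m : Module.End k ρbar.V) :
    LinearMap.trace k ρbar.V (T ρbar p g m) = chi k p g * LinearMap.trace k ρbar.V m := by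
  unfold T
  rw [map_smul, smul_eq_mul, LinearMap.trace_mul_comm, ← mul_assoc, rho_inv_mul, one_mul]

theorem T_inv_T [CharP k p] (hp : p ≠ 0) (g : GQ) (m : Module.End k ρbar.V) :
    T ρbar p g⁻¹ (T ρbar p g m) = m := by
  rw [← T_mul ρbar p hp, inv_mul_cancel, T_one ρbar p hp]

/-! ### Cocycle calculus -/

variable {ρbar p}

theorem coc_mul [CharP k p] (hp : p ≠ 0) {c : GQ → Module.End k ρbar.V}
    (hc : IsTwCocycle ρbar p c) (g h : GQ) : c (g * h) = c g + T ρbar p g (c h) := by
  obtain ⟨a, ha⟩ := exists_isCycExp p hp g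
  rw [hc.map_mul g h a ha, twAd_eq_T ρbar p hp ha]

theorem coc_one [CharP k p] (hp : p ≠ 0) {c : GQ → Module.End k ρbar.V}
    (hc : IsTwCocycle ρbar p c) : c 1 = 0 := by
  have h := coc_mul hp hc 1 1
  rw [mul_one, T_one ρbar p hp] at h
  exact left_eq_add.mp h

theorem coc_inv [CharP k p] (hp : p ≠ 0) {c : GQ → Module.End k ρbar.V}
    (hc : IsTwCocycle ρbar p c) (g : GQ) : c g⁻¹ = -T ρbar p g⁻¹ (c g) := by
  have h := coc_mul hp hc g⁻¹ g
  rw [inv_mul_cancel, coc_one hp hc] at h
  exact eq_neg_of_add_eq_zero_left h.symm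

theorem isTwCoboundaryOn_iff [CharP k p] (hp : p ≠ 0) (H : Subgroup GQ)
    (c : GQ → Module.End k ρbar.V) (m : Module.End k ρbar.V) :
    IsTwCoboundaryOn ρbar p H c m ↔
      LinearMap.trace k ρbar.V m = 0 ∧ ∀ σ ∈ H, c σ = T ρbar p σ m - m := by
  constructor
  · rintro ⟨h0, h⟩
    refine ⟨h0, fun σ hσ => ?_⟩
    obtain ⟨a, ha⟩ := exists_isCycExp p hp σ
    rw [h σ hσ a ha, twAd_eq_T ρbar p hp ha]
  · rintro ⟨h0, h⟩
    refine ⟨h0, fun σ hσ a ha => ?_⟩
    rw [h σ hσ, twAd_eq_T ρbar p hp ha]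

/-- **TWP2, conjugation step.**  If `c` is a coboundary on the decomposition group of `g • A`
then it is a coboundary on the decomposition group of `A`. -/
theorem coboundaryOn_of_smul [CharP k p] (hp : p ≠ 0) {c : GQ → Module.End k ρbar.V}
    (hc : IsTwCocycle ρbar p c) (g : GQ) (A : ValuationSubring Qb) {m : Module.End k ρbar.V}
    (h : IsTwCoboundaryOn ρbar p ((g • A).decompositionSubgroup ℚ) c m) :
    ∃ m', IsTwCoboundaryOn ρbar p (A.decompositionSubgroup ℚ) c m' := by
  rw [isTwCoboundaryOn_iff hp] at h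
  obtain ⟨h0, h⟩ := h
  refine ⟨T ρbar p g⁻¹ (m + c g), ?_⟩
  rw [isTwCoboundaryOn_iff hp]
  refine ⟨?_, fun σ hσ => ?_⟩
  · rw [trace_T, map_add, h0, hc.trace_eq_zero, add_zero, mul_zero]
  · have hconj := h (g * σ * g⁻¹) (Fermat.Agent.Lib.Cheb.H476.conj_mem_decomposition g hσ)
    -- expand `c (g σ g⁻¹)` by the cocycle rule
    have h1 : c (g * σ * g⁻¹) = c g + T ρbar p g (c σ) - T ρbar p (g * σ * g⁻¹) (c g) := by
      rw [coc_mul hp hc (g * σ) g⁻¹, coc_mul hp hc g σ, coc_inv hp hc g, T_neg,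
        ← T_mul ρbar p hp (g * σ) g⁻¹, sub_eq_add_neg]
    rw [h1] at hconj
    -- solve for `T g (c σ)`
    have h2 : T ρbar p g (c σ) = T ρbar p (g * σ * g⁻¹) (m + c g) - (m + c g) := by
      have h2' : T ρbar p g (c σ) =
          (T ρbar p (g * σ * g⁻¹) m - m) - c g + T ρbar p (g * σ * g⁻¹) (c g) := by
        rw [← hconj]
        abel
      rw [h2', T_add]
      abel
    -- apply `T g⁻¹`
    have h3 := congrArg (T ρbar p g⁻¹) h2
    have e : g⁻¹ * (g * σ * g⁻¹) = σ * g⁻¹ := by group
    rw [T_inv_T ρbar p hp, T_sub, ← T_mul ρbar p hp, e, T_mul ρbar p hp] at h3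
    exact h3

end action

end Fermat.Agent.S56.H966

end
end
-- ===== PACK-END S56/H966/Tw.lean

-- ===== PACK-BEGIN S37/H697/Relation.lean
section



/-!
# S37 (helper697): the Eichler–Shimura relation on divisors, from the Kronecker congruence for norms

`r` a place reduction, `Tdiv = heckeDivBar = pushforwardAlong α ∘ pullbackAlong β` the Hecke
correspondence on divisors, `Φ = coeffSL N φ` (`φ` an automorphism of the residue field — the
Frobenius in the application).  If for every integral `y` the norm `Nm_α (β y)` is integral with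
reduction `(Φ⁻¹ ȳ) ^ ℓ * Φ ȳ` (`KroneckerNorm`), then

  `r_* (Tdiv D) = Φ • r_* D + ℓ • Φ⁻¹ • r_* D`    for every divisor `D` of degree `0`.

No pointwise description of `Tdiv` or of `r` is used: the difference of the two sides kills
principal divisors and is bounded, hence vanishes in degree zero by the Riemann bound.
-/

set_option autoImplicit false
set_option linter.style.haveILetI false

noncomputable section

open HahnSeries IntermediateField AlgebraicCurve ModularCurve

namespace Fermat.Agent.S37.H697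

section AlongLemmas

variable {K F F' : Type*} [Field K] [Field F] [Field F'] [Algebra K F] [Algebra K F']

/-- The norm along an algebra homomorphism `φ : F → F'`. -/
def normAlong (φ : F →ₐ[K] F') : F' → F :=
  letI := algebraAlong φ
  Algebra.norm F

theorem pullbackAlong_apply_eq_ord [HasPrincipalDivisors K F'] (φ : F →ₐ[K] F')
    (hφ : φ.toRingHom.IsIntegral) {f : F} {D : Divisor K F}
    (hD : ∀ v : Place K F, D v = v.ord f) (w : Place K F') :
    Divisor.pullbackAlong φ hφ D w = w.ord (φ f) := by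
  letI := algebraAlong φ
  haveI := isScalarTower_along φ
  haveI := isIntegral_along φ hφ
  exact Divisor.pullback_apply_eq_ord hD w

theorem pushforwardAlong_apply_eq_ord (φ : F →ₐ[K] F') (hφ : φ.toRingHom.IsIntegral)
    (hfin : FiniteAlong K φ) (hN : NormFormulaAlong K φ hfin) {f : F'} (hf : f ≠ 0)
    {D : Divisor K F'} (hD : ∀ w : Place K F', D w = w.ord f) (v : Place K F) :
    Divisor.pushforwardAlong φ hφ D v = v.ord (normAlong φ f) := by
  letI := algebraAlong φ
  haveI := isScalarTower_along φ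
  haveI := isIntegral_along φ hφ
  haveI : Module.Finite F F' := hfin
  exact hN f hf D hD v

theorem normAlong_ne_zero (φ : F →ₐ[K] F') (hfin : FiniteAlong K φ) {f : F'} (hf : f ≠ 0) :
    normAlong φ f ≠ 0 := by
  letI := algebraAlong φ
  haveI : Module.Finite F F' := hfin
  exact Algebra.norm_ne_zero_iff.mpr hf

end AlongLemmas

section Relation

variable {L : Type*} [Field L] [Algebra ℚ L] {A : ValuationSubring L}
variable {k : Type*} [Field k] {π : A →+* k} {N ℓ : ℕ} [NeZero N] [NeZero ℓ]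

/-- **Kronecker congruence for norms** (hypothesis of the relation): for every integral `y` with
nonzero reduction `ȳ`, the norm of `β y = y(q^ℓ)` along `α` is integral, with reduction
`(Φ⁻¹ ȳ) ^ ℓ * Φ ȳ`. -/
def KroneckerNorm (A : ValuationSubring L) (π : A →+* k) (N ℓ : ℕ) [NeZero N] [NeZero ℓ]
    (φ : k ≃+* k) : Prop :=
  ∀ (y : LaurentSeries A)
    (hy : coeffMap A.subtype y ∈ laurentBaseChange L (modularFunctionFieldFull N)),
    coeffMap π y ∈ modularFunctionFieldFullC k N → coeffMap π y ≠ 0 →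
    ∃ (z : LaurentSeries A)
      (hz : coeffMap A.subtype z ∈ laurentBaseChange L (modularFunctionFieldFull N)),
      normAlong (heckeAlphaBar L N ℓ) (heckeBetaBar L N ℓ ⟨coeffMap A.subtype y, hy⟩)
          = ⟨coeffMap A.subtype z, hz⟩ ∧
        coeffMap π z = (coeffMap (φ.symm : k →+* k) (coeffMap π y)) ^ ℓ
          * coeffMap (φ : k →+* k) (coeffMap π y)

variable (hα : HeckeAlphaBarIntegral L N ℓ) (hβ : HeckeBetaBarIntegral L N ℓ)
variable [HasPrincipalDivisors L (laurentBaseChange L (modularFunctionFieldFull (N * ℓ)))]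

/-- The relation on integral principal divisors. -/
theorem relation_integral
    {r : Place L (laurentBaseChange L (modularFunctionFieldFull N)) →
      Place k (modularFunctionFieldFullC k N)}
    (hr : IsPlaceReductionAlong A π N r)
    (hfin : FiniteAlong L (heckeAlphaBar L N ℓ))
    (hN : NormFormulaAlong L (heckeAlphaBar L N ℓ) hfin)
    (φ : k ≃+* k) (hK : KroneckerNorm A π N ℓ φ)
    {D : Divisor L (laurentBaseChange L (modularFunctionFieldFull N))}
    (hD : D ∈ integralPrincipalDivisors A π N) :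
    Finsupp.mapDomain r (heckeDivBar hα hβ D)
      = coeffSL N φ • Finsupp.mapDomain r D
        + ℓ • ((coeffSL N φ)⁻¹ • Finsupp.mapDomain r D) := by
  obtain ⟨y, hy, hyk, hne, hDy⟩ := hD
  set Φ := coeffSL N φ with hΦ
  obtain ⟨z, hz, hnorm, hzred⟩ := hK y hy hyk hne
  -- the reduction of `y`
  set ybar : modularFunctionFieldFullC k N := ⟨coeffMap π y, hyk⟩ with hybar
  have hybar0 : ybar ≠ 0 := fun h => hne (congrArg Subtype.val h)
  have hΦy0 : Φ • ybar ≠ 0 := by simpa using hybar0
  have hΦiy0 : Φ⁻¹ • ybar ≠ 0 := by simpa using hybar0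
  -- the reduction of `z`
  have hzk_eq : coeffMap π z = (((Φ⁻¹ • ybar) ^ ℓ * (Φ • ybar) :
      modularFunctionFieldFullC k N) : LaurentSeries k) := by
    rw [hzred]
    rfl
  have hzk : coeffMap π z ∈ modularFunctionFieldFullC k N := by
    rw [hzk_eq]; exact Subtype.property _
  have hzbar : (⟨coeffMap π z, hzk⟩ : modularFunctionFieldFullC k N)
      = (Φ⁻¹ • ybar) ^ ℓ * (Φ • ybar) := Subtype.ext hzk_eq
  have hzne : coeffMap π z ≠ 0 := by
    intro h0
    have : ((Φ⁻¹ • ybar) ^ ℓ * (Φ • ybar) : modularFunctionFieldFullC k N) = 0 := by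
      rw [← hzbar]; exact Subtype.ext h0
    exact mul_ne_zero (pow_ne_zero _ hΦiy0) hΦy0 this
  -- the divisor `Tdiv D` is the divisor of the norm
  have hy0 : (⟨coeffMap A.subtype y, hy⟩ : laurentBaseChange L (modularFunctionFieldFull N)) ≠ 0 := by
    intro h0
    apply hne
    have h1 : coeffMap A.subtype y = 0 := congrArg Subtype.val h0
    have h2 : y = 0 := by
      apply coeffMap_injective_of_injective A.subtype Subtype.val_injective
      rw [h1, _root_.map_zero]
    rw [h2, _root_.map_zero]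
  have hβy0 : heckeBetaBar L N ℓ ⟨coeffMap A.subtype y, hy⟩ ≠ 0 := by
    simpa using hy0
  have hT : ∀ P, (heckeDivBar hα hβ D) P
      = P.ord (⟨coeffMap A.subtype z, hz⟩ : laurentBaseChange L (modularFunctionFieldFull N)) := by
    intro P
    show Divisor.pushforwardAlong (heckeAlphaBar L N ℓ) hα
      (Divisor.pullbackAlong (heckeBetaBar L N ℓ) hβ D) P = _
    rw [pushforwardAlong_apply_eq_ord (heckeAlphaBar L N ℓ) hα hfin hN hβy0
        (fun w => pullbackAlong_apply_eq_ord (heckeBetaBar L N ℓ) hβ hDy w) P, hnorm]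
  have key1 := hr.2 z hz hzk hzne (heckeDivBar hα hβ D) hT
  have key0 := hr.2 y hy hyk hne D hDy
  ext Q
  rw [key1 Q, Finsupp.add_apply, Finsupp.smul_apply, SemilinearAut.divisor_smul_apply,
    SemilinearAut.divisor_smul_apply, inv_inv, key0, key0, hzbar,
    Place.ord_mul _ (pow_ne_zero _ hΦiy0) hΦy0]
  have h1 : Q.ord ((Φ⁻¹ • ybar) ^ ℓ) = ℓ * Q.ord (Φ⁻¹ • ybar) := by
    have := Q.ord_zpow (Φ⁻¹ • ybar) (ℓ : ℤ)
    rwa [zpow_natCast] at this
  have h2 : Q.ord (Φ⁻¹ • ybar) = (Φ • Q).ord ybar := by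
    have := SemilinearAut.ord_smul Φ⁻¹ (Φ • Q) ybar
    rwa [inv_smul_smul] at this
  have h3 : Q.ord (Φ • ybar) = (Φ⁻¹ • Q).ord ybar := by
    have := SemilinearAut.ord_smul Φ (Φ⁻¹ • Q) ybar
    rwa [smul_inv_smul] at this
  rw [h1, h2, h3, nsmul_eq_mul]
  ring

/-- **Eichler–Shimura relation on divisors of degree zero.** -/
theorem relation_divisor
    {r : Place L (laurentBaseChange L (modularFunctionFieldFull N)) →
      Place k (modularFunctionFieldFullC k N)}
    (hr : IsPlaceReductionAlong A π N r) (hgen : PrincipalGeneratedByIntegral A π N)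
    (hR : RiemannBound L (laurentBaseChange L (modularFunctionFieldFull N)))
    (hfin : FiniteAlong L (heckeAlphaBar L N ℓ))
    (hN : NormFormulaAlong L (heckeAlphaBar L N ℓ) hfin)
    (φ : k ≃+* k) (hK : KroneckerNorm A π N ℓ φ)
    (C : ℕ) (hC : ∀ P : Place L (laurentBaseChange L (modularFunctionFieldFull N)),
      l1norm (heckeDivBar hα hβ (Finsupp.single P 1)) ≤ C)
    (D : Divisor L (laurentBaseChange L (modularFunctionFieldFull N)))
    (hD : Divisor.degree D = 0) :
    Finsupp.mapDomain r (heckeDivBar hα hβ D)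
      = coeffSL N φ • Finsupp.mapDomain r D
        + ℓ • ((coeffSL N φ)⁻¹ • Finsupp.mapDomain r D) := by
  classical
  set Φ := coeffSL N φ with hΦ
  set T := heckeDivBar (L := L) hα hβ with hTdef
  set δ : Divisor L (laurentBaseChange L (modularFunctionFieldFull N)) →+
      Divisor k (modularFunctionFieldFullC k N) :=
    (Finsupp.mapDomain.addMonoidHom r).comp T
      - (DistribSMul.toAddMonoidHom (Divisor k (modularFunctionFieldFullC k N)) Φ
          + ℓ • DistribSMul.toAddMonoidHom (Divisor k (modularFunctionFieldFullC k N)) Φ⁻¹).comp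
        (Finsupp.mapDomain.addMonoidHom r) with hδ
  have hδapp : ∀ E, δ E = Finsupp.mapDomain r (T E)
      - (Φ • Finsupp.mapDomain r E + ℓ • (Φ⁻¹ • Finsupp.mapDomain r E)) := fun E => rfl
  have hδprin : ∀ E ∈ Divisor.principal (K := L)
      (F := laurentBaseChange L (modularFunctionFieldFull N)), δ E = 0 := by
    intro E hE
    have hE' := hgen hE
    clear hE
    induction hE' using AddSubgroup.closure_induction with
    | mem E hE => rw [hδapp, relation_integral hα hβ hr hfin hN φ hK hE, sub_self]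
    | zero => exact _root_.map_zero δ
    | add E E' _ _ hE hE' => rw [_root_.map_add, hE, hE', add_zero]
    | neg E _ hE => rw [_root_.map_neg, hE, neg_zero]
  have hl1map : ∀ (E : Divisor L (laurentBaseChange L (modularFunctionFieldFull N))),
      l1norm (Finsupp.mapDomain r E) ≤ l1norm E := by
    intro E
    induction E using Finsupp.induction with
    | zero => simp
    | single_add P n E hP hn ih =>
      rw [Finsupp.mapDomain_add, Finsupp.mapDomain_single]
      refine (l1norm_add_le _ _).trans ?_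
      have : l1norm (Finsupp.single P n + E) = n.natAbs + l1norm E := by
        unfold l1norm
        rw [Finsupp.sum_add_index_of_disjoint]
        · simp
        · rw [Finset.disjoint_left]
          intro x hx hx'
          have : x = P := by
            have := Finsupp.support_single_subset hx
            simpa using this
          exact hP (this ▸ hx')
      rw [this, l1norm_single]
      exact Nat.add_le_add_left ih _
  have hδC : ∀ P : Place L (laurentBaseChange L (modularFunctionFieldFull N)),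
      l1norm (δ (Finsupp.single P 1)) ≤ C + (1 + ℓ) := by
    intro P
    rw [hδapp]
    refine (l1norm_sub_le _ _).trans (Nat.add_le_add ((hl1map _).trans (hC P)) ?_)
    rw [Finsupp.mapDomain_single, SemilinearAut.smul_single, SemilinearAut.smul_single,
      Finsupp.smul_single]
    refine (l1norm_add_le _ _).trans ?_
    rw [l1norm_single, l1norm_single]
    simp
  have h0 := eq_zero_of_kills_principal hR δ hδprin _ hδC D hD
  rw [hδapp, sub_eq_zero] at h0
  exact h0

end Relation

end Fermat.Agent.S37.H697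

end
end
-- ===== PACK-END S37/H697/Relation.lean

-- ===== PACK-BEGIN S37/H818/PushPull.lean
section
/-
S37 / LEVEL TRANSFER (helper818), part 6: `i_* i^* = [G : F]` on divisors, from the norm formula
alone; consequences: `SumRamificationInertia`, `FundamentalIdentityAlong`, and
`π^* x = 0 → [G:F] • x = 0` on `Pic0`.
-/




set_option autoImplicit false
set_option linter.style.haveILetI false

noncomputable section

namespace Fermat.Agent.S37.H818

open AlgebraicCurve

variable {K F G : Type*} [Field K] [Field F] [Field G] [Algebra K F] [Algebra K G]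

section

variable (i : F →ₐ[K] G) (hi : i.toRingHom.IsIntegral)
variable [HasPrincipalDivisors K G]

/-- The defect of `i_* i^* = d`. -/
def ppDefect : Divisor K F →+ Divisor K F :=
  (Divisor.pushforwardAlong i hi).comp (Divisor.pullbackAlong i hi) -
    (finrankAlong K i : ℤ) • AddMonoidHom.id (Divisor K F)

theorem ppDefect_apply (D : Divisor K F) :
    ppDefect i hi D =
      Divisor.pushforwardAlong i hi (Divisor.pullbackAlong i hi D) - (finrankAlong K i : ℤ) • D :=
  rfl

theorem ppDefect_single_apply_of_ne (v : Place K F) (n : ℤ) (u : Place K F) (hu : u ≠ v) :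
    ppDefect i hi (Finsupp.single v n) u = 0 := by
  classical
  rw [ppDefect_apply, Finsupp.sub_apply, Finsupp.smul_apply, Finsupp.single_eq_of_ne hu,
    smul_zero, sub_zero, Divisor.pullbackAlong_single, map_sum, Finset.sum_apply']
  refine Finset.sum_eq_zero fun W hW => ?_
  rw [Divisor.pushforwardAlong_single]
  refine Finsupp.single_eq_of_ne ?_
  rw [Place.mem_fiberAlong.mp hW]
  exact hu

theorem ppDefect_principal (hfin : FiniteAlong K i) (hN : NormFormulaAlong K i hfin)
    {f : F} (hf : f ≠ 0) {D : Divisor K F} (hD : ∀ v, D v = v.ord f) :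
    ppDefect i hi D = 0 := by
  rw [ppDefect_apply, sub_eq_zero]
  ext u
  have hD' : ∀ W : Place K G, Divisor.pullbackAlong i hi D W = W.ord (i f) := by
    intro W
    letI := algebraAlong i
    haveI := isScalarTower_along i
    haveI := isIntegral_along i hi
    exact Divisor.pullback_apply_eq_ord (F' := G) hD W
  have h1 : Divisor.pushforwardAlong i hi (Divisor.pullbackAlong i hi D) u =
      u.ord (f ^ finrankAlong K i) := by
    letI := algebraAlong i
    haveI := isScalarTower_along i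
    haveI := isIntegral_along i hi
    haveI : Module.Finite F G := hfin
    have hf' : i f ≠ 0 := by simpa using hf
    have := hN (i f) hf' _ hD' u
    rw [show Divisor.pushforwardAlong i hi (Divisor.pullbackAlong i hi D) =
      Divisor.pushforward F (Divisor.pullbackAlong i hi D) from rfl, this]
    have hnorm : Algebra.norm F (i f) = f ^ Module.finrank F G :=
      Algebra.norm_algebraMap (S := G) f
    rw [hnorm]
    rfl
  rw [h1, Finsupp.smul_apply, hD, smul_eq_mul]
  have := u.ord_zpow f (finrankAlong K i : ℤ)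
  rwa [zpow_natCast] at this

variable [HasPrincipalDivisors K F]

/-- `i_* i^* = [G : F]` on divisors. -/
theorem pushforward_pullback_eq (hfin : FiniteAlong K i) (hN : NormFormulaAlong K i hfin)
    (D : Divisor K F) :
    Divisor.pushforwardAlong i hi (Divisor.pullbackAlong i hi D) = (finrankAlong K i : ℤ) • D := by
  classical
  rw [← sub_eq_zero, ← ppDefect_apply]
  set δ := ppDefect i hi with hδ
  suffices h : ∀ w : Place K F, δ (Finsupp.single w 1) = 0 by
    induction D using Finsupp.induction with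
    | zero => simp
    | single_add w n D _ _ ih =>
      rw [map_add, ih, add_zero]
      have : Finsupp.single w n = n • Finsupp.single w (1 : ℤ) := by
        rw [Finsupp.smul_single, smul_eq_mul, mul_one]
      rw [this, map_zsmul, h w, smul_zero]
  intro w₀
  ext u
  rw [Finsupp.zero_apply]
  by_cases hu : u = w₀
  swap
  · exact ppDefect_single_apply_of_ne i hi w₀ 1 u hu
  subst hu
  obtain ⟨f, hf0, hfu⟩ := exists_ord_eq_one u
  obtain ⟨D, hD, -⟩ := HasPrincipalDivisors.exists_divisor (K := K) f hf0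
  have h0 : δ D = 0 := ppDefect_principal i hi hfin hN hf0 hD
  have hsum : δ D u = ∑ w ∈ D.support, δ (Finsupp.single w (D w)) u := by
    conv_lhs => rw [← Finsupp.sum_single D]
    rw [Finsupp.sum, map_sum, Finset.sum_apply']
  have hu₀ : u ∈ D.support := by
    rw [Finsupp.mem_support_iff, hD, hfu]
    exact one_ne_zero
  rw [Finset.sum_eq_single_of_mem u hu₀ (fun w _ hw =>
    ppDefect_single_apply_of_ne i hi w (D w) u (Ne.symm hw)), h0, Finsupp.zero_apply, hD,
    hfu] at hsum
  exact hsum.symm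

/-- The fundamental identity `∑ e f = n` follows from the norm formula. -/
theorem fundamentalIdentityAlong_of_normFormula (hfin : FiniteAlong K i)
    (hN : NormFormulaAlong K i hfin) : FundamentalIdentityAlong K i hi := by
  classical
  letI := algebraAlong i
  haveI := isScalarTower_along i
  haveI := isIntegral_along i hi
  refine ⟨fun v => ?_⟩
  have h := congrArg Divisor.degree (pushforward_pullback_eq i hi hfin hN (Finsupp.single v 1))
  rw [Divisor.degree_pushforwardAlong, map_zsmul, Divisor.degree_single, one_mul,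
    show Divisor.pullbackAlong i hi (Finsupp.single v 1) =
      Divisor.pullback G (Finsupp.single v 1) from rfl,
    Divisor.pullback_single, map_sum] at h
  simp only [Divisor.degree_single, one_mul, smul_eq_mul] at h
  rw [h]
  rfl

/-- `π^* x = 0` implies `[G : F] • x = 0`. -/
theorem nsmul_eq_zero_of_pullbackPic0Along_eq_zero (hfin : FiniteAlong K i)
    (hN : NormFormulaAlong K i hfin) (hFI : FundamentalIdentityAlong K i hi)
    (x : Pic0 K F) (hx : pullbackPic0Along i hi hFI x = 0) :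
    (finrankAlong K i) • x = 0 := by
  obtain ⟨D, rfl⟩ := Pic0.mk_surjective x
  rw [pullbackPic0Along_mk] at hx
  have hprin : Divisor.IsPrincipal (Divisor.pullbackAlong i hi (D : Divisor K F)) := by
    have := (QuotientAddGroup.eq_zero_iff _).mp hx
    rw [AddSubgroup.mem_addSubgroupOf] at this
    exact this
  have hpush := Divisor.isPrincipal_pushforwardAlong i hi hfin hN hprin
  rw [pushforward_pullback_eq i hi hfin hN] at hpush
  have : (finrankAlong K i) • (Pic0.mk D) = Pic0.mk ((finrankAlong K i) • D) := rfl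
  rw [this]
  refine (QuotientAddGroup.eq_zero_iff _).mpr ?_
  rw [AddSubgroup.mem_addSubgroupOf]
  have hcoe : (((finrankAlong K i) • D : Divisor.degZero (K := K) (F := F)) : Divisor K F) =
      (finrankAlong K i : ℤ) • (D : Divisor K F) := by
    rw [AddSubgroupClass.coe_nsmul, natCast_zsmul]
  rw [hcoe]
  exact hpush

end

end Fermat.Agent.S37.H818

end

end
-- ===== PACK-END S37/H818/PushPull.lean

-- ===== PACK-BEGIN S37/H818/GaloisEquiv.lean
section
/-
S37 / LEVEL TRANSFER (helper818), part 7: pullback of divisors / `Pic0` classes along `i`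
commutes with intertwined semilinear automorphisms (Galois equivariance of `π^*`).
-/




set_option autoImplicit false
set_option linter.style.haveILetI false

noncomputable section

namespace Fermat.Agent.S37.H818

open AlgebraicCurve
open scoped Pointwise

variable {K F G : Type*} [Field K] [Field F] [Field G] [Algebra K F] [Algebra K G]

section

variable (i : F →ₐ[K] G) (hi : i.toRingHom.IsIntegral)
  {g : SemilinearAut K F} {g' : SemilinearAut K G}
  (h : SemilinearAut.IntertwinesAlong (i : F →+* G) g g')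

theorem mem_restrictAlong_iff (W : Place K G) (x : F) :
    x ∈ (W.restrictAlong i hi).toValuationSubring ↔ i x ∈ W.toValuationSubring := Iff.rfl

include h in
theorem restrictAlong_smul (W : Place K G) :
    (g' • W).restrictAlong i hi = g • (W.restrictAlong i hi) := by
  apply Place.ext
  ext x
  rw [mem_restrictAlong_iff, SemilinearAut.smul_toValuationSubring,
    SemilinearAut.smul_toValuationSubring,
    ValuationSubring.mem_pointwise_smul_iff_inv_smul_mem,
    ValuationSubring.mem_pointwise_smul_iff_inv_smul_mem, mem_restrictAlong_iff]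
  have := h.inv x
  simp only [RingHom.coe_coe] at this
  rw [this]

include h hi in
theorem ramificationIndexAlong_smul (W : Place K G) :
    Place.ramificationIndexAlong i (g' • W) = Place.ramificationIndexAlong i W := by
  obtain ⟨f, -, hf⟩ := exists_ord_eq_one (W.restrictAlong i hi)
  have h1 := Place.ord_restrictAlong i hi W f
  rw [hf, mul_one] at h1
  have h2 := Place.ord_restrictAlong i hi (g' • W) (g • f)
  rw [restrictAlong_smul i hi h W, SemilinearAut.ord_smul, hf, mul_one] at h2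
  have h3 : i (g • f) = g' • (i f) := by
    have := h f
    simp only [RingHom.coe_coe] at this
    exact this.symm
  rw [h3, SemilinearAut.ord_smul, h1] at h2
  exact_mod_cast h2.symm

variable [HasPrincipalDivisors K G]

include h in
/-- Pullback of divisors is equivariant. -/
theorem pullbackAlong_smul (D : Divisor K F) :
    Divisor.pullbackAlong i hi (g • D) = g' • Divisor.pullbackAlong i hi D := by
  ext W
  rw [Divisor.pullbackAlong_apply, SemilinearAut.divisor_smul_apply,
    SemilinearAut.divisor_smul_apply, Divisor.pullbackAlong_apply,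
    restrictAlong_smul i hi h.inv W, ramificationIndexAlong_smul i hi h.inv W]

include h in
/-- `π^*` is equivariant on `Pic0`. -/
theorem pullbackPic0Along_smul (hFI : FundamentalIdentityAlong K i hi) (x : Pic0 K F) :
    pullbackPic0Along i hi hFI (g • x) = g' • pullbackPic0Along i hi hFI x := by
  obtain ⟨D, rfl⟩ := Pic0.mk_surjective x
  rw [SemilinearAut.pic0_smul_mk, pullbackPic0Along_mk, pullbackPic0Along_mk,
    SemilinearAut.pic0_smul_mk]
  congr 1
  apply Subtype.ext
  simp only [coe_pullbackDegZeroAlong, SemilinearAut.coe_degZeroSMulHom]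
  exact pullbackAlong_smul i hi h D

end

end Fermat.Agent.S37.H818

end

end
-- ===== PACK-END S37/H818/GaloisEquiv.lean

-- ===== PACK-BEGIN S37/H28/NCGen.lean
section



/-!
# S37 / node_rim, NC producer (helper28), part 1: generic form

`K` a field of characteristic `0`, `F` a field with `[Algebra K[X] F]` (the coordinate is
`x = algebraMap K[X] F X`), finite over `L₀ = Frac K[X]`.  `B_η = integralClosure K[X] F`.

* `isRadical_span_X_sub_C` : if `F` is unramified over `x = c` (in the valuation-subring shape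
  of the field `unramified` of `S18.Alg.GoodModel`), then `(X - C c)` generates a radical ideal
  of `B_η`.  This is the hypothesis `hNC` of `S37.H159.RedCtx.lift_integral` (Theorem M).
* `isIntegralElem_div_of_pow` : the elementwise form.
* `unramified_inv` : the `unramified` shape for the coordinate `x⁻¹`.
-/

set_option autoImplicit false
set_option linter.unusedSectionVars false
set_option linter.style.haveILetI false

noncomputable section

namespace Fermat.Agent.S37.H28

open Polynomial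

section Generic

variable {K : Type*} [Field K] [CharZero K] {F : Type*} [Field F] [Algebra K[X] F]
variable (L₀ : Type*) [Field L₀] [Algebra K[X] L₀] [IsFractionRing K[X] L₀] [Algebra L₀ F]
  [IsScalarTower K[X] L₀ F] [FiniteDimensional L₀ F]

include L₀ in
theorem algebraMap_polynomial_injective : Function.Injective (algebraMap K[X] F) := by
  rw [IsScalarTower.algebraMap_eq K[X] L₀ F]
  exact (algebraMap L₀ F).injective.comp (IsFractionRing.injective K[X] L₀)

omit [Algebra K[X] F] [Algebra L₀ F] [IsScalarTower K[X] L₀ F] [FiniteDimensional L₀ F] in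
theorem charZero_of_fractionRing (K : Type*) [Field K] [CharZero K] (L₀ : Type*) [Field L₀]
    [Algebra K[X] L₀] [IsFractionRing K[X] L₀] : CharZero L₀ := by
  have h : Function.Injective ((algebraMap K[X] L₀).comp (C : K →+* K[X])) :=
    (IsFractionRing.injective K[X] L₀).comp Polynomial.C_injective
  exact charZero_of_injective_ringHom h

include L₀ in
theorem isNoetherianRing_integralClosure : IsNoetherianRing (integralClosure K[X] F) := by
  haveI : CharZero L₀ := charZero_of_fractionRing K L₀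
  exact IsIntegralClosure.isNoetherianRing K[X] L₀ F (integralClosure K[X] F)

include L₀ in
theorem isIntegrallyClosed_integralClosure : IsIntegrallyClosed (integralClosure K[X] F) :=
  integralClosure.isIntegrallyClosedOfFiniteExtension L₀

include L₀ in
/-- **NC, typed form** (= `hNC` of Theorem M): unramified over `x = c` implies that `X - C c`
generates a radical ideal of `B_η`. -/
theorem isRadical_span_X_sub_C (Lc : Subfield F)
    (hLc : ∀ a ∈ Lc, ∃ a₀ : K, algebraMap K[X] F (C a₀) = a)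
    (S : Finset F)
    (hunr : ∀ O : ValuationSubring F, (∀ a ∈ Lc, a ∈ O) → ∀ c ∈ Lc, c ∉ S →
      algebraMap K[X] F X - c ∈ O → (algebraMap K[X] F X - c)⁻¹ ∉ O →
        ∀ t ∈ O, t⁻¹ ∉ O → t * (algebraMap K[X] F X - c)⁻¹ ∈ O)
    (c : K) (hcL : algebraMap K[X] F (C c) ∈ Lc) (hcS : algebraMap K[X] F (C c) ∉ S) :
    (Ideal.span {algebraMap K[X] (integralClosure K[X] F) (X - C c)}).IsRadical := by
  classical
  haveI := isNoetherianRing_integralClosure (K := K) (F := F) L₀
  haveI := isIntegrallyClosed_integralClosure (K := K) (F := F) L₀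
  have hinj := algebraMap_polynomial_injective (K := K) (F := F) L₀
  have hπ : algebraMap K[X] (integralClosure K[X] F) (X - C c) ≠ 0 := by
    intro h0
    have h1 : algebraMap K[X] F (X - C c) = 0 := by
      have := congrArg (algebraMap (integralClosure K[X] F) F) h0
      rwa [← IsScalarTower.algebraMap_apply, _root_.map_zero] at this
    have h2 : (X - C c : K[X]) = 0 := hinj (by rw [h1, _root_.map_zero])
    exact Polynomial.X_sub_C_ne_zero c h2
  refine Fermat.Agent.S18.H754.isRadical_span_of_unramified (Ω := F) Lc _ hπ 1 ?_ ?_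
    (algebraMap K[X] F X) S {algebraMap K[X] F (C c)} ?_ 1 (one_mem _) one_ne_zero ?_ hunr
  · intro 𝔓 h𝔓 _ _ h1
    exact h𝔓.ne_top ((Ideal.eq_top_iff_one _).2 h1)
  · intro a ha
    obtain ⟨a₀, rfl⟩ := hLc a ha
    refine ⟨0, ?_⟩
    rw [pow_zero, one_mul]
    have : algebraMap K[X] F (C a₀) =
        algebraMap (integralClosure K[X] F) F (algebraMap K[X] (integralClosure K[X] F) (C a₀)) := by
      rw [← IsScalarTower.algebraMap_apply]
    rw [this]
    exact isIntegral_algebraMap
  · intro c' hc'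
    rw [Finset.mem_singleton] at hc'
    subst hc'
    exact ⟨hcL, hcS⟩
  · rw [Finset.prod_singleton, one_mul, ← IsScalarTower.algebraMap_apply, _root_.map_sub]

end Generic

end Fermat.Agent.S37.H28

end
end
-- ===== PACK-END S37/H28/NCGen.lean

-- ===== PACK-BEGIN S37/H159/MOrder.lean
section



/-!
# Theorem M, part 3: the order `T = ρ(O ∩ B_η)` of the special fibre
(row S37, piece R-b; seat helper159)

`B_η` = integral closure of `K[x]` in `F`, `B = O ∩ B_η`, `T = ρ(B) ⊆ F_k`.
`T` is a `k[X]`-subalgebra of `F_k`, integral over `k[X]`, with fraction field `F_k`, finite free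
of rank `n = [F_k : k(x̄)]` over `k[X]`.
-/

set_option autoImplicit false
set_option linter.unusedSectionVars false
set_option linter.style.haveILetI false

namespace Fermat.Agent.S37.H159

open Polynomial

namespace RedCtx

variable {K : Type*} [Field K] {A : ValuationSubring K} {k : Type*} [Field k]
  {F : Type*} [Field F] [Algebra K[X] F] {Fk : Type*} [Field Fk] [Algebra k[X] Fk]
  (G : RedCtx A k F Fk)

/-- `B = O ∩ B_η` as a subring of `O`. -/
noncomputable def Bsub : Subring G.O := (integralClosure K[X] F).toSubring.comap G.O.subtype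

theorem mem_Bsub (f : G.O) : f ∈ G.Bsub ↔ IsIntegral K[X] (f : F) := Iff.rfl

/-- the order `T = ρ(B)` of the special fibre -/
noncomputable def Tk : Subalgebra k[X] Fk :=
  { (G.Bsub.map G.ρ).toSubsemiring with
    algebraMap_mem' := fun p => by
      obtain ⟨P, rfl⟩ := Polynomial.map_surjective G.π G.π_surj p
      exact ⟨G.polyO P, (isIntegral_algebraMap : IsIntegral K[X] (algebraMap K[X] F _)),
        G.ρ_polyO P⟩ }

theorem mem_Tk (z : Fk) : z ∈ G.Tk ↔ ∃ f : G.O, IsIntegral K[X] (f : F) ∧ G.ρ f = z :=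
  Iff.rfl

theorem ρ_mem_Tk (f : G.O) (hf : IsIntegral K[X] (f : F)) : G.ρ f ∈ G.Tk := ⟨f, hf, rfl⟩

section Rational

variable (L₀ : Type*) [Field L₀] [Algebra K[X] L₀] [IsFractionRing K[X] L₀] [Algebra L₀ F]
  [IsScalarTower K[X] L₀ F] [FiniteDimensional L₀ F]
variable (L₀k : Type*) [Field L₀k] [Algebra k[X] L₀k] [IsFractionRing k[X] L₀k] [Algebra L₀k Fk]
  [IsScalarTower k[X] L₀k Fk] [FiniteDimensional L₀k Fk]

/-- `T` is contained in the integral closure of `k[x̄]`. -/
theorem Tk_le (hdeg : Module.finrank L₀ F = Module.finrank L₀k Fk) :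
    G.Tk ≤ integralClosure k[X] Fk := by
  rintro z ⟨f, hf, rfl⟩
  exact G.isIntegral_ρ L₀ L₀k hdeg f hf

theorem isIntegral_Tk (hdeg : Module.finrank L₀ F = Module.finrank L₀k Fk) :
    Algebra.IsIntegral k[X] G.Tk := by
  refine ⟨fun z => ?_⟩
  have h := G.Tk_le L₀ L₀k hdeg z.2
  exact (isIntegral_algebraMap_iff (A := G.Tk) (B := Fk) (R := k[X])
    Subtype.coe_injective).mp h

include L₀ L₀k in
/-- Every element of `F_k` is a quotient of two elements of `T`, the denominator being the
image of a nonzero polynomial. -/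
theorem exists_eq_div (z : Fk) :
    ∃ (t : G.Tk) (s : k[X]), s ≠ 0 ∧ z * algebraMap k[X] Fk s = t := by
  classical
  have hinj := algebraMap_injective_k (k := k) (Fk := Fk) L₀k
  obtain ⟨g, rfl⟩ := G.ρ_surj z
  have hgint : IsIntegral L₀ (g : F) := Algebra.IsIntegral.isIntegral _
  obtain ⟨⟨P, hPmem⟩, hP⟩ :=
    IsIntegral.exists_multiple_integral_of_isLocalization (nonZeroDivisors K[X]) (g : F) hgint
  have hP0 : P ≠ 0 := nonZeroDivisors.ne_zero hPmem
  have hP' : IsIntegral K[X] (algebraMap K[X] F P * (g : F)) := by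
    have : (⟨P, hPmem⟩ : nonZeroDivisors K[X]) • (g : F) = algebraMap K[X] F P * (g : F) := by
      rw [Submonoid.smul_def, Algebra.smul_def]
    rwa [this] at hP
  obtain ⟨lam, P₀, m, hlam, hm, hPeq⟩ := exists_primitive A P hP0
  have hne := G.map_π_ne_zero_of_coeff_eq_one P₀ m hm
  -- `P₀(x) * g` is integral over `K[x]`
  have hint : IsIntegral K[X] (algebraMap K[X] F (P₀.map A.subtype) * (g : F)) := by
    have h1 : algebraMap K[X] F (P₀.map A.subtype) * (g : F) =
        algebraMap K[X] F (C lam⁻¹) * (algebraMap K[X] F P * (g : F)) := by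
      rw [hPeq, _root_.map_mul, ← mul_assoc, ← mul_assoc, ← _root_.map_mul, ← C_mul, inv_mul_cancel₀ hlam,
        C_1, _root_.map_one, one_mul]
    rw [h1]
    exact isIntegral_algebraMap.mul hP'
  refine ⟨⟨G.ρ (G.polyO P₀ * g), G.ρ_mem_Tk _ hint⟩, P₀.map G.π, hne, ?_⟩
  show G.ρ g * algebraMap k[X] Fk (P₀.map G.π) = G.ρ (G.polyO P₀ * g)
  rw [_root_.map_mul, G.ρ_polyO, mul_comm]

instance instFaithfulSMul_Tk : FaithfulSMul G.Tk Fk :=
  (faithfulSMul_iff_algebraMap_injective _ _).mpr Subtype.coe_injective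

include L₀ L₀k in
theorem isFractionRing_Tk : IsFractionRing G.Tk Fk := by
  refine IsFractionRing.of_field (R := G.Tk) Fk fun z => ?_
  have hinj := algebraMap_injective_k (k := k) (Fk := Fk) L₀k
  obtain ⟨t, s, hs, hz⟩ := G.exists_eq_div L₀ L₀k z
  refine ⟨t, algebraMap k[X] G.Tk s, ?_⟩
  have hs' : algebraMap k[X] Fk s ≠ 0 := fun h0 => hs (hinj (by rw [h0, _root_.map_zero]))
  have e : algebraMap G.Tk Fk (algebraMap k[X] G.Tk s) = algebraMap k[X] Fk s := rfl
  rw [e, eq_div_iff hs', hz]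
  rfl

variable [Algebra.IsSeparable L₀k Fk]

theorem finite_Tk (hdeg : Module.finrank L₀ F = Module.finrank L₀k Fk) :
    Module.Finite k[X] G.Tk := by
  have hN : IsNoetherian k[X] (integralClosure k[X] Fk) :=
    IsIntegralClosure.isNoetherian k[X] L₀k Fk (integralClosure k[X] Fk)
  have hle := G.Tk_le L₀ L₀k hdeg
  exact Module.Finite.of_injective (Subalgebra.inclusion hle).toLinearMap
    (Subalgebra.inclusion_injective hle)

include L₀ in
theorem finrank_Tk : Module.finrank k[X] G.Tk = Module.finrank L₀k Fk := by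
  haveI := G.isFractionRing_Tk L₀ L₀k
  exact (IsFractionRing.finrank_eq k[X] L₀k G.Tk Fk).symm

include L₀k in
theorem algebraMap_Tk_injective : Function.Injective (algebraMap k[X] G.Tk) := by
  intro p q hpq
  apply algebraMap_injective_k (k := k) (Fk := Fk) L₀k
  exact congrArg (fun z : G.Tk => (z : Fk)) hpq

include L₀k in
theorem isTorsionFree_Tk : Module.IsTorsionFree k[X] G.Tk :=
  Module.isTorsionFree_iff_algebraMap_injective.mpr (G.algebraMap_Tk_injective L₀k)

/-- A `k[X]`-basis `b` of `T`, together with lifts `y i ∈ B` of the `b i` forming a residually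
independent `K(x)`-basis of `F`, and the `k(x̄)`-basis `bk` of `F_k` underlying `b`. -/
theorem exists_basis_Tk (hdeg : Module.finrank L₀ F = Module.finrank L₀k Fk) :
    ∃ (b : Module.Basis (Fin (Module.finrank L₀k Fk)) k[X] G.Tk)
      (y : Module.Basis (Fin (Module.finrank L₀k Fk)) L₀ F)
      (bk : Module.Basis (Fin (Module.finrank L₀k Fk)) L₀k Fk),
      (∀ i, IsIntegral K[X] (y i)) ∧ H217.ResidIndep (G.V₀ L₀) G.O y ∧
      (∀ i, bk i = (b i : Fk)) ∧ ∃ hyO : ∀ i, y i ∈ G.O, ∀ i, G.ρ ⟨y i, hyO i⟩ = (b i : Fk) := by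
  classical
  set n := Module.finrank L₀k Fk with hn
  have hpos : 0 < n := Module.finrank_pos
  have : Nonempty (Fin n) := ⟨⟨0, hpos⟩⟩
  haveI := G.finite_Tk L₀ L₀k hdeg
  haveI := G.isTorsionFree_Tk L₀k
  haveI : Module.Free k[X] G.Tk := inferInstance
  let b : Module.Basis (Fin n) k[X] G.Tk :=
    Module.finBasisOfFinrankEq k[X] G.Tk (G.finrank_Tk L₀ L₀k)
  -- lifts
  choose u hu using fun i => (G.mem_Tk (b i : Fk)).mp (b i).2
  let y : Fin n → F := fun i => (u i : F)
  have hy : ∀ i, y i ∈ G.O := fun i => (u i).2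
  have hρ : ∀ i, G.ρ ⟨y i, hy i⟩ = (b i : Fk) := fun i => (hu i).2
  -- linear independence over `k(x̄)`
  have hli0 : LinearIndependent k[X] (fun i => ((b i : G.Tk) : Fk)) := by
    have h1 := b.linearIndependent
    have h2 := h1.map' (IsScalarTower.toAlgHom k[X] G.Tk Fk).toLinearMap
      (LinearMap.ker_eq_bot.mpr Subtype.coe_injective)
    exact h2
  have hli : LinearIndependent L₀k (fun i => ((b i : G.Tk) : Fk)) :=
    (LinearIndependent.iff_fractionRing k[X] L₀k).mp hli0
  let bk : Module.Basis (Fin n) L₀k Fk :=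
    basisOfLinearIndependentOfCardEqFinrank hli (by rw [Fintype.card_fin])
  have hbk : ∀ i, bk i = (b i : Fk) := fun i => by
    show basisOfLinearIndependentOfCardEqFinrank hli _ i = _
    rw [coe_basisOfLinearIndependentOfCardEqFinrank]
  have hli' : LinearIndependent L₀k (fun i => G.ρ ⟨y i, hy i⟩) := by
    have : (fun i => G.ρ ⟨y i, hy i⟩) = fun i => ((b i : G.Tk) : Fk) := _root_.funext hρ
    rw [this]
    exact hli
  have hR := G.residIndep_of_linearIndependent L₀ L₀k y hy hli'
  obtain ⟨yb, hyb⟩ := H217.exists_basis_of_residIndep hR (by rw [Fintype.card_fin, hdeg])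
  refine ⟨b, yb, bk, fun i => ?_, ?_, hbk, fun i => ?_, fun i => ?_⟩
  · rw [hyb]; exact (hu i).1
  · rw [hyb]; exact hR
  · rw [hyb]; exact hy i
  · simp only [hyb]; exact hρ i

end Rational

end RedCtx

end Fermat.Agent.S37.H159

end
-- ===== PACK-END S37/H159/MOrder.lean

-- ===== PACK-BEGIN Lib/RR/H638/Cech.lean
section



/-!
# Čech formula for the Riemann genus (helper638)

For a function field `F / K` satisfying the standing hypotheses `FF1 K F` of the RR library and two
disjoint nonempty finite sets of places `Tz`, `Ti` ("zeros" and "poles"), put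

* `B₀ = holOff Ti` (functions regular outside `Ti`),
* `B∞ = holOff Tz`,
* `Bm = holOff (Tz ∪ Ti)`.

Then `Bm / (B₀ + B∞)` is finite-dimensional of dimension `g`, the genus in the sense of
Riemann's theorem (`IsRiemannGenus K F g`; for `g = genusR K F` this is `exists_degree_bound` of
the RR library, see `CechGenusR.lean`).
(`H¹` of the structure sheaf computed on the cover `{X ∖ Ti, X ∖ Tz}`).

Main results: `finrank_cech_map`, `finrank_cech_quot`, `genus_le_of_span`, `le_genus_of_indep`,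
and the versions for the zeros and poles of a nonconstant function `x` (`zerosOf`, `polesOf`,
`finrank_cech_of_fun`).
-/

set_option autoImplicit false

noncomputable section

open AlgebraicCurve

namespace Fermat.Agent.Lib.RR.H638

open Fermat.Agent.Lib.RR

variable {K F : Type*} [Field K] [Field F] [Algebra K F]

variable (K F) in
/-- `g` is the genus of `F / K` in the sense of Riemann's theorem:
`ℓ(D) = deg D + 1 - g` for all divisors of sufficiently large degree. -/
def IsRiemannGenus (g : ℕ) : Prop :=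
  ∃ c : ℤ, ∀ D : Divisor K F, c ≤ Divisor.degree D →
    (ell D : ℤ) = Divisor.degree D + 1 - (g : ℤ)

/-- Functions regular outside the set `T` of places. -/
def holOff (T : Set (Place K F)) : Subalgebra K F where
  carrier := {f | ∀ v : Place K F, v ∉ T → 0 ≤ v.ord f}
  mul_mem' := by
    intro f g hf hg v hv
    rw [← mem_iff_ord_nonneg] at *
    exact mul_mem ((mem_iff_ord_nonneg v f).mpr (hf v hv)) ((mem_iff_ord_nonneg v g).mpr (hg v hv))
  add_mem' := by
    intro f g hf hg v hv
    rw [← mem_iff_ord_nonneg] at *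
    exact add_mem ((mem_iff_ord_nonneg v f).mpr (hf v hv)) ((mem_iff_ord_nonneg v g).mpr (hg v hv))
  algebraMap_mem' := by
    intro c v _
    rw [ord_algebraMap]

theorem mem_holOff {T : Set (Place K F)} {f : F} :
    f ∈ holOff T ↔ ∀ v : Place K F, v ∉ T → 0 ≤ v.ord f := Iff.rfl

theorem holOff_mono {T T' : Set (Place K F)} (h : T ⊆ T') : holOff T ≤ holOff T' :=
  fun _ hf v hv => hf v (fun hvT => hv (h hvT))

/-- The reduced divisor `∑_{v ∈ T} v`. -/
def divT (T : Finset (Place K F)) : Divisor K F := ∑ v ∈ T, prim v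

open scoped Classical in
theorem divT_apply (T : Finset (Place K F)) (v : Place K F) :
    divT T v = if v ∈ T then 1 else 0 := by
  unfold divT
  rw [Finsupp.finsetSum_apply]
  by_cases hv : v ∈ T
  · rw [if_pos hv, Finset.sum_eq_single v]
    · exact prim_apply_self v
    · intro w _ hw; exact prim_apply_of_ne (Ne.symm hw)
    · intro h; exact absurd hv h
  · rw [if_neg hv]
    refine Finset.sum_eq_zero fun w hw => prim_apply_of_ne ?_
    rintro rfl; exact hv hw

theorem divT_apply_mem {T : Finset (Place K F)} {v : Place K F} (hv : v ∈ T) : divT T v = 1 := by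
  classical
  rw [divT_apply, if_pos hv]

theorem divT_apply_not_mem {T : Finset (Place K F)} {v : Place K F} (hv : v ∉ T) :
    divT T v = 0 := by
  classical
  rw [divT_apply, if_neg hv]

theorem divT_nonneg (T : Finset (Place K F)) (v : Place K F) : 0 ≤ divT T v := by
  by_cases hv : v ∈ T
  · rw [divT_apply_mem hv]; exact zero_le_one
  · rw [divT_apply_not_mem hv]

theorem degree_divT [FF1 K F] (T : Finset (Place K F)) : Divisor.degree (divT T) = T.card := by
  unfold divT
  rw [map_sum]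
  simp

/-- `L(n T) ⊆ holOff T`. -/
theorem L_le_holOff (T : Finset (Place K F)) (n : ℕ) :
    riemannRochSpace (n • divT T) ≤ Subalgebra.toSubmodule (holOff (T : Set (Place K F))) := by
  intro f hf v hv
  have hv' : v ∉ T := fun h => hv (Finset.mem_coe.mpr h)
  rcases mem_L_iff.mp hf v with h | h
  · rw [h, v.ord_zero]
  · simpa [divT_apply_not_mem hv'] using h

/-- `holOff T = ⋃ₙ L(n T)`. -/
theorem exists_mem_L_of_mem_holOff (T : Finset (Place K F)) {f : F}
    (hf : f ∈ holOff (T : Set (Place K F))) :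
    ∃ n : ℕ, f ∈ riemannRochSpace (n • divT T) := by
  classical
  refine ⟨∑ v ∈ T, (v.ord f).natAbs, ?_⟩
  rw [mem_L_iff]
  intro v
  right
  by_cases hv : v ∈ T
  · have h1 : (v.ord f).natAbs ≤ ∑ w ∈ T, (w.ord f).natAbs :=
      Finset.single_le_sum (f := fun w => (w.ord f).natAbs) (fun _ _ => Nat.zero_le _) hv
    simp only [Finsupp.coe_smul, Pi.smul_apply, divT_apply_mem hv, mul_one, nsmul_eq_mul]
    omega
  · have := hf v (fun h => hv (Finset.mem_coe.mp h))
    simp only [Finsupp.coe_smul, Pi.smul_apply, divT_apply_not_mem hv, nsmul_eq_mul, mul_zero,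
      neg_zero]
    exact this

theorem nsmul_divT_mono (T : Finset (Place K F)) {m n : ℕ} (h : m ≤ n) :
    m • divT T ≤ n • divT T := by
  rw [Finsupp.le_def]
  intro v
  simp only [Finsupp.coe_smul, Pi.smul_apply, nsmul_eq_mul]
  exact mul_le_mul_of_nonneg_right (by exact_mod_cast h) (divT_nonneg T v)

/-! ### The two-chart computation -/

section Cech

variable (Tz Ti : Finset (Place K F))

/-- The divisor `n (Tz + Ti)`. -/
def divM (n : ℕ) : Divisor K F := n • divT Tz + n • divT Ti

theorem divM_apply (n : ℕ) (v : Place K F) :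
    divM Tz Ti n v = n * divT Tz v + n * divT Ti v := by
  simp [divM]

theorem divM_mono {m n : ℕ} (h : m ≤ n) : divM Tz Ti m ≤ divM Tz Ti n :=
  add_le_add (nsmul_divT_mono Tz h) (nsmul_divT_mono Ti h)

theorem nsmul_divT_le_divM_right (n : ℕ) : n • divT Ti ≤ divM Tz Ti n := by
  rw [Finsupp.le_def]; intro v
  have := divT_nonneg Tz v
  rw [divM_apply]
  simp only [Finsupp.coe_smul, Pi.smul_apply, nsmul_eq_mul]
  nlinarith [Nat.cast_nonneg (α := ℤ) n]

theorem nsmul_divT_le_divM_left (n : ℕ) : n • divT Tz ≤ divM Tz Ti n := by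
  rw [Finsupp.le_def]; intro v
  have := divT_nonneg Ti v
  rw [divM_apply]
  simp only [Finsupp.coe_smul, Pi.smul_apply, nsmul_eq_mul]
  nlinarith [Nat.cast_nonneg (α := ℤ) n]

theorem L_sup_le (n : ℕ) :
    riemannRochSpace (n • divT Ti) ⊔ riemannRochSpace (n • divT Tz) ≤
      riemannRochSpace (divM Tz Ti n) :=
  sup_le (L_mono (nsmul_divT_le_divM_right Tz Ti n)) (L_mono (nsmul_divT_le_divM_left Tz Ti n))

theorem LM_le_holOff (n : ℕ) :
    riemannRochSpace (divM Tz Ti n) ≤
      Subalgebra.toSubmodule (holOff ((Tz : Set (Place K F)) ∪ Ti)) := by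
  intro f hf v hv
  have hvz : v ∉ Tz := fun h => hv (Or.inl (Finset.mem_coe.mpr h))
  have hvi : v ∉ Ti := fun h => hv (Or.inr (Finset.mem_coe.mpr h))
  rcases mem_L_iff.mp hf v with h | h
  · rw [h, v.ord_zero]
  · simpa [divM_apply, divT_apply_not_mem hvz, divT_apply_not_mem hvi] using h

theorem exists_mem_LM_of_mem_holOff {f : F}
    (hf : f ∈ holOff ((Tz : Set (Place K F)) ∪ Ti)) :
    ∃ n : ℕ, f ∈ riemannRochSpace (divM Tz Ti n) := by
  classical
  refine ⟨∑ v ∈ Tz, (v.ord f).natAbs + ∑ v ∈ Ti, (v.ord f).natAbs, ?_⟩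
  rw [mem_L_iff]
  intro v
  right
  rw [divM_apply]
  have hz := divT_nonneg Tz v
  have hi := divT_nonneg Ti v
  by_cases hvz : v ∈ Tz
  · have h1 : (v.ord f).natAbs ≤ ∑ w ∈ Tz, (w.ord f).natAbs :=
      Finset.single_le_sum (f := fun w => (w.ord f).natAbs) (fun _ _ => Nat.zero_le _) hvz
    rw [divT_apply_mem hvz]
    push_cast
    have h2 : (0 : ℤ) ≤ ∑ x ∈ Ti, |x.ord f| := Finset.sum_nonneg fun _ _ => abs_nonneg _
    have h3 : (|v.ord f| : ℤ) ≤ ∑ x ∈ Tz, |x.ord f| :=
      Finset.single_le_sum (f := fun w => |w.ord f|) (fun _ _ => abs_nonneg _) hvz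
    have h4 := neg_abs_le (v.ord f)
    have h5 : (0 : ℤ) ≤ (∑ x ∈ Tz, |x.ord f| + ∑ x ∈ Ti, |x.ord f|) * divT Ti v :=
      mul_nonneg (by linarith [abs_nonneg (v.ord f)]) hi
    linarith
  · by_cases hvi : v ∈ Ti
    · rw [divT_apply_mem hvi, divT_apply_not_mem hvz]
      push_cast
      have h2 : (0 : ℤ) ≤ ∑ x ∈ Tz, |x.ord f| := Finset.sum_nonneg fun _ _ => abs_nonneg _
      have h3 : (|v.ord f| : ℤ) ≤ ∑ x ∈ Ti, |x.ord f| :=
        Finset.single_le_sum (f := fun w => |w.ord f|) (fun _ _ => abs_nonneg _) hvi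
      have h4 := neg_abs_le (v.ord f)
      linarith
    · have := hf v (by
        rintro (h | h)
        · exact hvz (Finset.mem_coe.mp h)
        · exact hvi (Finset.mem_coe.mp h))
      rw [divT_apply_not_mem hvz, divT_apply_not_mem hvi]
      simpa using this

/-- `m ≤ ord (f - g)` if `m ≤ 0`, `m ≤ ord f`, `m ≤ ord g` (no nonvanishing needed). -/
theorem le_ord_sub (v : Place K F) {f g : F} {m : ℤ} (hm : m ≤ 0) (hf : m ≤ v.ord f)
    (hg : m ≤ v.ord g) : m ≤ v.ord (f - g) := by
  have h := ord_add_of_le v (f := f) (g := -g) (n := m) (Or.inr hf)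
    (Or.inr (by rw [ord_neg]; exact hg))
  rw [← sub_eq_add_neg] at h
  rcases h with h | h
  · rw [h, v.ord_zero]; exact hm
  · exact h

/-- Key separation: an element of `B₀ + B∞` lying in `L(n(Tz + Ti))` lies in
`L(n Ti) + L(n Tz)`. -/
theorem sup_inf_L_le (hdisj : Disjoint Tz Ti) (n : ℕ) :
    (Subalgebra.toSubmodule (holOff (Ti : Set (Place K F))) ⊔
        Subalgebra.toSubmodule (holOff (Tz : Set (Place K F)))) ⊓
        riemannRochSpace (divM Tz Ti n) ≤
      riemannRochSpace (n • divT Ti) ⊔ riemannRochSpace (n • divT Tz) := by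
  classical
  rintro f ⟨hf1, hf2⟩
  obtain ⟨a, ha, b, hb, rfl⟩ := Submodule.mem_sup.mp hf1
  have ha' : ∀ v : Place K F, v ∉ Ti → 0 ≤ v.ord a := fun v hv =>
    ha v (fun h => hv (Finset.mem_coe.mp h))
  have hb' : ∀ v : Place K F, v ∉ Tz → 0 ≤ v.ord b := fun v hv =>
    hb v (fun h => hv (Finset.mem_coe.mp h))
  have hab : ∀ v : Place K F, -(divM Tz Ti n v) ≤ v.ord (a + b) := by
    intro v
    rcases mem_L_iff.mp hf2 v with h | h
    · rw [h, v.ord_zero, divM_apply]
      have hz := divT_nonneg Tz v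
      have hi := divT_nonneg Ti v
      nlinarith [Nat.cast_nonneg (α := ℤ) n]
    · exact h
  refine Submodule.add_mem_sup ?_ ?_
  · rw [mem_L_iff]; intro v; right
    by_cases hv : v ∈ Ti
    · have hv0 : v ∉ Tz := Finset.disjoint_right.mp hdisj hv
      have h1 := hab v
      rw [divM_apply, divT_apply_mem hv, divT_apply_not_mem hv0] at h1
      simp only [Finsupp.coe_smul, Pi.smul_apply, nsmul_eq_mul, divT_apply_mem hv, mul_one]
      have h2 := le_ord_sub v (f := a + b) (g := b) (m := -(n : ℤ)) (by omega) (by omega)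
        (by have := hb' v hv0; omega)
      simpa using h2
    · have := ha' v hv
      simp only [Finsupp.coe_smul, Pi.smul_apply, nsmul_eq_mul, divT_apply_not_mem hv, mul_zero,
        neg_zero]
      exact this
  · rw [mem_L_iff]; intro v; right
    by_cases hv : v ∈ Tz
    · have hv0 : v ∉ Ti := Finset.disjoint_left.mp hdisj hv
      have h1 := hab v
      rw [divM_apply, divT_apply_mem hv, divT_apply_not_mem hv0] at h1
      simp only [Finsupp.coe_smul, Pi.smul_apply, nsmul_eq_mul, divT_apply_mem hv, mul_one]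
      have h2 := le_ord_sub v (f := a + b) (g := a) (m := -(n : ℤ)) (by omega) (by omega)
        (by have := ha' v hv0; omega)
      simpa using h2
    · have := hb' v hv
      simp only [Finsupp.coe_smul, Pi.smul_apply, nsmul_eq_mul, divT_apply_not_mem hv, mul_zero,
        neg_zero]
      exact this

theorem sup_inf_L_eq (hdisj : Disjoint Tz Ti) (n : ℕ) :
    (Subalgebra.toSubmodule (holOff (Ti : Set (Place K F))) ⊔
        Subalgebra.toSubmodule (holOff (Tz : Set (Place K F)))) ⊓
        riemannRochSpace (divM Tz Ti n) =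
      riemannRochSpace (n • divT Ti) ⊔ riemannRochSpace (n • divT Tz) := by
  apply le_antisymm (sup_inf_L_le Tz Ti hdisj n)
  exact le_inf (sup_le_sup (L_le_holOff Ti n) (L_le_holOff Tz n)) (L_sup_le Tz Ti n)

/-- `L(n Ti) ∩ L(n Tz) = L(0)`. -/
theorem L_inf_eq (hdisj : Disjoint Tz Ti) (n : ℕ) :
    riemannRochSpace (n • divT Ti) ⊓ riemannRochSpace (n • divT Tz) =
      riemannRochSpace (0 : Divisor K F) := by
  classical
  apply le_antisymm
  · rintro f ⟨h1, h2⟩
    rw [mem_L_iff]
    intro v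
    by_cases hv : v ∈ Ti
    · have hv0 : v ∉ Tz := Finset.disjoint_right.mp hdisj hv
      have := mem_L_iff.mp h2 v
      simpa [divT_apply_not_mem hv0] using this
    · have := mem_L_iff.mp h1 v
      simpa [divT_apply_not_mem hv] using this
  · refine le_inf (L_mono ?_) (L_mono ?_)
    · rw [Finsupp.le_def]; intro v
      have := divT_nonneg Ti v
      simp only [Finsupp.coe_zero, Pi.zero_apply, Finsupp.coe_smul, Pi.smul_apply, nsmul_eq_mul]
      positivity
    · rw [Finsupp.le_def]; intro v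
      have := divT_nonneg Tz v
      simp only [Finsupp.coe_zero, Pi.zero_apply, Finsupp.coe_smul, Pi.smul_apply, nsmul_eq_mul]
      positivity

end Cech

/-! ### Dimension count and the main theorem -/

section Main

variable [FF1 K F] (Tz Ti : Finset (Place K F))

theorem degree_nsmul_divT (T : Finset (Place K F)) (n : ℕ) :
    Divisor.degree (n • divT T) = n * T.card := by
  rw [map_nsmul, degree_divT]; simp

theorem degree_divM (n : ℕ) :
    Divisor.degree (divM Tz Ti n) = n * Tz.card + n * Ti.card := by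
  rw [divM, map_add, degree_nsmul_divT, degree_nsmul_divT]

/-- **Čech formula for the genus** (image form): the image of `Bm = holOff (Tz ∪ Ti)` in
`F ⧸ (B₀ + B∞)`, `B₀ = holOff Ti`, `B∞ = holOff Tz`, has dimension `g`. -/
theorem finrank_cech_map {g : ℕ} (hg : IsRiemannGenus K F g)
    (hdisj : Disjoint Tz Ti) (hz : Tz.Nonempty) (hi : Ti.Nonempty) :
    Module.Finite K ↥((Subalgebra.toSubmodule (holOff ((Tz : Set (Place K F)) ∪ Ti))).map
        (Subalgebra.toSubmodule (holOff (Ti : Set (Place K F))) ⊔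
          Subalgebra.toSubmodule (holOff (Tz : Set (Place K F)))).mkQ) ∧
      Module.finrank K ↥((Subalgebra.toSubmodule (holOff ((Tz : Set (Place K F)) ∪ Ti))).map
        (Subalgebra.toSubmodule (holOff (Ti : Set (Place K F))) ⊔
          Subalgebra.toSubmodule (holOff (Tz : Set (Place K F)))).mkQ) = g := by
  obtain ⟨c, hc⟩ := hg
  have hz1 : 1 ≤ Tz.card := Finset.card_pos.mpr hz
  have hi1 : 1 ≤ Ti.card := Finset.card_pos.mpr hi
  refine finrank_map_mkQ_of_exhaust _ _ (fun n => riemannRochSpace (divM Tz Ti n))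
    (fun m n h => L_mono (divM_mono Tz Ti h)) (fun n => inferInstance)
    (fun n => LM_le_holOff Tz Ti n) (fun f hf => exists_mem_LM_of_mem_holOff Tz Ti hf)
    g c.toNat ?_
  intro n hn
  have hcn : c ≤ n := by
    have := Int.self_le_toNat c
    have : ((c.toNat : ℕ) : ℤ) ≤ (n : ℤ) := by exact_mod_cast hn
    omega
  have hnn : (0 : ℤ) ≤ n := Int.natCast_nonneg n
  have hzc : (n : ℤ) ≤ n * Tz.card := by
    have : (1 : ℤ) ≤ Tz.card := by exact_mod_cast hz1
    nlinarith
  have hic : (n : ℤ) ≤ n * Ti.card := by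
    have : (1 : ℤ) ≤ Ti.card := by exact_mod_cast hi1
    nlinarith
  have e1 := hc (n • divT Ti) (by rw [degree_nsmul_divT]; omega)
  have e2 := hc (n • divT Tz) (by rw [degree_nsmul_divT]; omega)
  have e3 := hc (divM Tz Ti n) (by rw [degree_divM]; omega)
  rw [degree_nsmul_divT] at e1 e2
  rw [degree_divM] at e3
  rw [sup_inf_L_eq Tz Ti hdisj n]
  have h4 := Submodule.finrank_sup_add_finrank_inf_eq (riemannRochSpace (n • divT Ti))
    (riemannRochSpace (n • divT Tz))
  rw [L_inf_eq Tz Ti hdisj n] at h4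
  have h5 : Module.finrank K ↥(riemannRochSpace (0 : Divisor K F)) = 1 := ell_zero
  rw [h5] at h4
  unfold ell at e1 e2 e3
  have h6 : (Module.finrank K ↥(riemannRochSpace (n • divT Ti) ⊔ riemannRochSpace (n • divT Tz)) : ℤ)
      + 1 = Module.finrank K ↥(riemannRochSpace (n • divT Ti)) +
        Module.finrank K ↥(riemannRochSpace (n • divT Tz)) := by exact_mod_cast h4
  have h7 : (Module.finrank K ↥(riemannRochSpace (divM Tz Ti n)) : ℤ) =
      Module.finrank K ↥(riemannRochSpace (n • divT Ti) ⊔ riemannRochSpace (n • divT Tz)) +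
        g := by
    rw [e3]; linarith
  exact_mod_cast h7

end Main

/-! ### Packaged form and corollaries -/

section Corollaries

variable (Tz Ti : Finset (Place K F))

/-- `B₀ + B∞`, the sum of the two chart algebras (as a `K`-subspace of `F`). -/
def cechW : Submodule K F :=
  Subalgebra.toSubmodule (holOff (Ti : Set (Place K F))) ⊔
    Subalgebra.toSubmodule (holOff (Tz : Set (Place K F)))

/-- `Bm`, the functions regular on the intersection of the two charts. -/
def cechM : Submodule K F :=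
  Subalgebra.toSubmodule (holOff ((Tz : Set (Place K F)) ∪ Ti))

/-- The Čech `H¹`: the image of `Bm` in `F ⧸ (B₀ + B∞)`. -/
def cechH1 : Submodule K (F ⧸ cechW Tz Ti) := (cechM Tz Ti).map (cechW Tz Ti).mkQ

theorem cechW_le_cechM : cechW Tz Ti ≤ cechM Tz Ti :=
  sup_le (holOff_mono (fun _ h => Or.inr h)) (holOff_mono (fun _ h => Or.inl h))

variable [FF1 K F]

theorem finite_cechH1 {g : ℕ} (hg : IsRiemannGenus K F g)
    (hdisj : Disjoint Tz Ti) (hz : Tz.Nonempty) (hi : Ti.Nonempty) :
    Module.Finite K ↥(cechH1 Tz Ti) :=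
  (finrank_cech_map Tz Ti hg hdisj hz hi).1

/-- **Čech formula for the genus.** -/
theorem finrank_cechH1 {g : ℕ} (hg : IsRiemannGenus K F g)
    (hdisj : Disjoint Tz Ti) (hz : Tz.Nonempty) (hi : Ti.Nonempty) :
    Module.finrank K ↥(cechH1 Tz Ti) = g :=
  (finrank_cech_map Tz Ti hg hdisj hz hi).2

/-- The quotient `Bm ⧸ (B₀ + B∞)` is isomorphic to the Čech `H¹`. -/
def cechQuotEquiv :
    (↥(cechM Tz Ti) ⧸ (cechW Tz Ti).submoduleOf (cechM Tz Ti)) ≃ₗ[K] ↥(cechH1 Tz Ti) :=
  ((Submodule.quotEquivOfEq _ _ (by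
      rw [LinearMap.ker_comp, Submodule.ker_mkQ]; rfl)).trans
    (LinearMap.quotKerEquivRange ((cechW Tz Ti).mkQ.comp (cechM Tz Ti).subtype))).trans
    (LinearEquiv.ofEq _ _ (by
      rw [LinearMap.range_comp, Submodule.range_subtype]; rfl))

/-- **Čech formula for the genus**, quotient form:
`dim_K Bm ⧸ (B₀ + B∞) = g`. -/
theorem finrank_cech_quot {g : ℕ} (hg : IsRiemannGenus K F g)
    (hdisj : Disjoint Tz Ti) (hz : Tz.Nonempty) (hi : Ti.Nonempty) :
    Module.Finite K (↥(cechM Tz Ti) ⧸ (cechW Tz Ti).submoduleOf (cechM Tz Ti)) ∧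
      Module.finrank K (↥(cechM Tz Ti) ⧸ (cechW Tz Ti).submoduleOf (cechM Tz Ti)) = g := by
  have hfin := finite_cechH1 Tz Ti hg hdisj hz hi
  refine ⟨Module.Finite.equiv (cechQuotEquiv Tz Ti).symm, ?_⟩
  rw [(cechQuotEquiv Tz Ti).finrank_eq]
  exact finrank_cechH1 Tz Ti hg hdisj hz hi

/-- Upper bound for the genus: if `Bm` is spanned by `B₀ + B∞` and a finite family `h`, then
`g ≤ #h`. -/
theorem genus_le_of_span {g : ℕ} (hg : IsRiemannGenus K F g)
    (hdisj : Disjoint Tz Ti) (hz : Tz.Nonempty) (hi : Ti.Nonempty)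
    {ι : Type*} [Fintype ι] (h : ι → F)
    (hspan : cechM Tz Ti ≤ Submodule.span K (Set.range h) ⊔ cechW Tz Ti) :
    g ≤ Fintype.card ι := by
  have h1 : cechH1 Tz Ti ≤ (Submodule.span K (Set.range h)).map (cechW Tz Ti).mkQ := by
    unfold cechH1
    refine (Submodule.map_mono hspan).trans ?_
    rw [Submodule.map_sup]
    rw [Submodule.mkQ_map_self, sup_bot_eq]
  have hfs : Module.Finite K ↥(Submodule.span K (Set.range h)) :=
    FiniteDimensional.span_of_finite K (Set.finite_range h)
  have h2 := Submodule.finrank_mono h1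
  rw [finrank_cechH1 Tz Ti hg hdisj hz hi] at h2
  have h3 : Module.finrank K ↥((Submodule.span K (Set.range h)).map (cechW Tz Ti).mkQ) ≤
      Module.finrank K ↥(Submodule.span K (Set.range h)) :=
    Submodule.finrank_map_le _ _
  have h4 : Module.finrank K ↥(Submodule.span K (Set.range h)) ≤ Fintype.card ι :=
    finrank_range_le_card (R := K) h
  omega

/-- Lower bound for the genus: a finite family in `Bm` which is linearly independent modulo
`B₀ + B∞` has at most `g` elements. -/
theorem le_genus_of_indep {g : ℕ} (hg : IsRiemannGenus K F g)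
    (hdisj : Disjoint Tz Ti) (hz : Tz.Nonempty) (hi : Ti.Nonempty)
    {ι : Type*} [Fintype ι] (h : ι → F) (hM : ∀ i, h i ∈ cechM Tz Ti)
    (hind : LinearIndependent K (fun i => (cechW Tz Ti).mkQ (h i))) :
    Fintype.card ι ≤ g := by
  have hfin := finite_cechH1 Tz Ti hg hdisj hz hi
  let b : ι → ↥(cechH1 Tz Ti) := fun i => ⟨(cechW Tz Ti).mkQ (h i), Submodule.mem_map_of_mem (hM i)⟩
  have hb : LinearIndependent K b := by
    apply LinearIndependent.of_comp (cechH1 Tz Ti).subtype
    exact hind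
  have := hb.fintype_card_le_finrank
  rwa [finrank_cechH1 Tz Ti hg hdisj hz hi] at this

/-- Elementary form of the independence hypothesis. -/
theorem le_genus_of_indep' {g : ℕ} (hg : IsRiemannGenus K F g)
    (hdisj : Disjoint Tz Ti) (hz : Tz.Nonempty) (hi : Ti.Nonempty)
    {ι : Type*} [Fintype ι] (h : ι → F) (hM : ∀ i, h i ∈ cechM Tz Ti)
    (hind : ∀ c : ι → K, ∑ i, c i • h i ∈ cechW Tz Ti → c = 0) :
    Fintype.card ι ≤ g := by
  refine le_genus_of_indep Tz Ti hg hdisj hz hi h hM ?_
  rw [Fintype.linearIndependent_iff]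
  intro c hc i
  have h1 : (cechW Tz Ti).mkQ (∑ i, c i • h i) = 0 := by
    rw [map_sum]
    simpa [map_smul] using hc
  have h2 : ∑ i, c i • h i ∈ cechW Tz Ti := by
    rwa [Submodule.mkQ_apply, Submodule.Quotient.mk_eq_zero] at h1
  exact congrFun (hind c h2) i

end Corollaries

end Fermat.Agent.Lib.RR.H638

end
end
-- ===== PACK-END Lib/RR/H638/Cech.lean

-- ===== PACK-BEGIN A3/H75/DiscValue.lean
section


/-!
# A3 / LOCAL / DISC (helper75): values of functions at places, and sums of orders over a fibre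

Language: the Prelude's `AlgebraicCurve.Place`, Lib/RR's `FF1`.

* `HasVal P f b` : `f` is regular at the place `P` with value `b ∈ K` (the same predicate as
  `S37.Core.HasValue`, restated here to keep the import closure small);
* calculus: `HasVal.unique`, `.add`, `.mul`, `.sub`, `.neg`, `hasVal_algebraMap`,
  `exists_hasVal` (places of degree one);
* `mapDomain_apply_eq_sum` : `(r_* D)(Q) = ∑_{P ∈ supp D, r P = Q} D(P)`;
* `ord_le_mapDomain` : a nonnegative term is bounded by the sum.
-/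

set_option autoImplicit false

noncomputable section

namespace Fermat.Agent.A3.H75

open AlgebraicCurve Fermat.Agent.Lib.RR

section Nonunits

variable {F : Type*} [Field F] (V : ValuationSubring F)

theorem nonunits_add {x y : F} (hx : x ∈ V.nonunits) (hy : y ∈ V.nonunits) :
    x + y ∈ V.nonunits := by
  rw [ValuationSubring.mem_nonunits_iff] at hx hy ⊢
  exact V.valuation.map_add_lt hx hy

theorem nonunits_neg {x : F} (hx : x ∈ V.nonunits) : -x ∈ V.nonunits := by
  rw [ValuationSubring.mem_nonunits_iff] at hx ⊢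
  rwa [Valuation.map_neg]

theorem nonunits_sub {x y : F} (hx : x ∈ V.nonunits) (hy : y ∈ V.nonunits) :
    x - y ∈ V.nonunits := by
  rw [sub_eq_add_neg]
  exact nonunits_add V hx (nonunits_neg V hy)

theorem nonunits_mul {m x : F} (hm : m ∈ V.nonunits) (hx : x ∈ V) : m * x ∈ V.nonunits := by
  rw [ValuationSubring.mem_nonunits_iff] at hm ⊢
  rw [map_mul]
  have hx' := (V.valuation_le_one_iff x).mpr hx
  exact mul_lt_one_of_lt_of_le hm hx'

theorem nonunits_mul' {m x : F} (hx : x ∈ V) (hm : m ∈ V.nonunits) : x * m ∈ V.nonunits := by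
  rw [mul_comm]
  exact nonunits_mul V hm hx

theorem mem_of_mem_nonunits {x : F} (hx : x ∈ V.nonunits) : x ∈ V := by
  rw [ValuationSubring.mem_nonunits_iff] at hx
  exact (V.valuation_le_one_iff x).mp hx.le

theorem zero_mem_nonunits : (0 : F) ∈ V.nonunits := by
  rw [ValuationSubring.mem_nonunits_iff, map_zero]
  exact zero_lt_one

theorem one_not_mem_nonunits : (1 : F) ∉ V.nonunits := by
  rw [ValuationSubring.mem_nonunits_iff, map_one]
  exact lt_irrefl _

theorem inv_mem_of_not_mem_nonunits {x : F} (hx : x ∉ V.nonunits) : x ≠ 0 ∧ x⁻¹ ∈ V := by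
  rw [ValuationSubring.mem_nonunits_iff_or] at hx
  push Not at hx
  exact hx

theorem not_mem_nonunits_of_inv_mem {x : F} (hx0 : x ≠ 0) (hx : x⁻¹ ∈ V) : x ∉ V.nonunits := by
  rw [ValuationSubring.mem_nonunits_iff_or]
  push Not
  exact ⟨hx0, hx⟩

/-- an element outside the valuation ring has its inverse in the maximal ideal -/
theorem inv_mem_nonunits_of_not_mem {x : F} (hx : x ∉ V) : x⁻¹ ∈ V.nonunits := by
  rw [ValuationSubring.mem_nonunits_iff_or, inv_inv]
  exact Or.inr hx

end Nonunits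

variable {K : Type*} [Field K] {F : Type*} [Field F] [Algebra K F]

/-- nonzero constants are units at every place -/
theorem algebraMap_not_mem_nonunits (P : Place K F) {c : K} (hc : c ≠ 0) :
    algebraMap K F c ∉ P.toValuationSubring.nonunits := by
  apply not_mem_nonunits_of_inv_mem
  · exact (map_ne_zero _).mpr hc
  · rw [← map_inv₀]
    exact P.algebraMap_mem' _

theorem mem_nonunits_iff_ord (P : Place K F) (x : F) :
    x ∈ P.toValuationSubring.nonunits ↔ x = 0 ∨ 0 < P.ord x := by
  constructor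
  · intro hx
    have hmem : x ∈ P.toValuationSubring := mem_of_mem_nonunits _ hx
    have h1 : (⟨x, hmem⟩ : P.toValuationSubring) ∈
        IsLocalRing.maximalIdeal P.toValuationSubring := by
      rw [IsLocalRing.mem_maximalIdeal]
      exact (ValuationSubring.coe_mem_nonunits_iff (A := P.toValuationSubring)).mp hx
    exact (mem_maximalIdeal_iff P _).mp h1
  · rintro (rfl | h)
    · exact _root_.Fermat.Agent.A3.H75.zero_mem_nonunits _
    · have hmem : x ∈ P.toValuationSubring := mem_of_ord_nonneg P h.le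
      have h1 : (⟨x, hmem⟩ : P.toValuationSubring) ∈
          IsLocalRing.maximalIdeal P.toValuationSubring :=
        (mem_maximalIdeal_iff P _).mpr (Or.inr h)
      rw [IsLocalRing.mem_maximalIdeal] at h1
      exact (ValuationSubring.coe_mem_nonunits_iff (A := P.toValuationSubring)).mpr h1

/-- `f` is regular at the place `P` with value `b`. -/
def HasVal (P : Place K F) (f : F) (b : K) : Prop :=
  f - algebraMap K F b ∈ P.toValuationSubring.nonunits

namespace HasVal

variable {P : Place K F} {f g : F} {b c : K}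

theorem mem (h : HasVal P f b) : f ∈ P.toValuationSubring := by
  have h1 := mem_of_mem_nonunits _ h
  have h2 := P.toValuationSubring.add_mem _ _ h1 (P.algebraMap_mem' b)
  simpa using h2

theorem unique (h : HasVal P f b) (h' : HasVal P f c) : b = c := by
  by_contra hne
  have h1 : algebraMap K F (c - b) ∈ P.toValuationSubring.nonunits := by
    have := nonunits_sub _ h h'
    rw [map_sub]
    have e : f - algebraMap K F b - (f - algebraMap K F c) =
        algebraMap K F c - algebraMap K F b := by ring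
    rwa [e] at this
  exact algebraMap_not_mem_nonunits P (sub_ne_zero.mpr (Ne.symm hne)) h1

theorem add (h : HasVal P f b) (h' : HasVal P g c) : HasVal P (f + g) (b + c) := by
  unfold HasVal at h h' ⊢
  have := nonunits_add _ h h'
  rw [map_add]
  have e : f + g - (algebraMap K F b + algebraMap K F c) =
      f - algebraMap K F b + (g - algebraMap K F c) := by ring
  rwa [e]

theorem neg (h : HasVal P f b) : HasVal P (-f) (-b) := by
  unfold HasVal at h ⊢
  have := nonunits_neg _ h
  rw [map_neg]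
  have e : -f - -algebraMap K F b = -(f - algebraMap K F b) := by ring
  rwa [e]

theorem sub (h : HasVal P f b) (h' : HasVal P g c) : HasVal P (f - g) (b - c) := by
  rw [sub_eq_add_neg, sub_eq_add_neg]
  exact h.add h'.neg

theorem mul (h : HasVal P f b) (h' : HasVal P g c) : HasVal P (f * g) (b * c) := by
  have hg := h'.mem
  unfold HasVal at h h' ⊢
  rw [map_mul]
  have e : f * g - algebraMap K F b * algebraMap K F c =
      (f - algebraMap K F b) * g + algebraMap K F b * (g - algebraMap K F c) := by ring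
  rw [e]
  exact nonunits_add _ (nonunits_mul _ h hg) (nonunits_mul' _ (P.algebraMap_mem' b) h')

end HasVal

theorem hasVal_algebraMap (P : Place K F) (b : K) : HasVal P (algebraMap K F b) b := by
  unfold HasVal
  rw [sub_self]
  exact _root_.Fermat.Agent.A3.H75.zero_mem_nonunits _

theorem hasVal_zero (P : Place K F) : HasVal P (0 : F) 0 := by
  have := hasVal_algebraMap P (0 : K)
  rwa [map_zero] at this

theorem hasVal_one (P : Place K F) : HasVal P (1 : F) 1 := by
  have := hasVal_algebraMap P (1 : K)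
  rwa [map_one] at this

/-- at a place of degree one every regular function has a value -/
theorem exists_hasVal (P : Place K F) (hP : P.deg = 1) {f : F} (hf : f ∈ P.toValuationSubring) :
    ∃ b : K, HasVal P f b := by
  obtain ⟨c, hc⟩ := exists_const_sub P hP (ord_nonneg_of_mem P hf)
  exact ⟨c, (mem_nonunits_iff_ord P _).mpr hc⟩

theorem hasVal_zero_iff (P : Place K F) (f : F) : HasVal P f 0 ↔ f = 0 ∨ 0 < P.ord f := by
  unfold HasVal
  rw [map_zero, sub_zero]
  exact mem_nonunits_iff_ord P f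

section Sum

variable {k : Type*} [Field k] {Fk : Type*} [Field Fk] [Algebra k Fk]

open Classical in
theorem mapDomain_apply_eq_sum (r : Place K F → Place k Fk) (D : Divisor K F)
    (Q : Place k Fk) :
    Finsupp.mapDomain r D Q = ∑ P ∈ D.support.filter (fun P => r P = Q), D P := by
  rw [Finsupp.mapDomain, Finsupp.sum, Finsupp.finsetSum_apply, Finset.sum_filter]
  refine Finset.sum_congr rfl fun P _ => ?_
  rw [Finsupp.single_apply]

/-- If `D ≥ 0` on the fibre of `r` over `Q`, every coefficient on the fibre is bounded by the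
coefficient of `r_* D` at `Q`. -/
theorem apply_le_mapDomain (r : Place K F → Place k Fk) (D : Divisor K F) (Q : Place k Fk)
    (hD : ∀ P, r P = Q → 0 ≤ D P) (P₀ : Place K F) (hP₀ : r P₀ = Q) :
    D P₀ ≤ Finsupp.mapDomain r D Q := by
  classical
  rw [mapDomain_apply_eq_sum]
  by_cases h : P₀ ∈ D.support
  · have hmem : P₀ ∈ D.support.filter (fun P => r P = Q) := Finset.mem_filter.mpr ⟨h, hP₀⟩
    exact Finset.single_le_sum (f := fun P => D P)
      (fun P hP => hD P (Finset.mem_filter.mp hP).2) hmem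
  · rw [Finsupp.notMem_support_iff.mp h]
    exact Finset.sum_nonneg fun P hP => hD P (Finset.mem_filter.mp hP).2

/-- Two distinct points of the fibre: the sum of their coefficients is bounded by the
coefficient of `r_* D` at `Q`. -/
theorem apply_add_apply_le_mapDomain (r : Place K F → Place k Fk) (D : Divisor K F)
    (Q : Place k Fk) (hD : ∀ P, r P = Q → 0 ≤ D P) (P₀ P₁ : Place K F) (hne : P₀ ≠ P₁)
    (hP₀ : r P₀ = Q) (hP₁ : r P₁ = Q) :
    D P₀ + D P₁ ≤ Finsupp.mapDomain r D Q := by
  classical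
  rw [mapDomain_apply_eq_sum]
  set s := D.support.filter (fun P => r P = Q) with hs
  have hnn : ∀ P ∈ s, 0 ≤ D P := fun P hP => hD P (Finset.mem_filter.mp hP).2
  have key : ∀ t : Finset (Place K F), t ⊆ {P₀, P₁} → (∀ P ∈ t, r P = Q) →
      ∑ P ∈ t, D P ≤ ∑ P ∈ s, D P := by
    intro t _ htQ
    have h1 : ∑ P ∈ t, D P = ∑ P ∈ t.filter (fun P => P ∈ D.support), D P := by
      rw [Finset.sum_filter]
      refine Finset.sum_congr rfl fun P _ => ?_
      split_ifs with h
      · rfl
      · exact Finsupp.notMem_support_iff.mp h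
    rw [h1]
    refine Finset.sum_le_sum_of_subset_of_nonneg ?_ fun P hP _ => hnn P hP
    intro P hP
    rw [Finset.mem_filter] at hP
    exact Finset.mem_filter.mpr ⟨hP.2, htQ P hP.1⟩
  have h2 := key {P₀, P₁} (Finset.Subset.refl _) (by
    intro P hP
    rw [Finset.mem_insert, Finset.mem_singleton] at hP
    rcases hP with rfl | rfl
    · exact hP₀
    · exact hP₁)
  rwa [Finset.sum_pair hne] at h2

/-- If the coefficient of `r_* D` at `Q` is positive, some point of the fibre has a positive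
coefficient. -/
theorem exists_pos_of_mapDomain_pos (r : Place K F → Place k Fk) (D : Divisor K F)
    (Q : Place k Fk) (h : 0 < Finsupp.mapDomain r D Q) : ∃ P, r P = Q ∧ 0 < D P := by
  classical
  rw [mapDomain_apply_eq_sum] at h
  obtain ⟨P, hP, hpos⟩ := Finset.exists_lt_of_sum_lt (f := fun _ => (0 : ℤ)) (g := fun P => D P)
    (by simpa using h)
  exact ⟨P, (Finset.mem_filter.mp hP).2, hpos⟩

end Sum

end Fermat.Agent.A3.H75

end
end
-- ===== PACK-END A3/H75/DiscValue.lean

-- ===== PACK-BEGIN S18/H576/Objects.lean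
section


/-!
# S18 / MOD-ASM (helper576): basic facts about the concrete objects of `Mod/Defs.lean`
-/

set_option autoImplicit false

noncomputable section

namespace Fermat.Agent.S18.H576

open ModularCurve AlgebraicCurve HahnSeries Fermat.Agent.S18 Fermat.Agent.S18.Mod

variable {M : ℕ} {A : ValuationSubring Qb} {E : IntermediateField ℚ Qb}

/-- The inclusion of the constants. -/
abbrev iota (M : ℕ) : Qb →+* Om M := algebraMap Qb (Om M)

theorem iota_injective (M : ℕ) : Function.Injective (iota M) :=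
  (algebraMap Qb (Om M)).injective

theorem coe_iota (a : Qb) :
    ((iota M a : Om M) : LaurentSeries Qb) = algebraMap Qb (LaurentSeries Qb) a := rfl

theorem coe_iota_single (a : Qb) :
    ((iota M a : Om M) : LaurentSeries Qb) = HahnSeries.single 0 a := by
  rw [coe_iota, algebraMap_laurentSeries_eq_single]

theorem mem_Lc_iff {y : Om M} : y ∈ Lc M ↔ ∃ a : Qb, iota M a = y := by
  unfold Lc
  exact RingHom.mem_fieldRange

theorem mem_Ec_iff {y : Om M} : y ∈ Ec M E ↔ ∃ a : Qb, a ∈ E ∧ iota M a = y := by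
  unfold Ec
  rw [Subfield.mem_map]
  constructor
  · rintro ⟨a, ha, rfl⟩
    exact ⟨a, ha, rfl⟩
  · rintro ⟨a, ha, rfl⟩
    exact ⟨a, ha, rfl⟩

theorem mem_Rc_iff {y : Om M} : y ∈ Rc M A E ↔ ∃ a : Qb, a ∈ A ∧ a ∈ E ∧ iota M a = y := by
  unfold Rc
  rw [Subring.mem_map]
  constructor
  · rintro ⟨a, ha, rfl⟩
    rw [Subring.mem_inf] at ha
    exact ⟨a, ha.1, ha.2, rfl⟩
  · rintro ⟨a, haA, haE, rfl⟩
    exact ⟨a, Subring.mem_inf.mpr ⟨haA, haE⟩, rfl⟩

theorem iota_mem_Lc (a : Qb) : iota M a ∈ Lc M := mem_Lc_iff.mpr ⟨a, rfl⟩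

theorem iota_mem_Ec {a : Qb} (ha : a ∈ E) : iota M a ∈ Ec M E := mem_Ec_iff.mpr ⟨a, ha, rfl⟩

theorem iota_mem_Rc {a : Qb} (haA : a ∈ A) (haE : a ∈ E) : iota M a ∈ Rc M A E :=
  mem_Rc_iff.mpr ⟨a, haA, haE, rfl⟩

theorem iota_mem_Ec_iff {a : Qb} : iota M a ∈ Ec M E ↔ a ∈ E := by
  constructor
  · intro h
    obtain ⟨b, hb, hab⟩ := mem_Ec_iff.mp h
    rwa [← iota_injective M hab]
  · exact iota_mem_Ec

theorem iota_mem_Rc_iff {a : Qb} : iota M a ∈ Rc M A E ↔ a ∈ A ∧ a ∈ E := by
  constructor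
  · intro h
    obtain ⟨b, hbA, hbE, hab⟩ := mem_Rc_iff.mp h
    rw [← iota_injective M hab]
    exact ⟨hbA, hbE⟩
  · exact fun h => iota_mem_Rc h.1 h.2

theorem Rc_subset_Ec : (Rc M A E : Set (Om M)) ⊆ Ec M E := by
  intro y hy
  obtain ⟨a, -, haE, rfl⟩ := mem_Rc_iff.mp hy
  exact iota_mem_Ec haE

theorem Ec_le_Lc : Ec M E ≤ Lc M := by
  intro y hy
  obtain ⟨a, -, rfl⟩ := mem_Ec_iff.mp hy
  exact iota_mem_Lc a

theorem Ec_le_Fc : Ec M E ≤ Fc M E := by
  intro y hy
  exact Subfield.subset_closure (Or.inl hy)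

theorem Rc_total : ∀ e ∈ Ec M E, e ∈ Rc M A E ∨ e⁻¹ ∈ Rc M A E := by
  intro e he
  obtain ⟨a, haE, rfl⟩ := mem_Ec_iff.mp he
  rcases A.mem_or_inv_mem a with h | h
  · exact Or.inl (iota_mem_Rc h haE)
  · right
    rw [← map_inv₀]
    exact iota_mem_Rc h (inv_mem haE)

instance charZero_Om (M : ℕ) : CharZero (Om M) :=
  charZero_of_injective_algebraMap (iota_injective M)

theorem isAlgebraic_Ec_of_mem_Lc : ∀ a ∈ Lc M, IsAlgebraic (Ec M E) a := by
  intro a ha
  obtain ⟨b, rfl⟩ := mem_Lc_iff.mp ha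
  have hb : IsAlgebraic ℚ b := (AlgebraicClosure.isAlgebraic ℚ).isAlgebraic b
  have h1 : IsAlgebraic ℚ (iota M b) := hb.algebraMap
  exact h1.tower_top (Ec M E)

theorem isAlgClosed_Lc (M : ℕ) : IsAlgClosed (Lc M) := by
  have e : Qb ≃+* (Lc M) := RingEquiv.ofBijective (iota M).rangeRestrictField
    ⟨fun a b h => iota_injective M (congrArg Subtype.val h),
      fun ⟨y, hy⟩ => by
        obtain ⟨a, rfl⟩ := mem_Lc_iff.mp hy
        exact ⟨a, rfl⟩⟩
  exact IsAlgClosed.of_ringEquiv Qb (Lc M) e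

end Fermat.Agent.S18.H576

end
end
-- ===== PACK-END S18/H576/Objects.lean

-- ===== PACK-BEGIN A2/H12/WallG.lean
section


/-!
# Cell A2 — route G: the WALL assembly in field form (helper12)

Mathlib-only.  Setting: `L` a field (the split Kummer cover), `R → L` the base ring, `w ∈ R`,
three charts `Bfin, Binf ≤ Bmid` (subalgebras of `L`), a finite family of *sheets* `s ↦ M s`,
`M s` an additive subgroup of `L` absorbing `Bmid` (in the application `M s = 𝔪_{W_s}` is the maximal
ideal of the valuation ring of the sheet, or a height-one prime of `Bmid`), a ring automorphism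
`τ` of `L` (the lift `τ̃`) preserving the charts and permuting the sheets by `τS`.

* `sheetGraph_connected_sub` : GRAPH-CONN in this language
  (`hcech` = conclusion of `S18.H138.connected_special_fibre` for `L`).
* `wallG_fixes`  : `τ̃` fixes one sheet + `h_triv` + COUNT (`h_uni_*`) + reduced fibres + `hcech`
                   ⟹ `τ̃` fixes every sheet.
* `wallG_comm`   : free action of `Γ` on the sheets, `τ̃` normalises `Γ` ⟹ `τ̃` commutes with `Γ`.
* `wallG`        : all together, Kummer conclusion: `σ (τ̃ y / y) = τ̃ y / y` for all `σ ∈ Γ`.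
-/

set_option autoImplicit false

namespace Fermat.Agent.A2.H12

open scoped Classical

section Val

variable {R : Type*} [CommRing R] {L : Type*} [Field L] [Algebra R L]

/-- The ideal of a chart `C` cut out by an additive subgroup `M` of `L` absorbing `C`. -/
def chartIdeal (C : Subalgebra R L) (M : AddSubgroup L) (habs : ∀ c ∈ C, ∀ a ∈ M, c * a ∈ M) :
    Ideal C where
  carrier := {c | (c : L) ∈ M}
  add_mem' := fun ha hb => M.add_mem ha hb
  zero_mem' := M.zero_mem
  smul_mem' := fun c a ha => habs c c.2 a ha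

theorem mem_chartIdeal (C : Subalgebra R L) (M : AddSubgroup L)
    (habs : ∀ c ∈ C, ∀ a ∈ M, c * a ∈ M) (c : C) :
    c ∈ chartIdeal C M habs ↔ (c : L) ∈ M := Iff.rfl

variable {S : Type*}

/-- Sheets `s`, `t` are separated in the chart `C` (comaximal there). -/
def SepAt (C : Subalgebra R L) (M : S → AddSubgroup L) (s t : S) : Prop :=
  ∃ a ∈ C, a ∈ M s ∧ ∃ b ∈ C, b ∈ M t ∧ a + b = 1

/-- Adjacency in the sheet graph: not separated in one of the two charts. -/
def SubAdj (Bfin Binf : Subalgebra R L) (M : S → AddSubgroup L) (s t : S) : Prop :=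
  ¬ SepAt Bfin M s t ∨ ¬ SepAt Binf M s t

private theorem exists_chart_idem_sub [Fintype S] (C : Subalgebra R L) (M : S → AddSubgroup L)
    (habs : ∀ s, ∀ c ∈ C, ∀ a ∈ M s, c * a ∈ M s) (col : S → Prop)
    (hsep : ∀ s t, col s → ¬ col t → SepAt C M s t) :
    ∃ e ∈ C, (∀ s, col s → 1 - e ∈ M s) ∧ (∀ t, ¬ col t → e ∈ M t) := by
  obtain ⟨e, he1, he2⟩ := exists_idem_of_partition (C := C)
    (fun s => chartIdeal C (M s) (habs s)) col (by
      intro s t hs ht
      obtain ⟨a, haC, haP, b, hbC, hbP, hab⟩ := hsep s t hs ht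
      exact ⟨⟨a, haC⟩, haP, ⟨b, hbC⟩, hbP, Subtype.ext hab⟩)
  refine ⟨e, e.2, ?_, ?_⟩
  · intro s hs
    have := he1 s hs
    rw [mem_chartIdeal] at this
    simpa using this
  · intro t ht
    exact he2 t ht

/-- **GRAPH-CONN, field form.** -/
theorem sheetGraph_connected_sub [Fintype S] (w : R) (Bfin Binf Bmid : Subalgebra R L)
    (M : S → AddSubgroup L)
    (habs : ∀ s, ∀ c ∈ Bmid, ∀ a ∈ M s, c * a ∈ M s)
    (hfm : Bfin ≤ Bmid) (him : Binf ≤ Bmid)
    (hM1 : ∀ s, (1 : L) ∉ M s) (hwM : ∀ s, algebraMap R L w ∈ M s)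
    (hred_mid : ∀ b ∈ Bmid, (∀ s, b ∈ M s) → ∃ t ∈ Bmid, b = algebraMap R L w * t)
    (hred_fin : ∀ b ∈ Bfin, (∀ s, b ∈ M s) → ∃ t ∈ Bfin, b = algebraMap R L w * t)
    (hred_inf : ∀ b ∈ Binf, (∀ s, b ∈ M s) → ∃ t ∈ Binf, b = algebraMap R L w * t)
    (hcech : ∀ e₁ e₂ : L, e₁ ∈ Bfin → e₂ ∈ Binf →
      (∃ t ∈ Bfin, e₁ ^ 2 - e₁ = algebraMap R L w * t) →
      (∃ t ∈ Binf, e₂ ^ 2 - e₂ = algebraMap R L w * t) →
      (∃ t ∈ Bmid, e₁ - e₂ = algebraMap R L w * t) →
      ((∃ t ∈ Bfin, e₁ = algebraMap R L w * t) ∧ (∃ t ∈ Binf, e₂ = algebraMap R L w * t)) ∨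
      ((∃ t ∈ Bfin, 1 - e₁ = algebraMap R L w * t) ∧
        (∃ t ∈ Binf, 1 - e₂ = algebraMap R L w * t)))
    (s₀ t₀ : S) : Relation.ReflTransGen (SubAdj Bfin Binf M) s₀ t₀ := by
  by_contra hcon
  set col : S → Prop := fun s => Relation.ReflTransGen (SubAdj Bfin Binf M) s₀ s with hcol
  have hs₀ : col s₀ := Relation.ReflTransGen.refl
  have ht₀ : ¬ col t₀ := hcon
  have hsep : ∀ s t, col s → ¬ col t → SepAt Bfin M s t ∧ SepAt Binf M s t := by
    intro s t hs ht
    by_contra h
    apply ht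
    refine Relation.ReflTransGen.tail hs ?_
    rcases not_and_or.1 h with h | h
    · exact Or.inl h
    · exact Or.inr h
  obtain ⟨e₁, he₁C, he₁a, he₁b⟩ := exists_chart_idem_sub Bfin M
    (fun s c hc => habs s c (hfm hc)) col (fun s t hs ht => (hsep s t hs ht).1)
  obtain ⟨e₂, he₂C, he₂a, he₂b⟩ := exists_chart_idem_sub Binf M
    (fun s c hc => habs s c (him hc)) col (fun s t hs ht => (hsep s t hs ht).2)
  -- `e (1 - e) ∈ M s` for every sheet
  have hidem : ∀ e ∈ Bmid, (∀ s, col s → 1 - e ∈ M s) → (∀ t, ¬ col t → e ∈ M t) →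
      ∀ s, e ^ 2 - e ∈ M s := by
    intro e heB ha hb s
    by_cases hs : col s
    · have h : e ^ 2 - e = -(e * (1 - e)) := by ring
      rw [h]
      exact (M s).neg_mem (habs s e heB _ (ha s hs))
    · have h : e ^ 2 - e = -((1 - e) * e) := by ring
      rw [h]
      exact (M s).neg_mem (habs s _ (Bmid.sub_mem Bmid.one_mem heB) _ (hb s hs))
  have h1 := hred_fin _ (Bfin.sub_mem (Bfin.pow_mem he₁C 2) he₁C)
    (hidem e₁ (hfm he₁C) he₁a he₁b)
  have h2 := hred_inf _ (Binf.sub_mem (Binf.pow_mem he₂C 2) he₂C)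
    (hidem e₂ (him he₂C) he₂a he₂b)
  have h12 : ∃ t ∈ Bmid, e₁ - e₂ = algebraMap R L w * t := by
    apply hred_mid _ (Bmid.sub_mem (hfm he₁C) (him he₂C))
    intro s
    by_cases hs : col s
    · have : e₁ - e₂ = (1 - e₂) - (1 - e₁) := by ring
      rw [this]
      exact (M s).sub_mem (he₂a s hs) (he₁a s hs)
    · exact (M s).sub_mem (he₁b s hs) (he₂b s hs)
  have hwmul : ∀ s, ∀ t ∈ Bfin, algebraMap R L w * t ∈ M s := by
    intro s t ht
    rw [mul_comm]
    exact habs s t (hfm ht) _ (hwM s)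
  rcases hcech e₁ e₂ he₁C he₂C h1 h2 h12 with ⟨⟨t, htC, ht⟩, _⟩ | ⟨⟨t, htC, ht⟩, _⟩
  · -- `e₁ ∈ (w)`, but `1 - e₁ ∈ M s₀`
    apply hM1 s₀
    have h3 : e₁ ∈ M s₀ := by rw [ht]; exact hwmul s₀ t htC
    have : (1 : L) = (1 - e₁) + e₁ := by ring
    rw [this]
    exact (M s₀).add_mem (he₁a s₀ hs₀) h3
  · apply hM1 t₀
    have h3 : 1 - e₁ ∈ M t₀ := by rw [ht]; exact hwmul t₀ t htC
    have : (1 : L) = (1 - e₁) + e₁ := by ring
    rw [this]
    exact (M t₀).add_mem h3 (he₁b t₀ ht₀)

/-- **Route G, step "τ̃ fixes every sheet".** -/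
theorem wallG_fixes [Fintype S] (w : R) (Bfin Binf Bmid : Subalgebra R L)
    (M : S → AddSubgroup L)
    (habs : ∀ s, ∀ c ∈ Bmid, ∀ a ∈ M s, c * a ∈ M s)
    (hfm : Bfin ≤ Bmid) (him : Binf ≤ Bmid)
    (hM1 : ∀ s, (1 : L) ∉ M s) (hwM : ∀ s, algebraMap R L w ∈ M s)
    (hred_mid : ∀ b ∈ Bmid, (∀ s, b ∈ M s) → ∃ t ∈ Bmid, b = algebraMap R L w * t)
    (hred_fin : ∀ b ∈ Bfin, (∀ s, b ∈ M s) → ∃ t ∈ Bfin, b = algebraMap R L w * t)
    (hred_inf : ∀ b ∈ Binf, (∀ s, b ∈ M s) → ∃ t ∈ Binf, b = algebraMap R L w * t)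
    (hcech : ∀ e₁ e₂ : L, e₁ ∈ Bfin → e₂ ∈ Binf →
      (∃ t ∈ Bfin, e₁ ^ 2 - e₁ = algebraMap R L w * t) →
      (∃ t ∈ Binf, e₂ ^ 2 - e₂ = algebraMap R L w * t) →
      (∃ t ∈ Bmid, e₁ - e₂ = algebraMap R L w * t) →
      ((∃ t ∈ Bfin, e₁ = algebraMap R L w * t) ∧ (∃ t ∈ Binf, e₂ = algebraMap R L w * t)) ∨
      ((∃ t ∈ Bfin, 1 - e₁ = algebraMap R L w * t) ∧
        (∃ t ∈ Binf, 1 - e₂ = algebraMap R L w * t)))
    (τ : L ≃+* L) (hτfin : ∀ b, b ∈ Bfin ↔ τ b ∈ Bfin) (hτinf : ∀ b, b ∈ Binf ↔ τ b ∈ Binf)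
    (τS : S → S) (hτM : ∀ s b, b ∈ M s ↔ τ b ∈ M (τS s))
    {C : Type*} (col : S → C) (h_col : ∀ s, col (τS s) = col s)
    (h_triv : ∀ s, τS s = s → ∀ b, b ∈ Bfin ∨ b ∈ Binf → τ b - b ∈ M s)
    (h_uni_fin : ∀ 𝔫 : Ideal Bfin, 𝔫.IsMaximal → ∀ s t, col s = col t →
      (∀ c : Bfin, (c : L) ∈ M s → c ∈ 𝔫) → (∀ c : Bfin, (c : L) ∈ M t → c ∈ 𝔫) → s = t)
    (h_uni_inf : ∀ 𝔫 : Ideal Binf, 𝔫.IsMaximal → ∀ s t, col s = col t →
      (∀ c : Binf, (c : L) ∈ M s → c ∈ 𝔫) → (∀ c : Binf, (c : L) ∈ M t → c ∈ 𝔫) → s = t)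
    (s₀ : S) (h₀ : τS s₀ = s₀) : ∀ s, τS s = s := by
  -- the restrictions of `τ⁻¹` to the two charts
  have hsymm_fin : ∀ b ∈ Bfin, (τ.symm : L →+* L) b ∈ Bfin := by
    intro b hb
    rw [hτfin]
    simpa using hb
  have hsymm_inf : ∀ b ∈ Binf, (τ.symm : L →+* L) b ∈ Binf := by
    intro b hb
    rw [hτinf]
    simpa using hb
  let ρ₁ : Bfin →+* Bfin := RingHom.restrict (τ.symm : L →+* L) Bfin Bfin hsymm_fin
  let ρ₂ : Binf →+* Binf := RingHom.restrict (τ.symm : L →+* L) Binf Binf hsymm_inf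
  have hρ₁ : ∀ b : Bfin, ((ρ₁ b : Bfin) : L) = τ.symm (b : L) := fun b => rfl
  have hρ₂ : ∀ b : Binf, ((ρ₂ b : Binf) : L) = τ.symm (b : L) := fun b => rfl
  have hsurj₁ : Function.Surjective ρ₁ := by
    intro b
    refine ⟨⟨τ (b : L), (hτfin _).1 b.2⟩, Subtype.ext ?_⟩
    rw [hρ₁]
    simp
  have hsurj₂ : Function.Surjective ρ₂ := by
    intro b
    refine ⟨⟨τ (b : L), (hτinf _).1 b.2⟩, Subtype.ext ?_⟩
    rw [hρ₂]
    simp
  refine fixes_all_two ρ₁ hsurj₁ ρ₂ hsurj₂
    (fun s => chartIdeal Bfin (M s) (fun c hc => habs s c (hfm hc)))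
    (fun s => chartIdeal Binf (M s) (fun c hc => habs s c (him hc)))
    τS col ?_ ?_ h_col ?_ ?_ ?_ ?_ ?_ s₀ h₀
  · intro s b hb
    rw [mem_chartIdeal] at hb ⊢
    rw [hρ₁, hτM s]
    simpa using hb
  · intro s b hb
    rw [mem_chartIdeal] at hb ⊢
    rw [hρ₂, hτM s]
    simpa using hb
  · intro s hs b
    rw [mem_chartIdeal]
    have h := h_triv s hs (τ.symm (b : L)) (Or.inl (hsymm_fin _ b.2))
    have h2 : ((ρ₁ b - b : Bfin) : L) = -(τ (τ.symm (b : L)) - τ.symm (b : L)) := by
      rw [Subalgebra.coe_sub, hρ₁]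
      simp
    rw [h2]
    exact (M s).neg_mem h
  · intro s hs b
    rw [mem_chartIdeal]
    have h := h_triv s hs (τ.symm (b : L)) (Or.inr (hsymm_inf _ b.2))
    have h2 : ((ρ₂ b - b : Binf) : L) = -(τ (τ.symm (b : L)) - τ.symm (b : L)) := by
      rw [Subalgebra.coe_sub, hρ₂]
      simp
    rw [h2]
    exact (M s).neg_mem h
  · intro 𝔫 h𝔫 s t hc hs ht
    exact h_uni_fin 𝔫 h𝔫 s t hc (fun c hcM => hs hcM) (fun c hcM => ht hcM)
  · intro 𝔫 h𝔫 s t hc hs ht
    exact h_uni_inf 𝔫 h𝔫 s t hc (fun c hcM => hs hcM) (fun c hcM => ht hcM)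
  · intro s t
    refine Relation.ReflTransGen.mono ?_ _ _
      (sheetGraph_connected_sub w Bfin Binf Bmid M habs hfm him hM1 hwM hred_mid hred_fin
        hred_inf hcech s t)
    rintro a b (h | h)
    · left
      rintro ⟨c, hc, d, hd, hcd⟩
      exact h ⟨c.1, c.2, hc, d.1, d.2, hd, congrArg Subtype.val hcd⟩
    · right
      rintro ⟨c, hc, d, hd, hcd⟩
      exact h ⟨c.1, c.2, hc, d.1, d.2, hd, congrArg Subtype.val hcd⟩

/-- **Route G, group part.**  `Γ` acts freely on the sheets, `τ̃` normalises `Γ` and fixes every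
sheet: then `τ̃` commutes with `Γ`. -/
theorem wallG_comm (M : S → AddSubgroup L) (τ : L ≃+* L)
    (hall : ∀ s b, b ∈ M s ↔ τ b ∈ M s)
    (Γ : Subgroup (L ≃+* L))
    (hΓM : ∀ σ ∈ Γ, ∀ s, ∃ s', ∀ b, b ∈ M s ↔ σ b ∈ M s')
    (hfree : ∀ σ ∈ Γ, ∀ s, (∀ b, b ∈ M s ↔ σ b ∈ M s) → σ = 1)
    (hnorm : ∀ σ ∈ Γ, τ * σ * τ⁻¹ ∈ Γ) (s₀ : S) :
    ∀ σ ∈ Γ, ∀ b, τ (σ b) = σ (τ b) := by
  intro σ hσ
  have hρ : σ⁻¹ * (τ * σ * τ⁻¹) ∈ Γ := Γ.mul_mem (Γ.inv_mem hσ) (hnorm σ hσ)
  obtain ⟨s', hs'⟩ := hΓM σ hσ s₀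
  have h1 : σ⁻¹ * (τ * σ * τ⁻¹) = 1 := by
    refine hfree _ hρ s₀ (fun b => ?_)
    have e1 : (σ⁻¹ * (τ * σ * τ⁻¹)) b = σ.symm (τ (σ (τ.symm b))) := rfl
    rw [e1]
    -- `b ∈ M s₀ ↔ τ⁻¹ b ∈ M s₀ ↔ σ τ⁻¹ b ∈ M s' ↔ τ σ τ⁻¹ b ∈ M s' ↔ σ⁻¹ τ σ τ⁻¹ b ∈ M s₀`
    have a1 : b ∈ M s₀ ↔ τ.symm b ∈ M s₀ := by
      rw [hall s₀ (τ.symm b)]
      simp
    have a2 : τ.symm b ∈ M s₀ ↔ σ (τ.symm b) ∈ M s' := hs' _
    have a3 : σ (τ.symm b) ∈ M s' ↔ τ (σ (τ.symm b)) ∈ M s' := hall s' _
    have a4 : σ.symm (τ (σ (τ.symm b))) ∈ M s₀ ↔ τ (σ (τ.symm b)) ∈ M s' := by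
      rw [hs' (σ.symm (τ (σ (τ.symm b))))]
      simp
    rw [a1, a2, a3, a4]
  have h2 : τ * σ * τ⁻¹ = σ := by
    have := congrArg (fun ρ => σ * ρ) h1
    simpa [mul_assoc] using this
  have h3 : τ * σ = σ * τ := by
    have := congrArg (fun ρ => ρ * τ) h2
    simpa [mul_assoc] using this
  intro b
  have := congrArg (fun ρ : L ≃+* L => ρ b) h3
  simpa using this

/-- **Route G: the WALL, field form.**  Under the hypotheses of `wallG_fixes` and `wallG_comm`,
for every Kummer generator `y` (each `σ ∈ Γ` multiplies `y` by a `τ̃`-fixed root of unity) the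
quotient `τ̃ y / y` is `Γ`-invariant. -/
theorem wallG [Fintype S] (w : R) (Bfin Binf Bmid : Subalgebra R L)
    (M : S → AddSubgroup L)
    (habs : ∀ s, ∀ c ∈ Bmid, ∀ a ∈ M s, c * a ∈ M s)
    (hfm : Bfin ≤ Bmid) (him : Binf ≤ Bmid)
    (hM1 : ∀ s, (1 : L) ∉ M s) (hwM : ∀ s, algebraMap R L w ∈ M s)
    (hred_mid : ∀ b ∈ Bmid, (∀ s, b ∈ M s) → ∃ t ∈ Bmid, b = algebraMap R L w * t)
    (hred_fin : ∀ b ∈ Bfin, (∀ s, b ∈ M s) → ∃ t ∈ Bfin, b = algebraMap R L w * t)
    (hred_inf : ∀ b ∈ Binf, (∀ s, b ∈ M s) → ∃ t ∈ Binf, b = algebraMap R L w * t)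
    (hcech : ∀ e₁ e₂ : L, e₁ ∈ Bfin → e₂ ∈ Binf →
      (∃ t ∈ Bfin, e₁ ^ 2 - e₁ = algebraMap R L w * t) →
      (∃ t ∈ Binf, e₂ ^ 2 - e₂ = algebraMap R L w * t) →
      (∃ t ∈ Bmid, e₁ - e₂ = algebraMap R L w * t) →
      ((∃ t ∈ Bfin, e₁ = algebraMap R L w * t) ∧ (∃ t ∈ Binf, e₂ = algebraMap R L w * t)) ∨
      ((∃ t ∈ Bfin, 1 - e₁ = algebraMap R L w * t) ∧
        (∃ t ∈ Binf, 1 - e₂ = algebraMap R L w * t)))
    (τ : L ≃+* L) (hτfin : ∀ b, b ∈ Bfin ↔ τ b ∈ Bfin) (hτinf : ∀ b, b ∈ Binf ↔ τ b ∈ Binf)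
    (hτM : ∀ s, ∃ s', ∀ b, b ∈ M s ↔ τ b ∈ M s')
    (hMinj : Function.Injective M)
    {C : Type*} (col : S → C)
    (h_col : ∀ s s', (∀ b, b ∈ M s ↔ τ b ∈ M s') → col s' = col s)
    (h_triv : ∀ s, (∀ b, b ∈ M s ↔ τ b ∈ M s) → ∀ b, b ∈ Bfin ∨ b ∈ Binf → τ b - b ∈ M s)
    (h_uni_fin : ∀ 𝔫 : Ideal Bfin, 𝔫.IsMaximal → ∀ s t, col s = col t →
      (∀ c : Bfin, (c : L) ∈ M s → c ∈ 𝔫) → (∀ c : Bfin, (c : L) ∈ M t → c ∈ 𝔫) → s = t)
    (h_uni_inf : ∀ 𝔫 : Ideal Binf, 𝔫.IsMaximal → ∀ s t, col s = col t →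
      (∀ c : Binf, (c : L) ∈ M s → c ∈ 𝔫) → (∀ c : Binf, (c : L) ∈ M t → c ∈ 𝔫) → s = t)
    (s₀ : S) (h₀ : ∀ b, b ∈ M s₀ ↔ τ b ∈ M s₀)
    (Γ : Subgroup (L ≃+* L))
    (hΓM : ∀ σ ∈ Γ, ∀ s, ∃ s', ∀ b, b ∈ M s ↔ σ b ∈ M s')
    (hfree : ∀ σ ∈ Γ, ∀ s, (∀ b, b ∈ M s ↔ σ b ∈ M s) → σ = 1)
    (hnorm : ∀ σ ∈ Γ, τ * σ * τ⁻¹ ∈ Γ)
    (y : L) (hy : y ≠ 0) (hζ : ∀ σ ∈ Γ, ∃ ζ : L, σ y = ζ * y ∧ τ ζ = ζ) :
    ∀ σ ∈ Γ, σ (τ y / y) = τ y / y := by
  choose τS hτS using hτM
  -- a sheet `s'` with `τ (M s) = M s'` is `τS s`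
  have huniq : ∀ s s', (∀ b, b ∈ M s ↔ τ b ∈ M s') → τS s = s' := by
    intro s s' h
    apply hMinj
    ext c
    have h1 := hτS s (τ.symm c)
    have h2 := h (τ.symm c)
    simp only [RingEquiv.apply_symm_apply] at h1 h2
    rw [← h1, h2]
  have hfix := wallG_fixes w Bfin Binf Bmid M habs hfm him hM1 hwM hred_mid hred_fin hred_inf
    hcech τ hτfin hτinf τS hτS col (fun s => h_col s (τS s) (hτS s))
    (fun s hs b hb => h_triv s (fun c => by
      have := hτS s c
      rwa [hs] at this) b hb)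
    h_uni_fin h_uni_inf s₀ (huniq s₀ s₀ h₀)
  have hall : ∀ s b, b ∈ M s ↔ τ b ∈ M s := by
    intro s b
    have := hτS s b
    rwa [hfix s] at this
  have hcomm := wallG_comm M τ hall Γ hΓM hfree hnorm s₀
  exact kummer_of_commute (Γ : Set (L ≃+* L)) τ y hy (fun g hg => hcomm g hg y)
    (fun g hg => hζ g hg)

end Val

end Fermat.Agent.A2.H12

end
-- ===== PACK-END A2/H12/WallG.lean

-- ===== PACK-BEGIN S35/H858/NormBC.lean
section





/-!
# S35, cell FROB, leaf QNF (helper858) — norms commute with the constant field extension `E ⊆ ℚ̄`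

`E ⊆ ℚ̄` an intermediate field, `F₀ ⊆ ℚ((t))`, `F_E = laurentBaseChange E F₀`,
`F̄ = laurentBaseChange ℚ̄ F₀`, `iota : F_E → F̄` (helper669).

* `constFamily E F₀`          : the constants `ε_j`, `ε` an `E`-basis of `ℚ̄`, as elements of `F̄`;
* `linearIndependent_const`   : they are linearly independent over `F_E` (coefficientwise);
* `span_const_eq_top`         : they span `F̄` over `F_E` (`F̄ = F_E[ℚ̄]`, as `ℚ̄ / E` is algebraic);
* `constBasis E F₀`           : the resulting `F_E`-basis of `F̄`;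
* `iota_normAlong`            : for compatible `ψ : F_{0,E} → F_{1,E}`, `ψ' : F̄_0 → F̄_1` with
  `ψ'` finite: `iota (N_ψ y) = N_ψ' (iota y)`;
* `finiteAlong_of_bar`        : `ψ'` finite ⟹ `ψ` finite;
* `iota_normAlong_alpha`, `iota_normAlong_beta` : the modular instances
  (`heckeAlphaBar`, `heckeBetaBar`).
-/

set_option autoImplicit false
set_option linter.style.haveILetI false
set_option synthInstance.maxHeartbeats 400000
set_option maxHeartbeats 1600000

noncomputable section

namespace Fermat.Agent.S35.H858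

open ModularCurve AlgebraicCurve Module Fermat.Agent.A2.T1.H669

variable (E : IntermediateField ℚ Qb) (F₀ : IntermediateField ℚ (LaurentSeries ℚ))

/-- The index set of a basis of `ℚ̄` over `E`. -/
abbrev JE : Type := Basis.ofVectorSpaceIndex E Qb

/-- A basis of `ℚ̄` over `E`. -/
def epsE : Basis (JE E) E Qb := Basis.ofVectorSpace E Qb

/-- The constants `ε_j` as elements of `F̄`. -/
def constFamily (j : JE E) : ↥(laurentBaseChange Qb F₀) :=
  algebraMap Qb ↥(laurentBaseChange Qb F₀) (epsE E j)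

theorem coeff_smul_const (g : ↥(laurentBaseChange E F₀)) (e : Qb) (n : ℤ) :
    ((iota E F₀ g * algebraMap Qb ↥(laurentBaseChange Qb F₀) e :
        ↥(laurentBaseChange Qb F₀)) : LaurentSeries Qb).coeff n =
      ((g : LaurentSeries E).coeff n) • e := by
  have h1 : ((iota E F₀ g * algebraMap Qb ↥(laurentBaseChange Qb F₀) e :
        ↥(laurentBaseChange Qb F₀)) : LaurentSeries Qb) =
      coeffMap (algebraMap E Qb) (g : LaurentSeries E) * HahnSeries.single 0 e := by
    rw [← algebraMap_laurentSeries_eq_single]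
    rfl
  rw [h1, HahnSeries.coeff_mul_single_zero, coeffMap_coeff, Algebra.smul_def]

/-- The constants `ε_j` are linearly independent over `F_E`. -/
theorem linearIndependent_const :
    letI := algFEFbar E F₀
    LinearIndependent ↥(laurentBaseChange E F₀) (constFamily E F₀) := by
  letI := algFEFbar E F₀
  rw [linearIndependent_iff']
  intro s g hg i hi
  apply Subtype.ext
  apply HahnSeries.ext
  funext n
  have h1 : ∑ j ∈ s, ((g j : LaurentSeries E).coeff n) • (epsE E j) = 0 := by
    let φ : ↥(laurentBaseChange Qb F₀) →+ Qb :=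
      (HahnSeries.coeff.addMonoidHom n).comp
        ((laurentBaseChange Qb F₀).val : ↥(laurentBaseChange Qb F₀) →+ LaurentSeries Qb)
    have h2 : φ (∑ j ∈ s, g j • constFamily E F₀ j) = 0 := by
      rw [hg, map_zero]
    rw [map_sum] at h2
    rw [← h2]
    refine Finset.sum_congr rfl fun j _ => ?_
    rw [← coeff_smul_const E F₀ (g j) (epsE E j) n]
    rfl
  exact linearIndependent_iff'.mp (epsE E).linearIndependent s
    (fun j => (g j : LaurentSeries E).coeff n) h1 i hi

/-- `F̄` is generated over `F_E` by the constants. -/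
theorem adjoin_const_eq_top :
    letI := algFEFbar E F₀
    IntermediateField.adjoin ↥(laurentBaseChange E F₀)
      (Set.range (algebraMap Qb ↥(laurentBaseChange Qb F₀))) = ⊤ := by
  letI := algFEFbar E F₀
  rw [eq_top_iff]
  rintro ⟨z, hz⟩ -
  have key : ∃ w : ↥(laurentBaseChange Qb F₀),
      w ∈ IntermediateField.adjoin ↥(laurentBaseChange E F₀)
        (Set.range (algebraMap Qb ↥(laurentBaseChange Qb F₀))) ∧
      (w : LaurentSeries Qb) = z := by
    have hz2 := hz
    rw [mem_laurentBaseChange_iff] at hz2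
    induction hz2 using Subfield.closure_induction with
    | mem y hy =>
        rcases hy with ⟨a, rfl⟩ | ⟨z₀, hz₀, rfl⟩
        · exact ⟨algebraMap Qb ↥(laurentBaseChange Qb F₀) a,
            IntermediateField.subset_adjoin _ _ ⟨a, rfl⟩, rfl⟩
        · refine ⟨algebraMap ↥(laurentBaseChange E F₀) ↥(laurentBaseChange Qb F₀)
                ⟨coeffEmb E z₀, coeffEmb_mem_laurentBaseChange E hz₀⟩,
            IntermediateField.algebraMap_mem _ _, ?_⟩
          exact Fermat.Agent.S18.H602.coeffMap_coeffEmb' (algebraMap E Qb) z₀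
    | one => exact ⟨1, one_mem _, rfl⟩
    | add x y hx' hy' hx hy =>
        obtain ⟨w₁, hw₁, rfl⟩ := hx ((mem_laurentBaseChange_iff).2 hx')
        obtain ⟨w₂, hw₂, rfl⟩ := hy ((mem_laurentBaseChange_iff).2 hy')
        exact ⟨w₁ + w₂, add_mem hw₁ hw₂, rfl⟩
    | neg x hx' hx =>
        obtain ⟨w₁, hw₁, rfl⟩ := hx ((mem_laurentBaseChange_iff).2 hx')
        exact ⟨-w₁, neg_mem hw₁, rfl⟩
    | inv x hx' hx =>
        obtain ⟨w₁, hw₁, rfl⟩ := hx ((mem_laurentBaseChange_iff).2 hx')
        exact ⟨w₁⁻¹, inv_mem hw₁, IntermediateField.coe_inv _ _⟩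
    | mul x y hx' hy' hx hy =>
        obtain ⟨w₁, hw₁, rfl⟩ := hx ((mem_laurentBaseChange_iff).2 hx')
        obtain ⟨w₂, hw₂, rfl⟩ := hy ((mem_laurentBaseChange_iff).2 hy')
        exact ⟨w₁ * w₂, mul_mem hw₁ hw₂, rfl⟩
  obtain ⟨w, hw, hwz⟩ := key
  have hwz' : w = ⟨z, hz⟩ := Subtype.ext hwz
  rw [← hwz']
  exact hw

/-- Every constant is an `F_E`-combination of the `ε_j`. -/
theorem const_mem_span (e : Qb) :
    letI := algFEFbar E F₀
    algebraMap Qb ↥(laurentBaseChange Qb F₀) e ∈
      Submodule.span ↥(laurentBaseChange E F₀) (Set.range (constFamily E F₀)) := by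
  letI := algFEFbar E F₀
  have h1 : e = ∑ j ∈ ((epsE E).repr e).support, ((epsE E).repr e j) • epsE E j := by
    conv_lhs => rw [← (epsE E).linearCombination_repr e]
    rw [Finsupp.linearCombination_apply, Finsupp.sum]
  rw [h1, map_sum]
  refine Submodule.sum_mem _ fun j _ => ?_
  have h2 : algebraMap Qb ↥(laurentBaseChange Qb F₀) (((epsE E).repr e j) • epsE E j) =
      (algebraMap E ↥(laurentBaseChange E F₀) ((epsE E).repr e j)) • constFamily E F₀ j := by
    rw [Algebra.smul_def, Algebra.smul_def, map_mul]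
    congr 1
    exact (iota_algebraMap E F₀ _).symm
  rw [h2]
  exact Submodule.smul_mem _ _ (Submodule.subset_span ⟨j, rfl⟩)

/-- The constants `ε_j` span `F̄` over `F_E`. -/
theorem span_const_eq_top :
    letI := algFEFbar E F₀
    Submodule.span ↥(laurentBaseChange E F₀) (Set.range (constFamily E F₀)) = ⊤ := by
  letI := algFEFbar E F₀
  haveI := towerEFEFbar E F₀
  have halg : ∀ x ∈ Set.range (algebraMap Qb ↥(laurentBaseChange Qb F₀)),
      IsAlgebraic ↥(laurentBaseChange E F₀) x := by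
    rintro _ ⟨a, rfl⟩
    exact (isAlgebraic_const E F₀ a).tower_top ↥(laurentBaseChange E F₀)
  have h1 := IntermediateField.adjoin_toSubalgebra_of_isAlgebraic halg
  rw [adjoin_const_eq_top E F₀] at h1
  have h2 := Algebra.adjoin_eq_span (R := ↥(laurentBaseChange E F₀))
    (s := Set.range (algebraMap Qb ↥(laurentBaseChange Qb F₀)))
  rw [← h1] at h2
  have h3 : (Submonoid.closure (Set.range (algebraMap Qb ↥(laurentBaseChange Qb F₀))) :
      Set ↥(laurentBaseChange Qb F₀)) = Set.range (algebraMap Qb ↥(laurentBaseChange Qb F₀)) := by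
    have : Set.range (algebraMap Qb ↥(laurentBaseChange Qb F₀)) =
        ((MonoidHom.mrange ((algebraMap Qb ↥(laurentBaseChange Qb F₀) : Qb →+* _) :
          Qb →* ↥(laurentBaseChange Qb F₀)) : Submonoid _) : Set _) := by
      ext x; simp
    rw [this, Submonoid.closure_eq]
  rw [h3] at h2
  rw [eq_top_iff]
  have h4 : Submodule.span ↥(laurentBaseChange E F₀)
      (Set.range (algebraMap Qb ↥(laurentBaseChange Qb F₀))) ≤
      Submodule.span ↥(laurentBaseChange E F₀) (Set.range (constFamily E F₀)) := by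
    rw [Submodule.span_le]
    rintro _ ⟨e, rfl⟩
    exact const_mem_span E F₀ e
  refine le_trans ?_ h4
  rw [← h2]
  intro z _
  exact @Algebra.mem_top ↥(laurentBaseChange E F₀) ↥(laurentBaseChange Qb F₀) _ _ _ z

/-- The `F_E`-basis `ε_j` of `F̄`. -/
def constBasis :
    letI := algFEFbar E F₀
    Basis (JE E) ↥(laurentBaseChange E F₀) ↥(laurentBaseChange Qb F₀) :=
  letI := algFEFbar E F₀
  Basis.mk (linearIndependent_const E F₀) (span_const_eq_top E F₀).ge

theorem constBasis_apply (j : JE E) :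
    letI := algFEFbar E F₀
    constBasis E F₀ j = algebraMap Qb ↥(laurentBaseChange Qb F₀) (epsE E j) := by
  letI := algFEFbar E F₀
  exact Basis.mk_apply (linearIndependent_const E F₀) (span_const_eq_top E F₀).ge j

/-! ## Norms -/

section Norm

variable (F₁ : IntermediateField ℚ (LaurentSeries ℚ))
variable (ψ : ↥(laurentBaseChange E F₀) →ₐ[E] ↥(laurentBaseChange E F₁))
  (ψ' : ↥(laurentBaseChange Qb F₀) →ₐ[Qb] ↥(laurentBaseChange Qb F₁))

/-- If `ψ'` (over `ℚ̄`) is finite, so is `ψ` (over `E`). -/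
theorem finiteAlong_of_bar (hc : ∀ a, iota E F₁ (ψ a) = ψ' (iota E F₀ a))
    (hfin : FiniteAlong Qb ψ') : FiniteAlong E ψ := by
  letI a1 : Algebra ↥(laurentBaseChange E F₀) ↥(laurentBaseChange E F₁) := algebraAlong ψ
  letI a2 : Algebra ↥(laurentBaseChange E F₀) ↥(laurentBaseChange Qb F₀) := algFEFbar E F₀
  letI a3 : Algebra ↥(laurentBaseChange Qb F₀) ↥(laurentBaseChange Qb F₁) := algebraAlong ψ'
  letI a4 : Algebra ↥(laurentBaseChange E F₁) ↥(laurentBaseChange Qb F₁) := algFEFbar E F₁
  letI a5 : Algebra ↥(laurentBaseChange E F₀) ↥(laurentBaseChange Qb F₁) :=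
    ((iota E F₁).comp ψ.toRingHom).toAlgebra
  haveI t1 : IsScalarTower ↥(laurentBaseChange E F₀) ↥(laurentBaseChange E F₁)
      ↥(laurentBaseChange Qb F₁) := IsScalarTower.of_algebraMap_eq fun a => rfl
  haveI t2 : IsScalarTower ↥(laurentBaseChange E F₀) ↥(laurentBaseChange Qb F₀)
      ↥(laurentBaseChange Qb F₁) := IsScalarTower.of_algebraMap_eq fun a => hc a
  haveI : Module.Finite ↥(laurentBaseChange Qb F₀) ↥(laurentBaseChange Qb F₁) := hfin
  have hε : ∀ j, constBasis E F₁ j =
      algebraMap ↥(laurentBaseChange Qb F₀) ↥(laurentBaseChange Qb F₁) (constBasis E F₀ j) := by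
    intro j
    rw [constBasis_apply, constBasis_apply]
    exact (ψ'.commutes _).symm
  exact finite_of_common_basis (constBasis E F₀) (constBasis E F₁) hε

/-- **Norms commute with the constant field extension.** -/
theorem iota_normAlong (hc : ∀ a, iota E F₁ (ψ a) = ψ' (iota E F₀ a))
    (hfin : FiniteAlong Qb ψ') (y : ↥(laurentBaseChange E F₁)) :
    iota E F₀ (Fermat.Agent.S29.H395.normAlong ψ y) =
      Fermat.Agent.S29.H395.normAlong ψ' (iota E F₁ y) := by
  letI a1 : Algebra ↥(laurentBaseChange E F₀) ↥(laurentBaseChange E F₁) := algebraAlong ψ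
  letI a2 : Algebra ↥(laurentBaseChange E F₀) ↥(laurentBaseChange Qb F₀) := algFEFbar E F₀
  letI a3 : Algebra ↥(laurentBaseChange Qb F₀) ↥(laurentBaseChange Qb F₁) := algebraAlong ψ'
  letI a4 : Algebra ↥(laurentBaseChange E F₁) ↥(laurentBaseChange Qb F₁) := algFEFbar E F₁
  letI a5 : Algebra ↥(laurentBaseChange E F₀) ↥(laurentBaseChange Qb F₁) :=
    ((iota E F₁).comp ψ.toRingHom).toAlgebra
  haveI t1 : IsScalarTower ↥(laurentBaseChange E F₀) ↥(laurentBaseChange E F₁)
      ↥(laurentBaseChange Qb F₁) := IsScalarTower.of_algebraMap_eq fun a => rfl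
  haveI t2 : IsScalarTower ↥(laurentBaseChange E F₀) ↥(laurentBaseChange Qb F₀)
      ↥(laurentBaseChange Qb F₁) := IsScalarTower.of_algebraMap_eq fun a => hc a
  haveI : Module.Finite ↥(laurentBaseChange Qb F₀) ↥(laurentBaseChange Qb F₁) := hfin
  have hε : ∀ j, constBasis E F₁ j =
      algebraMap ↥(laurentBaseChange Qb F₀) ↥(laurentBaseChange Qb F₁) (constBasis E F₀ j) := by
    intro j
    rw [constBasis_apply, constBasis_apply]
    exact (ψ'.commutes _).symm
  haveI : Module.Finite ↥(laurentBaseChange E F₀) ↥(laurentBaseChange E F₁) :=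
    finite_of_common_basis (constBasis E F₀) (constBasis E F₁) hε
  exact norm_algebraMap_of_common_basis (constBasis E F₀) (constBasis E F₁) hε y

end Norm

/-! ## The modular instances -/

section Modular

variable (M q : ℕ) [NeZero M] [NeZero q]

theorem iota_heckeAlphaBar (a : ↥(laurentBaseChange E (modularFunctionFieldFull M))) :
    iota E (modularFunctionFieldFull (M * q)) (heckeAlphaBar E M q a) =
      heckeAlphaBar Qb M q (iota E (modularFunctionFieldFull M) a) :=
  Subtype.ext (by rw [coe_iota, coe_heckeAlphaBar, coe_heckeAlphaBar, coe_iota])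

theorem iota_heckeBetaBar (a : ↥(laurentBaseChange E (modularFunctionFieldFull M))) :
    iota E (modularFunctionFieldFull (M * q)) (heckeBetaBar E M q a) =
      heckeBetaBar Qb M q (iota E (modularFunctionFieldFull M) a) :=
  Subtype.ext (by
    rw [coe_iota, coe_heckeBetaBar, coe_heckeBetaBar, coe_iota, coeffMap_qExpand])

/-- The norm along `α` commutes with `E ⊆ ℚ̄`. -/
theorem iota_normAlong_alpha (hfin : FiniteAlong Qb (heckeAlphaBar Qb M q))
    (y : ↥(laurentBaseChange E (modularFunctionFieldFull (M * q)))) :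
    iota E (modularFunctionFieldFull M)
        (Fermat.Agent.S29.H395.normAlong (heckeAlphaBar E M q) y) =
      Fermat.Agent.S29.H395.normAlong (heckeAlphaBar Qb M q)
        (iota E (modularFunctionFieldFull (M * q)) y) :=
  iota_normAlong E _ _ _ _ (iota_heckeAlphaBar E M q) hfin y

/-- The norm along `β` commutes with `E ⊆ ℚ̄`. -/
theorem iota_normAlong_beta (hfin : FiniteAlong Qb (heckeBetaBar Qb M q))
    (y : ↥(laurentBaseChange E (modularFunctionFieldFull (M * q)))) :
    iota E (modularFunctionFieldFull M)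
        (Fermat.Agent.S29.H395.normAlong (heckeBetaBar E M q) y) =
      Fermat.Agent.S29.H395.normAlong (heckeBetaBar Qb M q)
        (iota E (modularFunctionFieldFull (M * q)) y) :=
  iota_normAlong E _ _ _ _ (iota_heckeBetaBar E M q) hfin y

end Modular

end Fermat.Agent.S35.H858

end
end
-- ===== PACK-END S35/H858/NormBC.lean

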