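import Fermat.Prelude.Def_GaloisRep_LocalConditions
import Mathlib
import Fermat.Prelude.Def_AlgebraicCurve_Correspondence
import Fermat.Prelude.Def_ModularCurve_LaurentCoeff
import Fermat.Prelude.Def_ModularCurve_ArithmeticGalois
import Fermat.Prelude.Def_FLTPrelim_Ramification
import Fermat.Agent.Pack.S33.E9L3
import Fermat.Agent.Pack.S33.E0L0
import Fermat.Agent.Pack.S33.E7L1
import Fermat.Agent.Pack.S33.E4L2
import Fermat.Agent.Pack.S33.E0L1
import Fermat.Agent.Pack.S33.E4L3
import Fermat.Agent.Pack.S33.E7L2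
import Fermat.Agent.Pack.S33.E7L0
import Fermat.Agent.Pack.S33.E9L1
import Fermat.Agent.Pack.S33.E4L0
import Fermat.Agent.Pack.S33.E9L2
import Fermat.Agent.Pack.S33.E8L2
import Fermat.Agent.Pack.S33.E8L3
import Fermat.Agent.Pack.S33.E6L1
import Fermat.Agent.Pack.S33.E5L3
import Fermat.Agent.Pack.S33.E7L3

-- ===== PACK-BEGIN S33/Spec.lean
section
/-
Row S33 (ordinary at `p`, `p ‖ N`), TOP GLUE — interface (helper409).

Goal: the frozen statement S33 (`H.ρ.IsOrdinaryAt p` for a Hecke–Galois datum of level `N`,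
`p ‖ N`, `p` odd, residual representation ordinary at `p`) from

* the pieces REL, EMB, RED of row S32 (`Fermat/Agent/S32/Spec.lean`, all proved on main) and
  `S59.G4.PointsStatement` (proved on main),
* ONE new piece: `OrdEigenStatement` (ORD-EIG) below.

ORD-EIG: at every local `p`-adic point `P` of the coefficient ring of the datum there is an adic
eigenmodule `E` (Tate eigenmodule of `J₀(N)`) on which inertia at `p` acts "ordinarily":
for `σ₀, σ` in the inertia group and `τ` in the decomposition group of a place over `p`, and `c`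
the value of the `p`-adic cyclotomic character at `σ₀`,

  `(σ₀ - c) (σ - 1) = 0`   and   `(σ₀ - c) τ (σ₀ - 1) = 0`   on `E.M`.

`Top.lean` proves `s33_of_pieces : OrdEigen → REL → EMB → RED → POINTS → S33`.
Route of ORD-EIG: `coord/S33-helper409.md` on `origin/helper409`.
Only sorry-free definitions in this file.
-/



set_option autoImplicit false

noncomputable section

namespace Fermat.Agent.S33

open IsLocalRing Fermat.Agent.S31

/-- `c` is the value of the `p`-adic cyclotomic character at `σ` (in a `p`-adically separated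
ring this determines `c`): whenever `σ` acts on the `p ^ n`-th roots of unity as the `a`-th
power, `c ≡ a mod p ^ n`.  (Same shape as `GaloisRepAdic.DetIsCyclotomic`.) -/
def IsCycVal (p : ℕ) {A : Type} [CommRing A] (σ : GQ) (c : A) : Prop :=
  ∀ (n a : ℕ), (∀ μ : Qb, μ ^ p ^ n = 1 → σ μ = μ ^ a) →
    c - (a : A) ∈ Ideal.span {((p ^ n : ℕ) : A)}

/-- The **ordinary identities** at `p` for a Galois action on a module `M` (rank-free form of
`GaloisRepAdic.IsOrdinaryAt`): for every place `P ∣ p`, `σ₀, σ ∈ I_P`, `τ ∈ D_P` and `c` the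
cyclotomic value of `σ₀`:  `(σ₀ - c)(σ - 1) = 0` and `(σ₀ - c) τ (σ₀ - 1) = 0`. -/
def IsOrdMod (p : ℕ) {A M : Type} [CommRing A] [AddCommGroup M] [Module A M]
    (ρ : GQ →* Module.End A M) : Prop :=
  ∀ P : ValuationSubring Qb, P.LiesOverPrime p →
    ∀ σ₀ ∈ P.inertiaSubgroupIn ℚ, ∀ c : A, IsCycVal p σ₀ c →
      (∀ σ ∈ P.inertiaSubgroupIn ℚ, (ρ σ₀ - c • 1) * (ρ σ - 1) = 0) ∧
      (∀ τ ∈ P.decompositionSubgroup ℚ, (ρ σ₀ - c • 1) * ρ τ * (ρ σ₀ - 1) = 0)

/-- **ORD-EIG.**  Let `H` be a Hecke–Galois datum of level `N`, `p ‖ N`, `p` odd, whose residual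
representation is ordinary at `p`.  Then at every local `p`-adic point `P` of its coefficient ring
there is an adic eigenmodule of `P.χ ∘ π` satisfying the ordinary identities at `p`. -/
def OrdEigenStatement : Prop :=
  ∀ (p : ℕ) [Fact p.Prime] (_hp2 : p ≠ 2) (N : ℕ) [NeZero N] (S : Finset ℕ)
    (_hN : p ∣ N ∧ ¬ p ^ 2 ∣ N) (_hNS : ∀ q : ℕ, q.Prime → q ∣ N → q ∈ S)
    (𝒪 : Type) [CommRing 𝒪] [IsDomain 𝒪] [IsDiscreteValuationRing 𝒪]
    [IsAdicComplete (maximalIdeal 𝒪) 𝒪] [Finite (ResidueField 𝒪)] [CharZero 𝒪]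
    (_hp𝒪 : (p : 𝒪) ∈ maximalIdeal 𝒪)
    (θ : CuspForm.heckeAlgebra N 2 (↑S : Set ℕ) →+* ResidueField 𝒪)
    (T : Type) [CommRing T] [IsLocalRing T] [IsNoetherianRing T]
    [IsAdicComplete (maximalIdeal T) T] [Algebra 𝒪 T] [IsLocalHom (algebraMap 𝒪 T)]
    [Module.Finite 𝒪 T] [Module.Free 𝒪 T]
    (H : CuspForm.HeckeGaloisRepDatum N (↑S : Set ℕ) 𝒪 θ T)
    (_hres : (GaloisRepAdic.ofResidualGaloisRep H.ρ.residual).IsOrdinaryAt p)
    (P : PadicPoint p T) (_hloc : IsLocalHom P.χ),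
    ∃ E : Fermat.Agent.S30.H990.AdicEigenModule p N S P.O (P.χ.comp H.π), IsOrdMod p E.ρ

/-- The frozen statement S33, as a `Prop`. -/
def S33Statement : Prop :=
  ∀ {p : ℕ} {N : ℕ} [NeZero N] {S : Finset ℕ}
    {𝒪 : Type} [CommRing 𝒪] [IsDomain 𝒪] [IsDiscreteValuationRing 𝒪]
    [IsAdicComplete (maximalIdeal 𝒪) 𝒪]
    {θ : CuspForm.heckeAlgebra N 2 (↑S : Set ℕ) →+* ResidueField 𝒪}
    {T : Type} [CommRing T] [IsLocalRing T] [IsNoetherianRing T]
    [IsAdicComplete (maximalIdeal T) T] [Algebra 𝒪 T] [IsLocalHom (algebraMap 𝒪 T)]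
    [Module.Finite 𝒪 T] [Module.Free 𝒪 T]
    [Finite (ResidueField 𝒪)] [CharZero 𝒪],
    p.Prime → p ≠ 2 → (p : 𝒪) ∈ maximalIdeal 𝒪 → (p ∣ N ∧ ¬ p ^ 2 ∣ N) →
    (∀ q : ℕ, q.Prime → q ∣ N → q ∈ S) →
    ∀ H : CuspForm.HeckeGaloisRepDatum N (↑S : Set ℕ) 𝒪 θ T,
      (GaloisRepAdic.ofResidualGaloisRep H.ρ.residual).IsOrdinaryAt p → H.ρ.IsOrdinaryAt p

end Fermat.Agent.S33

end
end
-- ===== PACK-END S33/Spec.lean

-- ===== PACK-BEGIN Lib/Cheb/H221/Cyc.lean
section











/-!
# CYC (helper221): `PrimeSum + Count + Frob + FrobFinite + DirichletLimit ⇒ CycStatement`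
-/

set_option autoImplicit false

open NumberField IsDedekindDomain Filter Topology

namespace Fermat.Agent.Lib.Cheb.H221

set_option linter.unusedSectionVars false

section logsum

variable {P : Type*} {N : P → ℝ} (hN : ∀ r, 2 ≤ N r)
  (hsum : ∀ s : ℝ, 1 < s → Summable (xs N s)) {c : P → ℂ} (hc : ∀ r, ‖c r‖ ≤ 1)

include hN in
lemma xs_sq_le {s : ℝ} (hs : 1 ≤ s) (r : P) : xs N s r ^ 2 ≤ xs N 2 r := by
  unfold xs
  have hpos : (0 : ℝ) < N r := by linarith [hN r]
  rw [← Real.rpow_natCast, ← Real.rpow_mul hpos.le]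
  apply Real.rpow_le_rpow_of_exponent_le (by linarith [hN r])
  push_cast
  linarith

include hN hsum hc in
lemma norm_logEuler_sub_le {s : ℝ} (hs : 1 < s) :
    ‖logEuler N c s - ∑' r, c r * (xs N s r : ℂ)‖ ≤ ∑' r, xs N 2 r := by
  have h1 : Summable (fun r => c r * (xs N s r : ℂ)) :=
    Summable.of_norm_bounded (hsum s hs) (fun r => norm_z_le hN hc s r)
  unfold logEuler
  rw [← (summable_logFactor hN hsum hc hs).tsum_sub h1]
  refine tsum_of_norm_bounded (hsum 2 (by norm_num)).hasSum (fun r => ?_)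
  exact (norm_logFactor_sub_le hN hc hs.le r).trans (xs_sq_le hN hs.le r)

end logsum

section glue

lemma rpow_neg_le_one (p : Nat.Primes) {s : ℝ} (hs : 0 ≤ s) : (((p : ℕ) : ℝ)) ^ (-s) ≤ 1 :=
  Real.rpow_le_one_of_one_le_of_nonpos (by exact_mod_cast p.2.one_le) (by linarith)

/-- the glue: CYC from its pieces -/
theorem cyc_of_pieces (hEP : EulerProductStatement) (hDEG : TwistedPrimeSumStatement)
    (hABS : AbstractDirichletStatement) (hALG : CycAlgStatement)
    (hZ : Spec.PrimeSumStatement) (hA : Spec.CountStatement) (hD : Spec.FrobStatement)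
    (hM : Spec.FrobFiniteStatement) (hAN : Spec.DirichletLimitStatement) :
    Spec.CycStatement := by
  intro L _ _ _ m ζ hm hζ g hg S
  classical
  have : NeZero m := ⟨hm.ne'⟩
  obtain ⟨hord, B, hSUPP, hSPLIT, hNT, hFIN⟩ := hALG hA hD hM L m ζ hζ g hg
  set a := hζ.autToPow ℚ g with ha
  set c : Nat.Primes → ℝ := fun p => (Spec.primeCount (fixM L g) p : ℝ) with hc
  have hc0 : ∀ p, 0 ≤ c p := fun p => Nat.cast_nonneg _
  have hsumc : ∀ s : ℝ, 1 < s → s ≤ 2 →
      Summable (fun p : Nat.Primes => c p * (p : ℝ) ^ (-s)) :=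
    fun s h1 _ => summable_primeCount (fixM L g) h1
  have hcne : ∀ p : Nat.Primes, c p ≠ 0 → Spec.primeCount (fixM L g) p ≠ 0 := by
    intro p hcp h
    apply hcp
    simp [hc, h]
  have hsupp : ∃ B : Finset ℕ, ∀ p : Nat.Primes, (p : ℕ) ∉ B → c p ≠ 0 →
      ∃ u ∈ Subgroup.zpowers a, ((u : (ZMod m)ˣ) : ZMod m) = ((p : ℕ) : ZMod m) :=
    ⟨B, fun p hpB hcp => hSUPP p p.2 hpB (hcne p hcp)⟩
  have htot : ∃ C : ℝ, ∀ s : ℝ, 1 < s → s ≤ 2 →
      |(∑' p : Nat.Primes, c p * (p : ℝ) ^ (-s)) - Real.log (1 / (s - 1))| ≤ C :=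
    hZ (fixM L g)
  have hone : ∃ C : ℝ, ∀ s : ℝ, 1 < s → s ≤ 2 →
      (Nat.card (Subgroup.zpowers a) : ℝ)⁻¹ * Real.log (1 / (s - 1)) - C ≤
        ∑' p : Nat.Primes, if ((p : ℕ) : ZMod m) = 1 then c p * (p : ℝ) ^ (-s) else 0 := by
    obtain ⟨C', hC'⟩ := hZ (fixBot L)
    set CE : ℝ := ∑ p ∈ primesIn B, (Spec.primeCount (fixBot L) p : ℝ) with hCE
    have hn : (0 : ℝ) < Nat.card (Subgroup.zpowers a) := by exact_mod_cast Nat.card_pos
    refine ⟨(C' + CE) / Nat.card (Subgroup.zpowers a), fun s h1 h2 => ?_⟩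
    set u : Nat.Primes → ℝ :=
      fun p => (Spec.primeCount (fixBot L) p : ℝ) * ((p : ℕ) : ℝ) ^ (-s) with hu
    set v : Nat.Primes → ℝ :=
      fun p => if ((p : ℕ) : ZMod m) = 1 then c p * ((p : ℕ) : ℝ) ^ (-s) else 0 with hv
    have hpw : ∀ p : Nat.Primes, 0 ≤ (((p : ℕ) : ℝ)) ^ (-s) :=
      fun p => Real.rpow_nonneg (Nat.cast_nonneg _) _
    have hv0 : ∀ p, 0 ≤ v p := by
      intro p
      simp only [hv]
      split_ifs
      · exact mul_nonneg (hc0 p) (hpw p)
      · exact le_rfl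
    have husum : Summable u := summable_primeCount (fixBot L) h1
    have hvsum : Summable v := by
      refine Summable.of_nonneg_of_le hv0 (fun p => ?_) (hsumc s h1 h2)
      simp only [hv]
      split_ifs
      · exact le_rfl
      · exact mul_nonneg (hc0 p) (hpw p)
    have hdiff : ∀ p : Nat.Primes, p ∉ primesIn B →
        u p - (Nat.card (Subgroup.zpowers a) : ℝ) * v p = 0 := by
      intro p hp
      rw [mem_primesIn] at hp
      have h3 := hSPLIT p p.2 hp
      simp only [hu, hv, h3, hord, hc]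
      split_ifs
      · push_cast
        ring
      · simp
    have h3 : (∑' p, u p) - (Nat.card (Subgroup.zpowers a) : ℝ) * ∑' p, v p =
        ∑ p ∈ primesIn B, (u p - (Nat.card (Subgroup.zpowers a) : ℝ) * v p) := by
      rw [← tsum_mul_left, ← husum.tsum_sub (hvsum.mul_left _)]
      exact tsum_eq_sum hdiff
    have h4 : ∑ p ∈ primesIn B, (u p - (Nat.card (Subgroup.zpowers a) : ℝ) * v p) ≤ CE := by
      refine Finset.sum_le_sum fun p _ => ?_
      have h5 : u p ≤ (Spec.primeCount (fixBot L) p : ℝ) :=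
        mul_le_of_le_one_right (Nat.cast_nonneg _) (rpow_neg_le_one p (by linarith))
      have h6 : 0 ≤ (Nat.card (Subgroup.zpowers a) : ℝ) * v p := mul_nonneg hn.le (hv0 p)
      linarith
    have h5 := hC' s h1 h2
    rw [abs_le] at h5
    have h6 : Real.log (1 / (s - 1)) - (C' + CE) ≤
        (Nat.card (Subgroup.zpowers a) : ℝ) * ∑' p, v p := by
      have : (∑' p : Nat.Primes, (Spec.primeCount (fixBot L) p : ℝ) * (p : ℝ) ^ (-s)) =
          ∑' p, u p := rfl
      linarith [h5.1]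
    have h7 : (Nat.card (Subgroup.zpowers a) : ℝ)⁻¹ * Real.log (1 / (s - 1)) -
        (C' + CE) / Nat.card (Subgroup.zpowers a) =
        (Real.log (1 / (s - 1)) - (C' + CE)) / Nat.card (Subgroup.zpowers a) := by
      field_simp
    rw [h7, div_le_iff₀ hn, mul_comm]
    exact h6
  have hχ : ∀ χ : DirichletCharacter ℂ m,
      (∃ u ∈ Subgroup.zpowers a, χ ((u : (ZMod m)ˣ) : ZMod m) ≠ 1) →
      ∃ (Λ : ℝ → ℂ) (ℓ : ℂ) (C : ℝ), ContinuousOn Λ (Set.Ioi 1) ∧
        Tendsto (fun s => Complex.exp (Λ s)) (𝓝[>] 1) (𝓝 ℓ) ∧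
        ∀ s : ℝ, 1 < s → s ≤ 2 →
          ‖Λ s - ∑' p : Nat.Primes, χ ((p : ℕ) : ZMod m) *
            ((c p * (p : ℝ) ^ (-s) : ℝ) : ℂ)‖ ≤ C := by
    rintro χ ⟨u, hu, hχu⟩
    have hχa : χ ((a : (ZMod m)ˣ) : ZMod m) ≠ 1 := by
      intro h1
      apply hχu
      obtain ⟨k, rfl⟩ := Subgroup.mem_zpowers_iff.mp hu
      have h2 : χ.toUnitHom a = 1 := by
        ext
        rw [MulChar.coe_toUnitHom]
        simpa using h1
      have h3 : χ.toUnitHom (a ^ k) = 1 := by rw [map_zpow, h2, one_zpow]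
      have h4 := congrArg Units.val h3
      rwa [MulChar.coe_toUnitHom] at h4
    obtain ⟨I, hI0, hI1⟩ := hNT χ hχa
    obtain ⟨ℓ, hℓ⟩ := hAN (fixM L g) m χ ⟨I, hI0, hI1⟩
    obtain ⟨CD, hCD⟩ := hDEG hZ (fixM L g) m χ
    set Nn : HeightOneSpectrum (𝓞 (fixM L g)) → ℝ :=
      fun 𝔭 => (Ideal.absNorm 𝔭.asIdeal : ℝ) with hNn
    set cχ : HeightOneSpectrum (𝓞 (fixM L g)) → ℂ :=
      fun 𝔭 => χ (Ideal.absNorm 𝔭.asIdeal : ZMod m) with hcχdef
    have hN : ∀ 𝔭, 2 ≤ Nn 𝔭 := fun 𝔭 => by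
      simp only [hNn]
      exact_mod_cast H761.two_le_absNorm (fixM L g) 𝔭
    have hsumN : ∀ s : ℝ, 1 < s → Summable (xs Nn s) :=
      fun s hs => H761.summable_primeSum (fixM L g) hs
    have hcχ : ∀ 𝔭, ‖cχ 𝔭‖ ≤ 1 := fun 𝔭 => DirichletCharacter.norm_le_one χ _
    refine ⟨logEuler Nn cχ, ℓ, (∑' r, xs Nn 2 r) + CD,
      continuousOn_logEuler hN hsumN hcχ, ?_, ?_⟩
    · refine hℓ.congr' ?_
      filter_upwards [self_mem_nhdsWithin] with s hs
      exact (exp_logEuler_eq hN hsumN hcχ hs (hEP (fixM L g) m χ s hs)).symm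
    · intro s h1 h2
      have e1 := norm_logEuler_sub_le hN hsumN hcχ h1
      have e2 := (hCD s h1 h2).2
      exact (norm_sub_le_norm_sub_add_norm_sub _ _ _).trans (add_le_add e1 e2)
  obtain ⟨p, hpS, hpa, hcp⟩ := hABS m c hc0 hsumc (Subgroup.zpowers a) hsupp htot hone hχ a
    (Subgroup.mem_zpowers a) (S ∪ B)
  have hpS' : (p : ℕ) ∉ S := fun h => hpS (Finset.mem_union_left _ h)
  have hpB : (p : ℕ) ∉ B := fun h => hpS (Finset.mem_union_right _ h)
  obtain ⟨P, hP, hpP, hI, hF⟩ := hFIN p p.2 hpB (hcne p hcp) hpa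
  exact ⟨p, P, p.2, hpS', hP, hpP, hI, hF⟩

/-- **CYC** from the other interface statements. -/
theorem cyc (hZ : Spec.PrimeSumStatement) (hA : Spec.CountStatement) (hD : Spec.FrobStatement)
    (hM : Spec.FrobFiniteStatement) (hAN : Spec.DirichletLimitStatement) :
    Spec.CycStatement :=
  cyc_of_pieces eulerProduct twistedPrimeSum abstractDirichlet cycAlg hZ hA hD hM hAN

end glue

end Fermat.Agent.Lib.Cheb.H221

end
-- ===== PACK-END Lib/Cheb/H221/Cyc.lean

-- ===== PACK-BEGIN S14/H74/Lattice.lean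
section


/-!
# S14/N1 (helper74): lattice sums of `fS` (piece P6)
-/

namespace Fermat.Agent.S14.H74

open NumberField NumberField.mixedEmbedding NumberField.Units
  NumberField.Units.dirichletUnitTheorem NumberField.InfinitePlace Module

open scoped Classical

variable (K : Type*) [Field K] [NumberField K]

/-- The summand on the ring of integers. -/
noncomputable def FS (s : ℝ) (x : 𝓞 K) : ℝ := fS K s (mixedEmbedding K (x : K))

/-- The norm of the image in the mixed space. -/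
noncomputable def mnorm (x : 𝓞 K) : ℝ := ‖mixedEmbedding K (x : K)‖

variable {K}

theorem mnorm_nonneg (x : 𝓞 K) : 0 ≤ mnorm K x := _root_.norm_nonneg _

theorem mnorm_eq_zero_iff {x : 𝓞 K} : mnorm K x = 0 ↔ x = 0 := by
  unfold mnorm
  rw [norm_eq_zero, map_eq_zero, RingOfIntegers.coe_eq_zero_iff]

theorem mnorm_add_le (x y : 𝓞 K) : mnorm K (x + y) ≤ mnorm K x + mnorm K y := by
  unfold mnorm
  have : mixedEmbedding K ((x + y : 𝓞 K) : K) =
      mixedEmbedding K (x : K) + mixedEmbedding K (y : K) := by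
    rw [← map_add]
    rfl
  rw [this]
  exact norm_add_le _ _

theorem mixedEmbedding_norm_coe (x : 𝓞 K) :
    mixedEmbedding.norm (mixedEmbedding K (x : K)) = |(Algebra.norm ℤ x : ℝ)| := by
  rw [mixedEmbedding.norm_eq_norm, ← Algebra.coe_norm_int]
  simp

theorem one_le_mixedEmbedding_norm {x : 𝓞 K} (hx : x ≠ 0) :
    1 ≤ mixedEmbedding.norm (mixedEmbedding K (x : K)) := by
  rw [mixedEmbedding_norm_coe]
  have h : Algebra.norm ℤ x ≠ 0 := by
    rwa [Ne, Algebra.norm_eq_zero_iff]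
  have : (1 : ℤ) ≤ |Algebra.norm ℤ x| := Int.one_le_abs h
  exact_mod_cast this

theorem FS_zero (s : ℝ) : FS K s 0 = 0 := by
  simp [FS, fS, rho]

theorem FS_nonneg (s : ℝ) (x : 𝓞 K) : 0 ≤ FS K s x :=
  mul_nonneg (rho_nonneg _) (Real.rpow_nonneg (mixedEmbedding.norm_nonneg _) _)

theorem FS_le_one {s : ℝ} (hs : 0 ≤ s) (x : 𝓞 K) : FS K s x ≤ 1 := by
  by_cases hx : x = 0
  · rw [hx, FS_zero]
    exact zero_le_one
  · have h1 := one_le_mixedEmbedding_norm hx
    have h2 : (mixedEmbedding.norm (mixedEmbedding K (x : K))) ^ (-s) ≤ 1 :=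
      Real.rpow_le_one_of_one_le_of_nonpos h1 (by linarith)
    calc FS K s x = rho K _ * _ := rfl
      _ ≤ 1 * 1 := mul_le_mul (rho_le_one _) h2 (Real.rpow_nonneg (by linarith) _) zero_le_one
      _ = 1 := one_mul 1

theorem abs_FS_le_one {s : ℝ} (hs : 0 ≤ s) (x : 𝓞 K) : |FS K s x| ≤ 1 := by
  rw [abs_of_nonneg (FS_nonneg s x)]
  exact FS_le_one hs x

variable (K) in
/-- The ring of integers as the integer lattice. -/
noncomputable def toLattice : 𝓞 K ≃ mixedEmbedding.integerLattice K :=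
  Equiv.ofBijective (fun x ↦ ⟨mixedEmbedding K (x : K), ⟨x, rfl⟩⟩) (by
    constructor
    · intro x y h
      have h1 : mixedEmbedding K (x : K) = mixedEmbedding K (y : K) := congrArg Subtype.val h
      exact RingOfIntegers.ext ((mixedEmbedding_injective K) h1)
    · rintro ⟨_, ⟨x, rfl⟩⟩
      exact ⟨x, rfl⟩)

theorem summable_mnorm_rpow {r : ℝ} (hr : r < -(_root_.Module.finrank ℚ K : ℝ)) :
    Summable fun x : 𝓞 K ↦ mnorm K x ^ r := by
  have h1 : _root_.Module.finrank ℤ (mixedEmbedding.integerLattice K) = _root_.Module.finrank ℚ K := by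
    rw [ZLattice.rank ℝ, mixedEmbedding.finrank]
  have h2 := ZLattice.summable_norm_rpow (mixedEmbedding.integerLattice K) r (by rwa [h1])
  exact ((toLattice K).summable_iff (f := fun z : mixedEmbedding.integerLattice K ↦ ‖z‖ ^ r)).mpr h2

theorem exists_FS_le_mnorm_rpow : ∃ A : ℝ, 1 ≤ A ∧ ∀ s : ℝ, 0 ≤ s → ∀ x : 𝓞 K,
    FS K s x ≤ A ^ ((_root_.Module.finrank ℚ K : ℝ) * s) * mnorm K x ^ (-((_root_.Module.finrank ℚ K : ℝ) * s)) := by
  obtain ⟨A, hA1, hA⟩ := exists_support_bound (K := K)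
  have hA0 : 0 < A := by linarith
  refine ⟨A, hA1, fun s hs x ↦ ?_⟩
  by_cases hρ : rho K (mixedEmbedding K (x : K)) = 0
  · have : FS K s x = 0 := fS_eq_zero_of_rho_eq_zero hρ
    rw [this]
    exact mul_nonneg (Real.rpow_nonneg hA0.le _) (Real.rpow_nonneg (mnorm_nonneg x) _)
  · have hN := norm_ne_zero_of_rho_ne_zero hρ
    have hx : x ≠ 0 := by
      rintro rfl
      simp at hN
    have hm : 0 < mnorm K x := lt_of_le_of_ne (mnorm_nonneg x) (Ne.symm (by
      rwa [Ne, mnorm_eq_zero_iff]))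
    have h1 := pow_le_norm_of_support hA1 (hA _ hρ)
    have h2 : 0 < (mnorm K x / A) ^ (_root_.Module.finrank ℚ K) := by positivity
    have h3 : (mixedEmbedding.norm (mixedEmbedding K (x : K))) ^ (-s) ≤
        ((mnorm K x / A) ^ (_root_.Module.finrank ℚ K)) ^ (-s) :=
      Real.rpow_le_rpow_of_nonpos h2 h1 (by linarith)
    have h4 : ((mnorm K x / A) ^ (_root_.Module.finrank ℚ K)) ^ (-s) =
        A ^ ((_root_.Module.finrank ℚ K : ℝ) * s) * mnorm K x ^ (-((_root_.Module.finrank ℚ K : ℝ) * s)) := by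
      rw [← Real.rpow_natCast, ← Real.rpow_mul (by positivity), Real.div_rpow hm.le hA0.le,
        mul_neg, Real.rpow_neg hA0.le, div_eq_mul_inv, inv_inv, mul_comm]
    calc FS K s x = rho K _ * (mixedEmbedding.norm (mixedEmbedding K (x : K))) ^ (-s) := rfl
      _ ≤ 1 * ((mnorm K x / A) ^ (_root_.Module.finrank ℚ K)) ^ (-s) :=
          mul_le_mul (rho_le_one _) h3 (Real.rpow_nonneg (mixedEmbedding.norm_nonneg _) _)
            zero_le_one
      _ = _ := by rw [one_mul, h4]

theorem summable_FS {s : ℝ} (hs : 1 < s) : Summable (FS K s) := by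
  obtain ⟨A, -, hA⟩ := exists_FS_le_mnorm_rpow (K := K)
  have hn : (0 : ℝ) < _root_.Module.finrank ℚ K := Nat.cast_pos.mpr finrank_pos
  refine Summable.of_nonneg_of_le (FS_nonneg s) (hA s (by linarith)) ?_
  refine Summable.mul_left _ (summable_mnorm_rpow ?_)
  rw [neg_lt_neg_iff]
  nlinarith

/-- Domination of the differences `FS (y + t) - FS y`, uniformly in `s ∈ [1, 2]`. -/
theorem exists_dominating (t : 𝓞 K) : ∃ g : 𝓞 K → ℝ, Summable g ∧ (∀ y, 0 ≤ g y) ∧
    ∀ s : ℝ, 1 ≤ s → s ≤ 2 → ∀ y : 𝓞 K, |FS K s (y + t) - FS K s y| ≤ g y := by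
  obtain ⟨R, C, hR, hC, h⟩ := exists_fS_lipschitz (K := K) (mnorm_nonneg t)
  set n : ℕ := _root_.Module.finrank ℚ K with hn
  have hsum : Summable fun y : 𝓞 K ↦ mnorm K y ^ (-((n : ℝ) + 1)) :=
    summable_mnorm_rpow (by rw [neg_lt_neg_iff]; linarith)
  refine ⟨fun y ↦ (C + R ^ (n + 1)) * mnorm K y ^ (-((n : ℝ) + 1)) + if y = 0 then 1 else 0,
    (hsum.mul_left _).add (hasSum_ite_eq 0 (1 : ℝ)).summable, fun y ↦ ?_,
    fun s hs1 hs2 y ↦ ?_⟩
  · have : 0 ≤ mnorm K y ^ (-((n : ℝ) + 1)) := Real.rpow_nonneg (mnorm_nonneg y) _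
    have : (0 : ℝ) ≤ if y = 0 then 1 else 0 := by split_ifs <;> norm_num
    show 0 ≤ (C + R ^ (n + 1)) * mnorm K y ^ (-((n : ℝ) + 1)) + if y = 0 then 1 else 0
    positivity
  · have hs0 : (0 : ℝ) ≤ s := by linarith
    show |FS K s (y + t) - FS K s y| ≤
      (C + R ^ (n + 1)) * mnorm K y ^ (-((n : ℝ) + 1)) + if y = 0 then 1 else 0
    by_cases hy : y = 0
    · subst hy
      rw [zero_add, FS_zero, sub_zero, if_pos rfl]
      have : 0 ≤ mnorm K (0 : 𝓞 K) ^ (-((n : ℝ) + 1)) := Real.rpow_nonneg (mnorm_nonneg _) _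
      have := abs_FS_le_one hs0 t
      have : 0 ≤ (C + R ^ (n + 1)) * mnorm K (0 : 𝓞 K) ^ (-((n : ℝ) + 1)) := by positivity
      linarith
    · rw [if_neg hy, add_zero]
      have hm : 0 < mnorm K y := lt_of_le_of_ne (mnorm_nonneg y) (Ne.symm (by
        rwa [Ne, mnorm_eq_zero_iff]))
      have e : mnorm K y ^ (-((n : ℝ) + 1)) = 1 / mnorm K y ^ (n + 1) := by
        rw [Real.rpow_neg hm.le, one_div]
        congr 1
        exact_mod_cast Real.rpow_natCast (mnorm K y) (n + 1)
      rw [e, mul_one_div]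
      by_cases hyR : R ≤ mnorm K y
      · have h1 := h s hs1 hs2 (mixedEmbedding K (y : K)) (mixedEmbedding K (t : K)) le_rfl hyR
        have h2 : FS K s (y + t) = fS K s (mixedEmbedding K (y : K) + mixedEmbedding K (t : K)) := by
          unfold FS
          rw [← map_add]
          rfl
        rw [h2]
        refine h1.trans ?_
        apply div_le_div_of_nonneg_right _ (by positivity)
        have : 0 ≤ R ^ (n + 1) := by positivity
        linarith
      · have h1 : |FS K s (y + t) - FS K s y| ≤ 1 := by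
          have a1 := FS_nonneg s (y + t)
          have a2 := FS_le_one hs0 (y + t)
          have a3 := FS_nonneg s y
          have a4 := FS_le_one hs0 y
          exact abs_le.mpr ⟨by linarith, by linarith⟩
        refine h1.trans ?_
        rw [le_div_iff₀ (by positivity), one_mul]
        have h3 : mnorm K y ^ (n + 1) ≤ R ^ (n + 1) :=
          pow_le_pow_left₀ hm.le (not_le.mp hyR).le _
        linarith

/-- Coset decomposition of `𝓞 K` along an ideal. -/
noncomputable def cosetEquiv (J : Ideal (𝓞 K)) : (𝓞 K ⧸ J) × J ≃ 𝓞 K where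
  toFun p := Quotient.out p.1 + (p.2 : 𝓞 K)
  invFun x := (Ideal.Quotient.mk J x, ⟨x - Quotient.out (Ideal.Quotient.mk J x), by
    rw [← Ideal.Quotient.eq, Ideal.Quotient.mk_out]⟩)
  left_inv := by
    rintro ⟨q, y⟩
    have h1 : Ideal.Quotient.mk J (Quotient.out q + (y : 𝓞 K)) = q := by
      rw [map_add, Ideal.Quotient.mk_out, Ideal.Quotient.eq_zero_iff_mem.mpr y.2, add_zero]
    ext
    · exact h1
    · simp only
      rw [h1, add_sub_cancel_left]
  right_inv := by
    intro x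
    simp

theorem cosetEquiv_apply (J : Ideal (𝓞 K)) (q : 𝓞 K ⧸ J) (y : J) :
    cosetEquiv J (q, y) = Quotient.out q + (y : 𝓞 K) := rfl

/-- **P6**: comparison of the smoothed sums over `𝓞 K` and over an ideal `J`. -/
theorem exists_compare_bound (J : Ideal (𝓞 K)) (hJ : J ≠ ⊥) : ∃ B : ℝ, ∀ s : ℝ, 1 < s → s ≤ 2 →
    |∑' x : 𝓞 K, FS K s x - (Ideal.absNorm J : ℝ) * ∑' y : J, FS K s (y : 𝓞 K)| ≤ B := by
  have : Finite (𝓞 K ⧸ J) := Ideal.finiteQuotientOfFreeOfNeBot J hJ
  let _ : Fintype (𝓞 K ⧸ J) := Fintype.ofFinite _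
  have hcard : (Ideal.absNorm J : ℝ) = Fintype.card (𝓞 K ⧸ J) := by
    rw [Ideal.absNorm_apply, Submodule.cardQuot_apply, Nat.card_eq_fintype_card]
  choose g hg hg0 hgb using fun t : 𝓞 K ↦ exists_dominating (K := K) t
  refine ⟨∑ q : 𝓞 K ⧸ J, ∑' y : J, g (Quotient.out q) (y : 𝓞 K), fun s hs1 hs2 ↦ ?_⟩
  have hsumF := summable_FS (K := K) hs1
  have hsumJ : Summable fun y : J ↦ FS K s (y : 𝓞 K) :=
    hsumF.comp_injective Subtype.val_injective
  have hsumq : ∀ q : 𝓞 K ⧸ J, Summable fun y : J ↦ FS K s (Quotient.out q + (y : 𝓞 K)) := by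
    intro q
    refine hsumF.comp_injective (f := FS K s) (i := fun y : J ↦ Quotient.out q + (y : 𝓞 K)) ?_
    intro y y' h
    exact Subtype.ext (add_left_cancel h)
  have h1 : ∑' x : 𝓞 K, FS K s x = ∑ q : 𝓞 K ⧸ J, ∑' y : J,
      FS K s (Quotient.out q + (y : 𝓞 K)) := by
    have hs' : Summable (FS K s ∘ cosetEquiv J) :=
      ((cosetEquiv J).summable_iff (f := FS K s)).mpr hsumF
    have e1 : ∑' x : 𝓞 K, FS K s x = ∑' p : (𝓞 K ⧸ J) × J, (FS K s ∘ cosetEquiv J) p :=
      ((cosetEquiv J).tsum_eq (FS K s)).symm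
    have hsumq' : ∀ q : 𝓞 K ⧸ J, Summable fun y : J ↦ (FS K s ∘ cosetEquiv J) (q, y) := by
      intro q
      simp only [Function.comp_apply, cosetEquiv_apply]
      exact hsumq q
    rw [e1, hs'.tsum_prod' hsumq', tsum_fintype]
    simp only [Function.comp_apply, cosetEquiv_apply]
  have h2 : (Ideal.absNorm J : ℝ) * ∑' y : J, FS K s (y : 𝓞 K) =
      ∑ _q : 𝓞 K ⧸ J, ∑' y : J, FS K s (y : 𝓞 K) := by
    rw [Finset.sum_const, Finset.card_univ, nsmul_eq_mul, hcard]
  rw [h1, h2, ← Finset.sum_sub_distrib]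
  refine (Finset.abs_sum_le_sum_abs _ _).trans (Finset.sum_le_sum fun q _ ↦ ?_)
  rw [← (hsumq q).tsum_sub hsumJ, ← Real.norm_eq_abs]
  have hgJ : Summable fun y : J ↦ g (Quotient.out q) (y : 𝓞 K) :=
    (hg (Quotient.out q)).comp_injective Subtype.val_injective
  refine tsum_of_norm_bounded hgJ.hasSum fun y ↦ ?_
  rw [Real.norm_eq_abs, add_comm (Quotient.out q) (y : 𝓞 K)]
  exact hgb (Quotient.out q) s hs1.le hs2 y

end Fermat.Agent.S14.H74

end
-- ===== PACK-END S14/H74/Lattice.lean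

-- ===== PACK-BEGIN S14/H894/Cyclo.lean
section


/-!
# S14 / H894 : the valuation of `ℚ̄` over `p` restricted to `ℚ` and to `ℚ(ζ_p)`

For a valuation subring `A` of `ℚ̄` over the prime `p`, a primitive `p`-th root of unity `ζ`
and `π = ζ - 1`:
* `exists_zpow_valuation_rat`: `v(c) ∈ v(p)^ℤ` for `c ∈ ℚˣ`;
* `valuation_natCast_eq_pow`: `v(p) = v(π)^(p-1)`;
* `exists_zpow_valuation_cyclo`: `v(x) ∈ v(π)^ℤ` for `x ∈ ℚ(ζ)ˣ`;
* `exists_int_valuation_sub_lt_one`: every `x ∈ ℚ(ζ) ∩ A` is congruent to a rational integer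
  modulo the maximal ideal of `A`.
-/

set_option autoImplicit false
set_option linter.style.haveILetI false

open scoped Pointwise

namespace Fermat.Agent.S14.H894

open Polynomial Fermat.Agent.S54

local notation "Qb" => AlgebraicClosure ℚ
local notation "GQ" => (AlgebraicClosure ℚ ≃ₐ[ℚ] AlgebraicClosure ℚ)

section rat

variable (A : ValuationSubring Qb) (p : ℕ) (hp : p.Prime) (hA : A.LiesOverPrime p)

include hA in
theorem valuation_natCast_prime_lt_one : A.valuation (p : Qb) < 1 :=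
  (ValuationSubring.mem_nonunits_iff (A := A)).mp hA

include hp in
theorem natCast_prime_ne_zero : (p : Qb) ≠ 0 := by
  exact_mod_cast hp.ne_zero

include hp in
theorem valuation_natCast_prime_ne_zero : A.valuation (p : Qb) ≠ 0 :=
  (Valuation.ne_zero_iff _).mpr (natCast_prime_ne_zero p hp)

theorem valuation_intCast_le_one (a : ℤ) : A.valuation (a : Qb) ≤ 1 :=
  (A.valuation_le_one_iff _).mpr (intCast_mem A a)

include hp hA in
/-- Integers prime to `p` are units of `A`. -/
theorem valuation_intCast_eq_one (a : ℤ) (ha : ¬ (p : ℤ) ∣ a) : A.valuation (a : Qb) = 1 := by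
  refine le_antisymm (valuation_intCast_le_one A a) ?_
  by_contra hlt
  rw [not_le] at hlt
  exact ha (dvd_of_intCast_mem_nonunits A p hp hA a
    ((ValuationSubring.mem_nonunits_iff (A := A)).mpr hlt))

include hp hA in
theorem exists_pow_valuation_nat (n : ℕ) (hn : n ≠ 0) :
    ∃ e : ℕ, A.valuation (n : Qb) = A.valuation (p : Qb) ^ e := by
  obtain ⟨e, n', hn', rfl⟩ := Nat.exists_eq_pow_mul_and_not_dvd hn p hp.ne_one
  refine ⟨e, ?_⟩
  have h1 : A.valuation ((n' : ℤ) : Qb) = 1 :=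
    valuation_intCast_eq_one A p hp hA n' (by exact_mod_cast hn')
  push_cast
  rw [_root_.map_mul, _root_.map_pow]
  have h2 : A.valuation (n' : Qb) = 1 := by exact_mod_cast h1
  rw [h2, mul_one]

include hp hA in
/-- The value group of `ℚ` is generated by the valuation of `p`. -/
theorem exists_zpow_valuation_rat (c : ℚ) (hc : c ≠ 0) :
    ∃ n : ℤ, A.valuation (c : Qb) = A.valuation (p : Qb) ^ n := by
  have hnum : c.num.natAbs ≠ 0 := by
    rw [Int.natAbs_ne_zero]; exact Rat.num_ne_zero.mpr hc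
  obtain ⟨e₁, h₁⟩ := exists_pow_valuation_nat A p hp hA c.num.natAbs hnum
  obtain ⟨e₂, h₂⟩ := exists_pow_valuation_nat A p hp hA c.den c.den_ne_zero
  refine ⟨(e₁ : ℤ) - e₂, ?_⟩
  have hv0 := valuation_natCast_prime_ne_zero A p hp
  have h3 : A.valuation ((c.num : ℤ) : Qb) = A.valuation (p : Qb) ^ e₁ := by
    rw [← h₁]
    rcases Int.natAbs_eq c.num with h | h
    · conv_lhs => rw [h]
      simp
    · conv_lhs => rw [h]
      simp
  have h4 : (c : Qb) = (c.num : Qb) / (c.den : Qb) := by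
    rw [Rat.cast_def]
  rw [h4, map_div₀, h3, h₂, zpow_sub₀ hv0, zpow_natCast, zpow_natCast]

include hA in
theorem valuation_intCast_lt_one_of_dvd (a : ℤ) (ha : (p : ℤ) ∣ a) :
    A.valuation (a : Qb) < 1 := by
  obtain ⟨t, rfl⟩ := ha
  push_cast
  rw [_root_.map_mul]
  have h1 := valuation_natCast_prime_lt_one A p hA
  have h2 := valuation_intCast_le_one A t
  exact lt_of_le_of_lt (mul_le_of_le_one_right zero_le h2) h1

include hp hA in
/-- A rational number which is integral at `A` is congruent to an integer modulo the maximal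
ideal. -/
theorem exists_int_valuation_rat_sub_lt_one (q : ℚ) (hq : A.valuation (q : Qb) ≤ 1) :
    ∃ m : ℤ, A.valuation ((q : Qb) - (m : Qb)) < 1 := by
  haveI : Fact p.Prime := ⟨hp⟩
  have hden : ¬ (p : ℤ) ∣ (q.den : ℤ) := by
    intro hdvd
    have hnum : ¬ (p : ℤ) ∣ q.num := by
      intro hdvd'
      have h1 : p ∣ q.num.natAbs := Int.natCast_dvd.mp hdvd'
      have h2 : p ∣ q.den := Int.natCast_dvd_natCast.mp hdvd
      have h3 : p ∣ 1 := by
        have := Nat.dvd_gcd h1 h2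
        rwa [Nat.Coprime.gcd_eq_one q.reduced] at this
      exact hp.one_lt.ne' (Nat.dvd_one.mp h3)
    have h1 := valuation_intCast_eq_one A p hp hA q.num hnum
    have h2 := valuation_intCast_lt_one_of_dvd A p hA (q.den : ℤ) hdvd
    have h4 : (q : Qb) = ((q.num : ℤ) : Qb) / (((q.den : ℕ) : ℤ) : Qb) := by
      rw [Rat.cast_def]; push_cast; rfl
    rw [h4, map_div₀, h1] at hq
    have hd0 : A.valuation (((q.den : ℕ) : ℤ) : Qb) ≠ 0 := by
      rw [Valuation.ne_zero_iff]
      exact_mod_cast q.den_ne_zero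
    rw [div_le_iff₀ (zero_lt_iff.mpr hd0), one_mul] at hq
    exact absurd hq (not_le.mpr h2)
  have hden' : ((q.den : ℕ) : ZMod p) ≠ 0 := by
    have : ((q.den : ℤ) : ZMod p) ≠ 0 := by
      rwa [Ne, ZMod.intCast_zmod_eq_zero_iff_dvd]
    exact_mod_cast this
  obtain ⟨m, hm⟩ := ZMod.intCast_surjective ((q.num : ZMod p) * ((q.den : ℕ) : ZMod p)⁻¹)
  refine ⟨m, ?_⟩
  have hdvd : (p : ℤ) ∣ q.num - m * q.den := by
    rw [← ZMod.intCast_zmod_eq_zero_iff_dvd]
    push_cast
    rw [hm, mul_assoc, inv_mul_cancel₀ hden', mul_one, sub_self]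
  have h1 := valuation_intCast_lt_one_of_dvd A p hA _ hdvd
  have h2 := valuation_intCast_eq_one A p hp hA (q.den : ℤ) hden
  have hd0 : ((q.den : ℕ) : Qb) ≠ 0 := by exact_mod_cast q.den_ne_zero
  have h4 : (q : Qb) - (m : Qb) = ((q.num - m * q.den : ℤ) : Qb) / (((q.den : ℕ) : ℤ) : Qb) := by
    rw [Rat.cast_def]
    push_cast
    field_simp
  rw [h4, map_div₀, h2, div_one]
  exact h1

end rat

section cyclo

variable (A : ValuationSubring Qb) (p : ℕ) (hp : p.Prime) (hA : A.LiesOverPrime p)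
  (ζ : Qb) (hζ : IsPrimitiveRoot ζ p)

theorem valuation_le_one_of_pow_eq_one {μ : Qb} {n : ℕ} (hn : n ≠ 0) (hμ : μ ^ n = 1) :
    A.valuation μ ≤ 1 := by
  have : A.valuation μ ^ n = 1 := by rw [← _root_.map_pow, hμ, _root_.map_one]
  exact ((pow_eq_one_iff_left hn).mp this).le

theorem valuation_pow_sub_one_le {μ : Qb} {n : ℕ} (hn : n ≠ 0) (hμ : μ ^ n = 1) (k : ℕ) :
    A.valuation (μ ^ k - 1) ≤ A.valuation (μ - 1) := by
  rw [← geom_sum_mul μ k, _root_.map_mul]
  have h1 : A.valuation (∑ i ∈ Finset.range k, μ ^ i) ≤ 1 := by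
    refine Valuation.map_sum_le _ fun i _ => ?_
    rw [_root_.map_pow]
    exact pow_le_one₀ zero_le (valuation_le_one_of_pow_eq_one A hn hμ)
  exact mul_le_of_le_one_left zero_le h1

include hp hζ in
theorem valuation_sub_one_eq_of_mem_primitiveRoots {μ : Qb} (hμ : μ ∈ primitiveRoots p Qb) :
    A.valuation (μ - 1) = A.valuation (ζ - 1) := by
  haveI : NeZero p := ⟨hp.ne_zero⟩
  have hμ' : IsPrimitiveRoot μ p := (mem_primitiveRoots hp.pos).mp hμ
  obtain ⟨i, -, hi⟩ := hζ.eq_pow_of_pow_eq_one hμ'.pow_eq_one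
  obtain ⟨j, -, hj⟩ := hμ'.eq_pow_of_pow_eq_one hζ.pow_eq_one
  refine le_antisymm ?_ ?_
  · rw [← hi]
    exact valuation_pow_sub_one_le A hp.ne_zero hζ.pow_eq_one i
  · rw [← hj]
    exact valuation_pow_sub_one_le A hp.ne_zero hμ'.pow_eq_one j

include hp hζ in
/-- `v(p) = v(ζ - 1)^(p-1)`. -/
theorem valuation_natCast_eq_pow :
    A.valuation (p : Qb) = A.valuation (ζ - 1) ^ (p - 1) := by
  haveI : Fact p.Prime := ⟨hp⟩
  have h1 : (p : Qb) = ∏ μ ∈ primitiveRoots p Qb, (1 - μ) := by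
    have := eval_one_cyclotomic_prime (R := Qb) (p := p)
    rw [cyclotomic_eq_prod_X_sub_primitiveRoots hζ, eval_prod] at this
    rw [← this]
    refine Finset.prod_congr rfl fun μ _ => ?_
    simp
  rw [h1, _root_.map_prod]
  have h2 : ∀ μ ∈ primitiveRoots p Qb, A.valuation (1 - μ) = A.valuation (ζ - 1) := by
    intro μ hμ
    rw [← valuation_sub_one_eq_of_mem_primitiveRoots A p hp ζ hζ hμ, Valuation.map_sub_swap]
  rw [Finset.prod_congr rfl h2, Finset.prod_const, hζ.card_primitiveRoots,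
    Nat.totient_prime hp]

include hp hA hζ in
theorem valuation_zeta_sub_one_lt_one : A.valuation (ζ - 1) < 1 := by
  by_contra h
  rw [not_lt] at h
  have h1 := valuation_natCast_prime_lt_one A p hA
  rw [valuation_natCast_eq_pow A p hp ζ hζ] at h1
  exact absurd (one_le_pow₀ h) (not_le.mpr h1)

include hp hζ in
theorem valuation_zeta_sub_one_ne_zero : A.valuation (ζ - 1) ≠ 0 := by
  rw [Valuation.ne_zero_iff, sub_ne_zero]
  exact hζ.ne_one hp.one_lt

end cyclo

section terms

variable (A : ValuationSubring Qb) (K : IntermediateField ℚ Qb) (γ : Qb) (n : ℕ)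

/-- In an integral `K`-linear combination of powers of `γ`, every term is integral and the
terms of positive degree lie in the maximal ideal. -/
theorem terms_of_mem
    (hindep : ∀ k : ℕ, 0 < k → k < n → ∀ c ∈ K, A.valuation γ ^ k ≠ A.valuation c)
    (c : ℕ → Qb) (hc : ∀ i, c i ∈ K)
    (hy : A.valuation (∑ i ∈ Finset.range n, c i * γ ^ i) ≤ 1) :
    (∀ i ∈ Finset.range n, A.valuation (c i * γ ^ i) ≤ 1) ∧
      ∀ i ∈ Finset.range n, 0 < i → A.valuation (c i * γ ^ i) < 1 := by
  have hdist := distinct_terms A K γ n hindep c hc γ rfl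
  have hle : ∀ i ∈ Finset.range n, A.valuation (c i * γ ^ i) ≤ 1 :=
    (valuation_sum_le_one_iff _ _ _ hdist).mp hy
  refine ⟨hle, ?_⟩
  intro i hi hi0
  refine lt_of_le_of_ne (hle i hi) ?_
  intro h1
  by_cases hci : c i = 0
  · rw [hci, zero_mul, _root_.map_zero] at h1; exact zero_ne_one h1
  · refine hindep i hi0 (Finset.mem_range.mp hi) (c i)⁻¹ (K.inv_mem (hc i)) ?_
    rw [map_inv₀]
    refine eq_inv_of_mul_eq_one_left ?_
    rw [mul_comm, ← _root_.map_pow, ← _root_.map_mul]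
    exact h1

end terms

section cycloField

variable (A : ValuationSubring Qb) (p : ℕ) (hp : p.Prime) (hA : A.LiesOverPrime p)
  (ζ : Qb) (hζ : IsPrimitiveRoot ζ p)

/-- The monic polynomial of degree `p - 1` over `ℚ` killing `ζ - 1`. -/
noncomputable def cycloShift : (⊥ : IntermediateField ℚ Qb)[X] :=
  (cyclotomic p (⊥ : IntermediateField ℚ Qb)).comp (X + C 1)

theorem cycloShift_monic : (cycloShift p).Monic :=
  (cyclotomic.monic p _).comp_X_add_C 1

include hp in
theorem cycloShift_natDegree : (cycloShift p).natDegree = p - 1 := by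
  unfold cycloShift
  rw [natDegree_comp, natDegree_X_add_C, mul_one, natDegree_cyclotomic, Nat.totient_prime hp]

include hp hζ in
theorem cycloShift_aeval : aeval (ζ - 1) (cycloShift p) = 0 := by
  unfold cycloShift
  rw [aeval_comp]
  simp only [_root_.map_add, aeval_X, _root_.map_one, sub_add_cancel]
  rw [aeval_def, ← eval_map, map_cyclotomic]
  exact hζ.isRoot_cyclotomic hp.pos

theorem mem_adjoinField_bot_of_mem (x : Qb) (hx : x ∈ IntermediateField.adjoin ℚ {ζ}) :
    x ∈ adjoinField ⊥ (ζ - 1) := by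
  have hle : IntermediateField.adjoin ℚ {ζ} ≤ adjoinField ⊥ (ζ - 1) := by
    rw [IntermediateField.adjoin_le_iff, Set.singleton_subset_iff]
    have h1 : ζ - 1 ∈ adjoinField ⊥ (ζ - 1) :=
      IntermediateField.subset_adjoin ℚ _ (Set.mem_union_right _ rfl)
    have h2 : (ζ - 1) + 1 ∈ adjoinField ⊥ (ζ - 1) :=
      (adjoinField ⊥ (ζ - 1)).add_mem h1 (adjoinField ⊥ (ζ - 1)).one_mem
    simpa using h2
  exact hle hx

include hp hA hζ in
theorem cyclo_indep : ∀ k : ℕ, 0 < k → k < (cycloShift p).natDegree →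
    ∀ c ∈ (⊥ : IntermediateField ℚ Qb), A.valuation (ζ - 1) ^ k ≠ A.valuation c := by
  intro k hk0 hk c hc heq
  rw [cycloShift_natDegree p hp] at hk
  have hπ0 := valuation_zeta_sub_one_ne_zero A p hp ζ hζ
  have hπ1 := valuation_zeta_sub_one_lt_one A p hp hA ζ hζ
  rw [IntermediateField.mem_bot] at hc
  obtain ⟨q, rfl⟩ := hc
  by_cases hq : q = 0
  · subst hq
    rw [_root_.map_zero, _root_.map_zero] at heq
    exact pow_ne_zero k hπ0 heq
  · obtain ⟨m, hm⟩ := exists_zpow_valuation_rat A p hp hA q hq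
    rw [eq_ratCast, hm, valuation_natCast_eq_pow A p hp ζ hζ, ← zpow_natCast, ← zpow_natCast,
      ← zpow_mul] at heq
    have h1 := (zpow_right_strictAnti₀ (zero_lt_iff.mpr hπ0) hπ1).injective heq
    have h2 : ((p - 1 : ℕ) : ℤ) ∣ (k : ℤ) := ⟨m, h1⟩
    have h3 : (p - 1) ∣ k := by exact_mod_cast h2
    exact absurd (Nat.le_of_dvd hk0 h3) (not_le.mpr hk)

include hp hA hζ in
/-- The value group of `ℚ(ζ)` is generated by the valuation of `ζ - 1`. -/
theorem exists_zpow_valuation_cyclo (x : Qb) (hx : x ∈ IntermediateField.adjoin ℚ {ζ})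
    (hx0 : x ≠ 0) : ∃ n : ℤ, A.valuation x = A.valuation (ζ - 1) ^ n := by
  obtain ⟨c, hc, rfl⟩ := exists_coeffs_of_mem_adjoinField ⊥ (ζ - 1) (cycloShift p)
    (cycloShift_monic p) (cycloShift_aeval p hp ζ hζ) x (mem_adjoinField_bot_of_mem ζ x hx)
  have hindep := cyclo_indep A p hp hA ζ hζ
  have hdist := distinct_terms A ⊥ (ζ - 1) _ hindep c hc (ζ - 1) rfl
  have hv := valuation_sum_eq_sup A.valuation _ _ hdist
  have hne : (Finset.range (cycloShift p).natDegree).Nonempty := by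
    rw [cycloShift_natDegree p hp, Finset.nonempty_range_iff]
    have := hp.two_le
    omega
  obtain ⟨i, hi, his⟩ := Finset.exists_mem_eq_sup _ hne
    (fun i => A.valuation (c i * (ζ - 1) ^ i))
  rw [his] at hv
  rw [hv]
  have hci : c i ≠ 0 := by
    intro h0
    rw [h0, zero_mul, _root_.map_zero] at hv
    exact hx0 ((_root_.map_eq_zero _).mp hv)
  have hci' := hc i
  rw [IntermediateField.mem_bot] at hci'
  obtain ⟨q, hq⟩ := hci'
  have hq0 : q ≠ 0 := by
    rintro rfl
    rw [_root_.map_zero] at hq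
    exact hci hq.symm
  obtain ⟨m, hm⟩ := exists_zpow_valuation_rat A p hp hA q hq0
  refine ⟨((p - 1 : ℕ) : ℤ) * m + i, ?_⟩
  have hπ0 := valuation_zeta_sub_one_ne_zero A p hp ζ hζ
  rw [_root_.map_mul, _root_.map_pow, ← hq, eq_ratCast, hm, valuation_natCast_eq_pow A p hp ζ hζ,
    zpow_add₀ hπ0, zpow_mul, zpow_natCast, zpow_natCast]

include hp hA hζ in
/-- Every element of `ℚ(ζ)` which is integral at `A` is congruent to a rational integer modulo
the maximal ideal of `A` (the residue field of `ℚ(ζ)` at `p` is `𝔽_p`). -/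
theorem exists_int_valuation_sub_lt_one (x : Qb) (hx : x ∈ IntermediateField.adjoin ℚ {ζ})
    (hxA : A.valuation x ≤ 1) : ∃ m : ℤ, A.valuation (x - (m : Qb)) < 1 := by
  obtain ⟨c, hc, rfl⟩ := exists_coeffs_of_mem_adjoinField ⊥ (ζ - 1) (cycloShift p)
    (cycloShift_monic p) (cycloShift_aeval p hp ζ hζ) x (mem_adjoinField_bot_of_mem ζ x hx)
  have hindep := cyclo_indep A p hp hA ζ hζ
  obtain ⟨hle, hlt⟩ := terms_of_mem A ⊥ (ζ - 1) _ hindep c hc hxA
  have h0mem : 0 ∈ Finset.range (cycloShift p).natDegree := by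
    rw [cycloShift_natDegree p hp, Finset.mem_range]
    have := hp.two_le
    omega
  have hc0 := hc 0
  rw [IntermediateField.mem_bot] at hc0
  obtain ⟨q, hq⟩ := hc0
  have hq1 : A.valuation (q : Qb) ≤ 1 := by
    have := hle 0 h0mem
    rwa [pow_zero, mul_one, ← hq, eq_ratCast] at this
  obtain ⟨m, hm⟩ := exists_int_valuation_rat_sub_lt_one A p hp hA q hq1
  refine ⟨m, ?_⟩
  rw [← Finset.add_sum_erase _ _ h0mem, pow_zero, mul_one, ← hq, eq_ratCast, add_sub_right_comm]
  refine lt_of_le_of_lt (Valuation.map_add _ _ _) (max_lt hm ?_)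
  refine Valuation.map_sum_lt _ one_ne_zero fun i hi => ?_
  rw [Finset.mem_erase] at hi
  exact hlt i hi.2 (Nat.pos_of_ne_zero hi.1)

end cycloField

end Fermat.Agent.S14.H894

end
-- ===== PACK-END S14/H894/Cyclo.lean

-- ===== PACK-BEGIN S56/H734/KummerP.lean
section





/-!
# S56 / H734 : the Kummer count at `p` — `dim H¹(D_P, k(1)) ≤ 2`

Sub-leaf KUMMER-P of LOC-SO (and input of FLAT-O).  `p` an odd prime, `P` a valuation subring of
`ℚ̄` over `p`, `D_P` its decomposition group, `k` a field of characteristic `p`.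

* `kummer_zmod`  : there are `κ₁ κ₂ : G_ℚ → 𝔽_p` (Kummer cocycles of `p` and `1 + p`) such that
  every `c : G_ℚ → 𝔽_p` with `c (σ τ) = c σ + a · c τ` on `D_P` (`a` a cyclotomic exponent of `σ`)
  of finite level is `c σ = x κ₁ σ + y κ₂ σ + (a − 1) m` on `D_P`.
* `kummerP`      : the same with coefficients in `k`; `κ₁, κ₂` are themselves twisted cocycles
  of finite level on all of `G_ℚ`.
* `kummerP_submodule` : a `k`-space `T` of functions with `dim T ≤ 2` such that every such cocycle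
  is congruent on `D_P` to an element of `T` modulo a coboundary.
-/

set_option autoImplicit false
set_option linter.style.haveILetI false

namespace Fermat.Agent.S56.H734

open Fermat.Agent.S56 Fermat.Agent.S55.Bridge
open scoped Pointwise

variable (p : ℕ) [hp : Fact p.Prime]

/-- The twisted cocycle condition on a subgroup `D`, with values in a ring `R`. -/
def IsCycCocycleOn (R : Type*) [Ring R] (D : Subgroup GQ) (c : GQ → R) : Prop :=
  ∀ σ ∈ D, ∀ τ ∈ D, ∀ a : ℕ, IsCycExp p σ a → c (σ * τ) = c σ + (a : R) * c τ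

/-- Finite level on a subgroup `D`. -/
def HasLevelOn {X : Type*} (D : Subgroup GQ) (c : GQ → X) : Prop :=
  ∃ L : IntermediateField ℚ Qb, FiniteDimensional ℚ L ∧
    ∀ σ ∈ D, ∀ τ ∈ D, (∀ x ∈ L, τ x = x) → c (σ * τ) = c σ

theorem padicPlace_liesOver : (padicPlace p).LiesOverPrime p := by
  show ((p : ℕ) : Qb) ∈ (padicPlace p).nonunits
  rw [ValuationSubring.mem_nonunits_iff_exists_mem_maximalIdeal]
  have hnorm : ‖padicEmbedding p ((p : ℕ) : Qb)‖ = (p : ℝ)⁻¹ :=
    norm_padicEmbedding_natCast_self p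
  have hp1 : (1 : ℝ) < p := by exact_mod_cast hp.out.one_lt
  have hmem : ((p : ℕ) : Qb) ∈ padicPlace p := by
    rw [mem_padicPlace_iff_norm, hnorm]
    exact inv_le_one_of_one_le₀ hp1.le
  refine ⟨hmem, ?_⟩
  rw [IsLocalRing.mem_maximalIdeal, mem_nonunits_iff]
  rintro ⟨u, hu⟩
  have h1 : ((u⁻¹ : (padicPlace p)ˣ) : padicPlace p) * u = 1 := by simp
  have h2 : (((u⁻¹ : (padicPlace p)ˣ) : padicPlace p) : Qb) * ((p : ℕ) : Qb) = 1 := by
    have := congrArg (Subtype.val) h1
    rw [hu] at this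
    simpa using this
  have h3 := ((u⁻¹ : (padicPlace p)ˣ) : padicPlace p).2
  rw [mem_padicPlace_iff_norm] at h3
  have h4 := congrArg (fun z => ‖padicEmbedding p z‖) h2
  simp only [map_mul, norm_mul, map_one, norm_one] at h4
  rw [hnorm] at h4
  have hinv : (p : ℝ)⁻¹ < 1 := inv_lt_one_of_one_lt₀ hp1
  have hpos : (0 : ℝ) < (p : ℝ)⁻¹ := inv_pos.mpr (by linarith)
  nlinarith [norm_nonneg (padicEmbedding p
    ((((u⁻¹ : (padicPlace p)ˣ) : padicPlace p) : Qb)))]

/-- **Kummer count, `𝔽_p`-coefficients.** -/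
theorem kummer_zmod (hp2 : p ≠ 2) (P : ValuationSubring Qb) (hP : P.LiesOverPrime p) :
    ∃ κ₁ κ₂ : GQ → ZMod p,
      (IsCycCocycleOn p (ZMod p) ⊤ κ₁ ∧ HasLevelOn ⊤ κ₁) ∧
      (IsCycCocycleOn p (ZMod p) ⊤ κ₂ ∧ HasLevelOn ⊤ κ₂) ∧
      ∀ c : GQ → ZMod p,
      IsCycCocycleOn p (ZMod p) (P.decompositionSubgroup ℚ) c →
      HasLevelOn (P.decompositionSubgroup ℚ) c →
      ∃ x y m : ZMod p, ∀ σ ∈ P.decompositionSubgroup ℚ, ∀ a, IsCycExp p σ a →
        c σ = x * κ₁ σ + y * κ₂ σ + ((a : ZMod p) - 1) * m := by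
  haveI : NeZero p := ⟨hp.out.ne_zero⟩
  obtain ⟨g, hg⟩ := Fermat.Agent.Lib.Cheb.H476.exists_smul_eq hp.out (padicPlace_liesOver p) hP
  -- roots
  obtain ⟨ζ, hζ⟩ := HasEnoughRootsOfUnity.exists_primitiveRoot Qb p
  obtain ⟨π, hπ⟩ := IsAlgClosed.exists_pow_nat_eq ((p : ℕ) : Qb) hp.out.pos
  obtain ⟨β, hβ⟩ := IsAlgClosed.exists_pow_nat_eq (1 + ((p : ℕ) : Qb)) hp.out.pos
  have hp0 : ((p : ℕ) : Qb) ≠ 0 := by exact_mod_cast hp.out.ne_zero
  have hπ0 : π ≠ 0 := by
    intro h
    rw [h, zero_pow hp.out.ne_zero] at hπ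
    exact hp0 hπ.symm
  have h1p : (1 : Qb) + ((p : ℕ) : Qb) ≠ 0 := by
    have : ((1 + p : ℕ) : Qb) ≠ 0 := by exact_mod_cast (Nat.succ_ne_zero p ∘ (by omega))
    simpa using this
  have hβ0 : β ≠ 0 := by
    intro h
    rw [h, zero_pow hp.out.ne_zero] at hβ
    exact h1p hβ.symm
  have hπr : π ^ p = algebraMap ℚ Qb (p : ℚ) := by rw [hπ]; simp
  have hβr : β ^ p = algebraMap ℚ Qb (1 + (p : ℚ)) := by rw [hβ]; simp
  choose κ₁ hκ₁ using exists_kummer_exp hζ π hπ0 (p : ℚ) hπr
  choose κ₂ hκ₂ using exists_kummer_exp hζ β hβ0 (1 + (p : ℚ)) hβr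
  refine ⟨κ₁, κ₂, ⟨fun σ _ τ _ a ha => kummer_exp_cocycle hζ π hπ0 κ₁ hκ₁ σ τ a ha, ?_⟩,
    ⟨fun σ _ τ _ a ha => kummer_exp_cocycle hζ β hβ0 κ₂ hκ₂ σ τ a ha, ?_⟩, fun c hcoc hlev => ?_⟩
  · obtain ⟨L, hL, h⟩ := kummer_exp_level hζ π hπ0 κ₁ hκ₁
    exact ⟨L, hL, fun σ _ τ _ hτ => h σ τ hτ⟩
  · obtain ⟨L, hL, h⟩ := kummer_exp_level hζ β hβ0 κ₂ hκ₂
    exact ⟨L, hL, fun σ _ τ _ hτ => h σ τ hτ⟩
  -- the local datum attached to `g`
  let ι' : Qb →+* PadicAlgCl p :=
    ((padicEmbedding p : Qb →ₐ[ℚ] PadicAlgCl p) : Qb →+* PadicAlgCl p).comp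
      (((g⁻¹ : GQ) : Qb →ₐ[ℚ] Qb) : Qb →+* Qb)
  let loc' : (PadicAlgCl p ≃ₐ[ℚ_[p]] PadicAlgCl p) →* GQ :=
    (MulAut.conj g).toMonoidHom.comp (localGaloisToGlobal p)
  have hloc' : ∀ τ x, loc' τ x = g (localGaloisToGlobal p τ (g⁻¹ x)) := fun τ x => rfl
  have hι' : ∀ x, ι' x = padicEmbedding p (g⁻¹ x) := fun x => rfl
  have compat : ∀ τ x, ι' (loc' τ x) = τ (ι' x) := by
    intro τ x
    rw [hι', hloc', Fermat.Agent.Lib.Cheb.H476.inv_apply_apply,
      padicEmbedding_localGaloisToGlobal, hι']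
  have hrange : loc'.range = P.decompositionSubgroup ℚ := by
    rw [MonoidHom.range_comp, range_localGaloisToGlobal, ← hg]
    exact (MulAction.stabilizer_smul_eq_stabilizer_map_conj g (padicPlace p)).symm
  have hlevel : ∀ L : IntermediateField ℚ Qb, FiniteDimensional ℚ L →
      ∃ E : IntermediateField ℚ_[p] (PadicAlgCl p), FiniteDimensional ℚ_[p] E ∧
        ∀ τ : PadicAlgCl p ≃ₐ[ℚ_[p]] PadicAlgCl p, (∀ y ∈ E, τ y = y) →
          ∀ x ∈ L, loc' τ x = x := by
    intro L hL
    haveI := hL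
    obtain ⟨E, hE, hEL⟩ := exists_local_level_of_global p
      (L.map ((g⁻¹ : GQ) : Qb →ₐ[ℚ] Qb))
    refine ⟨E, hE, fun τ hτ x hx => ?_⟩
    have h1 := hEL τ ((IntermediateField.mem_fixingSubgroup_iff _ _).2 hτ)
    rw [IntermediateField.mem_fixingSubgroup_iff] at h1
    have h2 := h1 (g⁻¹ x) ((IntermediateField.mem_map _).2 ⟨x, hx, rfl⟩)
    rw [hloc', h2, Fermat.Agent.Lib.Cheb.H476.apply_inv_apply]
  exact kummer_core p hp2 (P.decompositionSubgroup ℚ) ι' loc' compat hrange hlevel ζ π β hζ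
    (by rw [hπ]) (by rw [hβ]) κ₁ κ₂ hκ₁ hκ₂ c hcoc hlev

/-- A function of finite level on `D` takes finitely many values on `D`. -/
theorem finite_values_of_hasLevelOn {X : Type*} (D : Subgroup GQ) (c : GQ → X)
    (hlev : HasLevelOn D c) : {v : X | ∃ σ ∈ D, c σ = v}.Finite := by
  classical
  obtain ⟨L, hL, hc⟩ := hlev
  haveI := hL
  rcases isEmpty_or_nonempty X with hX | hX
  · exact Set.toFinite _
  obtain ⟨x₀⟩ := hX
  let r : GQ → (L →ₐ[ℚ] Qb) := fun σ => (σ : Qb →ₐ[ℚ] Qb).comp L.val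
  have hr : ∀ σ ∈ D, ∀ σ' ∈ D, r σ = r σ' → c σ = c σ' := by
    intro σ hσ σ' hσ' h
    have h0 : σ' = σ * (σ⁻¹ * σ') := by group
    rw [h0]
    symm
    apply hc σ hσ (σ⁻¹ * σ') (D.mul_mem (D.inv_mem hσ) hσ')
    intro x hx
    have h1 : σ x = σ' x := DFunLike.congr_fun h ⟨x, hx⟩
    show σ⁻¹ (σ' x) = x
    rw [← h1]
    exact Fermat.Agent.Lib.Cheb.H476.inv_apply_apply σ x
  let c' : (L →ₐ[ℚ] Qb) → X := fun φ =>
    if h : ∃ σ ∈ D, r σ = φ then c h.choose else x₀
  refine (Set.finite_range c').subset ?_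
  rintro v ⟨σ, hσ, rfl⟩
  refine ⟨r σ, ?_⟩
  have h : ∃ σ' ∈ D, r σ' = r σ := ⟨σ, hσ, rfl⟩
  show (if h : ∃ σ' ∈ D, r σ' = r σ then c h.choose else x₀) = c σ
  rw [dif_pos h]
  exact hr _ h.choose_spec.1 _ hσ h.choose_spec.2

/-- **Kummer count at `p`** (sub-leaf KUMMER-P): coefficients in a field `k` of
characteristic `p`. -/
theorem kummerP (hp2 : p ≠ 2) (k : Type*) [Field k] [CharP k p]
    (P : ValuationSubring Qb) (hP : P.LiesOverPrime p) :
    ∃ κ₁ κ₂ : GQ → k,
      (IsCycCocycleOn p k ⊤ κ₁ ∧ HasLevelOn ⊤ κ₁) ∧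
      (IsCycCocycleOn p k ⊤ κ₂ ∧ HasLevelOn ⊤ κ₂) ∧
      ∀ c : GQ → k,
      IsCycCocycleOn p k (P.decompositionSubgroup ℚ) c →
      HasLevelOn (P.decompositionSubgroup ℚ) c →
      ∃ x y m : k, ∀ σ ∈ P.decompositionSubgroup ℚ, ∀ a, IsCycExp p σ a →
        c σ = x * κ₁ σ + y * κ₂ σ + ((a : k) - 1) * m := by
  classical
  letI : Algebra (ZMod p) k := ZMod.algebra k p
  obtain ⟨κ₁, κ₂, hκ₁, hκ₂, hκ⟩ := kummer_zmod p hp2 P hP
  have htr : ∀ κ : GQ → ZMod p, (IsCycCocycleOn p (ZMod p) ⊤ κ ∧ HasLevelOn ⊤ κ) →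
      (IsCycCocycleOn p k ⊤ (fun σ => algebraMap (ZMod p) k (κ σ)) ∧
        HasLevelOn ⊤ (fun σ => algebraMap (ZMod p) k (κ σ))) := by
    rintro κ ⟨h1, L, hL, h2⟩
    refine ⟨fun σ hσ τ hτ a ha => ?_, L, hL, fun σ hσ τ hτ h => ?_⟩
    · show algebraMap (ZMod p) k (κ (σ * τ)) = _
      rw [h1 σ hσ τ hτ a ha, map_add, map_mul, map_natCast]
    · show algebraMap (ZMod p) k (κ (σ * τ)) = algebraMap (ZMod p) k (κ σ)
      rw [h2 σ hσ τ hτ h]
  refine ⟨fun σ => algebraMap (ZMod p) k (κ₁ σ), fun σ => algebraMap (ZMod p) k (κ₂ σ),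
    htr κ₁ hκ₁, htr κ₂ hκ₂, fun c hcoc hlev => ?_⟩
  set D := P.decompositionSubgroup ℚ with hD
  -- the finite-dimensional `𝔽_p`-space spanned by the values
  have hfin := finite_values_of_hasLevelOn D c hlev
  set W : Submodule (ZMod p) k := Submodule.span (ZMod p) {v : k | ∃ σ ∈ D, c σ = v} with hW
  haveI : FiniteDimensional (ZMod p) W := FiniteDimensional.span_of_finite (ZMod p) hfin
  have hcW : ∀ σ ∈ D, c σ ∈ W := fun σ hσ => Submodule.subset_span ⟨σ, hσ, rfl⟩
  let b := Module.finBasis (ZMod p) W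
  -- extended coordinate functionals
  have hext : ∀ i, ∃ l : k →ₗ[ZMod p] ZMod p, l ∘ₗ W.subtype = b.coord i :=
    fun i => LinearMap.exists_extend (b.coord i)
  choose l hl using hext
  have hl' : ∀ i (w : W), l i (w : k) = b.repr w i := by
    intro i w
    have := congrArg (fun f => f w) (hl i)
    simpa using this
  -- the component cocycles
  have hcomp : ∀ i, ∃ x y m : ZMod p, ∀ σ ∈ D, ∀ a, IsCycExp p σ a →
      l i (c σ) = x * κ₁ σ + y * κ₂ σ + ((a : ZMod p) - 1) * m := by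
    intro i
    apply hκ (fun σ => l i (c σ))
    · intro σ hσ τ hτ a ha
      show l i (c (σ * τ)) = l i (c σ) + (a : ZMod p) * l i (c τ)
      rw [hcoc σ hσ τ hτ a ha, map_add]
      congr 1
      have : (a : k) * c τ = (a : ZMod p) • c τ := by
        rw [Algebra.smul_def, map_natCast]
      rw [this, map_smul, smul_eq_mul]
    · obtain ⟨L, hL, hc⟩ := hlev
      exact ⟨L, hL, fun σ hσ τ hτ h => by
        show l i (c (σ * τ)) = l i (c σ)
        rw [hc σ hσ τ hτ h]⟩
  choose x y m hxym using hcomp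
  refine ⟨∑ i, x i • (b i : k), ∑ i, y i • (b i : k), ∑ i, m i • (b i : k), ?_⟩
  intro σ hσ a ha
  have h1 : c σ = ∑ i, (l i (c σ)) • (b i : k) := by
    have h2 := b.sum_repr ⟨c σ, hcW σ hσ⟩
    have h3 : (∑ i, (b.repr ⟨c σ, hcW σ hσ⟩ i) • (b i : k)) = c σ := by
      have h4 := congrArg (fun w : W => (w : k)) h2
      simp only [Submodule.coe_sum, Submodule.coe_smul] at h4
      exact h4
    conv_lhs => rw [← h3]
    refine Finset.sum_congr rfl fun i _ => ?_
    exact congrArg (· • (b i : k)) (hl' i ⟨c σ, hcW σ hσ⟩).symm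
  rw [h1]
  simp only [hxym _ σ hσ a ha, Finset.sum_mul, Finset.mul_sum, ← Finset.sum_add_distrib]
  refine Finset.sum_congr rfl fun i _ => ?_
  simp only [Algebra.smul_def, map_add, map_mul, map_sub, map_one, map_natCast]
  ring

/-- The twisted coboundary condition on `D`: `c σ = t σ + (a − 1) m`. -/
def IsCohomologousOn (R : Type*) [Ring R] (D : Subgroup GQ) (c t : GQ → R) : Prop :=
  ∃ m : R, ∀ σ ∈ D, ∀ a : ℕ, IsCycExp p σ a → c σ = t σ + ((a : R) - 1) * m

/-- **Kummer count at `p`, submodule form**: `dim_k H¹(D_P, k(1)) ≤ 2`. -/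
theorem kummerP_submodule (hp2 : p ≠ 2) (k : Type*) [Field k] [CharP k p]
    (P : ValuationSubring Qb) (hP : P.LiesOverPrime p) :
    ∃ T : Submodule k (GQ → k), Module.Finite k T ∧ Module.finrank k T ≤ 2 ∧
      ∀ c : GQ → k, IsCycCocycleOn p k (P.decompositionSubgroup ℚ) c →
        HasLevelOn (P.decompositionSubgroup ℚ) c →
        ∃ t ∈ T, IsCohomologousOn p k (P.decompositionSubgroup ℚ) c t := by
  classical
  obtain ⟨κ₁, κ₂, -, -, hκ⟩ := kummerP p hp2 k P hP
  refine ⟨Submodule.span k ((({κ₁, κ₂} : Finset (GQ → k)) : Set (GQ → k))), ?_, ?_, ?_⟩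
  · exact FiniteDimensional.span_finset k _
  · refine (finrank_span_finset_le_card (R := k) ({κ₁, κ₂} : Finset (GQ → k))).trans ?_
    exact Finset.card_le_two
  · intro c hcoc hlev
    obtain ⟨x, y, m, h⟩ := hκ c hcoc hlev
    refine ⟨x • κ₁ + y • κ₂, ?_, m, fun σ hσ a ha => ?_⟩
    · apply Submodule.add_mem
      · exact Submodule.smul_mem _ _ (Submodule.subset_span (by simp))
      · exact Submodule.smul_mem _ _ (Submodule.subset_span (by simp))
    · rw [h σ hσ a ha]
      simp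

end Fermat.Agent.S56.H734

end
-- ===== PACK-END S56/H734/KummerP.lean

-- ===== PACK-BEGIN Lib/RR/H80/Weil.lean
section


/-!
# RR library, layer L5 (helper80): Weil differentials

`𝔸 = repartitions K F`, `AF D = 𝔸(D) + F`, `Om D = (AF D)^⊥ ⊆ Hom_K(𝔸, K)` the space of Weil
differentials vanishing on `𝔸(D) + F`; `smulD x ω = ω (x • ·)` the action of `F`.

This file: basic API (no Riemann–Roch input).
-/

set_option autoImplicit false

noncomputable section

open AlgebraicCurve

namespace Fermat.Agent.Lib.RR.H80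

open Fermat.Agent.Lib.RR

variable {K F : Type*} [Field K] [Field F] [Algebra K F]

/-- `𝔸(D) + F`. -/
def AF (D : Divisor K F) : Submodule K ↥(repartitions K F) :=
  repartitionsOf D ⊔ principalRepartitions K F

/-- Weil differentials vanishing on `𝔸(D) + F`. -/
def Om (D : Divisor K F) : Submodule K (Module.Dual K ↥(repartitions K F)) :=
  (AF D).dualAnnihilator

theorem mem_Om_iff {D : Divisor K F} {ω : Module.Dual K ↥(repartitions K F)} :
    ω ∈ Om D ↔ (∀ α ∈ repartitionsOf D, ω α = 0) ∧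
      ∀ α ∈ principalRepartitions K F, ω α = 0 := by
  unfold Om AF
  rw [Submodule.dualAnnihilator_sup_eq, Submodule.mem_inf, Submodule.mem_dualAnnihilator,
    Submodule.mem_dualAnnihilator]

/-- `dim Ω(D) = dim H¹(D)` (both sides are `0` in the infinite-dimensional case). -/
theorem finrank_Om (D : Divisor K F) :
    Module.finrank K (Om D) = Module.finrank K (H1 D) := by
  have e : Module.Dual K (H1 D) ≃ₗ[K] Om D :=
    Submodule.dualQuotEquivDualAnnihilator (AF D)
  rw [← e.finrank_eq, Subspace.dual_finrank_eq]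

theorem finite_Om (D : Divisor K F) [Module.Finite K (H1 D)] : Module.Finite K (Om D) := by
  have e : Module.Dual K (H1 D) ≃ₗ[K] Om D :=
    Submodule.dualQuotEquivDualAnnihilator (AF D)
  exact Module.Finite.equiv e

theorem AF_mono {D D' : Divisor K F} (h : D ≤ D') : AF D ≤ AF D' :=
  sup_le_sup_right (repartitionsOf_mono h) _

theorem Om_anti {D D' : Divisor K F} (h : D ≤ D') : Om D' ≤ Om D :=
  Submodule.dualAnnihilator_anti (AF_mono h)

/-- Multiplication by `x ∈ F` on repartitions, as a `K`-linear map. -/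
def mulA (x : F) : ↥(repartitions K F) →ₗ[K] ↥(repartitions K F) :=
  (LinearMap.lsmul F ↥(repartitions K F) x).restrictScalars K

@[simp] theorem mulA_apply (x : F) (α : ↥(repartitions K F)) : mulA (K := K) x α = x • α := rfl

theorem coe_smul_apply (x : F) (α : ↥(repartitions K F)) (v : Place K F) :
    ((x • α : ↥(repartitions K F)) : Place K F → F) v = x * (α : Place K F → F) v := rfl

theorem mulA_mul (x y : F) (α : ↥(repartitions K F)) :
    mulA (K := K) x (mulA y α) = mulA (x * y) α := by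
  simp [mulA_apply, mul_smul]

theorem mulA_one (α : ↥(repartitions K F)) : mulA (K := K) (1 : F) α = α := by
  simp [mulA_apply]

/-- The action of `F` on `Hom_K(𝔸, K)`: `(x ω)(α) = ω (x α)`. -/
def smulD (x : F) (ω : Module.Dual K ↥(repartitions K F)) : Module.Dual K ↥(repartitions K F) :=
  ω.comp (mulA x)

@[simp] theorem smulD_apply (x : F) (ω : Module.Dual K ↥(repartitions K F))
    (α : ↥(repartitions K F)) : smulD x ω α = ω (x • α) := rfl

theorem smulD_smulD (x y : F) (ω : Module.Dual K ↥(repartitions K F)) :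
    smulD x (smulD y ω) = smulD (x * y) ω := by
  ext α
  simp only [smulD_apply]
  rw [← mul_smul, mul_comm]

theorem smulD_one (ω : Module.Dual K ↥(repartitions K F)) : smulD (1 : F) ω = ω := by
  ext α; simp

theorem smulD_zero_left (ω : Module.Dual K ↥(repartitions K F)) : smulD (0 : F) ω = 0 := by
  ext α; simp

theorem smulD_zero_right (x : F) : smulD x (0 : Module.Dual K ↥(repartitions K F)) = 0 := by
  ext α; simp

/-- `x ↦ x ω`, as a `K`-linear map `F → Hom_K(𝔸, K)`. -/
def muMap (ω : Module.Dual K ↥(repartitions K F)) :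
    F →ₗ[K] Module.Dual K ↥(repartitions K F) where
  toFun x := smulD x ω
  map_add' x y := by
    ext α
    simp only [smulD_apply, LinearMap.add_apply, add_smul, map_add]
  map_smul' c x := by
    ext α
    simp only [smulD_apply, RingHom.id_apply, LinearMap.smul_apply]
    rw [smul_assoc, map_smul]

@[simp] theorem muMap_apply (ω : Module.Dual K ↥(repartitions K F)) (x : F) :
    muMap ω x = smulD x ω := rfl

theorem muMap_injective {ω : Module.Dual K ↥(repartitions K F)} (hω : ω ≠ 0) :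
    Function.Injective (muMap ω) := by
  rw [← LinearMap.ker_eq_bot, eq_bot_iff]
  intro x hx
  rw [LinearMap.mem_ker, muMap_apply] at hx
  rw [Submodule.mem_bot]
  by_contra hx0
  apply hω
  have := congrArg (smulD x⁻¹) hx
  rwa [smulD_smulD, inv_mul_cancel₀ hx0, smulD_one, smulD_zero_right] at this

/-! ### Action on `𝔸(D)` and on principal repartitions -/

theorem smul_mem_principal (x : F) {α : ↥(repartitions K F)}
    (hα : α ∈ principalRepartitions K F) : x • α ∈ principalRepartitions K F := by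
  rw [mem_principalRepartitions_iff] at hα ⊢
  obtain ⟨f, hf⟩ := hα
  refine ⟨x * f, ?_⟩
  funext v
  rw [coe_smul_apply, hf]

/-- If `E = div x` then `x • 𝔸(D + E) ⊆ 𝔸(D)`. -/
theorem smul_mem_repartitionsOf {x : F} (hx : x ≠ 0) {D E : Divisor K F}
    (hE : ∀ v : Place K F, E v = v.ord x) {α : ↥(repartitions K F)}
    (hα : α ∈ repartitionsOf (D + E)) : x • α ∈ repartitionsOf D := by
  rw [mem_repartitionsOf_iff] at hα ⊢
  intro v
  rw [coe_smul_apply]
  rcases hα v with h | h
  · left; rw [h, mul_zero]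
  · rcases eq_or_ne ((α : Place K F → F) v) 0 with h0 | h0
    · left; rw [h0, mul_zero]
    right
    rw [v.ord_mul hx h0]
    simp only [Finsupp.coe_add, Pi.add_apply, hE v] at h
    omega

theorem smul_mem_AF {x : F} (hx : x ≠ 0) {D E : Divisor K F}
    (hE : ∀ v : Place K F, E v = v.ord x) {α : ↥(repartitions K F)}
    (hα : α ∈ AF (D + E)) : x • α ∈ AF D := by
  unfold AF at hα ⊢
  rw [Submodule.mem_sup] at hα ⊢
  obtain ⟨β, hβ, γ, hγ, rfl⟩ := hα
  exact ⟨x • β, smul_mem_repartitionsOf hx hE hβ, x • γ, smul_mem_principal x hγ,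
    (smul_add x β γ).symm⟩

/-- If `ω` vanishes on `𝔸(D) + F` and `E = div x`, then `x ω` vanishes on `𝔸(D + E) + F`. -/
theorem smulD_mem_Om {x : F} (hx : x ≠ 0) {D E : Divisor K F}
    (hE : ∀ v : Place K F, E v = v.ord x) {ω : Module.Dual K ↥(repartitions K F)}
    (hω : ω ∈ Om D) : smulD x ω ∈ Om (D + E) := by
  unfold Om at hω ⊢
  rw [Submodule.mem_dualAnnihilator] at hω ⊢
  intro α hα
  rw [smulD_apply]
  exact hω _ (smul_mem_AF hx hE hα)

end Fermat.Agent.Lib.RR.H80

end
end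
-- ===== PACK-END Lib/RR/H80/Weil.lean

-- ===== PACK-BEGIN S29/H801/M1Abstract.lean
section
/-
S29 / M1 (helper801), part 2: two correspondences `T₁ = a₁_* b₁^*`, `T₂ = a₂_* b₂^*` on a function
field `F` commute, on divisors and on `Pic0`, as soon as there is a common cover `F₁₂`

            a₁,b₁                 A₂,B₂
      F  =========>  F₁      F₁ =========> F₁₂
            a₂,b₂                 A₁,B₁
      F  =========>  F₂      F₂ =========> F₁₂

with `A₂ ∘ a₁ = A₁ ∘ a₂`, `B₂ ∘ b₁ = B₁ ∘ b₂`, `B₁ ∘ a₂ = A₂ ∘ b₁`, `B₂ ∘ a₁ = A₁ ∘ b₂`, and the two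
mixed squares satisfy base change (helper818's `pullback_pushforward_eq`).
Then `T₁ T₂ = (A₂ a₁)_* (B₁ b₂)^* = (A₁ a₂)_* (B₂ b₁)^* = T₂ T₁`.
-/





set_option autoImplicit false
set_option linter.style.haveILetI false

noncomputable section

namespace Fermat.Agent.S29.H801

open AlgebraicCurve Fermat.Agent.S37.H818

variable {K F F₁ F₂ F₁₂ : Type*} [Field K] [Field F] [Field F₁] [Field F₂] [Field F₁₂]
  [Algebra K F] [Algebra K F₁] [Algebra K F₂] [Algebra K F₁₂]

theorem pushforwardAlong_congr {G G' : Type*} [Field G] [Field G'] [Algebra K G] [Algebra K G']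
    {φ φ' : G →ₐ[K] G'} (h : φ = φ')
    (hφ : φ.toRingHom.IsIntegral) (hφ' : φ'.toRingHom.IsIntegral) (D : Divisor K G') :
    Divisor.pushforwardAlong φ hφ D = Divisor.pushforwardAlong φ' hφ' D := by
  subst h
  rfl

section

variable (a₁ b₁ : F →ₐ[K] F₁) (a₂ b₂ : F →ₐ[K] F₂)
  (A₂ B₂ : F₁ →ₐ[K] F₁₂) (A₁ B₁ : F₂ →ₐ[K] F₁₂)
  (ha₁ : a₁.toRingHom.IsIntegral) (hb₁ : b₁.toRingHom.IsIntegral)
  (ha₂ : a₂.toRingHom.IsIntegral) (hb₂ : b₂.toRingHom.IsIntegral)
  (hA₂ : A₂.toRingHom.IsIntegral) (hB₂ : B₂.toRingHom.IsIntegral)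
  (hA₁ : A₁.toRingHom.IsIntegral) (hB₁ : B₁.toRingHom.IsIntegral)
  (hAA : A₂.comp a₁ = A₁.comp a₂) (hBB : B₂.comp b₁ = B₁.comp b₂)
  (hsq₁ : B₁.comp a₂ = A₂.comp b₁) (hsq₂ : B₂.comp a₁ = A₁.comp b₂)

variable [HasPrincipalDivisors K F₁] [HasPrincipalDivisors K F₂] [HasPrincipalDivisors K F₁₂]

include hsq₁ hB₁ hA₂ in
/-- `T₁ T₂ = (A₂ a₁)_* (B₁ b₂)^*`. -/
theorem correspondence_correspondence_eq
    (hfin₂ : FiniteAlong K a₂) (hN₂ : NormFormulaAlong K a₂ hfin₂)
    (hfinA₂ : FiniteAlong K A₂) (hNA₂ : NormFormulaAlong K A₂ hfinA₂)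
    (hnorm₁ : NormCompat a₂ b₁ A₂ B₁) (hLG₂ : HasLocalGenerators a₂ ha₂)
    (hAa : (A₂.comp a₁).toRingHom.IsIntegral) (hBb : (B₁.comp b₂).toRingHom.IsIntegral)
    (D : Divisor K F) :
    Divisor.correspondence b₁ a₁ hb₁ ha₁ (Divisor.correspondence b₂ a₂ hb₂ ha₂ D) =
      Divisor.pushforwardAlong (A₂.comp a₁) hAa (Divisor.pullbackAlong (B₁.comp b₂) hBb D) := by
  rw [Divisor.correspondence_apply, Divisor.correspondence_apply,
    pullback_pushforward_eq a₂ b₁ A₂ B₁ ha₂ hb₁ hA₂ hB₁ hsq₁ hfin₂ hN₂ hfinA₂ hNA₂ hnorm₁ hLG₂,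
    ← pushforwardAlong_comp a₁ A₂ ha₁ hA₂ hAa, ← pullbackAlong_comp b₂ B₁ hb₂ hB₁ hBb]

include hAA hBB hsq₁ hsq₂ hA₁ hA₂ hB₁ hB₂ in
/-- **Commutation of two correspondences on divisors.** -/
theorem correspondence_comm
    (hfin₁ : FiniteAlong K a₁) (hN₁ : NormFormulaAlong K a₁ hfin₁)
    (hfin₂ : FiniteAlong K a₂) (hN₂ : NormFormulaAlong K a₂ hfin₂)
    (hfinA₁ : FiniteAlong K A₁) (hNA₁ : NormFormulaAlong K A₁ hfinA₁)
    (hfinA₂ : FiniteAlong K A₂) (hNA₂ : NormFormulaAlong K A₂ hfinA₂)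
    (hnorm₁ : NormCompat a₂ b₁ A₂ B₁) (hnorm₂ : NormCompat a₁ b₂ A₁ B₂)
    (hLG₁ : HasLocalGenerators a₁ ha₁) (hLG₂ : HasLocalGenerators a₂ ha₂)
    (D : Divisor K F) :
    Divisor.correspondence b₁ a₁ hb₁ ha₁ (Divisor.correspondence b₂ a₂ hb₂ ha₂ D) =
      Divisor.correspondence b₂ a₂ hb₂ ha₂ (Divisor.correspondence b₁ a₁ hb₁ ha₁ D) := by
  have hAa : (A₂.comp a₁).toRingHom.IsIntegral := RingHom.IsIntegral.trans _ _ ha₁ hA₂
  have hAa' : (A₁.comp a₂).toRingHom.IsIntegral := RingHom.IsIntegral.trans _ _ ha₂ hA₁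
  have hBb : (B₁.comp b₂).toRingHom.IsIntegral := RingHom.IsIntegral.trans _ _ hb₂ hB₁
  have hBb' : (B₂.comp b₁).toRingHom.IsIntegral := RingHom.IsIntegral.trans _ _ hb₁ hB₂
  rw [correspondence_correspondence_eq a₁ b₁ a₂ b₂ A₂ B₁ ha₁ hb₁ ha₂ hb₂ hA₂ hB₁ hsq₁
      hfin₂ hN₂ hfinA₂ hNA₂ hnorm₁ hLG₂ hAa hBb D,
    correspondence_correspondence_eq a₂ b₂ a₁ b₁ A₁ B₂ ha₂ hb₂ ha₁ hb₁ hA₁ hB₂ hsq₂
      hfin₁ hN₁ hfinA₁ hNA₁ hnorm₂ hLG₁ hAa' hBb' D,
    pushforwardAlong_congr hAA hAa hAa', pullbackAlong_congr hBB.symm hBb hBb']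

include hAA hBB hsq₁ hsq₂ hA₁ hA₂ hB₁ hB₂ in
/-- **Commutation of two correspondences on `Pic0`.** -/
theorem pic0_correspondence_comm
    (hFI₁ : FundamentalIdentityAlong K b₁ hb₁) (hFI₂ : FundamentalIdentityAlong K b₂ hb₂)
    (hfin₁ : FiniteAlong K a₁) (hN₁ : NormFormulaAlong K a₁ hfin₁)
    (hfin₂ : FiniteAlong K a₂) (hN₂ : NormFormulaAlong K a₂ hfin₂)
    (hfinA₁ : FiniteAlong K A₁) (hNA₁ : NormFormulaAlong K A₁ hfinA₁)
    (hfinA₂ : FiniteAlong K A₂) (hNA₂ : NormFormulaAlong K A₂ hfinA₂)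
    (hnorm₁ : NormCompat a₂ b₁ A₂ B₁) (hnorm₂ : NormCompat a₁ b₂ A₁ B₂)
    (hLG₁ : HasLocalGenerators a₁ ha₁) (hLG₂ : HasLocalGenerators a₂ ha₂)
    (x : Pic0 K F) :
    Pic0.correspondence b₁ a₁ hb₁ ha₁ hFI₁ hfin₁ hN₁
        (Pic0.correspondence b₂ a₂ hb₂ ha₂ hFI₂ hfin₂ hN₂ x) =
      Pic0.correspondence b₂ a₂ hb₂ ha₂ hFI₂ hfin₂ hN₂
        (Pic0.correspondence b₁ a₁ hb₁ ha₁ hFI₁ hfin₁ hN₁ x) := by
  obtain ⟨D, rfl⟩ := Pic0.mk_surjective x
  rw [Pic0.correspondence_mk, Pic0.correspondence_mk, Pic0.correspondence_mk,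
    Pic0.correspondence_mk]
  congr 1
  apply Subtype.ext
  simp only [Pic0.coe_degZeroCorrespondence]
  exact correspondence_comm a₁ b₁ a₂ b₂ A₂ B₂ A₁ B₁ ha₁ hb₁ ha₂ hb₂ hA₂ hB₂ hA₁ hB₁ hAA hBB
    hsq₁ hsq₂ hfin₁ hN₁ hfin₂ hN₂ hfinA₁ hNA₁ hfinA₂ hNA₂ hnorm₁ hnorm₂ hLG₁ hLG₂ D

end

end Fermat.Agent.S29.H801

end

end
-- ===== PACK-END S29/H801/M1Abstract.lean

-- ===== PACK-BEGIN A2/H553/Discrete.lean
section





/-!
# A2 / K2c (helper553): every element of `Q̄ · F₀` is a constant times a Gauss unit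

`A ⊆ Q̄` a valuation subring over a prime `ℓ` (value group `ℚ`, NOT discrete).  The Gauss
"valuation" `inf v(coefficients)` is not defined on all of `Q̄((q))`, but it is on series whose
coefficients lie in a finite extension `E/ℚ` (where `A ∩ E` is a DVR, helper602).

* `coeffSubring S` : series with coefficients in the subring `S`;
* `FinFrac A x` : `x = a / b` with `a`, `b` having coefficients in `A ∩ E`, `E/ℚ` finite;
  closed under the field operations (`FinFrac.add`, `.mul`, `.inv`, …);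
* `exists_prim_factor` : a nonzero series with coefficients in `A ∩ E` is a constant times a
  primitive `A`-integral series;
* `FinFrac.hasGaussForm` : `FinFrac A x`, `x ≠ 0`  ⟹  `HasGaussForm A x`;
* `finFrac_of_mem_laurentBaseChange` : all elements of `laurentBaseChange Q̄ F₀` are `FinFrac`
  as soon as the elements of `F₀` are.
-/

set_option autoImplicit false
set_option linter.unusedSectionVars false

noncomputable section

namespace Fermat.Agent.A2.H553

open ModularCurve HahnSeries IntermediateField Fermat.Agent.S28.H86 Fermat.Agent.S18.H602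

local notation "Q̄" => AlgebraicClosure ℚ

/-! ### Series with coefficients in a subring -/

section CoeffSubring

variable {K : Type*} [Field K]

/-- Laurent series with coefficients in the subring `S`. -/
def coeffSubring (S : Subring K) : Subring (LaurentSeries K) where
  carrier := {a | ∀ n, a.coeff n ∈ S}
  zero_mem' := fun n => by simp
  one_mem' := fun n => by
    rw [HahnSeries.coeff_one]
    split_ifs
    · exact S.one_mem
    · exact S.zero_mem
  add_mem' := fun {a b} ha hb n => by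
    rw [HahnSeries.coeff_add]
    exact S.add_mem (ha n) (hb n)
  neg_mem' := fun {a} ha n => by
    rw [HahnSeries.coeff_neg]
    exact S.neg_mem (ha n)
  mul_mem' := fun {a b} ha hb n => by
    rw [HahnSeries.coeff_mul]
    exact S.sum_mem fun ij _ => S.mul_mem (ha _) (hb _)

theorem mem_coeffSubring {S : Subring K} {a : LaurentSeries K} :
    a ∈ coeffSubring S ↔ ∀ n, a.coeff n ∈ S := Iff.rfl

theorem coeffSubring_mono {S T : Subring K} (h : S ≤ T) : coeffSubring S ≤ coeffSubring T :=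
  fun _ ha n => h (ha n)

theorem C_mem_coeffSubring {S : Subring K} {c : K} (hc : c ∈ S) :
    (HahnSeries.C c : LaurentSeries K) ∈ coeffSubring S := fun n => by
  rw [HahnSeries.C_apply, HahnSeries.coeff_single]
  split_ifs
  · exact hc
  · exact S.zero_mem

/-- a series with coefficients in `S` comes from a series over `S`. -/
theorem exists_inclL_eq {S : Subring K} {a : LaurentSeries K} (ha : a ∈ coeffSubring S) :
    ∃ a' : LaurentSeries ↥S, inclL S a' = a :=
  exists_coeffMap_eq S.subtype Subtype.val_injective a fun n => ⟨⟨a.coeff n, ha n⟩, rfl⟩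

theorem inclL_mem_coeffSubring {S : Subring K} (a' : LaurentSeries ↥S) :
    inclL S a' ∈ coeffSubring S := fun n => by
  rw [inclL_coeff]
  exact (a'.coeff n).2

end CoeffSubring

/-! ### The coefficient rings `A ∩ E` -/

section FinFrac

variable (A : ValuationSubring Q̄)

/-- `A ∩ E` as a subring of `Q̄`. -/
def capSubring (E : IntermediateField ℚ Q̄) : Subring Q̄ := A.toSubring ⊓ E.toSubfield.toSubring

variable {A}

theorem mem_capSubring {E : IntermediateField ℚ Q̄} {x : Q̄} :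
    x ∈ capSubring A E ↔ x ∈ A ∧ x ∈ E := Iff.rfl

theorem capSubring_mono {E E' : IntermediateField ℚ Q̄} (h : E ≤ E') :
    capSubring A E ≤ capSubring A E' := fun _ hx => ⟨hx.1, h hx.2⟩

theorem capSubring_le (E : IntermediateField ℚ Q̄) : capSubring A E ≤ A.toSubring :=
  fun _ hx => hx.1

variable (A)

/-- `x` is a quotient of two series with coefficients in `A ∩ E`, `E/ℚ` finite. -/
def FinFrac (x : LaurentSeries Q̄) : Prop :=
  ∃ E : IntermediateField ℚ Q̄, FiniteDimensional ℚ E ∧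
    ∃ a b : LaurentSeries Q̄, a ∈ coeffSubring (capSubring A E) ∧
      b ∈ coeffSubring (capSubring A E) ∧ b ≠ 0 ∧ x * b = a

variable {A}

theorem FinFrac.zero : FinFrac A 0 :=
  ⟨⊥, inferInstance, 0, 1, _root_.ZeroMemClass.zero_mem _, _root_.OneMemClass.one_mem _, one_ne_zero, by simp⟩

theorem FinFrac.one : FinFrac A 1 :=
  ⟨⊥, inferInstance, 1, 1, _root_.OneMemClass.one_mem _, _root_.OneMemClass.one_mem _, one_ne_zero, by simp⟩

theorem FinFrac.neg {x : LaurentSeries Q̄} (h : FinFrac A x) : FinFrac A (-x) := by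
  obtain ⟨E, hE, a, b, ha, hb, hb0, hab⟩ := h
  exact ⟨E, hE, -a, b, _root_.NegMemClass.neg_mem ha, hb, hb0, by rw [← hab]; ring⟩

theorem FinFrac.add {x y : LaurentSeries Q̄} (hx : FinFrac A x) (hy : FinFrac A y) :
    FinFrac A (x + y) := by
  obtain ⟨E, hE, a, b, ha, hb, hb0, hab⟩ := hx
  obtain ⟨E', hE', a', b', ha', hb', hb0', hab'⟩ := hy
  have h1 := coeffSubring_mono (capSubring_mono (A := A) (le_sup_left : E ≤ E ⊔ E'))
  have h2 := coeffSubring_mono (capSubring_mono (A := A) (le_sup_right : E' ≤ E ⊔ E'))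
  refine ⟨E ⊔ E', IntermediateField.finiteDimensional_sup E E', a * b' + a' * b, b * b',
    _root_.AddMemClass.add_mem (_root_.MulMemClass.mul_mem (h1 ha) (h2 hb')) (_root_.MulMemClass.mul_mem (h2 ha') (h1 hb)),
    _root_.MulMemClass.mul_mem (h1 hb) (h2 hb'), mul_ne_zero hb0 hb0', ?_⟩
  rw [← hab, ← hab']
  ring

theorem FinFrac.mul {x y : LaurentSeries Q̄} (hx : FinFrac A x) (hy : FinFrac A y) :
    FinFrac A (x * y) := by
  obtain ⟨E, hE, a, b, ha, hb, hb0, hab⟩ := hx
  obtain ⟨E', hE', a', b', ha', hb', hb0', hab'⟩ := hy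
  have h1 := coeffSubring_mono (capSubring_mono (A := A) (le_sup_left : E ≤ E ⊔ E'))
  have h2 := coeffSubring_mono (capSubring_mono (A := A) (le_sup_right : E' ≤ E ⊔ E'))
  refine ⟨E ⊔ E', IntermediateField.finiteDimensional_sup E E', a * a', b * b',
    _root_.MulMemClass.mul_mem (h1 ha) (h2 ha'), _root_.MulMemClass.mul_mem (h1 hb) (h2 hb'), mul_ne_zero hb0 hb0', ?_⟩
  rw [← hab, ← hab']
  ring

theorem FinFrac.inv {x : LaurentSeries Q̄} (hx : FinFrac A x) : FinFrac A x⁻¹ := by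
  rcases eq_or_ne x 0 with rfl | hx0
  · rw [inv_zero]; exact FinFrac.zero
  obtain ⟨E, hE, a, b, ha, hb, hb0, hab⟩ := hx
  have ha0 : a ≠ 0 := by rw [← hab]; exact mul_ne_zero hx0 hb0
  refine ⟨E, hE, b, a, hb, ha, ha0, ?_⟩
  rw [← hab, ← mul_assoc, inv_mul_cancel₀ hx0, one_mul]

/-- constants are `FinFrac`. -/
theorem FinFrac.const (c : Q̄) : FinFrac A (HahnSeries.C c) := by
  haveI := isAlgebraic_Qbar
  have hfin : FiniteDimensional ℚ ℚ⟮c⟯ := IntermediateField.adjoin.finiteDimensional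
    (Algebra.IsAlgebraic.isAlgebraic (R := ℚ) c).isIntegral
  have hcE : c ∈ ℚ⟮c⟯ := mem_adjoin_simple_self ℚ c
  rcases A.mem_or_inv_mem c with h | h
  · exact ⟨ℚ⟮c⟯, hfin, HahnSeries.C c, 1, C_mem_coeffSubring ⟨h, hcE⟩, _root_.OneMemClass.one_mem _, one_ne_zero,
      by simp⟩
  · rcases eq_or_ne c 0 with rfl | hc
    · rw [_root_.map_zero]; exact FinFrac.zero
    refine ⟨ℚ⟮c⟯, hfin, 1, HahnSeries.C c⁻¹, _root_.OneMemClass.one_mem _,
      C_mem_coeffSubring ⟨h, (_root_.InvMemClass.inv_mem hcE : c⁻¹ ∈ ℚ⟮c⟯)⟩, C_ne_zero' (inv_ne_zero hc), ?_⟩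
    rw [← _root_.map_mul, mul_inv_cancel₀ hc, _root_.map_one]

theorem FinFrac.algebraMap (c : Q̄) : FinFrac A (algebraMap Q̄ (LaurentSeries Q̄) c) := by
  rw [algebraMap_laurentSeries_eq_single]
  exact FinFrac.const c

/-- `A`-integral series with coefficients in a finite extension are `FinFrac`. -/
theorem FinFrac.of_mem {E : IntermediateField ℚ Q̄} [hE : FiniteDimensional ℚ E]
    {a : LaurentSeries Q̄} (ha : a ∈ coeffSubring (capSubring A E)) : FinFrac A a :=
  ⟨E, hE, a, 1, ha, _root_.OneMemClass.one_mem _, one_ne_zero, by simp⟩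

/-- All elements of `Q̄ · F₀` are `FinFrac` if the elements of `F₀` are. -/
theorem finFrac_of_mem_laurentBaseChange {F₀ : IntermediateField ℚ (LaurentSeries ℚ)}
    (hF₀ : ∀ z ∈ F₀, FinFrac A (coeffEmb Q̄ z)) {x : LaurentSeries Q̄}
    (hx : x ∈ laurentBaseChange Q̄ F₀) : FinFrac A x := by
  rw [mem_laurentBaseChange_iff] at hx
  induction hx using Subfield.closure_induction with
  | mem y hy =>
      rcases hy with ⟨a, rfl⟩ | ⟨z, hz, rfl⟩
      · exact FinFrac.algebraMap a
      · exact hF₀ z hz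
  | one => exact FinFrac.one
  | add x y _ _ hx hy => exact hx.add hy
  | neg x _ hx => exact hx.neg
  | inv x _ hx => exact hx.inv
  | mul x y _ _ hx hy => exact hx.mul hy

/-- `F₀`-side: it is enough to check generators of `F₀ = ℚ(S)`. -/
theorem finFrac_coeffEmb_of_adjoin {S : Set (LaurentSeries ℚ)}
    (hS : ∀ z ∈ S, FinFrac A (coeffEmb Q̄ z)) {z : LaurentSeries ℚ}
    (hz : z ∈ IntermediateField.adjoin ℚ S) : FinFrac A (coeffEmb Q̄ z) := by
  have hz' : z ∈ Subfield.closure (Set.range (algebraMap ℚ (LaurentSeries ℚ)) ∪ S) := hz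
  clear hz
  induction hz' using Subfield.closure_induction with
  | mem y hy =>
      rcases hy with ⟨r, rfl⟩ | hy
      · have : coeffEmb Q̄ (algebraMap ℚ (LaurentSeries ℚ) r) =
            algebraMap Q̄ (LaurentSeries Q̄) (algebraMap ℚ Q̄ r) := by
          rw [algebraMap_laurentSeries_eq_single, algebraMap_laurentSeries_eq_single]
          exact coeffMap_single _ _ _
        rw [this]
        exact FinFrac.algebraMap _
      · exact hS y hy
  | one => rw [_root_.map_one]; exact FinFrac.one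
  | add x y _ _ hx hy => rw [_root_.map_add]; exact hx.add hy
  | neg x _ hx => rw [_root_.map_neg]; exact hx.neg
  | inv x _ hx => rw [map_inv₀]; exact hx.inv
  | mul x y _ _ hx hy => rw [_root_.map_mul]; exact hx.mul hy

end FinFrac

end Fermat.Agent.A2.H553

end
end
-- ===== PACK-END A2/H553/Discrete.lean

-- ===== PACK-BEGIN A2/H489/TwoExtD.lean
section


/-!
# A2 / M1-abs, part D (helper489): the theorem `TwoExt`

`A` a discrete valuation ring with fraction field `K`, `L/K` finite separable,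
`V₁ ≠ V₂` valuation subrings of `L` over `A`, with families `u₁ : Fin f₁ → V₁`,
`u₂ : Fin f₂ → V₂` whose residues are linearly independent over the residue field of `A`, and
`[L : K] ≤ f₁ + f₂`.  Then

* `twoExt_only`        : `V₁`, `V₂` are the only valuation subrings of `L` over `A`;
* `twoExt_uniformizer` : a uniformiser of `A` is a uniformiser of `V₁` and `V₂` (`e = 1`);
* `twoExt_integral`    : `x` is integral over `A` iff `x ∈ V₁ ∩ V₂`;
* `twoExt_span`        : the residues of `u₁` (`u₂`) span the residue field of `V₁` (`V₂`).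
-/

set_option autoImplicit false

namespace Fermat.Agent.A2.H489

open IsDedekindDomain IsLocalRing WithZero

section Val

variable {S F : Type*} [CommRing S] [IsDedekindDomain S] [Field F] [Algebra S F]
  [IsFractionRing S F]

theorem valuation_eq_exp_neg_one (v : HeightOneSpectrum S) {w : S} (hw : w ∈ v.asIdeal)
    (hw2 : w ∉ v.asIdeal ^ 2) : v.valuation F (algebraMap S F w) = exp (-1 : ℤ) := by
  have hw0 : w ≠ 0 := by
    rintro rfl
    exact hw2 (Ideal.zero_mem _)
  rw [HeightOneSpectrum.valuation_of_algebraMap]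
  have h1 : v.intValuation w < 1 := (v.intValuation_lt_one_iff_mem w).mpr hw
  have h2 : ¬ v.intValuation w ≤ exp (-((2 : ℕ) : ℤ)) := fun h =>
    hw2 ((v.intValuation_le_pow_iff_mem w 2).mp h)
  rw [v.intValuation_if_neg hw0] at h1 h2 ⊢
  rw [← exp_zero, exp_lt_exp] at h1
  rw [exp_le_exp] at h2
  congr 1
  push_cast at h2
  omega

theorem mul_inv_mem_of_lt_one (v : HeightOneSpectrum S) {w : S} (hw : w ∈ v.asIdeal)
    (hw2 : w ∉ v.asIdeal ^ 2) {x : F} (hx : v.valuation F x < 1) :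
    v.valuation F (x * (algebraMap S F w)⁻¹) ≤ 1 := by
  have hv := valuation_eq_exp_neg_one (F := F) v hw hw2
  rw [map_mul, map_inv₀, hv]
  have h1 : x = 0 ∨ x ≠ 0 := eq_or_ne x 0
  rcases h1 with rfl | hx0
  · simp
  have hne : v.valuation F x ≠ 0 := (Valuation.ne_zero_iff _).mpr hx0
  have h3 : v.valuation F x ≤ exp (-1 : ℤ) := by
    rw [← lt_mul_exp_iff_le (by simp)]
    rw [← exp_add]
    simpa using hx
  calc v.valuation F x * (exp (-1 : ℤ))⁻¹ ≤ exp (-1 : ℤ) * (exp (-1 : ℤ))⁻¹ :=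
        mul_le_mul_left h3 _
    _ = 1 := mul_inv_cancel₀ (by simp)

theorem mem_nonunits_valuationSubring_iff (v : HeightOneSpectrum S) (x : F) :
    x ∈ (v.valuation F).valuationSubring.nonunits ↔ v.valuation F x < 1 := by
  rw [ValuationSubring.mem_nonunits_iff_or]
  rcases eq_or_ne x 0 with rfl | hx
  · simp
  · have hne : v.valuation F x ≠ 0 := (Valuation.ne_zero_iff _).mpr hx
    rw [Valuation.mem_valuationSubring_iff, map_inv₀, not_le]
    constructor
    · rintro (h | h)
      · exact absurd h hx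
      · exact (one_lt_inv₀ (zero_lt_iff.mpr hne)).mp h
    · intro h
      exact Or.inr ((one_lt_inv₀ (zero_lt_iff.mpr hne)).mpr h)

end Val

section Main

variable (K : Type*) {A L : Type*} [CommRing A] [IsDomain A] [IsDiscreteValuationRing A]
  [Field K] [Algebra A K] [IsFractionRing A K]
  [Field L] [Algebra K L] [Algebra A L] [IsScalarTower A K L]
  [FiniteDimensional K L] [Algebra.IsSeparable K L]

/-- Hypotheses of `TwoExt`. -/
structure TwoExtHyp (K A : Type*) {L : Type*} [CommRing A] [IsDomain A]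
    [IsDiscreteValuationRing A] [Field K] [Algebra A K]
    [Field L] [Algebra K L] [Algebra A L]
    (V₁ V₂ : ValuationSubring L) {f₁ f₂ : ℕ} (u₁ : Fin f₁ → L) (u₂ : Fin f₂ → L) : Prop where
  over₁ : IsOver A V₁
  over₂ : IsOver A V₂
  ne : V₁ ≠ V₂
  deg : Module.finrank K L ≤ f₁ + f₂
  mem₁ : ∀ i, u₁ i ∈ V₁
  mem₂ : ∀ i, u₂ i ∈ V₂
  indep₁ : ∀ a : Fin f₁ → A, (∑ i, algebraMap A L (a i) * u₁ i) ∈ V₁.nonunits →
    ∀ i, a i ∈ maximalIdeal A
  indep₂ : ∀ a : Fin f₂ → A, (∑ i, algebraMap A L (a i) * u₂ i) ∈ V₂.nonunits →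
    ∀ i, a i ∈ maximalIdeal A

variable {K} {V₁ V₂ : ValuationSubring L} {f₁ f₂ : ℕ} {u₁ : Fin f₁ → L} {u₂ : Fin f₂ → L}

omit [IsFractionRing A K] [IsScalarTower A K L] [FiniteDimensional K L]
  [Algebra.IsSeparable K L] in
theorem TwoExtHyp.symm (h : TwoExtHyp K A V₁ V₂ u₁ u₂) : TwoExtHyp K A V₂ V₁ u₂ u₁ where
  over₁ := h.over₂
  over₂ := h.over₁
  ne := h.ne.symm
  deg := by have := h.deg; omega
  mem₁ := h.mem₂
  mem₂ := h.mem₁
  indep₁ := h.indep₂
  indep₂ := h.indep₁

theorem TwoExtHyp.core (h : TwoExtHyp K A V₁ V₂ u₁ u₂) :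
    (∀ P : Ideal (integralClosure A L), P.IsPrime → P.LiesOver (maximalIdeal A) →
        P = center V₁ h.over₁.mem_integralClosure ∨
        P = center V₂ h.over₂.mem_integralClosure) ∧
      Ideal.ramificationIdx' (maximalIdeal A) (center V₁ h.over₁.mem_integralClosure) = 1 ∧
      Ideal.ramificationIdx' (maximalIdeal A) (center V₂ h.over₂.mem_integralClosure) = 1 ∧
      Ideal.inertiaDeg' (maximalIdeal A) (center V₁ h.over₁.mem_integralClosure) = f₁ ∧
      Ideal.inertiaDeg' (maximalIdeal A) (center V₂ h.over₂.mem_integralClosure) = f₂ :=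
  twoExt_core K h.over₁ h.over₂ h.ne h.deg
    (h.over₁.le_inertiaDeg K u₁ h.mem₁ h.indep₁) (h.over₂.le_inertiaDeg K u₂ h.mem₂ h.indep₂)

/-- **TwoExt (1)**: `V₁` and `V₂` are the only valuation subrings of `L` over `A`. -/
theorem TwoExtHyp.only (h : TwoExtHyp K A V₁ V₂ u₁ u₂) {V : ValuationSubring L}
    (hV : IsOver A V) : V = V₁ ∨ V = V₂ := by
  have hD : IsDedekindDomain (integralClosure A L) := integralClosure.isDedekindDomain A K L
  have hFr : IsFractionRing (integralClosure A L) L :=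
    integralClosure.isFractionRing_of_finite_extension K L
  rcases h.core.1 (center V hV.mem_integralClosure) inferInstance hV.center_liesOver with h1 | h1
  · exact Or.inl (eq_of_center_eq V V₁ hV.mem_integralClosure h.over₁.mem_integralClosure
      (hV.ne_top K) (h.over₁.ne_top K) h1)
  · exact Or.inr (eq_of_center_eq V V₂ hV.mem_integralClosure h.over₂.mem_integralClosure
      (hV.ne_top K) (h.over₂.ne_top K) h1)

include K in
/-- `e = 1` in valuation form. -/
theorem IsOver.mul_inv_mem_of_ramificationIdx_eq_one {V : ValuationSubring L} (hV : IsOver A V)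
    (he : Ideal.ramificationIdx' (maximalIdeal A) (center V hV.mem_integralClosure) = 1)
    {w : A} (hw : Irreducible w) {x : L} (hx : x ∈ V.nonunits) :
    x * (algebraMap A L w)⁻¹ ∈ V := by
  have hD : IsDedekindDomain (integralClosure A L) := integralClosure.isDedekindDomain A K L
  have hFr : IsFractionRing (integralClosure A L) L :=
    integralClosure.isFractionRing_of_finite_extension K L
  have hne : V ≠ ⊤ := hV.ne_top K
  set v := centerSpec V hV.mem_integralClosure hne with hvdef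
  have hVv : V = (v.valuation L).valuationSubring :=
    eq_valuationSubring_centerSpec V hV.mem_integralClosure hne
  have hwmax : w ∈ maximalIdeal A := by
    rw [IsLocalRing.mem_maximalIdeal, _root_.mem_nonunits_iff]
    exact hw.not_isUnit
  have hw1 : algebraMap A (integralClosure A L) w ∈ v.asIdeal := by
    show algebraMap A (integralClosure A L) w ∈ center V hV.mem_integralClosure
    rw [mem_center_iff, ← IsScalarTower.algebraMap_apply]
    exact hV.nonunit w hwmax
  have hmap : Ideal.map (algebraMap A (integralClosure A L)) (maximalIdeal A)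
      = Ideal.span {algebraMap A (integralClosure A L) w} := by
    rw [hw.maximalIdeal_eq, Ideal.map_span, Set.image_singleton]
  have hle : Ideal.map (algebraMap A (integralClosure A L)) (maximalIdeal A)
      ≤ center V hV.mem_integralClosure := by
    rw [hmap, Ideal.span_singleton_le_iff_mem]
    exact hw1
  have hw2 : algebraMap A (integralClosure A L) w ∉ v.asIdeal ^ 2 := by
    intro hmem
    have h2 : Ideal.map (algebraMap A (integralClosure A L)) (maximalIdeal A)
        ≤ center V hV.mem_integralClosure ^ 2 := by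
      rw [hmap, Ideal.span_singleton_le_iff_mem]
      exact hmem
    exact ((Ideal.ramificationIdx'_ne_one_iff hle).mpr h2) he
  have hx' : v.valuation L x < 1 := by
    rw [← mem_nonunits_valuationSubring_iff, ← hVv]
    exact hx
  have key := mul_inv_mem_of_lt_one (F := L) v hw1 hw2 hx'
  rw [← IsScalarTower.algebraMap_apply] at key
  rw [hVv]
  exact key

/-- **TwoExt (2)**: a uniformiser of `A` is a uniformiser of `V₁`. -/
theorem TwoExtHyp.uniformizer₁ (h : TwoExtHyp K A V₁ V₂ u₁ u₂) {w : A} (hw : Irreducible w)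
    {x : L} (hx : x ∈ V₁.nonunits) : x * (algebraMap A L w)⁻¹ ∈ V₁ :=
  h.over₁.mul_inv_mem_of_ramificationIdx_eq_one (K := K) h.core.2.1 hw hx

/-- **TwoExt (2')**: a uniformiser of `A` is a uniformiser of `V₂`. -/
theorem TwoExtHyp.uniformizer₂ (h : TwoExtHyp K A V₁ V₂ u₁ u₂) {w : A} (hw : Irreducible w)
    {x : L} (hx : x ∈ V₂.nonunits) : x * (algebraMap A L w)⁻¹ ∈ V₂ :=
  h.over₂.mul_inv_mem_of_ramificationIdx_eq_one (K := K) h.core.2.2.1 hw hx

/-- **TwoExt (3)**: the integral closure of `A` in `L` is `V₁ ∩ V₂`. -/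
theorem TwoExtHyp.isIntegral_iff (h : TwoExtHyp K A V₁ V₂ u₁ u₂) (x : L) :
    IsIntegral A x ↔ x ∈ V₁ ∧ x ∈ V₂ := by
  constructor
  · intro hx
    exact ⟨h.over₁.integral_mem hx, h.over₂.integral_mem hx⟩
  · rintro ⟨hx₁, hx₂⟩
    have hD : IsDedekindDomain (integralClosure A L) := integralClosure.isDedekindDomain A K L
    have hFr : IsFractionRing (integralClosure A L) L :=
      integralClosure.isFractionRing_of_finite_extension K L
    have hint : Algebra.IsIntegral A (integralClosure A L) :=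
      IsIntegralClosure.isIntegral_algebra A L
    have key : ∀ v : HeightOneSpectrum (integralClosure A L), v.valuation L x ≤ 1 := by
      intro v
      have hmax : (v.asIdeal.comap (algebraMap A (integralClosure A L))).IsMaximal :=
        Ideal.isMaximal_comap_of_isIntegral_of_isMaximal v.asIdeal
      have hlo : v.asIdeal.LiesOver (maximalIdeal A) :=
        ⟨(IsLocalRing.eq_maximalIdeal hmax).symm⟩
      rcases h.core.1 v.asIdeal v.isPrime hlo with h1 | h1
      · have := eq_valuationSubring_of_center V₁ h.over₁.mem_integralClosure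
          (h.over₁.ne_top K) v h1
        rw [this] at hx₁
        exact hx₁
      · have := eq_valuationSubring_of_center V₂ h.over₂.mem_integralClosure
          (h.over₂.ne_top K) v h1
        rw [this] at hx₂
        exact hx₂
    obtain ⟨c, hc⟩ := HeightOneSpectrum.mem_integers_of_valuation_le_one L x key
    rw [← hc]
    exact c.2

include K in
/-- spanning of the residue field by an independent family of the right size -/
theorem IsOver.exists_sub_sum_mem_nonunits {V : ValuationSubring L} (hV : IsOver A V) {f : ℕ}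
    (hf : Ideal.inertiaDeg' (maximalIdeal A) (center V hV.mem_integralClosure) = f)
    (u : Fin f → L) (hu : ∀ i, u i ∈ V)
    (hind : ∀ a : Fin f → A, (∑ i, algebraMap A L (a i) * u i) ∈ V.nonunits →
      ∀ i, a i ∈ maximalIdeal A) {x : L} (hx : x ∈ V) :
    ∃ a : Fin f → A, x - ∑ i, algebraMap A L (a i) * u i ∈ V.nonunits := by
  have hlo := hV.center_liesOver
  have hfin : Module.Finite A (integralClosure A L) := IsIntegralClosure.finite A K L _
  rw [Ideal.inertiaDeg'_algebraMap] at hf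
  choose s hs using fun i => hV.exists_sub_mem_nonunits K (hu i)
  have hli := hV.linearIndependent_mk u s hs hind
  have hcard : Fintype.card (Fin f)
      = Module.finrank (A ⧸ maximalIdeal A)
          (integralClosure A L ⧸ center V hV.mem_integralClosure) := by
    rw [hf, Fintype.card_fin]
  let _ : Field (A ⧸ maximalIdeal A) := Ideal.Quotient.field (maximalIdeal A)
  have hspan := LinearIndependent.span_eq_top_of_card_eq_finrank' (K := A ⧸ maximalIdeal A)
    hli hcard
  obtain ⟨t, ht⟩ := hV.exists_sub_mem_nonunits K hx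
  have hmem : Ideal.Quotient.mk (center V hV.mem_integralClosure) t ∈
      Submodule.span (A ⧸ maximalIdeal A)
        (Set.range fun i => Ideal.Quotient.mk (center V hV.mem_integralClosure) (s i)) := by
    rw [hspan]
    exact Submodule.mem_top
  rw [Submodule.mem_span_range_iff_exists_fun] at hmem
  obtain ⟨c, hc⟩ := hmem
  choose a ha using fun i => Ideal.Quotient.mk_surjective (c i)
  refine ⟨a, ?_⟩
  have h1 : ∀ i, c i • Ideal.Quotient.mk (center V hV.mem_integralClosure) (s i)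
      = Ideal.Quotient.mk (center V hV.mem_integralClosure)
          (algebraMap A (integralClosure A L) (a i) * s i) := by
    intro i
    rw [Algebra.smul_def, ← ha i, Ideal.Quotient.algebraMap_mk_of_liesOver, map_mul]
  simp only [h1] at hc
  rw [← map_sum, Ideal.Quotient.eq, mem_center_iff] at hc
  have h2 : x - ∑ i, algebraMap A L (a i) * u i
      = (x - algebraMap (integralClosure A L) L t)
        - algebraMap (integralClosure A L) L
            (∑ i, algebraMap A (integralClosure A L) (a i) * s i - t)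
        - ∑ i, algebraMap A L (a i) * (u i - algebraMap (integralClosure A L) L (s i)) := by
    rw [map_sub, map_sum]
    have h3 : ∀ i, algebraMap (integralClosure A L) L
        (algebraMap A (integralClosure A L) (a i) * s i)
        = algebraMap A L (a i) * algebraMap (integralClosure A L) L (s i) := by
      intro i
      rw [map_mul, ← IsScalarTower.algebraMap_apply]
    simp only [h3, mul_sub, Finset.sum_sub_distrib]
    ring
  rw [h2]
  refine sub_mem (sub_mem ht hc) (sum_mem fun i _ => ?_)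
  exact mul_mem_nonunits (hV.mem _) (hs i)

/-- **TwoExt (4)**: the residues of `u₁` span the residue field of `V₁`. -/
theorem TwoExtHyp.span₁ (h : TwoExtHyp K A V₁ V₂ u₁ u₂) {x : L} (hx : x ∈ V₁) :
    ∃ a : Fin f₁ → A, x - ∑ i, algebraMap A L (a i) * u₁ i ∈ V₁.nonunits :=
  h.over₁.exists_sub_sum_mem_nonunits (K := K) h.core.2.2.2.1 u₁ h.mem₁ h.indep₁ hx

/-- **TwoExt (4')**: the residues of `u₂` span the residue field of `V₂`. -/
theorem TwoExtHyp.span₂ (h : TwoExtHyp K A V₁ V₂ u₁ u₂) {x : L} (hx : x ∈ V₂) :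
    ∃ a : Fin f₂ → A, x - ∑ i, algebraMap A L (a i) * u₂ i ∈ V₂.nonunits :=
  h.over₂.exists_sub_sum_mem_nonunits (K := K) h.core.2.2.2.2 u₂ h.mem₂ h.indep₂ hx

end Main

end Fermat.Agent.A2.H489

end
-- ===== PACK-END A2/H489/TwoExtD.lean

-- ===== PACK-BEGIN S28/H88/Degree.lean
section
/-
S28 (Igusa) -- helper88: [L.I] `1, j, …, j^{p-1}` are independent over `k((q^p))`, and
[L.B2] the degree of `j(q^p)` over `k(j)` is `p + 1`.
-/


set_option autoImplicit false

noncomputable section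

open ModularCurve HahnSeries

namespace Fermat.Agent.S28

section Independence

variable (k : Type*) [Field k]

theorem h88_order_qExpand (p : ℕ) [NeZero p] {x : LaurentSeries k} (hx : x ≠ 0) :
    (qExpand k p x).order = (p : ℤ) * x.order := by
  have hVx : qExpand k p x ≠ 0 := fun h => hx (qExpand_injective p (by rw [h, _root_.map_zero]))
  apply le_antisymm
  · apply HahnSeries.order_le_of_coeff_ne_zero
    rw [qExpand_coeff_mul]
    exact HahnSeries.coeff_order_eq_zero.not.mpr hx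
  · have h := HahnSeries.coeff_order_eq_zero.not.mpr hVx
    by_cases hdvd : (p : ℤ) ∣ (qExpand k p x).order
    · obtain ⟨m, hm⟩ := hdvd
      have h' : (qExpand k p x).coeff ((p : ℤ) * m) ≠ 0 := by rw [← hm]; exact h
      rw [qExpand_coeff_mul] at h'
      have h2 := HahnSeries.order_le_of_coeff_ne_zero h'
      rw [hm]
      exact mul_le_mul_of_nonneg_left h2 (by positivity)
    · exact absurd (qExpand_coeff_of_not_dvd p x hdvd) h

theorem h88_order_jqModC : (jqModC k).order = -1 := by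
  have hne : jqModC k ≠ 0 := jqModC_ne_zero_of_nontrivial k
  apply le_antisymm
  · exact HahnSeries.order_le_of_coeff_ne_zero (by rw [coeff_jqModC_neg_one]; exact one_ne_zero)
  · by_contra h
    rw [not_le] at h
    have h0 := coeff_jqModC_of_lt k (by omega : (jqModC k).order < -1)
    exact (HahnSeries.coeff_order_eq_zero.not.mpr hne) h0

/-- **[L.I]**, elementary form: `1, j, …, j^{p-1}` are linearly independent over the
image of `q ↦ q^p`. -/
theorem h88_linIndep_core (p : ℕ) [NeZero p] (c : ℕ → LaurentSeries k)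
    (h : ∑ i ∈ Finset.range p, qExpand k p (c i) * (jqModC k) ^ i = 0) :
    ∀ i ∈ Finset.range p, c i = 0 := by
  classical
  by_contra hcon
  rw [not_forall] at hcon
  obtain ⟨i₁, hcon⟩ := hcon
  rw [Classical.not_imp] at hcon
  obtain ⟨hi₁, hci₁⟩ := hcon
  have hj0 : jqModC k ≠ 0 := jqModC_ne_zero_of_nontrivial k
  have hS : ((Finset.range p).filter (fun i => c i ≠ 0)).Nonempty :=
    ⟨i₁, Finset.mem_filter.mpr ⟨hi₁, hci₁⟩⟩
  obtain ⟨i₀, hi₀S, hmin⟩ := Finset.exists_min_image _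
    (fun i => (qExpand k p (c i) * (jqModC k) ^ i).order) hS
  have hi₀ := Finset.mem_filter.mp hi₀S
  have hV : ∀ i, c i ≠ 0 → qExpand k p (c i) ≠ 0 := fun i hci h0 =>
    hci (qExpand_injective p (by rw [h0, _root_.map_zero]))
  have hord : ∀ i, c i ≠ 0 →
      (qExpand k p (c i) * (jqModC k) ^ i).order = (p : ℤ) * (c i).order - i := by
    intro i hci
    rw [HahnSeries.order_mul (hV i hci) (pow_ne_zero _ hj0), HahnSeries.order_pow,
      h88_order_qExpand k p hci, h88_order_jqModC]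
    simp
    ring
  have hne : ∀ i, c i ≠ 0 → qExpand k p (c i) * (jqModC k) ^ i ≠ 0 := fun i hci =>
    mul_ne_zero (hV i hci) (pow_ne_zero _ hj0)
  have hcoeff : (∑ i ∈ Finset.range p, qExpand k p (c i) * (jqModC k) ^ i).coeff
      (qExpand k p (c i₀) * (jqModC k) ^ i₀).order = 0 := by
    rw [h, HahnSeries.coeff_zero]
  rw [HahnSeries.coeff_sum, Finset.sum_eq_single_of_mem i₀ hi₀.1] at hcoeff
  · exact (HahnSeries.coeff_order_eq_zero.not.mpr (hne i₀ hi₀.2)) hcoeff
  · intro i hi hii₀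
    by_cases hci : c i = 0
    · rw [hci, _root_.map_zero, zero_mul, HahnSeries.coeff_zero]
    · apply HahnSeries.coeff_eq_zero_of_lt_order
      have h1 := hmin i (Finset.mem_filter.mpr ⟨hi, hci⟩)
      rw [hord i hci, hord i₀ hi₀.2] at h1 ⊢
      rcases lt_or_eq_of_le h1 with h2 | h2
      · exact h2
      · exfalso
        have hip := Finset.mem_range.mp hi
        have hi₀p := Finset.mem_range.mp hi₀.1
        have hdvd : (p : ℤ) ∣ (i₀ : ℤ) - i := ⟨(c i₀).order - (c i).order, by linarith⟩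
        have h0 := Int.eq_zero_of_abs_lt_dvd hdvd (by rw [abs_lt]; constructor <;> omega)
        omega

/-- **[L.I]**, polynomial form: no nonzero polynomial of degree `< p` over `k((q^p))`
vanishes at `j`. -/
theorem h88_aeval_ne_zero_of_natDegree_lt (p : ℕ) [NeZero p]
    (Q : Polynomial (qExpandAlgHomC k p).fieldRange) (hQ : Q ≠ 0) (hdeg : Q.natDegree < p) :
    Polynomial.aeval (jqModC k) Q ≠ 0 := by
  intro h
  rw [Polynomial.aeval_eq_sum_range' hdeg] at h
  have hc : ∀ i, ∃ y, qExpand k p y = (Q.coeff i : LaurentSeries k) := fun i =>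
    AlgHom.mem_fieldRange.mp (Q.coeff i).2
  choose c hc using hc
  have h' : ∑ i ∈ Finset.range p, qExpand k p (c i) * (jqModC k) ^ i = 0 := by
    rw [← h]
    refine Finset.sum_congr rfl fun i _ => ?_
    rw [hc, Algebra.smul_def]
    rfl
  have h0 := h88_linIndep_core k p c h'
  apply hQ
  refine Polynomial.ext fun i => ?_
  by_cases hi : i < p
  · have h1 : (Q.coeff i : LaurentSeries k) = 0 := by
      rw [← hc, h0 i (Finset.mem_range.mpr hi), _root_.map_zero]
    rw [Polynomial.coeff_zero]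
    exact ZeroMemClass.coe_eq_zero.mp h1
  · rw [Polynomial.coeff_eq_zero_of_natDegree_lt (by omega), Polynomial.coeff_zero]

/-- **[L.I]**, `LinearIndependent` form. -/
theorem h88_linearIndependent_pow (p : ℕ) [NeZero p] :
    LinearIndependent (qExpandAlgHomC k p).fieldRange
      (fun i : Fin p => (jqModC k) ^ (i : ℕ)) := by
  rw [Fintype.linearIndependent_iff]
  intro g hg i
  have hc : ∀ i : Fin p, ∃ y, qExpand k p y = (g i : LaurentSeries k) := fun i =>
    AlgHom.mem_fieldRange.mp (g i).2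
  choose c hc using hc
  have h' : ∑ n ∈ Finset.range p,
      qExpand k p (if h : n < p then c ⟨n, h⟩ else 0) * (jqModC k) ^ n = 0 := by
    rw [Finset.sum_range, ← hg]
    refine Finset.sum_congr rfl fun i _ => ?_
    rw [dif_pos i.2, Fin.eta, hc, Algebra.smul_def]
    rfl
  have h0 := h88_linIndep_core k p _ h' i (Finset.mem_range.mpr i.2)
  rw [dif_pos i.2, Fin.eta] at h0
  have h1 : (g i : LaurentSeries k) = 0 := by rw [← hc, h0, _root_.map_zero]
  exact ZeroMemClass.coe_eq_zero.mp h1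

end Independence

section Degree

variable (k : Type*) [Field k] (p : ℕ) [NeZero p]

theorem h88_comp_evalAt {A A' : Type*} [CommRing A] [CommRing A']
    (g : LaurentSeries A →+* LaurentSeries A') (y : LaurentSeries A) :
    g.comp (evalAt y) = evalAt (g y) := by
  apply Polynomial.ringHom_ext
  · intro a
    simp [evalAt]
  · simp [evalAt]

/-- `Φ(j_p, j) = 0` over `k`. -/
theorem h88_modPoly_eval_jp (Φ : ModPolyData p) :
    Φ.Φ.eval₂ (evalAt (jqModC k)) (qExpand k p (jqModC k)) = 0 := by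
  have h := congrArg (coeffMap (Int.castRingHom k)) Φ.eval_jp
  rw [Polynomial.hom_eval₂, _root_.map_zero, h88_comp_evalAt, coeffMap_qExpand, coeffMap_jqModC] at h
  exact h

/-- `Φ(j, j_p) = 0` over `k`. -/
theorem h88_modPoly_eval_j (Φ : ModPolyData p) :
    Φ.Φ.eval₂ (evalAt (qExpand k p (jqModC k))) (jqModC k) = 0 := by
  have h := congrArg (coeffMap (Int.castRingHom k)) Φ.eval_j
  rw [Polynomial.hom_eval₂, _root_.map_zero, h88_comp_evalAt, coeffMap_qExpand, coeffMap_jqModC] at h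
  exact h

/-- `Φ(j_{p²}, j_p) = 0` over `k`. -/
theorem h88_modPoly_eval_jpp (Φ : ModPolyData p) :
    Φ.Φ.eval₂ (evalAt (qExpand k p (jqModC k)))
      (qExpand k p (qExpand k p (jqModC k))) = 0 := by
  have h := congrArg (qExpand k p) (h88_modPoly_eval_jp k p Φ)
  rw [Polynomial.hom_eval₂, _root_.map_zero, h88_comp_evalAt] at h
  exact h

/-- Specialisation `ℤ[Y] → E`, `Y ↦ y`, for an intermediate field `E ∋ y`. -/
def h88_evalSub (E : IntermediateField k (LaurentSeries k)) {y : LaurentSeries k}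
    (hy : y ∈ E) : Polynomial ℤ →+* E :=
  (Polynomial.aeval (R := ℤ) (⟨y, hy⟩ : E)).toRingHom

theorem h88_algebraMap_comp_evalSub (E : IntermediateField k (LaurentSeries k))
    {y : LaurentSeries k} (hy : y ∈ E) :
    (algebraMap E (LaurentSeries k)).comp (h88_evalSub k E hy) = evalAt y := by
  apply Polynomial.ringHom_ext
  · intro a
    simp [evalAt, h88_evalSub]
  · simp [evalAt, h88_evalSub]

theorem h88_aeval_map_evalSub (E : IntermediateField k (LaurentSeries k))
    {y : LaurentSeries k} (hy : y ∈ E) (Φ : Polynomial (Polynomial ℤ))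
    (x : LaurentSeries k) :
    Polynomial.aeval x (Φ.map (h88_evalSub k E hy)) = Φ.eval₂ (evalAt y) x := by
  rw [Polynomial.aeval_def, Polynomial.eval₂_map, h88_algebraMap_comp_evalSub]

theorem h88_jp_mem_map :
    qExpand k p (jqModC k) ∈ (jField k).map (qExpandAlgHomC k p) :=
  (IntermediateField.mem_map (jField k)).mpr ⟨jqModC k, h88_jqModC_mem_jField k, rfl⟩

theorem h88_map_le_fieldRange :
    (jField k).map (qExpandAlgHomC k p) ≤ (qExpandAlgHomC k p).fieldRange := by
  intro x hx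
  obtain ⟨y, -, hy⟩ := (IntermediateField.mem_map (jField k)).mp hx
  exact AlgHom.mem_fieldRange.mpr ⟨y, hy⟩

theorem h88_jqModC_ne_qExpand (hp1 : 1 < p) (y : LaurentSeries k) :
    jqModC k ≠ qExpand k p y := by
  intro h
  have h1 := coeff_jqModC_neg_one k
  rw [h, qExpand_coeff_of_not_dvd p y] at h1
  · exact zero_ne_one h1
  · intro hdvd
    have h2 : (p : ℤ) ∣ 1 := (dvd_neg).mp hdvd
    have h3 := Int.le_of_dvd (by norm_num) h2
    have h4 : (1 : ℤ) < p := by exact_mod_cast hp1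
    omega

/-- The modular polynomial specialised at `Y = j_p`, over `K₁ = k(j_p) = V_p(k(j))`. -/
def h88_Phi1 (Φ : ModPolyData p) :
    Polynomial ((jField k).map (qExpandAlgHomC k p)) :=
  Φ.Φ.map (h88_evalSub k _ (h88_jp_mem_map k p))

/-- The modular polynomial specialised at `Y = j`, over `k(j)`. -/
def h88_Phi0 (Φ : ModPolyData p) : Polynomial (jField k) :=
  Φ.Φ.map (h88_evalSub k _ (h88_jqModC_mem_jField k))

theorem h88_Phi1_monic (Φ : ModPolyData p) : (h88_Phi1 k p Φ).Monic := Φ.monic.map _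

theorem h88_Phi0_monic (Φ : ModPolyData p) : (h88_Phi0 k p Φ).Monic := Φ.monic.map _

theorem h88_Phi1_natDegree (Φ : ModPolyData p) : (h88_Phi1 k p Φ).natDegree = p + 1 := by
  rw [h88_Phi1, Φ.monic.natDegree_map, Φ.natDegree_eq]

theorem h88_Phi0_natDegree (Φ : ModPolyData p) : (h88_Phi0 k p Φ).natDegree = p + 1 := by
  rw [h88_Phi0, Φ.monic.natDegree_map, Φ.natDegree_eq]

theorem h88_Phi1_aeval_j (Φ : ModPolyData p) :
    Polynomial.aeval (jqModC k) (h88_Phi1 k p Φ) = 0 := by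
  rw [h88_Phi1, h88_aeval_map_evalSub]
  exact h88_modPoly_eval_j k p Φ

theorem h88_Phi1_aeval_jpp (Φ : ModPolyData p) :
    Polynomial.aeval (qExpand k p (qExpand k p (jqModC k))) (h88_Phi1 k p Φ) = 0 := by
  rw [h88_Phi1, h88_aeval_map_evalSub]
  exact h88_modPoly_eval_jpp k p Φ

theorem h88_Phi0_aeval_jp (Φ : ModPolyData p) :
    Polynomial.aeval (qExpand k p (jqModC k)) (h88_Phi0 k p Φ) = 0 := by
  rw [h88_Phi0, h88_aeval_map_evalSub]
  exact h88_modPoly_eval_jp k p Φ

theorem h88_isIntegral_j_K1 (Φ : ModPolyData p) :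
    IsIntegral ((jField k).map (qExpandAlgHomC k p)) (jqModC k) :=
  ⟨h88_Phi1 k p Φ, h88_Phi1_monic k p Φ, h88_Phi1_aeval_j k p Φ⟩

theorem h88_isIntegral_jp (Φ : ModPolyData p) :
    IsIntegral (jField k) (qExpand k p (jqModC k)) :=
  ⟨h88_Phi0 k p Φ, h88_Phi0_monic k p Φ, h88_Phi0_aeval_jp k p Φ⟩

/-- Key step: a polynomial over `K₁ ⊆ k((q^p))` vanishing at `j` is zero or has degree `≥ p`. -/
theorem h88_le_natDegree_of_aeval_j_eq_zero
    (Q : Polynomial ((jField k).map (qExpandAlgHomC k p))) (hQ : Q ≠ 0)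
    (h : Polynomial.aeval (jqModC k) Q = 0) : p ≤ Q.natDegree := by
  by_contra hlt
  rw [not_le] at hlt
  let incl : ((jField k).map (qExpandAlgHomC k p)) →+* (qExpandAlgHomC k p).fieldRange :=
    (IntermediateField.inclusion (h88_map_le_fieldRange k p)).toRingHom
  have hinj : Function.Injective incl :=
    (IntermediateField.inclusion (h88_map_le_fieldRange k p)).toRingHom.injective
  have h1 : Q.map incl ≠ 0 := (Polynomial.map_ne_zero_iff hinj).mpr hQ
  have h2 : (Q.map incl).natDegree < p := by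
    rw [Polynomial.natDegree_map_eq_of_injective hinj]; exact hlt
  apply h88_aeval_ne_zero_of_natDegree_lt k p (Q.map incl) h1 h2
  rw [Polynomial.aeval_def, Polynomial.eval₂_map]
  exact h

/-- **[L.B2], first half**: the minimal polynomial of `j` over `K₁ = k(j_p)` is `Φ_p(X, j_p)`,
of degree `p + 1`. -/
theorem h88_minpoly_j_eq_Phi1 (hpk : (p : k) ≠ 0) (hp1 : 1 < p) (Φ : ModPolyData p)
    (W : UnitPolyData p)
    (hθ : (thetaL ℤ (jqModC ℤ)) ^ 6 = deltaL ℤ * (jqModC ℤ) ^ 4 * (jqModC ℤ - 1728) ^ 3) :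
    minpoly ((jField k).map (qExpandAlgHomC k p)) (jqModC k) = h88_Phi1 k p Φ := by
  have hint := h88_isIntegral_j_K1 k p Φ
  have hm_monic := minpoly.monic hint
  have hm_dvd : minpoly ((jField k).map (qExpandAlgHomC k p)) (jqModC k) ∣ h88_Phi1 k p Φ :=
    minpoly.dvd _ _ (h88_Phi1_aeval_j k p Φ)
  have hm_ge := h88_le_natDegree_of_aeval_j_eq_zero k p _ hm_monic.ne_zero (minpoly.aeval _ _)
  have hm_le : (minpoly ((jField k).map (qExpandAlgHomC k p)) (jqModC k)).natDegree ≤ p + 1 := by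
    rw [← h88_Phi1_natDegree k p Φ]
    exact Polynomial.natDegree_le_of_dvd hm_dvd (h88_Phi1_monic k p Φ).ne_zero
  have hm_eq : (minpoly ((jField k).map (qExpandAlgHomC k p)) (jqModC k)).natDegree = p + 1 := by
    by_contra hne
    have hmp : (minpoly ((jField k).map (qExpandAlgHomC k p)) (jqModC k)).natDegree = p := by
      omega
    obtain ⟨R, hR⟩ := hm_dvd
    have hRmonic : R.Monic := hm_monic.of_mul_monic_left (hR ▸ h88_Phi1_monic k p Φ)
    have hRdeg : R.natDegree = 1 := by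
      have h := congrArg Polynomial.natDegree hR
      rw [hm_monic.natDegree_mul hRmonic, h88_Phi1_natDegree, hmp] at h
      omega
    have hR' : R = Polynomial.X + Polynomial.C (R.coeff 0) := hRmonic.eq_X_add_C hRdeg
    have h1 : Polynomial.aeval (qExpand k p (qExpand k p (jqModC k)))
          (minpoly ((jField k).map (qExpandAlgHomC k p)) (jqModC k))
        * Polynomial.aeval (qExpand k p (qExpand k p (jqModC k))) R = 0 := by
      rw [← _root_.map_mul, ← hR]
      exact h88_Phi1_aeval_jpp k p Φ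
    rcases mul_eq_zero.mp h1 with h2 | h2
    · -- `m` has the root `j_{p²} ∈ k((q^p))`: split off a linear factor over `k((q^p))`
      let incl : ((jField k).map (qExpandAlgHomC k p)) →+* (qExpandAlgHomC k p).fieldRange :=
        (IntermediateField.inclusion (h88_map_le_fieldRange k p)).toRingHom
      have hinj : Function.Injective incl :=
        (IntermediateField.inclusion (h88_map_le_fieldRange k p)).toRingHom.injective
      let b₂ : (qExpandAlgHomC k p).fieldRange :=
        ⟨qExpand k p (qExpand k p (jqModC k)),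
          AlgHom.mem_fieldRange.mpr ⟨qExpand k p (jqModC k), rfl⟩⟩
      have hroot : ((minpoly ((jField k).map (qExpandAlgHomC k p)) (jqModC k)).map incl).IsRoot
          b₂ := by
        rw [Polynomial.IsRoot.def]
        apply (algebraMap (qExpandAlgHomC k p).fieldRange (LaurentSeries k)).injective
        rw [_root_.map_zero, Polynomial.eval_map, Polynomial.hom_eval₂]
        exact h2
      obtain ⟨M', hM'⟩ := Polynomial.dvd_iff_isRoot.mpr hroot
      have hmapne : (minpoly ((jField k).map (qExpandAlgHomC k p)) (jqModC k)).map incl ≠ 0 :=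
        (Polynomial.map_ne_zero_iff hinj).mpr hm_monic.ne_zero
      have hM'ne : M' ≠ 0 := by
        intro h0
        rw [h0, mul_zero] at hM'
        exact hmapne hM'
      have hM'deg : M'.natDegree < p := by
        have h := congrArg Polynomial.natDegree hM'
        rw [Polynomial.natDegree_map_eq_of_injective hinj, hmp,
          Polynomial.natDegree_mul (Polynomial.X_sub_C_ne_zero b₂) hM'ne,
          Polynomial.natDegree_X_sub_C] at h
        omega
      apply h88_aeval_ne_zero_of_natDegree_lt k p M' hM'ne hM'deg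
      have h3 : Polynomial.aeval (jqModC k)
          ((minpoly ((jField k).map (qExpandAlgHomC k p)) (jqModC k)).map incl) = 0 := by
        rw [Polynomial.aeval_def, Polynomial.eval₂_map]
        exact minpoly.aeval _ _
      rw [hM', _root_.map_mul, _root_.map_sub, Polynomial.aeval_X, Polynomial.aeval_C] at h3
      rcases mul_eq_zero.mp h3 with h4 | h4
      · exact absurd (sub_eq_zero.mp h4) (h88_jqModC_ne_qExpand k p hp1 _)
      · exact h4
    · -- `j_{p²} ∈ K₁ = V_p(k(j))`, hence `j_p ∈ k(j)`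
      rw [hR', _root_.map_add, Polynomial.aeval_X, Polynomial.aeval_C] at h2
      have h3 : qExpand k p (qExpand k p (jqModC k))
          ∈ (jField k).map (qExpandAlgHomC k p) := by
        have h4 : qExpand k p (qExpand k p (jqModC k))
            = -(algebraMap ((jField k).map (qExpandAlgHomC k p)) (LaurentSeries k)
                (R.coeff 0)) := eq_neg_of_add_eq_zero_left h2
        rw [h4]
        exact neg_mem (R.coeff 0).2
      obtain ⟨r, hr, hVr⟩ := (IntermediateField.mem_map (jField k)).mp h3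
      have hr' : r = qExpand k p (jqModC k) := qExpand_injective p hVr
      exact h88_jp_not_mem_jField k p hpk hp1 W hθ (hr' ▸ hr)
  exact (Polynomial.eq_of_monic_of_dvd_of_natDegree_le hm_monic (h88_Phi1_monic k p Φ) hm_dvd
    (by rw [h88_Phi1_natDegree, hm_eq])).symm

theorem h88_irreducible_Phi1 (hpk : (p : k) ≠ 0) (hp1 : 1 < p) (Φ : ModPolyData p)
    (W : UnitPolyData p)
    (hθ : (thetaL ℤ (jqModC ℤ)) ^ 6 = deltaL ℤ * (jqModC ℤ) ^ 4 * (jqModC ℤ - 1728) ^ 3) :
    Irreducible (h88_Phi1 k p Φ) := by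
  rw [← h88_minpoly_j_eq_Phi1 k p hpk hp1 Φ W hθ]
  exact minpoly.irreducible (h88_isIntegral_j_K1 k p Φ)

theorem h88_natDegree_minpoly_j (hpk : (p : k) ≠ 0) (hp1 : 1 < p) (Φ : ModPolyData p)
    (W : UnitPolyData p)
    (hθ : (thetaL ℤ (jqModC ℤ)) ^ 6 = deltaL ℤ * (jqModC ℤ) ^ 4 * (jqModC ℤ - 1728) ^ 3) :
    (minpoly ((jField k).map (qExpandAlgHomC k p)) (jqModC k)).natDegree = p + 1 := by
  rw [h88_minpoly_j_eq_Phi1 k p hpk hp1 Φ W hθ, h88_Phi1_natDegree]

/-- **[L.B2]**: the minimal polynomial of `j(q^p)` over `k(j)` has degree `p + 1`. -/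
theorem h88_natDegree_minpoly_jp (hpk : (p : k) ≠ 0) (hp1 : 1 < p) (Φ : ModPolyData p)
    (W : UnitPolyData p)
    (hθ : (thetaL ℤ (jqModC ℤ)) ^ 6 = deltaL ℤ * (jqModC ℤ) ^ 4 * (jqModC ℤ - 1728) ^ 3) :
    (minpoly (jField k) (qExpand k p (jqModC k))).natDegree = p + 1 := by
  have hint := h88_isIntegral_jp k p Φ
  have hm_monic := minpoly.monic hint
  apply le_antisymm
  · rw [← h88_Phi0_natDegree k p Φ]
    exact Polynomial.natDegree_le_of_dvd (minpoly.dvd _ _ (h88_Phi0_aeval_jp k p Φ))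
      (h88_Phi0_monic k p Φ).ne_zero
  · -- transport the minimal polynomial through `V_p`
    let e : (jField k) →+* ((jField k).map (qExpandAlgHomC k p)) :=
      ((jField k).equivMap (qExpandAlgHomC k p)).toAlgHom.toRingHom
    have hcomp : (algebraMap ((jField k).map (qExpandAlgHomC k p)) (LaurentSeries k)).comp e
        = (qExpand k p).comp (algebraMap (jField k) (LaurentSeries k)) := by
      ext x
      rfl
    have hQ : Polynomial.aeval (qExpand k p (qExpand k p (jqModC k)))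
        ((minpoly (jField k) (qExpand k p (jqModC k))).map e) = 0 := by
      rw [Polynomial.aeval_def, Polynomial.eval₂_map, hcomp, ← Polynomial.hom_eval₂,
        ← Polynomial.aeval_def, minpoly.aeval, _root_.map_zero]
    have hirr := h88_irreducible_Phi1 k p hpk hp1 Φ W hθ
    have hmin := minpoly.eq_of_irreducible_of_monic hirr (h88_Phi1_aeval_jpp k p Φ)
      (h88_Phi1_monic k p Φ)
    have hdvd := minpoly.dvd _ _ hQ
    rw [← hmin] at hdvd
    have h1 := Polynomial.natDegree_le_of_dvd hdvd ((hm_monic.map e).ne_zero)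
    rw [h88_Phi1_natDegree, hm_monic.natDegree_map] at h1
    exact h1

end Degree

end Fermat.Agent.S28

end

end
-- ===== PACK-END S28/H88/Degree.lean

-- ===== PACK-BEGIN A2/T0/H669/T0.lean
section




/-!
# WALL A2, piece T0 (helper669): Kummer form of the wall ⇒ the wall

Interface of `origin/helper13:Fermat/Agent/A2/{Spec,Skel}.lean` (`target_of_kummerTarget`), stated
here with the two definitions `KummerTarget`, `Target` of `Spec.lean` UNFOLDED (so that this file
only imports files which are on main).  `Spec.act N τ` is by definition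
`arithmeticRingAut (modularFunctionFieldFull N) τ`.

* `a2Kummer_of_kummer`          : one `τ`; pointwise Kummer statement ⇒ `H129.A2Kummer N m τ`
                                  (the hypothesis consumed by `H909` / TRANSFER).
* `unipotent_of_kummer`         : one `τ`; pointwise Kummer statement ⇒ `τ•τ•x + x = 2•τ•x`.
* `target_of_kummerTarget`      : `KummerTarget N q m → Target N q m` (both unfolded), VERBATIM the
                                  statement T0 of `Skel.lean` after `unfold KummerTarget Target act`.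
* `a2Kummer_of_kummerTarget`    : `KummerTarget N q m → ∀ P | q, ∀ τ ∈ I_P, H129.A2Kummer N m τ`.
-/

set_option autoImplicit false

noncomputable section

namespace Fermat.Agent.A2.T0.H669

open ModularCurve AlgebraicCurve

/-- The pointwise Kummer statement for one `τ` (body of `Spec.KummerTarget`). -/
def KummerAt (N m : ℕ) (τ : AlgebraicClosure ℚ ≃ₐ[ℚ] AlgebraicClosure ℚ) : Prop :=
  ∀ f : modularFunctionFieldBar N, f ≠ 0 →
    (∀ v : Place (AlgebraicClosure ℚ) (modularFunctionFieldBar N), (m : ℤ) ∣ v.ord f) →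
    ∃ h : modularFunctionFieldBar N, h ≠ 0 ∧
      arithmeticRingAut (modularFunctionFieldFull N) τ
          (arithmeticRingAut (modularFunctionFieldFull N) τ f) * f =
        h ^ m * (arithmeticRingAut (modularFunctionFieldFull N) τ f) ^ 2

/-- `(τ-1)² f = τ²f · f / (τ f)²` in the notation of `H129`. -/
theorem tauSubOne_tauSubOne_eq {F : Type*} [Field F] (τ : F ≃+* F) {f : F} (hf : f ≠ 0) :
    H129.tauSubOne τ (H129.tauSubOne τ f) = τ (τ f) * f * ((τ f) ^ 2)⁻¹ := by
  have hτf : τ f ≠ 0 := (map_ne_zero_iff τ τ.injective).2 hf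
  unfold H129.tauSubOne
  rw [map_mul, map_inv₀, mul_inv, inv_inv]
  field_simp

/-- One `τ`: the pointwise Kummer statement gives `H129.A2Kummer`. -/
theorem a2Kummer_of_kummer (N m : ℕ) (τ : AlgebraicClosure ℚ ≃ₐ[ℚ] AlgebraicClosure ℚ)
    (h : KummerAt N m τ) : H129.A2Kummer N m τ := by
  intro f hf hdiv
  obtain ⟨y, _, hy⟩ := h f hf hdiv
  refine ⟨y, 1, one_ne_zero, ?_⟩
  rw [toRingAut_arithmeticGalois, tauSubOne_tauSubOne_eq _ hf, hy, map_one, one_mul]
  have hτf : arithmeticRingAut (modularFunctionFieldFull N) τ f ≠ 0 :=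
    (map_ne_zero_iff _ (arithmeticRingAut (modularFunctionFieldFull N) τ).injective).2 hf
  field_simp

/-- One `τ`: the pointwise Kummer statement gives `(τ - 1)² = 0` on `J₀(N)[m]`. -/
theorem unipotent_of_kummer (N m : ℕ) (hm : 0 < m)
    (τ : AlgebraicClosure ℚ ≃ₐ[ℚ] AlgebraicClosure ℚ) (h : KummerAt N m τ)
    (x : JZero N) (hx : m • x = 0) :
    τ • (τ • x) + x = 2 • (τ • x) := by
  have h1 := H129.unipotent_JZero_of_kummer N m hm.ne' τ (a2Kummer_of_kummer N m τ h) x hx
  rw [smul_sub] at h1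
  rw [two_nsmul]
  have h2 : τ • (τ • x) = τ • x - x + τ • x := by
    rw [← h1]; abel
  rw [h2]; abel

/-- **T0** (`target_of_kummerTarget` of `Skel.lean`, definitions unfolded). -/
theorem target_of_kummerTarget (N q m : ℕ) (hm : 0 < m)
    (h : ∀ P : ValuationSubring (AlgebraicClosure ℚ), P.LiesOverPrime q →
      ∀ τ ∈ P.inertiaSubgroupIn ℚ, ∀ f : modularFunctionFieldBar N, f ≠ 0 →
        (∀ v : Place (AlgebraicClosure ℚ) (modularFunctionFieldBar N), (m : ℤ) ∣ v.ord f) →
        ∃ h : modularFunctionFieldBar N, h ≠ 0 ∧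
          arithmeticRingAut (modularFunctionFieldFull N) τ
              (arithmeticRingAut (modularFunctionFieldFull N) τ f) * f =
            h ^ m * (arithmeticRingAut (modularFunctionFieldFull N) τ f) ^ 2) :
    ∀ P : ValuationSubring (AlgebraicClosure ℚ), P.LiesOverPrime q →
      ∀ τ ∈ P.inertiaSubgroupIn ℚ, ∀ x : JZero N, m • x = 0 →
        τ • (τ • x) + x = 2 • (τ • x) :=
  fun P hP τ hτ x hx => unipotent_of_kummer N m hm τ (h P hP τ hτ) x hx

/-- **T0'** : the form consumed by `H909` (TRANSFER): `H129.A2Kummer` for every inertia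
element at `q`. -/
theorem a2Kummer_of_kummerTarget (N q m : ℕ)
    (h : ∀ P : ValuationSubring (AlgebraicClosure ℚ), P.LiesOverPrime q →
      ∀ τ ∈ P.inertiaSubgroupIn ℚ, ∀ f : modularFunctionFieldBar N, f ≠ 0 →
        (∀ v : Place (AlgebraicClosure ℚ) (modularFunctionFieldBar N), (m : ℤ) ∣ v.ord f) →
        ∃ h : modularFunctionFieldBar N, h ≠ 0 ∧
          arithmeticRingAut (modularFunctionFieldFull N) τ
              (arithmeticRingAut (modularFunctionFieldFull N) τ f) * f =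
            h ^ m * (arithmeticRingAut (modularFunctionFieldFull N) τ f) ^ 2) :
    ∀ P : ValuationSubring (AlgebraicClosure ℚ), P.LiesOverPrime q →
      ∀ τ ∈ P.inertiaSubgroupIn ℚ, H129.A2Kummer N m τ :=
  fun P hP τ hτ => a2Kummer_of_kummer N m τ (h P hP τ hτ)

end Fermat.Agent.A2.T0.H669

end
end
-- ===== PACK-END A2/T0/H669/T0.lean

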