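import Mathlib.Analysis.Complex.UpperHalfPlane.MoebiusAction
import Mathlib.NumberTheory.ModularForms.CongruenceSubgroups
import Mathlib
import Fermat.Prelude.Def_ModularCurve_X0ModL
import Fermat.Agent.Pack.S33.E9L3
import Fermat.Agent.Pack.S33.E7L2
import Fermat.Agent.Pack.S33.E7L3
import Fermat.Agent.Pack.S33.E0L0
import Fermat.Agent.Pack.S33.E9L1
import Fermat.Agent.Pack.S33.E4L0
import Fermat.Agent.Pack.S33.E0L1
import Fermat.Agent.Pack.S33.E1L2
import Fermat.Agent.Pack.S33.E10L1
import Fermat.Agent.Pack.S33.E10L2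
import Fermat.Agent.Pack.S33.E10L0
import Fermat.Agent.Pack.S33.E1L0
import Fermat.Agent.Pack.S33.E8L1
import Fermat.Agent.Pack.S33.E1L1
import Fermat.Agent.Pack.S33.E10L3
import Fermat.Agent.Pack.S33.E5L1
import Fermat.Agent.Pack.S33.E11L2

-- ===== PACK-BEGIN S32/H692/RelCore.lean
section
/-
Row S32 (flat at `p`), piece REL (helper692) — core.

`rel_of_chebWeak : S30.H990.ChebWeak → RelStatement`.

At a local `p`-adic point `P` of the coefficient ring `T` of a Hecke–Galois datum `H`, EVERY
`g ∈ G_ℚ` satisfies on an adic eigenmodule `E` of `P.χ ∘ H.π` the characteristic polynomial of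
`H.ρ g`, specialised at `P`:
`E.ρ g ^ 2 - P.χ (tr H.ρ g) • E.ρ g + P.χ (det H.ρ g) = 0`.

Proof: modulo `𝔪 ^ n` (Frobenius division on a common finite level of `E.ρ mod 𝔪 ^ n` and
`H.ρ mod 𝔪_T ^ n`, explicit Lucas sequence `powTr`, `H.charpoly_frob`), then Krull.
-/





set_option autoImplicit false

namespace Fermat.Agent.S32.H692

open IsLocalRing Polynomial Fermat.Agent.S19 Fermat.Agent.S31 Fermat.Agent.S31.H982

section Lucas

variable {R A : Type*} [CommRing R] [Ring A] [Algebra R A]

/-- Explicit Lucas: if `h` satisfies `X² - aX + b`, then `h ^ j` satisfies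
`X² - (powTr a b j) X + b ^ j`. -/
theorem lucas_powTr (h : A) (a b : R) (hrel : h * h - a • h + b • (1 : A) = 0) (j : ℕ) :
    h ^ j * h ^ j - powTr a b j • h ^ j + (b ^ j) • (1 : A) = 0 := by
  set k : A := a • (1 : A) - h with hk
  have hcomm : Commute h k := by
    have : Commute h (a • (1 : A)) := (Commute.one_right h).smul_right a
    exact this.sub_right (Commute.refl h)
  have hhk : h * k = b • (1 : A) := by
    have : h * k = a • h - h * h := by
      rw [hk, mul_sub, mul_smul_comm, mul_one]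
    rw [this]
    calc a • h - h * h = b • (1 : A) - (h * h - a • h + b • (1 : A)) := by abel
      _ = b • (1 : A) := by rw [hrel, sub_zero]
  have hsum : h + k = a • (1 : A) := by rw [hk]; abel
  have key : ∀ n : ℕ, h ^ n + k ^ n = powTr a b n • (1 : A) := by
    intro n
    induction n using Nat.strong_induction_on with
    | _ n ih =>
      match n, ih with
      | 0, _ => rw [pow_zero, pow_zero, powTr_zero, two_smul]
      | 1, _ => rw [pow_one, pow_one, powTr_one, hsum]
      | (n + 2), ih =>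
        have h1 := ih (n + 1) (by omega)
        have h0 := ih n (by omega)
        have e1 : h ^ (n + 1 + 1) + k ^ (n + 1 + 1)
            = (h + k) * (h ^ (n + 1) + k ^ (n + 1)) - (h * k) * (h ^ n + k ^ n) := by
          have c1 : k * h ^ (n + 1) = (h * k) * h ^ n := by
            rw [pow_succ', ← mul_assoc, hcomm.eq]
          have c2 : h * k ^ (n + 1) = (h * k) * k ^ n := by
            rw [pow_succ', ← mul_assoc]
          rw [add_mul, mul_add, mul_add, mul_add, c1, c2, pow_succ' h (n + 1),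
            pow_succ' k (n + 1)]
          abel
        rw [e1, hsum, hhk, h1, h0, powTr_add_two]
        simp only [mul_smul_comm, mul_one, smul_smul, sub_smul]
        rw [mul_comm (powTr a b (n + 1)) a, mul_comm (powTr a b n) b]
  have hprod : h ^ j * k ^ j = (b ^ j) • (1 : A) := by
    rw [← hcomm.mul_pow, hhk, _root_.smul_pow, one_pow]
  have : h ^ j * h ^ j - powTr a b j • h ^ j + (b ^ j) • (1 : A)
      = h ^ j * (h ^ j + k ^ j - powTr a b j • (1 : A)) := by
    rw [mul_sub, mul_add, hprod, mul_smul_comm, mul_one]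
    abel
  rw [this, key j, sub_self, mul_zero]

end Lucas

section Local

/-- A local homomorphism maps `𝔪 ^ n` into `𝔪 ^ n`. -/
theorem map_mem_maximalIdeal_pow {T O : Type*} [CommRing T] [IsLocalRing T] [CommRing O]
    [IsLocalRing O] (χ : T →+* O) [IsLocalHom χ] (n : ℕ) {t : T}
    (ht : t ∈ maximalIdeal T ^ n) : χ t ∈ maximalIdeal O ^ n := by
  have hmap : (maximalIdeal T ^ n).map χ ≤ maximalIdeal O ^ n := by
    rw [Ideal.map_pow]
    exact Ideal.pow_right_mono (Ideal.map_le_iff_le_comap.mpr fun a ha =>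
      Ideal.mem_comap.mpr (map_nonunit χ a ha)) n
  exact hmap (Ideal.mem_map_of_mem χ ht)

end Local

section Main

set_option maxHeartbeats 1000000 in
/-- **REL modulo `𝔪 ^ n`.** -/
theorem rel_mod (hcheb : Fermat.Agent.S30.H990.ChebWeak)
    {p : ℕ} {N : ℕ} [NeZero N] {S : Finset ℕ}
    (hNS : ∀ q : ℕ, q.Prime → q ∣ N → q ∈ S)
    {𝒪 : Type} [CommRing 𝒪] [IsDomain 𝒪] [IsDiscreteValuationRing 𝒪]
    [IsAdicComplete (maximalIdeal 𝒪) 𝒪]
    {θ : CuspForm.heckeAlgebra N 2 (↑S : Set ℕ) →+* ResidueField 𝒪}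
    {T : Type} [CommRing T] [IsLocalRing T] [IsNoetherianRing T]
    [IsAdicComplete (maximalIdeal T) T] [Algebra 𝒪 T] [IsLocalHom (algebraMap 𝒪 T)]
    [Module.Finite 𝒪 T] [Module.Free 𝒪 T]
    (H : CuspForm.HeckeGaloisRepDatum N (↑S : Set ℕ) 𝒪 θ T)
    (P : PadicPoint p T) (hloc : IsLocalHom P.χ)
    (E : Fermat.Agent.S30.H990.AdicEigenModule p N S P.O (P.χ.comp H.π)) (g : GalQ)
    (n : ℕ) (v : E.M) :
    E.ρ g (E.ρ g v) - P.χ (H.ρ.trace g) • E.ρ g v + P.χ ((H.ρ.det g : Tˣ) : T) • v
      ∈ (maximalIdeal P.O ^ n) • (⊤ : Submodule P.O E.M) := by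
  have hlocI : IsLocalHom P.χ := hloc
  -- levels
  obtain ⟨L₁, hL₁fin, hL₁⟩ := E.cont n
  obtain ⟨L₂, hL₂fin, hL₂⟩ := trace_congr_of_agree' H.ρ n
  obtain ⟨L₃, hL₃fin, hL₃⟩ := H.ρ.isAdicContinuous n
  have hf₁ : FiniteDimensional ℚ L₁ := hL₁fin
  have hf₂ : FiniteDimensional ℚ L₂ := hL₂fin
  have hf₃ : FiniteDimensional ℚ L₃ := hL₃fin
  have h12 : FiniteDimensional ℚ ↥(L₁ ⊔ L₂) := IntermediateField.finiteDimensional_sup L₁ L₂
  have hLfin : FiniteDimensional ℚ ↥(L₁ ⊔ L₂ ⊔ L₃) :=
    IntermediateField.finiteDimensional_sup (L₁ ⊔ L₂) L₃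
  have hle₁ : L₁ ≤ L₁ ⊔ L₂ ⊔ L₃ := le_sup_left.trans le_sup_left
  have hle₂ : L₂ ≤ L₁ ⊔ L₂ ⊔ L₃ := le_sup_right.trans le_sup_left
  have hle₃ : L₃ ≤ L₁ ⊔ L₂ ⊔ L₃ := le_sup_right
  obtain ⟨ℓ, hℓ, hℓS, A, hA, τ, hτ, j, hj⟩ := hcheb (L₁ ⊔ L₂ ⊔ L₃) hLfin g S
  have hℓN : ¬ ℓ ∣ N := fun h => hℓS (hNS ℓ hℓ h)
  have hℓS' : ℓ ∉ (↑S : Set ℕ) := fun h => hℓS (Finset.mem_coe.mp h)
  -- `g = τ ^ j * σ` with `σ` fixing the level
  obtain ⟨σ, hg⟩ : ∃ σ : GalQ, g = τ ^ j * σ :=
    ⟨(τ ^ j)⁻¹ * g, (mul_inv_cancel_left (τ ^ j) g).symm⟩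
  have hσfix : ∀ x ∈ L₁ ⊔ L₂ ⊔ L₃, σ x = x := by
    intro x hx
    have h1 : (τ ^ j) (σ x) = (τ ^ j) x := by
      rw [← hj x hx]
      exact (congrArg (fun f : GalQ => f x) hg).symm
    exact (τ ^ j).injective h1
  -- the eigenmodule side
  have hs : ∀ w : E.M, E.ρ σ w - w ∈ (maximalIdeal P.O ^ n) • (⊤ : Submodule P.O E.M) :=
    hL₁ σ (fun x hx => hσfix x (hle₁ hx))
  have hfrob := E.frob ℓ hℓ hℓN hℓS' A hA τ hτ
  obtain ⟨a₀, ha₀⟩ : ∃ a₀ : P.O, a₀ = P.χ (H.π (CuspForm.heckeAlgebra.T hℓ hℓN hℓS')) :=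
    ⟨_, rfl⟩
  have hfrob' : E.ρ τ * E.ρ τ - a₀ • E.ρ τ + (ℓ : P.O) • (1 : Module.End P.O E.M) = 0 := by
    rw [ha₀]; exact hfrob
  have hluc := lucas_powTr (E.ρ τ) a₀ (ℓ : P.O) hfrob' j
  have key := Fermat.Agent.S30.H990.rel_mod_of_mul (maximalIdeal P.O ^ n) (E.ρ τ ^ j) (E.ρ σ)
    (powTr a₀ (ℓ : P.O) j) ((ℓ : P.O) ^ j) 1 hluc hs (by rw [sub_self]; exact Ideal.zero_mem _) v
  have hρg : E.ρ τ ^ j * E.ρ σ = E.ρ g := by
    have := congrArg E.ρ hg
    rw [_root_.map_mul, _root_.map_pow] at this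
    exact this.symm
  rw [hρg, mul_one] at key
  -- the datum side: trace
  have htr : H.ρ.trace g - H.ρ.trace (τ ^ j) ∈ maximalIdeal T ^ n :=
    hL₂ g (τ ^ j) (fun x hx => hj x (hle₂ hx))
  have hcp := H.charpoly_frob ℓ hℓ hℓN hℓS' A hA τ hτ
  have htrpow : H.ρ.trace (τ ^ j)
      = powTr (H.π (CuspForm.heckeAlgebra.T hℓ hℓN hℓS')) (ℓ : T) j := by
    have := trace_pow_of_charpoly' H.ρ.finrank_eq (H.ρ.ρ τ) _ _ hcp j
    rw [← this]
    show LinearMap.trace T H.ρ.V (H.ρ.ρ (τ ^ j)) = _
    rw [_root_.map_pow]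
  have hχtr : P.χ (H.ρ.trace (τ ^ j)) = powTr a₀ (ℓ : P.O) j := by
    rw [htrpow, map_powTr', _root_.map_natCast, ha₀]
  have ha : P.χ (H.ρ.trace g) - powTr a₀ (ℓ : P.O) j ∈ maximalIdeal P.O ^ n := by
    rw [← hχtr, ← _root_.map_sub]
    exact map_mem_maximalIdeal_pow P.χ n htr
  -- the datum side: determinant
  have hdetσ : LinearMap.det (H.ρ.ρ σ) - 1 ∈ maximalIdeal T ^ n :=
    Fermat.Agent.S59.H540.det_sub_one_mem _ _ (hL₃ σ (fun x hx => hσfix x (hle₃ hx)))
  have hdetτ : LinearMap.det (H.ρ.ρ τ) = (ℓ : T) :=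
    Fermat.Agent.S59.H540.det_eq_of_charpoly H.ρ.finrank_eq (H.ρ.ρ τ) _ _ hcp
  have hdetg : ((H.ρ.det g : Tˣ) : T) = (ℓ : T) ^ j * LinearMap.det (H.ρ.ρ σ) := by
    have h1 : ((H.ρ.det g : Tˣ) : T) = LinearMap.det (H.ρ.ρ g) := rfl
    have h2 : H.ρ.ρ g = H.ρ.ρ τ ^ j * H.ρ.ρ σ := by
      have := congrArg H.ρ.ρ hg
      rwa [_root_.map_mul, _root_.map_pow] at this
    rw [h1, h2, _root_.map_mul, _root_.map_pow, hdetτ]
  have hd : P.χ ((H.ρ.det g : Tˣ) : T) - (ℓ : P.O) ^ j ∈ maximalIdeal P.O ^ n := by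
    have h1 : ((H.ρ.det g : Tˣ) : T) - (ℓ : T) ^ j ∈ maximalIdeal T ^ n := by
      rw [hdetg]
      have : (ℓ : T) ^ j * LinearMap.det (H.ρ.ρ σ) - (ℓ : T) ^ j
          = (ℓ : T) ^ j * (LinearMap.det (H.ρ.ρ σ) - 1) := by ring
      rw [this]
      exact Ideal.mul_mem_left _ _ hdetσ
    have h2 := map_mem_maximalIdeal_pow P.χ n h1
    rwa [_root_.map_sub, _root_.map_pow, _root_.map_natCast] at h2
  -- conclusion
  have hfin : E.ρ g (E.ρ g v) - P.χ (H.ρ.trace g) • E.ρ g v + P.χ ((H.ρ.det g : Tˣ) : T) • v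
      = ((E.ρ g) ((E.ρ g) v) - powTr a₀ (ℓ : P.O) j • (E.ρ g) v + ((ℓ : P.O) ^ j) • v)
        - (P.χ (H.ρ.trace g) - powTr a₀ (ℓ : P.O) j) • E.ρ g v
        + (P.χ ((H.ρ.det g : Tˣ) : T) - (ℓ : P.O) ^ j) • v := by
    module
  rw [hfin]
  exact Submodule.add_mem _ (Submodule.sub_mem _ key
    (Submodule.smul_mem_smul ha Submodule.mem_top)) (Submodule.smul_mem_smul hd Submodule.mem_top)

/-- **REL** from the weak Chebotarev hypothesis. -/
theorem rel_of_chebWeak (hcheb : Fermat.Agent.S30.H990.ChebWeak) : RelStatement := by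
  intro p _ N _ S _hpS hNS 𝒪 _ _ _ _ θ T _ _ _ _ _ _ _ _ H P hloc E g
  refine LinearMap.ext fun v => ?_
  have hv : E.ρ g (E.ρ g v) - P.χ (H.ρ.trace g) • E.ρ g v + P.χ ((H.ρ.det g : Tˣ) : T) • v
      ∈ ⨅ i : ℕ, (maximalIdeal P.O ^ i) • (⊤ : Submodule P.O E.M) := by
    rw [Submodule.mem_iInf]
    exact fun n => rel_mod hcheb hNS H P hloc E g n v
  rw [Ideal.iInf_pow_smul_eq_bot_of_isLocalRing _ (maximalIdeal.isMaximal P.O).ne_top,
    Submodule.mem_bot] at hv
  simpa using hv

end Main

end Fermat.Agent.S32.H692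

end
-- ===== PACK-END S32/H692/RelCore.lean

-- ===== PACK-BEGIN S24/Deg/H457_Bridge.lean
section





/-!
# S24 / DEG (helper457), bridge: the formal interface hypothesis `Hyp ℂ N n` from function level

Inputs: helper648 (conjugate product, `exists_charPoly_eval_eq_zero`), helper708 (`HasQExp`),
helper264 (`hasSum_jFun`).  Remaining explicit hypotheses: the polynomiality principle `D5` for
`jFun` and the growth bound of `jFun` on the fundamental domain.
-/

set_option autoImplicit false

noncomputable section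

open UpperHalfPlane ModularGroup CongruenceSubgroup Polynomial ModularCurve
open scoped MatrixGroups Manifold Modular Real

namespace Fermat.Agent.S24.Deg457

open Fermat.Agent.S24.H648 Fermat.Agent.S24.H708 Fermat.Agent.S24.JFun

/-- `τ ↦ d τ` on the upper half plane -/
def scaleH (d : ℕ) [NeZero d] (τ : ℍ) : ℍ :=
  UpperHalfPlane.mk ((d : ℂ) * τ) (by
    have hd : (0 : ℝ) < d := by exact_mod_cast Nat.pos_of_ne_zero (NeZero.ne d)
    have : ((d : ℂ) * (τ : ℂ)).im = d * τ.im := by simp
    rw [this]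
    exact mul_pos hd τ.im_pos)

theorem coe_scaleH (d : ℕ) [NeZero d] (τ : ℍ) : ((scaleH d τ : ℍ) : ℂ) = (d : ℂ) * τ := rfl

theorem coeff_JK_complex (n : ℤ) : (jqModC ℂ).coeff n = algebraMap ℚ ℂ (jq.coeff n) := by
  rw [← JK_eq, JK, coeffEmb_coeff]

/-- the `q`-expansion of `τ ↦ j(dτ)` is `j(q^d)`. -/
theorem hasQExp_jFun_scale (d : ℕ) [NeZero d] :
    HasQExp 1 (fun τ => _root_.Fermat.Agent.S24.JFun.jFun (scaleH d τ)) (coeffEmb ℂ (qExpand ℚ d jq)) := by
  have hd : 0 < d := Nat.pos_of_ne_zero (NeZero.ne d)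
  refine HasQExp.of_hasSum
    (mdifferentiable_J_scale jFun_mdifferentiable d hd (scaleH d) (coe_scaleH d)) ?_
  intro τ
  have h := hasSum_jFun (scaleH d τ)
  have hinj : Function.Injective (fun n : ℤ => (d : ℤ) * n) := by
    intro a b hab
    have hd' : (d : ℤ) ≠ 0 := by exact_mod_cast hd.ne'
    exact mul_left_cancel₀ hd' hab
  have hsupp : ∀ m : ℤ, m ∉ Set.range (fun n : ℤ => (d : ℤ) * n) →
      (coeffEmb ℂ (qExpand ℚ d jq)).coeff m * qh 1 τ ^ m = 0 := by
    intro m hm
    have hndvd : ¬ (d : ℤ) ∣ m := by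
      rintro ⟨k, rfl⟩
      exact hm ⟨k, rfl⟩
    rw [coeffEmb_coeff, qExpand_coeff_of_not_dvd d jq hndvd, _root_.map_zero, zero_mul]
  rw [← hinj.hasSum_iff hsupp]
  have hq : Function.Periodic.qParam 1 ((scaleH d τ : ℍ) : ℂ) = qh 1 τ ^ d := by
    rw [qh_apply, coe_scaleH]
    simp only [Function.Periodic.qParam, Nat.cast_one, Complex.ofReal_one, div_one]
    rw [← Complex.exp_nat_mul]
    congr 1
    ring
  have hfun : ((fun m : ℤ => (coeffEmb ℂ (qExpand ℚ d jq)).coeff m * qh 1 τ ^ m) ∘
      fun n : ℤ => (d : ℤ) * n)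
      = fun n : ℤ => (jqModC ℂ).coeff n *
          Function.Periodic.qParam 1 ((scaleH d τ : ℍ) : ℂ) ^ n := by
    funext n
    simp only [Function.comp_apply]
    rw [coeffEmb_coeff, qExpand_coeff_mul, coeff_JK_complex, hq, ← zpow_natCast, ← zpow_mul]
  rw [hfun]
  exact h

variable (N : ℕ) [NeZero N]

/-- every element of `A_ℂ` is the `q`-expansion of a good function. -/
theorem exists_goodRing_hasQExp
    (hJfd : ∃ C : ℝ, ∀ τ : ℍ, τ ∈ 𝒟 → ‖_root_.Fermat.Agent.S24.JFun.jFun τ‖ ≤ C * Real.exp (2 * π * τ.im))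
    {b : LaurentSeries ℂ} (hb : b ∈ AK ℂ N) :
    ∃ f : ℍ → ℂ, f ∈ goodRing N ∧ HasQExp 1 f b := by
  unfold AK at hb
  induction hb using Algebra.adjoin_induction with
  | mem x hx =>
    obtain ⟨y, ⟨d, hd, hdN, rfl⟩, rfl⟩ := hx
    haveI := hd
    refine ⟨fun τ => _root_.Fermat.Agent.S24.JFun.jFun (scaleH d τ), ?_, hasQExp_jFun_scale d⟩
    exact J_scale_mem_goodRing N jFun_mdifferentiable _root_.Fermat.Agent.S24.JFun.jFun_smul hJfd d
      (Nat.pos_of_ne_zero (NeZero.ne d)) hdN (scaleH d) (coe_scaleH d)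
  | algebraMap c =>
    refine ⟨fun _ => c, (goodRing N).algebraMap_mem c, ?_⟩
    have : algebraMap ℂ (LaurentSeries ℂ) c = HahnSeries.C c := by
      rw [algebraMap_laurentSeries_eq_single]; rfl
    rw [this]
    exact HasQExp.const 1 c
  | add x y _ _ hx hy =>
    obtain ⟨f, hf, hfx⟩ := hx
    obtain ⟨g, hg, hgy⟩ := hy
    exact ⟨f + g, (goodRing N).add_mem hf hg, hfx.add hgy⟩
  | mul x y _ _ hx hy =>
    obtain ⟨f, hf, hfx⟩ := hx
    obtain ⟨g, hg, hgy⟩ := hy
    exact ⟨f * g, (goodRing N).mul_mem hf hg, hfx.mul hgy⟩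

theorem hasQExp_jFun : HasQExp 1 _root_.Fermat.Agent.S24.JFun.jFun (JK ℂ) := by
  have h := hasQExp_jFun_scale 1
  rw [qExpand_one_apply] at h
  have hfun : (fun τ => _root_.Fermat.Agent.S24.JFun.jFun (scaleH 1 τ)) = _root_.Fermat.Agent.S24.JFun.jFun := by
    funext τ
    congr 1
    apply UpperHalfPlane.ext
    rw [coe_scaleH]
    simp
  rw [hfun] at h
  exact h

/-- transfer of univariate polynomial expressions in `j` -/
theorem hasQExp_aeval (p : ℂ[X]) :
    HasQExp 1 (fun τ => p.eval (_root_.Fermat.Agent.S24.JFun.jFun τ)) (aeval (JK ℂ) p) := by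
  induction p using Polynomial.induction_on' with
  | add p q hp hq =>
    have := hp.add hq
    rw [_root_.map_add]
    convert this using 1
    funext τ
    simp
  | monomial n c =>
    have h1 := (HasQExp.const 1 c).mul (hasQExp_jFun.pow n)
    rw [aeval_monomial]
    have : algebraMap ℂ (LaurentSeries ℂ) c = HahnSeries.C c := by
      rw [algebraMap_laurentSeries_eq_single]; rfl
    rw [this]
    convert h1 using 1
    funext τ
    simp

/-- transfer of bivariate polynomial expressions -/
theorem hasQExp_eval₂ (P : ℂ[X][X]) {f : ℍ → ℂ} {b : LaurentSeries ℂ} (hf : HasQExp 1 f b) :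
    HasQExp 1 (fun τ => (P.map (Polynomial.evalRingHom (_root_.Fermat.Agent.S24.JFun.jFun τ))).eval (f τ))
      (P.eval₂ (evJ (JK ℂ)) b) := by
  induction P using Polynomial.induction_on' with
  | add p q hp hq =>
    have := hp.add hq
    rw [eval₂_add]
    convert this using 1
    funext τ
    simp
  | monomial n p =>
    have h1 := (hasQExp_aeval p).mul (hf.pow n)
    rw [eval₂_monomial, evJ_apply]
    convert h1 using 1
    funext τ
    simp

/-- **The interface hypothesis over `ℂ`**, from D5 and the growth bound of `j`. -/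
theorem hyp_complex
    (hD5 : ∀ F : ℍ → ℂ, MDifferentiable 𝓘(ℂ) 𝓘(ℂ) F →
      (∀ (γ : SL(2, ℤ)) (τ : ℍ), F (γ • τ) = F τ) → ExpGrowth F →
      ∃ p : ℂ[X], ∀ τ, F τ = p.eval (_root_.Fermat.Agent.S24.JFun.jFun τ))
    (hJfd : ∃ C : ℝ, ∀ τ : ℍ, τ ∈ 𝒟 → ‖_root_.Fermat.Agent.S24.JFun.jFun τ‖ ≤ C * Real.exp (2 * π * τ.im)) :
    Hyp ℂ N (Nat.card (XX N)) := by
  intro b hb
  obtain ⟨f, hf, hfb⟩ := exists_goodRing_hasQExp N hJfd hb
  haveI : Finite (SL(2, ℤ) ⧸ Gamma0 N) := inferInstanceAs (Finite (XX N))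
  letI : Fintype (SL(2, ℤ) ⧸ Gamma0 N) := Fintype.ofFinite _
  obtain ⟨P, hPm, hPn, hP⟩ := exists_charPoly_eval_eq_zero (N := N) _root_.Fermat.Agent.S24.JFun.jFun hD5 hf
  refine ⟨P, hPm, ?_, ?_⟩
  · rw [hPn, Nat.card_eq_fintype_card]
  · have h1 := hasQExp_eval₂ P hfb
    rw [h1.eq_zero_iff]
    funext τ
    exact hP τ

end Fermat.Agent.S24.Deg457

end
end
-- ===== PACK-END S24/Deg/H457_Bridge.lean

-- ===== PACK-BEGIN S24/Inf/HNF.lean
section




/-!
# S24 / MOD-INF — Hermite normal form of `diag(d,1)·γ` and its action on `ℍ`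
-/

set_option autoImplicit false

noncomputable section

open UpperHalfPlane Complex Matrix
open scoped MatrixGroups

namespace Fermat.Agent.S24

theorem inf_sl_det (γ : SL(2, ℤ)) : γ 0 0 * γ 1 1 - γ 0 1 * γ 1 0 = 1 := by
  have := γ.det_coe
  rw [Matrix.det_fin_two] at this
  exact this

/-- **Hermite normal form.** For `γ ∈ SL₂(ℤ)` and `d > 0` there are `γ' ∈ SL₂(ℤ)` and an upper
triangular matrix `[[a,b],[0,d']]`, `a d' = d`, with `diag(d,1)·γ = γ'·[[a,b],[0,d']]`
(written entrywise). -/
theorem inf_exists_hnf (d : ℕ) (hd : 0 < d) (γ : SL(2, ℤ)) :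
    ∃ (γ' : SL(2, ℤ)) (a d' : ℕ) (b : ℤ), 0 < a ∧ 0 < d' ∧ a * d' = d ∧
      (d : ℤ) * γ 0 0 = γ' 0 0 * a ∧ (d : ℤ) * γ 0 1 = γ' 0 0 * b + γ' 0 1 * d' ∧
      γ 1 0 = γ' 1 0 * a ∧ γ 1 1 = γ' 1 0 * b + γ' 1 1 * d' := by
  have hdet := inf_sl_det γ
  generalize γ 0 0 = p at hdet ⊢
  generalize γ 0 1 = q at hdet ⊢
  generalize γ 1 0 = r at hdet ⊢
  generalize γ 1 1 = s at hdet ⊢
  have hgpos : 0 < Int.gcd (d : ℤ) r := Int.gcd_pos_of_ne_zero_left _ (by exact_mod_cast hd.ne')
  obtain ⟨d₁, r₁, hcop, hd₁, hr₁⟩ := Int.exists_gcd_one hgpos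
  generalize Int.gcd (d : ℤ) r = a at hgpos hd₁ hr₁
  have ha0 : (0 : ℤ) < a := by exact_mod_cast hgpos
  have hd0 : (0 : ℤ) < d := by exact_mod_cast hd
  have hd₁pos : 0 < d₁ := by
    by_contra h
    rw [not_lt] at h
    have : d₁ * (a : ℤ) ≤ 0 := mul_nonpos_of_nonpos_of_nonneg h ha0.le
    omega
  -- coprimality of the first column
  have hc1 : IsCoprime d₁ r₁ := Int.isCoprime_iff_gcd_eq_one.mpr hcop
  have hc2 : IsCoprime p r₁ := by
    refine ⟨s, -(q * a), ?_⟩
    rw [hr₁] at hdet
    linear_combination hdet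
  have hc3 : IsCoprime (d₁ * p) r₁ := hc1.mul_left hc2
  obtain ⟨v, u', hbez⟩ := hc3
  -- `v * (d₁ p) + u' * r₁ = 1`; the new matrix is `[[d₁ p, -u'], [r₁, v]]`
  refine ⟨⟨!![d₁ * p, -u'; r₁, v], by rw [Matrix.det_fin_two_of]; linear_combination hbez⟩,
    a, d₁.toNat, v * (d : ℤ) * q + u' * s, hgpos, by omega, ?_, ?_, ?_, ?_, ?_⟩
  · have : ((a * d₁.toNat : ℕ) : ℤ) = (d : ℤ) := by
      push_cast
      rw [Int.toNat_of_nonneg hd₁pos.le, hd₁]
      ring
    exact_mod_cast this
  · simp only [Matrix.of_apply, Matrix.cons_val', Matrix.cons_val_zero, Matrix.cons_val_fin_one]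
    rw [hd₁]; ring
  · simp only [Matrix.of_apply, Matrix.cons_val', Matrix.cons_val_zero, Matrix.cons_val_one,
      Matrix.cons_val_fin_one, Int.toNat_of_nonneg hd₁pos.le]
    rw [hr₁] at hdet
    rw [hd₁]
    linear_combination (-(a * d₁ * q) : ℤ) * hbez + (-(d₁ * u') : ℤ) * hdet
  · simp only [Matrix.of_apply, Matrix.cons_val', Matrix.cons_val_zero, Matrix.cons_val_one,
      Matrix.cons_val_fin_one]
    exact hr₁
  · simp only [Matrix.of_apply, Matrix.cons_val', Matrix.cons_val_zero, Matrix.cons_val_one,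
      Matrix.cons_val_fin_one, Int.toNat_of_nonneg hd₁pos.le]
    rw [hr₁] at hdet
    rw [hd₁]
    linear_combination (-s : ℤ) * hbez + (v * d₁ : ℤ) * hdet

theorem inf_sl_denom_ne_zero (γ : SL(2, ℤ)) (τ : ℍ) :
    ((γ 1 0 : ℤ) : ℂ) * τ + ((γ 1 1 : ℤ) : ℂ) ≠ 0 := by
  have h := UpperHalfPlane.denom_ne_zero (γ : GL (Fin 2) ℝ) τ
  simpa [UpperHalfPlane.denom] using h

theorem inf_sl_smul_coe (γ : SL(2, ℤ)) (τ : ℍ) :
    ((γ • τ : ℍ) : ℂ) = (((γ 0 0 : ℤ) : ℂ) * τ + ((γ 0 1 : ℤ) : ℂ)) /
      (((γ 1 0 : ℤ) : ℂ) * τ + ((γ 1 1 : ℤ) : ℂ)) := by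
  rw [UpperHalfPlane.coe_specialLinearGroup_apply]
  simp

/-- The matrix identity `diag(d,1)·γ = γ'·[[a,b],[0,d']]` on the level of `ℍ`. -/
theorem inf_aff_smul_eq {d a d' : ℕ} {b : ℤ} (hd : 0 < d) (ha : 0 < a) (hd' : 0 < d')
    (γ γ' : SL(2, ℤ))
    (h00 : (d : ℤ) * γ 0 0 = γ' 0 0 * a) (h01 : (d : ℤ) * γ 0 1 = γ' 0 0 * b + γ' 0 1 * d')
    (h10 : γ 1 0 = γ' 1 0 * a) (h11 : γ 1 1 = γ' 1 0 * b + γ' 1 1 * d') (τ : ℍ) :
    infAff d 0 1 (γ • τ) = γ' • infAff a b d' τ := by
  apply UpperHalfPlane.ext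
  rw [infAff_coe hd one_pos, inf_sl_smul_coe γ' (infAff a b d' τ), infAff_coe ha hd',
    inf_sl_smul_coe γ τ]
  have hden := inf_sl_denom_ne_zero γ τ
  have hden' := inf_sl_denom_ne_zero γ' (infAff a b d' τ)
  rw [infAff_coe ha hd'] at hden'
  have hd'0 : (d' : ℂ) ≠ 0 := by exact_mod_cast hd'.ne'
  have e00 : (d : ℂ) * ((γ 0 0 : ℤ) : ℂ) = ((γ' 0 0 : ℤ) : ℂ) * a := by exact_mod_cast h00
  have e01 : (d : ℂ) * ((γ 0 1 : ℤ) : ℂ) = ((γ' 0 0 : ℤ) : ℂ) * b + ((γ' 0 1 : ℤ) : ℂ) * d' := by
    exact_mod_cast h01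
  have e10 : ((γ 1 0 : ℤ) : ℂ) = ((γ' 1 0 : ℤ) : ℂ) * a := by exact_mod_cast h10
  have e11 : ((γ 1 1 : ℤ) : ℂ) = ((γ' 1 0 : ℤ) : ℂ) * b + ((γ' 1 1 : ℤ) : ℂ) * d' := by
    exact_mod_cast h11
  have hden'' : ((γ' 1 0 : ℤ) : ℂ) * (((a : ℂ) * τ + b) / d') + ((γ' 1 1 : ℤ) : ℂ) =
      (((γ 1 0 : ℤ) : ℂ) * τ + ((γ 1 1 : ℤ) : ℂ)) / d' := by
    rw [e10, e11]
    field_simp
    ring
  have hnum : ((γ' 0 0 : ℤ) : ℂ) * (((a : ℂ) * τ + b) / d') + ((γ' 0 1 : ℤ) : ℂ) =
      ((d : ℂ) * (((γ 0 0 : ℤ) : ℂ) * τ + ((γ 0 1 : ℤ) : ℂ))) / d' := by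
    rw [_root_.mul_add, ← _root_.mul_assoc, e00, e01]
    field_simp
    ring
  rw [hnum, hden'']
  field_simp
  simp

end Fermat.Agent.S24

end
end
-- ===== PACK-END S24/Inf/HNF.lean

-- ===== PACK-BEGIN S24/H864/FF3d.lean
section



/-!
# S24 / ALG / FF1+FF3 (part d): the fundamental identity `∑_{v(t)>0} v(t) = [F : K(t)]`
-/

set_option autoImplicit false

noncomputable section

open AlgebraicCurve IntermediateField IsDedekindDomain
open scoped IntermediateField.algebraAdjoinAdjoin

namespace Fermat.Agent.S24.H864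

variable {K F : Type*} [Field K] [Field F] [Algebra K F]

section Inst

variable (K) (t : F)

theorem polyRing_isPrincipalIdealRing (ht : Transcendental K t) :
    IsPrincipalIdealRing (polyRing K t) :=
  IsPrincipalIdealRing.of_surjective (polyEquiv K t ht).toAlgHom.toRingHom
    (polyEquiv K t ht).surjective

theorem tR_ne_zero (ht : Transcendental K t) : tR K t ≠ 0 := by
  intro h
  have h1 : t = 0 := congrArg Subtype.val h
  rw [h1] at ht
  exact ht (isAlgebraic_zero)

theorem tR_prime (ht : Transcendental K t) : Prime (tR K t) := by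
  rw [← polyEquiv_X K t ht]
  exact (MulEquiv.prime_iff (polyEquiv K t ht).toMulEquiv).mpr Polynomial.prime_X

theorem exists_sub_mem_span_tR (ht : Transcendental K t) (r : polyRing K t) :
    ∃ c : K, r - algebraMap K (polyRing K t) c ∈ Ideal.span {tR K t} := by
  obtain ⟨P, rfl⟩ := (polyEquiv K t ht).surjective r
  refine ⟨P.coeff 0, ?_⟩
  rw [Ideal.mem_span_singleton']
  refine ⟨polyEquiv K t ht P.divX, ?_⟩
  rw [← polyEquiv_X K t ht, ← map_mul, ← AlgEquiv.commutes (polyEquiv K t ht), ← map_sub]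
  congr 1
  conv_rhs => rw [← Polynomial.divX_mul_X_add P]
  simp [Polynomial.algebraMap_eq]

theorem coe_mem_valuationSubring_of_ord_nonneg (v : Place K F) (hv : 0 ≤ v.ord t)
    (r : polyRing K t) : (r : F) ∈ v.toValuationSubring := by
  obtain ⟨r, hr⟩ := r
  show r ∈ v.toValuationSubring
  induction hr using Algebra.adjoin_induction with
  | mem x hx =>
      rw [Set.mem_singleton_iff] at hx
      rw [hx]
      exact (FF.mem_iff_ord_nonneg v).mpr hv
  | algebraMap c => exact v.algebraMap_mem' c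
  | add x y _ _ hx hy => exact _root_.AddMemClass.add_mem hx hy
  | mul x y _ _ hx hy => exact _root_.MulMemClass.mul_mem hx hy

end Inst

section Main

variable [IsAlgClosed K] [CharZero K]

/-- **Fundamental identity (FF1).**  For `t` transcendental over `K` with `F / K(t)` finite,
the zeros of `t`, counted with multiplicity, are `[F : K(t)]` in number. -/
theorem fundamental_identity (t : F) (ht : Transcendental K t)
    [FiniteDimensional ↥(IntermediateField.adjoin K {t}) F]
    (s : Finset (Place K F)) (hs : ∀ v : Place K F, v ∈ s ↔ 0 < v.ord t) :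
    ∑ v ∈ s, v.ord t = (Module.finrank ↥(IntermediateField.adjoin K {t}) F : ℤ) := by
  haveI : IsPrincipalIdealRing (polyRing K t) := polyRing_isPrincipalIdealRing K t ht
  haveI : IsScalarTower (polyRing K t) (integralClosure (polyRing K t) F) F :=
    Subalgebra.isScalarTower_mid _
  haveI : IsFractionRing (integralClosure (polyRing K t) F) F :=
    integralClosure.isFractionRing_of_finite_extension K⟮t⟯ F
  haveI : IsDedekindDomain (integralClosure (polyRing K t) F) :=
    IsIntegralClosure.isDedekindDomain (polyRing K t) K⟮t⟯ F (integralClosure (polyRing K t) F)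
  haveI : Module.Finite (polyRing K t) (integralClosure (polyRing K t) F) :=
    IsIntegralClosure.finite (polyRing K t) K⟮t⟯ F (integralClosure (polyRing K t) F)
  have hfin : Module.finrank K⟮t⟯ F
      = Module.finrank (polyRing K t) (integralClosure (polyRing K t) F) :=
    IsFractionRing.finrank_eq (polyRing K t) K⟮t⟯ (integralClosure (polyRing K t) F) F
  have hprime : (Ideal.span {tR K t}).IsPrime :=
    (Ideal.span_singleton_prime (tR_ne_zero K t ht)).mpr (tR_prime K t ht)
  have hne : Ideal.span {tR K t} ≠ ⊥ := by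
    rw [Ne, Ideal.span_singleton_eq_bot]
    exact tR_ne_zero K t ht
  haveI hmax : (Ideal.span {tR K t}).IsMaximal := hprime.isMaximal hne
  have hinj : Function.Injective
      (algebraMap (polyRing K t) (integralClosure (polyRing K t) F)) := by
    intro a b hab
    have := congrArg (algebraMap (integralClosure (polyRing K t) F) F) hab
    rw [← IsScalarTower.algebraMap_apply, ← IsScalarTower.algebraMap_apply] at this
    exact Subtype.ext this
  rw [hfin]
  exact fundamental_identity_abstract (K := K) (F := F)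
    (S := integralClosure (polyRing K t) F) (R := polyRing K t)
    (Ideal.span {tR K t}) (tR K t) rfl (tR_ne_zero K t ht) hinj
    (exists_sub_mem_span_tR K t ht)
    (fun v hv r => coe_mem_valuationSubring_of_ord_nonneg K t v hv.le r) s hs

end Main

end Fermat.Agent.S24.H864

end
end
-- ===== PACK-END S24/H864/FF3d.lean

-- ===== PACK-BEGIN S24/Alg/LocFund.lean
section



/-!
# S24 / ALG-LOC: the fundamental inequality from local data (no Dedekind theory)

For `L : LocalData K F C X t`: at most `ord_v t` of the embeddings `L.σ x` induce a given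
place `v` (with residue field `K`).  Hence `|X| ≤ ∑_{v | t} ord_v t`.
-/

set_option autoImplicit false

noncomputable section

open AlgebraicCurve Polynomial

namespace Fermat.Agent.S24.H144

variable {K F : Type*} [Field K] [Field F] [Algebra K F]
variable {C : Type*} [Field C] {X : Type*} {t : F}

theorem loc_coeff_zero_C (c : C) : (HahnSeries.C c : LaurentSeries C).coeff 0 = c := by
  simp [HahnSeries.C, HahnSeries.coeff_single_same]

/-- The place induced by `L.σ x` lies over `t = 0`. -/
theorem loc_ord_t_pos_of_induces (L : LocalData K F C X t) {x : X} {v : Place K F}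
    (hx : Induces (L.σ x) v) : 0 < v.ord t := by
  obtain ⟨g, hg, hord⟩ := loc_exists_mult v (L.σ x) hx
  have h1 := hord t
  have h2 := loc_order_t_pos L x
  rw [h1] at h2
  have hg' : (0 : ℤ) < g := Int.natCast_pos.mpr hg
  exact (mul_pos_iff_of_pos_left hg').mp h2

/-- **Fibre bound.** At most `ord_v t` of the embeddings induce the place `v`. -/
theorem loc_fibre_card_le [CharZero C] (L : LocalData K F C X t) (v : Place K F)
    (hv : 0 < v.ord t) (hres : ResidueTrivial v) (T : Finset X)
    (hT : ∀ x ∈ T, Induces (L.σ x) v) : (T.card : ℤ) ≤ v.ord t := by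
  classical
  obtain ⟨π, hπ⟩ := loc_exists_ord_eq_one v
  have hπ0 : π ≠ 0 := by rintro rfl; simp at hπ
  have ht0 : t ≠ 0 := by rintro rfl; simp at hv
  obtain ⟨k, hk⟩ : ∃ k : ℕ, v.ord t = (k : ℤ) + 1 := ⟨(v.ord t - 1).toNat, by omega⟩
  -- the unit part of `t`
  set u : F := t * (π ^ (k + 1))⁻¹ with hu
  have hpk : π ^ (k + 1) ≠ 0 := pow_ne_zero _ hπ0
  have hu0 : u ≠ 0 := mul_ne_zero ht0 (inv_ne_zero hpk)
  have hut : t = u * π ^ (k + 1) := by rw [hu]; field_simp
  have hordu : v.ord u = 0 := by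
    rw [hu, v.ord_mul ht0 (inv_ne_zero hpk), v.ord_inv, loc_ord_pow, hπ, hk]
    push_cast; ring
  have humem : u ∈ v.toValuationSubring := loc_mem_of_ord_nonneg v hordu.ge
  -- the residue of `u`
  obtain ⟨c, hc⟩ := hres u humem
  have hucoeff : ∀ x ∈ T, (L.σ x u).coeff 0 = L.ι c := by
    intro x hx
    rcases hc with hc | hc
    · rw [hc, L.σ_const, loc_coeff_zero_C]
    · obtain ⟨g, hg, hord⟩ := loc_exists_mult v (L.σ x) (hT x hx)
      have h1 : 0 < (L.σ x (u - algebraMap K F c)).order := by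
        rw [hord]
        exact mul_pos (Int.natCast_pos.mpr hg) hc
      have h2 : (L.σ x (u - algebraMap K F c)).coeff 0 = 0 :=
        HahnSeries.coeff_eq_zero_of_lt_order h1
      rw [_root_.map_sub, HahnSeries.coeff_sub, L.σ_const, loc_coeff_zero_C, sub_eq_zero] at h2
      exact h2
  -- the key relation
  have hrel : ∀ x ∈ T, L.ι c * ((L.σ x π).leadingCoeff) ^ (k + 1) = (L.σ x t).leadingCoeff := by
    intro x hx
    obtain ⟨g, hg, hord⟩ := loc_exists_mult v (L.σ x) (hT x hx)
    have hou : LocBig 0 (L.σ x u) := LocBig.of_le_order (by rw [hord, hordu, mul_zero])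
    have hoπ : (L.σ x π).order = g := by rw [hord, hπ, mul_one]
    have hbπ : LocBig (g : ℤ) (L.σ x π) := LocBig.of_le_order hoπ.ge
    have hot : (L.σ x t).order = ((k + 1 : ℕ) : ℤ) * g := by
      rw [hord, hk]; push_cast; ring
    have h1 := hou.coeff_mul (hbπ.pow (k + 1))
    rw [hbπ.coeff_pow, zero_add, ← _root_.map_pow, ← _root_.map_mul, ← hut, hucoeff x hx] at h1
    have e1 : (L.σ x π).leadingCoeff = (L.σ x π).coeff g := by
      rw [HahnSeries.leadingCoeff_eq, hoπ]
    have e2 : (L.σ x t).leadingCoeff = (L.σ x t).coeff (((k + 1 : ℕ) : ℤ) * g) := by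
      rw [HahnSeries.leadingCoeff_eq, hot]
    rw [e1, e2, h1]
  have hιc : ∀ x ∈ T, L.ι c ≠ 0 := by
    intro x hx
    rw [← hucoeff x hx]
    obtain ⟨g, hg, hord⟩ := loc_exists_mult v (L.σ x) (hT x hx)
    have ho : (L.σ x u).order = 0 := by rw [hord, hordu, mul_zero]
    rw [← ho]
    exact HahnSeries.coeff_order_eq_zero.not.mpr ((_root_.map_ne_zero (L.σ x)).mpr hu0)
  rcases T.eq_empty_or_nonempty with rfl | ⟨x₀, hx₀⟩
  · simp only [Finset.card_empty, Nat.cast_zero]; exact hv.le
  -- all leading coefficients are `(k+1)`-th roots of the same element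
  set A : C := (L.σ x₀ t).leadingCoeff * (L.ι c)⁻¹ with hA
  have hroot : ∀ x ∈ T, (L.σ x π).leadingCoeff ∈ (nthRoots (k + 1) A).toFinset := by
    intro x hx
    rw [Multiset.mem_toFinset, mem_nthRoots (Nat.succ_pos k), hA, L.σ_t_eq x₀ x, ← hrel x hx]
    field_simp [hιc x hx]
  have hinj : Set.InjOn (fun x => (L.σ x π).leadingCoeff) (T : Set X) := by
    intro x hx y hy hxy
    apply L.σ_inj
    exact loc_emb_eq_of_leadingCoeff_eq hres hv hπ L.ι (L.σ x) (L.σ y) (L.σ_const x)
      (L.σ_const y) (hT x hx) (hT y hy) (L.σ_t_eq x y) hxy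
  have h1 : T.card ≤ (nthRoots (k + 1) A).toFinset.card :=
    Finset.card_le_card_of_injOn _ hroot hinj
  have h2 : (nthRoots (k + 1) A).toFinset.card ≤ k + 1 :=
    (Multiset.toFinset_card_le _).trans (card_nthRoots _ _)
  rw [hk]
  have : T.card ≤ k + 1 := h1.trans h2
  exact_mod_cast this

/-- **Fundamental inequality** `|X| ≤ ∑_{v | t} ord_v t`, hypothesis-explicit version. -/
theorem loc_card_le_sum_of_residueTrivial [CharZero C] [Finite X] (L : LocalData K F C X t)
    (hres : ∀ v : Place K F, 0 < v.ord t → ResidueTrivial v)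
    (s : Finset (Place K F)) (hs : ∀ v, v ∈ s ↔ 0 < v.ord t) :
    (Nat.card X : ℤ) ≤ ∑ v ∈ s, v.ord t := by
  classical
  have : Fintype X := Fintype.ofFinite X
  rw [Nat.card_eq_fintype_card, ← Finset.card_univ,
    Finset.card_eq_sum_card_image (locPlace L) Finset.univ]
  push_cast
  have himg : Finset.univ.image (locPlace L) ⊆ s := by
    intro v hv
    obtain ⟨x, _, rfl⟩ := Finset.mem_image.mp hv
    exact (hs _).mpr (loc_ord_t_pos_of_induces L (loc_induces_locPlace L x))
  refine le_trans (Finset.sum_le_sum fun v hv => ?_)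
    (Finset.sum_le_sum_of_subset_of_nonneg himg fun v hv _ => ((hs v).mp hv).le)
  have hvpos : 0 < v.ord t := (hs v).mp (himg hv)
  apply loc_fibre_card_le L v hvpos (hres v hvpos)
  intro x hx
  rw [Finset.mem_filter] at hx
  rw [← hx.2]
  exact loc_induces_locPlace L x

end Fermat.Agent.S24.H144

end
end
-- ===== PACK-END S24/Alg/LocFund.lean

-- ===== PACK-BEGIN S28/H867/Prime.lean
section



set_option autoImplicit false
noncomputable section
open ModularCurve HahnSeries IntermediateField Polynomial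

namespace Fermat.Agent.S28.H867

section Prime

variable (k : Type*) [Field k]

theorem jq_mem_jField : jqModC k ∈ jField k := mem_adjoin_simple_self k _

theorem jp_mem_jpField (p : ℕ) [NeZero p] : jp k p ∈ jpField k p := mem_adjoin_simple_self k _

theorem jpField_le_fieldRange (p : ℕ) [NeZero p] :
    jpField k p ≤ (qExpandAlgHomC k p).fieldRange := by
  rw [jpField, adjoin_simple_le_iff]
  exact ⟨jqModC k, rfl⟩

theorem qExpand_injective' (p : ℕ) [NeZero p] : Function.Injective (qExpand k p) :=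
  (qExpand k p).injective

/-- natDegree of the minimal polynomial of `j` over a subfield of `range V_p` is `≥ p`. -/
theorem le_natDegree_minpoly {p : ℕ} [NeZero p] (hI : LeafI k p)
    (B : IntermediateField k (LaurentSeries k)) (hB : B ≤ (qExpandAlgHomC k p).fieldRange)
    (hint : IsIntegral B (jqModC k)) : p ≤ (minpoly B (jqModC k)).natDegree := by
  rw [← relfinrank_sup_adjoin_simple B hint]
  refine le_relfinrank_of_linearIndependent le_sup_left ?_ _ ?_ (hI B hB)
  · rw [relfinrank_sup_adjoin_simple B hint]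
    exact (minpoly.natDegree_pos hint).ne'
  · intro i
    exact _root_.pow_mem ((le_sup_right : adjoin k {jqModC k} ≤ _) (mem_adjoin_simple_self k _)) _

theorem primeLevel_of_leaves {p : ℕ} [NeZero p] (hp : p.Prime) (D : ModPolyData p)
    (hI : LeafI k p) (hB1 : LeafB1 k p) : PrimeLevel k p := by
  set j := jqModC k with hj
  set A := jpField k p with hA
  set R := (qExpandAlgHomC k p).fieldRange with hR
  have hAR : A ≤ R := jpField_le_fieldRange k p
  let y : A := ⟨jp k p, jp_mem_jpField k p⟩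
  set ΦA := polyOver A y D.Φ with hΦA
  have hΦmonic : ΦA.Monic := polyOver_monic A y D.monic
  have hΦdeg : ΦA.natDegree = p + 1 := by
    rw [hΦA, polyOver_natDegree A y D.monic, D.natDegree_eq]
  have hΦj : Polynomial.aeval j ΦA = 0 := by
    rw [hΦA, aeval_polyOver]; exact modPoly_eval_j_field k D
  have hΦjpp : Polynomial.aeval (qExpand k p (jp k p)) ΦA = 0 := by
    rw [hΦA, aeval_polyOver]
    exact eval₂_evalAt_qExpand p D.Φ _ _ (modPoly_eval_jp_field k D)
  have hint : IsIntegral A j := ⟨ΦA, hΦmonic, by rwa [Polynomial.aeval_def] at hΦj⟩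
  set m := minpoly A j with hm
  have hmdvd : m ∣ ΦA := minpoly.dvd A j hΦj
  have hmmonic : m.Monic := minpoly.monic hint
  have hmle : m.natDegree ≤ p + 1 := by
    rw [← hΦdeg]
    exact Polynomial.natDegree_le_of_dvd hmdvd hΦmonic.ne_zero
  have hmge : p ≤ m.natDegree := le_natDegree_minpoly k hI A hAR hint
  -- the key step: the degree is not `p`
  have hmne : m.natDegree ≠ p := by
    intro hmp
    obtain ⟨c, hc⟩ := hmdvd
    have hcmonic : c.Monic := hmmonic.of_mul_monic_left (hc ▸ hΦmonic)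
    have hcdeg : c.natDegree = 1 := by
      have := congrArg Polynomial.natDegree hc
      rw [hmmonic.natDegree_mul hcmonic, hΦdeg, hmp] at this
      omega
    have hroot : Polynomial.aeval (qExpand k p (jp k p)) m *
        Polynomial.aeval (qExpand k p (jp k p)) c = 0 := by
      rw [← _root_.map_mul, ← hc, hΦjpp]
    rcases mul_eq_zero.mp hroot with h0 | h0
    · -- `j_{p²}` is a root of `m`, but `m` is irreducible of degree `p ≥ 2` over `R`
      set incl : A →+* R := (IntermediateField.inclusion hAR).toRingHom with hincl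
      have hcomp : (algebraMap R (LaurentSeries k)).comp incl = algebraMap A (LaurentSeries k) :=
        rfl
      set m' := m.map incl with hm'
      have hm'monic : m'.Monic := hmmonic.map _
      have hm'deg : m'.natDegree = p := by rw [hm', hmmonic.natDegree_map, hmp]
      have hm'eval : ∀ x : LaurentSeries k, Polynomial.aeval x m' = Polynomial.aeval x m := by
        intro x
        rw [hm', Polynomial.aeval_def, Polynomial.eval₂_map, hcomp, ← Polynomial.aeval_def]
      have hintR : IsIntegral R j := by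
        refine ⟨m', hm'monic, ?_⟩
        rw [← Polynomial.aeval_def, hm'eval]
        exact minpoly.aeval A j
      have hdvd : minpoly R j ∣ m' := minpoly.dvd R j (by rw [hm'eval]; exact minpoly.aeval A j)
      have hge : p ≤ (minpoly R j).natDegree := le_natDegree_minpoly k hI R le_rfl hintR
      have heq : m' = minpoly R j :=
        Polynomial.eq_of_monic_of_dvd_of_natDegree_le (minpoly.monic hintR) hm'monic hdvd
          (by rw [hm'deg]; exact hge)
      have hirr : Irreducible m' := heq ▸ minpoly.irreducible hintR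
      let r : R := ⟨qExpand k p (jp k p), ⟨jp k p, rfl⟩⟩
      have hr : m'.IsRoot r := by
        have h1 : Polynomial.aeval (algebraMap R (LaurentSeries k) r) m' = 0 := by
          rw [hm'eval]; exact h0
        rw [Polynomial.aeval_algebraMap_apply] at h1
        have h3 : Polynomial.aeval r m' = 0 :=
          (algebraMap R (LaurentSeries k)).injective (by rw [h1, _root_.map_zero])
        simpa [Polynomial.IsRoot] using h3
      have hdeg1 := Polynomial.degree_eq_one_of_irreducible_of_root hirr hr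
      have : m'.natDegree = 1 := Polynomial.natDegree_eq_of_degree_eq_some hdeg1
      have h2 := hp.two_le
      omega
    · -- `j_{p²} ∈ A`, hence `j_p ∈ k(j)`
      have hc' : c = Polynomial.X + Polynomial.C (c.coeff 0) :=
        hcmonic.eq_X_add_C hcdeg
      rw [hc'] at h0
      simp only [_root_.map_add, Polynomial.aeval_X, Polynomial.aeval_C] at h0
      have hmem : qExpand k p (jp k p) ∈ A := by
        have : qExpand k p (jp k p) = -(algebraMap A (LaurentSeries k) (c.coeff 0)) :=
          eq_neg_of_add_eq_zero_left h0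
        rw [this]
        exact _root_.NegMemClass.neg_mem (c.coeff 0).2
      rw [hA, jpField_eq_map] at hmem
      obtain ⟨x, hx, hxe⟩ := hmem
      have : x = jp k p := qExpand_injective' k p hxe
      exact hB1 (this ▸ hx)
  have hmdeg : m.natDegree = p + 1 := by omega
  have hmΦ : ΦA = m :=
    Polynomial.eq_of_monic_of_dvd_of_natDegree_le hmmonic hΦmonic hmdvd (by rw [hΦdeg, hmdeg])
  have hdeg_jp : A.relfinrank (jField k ⊔ A) = p + 1 := by
    rw [sup_comm, jField, relfinrank_sup_adjoin_simple A hint, ← hm, hmdeg]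
  refine ⟨?_, hdeg_jp⟩
  -- transport along `V_p`
  set x := qExpand k p (jp k p) with hx
  have hintx : IsIntegral A x := ⟨ΦA, hΦmonic, by rwa [Polynomial.aeval_def] at hΦjpp⟩
  have hirr : Irreducible ΦA := hmΦ ▸ minpoly.irreducible hint
  have hminx : ΦA = minpoly A x := minpoly.eq_of_irreducible_of_monic hirr hΦjpp hΦmonic
  have h1 : A.relfinrank (A ⊔ adjoin k {x}) = p + 1 := by
    rw [relfinrank_sup_adjoin_simple A hintx, ← hminx, hΦdeg]
  have h2 : A ⊔ adjoin k {x} = (jField k ⊔ jpField k p).map (qExpandAlgHomC k p) := by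
    rw [IntermediateField.map_sup, ← jpField_eq_map, jpField, adjoin_map, Set.image_singleton]
    rfl
  rw [h2, hA, jpField_eq_map, relfinrank_map_map] at h1
  rw [jpField_eq_map]
  exact h1

end Prime

end Fermat.Agent.S28.H867

end
end
-- ===== PACK-END S28/H867/Prime.lean

-- ===== PACK-BEGIN S28/H626/Upper.lean
section
/-
S28 helper (helper626): the upper bound `[k(j(q^d) : d ∣ N) : k(j)] ≤ ψ(N)` for every field `k`
in which `N` is invertible, from the prime-level modular polynomials; and its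
linear-independence / spanning forms.
-/




set_option autoImplicit false

noncomputable section

open ModularCurve HahnSeries Polynomial IntermediateField

namespace Fermat.Agent.S28.H626

/-! ### Arithmetic of `dedekindPsi` -/

section Psi

theorem psi_mul_prime_of_dvd {N p : ℕ} (hN : N ≠ 0) (hp : p.Prime) (hpN : p ∣ N) :
    dedekindPsi (N * p) = p * dedekindPsi N := by
  unfold dedekindPsi
  have hset : (N * p).divisors.filter Squarefree = N.divisors.filter Squarefree := by
    ext d
    simp only [Finset.mem_filter, Nat.mem_divisors]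
    constructor
    · rintro ⟨⟨hd, _⟩, hsq⟩
      refine ⟨⟨?_, hN⟩, hsq⟩
      have h2 : d ∣ N ^ 2 := by
        rw [pow_two]
        exact hd.trans (mul_dvd_mul_left N hpN)
      exact (hsq.dvd_pow_iff_dvd two_ne_zero).1 h2
    · rintro ⟨⟨hd, _⟩, hsq⟩
      exact ⟨⟨hd.mul_right p, mul_ne_zero hN hp.ne_zero⟩, hsq⟩
  rw [hset, Finset.mul_sum]
  refine Finset.sum_congr rfl fun d hd => ?_
  have hdN : d ∣ N := (Nat.mem_divisors.1 (Finset.mem_filter.1 hd).1).1
  obtain ⟨e, rfl⟩ := hdN
  have hd0 : 0 < d := Nat.pos_of_ne_zero (by rintro rfl; simp at hN)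
  rw [mul_assoc, Nat.mul_div_cancel_left _ hd0, Nat.mul_div_cancel_left _ hd0, mul_comm]

theorem psi_mul_prime_of_not_dvd {N p : ℕ} (hN : N ≠ 0) (hp : p.Prime) (hpN : ¬ p ∣ N) :
    dedekindPsi (N * p) = (p + 1) * dedekindPsi N := by
  unfold dedekindPsi
  have hcop : ∀ d, d ∣ N → Nat.Coprime d p := fun d hd =>
    (Nat.Coprime.symm ((Nat.Prime.coprime_iff_not_dvd hp).2 fun h => hpN (h.trans hd)))
  have hset : (N * p).divisors.filter Squarefree
      = (N.divisors.filter Squarefree) ∪ (N.divisors.filter Squarefree).image (· * p) := by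
    ext d
    simp only [Finset.mem_filter, Nat.mem_divisors, Finset.mem_union, Finset.mem_image]
    constructor
    · rintro ⟨⟨hd, _⟩, hsq⟩
      by_cases hpd : p ∣ d
      · right
        obtain ⟨e, rfl⟩ := hpd
        refine ⟨e, ⟨⟨?_, hN⟩, hsq.squarefree_of_dvd (Dvd.intro_left p rfl)⟩, mul_comm e p⟩
        rw [mul_comm p e] at hd
        exact Nat.dvd_of_mul_dvd_mul_right hp.pos hd
      · left
        refine ⟨⟨?_, hN⟩, hsq⟩
        have : Nat.Coprime d p := (Nat.Coprime.symm ((Nat.Prime.coprime_iff_not_dvd hp).2 hpd))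
        exact this.dvd_of_dvd_mul_right hd
    · rintro (⟨⟨hd, _⟩, hsq⟩ | ⟨e, ⟨⟨he, _⟩, hsq⟩, rfl⟩)
      · exact ⟨⟨hd.mul_right p, mul_ne_zero hN hp.ne_zero⟩, hsq⟩
      · refine ⟨⟨mul_dvd_mul_right he p, mul_ne_zero hN hp.ne_zero⟩, ?_⟩
        exact (Nat.squarefree_mul (hcop e he)).2 ⟨hsq, hp.squarefree⟩
  have hdisj : Disjoint (N.divisors.filter Squarefree)
      ((N.divisors.filter Squarefree).image (· * p)) := by
    rw [Finset.disjoint_left]
    intro d hd hd'
    simp only [Finset.mem_filter, Nat.mem_divisors, Finset.mem_image] at hd hd'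
    obtain ⟨e, _, rfl⟩ := hd'
    exact hpN ((Dvd.intro_left e rfl).trans hd.1.1)
  rw [hset, Finset.sum_union hdisj, Finset.sum_image, add_mul, one_mul, Finset.mul_sum]
  · congr 1
    · refine Finset.sum_congr rfl fun d hd => ?_
      have hdN : d ∣ N := (Nat.mem_divisors.1 (Finset.mem_filter.1 hd).1).1
      obtain ⟨e, rfl⟩ := hdN
      have hd0 : 0 < d := Nat.pos_of_ne_zero (by rintro rfl; simp at hN)
      rw [mul_assoc, Nat.mul_div_cancel_left _ hd0, Nat.mul_div_cancel_left _ hd0, mul_comm]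
    · refine Finset.sum_congr rfl fun d hd => ?_
      exact Nat.mul_div_mul_right N d hp.pos
  · intro a _ b _ hab
    exact Nat.eq_of_mul_eq_mul_right hp.pos hab

end Psi

/-! ### The upper bound -/

section Upper

variable {k : Type*} [Field k]

theorem full_one_eq : modularFunctionFieldFullC k 1 = IntermediateField.adjoin k {jqModC k} := by
  apply le_antisymm
  · refine full_le_of_forall_mem 1 _ ?_
    intro d _ hd
    have hd1 : d = 1 := Nat.dvd_one.mp hd
    rw [jd_congr k hd1, jd_one]
    exact IntermediateField.subset_adjoin _ _ (Set.mem_singleton _)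
  · rw [IntermediateField.adjoin_le_iff]
    intro y hy
    rw [Set.mem_singleton_iff] at hy
    rw [hy]
    exact jqModC_mem_full k 1

/-- **Upper bound**, `relrank` form (a `Cardinal` inequality, so it includes finiteness). -/
theorem relrank_full_le (N : ℕ) [NeZero N] (H : HasModPolys k N) :
    IntermediateField.relrank (modularFunctionFieldFullC k 1) (modularFunctionFieldFullC k N) ≤
      ((dedekindPsi N : ℕ) : Cardinal) := by
  revert H
  have main : ∀ n : ℕ, ∀ (N : ℕ) [NeZero N], N = n → HasModPolys k N →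
      IntermediateField.relrank (modularFunctionFieldFullC k 1) (modularFunctionFieldFullC k N) ≤
        ((dedekindPsi N : ℕ) : Cardinal) := by
    intro n
    induction n using Nat.strong_induction_on with
    | _ n ih =>
      intro N instN hNn H
      by_cases hN1 : N = 1
      · subst hN1
        rw [IntermediateField.relrank_self, dedekindPsi_one, Nat.cast_one]
      obtain ⟨p, hp, hpN⟩ := Nat.exists_prime_and_dvd hN1
      obtain ⟨M, hM⟩ := hpN
      have hNM : N = M * p := by rw [hM, mul_comm]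
      subst hNM
      have hM0 : M ≠ 0 := by
        rintro rfl
        exact (NeZero.ne (0 * p)) (zero_mul p)
      have instM : NeZero M := ⟨hM0⟩
      have hlt : M < n := by
        rw [← hNn]
        have := hp.one_lt
        have hMpos : 0 < M := Nat.pos_of_ne_zero hM0
        nlinarith
      have IH := ih M hlt M rfl (H.mono (Dvd.intro p rfl))
      have h1 : modularFunctionFieldFullC k 1 ≤ modularFunctionFieldFullC k M :=
        full_degeneracyC_le k (one_dvd M)
      have h2 : modularFunctionFieldFullC k M ≤ modularFunctionFieldFullC k (M * p) :=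
        full_degeneracyC_le k (Dvd.intro p rfl)
      rw [← IntermediateField.relrank_mul_relrank h1 h2]
      by_cases hpM : p ∣ M
      · rw [psi_mul_prime_of_dvd hM0 hp hpM, mul_comm p, Nat.cast_mul]
        exact mul_le_mul' IH (relrank_full_step_of_dvd hp H hpM)
      · rw [psi_mul_prime_of_not_dvd hM0 hp hpM, mul_comm (p + 1), Nat.cast_mul]
        exact mul_le_mul' IH (relrank_full_step_of_not_dvd hp H hpM)
  exact main N N rfl

/-- `k(j) ≤ k(j(q^d) : d ∣ N)`. -/
theorem adjoin_j_le_full (N : ℕ) [NeZero N] :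
    IntermediateField.adjoin k {jqModC k} ≤ modularFunctionFieldFullC k N := by
  rw [IntermediateField.adjoin_le_iff]
  intro y hy
  rw [Set.mem_singleton_iff] at hy
  rw [hy]
  exact jqModC_mem_full k N

/-- **Upper bound** over `k(j) = IntermediateField.adjoin k {j}`. -/
theorem relrank_adjoin_j_full_le (N : ℕ) [NeZero N] (H : HasModPolys k N) :
    IntermediateField.relrank (IntermediateField.adjoin k {jqModC k})
      (modularFunctionFieldFullC k N) ≤ ((dedekindPsi N : ℕ) : Cardinal) := by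
  rw [← full_one_eq]
  exact relrank_full_le N H

/-- The function field as a finite-dimensional `k(j)`-vector space: rank bound. -/
theorem rank_extendScalars_le (N : ℕ) [NeZero N] (H : HasModPolys k N) :
    Module.rank (IntermediateField.adjoin k {jqModC k})
      (IntermediateField.extendScalars (adjoin_j_le_full (k := k) N)) ≤
        ((dedekindPsi N : ℕ) : Cardinal) := by
  rw [← IntermediateField.relrank_eq_rank_of_le]
  exact relrank_adjoin_j_full_le N H

theorem finiteDimensional_extendScalars (N : ℕ) [NeZero N] (H : HasModPolys k N) :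
    FiniteDimensional (IntermediateField.adjoin k {jqModC k})
      (IntermediateField.extendScalars (adjoin_j_le_full (k := k) N)) := by
  rw [FiniteDimensional, ← Module.rank_lt_aleph0_iff]
  exact lt_of_le_of_lt (rank_extendScalars_le N H) (Cardinal.nat_lt_aleph0 _)

theorem finrank_extendScalars_le (N : ℕ) [NeZero N] (H : HasModPolys k N) :
    Module.finrank (IntermediateField.adjoin k {jqModC k})
      (IntermediateField.extendScalars (adjoin_j_le_full (k := k) N)) ≤ dedekindPsi N := by
  have := finiteDimensional_extendScalars N H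
  have h := rank_extendScalars_le N H
  rw [← Module.finrank_eq_rank, Nat.cast_le] at h
  exact h

/-- **Upper bound, linear-independence form.** A family of elements of `k(j(q^d) : d ∣ N)` which
is linearly independent over `k(j)` has at most `ψ(N)` members. -/
theorem card_le_of_linearIndependent (N : ℕ) [NeZero N] (H : HasModPolys k N)
    {ι : Type*} [Fintype ι] (v : ι → LaurentSeries k)
    (hv : ∀ i, v i ∈ modularFunctionFieldFullC k N)
    (hli : LinearIndependent (IntermediateField.adjoin k {jqModC k}) v) :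
    Fintype.card ι ≤ dedekindPsi N := by
  have := finiteDimensional_extendScalars N H
  set B := IntermediateField.extendScalars (adjoin_j_le_full (k := k) N) with hB
  let w : ι → B := fun i => ⟨v i, hv i⟩
  have hw : LinearIndependent (IntermediateField.adjoin k {jqModC k}) w := by
    refine LinearIndependent.of_comp (B.val.toLinearMap) ?_
    exact hli
  exact (hw.fintype_card_le_finrank).trans (finrank_extendScalars_le N H)

/-- **Upper bound, spanning form.** A family of at least `ψ(N)` elements of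
`k(j(q^d) : d ∣ N)` which is linearly independent over `k(j)` spans `k(j(q^d) : d ∣ N)`
over `k(j)`. -/
theorem mem_span_of_linearIndependent (N : ℕ) [NeZero N] (H : HasModPolys k N)
    {ι : Type*} [Fintype ι] (v : ι → LaurentSeries k)
    (hv : ∀ i, v i ∈ modularFunctionFieldFullC k N)
    (hli : LinearIndependent (IntermediateField.adjoin k {jqModC k}) v)
    (hcard : dedekindPsi N ≤ Fintype.card ι)
    {x : LaurentSeries k} (hx : x ∈ modularFunctionFieldFullC k N) :
    x ∈ Submodule.span (IntermediateField.adjoin k {jqModC k}) (Set.range v) := by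
  classical
  have := finiteDimensional_extendScalars N H
  set B := IntermediateField.extendScalars (adjoin_j_le_full (k := k) N) with hB
  let w : ι → B := fun i => ⟨v i, hv i⟩
  have hw : LinearIndependent (IntermediateField.adjoin k {jqModC k}) w := by
    refine LinearIndependent.of_comp (B.val.toLinearMap) ?_
    exact hli
  have hcard' : Fintype.card ι = Module.finrank (IntermediateField.adjoin k {jqModC k}) B :=
    le_antisymm hw.fintype_card_le_finrank ((finrank_extendScalars_le N H).trans hcard)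
  have htop : Submodule.span (IntermediateField.adjoin k {jqModC k}) (Set.range w) = ⊤ :=
    hw.span_eq_top_of_card_eq_finrank' hcard'
  have hxB : (⟨x, hx⟩ : B) ∈ Submodule.span (IntermediateField.adjoin k {jqModC k})
      (Set.range w) := by
    rw [htop]; exact Submodule.mem_top
  have := Submodule.apply_mem_span_image_of_mem_span (B.val.toLinearMap) hxB
  have himg : (B.val.toLinearMap) '' (Set.range w) = Set.range v := by
    ext y
    constructor
    · rintro ⟨_, ⟨i, rfl⟩, rfl⟩
      exact ⟨i, rfl⟩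
    · rintro ⟨i, rfl⟩
      exact ⟨w i, ⟨i, rfl⟩, rfl⟩
  rw [himg] at this
  exact this

end Upper

end Fermat.Agent.S28.H626

end

end
-- ===== PACK-END S28/H626/Upper.lean

-- ===== PACK-BEGIN S28/H807/SAction.lean
section
/-
S28 / helper807 — the action of `S : τ ↦ -1/τ` on the `p+1` conjugates
`{E(τ)} ∪ {G((τ+b)/p) : b < p}`: abstract permutation lemma + the point identities in `ℍ`.
-/



set_option autoImplicit false
set_option maxHeartbeats 400000

noncomputable section

open ModularCurve Polynomial Matrix UpperHalfPlane Complex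
open scoped MatrixGroups

namespace Fermat.Agent.S28.H807

section Perm

variable (p : ℕ) [Fact p.Prime]

/-- `b ↦ -1/b` on nonzero residues, on representatives in `Fin p`. -/
def negInvFin (b : Fin p) : Fin p :=
  ⟨(-((b : ℕ) : ZMod p)⁻¹).val, ZMod.val_lt _⟩

theorem negInvFin_cast (b : Fin p) :
    (((negInvFin p b : Fin p) : ℕ) : ZMod p) = -((b : ℕ) : ZMod p)⁻¹ := by
  simp [negInvFin]

theorem cast_ne_zero_of_ne_zero {b : Fin p} (hb : (b : ℕ) ≠ 0) : (((b : ℕ) : ZMod p)) ≠ 0 := by
  intro h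
  rw [ZMod.natCast_eq_zero_iff] at h
  have := Nat.le_of_dvd (Nat.pos_of_ne_zero hb) h
  exact absurd b.2 (not_lt.mpr this)

theorem negInvFin_ne_zero {b : Fin p} (hb : (b : ℕ) ≠ 0) : ((negInvFin p b : Fin p) : ℕ) ≠ 0 := by
  intro h
  have h1 := negInvFin_cast p b
  rw [h] at h1
  simp only [Nat.cast_zero] at h1
  have h2 : (((b : ℕ) : ZMod p))⁻¹ = 0 := by
    have := h1.symm
    rwa [neg_eq_zero] at this
  rw [inv_eq_zero] at h2
  exact cast_ne_zero_of_ne_zero p hb h2

theorem negInvFin_negInvFin {b : Fin p} (_hb : (b : ℕ) ≠ 0) :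
    negInvFin p (negInvFin p b) = b := by
  apply Fin.ext
  show (-(((negInvFin p b : Fin p) : ℕ) : ZMod p)⁻¹).val = (b : ℕ)
  rw [negInvFin_cast, inv_neg, neg_neg, inv_inv, ZMod.val_natCast_of_lt b.2]

theorem dvd_mul_negInvFin_add_one {b : Fin p} (hb : (b : ℕ) ≠ 0) :
    (p : ℤ) ∣ ((b : ℕ) : ℤ) * (((negInvFin p b : Fin p) : ℕ) : ℤ) + 1 := by
  have h1 : ((((b : ℕ) : ℤ) * (((negInvFin p b : Fin p) : ℕ) : ℤ) + 1 : ℤ) : ZMod p) = 0 := by
    push_cast
    rw [negInvFin_cast, _root_.mul_neg, mul_inv_cancel₀ (cast_ne_zero_of_ne_zero p hb)]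
    ring
  exact (ZMod.intCast_zmod_eq_zero_iff_dvd _ p).mp h1

/-- The permutation of `P¹(𝔽_p) = Option (Fin p)` induced by `S`. -/
def sPermFun : Option (Fin p) → Option (Fin p)
  | none => some ⟨0, (Fact.out : p.Prime).pos⟩
  | some b => if (b : ℕ) = 0 then none else some (negInvFin p b)

theorem sPermFun_involutive : Function.Involutive (sPermFun p) := by
  intro i
  cases i with
  | none => simp [sPermFun]
  | some b =>
    by_cases hb : (b : ℕ) = 0
    · simp only [sPermFun, hb, if_true]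
      congr 1
      exact Fin.ext hb.symm
    · simp only [sPermFun, hb, if_false, negInvFin_ne_zero p hb]
      rw [negInvFin_negInvFin p hb]

/-- **Abstract `S`-invariance**: if the conjugates at `τ'` are obtained from those at `τ` by
the permutation `sPermFun`, the two products agree. -/
theorem prod_conj_eq_of_perm (E E' : ℂ) (G G' : Fin p → ℂ)
    (ha : E' = G ⟨0, (Fact.out : p.Prime).pos⟩)
    (hb : G' ⟨0, (Fact.out : p.Prime).pos⟩ = E)
    (hc : ∀ b : Fin p, (b : ℕ) ≠ 0 → G' b = G (negInvFin p b)) :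
    (X - C E') * ∏ b : Fin p, (X - C (G' b)) = (X - C E) * ∏ b : Fin p, (X - C (G b)) := by
  set f : Option (Fin p) → ℂ := fun i => Option.elim i E G with hf
  set f' : Option (Fin p) → ℂ := fun i => Option.elim i E' G' with hf'
  have h1 : (X - C E) * ∏ b : Fin p, (X - C (G b)) = ∏ i : Option (Fin p), (X - C (f i)) := by
    rw [Fintype.prod_option]; rfl
  have h2 : (X - C E') * ∏ b : Fin p, (X - C (G' b)) = ∏ i : Option (Fin p), (X - C (f' i)) := by
    rw [Fintype.prod_option]; rfl
  have h3 : ∀ i, f' i = f (sPermFun p i) := by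
    intro i
    cases i with
    | none => simp [hf, hf', sPermFun, ha]
    | some b =>
      by_cases hb0 : (b : ℕ) = 0
      · have hb1 : b = ⟨0, (Fact.out : p.Prime).pos⟩ := Fin.ext hb0
        subst hb1
        show G' ⟨0, (Fact.out : p.Prime).pos⟩ = f (sPermFun p (some ⟨0, (Fact.out : p.Prime).pos⟩))
        rw [hb]
        simp [hf, sPermFun]
      · simp [hf, hf', sPermFun, hb0, hc b hb0]
  rw [h1, h2]
  rw [← Equiv.prod_comp ((sPermFun_involutive p).toPerm _) (fun i => (X - C (f i)))]
  apply Finset.prod_congr rfl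
  intro i _
  rw [h3 i]
  rfl

end Perm

section PointIdentities

variable (p : ℕ) [NeZero p]

theorem mulNat_S_smul (τ : ℍ) :
    mulNat p (ModularGroup.S • τ) = ModularGroup.S • divShift p 0 τ := by
  have hp : (p : ℂ) ≠ 0 := by exact_mod_cast NeZero.ne p
  have hτ : (τ : ℂ) ≠ 0 := ne_zero τ
  apply UpperHalfPlane.ext
  rw [modular_S_smul, modular_S_smul]
  simp only [coe_mulNat, coe_divShift, Int.cast_zero, add_zero]
  field_simp

theorem divShift_zero_S_smul (τ : ℍ) :
    divShift p 0 (ModularGroup.S • τ) = ModularGroup.S • mulNat p τ := by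
  have hp : (p : ℂ) ≠ 0 := by exact_mod_cast NeZero.ne p
  have hτ : (τ : ℂ) ≠ 0 := ne_zero τ
  apply UpperHalfPlane.ext
  rw [modular_S_smul, modular_S_smul]
  simp only [coe_mulNat, coe_divShift, Int.cast_zero, add_zero]
  field_simp

theorem mulNat_divShift (b : ℤ) (τ : ℍ) :
    mulNat p (divShift p b τ) = ModularGroup.T ^ b • τ := by
  have hp : (p : ℂ) ≠ 0 := by exact_mod_cast NeZero.ne p
  apply UpperHalfPlane.ext
  rw [modular_T_zpow_smul]
  simp only [coe_mulNat, coe_divShift, UpperHalfPlane.coe_vadd]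
  field_simp
  push_cast
  ring

/-- The matrix `[[B, -k], [p, -B']]` with `B B' + 1 = p k`. -/
def conjMat (B B' k : ℤ) (h : B * B' + 1 = (p : ℤ) * k) : SL(2, ℤ) :=
  ⟨!![B, -k; (p : ℤ), -B'], by
    rw [Matrix.det_fin_two_of]
    linarith⟩

theorem conjMat_smul (B B' k : ℤ) (h : B * B' + 1 = (p : ℤ) * k) (τ : ℍ) :
    conjMat p B B' k h • divShift p B' τ = divShift p B (ModularGroup.S • τ) := by
  have hp : (p : ℂ) ≠ 0 := by exact_mod_cast NeZero.ne p
  have hτ : (τ : ℂ) ≠ 0 := ne_zero τ
  have hk : (B : ℂ) * (B' : ℂ) + 1 = (p : ℂ) * (k : ℂ) := by exact_mod_cast h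
  apply UpperHalfPlane.ext
  rw [coe_specialLinearGroup_apply, modular_S_smul]
  simp only [coe_divShift, conjMat]
  simp only [Matrix.of_apply, Matrix.cons_val',
    Matrix.cons_val_zero, Matrix.cons_val_one, Matrix.cons_val_fin_one, algebraMap_int_eq,
    eq_intCast, Int.cast_neg, Int.cast_natCast, Complex.ofReal_intCast, Complex.ofReal_neg,
    Complex.ofReal_natCast]
  have hden : (p : ℂ) * (((τ : ℂ) + (B' : ℂ)) / (p : ℂ)) + -(B' : ℂ) = (τ : ℂ) := by
    field_simp; ring
  rw [hden]
  field_simp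
  linear_combination hk

theorem denom_conjMat (B B' k : ℤ) (h : B * B' + 1 = (p : ℤ) * k) (τ : ℍ) :
    denom (conjMat p B B' k h) (divShift p B' τ) = (τ : ℂ) := by
  have hp : (p : ℂ) ≠ 0 := by exact_mod_cast NeZero.ne p
  rw [ModularGroup.denom_apply]
  simp only [coe_divShift, conjMat]
  simp only [Matrix.of_apply, Matrix.cons_val',
    Matrix.cons_val_zero, Matrix.cons_val_one, Matrix.cons_val_fin_one]
  push_cast
  field_simp
  ring

end PointIdentities

end Fermat.Agent.S28.H807

end

end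
-- ===== PACK-END S28/H807/SAction.lean

-- ===== PACK-BEGIN S28/H25/Theta.lean
section





/-!
# [A-θ] The `θ`-identity `(θ j)⁶ = Δ · j⁴ · (j - 1728)³` in `ℤ((q))` (helper25)

Unconditional, in the exact shape of the captain skeleton
(`Fermat.Agent.S28.thetaL`, `Fermat.Agent.S28.deltaL`, Prelude `jqModC`).
-/

set_option autoImplicit false

open UpperHalfPlane hiding I
open ModularCurve HahnSeries

noncomputable section

namespace Fermat.Agent.S28.H25

/-- Bridge B2: `qExpansion 1 Δ = q ∏ (1 - qⁿ)²⁴` (from helper685's eta bridge). -/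
theorem deltaBridge : DeltaBridge := by
  have h1 : Fermat.Agent.S28.H685.HasQExp 1 (fun τ => ModularForm.discriminant τ)
      (PowerSeries.X * Fermat.Agent.S28.H685.dedekindEtaUnitC) :=
    (Fermat.Agent.S28.H685.HasQExp.X.mul
      Fermat.Agent.S28.H685.hasQExp_dedekindEtaUnitC).congr_fun
      (fun τ => (Fermat.Agent.S28.H685.discriminant_eq_etaC τ).symm)
  have h2 : Fermat.Agent.S28.H685.HasQExp 1 (fun τ => ModularForm.discriminant τ)
      (qExpansion 1 ModularForm.discriminant) := by
    intro τ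
    exact ModularForm.hasSum_qExpansion (discForm) one_pos
      one_mem_strictPeriods_SL τ
  exact h2.unique one_pos h1

theorem thetaL_eq_thetaLaurent (R : Type*) [CommRing R] (f : LaurentSeries R) :
    Fermat.Agent.S28.thetaL R f = thetaLaurent R f := rfl

theorem deltaL_int_eq : Fermat.Agent.S28.deltaL ℤ = deltaLaurentInt := by
  have h : dedekindEtaUnit.map (Int.castRingHom ℤ) = dedekindEtaUnit := by
    ext n
    simp
  rw [Fermat.Agent.S28.deltaL, deltaLaurentInt, h]

/-- **[A-θ]** `(θ j)⁶ = Δ · j⁴ · (j - 1728)³` in `ℤ((q))`. -/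
theorem theta_identity :
    (Fermat.Agent.S28.thetaL ℤ (jqModC ℤ)) ^ 6 =
      Fermat.Agent.S28.deltaL ℤ * (jqModC ℤ) ^ 4 * (jqModC ℤ - 1728) ^ 3 := by
  rw [thetaL_eq_thetaLaurent, deltaL_int_eq]
  exact theta_identity_laurent deltaBridge

end Fermat.Agent.S28.H25

end
end
-- ===== PACK-END S28/H25/Theta.lean

-- ===== PACK-BEGIN S18/Mod/H216/Eval.lean
section



/-!
# S18 / MOD (helper216): polynomials in `j` over `A ∩ E` — the evaluation dictionary

`S0 A E = A ∩ E ⊆ Q̄`,  `eRc : S0 ≃+* Rc M A E`,  `resS : S0 →+* κ`,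
`Uev : (S0)[X] →+* intE M A E`, `X ↦ j`, with

* `toOm_Uev` : `toOm (Uev p) = evR (Rc M A E) (jOm M) (p.map eRc)`   (value in `Ω`),
* `redE_Uev` : `redE (Uev p) = evJ (p.map resS)`                      (reduction),
* `redE_Uev_ne_zero_iff` : `redE (Uev p) ≠ 0 ↔ p.map resS ≠ 0`.
-/

set_option autoImplicit false
set_option linter.unusedSectionVars false

noncomputable section

namespace Fermat.Agent.S18.Mod.H216

open ModularCurve AlgebraicCurve HahnSeries Polynomial Fermat.Agent.S18 Fermat.Agent.S18.Mod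

variable (M : ℕ) (A : ValuationSubring Qb) (E : IntermediateField ℚ Qb)

/-- `A ∩ E` as a subring of `Q̄`. -/
abbrev S0 : Subring Qb := A.toSubring ⊓ E.toSubfield.toSubring

theorem Rc_eq_map : Rc M A E = (S0 A E).map (algebraMap Qb (Om M)) := rfl

/-- `A ∩ E ≃ Rc`. -/
def eRc : ↥(S0 A E) ≃+* ↥(Rc M A E) :=
  Subring.equivMapOfInjective (S0 A E) (algebraMap Qb (Om M)) (algebraMap Qb (Om M)).injective

@[simp] theorem coe_eRc (c : ↥(S0 A E)) :
    ((eRc M A E c : ↥(Rc M A E)) : Om M) = algebraMap Qb (Om M) (c : Qb) := rfl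

/-- `A ∩ E → A`. -/
def s0ToA : ↥(S0 A E) →+* ↥A := Subring.inclusion (inf_le_left : S0 A E ≤ A.toSubring)

@[simp] theorem coe_s0ToA (c : ↥(S0 A E)) : ((s0ToA A E c : ↥A) : Qb) = (c : Qb) := rfl

/-- The residue map on `A ∩ E`. -/
def resS : ↥(S0 A E) →+* IsLocalRing.ResidueField ↥A :=
  (IsLocalRing.residue ↥A).comp (s0ToA A E)

/-- Constant series. -/
def cS : ↥(S0 A E) →+* ↥(intE M A E) where
  toFun c := cInt M A E c.2.1 c.2.2
  map_one' := Subtype.ext (by simp [cInt]; rfl)
  map_mul' a b := Subtype.ext (by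
    show HahnSeries.C (⟨(a : Qb) * (b : Qb), _⟩ : ↥A) = HahnSeries.C _ * HahnSeries.C _
    rw [← _root_.map_mul]
    rfl)
  map_zero' := Subtype.ext (by simp [cInt]; rfl)
  map_add' a b := Subtype.ext (by
    show HahnSeries.C (⟨(a : Qb) + (b : Qb), _⟩ : ↥A) = HahnSeries.C _ + HahnSeries.C _
    rw [← _root_.map_add]
    rfl)

theorem toOm_cS (c : ↥(S0 A E)) : toOm M A E (cS M A E c) = algebraMap Qb (Om M) (c : Qb) :=
  toOm_cInt M A E c.2.1 c.2.2

theorem redE_cS (c : ↥(S0 A E)) : redE M A E (cS M A E c) = HahnSeries.C (resS A E c) :=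
  redE_cInt M A E c.2.1 c.2.2

/-- Evaluation at `j` of polynomials over `A ∩ E`, as integral series. -/
def Uev : (↥(S0 A E))[X] →+* ↥(intE M A E) := Polynomial.eval₂RingHom (cS M A E) (jInt M A E)

theorem toOm_Uev (p : (↥(S0 A E))[X]) :
    toOm M A E (Uev M A E p) =
      evR (Rc M A E) (jOm M) (p.map (eRc M A E : ↥(S0 A E) →+* ↥(Rc M A E))) := by
  have h : (toOm M A E).comp (Uev M A E) =
      (evR (Rc M A E) (jOm M)).comp
        (Polynomial.mapRingHom (eRc M A E : ↥(S0 A E) →+* ↥(Rc M A E))) := by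
    apply Polynomial.ringHom_ext
    · intro c
      simp only [RingHom.comp_apply, Uev, Polynomial.coe_eval₂RingHom, Polynomial.eval₂_C,
        Polynomial.coe_mapRingHom, Polynomial.map_C, evR_C]
      rw [toOm_cS]
      rfl
    · simp only [RingHom.comp_apply, Uev, Polynomial.coe_eval₂RingHom, Polynomial.eval₂_X,
        Polynomial.coe_mapRingHom, Polynomial.map_X, evR_X]
      exact toOm_jInt M A E
  exact RingHom.congr_fun h p

theorem redE_Uev (p : (↥(S0 A E))[X]) :
    redE M A E (Uev M A E p) = H516.evJ (p.map (resS A E)) := by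
  have h : (redE M A E).comp (Uev M A E) =
      (Polynomial.eval₂RingHom (HahnSeries.C (Γ := ℤ) (R := IsLocalRing.ResidueField ↥A))
        (jqModC (IsLocalRing.ResidueField ↥A))).comp (Polynomial.mapRingHom (resS A E)) := by
    apply Polynomial.ringHom_ext
    · intro c
      simp only [RingHom.comp_apply, Uev, Polynomial.coe_eval₂RingHom, Polynomial.eval₂_C,
        Polynomial.coe_mapRingHom, Polynomial.map_C]
      exact redE_cS M A E c
    · simp only [RingHom.comp_apply, Uev, Polynomial.coe_eval₂RingHom, Polynomial.eval₂_X,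
        Polynomial.coe_mapRingHom, Polynomial.map_X]
      exact redE_jInt M A E
  exact RingHom.congr_fun h p

theorem redE_Uev_eq_zero_iff (p : (↥(S0 A E))[X]) :
    redE M A E (Uev M A E p) = 0 ↔ p.map (resS A E) = 0 := by
  rw [redE_Uev, H516.evJ_eq_zero_iff]

/-- Every polynomial over `Rc` comes from a polynomial over `A ∩ E`. -/
theorem evR_eq_toOm_Uev (p : (↥(Rc M A E))[X]) :
    evR (Rc M A E) (jOm M) p =
      toOm M A E (Uev M A E (p.map ((eRc M A E).symm : ↥(Rc M A E) →+* ↥(S0 A E)))) := by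
  rw [toOm_Uev, Polynomial.map_map]
  have : ((eRc M A E : ↥(S0 A E) →+* ↥(Rc M A E)).comp
      ((eRc M A E).symm : ↥(Rc M A E) →+* ↥(S0 A E))) = RingHom.id _ := by
    ext c
    simp
  rw [this, Polynomial.map_id]

end Fermat.Agent.S18.Mod.H216

end
end
-- ===== PACK-END S18/Mod/H216/Eval.lean

-- ===== PACK-BEGIN S24/Count/H324Interface.lean
section




/-!
# S24 — COUNT interface, exact frozen shapes (helper324)

The four COUNT interface theorems of `Fermat/Agent/S24/Count.lean` (skeleton of helper984),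
proved in the exact shapes `numOrbits (permOf N g)`, assembled from

* `Fermat.Agent.S20.Comb694` (helper694): index of `Γ₀(N)`, fixed points and orbit counts of
  `S` and `S * T`;
* `Fermat.Agent.S20.CuspCount360` (helper360): orbits of `T`.

The only new ingredient is the bridge between orbits of the cyclic group generated by the
permutation `MulAction.toPerm g` and orbits of the cyclic group generated by `g`.
-/

set_option autoImplicit false

noncomputable section

open ModularCurve MulAction Subgroup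
open scoped MatrixGroups

namespace Fermat.Agent.S24.H324

section Bridge

variable {G X : Type*} [Group G] [MulAction G X]

/-- The orbit relation of `⟨toPerm g⟩ ≤ Perm X` is the orbit relation of `⟨g⟩ ≤ G`. -/
theorem orbitRel_zpowers_toPerm (g : G) :
    orbitRel (zpowers (MulAction.toPerm g : Equiv.Perm X)) X = orbitRel (zpowers g) X := by
  ext x y
  simp only [orbitRel_apply]
  constructor
  · rintro ⟨⟨π, hπ⟩, rfl⟩
    obtain ⟨k, rfl⟩ := Subgroup.mem_zpowers_iff.mp hπ
    refine ⟨⟨g ^ k, zpow_mem_zpowers g k⟩, ?_⟩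
    have h : (MulAction.toPerm g : Equiv.Perm X) ^ k = MulAction.toPerm (g ^ k) :=
      (map_zpow (MulAction.toPermHom G X) g k).symm
    change g ^ k • y = ((MulAction.toPerm g : Equiv.Perm X) ^ k) y
    rw [h]
    rfl
  · rintro ⟨⟨h, hh⟩, rfl⟩
    obtain ⟨k, rfl⟩ := Subgroup.mem_zpowers_iff.mp hh
    refine ⟨⟨(MulAction.toPerm g : Equiv.Perm X) ^ k, zpow_mem_zpowers _ k⟩, ?_⟩
    have h : (MulAction.toPerm g : Equiv.Perm X) ^ k = MulAction.toPerm (g ^ k) :=
      (map_zpow (MulAction.toPermHom G X) g k).symm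
    change ((MulAction.toPerm g : Equiv.Perm X) ^ k) y = g ^ k • y
    rw [h]
    rfl

/-- `numOrbits (toPerm g)` is the number of orbits of the cyclic group generated by `g`. -/
theorem numOrbits_toPerm (g : G) :
    numOrbits (MulAction.toPerm g : Equiv.Perm X)
      = Nat.card (orbitRel.Quotient (zpowers g) X) := by
  unfold numOrbits
  refine Nat.card_congr (Quotient.congr (Equiv.refl X) ?_)
  intro x y
  have h := orbitRel_zpowers_toPerm (X := X) g
  exact iff_of_eq (congrArg (fun s : Setoid X => s x y) h)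

/-- `numOrbits` only depends on the cyclic group generated by the permutation. -/
theorem numOrbits_congr_zpowers {π π' : Equiv.Perm X} (h : zpowers π = zpowers π') :
    numOrbits π = numOrbits π' := by
  unfold numOrbits
  rw [h]

/-- A permutation and its inverse have the same number of orbits. -/
theorem numOrbits_inv (π : Equiv.Perm X) : numOrbits π⁻¹ = numOrbits π :=
  numOrbits_congr_zpowers zpowers_inv

/-- `g⁻¹` and `g` have the same number of orbits. -/
theorem numOrbits_toPerm_inv (g : G) :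
    numOrbits (MulAction.toPerm g⁻¹ : Equiv.Perm X)
      = numOrbits (MulAction.toPerm g : Equiv.Perm X) := by
  have h : (MulAction.toPerm g⁻¹ : Equiv.Perm X) = (MulAction.toPerm g : Equiv.Perm X)⁻¹ :=
    map_inv (MulAction.toPermHom G X) g
  rw [h, numOrbits_inv]

/-- Conjugate elements have the same number of orbits. -/
theorem numOrbits_toPerm_conj (g h : G) :
    numOrbits (MulAction.toPerm (h * g * h⁻¹) : Equiv.Perm X)
      = numOrbits (MulAction.toPerm g : Equiv.Perm X) := by
  rw [numOrbits_toPerm, numOrbits_toPerm]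
  refine Nat.card_congr (Quotient.congr (MulAction.toPerm h⁻¹) ?_)
  intro x y
  change x ∈ MulAction.orbit (zpowers (h * g * h⁻¹)) y ↔
    (h⁻¹ • x) ∈ MulAction.orbit (zpowers g) (h⁻¹ • y)
  constructor
  · rintro ⟨⟨u, hu⟩, rfl⟩
    obtain ⟨k, rfl⟩ := Subgroup.mem_zpowers_iff.mp hu
    refine ⟨⟨g ^ k, zpow_mem_zpowers g k⟩, ?_⟩
    change g ^ k • h⁻¹ • y = h⁻¹ • ((h * g * h⁻¹) ^ k • y)
    have : (h * g * h⁻¹) ^ k = h * g ^ k * h⁻¹ := by
      rw [← conj_zpow]
    rw [this, smul_smul, smul_smul]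
    congr 1
    group
  · rintro ⟨⟨u, hu⟩, hxy⟩
    obtain ⟨k, rfl⟩ := Subgroup.mem_zpowers_iff.mp hu
    refine ⟨⟨(h * g * h⁻¹) ^ k, zpow_mem_zpowers _ k⟩, ?_⟩
    change (h * g * h⁻¹) ^ k • y = x
    have hxy' : g ^ k • h⁻¹ • y = h⁻¹ • x := hxy
    have : (h * g * h⁻¹) ^ k = h * g ^ k * h⁻¹ := by
      rw [← conj_zpow]
    rw [this, mul_smul, mul_smul, hxy', smul_inv_smul]

end Bridge

variable (N : ℕ)

theorem numOrbits_permOf (g : SL(2, ℤ)) :
    numOrbits (permOf N g)
      = Nat.card (orbitRel.Quotient (zpowers g) (SL(2, ℤ) ⧸ CongruenceSubgroup.Gamma0 N)) :=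
  numOrbits_toPerm g

theorem card_XX : Nat.card (XX N) = dedekindPsi N :=
  Fermat.Agent.S20.Comb694.card_quotient_Gamma0 N

theorem numOrbits_permOf_inv (g : SL(2, ℤ)) :
    numOrbits (permOf N g⁻¹) = numOrbits (permOf N g) :=
  numOrbits_toPerm_inv g

theorem numOrbits_permOf_conj (g h : SL(2, ℤ)) :
    numOrbits (permOf N (h * g * h⁻¹)) = numOrbits (permOf N g) :=
  numOrbits_toPerm_conj g h

variable [NeZero N]

theorem two_mul_numOrbits_S :
    2 * numOrbits (permOf N ModularGroup.S) = dedekindPsi N + nuTwo N := by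
  rw [numOrbits_permOf]
  exact Fermat.Agent.S20.Comb694.two_mul_card_orbits_S N

theorem three_mul_numOrbits_ST :
    3 * numOrbits (permOf N (ModularGroup.S * ModularGroup.T))
      = dedekindPsi N + 2 * nuThree N := by
  rw [numOrbits_permOf]
  exact Fermat.Agent.S20.Comb694.three_mul_card_orbits_ST N

theorem numOrbits_T : numOrbits (permOf N ModularGroup.T) = cuspCount N := by
  rw [numOrbits_permOf]
  exact Fermat.Agent.S20.CuspCount360.card_orbits_T N

end Fermat.Agent.S24.H324

end
end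
-- ===== PACK-END S24/Count/H324Interface.lean

-- ===== PACK-BEGIN S18/H107/T2Model.lean
section






/-!
# helper107 — S18 / M3-T : the good model for the coordinate `t₂` (case `ℓ = 3`)

`goodModel_t2_107` : from the `j`-model WITHOUT branch-set fields (`BaseModel107 … j`, true for
every `ℓ ∤ M`), the branch data of the `j`-line in characteristic `0` (`BranchJ107`), the identity
`j t² = (t + 256)³`, `2⁻¹ ∈ R`, `t ∈ Fc ∩ V` and the Gauss property of `t`, we get the frozen
`Alg.GoodModel Lc Ec Fc R V w t S` with `S = {0, -64}`.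
-/

set_option autoImplicit false

namespace Fermat.Agent.S18.H107

open Polynomial Fermat.Agent.S18.Alg

variable {Ω : Type*} [Field Ω]

theorem ne_zero_of_transcendental107 {Lc : Subfield Ω} {j : Ω} (h : Transcendental Lc j) :
    j ≠ 0 := by
  rintro rfl
  exact h isAlgebraic_zero

/-- `gauss` applied to `X + C a`. -/
theorem gauss_X_add_C107 {R V : Subring Ω} {t : Ω}
    (hgauss : ∀ P : Polynomial Ω, (∀ i, P.coeff i ∈ R) →
      (∃ i, P.coeff i ≠ 0 ∧ (P.coeff i)⁻¹ ∈ R) → (P.eval t)⁻¹ ∈ V)
    {a : Ω} (ha : a ∈ R) : (t + a)⁻¹ ∈ V := by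
  have := hgauss (X + C a) (fun i => ?_) ⟨1, ?_, ?_⟩
  · simpa using this
  · rw [coeff_add, coeff_X, coeff_C]
    split_ifs
    · exact R.add_mem R.one_mem ha
    · exact R.add_mem R.one_mem R.zero_mem
    · exact R.add_mem R.zero_mem ha
    · exact R.add_mem R.zero_mem R.zero_mem
  · simp [coeff_X]
  · simp [coeff_X, R.one_mem]

theorem gauss_X107 {R V : Subring Ω} {t : Ω}
    (hgauss : ∀ P : Polynomial Ω, (∀ i, P.coeff i ∈ R) →
      (∃ i, P.coeff i ≠ 0 ∧ (P.coeff i)⁻¹ ∈ R) → (P.eval t)⁻¹ ∈ V) : t⁻¹ ∈ V := by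
  have := gauss_X_add_C107 hgauss R.zero_mem
  rwa [add_zero] at this

theorem goodModel_t2_107 {Lc Ec Fc : Subfield Ω} {R V : Subring Ω} {w j t : Ω} {S : Finset Ω}
    (hb : BaseModel107 Lc Ec Fc R V w j) (hB : BranchJ107 Lc j)
    (hrel : j * t ^ 2 = (t + 256) ^ 3) (htF : t ∈ Fc) (htV : t ∈ V) (h2 : (2 : Ω)⁻¹ ∈ R)
    (hgauss : ∀ P : Polynomial Ω, (∀ i, P.coeff i ∈ R) →
      (∃ i, P.coeff i ≠ 0 ∧ (P.coeff i)⁻¹ ∈ R) → (P.eval t)⁻¹ ∈ V)
    (hS : ∀ s, s ∈ S ↔ s = 0 ∨ s = -64) :
    GoodModel Lc Ec Fc R V w t S := by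
  have := hb.charZero
  have hj0 : j ≠ 0 := ne_zero_of_transcendental107 hb.x_transcendental
  have hH : HauptT2107 Fc R V j t :=
    { rel := hrel
      two_inv := h2
      two_ne := two_ne_zero
      j_ne := hj0
      t_mem_Fc := htF
      t_mem_V := htV
      t256_inv_mem_V := gauss_X_add_C107 hgauss (ofNat_mem R 256) }
  have ht0 : t ≠ 0 := hH.t_ne
  have hwF : w ∈ Fc := hb.E_le_F (hb.R_le hb.w_mem)
  have htinvV : t⁻¹ ∈ V := gauss_X107 hgauss
  have h64 : (64 : Ω)⁻¹ ∈ R := by
    have := R.pow_mem h2 6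
    have e : ((2 : Ω)⁻¹) ^ 6 = (64 : Ω)⁻¹ := by norm_num
    rwa [e] at this
  -- `j ∈ Ec(t)`
  have hjrat : j ∈ ratField Ec t := by
    have e : j = (t + 256) ^ 3 * (t ^ 2)⁻¹ := by
      field_simp
      linear_combination hrel
    rw [e]
    have ht := self_mem_ratField107 Ec t
    exact mul_mem (pow_mem (add_mem ht (ofNat_mem _ 256)) 3) (inv_mem (pow_mem ht 2))
  -- transcendence of `t`
  have htr : Transcendental Lc t := by
    intro halg
    apply hb.x_transcendental
    have e : j = (t + 256) ^ 3 * (t ^ 2)⁻¹ := by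
      field_simp
      linear_combination hrel
    rw [e]
    have h256 : IsAlgebraic Lc (256 : Ω) := by
      have : (256 : Ω) = algebraMap Lc Ω (256 : Lc) := by
        rw [_root_.map_ofNat]
      rw [this]
      exact isAlgebraic_algebraMap _
    exact ((halg.add h256).pow 3).mul (halg.pow 2).inv
  refine (show BaseModel107 Lc Ec Fc R V w t from
    { charZero := hb.charZero
      R_le := hb.R_le
      R_total := hb.R_total
      w_mem := hb.w_mem
      w_ne_zero := hb.w_ne_zero
      w_inv_not_mem := hb.w_inv_not_mem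
      w_gen := hb.w_gen
      w_discrete := hb.w_discrete
      residue_perfect := hb.residue_perfect
      E_le_L := hb.E_le_L
      E_le_F := hb.E_le_F
      L_algebraic := hb.L_algebraic
      L_algClosed := hb.L_algClosed
      E_closed_in_F := hb.E_closed_in_F
      compositum := hb.compositum
      x_mem := htF
      x_transcendental := htr
      finite := finite_transfer107 hjrat hb.finite
      V_le := hb.V_le
      V_total := hb.V_total
      R_le_V := hb.R_le_V
      w_inv_not_mem_V := hb.w_inv_not_mem_V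
      V_gen := hb.V_gen
      x_mem_V := htV
      gauss := hgauss
      qep_fin := hH.qep_fin hwF hb.qep_fin hb.qep_inf
      qep_inf := hH.qep_inf hwF hb.qep_fin hb.qep_inf
      separable := separable_transfer107 (e := t ^ 2)
        (Subring.pow_mem _ (self_mem_polyRing107 R t) 2)
        (by
          rw [hrel]
          exact Subring.pow_mem _
            (Subring.add_mem _ (self_mem_polyRing107 R t) (ofNat_mem _ 256)) 3)
        (V.pow_mem htV 2) (by rw [← inv_pow]; exact V.pow_mem htinvV 2) (pow_ne_zero _ ht0)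
        hb.separable }).toGoodModel S ?_ ?_ ?_ ?_
  · intro s hs
    rcases (hS s).1 hs with rfl | rfl
    · exact R.zero_mem
    · exact R.neg_mem (ofNat_mem R 64)
  · intro s hs s' hs' hne
    rcases (hS s).1 hs with rfl | rfl <;> rcases (hS s').1 hs' with rfl | rfl
    · exact absurd rfl hne
    · have e : ((0 : Ω) - -64)⁻¹ = (64 : Ω)⁻¹ := by norm_num
      rw [e]
      exact h64
    · have e : ((-64 : Ω) - 0)⁻¹ = -(64 : Ω)⁻¹ := by
        rw [sub_zero, inv_neg]
      rw [e]
      exact R.neg_mem h64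
    · exact absurd rfl hne
  · intro s hs hs0
    rcases (hS s).1 hs with rfl | rfl
    · exact absurd rfl hs0
    · rw [inv_neg]
      exact R.neg_mem h64
  · intro O hL c hc hcS hz hz'
    have hc0 : c ≠ 0 := fun h => hcS ((hS c).2 (Or.inl h))
    have hc64 : c ≠ -64 := fun h => hcS ((hS c).2 (Or.inr h))
    exact unramified_t2_107 Lc j t hrel hB O hL c hc hc64 hc0 hz hz'

end Fermat.Agent.S18.H107

end
-- ===== PACK-END S18/H107/T2Model.lean

-- ===== PACK-BEGIN S18/B12/H444/GenericDiscrSpec.lean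
section




/-!
# S18 / b2.5 / A5 (helper444): `GenericDiscrStatement` in the exact frozen shape

`theorem genericDiscr : GenericDiscrStatement` (frozen in `B12/Spec2.lean`, squad-lead helper33),
from `genericDiscr_abs` (`GenericDiscr.lean`) with `Λ := Localization.Away w`,
`C₀ := Localization (algebraMapSubmonoid B (powers w))` and helper274's tame discriminant bound
(`H274.tameDiscr`, on main).
-/

set_option autoImplicit false

noncomputable section

namespace Fermat.Agent.S18.B12.H444

open Polynomial Module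

universe u v

/-- A commutative ring in which all positive integers are units is a `ℚ`-algebra. -/
def ratAlgebraOfUnits (Λ : Type u) [CommRing Λ] (h : ∀ m : ℕ, m ≠ 0 → IsUnit ((m : ℕ) : Λ)) :
    Algebra ℚ Λ :=
  RingHom.toAlgebra
    (IsLocalization.lift (M := nonZeroDivisors ℤ) (S := ℚ) (g := Int.castRingHom Λ)
      (fun y => by
        have hy : (y : ℤ) ≠ 0 := nonZeroDivisors.coe_ne_zero y
        have hn : (y : ℤ).natAbs ≠ 0 := Int.natAbs_ne_zero.mpr hy
        have hu := h _ hn
        rcases Int.natAbs_eq (y : ℤ) with h1 | h1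
        · have : Int.castRingHom Λ (y : ℤ) = (((y : ℤ).natAbs : ℕ) : Λ) := by
            conv_lhs => rw [h1]
            simp
          rw [this]; exact hu
        · have : Int.castRingHom Λ (y : ℤ) = -(((y : ℤ).natAbs : ℕ) : Λ) := by
            conv_lhs => rw [h1]
            simp
          rw [this]; exact hu.neg))

theorem not_dvd_of_not_associated {P : Type u} [CommRing P] [IsDomain P] {π w : P}
    (hπ : Prime π) (hw : Prime w) (h : ¬ Associated π w) : ¬ π ∣ w := by
  rintro ⟨c, hc⟩
  rcases hw.irreducible.isUnit_or_isUnit hc with h1 | h1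
  · exact hπ.not_isUnit h1
  · exact h ⟨h1.unit, by simp [hc]⟩

/-- **A5** in the exact frozen shape of `B12/Spec2.lean`. -/
theorem genericDiscr : GenericDiscrStatement.{u, v} := by
  intro P _ _ _ _ w hw hPID hunits B _ _ _ _ _ _ π hπ hπw n x hx r y hy
  obtain ⟨hli, g, hgπ, hg⟩ := hx
  have hw0 : w ≠ 0 := hw.ne_zero
  let Λ := Localization.Away w
  let C₀ := Localization (Algebra.algebraMapSubmonoid B (Submonoid.powers w))
  letI : Algebra Λ C₀ := localizationAlgebra (Submonoid.powers w) B
  haveI : IsScalarTower P Λ C₀ := IsScalarTower.of_algebraMap_eq'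
    (by rw [RingHom.algebraMap_toAlgebra, IsLocalization.map_comp, ← IsScalarTower.algebraMap_eq])
  haveI : IsDomain Λ := IsLocalization.isDomain_localization (powers_le_nonZeroDivisors' w hw0)
  haveI : IsPrincipalIdealRing Λ := hPID
  letI : Algebra ℚ Λ := ratAlgebraOfUnits Λ (fun m hm => by
    have := hunits m hm
    rwa [_root_.map_natCast] at this)
  unfold intDiscr
  exact genericDiscr_abs B w hw0 Λ C₀ π hπ (not_dvd_of_not_associated hπ hw hπw) n x hli g
    (fun h => hgπ (Ideal.mem_span_singleton.mpr h)) hg r y hy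

end Fermat.Agent.S18.B12.H444

end
end
-- ===== PACK-END S18/B12/H444/GenericDiscrSpec.lean

-- ===== PACK-BEGIN Lib/RR/H383/Fundamental.lean
section



/-!
# RR library (helper383): the fundamental equality `deg (x)₀ = deg (x)_∞ = [F : K(x)]`,
# in any characteristic

`K` algebraically closed, `F / K` finite over `K(x)` for one transcendental `x`.
Following Stichtenoth, *Algebraic function fields and codes*, Thm 1.4.11 (no separability):

* `eq_algebraMap_of_forall_ord_nonneg` : a function without poles is constant;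
* `finite_and_ell_le` : `L(D)` is finite-dimensional and `ℓ(D) ≤ deg D + 1` for `D ≥ 0`;
* `finite_setOf_ord_neg`, `finite_setOf_ord_pos`, `finite_setOf_ord_ne_zero`;
* `sum_neg_ord_eq_finrank`, `sum_ord_eq_finrank` : the fundamental equality;
* `hasPrincipalDivisors_of_finite` : `HasPrincipalDivisors K F`.
-/

set_option autoImplicit false

noncomputable section

open AlgebraicCurve Polynomial IntermediateField

namespace Fermat.Agent.Lib.RR.H383

open Fermat.Agent.Lib.RR

variable {K F : Type*} [Field K] [Field F] [Algebra K F]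

/-- `F` is finite over `K(y)` for every transcendental `y` as soon as it is for one. -/
theorem finite_of_finite {x : F} (hx : Transcendental K x) [FiniteDimensional K⟮x⟯ F] :
    ∀ y : F, Transcendental K y → FiniteDimensional K⟮y⟯ F := fun _ hy =>
  Fermat.Agent.S24.FF.finiteDimensional_adjoin_of_transcendental hx hy

section AlgClosed

variable [IsAlgClosed K]

/-- All places have degree one. -/
theorem deg_eq_one_of_finite {x : F} (hx : Transcendental K x) [FiniteDimensional K⟮x⟯ F]
    (v : Place K F) : v.deg = 1 :=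
  Fermat.Agent.S24.FF.deg_eq_one v hx

/-- A function without poles is constant. -/
theorem eq_algebraMap_of_forall_ord_nonneg
    (hfin : ∀ y : F, Transcendental K y → FiniteDimensional K⟮y⟯ F) {f : F}
    (hf : ∀ v : Place K F, 0 ≤ v.ord f) : f ∈ (algebraMap K F).range := by
  by_contra hcon
  have ht : Transcendental K f := Fermat.Agent.S24.FF.transcendental_of_not_mem_range hcon
  obtain ⟨v, hv⟩ := exists_place_ord_neg hfin ht
  have := hf v
  omega

/-- `L(0) = K`. -/
theorem L_zero_eq (hfin : ∀ y : F, Transcendental K y → FiniteDimensional K⟮y⟯ F) :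
    riemannRochSpace (0 : Divisor K F) = LinearMap.range (Algebra.linearMap K F) := by
  ext f
  rw [mem_L_iff]
  constructor
  · intro h
    have hf : ∀ v : Place K F, 0 ≤ v.ord f := by
      intro v
      rcases h v with h0 | h0
      · rw [h0]; simp
      · simpa using h0
    obtain ⟨c, hc⟩ := eq_algebraMap_of_forall_ord_nonneg hfin hf
    exact ⟨c, hc⟩
  · rintro ⟨c, rfl⟩ v
    right
    rw [Algebra.linearMap_apply, ord_algebraMap]
    simp

theorem finite_L_zero (hfin : ∀ y : F, Transcendental K y → FiniteDimensional K⟮y⟯ F) :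
    Module.Finite K (riemannRochSpace (0 : Divisor K F)) := by
  rw [L_zero_eq hfin]
  exact LinearMap.finiteDimensional_range _

theorem ell_zero_le (hfin : ∀ y : F, Transcendental K y → FiniteDimensional K⟮y⟯ F) :
    ell (0 : Divisor K F) ≤ 1 := by
  unfold ell
  rw [L_zero_eq hfin]
  calc Module.finrank K (LinearMap.range (Algebra.linearMap K F))
      ≤ Module.finrank K K := LinearMap.finrank_range_le _
    _ = 1 := Module.finrank_self K

/-- `ℓ(D) ≤ deg D + 1` for effective `D`. -/
theorem finite_and_ell_le (hfin : ∀ y : F, Transcendental K y → FiniteDimensional K⟮y⟯ F)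
    (hdeg : ∀ v : Place K F, v.deg = 1) :
    ∀ (m : ℕ) (D : Divisor K F), 0 ≤ D → Divisor.degree D = m →
      Module.Finite K (riemannRochSpace D) ∧ ell D ≤ m + 1 := by
  classical
  intro m
  induction m with
  | zero =>
    intro D hD hm
    have hD0 : D = 0 := by
      by_contra hne
      obtain ⟨v, hv⟩ := Finsupp.support_nonempty_iff.mpr hne
      have hDv : D v ≠ 0 := Finsupp.mem_support_iff.mp hv
      have hDv' : 0 < D v := lt_of_le_of_ne (by simpa using Finsupp.le_def.mp hD v) (Ne.symm hDv)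
      have h1 : prim v ≤ D := by
        rw [Finsupp.le_def]
        intro w
        by_cases hw : w = v
        · subst hw; simp only [prim_apply_self]; omega
        · rw [prim_apply_of_ne hw]; simpa using Finsupp.le_def.mp hD w
      have h2 := _root_.Fermat.Agent.Lib.RR.degree_mono h1
      rw [degree_prim v (hdeg v), hm] at h2
      simp at h2
    subst hD0
    exact ⟨finite_L_zero hfin, by simpa using ell_zero_le hfin⟩
  | succ m ih =>
    intro D hD hm
    have hne : D ≠ 0 := by
      rintro rfl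
      simp at hm
      omega
    obtain ⟨v, hv⟩ := Finsupp.support_nonempty_iff.mpr hne
    have hDv : D v ≠ 0 := Finsupp.mem_support_iff.mp hv
    have hDv' : 0 < D v := lt_of_le_of_ne (by simpa using Finsupp.le_def.mp hD v) (Ne.symm hDv)
    set D' : Divisor K F := D - prim v with hD'
    have hD'0 : 0 ≤ D' := by
      rw [Finsupp.le_def]
      intro w
      by_cases hw : w = v
      · subst hw
        simp only [hD', Finsupp.coe_sub, Pi.sub_apply, prim_apply_self, Finsupp.coe_zero,
          Pi.zero_apply]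
        omega
      · simp only [hD', Finsupp.coe_sub, Pi.sub_apply, prim_apply_of_ne hw, Finsupp.coe_zero,
          Pi.zero_apply, sub_zero]
        simpa using Finsupp.le_def.mp hD w
    have hm' : Divisor.degree D' = m := by
      rw [hD', _root_.map_sub, degree_prim v (hdeg v), hm]
      push_cast
      ring
    obtain ⟨h1, h2⟩ := ih D' hD'0 hm'
    have key := L_add_prim_finite v (hdeg v) D'
    have hDD : D' + prim v = D := by rw [hD']; abel
    rw [hDD] at key
    exact ⟨key.1, key.2.trans (by omega)⟩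

theorem finite_L_of_nonneg (hfin : ∀ y : F, Transcendental K y → FiniteDimensional K⟮y⟯ F)
    (hdeg : ∀ v : Place K F, v.deg = 1) {D : Divisor K F} (hD : 0 ≤ D) :
    Module.Finite K (riemannRochSpace D) :=
  (_root_.Fermat.Agent.Lib.RR.H383.finite_and_ell_le hfin hdeg (Divisor.degree D).toNat D hD
    (Int.toNat_of_nonneg (degree_nonneg hD)).symm).1

theorem ell_le_of_nonneg (hfin : ∀ y : F, Transcendental K y → FiniteDimensional K⟮y⟯ F)
    (hdeg : ∀ v : Place K F, v.deg = 1) {D : Divisor K F} (hD : 0 ≤ D) :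
    (ell D : ℤ) ≤ Divisor.degree D + 1 := by
  have := (_root_.Fermat.Agent.Lib.RR.H383.finite_and_ell_le hfin hdeg (Divisor.degree D).toNat D hD
    (Int.toNat_of_nonneg (degree_nonneg hD)).symm).2
  have h2 := Int.toNat_of_nonneg (degree_nonneg hD)
  omega

end AlgClosed

/-! ### Finiteness of zeros and poles -/

theorem finite_setOf_ord_pos' (hdeg : ∀ v : Place K F, v.deg = 1) (x : F)
    [FiniteDimensional K⟮x⟯ F] : {v : Place K F | 0 < v.ord x}.Finite := by
  classical
  by_contra hinf
  obtain ⟨t, hts, htc⟩ :=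
    (Set.not_finite.mp hinf).exists_subset_card_eq (Module.finrank K⟮x⟯ F + 1)
  have h1 := sum_ord_le_finrank hdeg x t (fun v hv => hts hv)
  have h2 : (t.card : ℤ) ≤ ∑ v ∈ t, v.ord x := by
    have : ∑ _v ∈ t, (1 : ℤ) ≤ ∑ v ∈ t, v.ord x :=
      Finset.sum_le_sum fun v hv => by
        have : 0 < v.ord x := hts hv
        omega
    simpa using this
  rw [htc] at h2
  push_cast at h2
  omega

theorem finite_setOf_ord_neg' (hdeg : ∀ v : Place K F, v.deg = 1) (x : F)
    [FiniteDimensional K⟮x⟯ F] : {v : Place K F | v.ord x < 0}.Finite := by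
  have h : FiniteDimensional K⟮x⁻¹⟯ F := by
    rw [← adjoin_inv_eq x]
    infer_instance
  refine (finite_setOf_ord_pos' hdeg x⁻¹).subset ?_
  intro v hv
  have hv' : v.ord x < 0 := hv
  show 0 < v.ord x⁻¹
  rw [v.ord_inv]
  omega

section AlgClosed

variable [IsAlgClosed K]

theorem finite_setOf_ord_neg (hfin : ∀ y : F, Transcendental K y → FiniteDimensional K⟮y⟯ F)
    (hdeg : ∀ v : Place K F, v.deg = 1) (f : F) : {v : Place K F | v.ord f < 0}.Finite := by
  by_cases hf : f ∈ (algebraMap K F).range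
  · obtain ⟨c, rfl⟩ := hf
    convert Set.finite_empty (α := Place K F)
    ext v
    simp [ord_algebraMap]
  · have ht : Transcendental K f := Fermat.Agent.S24.FF.transcendental_of_not_mem_range hf
    have := hfin f ht
    exact finite_setOf_ord_neg' hdeg f

theorem finite_setOf_ord_pos (hfin : ∀ y : F, Transcendental K y → FiniteDimensional K⟮y⟯ F)
    (hdeg : ∀ v : Place K F, v.deg = 1) (f : F) : {v : Place K F | 0 < v.ord f}.Finite := by
  refine (finite_setOf_ord_neg hfin hdeg f⁻¹).subset ?_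
  intro v hv
  have hv' : 0 < v.ord f := hv
  show v.ord f⁻¹ < 0
  rw [v.ord_inv]
  omega

theorem finite_setOf_ord_ne_zero (hfin : ∀ y : F, Transcendental K y → FiniteDimensional K⟮y⟯ F)
    (hdeg : ∀ v : Place K F, v.deg = 1) (f : F) : {v : Place K F | v.ord f ≠ 0}.Finite := by
  refine ((finite_setOf_ord_pos hfin hdeg f).union (finite_setOf_ord_neg hfin hdeg f)).subset ?_
  intro v hv
  have hv' : v.ord f ≠ 0 := hv
  rcases lt_or_gt_of_ne hv' with h | h
  · exact Or.inr h
  · exact Or.inl h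

/-- The pole divisor `(f)_∞`. -/
def poleDiv (hfin : ∀ y : F, Transcendental K y → FiniteDimensional K⟮y⟯ F)
    (hdeg : ∀ v : Place K F, v.deg = 1) (f : F) : Divisor K F :=
  Finsupp.ofSupportFinite (fun v => max (-v.ord f) 0) <| by
    refine (finite_setOf_ord_neg hfin hdeg f).subset ?_
    intro v hv
    have hv' : max (-v.ord f) 0 ≠ 0 := hv
    show v.ord f < 0
    by_contra h
    apply hv'
    rw [max_eq_right]
    omega

theorem poleDiv_apply (hfin : ∀ y : F, Transcendental K y → FiniteDimensional K⟮y⟯ F)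
    (hdeg : ∀ v : Place K F, v.deg = 1) (f : F) (v : Place K F) :
    poleDiv hfin hdeg f v = max (-v.ord f) 0 := rfl

theorem poleDiv_nonneg (hfin : ∀ y : F, Transcendental K y → FiniteDimensional K⟮y⟯ F)
    (hdeg : ∀ v : Place K F, v.deg = 1) (f : F) : 0 ≤ poleDiv hfin hdeg f := by
  rw [Finsupp.le_def]
  intro v
  rw [poleDiv_apply]
  simp

theorem poleDiv_support (hfin : ∀ y : F, Transcendental K y → FiniteDimensional K⟮y⟯ F)
    (hdeg : ∀ v : Place K F, v.deg = 1) (f : F) (S : Finset (Place K F))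
    (hS : ∀ v, v ∈ S ↔ v.ord f < 0) : (poleDiv hfin hdeg f).support = S := by
  ext v
  rw [Finsupp.mem_support_iff, poleDiv_apply, hS]
  constructor
  · intro h
    by_contra hcon
    apply h
    rw [max_eq_right]
    omega
  · intro h h0
    have := le_max_left (-v.ord f) 0
    omega

theorem degree_poleDiv (hfin : ∀ y : F, Transcendental K y → FiniteDimensional K⟮y⟯ F)
    (hdeg : ∀ v : Place K F, v.deg = 1) (f : F) (S : Finset (Place K F))
    (hS : ∀ v, v ∈ S ↔ v.ord f < 0) :
    Divisor.degree (poleDiv hfin hdeg f) = ∑ v ∈ S, -v.ord f := by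
  rw [degree_eq_sum, poleDiv_support hfin hdeg f S hS]
  refine Finset.sum_congr rfl fun v hv => ?_
  have hv' : v.ord f < 0 := (hS v).mp hv
  rw [poleDiv_apply, hdeg v, max_eq_left (by omega)]
  simp

omit [IsAlgClosed K] in
omit [IsAlgClosed K] in
/-- Powers of a transcendental element are linearly independent. -/
theorem linearIndependent_pow_of_transcendental {x : F} (hx : Transcendental K x) :
    LinearIndependent K (fun i : ℕ => x ^ i) := by
  have h1 := (Polynomial.basisMonomials K).linearIndependent.map' (aeval x).toLinearMap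
    (LinearMap.ker_eq_bot.mpr (transcendental_iff_injective.mp hx))
  have h2 : (⇑(aeval x).toLinearMap ∘ ⇑(Polynomial.basisMonomials K)) = fun i : ℕ => x ^ i := by
    funext i
    simp [Polynomial.coe_basisMonomials]
  rwa [h2] at h1

/-- **Stichtenoth 1.4.11, lower bound**: `[F : K(x)] ≤ deg (x)_∞`. -/
theorem finrank_le_degree_poleDiv
    (hfin : ∀ y : F, Transcendental K y → FiniteDimensional K⟮y⟯ F)
    (hdeg : ∀ v : Place K F, v.deg = 1) {x : F} (hx : Transcendental K x)
    [FiniteDimensional K⟮x⟯ F] :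
    (Module.finrank K⟮x⟯ F : ℤ) ≤ Divisor.degree (poleDiv hfin hdeg x) := by
  classical
  set n := Module.finrank K⟮x⟯ F with hn
  let b := Module.finBasis K⟮x⟯ F
  set B := poleDiv hfin hdeg x with hB
  let C : Divisor K F := ∑ j : Fin n, poleDiv hfin hdeg (b j)
  have hC0 : 0 ≤ C := Finset.sum_nonneg fun j _ => poleDiv_nonneg hfin hdeg (b j)
  have hCv : ∀ (j : Fin n) (v : Place K F), -C v ≤ v.ord (b j) := by
    intro j v
    have h1 : poleDiv hfin hdeg (b j) ≤ C :=
      Finset.single_le_sum (f := fun i => poleDiv hfin hdeg (b i))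
        (fun i _ => poleDiv_nonneg hfin hdeg (b i)) (Finset.mem_univ j)
    have h2 := Finsupp.le_def.mp h1 v
    rw [poleDiv_apply] at h2
    have := le_max_left (-v.ord (b j)) 0
    omega
  have hx0 : x ≠ 0 := fun h => hx (h ▸ isAlgebraic_zero)
  have key : ∀ l : ℕ, ((l : ℤ) + 1) * n ≤ l * Divisor.degree B + Divisor.degree C + 1 := by
    intro l
    set D : Divisor K F := l • B + C with hD
    have hD0 : 0 ≤ D := add_nonneg (nsmul_nonneg (poleDiv_nonneg hfin hdeg x) l) hC0
    have hfinD := finite_L_of_nonneg hfin hdeg hD0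
    have hell := ell_le_of_nonneg hfin hdeg hD0
    let g : Fin (l + 1) → K⟮x⟯ := fun i => (AdjoinSimple.gen K x) ^ (i : ℕ)
    have hg : LinearIndependent K g := by
      have h1 : LinearIndependent K (fun i : Fin (l + 1) => x ^ (i : ℕ)) :=
        (linearIndependent_pow_of_transcendental hx).comp _ Fin.val_injective
      refine LinearIndependent.of_comp (K⟮x⟯.val.toLinearMap) ?_
      have h2 : (⇑(K⟮x⟯.val.toLinearMap) ∘ g) = fun i : Fin (l + 1) => x ^ (i : ℕ) := by
        funext i
        simp [g]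
      rw [h2]
      exact h1
    have hli : LinearIndependent K (fun p : Fin (l + 1) × Fin n => g p.1 • b p.2) :=
      linearIndependent_smul hg b.linearIndependent
    have hval : ∀ p : Fin (l + 1) × Fin n, g p.1 • b p.2 = x ^ (p.1 : ℕ) * b p.2 := by
      intro p
      rw [IntermediateField.smul_def]
      simp [g]
    have hmem : ∀ p : Fin (l + 1) × Fin n, g p.1 • b p.2 ∈ riemannRochSpace D := by
      intro p
      rw [hval, mem_L_iff]
      intro v
      right
      have hb0 : b p.2 ≠ 0 := b.ne_zero p.2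
      rw [v.ord_mul (pow_ne_zero _ hx0) hb0, ord_pow]
      have hDv : D v = l * B v + C v := by
        simp [hD]
      rw [hDv, hB, poleDiv_apply]
      have h1 := hCv p.2 v
      have hi : ((p.1 : ℕ) : ℤ) ≤ l := by
        have := p.1.2
        omega
      have hi0 : (0 : ℤ) ≤ ((p.1 : ℕ) : ℤ) := Int.natCast_nonneg _
      rcases le_or_gt 0 (v.ord x) with h | h
      · rw [max_eq_right (by omega)]
        have := mul_nonneg hi0 h
        omega
      · rw [max_eq_left (by omega)]
        have : ((l : ℤ) - (p.1 : ℕ)) * v.ord x ≤ 0 :=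
          mul_nonpos_of_nonneg_of_nonpos (by omega) h.le
        nlinarith
    let w : Fin (l + 1) × Fin n → riemannRochSpace D := fun p => ⟨g p.1 • b p.2, hmem p⟩
    have hliw : LinearIndependent K w := by
      refine LinearIndependent.of_comp (riemannRochSpace D).subtype ?_
      exact hli
    have hcard := hliw.fintype_card_le_finrank
    rw [Fintype.card_prod, Fintype.card_fin, Fintype.card_fin] at hcard
    have hdegD : Divisor.degree D = l * Divisor.degree B + Divisor.degree C := by
      rw [hD, _root_.map_add, map_nsmul]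
      simp
    unfold ell at hell
    have h3 : (((l + 1) * n : ℕ) : ℤ) ≤ (Module.finrank K (riemannRochSpace D) : ℤ) := by
      exact_mod_cast hcard
    push_cast at h3
    rw [hdegD] at hell
    linarith
  by_contra hlt
  push Not at hlt
  have hB0 : 0 ≤ Divisor.degree B := degree_nonneg (poleDiv_nonneg hfin hdeg x)
  have hCdeg : 0 ≤ Divisor.degree C := degree_nonneg hC0
  have hk := key ((Divisor.degree C).toNat + 1)
  have hl : (((Divisor.degree C).toNat + 1 : ℕ) : ℤ) = Divisor.degree C + 1 := by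
    push_cast
    rw [Int.toNat_of_nonneg hCdeg]
  rw [hl] at hk
  have h4 : (Divisor.degree C + 1) * Divisor.degree B ≤ (Divisor.degree C + 1) * ((n : ℤ) - 1) :=
    mul_le_mul_of_nonneg_left (by omega) (by omega)
  nlinarith

/-- **Fundamental equality at the poles**, any characteristic. -/
theorem sum_neg_ord_eq_finrank
    (hfin : ∀ y : F, Transcendental K y → FiniteDimensional K⟮y⟯ F)
    (hdeg : ∀ v : Place K F, v.deg = 1) {x : F} (hx : Transcendental K x)
    [FiniteDimensional K⟮x⟯ F] (S : Finset (Place K F)) (hS : ∀ v, v ∈ S ↔ v.ord x < 0) :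
    ∑ v ∈ S, -v.ord x = (Module.finrank K⟮x⟯ F : ℤ) := by
  refine le_antisymm (sum_neg_ord_le_finrank hdeg x S fun v hv => (hS v).mp hv) ?_
  rw [← degree_poleDiv hfin hdeg x S hS]
  exact finrank_le_degree_poleDiv hfin hdeg hx

theorem sum_neg_ord_eq_finrank_of_eq
    (hfin : ∀ y : F, Transcendental K y → FiniteDimensional K⟮y⟯ F)
    (hdeg : ∀ v : Place K F, v.deg = 1) {x : F} (hx : Transcendental K x)
    (L : IntermediateField K F) (hL : L = K⟮x⟯) [FiniteDimensional L F]
    (S : Finset (Place K F)) (hS : ∀ v, v ∈ S ↔ v.ord x < 0) :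
    ∑ v ∈ S, -v.ord x = (Module.finrank L F : ℤ) := by
  subst hL
  exact sum_neg_ord_eq_finrank hfin hdeg hx S hS

/-- **Fundamental equality at the zeros**, any characteristic. -/
theorem sum_ord_eq_finrank
    (hfin : ∀ y : F, Transcendental K y → FiniteDimensional K⟮y⟯ F)
    (hdeg : ∀ v : Place K F, v.deg = 1) {x : F} (hx : Transcendental K x)
    [FiniteDimensional K⟮x⟯ F] (S : Finset (Place K F)) (hS : ∀ v, v ∈ S ↔ 0 < v.ord x) :
    ∑ v ∈ S, v.ord x = (Module.finrank K⟮x⟯ F : ℤ) := by
  have hx' : Transcendental K x⁻¹ := fun h => hx (by simpa using h.inv)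
  have h := sum_neg_ord_eq_finrank_of_eq hfin hdeg hx' K⟮x⟯ (adjoin_inv_eq x) S
    (fun v => by rw [hS, v.ord_inv]; omega)
  rw [← h]
  refine Finset.sum_congr rfl fun v _ => ?_
  rw [v.ord_inv, neg_neg]

/-- **Principal divisors have degree zero**, any characteristic. -/
theorem hasPrincipalDivisors_of_finite {x : F} (hx : Transcendental K x)
    [FiniteDimensional K⟮x⟯ F] : HasPrincipalDivisors K F := by
  classical
  have hfin := finite_of_finite hx
  have hdeg : ∀ v : Place K F, v.deg = 1 := deg_eq_one_of_finite hx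
  refine ⟨fun f hf0 => ?_⟩
  by_cases hf : f ∈ (algebraMap K F).range
  · obtain ⟨c, rfl⟩ := hf
    refine ⟨0, fun v => ?_, _root_.map_zero _⟩
    rw [ord_algebraMap]
    rfl
  have ht : Transcendental K f := Fermat.Agent.S24.FF.transcendental_of_not_mem_range hf
  have := hfin f ht
  let D : Divisor K F := Finsupp.ofSupportFinite (fun v => v.ord f)
    (finite_setOf_ord_ne_zero hfin hdeg f)
  have hDv : ∀ v, D v = v.ord f := fun v => rfl
  refine ⟨D, hDv, ?_⟩
  rw [degree_eq_sum]
  have hsupp : ∀ v, v ∈ D.support ↔ v.ord f ≠ 0 := fun v => by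
    rw [Finsupp.mem_support_iff, hDv]
  have h1 : ∑ v ∈ D.support, D v * (v.deg : ℤ) = ∑ v ∈ D.support, v.ord f := by
    refine Finset.sum_congr rfl fun v _ => ?_
    rw [hDv, hdeg v]
    simp
  rw [h1, ← Finset.sum_filter_add_sum_filter_not D.support (fun v => 0 < v.ord f)]
  have hP := sum_ord_eq_finrank hfin hdeg ht (D.support.filter fun v => 0 < v.ord f)
    (fun v => by
      rw [Finset.mem_filter, hsupp]
      constructor
      · exact fun h => h.2
      · exact fun h => ⟨h.ne', h⟩)
  have hN := sum_neg_ord_eq_finrank hfin hdeg ht (D.support.filter fun v => ¬ 0 < v.ord f)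
    (fun v => by
      rw [Finset.mem_filter, hsupp]
      constructor
      · rintro ⟨h1, h2⟩
        omega
      · intro h
        exact ⟨h.ne, by omega⟩)
  rw [Finset.sum_neg_distrib] at hN
  rw [hP]
  linarith

end AlgClosed

end Fermat.Agent.Lib.RR.H383

end
end
-- ===== PACK-END Lib/RR/H383/Fundamental.lean

-- ===== PACK-BEGIN Lib/RR/H638/CechFun.lean
section


/-!
# Čech formula for the two charts of a nonconstant function (helper638)

For a nonconstant `x : F` the finite sets `zerosOf x`, `polesOf x` are disjoint and nonempty, and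

* `holOff (polesOf x) = {f | ∀ v, 0 ≤ ord_v x → 0 ≤ ord_v f}`  (the "finite chart" `B₀`),
* `holOff (zerosOf x) = {f | ∀ v, ord_v x ≤ 0 → 0 ≤ ord_v f}`  (the "chart at infinity" `B∞`),
* `holOff (zerosOf x ∪ polesOf x) = {f | ∀ v, ord_v x = 0 → 0 ≤ ord_v f}`  (`Bm`).

Hence `dim_K Bm / (B₀ + B∞) = g` (`finrank_cech_of_fun`).
-/

set_option autoImplicit false

noncomputable section

open AlgebraicCurve

namespace Fermat.Agent.Lib.RR.H638

open Fermat.Agent.Lib.RR

variable {K F : Type*} [Field K] [Field F] [Algebra K F] [FF1 K F]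

open scoped Classical in
/-- The zeros of a nonzero function. -/
def zerosOf (x : F) (hx : x ≠ 0) : Finset (Place K F) :=
  (divOf (K := K) x hx).support.filter (fun v => 0 < v.ord x)

open scoped Classical in
/-- The poles of a nonzero function. -/
def polesOf (x : F) (hx : x ≠ 0) : Finset (Place K F) :=
  (divOf (K := K) x hx).support.filter (fun v => v.ord x < 0)

theorem mem_zerosOf {x : F} {hx : x ≠ 0} {v : Place K F} :
    v ∈ zerosOf (K := K) x hx ↔ 0 < v.ord x := by
  classical
  unfold zerosOf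
  rw [Finset.mem_filter, Finsupp.mem_support_iff, divOf_apply]
  exact ⟨fun h => h.2, fun h => ⟨ne_of_gt h, h⟩⟩

theorem mem_polesOf {x : F} {hx : x ≠ 0} {v : Place K F} :
    v ∈ polesOf (K := K) x hx ↔ v.ord x < 0 := by
  classical
  unfold polesOf
  rw [Finset.mem_filter, Finsupp.mem_support_iff, divOf_apply]
  exact ⟨fun h => h.2, fun h => ⟨ne_of_lt h, h⟩⟩

theorem disjoint_zerosOf_polesOf (x : F) (hx : x ≠ 0) :
    Disjoint (zerosOf (K := K) x hx) (polesOf (K := K) x hx) := by
  rw [Finset.disjoint_left]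
  intro v hz hp
  rw [mem_zerosOf] at hz
  rw [mem_polesOf] at hp
  omega

/-- A function without poles is constant. -/
theorem mem_range_of_polesOf_eq_empty {x : F} {hx : x ≠ 0}
    (h : polesOf (K := K) x hx = ∅) : x ∈ Set.range (algebraMap K F) := by
  have hL : x ∈ riemannRochSpace (0 : Divisor K F) := by
    rw [mem_L_iff]
    intro v
    right
    have hv : v ∉ polesOf (K := K) x hx := by rw [h]; exact Finset.notMem_empty v
    rw [mem_polesOf] at hv
    simpa using not_lt.mp hv
  rw [L_zero] at hL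
  obtain ⟨c, hc⟩ := hL
  exact ⟨c, hc⟩

theorem polesOf_nonempty {x : F} (hx : x ≠ 0) (hxc : x ∉ Set.range (algebraMap K F)) :
    (polesOf (K := K) x hx).Nonempty := by
  rw [Finset.nonempty_iff_ne_empty]
  exact fun h => hxc (mem_range_of_polesOf_eq_empty h)

theorem zerosOf_nonempty {x : F} (hx : x ≠ 0) (hxc : x ∉ Set.range (algebraMap K F)) :
    (zerosOf (K := K) x hx).Nonempty := by
  have hinv : x⁻¹ ∉ Set.range (algebraMap K F) := by
    rintro ⟨c, hc⟩
    apply hxc
    refine ⟨c⁻¹, ?_⟩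
    rw [map_inv₀, hc, inv_inv]
  obtain ⟨v, hv⟩ := polesOf_nonempty (K := K) (inv_ne_zero hx) hinv
  refine ⟨v, ?_⟩
  rw [mem_polesOf, v.ord_inv] at hv
  rw [mem_zerosOf]
  omega

theorem mem_holOff_polesOf {x : F} {hx : x ≠ 0} {f : F} :
    f ∈ holOff ((polesOf (K := K) x hx : Finset (Place K F)) : Set (Place K F)) ↔
      ∀ v : Place K F, 0 ≤ v.ord x → 0 ≤ v.ord f := by
  rw [mem_holOff]
  refine forall_congr' fun v => ?_
  rw [Finset.mem_coe, mem_polesOf, not_lt]

theorem mem_holOff_zerosOf {x : F} {hx : x ≠ 0} {f : F} :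
    f ∈ holOff ((zerosOf (K := K) x hx : Finset (Place K F)) : Set (Place K F)) ↔
      ∀ v : Place K F, v.ord x ≤ 0 → 0 ≤ v.ord f := by
  rw [mem_holOff]
  refine forall_congr' fun v => ?_
  rw [Finset.mem_coe, mem_zerosOf, not_lt]

theorem mem_holOff_zerosOf_union_polesOf {x : F} {hx : x ≠ 0} {f : F} :
    f ∈ holOff (((zerosOf (K := K) x hx : Finset (Place K F)) : Set (Place K F)) ∪
        (polesOf (K := K) x hx : Finset (Place K F))) ↔
      ∀ v : Place K F, v.ord x = 0 → 0 ≤ v.ord f := by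
  rw [mem_holOff]
  refine forall_congr' fun v => ?_
  rw [Set.mem_union, Finset.mem_coe, Finset.mem_coe, mem_zerosOf, mem_polesOf]
  constructor
  · intro h h0; exact h (by omega)
  · intro h h0; exact h (by omega)

/-- `B₀ + B∞` for the function `x`. -/
def funW (x : F) (hx : x ≠ 0) : Submodule K F :=
  cechW (zerosOf (K := K) x hx) (polesOf (K := K) x hx)

/-- `Bm` for the function `x`. -/
def funM (x : F) (hx : x ≠ 0) : Submodule K F :=
  cechM (zerosOf (K := K) x hx) (polesOf (K := K) x hx)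

theorem mem_funM {x : F} {hx : x ≠ 0} {f : F} :
    f ∈ funM (K := K) x hx ↔ ∀ v : Place K F, v.ord x = 0 → 0 ≤ v.ord f :=
  mem_holOff_zerosOf_union_polesOf

theorem mem_funW {x : F} {hx : x ≠ 0} {f : F} :
    f ∈ funW (K := K) x hx ↔ ∃ a b : F, (∀ v : Place K F, 0 ≤ v.ord x → 0 ≤ v.ord a) ∧
      (∀ v : Place K F, v.ord x ≤ 0 → 0 ≤ v.ord b) ∧ a + b = f := by
  unfold funW cechW
  rw [Submodule.mem_sup]
  constructor
  · rintro ⟨a, ha, b, hb, rfl⟩
    exact ⟨a, b, mem_holOff_polesOf.mp ha, mem_holOff_zerosOf.mp hb, rfl⟩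
  · rintro ⟨a, b, ha, hb, rfl⟩
    exact ⟨a, mem_holOff_polesOf.mpr ha, b, mem_holOff_zerosOf.mpr hb, rfl⟩

/-- **Čech formula for the genus, for the two charts `x ≠ ∞`, `x ≠ 0`** of a nonconstant
function `x`:  `dim_K Bm ⧸ (B₀ + B∞) = g`. -/
theorem finrank_cech_of_fun {g : ℕ} (hg : IsRiemannGenus K F g) {x : F} (hx : x ≠ 0)
    (hxc : x ∉ Set.range (algebraMap K F)) :
    Module.Finite K (↥(funM (K := K) x hx) ⧸ (funW (K := K) x hx).submoduleOf (funM x hx)) ∧
      Module.finrank K (↥(funM (K := K) x hx) ⧸ (funW (K := K) x hx).submoduleOf (funM x hx))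
        = g :=
  finrank_cech_quot _ _ hg (disjoint_zerosOf_polesOf x hx) (zerosOf_nonempty hx hxc)
    (polesOf_nonempty hx hxc)

/-- Upper bound: `g ≤ #h` if `Bm ⊆ span h + B₀ + B∞`. -/
theorem genus_le_of_span_fun {g : ℕ} (hg : IsRiemannGenus K F g) {x : F} (hx : x ≠ 0)
    (hxc : x ∉ Set.range (algebraMap K F)) {ι : Type*} [Fintype ι] (h : ι → F)
    (hspan : funM (K := K) x hx ≤ Submodule.span K (Set.range h) ⊔ funW x hx) :
    g ≤ Fintype.card ι :=
  genus_le_of_span _ _ hg (disjoint_zerosOf_polesOf x hx) (zerosOf_nonempty hx hxc)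
    (polesOf_nonempty hx hxc) h hspan

/-- Lower bound: `#h ≤ g` if the `h i ∈ Bm` are linearly independent modulo `B₀ + B∞`. -/
theorem le_genus_of_indep_fun {g : ℕ} (hg : IsRiemannGenus K F g) {x : F} (hx : x ≠ 0)
    (hxc : x ∉ Set.range (algebraMap K F)) {ι : Type*} [Fintype ι] (h : ι → F)
    (hM : ∀ i, h i ∈ funM (K := K) x hx)
    (hind : ∀ c : ι → K, ∑ i, c i • h i ∈ funW (K := K) x hx → c = 0) :
    Fintype.card ι ≤ g :=
  le_genus_of_indep' _ _ hg (disjoint_zerosOf_polesOf x hx) (zerosOf_nonempty hx hxc)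
    (polesOf_nonempty hx hxc) h hM hind

end Fermat.Agent.Lib.RR.H638

end
end
-- ===== PACK-END Lib/RR/H638/CechFun.lean

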