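import Mathlib
import Fermat.Prelude.Def_ModularCurve_X0ModL
import Fermat.Prelude.Def_AlgebraicCurve_Correspondence
import Fermat.Prelude.Def_ModularCurve_HeckeModule
import Fermat.Agent.Pack.S33.E9L1
import Fermat.Agent.Pack.S33.E9L0
import Fermat.Agent.Pack.S33.E7L2
import Fermat.Agent.Pack.S33.E4L2
import Fermat.Agent.Pack.S33.E7L0
import Fermat.Agent.Pack.S33.E4L1
import Fermat.Agent.Pack.S33.E10L1
import Fermat.Agent.Pack.S33.E10L2
import Fermat.Agent.Pack.S33.E10L0
import Fermat.Agent.Pack.S33.E2L0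
import Fermat.Agent.Pack.S33.E11L3
import Fermat.Agent.Pack.S33.E11L2
import Fermat.Agent.Pack.S33.E10L3
import Fermat.Agent.Pack.S33.E7L3
import Fermat.Agent.Pack.S33.E11L1
import Fermat.Agent.Pack.S33.E8L3
import Fermat.Agent.Pack.S33.E0L0

-- ===== PACK-BEGIN S31/H862/Nice.lean
section



/-!
# S31 / SS (helper862) — weight-2 invariant norm, "nice" functions, weighted Petersson integrals
-/

set_option autoImplicit false

open UpperHalfPlane CongruenceSubgroup MeasureTheory
open scoped MatrixGroups ENNReal NNReal ModularForm ComplexConjugate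

namespace Fermat.Agent.S31.H862

/-- The weight-2 invariant norm `|f(z)| · Im z`. -/
noncomputable def nrm (f : ℍ → ℂ) (z : ℍ) : ℝ := ‖f z‖ * z.im

theorem nrm_nonneg (f : ℍ → ℂ) (z : ℍ) : 0 ≤ nrm f z :=
  mul_nonneg (norm_nonneg _) z.im_pos.le

theorem norm_petersson_eq (f g : ℍ → ℂ) (z : ℍ) :
    ‖petersson 2 f g z‖ = nrm f z * nrm g z := by
  simp only [petersson, nrm, norm_mul, Complex.norm_conj, norm_zpow, Complex.norm_real,
    Real.norm_of_nonneg z.im_pos.le]
  rw [zpow_ofNat]
  ring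

theorem slash_two_apply (f : ℍ → ℂ) (δ : GL (Fin 2) ℝ) (z : ℍ) :
    (f ∣[(2 : ℤ)] δ) z = σ δ (f (δ • z)) * ((|δ.det.val| : ℝ) : ℂ) * (denom δ z ^ 2)⁻¹ := by
  rw [ModularForm.slash_def]
  simp only [show (2 : ℤ) - 1 = 1 by norm_num, zpow_one, _root_.zpow_neg]
  rw [zpow_ofNat]

theorem nrm_slash (f : ℍ → ℂ) (δ : GL (Fin 2) ℝ) (z : ℍ) :
    nrm (f ∣[(2 : ℤ)] δ) z = nrm f (δ • z) := by
  have hd : denom δ z ≠ 0 := denom_ne_zero δ z
  have hn : (0 : ℝ) < Complex.normSq (denom δ z) := Complex.normSq_pos.mpr hd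
  simp only [nrm, slash_two_apply, norm_mul, norm_σ, norm_inv, norm_pow, Complex.norm_real,
    Real.norm_eq_abs, abs_abs]
  rw [UpperHalfPlane.im_smul_eq_div_normSq, Complex.normSq_eq_norm_sq]
  field_simp

/-- Continuous functions on `ℍ` with bounded weight-2 invariant norm. -/
structure Nice (f : ℍ → ℂ) : Prop where
  cont : Continuous f
  bdd : ∃ C : ℝ, ∀ z, nrm f z ≤ C

theorem continuous_slash_two {f : ℍ → ℂ} (hf : Continuous f) (δ : GL (Fin 2) ℝ) :
    Continuous (f ∣[(2 : ℤ)] δ) := by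
  have h : (f ∣[(2 : ℤ)] δ) =
      fun z : ℍ => σ δ (f (δ • z)) * ((|δ.det.val| : ℝ) : ℂ) * (denom δ z ^ 2)⁻¹ :=
    funext fun z => slash_two_apply f δ z
  rw [h]
  have h1 : Continuous fun z : ℍ => δ • z := continuous_const_smul δ
  have h2 : Continuous fun z : ℍ => denom δ z := by
    unfold denom
    fun_prop
  have h3 : Continuous fun z : ℍ => σ δ (f (δ • z)) :=
    (σ δ).continuous.comp (hf.comp h1)
  refine (h3.mul continuous_const).mul (Continuous.inv₀ (h2.pow 2) fun z => ?_)
  exact _root_.pow_ne_zero 2 (denom_ne_zero δ z)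

theorem Nice.slash {f : ℍ → ℂ} (hf : Nice f) (δ : GL (Fin 2) ℝ) : Nice (f ∣[(2 : ℤ)] δ) := by
  obtain ⟨C, hC⟩ := hf.bdd
  exact ⟨continuous_slash_two hf.cont δ, C, fun z => by rw [nrm_slash]; exact hC _⟩

theorem Nice.add {f g : ℍ → ℂ} (hf : Nice f) (hg : Nice g) : Nice (f + g) := by
  obtain ⟨C, hC⟩ := hf.bdd
  obtain ⟨D, hD⟩ := hg.bdd
  refine ⟨hf.cont.add hg.cont, C + D, fun z => ?_⟩
  have h := norm_add_le (f z) (g z)
  have := hC z
  have := hD z
  simp only [nrm, Pi.add_apply] at *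
  nlinarith [z.im_pos]

theorem Nice.zero : Nice (0 : ℍ → ℂ) :=
  ⟨continuous_const, 0, fun z => by simp [nrm]⟩

theorem Nice.sum {ι : Type*} (s : Finset ι) {f : ι → ℍ → ℂ} (hf : ∀ i ∈ s, Nice (f i)) :
    Nice (∑ i ∈ s, f i) := by
  classical
  induction s using Finset.induction_on with
  | empty => simpa using Nice.zero
  | insert a s ha ih =>
    rw [Finset.sum_insert ha]
    exact (hf a (Finset.mem_insert_self a s)).add
      (ih fun i hi => hf i (Finset.mem_insert_of_mem hi))

theorem nice_cuspForm {Γ : Subgroup (GL (Fin 2) ℝ)} [Γ.IsArithmetic] (f : CuspForm Γ 2) :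
    Nice (f : ℍ → ℂ) := by
  obtain ⟨C, hC⟩ := CuspFormClass.exists_bound (k := 2) (Γ := Γ) f
  refine ⟨(CuspFormClass.holo f).continuous, C, fun z => ?_⟩
  have h := hC z
  have h1 : (z.im : ℝ) ^ (((2 : ℤ) : ℝ) / 2) = z.im := by
    norm_num
  rw [h1] at h
  rw [nrm]
  exact (le_div_iff₀ z.im_pos).mp h

/-- The weighted Petersson integral. -/
noncomputable def pint (w : ℍ → ℝ) (f g : ℍ → ℂ) : ℂ :=
  ∫ z : ℍ, petersson 2 f g z * (w z : ℂ)

theorem integrable_pint {w : ℍ → ℝ} (hw : Integrable w volume) {f g : ℍ → ℂ}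
    (hf : Nice f) (hg : Nice g) :
    Integrable (fun z : ℍ => petersson 2 f g z * (w z : ℂ)) volume := by
  obtain ⟨C, hC⟩ := hf.bdd
  obtain ⟨D, hD⟩ := hg.bdd
  have hcont : Continuous (petersson 2 f g) := petersson_continuous 2 hf.cont hg.cont
  have hwC : Integrable (fun z : ℍ => (w z : ℂ)) volume := hw.ofReal
  refine hwC.bdd_mul (c := C * D) hcont.aestronglyMeasurable
    (Filter.Eventually.of_forall fun z => ?_)
  rw [norm_petersson_eq]
  exact mul_le_mul (hC z) (hD z) (nrm_nonneg _ _) ((nrm_nonneg f z).trans (hC z))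

end Fermat.Agent.S31.H862

end
-- ===== PACK-END S31/H862/Nice.lean

-- ===== PACK-BEGIN S30/H990/TwoDim1.lean
section
/-
S30 top glue (helper990): pure algebra, part 6: the rank one case and the conclusion of the
extraction.
-/


set_option autoImplicit false

namespace Fermat.Agent.S30.H990

open Module Polynomial

section PiCong

variable {𝒪 : Type} [CommRing 𝒪]

/-- A vector with all coordinates in `I` lies in `I • ⊤`. -/
theorem pi_mem_smul_top (I : Ideal 𝒪) (y : Fin 2 → 𝒪) (hy : ∀ i, y i ∈ I) :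
    y ∈ I • (⊤ : Submodule 𝒪 (Fin 2 → 𝒪)) := by
  classical
  rw [pi_eq_sum_univ' y]
  refine Submodule.sum_mem _ (fun i _ => ?_)
  exact Submodule.smul_mem_smul (hy i) Submodule.mem_top

end PiCong

section Constructions

variable {𝒪 M G : Type} [CommRing 𝒪] [IsDomain 𝒪] [IsPrincipalIdealRing 𝒪]
  [AddCommGroup M] [Module 𝒪 M] [Module.Free 𝒪 M] [Module.Finite 𝒪 M] [Group G]
  (ρ : G →* Module.End 𝒪 M) (d : G →* 𝒪ˣ)

/-- The rank one case. -/
theorem twoDim_of_rank_one (v : M) (hv0 : v ≠ 0)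
    (hsv : ∀ g, ∃ r : 𝒪, r ≠ 0 ∧ r • ρ g v ∈ Submodule.span 𝒪 {v}) :
    Nonempty (TwoDimOut ρ d) := by
  classical
  have hli : LinearIndependent 𝒪 (fun _ : Fin 1 => v) := by
    rw [linearIndependent_unique_iff]
    exact hv0
  have hrange : Set.range (fun _ : Fin 1 => v) = ({v} : Set M) := Set.range_const
  set Λ : Submodule 𝒪 M := sat (Submodule.span 𝒪 ({v} : Set M)) with hΛ
  have hfr : Module.finrank 𝒪 Λ = 1 := by
    have := finrank_sat_span (fun _ : Fin 1 => v) hli
    rwa [hrange] at this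
  have hstab : ∀ g, ∀ x ∈ Λ, ρ g x ∈ Λ := by
    apply sat_span_stable
    intro g x hx
    rw [Set.mem_singleton_iff] at hx
    subst hx
    exact hsv g
  have hvΛ : v ∈ Λ := le_sat _ (Submodule.subset_span (by simp))
  set ρΛ := restrictRep ρ Λ hstab with hρΛ
  -- the character
  let ψ : G →* 𝒪ˣ := (LinearMap.det.comp ρΛ).toHomUnits
  have hψ : ∀ g (x : Λ), ρΛ g x = ((ψ g : 𝒪ˣ) : 𝒪) • x := fun g x =>
    apply_eq_det_smul hfr (ρΛ g) x
  have hψrel : ∀ g a, Rel ρ d g a →
      ((ψ g : 𝒪ˣ) : 𝒪) * ((ψ g : 𝒪ˣ) : 𝒪) - a * ((ψ g : 𝒪ˣ) : 𝒪) + ((d g : 𝒪ˣ) : 𝒪) = 0 := by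
    intro g a hr
    have h1 := rel_apply ρΛ d (rel_restrictRep ρ d Λ hstab hr) ⟨v, hvΛ⟩
    rw [hψ g ⟨v, hvΛ⟩, _root_.map_smul, hψ g ⟨v, hvΛ⟩] at h1
    have h2 : (((ψ g : 𝒪ˣ) : 𝒪) * ((ψ g : 𝒪ˣ) : 𝒪) - a * ((ψ g : 𝒪ˣ) : 𝒪) + ((d g : 𝒪ˣ) : 𝒪))
        • (⟨v, hvΛ⟩ : Λ) = 0 := by
      rw [← h1]
      module
    have hne : (⟨v, hvΛ⟩ : Λ) ≠ 0 := fun h => hv0 (congrArg Subtype.val h)
    exact (smul_eq_zero.mp h2).resolve_right hne
  -- the diagonal representation
  let δ : G →* (Fin 2 → 𝒪) :=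
    { toFun := fun g => ![((ψ g : 𝒪ˣ) : 𝒪), ((d g * (ψ g)⁻¹ : 𝒪ˣ) : 𝒪)]
      map_one' := by
        ext i
        fin_cases i <;> simp
      map_mul' := fun g h => by
        ext i
        fin_cases i
        · simp
        · simp only [_root_.map_mul, mul_inv_rev, Units.val_mul, Fin.mk_one, Fin.isValue, Pi.mul_apply,
            Matrix.cons_val_one, Matrix.cons_val_zero]
          ring }
  let A : G →* Matrix (Fin 2) (Fin 2) 𝒪 :=
    ((Matrix.diagonalRingHom (Fin 2) 𝒪 : (Fin 2 → 𝒪) →+* Matrix (Fin 2) (Fin 2) 𝒪) :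
      (Fin 2 → 𝒪) →* Matrix (Fin 2) (Fin 2) 𝒪).comp δ
  let ρ₂ : G →* Module.End 𝒪 (Fin 2 → 𝒪) :=
    ((Matrix.toLinAlgEquiv' : Matrix (Fin 2) (Fin 2) 𝒪 ≃ₐ[𝒪] Module.End 𝒪 (Fin 2 → 𝒪)) :
      Matrix (Fin 2) (Fin 2) 𝒪 →* Module.End 𝒪 (Fin 2 → 𝒪)).comp A
  have hρ₂ : ∀ g, ρ₂ g = Matrix.toLin' (Matrix.diagonal (δ g)) := fun g => rfl
  have hδ0 : ∀ g, δ g 0 = ((ψ g : 𝒪ˣ) : 𝒪) := fun g => rfl
  have hδ1 : ∀ g, δ g 1 = ((d g * (ψ g)⁻¹ : 𝒪ˣ) : 𝒪) := fun g => rfl
  refine ⟨{ V := Fin 2 → 𝒪
            finrank_eq := by simp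
            ρ₂ := ρ₂
            charpoly_eq := ?_
            cong := ?_ }⟩
  · intro g a hr
    rw [hρ₂, Matrix.charpoly_toLin', Matrix.charpoly_fin_two, Matrix.trace_diagonal,
      Matrix.det_diagonal, Fin.sum_univ_two, Fin.prod_univ_two, hδ0, hδ1]
    have h := hψrel g a hr
    have hinv : ((ψ g : 𝒪ˣ) : 𝒪) * (((ψ g)⁻¹ : 𝒪ˣ) : 𝒪) = 1 := by
      rw [← Units.val_mul, mul_inv_cancel, Units.val_one]
    have ha : ((ψ g : 𝒪ˣ) : 𝒪) + ((d g * (ψ g)⁻¹ : 𝒪ˣ) : 𝒪) = a := by
      rw [Units.val_mul]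
      linear_combination (((ψ g)⁻¹ : 𝒪ˣ) : 𝒪) * h + (a - ((ψ g : 𝒪ˣ) : 𝒪)) * hinv
    have hd : ((ψ g : 𝒪ˣ) : 𝒪) * ((d g * (ψ g)⁻¹ : 𝒪ˣ) : 𝒪) = ((d g : 𝒪ˣ) : 𝒪) := by
      rw [Units.val_mul]
      linear_combination ((d g : 𝒪ˣ) : 𝒪) * hinv
    rw [ha, hd]
  · intro I g hg hdg x
    -- `ψ g - 1 ∈ I`
    have hψI : ((ψ g : 𝒪ˣ) : 𝒪) - 1 ∈ I := by
      apply mem_of_smul_basis_mem hfr I
      intro y
      have hmem : ((ρΛ g y - y : Λ) : M) ∈ I • (⊤ : Submodule 𝒪 M) := hg (y : M)
      have := mem_smul_top_sat _ I _ hmem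
      rwa [hψ g y, ← one_smul 𝒪 y, smul_smul, mul_one, ← sub_smul] at this
    have hinv : ((ψ g : 𝒪ˣ) : 𝒪) * (((ψ g)⁻¹ : 𝒪ˣ) : 𝒪) = 1 := by
      rw [← Units.val_mul, mul_inv_cancel, Units.val_one]
    have hδI : ((d g * (ψ g)⁻¹ : 𝒪ˣ) : 𝒪) - 1 ∈ I := by
      have : ((d g * (ψ g)⁻¹ : 𝒪ˣ) : 𝒪) - 1
          = (((ψ g)⁻¹ : 𝒪ˣ) : 𝒪) * ((((d g : 𝒪ˣ) : 𝒪) - 1) - (((ψ g : 𝒪ˣ) : 𝒪) - 1)) := by
        rw [Units.val_mul]
        linear_combination hinv
      rw [this]
      exact I.mul_mem_left _ (I.sub_mem hdg hψI)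
    apply pi_mem_smul_top
    intro i
    rw [hρ₂, Matrix.toLin'_apply, Pi.sub_apply, Matrix.mulVec_diagonal]
    have : δ g i * x i - x i = (δ g i - 1) * x i := by ring
    rw [this]
    apply I.mul_mem_right
    fin_cases i
    · exact hψI
    · exact hδI

/-- Conclusion of the extraction: from a nonzero finite free module on which every group element
satisfies a quadratic relation with constant term `d g`, and an involution `c` with `d c = -1`,
one gets a rank two representation with the expected characteristic polynomials. -/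
theorem exists_twoDim [Nontrivial M] (h2 : (2 : 𝒪) ≠ 0) (hrel : ∀ g, ∃ a, Rel ρ d g a)
    (c : G) (hc : c * c = 1) (hdc : d c = -1) : Nonempty (TwoDimOut ρ d) := by
  rcases exists_stable ρ d h2 hrel c hc hdc with ⟨v, hv0, hsv⟩ |
    ⟨u, w, ε, hε, hu0, hw0, hu, hw, hsu, hsw⟩
  · exact twoDim_of_rank_one ρ d v hv0 hsv
  · exact twoDim_of_rank_two ρ d hrel h2 c hdc u w ε hε hu0 hw0 hu hw hsu hsw

end Constructions

end Fermat.Agent.S30.H990

end
-- ===== PACK-END S30/H990/TwoDim1.lean

-- ===== PACK-BEGIN S29/H395/AnalyticKron.lean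
section
/-
S29 / layer M / bridge BR, piece NORM (analytic half, `q`-expansions) — helper395.

**Analytic Kronecker norm.**  If `a : ℍ → ℂ` has the (everywhere convergent) `q`-expansion `A` at
`i∞` (`InfExp 1 a A`, S24), then

  `heckeProd ℓ a τ = a (ℓ τ) * ∏_{j < ℓ} a ((τ + j) / ℓ)`

has the `q`-expansion `kronNorm ℓ A = V_ℓ A * det (secMat ℓ A)` (helper400's formal Kronecker norm,
which row S37 identifies with the `q`-expansion of `Nm_α (β y)`).
-/






set_option autoImplicit false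

noncomputable section

open CongruenceSubgroup Matrix.SpecialLinearGroup UpperHalfPlane ModularCurve HahnSeries
open scoped MatrixGroups Real Polynomial OnePoint
open P2MW.S_ModularForm_heckeT_slash_eq_self_of_mem_Gamma0.ModularForm.HeckeSlashInvariance

namespace Fermat.Agent.S29.H395

open Fermat.Agent.S24 Fermat.Agent.S37.H340 Fermat.Agent.S37.H400

/-! ### `InfExp` bookkeeping -/

theorem infExp_finset_prod {N : ℕ} {ι : Type*} (s : Finset ι) (f : ι → ℍ → ℂ)
    (φ : ι → LaurentSeries ℂ) (h : ∀ i ∈ s, InfExp N (f i) (φ i)) :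
    InfExp N (fun τ => ∏ i ∈ s, f i τ) (∏ i ∈ s, φ i) := by
  classical
  induction s using Finset.induction_on with
  | empty => simpa using (InfExp.one (N := N))
  | insert i s hi ih =>
    have h1 := h i (Finset.mem_insert_self i s)
    have h2 := ih fun j hj => h j (Finset.mem_insert_of_mem hj)
    have := h1.mul h2
    simpa [Finset.prod_insert hi] using this

theorem infZ_pow_eq (ℓ : ℕ) [NeZero ℓ] (τ : ℍ) : infZ ℓ τ ^ ℓ = infZ 1 τ := by
  rw [infZ_def, infZ_def, ← Complex.exp_nat_mul]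
  congr 1
  have hℓ : (ℓ : ℂ) ≠ 0 := by exact_mod_cast NeZero.ne ℓ
  field_simp
  simp

/-- Descent of the variable: an expansion in `z_ℓ = q^{1/ℓ}` which only involves powers of
`z_ℓ^ℓ = q` is an expansion in `q`. -/
theorem infExp_of_qExpand {ℓ : ℕ} [NeZero ℓ] {f : ℍ → ℂ} {φ : LaurentSeries ℂ}
    (h : InfExp ℓ f (qExpand ℂ ℓ φ)) : InfExp 1 f φ := by
  intro τ
  have h1 := h τ
  have he0 : (ℓ : ℤ) ≠ 0 := by exact_mod_cast NeZero.ne ℓ
  have hinj : Function.Injective (fun n : ℤ => (ℓ : ℤ) * n) := mul_right_injective₀ he0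
  have hrange : ∀ m : ℤ, m ∉ Set.range (fun n : ℤ => (ℓ : ℤ) * n) →
      (qExpand ℂ ℓ φ).coeff m * infZ ℓ τ ^ m = 0 := by
    intro m hm
    rw [qExpand_coeff_of_not_dvd ℓ _ (fun ⟨j, hj⟩ => hm ⟨j, hj.symm⟩), zero_mul]
  rw [← hinj.hasSum_iff hrange] at h1
  convert h1 using 1
  funext n
  simp only [Function.comp_apply, qExpand_coeff_mul]
  rw [← infZ_pow_eq ℓ τ, ← zpow_natCast (infZ ℓ τ) ℓ, ← zpow_mul]

/-! ### The Hecke representatives as affine maps -/

section Rep

variable {ℓ : ℕ} [Fact ℓ.Prime]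

theorem heckeRep_infty_smul (τ : ℍ) : _root_.P2MW.S_ModularForm_heckeT_slash_eq_self_of_mem_Gamma0.ModularForm.HeckeSlashInvariance.heckeRep ℓ ∞ • τ = infAff ℓ 0 1 τ := by
  have hℓ : ℓ ≠ 0 := (Fact.out : ℓ.Prime).ne_zero
  apply UpperHalfPlane.ext
  rw [heckeRep_infty, ModularForm.coe_heckeDiagMatrix_smul hℓ,
    infAff_coe (Nat.pos_of_ne_zero hℓ) one_pos]
  simp

theorem heckeRep_coe_smul (j : ZMod ℓ) (τ : ℍ) :
    _root_.P2MW.S_ModularForm_heckeT_slash_eq_self_of_mem_Gamma0.ModularForm.HeckeSlashInvariance.heckeRep ℓ (j : OnePoint (ZMod ℓ)) • τ = infAff 1 (j.val : ℤ) ℓ τ := by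
  have hℓ : ℓ ≠ 0 := (Fact.out : ℓ.Prime).ne_zero
  apply UpperHalfPlane.ext
  rw [heckeRep_coe, ModularForm.coe_heckeMatrix_smul hℓ,
    infAff_coe one_pos (Nat.pos_of_ne_zero hℓ)]
  simp

theorem heckeProd_eq (a : ℍ → ℂ) (τ : ℍ) :
    heckeProd ℓ a τ = a (infAff ℓ 0 1 τ) * ∏ j : ZMod ℓ, a (infAff 1 (j.val : ℤ) ℓ τ) := by
  rw [heckeProd_apply]
  have h := Fintype.prod_option (fun x : OnePoint (ZMod ℓ) => a (_root_.P2MW.S_ModularForm_heckeT_slash_eq_self_of_mem_Gamma0.ModularForm.HeckeSlashInvariance.heckeRep ℓ x • τ))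
  rw [show (∏ x : OnePoint (ZMod ℓ), a (_root_.P2MW.S_ModularForm_heckeT_slash_eq_self_of_mem_Gamma0.ModularForm.HeckeSlashInvariance.heckeRep ℓ x • τ))
      = ∏ x : Option (ZMod ℓ), a (_root_.P2MW.S_ModularForm_heckeT_slash_eq_self_of_mem_Gamma0.ModularForm.HeckeSlashInvariance.heckeRep ℓ x • τ) from rfl, h]
  congr 1
  · exact congrArg a (heckeRep_infty_smul τ)
  · exact Finset.prod_congr rfl fun j _ => congrArg a (heckeRep_coe_smul j τ)

end Rep

/-! ### Expansions of the translates -/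

section Translates

variable {ℓ : ℕ} [NeZero ℓ] {a : ℍ → ℂ} {A : LaurentSeries ℂ}

theorem infExp_comp_mul (ha : InfExp 1 a A) :
    InfExp 1 (fun τ => a (infAff ℓ 0 1 τ)) (qExpand ℂ ℓ A) := by
  have hℓ : 0 < ℓ := Nat.pos_of_ne_zero (NeZero.ne ℓ)
  have h := ha.comp_infAff (N := 1) (e := ℓ) 0 hℓ one_pos one_pos one_pos (by ring)
  rwa [infRoot_zero, infTwist_one] at h

theorem infExp_comp_div (ha : InfExp 1 a A) (j : ℤ) :
    InfExp ℓ (fun τ => a (infAff 1 j ℓ τ)) (infTwist (infRoot j ℓ) A) := by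
  have hℓ : 0 < ℓ := Nat.pos_of_ne_zero (NeZero.ne ℓ)
  have h := ha.comp_infAff (N := ℓ) (e := 1) j one_pos hℓ one_pos hℓ (by ring)
  rwa [qExpand_one_apply, mul_one] at h

end Translates

/-! ### The formal product formula -/

section Formal

variable (ℓ : ℕ) [NeZero ℓ]

/-- `ζ_ℓ = exp (2πi/ℓ)`. -/
def zetaL : ℂ := Complex.exp (2 * π * Complex.I / ℓ)

theorem isPrimitiveRoot_zetaL : IsPrimitiveRoot (zetaL ℓ) ℓ :=
  Complex.isPrimitiveRoot_exp ℓ (NeZero.ne ℓ)

omit [NeZero ℓ] in
theorem infRoot_eq_zetaL_pow (b : ℕ) : ((infRoot (b : ℤ) ℓ : ℂˣ) : ℂ) = zetaL ℓ ^ b := by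
  rw [infRoot_coe, zetaL, ← Complex.exp_nat_mul]
  congr 1
  push_cast
  ring

theorem zpw_eq_zpow {w : ℂ} (hw : w ^ ℓ = 1) (hw0 : w ≠ 0) (n : ℤ) : zpw ℓ w n = w ^ n := by
  unfold zpw
  have hℓ : (0 : ℤ) < ℓ := by exact_mod_cast Nat.pos_of_ne_zero (NeZero.ne ℓ)
  have h1 : n = (ℓ : ℤ) * (n / ℓ) + n % ℓ := (Int.mul_ediv_add_emod n ℓ).symm
  have h2 : 0 ≤ n % (ℓ : ℤ) := Int.emod_nonneg n hℓ.ne'
  conv_rhs => rw [h1]
  rw [zpow_add₀ hw0, zpow_mul, zpow_natCast, hw, one_zpow, one_mul]
  conv_rhs => rw [← Int.toNat_of_nonneg h2]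
  rw [zpow_natCast]

theorem tw_eq_infTwist (b : ℕ) (A : LaurentSeries ℂ) :
    tw ℓ (zetaL ℓ ^ b) A = infTwist (infRoot (b : ℤ) ℓ) A := by
  ext n
  rw [tw_coeff, infTwist_coeff, Units.val_zpow_eq_zpow_val, infRoot_eq_zetaL_pow, mul_comm]
  congr 1
  have hζ := (isPrimitiveRoot_zetaL ℓ)
  refine zpw_eq_zpow ℓ ?_ (pow_ne_zero _ (hζ.ne_zero (NeZero.ne ℓ))) n
  rw [← pow_mul, mul_comm, pow_mul, hζ.pow_eq_one, one_pow]

theorem kronMat_eq_secMat (A : LaurentSeries ℂ) : kronMat ℓ A = secMat ℓ A := by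
  ext i j n
  rw [kronMat_apply, secMat_apply', sect_coeff, secL_coeff]

/-- **Product formula** `∏_{b < ℓ} A(ζ^b z) = (det secMat A)(z^ℓ)`. -/
theorem prod_infTwist_eq (A : LaurentSeries ℂ) :
    ∏ b : Fin ℓ, infTwist (infRoot ((b : ℕ) : ℤ) ℓ) A = qExpand ℂ ℓ (secMat ℓ A).det := by
  classical
  have h := kron_map_qExpand_eq_prod (isPrimitiveRoot_zetaL ℓ) A
  have h0 : (Polynomial.map (qExpand ℂ ℓ) (kron ℓ A)).coeff 0
      = (∏ b : Fin ℓ, (Polynomial.X - Polynomial.C (tw ℓ (zetaL ℓ ^ (b : ℕ)) A))).coeff 0 := by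
    rw [h]
  rw [Polynomial.coeff_map, kron, Polynomial.coeff_zero_eq_eval_zero (∏ b : Fin ℓ, _),
    Polynomial.eval_prod] at h0
  simp only [Polynomial.eval_sub, Polynomial.eval_X, Polynomial.eval_C, zero_sub] at h0
  rw [Finset.prod_neg, Finset.card_univ, Fintype.card_fin] at h0
  have hdet := Matrix.det_eq_sign_charpoly_coeff (kronMat ℓ A)
  rw [Fintype.card_fin] at hdet
  rw [← kronMat_eq_secMat, hdet, _root_.map_mul, _root_.map_pow, _root_.map_neg, _root_.map_one, h0, ← mul_assoc,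
    ← mul_pow]
  simp only [neg_mul_neg, one_mul, one_pow]
  exact Finset.prod_congr rfl fun b _ => (tw_eq_infTwist ℓ b A).symm

end Formal

/-! ### The main statement -/

/-- **Analytic Kronecker norm**: `heckeProd ℓ a` has the `q`-expansion `kronNorm ℓ A`. -/
theorem infExp_heckeProd {ℓ : ℕ} [Fact ℓ.Prime] {a : ℍ → ℂ} {A : LaurentSeries ℂ}
    (ha : InfExp 1 a A) : InfExp 1 (heckeProd ℓ a) (kronNorm ℓ A) := by
  have h1 : InfExp 1 (fun τ => a (infAff ℓ 0 1 τ)) (qExpand ℂ ℓ A) := infExp_comp_mul ha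
  have h2 : InfExp ℓ (fun τ => ∏ b : Fin ℓ, a (infAff 1 ((b : ℕ) : ℤ) ℓ τ))
      (∏ b : Fin ℓ, infTwist (infRoot ((b : ℕ) : ℤ) ℓ) A) :=
    infExp_finset_prod Finset.univ _ _ fun b _ => infExp_comp_div ha _
  rw [prod_infTwist_eq] at h2
  have h3 := infExp_of_qExpand h2
  have h4 := h1.mul h3
  rw [kronNorm]
  refine h4.congr fun τ => ?_
  rw [heckeProd_eq]
  congr 1
  -- reindex `Fin ℓ ≃ ZMod ℓ`
  refine Finset.prod_nbij' (fun b : Fin ℓ => ((b : ℕ) : ZMod ℓ))
    (fun j : ZMod ℓ => ⟨j.val, ZMod.val_lt j⟩) (fun _ _ => Finset.mem_univ _)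
    (fun _ _ => Finset.mem_univ _) (fun b _ => ?_) (fun j _ => ?_) (fun b _ => ?_)
  · exact Fin.ext (ZMod.val_natCast_of_lt b.2)
  · exact ZMod.natCast_zmod_val j
  · rw [ZMod.val_natCast_of_lt b.2]

end Fermat.Agent.S29.H395

end

end
-- ===== PACK-END S29/H395/AnalyticKron.lean

-- ===== PACK-BEGIN S28/H685/JIntegral.lean
section




/-!
# S28 helper (helper685): integrality in the `j`-polynomial principle (J4)

If `P(j)` has all its Laurent coefficients in a subring `C₀ ⊆ ℂ`, then so has `P`.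
Combined with `exists_polynomial_of_S_invariant` this gives the polynomial principle with
coefficients in `C₀`.  Also the versions for the parameter `q^(1/N)`.
-/

set_option autoImplicit false

namespace Fermat.Agent.S28.H685

open UpperHalfPlane Function Complex Filter HahnSeries ModularForm
open scoped Topology Manifold MatrixGroups

noncomputable section

local notation "𝕢" => Periodic.qParam

theorem jqModC_pow_eq (n : ℕ) : ModularCurve.jqModC ℂ ^ n =
    HahnSeries.single (-(n : ℤ)) (1 : ℂ) * HahnSeries.ofPowerSeries ℤ ℂ (jNumC ^ n) := by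
  rw [jqModC_eq, hauptmodul_pow]

/-- The coefficients of the powers of `j` are integers. -/
theorem coeff_jqModC_pow_mem (C₀ : Subring ℂ) (n : ℕ) (k : ℤ) :
    (ModularCurve.jqModC ℂ ^ n).coeff k ∈ C₀ := by
  have h : (ModularCurve.jqModC ℂ ^ n).coeff k =
      (((ModularCurve.jqModC ℤ ^ n).coeff k : ℤ) : ℂ) := by
    rw [← ModularCurve.map_jqModC (Int.castRingHom ℂ)]
    have hpow : ((ModularCurve.jqModC ℤ).map (Int.castRingHom ℂ)) ^ n =
        (ModularCurve.jqModC ℤ ^ n).map (Int.castRingHom ℂ) := by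
      induction n with
      | zero =>
        ext g
        simp only [pow_zero, HahnSeries.map_coeff, HahnSeries.coeff_one]
        split_ifs <;> simp
      | succ n ih =>
        rw [pow_succ, pow_succ, ih]
        exact (HahnSeries.map_mul (Int.castRingHom ℂ).toNonUnitalRingHom).symm
    rw [hpow, HahnSeries.map_coeff]
    rfl
  rw [h]
  exact intCast_mem C₀ _

/-- **(J4)** If `P(j)` has all its coefficients in the subring `C₀`, so has `P`. -/
theorem coeff_mem_of_aeval_jqModC (C₀ : Subring ℂ) :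
    ∀ (m : ℕ) (P : Polynomial ℂ), P.natDegree ≤ m →
      (∀ k : ℤ, (Polynomial.aeval (ModularCurve.jqModC ℂ) P).coeff k ∈ C₀) →
      ∀ i, P.coeff i ∈ C₀ := by
  intro m
  induction m with
  | zero =>
    intro P hP hc i
    rw [Polynomial.eq_C_of_natDegree_le_zero hP] at hc ⊢
    have h0 := hc 0
    rw [Polynomial.aeval_C, algebraMap_eq_C] at h0
    have h1 : (HahnSeries.C (P.coeff 0) : LaurentSeries ℂ).coeff 0 = P.coeff 0 := by
      simp
    rw [h1] at h0
    rw [Polynomial.coeff_C]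
    split_ifs
    · exact h0
    · exact C₀.zero_mem
  | succ m ih =>
    intro P hP hc i
    set a := P.coeff (m + 1) with ha
    set Q := P - Polynomial.C a * Polynomial.X ^ (m + 1) with hQ
    have hQdeg : Q.natDegree ≤ m := by
      rw [Polynomial.natDegree_le_iff_coeff_eq_zero]
      intro N hN
      rw [hQ, Polynomial.coeff_sub, Polynomial.coeff_C_mul, Polynomial.coeff_X_pow]
      rcases Nat.lt_or_ge (m + 1) N with h1 | h1
      · rw [Polynomial.coeff_eq_zero_of_natDegree_lt (lt_of_le_of_lt hP h1),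
          if_neg (by omega), mul_zero, sub_zero]
      · have : N = m + 1 := by omega
        rw [if_pos this, this, mul_one, sub_self]
    -- the coefficient `a` is the coefficient of `q^{-(m+1)}` in `P(j)`
    have haeval : Polynomial.aeval (ModularCurve.jqModC ℂ) P =
        Polynomial.aeval (ModularCurve.jqModC ℂ) Q +
          HahnSeries.C a * ModularCurve.jqModC ℂ ^ (m + 1) := by
      rw [hQ, _root_.map_sub, _root_.map_mul, map_pow, Polynomial.aeval_X, Polynomial.aeval_C,
        algebraMap_eq_C]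
      ring
    have hQlow : ∀ k : ℤ, k < -(m : ℤ) →
        (Polynomial.aeval (ModularCurve.jqModC ℂ) Q).coeff k = 0 := by
      intro k hk
      rw [Polynomial.aeval_eq_sum_range' (Nat.lt_succ_of_le hQdeg)]
      rw [HahnSeries.coeff_sum]
      refine Finset.sum_eq_zero fun n hn => ?_
      have hn' : n ≤ m := Nat.lt_succ_iff.mp (Finset.mem_range.mp hn)
      rw [Algebra.smul_def, algebraMap_eq_C, HahnSeries.C_mul_eq_smul, HahnSeries.coeff_smul,
        jqModC_pow_eq, coeff_single_mul_ofPS_of_lt _ _ (by omega), smul_zero]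
    have haC : a ∈ C₀ := by
      have h1 := hc (-((m + 1 : ℕ) : ℤ))
      rw [haeval, HahnSeries.coeff_add, hQlow _ (by push_cast; omega), zero_add,
        HahnSeries.C_mul_eq_smul, HahnSeries.coeff_smul, jqModC_eq,
        coeff_hauptmodul_pow_self _ constantCoeff_jNumC, smul_eq_mul, mul_one] at h1
      exact h1
    have hQc : ∀ k : ℤ, (Polynomial.aeval (ModularCurve.jqModC ℂ) Q).coeff k ∈ C₀ := by
      intro k
      have h1 := hc k
      rw [haeval, HahnSeries.coeff_add, HahnSeries.C_mul_eq_smul, HahnSeries.coeff_smul,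
        smul_eq_mul] at h1
      have h2 : a * (ModularCurve.jqModC ℂ ^ (m + 1)).coeff k ∈ C₀ :=
        C₀.mul_mem haC (coeff_jqModC_pow_mem C₀ _ _)
      have := C₀.sub_mem h1 h2
      simpa using this
    have hQi := ih Q hQdeg hQc i
    have hPi : P.coeff i = Q.coeff i + (Polynomial.C a * Polynomial.X ^ (m + 1)).coeff i := by
      rw [hQ, Polynomial.coeff_sub]
      ring
    rw [hPi]
    refine C₀.add_mem hQi ?_
    rw [Polynomial.coeff_C_mul, Polynomial.coeff_X_pow]
    split_ifs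
    · simpa using haC
    · simp

/-- **The `j`-polynomial principle with coefficients in a subring.** -/
theorem exists_polynomial_of_S_invariant_of_mem (C₀ : Subring ℂ) (F : ℍ → ℂ)
    (φ : LaurentSeries ℂ) (hφ : ∀ n : ℤ, φ.coeff n ∈ C₀) (hF : HasQLaurent 1 F φ)
    (hS : ∀ τ, F (ModularGroup.S • τ) = F τ) :
    ∃ P : Polynomial ℂ, (∀ i, P.coeff i ∈ C₀) ∧
      φ = Polynomial.aeval (ModularCurve.jqModC ℂ) P ∧ ∀ τ, F τ = P.eval (jFun τ) := by
  obtain ⟨P, h1, h2⟩ := exists_polynomial_of_S_invariant' F φ hF hS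
  exact ⟨P, coeff_mem_of_aeval_jqModC C₀ P.natDegree P le_rfl (fun k => h1 ▸ hφ k), h1, h2⟩

end

end Fermat.Agent.S28.H685

end
-- ===== PACK-END S28/H685/JIntegral.lean

-- ===== PACK-BEGIN S29/H222/ESKInt.lean
section
/-
S29 / helper222 — piece ESK, part 1: integral series (`S18.IsInt`) and the action of the
decomposition group of `A` on them.
-/


set_option autoImplicit false
set_option linter.style.haveILetI false

noncomputable section

namespace Fermat.Agent.S29.H222

open ModularCurve AlgebraicCurve HahnSeries IsLocalRing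
open Fermat.Agent.S18 (Qb IsInt toF CoreStatement)

variable {A : ValuationSubring Qb} {N : ℕ}

/-! ### Basic algebra of integral series -/

theorem esk_coeffMap_subtype_injective :
    Function.Injective (coeffMap A.subtype : LaurentSeries A → LaurentSeries Qb) := by
  intro x y hxy
  ext k
  have := congrArg (fun z => z.coeff k) hxy
  simpa using this

theorem isInt_one : IsInt A N (1 : LaurentSeries A) :=
  ⟨by rw [_root_.map_one]; exact one_mem _, by rw [_root_.map_one]; exact one_mem _,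
    by rw [_root_.map_one]; exact one_ne_zero⟩

theorem isInt_mul {U V : LaurentSeries A} (hU : IsInt A N U) (hV : IsInt A N V) :
    IsInt A N (U * V) :=
  ⟨by rw [_root_.map_mul]; exact mul_mem hU.1 hV.1, by rw [_root_.map_mul]; exact mul_mem hU.2.1 hV.2.1,
    by rw [_root_.map_mul]; exact mul_ne_zero hU.2.2 hV.2.2⟩

theorem isInt_pow {U : LaurentSeries A} (hU : IsInt A N U) (n : ℕ) : IsInt A N (U ^ n) :=
  ⟨by rw [map_pow]; exact pow_mem hU.1 n, by rw [map_pow]; exact pow_mem hU.2.1 n,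
    by rw [map_pow]; exact pow_ne_zero n hU.2.2⟩

theorem toF_ne_zero {U : LaurentSeries A} (hU : IsInt A N U) : toF hU ≠ 0 := by
  intro h0
  have h1 : coeffMap A.subtype U = 0 := congrArg Subtype.val h0
  have h2 : U = 0 := esk_coeffMap_subtype_injective (by rw [h1, _root_.map_zero])
  exact hU.2.2 (by rw [h2, _root_.map_zero])

@[simp] theorem coe_toF {U : LaurentSeries A} (hU : IsInt A N U) :
    ((toF hU : modularFunctionFieldBar N) : LaurentSeries Qb) = coeffMap A.subtype U := rfl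

theorem toF_mul {U V : LaurentSeries A} (hU : IsInt A N U) (hV : IsInt A N V) :
    toF (isInt_mul hU hV) = toF hU * toF hV :=
  Subtype.ext (_root_.map_mul _ _ _)

theorem toF_pow {U : LaurentSeries A} (hU : IsInt A N U) (n : ℕ) :
    toF (isInt_pow hU n) = toF hU ^ n :=
  Subtype.ext (map_pow _ _ _)

theorem toF_congr {U V : LaurentSeries A} (hU : IsInt A N U) (hV : IsInt A N V) (h : U = V) :
    toF hU = toF hV := by
  subst h; rfl

/-! ### Coefficientwise ring homomorphisms preserve the function field in characteristic `ℓ` -/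

theorem coeffMap_mem_fullC {k : Type*} [Field k] (φ : k →+* k) {x : LaurentSeries k}
    (hx : x ∈ modularFunctionFieldFullC k N) :
    coeffMap φ x ∈ modularFunctionFieldFullC k N := by
  unfold modularFunctionFieldFullC at hx
  induction hx using IntermediateField.adjoin_induction with
  | mem y hy =>
      obtain ⟨d, hne, hd, rfl⟩ := hy
      haveI := hne
      rw [coeffMap_qExpand, coeffMap_jqModC]
      exact jqModCd_mem_full k N hd
  | algebraMap c =>
      rw [coeffMap_algebraMap]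
      exact (modularFunctionFieldFullC k N).algebraMap_mem _
  | add y z _ _ hy hz => rw [_root_.map_add]; exact add_mem hy hz
  | inv y _ hy => rw [map_inv₀]; exact inv_mem hy
  | mul y z _ _ hy hz => rw [_root_.map_mul]; exact mul_mem hy hz

theorem coeffMap_ne_zero_of_injective {R S : Type*} [CommRing R] [CommRing S] (φ : R →+* S)
    (hφ : Function.Injective φ) {x : LaurentSeries R} (hx : x ≠ 0) : coeffMap φ x ≠ 0 := by
  intro h
  apply hx
  ext n
  have hn := congrArg (fun y : LaurentSeries S => y.coeff n) h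
  simp only [coeffMap_coeff, HahnSeries.coeff_zero] at hn ⊢
  exact hφ (by rw [hn, _root_.map_zero])

/-! ### The decomposition group acts on integral series -/

/-- The ring endomorphism of `A` induced by an element of the decomposition group. -/
def decA (g : A.decompositionSubgroup ℚ) : A →+* A :=
  MulSemiringAction.toRingHom (A.decompositionSubgroup ℚ) A g

@[simp] theorem coe_decA (g : A.decompositionSubgroup ℚ) (a : A) :
    ((decA g a : A) : Qb) = (g : Qb ≃ₐ[ℚ] Qb) (a : Qb) := rfl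

/-- The ring endomorphism of the residue field induced by an element of the decomposition
group. -/
def decK (g : A.decompositionSubgroup ℚ) : ResidueField A →+* ResidueField A :=
  MulSemiringAction.toRingHom (A.decompositionSubgroup ℚ) (ResidueField A) g

theorem decK_residue (g : A.decompositionSubgroup ℚ) (a : A) :
    decK g (residue A a) = residue A (decA g a) := rfl

theorem decK_injective (g : A.decompositionSubgroup ℚ) : Function.Injective (decK g) :=
  (decK g).injective

/-- The coefficientwise action of the decomposition group on `A((q))`. -/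
def galA (g : A.decompositionSubgroup ℚ) : LaurentSeries A →+* LaurentSeries A :=
  coeffMap (decA g)

theorem coeffMap_subtype_galA (g : A.decompositionSubgroup ℚ) (U : LaurentSeries A) :
    coeffMap A.subtype (galA g U)
      = coeffMap (((g : Qb ≃ₐ[ℚ] Qb)) : Qb →+* Qb) (coeffMap A.subtype U) := by
  rw [galA, coeffMap_coeffMap, coeffMap_coeffMap]
  exact coeffMap_congr (RingHom.ext fun a => rfl) U

theorem coeffMap_residue_galA (g : A.decompositionSubgroup ℚ) (U : LaurentSeries A) :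
    coeffMap (residue A) (galA g U) = coeffMap (decK g) (coeffMap (residue A) U) := by
  rw [galA, coeffMap_coeffMap, coeffMap_coeffMap]
  exact coeffMap_congr (RingHom.ext fun a => rfl) U

theorem isInt_galA (g : A.decompositionSubgroup ℚ) {U : LaurentSeries A} (hU : IsInt A N U) :
    IsInt A N (galA g U) := by
  refine ⟨?_, ?_, ?_⟩
  · rw [coeffMap_subtype_galA]
    exact coeffMap_mem_laurentBaseChange (g : Qb ≃ₐ[ℚ] Qb) hU.1
  · rw [coeffMap_residue_galA]
    exact coeffMap_mem_fullC _ hU.2.1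
  · rw [coeffMap_residue_galA]
    exact coeffMap_ne_zero_of_injective _ (decK_injective g) hU.2.2

theorem toF_galA (g : A.decompositionSubgroup ℚ) {U : LaurentSeries A} (hU : IsInt A N U) :
    toF (isInt_galA g hU)
      = arithmeticGalois (modularFunctionFieldFull N) (g : Qb ≃ₐ[ℚ] Qb) • toF hU := by
  apply Subtype.ext
  rw [coe_arithmeticGalois_smul]
  exact coeffMap_subtype_galA g U

end Fermat.Agent.S29.H222

end
end
-- ===== PACK-END S29/H222/ESKInt.lean

-- ===== PACK-BEGIN S37/H700/GaussMain.lean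
section


/-!
# S37 / piece GAUSS (helper700): consequences of `S28.CoreData N k`

`A ⊆ Q̄` a valuation subring, `k = A/𝔪`, `F̄_N = Q̄(j(q^d) : d ∣ N) ⊆ Q̄((q))`,
`F_k = k(j(q^d) : d ∣ N) ⊆ k((q))`.  From `CoreData N k` (output of row S28):

* `normal_form`     : for `u ∈ A((q)) ∩ F̄_N` there are `Q, Pᵢ ∈ A[X]` with
  `Q(j)·u = ∑ Pᵢ(j)·yᵢ` in `A((q))` and `Q mod 𝔪 ≠ 0`;
* `reduction_mem`   : (G1) the coefficientwise reduction of `u` lies in `F_k`;
* `pgi`             : (G2) `PrincipalGeneratedByIntegral A (residue A) N`.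
-/

set_option autoImplicit false

noncomputable section

namespace Fermat.Agent.S37.H700

open ModularCurve HahnSeries Polynomial AlgebraicCurve
open Fermat.Agent.S28 (jField intDivisorExpansions CoreData)

/-- The field `Q̄`. -/
abbrev Qb : Type := AlgebraicClosure ℚ

section Main

variable (N : ℕ) [NeZero N] (A : ValuationSubring Qb)

/-- Reductions of the integral monomials are linearly independent over `k(j)`: pointwise form. -/
theorem eq_zero_of_sum_evalJ_eq_zero {K : Type*} [Field K] {n : ℕ} (yK : Fin n → LaurentSeries K)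
    (hind : LinearIndependent (jField K) yK) (P : Fin n → K[X])
    (h : ∑ i, evalJ K (P i) * yK i = 0) : ∀ i, P i = 0 := by
  intro i
  have h' : ∑ i, (⟨evalJ K (P i), evalJ_mem_jField K (P i)⟩ : jField K) • yK i = 0 := by
    simpa only [smul_jField_def] using h
  have := Fintype.linearIndependent_iff.mp hind _ h' i
  exact (evalJ_eq_zero_iff K).mp (congrArg Subtype.val this)

theorem evalJ_C {R : Type*} [CommRing R] (c : R) :
    evalJ R (Polynomial.C c) = HahnSeries.C c := by
  unfold evalJ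
  rw [Polynomial.eval₂_C]

variable {N A}

omit [NeZero N] in
/-- **Normal form** of a Gauss-integral element of `F̄_N`. -/
theorem normal_form {n : ℕ} (y : Fin n → LaurentSeries ℤ)
    (hy_mem : ∀ i, y i ∈ Subring.closure (intDivisorExpansions N))
    (hy_span : ∀ x ∈ modularFunctionFieldFull N,
      x ∈ Submodule.span (jField ℚ) (Set.range fun i => coeffMap (Int.castRingHom ℚ) (y i)))
    (hy_ind : LinearIndependent (jField (IsLocalRing.ResidueField A))
      (fun i => coeffMap (Int.castRingHom (IsLocalRing.ResidueField A)) (y i)))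
    (u : LaurentSeries A) (hu : coeffMap A.subtype u ∈ modularFunctionFieldBar N) :
    ∃ (Q : Polynomial A) (P : Fin n → Polynomial A),
      evalJ A Q * u = ∑ i, evalJ A (P i) * coeffMap (Int.castRingHom A) (y i) ∧
      Q.map (IsLocalRing.residue A) ≠ 0 := by
  classical
  obtain ⟨Q₀, P₀, hQ₀, h₀⟩ := exists_denominator Qb y
    (mem_spanL_of_mem_baseChange Qb y N hy_mem hy_span hu)
  -- normalise the family `Q₀, P₀ i`
  obtain ⟨c, hc, P', hP', i₀, hi₀⟩ := normalize_family A
    (fun o : Option (Fin n) => o.elim Q₀ P₀) ⟨none, hQ₀⟩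
  have hQ' : (P' none).map A.subtype = Polynomial.C c * Q₀ := hP' none
  have hPi : ∀ i, (P' (some i)).map A.subtype = Polynomial.C c * P₀ i := fun i => hP' (some i)
  have hid : evalJ A (P' none) * u =
      ∑ i, evalJ A (P' (some i)) * coeffMap (Int.castRingHom A) (y i) := by
    apply coeffMap_injective A.subtype_injective
    rw [_root_.map_mul, _root_.map_sum, coeffMap_evalJ, hQ', evalJ_mul, mul_assoc, h₀, Finset.mul_sum]
    refine Finset.sum_congr rfl fun i _ => ?_
    rw [_root_.map_mul, coeffMap_evalJ, hPi, evalJ_mul, coeffMap_coeffMap, mul_assoc]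
    congr 2
  refine ⟨P' none, fun i => P' (some i), hid, fun hzero => ?_⟩
  -- if `Q` reduces to zero, linear independence kills all `P i`, contradiction
  have hred := congrArg (coeffMap (IsLocalRing.residue A)) hid
  rw [_root_.map_mul, _root_.map_sum, coeffMap_evalJ, hzero, evalJ_zero, zero_mul] at hred
  have hred' : ∑ i, evalJ (IsLocalRing.ResidueField A) ((P' (some i)).map (IsLocalRing.residue A)) *
      coeffMap (Int.castRingHom (IsLocalRing.ResidueField A)) (y i) = 0 := by
    rw [hred]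
    refine Finset.sum_congr rfl fun i _ => ?_
    rw [_root_.map_mul, coeffMap_evalJ, coeffMap_coeffMap]
    congr 1
  have hall := eq_zero_of_sum_evalJ_eq_zero _ hy_ind _ hred'
  rcases i₀ with _ | i
  · exact hi₀ hzero
  · exact hi₀ (hall i)

/-- **(G1)** The coefficientwise reduction of a Gauss-integral element of `F̄_N` lies in
`F_k = k(j(q^d) : d ∣ N)`. -/
theorem reduction_mem (hcore : CoreData N (IsLocalRing.ResidueField A))
    (u : LaurentSeries A) (hu : coeffMap A.subtype u ∈ modularFunctionFieldBar N) :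
    coeffMap (IsLocalRing.residue A) u ∈
      modularFunctionFieldFullC (IsLocalRing.ResidueField A) N := by
  obtain ⟨n, y, hy_mem, hy_span, hy_ind⟩ := hcore.exists_basis
  obtain ⟨Q, P, hid, hQ⟩ := normal_form y hy_mem hy_span hy_ind u hu
  have hred := congrArg (coeffMap (IsLocalRing.residue A)) hid
  rw [_root_.map_mul, _root_.map_sum, coeffMap_evalJ] at hred
  have hQ0 : evalJ (IsLocalRing.ResidueField A) (Q.map (IsLocalRing.residue A)) ≠ 0 :=
    fun h => hQ ((evalJ_eq_zero_iff _).mp h)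
  have hjF : jField (IsLocalRing.ResidueField A) ≤
      modularFunctionFieldFullC (IsLocalRing.ResidueField A) N := by
    rw [jField, IntermediateField.adjoin_le_iff]
    rintro x rfl
    exact jqModC_mem_full _ N
  have hmem : ∀ R : Polynomial (IsLocalRing.ResidueField A),
      evalJ (IsLocalRing.ResidueField A) R ∈
        modularFunctionFieldFullC (IsLocalRing.ResidueField A) N :=
    fun R => hjF (evalJ_mem_jField _ R)
  have : coeffMap (IsLocalRing.residue A) u =
      (evalJ (IsLocalRing.ResidueField A) (Q.map (IsLocalRing.residue A)))⁻¹ *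
        ∑ i, coeffMap (IsLocalRing.residue A)
          (evalJ A (P i) * coeffMap (Int.castRingHom A) (y i)) := by
    rw [← hred, ← mul_assoc, inv_mul_cancel₀ hQ0, one_mul]
  rw [this]
  refine mul_mem (inv_mem (hmem _)) (sum_mem fun i _ => ?_)
  rw [_root_.map_mul, coeffMap_evalJ, coeffMap_coeffMap]
  refine mul_mem (hmem _) ?_
  have := coeffMap_intCast_mem_fullC (IsLocalRing.ResidueField A) N (hy_mem i)
  rwa [coeffMap_congr (RingHom.ext_int _ (Int.castRingHom (IsLocalRing.ResidueField A))) (y i)]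


/-- Constants have order zero at every place. -/
theorem ord_algebraMap_eq_zero {K F : Type*} [Field K] [Field F] [Algebra K F]
    (v : Place K F) {c : K} (hc : c ≠ 0) : v.ord (algebraMap K F c) = 0 := by
  have h1 : (⟨algebraMap K F c, v.algebraMap_mem' c⟩ : v.toValuationSubring) *
      ⟨algebraMap K F c⁻¹, v.algebraMap_mem' c⁻¹⟩ = 1 := by
    apply Subtype.ext
    show algebraMap K F c * algebraMap K F c⁻¹ = 1
    rw [← _root_.map_mul, mul_inv_cancel₀ hc, _root_.map_one]
  have h2 : (⟨algebraMap K F c⁻¹, v.algebraMap_mem' c⁻¹⟩ : v.toValuationSubring) *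
      ⟨algebraMap K F c, v.algebraMap_mem' c⟩ = 1 := by
    rw [mul_comm]; exact h1
  exact v.ord_coe_unit ⟨_, _, h1, h2⟩

omit [NeZero N] in
theorem jField_le_bar : jField Qb ≤ modularFunctionFieldBar N := by
  rw [jField, IntermediateField.adjoin_le_iff]
  rintro x rfl
  have h1 : jqModC ℚ ∈ modularFunctionFieldFull N := by
    rw [← modularFunctionFieldFullC_rat]; exact jqModC_mem_full ℚ N
  have := coeffEmb_mem_laurentBaseChange Qb h1
  rwa [coeffEmb, coeffMap_jqModC] at this

omit [NeZero N] in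
theorem C_mem_bar (c : Qb) : (HahnSeries.C c : LaurentSeries Qb) ∈ modularFunctionFieldBar N := by
  have := (modularFunctionFieldBar N).algebraMap_mem c
  rwa [algebraMap_laurentSeries_eq_single] at this

/-- **(G2)** PGI: every principal divisor of `F̄_N` is a difference of two divisors of
Gauss-integral functions with nonzero reduction in `F_k`. -/
theorem pgi (hcore : CoreData N (IsLocalRing.ResidueField A))
    [HasPrincipalDivisors Qb (modularFunctionFieldBar N)] :
    PrincipalGeneratedByIntegral A (IsLocalRing.residue A) N := by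
  classical
  obtain ⟨n, y, hy_mem, hy_span, hy_ind⟩ := hcore.exists_basis
  intro D hD
  obtain ⟨f, hf0, hDf⟩ := hD
  have hfU : (f : LaurentSeries Qb) ≠ 0 := fun h => hf0 (Subtype.ext h)
  obtain ⟨Q₀, P₀, hQ₀, h₀⟩ := exists_denominator Qb y
    (mem_spanL_of_mem_baseChange Qb y N hy_mem hy_span f.2)
  have hQ₀e : evalJ Qb Q₀ ≠ 0 := fun h => hQ₀ ((evalJ_eq_zero_iff Qb).mp h)
  have hP₀ : ∃ i, P₀ i ≠ 0 := by
    by_contra hcon
    push Not at hcon
    have : evalJ Qb Q₀ * (f : LaurentSeries Qb) = 0 := by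
      rw [h₀]
      exact Finset.sum_eq_zero fun i _ => by rw [hcon i, evalJ_zero, zero_mul]
    exact (mul_ne_zero hQ₀e hfU) this
  -- normalise `Q₀` and the `P₀ i` separately
  obtain ⟨cQ, hcQ, Q', hQ', u₀, hQ'red⟩ := normalize_family A (fun _ : Unit => Q₀) ⟨(), hQ₀⟩
  obtain ⟨cP, hcP, P', hP', i₀, hi₀⟩ := normalize_family A P₀ hP₀
  set b : LaurentSeries A := evalJ A (Q' ()) with hb
  set a : LaurentSeries A := ∑ i, evalJ A (P' i) * coeffMap (Int.castRingHom A) (y i) with ha
  have hbL : coeffMap A.subtype b = HahnSeries.C cQ * evalJ Qb Q₀ := by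
    rw [hb, coeffMap_evalJ, hQ' (), evalJ_mul, evalJ_C]
  have haL : coeffMap A.subtype a = HahnSeries.C cP * (evalJ Qb Q₀ * (f : LaurentSeries Qb)) := by
    rw [ha, _root_.map_sum, h₀, Finset.mul_sum]
    refine Finset.sum_congr rfl fun i _ => ?_
    rw [_root_.map_mul, coeffMap_evalJ, hP' i, evalJ_mul, evalJ_C, coeffMap_coeffMap, mul_assoc]
    congr 2
  have hQmem : evalJ Qb Q₀ ∈ modularFunctionFieldBar N := jField_le_bar (evalJ_mem_jField Qb Q₀)
  have hbmem : coeffMap A.subtype b ∈ modularFunctionFieldBar N := by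
    rw [hbL]; exact mul_mem (C_mem_bar cQ) hQmem
  have hamem : coeffMap A.subtype a ∈ modularFunctionFieldBar N := by
    rw [haL]; exact mul_mem (C_mem_bar cP) (mul_mem hQmem f.2)
  -- reductions
  have hbred : coeffMap (IsLocalRing.residue A) b ≠ 0 := by
    rw [hb, coeffMap_evalJ]
    exact fun h => hQ'red ((evalJ_eq_zero_iff _).mp h)
  have hared : coeffMap (IsLocalRing.residue A) a ≠ 0 := by
    intro h
    rw [ha, _root_.map_sum] at h
    have h' : ∑ i, evalJ (IsLocalRing.ResidueField A) ((P' i).map (IsLocalRing.residue A)) *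
        coeffMap (Int.castRingHom (IsLocalRing.ResidueField A)) (y i) = 0 := by
      rw [← h]
      refine Finset.sum_congr rfl fun i _ => ?_
      rw [_root_.map_mul, coeffMap_evalJ, coeffMap_coeffMap]
      congr 1
    exact hi₀ (eq_zero_of_sum_evalJ_eq_zero _ hy_ind _ h' i₀)
  -- the elements of `F̄_N`
  set aF : modularFunctionFieldBar N := ⟨coeffMap A.subtype a, hamem⟩ with haF
  set bF : modularFunctionFieldBar N := ⟨coeffMap A.subtype b, hbmem⟩ with hbF
  set qF : modularFunctionFieldBar N := ⟨evalJ Qb Q₀, hQmem⟩ with hqF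
  have hqF0 : qF ≠ 0 := fun h => hQ₀e (congrArg Subtype.val h)
  have haF_eq : aF = algebraMap Qb (modularFunctionFieldBar N) cP * (qF * f) := by
    apply Subtype.ext
    show coeffMap A.subtype a = algebraMap Qb (LaurentSeries Qb) cP * (evalJ Qb Q₀ * f)
    rw [haL, algebraMap_laurentSeries_eq_single]; rfl
  have hbF_eq : bF = algebraMap Qb (modularFunctionFieldBar N) cQ * qF := by
    apply Subtype.ext
    show coeffMap A.subtype b = algebraMap Qb (LaurentSeries Qb) cQ * evalJ Qb Q₀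
    rw [hbL, algebraMap_laurentSeries_eq_single]; rfl
  have hord : ∀ v : Place Qb (modularFunctionFieldBar N), v.ord f = v.ord aF - v.ord bF := by
    intro v
    have hcP' : algebraMap Qb (modularFunctionFieldBar N) cP ≠ 0 :=
      (_root_.map_ne_zero _).mpr hcP
    have hcQ' : algebraMap Qb (modularFunctionFieldBar N) cQ ≠ 0 :=
      (_root_.map_ne_zero _).mpr hcQ
    rw [haF_eq, hbF_eq, v.ord_mul hcP' (mul_ne_zero hqF0 hf0), v.ord_mul hqF0 hf0,
      v.ord_mul hcQ' hqF0, ord_algebraMap_eq_zero v hcP, ord_algebraMap_eq_zero v hcQ]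
    ring
  obtain ⟨Ea, hEa, -⟩ := HasPrincipalDivisors.exists_divisor (K := Qb) aF
    (fun h => hared (by
      have : coeffMap A.subtype a = 0 := congrArg Subtype.val h
      rw [(coeffMap_injective A.subtype_injective) (this.trans (_root_.map_zero _).symm), _root_.map_zero]))
  obtain ⟨Eb, hEb, -⟩ := HasPrincipalDivisors.exists_divisor (K := Qb) bF
    (fun h => hbred (by
      have : coeffMap A.subtype b = 0 := congrArg Subtype.val h
      rw [(coeffMap_injective A.subtype_injective) (this.trans (_root_.map_zero _).symm), _root_.map_zero]))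
  have hDeq : D = Ea - Eb := by
    ext v
    rw [Finsupp.sub_apply, hDf v, hEa v, hEb v, hord v]
  rw [hDeq]
  refine AddSubgroup.sub_mem _ (AddSubgroup.subset_closure ?_) (AddSubgroup.subset_closure ?_)
  · exact ⟨a, hamem, reduction_mem hcore a hamem, hared, hEa⟩
  · exact ⟨b, hbmem, reduction_mem hcore b hbmem, hbred, hEb⟩

end Main

end Fermat.Agent.S37.H700

end
end
-- ===== PACK-END S37/H700/GaussMain.lean

-- ===== PACK-BEGIN S18/H394/ChartInst.lean
section



/-!
# S18, Route K (helper394): instances for the charts `H138.chart R {x}`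

For `R` noetherian with `R[X]` integrally closed, `F` of characteristic `0`, `x ∈ F` transcendental
over `R` and `F` finite over `baseField R x`: the chart `B = chart R {x}` (integral closure of
`R[x]` in `F`), as a type, is a noetherian integrally closed domain with fraction field `F`.
-/

set_option autoImplicit false
set_option linter.style.haveILetI false

namespace Fermat.Agent.S18.H394

open Polynomial
open Fermat.Agent.S18.H138 (chart baseField)

section ChartInst

variable {R : Type*} [CommRing R] {F : Type*} [Field F] [Algebra R F]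
variable [IsNoetherianRing R] [IsIntegrallyClosed R[X]] [CharZero F]

theorem chart_instances {x : F} (hx : Transcendental R x)
    [FiniteDimensional (baseField R x) F] :
    IsNoetherianRing (chart R ({x} : Set F)) ∧ IsIntegrallyClosed (chart R ({x} : Set F)) ∧
      IsFractionRing (chart R ({x} : Set F)) F := by
  classical
  set A : Subalgebra R F := Algebra.adjoin R ({x} : Set F) with hA
  set K : Subfield F := baseField R x with hK
  haveI := H138.isIntegrallyClosed_adjoin_singleton (R := R) hx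
  haveI := H138.isNoetherianRing_adjoin_singleton (R := R) hx
  let φ : A →+* K :=
    { toFun := fun a => ⟨a, H138.adjoin_le_baseField x a.2⟩
      map_one' := rfl
      map_mul' := fun _ _ => rfl
      map_zero' := rfl
      map_add' := fun _ _ => rfl }
  letI : Algebra A K := φ.toAlgebra
  haveI : IsScalarTower A K F := IsScalarTower.of_algebraMap_eq (fun _ => rfl)
  have hinj : Function.Injective (algebraMap A K) := by
    intro a b hab
    have : (a : F) = b := congrArg (fun t : K => (t : F)) hab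
    exact Subtype.ext this
  haveI : FaithfulSMul A K := (faithfulSMul_iff_algebraMap_injective A K).2 hinj
  haveI : IsFractionRing A K := by
    refine IsFractionRing.of_field A K (fun z => ?_)
    obtain ⟨a, ha, b, hb, h⟩ := H138.exists_div_of_mem_baseField (R := R) x z.2
    exact ⟨⟨a, ha⟩, ⟨b, hb⟩, Subtype.ext h⟩
  haveI : CharZero K := (algebraMap K F).charZero
  have h1 : IsNoetherianRing (integralClosure A F) := integralClosure.isNoetherianRing (K := K) F
  have h2 : IsIntegrallyClosed (integralClosure A F) :=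
    integralClosure.isIntegrallyClosedOfFiniteExtension K
  have h3 : IsFractionRing (integralClosure A F) F :=
    integralClosure.isFractionRing_of_finite_extension K F
  exact ⟨h1, h2, h3⟩

end ChartInst

end Fermat.Agent.S18.H394

end
-- ===== PACK-END S18/H394/ChartInst.lean

-- ===== PACK-BEGIN S18/B12/H33/Core.lean
section



/-!
# S18 b2.5 (helper33): `B2CoreAbsStatement` from the assembly pieces A0, A2, A2', A3, A4, A5, A5'
-/

set_option autoImplicit false

noncomputable section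

namespace Fermat.Agent.S18.B12.H33

open Polynomial

universe u v

section Setup

variable {P : Type u} [CommRing P] [IsDomain P] [UniqueFactorizationMonoid P] [IsNoetherianRing P]
  {B : Type v} [CommRing B] [IsDomain B] [IsIntegrallyClosed B] [Algebra P B]
  [Module.Finite P B] [Module.IsTorsionFree P B]

/-- Local bases restrict to smaller ideals. -/
theorem IsLocalBasis.mono {𝔪 𝔫 : Ideal P} (h𝔫 : 𝔫 ≤ 𝔪) {n : ℕ} {x : Fin n → B}
    (hx : IsLocalBasis P B 𝔪 n x) : IsLocalBasis P B 𝔫 n x := by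
  obtain ⟨hli, g, hg, hsp⟩ := hx
  exact ⟨hli, g, fun h => hg (h𝔫 h), hsp⟩

/-- For a local basis at `𝔪 ∋ π` (prime), `π ∣ ∑ aᵢ xᵢ` in `B` forces `π ∣ aᵢ`. -/
theorem IsLocalBasis.dvd_coeff {𝔪 : Ideal P} {n : ℕ} {x : Fin n → B}
    (hx : IsLocalBasis P B 𝔪 n x) {π : P} (hπ : Prime π) (hπ𝔪 : π ∈ 𝔪)
    (a : Fin n → P) (h : (∑ i, a i • x i) ∈ Ideal.span {algebraMap P B π}) (i : Fin n) :
    π ∣ a i := by
  obtain ⟨hli, g, hg, hsp⟩ := hx
  rw [Ideal.mem_span_singleton] at h
  obtain ⟨b, hb⟩ := h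
  have hgb := hsp b
  rw [Submodule.mem_span_range_iff_exists_fun] at hgb
  obtain ⟨c, hc⟩ := hgb
  -- ∑ (g aᵢ - π cᵢ) xᵢ = 0
  have hrel : ∑ j, (g * a j - π * c j) • x j = 0 := by
    have h1 : ∑ j, (g * a j - π * c j) • x j
        = g • (∑ j, a j • x j) - π • (∑ j, c j • x j) := by
      rw [Finset.smul_sum, Finset.smul_sum, ← Finset.sum_sub_distrib]
      refine Finset.sum_congr rfl fun j _ => ?_
      rw [sub_smul, mul_smul, mul_smul]
    rw [h1, hc, hb, Algebra.smul_def, Algebra.smul_def, Algebra.smul_def]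
    ring
  have hz := Fintype.linearIndependent_iff.mp hli _ hrel i
  have hdvd : π ∣ g * a i := ⟨c i, by linear_combination hz⟩
  rcases hπ.dvd_or_dvd hdvd with h | h
  · exact absurd (Ideal.mem_of_dvd 𝔪 h hπ𝔪) hg
  · exact h

end Setup

end Fermat.Agent.S18.B12.H33

namespace Fermat.Agent.S18.B12.H33

open Polynomial

universe u v

set_option linter.unusedSectionVars false
set_option linter.unusedVariables false

section Main

variable {P : Type u} [CommRing P] [IsDomain P] (w : P)
  {B : Type v} [CommRing B] [Algebra P B]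


/-- Reduction of a radical-membership from `B` to `B/wB`. -/
theorem mk_sub_sum_mem_radical {r : ℕ} (y : Fin r → B) (q : P) (t : (P ⧸ Ideal.span {w}))
    (hqt : Associated (Ideal.Quotient.mk (Ideal.span {w}) q) t)
    (c : B) (a : Fin r → P)
    (h : c - ∑ i, a i • y i ∈ (Ideal.span {algebraMap P B w, algebraMap P B q}).radical) :
    (Ideal.Quotient.mk ((Ideal.span {w}).map (algebraMap P B)) c : (B ⧸ (Ideal.span {w}).map (algebraMap P B)))
      - ∑ i, (Ideal.Quotient.mk (Ideal.span {w}) (a i)) •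
          (Ideal.Quotient.mk ((Ideal.span {w}).map (algebraMap P B)) (y i) : (B ⧸ (Ideal.span {w}).map (algebraMap P B))) ∈
      (Ideal.span {algebraMap (P ⧸ Ideal.span {w}) (B ⧸ (Ideal.span {w}).map (algebraMap P B)) t}).radical := by
  obtain ⟨k, hk⟩ := h
  refine ⟨k, ?_⟩
  have e1 : (Ideal.Quotient.mk ((Ideal.span {w}).map (algebraMap P B)) c : (B ⧸ (Ideal.span {w}).map (algebraMap P B)))
      - ∑ i, (Ideal.Quotient.mk (Ideal.span {w}) (a i)) •
          (Ideal.Quotient.mk ((Ideal.span {w}).map (algebraMap P B)) (y i) : (B ⧸ (Ideal.span {w}).map (algebraMap P B)))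
      = Ideal.Quotient.mk ((Ideal.span {w}).map (algebraMap P B)) (c - ∑ i, a i • y i) := by
    rw [_root_.map_sub, _root_.map_sum]
    congr 1
  rw [e1, ← _root_.map_pow]
  rw [Ideal.mem_span_pair] at hk
  obtain ⟨c₁, c₂, hc⟩ := hk
  rw [← hc, _root_.map_add, _root_.map_mul, _root_.map_mul]
  have hw0 : Ideal.Quotient.mk ((Ideal.span {w}).map (algebraMap P B)) (algebraMap P B w) = 0 :=
    Ideal.Quotient.eq_zero_iff_mem.mpr
      (Ideal.mem_map_of_mem _ (Ideal.mem_span_singleton_self w))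
  rw [hw0, mul_zero, zero_add]
  have hq' : Ideal.Quotient.mk ((Ideal.span {w}).map (algebraMap P B)) (algebraMap P B q)
      = algebraMap (P ⧸ Ideal.span {w}) (B ⧸ (Ideal.span {w}).map (algebraMap P B)) (Ideal.Quotient.mk (Ideal.span {w}) q) := rfl
  rw [hq']
  obtain ⟨v, hv⟩ := hqt
  rw [Ideal.mem_span_singleton]
  refine Dvd.dvd.mul_left ?_ _
  rw [← hv, _root_.map_mul]
  exact ⟨algebraMap (P ⧸ Ideal.span {w}) (B ⧸ (Ideal.span {w}).map (algebraMap P B)) ((v⁻¹ : (P ⧸ Ideal.span {w})ˣ) : (P ⧸ Ideal.span {w})), by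
    rw [mul_assoc, ← _root_.map_mul, Units.mul_inv, _root_.map_one, mul_one]⟩

end Main

end Fermat.Agent.S18.B12.H33

end
end
-- ===== PACK-END S18/B12/H33/Core.lean

-- ===== PACK-BEGIN S55/Bridge/H594/Lift.lean
section



/-!
# S55 bridge (helper594), piece B14: lifting decomposition and inertia elements

`F ⊂ ℚ̄` a normal intermediate field, `A` a valuation subring of `ℚ̄` over a prime number `q`.

* `exists_decomposition_lift`: every `τ ∈ Gal(F/ℚ)` stabilising the prime of `𝓞_F` below `A`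
  is the restriction of an element of the decomposition group of `A`;
* `exists_inertia_lift`: every `τ ∈ Gal(F/ℚ)` acting trivially on `𝓞_F` modulo the prime below
  `A` is the restriction of an element of the inertia group of `A`.
-/

set_option autoImplicit false
set_option linter.style.haveILetI false

namespace Fermat.Agent.S55.Bridge.H594

open Fermat.Agent.S54 Fermat.Agent.S55.Bridge
open scoped Pointwise

attribute [local instance] isAlgebraic_Qbar isGalois_Qbar

section lift

variable (F : IntermediateField ℚ (AlgebraicClosure ℚ))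

/-- An algebraic integer fixed by `Gal(ℚ̄/F)` lies in `F`. -/
theorem coe_mem_of_forall_fixingSubgroup_smul_eq
    (b : integralClosure ℤ (AlgebraicClosure ℚ))
    (hb : ∀ h : F.fixingSubgroup, h • b = b) : (b : AlgebraicClosure ℚ) ∈ F := by
  have h1 : (b : AlgebraicClosure ℚ) ∈ IntermediateField.fixedField F.fixingSubgroup := by
    intro h
    exact congrArg Subtype.val (hb h)
  rwa [InfiniteGalois.fixedField_fixingSubgroup] at h1

variable [Normal ℚ F]

theorem restrictNormalHom_apply (σ : AlgebraicClosure ℚ ≃ₐ[ℚ] AlgebraicClosure ℚ) (x : F) :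
    ((AlgEquiv.restrictNormalHom F σ x : F) : AlgebraicClosure ℚ) = σ (x : AlgebraicClosure ℚ) :=
  AlgEquiv.restrictNormal_commutes σ F x

theorem restrictNormalHom_eq_one_of_mem_fixingSubgroup
    (h : AlgebraicClosure ℚ ≃ₐ[ℚ] AlgebraicClosure ℚ) (hh : h ∈ F.fixingSubgroup) :
    AlgEquiv.restrictNormalHom F h = 1 := by
  apply AlgEquiv.ext
  intro x
  apply Subtype.ext
  rw [restrictNormalHom_apply]
  exact (IntermediateField.mem_fixingSubgroup_iff F h).mp hh x x.2

variable (A : ValuationSubring (AlgebraicClosure ℚ))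

/-- **B14, decomposition part.**  If `τ ∈ Gal(F/ℚ)` preserves the non-units of `A` among the
integers of `F`, then `τ` lifts to the decomposition group of `A`. -/
theorem exists_decomposition_lift {q : ℕ} (hq : q.Prime) (hA : A.LiesOverPrime q)
    (τ : F ≃ₐ[ℚ] F)
    (hτ : ∀ x : F, IsIntegral ℤ x →
      (((τ x : F) : AlgebraicClosure ℚ) ∈ A.nonunits ↔ (x : AlgebraicClosure ℚ) ∈ A.nonunits)) :
    ∃ σ ∈ A.decompositionSubgroup ℚ, AlgEquiv.restrictNormalHom F σ = τ := by
  letI : TopologicalSpace (integralClosure ℤ (AlgebraicClosure ℚ)) := ⊥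
  haveI : DiscreteTopology (integralClosure ℤ (AlgebraicClosure ℚ)) := ⟨rfl⟩
  haveI := continuousSMul_integralClosure
  haveI := primeBelow_isPrime A
  obtain ⟨τ₀, hτ₀⟩ := AlgEquiv.restrictNormalHom_surjective (F := ℚ) (K₁ := F)
    (AlgebraicClosure ℚ) τ
  haveI : (τ₀ • primeBelow A).IsPrime := by
    rw [Ideal.pointwise_smul_eq_comap]
    exact Ideal.comap_isPrime _ _
  have hPQ : ∀ b : integralClosure ℤ (AlgebraicClosure ℚ),
      (∀ h : F.fixingSubgroup, h • b = b) → (b ∈ primeBelow A ↔ b ∈ τ₀ • primeBelow A) := by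
    intro b hb
    have hbF : (b : AlgebraicClosure ℚ) ∈ F := coe_mem_of_forall_fixingSubgroup_smul_eq F b hb
    rw [Ideal.mem_pointwise_smul_iff_inv_smul_mem, mem_primeBelow, mem_primeBelow, coe_smul]
    -- `x = τ⁻¹ b`
    have hx : IsIntegral ℤ (τ⁻¹ ⟨(b : AlgebraicClosure ℚ), hbF⟩ : F) := by
      have hbint : IsIntegral ℤ (⟨(b : AlgebraicClosure ℚ), hbF⟩ : F) := by
        have := b.2
        exact (isIntegral_algebraMap_iff
          (FaithfulSMul.algebraMap_injective F (AlgebraicClosure ℚ))).mp this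
      exact hbint.map (τ⁻¹ : F ≃ₐ[ℚ] F)
    have h1 := hτ _ hx
    have h2 : τ (τ⁻¹ ⟨(b : AlgebraicClosure ℚ), hbF⟩ : F) = ⟨(b : AlgebraicClosure ℚ), hbF⟩ := by
      show (τ * τ⁻¹) _ = _
      rw [mul_inv_cancel]; rfl
    rw [h2] at h1
    have h3 : ((τ⁻¹ ⟨(b : AlgebraicClosure ℚ), hbF⟩ : F) : AlgebraicClosure ℚ) =
        τ₀⁻¹ (b : AlgebraicClosure ℚ) := by
      rw [← hτ₀, ← map_inv, restrictNormalHom_apply]
    rw [h3] at h1
    exact h1
  obtain ⟨h, hh⟩ := exists_smul_eq_of_forall_fixed_mem_iff (B := integralClosure ℤ (AlgebraicClosure ℚ))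
    F.fixingSubgroup (InfiniteGalois.fixingSubgroup_isClosed F) (τ₀ • primeBelow A)
    (primeBelow A) (fun b hb => (hPQ b hb).symm)
  refine ⟨(h : AlgebraicClosure ℚ ≃ₐ[ℚ] AlgebraicClosure ℚ) * τ₀, ?_, ?_⟩
  · rw [mem_decompositionSubgroup_iff_smul_primeBelow A hq hA, mul_smul, ← hh]
  · rw [map_mul, restrictNormalHom_eq_one_of_mem_fixingSubgroup F h h.2, one_mul, hτ₀]

/-- **B14, inertia part.**  If `τ ∈ Gal(F/ℚ)` acts trivially modulo the non-units of `A` on the
integers of `F`, then `τ` lifts to the inertia group of `A`. -/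
theorem exists_inertia_lift {q : ℕ} (hq : q.Prime) (hA : A.LiesOverPrime q)
    (τ : F ≃ₐ[ℚ] F)
    (hτ : ∀ x : F, IsIntegral ℤ x →
      ((τ x : F) : AlgebraicClosure ℚ) - (x : AlgebraicClosure ℚ) ∈ A.nonunits) :
    ∃ σ ∈ A.inertiaSubgroupIn ℚ, AlgEquiv.restrictNormalHom F σ = τ := by
  letI : TopologicalSpace (integralClosure ℤ (AlgebraicClosure ℚ)) := ⊥
  haveI : DiscreteTopology (integralClosure ℤ (AlgebraicClosure ℚ)) := ⟨rfl⟩
  haveI := continuousSMul_integralClosure
  haveI := primeBelow_isPrime A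
  have hτ' : ∀ x : F, IsIntegral ℤ x →
      (((τ x : F) : AlgebraicClosure ℚ) ∈ A.nonunits ↔
        (x : AlgebraicClosure ℚ) ∈ A.nonunits) := by
    intro x hx
    constructor
    · intro h
      have := A.nonunits.sub_mem h (hτ x hx)
      simpa using this
    · intro h
      have := A.nonunits.add_mem (hτ x hx) h
      simpa using this
  obtain ⟨σ₁, hσ₁D, hσ₁⟩ := exists_decomposition_lift F A hq hA τ hτ'
  have hσ₁P : σ₁ • primeBelow A = primeBelow A :=
    (mem_decompositionSubgroup_iff_smul_primeBelow A hq hA σ₁).mp hσ₁D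
  have hfix : ∀ b : integralClosure ℤ (AlgebraicClosure ℚ),
      (∀ h : F.fixingSubgroup, h • b = b) → σ₁ • b - b ∈ primeBelow A := by
    intro b hb
    have hbF : (b : AlgebraicClosure ℚ) ∈ F := coe_mem_of_forall_fixingSubgroup_smul_eq F b hb
    have hbint : IsIntegral ℤ (⟨(b : AlgebraicClosure ℚ), hbF⟩ : F) :=
      (isIntegral_algebraMap_iff
        (FaithfulSMul.algebraMap_injective F (AlgebraicClosure ℚ))).mp b.2
    have h1 := hτ _ hbint
    rw [← hσ₁, restrictNormalHom_apply] at h1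
    exact h1
  obtain ⟨h, hhP, hh⟩ := exists_stabilizer_congr_of_forall_fixed
    (B := integralClosure ℤ (AlgebraicClosure ℚ)) F.fixingSubgroup
    (InfiniteGalois.fixingSubgroup_isClosed F) (primeBelow A) σ₁ hσ₁P hfix
  have hhP' : ∀ b : integralClosure ℤ (AlgebraicClosure ℚ),
      b ∈ primeBelow A → (h : AlgebraicClosure ℚ ≃ₐ[ℚ] AlgebraicClosure ℚ)⁻¹ • b ∈ primeBelow A := by
    intro b hb
    have := (smul_primeBelow_eq_iff A _).mp hhP
      ((h : AlgebraicClosure ℚ ≃ₐ[ℚ] AlgebraicClosure ℚ)⁻¹ • b)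
    rw [smul_inv_smul] at this
    exact this.mp hb
  refine ⟨(h : AlgebraicClosure ℚ ≃ₐ[ℚ] AlgebraicClosure ℚ)⁻¹ * σ₁, ?_, ?_⟩
  · rw [mem_inertiaSubgroupIn_iff_primeBelow A hq hA]
    intro b
    have h1 : σ₁ • b - (h : AlgebraicClosure ℚ ≃ₐ[ℚ] AlgebraicClosure ℚ) • b ∈ primeBelow A := by
      have := (primeBelow A).neg_mem (hh b)
      simpa using this
    have h2 := hhP' _ h1
    rw [smul_sub, inv_smul_smul] at h2
    rw [mul_smul]
    exact h2
  · rw [map_mul, map_inv, restrictNormalHom_eq_one_of_mem_fixingSubgroup F h h.2, inv_one,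
      one_mul, hσ₁]

end lift

end Fermat.Agent.S55.Bridge.H594

end
-- ===== PACK-END S55/Bridge/H594/Lift.lean

-- ===== PACK-BEGIN Lib/RR/H409/Riemann.lean
section



/-!
# RR library, layer L3.1: Riemann's theorem (exact skeleton statement)

Obtained from `exists_riemann_bound_of` (file `RiemannOf.lean`, which does not depend on layer
L2) and the pole bound `sum_neg_ord_le_finrank` of layer L2.
-/

set_option autoImplicit false

noncomputable section

open AlgebraicCurve

namespace Fermat.Agent.Lib.RR.H409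

open Fermat.Agent.Lib.RR

variable (K F : Type*) [Field K] [Field F] [Algebra K F]

/-- **L3.1** Riemann's theorem: `deg D - ℓ(D)` is bounded above. -/
theorem exists_riemann_bound [FF1 K F] :
    ∃ γ : ℤ, ∀ D : Divisor K F, Divisor.degree D - ell D ≤ γ :=
  exists_riemann_bound_of fun x _ S hS => sum_neg_ord_le_finrank FF1.deg_eq_one x S hS

end Fermat.Agent.Lib.RR.H409

end
end
-- ===== PACK-END Lib/RR/H409/Riemann.lean

-- ===== PACK-BEGIN Lib/RR/H80/OneDim.lean
section


/-!
# RR library, layer L5 (helper80): the Weil differentials form a one-dimensional `F`-space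

Inputs from layers L3/L4 are taken as explicit hypotheses:
* `hfin : ∀ D, Module.Finite K (H1 D)`,
* `hrr  : ∀ D, ℓ(D) - dim H¹(D) = deg D + 1 - g`.
-/

set_option autoImplicit false

noncomputable section

open AlgebraicCurve

namespace Fermat.Agent.Lib.RR.H80

open Fermat.Agent.Lib.RR

variable {K F : Type*} [Field K] [Field F] [Algebra K F]

/-- For `x ∈ L(A + B)`, `x ω ∈ Ω(-B)` whenever `ω ∈ Ω(A)`. -/
theorem smulD_mem_Om_neg [HasPrincipalDivisors K F] {A B : Divisor K F}
    {ω : Module.Dual K ↥(repartitions K F)} (hω : ω ∈ Om A) {x : F}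
    (hx : x ∈ riemannRochSpace (A + B)) : smulD x ω ∈ Om (-B) := by
  rcases eq_or_ne x 0 with rfl | hx0
  · rw [smulD_zero_left]; exact Submodule.zero_mem _
  obtain ⟨E, hE, -⟩ := HasPrincipalDivisors.exists_divisor (K := K) x hx0
  have h1 : smulD x ω ∈ Om (A + E) := smulD_mem_Om hx0 hE hω
  refine Om_anti ?_ h1
  rw [Finsupp.le_def]
  intro v
  have := (mem_L_iff.mp hx v).resolve_left hx0
  simp only [Finsupp.coe_add, Pi.add_apply, Finsupp.coe_neg, Pi.neg_apply, hE v] at this ⊢
  omega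

theorem map_muMap_le [HasPrincipalDivisors K F] {A B : Divisor K F}
    {ω : Module.Dual K ↥(repartitions K F)} (hω : ω ∈ Om A) :
    Submodule.map (muMap ω) (riemannRochSpace (A + B)) ≤ Om (-B) := by
  rintro _ ⟨x, hx, rfl⟩
  exact smulD_mem_Om_neg hω hx

theorem finrank_map_muMap {ω : Module.Dual K ↥(repartitions K F)} (hω : ω ≠ 0)
    (D : Divisor K F) :
    Module.finrank K (Submodule.map (muMap ω) (riemannRochSpace D)) = ell D :=
  (Submodule.equivMapOfInjective (muMap ω) (muMap_injective hω)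
    (riemannRochSpace D)).finrank_eq.symm

section Input

variable [FF1 K F] {g : ℤ}

theorem genus_eq_of_rr
    (hrr : ∀ D : Divisor K F,
      (ell D : ℤ) - Module.finrank K (H1 D) = Divisor.degree D + 1 - g) :
    g = Module.finrank K (H1 (0 : Divisor K F)) := by
  have h := hrr 0
  rw [ell_zero, map_zero] at h
  push_cast at h
  omega

theorem genus_nonneg_of_rr
    (hrr : ∀ D : Divisor K F,
      (ell D : ℤ) - Module.finrank K (H1 D) = Divisor.degree D + 1 - g) : 0 ≤ g := by
  rw [genus_eq_of_rr hrr]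
  exact Int.natCast_nonneg _

omit [FF1 K F] in
theorem finrank_Om_eq
    (hrr : ∀ D : Divisor K F,
      (ell D : ℤ) - Module.finrank K (H1 D) = Divisor.degree D + 1 - g) (D : Divisor K F) :
    (Module.finrank K (Om D) : ℤ) = ell D - Divisor.degree D - 1 + g := by
  rw [finrank_Om]
  have := hrr D
  omega

omit [FF1 K F] in
theorem ell_ge_of_rr
    (hrr : ∀ D : Divisor K F,
      (ell D : ℤ) - Module.finrank K (H1 D) = Divisor.degree D + 1 - g) (D : Divisor K F) :
    Divisor.degree D + 1 - g ≤ ell D := by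
  have := hrr D
  have h2 : (0 : ℤ) ≤ Module.finrank K (H1 D) := Int.natCast_nonneg _
  omega

/-- **Existence of a nonzero Weil differential.** -/
theorem exists_ne_zero_mem_Om
    (hrr : ∀ D : Divisor K F,
      (ell D : ℤ) - Module.finrank K (H1 D) = Divisor.degree D + 1 - g) :
    ∃ (A : Divisor K F) (ω : Module.Dual K ↥(repartitions K F)), ω ∈ Om A ∧ ω ≠ 0 := by
  obtain ⟨P⟩ := (FF1.nonempty_place : Nonempty (Place K F))
  let A : Divisor K F := -(prim P + prim P)
  have hdeg : Divisor.degree A = -2 := by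
    simp only [A, map_neg, map_add, degree_prim']; norm_num
  have hell : ell A = 0 := ell_eq_zero_of_degree_neg (by rw [hdeg]; norm_num)
  have hfr := finrank_Om_eq hrr A
  rw [hell, hdeg] at hfr
  have hg := genus_nonneg_of_rr hrr
  have hpos : 0 < Module.finrank K (Om A) := by
    have : (0 : ℤ) < Module.finrank K (Om A) := by rw [hfr]; push_cast; omega
    exact_mod_cast this
  have : Nontrivial (Om A) := Module.nontrivial_of_finrank_pos hpos
  obtain ⟨ω, hω⟩ := exists_ne (0 : Om A)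
  exact ⟨A, ω, ω.2, fun h => hω (Subtype.ext h)⟩

/-- **One-dimensionality**: any Weil differential is an `F`-multiple of a given nonzero one. -/
theorem exists_smulD_eq
    (hfin : ∀ D : Divisor K F, Module.Finite K (H1 D))
    (hrr : ∀ D : Divisor K F,
      (ell D : ℤ) - Module.finrank K (H1 D) = Divisor.degree D + 1 - g)
    {A₁ A₂ : Divisor K F} {ω₁ ω₂ : Module.Dual K ↥(repartitions K F)}
    (h₁ : ω₁ ∈ Om A₁) (h₁0 : ω₁ ≠ 0) (h₂ : ω₂ ∈ Om A₂) :
    ∃ z : F, ω₂ = smulD z ω₁ := by
  classical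
  rcases eq_or_ne ω₂ 0 with rfl | h₂0
  · exact ⟨0, (smulD_zero_left _).symm⟩
  obtain ⟨P⟩ := (FF1.nonempty_place : Nonempty (Place K F))
  -- choose `B = n P` with `n` large
  let N : ℤ := 3 * g - 3 - Divisor.degree A₁ - Divisor.degree A₂
  let n : ℕ := (max N 0 + 1).toNat
  have hn : (n : ℤ) = max N 0 + 1 := Int.toNat_of_nonneg (by positivity)
  have hnN : N < n := by rw [hn]; have := le_max_left N 0; omega
  have hn1 : (1 : ℤ) ≤ n := by rw [hn]; have := le_max_right N 0; omega
  let B : Divisor K F := n • prim P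
  have hdegB : Divisor.degree B = n := by
    simp only [B, map_nsmul, degree_prim']; simp
  let U₁ := Submodule.map (muMap ω₁) (riemannRochSpace (A₁ + B))
  let U₂ := Submodule.map (muMap ω₂) (riemannRochSpace (A₂ + B))
  have hU₁ : U₁ ≤ Om (-B) := map_muMap_le h₁
  have hU₂ : U₂ ≤ Om (-B) := map_muMap_le h₂
  have := hfin (-B)
  have : Module.Finite K (Om (-B)) := finite_Om (-B)
  have : Module.Finite K U₁ := Submodule.finiteDimensional_of_le hU₁
  have : Module.Finite K U₂ := Submodule.finiteDimensional_of_le hU₂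
  have hinter : U₁ ⊓ U₂ ≠ ⊥ := by
    intro hbot
    have hsum := Submodule.finrank_sup_add_finrank_inf_eq U₁ U₂
    rw [hbot, finrank_bot, add_zero] at hsum
    have hle : Module.finrank K ↥(U₁ ⊔ U₂) ≤ Module.finrank K (Om (-B)) :=
      Submodule.finrank_mono (sup_le hU₁ hU₂)
    have e1 : Module.finrank K U₁ = ell (A₁ + B) := finrank_map_muMap h₁0 _
    have e2 : Module.finrank K U₂ = ell (A₂ + B) := finrank_map_muMap h₂0 _
    have e3 := finrank_Om_eq hrr (-B)
    have hellB : ell (-B) = 0 :=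
      ell_eq_zero_of_degree_neg (by rw [map_neg, hdegB]; omega)
    rw [hellB, map_neg, hdegB] at e3
    have g1 := ell_ge_of_rr hrr (A₁ + B)
    have g2 := ell_ge_of_rr hrr (A₂ + B)
    rw [map_add, hdegB] at g1 g2
    have hsumZ : (Module.finrank K ↥(U₁ ⊔ U₂) : ℤ) = ell (A₁ + B) + ell (A₂ + B) := by
      rw [hsum, e1, e2]; push_cast; ring
    have hleZ : (Module.finrank K ↥(U₁ ⊔ U₂) : ℤ) ≤ Module.finrank K (Om (-B)) := by
      exact_mod_cast hle
    push_cast at e3
    simp only [N] at hnN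
    omega
  obtain ⟨η, hη, hη0⟩ := Submodule.exists_mem_ne_zero_of_ne_bot hinter
  obtain ⟨⟨x₁, -, hx₁⟩, ⟨x₂, -, hx₂⟩⟩ := Submodule.mem_inf.mp hη
  rw [muMap_apply] at hx₁ hx₂
  have hx₂0 : x₂ ≠ 0 := by
    rintro rfl
    rw [smulD_zero_left] at hx₂
    exact hη0 hx₂.symm
  refine ⟨x₂⁻¹ * x₁, ?_⟩
  rw [← smulD_smulD, hx₁, ← hx₂, smulD_smulD, inv_mul_cancel₀ hx₂0, smulD_one]

end Input

end Fermat.Agent.Lib.RR.H80

end
end
-- ===== PACK-END Lib/RR/H80/OneDim.lean

-- ===== PACK-BEGIN S37/H159/MDiscr.lean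
section



/-!
# Theorem M, part 4: traces and discriminants reduce
(row S37, piece R-b; seat helper159)

For `f ∈ B = O ∩ B_η` the trace `Tr_{B_η/K[x]} f` is a polynomial with coefficients in `A` whose
reduction is `Tr_{T/k[x̄]} (ρ f)`.  Consequently the discriminant of a lifted basis is a polynomial
`D ∈ A[X]` reducing to the discriminant of the basis of `T`.
-/

set_option autoImplicit false
set_option linter.unusedSectionVars false
set_option linter.style.haveILetI false

namespace Fermat.Agent.S37.H159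

open Polynomial

theorem isSeparable_of_charZero (K : Type*) [Field K] [CharZero K] (L₀ F : Type*) [Field L₀]
    [Field F] [Algebra K[X] L₀] [IsFractionRing K[X] L₀] [Algebra L₀ F]
    [FiniteDimensional L₀ F] : Algebra.IsSeparable L₀ F := by
  haveI : CharZero L₀ := charZero_of_injective_algebraMap (IsFractionRing.injective K[X] L₀)
  exact Algebra.IsSeparable.of_integral L₀ F

namespace RedCtx

variable {K : Type*} [Field K] [CharZero K] {A : ValuationSubring K} {k : Type*} [Field k]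
  {F : Type*} [Field F] [Algebra K[X] F] {Fk : Type*} [Field Fk] [Algebra k[X] Fk]
  (G : RedCtx A k F Fk)

variable (L₀ : Type*) [Field L₀] [Algebra K[X] L₀] [IsFractionRing K[X] L₀] [Algebra L₀ F]
  [IsScalarTower K[X] L₀ F] [FiniteDimensional L₀ F]
variable (L₀k : Type*) [Field L₀k] [Algebra k[X] L₀k] [IsFractionRing k[X] L₀k] [Algebra L₀k Fk]
  [IsScalarTower k[X] L₀k Fk] [FiniteDimensional L₀k Fk] [Algebra.IsSeparable L₀k Fk]

include L₀ in
theorem algebraMap_injective_K : Function.Injective (algebraMap K[X] F) := by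
  rw [IsScalarTower.algebraMap_eq K[X] L₀ F]
  exact (algebraMap L₀ F).injective.comp (IsFractionRing.injective K[X] L₀)

include L₀ in
theorem isTorsionFree_F : Module.IsTorsionFree K[X] F :=
  Module.isTorsionFree_iff_algebraMap_injective.mpr (algebraMap_injective_K (F := F) L₀)

include L₀ in
theorem finite_Tη : Module.Finite K[X] (integralClosure K[X] F) := by
  haveI := isSeparable_of_charZero K L₀ F
  exact IsIntegralClosure.finite K[X] L₀ F (integralClosure K[X] F)

include L₀ in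
theorem free_Tη : Module.Free K[X] (integralClosure K[X] F) := by
  haveI := isSeparable_of_charZero K L₀ F
  haveI := isTorsionFree_F (K := K) (F := F) L₀
  exact IsIntegralClosure.module_free K[X] L₀ F (integralClosure K[X] F)

include L₀ in
theorem finrank_Tη : Module.finrank K[X] (integralClosure K[X] F) = Module.finrank L₀ F := by
  haveI := isSeparable_of_charZero K L₀ F
  haveI := isTorsionFree_F (K := K) (F := F) L₀
  exact IsIntegralClosure.rank K[X] L₀ F (integralClosure K[X] F)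

/-- Trace of `B_η / K[x]` versus trace of `F / K(x)`. -/
theorem algebraMap_trace_Tη (f : integralClosure K[X] F) :
    algebraMap K[X] L₀ (Algebra.trace K[X] (integralClosure K[X] F) f) =
      Algebra.trace L₀ F (f : F) := by
  haveI := finite_Tη (K := K) (F := F) L₀
  haveI := free_Tη (K := K) (F := F) L₀
  haveI : IsLocalization (Algebra.algebraMapSubmonoid (integralClosure K[X] F)
      (nonZeroDivisors K[X])) F :=
    IsIntegralClosure.isLocalization K[X] L₀ F (integralClosure K[X] F)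
  exact (Algebra.trace_localization K[X] (nonZeroDivisors K[X]) (Rₘ := L₀) (Sₘ := F) f).symm

/-- Trace of `T / k[x̄]` versus trace of `F_k / k(x̄)`. -/
theorem algebraMap_trace_Tk (hdeg : Module.finrank L₀ F = Module.finrank L₀k Fk) (t : G.Tk) :
    algebraMap k[X] L₀k (Algebra.trace k[X] G.Tk t) = Algebra.trace L₀k Fk (t : Fk) := by
  haveI := G.finite_Tk L₀ L₀k hdeg
  haveI := G.isTorsionFree_Tk L₀k
  haveI : Module.Free k[X] G.Tk := inferInstance
  haveI := G.isFractionRing_Tk L₀ L₀k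
  haveI := G.isIntegral_Tk L₀ L₀k hdeg
  haveI : FaithfulSMul k[X] G.Tk :=
    (faithfulSMul_iff_algebraMap_injective _ _).mpr (G.algebraMap_Tk_injective L₀k)
  haveI : IsLocalization (Algebra.algebraMapSubmonoid G.Tk (nonZeroDivisors k[X])) Fk :=
    inferInstance
  exact (Algebra.trace_localization k[X] (nonZeroDivisors k[X]) (Rₘ := L₀k) (Sₘ := Fk) t).symm

variable {n : ℕ} (y : Module.Basis (Fin n) L₀ F) (hyO : ∀ i, y i ∈ G.O)
  (hR : H217.ResidIndep (G.V₀ L₀) G.O y) (bk : Module.Basis (Fin n) L₀k Fk)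
  (hρy : ∀ i, G.ρ ⟨y i, hyO i⟩ = bk i)

include y hyO hR bk hρy in
/-- **Traces reduce.** -/
theorem exists_trace_lift (hdeg : Module.finrank L₀ F = Module.finrank L₀k Fk)
    (f : G.O) (hf : IsIntegral K[X] (f : F)) :
    ∃ P₁ : A[X], P₁.map A.subtype = Algebra.trace K[X] (integralClosure K[X] F) ⟨f, hf⟩ ∧
      P₁.map G.π = Algebra.trace k[X] G.Tk ⟨G.ρ f, G.ρ_mem_Tk f hf⟩ := by
  classical
  have hext := G.valExtends L₀
  -- the trace over `K(x)` lies in the Gauss ring
  have h1 : Algebra.trace L₀ F (f : F) = ((H217.intMatrix hext y hR hyO f).trace : L₀) :=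
    H217.trace_eq_trace_intMatrix hext y hR hyO f
  have h2 := algebraMap_trace_Tη (K := K) (F := F) L₀ ⟨f, hf⟩
  have h3 : algebraMap K[X] L₀ (Algebra.trace K[X] (integralClosure K[X] F) ⟨f, hf⟩) ∈ G.V₀ L₀ := by
    rw [h2, h1]
    exact Subtype.property _
  obtain ⟨P₁, hP₁⟩ := G.exists_map_eq_of_mem_V₀ L₀ L₀k _ h3
  refine ⟨P₁, hP₁, ?_⟩
  -- reduction
  have h4 : G.ρ₀ L₀ L₀k (H217.intMatrix hext y hR hyO f).trace = Algebra.trace L₀k Fk (G.ρ f) :=
    H217.map_trace_intMatrix_eq_trace_map hext y hR hyO (G.ρ₀ L₀ L₀k) G.ρ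
      (fun a => G.ρ_algebraMap L₀ L₀k a) bk hρy f
  have h5 : (H217.intMatrix hext y hR hyO f).trace = ⟨_, G.poly_mem_V₀ L₀ P₁⟩ := by
    apply Subtype.ext
    show ((H217.intMatrix hext y hR hyO f).trace : L₀) = algebraMap K[X] L₀ (P₁.map A.subtype)
    rw [hP₁, h2, h1]
  rw [h5, G.ρ₀_poly] at h4
  have h6 := G.algebraMap_trace_Tk L₀ L₀k hdeg ⟨G.ρ f, G.ρ_mem_Tk f hf⟩
  apply IsFractionRing.injective k[X] L₀k
  rw [h4, h6]

variable (b : Module.Basis (Fin n) k[X] G.Tk) (hb : ∀ i, bk i = (b i : Fk))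

include L₀ bk hb in
/-- The discriminant of the basis of `T` is nonzero (separability). -/
theorem discr_Tk_ne_zero (hdeg : Module.finrank L₀ F = Module.finrank L₀k Fk) :
    Algebra.discr k[X] b ≠ 0 := by
  classical
  intro h0
  apply Algebra.discr_not_zero_of_basis L₀k bk
  have h1 : Algebra.traceMatrix L₀k bk =
      (Algebra.traceMatrix k[X] b).map (algebraMap k[X] L₀k) := by
    ext i j
    rw [Matrix.map_apply, Algebra.traceMatrix_apply, Algebra.traceMatrix_apply,
      Algebra.traceForm_apply, Algebra.traceForm_apply, G.algebraMap_trace_Tk L₀ L₀k hdeg,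
      hb, hb]
    rfl
  rw [Algebra.discr_def, h1, ← RingHom.mapMatrix_apply, ← RingHom.map_det, ← Algebra.discr_def,
    h0, _root_.map_zero]

include y hyO hR bk hρy hb in
/-- **The discriminant reduces.** -/
theorem exists_discr_lift (hdeg : Module.finrank L₀ F = Module.finrank L₀k Fk)
    (hyint : ∀ i, IsIntegral K[X] (y i)) :
    ∃ D : A[X],
      D.map A.subtype =
        Algebra.discr K[X] (fun i => (⟨y i, hyint i⟩ : integralClosure K[X] F)) ∧
      D.map G.π = Algebra.discr k[X] b := by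
  classical
  let u : Fin n → G.O := fun i => ⟨y i, hyO i⟩
  have hu : ∀ i j, IsIntegral K[X] ((u i * u j : G.O) : F) := fun i j =>
    (hyint i).mul (hyint j)
  choose P hP1 hP2 using fun i j =>
    G.exists_trace_lift L₀ L₀k y hyO hR bk hρy hdeg (u i * u j) (hu i j)
  let M : Matrix (Fin n) (Fin n) A[X] := Matrix.of P
  refine ⟨M.det, ?_, ?_⟩
  · rw [← Polynomial.coe_mapRingHom, RingHom.map_det, Algebra.discr_def]
    congr 1
    ext1 i j
    rw [RingHom.mapMatrix_apply, Matrix.map_apply, Algebra.traceMatrix_apply,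
      Algebra.traceForm_apply]
    show (P i j).map A.subtype = _
    rw [hP1]
    rfl
  · rw [← Polynomial.coe_mapRingHom, RingHom.map_det, Algebra.discr_def]
    congr 1
    ext1 i j
    rw [RingHom.mapMatrix_apply, Matrix.map_apply, Algebra.traceMatrix_apply,
      Algebra.traceForm_apply]
    show (P i j).map G.π = _
    rw [hP2]
    congr 1
    apply Subtype.ext
    show G.ρ (u i * u j) = ((b i : G.Tk) : Fk) * ((b j : G.Tk) : Fk)
    rw [_root_.map_mul, ← hb, ← hb, ← hρy, ← hρy]

end RedCtx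

end Fermat.Agent.S37.H159

end
-- ===== PACK-END S37/H159/MDiscr.lean

-- ===== PACK-BEGIN Lib/RR/H560/Hpd.lean
section





/-!
# RR library, bridge (helper560): `HasPrincipalDivisors` and `FF1`, CHARACTERISTIC-FREE

For `K` algebraically closed (any characteristic) and `F` finite over `K(x)`, `x` transcendental:

* every nonzero `f` has finitely many zeros and poles (`finite_ord_ne_zero`);
* `deg (t)_∞ = [F : K(t)] = deg (t)_0` for transcendental `t` (`degree_poleD`, Stichtenoth 1.4.11: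
  `≤` is layer L2 of the RR library, `≥` is the counting argument in `L(l B + C)` which uses only
  `dim L(D) ≤ deg D + 1` for `D ≥ 0`);
* hence `HasPrincipalDivisors K F` (`hasPrincipalDivisors`) and `FF1 K F` (`ff1`).

No separability, no Dedekind domains.

Main statements:
```
theorem hasPrincipalDivisors [IsAlgClosed K] (x : F) (hx : Transcendental K x)
    [FiniteDimensional K⟮x⟯ F] : HasPrincipalDivisors K F
theorem ff1 [IsAlgClosed K] (x : F) (hx : Transcendental K x)
    [FiniteDimensional K⟮x⟯ F] : FF1 K F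
```
-/

set_option autoImplicit false

noncomputable section

open AlgebraicCurve IntermediateField

namespace Fermat.Agent.Lib.RR.H560

open Fermat.Agent.Lib.RR

variable {K F : Type*} [Field K] [Field F] [Algebra K F]

/-! ### Finiteness of zeros and poles -/

/-- The zeros of `t` are finite in number, if `F` is finite over `K(t)`. -/
theorem finite_zeros (hdeg : ∀ v : Place K F, v.deg = 1) (t : F)
    [FiniteDimensional K⟮t⟯ F] : {v : Place K F | 0 < v.ord t}.Finite := by
  classical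
  by_contra hinf
  have hinf' : Set.Infinite {v : Place K F | 0 < v.ord t} := hinf
  obtain ⟨S, hS, hcard⟩ := hinf'.exists_subset_card_eq (Module.finrank K⟮t⟯ F + 1)
  have hS' : ∀ v ∈ S, 0 < v.ord t := fun v hv => hS hv
  have h1 := sum_ord_le_finrank hdeg t S hS'
  have h2 : ∑ _v ∈ S, (1 : ℤ) ≤ ∑ v ∈ S, v.ord t :=
    Finset.sum_le_sum fun v hv => by have := hS' v hv; omega
  rw [Finset.sum_const, hcard] at h2
  simp only [nsmul_eq_mul, mul_one] at h2
  push_cast at h2
  omega

/-- The poles of `t` are finite in number, if `F` is finite over `K(t)`. -/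
theorem finite_poles (hdeg : ∀ v : Place K F, v.deg = 1) (t : F)
    [FiniteDimensional K⟮t⟯ F] : {v : Place K F | v.ord t < 0}.Finite := by
  classical
  by_contra hinf
  have hinf' : Set.Infinite {v : Place K F | v.ord t < 0} := hinf
  obtain ⟨S, hS, hcard⟩ := hinf'.exists_subset_card_eq (Module.finrank K⟮t⟯ F + 1)
  have hS' : ∀ v ∈ S, v.ord t < 0 := fun v hv => hS hv
  have h1 := sum_neg_ord_le_finrank hdeg t S hS'
  have h2 : ∑ _v ∈ S, (1 : ℤ) ≤ ∑ v ∈ S, -v.ord t :=
    Finset.sum_le_sum fun v hv => by have := hS' v hv; omega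
  rw [Finset.sum_const, hcard] at h2
  simp only [nsmul_eq_mul, mul_one] at h2
  push_cast at h2
  omega

section AlgClosed

variable [IsAlgClosed K] (x : F) (hx : Transcendental K x) [hfinx : FiniteDimensional K⟮x⟯ F]

include hx hfinx

theorem hdeg_all (v : Place K F) : v.deg = 1 := S24.FF.deg_eq_one v hx

theorem hfin_all (t : F) (ht : Transcendental K t) : FiniteDimensional K⟮t⟯ F :=
  S24.FF.finiteDimensional_adjoin_of_transcendental hx ht

/-- Every function has finitely many zeros and poles. -/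
theorem finite_ord_ne_zero (f : F) : {v : Place K F | v.ord f ≠ 0}.Finite := by
  by_cases hfK : f ∈ (algebraMap K F).range
  · obtain ⟨c, rfl⟩ := hfK
    have : {v : Place K F | v.ord (algebraMap K F c) ≠ 0} = ∅ := by
      ext v
      simp [ord_algebraMap v c]
    rw [this]
    exact Set.finite_empty
  · have hft : Transcendental K f := S24.FF.transcendental_of_not_mem_range hfK
    haveI : FiniteDimensional K⟮f⟯ F := hfin_all x hx f hft
    refine ((finite_zeros (hdeg_all x hx) f).union (finite_poles (hdeg_all x hx) f)).subset ?_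
    intro v hv
    simp only [Set.mem_ofPred_eq, Set.mem_union] at hv ⊢
    omega

/-- The divisor of a function (`0` for `f = 0`). -/
def divF (f : F) : Divisor K F :=
  Finsupp.onFinset (finite_ord_ne_zero x hx f).toFinset (fun v => v.ord f)
    (fun v hv => by simpa using hv)

theorem divF_apply (f : F) (v : Place K F) : divF x hx f v = v.ord f := rfl

/-- The pole divisor of a function. -/
def poleD (f : F) : Divisor K F := H409.negPartDiv (divF x hx f)

theorem poleD_apply (f : F) (v : Place K F) : poleD x hx f v = max 0 (-(v.ord f)) := by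
  simp [poleD, divF_apply]

theorem poleD_nonneg (f : F) : 0 ≤ poleD x hx f := H409.negPartDiv_nonneg _

theorem neg_poleD_le_ord (f : F) (v : Place K F) : -(poleD x hx f v) ≤ v.ord f := by
  rw [poleD_apply]
  have := le_max_right 0 (-(v.ord f))
  omega

theorem divF_eq_sub (f : F) : divF x hx f = poleD x hx f⁻¹ - poleD x hx f := by
  ext v
  rw [Finsupp.sub_apply, poleD_apply, poleD_apply, divF_apply, v.ord_inv, neg_neg]
  rcases le_total 0 (v.ord f) with h | h
  · rw [max_eq_right h, max_eq_left (by omega)]; ring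
  · rw [max_eq_left h, max_eq_right (by omega)]; ring

/-! ### The upper bound `ℓ(D) ≤ deg D + 1` for effective divisors -/

/-- A function without poles is constant. -/
theorem L_zero_le :
    riemannRochSpace (0 : Divisor K F) ≤ LinearMap.range (Algebra.linearMap K F) := by
  intro f hf
  by_cases hfK : f ∈ (algebraMap K F).range
  · obtain ⟨c, rfl⟩ := hfK
    exact ⟨c, rfl⟩
  · exfalso
    have hft : Transcendental K f := S24.FF.transcendental_of_not_mem_range hfK
    obtain ⟨v, hv⟩ := H443.exists_place_ord_neg (hfin_all x hx) hft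
    have hf0 : f ≠ 0 := fun h => hft (h ▸ isAlgebraic_zero)
    have := (mem_L_iff.mp hf v).resolve_left hf0
    simp at this
    omega

theorem finite_L_zero : Module.Finite K (riemannRochSpace (0 : Divisor K F)) :=
  Submodule.finiteDimensional_of_le (L_zero_le x hx)

theorem ell_zero_le : ell (0 : Divisor K F) ≤ 1 := by
  have h1 := Submodule.finrank_mono (L_zero_le x hx)
  have h2 : Module.finrank K (LinearMap.range (Algebra.linearMap K F)) ≤ 1 := by
    have := LinearMap.finrank_range_le (Algebra.linearMap K F)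
    rwa [Module.finrank_self] at this
  exact h1.trans h2

/-- `L(D)` is finite-dimensional of dimension `≤ deg D + 1` for `D ≥ 0`. -/
theorem finite_and_ell_le_of_nonneg : ∀ (n : ℕ) (D : Divisor K F), 0 ≤ D →
    Divisor.degree D = n → Module.Finite K (riemannRochSpace D) ∧ ell D ≤ n + 1 := by
  classical
  have hstep : ∀ (n : ℕ) (D : Divisor K F), 0 ≤ D → Divisor.degree D = n → D ≠ 0 →
      ∃ (v : Place K F) (m : ℕ), n = m + 1 ∧ 0 ≤ D - prim v ∧
        Divisor.degree (D - prim v) = m := by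
    intro n D hD hdegD hD0
    obtain ⟨v, hv⟩ : ∃ v, D v ≠ 0 := by
      by_contra hcon
      push Not at hcon
      exact hD0 (Finsupp.ext hcon)
    have hDv : 0 ≤ D v := by simpa using Finsupp.le_def.mp hD v
    have hD' : 0 ≤ D - prim v := by
      rw [Finsupp.le_def]
      intro w
      rw [Finsupp.sub_apply]
      by_cases hw : w = v
      · subst hw
        rw [prim_apply_self]
        simp only [Finsupp.coe_zero, Pi.zero_apply]
        omega
      · rw [prim_apply_of_ne hw]
        have := Finsupp.le_def.mp hD w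
        simpa using this
    have hdeg' : Divisor.degree (D - prim v) = n - 1 := by
      rw [map_sub, degree_prim v (hdeg_all x hx v), hdegD]
    have hnn := degree_nonneg hD'
    rw [hdeg'] at hnn
    obtain ⟨m, rfl⟩ : ∃ m, n = m + 1 := ⟨n - 1, by omega⟩
    refine ⟨v, m, rfl, hD', ?_⟩
    rw [hdeg']
    push_cast
    ring
  intro n
  induction n with
  | zero =>
    intro D hD hdegD
    by_cases hD0 : D = 0
    · subst hD0
      exact ⟨finite_L_zero x hx, by have := ell_zero_le x hx; omega⟩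
    · obtain ⟨v, m, hm, -, -⟩ := hstep 0 D hD hdegD hD0
      omega
  | succ n ih =>
    intro D hD hdegD
    by_cases hD0 : D = 0
    · subst hD0
      exact ⟨finite_L_zero x hx, by have := ell_zero_le x hx; omega⟩
    · obtain ⟨v, m, hm, hD', hdeg'⟩ := hstep (n + 1) D hD hdegD hD0
      have hmn : m = n := by omega
      subst hmn
      obtain ⟨hfin, hle⟩ := ih (D - prim v) hD' hdeg'
      have := L_add_prim_finite v (hdeg_all x hx v) (D - prim v)
      rw [sub_add_cancel] at this
      exact ⟨this.1, this.2.trans (by omega)⟩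

theorem finite_L_of_nonneg {D : Divisor K F} (hD : 0 ≤ D) :
    Module.Finite K (riemannRochSpace D) := by
  have h0 := degree_nonneg hD
  obtain ⟨n, hn⟩ := Int.eq_ofNat_of_zero_le h0
  exact (finite_and_ell_le_of_nonneg x hx n D hD hn).1

theorem ell_le_of_nonneg {D : Divisor K F} (hD : 0 ≤ D) :
    (ell D : ℤ) ≤ Divisor.degree D + 1 := by
  have h0 := degree_nonneg hD
  obtain ⟨n, hn⟩ := Int.eq_ofNat_of_zero_le h0
  have := (finite_and_ell_le_of_nonneg x hx n D hD hn).2
  rw [hn]
  exact_mod_cast this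

/-! ### The lower bound: counting in `L(l B + C)` -/

omit hfinx in
/-- The `n (l + 1)` functions `t ^ i * u j` lie in `L(l B + C)` and are independent. -/
theorem le_ell_of_basis {t : F} (ht : Transcendental K t) {n : ℕ} (u : Fin n → F)
    (hu : LinearIndependent K⟮t⟯ u)
    (B C : Divisor K F) (hB0 : 0 ≤ B) (hB : ∀ v : Place K F, -(B v) ≤ v.ord t)
    (hC : ∀ (j : Fin n) (v : Place K F), -(C v) ≤ v.ord (u j)) (l : ℕ)
    [Module.Finite K (riemannRochSpace (l • B + C))] :
    n * (l + 1) ≤ ell (l • B + C) := by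
  classical
  have _ := hx
  have ht0 : t ≠ 0 := fun h => ht (h ▸ isAlgebraic_zero)
  have hli := H409.linearIndependent_pow_mul ht u hu l
  have hmem : ∀ p : Fin (l + 1) × Fin n,
      t ^ (p.1 : ℕ) * u p.2 ∈ riemannRochSpace (l • B + C) := by
    intro p
    rw [mem_L_iff]
    intro v
    right
    rw [v.ord_mul (pow_ne_zero _ ht0) (hu.ne_zero p.2), ord_pow]
    have h1 := hB v
    have h2 := hC p.2 v
    have h3 : 0 ≤ B v := by simpa using Finsupp.le_def.mp hB0 v
    have h4 : ((p.1 : ℕ) : ℤ) ≤ (l : ℤ) := by exact_mod_cast Nat.lt_succ_iff.mp p.1.2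
    have h5 : (0 : ℤ) ≤ ((p.1 : ℕ) : ℤ) := Nat.cast_nonneg _
    rw [Finsupp.add_apply, Finsupp.smul_apply, nsmul_eq_mul]
    nlinarith [mul_nonneg h5 (show (0 : ℤ) ≤ v.ord t + B v by omega),
      mul_nonneg (show (0 : ℤ) ≤ (l : ℤ) - ((p.1 : ℕ) : ℤ) by omega) h3]
  have hspan : Submodule.span K
      (Set.range fun p : Fin (l + 1) × Fin n => t ^ (p.1 : ℕ) * u p.2)
        ≤ riemannRochSpace (l • B + C) :=
    Submodule.span_le.mpr (by rintro _ ⟨p, rfl⟩; exact hmem p)
  have h1 := Submodule.finrank_mono hspan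
  rw [finrank_span_eq_card hli] at h1
  simpa [ell, Fintype.card_prod, mul_comm] using h1

/-- The degree of the pole divisor is the sum of the pole orders, hence `≤ [F : K(t)]`. -/
theorem degree_poleD_le (t : F) [FiniteDimensional K⟮t⟯ F] :
    Divisor.degree (poleD x hx t) ≤ (Module.finrank K⟮t⟯ F : ℤ) := by
  classical
  rw [degree_eq_sum]
  have hS : ∀ v ∈ (poleD x hx t).support, v.ord t < 0 := by
    intro v hv
    rw [Finsupp.mem_support_iff, poleD_apply] at hv
    by_contra hcon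
    apply hv
    rw [max_eq_left (by omega)]
  refine le_trans (le_of_eq ?_) (sum_neg_ord_le_finrank (hdeg_all x hx) t _ hS)
  refine Finset.sum_congr rfl fun v hv => ?_
  have := hS v hv
  rw [poleD_apply, hdeg_all x hx v, max_eq_right (by omega)]
  simp

/-- **Stichtenoth 1.4.11**, `≥`: `deg (t)_∞ ≥ [F : K(t)]`. -/
theorem le_degree_poleD (t : F) (ht : Transcendental K t) [FiniteDimensional K⟮t⟯ F] :
    (Module.finrank K⟮t⟯ F : ℤ) ≤ Divisor.degree (poleD x hx t) := by
  classical
  obtain ⟨n, hn⟩ : ∃ n : ℕ, n = Module.finrank K⟮t⟯ F := ⟨_, rfl⟩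
  have hnpos : 0 < n := hn ▸ Module.finrank_pos
  let b := Module.finBasis K⟮t⟯ F
  have hu : LinearIndependent K⟮t⟯ (fun j => b j) := b.linearIndependent
  set B : Divisor K F := poleD x hx t with hBdef
  set C : Divisor K F := ∑ j, poleD x hx (b j) with hCdef
  have hB0 : 0 ≤ B := poleD_nonneg x hx t
  have hC0 : 0 ≤ C := Finset.sum_nonneg fun j _ => poleD_nonneg x hx _
  have hC : ∀ (j : Fin (Module.finrank K⟮t⟯ F)) (v : Place K F), -(C v) ≤ v.ord (b j) := by
    intro j v
    have h1 : poleD x hx (b j) ≤ C :=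
      Finset.single_le_sum (f := fun j => poleD x hx (b j))
        (fun i _ => poleD_nonneg x hx _) (Finset.mem_univ j)
    have h2 := Finsupp.le_def.mp h1 v
    have h3 := neg_poleD_le_ord x hx (b j) v
    omega
  by_contra hlt
  push Not at hlt
  rw [← hn] at hlt
  -- choose `l` large
  obtain ⟨l, hl⟩ : ∃ l : ℕ, Divisor.degree C + 1 ≤ l :=
    ⟨(Divisor.degree C + 1).toNat, Int.self_le_toNat _⟩
  have hD0 : 0 ≤ l • B + C := add_nonneg (nsmul_nonneg hB0 l) hC0
  haveI : Module.Finite K (riemannRochSpace (l • B + C)) := finite_L_of_nonneg x hx hD0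
  have h1 := le_ell_of_basis x hx ht (fun j => b j) hu B C hB0 (neg_poleD_le_ord x hx t) hC l
  have h2 := ell_le_of_nonneg x hx hD0
  rw [map_add, map_nsmul, nsmul_eq_mul] at h2
  have h3 : ((Module.finrank K⟮t⟯ F * (l + 1) : ℕ) : ℤ) ≤ ell (l • B + C) := by
    exact_mod_cast h1
  rw [← hn] at h3
  push_cast at h3
  have h4 : (l : ℤ) * Divisor.degree B ≤ l * ((n : ℤ) - 1) :=
    mul_le_mul_of_nonneg_left (by omega) (Nat.cast_nonneg l)
  have h5 : (1 : ℤ) ≤ n := by exact_mod_cast hnpos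
  nlinarith

theorem degree_poleD (t : F) (ht : Transcendental K t) [FiniteDimensional K⟮t⟯ F] :
    Divisor.degree (poleD x hx t) = (Module.finrank K⟮t⟯ F : ℤ) :=
  le_antisymm (degree_poleD_le x hx t) (le_degree_poleD x hx t ht)

theorem degree_poleD_of_eq (t : F) (ht : Transcendental K t) (L : IntermediateField K F)
    (hL : L = K⟮t⟯) [FiniteDimensional L F] :
    Divisor.degree (poleD x hx t) = (Module.finrank L F : ℤ) := by
  subst hL
  exact degree_poleD x hx t ht

/-- **The product formula**: a principal divisor has degree zero. -/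
theorem degree_divF (f : F) : Divisor.degree (divF x hx f) = 0 := by
  by_cases hfK : f ∈ (algebraMap K F).range
  · obtain ⟨c, rfl⟩ := hfK
    have : divF x hx (algebraMap K F c) = 0 := by
      ext v
      rw [divF_apply, ord_algebraMap v c]
      rfl
    rw [this, map_zero]
  · have hft : Transcendental K f := S24.FF.transcendental_of_not_mem_range hfK
    have hft' : Transcendental K f⁻¹ := fun h => hft (by simpa using h.inv)
    haveI : FiniteDimensional K⟮f⟯ F := hfin_all x hx f hft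
    rw [divF_eq_sub, map_sub, degree_poleD x hx f hft,
      degree_poleD_of_eq x hx f⁻¹ hft' K⟮f⟯ (adjoin_inv_eq f), sub_self]

/-- **HPD, characteristic-free**: divisors of functions exist and have degree zero. -/
theorem hasPrincipalDivisors : HasPrincipalDivisors K F :=
  ⟨fun f _ => ⟨divF x hx f, fun v => divF_apply x hx f v, degree_divF x hx f⟩⟩

/-- **Bridge, characteristic-free**: `FF1 K F` for a function field of one variable over an
algebraically closed field. -/
theorem ff1 : FF1 K F where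
  hpd := hasPrincipalDivisors x hx
  deg_eq_one := hdeg_all x hx
  nonempty_place := by
    obtain ⟨v, -⟩ := H443.exists_place_ord_pos (hfin_all x hx) hx
    exact ⟨v⟩
  exists_finite := ⟨x, hx, hfinx⟩

/-- The degree of the zero divisor of a transcendental function is `[F : K(t)]`. -/
theorem degree_zeroD (t : F) (ht : Transcendental K t) [FiniteDimensional K⟮t⟯ F] :
    Divisor.degree (poleD x hx t⁻¹) = (Module.finrank K⟮t⟯ F : ℤ) :=
  degree_poleD_of_eq x hx t⁻¹ (fun h => ht (by simpa using h.inv)) K⟮t⟯ (adjoin_inv_eq t)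

end AlgClosed

/-- Exactly (definitionally) `Fermat.Agent.S18.Sq05.HpdStatement` of squad S18/S05. -/
theorem hpdStatement :
    ∀ (K F : Type) [Field K] [Field F] [Algebra K F] [IsAlgClosed K] (x : F),
      Transcendental K x → FiniteDimensional K⟮x⟯ F → HasPrincipalDivisors K F :=
  fun _ _ _ _ _ _ x hx _ => hasPrincipalDivisors x hx

end Fermat.Agent.Lib.RR.H560

end

end
-- ===== PACK-END Lib/RR/H560/Hpd.lean

-- ===== PACK-BEGIN S19/H19/Torsion.lean
section
/-
A3 / S19, helper19 — piece ORD, part 7: orders on the torsion of a Galois module.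

`J` an abelian group with an additive action of `G_ℚ`, `T = J[n]`.  A finitely generated
equivariant `R`-subalgebra of functions `T → ℚ̄` separating points and closed under
`f ↦ f(s+t)` yields exactly the conclusion of the frozen statement S19 (for `J = J₀(N)`,
`R = ℤ_(ℓ)`).  Mathlib only.
-/


set_option autoImplicit false
set_option linter.unusedSectionVars false
set_option linter.style.haveILetI false

noncomputable section

namespace Fermat.Agent.S19.H19

open scoped BigOperators TensorProduct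

/-- A principal ideal subring of `ℚ` is integrally closed in `ℚ`. -/
theorem mem_of_isIntegral_of_pid (R : Subring ℚ) [IsPrincipalIdealRing R] (q : ℚ)
    (hq : IsIntegral R q) : q ∈ R := by
  haveI : FaithfulSMul R ℚ :=
    (faithfulSMul_iff_algebraMap_injective R ℚ).mpr Subtype.val_injective
  haveI : IsFractionRing R ℚ := by
    apply IsFractionRing.of_field
    intro z
    refine ⟨⟨(z.num : ℚ), intCast_mem R z.num⟩, ⟨(z.den : ℚ), natCast_mem R z.den⟩, ?_⟩
    exact (Rat.num_div_den z).symm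
  obtain ⟨y, hy⟩ := (IsIntegrallyClosed.isIntegral_iff (R := R) (K := ℚ)).mp hq
  rw [← hy]
  exact y.2

section Torsion

variable {J : Type} [AddCommGroup J] [DistribMulAction _root_.Fermat.Agent.S19.H19.GalQ J] (n : ℤ)

/-- The Galois action on the `n`-torsion. -/
def torsionAct (σ : _root_.Fermat.Agent.S19.H19.GalQ) (m : Submodule.torsionBy ℤ J n) : Submodule.torsionBy ℤ J n :=
  ⟨σ • (m : J), by
    have hm := m.2
    rw [Submodule.mem_torsionBy_iff] at hm ⊢
    have h1 : n • (σ • (m : J)) = σ • (n • (m : J)) :=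
      (map_zsmul (DistribSMul.toAddMonoidHom J σ) n (m : J)).symm
    rw [h1, hm, _root_.smul_zero]⟩

@[simp] theorem coe_torsionAct (σ : _root_.Fermat.Agent.S19.H19.GalQ) (m : Submodule.torsionBy ℤ J n) :
    ((torsionAct n σ m : Submodule.torsionBy ℤ J n) : J) = σ • (m : J) := rfl

/-- **Piece ORD for torsion modules**: the S19-shaped conclusion from an order. -/
theorem exists_hopf_torsion (R : Subring ℚ) [IsPrincipalIdealRing R]
    [Finite (Submodule.torsionBy ℤ J n)]
    (H : Subalgebra R (Submodule.torsionBy ℤ J n → _root_.Fermat.Agent.S19.H19.Qb))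
    (hequiv : ∀ f ∈ H, ∀ (σ : _root_.Fermat.Agent.S19.H19.GalQ) (m : Submodule.torsionBy ℤ J n),
      f (torsionAct n σ m) = σ (f m))
    (hfg : (Subalgebra.toSubmodule H).FG)
    (hsep : ∀ m m' : Submodule.torsionBy ℤ J n, m ≠ m' → ∃ f ∈ H, f m ≠ f m')
    (hcomul : ∀ f ∈ H, (fun p : Submodule.torsionBy ℤ J n × Submodule.torsionBy ℤ J n =>
      f (p.1 + p.2)) ∈ (prodMap H.val H.val).range) :
    ∃ (H' : Type) (_ : CommRing H') (_ : HopfAlgebra R H'),
      Module.Finite R H' ∧ Module.Flat R H' ∧ Coalgebra.IsCocomm R H' ∧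
      ∃ e : WithConv (H' →ₐ[R] AlgebraicClosure ℚ) ≃ ↥(Submodule.torsionBy ℤ J n),
        (∀ f g, e (f * g) = e f + e g) ∧
        ∀ (σ : AlgebraicClosure ℚ ≃ₐ[ℚ] AlgebraicClosure ℚ)
          (f g : WithConv (H' →ₐ[R] AlgebraicClosure ℚ)),
          (∀ h : H', g h = σ (f h)) → ((e g : J)) = σ • (e f : J) := by
  obtain ⟨H', i1, i2, h1, h2, h3, e, he1, he2⟩ :=
    exists_hopf_of_equivariant_order (act := torsionAct (J := J) n) R
      (mem_of_isIntegral_of_pid R)
      (fun m => Subtype.ext (_root_.one_smul _root_.Fermat.Agent.S19.H19.GalQ (m : J)))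
      (fun σ τ m => Subtype.ext (mul_smul σ τ (m : J)).symm)
      (fun σ => Subtype.ext (_root_.smul_zero σ))
      H hequiv hfg hsep hcomul
  exact ⟨H', i1, i2, h1, h2, h3, e, he1, fun σ f g hfg =>
    congrArg Subtype.val (he2 σ f g hfg)⟩

end Torsion

end Fermat.Agent.S19.H19

end

end
-- ===== PACK-END S19/H19/Torsion.lean

-- ===== PACK-BEGIN Ribet/H801/PushPic0.lean
section
/-
RIBET / W-DEG (helper801), part 1 (generic, Prelude language):
the push-forward `a_* : Pic0 K F₁ →+ Pic0 K F` along an integral map `a : F →ₐ[K] F₁` of function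
fields with norm formula, its equivariance under semilinear automorphisms, and its commutation
with correspondences:

      a_* ∘ (ψ₁_* φ₁^*) = (ψ_* φ^*) ∘ a_*

for a commutative diagram `a' ∘ φ = φ₁ ∘ a`, `a' ∘ ψ = ψ₁ ∘ a` whose `φ`-square satisfies base change
(helper818's `pullback_pushforward_eq`).
-/






set_option autoImplicit false
set_option linter.style.haveILetI false

noncomputable section

namespace Fermat.Agent.Ribet.H801

open AlgebraicCurve Fermat.Agent.S37.H818 Fermat.Agent.S29.H801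

variable {K F F₁ G G₁ : Type*} [Field K] [Field F] [Field F₁] [Field G] [Field G₁]
  [Algebra K F] [Algebra K F₁] [Algebra K G] [Algebra K G₁]

section Def

variable (a : F →ₐ[K] F₁) (ha : a.toRingHom.IsIntegral)

/-- Push-forward of degree-zero divisors along `a`. -/
def pushDegZero :
    Divisor.degZero (K := K) (F := F₁) →+ Divisor.degZero (K := K) (F := F) :=
  ((Divisor.pushforwardAlong a ha).domRestrict
    (Divisor.degZero (K := K) (F := F₁))).codRestrict _
    (fun D => Divisor.pushforwardAlong_mem_degZero a ha D.2)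

@[simp]
theorem coe_pushDegZero (D : Divisor.degZero (K := K) (F := F₁)) :
    (pushDegZero a ha D : Divisor K F) = Divisor.pushforwardAlong a ha (D : Divisor K F₁) :=
  rfl

variable (hfin : FiniteAlong K a) (hN : NormFormulaAlong K a hfin)

/-- **Push-forward on `Pic0`** along `a`. -/
def pushPic0 : Pic0 K F₁ →+ Pic0 K F :=
  QuotientAddGroup.map _ _ (pushDegZero a ha) (by
    rintro ⟨D, hD0⟩ hD
    simp only [AddSubgroup.mem_addSubgroupOf] at hD ⊢
    exact Divisor.isPrincipal_pushforwardAlong a ha hfin hN hD)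

theorem pushPic0_mk (D : Divisor.degZero (K := K) (F := F₁)) :
    pushPic0 a ha hfin hN (Pic0.mk D) = Pic0.mk (pushDegZero a ha D) :=
  rfl

end Def

section Smul

variable (a : F →ₐ[K] F₁) (ha : a.toRingHom.IsIntegral)
  (hfin : FiniteAlong K a) (hN : NormFormulaAlong K a hfin)
  {g : SemilinearAut K F} {g' : SemilinearAut K F₁}

/-- The push-forward on `Pic0` commutes with intertwined semilinear automorphisms. -/
theorem pushPic0_smul (h : SemilinearAut.IntertwinesAlong (a : F →+* F₁) g g')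
    (x : Pic0 K F₁) :
    pushPic0 a ha hfin hN (g' • x) = g • pushPic0 a ha hfin hN x := by
  obtain ⟨D, rfl⟩ := Pic0.mk_surjective x
  rw [SemilinearAut.pic0_smul_mk, pushPic0_mk, pushPic0_mk, SemilinearAut.pic0_smul_mk]
  refine congrArg Pic0.mk (Subtype.ext ?_)
  rw [coe_pushDegZero, SemilinearAut.coe_degZeroSMulHom, SemilinearAut.coe_degZeroSMulHom,
    coe_pushDegZero]
  exact Fermat.Agent.S29.H571.pushforwardAlong_smul a ha h (D : Divisor K F₁)

end Smul

section Correspondence

variable (a : F →ₐ[K] F₁) (φ ψ : F →ₐ[K] G) (φ₁ ψ₁ : F₁ →ₐ[K] G₁) (a' : G →ₐ[K] G₁)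
  (ha : a.toRingHom.IsIntegral) (hφ : φ.toRingHom.IsIntegral) (hψ : ψ.toRingHom.IsIntegral)
  (hφ₁ : φ₁.toRingHom.IsIntegral) (hψ₁ : ψ₁.toRingHom.IsIntegral)
  (ha' : a'.toRingHom.IsIntegral)
  (hsqφ : φ₁.comp a = a'.comp φ) (hsqψ : ψ₁.comp a = a'.comp ψ)

variable [HasPrincipalDivisors K G] [HasPrincipalDivisors K G₁] [HasPrincipalDivisors K F₁]

include hsqφ hsqψ ha' in
/-- `a_* ∘ (ψ₁_* φ₁^*) = (ψ_* φ^*) ∘ a_*` on divisors. -/
theorem pushforwardAlong_correspondence
    (hfin : FiniteAlong K a) (hN : NormFormulaAlong K a hfin)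
    (hfin' : FiniteAlong K a') (hN' : NormFormulaAlong K a' hfin')
    (hnorm : NormCompat a φ a' φ₁) (hLG : HasLocalGenerators a ha) (D : Divisor K F₁) :
    Divisor.pushforwardAlong a ha (Divisor.correspondence φ₁ ψ₁ hφ₁ hψ₁ D) =
      Divisor.correspondence φ ψ hφ hψ (Divisor.pushforwardAlong a ha D) := by
  have h1 : (ψ₁.comp a).toRingHom.IsIntegral := RingHom.IsIntegral.trans _ _ ha hψ₁
  have h2 : (a'.comp ψ).toRingHom.IsIntegral := RingHom.IsIntegral.trans _ _ hψ ha'
  rw [Divisor.correspondence_apply, Divisor.correspondence_apply,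
    pullback_pushforward_eq a φ a' φ₁ ha hφ ha' hφ₁ hsqφ hfin hN hfin' hN' hnorm hLG,
    ← pushforwardAlong_comp a ψ₁ ha hψ₁ h1, ← pushforwardAlong_comp ψ a' hψ ha' h2]
  exact pushforwardAlong_congr hsqψ h1 h2 _

include hsqφ hsqψ ha' in
/-- **`a_*` intertwines the correspondences on `Pic0`.** -/
theorem pushPic0_correspondence
    (hFI : FundamentalIdentityAlong K φ hφ) (hFI₁ : FundamentalIdentityAlong K φ₁ hφ₁)
    (hfinψ : FiniteAlong K ψ) (hNψ : NormFormulaAlong K ψ hfinψ)
    (hfinψ₁ : FiniteAlong K ψ₁) (hNψ₁ : NormFormulaAlong K ψ₁ hfinψ₁)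
    (hfin : FiniteAlong K a) (hN : NormFormulaAlong K a hfin)
    (hfin' : FiniteAlong K a') (hN' : NormFormulaAlong K a' hfin')
    (hnorm : NormCompat a φ a' φ₁) (hLG : HasLocalGenerators a ha) (x : Pic0 K F₁) :
    pushPic0 a ha hfin hN (Pic0.correspondence φ₁ ψ₁ hφ₁ hψ₁ hFI₁ hfinψ₁ hNψ₁ x) =
      Pic0.correspondence φ ψ hφ hψ hFI hfinψ hNψ (pushPic0 a ha hfin hN x) := by
  obtain ⟨D, rfl⟩ := Pic0.mk_surjective x
  rw [Pic0.correspondence_mk, pushPic0_mk, pushPic0_mk, Pic0.correspondence_mk]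
  congr 1
  apply Subtype.ext
  simp only [Pic0.coe_degZeroCorrespondence, coe_pushDegZero]
  exact pushforwardAlong_correspondence a φ ψ φ₁ ψ₁ a' ha hφ hψ hφ₁ hψ₁ ha' hsqφ hsqψ
    hfin hN hfin' hN' hnorm hLG D

end Correspondence

end Fermat.Agent.Ribet.H801

end

end
-- ===== PACK-END Ribet/H801/PushPic0.lean

-- ===== PACK-BEGIN S29/H801/M1Modular.lean
section
/-
S29 / M1 (helper801), part 3: the Prelude Hecke operators `heckeOperatorAlong L N ℓ` commute
(`HeckeOperatorsCommuteBar N` for `L = ℚ̄`), from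

* `hi`  : the Prelude's `HeckeInputsAlong` at all levels (piece HI),
* `lg`  : local generators along the degeneracy maps `α` (weak approximation),
* `nc`  : norm compatibility of the mixed squares (`F_{Nℓℓ'} = F_{Nℓ} ⊗_{F_N} F_{Nℓ'}`).

No places ↔ points dictionary is used.
-/




set_option autoImplicit false
set_option linter.style.haveILetI false

noncomputable section

namespace Fermat.Agent.S29.H801

open AlgebraicCurve ModularCurve Fermat.Agent.S37.H818

variable (L : Type*) [Field L] [Algebra ℚ L]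

/-- The function field of level `N` over `L` (as a type). -/
abbrev FB (N : ℕ) [NeZero N] : Type _ := ↥(laurentBaseChange L (modularFunctionFieldFull N))

section Retarget

variable (M ℓ M' : ℕ) [NeZero M] [NeZero ℓ] [NeZero M']

/-- `heckeAlphaBar L M ℓ` with codomain level renamed along `M * ℓ = M'`. -/
def alphaTo (h : M * ℓ = M') : _root_.Fermat.Agent.S29.H801.FB L M →ₐ[L] _root_.Fermat.Agent.S29.H801.FB L M' := by
  subst h
  exact heckeAlphaBar L M ℓ

/-- `heckeBetaBar L M ℓ` with codomain level renamed along `M * ℓ = M'`. -/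
def betaTo (h : M * ℓ = M') : _root_.Fermat.Agent.S29.H801.FB L M →ₐ[L] _root_.Fermat.Agent.S29.H801.FB L M' := by
  subst h
  exact heckeBetaBar L M ℓ

variable {M ℓ M'}

@[simp] theorem coe_alphaTo (h : M * ℓ = M') (x : _root_.Fermat.Agent.S29.H801.FB L M) :
    ((alphaTo L M ℓ M' h x : _root_.Fermat.Agent.S29.H801.FB L M') : LaurentSeries L) = (x : LaurentSeries L) := by
  subst h
  exact coe_heckeAlphaBar M ℓ x

@[simp] theorem coe_betaTo (h : M * ℓ = M') (x : _root_.Fermat.Agent.S29.H801.FB L M) :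
    ((betaTo L M ℓ M' h x : _root_.Fermat.Agent.S29.H801.FB L M') : LaurentSeries L) = qExpand L ℓ (x : LaurentSeries L) := by
  subst h
  exact coe_heckeBetaBar M ℓ x

theorem alphaTo_rfl : alphaTo L M ℓ (M * ℓ) rfl = heckeAlphaBar L M ℓ := rfl

theorem betaTo_rfl : betaTo L M ℓ (M * ℓ) rfl = heckeBetaBar L M ℓ := rfl

theorem alphaTo_integral (h : M * ℓ = M') (hα : HeckeAlphaBarIntegral L M ℓ) :
    (alphaTo L M ℓ M' h).toRingHom.IsIntegral := by
  subst h
  exact hα

theorem betaTo_integral (h : M * ℓ = M') (hβ : HeckeBetaBarIntegral L M ℓ) :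
    (betaTo L M ℓ M' h).toRingHom.IsIntegral := by
  subst h
  exact hβ

theorem alphaTo_finite (h : M * ℓ = M') (hfin : FiniteAlong L (heckeAlphaBar L M ℓ)) :
    FiniteAlong L (alphaTo L M ℓ M' h) := by
  subst h
  exact hfin

theorem alphaTo_normFormula (h : M * ℓ = M') (hfin : FiniteAlong L (heckeAlphaBar L M ℓ))
    (hN : NormFormulaAlong L (heckeAlphaBar L M ℓ) hfin) :
    NormFormulaAlong L (alphaTo L M ℓ M' h) (alphaTo_finite L h hfin) := by
  subst h
  exact hN

theorem hasPrincipalDivisors_of_eq (h : M * ℓ = M')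
    (hP : HasPrincipalDivisors L (_root_.Fermat.Agent.S29.H801.FB L (M * ℓ))) : HasPrincipalDivisors L (_root_.Fermat.Agent.S29.H801.FB L M') := by
  subst h
  exact hP

end Retarget

/-- The inputs of the commutation theorem. -/
structure M1Inputs : Prop where
  /-- piece `HI` at all levels -/
  hi : ∀ (M ℓ : ℕ) [NeZero M] [NeZero ℓ], ℓ.Prime → HeckeInputsAlong L M ℓ
  /-- local generators along `α` -/
  lg : ∀ (M ℓ : ℕ) [NeZero M] [NeZero ℓ], ℓ.Prime → ∀ hα : HeckeAlphaBarIntegral L M ℓ,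
    HasLocalGenerators (heckeAlphaBar L M ℓ) hα
  /-- norm compatibility of the mixed square
  `F_N --α_{ℓ'}--> F_{Nℓ'}`, `F_N --β_ℓ--> F_{Nℓ}`, `F_{Nℓ} --α_{ℓ'}--> F_{Nℓℓ'}`,
  `F_{Nℓ'} --β_ℓ--> F_{Nℓℓ'}`. -/
  nc : ∀ (N ℓ ℓ' : ℕ) [NeZero N] [NeZero ℓ] [NeZero ℓ'], ℓ.Prime → ℓ'.Prime → ℓ ≠ ℓ' →
    NormCompat (heckeAlphaBar L N ℓ') (heckeBetaBar L N ℓ) (heckeAlphaBar L (N * ℓ) ℓ')
      (betaTo L (N * ℓ') ℓ (N * ℓ * ℓ') (Nat.mul_right_comm N ℓ' ℓ))

variable {L}

theorem M1Inputs.nc' (H : M1Inputs L) (N ℓ ℓ' M' : ℕ) [NeZero N] [NeZero ℓ] [NeZero ℓ']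
    [NeZero M'] (hℓ : ℓ.Prime) (hℓ' : ℓ'.Prime) (hne : ℓ ≠ ℓ')
    (h₁ : N * ℓ * ℓ' = M') (h₂ : N * ℓ' * ℓ = M') :
    NormCompat (heckeAlphaBar L N ℓ') (heckeBetaBar L N ℓ) (alphaTo L (N * ℓ) ℓ' M' h₁)
      (betaTo L (N * ℓ') ℓ M' h₂) := by
  subst h₁
  exact H.nc N ℓ ℓ' hℓ hℓ' hne

section Relations

variable (N ℓ ℓ' : ℕ) [NeZero N] [NeZero ℓ] [NeZero ℓ']

theorem rel_AA :
    (heckeAlphaBar L (N * ℓ) ℓ').comp (heckeAlphaBar L N ℓ) =
      (alphaTo L (N * ℓ') ℓ (N * ℓ * ℓ') (Nat.mul_right_comm N ℓ' ℓ)).comp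
        (heckeAlphaBar L N ℓ') := by
  refine AlgHom.ext fun x => Subtype.ext ?_
  simp only [AlgHom.comp_apply, coe_heckeAlphaBar, coe_alphaTo]

theorem rel_BB :
    (heckeBetaBar L (N * ℓ) ℓ').comp (heckeBetaBar L N ℓ) =
      (betaTo L (N * ℓ') ℓ (N * ℓ * ℓ') (Nat.mul_right_comm N ℓ' ℓ)).comp
        (heckeBetaBar L N ℓ') := by
  refine AlgHom.ext fun x => Subtype.ext ?_
  simp only [AlgHom.comp_apply, coe_heckeBetaBar, coe_betaTo]
  rw [qExpand_qExpand, qExpand_qExpand]
  exact qExpand_congr (mul_comm ℓ' ℓ) _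

theorem rel_sq₁ :
    (betaTo L (N * ℓ') ℓ (N * ℓ * ℓ') (Nat.mul_right_comm N ℓ' ℓ)).comp (heckeAlphaBar L N ℓ') =
      (heckeAlphaBar L (N * ℓ) ℓ').comp (heckeBetaBar L N ℓ) := by
  refine AlgHom.ext fun x => Subtype.ext ?_
  simp only [AlgHom.comp_apply, coe_heckeAlphaBar, coe_heckeBetaBar, coe_betaTo]

theorem rel_sq₂ :
    (heckeBetaBar L (N * ℓ) ℓ').comp (heckeAlphaBar L N ℓ) =
      (alphaTo L (N * ℓ') ℓ (N * ℓ * ℓ') (Nat.mul_right_comm N ℓ' ℓ)).comp
        (heckeBetaBar L N ℓ') := by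
  refine AlgHom.ext fun x => Subtype.ext ?_
  simp only [AlgHom.comp_apply, coe_heckeAlphaBar, coe_heckeBetaBar, coe_alphaTo]

end Relations

/-- **Commutation of the Prelude Hecke operators** `heckeOperatorAlong L N ℓ` for two
distinct primes. -/
theorem heckeOperatorAlong_comm_of_ne (H : M1Inputs L) (N ℓ ℓ' : ℕ) [NeZero N] [NeZero ℓ]
    [NeZero ℓ'] (hℓ : ℓ.Prime) (hℓ' : ℓ'.Prime) (hne : ℓ ≠ ℓ')
    (x : Pic0 L (laurentBaseChange L (modularFunctionFieldFull N))) :
    heckeOperatorAlong L N ℓ (heckeOperatorAlong L N ℓ' x) =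
      heckeOperatorAlong L N ℓ' (heckeOperatorAlong L N ℓ x) := by
  obtain ⟨hα₁, hβ₁, hP₁, hfin₁, hFI₁, hN₁⟩ := H.hi N ℓ hℓ
  obtain ⟨hα₂, hβ₂, hP₂, hfin₂, hFI₂, hN₂⟩ := H.hi N ℓ' hℓ'
  obtain ⟨hαA₂, hβB₂, hP₁₂, hfinA₂, hFIB₂, hNA₂⟩ := H.hi (N * ℓ) ℓ' hℓ'
  obtain ⟨hαA₁, hβB₁, hP₂₁, hfinA₁, hFIB₁, hNA₁⟩ := H.hi (N * ℓ') ℓ hℓ
  rw [heckeOperatorAlong_eq hα₁ hβ₁ hFI₁ hfin₁ hN₁, heckeOperatorAlong_eq hα₂ hβ₂ hFI₂ hfin₂ hN₂]
  have hc : N * ℓ' * ℓ = N * ℓ * ℓ' := Nat.mul_right_comm N ℓ' ℓ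
  exact pic0_correspondence_comm
    (heckeAlphaBar L N ℓ) (heckeBetaBar L N ℓ) (heckeAlphaBar L N ℓ') (heckeBetaBar L N ℓ')
    (heckeAlphaBar L (N * ℓ) ℓ') (heckeBetaBar L (N * ℓ) ℓ')
    (alphaTo L (N * ℓ') ℓ (N * ℓ * ℓ') hc) (betaTo L (N * ℓ') ℓ (N * ℓ * ℓ') hc)
    hα₁ hβ₁ hα₂ hβ₂ hαA₂ hβB₂ (alphaTo_integral L hc hαA₁) (betaTo_integral L hc hβB₁)
    (rel_AA N ℓ ℓ') (rel_BB N ℓ ℓ') (rel_sq₁ N ℓ ℓ') (rel_sq₂ N ℓ ℓ')
    hFI₁ hFI₂ hfin₁ hN₁ hfin₂ hN₂
    (alphaTo_finite L hc hfinA₁) (alphaTo_normFormula L hc hfinA₁ hNA₁) hfinA₂ hNA₂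
    (H.nc N ℓ ℓ' hℓ hℓ' hne)
    (H.nc' N ℓ' ℓ (N * ℓ * ℓ') hℓ' hℓ hne.symm hc rfl)
    (H.lg N ℓ hℓ hα₁) (H.lg N ℓ' hℓ' hα₂) x

/-- **Piece M1**: `HeckeOperatorsCommuteBar N` from the inputs over `ℚ̄`. -/
theorem heckeOperatorsCommuteBar_of_inputs (H : M1Inputs (AlgebraicClosure ℚ)) (N : ℕ)
    [NeZero N] : HeckeOperatorsCommuteBar N := by
  intro ℓ ℓ'
  by_cases hne : (ℓ : ℕ) = ℓ'
  · have : ℓ = ℓ' := Subtype.ext hne
    subst this
    rfl
  · haveI : NeZero (ℓ : ℕ) := ⟨ℓ.2.ne_zero⟩
    haveI : NeZero (ℓ' : ℕ) := ⟨ℓ'.2.ne_zero⟩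
    ext x
    simp only [Module.End.mul_apply, heckeOperatorBar_apply]
    exact heckeOperatorAlong_comm_of_ne H N ℓ ℓ' ℓ.2 ℓ'.2 hne x

end Fermat.Agent.S29.H801

end

end
-- ===== PACK-END S29/H801/M1Modular.lean

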