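import Mathlib
import Fermat.Prelude.Def_AlgebraicCurve_DivisorClassGroup
import Fermat.Prelude.Def_GaloisRep_ComplexConjugation
import Mathlib.RingTheory.PowerSeries.Expand
import Fermat.Prelude.Def_GaloisRep_LocalConditions
import Fermat.Agent.Pack.S33.E9L0
import Fermat.Agent.Pack.S33.E4L3
import Fermat.Agent.Pack.S33.E4L2
import Fermat.Agent.Pack.S33.E7L2
import Fermat.Agent.Pack.S33.E9L3
import Fermat.Agent.Pack.S33.E0L1
import Fermat.Agent.Pack.S33.E0L2
import Fermat.Agent.Pack.S33.E9L2
import Fermat.Agent.Pack.S33.E0L3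
import Fermat.Agent.Pack.S33.E10L1
import Fermat.Agent.Pack.S33.E0L0
import Fermat.Agent.Pack.S33.E9L1
import Fermat.Agent.Pack.S33.E10L0
import Fermat.Agent.Pack.S33.E10L3
import Fermat.Agent.Pack.S33.E8L3
import Fermat.Agent.Pack.S33.E2L1
import Fermat.Agent.Pack.S33.E10L2
import Fermat.Agent.Pack.S33.E5L2
import Fermat.Agent.Pack.S33.E11L2
import Fermat.Agent.Pack.S33.E3L1
import Fermat.Agent.Pack.S33.E11L1

-- ===== PACK-BEGIN Lib/Cheb/FrobFinite.lean
section





/-!
# CHEB, Tier 1, finite level: the qualitative Frobenius density theorem for Galois number fields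

Assembly of the pieces `Z`, `B0` (helper761), `A` (helper764), `D` (helper943), `M` (helper993).
-/

set_option autoImplicit false

namespace Fermat.Agent.Lib.Cheb

/-- **Frobenius density theorem (qualitative), finite level.**  For a Galois number field `L`,
`σ ∈ Gal(L/ℚ)` and a finite set `S` of primes there are a prime `p ∉ S`, a prime `P` of `𝓞 L`
above `p` with trivial inertia and an arithmetic Frobenius `τ` at `P` with `⟨τ⟩ = ⟨σ⟩`. -/
theorem frobFinite : Spec.FrobFiniteStatement :=
  H993.frobFinite H761.primeSum_statement H761.primeCountBound_statement H764.count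
    H943.frobStatement

end Fermat.Agent.Lib.Cheb

end
-- ===== PACK-END Lib/Cheb/FrobFinite.lean

-- ===== PACK-BEGIN S32/H152/Emb.lean
section
/-
S32 / piece EMB (helper152) — `embedStatement : Fermat.Agent.S32.EmbedStatement`.

Let `ρ` be a two-dimensional representation over a local ring `T` whose image spans `End_T V`,
`ψ : T → 𝒪'` a point with values in a DVR with `2 ≠ 0`, and `M ≠ 0` a finite free `𝒪'`-module with
Galois action on which every `g` satisfies the characteristic polynomial of `ρ g` specialised along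
`ψ`.  Then there is a strict `ψ`-semilinear equivariant map `φ : V → M`.

Proof.  `K = Frac 𝒪'`.  In coordinates (bases `b` of `V`, `c` of `M`), `ρ₀ = ρ ⊗_ψ K` on `K²` has
`K[G] → M₂(K)` onto, and `π = ρM ⊗ K` on `Kⁿ` satisfies the quadratic relations; Boston–Lenstra–
Ribet over the field `K` (landed `Lib.Ribet.H223.blr_exists_embedding`) gives an injective
equivariant `φ₀ : K² → Kⁿ`.  Clearing denominators of `φ₀ (e_i)` gives `m_i ∈ M`, and
`φ (∑ tᵢ bᵢ) = ∑ ψ(tᵢ) mᵢ`.  A `K`-linear retraction of `φ₀` with cleared denominators shows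
`δ ψ(tᵢ) ∈ 𝔪^N` whenever `φ v ∈ 𝔪^N M` (`δ ≠ 0` fixed), which gives strictness.
-/





set_option autoImplicit false

noncomputable section

namespace Fermat.Agent.S32.H152

open Matrix IsLocalRing Fermat.Agent.S19 Fermat.Agent.Lib.Ribet.H223

/-- Clearing denominators of finitely many vectors. -/
theorem emb_exists_clear {O K : Type*} [CommRing O] [IsDomain O] [Field K] [Algebra O K]
    [IsFractionRing O K] {ι κ : Type*} [Finite ι] [Finite κ] (x : ι → κ → K) :
    ∃ a : O, a ≠ 0 ∧ ∀ i j, ∃ y : O, algebraMap O K y = algebraMap O K a * x i j := by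
  classical
  have := Fintype.ofFinite ι
  have := Fintype.ofFinite κ
  obtain ⟨a, ha⟩ := IsLocalization.exist_integer_multiples_of_finset (nonZeroDivisors O)
    (Finset.univ.image (fun p : ι × κ => x p.1 p.2))
  refine ⟨a, nonZeroDivisors.ne_zero a.2, fun i j => ?_⟩
  obtain ⟨y, hy⟩ := ha (x i j) (Finset.mem_image.mpr ⟨(i, j), Finset.mem_univ _, rfl⟩)
  refine ⟨y, ?_⟩
  rw [hy, Algebra.smul_def]

/-- **Piece EMB of row S32.** -/
theorem embedStatement : EmbedStatement := by
  intro T _ _ ρ hspan 𝒪' _ _ _ h2 ψ M _ _ _ _ _ ρM hrel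
  classical
  set K := FractionRing 𝒪' with hK
  set ι : 𝒪' →+* K := algebraMap 𝒪' K with hιdef
  have hι : Function.Injective ι := IsFractionRing.injective 𝒪' K
  set f : T →+* K := ι.comp ψ with hf
  set b : Module.Basis (Fin 2) T ρ.V := Module.finBasisOfFinrankEq T ρ.V ρ.finrank_eq with hb
  set c := Module.Free.chooseBasis 𝒪' M with hc
  -- the two representations over `K`
  set ρ₀ : GalQ →* Module.End K (Fin 2 → K) :=
    ((embEnd f b : Module.End T ρ.V →+* _) : Module.End T ρ.V →* _).comp ρ.ρ with hρ₀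
  set π : GalQ →* Module.End K (Module.Free.ChooseBasisIndex 𝒪' M → K) :=
    ((embEnd ι c : Module.End 𝒪' M →+* _) : Module.End 𝒪' M →* _).comp ρM with hπdef
  set d : GalQ →* K := ((f : T →* K).comp (Units.coeHom T)).comp ρ.det with hd
  have hρ₀g : ∀ g, ρ₀ g = embEnd f b (ρ.ρ g) := fun g => rfl
  have hπg : ∀ g, π g = embEnd ι c (ρM g) := fun g => rfl
  have hdg : ∀ g, d g = f ((ρ.det g : Tˣ) : T) := fun g => rfl
  have hK2 : (2 : K) ≠ 0 := by
    intro h0
    apply h2
    apply hι
    rw [_root_.map_zero, _root_.map_ofNat]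
    exact h0
  have hfin2 : Module.finrank K (Fin 2 → K) = 2 := by simp
  -- surjectivity of `K[G] → End (K²)`
  have hsurj : Function.Surjective (MonoidAlgebra.lift K (Module.End K (Fin 2 → K)) GalQ ρ₀) := by
    set A₀ := (MonoidAlgebra.lift K (Module.End K (Fin 2 → K)) GalQ ρ₀).range with hA₀
    have hg : ∀ g, ρ₀ g ∈ A₀ := fun g =>
      ⟨MonoidAlgebra.of K GalQ g, MonoidAlgebra.lift_of _ _⟩
    have hall : ∀ E : Module.End T ρ.V, embEnd f b E ∈ A₀ := by
      intro E
      have hE : E ∈ Submodule.span T (Set.range ρ.ρ) := by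
        rw [hspan]
        exact Submodule.mem_top
      induction hE using Submodule.span_induction with
      | mem x hx =>
        obtain ⟨g, rfl⟩ := hx
        exact hg g
      | zero =>
        rw [_root_.map_zero]
        exact zero_mem _
      | add x y _ _ hx hy =>
        rw [_root_.map_add]
        exact add_mem hx hy
      | smul t x _ hx =>
        rw [embEnd_smul]
        exact Subalgebra.smul_mem _ hx _
    intro y
    have hy : y ∈ A₀ := by
      obtain ⟨Y, rfl⟩ := (Matrix.toLinAlgEquiv' : Matrix (Fin 2) (Fin 2) K ≃ₐ[K] _).surjective y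
      rw [Matrix.matrix_eq_sum_single Y]
      simp only [map_sum]
      refine Subalgebra.sum_mem _ fun i _ => Subalgebra.sum_mem _ fun j _ => ?_
      have e1 : (Matrix.single i j (Y i j) : Matrix (Fin 2) (Fin 2) K)
          = Y i j • Matrix.single i j (1 : K) := by
        rw [Matrix.smul_single, smul_eq_mul, _root_.mul_one]
      rw [e1, _root_.map_smul]
      refine Subalgebra.smul_mem _ ?_ _
      have e2 := embEnd_single f b i j
      have e3 : (Matrix.toLinAlgEquiv' : Matrix (Fin 2) (Fin 2) K ≃ₐ[K] _)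
          (Matrix.single i j (1 : K)) = Matrix.toLin' (Matrix.single i j (1 : K)) := rfl
      rw [e3, ← e2]
      exact hall _
    exact hy
  -- the quadratic relations
  have hπ : ∀ g, π g * π g - LinearMap.trace K (Fin 2 → K) (ρ₀ g) • π g + d g • 1 = 0 := by
    intro g
    have h := congrArg (embEnd ι c) (hrel g)
    rw [_root_.map_zero, _root_.map_add, _root_.map_sub, _root_.map_mul, embEnd_smul, embEnd_smul, _root_.map_one] at h
    rw [hπg, hρ₀g, embEnd_trace, hdg]
    exact h
  have : Nonempty (Module.Free.ChooseBasisIndex 𝒪' M) := by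
    by_contra hne
    rw [not_nonempty_iff] at hne
    obtain ⟨x, y, hxy⟩ := exists_pair_ne M
    apply hxy
    apply c.repr.injective
    ext j
    exact (hne.false j).elim
  have : Nontrivial (Module.Free.ChooseBasisIndex 𝒪' M → K) := inferInstance
  obtain ⟨φ₀, hφ₀inj, hφ₀eq⟩ := blr_exists_embedding hK2 hfin2 ρ₀ π d hsurj hπ
  -- retraction
  obtain ⟨r₀, hr₀⟩ := LinearMap.exists_leftInverse_of_injective φ₀
    (LinearMap.ker_eq_bot.mpr hφ₀inj)
  -- clearing denominators
  obtain ⟨a, ha0, ha⟩ := emb_exists_clear (O := 𝒪') (K := K)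
    (fun (i : Fin 2) (j : Module.Free.ChooseBasisIndex 𝒪' M) => φ₀ (Pi.single i 1) j)
  obtain ⟨a', ha'0, ha'⟩ := emb_exists_clear (O := 𝒪') (K := K)
    (fun (i : Fin 2) (j : Module.Free.ChooseBasisIndex 𝒪' M) => r₀ (Pi.single j 1) i)
  choose y hy using ha
  choose z hz using ha'
  -- the vectors `m i`
  set mvec : Fin 2 → M := fun i => ∑ j, y i j • c j with hmvec
  have hmcoord : ∀ i, embCoord ι c (mvec i) = ι a • φ₀ (Pi.single i 1) := by
    intro i
    funext j
    rw [embCoord_apply, hmvec]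
    simp only [map_sum, _root_.map_smul, Module.Basis.repr_self, Finsupp.coe_finsetSum,
      Finset.sum_apply, Finsupp.smul_apply, Finsupp.single_apply, smul_eq_mul, mul_ite, _root_.mul_one,
      _root_.MulZeroClass.mul_zero, Finset.sum_ite_eq', Finset.mem_univ, if_true, Pi.smul_apply]
    exact hy i j
  -- the map `φ`
  set φ : ρ.V →+ M :=
    { toFun := fun v => ∑ i, ψ (b.repr v i) • mvec i
      map_zero' := by simp
      map_add' := fun v w => by
        simp only [_root_.map_add, Finsupp.add_apply, add_smul, Finset.sum_add_distrib] } with hφ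
  have hφv : ∀ v, φ v = ∑ i, ψ (b.repr v i) • mvec i := fun v => rfl
  have hφcoord : ∀ v, embCoord ι c (φ v) = ι a • φ₀ (embCoord f b v) := by
    intro v
    have e1 : embCoord f b v = ∑ i, f (b.repr v i) • (Pi.single i 1 : Fin 2 → K) := by
      funext j
      simp [embCoord_apply, Finset.sum_apply, Pi.single_apply]
    rw [hφv, map_sum, e1, map_sum, Finset.smul_sum]
    refine Finset.sum_congr rfl fun i _ => ?_
    rw [embCoord_smul, hmcoord, _root_.map_smul, smul_comm]
    rfl
  refine ⟨φ, fun t v => ?_, fun g v => ?_, ?_⟩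
  · -- semilinear
    rw [hφv, hφv, Finset.smul_sum]
    refine Finset.sum_congr rfl fun i _ => ?_
    rw [_root_.map_smul, Finsupp.smul_apply, smul_eq_mul, _root_.map_mul, _root_.SemigroupAction.mul_smul]
  · -- equivariant
    apply embCoord_injective ι c hι
    rw [hφcoord, ← embEnd_coord ι c (ρM g) (φ v), hφcoord, ← embEnd_coord f b (ρ.ρ g) v,
      ← hρ₀g, hφ₀eq, _root_.map_smul, hπg]
  · -- strict
    have hδ : a' * a ≠ 0 := mul_ne_zero ha'0 ha0
    obtain ⟨k, hk⟩ := embCoord_dvr_cancel hδ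
    refine ⟨k, fun m v hv => ?_⟩
    -- coordinates of `φ v` lie in `𝔪 ^ (m + k)`
    have hcoord : ∀ j, c.repr (φ v) j ∈ maximalIdeal 𝒪' ^ (m + k) :=
      fun j => embCoord_repr_mem c _ hv j
    -- `ι (a' a ψ(tᵢ)) = ∑ⱼ ι (z i j) ι (coord j)`
    have hkey : ∀ i, ι (a' * a * ψ (b.repr v i))
        = ∑ j, ι (z i j) * ι (c.repr (φ v) j) := by
      intro i
      have e1 : r₀ (embCoord ι c (φ v)) = ι a • embCoord f b v := by
        rw [hφcoord, _root_.map_smul]
        have := congrArg (fun L : (Fin 2 → K) →ₗ[K] (Fin 2 → K) => L (embCoord f b v)) hr₀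
        simp only [LinearMap.comp_apply, LinearMap.id_apply] at this
        rw [this]
      have e2 : embCoord ι c (φ v)
          = ∑ j, ι (c.repr (φ v) j) • (Pi.single j 1 : Module.Free.ChooseBasisIndex 𝒪' M → K) := by
        funext j
        simp [embCoord_apply, Finset.sum_apply, Pi.single_apply]
      have e3 := congrFun e1 i
      rw [e2, map_sum, Finset.sum_apply] at e3
      simp only [_root_.map_smul, Pi.smul_apply, smul_eq_mul] at e3
      have e4 : ι (a' * a * ψ (b.repr v i)) = ι a' * (ι a * embCoord f b v i) := by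
        rw [_root_.map_mul, _root_.map_mul, embCoord_apply, _root_.mul_assoc]
        rfl
      rw [e4, ← e3, Finset.mul_sum]
      refine Finset.sum_congr rfl fun j _ => ?_
      rw [hz i j]
      ring
    have hmem : ∀ i, a' * a * ψ (b.repr v i) ∈ maximalIdeal 𝒪' ^ (m + k) := by
      intro i
      have e : a' * a * ψ (b.repr v i) = ∑ j, z i j * c.repr (φ v) j := by
        apply hι
        rw [hkey i, map_sum]
        refine Finset.sum_congr rfl fun j _ => ?_
        rw [_root_.map_mul]
      rw [e]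
      exact Ideal.sum_mem _ fun j _ => Ideal.mul_mem_left _ _ (hcoord j)
    have hti : ∀ i, b.repr v i ∈ Ideal.comap ψ (maximalIdeal 𝒪' ^ m) :=
      fun i => Ideal.mem_comap.mpr (hk m _ (hmem i))
    have hv' : v = ∑ i, b.repr v i • b i := (b.sum_repr v).symm
    rw [hv']
    exact Submodule.sum_mem _ fun i _ => Submodule.smul_mem_smul (hti i) Submodule.mem_top

end Fermat.Agent.S32.H152

end
end
-- ===== PACK-END S32/H152/Emb.lean

-- ===== PACK-BEGIN S24/H624/Germ.lean
section


/-!
# Taylor coefficients of germs; leading coefficient under Möbius transformations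
-/

set_option autoImplicit false

namespace Fermat.Agent.S24.H624

open UpperHalfPlane Complex
open scoped Manifold Topology MatrixGroups

/-- `n`-th Taylor coefficient at `z₀` of a function `ℂ → ℂ`. -/
noncomputable def germCoeff (z₀ : ℂ) (F : ℂ → ℂ) (n : ℕ) : ℂ :=
  iteratedDeriv n F z₀ / (n.factorial : ℂ)

theorem taylorCoeff_eq_germCoeff (τ : ℍ) (f : ℍ → ℂ) (n : ℕ) :
    taylorCoeff τ f n = germCoeff (τ : ℂ) (f ∘ ofComplex) n := rfl

theorem germCoeff_congr {F G : ℂ → ℂ} {z₀ : ℂ} (h : F =ᶠ[𝓝 z₀] G) (n : ℕ) :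
    germCoeff z₀ F n = germCoeff z₀ G n := by
  unfold germCoeff
  rw [h.iteratedDeriv_eq]

theorem germCoeff_zero_idx (z₀ : ℂ) (F : ℂ → ℂ) : germCoeff z₀ F 0 = F z₀ := by
  simp [germCoeff]

theorem germCoeff_mul {F G : ℂ → ℂ} {z₀ : ℂ} (hF : AnalyticAt ℂ F z₀) (hG : AnalyticAt ℂ G z₀)
    (n : ℕ) :
    germCoeff z₀ (F * G) n
      = ∑ p ∈ Finset.HasAntidiagonal.antidiagonal n, germCoeff z₀ F p.1 * germCoeff z₀ G p.2 := by
  unfold germCoeff
  have hF' : ContDiffAt ℂ n F z₀ := hF.contDiffAt.of_le (by exact_mod_cast le_top)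
  have hG' : ContDiffAt ℂ n G z₀ := hG.contDiffAt.of_le (by exact_mod_cast le_top)
  rw [iteratedDeriv_mul hF' hG',
    Finset.Nat.sum_antidiagonal_eq_sum_range_succ
      (fun i j => iteratedDeriv i F z₀ / (i.factorial : ℂ)
        * (iteratedDeriv j G z₀ / (j.factorial : ℂ))) n,
    Finset.sum_div]
  refine Finset.sum_congr rfl fun i hi => ?_
  have hi' : i ≤ n := Nat.lt_succ_iff.mp (Finset.mem_range.mp hi)
  have h1 : (n.choose i : ℂ)
      = (n.factorial : ℂ) / ((i.factorial : ℂ) * ((n - i).factorial : ℂ)) := by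
    rw [Nat.choose_eq_factorial_div_factorial hi']
    rw [Nat.cast_div (Nat.factorial_mul_factorial_dvd_factorial hi')
      (by exact_mod_cast (Nat.mul_pos (Nat.factorial_pos _) (Nat.factorial_pos _)).ne')]
    push_cast
    rfl
  rw [h1]
  have hn : (n.factorial : ℂ) ≠ 0 := by exact_mod_cast (Nat.factorial_pos n).ne'
  have hi0 : (i.factorial : ℂ) ≠ 0 := by exact_mod_cast (Nat.factorial_pos i).ne'
  have hni : ((n - i).factorial : ℂ) ≠ 0 := by exact_mod_cast (Nat.factorial_pos (n - i)).ne'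
  field_simp

theorem germCoeff_sub_id (z₀ : ℂ) (n : ℕ) :
    germCoeff z₀ (fun z => z - z₀) n = if n = 1 then 1 else 0 := by
  unfold germCoeff
  rcases n with _ | _ | n
  · simp
  · have h : deriv (fun z : ℂ => z - z₀) = fun _ => (1 : ℂ) := by
      funext z
      simp
    rw [iteratedDeriv_succ', h]
    simp
  · have h : deriv (fun z : ℂ => z - z₀) = fun _ => (1 : ℂ) := by
      funext z
      simp
    rw [iteratedDeriv_succ', h, iteratedDeriv_succ']
    simp

theorem germCoeff_sub_mul {G : ℂ → ℂ} {z₀ : ℂ} (hG : AnalyticAt ℂ G z₀) (n : ℕ) :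
    germCoeff z₀ (fun z => (z - z₀) * G z) (n + 1) = germCoeff z₀ G n := by
  have hF : AnalyticAt ℂ (fun z : ℂ => z - z₀) z₀ := by fun_prop
  have := germCoeff_mul hF hG (n + 1)
  rw [show (fun z => (z - z₀) * G z) = (fun z : ℂ => z - z₀) * G from rfl, this]
  rw [Finset.sum_eq_single (1, n)]
  · rw [germCoeff_sub_id]
    simp
  · rintro ⟨i, j⟩ hij hne
    rw [germCoeff_sub_id]
    have hsum : i + j = n + 1 := by simpa using hij
    have hi : i ≠ 1 := by
      rintro rfl
      apply hne
      have : j = n := by omega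
      rw [this]
    simp [hi]
  · intro h
    exfalso
    apply h
    simp
    omega

theorem germCoeff_pow_mul {G : ℂ → ℂ} {z₀ : ℂ} (hG : AnalyticAt ℂ G z₀) (n : ℕ) :
    germCoeff z₀ (fun z => (z - z₀) ^ n * G z) n = G z₀ := by
  induction n generalizing G with
  | zero => simp [germCoeff_zero_idx]
  | succ n ih =>
    have hG' : AnalyticAt ℂ (fun z => (z - z₀) ^ n * G z) z₀ := by fun_prop
    have h1 : (fun z => (z - z₀) ^ (n + 1) * G z)
        = fun z => (z - z₀) * ((z - z₀) ^ n * G z) := by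
      funext z
      ring
    rw [h1, germCoeff_sub_mul hG', ih hG]

/-- Leading Taylor coefficient via a local factorisation. -/
theorem germCoeff_of_eventuallyEq {F u : ℂ → ℂ} {z₀ : ℂ} (hu : AnalyticAt ℂ u z₀) {n : ℕ}
    (h : ∀ᶠ z in 𝓝 z₀, F z = (z - z₀) ^ n * u z) : germCoeff z₀ F n = u z₀ := by
  rw [germCoeff_congr (G := fun z => (z - z₀) ^ n * u z) h, germCoeff_pow_mul hu]

/-- **Leading coefficient form of the rotation lemma.**  If `f` has order `n` at `g • τ`, the
`n`-th Taylor coefficient of `f ∘ g` at `τ` is `(g'(τ)) ^ n` times that of `f` at `g • τ`. -/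
theorem taylorCoeff_comp_smul {g : GL (Fin 2) ℝ} (hg : 0 < g.det.val) {f : ℍ → ℂ} (hf : MDiff f)
    (τ : ℍ) {n : ℕ} (hn : ordAt (g • τ) f = n) :
    taylorCoeff τ (fun z : ℍ => f (g • z)) n
      = (((g.det.val : ℝ) : ℂ) / denom g (τ : ℂ) ^ 2) ^ n * taylorCoeff (g • τ) f n := by
  have hord : analyticOrderAt (f ∘ ofComplex) ((g • τ : ℍ) : ℂ) = (n : ℕ∞) := by
    rw [← ordAt_def, hn]
  obtain ⟨u, hu, -, hfu⟩ :=
    ((analyticAt_of_mdiff hf (g • τ)).analyticOrderAt_eq_natCast).mp hord
  have hd : denom g (τ : ℂ) ≠ 0 := denom_ne_zero g τ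
  have hmτ : moeb g (τ : ℂ) = ((g • τ : ℍ) : ℂ) := moeb_coe hg τ
  have hman : AnalyticAt ℂ (moeb g) (τ : ℂ) := analyticAt_moeb g hd
  have hmcont : ContinuousAt (moeb g) (τ : ℂ) := hman.continuousAt
  set c : ℂ := ((g.det.val : ℝ) : ℂ) with hc
  -- right-hand side: value of u at g τ
  have hR : taylorCoeff (g • τ) f n = u ((g • τ : ℍ) : ℂ) := by
    rw [taylorCoeff_eq_germCoeff]
    refine germCoeff_of_eventuallyEq hu ?_
    filter_upwards [hfu] with z hz
    rw [hz, smul_eq_mul]
  -- left-hand side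
  have h2 : ∀ᶠ z in 𝓝 (τ : ℂ), (f ∘ ofComplex) (moeb g z)
      = (moeb g z - ((g • τ : ℍ) : ℂ)) ^ n • u (moeb g z) := by
    have : Filter.Tendsto (moeb g) (𝓝 (τ : ℂ)) (𝓝 ((g • τ : ℍ) : ℂ)) := by
      have := hmcont.tendsto
      rwa [hmτ] at this
    exact this.eventually hfu
  have h3 : ∀ᶠ z in 𝓝 (τ : ℂ), denom g z ≠ 0 :=
    (hasDerivAt_denom g _).continuousAt.eventually_ne hd
  have hden_an : AnalyticAt ℂ (fun z => denom g z * denom g (τ : ℂ)) (τ : ℂ) := by
    have : (fun z => denom g z * denom g (τ : ℂ))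
        = fun w : ℂ => (((g 1 0 : ℝ) : ℂ) * w + ((g 1 1 : ℝ) : ℂ)) * denom g (τ : ℂ) := by
      funext w; simp [denom]
    rw [this]
    fun_prop
  have hU : AnalyticAt ℂ (fun z => (c / (denom g z * denom g (τ : ℂ))) ^ n * u (moeb g z))
      (τ : ℂ) := by
    have h1 : AnalyticAt ℂ (fun z => c / (denom g z * denom g (τ : ℂ))) (τ : ℂ) :=
      analyticAt_const.div hden_an (mul_ne_zero hd hd)
    have h2' : AnalyticAt ℂ (fun z => u (moeb g z)) (τ : ℂ) := by
      have : AnalyticAt ℂ u (moeb g (τ : ℂ)) := by rw [hmτ]; exact hu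
      exact AnalyticAt.fun_comp this hman
    exact (h1.pow n).mul h2'
  have hL : taylorCoeff τ (fun z : ℍ => f (g • z)) n
      = (c / (denom g (τ : ℂ) * denom g (τ : ℂ))) ^ n * u (moeb g (τ : ℂ)) := by
    rw [taylorCoeff_eq_germCoeff]
    refine germCoeff_of_eventuallyEq (u := fun z => (c / (denom g z * denom g (τ : ℂ))) ^ n
      * u (moeb g z)) hU ?_
    filter_upwards [eventuallyEq_comp_smul hg f τ, h2, h3] with z e1 e2 e3
    rw [e1]
    simp only [Function.comp_apply] at e2 ⊢
    rw [e2, ← hmτ, moeb_sub_moeb g e3 hd, smul_eq_mul, ← mul_assoc, ← mul_pow]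
    congr 2
    ring
  rw [hL, hR, hmτ, sq]

/-- `SL(2, ℤ)` version for the left action `(γ • f) τ = f (γ⁻¹ • τ)`. -/
theorem taylorCoeff_smul_holoRing (γ : SL(2, ℤ)) (f : holoRing) (τ : ℍ) {n : ℕ}
    (hn : ordAt (γ⁻¹ • τ) (f : ℍ → ℂ) = n) :
    taylorCoeff τ ((γ • f : holoRing) : ℍ → ℂ) n
      = (1 / denom ((γ⁻¹ : SL(2, ℤ)) : GL (Fin 2) ℝ) (τ : ℂ) ^ 2) ^ n
        * taylorCoeff (γ⁻¹ • τ) (f : ℍ → ℂ) n := by
  have h := taylorCoeff_comp_smul (g := ((γ⁻¹ : SL(2, ℤ)) : GL (Fin 2) ℝ))
    (det_coe_SL_pos γ⁻¹) f.2 τ (n := n) hn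
  rw [det_coe_SL, Complex.ofReal_one] at h
  exact h

end Fermat.Agent.S24.H624

end
-- ===== PACK-END S24/H624/Germ.lean

-- ===== PACK-BEGIN S24/FFDict.lean
section




/-!
# S24 / FF layer: dictionary between places and primes of the integral closure of `K[t]`
(helper804)
-/

set_option autoImplicit false
set_option linter.unusedSectionVars false

namespace Fermat.Agent.S24.FF

open AlgebraicCurve Polynomial IntermediateField IsDedekindDomain

open scoped IntermediateField.algebraAdjoinAdjoin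

variable {K F : Type*} [Field K] [Field F] [Algebra K F] {t : F}

/-- `K[t] ⊆ O_v` when `t` is integral at `v`. -/
theorem mem_of_mem_coordRing (v : Place K F) (ht : 0 ≤ v.ord t) {r : F}
    (hr : r ∈ coordRing K t) : r ∈ v.toValuationSubring := by
  induction hr using Algebra.adjoin_induction with
  | mem x hx =>
    rw [Set.mem_singleton_iff] at hx
    subst hx
    exact mem_of_ord_nonneg v ht
  | algebraMap a => exact v.algebraMap_mem' a
  | add x y _ _ hx hy => exact _root_.AddMemClass.add_mem hx hy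
  | mul x y _ _ hx hy => exact _root_.MulMemClass.mul_mem hx hy

/-- The integral closure of `K[t]` is contained in `O_v` when `t` is integral at `v`. -/
theorem mem_of_mem_intRing (v : Place K F) (ht : 0 ≤ v.ord t) {s : F}
    (hs : s ∈ intRing K t) : s ∈ v.toValuationSubring := by
  let φ : coordRing K t →+* v.toValuationSubring :=
    { toFun := fun y => ⟨y, mem_of_mem_coordRing v ht y.2⟩
      map_one' := rfl
      map_mul' := fun _ _ => rfl
      map_zero' := rfl
      map_add' := fun _ _ => rfl }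
  obtain ⟨p, hpm, hp⟩ := hs
  have hint' : IsIntegral v.toValuationSubring s := by
    refine ⟨p.map φ, hpm.map φ, ?_⟩
    rw [← hp, Polynomial.eval₂_map]
    rfl
  obtain ⟨y, hy⟩ := IsIntegrallyClosed.isIntegral_iff.mp hint'
  rw [← hy]
  exact y.2

/-- The inclusion of the integral closure of `K[t]` into `O_v`. -/
def toPlaceRing (v : Place K F) (ht : 0 ≤ v.ord t) : intRing K t →+* v.toValuationSubring where
  toFun s := ⟨s, mem_of_mem_intRing v ht s.2⟩
  map_one' := rfl
  map_mul' _ _ := rfl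
  map_zero' := rfl
  map_add' _ _ := rfl

@[simp] theorem coe_toPlaceRing (v : Place K F) (ht : 0 ≤ v.ord t) (s : intRing K t) :
    ((toPlaceRing v ht s : v.toValuationSubring) : F) = (s : F) := rfl

/-- The center of the place `v` on the integral closure of `K[t]`. -/
def center (v : Place K F) (ht : 0 ≤ v.ord t) : Ideal (intRing K t) :=
  Ideal.comap (toPlaceRing v ht) (IsLocalRing.maximalIdeal v.toValuationSubring)

instance center_isPrime (v : Place K F) (ht : 0 ≤ v.ord t) : (center v ht).IsPrime := by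
  unfold center
  infer_instance

theorem mem_center_iff (v : Place K F) (ht : 0 ≤ v.ord t) (s : intRing K t) :
    s ∈ center v ht ↔ (s : F) ∈ v.toValuationSubring.nonunits := by
  rw [center, Ideal.mem_comap]
  exact ValuationSubring.coe_mem_nonunits_iff.symm

theorem mem_nonunits_valuationSubring_iff {Γ₀ : Type*} [LinearOrderedCommGroupWithZero Γ₀]
    (w : Valuation F Γ₀) (x : F) : x ∈ w.valuationSubring.nonunits ↔ w x < 1 := by
  rw [ValuationSubring.mem_nonunits_iff]
  exact (Valuation.isEquiv_valuation_valuationSubring w).lt_one_iff_lt_one.symm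

variable (K t) in
/-- `t` as an element of `K[t]`. -/
def tR : coordRing K t := ⟨t, Algebra.self_mem_adjoin_singleton K t⟩

variable (K t) in
/-- `t` as an element of the integral closure of `K[t]`. -/
def tS : intRing K t := algebraMap (coordRing K t) (intRing K t) (tR K t)

@[simp] theorem coe_tR : ((tR K t : coordRing K t) : F) = t := rfl

@[simp] theorem coe_tS : ((tS K t : intRing K t) : F) = t := rfl

section withCoord

variable [CharZero K] [IsCoord K t]

theorem center_ne_bot (v : Place K F) (ht : 0 < v.ord t) : center v ht.le ≠ ⊥ := by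
  intro h
  have ht0 : t ≠ 0 := by
    rintro rfl
    simp at ht
  have htS : tS K t ∈ center v ht.le :=
    (mem_center_iff v ht.le _).mpr ((ord_pos_iff_mem_nonunits v ht0).mp ht)
  rw [h, Ideal.mem_bot] at htS
  apply ht0
  have := congrArg (fun s : intRing K t => (s : F)) htS
  simpa using this

/-- The center of `v` as a height-one prime. -/
def centerPrime (v : Place K F) (ht : 0 < v.ord t) : HeightOneSpectrum (intRing K t) :=
  ⟨center v ht.le, inferInstance, center_ne_bot v ht⟩

@[simp] theorem centerPrime_asIdeal (v : Place K F) (ht : 0 < v.ord t) :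
    (centerPrime v ht).asIdeal = center v ht.le := rfl

/-- **Dictionary, surjectivity**: a place at which `t` vanishes is the place of its center. -/
theorem placeOfPrime_centerPrime (v : Place K F) (ht : 0 < v.ord t) :
    placeOfPrime K t (centerPrime v ht) = v := by
  apply Place.ext
  rw [placeOfPrime_toValuationSubring,
    ← HeightOneSpectrum.valuationSubringAtPrime_eq_valuationSubring]
  refine ValuationSubring.eq_of_le_of_ne_top _ ?_ v.ne_top'
  rintro x ⟨a, s, hs, rfl⟩
  have ha : (a : F) ∈ v.toValuationSubring := mem_of_mem_intRing v ht.le a.2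
  have hs' : (s : F) ∉ v.toValuationSubring.nonunits := fun h =>
    hs ((mem_center_iff v ht.le s).mpr h)
  have hsinv : (s : F)⁻¹ ∈ v.toValuationSubring := by
    by_contra hcon
    exact hs' ((ValuationSubring.mem_nonunits_iff_or _).mpr (Or.inr hcon))
  exact _root_.MulMemClass.mul_mem ha hsinv

theorem ord_t_placeOfPrime_nonneg (q : HeightOneSpectrum (intRing K t)) :
    0 ≤ (placeOfPrime K t q).ord t := by
  apply ord_nonneg_of_mem
  rw [placeOfPrime_toValuationSubring, Valuation.mem_valuationSubring_iff]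
  exact q.valuation_le_one (tS K t)

/-- **Dictionary, injectivity**: the center of the place of `q` is `q`. -/
theorem center_placeOfPrime (q : HeightOneSpectrum (intRing K t)) :
    center (placeOfPrime K t q) (ord_t_placeOfPrime_nonneg q) = q.asIdeal := by
  ext s
  rw [mem_center_iff, placeOfPrime_toValuationSubring, mem_nonunits_valuationSubring_iff]
  exact q.valuation_lt_one_iff_mem s

theorem placeOfPrime_injective :
    Function.Injective (placeOfPrime K t : HeightOneSpectrum (intRing K t) → Place K F) := by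
  intro q q' h
  have h1 := center_placeOfPrime q
  have h2 := center_placeOfPrime q'
  apply HeightOneSpectrum.ext
  rw [← h1, ← h2]
  congr 1

/-- `t` vanishes at the place of `q` iff `t ∈ q`. -/
theorem ord_t_placeOfPrime_pos_iff (ht0 : t ≠ 0) (q : HeightOneSpectrum (intRing K t)) :
    0 < (placeOfPrime K t q).ord t ↔ tS K t ∈ q.asIdeal := by
  rw [ord_pos_iff_mem_nonunits _ ht0, placeOfPrime_toValuationSubring,
    mem_nonunits_valuationSubring_iff]
  exact q.valuation_lt_one_iff_mem (tS K t)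

end withCoord

end Fermat.Agent.S24.FF

end
-- ===== PACK-END S24/FFDict.lean

-- ===== PACK-BEGIN S24/H117/LocalThm.lean
section




/-!
# S24 / H117 — the local theorem (LT2, LT3)

For `L : LocalData K F C X t` with `[F : E] = #X` (`E ⊆ K(t)`):

* `exists_placeOf_eq` (LT2): every place `v` of `F/K` with `0 < v.ord t` is induced by one of
  the embeddings `L.σ x`;
* `localThm` (LT3): if moreover `#X ≤ ∑_{v | t} v.ord t`, then the places over `t = 0`
  correspond bijectively to the cycles of `L.perm`, and `v.ord t` is the length of the cycle.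
-/

set_option autoImplicit false
set_option linter.style.haveILetI false

noncomputable section

open AlgebraicCurve IntermediateField

namespace Fermat.Agent.S24.H117

variable {K F : Type*} [Field K] [Field F] [Algebra K F] [CharZero K]
variable {C : Type*} [Field C] {X : Type*} [Finite X]
variable {t : F} (L : LocalData K F C X t)

omit [CharZero K] [Finite X] in
theorem order_leadingCoeff_iterate (x : X) (f : F) (i : ℕ) :
    (L.σ ((L.perm ^ i) x) f).order = (L.σ x f).order ∧
      (L.σ ((L.perm ^ i) x) f).leadingCoeff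
        = (L.ζ ^ (L.σ x f).order) ^ i * (L.σ x f).leadingCoeff := by
  induction i with
  | zero => simp
  | succ n ih =>
    rw [pow_succ', Equiv.Perm.mul_apply]
    refine ⟨by rw [L.σ_perm_order, ih.1], ?_⟩
    rw [L.σ_perm_leadingCoeff, ih.1, ih.2, pow_succ]
    ring

omit [CharZero K] [Finite X] in
/-- The ramification index `e = ord_v t` divides every period of `x` under `perm`. -/
theorem ord_t_dvd_of_pow_apply_eq (x : X) (i : ℕ) (hi : (L.perm ^ i) x = x) :
    (placeOf L x).ord t ∣ (i : ℤ) := by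
  obtain ⟨π, hπ0, hπ⟩ := exists_ord_eq_one (placeOf L x)
  have hord : (L.σ x π).order = mult L x := by rw [order_eq, hπ, mul_one]
  have hlc : (L.σ x π).leadingCoeff ≠ 0 :=
    HahnSeries.leadingCoeff_ne_zero.mpr ((map_ne_zero (L.σ x)).mpr hπ0)
  have h := (order_leadingCoeff_iterate L x π i).2
  rw [hi, hord, zpow_natCast] at h
  have h1 : (L.ζ ^ mult L x) ^ i = 1 := by
    have : (L.ζ ^ mult L x) ^ i * (L.σ x π).leadingCoeff = 1 * (L.σ x π).leadingCoeff := by
      rw [one_mul]; exact h.symm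
    exact mul_right_cancel₀ hlc this
  rw [← pow_mul] at h1
  have h2 : L.m ∣ mult L x * i := (L.hζ.pow_eq_one_iff_dvd _).mp h1
  have h3 : ((mult L x : ℤ) * (placeOf L x).ord t) ∣ (mult L x : ℤ) * i := by
    rw [mult_mul_ord_t]
    exact_mod_cast h2
  have hk : (mult L x : ℤ) ≠ 0 := by exact_mod_cast (mult_pos L x).ne'
  exact (mul_dvd_mul_iff_left hk).mp h3

variable (E : IntermediateField K F) (hE : E ≤ K⟮t⟯) [FiniteDimensional E F]
  (hrank : Module.finrank E F = Nat.card X)

include hE hrank in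
/-- **LT2.** Every place over `t = 0` is induced by one of the embeddings. -/
theorem exists_placeOf_eq (v : Place K F) (hv : 0 < v.ord t) : ∃ x, placeOf L x = v := by
  classical
  by_contra hcon
  push Not at hcon
  haveI : Fintype X := Fintype.ofFinite X
  have hvs : v ∉ Finset.univ.image (placeOf L) := by
    intro h
    obtain ⟨x, -, hx⟩ := Finset.mem_image.mp h
    exact hcon x hx
  obtain ⟨f, hf1, hf2⟩ := exists_ord_neg_forall_pos v _ hvs
  have hf3 : ∀ x, 0 ≤ ((L.σ x) f).order := fun x =>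
    (ord_placeOf_nonneg_iff L x f).mp
      (hf2 _ (Finset.mem_image_of_mem _ (Finset.mem_univ x))).le
  have := ord_nonneg_of_forall_order_nonneg L E hE hrank f hf3 v hv
  omega

include hE hrank in
theorem mem_image_placeOf_iff [Fintype X] [DecidableEq (Place K F)] (v : Place K F) :
    v ∈ Finset.univ.image (placeOf L) ↔ 0 < v.ord t := by
  constructor
  · intro h
    obtain ⟨x, -, rfl⟩ := Finset.mem_image.mp h
    exact ord_t_pos L x
  · intro h
    obtain ⟨x, rfl⟩ := exists_placeOf_eq L E hE hrank v h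
    exact Finset.mem_image_of_mem _ (Finset.mem_univ x)

include L hE hrank in
/-- The set of places over `t = 0` is finite. -/
theorem finite_places_over : {v : Place K F | 0 < v.ord t}.Finite := by
  classical
  haveI : Fintype X := Fintype.ofFinite X
  refine (Finset.univ.image (placeOf L)).finite_toSet.subset ?_
  intro v hv
  exact (mem_image_placeOf_iff L E hE hrank v).mpr hv

include hE hrank in
/-- **LT3 (local theorem).**  Assume the fundamental inequality `#X ≤ ∑_{v | t} ord_v t`.
Then the places over `t = 0` are in bijection with the cycles of `perm`, the ramification index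
of the place induced by `x` is the length of the cycle through `x`, and
`∑_{v | t} ord_v t = #X`. -/
theorem localThm (s : Finset (Place K F)) (hs : ∀ v, v ∈ s ↔ 0 < v.ord t)
    (hsum : (Nat.card X : ℤ) ≤ ∑ v ∈ s, v.ord t) :
    s.card = numOrbits L.perm ∧
      (∀ x, (Nat.card (MulAction.orbit (Subgroup.zpowers L.perm) x) : ℤ) = (placeOf L x).ord t) ∧
      (∑ v ∈ s, v.ord t = Nat.card X) := by
  classical
  haveI : Fintype X := Fintype.ofFinite X
  have hs' : s = Finset.univ.image (placeOf L) := by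
    ext v
    rw [hs, mem_image_placeOf_iff L E hE hrank]
  subst hs'
  have hcast : ∀ v ∈ Finset.univ.image (placeOf L), (((v.ord t).toNat : ℕ) : ℤ) = v.ord t := by
    intro v hv
    exact Int.toNat_of_nonneg ((hs v).mp hv).le
  have hsumNat : Fintype.card X ≤ ∑ v ∈ Finset.univ.image (placeOf L), (v.ord t).toNat := by
    have : (Nat.card X : ℤ) ≤ ((∑ v ∈ Finset.univ.image (placeOf L), (v.ord t).toNat : ℕ) : ℤ) := by
      rw [Nat.cast_sum, Finset.sum_congr rfl hcast]
      exact hsum
    rw [Nat.card_eq_fintype_card] at this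
    exact_mod_cast this
  obtain ⟨h1, h2, h3⟩ := orbit_count_squeeze L.perm (placeOf L) (fun v => (v.ord t).toNat)
    (placeOf_perm L)
    (fun x i hi => by
      have := ord_t_dvd_of_pow_apply_eq L x i hi
      have hpos := ord_t_pos L x
      exact Int.natCast_dvd_natCast.mp (by rwa [Int.toNat_of_nonneg hpos.le]))
    hsumNat
  refine ⟨by rw [numOrbits, h1], fun x => ?_, ?_⟩
  · rw [h2 x]
    exact Int.toNat_of_nonneg (ord_t_pos L x).le
  · have : ((∑ v ∈ Finset.univ.image (placeOf L), (v.ord t).toNat : ℕ) : ℤ) = Fintype.card X := by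
      exact_mod_cast h3
    rw [Nat.cast_sum, Finset.sum_congr rfl hcast] at this
    rw [this, Nat.card_eq_fintype_card]

end Fermat.Agent.S24.H117

end
end
-- ===== PACK-END S24/H117/LocalThm.lean

-- ===== PACK-BEGIN S30/H990/Cyclo.lean
section
/-
S30 top glue (helper990): the `p`-adic cyclotomic character with values in a complete local ring
`𝒪` with `p ∈ 𝔪`: Frobenius elements, inertia, complex conjugation, continuity.
-/




set_option autoImplicit false

namespace Fermat.Agent.S30.H990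

open Fermat.Agent.S55.H414 Fermat.Agent.S55.Bridge

section PadicHom

variable (p : ℕ) [Fact p.Prime]

/-- Ring homomorphisms from `ℤ_[p]` to a ring killed by a power of `p` are unique. -/
theorem padicInt_ringHom_ext {R : Type*} [Ring R] (m : ℕ) (hm : (p : R) ^ m = 0)
    (f g : ℤ_[p] →+* R) : f = g := by
  have key : ∀ (h : ℤ_[p] →+* R) (x : ℤ_[p]), h x = ((x.appr m : ℕ) : R) := by
    intro h x
    have := PadicInt.appr_spec m x
    rw [Ideal.mem_span_singleton'] at this
    obtain ⟨y, hy⟩ := this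
    have hx : x = y * (p : ℤ_[p]) ^ m + ((x.appr m : ℕ) : ℤ_[p]) := by rw [hy]; ring
    conv_lhs => rw [hx]
    rw [map_add, map_mul, map_pow, map_natCast, map_natCast, hm, mul_zero, zero_add]
  ext x
  rw [key f, key g]

variable (𝒪 : Type) [CommRing 𝒪] [IsLocalRing 𝒪]
  [IsAdicComplete (IsLocalRing.maximalIdeal 𝒪) 𝒪]

/-- A complete local ring with `p` in its maximal ideal is a `ℤ_[p]`-algebra. -/
theorem exists_padicInt_ringHom (hp : (p : 𝒪) ∈ IsLocalRing.maximalIdeal 𝒪) :
    Nonempty (ℤ_[p] →+* 𝒪) := by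
  classical
  have hpow : ∀ n, (p : 𝒪 ⧸ IsLocalRing.maximalIdeal 𝒪 ^ n) ^ n = 0 := by
    intro n
    have : (p : 𝒪 ⧸ IsLocalRing.maximalIdeal 𝒪 ^ n) ^ n
        = Ideal.Quotient.mk (IsLocalRing.maximalIdeal 𝒪 ^ n) ((p : 𝒪) ^ n) := by
      simp
    rw [this, Ideal.Quotient.eq_zero_iff_mem]
    exact Ideal.pow_mem_pow hp n
  have hzero : ∀ n, ((p ^ n : ℕ) : 𝒪 ⧸ IsLocalRing.maximalIdeal 𝒪 ^ n) = 0 := by
    intro n
    rw [Nat.cast_pow]
    exact hpow n
  let f : (n : ℕ) → ℤ_[p] →+* 𝒪 ⧸ IsLocalRing.maximalIdeal 𝒪 ^ n := fun n =>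
    haveI := ringChar.charP (𝒪 ⧸ IsLocalRing.maximalIdeal 𝒪 ^ n)
    (ZMod.castHom ((ringChar.spec _ _).mp (hzero n))
      (𝒪 ⧸ IsLocalRing.maximalIdeal 𝒪 ^ n)).comp (PadicInt.toZModPow n)
  refine ⟨IsAdicComplete.liftRingHom (IsLocalRing.maximalIdeal 𝒪) f ?_⟩
  intro m n hle
  exact padicInt_ringHom_ext p m (hpow m) _ _

end PadicHom

section CycloZp

variable (p : ℕ) [Fact p.Prime]

/-- The `p`-adic cyclotomic character of `G_ℚ`. -/
noncomputable def cycloZp : GQ →* ℤ_[p]ˣ :=
  (cyclotomicCharacter (AlgebraicClosure ℚ) p).comp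
    (MulSemiringAction.toRingAut GQ (AlgebraicClosure ℚ))

theorem cycloZp_spec (σ : GQ) (n : ℕ) :
    σ (zetaBar (p ^ n)) =
      zetaBar (p ^ n) ^ ((PadicInt.toZModPow n) ((cycloZp p σ : ℤ_[p]ˣ) : ℤ_[p])).val :=
  cyclotomicCharacter.spec p (MulSemiringAction.toRingAut GQ (AlgebraicClosure ℚ) σ)
    (zetaBar (p ^ n)) (zetaBar_spec (p ^ n)).pow_eq_one

/-- The value of the cyclotomic character is determined by the action on the roots of unity
`ζ_{p^n}`. -/
theorem toZModPow_cycloZp (σ : GQ) (n : ℕ) (a : ℕ)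
    (h : σ (zetaBar (p ^ n)) = zetaBar (p ^ n) ^ a) :
    (PadicInt.toZModPow n) ((cycloZp p σ : ℤ_[p]ˣ) : ℤ_[p]) = (a : ZMod (p ^ n)) := by
  have h1 := cycloZp_spec p σ n
  rw [h, pow_eq_pow_iff_natCast_eq (zetaBar_spec (p ^ n)), ZMod.natCast_zmod_val] at h1
  exact h1.symm

theorem cycloZp_eq_of_forall (σ : GQ) (x : ℤ_[p])
    (h : ∀ n, ∃ a : ℕ, σ (zetaBar (p ^ n)) = zetaBar (p ^ n) ^ a ∧
      (a : ZMod (p ^ n)) = PadicInt.toZModPow n x) :
    ((cycloZp p σ : ℤ_[p]ˣ) : ℤ_[p]) = x := by
  rw [← PadicInt.ext_of_toZModPow]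
  intro n
  obtain ⟨a, ha, hax⟩ := h n
  rw [toZModPow_cycloZp p σ n a ha, hax]

/-- Frobenius elements at `ℓ ≠ p`. -/
theorem cycloZp_frobenius {ℓ : ℕ} (hℓ : ℓ.Prime) (hℓp : ℓ ≠ p)
    (A : ValuationSubring (AlgebraicClosure ℚ)) (hA : A.LiesOverPrime ℓ) (σ : GQ)
    (hσ : A.IsFrobeniusAt σ ℓ) : ((cycloZp p σ : ℤ_[p]ˣ) : ℤ_[p]) = (ℓ : ℤ_[p]) := by
  have hp : p.Prime := Fact.out
  apply cycloZp_eq_of_forall
  intro n
  have hNv : A.valuation ((p ^ n : ℕ) : AlgebraicClosure ℚ) = 1 := by
    rw [Nat.cast_pow, map_pow, val_prime_eq_one (A := A) hA hℓ hp hℓp, one_pow]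
  refine ⟨ℓ, IsFrobeniusAt_apply_root hσ (NeZero.ne _) hNv (zetaBar_spec (p ^ n)).pow_eq_one, ?_⟩
  rw [map_natCast]

/-- Inertia at `q ≠ p`. -/
theorem cycloZp_inertia {q : ℕ} (hq : q.Prime) (hqp : q ≠ p)
    (P : ValuationSubring (AlgebraicClosure ℚ)) (hP : P.LiesOverPrime q) (σ : GQ)
    (hσ : σ ∈ P.inertiaSubgroupIn ℚ) : cycloZp p σ = 1 := by
  have hp : p.Prime := Fact.out
  apply Units.ext
  rw [Units.val_one]
  apply cycloZp_eq_of_forall
  intro n
  have hNv : P.valuation ((p ^ n : ℕ) : AlgebraicClosure ℚ) = 1 := by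
    rw [Nat.cast_pow, map_pow, val_prime_eq_one (A := P) hP hq hp hqp, one_pow]
  have h1 := inertia_le_fixingSubgroup_cycloLevel (p ^ n) P hNv hσ
  rw [mem_fixingSubgroup_cycloLevel_iff] at h1
  refine ⟨1, by rw [h1, pow_one], ?_⟩
  rw [Nat.cast_one, map_one]

/-- Complex conjugation inverts roots of unity. -/
theorem complexConjugation_root {N : ℕ} (hN : N ≠ 0) {z : AlgebraicClosure ℚ} (hz : z ^ N = 1) :
    complexConjugation z = z⁻¹ := by
  apply complexEmbedding.toRingHom.injective
  show complexEmbedding (complexConjugation z) = complexEmbedding z⁻¹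
  rw [complexEmbedding_complexConjugation, map_inv₀]
  have h1 : (complexEmbedding z) ^ N = 1 := by rw [← map_pow, hz, map_one]
  exact (Complex.inv_eq_conj (Complex.norm_eq_one_of_pow_eq_one h1 hN)).symm

/-- Complex conjugation. -/
theorem cycloZp_complexConjugation : cycloZp p complexConjugation = -1 := by
  have hp : p.Prime := Fact.out
  apply Units.ext
  rw [Units.val_neg, Units.val_one]
  apply cycloZp_eq_of_forall
  intro n
  have hz := (zetaBar_spec (p ^ n)).pow_eq_one
  have hpos : 0 < p ^ n := pos_of_ne_zero (NeZero.ne _)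
  refine ⟨p ^ n - 1, ?_, ?_⟩
  · rw [complexConjugation_root (NeZero.ne (p ^ n)) hz]
    apply inv_eq_of_mul_eq_one_right
    rw [← pow_succ', Nat.sub_add_cancel hpos, hz]
  · rw [Nat.cast_sub hpos, Nat.cast_one, ZMod.natCast_self, zero_sub, map_neg, map_one]

/-- Continuity. -/
theorem cycloZp_sub_one_mem (n : ℕ) (σ : GQ) (h : ∀ x ∈ cycloLevel (p ^ n), σ x = x) :
    ((cycloZp p σ : ℤ_[p]ˣ) : ℤ_[p]) - 1 ∈ Ideal.span {(p : ℤ_[p]) ^ n} := by
  rw [← PadicInt.ker_toZModPow, RingHom.mem_ker, map_sub, map_one, sub_eq_zero]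
  have h1 : σ (zetaBar (p ^ n)) = zetaBar (p ^ n) ^ 1 := by
    rw [pow_one]
    exact h _ (zetaBar_mem_cycloLevel (p ^ n))
  rw [toZModPow_cycloZp p σ n 1 h1, Nat.cast_one]

end CycloZp

section Cyclo

variable (p : ℕ) [Fact p.Prime] (𝒪 : Type) [CommRing 𝒪] [IsLocalRing 𝒪]
  [IsAdicComplete (IsLocalRing.maximalIdeal 𝒪) 𝒪]

/-- The `p`-adic cyclotomic character with values in `𝒪`. -/
theorem exists_cyclo (hp : (p : 𝒪) ∈ IsLocalRing.maximalIdeal 𝒪) :
    ∃ d : GQ →* 𝒪ˣ,
      (∀ ℓ : ℕ, ℓ.Prime → ℓ ≠ p → ∀ A : ValuationSubring (AlgebraicClosure ℚ),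
        A.LiesOverPrime ℓ → ∀ σ : GQ, A.IsFrobeniusAt σ ℓ → ((d σ : 𝒪ˣ) : 𝒪) = (ℓ : 𝒪)) ∧
      (∀ q : ℕ, q.Prime → q ≠ p → ∀ P : ValuationSubring (AlgebraicClosure ℚ),
        P.LiesOverPrime q → ∀ σ ∈ P.inertiaSubgroupIn ℚ, d σ = 1) ∧
      d complexConjugation = -1 ∧
      (∀ (n : ℕ) (σ : GQ), (∀ x ∈ cycloLevel (p ^ n), σ x = x) →
        ((d σ : 𝒪ˣ) : 𝒪) - 1 ∈ IsLocalRing.maximalIdeal 𝒪 ^ n) := by
  obtain ⟨φ⟩ := exists_padicInt_ringHom p 𝒪 hp
  refine ⟨(Units.map (φ : ℤ_[p] →* 𝒪)).comp (cycloZp p), ?_, ?_, ?_, ?_⟩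
  · intro ℓ hℓ hℓp A hA σ hσ
    show φ ((cycloZp p σ : ℤ_[p]ˣ) : ℤ_[p]) = (ℓ : 𝒪)
    rw [cycloZp_frobenius p hℓ hℓp A hA σ hσ, map_natCast]
  · intro q hq hqp P hP σ hσ
    rw [MonoidHom.comp_apply, cycloZp_inertia p hq hqp P hP σ hσ, map_one]
  · rw [MonoidHom.comp_apply, cycloZp_complexConjugation]
    apply Units.ext
    show φ ((-1 : ℤ_[p]ˣ) : ℤ_[p]) = ((-1 : 𝒪ˣ) : 𝒪)
    rw [Units.val_neg, Units.val_one, Units.val_neg, Units.val_one, map_neg, map_one]
  · intro n σ h
    have h1 := cycloZp_sub_one_mem p n σ h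
    rw [Ideal.mem_span_singleton'] at h1
    obtain ⟨y, hy⟩ := h1
    show φ ((cycloZp p σ : ℤ_[p]ˣ) : ℤ_[p]) - 1 ∈ IsLocalRing.maximalIdeal 𝒪 ^ n
    have : φ ((cycloZp p σ : ℤ_[p]ˣ) : ℤ_[p]) - 1 = φ y * (p : 𝒪) ^ n := by
      rw [← map_one φ, ← map_sub, ← hy, map_mul, map_pow, map_natCast]
    rw [this]
    exact Ideal.mul_mem_left _ _ (Ideal.pow_mem_pow hp n)

end Cyclo

end Fermat.Agent.S30.H990

end
-- ===== PACK-END S30/H990/Cyclo.lean

-- ===== PACK-BEGIN S37/H99/Glue.lean
section


/-!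
# S37 (helper99): the frozen statement S37 from reduction data (R1, final glue)

`RedData N A ℓ hℓ` is the ONLY thing left to construct: an additive map `red` from
`JZero N = Pic⁰(ℚ̄(X₀(N)))` to an arbitrary additive group such that
* inertia at `A` acts trivially after `red`,
* Frobenius elements at `A` preserve `ker red`,
* `red` is injective on torsion of order prime to `ℓ`,
* (Eichler–Shimura) `red (σ²x - T_ℓ σ x + ℓ x) = 0` for Frobenius elements `σ` at `A`.
No Hecke-module structure on the target is needed.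
-/

set_option autoImplicit false

noncomputable section

namespace Fermat.Agent.S37.H99

open ModularCurve ValuationSubring

/-- Reduction data for `J₀(N)` at a valuation subring `A` of `ℚ̄` over the prime `ℓ`. -/
structure RedData (N : ℕ) [NeZero N] (A : ValuationSubring (AlgebraicClosure ℚ)) (ℓ : ℕ)
    (hℓ : ℓ.Prime) where
  /-- the target group (e.g. divisor classes on the special fibre) -/
  Y : Type
  /-- additive group structure on the target -/
  instY : AddCommGroup Y
  /-- the reduction map -/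
  red : JZero N →+ Y
  inertia : ∀ τ ∈ A.inertiaSubgroupIn ℚ, ∀ x : JZero N, red (τ • x) = red x
  frob_ker : ∀ σ : AlgebraicClosure ℚ ≃ₐ[ℚ] AlgebraicClosure ℚ, A.IsFrobeniusAt σ ℓ →
    ∀ x : JZero N, red x = 0 → red (σ • x) = 0
  inj_torsion : ∀ (m : ℕ) (x : JZero N), m.Coprime ℓ → m • x = 0 → red x = 0 → x = 0
  relation : ∀ σ : AlgebraicClosure ℚ ≃ₐ[ℚ] AlgebraicClosure ℚ, A.IsFrobeniusAt σ ℓ →
    ∀ x : JZero N, red (σ • σ • x - heckeOperatorBar N ⟨ℓ, hℓ⟩ (σ • x) + ℓ • x) = 0

attribute [instance] RedData.instY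

/-- **S37 from reduction data.**  Same binders and conclusion as the frozen statement, plus the
hypothesis `H`. -/
theorem result_of_redData (N p : ℕ) [NeZero N]
    (H : ∀ ℓ : ℕ, (hℓ : ℓ.Prime) → ¬ ℓ ∣ N →
      ∀ A : ValuationSubring (AlgebraicClosure ℚ), A.LiesOverPrime ℓ →
        Nonempty (RedData N A ℓ hℓ))
    (hcomm : ModularCurve.HeckeOperatorsCommuteBar N) :
    letI := ModularCurve.heckeModuleBar N
    ∀ (_ : SMulCommClass (AlgebraicClosure ℚ ≃ₐ[ℚ] AlgebraicClosure ℚ) ModularCurve.HeckeAlg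
      (ModularCurve.JZero N)),
      ModularCurve.SpecializationExists (K := ℚ) (L := AlgebraicClosure ℚ) N p
        (ModularCurve.JZero N) := by
  letI := ModularCurve.heckeModuleBar N
  intro _
  refine specializationExists_of_isRed N p (JZero N) ?_
  intro ℓ hℓ hdvd A hA
  have hℓN : ¬ ℓ ∣ N := fun h => hdvd (Dvd.dvd.mul_right h p)
  have hℓp : ¬ ℓ ∣ p := fun h => hdvd (Dvd.dvd.mul_left h N)
  obtain ⟨D⟩ := H ℓ hℓ hℓN A hA
  refine ⟨D.Y, D.instY, D.red, ⟨D.inertia, D.frob_ker, ?_, ?_⟩⟩
  · rintro x ⟨n, hn⟩ hx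
    refine D.inj_torsion (p ^ n) x ?_ hn hx
    exact Nat.Coprime.pow_left n ((Nat.coprime_comm.mp ((Nat.Prime.coprime_iff_not_dvd hℓ).mpr hℓp)))
  · intro σ hσ x
    have h := D.relation σ hσ x
    rwa [← heckeModuleBar_heckeGen_smul hcomm ⟨ℓ, hℓ⟩ (σ • x)] at h

end Fermat.Agent.S37.H99

end
end
-- ===== PACK-END S37/H99/Glue.lean

-- ===== PACK-BEGIN S29/H812/Fiber.lean
section


/-!
# S29 / H812 — the fibre of a place in a finite extension of function fields:
adapted families, the coordinate lemma, linear independence and the fundamental inequality.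
-/

set_option autoImplicit false

noncomputable section

open AlgebraicCurve

namespace Fermat.Agent.S29.H812

open Fermat.Agent.S24

section Single

variable {K F : Type*} [Field K] [Field F] [Algebra K F]

/-- An element with prescribed order `i` at `w` and order at least `B` at the places of `s`. -/
theorem exists_ord_eq_and_ge (w : Place K F) (s : Finset (Place K F)) (hw : w ∉ s) (i B : ℕ) :
    ∃ u : F, u ≠ 0 ∧ w.ord u = i ∧ (∀ w' ∈ s, (B : ℤ) ≤ w'.ord u) := by
  obtain ⟨ε, hε0, -, hε1, -, hε2⟩ := exists_indicator w s hw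
  obtain ⟨π, hπ0, hπ1⟩ := H117.exists_ord_eq_one w
  set T : ℕ := ∑ w' ∈ s, (w'.ord π).natAbs with hT
  set M : ℕ := B + i * T with hM
  have hπi : π ^ i ≠ 0 := pow_ne_zero _ hπ0
  have hεM : ε ^ M ≠ 0 := pow_ne_zero _ hε0
  refine ⟨π ^ i * ε ^ M, mul_ne_zero hπi hεM, ?_, ?_⟩
  · rw [w.ord_mul hπi hεM, H117.ord_pow, H117.ord_pow, hπ1, hε1]; ring
  · intro w' hw'
    rw [w'.ord_mul hπi hεM, H117.ord_pow, H117.ord_pow]
    have h1 : (1 : ℤ) ≤ w'.ord ε := (hε2 w' hw').1
    have h2 : ((w'.ord π).natAbs : ℤ) ≤ (T : ℤ) := by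
      have : (w'.ord π).natAbs ≤ T := Finset.single_le_sum (f := fun w' : Place K F =>
        (w'.ord π).natAbs) (fun _ _ => Nat.zero_le _) hw'
      exact_mod_cast this
    have h3 : -((w'.ord π).natAbs : ℤ) ≤ w'.ord π := by
      omega
    have h4 : (M : ℤ) ≤ (M : ℤ) * w'.ord ε := by
      have hM0 : (0 : ℤ) ≤ (M : ℤ) := Int.natCast_nonneg _
      nlinarith
    have h5 : -((i : ℤ) * (T : ℤ)) ≤ (i : ℤ) * w'.ord π := by
      have hi0 : (0 : ℤ) ≤ (i : ℤ) := Int.natCast_nonneg _
      nlinarith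
    have h6 : (M : ℤ) = B + i * T := by rw [hM]; push_cast; ring
    linarith

/-- A uniformiser at `w` which is a unit at all places of `s`. -/
theorem exists_ord_eq_one_and_zero (w : Place K F) (s : Finset (Place K F)) (hw : w ∉ s) :
    ∃ ϖ : F, ϖ ≠ 0 ∧ w.ord ϖ = 1 ∧ (∀ w' ∈ s, w'.ord ϖ = 0) := by
  obtain ⟨ε, hε0, hε0', hε1, hε1', hε2⟩ := exists_indicator w s hw
  obtain ⟨u, hu0, hu1, hu2⟩ := exists_ord_eq_and_ge w s hw 1 1
  have hsq : (1 - ε) ^ 2 ≠ 0 := pow_ne_zero _ hε0'
  have hlt : w.ord u < w.ord ((1 - ε) ^ 2) := by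
    rw [H117.ord_pow, hu1]; push_cast; omega
  have h1 : w.ord (u + (1 - ε) ^ 2) = w.ord u := H117.ord_add_eq_of_lt w hlt hu0
  have hne : u + (1 - ε) ^ 2 ≠ 0 := by
    intro h0
    rw [h0, w.ord_zero, hu1] at h1
    simp at h1
  refine ⟨u + (1 - ε) ^ 2, hne, by rw [h1, hu1]; rfl, ?_⟩
  intro w' hw'
  have hlt' : w'.ord ((1 - ε) ^ 2) < w'.ord u := by
    rw [H117.ord_pow, (hε2 w' hw').2]
    have := hu2 w' hw'
    push_cast at this ⊢
    omega
  rw [add_comm, H117.ord_add_eq_of_lt w' hlt' hsq, H117.ord_pow, (hε2 w' hw').2]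
  ring

end Single

section Relative

variable {K F F' : Type*} [Field K] [Field F] [Field F']
  [Algebra K F] [Algebra K F'] [Algebra F F'] [IsScalarTower K F F']
  [Algebra.IsIntegral F F']

/-- Order of a scalar multiple at a place above `v`. -/
theorem ord_smul_of_restrict {v : Place K F} {w : Place K F'} (hw : w.restrict F = v)
    {c : F} (hc : c ≠ 0) {u : F'} (hu : u ≠ 0) :
    w.ord (c • u) = (w.ramificationIndex F : ℤ) * v.ord c + w.ord u := by
  rw [Algebra.smul_def, w.ord_mul (by simpa using hc) hu, w.ord_restrict, hw]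

/-- **Coordinate lemma.**  Let `u a` (`a : ι`) be a family adapted to the places `wt a` above `v`:
`ord_{wt a} (u a) = idx a < e(wt a)` and `ord_{w'} (u a) ≥ e(w')` at the other places `w' = wt b`.
For a nonzero coefficient vector `c`, the combination `∑ c a • u a` is nonzero and, at a suitable
place `wt a₀`, has order `e · m + idx a₀` where `m = ord_v (c a₀)` is the minimum of the orders of
the nonzero coefficients. -/
theorem coord_lemma (v : Place K F) {ι : Type*} [Fintype ι] (wt : ι → Place K F') (idx : ι → ℕ)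
    (u : ι → F') (hfib : ∀ a, (wt a).restrict F = v)
    (hidx : ∀ a, idx a < (wt a).ramificationIndex F)
    (hu0 : ∀ a, u a ≠ 0) (hu1 : ∀ a, (wt a).ord (u a) = idx a)
    (hu2 : ∀ a b, wt b ≠ wt a → (((wt b).ramificationIndex F : ℕ) : ℤ) ≤ (wt b).ord (u a))
    (hinj : ∀ a b, wt a = wt b → idx a = idx b → a = b)
    (c : ι → F) (hc : ∃ a, c a ≠ 0) :
    ∃ a₀, c a₀ ≠ 0 ∧ (∀ a, c a ≠ 0 → v.ord (c a₀) ≤ v.ord (c a)) ∧
      (∑ a, c a • u a) ≠ 0 ∧
      (wt a₀).ord (∑ a, c a • u a)
        = ((wt a₀).ramificationIndex F : ℤ) * v.ord (c a₀) + idx a₀ := by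
  classical
  -- first minimisation: the order of the coefficient
  set S : Finset ι := Finset.univ.filter fun a => c a ≠ 0 with hS
  have hSne : S.Nonempty := by
    obtain ⟨a, ha⟩ := hc
    exact ⟨a, by simp [hS, ha]⟩
  obtain ⟨a₁, ha₁S, ha₁min⟩ := Finset.exists_min_image S (fun a => v.ord (c a)) hSne
  -- second minimisation: the index, among the minimal coefficients
  set S' : Finset ι := S.filter fun a => v.ord (c a) = v.ord (c a₁) with hS'
  have hS'ne : S'.Nonempty := ⟨a₁, by simp [hS', ha₁S]⟩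
  obtain ⟨a₀, ha₀S', ha₀min⟩ := Finset.exists_min_image S' idx hS'ne
  have ha₀S : a₀ ∈ S := (Finset.mem_filter.mp ha₀S').1
  have hc₀ : c a₀ ≠ 0 := (Finset.mem_filter.mp ha₀S).2
  have hm₀ : v.ord (c a₀) = v.ord (c a₁) := (Finset.mem_filter.mp ha₀S').2
  have hmin : ∀ a, c a ≠ 0 → v.ord (c a₀) ≤ v.ord (c a) := by
    intro a ha
    rw [hm₀]
    exact ha₁min a (by simp [hS, ha])
  have hepos : 0 < (wt a₀).ramificationIndex F := (wt a₀).ramificationIndex_pos (F := F)
  have hterm₀ : c a₀ • u a₀ ≠ 0 := smul_ne_zero hc₀ (hu0 a₀)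
  have hord₀ : (wt a₀).ord (c a₀ • u a₀)
      = ((wt a₀).ramificationIndex F : ℤ) * v.ord (c a₀) + idx a₀ := by
    rw [ord_smul_of_restrict (hfib a₀) hc₀ (hu0 a₀), hu1]
  have key := ord_sum_eq_of_lt (wt a₀) Finset.univ (fun a => c a • u a) a₀ (Finset.mem_univ _)
    hterm₀ (by
      intro a _ hne
      by_cases hca : c a = 0
      · left; simp [hca]
      right
      rw [hord₀, ord_smul_of_restrict (hfib a₀) hca (hu0 a)]
      have hle := hmin a hca
      have hi₀ := hidx a₀
      have he : (0 : ℤ) < ((wt a₀).ramificationIndex F : ℤ) := by exact_mod_cast hepos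
      by_cases hw : wt a = wt a₀
      · -- same place
        have hua : (wt a₀).ord (u a) = idx a := by rw [← hw, hu1]
        rw [hua]
        rcases eq_or_lt_of_le hle with heq | hlt
        · have haS' : a ∈ S' := by
            simp only [hS', hS, Finset.mem_filter, Finset.mem_univ, true_and]
            exact ⟨hca, by rw [← heq, hm₀]⟩
          have h1 := ha₀min a haS'
          have h2 : idx a ≠ idx a₀ := fun h => hne (hinj a a₀ hw h)
          have h3 : idx a₀ < idx a := lt_of_le_of_ne h1 (Ne.symm h2)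
          rw [← heq]
          have : ((idx a₀ : ℕ) : ℤ) < (idx a : ℤ) := by exact_mod_cast h3
          linarith
        · have h1 : ((wt a₀).ramificationIndex F : ℤ) * (v.ord (c a₀) + 1)
              ≤ ((wt a₀).ramificationIndex F : ℤ) * v.ord (c a) :=
            mul_le_mul_of_nonneg_left (by omega) he.le
          have h2 : ((idx a₀ : ℕ) : ℤ) < ((wt a₀).ramificationIndex F : ℤ) := by
            exact_mod_cast hi₀
          have h3 : (0 : ℤ) ≤ (idx a : ℤ) := Int.natCast_nonneg _
          nlinarith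
      · -- different place
        have hua := hu2 a a₀ (fun h => hw h.symm)
        have h1 : ((wt a₀).ramificationIndex F : ℤ) * v.ord (c a₀)
              ≤ ((wt a₀).ramificationIndex F : ℤ) * v.ord (c a) :=
            mul_le_mul_of_nonneg_left hle he.le
        have h2 : ((idx a₀ : ℕ) : ℤ) < ((wt a₀).ramificationIndex F : ℤ) := by
            exact_mod_cast hi₀
        linarith)
  exact ⟨a₀, hc₀, hmin, key.1, by rw [key.2, hord₀]⟩

end Relative

end Fermat.Agent.S29.H812

end
end
-- ===== PACK-END S29/H812/Fiber.lean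

-- ===== PACK-BEGIN S29/H395/Strip.lean
section
/-
S29 / layer M / bridge BR, piece NORM — helper395.

Growth lemma: a continuous, `M`-periodic function on `ℍ` of at most exponential growth on
`im τ ≥ 1` has at most exponential growth on every half plane `im τ ≥ c`, `c > 0`.
Consequence: composition with `τ ↦ (a τ + b) / d` preserves exponential growth.
-/



set_option autoImplicit false
set_option linter.style.haveILetI false

noncomputable section

open UpperHalfPlane
open scoped Real

namespace Fermat.Agent.S29.H395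

open Fermat.Agent.S24 Fermat.Agent.S24.H648

theorem periodic_int_of_periodic {F : ℍ → ℂ} {M : ℝ} (hper : ∀ τ : ℍ, F (M +ᵥ τ) = F τ)
    (k : ℤ) (τ : ℍ) : F ((k * M : ℝ) +ᵥ τ) = F τ := by
  induction k using Int.induction_on generalizing τ with
  | zero => simp
  | succ n ih =>
    have : (((n : ℤ) + 1 : ℤ) * M : ℝ) +ᵥ τ = M +ᵥ (((n : ℤ) * M : ℝ) +ᵥ τ) := by
      rw [vadd_vadd]; congr 1; push_cast; ring
    rw [this, hper, ih]
  | pred n ih =>
    have h1 := hper ((((-(n : ℤ) - 1 : ℤ)) * M : ℝ) +ᵥ τ)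
    have : M +ᵥ ((((-(n : ℤ) - 1 : ℤ)) * M : ℝ) +ᵥ τ) = (((-(n : ℤ) : ℤ)) * M : ℝ) +ᵥ τ := by
      rw [vadd_vadd]; congr 1; push_cast; ring
    rw [this] at h1
    rw [← h1, ih]

/-- Boundedness on a horizontal strip `c ≤ im τ ≤ 1` of a continuous periodic function. -/
theorem exists_bound_strip {F : ℍ → ℂ} (hF : Continuous F) {M : ℝ} (hM : 0 < M)
    (hper : ∀ τ : ℍ, F (M +ᵥ τ) = F τ) {c : ℝ} (hc : 0 < c) :
    ∃ B : ℝ, 0 ≤ B ∧ ∀ τ : ℍ, c ≤ τ.im → τ.im ≤ 1 → ‖F τ‖ ≤ B := by
  -- the compact rectangle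
  let K : Set ℂ := Set.Icc (0 : ℝ) M ×ℂ Set.Icc c 1
  have hK : IsCompact K := isCompact_Icc.reProdIm isCompact_Icc
  have hpos : ∀ z ∈ K, 0 < z.im := fun z hz => lt_of_lt_of_le hc hz.2.1
  haveI : CompactSpace K := isCompact_iff_compactSpace.mp hK
  let g : K → ℍ := fun z => ⟨z.1, hpos z.1 z.2⟩
  have hg : Continuous g := by
    rw [UpperHalfPlane.isEmbedding_coe.continuous_iff]
    exact continuous_subtype_val
  obtain ⟨B, hB⟩ := (isCompact_range (hF.comp hg)).exists_bound_of_continuousOn
    (f := fun w : ℂ => w) continuousOn_id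
  refine ⟨max B 0, le_max_right _ _, fun τ h1 h2 => ?_⟩
  -- translate the real part into `[0, M)`
  set k : ℤ := -⌊τ.re / M⌋ with hk
  have hτ' := periodic_int_of_periodic hper k τ
  set τ' : ℍ := ((k * M : ℝ) +ᵥ τ) with hτ'def
  have hre : τ'.re = k * M + τ.re := by rw [hτ'def, UpperHalfPlane.vadd_re]
  have him : τ'.im = τ.im := by rw [hτ'def, UpperHalfPlane.vadd_im]
  have hfl := Int.floor_le (τ.re / M)
  have hfl' := Int.lt_floor_add_one (τ.re / M)
  have hkc : (k : ℝ) = -(⌊τ.re / M⌋ : ℝ) := by rw [hk]; push_cast; ring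
  have h0 : 0 ≤ τ'.re := by
    rw [hre, hkc]
    have : (⌊τ.re / M⌋ : ℝ) * M ≤ τ.re := by
      have := mul_le_mul_of_nonneg_right hfl hM.le
      rwa [div_mul_cancel₀ _ hM.ne'] at this
    linarith
  have h1' : τ'.re ≤ M := by
    rw [hre, hkc]
    have : τ.re < ((⌊τ.re / M⌋ : ℝ) + 1) * M := by
      have := mul_lt_mul_of_pos_right hfl' hM
      rwa [div_mul_cancel₀ _ hM.ne'] at this
    linarith
  have hmem : (τ' : ℂ) ∈ K := by
    refine ⟨⟨?_, ?_⟩, ⟨?_, ?_⟩⟩
    · simpa using h0
    · simpa using h1'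
    · simpa [him] using h1
    · simpa [him] using h2
  have hb := hB (F τ') ⟨⟨(τ' : ℂ), hmem⟩, by
    show F (g ⟨(τ' : ℂ), hmem⟩) = F τ'
    congr 1⟩
  rw [← hτ']
  exact le_trans hb (le_max_left _ _)

/-- Exponential growth on `im τ ≥ c` for every `c > 0`. -/
theorem expGrowth_halfPlane {F : ℍ → ℂ} (hF : Continuous F) {M : ℝ} (hM : 0 < M)
    (hper : ∀ τ : ℍ, F (M +ᵥ τ) = F τ) (hgr : ExpGrowth F) {c : ℝ} (hc : 0 < c) :
    ∃ (C : ℝ) (m : ℕ), 0 ≤ C ∧
      ∀ τ : ℍ, c ≤ τ.im → ‖F τ‖ ≤ C * Real.exp (2 * π * m * τ.im) := by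
  obtain ⟨C0, m, h0⟩ := hgr
  obtain ⟨B, hB0, hB⟩ := exists_bound_strip hF hM hper hc
  refine ⟨max |C0| B, m, le_trans (abs_nonneg _) (le_max_left _ _), fun τ hτ => ?_⟩
  have hexp : 1 ≤ Real.exp (2 * π * m * τ.im) := by
    apply Real.one_le_exp
    have := τ.im_pos
    positivity
  by_cases h1 : 1 ≤ τ.im
  · calc ‖F τ‖ ≤ C0 * Real.exp (2 * π * m * τ.im) := h0 τ h1
      _ ≤ |C0| * Real.exp (2 * π * m * τ.im) := by
          gcongr; exact le_abs_self _
      _ ≤ max |C0| B * Real.exp (2 * π * m * τ.im) := by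
          gcongr; exact le_max_left _ _
  · have := hB τ hτ (le_of_not_ge h1)
    calc ‖F τ‖ ≤ B := this
      _ ≤ max |C0| B := le_max_right _ _
      _ = max |C0| B * 1 := (mul_one _).symm
      _ ≤ max |C0| B * Real.exp (2 * π * m * τ.im) :=
          mul_le_mul_of_nonneg_left hexp (le_trans (abs_nonneg _) (le_max_left _ _))

theorem infAff_im {a d : ℕ} (ha : 0 < a) (hd : 0 < d) (b : ℤ) (τ : ℍ) :
    (infAff a b d τ).im = a * τ.im / d := by
  have h := congrArg Complex.im (infAff_coe ha hd b τ)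
  rw [UpperHalfPlane.coe_im] at h
  rw [h]
  have : ((a : ℂ) * τ + b) / d = (((a : ℝ) : ℂ) * τ + ((b : ℝ) : ℂ)) / ((d : ℝ) : ℂ) := by
    push_cast; rfl
  rw [this, Complex.div_ofReal_im]
  simp

/-- Composition with `τ ↦ (a τ + b) / d` preserves exponential growth (for continuous periodic
functions). -/
theorem expGrowth_comp_infAff {F : ℍ → ℂ} (hF : Continuous F) {M : ℝ} (hM : 0 < M)
    (hper : ∀ τ : ℍ, F (M +ᵥ τ) = F τ) (hgr : ExpGrowth F) {a d : ℕ} (ha : 0 < a) (hd : 0 < d)
    (b : ℤ) : ExpGrowth (fun τ => F (infAff a b d τ)) := by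
  have hc : (0 : ℝ) < (a : ℝ) / d := by positivity
  obtain ⟨C, m, hC, h⟩ := expGrowth_halfPlane hF hM hper hgr hc
  refine ⟨C, m * a, fun τ hτ => ?_⟩
  have him := infAff_im ha hd b τ
  have h1 : (a : ℝ) / d ≤ (infAff a b d τ).im := by
    rw [him]
    have : (a : ℝ) * 1 / d ≤ a * τ.im / d := by gcongr
    simpa using this
  have h2 : (infAff a b d τ).im ≤ a * τ.im := by
    rw [him]
    have hd1 : (1 : ℝ) ≤ d := by exact_mod_cast hd
    have := τ.im_pos
    exact div_le_self (by positivity) hd1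
  calc ‖F (infAff a b d τ)‖ ≤ C * Real.exp (2 * π * m * (infAff a b d τ).im) := h _ h1
    _ ≤ C * Real.exp (2 * π * (m * a : ℕ) * τ.im) := by
        refine mul_le_mul_of_nonneg_left (Real.exp_le_exp.mpr ?_) hC
        push_cast
        have hpi := Real.pi_pos
        have : (2 * π * m) * (infAff a b d τ).im ≤ (2 * π * m) * (a * τ.im) :=
          mul_le_mul_of_nonneg_left h2 (by positivity)
        linarith

end Fermat.Agent.S29.H395

end

end
-- ===== PACK-END S29/H395/Strip.lean

-- ===== PACK-BEGIN S18/H333/HauptPS.lean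
section



/-!
# S18 / c3 (helper333): power-series preliminaries for the Hauptmoduln

* `Vser p` is the ring homomorphism `PowerSeries.expand p`;
* `Zz = X² η₁¹² η₃¹²` with `Zz² = Δ Δ₃`, and the LINEAR level-3 identities
  `A3a = Zz (E₄³ - B3a)`, `A3b = Zz (E₄(q³)³ - B3b)` (sign fixed by the `q²`-coefficient).
-/

set_option autoImplicit false

noncomputable section

namespace Fermat.Agent.S18.H333

open PowerSeries ModularCurve

theorem Vser_eq_expand (p : ℕ) (hp : p ≠ 0) (f : PowerSeries ℤ) :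
    Vser p f = PowerSeries.expand p hp f := by
  ext n
  rw [coeff_Vser, PowerSeries.coeff_expand]

theorem Vser_mul (p : ℕ) (hp : p ≠ 0) (f g : PowerSeries ℤ) :
    Vser p (f * g) = Vser p f * Vser p g := by
  simp only [Vser_eq_expand p hp, map_mul]

theorem Vser_pow (p : ℕ) (hp : p ≠ 0) (f : PowerSeries ℤ) (n : ℕ) :
    Vser p (f ^ n) = Vser p f ^ n := by
  simp only [Vser_eq_expand p hp, map_pow]

theorem Vser_one (p : ℕ) (hp : p ≠ 0) : Vser p (1 : PowerSeries ℤ) = 1 := by
  simp only [Vser_eq_expand p hp, map_one]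

theorem Vser_X (p : ℕ) (hp : p ≠ 0) : Vser p (X : PowerSeries ℤ) = X ^ p := by
  rw [Vser_eq_expand p hp, PowerSeries.expand_X]

/-- `η¹²` -/
def eta12 : PowerSeries ℤ := etaProd ^ 12

/-- `η⁻¹²` -/
def eta12Inv : PowerSeries ℤ := eta12.invOfUnit 1

theorem constantCoeff_eta12 : PowerSeries.constantCoeff eta12 = 1 := by
  rw [eta12, map_pow, constantCoeff_etaProd, one_pow]

theorem eta12_mul_inv : eta12 * eta12Inv = 1 :=
  PowerSeries.mul_invOfUnit _ _ (by rw [constantCoeff_eta12]; rfl)

theorem eta12_sq : eta12 * eta12 = dedekindEtaUnit := by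
  rw [eta12, dedekindEtaUnit]; ring

theorem Dz_eq : Dz = X * dedekindEtaUnit := rfl

theorem Vser_Dz (p : ℕ) (hp : p ≠ 0) : Vser p Dz = X ^ p * Vser p dedekindEtaUnit := by
  rw [Dz_eq, Vser_mul p hp, Vser_X p hp]

/-- `q² η₁¹² η₃¹²` -/
def Zz : PowerSeries ℤ := X ^ 2 * eta12 * Vser 3 eta12

theorem Zz_sq : Zz * Zz = Dz * Vser 3 Dz := by
  rw [Vser_Dz 3 (by norm_num), Dz_eq, ← eta12_sq, Vser_mul 3 (by norm_num), Zz]
  ring

theorem tl_eta12 (n : ℕ) : tl n eta12 = tpow n (etaLrec n n) 12 := by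
  rw [eta12, tl_pow, tl_etaProd]

theorem tl_Zz (n : ℕ) : tl n Zz =
    tmul n (tmul n (tpow n (tX n) 2) (tpow n (etaLrec n n) 12))
      (tV n 3 (tpow n (etaLrec n n) 12)) := by
  rw [Zz, tl_mul, tl_mul, tl_pow, tl_X, tl_Vser _ _ (by norm_num), tl_eta12]

theorem tl_Ez_3 : tl 3 Ez = [1, 240, 2160] := by
  rw [tl_Ez]; decide +kernel

theorem tl_Dz_3 : tl 3 Dz = [0, 1, -24] := by
  rw [tl_Dz]; decide +kernel

theorem coeff_two_ne_of_tl {f : PowerSeries ℤ} {a b c : ℤ} (h : tl 3 f = [a, b, c]) (hc : c ≠ 0) :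
    f ≠ 0 := by
  intro h0
  have h2 := tl_getD 3 f (i := 2) (by norm_num)
  rw [h, h0] at h2
  simp at h2
  exact hc h2

/-- linear form of `(t₃+27)(t₃+243)³ = j t₃³` -/
theorem A3a_eq : A3a = Zz * (Ez ^ 3 - B3a) := by
  have h := Phi3a_eq_zero
  rw [Phi3a, ← Zz_sq] at h
  have hprod : (A3a - Zz * (Ez ^ 3 - B3a)) * (A3a + Zz * (Ez ^ 3 - B3a)) = 0 := by
    linear_combination h
  rcases mul_eq_zero.mp hprod with h1 | h1
  · exact sub_eq_zero.mp h1
  · exfalso
    have htl : tl 3 (A3a + Zz * (Ez ^ 3 - B3a)) = [0, 0, 2] := by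
      rw [A3a, B3a]
      simp only [tl_sub, tl_mul, tl_pow, tl_add, tl_smul, tl_Vser _ _ (show 0 < 3 by norm_num),
        tl_Dz_3, tl_Ez_3, tl_Zz]
      decide +kernel
    exact coeff_two_ne_of_tl htl (by norm_num) h1

/-- linear form of `(t₃+27)(t₃+3)³ = j(q³) t₃` -/
theorem A3b_eq : A3b = Zz * (Vser 3 Ez ^ 3 - B3b) := by
  have h := Phi3b_eq_zero
  rw [Phi3b, ← Zz_sq] at h
  have hprod : (A3b - Zz * (Vser 3 Ez ^ 3 - B3b)) * (A3b + Zz * (Vser 3 Ez ^ 3 - B3b)) = 0 := by
    linear_combination h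
  rcases mul_eq_zero.mp hprod with h1 | h1
  · exact sub_eq_zero.mp h1
  · exfalso
    have htl : tl 3 (A3b + Zz * (Vser 3 Ez ^ 3 - B3b)) = [0, 0, 2] := by
      rw [A3b, B3b]
      simp only [tl_sub, tl_mul, tl_pow, tl_add, tl_smul, tl_Vser _ _ (show 0 < 3 by norm_num),
        tl_Dz_3, tl_Ez_3, tl_Zz]
      decide +kernel
    exact coeff_two_ne_of_tl htl (by norm_num) h1

end Fermat.Agent.S18.H333

end
end
-- ===== PACK-END S18/H333/HauptPS.lean

-- ===== PACK-BEGIN Lib/RR/H443/LSpace.lean
section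


/-!
# RR bridge (helper443), part 2: the spaces `L(D)` without `HasPrincipalDivisors`

Characteristic-free.  Under the hypotheses `Hyp K F` (all places have degree one, `F` is finite
over `K(x)` for every transcendental `x`, `K` is algebraically closed in `F`) we prove
`L(0) = K`, finite-dimensionality of `L(D)` and `ℓ(D) ≤ deg D + 1` for `D ≥ 0`, *without*
assuming that principal divisors have degree zero.
-/

set_option autoImplicit false

noncomputable section

open AlgebraicCurve Polynomial IntermediateField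
open Fermat.Agent.Lib.RR

namespace Fermat.Agent.Lib.RR.H443

variable {K F : Type*} [Field K] [Field F] [Algebra K F]

variable (K F) in
/-- Hypotheses of the bridge: a function field of one variable with constant field `K`, all of
whose places have degree one. -/
structure Hyp : Prop where
  deg_eq_one : ∀ v : Place K F, v.deg = 1
  finite : ∀ x : F, Transcendental K x → FiniteDimensional K⟮x⟯ F
  const : ∀ f : F, IsAlgebraic K f → f ∈ (algebraMap K F).range

/-- Functions without poles are constant (no `HasPrincipalDivisors` needed). -/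
theorem L_zero_eq (h : Hyp K F) :
    riemannRochSpace (0 : Divisor K F) = LinearMap.range (Algebra.linearMap K F) := by
  apply le_antisymm
  · intro f hf
    by_contra hcon
    have htr : Transcendental K f := fun halg => hcon (by
      obtain ⟨c, hc⟩ := h.const f halg
      exact ⟨c, hc⟩)
    obtain ⟨v, hv⟩ := exists_place_ord_neg h.finite htr
    rcases mem_L_iff.mp hf v with h0 | h0
    · rw [h0, v.ord_zero] at hv
      exact lt_irrefl _ hv
    · simp only [Finsupp.coe_zero, Pi.zero_apply, neg_zero] at h0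
      omega
  · rintro _ ⟨c, rfl⟩
    rw [mem_L_iff]
    intro v
    right
    simp [ord_algebraMap]

theorem finite_L_zero (h : Hyp K F) : Module.Finite K (riemannRochSpace (0 : Divisor K F)) := by
  rw [L_zero_eq h]
  infer_instance

theorem ell_zero_eq (h : Hyp K F) : ell (0 : Divisor K F) = 1 := by
  unfold ell
  rw [L_zero_eq h]
  have hinj : Function.Injective (Algebra.linearMap K F) := (algebraMap K F).injective
  rw [LinearMap.finrank_range_of_inj hinj]
  exact Module.finrank_self K

theorem prim_le_of_pos {D : Divisor K F} (hD : 0 ≤ D) {v : Place K F} (hv : D v ≠ 0) :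
    prim v ≤ D := by
  rw [Finsupp.le_def]
  intro w
  have hw0 : 0 ≤ D w := by simpa using Finsupp.le_def.mp hD w
  by_cases hw : w = v
  · subst hw
    rw [prim_apply_self]
    omega
  · rw [prim_apply_of_ne hw]
    exact hw0

/-- `L(D)` is finite-dimensional of dimension `≤ deg D + 1` for effective `D`. -/
theorem finite_and_ell_le_of_nonneg (h : Hyp K F) :
    ∀ (n : ℕ) (D : Divisor K F), 0 ≤ D → Divisor.degree D ≤ n →
      Module.Finite K (riemannRochSpace D) ∧ (ell D : ℤ) ≤ Divisor.degree D + 1 := by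
  intro n
  induction n with
  | zero =>
    intro D hD hdeg
    have hD0 : D = 0 := by
      by_contra hne
      obtain ⟨v, hv⟩ := Finsupp.support_nonempty_iff.mpr hne
      rw [Finsupp.mem_support_iff] at hv
      have := _root_.Fermat.Agent.Lib.RR.degree_mono (prim_le_of_pos hD hv)
      rw [degree_prim v (h.deg_eq_one v)] at this
      push_cast at hdeg
      omega
    subst hD0
    refine ⟨finite_L_zero h, ?_⟩
    rw [ell_zero_eq h, _root_.map_zero]
    norm_num
  | succ n ih =>
    intro D hD hdeg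
    by_cases hD0 : D = 0
    · subst hD0
      refine ⟨finite_L_zero h, ?_⟩
      rw [ell_zero_eq h, _root_.map_zero]
      norm_num
    obtain ⟨v, hv⟩ := Finsupp.support_nonempty_iff.mpr hD0
    rw [Finsupp.mem_support_iff] at hv
    have hle := prim_le_of_pos hD hv
    have hD' : 0 ≤ D - prim v := sub_nonneg.mpr hle
    have hdeg' : Divisor.degree (D - prim v) ≤ n := by
      rw [_root_.map_sub, degree_prim v (h.deg_eq_one v)]
      push_cast at hdeg
      omega
    obtain ⟨hfin, hell⟩ := ih (D - prim v) hD' hdeg'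
    have := L_add_prim_finite v (h.deg_eq_one v) (D - prim v)
    rw [sub_add_cancel] at this
    refine ⟨this.1, ?_⟩
    have h2 := this.2
    rw [_root_.map_sub, degree_prim v (h.deg_eq_one v)] at hell
    have h3 : (ell D : ℤ) ≤ (ell (D - prim v) : ℤ) + 1 := by exact_mod_cast h2
    omega

theorem finite_L_of_nonneg (h : Hyp K F) {D : Divisor K F} (hD : 0 ≤ D) :
    Module.Finite K (riemannRochSpace D) :=
  (finite_and_ell_le_of_nonneg h (Divisor.degree D).toNat D hD (Int.self_le_toNat _)).1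

theorem ell_le_of_nonneg (h : Hyp K F) {D : Divisor K F} (hD : 0 ≤ D) :
    (ell D : ℤ) ≤ Divisor.degree D + 1 :=
  (finite_and_ell_le_of_nonneg h (Divisor.degree D).toNat D hD (Int.self_le_toNat _)).2

/-- `L(D)` is finite-dimensional for every divisor `D`. -/
theorem finite_L (h : Hyp K F) (D : Divisor K F) : Module.Finite K (riemannRochSpace D) := by
  have hle : D ≤ D ⊔ 0 := le_sup_left
  have hfin := finite_L_of_nonneg h (D := D ⊔ 0) le_sup_right
  exact Submodule.finiteDimensional_of_le (L_mono hle)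

end Fermat.Agent.Lib.RR.H443

end
end
-- ===== PACK-END Lib/RR/H443/LSpace.lean

-- ===== PACK-BEGIN S18/B12/H84/Stmt.lean
section





/-!
# S18 / b2.5 / A8 + A9 (helper84): the `Spec3`-typed statements

* `a9 : RegularAlongOfDedekindStatement`
* `a8_of_sfLattice : SFLatticeStatement → IntClosedOfDiscrStatement`
* `a8 : IntClosedOfDiscrStatement` (unconditional, with Theorem L = `H278.sfLattice` on main)
-/

set_option autoImplicit false

namespace Fermat.Agent.S18.B12.H84

universe u v

/-- **A9**, exact frozen shape. -/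
theorem a9 : B12.RegularAlongOfDedekindStatement.{u} :=
  fun B _ ϖ hD 𝔪 h𝔪 hϖ => regularAlongOfDedekind B ϖ hD 𝔪 h𝔪 hϖ

/-- **A8** from Theorem L, exact frozen shapes. -/
theorem a8_of_sfLattice (hSF : B12.SFLatticeStatement.{u, v}) :
    B12.IntClosedOfDiscrStatement.{u, v} :=
  fun Λ _ _ _ C _ _ _ n b hdisc hbound =>
    intClosedOfDiscr_of_sfLattice hSF Λ C n b hdisc hbound

/-- **A8**, exact frozen shape, unconditional (Theorem L from `H278.sfLattice`). -/
theorem a8 : B12.IntClosedOfDiscrStatement.{u, v} :=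
  a8_of_sfLattice H278.sfLattice.{u, v}

end Fermat.Agent.S18.B12.H84

end
-- ===== PACK-END S18/B12/H84/Stmt.lean

-- ===== PACK-BEGIN S33/H692/OrdAlgGal.lean
section
/-
Row S33 (ordinary at `p ‖ N`), piece EIG, pure algebra: Galois form (helper692).

`ordEig_galois` : for `ρ : GaloisRepAdic T` with `T[G_ℚ] → End_T V` onto and residually ordinary
at `p`, a local point `ψ : T → O'` (`O'` a local domain, `2` a unit), and a nonzero finite free
`O'`-module `M` with Galois action satisfying the quadratic relations of `ρ` along `ψ`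
(`S32.RelStatement` shape): if for a place `P | p` with inertia group `I`
    GEO :  `a ≠ 0`, `a M ⊆ I_aug M`  ⟹  `I_aug M + 𝔪 M = M`
then for all `σ₀, σ ∈ I`, `τ ∈ D_P`, with `d₀ = ψ (det ρ σ₀)`,
    (O2) `(ρM σ₀ - d₀)(ρM σ - 1) = 0`,   (O3) `(ρM σ₀ - d₀) ρM τ (ρM σ₀ - 1) = 0`.
-/




set_option autoImplicit false

noncomputable section

namespace Fermat.Agent.S33.H692

open Module IsLocalRing TensorProduct

/-- The absolute Galois group of `ℚ`. -/
abbrev GQ : Type := AlgebraicClosure ℚ ≃ₐ[ℚ] AlgebraicClosure ℚ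

/-- The decomposition group normalises the inertia group. -/
theorem conj_mem_inertiaIn {K L : Type*} [Field K] [Field L] [Algebra K L]
    (P : ValuationSubring L) {τ σ : L ≃ₐ[K] L}
    (hτ : τ ∈ P.decompositionSubgroup K) (hσ : σ ∈ P.inertiaSubgroupIn K) :
    τ * σ * τ⁻¹ ∈ P.inertiaSubgroupIn K := by
  obtain ⟨t, ht, rfl⟩ := hσ
  let d : P.decompositionSubgroup K := ⟨τ, hτ⟩
  have hn : (P.inertiaSubgroup K).Normal := MonoidHom.normal_ker _
  exact ⟨d * t * d⁻¹, hn.conj_mem t ht d, rfl⟩

section Residual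

variable {T : Type} [CommRing T] [IsLocalRing T] (ρ : GaloisRepAdic T)

/-- A residual ordinary line gives a functional on `V`, nonzero modulo `𝔪`, which kills
`σ v - v` modulo `𝔪` for all `σ` in the inertia group. -/
theorem exists_functional_of_residual_line (I : Set GQ)
    (L : Submodule (ResidueField T) (ResidueField T ⊗[T] ρ.V))
    (hL : ∃ b : Module.Basis (Fin 2) (ResidueField T) (ResidueField T ⊗[T] ρ.V),
      L = (ResidueField T) ∙ b 0)
    (hI : ∀ σ ∈ I, ∀ v : ResidueField T ⊗[T] ρ.V,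
      (ρ.ρ σ).baseChange (ResidueField T) v - v ∈ L) :
    ∃ l : ρ.V →ₗ[T] T, (∃ v, IsUnit (l v)) ∧
      ∀ σ ∈ I, ∀ v, l (ρ.ρ σ v - v) ∈ maximalIdeal T := by
  obtain ⟨b', rfl⟩ := hL
  -- the functional on the residual space
  let l' : (ResidueField T ⊗[T] ρ.V) →ₗ[ResidueField T] ResidueField T := b'.coord 1
  have hl'L : ∀ x ∈ (ResidueField T) ∙ b' 0, l' x = 0 := by
    intro x hx
    obtain ⟨c, rfl⟩ := Submodule.mem_span_singleton.mp hx
    show b'.coord 1 (c • b' 0) = 0
    rw [map_smul, Module.Basis.coord_apply, Module.Basis.repr_self, Finsupp.single_apply,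
      if_neg (by decide), _root_.smul_zero]
  have hl'1 : l' (b' 1) = 1 := by
    show b'.coord 1 (b' 1) = 1
    rw [Module.Basis.coord_apply, Module.Basis.repr_self, Finsupp.single_apply, if_pos rfl]
  let g : ρ.V →ₗ[T] ResidueField T :=
    (l'.restrictScalars T).comp (TensorProduct.mk T (ResidueField T) ρ.V 1)
  have hg : ∀ v, g v = l' ((1 : ResidueField T) ⊗ₜ[T] v) := fun v => rfl
  let f : T →ₗ[T] ResidueField T := Algebra.linearMap T (ResidueField T)
  have hf : ∀ t, f t = residue T t := fun t => rfl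
  have hfsurj : Function.Surjective f := residue_surjective
  obtain ⟨l, hl⟩ := Module.projective_lifting_property f g hfsurj
  have hlv : ∀ v, residue T (l v) = l' ((1 : ResidueField T) ⊗ₜ[T] v) := by
    intro v
    rw [← hg, ← hl]
    rfl
  refine ⟨l, ?_, ?_⟩
  · by_contra hcon
    push Not at hcon
    have h0 : ∀ x : ResidueField T ⊗[T] ρ.V, l' x = 0 := by
      intro x
      induction x using TensorProduct.induction_on with
      | zero => rw [map_zero]
      | tmul c v =>
        have e : c ⊗ₜ[T] v = c • ((1 : ResidueField T) ⊗ₜ[T] v) := by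
          rw [TensorProduct.smul_tmul', smul_eq_mul, mul_one]
        rw [e, map_smul, ← hlv, (residue_eq_zero_iff _).mpr ((mem_maximalIdeal _).mpr (hcon v)),
          _root_.smul_zero]
      | add x y hx hy => rw [map_add, hx, hy, add_zero]
    have := h0 (b' 1)
    rw [hl'1] at this
    exact one_ne_zero this
  · intro σ hσ v
    rw [← residue_eq_zero_iff, hlv]
    have h1 := hI σ hσ ((1 : ResidueField T) ⊗ₜ[T] v)
    rw [LinearMap.baseChange_tmul, ← TensorProduct.tmul_sub] at h1
    exact hl'L _ h1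

end Residual

section Main

variable {T : Type} [CommRing T] [IsLocalRing T] (ρ : GaloisRepAdic T)
  {O : Type} [CommRing O] [IsDomain O] [IsLocalRing O] (ψ : T →+* O)
  {M : Type} [AddCommGroup M] [Module O M] [Module.Free O M] [Module.Finite O M] [Nontrivial M]
  (ρM : GQ →* Module.End O M)

/-- **EIG, pure algebra, Galois form.** -/
theorem ordEig_galois (hspan : Submodule.span T (Set.range ρ.ρ) = ⊤) (hψ : IsLocalHom ψ)
    (h2 : IsUnit (2 : O))
    (hrel : ∀ g : GQ, ρM g * ρM g - ψ (ρ.trace g) • ρM g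
      + ψ ((ρ.det g : Tˣ) : T) • (1 : Module.End O M) = 0)
    {p : ℕ} (hres : (GaloisRepAdic.ofResidualGaloisRep ρ.residual).IsOrdinaryAt p)
    (P : ValuationSubring (AlgebraicClosure ℚ)) (hP : P.LiesOverPrime p)
    (hgeo : ∀ a : O, a ≠ 0 →
      (∀ x : M, a • x ∈ augSub (↑(P.inertiaSubgroupIn ℚ) : Set GQ) ρM) →
      augSub (↑(P.inertiaSubgroupIn ℚ) : Set GQ) ρM ⊔
        (maximalIdeal O) • (⊤ : Submodule O M) = ⊤)
    {σ₀ σ τ : GQ} (hσ₀ : σ₀ ∈ P.inertiaSubgroupIn ℚ) (hσ : σ ∈ P.inertiaSubgroupIn ℚ)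
    (hτ : τ ∈ P.decompositionSubgroup ℚ) :
    (ρM σ₀ - ψ ((ρ.det σ₀ : Tˣ) : T) • (1 : Module.End O M)) * (ρM σ - 1) = 0 ∧
    (ρM σ₀ - ψ ((ρ.det σ₀ : Tˣ) : T) • (1 : Module.End O M)) * ρM τ * (ρM σ₀ - 1) = 0 := by
  classical
  obtain ⟨L, hLb, -, hLI⟩ := hres P hP
  obtain ⟨l, ⟨v, hv⟩, hl2⟩ := exists_functional_of_residual_line ρ
    (↑(P.inertiaSubgroupIn ℚ) : Set GQ) L hLb hLI
  let b : Module.Basis (Fin 2) T ρ.V := Module.finBasisOfFinrankEq T ρ.V ρ.finrank_eq
  let c := Module.Free.chooseBasis O M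
  have hne : Nonempty (Module.Free.ChooseBasisIndex O M) := by
    by_contra hne
    rw [not_nonempty_iff] at hne
    obtain ⟨x, y, hxy⟩ := exists_pair_ne M
    apply hxy
    apply c.repr.injective
    ext j
    exact (hne.false j).elim
  exact ordEig_of_geo b ρ.ρ ψ c ρM hspan hrel h2 (↑(P.inertiaSubgroupIn ℚ) : Set GQ) l
    ⟨v, hv.map ψ⟩ (fun s hs w => (mem_maximalIdeal _).mpr (map_nonunit ψ _ (hl2 s hs w)))
    hgeo hσ₀ hσ (fun s hs => conj_mem_inertiaIn P hτ hs)

end Main

end Fermat.Agent.S33.H692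

end
end
-- ===== PACK-END S33/H692/OrdAlgGal.lean

-- ===== PACK-BEGIN S19/H435/Adapter.lean
section
/-
A3 / WP-C (helper435): adapters between Hopf lattices and the frozen A3 interface
(`Fermat.Agent.S19.OrderDatum`), and finiteness of the underlying set.
-/




set_option autoImplicit false
set_option linter.style.haveILetI false

noncomputable section

namespace Fermat.Agent.S19.H435

namespace IsHopfLattice

/-- The underlying set of a Hopf lattice is finite. -/
theorem finite {ℓ : ℕ} {M : Type*} [AddCommGroup M] {act : Gal → M → M}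
    {Λ : Subalgebra (Zl ℓ) (M → _root_.Fermat.Agent.S19.H435.Qb)} (hΛ : IsHopfLattice ℓ act Λ) : Finite M := by
  classical
  obtain ⟨S, hS⟩ := hΛ.fg
  have hSΛ : ∀ s ∈ S, s ∈ Λ := fun s hs => by
    have : s ∈ Submodule.span (Zl ℓ) (S : Set (M → _root_.Fermat.Agent.S19.H435.Qb)) := Submodule.subset_span hs
    rw [hS] at this
    exact this
  -- the values of each generator lie in a finite set
  have hfin : ∀ s : S, (Set.range (s : M → _root_.Fermat.Agent.S19.H435.Qb)).Finite := by
    intro s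
    obtain ⟨p, hp, hps⟩ := IsIntegral.of_mem_of_fg Λ hΛ.fg s.1 (hSΛ s.1 s.2)
    have hp0 : p.map (algebraMap (Zl ℓ) _root_.Fermat.Agent.S19.H435.Qb) ≠ 0 := (hp.map _).ne_zero
    refine Set.Finite.subset ((p.map (algebraMap (Zl ℓ) _root_.Fermat.Agent.S19.H435.Qb)).roots.toFinset.finite_toSet) ?_
    rintro _ ⟨m, rfl⟩
    simp only [Finset.mem_coe, Multiset.mem_toFinset, Polynomial.mem_roots hp0,
      Polynomial.IsRoot.def, Polynomial.eval_map]
    have h1 := congrFun hps m
    rw [← Polynomial.aeval_def] at h1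
    have h2 : (Polynomial.aeval (s : M → _root_.Fermat.Agent.S19.H435.Qb) p) m = Polynomial.aeval ((s : M → _root_.Fermat.Agent.S19.H435.Qb) m) p := by
      have := Polynomial.aeval_algHom_apply (Pi.evalAlgHom (Zl ℓ) (fun _ : M => _root_.Fermat.Agent.S19.H435.Qb) m)
        (s : M → _root_.Fermat.Agent.S19.H435.Qb) p
      exact this.symm
    rw [h2] at h1
    rw [← Polynomial.aeval_def]
    exact h1
  have hpi : {F : S → _root_.Fermat.Agent.S19.H435.Qb | ∀ s : S, F s ∈ Set.range s.1}.Finite := Set.Finite.pi' hfin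
  let Φ : M → {F : S → _root_.Fermat.Agent.S19.H435.Qb | ∀ s : S, F s ∈ Set.range s.1} :=
    fun m => ⟨fun s => s.1 m, fun s => ⟨m, rfl⟩⟩
  have hΦ : Function.Injective Φ := by
    intro m n hmn
    by_contra hne
    obtain ⟨f, hf, hfne⟩ := hΛ.separates m n hne
    apply hfne
    have hgen : ∀ s ∈ S, s m = s n := by
      intro s hs
      have := congrArg (fun F : {F : S → _root_.Fermat.Agent.S19.H435.Qb | ∀ s : S, F s ∈ Set.range s.1} =>
        (F : S → _root_.Fermat.Agent.S19.H435.Qb) ⟨s, hs⟩) hmn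
      exact this
    have hall : ∀ g ∈ Submodule.span (Zl ℓ) (S : Set (M → _root_.Fermat.Agent.S19.H435.Qb)), g m = g n := by
      intro g hg
      induction hg using Submodule.span_induction with
      | mem s hs => exact hgen s hs
      | zero => rfl
      | add x y _ _ hx hy => rw [Pi.add_apply, Pi.add_apply, hx, hy]
      | smul r x _ hx => rw [Pi.smul_apply, Pi.smul_apply, hx]
    exact hall f (by rw [hS]; exact hf)
  haveI := hpi.to_subtype
  exact Finite.of_injective Φ hΦ

/-- A Hopf lattice gives an order datum in the sense of the frozen A3 interface. -/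
def toOrderDatum {ℓ : ℕ} {M : Type} [AddCommGroup M] {act : Gal → M → M}
    {Λ : Subalgebra (Zl ℓ) (M → _root_.Fermat.Agent.S19.H435.Qb)} (hΛ : IsHopfLattice ℓ act Λ) :
    Fermat.Agent.S19.OrderDatum ℓ M act where
  act_add := hΛ.act_add
  gens := (Λ : Set (M → _root_.Fermat.Agent.S19.H435.Qb))
  equivariant := fun f hf => hΛ.equivariant f hf
  integral := fun _ hf m => hΛ.isIntegral_apply hf m
  separates := fun m m' h => by
    by_contra hne
    obtain ⟨f, hf, hfne⟩ := hΛ.separates m m' hne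
    exact hfne (h f hf)
  add_mem := fun f hf => by
    obtain ⟨n, a, b, ha, hb, hab⟩ := hΛ.comul_mem f hf
    have : (fun p : M × M => f (p.1 + p.2)) =
        ∑ k, (fun p : M × M => a k p.1) * (fun p : M × M => b k p.2) := by
      funext p
      rw [hab, Finset.sum_apply]
      rfl
    rw [this]
    refine Subalgebra.sum_mem _ fun k _ => Subalgebra.mul_mem _ ?_ ?_
    · exact Algebra.subset_adjoin (Or.inl ⟨a k, ha k, rfl⟩)
    · exact Algebra.subset_adjoin (Or.inr ⟨b k, hb k, rfl⟩)

/-- A Hopf lattice gives a Hopf model, given the ORD block of the frozen interface. -/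
theorem hopfModel (hord : Fermat.Agent.S19.OrdStatement) {ℓ : ℕ} [Fact ℓ.Prime] {M : Type}
    [AddCommGroup M] {act : Gal → M → M} {Λ : Subalgebra (Zl ℓ) (M → _root_.Fermat.Agent.S19.H435.Qb)}
    (hΛ : IsHopfLattice ℓ act Λ) : Fermat.Agent.S19.HopfModel ℓ M act := by
  haveI : Finite M := hΛ.finite
  exact hord ℓ M act ⟨hΛ.toOrderDatum⟩

end IsHopfLattice

end Fermat.Agent.S19.H435

end
end
-- ===== PACK-END S19/H435/Adapter.lean

-- ===== PACK-BEGIN S19/H135/QuotPrep.lean
section
/-
Cell A3 / WP-C (helper135): preparations for quotients of Hopf lattices: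
expansion of box elements in a spanning family, swap, finite generation of sublattices,
descent of kernel-invariant functions along a surjection.
-/



set_option autoImplicit false

namespace Fermat.Agent.S19.H135

section BoxExpand

variable {R : Type*} [CommRing R] {K : Type*} [CommRing K] [Algebra R K]
variable {X Y : Type*}

/-- Elements of the box product can be expanded along a spanning family of the first factor. -/
theorem box_expand {Λ₁ : Subalgebra R (X → K)} {Λ₂ : Subalgebra R (Y → K)}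
    {n : ℕ} (b : Fin n → X → K)
    (hspan : Submodule.span R (Set.range b) = Subalgebra.toSubmodule Λ₁)
    {F : X × Y → K}
    (hF : F ∈ Λ₁.map (pull R K (Prod.fst : X × Y → X)) ⊔
      Λ₂.map (pull R K (Prod.snd : X × Y → Y))) :
    ∃ g : Fin n → Y → K, (∀ i, g i ∈ Λ₂) ∧ ∀ x y, F (x, y) = ∑ i, b i x * g i y := by
  refine box_induction (C := fun F => ∃ g : Fin n → Y → K, (∀ i, g i ∈ Λ₂) ∧
    ∀ x y, F (x, y) = ∑ i, b i x * g i y) hF ?_ ?_
  · intro a ha c hc
    have ha' : a ∈ Submodule.span R (Set.range b) := by rw [hspan]; exact ha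
    obtain ⟨r, rfl⟩ := (Submodule.mem_span_range_iff_exists_fun R).mp ha'
    refine ⟨fun i => r i • c, fun i => Λ₂.smul_mem hc _, fun x y => ?_⟩
    simp only [Finset.sum_apply, Pi.smul_apply, Finset.sum_mul]
    refine Finset.sum_congr rfl (fun i _ => ?_)
    rw [Algebra.smul_def, Algebra.smul_def]
    ring
  · rintro F₁ F₂ ⟨g₁, hg₁, e₁⟩ ⟨g₂, hg₂, e₂⟩
    refine ⟨fun i => g₁ i + g₂ i, fun i => Λ₂.add_mem (hg₁ i) (hg₂ i), fun x y => ?_⟩
    simp only [Pi.add_apply, e₁, e₂, mul_add, Finset.sum_add_distrib]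

theorem box_swap {Λ₁ : Subalgebra R (X → K)} {Λ₂ : Subalgebra R (Y → K)} {F : X × Y → K}
    (hF : F ∈ Λ₁.map (pull R K (Prod.fst : X × Y → X)) ⊔
      Λ₂.map (pull R K (Prod.snd : X × Y → Y))) :
    (fun p : Y × X => F (p.2, p.1)) ∈ Λ₂.map (pull R K (Prod.fst : Y × X → Y)) ⊔
      Λ₁.map (pull R K (Prod.snd : Y × X → X)) := by
  refine box_induction (C := fun F => (fun p : Y × X => F (p.2, p.1)) ∈
    Λ₂.map (pull R K (Prod.fst : Y × X → Y)) ⊔ Λ₁.map (pull R K (Prod.snd : Y × X → X))) hF ?_ ?_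
  · intro a ha c hc
    have := mul_mem_box (Λ₁ := Λ₂) (Λ₂ := Λ₁) hc ha
    convert this using 1
    funext p
    exact mul_comm _ _
  · intro F₁ F₂ h₁ h₂
    exact Subalgebra.add_mem _ h₁ h₂

/-- Expansion along a spanning family of the second factor. -/
theorem box_expand' {Λ₁ : Subalgebra R (X → K)} {Λ₂ : Subalgebra R (Y → K)}
    {n : ℕ} (u : Fin n → Y → K)
    (hspan : Submodule.span R (Set.range u) = Subalgebra.toSubmodule Λ₂)
    {F : X × Y → K}
    (hF : F ∈ Λ₁.map (pull R K (Prod.fst : X × Y → X)) ⊔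
      Λ₂.map (pull R K (Prod.snd : X × Y → Y))) :
    ∃ k : Fin n → X → K, (∀ i, k i ∈ Λ₁) ∧ ∀ x y, F (x, y) = ∑ i, k i x * u i y := by
  obtain ⟨k, hk, e⟩ := box_expand u hspan (box_swap hF)
  refine ⟨k, hk, fun x y => ?_⟩
  rw [e y x]
  exact Finset.sum_congr rfl (fun i _ => mul_comm _ _)

theorem sum_mul_mem_box {Λ₁ : Subalgebra R (X → K)} {Λ₂ : Subalgebra R (Y → K)}
    {n : ℕ} (a : Fin n → X → K) (c : Fin n → Y → K) (ha : ∀ i, a i ∈ Λ₁) (hc : ∀ i, c i ∈ Λ₂) :
    (fun p : X × Y => ∑ i, a i p.1 * c i p.2) ∈ Λ₁.map (pull R K (Prod.fst : X × Y → X)) ⊔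
      Λ₂.map (pull R K (Prod.snd : X × Y → Y)) := by
  have h : (fun p : X × Y => ∑ i, a i p.1 * c i p.2) =
      ∑ i, (fun p : X × Y => a i p.1 * c i p.2) := by
    funext p
    simp only [Finset.sum_apply]
  rw [h]
  exact Subalgebra.sum_mem _ (fun i _ => mul_mem_box (ha i) (hc i))

end BoxExpand

section FG

variable {R : Type*} [CommRing R] [IsNoetherianRing R] {V : Type*} [AddCommGroup V] [Module R V]

theorem fg_of_le_of_fg_h135 {N P : Submodule R V} (hN : N.FG) (hle : P ≤ N) : P.FG := by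
  have : IsNoetherian R N := isNoetherian_of_fg_of_noetherian N hN
  have h1 : (P.comap N.subtype).FG := IsNoetherian.noetherian _
  have h2 : (P.comap N.subtype).map N.subtype = P := by
    rw [Submodule.map_comap_subtype]
    exact inf_eq_right.mpr hle
  rw [← h2]
  exact h1.map _

end FG

section Descend

variable {M M₂ : Type*} [AddCommGroup M] [AddCommGroup M₂] {K : Type*}

/-- A function invariant under translation by the kernel of a surjection `q` factors through
`q`. -/
theorem exists_factor_of_ker_invariant (q : M →+ M₂) (hq : Function.Surjective q)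
    (f : M → K) (hf : ∀ m k : M, q k = 0 → f (m + k) = f m) :
    ∃ g : M₂ → K, ∀ m, g (q m) = f m := by
  refine ⟨fun y => f (Function.surjInv hq y), fun m => ?_⟩
  have h1 : q (Function.surjInv hq (q m)) = q m := Function.surjInv_eq hq (q m)
  have h2 : q (m - Function.surjInv hq (q m)) = 0 := by rw [map_sub, h1, sub_self]
  have := hf (Function.surjInv hq (q m)) _ h2
  rw [add_sub_cancel] at this
  exact this.symm

end Descend

end Fermat.Agent.S19.H135

end
-- ===== PACK-END S19/H135/QuotPrep.lean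

-- ===== PACK-BEGIN A3/H75/DiscOfCons.lean
section



/-!
# A3 / LOCAL / DISC (helper75): the disc algebra of a residue disc, from conservation of zeros

Dictionary (i) of `coord/A3-LOCAL-helper799.md` §3'.

Input (`ConsInput A F k Fk`): `A` a valuation subring of `K`, `F/K` a function field (`FF1`),
`V` a valuation subring of `F` with `A ⊆ V`, `𝔪_A ⊆ 𝔪_V` (the Gauss valuation), a reduction map
`ρ : V → F_k` with kernel `𝔪_V`, compatible with a residue map `π : A → k`, a map
`r : Place K F → Place k F_k` and **conservation of zeros** (CONS, in the Prelude form of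
`IsPlaceReductionAlong`): `r_* (div u) = div (ρ u)` for `u ∈ V`, `ρ u ≠ 0`.

For a place `Q` of `F_k` and a parameter `t ∈ V`, regular on the residue disc `r⁻¹ Q`, with
`ord_Q (ρ t) = 1` (`DiscParam`):

* `exists_unique_center` : for `a ∈ 𝔪_A` there is exactly one place `P` in the disc with
  `t(P) = a`, and `ord_P (t - a) = 1`;
* `exists_hasVal_mem` : a function of `V` regular on the disc has values in `A` on the disc;
* `hasVal_red` : value compatibility, `(ρ f)(Q) = π (f(P))`;
* `hasVal_t_mem_nonunits` : `t(P) ∈ 𝔪_A` for `P` in the disc  (so `disc ≃ 𝔪_A` via `t`);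
* `discAlg` : the ring `discRing` of functions of `V` regular on the disc is a `DiscAlg`
  (helper799), with `ev a f = f(P_a)`  (`ev_eq_of_hasVal`).
-/

set_option autoImplicit false
set_option linter.unusedSectionVars false

noncomputable section

namespace Fermat.Agent.A3.H75

open AlgebraicCurve Fermat.Agent.Lib.RR Fermat.Agent.A3.H799

variable {K : Type*} [Field K] (A : ValuationSubring K) (F : Type*) [Field F] [Algebra K F]
variable (k : Type*) [Field k] (Fk : Type*) [Field Fk] [Algebra k Fk]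

/-- Minimal reduction input for the calculus on residue discs. -/
structure ConsInput where
  /-- the Gauss valuation ring -/
  V : ValuationSubring F
  algebraMap_mem : ∀ a : K, a ∈ A → algebraMap K F a ∈ V
  algebraMap_mem_nonunits : ∀ a : K, a ∈ A.nonunits → algebraMap K F a ∈ V.nonunits
  /-- the residue map of `A` -/
  π : A →+* k
  π_eq_zero : ∀ a : A, π a = 0 → (a : K) ∈ A.nonunits
  /-- reduction of functions -/
  ρ : V →+* Fk
  ρ_eq_zero : ∀ x : V, ρ x = 0 ↔ (x : F) ∈ V.nonunits
  ρ_algebraMap : ∀ (a : K) (ha : a ∈ A),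
    ρ ⟨algebraMap K F a, algebraMap_mem a ha⟩ = algebraMap k Fk (π ⟨a, ha⟩)
  /-- reduction of places -/
  r : Place K F → Place k Fk
  /-- conservation of zeros -/
  cons : ∀ u : V, ρ u ≠ 0 → ∀ D : Divisor K F, (∀ P, D P = P.ord (u : F)) →
    ∀ Q, Finsupp.mapDomain r D Q = Q.ord (ρ u)

variable {A F k Fk}

namespace ConsInput

variable (I : ConsInput A F k Fk) (Q : Place k Fk)

/-- `f` is regular on the residue disc of `Q`. -/
def RegOn (f : F) : Prop := ∀ P, I.r P = Q → f ∈ P.toValuationSubring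

theorem regOn_algebraMap (c : K) : I.RegOn Q (algebraMap K F c) := fun P _ => P.algebraMap_mem' c

section
variable {I Q}

theorem RegOn.add {f g : F} (hf : I.RegOn Q f) (hg : I.RegOn Q g) : I.RegOn Q (f + g) :=
  fun P hP => P.toValuationSubring.add_mem _ _ (hf P hP) (hg P hP)

theorem RegOn.mul {f g : F} (hf : I.RegOn Q f) (hg : I.RegOn Q g) : I.RegOn Q (f * g) :=
  fun P hP => P.toValuationSubring.mul_mem _ _ (hf P hP) (hg P hP)

theorem RegOn.sub {f g : F} (hf : I.RegOn Q f) (hg : I.RegOn Q g) : I.RegOn Q (f - g) :=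
  fun P hP => sub_mem (hf P hP) (hg P hP)

end

variable [FF1 K F]

theorem coe_ne_zero_of_ρ_ne_zero {u : I.V} (hρ : I.ρ u ≠ 0) : (u : F) ≠ 0 := by
  intro h0
  apply hρ
  have : u = 0 := Subtype.ext h0
  rw [this, map_zero]

/-- **Conservation, pointwise bound.**  For `u ∈ V` with `ρ u ≠ 0`, regular on the disc of `Q`,
the order of `u` at any point of the disc is at most `ord_Q (ρ u)`. -/
theorem ord_le_of_cons (u : I.V) (hρ : I.ρ u ≠ 0) (hreg : I.RegOn Q (u : F))
    (P : Place K F) (hP : I.r P = Q) : P.ord (u : F) ≤ Q.ord (I.ρ u) := by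
  have hu0 := I.coe_ne_zero_of_ρ_ne_zero hρ
  have hc := I.cons u hρ (divOf (u : F) hu0) (fun P => divOf_apply (u : F) hu0 P) Q
  rw [← hc, ← divOf_apply (u : F) hu0 P]
  refine apply_le_mapDomain I.r _ Q (fun P' hP' => ?_) P hP
  rw [divOf_apply]
  exact ord_nonneg_of_mem P' (hreg P' hP')

/-- **Conservation, two points.** -/
theorem ord_add_ord_le_of_cons (u : I.V) (hρ : I.ρ u ≠ 0)
    (hreg : I.RegOn Q (u : F)) (P P' : Place K F) (hne : P ≠ P') (hP : I.r P = Q)
    (hP' : I.r P' = Q) : P.ord (u : F) + P'.ord (u : F) ≤ Q.ord (I.ρ u) := by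
  have hu0 := I.coe_ne_zero_of_ρ_ne_zero hρ
  have hc := I.cons u hρ (divOf (u : F) hu0) (fun P => divOf_apply (u : F) hu0 P) Q
  rw [← hc, ← divOf_apply (u : F) hu0 P, ← divOf_apply (u : F) hu0 P']
  refine apply_add_apply_le_mapDomain I.r _ Q (fun P'' hP'' => ?_) P P' hne hP hP'
  rw [divOf_apply]
  exact ord_nonneg_of_mem P'' (hreg P'' hP'')

/-- **Conservation, existence of a zero.** -/
theorem exists_ord_pos_of_cons (u : I.V) (hρ : I.ρ u ≠ 0)
    (hpos : 0 < Q.ord (I.ρ u)) : ∃ P, I.r P = Q ∧ 0 < P.ord (u : F) := by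
  have hu0 := I.coe_ne_zero_of_ρ_ne_zero hρ
  have hc := I.cons u hρ (divOf (u : F) hu0) (fun P => divOf_apply (u : F) hu0 P) Q
  rw [← hc] at hpos
  obtain ⟨P, hP, h⟩ := exists_pos_of_mapDomain_pos I.r _ Q hpos
  rw [divOf_apply] at h
  exact ⟨P, hP, h⟩

/-- the constants of `A`, as elements of `V` -/
def const (a : A) : I.V := ⟨algebraMap K F (a : K), I.algebraMap_mem _ a.2⟩

@[simp] theorem coe_const (a : A) : ((I.const a : I.V) : F) = algebraMap K F (a : K) := rfl

theorem ρ_const (a : A) : I.ρ (I.const a) = algebraMap k Fk (I.π a) :=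
  I.ρ_algebraMap (a : K) a.2

theorem ρ_const_of_mem_nonunits (a : A) (ha : (a : K) ∈ A.nonunits) : I.ρ (I.const a) = 0 :=
  (I.ρ_eq_zero _).mpr (I.algebraMap_mem_nonunits _ ha)

/-- **Values on the disc are integral.**  A function of `V` regular on the disc of `Q` takes
values in `A` at the points of the disc. -/
theorem exists_hasVal_mem (f : I.V) (hreg : I.RegOn Q (f : F)) (P : Place K F)
    (hP : I.r P = Q) : ∃ b : A, HasVal P (f : F) (b : K) := by
  obtain ⟨c, hc⟩ := exists_hasVal P (deg_eq_one P) (hreg P hP)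
  by_cases hcA : c ∈ A
  · exact ⟨⟨c, hcA⟩, hc⟩
  exfalso
  have hc0 : c ≠ 0 := by
    rintro rfl
    exact hcA A.zero_mem
  have hinv : c⁻¹ ∈ A.nonunits := inv_mem_nonunits_of_not_mem A hcA
  have hinvA : c⁻¹ ∈ A := mem_of_mem_nonunits A hinv
  set u : I.V := I.const ⟨c⁻¹, hinvA⟩ * f - 1 with hu
  have hρu : I.ρ u = -1 := by
    rw [hu, map_sub, map_mul, map_one, I.ρ_const_of_mem_nonunits _ hinv, zero_mul, zero_sub]
  have hρne : I.ρ u ≠ 0 := by
    rw [hρu]
    exact neg_ne_zero.mpr one_ne_zero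
  have hcoe : (u : F) = algebraMap K F c⁻¹ * (f : F) - 1 := rfl
  have hregu : I.RegOn Q (u : F) := by
    rw [hcoe]
    refine ((I.regOn_algebraMap Q c⁻¹).mul hreg).sub ?_
    have := I.regOn_algebraMap Q (1 : K)
    rwa [map_one] at this
  have hle := I.ord_le_of_cons Q u hρne hregu P hP
  rw [hρu, ord_neg, Place.ord_one] at hle
  have hval : HasVal P (u : F) 0 := by
    have h1 := ((hasVal_algebraMap P c⁻¹).mul hc).sub (hasVal_one P)
    rw [inv_mul_cancel₀ hc0, sub_self] at h1
    rw [hcoe]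
    exact h1
  rcases (hasVal_zero_iff P _).mp hval with h0 | hpos
  · exact I.coe_ne_zero_of_ρ_ne_zero hρne h0
  · omega

/-- **Value compatibility.**  `(ρ f)(Q) = π (f(P))` for `P` in the disc of `Q`. -/
theorem hasVal_red (f : I.V) (hreg : I.RegOn Q (f : F)) (P : Place K F) (hP : I.r P = Q)
    (b : A) (hb : HasVal P (f : F) (b : K)) : HasVal Q (I.ρ f) (I.π b) := by
  set u : I.V := f - I.const b with hu
  have hρu : I.ρ u = I.ρ f - algebraMap k Fk (I.π b) := by
    rw [hu, map_sub, I.ρ_const]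
  unfold HasVal
  rw [← hρu]
  by_cases hρ0 : I.ρ u = 0
  · rw [hρ0]
    exact _root_.Fermat.Agent.A3.H75.zero_mem_nonunits _
  have hcoe : (u : F) = (f : F) - algebraMap K F (b : K) := rfl
  have hregu : I.RegOn Q (u : F) := by
    rw [hcoe]
    exact hreg.sub (I.regOn_algebraMap Q _)
  have hle := I.ord_le_of_cons Q u hρ0 hregu P hP
  have hb' : (u : F) ∈ P.toValuationSubring.nonunits := hb
  rcases (mem_nonunits_iff_ord P _).mp hb' with h0 | hpos
  · exact absurd h0 (I.coe_ne_zero_of_ρ_ne_zero hρ0)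
  · exact (mem_nonunits_iff_ord Q _).mpr (Or.inr (lt_of_lt_of_le hpos hle))

end ConsInput

/-- A parameter at the place `Q` of the special fibre: a function of `V`, regular on the residue
disc of `Q`, whose reduction has a simple zero at `Q`. -/
structure DiscParam (I : ConsInput A F k Fk) (Q : Place k Fk) where
  /-- the parameter -/
  t : I.V
  t_reg : I.RegOn Q (t : F)
  ord_t : Q.ord (I.ρ t) = 1

namespace DiscParam

variable {I : ConsInput A F k Fk} {Q : Place k Fk} (T : DiscParam I Q) [FF1 K F]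

theorem ρ_t_ne_zero : I.ρ T.t ≠ 0 := by
  intro h0
  have := T.ord_t
  rw [h0, Place.ord_zero] at this
  exact zero_ne_one this

/-- the function `t - a` -/
def shift (a : A) : I.V := T.t - I.const a

@[simp] theorem coe_shift (a : A) : ((T.shift a : I.V) : F) = (T.t : F) - algebraMap K F (a : K) :=
  rfl

theorem ρ_shift (a : A) (ha : (a : K) ∈ A.nonunits) : I.ρ (T.shift a) = I.ρ T.t := by
  rw [shift, map_sub, I.ρ_const_of_mem_nonunits a ha, sub_zero]

theorem ρ_shift_ne_zero (a : A) (ha : (a : K) ∈ A.nonunits) : I.ρ (T.shift a) ≠ 0 := by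
  rw [T.ρ_shift a ha]
  exact T.ρ_t_ne_zero

theorem shift_ne_zero (a : A) (ha : (a : K) ∈ A.nonunits) : ((T.shift a : I.V) : F) ≠ 0 :=
  I.coe_ne_zero_of_ρ_ne_zero (T.ρ_shift_ne_zero a ha)

theorem regOn_shift (a : A) : I.RegOn Q ((T.shift a : I.V) : F) := by
  rw [coe_shift]
  exact T.t_reg.sub (I.regOn_algebraMap Q _)

theorem ord_shift_le_one (a : A) (ha : (a : K) ∈ A.nonunits) (P : Place K F) (hP : I.r P = Q) :
    P.ord ((T.shift a : I.V) : F) ≤ 1 := by
  have := I.ord_le_of_cons Q (T.shift a) (T.ρ_shift_ne_zero a ha) (T.regOn_shift a) P hP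
  rwa [T.ρ_shift a ha, T.ord_t] at this

theorem hasVal_iff_ord_shift (a : A) (ha : (a : K) ∈ A.nonunits) (P : Place K F) :
    HasVal P (T.t : F) (a : K) ↔ 0 < P.ord ((T.shift a : I.V) : F) := by
  unfold HasVal
  rw [← coe_shift, mem_nonunits_iff_ord]
  constructor
  · rintro (h | h)
    · exact absurd h (T.shift_ne_zero a ha)
    · exact h
  · exact Or.inr

/-- **The disc is parametrised by `𝔪_A`, existence.** -/
theorem exists_center (a : A) (ha : (a : K) ∈ A.nonunits) :
    ∃ P, I.r P = Q ∧ HasVal P (T.t : F) (a : K) := by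
  obtain ⟨P, hP, hpos⟩ := I.exists_ord_pos_of_cons Q (T.shift a) (T.ρ_shift_ne_zero a ha) (by
    rw [T.ρ_shift a ha, T.ord_t]
    exact one_pos)
  exact ⟨P, hP, (T.hasVal_iff_ord_shift a ha P).mpr hpos⟩

/-- **The disc is parametrised by `𝔪_A`, uniqueness.** -/
theorem center_unique (a : A) (ha : (a : K) ∈ A.nonunits) (P P' : Place K F) (hP : I.r P = Q)
    (hP' : I.r P' = Q) (h : HasVal P (T.t : F) (a : K)) (h' : HasVal P' (T.t : F) (a : K)) :
    P = P' := by
  by_contra hne
  have h1 := (T.hasVal_iff_ord_shift a ha P).mp h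
  have h2 := (T.hasVal_iff_ord_shift a ha P').mp h'
  have h3 := I.ord_add_ord_le_of_cons Q (T.shift a) (T.ρ_shift_ne_zero a ha) (T.regOn_shift a)
    P P' hne hP hP'
  rw [T.ρ_shift a ha, T.ord_t] at h3
  omega

/-- `t - a` does not vanish on the disc away from its centre. -/
theorem ord_shift_eq_zero (a : A) (ha : (a : K) ∈ A.nonunits) (P P' : Place K F)
    (hP : I.r P = Q) (hP' : I.r P' = Q) (h : HasVal P (T.t : F) (a : K)) (hne : P' ≠ P) :
    P'.ord ((T.shift a : I.V) : F) = 0 := by
  have h1 := (T.hasVal_iff_ord_shift a ha P).mp h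
  have h3 := I.ord_add_ord_le_of_cons Q (T.shift a) (T.ρ_shift_ne_zero a ha) (T.regOn_shift a)
    P' P hne hP' hP
  rw [T.ρ_shift a ha, T.ord_t] at h3
  have h4 := ord_nonneg_of_mem P' (T.regOn_shift a P' hP')
  omega

/-- **`t` maps the disc into `𝔪_A`.** -/
theorem mem_nonunits_of_hasVal (P : Place K F) (hP : I.r P = Q) (a : A)
    (h : HasVal P (T.t : F) (a : K)) : (a : K) ∈ A.nonunits := by
  have h1 := I.hasVal_red Q T.t T.t_reg P hP a h
  have h2 : HasVal Q (I.ρ T.t) 0 := by
    rw [hasVal_zero_iff]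
    right
    rw [T.ord_t]
    exact one_pos
  exact I.π_eq_zero a (h1.unique h2)

end DiscParam

end Fermat.Agent.A3.H75

end
end
-- ===== PACK-END A3/H75/DiscOfCons.lean

-- ===== PACK-BEGIN Lib/RR/H439/H1.lean
section


/-!
# RR library, layer L4: `H¹(D)` is finite-dimensional, `ℓ(D) - i(D) = deg D + 1 - g` (helper439)

Hypothesis-explicit on Riemann's theorem (layer L3): see `finite_H1_and_formula`.
-/

set_option autoImplicit false

noncomputable section

open AlgebraicCurve

namespace Fermat.Agent.Lib.RR.H439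

open Fermat.Agent.Lib.RR

variable {K F : Type*} [Field K] [Field F] [Algebra K F]

/-! ### Linear algebra: one step in a chain of quotients -/

/-- If `φ : V → W` is onto with kernel spanned by one vector `x` and `W` is finite-dimensional,
then so is `V`, and `dim V = dim W + (0 or 1)`. -/
theorem finrank_of_ker_eq_span {V W : Type*} [AddCommGroup V] [Module K V] [AddCommGroup W]
    [Module K W] (φ : V →ₗ[K] W) (hφ : Function.Surjective φ) (x : V)
    (hker : LinearMap.ker φ = Submodule.span K {x}) [Module.Finite K W] :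
    Module.Finite K V ∧
      (x = 0 → Module.finrank K V = Module.finrank K W) ∧
      (x ≠ 0 → Module.finrank K V = Module.finrank K W + 1) := by
  have hexact : Function.Exact (Submodule.span K {x}).subtype φ := by
    rw [LinearMap.exact_iff, hker, Submodule.range_subtype]
  have hfin : Module.Finite K V := Module.Finite.of_exact hexact hφ
  refine ⟨hfin, ?_, ?_⟩
  · intro hx
    have h1 := LinearMap.finrank_range_add_finrank_ker φ
    rw [LinearMap.range_eq_top.mpr hφ, finrank_top, hker, hx, Submodule.span_zero_singleton,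
      finrank_bot, add_zero] at h1
    exact h1.symm
  · intro hx
    have h1 := LinearMap.finrank_range_add_finrank_ker φ
    rw [LinearMap.range_eq_top.mpr hφ, finrank_top, hker, finrank_span_singleton hx] at h1
    exact h1.symm

/-- One step for quotients by submodules: `S' = S ⊔ K a`. -/
theorem finrank_quotient_step {M : Type*} [AddCommGroup M] [Module K M] (S S' : Submodule K M)
    (a : M) (hle : S ≤ S') (ha : a ∈ S') (hle' : S' ≤ S ⊔ Submodule.span K {a})
    [Module.Finite K (M ⧸ S')] :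
    Module.Finite K (M ⧸ S) ∧
      (a ∈ S → Module.finrank K (M ⧸ S) = Module.finrank K (M ⧸ S')) ∧
      (a ∉ S → Module.finrank K (M ⧸ S) = Module.finrank K (M ⧸ S') + 1) := by
  have hS' : S' = S ⊔ Submodule.span K {a} :=
    le_antisymm hle' (sup_le hle ((Submodule.span_singleton_le_iff_mem a S').mpr ha))
  have hcomap : S ≤ Submodule.comap (LinearMap.id : M →ₗ[K] M) S' := by
    rw [Submodule.comap_id]; exact hle
  set φ : (M ⧸ S) →ₗ[K] (M ⧸ S') := S.mapQ S' LinearMap.id hcomap with hφdef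
  have hφ : Function.Surjective φ := by
    intro y
    obtain ⟨m, rfl⟩ := Submodule.Quotient.mk_surjective S' y
    exact ⟨Submodule.Quotient.mk m, by simp [hφdef]⟩
  have hker : LinearMap.ker φ = Submodule.span K {S.mkQ a} := by
    rw [hφdef, Submodule.ker_mapQ, Submodule.comap_id, hS', Submodule.map_sup,
      Submodule.map_span, Set.image_singleton]
    rw [Submodule.mkQ_map_self, bot_sup_eq]
  obtain ⟨h1, h2, h3⟩ := finrank_of_ker_eq_span φ hφ (S.mkQ a) hker
  have hiff : (S.mkQ a = 0) ↔ a ∈ S := by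
    rw [Submodule.mkQ_apply, Submodule.Quotient.mk_eq_zero]
  exact ⟨h1, fun h => h2 (hiff.mpr h), fun h => h3 (fun h0 => h (hiff.mp h0))⟩

/-! ### One step for `H¹` -/

section FF1

variable [hFF : FF1 K F]

/-- **One step**: if `H¹(D + P)` is finite-dimensional then so is `H¹(D)` and
`i(D) + ℓ(D + P) = i(D + P) + ℓ(D) + 1`. -/
theorem H1_step (D : Divisor K F) (v : Place K F) [Module.Finite K (H1 (D + prim v))] :
    Module.Finite K (H1 D) ∧
      Module.finrank K (H1 D) + ell (D + prim v)
        = Module.finrank K (H1 (D + prim v)) + ell D + 1 := by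
  classical
  obtain ⟨t, ht0, ht⟩ := exists_ord_eq v (-(D v + 1))
  have hv := deg_eq_one v
  have hDle : D ≤ D + prim v := by
    rw [Finsupp.le_def]
    intro w
    by_cases hw : w = v
    · subst hw; simp
    · simp [prim_apply_of_ne hw]
  have hle : repartitionsOf D ⊔ principalRepartitions K F
      ≤ repartitionsOf (D + prim v) ⊔ principalRepartitions K F :=
    sup_le_sup_right (repartitionsOf_mono hDle) _
  have ha : single v t ∈ repartitionsOf (D + prim v) ⊔ principalRepartitions K F :=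
    Submodule.mem_sup_left (single_mem_repartitionsOf v D ht)
  have hle' : repartitionsOf (D + prim v) ⊔ principalRepartitions K F
      ≤ (repartitionsOf D ⊔ principalRepartitions K F) ⊔ Submodule.span K {single v t} := by
    refine sup_le ?_ (le_sup_of_le_left le_sup_right)
    refine (repartitionsOf_add_prim_le v hv D ht0 ht).trans ?_
    exact sup_le (le_sup_of_le_left le_sup_left) le_sup_right
  obtain ⟨hfin, hrank0, hrank1⟩ := finrank_quotient_step
    (repartitionsOf D ⊔ principalRepartitions K F)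
    (repartitionsOf (D + prim v) ⊔ principalRepartitions K F) (single v t) hle ha hle'
  refine ⟨hfin, ?_⟩
  have hLle : riemannRochSpace D ≤ riemannRochSpace (D + prim v) := L_mono hDle
  by_cases hL : riemannRochSpace (D + prim v) ≤ riemannRochSpace D
  · have hnot : single v t ∉ repartitionsOf D ⊔ principalRepartitions K F := fun h =>
      (not_le_of_single_mem_sup v D ht0 ht h) hL
    have hell : ell (D + prim v) = ell D := by
      unfold ell; rw [le_antisymm hL hLle]
    have : Module.finrank K (H1 D) = Module.finrank K (H1 (D + prim v)) + 1 := hrank1 hnot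
    omega
  · have hmem := single_mem_sup_of_not_le v hv D ht0 ht hL
    have hlt : ell D < ell (D + prim v) := by
      unfold ell
      exact Submodule.finrank_lt_finrank_of_lt (lt_of_le_not_ge hLle hL)
    have hle2 := ell_add_prim_le D v
    have : Module.finrank K (H1 D) = Module.finrank K (H1 (D + prim v)) := hrank0 hmem
    omega

/-! ### Vanishing of `H¹` above a divisor attaining Riemann's bound -/

/-- Every repartition lies in `𝔸(B₁)` for some `B₁ ≥ B`. -/
theorem exists_ge_mem_repartitionsOf (B : Divisor K F) (α : ↥(repartitions K F)) :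
    ∃ B₁ : Divisor K F, B ≤ B₁ ∧ α ∈ repartitionsOf B₁ := by
  classical
  have hfin : {v : Place K F | v.ord ((α : Place K F → F) v) < 0}.Finite :=
    _root_.Fermat.Agent.Lib.RR.H439.mem_repartitions_iff.mp α.2
  set T : Finset (Place K F) := hfin.toFinset ∪ B.support with hT
  have hsupp : ∀ w : Place K F,
      max (B w) (-w.ord ((α : Place K F → F) w)) ≠ 0 → w ∈ T := by
    intro w hw
    by_contra hwT
    rw [hT, Finset.mem_union, not_or, Set.Finite.mem_toFinset, Finsupp.mem_support_iff,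
      not_not] at hwT
    have h1 : 0 ≤ w.ord ((α : Place K F → F) w) := not_lt.mp hwT.1
    apply hw
    rw [hwT.2]
    exact max_eq_left (by omega)
  refine ⟨Finsupp.onFinset T (fun w => max (B w) (-w.ord ((α : Place K F → F) w))) hsupp,
    ?_, ?_⟩
  · rw [Finsupp.le_def]
    intro w
    rw [Finsupp.onFinset_apply]
    exact le_max_left _ _
  · rw [mem_repartitionsOf_iff]
    intro w
    right
    rw [Finsupp.onFinset_apply]
    have := le_max_right (B w) (-w.ord ((α : Place K F → F) w))
    omega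

/-- If `B` attains Riemann's bound, then so does every `D ≥ B`. -/
theorem ell_eq_of_attains (g : ℤ)
    (hR : ∀ D : Divisor K F, Divisor.degree D + 1 - g ≤ ell D)
    {B D : Divisor K F} (hB : (ell B : ℤ) = Divisor.degree B + 1 - g) (h : B ≤ D) :
    (ell D : ℤ) = Divisor.degree D + 1 - g := by
  have h1 := degree_sub_ell_mono h
  have h2 := hR D
  omega

/-- **Vanishing**: if `B` attains Riemann's bound then `𝔸 = 𝔸(B) + F`. -/
theorem sup_eq_top_of_attains (g : ℤ)
    (hR : ∀ D : Divisor K F, Divisor.degree D + 1 - g ≤ ell D)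
    (B : Divisor K F) (hB : (ell B : ℤ) = Divisor.degree B + 1 - g) :
    repartitionsOf B ⊔ principalRepartitions K F = ⊤ := by
  have key : ∀ D', B ≤ D' →
      repartitionsOf D' ≤ repartitionsOf B ⊔ principalRepartitions K F := by
    refine induction_ge B le_sup_left ?_
    intro D' v hle ih
    obtain ⟨t, ht0, ht⟩ := exists_ord_eq v (-(D' v + 1))
    have hv := deg_eq_one v
    have hD'le : D' ≤ D' + prim v := by
      rw [Finsupp.le_def]
      intro w
      by_cases hw : w = v
      · subst hw; simp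
      · simp [prim_apply_of_ne hw]
    have hl1 := ell_eq_of_attains g hR hB hle
    have hl2 := ell_eq_of_attains g hR hB (hle.trans hD'le)
    rw [map_add, degree_prim'] at hl2
    have hnot : ¬ riemannRochSpace (D' + prim v) ≤ riemannRochSpace D' := by
      intro hL
      have : ell (D' + prim v) ≤ ell D' := Submodule.finrank_mono hL
      omega
    have hmem := single_mem_sup_of_not_le v hv D' ht0 ht hnot
    refine (repartitionsOf_add_prim_le v hv D' ht0 ht).trans (sup_le ih ?_)
    rw [Submodule.span_singleton_le_iff_mem]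
    exact (sup_le ih le_sup_right : repartitionsOf D' ⊔ principalRepartitions K F ≤ _) hmem
  rw [eq_top_iff]
  intro α _
  obtain ⟨B₁, hB₁, hα⟩ := exists_ge_mem_repartitionsOf B α
  exact key B₁ hB₁ hα

/-! ### The main theorem of layer L4 -/

/-- Step down: from `D + P` to `D`. -/
theorem step_down (g : ℤ) (X Y : Divisor K F) (v : Place K F) (hY : Y = X + prim v)
    (h : Module.Finite K (H1 Y) ∧
      (ell Y : ℤ) - Module.finrank K (H1 Y) = Divisor.degree Y + 1 - g) :
    Module.Finite K (H1 X) ∧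
      (ell X : ℤ) - Module.finrank K (H1 X) = Divisor.degree X + 1 - g := by
  subst hY
  obtain ⟨hfin, hform⟩ := h
  obtain ⟨hfin', hstep⟩ := H1_step X v
  refine ⟨hfin', ?_⟩
  rw [map_add, degree_prim'] at hform
  omega

/-- **L4.1 + L4.2** (hypothesis-explicit): if `g` is a constant for which Riemann's inequality
holds and is attained, then for every divisor `D` the space `H¹(D)` is finite-dimensional and
`ℓ(D) - dim H¹(D) = deg D + 1 - g`. -/
theorem finite_H1_and_formula (g : ℤ)
    (hR : ∀ D : Divisor K F, Divisor.degree D + 1 - g ≤ ell D)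
    (D₀ : Divisor K F) (h₀ : (ell D₀ : ℤ) = Divisor.degree D₀ + 1 - g) (D : Divisor K F) :
    Module.Finite K (H1 D) ∧
      (ell D : ℤ) - Module.finrank K (H1 D) = Divisor.degree D + 1 - g := by
  -- a divisor above `D` attaining the bound
  set B : Divisor K F := D ⊔ D₀ with hBdef
  have hDB : D ≤ B := le_sup_left
  have hB : (ell B : ℤ) = Divisor.degree B + 1 - g := ell_eq_of_attains g hR h₀ le_sup_right
  have htop := sup_eq_top_of_attains g hR B hB
  have hsub : Subsingleton (H1 B) := by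
    rw [Submodule.Quotient.subsingleton_iff]
    exact htop
  have hPB : Module.Finite K (H1 B) ∧
      (ell B : ℤ) - Module.finrank K (H1 B) = Divisor.degree B + 1 - g := by
    refine ⟨inferInstance, ?_⟩
    rw [Module.finrank_zero_of_subsingleton, hB]
    simp
  -- descend from `B` to `D`
  have key : ∀ E, D ≤ E →
      (Module.Finite K (H1 (B + D - E)) ∧
        (ell (B + D - E) : ℤ) - Module.finrank K (H1 (B + D - E))
          = Divisor.degree (B + D - E) + 1 - g) := by
    refine induction_ge D ?_ ?_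
    · rw [add_sub_cancel_right]; exact hPB
    · intro E v _ ih
      exact step_down g (B + D - (E + prim v)) (B + D - E) v (by abel) ih
  have := key B hDB
  rwa [add_sub_cancel_left] at this

end FF1

end Fermat.Agent.Lib.RR.H439

end
end
-- ===== PACK-END Lib/RR/H439/H1.lean

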