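import Mathlib
import Fermat.Prelude.Def_ModularCurve_ReductionModL
import Fermat.Prelude.Def_AlgebraicCurve_Correspondence
import Fermat.Prelude.Def_ModularCurve_X0ModL
import Fermat.Agent.Pack.S33.E9L3
import Fermat.Agent.Pack.S33.E9L2
import Fermat.Agent.Pack.S33.E0L0
import Fermat.Agent.Pack.S33.E9L0
import Fermat.Agent.Pack.S33.E10L3
import Fermat.Agent.Pack.S33.E10L1
import Fermat.Agent.Pack.S33.E10L2
import Fermat.Agent.Pack.S33.E5L3
import Fermat.Agent.Pack.S33.E5L1
import Fermat.Agent.Pack.S33.E2L2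
import Fermat.Agent.Pack.S33.E8L3
import Fermat.Agent.Pack.S33.E10L0
import Fermat.Agent.Pack.S33.E11L1
import Fermat.Agent.Pack.S33.E11L2
import Fermat.Agent.Pack.S33.E6L0
import Fermat.Agent.Pack.S33.E1L0
import Fermat.Agent.Pack.S33.E4L0
import Fermat.Agent.Pack.S33.E11L0

-- ===== PACK-BEGIN S22/H262/Lattice.lean
section



set_option autoImplicit false

/-!
# The period lattice: functionals, Hecke stability
-/

open Complex Filter Function Metric Set
open UpperHalfPlane hiding I
open scoped Real Topology Manifold ModularForm MatrixGroups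

namespace Fermat.Agent.S22.H262

open Matrix.SpecialLinearGroup CuspForm

variable {N : ℕ} [NeZero N] {n : ℕ}

theorem hasTower_slash_posInt (f : CuspForm (CongruenceSubgroup.Gamma0 N) ((n : ℤ) + 2))
    {A : GL (Fin 2) ℝ} (hA : A ∈ posInt) : HasTower (⇑f ∣[(n : ℤ) + 2] A) := by
  obtain ⟨g, δ, hδ, h10, rfl⟩ := exists_mapGL_mul_upper hA
  rw [SlashAction.slash_mul]
  exact (hasTower_slash_SL f g).slash_upper n δ hδ.2 h10

theorem hasTower_cuspForm (f : CuspForm (CongruenceSubgroup.Gamma0 N) ((n : ℤ) + 2)) :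
    HasTower (⇑f) := by
  have := hasTower_slash_posInt f (one_mem posInt)
  rwa [SlashAction.slash_one] at this

theorem hasTower_slash_slash (f : CuspForm (CongruenceSubgroup.Gamma0 N) ((n : ℤ) + 2))
    {A B : GL (Fin 2) ℝ} (hA : A ∈ posInt) (hB : B ∈ posInt) :
    HasTower ((⇑f ∣[(n : ℤ) + 2] A) ∣[(n : ℤ) + 2] B) := by
  rw [← SlashAction.slash_mul]
  exact hasTower_slash_posInt f (mul_mem hA hB)

theorem smul_slash_pos (k : ℤ) {A : GL (Fin 2) ℝ} (hA : 0 < A.det.val) (c : ℂ) (h : ℍ → ℂ) :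
    (c • h) ∣[k] A = c • (h ∣[k] A) := by
  rw [ModularForm.smul_slash, UpperHalfPlane.σ, if_pos hA]
  rfl

/-- The functional `f ↦ c_{f|B}(A)(v)`. -/
noncomputable def lamG (N : ℕ) [NeZero N] (n : ℕ) (B A : posInt) (v : ℂ × ℂ) :
    Module.Dual ℂ (CuspForm (CongruenceSubgroup.Gamma0 N) ((n : ℤ) + 2)) where
  toFun f := cocyc n (⇑f ∣[(n : ℤ) + 2] (B : GL (Fin 2) ℝ)) A v
  map_add' f g := by
    rw [FunLike.coe_add, SlashAction.add_slash]
    exact cocyc_add n _ (hasTower_slash_posInt f B.2) (hasTower_slash_posInt g B.2)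
      (hasTower_slash_slash f B.2 A.2) (hasTower_slash_slash g B.2 A.2) v
  map_smul' c f := by
    rw [FunLike.coe_smul, smul_slash_pos _ B.2.2, RingHom.id_apply, smul_eq_mul]
    exact cocyc_smul n _ A.2.2 (hasTower_slash_posInt f B.2) (hasTower_slash_slash f B.2 A.2) c v

theorem lamG_apply (B A : posInt) (v : ℂ × ℂ)
    (f : CuspForm (CongruenceSubgroup.Gamma0 N) ((n : ℤ) + 2)) :
    lamG N n B A v f = cocyc n (⇑f ∣[(n : ℤ) + 2] (B : GL (Fin 2) ℝ)) A v := rfl

/-- The functional `f ↦ c_f(A)(v)`. -/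
noncomputable def lam (N : ℕ) [NeZero N] (n : ℕ) (A : posInt) (v : ℂ × ℂ) :
    Module.Dual ℂ (CuspForm (CongruenceSubgroup.Gamma0 N) ((n : ℤ) + 2)) :=
  lamG N n 1 A v

theorem lam_apply (A : posInt) (v : ℂ × ℂ)
    (f : CuspForm (CongruenceSubgroup.Gamma0 N) ((n : ℤ) + 2)) :
    lam N n A v f = cocyc n (⇑f) A v := by
  rw [lam, lamG_apply]
  simp

/-- The period lattice. -/
noncomputable def periodLattice (N : ℕ) [NeZero N] (n : ℕ) :
    Submodule ℤ (Module.Dual ℂ (CuspForm (CongruenceSubgroup.Gamma0 N) ((n : ℤ) + 2))) :=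
  Submodule.span ℤ {l | ∃ (A : posInt) (v : ℂ × ℂ), v ∈ Vint ∧ l = lam N n A v}

theorem lam_mem_periodLattice (A : posInt) {v : ℂ × ℂ} (hv : v ∈ Vint) :
    lam N n A v ∈ periodLattice N n :=
  Submodule.subset_span ⟨A, v, hv, rfl⟩

/-- Key identity: `c_{f|δ}(A) = c_f(δ A)` for upper triangular `δ`. -/
theorem cocyc_slash_upper (f : CuspForm (CongruenceSubgroup.Gamma0 N) ((n : ℤ) + 2))
    {δ A : GL (Fin 2) ℝ} (hδ : δ ∈ posInt) (h10 : δ 1 0 = 0) (hA : A ∈ posInt) (v : ℂ × ℂ) :
    cocyc n (⇑f ∣[(n : ℤ) + 2] δ) A v = cocyc n (⇑f) (δ * A) v := by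
  rw [cocyc_mul n δ A hδ.2 hA.2 (hasTower_cuspForm f) (hasTower_slash_posInt f hδ)
    (hasTower_slash_posInt f (mul_mem hδ hA)), cocyc_upper n (hasTower_cuspForm f) δ hδ.2 h10,
    zero_add]

theorem heckeMatrix_mem_posInt {p : ℕ} (hp : p ≠ 0) (j : ℕ) :
    ModularForm.heckeMatrix p j ∈ posInt := by
  refine ⟨fun i k => ?_, ModularForm.det_heckeMatrix_pos p j⟩
  have h := ModularForm.val_heckeMatrix hp j
  fin_cases i <;> fin_cases k
  · exact ⟨1, by simp [h]⟩
  · exact ⟨j, by simp [h]⟩
  · exact ⟨0, by simp [h]⟩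
  · exact ⟨p, by simp [h]⟩

theorem heckeDiagMatrix_mem_posInt {p : ℕ} (hp : p ≠ 0) :
    ModularForm.heckeDiagMatrix p ∈ posInt := by
  refine ⟨fun i k => ?_, ModularForm.det_heckeDiagMatrix_pos p⟩
  have h := ModularForm.val_heckeDiagMatrix hp
  fin_cases i <;> fin_cases k
  · exact ⟨p, by simp [h]⟩
  · exact ⟨0, by simp [h]⟩
  · exact ⟨0, by simp [h]⟩
  · exact ⟨1, by simp [h]⟩

theorem heckeMatrix_one_zero {p : ℕ} (hp : p ≠ 0) (j : ℕ) :
    (ModularForm.heckeMatrix p j) 1 0 = 0 := by
  simp [ModularForm.val_heckeMatrix hp j]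

theorem heckeDiagMatrix_one_zero {p : ℕ} (hp : p ≠ 0) :
    (ModularForm.heckeDiagMatrix p) 1 0 = 0 := by
  simp [ModularForm.val_heckeDiagMatrix hp]

theorem cocyc_heckeU (f : CuspForm (CongruenceSubgroup.Gamma0 N) ((n : ℤ) + 2))
    {p : ℕ} (hp : p ≠ 0) (A : posInt) (v : ℂ × ℂ) :
    cocyc n (ModularForm.heckeU ((n : ℤ) + 2) p ⇑f) A v =
      ∑ j ∈ Finset.range p,
        lam N n (⟨ModularForm.heckeMatrix p j, heckeMatrix_mem_posInt hp j⟩ * A) v f := by
  rw [ModularForm.heckeU_def, cocyc_sum n _ _ _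
    (fun j _ => hasTower_slash_posInt f (heckeMatrix_mem_posInt hp j))
    (fun j _ => hasTower_slash_slash f (heckeMatrix_mem_posInt hp j) A.2)]
  refine Finset.sum_congr rfl fun j _ => ?_
  rw [lam_apply, cocyc_slash_upper f (heckeMatrix_mem_posInt hp j) (heckeMatrix_one_zero hp j)
    A.2]
  rfl

theorem cocyc_heckeT (f : CuspForm (CongruenceSubgroup.Gamma0 N) ((n : ℤ) + 2))
    {p : ℕ} (hp : p ≠ 0) (A : posInt) (v : ℂ × ℂ) :
    cocyc n (ModularForm.heckeT ((n : ℤ) + 2) p ⇑f) A v =
      (∑ j ∈ Finset.range p,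
        lam N n (⟨ModularForm.heckeMatrix p j, heckeMatrix_mem_posInt hp j⟩ * A) v f) +
      lam N n (⟨ModularForm.heckeDiagMatrix p, heckeDiagMatrix_mem_posInt hp⟩ * A) v f := by
  have hU : HasTower (ModularForm.heckeU ((n : ℤ) + 2) p ⇑f) := by
    rw [ModularForm.heckeU_def]
    exact (tower_sum _ _
      (fun j _ => hasTower_slash_posInt f (heckeMatrix_mem_posInt hp j))).1
  have hUA : HasTower (ModularForm.heckeU ((n : ℤ) + 2) p ⇑f ∣[(n : ℤ) + 2]
      (A : GL (Fin 2) ℝ)) := by
    rw [ModularForm.heckeU_def, SlashAction.sum_slash]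
    exact (tower_sum _ _
      (fun j _ => hasTower_slash_slash f (heckeMatrix_mem_posInt hp j) A.2)).1
  rw [ModularForm.heckeT_eq_heckeU_add, cocyc_add n _ hU
    (hasTower_slash_posInt f (heckeDiagMatrix_mem_posInt hp)) hUA
    (hasTower_slash_slash f (heckeDiagMatrix_mem_posInt hp) A.2), cocyc_heckeU f hp,
    lam_apply, cocyc_slash_upper f (heckeDiagMatrix_mem_posInt hp)
      (heckeDiagMatrix_one_zero hp) A.2]
  rfl

/-- The period lattice is stable under the Hecke generators. -/
theorem periodLattice_stable (S : Set ℕ) (T : Module.End ℂ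
    (CuspForm (CongruenceSubgroup.Gamma0 N) ((n : ℤ) + 2)))
    (hT : T ∈ heckeGenerators N ((n : ℤ) + 2) S) (l : Module.Dual ℂ
    (CuspForm (CongruenceSubgroup.Gamma0 N) ((n : ℤ) + 2))) (hl : l ∈ periodLattice N n) :
    l ∘ₗ T ∈ periodLattice N n := by
  induction hl using Submodule.span_induction with
  | zero => rw [LinearMap.zero_comp]; exact Submodule.zero_mem _
  | add x y _ _ hx hy => rw [LinearMap.add_comp]; exact Submodule.add_mem _ hx hy
  | smul a x _ hx =>
    have : (a • x) ∘ₗ T = a • (x ∘ₗ T) := by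
      ext f
      simp
    rw [this]
    exact Submodule.smul_mem _ a hx
  | mem x hx =>
    obtain ⟨A, v, hv, rfl⟩ := hx
    rcases hT with ⟨ℓ, hℓ, hℓN, -, rfl⟩ | ⟨q, hqN, hq, -, rfl⟩
    · have hℓ0 : ℓ ≠ 0 := hℓ.ne_zero
      have : lam N n A v ∘ₗ _root_.CuspForm.heckeTLin ((n : ℤ) + 2) hℓ hℓN =
          (∑ j ∈ Finset.range ℓ,
            lam N n (⟨ModularForm.heckeMatrix ℓ j, heckeMatrix_mem_posInt hℓ0 j⟩ * A) v) +
          lam N n (⟨ModularForm.heckeDiagMatrix ℓ, heckeDiagMatrix_mem_posInt hℓ0⟩ * A) v := by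
        ext f
        rw [LinearMap.comp_apply, lam_apply, CuspForm.coe_heckeTLin_apply, cocyc_heckeT f hℓ0]
        simp
      rw [this]
      exact Submodule.add_mem _ (Submodule.sum_mem _ fun j _ => lam_mem_periodLattice _ hv)
        (lam_mem_periodLattice _ hv)
    · have hq0 : q ≠ 0 := hq.ne_zero
      have : lam N n A v ∘ₗ _root_.CuspForm.heckeULin ((n : ℤ) + 2) hqN =
          (∑ j ∈ Finset.range q,
            lam N n (⟨ModularForm.heckeMatrix q j, heckeMatrix_mem_posInt hq0 j⟩ * A) v) := by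
        ext f
        rw [LinearMap.comp_apply, lam_apply, CuspForm.coe_heckeULin_apply, cocyc_heckeU f hq0]
        simp
      rw [this]
      exact Submodule.sum_mem _ fun j _ => lam_mem_periodLattice _ hv

end Fermat.Agent.S22.H262

end
-- ===== PACK-END S22/H262/Lattice.lean

-- ===== PACK-BEGIN S24/Mod/H997Core.lean
section


/-!
# S24 / MOD — the analytic interface `AnalyticCore N` and the assembly of the modular package

`AnalyticCore N` is the complete list of analytic facts needed (besides the degree bound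
`[FF N : ℚ̄(j)] ≤ |SL₂(ℤ)/Γ₀(N)|`) to produce all the `LocalData` of helper984's interface
`ModularPackage N`.
-/

set_option autoImplicit false

noncomputable section

open ModularCurve HahnSeries UpperHalfPlane
open scoped MatrixGroups

namespace Fermat.Agent.S24.H997

variable {N : ℕ} [NeZero N]

/-- Local data at a point of `ℍ` lying over `a = J(τ₀)`: an expansion (Taylor expansion at `τ₀`),
rotation data for the stabilising element `ε`, and the order of vanishing of `J - a`. -/
structure PointData (B : HolBase N) (a : ℂ) (ε : SL(2, ℤ)) where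
  X : Expansion B
  R : RotData B X ε
  order_J : (X.E (B.JH 1 (one_dvd N) - B.constH a)).order = (R.m : ℤ)

/-- **The analytic interface.** -/
structure AnalyticCore (N : ℕ) [NeZero N] extends HolBase N where
  /-- generic points: `J - a` has a simple zero at some `τ₀` -/
  generic : ∀ a : ℂ, a ≠ 0 → a ≠ 1728 → PointData toHolBase a 1

  /-- the point `i` over `1728`, rotation by `S` -/
  at1728 : PointData toHolBase 1728 ModularGroup.S
  /-- the point `ρ` over `0`, rotation by `S * T` -/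
  at0 : PointData toHolBase 0 (ModularGroup.S * ModularGroup.T)
  /-- the cusp `∞`: `qexp (h ∘ T)` is `qexp h` with `z` replaced by `ζ z` -/
  infζ : ℂ
  inf_hζ : IsPrimitiveRoot infζ N
  inf_shift : ∀ (h : Hol) (n : ℤ),
    (qexp (toHolBase.compH ModularGroup.T h)).coeff n = infζ ^ n * (qexp h).coeff n

namespace HolBase

variable (B : HolBase N)

/-- the expansion at `∞` -/
def qexpExpansion : Expansion B := ⟨B.qexp, B.qexp_injective, B.qexp_const⟩

theorem qexp_J_one_coeff (k : ℤ) :
    (B.qexp (B.JH 1 (one_dvd N))).coeff k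
      = if (N : ℤ) ∣ k then ((jq.coeff (k / (N : ℤ)) : ℚ) : ℂ) else 0 := by
  have := B.qexp_J 1 (one_dvd N) k
  simpa [JH] using this

theorem qexp_J_one_ne_zero : B.qexp (B.JH 1 (one_dvd N)) ≠ 0 := by
  apply ne_zero_of_coeff_ne_zero (g := -(N : ℤ))
  rw [qexp_J_one_coeff, if_pos (dvd_neg.mpr dvd_rfl)]
  have hN : (N : ℤ) ≠ 0 := by exact_mod_cast NeZero.ne N
  rw [Int.neg_ediv_of_dvd dvd_rfl, Int.ediv_self hN, coeff_jq_neg_one]
  simp

theorem order_qexp_J_one : (B.qexp (B.JH 1 (one_dvd N))).order = -(N : ℤ) := by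
  have hN : (N : ℤ) ≠ 0 := by exact_mod_cast NeZero.ne N
  have hNpos : (0 : ℤ) < N := by exact_mod_cast Nat.pos_of_ne_zero (NeZero.ne N)
  apply le_antisymm
  · apply order_le_of_coeff_ne_zero
    rw [qexp_J_one_coeff, if_pos (dvd_neg.mpr dvd_rfl)]
    rw [Int.neg_ediv_of_dvd dvd_rfl, Int.ediv_self hN, coeff_jq_neg_one]
    simp
  · by_contra hlt
    replace hlt := lt_of_not_ge hlt
    have h0 := coeff_order_eq_zero.not.mpr B.qexp_J_one_ne_zero
    apply h0
    rw [qexp_J_one_coeff]
    split_ifs with hdvd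
    · obtain ⟨m, hm⟩ := hdvd
      rw [hm, Int.mul_ediv_cancel_left _ hN]
      have : m < -1 := by
        rw [hm] at hlt
        by_contra hge
        replace hge := le_of_not_gt hge
        have : (N : ℤ) * m ≥ N * (-1) := mul_le_mul_of_nonneg_left hge hNpos.le
        linarith
      rw [coeff_jq_of_lt this]
      simp
    · rfl

end HolBase

/-- Rotation data from a coefficientwise statement `coeff_n (E (h ∘ ε)) = ζ^n coeff_n (E h)`. -/
def RotData.ofCoeff (B : HolBase N) (X : Expansion B) (ε : SL(2, ℤ)) (m : ℕ) (m_pos : 0 < m)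
    (ζ : ℂ) (hζ : IsPrimitiveRoot ζ m)
    (h : ∀ (f : B.Hol) (n : ℤ), (X.E (B.compH ε f)).coeff n = ζ ^ n * (X.E f).coeff n) :
    RotData B X ε where
  m := m
  m_pos := m_pos
  ζ := ζ
  hζ := hζ
  rot f := by
    have hζ0 : ζ ≠ 0 := hζ.ne_zero m_pos.ne'
    by_cases hf : X.E f = 0
    · have : X.E (B.compH ε f) = 0 := by
        ext n; rw [h, hf]; simp
      rw [hf, this]; exact RotRel.zero
    · have hf' : X.E (B.compH ε f) ≠ 0 := by
        intro h0
        apply hf
        ext n
        have := congrArg (fun s => s.coeff n) h0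
        simp only [h, coeff_zero, mul_eq_zero, zpow_ne_zero n hζ0, false_or] at this
        simpa using this
      have hord : (X.E (B.compH ε f)).order = (X.E f).order := by
        apply le_antisymm
        · apply order_le_of_coeff_ne_zero
          rw [h]
          exact mul_ne_zero (zpow_ne_zero _ hζ0) (coeff_order_eq_zero.not.mpr hf)
        · apply order_le_of_coeff_ne_zero
          have := coeff_order_eq_zero.not.mpr hf'
          rw [h] at this
          exact right_ne_zero_of_mul this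
      refine ⟨hord, ?_⟩
      rw [leadingCoeff_eq, leadingCoeff_eq, hord, h]

theorem numOrbits_inv {X : Type*} (π : Equiv.Perm X) : numOrbits π⁻¹ = numOrbits π := by
  unfold numOrbits
  rw [Subgroup.zpowers_inv]

theorem permOf_inv (N : ℕ) [NeZero N] (g : SL(2, ℤ)) : permOf N g⁻¹ = (permOf N g)⁻¹ := by
  ext x
  simp [permOf]

theorem permOf_one (N : ℕ) [NeZero N] : permOf N 1 = 1 := by
  ext x
  simp [permOf]

namespace AnalyticCore

variable (A : AnalyticCore N)

/-- rotation data at the cusp -/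
def infRot : RotData A.toHolBase A.toHolBase.qexpExpansion ModularGroup.T :=
  RotData.ofCoeff A.toHolBase A.toHolBase.qexpExpansion ModularGroup.T N
    (Nat.pos_of_ne_zero (NeZero.ne N)) A.infζ A.inf_hζ A.inf_shift

/-- the local data at `∞` -/
def dataInf : LocalData Kbar (FF N) ℂ (XX N) (jF N)⁻¹ :=
  A.toHolBase.mkLocalData A.toHolBase.qexpExpansion ModularGroup.T A.infRot (jF N)⁻¹
    (A.qexp (A.toHolBase.JH 1 (one_dvd N)))⁻¹
    (fun g => by rw [map_inv₀, HolBase.sigmaG_jF]; rfl)
    (by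
      rw [RotRel.order_inv' A.toHolBase.qexp_J_one_ne_zero, A.toHolBase.order_qexp_J_one, neg_neg]
      rfl)

theorem sigmaG_sub {a : Kbar} {ε : SL(2, ℤ)} (P : PointData A.toHolBase (ιK a) ε)
    (g : SL(2, ℤ)) :
    A.toHolBase.sigmaG P.X g (jF N - algebraMap Kbar (FF N) a)
      = P.X.E (A.toHolBase.JH 1 (one_dvd N) - A.toHolBase.constH (ιK a)) := by
  rw [_root_.map_sub, HolBase.sigmaG_jF, HolBase.sigmaG_algebraMap, _root_.map_sub, P.X.const]

/-- the local data attached to point data over `a` -/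
def dataOfPoint {a : Kbar} {ε : SL(2, ℤ)} (P : PointData A.toHolBase (ιK a) ε) :
    LocalData Kbar (FF N) ℂ (XX N) (jF N - algebraMap Kbar (FF N) a) :=
  A.toHolBase.mkLocalData P.X ε P.R _ _ (fun g => A.sigmaG_sub P g) P.order_J

/-- all the embeddings `σ_x` agree on `ℚ̄(j)` -/
theorem sigmaX_eq_on_adjoin (X : Expansion A.toHolBase) (x y : XX N) {f : FF N}
    (hf : f ∈ IntermediateField.adjoin Kbar {jF N}) :
    A.toHolBase.sigmaX X x f = A.toHolBase.sigmaX X y f := by
  induction hf using IntermediateField.adjoin_induction with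
  | mem z hz =>
      rw [Set.mem_singleton_iff] at hz
      subst hz
      show A.toHolBase.sigmaG X _ (jF N) = A.toHolBase.sigmaG X _ (jF N)
      rw [HolBase.sigmaG_jF, HolBase.sigmaG_jF]
  | algebraMap c =>
      show A.toHolBase.sigmaG X _ _ = A.toHolBase.sigmaG X _ _
      rw [HolBase.sigmaG_algebraMap, HolBase.sigmaG_algebraMap]
  | add z w _ _ hz hw => rw [_root_.map_add, _root_.map_add, hz, hw]
  | inv z _ hz => rw [map_inv₀, map_inv₀, hz]
  | mul z w _ _ hz hw => rw [_root_.map_mul, _root_.map_mul, hz, hw]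

/-- lower bound for the degree: `|SL₂(ℤ)/Γ₀(N)| ≤ [FF N : ℚ̄(j)]`. -/
theorem card_le_finrank (A : AnalyticCore N)
    [FiniteDimensional ↥(IntermediateField.adjoin Kbar {jF N}) (FF N)] :
    Nat.card (XX N) ≤ Module.finrank ↥(IntermediateField.adjoin Kbar {jF N}) (FF N) := by
  classical
  set E := IntermediateField.adjoin Kbar {jF N} with hE
  let X := A.toHolBase.qexpExpansion
  let x0 : XX N := ((1 : SL(2, ℤ)) : XX N)
  let ψ : ↥E →+* LaurentSeries ℂ := (A.toHolBase.sigmaX X x0).comp (algebraMap ↥E (FF N))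
  letI : Algebra ↥E (LaurentSeries ℂ) := ψ.toAlgebra
  let a : XX N → (FF N →ₐ[↥E] LaurentSeries ℂ) := fun x =>
    { A.toHolBase.sigmaX X x with
      commutes' := fun y => A.sigmaX_eq_on_adjoin X x x0 y.2 }
  have ha : Function.Injective a := by
    intro x y hxy
    apply A.toHolBase.sigmaX_injective X
    refine RingHom.ext fun f => ?_
    exact congrArg (fun φ : FF N →ₐ[↥E] LaurentSeries ℂ => φ f) hxy
  haveI : Module.Free ↥E (FF N) := Module.Free.of_divisionRing ↥E (FF N)
  haveI : Module.Finite ↥E (FF N) := ‹FiniteDimensional ↥E (FF N)›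
  haveI : Finite (FF N →ₐ[↥E] LaurentSeries ℂ) := Finite.algHom ↥E (FF N) (LaurentSeries ℂ)
  calc Nat.card (XX N) ≤ Nat.card (FF N →ₐ[↥E] LaurentSeries ℂ) :=
        Nat.card_le_card_of_injective a ha
    _ ≤ Module.finrank ↥E (FF N) := card_algHom_le_finrank ↥E (FF N) (LaurentSeries ℂ)

/-- the local data over a finite point `a : ℚ̄` -/
def dataFin (a : Kbar) : LocalData Kbar (FF N) ℂ (XX N) (jF N - algebraMap Kbar (FF N) a) :=
  letI := Classical.propDecidable
  if h0 : a = 0 then
    A.dataOfPoint (a := a) (ε := ModularGroup.S * ModularGroup.T)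
      (by rw [h0, _root_.map_zero]; exact A.at0)
  else if h1 : a = 1728 then
    A.dataOfPoint (a := a) (ε := ModularGroup.S)
      (by
        have : ιK a = 1728 := by rw [h1]; exact map_ofNat ιK 1728
        rw [this]; exact A.at1728)
  else
    A.dataOfPoint (a := a) (ε := 1)
      (A.generic (ιK a)
        (fun h => h0 (ιK_injective (by rw [h, _root_.map_zero])))
        (fun h => h1 (ιK_injective (by rw [h]; exact (map_ofNat ιK 1728).symm))))

theorem dataFin_perm_generic (a : Kbar) (h0 : a ≠ 0) (h1 : a ≠ 1728) :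
    (A.dataFin a).perm = 1 := by
  unfold dataFin
  rw [dif_neg h0, dif_neg h1]
  show permOf N 1⁻¹ = 1
  rw [inv_one, permOf_one]

theorem dataFin_zero_perm :
    numOrbits (A.dataFin 0).perm = numOrbits (permOf N (ModularGroup.S * ModularGroup.T)) := by
  unfold dataFin
  rw [dif_pos rfl]
  show numOrbits (permOf N (ModularGroup.S * ModularGroup.T)⁻¹) = _
  rw [permOf_inv, numOrbits_inv]

theorem dataFin_1728_perm :
    numOrbits (A.dataFin 1728).perm = numOrbits (permOf N ModularGroup.S) := by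
  have h0 : (1728 : Kbar) ≠ 0 := by norm_num
  unfold dataFin
  rw [dif_neg h0, dif_pos rfl]
  show numOrbits (permOf N ModularGroup.S⁻¹) = _
  rw [permOf_inv, numOrbits_inv]

theorem dataInf_perm :
    numOrbits A.dataInf.perm = numOrbits (permOf N ModularGroup.T) := by
  show numOrbits (permOf N ModularGroup.T⁻¹) = _
  rw [permOf_inv, numOrbits_inv]

/-- **Assembly.**  All fields of helper984's `ModularPackage N` from the analytic core and the
degree bound. -/
theorem modularPackage_fields (A : AnalyticCore N)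
    (hfd : FiniteDimensional ↥(IntermediateField.adjoin Kbar {jF N}) (FF N))
    (hle : Module.finrank ↥(IntermediateField.adjoin Kbar {jF N}) (FF N) ≤ Nat.card (XX N)) :
    ∃ (dataFin : ∀ a : Kbar, LocalData Kbar (FF N) ℂ (XX N) (jF N - algebraMap Kbar (FF N) a))
      (dataInf : LocalData Kbar (FF N) ℂ (XX N) (jF N)⁻¹),
      Module.finrank ↥(IntermediateField.adjoin Kbar {jF N}) (FF N) = Nat.card (XX N) ∧
      (∀ a : Kbar, a ≠ 0 → a ≠ 1728 → (dataFin a).perm = 1) ∧
      numOrbits (dataFin 0).perm = numOrbits (permOf N (ModularGroup.S * ModularGroup.T)) ∧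
      numOrbits (dataFin 1728).perm = numOrbits (permOf N ModularGroup.S) ∧
      numOrbits dataInf.perm = numOrbits (permOf N ModularGroup.T) :=
  ⟨A.dataFin, A.dataInf, le_antisymm hle A.card_le_finrank, A.dataFin_perm_generic,
    A.dataFin_zero_perm, A.dataFin_1728_perm, A.dataInf_perm⟩

end AnalyticCore

end Fermat.Agent.S24.H997

end
end
-- ===== PACK-END S24/Mod/H997Core.lean

-- ===== PACK-BEGIN S30/H709/Occ.lean
section



/-!
# S30-OCC: every eigensystem of the Hecke algebra occurs in the period lattice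

Main result `exists_adic_eigen_lattice`.  Input: the Hecke-equivariance of the period map
(`PeriodHecke N fac`, a hypothesis) and a ring homomorphism `χ : heckeAlgebra N 2 S →+* A` to an
arbitrary domain `A` (for S30: `A = 𝒪'`; for S29: `A = F` a field of characteristic `p`).
Output: a lattice of integer-valued parabolic characters `c j : Γ₀(N) → ℤ` (`j : Fin r`), stable
under the cohomological Hecke operators with integer matrices `τ ℓ`, saturated and linearly
independent, and a nonzero vector `w : Fin r → A` such that `v = ∑ j, w j • c j` is an eigenvector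
with eigenvalues `χ (T_ℓ)`.
-/

set_option autoImplicit false

noncomputable section

namespace Fermat.Agent.S30.H709

open CongruenceSubgroup ModularCurve ModularCurve.Period
open scoped MatrixGroups

variable {N : ℕ} [NeZero N]

/-- The class of the period functional `λ_γ` in the period lattice. -/
def perCls (N : ℕ) [NeZero N] (γ : Gamma0 N) : perLattice N :=
  ⟨perFun N γ, perFun_mem_perLattice N γ⟩

theorem perCls_mul (γ δ : Gamma0 N) : perCls N (γ * δ) = perCls N γ + perCls N δ :=
  Subtype.ext (perFun_mul N γ δ)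

theorem perCls_one : perCls N 1 = 0 := Subtype.ext (perFun_one N)

theorem perCls_eq_zero_of_trace (γ : Gamma0 N)
    (hγ : ((γ : SL(2, ℤ)) : Matrix (Fin 2) (Fin 2) ℤ).trace ^ 2 = 4) : perCls N γ = 0 :=
  Subtype.ext (perFun_eq_zero_of_trace N γ hγ)

/-- The classes `perCls γ` generate the period lattice. -/
theorem perCls_induction {P : perLattice N → Prop} (h0 : P 0)
    (hadd : ∀ x y, P x → P y → P (x + y)) (hneg : ∀ x, P x → P (-x))
    (hcls : ∀ γ, P (perCls N γ)) (x : perLattice N) : P x := by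
  obtain ⟨x, hx⟩ := x
  induction hx using Submodule.span_induction with
  | mem y hy =>
    obtain ⟨γ, rfl⟩ := hy
    exact hcls γ
  | zero => exact h0
  | add y z hy hz ihy ihz => exact hadd ⟨y, hy⟩ ⟨z, hz⟩ ihy ihz
  | smul n y hy ihy =>
    have hsm : ∀ (k : ℕ), P (k • (⟨y, hy⟩ : perLattice N)) := by
      intro k
      induction k with
      | zero => rw [zero_smul]; exact h0
      | succ k ih => rw [succ_nsmul]; exact hadd _ _ ih ihy
    have key : P (n • (⟨y, hy⟩ : perLattice N)) := by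
      rcases Int.eq_nat_or_neg n with ⟨k, rfl | rfl⟩
      · rw [natCast_zsmul]; exact hsm k
      · rw [neg_smul, natCast_zsmul]; exact hneg _ (hsm k)
    exact key

theorem perRho_perCls {fac : ℕ → Gamma0 N → Multiset (Gamma0 N)}
    (hPH : PeriodHecke N fac) {S : Set ℕ} (hNS : ∀ q : ℕ, q.Prime → q ∣ N → q ∈ S)
    {ℓ : ℕ} (hℓ : ℓ.Prime) (hℓN : ¬ ℓ ∣ N) (hℓS : ℓ ∉ S) (γ : Gamma0 N) :
    perRho hPH hNS (CuspForm.heckeAlgebra.T hℓ hℓN hℓS) (perCls N γ)
      = ((fac ℓ γ).map (perCls N)).sum := by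
  apply Subtype.ext
  have h1 : ((perRho hPH hNS (CuspForm.heckeAlgebra.T hℓ hℓN hℓS) (perCls N γ) : perLattice N) :
      Module.Dual ℂ (CuspForm (Gamma0 N) 2))
      = Module.Dual.transpose (CuspForm.heckeTLin 2 hℓ hℓN) (perFun N γ) := rfl
  rw [h1, hPH.transpose_perFun hℓ hℓN γ]
  have h2 : ∀ m : Multiset (Gamma0 N),
      (((m.map (perCls N)).sum : perLattice N) : Module.Dual ℂ (CuspForm (Gamma0 N) 2))
        = (m.map (perFun N)).sum := by
    intro m
    induction m using Multiset.induction_on with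
    | empty => simp
    | cons a m ih =>
      rw [Multiset.map_cons, Multiset.sum_cons, Submodule.coe_add, ih, Multiset.map_cons,
        Multiset.sum_cons]
      rfl
  rw [h2]

/-- **S30-OCC** (adic `M4a`).  Every ring homomorphism `χ` from the Hecke algebra (away from a set
`S` containing the primes dividing `N`) to a domain `A` occurs in the lattice of integral parabolic
characters spanned by the period functionals. -/
theorem exists_adic_eigen_lattice {fac : ℕ → Gamma0 N → Multiset (Gamma0 N)}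
    (hPH : PeriodHecke N fac) {S : Set ℕ} (hNS : ∀ q : ℕ, q.Prime → q ∣ N → q ∈ S)
    {A : Type*} [CommRing A] [IsDomain A] (χ : CuspForm.heckeAlgebra N 2 S →+* A) :
    ∃ (r : ℕ) (c : Fin r → (Additive (Gamma0 N) →+ ℤ)) (τ : ℕ → Matrix (Fin r) (Fin r) ℤ)
      (w : Fin r → A),
      (∀ j, IsParabolicHom (Gamma0 N) (c j)) ∧
      (∀ (m : ℤ) (a : Fin r → ℤ),
        (∀ γ : Gamma0 N, m ∣ ∑ j, a j * c j (Additive.ofMul γ)) → ∀ j, m ∣ a j) ∧
      (∀ (ℓ : ℕ) (_ : ℓ.Prime) (_ : ¬ ℓ ∣ N) (_ : ℓ ∉ S) (j : Fin r) (γ : Gamma0 N),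
        ((fac ℓ γ).map fun δ => c j (Additive.ofMul δ)).sum
          = ∑ k, τ ℓ j k * c k (Additive.ofMul γ)) ∧
      w ≠ 0 ∧
      ∀ (ℓ : ℕ) (hℓ : ℓ.Prime) (hℓN : ¬ ℓ ∣ N) (hℓS : ℓ ∉ S) (k : Fin r),
        ∑ j, w j * ((τ ℓ j k : ℤ) : A) = χ (CuspForm.heckeAlgebra.T hℓ hℓN hℓS) * w k := by
  classical
  let b := Module.finBasis ℤ (perLattice N)
  let c : Fin (Module.finrank ℤ (perLattice N)) → (Additive (Gamma0 N) →+ ℤ) := fun j =>
    { toFun := fun γ => b.repr (perCls N (Additive.toMul γ)) j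
      map_zero' := by
        rw [toMul_zero, perCls_one, map_zero]
        rfl
      map_add' := fun γ δ => by
        rw [toMul_add, perCls_mul, map_add]
        rfl }
  have hc : ∀ j (γ : Gamma0 N), c j (Additive.ofMul γ) = b.repr (perCls N γ) j := fun _ _ => rfl
  let τ : ℕ → Matrix (Fin (Module.finrank ℤ (perLattice N)))
      (Fin (Module.finrank ℤ (perLattice N))) ℤ := fun ℓ =>
    if h : ℓ.Prime ∧ ¬ ℓ ∣ N ∧ ℓ ∉ S then
      Matrix.of fun j k => b.repr (perRho hPH hNS (CuspForm.heckeAlgebra.T h.1 h.2.1 h.2.2) (b k)) j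
    else 0
  have hτ : ∀ (ℓ : ℕ) (hℓ : ℓ.Prime) (hℓN : ¬ ℓ ∣ N) (hℓS : ℓ ∉ S) (j k),
      τ ℓ j k = b.repr (perRho hPH hNS (CuspForm.heckeAlgebra.T hℓ hℓN hℓS) (b k)) j := by
    intro ℓ hℓ hℓN hℓS j k
    simp only [τ, dif_pos (show ℓ.Prime ∧ ¬ ℓ ∣ N ∧ ℓ ∉ S from ⟨hℓ, hℓN, hℓS⟩), Matrix.of_apply]
  obtain ⟨w, hw0, hw⟩ := exists_eigen_coeffs (perRho hPH hNS) (perRho_injective hPH hNS) b χ
  refine ⟨Module.finrank ℤ (perLattice N), c, τ, w, ?_, ?_, ?_, hw0, ?_⟩
  · intro j γ hγ
    rw [hc, perCls_eq_zero_of_trace γ hγ, map_zero]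
    rfl
  · intro m a ha k
    let Λ : perLattice N →ₗ[ℤ] ℤ := ∑ j, a j • b.coord j
    have hΛ : ∀ x, Λ x = ∑ j, a j * b.repr x j := by
      intro x
      simp only [Λ, LinearMap.sum_apply, LinearMap.smul_apply, Module.Basis.coord_apply,
        smul_eq_mul]
    have hall : ∀ x : perLattice N, m ∣ Λ x := by
      intro x
      induction x using perCls_induction with
      | h0 => rw [map_zero]; exact dvd_zero m
      | hadd x y hx hy => rw [map_add]; exact dvd_add hx hy
      | hneg x hx => rw [map_neg]; exact (dvd_neg).mpr hx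
      | hcls γ => rw [hΛ]; exact ha γ
    have hk : Λ (b k) = a k := by
      rw [hΛ]
      simp [Module.Basis.repr_self, Finsupp.single_apply]
    rw [← hk]
    exact hall (b k)
  · intro ℓ hℓ hℓN hℓS j γ
    have h1 : ((fac ℓ γ).map fun δ => c j (Additive.ofMul δ)).sum
        = b.coord j (((fac ℓ γ).map (perCls N)).sum) := by
      rw [map_multiset_sum, Multiset.map_map]
      rfl
    rw [h1, ← perRho_perCls hPH hNS hℓ hℓN hℓS γ]
    conv_lhs => rw [← b.sum_repr (perCls N γ)]
    rw [map_sum, map_sum]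
    refine Finset.sum_congr rfl fun k _ => ?_
    rw [map_zsmul, map_zsmul, hτ ℓ hℓ hℓN hℓS, hc, smul_eq_mul, Module.Basis.coord_apply, mul_comm]
  · intro ℓ hℓ hℓN hℓS k
    rw [← hw (CuspForm.heckeAlgebra.T hℓ hℓN hℓS) k]
    refine Finset.sum_congr rfl fun j _ => ?_
    rw [hτ ℓ hℓ hℓN hℓS]

end Fermat.Agent.S30.H709

end
end
-- ===== PACK-END S30/H709/Occ.lean

-- ===== PACK-BEGIN S37/Core/Weak.lean
section


/-!
# S37 row (helper37): weak reduction data suffice

`IsWeakRed` drops the field `frob_ker` of `Fermat.Agent.S37.H99.IsRed` and asks for the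
Eichler-Shimura relation at ONE Frobenius element `σ₀` only.  From a weak reduction map `red`
we build `red' x = (n ↦ red (σ₀ ^ n • x))`, which satisfies all four fields of `IsRed`.
Consequently the geometric part of S37 never has to talk about a Frobenius action on the
special fibre.
-/

set_option autoImplicit false

noncomputable section

namespace Fermat.Agent.S37.Core

open ModularCurve ValuationSubring Fermat.Agent.S37.H99

section Abstract

variable {K L : Type*} [Field K] [Field L] [Algebra K L]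
variable (p : ℕ) (J : Type) [AddCommGroup J] [Module HeckeAlg J]
  [DistribMulAction (L ≃ₐ[K] L) J] [SMulCommClass (L ≃ₐ[K] L) HeckeAlg J]

/-- Weak reduction data at `(A, ℓ)` relative to ONE Frobenius element `σ₀`. -/
structure IsWeakRed (A : ValuationSubring L) (ℓ : ℕ) (hℓ : ℓ.Prime) (σ₀ : L ≃ₐ[K] L)
    {Y : Type*} [AddCommGroup Y] (red : J →+ Y) : Prop where
  frob : A.IsFrobeniusAt σ₀ ℓ
  inertia : ∀ τ ∈ A.inertiaSubgroupIn K, ∀ x : J, red (τ • x) = red x
  inj_torsion : ∀ x : J, (∃ n : ℕ, p ^ n • x = 0) → red x = 0 → x = 0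
  relation : ∀ x : J, red (σ₀ • σ₀ • x - heckeGen ⟨ℓ, hℓ⟩ • (σ₀ • x) + ℓ • x) = 0

variable {p J}

/-- the inertia subgroup is stable under conjugation by the decomposition group -/
theorem conj_mem_inertiaSubgroupIn {A : ValuationSubring L} {g τ : L ≃ₐ[K] L}
    (hg : g ∈ A.decompositionSubgroup K) (hτ : τ ∈ A.inertiaSubgroupIn K) :
    g * τ * g⁻¹ ∈ A.inertiaSubgroupIn K := by
  obtain ⟨t, ht, rfl⟩ := hτ
  let d : A.decompositionSubgroup K := ⟨g, hg⟩
  haveI : (A.inertiaSubgroup K).Normal := MonoidHom.normal_ker _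
  refine ⟨d * t * d⁻¹, Subgroup.Normal.conj_mem ‹_› t ht d, rfl⟩

/-- `red' x = (n ↦ red (σ₀ ^ n • x))` -/
def iterRed (σ₀ : L ≃ₐ[K] L) {Y : Type*} [AddCommGroup Y] (red : J →+ Y) : J →+ (ℕ → Y) where
  toFun x n := red (σ₀ ^ n • x)
  map_zero' := by
    funext n
    simp
  map_add' x y := by
    funext n
    simp [smul_add]

@[simp] theorem iterRed_apply (σ₀ : L ≃ₐ[K] L) {Y : Type*} [AddCommGroup Y] (red : J →+ Y)
    (x : J) (n : ℕ) : iterRed σ₀ red x n = red (σ₀ ^ n • x) := rfl

theorem IsWeakRed.red_pow_smul_inertia {A : ValuationSubring L} {ℓ : ℕ} {hℓ : ℓ.Prime}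
    {σ₀ : L ≃ₐ[K] L} {Y : Type*} [AddCommGroup Y] {red : J →+ Y}
    (h : IsWeakRed (K := K) p J A ℓ hℓ σ₀ red) (n : ℕ) {τ : L ≃ₐ[K] L}
    (hτ : τ ∈ A.inertiaSubgroupIn K) (x : J) :
    red (σ₀ ^ n • τ • x) = red (σ₀ ^ n • x) := by
  have hg : σ₀ ^ n ∈ A.decompositionSubgroup K :=
    pow_mem h.frob.mem_decompositionSubgroup n
  have hconj := conj_mem_inertiaSubgroupIn hg hτ
  have e : σ₀ ^ n • τ • x = (σ₀ ^ n * τ * (σ₀ ^ n)⁻¹) • (σ₀ ^ n • x) := by
    rw [← mul_smul, ← mul_smul, inv_mul_cancel_right]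
  rw [e, h.inertia _ hconj]

theorem IsWeakRed.red_pow_smul_frob {A : ValuationSubring L} {ℓ : ℕ} {hℓ : ℓ.Prime}
    {σ₀ : L ≃ₐ[K] L} {Y : Type*} [AddCommGroup Y] {red : J →+ Y}
    (h : IsWeakRed (K := K) p J A ℓ hℓ σ₀ red) (n : ℕ) {σ : L ≃ₐ[K] L}
    (hσ : A.IsFrobeniusAt σ ℓ) (x : J) :
    red (σ₀ ^ n • σ • x) = red (σ₀ ^ (n + 1) • x) := by
  have hτ := inv_mul_mem_inertiaSubgroupIn h.frob hσ
  have e : σ₀ ^ n • σ • x = σ₀ ^ (n + 1) • (σ₀⁻¹ * σ) • x := by
    rw [← mul_smul, ← mul_smul, pow_succ, mul_assoc, mul_inv_cancel_left]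
  rw [e, h.red_pow_smul_inertia (n + 1) hτ]

/-- **Weak reduction data suffice.** -/
theorem IsWeakRed.isRed_iterRed {A : ValuationSubring L} {ℓ : ℕ} {hℓ : ℓ.Prime}
    {σ₀ : L ≃ₐ[K] L} {Y : Type*} [AddCommGroup Y] {red : J →+ Y}
    (h : IsWeakRed (K := K) p J A ℓ hℓ σ₀ red) :
    IsRed (K := K) p J A ℓ hℓ (iterRed σ₀ red) where
  inertia τ hτ x := by
    funext n
    exact h.red_pow_smul_inertia n hτ x
  frob_ker σ hσ x hx := by
    funext n
    rw [iterRed_apply, h.red_pow_smul_frob n hσ]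
    exact congrFun hx (n + 1)
  inj_torsion x hx hx0 := by
    refine h.inj_torsion x hx ?_
    have := congrFun hx0 0
    simpa using this
  relation σ hσ x := by
    funext n
    have hgal : ∀ (g : L ≃ₐ[K] L) (t : HeckeAlg) (y : J), t • (g • y) = g • (t • y) :=
      fun g t y => (smul_comm g t y).symm
    have e2 : σ₀ • σ₀ • (σ₀ ^ n • x) = σ₀ ^ (n + 1 + 1) • x := by
      rw [smul_smul, smul_smul, pow_succ' σ₀ (n + 1), pow_succ' σ₀ n, mul_assoc]
    have e1 : σ₀ • (σ₀ ^ n • x) = σ₀ ^ (n + 1) • x := by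
      rw [smul_smul, pow_succ' σ₀ n]
    have h1 : red (σ₀ ^ n • σ • σ • x) = red (σ₀ • σ₀ • (σ₀ ^ n • x)) := by
      rw [e2, h.red_pow_smul_frob n hσ (σ • x), h.red_pow_smul_frob (n + 1) hσ x]
    have h2 : red (σ₀ ^ n • (heckeGen ⟨ℓ, hℓ⟩ • (σ • x))) =
        red (heckeGen ⟨ℓ, hℓ⟩ • (σ₀ • (σ₀ ^ n • x))) := by
      rw [e1, hgal σ (heckeGen ⟨ℓ, hℓ⟩) x, h.red_pow_smul_frob n hσ (heckeGen ⟨ℓ, hℓ⟩ • x),
        hgal (σ₀ ^ (n + 1)) (heckeGen ⟨ℓ, hℓ⟩) x]
    have h3 : red (σ₀ ^ n • ((ℓ : ℕ) • x)) = red ((ℓ : ℕ) • (σ₀ ^ n • x)) := by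
      rw [smul_comm]
    have := h.relation (σ₀ ^ n • x)
    rw [map_add, map_sub] at this
    show red (σ₀ ^ n • (σ • σ • x - heckeGen ⟨ℓ, hℓ⟩ • (σ • x) + ℓ • x)) = 0
    rw [smul_add, smul_sub, map_add, map_sub, h1, h2, h3]
    exact this

variable (p) in
/-- **R1 at one place, weak form.** -/
theorem exists_specialization_of_isWeakRed (A : ValuationSubring L) (ℓ : ℕ) (hℓ : ℓ.Prime)
    (σ₀ : L ≃ₐ[K] L) {Y : Type*} [AddCommGroup Y] (red : J →+ Y)
    (hred : IsWeakRed (K := K) p J A ℓ hℓ σ₀ red) :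
    ∃ (J' : Type) (_ : AddCommGroup J') (_ : Module HeckeAlg J') (sp : J →+ J')
      (F : J' →+ J'),
      IsSpecialization (K := K) p J J' A ℓ sp F ∧ SpecialFibreRelation J' ℓ hℓ F :=
  exists_specialization_of_isRed p A ℓ hℓ ⟨σ₀, hred.frob⟩ (iterRed σ₀ red) hred.isRed_iterRed

end Abstract

end Fermat.Agent.S37.Core

end
end
-- ===== PACK-END S37/Core/Weak.lean

-- ===== PACK-BEGIN S29/H942/MeroRoot.lean
section


/-!
# `p`-th roots of meromorphic functions on the upper half plane

Main result: `exists_meromorphic_root_upperHalfPlane`. If `f` is meromorphic on the upper half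
plane `{z | 0 < z.im}`, nowhere locally zero, and all its orders are divisible by `p ≠ 0`, then
there is a function `h`, meromorphic (in normal form) on the upper half plane, with `h ^ p = f`
away from a discrete set.  The root is unique up to a `p`-th root of unity
(`IsNFRootOn.exists_eq_mul`).
-/

set_option autoImplicit false

noncomputable section

open Filter Topology Set Complex MeromorphicOn Function Metric

namespace Fermat.Agent.S29.H942

/-- The upper half plane as a subset of `ℂ`. -/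
def uhpSet : Set ℂ := {z : ℂ | 0 < z.im}

lemma mem_uhpSet {z : ℂ} : z ∈ uhpSet ↔ 0 < z.im := Iff.rfl

lemma isOpen_uhpSet : IsOpen uhpSet := isOpen_lt continuous_const Complex.continuous_im

/-- The centres of the exhausting balls. -/
def exhCenter (n : ℕ) : ℂ := ((n : ℝ) + 1 : ℝ) * I

/-- The radii of the exhausting balls. -/
def exhRadius (n : ℕ) : ℝ := (n : ℝ) + 1 - 1 / ((n : ℝ) + 2)

lemma exhRadius_pos (n : ℕ) : 0 < exhRadius n := by
  unfold exhRadius
  have h1 : (0 : ℝ) ≤ n := Nat.cast_nonneg n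
  have h2 : 1 / ((n : ℝ) + 2) < 1 := by
    rw [div_lt_one (by linarith)]
    linarith
  linarith

lemma exhRadius_lt (n : ℕ) : exhRadius n < (n : ℝ) + 1 := by
  unfold exhRadius
  have h1 : (0 : ℝ) ≤ n := Nat.cast_nonneg n
  have h2 : 0 < 1 / ((n : ℝ) + 2) := by positivity
  linarith

lemma exhCenter_im (n : ℕ) : (exhCenter n).im = (n : ℝ) + 1 := by
  simp [exhCenter]

lemma exhCenter_re (n : ℕ) : (exhCenter n).re = 0 := by
  simp [exhCenter]

lemma closedBall_exh_subset (n : ℕ) : closedBall (exhCenter n) (exhRadius n) ⊆ uhpSet := by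
  intro z hz
  rw [mem_closedBall, dist_eq_norm] at hz
  have h1 : |(z - exhCenter n).im| ≤ ‖z - exhCenter n‖ := Complex.abs_im_le_norm _
  have h2 : (z - exhCenter n).im = z.im - ((n : ℝ) + 1) := by
    rw [Complex.sub_im, exhCenter_im]
  have h3 := (abs_le.1 (h1.trans hz)).1
  rw [h2] at h3
  have h4 := exhRadius_lt n
  rw [mem_uhpSet]
  linarith

lemma ball_exh_subset (n : ℕ) : ball (exhCenter n) (exhRadius n) ⊆ uhpSet :=
  ball_subset_closedBall.trans (closedBall_exh_subset n)

lemma ball_exh_mono : Monotone fun n => ball (exhCenter n) (exhRadius n) := by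
  refine monotone_nat_of_le_succ fun n => ?_
  apply ball_subset_ball'
  have hd : dist (exhCenter n) (exhCenter (n + 1)) = 1 := by
    rw [dist_eq_norm]
    have : exhCenter n - exhCenter (n + 1) = -I := by
      simp only [exhCenter]
      push_cast
      ring
    rw [this, norm_neg, Complex.norm_I]
  rw [hd]
  unfold exhRadius
  have h1 : (0 : ℝ) ≤ n := Nat.cast_nonneg n
  have h2 : 1 / (((n + 1 : ℕ) : ℝ) + 2) ≤ 1 / ((n : ℝ) + 2) := by
    apply one_div_le_one_div_of_le (by linarith)
    push_cast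
    linarith
  push_cast at h2 ⊢
  linarith

lemma iUnion_ball_exh : (⋃ n, ball (exhCenter n) (exhRadius n)) = uhpSet := by
  apply Subset.antisymm
  · exact iUnion_subset fun n => ball_exh_subset n
  · intro z hz
    rw [mem_uhpSet] at hz
    obtain ⟨n, hn⟩ := exists_nat_gt ((z.re ^ 2 + z.im ^ 2 + 2) / (2 * z.im))
    refine mem_iUnion.2 ⟨n, ?_⟩
    rw [mem_ball, dist_eq_norm]
    have hR : (0 : ℝ) < (n : ℝ) + 1 := by positivity
    have hr := exhRadius_pos n
    have hlt : (z.re ^ 2 + z.im ^ 2 + 2) < 2 * z.im * ((n : ℝ) + 1) := by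
      have := (div_lt_iff₀ (by linarith : (0 : ℝ) < 2 * z.im)).1 hn
      nlinarith
    have hsq : ‖z - exhCenter n‖ ^ 2 < exhRadius n ^ 2 := by
      have h1 : ‖z - exhCenter n‖ ^ 2 = z.re ^ 2 + (z.im - ((n : ℝ) + 1)) ^ 2 := by
        rw [Complex.sq_norm, Complex.normSq_apply, Complex.sub_re, Complex.sub_im,
          exhCenter_re, exhCenter_im]
        ring
      rw [h1]
      have h2 : exhRadius n ^ 2 ≥ ((n : ℝ) + 1) ^ 2 - 2 := by
        unfold exhRadius
        have h0 : (0 : ℝ) ≤ n := Nat.cast_nonneg n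
        have h3 : 0 < 1 / ((n : ℝ) + 2) := by positivity
        have h4 : ((n : ℝ) + 1) * (1 / ((n : ℝ) + 2)) ≤ 1 := by
          rw [mul_one_div, div_le_one (by linarith)]
          linarith
        nlinarith [sq_nonneg (1 / ((n : ℝ) + 2))]
      nlinarith
    exact lt_of_pow_lt_pow_left₀ 2 hr.le hsq

/-- **Meromorphic `p`-th roots on the upper half plane** (normal form version). -/
theorem exists_isNFRootOn_upperHalfPlane {f : ℂ → ℂ} (hf : MeromorphicOn f uhpSet)
    (hford : ∀ z ∈ uhpSet, meromorphicOrderAt f z ≠ ⊤) {p : ℕ} (hp : p ≠ 0)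
    (hdiv : ∀ z ∈ uhpSet, (p : ℤ) ∣ (meromorphicOrderAt f z).untop₀) :
    ∃ h : ℂ → ℂ, IsNFRootOn h f uhpSet p := by
  have := exists_isNFRootOn_iUnion (f := f) hp (fun n => ball (exhCenter n) (exhRadius n))
    (fun n => isOpen_ball)
    (fun n => isSimplyConnected_of_convex (convex_ball _ _)
      ⟨exhCenter n, mem_ball_self (exhRadius_pos n)⟩)
    ball_exh_mono
    (fun n => hf.mono_set (ball_exh_subset n))
    (fun n x hx => hford x (ball_exh_subset n hx))
    (fun n => divisor_support_finite_of_subset (hf.mono_set (closedBall_exh_subset n))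
      (isCompact_closedBall _ _) ball_subset_closedBall)
    (fun n x hx => hdiv x (ball_exh_subset n hx))
  rwa [iUnion_ball_exh] at this

/-- Roots in normal form are roots modulo equality on codiscrete sets. -/
lemma IsNFRootOn.eventuallyEq_codiscreteWithin {h f : ℂ → ℂ} {V : Set ℂ} {p : ℕ}
    (hh : IsNFRootOn h f V p) : (h ^ p) =ᶠ[codiscreteWithin V] f := by
  rw [EventuallyEq, eventually_iff, mem_codiscreteWithin_iff_forall_mem_nhdsNE]
  intro x hx
  filter_upwards [hh.2 x hx] with y hy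
  exact Or.inl hy

/-- **Meromorphic `p`-th roots on the upper half plane.** -/
theorem exists_meromorphic_root_upperHalfPlane {f : ℂ → ℂ}
    (hf : MeromorphicOn f {z : ℂ | 0 < z.im})
    (hford : ∀ z : ℂ, 0 < z.im → meromorphicOrderAt f z ≠ ⊤) {p : ℕ} (hp : p ≠ 0)
    (hdiv : ∀ z : ℂ, 0 < z.im → (p : ℤ) ∣ (meromorphicOrderAt f z).untop₀) :
    ∃ h : ℂ → ℂ, MeromorphicNFOn h {z : ℂ | 0 < z.im} ∧
      (∀ z : ℂ, 0 < z.im → (h ^ p) =ᶠ[𝓝[≠] z] f) ∧
      (h ^ p) =ᶠ[codiscreteWithin {z : ℂ | 0 < z.im}] f := by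
  obtain ⟨h, hh⟩ := exists_isNFRootOn_upperHalfPlane (f := f) hf hford hp hdiv
  exact ⟨h, hh.1, hh.2, hh.eventuallyEq_codiscreteWithin⟩

/-- **Uniqueness of meromorphic `p`-th roots on the upper half plane** up to a root of unity. -/
theorem meromorphic_root_upperHalfPlane_unique {f h₁ h₂ : ℂ → ℂ}
    (hford : ∀ z : ℂ, 0 < z.im → meromorphicOrderAt f z ≠ ⊤) {p : ℕ} (hp : p ≠ 0)
    (h₁NF : MeromorphicNFOn h₁ {z : ℂ | 0 < z.im})
    (h₁pow : ∀ z : ℂ, 0 < z.im → (h₁ ^ p) =ᶠ[𝓝[≠] z] f)
    (h₂NF : MeromorphicNFOn h₂ {z : ℂ | 0 < z.im})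
    (h₂pow : ∀ z : ℂ, 0 < z.im → (h₂ ^ p) =ᶠ[𝓝[≠] z] f) :
    ∃ ζ : ℂ, ζ ^ p = 1 ∧ ∀ z : ℂ, 0 < z.im → h₂ z = ζ * h₁ z := by
  have hconv : Convex ℝ uhpSet := by
    have : uhpSet = Complex.im ⁻¹' (Ioi 0) := rfl
    rw [this]
    exact (convex_Ioi (0 : ℝ)).is_linear_preimage Complex.imLm.isLinear
  exact IsNFRootOn.exists_eq_mul hp isOpen_uhpSet hconv.isPreconnected hford
    ⟨h₁NF, h₁pow⟩ ⟨h₂NF, h₂pow⟩

end Fermat.Agent.S29.H942

end
end
-- ===== PACK-END S29/H942/MeroRoot.lean

-- ===== PACK-BEGIN S28/H326/Conj.lean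
section
/-
S28 / helper326: the conjugates `y i` of `j(t^(p²))`; power sums; lifting to `ℤ[Y][X]`.
-/



set_option autoImplicit false
set_option linter.unusedSectionVars false

noncomputable section

namespace Fermat.Agent.S28.H326

open ModularCurve HahnSeries

variable (p : ℕ) [NeZero p]

/-! ### The conjugates of `j` -/

/-- `j(t^(p²))` and `j(ζ^b t)` -/
def y : Option (Fin p) → LaurentSeries ℂ
  | none => qExpand ℂ p (jP p)
  | some b => HahnSeries.C ((zeta p ^ (b : ℕ))⁻¹) * HahnSeries.single (-1 : ℤ) 1 *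
      cB p b (toC jNum)

theorem jC_mul_ofPS_DC : jqModC ℂ * ofPS DC = ofPS EC := by
  have := congrArg kap jq_mul_deltaZ
  rwa [_root_.map_mul, coeffMap_jqModC, deltaZ, kap_ofPS, kap_ofPS] at this

theorem y_mul_conj (i : Option (Fin p)) : y p i * conj p i DC = conj p i EC := by
  cases i with
  | none =>
    simp only [y, conj, cInf, cBase, RingHom.comp_apply, jP]
    rw [← _root_.map_mul, ← _root_.map_mul, jC_mul_ofPS_DC]
  | some b =>
    simp only [y, conj]
    have hE : EC = toC jNum * UC := by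
      rw [EC, UC, ← _root_.map_mul, jNum_mul_unit]
    rw [DC_eq, hE, _root_.map_mul, _root_.map_mul]
    have hX : cB p b PowerSeries.X =
        HahnSeries.C (zeta p ^ (b : ℕ)) * HahnSeries.single (1 : ℤ) 1 := by
      rw [cB, RingHom.comp_apply, PowerSeries.rescale_X, _root_.map_mul, HahnSeries.ofPowerSeries_C,
        HahnSeries.ofPowerSeries_X]
    rw [hX]
    have h1 : HahnSeries.C ((zeta p ^ (b : ℕ))⁻¹) * HahnSeries.C (zeta p ^ (b : ℕ)) =
        (1 : LaurentSeries ℂ) := by
      rw [← _root_.map_mul, inv_mul_cancel₀ (pow_ne_zero _ (zeta_ne_zero p)), _root_.map_one]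
    have h2 : HahnSeries.single (-1 : ℤ) (1 : ℂ) * HahnSeries.single (1 : ℤ) 1 = 1 := by
      rw [HahnSeries.single_mul_single]
      simp
    calc HahnSeries.C ((zeta p ^ (b : ℕ))⁻¹) * HahnSeries.single (-1 : ℤ) 1 *
          cB p b (toC jNum) * (HahnSeries.C (zeta p ^ (b : ℕ)) * HahnSeries.single (1 : ℤ) 1 *
            cB p b UC)
        = (HahnSeries.C ((zeta p ^ (b : ℕ))⁻¹) * HahnSeries.C (zeta p ^ (b : ℕ))) *
            (HahnSeries.single (-1 : ℤ) (1 : ℂ) * HahnSeries.single (1 : ℤ) 1) *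
            (cB p b (toC jNum) * cB p b UC) := by ring
      _ = _ := by rw [h1, h2, one_mul, one_mul]

theorem y_mul_w (i : Option (Fin p)) : y p i * w p i = Y p i := by
  rw [w, Y, ← y_mul_conj p i]
  ring

/-! ### Power sums of the `y i` -/

/-- polynomials over `ℂ((t))` with coefficients in `ℚ[j(t^p)]` -/
abbrev BPoly : Subsemiring (Polynomial (LaurentSeries ℂ)) :=
  Polynomial.lifts ((Bsub p).val : (Bsub p) →+* LaurentSeries ℂ)

theorem mem_BPoly_iff (F : Polynomial (LaurentSeries ℂ)) :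
    F ∈ BPoly p ↔ ∀ n, F.coeff n ∈ Bsub p := by
  rw [Polynomial.lifts_iff_coeff_lifts]
  constructor
  · intro h n
    obtain ⟨x, hx⟩ := h n
    rw [← hx]
    exact x.2
  · intro h n
    exact ⟨⟨F.coeff n, h n⟩, rfl⟩

theorem sum_Y_pow_mul_eval_mem (h : HeckeInput p) (a : ℕ) {F : Polynomial (LaurentSeries ℂ)}
    (hF : F ∈ BPoly p) : ∑ i, Y p i ^ a * F.eval (w p i) ∈ Bsub p := by
  have h1 : ∀ i, Y p i ^ a * F.eval (w p i) =
      ∑ r ∈ Finset.range (F.natDegree + 1), F.coeff r * (Y p i ^ a * w p i ^ r) := by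
    intro i
    rw [Polynomial.eval_eq_sum_range, Finset.mul_sum]
    exact Finset.sum_congr rfl fun r _ => by ring
  simp only [h1]
  rw [Finset.sum_comm]
  refine Subalgebra.sum_mem _ fun r _ => ?_
  rw [← Finset.mul_sum]
  obtain ⟨P, hP⟩ := sum_Y_pow_mul_w_pow p h a r
  rw [hP]
  exact Subalgebra.mul_mem _ ((mem_BPoly_iff p F).mp hF r) (theta_mem_Bsub p P)

/-- the polynomial `G` with `w i * G(w i) = 1` -/
theorem exists_inv_poly (h : HeckeInput p) :
    ∃ G : Polynomial (LaurentSeries ℂ), G ∈ BPoly p ∧ ∀ i, w p i * G.eval (w p i) = 1 := by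
  obtain ⟨c, hc0, hc⟩ := exists_WPoly_coeff_zero p h
  refine ⟨Polynomial.C (algebraMap ℚ (LaurentSeries ℂ) (-c⁻¹)) * (WPoly p).divX, ?_, ?_⟩
  · rw [mem_BPoly_iff]
    intro n
    rw [Polynomial.coeff_C_mul, Polynomial.coeff_divX]
    exact Subalgebra.mul_mem _ (Subalgebra.algebraMap_mem _ _) (WPoly_coeff_mem p h _)
  · intro i
    have h1 := WPoly_eval p i
    rw [← Polynomial.divX_mul_X_add (WPoly p), Polynomial.eval_add, Polynomial.eval_mul,
      Polynomial.eval_X, Polynomial.eval_C, hc] at h1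
    rw [Polynomial.eval_mul, Polynomial.eval_C]
    have h2 : (WPoly p).divX.eval (w p i) * w p i = -algebraMap ℚ (LaurentSeries ℂ) c :=
      eq_neg_of_add_eq_zero_left h1
    calc w p i * (algebraMap ℚ (LaurentSeries ℂ) (-c⁻¹) * (WPoly p).divX.eval (w p i))
        = algebraMap ℚ (LaurentSeries ℂ) (-c⁻¹) * ((WPoly p).divX.eval (w p i) * w p i) := by ring
      _ = algebraMap ℚ (LaurentSeries ℂ) (-c⁻¹) * (-algebraMap ℚ (LaurentSeries ℂ) c) := by rw [h2]
      _ = algebraMap ℚ (LaurentSeries ℂ) (-c⁻¹ * -c) := by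
        rw [_root_.map_mul, _root_.map_neg (algebraMap ℚ (LaurentSeries ℂ)) c]
      _ = 1 := by
        rw [neg_mul_neg, inv_mul_cancel₀ hc0, _root_.map_one]

theorem sum_y_pow_mem (h : HeckeInput p) (m : ℕ) : ∑ i, y p i ^ m ∈ Bsub p := by
  obtain ⟨G, hG, hGw⟩ := exists_inv_poly p h
  have h1 : ∀ i, y p i ^ m = Y p i ^ m * (G ^ m).eval (w p i) := by
    intro i
    rw [Polynomial.eval_pow, ← mul_pow, ← y_mul_w, mul_assoc, hGw, mul_one]
  simp only [h1]
  exact sum_Y_pow_mul_eval_mem p h m (Subsemiring.pow_mem _ hG m)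

/-! ### The polynomial `Φ` -/

/-- `Φ = ∏ (X - y i)` over `ℂ((t))` -/
def PhiPoly : Polynomial (LaurentSeries ℂ) := ∏ i, (Polynomial.X - Polynomial.C (y p i))

theorem PhiPoly_monic : (PhiPoly p).Monic :=
  Polynomial.monic_prod_of_monic _ _ fun _ _ => Polynomial.monic_X_sub_C _

theorem PhiPoly_natDegree : (PhiPoly p).natDegree = p + 1 := by
  rw [PhiPoly, Polynomial.natDegree_prod_of_monic _ _ fun i _ => Polynomial.monic_X_sub_C _]
  simp

theorem PhiPoly_coeff_mem (h : HeckeInput p) (n : ℕ) : (PhiPoly p).coeff n ∈ Bsub p :=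
  prod_X_sub_C_mem_of_psum_mem (Bsub p) (y p) (fun m _ => sum_y_pow_mem p h m) n

theorem PhiPoly_eval (i : Option (Fin p)) : (PhiPoly p).eval (y p i) = 0 := by
  rw [PhiPoly, Polynomial.eval_prod]
  exact Finset.prod_eq_zero (Finset.mem_univ i) (by simp)

/-! ### Integrality -/

theorem prod_X_sub_C_coeff_mem_subring (S : Subring (LaurentSeries ℂ)) {ι : Type*} [Fintype ι]
    (z : ι → LaurentSeries ℂ) (hz : ∀ i, z i ∈ S) (n : ℕ) :
    (∏ i, (Polynomial.X - Polynomial.C (z i))).coeff n ∈ S := by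
  have : (∏ i, (Polynomial.X - Polynomial.C (z i))) =
      (∏ i, (Polynomial.X - Polynomial.C (⟨z i, hz i⟩ : S))).map S.subtype := by
    rw [Polynomial.map_prod]
    refine Finset.prod_congr rfl fun i _ => ?_
    simp
  rw [this, Polynomial.coeff_map]
  exact Subtype.property _

theorem C_mem_IntCoeff {c : ℂ} (hc : IsIntegral ℤ c) : HahnSeries.C c ∈ IntCoeff := fun n => by
  show IsIntegral ℤ ((HahnSeries.single 0 c).coeff n)
  rcases eq_or_ne n 0 with rfl | hn
  · rw [HahnSeries.coeff_single_same]; exact hc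
  · rw [HahnSeries.coeff_single_of_ne hn]; exact isIntegral_zero

theorem single_one_mem_IntCoeff (e : ℤ) : HahnSeries.single e (1 : ℂ) ∈ IntCoeff := fun n => by
  rcases eq_or_ne n e with rfl | hn
  · rw [HahnSeries.coeff_single_same]; exact isIntegral_one
  · rw [HahnSeries.coeff_single_of_ne hn]; exact isIntegral_zero

theorem conj_mem_IntCoeff (i : Option (Fin p)) (g : PowerSeries ℤ) :
    conj p i (toC g) ∈ IntCoeff := by
  cases i with
  | none =>
    simp only [conj, cInf, cBase, RingHom.comp_apply]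
    rw [← kap_ofPS]
    exact qExpand_mem_IntCoeff p (qExpand_mem_IntCoeff p (kap_mem_IntCoeff _))
  | some b => exact cB_mem_IntCoeff p b g

theorem scal_mem_IntCoeff (i : Option (Fin p)) : scal p i ∈ IntCoeff := by
  cases i with
  | none => exact Subring.pow_mem _ (natCast_mem _ p) 12
  | some b => exact Subring.one_mem _

theorem w_mem_IntCoeff (i : Option (Fin p)) : w p i ∈ IntCoeff :=
  Subring.mul_mem _ (Subring.mul_mem _ (scal_mem_IntCoeff p i) (conj_mem_IntCoeff p i DZ))
    (delInv_mem_IntCoeff p)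

theorem zeta_pow_inv_isIntegral (b : ℕ) : IsIntegral ℤ ((zeta p ^ b)⁻¹) := by
  have h0 : zeta p ^ (p - 1) * zeta p = 1 := by
    rw [← pow_succ, Nat.sub_add_cancel (Nat.pos_of_ne_zero (NeZero.ne p)), zeta_pow_self]
  have h : (zeta p ^ b)⁻¹ = (zeta p ^ (p - 1)) ^ b := by
    rw [← inv_pow]
    congr 1
    exact (eq_inv_of_mul_eq_one_left h0).symm
  rw [h]
  exact ((zeta_isIntegral p).pow _).pow _

theorem y_mem_IntCoeff (i : Option (Fin p)) : y p i ∈ IntCoeff := by
  cases i with
  | none =>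
    simp only [y]
    have := jP_pow_mem_IntCoeff p 1
    rw [pow_one] at this
    exact qExpand_mem_IntCoeff p this
  | some b =>
    simp only [y]
    exact Subring.mul_mem _ (Subring.mul_mem _ (C_mem_IntCoeff (zeta_pow_inv_isIntegral p b))
      (single_one_mem_IntCoeff _)) (cB_mem_IntCoeff p b jNum)

/-! ### Lifting to `ℤ[Y][X]` -/

theorem exists_lift (F : Polynomial (LaurentSeries ℂ)) (hmonic : F.Monic)
    (hB : ∀ n, F.coeff n ∈ Bsub p) (hI : ∀ n, F.coeff n ∈ IntCoeff) :
    ∃ Φ : Polynomial (Polynomial ℤ), Φ.Monic ∧ Φ.natDegree = F.natDegree ∧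
      Φ.map (theta p) = F := by
  have hl : F ∈ Polynomial.lifts (theta p) := by
    rw [Polynomial.lifts_iff_coeff_lifts]
    intro n
    obtain ⟨Q, hQ⟩ := hB n
    have hQ' : Polynomial.aeval (jP p) Q = F.coeff n := hQ
    obtain ⟨Q', hQ''⟩ := exists_int_poly_of_integral p Q (hQ' ▸ hI n)
    exact ⟨Q', by rw [theta_eq_aeval, hQ'', hQ']⟩
  obtain ⟨Φ, h1, h2, h3⟩ := Polynomial.lifts_and_natDegree_eq_and_monic hl hmonic
  exact ⟨Φ, h3, h2, h1⟩

/-- **The unit polynomial over `ℤ[j]`**. -/
theorem exists_W (h : HeckeInput p) :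
    ∃ W : Polynomial (Polynomial ℤ), W.Monic ∧ W.natDegree = p + 1 ∧
      W.map (theta p) = WPoly p := by
  obtain ⟨W, h1, h2, h3⟩ := exists_lift p (WPoly p) (WPoly_monic p) (WPoly_coeff_mem p h)
    (fun n => prod_X_sub_C_coeff_mem_subring IntCoeff _ (w_mem_IntCoeff p) n)
  exact ⟨W, h1, h2.trans (WPoly_natDegree p), h3⟩

/-- **The modular polynomial over `ℤ[j]`**. -/
theorem exists_Phi (h : HeckeInput p) :
    ∃ Φ : Polynomial (Polynomial ℤ), Φ.Monic ∧ Φ.natDegree = p + 1 ∧
      Φ.map (theta p) = PhiPoly p := by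
  obtain ⟨Φ, h1, h2, h3⟩ := exists_lift p (PhiPoly p) (PhiPoly_monic p) (PhiPoly_coeff_mem p h)
    (fun n => prod_X_sub_C_coeff_mem_subring IntCoeff _ (y_mem_IntCoeff p) n)
  exact ⟨Φ, h1, h2.trans (PhiPoly_natDegree p), h3⟩

end Fermat.Agent.S28.H326

end
end
-- ===== PACK-END S28/H326/Conj.lean

-- ===== PACK-BEGIN S18/H456/ModCoord.lean
section


/-!
# S18 / MOD assembly (helper456): `E_closed_in_F`, `x_mem`, `x_transcendental`
-/

set_option autoImplicit false

noncomputable section

namespace Fermat.Agent.S18.H456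

open ModularCurve AlgebraicCurve HahnSeries Fermat.Agent.S18 Fermat.Agent.S18.Mod

variable (M : ℕ) (A : ValuationSubring Qb) (E : IntermediateField ℚ Qb)

/-- `Q̄ ≃ Lc`. -/
def LcEquiv : Qb ≃+* Lc M :=
  RingEquiv.ofBijective (algebraMap Qb (Om M)).rangeRestrictField
    ⟨(algebraMap Qb (Om M)).rangeRestrictField.injective, fun ⟨_, c, hc⟩ => ⟨c, Subtype.ext hc⟩⟩

theorem cst_LcEquiv_symm (y : Lc M) : cst M ((LcEquiv M).symm y) = (y : Om M) := by
  have h := (LcEquiv M).apply_symm_apply y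
  exact congrArg Subtype.val h

/-- An element of `Ω` which is algebraic over a field of constants is constant. -/
theorem exists_cst_of_isAlgebraic (K₀ : Subfield (Om M)) (hK : K₀ ≤ Lc M) (f : Om M)
    (hf : IsAlgebraic K₀ f) : ∃ c : Qb, f = cst M c := by
  obtain ⟨p, hp0, hp⟩ := hf
  let ψ : K₀ →+* Qb := ((LcEquiv M).symm : Lc M →+* Qb).comp (Subfield.inclusion hK)
  have hψ : ∀ y : K₀, cst M (ψ y) = (y : Om M) := fun y =>
    cst_LcEquiv_symm M (Subfield.inclusion hK y)
  let val : Om M →+* LaurentSeries Qb := (modularFunctionFieldBar M).val.toRingHom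
  have hcomp : val.comp (algebraMap K₀ (Om M)) =
      (algebraMap Qb (LaurentSeries Qb)).comp ψ := by
    ext1 y
    show ((algebraMap K₀ (Om M) y : Om M) : LaurentSeries Qb) =
      algebraMap Qb (LaurentSeries Qb) (ψ y)
    have : (algebraMap K₀ (Om M) y : Om M) = cst M (ψ y) := (hψ y).symm
    rw [this]
    rfl
  have halg : IsAlgebraic Qb (f : LaurentSeries Qb) := by
    refine ⟨p.map ψ, (Polynomial.map_ne_zero_iff ψ.injective).2 hp0, ?_⟩
    rw [Polynomial.aeval_def, Polynomial.eval₂_map, ← hcomp]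
    have h := Polynomial.hom_eval₂ p (algebraMap K₀ (Om M)) val f
    rw [Polynomial.aeval_def] at hp
    rw [hp, _root_.map_zero] at h
    exact h.symm
  obtain ⟨c, hc⟩ := laurent_const_of_isAlgebraic _ halg
  exact ⟨c, Subtype.ext hc⟩

theorem field_E_closed_in_F : ∀ f ∈ Fc M E, IsAlgebraic (Ec M E) f → f ∈ Ec M E := by
  intro f hf halg
  obtain ⟨c, rfl⟩ := exists_cst_of_isAlgebraic M (Ec M E) (field_E_le_L M E) f halg
  have h := coeff_mem_of_mem_Fc M E hf 0
  rw [val_cst, HahnSeries.coeff_single_same] at h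
  exact cst_mem_Ec M E h

/-! ### The coordinate -/

/-- The data of an integral `q`-expansion `q⁻¹ + …` of the coordinate. -/
def HasIntExp [NeZero M] (x : Om M) : Prop :=
  ∃ X : LaurentSeries ℤ, X.coeff (-1) = 1 ∧ (∀ k : ℤ, k < -1 → X.coeff k = 0) ∧
     (x : LaurentSeries Qb) = coeffMap (Int.castRingHom Qb) X ∧
     coeffMap (Int.castRingHom ℚ) X ∈ modularFunctionFieldFull M

theorem val_jOm [NeZero M] : ((jOm M : Om M) : LaurentSeries Qb) = jqModC Qb := by
  show coeffEmb Qb (qExpand ℚ 1 jq) = _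
  rw [qExpand_one_apply]
  exact coeffMap_jqModC (algebraMap ℚ Qb)

theorem hasIntExp_jOm [NeZero M] : HasIntExp M (jOm M) := by
  refine ⟨jqModC ℤ, coeff_jqModC_neg_one ℤ, fun k hk => coeff_jqModC_of_lt ℤ hk, ?_, ?_⟩
  · rw [val_jOm, coeffMap_jqModC]
  · rw [coeffMap_jqModC]
    exact modularFunctionField_le_full M (jq_mem M)

theorem hasIntExp_of_isCoordinate [NeZero M] {ℓ : ℕ} {x : Om M} {S : Finset (Om M)}
    (hx : IsCoordinate M ℓ x S) : HasIntExp M x := by
  rcases hx with ⟨-, rfl, -⟩ | ⟨-, h⟩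
  · exact hasIntExp_jOm M
  · exact h

theorem coeff_neg_one_of_hasIntExp [NeZero M] {x : Om M} (hx : HasIntExp M x) :
    (x : LaurentSeries Qb).coeff (-1) = 1 := by
  obtain ⟨X, h1, -, h3, -⟩ := hx
  rw [h3, coeffMap_coeff, h1, _root_.map_one]

theorem coeff_of_lt_of_hasIntExp [NeZero M] {x : Om M} (hx : HasIntExp M x) {k : ℤ}
    (hk : k < -1) : (x : LaurentSeries Qb).coeff k = 0 := by
  obtain ⟨X, -, h2, h3, -⟩ := hx
  rw [h3, coeffMap_coeff, h2 k hk, _root_.map_zero]

theorem mem_Fc_of_hasIntExp [NeZero M] {x : Om M} (hx : HasIntExp M x) : x ∈ Fc M E := by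
  obtain ⟨X, -, -, h3, h4⟩ := hx
  have : x = ofFull M _ h4 := by
    apply Subtype.ext
    rw [h3]
    show _ = coeffEmb Qb (coeffMap (Int.castRingHom ℚ) X)
    rw [coeffEmb, coeffMap_coeffMap]
    exact coeffMap_congr (RingHom.ext_int _ _) X
  rw [this]
  exact ofFull_mem_Fc M E _ h4

theorem transcendental_of_hasIntExp [NeZero M] {x : Om M} (hx : HasIntExp M x) :
    Transcendental (Lc M) x := by
  intro halg
  obtain ⟨c, hc⟩ := exists_cst_of_isAlgebraic M (Lc M) le_rfl x halg
  have h := coeff_neg_one_of_hasIntExp M hx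
  rw [hc, val_cst, HahnSeries.coeff_single_of_ne (by decide)] at h
  exact zero_ne_one h

theorem field_x_mem [NeZero M] {ℓ : ℕ} {x : Om M} {S : Finset (Om M)}
    (hx : IsCoordinate M ℓ x S) : x ∈ Fc M E :=
  mem_Fc_of_hasIntExp M E (hasIntExp_of_isCoordinate M hx)

theorem field_x_transcendental [NeZero M] {ℓ : ℕ} {x : Om M} {S : Finset (Om M)}
    (hx : IsCoordinate M ℓ x S) : Transcendental (Lc M) x :=
  transcendental_of_hasIntExp M (hasIntExp_of_isCoordinate M hx)

end Fermat.Agent.S18.H456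

end
end
-- ===== PACK-END S18/H456/ModCoord.lean

-- ===== PACK-BEGIN S18/H438/Front/Finite.lean
section



/-!
# S18 / ALG-FRONT (helper438), part 6: finiteness and constants

For `G : Alg.GoodModel Lc Ec Fc R V w x S`, inside the field `Fc`:

* `GoodModelFront.isIntegral_Rf_mem_range` : `R` is integrally closed in `Fc`
  (hypothesis `hRF` of `H138.connected_special_fibre`);
* `GoodModelFront.finiteDimensional_baseField` : `Fc` is finite over `H138.baseField R x`;
* `GoodModelFront.finiteDimensional_fractionRing` / `_inv` : `Fc` is finite over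
  `FractionRing (baseRing R z)` for `z = x`, `z = x⁻¹` (hypothesis of `Front/Chart.lean`).
-/

set_option autoImplicit false
set_option linter.style.haveILetI false
set_option linter.unusedSectionVars false

noncomputable section

namespace Fermat.Agent.S18.H438

open Alg Polynomial

/-- Finite-dimensionality from a span statement inside an ambient field. -/
theorem finiteDimensional_of_span_subfield {K F Ω : Type*} [Field K] [Field F] [Field Ω]
    [Algebra K F] (ι : F →+* Ω) (E' : Subfield Ω)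
    (hE' : ∀ c ∈ E', ∃ k : K, ι (algebraMap K F k) = c)
    (s : Finset Ω) (hs : ∀ a ∈ s, ∃ f : F, ι f = a)
    (hspan : ∀ f : F, ι f ∈ Submodule.span E' (s : Set Ω)) :
    FiniteDimensional K F := by
  classical
  choose! g hg using hs
  refine (Module.finite_def (R := K) (M := F)).2 ⟨s.image g, ?_⟩
  rw [eq_top_iff]
  rintro f -
  obtain ⟨c, -, hc⟩ := Submodule.mem_span_finset.1 (hspan f)
  have hk : ∀ a : Ω, ∃ k : K, ι (algebraMap K F k) = (c a : Ω) := fun a => hE' _ (c a).2
  choose k hk using hk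
  have hf : f = ∑ a ∈ s, k a • g a := by
    apply ι.injective
    rw [← hc, _root_.map_sum]
    refine Finset.sum_congr rfl fun a ha => ?_
    have h1 : ι (k a • g a) = (c a : Ω) * a := by
      rw [Algebra.smul_def, _root_.map_mul, hk, hg a ha]
    rw [h1]
    rfl
  rw [hf]
  refine Submodule.sum_mem _ fun a ha => Submodule.smul_mem _ _ (Submodule.subset_span ?_)
  exact Finset.mem_coe.2 (Finset.mem_image_of_mem g ha)

variable {Ω : Type*} [Field Ω] {Lc Ec Fc : Subfield Ω} {R V : Subring Ω} {w x : Ω}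
  {S : Finset Ω}

namespace GoodModelFront

variable (G : GoodModel Lc Ec Fc R V w x S)

include G

/-- a subfield of `Ω` containing `R` and `x` contains `Ec(x)` -/
theorem ratField_le_of_mem (T : Subfield Ω) (hR : ∀ r ∈ R, r ∈ T) (hx : x ∈ T) :
    ratField Ec x ≤ T := by
  unfold ratField
  rw [Subfield.closure_le]
  rintro e (he | he)
  · rcases G.R_total e he with h | h
    · exact hR _ h
    · have := T.inv_mem (hR _ h)
      rwa [inv_inv] at this
  · rw [Set.mem_singleton_iff] at he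
    rw [he]
    exact hx

/-- **`Fc` is finite over any field `K → Fc` whose image contains `R` and `x`.** -/
theorem finiteDimensional_of_mem {K : Type*} [Field K] [Algebra K Fc]
    (hR : ∀ r : Rf Fc R, ∃ k : K, algebraMap K Fc k = (r : Fc))
    (hx : ∃ k : K, algebraMap K Fc k = xf G) : FiniteDimensional K Fc := by
  obtain ⟨s, hs, hspan⟩ := G.finite
  refine finiteDimensional_of_span_subfield Fc.subtype (ratField Ec x) ?_ s
    (fun a ha => ⟨⟨a, hs ha⟩, rfl⟩) (fun f => hspan f f.2)
  have hle : ratField Ec x ≤ ((algebraMap K Fc).fieldRange).map Fc.subtype := by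
    refine ratField_le_of_mem G _ (fun r hr => ?_) ?_
    · obtain ⟨k, hk⟩ := hR ⟨⟨r, R_le_Fc G hr⟩, hr⟩
      exact ⟨algebraMap K Fc k, ⟨k, rfl⟩, by rw [hk]; rfl⟩
    · obtain ⟨k, hk⟩ := hx
      exact ⟨algebraMap K Fc k, ⟨k, rfl⟩, by rw [hk]; rfl⟩
  intro c hc
  obtain ⟨f, ⟨k, rfl⟩, hf⟩ := hle hc
  exact ⟨k, hf⟩

/-- `Fc` is finite over `H138.baseField R x`. -/
theorem finiteDimensional_baseField :
    FiniteDimensional (H138.baseField (Rf Fc R) (xf G)) Fc :=
  finiteDimensional_of_mem G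
    (fun r => ⟨⟨(r : Fc), Subfield.subset_closure (Or.inl ⟨r, rfl⟩)⟩, rfl⟩)
    ⟨⟨xf G, Subfield.subset_closure (Or.inr rfl)⟩, rfl⟩

/-- `Fc` is finite over `H138.baseField R x⁻¹`. -/
theorem finiteDimensional_baseField_inv :
    FiniteDimensional (H138.baseField (Rf Fc R) (xf G)⁻¹) Fc := by
  rw [H138.baseField_inv]
  exact finiteDimensional_baseField G

section Frac

attribute [local instance] FractionRing.liftAlgebra

/-- `Fc` is finite over `Frac (R[x])`. -/
theorem finiteDimensional_fractionRing :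
    FiniteDimensional (FractionRing (baseRing (Rf Fc R) (xf G))) Fc :=
  finiteDimensional_of_mem G
    (fun r => ⟨algebraMap (baseRing (Rf Fc R) (xf G)) _
        (algebraMap (Rf Fc R) (baseRing (Rf Fc R) (xf G)) r), by
      rw [← IsScalarTower.algebraMap_apply]; rfl⟩)
    ⟨algebraMap (baseRing (Rf Fc R) (xf G)) _ ⟨xf G, self_mem_baseRing _ _⟩, by
      rw [← IsScalarTower.algebraMap_apply]; rfl⟩

/-- `Fc` is finite over `Frac (R[x⁻¹])`. -/
theorem finiteDimensional_fractionRing_inv :
    FiniteDimensional (FractionRing (baseRing (Rf Fc R) (xf G)⁻¹)) Fc :=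
  finiteDimensional_of_mem G
    (fun r => ⟨algebraMap (baseRing (Rf Fc R) (xf G)⁻¹) _
        (algebraMap (Rf Fc R) (baseRing (Rf Fc R) (xf G)⁻¹) r), by
      rw [← IsScalarTower.algebraMap_apply]; rfl⟩)
    ⟨(algebraMap (baseRing (Rf Fc R) (xf G)⁻¹) _ ⟨(xf G)⁻¹, self_mem_baseRing _ _⟩)⁻¹, by
      rw [map_inv₀, ← IsScalarTower.algebraMap_apply]
      show ((xf G)⁻¹)⁻¹ = xf G
      rw [inv_inv]⟩

end Frac

/-- the valuation ring `R` of the field `Ec` -/
def Re : ValuationSubring Ec :=
  { R.comap Ec.subtype with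
    mem_or_inv_mem' := fun e => by
      rcases G.R_total e e.2 with h | h
      · exact Or.inl h
      · exact Or.inr h }

theorem mem_Re {e : Ec} : e ∈ Re G ↔ (e : Ω) ∈ R := Iff.rfl

/-- **`R` is integrally closed in `Fc`.** -/
theorem isIntegral_Rf_mem_range (y : Fc) (hy : IsIntegral (Rf Fc R) y) :
    y ∈ Set.range (algebraMap (Rf Fc R) Fc) := by
  obtain ⟨p, hpm, hp⟩ := hy
  -- `y` is algebraic over `Ec`, hence lies in `Ec`
  let φ : Rf Fc R →+* Ec :=
    (Fc.subtype.comp (Rf Fc R).subtype).codRestrict Ec.toSubring (fun r => G.R_le r.2)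
  have hcomp : (algebraMap Ec Ω).comp φ = Fc.subtype.comp (algebraMap (Rf Fc R) Fc) := rfl
  have hφ : Function.Injective φ := by
    intro a b hab
    apply Subtype.ext
    apply Subtype.ext
    exact congrArg (fun t : Ec => (t : Ω)) hab
  have hyΩ : Polynomial.eval₂ ((algebraMap Ec Ω).comp φ) (y : Ω) p = 0 := by
    rw [hcomp]
    have h1 := Polynomial.hom_eval₂ p (algebraMap (Rf Fc R) Fc) Fc.subtype y
    rw [hp, _root_.map_zero] at h1
    exact h1.symm
  have halg : IsAlgebraic Ec (y : Ω) := by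
    refine ⟨p.map φ, (Polynomial.map_ne_zero_iff hφ).2 hpm.ne_zero, ?_⟩
    rw [Polynomial.aeval_def, Polynomial.eval₂_map]
    exact hyΩ
  have hyE : (y : Ω) ∈ Ec := G.E_closed_in_F y y.2 halg
  -- integrality over the valuation ring `Re`
  letI : Algebra (Rf Fc R) Ec := φ.toAlgebra
  have hint : IsIntegral (Rf Fc R) (⟨(y : Ω), hyE⟩ : Ec) := by
    refine ⟨p, hpm, ?_⟩
    apply Ec.subtype_injective
    rw [Polynomial.hom_eval₂, _root_.map_zero]
    exact hyΩ
  have hmem : (⟨(y : Ω), hyE⟩ : Ec) ∈ Re G :=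
    mem_valuationSubring_of_isIntegral (Re G) (fun a => a.2) hint
  exact ⟨⟨y, hmem⟩, rfl⟩

end GoodModelFront

end Fermat.Agent.S18.H438

end
end
-- ===== PACK-END S18/H438/Front/Finite.lean

-- ===== PACK-BEGIN S18/B12/H203/RedBasisAbs.lean
section






/-!
# S18 / b2.5, piece A5': reduced basis at a prime `s` with `P/(s)` a PID (`RedBasisAbsStatement`)

Adapter: `H693.exists_redBasis` applied to `B/sB` over `P/(s)`, which is finite and torsion-free
(`H203.isTorsionFree_quotient`, `H203.finite_quotient`).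
-/

set_option autoImplicit false

noncomputable section

namespace Fermat.Agent.S18.B12.H203

open Fermat.Agent.S18.H203

universe u v

/-- Nilpotency in `B/sB` is membership in `rad (sB)`. -/
theorem isNilpotent_redB_iff {P : Type*} {B : Type*} [CommRing P] [CommRing B] [Algebra P B]
    (s : P) (b : B) :
    IsNilpotent (redB (S := P) s b) ↔ b ∈ (Ideal.span {algebraMap P B s}).radical := by
  rw [← map_span_singleton_eq]
  constructor
  · rintro ⟨k, hk⟩
    rw [← map_pow, Ideal.Quotient.eq_zero_iff_mem] at hk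
    exact ⟨k, hk⟩
  · rintro ⟨k, hk⟩
    refine ⟨k, ?_⟩
    rw [← map_pow, Ideal.Quotient.eq_zero_iff_mem]
    exact hk

/-- **A5' (reduced basis at a prime `s` with `P/(s)` a PID).** -/
theorem redBasisAbs.{u₁, v₁} : RedBasisAbsStatement.{u₁, v₁} := by
  intro P _ _ _ B _ _ _ _ _ _ s hs hpid
  let _ : Algebra (FractionRing P) (FractionRing B) := FractionRing.liftAlgebra P _
  have : IsScalarTower P (FractionRing P) (FractionRing B) :=
    FractionRing.isScalarTower_liftAlgebra P (FractionRing B)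
  have : IsIntegralClosure B P (FractionRing B) :=
    IsIntegralClosure.of_isIntegrallyClosed _ _ _
  have hprime : (Ideal.span {s}).IsPrime := (Ideal.span_singleton_prime hs.ne_zero).mpr hs
  have hdom : IsDomain (P ⧸ Ideal.span {s}) := Ideal.Quotient.isDomain _
  have htf : Module.IsTorsionFree (P ⧸ Ideal.span {s})
      (B ⧸ (Ideal.span {s}).map (algebraMap P B)) :=
    isTorsionFree_quotient (B := B) (FractionRing P) (FractionRing B) hs
  have hfin : Module.Finite (P ⧸ Ideal.span {s})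
      (B ⧸ (Ideal.span {s}).map (algebraMap P B)) := finite_quotient (B := B) (Ideal.span {s})
  obtain ⟨r, yb, h1, h2⟩ := Fermat.Agent.S18.B12.H693.exists_redBasis (P ⧸ Ideal.span {s})
    (B ⧸ (Ideal.span {s}).map (algebraMap P B))
  choose y hy using fun i => Ideal.Quotient.mk_surjective (yb i)
  have hsum : ∀ a : Fin r → P,
      redB (S := P) s (∑ i, a i • y i) = ∑ i, redS s (a i) • yb i := by
    intro a
    rw [map_sum]
    refine Finset.sum_congr rfl fun i _ => ?_
    rw [redB_smul, ← hy i]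
  refine ⟨r, y, ?_, ?_⟩
  · intro a ha i
    have h3 : IsNilpotent (∑ i, redS s (a i) • yb i) := by
      rw [← hsum]
      exact (isNilpotent_redB_iff s _).mpr ha
    have h4 := congrFun (h1 _ h3) i
    exact (redS_eq_zero_iff s (a i)).mp h4
  · intro b
    obtain ⟨ab, hab⟩ := h2 (redB (S := P) s b)
    choose a ha using fun i => Ideal.Quotient.mk_surjective (ab i)
    refine ⟨a, ?_⟩
    rw [← isNilpotent_redB_iff, map_sub, hsum]
    have : (fun i => redS s (a i)) = ab := funext ha
    simp only [this] at *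
    have hfun : (∑ i, redS s (a i) • yb i) = ∑ i, ab i • yb i :=
      Finset.sum_congr rfl fun i _ => by rw [← ha i]
    rw [hfun]
    exact hab

end Fermat.Agent.S18.B12.H203

end
end
-- ===== PACK-END S18/B12/H203/RedBasisAbs.lean

-- ===== PACK-BEGIN S56/P3/H254/Arith.lean
section


/-!
# S56 / P3, part B (arithmetic inputs), helper254

* `cycExpExists : CycExpExistsStatement` (CYCEXP)
* `cycloQuotient : CycloQuotientStatement` (CYC)
* `detOrder : DetOrderStatement` (DETORD)

Only Mathlib + the frozen P3 interface are used.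
-/

set_option autoImplicit false

namespace Fermat.Agent.S56.P3.H254

local notation "Qb" => AlgebraicClosure ℚ

/-- `ℚ̄` contains a primitive `N`-th root of unity for every `N ≠ 0`. -/
theorem exists_primitiveRoot (N : ℕ) [NeZero N] : ∃ ζ : Qb, IsPrimitiveRoot ζ N :=
  HasEnoughRootsOfUnity.exists_primitiveRoot Qb N

/-- An automorphism acts on all `N`-th roots of unity through the exponent it has on a primitive
one. -/
theorem apply_eq_pow_of_primitive {N : ℕ} [NeZero N] {ζ : Qb} (hζ : IsPrimitiveRoot ζ N)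
    (σ : _root_.Fermat.Agent.S56.P3.GQ) {a : ℕ} (ha : σ ζ = ζ ^ a) (μ : Qb) (hμ : μ ^ N = 1) : σ μ = μ ^ a := by
  obtain ⟨j, -, hj⟩ := hζ.eq_pow_of_pow_eq_one hμ
  rw [← hj, map_pow, ha, ← pow_mul, ← pow_mul, mul_comm]

/-- Every automorphism has an exponent on a primitive `N`-th root of unity. -/
theorem exists_exponent {N : ℕ} [NeZero N] {ζ : Qb} (hζ : IsPrimitiveRoot ζ N) (σ : _root_.Fermat.Agent.S56.P3.GQ) :
    ∃ a : ℕ, σ ζ = ζ ^ a := by
  have h1 : (σ ζ) ^ N = 1 := by rw [← map_pow, hζ.pow_eq_one, map_one]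
  obtain ⟨a, -, ha⟩ := hζ.eq_pow_of_pow_eq_one h1
  exact ⟨a, ha.symm⟩

/-- **(CYCEXP)** every `σ ∈ G_ℚ` has a cyclotomic exponent on `μ_p`. -/
theorem cycExpExists : CycExpExistsStatement := by
  intro p _ σ
  have hp : p.Prime := Fact.out
  haveI : NeZero p := ⟨hp.ne_zero⟩
  obtain ⟨ζ, hζ⟩ := exists_primitiveRoot p
  obtain ⟨a, ha⟩ := exists_exponent hζ σ
  exact ⟨a, fun μ hμ => apply_eq_pow_of_primitive hζ σ ha μ hμ⟩

/-- **(CYC)** `G_{ℚ(ζ_{p^(n+1)})}` is normal in `G_ℚ` with cyclic quotient (`p` odd). -/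
theorem cycloQuotient : CycloQuotientStatement := by
  intro p _ hp2 n
  have hp : p.Prime := Fact.out
  haveI : NeZero (p ^ (n + 1)) := ⟨pow_ne_zero _ hp.ne_zero⟩
  obtain ⟨ζ, hζ⟩ := exists_primitiveRoot (p ^ (n + 1))
  let χ : _root_.Fermat.Agent.S56.P3.GQ →* (ZMod (p ^ (n + 1)))ˣ := hζ.autToPow ℚ
  have hχ : ∀ σ : _root_.Fermat.Agent.S56.P3.GQ, ζ ^ ((χ σ : (ZMod (p ^ (n + 1)))ˣ) : ZMod (p ^ (n + 1))).val = σ ζ :=
    fun σ => hζ.autToPow_spec ℚ σ
  have hker : fixRootsSubgroup p n = χ.ker := by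
    ext σ
    rw [mem_fixRootsSubgroup, MonoidHom.mem_ker]
    constructor
    · intro h
      have h1 : σ ζ = ζ := h ζ hζ.pow_eq_one
      have h2 := hχ σ
      rw [h1] at h2
      have h3 : ((χ σ : (ZMod (p ^ (n + 1)))ˣ) : ZMod (p ^ (n + 1))).val
          = (1 : ZMod (p ^ (n + 1))).val := by
        have hlt : 1 < p ^ (n + 1) := Nat.one_lt_pow (Nat.succ_ne_zero n) hp.one_lt
        haveI : Fact (1 < p ^ (n + 1)) := ⟨hlt⟩
        rw [ZMod.val_one]
        refine hζ.pow_inj (ZMod.val_lt _) hlt ?_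
        rw [h2, pow_one]
      exact Units.ext (ZMod.val_injective _ h3)
    · intro h μ hμ
      have h2 := hχ σ
      rw [h] at h2
      have hlt : 1 < p ^ (n + 1) := Nat.one_lt_pow (Nat.succ_ne_zero n) hp.one_lt
      haveI : Fact (1 < p ^ (n + 1)) := ⟨hlt⟩
      rw [Units.val_one, ZMod.val_one, pow_one] at h2
      have := apply_eq_pow_of_primitive hζ σ (a := 1) (by rw [pow_one]; exact h2.symm) μ hμ
      rwa [pow_one] at this
  have hN : (fixRootsSubgroup p n).Normal := by
    rw [hker]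
    exact MonoidHom.normal_ker χ
  refine ⟨hN, ?_⟩
  haveI : IsCyclic (ZMod (p ^ (n + 1)))ˣ := ZMod.isCyclic_units_of_prime_pow p hp hp2 (n + 1)
  let f : _root_.Fermat.Agent.S56.P3.GQ ⧸ fixRootsSubgroup p n →* (ZMod (p ^ (n + 1)))ˣ :=
    QuotientGroup.lift (fixRootsSubgroup p n) χ (fun σ hσ => by
      rw [hker] at hσ
      exact hσ)
  have hf : Function.Injective f := by
    rw [injective_iff_map_eq_one]
    intro x hx
    obtain ⟨σ, rfl⟩ := QuotientGroup.mk_surjective x
    have h1 : χ σ = 1 := hx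
    rw [QuotientGroup.eq_one_iff, hker]
    exact h1
  exact isCyclic_of_injective f hf

/-- The mod `p` cyclotomic character is onto: every unit of `ZMod p` is the exponent of some
automorphism on a primitive `p`-th root of unity. -/
theorem exists_apply_eq_pow {p : ℕ} [Fact p.Prime] {ζ : Qb} (hζ : IsPrimitiveRoot ζ p)
    (a : (ZMod p)ˣ) : ∃ σ : _root_.Fermat.Agent.S56.P3.GQ, σ ζ = ζ ^ (a : ZMod p).val := by
  have hp : p.Prime := Fact.out
  haveI : NeZero p := ⟨hp.ne_zero⟩
  have hcop : (a : ZMod p).val.Coprime p := ZMod.val_coe_unit_coprime a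
  have hζa : IsPrimitiveRoot (ζ ^ (a : ZMod p).val) p := hζ.pow_of_coprime _ hcop
  have hmin : minpoly ℚ (ζ ^ (a : ZMod p).val) = minpoly ℚ ζ := by
    rw [← Polynomial.cyclotomic_eq_minpoly_rat hζ hp.pos,
      ← Polynomial.cyclotomic_eq_minpoly_rat hζa hp.pos]
  haveI : Algebra.IsAlgebraic ℚ Qb := AlgebraicClosure.isAlgebraic ℚ
  haveI : IsAlgClosure ℚ Qb := ⟨inferInstance, inferInstance⟩
  haveI : Normal ℚ Qb := IsAlgClosure.normal ℚ Qb
  have halg : IsAlgebraic ℚ (ζ ^ (a : ZMod p).val) :=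
    (AlgebraicClosure.isAlgebraic ℚ).isAlgebraic _
  exact minpoly.exists_algEquiv_of_root (K := ℚ) (L := Qb) (x := ζ)
    (y := ζ ^ (a : ZMod p).val) halg (by rw [hmin]; exact minpoly.aeval ℚ ζ)

/-- **(DETORD)** if `det ρ̄` is the mod `p` cyclotomic character, it takes a value of exact
order `p - 1`. -/
theorem detOrder : DetOrderStatement := by
  intro k _ p _ ρbar hdet
  have hp : p.Prime := Fact.out
  haveI : NeZero p := ⟨hp.ne_zero⟩
  haveI : IsCyclic (ZMod p)ˣ := ZMod.isCyclic_units_prime hp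
  obtain ⟨g, hg⟩ := IsCyclic.exists_generator (α := (ZMod p)ˣ)
  have hord : orderOf g = p - 1 := by
    rw [orderOf_eq_card_of_forall_mem_zpowers hg, Nat.card_eq_fintype_card,
      ZMod.card_units_eq_totient, Nat.totient_prime hp]
  obtain ⟨ζ, hζ⟩ := exists_primitiveRoot p
  obtain ⟨γ, hγ⟩ := exists_apply_eq_pow hζ g
  have hexp : Fermat.Agent.S56.IsCycExp p γ (g : ZMod p).val :=
    fun μ hμ => apply_eq_pow_of_primitive hζ γ hγ μ hμ
  have hdetγ := det_eq_of_isCycExp hdet hexp
  refine ⟨γ, ?_⟩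
  rw [hdetγ]
  have hp0 : (p : k) = 0 := natCast_eq_zero_of_detIsCyclotomic hdet
  haveI : CharP k p := (CharP.charP_iff_prime_eq_zero hp).mpr hp0
  have h1 : (((g : ZMod p).val : ℕ) : k) = ZMod.castHom (dvd_refl p) k (g : ZMod p) := by
    rw [ZMod.castHom_apply, ZMod.natCast_val]
  rw [h1]
  have hinj : Function.Injective (ZMod.castHom (dvd_refl p) k) := RingHom.injective _
  have h2 : orderOf ((ZMod.castHom (dvd_refl p) k) (g : ZMod p)) = orderOf (g : ZMod p) :=
    orderOf_injective ((ZMod.castHom (dvd_refl p) k : ZMod p →+* k) : ZMod p →* k) hinj _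
  rw [h2, orderOf_units, hord]

end Fermat.Agent.S56.P3.H254

end
-- ===== PACK-END S56/P3/H254/Arith.lean

-- ===== PACK-BEGIN S14/H937/Ram.lean
section


/-!
# S14, LOCAL-I / LOCAL-D (helper937): ramification at finite level
-/

set_option autoImplicit false
set_option linter.style.haveILetI false
set_option linter.unusedSectionVars false

open NumberField IsDedekindDomain
open scoped Pointwise

namespace Fermat.Agent.S14.H937

section

variable (K : IntermediateField ℚ Qb) [FiniteDimensional ℚ K]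
variable (M : IntermediateField K Qb) [FiniteDimensional K M] [IsGalois K M]
variable (A : ValuationSubring Qb)

theorem numberField_K : NumberField K := ⟨⟩

theorem numberField_M : NumberField M :=
  haveI : FiniteDimensional ℚ M := Module.Finite.trans K M
  ⟨⟩

omit [FiniteDimensional ℚ K] [FiniteDimensional K M] [IsGalois K M] in
theorem toZbar_algebraMap (x : 𝓞 K) : toZbar M (algebraMap (𝓞 K) (𝓞 M) x) = toZbar K x := by
  apply Subtype.ext
  rw [toZbar_coe, toZbar_coe]
  exact (IsScalarTower.algebraMap_apply K M Qb (x : K)).symm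

omit [FiniteDimensional ℚ K] [FiniteDimensional K M] [IsGalois K M] in
theorem primeOf_liesOver : (primeOf M A).LiesOver (primeOf K A) := by
  constructor
  ext x
  rw [Ideal.under_def, Ideal.mem_comap, mem_primeOf, mem_primeOf]
  have := congrArg Subtype.val (toZbar_algebraMap K M x)
  rw [toZbar_coe, toZbar_coe] at this
  rw [this]


/-- If the inertia group of `P | 𝔮` in `Gal(M/K)` is trivial then `e(P | 𝔮) = 1`. -/
theorem ramificationIdx'_eq_one_of_inertia (ℓ : ℕ) (hℓ : ℓ.Prime) (hA : A.LiesOverPrime ℓ)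
    (hI : ∀ τ : M ≃ₐ[K] M, (∀ x : 𝓞 M, τ • x - x ∈ primeOf M A) → τ = 1) :
    (primeOf K A).ramificationIdx' (primeOf M A) = 1 := by
  haveI := numberField_K K
  haveI := numberField_M K M
  haveI := primeOf_liesOver K M A
  have hne : primeOf K A ≠ ⊥ := primeOf_ne_bot K A ℓ hℓ hA
  haveI : (primeOf K A).IsMaximal := Ring.DimensionLEOne.maximalOfPrime hne inferInstance
  haveI : IsGaloisGroup (M ≃ₐ[K] M) (𝓞 K) (𝓞 M) :=
    IsGaloisGroup.of_isFractionRing (M ≃ₐ[K] M) (𝓞 K) (𝓞 M) K M
  have hcard : Nat.card ((primeOf M A).inertia (M ≃ₐ[K] M)) = 1 := by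
    rw [Nat.card_eq_one_iff_unique]
    refine ⟨⟨?_⟩, ⟨1⟩⟩
    rintro ⟨τ, hτ⟩ ⟨τ', hτ'⟩
    apply Subtype.ext
    show τ = τ'
    rw [hI τ (fun x => hτ x), hI τ' (fun x => hτ' x)]
  rw [Ideal.ramificationIdx'_eq_ramificationIdx (primeOf K A) (primeOf M A) hne,
    ← Ideal.ramificationIdxIn_eq_ramificationIdx (primeOf K A) (primeOf M A) (M ≃ₐ[K] M),
    ← Ideal.card_inertia_eq_ramificationIdxIn (G := M ≃ₐ[K] M) (primeOf K A) (primeOf M A)]
  exact hcard


/-- If the decomposition group of `P | 𝔮` in `Gal(M/K)` is trivial then `e(P | 𝔮) = 1` and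
`f(P | 𝔮) = 1`. -/
theorem ramificationIdx'_inertiaDeg_eq_one_of_stabilizer (ℓ : ℕ) (hℓ : ℓ.Prime)
    (hA : A.LiesOverPrime ℓ)
    (hD : ∀ τ : M ≃ₐ[K] M, (∀ x : 𝓞 M, τ • x ∈ primeOf M A ↔ x ∈ primeOf M A) → τ = 1) :
    (primeOf K A).ramificationIdx' (primeOf M A) = 1 ∧
      (primeOf M A).inertiaDeg (𝓞 K) = 1 := by
  haveI := numberField_K K
  haveI := numberField_M K M
  haveI := primeOf_liesOver K M A
  have hne : primeOf K A ≠ ⊥ := primeOf_ne_bot K A ℓ hℓ hA
  haveI : (primeOf K A).IsMaximal := Ring.DimensionLEOne.maximalOfPrime hne inferInstance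
  haveI : IsGaloisGroup (M ≃ₐ[K] M) (𝓞 K) (𝓞 M) :=
    IsGaloisGroup.of_isFractionRing (M ≃ₐ[K] M) (𝓞 K) (𝓞 M) K M
  have hcard : Nat.card (MulAction.stabilizer (M ≃ₐ[K] M) (primeOf M A)) = 1 := by
    rw [Nat.card_eq_one_iff_unique]
    refine ⟨⟨?_⟩, ⟨1⟩⟩
    have key : ∀ τ : M ≃ₐ[K] M, τ ∈ MulAction.stabilizer (M ≃ₐ[K] M) (primeOf M A) → τ = 1 := by
      intro τ hτ
      apply hD
      intro x
      have hτ' : τ • primeOf M A = primeOf M A := hτ
      conv_lhs => rw [← hτ']
      exact Ideal.smul_mem_pointwise_smul_iff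
    rintro ⟨τ, hτ⟩ ⟨τ', hτ'⟩
    apply Subtype.ext
    show τ = τ'
    rw [key τ hτ, key τ' hτ']
  have h1 := Ideal.card_stabilizer_eq (G := M ≃ₐ[K] M) (primeOf K A) (primeOf M A)
  rw [hcard, Ideal.ramificationIdxIn_eq_ramificationIdx (primeOf K A) (primeOf M A) (M ≃ₐ[K] M),
    Ideal.inertiaDegIn_eq_inertiaDeg (primeOf K A) (primeOf M A) (M ≃ₐ[K] M),
    ← Ideal.ramificationIdx'_eq_ramificationIdx (primeOf K A) (primeOf M A) hne] at h1
  have h2 := Nat.eq_one_of_mul_eq_one_right h1.symm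
  have h3 := Nat.eq_one_of_mul_eq_one_left h1.symm
  exact ⟨h2, h3⟩


/-- The height-one prime of `𝓞 F` below `A`. -/
noncomputable def hos (F : Type*) [Field F] [NumberField F] [Algebra F Qb]
    (A : ValuationSubring Qb) (h : primeOf F A ≠ ⊥) : HeightOneSpectrum (𝓞 F) :=
  ⟨primeOf F A, inferInstance, h⟩

theorem hos_asIdeal (F : Type*) [Field F] [NumberField F] [Algebra F Qb]
    (A : ValuationSubring Qb) (h : primeOf F A ≠ ⊥) : (hos F A h).asIdeal = primeOf F A := rfl

/-- If `e(P | 𝔮) = 1`, every value of `M` is a value of `K`. -/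
theorem exists_valuation_eq_of_ramificationIdx' (ℓ : ℕ) (hℓ : ℓ.Prime) (hA : A.LiesOverPrime ℓ)
    (he : (primeOf K A).ramificationIdx' (primeOf M A) = 1) (y : M) (hy : y ≠ 0) :
    ∃ c : K, c ≠ 0 ∧ A.valuation (y : Qb) = A.valuation (c : Qb) := by
  haveI := numberField_K K
  haveI := numberField_M K M
  haveI := primeOf_liesOver K M A
  have hneK : primeOf K A ≠ ⊥ := primeOf_ne_bot K A ℓ hℓ hA
  have hneM : primeOf M A ≠ ⊥ := primeOf_ne_bot M A ℓ hℓ hA
  set v := hos K A hneK with hv
  set w := hos M A hneM with hw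
  haveI : w.asIdeal.LiesOver v.asIdeal := primeOf_liesOver K M A
  obtain ⟨c, hc⟩ := v.valuation_surjective K (w.valuation M y)
  have hwy : w.valuation M y ≠ 0 := (Valuation.ne_zero_iff _).mpr hy
  have hc0 : c ≠ 0 := by
    rintro rfl
    rw [map_zero] at hc
    exact hwy hc.symm
  refine ⟨c, hc0, ?_⟩
  have h1 := HeightOneSpectrum.valuation_liesOver M v w c
  have he' : v.asIdeal.ramificationIdx' w.asIdeal = 1 := he
  rw [he', pow_one, hc] at h1
  have hcM : algebraMap K M c ≠ 0 := by simpa using hc0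
  have h2 : w.valuation M (y / algebraMap K M c) = 1 := by
    rw [map_div₀, ← h1]
    exact div_self hwy
  have h3 := valuation_eq_one_of M A w (hos_asIdeal M A hneM) _ h2
  rw [map_div₀, map_div₀] at h3
  have h4 : algebraMap M Qb (algebraMap K M c) = (c : Qb) :=
    (IsScalarTower.algebraMap_apply K M Qb c).symm
  rw [h4] at h3
  have hcv : A.valuation (c : Qb) ≠ 0 := by
    rw [Valuation.ne_zero_iff]
    simpa using hc0
  exact (div_eq_one_iff_eq hcv).mp h3

end

end Fermat.Agent.S14.H937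

end
-- ===== PACK-END S14/H937/Ram.lean

-- ===== PACK-BEGIN S37/H940/QSeries.lean
section





/-!
# S37 / RIM (helper940): from an atlas of fibres to the Prelude's `ReductionInputsAlong`

For subfields `F ⊆ L((q))`, `F_k ⊆ k((q))` and a valuation ring `A ⊆ L` with residue map
`π : A → k`, the integral `q`-series of `F` with reduction in `F_k` form a subring `O` with
a reduction map; `qData` is the associated context of fractions.

`reductionInputsAlong_of_atlas`: an atlas of fibres for this context (+ trivial residue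
fields, `HasPrincipalDivisors`, and "every function is a constant times a fraction of integral
series with nonzero reduction") gives the Prelude's `ModularCurve.ReductionInputsAlong A π N`,
i.e. the hypothesis `h` of the frozen statement S18.
-/

set_option autoImplicit false

noncomputable section

namespace Fermat.Agent.S37.H940

open AlgebraicCurve ModularCurve HahnSeries

variable {L : Type*} [Field L] (A : ValuationSubring L) {k : Type*} [Field k] (π : A →+* k)
variable (F : IntermediateField L (LaurentSeries L)) (Fk : IntermediateField k (LaurentSeries k))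

theorem coeffMap_subtype_injective : Function.Injective (coeffMap A.subtype) := by
  intro x y h
  ext n
  have := congrArg (fun z : LaurentSeries L => z.coeff n) h
  simp only [coeffMap_coeff] at this
  exact this

/-- `f ∈ F` is an integral `q`-series whose reduction lies in `F_k`. -/
def IsIntQ (f : F) : Prop :=
  ∃ y : LaurentSeries A, coeffMap A.subtype y = (f : LaurentSeries L) ∧ coeffMap π y ∈ Fk

/-- the ring of integral `q`-series of `F` with reduction in `F_k` -/
def intQ : Subring F where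
  carrier := {f | IsIntQ A π F Fk f}
  mul_mem' := by
    rintro f g ⟨y, hy, hyk⟩ ⟨z, hz, hzk⟩
    refine ⟨y * z, ?_, ?_⟩
    · rw [_root_.map_mul, hy, hz]; rfl
    · rw [_root_.map_mul]; exact mul_mem hyk hzk
  one_mem' := ⟨1, by rw [_root_.map_one]; rfl, by rw [_root_.map_one]; exact one_mem _⟩
  add_mem' := by
    rintro f g ⟨y, hy, hyk⟩ ⟨z, hz, hzk⟩
    refine ⟨y + z, ?_, ?_⟩
    · rw [_root_.map_add, hy, hz]; rfl
    · rw [_root_.map_add]; exact add_mem hyk hzk
  zero_mem' := ⟨0, by rw [_root_.map_zero]; rfl, by rw [_root_.map_zero]; exact zero_mem _⟩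
  neg_mem' := by
    rintro f ⟨y, hy, hyk⟩
    refine ⟨-y, ?_, ?_⟩
    · rw [_root_.map_neg, hy]; rfl
    · rw [_root_.map_neg]; exact neg_mem hyk

/-- the integral series representing an element of `intQ` -/
def series (f : intQ A π F Fk) : LaurentSeries A := (f.2 : IsIntQ A π F Fk f).choose

theorem coeffMap_series (f : intQ A π F Fk) :
    coeffMap A.subtype (series A π F Fk f) = ((f : F) : LaurentSeries L) :=
  (f.2 : IsIntQ A π F Fk f).choose_spec.1

theorem coeffMap_series_mem (f : intQ A π F Fk) : coeffMap π (series A π F Fk f) ∈ Fk :=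
  (f.2 : IsIntQ A π F Fk f).choose_spec.2

theorem series_eq (f : intQ A π F Fk) {y : LaurentSeries A}
    (hy : coeffMap A.subtype y = ((f : F) : LaurentSeries L)) : series A π F Fk f = y :=
  coeffMap_subtype_injective A ((coeffMap_series A π F Fk f).trans hy.symm)

/-- the reduction of integral series -/
def redQ : intQ A π F Fk →+* Fk where
  toFun f := ⟨coeffMap π (series A π F Fk f), coeffMap_series_mem A π F Fk f⟩
  map_one' := by
    apply Subtype.ext
    show coeffMap π (series A π F Fk 1) = 1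
    rw [series_eq A π F Fk 1 (y := 1) (by rw [_root_.map_one]; rfl), _root_.map_one]
  map_mul' f g := by
    apply Subtype.ext
    show coeffMap π (series A π F Fk (f * g))
      = coeffMap π (series A π F Fk f) * coeffMap π (series A π F Fk g)
    rw [series_eq A π F Fk (f * g) (y := series A π F Fk f * series A π F Fk g)
      (by rw [_root_.map_mul, coeffMap_series, coeffMap_series]; rfl), _root_.map_mul]
  map_zero' := by
    apply Subtype.ext
    show coeffMap π (series A π F Fk 0) = 0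
    rw [series_eq A π F Fk 0 (y := 0) (by rw [_root_.map_zero]; rfl), _root_.map_zero]
  map_add' f g := by
    apply Subtype.ext
    show coeffMap π (series A π F Fk (f + g))
      = coeffMap π (series A π F Fk f) + coeffMap π (series A π F Fk g)
    rw [series_eq A π F Fk (f + g) (y := series A π F Fk f + series A π F Fk g)
      (by rw [_root_.map_add, coeffMap_series, coeffMap_series]; rfl), _root_.map_add]

theorem coe_redQ (f : intQ A π F Fk) {y : LaurentSeries A}
    (hy : coeffMap A.subtype y = ((f : F) : LaurentSeries L)) :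
    ((redQ A π F Fk f : Fk) : LaurentSeries k) = coeffMap π y := by
  show coeffMap π (series A π F Fk f) = coeffMap π y
  rw [series_eq A π F Fk f hy]

theorem const_isIntQ (a : A) : IsIntQ A π F Fk (algebraMap L F (a : L)) := by
  refine ⟨HahnSeries.single 0 a, ?_, ?_⟩
  · rw [coeffMap_single]
    show HahnSeries.single 0 (a : L) = algebraMap L (LaurentSeries L) (a : L)
    rw [algebraMap_laurentSeries_eq_single]
  · rw [coeffMap_single, ← algebraMap_laurentSeries_eq_single]
    exact Fk.algebraMap_mem _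

/-- the data of integral `q`-series -/
def qData (hsurj : Function.Surjective π) (hker : ∀ a : A, π a = 0 ↔ ¬ IsUnit a) :
    FracData L F k Fk where
  A := A
  π := π
  π_surj := hsurj
  π_eq_zero := hker
  O := intQ A π F Fk
  ρ₀ := redQ A π F Fk
  A_mem := const_isIntQ A π F Fk
  ρ₀_A a := by
    apply Subtype.ext
    rw [coe_redQ A π F Fk ⟨_, const_isIntQ A π F Fk a⟩ (y := HahnSeries.single 0 a)]
    · rw [coeffMap_single, ← algebraMap_laurentSeries_eq_single]
      rfl
    · rw [coeffMap_single]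
      show HahnSeries.single 0 (a : L) = algebraMap L (LaurentSeries L) (a : L)
      rw [algebraMap_laurentSeries_eq_single]

section Main

variable (hsurj : Function.Surjective π) (hker : ∀ a : A, π a = 0 ↔ ¬ IsUnit a)

/-- "Value group" hypothesis: every nonzero function is a constant times a fraction of
integral series with nonzero reductions. -/
def ValueGroupHyp : Prop :=
  ∀ f : F, f ≠ 0 → ∃ c : L, c ≠ 0 ∧ ∃ y₁ y₂ : intQ A π F Fk,
    redQ A π F Fk y₁ ≠ 0 ∧ redQ A π F Fk y₂ ≠ 0 ∧
      f * (y₂ : F) = algebraMap L F c * (y₁ : F)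

/-- clause (ii) of `IsPlaceReductionAlong`, for general `F`, `F_k` -/
def SpecialisesDivisors (r : Place L F → Place k Fk) : Prop :=
  ∀ (y : LaurentSeries A) (hy : coeffMap A.subtype y ∈ F) (hyk : coeffMap π y ∈ Fk),
    coeffMap π y ≠ 0 → ∀ D : Divisor L F,
      (∀ P, D P = P.ord (⟨coeffMap A.subtype y, hy⟩ : F)) →
        ∀ Q, Finsupp.mapDomain r D Q = Q.ord (⟨coeffMap π y, hyk⟩ : Fk)

/-- the integral principal divisors, for general `F`, `F_k` -/
def intPrincipal : Set (Divisor L F) :=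
  {D | ∃ (y : LaurentSeries A) (hy : coeffMap A.subtype y ∈ F),
    coeffMap π y ∈ Fk ∧ coeffMap π y ≠ 0 ∧
      ∀ P, D P = P.ord (⟨coeffMap A.subtype y, hy⟩ : F)}

/-- **Specialisation of divisors from an atlas.** -/
theorem exists_specialisesDivisors [Infinite k] {ι : Type*}
    (𝔄 : Atlas (qData A π F Fk hsurj hker).ctx ι)
    (hresK : ∀ (P : Place L F) (f : F), 0 ≤ P.ord f → ∃ c : L, InMax P (f - algebraMap L F c))
    (hresk : ∀ (Q : Place k Fk) (g : Fk), 0 ≤ Q.ord g →
      ∃ a : k, InMax Q (g - algebraMap k Fk a)) :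
    ∃ r : Place L F → Place k Fk, (∀ P, (r P).deg = P.deg) ∧ SpecialisesDivisors A π F Fk r := by
  obtain ⟨r, hdeg, hr⟩ := Atlas.exists_red 𝔄 hresK hresk
  refine ⟨r, hdeg, ?_⟩
  intro y hy hyk hne D hD Q
  set 𝔇 := qData A π F Fk hsurj hker with h𝔇
  have hint : IsIntQ A π F Fk ⟨coeffMap A.subtype y, hy⟩ := ⟨y, rfl, hyk⟩
  set a : 𝔇.O := ⟨⟨coeffMap A.subtype y, hy⟩, hint⟩ with ha
  set u : 𝔇.ctx.V := 𝔇.ofO a with hu
  have hρ : 𝔇.ctx.ρ u = ⟨coeffMap π y, hyk⟩ := by
    show 𝔇.ρ (𝔇.ofO a) = _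
    rw [𝔇.ρ_ofO]
    apply Subtype.ext
    exact coe_redQ A π F Fk _ (y := y) rfl
  have hu0 : 𝔇.ctx.ρ u ≠ 0 := by
    rw [hρ]
    intro h
    exact hne (congrArg Subtype.val h)
  have := hr u hu0 D hD Q
  rw [hρ] at this
  exact this

/-- **Principal divisors are generated by integral ones**, from the value group hypothesis. -/
theorem principal_le_closure_intPrincipal [HasPrincipalDivisors L F]
    (hVG : ValueGroupHyp A π F Fk) :
    Divisor.principal (K := L) (F := F) ≤ AddSubgroup.closure (intPrincipal A π F Fk) := by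
  rintro D ⟨f, hf, hD⟩
  obtain ⟨c, hc, y₁, y₂, h₁, h₂, hfy⟩ := hVG f hf
  have hy₁ : (y₁ : F) ≠ 0 := fun h => h₁ (by
    have : y₁ = 0 := Subtype.ext h
    rw [this, _root_.map_zero])
  have hy₂ : (y₂ : F) ≠ 0 := fun h => h₂ (by
    have : y₂ = 0 := Subtype.ext h
    rw [this, _root_.map_zero])
  obtain ⟨D₁, hD₁, -⟩ := HasPrincipalDivisors.exists_divisor (K := L) (y₁ : F) hy₁
  obtain ⟨D₂, hD₂, -⟩ := HasPrincipalDivisors.exists_divisor (K := L) (y₂ : F) hy₂
  have hmem : ∀ (y : intQ A π F Fk) (E : Divisor L F), redQ A π F Fk y ≠ 0 →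
      (∀ P, E P = P.ord (y : F)) → E ∈ intPrincipal A π F Fk := by
    intro y E hy hE
    obtain ⟨s, hs, hsk⟩ := (y.2 : IsIntQ A π F Fk y)
    refine ⟨s, by rw [hs]; exact (y : F).2, hsk, ?_, ?_⟩
    · intro h0
      apply hy
      apply Subtype.ext
      rw [coe_redQ A π F Fk y hs, h0]
      rfl
    · intro P
      rw [hE P]
      congr 1
      apply Subtype.ext
      exact hs.symm
  have hDeq : D = D₁ - D₂ := by
    ext P
    rw [Finsupp.sub_apply, hD P, hD₁ P, hD₂ P]
    have hc' : algebraMap L F c ≠ 0 := by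
      rwa [Ne, map_eq_zero_iff _ (algebraMap L F).injective]
    have h := congrArg P.ord hfy
    rw [P.ord_mul hf hy₂, P.ord_mul hc' hy₁, Fermat.Agent.S24.FF.ord_algebraMap] at h
    omega
  rw [hDeq]
  exact AddSubgroup.sub_mem _ (AddSubgroup.subset_closure (hmem y₁ D₁ h₁ hD₁))
    (AddSubgroup.subset_closure (hmem y₂ D₂ h₂ hD₂))

end Main

section Prelude

variable {L : Type*} [Field L] [Algebra ℚ L] (A : ValuationSubring L) {k : Type*} [Field k]
  (π : A →+* k) (N : ℕ)
variable (hsurj : Function.Surjective π) (hker : ∀ a : A, π a = 0 ↔ ¬ IsUnit a)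

/-- **The Prelude's `ReductionInputsAlong` from an atlas of fibres** (the hypothesis `h` of the
frozen statement S18 when `π` is the residue map of `A ⊆ ℚ̄`). -/
theorem reductionInputsAlong_of_atlas [Infinite k] {ι : Type*}
    [HasPrincipalDivisors L (laurentBaseChange L (modularFunctionFieldFull N))]
    (𝔄 : Atlas (qData A π (laurentBaseChange L (modularFunctionFieldFull N))
      (modularFunctionFieldFullC k N) hsurj hker).ctx ι)
    (hresK : ∀ (P : Place L (laurentBaseChange L (modularFunctionFieldFull N)))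
      (f : laurentBaseChange L (modularFunctionFieldFull N)), 0 ≤ P.ord f →
        ∃ c : L, InMax P (f - algebraMap L _ c))
    (hresk : ∀ (Q : Place k (modularFunctionFieldFullC k N))
      (g : modularFunctionFieldFullC k N), 0 ≤ Q.ord g →
        ∃ a : k, InMax Q (g - algebraMap k _ a))
    (hVG : ValueGroupHyp A π (laurentBaseChange L (modularFunctionFieldFull N))
      (modularFunctionFieldFullC k N)) :
    ReductionInputsAlong A π N := by
  obtain ⟨r, hdeg, hr⟩ := exists_specialisesDivisors A π _ _ hsurj hker 𝔄 hresK hresk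
  exact ⟨r, ⟨hdeg, hr⟩, principal_le_closure_intPrincipal A π _ _ hVG⟩

end Prelude

end Fermat.Agent.S37.H940

end
end
-- ===== PACK-END S37/H940/QSeries.lean

-- ===== PACK-BEGIN S37/H697/Pic0Level.lean
section


/-!
# S37 (helper697): equivariance and the Eichler–Shimura relation on `Pic⁰`

Consequences of `Equivariant.lean` / `Relation.lean` for the reduction map
`reductionPic0Along r hr hgen : Pic⁰(F_N ⊗ L) → Pic⁰(F_{N,k})`:

* `reductionPic0Along_galois_smul` : `red (σ • x) = Φ_φ • red x` if `σ` preserves `A` and induces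
  `φ` on the residue field (only a Riemann bound is used: no non-constancy, no degree hypotheses);
* `reductionPic0Along_hecke` : `red (T_ℓ x) = Φ • red x + ℓ • Φ⁻¹ • red x` from the Kronecker
  congruence for norms.
-/

set_option autoImplicit false
set_option linter.style.haveILetI false

noncomputable section

open HahnSeries IntermediateField AlgebraicCurve ModularCurve

namespace Fermat.Agent.S37.H697

section Equivariance

variable {L : Type*} [Field L] [Algebra ℚ L] {A : ValuationSubring L}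
variable {k : Type*} [Field k] {π : A →+* k} {N : ℕ}

/-- Equivariance on divisors of degree zero, from a Riemann bound only. -/
theorem mapDomain_smul_of_degree_eq_zero
    {r : Place L (laurentBaseChange L (modularFunctionFieldFull N)) →
      Place k (modularFunctionFieldFullC k N)}
    (hr : IsPlaceReductionAlong A π N r) (hgen : PrincipalGeneratedByIntegral A π N)
    (hR : RiemannBound L (laurentBaseChange L (modularFunctionFieldFull N)))
    (σ : L ≃ₐ[ℚ] L) (hσ : ∀ a ∈ A, σ a ∈ A)
    (φ : k ≃+* k) (hφ : ∀ a : A, π ⟨σ a, hσ a a.2⟩ = φ (π a))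
    (D : Divisor L (laurentBaseChange L (modularFunctionFieldFull N)))
    (hD : Divisor.degree D = 0) :
    Finsupp.mapDomain r (arithmeticGalois (modularFunctionFieldFull N) σ • D)
      = coeffSL N φ • Finsupp.mapDomain r D := by
  set g := arithmeticGalois (modularFunctionFieldFull N) σ with hg
  set Φ := coeffSL N φ with hΦ
  set r₂ : Place L (laurentBaseChange L (modularFunctionFieldFull N)) →
      Place k (modularFunctionFieldFullC k N) := fun P => Φ⁻¹ • r (g • P) with hr₂
  have hcomp : ∀ D : Divisor L (laurentBaseChange L (modularFunctionFieldFull N)),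
      Finsupp.mapDomain r₂ D = Φ⁻¹ • Finsupp.mapDomain r (g • D) := by
    intro D
    have : r₂ = (fun Q => Φ⁻¹ • Q) ∘ r ∘ (fun P => g • P) := rfl
    rw [this, Finsupp.mapDomain_comp, Finsupp.mapDomain_comp]
    rfl
  have hagree : ∀ D ∈ integralPrincipalDivisors A π N,
      Finsupp.mapDomain r D = Finsupp.mapDomain r₂ D := by
    intro D hD
    rw [hcomp, smul_integral_divisor hr σ hσ φ hφ hD, inv_smul_smul]
  have h := mapDomain_eq_of_agree hgen hagree hR D hD
  rw [hcomp] at h
  rw [h, smul_inv_smul]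

/-- **Equivariance of the reduction map on `Pic⁰`.** -/
theorem reductionPic0Along_galois_smul
    {r : Place L (laurentBaseChange L (modularFunctionFieldFull N)) →
      Place k (modularFunctionFieldFullC k N)}
    (hr : IsPlaceReductionAlong A π N r) (hgen : PrincipalGeneratedByIntegral A π N)
    (hR : RiemannBound L (laurentBaseChange L (modularFunctionFieldFull N)))
    (σ : L ≃ₐ[ℚ] L) (hσ : ∀ a ∈ A, σ a ∈ A)
    (φ : k ≃+* k) (hφ : ∀ a : A, π ⟨σ a, hσ a a.2⟩ = φ (π a))
    (x : Pic0 L (laurentBaseChange L (modularFunctionFieldFull N))) :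
    reductionPic0Along r hr hgen (σ • x) = coeffSL N φ • reductionPic0Along r hr hgen x := by
  obtain ⟨D, rfl⟩ := Pic0.mk_surjective x
  rw [galois_smul_pic0_def, SemilinearAut.pic0_smul_mk, reductionPic0Along_mk,
    reductionPic0Along_mk, SemilinearAut.pic0_smul_mk]
  refine congrArg Pic0.mk (Subtype.ext ?_)
  rw [coe_reductionDegZeroAlong, SemilinearAut.coe_degZeroSMulHom,
    SemilinearAut.coe_degZeroSMulHom, coe_reductionDegZeroAlong]
  exact mapDomain_smul_of_degree_eq_zero hr hgen hR σ hσ φ hφ _ (Divisor.mem_degZero.mp D.2)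

end Equivariance

section Hecke

variable {L : Type*} [Field L] [Algebra ℚ L] {A : ValuationSubring L}
variable {k : Type*} [Field k] {π : A →+* k} {N ℓ : ℕ} [NeZero N] [NeZero ℓ]
variable (hα : HeckeAlphaBarIntegral L N ℓ) (hβ : HeckeBetaBarIntegral L N ℓ)
variable [HasPrincipalDivisors L (laurentBaseChange L (modularFunctionFieldFull (N * ℓ)))]

/-- **Eichler–Shimura relation on `Pic⁰`.** -/
theorem reductionPic0Along_hecke
    {r : Place L (laurentBaseChange L (modularFunctionFieldFull N)) →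
      Place k (modularFunctionFieldFullC k N)}
    (hr : IsPlaceReductionAlong A π N r) (hgen : PrincipalGeneratedByIntegral A π N)
    (hR : RiemannBound L (laurentBaseChange L (modularFunctionFieldFull N)))
    (hFI : FundamentalIdentityAlong L (heckeBetaBar L N ℓ) hβ)
    (hfin : FiniteAlong L (heckeAlphaBar L N ℓ))
    (hN : NormFormulaAlong L (heckeAlphaBar L N ℓ) hfin)
    (φ : k ≃+* k) (hK : KroneckerNorm A π N ℓ φ)
    (C : ℕ) (hC : ∀ P : Place L (laurentBaseChange L (modularFunctionFieldFull N)),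
      l1norm (heckeDivBar hα hβ (Finsupp.single P 1)) ≤ C)
    (x : Pic0 L (laurentBaseChange L (modularFunctionFieldFull N))) :
    reductionPic0Along r hr hgen (heckePic0Bar hα hβ hFI hfin hN x)
      = coeffSL N φ • reductionPic0Along r hr hgen x
        + ℓ • ((coeffSL N φ)⁻¹ • reductionPic0Along r hr hgen x) := by
  obtain ⟨D, rfl⟩ := Pic0.mk_surjective x
  have h1 : heckePic0Bar hα hβ hFI hfin hN (Pic0.mk D)
      = Pic0.mk (Pic0.degZeroCorrespondence (heckeBetaBar L N ℓ) (heckeAlphaBar L N ℓ) hβ hα hFI D) :=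
    rfl
  have hmk : ∀ (n : ℕ) (E : Divisor.degZero (K := k) (F := modularFunctionFieldFullC k N)),
      n • Pic0.mk E = Pic0.mk (n • E) := fun n E => (QuotientAddGroup.mk_nsmul _ E n).symm
  rw [h1, reductionPic0Along_mk, reductionPic0Along_mk, SemilinearAut.pic0_smul_mk,
    SemilinearAut.pic0_smul_mk, hmk, ← Pic0.mk_add]
  refine congrArg Pic0.mk (Subtype.ext ?_)
  exact relation_divisor hα hβ hr hgen hR hfin hN φ hK C hC D (Divisor.mem_degZero.mp D.2)

end Hecke

end Fermat.Agent.S37.H697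

end
end
-- ===== PACK-END S37/H697/Pic0Level.lean

-- ===== PACK-BEGIN S37/H697/HeckeBound.lean
section


/-!
# S37 (helper697): the Hecke correspondence is bounded on prime divisors

If all places of `F_N ⊗ L` have degree one, then `T (P)` is an effective divisor of degree
`[F_{Nℓ} : β F_N]`, hence of `ℓ¹`-norm `[F_{Nℓ} : β F_N]`.  This discharges the boundedness
hypothesis `hC` of `relation_divisor`.
-/

set_option autoImplicit false
set_option linter.style.haveILetI false

noncomputable section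

open HahnSeries IntermediateField AlgebraicCurve ModularCurve

namespace Fermat.Agent.S37.H697

section General

variable {K F F' : Type*} [Field K] [Field F] [Field F'] [Algebra K F] [Algebra K F']

theorem l1norm_eq_degree_of_nonneg (hdeg : ∀ v : Place K F, v.deg = 1) (D : Divisor K F)
    (hD : ∀ v, 0 ≤ D v) : (l1norm D : ℤ) = Divisor.degree D := by
  unfold l1norm Divisor.degree
  rw [Finsupp.liftAddHom_apply, Finsupp.sum, Finsupp.sum, Nat.cast_sum]
  refine Finset.sum_congr rfl fun v _ => ?_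
  rw [AddMonoidHom.mulRight_apply, hdeg v, Nat.cast_one, mul_one]
  exact Int.natAbs_of_nonneg (hD v)

theorem pullbackAlong_nonneg [HasPrincipalDivisors K F'] (φ : F →ₐ[K] F')
    (hφ : φ.toRingHom.IsIntegral) (D : Divisor K F) (hD : ∀ v, 0 ≤ D v) (w : Place K F') :
    0 ≤ Divisor.pullbackAlong φ hφ D w := by
  letI := algebraAlong φ
  haveI := isScalarTower_along φ
  haveI := isIntegral_along φ hφ
  show 0 ≤ Divisor.pullback F' D w
  rw [Divisor.pullback_apply]
  exact mul_nonneg (Int.natCast_nonneg _) (hD _)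

theorem pushforwardAlong_nonneg (φ : F →ₐ[K] F')
    (hφ : φ.toRingHom.IsIntegral) (D : Divisor K F') (hD : ∀ w, 0 ≤ D w) (v : Place K F) :
    0 ≤ Divisor.pushforwardAlong φ hφ D v := by
  classical
  letI := algebraAlong φ
  haveI := isScalarTower_along φ
  haveI := isIntegral_along φ hφ
  show 0 ≤ Divisor.pushforward F D v
  rw [Divisor.pushforward_apply]
  refine Finset.sum_nonneg fun w _ => ?_
  split_ifs
  · exact mul_nonneg (hD w) (Int.natCast_nonneg _)
  · exact le_rfl

end General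

section Hecke

variable {L : Type*} [Field L] [Algebra ℚ L] {N ℓ : ℕ} [NeZero N] [NeZero ℓ]
variable (hα : HeckeAlphaBarIntegral L N ℓ) (hβ : HeckeBetaBarIntegral L N ℓ)
variable [HasPrincipalDivisors L (laurentBaseChange L (modularFunctionFieldFull (N * ℓ)))]

/-- `T (P)` has `ℓ¹`-norm `[F_{Nℓ} : β F_N]`. -/
theorem l1norm_heckeDivBar_single
    (hdeg : ∀ P : Place L (laurentBaseChange L (modularFunctionFieldFull N)), P.deg = 1)
    (hFI : FundamentalIdentityAlong L (heckeBetaBar L N ℓ) hβ)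
    (P : Place L (laurentBaseChange L (modularFunctionFieldFull N))) :
    l1norm (heckeDivBar hα hβ (Finsupp.single P 1)) = finrankAlong L (heckeBetaBar L N ℓ) := by
  classical
  have hnn : ∀ v, 0 ≤ heckeDivBar hα hβ (Finsupp.single P 1) v := by
    intro v
    refine pushforwardAlong_nonneg (heckeAlphaBar L N ℓ) hα _ (fun w => ?_) v
    refine pullbackAlong_nonneg (heckeBetaBar L N ℓ) hβ _ (fun u => ?_) w
    rw [Finsupp.single_apply]
    split_ifs <;> norm_num
  have h1 := l1norm_eq_degree_of_nonneg hdeg _ hnn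
  have h2 : Divisor.degree (heckeDivBar hα hβ (Finsupp.single P 1))
      = (finrankAlong L (heckeBetaBar L N ℓ) : ℤ) * Divisor.degree (Finsupp.single P (1 : ℤ)) :=
    Divisor.degree_correspondence (heckeBetaBar L N ℓ) (heckeAlphaBar L N ℓ) hβ hα hFI _
  rw [h2, Divisor.degree_single, hdeg P, Nat.cast_one, mul_one, mul_one] at h1
  exact_mod_cast h1

end Hecke

end Fermat.Agent.S37.H697

end
end
-- ===== PACK-END S37/H697/HeckeBound.lean

-- ===== PACK-BEGIN S37/H818/LocalGen.lean
section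
/-
S37 / LEVEL TRANSFER (helper818), part 4: local generators exist (weak approximation), so the
hypothesis `HasLocalGenerators` of `BaseChange.lean` is automatic.
-/





set_option autoImplicit false
set_option linter.style.haveILetI false

noncomputable section

namespace Fermat.Agent.S37.H818

open AlgebraicCurve

variable {K F F₁ : Type*} [Field K] [Field F] [Field F₁] [Algebra K F] [Algebra K F₁]

/-- Local generators always exist, by weak approximation on the (finite) fibre. -/
theorem hasLocalGenerators [HasPrincipalDivisors K F₁] (a : F →ₐ[K] F₁)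
    (ha : a.toRingHom.IsIntegral) : HasLocalGenerators a ha := by
  classical
  intro w
  set S : Finset (Place K F₁) := Place.fiberAlong a ha (w.restrictAlong a ha) with hS
  have hwS : w ∈ S := Place.mem_fiberAlong.mpr rfl
  obtain ⟨z, hz⟩ := Fermat.Agent.Lib.RR.H623.weak_approximation S (fun _ => (0 : F₁))
    (fun v => if v = w then 1 else 0)
  have hzw := hz w hwS
  simp only [sub_zero, if_true] at hzw
  refine ⟨z, hzw.1, by rw [hzw.2]; exact one_ne_zero, fun w' hw' hfib => ?_⟩
  have hw'S : w' ∈ S := Place.mem_fiberAlong.mpr hfib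
  have := (hz w' hw'S).2
  simpa [sub_zero, if_neg hw'] using this

end Fermat.Agent.S37.H818

end

end
-- ===== PACK-END S37/H818/LocalGen.lean

-- ===== PACK-BEGIN S28/H988/Upper.lean
section
/-
S28 / [L.UP] upper bound, helper988.
`[E_N : k(j)] ≤ ψ(N)` over ANY field `k`, from the modular relations at the primes dividing `N`;
adapter from the captain's `ModPolyData`.
-/






set_option autoImplicit false

noncomputable section

open Polynomial ModularCurve

namespace Fermat.Agent.S28.H988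

variable (k : Type*) [Field k]

/-- Adapter: the captain's `ModPolyData p` gives the relations over every field. -/
theorem phiRel_of_modPolyData (p : ℕ) [NeZero p] (D : Fermat.Agent.S28.ModPolyData p) :
    PhiRel k p D.Φ := by
  set c : LaurentSeries ℤ →+* LaurentSeries k := coeffMap (Int.castRingHom k) with hc
  have hcj : c (jqModC ℤ) = jqModC k := coeffMap_jqModC _
  have hcjp : c (qExpand ℤ p (jqModC ℤ)) = jd k p := by
    rw [hc, coeffMap_qExpand, coeffMap_jqModC, jd_eq]
  have hcomp : ∀ y : LaurentSeries ℤ,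
      c.comp (Fermat.Agent.S28.evalAt y) = eval₂RingHom (Int.castRingHom (LaurentSeries k)) (c y) := by
    intro y
    apply Polynomial.ringHom_ext
    · intro a
      simp [Fermat.Agent.S28.evalAt]
    · simp [Fermat.Agent.S28.evalAt]
  refine ⟨D.monic, D.natDegree_eq, ?_, ?_⟩
  · have := congrArg c D.eval_jp
    rw [_root_.map_zero, Polynomial.hom_eval₂, hcomp, hcj, hcjp, eval₂_eq_eval_map] at this
    exact this
  · have := congrArg c D.eval_j
    rw [_root_.map_zero, Polynomial.hom_eval₂, hcomp, hcj, hcjp, eval₂_eq_eval_map] at this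
    exact this

theorem full_one : modularFunctionFieldFullC k 1 = IntermediateField.adjoin k {jqModC k} := by
  apply le_antisymm
  · rw [full_le_iff k one_ne_zero]
    intro d hd
    rw [Nat.dvd_one.mp hd, jd_one]
    exact IntermediateField.mem_adjoin_simple_self k _
  · rw [IntermediateField.adjoin_le_iff]
    rintro x hx
    rw [Set.mem_singleton_iff] at hx
    rw [hx]
    exact jqModC_mem_full k 1

variable {k}

/-- **Upper bound.** `0 < [E_N : E_1] ≤ ψ(N)`. -/
theorem relfinrank_full_le (Φ : ℕ → Polynomial (Polynomial ℤ)) (N : ℕ) (hN : N ≠ 0)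
    (hΦ : ∀ r, r.Prime → r ∣ N → PhiRel k r (Φ r)) :
    0 < IntermediateField.relfinrank (modularFunctionFieldFullC k 1)
        (modularFunctionFieldFullC k N) ∧
    IntermediateField.relfinrank (modularFunctionFieldFullC k 1)
        (modularFunctionFieldFullC k N) ≤ dedekindPsi N := by
  induction N using induction_on_primes with
  | zero => exact absurd rfl hN
  | one =>
    rw [IntermediateField.relfinrank_self, dedekindPsi_one]
    exact ⟨Nat.one_pos, le_rfl⟩
  | prime_mul p M hp ih =>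
    have hM : M ≠ 0 := by rintro rfl; simp at hN
    rw [mul_comm p M] at hΦ ⊢
    have ih' := ih hM (fun r hr hrM => hΦ r hr (hrM.trans (Dvd.intro p rfl)))
    have hstep := relfinrank_step Φ hM hp hΦ
    have hMp : M * p ≠ 0 := Nat.mul_ne_zero hM hp.ne_zero
    have h1 : modularFunctionFieldFullC k 1 ≤ modularFunctionFieldFullC k M :=
      full_mono k hM (one_dvd M)
    have h2 : modularFunctionFieldFullC k M ≤ modularFunctionFieldFullC k (M * p) :=
      full_mono k hMp (Dvd.intro p rfl)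
    rw [← IntermediateField.relfinrank_mul_relfinrank h1 h2]
    refine ⟨Nat.mul_pos ih'.1 hstep.1, ?_⟩
    by_cases hpM : p ∣ M
    · rw [if_pos hpM] at hstep
      rw [Fermat.Agent.S20.H872.dedekindPsi_mul_prime_of_dvd hM hp hpM, mul_comm]
      exact Nat.mul_le_mul hstep.2 ih'.2
    · rw [if_neg hpM] at hstep
      rw [Fermat.Agent.S20.H872.dedekindPsi_mul_prime_of_not_dvd hM hp hpM, mul_comm]
      exact Nat.mul_le_mul hstep.2 ih'.2

/-- **Upper bound**, existential form of the hypothesis. -/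
theorem relfinrank_full_le' (N : ℕ) (hN : N ≠ 0)
    (hΦ : ∀ r : ℕ, r.Prime → r ∣ N → ∃ Φ : Polynomial (Polynomial ℤ), PhiRel k r Φ) :
    0 < IntermediateField.relfinrank (modularFunctionFieldFullC k 1)
        (modularFunctionFieldFullC k N) ∧
    IntermediateField.relfinrank (modularFunctionFieldFullC k 1)
        (modularFunctionFieldFullC k N) ≤ dedekindPsi N := by
  classical
  set Φ : ℕ → Polynomial (Polynomial ℤ) := fun r =>
    if h : r.Prime ∧ r ∣ N then (hΦ r h.1 h.2).choose else 0 with hΦdef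
  refine relfinrank_full_le Φ N hN ?_
  intro r hr hrN
  have hΦr : Φ r = (hΦ r hr hrN).choose := by
    rw [hΦdef]
    simp only
    rw [dif_pos ⟨hr, hrN⟩]
  rw [hΦr]
  exact (hΦ r hr hrN).choose_spec

/-- **Upper bound from the captain's interface**, over any field `k`:
`0 < [k(j(q^d) : d ∣ N) : k(j)] ≤ ψ(N)`. -/
theorem relfinrank_jField_full_le (N : ℕ) (hN : N ≠ 0)
    (hΦ : ∀ (r : ℕ) (hr : r.Prime), r ∣ N →
      Nonempty (@Fermat.Agent.S28.ModPolyData r ⟨hr.ne_zero⟩)) :
    0 < IntermediateField.relfinrank (Fermat.Agent.S28.jField k)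
        (modularFunctionFieldFullC k N) ∧
    IntermediateField.relfinrank (Fermat.Agent.S28.jField k)
        (modularFunctionFieldFullC k N) ≤ dedekindPsi N := by
  have hj : Fermat.Agent.S28.jField k = modularFunctionFieldFullC k 1 := (full_one k).symm
  rw [hj]
  refine relfinrank_full_le' N hN ?_
  intro r hr hrN
  have : NeZero r := ⟨hr.ne_zero⟩
  obtain ⟨D⟩ := hΦ r hr hrN
  exact ⟨D.Φ, phiRel_of_modPolyData k r D⟩

/-- The same over `ℚ`, for the Prelude's `modularFunctionFieldFull`. -/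
theorem relfinrank_jField_modularFunctionFieldFull_le (N : ℕ) (hN : N ≠ 0)
    (hΦ : ∀ (r : ℕ) (hr : r.Prime), r ∣ N →
      Nonempty (@Fermat.Agent.S28.ModPolyData r ⟨hr.ne_zero⟩)) :
    0 < IntermediateField.relfinrank (Fermat.Agent.S28.jField ℚ) (modularFunctionFieldFull N) ∧
    IntermediateField.relfinrank (Fermat.Agent.S28.jField ℚ) (modularFunctionFieldFull N)
      ≤ dedekindPsi N :=
  relfinrank_jField_full_le (k := ℚ) N hN hΦ

end Fermat.Agent.S28.H988

end

end
-- ===== PACK-END S28/H988/Upper.lean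

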