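import Mathlib
import Fermat.Prelude.Thm_ModularCurve_coeffMap_qExpand
import Mathlib.Analysis.Complex.UpperHalfPlane.Manifold
import Mathlib.Geometry.Manifold.Notation
import Mathlib.Geometry.Manifold.MFDeriv.SpecificFunctions
import Fermat.Prelude.Def_FLTPrelim_Ramification
import Fermat.Prelude.Def_ModularCurve_X0ModL
import Fermat.Prelude.Def_CuspForm_IntegralStructure
import Fermat.Prelude.Def_CuspForm_HeckeAlgebra
import Fermat.Agent.Pack.S33.E11L3
import Fermat.Agent.Pack.S33.E7L1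
import Fermat.Agent.Pack.S33.E9L0
import Fermat.Agent.Pack.S33.E4L3
import Fermat.Agent.Pack.S33.E4L2
import Fermat.Agent.Pack.S33.E11L0
import Fermat.Agent.Pack.S33.E12L3
import Fermat.Agent.Pack.S33.E1L0
import Fermat.Agent.Pack.S33.E1L1
import Fermat.Agent.Pack.S33.E4L1
import Fermat.Agent.Pack.S33.E12L1
import Fermat.Agent.Pack.S33.E12L2
import Fermat.Agent.Pack.S33.E10L2
import Fermat.Agent.Pack.S33.E12L0
import Fermat.Agent.Pack.S33.E10L0
import Fermat.Agent.Pack.S33.E11L1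
import Fermat.Agent.Pack.S33.E6L3
import Fermat.Agent.Pack.S33.E3L2
import Fermat.Agent.Pack.S33.E1L2
import Fermat.Agent.Pack.S33.E2L1

-- ===== PACK-BEGIN Lib/Cheb/H221/Tier2.lean
section









/-!
# Tier 2 of CHEB modulo the analytic core (helper221)

Everything except `Spec.DirichletLimitStatement` (AN) is discharged with the theorems already on
main: exact qualitative Chebotarev follows from AN alone.
-/

set_option autoImplicit false

namespace Fermat.Agent.Lib.Cheb.H221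

open Fermat.Agent.Lib.Cheb

/-- Tier 1, finite level (assembled from landed pieces). -/
theorem frobFinite_main : Spec.FrobFiniteStatement :=
  H341.frobFinite H761.primeSum_statement H761.primeCountBound_statement H764.count
    H943.frobStatement

/-- CYC from AN. -/
theorem cyc_of_dirichletLimit (hAN : Spec.DirichletLimitStatement) : Spec.CycStatement :=
  cyc H761.primeSum_statement H764.count H943.frobStatement frobFinite_main hAN

/-- Finite-level exact Chebotarev from AN. -/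
theorem chebFinite_of_dirichletLimit (hAN : Spec.DirichletLimitStatement) :
    Spec.ChebFiniteStatement :=
  H223.cross H943.frobStatement (cyc_of_dirichletLimit hAN)

/-- Prelude-level exact qualitative Chebotarev from AN. -/
theorem chebotarev_of_dirichletLimit (hAN : Spec.DirichletLimitStatement) :
    Spec.ChebotarevStatement :=
  H476.bridge (chebFinite_of_dirichletLimit hAN)

end Fermat.Agent.Lib.Cheb.H221

end
-- ===== PACK-END Lib/Cheb/H221/Tier2.lean

-- ===== PACK-BEGIN S14/H74/Orbit.lean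
section



/-!
# S14/N1 (helper74): orbit decomposition of the smoothed sum (piece P3)
-/

namespace Fermat.Agent.S14.H74

open NumberField NumberField.mixedEmbedding NumberField.Units
  NumberField.Units.dirichletUnitTheorem NumberField.InfinitePlace Module

open scoped Classical

variable {K : Type*} [Field K] [NumberField K]

/-- Nonzero principal ideals contained in `J`. -/
def PJ (J : Ideal (𝓞 K)) : Type _ :=
  {I : Ideal (𝓞 K) // I ≠ ⊥ ∧ I.IsPrincipal ∧ I ≤ J}

/-- A chosen generator. -/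
noncomputable def pjGen {J : Ideal (𝓞 K)} (I : PJ J) : 𝓞 K :=
  haveI := I.2.2.1
  Submodule.IsPrincipal.generator I.1

theorem span_pjGen {J : Ideal (𝓞 K)} (I : PJ J) : Ideal.span {pjGen I} = I.1 := by
  have := I.2.2.1
  exact Ideal.span_singleton_generator I.1

theorem pjGen_ne_zero {J : Ideal (𝓞 K)} (I : PJ J) : pjGen I ≠ 0 := by
  intro h
  have := span_pjGen I
  rw [h, Ideal.span_singleton_eq_bot.mpr rfl] at this
  exact I.2.1 this.symm

theorem pjGen_mem {J : Ideal (𝓞 K)} (I : PJ J) : pjGen I ∈ J := by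
  apply I.2.2.2
  rw [← span_pjGen I]
  exact Ideal.mem_span_singleton_self _

theorem span_unit_mul (u : (𝓞 K)ˣ) (g : 𝓞 K) :
    Ideal.span {(u : 𝓞 K) * g} = Ideal.span {g} :=
  Ideal.span_singleton_mul_left_unit u.isUnit g

/-- The orbit decomposition of the nonzero elements of `J`. -/
noncomputable def orbitEquiv (J : Ideal (𝓞 K)) :
    PJ J × (𝓞 K)ˣ ≃ {y : 𝓞 K // y ∈ J ∧ y ≠ 0} :=
  Equiv.ofBijective (fun p ↦ ⟨(p.2 : 𝓞 K) * pjGen p.1,
    J.mul_mem_left _ (pjGen_mem p.1), mul_ne_zero p.2.ne_zero (pjGen_ne_zero p.1)⟩) (by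
    constructor
    · rintro ⟨I, u⟩ ⟨I', u'⟩ h
      have h1 : (u : 𝓞 K) * pjGen I = (u' : 𝓞 K) * pjGen I' := congrArg Subtype.val h
      have e1 : I.1 = Ideal.span {(u : 𝓞 K) * pjGen I} := by rw [span_unit_mul, span_pjGen]
      have e2 : I'.1 = Ideal.span {(u' : 𝓞 K) * pjGen I'} := by rw [span_unit_mul, span_pjGen]
      have h2 : I = I' := Subtype.ext (by rw [e1, e2, h1])
      subst h2
      have h3 : (u : 𝓞 K) = u' := mul_right_cancel₀ (pjGen_ne_zero I) h1
      rw [Units.ext h3]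
    · rintro ⟨y, hyJ, hy0⟩
      let I : PJ J := ⟨Ideal.span {y}, by
        rw [Ne, Ideal.span_singleton_eq_bot]
        exact hy0, ⟨⟨y, rfl⟩⟩, by
        rw [Ideal.span_singleton_le_iff_mem]
        exact hyJ⟩
      have h1 : Ideal.span {pjGen I} = Ideal.span {y} := span_pjGen I
      rw [Ideal.span_singleton_eq_span_singleton] at h1
      obtain ⟨u, hu⟩ := h1
      refine ⟨(I, u), Subtype.ext ?_⟩
      show (u : 𝓞 K) * pjGen I = y
      rw [mul_comm]
      exact hu)

theorem orbitEquiv_apply (J : Ideal (𝓞 K)) (p : PJ J × (𝓞 K)ˣ) :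
    ((orbitEquiv J p : {y : 𝓞 K // y ∈ J ∧ y ≠ 0}) : 𝓞 K) = (p.2 : 𝓞 K) * pjGen p.1 := rfl

theorem mixedEmbedding_unit_mul (u : (𝓞 K)ˣ) (g : 𝓞 K) :
    mixedEmbedding K (((u : 𝓞 K) * g : 𝓞 K) : K) = u • mixedEmbedding K (g : K) := by
  rw [unitSMul_smul, ← map_mul]
  rfl

theorem norm_pjGen {J : Ideal (𝓞 K)} (I : PJ J) :
    mixedEmbedding.norm (mixedEmbedding K (pjGen I : K)) = (Ideal.absNorm I.1 : ℝ) := by
  rw [mixedEmbedding_norm_coe, ← span_pjGen I, Ideal.absNorm_span_singleton, Nat.cast_natAbs,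
    Int.cast_abs]

theorem FS_unit_mul (s : ℝ) (u : (𝓞 K)ˣ) {J : Ideal (𝓞 K)} (I : PJ J) :
    FS K s ((u : 𝓞 K) * pjGen I) =
      rho K (u • mixedEmbedding K (pjGen I : K)) * (Ideal.absNorm I.1 : ℝ) ^ (-s) := by
  unfold FS fS
  rw [mixedEmbedding_unit_mul, norm_unit_smul, norm_pjGen]

theorem tsum_ideal_eq_tsum_ne_zero (J : Ideal (𝓞 K)) (s : ℝ) :
    ∑' y : J, FS K s (y : 𝓞 K) = ∑' y : {y : 𝓞 K // y ∈ J ∧ y ≠ 0}, FS K s (y : 𝓞 K) := by
  have h1 := tsum_subtype (J : Set (𝓞 K)) (FS K s)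
  have h2 := tsum_subtype ({y : 𝓞 K | y ∈ J ∧ y ≠ 0}) (FS K s)
  have h3 : (J : Set (𝓞 K)).indicator (FS K s) =
      ({y : 𝓞 K | y ∈ J ∧ y ≠ 0}).indicator (FS K s) := by
    funext y
    by_cases hy : y = 0
    · subst hy
      simp [Set.indicator, FS_zero]
    · simp [Set.indicator, hy]
  calc ∑' y : J, FS K s (y : 𝓞 K) = ∑' y, (J : Set (𝓞 K)).indicator (FS K s) y := h1
    _ = ∑' y, ({y : 𝓞 K | y ∈ J ∧ y ≠ 0}).indicator (FS K s) y := by rw [h3]
    _ = _ := h2.symm

/-- **P3**: the smoothed sum over `J` is the sum over the nonzero principal ideals contained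
in `J`, counted with multiplicity `torsionOrder K`. -/
theorem tsum_FS_eq (J : Ideal (𝓞 K)) {s : ℝ} (hs : 1 < s) :
    ∑' y : J, FS K s (y : 𝓞 K) =
      (torsionOrder K : ℝ) * ∑' I : PJ J, (Ideal.absNorm I.1 : ℝ) ^ (-s) := by
  rw [tsum_ideal_eq_tsum_ne_zero]
  have hsumF := summable_FS (K := K) hs
  have hsum0 : Summable fun y : {y : 𝓞 K // y ∈ J ∧ y ≠ 0} ↦ FS K s (y : 𝓞 K) :=
    hsumF.comp_injective Subtype.val_injective
  set G : PJ J × (𝓞 K)ˣ → ℝ := fun p ↦
    rho K (p.2 • mixedEmbedding K (pjGen p.1 : K)) * (Ideal.absNorm p.1.1 : ℝ) ^ (-s) with hG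
  have hcomp : (fun y : {y : 𝓞 K // y ∈ J ∧ y ≠ 0} ↦ FS K s (y : 𝓞 K)) ∘ orbitEquiv J = G := by
    funext p
    simp only [Function.comp_apply, orbitEquiv_apply, hG]
    exact FS_unit_mul s p.2 p.1
  have hsumG : Summable G := by
    rw [← hcomp]
    exact (orbitEquiv J).summable_iff.mpr hsum0
  have hfib : ∀ I : PJ J, HasSum (fun u : (𝓞 K)ˣ ↦ G (I, u))
      ((torsionOrder K : ℝ) * (Ideal.absNorm I.1 : ℝ) ^ (-s)) := by
    intro I
    have hN : mixedEmbedding.norm (mixedEmbedding K (pjGen I : K)) ≠ 0 := by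
      rw [norm_pjGen]
      have : Ideal.absNorm I.1 ≠ 0 := by
        rw [Ne, Ideal.absNorm_eq_zero_iff]
        exact I.2.1
      exact_mod_cast this
    exact (hasSum_rho_unit_smul hN).mul_right _
  calc ∑' y : {y : 𝓞 K // y ∈ J ∧ y ≠ 0}, FS K s (y : 𝓞 K)
      = ∑' p : PJ J × (𝓞 K)ˣ, G p := by
        rw [← hcomp]
        exact ((orbitEquiv J).tsum_eq _).symm
    _ = ∑' I : PJ J, ∑' u : (𝓞 K)ˣ, G (I, u) := hsumG.tsum_prod' fun I ↦ (hfib I).summable
    _ = ∑' I : PJ J, (torsionOrder K : ℝ) * (Ideal.absNorm I.1 : ℝ) ^ (-s) :=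
        tsum_congr fun I ↦ (hfib I).tsum_eq
    _ = _ := tsum_mul_left

end Fermat.Agent.S14.H74

end
-- ===== PACK-END S14/H74/Orbit.lean

-- ===== PACK-BEGIN S30/H709/OccJ.lean
section


/-!
# S30-OCC, transport to the Jacobian: occurrence of `χ` in `𝒪 ⊗ J` modulo every power of `p`

`KummerSystem` is the interface expected from the Kummer layer (`M4b` for all `pⁿ`): maps
`κ n : (Γ₀(N) → ℤ) → J` (the class attached to `c mod pⁿ`), additive on integral parabolic
characters, compatible (`p • κ (n+1) = κ n`, `κ 0 = 0`), Hecke-equivariant, and injective modulo `p`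
at level `1`.

`exists_occ_tensor`: from `PeriodHecke` and a `KummerSystem`, every `χ : heckeAlgebra N 2 S →+* 𝒪`
(`𝒪` a local principal ideal domain of characteristic `0` with `p ∈ 𝔪`) occurs in `𝒪 ⊗ J` with
exact order `pⁿ⁺¹` for every `n`: exactly the hypothesis `hocc` of
`Fermat.Agent.S30.H349.nonempty_adicEigenModule_of_tower`.
-/

set_option autoImplicit false

noncomputable section

namespace Fermat.Agent.S30.H709

open CongruenceSubgroup ModularCurve ModularCurve.Period TensorProduct IsLocalRing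
open scoped MatrixGroups

/-- Integral parabolic characters of `Γ₀(N)`, as plain functions. -/
def IsParZ {N : ℕ} (c : Gamma0 N → ℤ) : Prop :=
  (∀ γ δ : Gamma0 N, c (γ * δ) = c γ + c δ) ∧
    ∀ γ : Gamma0 N, ((γ : SL(2, ℤ)) : Matrix (Fin 2) (Fin 2) ℤ).trace ^ 2 = 4 → c γ = 0

theorem IsParZ.zero {N : ℕ} : IsParZ (0 : Gamma0 N → ℤ) :=
  ⟨fun _ _ => by simp, fun _ _ => rfl⟩

theorem IsParZ.add {N : ℕ} {c c' : Gamma0 N → ℤ} (h : IsParZ c) (h' : IsParZ c') :
    IsParZ (c + c') :=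
  ⟨fun γ δ => by simp only [Pi.add_apply, h.1 γ δ, h'.1 γ δ]; ring,
    fun γ hγ => by simp only [Pi.add_apply, h.2 γ hγ, h'.2 γ hγ, add_zero]⟩

theorem IsParZ.neg {N : ℕ} {c : Gamma0 N → ℤ} (h : IsParZ c) : IsParZ (-c) :=
  ⟨fun γ δ => by simp only [Pi.neg_apply, h.1 γ δ]; ring,
    fun γ hγ => by simp only [Pi.neg_apply, h.2 γ hγ, neg_zero]⟩

theorem IsParZ.smul {N : ℕ} {c : Gamma0 N → ℤ} (h : IsParZ c) (a : ℤ) : IsParZ (a • c) :=
  ⟨fun γ δ => by simp only [Pi.smul_apply, smul_eq_mul, h.1 γ δ]; ring,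
    fun γ hγ => by simp only [Pi.smul_apply, smul_eq_mul, h.2 γ hγ, mul_zero]⟩

theorem IsParZ.sum {N : ℕ} {ι : Type*} (s : Finset ι) (f : ι → Gamma0 N → ℤ)
    (h : ∀ i ∈ s, IsParZ (f i)) : IsParZ (∑ i ∈ s, f i) := by
  classical
  induction s using Finset.induction_on with
  | empty => rw [Finset.sum_empty]; exact IsParZ.zero
  | insert a s ha ih =>
    rw [Finset.sum_insert ha]
    exact (h a (Finset.mem_insert_self a s)).add
      (ih fun i hi => h i (Finset.mem_insert_of_mem hi))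

/-- The cohomological Hecke operator on functions `Γ₀(N) → ℤ` attached to `fac`. -/
def heckeFn {N : ℕ} (fac : ℕ → Gamma0 N → Multiset (Gamma0 N)) (ℓ : ℕ) (c : Gamma0 N → ℤ) :
    Gamma0 N → ℤ :=
  fun γ => ((fac ℓ γ).map c).sum

/-- **Interface of the Kummer layer for all powers of `p`.**  `κ n c` is the class in `J[pⁿ]`
attached to the character `c mod pⁿ` (for S30: `J = JZero N`, `T ℓ` the Hecke operator). -/
structure KummerSystem (N : ℕ) (fac : ℕ → Gamma0 N → Multiset (Gamma0 N)) (S : Set ℕ) (p : ℕ)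
    (J : Type*) [AddCommGroup J] (T : Nat.Primes → J →+ J) where
  /-- the Kummer maps -/
  κ : ℕ → (Gamma0 N → ℤ) → J
  map_add : ∀ n c c', IsParZ c → IsParZ c' → κ n (c + c') = κ n c + κ n c'
  map_zero_level : ∀ c, IsParZ c → κ 0 c = 0
  compat : ∀ n c, IsParZ c → p • κ (n + 1) c = κ n c
  inj : ∀ c, IsParZ c → κ 1 c = 0 → ∀ γ, (p : ℤ) ∣ c γ
  hecke : ∀ (n : ℕ) (ℓ : Nat.Primes), ¬ (ℓ : ℕ) ∣ N → (ℓ : ℕ) ∉ S → ∀ c, IsParZ c →
    T ℓ (κ n c) = κ n (heckeFn fac ℓ c)

namespace KummerSystem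

variable {N : ℕ} {fac : ℕ → Gamma0 N → Multiset (Gamma0 N)} {S : Set ℕ} {p : ℕ}
  {J : Type*} [AddCommGroup J] {T : Nat.Primes → J →+ J} (K : KummerSystem N fac S p J T)

theorem map_zero (n : ℕ) : K.κ n 0 = 0 := by
  have h := K.map_add n 0 0 IsParZ.zero IsParZ.zero
  rw [add_zero] at h
  exact left_eq_add.mp h

theorem map_neg (n : ℕ) {c : Gamma0 N → ℤ} (hc : IsParZ c) : K.κ n (-c) = - K.κ n c := by
  have h := K.map_add n c (-c) hc hc.neg
  rw [add_neg_cancel, K.map_zero] at h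
  exact (neg_eq_of_add_eq_zero_right h.symm).symm

theorem map_nsmul (n : ℕ) {c : Gamma0 N → ℤ} (hc : IsParZ c) (k : ℕ) :
    K.κ n (k • c) = k • K.κ n c := by
  induction k with
  | zero => rw [_root_.zero_smul, _root_.zero_smul, K.map_zero]
  | succ k ih =>
    rw [succ_nsmul, succ_nsmul, K.map_add n _ _ (by simpa using hc.smul (k : ℤ)) hc, ih]

theorem map_zsmul (n : ℕ) {c : Gamma0 N → ℤ} (hc : IsParZ c) (a : ℤ) :
    K.κ n (a • c) = a • K.κ n c := by
  rcases Int.eq_nat_or_neg a with ⟨k, rfl | rfl⟩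
  · rw [natCast_zsmul, natCast_zsmul, K.map_nsmul n hc]
  · rw [neg_smul, neg_smul, natCast_zsmul, natCast_zsmul,
      K.map_neg n (by simpa using hc.smul (k : ℤ)), K.map_nsmul n hc]

theorem map_sum (n : ℕ) {ι : Type*} (s : Finset ι) (f : ι → Gamma0 N → ℤ)
    (h : ∀ i ∈ s, IsParZ (f i)) : K.κ n (∑ i ∈ s, f i) = ∑ i ∈ s, K.κ n (f i) := by
  classical
  induction s using Finset.induction_on with
  | empty => rw [Finset.sum_empty, Finset.sum_empty, K.map_zero]
  | insert a s ha ih =>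
    rw [Finset.sum_insert ha, Finset.sum_insert ha,
      K.map_add n _ _ (h a (Finset.mem_insert_self a s))
        (IsParZ.sum s f fun i hi => h i (Finset.mem_insert_of_mem hi)),
      ih fun i hi => h i (Finset.mem_insert_of_mem hi)]

theorem pow_smul (n k : ℕ) {c : Gamma0 N → ℤ} (hc : IsParZ c) :
    p ^ k • K.κ (n + k) c = K.κ n c := by
  induction k with
  | zero => rw [pow_zero, _root_.one_smul, add_zero]
  | succ k ih =>
    rw [pow_succ, mul_smul, ← add_assoc, K.compat (n + k) c hc, ih]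

end KummerSystem

/-- In a local principal ideal domain every nonzero vector is a nonzero multiple of a vector
with a unit coordinate. -/
theorem exists_primitive_vector {O : Type*} [CommRing O] [IsDomain O] [IsLocalRing O]
    [IsPrincipalIdealRing O] {r : ℕ} (w : Fin r → O) (hw : w ≠ 0) :
    ∃ (g : O) (w' : Fin r → O), g ≠ 0 ∧ (∀ j, w j = g * w' j) ∧ ∃ j, IsUnit (w' j) := by
  classical
  obtain ⟨g, hg⟩ := (IsPrincipalIdealRing.principal (Ideal.span (Set.range w))).principal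
  have hmem : ∀ j, w j ∈ Ideal.span ({g} : Set O) := by
    intro j
    have : w j ∈ Ideal.span (Set.range w) := Ideal.subset_span ⟨j, rfl⟩
    rw [hg] at this
    exact this
  have hdiv : ∀ j, ∃ a, w j = g * a := fun j => by
    obtain ⟨a, ha⟩ := Ideal.mem_span_singleton'.mp (hmem j)
    exact ⟨a, by rw [← ha, mul_comm]⟩
  choose w' hw' using hdiv
  have hg0 : g ≠ 0 := by
    rintro rfl
    apply hw
    funext j
    rw [hw' j, zero_mul]
    rfl
  have hgmem : g ∈ Ideal.span (Set.range w) := by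
    rw [hg]
    exact Ideal.subset_span rfl
  obtain ⟨a, ha⟩ := Ideal.mem_span_range_iff_exists_fun.mp hgmem
  have hone : ∑ j, a j * w' j = 1 := by
    have h1 : g * ∑ j, a j * w' j = g * 1 := by
      rw [mul_one, Finset.mul_sum]
      conv_rhs => rw [← ha]
      refine Finset.sum_congr rfl fun j _ => ?_
      rw [hw' j]
      ring
    exact mul_left_cancel₀ hg0 h1
  refine ⟨g, w', hg0, hw', ?_⟩
  by_contra hcon
  rw [not_exists] at hcon
  have hmax : ∑ j, a j * w' j ∈ maximalIdeal O :=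
    Ideal.sum_mem _ fun j _ => Ideal.mul_mem_left _ _ ((mem_maximalIdeal _).mpr (hcon j))
  rw [hone] at hmax
  exact (mem_maximalIdeal _).mp hmax isUnit_one

section Nonvanishing

variable {O : Type*} [CommRing O] [IsDomain O] [CharZero O] {J : Type*} [AddCommGroup J]

/-- The `j`-th coordinate `O ⊗ ℤʳ → O`. -/
def coordTensor (O : Type*) [CommRing O] {r : ℕ} (j : Fin r) : O ⊗[ℤ] (Fin r → ℤ) →+ O :=
  (TensorProduct.lift (LinearMap.mk₂ ℤ (fun (o : O) (a : Fin r → ℤ) => a j • o)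
    (fun o o' a => by simp only [_root_.smul_add])
    (fun t o a => smul_comm (a j) t o)
    (fun o a a' => by simp only [Pi.add_apply, _root_.add_smul])
    (fun t o a => by simp only [Pi.smul_apply, smul_eq_mul, mul_smul]))).toAddMonoidHom

omit [IsDomain O] [CharZero O] in
theorem coordTensor_tmul {r : ℕ} (j : Fin r) (o : O) (a : Fin r → ℤ) :
    coordTensor O j (o ⊗ₜ[ℤ] a) = a j • o := by
  simp only [coordTensor, LinearMap.toAddMonoidHom_coe, TensorProduct.lift.tmul,
    LinearMap.mk₂_apply]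

/-- Flatness: if `φ : ℤʳ → J` has kernel inside `p ℤʳ` and `∑ wⱼ ⊗ φ(eⱼ) = 0` in `O ⊗ J`,
then `p` divides every `wⱼ`. -/
theorem dvd_of_tensor_eq_zero {r : ℕ} (φ : (Fin r → ℤ) →ₗ[ℤ] J) (m : ℤ)
    (hker : ∀ a : Fin r → ℤ, φ a = 0 → ∀ j, m ∣ a j) (w : Fin r → O)
    (hz : ∑ j, w j ⊗ₜ[ℤ] φ (Pi.single j 1) = 0) (j : Fin r) : (m : O) ∣ w j := by
  classical
  let z : O ⊗[ℤ] (Fin r → ℤ) := ∑ k, w k ⊗ₜ[ℤ] (Pi.single k (1 : ℤ))
  have hzφ : LinearMap.lTensor O φ z = 0 := by
    rw [map_sum, ← hz]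
    refine Finset.sum_congr rfl fun k _ => ?_
    rw [LinearMap.lTensor_tmul]
  have hex := Module.Flat.lTensor_exact O (LinearMap.exact_subtype_ker_map φ)
  obtain ⟨t, ht⟩ := (hex z).mp hzφ
  have hzj : coordTensor O j z = w j := by
    rw [map_sum]
    simp only [coordTensor_tmul]
    rw [Finset.sum_eq_single j]
    · rw [Pi.single_eq_same, _root_.one_smul]
    · intro k _ hk
      rw [Pi.single_eq_of_ne (Ne.symm hk), _root_.zero_smul]
    · intro h
      exact absurd (Finset.mem_univ j) h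
  have hall : ∀ t : O ⊗[ℤ] LinearMap.ker φ,
      (m : O) ∣ coordTensor O j (LinearMap.lTensor O (LinearMap.ker φ).subtype t) := by
    intro t
    induction t using TensorProduct.induction_on with
    | zero => rw [map_zero, map_zero]; exact dvd_zero _
    | tmul o a =>
      rw [LinearMap.lTensor_tmul, coordTensor_tmul]
      obtain ⟨b, hb⟩ := hker a.1 (LinearMap.mem_ker.mp a.2) j
      rw [Submodule.subtype_apply, hb, mul_smul, zsmul_eq_mul]
      exact Dvd.intro _ rfl
    | add x y hx hy => rw [map_add, map_add]; exact dvd_add hx hy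
  rw [← hzj, ← ht]
  exact hall t

end Nonvanishing

section Main

variable {N : ℕ} [NeZero N]

/-- **Occurrence of `χ` in `𝒪 ⊗ J` modulo every power of `p`**: the hypothesis `hocc` of the
`p`-adic module layer, from `PeriodHecke` and a `KummerSystem`. -/
theorem exists_occ_tensor {fac : ℕ → Gamma0 N → Multiset (Gamma0 N)}
    (hPH : PeriodHecke N fac) {S : Set ℕ} (hNS : ∀ q : ℕ, q.Prime → q ∣ N → q ∈ S)
    {O : Type*} [CommRing O] [IsDomain O] [IsLocalRing O] [IsPrincipalIdealRing O] [CharZero O]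
    (χ : CuspForm.heckeAlgebra N 2 S →+* O)
    {p : ℕ} (hpO : (p : O) ∈ maximalIdeal O)
    {J : Type*} [AddCommGroup J] {T : Nat.Primes → J →+ J}
    (K : KummerSystem N fac S p J T) (n : ℕ) :
    ∃ x : O ⊗[ℤ] J, (p : O) ^ (n + 1) • x = 0 ∧ (p : O) ^ n • x ≠ 0 ∧
      ∀ (ℓ : ℕ) (hℓ : ℓ.Prime) (hℓN : ¬ ℓ ∣ N) (hℓS : ℓ ∉ S),
        (T ⟨ℓ, hℓ⟩).toIntLinearMap.baseChange O x
          = χ (CuspForm.heckeAlgebra.T hℓ hℓN hℓS) • x := by
  classical
  obtain ⟨r, c, τ, w₀, hpar, hsat, hτ, hw₀, heig₀⟩ := exists_adic_eigen_lattice hPH hNS χ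
  obtain ⟨g, w, hg0, hgw, j₀, hj₀⟩ := exists_primitive_vector w₀ hw₀
  -- the eigen-relation for the primitive vector
  have heig : ∀ (ℓ : ℕ) (hℓ : ℓ.Prime) (hℓN : ¬ ℓ ∣ N) (hℓS : ℓ ∉ S) (k : Fin r),
      ∑ j, w j * ((τ ℓ j k : ℤ) : O) = χ (CuspForm.heckeAlgebra.T hℓ hℓN hℓS) * w k := by
    intro ℓ hℓ hℓN hℓS k
    have h := heig₀ ℓ hℓ hℓN hℓS k
    apply mul_left_cancel₀ hg0
    rw [Finset.mul_sum]
    calc ∑ j, g * (w j * ((τ ℓ j k : ℤ) : O)) = ∑ j, w₀ j * ((τ ℓ j k : ℤ) : O) := by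
          refine Finset.sum_congr rfl fun j _ => ?_
          rw [hgw j]; ring
      _ = χ (CuspForm.heckeAlgebra.T hℓ hℓN hℓS) * w₀ k := h
      _ = g * (χ (CuspForm.heckeAlgebra.T hℓ hℓN hℓS) * w k) := by rw [hgw k]; ring
  -- the characters as functions
  let cf : Fin r → Gamma0 N → ℤ := fun j γ => c j (Additive.ofMul γ)
  have hcf : ∀ j, IsParZ (cf j) := fun j =>
    ⟨fun γ δ => by simp only [cf, ofMul_mul, map_add], fun γ hγ => hpar j γ hγ⟩
  have hheckeFn : ∀ (ℓ : ℕ) (hℓ : ℓ.Prime) (hℓN : ¬ ℓ ∣ N) (hℓS : ℓ ∉ S) (j : Fin r),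
      heckeFn fac ℓ (cf j) = ∑ k, τ ℓ j k • cf k := by
    intro ℓ hℓ hℓN hℓS j
    funext γ
    rw [heckeFn, hτ ℓ hℓ hℓN hℓS j γ, Finset.sum_apply]
    rfl
  -- the eigenclass at level `m`
  let x : ℕ → O ⊗[ℤ] J := fun m => ∑ j, w j ⊗ₜ[ℤ] K.κ m (cf j)
  have hx_pow : ∀ m k : ℕ, (p : O) ^ k • x (m + k) = x m := by
    intro m k
    simp only [x]
    rw [Finset.smul_sum]
    refine Finset.sum_congr rfl fun j _ => ?_
    rw [← K.pow_smul m k (hcf j), TensorProduct.tmul_smul, ← Nat.cast_pow,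
      Nat.cast_smul_eq_nsmul]
  have hx0 : x 0 = 0 := by
    simp only [x]
    refine Finset.sum_eq_zero fun j _ => ?_
    rw [K.map_zero_level _ (hcf j), TensorProduct.tmul_zero]
  refine ⟨x (n + 1), ?_, ?_, ?_⟩
  · have := hx_pow 0 (n + 1)
    rw [zero_add] at this
    rw [this, hx0]
  · have h1 := hx_pow 1 n
    rw [add_comm 1 n] at h1
    rw [h1]
    intro hzero
    -- `x 1 = 0` forces `p ∣ w j₀`, impossible for a unit
    let φ : (Fin r → ℤ) →ₗ[ℤ] J :=
      { toFun := fun a => ∑ j, a j • K.κ 1 (cf j)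
        map_add' := fun a b => by
          simp only [Pi.add_apply, _root_.add_smul, Finset.sum_add_distrib]
        map_smul' := fun t a => by
          simp only [Pi.smul_apply, smul_eq_mul, mul_smul, Finset.smul_sum, RingHom.id_apply] }
    have hφ : ∀ a : Fin r → ℤ, φ a = K.κ 1 (∑ j, a j • cf j) := by
      intro a
      rw [K.map_sum 1 Finset.univ (fun j => a j • cf j) fun j _ => (hcf j).smul (a j)]
      show ∑ j, a j • K.κ 1 (cf j) = _
      refine Finset.sum_congr rfl fun j _ => ?_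
      rw [K.map_zsmul 1 (hcf j)]
    have hker : ∀ a : Fin r → ℤ, φ a = 0 → ∀ j, (p : ℤ) ∣ a j := by
      intro a ha
      rw [hφ] at ha
      have hdiv := K.inj _ (IsParZ.sum Finset.univ (fun j => a j • cf j)
        fun j _ => (hcf j).smul (a j)) ha
      refine hsat (p : ℤ) a fun γ => ?_
      have := hdiv γ
      simpa [Finset.sum_apply, cf] using this
    have hsingle : ∀ j, φ (Pi.single j 1) = K.κ 1 (cf j) := by
      intro j
      show ∑ k, (Pi.single j (1 : ℤ) : Fin r → ℤ) k • K.κ 1 (cf k) = _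
      rw [Finset.sum_eq_single j]
      · rw [Pi.single_eq_same, _root_.one_smul]
      · intro k _ hk
        rw [Pi.single_eq_of_ne hk, _root_.zero_smul]
      · intro h
        exact absurd (Finset.mem_univ j) h
    have hz : ∑ j, w j ⊗ₜ[ℤ] φ (Pi.single j 1) = 0 := by
      rw [← hzero]
      refine Finset.sum_congr rfl fun j _ => ?_
      rw [hsingle]
    have hdvd := dvd_of_tensor_eq_zero φ (p : ℤ) hker w hz j₀
    rw [Int.cast_natCast] at hdvd
    have hmem : w j₀ ∈ maximalIdeal O := by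
      obtain ⟨b, hb⟩ := hdvd
      rw [hb]
      exact Ideal.mul_mem_right _ _ hpO
    exact (mem_maximalIdeal _).mp hmem hj₀
  · intro ℓ hℓ hℓN hℓS
    simp only [x]
    rw [map_sum, Finset.smul_sum]
    have h1 : ∀ j, (T ⟨ℓ, hℓ⟩).toIntLinearMap.baseChange O (w j ⊗ₜ[ℤ] K.κ (n + 1) (cf j))
        = ∑ k, (w j * ((τ ℓ j k : ℤ) : O)) ⊗ₜ[ℤ] K.κ (n + 1) (cf k) := by
      intro j
      rw [LinearMap.baseChange_tmul, AddMonoidHom.coe_toIntLinearMap,
        K.hecke (n + 1) ⟨ℓ, hℓ⟩ hℓN hℓS _ (hcf j), hheckeFn ℓ hℓ hℓN hℓS j,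
        K.map_sum (n + 1) Finset.univ (fun k => τ ℓ j k • cf k)
          fun k _ => (hcf k).smul (τ ℓ j k), TensorProduct.tmul_sum]
      refine Finset.sum_congr rfl fun k _ => ?_
      rw [K.map_zsmul (n + 1) (hcf k), TensorProduct.tmul_smul, TensorProduct.smul_tmul',
        zsmul_eq_mul, mul_comm]
    rw [Finset.sum_congr rfl fun j _ => h1 j, Finset.sum_comm]
    refine Finset.sum_congr rfl fun k _ => ?_
    rw [← TensorProduct.sum_tmul, heig ℓ hℓ hℓN hℓS k, TensorProduct.smul_tmul', smul_eq_mul]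

end Main

end Fermat.Agent.S30.H709

end
end
-- ===== PACK-END S30/H709/OccJ.lean

-- ===== PACK-BEGIN S28/H589/Descent.lean
section








/-!
# S28 / A-Φ, A-W descent, formal part 2 (helper589): from `ℂ[Y][X]` to `ℤ[Y][X]`

`descent`: let `Φ ∈ ℂ[Y][X]` be monic of degree `p+1` in `X`, and `g, f ∈ ℤ((q))` with
`ord f` prime to `p`, `f ≠ V_p g`, such that in `ℂ((q))`
`Φ(X := g, Y := j) = 0` and `Φ(X := f, Y := V_p j) = 0`.
Then `Φ` has integer coefficients: `Φ(X, j) = (X - g) · χ` where `χ` is the characteristic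
polynomial of the section matrix of `f` (which lives over `ℤ((q))`).
-/

set_option autoImplicit false

noncomputable section

open ModularCurve HahnSeries Polynomial

namespace Fermat.Agent.S28.H589

/-- Base change of coefficients `ℤ((q)) → ℂ((q))`. -/
abbrev iotaC : LaurentSeries ℤ →+* LaurentSeries ℂ := coeffMap (Int.castRingHom ℂ)

theorem iotaC_injective : Function.Injective iotaC := by
  intro x y h
  ext k
  have := congrArg (fun z => z.coeff k) h
  simp only [coeffMap_coeff, Int.coe_castRingHom] at this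
  exact_mod_cast this

theorem iotaC_eq_zero_iff (x : LaurentSeries ℤ) : iotaC x = 0 ↔ x = 0 := by
  constructor
  · intro h
    exact iotaC_injective (by rw [h, _root_.map_zero])
  · rintro rfl
    exact _root_.map_zero _

theorem iotaC_coeff_eq_zero_iff (x : LaurentSeries ℤ) (n : ℤ) :
    (iotaC x).coeff n = 0 ↔ x.coeff n = 0 := by
  simp only [coeffMap_coeff, Int.coe_castRingHom, Int.cast_eq_zero]

theorem order_iotaC (x : LaurentSeries ℤ) : (iotaC x).order = x.order := by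
  by_cases hx : x = 0
  · subst hx
    simp
  · have hx' : iotaC x ≠ 0 := fun h => hx ((iotaC_eq_zero_iff x).mp h)
    apply le_antisymm
    · apply HahnSeries.order_le_of_coeff_ne_zero
      rw [Ne, iotaC_coeff_eq_zero_iff]
      exact fun h => hx (HahnSeries.coeff_order_eq_zero.mp h)
    · apply HahnSeries.order_le_of_coeff_ne_zero
      rw [Ne, ← iotaC_coeff_eq_zero_iff]
      exact fun h => hx' (HahnSeries.coeff_order_eq_zero.mp h)

/-- Evaluation `ℂ[Y] → ℂ((q))`, `Y ↦ y`. -/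
def evC (y : LaurentSeries ℂ) : Polynomial ℂ →+* LaurentSeries ℂ :=
  Polynomial.eval₂RingHom HahnSeries.C y

theorem evC_apply (y : LaurentSeries ℂ) (P : Polynomial ℂ) :
    evC y P = Polynomial.eval₂ HahnSeries.C y P := rfl

theorem evC_eq_aeval (y : LaurentSeries ℂ) (P : Polynomial ℂ) :
    evC y P = Polynomial.aeval y P := by
  rw [evC_apply, Polynomial.aeval_def]
  congr 1
  ext c : 1
  exact (Fermat.Agent.S28.H685.algebraMap_eq_C c).symm

theorem qExpand_comp_evC (p : ℕ) [NeZero p] (y : LaurentSeries ℂ) :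
    (qExpand ℂ p).comp (evC y) = evC (qExpand ℂ p y) := by
  refine Polynomial.ringHom_ext (fun c => ?_) ?_
  · simp [evC]
  · simp [evC]

theorem iotaC_comp_evalAt (y : LaurentSeries ℤ) :
    iotaC.comp (evalAt y) = (evC (iotaC y)).comp (Polynomial.mapRingHom (Int.castRingHom ℂ)) := by
  refine Polynomial.ringHom_ext' (Subsingleton.elim _ _) ?_
  simp [evalAt, evC]

/-- Transfer of a vanishing relation from `ℂ((q))` to `ℤ((q))`. -/
theorem eval₂_evalAt_eq_zero_of (Ψ : Polynomial (Polynomial ℤ)) (y x : LaurentSeries ℤ)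
    (h : (Ψ.map (Polynomial.mapRingHom (Int.castRingHom ℂ))).eval₂ (evC (iotaC y)) (iotaC x) = 0) :
    Ψ.eval₂ (evalAt y) x = 0 := by
  apply iotaC_injective
  rw [Polynomial.hom_eval₂, iotaC_comp_evalAt, ← Polynomial.eval₂_map, h, _root_.map_zero]

/-- **Descent.** -/
theorem descent (p : ℕ) [NeZero p]
    (Φ : Polynomial (Polynomial ℂ)) (hΦ : Φ.Monic) (n : ℕ) (hdeg : Φ.natDegree = n)
    (hn : n = p + 1)
    (g f : LaurentSeries ℤ) (hf0 : f ≠ 0) (hford : IsCoprime f.order (p : ℤ))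
    (hne : f ≠ qExpand ℤ p g)
    (h1 : Φ.eval₂ (evC (jqModC ℂ)) (iotaC g) = 0)
    (h2 : Φ.eval₂ (evC (qExpand ℂ p (jqModC ℂ))) (iotaC f) = 0) :
    ∃ Ψ : Polynomial (Polynomial ℤ), Ψ.Monic ∧ Ψ.natDegree = n ∧
      Ψ.eval₂ (evalAt (jqModC ℤ)) g = 0 ∧
      Ψ.eval₂ (evalAt (qExpand ℤ p (jqModC ℤ))) f = 0 := by
  classical
  subst hn
  set V : LaurentSeries ℂ →+* LaurentSeries ℂ := qExpand ℂ p with hV
  set a : LaurentSeries ℂ := iotaC g with ha
  set x : LaurentSeries ℂ := iotaC f with hx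
  -- the polynomial over `ℂ((q))`
  set Φ₁ : Polynomial (LaurentSeries ℂ) := Φ.map (evC (jqModC ℂ)) with hΦ₁
  have hΦ₁m : Φ₁.Monic := hΦ.map _
  have hΦ₁d : Φ₁.natDegree = p + 1 := by rw [hΦ₁, hΦ.natDegree_map, hdeg]
  have hroot : Φ₁.IsRoot a := by
    rw [Polynomial.IsRoot, hΦ₁, Polynomial.eval_map]; exact h1
  obtain ⟨G, hG⟩ := Polynomial.dvd_iff_isRoot.mpr hroot
  have hGm : G.Monic := by
    have : ((X - Polynomial.C a) * G).Monic := hG ▸ hΦ₁m
    exact (Polynomial.monic_X_sub_C a).of_mul_monic_left this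
  have hGd : G.natDegree = p := by
    have h := congrArg Polynomial.natDegree hG
    rw [hΦ₁d, (Polynomial.monic_X_sub_C a).natDegree_mul hGm, Polynomial.natDegree_X_sub_C] at h
    omega
  -- apply `V` to the coefficients
  have hmapV : Φ.map (evC (V (jqModC ℂ))) = (X - Polynomial.C (V a)) * G.map V := by
    have h := congrArg (Polynomial.map V) hG
    rw [hΦ₁, Polynomial.map_map, qExpand_comp_evC] at h
    rw [h, Polynomial.map_mul, Polynomial.map_sub, Polynomial.map_X, Polynomial.map_C]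
  have hxa : x - V a ≠ 0 := by
    intro h
    apply hne
    apply iotaC_injective
    rw [coeffMap_qExpand]
    exact sub_eq_zero.mp h
  have hGV : (G.map V).eval x = 0 := by
    have h := h2
    rw [← Polynomial.eval_map, hmapV, Polynomial.eval_mul, Polynomial.eval_sub,
      Polynomial.eval_X, Polynomial.eval_C] at h
    exact (mul_eq_zero.mp h).resolve_left hxa
  -- the section charpoly
  obtain ⟨χ, hχm, hχd, hχ⟩ := exists_section_charpoly p f
  set χ' : Polynomial (LaurentSeries ℂ) := χ.map iotaC with hχ'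
  have hχ'm : χ'.Monic := hχm.map _
  have hχ'd : χ'.natDegree = p := by rw [hχ', hχm.natDegree_map, hχd]
  have hχ'V : (χ'.map V).eval x = 0 := by
    have h := congrArg iotaC hχ
    rw [Polynomial.eval_map, Polynomial.hom_eval₂, _root_.map_zero] at h
    rw [hχ', Polynomial.map_map, Polynomial.eval_map]
    have hcomp : V.comp iotaC = iotaC.comp (qExpand ℤ p) := by
      ext y : 1
      exact (coeffMap_qExpand (Int.castRingHom ℂ) p y).symm
    rw [hcomp]
    exact h
  -- `G = χ'`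
  have hD : G - χ' = 0 := by
    have hVinj : Function.Injective (Polynomial.map V) :=
      Polynomial.map_injective V (qExpand_injective p)
    apply hVinj
    rw [Polynomial.map_zero]
    have hx0 : x ≠ 0 := fun h => hf0 ((iotaC_eq_zero_iff f).mp h)
    have hxord : IsCoprime x.order (p : ℤ) := by rw [hx, order_iotaC]; exact hford
    refine Fermat.Agent.S28.H145.eq_zero_of_eval_eq_zero_of_natDegree_lt p x hx0 hxord _
      (fun m => ?_) ?_ ?_
    · rw [Polynomial.coeff_map]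
      exact ⟨_, rfl⟩
    · refine lt_of_le_of_lt Polynomial.natDegree_map_le ?_
      by_cases hz : G - χ' = 0
      · rw [hz, Polynomial.natDegree_zero]
        exact Nat.pos_of_ne_zero (NeZero.ne p)
      · have hdeg' : (G - χ').degree < G.degree := by
          apply Polynomial.degree_sub_lt_left
          · rw [Polynomial.degree_eq_natDegree hGm.ne_zero,
              Polynomial.degree_eq_natDegree hχ'm.ne_zero, hGd, hχ'd]
          · exact hGm.ne_zero
          · rw [hGm.leadingCoeff, hχ'm.leadingCoeff]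
        rw [Polynomial.degree_eq_natDegree hGm.ne_zero, hGd] at hdeg'
        exact (Polynomial.natDegree_lt_iff_degree_lt hz).mpr hdeg'
    · rw [Polynomial.map_sub, Polynomial.eval_sub, hGV, hχ'V, sub_zero]
  have hGχ : G = χ' := sub_eq_zero.mp hD
  -- coefficients of `Φ₁` are in the image of `ℤ((q))`
  set Θ : Polynomial (LaurentSeries ℤ) := (X - Polynomial.C g) * χ with hΘ
  have hΦ₁Θ : Φ₁ = Θ.map iotaC := by
    rw [hG, hGχ, hΘ, Polynomial.map_mul, Polynomial.map_sub, Polynomial.map_X, Polynomial.map_C]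
  -- every coefficient of `Φ` has integer coefficients
  set C₀ : Subring ℂ := (Int.castRingHom ℂ).range with hC₀
  have hcoef : ∀ k i, (Φ.coeff k).coeff i ∈ C₀ := by
    intro k
    refine Fermat.Agent.S28.H685.coeff_mem_of_aeval_jqModC C₀ (Φ.coeff k).natDegree (Φ.coeff k)
      le_rfl (fun m => ?_)
    have h : Polynomial.aeval (jqModC ℂ) (Φ.coeff k) = iotaC (Θ.coeff k) := by
      rw [← evC_eq_aeval, ← Polynomial.coeff_map, ← hΦ₁, hΦ₁Θ, Polynomial.coeff_map]
    rw [h, coeffMap_coeff]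
    exact ⟨_, rfl⟩
  -- lift `Φ`
  have hlift : Φ ∈ Polynomial.lifts (Polynomial.mapRingHom (Int.castRingHom ℂ)) := by
    rw [Polynomial.lifts_iff_coeff_lifts]
    intro k
    have hk : Φ.coeff k ∈ Polynomial.lifts (Int.castRingHom ℂ) := by
      rw [Polynomial.lifts_iff_coeff_lifts]
      intro i
      exact hcoef k i
    obtain ⟨q, hq⟩ := (Polynomial.mem_lifts _).mp hk
    exact ⟨q, hq⟩
  obtain ⟨Ψ, hΨ, hΨd, hΨm⟩ := Polynomial.lifts_and_natDegree_eq_and_monic hlift hΦ
  refine ⟨Ψ, hΨm, by rw [hΨd, hdeg], ?_, ?_⟩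
  · apply eval₂_evalAt_eq_zero_of
    rw [hΨ, coeffMap_jqModC]
    exact h1
  · apply eval₂_evalAt_eq_zero_of
    rw [hΨ, coeffMap_qExpand, coeffMap_jqModC]
    exact h2

end Fermat.Agent.S28.H589

end

end
-- ===== PACK-END S28/H589/Descent.lean

-- ===== PACK-BEGIN S24/H504/FF3Local.lean
section



/-!
# Local norm formula: `∑_x ord_z (σ_x f) = m · ∑_{v | t} ord_v f`
-/

set_option autoImplicit false
set_option linter.style.haveILetI false
set_option linter.unusedSectionVars false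

namespace Fermat.Agent.S24.H504

open AlgebraicCurve IntermediateField

variable {K F : Type*} [Field K] [Field F] [Algebra K F]
variable {C : Type*} [Field C] {X : Type*} {t : F}

/-- `F` is algebraic over `K(t)` as soon as it is finite over a subfield of `K(t)`. -/
theorem isAlgebraic_adjoin_of_le (E : IntermediateField K F) (hE : E ≤ K⟮t⟯)
    [FiniteDimensional E F] : Algebra.IsAlgebraic K⟮t⟯ F := by
  letI : Algebra E K⟮t⟯ := (IntermediateField.inclusion hE).toRingHom.toAlgebra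
  haveI : IsScalarTower E K⟮t⟯ F := IsScalarTower.of_algebraMap_eq (fun x => rfl)
  exact Algebra.IsAlgebraic.tower_top (K := E) K⟮t⟯

theorem induces_placeOf (L : LocalData K F C X t) (x : X) :
    Induces (L.σ x) (H117.placeOf L x) :=
  fun f => H117.mem_placeOf_iff L x f

theorem placeOf_eq_iff_induces (L : LocalData K F C X t) (x : X) (v : Place K F) :
    H117.placeOf L x = v ↔ Induces (L.σ x) v :=
  ⟨fun h => h ▸ induces_placeOf L x, fun h => (induces_placeOf L x).unique h⟩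

section

variable [IsAlgClosed K] [CharZero K] [CharZero C] [Finite X]
variable (L : LocalData K F C X t)
variable (E : IntermediateField K F) (hE : E ≤ K⟮t⟯) [FiniteDimensional E F]
  (hrank : Module.finrank E F = Nat.card X)

include L hE hrank in
/-- **FF1 (equality).** `∑_{v | t} v(t) = #X = [F : E]`. -/
theorem sum_ord_eq_card (s : Finset (Place K F)) (hs : ∀ v, v ∈ s ↔ 0 < v.ord t) :
    ∑ v ∈ s, v.ord t = Nat.card X := by
  haveI := isAlgebraic_adjoin_of_le (t := t) E hE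
  exact (H117.localThm L E hE hrank s hs (LocalData.card_le_sum_ord L s hs)).2.2

include hE hrank in
theorem card_places_eq_numOrbits (s : Finset (Place K F)) (hs : ∀ v, v ∈ s ↔ 0 < v.ord t) :
    s.card = numOrbits L.perm := by
  haveI := isAlgebraic_adjoin_of_le (t := t) E hE
  exact (H117.localThm L E hE hrank s hs (LocalData.card_le_sum_ord L s hs)).1

omit [IsAlgClosed K] [CharZero K] [CharZero C] in
theorem sum_card_fibre [Fintype X] [DecidableEq (Place K F)] (s : Finset (Place K F))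
    (hs : ∀ v, v ∈ s ↔ 0 < v.ord t) :
    ∑ v ∈ s, (Finset.univ.filter (fun x => H117.placeOf L x = v)).card = Fintype.card X := by
  have hmaps : ∀ x ∈ (Finset.univ : Finset X), H117.placeOf L x ∈ s :=
    fun x _ => (hs _).mpr (H117.ord_t_pos L x)
  rw [← Finset.card_univ, Finset.card_eq_sum_card_fiberwise hmaps]

include hE hrank in
/-- Exactly `v(t)` embeddings induce a place `v` over `t = 0`. -/
theorem card_fibre_eq [Fintype X] [DecidableEq (Place K F)] (v : Place K F)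
    (hv : 0 < v.ord t) :
    ((Finset.univ.filter (fun x => H117.placeOf L x = v)).card : ℤ) = v.ord t := by
  haveI := isAlgebraic_adjoin_of_le (t := t) E hE
  have hfin : {v : Place K F | 0 < v.ord t}.Finite := H117.finite_places_over L E hE hrank
  set s := hfin.toFinset with hsdef
  have hs : ∀ v, v ∈ s ↔ 0 < v.ord t := fun v => by simp [hsdef]
  have hle : ∀ w ∈ s, ((Finset.univ.filter (fun x => H117.placeOf L x = w)).card : ℤ)
      ≤ w.ord t := by
    intro w hw
    have := LocalData.card_fibre_le L w ((hs w).mp hw)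
    have hc : Nat.card {x : X // Induces (L.σ x) w}
        = (Finset.univ.filter (fun x => H117.placeOf L x = w)).card := by
      haveI : Fintype {x : X // Induces (L.σ x) w} := Fintype.ofFinite _
      rw [Nat.card_eq_fintype_card]
      exact Fintype.card_of_subtype _ (fun x => by
        simp only [Finset.mem_filter, Finset.mem_univ, true_and]
        exact placeOf_eq_iff_induces L x w)
    rw [← hc]
    exact this
  have h1 := sum_ord_eq_card L E hE hrank s hs
  have h2 := sum_card_fibre L s hs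
  have h3 : ∑ w ∈ s, (w.ord t
      - ((Finset.univ.filter (fun x => H117.placeOf L x = w)).card : ℤ)) = 0 := by
    rw [Finset.sum_sub_distrib, h1, ← Nat.cast_sum, h2, Nat.card_eq_fintype_card]
    ring
  have h4 := (Finset.sum_eq_zero_iff_of_nonneg (fun w hw => sub_nonneg.mpr (hle w hw))).mp h3
    v ((hs v).mpr hv)
  linarith

include hE hrank in
/-- **Local norm formula.** -/
theorem sum_order_eq [Fintype X] (s : Finset (Place K F))
    (hs : ∀ v, v ∈ s ↔ 0 < v.ord t) (f : F) :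
    ∑ x, (L.σ x f).order = L.m * ∑ v ∈ s, v.ord f := by
  classical
  have hmaps : ∀ x ∈ (Finset.univ : Finset X), H117.placeOf L x ∈ s :=
    fun x _ => (hs _).mpr (H117.ord_t_pos L x)
  rw [← Finset.sum_fiberwise_of_maps_to hmaps, Finset.mul_sum]
  apply Finset.sum_congr rfl
  intro v hv
  have hv' : 0 < v.ord t := (hs v).mp hv
  have hcard := card_fibre_eq L E hE hrank v hv'
  have hterm : ∀ x ∈ Finset.univ.filter (fun x => H117.placeOf L x = v),
      v.ord t * (L.σ x f).order = L.m * v.ord f := by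
    intro x hx
    have hx' : H117.placeOf L x = v := (Finset.mem_filter.mp hx).2
    have h1 := H117.order_eq L x f
    have h2 := H117.mult_mul_ord_t L x
    rw [hx'] at h1 h2
    rw [h1, ← h2]
    ring
  have hsum : v.ord t * ∑ x ∈ Finset.univ.filter (fun x => H117.placeOf L x = v),
      (L.σ x f).order = v.ord t * (L.m * v.ord f) := by
    rw [Finset.mul_sum, Finset.sum_congr rfl hterm, Finset.sum_const, nsmul_eq_mul, hcard]
  exact mul_left_cancel₀ hv'.ne' hsum

end

end Fermat.Agent.S24.H504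

end
-- ===== PACK-END S24/H504/FF3Local.lean

-- ===== PACK-BEGIN S29/H942/HoloRoot.lean
section





/-!
# Holomorphic `p`-th roots on the upper half plane

If `g : ℍ → ℂ` is holomorphic, not identically zero, and all its orders of vanishing are divisible
by `p`, then `g = c ^ p` for a holomorphic `c : ℍ → ℂ`.
-/

set_option autoImplicit false

noncomputable section

open Filter Topology Set Complex MeromorphicOn Function UpperHalfPlane
open scoped Manifold

namespace Fermat.Agent.S29.H942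

/-- A root in normal form of an analytic function is analytic. -/
lemma IsNFRootOn.analyticAt {h f : ℂ → ℂ} {V : Set ℂ} {p : ℕ} (hp : p ≠ 0)
    (hh : IsNFRootOn h f V p) {x : ℂ} (hx : x ∈ V) (hf : AnalyticAt ℂ f x) :
    AnalyticAt ℂ h x := by
  rw [← (hh.1 hx).meromorphicOrderAt_nonneg_iff_analyticAt]
  have h1 : meromorphicOrderAt (h ^ p) x = meromorphicOrderAt f x :=
    meromorphicOrderAt_congr (hh.2 x hx)
  rw [meromorphicOrderAt_pow (hh.1 hx).meromorphicAt] at h1
  have h2 : 0 ≤ meromorphicOrderAt f x := hf.meromorphicOrderAt_nonneg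
  rw [← h1] at h2
  by_cases htop : meromorphicOrderAt h x = ⊤
  · rw [htop]
    exact le_top
  · obtain ⟨n, hn⟩ := WithTop.ne_top_iff_exists.1 htop
    rw [← hn] at h2 ⊢
    have h4 : ((p : ℕ) : WithTop ℤ) * ((n : ℤ) : WithTop ℤ) = (((p : ℤ) * n : ℤ) : WithTop ℤ) := by
      push_cast
      rfl
    rw [h4] at h2
    have h5 : (0 : ℤ) ≤ (p : ℤ) * n := by exact_mod_cast h2
    have hp' : (0 : ℤ) < p := by exact_mod_cast Nat.pos_of_ne_zero hp
    have h6 : (0 : ℤ) ≤ n := by
      by_contra hneg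
      rw [_root_.not_le] at hneg
      nlinarith
    exact_mod_cast h6

/-- A root in normal form of an analytic function is a root everywhere. -/
lemma IsNFRootOn.pow_eq {h f : ℂ → ℂ} {V : Set ℂ} {p : ℕ} (hp : p ≠ 0)
    (hh : IsNFRootOn h f V p) {x : ℂ} (hx : x ∈ V) (hf : AnalyticAt ℂ f x) :
    h x ^ p = f x := by
  have hA := hh.analyticAt hp hx hf
  have hc : ContinuousAt (h ^ p) x := (hA.pow p).continuousAt
  have := (hc.eventuallyEq_nhds_iff_eventuallyEq_nhdsNE hf.continuousAt).1 (hh.2 x hx)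
  exact this.self_of_nhds

/-- **Holomorphic `p`-th roots on the upper half plane.** -/
theorem exists_holomorphic_root {g : ℍ → ℂ} (hg : MDiff g) {p : ℕ} (hp : p ≠ 0)
    (hdiv : ∀ τ : ℍ, ∃ k : ℕ, analyticOrderAt (g ∘ ofComplex) (τ : ℂ) = ((p * k : ℕ) : ℕ∞)) :
    ∃ c : ℍ → ℂ, MDiff c ∧ c ^ p = g := by
  set f : ℂ → ℂ := g ∘ ofComplex with hf
  have hAn : AnalyticOnNhd ℂ f uhpSet :=
    (UpperHalfPlane.mdifferentiable_iff.mp hg).analyticOnNhd isOpen_upperHalfPlaneSet
  have hord : ∀ z ∈ uhpSet, ∃ k : ℕ, meromorphicOrderAt f z = ((p * k : ℕ) : ℤ) := by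
    intro z hz
    obtain ⟨k, hk⟩ := hdiv ⟨z, hz⟩
    refine ⟨k, ?_⟩
    rw [(hAn z hz).meromorphicOrderAt_eq]
    have : analyticOrderAt f z = ((p * k : ℕ) : ℕ∞) := hk
    rw [this]
    rfl
  obtain ⟨h, hh⟩ := exists_isNFRootOn_upperHalfPlane (f := f) hAn.meromorphicOn
    (fun z hz => by
      obtain ⟨k, hk⟩ := hord z hz
      rw [hk]
      exact WithTop.coe_ne_top)
    hp
    (fun z hz => by
      obtain ⟨k, hk⟩ := hord z hz
      rw [hk]
      simp only [WithTop.untop₀_coe]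
      exact ⟨k, by push_cast; ring⟩)
  have hhA : AnalyticOnNhd ℂ h uhpSet := fun z hz => hh.analyticAt hp hz (hAn z hz)
  have hhp : ∀ z ∈ uhpSet, h z ^ p = f z := fun z hz => hh.pow_eq hp hz (hAn z hz)
  refine ⟨fun τ => h (τ : ℂ), ?_, ?_⟩
  · rw [UpperHalfPlane.mdifferentiable_iff]
    refine hhA.differentiableOn.congr fun z hz => ?_
    simp only [Function.comp_apply]
    rw [ofComplex_apply_of_im_pos hz]
  · funext τ
    have := hhp (τ : ℂ) τ.im_pos
    simp only [Pi.pow_apply]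
    rw [this, hf, Function.comp_apply, ofComplex_apply]

/-- Uniqueness of holomorphic `p`-th roots up to roots of unity. -/
theorem holomorphic_root_unique {c₁ c₂ : ℍ → ℂ} (h₁ : MDiff c₁) (h₂ : MDiff c₂)
    (h₁0 : c₁ ≠ 0) {p : ℕ} (hp : p ≠ 0) (hpow : c₁ ^ p = c₂ ^ p) :
    ∃ ζ : ℂ, ζ ^ p = 1 ∧ c₂ = fun τ => ζ * c₁ τ := by
  set f : ℂ → ℂ := (c₁ ^ p) ∘ ofComplex with hf
  have hA₁ : AnalyticOnNhd ℂ (c₁ ∘ ofComplex) uhpSet :=
    (UpperHalfPlane.mdifferentiable_iff.mp h₁).analyticOnNhd isOpen_upperHalfPlaneSet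
  have hA₂ : AnalyticOnNhd ℂ (c₂ ∘ ofComplex) uhpSet :=
    (UpperHalfPlane.mdifferentiable_iff.mp h₂).analyticOnNhd isOpen_upperHalfPlaneSet
  have hAf : AnalyticOnNhd ℂ f uhpSet :=
    (UpperHalfPlane.mdifferentiable_iff.mp (MDifferentiable.pow h₁ p)).analyticOnNhd isOpen_upperHalfPlaneSet
  have hR₁ : IsNFRootOn (c₁ ∘ ofComplex) f uhpSet p :=
    ⟨hA₁.meromorphicNFOn, fun x _ => Eventually.of_forall fun y => rfl⟩
  have hR₂ : IsNFRootOn (c₂ ∘ ofComplex) f uhpSet p :=
    ⟨hA₂.meromorphicNFOn, fun x _ => Eventually.of_forall fun y => by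
      simp only [hf, hpow, Pi.pow_apply, Function.comp_apply]⟩
  have hford : ∀ x ∈ uhpSet, meromorphicOrderAt f x ≠ ⊤ := by
    intro x hx htop
    rw [(hAf x hx).meromorphicOrderAt_eq] at htop
    have h3 : analyticOrderAt f x = ⊤ := by
      by_contra hne
      obtain ⟨n, hn⟩ := ENat.ne_top_iff_exists.1 hne
      rw [← hn] at htop
      exact absurd htop (by simp)
    have h5 : ∀ᶠ z in 𝓝 x, f z = 0 := analyticOrderAt_eq_top.mp h3
    have hpre : IsPreconnected uhpSet := by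
      have hconv : Convex ℝ uhpSet := by
        have : uhpSet = Complex.im ⁻¹' (Ioi 0) := rfl
        rw [this]
        exact (convex_Ioi (0 : ℝ)).is_linear_preimage Complex.imLm.isLinear
      exact hconv.isPreconnected
    have h6 := hAf.eqOn_zero_of_preconnected_of_eventuallyEq_zero hpre hx h5
    apply h₁0
    funext τ
    have h7 := h6 τ.im_pos
    simp only [hf, Function.comp_apply, ofComplex_apply, Pi.pow_apply, Pi.zero_apply] at h7 ⊢
    exact pow_eq_zero_iff hp |>.mp h7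
  have hconv : Convex ℝ uhpSet := by
    have : uhpSet = Complex.im ⁻¹' (Ioi 0) := rfl
    rw [this]
    exact (convex_Ioi (0 : ℝ)).is_linear_preimage Complex.imLm.isLinear
  obtain ⟨ζ, hζ, hζe⟩ := IsNFRootOn.exists_eq_mul hp isOpen_uhpSet hconv.isPreconnected hford
    hR₁ hR₂
  refine ⟨ζ, hζ, ?_⟩
  funext τ
  have := hζe (τ : ℂ) τ.im_pos
  simpa [Function.comp_apply, ofComplex_apply] using this

end Fermat.Agent.S29.H942

end
end
-- ===== PACK-END S29/H942/HoloRoot.lean

-- ===== PACK-BEGIN S28/H807/Families.lean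
section
/-
S28 / helper807 — `S`-invariance of the two families of conjugates:
* `j`-family: `{J(pτ)} ∪ {J((τ+b)/p)}` for an `SL(2,ℤ)`-invariant `J`;
* unit family: `{p¹² D(pτ)/D(τ)} ∪ {D((τ+b)/p)/D(τ)}` for a weight-12 form `D`.
-/



set_option autoImplicit false
set_option maxHeartbeats 400000

noncomputable section

open ModularCurve Polynomial Matrix UpperHalfPlane Complex
open scoped MatrixGroups

namespace Fermat.Agent.S28.H807

variable (p : ℕ) [NeZero p]

/-- The polynomial `(X - E(τ)) ∏_b (X - G((τ+b)/p))`. -/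
def conjPoly (E G : ℍ → ℂ) (τ : ℍ) : Polynomial ℂ :=
  (X - C (E τ)) * ∏ b : Fin p, (X - C (G (divShift p ((b : ℕ) : ℤ) τ)))

theorem conjPoly_S_of (hp : p.Prime) (E G : ℍ → ℂ)
    (ha : ∀ τ : ℍ, E (ModularGroup.S • τ) = G (divShift p 0 τ))
    (hb : ∀ τ : ℍ, G (divShift p 0 (ModularGroup.S • τ)) = E τ)
    (hc : ∀ (B B' k : ℤ) (_ : B * B' + 1 = (p : ℤ) * k) (τ : ℍ),
      G (divShift p B (ModularGroup.S • τ)) = G (divShift p B' τ))
    (τ : ℍ) : conjPoly p E G (ModularGroup.S • τ) = conjPoly p E G τ := by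
  have : Fact p.Prime := ⟨hp⟩
  unfold conjPoly
  apply prod_conj_eq_of_perm p (E τ) (E (ModularGroup.S • τ))
    (fun b => G (divShift p ((b : ℕ) : ℤ) τ))
    (fun b => G (divShift p ((b : ℕ) : ℤ) (ModularGroup.S • τ)))
  · simpa using ha τ
  · simpa using hb τ
  · intro b hb0
    obtain ⟨k, hk⟩ := dvd_mul_negInvFin_add_one p hb0
    exact hc _ _ k hk τ

/-- `S`-invariance for the `j`-family. -/
theorem conjPoly_J_S (hp : p.Prime) (J : ℍ → ℂ)
    (hJ : ∀ (γ : SL(2, ℤ)) (τ : ℍ), J (γ • τ) = J τ) (τ : ℍ) :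
    conjPoly p (fun τ => J (mulNat p τ)) J (ModularGroup.S • τ)
      = conjPoly p (fun τ => J (mulNat p τ)) J τ := by
  apply conjPoly_S_of p hp
  · intro τ
    rw [mulNat_S_smul, hJ]
  · intro τ
    rw [divShift_zero_S_smul, hJ]
  · intro B B' k h τ
    rw [← conjMat_smul p B B' k h, hJ]

/-- The function `τ' ↦ D(τ')/D(pτ')`, whose values at `(τ+b)/p` are `D((τ+b)/p)/D(τ)`. -/
def unitG (D : ℍ → ℂ) (τ : ℍ) : ℂ := D τ / D (mulNat p τ)

/-- The function `τ ↦ p¹² D(pτ)/D(τ)`. -/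
def unitE (D : ℍ → ℂ) (τ : ℍ) : ℂ := (p : ℂ) ^ 12 * D (mulNat p τ) / D τ

/-- `S`-invariance for the unit family. -/
theorem conjPoly_unit_S (hp : p.Prime) (D : ℍ → ℂ) (hD0 : ∀ τ, D τ ≠ 0)
    (hD : ∀ (γ : SL(2, ℤ)) (τ : ℍ), D (γ • τ) = (denom γ τ) ^ 12 * D τ) (τ : ℍ) :
    conjPoly p (unitE p D) (unitG p D) (ModularGroup.S • τ)
      = conjPoly p (unitE p D) (unitG p D) τ := by
  have hpc : (p : ℂ) ≠ 0 := by exact_mod_cast NeZero.ne p
  have hS : ∀ z : ℍ, D (ModularGroup.S • z) = (z : ℂ) ^ 12 * D z := by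
    intro z
    rw [hD, ModularGroup.denom_S]
  have hT : ∀ (n : ℤ) (z : ℍ), D (ModularGroup.T ^ n • z) = D z := by
    intro n z
    rw [hD]
    have : denom ((ModularGroup.T ^ n : SL(2, ℤ)) : GL (Fin 2) ℝ) z = 1 := by
      rw [ModularGroup.denom_apply]
      simp [ModularGroup.coe_T_zpow]
    rw [this, one_pow, _root_.one_mul]
  apply conjPoly_S_of p hp
  · intro τ
    have hτ : (τ : ℂ) ≠ 0 := ne_zero τ
    unfold unitE unitG
    rw [mulNat_S_smul, hS, hS, mulNat_divShift, hT]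
    have h1 : ((divShift p 0 τ : ℍ) : ℂ) = (τ : ℂ) / (p : ℂ) := by simp
    rw [h1]
    have := hD0 τ
    field_simp
  · intro τ
    have hτ : (τ : ℂ) ≠ 0 := ne_zero τ
    unfold unitE unitG
    rw [mulNat_divShift, hT, divShift_zero_S_smul, hS, hS]
    have h1 : ((mulNat p τ : ℍ) : ℂ) = (p : ℂ) * (τ : ℂ) := by simp
    rw [h1]
    have := hD0 τ
    field_simp
  · intro B B' k h τ
    have hτ : (τ : ℂ) ≠ 0 := ne_zero τ
    unfold unitG
    rw [mulNat_divShift, hT, mulNat_divShift, hT, ← conjMat_smul p B B' k h, hD,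
      denom_conjMat, hS]
    have := hD0 τ
    field_simp

end Fermat.Agent.S28.H807

end

end
-- ===== PACK-END S28/H807/Families.lean

-- ===== PACK-BEGIN S28/H326/Final.lean
section
/-
S28 / helper326: the prime-level analytic stubs of the captain skeleton
(`ModPolyData p`, `UnitPolyData p` of `Fermat.Agent.S28.Defs`).
-/





set_option autoImplicit false
set_option linter.unusedSectionVars false

noncomputable section

namespace Fermat.Agent.S28.H326

open ModularCurve HahnSeries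

variable (p : ℕ) [NeZero p]

/-- the base embedding `ℤ((q)) → ℂ((t))`, `q ↦ t^p` -/
def iotaP : LaurentSeries ℤ →+* LaurentSeries ℂ := (qExpand ℂ p).comp kap

theorem iotaP_injective : Function.Injective (iotaP p) :=
  (qExpand_injective p).comp kap_injective

theorem theta_eq_comp :
    theta p = (iotaP p).comp (Polynomial.aeval (jqModC ℤ)).toRingHom := rfl

theorem theta_eq_comp' :
    theta p = kap.comp (Polynomial.aeval (qExpand ℤ p (jqModC ℤ))).toRingHom := by
  refine Polynomial.ringHom_ext (fun a => ?_) ?_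
  · simp
  · rw [theta_X]
    simp only [RingHom.comp_apply, AlgHom.toRingHom_eq_coe, RingHom.coe_coe, Polynomial.aeval_X]
    rw [coeffMap_qExpand, coeffMap_jqModC, jP]

theorem iotaP_qExpand_jq : iotaP p (qExpand ℤ p (jqModC ℤ)) = y p none := by
  rw [iotaP, RingHom.comp_apply, coeffMap_qExpand, coeffMap_jqModC]
  rfl

theorem kap_jq : kap (jqModC ℤ) = y p (some ⟨0, Nat.pos_of_ne_zero (NeZero.ne p)⟩) := by
  rw [coeffMap_jqModC]
  simp only [y, pow_zero, inv_one, _root_.map_one, one_mul, cB_zero]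
  rfl

theorem deltaL_eq : deltaL ℤ = deltaZ := by
  rw [deltaL, deltaZ, DZ, _root_.map_mul, HahnSeries.ofPowerSeries_X]
  congr 2

theorem deltaInvL_eq : deltaInvL ℤ = deltaInvZ := by
  rw [deltaInvL, deltaInvZ]
  congr 2

theorem iotaP_unit :
    iotaP p ((p : LaurentSeries ℤ) ^ 12 * unitL ℤ p) = w p none := by
  rw [unitL, deltaL_eq, deltaInvL_eq, w, scal, conj, cInf, cBase, delInv, iotaP]
  simp only [RingHom.comp_apply, _root_.map_mul, map_pow, map_natCast, coeffMap_qExpand]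
  rw [deltaZ, kap_ofPS, DC]
  ring

/-- **[A-Φ]** existence of the modular polynomial of prime level `p`. -/
theorem nonempty_modPolyData (hp : p.Prime) : Nonempty (ModPolyData p) := by
  obtain ⟨Φ, hmonic, hdeg, hmap⟩ := exists_Phi p (heckeInput p hp)
  refine ⟨⟨Φ, hmonic, hdeg, ?_, ?_⟩⟩
  · apply iotaP_injective p
    rw [_root_.map_zero, Polynomial.hom_eval₂, ← theta_eq_comp, ← Polynomial.eval_map, hmap,
      iotaP_qExpand_jq]
    exact PhiPoly_eval p none
  · apply kap_injective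
    rw [_root_.map_zero, Polynomial.hom_eval₂, ← theta_eq_comp', ← Polynomial.eval_map, hmap, kap_jq p]
    exact PhiPoly_eval p _

/-- **[A-W]** `p¹² Δ(q^p)/Δ(q)` is integral over `ℤ[j]`. -/
theorem nonempty_unitPolyData (hp : p.Prime) : Nonempty (UnitPolyData p) := by
  obtain ⟨W, hmonic, -, hmap⟩ := exists_W p (heckeInput p hp)
  refine ⟨⟨W, hmonic, ?_⟩⟩
  apply iotaP_injective p
  rw [_root_.map_zero, Polynomial.hom_eval₂, ← theta_eq_comp, ← Polynomial.eval_map, hmap, iotaP_unit]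
  exact WPoly_eval p none

end Fermat.Agent.S28.H326

end
end
-- ===== PACK-END S28/H326/Final.lean

-- ===== PACK-BEGIN S18/H456/ModS.lean
section



/-!
# S18 / MOD assembly (helper456): the fields `S_mem`, `S_distinct`, `S_unit` of `Alg.GoodModel`
-/

set_option autoImplicit false

noncomputable section

namespace Fermat.Agent.S18.H456

open ModularCurve AlgebraicCurve HahnSeries Fermat.Agent.S18 Fermat.Agent.S18.Mod

variable (M : ℕ) (A : ValuationSubring Qb) (E : IntermediateField ℚ Qb)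

/-- An integer prime to `ℓ` is a unit of `A`. -/
theorem inv_intCast_mem_A {ℓ : ℕ} (hA : A.LiesOverPrime ℓ) (n : ℤ)
    (hn : IsCoprime n (ℓ : ℤ)) : ((n : Qb))⁻¹ ∈ A := by
  obtain ⟨a, b, hab⟩ := hn
  have hℓ : A.valuation (ℓ : Qb) < 1 := (ValuationSubring.mem_nonunits_iff A).1 hA
  have hle : ∀ k : ℤ, A.valuation (k : Qb) ≤ 1 := fun k =>
    (A.valuation_le_one_iff _).2 (intCast_mem A k)
  rw [← A.valuation_le_one_iff, map_inv₀]
  by_contra hcon
  have hlt : A.valuation (n : Qb) < 1 := by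
    by_contra h
    push Not at h
    have h1 : A.valuation (n : Qb) = 1 := le_antisymm (hle n) h
    rw [h1, inv_one] at hcon
    exact hcon le_rfl
  have h1 : A.valuation ((a : Qb) * n + b * ℓ) < 1 := by
    refine lt_of_le_of_lt (A.valuation.map_add _ _) (max_lt ?_ ?_)
    · rw [_root_.map_mul]
      calc A.valuation (a : Qb) * A.valuation (n : Qb) ≤ 1 * A.valuation (n : Qb) :=
            mul_le_mul_left (hle a) _
        _ = A.valuation (n : Qb) := one_mul _
        _ < 1 := hlt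
    · rw [_root_.map_mul]
      calc A.valuation (b : Qb) * A.valuation (ℓ : Qb) ≤ 1 * A.valuation (ℓ : Qb) :=
            mul_le_mul_left (hle b) _
        _ = A.valuation (ℓ : Qb) := one_mul _
        _ < 1 := hℓ
  have h2 : ((a : Qb) * n + b * ℓ) = 1 := by
    have := congrArg (Int.cast : ℤ → Qb) hab
    push_cast at this
    exact this
  rw [h2, _root_.map_one] at h1
  exact lt_irrefl _ h1

theorem cst_intCast (n : ℤ) : cst M (n : Qb) = (n : Om M) := map_intCast _ n

theorem intCast_mem_Rc (n : ℤ) : (n : Om M) ∈ Rc M A E := by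
  rw [← cst_intCast]
  exact cst_mem_Rc M A E (intCast_mem A n) (intCast_mem E n)

theorem inv_intCast_mem_Rc {ℓ : ℕ} (hA : A.LiesOverPrime ℓ) (n : ℤ)
    (hn : IsCoprime n (ℓ : ℤ)) : ((n : Om M))⁻¹ ∈ Rc M A E := by
  rw [← cst_intCast, ← map_inv₀]
  exact cst_mem_Rc M A E (inv_intCast_mem_A A hA n hn) (inv_mem (intCast_mem E n))

/-- The three fields `S_mem`, `S_distinct`, `S_unit` for `S = {0, b}`, `b` an integer prime
to `ℓ`. -/
theorem S_fields_of_int {ℓ : ℕ} (hA : A.LiesOverPrime ℓ) (b : ℤ) (hb : IsCoprime b (ℓ : ℤ))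
    (S : Finset (Om M)) (hS : ∀ s, s ∈ S ↔ s = 0 ∨ s = (b : Om M)) :
    (∀ s ∈ S, s ∈ Rc M A E) ∧
    (∀ s ∈ S, ∀ t ∈ S, s ≠ t → (s - t)⁻¹ ∈ Rc M A E) ∧
    (∀ s ∈ S, s ≠ 0 → s⁻¹ ∈ Rc M A E) := by
  have hb' : IsCoprime (-b) (ℓ : ℤ) := hb.neg_left
  refine ⟨?_, ?_, ?_⟩
  · intro s hs
    rcases (hS s).1 hs with rfl | rfl
    · exact zero_mem _
    · exact intCast_mem_Rc M A E b
  · intro s hs t ht hst
    rcases (hS s).1 hs with rfl | rfl <;> rcases (hS t).1 ht with rfl | rfl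
    · exact absurd rfl hst
    · rw [zero_sub]
      have := inv_intCast_mem_Rc M A E hA (-b) hb'
      rwa [Int.cast_neg] at this
    · rw [sub_zero]
      exact inv_intCast_mem_Rc M A E hA b hb
    · exact absurd rfl hst
  · intro s hs hs0
    rcases (hS s).1 hs with rfl | rfl
    · exact absurd rfl hs0
    · exact inv_intCast_mem_Rc M A E hA b hb

/-- **S-fields** for an admissible coordinate (`ℓ` prime). -/
theorem field_S [NeZero M] {ℓ : ℕ} (hℓ : ℓ.Prime) (hA : A.LiesOverPrime ℓ) {x : Om M}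
    {S : Finset (Om M)} (hx : IsCoordinate M ℓ x S) :
    (∀ s ∈ S, s ∈ Rc M A E) ∧
    (∀ s ∈ S, ∀ t ∈ S, s ≠ t → (s - t)⁻¹ ∈ Rc M A E) ∧
    (∀ s ∈ S, s ≠ 0 → s⁻¹ ∈ Rc M A E) := by
  rcases hx with ⟨h5, -, hS⟩ | ⟨⟨h3, -, hS⟩ | ⟨h2, -, hS⟩, -⟩
  · refine S_fields_of_int M A E hA 1728 ?_ S (fun s => by rw [hS s]; norm_num)
    have h1728 : (1728 : ℤ) = 2 ^ 6 * 3 ^ 3 := by norm_num
    rw [h1728]
    have h2 : IsCoprime (2 : ℤ) (ℓ : ℤ) := by
      rw [Int.isCoprime_iff_gcd_eq_one]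
      exact (Nat.coprime_primes Nat.prime_two hℓ).2 (by omega)
    have h3 : IsCoprime (3 : ℤ) (ℓ : ℤ) := by
      rw [Int.isCoprime_iff_gcd_eq_one]
      exact (Nat.coprime_primes Nat.prime_three hℓ).2 (by omega)
    exact (h2.pow_left).mul_left (h3.pow_left)
  · subst h3
    refine S_fields_of_int M A E hA (-64) ?_ S (fun s => by rw [hS s]; norm_num)
    have h64 : (-64 : ℤ) = -(2 ^ 6) := by norm_num
    rw [h64]
    have h2 : IsCoprime (2 : ℤ) ((3 : ℕ) : ℤ) := by
      rw [Int.isCoprime_iff_gcd_eq_one]; decide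
    exact (h2.pow_left).neg_left
  · subst h2
    refine S_fields_of_int M A E hA (-27) ?_ S (fun s => by rw [hS s]; norm_num)
    have h27 : (-27 : ℤ) = -(3 ^ 3) := by norm_num
    rw [h27]
    have h3 : IsCoprime (3 : ℤ) ((2 : ℕ) : ℤ) := by
      rw [Int.isCoprime_iff_gcd_eq_one]; decide
    exact (h3.pow_left).neg_left

end Fermat.Agent.S18.H456

end
end
-- ===== PACK-END S18/H456/ModS.lean

-- ===== PACK-BEGIN Ribet/H764/I3Spec.lean
section





/-!
# Row 38, WALL-p, leaf I3 = W-R3P ("forms from holomorphic differentials mod `p`")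
  (sub-architect helper764; frozen interface, Props + proved glue)

Situation ((S3) of `H944.Wall.AtPFiltrationStatement`): `x ∈ 𝓕 ∖ 𝒮` is a new Hecke eigenclass of
`J₀(pM')[p]`, `x ↔ f` with `div f = p·D`.  On a component `C ≅ X₀(M')_k` of the special fibre
(`k` = residue field at `A`, characteristic `p`, `p ∤ M'`) the reduction `h = red_V f` lies in
`F_k = modularFunctionFieldFullC k M' ⊆ k((q))` (reduction of `q`-expansions), has
`p ∣ ord_Q h` at EVERY place `Q` of `F_k` (slopes zero) and is not a constant times a `p`-th power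
(`x ∉ 𝒮`), i.e. `θh ≠ 0` (`θ = q d/dq`).  So `g := θh / h ∈ k⟦q⟧` is the `q`-expansion of the
nonzero HOLOMORPHIC differential `dh/h = g·dq/q` of `X₀(M')_k`, and it is a `T_ℓ`-eigenvector with
eigenvalue `a_ℓ` (trace of `dlog` = `dlog` of the norm).

**I3 (`R3PStatement`)**: then `a` is the eigensystem of a normalised eigenform of level `M'`
modulo a prime over `p` (`H944.Wall.Lowered`, branch `EigenAway`; R3S is NOT used).

Everything is stated on `q`-series, independent of the model language: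

* `IsDlog h g`            : `g·h = θh` in `k((q))`;
* `IsEigenSeries M S a g` : `c_{nℓ}(g) + ℓ·c_{n/ℓ}(g) = a_ℓ·c_n(g)` for primes `ℓ ∤ M`, `ℓ ∉ S`
                            (weight-2 `T_ℓ` on `q`-expansions, `ModularForm.coeffHeckeT`);
* `redForms k M`          : the `k`-span in `k⟦q⟧` of the reductions of the `q`-expansions of the
                            cusp forms of level `M` with integral `q`-expansion
                            (= mod-`p` cusp forms à la Serre);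
* `FormsModP M p S a`     : FORMS interface in lattice terms: `f ∈ L ∖ pL`,
                            `T_ℓ f - a_ℓ f ∈ pL` off `S`  (`L = CuspForm.intLattice M 2`).

## Leaves
* `LiftStatement`  (L1, algebra, Deligne-Serre `Lib/Ribet/H584`): `FormsModP ⇒ EigenAway`.
* `DescStatement`  (L2, linear algebra, descent `k → 𝔽_p`): an eigen-series in `redForms k M`
                   gives `FormsModP`.
* `LogDiffFormsStatement` (GEO, the geometric heart): `dlog h ∈ redForms k M`.  It splits into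
  - `IncStatement`   (INC): reductions of integral forms are holomorphic differentials of `F_k`
                     (`q`-expansion principle; needs the good reduction of `X₀(M)` at `p`, Tower A);
  - `DimStatement`   (DIMK): holomorphic differentials of `F_k` have dimension `≤ dim S₂(Γ₀(M))`
                     (Riemann-Roch over `k` + `genus(F_k) ≤ genus(F_ℚ̄)` + S20/S24);
  - `RankStatement`  (RANK): `dim_k redForms k M = dim_ℂ S₂(Γ₀(M))` (S23 + saturation);
  - `LogHolStatement`(LOGHOL): `dh/h` is holomorphic when `p ∣ div h` (local computation).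
* PROVED here: `r3p_of : Lift → Desc → LogDiffForms → R3PStatement`.
  (`logDiffForms_of : Inc → Dim → Rank → LogHol → LogDiffForms` is in `I3Glue.lean`.)
-/

set_option autoImplicit false

open CuspForm ModularFormClass ModularCurve AlgebraicCurve

namespace Fermat.Agent.Ribet.H764.I3

open Fermat.Agent.Ribet.H944.Wall

/-! ## Vocabulary -/

/-- `h' = θ h`, `θ = q d/dq` on `k((q))`. -/
def IsTheta {k : Type} [Field k] (h h' : LaurentSeries k) : Prop :=
  ∀ n : ℤ, h'.coeff n = (n : k) * h.coeff n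

/-- `g = θh / h`: `g·dq/q` is the logarithmic differential `dh/h`. -/
def IsDlog {k : Type} [Field k] (h : LaurentSeries k) (g : PowerSeries k) : Prop :=
  IsTheta h (HahnSeries.ofPowerSeries ℤ k g * h)

/-- The weight-2 Hecke eigen-relations `T_ℓ g = a_ℓ g` on a `q`-series, for the primes `ℓ ∤ M`,
`ℓ ∉ S`. -/
def IsEigenSeries {k : Type} [Field k] (M : ℕ) (S : Finset ℕ) (a : ℕ → ℤ)
    (g : PowerSeries k) : Prop :=
  ∀ ℓ : ℕ, ℓ.Prime → ¬ ℓ ∣ M → ℓ ∉ S → ∀ n : ℕ,
    PowerSeries.coeff (n * ℓ) g + (if ℓ ∣ n then (ℓ : k) * PowerSeries.coeff (n / ℓ) g else 0) =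
      (a ℓ : k) * PowerSeries.coeff n g

/-- `g ∈ k⟦q⟧` is the reduction of the `q`-expansion of a cusp form of weight 2 and level `M` with
integral `q`-expansion. -/
def IsRedOfForm (k : Type) [Field k] (M : ℕ) (g : PowerSeries k) : Prop :=
  ∃ (f : CuspForm (CongruenceSubgroup.Gamma0 M) 2) (c : ℕ → ℤ),
    (∀ n, qCoeff f n = (c n : ℂ)) ∧ ∀ n, PowerSeries.coeff n g = (c n : k)

/-- Mod-`p` cusp forms of weight 2 and level `M` with coefficients in `k`. -/
def redForms (k : Type) [Field k] (M : ℕ) : Submodule k (PowerSeries k) :=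
  Submodule.span k {g | IsRedOfForm k M g}

/-- **FORMS interface.**  The eigensystem `a` (off `S`) is realised on a nonzero element of
`L / pL`, `L = intLattice M 2`. -/
def FormsModP (M p : ℕ) [NeZero M] (S : Finset ℕ) (a : ℕ → ℤ) : Prop :=
  ∃ f ∈ intLattice M 2, (∀ f' ∈ intLattice M 2, f ≠ p • f') ∧
    ∀ (ℓ : ℕ) (hℓ : ℓ.Prime) (hℓM : ¬ ℓ ∣ M), ℓ ∉ S →
      ∃ f' ∈ intLattice M 2, heckeTLin 2 hℓ hℓM f - a ℓ • f = p • f'

/-- `g·dq/q` is a holomorphic differential of `F = modularFunctionFieldFullC k M`: for every place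
`Q` and every uniformiser `t` at `Q`, `g = u·θt` with `u ∈ F` regular at `Q`
(i.e. `g·dq/q = u·dt`). -/
def IsHoloSeries (k : Type) [Field k] (M : ℕ) [NeZero M] (g : PowerSeries k) : Prop :=
  ∀ (Q : Place k (modularFunctionFieldFullC k M)) (t : modularFunctionFieldFullC k M),
    Q.ord t = 1 →
      ∃ (u : modularFunctionFieldFullC k M) (t' : LaurentSeries k),
        IsTheta (t : LaurentSeries k) t' ∧ u ∈ Q.toValuationSubring ∧
        HahnSeries.ofPowerSeries ℤ k g = (u : LaurentSeries k) * t'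

/-! ## The statements -/

/-- **I3 = W-R3P.**  A nonzero logarithmic holomorphic eigen-differential `dh/h` on `X₀(M)_k`
(`p ∣ div h`) gives the eigensystem at level `M`. -/
def R3PStatement : Prop :=
  ∀ (p M : ℕ) [NeZero M], p.Prime → ¬ p ∣ M →
    ∀ (k : Type) [Field k] [IsAlgClosed k] [CharP k p] (S : Finset ℕ) (a : ℕ → ℤ)
      (h : modularFunctionFieldFullC k M), h ≠ 0 →
      (∀ Q : Place k (modularFunctionFieldFullC k M), (p : ℤ) ∣ Q.ord h) →
      ∀ g : PowerSeries k, IsDlog (h : LaurentSeries k) g → g ≠ 0 → IsEigenSeries M S a g →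
        Lowered M p S a

/-- (L1) **LIFT**: Deligne-Serre lifting on the integral lattice. -/
def LiftStatement : Prop :=
  ∀ (p M : ℕ) [NeZero M], p.Prime → ∀ (S : Finset ℕ) (a : ℕ → ℤ),
    FormsModP M p S a → ∃ S' : Finset ℕ, S ⊆ S' ∧ EigenAway M p S' a

/-- (L2) **DESC**: a nonzero eigen-series in `redForms k M` (`char k = p`) gives an eigenvector
in `L / pL`. -/
def DescStatement : Prop :=
  ∀ (p M : ℕ) [NeZero M], p.Prime → ∀ (k : Type) [Field k] [CharP k p] (S : Finset ℕ)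
    (a : ℕ → ℤ) (g : PowerSeries k), g ∈ redForms k M → g ≠ 0 → IsEigenSeries M S a g →
      FormsModP M p S a

/-- (GEO) **the geometric heart**: logarithmic differentials with `p ∣ div h` on `X₀(M)_k`,
`p ∤ M`, are mod-`p` cusp forms. -/
def LogDiffFormsStatement : Prop :=
  ∀ (p M : ℕ) [NeZero M], p.Prime → ¬ p ∣ M →
    ∀ (k : Type) [Field k] [IsAlgClosed k] [CharP k p]
      (h : modularFunctionFieldFullC k M), h ≠ 0 →
      (∀ Q : Place k (modularFunctionFieldFullC k M), (p : ℤ) ∣ Q.ord h) →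
      ∀ g : PowerSeries k, IsDlog (h : LaurentSeries k) g → g ∈ redForms k M

/-- (INC) reductions of integral cusp forms are holomorphic differentials of `X₀(M)_k`. -/
def IncStatement : Prop :=
  ∀ (p M : ℕ) [NeZero M], p.Prime → ¬ p ∣ M →
    ∀ (k : Type) [Field k] [IsAlgClosed k] [CharP k p] (g : PowerSeries k),
      IsRedOfForm k M g → IsHoloSeries k M g

/-- (DIMK) a finite-dimensional space of holomorphic differentials of `X₀(M)_k` has dimension at
most `dim S₂(Γ₀(M))`. -/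
def DimStatement : Prop :=
  ∀ (p M : ℕ) [NeZero M], p.Prime → ¬ p ∣ M →
    ∀ (k : Type) [Field k] [IsAlgClosed k] [CharP k p] (W : Submodule k (PowerSeries k)),
      Module.Finite k W → (∀ g ∈ W, IsHoloSeries k M g) →
        Module.finrank k W ≤ Module.finrank ℂ (CuspForm (CongruenceSubgroup.Gamma0 M) 2)

/-- (RANK) `redForms k M` is finite-dimensional of dimension `dim S₂(Γ₀(M))`. -/
def RankStatement : Prop :=
  ∀ (p M : ℕ) [NeZero M], p.Prime →
    ∀ (k : Type) [Field k] [CharP k p],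
      Module.Finite k (redForms k M) ∧
        Module.finrank k (redForms k M) =
          Module.finrank ℂ (CuspForm (CongruenceSubgroup.Gamma0 M) 2)

/-- (LOGHOL) `dh/h` is holomorphic when `p ∣ div h`. -/
def LogHolStatement : Prop :=
  ∀ (p M : ℕ) [NeZero M], p.Prime → ¬ p ∣ M →
    ∀ (k : Type) [Field k] [IsAlgClosed k] [CharP k p]
      (h : modularFunctionFieldFullC k M), h ≠ 0 →
      (∀ Q : Place k (modularFunctionFieldFullC k M), (p : ℤ) ∣ Q.ord h) →
      ∀ g : PowerSeries k, IsDlog (h : LaurentSeries k) g → IsHoloSeries k M g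

/-! ## Glue -/

/-- **I3 from its leaves.** -/
theorem r3p_of (hL : LiftStatement) (hD : DescStatement) (hG : LogDiffFormsStatement) :
    R3PStatement := by
  intro p M _ hp hpM k _ _ _ S a h h0 hdiv g hg hg0 heig
  obtain ⟨S', hS', hE⟩ :=
    hL p M hp S a (hD p M hp k S a g (hG p M hp hpM k h h0 hdiv g hg) hg0 heig)
  exact ⟨S', hS', Or.inr hE⟩

end Fermat.Agent.Ribet.H764.I3

end
-- ===== PACK-END Ribet/H764/I3Spec.lean

-- ===== PACK-BEGIN A2/H553/Prim.lean
section




/-!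
# A2 / K2c (helper553): primitive factorisation over `A ∩ E` and Gauss forms

* `exists_uniformizer` : discreteness of `v_A` on a finite extension `E/ℚ`;
* `exists_prim_factor` : a nonzero series with coefficients in `A ∩ E` is `C c * (primitive)`;
* `FinFrac.hasGaussForm` : `FinFrac A x`, `x ≠ 0` ⟹ `HasGaussForm A x`.
-/

set_option autoImplicit false
set_option linter.unusedSectionVars false
set_option linter.style.haveILetI false

noncomputable section

namespace Fermat.Agent.A2.H553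

open ModularCurve HahnSeries IntermediateField Fermat.Agent.S28.H86 Fermat.Agent.S18.H602

local notation "Q̄" => AlgebraicClosure ℚ

variable {A : ValuationSubring Q̄} {ℓ : ℕ}

/-- Discreteness of `v_A` on a finite extension `E` of `ℚ`. -/
theorem exists_uniformizer (hℓ : ℓ ≠ 0) (hA : A.LiesOverPrime ℓ)
    (E : IntermediateField ℚ Q̄) [FiniteDimensional ℚ E] :
    ∃ ϖ : Q̄, ϖ ≠ 0 ∧ A.valuation ϖ < 1 ∧
      ∀ y : Q̄, y ∈ A → y ∈ E → y ≠ 0 → ∃ k : ℕ, A.valuation y = A.valuation ϖ ^ k := by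
  haveI : IsDiscreteValuationRing ↥(_root_.Fermat.Agent.S18.H602.RE A E) := isDiscreteValuationRing_RE A E hℓ hA
  obtain ⟨ϖ, hϖ⟩ := IsDiscreteValuationRing.exists_irreducible ↥(_root_.Fermat.Agent.S18.H602.RE A E)
  have hunit : ∀ u : (↥(_root_.Fermat.Agent.S18.H602.RE A E))ˣ, A.valuation (((u : ↥(_root_.Fermat.Agent.S18.H602.RE A E)) : E) : Q̄) = 1 := by
    intro u
    have h1 : ((((u : ↥(_root_.Fermat.Agent.S18.H602.RE A E)) : E) : Q̄)) ∈ A := (u : ↥(_root_.Fermat.Agent.S18.H602.RE A E)).2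
    have h2 : (((((u⁻¹ : (↥(_root_.Fermat.Agent.S18.H602.RE A E))ˣ) : ↥(_root_.Fermat.Agent.S18.H602.RE A E)) : E) : Q̄)) ∈ A :=
      ((u⁻¹ : (↥(_root_.Fermat.Agent.S18.H602.RE A E))ˣ) : ↥(_root_.Fermat.Agent.S18.H602.RE A E)).2
    have h3 : ((((u : ↥(_root_.Fermat.Agent.S18.H602.RE A E)) : E) : Q̄)) *
        (((((u⁻¹ : (↥(_root_.Fermat.Agent.S18.H602.RE A E))ˣ) : ↥(_root_.Fermat.Agent.S18.H602.RE A E)) : E) : Q̄)) = 1 := by
      exact congrArg (fun z : ↥(_root_.Fermat.Agent.S18.H602.RE A E) => ((z : E) : Q̄)) (u.mul_inv)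
    have e1 := (A.valuation_le_one_iff _).mpr h1
    have e2 := (A.valuation_le_one_iff _).mpr h2
    have e3 := congrArg A.valuation h3
    rw [_root_.map_mul, _root_.map_one] at e3
    by_contra hne
    have hlt : A.valuation ((((u : ↥(_root_.Fermat.Agent.S18.H602.RE A E)) : E) : Q̄)) < 1 := lt_of_le_of_ne e1 hne
    have : A.valuation ((((u : ↥(_root_.Fermat.Agent.S18.H602.RE A E)) : E) : Q̄)) *
        A.valuation (((((u⁻¹ : (↥(_root_.Fermat.Agent.S18.H602.RE A E))ˣ) : ↥(_root_.Fermat.Agent.S18.H602.RE A E)) : E) : Q̄)) < 1 :=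
      mul_lt_one_of_nonneg_of_lt_one_left zero_le hlt e2
    rw [e3] at this
    exact lt_irrefl _ this
  refine ⟨((ϖ : E) : Q̄), ?_, ?_, ?_⟩
  · intro h0
    apply hϖ.ne_zero
    apply Subtype.ext
    apply Subtype.ext
    simpa using h0
  · have h1 : A.valuation ((ϖ : E) : Q̄) ≤ 1 := (A.valuation_le_one_iff _).mpr ϖ.2
    refine lt_of_le_of_ne h1 ?_
    intro h1'
    apply hϖ.not_isUnit
    have hϖ0 : ((ϖ : E) : Q̄) ≠ 0 := by
      intro h0
      rw [h0, _root_.map_zero] at h1'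
      exact zero_ne_one h1'
    have hinvA : (((ϖ : E) : Q̄))⁻¹ ∈ A := by
      rw [← A.valuation_le_one_iff, map_inv₀, h1', inv_one]
    have hinv : ((ϖ : E)⁻¹ : E) ∈ _root_.Fermat.Agent.S18.H602.RE A E := by
      rw [mem_RE]
      have : (((ϖ : E)⁻¹ : E) : Q̄) = (((ϖ : E) : Q̄))⁻¹ := by simp
      rw [this]
      exact hinvA
    have hϖE : (ϖ : E) ≠ 0 := by
      intro h0
      apply hϖ0
      rw [h0]; rfl
    exact isUnit_iff_exists_inv.mpr ⟨⟨(ϖ : E)⁻¹, hinv⟩, Subtype.ext (mul_inv_cancel₀ hϖE)⟩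
  · intro y hyA hyE hy0
    set y' : ↥(_root_.Fermat.Agent.S18.H602.RE A E) := ⟨⟨y, hyE⟩, hyA⟩ with hy'
    have hy'0 : y' ≠ 0 := by
      intro h0
      apply hy0
      have := congrArg (fun z : ↥(_root_.Fermat.Agent.S18.H602.RE A E) => ((z : E) : Q̄)) h0
      simpa [hy'] using this
    obtain ⟨n, u, hu⟩ := IsDiscreteValuationRing.eq_unit_mul_pow_irreducible hy'0 hϖ
    refine ⟨n, ?_⟩
    have h1 : y = (((u : ↥(_root_.Fermat.Agent.S18.H602.RE A E)) : E) : Q̄) * (((ϖ : E) : Q̄)) ^ n := by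
      have := congrArg (fun z : ↥(_root_.Fermat.Agent.S18.H602.RE A E) => ((z : E) : Q̄)) hu
      simpa [hy'] using this
    rw [h1, _root_.map_mul, map_pow, hunit u, one_mul]

/-- Primitive factorisation: a nonzero series with coefficients in `A ∩ E` (`E/ℚ` finite) is a
nonzero constant times a primitive `A`-integral series. -/
theorem exists_prim_factor (hℓ : ℓ ≠ 0) (hA : A.LiesOverPrime ℓ)
    {E : IntermediateField ℚ Q̄} [FiniteDimensional ℚ E] {a : LaurentSeries Q̄}
    (ha : a ∈ coeffSubring (capSubring A E)) (ha0 : a ≠ 0) :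
    ∃ c : Q̄, c ≠ 0 ∧ ∃ a' : LaurentSeries ↥A.toSubring,
      redL (resA A) a' ≠ 0 ∧ a = HahnSeries.C c * inclL A.toSubring a' := by
  classical
  obtain ⟨ϖ, hϖ0, hϖ1, hval⟩ := exists_uniformizer hℓ hA E
  have hvϖ : A.valuation ϖ ≠ 0 := (Valuation.ne_zero_iff _).mpr hϖ0
  have hvpos : 0 < A.valuation ϖ := zero_lt_iff.mpr hvϖ
  -- the set of exponents
  have hex : ∃ k : ℕ, ∃ n, a.coeff n ≠ 0 ∧ A.valuation (a.coeff n) = A.valuation ϖ ^ k := by
    obtain ⟨n, hn⟩ : ∃ n, a.coeff n ≠ 0 := by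
      by_contra hcon
      push Not at hcon
      exact ha0 (HahnSeries.ext (funext hcon))
    obtain ⟨k, hk⟩ := hval _ (ha n).1 (ha n).2 hn
    exact ⟨k, n, hn, hk⟩
  set k₀ := Nat.find hex with hk₀
  obtain ⟨n₀, hn₀, hvn₀⟩ := Nat.find_spec hex
  have hmin : ∀ n, a.coeff n ≠ 0 → ∃ k, k₀ ≤ k ∧ A.valuation (a.coeff n) = A.valuation ϖ ^ k := by
    intro n hn
    obtain ⟨k, hk⟩ := hval _ (ha n).1 (ha n).2 hn
    exact ⟨k, Nat.find_min' hex ⟨n, hn, hk⟩, hk⟩
  set c : Q̄ := ϖ ^ k₀ with hc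
  have hc0 : c ≠ 0 := pow_ne_zero _ hϖ0
  have hvc : A.valuation c = A.valuation ϖ ^ k₀ := by rw [hc, map_pow]
  -- the scaled series
  set a'' : LaurentSeries Q̄ := HahnSeries.C c⁻¹ * a with ha''
  have hcoeff : ∀ n, a''.coeff n = c⁻¹ * a.coeff n := fun n => coeff_C_mul' _ _ _
  have hint : a'' ∈ coeffSubring A.toSubring := by
    intro n
    rw [hcoeff]
    rcases eq_or_ne (a.coeff n) 0 with h0 | h0
    · rw [h0, mul_zero]; exact A.zero_mem
    · obtain ⟨k, hk, hvk⟩ := hmin n h0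
      show c⁻¹ * a.coeff n ∈ A
      rw [← A.valuation_le_one_iff, _root_.map_mul, map_inv₀, hvc, hvk]
      obtain ⟨d, rfl⟩ := Nat.exists_eq_add_of_le hk
      rw [_root_.pow_add, ← mul_assoc, inv_mul_cancel₀ (pow_ne_zero _ hvϖ), one_mul]
      exact pow_le_one₀ zero_le hϖ1.le
  obtain ⟨a', ha'⟩ := exists_inclL_eq hint
  refine ⟨c, hc0, a', ?_, ?_⟩
  · rw [redL_ne_zero_iff]
    refine ⟨n₀, ?_⟩
    have : ((a'.coeff n₀ : ↥A.toSubring) : Q̄) = a''.coeff n₀ := by
      rw [← ha', inclL_coeff]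
    rw [this, hcoeff, _root_.map_mul, map_inv₀, hvc, hvn₀, ← hk₀,
      inv_mul_cancel₀ (pow_ne_zero _ hvϖ)]
  · rw [ha', ha'', ← mul_assoc, ← _root_.map_mul, mul_inv_cancel₀ hc0, _root_.map_one, one_mul]

/-- `FinFrac` elements are constants times Gauss units. -/
theorem FinFrac.hasGaussForm (hℓ : ℓ ≠ 0) (hA : A.LiesOverPrime ℓ) {x : LaurentSeries Q̄}
    (h : FinFrac A x) (hx : x ≠ 0) : HasGaussForm A x := by
  obtain ⟨E, hE, a, b, ha, hb, hb0, hab⟩ := h
  haveI := hE
  have ha0 : a ≠ 0 := by rw [← hab]; exact mul_ne_zero hx hb0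
  obtain ⟨ca, hca, a', ha', rfl⟩ := exists_prim_factor hℓ hA ha ha0
  obtain ⟨cb, hcb, b', hb', rfl⟩ := exists_prim_factor hℓ hA hb hb0
  refine ⟨ca / cb, div_ne_zero hca hcb, a', b', ha', hb', ?_⟩
  have hCb := C_ne_zero' (K := Q̄) hcb
  have e : (HahnSeries.C (ca / cb) : LaurentSeries Q̄) = HahnSeries.C ca * (HahnSeries.C cb)⁻¹ := by
    rw [div_eq_mul_inv, _root_.map_mul]
    congr 1
    apply eq_inv_of_mul_eq_one_left
    rw [← _root_.map_mul, inv_mul_cancel₀ hcb, _root_.map_one]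
  rw [e]
  have h2 : x * inclL A.toSubring b' * HahnSeries.C cb =
      HahnSeries.C ca * inclL A.toSubring a' := by
    rw [← hab]; ring
  calc x * inclL A.toSubring b'
      = (x * inclL A.toSubring b' * HahnSeries.C cb) * (HahnSeries.C cb)⁻¹ := by
        rw [mul_assoc, mul_inv_cancel₀ hCb, mul_one]
    _ = HahnSeries.C ca * (HahnSeries.C cb)⁻¹ * inclL A.toSubring a' := by
        rw [h2]; ring

end Fermat.Agent.A2.H553

end
end
-- ===== PACK-END A2/H553/Prim.lean

-- ===== PACK-BEGIN A2/Mod/Asm.lean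
section



/-!
# WALL A2 / MODASM — sub-assemblies and the top assembly (row-lead helper13)

`Fermat/Agent/A2/Mod/Spec.lean` (deputy helper994) freezes the concrete leaves L1–L14 and the
level-`M` hypothesis `GoodRedAt`.  This file freezes the five SUB-ASSEMBLIES which turn the leaves
into the fields of `ModSSData` (`ModDefs.lean`), and proves the top assembly
`modSSData_of_parts` (sorry-free).

Objects (level `N = M * q`, coordinate `x = j · j_q`):

* `chartAlg P E N y` : the chart of the coordinate `y` as a subalgebra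
  (`Bf = chartAlg x`, `Bi = chartAlg x⁻¹`);
* `IsCut P E N w V B p` : `p = B ∩ w V` (the component of the special fibre of `B` cut out by
  the valuation ring `V`).

Sub-assemblies (each ONE `Prop`; prove `theorem foo : FooStatement P E M q w` in
`Fermat/Agent/A2/Mod/H<seat>/*.lean`):

* `S1Statement` (two components): for `y ∈ {x, x⁻¹}` there are primes `p∞ = B ∩ w V∞`,
  `p₀ = B ∩ w V₀`, incomparable, with `p∞ ⊓ p₀ = (w)`.
  [H48 `GaussPair.qep2` from L2, L3, L6, L8, L9, L10; incomparability from `H48.exists_approx`.]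
* `S2Statement` (components normal): `B ⧸ p∞`, `B ⧸ p₀` are integrally closed.
  [M4: L11, L13, `GoodRedAt`; `B = α(B_M) + p∞`, `B = β(B_M) + p₀` (L5, L7 for the second).
  NOTE: at infinity `B` is integral over `α(B_M)` only MODULO `p∞` (`1/j_q ≡ (1/j)^q`).]
* `S3Statement` (ordinary double points): `(p∞ ⊔ p₀).IsRadical`.
  [H372 `KronCong.sup_isRadical_of_isDedekindDomain` from L12 (+ L5, L7), S2.]
* `S4Statement` (`SepCoord`, ROUTE G ONLY).
* `StauStatement` (inertia): `τ x = x`, `τ b - b ∈ w B` on both charts.  [L14 + S1.]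
-/

set_option autoImplicit false
set_option linter.unusedSectionVars false
set_option synthInstance.maxHeartbeats 400000
set_option maxHeartbeats 1600000

noncomputable section

namespace Fermat.Agent.A2.Mod

open ModularCurve HahnSeries Polynomial

section Objects

variable (P : ValuationSubring _root_.Fermat.Agent.A2.Mod.Qb) (E : IntermediateField ℚ _root_.Fermat.Agent.A2.Mod.Qb) (N : ℕ)

/-- The chart of the coordinate `y` as a subalgebra of `F_{N,E}`: the integral closure of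
`R_E[y]`. -/
def chartAlg (y : _root_.Fermat.Agent.A2.Mod.FE E N) : Subalgebra (_root_.Fermat.Agent.A2.Mod.RE P E) (_root_.Fermat.Agent.A2.Mod.FE E N) :=
  (integralClosure (Algebra.adjoin (_root_.Fermat.Agent.A2.Mod.RE P E) ({y} : Set (_root_.Fermat.Agent.A2.Mod.FE E N))) (_root_.Fermat.Agent.A2.Mod.FE E N)).restrictScalars
    (_root_.Fermat.Agent.A2.Mod.RE P E)

theorem mem_chartAlg {y f : _root_.Fermat.Agent.A2.Mod.FE E N} :
    f ∈ chartAlg P E N y ↔ IsIntegral (Algebra.adjoin (_root_.Fermat.Agent.A2.Mod.RE P E) ({y} : Set (_root_.Fermat.Agent.A2.Mod.FE E N))) f :=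
  Iff.rfl

/-- `p = B ∩ w V`. -/
def IsCut (w : _root_.Fermat.Agent.A2.Mod.RE P E) (V : ValuationSubring (_root_.Fermat.Agent.A2.Mod.FE E N)) (B : Subalgebra (_root_.Fermat.Agent.A2.Mod.RE P E) (_root_.Fermat.Agent.A2.Mod.FE E N))
    (p : Ideal B) : Prop :=
  ∀ b : B, b ∈ p ↔ InW P E N V w (b : _root_.Fermat.Agent.A2.Mod.FE E N)

end Objects

section SubAssemblies

variable (P : ValuationSubring _root_.Fermat.Agent.A2.Mod.Qb) (E : IntermediateField ℚ _root_.Fermat.Agent.A2.Mod.Qb) (M q : ℕ) [NeZero M] [NeZero q]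
  (w : _root_.Fermat.Agent.A2.Mod.RE P E)

/-- `y` is one of the two coordinates `x`, `x⁻¹` of level `M * q`. -/
def IsCoord (y : _root_.Fermat.Agent.A2.Mod.FE E (M * q)) : Prop := y = xE E M q ∨ y = (xE E M q)⁻¹

/-- The level-`M` coordinate attached to a level-`Mq` coordinate: `j` for `x`, `j⁻¹` for `x⁻¹`. -/
def IsCoordPair (yM : _root_.Fermat.Agent.A2.Mod.FE E M) (y : _root_.Fermat.Agent.A2.Mod.FE E (M * q)) : Prop :=
  (yM = jE E M 1 (one_dvd _) ∧ y = xE E M q) ∨
    (yM = (jE E M 1 (one_dvd _))⁻¹ ∧ y = (xE E M q)⁻¹)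

/-- **S1 (two components).** -/
def S1Statement : Prop :=
  Setting P E M q w →
    ∀ (V : ValuationSubring (_root_.Fermat.Agent.A2.Mod.FE E (M * q))) (W : _root_.Fermat.Agent.A2.Mod.FE E (M * q) ≃ₐ[E] _root_.Fermat.Agent.A2.Mod.FE E (M * q)),
      IsVinf P E (M * q) V → IsFricke E (M * q) W →
      ∀ y : _root_.Fermat.Agent.A2.Mod.FE E (M * q), IsCoord E M q y →
        ∃ p₁ p₂ : Ideal (chartAlg P E (M * q) y),
          IsCut P E (M * q) w V (chartAlg P E (M * q) y) p₁ ∧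
          IsCut P E (M * q) w (V.comap (W : _root_.Fermat.Agent.A2.Mod.FE E (M * q) →+* _root_.Fermat.Agent.A2.Mod.FE E (M * q)))
            (chartAlg P E (M * q) y) p₂ ∧
          p₁.IsPrime ∧ p₂.IsPrime ∧ ¬ p₁ ≤ p₂ ∧ ¬ p₂ ≤ p₁ ∧
          p₁ ⊓ p₂ = Ideal.span {algebraMap (_root_.Fermat.Agent.A2.Mod.RE P E) (chartAlg P E (M * q) y) w}

/-- **S2 (components normal)**, given good reduction at level `M` in the corresponding chart. -/
def S2Statement : Prop :=
  Setting P E M q w →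
    ∀ (VM : ValuationSubring (_root_.Fermat.Agent.A2.Mod.FE E M)) (V : ValuationSubring (_root_.Fermat.Agent.A2.Mod.FE E (M * q)))
      (W : _root_.Fermat.Agent.A2.Mod.FE E (M * q) ≃ₐ[E] _root_.Fermat.Agent.A2.Mod.FE E (M * q)),
      IsVinf P E M VM → IsVinf P E (M * q) V → IsFricke E (M * q) W →
      ∀ (yM : _root_.Fermat.Agent.A2.Mod.FE E M) (y : _root_.Fermat.Agent.A2.Mod.FE E (M * q)), IsCoordPair E M q yM y →
        GoodRedAt P E M w VM yM →
        ∀ p₁ p₂ : Ideal (chartAlg P E (M * q) y),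
          IsCut P E (M * q) w V (chartAlg P E (M * q) y) p₁ →
          IsCut P E (M * q) w (V.comap (W : _root_.Fermat.Agent.A2.Mod.FE E (M * q) →+* _root_.Fermat.Agent.A2.Mod.FE E (M * q)))
            (chartAlg P E (M * q) y) p₂ →
          IsIntegrallyClosed (chartAlg P E (M * q) y ⧸ p₁) ∧
          IsIntegrallyClosed (chartAlg P E (M * q) y ⧸ p₂)

/-- **S3 (ordinary double points)**, given good reduction at level `M`. -/
def S3Statement : Prop :=
  Setting P E M q w →
    ∀ (VM : ValuationSubring (_root_.Fermat.Agent.A2.Mod.FE E M)) (V : ValuationSubring (_root_.Fermat.Agent.A2.Mod.FE E (M * q)))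
      (W : _root_.Fermat.Agent.A2.Mod.FE E (M * q) ≃ₐ[E] _root_.Fermat.Agent.A2.Mod.FE E (M * q)),
      IsVinf P E M VM → IsVinf P E (M * q) V → IsFricke E (M * q) W →
      ∀ (yM : _root_.Fermat.Agent.A2.Mod.FE E M) (y : _root_.Fermat.Agent.A2.Mod.FE E (M * q)), IsCoordPair E M q yM y →
        GoodRedAt P E M w VM yM →
        ∀ p₁ p₂ : Ideal (chartAlg P E (M * q) y),
          IsCut P E (M * q) w V (chartAlg P E (M * q) y) p₁ →
          IsCut P E (M * q) w (V.comap (W : _root_.Fermat.Agent.A2.Mod.FE E (M * q) →+* _root_.Fermat.Agent.A2.Mod.FE E (M * q)))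
            (chartAlg P E (M * q) y) p₂ →
          (p₁ ⊔ p₂).IsRadical

/-- **S4 (separating coordinate; route G only).** -/
def S4Statement : Prop :=
  Setting P E M q w →
    ∀ (VM : ValuationSubring (_root_.Fermat.Agent.A2.Mod.FE E M)), IsVinf P E M VM →
      GoodRedAt P E M w VM (jE E M 1 (one_dvd _)) →
      GoodRedAt P E M w VM (jE E M 1 (one_dvd _))⁻¹ →
      SepCoord (_root_.Fermat.Agent.A2.Mod.RE P E) E (xE E M q) (chartAlg P E (M * q) (xE E M q)) ∧
        SepCoord (_root_.Fermat.Agent.A2.Mod.RE P E) E (xE E M q)⁻¹ (chartAlg P E (M * q) (xE E M q)⁻¹)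

/-- **Sτ (inertia acts trivially on the special fibre of both charts).** -/
def StauStatement : Prop :=
  Setting P E M q w →
    ∀ (τ : _root_.Fermat.Agent.A2.Mod.Qb ≃ₐ[ℚ] _root_.Fermat.Agent.A2.Mod.Qb) (τE : E ≃ₐ[ℚ] E), τ ∈ P.inertiaSubgroupIn ℚ →
      (∀ e : E, ((τE e : E) : _root_.Fermat.Agent.A2.Mod.Qb) = τ (e : _root_.Fermat.Agent.A2.Mod.Qb)) →
      arithmeticRingAut (modularFunctionFieldFull (M * q)) τE (xE E M q) = xE E M q ∧
      ∀ y : _root_.Fermat.Agent.A2.Mod.FE E (M * q), IsCoord E M q y → ∀ b ∈ chartAlg P E (M * q) y,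
        ∃ c ∈ chartAlg P E (M * q) y,
          arithmeticRingAut (modularFunctionFieldFull (M * q)) τE b - b =
            algebraMap (_root_.Fermat.Agent.A2.Mod.RE P E) (_root_.Fermat.Agent.A2.Mod.FE E (M * q)) w * c

end SubAssemblies

section Top

variable (P : ValuationSubring _root_.Fermat.Agent.A2.Mod.Qb) (E : IntermediateField ℚ _root_.Fermat.Agent.A2.Mod.Qb) (M q : ℕ) [NeZero M] [NeZero q]

/-- The level-`M` hypothesis of MODASM (output of S18 b2): good reduction at level `M` in the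
two charts of the coordinate `j`. -/
def GoodRedHyp : Prop :=
  ∀ (w : _root_.Fermat.Agent.A2.Mod.RE P E) (VM : ValuationSubring (_root_.Fermat.Agent.A2.Mod.FE E M)), Irreducible w → IsVinf P E M VM →
    GoodRedAt P E M w VM (jE E M 1 (one_dvd _)) ∧
      GoodRedAt P E M w VM (jE E M 1 (one_dvd _))⁻¹

/-- The semistable chart `SSChart w (chartAlg y)` from S1, S2, S3. -/
theorem nonempty_ssChart (w : _root_.Fermat.Agent.A2.Mod.RE P E) (hS : Setting P E M q w)
    (hS1 : S1Statement P E M q w) (hS2 : S2Statement P E M q w) (hS3 : S3Statement P E M q w)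
    (VM : ValuationSubring (_root_.Fermat.Agent.A2.Mod.FE E M)) (V : ValuationSubring (_root_.Fermat.Agent.A2.Mod.FE E (M * q)))
    (W : _root_.Fermat.Agent.A2.Mod.FE E (M * q) ≃ₐ[E] _root_.Fermat.Agent.A2.Mod.FE E (M * q))
    (hVM : IsVinf P E M VM) (hV : IsVinf P E (M * q) V) (hW : IsFricke E (M * q) W)
    (yM : _root_.Fermat.Agent.A2.Mod.FE E M) (y : _root_.Fermat.Agent.A2.Mod.FE E (M * q)) (hy : IsCoordPair E M q yM y)
    (hgood : GoodRedAt P E M w VM yM) :
    Nonempty (SSChart w (chartAlg P E (M * q) y)) := by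
  have hy' : IsCoord E M q y := by
    rcases hy with ⟨-, h⟩ | ⟨-, h⟩
    · exact Or.inl h
    · exact Or.inr h
  obtain ⟨p₁, p₂, hc₁, hc₂, hp₁, hp₂, h₁₂, h₂₁, hinf⟩ := hS1 hS V W hV hW y hy'
  obtain ⟨hn₁, hn₂⟩ := hS2 hS VM V W hVM hV hW yM y hy hgood p₁ p₂ hc₁ hc₂
  have hrad := hS3 hS VM V W hVM hV hW yM y hy hgood p₁ p₂ hc₁ hc₂
  exact ⟨{ p₁ := p₁
           p₂ := p₂
           prime₁ := hp₁
           prime₂ := hp₂
           ne := fun h => h₁₂ (h ▸ le_refl p₁)
           not_le₁₂ := h₁₂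
           not_le₂₁ := h₂₁
           inf_eq := hinf
           normal₁ := hn₁
           normal₂ := hn₂
           transversal := hrad }⟩

theorem dedekindPsi_pos_of_ne_zero (n : ℕ) (hn : n ≠ 0) : 0 < dedekindPsi n := by
  unfold dedekindPsi
  have h1 : (1 : ℕ) ∈ n.divisors.filter (fun d => Squarefree d) := by
    simp [hn]
  calc 0 < n / 1 := by simpa using Nat.pos_of_ne_zero hn
    _ ≤ _ := Finset.single_le_sum (f := fun d => n / d) (fun _ _ => Nat.zero_le _) h1

/-- **MODASM, top assembly** (level `M * q`): the leaves L1, L4, L8, the sub-assemblies S1–S4,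
Sτ and the level-`M` hypothesis `GoodRedHyp` give the semistable model `ModSSData`. -/
theorem modSSData_of_parts (hq : q.Prime) (hqM : ¬ q ∣ M) (hP : P.LiesOverPrime q)
    (hdvr : IsDiscreteValuationRing (_root_.Fermat.Agent.A2.Mod.RE P E))
    (hVM : ∃ VM : ValuationSubring (_root_.Fermat.Agent.A2.Mod.FE E M), IsVinf P E M VM)
    (hV : ∃ V : ValuationSubring (_root_.Fermat.Agent.A2.Mod.FE E (M * q)), IsVinf P E (M * q) V)
    (hW : ∃ W : _root_.Fermat.Agent.A2.Mod.FE E (M * q) ≃ₐ[E] _root_.Fermat.Agent.A2.Mod.FE E (M * q), IsFricke E (M * q) W)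
    (hDeg : DegStatement E M q)
    (hS1 : ∀ w, S1Statement P E M q w) (hS2 : ∀ w, S2Statement P E M q w)
    (hS3 : ∀ w, S3Statement P E M q w) (hS4 : ∀ w, S4Statement P E M q w)
    (hSτ : ∀ w, StauStatement P E M q w)
    (hgood : GoodRedHyp P E M) :
    Nonempty (ModSSData P E (M * q)) := by
  obtain ⟨VM, hVM⟩ := hVM
  obtain ⟨V, hV⟩ := hV
  obtain ⟨W, hW⟩ := hW
  obtain ⟨hx, hfr, hconst⟩ := hDeg hq hqM
  have hS : ∀ w : _root_.Fermat.Agent.A2.Mod.RE P E, Irreducible w → Setting P E M q w := fun w hw =>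
    { q_prime := hq
      q_not_dvd := hqM
      M_ne_zero := NeZero.ne M
      lies_over := hP
      dvr := hdvr
      unif := hw }
  obtain ⟨w₀, hw₀⟩ := IsDiscreteValuationRing.exists_irreducible (_root_.Fermat.Agent.A2.Mod.RE P E)
  have hpos : 0 < Module.finrank (IntermediateField.adjoin E ({xE E M q} : Set (_root_.Fermat.Agent.A2.Mod.FE E (M * q))))
      (_root_.Fermat.Agent.A2.Mod.FE E (M * q)) := by
    rw [hfr]
    have h1 := dedekindPsi_pos_of_ne_zero M (NeZero.ne M)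
    positivity
  have hfin : FiniteDimensional (IntermediateField.adjoin E ({xE E M q} : Set (_root_.Fermat.Agent.A2.Mod.FE E (M * q))))
      (_root_.Fermat.Agent.A2.Mod.FE E (M * q)) := Module.finite_of_finrank_pos hpos
  have hg₀ := hgood w₀ VM hw₀ hVM
  have hsep := hS4 w₀ (hS w₀ hw₀) VM hVM hg₀.1 hg₀.2
  exact ⟨{ x := xE E M q
           hx := hx
           hfin := hfin
           hconst := hconst
           Bf := chartAlg P E (M * q) (xE E M q)
           Bi := chartAlg P E (M * q) (xE E M q)⁻¹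
           hBf := fun _ => Iff.rfl
           hBi := fun _ => Iff.rfl
           cf := fun w hw => nonempty_ssChart P E M q w (hS w hw) (hS1 w) (hS2 w) (hS3 w)
             VM V W hVM hV hW _ _ (Or.inl ⟨rfl, rfl⟩) (hgood w VM hw hVM).1
           ci := fun w hw => nonempty_ssChart P E M q w (hS w hw) (hS1 w) (hS2 w) (hS3 w)
             VM V W hVM hV hW _ _ (Or.inr ⟨rfl, rfl⟩) (hgood w VM hw hVM).2
           sf := hsep.1
           si := hsep.2
           hτx := fun hE τ hτ => ((hSτ w₀) (hS w₀ hw₀) τ (hE.res τ hτ) hτ (fun _ => rfl)).1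
           hτf := fun hE τ hτ w hw b hb =>
             ((hSτ w) (hS w hw) τ (hE.res τ hτ) hτ (fun _ => rfl)).2 _ (Or.inl rfl) b hb
           hτi := fun hE τ hτ w hw b hb =>
             ((hSτ w) (hS w hw) τ (hE.res τ hτ) hτ (fun _ => rfl)).2 _ (Or.inr rfl) b hb }⟩

/-- **MODASM, top assembly without `SepCoord`** (route S; shape of the hypothesis `hMOD` of
`T1.H849.kummerTarget_of_parts_of` with `SS := SSChart`, `Sep := True`). -/
theorem exists_model_of_parts (hq : q.Prime) (hqM : ¬ q ∣ M) (hP : P.LiesOverPrime q)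
    (hdvr : IsDiscreteValuationRing (_root_.Fermat.Agent.A2.Mod.RE P E))
    (hVM : ∃ VM : ValuationSubring (_root_.Fermat.Agent.A2.Mod.FE E M), IsVinf P E M VM)
    (hV : ∃ V : ValuationSubring (_root_.Fermat.Agent.A2.Mod.FE E (M * q)), IsVinf P E (M * q) V)
    (hW : ∃ W : _root_.Fermat.Agent.A2.Mod.FE E (M * q) ≃ₐ[E] _root_.Fermat.Agent.A2.Mod.FE E (M * q), IsFricke E (M * q) W)
    (hDeg : DegStatement E M q)
    (hS1 : ∀ w, S1Statement P E M q w) (hS2 : ∀ w, S2Statement P E M q w)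
    (hS3 : ∀ w, S3Statement P E M q w) (hSτ : ∀ w, StauStatement P E M q w)
    (hgood : GoodRedHyp P E M) :
    ∃ (x : _root_.Fermat.Agent.A2.Mod.FE E (M * q)) (Bf Bi : Subalgebra (_root_.Fermat.Agent.A2.Mod.RE P E) (_root_.Fermat.Agent.A2.Mod.FE E (M * q))),
      Transcendental E x ∧
      FiniteDimensional (IntermediateField.adjoin E ({x} : Set (_root_.Fermat.Agent.A2.Mod.FE E (M * q)))) (_root_.Fermat.Agent.A2.Mod.FE E (M * q)) ∧
      (∀ f : _root_.Fermat.Agent.A2.Mod.FE E (M * q), IsAlgebraic E f → f ∈ (algebraMap E (_root_.Fermat.Agent.A2.Mod.FE E (M * q))).range) ∧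
      (∀ f : _root_.Fermat.Agent.A2.Mod.FE E (M * q), f ∈ Bf ↔
        IsIntegral (Algebra.adjoin (_root_.Fermat.Agent.A2.Mod.RE P E) ({x} : Set (_root_.Fermat.Agent.A2.Mod.FE E (M * q)))) f) ∧
      (∀ f : _root_.Fermat.Agent.A2.Mod.FE E (M * q), f ∈ Bi ↔
        IsIntegral (Algebra.adjoin (_root_.Fermat.Agent.A2.Mod.RE P E) ({x⁻¹} : Set (_root_.Fermat.Agent.A2.Mod.FE E (M * q)))) f) ∧
      (∀ w : _root_.Fermat.Agent.A2.Mod.RE P E, Irreducible w → Nonempty (SSChart w Bf)) ∧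
      (∀ w : _root_.Fermat.Agent.A2.Mod.RE P E, Irreducible w → Nonempty (SSChart w Bi)) ∧
      (∀ τ ∈ P.inertiaSubgroupIn ℚ, ∀ τE : E ≃ₐ[ℚ] E,
        (∀ e : E, ((τE e : E) : _root_.Fermat.Agent.A2.Mod.Qb) = τ (e : _root_.Fermat.Agent.A2.Mod.Qb)) →
        arithmeticRingAut (modularFunctionFieldFull (M * q)) τE x = x) ∧
      (∀ τ ∈ P.inertiaSubgroupIn ℚ, ∀ τE : E ≃ₐ[ℚ] E,
        (∀ e : E, ((τE e : E) : _root_.Fermat.Agent.A2.Mod.Qb) = τ (e : _root_.Fermat.Agent.A2.Mod.Qb)) →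
        ∀ w : _root_.Fermat.Agent.A2.Mod.RE P E, Irreducible w → ∀ b ∈ Bf, ∃ c ∈ Bf,
          arithmeticRingAut (modularFunctionFieldFull (M * q)) τE b - b =
            algebraMap (_root_.Fermat.Agent.A2.Mod.RE P E) (_root_.Fermat.Agent.A2.Mod.FE E (M * q)) w * c) ∧
      (∀ τ ∈ P.inertiaSubgroupIn ℚ, ∀ τE : E ≃ₐ[ℚ] E,
        (∀ e : E, ((τE e : E) : _root_.Fermat.Agent.A2.Mod.Qb) = τ (e : _root_.Fermat.Agent.A2.Mod.Qb)) →
        ∀ w : _root_.Fermat.Agent.A2.Mod.RE P E, Irreducible w → ∀ b ∈ Bi, ∃ c ∈ Bi,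
          arithmeticRingAut (modularFunctionFieldFull (M * q)) τE b - b =
            algebraMap (_root_.Fermat.Agent.A2.Mod.RE P E) (_root_.Fermat.Agent.A2.Mod.FE E (M * q)) w * c) := by
  obtain ⟨VM, hVM⟩ := hVM
  obtain ⟨V, hV⟩ := hV
  obtain ⟨W, hW⟩ := hW
  obtain ⟨hx, hfr, hconst⟩ := hDeg hq hqM
  have hS : ∀ w : _root_.Fermat.Agent.A2.Mod.RE P E, Irreducible w → Setting P E M q w := fun w hw =>
    { q_prime := hq
      q_not_dvd := hqM
      M_ne_zero := NeZero.ne M
      lies_over := hP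
      dvr := hdvr
      unif := hw }
  obtain ⟨w₀, hw₀⟩ := IsDiscreteValuationRing.exists_irreducible (_root_.Fermat.Agent.A2.Mod.RE P E)
  have hpos : 0 < Module.finrank (IntermediateField.adjoin E ({xE E M q} : Set (_root_.Fermat.Agent.A2.Mod.FE E (M * q))))
      (_root_.Fermat.Agent.A2.Mod.FE E (M * q)) := by
    rw [hfr]
    have h1 := dedekindPsi_pos_of_ne_zero M (NeZero.ne M)
    positivity
  have hfin : FiniteDimensional (IntermediateField.adjoin E ({xE E M q} : Set (_root_.Fermat.Agent.A2.Mod.FE E (M * q))))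
      (_root_.Fermat.Agent.A2.Mod.FE E (M * q)) := Module.finite_of_finrank_pos hpos
  refine ⟨xE E M q, chartAlg P E (M * q) (xE E M q), chartAlg P E (M * q) (xE E M q)⁻¹,
    hx, hfin, hconst, fun _ => Iff.rfl, fun _ => Iff.rfl, ?_, ?_, ?_, ?_, ?_⟩
  · exact fun w hw => nonempty_ssChart P E M q w (hS w hw) (hS1 w) (hS2 w) (hS3 w)
      VM V W hVM hV hW _ _ (Or.inl ⟨rfl, rfl⟩) (hgood w VM hw hVM).1
  · exact fun w hw => nonempty_ssChart P E M q w (hS w hw) (hS1 w) (hS2 w) (hS3 w)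
      VM V W hVM hV hW _ _ (Or.inr ⟨rfl, rfl⟩) (hgood w VM hw hVM).2
  · exact fun τ hτ τE hτE => ((hSτ w₀) (hS w₀ hw₀) τ τE hτ hτE).1
  · exact fun τ hτ τE hτE w hw b hb =>
      ((hSτ w) (hS w hw) τ τE hτ hτE).2 _ (Or.inl rfl) b hb
  · exact fun τ hτ τE hτE w hw b hb =>
      ((hSτ w) (hS w hw) τ τE hτ hτE).2 _ (Or.inr rfl) b hb

end Top

end Fermat.Agent.A2.Mod

end
end
-- ===== PACK-END A2/Mod/Asm.lean

-- ===== PACK-BEGIN A2/Mod/H553/Vinf.lean
section



/-!
# A2 / MOD leaves L1 `VinfExists`, L2 `VinfBasic` (helper553)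

Level `E` Gauss valuation `V∞` of `F_{N,E} = E(j_d : d ∣ N)` over `R_E = P ∩ E` (a DVR):

* `VinfE P E N` : the valuation subring (`= H708.gaussInf`), `isVinf_VinfE`, `IsVinf.eq`;
* `mem_of_int`, `inv_mem_of_int` : functions with integral `t`-expansion lie in `V∞`; if a
  coefficient is `±1` they are units of `V∞`;
* `vinfExists : VinfExistsStatement P E`  (L1);
* `vinfBasic : VinfBasicStatement P E w`  (L2).
-/

set_option autoImplicit false
set_option synthInstance.maxHeartbeats 400000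
set_option maxHeartbeats 1600000
set_option linter.unusedSectionVars false
set_option linter.style.haveILetI false

noncomputable section

namespace Fermat.Agent.A2.Mod.H553

open ModularCurve HahnSeries Polynomial
open Fermat.Agent.A2 Fermat.Agent.A2.Mod

variable (P : ValuationSubring _root_.Fermat.Agent.A2.Mod.Qb) (E : IntermediateField ℚ _root_.Fermat.Agent.A2.Mod.Qb)

/-- the Gauss valuation ring at `∞` of `F_{N,E}` -/
def VinfE (N : ℕ) [IsNoetherianRing ↥(_root_.Fermat.Agent.A2.Mod.RE P E)] : ValuationSubring ↥(_root_.Fermat.Agent.A2.Mod.FE E N) :=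
  H708.gaussInf (_root_.Fermat.Agent.A2.Mod.RE P E) (modularFunctionFieldFull N) (H708.intGen_full N)
    (H708.attainsMax_of_isNoetherianRing (_root_.Fermat.Agent.A2.Mod.RE P E) (modularFunctionFieldFull N))

theorem isVinf_VinfE (N : ℕ) [IsNoetherianRing ↥(_root_.Fermat.Agent.A2.Mod.RE P E)] : IsVinf P E N (VinfE P E N) :=
  fun _ => Iff.rfl

variable {P E}

theorem eq_VinfE_of_isVinf {N : ℕ} [IsNoetherianRing ↥(_root_.Fermat.Agent.A2.Mod.RE P E)] {V : ValuationSubring ↥(_root_.Fermat.Agent.A2.Mod.FE E N)}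
    (hV : IsVinf P E N V) : V = VinfE P E N := by
  ext f
  rw [hV f]
  exact ((isVinf_VinfE P E N) f).symm

/-- integral series, in `E((t))` -/
theorem coeffEmb_castQ (g : LaurentSeries ℤ) :
    coeffEmb (↥E) (H708.castQ g) = H708.incl (_root_.Fermat.Agent.A2.Mod.RE P E) (H708.castA (_root_.Fermat.Agent.A2.Mod.RE P E) g) :=
  (H708.incl_castA (_root_.Fermat.Agent.A2.Mod.RE P E) g).symm

/-- functions with integral `t`-expansion lie in `V∞` -/
theorem mem_of_int {N : ℕ} {V : ValuationSubring ↥(_root_.Fermat.Agent.A2.Mod.FE E N)} (hV : IsVinf P E N V)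
    {f : ↥(_root_.Fermat.Agent.A2.Mod.FE E N)} {g : LaurentSeries ℤ}
    (hfg : (f : LaurentSeries ↥E) = coeffEmb (↥E) (H708.castQ g)) : f ∈ V := by
  rw [hV f, hfg, coeffEmb_castQ (P := P)]
  exact H708.IsGaussInt.of_incl _

theorem red_castA_ne_zero {g : LaurentSeries ℤ} {k : ℤ}
    (hk : g.coeff k = 1 ∨ g.coeff k = -1) :
    H708.red (_root_.Fermat.Agent.A2.Mod.RE P E) (H708.castA (_root_.Fermat.Agent.A2.Mod.RE P E) g) ≠ 0 := by
  rw [H708.red_ne_zero_iff]
  refine ⟨k, ?_⟩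
  have h1 : (((H708.castA (_root_.Fermat.Agent.A2.Mod.RE P E) g).coeff k : ↥(_root_.Fermat.Agent.A2.Mod.RE P E)) : ↥E) = ((g.coeff k : ℤ) : ↥E) := by
    show ((((g.coeff k : ℤ) : ↥(_root_.Fermat.Agent.A2.Mod.RE P E))) : ↥E) = _
    simp
  rw [h1]
  rcases hk with hk | hk
  · rw [hk]; simp
  · rw [hk]; simp

/-- functions with integral `t`-expansion having a coefficient `±1` are units of `V∞` -/
theorem inv_mem_of_int {N : ℕ} {V : ValuationSubring ↥(_root_.Fermat.Agent.A2.Mod.FE E N)} (hV : IsVinf P E N V)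
    {f : ↥(_root_.Fermat.Agent.A2.Mod.FE E N)} {g : LaurentSeries ℤ} {k : ℤ}
    (hfg : (f : LaurentSeries ↥E) = coeffEmb (↥E) (H708.castQ g))
    (hk : g.coeff k = 1 ∨ g.coeff k = -1) : f⁻¹ ∈ V := by
  rw [hV f⁻¹]
  have hf : (f : LaurentSeries ↥E) = H708.incl (_root_.Fermat.Agent.A2.Mod.RE P E) (H708.castA (_root_.Fermat.Agent.A2.Mod.RE P E) g) := by
    rw [hfg, coeffEmb_castQ (P := P)]
  have hred := red_castA_ne_zero (P := P) (E := E) hk
  have hne : H708.incl (_root_.Fermat.Agent.A2.Mod.RE P E) (H708.castA (_root_.Fermat.Agent.A2.Mod.RE P E) g) ≠ 0 :=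
    H708.incl_ne_zero _ (H708.ne_zero_of_red_ne_zero _ hred)
  refine ⟨1, H708.castA (_root_.Fermat.Agent.A2.Mod.RE P E) g, hred, ?_, ?_⟩
  · rw [← hf]
    exact f.2
  · rw [IntermediateField.coe_inv, hf, inv_mul_cancel₀ hne, _root_.map_one]

/-- the generators `j_d` as integral series -/
theorem coe_jE (N d : ℕ) [NeZero d] (hd : d ∣ N) :
    ((jE E N d hd : ↥(_root_.Fermat.Agent.A2.Mod.FE E N)) : LaurentSeries ↥E) = coeffEmb (↥E) (H708.castQ (H708.jInt d)) := by
  rw [H708.castQ_jInt]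
  rfl

theorem coeff_jInt_top (d : ℕ) [NeZero d] : (H708.jInt d).coeff (-(d : ℤ)) = 1 := by
  have h := coeff_jqModC_pow_self ℤ 1
  rw [H708.jInt, jqNModC,
    show (-(d : ℤ)) = (d : ℤ) * (-((1 : ℕ) : ℤ)) by push_cast; ring, qExpand_coeff_mul]
  simpa using h

variable (P E)

/-- **L1.** -/
theorem vinfExists : VinfExistsStatement P E := by
  intro N _ hdvr
  haveI := hdvr
  exact ⟨VinfE P E N, isVinf_VinfE P E N⟩

/-- `V∞ ∩ E = R_E`. -/
theorem algebraMap_mem_iff {N : ℕ} [IsNoetherianRing ↥(_root_.Fermat.Agent.A2.Mod.RE P E)] {V : ValuationSubring ↥(_root_.Fermat.Agent.A2.Mod.FE E N)}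
    (hV : IsVinf P E N V) (e : ↥E) : algebraMap ↥E ↥(_root_.Fermat.Agent.A2.Mod.FE E N) e ∈ V ↔ e ∈ _root_.Fermat.Agent.A2.Mod.RE P E := by
  rw [eq_VinfE_of_isVinf hV]
  exact H708.algebraMap_mem_gaussInf_iff _ _ e

/-- every nonzero function is a constant times a unit of `V∞` -/
theorem exists_const_mul_unit {N : ℕ} [IsNoetherianRing ↥(_root_.Fermat.Agent.A2.Mod.RE P E)]
    {V : ValuationSubring ↥(_root_.Fermat.Agent.A2.Mod.FE E N)} (hV : IsVinf P E N V) {f : ↥(_root_.Fermat.Agent.A2.Mod.FE E N)} (hf : f ≠ 0) :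
    ∃ c : ↥E, c ≠ 0 ∧ V.valuation (f * (algebraMap ↥E ↥(_root_.Fermat.Agent.A2.Mod.FE E N) c)⁻¹) = 1 := by
  rw [eq_VinfE_of_isVinf hV]
  exact H708.exists_const_mul_unit _ _ hf

/-- **L2.** -/
theorem vinfBasic (w : _root_.Fermat.Agent.A2.Mod.RE P E) : VinfBasicStatement P E w := by
  intro N _ hdvr hw V hV
  haveI := hdvr
  have hw0 : (w : ↥E) ≠ 0 := by
    intro h0
    exact hw.ne_zero (Subtype.ext h0)
  have hwinv : ((w : ↥E))⁻¹ ∉ _root_.Fermat.Agent.A2.Mod.RE P E := by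
    intro hmem
    apply hw.not_isUnit
    refine isUnit_iff_exists_inv.mpr ⟨⟨_, hmem⟩, Subtype.ext ?_⟩
    show (w : ↥E) * ((w : ↥E))⁻¹ = 1
    exact mul_inv_cancel₀ hw0
  refine ⟨⟨?_, ?_, ?_⟩, fun e => algebraMap_mem_iff P E hV e, ?_⟩
  · exact (algebraMap_mem_iff P E hV _).mpr w.2
  · intro hmem
    have h1 : (cE P E N w)⁻¹ = algebraMap ↥E ↥(_root_.Fermat.Agent.A2.Mod.FE E N) ((w : ↥E))⁻¹ := (map_inv₀ _ _).symm
    rw [h1] at hmem
    exact hwinv ((algebraMap_mem_iff P E hV _).mp hmem)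
  · intro f hfV hfinv
    rcases eq_or_ne f 0 with rfl | hf0
    · rw [zero_mul]; exact V.zero_mem
    obtain ⟨c, hc0, hu⟩ := exists_const_mul_unit P E hV hf0
    obtain ⟨u, hu_def⟩ : ∃ u : ↥(_root_.Fermat.Agent.A2.Mod.FE E N), u = f * (algebraMap ↥E ↥(_root_.Fermat.Agent.A2.Mod.FE E N) c)⁻¹ := ⟨_, rfl⟩
    rw [← hu_def] at hu
    have hcF : algebraMap ↥E ↥(_root_.Fermat.Agent.A2.Mod.FE E N) c ≠ 0 :=
      (_root_.map_ne_zero_iff _ (algebraMap ↥E ↥(_root_.Fermat.Agent.A2.Mod.FE E N)).injective).mpr hc0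
    have hu0 : u ≠ 0 := by
      rw [hu_def]
      exact mul_ne_zero hf0 (inv_ne_zero hcF)
    have huV : u ∈ V := (V.valuation_le_one_iff _).mp hu.le
    have huinvV : u⁻¹ ∈ V := by
      rw [← V.valuation_le_one_iff, map_inv₀, hu, inv_one]
    have hfu : f = u * algebraMap ↥E ↥(_root_.Fermat.Agent.A2.Mod.FE E N) c := by
      rw [hu_def, mul_assoc, inv_mul_cancel₀ hcF, mul_one]
    -- `c ∈ R`
    have hcV : algebraMap ↥E ↥(_root_.Fermat.Agent.A2.Mod.FE E N) c ∈ V := by
      have : algebraMap ↥E ↥(_root_.Fermat.Agent.A2.Mod.FE E N) c = u⁻¹ * f := by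
        rw [hfu, ← mul_assoc, inv_mul_cancel₀ hu0, one_mul]
      rw [this]
      exact V.mul_mem _ _ huinvV hfV
    have hcR : c ∈ _root_.Fermat.Agent.A2.Mod.RE P E := (algebraMap_mem_iff P E hV c).mp hcV
    -- `c` is not a unit of `R`
    have hcnu : ¬ IsUnit (⟨c, hcR⟩ : ↥(_root_.Fermat.Agent.A2.Mod.RE P E)) := by
      intro hunit
      obtain ⟨d, hd⟩ := isUnit_iff_exists_inv.mp hunit
      have hd' : c * (d : ↥E) = 1 := congrArg Subtype.val hd
      have hdinv : c⁻¹ = (d : ↥E) := by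
        rw [inv_eq_iff_eq_inv]
        exact eq_inv_of_mul_eq_one_left hd'
      apply hfinv
      have : f⁻¹ = u⁻¹ * algebraMap ↥E ↥(_root_.Fermat.Agent.A2.Mod.FE E N) (d : ↥E) := by
        rw [hfu, mul_inv, ← hdinv, map_inv₀]
      rw [this]
      exact V.mul_mem _ _ huinvV ((algebraMap_mem_iff P E hV _).mpr d.2)
    have hcm : (⟨c, hcR⟩ : ↥(_root_.Fermat.Agent.A2.Mod.RE P E)) ∈ IsLocalRing.maximalIdeal ↥(_root_.Fermat.Agent.A2.Mod.RE P E) :=
      (IsLocalRing.mem_maximalIdeal _).mpr hcnu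
    rw [hw.maximalIdeal_eq, Ideal.mem_span_singleton'] at hcm
    obtain ⟨r, hr⟩ := hcm
    have hr' : (r : ↥E) * (w : ↥E) = c := congrArg Subtype.val hr
    have hcwF : cE P E N w ≠ 0 :=
      (_root_.map_ne_zero_iff _ (algebraMap ↥E ↥(_root_.Fermat.Agent.A2.Mod.FE E N)).injective).mpr hw0
    have hcr : algebraMap ↥E ↥(_root_.Fermat.Agent.A2.Mod.FE E N) c = algebraMap ↥E ↥(_root_.Fermat.Agent.A2.Mod.FE E N) (r : ↥E) * cE P E N w := by
      rw [← hr', _root_.map_mul]
      rfl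
    have : f * (cE P E N w)⁻¹ = u * algebraMap ↥E ↥(_root_.Fermat.Agent.A2.Mod.FE E N) (r : ↥E) := by
      rw [hfu, hcr, mul_assoc, mul_assoc, mul_inv_cancel₀ hcwF, mul_one]
    rw [this]
    exact V.mul_mem _ _ huV ((algebraMap_mem_iff P E hV _).mpr r.2)
  · intro d _ hd
    exact ⟨mem_of_int hV (coe_jE N d hd),
      inv_mem_of_int hV (coe_jE N d hd) (Or.inl (coeff_jInt_top d))⟩

end Fermat.Agent.A2.Mod.H553

end
end
-- ===== PACK-END A2/Mod/H553/Vinf.lean

-- ===== PACK-BEGIN A2/Alg/H754/SmoothAbs.lean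
section





/-!
# A2 / ALG / P-S (helper754): purity at a smooth point of the special fibre, abstract form

`B` a Noetherian integrally closed domain with fraction field `F`, `ϖ ≠ 0` with
`(ϖ) = p ⊓ p'` (two incomparable primes), `B / p` Dedekind, `n` a maximal ideal with `p ≤ n`,
`¬ p' ≤ n`.  If `u ∈ Fˣ` has divisor divisible by `m` at every height-one prime
(`S18.H754.DivisibleDivisor`) and is a unit at `p`, then there is `d ∈ Fˣ` with `u d ^ m` a unit
at `n` and `d` a unit at `p` and at `p'`.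

Proof: `B_n` is a Noetherian local domain, `ϖ` is prime in `B_n` and `𝔪 B_n = (ϖ, t)`, so `B_n`
is a UFD (`S18.H754.ufd_of_regular_pair`) and `u = ε s ^ (-m)` (`S18.H754.exists_unit_mul_pow`).
Then `s` is a unit at `p`, and `s = υ ϖ ^ j` at `p'`; correct by `g ^ (-j)`, `g := g₀ ^ 2 + ϖ`,
`g₀ ∈ p' ∖ n`.
-/

set_option autoImplicit false
set_option linter.style.haveILetI false

noncomputable section

namespace Fermat.Agent.A2.Alg.H754

open IsLocalRing
open Fermat.Agent.S18.H754 (DivisibleDivisor LocallyPow)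

variable {B F : Type*} [CommRing B] [IsDomain B] [Field F] [Algebra B F] [IsFractionRing B F]

section Components

omit [IsDomain B] in
/-- local generation of `p` by `ϖ` away from `p'`. -/
lemma exists_mul_eq_of_mem (ϖ : B) (p p' : Ideal B) (hinf : p ⊓ p' = Ideal.span {ϖ}) {g b : B}
    (hg : g ∈ p') (hb : b ∈ p) : ∃ c : B, g * b = ϖ * c := by
  have h : g * b ∈ p ⊓ p' := ⟨p.mul_mem_left g hb, p'.mul_mem_right b hg⟩
  rw [hinf, Ideal.mem_span_singleton] at h
  exact h

omit [IsDomain B] in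
lemma mem_minimalPrimes_of_inf (ϖ : B) (p p' : Ideal B) [hp : p.IsPrime]
    (hinf : p ⊓ p' = Ideal.span {ϖ}) (h21 : ¬ p' ≤ p) :
    p ∈ (Ideal.span {ϖ}).minimalPrimes := by
  refine ⟨⟨hp, ?_⟩, ?_⟩
  · rw [← hinf]
    exact inf_le_left
  · rintro q ⟨hq, hle⟩ hqp
    have h1 : p * p' ≤ q := le_trans Ideal.mul_le_inf (hinf ▸ hle)
    rcases (Ideal.IsPrime.mul_le hq).1 h1 with h | h
    · exact h
    · exact absurd (le_trans h hqp) h21

lemma height_eq_one_of_inf [IsNoetherianRing B] (ϖ : B) (hϖ : ϖ ≠ 0) (p p' : Ideal B)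
    [hp : p.IsPrime] (hinf : p ⊓ p' = Ideal.span {ϖ}) (h21 : ¬ p' ≤ p) : p.height = 1 := by
  apply le_antisymm
  · exact Ideal.height_le_one_of_isPrincipal_of_mem_minimalPrimes (Ideal.span {ϖ}) p
      (mem_minimalPrimes_of_inf ϖ p p' hinf h21)
  · rw [Order.one_le_iff_pos, pos_iff_ne_zero, Ne, Ideal.height_eq_zero_iff_eq_bot]
    intro h0
    have : ϖ ∈ p := by
      have : ϖ ∈ p ⊓ p' := hinf ▸ Ideal.mem_span_singleton_self ϖ
      exact this.1
    rw [h0, Ideal.mem_bot] at this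
    exact hϖ this

end Components

section Unif

variable [IsNoetherianRing B] [IsIntegrallyClosed B]

/-- At a height-one prime `𝔮` whose localisation has uniformiser `ϖ`, every nonzero element of
`F` is a unit at `𝔮` times an integer power of `ϖ`. -/
theorem exists_zpow_locU (𝔮 : Ideal B) [h𝔮 : 𝔮.IsPrime] (h : 𝔮.height = 1) (ϖ : B) (hϖ0 : ϖ ≠ 0)
    (hϖ : ϖ ∈ 𝔮) (hgen : ∀ a ∈ 𝔮, ∃ g : B, g ∉ 𝔮 ∧ ∃ c : B, g * a = ϖ * c) {f : F}
    (hf : f ≠ 0) :
    ∃ (j : ℤ) (υ : F), LocU 𝔮 υ ∧ f = υ * (algebraMap B F ϖ) ^ j := by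
  obtain ⟨W, hdvr, hW⟩ := Fermat.Agent.S18.H438.exists_dvr_of_height_one (F := F) 𝔮 h
  haveI := hdvr
  have h1𝔮 : (1 : B) ∉ 𝔮 := fun h1 => h𝔮.ne_top ((Ideal.eq_top_iff_one _).2 h1)
  have hinj : Function.Injective (algebraMap B F) := IsFractionRing.injective B F
  have hϖF : algebraMap B F ϖ ≠ 0 := fun h0 => hϖ0 (hinj (by rw [h0, map_zero]))
  have hϖW : algebraMap B F ϖ ∈ W := (hW _).2 ⟨ϖ, 1, h1𝔮, by rw [map_one, mul_one]⟩
  -- units of `W`
  have hunit : ∀ x : W, IsUnit x ↔ LocU 𝔮 (x : F) := by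
    intro x
    constructor
    · intro hx
      obtain ⟨y, hy⟩ := isUnit_iff_exists_inv.1 hx
      have hxy : (x : F) * (y : F) = 1 := by
        have := congrArg (Subtype.val) hy
        simpa using this
      have hx0 : (x : F) ≠ 0 := left_ne_zero_of_mul_eq_one hxy
      rw [locU_iff_of_valuationSubring 𝔮 W hW hx0]
      refine ⟨x.2, ?_⟩
      rw [inv_eq_of_mul_eq_one_right hxy]
      exact y.2
    · intro hx
      have hx0 := hx.ne_zero
      obtain ⟨-, h2⟩ := (locU_iff_of_valuationSubring 𝔮 W hW hx0).1 hx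
      exact isUnit_iff_exists_inv.2 ⟨⟨(x : F)⁻¹, h2⟩, Subtype.ext (mul_inv_cancel₀ hx0)⟩
  have hirr : Irreducible (⟨algebraMap B F ϖ, hϖW⟩ : W) := by
    rw [IsDiscreteValuationRing.irreducible_iff_uniformizer]
    ext x
    rw [IsLocalRing.mem_maximalIdeal, mem_nonunits_iff, Ideal.mem_span_singleton]
    constructor
    · intro hx
      obtain ⟨a, s, hs, has⟩ := (hW x).1 x.2
      have ha : a ∈ 𝔮 := by
        by_contra ha
        exact hx ((hunit x).2 ⟨a, s, ha, hs, has⟩)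
      obtain ⟨g, hg, c, hc⟩ := hgen a ha
      have hgs : g * s ∉ 𝔮 := fun hgs => (h𝔮.mem_or_mem hgs).elim hg hs
      have hgsF : algebraMap B F (g * s) ≠ 0 := LocU.algebraMap_ne_zero hgs
      have hy : algebraMap B F c * (algebraMap B F (g * s))⁻¹ ∈ W :=
        (hW _).2 ⟨c, g * s, hgs, by rw [mul_assoc, inv_mul_cancel₀ hgsF, mul_one]⟩
      refine ⟨⟨_, hy⟩, Subtype.ext ?_⟩
      change (x : F) = algebraMap B F ϖ * (algebraMap B F c * (algebraMap B F (g * s))⁻¹)
      have e : (x : F) * algebraMap B F (g * s) = algebraMap B F ϖ * algebraMap B F c := by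
        rw [map_mul, mul_comm (algebraMap B F g), ← mul_assoc, has, ← map_mul, ← map_mul,
          mul_comm a g, hc]
      rw [← mul_assoc, ← e, mul_assoc, mul_inv_cancel₀ hgsF, mul_one]
    · rintro ⟨y, rfl⟩ hu
      have hu' : IsUnit (⟨algebraMap B F ϖ, hϖW⟩ : W) := isUnit_of_mul_isUnit_left hu
      obtain ⟨a, b, ha, hb, hab⟩ := (hunit _).1 hu'
      apply ha
      have : a = ϖ * b := hinj (by rw [map_mul]; exact hab.symm)
      rw [this]
      exact 𝔮.mul_mem_right b hϖ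
  have key : ∀ x : W, x ≠ 0 →
      ∃ (j : ℕ) (υ : F), LocU 𝔮 υ ∧ (x : F) = υ * (algebraMap B F ϖ) ^ j := by
    intro x hx
    obtain ⟨j, υ, hxυ⟩ := IsDiscreteValuationRing.eq_unit_mul_pow_irreducible hx hirr
    refine ⟨j, ((υ : W) : F), (hunit _).1 υ.isUnit, ?_⟩
    rw [hxυ]
    rfl
  rcases W.mem_or_inv_mem f with hfW | hfW
  · obtain ⟨j, υ, hυ, e⟩ := key ⟨f, hfW⟩ (fun h0 => hf (congrArg Subtype.val h0))
    exact ⟨j, υ, hυ, by rw [zpow_natCast]; exact e⟩
  · obtain ⟨j, υ, hυ, e⟩ := key ⟨f⁻¹, hfW⟩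
      (fun h0 => inv_ne_zero hf (congrArg Subtype.val h0))
    refine ⟨-j, υ⁻¹, hυ.inv, ?_⟩
    have e' : f⁻¹ = υ * algebraMap B F ϖ ^ j := e
    rw [zpow_neg, zpow_natCast, ← mul_inv, ← e', inv_inv]

end Unif

section Main

variable [IsNoetherianRing B] [IsIntegrallyClosed B]

/-- **Purity at a smooth point, abstract form.** -/
theorem pure_smooth_abs (ϖ : B) (hϖ : ϖ ≠ 0) (p p' : Ideal B) [hp : p.IsPrime]
    [hp' : p'.IsPrime] (hinf : p ⊓ p' = Ideal.span {ϖ}) (h12 : ¬ p ≤ p') (h21 : ¬ p' ≤ p)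
    (hD : IsDedekindDomain (B ⧸ p))
    (n : Ideal B) (hn : n.IsMaximal) (hpn : p ≤ n) (hp'n : ¬ p' ≤ n)
    (m : ℕ) (hm : 0 < m) (u : F) (hu : u ≠ 0)
    (hdiv : DivisibleDivisor B m u) (hup : LocU p u) :
    ∃ d : F, d ≠ 0 ∧ LocU n (u * d ^ m) ∧ LocU p d ∧ LocU p' d := by
  classical
  haveI hnp : n.IsPrime := hn.isPrime
  have h1n : (1 : B) ∉ n := fun h1 => hnp.ne_top ((Ideal.eq_top_iff_one _).2 h1)
  have hinj : Function.Injective (algebraMap B F) := IsFractionRing.injective B F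
  obtain ⟨g₀, hg₀p', hg₀n⟩ := SetLike.not_le_iff_exists.1 hp'n
  obtain ⟨h₀, hh₀p, hh₀p'⟩ := SetLike.not_le_iff_exists.1 h12
  have hϖpp : ϖ ∈ p ⊓ p' := hinf ▸ Ideal.mem_span_singleton_self ϖ
  have hϖp : ϖ ∈ p := hϖpp.1
  have hϖp' : ϖ ∈ p' := hϖpp.2
  have hϖn : ϖ ∈ n := hpn hϖp
  have hϖF : algebraMap B F ϖ ≠ 0 := fun h0 => hϖ (hinj (by rw [h0, map_zero]))
  -- local generator of `n` modulo `p`
  obtain ⟨t, htn, hreg⟩ : ∃ t ∈ n, ∀ a ∈ n, ∃ s : B, s ∉ n ∧ s * a ∈ Ideal.span {ϖ, t} := by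
    haveI := hD
    have hsurj : Function.Surjective (Ideal.Quotient.mk p) := Ideal.Quotient.mk_surjective
    have hM : (n.map (Ideal.Quotient.mk p)).IsMaximal := by
      haveI := hn
      exact Ideal.IsMaximal.map_of_surjective_of_ker_le hsurj (by rw [Ideal.mk_ker]; exact hpn)
    obtain ⟨tb, htb, sb, hsb, hall⟩ :=
      Fermat.Agent.S18.B12.H84.exists_local_generator (n.map (Ideal.Quotient.mk p)) hM
    obtain ⟨t, rfl⟩ := hsurj tb
    obtain ⟨s, rfl⟩ := hsurj sb
    have hmem : ∀ b : B, Ideal.Quotient.mk p b ∈ n.map (Ideal.Quotient.mk p) ↔ b ∈ n := by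
      intro b
      rw [← Ideal.mem_comap, Ideal.comap_map_of_surjective _ hsurj, ← RingHom.ker_eq_comap_bot,
        Ideal.mk_ker, sup_eq_left.2 hpn]
    have hsn : s ∉ n := fun h => hsb ((hmem s).2 h)
    refine ⟨t, (hmem t).1 htb, fun a ha => ⟨g₀ * s, ?_, ?_⟩⟩
    · exact fun h => (hnp.mem_or_mem h).elim hg₀n hsn
    · have h1 := hall _ ((hmem a).2 ha)
      rw [Ideal.mem_span_singleton'] at h1
      obtain ⟨cb, hcb⟩ := h1
      obtain ⟨c, rfl⟩ := hsurj cb
      have hd : s * a - c * t ∈ p := by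
        rw [← Ideal.Quotient.eq, map_mul, map_mul]
        exact hcb.symm
      obtain ⟨e, he⟩ := exists_mul_eq_of_mem ϖ p p' hinf hg₀p' hd
      rw [Ideal.mem_span_pair]
      refine ⟨e, g₀ * c, ?_⟩
      linear_combination (-1 : B) * he
  -- the local ring `A = B_n ⊆ F`
  let A : Subalgebra B F :=
    Localization.subalgebra.ofField F n.primeCompl n.primeCompl_le_nonZeroDivisors
  haveI : IsLocalization.AtPrime A n := (inferInstance : IsLocalization n.primeCompl A)
  haveI : IsLocalRing A := IsLocalization.AtPrime.isLocalRing A n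
  haveI : IsNoetherianRing A := IsLocalization.isNoetherianRing n.primeCompl A inferInstance
  have hmapp : Ideal.span {algebraMap B A ϖ} = Ideal.map (algebraMap B A) p := by
    apply le_antisymm
    · rw [Ideal.span_singleton_le_iff_mem]
      exact Ideal.mem_map_of_mem _ hϖp
    · rw [Ideal.map_le_iff_le_comap]
      intro b hb
      obtain ⟨c, hc⟩ := exists_mul_eq_of_mem ϖ p p' hinf hg₀p' hb
      rw [Ideal.mem_comap]
      have hu : IsUnit (algebraMap B A g₀) :=
        IsLocalization.map_units A (⟨g₀, hg₀n⟩ : n.primeCompl)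
      have h2 : algebraMap B A g₀ * algebraMap B A b ∈ Ideal.span {algebraMap B A ϖ} := by
        rw [← map_mul, hc, map_mul]
        exact Ideal.mul_mem_right _ _ (Ideal.mem_span_singleton_self _)
      exact (Ideal.unit_mul_mem_iff_mem _ hu).1 h2
  have hprime : Prime (algebraMap B A ϖ) := by
    have h0 : algebraMap B A ϖ ≠ 0 := fun h =>
      hϖ (IsLocalization.injective A n.primeCompl_le_nonZeroDivisors (by rw [h, map_zero]))
    rw [← Ideal.span_singleton_prime h0, hmapp]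
    refine IsLocalization.isPrime_of_isPrime_disjoint n.primeCompl A p hp ?_
    rw [Set.disjoint_left]
    intro x hx hx'
    exact hx (hpn hx')
  have hmax : maximalIdeal A = Ideal.span {algebraMap B A ϖ, algebraMap B A t} :=
    Fermat.Agent.S18.H754.maximalIdeal_loc_eq_span_pair n A hϖn htn hreg
  haveI : UniqueFactorizationMonoid A :=
    Fermat.Agent.S18.H754.ufd_of_regular_pair _ _ hprime hmax
  obtain ⟨s, hs0, ε, hε⟩ := Fermat.Agent.S18.H754.exists_unit_mul_pow (R := A) m hm u hu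
    (fun π hπ => Fermat.Agent.S18.H754.locallyPow_of_divisibleDivisor n A hdiv π hπ)
  -- `u * s ^ m` is a unit at `n`
  have hUn : LocU n (u * s ^ m) := by
    have hne : u * s ^ m ≠ 0 := mul_ne_zero hu (pow_ne_zero _ hs0)
    refine locU_of_frac_of_inv_frac n hne ?_ ?_
    · rw [hε]
      exact (Fermat.Agent.S18.H438.mem_ofField_primeCompl_iff n _).1 (ε : A).2
    · have e : (u * s ^ m)⁻¹ = algebraMap A F ((ε⁻¹ : Aˣ) : A) := by
        rw [hε]
        apply inv_eq_of_mul_eq_one_left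
        rw [← map_mul, Units.inv_mul, map_one]
      rw [e]
      exact (Fermat.Agent.S18.H438.mem_ofField_primeCompl_iff n _).1 ((ε⁻¹ : Aˣ) : A).2
  -- `s` is a unit at `p`
  have hhtp : p.height = 1 := height_eq_one_of_inf ϖ hϖ p p' hinf h21
  have hhtp' : p'.height = 1 :=
    height_eq_one_of_inf ϖ hϖ p' p (by rw [inf_comm]; exact hinf) h12
  have hsp : LocU p s := by
    obtain ⟨W, -, hW⟩ := Fermat.Agent.S18.H438.exists_dvr_of_height_one (F := F) p hhtp
    refine locU_of_pow p W hW hm ?_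
    have h1 : LocU p (s ^ m * u) := by
      rw [mul_comm]
      exact hUn.mono hpn
    exact h1.of_mul_left hup
  -- `s` at `p'`
  have hgen' : ∀ a ∈ p', ∃ g : B, g ∉ p' ∧ ∃ c : B, g * a = ϖ * c := by
    intro a ha
    refine ⟨h₀, hh₀p', ?_⟩
    obtain ⟨c, hc⟩ := exists_mul_eq_of_mem ϖ p p' hinf ha hh₀p
    exact ⟨c, by rw [mul_comm, hc]⟩
  obtain ⟨j, υ, hυ, hsυ⟩ := exists_zpow_locU p' hhtp' ϖ hϖ hϖp' hgen' hs0
  -- the correcting element
  have hgn : g₀ ^ 2 + ϖ ∉ n := by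
    intro h
    have h2 : g₀ ^ 2 ∈ n := by
      have := n.sub_mem h hϖn
      rwa [add_sub_cancel_right] at this
    exact hg₀n (hnp.mem_of_pow_mem 2 h2)
  have hgp' : LocU p' (algebraMap B F (g₀ ^ 2 + ϖ) * (algebraMap B F ϖ)⁻¹) := by
    obtain ⟨c, hc⟩ := exists_mul_eq_of_mem ϖ p p' hinf hg₀p' hh₀p
    have hh2 : h₀ ^ 2 ∉ p' := fun h => hh₀p' (hp'.mem_of_pow_mem 2 h)
    refine ⟨ϖ * c ^ 2 + h₀ ^ 2, h₀ ^ 2, ?_, hh2, ?_⟩
    · intro h
      apply hh2
      have := p'.sub_mem h (p'.mul_mem_right (c ^ 2) hϖp')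
      rwa [add_sub_cancel_left] at this
    · have key : (g₀ ^ 2 + ϖ) * h₀ ^ 2 = ϖ * (ϖ * c ^ 2 + h₀ ^ 2) := by
        linear_combination (g₀ * h₀ + ϖ * c) * hc
      rw [mul_right_comm, ← map_mul, key, map_mul, mul_right_comm, mul_inv_cancel₀ hϖF, one_mul]
  have hGn : LocU n (algebraMap B F (g₀ ^ 2 + ϖ)) := LocU.of_notMem hgn h1n
  have hG0 : algebraMap B F (g₀ ^ 2 + ϖ) ≠ 0 := hGn.ne_zero
  refine ⟨s * (algebraMap B F (g₀ ^ 2 + ϖ)) ^ (-j), mul_ne_zero hs0 (zpow_ne_zero _ hG0), ?_, ?_,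
    ?_⟩
  · have e : u * (s * (algebraMap B F (g₀ ^ 2 + ϖ)) ^ (-j)) ^ m =
        (u * s ^ m) * ((algebraMap B F (g₀ ^ 2 + ϖ)) ^ (-j)) ^ m := by
      rw [mul_pow, mul_assoc]
    rw [e]
    exact hUn.mul ((hGn.zpow (-j)).pow m)
  · exact hsp.mul ((hGn.mono hpn).zpow (-j))
  · have e : s * (algebraMap B F (g₀ ^ 2 + ϖ)) ^ (-j) =
        υ * (algebraMap B F (g₀ ^ 2 + ϖ) * (algebraMap B F ϖ)⁻¹) ^ (-j) := by
      rw [hsυ, mul_zpow, inv_zpow', neg_neg]
      ring
    rw [e]
    exact hυ.mul (hgp'.zpow (-j))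

end Main

end Fermat.Agent.A2.Alg.H754

end

end
-- ===== PACK-END A2/Alg/H754/SmoothAbs.lean

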