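import Mathlib
import Fermat.Prelude.Def_ModularCurve_X0ModL
import Fermat.Prelude.Thm_ModularCurve_coeffMap_qExpand
import Fermat.Agent.Pack.S33.E11L3
import Fermat.Agent.Pack.S33.E12L1
import Fermat.Agent.Pack.S33.E12L3
import Fermat.Agent.Pack.S33.E0L2
import Fermat.Agent.Pack.S33.E12L0
import Fermat.Agent.Pack.S33.E9L2
import Fermat.Agent.Pack.S33.E12L2
import Fermat.Agent.Pack.S33.E7L2
import Fermat.Agent.Pack.S33.E7L3
import Fermat.Agent.Pack.S33.E10L1
import Fermat.Agent.Pack.S33.E3L0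
import Fermat.Agent.Pack.S33.E11L1
import Fermat.Agent.Pack.S33.E3L2
import Fermat.Agent.Pack.S33.E3L1

-- ===== PACK-BEGIN Lib/NormL/Defs.lean
section



/-!
# Shared library `NormL` (analytic core of qualitative Chebotarev), definitions

For a number field `K` and a Dirichlet character `χ` mod `m` we study
`normL K χ s = ∑_I χ(N I) N(I)^(-s)` (sum over nonzero integral ideals) for real `s > 1`.
Main result (file `Main.lean`): if `χ(N I₀) ∉ {0, 1}` for some ideal `I₀`, then `normL K χ`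
extends to a continuous function on `[1, 2]`.
-/

namespace Fermat.Agent.Lib.NormL

open NumberField NumberField.mixedEmbedding Fermat.Agent.S14.H74
open scoped nonZeroDivisors Classical

variable (K : Type*) [Field K] [NumberField K]

/-- The norm-twisted `L`-series `∑_I χ(N I) N(I)^(-s)` over the nonzero ideals of `𝓞 K`,
for a real argument `s`. -/
noncomputable def normL {m : ℕ} (χ : DirichletCharacter ℂ m) (s : ℝ) : ℂ :=
  ∑' I : (Ideal (𝓞 K))⁰, χ ((Ideal.absNorm (I : Ideal (𝓞 K)) : ℕ) : ZMod m) *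
    (((Ideal.absNorm (I : Ideal (𝓞 K)) : ℝ) ^ (-s) : ℝ) : ℂ)

/-- The summand `ρ(x) |N(x)|^(-s)` on `𝓞 K`, twisted by the sign of the norm if `ε = true`. -/
noncomputable def GS (ε : Bool) (s : ℝ) (x : 𝓞 K) : ℝ :=
  FS K s x * (if ε then (((Algebra.norm ℤ x).sign : ℤ) : ℝ) else 1)

/-- The sum over the principal nonzero ideals divisible by `A` of `χ(N I) N(I)^(-s)`. -/
noncomputable def prinL {m : ℕ} (χ : DirichletCharacter ℂ m) (A : Ideal (𝓞 K)) (s : ℝ) : ℂ :=
  ∑' I : {I : (Ideal (𝓞 K))⁰ // (I : Ideal (𝓞 K)).IsPrincipal ∧ A ∣ (I : Ideal (𝓞 K))},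
    χ ((Ideal.absNorm (I.1 : Ideal (𝓞 K)) : ℕ) : ZMod m) *
      (((Ideal.absNorm (I.1 : Ideal (𝓞 K)) : ℝ) ^ (-s) : ℝ) : ℂ)

/-- The partial `L`-series of the ideal class `C`. -/
noncomputable def classL {m : ℕ} (χ : DirichletCharacter ℂ m) (C : ClassGroup (𝓞 K)) (s : ℝ) :
    ℂ :=
  ∑' I : {I : (Ideal (𝓞 K))⁰ // ClassGroup.mk0 I = C},
    χ ((Ideal.absNorm (I.1 : Ideal (𝓞 K)) : ℕ) : ZMod m) *
      (((Ideal.absNorm (I.1 : Ideal (𝓞 K)) : ℝ) ^ (-s) : ℝ) : ℂ)

/-- The sum over the elements `x` of the ideal `A` of `χ(N x) GS(x)`. -/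
noncomputable def elemSum {m : ℕ} (χ : DirichletCharacter ℂ m) (ε : Bool) (A : Ideal (𝓞 K))
    (s : ℝ) : ℂ :=
  ∑' x : A, χ ((Algebra.norm ℤ (x : 𝓞 K) : ℤ) : ZMod m) * ((GS K ε s (x : 𝓞 K) : ℝ) : ℂ)

end Fermat.Agent.Lib.NormL

end
-- ===== PACK-END Lib/NormL/Defs.lean

-- ===== PACK-BEGIN S31/H862/Unfold.lean
section



/-!
# S31 / SS (helper862) — the Petersson pairing and the double unfolding identities
-/

set_option autoImplicit false

open UpperHalfPlane CongruenceSubgroup MeasureTheory Matrix.SpecialLinearGroup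
open scoped MatrixGroups ENNReal NNReal ModularForm ComplexConjugate

namespace Fermat.Agent.S31.H862

/-- The Petersson pairing (weight 2, level `Γ₀(N)`), on functions. -/
noncomputable def pet (N : ℕ) (f g : ℍ → ℂ) : ℂ := pint (wt N) f g

/-- The doubly weighted kernel. -/
noncomputable def kern (N : ℕ) (f g : ℍ → ℂ) (δ : GL (Fin 2) ℝ) : ℂ :=
  pint (fun z => wt N z * wt N (δ • z)) f (g ∣[(2 : ℤ)] δ)

theorem countable_SL2Z : Countable SL(2, ℤ) := by
  have : Countable (Matrix (Fin 2) (Fin 2) ℤ) := by unfold Matrix; infer_instance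
  unfold Matrix.SpecialLinearGroup; infer_instance

theorem countable_Gamma0 (N : ℕ) : Countable (Gamma0 N) := by
  have := countable_SL2Z
  infer_instance

section

variable (N : ℕ) [NeZero N]

theorem integrable_wt_mul (δ : GL (Fin 2) ℝ) :
    Integrable (fun z : ℍ => wt N z * wt N (δ • z)) volume := by
  have hc : Continuous fun z : ℍ => wt N (δ • z) :=
    (continuous_wt N).comp (continuous_const_smul δ)
  refine (integrable_wt N).mul_bdd (c := 1) hc.aestronglyMeasurable
    (Filter.Eventually.of_forall fun z => ?_)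
  rw [Real.norm_of_nonneg (wt_nonneg N _)]
  exact wt_le_one N _

theorem petersson_add_right (f g₁ g₂ : ℍ → ℂ) (z : ℍ) :
    petersson 2 f (g₁ + g₂) z = petersson 2 f g₁ z + petersson 2 f g₂ z := by
  simp only [petersson, Pi.add_apply]
  ring

theorem petersson_sum_right {ι : Type*} (s : Finset ι) (f : ℍ → ℂ) (g : ι → ℍ → ℂ) (z : ℍ) :
    petersson 2 f (∑ i ∈ s, g i) z = ∑ i ∈ s, petersson 2 f (g i) z := by
  simp only [petersson, Finset.sum_apply, Finset.mul_sum, Finset.sum_mul]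

theorem pint_sum_right {w : ℍ → ℝ} (hw : Integrable w volume) {ι : Type*} (s : Finset ι)
    {f : ℍ → ℂ} {g : ι → ℍ → ℂ} (hf : Nice f) (hg : ∀ i ∈ s, Nice (g i)) :
    pint w f (∑ i ∈ s, g i) = ∑ i ∈ s, pint w f (g i) := by
  unfold pint
  rw [← integral_finset_sum s fun i hi => integrable_pint hw hf (hg i hi)]
  refine integral_congr_ae (Filter.Eventually.of_forall fun z => ?_)
  simp only [petersson_sum_right, Finset.sum_mul]

theorem pint_conj (w : ℍ → ℝ) (f g : ℍ → ℂ) : conj (pint w f g) = pint w g f := by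
  unfold pint
  rw [← integral_conj]
  refine integral_congr_ae (Filter.Eventually.of_forall fun z => ?_)
  simp only [map_mul, Complex.conj_ofReal]
  rw [← petersson_symm]

theorem pet_conj (f g : ℍ → ℂ) : conj (pet N f g) = pet N g f := pint_conj _ f g

/-- **Unfolding.**  For `g` invariant under `Γ₀(N)`. -/
theorem hasSum_kern {f g : ℍ → ℂ} (hf : Nice f) (hg : Nice g)
    (hinv : ∀ γ : Gamma0 N, g ∣[(2 : ℤ)] (mapGL ℝ (γ : SL(2, ℤ))) = g) (δ : GL (Fin 2) ℝ) :
    HasSum (fun γ : Gamma0 N => kern N f g (mapGL ℝ (γ : SL(2, ℤ)) * δ))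
      (pet N f (g ∣[(2 : ℤ)] δ)) := by
  haveI := countable_Gamma0 N
  obtain ⟨C, hC⟩ := hf.bdd
  obtain ⟨D, hD⟩ := (hg.slash δ).bdd
  have hslash : ∀ γ : Gamma0 N, g ∣[(2 : ℤ)] (mapGL ℝ (γ : SL(2, ℤ)) * δ) = g ∣[(2 : ℤ)] δ := by
    intro γ
    rw [SlashAction.slash_mul, hinv]
  have hcont : Continuous (petersson 2 f (g ∣[(2 : ℤ)] δ)) :=
    petersson_continuous 2 hf.cont (hg.slash δ).cont
  have hsmul : ∀ (γ : Gamma0 N) (z : ℍ),
      (mapGL ℝ (γ : SL(2, ℤ)) * δ) • z = (γ : SL(2, ℤ)) • (δ • z) := by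
    intro γ z
    rw [mul_smul]
    rfl
  unfold kern pet pint
  simp only [hslash]
  refine hasSum_integral_of_dominated_convergence
    (fun (γ : Gamma0 N) (z : ℍ) => C * D * (wt N z * wt N ((mapGL ℝ (γ : SL(2, ℤ)) * δ) • z)))
    (fun γ => ?_) (fun γ => Filter.Eventually.of_forall fun z => ?_)
    (Filter.Eventually.of_forall fun z => ?_) ?_ (Filter.Eventually.of_forall fun z => ?_)
  · exact (integrable_pint (integrable_wt_mul N _) hf (hg.slash δ)).aestronglyMeasurable
  · rw [norm_mul, norm_petersson_eq, Complex.norm_real,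
      Real.norm_of_nonneg (mul_nonneg (wt_nonneg N _) (wt_nonneg N _))]
    exact mul_le_mul_of_nonneg_right
      (mul_le_mul (hC z) (hD z) (nrm_nonneg _ _) ((nrm_nonneg f z).trans (hC z)))
      (mul_nonneg (wt_nonneg N _) (wt_nonneg N _))
  · simp only [hsmul]
    exact (((hasSum_wt N (δ • z)).mul_left (wt N z)).mul_left (C * D)).summable
  · have h : (fun z : ℍ => ∑' γ : Gamma0 N,
        C * D * (wt N z * wt N ((mapGL ℝ (γ : SL(2, ℤ)) * δ) • z))) =
        fun z : ℍ => C * D * wt N z := by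
      funext z
      simp only [hsmul]
      rw [(((hasSum_wt N (δ • z)).mul_left (wt N z)).mul_left (C * D)).tsum_eq, mul_one]
    rw [h]
    exact (integrable_wt N).const_mul _
  · simp only [hsmul]
    have h := ((hasSum_wt N (δ • z)).mul_left (wt N z))
    rw [mul_one] at h
    have h2 := (Complex.hasSum_ofReal.mpr h).mul_left (petersson 2 f (g ∣[(2 : ℤ)] δ) z)
    simpa using h2

/-- **Key symmetry.** -/
theorem conj_kern {f g : ℍ → ℂ} (δ δ' : GL (Fin 2) ℝ) (hdet : 0 < δ.det.val)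
    (h1 : ∀ z : ℍ, δ' • (δ • z) = z) (h2 : (g ∣[(2 : ℤ)] δ') ∣[(2 : ℤ)] δ = g) :
    conj (kern N g f δ) = kern N f g δ' := by
  unfold kern
  rw [pint_conj]
  unfold pint
  have hσ : σ δ = ContinuousAlgEquiv.refl ℝ ℂ := by
    rw [σ, if_pos hdet]
  have hp : ∀ z : ℍ, petersson 2 (f ∣[(2 : ℤ)] δ) g z =
      petersson 2 f (g ∣[(2 : ℤ)] δ') (δ • z) := by
    intro z
    conv_lhs => rw [← h2]
    rw [petersson_slash, hσ]
    simp
  have hE : ∀ z : ℍ, petersson 2 (f ∣[(2 : ℤ)] δ) g z * ((wt N z * wt N (δ • z) : ℝ) : ℂ) =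
      (fun u : ℍ => petersson 2 f (g ∣[(2 : ℤ)] δ') u * ((wt N u * wt N (δ' • u) : ℝ) : ℂ))
        (δ • z) := by
    intro z
    simp only [hp, h1]
    rw [mul_comm (wt N z)]
  simp only [hE]
  exact integral_smul_eq_self
    (fun u : ℍ => petersson 2 f (g ∣[(2 : ℤ)] δ') u * ((wt N u * wt N (δ' • u) : ℝ) : ℂ)) 

end

end Fermat.Agent.S31.H862

end
-- ===== PACK-END S31/H862/Unfold.lean

-- ===== PACK-BEGIN S22/H262/Sep.lean
section



set_option autoImplicit false

/-!
# The period lattice separates points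
-/

open Complex Filter Function Metric Set
open UpperHalfPlane hiding I
open scoped Real Topology Manifold ModularForm MatrixGroups

namespace Fermat.Agent.S22.H262

open Matrix.SpecialLinearGroup CuspForm

variable {N : ℕ} [NeZero N] {n : ℕ}

/-- `x ↦ bigG n E w (a x + b, c x + d)` is a polynomial function. -/
theorem bigG_polynomial (n : ℕ) (E : ℕ → ℍ → ℂ) (w : ℍ) (a b c d : ℂ) :
    ∃ P : Polynomial ℂ, ∀ x : ℂ, P.eval x = bigG n E w (a * x + b, c * x + d) := by
  refine ⟨∑ j ∈ Finset.range (n + 1), Polynomial.C ((n.descFactorial j : ℂ) * E (j + 1) w) *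
    (Polynomial.C a * Polynomial.X + Polynomial.C b -
      Polynomial.C (w : ℂ) * (Polynomial.C c * Polynomial.X + Polynomial.C d)) ^ (n - j) *
    (Polynomial.C c * Polynomial.X + Polynomial.C d) ^ j, fun x => ?_⟩
  simp [bigG, Polynomial.eval_finset_sum]

theorem infinite_int_cast_complex : Set.Infinite (Set.range (fun x : ℤ => (x : ℂ))) :=
  Set.infinite_range_of_injective Int.cast_injective

/-- If the tower at level `r + 1` vanishes then so does the level `r`. -/
theorem IsTower.eq_zero_of_succ {h : ℍ → ℂ} {E : ℕ → ℍ → ℂ} (hE : IsTower h E) (r : ℕ)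
    (h0 : E (r + 1) = 0) : E r = 0 := by
  funext z
  have h1 := hE.hasDeriv r z
  rw [h0] at h1
  have h2 : HasDerivAt ((0 : ℍ → ℂ) ∘ ofComplex) 0 (z : ℂ) := by
    have : ((0 : ℍ → ℂ) ∘ ofComplex) = fun _ => (0 : ℂ) := rfl
    rw [this]
    exact hasDerivAt_const _ _
  exact h1.unique h2

theorem IsTower.eq_zero_of_top {h : ℍ → ℂ} {E : ℕ → ℍ → ℂ} (hE : IsTower h E) (r : ℕ)
    (h0 : E r = 0) : h = 0 := by
  induction r with
  | zero => rw [← hE.zero, h0]
  | succ r ih => exact ih (hE.eq_zero_of_succ r h0)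

/-- If the cocycle of `f` at `g ∈ SL₂(ℤ)` vanishes on integer vectors then the top of the tower
transforms like a form of weight `-n`. -/
theorem tower_top_slash (f : CuspForm (CongruenceSubgroup.Gamma0 N) ((n : ℤ) + 2))
    (g : SL(2, ℤ))
    (h : ∀ v ∈ Vint, cocyc n (⇑f) (mapGL ℝ g) v = 0) :
    (tower (⇑f) (n + 1)) ∣[-(n : ℤ)] g = tower (⇑f ∣[(n : ℤ) + 2] (mapGL ℝ g)) (n + 1) := by
  funext z
  have hg : (mapGL ℝ g : GL (Fin 2) ℝ) ∈ posInt := mapGL_mem_posInt g
  have hT := hasTower_cuspForm f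
  have hTg := hasTower_slash_posInt f hg
  -- the polynomial identity
  obtain ⟨P₁, hP₁⟩ := bigG_polynomial n (tower (⇑f)) ((mapGL ℝ g : GL (Fin 2) ℝ) • z)
    (((mapGL ℝ g : GL (Fin 2) ℝ) 0 0 : ℝ) : ℂ) (((mapGL ℝ g : GL (Fin 2) ℝ) 0 1 : ℝ) : ℂ)
    (((mapGL ℝ g : GL (Fin 2) ℝ) 1 0 : ℝ) : ℂ) (((mapGL ℝ g : GL (Fin 2) ℝ) 1 1 : ℝ) : ℂ)
  obtain ⟨P₂, hP₂⟩ := bigG_polynomial n (tower (⇑f ∣[(n : ℤ) + 2] (mapGL ℝ g))) z 1 0 0 1
  have hroot : ∀ x : ℤ, (P₁ - P₂).IsRoot (x : ℂ) := by
    intro x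
    have hv : (((x : ℂ), (1 : ℂ)) : ℂ × ℂ) ∈ Vint := ⟨x, 1, by simp⟩
    have h1 := h _ hv
    rw [cocyc_eq n _ hg.2 hT hTg _ z] at h1
    rw [Polynomial.IsRoot, Polynomial.eval_sub, hP₁, hP₂]
    simpa [actV] using h1
  have hzero : P₁ - P₂ = 0 := by
    apply Polynomial.eq_zero_of_infinite_isRoot
    refine infinite_int_cast_complex.mono ?_
    rintro _ ⟨x, rfl⟩
    exact hroot x
  have hz : P₁.eval (z : ℂ) = P₂.eval (z : ℂ) := by
    have := congrArg (Polynomial.eval (z : ℂ)) hzero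
    simpa [sub_eq_zero] using this
  rw [hP₁, hP₂] at hz
  -- evaluate both sides on the diagonal
  have hnum : (((mapGL ℝ g : GL (Fin 2) ℝ) 0 0 : ℝ) : ℂ) * (z : ℂ) +
      (((mapGL ℝ g : GL (Fin 2) ℝ) 0 1 : ℝ) : ℂ) =
      (((mapGL ℝ g : GL (Fin 2) ℝ) • z : ℍ) : ℂ) * denom (mapGL ℝ g : GL (Fin 2) ℝ) z := by
    rw [coe_smul_of_det_pos hg.2, div_mul_cancel₀ _ (denom_ne_zero _ z)]
    rfl
  have hden : (((mapGL ℝ g : GL (Fin 2) ℝ) 1 0 : ℝ) : ℂ) * (z : ℂ) +
      (((mapGL ℝ g : GL (Fin 2) ℝ) 1 1 : ℝ) : ℂ) = denom (mapGL ℝ g : GL (Fin 2) ℝ) z := rfl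
  rw [hnum, hden, bigG_diag] at hz
  have h2 : ((1 : ℂ) * (z : ℂ) + 0, (0 : ℂ) * (z : ℂ) + 1) = ((z : ℂ) * 1, (1 : ℂ)) := by simp
  rw [h2, bigG_diag] at hz
  have hfact : (n.factorial : ℂ) ≠ 0 := by exact_mod_cast n.factorial_ne_zero
  rw [ModularForm.SL_slash_apply]
  have hz' : tower (⇑f) (n + 1) ((mapGL ℝ g : GL (Fin 2) ℝ) • z) *
      denom (mapGL ℝ g : GL (Fin 2) ℝ) z ^ n =
      tower (⇑f ∣[(n : ℤ) + 2] (mapGL ℝ g)) (n + 1) z := by
    apply mul_left_cancel₀ hfact
    rw [← mul_assoc, hz]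
    simp
  rw [neg_neg, zpow_natCast]
  exact hz'

/-- The period lattice separates points. -/
theorem periodLattice_separating (f : CuspForm (CongruenceSubgroup.Gamma0 N) ((n : ℤ) + 2))
    (h : ∀ l ∈ periodLattice N n, l f = 0) : f = 0 := by
  have hc : ∀ (g : SL(2, ℤ)), ∀ v ∈ Vint, cocyc n (⇑f) (mapGL ℝ g) v = 0 := by
    intro g v hv
    have := h _ (lam_mem_periodLattice ⟨mapGL ℝ g, mapGL_mem_posInt g⟩ hv)
    rwa [lam_apply] at this
  have hT := hasTower_cuspForm f
  have hF : tower (⇑f) (n + 1) = 0 := by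
    apply eq_zero_of_weight_nonpos N (k := -(n : ℤ)) (by omega)
    · exact hT.isTower.mdiff n
    · rintro γ ⟨g, hg, rfl⟩
      have h1 := tower_top_slash f g (hc g)
      have h2 : ⇑f ∣[(n : ℤ) + 2] (mapGL ℝ g) = ⇑f :=
        SlashInvariantFormClass.slash_action_eq f _ ⟨g, hg, rfl⟩
      rw [h2] at h1
      exact h1
    · intro g
      rw [tower_top_slash f g (hc g)]
      exact (hasTower_slash_posInt f (mapGL_mem_posInt g)).isTower.isZero n
  have : (⇑f : ℍ → ℂ) = 0 := hT.isTower.eq_zero_of_top (n + 1) hF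
  exact DFunLike.coe_injective this

end Fermat.Agent.S22.H262

end
-- ===== PACK-END S22/H262/Sep.lean

-- ===== PACK-BEGIN S24/Deg/H457_Degree.lean
section



/-!
# S24 / DEG (helper457): the degree fields of `ModularPackage`, unconditionally

`degree_fields N : FiniteDimensional ℚ̄(j) (FF N) ∧ finrank ℚ̄(j) (FF N) ≤ |SL₂(ℤ)/Γ₀(N)|`.

Chain: helper648 (conjugate product + D5 + growth of `j`, function level)
→ `hyp_complex` (formal relations over `ℂ`, via helper708 `HasQExp` and helper264 `hasSum_jFun`)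
→ `finiteDimensional_and_finrank_le` (descent `ℂ → ℚ̄` + primitive element).
-/

set_option autoImplicit false

noncomputable section

open UpperHalfPlane ModularGroup CongruenceSubgroup Polynomial ModularCurve
open scoped MatrixGroups Manifold Modular Real

namespace Fermat.Agent.S24.Deg457

theorem jFun_eq_H648 : Fermat.Agent.S24.JFun.jFun = Fermat.Agent.S24.H648.jFun := rfl

/-- the interface hypothesis over `ℂ`, unconditionally -/
theorem hyp_complex_card (N : ℕ) [NeZero N] : Hyp ℂ N (Nat.card (XX N)) := by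
  refine hyp_complex N ?_ ?_
  · rw [jFun_eq_H648]
    exact Fermat.Agent.S24.H648.exists_polynomial_of_expGrowth
  · rw [jFun_eq_H648]
    exact Fermat.Agent.S24.H648.jFun_bound_fd

/-- **The degree fields of helper984's `ModularPackage N`** (upper bound half). -/
theorem degree_fields (N : ℕ) [NeZero N] :
    FiniteDimensional ↥(IntermediateField.adjoin Kbar {jF N}) (FF N) ∧
      Module.finrank ↥(IntermediateField.adjoin Kbar {jF N}) (FF N) ≤ Nat.card (XX N) :=
  finiteDimensional_and_finrank_le N _ (hyp_complex_card N)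

end Fermat.Agent.S24.Deg457

end
end
-- ===== PACK-END S24/Deg/H457_Degree.lean

-- ===== PACK-BEGIN S24/H624/Laurent.lean
section


/-!
# Laurent expansion of quotients of holomorphic functions; `SL(2, ℤ)`-action and the
leading-coefficient form of the rotation lemma

`MerH := FractionRing holoRing` is the field of quotients of holomorphic functions on `ℍ`.
`laurentAt τ : MerH →+* LaurentSeries ℂ` is the (injective) Laurent expansion at `τ` in the
coordinate `z - τ`.
-/

set_option autoImplicit false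

namespace Fermat.Agent.S24.H624

open UpperHalfPlane Complex
open scoped Manifold Topology MatrixGroups

/-! ### order and leading coefficient of a power series viewed as a Laurent series -/

section PowerSeriesCoe

variable {R : Type*} [CommRing R]

theorem coeff_ofPowerSeries_nat (φ : PowerSeries R) (n : ℕ) :
    (HahnSeries.ofPowerSeries ℤ R φ).coeff (n : ℤ) = PowerSeries.coeff n φ := by
  simp

theorem coeff_ofPowerSeries_neg (φ : PowerSeries R) {i : ℤ} (hi : i < 0) :
    (HahnSeries.ofPowerSeries ℤ R φ).coeff i = 0 := by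
  have := PowerSeries.coeff_coe (R := R) (f := φ) i
  rw [if_pos hi] at this
  exact this

theorem order_ofPowerSeries {φ : PowerSeries R} {n : ℕ} (hn : φ.order = n) :
    (HahnSeries.ofPowerSeries ℤ R φ).order = (n : ℤ) := by
  have hφn : PowerSeries.coeff n φ ≠ 0 := ((PowerSeries.order_eq_nat).mp hn).1
  have hlt : ∀ i < n, PowerSeries.coeff i φ = 0 := ((PowerSeries.order_eq_nat).mp hn).2
  set x := HahnSeries.ofPowerSeries ℤ R φ with hx
  have hxn : x.coeff (n : ℤ) ≠ 0 := by rw [hx, coeff_ofPowerSeries_nat]; exact hφn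
  have hx0 : x ≠ 0 := fun h => hxn (by rw [h]; rfl)
  have hle : x.order ≤ n := HahnSeries.order_le_of_coeff_ne_zero hxn
  have hco : x.coeff x.order ≠ 0 := fun h => hx0 (HahnSeries.coeff_order_eq_zero.mp h)
  have hnn : 0 ≤ x.order := by
    by_contra hneg
    exact hco (coeff_ofPowerSeries_neg φ (not_le.mp hneg))
  obtain ⟨k, hk⟩ := Int.eq_ofNat_of_zero_le hnn
  rw [hk, coeff_ofPowerSeries_nat] at hco
  have hkn : n ≤ k := by
    by_contra hlt'
    exact hco (hlt k (not_le.mp hlt'))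
  rw [hk] at hle ⊢
  have : (k : ℤ) ≤ n := hle
  omega

theorem leadingCoeff_ofPowerSeries {φ : PowerSeries R} {n : ℕ} (hn : φ.order = n) :
    (HahnSeries.ofPowerSeries ℤ R φ).leadingCoeff = PowerSeries.coeff n φ := by
  rw [HahnSeries.leadingCoeff_eq, order_ofPowerSeries hn, coeff_ofPowerSeries_nat]

end PowerSeriesCoe

/-! ### transfer of order / leading coefficient relations to the fraction field -/

section Transfer

variable {A : Type*} [CommRing A] [IsDomain A] {K : Type*} [Field K] [Algebra A K]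
  [IsFractionRing A K] {C : Type*} [Field C]

theorem order_div_of_ne_zero {x y : LaurentSeries C} (hx : x ≠ 0) (hy : y ≠ 0) :
    (x / y).order = x.order - y.order := by
  have hxy : x / y ≠ 0 := div_ne_zero hx hy
  have h := HahnSeries.order_mul hxy hy
  rw [div_mul_cancel₀ x hy] at h
  omega

theorem leadingCoeff_div_of_ne_zero {x y : LaurentSeries C} (hy : y ≠ 0) :
    (x / y).leadingCoeff = x.leadingCoeff / y.leadingCoeff := by
  have h := HahnSeries.leadingCoeff_mul (x / y) y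
  rw [div_mul_cancel₀ x hy] at h
  rw [h, mul_div_assoc, div_self (HahnSeries.leadingCoeff_ne_zero.mpr hy), mul_one]

/-- If two embeddings `φ ψ : K → C((z))` of a fraction field satisfy
`ord (φ a) = ord (ψ a)` and `lc (φ a) = ζ ^ ord (ψ a) * lc (ψ a)` on the ring `A`, they do so
on all of `K`. -/
theorem order_leadingCoeff_transfer (φ ψ : K →+* LaurentSeries C) (ζ : C) (hζ : ζ ≠ 0)
    (h : ∀ a : A, a ≠ 0 → (φ (algebraMap A K a)).order = (ψ (algebraMap A K a)).order ∧
      (φ (algebraMap A K a)).leadingCoeff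
        = ζ ^ (ψ (algebraMap A K a)).order * (ψ (algebraMap A K a)).leadingCoeff)
    (x : K) :
    (φ x).order = (ψ x).order ∧
      (φ x).leadingCoeff = ζ ^ (ψ x).order * (ψ x).leadingCoeff := by
  obtain ⟨a, b, hb, rfl⟩ := IsFractionRing.div_surjective (A := A) x
  have hb0 : b ≠ 0 := nonZeroDivisors.ne_zero hb
  have hbK : algebraMap A K b ≠ 0 := by
    intro h0
    exact hb0 ((IsFractionRing.injective A K) (by rw [h0, map_zero]))
  by_cases ha0 : a = 0
  · subst ha0
    simp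
  have haK : algebraMap A K a ≠ 0 := by
    intro h0
    exact ha0 ((IsFractionRing.injective A K) (by rw [h0, map_zero]))
  have hφa : φ (algebraMap A K a) ≠ 0 := (map_ne_zero φ).mpr haK
  have hφb : φ (algebraMap A K b) ≠ 0 := (map_ne_zero φ).mpr hbK
  have hψa : ψ (algebraMap A K a) ≠ 0 := (map_ne_zero ψ).mpr haK
  have hψb : ψ (algebraMap A K b) ≠ 0 := (map_ne_zero ψ).mpr hbK
  obtain ⟨ha1, ha2⟩ := h a ha0
  obtain ⟨hb1, hb2⟩ := h b hb0
  rw [map_div₀, map_div₀, order_div_of_ne_zero hφa hφb, order_div_of_ne_zero hψa hψb,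
    leadingCoeff_div_of_ne_zero hφb, leadingCoeff_div_of_ne_zero hψb, ha1, hb1, ha2, hb2]
  refine ⟨rfl, ?_⟩
  rw [zpow_sub₀ hζ]
  have h1 : ζ ^ (ψ (algebraMap A K b)).order ≠ 0 := zpow_ne_zero _ hζ
  have h2 : (ψ (algebraMap A K b)).leadingCoeff ≠ 0 := HahnSeries.leadingCoeff_ne_zero.mpr hψb
  field_simp

end Transfer

/-! ### the field `MerH` and its Laurent expansions -/

/-- The field of quotients of holomorphic functions on the upper half-plane. -/
abbrev MerH : Type := FractionRing holoRing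

/-- Taylor expansion at `τ` as a ring hom into Laurent series. -/
noncomputable def taylorLaurent (τ : ℍ) : holoRing →+* LaurentSeries ℂ :=
  (HahnSeries.ofPowerSeries ℤ ℂ).comp (taylorAt τ : holoRing →+* PowerSeries ℂ)

theorem taylorLaurent_apply (τ : ℍ) (f : holoRing) :
    taylorLaurent τ f = HahnSeries.ofPowerSeries ℤ ℂ (taylorAt τ f) := rfl

theorem taylorLaurent_injective (τ : ℍ) : Function.Injective (taylorLaurent τ) := by
  intro f g h
  exact taylorAt_injective τ (HahnSeries.ofPowerSeries_injective h)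

/-- Laurent expansion at `τ` (coordinate `z - τ`) of a quotient of holomorphic functions. -/
noncomputable def laurentAt (τ : ℍ) : MerH →+* LaurentSeries ℂ :=
  IsFractionRing.lift (taylorLaurent_injective τ)

@[simp]
theorem laurentAt_algebraMap (τ : ℍ) (f : holoRing) :
    laurentAt τ (algebraMap holoRing MerH f) = HahnSeries.ofPowerSeries ℤ ℂ (taylorAt τ f) :=
  IsFractionRing.lift_algebraMap (taylorLaurent_injective τ) f

theorem laurentAt_injective (τ : ℍ) : Function.Injective (laurentAt τ) :=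
  (laurentAt τ).injective

theorem laurentAt_const (τ : ℍ) (c : ℂ) :
    laurentAt τ (algebraMap holoRing MerH (algebraMap ℂ holoRing c)) = HahnSeries.C c := by
  rw [laurentAt_algebraMap, AlgHom.commutes, PowerSeries.algebraMap_apply,
    Algebra.algebraMap_self, RingHom.id_apply, HahnSeries.ofPowerSeries_C]

theorem order_laurentAt_algebraMap (τ : ℍ) {f : holoRing} (hf : f ≠ 0) :
    (laurentAt τ (algebraMap holoRing MerH f)).order = ((ordAt τ (f : ℍ → ℂ)).toNat : ℤ) := by
  rw [laurentAt_algebraMap]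
  refine order_ofPowerSeries ?_
  rw [order_taylorAt, ENat.natCast_toNat (ordAt_ne_top f.2 (fun h => hf (Subtype.ext h)) τ)]

theorem leadingCoeff_laurentAt_algebraMap (τ : ℍ) {f : holoRing} (hf : f ≠ 0) :
    (laurentAt τ (algebraMap holoRing MerH f)).leadingCoeff
      = taylorCoeff τ (f : ℍ → ℂ) (ordAt τ (f : ℍ → ℂ)).toNat := by
  rw [laurentAt_algebraMap, leadingCoeff_ofPowerSeries (n := (ordAt τ (f : ℍ → ℂ)).toNat),
    coeff_taylorAt]
  rw [order_taylorAt, ENat.natCast_toNat (ordAt_ne_top f.2 (fun h => hf (Subtype.ext h)) τ)]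

/-! ### the `SL(2, ℤ)`-action on `MerH` -/

/-- The action of `SL(2, ℤ)` on `MerH` extending `(γ • f) τ = f (γ⁻¹ • τ)`. -/
noncomputable instance instMulSemiringActionMerH : MulSemiringAction SL(2, ℤ) MerH :=
  IsFractionRing.mulSemiringAction SL(2, ℤ) holoRing MerH

theorem smul_algebraMap_MerH (γ : SL(2, ℤ)) (f : holoRing) :
    γ • algebraMap holoRing MerH f = algebraMap holoRing MerH (γ • f) :=
  IsFractionRing.ringEquivOfRingEquiv_algebraMap (MulSemiringAction.toRingEquiv SL(2, ℤ) holoRing γ) f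

/-- The ring automorphism of `MerH` given by `γ`. -/
noncomputable def merSL (γ : SL(2, ℤ)) : MerH ≃+* MerH :=
  MulSemiringAction.toRingEquiv SL(2, ℤ) MerH γ

@[simp]
theorem merSL_apply (γ : SL(2, ℤ)) (F : MerH) : merSL γ F = γ • F := rfl

/-- **Rotation lemma, order + leading coefficient form**, on `MerH`. -/
theorem laurentAt_smul (γ : SL(2, ℤ)) (τ : ℍ) (F : MerH) :
    (laurentAt τ (γ • F)).order = (laurentAt (γ⁻¹ • τ) F).order ∧
    (laurentAt τ (γ • F)).leadingCoeff
      = (1 / denom ((γ⁻¹ : SL(2, ℤ)) : GL (Fin 2) ℝ) (τ : ℂ) ^ 2) ^ (laurentAt (γ⁻¹ • τ) F).order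
        * (laurentAt (γ⁻¹ • τ) F).leadingCoeff := by
  have hd : denom ((γ⁻¹ : SL(2, ℤ)) : GL (Fin 2) ℝ) (τ : ℂ) ≠ 0 := denom_ne_zero _ τ
  have hζ : (1 / denom ((γ⁻¹ : SL(2, ℤ)) : GL (Fin 2) ℝ) (τ : ℂ) ^ 2) ≠ 0 :=
    one_div_ne_zero (pow_ne_zero _ hd)
  refine order_leadingCoeff_transfer (A := holoRing)
    ((laurentAt τ).comp (merSL γ : MerH →+* MerH)) (laurentAt (γ⁻¹ • τ)) _ hζ ?_ F
  intro f hf
  have hγf : γ • f ≠ 0 := by
    intro h
    apply hf
    have := congrArg (fun g => γ⁻¹ • g) h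
    simpa using this
  have hord : ordAt τ ((γ • f : holoRing) : ℍ → ℂ) = ordAt (γ⁻¹ • τ) (f : ℍ → ℂ) := by
    have := ordAt_smul_holoRing γ f (γ⁻¹ • τ)
    rwa [smul_inv_smul] at this
  have hne := ordAt_ne_top f.2 (fun h => hf (Subtype.ext h)) (γ⁻¹ • τ)
  simp only [RingHom.coe_comp, RingHom.coe_coe, Function.comp_apply, merSL_apply]
  rw [smul_algebraMap_MerH, order_laurentAt_algebraMap τ hγf,
    order_laurentAt_algebraMap _ hf, leadingCoeff_laurentAt_algebraMap τ hγf,
    leadingCoeff_laurentAt_algebraMap _ hf, hord]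
  refine ⟨rfl, ?_⟩
  rw [zpow_natCast]
  exact taylorCoeff_smul_holoRing γ f τ (ENat.natCast_toNat hne).symm

theorem order_laurentAt_smul (γ : SL(2, ℤ)) (τ : ℍ) (F : MerH) :
    (laurentAt τ (γ • F)).order = (laurentAt (γ⁻¹ • τ) F).order :=
  (laurentAt_smul γ τ F).1

theorem leadingCoeff_laurentAt_smul (γ : SL(2, ℤ)) (τ : ℍ) (F : MerH) :
    (laurentAt τ (γ • F)).leadingCoeff
      = (1 / denom ((γ⁻¹ : SL(2, ℤ)) : GL (Fin 2) ℝ) (τ : ℂ) ^ 2) ^ (laurentAt (γ⁻¹ • τ) F).order
        * (laurentAt (γ⁻¹ • τ) F).leadingCoeff :=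
  (laurentAt_smul γ τ F).2

/-- Fixed-point version, in exactly the shape of the `LocalData` fields
`σ_perm_order` / `σ_perm_leadingCoeff`. -/
theorem laurentAt_smul_of_fixed {γ : SL(2, ℤ)} {τ : ℍ} (hτ : γ • τ = τ) (F : MerH) :
    (laurentAt τ (γ • F)).order = (laurentAt τ F).order ∧
    (laurentAt τ (γ • F)).leadingCoeff
      = (1 / denom ((γ⁻¹ : SL(2, ℤ)) : GL (Fin 2) ℝ) (τ : ℂ) ^ 2) ^ (laurentAt τ F).order
        * (laurentAt τ F).leadingCoeff := by
  have h := laurentAt_smul γ τ F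
  have hfix : γ⁻¹ • τ = τ := by
    rw [inv_smul_eq_iff, hτ]
  rwa [hfix] at h

end Fermat.Agent.S24.H624

end
-- ===== PACK-END S24/H624/Laurent.lean

-- ===== PACK-BEGIN S30/H990/Glue.lean
section
/-
S30 top glue (helper990): assembly.
`result_of : ChebWeak → HasAdicEigenModules → <frozen statement S30>` (with `𝒪'' := 𝒪'`).
-/




set_option autoImplicit false

namespace Fermat.Agent.S30.H990

open Polynomial Fermat.Agent.S55.H414

section Assembly

variable {p N : ℕ} [Fact p.Prime] [NeZero N] {S : Finset ℕ}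
  {𝒪 : Type} [CommRing 𝒪] [IsDomain 𝒪] [IsDiscreteValuationRing 𝒪]
  [IsAdicComplete (IsLocalRing.maximalIdeal 𝒪) 𝒪] [Finite (IsLocalRing.ResidueField 𝒪)]
  {χ : CuspForm.heckeAlgebra N 2 (↑S : Set ℕ) →+* 𝒪}

/-- The quadratic relation modulo `𝔪 ^ n` for every element of `G_ℚ`. -/
theorem exists_rel_mod (hcheb : ChebWeak) (hpS : p ∈ S)
    (hNS : ∀ q : ℕ, q.Prime → q ∣ N → q ∈ S) (E : AdicEigenModule p N S 𝒪 χ)
    (d : GQ →* 𝒪ˣ)
    (hdfrob : ∀ ℓ : ℕ, ℓ.Prime → ℓ ≠ p → ∀ A : ValuationSubring (AlgebraicClosure ℚ),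
      A.LiesOverPrime ℓ → ∀ σ : GQ, A.IsFrobeniusAt σ ℓ → ((d σ : 𝒪ˣ) : 𝒪) = (ℓ : 𝒪))
    (hdcont : ∀ (n : ℕ) (σ : GQ), (∀ x ∈ cycloLevel (p ^ n), σ x = x) →
      ((d σ : 𝒪ˣ) : 𝒪) - 1 ∈ IsLocalRing.maximalIdeal 𝒪 ^ n)
    (g : GQ) (n : ℕ) :
    ∃ a : 𝒪, ∀ v : E.M, E.ρ g (E.ρ g v) - a • E.ρ g v + ((d g : 𝒪ˣ) : 𝒪) • v
      ∈ (IsLocalRing.maximalIdeal 𝒪 ^ n) • (⊤ : Submodule 𝒪 E.M) := by
  obtain ⟨L₁, hL₁fin, hL₁⟩ := E.cont n
  have : FiniteDimensional ℚ L₁ := hL₁fin
  have hLfin : FiniteDimensional ℚ ↥(L₁ ⊔ cycloLevel (p ^ n)) :=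
    IntermediateField.finiteDimensional_sup L₁ (cycloLevel (p ^ n))
  obtain ⟨ℓ, hℓ, hℓS, A, hA, τ, hτ, j, hj⟩ := hcheb (L₁ ⊔ cycloLevel (p ^ n)) hLfin g S
  have hℓp : ℓ ≠ p := fun h => hℓS (h ▸ hpS)
  have hℓN : ¬ ℓ ∣ N := fun h => hℓS (hNS ℓ hℓ h)
  have hℓS' : ℓ ∉ (↑S : Set ℕ) := fun h => hℓS (Finset.mem_coe.mp h)
  -- `g = τ ^ j * σ` with `σ` fixing `L`
  set σ : GQ := (τ ^ j)⁻¹ * g with hσ
  have hg : g = τ ^ j * σ := by rw [hσ, mul_inv_cancel_left]
  have hσfix : ∀ x ∈ L₁ ⊔ cycloLevel (p ^ n), σ x = x := by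
    intro x hx
    have h1 : σ x = (τ ^ j)⁻¹ (g x) := rfl
    rw [h1, hj x hx]
    exact (τ ^ j).symm_apply_apply x
  have hs : ∀ v : E.M, E.ρ σ v - v
      ∈ (IsLocalRing.maximalIdeal 𝒪 ^ n) • (⊤ : Submodule 𝒪 E.M) :=
    hL₁ σ (fun x hx => hσfix x ((le_sup_left : L₁ ≤ L₁ ⊔ cycloLevel (p ^ n)) hx))
  have hu : ((d σ : 𝒪ˣ) : 𝒪) - 1 ∈ IsLocalRing.maximalIdeal 𝒪 ^ n :=
    hdcont n σ (fun x hx =>
      hσfix x ((le_sup_right : cycloLevel (p ^ n) ≤ L₁ ⊔ cycloLevel (p ^ n)) hx))
  have hfrob := E.frob ℓ hℓ hℓN hℓS' A hA τ hτ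
  obtain ⟨t, ht⟩ := lucas (E.ρ τ) (χ (CuspForm.heckeAlgebra.T hℓ hℓN hℓS')) (ℓ : 𝒪) hfrob j
  refine ⟨t, fun v => ?_⟩
  have key := rel_mod_of_mul (IsLocalRing.maximalIdeal 𝒪 ^ n) (E.ρ τ ^ j) (E.ρ σ) t
    ((ℓ : 𝒪) ^ j) ((d σ : 𝒪ˣ) : 𝒪) ht hs hu v
  have hρg : E.ρ g = E.ρ τ ^ j * E.ρ σ := by rw [hg, _root_.map_mul, _root_.map_pow]
  have hdg : ((d g : 𝒪ˣ) : 𝒪) = (ℓ : 𝒪) ^ j * ((d σ : 𝒪ˣ) : 𝒪) := by
    rw [hg, _root_.map_mul, _root_.map_pow, Units.val_mul, Units.val_pow_eq_pow_val,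
      hdfrob ℓ hℓ hℓp A hA τ hτ]
  rw [hρg, hdg]
  exact key

/-- From an adic eigenmodule to a two-dimensional adic Galois representation. -/
theorem exists_galoisRepAdic [CharZero 𝒪] (hcheb : ChebWeak) (hpS : p ∈ S)
    (hNS : ∀ q : ℕ, q.Prime → q ∣ N → q ∈ S)
    (hp𝒪 : (p : 𝒪) ∈ IsLocalRing.maximalIdeal 𝒪) (E : AdicEigenModule p N S 𝒪 χ) :
    ∃ ρ : GaloisRepAdic 𝒪,
      (∀ (ℓ : ℕ) (hℓ : ℓ.Prime) (hℓN : ¬ ℓ ∣ N) (hℓS : ℓ ∉ (↑S : Set ℕ)),
        ∀ A : ValuationSubring (AlgebraicClosure ℚ), A.LiesOverPrime ℓ →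
          ∀ σ : AlgebraicClosure ℚ ≃ₐ[ℚ] AlgebraicClosure ℚ, A.IsFrobeniusAt σ ℓ →
            LinearMap.charpoly (ρ.ρ σ) =
              X ^ 2 - C (χ (CuspForm.heckeAlgebra.T hℓ hℓN hℓS)) * X + C ((ℓ : 𝒪))) ∧
      (∀ q : ℕ, q.Prime → ¬ q ∣ N → q ≠ p → ρ.IsUnramifiedAt q) := by
  obtain ⟨d, hdfrob, hdinert, hdc, hdcont⟩ := exists_cyclo p 𝒪 hp𝒪
  have hrel : ∀ g : GQ, ∃ a, Rel E.ρ d g a := fun g =>
    exists_rel_of_mod E.ρ d g (fun n => exists_rel_mod hcheb hpS hNS E d hdfrob hdcont g n)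
  have h2 : (2 : 𝒪) ≠ 0 := two_ne_zero
  obtain ⟨T⟩ := exists_twoDim E.ρ d h2 hrel complexConjugation complexConjugation_mul_self hdc
  refine ⟨{ V := T.V
            finrank_eq := T.finrank_eq
            ρ := T.ρ₂
            isAdicContinuous := ?_ }, ?_, ?_⟩
  · intro n
    obtain ⟨L₁, hL₁fin, hL₁⟩ := E.cont n
    have : FiniteDimensional ℚ L₁ := hL₁fin
    refine ⟨L₁ ⊔ cycloLevel (p ^ n),
      IntermediateField.finiteDimensional_sup L₁ (cycloLevel (p ^ n)), fun σ hσ v => ?_⟩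
    refine T.cong (IsLocalRing.maximalIdeal 𝒪 ^ n) σ ?_ ?_ v
    · exact hL₁ σ (fun x hx => hσ x ((le_sup_left : L₁ ≤ L₁ ⊔ cycloLevel (p ^ n)) hx))
    · exact hdcont n σ (fun x hx =>
        hσ x ((le_sup_right : cycloLevel (p ^ n) ≤ L₁ ⊔ cycloLevel (p ^ n)) hx))
  · intro ℓ hℓ hℓN hℓS A hA σ hσ
    have hℓp : ℓ ≠ p := fun h => hℓS (Finset.mem_coe.mpr (h ▸ hpS))
    have hr : Rel E.ρ d σ (χ (CuspForm.heckeAlgebra.T hℓ hℓN hℓS)) := by
      unfold Rel
      rw [hdfrob ℓ hℓ hℓp A hA σ hσ]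
      exact E.frob ℓ hℓ hℓN hℓS A hA σ hσ
    have := T.charpoly_eq σ _ hr
    rw [hdfrob ℓ hℓ hℓp A hA σ hσ] at this
    exact this
  · intro q hq hqN hqp P hP σ hσ
    have h1 : E.ρ σ = 1 := E.unram q hq hqN hqp P hP σ hσ
    have h2 : d σ = 1 := hdinert q hq hqp P hP σ hσ
    have h3 := T.cong ⊥ σ (fun v => by rw [h1]; simp) (by rw [h2]; simp)
    ext v
    have h4 := h3 v
    rw [Submodule.bot_smul, Submodule.mem_bot, sub_eq_zero] at h4
    simpa using h4

end Assembly

/-- **S30 from the Chebotarev hypothesis and the adic eigenmodules.** -/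
theorem result_of (hcheb : ChebWeak) (hmod : HasAdicEigenModules) :
    ∀ (p : ℕ) [Fact p.Prime] (N : ℕ) [NeZero N] (S : Finset ℕ)
      (_hpS : p ∈ S) (_hNS : ∀ q : ℕ, q.Prime → q ∣ N → q ∈ S)
      (𝒪' : Type) [CommRing 𝒪'] [IsDomain 𝒪'] [IsDiscreteValuationRing 𝒪']
      [IsAdicComplete (IsLocalRing.maximalIdeal 𝒪') 𝒪'] [Finite (IsLocalRing.ResidueField 𝒪')]
      [CharZero 𝒪'] (_hp𝒪' : (p : 𝒪') ∈ IsLocalRing.maximalIdeal 𝒪')
      (χ : CuspForm.heckeAlgebra N 2 (↑S : Set ℕ) →+* 𝒪'),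
      ∃ (𝒪'' : Type) (_ : CommRing 𝒪'') (_ : IsDomain 𝒪'') (_ : IsDiscreteValuationRing 𝒪'')
        (_ : IsAdicComplete (IsLocalRing.maximalIdeal 𝒪'') 𝒪'')
        (_ : Finite (IsLocalRing.ResidueField 𝒪'')) (_ : CharZero 𝒪'')
        (_ : Algebra 𝒪' 𝒪'') (_ : Module.Finite 𝒪' 𝒪'') (_ : IsLocalHom (algebraMap 𝒪' 𝒪'')),
      Function.Injective (algebraMap 𝒪' 𝒪'') ∧
      ∃ ρ : GaloisRepAdic 𝒪'',
        (∀ (ℓ : ℕ) (hℓ : ℓ.Prime) (hℓN : ¬ ℓ ∣ N) (hℓS : ℓ ∉ (↑S : Set ℕ)),
          ∀ A : ValuationSubring (AlgebraicClosure ℚ), A.LiesOverPrime ℓ →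
            ∀ σ : AlgebraicClosure ℚ ≃ₐ[ℚ] AlgebraicClosure ℚ, A.IsFrobeniusAt σ ℓ →
              LinearMap.charpoly (ρ.ρ σ) =
                X ^ 2 - C (algebraMap 𝒪' 𝒪'' (χ (CuspForm.heckeAlgebra.T hℓ hℓN hℓS))) * X
                  + C ((ℓ : 𝒪''))) ∧
        (∀ q : ℕ, q.Prime → ¬ q ∣ N → q ≠ p → ρ.IsUnramifiedAt q) := by
  intro p _ N _ S hpS hNS 𝒪' _ _ _ _ _ _ hp𝒪' χ
  obtain ⟨E⟩ := hmod p N S hpS hNS 𝒪' hp𝒪' χ
  obtain ⟨ρ, hρ1, hρ2⟩ := exists_galoisRepAdic hcheb hpS hNS hp𝒪' E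
  exact ⟨𝒪', inferInstance, inferInstance, inferInstance, inferInstance, inferInstance,
    inferInstance, Algebra.id 𝒪', Module.Finite.self 𝒪', isLocalHom_id 𝒪',
    Function.injective_id, ρ, hρ1, hρ2⟩

end Fermat.Agent.S30.H990

end
-- ===== PACK-END S30/H990/Glue.lean

-- ===== PACK-BEGIN S24/Alg/LocFundFF.lean
section



/-!
# S24 / ALG-LOC: the fundamental inequality `|X| ≤ ∑_{v | t} ord_v t` (final form)

Combines the local uniqueness argument (`LocFund.lean`) with "residue field `= K`"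
(helper804, `FFFinite.lean`).  No Dedekind theory.
-/

set_option autoImplicit false

noncomputable section

open AlgebraicCurve IntermediateField

namespace Fermat.Agent.S24.H144

variable {K F : Type*} [Field K] [Field F] [Algebra K F]
variable {C : Type*} [Field C] {X : Type*} {t : F}

/-- Over an algebraically closed constant field the residue field of every place is `K`. -/
theorem loc_residueTrivial [IsAlgClosed K] (v : Place K F) (ht : 0 < v.ord t)
    [FiniteDimensional K⟮t⟯ F] : ResidueTrivial v := by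
  have htr : Transcendental K t := by
    apply FF.transcendental_of_not_mem_range
    rintro ⟨c, rfl⟩
    rw [loc_ord_algebraMap] at ht
    exact lt_irrefl _ ht
  intro f hf
  obtain ⟨a, ha⟩ := FF.exists_const_sub_mem_nonunits v htr hf
  refine ⟨a, ?_⟩
  rcases eq_or_ne (f - algebraMap K F a) 0 with h0 | h0
  · exact Or.inl (sub_eq_zero.mp h0)
  · exact Or.inr ((FF.ord_pos_iff_mem_nonunits v h0).mpr ha)

/-- **Fundamental inequality from local data.** -/
theorem loc_fundamental_inequality [IsAlgClosed K] [CharZero C] [Finite X]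
    [FiniteDimensional K⟮t⟯ F] (L : LocalData K F C X t)
    (s : Finset (Place K F)) (hs : ∀ v, v ∈ s ↔ 0 < v.ord t) :
    (Nat.card X : ℤ) ≤ ∑ v ∈ s, v.ord t :=
  loc_card_le_sum_of_residueTrivial L (fun v hv => loc_residueTrivial v hv) s hs

end Fermat.Agent.S24.H144

end
end
-- ===== PACK-END S24/Alg/LocFundFF.lean

-- ===== PACK-BEGIN S28/H867/Integral.lean
section



set_option autoImplicit false
noncomputable section
open ModularCurve HahnSeries IntermediateField Polynomial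

namespace Fermat.Agent.S28.H867

section Integral

variable (k : Type*) [Field k]

/-- `j(q^d)` for `d ≠ 0`, with junk value at `0` (total function in `d`). -/
def jd (d : ℕ) : LaurentSeries k :=
  if h : d = 0 then 0 else @qExpand k _ d ⟨h⟩ (jqModC k)

theorem jd_eq (d : ℕ) [hd : NeZero d] : jd k d = qExpand k d (jqModC k) := by
  rw [jd, dif_neg hd.out]

theorem jd_one : jd k 1 = jqModC k := by
  rw [jd_eq, qExpand_one_apply]

theorem qExpand_jd (a b : ℕ) [NeZero a] [NeZero b] : qExpand k a (jd k b) = jd k (a * b) := by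
  rw [jd_eq, jd_eq, qExpand_qExpand]

/-- If `x` and `V_a j` are integral over `k(j)`, so is `V_a x`. -/
theorem isIntegral_qExpand (a : ℕ) [NeZero a] {x : LaurentSeries k}
    (hx : IsIntegral (jField k) x) (ha : IsIntegral (jField k) (jd k a)) :
    IsIntegral (jField k) (qExpand k a x) := by
  set 𝔸 := algebraicClosure (jField k) (LaurentSeries k) with h𝔸
  have hmem : ∀ z ∈ jField k, qExpand k a z ∈ 𝔸.restrictScalars k := by
    have hle : (jField k).map (qExpandAlgHomC k a) ≤ 𝔸.restrictScalars k := by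
      have h0 : (jField k).map (qExpandAlgHomC k a) = adjoin k {qExpand k a (jqModC k)} := by
        rw [← jpField_eq_map]; rfl
      rw [h0, adjoin_simple_le_iff]
      show qExpand k a (jqModC k) ∈ 𝔸
      rw [h𝔸, mem_algebraicClosure_iff']
      rwa [jd_eq] at ha
    intro z hz
    exact hle ⟨z, hz, rfl⟩
  let φ : jField k →+* 𝔸 :=
    { toFun := fun z => ⟨qExpand k a z, hmem z z.2⟩
      map_one' := by ext; simp
      map_mul' := fun x y => by ext; simp
      map_zero' := by ext; simp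
      map_add' := fun x y => by ext; simp }
  have h1 : IsIntegral 𝔸 (qExpand k a x) :=
    hx.map_of_comp_eq φ (qExpand k a) (by ext z; rfl)
  have : Algebra.IsIntegral (jField k) 𝔸 :=
    (algebraicClosure.isAlgebraic (jField k) (LaurentSeries k)).isIntegral
  exact isIntegral_trans (R := jField k) (A := 𝔸) _ h1

theorem isIntegral_jd_prime {p : ℕ} [NeZero p] (D : ModPolyData p) :
    IsIntegral (jField k) (jd k p) := by
  let y : jField k := ⟨jqModC k, jq_mem_jField k⟩
  refine ⟨polyOver (jField k) y D.Φ, polyOver_monic _ y D.monic, ?_⟩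
  rw [← Polynomial.aeval_def, aeval_polyOver, jd_eq]
  exact modPoly_eval_jp_field k D

theorem isIntegral_jd (d : ℕ) (hd : d ≠ 0)
    (hΦ : ∀ p : ℕ, p.Prime → p ∣ d → ∀ [NeZero p], Nonempty (ModPolyData p)) :
    IsIntegral (jField k) (jd k d) := by
  induction d using Nat.recOnMul with
  | zero => exact absurd rfl hd
  | one =>
    rw [jd_one]
    exact isIntegral_algebraMap (x := (⟨jqModC k, jq_mem_jField k⟩ : jField k))
  | prime p hp =>
    have : NeZero p := ⟨hp.ne_zero⟩
    obtain ⟨D⟩ := hΦ p hp dvd_rfl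
    exact isIntegral_jd_prime k D
  | mul a b iha ihb =>
    have ha0 : a ≠ 0 := fun h => hd (by rw [h, zero_mul])
    have hb0 : b ≠ 0 := fun h => hd (by rw [h, mul_zero])
    have : NeZero a := ⟨ha0⟩
    have : NeZero b := ⟨hb0⟩
    rw [← qExpand_jd]
    exact isIntegral_qExpand k a
      (ihb hb0 fun p hp hpb => hΦ p hp (hpb.mul_left a))
      (iha ha0 fun p hp hpa => hΦ p hp (hpa.mul_right b))

theorem divisorExpansionsC_eq_image (M : ℕ) (hM : M ≠ 0) :
    divisorExpansionsC k M = (fun d => jd k d) '' (M.divisors : Set ℕ) := by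
  ext x
  constructor
  · rintro ⟨d, hd, hdM, rfl⟩
    exact ⟨d, by simpa using ⟨hdM, hM⟩, jd_eq k d⟩
  · rintro ⟨d, hd, rfl⟩
    have hd' : d ∣ M := Nat.dvd_of_mem_divisors hd
    have hd0 : d ≠ 0 := fun h => hM (by rw [h] at hd'; exact Nat.eq_zero_of_zero_dvd hd')
    have : NeZero d := ⟨hd0⟩
    exact ⟨d, ⟨hd0⟩, hd', jd_eq k d⟩

theorem degE_ne_zero (M : ℕ) (hM : M ≠ 0)
    (hΦ : ∀ p : ℕ, p.Prime → p ∣ M → ∀ [NeZero p], Nonempty (ModPolyData p)) :
    degE k M ≠ 0 := by
  have h1 : EF k M = jField k ⊔ adjoin k (divisorExpansionsC k M) :=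
    (sup_eq_right.mpr (jField_le_EF k M)).symm
  rw [degE, h1]
  refine relfinrank_sup_adjoin_ne_zero _ ?_ ?_
  · rw [divisorExpansionsC_eq_image k M hM]
    exact (Finset.finite_toSet _).image _
  · rw [divisorExpansionsC_eq_image k M hM]
    rintro x ⟨d, hd, rfl⟩
    have hd' : d ∣ M := Nat.dvd_of_mem_divisors hd
    have hd0 : d ≠ 0 := fun h => hM (by rw [h] at hd'; exact Nat.eq_zero_of_zero_dvd hd')
    exact isIntegral_jd k d hd0 fun p hp hpd => hΦ p hp (hpd.trans hd')

end Integral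

end Fermat.Agent.S28.H867

end
end
-- ===== PACK-END S28/H867/Integral.lean

-- ===== PACK-BEGIN S18/H333/HauptLaurent.lean
section




/-!
# S18 / c3 (helper333): the Hauptmoduln `t₂`, `t₃` as Laurent series over `ℤ`

* `t2Z = q⁻¹ (η(q)/η(q²))²⁴`, `t3Z = q⁻¹ (η(q)/η(q³))¹²  : LaurentSeries ℤ`;
* `t2Z_rel_a : jqModC ℤ * t2Z ^ 2 = (t2Z + 256) ^ 3`
* `t2Z_rel_b : qExpand ℤ 2 (jqModC ℤ) * t2Z = (t2Z + 16) ^ 3`
* `t3Z_rel_a : jqModC ℤ * t3Z ^ 3 = (t3Z + 27) * (t3Z + 243) ^ 3`
* `t3Z_rel_b : qExpand ℤ 3 (jqModC ℤ) * t3Z = (t3Z + 27) * (t3Z + 3) ^ 3`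
-/

set_option autoImplicit false

noncomputable section

namespace Fermat.Agent.S18.H333

open PowerSeries ModularCurve HahnSeries

/-- power series to Laurent series over `ℤ` -/
abbrev ιZ : PowerSeries ℤ →+* LaurentSeries ℤ := HahnSeries.ofPowerSeries ℤ ℤ

theorem ιZ_injective : Function.Injective ιZ := HahnSeries.ofPowerSeries_injective

theorem ιZ_coeff_neg (f : PowerSeries ℤ) {k : ℤ} (hk : k < 0) : (ιZ f).coeff k = 0 :=
  ofPowerSeries_coeff_of_neg f hk

theorem ιZ_coeff_nat (f : PowerSeries ℤ) (n : ℕ) : (ιZ f).coeff (n : ℤ) = PowerSeries.coeff n f :=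
  HahnSeries.ofPowerSeries_apply_coeff f n

theorem qExpand_ιZ (p : ℕ) [NeZero p] (f : PowerSeries ℤ) :
    qExpand ℤ p (ιZ f) = ιZ (Vser p f) := by
  have hp : 0 < p := Nat.pos_of_ne_zero (NeZero.ne p)
  ext k
  by_cases hk : (p : ℤ) ∣ k
  · obtain ⟨m, rfl⟩ := hk
    rw [qExpand_coeff_mul]
    rcases le_or_gt 0 m with hm | hm
    · lift m to ℕ using hm
      rw [ιZ_coeff_nat, show ((p : ℤ) * (m : ℤ)) = ((p * m : ℕ) : ℤ) by push_cast; rfl,
        ιZ_coeff_nat, coeff_Vser, if_pos (Dvd.intro m rfl), Nat.mul_div_cancel_left m hp]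
    · rw [ιZ_coeff_neg _ hm, ιZ_coeff_neg _ (mul_neg_of_pos_of_neg (by exact_mod_cast hp) hm)]
  · rw [qExpand_coeff_of_not_dvd _ _ hk]
    rcases le_or_gt 0 k with hk0 | hk0
    · lift k to ℕ using hk0
      rw [ιZ_coeff_nat, coeff_Vser, if_neg]
      intro h
      exact hk (by exact_mod_cast h)
    · rw [ιZ_coeff_neg _ hk0]

theorem ιZ_X : ιZ X = single 1 1 := HahnSeries.ofPowerSeries_X

theorem single_neg_one_mul_single_one :
    (single (-1 : ℤ) (1 : ℤ) : LaurentSeries ℤ) * single 1 1 = 1 := by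
  rw [single_mul_single]
  simp

theorem jNum_map_int : jNum.map (Int.castRingHom ℤ) = jNum := by
  ext n
  simp

/-- `Δ` as a Laurent series -/
def DL : LaurentSeries ℤ := ιZ Dz

theorem DL_ne_zero : DL ≠ 0 := by
  intro h
  have h1 : (ιZ Dz).coeff ((1 : ℕ) : ℤ) = 0 := by rw [show ιZ Dz = DL from rfl, h]; rfl
  rw [ιZ_coeff_nat] at h1
  have h2 := tl_getD 3 Dz (i := 1) (by norm_num)
  rw [tl_Dz_3, h1] at h2
  simp at h2

theorem qExpand_DL_ne_zero (p : ℕ) [NeZero p] : qExpand ℤ p DL ≠ 0 := by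
  intro h
  exact DL_ne_zero (qExpand_injective p (by rw [h, _root_.map_zero]))

theorem jZ_mul_DL : jqModC ℤ * DL = ιZ (Ez ^ 3) := by
  have h1 : jNum * dedekindEtaUnit = Ez ^ 3 := by
    rw [jNum, mul_assoc, mul_comm dedekindEtaUnitInv, dedekindEtaUnit_mul_inv, mul_one]; rfl
  rw [jqModC, jNum_map_int, DL, Dz_eq, _root_.map_mul, ιZ_X, ← h1, _root_.map_mul]
  calc single (-1 : ℤ) (1 : ℤ) * ιZ jNum * (single 1 1 * ιZ dedekindEtaUnit)
      = (single (-1 : ℤ) (1 : ℤ) * single 1 1) * (ιZ jNum * ιZ dedekindEtaUnit) := by ring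
    _ = ιZ jNum * ιZ dedekindEtaUnit := by rw [single_neg_one_mul_single_one, one_mul]

theorem qExpand_jZ_mul (p : ℕ) [NeZero p] :
    qExpand ℤ p (jqModC ℤ) * qExpand ℤ p DL = ιZ (Vser p Ez ^ 3) := by
  rw [← _root_.map_mul, jZ_mul_DL, qExpand_ιZ, Vser_pow p (NeZero.ne p)]

/-- `t₂ = q⁻¹ (η(q)/η(q²))²⁴` -/
def t2Z : LaurentSeries ℤ :=
  single (-1 : ℤ) 1 * ιZ (dedekindEtaUnit * Vser 2 dedekindEtaUnitInv)

/-- `t₃ = q⁻¹ (η(q)/η(q³))¹²` -/
def t3Z : LaurentSeries ℤ :=
  single (-1 : ℤ) 1 * ιZ (eta12 * Vser 3 eta12Inv)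

theorem t2Z_mul : t2Z * qExpand ℤ 2 DL = DL := by
  have h1 : Vser 2 dedekindEtaUnitInv * Vser 2 dedekindEtaUnit = 1 := by
    rw [← Vser_mul 2 (by norm_num), mul_comm, dedekindEtaUnit_mul_inv, Vser_one 2 (by norm_num)]
  have h2 : ιZ (Vser 2 dedekindEtaUnitInv) * ιZ (Vser 2 dedekindEtaUnit) = 1 := by
    rw [← _root_.map_mul, h1, _root_.map_one]
  rw [t2Z, DL, qExpand_ιZ, Vser_Dz 2 (by norm_num), Dz_eq]
  simp only [_root_.map_mul, map_pow, ιZ_X]
  have h3 := single_neg_one_mul_single_one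
  linear_combination (single (1 : ℤ) (1 : ℤ) * ιZ dedekindEtaUnit * ιZ (Vser 2 dedekindEtaUnitInv)
    * ιZ (Vser 2 dedekindEtaUnit)) * h3 + single (1 : ℤ) (1 : ℤ) * ιZ dedekindEtaUnit * h2

theorem t3Z_mul : t3Z * qExpand ℤ 3 DL = ιZ Zz := by
  have h1 : Vser 3 eta12Inv * Vser 3 eta12 = 1 := by
    rw [← Vser_mul 3 (by norm_num), mul_comm, eta12_mul_inv, Vser_one 3 (by norm_num)]
  have h2 : ιZ (Vser 3 eta12Inv) * ιZ (Vser 3 eta12) = 1 := by
    rw [← _root_.map_mul, h1, _root_.map_one]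
  rw [t3Z, DL, qExpand_ιZ, Vser_Dz 3 (by norm_num), Zz, ← eta12_sq, Vser_mul 3 (by norm_num)]
  simp only [_root_.map_mul, map_pow, ιZ_X]
  have h3 := single_neg_one_mul_single_one
  linear_combination (single (1 : ℤ) (1 : ℤ) ^ 2 * ιZ eta12 * ιZ (Vser 3 eta12Inv)
    * ιZ (Vser 3 eta12) * ιZ (Vser 3 eta12)) * h3
    + single (1 : ℤ) (1 : ℤ) ^ 2 * ιZ eta12 * ιZ (Vser 3 eta12) * h2

theorem ιZ_zsmul (c : ℤ) (f : PowerSeries ℤ) : ιZ (c • f) = (c : LaurentSeries ℤ) * ιZ f := by
  rw [zsmul_eq_mul, _root_.map_mul, map_intCast]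

/-- `j t₂² = (t₂ + 256)³` over `ℤ` -/
theorem t2Z_rel_a : jqModC ℤ * t2Z ^ 2 = (t2Z + 256) ^ 3 := by
  have hne := pow_ne_zero 3 (qExpand_DL_ne_zero 2)
  refine mul_right_cancel₀ hne ?_
  have hP := congrArg ιZ Phi2a_eq_zero
  simp only [Phi2a, _root_.map_zero, _root_.map_sub, _root_.map_mul, map_pow, _root_.map_add, ιZ_zsmul] at hP
  have hE : ιZ Ez ^ 3 = jqModC ℤ * DL := by rw [jZ_mul_DL, map_pow]
  have hV : ιZ (Vser 2 Dz) = qExpand ℤ 2 DL := (qExpand_ιZ 2 Dz).symm
  rw [hE, hV, show ιZ Dz = DL from rfl] at hP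
  push_cast at hP
  have ht := t2Z_mul
  linear_combination hP + (jqModC ℤ * qExpand ℤ 2 DL * (t2Z * qExpand ℤ 2 DL + DL)
    - ((t2Z + 256) * qExpand ℤ 2 DL) ^ 2
    - (t2Z + 256) * qExpand ℤ 2 DL * (DL + 256 * qExpand ℤ 2 DL)
    - (DL + 256 * qExpand ℤ 2 DL) ^ 2) * ht

/-- `j(q²) t₂ = (t₂ + 16)³` over `ℤ` -/
theorem t2Z_rel_b : qExpand ℤ 2 (jqModC ℤ) * t2Z = (t2Z + 16) ^ 3 := by
  have hne := pow_ne_zero 3 (qExpand_DL_ne_zero 2)
  refine mul_right_cancel₀ hne ?_
  have hP := congrArg ιZ Phi2b_eq_zero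
  simp only [Phi2b, _root_.map_zero, _root_.map_sub, _root_.map_mul, map_pow, _root_.map_add, ιZ_zsmul] at hP
  have hE : ιZ (Vser 2 Ez) ^ 3 = qExpand ℤ 2 (jqModC ℤ) * qExpand ℤ 2 DL := by
    rw [qExpand_jZ_mul, map_pow]
  have hV : ιZ (Vser 2 Dz) = qExpand ℤ 2 DL := (qExpand_ιZ 2 Dz).symm
  rw [hE, hV, show ιZ Dz = DL from rfl] at hP
  push_cast at hP
  have ht := t2Z_mul
  linear_combination hP + (qExpand ℤ 2 (jqModC ℤ) * qExpand ℤ 2 DL * qExpand ℤ 2 DL
    - ((t2Z + 16) * qExpand ℤ 2 DL) ^ 2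
    - (t2Z + 16) * qExpand ℤ 2 DL * (DL + 16 * qExpand ℤ 2 DL)
    - (DL + 16 * qExpand ℤ 2 DL) ^ 2) * ht

theorem ιZ_Zz_sq : ιZ Zz * ιZ Zz = DL * qExpand ℤ 3 DL := by
  rw [← _root_.map_mul, Zz_sq, _root_.map_mul, ← qExpand_ιZ]
  rfl

/-- `j t₃³ = (t₃ + 27)(t₃ + 243)³` over `ℤ` -/
theorem t3Z_rel_a : jqModC ℤ * t3Z ^ 3 = (t3Z + 27) * (t3Z + 243) ^ 3 := by
  have hne := pow_ne_zero 4 (qExpand_DL_ne_zero 3)
  refine mul_right_cancel₀ hne ?_
  have hA := congrArg ιZ A3a_eq
  simp only [A3a, B3a, _root_.map_sub, _root_.map_mul, map_pow, _root_.map_add, ιZ_zsmul] at hA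
  have hE : ιZ Ez ^ 3 = jqModC ℤ * DL := by rw [jZ_mul_DL, map_pow]
  have hV : ιZ (Vser 3 Dz) = qExpand ℤ 3 DL := (qExpand_ιZ 3 Dz).symm
  rw [hE, hV, show ιZ Dz = DL from rfl] at hA
  push_cast at hA
  have ht := t3Z_mul
  have hZ := ιZ_Zz_sq
  generalize ιZ Zz = Z at *
  generalize qExpand ℤ 3 DL = Q at *
  generalize jqModC ℤ = j at *
  generalize DL = D at *
  have hG : j * Z ^ 3 * Q = (Z + 27 * Q) * (Z + 243 * Q) ^ 3 := by
    linear_combination (j * Q * Z - Z ^ 2 - D * Q - 756 * Q * Z - 196830 * Q ^ 2) * hZ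
      - Q ^ 2 * hA
  calc j * t3Z ^ 3 * Q ^ 4 = j * (t3Z * Q) ^ 3 * Q := by ring
    _ = (t3Z * Q + 27 * Q) * (t3Z * Q + 243 * Q) ^ 3 := by rw [ht, hG]
    _ = (t3Z + 27) * (t3Z + 243) ^ 3 * Q ^ 4 := by ring

/-- `j(q³) t₃ = (t₃ + 27)(t₃ + 3)³` over `ℤ` -/
theorem t3Z_rel_b : qExpand ℤ 3 (jqModC ℤ) * t3Z = (t3Z + 27) * (t3Z + 3) ^ 3 := by
  have hne := pow_ne_zero 4 (qExpand_DL_ne_zero 3)
  refine mul_right_cancel₀ hne ?_
  have hA := congrArg ιZ A3b_eq
  simp only [A3b, B3b, _root_.map_sub, _root_.map_mul, map_pow, _root_.map_add, ιZ_zsmul] at hA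
  have hE : ιZ (Vser 3 Ez) ^ 3 = qExpand ℤ 3 (jqModC ℤ) * qExpand ℤ 3 DL := by
    rw [qExpand_jZ_mul, map_pow]
  have hV : ιZ (Vser 3 Dz) = qExpand ℤ 3 DL := (qExpand_ιZ 3 Dz).symm
  rw [hE, hV, show ιZ Dz = DL from rfl] at hA
  push_cast at hA
  have ht := t3Z_mul
  have hZ := ιZ_Zz_sq
  generalize ιZ Zz = Z at *
  generalize qExpand ℤ 3 (jqModC ℤ) = J at *
  generalize qExpand ℤ 3 DL = Q at *
  generalize DL = D at *
  have hG : J * Q * Z * Q ^ 2 = (Z + 27 * Q) * (Z + 3 * Q) ^ 3 := by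
    linear_combination (-(Z ^ 2 + D * Q + 36 * Q * Z + 270 * Q ^ 2)) * hZ - Q ^ 2 * hA
  calc J * t3Z * Q ^ 4 = J * Q * (t3Z * Q) * Q ^ 2 := by ring
    _ = (t3Z * Q + 27 * Q) * (t3Z * Q + 3 * Q) ^ 3 := by rw [ht, hG]
    _ = (t3Z + 27) * (t3Z + 3) ^ 3 * Q ^ 4 := by ring

/-! ### leading terms -/

theorem constantCoeff_Vser (p : ℕ) (hp : p ≠ 0) (f : PowerSeries ℤ) :
    PowerSeries.constantCoeff (Vser p f) = PowerSeries.constantCoeff f := by
  rw [Vser_eq_expand p hp, PowerSeries.constantCoeff_expand]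

theorem single_neg_one_mul_coeff (f : PowerSeries ℤ) (k : ℤ) :
    (single (-1 : ℤ) (1 : ℤ) * ιZ f).coeff k = (ιZ f).coeff (k + 1) := by
  have := HahnSeries.coeff_single_mul_add (r := (1 : ℤ)) (x := ιZ f) (a := k + 1) (b := (-1 : ℤ))
  rw [one_mul] at this
  rw [← this]
  congr 1
  ring

theorem t2Z_coeff_neg_one : t2Z.coeff (-1) = 1 := by
  rw [t2Z, single_neg_one_mul_coeff]
  have : ((-1 : ℤ) + 1) = ((0 : ℕ) : ℤ) := by norm_num
  rw [this, ιZ_coeff_nat, PowerSeries.coeff_zero_eq_constantCoeff, _root_.map_mul,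
    constantCoeff_dedekindEtaUnit, one_mul]
  have h := congrArg (PowerSeries.constantCoeff (R := ℤ))
    (show Vser 2 dedekindEtaUnit * Vser 2 dedekindEtaUnitInv = 1 by
      rw [← Vser_mul 2 (by norm_num), dedekindEtaUnit_mul_inv, Vser_one 2 (by norm_num)])
  rw [_root_.map_mul, _root_.map_one, constantCoeff_Vser 2 (by norm_num), constantCoeff_dedekindEtaUnit,
    one_mul] at h
  exact h

theorem t2Z_coeff_of_lt {k : ℤ} (hk : k < -1) : t2Z.coeff k = 0 := by
  rw [t2Z, single_neg_one_mul_coeff]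
  exact ιZ_coeff_neg _ (by omega)

theorem t3Z_coeff_neg_one : t3Z.coeff (-1) = 1 := by
  rw [t3Z, single_neg_one_mul_coeff]
  have : ((-1 : ℤ) + 1) = ((0 : ℕ) : ℤ) := by norm_num
  rw [this, ιZ_coeff_nat, PowerSeries.coeff_zero_eq_constantCoeff, _root_.map_mul,
    constantCoeff_eta12, one_mul]
  have h := congrArg (PowerSeries.constantCoeff (R := ℤ))
    (show Vser 3 eta12 * Vser 3 eta12Inv = 1 by
      rw [← Vser_mul 3 (by norm_num), eta12_mul_inv, Vser_one 3 (by norm_num)])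
  rw [_root_.map_mul, _root_.map_one, constantCoeff_Vser 3 (by norm_num), constantCoeff_eta12,
    one_mul] at h
  exact h

theorem t3Z_coeff_of_lt {k : ℤ} (hk : k < -1) : t3Z.coeff k = 0 := by
  rw [t3Z, single_neg_one_mul_coeff]
  exact ιZ_coeff_neg _ (by omega)

end Fermat.Agent.S18.H333

end
end
-- ===== PACK-END S18/H333/HauptLaurent.lean

-- ===== PACK-BEGIN Lib/HI/H864/RelAbstract.lean
section



/-!
# Lib / HI (helper864): places over a principal maximal ideal, abstract form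

`R ⊆ S` Dedekind domains (`R` any domain for the first part), `S` finite over `R`, `F = Frac S`,
`p = (τ)` a maximal ideal of `R`.  The places `v` of `F / K` whose valuation ring contains `R` and
with `0 < v(τ)` are exactly the places `placeOf q` attached to the primes `q` of `S` over `p`.
Consequences: sums over these places are sums over `p.primesOver S`.
-/

set_option autoImplicit false
set_option linter.unusedSectionVars false
set_option linter.style.haveILetI false
set_option linter.unusedVariables false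

noncomputable section

open AlgebraicCurve IsDedekindDomain

namespace Fermat.Agent.Lib.HI.H864

open Fermat.Agent.S24 Fermat.Agent.S24.H864

section Rel

variable {K F : Type*} [Field K] [Field F] [Algebra K F]
variable {S : Type*} [CommRing S] [IsDedekindDomain S] [Algebra S F] [IsFractionRing S F]
  [Algebra K S] [IsScalarTower K S F]
variable {R : Type*} [CommRing R] [IsDomain R] [Algebra R S] [Algebra R F] [IsScalarTower R S F]
  [Module.Finite R S]
variable (p : Ideal R) [hpmax : p.IsMaximal] (τ : R)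

/-- the place of `F` attached to a prime of `S` over `p` -/
def placeOf (hp : p = Ideal.span {τ}) (hτ : τ ≠ 0)
    (hinj : Function.Injective (algebraMap R S)) (q : p.primesOver S) : Place K F :=
  Place.ofHeightOneSpectrum (K := K) (wOf p τ hp hτ hinj q)

omit hpmax [Module.Finite R S] in
theorem placeOf_injective (hp : p = Ideal.span {τ}) (hτ : τ ≠ 0)
    (hinj : Function.Injective (algebraMap R S)) :
    Function.Injective (placeOf (K := K) (F := F) p τ hp hτ hinj) := by
  intro q q' h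
  have h1 : wOf p τ hp hτ hinj q = wOf p τ hp hτ hinj q' :=
    ofHeightOneSpectrum_injective (K := K) (F := F) h
  exact Subtype.ext (congrArg HeightOneSpectrum.asIdeal h1)

omit hpmax [Module.Finite R S] in
theorem ord_placeOf_tau (hp : p = Ideal.span {τ}) (hτ : τ ≠ 0)
    (hinj : Function.Injective (algebraMap R S)) (q : p.primesOver S) :
    (placeOf (K := K) (F := F) p τ hp hτ hinj q).ord (algebraMap R F τ)
      = (q.1.ramificationIdx R : ℤ) :=
  ord_wOf p τ hp hτ hinj q

omit hpmax [Module.Finite R S] in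
theorem ord_placeOf_algebraMap (hp : p = Ideal.span {τ}) (hτ : τ ≠ 0)
    (hinj : Function.Injective (algebraMap R S)) (q : p.primesOver S) {a : S} (ha : a ≠ 0) :
    (placeOf (K := K) (F := F) p τ hp hτ hinj q).ord (algebraMap S F a)
      = (multiplicity q.1 (Ideal.span {a}) : ℤ) :=
  ord_ofHeightOneSpectrum_algebraMap (K := K) (F := F) (wOf p τ hp hτ hinj q) ha

omit hpmax [Module.Finite R S] in
theorem algebraMap_mem_placeOf (hp : p = Ideal.span {τ}) (hτ : τ ≠ 0)
    (hinj : Function.Injective (algebraMap R S)) (q : p.primesOver S) (a : S) :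
    algebraMap S F a ∈ (placeOf (K := K) (F := F) p τ hp hτ hinj q).toValuationSubring := by
  rw [placeOf, Place.ofHeightOneSpectrum_toValuationSubring, Valuation.mem_valuationSubring_iff]
  exact HeightOneSpectrum.valuation_le_one _ a

theorem exists_placeOf_eq (hp : p = Ideal.span {τ}) (hτ : τ ≠ 0)
    (hinj : Function.Injective (algebraMap R S)) (v : Place K F)
    (hv : 0 < v.ord (algebraMap R F τ))
    (hR : ∀ r : R, algebraMap R F r ∈ v.toValuationSubring) :
    ∃ q : p.primesOver S, placeOf (K := K) (F := F) p τ hp hτ hinj q = v := by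
  have hτ' : algebraMap R S τ ≠ 0 := fun h => hτ (hinj (by rw [h, map_zero]))
  have hS := algebraMap_mem_of_base (S := S) v hR
  have hv' : 0 < v.ord (algebraMap S F (algebraMap R S τ)) := by
    rwa [← IsScalarTower.algebraMap_apply R S F]
  obtain ⟨w, hw, hwq⟩ := exists_heightOneSpectrum_of_place v hS hτ' hv'
  have hle : p ≤ w.asIdeal.under R := by
    rw [hp, Ideal.span_singleton_le_iff_mem, Ideal.under_def, Ideal.mem_comap, hwq]
    exact (mem_primeOfPlace v hS hτ').mpr hv'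
  have hne : w.asIdeal.under R ≠ ⊤ := (Ideal.IsPrime.under R w.asIdeal).ne_top
  have hq : w.asIdeal ∈ p.primesOver S := ⟨w.isPrime, ⟨hpmax.eq_of_le hne hle⟩⟩
  refine ⟨⟨w.asIdeal, hq⟩, ?_⟩
  rw [← hw]
  show Place.ofHeightOneSpectrum (K := K) (wOf p τ hp hτ hinj ⟨w.asIdeal, hq⟩) = _
  congr 1

/-- The places over `p` are the image of `placeOf`. -/
theorem image_placeOf [Fintype (p.primesOver S)] [DecidableEq (Place K F)]
    (hp : p = Ideal.span {τ}) (hτ : τ ≠ 0)
    (hinj : Function.Injective (algebraMap R S))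
    (s : Finset (Place K F))
    (hs : ∀ v, v ∈ s ↔ (0 < v.ord (algebraMap R F τ) ∧
      ∀ r : R, algebraMap R F r ∈ v.toValuationSubring)) :
    Finset.univ.image (placeOf (K := K) (F := F) p τ hp hτ hinj) = s := by
  ext v
  rw [Finset.mem_image, hs]
  constructor
  · rintro ⟨q, -, rfl⟩
    refine ⟨?_, fun r => ?_⟩
    · rw [ord_placeOf_tau]
      exact_mod_cast Ideal.ramificationIdx_pos q.1 R
    · rw [IsScalarTower.algebraMap_apply R S F]
      exact algebraMap_mem_placeOf p τ hp hτ hinj q _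
  · rintro ⟨hv, hR⟩
    obtain ⟨q, hq⟩ := exists_placeOf_eq p τ hp hτ hinj v hv hR
    exact ⟨q, Finset.mem_univ _, hq⟩

/-- Sums over the places over `p` are sums over `p.primesOver S`. -/
theorem sum_places_eq_sum_primesOver [Fintype (p.primesOver S)]
    (hp : p = Ideal.span {τ}) (hτ : τ ≠ 0)
    (hinj : Function.Injective (algebraMap R S))
    (s : Finset (Place K F))
    (hs : ∀ v, v ∈ s ↔ (0 < v.ord (algebraMap R F τ) ∧
      ∀ r : R, algebraMap R F r ∈ v.toValuationSubring))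
    (h : Place K F → ℤ) :
    ∑ v ∈ s, h v = ∑ q : p.primesOver S, h (placeOf (K := K) (F := F) p τ hp hτ hinj q) := by
  classical
  rw [← image_placeOf p τ hp hτ hinj s hs,
    Finset.sum_image (fun a _ b _ hab => placeOf_injective p τ hp hτ hinj hab)]

section Main

variable [IsAlgClosed K] [Algebra K R] [IsScalarTower K R S] [Module.Flat R S]

/-- **Relative fundamental identity, abstract form.** -/
theorem sum_ord_tau_eq_finrank
    (hp : p = Ideal.span {τ}) (hτ : τ ≠ 0) (hinj : Function.Injective (algebraMap R S))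
    (hres : ∀ r : R, ∃ c : K, r - algebraMap K R c ∈ p)
    (s : Finset (Place K F))
    (hs : ∀ v, v ∈ s ↔ (0 < v.ord (algebraMap R F τ) ∧
      ∀ r : R, algebraMap R F r ∈ v.toValuationSubring)) :
    ∑ v ∈ s, v.ord (algebraMap R F τ) = (Module.finrank R S : ℤ) := by
  classical
  haveI : Fintype (p.primesOver S) := (Algebra.QuasiFinite.finite_primesOver p).fintype
  have hsum := Ideal.sum_ramification_inertia_eq_finrank p S
  rw [sum_places_eq_sum_primesOver p τ hp hτ hinj s hs, ← hsum]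
  push_cast
  refine Finset.sum_congr rfl fun q _ => ?_
  rw [ord_placeOf_tau, inertiaDeg_eq_one p hres q, Nat.cast_one, mul_one]

end Main

end Rel

section Norm

variable {K F : Type*} [Field K] [Field F] [Algebra K F]
variable {S : Type*} [CommRing S] [IsDedekindDomain S] [Algebra S F] [IsFractionRing S F]
  [Algebra K S] [IsScalarTower K S F]
variable {R : Type*} [CommRing R] [IsDedekindDomain R] [Algebra R S] [Algebra R F]
  [IsScalarTower R S F] [Module.Finite R S] [Module.IsTorsionFree R S]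
  [PerfectField (FractionRing R)]
variable [IsAlgClosed K] [Algebra K R] [IsScalarTower K R S]
variable (p : Ideal R) [hpmax : p.IsMaximal] (τ : R)

/-- **Norm formula, abstract form**: the sum of the orders of `a ∈ S` at the places over `p`
is the multiplicity of `p` in the ideal generated by the norm of `a`. -/
theorem sum_ord_eq_multiplicity_intNorm
    (hp : p = Ideal.span {τ}) (hτ : τ ≠ 0) (hinj : Function.Injective (algebraMap R S))
    (hres : ∀ r : R, ∃ c : K, r - algebraMap K R c ∈ p)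
    (s : Finset (Place K F))
    (hs : ∀ v, v ∈ s ↔ (0 < v.ord (algebraMap R F τ) ∧
      ∀ r : R, algebraMap R F r ∈ v.toValuationSubring))
    {a : S} (ha : a ≠ 0) :
    ∑ v ∈ s, v.ord (algebraMap S F a)
      = (multiplicity p (Ideal.span {Algebra.intNorm R S a}) : ℤ) := by
  classical
  haveI : Fintype (p.primesOver S) := (Algebra.QuasiFinite.finite_primesOver p).fintype
  have hp0 : p ≠ ⊥ := by
    rw [hp, Ne, Ideal.span_singleton_eq_bot]
    exact hτ
  have hI : Ideal.span {a} ≠ (⊥ : Ideal S) := by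
    rw [Ne, Ideal.span_singleton_eq_bot]
    exact ha
  rw [sum_places_eq_sum_primesOver p τ hp hτ hinj s hs, ← Ideal.relNorm_singleton,
    multiplicity_relNorm_eq_sum p hp0 _ hI]
  push_cast
  refine Finset.sum_congr rfl fun q _ => ?_
  rw [ord_placeOf_algebraMap p τ hp hτ hinj q ha, inertiaDeg_eq_one p hres q, Nat.cast_one,
    one_mul]

end Norm

end Fermat.Agent.Lib.HI.H864

end
end
-- ===== PACK-END Lib/HI/H864/RelAbstract.lean

-- ===== PACK-BEGIN A2/Mod/H816/L3.lean
section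



/-!
# A2 / MOD leaf L3 (helper816): `vinfGauss : VinfGaussStatement P E w`

If `u ∈ F_N` is the image of an `R`-integral series `U = t^{-a}(c + …)`, `a > 0`, `c ∈ Rˣ`, then
for every `p ∈ R[X]` not divisible by the uniformiser `w`, `p(u)` is a unit of the Gauss
valuation ring `V∞`.

Proof: `p(u)` is the image of the integral series `Q = p(U)`; its reduction is `p̄(Ū) ≠ 0`
(`L3Poly.eval₂_C_ne_zero_of_polar`), so `Q` is primitive, and `p(u) = Q / 1`, `p(u)⁻¹ = 1 / Q`
are Gauss-integral.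
-/

set_option autoImplicit false
set_option synthInstance.maxHeartbeats 400000
set_option maxHeartbeats 1600000

noncomputable section

namespace Fermat.Agent.A2.Mod.H816

open ModularCurve HahnSeries Polynomial Fermat.Agent.A2 Fermat.Agent.A2.Mod

variable (P : ValuationSubring _root_.Fermat.Agent.A2.Mod.Qb) (E : IntermediateField ℚ _root_.Fermat.Agent.A2.Mod.Qb)

/-- `coeffMap` commutes with constants. -/
theorem coeffMap_comp_C {R S : Type*} [CommRing R] [CommRing S] (f : R →+* S) :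
    (coeffMap f).comp (HahnSeries.C : R →+* LaurentSeries R) =
      (HahnSeries.C : S →+* LaurentSeries S).comp f := by
  ext r : 1
  show coeffMap f (HahnSeries.single 0 r) = HahnSeries.single 0 (f r)
  exact coeffMap_single f 0 r

/-- The integral series `p(U)`. -/
def polyAt (p : Polynomial (_root_.Fermat.Agent.A2.Mod.RE P E)) (U : LaurentSeries (_root_.Fermat.Agent.A2.Mod.RE P E)) : LaurentSeries (_root_.Fermat.Agent.A2.Mod.RE P E) :=
  p.eval₂ (HahnSeries.C : _root_.Fermat.Agent.A2.Mod.RE P E →+* LaurentSeries (_root_.Fermat.Agent.A2.Mod.RE P E)) U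

theorem incl_polyAt (N : ℕ) (p : Polynomial (_root_.Fermat.Agent.A2.Mod.RE P E)) (U : LaurentSeries (_root_.Fermat.Agent.A2.Mod.RE P E))
    (u : _root_.Fermat.Agent.A2.Mod.FE E N) (hu : (u : LaurentSeries E) = H708.incl (_root_.Fermat.Agent.A2.Mod.RE P E) U) :
    ((ev P E N u p : _root_.Fermat.Agent.A2.Mod.FE E N) : LaurentSeries E) = H708.incl (_root_.Fermat.Agent.A2.Mod.RE P E) (polyAt P E p U) := by
  unfold ev polyAt
  have h1 : ((p.eval₂ ((algebraMap E (_root_.Fermat.Agent.A2.Mod.FE E N)).comp (_root_.Fermat.Agent.A2.Mod.RE P E).subtype) u : _root_.Fermat.Agent.A2.Mod.FE E N) :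
      LaurentSeries E) =
      p.eval₂ (((_root_.Fermat.Agent.A2.Mod.FE E N).val : _root_.Fermat.Agent.A2.Mod.FE E N →+* LaurentSeries E).comp
        ((algebraMap E (_root_.Fermat.Agent.A2.Mod.FE E N)).comp (_root_.Fermat.Agent.A2.Mod.RE P E).subtype)) (u : LaurentSeries E) :=
    Polynomial.hom_eval₂ p _ ((_root_.Fermat.Agent.A2.Mod.FE E N).val : _root_.Fermat.Agent.A2.Mod.FE E N →+* LaurentSeries E) u
  rw [h1, hu]
  rw [H708.incl, Polynomial.hom_eval₂, coeffMap_comp_C]
  congr 1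
  ext r : 1
  show ((algebraMap E (_root_.Fermat.Agent.A2.Mod.FE E N) (r : E) : _root_.Fermat.Agent.A2.Mod.FE E N) : LaurentSeries E) =
    HahnSeries.C ((r : E))
  rw [IntermediateField.coe_algebraMap_apply, algebraMap_laurentSeries_eq_single]
  rfl

theorem red_polyAt (p : Polynomial (_root_.Fermat.Agent.A2.Mod.RE P E)) (U : LaurentSeries (_root_.Fermat.Agent.A2.Mod.RE P E)) :
    H708.red (_root_.Fermat.Agent.A2.Mod.RE P E) (polyAt P E p U) =
      (p.map (IsLocalRing.residue (_root_.Fermat.Agent.A2.Mod.RE P E))).eval₂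
        (HahnSeries.C : IsLocalRing.ResidueField (_root_.Fermat.Agent.A2.Mod.RE P E) →+*
          LaurentSeries (IsLocalRing.ResidueField (_root_.Fermat.Agent.A2.Mod.RE P E))) (H708.red (_root_.Fermat.Agent.A2.Mod.RE P E) U) := by
  unfold polyAt
  rw [H708.red, Polynomial.hom_eval₂, coeffMap_comp_C, Polynomial.eval₂_map]

/-- The reduction of `p` is nonzero if `w ∤ p`. -/
theorem map_residue_ne_zero [IsDiscreteValuationRing (_root_.Fermat.Agent.A2.Mod.RE P E)] {w : _root_.Fermat.Agent.A2.Mod.RE P E} (hw : Irreducible w)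
    {p : Polynomial (_root_.Fermat.Agent.A2.Mod.RE P E)} (hp : ¬ Polynomial.C w ∣ p) :
    p.map (IsLocalRing.residue (_root_.Fermat.Agent.A2.Mod.RE P E)) ≠ 0 := by
  intro h
  apply hp
  rw [Polynomial.C_dvd_iff_dvd_coeff]
  intro i
  have h1 : (p.map (IsLocalRing.residue (_root_.Fermat.Agent.A2.Mod.RE P E))).coeff i = 0 := by rw [h]; simp
  rw [Polynomial.coeff_map, IsLocalRing.residue_eq_zero_iff] at h1
  rw [(IsDiscreteValuationRing.irreducible_iff_uniformizer w).mp hw,
    Ideal.mem_span_singleton] at h1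
  exact h1

/-- **L3.** -/
theorem vinfGauss (w : _root_.Fermat.Agent.A2.Mod.RE P E) : VinfGaussStatement P E w := by
  intro N _hN hdvr hw V hV u U a ha hu h0 hc p hp
  have := hdvr
  set Q := polyAt P E p U with hQ
  have hincl := incl_polyAt P E N p U u hu
  -- `Q` is primitive
  have hred : H708.red (_root_.Fermat.Agent.A2.Mod.RE P E) Q ≠ 0 := by
    rw [hQ, red_polyAt]
    refine eval₂_C_ne_zero_of_polar (a := -(a : ℤ)) (by omega) ?_ ?_
      (map_residue_ne_zero P E hw hp)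
    · intro n hn
      show (IsLocalRing.residue (_root_.Fermat.Agent.A2.Mod.RE P E)) (U.coeff n) = 0
      rw [h0 n hn, _root_.map_zero]
    · show (IsLocalRing.residue (_root_.Fermat.Agent.A2.Mod.RE P E)) (U.coeff (-(a : ℤ))) ≠ 0
      rw [Ne, IsLocalRing.residue_eq_zero_iff]
      exact fun hmem => (IsLocalRing.mem_maximalIdeal _).mp hmem hc
  have hQ0 : Q ≠ 0 := H708.ne_zero_of_red_ne_zero _ hred
  have hne : ((ev P E N u p : _root_.Fermat.Agent.A2.Mod.FE E N) : LaurentSeries E) ≠ 0 := by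
    rw [hincl]; exact H708.incl_ne_zero _ hQ0
  have hmemF : H708.incl (_root_.Fermat.Agent.A2.Mod.RE P E) Q ∈ laurentBaseChange E (modularFunctionFieldFull N) := by
    rw [← hincl]; exact (ev P E N u p).2
  constructor
  · rw [hV, hincl]
    exact H708.IsGaussInt.of_incl Q
  · rw [hV]
    refine ⟨1, Q, hred, hmemF, ?_⟩
    have hcoe : (((ev P E N u p)⁻¹ : _root_.Fermat.Agent.A2.Mod.FE E N) : LaurentSeries E) =
        ((ev P E N u p : _root_.Fermat.Agent.A2.Mod.FE E N) : LaurentSeries E)⁻¹ := rfl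
    rw [hcoe, ← hincl, _root_.map_one]
    exact inv_mul_cancel₀ hne

end Fermat.Agent.A2.Mod.H816

end

end
-- ===== PACK-END A2/Mod/H816/L3.lean

-- ===== PACK-BEGIN A2/H489/GaussFrameA.lean
section


/-!
# A2 / M1mod-FRAME part A (helper489): Gauss normal form over a discrete valuation ring

`R` a discrete valuation ring, `E = Frac R`, `L ⊇ E` a field, `x ∈ L`.

* `exists_eq_pow_mul_prim` : a nonzero `p ∈ R[X]` is `w ^ n` times a primitive polynomial
  (primitive := nonzero modulo the maximal ideal);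
* `exists_normal_form_adjoin` : every element `a ∈ E(x)` satisfies
  `a · Q(x) = c · P(x)` with `c ∈ E` and `P, Q ∈ R[X]` primitive;
* `IsGaussOver R V x` : the valuation subring `V` of `L` contains `R`, `x`, its maximal ideal
  contains `𝔪_R`, and `P(x)` is a unit of `V` for every primitive `P ∈ R[X]`
  (i.e. `V` induces the Gauss valuation on `E(x)`);
* `IsGaussOver.mem_iff`, `IsGaussOver.mem_nonunits_iff` : `V ∩ E(x)` and `𝔪_V ∩ E(x)` in terms of
  normal forms (independent of `V`).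
-/

set_option autoImplicit false

namespace Fermat.Agent.A2.H489

open IsLocalRing Polynomial IntermediateField

section Prim

variable {R : Type*} [CommRing R] [IsDomain R] [IsDiscreteValuationRing R]

omit [IsDomain R] [IsDiscreteValuationRing R] in
/-- primitive polynomials over a local ring: nonzero modulo the maximal ideal -/
theorem map_residue_eq_zero_iff [IsLocalRing R] (P : R[X]) :
    P.map (residue R) = 0 ↔ ∀ i, P.coeff i ∈ maximalIdeal R := by
  constructor
  · intro h i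
    have := congrArg (fun p => p.coeff i) h
    simp only [coeff_map, coeff_zero] at this
    exact (residue_eq_zero_iff _).mp this
  · intro h
    ext i
    simp only [coeff_map, coeff_zero]
    exact (residue_eq_zero_iff _).mpr (h i)

theorem exists_eq_C_mul_of_map_residue_eq_zero {w : R} (hw : Irreducible w) {P : R[X]}
    (h : P.map (residue R) = 0) : ∃ P' : R[X], P = C w * P' := by
  have h1 : C w ∣ P := by
    rw [C_dvd_iff_dvd_coeff]
    intro i
    have := (map_residue_eq_zero_iff P).mp h i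
    rw [hw.maximalIdeal_eq, Ideal.mem_span_singleton] at this
    exact this
  exact h1

/-- A nonzero polynomial over a DVR is a power of the uniformiser times a primitive polynomial. -/
theorem exists_eq_pow_mul_prim {w : R} (hw : Irreducible w) {p : R[X]} (hp : p ≠ 0) :
    ∃ (n : ℕ) (P : R[X]), p = C (w ^ n) * P ∧ P.map (residue R) ≠ 0 := by
  classical
  let _ : StrongNormalizationMonoid R := UniqueFactorizationMonoid.strongNormalizationMonoid
  let _ : NormalizedGCDMonoid R := UniqueFactorizationMonoid.toNormalizedGCDMonoid R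
  have hc : p.content ≠ 0 := fun h => hp (content_eq_zero_iff.mp h)
  obtain ⟨n, hn⟩ := IsDiscreteValuationRing.associated_pow_irreducible hc hw
  obtain ⟨u, hu⟩ := hn.symm
  -- `w ^ n * u = content`
  refine ⟨n, C (u : R) * p.primPart, ?_, ?_⟩
  · conv_lhs => rw [p.eq_C_content_mul_primPart]
    rw [← mul_assoc, ← C_mul, hu]
  · intro h
    rw [Polynomial.map_mul, map_C] at h
    have hu' : (C (residue R (u : R)) : (ResidueField R)[X]) ≠ 0 := by
      rw [Ne, C_eq_zero, residue_eq_zero_iff]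
      intro hmem
      exact (IsLocalRing.mem_maximalIdeal _).mp hmem u.isUnit
    rcases mul_eq_zero.mp h with h1 | h1
    · exact hu' h1
    · obtain ⟨P', hP'⟩ := exists_eq_C_mul_of_map_residue_eq_zero hw h1
      have hprim := p.isPrimitive_primPart
      have := hprim w ⟨P', hP'⟩
      exact hw.not_isUnit this

end Prim

section NormalForm

variable {R E L : Type*} [CommRing R] [IsDomain R] [IsDiscreteValuationRing R]
  [Field E] [Algebra R E] [IsFractionRing R E]
  [Field L] [Algebra E L] [Algebra R L] [IsScalarTower R E L]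

omit [IsDiscreteValuationRing R] in
/-- clearing denominators -/
theorem exists_aeval_eq_of_polynomial (x : L) {p : E[X]} (hp : p ≠ 0) :
    ∃ (d : R) (P : R[X]), d ≠ 0 ∧ P ≠ 0 ∧ algebraMap R L d * aeval x p = aeval x P := by
  obtain ⟨b, hbM, hb⟩ := IsLocalization.integerNormalization_spec (nonZeroDivisors R) p
  refine ⟨b, IsLocalization.integerNormalization (nonZeroDivisors R) p,
    nonZeroDivisors.ne_zero hbM, ?_, ?_⟩
  · rw [Ne, IsFractionRing.integerNormalization_eq_zero_iff]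
    exact hp
  · have h1 := congrArg (aeval x) hb
    rw [aeval_map_algebraMap] at h1
    rw [h1, ← Algebra.smul_def]
    have h2 : (b • p : E[X]) = C (algebraMap R E b) * p := by
      rw [Algebra.smul_def]
      rfl
    rw [h2, _root_.map_mul, aeval_C, ← IsScalarTower.algebraMap_apply R E L, Algebra.smul_def]

omit [IsDiscreteValuationRing R] in
theorem algebraMap_RL_ne_zero (E : Type*) {R L : Type*} [CommRing R] [IsDomain R]
    [Field E] [Algebra R E] [IsFractionRing R E]
    [Field L] [Algebra E L] [Algebra R L] [IsScalarTower R E L]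
    {d : R} (hd : d ≠ 0) : algebraMap R L d ≠ 0 := by
  rw [IsScalarTower.algebraMap_apply R E L]
  intro h
  have h1 : algebraMap R E d = 0 := (algebraMap E L).injective (by rw [h, _root_.map_zero])
  exact hd ((IsFractionRing.injective R E) (by rw [h1, _root_.map_zero]))

/-- **Gauss normal form** in `E(x)`: `a · Q(x) = c · P(x)` with `P`, `Q` primitive. -/
theorem exists_normal_form_adjoin {w : R} (hw : Irreducible w) (x : L) {a : L}
    (ha : a ∈ E⟮x⟯) (ha0 : a ≠ 0) :
    ∃ (c : E) (P Q : R[X]), c ≠ 0 ∧ P.map (residue R) ≠ 0 ∧ Q.map (residue R) ≠ 0 ∧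
      a * aeval x Q = algebraMap E L c * aeval x P := by
  obtain ⟨r, s, hrs⟩ := (mem_adjoin_simple_iff E a).mp ha
  have hs0 : aeval x s ≠ 0 := by
    intro h
    rw [h, div_zero] at hrs
    exact ha0 hrs
  have hr0 : aeval x r ≠ 0 := by
    intro h
    rw [h, zero_div] at hrs
    exact ha0 hrs
  have hs : s ≠ 0 := by
    rintro rfl
    exact hs0 (_root_.map_zero _)
  have hr : r ≠ 0 := by
    rintro rfl
    exact hr0 (_root_.map_zero _)
  obtain ⟨dr, R', hdr, hR', eR⟩ := exists_aeval_eq_of_polynomial (R := R) x hr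
  obtain ⟨ds, S', hds, hS', eS⟩ := exists_aeval_eq_of_polynomial (R := R) x hs
  obtain ⟨n, R₀, hR₀, hR₀p⟩ := exists_eq_pow_mul_prim hw hR'
  obtain ⟨m, S₀, hS₀, hS₀p⟩ := exists_eq_pow_mul_prim hw hS'
  have hw0 : algebraMap R L w ≠ 0 := algebraMap_RL_ne_zero E hw.ne_zero
  have hwE : algebraMap R E w ≠ 0 := fun h =>
    hw.ne_zero ((IsFractionRing.injective R E) (by rw [h, _root_.map_zero]))
  have hdrE : algebraMap R E dr ≠ 0 := fun h =>
    hdr ((IsFractionRing.injective R E) (by rw [h, _root_.map_zero]))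
  have hdsE : algebraMap R E ds ≠ 0 := fun h =>
    hds ((IsFractionRing.injective R E) (by rw [h, _root_.map_zero]))
  refine ⟨algebraMap R E ds * algebraMap R E w ^ n / (algebraMap R E dr * algebraMap R E w ^ m),
    R₀, S₀, ?_, hR₀p, hS₀p, ?_⟩
  · exact div_ne_zero (mul_ne_zero hdsE (pow_ne_zero _ hwE))
      (mul_ne_zero hdrE (pow_ne_zero _ hwE))
  · rw [hR₀, _root_.map_mul, aeval_C, _root_.map_pow] at eR
    rw [hS₀, _root_.map_mul, aeval_C, _root_.map_pow] at eS
    have hdrL : algebraMap R L dr ≠ 0 := algebraMap_RL_ne_zero E hdr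
    have hdsL : algebraMap R L ds ≠ 0 := algebraMap_RL_ne_zero E hds
    have e1 : a * aeval x s = aeval x r := by
      rw [hrs, div_mul_cancel₀ _ hs0]
    rw [map_div₀, _root_.map_mul, _root_.map_mul, _root_.map_pow, _root_.map_pow, ← IsScalarTower.algebraMap_apply R E L,
      ← IsScalarTower.algebraMap_apply R E L, ← IsScalarTower.algebraMap_apply R E L]
    rw [div_mul_eq_mul_div, eq_div_iff (mul_ne_zero hdrL (pow_ne_zero _ hw0))]
    have e2 : algebraMap R L dr * (algebraMap R L w ^ m * aeval x S₀) * a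
        = algebraMap R L dr * (algebraMap R L ds * aeval x r) := by
      rw [← eS, ← e1]; ring
    calc a * aeval x S₀ * (algebraMap R L dr * algebraMap R L w ^ m)
        = algebraMap R L dr * (algebraMap R L w ^ m * aeval x S₀) * a := by ring
      _ = algebraMap R L dr * (algebraMap R L ds * aeval x r) := e2
      _ = algebraMap R L ds * (algebraMap R L dr * aeval x r) := by ring
      _ = algebraMap R L ds * (algebraMap R L w ^ n * aeval x R₀) := by rw [eR]
      _ = algebraMap R L ds * algebraMap R L w ^ n * aeval x R₀ := by ring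

end NormalForm

section Gauss

/-- `V` induces the Gauss valuation on `E(x)` (with respect to the local ring `R`): it lies over
`R`, contains `x`, and `P(x)` is a unit of `V` for every primitive polynomial `P ∈ R[X]`. -/
structure IsGaussOver (R : Type*) {L : Type*} [CommRing R] [IsLocalRing R] [Field L]
    [Algebra R L] (V : ValuationSubring L) (x : L) : Prop where
  isOver : IsOver R V
  mem : x ∈ V
  prim : ∀ P : R[X], aeval x P ∈ V.nonunits → P.map (residue R) = 0

variable {R E L : Type*} [CommRing R] [IsDomain R] [IsDiscreteValuationRing R]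
  [Field E] [Algebra R E] [IsFractionRing R E]
  [Field L] [Algebra E L] [Algebra R L] [IsScalarTower R E L]
  {V : ValuationSubring L} {x : L}

omit [IsDomain R] [IsDiscreteValuationRing R] in
theorem IsOver.aeval_mem [IsLocalRing R] (h : IsOver R V) (hx : x ∈ V) (P : R[X]) :
    aeval x P ∈ V := by
  rw [aeval_def, eval₂_eq_sum, Polynomial.sum]
  exact _root_.sum_mem fun i _ => _root_.MulMemClass.mul_mem (h.mem _) (_root_.pow_mem hx _)

omit [IsDomain R] [IsDiscreteValuationRing R] in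
theorem IsGaussOver.aeval_mem [IsLocalRing R] (h : IsGaussOver R V x) (P : R[X]) :
    aeval x P ∈ V :=
  h.isOver.aeval_mem h.mem P

omit [IsDomain R] [IsDiscreteValuationRing R] in
theorem IsGaussOver.inv_aeval_mem [IsLocalRing R] (h : IsGaussOver R V x) {P : R[X]}
    (hP : P.map (residue R) ≠ 0) : (aeval x P)⁻¹ ∈ V := by
  have h1 := h.aeval_mem P
  have h2 : aeval x P ∉ V.nonunits := fun hn => hP (h.prim P hn)
  rw [ValuationSubring.mem_nonunits_iff, not_lt] at h2
  rw [← ValuationSubring.valuation_le_one_iff, map_inv₀]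
  have h3 := (ValuationSubring.valuation_le_one_iff V _).mpr h1
  have h4 : V.valuation (aeval x P) = 1 := le_antisymm h3 h2
  rw [h4, inv_one]

omit [IsDomain R] [IsDiscreteValuationRing R] in
theorem IsGaussOver.aeval_ne_zero [IsLocalRing R] (h : IsGaussOver R V x) {P : R[X]}
    (hP : P.map (residue R) ≠ 0) : aeval x P ≠ 0 := by
  intro h0
  apply hP
  apply h.prim
  rw [h0, ValuationSubring.mem_nonunits_iff, _root_.map_zero]
  exact zero_lt_one

omit [IsDomain R] [IsDiscreteValuationRing R] in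
theorem IsGaussOver.aeval_mem_nonunits [IsLocalRing R] (h : IsGaussOver R V x) {P : R[X]}
    (hP : P.map (residue R) = 0) : aeval x P ∈ V.nonunits := by
  rw [aeval_def, eval₂_eq_sum, Polynomial.sum, ValuationSubring.mem_nonunits_iff]
  refine Valuation.map_sum_lt _ one_ne_zero fun i _ => ?_
  rw [← ValuationSubring.mem_nonunits_iff, mul_comm]
  exact mul_mem_nonunits (_root_.pow_mem h.mem _)
    (h.isOver.nonunit _ ((map_residue_eq_zero_iff P).mp hP i))

/-- `V ∩ E = R`. -/
theorem IsOver.const_mem_iff (hV : IsOver R V) (c : E) :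
    algebraMap E L c ∈ V ↔ ∃ r : R, algebraMap R E r = c := by
  constructor
  · intro hc
    rcases ValuationRing.isInteger_or_isInteger R c with ⟨r, hr⟩ | ⟨r, hr⟩
    · exact ⟨r, hr⟩
    · by_cases hc0 : c = 0
      · exact ⟨0, by rw [_root_.map_zero, hc0]⟩
      by_cases hu : IsUnit r
      · obtain ⟨u, rfl⟩ := hu
        refine ⟨(↑u⁻¹ : R), ?_⟩
        have h1 : algebraMap R E (↑u⁻¹ : R) * algebraMap R E (u : R) = 1 := by
          rw [← _root_.map_mul, Units.inv_mul, _root_.map_one]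
        have hr' : algebraMap R E (u : R) = c⁻¹ := hr
        rw [hr'] at h1
        field_simp at h1
        exact h1
      · exfalso
        have hm : r ∈ maximalIdeal R := (IsLocalRing.mem_maximalIdeal r).mpr hu
        have h1 := hV.nonunit r hm
        have hr' : algebraMap R E r = c⁻¹ := hr
        rw [IsScalarTower.algebraMap_apply R E L, hr', map_inv₀] at h1
        have h2 := mul_mem_nonunits hc h1
        have hc0' : algebraMap E L c ≠ 0 := by
          rw [Ne, _root_.map_eq_zero]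
          exact hc0
        rw [mul_inv_cancel₀ hc0', ValuationSubring.mem_nonunits_iff, _root_.map_one] at h2
        exact lt_irrefl _ h2
  · rintro ⟨r, rfl⟩
    rw [← IsScalarTower.algebraMap_apply]
    exact hV.mem r

/-- `𝔪_V ∩ E = 𝔪_R`. -/
theorem IsOver.const_mem_nonunits_iff (hV : IsOver R V) (c : E) :
    algebraMap E L c ∈ V.nonunits ↔ ∃ r ∈ maximalIdeal R, algebraMap R E r = c := by
  constructor
  · intro hc
    obtain ⟨r, rfl⟩ := (hV.const_mem_iff c).mp (ValuationSubring.nonunits_subset hc)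
    rw [← IsScalarTower.algebraMap_apply] at hc
    exact ⟨r, (hV.mem_nonunits_iff r).mp hc, rfl⟩
  · rintro ⟨r, hr, rfl⟩
    rw [← IsScalarTower.algebraMap_apply]
    exact hV.nonunit r hr

/-- `V ∩ E(x)` in terms of Gauss normal forms. -/
theorem IsGaussOver.mem_iff (h : IsGaussOver R V x) {a : L} (ha : a ∈ E⟮x⟯) :
    a ∈ V ↔ ∃ P Q : R[X], Q.map (residue R) ≠ 0 ∧ a * aeval x Q = aeval x P := by
  constructor
  · intro haV
    by_cases ha0 : a = 0
    · exact ⟨0, 1, by rw [Polynomial.map_one]; exact one_ne_zero, by rw [ha0, zero_mul, _root_.map_zero]⟩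
    obtain ⟨w, hw⟩ := IsDiscreteValuationRing.exists_irreducible R
    obtain ⟨c, P, Q, -, hP, hQ, e⟩ := exists_normal_form_adjoin (E := E) hw x ha ha0
    have hc : algebraMap E L c ∈ V := by
      have h1 : algebraMap E L c = a * aeval x Q * (aeval x P)⁻¹ := by
        rw [e, mul_assoc, mul_inv_cancel₀ (h.aeval_ne_zero hP), mul_one]
      rw [h1]
      exact _root_.MulMemClass.mul_mem (_root_.MulMemClass.mul_mem haV (h.aeval_mem Q)) (h.inv_aeval_mem hP)
    obtain ⟨r, rfl⟩ := (h.isOver.const_mem_iff c).mp hc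
    refine ⟨C r * P, Q, hQ, ?_⟩
    rw [e, _root_.map_mul, aeval_C, ← IsScalarTower.algebraMap_apply]
  · rintro ⟨P, Q, hQ, e⟩
    have h1 : a = aeval x P * (aeval x Q)⁻¹ := by
      rw [← e, mul_assoc, mul_inv_cancel₀ (h.aeval_ne_zero hQ), mul_one]
    rw [h1]
    exact _root_.MulMemClass.mul_mem (h.aeval_mem P) (h.inv_aeval_mem hQ)

/-- `𝔪_V ∩ E(x)` in terms of Gauss normal forms. -/
theorem IsGaussOver.mem_nonunits_iff (h : IsGaussOver R V x) {a : L} (ha : a ∈ E⟮x⟯) :
    a ∈ V.nonunits ↔ ∃ P Q : R[X], Q.map (residue R) ≠ 0 ∧ P.map (residue R) = 0 ∧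
      a * aeval x Q = aeval x P := by
  constructor
  · intro haV
    by_cases ha0 : a = 0
    · exact ⟨0, 1, by rw [Polynomial.map_one]; exact one_ne_zero, Polynomial.map_zero _,
        by rw [ha0, zero_mul, _root_.map_zero]⟩
    obtain ⟨w, hw⟩ := IsDiscreteValuationRing.exists_irreducible R
    obtain ⟨c, P, Q, -, hP, hQ, e⟩ := exists_normal_form_adjoin (E := E) hw x ha ha0
    have hc : algebraMap E L c ∈ V.nonunits := by
      have h1 : algebraMap E L c = aeval x Q * (aeval x P)⁻¹ * a := by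
        rw [mul_comm _ a, ← mul_assoc, e, mul_assoc, mul_inv_cancel₀ (h.aeval_ne_zero hP),
          mul_one]
      rw [h1]
      exact mul_mem_nonunits (_root_.MulMemClass.mul_mem (h.aeval_mem Q) (h.inv_aeval_mem hP)) haV
    obtain ⟨r, hr, rfl⟩ := (h.isOver.const_mem_nonunits_iff c).mp hc
    refine ⟨C r * P, Q, hQ, ?_, ?_⟩
    · rw [Polynomial.map_mul, map_C, (residue_eq_zero_iff r).mpr hr, C_0, zero_mul]
    · rw [e, _root_.map_mul, aeval_C, ← IsScalarTower.algebraMap_apply]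
  · rintro ⟨P, Q, hQ, hP, e⟩
    have h1 : a = (aeval x Q)⁻¹ * aeval x P := by
      rw [← e, mul_comm a, ← mul_assoc, inv_mul_cancel₀ (h.aeval_ne_zero hQ), one_mul]
    rw [h1]
    exact mul_mem_nonunits (h.inv_aeval_mem hQ) (h.aeval_mem_nonunits hP)

/-- Two valuation subrings inducing the Gauss valuation agree on `E(x)`. -/
theorem IsGaussOver.mem_iff_mem {V' : ValuationSubring L} (h : IsGaussOver R V x)
    (h' : IsGaussOver R V' x) {a : L} (ha : a ∈ E⟮x⟯) : a ∈ V ↔ a ∈ V' := by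
  rw [h.mem_iff (E := E) ha, h'.mem_iff (E := E) ha]

theorem IsGaussOver.mem_nonunits_iff_mem {V' : ValuationSubring L} (h : IsGaussOver R V x)
    (h' : IsGaussOver R V' x) {a : L} (ha : a ∈ E⟮x⟯) : a ∈ V.nonunits ↔ a ∈ V'.nonunits := by
  rw [h.mem_nonunits_iff (E := E) ha, h'.mem_nonunits_iff (E := E) ha]

end Gauss

end Fermat.Agent.A2.H489

end
-- ===== PACK-END A2/H489/GaussFrameA.lean

-- ===== PACK-BEGIN A2/H489/ChartA.lean
section


/-!
# A2 / MODASM step S1-abs (helper489): the two components of a chart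

Setting of `H48.GaussPairLe` (helper48): `R` a factorial domain (application: the discrete
valuation ring `P ∩ E`), `ϖ ∈ R` prime, `K = Frac R[X]`, `F / K` finite, `V₁ ≠ V₂` valuation
subrings of `F` inducing the Gauss valuation on `K`, with residue-independent families of total
size `≥ [F : K]`.  In addition `F` is an `R`-algebra compatibly with `R → R[X] → F`, and
`x := algebraMap R[X] F X` is the coordinate.

For the chart `B` = integral closure of `R[x]` in `F` (any `Subalgebra R F` with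
`f ∈ B ↔ IsIntegral (Algebra.adjoin R {x}) f`):

* `isIntegral_adjoin_iff` : integrality over `Algebra.adjoin R {x}` = integrality over `R[X]`;
* `compIdeal B V hBV` : the ideal `B ∩ 𝔪_V` (`mem_compIdeal`), prime (`compIdeal_isPrime`);
* `GaussPairLe.exists_mem_not_mem` : some element of the chart lies in `𝔪_{V₁}` and is a unit of
  `V₂`;
* `GaussPairLe.compIdeal_inf` : `(B ∩ 𝔪_{V₁}) ⊓ (B ∩ 𝔪_{V₂}) = ϖ B`  (`SSChart.inf_eq`);
* `GaussPairLe.exists_components` : the fields `p₁ p₂ prime₁ prime₂ ne not_le₁₂ not_le₂₁ inf_eq`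
  of `Fermat.Agent.A2.SSChart` (Spec v2), with `p_i` characterised by `b ∈ p_i ↔ b ∈ 𝔪_{V_i}`.
-/

set_option autoImplicit false
set_option linter.style.haveILetI false
set_option linter.unusedSectionVars false

namespace Fermat.Agent.A2.H489

open Polynomial
open Fermat.Agent.A2.H48

section Integral

variable {R F : Type*} [CommRing R] [Field F] [Algebra R[X] F] [Algebra R F]
  [IsScalarTower R R[X] F]

/-- `R[X] → F` is evaluation at the coordinate `x = algebraMap R[X] F X`. -/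
theorem aeval_coord_eq_algebraMap (P : R[X]) :
    aeval (algebraMap R[X] F X) P = algebraMap R[X] F P := by
  have h : (aeval (algebraMap R[X] F X) : R[X] →ₐ[R] F) = IsScalarTower.toAlgHom R R[X] F := by
    apply Polynomial.algHom_ext
    simp
  exact DFunLike.congr_fun h P

/-- the constants: `algebraMap R F r = algebraMap R[X] F (C r)` -/
theorem algebraMap_const_eq (r : R) : algebraMap R F r = algebraMap R[X] F (C r) := by
  rw [IsScalarTower.algebraMap_apply R R[X] F]
  rfl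

/-- Integrality over the subalgebra `R[x] ⊆ F` is integrality over the polynomial ring. -/
theorem isIntegral_adjoin_iff (f : F) :
    IsIntegral (Algebra.adjoin R ({algebraMap R[X] F X} : Set F)) f ↔ IsIntegral R[X] f := by
  have hmem : ∀ P : R[X], algebraMap R[X] F P ∈
      Algebra.adjoin R ({algebraMap R[X] F X} : Set F) := by
    intro P
    have h1 := Polynomial.aeval_mem_adjoin_singleton (p := P) R (algebraMap R[X] F X)
    rwa [aeval_coord_eq_algebraMap] at h1
  let φ : R[X] →+* Algebra.adjoin R ({algebraMap R[X] F X} : Set F) :=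
    (algebraMap R[X] F).codRestrict _ hmem
  have hsurj : Function.Surjective φ := by
    rintro ⟨y, hy⟩
    rw [Algebra.adjoin_singleton_eq_range_aeval] at hy
    obtain ⟨P, hP⟩ := hy
    refine ⟨P, Subtype.ext ?_⟩
    show algebraMap R[X] F P = y
    rw [← hP]
    exact (aeval_coord_eq_algebraMap P).symm
  letI : Algebra R[X] (Algebra.adjoin R ({algebraMap R[X] F X} : Set F)) := φ.toAlgebra
  haveI : IsScalarTower R[X] (Algebra.adjoin R ({algebraMap R[X] F X} : Set F)) F :=
    IsScalarTower.of_algebraMap_eq (fun _ => rfl)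
  constructor
  · intro hf
    haveI : Algebra.IsIntegral R[X] (Algebra.adjoin R ({algebraMap R[X] F X} : Set F)) :=
      ⟨fun y => RingHom.isIntegral_of_surjective φ hsurj y⟩
    exact isIntegral_trans f hf
  · exact fun hf => hf.tower_top

end Integral

section Comp

variable {R F : Type*} [CommRing R] [Field F] [Algebra R F]

theorem nonunits_add_mem {V : ValuationSubring F} {a b : F} (ha : a ∈ V.nonunits)
    (hb : b ∈ V.nonunits) : a + b ∈ V.nonunits := by
  rw [ValuationSubring.mem_nonunits_iff] at ha hb ⊢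
  exact lt_of_le_of_lt (Valuation.map_add _ _ _) (max_lt ha hb)

theorem mem_mul_nonunits {V : ValuationSubring F} {a b : F} (ha : a ∈ V)
    (hb : b ∈ V.nonunits) : a * b ∈ V.nonunits := by
  rw [ValuationSubring.mem_nonunits_iff] at hb ⊢
  rw [_root_.map_mul]
  exact Right.mul_lt_one_of_le_of_lt ((ValuationSubring.valuation_le_one_iff V a).mpr ha) hb

/-- The component `B ∩ 𝔪_V` of the chart `B ⊆ V`. -/
def compIdeal (B : Subalgebra R F) (V : ValuationSubring F) (hBV : ∀ b : B, (b : F) ∈ V) :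
    Ideal B where
  carrier := {b | (b : F) ∈ V.nonunits}
  add_mem' := fun {a b} ha hb => by
    show ((a + b : B) : F) ∈ V.nonunits
    rw [Subalgebra.coe_add]
    exact nonunits_add_mem ha hb
  zero_mem' := by
    show ((0 : B) : F) ∈ V.nonunits
    rw [Subalgebra.coe_zero, ValuationSubring.mem_nonunits_iff, _root_.map_zero]
    exact zero_lt_one
  smul_mem' := fun c b hb => by
    show ((c • b : B) : F) ∈ V.nonunits
    rw [smul_eq_mul, Subalgebra.coe_mul]
    exact mem_mul_nonunits (hBV c) hb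

theorem mem_compIdeal {B : Subalgebra R F} {V : ValuationSubring F}
    {hBV : ∀ b : B, (b : F) ∈ V} {b : B} :
    b ∈ compIdeal B V hBV ↔ (b : F) ∈ V.nonunits := Iff.rfl

theorem compIdeal_isPrime (B : Subalgebra R F) (V : ValuationSubring F)
    (hBV : ∀ b : B, (b : F) ∈ V) : (compIdeal B V hBV).IsPrime := by
  rw [Ideal.isPrime_iff]
  constructor
  · intro h
    have h1 : (1 : B) ∈ compIdeal B V hBV := by rw [h]; exact Submodule.mem_top
    rw [mem_compIdeal, Subalgebra.coe_one, ValuationSubring.mem_nonunits_iff, _root_.map_one] at h1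
    exact lt_irrefl _ h1
  · intro a b hab
    rw [mem_compIdeal, Subalgebra.coe_mul, ValuationSubring.mem_nonunits_iff, _root_.map_mul] at hab
    rw [mem_compIdeal, mem_compIdeal, ValuationSubring.mem_nonunits_iff,
      ValuationSubring.mem_nonunits_iff]
    by_contra hcon
    push Not at hcon
    obtain ⟨h1, h2⟩ := hcon
    have ha := (ValuationSubring.valuation_le_one_iff V _).mpr (hBV a)
    have hb := (ValuationSubring.valuation_le_one_iff V _).mpr (hBV b)
    rw [le_antisymm ha h1, le_antisymm hb h2, one_mul] at hab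
    exact lt_irrefl _ hab

end Comp

section Main

variable {R : Type*} [CommRing R] [IsDomain R] [UniqueFactorizationMonoid R]
variable {K F : Type*} [Field K] [Field F] [Algebra R[X] K] [IsFractionRing R[X] K]
  [Algebra K F] [Algebra R[X] F] [IsScalarTower R[X] K F]
variable {ϖ : R} {V₁ V₂ : ValuationSubring F} {f₁ f₂ : ℕ} {b : Fin f₁ → F} {c : Fin f₂ → F}

theorem gaussPairLe_symm (h : GaussPairLe (K := K) ϖ V₁ V₂ b c) :
    GaussPairLe (K := K) ϖ V₂ V₁ c b where
  prime := h.prime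
  unif₁ := h.unif₂
  unif₂ := h.unif₁
  poly₁ := h.poly₂
  poly₂ := h.poly₁
  gauss₁ := h.gauss₂
  gauss₂ := h.gauss₁
  ne := h.ne.symm
  b_mem := h.c_mem
  c_mem := h.b_mem
  b_indep := h.c_indep
  c_indep := h.b_indep
  le := by have := h.le; omega

/-- the chart lies in `V₁` -/
theorem gaussPairLe_mem_of_isIntegral (h : GaussPairLe (K := K) ϖ V₁ V₂ b c) {f : F}
    (hf : IsIntegral R[X] f) : f ∈ V₁ := by
  obtain ⟨p, hp, hpf⟩ := hf
  refine mem_of_monic_root V₁ (p := p.map (algebraMap R[X] F)) (hp.map _)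
    (fun i => by rw [coeff_map]; exact h.poly₁ _) ?_
  rw [eval_map]
  exact hpf

/-- a polynomial prime to `ϖ` is a unit of `V₁` -/
theorem gaussPairLe_valuation_eq_one (h : GaussPairLe (K := K) ϖ V₁ V₂ b c) {T : R[X]}
    (hT : ¬ C ϖ ∣ T) : V₁.valuation (algebraMap R[X] F T) = 1 := by
  have h1 := (ValuationSubring.valuation_le_one_iff V₁ _).mpr (h.poly₁ T)
  have h2 := (ValuationSubring.valuation_le_one_iff V₁ _).mpr (h.gauss₁ T hT)
  rw [map_inv₀] at h2
  have hT0 : algebraMap R[X] F T ≠ 0 := by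
    intro h0
    have hinj : Function.Injective (algebraMap R[X] F) := by
      rw [IsScalarTower.algebraMap_eq R[X] K F]
      exact (algebraMap K F).injective.comp (IsFractionRing.injective R[X] K)
    have hT' : T = 0 := hinj (by rw [h0, _root_.map_zero])
    apply hT
    rw [hT']
    exact dvd_zero _
  have hv0 : V₁.valuation (algebraMap R[X] F T) ≠ 0 := (Valuation.ne_zero_iff _).mpr hT0
  exact le_antisymm h1 ((inv_le_one₀ (zero_lt_iff.mpr hv0)).mp h2)

/-- **clearing denominators**: an element of `V₁ ∩ V₂` becomes integral over `R[X]` after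
multiplication by a polynomial prime to `ϖ`. -/
theorem gaussPairLe_exists_scale [FiniteDimensional K F]
    (h : GaussPairLe (K := K) ϖ V₁ V₂ b c) {u : F} (hu₁ : u ∈ V₁) (hu₂ : u ∈ V₂) :
    ∃ T : R[X], ¬ C ϖ ∣ T ∧ IsIntegral R[X] (algebraMap R[X] F T * u) := by
  classical
  obtain ⟨p, hp, hpc, hpu⟩ := h.exists_monic_of_mem hu₁ hu₂
  have hex : ∀ i, ∃ P Q : R[X], ¬ C ϖ ∣ Q ∧
      p.coeff i = algebraMap R[X] K P / algebraMap R[X] K Q :=
    fun i => exists_div_of_mem_gaussRing h.prime h.unif₁ h.poly₁ h.gauss₁ (hpc i)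
  choose P Q hQ hPQ using hex
  set n := p.natDegree with hn
  set T : R[X] := ∏ i ∈ Finset.range n, Q i with hTdef
  have hT : ¬ C ϖ ∣ T := by
    intro hdvd
    obtain ⟨i, -, hi⟩ := (Prime.dvd_finsetProd_iff (prime_C h.prime) _).mp hdvd
    exact hQ i hi
  refine ⟨T, hT, ?_⟩
  set tK := algebraMap R[X] K T with htK
  have hroot : aeval (algebraMap K F tK * u) (p.scaleRoots tK) = 0 :=
    scaleRoots_aeval_eq_zero hpu
  have hmonic : (p.scaleRoots tK).Monic := (monic_scaleRoots_iff _).mpr hp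
  have hcoef : ∀ i, (p.scaleRoots tK).coeff i ∈ Set.range (algebraMap R[X] K) := by
    intro i
    rw [coeff_scaleRoots, ← hn]
    rcases lt_trichotomy i n with hi | hi | hi
    · have hQi0 : algebraMap R[X] K (Q i) ≠ 0 := by
        intro h0
        have : Q i = 0 := (IsFractionRing.injective R[X] K) (by rw [h0, _root_.map_zero])
        apply hQ i
        rw [this]
        exact dvd_zero _
      refine ⟨P i * (∏ j ∈ (Finset.range n).erase i, Q j) * T ^ (n - i - 1), ?_⟩
      have hTe : T = Q i * ∏ j ∈ (Finset.range n).erase i, Q j :=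
        (Finset.mul_prod_erase _ _ (Finset.mem_range.mpr hi)).symm
      have hpow : n - i = (n - i - 1) + 1 := by omega
      rw [hPQ i]
      conv_rhs => rw [hpow, pow_succ]
      have htK' : tK = algebraMap R[X] K (Q i) *
          algebraMap R[X] K (∏ j ∈ (Finset.range n).erase i, Q j) := by
        rw [htK, ← _root_.map_mul, ← hTe]
      rw [_root_.map_mul, _root_.map_mul, _root_.map_pow, ← htK]
      conv_rhs => rw [mul_comm (tK ^ (n - i - 1)) tK, ← mul_assoc]
      congr 1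
      rw [htK']
      field_simp
    · subst hi
      rw [hn, hp.coeff_natDegree, Nat.sub_self, pow_zero, mul_one]
      exact ⟨1, _root_.map_one _⟩
    · rw [coeff_eq_zero_of_natDegree_lt (by rw [← hn]; exact hi), zero_mul]
      exact ⟨0, _root_.map_zero _⟩
  obtain ⟨q, hq, -, hqm⟩ :=
    lifts_and_natDegree_eq_and_monic ((lifts_iff_coeff_lifts _).2 hcoef) hmonic
  refine ⟨q, hqm, ?_⟩
  have e : eval₂ (algebraMap R[X] F) (algebraMap R[X] F T * u) q =
      aeval (algebraMap R[X] F T * u) (q.map (algebraMap R[X] K)) := by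
    rw [aeval_def, eval₂_map, ← IsScalarTower.algebraMap_eq]
  rw [e, hq, ← map_eq (K := K)]
  exact hroot

/-- some element of the chart lies in `𝔪_{V₁}` and is a unit of `V₂` -/
theorem gaussPairLe_exists_mem_not_mem [FiniteDimensional K F]
    (h : GaussPairLe (K := K) ϖ V₁ V₂ b c) :
    ∃ g : F, IsIntegral R[X] g ∧ g ∈ V₁.nonunits ∧ g ∉ V₂.nonunits := by
  obtain ⟨c₀, hc0, hc1, hc2⟩ := exists_separating h.unif₁ h.unif₂ h.ne
  have hu1 : V₁.valuation (1 + c₀) = 1 := Valuation.map_one_add_of_lt _ hc1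
  have h1c : 1 + c₀ ≠ 0 := by
    intro h0
    rw [h0, _root_.map_zero] at hu1
    exact zero_ne_one hu1
  have hv1 : V₁.valuation (c₀ * (1 + c₀)⁻¹) < 1 := by
    rw [_root_.map_mul, map_inv₀, hu1, inv_one, mul_one]
    exact hc1
  have hu_eq : c₀ * (1 + c₀)⁻¹ = (1 + c₀⁻¹)⁻¹ := by
    have h2 : 1 + c₀⁻¹ = (1 + c₀) * c₀⁻¹ := by
      rw [add_mul, one_mul, mul_inv_cancel₀ hc0, add_comm]
    rw [h2, mul_inv, inv_inv, mul_comm]
  have hv2' : V₂.valuation (1 + c₀⁻¹) = 1 := Valuation.map_one_add_of_lt _ hc2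
  have hv2 : V₂.valuation (c₀ * (1 + c₀)⁻¹) = 1 := by
    rw [hu_eq, map_inv₀, hv2', inv_one]
  have hu₁ : c₀ * (1 + c₀)⁻¹ ∈ V₁ := (ValuationSubring.valuation_le_one_iff V₁ _).mp hv1.le
  have hu₂ : c₀ * (1 + c₀)⁻¹ ∈ V₂ := (ValuationSubring.valuation_le_one_iff V₂ _).mp hv2.le
  obtain ⟨T, hT, hint⟩ := gaussPairLe_exists_scale h hu₁ hu₂
  refine ⟨algebraMap R[X] F T * (c₀ * (1 + c₀)⁻¹), hint, ?_, ?_⟩
  · exact mem_mul_nonunits (h.poly₁ T) ((ValuationSubring.mem_nonunits_iff V₁).mpr hv1)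
  · intro hmem
    rw [ValuationSubring.mem_nonunits_iff, _root_.map_mul, hv2, mul_one,
      gaussPairLe_valuation_eq_one (gaussPairLe_symm h) hT] at hmem
    exact lt_irrefl _ hmem

variable [Algebra R F] [IsScalarTower R R[X] F]

/-- **`SSChart.inf_eq`**: `(B ∩ 𝔪_{V₁}) ⊓ (B ∩ 𝔪_{V₂}) = ϖ B`. -/
theorem gaussPairLe_compIdeal_inf [FiniteDimensional K F]
    (h : GaussPairLe (K := K) ϖ V₁ V₂ b c) (B : Subalgebra R F)
    (hB : ∀ f : F, f ∈ B ↔ IsIntegral R[X] f)
    (hBV₁ : ∀ b : B, (b : F) ∈ V₁) (hBV₂ : ∀ b : B, (b : F) ∈ V₂) :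
    compIdeal B V₁ hBV₁ ⊓ compIdeal B V₂ hBV₂ = Ideal.span {algebraMap R B ϖ} := by
  have hϖF : ((algebraMap R B ϖ : B) : F) = algebraMap R[X] F (C ϖ) :=
    algebraMap_const_eq ϖ
  have hϖ0 : algebraMap R[X] F (C ϖ) ≠ 0 := h.unif₁.ne_zero
  apply le_antisymm
  · intro y hy
    obtain ⟨hy₁, hy₂⟩ := hy
    rw [SetLike.mem_coe, mem_compIdeal, ValuationSubring.mem_nonunits_iff,
      ← h.unif₁.mul_inv_mem_iff] at hy₁
    rw [SetLike.mem_coe, mem_compIdeal, ValuationSubring.mem_nonunits_iff,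
      ← h.unif₂.mul_inv_mem_iff] at hy₂
    have hint := h.qep2 ((hB _).mp y.2) hy₁ hy₂
    rw [Ideal.mem_span_singleton']
    refine ⟨⟨_, (hB _).mpr hint⟩, Subtype.ext ?_⟩
    rw [Subalgebra.coe_mul, hϖF]
    show (y : F) * (algebraMap R[X] F (C ϖ))⁻¹ * algebraMap R[X] F (C ϖ) = y
    rw [mul_assoc, inv_mul_cancel₀ hϖ0, mul_one]
  · rw [Ideal.span_le, Set.singleton_subset_iff]
    constructor
    · rw [SetLike.mem_coe, mem_compIdeal, hϖF, ValuationSubring.mem_nonunits_iff]
      exact h.unif₁.val_lt_one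
    · rw [SetLike.mem_coe, mem_compIdeal, hϖF, ValuationSubring.mem_nonunits_iff]
      exact h.unif₂.val_lt_one

/-- **MODASM S1-abs.**  The fields `p₁ p₂ prime₁ prime₂ ne not_le₁₂ not_le₂₁ inf_eq` of
`SSChart ϖ B` for the chart `B` = integral closure of `R[x]`, `x = algebraMap R[X] F X`, with the
components characterised by the two valuations. -/
theorem gaussPairLe_exists_components [FiniteDimensional K F]
    (h : GaussPairLe (K := K) ϖ V₁ V₂ b c) (B : Subalgebra R F)
    (hB : ∀ f : F, f ∈ B ↔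
      IsIntegral (Algebra.adjoin R ({algebraMap R[X] F X} : Set F)) f) :
    ∃ p₁ p₂ : Ideal B,
      (∀ y : B, y ∈ p₁ ↔ (y : F) ∈ V₁.nonunits) ∧ (∀ y : B, y ∈ p₂ ↔ (y : F) ∈ V₂.nonunits) ∧
      p₁.IsPrime ∧ p₂.IsPrime ∧ p₁ ≠ p₂ ∧ ¬ p₁ ≤ p₂ ∧ ¬ p₂ ≤ p₁ ∧
      p₁ ⊓ p₂ = Ideal.span {algebraMap R B ϖ} := by
  have hB' : ∀ f : F, f ∈ B ↔ IsIntegral R[X] f := fun f =>
    (hB f).trans (isIntegral_adjoin_iff f)
  have hBV₁ : ∀ y : B, (y : F) ∈ V₁ := fun y =>
    gaussPairLe_mem_of_isIntegral h ((hB' _).mp y.2)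
  have hBV₂ : ∀ y : B, (y : F) ∈ V₂ := fun y =>
    gaussPairLe_mem_of_isIntegral (gaussPairLe_symm h) ((hB' _).mp y.2)
  have h12 : ¬ compIdeal B V₁ hBV₁ ≤ compIdeal B V₂ hBV₂ := by
    intro hle
    obtain ⟨g, hg, hg₁, hg₂⟩ := gaussPairLe_exists_mem_not_mem h
    exact hg₂ (hle (show (⟨g, (hB' g).mpr hg⟩ : B) ∈ compIdeal B V₁ hBV₁ from hg₁))
  have h21 : ¬ compIdeal B V₂ hBV₂ ≤ compIdeal B V₁ hBV₁ := by
    intro hle
    obtain ⟨g, hg, hg₁, hg₂⟩ := gaussPairLe_exists_mem_not_mem (gaussPairLe_symm h)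
    exact hg₂ (hle (show (⟨g, (hB' g).mpr hg⟩ : B) ∈ compIdeal B V₂ hBV₂ from hg₁))
  refine ⟨compIdeal B V₁ hBV₁, compIdeal B V₂ hBV₂, fun _ => Iff.rfl, fun _ => Iff.rfl,
    compIdeal_isPrime B V₁ hBV₁, compIdeal_isPrime B V₂ hBV₂, ?_, h12, h21,
    gaussPairLe_compIdeal_inf h B hB' hBV₁ hBV₂⟩
  intro heq
  exact h12 (le_of_eq heq)

end Main

end Fermat.Agent.A2.H489

end
-- ===== PACK-END A2/H489/ChartA.lean

-- ===== PACK-BEGIN A2/Mod/H96/L12Lift.lean
section



/-!
# A2 / MOD leaf L12 (helper96), part 1: two closure lemmas on `F_k = k(j(t^d) : d ∣ N)`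

`A` a valuation subring of a field `L ⊇ ℚ`, `κ` its residue field.

* `exists_lift_of_mem_fullC` : every element of `F_κ ⊆ κ((t))` is a quotient `Ū₁ / Ū₂` of
  reductions of `A`-integral series lying in `F_L = L(j(t^d) : d ∣ N)`, `Ū₂ ≠ 0`
  (the residue map of the Gauss valuation ring is onto `F_κ`);
* `exists_frob_root_of_mem_fullC` : if `k` has characteristic `q` and surjective Frobenius, then
  every `r ∈ F_k` has a "Frobenius twist" `r' ∈ F_k` with `r' ^ q = r(t^q)`.
-/

set_option autoImplicit false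
set_option linter.unusedSectionVars false
set_option linter.style.haveILetI false

noncomputable section

namespace Fermat.Agent.A2.Mod.H96

open ModularCurve HahnSeries

section Lift

variable {L : Type*} [Field L] [Algebra ℚ L] (A : ValuationSubring L)
variable (N : ℕ) [NeZero N]

theorem incl_castA_jqNModC_mem (d : ℕ) [NeZero d] (hd : d ∣ N) :
    H708.incl A (coeffMap (Int.castRingHom A) (jqNModC ℤ d)) ∈
      laurentBaseChange L (modularFunctionFieldFull N) := by
  rw [H708.incl_castA]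
  have h1 : H708.castQ (jqNModC ℤ d) = qExpand ℚ d jq := by
    show coeffMap (Int.castRingHom ℚ) (jqNModC ℤ d) = _
    rw [coeffMap_jqNModC]
    rfl
  rw [h1]
  exact coeffEmb_mem_laurentBaseChange L (jqd_mem_full N hd)

theorem red_castA_jqNModC (d : ℕ) [NeZero d] :
    H708.red A (coeffMap (Int.castRingHom A) (jqNModC ℤ d)) =
      qExpand (IsLocalRing.ResidueField A) d (jqModC (IsLocalRing.ResidueField A)) := by
  show coeffMap (IsLocalRing.residue A) (coeffMap (Int.castRingHom A) (jqNModC ℤ d)) = _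
  rw [coeffMap_coeffMap, coeffMap_jqNModC]
  rfl

/-- **Lifting.** Every element of `F_κ` is a quotient of reductions of integral series of `F_L`. -/
theorem exists_lift_of_mem_fullC {r : LaurentSeries (IsLocalRing.ResidueField A)}
    (hr : r ∈ modularFunctionFieldFullC (IsLocalRing.ResidueField A) N) :
    ∃ U₁ U₂ : LaurentSeries A,
      H708.incl A U₁ ∈ laurentBaseChange L (modularFunctionFieldFull N) ∧
      H708.incl A U₂ ∈ laurentBaseChange L (modularFunctionFieldFull N) ∧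
      H708.red A U₂ ≠ 0 ∧ H708.red A U₁ = r * H708.red A U₂ := by
  unfold modularFunctionFieldFullC at hr
  induction hr using IntermediateField.adjoin_induction with
  | mem x hx =>
    obtain ⟨d, hd, hdN, rfl⟩ := hx
    refine ⟨coeffMap (Int.castRingHom A) (jqNModC ℤ d), 1, incl_castA_jqNModC_mem A N d hdN, ?_,
      ?_, ?_⟩
    · rw [_root_.map_one]; exact one_mem _
    · rw [_root_.map_one]; exact one_ne_zero
    · rw [_root_.map_one, mul_one, red_castA_jqNModC]
  | algebraMap c =>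
    obtain ⟨a, rfl⟩ := IsLocalRing.residue_surjective c
    refine ⟨H708.cstA A a, 1, ?_, ?_, ?_, ?_⟩
    · rw [H708.incl_cstA]
      exact (laurentBaseChange L (modularFunctionFieldFull N)).algebraMap_mem _
    · rw [_root_.map_one]; exact one_mem _
    · rw [_root_.map_one]; exact one_ne_zero
    · rw [_root_.map_one, mul_one, H708.red_cstA, algebraMap_laurentSeries_eq_single]
  | add x y hx hy ihx ihy =>
    obtain ⟨U₁, U₂, h1, h2, h0, he⟩ := ihx
    obtain ⟨W₁, W₂, g1, g2, g0, ge⟩ := ihy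
    refine ⟨U₁ * W₂ + W₁ * U₂, U₂ * W₂, ?_, ?_, ?_, ?_⟩
    · rw [_root_.map_add, _root_.map_mul, _root_.map_mul]
      exact add_mem (mul_mem h1 g2) (mul_mem g1 h2)
    · rw [_root_.map_mul]; exact mul_mem h2 g2
    · rw [_root_.map_mul]; exact mul_ne_zero h0 g0
    · rw [_root_.map_add, _root_.map_mul, _root_.map_mul, _root_.map_mul, he, ge]
      ring
  | inv x hx ihx =>
    obtain ⟨U₁, U₂, h1, h2, h0, he⟩ := ihx
    by_cases hx0 : x = 0
    · refine ⟨0, 1, ?_, ?_, ?_, ?_⟩
      · rw [_root_.map_zero]; exact zero_mem _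
      · rw [_root_.map_one]; exact one_mem _
      · rw [_root_.map_one]; exact one_ne_zero
      · rw [hx0, inv_zero, zero_mul, _root_.map_zero]
    · refine ⟨U₂, U₁, h2, h1, ?_, ?_⟩
      · rw [he]; exact mul_ne_zero hx0 h0
      · rw [he, ← mul_assoc, inv_mul_cancel₀ hx0, one_mul]
  | mul x y hx hy ihx ihy =>
    obtain ⟨U₁, U₂, h1, h2, h0, he⟩ := ihx
    obtain ⟨W₁, W₂, g1, g2, g0, ge⟩ := ihy
    refine ⟨U₁ * W₁, U₂ * W₂, ?_, ?_, ?_, ?_⟩
    · rw [_root_.map_mul]; exact mul_mem h1 g1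
    · rw [_root_.map_mul]; exact mul_mem h2 g2
    · rw [_root_.map_mul]; exact mul_ne_zero h0 g0
    · rw [_root_.map_mul, _root_.map_mul, he, ge]
      ring

end Lift

section Frob

variable (k : Type*) [Field k] (q : ℕ) [NeZero q] (N : ℕ) [NeZero N]

/-- `j(t^d)^q = j(t^{dq})` in characteristic `q` (integer coefficients). -/
theorem jqd_pow_char (hq : q.Prime) [CharP k q] (d : ℕ) [NeZero d] :
    (qExpand k d (jqModC k)) ^ q = qExpand k q (qExpand k d (jqModC k)) := by
  haveI : Fact q.Prime := ⟨hq⟩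
  obtain ⟨g, hg⟩ := H528.exists_frobCong q (jqNModC ℤ d)
  have h := congrArg (coeffMap (Int.castRingHom k)) hg
  rw [_root_.map_sub, _root_.map_mul, map_pow, coeffMap_qExpand, coeffMap_jqNModC] at h
  have hC : coeffMap (Int.castRingHom k) (HahnSeries.C ((q : ℕ) : ℤ)) = 0 := by
    have h1 : (HahnSeries.C ((q : ℕ) : ℤ) : LaurentSeries ℤ) = HahnSeries.single 0 ((q : ℕ) : ℤ) :=
      rfl
    rw [h1, coeffMap_single]
    have h2 : (Int.castRingHom k) ((q : ℕ) : ℤ) = 0 := by
      rw [eq_intCast, Int.cast_natCast]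
      exact CharP.cast_eq_zero k q
    rw [h2, HahnSeries.single_eq_zero]
  rw [hC, zero_mul, sub_eq_zero] at h
  exact h.symm

/-- **Frobenius twist on `F_k`.** -/
theorem exists_frob_root_of_mem_fullC (hq : q.Prime) [CharP k q]
    (hperf : ∀ c : k, ∃ c' : k, c' ^ q = c) {r : LaurentSeries k}
    (hr : r ∈ modularFunctionFieldFullC k N) :
    ∃ r' ∈ modularFunctionFieldFullC k N, r' ^ q = qExpand k q r := by
  haveI : Fact q.Prime := ⟨hq⟩
  haveI : CharP (LaurentSeries k) q :=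
    charP_of_injective_algebraMap (algebraMap k (LaurentSeries k)).injective q
  have key : ∀ x ∈ IntermediateField.adjoin k (divisorExpansionsC k N),
      ∃ r' ∈ modularFunctionFieldFullC k N, r' ^ q = qExpand k q x := by
    intro x hx
    induction hx using IntermediateField.adjoin_induction with
    | mem x hx =>
      obtain ⟨d, hd, hdN, rfl⟩ := hx
      exact ⟨_, jqModCd_mem_full k N hdN, jqd_pow_char k q hq d⟩
    | algebraMap c =>
      obtain ⟨c', rfl⟩ := hperf c
      refine ⟨algebraMap k (LaurentSeries k) c',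
        (modularFunctionFieldFullC k N).algebraMap_mem _, ?_⟩
      rw [← map_pow, algebraMap_laurentSeries_eq_single, qExpand_single, mul_zero]
    | add x y hx hy ihx ihy =>
      obtain ⟨x', hx', hxe⟩ := ihx
      obtain ⟨y', hy', hye⟩ := ihy
      refine ⟨x' + y', add_mem hx' hy', ?_⟩
      rw [add_pow_char, hxe, hye, _root_.map_add]
    | inv x hx ihx =>
      obtain ⟨x', hx', hxe⟩ := ihx
      refine ⟨x'⁻¹, inv_mem hx', ?_⟩
      rw [inv_pow, hxe, map_inv₀]
    | mul x y hx hy ihx ihy =>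
      obtain ⟨x', hx', hxe⟩ := ihx
      obtain ⟨y', hy', hye⟩ := ihy
      refine ⟨x' * y', mul_mem hx' hy', ?_⟩
      rw [mul_pow, hxe, hye, _root_.map_mul]
  exact key r hr

end Frob

end Fermat.Agent.A2.Mod.H96

end
end
-- ===== PACK-END A2/Mod/H96/L12Lift.lean

-- ===== PACK-BEGIN A2/Mod/H732/SepCoord.lean
section




/-!
# A2 / MOD, piece S4 (SepCoord producer), part 4 (helper732): `Spec.SepCoord` VERBATIM

Context of `AlgSSStatement` (`R` a DVR with uniformiser `w`, `E = Frac R`, `F / E(x)` finite,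
`x` transcendental, `B` = integral closure of `R[x]` in `F`).  Hypotheses = the elementwise
`H48.GaussPairLe` data for the coordinate `x` (two valuation rings `V₁ ≠ V₂` of `F` with
uniformiser `w`, containing `R[x]`, Gauss property, residue-independent families `b`, `c` with
`[F : E(x)] ≤ f₁ + f₂`) + separability of both residue extensions (liftable elementwise form).
Conclusion: `SepCoord R E x B`.

* `polyToAdjoin`, `isFractionRing_adjoin` : `E(x) = IntermediateField.adjoin E {x}` is the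
  fraction field of `R[X]` (`X ↦ x`);
* `sepCoord_of_gauss` : the theorem.
-/

set_option autoImplicit false
set_option linter.style.haveILetI false
set_option linter.unusedSectionVars false

noncomputable section

namespace Fermat.Agent.A2.Mod.H732

open Polynomial Fermat.Agent.A2.H48

section Frac

variable {R E F : Type*} [CommRing R] [IsDomain R]
  [Field E] [Algebra R E] [IsFractionRing R E]
  [Field F] [Algebra E F] [Algebra R F] [IsScalarTower R E F]

theorem aeval_mem_adjoin_simple (x : F) (P : R[X]) :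
    aeval x P ∈ IntermediateField.adjoin E ({x} : Set F) := by
  have h1 : aeval x P = aeval x (P.map (algebraMap R E)) := (aeval_map_algebraMap E x P).symm
  rw [h1, IntermediateField.mem_adjoin_simple_iff]
  exact ⟨P.map (algebraMap R E), 1, by simp⟩

/-- `R[X] → E(x)`, `X ↦ x`. -/
def polyToAdjoin (x : F) : R[X] →+* IntermediateField.adjoin E ({x} : Set F) where
  toFun P := ⟨aeval x P, aeval_mem_adjoin_simple x P⟩
  map_one' := Subtype.ext (_root_.map_one _)
  map_mul' P Q := Subtype.ext (_root_.map_mul _ P Q)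
  map_zero' := Subtype.ext (_root_.map_zero _)
  map_add' P Q := Subtype.ext (_root_.map_add _ P Q)

theorem coe_polyToAdjoin (x : F) (P : R[X]) :
    ((polyToAdjoin (E := E) x P : IntermediateField.adjoin E ({x} : Set F)) : F) = aeval x P :=
  rfl

theorem transcendental_of_tower {x : F} (hx : Transcendental E x) : Transcendental R x := by
  intro halg
  obtain ⟨P, hP0, hP⟩ := halg
  apply hx
  refine ⟨P.map (algebraMap R E), ?_, ?_⟩
  · rwa [Ne, Polynomial.map_eq_zero_iff (IsFractionRing.injective R E)]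
  · rw [aeval_map_algebraMap]; exact hP

theorem polyToAdjoin_injective {x : F} (hx : Transcendental E x) :
    Function.Injective (polyToAdjoin (R := R) (E := E) x) := by
  rw [injective_iff_map_eq_zero]
  intro P hP
  have h : aeval x P = 0 := congrArg Subtype.val hP
  exact transcendental_iff.1 (transcendental_of_tower hx) P h

/-- `E(x)` is the fraction field of `R[X]`. -/
theorem isFractionRing_adjoin {x : F} (hx : Transcendental E x) :
    letI : Algebra R[X] (IntermediateField.adjoin E ({x} : Set F)) :=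
      (polyToAdjoin (E := E) x).toAlgebra
    IsFractionRing R[X] (IntermediateField.adjoin E ({x} : Set F)) := by
  letI : Algebra R[X] (IntermediateField.adjoin E ({x} : Set F)) :=
    (polyToAdjoin (E := E) x).toAlgebra
  haveI : FaithfulSMul R[X] (IntermediateField.adjoin E ({x} : Set F)) :=
    (faithfulSMul_iff_algebraMap_injective _ _).2 (polyToAdjoin_injective hx)
  apply IsFractionRing.of_field
  intro z
  obtain ⟨r, s, hz⟩ := (IntermediateField.mem_adjoin_simple_iff E (z : F)).1 z.2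
  obtain ⟨br, hbrM, hbr⟩ := IsLocalization.integerNormalization_spec (nonZeroDivisors R) r
  obtain ⟨bs, hbsM, hbs⟩ := IsLocalization.integerNormalization_spec (nonZeroDivisors R) s
  set r' := IsLocalization.integerNormalization (nonZeroDivisors R) r with hr'
  set s' := IsLocalization.integerNormalization (nonZeroDivisors R) s with hs'
  have hb0 : ∀ b ∈ nonZeroDivisors R, algebraMap R F b ≠ 0 := by
    intro b hb
    rw [IsScalarTower.algebraMap_apply R E F]
    exact (_root_.map_ne_zero _).2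
      ((_root_.map_ne_zero_iff _ (IsFractionRing.injective R E)).2 (nonZeroDivisors.ne_zero hb))
  have hbr0 := hb0 br hbrM
  have hbs0 := hb0 bs hbsM
  have hsm : ∀ (b : R) (t : E[X]), aeval x (b • t) = algebraMap R F b * aeval x t := by
    intro b t
    have e1 : b • t = C (algebraMap R E b) * t := by
      rw [← smul_eq_C_mul, algebraMap_smul]
    rw [e1, _root_.map_mul, aeval_C, ← IsScalarTower.algebraMap_apply]
  have hr1 : aeval x r' = algebraMap R F br * aeval x r := by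
    rw [← aeval_map_algebraMap E x r', hbr, hsm]
  have hs1 : aeval x s' = algebraMap R F bs * aeval x s := by
    rw [← aeval_map_algebraMap E x s', hbs, hsm]
  refine ⟨C bs * r', C br * s', Subtype.ext ?_⟩
  show (z : F) = _
  rw [IntermediateField.coe_div]
  show (z : F) = aeval x (C bs * r') / aeval x (C br * s')
  rw [_root_.map_mul, _root_.map_mul, aeval_C, aeval_C, hr1, hs1, hz]
  by_cases hs0 : aeval x s = 0
  · rw [hs0]; simp
  · field_simp

end Frac

section Main

variable {R E F : Type*} [CommRing R] [IsDomain R] [IsDiscreteValuationRing R]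
  [Field E] [Algebra R E] [IsFractionRing R E]
  [Field F] [Algebra E F] [Algebra R F] [IsScalarTower R E F]

/-- `C w ∣ d` iff `d` vanishes modulo the maximal ideal. -/
theorem C_dvd_of_map_residue_eq_zero {w : R} (hw : Irreducible w) {d : R[X]}
    (hd : d.map (IsLocalRing.residue R) = 0) : C w ∣ d := by
  rw [Polynomial.C_dvd_iff_dvd_coeff]
  intro i
  have h1 : IsLocalRing.residue R (d.coeff i) = 0 := by
    have := congrArg (fun q => q.coeff i) hd
    simpa using this
  have h2 : d.coeff i ∈ IsLocalRing.maximalIdeal R := (IsLocalRing.residue_eq_zero_iff _).1 h1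
  rw [hw.maximalIdeal_eq, Ideal.mem_span_singleton] at h2
  exact h2

/-- **`SepCoord` from the two Gauss valuations with separable residue fields.** -/
theorem sepCoord_of_gauss
    (w : R) (hw : Irreducible w) (x : F) (hx : Transcendental E x)
    (hfin : FiniteDimensional (IntermediateField.adjoin E ({x} : Set F)) F)
    (B : Subalgebra R F)
    (hB : ∀ f : F, IsIntegral (Algebra.adjoin R ({x} : Set F)) f → f ∈ B)
    (V₁ V₂ : ValuationSubring F) (hne : V₁ ≠ V₂)
    (hu₁ : IsUnif V₁ (algebraMap R F w)) (hu₂ : IsUnif V₂ (algebraMap R F w))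
    (hp₁ : ∀ P : R[X], aeval x P ∈ V₁) (hp₂ : ∀ P : R[X], aeval x P ∈ V₂)
    (hg₁ : ∀ P : R[X], ¬ C w ∣ P → (aeval x P)⁻¹ ∈ V₁)
    (hg₂ : ∀ P : R[X], ¬ C w ∣ P → (aeval x P)⁻¹ ∈ V₂)
    {f₁ f₂ : ℕ} (b : Fin f₁ → F) (c : Fin f₂ → F)
    (hb : ∀ i, b i ∈ V₁) (hc : ∀ j, c j ∈ V₂)
    (hbi : ∀ a : Fin f₁ → R[X],
      (∑ i, aeval x (a i) * b i) * (algebraMap R F w)⁻¹ ∈ V₁ → ∀ i, C w ∣ a i)
    (hci : ∀ a : Fin f₂ → R[X],
      (∑ j, aeval x (a j) * c j) * (algebraMap R F w)⁻¹ ∈ V₂ → ∀ j, C w ∣ a j)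
    (hdeg : Module.finrank (IntermediateField.adjoin E ({x} : Set F)) F ≤ f₁ + f₂)
    (hs₁ : ∀ f : F, f ∈ V₁ → f ∈ V₂ → ∃ Q : R[X][X],
        V₁.valuation (Q.eval₂ ((aeval x : R[X] →ₐ[R] F) : R[X] →+* F) f) < 1 ∧
        V₁.valuation ((derivative Q).eval₂ ((aeval x : R[X] →ₐ[R] F) : R[X] →+* F) f) = 1)
    (hs₂ : ∀ f : F, f ∈ V₁ → f ∈ V₂ → ∃ Q : R[X][X],
        V₂.valuation (Q.eval₂ ((aeval x : R[X] →ₐ[R] F) : R[X] →+* F) f) < 1 ∧
        V₂.valuation ((derivative Q).eval₂ ((aeval x : R[X] →ₐ[R] F) : R[X] →+* F) f) = 1) :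
    SepCoord R E x B := by
  classical
  letI algF : Algebra R[X] F := ((aeval x : R[X] →ₐ[R] F) : R[X] →+* F).toAlgebra
  letI algK : Algebra R[X] (IntermediateField.adjoin E ({x} : Set F)) :=
    (polyToAdjoin (E := E) x).toAlgebra
  haveI : IsScalarTower R[X] (IntermediateField.adjoin E ({x} : Set F)) F :=
    IsScalarTower.of_algebraMap_eq (fun P => rfl)
  haveI : IsFractionRing R[X] (IntermediateField.adjoin E ({x} : Set F)) :=
    isFractionRing_adjoin hx
  haveI := hfin
  have hmap : ∀ P : R[X], algebraMap R[X] F P = aeval x P := fun P => rfl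
  have hC : algebraMap R[X] F (C w) = algebraMap R F w := by rw [hmap, aeval_C]
  have G : GaussPairLe (K := IntermediateField.adjoin E ({x} : Set F)) w V₁ V₂ b c :=
    { prime := hw.prime
      unif₁ := by rw [hC]; exact hu₁
      unif₂ := by rw [hC]; exact hu₂
      poly₁ := hp₁
      poly₂ := hp₂
      gauss₁ := hg₁
      gauss₂ := hg₂
      ne := hne
      b_mem := hb
      c_mem := hc
      b_indep := fun a ha => hbi a (by rw [← hC]; exact ha)
      c_indep := fun a ha => hci a (by rw [← hC]; exact ha)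
      le := hdeg }
  obtain ⟨y, hyint, hyli, d, hd, hdd⟩ := exists_integral_basis_discr G.gaussPair hs₁ hs₂
  refine ⟨f₁ + f₂, y, fun i => hB _ ?_, hyli, G.card, d, fun h0 => hd ?_, ?_⟩
  · obtain ⟨q, hqm, hq⟩ := hyint i
    let θ : R[X] →+* Algebra.adjoin R ({x} : Set F) :=
      { toFun := fun P => ⟨aeval x P, aeval_mem_adjoin_singleton R x⟩
        map_one' := Subtype.ext (_root_.map_one _)
        map_mul' := fun P Q => Subtype.ext (_root_.map_mul _ P Q)
        map_zero' := Subtype.ext (_root_.map_zero _)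
        map_add' := fun P Q => Subtype.ext (_root_.map_add _ P Q) }
    refine ⟨q.map θ, hqm.map θ, ?_⟩
    rw [eval₂_map]
    exact hq
  · exact C_dvd_of_map_residue_eq_zero hw h0
  · rw [← hdd]
    rfl

end Main

end Fermat.Agent.A2.Mod.H732

end
end
-- ===== PACK-END A2/Mod/H732/SepCoord.lean

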