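import Mathlib
import Fermat.Prelude.Def_AlgebraicCurve_DivisorClassGroup
import Fermat.Prelude.Def_ModularCurve_ReductionModL
import Fermat.Agent.Pack.S33.E11L1
import Fermat.Agent.Pack.S33.E12L2
import Fermat.Agent.Pack.S33.E11L0
import Fermat.Agent.Pack.S33.E12L3
import Fermat.Agent.Pack.S33.E12L0
import Fermat.Agent.Pack.S33.E7L3
import Fermat.Agent.Pack.S33.E12L1
import Fermat.Agent.Pack.S33.E6L0
import Fermat.Agent.Pack.S33.E10L3
import Fermat.Agent.Pack.S33.E8L0
import Fermat.Agent.Pack.S33.E10L1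
import Fermat.Agent.Pack.S33.E2L2
import Fermat.Agent.Pack.S33.E6L2
import Fermat.Agent.Pack.S33.E11L2

-- ===== PACK-BEGIN S56/H716/SBSpec.lean
section


/-!
# Row S56 — SELBOUND, layer 2: FROZEN statements (deputy helper716)

`SELBOUND(cond)  ⇐  LOC(cond) + GW-WALL`,     `LOC(cond)  ⇐  LOC-MIN + LOC-P(cond)`
(glue: `H716/SBGlue.lean`, proved).

`M = ad⁰ρ̄`, `D_P` = decomposition group of the place `P`, `h⁰(D_P) = dim H⁰(D_P, M)`.

## Local leaves (elementary; one place at a time)

`LocalBoundAt ρbar P Ty d`: there is a `k`-space `Λ` of functions, `dim Λ ≤ h⁰(D_P) + d`, such that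
every ad⁰-cocycle `c` having a lift of local type `Ty` is, on `D_P`, cohomologous to an element of `Λ`.

* `LocMinStatement`   (LOC-MIN): `v ∈ Smin`, `v ≠ p`, type "unipotent on inertia at `v`": `d = 0`.
  (`ρ̄` is ramified at `v`, inertia image cyclic ⇒ class trivial on inertia ⇒ `H¹_ur`, `dim = h⁰`.)
* `LocOrdPStatement`  (LOC-SO): at `p`, type "strictly ordinary, det cyclotomic": `d = 1`.
  (quotient character rigid since `z² = 1`; classes come from `H¹(D_P, k(1))`, Kummer `dim = 2`.)
* `LocFlatPStatement` (LOC-FLAT): at `p`, type "flat, det cyclotomic": `d = 1`.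
  (ordinary case: connected–étale sequence; supersingular case: Fontaine's different bound.)

## The wall

* `GWWallStatement` (GW-WALL = Greenberg–Wiles/Poitou–Tate inequality, pure Galois cohomology of
  `M` and `M' = M(1)`; no deformation theory): for a suitable choice `Pl` of places over `Smin`,
  whenever spaces `Λ v` (`v ∈ Smin`) with `dim Λ v ≤ h⁰(D_{Pl v}) + δ v`, `∑ δ v ≤ 1` are given,
  there is a dual Selmer frame `D` such that for every set `Q` of Taylor–Wiles primes killing `D`
  the Selmer cocycles of `(Λ, Q)` span, modulo coboundaries, a space of dimension `≤ #Q`.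
  (Wiles' formula: `h¹_L(M) − h¹_{L^⊥}(M') = h⁰(M) − h⁰(M') + ∑_v (dim L_v − h⁰(D_v, M))`, with
  `h⁰(G_ℚ, M) = h⁰(G_ℚ, M') = 0`, the term `−1` at `∞` (`ρ̄` odd), `+1` at every `q ∈ Q`, `≤ δ v` at
  `v ∈ Smin`, `0` elsewhere; `D` = cocycle representatives of `H¹_{L^⊥}(G_ℚ, M')`.)

Nothing unproved in this file.  Plan: `coord/S56-TB.md` on `origin/main`.
-/

set_option autoImplicit false

open Polynomial IsLocalRing

noncomputable section

namespace Fermat.Agent.S56.H716

open Fermat.Agent.S56

section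

variable {k : Type} [Field k] (ρbar : ResidualGaloisRep k)

/-- The numerical hypotheses on the local spaces `Λ v`, `v ∈ Smin`:
`dim Λ v ≤ h⁰(D_{Pl v}, ad⁰ρ̄) + δ v` and `∑_{v ∈ Smin} δ v ≤ 1`. -/
def LocBounds (Pl : ℕ → ValuationSubring Qb)
    (Λ : ℕ → Submodule k (GQ → Module.End k ρbar.V)) (δ : ℕ → ℕ) (Smin : Finset ℕ) : Prop :=
  (∀ v ∈ Smin, Module.Finite k (Λ v) ∧
    Module.finrank k (Λ v) ≤
      Module.finrank k (adInv ρbar ((Pl v).decompositionSubgroup ℚ)) + δ v) ∧
  ∑ v ∈ Smin, δ v ≤ 1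

/-- Local tangent bound at the place `P` for the local lifting type `Ty`, with defect `d`. -/
def LocalBoundAt (P : ValuationSubring Qb) (Ty : GaloisRepAdic (DualNumber k) → Prop)
    (d : ℕ) : Prop :=
  ∃ Λ : Submodule k (GQ → Module.End k ρbar.V), Module.Finite k Λ ∧
    Module.finrank k Λ ≤ Module.finrank k (adInv ρbar (P.decompositionSubgroup ℚ)) + d ∧
    ∀ c : GQ → Module.End k ρbar.V, IsAdCocycle ρbar c →
      (∃ ρ' : GaloisRepAdic (DualNumber k), IsLiftOf ρbar c ρ' ∧ Ty ρ') →
      ∃ t ∈ Λ, IsAdCoboundaryOn ρbar (P.decompositionSubgroup ℚ) (c - t)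

end

section

variable (𝒪 : Type) [CommRing 𝒪] [IsDomain 𝒪] [IsDiscreteValuationRing 𝒪]
  [IsAdicComplete (maximalIdeal 𝒪) 𝒪]
  (p : ℕ) (ρbar : ResidualGaloisRep (ResidueField 𝒪)) (S Smin : Finset ℕ)

/-- (LOC) for a family of conditions indexed by the auxiliary set `Q`: for every choice of places
over `Smin` there are local spaces with the right dimensions which capture the tangent cocycles. -/
def Loc (cond : Finset ℕ → DefCond 𝒪) : Prop :=
  ∀ Pl : ℕ → ValuationSubring Qb, (∀ v ∈ Smin, (Pl v).LiesOverPrime v) →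
    ∃ (Λ : ℕ → Submodule (ResidueField 𝒪) (GQ → Module.End (ResidueField 𝒪) ρbar.V))
      (δ : ℕ → ℕ), LocBounds ρbar Pl Λ δ Smin ∧
      ∀ Q : Finset ℕ, (∀ q ∈ Q, IsTWPrime ρbar p S q) →
        ∀ c, IsTanCocycle 𝒪 ρbar (cond Q) c → IsSelCocycle ρbar Pl Λ Smin Q c

/-- (GW-WALL) for one residual representation. -/
def GWWall : Prop :=
  ∃ Pl : ℕ → ValuationSubring Qb, (∀ v ∈ Smin, (Pl v).LiesOverPrime v) ∧
    ∀ (Λ : ℕ → Submodule (ResidueField 𝒪) (GQ → Module.End (ResidueField 𝒪) ρbar.V))
      (δ : ℕ → ℕ), LocBounds ρbar Pl Λ δ Smin →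
      ∃ D : Submodule (ResidueField 𝒪) (GQ → Module.End (ResidueField 𝒪) ρbar.V),
        IsDualFrame ρbar p D ∧
        ∀ Q : Finset ℕ, (∀ q ∈ Q, IsTWPrime ρbar p S q) → Kills ρbar p D Q →
          ∃ T : Submodule (ResidueField 𝒪) (GQ → Module.End (ResidueField 𝒪) ρbar.V),
            Module.Finite (ResidueField 𝒪) T ∧
            Module.finrank (ResidueField 𝒪) T ≤ Q.card ∧
            ∀ c, IsSelCocycle ρbar Pl Λ Smin Q c → ∃ t ∈ T, IsAdCoboundary ρbar (c - t)

end

/-- (LOC-ord). -/
def LocOrdStatement : Prop :=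
  ∀ (𝒪 : Type) [CommRing 𝒪] [IsDomain 𝒪] [IsDiscreteValuationRing 𝒪]
    [IsAdicComplete (maximalIdeal 𝒪) 𝒪] [Finite (ResidueField 𝒪)]
    (p : ℕ) (ρbar : ResidualGaloisRep (ResidueField 𝒪)) (S Smin : Finset ℕ),
    Hyp 𝒪 p ρbar S Smin → Loc 𝒪 p ρbar S Smin (ordCond 𝒪 p Smin)

/-- (LOC-flat). -/
def LocFlatStatement : Prop :=
  ∀ (𝒪 : Type) [CommRing 𝒪] [IsDomain 𝒪] [IsDiscreteValuationRing 𝒪]
    [IsAdicComplete (maximalIdeal 𝒪) 𝒪] [Finite (ResidueField 𝒪)]
    (p : ℕ) (ρbar : ResidualGaloisRep (ResidueField 𝒪)) (S Smin : Finset ℕ),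
    Hyp 𝒪 p ρbar S Smin → Loc 𝒪 p ρbar S Smin (flatCond 𝒪 p Smin)

/-- (GW-WALL): the Greenberg–Wiles inequality for `ad⁰ρ̄`. -/
def GWWallStatement : Prop :=
  ∀ (𝒪 : Type) [CommRing 𝒪] [IsDomain 𝒪] [IsDiscreteValuationRing 𝒪]
    [IsAdicComplete (maximalIdeal 𝒪) 𝒪] [Finite (ResidueField 𝒪)]
    (p : ℕ) (ρbar : ResidualGaloisRep (ResidueField 𝒪)) (S Smin : Finset ℕ),
    Hyp 𝒪 p ρbar S Smin → GWWall 𝒪 p ρbar S Smin

/-- (LOC-MIN): at `v ∈ Smin`, `v ≠ p`, unipotent-on-inertia lifts have classes in a space of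
dimension `≤ h⁰(D_P, ad⁰ρ̄)`. -/
def LocMinStatement : Prop :=
  ∀ (𝒪 : Type) [CommRing 𝒪] [IsDomain 𝒪] [IsDiscreteValuationRing 𝒪]
    [IsAdicComplete (maximalIdeal 𝒪) 𝒪] [Finite (ResidueField 𝒪)]
    (p : ℕ) (ρbar : ResidualGaloisRep (ResidueField 𝒪)) (S Smin : Finset ℕ),
    Hyp 𝒪 p ρbar S Smin → ∀ v ∈ Smin, v ≠ p →
      ∀ P : ValuationSubring Qb, P.LiesOverPrime v →
        LocalBoundAt ρbar P (fun ρ' => ρ'.DetIsCyclotomic p ∧ ρ'.IsUnipotentOnInertiaAt v) 0

/-- (LOC-SO): at `p`, strictly ordinary lifts with cyclotomic determinant have classes in a space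
of dimension `≤ h⁰(D_P, ad⁰ρ̄) + 1`. -/
def LocOrdPStatement : Prop :=
  ∀ (𝒪 : Type) [CommRing 𝒪] [IsDomain 𝒪] [IsDiscreteValuationRing 𝒪]
    [IsAdicComplete (maximalIdeal 𝒪) 𝒪] [Finite (ResidueField 𝒪)]
    (p : ℕ) (ρbar : ResidualGaloisRep (ResidueField 𝒪)) (S Smin : Finset ℕ),
    Hyp 𝒪 p ρbar S Smin →
      ∀ P : ValuationSubring Qb, P.LiesOverPrime p →
        LocalBoundAt ρbar P (fun ρ' => ρ'.DetIsCyclotomic p ∧ ρ'.IsStrictOrdinaryAt p) 1

/-- (LOC-FLAT): at `p`, flat lifts with cyclotomic determinant have classes in a space of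
dimension `≤ h⁰(D_P, ad⁰ρ̄) + 1`. -/
def LocFlatPStatement : Prop :=
  ∀ (𝒪 : Type) [CommRing 𝒪] [IsDomain 𝒪] [IsDiscreteValuationRing 𝒪]
    [IsAdicComplete (maximalIdeal 𝒪) 𝒪] [Finite (ResidueField 𝒪)]
    (p : ℕ) (ρbar : ResidualGaloisRep (ResidueField 𝒪)) (S Smin : Finset ℕ),
    Hyp 𝒪 p ρbar S Smin →
      ∀ P : ValuationSubring Qb, P.LiesOverPrime p →
        LocalBoundAt ρbar P (fun ρ' => ρ'.DetIsCyclotomic p ∧ ρ'.IsFlatAt p) 1

end Fermat.Agent.S56.H716

end

end
-- ===== PACK-END S56/H716/SBSpec.lean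

-- ===== PACK-BEGIN Lib/Cheb/FrobeniusDivision.lean
section



/-!
# CHEB, Tier 1 END: the Frobenius division theorem over `ℚ̄`

`Fermat.Agent.Lib.Cheb.frobeniusDivision : Spec.FrobeniusDivisionStatement`

For every finite extension `E ⊆ ℚ̄` of `ℚ`, every `σ ∈ Gal(ℚ̄/ℚ)` and every finite set `S` of
numbers there are a prime `ℓ ∉ S`, a valuation subring `A` of `ℚ̄` over `ℓ`, a Frobenius `τ` at `A`
(Prelude's `IsFrobeniusAt`) and exponents `k`, `j` such that the inertia group of `A` acts
trivially on `E`, `τ = σ ^ k` on `E` and `τ ^ j = σ` on `E`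
(i.e. `τ|_E` and `σ|_E` generate the same cyclic subgroup: "Frobenius density, qualitative").

Assembled from
* `frobFinite` (finite level, Galois number fields; pieces Z, B0, A, D, M), and
* `H476.bridgeDivision` (bridge F6 from the finite level to valuation subrings of `ℚ̄`).
-/

set_option autoImplicit false

namespace Fermat.Agent.Lib.Cheb

/-- **Frobenius division theorem** (qualitative Frobenius density theorem over `ℚ̄`). -/
theorem frobeniusDivision : Spec.FrobeniusDivisionStatement :=
  H476.bridgeDivision frobFinite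

end Fermat.Agent.Lib.Cheb

end
-- ===== PACK-END Lib/Cheb/FrobeniusDivision.lean

-- ===== PACK-BEGIN S22/H262/FG.lean
section


set_option autoImplicit false

/-!
# The period lattice is finitely generated
-/

open Complex Filter Function Metric Set
open UpperHalfPlane hiding I
open scoped Real Topology Manifold ModularForm MatrixGroups

namespace Fermat.Agent.S22.H262

open Matrix.SpecialLinearGroup CuspForm

variable {N : ℕ} [NeZero N] {n : ℕ}

/-- An element of `SL₂(ℤ)` as an element of the submonoid `posInt`. -/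
noncomputable def sl (g : SL(2, ℤ)) : posInt := ⟨mapGL ℝ g, mapGL_mem_posInt g⟩

@[simp] theorem coe_sl (g : SL(2, ℤ)) : ((sl g : posInt) : GL (Fin 2) ℝ) = mapGL ℝ g := rfl

theorem sl_mul (g h : SL(2, ℤ)) : sl (g * h) = sl g * sl h :=
  Subtype.ext (by simp)

theorem sl_one : sl 1 = 1 := Subtype.ext (by simp)

/-- The functional `f ↦ (tower (f|B) r)(i)`. -/
noncomputable def mu (N : ℕ) [NeZero N] (n : ℕ) (B : posInt) (r : ℕ) :
    Module.Dual ℂ (CuspForm (CongruenceSubgroup.Gamma0 N) ((n : ℤ) + 2)) where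
  toFun f := tower (⇑f ∣[(n : ℤ) + 2] (B : GL (Fin 2) ℝ)) r UpperHalfPlane.I
  map_add' f g := by
    rw [FunLike.coe_add, SlashAction.add_slash,
      tower_add (hasTower_slash_posInt f B.2) (hasTower_slash_posInt g B.2)]
    rfl
  map_smul' c f := by
    rw [FunLike.coe_smul, smul_slash_pos _ B.2.2, tower_smul (hasTower_slash_posInt f B.2)]
    rfl

theorem mu_apply (B : posInt) (r : ℕ)
    (f : CuspForm (CongruenceSubgroup.Gamma0 N) ((n : ℤ) + 2)) :
    mu N n B r f = tower (⇑f ∣[(n : ℤ) + 2] (B : GL (Fin 2) ℝ)) r UpperHalfPlane.I := rfl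

theorem mu_sl_mul_of_mem {γ : SL(2, ℤ)} (hγ : γ ∈ CongruenceSubgroup.Gamma0 N) (g : SL(2, ℤ))
    (r : ℕ) : mu N n (sl (γ * g)) r = mu N n (sl g) r := by
  ext f
  rw [mu_apply, mu_apply, coe_sl, coe_sl, _root_.map_mul, SlashAction.slash_mul]
  have h2 : ⇑f ∣[(n : ℤ) + 2] (mapGL ℝ γ) = ⇑f :=
    SlashInvariantFormClass.slash_action_eq f _ ⟨γ, hγ, rfl⟩
  rw [h2]

theorem finite_range_mu (r : ℕ) :
    (Set.range fun g : SL(2, ℤ) => mu N n (sl g) r).Finite := by
  let Ψ : SL(2, ℤ) ⧸ CongruenceSubgroup.Gamma0 N →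
      Module.Dual ℂ (CuspForm (CongruenceSubgroup.Gamma0 N) ((n : ℤ) + 2)) :=
    fun q => Quotient.liftOn' q (fun g => mu N n (sl g⁻¹) r) (by
      intro a b hab
      rw [QuotientGroup.leftRel_apply] at hab
      have : a⁻¹ = (a⁻¹ * b) * b⁻¹ := by group
      show mu N n (sl a⁻¹) r = mu N n (sl b⁻¹) r
      rw [this, mu_sl_mul_of_mem hab])
  refine (Set.finite_range Ψ).subset ?_
  rintro _ ⟨g, rfl⟩
  refine ⟨QuotientGroup.mk g⁻¹, ?_⟩
  show mu N n (sl g⁻¹⁻¹) r = _
  rw [inv_inv]

/-- The finite generating set of the container lattice. -/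
def muSet (N : ℕ) [NeZero N] (n : ℕ) :
    Set (Module.Dual ℂ (CuspForm (CongruenceSubgroup.Gamma0 N) ((n : ℤ) + 2))) :=
  ⋃ r ∈ Finset.range (n + 2),
    ((Set.range fun g : SL(2, ℤ) => mu N n (sl g) r) ∪
      (fun l => Complex.I • l) '' (Set.range fun g : SL(2, ℤ) => mu N n (sl g) r))

theorem muSet_finite : (muSet N n).Finite := by
  unfold muSet
  refine Set.Finite.biUnion (Finset.finite_toSet _) fun r _ => ?_
  exact (finite_range_mu r).union ((finite_range_mu r).image _)

/-- The container lattice. -/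
noncomputable def container (N : ℕ) [NeZero N] (n : ℕ) :
    Submodule ℤ (Module.Dual ℂ (CuspForm (CongruenceSubgroup.Gamma0 N) ((n : ℤ) + 2))) :=
  Submodule.span ℤ (muSet N n)

theorem container_fg : (container N n).FG := Submodule.fg_span muSet_finite

theorem mu_mem_container (g : SL(2, ℤ)) {r : ℕ} (hr : r < n + 2) :
    mu N n (sl g) r ∈ container N n := by
  apply Submodule.subset_span
  simp only [muSet, Set.mem_iUnion]
  exact ⟨r, Finset.mem_range.mpr hr, Or.inl ⟨g, rfl⟩⟩

theorem I_smul_mu_mem_container (g : SL(2, ℤ)) {r : ℕ} (hr : r < n + 2) :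
    Complex.I • mu N n (sl g) r ∈ container N n := by
  apply Submodule.subset_span
  simp only [muSet, Set.mem_iUnion]
  exact ⟨r, Finset.mem_range.mpr hr, Or.inr ⟨_, ⟨g, rfl⟩, rfl⟩⟩

/-- Gaussian integers inside `ℂ`. -/
def IsGauss (z : ℂ) : Prop := ∃ a b : ℤ, z = a + b * Complex.I

theorem IsGauss.mul {z w : ℂ} (hz : IsGauss z) (hw : IsGauss w) : IsGauss (z * w) := by
  obtain ⟨a, b, rfl⟩ := hz
  obtain ⟨c, d, rfl⟩ := hw
  refine ⟨a * c - b * d, a * d + b * c, ?_⟩
  push_cast
  linear_combination (b : ℂ) * d * Complex.I_sq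

theorem isGauss_one : IsGauss 1 := ⟨1, 0, by simp⟩

theorem IsGauss.pow {z : ℂ} (hz : IsGauss z) (m : ℕ) : IsGauss (z ^ m) := by
  induction m with
  | zero => simpa using isGauss_one
  | succ m ih => rw [pow_succ]; exact ih.mul hz

theorem isGauss_int (x : ℤ) : IsGauss x := ⟨x, 0, by simp⟩

theorem isGauss_nat (x : ℕ) : IsGauss x := ⟨x, 0, by simp⟩

theorem isGauss_sub_I_mul (x y : ℤ) : IsGauss ((x : ℂ) - Complex.I * y) :=
  ⟨x, -y, by push_cast; ring⟩

/-- `bigG n E i v` for an integer vector `v` is a Gaussian-integer combination of the tower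
values at `i`, with coefficients independent of the tower. -/
theorem bigG_I_eq (n : ℕ) {v : ℂ × ℂ} (hv : v ∈ Vint) :
    ∃ a b : ℕ → ℤ, ∀ E : ℕ → ℍ → ℂ, bigG n E UpperHalfPlane.I v =
      ∑ j ∈ Finset.range (n + 1), ((a j : ℂ) * E (j + 1) UpperHalfPlane.I +
        (b j : ℂ) * (Complex.I * E (j + 1) UpperHalfPlane.I)) := by
  obtain ⟨x, y, rfl⟩ := hv
  have key : ∀ j : ℕ, IsGauss ((n.descFactorial j : ℂ) *
      (((x : ℂ) - Complex.I * y) ^ (n - j) * (y : ℂ) ^ j)) := fun j =>
    (isGauss_nat _).mul (((isGauss_sub_I_mul x y).pow _).mul ((isGauss_int y).pow _))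
  choose a b hab using key
  refine ⟨a, b, fun E => ?_⟩
  unfold bigG
  refine Finset.sum_congr rfl fun j _ => ?_
  have := hab j
  simp only [UpperHalfPlane.coe_I] at *
  linear_combination E (j + 1) UpperHalfPlane.I * this

/-- The functional `f ↦ bigG n (tower (f|g)) i v` lies in the container lattice. -/
theorem exists_mem_container_bigG (g : SL(2, ℤ)) {v : ℂ × ℂ} (hv : v ∈ Vint) :
    ∃ l ∈ container N n, ∀ f : CuspForm (CongruenceSubgroup.Gamma0 N) ((n : ℤ) + 2),
      l f = bigG n (tower (⇑f ∣[(n : ℤ) + 2] (mapGL ℝ g))) UpperHalfPlane.I v := by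
  obtain ⟨a, b, hab⟩ := bigG_I_eq n hv
  refine ⟨∑ j ∈ Finset.range (n + 1),
    (a j • mu N n (sl g) (j + 1) + b j • (Complex.I • mu N n (sl g) (j + 1))), ?_, fun f => ?_⟩
  · refine Submodule.sum_mem _ fun j hj => ?_
    have hj' : j + 1 < n + 2 := by
      have := Finset.mem_range.mp hj
      omega
    exact Submodule.add_mem _ (Submodule.smul_mem _ _ (mu_mem_container g hj'))
      (Submodule.smul_mem _ _ (I_smul_mu_mem_container g hj'))
  · rw [hab]
    simp only [LinearMap.sum_apply, LinearMap.add_apply, LinearMap.smul_apply, mu_apply, coe_sl,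
      smul_eq_mul, zsmul_eq_mul]

theorem mapGL_apply_entry (g : SL(2, ℤ)) (i j : Fin 2) :
    (mapGL ℝ g : GL (Fin 2) ℝ) i j = ((g.1 i j : ℤ) : ℝ) := by
  simp

theorem mapGL_S_smul_I : (mapGL ℝ ModularGroup.S : GL (Fin 2) ℝ) • UpperHalfPlane.I =
    UpperHalfPlane.I := by
  apply UpperHalfPlane.ext
  rw [coe_smul_of_det_pos (mapGL_mem_posInt _).2]
  have h00 : (mapGL ℝ ModularGroup.S : GL (Fin 2) ℝ) 0 0 = 0 := by
    rw [mapGL_apply_entry, ModularGroup.coe_S]; simp
  have h01 : (mapGL ℝ ModularGroup.S : GL (Fin 2) ℝ) 0 1 = -1 := by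
    rw [mapGL_apply_entry, ModularGroup.coe_S]; simp
  have h10 : (mapGL ℝ ModularGroup.S : GL (Fin 2) ℝ) 1 0 = 1 := by
    rw [mapGL_apply_entry, ModularGroup.coe_S]; simp
  have h11 : (mapGL ℝ ModularGroup.S : GL (Fin 2) ℝ) 1 1 = 0 := by
    rw [mapGL_apply_entry, ModularGroup.coe_S]; simp
  simp only [num, denom, h00, h01, h10, h11, UpperHalfPlane.coe_I]
  push_cast
  rw [zero_mul, zero_add, one_mul, add_zero, neg_div, one_div, Complex.inv_I, neg_neg]

theorem mapGL_T_one_zero : (mapGL ℝ ModularGroup.T : GL (Fin 2) ℝ) 1 0 = 0 := by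
  rw [mapGL_apply_entry, ModularGroup.coe_T]; simp

/-- Slashing by a product in `SL₂(ℤ)`. -/
theorem slash_sl_mul (h : ℍ → ℂ) (k : ℤ) (x y : SL(2, ℤ)) :
    h ∣[k] (mapGL ℝ (x * y) : GL (Fin 2) ℝ) =
      (h ∣[k] (mapGL ℝ x : GL (Fin 2) ℝ)) ∣[k] (mapGL ℝ y : GL (Fin 2) ℝ) := by
  rw [_root_.map_mul, SlashAction.slash_mul]

theorem lamG_sl_mem_container (g : SL(2, ℤ)) :
    ∀ (g₀ : SL(2, ℤ)) (w : ℂ × ℂ), w ∈ Vint → lamG N n (sl g₀) (sl g) w ∈ container N n := by
  have hg : g ∈ Subgroup.closure ({ModularGroup.S, ModularGroup.T} : Set SL(2, ℤ)) := by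
    rw [SpecialLinearGroup.SL2Z_generators]
    exact Subgroup.mem_top g
  induction hg using Subgroup.closure_induction with
  | mem x hx =>
    intro g₀ w hw
    rcases hx with rfl | rfl
    · -- `S`
      obtain ⟨l₁, hl₁, h₁⟩ := exists_mem_container_bigG (N := N) (n := n) g₀
        (actV_mem_Vint (mapGL_mem_posInt ModularGroup.S) hw)
      obtain ⟨l₂, hl₂, h₂⟩ := exists_mem_container_bigG (N := N) (n := n)
        (g₀ * ModularGroup.S) hw
      have : lamG N n (sl g₀) (sl ModularGroup.S) w = l₁ - l₂ := by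
        ext f
        rw [lamG_apply, LinearMap.sub_apply, h₁, h₂, cocyc, coe_sl, coe_sl, mapGL_S_smul_I,
          slash_sl_mul]
      rw [this]
      exact Submodule.sub_mem _ hl₁ hl₂
    · -- `T`
      have : lamG N n (sl g₀) (sl ModularGroup.T) w = 0 := by
        ext f
        rw [lamG_apply, LinearMap.zero_apply]
        exact cocyc_upper n (hasTower_slash_posInt f (sl g₀).2) _
          (mapGL_mem_posInt ModularGroup.T).2 mapGL_T_one_zero w
      rw [this]
      exact Submodule.zero_mem _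
  | one =>
    intro g₀ w _
    have : lamG N n (sl g₀) (sl 1) w = 0 := by
      ext f
      rw [lamG_apply, LinearMap.zero_apply]
      exact cocyc_upper n (hasTower_slash_posInt f (sl g₀).2) _
        (mapGL_mem_posInt 1).2 (by simp) w
    rw [this]
    exact Submodule.zero_mem _
  | mul x y _ _ hx hy =>
    intro g₀ w hw
    have : lamG N n (sl g₀) (sl (x * y)) w =
        lamG N n (sl g₀) (sl x) (actV (mapGL ℝ y) w) + lamG N n (sl (g₀ * x)) (sl y) w := by
      ext f
      rw [LinearMap.add_apply, lamG_apply, lamG_apply, lamG_apply, coe_sl, coe_sl, coe_sl,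
        coe_sl, coe_sl, _root_.map_mul, cocyc_mul n _ _ (mapGL_mem_posInt x).2 (mapGL_mem_posInt y).2
          (hasTower_slash_posInt f (mapGL_mem_posInt g₀))
          (hasTower_slash_slash f (mapGL_mem_posInt g₀) (mapGL_mem_posInt x))
          (hasTower_slash_slash f (mapGL_mem_posInt g₀)
            (mul_mem (mapGL_mem_posInt x) (mapGL_mem_posInt y))),
        _root_.map_mul, SlashAction.slash_mul]
    rw [this]
    exact Submodule.add_mem _ (hx g₀ _ (actV_mem_Vint (mapGL_mem_posInt y) hw))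
      (hy (g₀ * x) w hw)
  | inv x _ hx =>
    intro g₀ w hw
    have : lamG N n (sl g₀) (sl x⁻¹) w =
        - lamG N n (sl (g₀ * x⁻¹)) (sl x) (actV (mapGL ℝ x⁻¹) w) := by
      ext f
      rw [LinearMap.neg_apply, lamG_apply, lamG_apply, coe_sl, coe_sl, coe_sl, coe_sl]
      have hmul := cocyc_mul n (h := ⇑f ∣[(n : ℤ) + 2] (mapGL ℝ (g₀ * x⁻¹) : GL (Fin 2) ℝ))
        (mapGL ℝ x) (mapGL ℝ x⁻¹) (mapGL_mem_posInt x).2 (mapGL_mem_posInt x⁻¹).2
        (hasTower_slash_posInt f (mapGL_mem_posInt _))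
        (hasTower_slash_slash f (mapGL_mem_posInt _) (mapGL_mem_posInt x))
        (hasTower_slash_slash f (mapGL_mem_posInt _)
            (mul_mem (mapGL_mem_posInt x) (mapGL_mem_posInt x⁻¹))) w
      have h1 : (mapGL ℝ x : GL (Fin 2) ℝ) * mapGL ℝ x⁻¹ = 1 := by
        rw [← _root_.map_mul, _root_.mul_inv_cancel, _root_.map_one]
      have h2 : (⇑f ∣[(n : ℤ) + 2] (mapGL ℝ (g₀ * x⁻¹) : GL (Fin 2) ℝ)) ∣[(n : ℤ) + 2]
          (mapGL ℝ x : GL (Fin 2) ℝ) = ⇑f ∣[(n : ℤ) + 2] (mapGL ℝ g₀ : GL (Fin 2) ℝ) := by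
        rw [← slash_sl_mul, inv_mul_cancel_right]
      rw [h1, h2, cocyc_upper n (hasTower_slash_posInt f (mapGL_mem_posInt _)) 1
        (by simp) (by simp)] at hmul
      linear_combination -hmul
    rw [this]
    exact Submodule.neg_mem _ (hx (g₀ * x⁻¹) _ (actV_mem_Vint (mapGL_mem_posInt x⁻¹) hw))

theorem lam_mem_container (A : posInt) {v : ℂ × ℂ} (hv : v ∈ Vint) :
    lam N n A v ∈ container N n := by
  obtain ⟨g, δ, hδ, h10, hA⟩ := exists_mapGL_mul_upper A.2
  have : lam N n A v = lamG N n (sl 1) (sl g) (actV δ v) := by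
    ext f
    rw [lam_apply, lamG_apply, coe_sl, coe_sl, _root_.map_one, SlashAction.slash_one, hA,
      cocyc_mul n _ _ (mapGL_mem_posInt g).2 hδ.2 (hasTower_cuspForm f)
        (hasTower_slash_posInt f (mapGL_mem_posInt g))
        (hasTower_slash_posInt f (mul_mem (mapGL_mem_posInt g) hδ)),
      cocyc_upper n (hasTower_slash_posInt f (mapGL_mem_posInt g)) δ hδ.2 h10, add_zero]
  rw [this]
  exact lamG_sl_mem_container g 1 _ (actV_mem_Vint hδ hv)

theorem periodLattice_le_container : periodLattice N n ≤ container N n := by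
  apply Submodule.span_le.mpr
  rintro _ ⟨A, v, hv, rfl⟩
  exact lam_mem_container A hv

/-- The period lattice is finitely generated. -/
theorem periodLattice_fg : (periodLattice N n).FG := by
  have : IsNoetherian ℤ (container N n) := isNoetherian_of_fg_of_noetherian _ container_fg
  exact Submodule.FG.of_le_of_isNoetherian periodLattice_le_container

end Fermat.Agent.S22.H262

end
-- ===== PACK-END S22/H262/FG.lean

-- ===== PACK-BEGIN S24/Inf/Gen.lean
section


/-!
# S24 / MOD-INF — expansions at `∞` of the functions `J((aτ+b)/d)` and distinctness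

Everything is stated for an abstract function `J : ℍ → ℂ` satisfying
* `hinv : ∀ γ : SL(2, ℤ), ∀ τ, J (γ • τ) = J τ`,
* `hexp : InfExp 1 J infJq` (the `q`-expansion of `J` is the Prelude series `jq`).
-/

set_option autoImplicit false

noncomputable section

open HahnSeries ModularCurve UpperHalfPlane Complex Matrix
open scoped Real MatrixGroups

namespace Fermat.Agent.S24

/-- The Prelude series `jq` with complex coefficients. -/
def infJq : LaurentSeries ℂ := coeffEmb ℂ jq

theorem infJq_coeff (n : ℤ) : infJq.coeff n = ((jq.coeff n : ℚ) : ℂ) := rfl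

theorem infJq_coeff_neg_one : infJq.coeff (-1) = 1 := by
  rw [infJq_coeff, coeff_jq_neg_one]; simp

theorem infJq_coeff_of_lt {k : ℤ} (hk : k < -1) : infJq.coeff k = 0 := by
  rw [infJq_coeff, coeff_jq_of_lt hk]; simp

theorem infJq_order : infJq.order = -1 :=
  inf_order_eq_of_coeff (by rw [infJq_coeff_neg_one]; exact one_ne_zero)
    (fun _ hm => infJq_coeff_of_lt hm)

theorem infJq_leadingCoeff : infJq.leadingCoeff = 1 := by
  rw [leadingCoeff_eq, infJq_order, infJq_coeff_neg_one]

theorem infJq_ne_zero : infJq ≠ 0 := by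
  intro h
  have := infJq_coeff_neg_one
  rw [h] at this
  simp at this

/-- The expansion of `J((aτ+b)/d)` in `z = exp(2πiτ/N)`, where `e = aN/d`. -/
def infGenExp (e : ℕ) [NeZero e] (b : ℤ) (d : ℕ) : LaurentSeries ℂ :=
  qExpand ℂ e (infTwist (infRoot b d) infJq)

theorem infGenExp_order (e : ℕ) [NeZero e] (b : ℤ) (d : ℕ) :
    (infGenExp e b d).order = -(e : ℤ) := by
  rw [infGenExp, inf_qExpand_order, infTwist_order, infJq_order]
  ring

theorem infGenExp_leadingCoeff (e : ℕ) [NeZero e] (b : ℤ) (d : ℕ) :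
    (infGenExp e b d).leadingCoeff = (((infRoot b d)⁻¹ : ℂˣ) : ℂ) := by
  rw [infGenExp, inf_qExpand_leadingCoeff, infTwist_leadingCoeff, infJq_leadingCoeff, infJq_order,
    _root_.one_mul, _root_.zpow_neg_one]

theorem infGenExp_ne_zero (e : ℕ) [NeZero e] (b : ℤ) (d : ℕ) : infGenExp e b d ≠ 0 := by
  rw [infGenExp, Ne, inf_qExpand_eq_zero_iff, infTwist_eq_zero_iff]
  exact infJq_ne_zero

section Abstract

variable {J : ℍ → ℂ}

/-- Expansion of `J((aτ+b)/d)` in `z = exp(2πiτ/N)` when `e·d = a·N`. -/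
theorem inf_J_infAff_exp (hexp : InfExp 1 J infJq) {N a d e : ℕ} [NeZero e] (b : ℤ)
    (ha : 0 < a) (hd : 0 < d) (hN : 0 < N) (he : e * d = a * N) :
    InfExp N (fun τ => J (infAff a b d τ)) (infGenExp e b d) := by
  have h := hexp.comp_infAff (e := e) b ha hd one_pos hN (by rw [_root_.mul_one]; exact he)
  rw [_root_.mul_one] at h
  exact h

/-- The function `τ ↦ J(dτ)` has the expansion `jq(z^{dN})` in `z = exp(2πiτ/N)`. -/
theorem inf_J_mul_exp (hexp : InfExp 1 J infJq) {N d : ℕ} (hd : 0 < d) (hN : 0 < N) :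
    haveI : NeZero (d * N) := ⟨(Nat.mul_pos hd hN).ne'⟩
    InfExp N (fun τ => J (infAff d 0 1 τ)) (qExpand ℂ (d * N) infJq) := by
  have : NeZero (d * N) := ⟨(Nat.mul_pos hd hN).ne'⟩
  have h := inf_J_infAff_exp hexp (e := d * N) 0 hd one_pos hN (by ring)
  rw [infGenExp, infRoot_zero, infTwist_one] at h
  exact h

/-- For `d ∣ N` and `γ ∈ SL₂(ℤ)`, the function `τ ↦ J(d·γτ)` has a convergent expansion in
`z = exp(2πiτ/N)`. -/
theorem inf_J_mul_smul_mem_expRing (hinv : ∀ (γ : SL(2, ℤ)) (τ : ℍ), J (γ • τ) = J τ)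
    (hexp : InfExp 1 J infJq) {N d : ℕ} [NeZero N] (hdN : d ∣ N) (γ : SL(2, ℤ)) :
    (fun τ => J (infAff d 0 1 (γ • τ))) ∈ expRing N := by
  have hN : 0 < N := Nat.pos_of_ne_zero (NeZero.ne N)
  have hd : 0 < d := Nat.pos_of_dvd_of_pos hdN hN
  obtain ⟨γ', a, d', b, ha, hd', had, h00, h01, h10, h11⟩ := inf_exists_hnf d hd γ
  have hd'N : d' ∣ N := (Dvd.intro_left a had).trans hdN
  obtain ⟨c, hc⟩ := hd'N
  have hc0 : 0 < c := by
    rcases Nat.eq_zero_or_pos c with h | h
    · rw [h, _root_.MulZeroClass.mul_zero] at hc; omega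
    · exact h
  have : NeZero (a * c) := ⟨(Nat.mul_pos ha hc0).ne'⟩
  have h := inf_J_infAff_exp hexp (e := a * c) (N := N) b ha hd' hN (by rw [hc]; ring)
  refine ⟨_, h.congr fun τ => ?_⟩
  rw [inf_aff_smul_eq hd ha hd' γ γ' h00 h01 h10 h11 τ, hinv]

end Abstract

end Fermat.Agent.S24

namespace Fermat.Agent.S24

open HahnSeries ModularCurve UpperHalfPlane Complex Matrix
open scoped Real MatrixGroups

theorem inf_SL2_mul_inv_10 (γ γ' : SL(2, ℤ)) :
    (γ * γ'⁻¹) 1 0 = γ 1 0 * γ' 1 1 - γ 1 1 * γ' 1 0 := by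
  rw [Matrix.SpecialLinearGroup.SL2_inv_expl γ']
  simp [Matrix.SpecialLinearGroup.coe_mul, Matrix.mul_apply, Fin.sum_univ_two]
  ring

theorem infRoot_eq_iff {b b₁ : ℤ} {d : ℕ} (hd : 0 < d) :
    infRoot b d = infRoot b₁ d ↔ (d : ℤ) ∣ b - b₁ := by
  have hd0 : (d : ℂ) ≠ 0 := by exact_mod_cast hd.ne'
  have hpi : (2 * π * Complex.I : ℂ) ≠ 0 := Complex.two_pi_I_ne_zero
  rw [← Units.val_inj, infRoot_coe, infRoot_coe, Complex.exp_eq_exp_iff_exists_int]
  constructor
  · rintro ⟨n, hn⟩
    refine ⟨n, ?_⟩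
    field_simp at hn
    have h4 : b = b₁ + d * n := by exact_mod_cast hn
    linarith
  · rintro ⟨n, hn⟩
    refine ⟨n, ?_⟩
    have h1 : (b : ℂ) = b₁ + d * n := by
      have : b = b₁ + d * n := by linarith
      exact_mod_cast this
    rw [h1]
    field_simp

section Distinct

variable {J : ℍ → ℂ}

/-- **Distinctness.**  If `J(N·γτ) = J(N·γ'τ)` for all `τ`, then `γ γ'⁻¹ ∈ Γ₀(N)`. -/
theorem inf_distinct (hinv : ∀ (γ : SL(2, ℤ)) (τ : ℍ), J (γ • τ) = J τ)
    (hexp : InfExp 1 J infJq) {N : ℕ} [NeZero N] (γ γ' : SL(2, ℤ))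
    (h : ∀ τ, J (infAff N 0 1 (γ • τ)) = J (infAff N 0 1 (γ' • τ))) :
    γ * γ'⁻¹ ∈ CongruenceSubgroup.Gamma0 N := by
  have hN : 0 < N := Nat.pos_of_ne_zero (NeZero.ne N)
  obtain ⟨g, a, d, b, ha, hd, had, h00, h01, h10, h11⟩ := inf_exists_hnf N hN γ
  obtain ⟨g', a', d', b', ha', hd', had', h00', h01', h10', h11'⟩ := inf_exists_hnf N hN γ'
  have : NeZero (a * a) := ⟨(Nat.mul_pos ha ha).ne'⟩
  have : NeZero (a' * a') := ⟨(Nat.mul_pos ha' ha').ne'⟩
  have e1 := inf_J_infAff_exp hexp (e := a * a) (N := N) b ha hd hN (by rw [← had]; ring)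
  have e2 := inf_J_infAff_exp hexp (e := a' * a') (N := N) b' ha' hd' hN (by rw [← had']; ring)
  have hfun : ∀ τ, J (infAff a b d τ) = J (infAff a' b' d' τ) := by
    intro τ
    have := h τ
    rwa [inf_aff_smul_eq hN ha hd γ g h00 h01 h10 h11 τ, hinv,
      inf_aff_smul_eq hN ha' hd' γ' g' h00' h01' h10' h11' τ, hinv] at this
  have heq : infGenExp (a * a) b d = infGenExp (a' * a') b' d' := e1.unique' e2 hfun
  -- compare orders
  have hord := congrArg HahnSeries.order heq
  rw [infGenExp_order, infGenExp_order] at hord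
  have haa : a * a = a' * a' := by
    have : ((a * a : ℕ) : ℤ) = ((a' * a' : ℕ) : ℤ) := by linarith
    exact_mod_cast this
  have haeq : a = a' := Nat.mul_self_inj.mp haa
  subst haeq
  have hdeq : d = d' := by
    have : a * d = a * d' := by rw [had, had']
    exact Nat.eq_of_mul_eq_mul_left ha this
  subst hdeq
  -- compare leading coefficients
  have hlc := congrArg HahnSeries.leadingCoeff heq
  rw [infGenExp_leadingCoeff, infGenExp_leadingCoeff] at hlc
  have hroot : infRoot b d = infRoot b' d := by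
    have := Units.val_inj.mp hlc
    exact inv_injective this
  obtain ⟨k, hk⟩ := (infRoot_eq_iff hd).mp hroot
  -- conclude
  rw [CongruenceSubgroup.Gamma0_mem, ZMod.intCast_zmod_eq_zero_iff_dvd, inf_SL2_mul_inv_10]
  have hNad : (N : ℤ) = a * d := by exact_mod_cast had.symm
  refine ⟨g 1 0 * g' 1 1 - g 1 1 * g' 1 0 - k * g 1 0 * g' 1 0, ?_⟩
  have hb : b = b' + d * k := by linarith
  rw [h10, h11, h10', h11', hNad, hb]
  ring

end Distinct

end Fermat.Agent.S24

end
end
-- ===== PACK-END S24/Inf/Gen.lean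

-- ===== PACK-BEGIN S24/FFIdentity.lean
section




/-!
# S24 / FF layer: the fundamental identity `∑_{v(t) > 0} ord_v(t) = [F : K(t)]`
(helper804)
-/

set_option autoImplicit false
set_option linter.unusedSectionVars false

namespace Fermat.Agent.S24.FF

open AlgebraicCurve Polynomial IntermediateField IsDedekindDomain

open scoped IntermediateField.algebraAdjoinAdjoin

/-- Abstract criterion: if every element of `S` is congruent mod `q` to an element of `R`,
the inertia degree of `q` is one. -/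
theorem inertiaDeg_eq_one_of_forall_exists {R S : Type*} [CommRing R] [CommRing S] [Algebra R S]
    (p : Ideal R) (q : Ideal S) [q.LiesOver p] [p.IsMaximal] [q.IsMaximal]
    (h : ∀ s : S, ∃ r : R, s - algebraMap R S r ∈ q) : q.inertiaDeg R = 1 := by
  rw [Ideal.inertiaDeg_eq_of_isMaximal p q]
  let _ : Field (R ⧸ p) := Ideal.Quotient.field _
  rw [finrank_eq_one_iff_of_nonzero' (1 : S ⧸ q) one_ne_zero]
  intro w
  obtain ⟨s, rfl⟩ := Ideal.Quotient.mk_surjective w
  obtain ⟨r, hr⟩ := h s
  refine ⟨Ideal.Quotient.mk _ r, ?_⟩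
  rw [Algebra.smul_def, mul_one, Ideal.Quotient.algebraMap_mk_of_liesOver, eq_comm,
    Ideal.Quotient.eq]
  exact hr

variable {K F : Type*} [Field K] [Field F] [Algebra K F] {t : F}

instance instTowerCoordIntRing : IsScalarTower (coordRing K t) (intRing K t) F :=
  IsScalarTower.of_algebraMap_eq (fun _ => rfl)

section

variable [CharZero K] [IsCoord K t]

theorem t_ne_zero (ht : Transcendental K t) : t ≠ 0 := by
  rintro rfl
  exact ht isAlgebraic_zero

theorem tS_ne_zero : tS K t ≠ 0 := by
  intro h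
  apply t_ne_zero (IsCoord.transcendental (K := K) (t := t))
  have := congrArg (fun s : intRing K t => (s : F)) h
  simpa using this

theorem irreducible_tR : Irreducible (tR K t) := by
  have h := Polynomial.irreducible_X (R := K)
  have e := algEquivOfTranscendental K t (IsCoord.transcendental (K := K) (t := t))
  rw [tR, ← algEquivOfTranscendental_apply_X K t (IsCoord.transcendental (K := K) (t := t))]
  exact (MulEquiv.irreducible_iff
    (algEquivOfTranscendental K t (IsCoord.transcendental (K := K) (t := t)))).mpr h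

variable (K t) in
/-- The maximal ideal `(t)` of `K[t]`. -/
def tIdeal : Ideal (coordRing K t) := Ideal.span {tR K t}

instance tIdeal_isMaximal : (tIdeal K t).IsMaximal :=
  PrincipalIdealRing.isMaximal_of_irreducible irreducible_tR

theorem map_tIdeal :
    (tIdeal K t).map (algebraMap (coordRing K t) (intRing K t)) = Ideal.span {tS K t} := by
  rw [tIdeal, Ideal.map_span, Set.image_singleton]
  rfl

theorem map_tIdeal_ne_bot :
    (tIdeal K t).map (algebraMap (coordRing K t) (intRing K t)) ≠ ⊥ := by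
  rw [map_tIdeal, Ne, Ideal.span_singleton_eq_bot]
  exact tS_ne_zero

theorem liesOver_iff (q : Ideal (intRing K t)) [hq : q.IsPrime] :
    q.LiesOver (tIdeal K t) ↔ tS K t ∈ q := by
  constructor
  · intro h
    have : tR K t ∈ q.under (coordRing K t) := by
      rw [← h.over]
      exact Ideal.subset_span rfl
    exact this
  · intro h
    refine ⟨?_⟩
    apply (tIdeal_isMaximal (K := K) (t := t)).eq_of_le (Ideal.IsPrime.under _ q).ne_top
    rw [tIdeal, Ideal.span_le, Set.singleton_subset_iff]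
    exact h

/-- `ord_v(t)` at the place of a prime `q` over `(t)` is the ramification index of `q`. -/
theorem ord_t_eq_ramificationIdx (q : HeightOneSpectrum (intRing K t))
    [hq : q.asIdeal.LiesOver (tIdeal K t)] :
    (placeOfPrime K t q).ord t = (q.asIdeal.ramificationIdx (coordRing K t) : ℤ) := by
  have := q.isPrime
  rw [Ideal.IsDedekindDomain.ramificationIdx_eq_multiplicity (tIdeal K t) q.asIdeal
    map_tIdeal_ne_bot, map_tIdeal, ord_placeOfPrime]
  have h1 : q.valuation F t = q.intValuation (tS K t) := q.valuation_of_algebraMap (tS K t)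
  rw [h1, q.intValuation_eq_exp_neg_multiplicity tS_ne_zero]
  simp

/-- The residue degree of every prime over `(t)` is one. -/
theorem inertiaDeg_eq_one [IsAlgClosed K] (q : HeightOneSpectrum (intRing K t))
    [hq : q.asIdeal.LiesOver (tIdeal K t)] :
    q.asIdeal.inertiaDeg (coordRing K t) = 1 := by
  have : q.asIdeal.IsMaximal := q.isPrime.isMaximal q.ne_bot
  refine inertiaDeg_eq_one_of_forall_exists (tIdeal K t) q.asIdeal fun s => ?_
  have hsO : (s : F) ∈ (placeOfPrime K t q).toValuationSubring :=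
    mem_of_mem_intRing _ (ord_t_placeOfPrime_nonneg q) s.2
  obtain ⟨a, ha⟩ := exists_const_sub_mem_nonunits (placeOfPrime K t q)
    (IsCoord.transcendental (K := K) (t := t)) hsO
  refine ⟨algebraMap K (coordRing K t) a, ?_⟩
  rw [← center_placeOfPrime q, mem_center_iff]
  exact ha

/-- The height-one prime attached to a prime over `(t)`. -/
def primeOfOver (q : (tIdeal K t).primesOver (intRing K t)) :
    HeightOneSpectrum (intRing K t) :=
  ⟨q.1, q.2.1, fun h => tS_ne_zero (K := K) (t := t) (by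
    have h1 := (liesOver_iff q.1 (hq := q.2.1)).mp q.2.2
    rw [h] at h1
    exact h1)⟩

@[simp] theorem primeOfOver_asIdeal (q : (tIdeal K t).primesOver (intRing K t)) :
    (primeOfOver q).asIdeal = q.1 := rfl

instance primeOfOver_liesOver (q : (tIdeal K t).primesOver (intRing K t)) :
    (primeOfOver q).asIdeal.LiesOver (tIdeal K t) := q.2.2

/-- The place attached to a prime over `(t)`. -/
noncomputable def placeOfOver (q : (tIdeal K t).primesOver (intRing K t)) : Place K F :=
  placeOfPrime K t (primeOfOver q)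

theorem placeOfOver_injective :
    Function.Injective (placeOfOver : (tIdeal K t).primesOver (intRing K t) → Place K F) := by
  intro q q' h
  have := placeOfPrime_injective h
  apply Subtype.ext
  exact congrArg HeightOneSpectrum.asIdeal this

theorem ord_t_placeOfOver_pos (q : (tIdeal K t).primesOver (intRing K t)) :
    0 < (placeOfOver q).ord t := by
  rw [placeOfOver, ord_t_placeOfPrime_pos_iff (t_ne_zero (IsCoord.transcendental (K := K)))]
  exact (liesOver_iff q.1 (hq := q.2.1)).mp q.2.2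

theorem exists_placeOfOver_eq (v : Place K F) (ht : 0 < v.ord t) :
    ∃ q : (tIdeal K t).primesOver (intRing K t), placeOfOver q = v := by
  have ht0 : t ≠ 0 := t_ne_zero (IsCoord.transcendental (K := K))
  have hmem : tS K t ∈ center v ht.le :=
    (mem_center_iff v ht.le _).mpr ((ord_pos_iff_mem_nonunits v ht0).mp ht)
  refine ⟨⟨center v ht.le, center_isPrime v ht.le, (liesOver_iff _).mpr hmem⟩, ?_⟩
  exact placeOfPrime_centerPrime v ht

theorem range_placeOfOver :
    Set.range (placeOfOver : (tIdeal K t).primesOver (intRing K t) → Place K F) =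
      {v : Place K F | 0 < v.ord t} := by
  ext v
  constructor
  · rintro ⟨q, rfl⟩
    exact ord_t_placeOfOver_pos q
  · intro hv
    exact exists_placeOfOver_eq v hv

theorem sum_placeOfOver [IsAlgClosed K] :
    ∑ q : (tIdeal K t).primesOver (intRing K t), (placeOfOver q).ord t =
      (Module.finrank K⟮t⟯ F : ℤ) := by
  have h := Ideal.sum_ramification_inertia_eq_finrank (tIdeal K t) (intRing K t)
  rw [IsFractionRing.finrank_eq (coordRing K t) K⟮t⟯ (intRing K t) F, ← h]
  push_cast
  refine Finset.sum_congr rfl fun q _ => ?_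
  have h1 := inertiaDeg_eq_one (primeOfOver q)
  rw [primeOfOver_asIdeal] at h1
  rw [placeOfOver, ord_t_eq_ramificationIdx (primeOfOver q), h1]
  simp

end

section final

/-- **Fundamental identity, finiteness**: a coordinate function has finitely many zeros. -/
theorem finite_setOf_ord_pos [CharZero K] (ht : Transcendental K t)
    [FiniteDimensional K⟮t⟯ F] : {v : Place K F | 0 < v.ord t}.Finite := by
  have : IsCoord K t := ⟨ht, inferInstance⟩
  rw [← range_placeOfOver]
  exact Set.finite_range _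

/-- **Fundamental identity**: `∑_{v(t) > 0} ord_v(t) = [F : K(t)]`. -/
theorem sum_ord_eq_finrank [IsAlgClosed K] [CharZero K] (ht : Transcendental K t)
    [FiniteDimensional K⟮t⟯ F] (s : Finset (Place K F)) (hs : ∀ v, v ∈ s ↔ 0 < v.ord t) :
    ∑ v ∈ s, v.ord t = (Module.finrank K⟮t⟯ F : ℤ) := by
  have : IsCoord K t := ⟨ht, inferInstance⟩
  rw [← sum_placeOfOver]
  symm
  refine Finset.sum_bij (fun q _ => placeOfOver q) ?_ ?_ ?_ ?_
  · intro q _
    exact (hs _).mpr (ord_t_placeOfOver_pos q)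
  · intro q _ q' _ h
    exact placeOfOver_injective h
  · intro v hv
    obtain ⟨q, hq⟩ := exists_placeOfOver_eq v ((hs v).mp hv)
    exact ⟨q, Finset.mem_univ _, hq⟩
  · intro q _
    rfl

/-- Skeleton form of the fundamental identity (helper864 FF3b). -/
theorem sum_ord_pos_eq_finrank [IsAlgClosed K] [CharZero K] (ht : Transcendental K t)
    [FiniteDimensional K⟮t⟯ F] :
    ∑ v ∈ (finite_setOf_ord_pos ht).toFinset, v.ord t = (Module.finrank K⟮t⟯ F : ℤ) :=
  sum_ord_eq_finrank ht _ (fun v => by simp)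

end final

end Fermat.Agent.S24.FF

end
-- ===== PACK-END S24/FFIdentity.lean

-- ===== PACK-BEGIN S37/Core/PlaceRed.lean
section



/-!
# S37 row (helper37): from a place reduction map to the frozen statement

`PlaceRed N A ℓ σ₀` is the geometric datum to be constructed by the row:
a map `r` from the places of `ℚ̄(X₀(N))` to the places of the function field of the special
fibre such that
* `isRed`, `gen` : `r` witnesses `ReductionInputsModL A N` (Prelude);
* `inertia` : `r (τ • P) = r P` for `τ` in the inertia group at `A`;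
* `es` : Eichler-Shimura on divisors, `r_* (T_ℓ P) = r (σ₀ P) + ℓ · r (σ₀⁻¹ P)`.

`specialization_of_placeRed` turns it (together with `HeckeInputsAlong` and the conclusion of
the frozen statement S18, both taken as hypotheses) into the conclusion of S37 at `(ℓ, A)`.
Everything here is fully proved.
-/

set_option autoImplicit false
set_option synthInstance.maxHeartbeats 400000

noncomputable section

namespace Fermat.Agent.S37.Core

open ModularCurve ValuationSubring AlgebraicCurve HahnSeries

/-- the conclusion of the frozen statement S18 at `(N, ℓ, A)` -/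
def InjTorsionModL (N : ℕ) [NeZero N] (ℓ : ℕ) (A : ValuationSubring (AlgebraicClosure ℚ)) :
    Prop :=
  ∀ (_ : ReductionInputsModL A N) (m : ℕ), ¬ ℓ ∣ m → ∀ z : JZero N, m • z = 0 →
    reductionModL A N z = 0 → z = 0

/-- The geometric datum: a place reduction map with inertia invariance and the
Eichler-Shimura congruence on divisors, relative to one Frobenius element `σ₀`. -/
structure PlaceRed (N : ℕ) [NeZero N] (A : ValuationSubring (AlgebraicClosure ℚ)) (ℓ : ℕ)
    [NeZero ℓ] (σ₀ : AlgebraicClosure ℚ ≃ₐ[ℚ] AlgebraicClosure ℚ) : Type where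
  /-- the reduction map on places -/
  r : Place (AlgebraicClosure ℚ) (modularFunctionFieldBar N) →
    Place (IsLocalRing.ResidueField A) (modularFunctionFieldFullC (IsLocalRing.ResidueField A) N)
  isRed : IsPlaceReductionModL A N r
  gen : PrincipalGeneratedByIntegral A (IsLocalRing.residue A) N
  inertia : ∀ τ ∈ A.inertiaSubgroupIn ℚ,
    ∀ P : Place (AlgebraicClosure ℚ) (modularFunctionFieldBar N),
      r (arithmeticGalois (modularFunctionFieldFull N) τ • P) = r P
  es : ∀ (hα : HeckeAlphaBarIntegral (AlgebraicClosure ℚ) N ℓ)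
    (hβ : HeckeBetaBarIntegral (AlgebraicClosure ℚ) N ℓ)
    [HasPrincipalDivisors (AlgebraicClosure ℚ) (modularFunctionFieldBar (N * ℓ))]
    (P : Place (AlgebraicClosure ℚ) (modularFunctionFieldBar N)),
    Finsupp.mapDomain r (heckeDivBar hα hβ (Finsupp.single P 1)) =
      Finsupp.single (r (arithmeticGalois (modularFunctionFieldFull N) σ₀ • P)) 1 +
        Finsupp.single (r ((arithmeticGalois (modularFunctionFieldFull N) σ₀)⁻¹ • P)) (ℓ : ℤ)

section Torsion

variable {L : Type*} [Field L] [Algebra ℚ L] {A : ValuationSubring L}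
variable {k : Type*} [Field k] {π : A →+* k} {N : ℕ}

/-- two place reductions agree on principal divisors -/
theorem mapDomain_eq_of_mem_principal
    {r₁ r₂ : Place L (laurentBaseChange L (modularFunctionFieldFull N)) →
      Place k (modularFunctionFieldFullC k N)}
    (h₁ : IsPlaceReductionAlong A π N r₁) (h₂ : IsPlaceReductionAlong A π N r₂)
    (hgen : PrincipalGeneratedByIntegral A π N)
    {D : Divisor L (laurentBaseChange L (modularFunctionFieldFull N))}
    (hD : D ∈ Divisor.principal (K := L) (F := laurentBaseChange L (modularFunctionFieldFull N))) :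
    Finsupp.mapDomain r₁ D = Finsupp.mapDomain r₂ D := by
  have hD' := hgen hD
  clear hD
  induction hD' using AddSubgroup.closure_induction with
  | mem E hE =>
    obtain ⟨y, hy, hyk, hne, hDy⟩ := hE
    ext Q
    rw [h₁.2 y hy hyk hne E hDy Q, h₂.2 y hy hyk hne E hDy Q]
  | zero => rw [Finsupp.mapDomain_zero, Finsupp.mapDomain_zero]
  | add E E' _ _ hE hE' => rw [Finsupp.mapDomain_add, Finsupp.mapDomain_add, hE, hE']
  | neg E _ hE =>
    rw [← Finsupp.mapDomain.addMonoidHom_apply, ← Finsupp.mapDomain.addMonoidHom_apply, _root_.map_neg,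
      _root_.map_neg, Finsupp.mapDomain.addMonoidHom_apply, Finsupp.mapDomain.addMonoidHom_apply, hE]

/-- two place reductions agree on divisors some nonzero multiple of which is principal -/
theorem mapDomain_eq_of_nsmul_mem_principal
    {r₁ r₂ : Place L (laurentBaseChange L (modularFunctionFieldFull N)) →
      Place k (modularFunctionFieldFullC k N)}
    (h₁ : IsPlaceReductionAlong A π N r₁) (h₂ : IsPlaceReductionAlong A π N r₂)
    (hgen : PrincipalGeneratedByIntegral A π N)
    {D : Divisor L (laurentBaseChange L (modularFunctionFieldFull N))} {m : ℕ} (hm : m ≠ 0)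
    (hD : m • D ∈
      Divisor.principal (K := L) (F := laurentBaseChange L (modularFunctionFieldFull N))) :
    Finsupp.mapDomain r₁ D = Finsupp.mapDomain r₂ D := by
  have h := mapDomain_eq_of_mem_principal h₁ h₂ hgen hD
  rw [← Finsupp.mapDomain.addMonoidHom_apply, ← Finsupp.mapDomain.addMonoidHom_apply,
    map_nsmul, map_nsmul, Finsupp.mapDomain.addMonoidHom_apply,
    Finsupp.mapDomain.addMonoidHom_apply] at h
  ext Q
  have hQ := DFunLike.congr_fun h Q
  rw [Finsupp.smul_apply, Finsupp.smul_apply, nsmul_eq_mul, nsmul_eq_mul] at hQ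
  exact mul_left_cancel₀ (Nat.cast_ne_zero.mpr hm) hQ

/-- on torsion classes the reduction map does not depend on the place reduction -/
theorem reductionPic0Along_eq_of_nsmul_eq_zero
    {r₁ r₂ : Place L (laurentBaseChange L (modularFunctionFieldFull N)) →
      Place k (modularFunctionFieldFullC k N)}
    (h₁ : IsPlaceReductionAlong A π N r₁) (h₂ : IsPlaceReductionAlong A π N r₂)
    (hgen : PrincipalGeneratedByIntegral A π N) {m : ℕ} (hm : m ≠ 0)
    {x : Pic0 L (laurentBaseChange L (modularFunctionFieldFull N))} (hx : m • x = 0) :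
    reductionPic0Along r₁ h₁ hgen x = reductionPic0Along r₂ h₂ hgen x := by
  obtain ⟨D, rfl⟩ := Pic0.mk_surjective x
  rw [reductionPic0Along_mk, reductionPic0Along_mk]
  congr 1
  apply Subtype.ext
  rw [coe_reductionDegZeroAlong, coe_reductionDegZeroAlong]
  refine mapDomain_eq_of_nsmul_mem_principal h₁ h₂ hgen hm ?_
  have h0 : (m • D : Divisor.degZero (K := L)
      (F := laurentBaseChange L (modularFunctionFieldFull N))) ∈
      (Divisor.principal (K := L)
        (F := laurentBaseChange L (modularFunctionFieldFull N))).addSubgroupOf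
        (Divisor.degZero (K := L) (F := laurentBaseChange L (modularFunctionFieldFull N))) := by
    rw [← QuotientAddGroup.eq_zero_iff]
    exact hx
  rw [AddSubgroup.mem_addSubgroupOf, AddSubgroupClass.coe_nsmul] at h0
  exact h0

end Torsion

section Main

variable {N : ℕ} [NeZero N] {A : ValuationSubring (AlgebraicClosure ℚ)} {ℓ : ℕ} [NeZero ℓ]
  {σ₀ : AlgebraicClosure ℚ ≃ₐ[ℚ] AlgebraicClosure ℚ}

/-- the reduction map on `J₀(N)` attached to a `PlaceRed` -/
def PlaceRed.red (D : PlaceRed N A ℓ σ₀) : JZero N →+ JZeroC (IsLocalRing.ResidueField A) N :=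
  reductionPic0Along D.r D.isRed D.gen

theorem PlaceRed.red_mk (D : PlaceRed N A ℓ σ₀)
    (E : Divisor.degZero (K := AlgebraicClosure ℚ) (F := modularFunctionFieldBar N)) :
    D.red (Pic0.mk E) = Pic0.mk (reductionDegZeroAlong D.r D.isRed.1 E) := rfl

theorem PlaceRed.reductionInputs (D : PlaceRed N A ℓ σ₀) : ReductionInputsModL A N :=
  ⟨D.r, D.isRed, D.gen⟩

/-- on torsion classes `D.red` is the Prelude reduction map -/
theorem PlaceRed.red_eq_reductionModL (D : PlaceRed N A ℓ σ₀) {m : ℕ} (hm : m ≠ 0)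
    {x : JZero N} (hx : m • x = 0) : D.red x = reductionModL A N x := by
  have h := D.reductionInputs
  show reductionPic0Along D.r D.isRed D.gen x = reductionAlong A (IsLocalRing.residue A) N x
  rw [reductionAlong_eq h]
  exact reductionPic0Along_eq_of_nsmul_eq_zero D.isRed h.choose_spec.1 D.gen hm hx

/-- inertia acts trivially after reduction -/
theorem PlaceRed.red_inertia (D : PlaceRed N A ℓ σ₀)
    {τ : AlgebraicClosure ℚ ≃ₐ[ℚ] AlgebraicClosure ℚ} (hτ : τ ∈ A.inertiaSubgroupIn ℚ)
    (x : JZero N) : D.red (τ • x) = D.red x := by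
  obtain ⟨E, rfl⟩ := Pic0.mk_surjective x
  rw [galois_smul_pic0_def, SemilinearAut.pic0_smul_mk, D.red_mk, D.red_mk]
  congr 1
  apply Subtype.ext
  rw [coe_reductionDegZeroAlong, coe_reductionDegZeroAlong, SemilinearAut.coe_degZeroSMulHom,
    SemilinearAut.divisor_smul_def, ← Finsupp.mapDomain_comp]
  congr 1
  funext P
  exact D.inertia τ hτ P

/-- injectivity on prime-to-`ℓ` torsion, from the conclusion of S18 -/
theorem PlaceRed.red_inj_torsion (D : PlaceRed N A ℓ σ₀) (hS18 : InjTorsionModL N ℓ A)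
    {m : ℕ} (hm : ¬ ℓ ∣ m) {x : JZero N} (hx : m • x = 0) (h0 : D.red x = 0) : x = 0 := by
  have hm0 : m ≠ 0 := fun h => hm (h ▸ dvd_zero ℓ)
  refine hS18 D.reductionInputs m hm x hx ?_
  rw [← D.red_eq_reductionModL hm0 hx]
  exact h0

/-- the Eichler-Shimura relation on divisors -/
theorem PlaceRed.mapDomain_relation (D : PlaceRed N A ℓ σ₀)
    (hα : HeckeAlphaBarIntegral (AlgebraicClosure ℚ) N ℓ)
    (hβ : HeckeBetaBarIntegral (AlgebraicClosure ℚ) N ℓ)
    [HasPrincipalDivisors (AlgebraicClosure ℚ) (modularFunctionFieldBar (N * ℓ))]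
    (E : Divisor (AlgebraicClosure ℚ) (modularFunctionFieldBar N)) :
    Finsupp.mapDomain D.r
      (arithmeticGalois (modularFunctionFieldFull N) σ₀ •
          arithmeticGalois (modularFunctionFieldFull N) σ₀ • E -
        heckeDivBar hα hβ (arithmeticGalois (modularFunctionFieldFull N) σ₀ • E) +
        ℓ • E) = 0 := by
  set g := arithmeticGalois (modularFunctionFieldFull N) σ₀ with hg
  let Ψ : Divisor (AlgebraicClosure ℚ) (modularFunctionFieldBar N) →+
      Divisor (IsLocalRing.ResidueField A)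
        (modularFunctionFieldFullC (IsLocalRing.ResidueField A) N) :=
    (Finsupp.mapDomain.addMonoidHom D.r).comp
      ((DistribSMul.toAddMonoidHom _ g).comp (DistribSMul.toAddMonoidHom _ g) -
        (heckeDivBar hα hβ).comp (DistribSMul.toAddMonoidHom _ g) +
        ℓ • AddMonoidHom.id _)
  have hΨ : Ψ = 0 := by
    refine Finsupp.addHom_ext' fun P => ?_
    refine AddMonoidHom.ext_int ?_
    show Finsupp.mapDomain D.r (g • g • Finsupp.single P 1 -
      heckeDivBar hα hβ (g • Finsupp.single P 1) + ℓ • Finsupp.single P 1) = 0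
    rw [SemilinearAut.smul_single, SemilinearAut.smul_single, Finsupp.mapDomain_add,
      Finsupp.mapDomain_sub, D.es hα hβ (g • P), inv_smul_smul, Finsupp.mapDomain_single,
      Finsupp.smul_single, Finsupp.mapDomain_single, nsmul_eq_mul, mul_one]
    abel
  exact DFunLike.congr_fun hΨ E

end Main

end Fermat.Agent.S37.Core

end
end
-- ===== PACK-END S37/Core/PlaceRed.lean

-- ===== PACK-BEGIN S24/H864/FF3e.lean
section



/-!
# S24 / ALG / FF3: a principal divisor has degree zero
-/

set_option autoImplicit false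

noncomputable section

open AlgebraicCurve IntermediateField

namespace Fermat.Agent.S24.H864

variable {K F : Type*} [Field K] [Field F] [Algebra K F]

theorem adjoin_simple_inv_eq (f : F) : K⟮f⁻¹⟯ = K⟮f⟯ := by
  apply le_antisymm
  · rw [IntermediateField.adjoin_simple_le_iff]
    exact _root_.InvMemClass.inv_mem (IntermediateField.mem_adjoin_simple_self K f)
  · rw [IntermediateField.adjoin_simple_le_iff]
    have h := _root_.InvMemClass.inv_mem (IntermediateField.mem_adjoin_simple_self K f⁻¹)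
    rwa [inv_inv] at h

theorem transcendental_inv {f : F} (hf : Transcendental K f) : Transcendental K f⁻¹ := by
  intro h
  apply hf
  have := h.inv
  rwa [inv_inv] at this

variable [IsAlgClosed K] [CharZero K]

/-- the number of zeros equals the number of poles -/
theorem sum_ord_pos_eq_sum_ord_neg (f : F) (hf : Transcendental K f)
    [FiniteDimensional ↥(IntermediateField.adjoin K {f}) F]
    (sp sn : Finset (Place K F)) (hsp : ∀ v : Place K F, v ∈ sp ↔ 0 < v.ord f)
    (hsn : ∀ v : Place K F, v ∈ sn ↔ v.ord f < 0) :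
    ∑ v ∈ sp, v.ord f + ∑ v ∈ sn, v.ord f = 0 := by
  have h1 := fundamental_identity f hf sp hsp
  have hfi : Transcendental K f⁻¹ := transcendental_inv hf
  haveI : FiniteDimensional ↥(IntermediateField.adjoin K {f⁻¹}) F := by
    rw [adjoin_simple_inv_eq]; infer_instance
  have hsn' : ∀ v : Place K F, v ∈ sn ↔ 0 < v.ord f⁻¹ := by
    intro v
    rw [hsn, Place.ord_inv]
    omega
  have h2 := fundamental_identity f⁻¹ hfi sn hsn'
  have h3 : Module.finrank ↥(IntermediateField.adjoin K {f⁻¹}) F
      = Module.finrank ↥(IntermediateField.adjoin K {f}) F := by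
    rw [adjoin_simple_inv_eq]
  have h4 : ∑ v ∈ sn, v.ord f = -∑ v ∈ sn, v.ord f⁻¹ := by
    rw [← Finset.sum_neg_distrib]
    refine Finset.sum_congr rfl fun v _ => ?_
    rw [Place.ord_inv, neg_neg]
  rw [h1, h4, h2, h3]
  ring

/-- **FF3.**  A principal divisor has degree zero. -/
theorem degree_principal (j : F) (hj : Transcendental K j)
    [FiniteDimensional ↥(IntermediateField.adjoin K {j}) F] (f : F) (hf : f ≠ 0)
    (D : Divisor K F) (hD : ∀ v : Place K F, D v = v.ord f) : Divisor.degree D = 0 := by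
  classical
  have hdeg : Divisor.degree D = ∑ v ∈ D.support, v.ord f := by
    show Finsupp.liftAddHom (fun v : Place K F => AddMonoidHom.mulRight (v.deg : ℤ)) D = _
    rw [Finsupp.liftAddHom_apply, Finsupp.sum]
    refine Finset.sum_congr rfl fun v _ => ?_
    rw [AddMonoidHom.coe_mulRight, hD v, FF.deg_eq_one v hj]
    simp
  rw [hdeg]
  by_cases hfK : f ∈ (algebraMap K F).range
  · obtain ⟨c, rfl⟩ := hfK
    refine Finset.sum_eq_zero fun v _ => FF.ord_algebraMap v c
  · have hft : Transcendental K f := FF.transcendental_of_not_mem_range hfK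
    haveI : FiniteDimensional ↥(IntermediateField.adjoin K {f}) F :=
      FF.finiteDimensional_adjoin_of_transcendental hj hft
    have hsupp : ∀ v : Place K F, v ∈ D.support ↔ v.ord f ≠ 0 := by
      intro v
      rw [Finsupp.mem_support_iff, hD v]
    set sp := D.support.filter (fun v => 0 < v.ord f) with hsp
    set sn := D.support.filter (fun v => v.ord f < 0) with hsn
    have hsp' : ∀ v : Place K F, v ∈ sp ↔ 0 < v.ord f := by
      intro v
      rw [hsp, Finset.mem_filter, hsupp]
      constructor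
      · exact fun h => h.2
      · exact fun h => ⟨by omega, h⟩
    have hsn' : ∀ v : Place K F, v ∈ sn ↔ v.ord f < 0 := by
      intro v
      rw [hsn, Finset.mem_filter, hsupp]
      constructor
      · exact fun h => h.2
      · exact fun h => ⟨by omega, h⟩
    have hkey := sum_ord_pos_eq_sum_ord_neg f hft sp sn hsp' hsn'
    have hunion : D.support = sp ∪ sn := by
      ext v
      rw [Finset.mem_union, hsp', hsn', hsupp]
      omega
    have hdisj : Disjoint sp sn := by
      rw [Finset.disjoint_left]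
      intro v h1 h2
      rw [hsp'] at h1
      rw [hsn'] at h2
      omega
    rw [hunion, Finset.sum_union hdisj]
    exact hkey

end Fermat.Agent.S24.H864

end
end
-- ===== PACK-END S24/H864/FF3e.lean

-- ===== PACK-BEGIN S29/H395/GoodProd.lean
section
/-
S29 / layer M / bridge BR, piece NORM — helper395.

`heckeProd ℓ` preserves the landed ring `S24.H648.goodRing N` (holomorphic, `Γ₀(N)`-invariant, all
`SL₂(ℤ)`-translates of at most exponential growth), for a prime `ℓ ∤ N`.
-/



set_option autoImplicit false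
set_option linter.style.haveILetI false

noncomputable section

open CongruenceSubgroup Matrix.SpecialLinearGroup UpperHalfPlane
open scoped MatrixGroups Real Manifold OnePoint
open P2MW.S_ModularForm_heckeT_slash_eq_self_of_mem_Gamma0.ModularForm.HeckeSlashInvariance

namespace Fermat.Agent.S29.H395

open Fermat.Agent.S24 Fermat.Agent.S24.H648 Fermat.Agent.S29.H201

/-! ### Finite products -/

theorem mdiff_finset_prod {ι : Type*} (s : Finset ι) (f : ι → ℍ → ℂ)
    (h : ∀ i ∈ s, MDifferentiable 𝓘(ℂ) 𝓘(ℂ) (f i)) :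
    MDifferentiable 𝓘(ℂ) 𝓘(ℂ) (fun τ => ∏ i ∈ s, f i τ) := by
  classical
  induction s using Finset.induction_on with
  | empty => simpa using (mdifferentiable_const : MDifferentiable 𝓘(ℂ) 𝓘(ℂ) (fun _ : ℍ => (1 : ℂ)))
  | insert i s hi ih =>
    have h1 := h i (Finset.mem_insert_self i s)
    have h2 := ih fun j hj => h j (Finset.mem_insert_of_mem hj)
    have := h1.mul h2
    have e : (fun τ => ∏ j ∈ insert i s, f j τ) = f i * fun τ => ∏ j ∈ s, f j τ := by
      funext τ
      simp [Finset.prod_insert hi]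
    rw [e]
    exact this

theorem expGrowth_finset_prod {ι : Type*} (s : Finset ι) (f : ι → ℍ → ℂ)
    (h : ∀ i ∈ s, ExpGrowth (f i)) : ExpGrowth (fun τ => ∏ i ∈ s, f i τ) := by
  classical
  induction s using Finset.induction_on with
  | empty => simpa using expGrowth_const 1
  | insert i s hi ih =>
    have h1 := h i (Finset.mem_insert_self i s)
    have h2 := ih fun j hj => h j (Finset.mem_insert_of_mem hj)
    have := h1.mul h2
    have e : (fun τ => ∏ j ∈ insert i s, f j τ) = f i * fun τ => ∏ j ∈ s, f j τ := by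
      funext τ
      simp [Finset.prod_insert hi]
    rw [e]
    exact this

/-! ### Holomorphy -/

section Hol

variable {ℓ : ℕ} [Fact ℓ.Prime]

omit [Fact ℓ.Prime] in
theorem heckeRep_det_pos (x : OnePoint (ZMod ℓ)) : 0 < ((_root_.P2MW.S_ModularForm_heckeT_slash_eq_self_of_mem_Gamma0.ModularForm.HeckeSlashInvariance.heckeRep ℓ x).det : ℝ) := by
  induction x using OnePoint.rec with
  | infty => exact ModularForm.det_heckeDiagMatrix_pos ℓ
  | coe j => exact ModularForm.det_heckeMatrix_pos ℓ j.val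

theorem mdiff_heckeProd {U : ℍ → ℂ} (hU : MDifferentiable 𝓘(ℂ) 𝓘(ℂ) U) :
    MDifferentiable 𝓘(ℂ) 𝓘(ℂ) (heckeProd ℓ U) := by
  refine mdiff_finset_prod Finset.univ (fun x τ => U (_root_.P2MW.S_ModularForm_heckeT_slash_eq_self_of_mem_Gamma0.ModularForm.HeckeSlashInvariance.heckeRep ℓ x • τ)) fun x _ => ?_
  exact hU.comp (UpperHalfPlane.mdifferentiable_smul (heckeRep_det_pos x))

end Hol

/-! ### Periodicity of the translates of an invariant function -/

theorem conj_T_pow_mem_Gamma0 (N : ℕ) (g : SL(2, ℤ)) :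
    g * ModularGroup.T ^ (N : ℤ) * g⁻¹ ∈ Gamma0 N := by
  have h1 : ModularGroup.T ^ (N : ℤ) ∈ _root_.CongruenceSubgroup.Gamma N := by
    have := ModularGroup_T_pow_mem_Gamma (N : ℤ) (N : ℤ) dvd_rfl
    simpa using this
  have h2 : g * ModularGroup.T ^ (N : ℤ) * g⁻¹ ∈ _root_.CongruenceSubgroup.Gamma N := (Gamma_normal N).conj_mem _ h1 g
  rw [Gamma0_mem]
  exact (Gamma_mem.mp h2).2.2.1

theorem translate_periodic {N : ℕ} {G : ℍ → ℂ}
    (hG : ∀ γ ∈ Gamma0 N, ∀ τ : ℍ, G (γ • τ) = G τ) (g : SL(2, ℤ)) (τ : ℍ) :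
    G (g • ((N : ℝ) +ᵥ τ)) = G (g • τ) := by
  have h1 : ((N : ℝ) +ᵥ τ) = ModularGroup.T ^ (N : ℤ) • τ := by
    rw [UpperHalfPlane.modular_T_zpow_smul]; simp
  have h2 : g • (ModularGroup.T ^ (N : ℤ) • τ)
      = (g * ModularGroup.T ^ (N : ℤ) * g⁻¹) • (g • τ) := by
    rw [← mul_smul, ← mul_smul, inv_mul_cancel_right]
  rw [h1, h2, hG _ (conj_T_pow_mem_Gamma0 N g)]

theorem continuous_translate {G : ℍ → ℂ} (hG : MDifferentiable 𝓘(ℂ) 𝓘(ℂ) G) (g : SL(2, ℤ)) :
    Continuous (fun τ : ℍ => G (g • τ)) := by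
  have h : MDifferentiable 𝓘(ℂ) 𝓘(ℂ) (fun τ : ℍ => G (g • τ)) :=
    hG.comp (UpperHalfPlane.mdifferentiable_smul (g := (g : GL (Fin 2) ℝ)) (by simp))
  exact h.continuous

/-! ### The main statement -/

section Main

variable {N : ℕ} [NeZero N] {ℓ : ℕ} [Fact ℓ.Prime]

/-- Growth of a single factor `τ ↦ G (heckeRep x • g • τ)`. -/
theorem expGrowth_factor {G : ℍ → ℂ} (hG : G ∈ goodRing N) (g : SL(2, ℤ))
    (x : OnePoint (ZMod ℓ)) : ExpGrowth (fun τ => G (_root_.P2MW.S_ModularForm_heckeT_slash_eq_self_of_mem_Gamma0.ModularForm.HeckeSlashInvariance.heckeRep ℓ x • (g • τ))) := by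
  obtain ⟨hmd, hinv, hgr⟩ := hG
  have hℓ1 : ¬ ℓ ∣ 1 := (Fact.out : ℓ.Prime).one_lt.ne' ∘ Nat.dvd_one.mp
  have hℓ : 0 < ℓ := (Fact.out : ℓ.Prime).pos
  obtain ⟨g', -, hg'⟩ := heckeRep_mul hℓ1 g (one_dvd _) x
  have hNpos : (0 : ℝ) < (N : ℝ) := by exact_mod_cast Nat.pos_of_ne_zero (NeZero.ne N)
  have key : ∀ τ : ℍ, G (_root_.P2MW.S_ModularForm_heckeT_slash_eq_self_of_mem_Gamma0.ModularForm.HeckeSlashInvariance.heckeRep ℓ x • (g • τ))
      = G (g' • (_root_.P2MW.S_ModularForm_heckeT_slash_eq_self_of_mem_Gamma0.ModularForm.HeckeSlashInvariance.heckeRep ℓ (redMatrix ℓ g • x) • τ)) := by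
    intro τ
    show G (_root_.P2MW.S_ModularForm_heckeT_slash_eq_self_of_mem_Gamma0.ModularForm.HeckeSlashInvariance.heckeRep ℓ x • (mapGL ℝ g • τ)) = G (mapGL ℝ g' • (_root_.P2MW.S_ModularForm_heckeT_slash_eq_self_of_mem_Gamma0.ModularForm.HeckeSlashInvariance.heckeRep ℓ (redMatrix ℓ g • x) • τ))
    rw [← mul_smul, ← mul_smul, hg']
  have hF := continuous_translate hmd g'
  have hper := translate_periodic hinv g'
  generalize redMatrix ℓ g • x = y at key
  induction y using OnePoint.rec with
  | infty =>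
    have := expGrowth_comp_infAff hF hNpos hper (hgr g') hℓ one_pos 0
    have e : (fun τ => G (_root_.P2MW.S_ModularForm_heckeT_slash_eq_self_of_mem_Gamma0.ModularForm.HeckeSlashInvariance.heckeRep ℓ x • (g • τ))) = fun τ => G (g' • infAff ℓ 0 1 τ) := by
      funext τ
      rw [key τ, heckeRep_infty_smul]
    rw [e]
    exact this
  | coe j =>
    have := expGrowth_comp_infAff hF hNpos hper (hgr g') one_pos hℓ (j.val : ℤ)
    have e : (fun τ => G (_root_.P2MW.S_ModularForm_heckeT_slash_eq_self_of_mem_Gamma0.ModularForm.HeckeSlashInvariance.heckeRep ℓ x • (g • τ)))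
        = fun τ => G (g' • infAff 1 (j.val : ℤ) ℓ τ) := by
      funext τ
      rw [key τ, heckeRep_coe_smul]
    rw [e]
    exact this

/-- **`heckeProd ℓ` preserves good functions** (`ℓ ∤ N` prime). -/
theorem heckeProd_mem_goodRing (hℓN : ¬ ℓ ∣ N) {G : ℍ → ℂ} (hG : G ∈ goodRing N) :
    heckeProd ℓ G ∈ goodRing N := by
  refine ⟨mdiff_heckeProd hG.1, fun γ hγ τ => ?_, fun g => ?_⟩
  · have h := heckeProd_smul hℓN (h := G) (c := fun _ => 1)
      (fun γ τ => by rw [one_mul]; exact hG.2.1 _ γ.2 τ) ⟨γ, hγ⟩ τ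
    simpa using h
  · exact expGrowth_finset_prod Finset.univ
      (fun x τ => G (_root_.P2MW.S_ModularForm_heckeT_slash_eq_self_of_mem_Gamma0.ModularForm.HeckeSlashInvariance.heckeRep ℓ x • (g • τ))) fun x _ => expGrowth_factor hG g x

end Main

end Fermat.Agent.S29.H395

end

end
-- ===== PACK-END S29/H395/GoodProd.lean

-- ===== PACK-BEGIN S29/H222/ESKDiv.lean
section
/-
S29 / helper222 — piece ESK, part 2: divisors of functions (`IsDivOf`), their behaviour under
products, powers and semilinear automorphisms, and the decomposition of a principal divisor as a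
difference of divisors of INTEGRAL series (from the Prelude's `PrincipalGeneratedByIntegral`).
-/


set_option autoImplicit false
set_option linter.style.haveILetI false

noncomputable section

namespace Fermat.Agent.S29.H222

open ModularCurve AlgebraicCurve HahnSeries IsLocalRing
open Fermat.Agent.S18 (Qb IsInt toF CoreStatement)

section Generic

variable {K F : Type*} [Field K] [Field F] [Algebra K F]

/-- `D` is the divisor of the function `f`. -/
def IsDivOf (f : F) (D : Divisor K F) : Prop := ∀ v : Place K F, D v = v.ord f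

theorem IsDivOf.mul {f g : F} {D E : Divisor K F} (hf0 : f ≠ 0) (hg0 : g ≠ 0)
    (hf : IsDivOf f D) (hg : IsDivOf g E) : IsDivOf (f * g) (D + E) := fun v => by
  rw [Finsupp.add_apply, hf v, hg v, v.ord_mul hf0 hg0]

theorem esk_ord_pow (v : Place K F) (f : F) (n : ℕ) : v.ord (f ^ n) = n * v.ord f := by
  have := v.ord_zpow f (n : ℤ)
  simpa using this

theorem IsDivOf.pow {f : F} {D : Divisor K F} (hf : IsDivOf f D) (n : ℕ) :
    IsDivOf (f ^ n) ((n : ℤ) • D) := fun v => by
  rw [Finsupp.smul_apply, hf v, esk_ord_pow, smul_eq_mul]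

theorem IsDivOf.smul {f : F} {D : Divisor K F} (g : SemilinearAut K F) (hf : IsDivOf f D) :
    IsDivOf (g • f) (g • D) := fun w => by
  rw [SemilinearAut.divisor_smul_apply, hf (g⁻¹ • w)]
  have h := SemilinearAut.ord_smul g (g⁻¹ • w) f
  rw [smul_inv_smul] at h
  exact h.symm

theorem esk_ord_algebraMap (v : Place K F) {c : K} (hc : c ≠ 0) :
    v.ord (algebraMap K F c) = 0 := by
  have h1 : algebraMap K F c ∈ v.toValuationSubring := v.algebraMap_mem' c
  have h2 : algebraMap K F c⁻¹ ∈ v.toValuationSubring := v.algebraMap_mem' c⁻¹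
  let u : (v.toValuationSubring)ˣ :=
    { val := ⟨algebraMap K F c, h1⟩
      inv := ⟨algebraMap K F c⁻¹, h2⟩
      val_inv := by
        apply Subtype.ext
        show algebraMap K F c * algebraMap K F c⁻¹ = 1
        rw [← _root_.map_mul, mul_inv_cancel₀ hc, _root_.map_one]
      inv_val := by
        apply Subtype.ext
        show algebraMap K F c⁻¹ * algebraMap K F c = 1
        rw [← _root_.map_mul, inv_mul_cancel₀ hc, _root_.map_one] }
  exact v.ord_coe_unit u

/-- **Kummer criterion**: if `V₁ = c · y ^ m · V₂` and `div V₁ - div V₂ = m • E` (`m ≠ 0`), then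
`E` is the divisor of `y`; in particular `E` is principal. -/
theorem isDivOf_of_eq_const_mul_pow {m : ℕ} (hm : m ≠ 0) {V₁ V₂ y : F} {c : K} (hc : c ≠ 0)
    (hy : y ≠ 0) (hV₂ : V₂ ≠ 0) (h : V₁ = algebraMap K F c * y ^ m * V₂)
    {E : Divisor K F} (hE : ∀ v : Place K F, (m : ℤ) * E v = v.ord V₁ - v.ord V₂) :
    IsDivOf y E := fun v => by
  have hc' : algebraMap K F c ≠ 0 := by
    simpa using hc
  have h1 : v.ord V₁ = (m : ℤ) * v.ord y + v.ord V₂ := by
    rw [h, v.ord_mul (mul_ne_zero hc' (pow_ne_zero m hy)) hV₂,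
      v.ord_mul hc' (pow_ne_zero m hy), esk_ord_algebraMap v hc, esk_ord_pow, zero_add]
  have h2 : (m : ℤ) * E v = (m : ℤ) * v.ord y := by rw [hE v, h1]; ring
  exact mul_left_cancel₀ (Int.natCast_ne_zero.mpr hm) h2

end Generic

variable {A : ValuationSubring Qb} {N : ℕ}

/-- A principal divisor is the difference of the divisors of two integral series. -/
theorem exists_isInt_of_principal
    (hpgi : PrincipalGeneratedByIntegral A (residue A) N)
    {D : Divisor Qb (modularFunctionFieldBar N)}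
    (hD : D ∈ Divisor.principal (K := Qb) (F := modularFunctionFieldBar N)) :
    ∃ (U₁ U₂ : LaurentSeries A) (h₁ : IsInt A N U₁) (h₂ : IsInt A N U₂)
      (D₁ D₂ : Divisor Qb (modularFunctionFieldBar N)),
      IsDivOf (toF h₁) D₁ ∧ IsDivOf (toF h₂) D₂ ∧ D = D₁ - D₂ := by
  have hD' := hpgi hD
  clear hD
  induction hD' using AddSubgroup.closure_induction with
  | mem E hE =>
      obtain ⟨y, hy, hyk, hne, hEy⟩ := hE
      refine ⟨y, 1, ⟨hy, hyk, hne⟩, isInt_one, E, 0, fun v => hEy v, fun v => ?_, by simp⟩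
      have : toF (isInt_one (A := A) (N := N)) = 1 := Subtype.ext (_root_.map_one _)
      rw [this]
      simp
  | zero =>
      refine ⟨1, 1, isInt_one, isInt_one, 0, 0, fun v => ?_, fun v => ?_, by simp⟩ <;>
      · have : toF (isInt_one (A := A) (N := N)) = 1 := Subtype.ext (_root_.map_one _)
        rw [this]
        simp
  | add E E' _ _ hE hE' =>
      obtain ⟨U₁, U₂, h₁, h₂, D₁, D₂, hd₁, hd₂, rfl⟩ := hE
      obtain ⟨U₁', U₂', h₁', h₂', D₁', D₂', hd₁', hd₂', rfl⟩ := hE'
      refine ⟨U₁ * U₁', U₂ * U₂', isInt_mul h₁ h₁', isInt_mul h₂ h₂', D₁ + D₁', D₂ + D₂',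
        ?_, ?_, by abel⟩
      · rw [toF_mul h₁ h₁']
        exact hd₁.mul (toF_ne_zero h₁) (toF_ne_zero h₁') hd₁'
      · rw [toF_mul h₂ h₂']
        exact hd₂.mul (toF_ne_zero h₂) (toF_ne_zero h₂') hd₂'
  | neg E _ hE =>
      obtain ⟨U₁, U₂, h₁, h₂, D₁, D₂, hd₁, hd₂, rfl⟩ := hE
      exact ⟨U₂, U₁, h₂, h₁, D₂, D₁, hd₂, hd₁, by abel⟩

end Fermat.Agent.S29.H222

end
end
-- ===== PACK-END S29/H222/ESKDiv.lean

-- ===== PACK-BEGIN S29/H801/M1LG.lean
section
/-
S29 / M1 (helper801), part 6: local generators along any integral map of function fields,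
from the weak approximation theorem of the shared library RR (helper623).
-/




set_option autoImplicit false
set_option linter.style.haveILetI false

noncomputable section

namespace Fermat.Agent.S29.H801

open AlgebraicCurve Fermat.Agent.S37.H818

variable {K F F₁ : Type*} [Field K] [Field F] [Field F₁] [Algebra K F] [Algebra K F₁]

/-- **Local generators** exist along every integral map (fibres are finite as soon as the
target has principal divisors): weak approximation on the fibre. -/
theorem hasLocalGenerators_of_hasPrincipalDivisors [HasPrincipalDivisors K F₁]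
    (a : F →ₐ[K] F₁) (ha : a.toRingHom.IsIntegral) : HasLocalGenerators a ha := by
  classical
  intro w
  obtain ⟨z, hz⟩ := Fermat.Agent.Lib.RR.H623.weak_approximation
    (Place.fiberAlong a ha (w.restrictAlong a ha)) (fun _ => (0 : F₁))
    (fun v => if v = w then 1 else 0)
  have hw : w ∈ Place.fiberAlong a ha (w.restrictAlong a ha) := Place.mem_fiberAlong.mpr rfl
  refine ⟨z, ?_, ?_, ?_⟩
  · have := (hz w hw).1
    simpa using this
  · have := (hz w hw).2
    simp only [sub_zero, if_true] at this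
    rw [this]
    exact one_ne_zero
  · intro w' hne hres
    have := (hz w' (Place.mem_fiberAlong.mpr hres)).2
    simpa [hne] using this

end Fermat.Agent.S29.H801

end

end
-- ===== PACK-END S29/H801/M1LG.lean

-- ===== PACK-BEGIN A2/Mod/H900/L7Core.lean
section



/-!
# A2 / MOD leaf L7 (helper900): Fricke stability of the Gauss valuation, core

`L ⊇ ℚ` a field, `A` a valuation subring of `L`, `k` its residue field, `N` a level with
`S28.CoreData N k` (true when `char k ∤ N`), `F = laurentBaseChange L (F_N)`.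

* `exists_decomp` : every `f ≠ 0` of `F` satisfies
  `f · G(j) = c · ∑ᵢ Hᵢ(j) yᵢ` with `G, Hᵢ ∈ A[X]` having a coefficient `1`, `c ∈ Lˣ`,
  `yᵢ ∈ ℤ[j_d : d ∣ N]` the S28 monomials (refined form of `S18.H516.exists_gauss_decomp`);
* `isGaussInt_iff_of_decomp` : `f` is Gauss-integral iff `c ∈ A`.
-/

set_option autoImplicit false
set_option linter.unusedSectionVars false
set_option synthInstance.maxHeartbeats 400000
set_option maxHeartbeats 1600000

noncomputable section

namespace Fermat.Agent.A2.Mod.H900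

open ModularCurve HahnSeries Polynomial IntermediateField Fermat.Agent.S28

section Generic

variable {L : Type} [Field L] [Algebra ℚ L] (A : ValuationSubring L)
variable (N : ℕ) [NeZero N]

/-- the residue map of `A`. -/
abbrev resA : A →+* IsLocalRing.ResidueField A := IsLocalRing.residue A

/-- integer series in `L((t))`. -/
abbrev castL (L : Type) [Field L] : LaurentSeries ℤ →+* LaurentSeries L :=
  coeffMap (Int.castRingHom L)

/-- **Refined Gauss decomposition** along the S28 basis. -/
theorem exists_decomp (core : CoreData N (IsLocalRing.ResidueField A)) {f : LaurentSeries L}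
    (hf : f ∈ laurentBaseChange L (modularFunctionFieldFull N)) (hf0 : f ≠ 0) :
    ∃ (n : ℕ) (y : Fin n → LaurentSeries ℤ) (c : L) (G : A[X]) (H : Fin n → A[X]),
      (∀ i, y i ∈ Subring.closure (intDivisorExpansions N)) ∧
      LinearIndependent (jField (IsLocalRing.ResidueField A))
        (fun i => coeffMap (Int.castRingHom (IsLocalRing.ResidueField A)) (y i)) ∧
      c ≠ 0 ∧ (∃ m, G.coeff m = 1) ∧ (∃ i m, (H i).coeff m = 1) ∧
      f * S18.H516.evJ (G.map A.subtype) =
        HahnSeries.C c * ∑ i, S18.H516.evJ ((H i).map A.subtype) * castL L (y i) := by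
  classical
  obtain ⟨n, y, hy, hspan, hli⟩ := core.exists_basis
  have hS : S18.H516.SpansQ N y := ⟨hy, hspan⟩
  have hfs := (S18.H516.mem_baseChange_iff_mem_spanL L hS).mp hf
  obtain ⟨G, H, hG, hGH⟩ := S18.H516.exists_cleared L _ hfs
  have hGne : S18.H516.evJ G ≠ 0 := fun h => hG ((S18.H516.evJ_eq_zero_iff L).mp h)
  have hH : ∃ i, H i ≠ 0 := by
    by_contra hcon
    push Not at hcon
    have : S18.H516.evJ G * f = 0 := by
      rw [hGH]
      exact Finset.sum_eq_zero fun i _ => by rw [hcon i, S18.H516.evJ_zero, zero_mul]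
    rcases mul_eq_zero.mp this with h | h
    · exact hGne h
    · exact hf0 h
  obtain ⟨g0, G', hg0, hG', i1, m1, hG1⟩ :=
    S18.H516.exists_scale A (fun _ : Fin 1 => G) ⟨0, hG⟩
  obtain rfl : i1 = 0 := Subsingleton.elim _ _
  obtain ⟨h0, H', hh0, hH', i0, m0, hH1⟩ := S18.H516.exists_scale A H hH
  refine ⟨n, y, h0 * g0⁻¹, G' 0, H', hy, hli, mul_ne_zero hh0 (inv_ne_zero hg0), ⟨m1, hG1⟩,
    ⟨i0, m0, hH1⟩, ?_⟩
  have h1 : ∀ i, S18.H516.evJ ((H' i).map A.subtype) = HahnSeries.C h0⁻¹ * S18.H516.evJ (H i) := by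
    intro i
    rw [hH' i, S18.H516.evJ_mul, S18.H516.evJ_C]
  have h2 : S18.H516.evJ ((G' 0).map A.subtype) = HahnSeries.C g0⁻¹ * S18.H516.evJ G := by
    rw [hG' 0, S18.H516.evJ_mul, S18.H516.evJ_C]
  have h3 : ∑ i, S18.H516.evJ ((H' i).map A.subtype) * castL L (y i) =
      HahnSeries.C h0⁻¹ * (S18.H516.evJ G * f) := by
    rw [hGH, Finset.mul_sum]
    refine Finset.sum_congr rfl fun i _ => ?_
    rw [h1 i]
    ring
  rw [h2, h3, _root_.map_mul]
  have hC : HahnSeries.C (Γ := ℤ) h0 * HahnSeries.C h0⁻¹ = 1 := by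
    rw [← _root_.map_mul, mul_inv_cancel₀ hh0, _root_.map_one]
  calc f * (HahnSeries.C g0⁻¹ * S18.H516.evJ G)
      = (HahnSeries.C (Γ := ℤ) h0 * HahnSeries.C h0⁻¹) *
          (HahnSeries.C g0⁻¹ * (S18.H516.evJ G * f)) := by
        rw [hC]; ring
    _ = HahnSeries.C h0 * HahnSeries.C g0⁻¹ *
          (HahnSeries.C h0⁻¹ * (S18.H516.evJ G * f)) := by ring

/-- In a refined decomposition, `f` is Gauss-integral iff the constant is integral. -/
theorem isGaussInt_iff_of_decomp {n : ℕ} {y : Fin n → LaurentSeries ℤ} {c : L} {G : A[X]}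
    {H : Fin n → A[X]} {f : LaurentSeries L}
    (hli : LinearIndependent (jField (IsLocalRing.ResidueField A))
      (fun i => coeffMap (Int.castRingHom (IsLocalRing.ResidueField A)) (y i)))
    (hG : ∃ m, G.coeff m = 1) (hH : ∃ i m, (H i).coeff m = 1)
    (he : f * S18.H516.evJ (G.map A.subtype) =
      HahnSeries.C c * ∑ i, S18.H516.evJ ((H i).map A.subtype) * castL L (y i)) :
    H708.IsGaussInt A (modularFunctionFieldFull N) f ↔ c ∈ A := by
  classical
  set U₂ : LaurentSeries A := S18.H516.evJ G with hU₂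
  set U₁ : LaurentSeries A := ∑ i, S18.H516.evJ (H i) * H708.castA A (y i) with hU₁
  have hU₂L : H708.incl A U₂ = S18.H516.evJ (G.map A.subtype) := by
    rw [hU₂, H708.incl, S18.H516.coeffMap_evJ]
  have hU₁L : H708.incl A U₁ = ∑ i, S18.H516.evJ ((H i).map A.subtype) * castL L (y i) := by
    rw [hU₁, _root_.map_sum]
    refine Finset.sum_congr rfl fun i _ => ?_
    rw [_root_.map_mul, H708.incl, S18.H516.coeffMap_evJ, H708.castA, coeffMap_coeffMap,
      show (A.subtype.comp (Int.castRingHom A)) = Int.castRingHom L from RingHom.ext_int _ _]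
  have hU₂k : H708.red A U₂ = S18.H516.evJ (G.map (IsLocalRing.residue A)) := by
    rw [hU₂, H708.red, S18.H516.coeffMap_evJ]
  have hU₁k : H708.red A U₁ = ∑ i, S18.H516.evJ ((H i).map (IsLocalRing.residue A)) *
      coeffMap (Int.castRingHom (IsLocalRing.ResidueField A)) (y i) := by
    rw [hU₁, _root_.map_sum]
    refine Finset.sum_congr rfl fun i _ => ?_
    rw [_root_.map_mul, H708.red, S18.H516.coeffMap_evJ, H708.castA, coeffMap_coeffMap,
      show ((IsLocalRing.residue A).comp (Int.castRingHom A)) =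
        Int.castRingHom (IsLocalRing.ResidueField A) from RingHom.ext_int _ _]
  have h₂ : H708.red A U₂ ≠ 0 := by
    rw [hU₂k]
    intro h1
    obtain ⟨m1, hG1⟩ := hG
    have h2 := (S18.H516.evJ_eq_zero_iff _).mp h1
    have h3 := congrArg (fun P : (IsLocalRing.ResidueField A)[X] => P.coeff m1) h2
    simp only [Polynomial.coeff_map, Polynomial.coeff_zero, hG1, _root_.map_one] at h3
    exact one_ne_zero h3
  have h₁ : H708.red A U₁ ≠ 0 := by
    rw [hU₁k]
    intro h0'
    obtain ⟨i0, m0, hH1⟩ := hH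
    have hli' := Fintype.linearIndependent_iff.mp hli
      (fun i => (⟨S18.H516.evJ ((H i).map (IsLocalRing.residue A)),
        S18.H516.evJ_mem_jField _ _⟩ : jField (IsLocalRing.ResidueField A))) h0' i0
    have h1 : S18.H516.evJ ((H i0).map (IsLocalRing.residue A)) = 0 :=
      congrArg Subtype.val hli'
    have h2 := (S18.H516.evJ_eq_zero_iff _).mp h1
    have h3 := congrArg (fun P : (IsLocalRing.ResidueField A)[X] => P.coeff m0) h2
    simp only [Polynomial.coeff_map, Polynomial.coeff_zero, hH1, _root_.map_one] at h3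
    exact one_ne_zero h3
  have hm₂ : H708.incl A U₂ ∈ laurentBaseChange L (modularFunctionFieldFull N) := by
    rw [hU₂L]
    exact S18.H516.jField_le_baseChange L (S18.H516.evJ_mem_jField L _)
  have he' : f * H708.incl A U₂ = H708.cst c * H708.incl A U₁ := by
    rw [hU₂L, hU₁L, he, H708.cst, algebraMap_laurentSeries_eq_single, HahnSeries.C_apply]
  exact H708.isGaussInt_iff_of_normal_form h₁ h₂ hm₂ he'

end Generic

section Fricke

variable {L : Type} [Field L] [Algebra ℚ L] (A : ValuationSubring L)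
variable (N : ℕ) [NeZero N]

/-- `F_{N,L}`. -/
abbrev FL (L : Type) [Field L] [Algebra ℚ L] (N : ℕ) : IntermediateField L (LaurentSeries L) :=
  laurentBaseChange L (modularFunctionFieldFull N)

/-- the generator `j_d` of `F_{N,L}`. -/
def jL (L : Type) [Field L] [Algebra ℚ L] (N : ℕ) (d : ℕ) [NeZero d] (hd : d ∣ N) : FL L N :=
  ⟨coeffEmb L (qExpand ℚ d jq), coeffEmb_mem_laurentBaseChange L (jqd_mem_full N hd)⟩

theorem coe_jL (d : ℕ) [NeZero d] (hd : d ∣ N) :
    ((jL L N d hd : FL L N) : LaurentSeries L) = qExpand L d (jqModC L) := by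
  show coeffEmb L (qExpand ℚ d jq) = _
  rw [coeffEmb, coeffMap_qExpand, ← jqModC_rat, coeffMap_jqModC]

theorem castL_gen (d : ℕ) [NeZero d] :
    castL L (qExpand ℤ d (jqModC ℤ)) = qExpand L d (jqModC L) := by
  rw [castL, coeffMap_qExpand, coeffMap_jqModC]

/-- `W` is a Fricke involution on generators. -/
def FrickeOnGens (W : FL L N ≃ₐ[L] FL L N) : Prop :=
  ∀ (d d' : ℕ) [NeZero d] [NeZero d'] (hd : d ∣ N) (hd' : d' ∣ N), d * d' = N →
    W (jL L N d hd) = jL L N d' hd'

variable {N}

/-- the S28 monomials and their Fricke images are integer series. -/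
theorem exists_int_of_closure {W : FL L N ≃ₐ[L] FL L N} (hW : FrickeOnGens N W)
    {y : LaurentSeries ℤ} (hy : y ∈ Subring.closure (intDivisorExpansions N)) :
    ∃ (g : FL L N) (y' : LaurentSeries ℤ), (g : LaurentSeries L) = castL L y ∧
      ((W g : FL L N) : LaurentSeries L) = castL L y' := by
  induction hy using Subring.closure_induction with
  | mem x hx =>
    obtain ⟨d, hd, hdN, rfl⟩ := hx
    have hN : N ≠ 0 := NeZero.ne N
    have hd0 : N / d ≠ 0 := by
      intro h
      rcases (Nat.div_eq_zero_iff).mp h with h1 | h1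
      · exact (NeZero.ne d) h1
      · exact absurd (Nat.le_of_dvd (Nat.pos_of_ne_zero hN) hdN) (not_le.mpr h1)
    have : NeZero (N / d) := ⟨hd0⟩
    refine ⟨jL L N d hdN, qExpand ℤ (N / d) (jqModC ℤ), ?_, ?_⟩
    · rw [coe_jL, castL_gen]
    · rw [hW d (N / d) hdN (Nat.div_dvd_of_dvd hdN) (Nat.mul_div_cancel' hdN), coe_jL, castL_gen]
  | zero => exact ⟨0, 0, by simp, by simp⟩
  | one => exact ⟨1, 1, by simp, by simp⟩
  | add x y _ _ hx hy =>
    obtain ⟨g, y', h1, h2⟩ := hx
    obtain ⟨g', y'', h1', h2'⟩ := hy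
    exact ⟨g + g', y' + y'', by rw [IntermediateField.coe_add, h1, h1', _root_.map_add],
      by rw [_root_.map_add, IntermediateField.coe_add, h2, h2', _root_.map_add]⟩
  | neg x _ hx =>
    obtain ⟨g, y', h1, h2⟩ := hx
    exact ⟨-g, -y', by rw [IntermediateField.coe_neg, h1, _root_.map_neg],
      by rw [_root_.map_neg, IntermediateField.coe_neg, h2, _root_.map_neg]⟩
  | mul x y _ _ hx hy =>
    obtain ⟨g, y', h1, h2⟩ := hx
    obtain ⟨g', y'', h1', h2'⟩ := hy
    exact ⟨g * g', y' * y'', by rw [IntermediateField.coe_mul, h1, h1', _root_.map_mul],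
      by rw [_root_.map_mul, IntermediateField.coe_mul, h2, h2', _root_.map_mul]⟩

/-- evaluation of a polynomial at `j = j_1` inside `F_{N,L}`: its series is `evJ`. -/
theorem coe_aeval_jL (Q : L[X]) :
    ((aeval (jL L N 1 (one_dvd N)) Q : FL L N) : LaurentSeries L) = S18.H516.evJ Q := by
  have h := Polynomial.aeval_algHom_apply (FL L N).val (jL L N 1 (one_dvd N)) Q
  have h1 : (FL L N).val (jL L N 1 (one_dvd N)) = jqModC L := by
    show ((jL L N 1 (one_dvd N) : FL L N) : LaurentSeries L) = _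
    rw [coe_jL, qExpand_one_apply]
  rw [h1] at h
  show (FL L N).val (aeval (jL L N 1 (one_dvd N)) Q) = _
  rw [← h, S18.H516.aeval_eq_evJ]

/-- evaluation of a polynomial at `j_N` inside `F_{N,L}`: its series is `qExpand N ∘ evJ`. -/
theorem coe_aeval_jL_top (Q : L[X]) :
    ((aeval (jL L N N dvd_rfl) Q : FL L N) : LaurentSeries L) =
      qExpand L N (S18.H516.evJ Q) := by
  have h := Polynomial.aeval_algHom_apply (FL L N).val (jL L N N dvd_rfl) Q
  have h1 : (FL L N).val (jL L N N dvd_rfl) = qExpandAlgHomC L N (jqModC L) := by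
    show ((jL L N N dvd_rfl : FL L N) : LaurentSeries L) = _
    rw [coe_jL, qExpandAlgHomC_apply]
  rw [h1, Polynomial.aeval_algHom_apply] at h
  show (FL L N).val (aeval (jL L N N dvd_rfl) Q) = _
  rw [← h, qExpandAlgHomC_apply, S18.H516.aeval_eq_evJ]

/-- **L7, core form.**  If `W` is an `L`-automorphism of `F_{N,L}` with `W j_d = j_{N/d}` and
`S28.CoreData N k` holds for the residue field `k` of `A`, then `W` preserves Gauss-integrality. -/
theorem frickeStable_core (core : CoreData N (IsLocalRing.ResidueField A))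
    {W : FL L N ≃ₐ[L] FL L N} (hW : FrickeOnGens N W) (f : FL L N)
    (hf : H708.IsGaussInt A (modularFunctionFieldFull N) (f : LaurentSeries L)) :
    H708.IsGaussInt A (modularFunctionFieldFull N) ((W f : FL L N) : LaurentSeries L) := by
  classical
  by_cases hf0 : f = 0
  · rw [hf0, _root_.map_zero]
    exact H708.IsGaussInt.zero
  have hf0' : (f : LaurentSeries L) ≠ 0 := fun h => hf0 (Subtype.ext h)
  obtain ⟨n, y, c, G, H, hy, hli, hc, hG, hH, he⟩ := exists_decomp A N core f.2 hf0'
  have hcA : c ∈ A := (isGaussInt_iff_of_decomp A N hli hG hH he).mp hf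
  -- the monomials inside `F`
  have hY : ∀ i, ∃ (g : FL L N) (y' : LaurentSeries ℤ), (g : LaurentSeries L) = castL L (y i) ∧
      ((W g : FL L N) : LaurentSeries L) = castL L y' := fun i => exists_int_of_closure hW (hy i)
  choose Y y' hY1 hY2 using hY
  -- the equation inside `F`
  have heF : f * aeval (jL L N 1 (one_dvd N)) (G.map A.subtype) =
      algebraMap L (FL L N) c *
        ∑ i, aeval (jL L N 1 (one_dvd N)) ((H i).map A.subtype) * Y i := by
    apply Subtype.ext
    rw [IntermediateField.coe_mul, IntermediateField.coe_mul, coe_aeval_jL, he,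
      IntermediateField.coe_sum]
    congr 1
    · show HahnSeries.C c = algebraMap L (LaurentSeries L) c
      rw [algebraMap_laurentSeries_eq_single, HahnSeries.C_apply]
    · refine Finset.sum_congr rfl fun i _ => ?_
      rw [IntermediateField.coe_mul, coe_aeval_jL, hY1 i]
  have hWj : W (jL L N 1 (one_dvd N)) = jL L N N dvd_rfl :=
    hW 1 N (one_dvd N) dvd_rfl (one_mul N)
  have hWaeval : ∀ Q : L[X], W (aeval (jL L N 1 (one_dvd N)) Q) = aeval (jL L N N dvd_rfl) Q := by
    intro Q
    have := Polynomial.aeval_algHom_apply (W : FL L N →ₐ[L] FL L N) (jL L N 1 (one_dvd N)) Q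
    rw [AlgEquiv.coe_toAlgHom, hWj] at this
    exact this.symm
  have heW := congrArg W heF
  rw [_root_.map_mul, _root_.map_mul, AlgEquiv.commutes, _root_.map_sum, hWaeval] at heW
  have heW' : ((W f : FL L N) : LaurentSeries L) *
      qExpand L N (S18.H516.evJ (G.map A.subtype)) =
      HahnSeries.C c * ∑ i, qExpand L N (S18.H516.evJ ((H i).map A.subtype)) * castL L (y' i) := by
    have h := congrArg (fun z : FL L N => (z : LaurentSeries L)) heW
    simp only [IntermediateField.coe_mul, IntermediateField.coe_sum] at h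
    rw [coe_aeval_jL_top] at h
    rw [h]
    congr 1
    · show algebraMap L (LaurentSeries L) c = HahnSeries.C c
      rw [algebraMap_laurentSeries_eq_single, HahnSeries.C_apply]
    · refine Finset.sum_congr rfl fun i _ => ?_
      rw [_root_.map_mul, hWaeval, IntermediateField.coe_mul, coe_aeval_jL_top, hY2 i]
  -- the integral model of `W f`
  set U₂ : LaurentSeries A := qExpand A N (S18.H516.evJ G) with hU₂
  set U₁ : LaurentSeries A := H708.cstA A ⟨c, hcA⟩ *
    ∑ i, qExpand A N (S18.H516.evJ (H i)) * H708.castA A (y' i) with hU₁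
  have hU₂L : H708.incl A U₂ = qExpand L N (S18.H516.evJ (G.map A.subtype)) := by
    rw [hU₂, H708.incl, coeffMap_qExpand, S18.H516.coeffMap_evJ]
  have hU₁L : H708.incl A U₁ =
      HahnSeries.C c * ∑ i, qExpand L N (S18.H516.evJ ((H i).map A.subtype)) * castL L (y' i) := by
    rw [hU₁, _root_.map_mul, H708.incl_cstA, H708.cst, algebraMap_laurentSeries_eq_single,
      HahnSeries.C_apply, _root_.map_sum]
    congr 1
    refine Finset.sum_congr rfl fun i _ => ?_
    rw [_root_.map_mul, H708.incl, coeffMap_qExpand, S18.H516.coeffMap_evJ, H708.castA,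
      coeffMap_coeffMap,
      show (A.subtype.comp (Int.castRingHom A)) = Int.castRingHom L from RingHom.ext_int _ _]
  refine ⟨U₁, U₂, ?_, ?_, ?_⟩
  · rw [hU₂, H708.red, coeffMap_qExpand, S18.H516.coeffMap_evJ]
    intro h1
    have h1' : S18.H516.evJ (G.map (IsLocalRing.residue A)) = 0 :=
      qExpand_injective N (by rw [h1, _root_.map_zero])
    obtain ⟨m1, hG1⟩ := hG
    have h2 := (S18.H516.evJ_eq_zero_iff _).mp h1'
    have h3 := congrArg (fun P : (IsLocalRing.ResidueField A)[X] => P.coeff m1) h2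
    simp only [Polynomial.coeff_map, Polynomial.coeff_zero, hG1, _root_.map_one] at h3
    exact one_ne_zero h3
  · rw [hU₂L, ← coe_aeval_jL_top]
    exact (aeval (jL L N N dvd_rfl) (G.map A.subtype) : FL L N).2
  · rw [hU₂L, hU₁L, heW']

end Fricke

end Fermat.Agent.A2.Mod.H900

end
end
-- ===== PACK-END A2/Mod/H900/L7Core.lean

-- ===== PACK-BEGIN S18/H203/KBasis.lean
section


/-!
# S18 / b1 (helper203): the lifted family is a basis of the generic fibre

Same setting as `LiftBasis.lean`; moreover `F / K` is algebraic.  If the reductions of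
`b : ι → B` form an `S̄`-basis of `B̄ = B ⧸ (w) B` then the images of the `b i` in `F` form a
`K`-basis of `F` (`basisOfLift`), so `card ι = [F : K]` (`card_eq_finrank`).
-/

set_option autoImplicit false

namespace Fermat.Agent.S18.H203

open Ideal

section

variable {S B : Type*} [CommRing S] [IsDomain S] [CommRing B] [Algebra S B]

/-- The integral closure in a field is torsion-free over the base. -/
theorem isTorsionFree_of_isIntegralClosure (K F : Type*) [Field K] [Algebra S K]
    [IsFractionRing S K] [Field F] [Algebra K F] [Algebra S F] [IsScalarTower S K F]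
    [Algebra B F] [IsScalarTower S B F] [IsIntegralClosure B S F] :
    Module.IsTorsionFree S B := by
  have hinjSF : Function.Injective (algebraMap S F) := by
    rw [IsScalarTower.algebraMap_eq S K F]
    exact (algebraMap K F).injective.comp (IsFractionRing.injective S K)
  have h1 : Module.IsTorsionFree S F := Module.isTorsionFree_iff_algebraMap_injective.mpr hinjSF
  exact Function.Injective.moduleIsTorsionFree (algebraMap B F)
    (IsIntegralClosure.algebraMap_injective B S F) fun r m => by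
      rw [Algebra.smul_def, _root_.map_mul, ← IsScalarTower.algebraMap_apply, Algebra.smul_def]

variable [IsNoetherianRing S] {ι : Type*} [Fintype ι]

/-- The lifts are linearly independent over `K` in `F`. -/
theorem linearIndependent_map_lift (K F : Type*) [Field K] [Algebra S K]
    [IsFractionRing S K] [Field F] [Algebra K F] [Algebra S F] [IsScalarTower S K F]
    [Algebra B F] [IsScalarTower S B F] [IsIntegralClosure B S F]
    {w : S} (hw : Prime w) (b : ι → B)
    (hli : LinearIndependent (S ⧸ Ideal.span {w}) fun i => redB (S := S) w (b i)) :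
    LinearIndependent K fun i => algebraMap B F (b i) := by
  have htf : Module.IsTorsionFree S B := isTorsionFree_of_isIntegralClosure K F
  have h1 : LinearIndependent S b := linearIndependent_lift hw b hli
  have h2 : LinearIndependent S fun i => algebraMap B F (b i) := by
    have := h1.map' (IsScalarTower.toAlgHom S B F).toLinearMap
      (LinearMap.ker_eq_bot.mpr (IsIntegralClosure.algebraMap_injective B S F))
    exact this
  exact (LinearIndependent.iff_fractionRing S K).mp h2

omit [IsNoetherianRing S] in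
/-- The lifts span `F` over `K`. -/
theorem span_map_lift_eq_top (K F : Type*) [Field K] [Algebra S K]
    [IsFractionRing S K] [Field F] [Algebra K F] [Algebra S F] [IsScalarTower S K F]
    [Algebra B F] [IsScalarTower S B F] [IsIntegralClosure B S F]
    [Module.Finite S B] [Algebra.IsAlgebraic K F]
    (w : S) (hw1 : ¬ IsUnit w) (b : ι → B)
    (hspan : Submodule.span (S ⧸ Ideal.span {w}) (Set.range fun i => redB (S := S) w (b i)) = ⊤) :
    Submodule.span K (Set.range fun i => algebraMap B F (b i)) = ⊤ := by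
  obtain ⟨r, hr1, hr⟩ := exists_smul_mem_span w b hspan
  have hinjSK : Function.Injective (algebraMap S K) := IsFractionRing.injective S K
  have hr0 : r ≠ 0 := by
    rintro rfl
    rw [zero_sub, _root_.neg_mem_iff, Ideal.mem_span_singleton] at hr1
    exact hw1 (isUnit_of_dvd_one hr1)
  rw [eq_top_iff]
  intro f _
  -- `f` has an integral multiple
  have hf : IsAlgebraic S f := by
    have := Algebra.IsAlgebraic.isAlgebraic (R := K) f
    exact (IsFractionRing.isAlgebraic_iff S K F).mpr this
  obtain ⟨y, hy0, hy⟩ := hf.exists_integral_multiple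
  obtain ⟨β, hβ⟩ := (IsIntegralClosure.isIntegral_iff (A := B)).mp hy
  -- `r • β ∈ span_S b`
  have h1 := hr β
  have h2 : algebraMap B F (r • β) ∈
      Submodule.span K (Set.range fun i => algebraMap B F (b i)) := by
    have h3 : (IsScalarTower.toAlgHom S B F).toLinearMap (r • β) ∈
        Submodule.map (IsScalarTower.toAlgHom S B F).toLinearMap
          (Submodule.span S (Set.range b)) := Submodule.mem_map_of_mem h1
    rw [Submodule.map_span, ← Set.range_comp] at h3
    have h4 : Submodule.span S (Set.range ((IsScalarTower.toAlgHom S B F).toLinearMap ∘ b)) ≤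
        (Submodule.span K (Set.range fun i => algebraMap B F (b i))).restrictScalars S := by
      rw [Submodule.span_le]
      rintro _ ⟨i, rfl⟩
      exact Submodule.subset_span ⟨i, rfl⟩
    exact h4 h3
  have h5 : algebraMap B F (r • β) = (algebraMap S K (r * y)) • f := by
    rw [Algebra.smul_def r β, _root_.map_mul, hβ, ← IsScalarTower.algebraMap_apply,
      Algebra.smul_def y f, Algebra.smul_def, ← IsScalarTower.algebraMap_apply, _root_.map_mul]
    ring
  rw [h5] at h2
  have h6 : algebraMap S K (r * y) ≠ 0 := by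
    simpa using (map_ne_zero_iff _ hinjSK).mpr (mul_ne_zero hr0 hy0)
  have h7 := Submodule.smul_mem _ (algebraMap S K (r * y))⁻¹ h2
  rwa [smul_smul, inv_mul_cancel₀ h6, one_smul] at h7

/-- **The lifted basis of the generic fibre.** -/
noncomputable def basisOfLift (K F : Type*) [Field K] [Algebra S K]
    [IsFractionRing S K] [Field F] [Algebra K F] [Algebra S F] [IsScalarTower S K F]
    [Algebra B F] [IsScalarTower S B F] [IsIntegralClosure B S F]
    [Module.Finite S B] [Algebra.IsAlgebraic K F]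
    {w : S} (hw : Prime w) (b : ι → B)
    (hli : LinearIndependent (S ⧸ Ideal.span {w}) fun i => redB (S := S) w (b i))
    (hspan : Submodule.span (S ⧸ Ideal.span {w}) (Set.range fun i => redB (S := S) w (b i)) = ⊤) :
    Module.Basis ι K F :=
  Module.Basis.mk (linearIndependent_map_lift K F hw b hli)
    (span_map_lift_eq_top K F w hw.not_isUnit b hspan).ge

@[simp]
theorem basisOfLift_apply (K F : Type*) [Field K] [Algebra S K]
    [IsFractionRing S K] [Field F] [Algebra K F] [Algebra S F] [IsScalarTower S K F]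
    [Algebra B F] [IsScalarTower S B F] [IsIntegralClosure B S F]
    [Module.Finite S B] [Algebra.IsAlgebraic K F]
    {w : S} (hw : Prime w) (b : ι → B)
    (hli : LinearIndependent (S ⧸ Ideal.span {w}) fun i => redB (S := S) w (b i))
    (hspan : Submodule.span (S ⧸ Ideal.span {w}) (Set.range fun i => redB (S := S) w (b i)) = ⊤)
    (i : ι) : basisOfLift K F hw b hli hspan i = algebraMap B F (b i) := by
  simp [basisOfLift]

/-- The rank of the special fibre is the degree of the generic fibre. -/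
theorem card_eq_finrank (K F : Type*) [Field K] [Algebra S K]
    [IsFractionRing S K] [Field F] [Algebra K F] [Algebra S F] [IsScalarTower S K F]
    [Algebra B F] [IsScalarTower S B F] [IsIntegralClosure B S F]
    [Module.Finite S B] [Algebra.IsAlgebraic K F]
    {w : S} (hw : Prime w) (b : ι → B)
    (hli : LinearIndependent (S ⧸ Ideal.span {w}) fun i => redB (S := S) w (b i))
    (hspan : Submodule.span (S ⧸ Ideal.span {w}) (Set.range fun i => redB (S := S) w (b i)) = ⊤) :
    Fintype.card ι = Module.finrank K F :=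
  (Module.finrank_eq_card_basis (basisOfLift K F hw b hli hspan)).symm

end

end Fermat.Agent.S18.H203

end
-- ===== PACK-END S18/H203/KBasis.lean

-- ===== PACK-BEGIN A2/Mod/H549/L14.lean
section



/-!
# A2 / MOD, leaf L14 (Inertia) (helper549)

`inertia : Mod.InertiaStatement P E w` (statement of `Fermat/Agent/A2/Mod/Spec.lean`, verbatim).

Generic part (any field `L ⊇ ℚ`, any valuation subring `A` of `L`, any `F₀ ⊆ ℚ((t))`):

* `isGaussInt_coeffMap` : `σ f` is Gauss-integral (`H708.IsGaussInt`) if `f` is and `σ A ⊆ A`.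
* `isGaussInt_sub_div` : if moreover `σ a - a ∈ 𝔪_A` for all `a ∈ A` and `w` generates `𝔪_A`,
  then `(σ f - f) / w` is Gauss-integral.

Modular part:

* `fricke_comm` : a ring endomorphism `W` of `L(j_d : d ∣ N)` which is the identity on `L` and
  maps every `j_d` to a `σ`-fixed element commutes with the coefficientwise action of `σ`.

Instantiation at `L = E ⊆ ℚ̄`, `A = P ∩ E`:

* `inertia_core` : leaf L14 with the definitions of `Spec.lean` unfolded (`τE` any restriction of
  `τ` to `E`);
* `inertia` : leaf L14.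
-/

set_option autoImplicit false

noncomputable section

namespace Fermat.Agent.A2.Mod.H549

open ModularCurve HahnSeries Fermat.Agent.A2

/-! ## Generic part -/

section generic

variable {L : Type*} [Field L] [Algebra ℚ L] (A : ValuationSubring L)
  (F₀ : IntermediateField ℚ (LaurentSeries ℚ))

/-- the restriction of `σ` to `A` -/
def resA (σ : L ≃ₐ[ℚ] L) (hσA : ∀ a ∈ A, σ a ∈ A) : A →+* A where
  toFun x := ⟨σ x, hσA x x.2⟩
  map_one' := Subtype.ext (_root_.map_one σ)
  map_mul' x y := Subtype.ext (_root_.map_mul σ (x : L) (y : L))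
  map_zero' := Subtype.ext (_root_.map_zero σ)
  map_add' x y := Subtype.ext (_root_.map_add σ (x : L) (y : L))

variable {A}

theorem incl_coeffMap_resA (σ : L ≃ₐ[ℚ] L) (hσA : ∀ a ∈ A, σ a ∈ A) (U : LaurentSeries A) :
    H708.incl A (coeffMap (resA A σ hσA) U) = coeffMap (σ : L →+* L) (H708.incl A U) := by
  rw [H708.incl, coeffMap_coeffMap, coeffMap_coeffMap]
  exact coeffMap_congr (RingHom.ext fun _ => rfl) U

theorem residue_resA (σ : L ≃ₐ[ℚ] L) (hσA : ∀ a ∈ A, σ a ∈ A)
    (hσI : ∀ a ∈ A, σ a - a ∈ A.nonunits) (x : A) :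
    IsLocalRing.residue A (resA A σ hσA x) = IsLocalRing.residue A x := by
  rw [← sub_eq_zero, ← _root_.map_sub, IsLocalRing.residue_eq_zero_iff,
    ← ValuationSubring.coe_mem_nonunits_iff]
  exact hσI x x.2

theorem red_coeffMap_resA (σ : L ≃ₐ[ℚ] L) (hσA : ∀ a ∈ A, σ a ∈ A)
    (hσI : ∀ a ∈ A, σ a - a ∈ A.nonunits) (U : LaurentSeries A) :
    H708.red A (coeffMap (resA A σ hσA) U) = H708.red A U := by
  ext n
  simp only [coeffMap_coeff]
  exact residue_resA σ hσA hσI _

theorem red_coeffMap_resA_ne_zero (σ : L ≃ₐ[ℚ] L) (hσA : ∀ a ∈ A, σ a ∈ A)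
    {U : LaurentSeries A} (hU : H708.red A U ≠ 0) :
    H708.red A (coeffMap (resA A σ hσA) U) ≠ 0 := by
  obtain ⟨n, hn⟩ := (H708.red_ne_zero_iff A U).mp hU
  refine (H708.red_ne_zero_iff A _).mpr ⟨n, ?_⟩
  have hunit : IsUnit (U.coeff n) := (ValuationSubring.valuation_eq_one_iff A _).mpr hn
  have h2 : IsUnit (resA A σ hσA (U.coeff n)) := hunit.map (resA A σ hσA)
  rw [coeffMap_coeff]
  exact (ValuationSubring.valuation_eq_one_iff A _).mp h2

omit [Algebra ℚ L] in
/-- dividing an integral series with coefficients in `w A` by `w`. -/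
theorem exists_cstA_mul_eq (w : A) (hw0 : w ≠ 0) (U : LaurentSeries A)
    (h : ∀ n, w ∣ U.coeff n) : ∃ U' : LaurentSeries A, H708.cstA A w * U' = U := by
  choose d hd using h
  have hsupp : Function.support d ⊆ U.support := by
    intro n hn
    rw [Function.mem_support] at hn
    rw [HahnSeries.mem_support, hd n]
    exact mul_ne_zero hw0 hn
  refine ⟨⟨d, U.isPWO_support.mono hsupp⟩, ?_⟩
  apply HahnSeries.ext
  funext n
  rw [H708.cstA, HahnSeries.coeff_single_zero_mul]
  exact (hd n).symm

/-- `σ f` is Gauss-integral if `f` is (`σ` in the decomposition group). -/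
theorem isGaussInt_coeffMap (σ : L ≃ₐ[ℚ] L) (hσA : ∀ a ∈ A, σ a ∈ A)
    {f : LaurentSeries L} (hf : H708.IsGaussInt A F₀ f) :
    H708.IsGaussInt A F₀ (coeffMap (σ : L →+* L) f) := by
  obtain ⟨U₁, U₂, hred, hmem, heq⟩ := hf
  refine ⟨coeffMap (resA A σ hσA) U₁, coeffMap (resA A σ hσA) U₂,
    red_coeffMap_resA_ne_zero σ hσA hred, ?_, ?_⟩
  · rw [incl_coeffMap_resA]
    exact coeffMap_mem_laurentBaseChange σ hmem
  · rw [incl_coeffMap_resA, incl_coeffMap_resA, ← _root_.map_mul, heq]

/-- **Inertia acts trivially modulo `w`** on the Gauss-integral elements: `(σ f - f) / w` is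
Gauss-integral. -/
theorem isGaussInt_sub_div (σ : L ≃ₐ[ℚ] L) (hσA : ∀ a ∈ A, σ a ∈ A)
    (hσI : ∀ a ∈ A, σ a - a ∈ A.nonunits) (w : A) (hw0 : w ≠ 0)
    (hw : ∀ a : A, (a : L) ∈ A.nonunits → w ∣ a)
    {f : LaurentSeries L} (hf : H708.IsGaussInt A F₀ f) :
    H708.IsGaussInt A F₀ ((coeffMap (σ : L →+* L) f - f) * (H708.cst (w : L))⁻¹) := by
  obtain ⟨U₁, U₂, hred, hmem, heq⟩ := hf
  have e1 : coeffMap (σ : L →+* L) f * H708.incl A (coeffMap (resA A σ hσA) U₂)
      = H708.incl A (coeffMap (resA A σ hσA) U₁) := by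
    rw [incl_coeffMap_resA, incl_coeffMap_resA, ← _root_.map_mul, heq]
  have hred3 : H708.red A (coeffMap (resA A σ hσA) U₁ * U₂ - U₁ * coeffMap (resA A σ hσA) U₂)
      = 0 := by
    rw [_root_.map_sub, _root_.map_mul, _root_.map_mul, red_coeffMap_resA σ hσA hσI, red_coeffMap_resA σ hσA hσI,
      sub_self]
  have hdiv : ∀ n, w ∣
      (coeffMap (resA A σ hσA) U₁ * U₂ - U₁ * coeffMap (resA A σ hσA) U₂).coeff n := by
    intro n
    refine hw _ ?_
    rw [ValuationSubring.mem_nonunits_iff]
    exact (H708.red_eq_zero_iff A _).mp hred3 n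
  obtain ⟨U₃, hU₃⟩ := exists_cstA_mul_eq w hw0 _ hdiv
  have hwL : (w : L) ≠ 0 := fun h => hw0 (Subtype.ext h)
  have hcst : H708.cst (w : L) ≠ 0 := H708.cst_ne_zero hwL
  refine ⟨U₃, U₂ * coeffMap (resA A σ hσA) U₂, ?_, ?_, ?_⟩
  · rw [_root_.map_mul]
    exact mul_ne_zero hred (red_coeffMap_resA_ne_zero σ hσA hred)
  · rw [_root_.map_mul, incl_coeffMap_resA]
    exact mul_mem hmem (coeffMap_mem_laurentBaseChange σ hmem)
  · have key : H708.cst (w : L) * H708.incl A U₃
        = (coeffMap (σ : L →+* L) f - f) * H708.incl A (U₂ * coeffMap (resA A σ hσA) U₂) := by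
      rw [← H708.incl_cstA, ← _root_.map_mul, hU₃, _root_.map_sub, _root_.map_mul, _root_.map_mul, _root_.map_mul, ← e1, ← heq]
      ring
    rw [mul_right_comm, ← key, mul_comm (H708.cst (w : L)), mul_assoc,
      mul_inv_cancel₀ hcst, mul_one]

end generic

/-! ## The Fricke involution commutes with the Galois action -/

section fricke

variable {L : Type*} [Field L] [Algebra ℚ L] (N : ℕ)

/-- the generator `j_d` of `L(j_d : d ∣ N)` -/
def jL (L : Type*) [Field L] [Algebra ℚ L] (N : ℕ) (d : ℕ) [NeZero d] (hd : d ∣ N) :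
    ↥(laurentBaseChange L (modularFunctionFieldFull N)) :=
  ⟨coeffEmb L (qExpand ℚ d jq), coeffEmb_mem_laurentBaseChange L (jqd_mem_full N hd)⟩

/-- the coefficientwise action as a ring homomorphism -/
abbrev galHom (σ : L ≃ₐ[ℚ] L) : ↥(laurentBaseChange L (modularFunctionFieldFull N)) →+*
    ↥(laurentBaseChange L (modularFunctionFieldFull N)) :=
  ((arithmeticRingAut (modularFunctionFieldFull N) σ : _ ≃+* _) : _ →+* _)

/-- the subfield of `σ`-fixed elements -/
def fixSub (σ : L ≃ₐ[ℚ] L) : Subfield ↥(laurentBaseChange L (modularFunctionFieldFull N)) :=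
  RingHom.eqLocusField (galHom N σ) (RingHom.id _)

theorem mem_fixSub {σ : L ≃ₐ[ℚ] L} {g : ↥(laurentBaseChange L (modularFunctionFieldFull N))} :
    g ∈ fixSub N σ ↔ arithmeticRingAut (modularFunctionFieldFull N) σ g = g := Iff.rfl

theorem algebraMap_rat_mem_fixSub (σ : L ≃ₐ[ℚ] L) (c : ℚ) :
    algebraMap L ↥(laurentBaseChange L (modularFunctionFieldFull N)) (algebraMap ℚ L c)
      ∈ fixSub N σ := by
  rw [mem_fixSub, arithmeticRingAut_algebraMap, AlgEquiv.commutes]

/-- If `W` maps every generator `j_d` to a `σ`-fixed element, it maps every rational function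
to a `σ`-fixed element. -/
theorem fricke_rat_fixed
    (W : ↥(laurentBaseChange L (modularFunctionFieldFull N)) →+*
      ↥(laurentBaseChange L (modularFunctionFieldFull N)))
    (hWc : ∀ c : L, W (algebraMap L _ c) = algebraMap L _ c)
    (σ : L ≃ₐ[ℚ] L)
    (hW : ∀ (d : ℕ) [NeZero d] (hd : d ∣ N), W (jL L N d hd) ∈ fixSub N σ)
    {z : LaurentSeries ℚ} (hz : z ∈ modularFunctionFieldFull N)
    (g : ↥(laurentBaseChange L (modularFunctionFieldFull N)))
    (hg : (g : LaurentSeries L) = coeffEmb L z) : W g ∈ fixSub N σ := by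
  -- the subfield of `ℚ((t))` of all `z` such that `W (coeffEmb z)` is fixed
  let K' : Subfield (LaurentSeries ℚ) :=
    (((fixSub N σ).comap W).map
      (algebraMap ↥(laurentBaseChange L (modularFunctionFieldFull N)) (LaurentSeries L))).comap
        (coeffEmb L : LaurentSeries ℚ →+* LaurentSeries L)
  have h1 : Set.range (algebraMap ℚ (LaurentSeries ℚ)) ⊆ (K' : Set (LaurentSeries ℚ)) := by
    rintro _ ⟨c, rfl⟩
    refine ⟨algebraMap L ↥(laurentBaseChange L (modularFunctionFieldFull N))
      (algebraMap ℚ L c), ?_, ?_⟩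
    · show W _ ∈ fixSub N σ
      rw [hWc]
      exact algebraMap_rat_mem_fixSub N σ c
    · exact (Fermat.Agent.S18.H602.coeffMap_algebraMap' (algebraMap ℚ L) c).symm
  have h2 : divisorExpansions N ⊆ (K' : Set (LaurentSeries ℚ)) := by
    rintro _ ⟨d, hne, hd, rfl⟩
    haveI := hne
    exact ⟨jL L N d hd, hW d hd, rfl⟩
  have hle : (modularFunctionFieldFull N).toSubfield ≤ K' :=
    IntermediateField.adjoin_le_subfield ℚ _ h1 h2
  obtain ⟨g', hg', hgg'⟩ := hle hz
  have : g' = g := Subtype.ext (hgg'.trans hg.symm)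
  rw [← this]
  exact hg'

/-- **`τ W = W τ`.**  A ring endomorphism `W` of `L(j_d : d ∣ N)` which is the identity on `L` and
maps every generator `j_d` to a `σ`-fixed element commutes with the coefficientwise action of
`σ`. -/
theorem fricke_comm
    (W : ↥(laurentBaseChange L (modularFunctionFieldFull N)) →+*
      ↥(laurentBaseChange L (modularFunctionFieldFull N)))
    (hWc : ∀ c : L, W (algebraMap L _ c) = algebraMap L _ c)
    (σ : L ≃ₐ[ℚ] L)
    (hW : ∀ (d : ℕ) [NeZero d] (hd : d ∣ N), W (jL L N d hd) ∈ fixSub N σ)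
    (f : ↥(laurentBaseChange L (modularFunctionFieldFull N))) :
    arithmeticRingAut (modularFunctionFieldFull N) σ (W f)
      = W (arithmeticRingAut (modularFunctionFieldFull N) σ f) := by
  let S : Subfield ↥(laurentBaseChange L (modularFunctionFieldFull N)) :=
    RingHom.eqLocusField ((galHom N σ).comp W) (W.comp (galHom N σ))
  let K : Subfield (LaurentSeries L) :=
    S.map (algebraMap ↥(laurentBaseChange L (modularFunctionFieldFull N)) (LaurentSeries L))
  have h1 : Set.range (algebraMap L (LaurentSeries L)) ⊆ (K : Set (LaurentSeries L)) := by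
    rintro _ ⟨c, rfl⟩
    refine ⟨algebraMap L ↥(laurentBaseChange L (modularFunctionFieldFull N)) c, ?_, rfl⟩
    show arithmeticRingAut (modularFunctionFieldFull N) σ (W (algebraMap L _ c))
      = W (arithmeticRingAut (modularFunctionFieldFull N) σ (algebraMap L _ c))
    rw [hWc, arithmeticRingAut_algebraMap, hWc]
  have h2 : (⇑(coeffEmb L) '' ((modularFunctionFieldFull N : IntermediateField ℚ
      (LaurentSeries ℚ)) : Set (LaurentSeries ℚ))) ⊆ (K : Set (LaurentSeries L)) := by
    rintro _ ⟨z, hz, rfl⟩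
    refine ⟨⟨coeffEmb L z, coeffEmb_mem_laurentBaseChange L hz⟩, ?_, rfl⟩
    show arithmeticRingAut (modularFunctionFieldFull N) σ (W _)
      = W (arithmeticRingAut (modularFunctionFieldFull N) σ _)
    have e1 := fricke_rat_fixed N W hWc σ hW hz
      ⟨coeffEmb L z, coeffEmb_mem_laurentBaseChange L hz⟩ rfl
    rw [mem_fixSub] at e1
    have e2 : arithmeticRingAut (modularFunctionFieldFull N) σ
        ⟨coeffEmb L z, coeffEmb_mem_laurentBaseChange L hz⟩
        = ⟨coeffEmb L z, coeffEmb_mem_laurentBaseChange L hz⟩ :=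
      Subtype.ext (coeffMap_coeffEmb σ z)
    rw [e1, e2]
  have hle : (laurentBaseChange L (modularFunctionFieldFull N)).toSubfield ≤ K :=
    IntermediateField.adjoin_le_subfield L _ h1 h2
  obtain ⟨g, hg, hgf⟩ := hle f.2
  have : g = f := Subtype.ext hgf
  rw [← this]
  exact hg

end fricke

/-! ## Instantiation at `L = E ⊆ ℚ̄`, `A = P ∩ E` -/

section inst

/-- nonunits of a comap -/
theorem mem_nonunits_comap {K L : Type*} [Field K] [Field L] (A : ValuationSubring L)
    (φ : K →+* L) (x : K) : x ∈ (A.comap φ).nonunits ↔ φ x ∈ A.nonunits := by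
  rw [ValuationSubring.mem_nonunits_iff_or, ValuationSubring.mem_nonunits_iff_or,
    ValuationSubring.mem_comap, map_inv₀, map_eq_zero]

variable (P : ValuationSubring (AlgebraicClosure ℚ))
  (E : IntermediateField ℚ (AlgebraicClosure ℚ))

/-- **Leaf L14 (Inertia)**, with the definitions of `A2/Mod/Spec.lean` unfolded.
`τ` in the inertia group of `P`, `τE` its restriction to `E`, `R = P ∩ E` a DVR with uniformiser
`w`, `V` the Gauss valuation ring of `F_{N,E}`, `W` the Fricke involution: then `τ W = W τ` and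
`(τ f - f) / w ∈ V` for all `f ∈ V`. -/
theorem inertia_core (w : ↥(P.comap (algebraMap ↥E (AlgebraicClosure ℚ)))) (N : ℕ) (hN : N ≠ 0)
    (_hdvr : IsDiscreteValuationRing ↥(P.comap (algebraMap ↥E (AlgebraicClosure ℚ))))
    (hw : Irreducible w)
    (V : ValuationSubring ↥(laurentBaseChange ↥E (modularFunctionFieldFull N)))
    (W : ↥(laurentBaseChange ↥E (modularFunctionFieldFull N)) ≃ₐ[↥E]
      ↥(laurentBaseChange ↥E (modularFunctionFieldFull N)))
    (hV : ∀ f : ↥(laurentBaseChange ↥E (modularFunctionFieldFull N)), f ∈ V ↔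
      H708.IsGaussInt (P.comap (algebraMap ↥E (AlgebraicClosure ℚ)))
        (modularFunctionFieldFull N) (f : LaurentSeries ↥E))
    (hW : ∀ (d d' : ℕ) [NeZero d] [NeZero d'] (hd : d ∣ N) (hd' : d' ∣ N), d * d' = N →
      W (jL ↥E N d hd) = jL ↥E N d' hd')
    (τ : AlgebraicClosure ℚ ≃ₐ[ℚ] AlgebraicClosure ℚ) (τE : ↥E ≃ₐ[ℚ] ↥E)
    (hτE : ∀ e : ↥E, ((τE e : ↥E) : AlgebraicClosure ℚ) = τ (e : AlgebraicClosure ℚ))
    (hτ : τ ∈ P.inertiaSubgroupIn ℚ) :
    (∀ f : ↥(laurentBaseChange ↥E (modularFunctionFieldFull N)),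
      arithmeticRingAut (modularFunctionFieldFull N) τE (W f) =
        W (arithmeticRingAut (modularFunctionFieldFull N) τE f)) ∧
    ∀ f ∈ V, (arithmeticRingAut (modularFunctionFieldFull N) τE f - f) *
      (algebraMap ↥E ↥(laurentBaseChange ↥E (modularFunctionFieldFull N)) (w : ↥E))⁻¹ ∈ V := by
  constructor
  · -- `τ W = W τ`
    refine fricke_comm N (W : _ →+* _) (fun c => W.commutes c) τE ?_
    intro d hne hd
    obtain ⟨d', hd'⟩ := hd
    have hd'0 : d' ≠ 0 := by
      rintro rfl
      exact hN (by rw [hd', mul_zero])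
    haveI : NeZero d' := ⟨hd'0⟩
    have hdN : d ∣ N := ⟨d', hd'⟩
    have hd'N : d' ∣ N := ⟨d, by rw [hd', mul_comm]⟩
    show W (jL ↥E N d hdN) ∈ fixSub N τE
    rw [hW d d' hdN hd'N hd'.symm, mem_fixSub]
    exact Subtype.ext (coeffMap_coeffEmb τE _)
  · -- `τ ≡ id` modulo `w V`
    intro f hf
    have hτD := H708.mem_decomposition_of_mem_inertiaIn P hτ
    have hσA : ∀ a ∈ P.comap (algebraMap ↥E (AlgebraicClosure ℚ)), τE a ∈
        P.comap (algebraMap ↥E (AlgebraicClosure ℚ)) := by
      intro a ha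
      rw [ValuationSubring.mem_comap] at ha ⊢
      have e : algebraMap ↥E (AlgebraicClosure ℚ) (τE a)
          = τ (algebraMap ↥E (AlgebraicClosure ℚ) a) := hτE a
      rw [e]
      exact H708.apply_mem_of_mem_decomposition P hτD ha
    have hσI : ∀ a ∈ P.comap (algebraMap ↥E (AlgebraicClosure ℚ)), τE a - a ∈
        (P.comap (algebraMap ↥E (AlgebraicClosure ℚ))).nonunits := by
      intro a ha
      rw [ValuationSubring.mem_comap] at ha
      rw [mem_nonunits_comap, _root_.map_sub]
      have e : algebraMap ↥E (AlgebraicClosure ℚ) (τE a)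
          = τ (algebraMap ↥E (AlgebraicClosure ℚ) a) := hτE a
      rw [e]
      exact H708.sub_mem_nonunits_of_mem_inertiaIn P hτ ha
    have hw0 : w ≠ 0 := hw.ne_zero
    have hwgen : ∀ a : ↥(P.comap (algebraMap ↥E (AlgebraicClosure ℚ))),
        (a : ↥E) ∈ (P.comap (algebraMap ↥E (AlgebraicClosure ℚ))).nonunits → w ∣ a := by
      intro a ha
      rw [ValuationSubring.coe_mem_nonunits_iff, hw.maximalIdeal_eq,
        Ideal.mem_span_singleton] at ha
      exact ha
    have key := isGaussInt_sub_div (F₀ := modularFunctionFieldFull N) τE hσA hσI w hw0 hwgen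
      ((hV f).mp hf)
    exact (hV _).mpr key

end inst

/-- **Leaf L14** (`Mod.InertiaStatement`, verbatim). -/
theorem inertia (P : ValuationSubring Mod.Qb) (E : IntermediateField ℚ Mod.Qb)
    (w : Mod.RE P E) : Mod.InertiaStatement P E w := by
  intro N hN hdvr hw V W hV hW τ hτ hτI
  exact inertia_core P E w N hN hdvr hw V W hV hW.1 τ (Mod.resE E τ hτ) (fun _ => rfl) hτI

end Fermat.Agent.A2.Mod.H549

end
end
-- ===== PACK-END A2/Mod/H549/L14.lean

-- ===== PACK-BEGIN A2/H609/Purity.lean
section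



/-!
# Node purity, part 7: the abstract purity criterion

`R` a noetherian local integrally closed domain, `π ∈ 𝔪`, `u` regular modulo `π`, `(u, π)`
`𝔪`-primary, (H1) `m ∣ ord_𝔓 u` at the horizontal primes.  If an ideal `J' ∋ π` contains every
`f` with `f ^ m = u r`, `r ∈ 𝔪`, and `ℓ(R/(u, π)) < m ℓ(R/J')`, then `u = ε f ^ m`.
Mathlib only.
-/

set_option autoImplicit false

namespace Fermat.Agent.A2.H609

open Ideal

variable {R : Type*} [CommRing R] [IsDomain R] [IsIntegrallyClosed R] [IsNoetherianRing R]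
  [IsLocalRing R]

/-- The abstract purity criterion (length count). -/
theorem exists_unit_mul_pow_of_relLen {u π : R} {m : ℕ} (hm : m ≠ 0) (hu0 : u ≠ 0)
    (hπ0 : π ≠ 0) (hπ : π ∈ IsLocalRing.maximalIdeal R)
    (hreg : ∀ x : R, π ∣ u * x → π ∣ x)
    (huπ : ∀ 𝔮 : Ideal R, 𝔮.IsPrime → u ∈ 𝔮 → π ∈ 𝔮 → 𝔮 = IsLocalRing.maximalIdeal R)
    (H1 : ∀ 𝔓 : Ideal R, 𝔓.IsPrime → u ∈ 𝔓 → π ∉ 𝔓 → ∃ f r : R, r ∉ 𝔓 ∧ f ^ m = u * r)
    (J' : Ideal R) (hπJ : π ∈ J')
    (hJ' : ∀ f r : R, f ^ m = u * r → r ∈ IsLocalRing.maximalIdeal R → f ∈ J')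
    (B : ℕ) (hB : (B : ℕ∞) ≤ relLen J' (⊤ : Ideal R))
    (hlt : relLen (Ideal.span {u, π}) (⊤ : Ideal R) < (m : ℕ∞) * B) :
    ∃ (f : R) (ε : Rˣ), u = ε * f ^ m := by
  by_contra hcon
  have hall : ∀ f r : R, f ^ m = u * r → r ∈ IsLocalRing.maximalIdeal R := by
    intro f r hfr
    by_contra hr
    have hr' : IsUnit r := by
      by_contra h
      exact hr ((IsLocalRing.mem_maximalIdeal r).mpr h)
    obtain ⟨ε, rfl⟩ := hr'
    apply hcon
    refine ⟨f, ε⁻¹, ?_⟩
    rw [hfr, _root_.mul_comm u, ← _root_.mul_assoc, Units.inv_mul, one_mul]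
  have hI : rootIdeal u m hm 1 ⊔ Ideal.span {π} ≤ J' := by
    refine sup_le ?_ ?_
    · intro f hf
      rw [mem_rootIdeal, pow_one] at hf
      obtain ⟨r, hr⟩ := hf
      exact hJ' f r hr (hall f r hr)
    · rw [Ideal.span_singleton_le_iff_mem]
      exact hπJ
  have h1 : (B : ℕ∞) ≤ relLen (rootIdeal u m hm 1 ⊔ Ideal.span {π}) (⊤ : Ideal R) :=
    hB.trans (relLen_mono_left hI le_top)
  obtain ⟨t, r, k, ht, hk⟩ := exists_generator hm hu0 hπ huπ H1
  have hfin : relLen (Ideal.span {u, π}) (⊤ : Ideal R) ≠ ⊤ := by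
    intro h
    rw [h] at hlt
    exact not_top_lt hlt
  have h2 := relLen_span_pair_eq_nsmul (hm := hm) hu0 hπ0 hreg ht hk hfin
  rw [h2, nsmul_eq_mul] at hlt
  exact absurd (mul_le_mul_right h1 (m : ℕ∞)) (not_le.mpr hlt)

end Fermat.Agent.A2.H609

end
-- ===== PACK-END A2/H609/Purity.lean

-- ===== PACK-BEGIN A2/H12/GSpec.lean
section



/-!
# Cell A2 — route G: the hub definitions and leaf conclusions of the ALG assembly (helper12)

Definitions only (plus trivial lemmas), no `sorry`.  See `GAsm.lean` for the assembly theorem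
`algG` and `origin/helper12:coord/A2-wallG.md` for the plan.

Setting: `R` the base ring (a DVR in the application), `w : R` the uniformiser, `F` the function
field, `x : F` the coordinate, `L ⊇ F` a cover.  Charts of any field `K ⊇ R[x]` are the
`S18.H138.chart R {x}`, `chart R {x⁻¹}`, `chart R {x, x⁻¹}`.

* `IsSheet w x W`    : the valuation subring `W` of `K` extends the Gauss valuation of `R[x]`.
* `SplitAt`, `HorDiv`, `IsKummerSplit` : Kummer covers `L = F(g_i^{1/m})` with `m ∣ div g_i` on the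
  generic fibre and `g_i` an `m`-th power in the residue field of every sheet of `F`.
* `SheetsConclusion`, `RedConclusion`, `ConstConclusion`, `CountConclusion`, `CoverConclusion` :
  the conclusions of the leaves `SHEETS`, `RED`, `CONST`, `COUNT`, `COVER`.
-/

set_option autoImplicit false

namespace Fermat.Agent.A2.H12

open Polynomial
open Fermat.Agent.S18.H138 (chart baseField)

universe u

section Hub

variable {R : Type u} [CommRing R] {K : Type u} [Field K] [Algebra R K]

/-- `W` is a *sheet* of `K`: a valuation subring containing `R[x]` in which `w` is a non-unit and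
which induces the Gauss valuation on `R[x]` (a polynomial in `x` with a coefficient not divisible
by `w` is a unit of `W`). -/
def IsSheet (w : R) (x : K) (W : ValuationSubring K) : Prop :=
  (∀ r : R, algebraMap R K r ∈ W) ∧ x ∈ W ∧ algebraMap R K w ∈ W.nonunits ∧
    ∀ P : R[X], (∃ i, ¬ w ∣ P.coeff i) → (aeval x P)⁻¹ ∈ W

end Hub

section Cover

variable {R : Type u} [CommRing R] {F : Type u} [Field F] [Algebra R F]

/-- `g` is an `m`-th power in the residue field of `V` (and a unit of `V`). -/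
def SplitAt (m : ℕ) (V : ValuationSubring F) (g : F) : Prop :=
  ∃ u : F, u ∈ V ∧ u⁻¹ ∈ V ∧ g - u ^ m ∈ V.nonunits

variable (R) in
/-- `m ∣ div g` on the generic fibre: at every discrete valuation ring of `F` containing
`Frac R`, `g` is a unit times an `m`-th power. -/
def HorDiv (m : ℕ) (g : F) : Prop :=
  ∀ V : ValuationSubring F, IsDiscreteValuationRing V →
    (∀ r : R, r ≠ 0 → algebraMap R F r ∈ V ∧ (algebraMap R F r)⁻¹ ∈ V) →
    ∃ h u : F, h ≠ 0 ∧ u ∈ V ∧ u⁻¹ ∈ V ∧ g = u * h ^ m

variable (L : Type u) [Field L] [Algebra F L] [Algebra R L] [IsScalarTower R F L]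

/-- `L / F` is a finite Galois Kummer cover generated by `m`-th roots of elements `g i` of `F`
with `m ∣ div (g i)` on the generic fibre and split at every sheet of `F`. -/
structure IsKummerSplit (w : R) (x : F) (m : ℕ) : Prop where
  finite : FiniteDimensional F L
  galois : IsGalois F L
  gen : ∃ (n : ℕ) (y : Fin n → L) (g : Fin n → F),
    (∀ i, g i ≠ 0) ∧ (∀ i, y i ^ m = algebraMap F L (g i)) ∧
    IntermediateField.adjoin F (Set.range y) = ⊤ ∧
    (∀ i, HorDiv R m (g i)) ∧ ∀ i, ∀ V : ValuationSubring F, IsSheet w x V → SplitAt m V (g i)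

/-- Conclusion of leaf **SHEETS**. -/
structure SheetsConclusion (w : R) (x : F) : Prop where
  /-- finitely many sheets -/
  finite : {W : ValuationSubring L | IsSheet w (algebraMap F L x) W}.Finite
  /-- every sheet of `F` extends to `L` -/
  exists_over : ∀ V : ValuationSubring F, IsSheet w x V →
    ∃ W : ValuationSubring L, IsSheet w (algebraMap F L x) W ∧ W.comap (algebraMap F L) = V
  /-- `w` is a uniformiser of every sheet of `L` -/
  unif : ∀ W : ValuationSubring L, IsSheet w (algebraMap F L x) W →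
    ∀ a ∈ W.nonunits, ∃ b ∈ W, a = algebraMap R L w * b
  /-- residue degree one -/
  resdeg : ∀ W : ValuationSubring L, IsSheet w (algebraMap F L x) W →
    ∀ b ∈ W, ∃ c : F, b - algebraMap F L c ∈ W.nonunits
  /-- the Galois group is transitive on the sheets over a sheet of `F` -/
  trans : ∀ W W' : ValuationSubring L, IsSheet w (algebraMap F L x) W →
    IsSheet w (algebraMap F L x) W' → W.comap (algebraMap F L) = W'.comap (algebraMap F L) →
    ∃ σ : L ≃ₐ[F] L, ∀ b, b ∈ W ↔ σ b ∈ W'
  /-- the decomposition groups are trivial -/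
  free : ∀ W : ValuationSubring L, IsSheet w (algebraMap F L x) W →
    ∀ σ : L ≃ₐ[F] L, (∀ b, b ∈ W ↔ σ b ∈ W) → σ = 1

/-- Conclusion of leaf **RED**: the special fibre of each of the three charts of `L` is reduced
and all its components are sheets. -/
def RedConclusion (w : R) (x : F) : Prop :=
  ∀ T : Set L, T = {algebraMap F L x} ∨ T = {(algebraMap F L x)⁻¹} ∨
      T = {algebraMap F L x, (algebraMap F L x)⁻¹} →
    ∀ b ∈ chart R T, (∀ W : ValuationSubring L, IsSheet w (algebraMap F L x) W → b ∈ W.nonunits) →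
      ∃ t ∈ chart R T, b = algebraMap R L w * t

/-- Conclusion of leaf **CONST**: `R` is integrally closed in `L` and `L` is finite over
`Frac R (x)`. -/
structure ConstConclusion (x : F) : Prop where
  closed : ∀ y : L, IsIntegral R y → y ∈ Set.range (algebraMap R L)
  finite : FiniteDimensional (baseField R (algebraMap F L x)) L

/-- **COUNT** for one chart `T`: through a closed point of the chart passes at most one sheet
of each colour (colour = the sheet of `F` below). -/
def CountAt (w : R) (x : F) (T : Set L) : Prop :=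
  ∀ 𝔫 : Ideal (chart R T), 𝔫.IsMaximal → ∀ W W' : ValuationSubring L,
    IsSheet w (algebraMap F L x) W → IsSheet w (algebraMap F L x) W' →
    W.comap (algebraMap F L) = W'.comap (algebraMap F L) →
    (∀ c : chart R T, (c : L) ∈ W.nonunits → c ∈ 𝔫) →
    (∀ c : chart R T, (c : L) ∈ W'.nonunits → c ∈ 𝔫) → W = W'

/-- Conclusion of leaf **COUNT**. -/
def CountConclusion (w : R) (x : F) : Prop :=
  CountAt L w x {algebraMap F L x} ∧ CountAt L w x {(algebraMap F L x)⁻¹}

end Cover

section CoverExists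

variable {R : Type u} [CommRing R] {F : Type u} [Field F] [Algebra R F]

/-- Conclusion of leaf **COVER**: a Kummer-split cover of `F` containing an `m`-th root of `g`
to which `τ` lifts. -/
def CoverConclusion (w : R) (x : F) (m : ℕ) (τ : F ≃+* F) (g : F) : Prop :=
  ∃ (L : Type u) (_ : Field L) (_ : Algebra F L) (_ : Algebra R L) (_ : IsScalarTower R F L),
    IsKummerSplit L w x m ∧ ∃ (τ' : L ≃+* L) (y : L),
      (∀ f : F, τ' (algebraMap F L f) = algebraMap F L (τ f)) ∧ y ^ m = algebraMap F L g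

end CoverExists

end Fermat.Agent.A2.H12

end
-- ===== PACK-END A2/H12/GSpec.lean

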