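import Fermat.Prelude.Def_ModularCurve_ArithmeticGalois
import Fermat.Agent.Pack.S33.E11L3
import Fermat.Agent.Pack.S33.E12L0
import Fermat.Agent.Pack.S33.E12L2
import Fermat.Agent.Pack.S33.E12L3
import Fermat.Agent.Pack.S33.E0L1
import Fermat.Agent.Pack.S33.E11L1
import Fermat.Agent.Pack.S33.E10L1
import Fermat.Agent.Pack.S33.E11L2
import Fermat.Agent.Pack.S33.E9L0
import Fermat.Agent.Pack.S33.E3L1
import Fermat.Agent.Pack.S33.E6L3
import Fermat.Agent.Pack.S33.E11L0
import Fermat.Agent.Pack.S33.E2L2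

-- ===== PACK-BEGIN S33/Spec2.lean
section
/-
Row S33 (ordinary at `p`, `p ‖ N`) — frozen decomposition of ORD-EIG (helper409).

    S33  ⇐  OrdEigenStatement                                   (`Top.lean`, proved)
    OrdEigenStatement  ⇐  GeoEigenStatement                      (ALG:   pure algebra + BLR + REL)
    GeoEigenStatement  ⇐  KeyStatement                           (EIG-B: Tate eigenmodule, level `N`)
    KeyStatement       ⇐  OrdFilStatement + OldAugStatement      (KEY:   dévissage by `α, β`)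
    OldAugStatement    ⇐  S19 (Hopf models, `p ∤ M'`) + CE       (OLD)
    OrdFilStatement    =  the wall at `p` : (DEG) + (S1⁺) + (S2) (NEW:   RIBET row 38 leaves)

Vocabulary (definitions of helper270, `origin/helper270:Fermat/Agent/S33/H270/KeyCore.lean`):
`iAug I Y = ⟨σ • y - y : σ ∈ I, y ∈ Y⟩`, `torsSub J m = J[m]`,
`InSPlus I p x : p • x = 0 ∧ ∃ n, x ∈ iAug I J[p ^ n]`   (the set `𝒮⁺`).

Route and proofs on paper: `coord/S33-helper409.md` on `origin/helper409`.
Only sorry-free definitions in this file.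
-/



set_option autoImplicit false

noncomputable section

namespace Fermat.Agent.S33

open IsLocalRing Fermat.Agent.S31

/-! ### Abstract vocabulary -/

section Abstract

variable {G : Type*} [Group G] {J : Type*} [AddCommGroup J] [DistribMulAction G J]

/-- The augmentation subgroup `⟨σ • y - y : σ ∈ I, y ∈ Y⟩`. -/
def iAug (I : Subgroup G) (Y : AddSubgroup J) : AddSubgroup J :=
  AddSubgroup.closure {z | ∃ σ ∈ I, ∃ y ∈ Y, z = σ • y - y}

/-- The `m`-torsion subgroup. -/
def torsSub (J : Type*) [AddCommGroup J] (m : ℕ) : AddSubgroup J :=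
  (nsmulAddMonoidHom (α := J) m).ker

/-- `𝒮⁺ = ⋃ₙ (I_aug J[pⁿ] ∩ J[p])` as a predicate. -/
def InSPlus (I : Subgroup G) (p : ℕ) (x : J) : Prop :=
  p • x = 0 ∧ ∃ n : ℕ, x ∈ iAug I (torsSub J (p ^ n))

/-- **(K)** for `(G, I, J)`: every `G`-stable subgroup of `𝒮⁺` is generated by its
augmentation (its `I`-coinvariants vanish). -/
def KeyAt (I : Subgroup G) (p : ℕ) (J : Type*) [AddCommGroup J] [DistribMulAction G J] : Prop :=
  ∀ Y : AddSubgroup J, (∀ (σ : G), ∀ y ∈ Y, σ • y ∈ Y) → (∀ y ∈ Y, InSPlus I p y) →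
    Y ≤ iAug I Y

end Abstract

/-! ### The augmentation submodule of a linear action -/

/-- The submodule of `M` generated by the `ρ σ m - m`, `σ ∈ I`. -/
def augSpan {A M : Type} [CommRing A] [AddCommGroup M] [Module A M]
    (ρ : GQ →* Module.End A M) (I : Subgroup GQ) : Submodule A M :=
  Submodule.span A {x | ∃ σ ∈ I, ∃ m : M, x = ρ σ m - m}

/-- **GEO** for a linear action over a local ring: if the augmentation submodule contains `a M`
for some `a ≠ 0`, then it generates `M` modulo the maximal ideal. -/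
def GeoAt {A M : Type} [CommRing A] [IsLocalRing A] [AddCommGroup M] [Module A M]
    (ρ : GQ →* Module.End A M) (I : Subgroup GQ) : Prop :=
  ∀ a : A, a ≠ 0 → (∀ m : M, a • m ∈ augSpan ρ I) →
    augSpan ρ I ⊔ (maximalIdeal A) • (⊤ : Submodule A M) = ⊤

/-! ### The frozen leaves -/

/-- **GEO-EIG** (engine, no datum, no residual hypothesis).  For `p ‖ N`, `p` odd, every
eigencharacter with values in a complete DVR has an adic eigenmodule satisfying GEO at every
place over `p`. -/
def GeoEigenStatement : Prop :=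
  ∀ (p : ℕ) [Fact p.Prime] (_hp2 : p ≠ 2) (N : ℕ) [NeZero N] (S : Finset ℕ)
    (_hN : p ∣ N ∧ ¬ p ^ 2 ∣ N) (_hNS : ∀ q : ℕ, q.Prime → q ∣ N → q ∈ S)
    (𝒪' : Type) [CommRing 𝒪'] [IsDomain 𝒪'] [IsDiscreteValuationRing 𝒪']
    [IsAdicComplete (maximalIdeal 𝒪') 𝒪'] [Finite (ResidueField 𝒪')]
    [CharZero 𝒪'] (_hp𝒪' : (p : 𝒪') ∈ maximalIdeal 𝒪')
    (χ : CuspForm.heckeAlgebra N 2 (↑S : Set ℕ) →+* 𝒪'),
    ∃ E : Fermat.Agent.S30.H990.AdicEigenModule p N S 𝒪' χ,
      ∀ P : ValuationSubring Qb, P.LiesOverPrime p → GeoAt E.ρ (P.inertiaSubgroupIn ℚ)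

/-- **KEY** = (K) for `J₀(N)`, `p ‖ N`, `p` odd, at every place over `p`. -/
def KeyStatement : Prop :=
  ∀ (p N : ℕ) [NeZero N], p.Prime → p ≠ 2 → p ∣ N → ¬ p ^ 2 ∣ N →
    ∀ P : ValuationSubring Qb, P.LiesOverPrime p →
      KeyAt (P.inertiaSubgroupIn ℚ) p (ModularCurve.JZero N)

/-- **OLD** = (K) for `J₀(M')`, `p ∤ M'`, `p` odd (connected–étale sequence of the Hopf models
of `J₀(M')[p ^ n]`; S19 + CE). -/
def OldAugStatement : Prop :=
  ∀ (p M' : ℕ) [NeZero M'], p.Prime → p ≠ 2 → ¬ p ∣ M' →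
    ∀ P : ValuationSubring Qb, P.LiesOverPrime p →
      KeyAt (P.inertiaSubgroupIn ℚ) p (ModularCurve.JZero M')

/-- **NEW** = the wall at `p`: degeneracy maps `α, β : J₀(pM') → J₀(M')` (additive,
Galois-equivariant) and, at every place `A ∣ p`, a set `𝒮` with
(S1⁺) `𝒮⁺ ⊆ 𝒮`, (S2) inertia acts through the cyclotomic character on the new part of `𝒮`.
((S2) is clause (S2) of `Ribet.H944.Wall.AtPFiltrationStatement`, verbatim.) -/
def OrdFilStatement : Prop :=
  ∀ (p M' : ℕ) [NeZero M'] [NeZero (p * M')], p.Prime → p ≠ 2 → ¬ p ∣ M' →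
    ∃ (α β : ModularCurve.JZero (p * M') →+ ModularCurve.JZero M'),
      (∀ (σ : GQ) (x : ModularCurve.JZero (p * M')), α (σ • x) = σ • α x) ∧
      (∀ (σ : GQ) (x : ModularCurve.JZero (p * M')), β (σ • x) = σ • β x) ∧
      ∀ A : ValuationSubring Qb, A.LiesOverPrime p →
        ∃ 𝒮 : Set (ModularCurve.JZero (p * M')),
          (∀ x : ModularCurve.JZero (p * M'), InSPlus (A.inertiaSubgroupIn ℚ) p x → x ∈ 𝒮) ∧
          (∀ x ∈ 𝒮, p • x = 0 → α x = 0 → β x = 0 →
            ∀ σ ∈ A.inertiaSubgroupIn ℚ, ∀ c : ℕ,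
              (∀ ζ : Qb, ζ ^ p = 1 → σ ζ = ζ ^ c) → σ • x = c • x)

end Fermat.Agent.S33

end
end
-- ===== PACK-END S33/Spec2.lean

-- ===== PACK-BEGIN S24/H864/FF3f.lean
section


/-!
# S24 / ALG / FF1, existence form: the zeros of a transcendental `t` form a finite set `s` and
`∑_{v ∈ s} v(t) = [F : K(t)]`  (exact shape of `Alg/Open.lean` `open_fundamental_eq`).
-/

set_option autoImplicit false

noncomputable section

open AlgebraicCurve IntermediateField IsDedekindDomain
open scoped IntermediateField.algebraAdjoinAdjoin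

namespace Fermat.Agent.S24.H864

section Rel

variable {K F : Type*} [Field K] [Field F] [Algebra K F]
variable {S : Type*} [CommRing S] [IsDedekindDomain S] [Algebra S F] [IsFractionRing S F]
  [Algebra K S] [IsScalarTower K S F]
variable {R : Type*} [CommRing R] [IsDomain R] [Algebra R S] [Algebra R F] [IsScalarTower R S F]
  [Module.Finite R S]
variable (p : Ideal R) [hpmax : p.IsMaximal] (τ : R)

/-- the set of zeros of `τ` is finite -/
theorem exists_finset_zeros_abstract
    (hp : p = Ideal.span {τ}) (hτ : τ ≠ 0) (hinj : Function.Injective (algebraMap R S))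
    (hR : ∀ v : Place K F, 0 < v.ord (algebraMap R F τ) →
      ∀ r : R, algebraMap R F r ∈ v.toValuationSubring) :
    ∃ s : Finset (Place K F), ∀ v, v ∈ s ↔ 0 < v.ord (algebraMap R F τ) := by
  classical
  haveI : Fintype (p.primesOver S) := (Algebra.QuasiFinite.finite_primesOver p).fintype
  have hτ' : algebraMap R S τ ≠ 0 := fun h => hτ (hinj (by rw [h, map_zero]))
  set g : p.primesOver S → Place K F :=
    fun q => Place.ofHeightOneSpectrum (K := K) (wOf p τ hp hτ hinj q) with hg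
  have hg_ord : ∀ q, (g q).ord (algebraMap R F τ) = (q.1.ramificationIdx R : ℤ) :=
    fun q => ord_wOf p τ hp hτ hinj q
  refine ⟨Finset.univ.image g, fun v => ?_⟩
  rw [Finset.mem_image]
  constructor
  · rintro ⟨q, -, rfl⟩
    rw [hg_ord]
    exact_mod_cast Ideal.ramificationIdx_pos q.1 R
  · intro hv
    have hS := algebraMap_mem_of_base (S := S) v (hR v hv)
    have hv' : 0 < v.ord (algebraMap S F (algebraMap R S τ)) := by
      rwa [← IsScalarTower.algebraMap_apply R S F]
    obtain ⟨w, hw, hwq⟩ := exists_heightOneSpectrum_of_place v hS hτ' hv'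
    have hle : p ≤ w.asIdeal.under R := by
      rw [hp, Ideal.span_singleton_le_iff_mem, Ideal.under_def, Ideal.mem_comap, hwq]
      exact (mem_primeOfPlace v hS hτ').mpr hv'
    have hne : w.asIdeal.under R ≠ ⊤ := (Ideal.IsPrime.under R w.asIdeal).ne_top
    have hq : w.asIdeal ∈ p.primesOver S := ⟨w.isPrime, ⟨hpmax.eq_of_le hne hle⟩⟩
    refine ⟨⟨w.asIdeal, hq⟩, Finset.mem_univ _, ?_⟩
    rw [← hw]
    show Place.ofHeightOneSpectrum (K := K) (wOf p τ hp hτ hinj ⟨w.asIdeal, hq⟩) = _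
    congr 1

end Rel

section Main

variable {K F : Type*} [Field K] [Field F] [Algebra K F] [IsAlgClosed K] [CharZero K]

/-- the zeros of a transcendental `t` are finite in number -/
theorem exists_finset_zeros (t : F) (ht : Transcendental K t)
    [FiniteDimensional ↥(IntermediateField.adjoin K {t}) F] :
    ∃ s : Finset (Place K F), ∀ v : Place K F, v ∈ s ↔ 0 < v.ord t := by
  haveI : IsPrincipalIdealRing (polyRing K t) := polyRing_isPrincipalIdealRing K t ht
  haveI : IsScalarTower (polyRing K t) (integralClosure (polyRing K t) F) F :=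
    Subalgebra.isScalarTower_mid _
  haveI : IsFractionRing (integralClosure (polyRing K t) F) F :=
    integralClosure.isFractionRing_of_finite_extension K⟮t⟯ F
  haveI : IsDedekindDomain (integralClosure (polyRing K t) F) :=
    IsIntegralClosure.isDedekindDomain (polyRing K t) K⟮t⟯ F (integralClosure (polyRing K t) F)
  haveI : Module.Finite (polyRing K t) (integralClosure (polyRing K t) F) :=
    IsIntegralClosure.finite (polyRing K t) K⟮t⟯ F (integralClosure (polyRing K t) F)
  have hprime : (Ideal.span {tR K t}).IsPrime :=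
    (Ideal.span_singleton_prime (tR_ne_zero K t ht)).mpr (tR_prime K t ht)
  have hne : Ideal.span {tR K t} ≠ ⊥ := by
    rw [Ne, Ideal.span_singleton_eq_bot]
    exact tR_ne_zero K t ht
  haveI hmax : (Ideal.span {tR K t}).IsMaximal := hprime.isMaximal hne
  have hinj : Function.Injective
      (algebraMap (polyRing K t) (integralClosure (polyRing K t) F)) := by
    intro a b hab
    have := congrArg (algebraMap (integralClosure (polyRing K t) F) F) hab
    rw [← IsScalarTower.algebraMap_apply, ← IsScalarTower.algebraMap_apply] at this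
    exact Subtype.ext this
  exact exists_finset_zeros_abstract (K := K) (F := F)
    (S := integralClosure (polyRing K t) F) (R := polyRing K t)
    (Ideal.span {tR K t}) (tR K t) rfl (tR_ne_zero K t ht) hinj
    (fun v hv r => coe_mem_valuationSubring_of_ord_nonneg K t v hv.le r)

/-- **FF1 (fundamental equality)**, exact shape of `Alg/Open.lean` `open_fundamental_eq`. -/
theorem fundamental_eq (t : F) (ht : Transcendental K t)
    [FiniteDimensional ↥(IntermediateField.adjoin K {t}) F] :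
    ∃ s : Finset (Place K F), (∀ v : Place K F, v ∈ s ↔ 0 < v.ord t) ∧
      ∑ v ∈ s, v.ord t = (Module.finrank ↥(IntermediateField.adjoin K {t}) F : ℤ) := by
  obtain ⟨s, hs⟩ := exists_finset_zeros t ht
  exact ⟨s, hs, fundamental_identity t ht s hs⟩

end Main

end Fermat.Agent.S24.H864

end
end
-- ===== PACK-END S24/H864/FF3f.lean

-- ===== PACK-BEGIN Lib/RR/H443/Degree.lean
section


/-!
# RR bridge (helper443), part 3: `deg (x)_∞ = [F : K(x)]` and `HasPrincipalDivisors`

Characteristic-free.  From `Hyp K F` and the bound `ZerosBound K F` (layer L2 of the RR library: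
zeros of `x` counted with multiplicity are at most `[F : K(x)]`) we deduce

* finiteness of the zeros and poles of every function;
* `[F : K(x)] ≤ deg (x)_∞` (Stichtenoth 1.4.11), hence equality;
* every principal divisor has degree `0`, i.e. `HasPrincipalDivisors K F`, and `FF1 K F`.
-/

set_option autoImplicit false

noncomputable section

open AlgebraicCurve Polynomial IntermediateField
open Fermat.Agent.Lib.RR

namespace Fermat.Agent.Lib.RR.H443

variable {K F : Type*} [Field K] [Field F] [Algebra K F]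

variable (K F) in
/-- The statement of layer L2 of the RR library. -/
def ZerosBound : Prop :=
  ∀ (x : F) [FiniteDimensional K⟮x⟯ F] (S : Finset (Place K F)), (∀ v ∈ S, 0 < v.ord x) →
    ∑ v ∈ S, v.ord x ≤ (Module.finrank K⟮x⟯ F : ℤ)

/-! ### Finiteness of zeros and poles -/

theorem finite_zeros_of_finite (hZ : ZerosBound K F) (x : F) [FiniteDimensional K⟮x⟯ F] :
    {v : Place K F | 0 < v.ord x}.Finite := by
  by_contra hinf
  have hinf' : {v : Place K F | 0 < v.ord x}.Infinite := hinf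
  obtain ⟨S, hS, hcard⟩ := hinf'.exists_subset_card_eq (Module.finrank K⟮x⟯ F + 1)
  have h1 := hZ x S (fun v hv => hS hv)
  have h2 : (S.card : ℤ) ≤ ∑ v ∈ S, v.ord x := by
    have : ∑ _v ∈ S, (1 : ℤ) ≤ ∑ v ∈ S, v.ord x :=
      Finset.sum_le_sum fun v hv => by
        have : 0 < v.ord x := hS hv
        omega
    simpa using this
  rw [hcard] at h2
  push_cast at h2
  omega

theorem transcendental_inv {f : F} (hf : Transcendental K f) : Transcendental K f⁻¹ :=
  fun h => hf (by simpa using h.inv)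

theorem adjoin_inv_eq (f : F) : K⟮f⁻¹⟯ = K⟮f⟯ := by
  apply le_antisymm
  · rw [adjoin_simple_le_iff]
    exact _root_.InvMemClass.inv_mem (mem_adjoin_simple_self K f)
  · rw [adjoin_simple_le_iff]
    have h2 : (f⁻¹)⁻¹ ∈ K⟮f⁻¹⟯ := _root_.InvMemClass.inv_mem (mem_adjoin_simple_self K f⁻¹)
    rwa [inv_inv] at h2

theorem finrank_adjoin_inv (f : F) : Module.finrank K⟮f⁻¹⟯ F = Module.finrank K⟮f⟯ F :=
  congrArg (fun E : IntermediateField K F => Module.finrank E F) (_root_.Fermat.Agent.Lib.RR.H443.adjoin_inv_eq f)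

theorem ord_eq_zero_of_isAlgebraic (h : Hyp K F) {f : F} (hf : IsAlgebraic K f)
    (v : Place K F) : v.ord f = 0 := by
  obtain ⟨c, rfl⟩ := h.const f hf
  exact ord_algebraMap v c

theorem finite_zeros (h : Hyp K F) (hZ : ZerosBound K F) (f : F) :
    {v : Place K F | 0 < v.ord f}.Finite := by
  by_cases hf : Transcendental K f
  · have := h.finite f hf
    exact finite_zeros_of_finite hZ f
  · have hf' : IsAlgebraic K f := by
      by_contra hna
      exact hf hna
    have : {v : Place K F | 0 < v.ord f} = ∅ := by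
      ext v
      simp [ord_eq_zero_of_isAlgebraic h hf' v]
    rw [this]
    exact Set.finite_empty

theorem finite_poles (h : Hyp K F) (hZ : ZerosBound K F) (f : F) :
    {v : Place K F | v.ord f < 0}.Finite := by
  refine (finite_zeros h hZ f⁻¹).subset fun v hv => ?_
  have hv' : v.ord f < 0 := hv
  show 0 < v.ord f⁻¹
  rw [v.ord_inv]
  omega

/-! ### The pole divisor -/

/-- The pole divisor `(f)_∞`. -/
def poleDiv (h : Hyp K F) (hZ : ZerosBound K F) (f : F) : Divisor K F :=
  Finsupp.ofSupportFinite (fun v => max 0 (-v.ord f)) <| by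
    refine (finite_poles h hZ f).subset fun v hv => ?_
    have hv' : max 0 (-v.ord f) ≠ 0 := hv
    show v.ord f < 0
    by_contra hcon
    apply hv'
    rw [max_eq_left]
    omega

@[simp]
theorem poleDiv_apply (h : Hyp K F) (hZ : ZerosBound K F) (f : F) (v : Place K F) :
    poleDiv h hZ f v = max 0 (-v.ord f) := rfl

theorem poleDiv_nonneg (h : Hyp K F) (hZ : ZerosBound K F) (f : F) : 0 ≤ poleDiv h hZ f := by
  rw [Finsupp.le_def]
  intro v
  simp

theorem mem_support_poleDiv (h : Hyp K F) (hZ : ZerosBound K F) (f : F) (v : Place K F) :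
    v ∈ (poleDiv h hZ f).support ↔ v.ord f < 0 := by
  rw [Finsupp.mem_support_iff, poleDiv_apply]
  constructor
  · intro hne
    by_contra hcon
    apply hne
    rw [max_eq_left]
    omega
  · intro hlt
    rw [max_eq_right (by omega)]
    omega

theorem degree_poleDiv (h : Hyp K F) (hZ : ZerosBound K F) (f : F) :
    Divisor.degree (poleDiv h hZ f) = ∑ v ∈ (poleDiv h hZ f).support, v.ord f⁻¹ := by
  rw [degree_eq_sum]
  refine Finset.sum_congr rfl fun v hv => ?_
  rw [mem_support_poleDiv] at hv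
  rw [h.deg_eq_one v, poleDiv_apply, v.ord_inv, max_eq_right (by omega)]
  simp

/-- `deg (x)_∞ ≤ [F : K(x)]`, from the zeros bound applied to `x⁻¹`. -/
theorem degree_poleDiv_le (h : Hyp K F) (hZ : ZerosBound K F) {x : F}
    (hx : Transcendental K x) :
    Divisor.degree (poleDiv h hZ x) ≤ (@Module.finrank K⟮x⟯ F _ _ _ : ℤ) := by
  have := h.finite x⁻¹ (transcendental_inv hx)
  rw [degree_poleDiv, ← finrank_adjoin_inv x]
  refine hZ x⁻¹ _ fun v hv => ?_
  rw [mem_support_poleDiv] at hv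
  rw [v.ord_inv]
  omega

/-! ### The lower bound -/

theorem linearIndependent_pow_of_transcendental {A : Type*} [Ring A] [Algebra K A] {a : A}
    (ha : Transcendental K a) (l : ℕ) :
    LinearIndependent K fun i : Fin (l + 1) => a ^ (i : ℕ) := by
  rw [Fintype.linearIndependent_iff]
  intro g hg i
  have hinj := transcendental_iff_injective.mp ha
  have hp : aeval a (∑ i : Fin (l + 1), Polynomial.monomial (i : ℕ) (g i)) = 0 := by
    rw [_root_.map_sum]
    simp_rw [aeval_monomial, ← Algebra.smul_def]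
    exact hg
  have hp0 : (∑ i : Fin (l + 1), Polynomial.monomial (i : ℕ) (g i)) = 0 :=
    hinj (by rw [hp, _root_.map_zero])
  have := congrArg (fun q : K[X] => q.coeff (i : ℕ)) hp0
  simp only [Polynomial.finsetSum_coeff, Polynomial.coeff_monomial, Polynomial.coeff_zero] at this
  rw [Finset.sum_eq_single i] at this
  · simpa using this
  · intro j _ hji
    rw [if_neg]
    exact fun h => hji (Fin.ext h)
  · intro hi
    exact absurd (Finset.mem_univ i) hi

set_option maxHeartbeats 800000 in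
/-- The products `x ^ i * b j` (`i ≤ l`, `b` a `K(x)`-basis of `F`) are `K`-linearly
independent. -/
theorem linearIndependent_pow_mul_basis {x : F} (hx : Transcendental K x)
    [FiniteDimensional K⟮x⟯ F] (l : ℕ) :
    LinearIndependent K fun p : Fin (l + 1) × Fin (Module.finrank K⟮x⟯ F) =>
      x ^ (p.1 : ℕ) * (Module.finBasis K⟮x⟯ F p.2 : F) := by
  have hgen : Transcendental K (AdjoinSimple.gen K x) := by
    rw [← transcendental_algebraMap_iff (algebraMap K⟮x⟯ F).injective]
    exact hx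
  have h1 := linearIndependent_pow_of_transcendental hgen l
  have h2 := (Module.finBasis K⟮x⟯ F).linearIndependent
  have h3 := linearIndependent_smul h1 h2
  convert h3 using 2 with p
  rw [Algebra.smul_def]
  simp

/-- `[F : K(x)] ≤ deg (x)_∞` (Stichtenoth, Thm. 1.4.11). -/
theorem finrank_le_degree_poleDiv (h : Hyp K F) (hZ : ZerosBound K F) {x : F}
    (hx : Transcendental K x) :
    (@Module.finrank K⟮x⟯ F _ _ _ : ℤ) ≤ Divisor.degree (poleDiv h hZ x) := by
  classical
  have hfinx := h.finite x hx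
  set n := Module.finrank K⟮x⟯ F with hn
  set B := poleDiv h hZ x with hB
  set C : Divisor K F := ∑ j : Fin n, poleDiv h hZ (Module.finBasis K⟮x⟯ F j : F) with hC
  have hB0 : 0 ≤ B := poleDiv_nonneg h hZ x
  have hC0 : 0 ≤ C := Finset.sum_nonneg fun j _ => poleDiv_nonneg h hZ _
  have hx0 : x ≠ 0 := fun h0 => hx (h0 ▸ isAlgebraic_zero)
  -- the key inequality for every `l`
  have key : ∀ l : ℕ, ((l + 1) * n : ℤ) ≤ l * Divisor.degree B + Divisor.degree C + 1 := by
    intro l
    have hD0 : 0 ≤ l • B + C := add_nonneg (nsmul_nonneg hB0 l) hC0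
    have hfin := finite_L_of_nonneg h hD0
    have hell := ell_le_of_nonneg h hD0
    have hli := linearIndependent_pow_mul_basis hx l
    have hmem : ∀ p : Fin (l + 1) × Fin n,
        x ^ (p.1 : ℕ) * (Module.finBasis K⟮x⟯ F p.2 : F) ∈ riemannRochSpace (l • B + C) := by
      rintro ⟨i, j⟩
      rw [mem_L_iff]
      intro v
      right
      have hbj : (Module.finBasis K⟮x⟯ F j : F) ≠ 0 := (Module.finBasis K⟮x⟯ F).ne_zero j
      rw [v.ord_mul (pow_ne_zero _ hx0) hbj, ord_pow]
      have hBv : B v = max 0 (-v.ord x) := rfl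
      have hCv : max 0 (-v.ord (Module.finBasis K⟮x⟯ F j : F)) ≤ C v := by
        rw [hC, Finsupp.finsetSum_apply]
        have : poleDiv h hZ (Module.finBasis K⟮x⟯ F j : F) v ≤
            ∑ j' : Fin n, poleDiv h hZ (Module.finBasis K⟮x⟯ F j' : F) v :=
          Finset.single_le_sum
            (f := fun j' => poleDiv h hZ (Module.finBasis K⟮x⟯ F j' : F) v)
            (fun j' _ => by simp) (Finset.mem_univ j)
        simpa using this
      have hi : (i : ℕ) ≤ l := Nat.lt_succ_iff.mp i.2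
      have hval : (l • B + C) v = (l : ℤ) * B v + C v := by
        rw [Finsupp.add_apply, Finsupp.smul_apply, nsmul_eq_mul]
      rw [hval, hBv]
      have h1 : ((i : ℕ) : ℤ) * max 0 (-v.ord x) ≤ (l : ℤ) * max 0 (-v.ord x) :=
        mul_le_mul_of_nonneg_right (by exact_mod_cast hi) (le_max_left _ _)
      have h2 : -(((i : ℕ) : ℤ) * max 0 (-v.ord x)) ≤ ((i : ℕ) : ℤ) * v.ord x := by
        have h3 : -v.ord x ≤ max 0 (-v.ord x) := le_max_right _ _
        have h4 : (0 : ℤ) ≤ ((i : ℕ) : ℤ) := Int.natCast_nonneg _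
        nlinarith
      have h5 : -v.ord (Module.finBasis K⟮x⟯ F j : F) ≤
          max 0 (-v.ord (Module.finBasis K⟮x⟯ F j : F)) := le_max_right _ _
      push_cast
      linarith
    -- count
    let g : Fin (l + 1) × Fin n → riemannRochSpace (l • B + C) := fun p => ⟨_, hmem p⟩
    have hli' : LinearIndependent K g := by
      apply LinearIndependent.of_comp (riemannRochSpace (l • B + C)).subtype
      exact hli
    have hcard := hli'.fintype_card_le_finrank
    rw [Fintype.card_prod, Fintype.card_fin, Fintype.card_fin] at hcard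
    have hdeg : Divisor.degree (l • B + C) = l * Divisor.degree B + Divisor.degree C := by
      rw [_root_.map_add, map_nsmul, nsmul_eq_mul]
    have hcard' : (((l + 1) * n : ℕ) : ℤ) ≤ (ell (l • B + C) : ℤ) := by exact_mod_cast hcard
    rw [hdeg] at hell
    push_cast at hcard'
    linarith
  -- conclude
  by_contra hcon
  rw [not_le] at hcon
  have hdC : 0 ≤ Divisor.degree C := degree_nonneg hC0
  have hdB : 0 ≤ Divisor.degree B := degree_nonneg hB0
  have hk := key ((Divisor.degree C).toNat + 1)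
  have hl : ((Divisor.degree C).toNat : ℤ) = Divisor.degree C := Int.toNat_of_nonneg hdC
  push_cast at hk
  rw [hl] at hk
  have hn1 : 0 ≤ (n : ℤ) - Divisor.degree B - 1 := by omega
  have hC2 : 0 ≤ Divisor.degree C + 2 := by omega
  nlinarith [mul_nonneg hC2 hn1]

/-- **The degree of the pole divisor** of a transcendental `x` is `[F : K(x)]`. -/
theorem degree_poleDiv_eq (h : Hyp K F) (hZ : ZerosBound K F) {x : F}
    (hx : Transcendental K x) :
    Divisor.degree (poleDiv h hZ x) = (@Module.finrank K⟮x⟯ F _ _ _ : ℤ) :=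
  le_antisymm (degree_poleDiv_le h hZ hx) (finrank_le_degree_poleDiv h hZ hx)

/-! ### Principal divisors -/

/-- The divisor of a function. -/
def divFun (h : Hyp K F) (hZ : ZerosBound K F) (f : F) : Divisor K F :=
  poleDiv h hZ f⁻¹ - poleDiv h hZ f

theorem divFun_apply (h : Hyp K F) (hZ : ZerosBound K F) (f : F) (v : Place K F) :
    divFun h hZ f v = v.ord f := by
  simp only [divFun, Finsupp.coe_sub, Pi.sub_apply, poleDiv_apply, v.ord_inv, neg_neg]
  rcases le_total 0 (v.ord f) with h0 | h0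
  · rw [max_eq_right h0, max_eq_left (by omega)]
    ring
  · rw [max_eq_left h0, max_eq_right (by omega)]
    ring

theorem degree_divFun (h : Hyp K F) (hZ : ZerosBound K F) (f : F) :
    Divisor.degree (divFun h hZ f) = 0 := by
  by_cases hf : Transcendental K f
  · rw [divFun, _root_.map_sub, degree_poleDiv_eq h hZ hf,
      degree_poleDiv_eq h hZ (transcendental_inv hf), finrank_adjoin_inv]
    ring
  · have hf' : IsAlgebraic K f := by
      by_contra hna
      exact hf hna
    have : divFun h hZ f = 0 := by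
      ext v
      rw [divFun_apply, ord_eq_zero_of_isAlgebraic h hf' v]
      rfl
    rw [this, _root_.map_zero]

/-- **Principal divisors have degree zero** — in any characteristic. -/
theorem hasPrincipalDivisors (h : Hyp K F) (hZ : ZerosBound K F) : HasPrincipalDivisors K F :=
  ⟨fun f _ => ⟨divFun h hZ f, divFun_apply h hZ f, degree_divFun h hZ f⟩⟩

/-- The bridge: the standing hypotheses `FF1` of the RR library. -/
theorem ff1_of_hyp (h : Hyp K F) (hZ : ZerosBound K F) {x : F} (hx : Transcendental K x) :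
    FF1 K F where
  hpd := hasPrincipalDivisors h hZ
  deg_eq_one := h.deg_eq_one
  nonempty_place := by
    obtain ⟨v, -⟩ := exists_place_ord_pos h.finite hx
    exact ⟨v⟩
  exists_finite := ⟨x, hx, h.finite x hx⟩

/-- **Fundamental identity at the zeros**: `∑_{v(x) > 0} ord_v x = [F : K(x)]`. -/
theorem sum_ord_zeros_eq_finrank (h : Hyp K F) (hZ : ZerosBound K F) {x : F}
    (hx : Transcendental K x) (S : Finset (Place K F)) (hS : ∀ v, v ∈ S ↔ 0 < v.ord x) :
    ∑ v ∈ S, v.ord x = (@Module.finrank K⟮x⟯ F _ _ _ : ℤ) := by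
  have h1 := degree_poleDiv_eq h hZ (transcendental_inv hx)
  rw [finrank_adjoin_inv, degree_poleDiv, inv_inv] at h1
  rw [← h1]
  refine Finset.sum_congr ?_ fun _ _ => rfl
  ext v
  rw [hS, mem_support_poleDiv, v.ord_inv]
  omega

/-- **Fundamental identity at the poles**: `∑_{v(x) < 0} -ord_v x = [F : K(x)]`. -/
theorem sum_ord_poles_eq_finrank (h : Hyp K F) (hZ : ZerosBound K F) {x : F}
    (hx : Transcendental K x) (S : Finset (Place K F)) (hS : ∀ v, v ∈ S ↔ v.ord x < 0) :
    ∑ v ∈ S, -v.ord x = (@Module.finrank K⟮x⟯ F _ _ _ : ℤ) := by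
  have h1 := degree_poleDiv_eq h hZ hx
  rw [degree_poleDiv] at h1
  rw [← h1]
  refine Finset.sum_congr ?_ fun v _ => ?_
  · ext v
    rw [hS, mem_support_poleDiv]
  · rw [v.ord_inv]

end Fermat.Agent.Lib.RR.H443

end
end
-- ===== PACK-END Lib/RR/H443/Degree.lean

-- ===== PACK-BEGIN S18/Mod/H216/PartVj.lean
section


/-!
# S18 / MOD (helper216): G-V for the coordinate `j` — the fields that need no basis

For a uniformiser `w` (`PartR (Ec M E) (Rc M A E) w`):
`R_le_V`, `w_inv_not_mem_V`, `V_gen`, `gauss` for `V = Vc M A E`, `x = jOm M`.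
(`V_total` needs the S28 basis: see `Basis.lean`.)
-/

set_option autoImplicit false
set_option linter.unusedSectionVars false

noncomputable section

namespace Fermat.Agent.S18.Mod.H216

open ModularCurve AlgebraicCurve HahnSeries Polynomial Fermat.Agent.S18 Fermat.Agent.S18.Mod

variable (M : ℕ) (A : ValuationSubring Qb) (E : IntermediateField ℚ Qb)

/-! ### Units and non-units of `A` -/

theorem residue_eq_zero_of_inv_not_mem {c : Qb} (hc : c ∈ A) (hinv : c⁻¹ ∉ A) :
    IsLocalRing.residue ↥A ⟨c, hc⟩ = 0 := by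
  rw [IsLocalRing.residue_eq_zero_iff, IsLocalRing.mem_maximalIdeal, mem_nonunits_iff]
  rintro ⟨u, hu⟩
  apply hinv
  have h1 : (⟨c, hc⟩ : ↥A) * ((u⁻¹ : (↥A)ˣ) : ↥A) = 1 := by
    rw [← hu]
    exact u.mul_inv
  have h2 : c * ((((u⁻¹ : (↥A)ˣ) : ↥A) : Qb)) = 1 := congrArg Subtype.val h1
  have h3 : c⁻¹ = ((((u⁻¹ : (↥A)ˣ) : ↥A) : Qb)) := inv_eq_of_mul_eq_one_right h2
  rw [h3]
  exact SetLike.coe_mem _

theorem residue_ne_zero_of_inv_mem {c : Qb} (hc : c ∈ A) (hc0 : c ≠ 0) (hinv : c⁻¹ ∈ A) :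
    IsLocalRing.residue ↥A ⟨c, hc⟩ ≠ 0 := by
  rw [Ne, IsLocalRing.residue_eq_zero_iff, IsLocalRing.mem_maximalIdeal, mem_nonunits_iff, not_not]
  exact IsUnit.of_mul_eq_one (⟨c⁻¹, hinv⟩ : ↥A) (Subtype.ext (mul_inv_cancel₀ hc0))

theorem inv_not_mem_of_residue_eq_zero {c : Qb} (hc : c ∈ A) (hc0 : c ≠ 0)
    (h : IsLocalRing.residue ↥A ⟨c, hc⟩ = 0) : c⁻¹ ∉ A :=
  fun hinv => residue_ne_zero_of_inv_mem A hc hc0 hinv h

/-! ### Constants -/

theorem algebraMap_mem_Rc_iff {c : Qb} : algebraMap Qb (Om M) c ∈ Rc M A E ↔ c ∈ A ∧ c ∈ E := by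
  constructor
  · intro h
    obtain ⟨c', hA, hE, hcc⟩ := (mem_Rc_iff M A E).mp h
    have : c' = c := (algebraMap Qb (Om M)).injective hcc
    exact this ▸ ⟨hA, hE⟩
  · rintro ⟨hA, hE⟩
    exact (mem_Rc_iff M A E).mpr ⟨c, hA, hE, rfl⟩

/-- The uniformiser data extracted from `PartR`. -/
theorem exists_unif {w : Om M} (hR : PartR (Ec M E) (Rc M A E) w) :
    ∃ c : Qb, c ∈ A ∧ c ∈ E ∧ c ≠ 0 ∧ c⁻¹ ∉ A ∧ algebraMap Qb (Om M) c = w := by
  obtain ⟨c, hA, hE, rfl⟩ := (mem_Rc_iff M A E).mp hR.w_mem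
  refine ⟨c, hA, hE, ?_, ?_, rfl⟩
  · intro h0
    apply hR.w_ne_zero
    rw [h0, _root_.map_zero]
  · intro hinv
    apply hR.w_inv_not_mem
    rw [← map_inv₀]
    exact (algebraMap_mem_Rc_iff M A E).mpr ⟨hinv, inv_mem hE⟩

theorem R_le_V : Rc M A E ≤ Vc M A E := by
  intro r hr
  obtain ⟨c, hA, hE, rfl⟩ := (mem_Rc_iff M A E).mp hr
  rw [← toOm_cInt M A E hA hE]
  exact toOm_mem_Vc M A E _

theorem w_inv_not_mem_V {w : Om M} (hR : PartR (Ec M E) (Rc M A E) w) : w⁻¹ ∉ Vc M A E := by
  obtain ⟨c, hA, hE, hc0, hcinv, rfl⟩ := exists_unif M A E hR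
  intro h
  obtain ⟨U₁, U₂, hne, heq⟩ := (mem_Vc_iff' M A E).mp h
  have hw0 : algebraMap Qb (Om M) c ≠ 0 := hR.w_ne_zero
  have h1 : toOm M A E U₂ = toOm M A E (cInt M A E hA hE * U₁) := by
    rw [_root_.map_mul, toOm_cInt, ← heq, ← mul_assoc, mul_inv_cancel₀ hw0, one_mul]
  have h2 : U₂ = cInt M A E hA hE * U₁ := toOm_injective M A E h1
  apply hne
  rw [h2, _root_.map_mul, redE_cInt, residue_eq_zero_of_inv_not_mem A hA hcinv, _root_.map_zero, zero_mul]

/-! ### Division of a series by the uniformiser -/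

open Classical in
/-- Coefficientwise division by `c` (junk value `0` when the quotient is not in `A`). -/
def divC (c : Qb) : ZeroHom ↥A ↥A where
  toFun a := if h : (a : Qb) * c⁻¹ ∈ A then ⟨(a : Qb) * c⁻¹, h⟩ else 0
  map_zero' := by
    have h : ((0 : ↥A) : Qb) * c⁻¹ ∈ A := by simp
    rw [dif_pos h]
    apply Subtype.ext
    simp

open Classical in
theorem divC_apply {c : Qb} {a : ↥A} (h : (a : Qb) * c⁻¹ ∈ A) :
    ((divC A c a : ↥A) : Qb) = (a : Qb) * c⁻¹ := by
  show ((if h : (a : Qb) * c⁻¹ ∈ A then (⟨(a : Qb) * c⁻¹, h⟩ : ↥A) else 0 : ↥A) : Qb) = _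
  rw [dif_pos h]

theorem algebraMap_LS_eq_C (c : Qb) :
    algebraMap Qb (LaurentSeries Qb) c = HahnSeries.C c := by
  rw [algebraMap_laurentSeries_eq_single, ← HahnSeries.C_apply]

/-- A series with zero reduction is divisible by the uniformiser inside `intE`. -/
theorem exists_eq_unif_mul {w : Om M} (hR : PartR (Ec M E) (Rc M A E) w)
    {U : ↥(intE M A E)} (hU : redE M A E U = 0) :
    ∃ U' : ↥(intE M A E), toOm M A E U = w * toOm M A E U' := by
  obtain ⟨c, hA, hE, hc0, hcinv, rfl⟩ := exists_unif M A E hR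
  have hUE : ∀ n, (((U : LaurentSeries ↥A).coeff n : ↥A) : Qb) ∈ E :=
    ((mem_intE M A E).mp U.2).1
  have hres : ∀ n, IsLocalRing.residue ↥A ((U : LaurentSeries ↥A).coeff n) = 0 := by
    intro n
    have := congrArg (fun z : LaurentSeries (IsLocalRing.ResidueField ↥A) => z.coeff n) hU
    simpa using this
  have hdiv : ∀ n, (((U : LaurentSeries ↥A).coeff n : ↥A) : Qb) * c⁻¹ ∈ A := by
    intro n
    set a := (U : LaurentSeries ↥A).coeff n with ha
    by_cases ha0 : (a : Qb) = 0
    · rw [ha0, zero_mul]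
      exact zero_mem _
    have hr : algebraMap Qb (Om M) (a : Qb) ∈ Rc M A E :=
      (algebraMap_mem_Rc_iff M A E).mpr ⟨a.2, hUE n⟩
    have hrinv : (algebraMap Qb (Om M) (a : Qb))⁻¹ ∉ Rc M A E := by
      rw [← map_inv₀, algebraMap_mem_Rc_iff]
      rintro ⟨h, -⟩
      exact inv_not_mem_of_residue_eq_zero A a.2 ha0 (hres n) h
    have := hR.w_gen _ hr hrinv
    rw [← map_inv₀, ← _root_.map_mul, algebraMap_mem_Rc_iff] at this
    exact this.1
  set U' : LaurentSeries ↥A := (U : LaurentSeries ↥A).map (divC A c) with hU'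
  have hcoeff : ∀ n, ((U'.coeff n : ↥A) : Qb) = (((U : LaurentSeries ↥A).coeff n : ↥A) : Qb) * c⁻¹ :=
    fun n => divC_apply A (hdiv n)
  have hmul : inclA A (U : LaurentSeries ↥A) = HahnSeries.C c * inclA A U' := by
    ext n
    rw [HahnSeries.C_mul_eq_smul, HahnSeries.coeff_smul]
    show (((U : LaurentSeries ↥A).coeff n : ↥A) : Qb) = c • ((U'.coeff n : ↥A) : Qb)
    rw [hcoeff, smul_eq_mul]
    field_simp
  have hw0 : algebraMap Qb (Om M) c ≠ 0 := hR.w_ne_zero
  have hincl : inclA A U' =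
      (((algebraMap Qb (Om M) c)⁻¹ * toOm M A E U : Om M) : LaurentSeries Qb) := by
    have hC0 : (HahnSeries.C c : LaurentSeries Qb) ≠ 0 := by
      rw [← coe_algebraMap_Om M c]
      exact fun h => hw0 (Subtype.ext h)
    push_cast
    rw [algebraMap_LS_eq_C, coe_toOm, hmul, ← mul_assoc, inv_mul_cancel₀ hC0, one_mul]
  have hmem : U' ∈ intE M A E := by
    rw [mem_intE]
    refine ⟨fun n => ?_, (algebraMap Qb (Om M) c)⁻¹ * toOm M A E U, ?_, hincl.symm⟩
    · rw [hcoeff]
      exact mul_mem (hUE n) (inv_mem hE)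
    · exact mul_mem (inv_mem (Ec_le_Fc M E ((mem_Ec_iff M E).mpr ⟨c, hE, rfl⟩)))
        (toOm_mem_Fc M A E U)
  refine ⟨⟨U', hmem⟩, ?_⟩
  apply Subtype.ext
  push_cast
  rw [algebraMap_LS_eq_C, coe_toOm, coe_toOm]
  exact hmul

theorem V_gen {w : Om M} (hR : PartR (Ec M E) (Rc M A E) w) :
    ∀ f ∈ Vc M A E, f⁻¹ ∉ Vc M A E → f * w⁻¹ ∈ Vc M A E := by
  intro f hf hfinv
  obtain ⟨U₁, U₂, hne, heq⟩ := (mem_Vc_iff' M A E).mp hf
  have hw0 := hR.w_ne_zero
  have h1 : redE M A E U₁ = 0 := by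
    by_contra h1
    apply hfinv
    have hU1 := toOm_ne_zero_of_redE M A E h1
    have hf0 : f ≠ 0 := by
      intro h0
      rw [h0, zero_mul] at heq
      exact hU1 heq.symm
    refine (mem_Vc_iff' M A E).mpr ⟨U₂, U₁, h1, ?_⟩
    rw [← heq, ← mul_assoc, inv_mul_cancel₀ hf0, one_mul]
  obtain ⟨U', hU'⟩ := exists_eq_unif_mul M A E hR h1
  refine (mem_Vc_iff' M A E).mpr ⟨U', U₂, hne, ?_⟩
  rw [mul_right_comm, heq, hU', mul_comm w, mul_assoc, mul_inv_cancel₀ hw0, mul_one]

/-! ### The Gauss property -/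

theorem gauss_j (P : Polynomial (Om M)) (hP : ∀ i, P.coeff i ∈ Rc M A E)
    (hu : ∃ i, P.coeff i ≠ 0 ∧ (P.coeff i)⁻¹ ∈ Rc M A E) :
    (P.eval (jOm M))⁻¹ ∈ Vc M A E := by
  have hlifts : P ∈ Polynomial.lifts (Rc M A E).subtype :=
    (Polynomial.lifts_iff_coeff_lifts P).mpr fun i => ⟨⟨P.coeff i, hP i⟩, rfl⟩
  obtain ⟨p, hp⟩ := (Polynomial.mem_lifts P).mp hlifts
  have hev : P.eval (jOm M) = evR (Rc M A E) (jOm M) p := by
    rw [← hp, evR_apply, Polynomial.eval_map]
  rw [hev, evR_eq_toOm_Uev]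
  apply inv_toOm_mem_Vc
  rw [Ne, redE_Uev_eq_zero_iff]
  obtain ⟨i, hi0, hiinv⟩ := hu
  intro h0
  have h1 := congrArg (fun q => q.coeff i) h0
  simp only [Polynomial.coeff_map, Polynomial.coeff_zero] at h1
  set c := (eRc M A E).symm (p.coeff i) with hc
  have hcP : algebraMap Qb (Om M) (c : Qb) = P.coeff i := by
    have h2 : ((eRc M A E c : ↥(Rc M A E)) : Om M) = ((p.coeff i : ↥(Rc M A E)) : Om M) := by
      rw [hc, RingEquiv.apply_symm_apply]
    rw [coe_eRc] at h2
    rw [h2, ← hp, Polynomial.coeff_map]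
    rfl
  have hc0 : (c : Qb) ≠ 0 := by
    intro h
    apply hi0
    rw [← hcP, h, _root_.map_zero]
  have hcinv : (c : Qb)⁻¹ ∈ A := by
    rw [← hcP, ← map_inv₀, algebraMap_mem_Rc_iff] at hiinv
    exact hiinv.1
  exact residue_ne_zero_of_inv_mem A c.2.1 hc0 hcinv h1

end Fermat.Agent.S18.Mod.H216

end
end
-- ===== PACK-END S18/Mod/H216/PartVj.lean

-- ===== PACK-BEGIN S18/H24/GaussA.lean
section


/-!
# S18 / MOD-ASM, piece G-V (helper24) — part A: integral series and the Gauss valuation ring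

Concrete objects of `S18/Mod/Defs.lean`.  `inc = coeffMap A.subtype : A((q)) → Q̄((q))`,
`red = coeffMap (residue A) : A((q)) → κ((q))`.

* `isIntE_iff`                 : `IsIntE M A E U ↔ ∃ f ∈ Fc M E, f = inc U`;
* `IsIntE.add/mul/neg/...`     : integral series form a ring;
* `Vc M A E : Subring (Om M)`  : the Gauss valuation ring, with carrier `VcSet M A E`
  (`coe_Vc`);
* fields `V_le`, `R_le_V`, `w_inv_not_mem_V` of `Alg.GoodModel`.
-/

set_option autoImplicit false

noncomputable section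

namespace Fermat.Agent.S18.H24

open ModularCurve AlgebraicCurve HahnSeries Fermat.Agent.S18 Fermat.Agent.S18.Mod
open Fermat.Agent.S18.H456

variable (M : ℕ) (A : ValuationSubring Qb) (E : IntermediateField ℚ Qb)

/-- `A((q)) → Q̄((q))`. -/
abbrev inc : LaurentSeries A →+* LaurentSeries Qb := coeffMap A.subtype

/-- `A((q)) → κ((q))`. -/
abbrev red : LaurentSeries A →+* LaurentSeries (IsLocalRing.ResidueField A) :=
  coeffMap (IsLocalRing.residue A)

variable {A} in
theorem inc_injective : Function.Injective (inc A) := by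
  intro x y hxy
  ext k
  have := congrArg (fun z => z.coeff k) hxy
  simpa using this

variable {A} in
theorem inc_coeff (U : LaurentSeries A) (n : ℤ) : (inc A U).coeff n = (U.coeff n : Qb) := by
  rw [coeffMap_coeff]; rfl

variable {A} in
theorem red_coeff (U : LaurentSeries A) (n : ℤ) :
    (red A U).coeff n = IsLocalRing.residue A (U.coeff n) := by
  rw [coeffMap_coeff]

variable {A} in
/-- A series over `Q̄` with coefficients in `A` comes from `A((q))`. -/
theorem exists_inc_eq {g : LaurentSeries Qb} (hg : ∀ n, g.coeff n ∈ A) :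
    ∃ U : LaurentSeries A, inc A U = g := by
  have hsupp : (Function.support fun n => (⟨g.coeff n, hg n⟩ : A)) = g.support := by
    ext n
    simp only [Function.mem_support, HahnSeries.mem_support, ne_eq]
    constructor
    · intro h h0
      exact h (Subtype.ext h0)
    · intro h h0
      exact h (congrArg Subtype.val h0)
  refine ⟨⟨fun n => ⟨g.coeff n, hg n⟩, ?_⟩, ?_⟩
  · rw [hsupp]; exact g.isPWO_support
  · ext n
    rw [inc_coeff]

variable {A} in
theorem red_eq_zero_iff (U : LaurentSeries A) :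
    red A U = 0 ↔ ∀ n, U.coeff n ∈ IsLocalRing.maximalIdeal A := by
  constructor
  · intro h n
    have := congrArg (fun z => z.coeff n) h
    simp only [red_coeff, HahnSeries.coeff_zero] at this
    exact (IsLocalRing.residue_eq_zero_iff _).mp this
  · intro h
    ext n
    rw [red_coeff, HahnSeries.coeff_zero]
    exact (IsLocalRing.residue_eq_zero_iff _).mpr (h n)

variable {A} in
/-- an element of `A` is in the maximal ideal iff it is `0` or its inverse is not in `A`. -/
theorem mem_maximalIdeal_iff (c : A) :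
    c ∈ IsLocalRing.maximalIdeal A ↔ (c : Qb) = 0 ∨ (c : Qb)⁻¹ ∉ A := by
  rw [IsLocalRing.mem_maximalIdeal, mem_nonunits_iff]
  constructor
  · intro h
    by_contra hcon
    rw [not_or, not_not] at hcon
    apply h
    exact isUnit_iff_exists_inv.mpr ⟨⟨(c : Qb)⁻¹, hcon.2⟩, Subtype.ext (by
      show (c : Qb) * (c : Qb)⁻¹ = 1
      exact mul_inv_cancel₀ hcon.1)⟩
  · rintro (h | h) hu
    · have : c = 0 := Subtype.ext h
      rw [this] at hu
      exact not_isUnit_zero hu
    · obtain ⟨d, hd⟩ := isUnit_iff_exists_inv.mp hu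
      apply h
      have h1 : (c : Qb) * (d : Qb) = 1 := congrArg Subtype.val hd
      have : (c : Qb)⁻¹ = d := inv_eq_of_mul_eq_one_right h1
      rw [this]; exact d.2

/-! ### Integral series -/

theorem isIntE_iff {U : LaurentSeries A} :
    IsIntE M A E U ↔ ∃ f ∈ Fc M E, (f : LaurentSeries Qb) = inc A U := by
  constructor
  · exact fun h => h.2
  · rintro ⟨f, hf, hfU⟩
    refine ⟨fun n => ?_, f, hf, hfU⟩
    have := coeff_mem_of_mem_Fc M E hf n
    rw [hfU, inc_coeff] at this
    exact this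

variable {M A E}

theorem isIntE_zero : IsIntE M A E 0 :=
  (isIntE_iff M A E).mpr ⟨0, zero_mem _, by simp⟩

theorem isIntE_one : IsIntE M A E 1 :=
  (isIntE_iff M A E).mpr ⟨1, one_mem _, by simp⟩

theorem IsIntE.add {U U' : LaurentSeries A} (h : IsIntE M A E U) (h' : IsIntE M A E U') :
    IsIntE M A E (U + U') := by
  obtain ⟨f, hf, hfU⟩ := (isIntE_iff M A E).mp h
  obtain ⟨f', hf', hfU'⟩ := (isIntE_iff M A E).mp h'
  exact (isIntE_iff M A E).mpr ⟨f + f', add_mem hf hf', by
    rw [_root_.map_add, ← hfU, ← hfU']; rfl⟩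

theorem IsIntE.mul {U U' : LaurentSeries A} (h : IsIntE M A E U) (h' : IsIntE M A E U') :
    IsIntE M A E (U * U') := by
  obtain ⟨f, hf, hfU⟩ := (isIntE_iff M A E).mp h
  obtain ⟨f', hf', hfU'⟩ := (isIntE_iff M A E).mp h'
  exact (isIntE_iff M A E).mpr ⟨f * f', mul_mem hf hf', by
    rw [_root_.map_mul, ← hfU, ← hfU']; rfl⟩

theorem IsIntE.neg {U : LaurentSeries A} (h : IsIntE M A E U) : IsIntE M A E (-U) := by
  obtain ⟨f, hf, hfU⟩ := (isIntE_iff M A E).mp h
  exact (isIntE_iff M A E).mpr ⟨-f, neg_mem hf, by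
    rw [_root_.map_neg, ← hfU]; rfl⟩

theorem IsIntE.pow {U : LaurentSeries A} (h : IsIntE M A E U) (n : ℕ) : IsIntE M A E (U ^ n) := by
  induction n with
  | zero => rw [pow_zero]; exact isIntE_one
  | succ n ih => rw [pow_succ]; exact IsIntE.mul ih h

/-- A constant `c ∈ A ∩ E` as an integral series. -/
theorem isIntE_C {c : A} (hc : (c : Qb) ∈ E) : IsIntE M A E (HahnSeries.C c) := by
  refine (isIntE_iff M A E).mpr ⟨cst M (c : Qb), field_E_le_F M E (cst_mem_Ec M E hc), ?_⟩
  rw [val_cst]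
  ext n
  rw [inc_coeff]
  by_cases hn : n = 0
  · subst hn
    simp [HahnSeries.C_apply]
  · rw [HahnSeries.coeff_single_of_ne hn]
    have : (HahnSeries.C c : LaurentSeries A).coeff n = 0 := by
      rw [HahnSeries.C_apply, HahnSeries.coeff_single_of_ne hn]
    rw [this]; rfl

theorem inc_C (c : A) : inc A (HahnSeries.C c) = HahnSeries.C (c : Qb) := by
  ext n
  rw [inc_coeff]
  by_cases hn : n = 0
  · subst hn
    simp [HahnSeries.C_apply]
  · rw [HahnSeries.C_apply, HahnSeries.C_apply, HahnSeries.coeff_single_of_ne hn,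
      HahnSeries.coeff_single_of_ne hn]
    rfl

theorem red_C (c : A) : red A (HahnSeries.C c) = HahnSeries.C (IsLocalRing.residue A c) := by
  ext n
  rw [red_coeff]
  by_cases hn : n = 0
  · subst hn
    simp [HahnSeries.C_apply]
  · rw [HahnSeries.C_apply, HahnSeries.C_apply, HahnSeries.coeff_single_of_ne hn,
      HahnSeries.coeff_single_of_ne hn, _root_.map_zero]

/-! ### The Gauss valuation ring -/

theorem mem_VcSet_iff {f : Om M} :
    f ∈ VcSet M A E ↔ f ∈ Fc M E ∧ ∃ U₁ U₂ : LaurentSeries A, IsIntE M A E U₁ ∧ IsIntE M A E U₂ ∧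
      red A U₂ ≠ 0 ∧ (f : LaurentSeries Qb) * inc A U₂ = inc A U₁ := Iff.rfl

/-- An integral series defines an element of `V`. -/
theorem mem_VcSet_of_isIntE {f : Om M} {U : LaurentSeries A} (hU : IsIntE M A E U)
    (hf : (f : LaurentSeries Qb) = inc A U) : f ∈ VcSet M A E := by
  obtain ⟨g, hg, hgU⟩ := (isIntE_iff M A E).mp hU
  have hfg : f = g := Subtype.ext (by rw [hf, hgU])
  refine ⟨hfg ▸ hg, U, 1, hU, isIntE_one, ?_, ?_⟩
  · rw [_root_.map_one]; exact one_ne_zero
  · rw [_root_.map_one, mul_one, hf]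

variable (M A E) in
/-- The Gauss valuation ring `V` of `Fc`, as a subring of `Ω`. -/
def Vc : Subring (Om M) where
  carrier := VcSet M A E
  zero_mem' := mem_VcSet_of_isIntE isIntE_zero (by simp)
  one_mem' := mem_VcSet_of_isIntE isIntE_one (by simp)
  add_mem' := by
    rintro f g ⟨hf, U₁, U₂, h₁, h₂, hr, hfU⟩ ⟨hg, W₁, W₂, k₁, k₂, kr, hgW⟩
    refine ⟨add_mem hf hg, U₁ * W₂ + W₁ * U₂, U₂ * W₂, IsIntE.add (IsIntE.mul h₁ k₂) (IsIntE.mul k₁ h₂), IsIntE.mul h₂ k₂,
      ?_, ?_⟩
    · rw [_root_.map_mul]; exact mul_ne_zero hr kr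
    · show ((f : LaurentSeries Qb) + (g : LaurentSeries Qb)) * inc A (U₂ * W₂) = _
      rw [_root_.map_mul, _root_.map_add, _root_.map_mul, _root_.map_mul, ← hfU, ← hgW]
      ring
  mul_mem' := by
    rintro f g ⟨hf, U₁, U₂, h₁, h₂, hr, hfU⟩ ⟨hg, W₁, W₂, k₁, k₂, kr, hgW⟩
    refine ⟨mul_mem hf hg, U₁ * W₁, U₂ * W₂, IsIntE.mul h₁ k₁, IsIntE.mul h₂ k₂, ?_, ?_⟩
    · rw [_root_.map_mul]; exact mul_ne_zero hr kr
    · show ((f : LaurentSeries Qb) * (g : LaurentSeries Qb)) * inc A (U₂ * W₂) = _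
      rw [_root_.map_mul, _root_.map_mul, ← hfU, ← hgW]
      ring
  neg_mem' := by
    rintro f ⟨hf, U₁, U₂, h₁, h₂, hr, hfU⟩
    refine ⟨neg_mem hf, -U₁, U₂, IsIntE.neg h₁, h₂, hr, ?_⟩
    show (-(f : LaurentSeries Qb)) * inc A U₂ = _
    rw [_root_.map_neg, ← hfU]
    ring

variable (M A E) in
theorem coe_Vc : (Vc M A E : Set (Om M)) = VcSet M A E := rfl

theorem mem_Vc_iff {f : Om M} : f ∈ Vc M A E ↔ f ∈ VcSet M A E := Iff.rfl

variable (M A E) in
/-- field `V_le`. -/
theorem field_V_le : (Vc M A E : Set (Om M)) ⊆ Fc M E := fun _ hf => hf.1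

variable (M A E) in
/-- field `R_le_V`. -/
theorem field_R_le_V : Rc M A E ≤ Vc M A E := by
  intro r hr
  obtain ⟨c, hcA, hcE, rfl⟩ := (mem_Rc_iff M A E).mp hr
  refine mem_VcSet_of_isIntE (U := HahnSeries.C (⟨c, hcA⟩ : A)) (isIntE_C hcE) ?_
  rw [val_cst, inc_C]
  rfl

/-- field `w_inv_not_mem_V`: a non-unit `w₀ ≠ 0` of `A` is not invertible in `V`. -/
theorem field_w_inv_not_mem_V {w₀ : Qb} (hw0 : w₀ ≠ 0) (hwn : w₀⁻¹ ∉ A) :
    (cst M w₀)⁻¹ ∉ Vc M A E := by
  rintro ⟨-, U₁, U₂, -, -, hr, hU⟩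
  apply hr
  rw [red_eq_zero_iff]
  intro n
  rw [mem_maximalIdeal_iff]
  have hval : (((cst M w₀)⁻¹ : Om M) : LaurentSeries Qb) = HahnSeries.C (w₀⁻¹) := by
    rw [← map_inv₀]
    exact val_cst M _
  rw [hval] at hU
  have hn := congrArg (fun z => z.coeff n) hU
  simp only [HahnSeries.C_mul_eq_smul, HahnSeries.coeff_smul, inc_coeff, smul_eq_mul] at hn
  by_cases h0 : ((U₂.coeff n : A) : Qb) = 0
  · exact Or.inl h0
  · right
    intro hinv
    apply hwn
    have : w₀⁻¹ = (U₁.coeff n : Qb) * ((U₂.coeff n : A) : Qb)⁻¹ := by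
      rw [← hn]; field_simp
    rw [this]
    exact A.mul_mem _ _ (U₁.coeff n).2 hinv

end Fermat.Agent.S18.H24

end
end
-- ===== PACK-END S18/H24/GaussA.lean

-- ===== PACK-BEGIN S24/Count.lean
section



/-!
# S24 — counting on `SL₂(ℤ)/Γ₀(N) ≅ ℙ¹(ℤ/N)`

INTERFACE FILE (statements frozen by helper984 @4630f4b), proofs filled in by helper324 from
`Fermat.Agent.S24.H324` (which assembles helper694's `S20.Comb` and helper360's `CuspCount360`).
-/

set_option autoImplicit false

noncomputable section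

open ModularCurve
open scoped MatrixGroups

namespace Fermat.Agent.S24

variable (N : ℕ) [NeZero N]

theorem card_XX : Nat.card (XX N) = dedekindPsi N :=
  H324.card_XX N

theorem two_mul_numOrbits_S :
    2 * numOrbits (permOf N ModularGroup.S) = dedekindPsi N + nuTwo N :=
  H324.two_mul_numOrbits_S N

theorem three_mul_numOrbits_ST :
    3 * numOrbits (permOf N (ModularGroup.S * ModularGroup.T))
      = dedekindPsi N + 2 * nuThree N :=
  H324.three_mul_numOrbits_ST N

theorem numOrbits_T : numOrbits (permOf N ModularGroup.T) = cuspCount N :=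
  H324.numOrbits_T N

end Fermat.Agent.S24

end
end
-- ===== PACK-END S24/Count.lean

-- ===== PACK-BEGIN Ribet/H944/WallSpec5.lean
section


/-!
# Row 38, WALL-p: pointwise form of the filtration package and the `p ≥ 5` glue for S44
(wall architect helper944)

`AtPFiltrationStatement` of `WallSpec.lean` asks for the package at every odd `p`.  The Frey
form (S44) only needs `p ≥ 5`, where all nodes of `X₀(pM')` have thickness prime to `p`.
* `AtPFiltrationFor p M'`     : the package for a fixed pair `(p, M')`;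
* `AtPFiltration5Statement`   : the package for all primes `p ≥ 5`;
* `wallFrey_of_filtration5`   : Places + package (`p ≥ 5`) + ELOC-ord-Frey + NMT ⇒ `WallFreyStatement`;
* `S44_of_filtration5`        : the frozen S44 from the package and the landed/owned inputs.
-/

set_option autoImplicit false
set_option linter.style.haveILetI false

open WeierstrassCurve WeierstrassCurve.Affine WeierstrassCurve.Affine.Point
open CuspForm ModularFormClass UpperHalfPlane ModularCurve

namespace Fermat.Agent.Ribet.H944.Wall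

open Fermat.Agent.Ribet.Spec

/-- The at-`p` filtration package for a fixed pair `(p, M')` (same body as
`AtPFiltrationStatement`). -/
def AtPFiltrationFor (p M' : ℕ) [NeZero M'] [NeZero (p * M')] : Prop :=
  ∃ (S₀ : Finset ℕ) (α β : JZero (p * M') →+ JZero M'), IsDegPair p M' S₀ α β ∧
    ∀ A : ValuationSubring (AlgebraicClosure ℚ), A.LiesOverPrime p →
    ∃ 𝓕 𝒮 : AddSubgroup (JZero (p * M')),
      (∀ x : JZero (p * M'), p • x = 0 → ∀ σ ∈ A.inertiaSubgroupIn ℚ, σ • x - x ∈ 𝒮) ∧
      (∀ x ∈ 𝒮, p • x = 0 → α x = 0 → β x = 0 →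
        ∀ σ ∈ A.inertiaSubgroupIn ℚ, ∀ c : ℕ, CycloAt p σ c → σ • x = c • x) ∧
      (∀ (S : Finset ℕ) (a : ℕ → ℤ), ∀ x ∈ 𝓕, x ∉ 𝒮 → p • x = 0 → α x = 0 → β x = 0 →
        EigenAt (p * M') S a x → Lowered M' p S a) ∧
      (∀ (S : Finset ℕ) (a : ℕ → ℤ), NonEisAway p a → ∀ x t : JZero (p * M'),
        p • x = 0 → α x = 0 → β x = 0 → EigenAt (p * M') S a x →
        p • t = 0 → α t = 0 → β t = 0 → EigenAt (p * M') S a t →
        (∀ σ ∈ A.inertiaSubgroupIn ℚ, ∀ c : ℕ, CycloAt p σ c → σ • t = c • t) →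
        (∀ σ ∈ A.inertiaSubgroupIn ℚ, ∃ n : ℕ, σ • x = x + n • t) →
        (∀ σ : GQ, PeuFixes A p σ → σ • x = x) → x ∈ 𝓕)

theorem atPFiltrationStatement_iff :
    AtPFiltrationStatement ↔
      ∀ (p M' : ℕ) [NeZero M'] [NeZero (p * M')], p.Prime → p ≠ 2 → ¬ p ∣ M' →
        AtPFiltrationFor p M' :=
  Iff.rfl

/-- The package for all primes `p ≥ 5` (enough for S44). -/
def AtPFiltration5Statement : Prop :=
  ∀ (p M' : ℕ) [NeZero M'] [NeZero (p * M')], p.Prime → 5 ≤ p → ¬ p ∣ M' →
    AtPFiltrationFor p M'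

theorem atPFiltration5_of (h : AtPFiltrationStatement) : AtPFiltration5Statement :=
  fun p M' _ _ hp h5 hpM' => h p M' hp (by omega) hpM'

/-- Pointwise form of the total glue: the wall for one embedded curve from the package at
`(p, M')`, the local structure of `E[p]` in the ordinary case and NMT. -/
theorem lowered_of_filtrationFor {E : WeierstrassCurve ℚ} {p M' : ℕ} [NeZero M']
    [NeZero (p * M')] (hF : AtPFiltrationFor p M') {S : Finset ℕ} {a : ℕ → ℤ}
    {A : ValuationSubring (AlgebraicClosure ℚ)} (hA : A.LiesOverPrime p)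
    (hEL : OrdinaryInertiaAt E p A → ELOCOrdAt E p A)
    (hNMT : ¬ ∀ σ ∈ A.inertiaSubgroupIn ℚ, ∀ c : ℕ, CycloAt p σ c →
      ∀ x : ETorsion E p, σ • x = c • x)
    (hNE : NonEisAway p a)
    (hemb : EEmbedsIn E p (p * M') S a) : Lowered M' p S a := by
  obtain ⟨S₀, α, β, hdeg, hA'⟩ := hF
  obtain ⟨𝓕, 𝒮, h1, h2, h3, h4⟩ := hA' A hA
  obtain ⟨ι, hinj, hgal, hT⟩ := hemb
  by_cases h : ∃ x, α (ι x) ≠ 0 ∨ β (ι x) ≠ 0
  · exact ⟨S ∪ S₀, Finset.subset_union_left, Or.inl (occursIn_of_not_new hdeg ι hT h)⟩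
  have hnew : ∀ x, α (ι x) = 0 ∧ β (ι x) = 0 := by
    intro x
    by_contra hx
    apply h
    refine ⟨x, ?_⟩
    by_cases h1 : α (ι x) = 0
    · exact Or.inr (fun h2 => hx ⟨h1, h2⟩)
    · exact Or.inl h1
  -- (WP) on the image, from (S1) and (S2)
  have hH : OrdinaryInertiaAt E p A := by
    intro σ hσ c hc x
    apply hinj
    rw [map_add, map_nsmul, map_nsmul, hgal, hgal]
    have hpx := nsmul_emb_eq_zero ι x
    have hy : σ • ι x - ι x ∈ 𝒮 := h1 (ι x) hpx σ hσ
    have hpy : p • (σ • ι x - ι x) = 0 := by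
      rw [nsmul_sub, smul_comm p σ (ι x), hpx, sub_zero]
      exact smul_zero (A := JZero (p * M')) σ
    have hαy : α (σ • ι x - ι x) = 0 := by
      rw [map_sub, hdeg.galois_left, (hnew x).1, sub_zero]
      exact smul_zero (A := JZero M') σ
    have hβy : β (σ • ι x - ι x) = 0 := by
      rw [map_sub, hdeg.galois_right, (hnew x).2, sub_zero]
      exact smul_zero (A := JZero M') σ
    have hh := h2 _ hy hpy hαy hβy σ hσ c hc
    rw [smul_sub, nsmul_sub] at hh
    have h' : σ • σ • ι x = c • σ • ι x - c • ι x + σ • ι x := by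
      rw [← hh]; abel
    rw [h', add_nsmul, one_nsmul]; abel
  exact lowered_of_filtration hdeg h2 h3 h4 (hEL hH) hNMT hNE ⟨ι, hinj, hgal, hT⟩

/-- **Total glue, S44 form, `p ≥ 5`.** -/
theorem wallFrey_of_filtration5 (hPl : PlacesStatement) (hF : AtPFiltration5Statement)
    (hEL : ELOCOrdFreyStatement) (hNMT : NotMultiplicativeTypeStatement) :
    WallFreyStatement := by
  intro P M' _ _ hpM' hpabc hirr S a hNE hemb
  obtain ⟨A, hA, -⟩ := hPl P.p P.pp
  exact lowered_of_filtrationFor (hF P.p M' P.pp P.hp5 hpM') hA (fun _ => hEL P hpabc A hA)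
    (hNMT P A hA) hNE hemb

/-- **Total glue, S40 form**, pointwise (same as `wallGood_of_filtration`, via the pointwise
lemma). -/
theorem wallGood_of_filtrationFor (hPl : PlacesStatement)
    (hF : ∀ (p M' : ℕ) [NeZero M'] [NeZero (p * M')], p.Prime → p ≠ 2 → ¬ p ∣ M' →
      AtPFiltrationFor p M')
    (hEL : ELOCOrdGoodStatement) (hNMT : NotMultTypeWStatement) (hNE : NonEisWStatement) :
    WallGoodStatement := by
  intro W p M' _ _ hΔ hp hp2 hpM' hgood hirr S hemb
  obtain ⟨A, hA, -⟩ := hPl p hp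
  exact lowered_of_filtrationFor (hF p M' hp hp2 hpM') hA
    (fun hH => hEL W p hΔ hp hp2 hgood A hA hH) (hNMT W p hΔ hp hp2 hirr A hA)
    (hNE W p hΔ hp hp2 hirr) hemb

/-- **The frozen S44 from the package (`p ≥ 5`) and the row inputs.** -/
theorem S44_of_filtration5 (hE : EmbedStatement) (hPl : PlacesStatement)
    (hF : AtPFiltration5Statement) (hEL : ELOCOrdFreyStatement)
    (hNMT : NotMultiplicativeTypeStatement) (hNE : NonEisensteinStatement)
    (hR3 : EigenformOfOccursAwayStatement) (hR3' : AlmostAllToWitnessStatement) :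
    S44Statement :=
  S44_of_wall hE (wallFrey_of_filtration5 hPl hF hEL hNMT) hNE hR3 hR3'

end Fermat.Agent.Ribet.H944.Wall

end
-- ===== PACK-END Ribet/H944/WallSpec5.lean

-- ===== PACK-BEGIN A2/H729/Glue.lean
section


/-!
# A2, piece ALG_ss (helper729), version A: gluing a generic idempotent

Setting of `S18.H138.connected_special_fibre`: `R` a noetherian domain with `R[X]` integrally
closed (a DVR), `w ∈ R` prime, `F` a field of characteristic `0`, `x ∈ F` transcendental, `F`
finite over `baseField R x`, `R` integrally closed in `F`.  The charts are the integral closures of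
`R[x]`, `R[x⁻¹]`, `R[x, x⁻¹]` in `F`.

`O` is the *Gauss ring*: a subalgebra of `F` containing the charts (in the application the
intersection of the valuation rings of `F` over the Gauss valuations of the special fibre), with
the `q`-expansion principle `chart ∩ w O = w chart` for the three charts (the special fibre is
reduced).  `e₀ ∈ O` is idempotent modulo `w O` (an idempotent of the total ring of fractions of
the special fibre).

**Theorem** (`generic_idempotent_trivial`).  If `e₀` is *locally regular* at every closed point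
of the special fibre of both charts (for every maximal ideal `𝔫 ∋ w` of the chart there is a
denominator `s ∉ 𝔫` with `s e₀ ≡` an element of the chart modulo `w O`), then `e₀ ≡ 0` or
`e₀ ≡ 1` modulo `w O`.

No normality of the special fibre is used: only reducedness (the three `qep` hypotheses).
-/

set_option autoImplicit false

namespace Fermat.Agent.A2.H729

open Fermat.Agent.S18.H138

variable {R : Type*} [CommRing R] {F : Type*} [Field F] [Algebra R F]

/-- `z ∈ w O`. -/
def InW (O : Subalgebra R F) (w : R) (z : F) : Prop :=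
  ∃ t ∈ O, z = algebraMap R F w * t

theorem InW.add {O : Subalgebra R F} {w : R} {a b : F} (ha : InW O w a) (hb : InW O w b) :
    InW O w (a + b) := by
  obtain ⟨s, hs, rfl⟩ := ha
  obtain ⟨t, ht, rfl⟩ := hb
  exact ⟨s + t, O.add_mem hs ht, by ring⟩

theorem InW.neg {O : Subalgebra R F} {w : R} {a : F} (ha : InW O w a) : InW O w (-a) := by
  obtain ⟨s, hs, rfl⟩ := ha
  exact ⟨-s, O.neg_mem hs, by ring⟩

theorem InW.sub {O : Subalgebra R F} {w : R} {a b : F} (ha : InW O w a) (hb : InW O w b) :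
    InW O w (a - b) := by
  rw [sub_eq_add_neg]
  exact ha.add hb.neg

theorem InW.mul_left {O : Subalgebra R F} {w : R} {a : F} (ha : InW O w a) {c : F}
    (hc : c ∈ O) : InW O w (c * a) := by
  obtain ⟨s, hs, rfl⟩ := ha
  exact ⟨c * s, O.mul_mem hc hs, by ring⟩

theorem InW.mul_right {O : Subalgebra R F} {w : R} {a : F} (ha : InW O w a) {c : F}
    (hc : c ∈ O) : InW O w (a * c) := by
  rw [mul_comm]
  exact ha.mul_left hc

theorem InW.zero (O : Subalgebra R F) (w : R) : InW O w 0 :=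
  ⟨0, O.zero_mem, by ring⟩

theorem InW.of_mul {O : Subalgebra R F} (w : R) {t : F} (ht : t ∈ O) :
    InW O w (algebraMap R F w * t) :=
  ⟨t, ht, rfl⟩

theorem InW.mem {O : Subalgebra R F} {w : R} {a : F} (ha : InW O w a) : a ∈ O := by
  obtain ⟨s, hs, rfl⟩ := ha
  exact O.mul_mem (O.algebraMap_mem w) hs

theorem InW.sum {O : Subalgebra R F} {w : R} {ι : Type*} (s : Finset ι) (f : ι → F)
    (h : ∀ i ∈ s, InW O w (f i)) : InW O w (∑ i ∈ s, f i) := by
  classical
  induction s using Finset.induction_on with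
  | empty => simpa using InW.zero O w
  | insert a s ha ih =>
    rw [Finset.sum_insert ha]
    exact (h a (Finset.mem_insert_self a s)).add
      (ih fun i hi => h i (Finset.mem_insert_of_mem hi))

/-- The *regularity ideal* of `e₀` on the chart `C`: the denominators `s ∈ C` such that
`s e₀` is congruent modulo `w O` to an element of `C`. -/
def regIdeal (C O : Subalgebra R F) (hCO : C ≤ O) (w : R) (e₀ : F) : Ideal C where
  carrier := {s | ∃ e ∈ C, InW O w ((s : F) * e₀ - e)}
  add_mem' := by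
    rintro a b ⟨e, he, h⟩ ⟨e', he', h'⟩
    refine ⟨e + e', C.add_mem he he', ?_⟩
    have : ((a + b : C) : F) * e₀ - (e + e') = ((a : F) * e₀ - e) + ((b : F) * e₀ - e') := by
      push_cast; ring
    rw [this]
    exact h.add h'
  zero_mem' := ⟨0, C.zero_mem, by simpa using InW.zero O w⟩
  smul_mem' := by
    rintro c a ⟨e, he, h⟩
    refine ⟨c * e, C.mul_mem c.2 he, ?_⟩
    have : ((c • a : C) : F) * e₀ - c * e = (c : F) * ((a : F) * e₀ - e) := by
      rw [smul_eq_mul]; push_cast; ring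
    rw [this]
    exact h.mul_left (hCO c.2)

theorem mem_regIdeal {C O : Subalgebra R F} {hCO : C ≤ O} {w : R} {e₀ : F} {s : C} :
    s ∈ regIdeal C O hCO w e₀ ↔ ∃ e ∈ C, InW O w ((s : F) * e₀ - e) := Iff.rfl

/-- If `e₀ ∈ O` is locally regular at all maximal ideals of `C` containing `w`, it is congruent
modulo `w O` to an element of `C`. -/
theorem exists_chart_rep {C O : Subalgebra R F} (hCO : C ≤ O) (w : R) {e₀ : F} (he₀ : e₀ ∈ O)
    (hloc : ∀ 𝔫 : Ideal C, 𝔫.IsMaximal → algebraMap R C w ∈ 𝔫 →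
      ∃ s : C, s ∉ 𝔫 ∧ ∃ e ∈ C, InW O w ((s : F) * e₀ - e)) :
    ∃ e ∈ C, InW O w (e₀ - e) := by
  have hw : algebraMap R C w ∈ regIdeal C O hCO w e₀ := by
    refine ⟨0, C.zero_mem, ?_⟩
    rw [sub_zero]
    exact ⟨e₀, he₀, rfl⟩
  have htop : regIdeal C O hCO w e₀ = ⊤ := by
    by_contra hne
    obtain ⟨𝔫, h𝔫, hle⟩ := Ideal.exists_le_maximal _ hne
    obtain ⟨s, hs, e, he, h⟩ := hloc 𝔫 h𝔫 (hle hw)
    exact hs (hle ⟨e, he, h⟩)
  have h1 : (1 : C) ∈ regIdeal C O hCO w e₀ := by rw [htop]; trivial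
  obtain ⟨e, he, h⟩ := h1
  refine ⟨e, he, ?_⟩
  simpa using h

section Main

variable [IsNoetherianRing R] [IsIntegrallyClosed (Polynomial R)] [CharZero F]

/-- **ALG_ss, version A.**  A generic idempotent of a reduced special fibre which is locally
regular at every closed point of both charts is `0` or `1`. -/
theorem generic_idempotent_trivial
    (hinjR : Function.Injective (algebraMap R F))
    (hRF : ∀ y : F, IsIntegral R y → y ∈ Set.range (algebraMap R F))
    {x : F} (hx : Transcendental R x) [FiniteDimensional (baseField R x) F]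
    (w : R) (hw : Prime w)
    (O : Subalgebra R F)
    (hfin : chart R ({x} : Set F) ≤ O) (hinf : chart R ({x⁻¹} : Set F) ≤ O)
    (qep_fin : ∀ b ∈ chart R ({x} : Set F), InW O w b →
      ∃ t ∈ chart R ({x} : Set F), b = algebraMap R F w * t)
    (qep_inf : ∀ b ∈ chart R ({x⁻¹} : Set F), InW O w b →
      ∃ t ∈ chart R ({x⁻¹} : Set F), b = algebraMap R F w * t)
    (qep_mid : ∀ b ∈ chart R ({x, x⁻¹} : Set F), InW O w b →
      ∃ t ∈ chart R ({x, x⁻¹} : Set F), b = algebraMap R F w * t)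
    {e₀ : F} (he₀ : e₀ ∈ O) (hidem : InW O w (e₀ ^ 2 - e₀))
    (hloc_fin : ∀ 𝔫 : Ideal (chart R ({x} : Set F)), 𝔫.IsMaximal →
      algebraMap R (chart R ({x} : Set F)) w ∈ 𝔫 →
      ∃ s : chart R ({x} : Set F), s ∉ 𝔫 ∧
        ∃ e ∈ chart R ({x} : Set F), InW O w ((s : F) * e₀ - e))
    (hloc_inf : ∀ 𝔫 : Ideal (chart R ({x⁻¹} : Set F)), 𝔫.IsMaximal →
      algebraMap R (chart R ({x⁻¹} : Set F)) w ∈ 𝔫 →
      ∃ s : chart R ({x⁻¹} : Set F), s ∉ 𝔫 ∧
        ∃ e ∈ chart R ({x⁻¹} : Set F), InW O w ((s : F) * e₀ - e)) :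
    InW O w e₀ ∨ InW O w (1 - e₀) := by
  obtain ⟨e₁, he₁, h₁⟩ := exists_chart_rep hfin w he₀ hloc_fin
  obtain ⟨e₂, he₂, h₂⟩ := exists_chart_rep hinf w he₀ hloc_inf
  have he₁O : e₁ ∈ O := hfin he₁
  have he₂O : e₂ ∈ O := hinf he₂
  -- `e₁` is idempotent modulo `w` in the finite chart
  have hi₁ : ∃ t ∈ chart R ({x} : Set F), e₁ ^ 2 - e₁ = algebraMap R F w * t := by
    refine qep_fin _ (Subalgebra.sub_mem _ (Subalgebra.pow_mem _ he₁ 2) he₁) ?_
    have : e₁ ^ 2 - e₁ = (e₀ ^ 2 - e₀) - (e₀ - e₁) * (e₀ + e₁ - 1) := by ring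
    rw [this]
    exact hidem.sub (h₁.mul_right
      (O.sub_mem (O.add_mem he₀ he₁O) O.one_mem))
  have hi₂ : ∃ t ∈ chart R ({x⁻¹} : Set F), e₂ ^ 2 - e₂ = algebraMap R F w * t := by
    refine qep_inf _ (Subalgebra.sub_mem _ (Subalgebra.pow_mem _ he₂ 2) he₂) ?_
    have : e₂ ^ 2 - e₂ = (e₀ ^ 2 - e₀) - (e₀ - e₂) * (e₀ + e₂ - 1) := by ring
    rw [this]
    exact hidem.sub (h₂.mul_right
      (O.sub_mem (O.add_mem he₀ he₂O) O.one_mem))
  have h₁₂ : ∃ t ∈ chart R ({x, x⁻¹} : Set F), e₁ - e₂ = algebraMap R F w * t := by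
    refine qep_mid _ (Subalgebra.sub_mem _ (chart_mono (by simp) he₁)
      (chart_mono (by simp) he₂)) ?_
    have : e₁ - e₂ = (e₀ - e₂) - (e₀ - e₁) := by ring
    rw [this]
    exact h₂.sub h₁
  rcases connected_special_fibre hinjR hRF hx w hw e₁ e₂ he₁ he₂ hi₁ hi₂ h₁₂ with
    ⟨⟨t, ht, h⟩, _⟩ | ⟨⟨t, ht, h⟩, _⟩
  · left
    have : e₀ = (e₀ - e₁) + e₁ := by ring
    rw [this]
    exact h₁.add ⟨t, hfin ht, h⟩
  · right
    have : 1 - e₀ = (1 - e₁) - (e₀ - e₁) := by ring
    rw [this]
    exact InW.sub ⟨t, hfin ht, h⟩ h₁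

end Main

end Fermat.Agent.A2.H729

end
-- ===== PACK-END A2/H729/Glue.lean

-- ===== PACK-BEGIN S28/H88/Kronecker.lean
section
/-
S28-derived shared brick -- helper88: Frobenius on Laurent series in characteristic `p`
(`f ^ p = V_p (f^{(p)})`) and the Kronecker congruence for the modular polynomial:
`Φ_p(X, Y) ≡ (X^p - Y)(X - Y^p) mod p`, derived formally from `ModPolyData p`.
-/


set_option autoImplicit false

noncomputable section

open ModularCurve HahnSeries

namespace Fermat.Agent.S28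

section Frobenius

variable (k : Type*) [Field k] (p : ℕ) [hp : Fact p.Prime] [CharP k p] [NeZero p]

omit hp [NeZero p] in
theorem h88_charP_laurent : CharP (LaurentSeries k) p :=
  charP_of_injective_ringHom (f := (HahnSeries.C : k →+* LaurentSeries k))
    HahnSeries.C_injective p

omit hp [CharP k p] in
/-- If all coefficients of `x` below `N` vanish, all coefficients of `x ^ p` below `p * N`
vanish. -/
theorem h88_coeff_pow_eq_zero {x : LaurentSeries k} {N : ℤ} (hx : ∀ i < N, x.coeff i = 0)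
    {n : ℤ} (hn : n < (p : ℤ) * N) : (x ^ p).coeff n = 0 := by
  by_cases hx0 : x = 0
  · rw [hx0, zero_pow (NeZero.ne p), HahnSeries.coeff_zero]
  · apply HahnSeries.coeff_eq_zero_of_lt_order
    rw [HahnSeries.order_pow, nsmul_eq_mul]
    have h1 : N ≤ x.order := by
      by_contra hlt
      rw [not_le] at hlt
      exact (HahnSeries.coeff_order_eq_zero.not.mpr hx0) (hx _ hlt)
    have hp0 : (0 : ℤ) ≤ (p : ℤ) := by positivity
    have h2 : (p : ℤ) * N ≤ (p : ℤ) * x.order := mul_le_mul_of_nonneg_left h1 hp0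
    exact lt_of_lt_of_le hn h2

/-- **Frobenius on Laurent series** in characteristic `p`: `f ^ p = V_p (f^{(p)})`, where
`f^{(p)}` raises every coefficient to the `p`-th power. -/
theorem h88_pow_char_eq_qExpand (f : LaurentSeries k) :
    f ^ p = qExpand k p (coeffMap (frobenius k p) f) := by
  have : CharP (LaurentSeries k) p := h88_charP_laurent k p
  have hp1 : (1 : ℤ) ≤ p := by exact_mod_cast Nat.pos_of_ne_zero (NeZero.ne p)
  ext n
  -- cut `f` at `N`
  obtain ⟨N, hN⟩ : ∃ N : ℤ, n < (p : ℤ) * N := by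
    refine ⟨|n| + 1, ?_⟩
    have h1 : n ≤ |n| := le_abs_self n
    have h2 : (0 : ℤ) ≤ |n| := abs_nonneg n
    nlinarith
  set A : LaurentSeries k :=
    ∑ i ∈ Finset.Ico f.order N, HahnSeries.single i (f.coeff i) with hA
  have hAcoeff : ∀ i, A.coeff i = if i ∈ Finset.Ico f.order N then f.coeff i else 0 := by
    intro i
    rw [hA, HahnSeries.coeff_sum]
    by_cases hi : i ∈ Finset.Ico f.order N
    · rw [if_pos hi, Finset.sum_eq_single_of_mem i hi, HahnSeries.coeff_single_same]
      intro i' _ hne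
      exact HahnSeries.coeff_single_of_ne (Ne.symm hne)
    · rw [if_neg hi]
      apply Finset.sum_eq_zero
      intro i' hi'
      apply HahnSeries.coeff_single_of_ne
      rintro rfl
      exact hi hi'
  have hB : ∀ i < N, (f - A).coeff i = 0 := by
    intro i hi
    rw [HahnSeries.coeff_sub, hAcoeff]
    by_cases hio : f.order ≤ i
    · rw [if_pos (Finset.mem_Ico.mpr ⟨hio, hi⟩), sub_self]
    · rw [if_neg (fun h => hio (Finset.mem_Ico.mp h).1), sub_zero]
      exact HahnSeries.coeff_eq_zero_of_lt_order (not_le.mp hio)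
  have hsplit : f ^ p = A ^ p + (f - A) ^ p := by
    rw [← add_pow_char, add_sub_cancel]
  have hApow : A ^ p = ∑ i ∈ Finset.Ico f.order N,
      HahnSeries.single ((p : ℤ) * i) (f.coeff i ^ p) := by
    rw [hA, sum_pow_char]
    refine Finset.sum_congr rfl fun i _ => ?_
    rw [HahnSeries.single_pow, nsmul_eq_mul]
  rw [hsplit, HahnSeries.coeff_add, h88_coeff_pow_eq_zero k p hB hN, add_zero, hApow,
    HahnSeries.coeff_sum]
  by_cases hdvd : (p : ℤ) ∣ n
  · obtain ⟨i₀, rfl⟩ := hdvd
    rw [qExpand_coeff_mul, coeffMap_coeff, frobenius_def]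
    have hi₀N : i₀ < N := by
      by_contra hge
      rw [not_lt] at hge
      have : (p : ℤ) * N ≤ (p : ℤ) * i₀ := mul_le_mul_of_nonneg_left hge (by positivity)
      omega
    have hpne : (p : ℤ) ≠ 0 := by exact_mod_cast NeZero.ne p
    by_cases hio : f.order ≤ i₀
    · rw [Finset.sum_eq_single_of_mem i₀ (Finset.mem_Ico.mpr ⟨hio, hi₀N⟩),
        HahnSeries.coeff_single_same]
      intro i' _ hne
      apply HahnSeries.coeff_single_of_ne
      intro h
      exact hne (mul_left_cancel₀ hpne h).symm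
    · rw [HahnSeries.coeff_eq_zero_of_lt_order (not_le.mp hio), zero_pow (NeZero.ne p)]
      apply Finset.sum_eq_zero
      intro i' hi'
      apply HahnSeries.coeff_single_of_ne
      intro h
      have h1 : i₀ = i' := mul_left_cancel₀ hpne h
      exact hio (h1 ▸ (Finset.mem_Ico.mp hi').1)
  · rw [qExpand_coeff_of_not_dvd p _ hdvd]
    apply Finset.sum_eq_zero
    intro i' _
    apply HahnSeries.coeff_single_of_ne
    rintro rfl
    exact hdvd ⟨i', rfl⟩

end Frobenius

section FrobeniusZMod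

variable (p : ℕ) [hp : Fact p.Prime] [NeZero p]

/-- Over `𝔽_p`: `V_p f = f ^ p`. -/
theorem h88_qExpand_zmod (f : LaurentSeries (ZMod p)) :
    qExpand (ZMod p) p f = f ^ p := by
  rw [h88_pow_char_eq_qExpand (ZMod p) p f]
  congr 1
  ext n
  rw [coeffMap_coeff, frobenius_def, ZMod.pow_card]

end FrobeniusZMod

section Kronecker

open Polynomial

variable (p : ℕ) [hp : Fact p.Prime] [NeZero p]

/-- The modular polynomial reduced mod `p`, in `𝔽_p[Y][X]`. -/
def h88_PhiBar (Φ : ModPolyData p) : Polynomial (Polynomial (ZMod p)) :=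
  Φ.Φ.map (Polynomial.mapRingHom (Int.castRingHom (ZMod p)))

theorem h88_PhiBar_monic (Φ : ModPolyData p) : (h88_PhiBar p Φ).Monic := Φ.monic.map _

theorem h88_PhiBar_natDegree (Φ : ModPolyData p) : (h88_PhiBar p Φ).natDegree = p + 1 := by
  rw [h88_PhiBar, Φ.monic.natDegree_map, Φ.natDegree_eq]

theorem h88_aeval_comp_mapRingHom (k : Type*) [Field k] (y : LaurentSeries k) :
    ((Polynomial.aeval (R := k) y).toRingHom).comp
        (Polynomial.mapRingHom (Int.castRingHom k)) = evalAt y := by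
  apply Polynomial.ringHom_ext
  · intro a
    simp [evalAt]
  · simp [evalAt]

/-- `Ψ(j^p, j) = 0` where `Ψ = Φ mod p`. -/
theorem h88_PhiBar_eval_jp (Φ : ModPolyData p) :
    (h88_PhiBar p Φ).eval₂ (Polynomial.aeval (R := ZMod p) (jqModC (ZMod p))).toRingHom
      ((jqModC (ZMod p)) ^ p) = 0 := by
  rw [h88_PhiBar, Polynomial.eval₂_map, h88_aeval_comp_mapRingHom, ← h88_qExpand_zmod]
  exact h88_modPoly_eval_jp (ZMod p) p Φ

/-- `Ψ(j, j^p) = 0` where `Ψ = Φ mod p`. -/
theorem h88_PhiBar_eval_j (Φ : ModPolyData p) :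
    (h88_PhiBar p Φ).eval₂ (Polynomial.aeval (R := ZMod p) ((jqModC (ZMod p)) ^ p)).toRingHom
      (jqModC (ZMod p)) = 0 := by
  rw [h88_PhiBar, Polynomial.eval₂_map, h88_aeval_comp_mapRingHom, ← h88_qExpand_zmod]
  exact h88_modPoly_eval_j (ZMod p) p Φ

/-- `Ψ(Y^p, Y) = 0` as a polynomial identity. -/
theorem h88_PhiBar_eval_X_pow (Φ : ModPolyData p) :
    (h88_PhiBar p Φ).eval ((Polynomial.X : Polynomial (ZMod p)) ^ p) = 0 := by
  apply h88_aeval_jqModC_injective (ZMod p)
  rw [_root_.map_zero]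
  have h := Polynomial.hom_eval₂ (h88_PhiBar p Φ) (RingHom.id (Polynomial (ZMod p)))
    (Polynomial.aeval (R := ZMod p) (jqModC (ZMod p))).toRingHom
    ((Polynomial.X : Polynomial (ZMod p)) ^ p)
  rw [Polynomial.eval₂_id, RingHom.comp_id] at h
  have h2 : (Polynomial.aeval (R := ZMod p) (jqModC (ZMod p))).toRingHom
      ((Polynomial.X : Polynomial (ZMod p)) ^ p) = (jqModC (ZMod p)) ^ p := by
    simp
  rw [h2, h88_PhiBar_eval_jp] at h
  exact h

theorem h88_aeval_pow_eq_qExpand (c : Polynomial (ZMod p)) :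
    Polynomial.aeval ((jqModC (ZMod p)) ^ p) c
      = qExpand (ZMod p) p (Polynomial.aeval (jqModC (ZMod p)) c) := by
  rw [← h88_qExpand_zmod]
  exact Polynomial.aeval_algHom_apply (qExpandAlgHomC (ZMod p) p) (jqModC (ZMod p)) c

/-- A polynomial `R ∈ 𝔽_p[Y][X]` of `X`-degree `< p` with `R(j, j^p) = 0` vanishes. -/
theorem h88_eq_zero_of_eval_j_pow (R : Polynomial (Polynomial (ZMod p)))
    (hdeg : R.natDegree < p)
    (h : R.eval₂ (Polynomial.aeval (R := ZMod p) ((jqModC (ZMod p)) ^ p)).toRingHom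
      (jqModC (ZMod p)) = 0) : R = 0 := by
  rw [Polynomial.eval₂_eq_sum_range' _ hdeg] at h
  have h' : ∑ i ∈ Finset.range p,
      qExpand (ZMod p) p (Polynomial.aeval (jqModC (ZMod p)) (R.coeff i))
        * (jqModC (ZMod p)) ^ i = 0 := by
    rw [← h]
    refine Finset.sum_congr rfl fun i _ => ?_
    rw [← h88_aeval_pow_eq_qExpand]
    rfl
  have h0 := h88_linIndep_core (ZMod p) p
    (fun i => Polynomial.aeval (jqModC (ZMod p)) (R.coeff i)) h'
  refine Polynomial.ext fun i => ?_
  rw [Polynomial.coeff_zero]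
  by_cases hi : i < p
  · apply h88_aeval_jqModC_injective (ZMod p)
    rw [_root_.map_zero]
    exact h0 i (Finset.mem_range.mpr hi)
  · exact Polynomial.coeff_eq_zero_of_natDegree_lt (by omega)

/-- **Kronecker congruence**: `Φ_p(X, Y) ≡ (X^p - Y)(X - Y^p) mod p`. -/
theorem h88_kronecker (Φ : ModPolyData p) :
    h88_PhiBar p Φ =
      ((Polynomial.X : Polynomial (Polynomial (ZMod p))) ^ p
          - Polynomial.C (Polynomial.X : Polynomial (ZMod p)))
        * (Polynomial.X - Polynomial.C ((Polynomial.X : Polynomial (ZMod p)) ^ p)) := by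
  have hp0 : p ≠ 0 := NeZero.ne p
  have hp2 : 2 ≤ p := hp.out.two_le
  obtain ⟨D, hD⟩ : ∃ D : Polynomial (Polynomial (ZMod p)),
      D = (Polynomial.X : Polynomial (Polynomial (ZMod p))) ^ p
        - Polynomial.C (Polynomial.X : Polynomial (ZMod p)) := ⟨_, rfl⟩
  rw [← hD]
  have hDmonic : D.Monic := by rw [hD]; exact Polynomial.monic_X_pow_sub_C _ hp0
  have hDdeg : D.natDegree = p := by rw [hD]; exact Polynomial.natDegree_X_pow_sub_C
  have hD1 : D ≠ 1 := by
    intro h1
    have := congrArg Polynomial.natDegree h1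
    rw [hDdeg, Polynomial.natDegree_one] at this
    exact hp0 this
  have hdiv := Polynomial.modByMonic_add_div (h88_PhiBar p Φ) D
  -- the remainder vanishes
  have hRdeg : (h88_PhiBar p Φ %ₘ D).natDegree < p := by
    have := Polynomial.natDegree_modByMonic_lt (h88_PhiBar p Φ) hDmonic hD1
    rwa [hDdeg] at this
  have hevD : D.eval₂ (Polynomial.aeval (R := ZMod p) ((jqModC (ZMod p)) ^ p)).toRingHom
      (jqModC (ZMod p)) = 0 := by
    rw [hD, Polynomial.eval₂_sub, Polynomial.eval₂_pow, Polynomial.eval₂_X, Polynomial.eval₂_C]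
    simp
  have hevR : (h88_PhiBar p Φ %ₘ D).eval₂
      (Polynomial.aeval (R := ZMod p) ((jqModC (ZMod p)) ^ p)).toRingHom
      (jqModC (ZMod p)) = 0 := by
    have h := h88_PhiBar_eval_j p Φ
    rw [← hdiv, Polynomial.eval₂_add, Polynomial.eval₂_mul, hevD, zero_mul, add_zero] at h
    exact h
  have hR0 : h88_PhiBar p Φ %ₘ D = 0 := h88_eq_zero_of_eval_j_pow p _ hRdeg hevR
  rw [hR0, zero_add] at hdiv
  -- the quotient is monic of degree one
  have hmon : (D * (h88_PhiBar p Φ /ₘ D)).Monic := by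
    rw [hdiv]; exact h88_PhiBar_monic p Φ
  have hQmonic : (h88_PhiBar p Φ /ₘ D).Monic := hDmonic.of_mul_monic_left hmon
  have hQdeg : (h88_PhiBar p Φ /ₘ D).natDegree = 1 := by
    have h := congrArg Polynomial.natDegree hdiv
    rw [hDmonic.natDegree_mul hQmonic, hDdeg, h88_PhiBar_natDegree] at h
    omega
  have hQ := hQmonic.eq_X_add_C hQdeg
  -- evaluate at `X = Y ^ p`
  have hev := h88_PhiBar_eval_X_pow p Φ
  have hDev : D.eval ((Polynomial.X : Polynomial (ZMod p)) ^ p)
      = ((Polynomial.X : Polynomial (ZMod p)) ^ p) ^ p - Polynomial.X := by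
    rw [hD, Polynomial.eval_sub, Polynomial.eval_pow, Polynomial.eval_X, Polynomial.eval_C]
  have hQev : (h88_PhiBar p Φ /ₘ D).eval ((Polynomial.X : Polynomial (ZMod p)) ^ p)
      = (Polynomial.X : Polynomial (ZMod p)) ^ p + (h88_PhiBar p Φ /ₘ D).coeff 0 := by
    conv_lhs => rw [hQ, Polynomial.eval_add, Polynomial.eval_X, Polynomial.eval_C]
  rw [← hdiv, Polynomial.eval_mul, hDev, hQev] at hev
  have hne : ((Polynomial.X : Polynomial (ZMod p)) ^ p) ^ p - Polynomial.X ≠ 0 := by
    intro h0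
    have h1 := congrArg (fun q => Polynomial.coeff q 1) h0
    simp only [Polynomial.coeff_sub, Polynomial.coeff_X_one, Polynomial.coeff_zero] at h1
    rw [← pow_mul, Polynomial.coeff_X_pow, if_neg (by nlinarith), zero_sub] at h1
    exact one_ne_zero (neg_eq_zero.mp h1)
  have hc : (h88_PhiBar p Φ /ₘ D).coeff 0 = -((Polynomial.X : Polynomial (ZMod p)) ^ p) := by
    rcases mul_eq_zero.mp hev with h | h
    · exact absurd h hne
    · exact eq_neg_of_add_eq_zero_right h
  rw [← hdiv]
  conv_lhs => rw [hQ, hc, Polynomial.C_neg, ← sub_eq_add_neg]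

/-- Kronecker congruence over any commutative ring `k` of characteristic `p`. -/
theorem h88_kronecker_charP (k : Type*) [CommRing k] [CharP k p] (Φ : ModPolyData p) :
    Φ.Φ.map (Polynomial.mapRingHom (Int.castRingHom k)) =
      ((Polynomial.X : Polynomial (Polynomial k)) ^ p
          - Polynomial.C (Polynomial.X : Polynomial k))
        * (Polynomial.X - Polynomial.C ((Polynomial.X : Polynomial k) ^ p)) := by
  have h := congrArg (Polynomial.map (Polynomial.mapRingHom (ZMod.castHom (dvd_refl p) k)))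
    (h88_kronecker p Φ)
  rw [h88_PhiBar, Polynomial.map_map] at h
  have hcomp : (Polynomial.mapRingHom (ZMod.castHom (dvd_refl p) k)).comp
      (Polynomial.mapRingHom (Int.castRingHom (ZMod p)))
      = Polynomial.mapRingHom (Int.castRingHom k) := by
    apply Polynomial.ringHom_ext
    · intro a
      simp
    · simp
  rw [hcomp] at h
  rw [h]
  simp

/-- Kronecker congruence over `ℤ`: `Φ_p = (X^p - Y)(X - Y^p) + p · Θ`. -/
theorem h88_kronecker_int (Φ : ModPolyData p) :
    ∃ Θ : Polynomial (Polynomial ℤ), Φ.Φ =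
      ((Polynomial.X : Polynomial (Polynomial ℤ)) ^ p
          - Polynomial.C (Polynomial.X : Polynomial ℤ))
        * (Polynomial.X - Polynomial.C ((Polynomial.X : Polynomial ℤ) ^ p))
        + Polynomial.C (Polynomial.C (p : ℤ)) * Θ := by
  set G : Polynomial (Polynomial ℤ) := Φ.Φ -
      ((Polynomial.X : Polynomial (Polynomial ℤ)) ^ p
          - Polynomial.C (Polynomial.X : Polynomial ℤ))
        * (Polynomial.X - Polynomial.C ((Polynomial.X : Polynomial ℤ) ^ p)) with hG
  have hG0 : G.map (Polynomial.mapRingHom (Int.castRingHom (ZMod p))) = 0 := by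
    rw [hG, Polynomial.map_sub]
    have h := h88_kronecker p Φ
    rw [h88_PhiBar] at h
    rw [h]
    simp
  have hdvd : ∀ i j, (p : ℤ) ∣ (G.coeff i).coeff j := by
    intro i j
    have h1 := congrArg (fun q => (Polynomial.coeff q i).coeff j) hG0
    simp only [Polynomial.coeff_map, Polynomial.coe_mapRingHom, Polynomial.coeff_zero] at h1
    exact (ZMod.intCast_zmod_eq_zero_iff_dvd _ p).mp h1
  have hdvd2 : Polynomial.C (Polynomial.C (p : ℤ)) ∣ G := by
    rw [Polynomial.C_dvd_iff_dvd_coeff]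
    intro i
    rw [Polynomial.C_dvd_iff_dvd_coeff]
    intro j
    exact hdvd i j
  obtain ⟨Θ, hΘ⟩ := hdvd2
  exact ⟨Θ, by rw [← hΘ, hG]; ring⟩

end Kronecker

end Fermat.Agent.S28

end

end
-- ===== PACK-END S28/H88/Kronecker.lean

-- ===== PACK-BEGIN S18/H576/Coeff.lean
section


/-!
# S18 / MOD-ASM (helper576): coefficients of `Fc`, `E_closed_in_F`, `compositum`
-/

set_option autoImplicit false

noncomputable section

namespace Fermat.Agent.S18.H576

open ModularCurve AlgebraicCurve HahnSeries Fermat.Agent.S18 Fermat.Agent.S18.Mod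

variable {M : ℕ} {A : ValuationSubring Qb} {E : IntermediateField ℚ Qb}

/-- The coercion `Ω → Q̄((q))` as a ring homomorphism. -/
abbrev valOm (M : ℕ) : Om M →+* LaurentSeries Qb := (modularFunctionFieldBar M).val.toRingHom

theorem valOm_apply (y : Om M) : valOm M y = (y : LaurentSeries Qb) := rfl

theorem valOm_injective (M : ℕ) : Function.Injective (valOm M) := Subtype.val_injective

/-- Laurent series over `Q̄` all of whose coefficients lie in `E`. -/
def coeffSub (E : IntermediateField ℚ Qb) : Subfield (LaurentSeries Qb) :=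
  (coeffMap (algebraMap E Qb)).fieldRange

theorem mem_coeffSub_iff {f : LaurentSeries Qb} :
    f ∈ coeffSub E ↔ ∀ n : ℤ, f.coeff n ∈ E := by
  constructor
  · rintro ⟨g, rfl⟩ n
    rw [coeffMap_coeff]
    exact (g.coeff n).2
  · intro h
    refine ⟨⟨fun n => ⟨f.coeff n, h n⟩, ?_⟩, ?_⟩
    · refine f.isPWO_support.mono ?_
      intro n hn
      simp only [Function.mem_support, ne_eq] at hn ⊢
      intro h0
      exact hn (Subtype.ext h0)
    · ext n
      rfl

theorem coe_mem_coeffSub_of_mem_Fc {f : Om M} (hf : f ∈ Fc M E) :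
    (f : LaurentSeries Qb) ∈ coeffSub E := by
  have hle : Fc M E ≤ (coeffSub E).comap (valOm M) := by
    unfold Fc
    rw [Subfield.closure_le]
    rintro y (hy | hy)
    · obtain ⟨a, ha, rfl⟩ := mem_Ec_iff.mp hy
      show (iota M a : LaurentSeries Qb) ∈ coeffSub E
      rw [coe_iota_single, mem_coeffSub_iff]
      intro n
      by_cases hn : n = 0
      · subst hn
        rw [HahnSeries.coeff_single_same]
        exact ha
      · rw [HahnSeries.coeff_single_of_ne hn]
        exact zero_mem E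
    · obtain ⟨d, hd, hdM, rfl⟩ := hy
      show (jd M d hdM : LaurentSeries Qb) ∈ coeffSub E
      rw [mem_coeffSub_iff]
      intro n
      show (coeffEmb Qb (qExpand ℚ d jq)).coeff n ∈ E
      rw [coeffEmb_coeff]
      exact E.algebraMap_mem _
  exact hle hf

theorem coeff_mem_of_mem_Fc {f : Om M} (hf : f ∈ Fc M E) (n : ℤ) :
    (f : LaurentSeries Qb).coeff n ∈ E :=
  mem_coeffSub_iff.mp (coe_mem_coeffSub_of_mem_Fc hf) n

/-- A constant lying in `Fc` lies in `Ec`. -/
theorem mem_E_of_iota_mem_Fc {c : Qb} (h : iota M c ∈ Fc M E) : c ∈ E := by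
  have := coeff_mem_of_mem_Fc h 0
  rwa [coe_iota_single, HahnSeries.coeff_single_same] at this

/-- An element of `Ω` algebraic over `Q̄` is a constant. -/
theorem exists_iota_eq_of_isAlgebraic {f : Om M} (hf : IsAlgebraic Qb f) :
    ∃ c : Qb, iota M c = f := by
  have hint : IsIntegral Qb f := hf.isIntegral
  refine ⟨-(minpoly Qb f).coeff 0, ?_⟩
  have hq : (minpoly Qb f).leadingCoeff = 1 := minpoly.monic hint
  have h : (minpoly Qb f).degree = 1 :=
    IsAlgClosed.degree_eq_one_of_irreducible Qb (minpoly.irreducible hint)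
  have : Polynomial.aeval f (minpoly Qb f) = 0 := minpoly.aeval Qb f
  rw [Polynomial.eq_X_add_C_of_degree_eq_one h, hq, Polynomial.C_1, one_mul,
    Polynomial.aeval_add, Polynomial.aeval_X, Polynomial.aeval_C,
    add_eq_zero_iff_eq_neg] at this
  exact (_root_.map_neg (algebraMap Qb (Om M)) ((minpoly Qb f).coeff 0)).symm ▸ this.symm

theorem isAlgebraic_rat_of_mem_Ec {e : Om M} (he : e ∈ Ec M E) : IsAlgebraic ℚ e := by
  obtain ⟨a, -, rfl⟩ := mem_Ec_iff.mp he
  exact ((AlgebraicClosure.isAlgebraic ℚ).isAlgebraic a).algebraMap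

theorem E_closed_in_F : ∀ f ∈ Fc M E, IsAlgebraic (Ec M E) f → f ∈ Ec M E := by
  intro f hf halg
  haveI : Algebra.IsAlgebraic ℚ (Ec M E) := by
    refine ⟨fun e => ?_⟩
    have h := isAlgebraic_rat_of_mem_Ec e.2
    exact (isAlgebraic_algebraMap_iff (A := Om M) (algebraMap (Ec M E) (Om M)).injective).mp h
  have h1 : IsAlgebraic ℚ f := halg.restrictScalars ℚ
  have h2 : IsAlgebraic Qb f := h1.tower_top Qb
  obtain ⟨c, rfl⟩ := exists_iota_eq_of_isAlgebraic h2
  exact iota_mem_Ec (mem_E_of_iota_mem_Fc hf)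

/-- The image of `ℚ(j_d : d ∣ M)` in `Q̄((q))` lies in (the image of) `Fc`. -/
theorem coeffEmb_mem_map_Fc {z : LaurentSeries ℚ} (hz : z ∈ modularFunctionFieldFull M) :
    coeffEmb Qb z ∈ (Fc M E).map (valOm M) := by
  have hle : (modularFunctionFieldFull M).toSubfield ≤
      ((Fc M E).map (valOm M)).comap (coeffEmb Qb) := by
    unfold modularFunctionFieldFull
    rw [IntermediateField.adjoin_toSubfield, Subfield.closure_le]
    rintro y (⟨r, rfl⟩ | ⟨d, hd, hdM, rfl⟩)
    · show coeffEmb Qb (algebraMap ℚ (LaurentSeries ℚ) r) ∈ (Fc M E).map (valOm M)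
      refine ⟨iota M (algebraMap ℚ Qb r), Ec_le_Fc (iota_mem_Ec (E.algebraMap_mem r)), ?_⟩
      rw [valOm_apply, coe_iota_single, algebraMap_laurentSeries_eq_single, coeffEmb, coeffMap_single]
    · exact ⟨jd M d hdM, Subfield.subset_closure (Or.inr ⟨d, hd, hdM, rfl⟩), rfl⟩
  exact hle hz

theorem exists_mem_Fc_of_mem_full {z : LaurentSeries ℚ} (hz : z ∈ modularFunctionFieldFull M) :
    ∃ f ∈ Fc M E, (f : LaurentSeries Qb) = coeffEmb Qb z := by
  obtain ⟨f, hf, hfz⟩ := coeffEmb_mem_map_Fc (E := E) hz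
  exact ⟨f, hf, hfz⟩

theorem compositum_eq_top : Subfield.closure ((Fc M E : Set (Om M)) ∪ Lc M) = ⊤ := by
  rw [eq_top_iff]
  rintro y -
  set T : Subfield (Om M) := Subfield.closure ((Fc M E : Set (Om M)) ∪ Lc M) with hT
  have hle : (modularFunctionFieldBar M).toSubfield ≤ T.map (valOm M) := by
    show (laurentBaseChange Qb (modularFunctionFieldFull M)).toSubfield ≤ _
    unfold laurentBaseChange
    rw [IntermediateField.adjoin_toSubfield, Subfield.closure_le]
    rintro z (⟨a, rfl⟩ | ⟨z0, hz0, rfl⟩)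
    · exact ⟨iota M a, Subfield.subset_closure (Or.inr (iota_mem_Lc a)), rfl⟩
    · obtain ⟨f, hf, hfz⟩ := exists_mem_Fc_of_mem_full (E := E) hz0
      exact ⟨f, Subfield.subset_closure (Or.inl hf), hfz⟩
  obtain ⟨t, ht, hty⟩ := hle y.2
  have : t = y := valOm_injective M hty
  exact this ▸ ht

theorem fieldFacts (M : ℕ) (A : ValuationSubring Qb) (E : IntermediateField ℚ Qb) :
    FieldFacts M A E where
  R_le := Rc_subset_Ec
  R_total := Rc_total
  E_le_L := Ec_le_Lc
  E_le_F := Ec_le_Fc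
  L_algebraic := isAlgebraic_Ec_of_mem_Lc
  L_algClosed := isAlgClosed_Lc M
  E_closed_in_F := E_closed_in_F
  compositum := compositum_eq_top

end Fermat.Agent.S18.H576

end
end
-- ===== PACK-END S18/H576/Coeff.lean

-- ===== PACK-BEGIN A2/Mod/H708/Vinf.lean
section



/-!
# A2 / MOD leaves L1 `VinfExists` and L2 `VinfBasic` (helper708)

Exact shapes of `Fermat/Agent/A2/Mod/Spec.lean` (architect helper994):

* `vinfE P E N : ValuationSubring (FE E N)` — the Gauss valuation ring at `∞` over `R_E = P ∩ E`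
  (`= H708.gaussInf`), for `R_E` noetherian;
* `isVinf_vinfE`, `eq_vinfE_of_isVinf` (the predicate `IsVinf` determines `V`);
* `vinfExists : VinfExistsStatement P E`                                              (L1);
* `vinfBasic : VinfBasicStatement P E w`                                              (L2);
* reusable: `mem_of_isVinf_of_incl`, `inv_mem_of_isVinf_of_incl` (functions with an `R_E`-integral,
  resp. primitive `R_E`-integral, expansion are integral, resp. units),
  `algebraMap_mem_iff_of_isVinf`, `exists_const_mul_unit_of_isVinf`, `red_castA_jInt_ne_zero`.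
-/

set_option autoImplicit false
set_option synthInstance.maxHeartbeats 400000
set_option maxHeartbeats 1600000

noncomputable section

namespace Fermat.Agent.A2.Mod.H708

open ModularCurve HahnSeries Polynomial
open Fermat.Agent.A2

variable (P : ValuationSubring _root_.Fermat.Agent.A2.Mod.Qb) (E : IntermediateField ℚ _root_.Fermat.Agent.A2.Mod.Qb)

/-- The Gauss valuation ring at `∞` of `F_{N,E}` over `R_E` (`R_E` noetherian, e.g. a DVR). -/
def vinfE (N : ℕ) [IsNoetherianRing (_root_.Fermat.Agent.A2.Mod.RE P E)] : ValuationSubring (_root_.Fermat.Agent.A2.Mod.FE E N) :=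
  H708.gaussInf (_root_.Fermat.Agent.A2.Mod.RE P E) (modularFunctionFieldFull N) (H708.intGen_full N)
    (H708.attainsMax_of_isNoetherianRing (_root_.Fermat.Agent.A2.Mod.RE P E) (modularFunctionFieldFull N))

theorem isVinf_vinfE (N : ℕ) [IsNoetherianRing (_root_.Fermat.Agent.A2.Mod.RE P E)] : IsVinf P E N (vinfE P E N) :=
  fun _ => Iff.rfl

variable {P E}

/-- `IsVinf` determines the valuation ring. -/
theorem eq_vinfE_of_isVinf {N : ℕ} [IsNoetherianRing (_root_.Fermat.Agent.A2.Mod.RE P E)] {V : ValuationSubring (_root_.Fermat.Agent.A2.Mod.FE E N)}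
    (hV : IsVinf P E N V) : V = vinfE P E N := by
  ext f
  rw [hV f]
  exact Iff.rfl

/-- functions with an `R_E`-integral expansion lie in `V∞`. -/
theorem mem_of_isVinf_of_incl {N : ℕ} {V : ValuationSubring (_root_.Fermat.Agent.A2.Mod.FE E N)} (hV : IsVinf P E N V)
    {f : _root_.Fermat.Agent.A2.Mod.FE E N} (U : LaurentSeries (_root_.Fermat.Agent.A2.Mod.RE P E))
    (h : (f : LaurentSeries E) = H708.incl (_root_.Fermat.Agent.A2.Mod.RE P E) U) : f ∈ V := by
  rw [hV f, h]
  exact H708.IsGaussInt.of_incl U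

/-- functions with a primitive `R_E`-integral expansion are units of `V∞`. -/
theorem inv_mem_of_isVinf_of_incl {N : ℕ} {V : ValuationSubring (_root_.Fermat.Agent.A2.Mod.FE E N)} (hV : IsVinf P E N V)
    {f : _root_.Fermat.Agent.A2.Mod.FE E N} (U : LaurentSeries (_root_.Fermat.Agent.A2.Mod.RE P E))
    (h : (f : LaurentSeries E) = H708.incl (_root_.Fermat.Agent.A2.Mod.RE P E) U) (hU : H708.red (_root_.Fermat.Agent.A2.Mod.RE P E) U ≠ 0) :
    f⁻¹ ∈ V := by
  rw [hV f⁻¹]
  have hf0 : (f : LaurentSeries E) ≠ 0 := by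
    rw [h]
    exact H708.incl_ne_zero (_root_.Fermat.Agent.A2.Mod.RE P E) (H708.ne_zero_of_red_ne_zero (_root_.Fermat.Agent.A2.Mod.RE P E) hU)
  refine ⟨1, U, hU, h ▸ f.2, ?_⟩
  rw [IntermediateField.coe_inv, ← h, inv_mul_cancel₀ hf0, _root_.map_one]

/-- `V∞ ∩ E = R_E`. -/
theorem algebraMap_mem_iff_of_isVinf {N : ℕ} [IsNoetherianRing (_root_.Fermat.Agent.A2.Mod.RE P E)]
    {V : ValuationSubring (_root_.Fermat.Agent.A2.Mod.FE E N)} (hV : IsVinf P E N V) (e : E) :
    algebraMap E (_root_.Fermat.Agent.A2.Mod.FE E N) e ∈ V ↔ e ∈ _root_.Fermat.Agent.A2.Mod.RE P E := by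
  rw [eq_vinfE_of_isVinf hV]
  exact H708.algebraMap_mem_gaussInf_iff _ _ e

/-- value group of `V∞` = value group of `R_E`. -/
theorem exists_const_mul_unit_of_isVinf {N : ℕ} [IsNoetherianRing (_root_.Fermat.Agent.A2.Mod.RE P E)]
    {V : ValuationSubring (_root_.Fermat.Agent.A2.Mod.FE E N)} (hV : IsVinf P E N V) {f : _root_.Fermat.Agent.A2.Mod.FE E N} (hf : f ≠ 0) :
    ∃ c : E, c ≠ 0 ∧ V.valuation (f * (algebraMap E (_root_.Fermat.Agent.A2.Mod.FE E N) c)⁻¹) = 1 := by
  rw [eq_vinfE_of_isVinf hV]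
  exact H708.exists_const_mul_unit _ _ hf

/-- the reduction of `j(t^d)` is nonzero. -/
theorem red_castA_jInt_ne_zero (d : ℕ) [NeZero d] :
    H708.red (_root_.Fermat.Agent.A2.Mod.RE P E) (H708.castA (_root_.Fermat.Agent.A2.Mod.RE P E) (H708.jInt d)) ≠ 0 := by
  have h1 : H708.red (_root_.Fermat.Agent.A2.Mod.RE P E) (H708.castA (_root_.Fermat.Agent.A2.Mod.RE P E) (H708.jInt d))
      = jqNModC (IsLocalRing.ResidueField (_root_.Fermat.Agent.A2.Mod.RE P E)) d := by
    show coeffMap _ (coeffMap _ (jqNModC ℤ d)) = _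
    rw [coeffMap_jqNModC, coeffMap_jqNModC]
  rw [h1]
  intro h0
  have h2 : (jqNModC (IsLocalRing.ResidueField (_root_.Fermat.Agent.A2.Mod.RE P E)) d).coeff ((d : ℤ) * (-1)) = 1 := by
    rw [jqNModC, qExpand_coeff_mul, coeff_jqModC_neg_one]
  rw [h0] at h2
  simp at h2

/-- `j_d` has the `R_E`-integral expansion `j(t^d) ∈ ℤ((t))`. -/
theorem coe_jE_eq (N d : ℕ) [NeZero d] (hd : d ∣ N) :
    ((jE E N d hd : _root_.Fermat.Agent.A2.Mod.FE E N) : LaurentSeries E)
      = H708.incl (_root_.Fermat.Agent.A2.Mod.RE P E) (H708.castA (_root_.Fermat.Agent.A2.Mod.RE P E) (H708.jInt d)) := by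
  rw [H708.incl_castA, H708.castQ_jInt]
  rfl

section L1

variable (P E)

/-- **L1** (`VinfExistsStatement`): the Gauss valuation ring exists at every level. -/
theorem vinfExists : VinfExistsStatement P E := by
  intro N _ hdvr
  have := hdvr
  exact ⟨vinfE P E N, isVinf_vinfE P E N⟩

end L1

section L2

variable (P E) (w : _root_.Fermat.Agent.A2.Mod.RE P E)

/-- **L2** (`VinfBasicStatement`): `w` is a uniformiser of `V∞`, `V∞ ∩ E = R_E`, and the
generators `j_d` are units of `V∞`. -/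
theorem vinfBasic : VinfBasicStatement P E w := by
  intro N _ hdvr hw V hV
  have := hdvr
  have hw0 : (w : E) ≠ 0 := fun h => hw.ne_zero (Subtype.ext h)
  refine ⟨⟨?_, ?_, ?_⟩, fun e => algebraMap_mem_iff_of_isVinf hV e, ?_⟩
  · -- `w ∈ V`
    exact (algebraMap_mem_iff_of_isVinf hV (w : E)).mpr w.2
  · -- `w⁻¹ ∉ V`
    intro h
    have h1 : (cE P E N w)⁻¹ = algebraMap E (_root_.Fermat.Agent.A2.Mod.FE E N) ((w : E)⁻¹) := by
      rw [cE, map_inv₀]
    rw [h1] at h
    have h2 : (w : E)⁻¹ ∈ _root_.Fermat.Agent.A2.Mod.RE P E := (algebraMap_mem_iff_of_isVinf hV _).mp h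
    refine hw.not_isUnit (IsUnit.of_mul_eq_one (⟨(w : E)⁻¹, h2⟩ : _root_.Fermat.Agent.A2.Mod.RE P E) ?_)
    exact Subtype.ext (mul_inv_cancel₀ hw0)
  · -- every non-unit is divisible by `w`
    intro f hf hfinv
    have hf0 : f ≠ 0 := by
      rintro rfl
      exact hfinv (by rw [inv_zero]; exact V.zero_mem)
    obtain ⟨c, hc, hu⟩ := exists_const_mul_unit_of_isVinf hV hf0
    have hcF : algebraMap E (_root_.Fermat.Agent.A2.Mod.FE E N) c ≠ 0 := by
      rw [Ne, _root_.map_eq_zero]
      exact hc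
    -- `v(f) = v(c)`
    have hvf : V.valuation f = V.valuation (algebraMap E (_root_.Fermat.Agent.A2.Mod.FE E N) c) := by
      rw [_root_.map_mul, map_inv₀] at hu
      have hv0 : V.valuation (algebraMap E (_root_.Fermat.Agent.A2.Mod.FE E N) c) ≠ 0 :=
        (Valuation.ne_zero_iff _).mpr hcF
      calc V.valuation f
          = V.valuation f * (V.valuation (algebraMap E (_root_.Fermat.Agent.A2.Mod.FE E N) c))⁻¹ *
              V.valuation (algebraMap E (_root_.Fermat.Agent.A2.Mod.FE E N) c) := by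
            rw [mul_assoc, inv_mul_cancel₀ hv0, mul_one]
        _ = V.valuation (algebraMap E (_root_.Fermat.Agent.A2.Mod.FE E N) c) := by rw [hu, one_mul]
    have hcV : algebraMap E (_root_.Fermat.Agent.A2.Mod.FE E N) c ∈ V := by
      rw [← ValuationSubring.valuation_le_one_iff, ← hvf, ValuationSubring.valuation_le_one_iff]
      exact hf
    have hcinvV : (algebraMap E (_root_.Fermat.Agent.A2.Mod.FE E N) c)⁻¹ ∉ V := by
      rw [← ValuationSubring.valuation_le_one_iff, map_inv₀, ← hvf, ← map_inv₀,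
        ValuationSubring.valuation_le_one_iff]
      exact hfinv
    have hcR : c ∈ _root_.Fermat.Agent.A2.Mod.RE P E := (algebraMap_mem_iff_of_isVinf hV c).mp hcV
    have hcinvR : c⁻¹ ∉ _root_.Fermat.Agent.A2.Mod.RE P E := by
      intro h
      exact hcinvV (by rw [← map_inv₀]; exact (algebraMap_mem_iff_of_isVinf hV _).mpr h)
    -- `c` is a non-unit of `R_E`, hence divisible by `w`
    have hnu : ¬ IsUnit (⟨c, hcR⟩ : _root_.Fermat.Agent.A2.Mod.RE P E) := by
      intro hunit
      obtain ⟨d, hd⟩ := hunit.exists_right_inv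
      apply hcinvR
      have h3 : c * (d : E) = 1 := congrArg Subtype.val hd
      have h4 : c⁻¹ = (d : E) := inv_eq_of_mul_eq_one_right h3
      rw [h4]
      exact d.2
    have hmem : (⟨c, hcR⟩ : _root_.Fermat.Agent.A2.Mod.RE P E) ∈ IsLocalRing.maximalIdeal (_root_.Fermat.Agent.A2.Mod.RE P E) :=
      (IsLocalRing.mem_maximalIdeal _).mpr hnu
    rw [(IsDiscreteValuationRing.irreducible_iff_uniformizer w).mp hw,
      Ideal.mem_span_singleton] at hmem
    obtain ⟨d, hd⟩ := hmem
    have hcd : c = (w : E) * (d : E) := congrArg Subtype.val hd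
    have hdV : algebraMap E (_root_.Fermat.Agent.A2.Mod.FE E N) (d : E) ∈ V := (algebraMap_mem_iff_of_isVinf hV _).mpr d.2
    have hunitV : f * (algebraMap E (_root_.Fermat.Agent.A2.Mod.FE E N) c)⁻¹ ∈ V := by
      rw [← ValuationSubring.valuation_le_one_iff, hu]
    have hkey : f * (cE P E N w)⁻¹
        = f * (algebraMap E (_root_.Fermat.Agent.A2.Mod.FE E N) c)⁻¹ * algebraMap E (_root_.Fermat.Agent.A2.Mod.FE E N) (d : E) := by
      have hwF : cE P E N w ≠ 0 := by
        rw [cE, Ne, _root_.map_eq_zero]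
        exact hw0
      have hcF' : algebraMap E (_root_.Fermat.Agent.A2.Mod.FE E N) c = cE P E N w * algebraMap E (_root_.Fermat.Agent.A2.Mod.FE E N) (d : E) := by
        rw [cE, ← _root_.map_mul, hcd]
      have hdF : algebraMap E (_root_.Fermat.Agent.A2.Mod.FE E N) (d : E) ≠ 0 := by
        intro h0
        rw [h0, mul_zero] at hcF'
        exact hcF hcF'
      rw [hcF']
      field_simp
    rw [hkey]
    exact V.mul_mem _ _ hunitV hdV
  · -- the `j_d` are units
    intro d _ hd
    exact ⟨mem_of_isVinf_of_incl hV _ (coe_jE_eq N d hd),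
      inv_mem_of_isVinf_of_incl hV _ (coe_jE_eq N d hd) (red_castA_jInt_ne_zero d)⟩

end L2

end Fermat.Agent.A2.Mod.H708

end
end
-- ===== PACK-END A2/Mod/H708/Vinf.lean

-- ===== PACK-BEGIN A2/T1/H669/T1.lean
section





/-!
# WALL A2, piece T1 (helper669): assembly `ALG + MOD + IF ⇒ KummerTarget`

`t1 : T1Statement` (interface v2 of `Fermat/Agent/A2/{Spec,ModDefs}.lean`, helper13):
`AlgSSStatement → IFStatement → ModSSStatement → KummerTarget N q m`.

Proof: descend `f` to a finite level `E₀` (`S18.H602.exists_finite_descent`), enlarge to a good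
level `E` (IF), translate `m ∣ div f` on `F̄` into `DivisibleDiv E m y` (T2), apply ALG to the
semistable model (MOD) with `τ := arithmeticRingAut (res τ)`, push the result to `F̄` by `iota`.
-/

set_option autoImplicit false
set_option synthInstance.maxHeartbeats 400000
set_option maxHeartbeats 1600000

noncomputable section

namespace Fermat.Agent.A2.T1.H669

open ModularCurve AlgebraicCurve Fermat.Agent.A2

/-- The restriction of an element of the decomposition group to `R_E`. -/
def resR {P : ValuationSubring _root_.Fermat.Agent.A2.T1.H669.Qb} {E : IntermediateField ℚ _root_.Fermat.Agent.A2.T1.H669.Qb} (hE : GoodField P E)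
    (τ : _root_.Fermat.Agent.A2.T1.H669.Qb ≃ₐ[ℚ] _root_.Fermat.Agent.A2.T1.H669.Qb) (hτ : τ ∈ P.inertiaSubgroupIn ℚ) : ↥(RE P E) ≃+* ↥(RE P E) where
  toFun r := ⟨hE.res τ hτ (r : E), by
    have hd := Fermat.Agent.A2.H708.mem_decomposition_of_mem_inertiaIn P hτ
    show ((hE.res τ hτ (r : E) : E) : _root_.Fermat.Agent.A2.T1.H669.Qb) ∈ P
    exact Fermat.Agent.A2.H708.apply_mem_of_mem_decomposition P hd r.2⟩
  invFun r := ⟨(hE.res τ hτ).symm (r : E), by
    have hd := Fermat.Agent.A2.H708.mem_decomposition_of_mem_inertiaIn P hτ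
    show (((hE.res τ hτ).symm (r : E) : E) : _root_.Fermat.Agent.A2.T1.H669.Qb) ∈ P
    have h1 : τ (((hE.res τ hτ).symm (r : E) : E) : _root_.Fermat.Agent.A2.T1.H669.Qb) = ((r : E) : _root_.Fermat.Agent.A2.T1.H669.Qb) := by
      have := (hE.res τ hτ).apply_symm_apply (r : E)
      exact congrArg (fun z : E => (z : _root_.Fermat.Agent.A2.T1.H669.Qb)) this
    refine Fermat.Agent.A2.H708.mem_of_apply_mem_of_mem_decomposition P hd ?_
    rw [h1]; exact r.2⟩
  left_inv r := Subtype.ext ((hE.res τ hτ).symm_apply_apply (r : E))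
  right_inv r := Subtype.ext ((hE.res τ hτ).apply_symm_apply (r : E))
  map_mul' a b := Subtype.ext (map_mul (hE.res τ hτ) (a : E) (b : E))
  map_add' a b := Subtype.ext (map_add (hE.res τ hτ) (a : E) (b : E))

theorem natCast_mem_maximalIdeal_RE {P : ValuationSubring _root_.Fermat.Agent.A2.T1.H669.Qb} (E : IntermediateField ℚ _root_.Fermat.Agent.A2.T1.H669.Qb)
    {q : ℕ} (hP : P.LiesOverPrime q) :
    ((q : ℕ) : ↥(RE P E)) ∈ IsLocalRing.maximalIdeal ↥(RE P E) := by
  rw [IsLocalRing.mem_maximalIdeal, mem_nonunits_iff]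
  intro hu
  obtain ⟨u, hu⟩ := hu
  have h1 : ((q : ℕ) : ↥(RE P E)) * ((u⁻¹ : (↥(RE P E))ˣ) : ↥(RE P E)) = 1 := by
    rw [← hu]; exact u.mul_inv
  have h2 : ((q : ℕ) : _root_.Fermat.Agent.A2.T1.H669.Qb) * (((((u⁻¹ : (↥(RE P E))ˣ) : ↥(RE P E)) : E) : _root_.Fermat.Agent.A2.T1.H669.Qb)) = 1 := by
    have := congrArg (fun z : ↥(RE P E) => (((z : E)) : _root_.Fermat.Agent.A2.T1.H669.Qb)) h1
    simpa using this
  have hmem : (((((u⁻¹ : (↥(RE P E))ˣ) : ↥(RE P E)) : E) : _root_.Fermat.Agent.A2.T1.H669.Qb)) ∈ P :=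
    ((u⁻¹ : (↥(RE P E))ˣ) : ↥(RE P E)).2
  have hq0 : ((q : ℕ) : _root_.Fermat.Agent.A2.T1.H669.Qb) ≠ 0 := left_ne_zero_of_mul_eq_one h2
  have hval : P.valuation ((q : ℕ) : _root_.Fermat.Agent.A2.T1.H669.Qb) < 1 :=
    (ValuationSubring.mem_nonunits_iff P).1 hP
  have hval2 : P.valuation (((((u⁻¹ : (↥(RE P E))ˣ) : ↥(RE P E)) : E) : _root_.Fermat.Agent.A2.T1.H669.Qb)) ≤ 1 :=
    (ValuationSubring.valuation_le_one_iff P _).2 hmem
  have : P.valuation (1 : _root_.Fermat.Agent.A2.T1.H669.Qb) < 1 := by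
    rw [← h2, map_mul]
    calc P.valuation ((q : ℕ) : _root_.Fermat.Agent.A2.T1.H669.Qb) * P.valuation _
        ≤ P.valuation ((q : ℕ) : _root_.Fermat.Agent.A2.T1.H669.Qb) * 1 := by gcongr
      _ < 1 := by rwa [mul_one]
  rw [map_one] at this
  exact lt_irrefl _ this

/-- Iterates of the restriction of `τ` to a stable level. -/
theorem coe_res_iterate {P : ValuationSubring _root_.Fermat.Agent.A2.T1.H669.Qb} {E : IntermediateField ℚ _root_.Fermat.Agent.A2.T1.H669.Qb}
    (hE : GoodField P E) (τ : _root_.Fermat.Agent.A2.T1.H669.Qb ≃ₐ[ℚ] _root_.Fermat.Agent.A2.T1.H669.Qb) (hτ : τ ∈ P.inertiaSubgroupIn ℚ) (k : ℕ) (e : E) :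
    (((⇑(hE.res τ hτ))^[k] e : E) : _root_.Fermat.Agent.A2.T1.H669.Qb) = (⇑τ)^[k] (e : _root_.Fermat.Agent.A2.T1.H669.Qb) := by
  induction k with
  | zero => rfl
  | succ k ih =>
      rw [Function.iterate_succ_apply', Function.iterate_succ_apply', ← ih]
      rfl

/-- Coefficients of the iterates of the arithmetic action. -/
theorem coeff_arithmeticRingAut_iterate (F₀ : IntermediateField ℚ (LaurentSeries ℚ))
    {E : IntermediateField ℚ _root_.Fermat.Agent.A2.T1.H669.Qb} (σ : E ≃ₐ[ℚ] E) (k : ℕ) (f : ↥(laurentBaseChange E F₀))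
    (n : ℤ) :
    (((⇑(arithmeticRingAut F₀ σ))^[k] f : ↥(laurentBaseChange E F₀)) :
        LaurentSeries E).coeff n = (⇑σ)^[k] ((f : LaurentSeries E).coeff n) := by
  induction k with
  | zero => rfl
  | succ k ih =>
      rw [Function.iterate_succ_apply', Function.iterate_succ_apply', ← ih]
      rfl

/-- The arithmetic action of an inertia element on a good level has finite order. -/
theorem finite_order_arithmeticRingAut (F₀ : IntermediateField ℚ (LaurentSeries ℚ))
    {P : ValuationSubring _root_.Fermat.Agent.A2.T1.H669.Qb} {E : IntermediateField ℚ _root_.Fermat.Agent.A2.T1.H669.Qb}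
    (hE : GoodField P E) (τ : _root_.Fermat.Agent.A2.T1.H669.Qb ≃ₐ[ℚ] _root_.Fermat.Agent.A2.T1.H669.Qb) (hτ : τ ∈ P.inertiaSubgroupIn ℚ) :
    ∃ r : ℕ, 0 < r ∧ ∀ f : ↥(laurentBaseChange E F₀),
      (⇑(arithmeticRingAut F₀ (hE.res τ hτ)))^[r] f = f := by
  obtain ⟨r, hr0, hr⟩ := hE.finite_order τ hτ
  refine ⟨r, hr0, fun f => Subtype.ext (HahnSeries.ext (funext fun n => ?_))⟩
  rw [coeff_arithmeticRingAut_iterate]
  apply Subtype.ext
  rw [coe_res_iterate]
  exact hr _ (SetLike.coe_mem _)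

/-- **T1** (interface v2): `ALG + IF + MOD ⟹ KummerTarget`. -/
theorem t1 : T1Statement := by
  intro hALG hIF hMOD N q m hq hqN hq2 hN hm hqm P hP τ hτ f hf hdiv
  refine kummer_of_levels (modularFunctionFieldFull N) m τ (fun S => ?_) f hf hdiv
  -- a good level containing `S`
  obtain ⟨E, hSE, hE⟩ := hIF q hq P hP S
  refine ⟨E, hSE, hE.res τ hτ, fun e => rfl, fun y hy0 hdd => ?_⟩
  -- the model
  obtain ⟨D⟩ := hMOD P E N q hq hqN hq2 hN hP hE
  haveI : IsDiscreteValuationRing ↥(RE P E) := hE.dvr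
  haveI : HenselianLocalRing ↥(RE P E) := hE.henselian
  haveI : IsAlgClosed (IsLocalRing.ResidueField ↥(RE P E)) := hE.algClosed
  obtain ⟨w, hw⟩ := IsDiscreteValuationRing.exists_irreducible ↥(RE P E)
  obtain ⟨cf⟩ := D.cf w hw
  obtain ⟨ci⟩ := D.ci w hw
  -- ALG
  have hconcl : AlgSSConclusion E m
      (arithmeticRingAut (modularFunctionFieldFull N) (hE.res τ hτ)) :=
    hALG (R := ↥(RE P E)) (E := E) (F := ↥(FE E N)) w hw q m hq
      (natCast_mem_maximalIdeal_RE E hP) hm hqm D.x D.hx D.hfin D.hconst D.Bf D.Bi D.hBf D.hBi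
      cf ci D.sf D.si
      (arithmeticRingAut (modularFunctionFieldFull N) (hE.res τ hτ))
      (hE.res τ hτ).toRingEquiv (resR hE τ hτ)
      (fun e => arithmeticRingAut_algebraMap (modularFunctionFieldFull N) (hE.res τ hτ) e)
      (fun r => rfl)
      (D.hτx hE τ hτ)
      (finite_order_arithmeticRingAut (modularFunctionFieldFull N) hE τ hτ)
      (D.hτf hE τ hτ w hw) (D.hτi hE τ hτ w hw)
  exact hconcl y hy0 hdd

end Fermat.Agent.A2.T1.H669

end
end
-- ===== PACK-END A2/T1/H669/T1.lean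

-- ===== PACK-BEGIN Ribet/H495/AlgPTau.lean
section


/-!
# W-ALGP: the key computation (helper495)

`tau_one_add`: if `τ ≡ id mod w` on `S`, `τ Λ = Λ K`, `Λ = w ρ`, `K ^ k ≡ c mod w`, `k ≥ 1`, then
for `t ∈ S`:  `τ (1 + Λ^k t) = (1 + Λ^k t)^c · (1 + Λ^k w s)` with `s ∈ S`.
-/

set_option autoImplicit false

namespace Fermat.Agent.Ribet.H495.AlgP

section Comp

variable {R F : Type*} [CommRing R] [Field F] [Algebra R F]

/-- `(1 + X)^c = 1 + c X + X² q` with `q` in any subalgebra containing `X`. -/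
theorem one_add_pow_expand (S : Subalgebra R F) {X : F} (hX : X ∈ S) (c : ℕ) :
    ∃ q ∈ S, (1 + X) ^ c = 1 + (c : F) * X + X ^ 2 * q := by
  induction c with
  | zero => exact ⟨0, S.zero_mem, by simp⟩
  | succ c ih =>
    obtain ⟨q, hq, e⟩ := ih
    refine ⟨(c : F) + q + X * q, ?_, ?_⟩
    · exact S.add_mem (S.add_mem (natCast_mem S c) hq) (S.mul_mem hX hq)
    · rw [pow_succ, e]
      push_cast
      ring

/-- **Key computation.** -/
theorem tau_one_add {w : R} {S : Subalgebra R F} {τ : F ≃+* F} (hS : TauLoc w S τ)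
    (lam ρ k₀ κ : R) (c k : ℕ) (hk : 0 < k) (hlam : lam = w * ρ)
    (hτlam : τ (algebraMap R F lam) = algebraMap R F lam * algebraMap R F k₀)
    (hk₀ : k₀ ^ k = (c : R) + w * κ) {t : F} (ht : t ∈ S) :
    (1 + algebraMap R F lam ^ k * t) ^ c ≠ 0 ∧
    ∃ s ∈ S, τ (1 + algebraMap R F lam ^ k * t) =
      (1 + algebraMap R F lam ^ k * t) ^ c *
        (1 + algebraMap R F lam ^ k * algebraMap R F w * s) := by
  set Λ : F := algebraMap R F lam with hΛ
  set W : F := algebraMap R F w with hW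
  have hΛW : Λ = W * algebraMap R F ρ := by rw [hΛ, hW, hlam, map_mul]
  obtain ⟨k', rfl⟩ : ∃ k', k = k' + 1 := ⟨k - 1, by omega⟩
  have hΛS : Λ ∈ S := S.algebraMap_mem lam
  have hρS : algebraMap R F ρ ∈ S := S.algebraMap_mem ρ
  have hκS : algebraMap R F κ ∈ S := S.algebraMap_mem κ
  have hWS : W ∈ S := S.algebraMap_mem w
  obtain ⟨t', ht', hτt⟩ := hS.tau t ht
  set X : F := Λ ^ (k' + 1) * t with hX
  have hXS : X ∈ S := S.mul_mem (S.pow_mem hΛS _) ht
  obtain ⟨q, hq, hexp⟩ := one_add_pow_expand S hXS c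
  -- `Λ^(k'+1) = W * (ρ Λ^k')`
  have hΛk : Λ ^ (k' + 1) = W * (algebraMap R F ρ * Λ ^ k') := by
    rw [pow_succ, hΛW]
    ring
  -- `B = 1 + W * b`
  set b : F := algebraMap R F ρ * Λ ^ k' * ((c : F) * t + X * t * q) with hb
  have hbS : b ∈ S :=
    S.mul_mem (S.mul_mem hρS (S.pow_mem hΛS _))
      (S.add_mem (S.mul_mem (natCast_mem S c) ht) (S.mul_mem (S.mul_mem hXS ht) hq))
  have hB : (1 + X) ^ c = 1 + W * b := by
    rw [hexp, hb, hX, hΛk]
    ring
  obtain ⟨hBne, hBinv⟩ := hS.inv_mem b hbS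
  rw [← hB] at hBne hBinv
  refine ⟨hBne, ?_⟩
  -- `K^k = c + W κ`
  have hK : algebraMap R F k₀ ^ (k' + 1) = (c : F) + W * algebraMap R F κ := by
    rw [← map_pow, hk₀, map_add, map_mul, map_natCast]
  -- `A = τ (1 + X)`
  have hA : τ (1 + X) = 1 + (c : F) * X + Λ ^ (k' + 1) * W *
      ((c : F) * t' + algebraMap R F κ * t + W * algebraMap R F κ * t') := by
    rw [hX, map_add, map_one, map_mul, map_pow, hτlam, hτt, mul_pow, hK]
    ring
  set s₀ : F := ((c : F) * t' + algebraMap R F κ * t + W * algebraMap R F κ * t') -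
      algebraMap R F ρ * Λ ^ k' * t ^ 2 * q with hs₀
  have hs₀S : s₀ ∈ S := by
    refine S.sub_mem (S.add_mem (S.add_mem (S.mul_mem (natCast_mem S c) ht')
      (S.mul_mem hκS ht)) (S.mul_mem (S.mul_mem hWS hκS) ht')) ?_
    exact S.mul_mem (S.mul_mem (S.mul_mem hρS (S.pow_mem hΛS _)) (S.pow_mem ht 2)) hq
  have hAB : τ (1 + X) = (1 + X) ^ c + Λ ^ (k' + 1) * W * s₀ := by
    rw [hA, hexp, hs₀, hX]
    have h2 : (Λ ^ (k' + 1) * t) ^ 2 = Λ ^ (k' + 1) * W * (algebraMap R F ρ * Λ ^ k' * t ^ 2) := by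
      rw [mul_pow, sq (Λ ^ (k' + 1))]
      nth_rewrite 2 [hΛk]
      ring
    rw [h2]
    ring
  refine ⟨s₀ * ((1 + X) ^ c)⁻¹, S.mul_mem hs₀S hBinv, ?_⟩
  rw [hAB]
  field_simp

end Comp

end Fermat.Agent.Ribet.H495.AlgP

end
-- ===== PACK-END Ribet/H495/AlgPTau.lean

-- ===== PACK-BEGIN A2/Mod/H872/Unique.lean
section


/-!
# A2 / MOD leaf L7 (helper872), part 1: uniqueness of the Gauss extension (abstract)

Mathlib + `H48` (helper48's QEP2 library) only.

`R` a factorial domain with prime element `ϖ`, `F` a field with an injective ring homomorphism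
`R[X] → F` (`X ↦ x`), `V₁`, `V₂` valuation rings of `F` which both contain `R[X]`, have maximal
ideal generated by `ϖ` and induce the Gauss valuation on `Frac R[X]`.  If there are `n` elements
of `V₁` whose residues are linearly independent over `(R/ϖ)[X]` and which span `F` over
`Frac R[X]` (denominator form), then `V₁ = V₂`.

This is the case `f₁ = n = [F : K]` of the fundamental inequality; it is deduced from
`H48.GaussPairLe.card` applied to the families `b` and `c = (1)`.
-/

set_option autoImplicit false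

namespace Fermat.Agent.A2.Mod.H872

open Polynomial Fermat.Agent.A2.H48

section Abstract

variable {R : Type*} [CommRing R] [IsDomain R] [UniqueFactorizationMonoid R]
variable {K F : Type*} [Field K] [Field F] [Algebra R[X] K] [IsFractionRing R[X] K]
  [Algebra K F] [Algebra R[X] F] [IsScalarTower R[X] K F]

/-- Uniqueness of the Gauss extension, with an explicit fraction field `K` of `R[X]`. -/
theorem eq_of_gauss_indep_of_finrank_le [FiniteDimensional K F] {ϖ : R}
    {V₁ V₂ : ValuationSubring F} {n : ℕ} {b : Fin n → F}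
    (prime : Prime ϖ)
    (unif₁ : IsUnif V₁ (algebraMap R[X] F (C ϖ)))
    (unif₂ : IsUnif V₂ (algebraMap R[X] F (C ϖ)))
    (poly₁ : ∀ P : R[X], algebraMap R[X] F P ∈ V₁)
    (poly₂ : ∀ P : R[X], algebraMap R[X] F P ∈ V₂)
    (gauss₁ : ∀ P : R[X], ¬ C ϖ ∣ P → (algebraMap R[X] F P)⁻¹ ∈ V₁)
    (gauss₂ : ∀ P : R[X], ¬ C ϖ ∣ P → (algebraMap R[X] F P)⁻¹ ∈ V₂)
    (b_mem : ∀ i, b i ∈ V₁)
    (b_indep : ∀ a : Fin n → R[X],
      (∑ i, algebraMap R[X] F (a i) * b i) * (algebraMap R[X] F (C ϖ))⁻¹ ∈ V₁ →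
        ∀ i, C ϖ ∣ a i)
    (hle : Module.finrank K F ≤ n) : V₁ = V₂ := by
  by_contra hne
  have h : GaussPairLe (K := K) ϖ V₁ V₂ b (fun _ : Fin 1 => (1 : F)) :=
    { prime := prime
      unif₁ := unif₁
      unif₂ := unif₂
      poly₁ := poly₁
      poly₂ := poly₂
      gauss₁ := gauss₁
      gauss₂ := gauss₂
      ne := hne
      b_mem := b_mem
      c_mem := fun _ => one_mem _
      b_indep := b_indep
      c_indep := by
        intro a ha j
        by_contra hdvd
        have hj : j = 0 := Subsingleton.elim _ _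
        subst hj
        have hsum : (∑ j : Fin 1, algebraMap R[X] F (a j) * 1) = algebraMap R[X] F (a 0) := by
          simp
        rw [hsum] at ha
        have h0 : algebraMap R[X] F (a 0) ≠ 0 := by
          intro h0
          have hK : algebraMap R[X] K (a 0) = 0 := by
            have h1 : algebraMap K F (algebraMap R[X] K (a 0)) = 0 := by
              rw [← IsScalarTower.algebraMap_apply]; exact h0
            exact (_root_.map_eq_zero (algebraMap K F)).mp h1
          have : a 0 = 0 :=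
            (IsFractionRing.injective R[X] K) (by rw [hK, _root_.map_zero])
          exact hdvd (this ▸ dvd_zero _)
        have hinv := gauss₂ (a 0) hdvd
        apply unif₂.inv_not_mem
        have : (algebraMap R[X] F (C ϖ))⁻¹ =
            (algebraMap R[X] F (a 0))⁻¹ *
              (algebraMap R[X] F (a 0) * (algebraMap R[X] F (C ϖ))⁻¹) := by
          rw [← mul_assoc, inv_mul_cancel₀ h0, one_mul]
        rw [this]
        exact mul_mem hinv ha
      le := by omega }
  have hcard := h.card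
  omega

end Abstract

section Lift

variable {R : Type*} [CommRing R] [IsDomain R] [UniqueFactorizationMonoid R]
variable {F : Type*} [Field F] [Algebra R[X] F] [FaithfulSMul R[X] F]

attribute [local instance] FractionRing.liftAlgebra

omit [UniqueFactorizationMonoid R] in
/-- Spanning in denominator form gives spanning over the fraction field. -/
theorem span_eq_top_of_denominators {n : ℕ} {b : Fin n → F}
    (hspan : ∀ f : F, ∃ (Q : R[X]) (P : Fin n → R[X]), Q ≠ 0 ∧
      algebraMap R[X] F Q * f = ∑ i, algebraMap R[X] F (P i) * b i) :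
    Submodule.span (FractionRing R[X]) (Set.range b) = ⊤ := by
  rw [eq_top_iff]
  intro f _
  obtain ⟨Q, P, hQ, hQf⟩ := hspan f
  have hQF : algebraMap R[X] F Q ≠ 0 := by
    intro h0
    exact hQ ((FaithfulSMul.algebraMap_injective R[X] F) (by rw [h0, _root_.map_zero]))
  have hQK : algebraMap R[X] (FractionRing R[X]) Q ≠ 0 := by
    intro h0
    apply hQF
    rw [IsScalarTower.algebraMap_apply R[X] (FractionRing R[X]) F, h0, _root_.map_zero]
  have hf : f = ∑ i, ((algebraMap R[X] (FractionRing R[X]) Q)⁻¹ *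
      algebraMap R[X] (FractionRing R[X]) (P i)) • b i := by
    have h1 : ∀ i, ((algebraMap R[X] (FractionRing R[X]) Q)⁻¹ *
        algebraMap R[X] (FractionRing R[X]) (P i)) • b i =
        (algebraMap R[X] F Q)⁻¹ * (algebraMap R[X] F (P i) * b i) := by
      intro i
      rw [Algebra.smul_def, _root_.map_mul, map_inv₀,
        ← IsScalarTower.algebraMap_apply R[X] (FractionRing R[X]) F,
        ← IsScalarTower.algebraMap_apply R[X] (FractionRing R[X]) F, mul_assoc]
    rw [Finset.sum_congr rfl (fun i _ => h1 i), ← Finset.mul_sum, ← hQf, ← mul_assoc,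
      inv_mul_cancel₀ hQF, one_mul]
  rw [hf]
  exact Submodule.sum_mem _ fun i _ =>
    Submodule.smul_mem _ _ (Submodule.subset_span ⟨i, rfl⟩)

/-- **Uniqueness of the Gauss extension.**  `R[X] → F` injective, `V₁`, `V₂` Gauss extensions
with uniformiser `ϖ`, `b` a family of `n` elements of `V₁` with independent residues, spanning
`F` over `Frac R[X]` in denominator form.  Then `V₁ = V₂`. -/
theorem eq_of_gauss_indep {ϖ : R} {V₁ V₂ : ValuationSubring F} {n : ℕ} {b : Fin n → F}
    (prime : Prime ϖ)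
    (unif₁ : IsUnif V₁ (algebraMap R[X] F (C ϖ)))
    (unif₂ : IsUnif V₂ (algebraMap R[X] F (C ϖ)))
    (poly₁ : ∀ P : R[X], algebraMap R[X] F P ∈ V₁)
    (poly₂ : ∀ P : R[X], algebraMap R[X] F P ∈ V₂)
    (gauss₁ : ∀ P : R[X], ¬ C ϖ ∣ P → (algebraMap R[X] F P)⁻¹ ∈ V₁)
    (gauss₂ : ∀ P : R[X], ¬ C ϖ ∣ P → (algebraMap R[X] F P)⁻¹ ∈ V₂)
    (b_mem : ∀ i, b i ∈ V₁)
    (b_indep : ∀ a : Fin n → R[X],
      (∑ i, algebraMap R[X] F (a i) * b i) * (algebraMap R[X] F (C ϖ))⁻¹ ∈ V₁ →
        ∀ i, C ϖ ∣ a i)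
    (hspan : ∀ f : F, ∃ (Q : R[X]) (P : Fin n → R[X]), Q ≠ 0 ∧
      algebraMap R[X] F Q * f = ∑ i, algebraMap R[X] F (P i) * b i) : V₁ = V₂ := by
  have htop := span_eq_top_of_denominators (R := R) hspan
  have : Module.Finite (FractionRing R[X]) F := by
    refine ⟨?_⟩
    rw [← htop]
    exact Submodule.fg_span (Set.finite_range b)
  have hle : Module.finrank (FractionRing R[X]) F ≤ n := by
    have := finrank_le_of_span_eq_top (R := FractionRing R[X]) htop
    simpa using this
  exact eq_of_gauss_indep_of_finrank_le (K := FractionRing R[X]) prime unif₁ unif₂ poly₁ poly₂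
    gauss₁ gauss₂ b_mem b_indep hle

end Lift

end Fermat.Agent.A2.Mod.H872

end
-- ===== PACK-END A2/Mod/H872/Unique.lean

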