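import Mathlib
import Fermat.Prelude.Def_ModularCurve_ReductionModL
import Fermat.Agent.Pack.S33.E13L1
import Fermat.Agent.Pack.S33.E11L2
import Fermat.Agent.Pack.S33.E11L3
import Fermat.Agent.Pack.S33.E11L1
import Fermat.Agent.Pack.S33.E13L2
import Fermat.Agent.Pack.S33.E12L1
import Fermat.Agent.Pack.S33.E12L0
import Fermat.Agent.Pack.S33.E2L3
import Fermat.Agent.Pack.S33.E12L2
import Fermat.Agent.Pack.S33.E13L0
import Fermat.Agent.Pack.S33.E3L1

-- ===== PACK-BEGIN Lib/NormL/Sign.lean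
section


/-!
# `NormL`: stability of the sign of the norm under small perturbations
-/

namespace Fermat.Agent.Lib.NormL

open NumberField

variable {K : Type*} [Field K] [NumberField K]

/-- The auxiliary function `λ ↦ ∏_σ (σ x + λ σ t)`. -/
noncomputable def normPath (x t : K) (l : ℝ) : ℂ :=
  ∏ σ : K →ₐ[ℚ] ℂ, (σ x + (l : ℂ) * σ t)

theorem continuous_normPath (x t : K) : Continuous (normPath x t) := by
  unfold normPath
  exact continuous_finsetProd _ fun σ _ ↦
    continuous_const.add (Complex.continuous_ofReal.mul continuous_const)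

theorem normPath_ratCast (x t : K) (q : ℚ) :
    normPath x t (q : ℝ) = ((Algebra.norm ℚ (x + q • t) : ℚ) : ℂ) := by
  have h := Algebra.norm_eq_prod_embeddings ℚ ℂ (x + q • t)
  rw [eq_ratCast] at h
  rw [h]
  unfold normPath
  refine Finset.prod_congr rfl fun σ _ ↦ ?_
  rw [map_add, Algebra.smul_def, map_mul, AlgHom.commutes, Complex.ofReal_ratCast, eq_ratCast]

theorem normPath_im (x t : K) (l : ℝ) : (normPath x t l).im = 0 := by
  have h1 : Continuous fun l : ℝ ↦ (normPath x t l).im :=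
    Complex.continuous_im.comp (continuous_normPath x t)
  have h2 : Continuous fun _ : ℝ ↦ (0 : ℝ) := continuous_const
  have h3 := Continuous.ext_on Rat.denseRange_cast h1 h2 (by
    rintro _ ⟨q, rfl⟩
    show (normPath x t (q : ℝ)).im = 0
    rw [normPath_ratCast]
    exact Complex.ratCast_im _)
  exact congrFun h3 l

theorem normPath_ne_zero {x t : K} (h : ∀ w : InfinitePlace K, w t < w x) {l : ℝ}
    (hl0 : 0 ≤ l) (hl1 : l ≤ 1) : normPath x t l ≠ 0 := by
  unfold normPath
  rw [Finset.prod_ne_zero_iff]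
  intro σ _ h0
  have hw := h (InfinitePlace.mk σ.toRingHom)
  rw [InfinitePlace.apply, InfinitePlace.apply] at hw
  have h1 : σ x = -((l : ℂ) * σ t) := eq_neg_of_add_eq_zero_left h0
  have h2 : ‖σ x‖ = l * ‖σ t‖ := by
    rw [h1, norm_neg, norm_mul, Complex.norm_real, Real.norm_of_nonneg hl0]
  have h3 : l * ‖σ t‖ ≤ ‖σ t‖ := by
    have := norm_nonneg (σ t)
    nlinarith
  have hw' : ‖σ t‖ < ‖σ x‖ := hw
  linarith

theorem normPath_zero (x t : K) : normPath x t 0 = ((Algebra.norm ℚ x : ℚ) : ℂ) := by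
  have := normPath_ratCast x t 0
  simpa using this

theorem normPath_one (x t : K) : normPath x t 1 = ((Algebra.norm ℚ (x + t) : ℚ) : ℂ) := by
  have := normPath_ratCast x t 1
  simpa using this

/-- If `t` is smaller than `x` at every infinite place, then `N(x + t)` and `N(x)` have the
same sign. -/
theorem norm_pos_iff_of_lt {x t : K} (h : ∀ w : InfinitePlace K, w t < w x) :
    0 < Algebra.norm ℚ (x + t) ↔ 0 < Algebra.norm ℚ x := by
  set g : ℝ → ℝ := fun l ↦ (normPath x t l).re with hg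
  have hgc : Continuous g := Complex.continuous_re.comp (continuous_normPath x t)
  have hg0 : g 0 = ((Algebra.norm ℚ x : ℚ) : ℝ) := by
    simp only [hg]
    rw [normPath_zero]
    exact Complex.ratCast_re _
  have hg1 : g 1 = ((Algebra.norm ℚ (x + t) : ℚ) : ℝ) := by
    simp only [hg]
    rw [normPath_one]
    exact Complex.ratCast_re _
  have hne : ∀ l ∈ Set.Icc (0 : ℝ) 1, g l ≠ 0 := by
    intro l hl h0
    apply normPath_ne_zero h hl.1 hl.2
    apply Complex.ext
    · exact h0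
    · exact normPath_im x t l
  have key : 0 < g 1 ↔ 0 < g 0 := by
    constructor
    · intro h1
      by_contra h0
      have h0' : g 0 ≤ 0 := not_lt.mp h0
      obtain ⟨l, hl, hl0⟩ := intermediate_value_Icc zero_le_one hgc.continuousOn
        (show (0 : ℝ) ∈ Set.Icc (g 0) (g 1) from ⟨h0', h1.le⟩)
      exact hne l hl hl0
    · intro h0
      by_contra h1
      have h1' : g 1 ≤ 0 := not_lt.mp h1
      obtain ⟨l, hl, hl0⟩ := intermediate_value_Icc' zero_le_one hgc.continuousOn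
        (show (0 : ℝ) ∈ Set.Icc (g 1) (g 0) from ⟨h1', h0.le⟩)
      exact hne l hl hl0
  rw [hg0, hg1] at key
  exact_mod_cast key

/-- Integral version: the sign of the norm is stable. -/
theorem sign_norm_add_eq {x t : 𝓞 K} (h : ∀ w : InfinitePlace K, w (t : K) < w (x : K)) :
    (Algebra.norm ℤ (x + t)).sign = (Algebra.norm ℤ x).sign := by
  have h1 := norm_pos_iff_of_lt h
  have e1 : ((Algebra.norm ℤ x : ℤ) : ℚ) = Algebra.norm ℚ (x : K) := Algebra.coe_norm_int x
  have e2 : ((Algebra.norm ℤ (x + t) : ℤ) : ℚ) = Algebra.norm ℚ ((x : K) + (t : K)) := by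
    exact Algebra.coe_norm_int (x + t)
  rw [← e1, ← e2] at h1
  have h2 : 0 < Algebra.norm ℤ (x + t) ↔ 0 < Algebra.norm ℤ x := by exact_mod_cast h1
  have hx : x ≠ 0 := by
    rintro rfl
    have := h (Classical.arbitrary _)
    simp only [map_zero] at this
    exact absurd this (not_lt.mpr (apply_nonneg _ _))
  have hxt : x + t ≠ 0 := by
    intro h0
    have ht : t = -x := eq_neg_of_add_eq_zero_right h0
    have := h (Classical.arbitrary _)
    rw [ht] at this
    have e : (((-x : 𝓞 K) : 𝓞 K) : K) = -(x : K) := rfl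
    rw [e, ← InfinitePlace.norm_embedding_eq, ← InfinitePlace.norm_embedding_eq, map_neg,
      norm_neg] at this
    exact lt_irrefl _ this
  have n1 : Algebra.norm ℤ x ≠ 0 := by rwa [Ne, Algebra.norm_eq_zero_iff]
  have n2 : Algebra.norm ℤ (x + t) ≠ 0 := by rwa [Ne, Algebra.norm_eq_zero_iff]
  rcases lt_or_gt_of_ne n1 with hneg | hpos
  · have : ¬ 0 < Algebra.norm ℤ (x + t) := fun h' ↦ absurd (h2.mp h') (not_lt.mpr hneg.le)
    have hneg' : Algebra.norm ℤ (x + t) < 0 := lt_of_le_of_ne (not_lt.mp this) n2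
    rw [Int.sign_eq_neg_one_of_neg hneg, Int.sign_eq_neg_one_of_neg hneg']
  · rw [Int.sign_eq_one_of_pos hpos, Int.sign_eq_one_of_pos (h2.mpr hpos)]

end Fermat.Agent.Lib.NormL

end
-- ===== PACK-END Lib/NormL/Sign.lean

-- ===== PACK-BEGIN S56/H656/LocOrdP.lean
section






/-!
# Row S56 — leaf LOC-SO, complete (helper656): `locOrdP : H716.LocOrdPStatement`

The frozen layer-2 leaf `LocOrdPStatement` of `S56/H716/SBSpec.lean`: at a place `P | p`, the
classes on `D_P` of the `ad⁰`-cocycles having a strictly ordinary lift with cyclotomic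
determinant lie in a space of dimension `≤ h⁰(D_P, ad⁰ρ̄) + 1`.  Uses KUMMER-P
(`H734.kummerP`).  Single file (sections: dual-number coordinates, structure of a strictly
ordinary lift, inertia at `p` acts non-trivially on `μ_p`, linear algebra, cocycle calculus,
the bound).  Nothing unproved in this file.
-/
/-!
# S56 / LOC-SO (helper656): coordinates on `k[ε] ⊗ V`

Every element of `k[ε] ⊗_k V` is uniquely `1 ⊗ v₀ + ε • (1 ⊗ v₁)`.  We provide the two coordinate
maps `dPi0`, `dPi1`, the inclusion `dIota`, and the formulas for scalar multiplication, base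
changed endomorphisms and `liftEnd` in these coordinates.
-/

set_option autoImplicit false

open scoped TensorProduct

noncomputable section

namespace Fermat.Agent.S56.H656

open Fermat.Agent.S56 Fermat.Agent.S56.H716

section coord

variable {k : Type} [Field k] {V : Type} [AddCommGroup V] [Module k V]

/-- `v ↦ 1 ⊗ v`. -/
def dIota : V →ₗ[k] (DualNumber k ⊗[k] V) := TensorProduct.mk k (DualNumber k) V 1

/-- The constant coordinate of an element of `k[ε] ⊗ V`. -/
def dPi0 : (DualNumber k ⊗[k] V) →ₗ[k] V :=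
  TensorProduct.lift ((LinearMap.lsmul k V).comp (TrivSqZeroExt.fstHom k k k).toLinearMap)

/-- The `ε`-coordinate of an element of `k[ε] ⊗ V`. -/
def dPi1 : (DualNumber k ⊗[k] V) →ₗ[k] V :=
  TensorProduct.lift ((LinearMap.lsmul k V).comp (TrivSqZeroExt.sndHom k k))

@[simp] theorem dIota_apply (v : V) : dIota (k := k) v = (1 : DualNumber k) ⊗ₜ[k] v := rfl

@[simp] theorem dPi0_tmul (a : DualNumber k) (v : V) :
    dPi0 (a ⊗ₜ[k] v) = TrivSqZeroExt.fst a • v := by
  simp [dPi0]

@[simp] theorem dPi1_tmul (a : DualNumber k) (v : V) :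
    dPi1 (a ⊗ₜ[k] v) = TrivSqZeroExt.snd a • v := by
  simp [dPi1]

theorem dPi0_dIota (v : V) : dPi0 (dIota (k := k) v) = v := by simp

theorem dPi1_dIota (v : V) : dPi1 (dIota (k := k) v) = 0 := by simp

theorem dualNumber_eq (a : DualNumber k) :
    a = TrivSqZeroExt.fst a • (1 : DualNumber k) + TrivSqZeroExt.snd a • DualNumber.eps := by
  apply TrivSqZeroExt.ext <;> simp

theorem tmul_eq_coord (a : DualNumber k) (v : V) :
    a ⊗ₜ[k] v = dIota (TrivSqZeroExt.fst a • v) +
      (DualNumber.eps : DualNumber k) • dIota (TrivSqZeroExt.snd a • v) := by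
  have h1 : dIota (k := k) (TrivSqZeroExt.fst a • v) =
      (TrivSqZeroExt.fst a • (1 : DualNumber k)) ⊗ₜ[k] v := by
    rw [dIota_apply, TensorProduct.smul_tmul]
  have h2 : (DualNumber.eps : DualNumber k) • dIota (k := k) (TrivSqZeroExt.snd a • v) =
      (TrivSqZeroExt.snd a • (DualNumber.eps : DualNumber k)) ⊗ₜ[k] v := by
    rw [dIota_apply, TensorProduct.smul_tmul', smul_eq_mul, mul_one, TensorProduct.smul_tmul]
  rw [h1, h2, ← TensorProduct.add_tmul, ← dualNumber_eq a]

/-- Every element is `ι (π₀ w) + ε • ι (π₁ w)`. -/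
theorem eq_coord (w : DualNumber k ⊗[k] V) :
    w = dIota (dPi0 w) + (DualNumber.eps : DualNumber k) • dIota (dPi1 w) := by
  induction w using TensorProduct.induction_on with
  | zero => simp
  | tmul a v => rw [dPi0_tmul, dPi1_tmul]; exact tmul_eq_coord a v
  | add x y hx hy =>
    rw [map_add, map_add, map_add, map_add, _root_.smul_add]
    conv_lhs => rw [hx, hy]
    abel

theorem dPi0_smul (x : DualNumber k) (w : DualNumber k ⊗[k] V) :
    dPi0 (x • w) = TrivSqZeroExt.fst x • dPi0 w := by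
  induction w using TensorProduct.induction_on with
  | zero => simp
  | tmul a v =>
    rw [TensorProduct.smul_tmul', dPi0_tmul, dPi0_tmul, smul_eq_mul, TrivSqZeroExt.fst_mul,
      mul_smul]
  | add x' y hx hy => rw [_root_.smul_add, map_add, map_add, hx, hy, _root_.smul_add]

theorem dPi1_smul (x : DualNumber k) (w : DualNumber k ⊗[k] V) :
    dPi1 (x • w) = TrivSqZeroExt.fst x • dPi1 w + TrivSqZeroExt.snd x • dPi0 w := by
  induction w using TensorProduct.induction_on with
  | zero => simp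
  | tmul a v =>
    rw [TensorProduct.smul_tmul', dPi1_tmul, dPi1_tmul, dPi0_tmul, smul_eq_mul,
      TrivSqZeroExt.snd_mul]
    simp only [smul_eq_mul, MulOpposite.smul_eq_mul_unop, MulOpposite.unop_op, _root_.add_smul,
      mul_smul]
  | add x' y hx hy =>
    rw [_root_.smul_add, map_add, map_add, map_add, hx, hy, _root_.smul_add, _root_.smul_add]
    abel

theorem dPi0_baseChange (f : Module.End k V) (w : DualNumber k ⊗[k] V) :
    dPi0 (f.baseChange (DualNumber k) w) = f (dPi0 w) := by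
  induction w using TensorProduct.induction_on with
  | zero => simp
  | tmul a v => rw [LinearMap.baseChange_tmul, dPi0_tmul, dPi0_tmul, map_smul]
  | add x y hx hy => rw [map_add, map_add, map_add, hx, hy, map_add]

theorem dPi1_baseChange (f : Module.End k V) (w : DualNumber k ⊗[k] V) :
    dPi1 (f.baseChange (DualNumber k) w) = f (dPi1 w) := by
  induction w using TensorProduct.induction_on with
  | zero => simp
  | tmul a v => rw [LinearMap.baseChange_tmul, dPi1_tmul, dPi1_tmul, map_smul]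
  | add x y hx hy => rw [map_add, map_add, map_add, hx, hy, map_add]

theorem coord_ext {w w' : DualNumber k ⊗[k] V} (h0 : dPi0 w = dPi0 w') (h1 : dPi1 w = dPi1 w') :
    w = w' := by
  rw [eq_coord w, eq_coord w', h0, h1]

end coord

section lift

variable {k : Type} [Field k] (ρbar : ResidualGaloisRep k)

theorem dPi0_liftEnd (c : GQ → Module.End k ρbar.V) (σ : GQ)
    (w : DualNumber k ⊗[k] ρbar.V) :
    dPi0 (liftEnd ρbar c σ w) = ρbar.ρ σ (dPi0 w) := by
  unfold liftEnd
  rw [LinearMap.add_apply, LinearMap.smul_apply, map_add, dPi0_smul, dPi0_baseChange,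
    DualNumber.fst_eps, _root_.zero_smul, add_zero]

theorem dPi1_liftEnd (c : GQ → Module.End k ρbar.V) (σ : GQ)
    (w : DualNumber k ⊗[k] ρbar.V) :
    dPi1 (liftEnd ρbar c σ w) = ρbar.ρ σ (dPi1 w) + c σ (ρbar.ρ σ (dPi0 w)) := by
  unfold liftEnd
  rw [LinearMap.add_apply, LinearMap.smul_apply, map_add, dPi1_smul, dPi1_baseChange,
    dPi0_baseChange, DualNumber.fst_eps, DualNumber.snd_eps, _root_.zero_smul, zero_add, _root_.one_smul,
    Module.End.mul_apply]

end lift

end Fermat.Agent.S56.H656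

end

/-!
# S56 / LOC-SO (helper656), part 1: the shape of a strict-ordinary tangent cocycle on `D_P`

Let `ρ'` be a lift of `ρ̄` to the dual numbers `k[ε]` with cocycle `c` (`IsLiftOf ρbar c ρ'`),
with cyclotomic determinant and strict-ordinary at `p` (`p` odd).  For a place `P` over `p` the
strict-ordinary line of `ρ'` has a generator with coordinates `(ℓ₀, ℓ₁)`, `ℓ₀ ≠ 0`, and for every
`σ ∈ D_P` there is `z₀ ∈ k` with `z₀² = 1` such that (with `a` a cyclotomic exponent of `σ`)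

* `ρ̄(σ) ℓ₀ = a z₀ ℓ₀` and `ρ̄(σ) ℓ₁ + c(σ) ρ̄(σ) ℓ₀ = a z₀ ℓ₁`   (NO `ε`-part: rigidity),
* `ρ̄(σ) v − z₀ v = s ℓ₀` and `c(σ) ρ̄(σ) v = s ℓ₁ + t ℓ₀` for every `v`,
* `z₀ = 1` if `σ` is in the inertia group.

This is `locSO_struct`.  The rigidity `z² = 1 ⇒ z ∈ {±1} ⊂ k` uses `DetIsCyclotomic` and `p ≠ 2`.
-/

set_option autoImplicit false

open scoped TensorProduct
open IsLocalRing

noncomputable section

namespace Fermat.Agent.S56.H656

open Fermat.Agent.S56 Fermat.Agent.S56.H716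

section dual

variable {k : Type} [Field k]

theorem fst_eq_zero_of_mem_maximalIdeal {x : DualNumber k}
    (hx : x ∈ maximalIdeal (DualNumber k)) : TrivSqZeroExt.fst x = 0 := by
  by_contra h
  have hu : IsUnit x := TrivSqZeroExt.isUnit_iff_isUnit_fst.mpr (isUnit_iff_ne_zero.mpr h)
  exact (mem_maximalIdeal x).mp hx hu

theorem natCast_dual_eq_zero {p : ℕ} (hp : (p : DualNumber k) ∈ maximalIdeal (DualNumber k)) :
    (p : DualNumber k) = 0 := by
  apply TrivSqZeroExt.ext
  · exact fst_eq_zero_of_mem_maximalIdeal hp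
  · simp

theorem natCast_eq_zero_of_mem {p : ℕ}
    (hp : (p : DualNumber k) ∈ maximalIdeal (DualNumber k)) : (p : k) = 0 := by
  have := fst_eq_zero_of_mem_maximalIdeal hp
  rwa [TrivSqZeroExt.fst_natCast] at this

theorem span_pow_one_eq_bot {p : ℕ} (hp : (p : DualNumber k) ∈ maximalIdeal (DualNumber k)) :
    Ideal.span {(((p ^ 1 : ℕ)) : DualNumber k)} = ⊥ := by
  rw [pow_one, natCast_dual_eq_zero hp, Ideal.span_singleton_eq_bot]

/-- In `k[ε]`, `char k ≠ 2`: `z * z = 1` forces `z` to be a constant `±1`. -/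
theorem snd_eq_zero_of_mul_self_eq_one (h2 : (2 : k) ≠ 0) {z : DualNumber k} (hz : z * z = 1) :
    TrivSqZeroExt.fst z * TrivSqZeroExt.fst z = 1 ∧ TrivSqZeroExt.snd z = 0 := by
  have h0 : TrivSqZeroExt.fst z * TrivSqZeroExt.fst z = 1 := by
    have := congrArg TrivSqZeroExt.fst hz
    simpa using this
  refine ⟨h0, ?_⟩
  have h1 := congrArg TrivSqZeroExt.snd hz
  simp only [TrivSqZeroExt.snd_mul, TrivSqZeroExt.snd_one, smul_eq_mul,
    MulOpposite.smul_eq_mul_unop, MulOpposite.unop_op] at h1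
  have hz0 : TrivSqZeroExt.fst z ≠ 0 := by
    intro h
    rw [h, mul_zero] at h0
    exact zero_ne_one h0
  have h3 : (2 : k) * (TrivSqZeroExt.fst z * TrivSqZeroExt.snd z) = 0 := by
    rw [← h1]; ring
  rcases mul_eq_zero.mp h3 with h | h
  · exact absurd h h2
  · rcases mul_eq_zero.mp h with h | h
    · exact absurd h hz0
    · exact h

end dual

section cyc

variable {k : Type} [Field k]

/-- A cyclotomic exponent is nonzero in characteristic `p`. -/
theorem isCycExp_cast_ne_zero {p : ℕ} (hp : p.Prime) [CharP k p] {σ : GQ} {a : ℕ}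
    (ha : IsCycExp p σ a) : (a : k) ≠ 0 := by
  intro h0
  obtain ⟨ζ, hζ⟩ := Fermat.Agent.S56.H966.exists_primitiveRoot_Qb p hp.ne_zero
  have hdvd : p ∣ a := (CharP.cast_eq_zero_iff k p a).mp h0
  have h1 : σ ζ = 1 := by
    rw [ha ζ hζ.pow_eq_one]
    obtain ⟨b, rfl⟩ := hdvd
    rw [pow_mul, hζ.pow_eq_one, one_pow]
  have h2 : ζ = 1 := by
    have : σ ζ = σ 1 := by rw [h1, _root_.map_one]
    exact σ.injective this
  exact hp.one_lt.ne' (hζ.unique (h2 ▸ IsPrimitiveRoot.one) )

end cyc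

section struct

variable {k : Type} [Field k] (ρbar : ResidualGaloisRep k)

theorem mem_decomposition_of_mem_inertia {P : ValuationSubring Qb} {σ : GQ}
    (hσ : σ ∈ P.inertiaSubgroupIn ℚ) : σ ∈ P.decompositionSubgroup ℚ := by
  obtain ⟨x, -, rfl⟩ := Subgroup.mem_map.mp hσ
  exact x.2

/-- **LOC-SO, part 1** (see the module docstring). -/
theorem locSO_struct (p : ℕ) (hp : p.Prime) (hp2 : p ≠ 2)
    (c : GQ → Module.End k ρbar.V) (ρ' : GaloisRepAdic (DualNumber k))
    (hlift : IsLiftOf ρbar c ρ') (hdet : ρ'.DetIsCyclotomic p) (hso : ρ'.IsStrictOrdinaryAt p)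
    (P : ValuationSubring Qb) (hP : P.LiesOverPrime p) :
    ∃ ℓ₀ ℓ₁ : ρbar.V, ℓ₀ ≠ 0 ∧
      ∀ σ ∈ P.decompositionSubgroup ℚ, ∃ z₀ : k, z₀ * z₀ = 1 ∧
        (∀ a : ℕ, IsCycExp p σ a →
          ρbar.ρ σ ℓ₀ = ((a : k) * z₀) • ℓ₀ ∧
          ρbar.ρ σ ℓ₁ + c σ (ρbar.ρ σ ℓ₀) = ((a : k) * z₀) • ℓ₁) ∧
        (∀ v : ρbar.V, ∃ s t : k, ρbar.ρ σ v - z₀ • v = s • ℓ₀ ∧
          c σ (ρbar.ρ σ v) = s • ℓ₁ + t • ℓ₀) ∧
        (σ ∈ P.inertiaSubgroupIn ℚ → z₀ = 1) := by
  classical
  have hpm := hso.1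
  have hpk : (p : k) = 0 := natCast_eq_zero_of_mem hpm
  have : CharP k p := (CharP.charP_iff_prime_eq_zero hp).mpr hpk
  have h2k : (2 : k) ≠ 0 := by
    intro h
    have h' : ((2 : ℕ) : k) = 0 := by exact_mod_cast h
    have hdvd : p ∣ 2 := (CharP.cast_eq_zero_iff k p 2).mp h'
    exact hp2 ((Nat.prime_dvd_prime_iff_eq hp Nat.prime_two).mp hdvd)
  have hbot := span_pow_one_eq_bot (k := k) hpm
  obtain ⟨L, ⟨b, hLb⟩, -, hI, hchar⟩ := hso.2 P hP
  obtain ⟨e, he⟩ := hlift
  have hb0L : b 0 ∈ L := by rw [hLb]; exact Submodule.mem_span_singleton_self _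
  refine ⟨dPi0 (e (b 0)), dPi1 (e (b 0)), ?_, ?_⟩
  · -- `ℓ₀ ≠ 0`
    intro h0
    have hε : (DualNumber.eps : DualNumber k) • e (b 0) = 0 := by
      apply coord_ext
      · rw [dPi0_smul, h0, _root_.smul_zero, map_zero]
      · rw [dPi1_smul, h0, DualNumber.fst_eps, _root_.zero_smul, _root_.smul_zero, add_zero, map_zero]
    rw [← map_smul, LinearEquiv.map_eq_zero_iff] at hε
    have h1 := congrArg (fun f => b.repr f 0) hε
    simp only [map_smul, Module.Basis.repr_self, Finsupp.smul_apply, Finsupp.single_eq_same,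
      smul_eq_mul, mul_one, map_zero, Finsupp.zero_apply] at h1
    have h2 := congrArg TrivSqZeroExt.snd h1
    simp at h2
  · intro σ hσ
    obtain ⟨x, z, hx, hz, hcyc⟩ := hchar σ hσ
    obtain ⟨a₀, ha₀⟩ := Fermat.Agent.S56.H966.exists_isCycExp p hp.ne_zero σ
    have hcond : ∀ a : ℕ, IsCycExp p σ a → ∀ μ : Qb, μ ^ p ^ 1 = 1 → σ μ = μ ^ a := by
      intro a ha μ hμ
      rw [pow_one] at hμ
      exact ha μ hμ
    -- `x = a z` and `det = a`
    have hxz : ∀ a : ℕ, IsCycExp p σ a → x = (a : DualNumber k) * z := by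
      intro a ha
      have := hcyc 1 a (hcond a ha)
      rw [hbot, Ideal.mem_bot, sub_eq_zero] at this
      exact this
    have hdeta : ∀ a : ℕ, IsCycExp p σ a → LinearMap.det (ρ'.ρ σ) = (a : DualNumber k) := by
      intro a ha
      have := hdet.2 1 σ a (hcond a ha)
      rw [hbot, Ideal.mem_bot, sub_eq_zero] at this
      exact this
    -- the matrix of `ρ'(σ)` in the basis `b`
    obtain ⟨t₁, ht₁⟩ : ∃ t₁ : DualNumber k, ρ'.ρ σ (b 1) - z • b 1 = t₁ • b 0 := by
      have := hz (b 1)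
      rw [hLb, Submodule.mem_span_singleton] at this
      obtain ⟨t, ht⟩ := this
      exact ⟨t, ht.symm⟩
    have hb1 : ρ'.ρ σ (b 1) = z • b 1 + t₁ • b 0 := by
      rw [← ht₁]; abel
    have hdetxz : LinearMap.det (ρ'.ρ σ) = x * z := by
      rw [← LinearMap.det_toMatrix b, Matrix.det_fin_two]
      simp only [LinearMap.toMatrix_apply, hx (b 0) hb0L, hb1, map_smul, map_add,
        Module.Basis.repr_self, Finsupp.smul_apply, Finsupp.add_apply, smul_eq_mul]
      simp
    have hzz : z * z = 1 := by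
      have h1 : (a₀ : DualNumber k) * (z * z) = (a₀ : DualNumber k) := by
        calc (a₀ : DualNumber k) * (z * z) = ((a₀ : DualNumber k) * z) * z := by ring
          _ = x * z := by rw [← hxz a₀ ha₀]
          _ = LinearMap.det (ρ'.ρ σ) := hdetxz.symm
          _ = (a₀ : DualNumber k) := hdeta a₀ ha₀
      have hunit : IsUnit (a₀ : DualNumber k) := by
        rw [TrivSqZeroExt.isUnit_iff_isUnit_fst, TrivSqZeroExt.fst_natCast]
        exact isUnit_iff_ne_zero.mpr (isCycExp_cast_ne_zero hp ha₀)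
      have h2 : (a₀ : DualNumber k) * (z * z) = (a₀ : DualNumber k) * 1 := by rw [h1, mul_one]
      exact hunit.mul_left_cancel h2
    obtain ⟨hz0, hz1⟩ := snd_eq_zero_of_mul_self_eq_one h2k hzz
    have hxfst : ∀ a : ℕ, IsCycExp p σ a → TrivSqZeroExt.fst x = (a : k) * TrivSqZeroExt.fst z := by
      intro a ha
      rw [hxz a ha, TrivSqZeroExt.fst_mul, TrivSqZeroExt.fst_natCast]
    have hxsnd : TrivSqZeroExt.snd x = 0 := by
      rw [hxz a₀ ha₀, TrivSqZeroExt.snd_mul, hz1, TrivSqZeroExt.snd_natCast]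
      simp
    refine ⟨TrivSqZeroExt.fst z, hz0, ?_, ?_, ?_⟩
    · intro a ha
      have hA : liftEnd ρbar c σ (e (b 0)) = x • e (b 0) := by
        rw [← he, hx (b 0) hb0L, map_smul]
      constructor
      · have := congrArg dPi0 hA
        rw [dPi0_liftEnd, dPi0_smul, hxfst a ha] at this
        exact this
      · have := congrArg dPi1 hA
        rw [dPi1_liftEnd, dPi1_smul, hxfst a ha, hxsnd, _root_.zero_smul, add_zero] at this
        exact this
    · intro v
      have hv := hz (e.symm (dIota v))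
      rw [hLb, Submodule.mem_span_singleton] at hv
      obtain ⟨t, ht⟩ := hv
      have hB : liftEnd ρbar c σ (dIota v) - z • dIota v = t • e (b 0) := by
        have := congrArg e ht
        rw [map_smul, map_sub, he, map_smul, LinearEquiv.apply_symm_apply] at this
        exact this.symm
      refine ⟨TrivSqZeroExt.fst t, TrivSqZeroExt.snd t, ?_, ?_⟩
      · have := congrArg dPi0 hB
        rw [map_sub, dPi0_liftEnd, dPi0_smul, dPi0_smul, dPi0_dIota] at this
        exact this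
      · have := congrArg dPi1 hB
        rw [map_sub, dPi1_liftEnd, dPi1_smul, dPi1_smul, dPi0_dIota, dPi1_dIota, hz1,
          map_zero, zero_add, _root_.smul_zero, _root_.zero_smul, add_zero, sub_zero] at this
        exact this
    · intro hσI
      -- on inertia `(z - 1) • b 1 ∈ L`, hence `z = 1`
      have h1 := hI σ hσI (b 1)
      have h2 := hz (b 1)
      have h3 : (z - 1) • b 1 ∈ L := by
        have : (z - 1) • b 1 = (ρ'.ρ σ (b 1) - b 1) - (ρ'.ρ σ (b 1) - z • b 1) := by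
          rw [sub_smul, _root_.one_smul]; abel
        rw [this]
        exact L.sub_mem h1 h2
      rw [hLb, Submodule.mem_span_singleton] at h3
      obtain ⟨t, ht⟩ := h3
      have h4 := congrArg (fun f => b.repr f 1) ht
      simp only [map_smul, Module.Basis.repr_self, Finsupp.smul_apply, smul_eq_mul] at h4
      have h5 : z - 1 = 0 := by
        have e1 : (Finsupp.single (0 : Fin 2) (1 : DualNumber k)) 1 = 0 := by
          rw [Finsupp.single_apply]; simp
        have e2 : (Finsupp.single (1 : Fin 2) (1 : DualNumber k)) 1 = 1 := by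
          rw [Finsupp.single_apply]; simp
        rw [e1, e2, mul_zero, mul_one] at h4
        exact h4.symm
      have h6 : z = 1 := sub_eq_zero.mp h5
      rw [h6, TrivSqZeroExt.fst_one]

end struct

end Fermat.Agent.S56.H656

end

/-!
# S56 / LOC-SO (helper656): inertia at `p` acts non-trivially on `μ_p` (`p` odd)

`exists_inertia_isCycExp_ne_one`: for a place `P` of `ℚ̄` over an odd prime `p` there is `σ` in the
inertia group of `P` with a cyclotomic exponent `a` on `μ_p` such that `a ≠ 1` in characteristic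
`p`.  (Total ramification of `ℚ(ζ_p)` at `p`, landed `S14/H894/TotRam`.)
-/

set_option autoImplicit false

noncomputable section

namespace Fermat.Agent.S56.H656

open Fermat.Agent.S56

/-- For every `g ∈ G_ℚ` there is `σ` in the inertia group of `P` (over `p`) with `σ ζ = g ζ`. -/
theorem exists_inertia_apply_eq {p : ℕ} (hp : p.Prime) (P : ValuationSubring Qb)
    (hP : P.LiesOverPrime p) {ζ : Qb} (hζ : IsPrimitiveRoot ζ p) (g : GQ) :
    ∃ σ ∈ P.inertiaSubgroupIn ℚ, σ ζ = g ζ := by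
  have hconj : ∀ τ : GQ, (∀ x ∈ (⊥ : IntermediateField ℚ Qb), τ x = x) →
      P.valuation (τ (ζ - 1)) = P.valuation (ζ - 1) := by
    intro τ _
    have hτζ : IsPrimitiveRoot (τ ζ) p := hζ.map_of_injective τ.injective
    rw [map_sub, _root_.map_one]
    exact Fermat.Agent.S14.H894.valuation_sub_one_eq_of_mem_primitiveRoots P p hp ζ hζ
      ((mem_primitiveRoots hp.pos).2 hτζ)
  have hbot : ∀ x ∈ (⊥ : IntermediateField ℚ Qb), g x = x := by
    intro x hx
    obtain ⟨q, rfl⟩ := IntermediateField.mem_bot.1 hx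
    exact g.commutes q
  obtain ⟨σ, hσ, -, hσγ⟩ := Fermat.Agent.S14.H894.exists_inertia_eq_on_adjoin P p hp hP ⊥
    (ζ - 1) (Fermat.Agent.S14.H894.cycloShift p) (Fermat.Agent.S14.H894.cycloShift_monic p)
    (Fermat.Agent.S14.H894.cycloShift_aeval p hp ζ hζ)
    (Fermat.Agent.S14.H894.cyclo_indep P p hp hP ζ hζ) hconj g hbot
  refine ⟨σ, hσ, ?_⟩
  rw [map_sub, map_sub, _root_.map_one, _root_.map_one] at hσγ
  exact sub_left_injective hσγ

/-- Some element of `G_ℚ` moves a primitive `p`-th root of unity, `p ≥ 3`. -/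
theorem exists_apply_ne_of_primitiveRoot {p : ℕ} (hp : p.Prime) (hp2 : p ≠ 2) {ζ : Qb}
    (hζ : IsPrimitiveRoot ζ p) : ∃ g : GQ, g ζ ≠ ζ := by
  have hnot : ζ ∉ (⊥ : IntermediateField ℚ Qb) := by
    intro hmem
    obtain ⟨q, hq⟩ := IntermediateField.mem_bot.1 hmem
    have hqp : q ^ p = 1 := by
      have h1 : (algebraMap ℚ Qb q) ^ p = 1 := by rw [hq, hζ.pow_eq_one]
      rw [← _root_.map_pow] at h1
      exact (algebraMap ℚ Qb).injective (by rw [h1, _root_.map_one])
    have hodd : Odd p := hp.odd_of_ne_two hp2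
    have hq1 : q = 1 := hodd.strictMono_pow.injective (by simpa using hqp)
    have hζ1 : ζ = 1 := by rw [← hq, hq1, _root_.map_one]
    exact hp.one_lt.ne' (hζ.unique (hζ1 ▸ IsPrimitiveRoot.one))
  obtain ⟨τ, -, hτ⟩ := Fermat.Agent.S14.H894.exists_fixing_ne_of_not_mem ⊥ ζ hnot
  exact ⟨τ, hτ⟩

/-- Inertia at `p` acts non-trivially on `μ_p` for `p` odd. -/
theorem exists_inertia_isCycExp_ne_one {p : ℕ} (hp : p.Prime) (hp2 : p ≠ 2)
    (k : Type) [Field k] [CharP k p] (P : ValuationSubring Qb) (hP : P.LiesOverPrime p) :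
    ∃ σ ∈ P.inertiaSubgroupIn ℚ, ∃ a : ℕ, IsCycExp p σ a ∧ (a : k) ≠ 1 := by
  obtain ⟨ζ, hζ⟩ := Fermat.Agent.S56.H966.exists_primitiveRoot_Qb p hp.ne_zero
  obtain ⟨g, hg⟩ := exists_apply_ne_of_primitiveRoot hp hp2 hζ
  obtain ⟨σ, hσ, hσζ⟩ := exists_inertia_apply_eq hp P hP hζ g
  obtain ⟨a, ha⟩ := Fermat.Agent.S56.H966.exists_isCycExp p hp.ne_zero σ
  refine ⟨σ, hσ, a, ha, ?_⟩
  intro h1
  apply hg
  rw [← hσζ, ha ζ hζ.pow_eq_one]
  have h2 : ((a : ℕ) : k) = ((1 : ℕ) : k) := by rw [h1, Nat.cast_one]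
  have h3 : a ≡ 1 [MOD p] := (CharP.natCast_eq_natCast k p).mp h2
  have hfin : IsOfFinOrder ζ :=
    isOfFinOrder_iff_pow_eq_one.mpr ⟨p, hp.pos, hζ.pow_eq_one⟩
  have h4 : ζ ^ a = ζ ^ 1 := by
    rw [hfin.pow_eq_pow_iff_modEq, ← hζ.eq_orderOf]
    exact h3
  rw [h4, pow_one]

end Fermat.Agent.S56.H656

end

/-!
# S56 / LOC-SO (helper656): the linear algebra (no Galois theory)

`V` is a plane over a field `k` with a basis `B`; `ℓ₀ = B 0` spans the "ordinary line".
* `nil0 B`  — the nilpotent `n₀ : v ↦ g(v) ℓ₀` (`g = B.coord 1`), a generator of `Hom(V/L, L)`;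
* `proj0 B` — the projector `d : v ↦ f(v) ℓ₀` (`f = B.coord 0`).
-/

set_option autoImplicit false

noncomputable section

namespace Fermat.Agent.S56.H656

variable {k : Type} [Field k] {V : Type} [AddCommGroup V] [Module k V]

/-- `n₀ : v ↦ (B.coord 1 v) • B 0`. -/
def nil0 (B : Module.Basis (Fin 2) k V) : Module.End k V := (B.coord 1).smulRight (B 0)

/-- `d : v ↦ (B.coord 0 v) • B 0`. -/
def proj0 (B : Module.Basis (Fin 2) k V) : Module.End k V := (B.coord 0).smulRight (B 0)

variable (B : Module.Basis (Fin 2) k V)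

@[simp] theorem nil0_apply (u : V) : nil0 B u = B.coord 1 u • B 0 := rfl

@[simp] theorem proj0_apply (u : V) : proj0 B u = B.coord 0 u • B 0 := rfl

theorem coord0_self : B.coord 0 (B 0) = 1 := by simp

theorem coord1_self0 : B.coord 1 (B 0) = 0 := by
  rw [Module.Basis.coord_apply, Module.Basis.repr_self, Finsupp.single_apply]; simp

theorem coord0_self1 : B.coord 0 (B 1) = 0 := by
  rw [Module.Basis.coord_apply, Module.Basis.repr_self, Finsupp.single_apply]; simp

theorem coord1_self : B.coord 1 (B 1) = 1 := by simp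

theorem basis0_ne_zero : B 0 ≠ 0 := B.ne_zero 0

theorem expand (u : V) : u = B.coord 0 u • B 0 + B.coord 1 u • B 1 := by
  have h := B.sum_repr u
  rw [Fin.sum_univ_two] at h
  exact h.symm

theorem smul_basis0_inj {s t : k} (h : s • B 0 = t • B 0) : s = t := by
  have := congrArg (B.coord 0) h
  simpa using this

/-- An endomorphism killing `ℓ₀` with image in `k ℓ₀` is a multiple of `n₀`. -/
theorem eq_smul_nil0 (C : Module.End k V) (h0 : C (B 0) = 0)
    (h1 : ∀ u, ∃ t : k, C u = t • B 0) : C = B.coord 0 (C (B 1)) • nil0 B := by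
  apply LinearMap.ext
  intro u
  obtain ⟨t, ht⟩ := h1 (B 1)
  conv_lhs => rw [expand B u]
  rw [map_add, map_smul, map_smul, h0, _root_.smul_zero, zero_add, LinearMap.smul_apply, nil0_apply,
    ht, map_smul, coord0_self, smul_eq_mul, mul_one, smul_smul, smul_smul, mul_comm]

theorem coord0_smul_nil0_basis1 (κ : k) : B.coord 0 ((κ • nil0 B) (B 1)) = κ := by
  rw [LinearMap.smul_apply, nil0_apply, coord1_self, _root_.one_smul, map_smul, coord0_self,
    smul_eq_mul, mul_one]

theorem nil0_ne_zero : nil0 B ≠ 0 := by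
  intro h
  have := coord0_smul_nil0_basis1 B 1
  rw [_root_.one_smul, h, LinearMap.zero_apply, map_zero] at this
  exact zero_ne_one this

theorem smul_nil0_inj {s t : k} (h : s • nil0 B = t • nil0 B) : s = t := by
  rw [← coord0_smul_nil0_basis1 B s, h, coord0_smul_nil0_basis1]

section conj

variable (R Rinv : Module.End k V) (hR : R * Rinv = 1) (hR' : Rinv * R = 1)
  (x₀ z₀ : k) (hzz : z₀ * z₀ = 1) (h1 : R (B 0) = x₀ • B 0)
  (h3 : ∀ v, ∃ s : k, R v - z₀ • v = s • B 0)

include hR in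
theorem apply_inv_apply' (u : V) : R (Rinv u) = u := by
  have := congrArg (fun F : Module.End k V => F u) hR
  simpa using this

include hR' in
theorem inv_apply_apply' (u : V) : Rinv (R u) = u := by
  have := congrArg (fun F : Module.End k V => F u) hR'
  simpa using this

include hR hzz h3 in
theorem coord1_inv (u : V) : B.coord 1 (Rinv u) = z₀ * B.coord 1 u := by
  obtain ⟨s, hs⟩ := h3 (Rinv u)
  rw [apply_inv_apply' R Rinv hR] at hs
  have := congrArg (B.coord 1) hs
  rw [map_sub, map_smul, map_smul, coord1_self0, smul_eq_mul, smul_eq_mul, mul_zero,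
    sub_eq_zero] at this
  rw [this, ← mul_assoc, hzz, one_mul]

include hR hzz h1 h3 in
/-- `R n₀ R⁻¹ = x₀ z₀ n₀`. -/
theorem conj_nil0 : R * nil0 B * Rinv = (x₀ * z₀) • nil0 B := by
  apply LinearMap.ext
  intro u
  rw [Module.End.mul_apply, Module.End.mul_apply, nil0_apply, map_smul, h1,
    coord1_inv B R Rinv hR z₀ hzz h3, LinearMap.smul_apply, nil0_apply, smul_smul, smul_smul]
  congr 1
  ring

include hR' h1 in
theorem inv_basis0 (hx₀ : x₀ ≠ 0) : Rinv (B 0) = x₀⁻¹ • B 0 := by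
  have h : Rinv (R (B 0)) = B 0 := inv_apply_apply' R Rinv hR' _
  rw [h1, map_smul] at h
  calc Rinv (B 0) = x₀⁻¹ • (x₀ • Rinv (B 0)) := by
        rw [smul_smul, inv_mul_cancel₀ hx₀, _root_.one_smul]
    _ = x₀⁻¹ • B 0 := by rw [h]

include hR' h1 in
/-- `R d R⁻¹ − d` kills `ℓ₀`. -/
theorem conj_proj0_basis0 (hx₀ : x₀ ≠ 0) : (R * proj0 B * Rinv - proj0 B) (B 0) = 0 := by
  have e0 : B.coord 0 (x₀⁻¹ • B 0) = x₀⁻¹ := by
    rw [map_smul, coord0_self, smul_eq_mul, mul_one]
  have e1 : (R * proj0 B * Rinv) (B 0) = B 0 := by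
    rw [Module.End.mul_apply, Module.End.mul_apply, inv_basis0 B R Rinv hR' x₀ h1 hx₀,
      proj0_apply, e0, map_smul, h1, smul_smul, inv_mul_cancel₀ hx₀, _root_.one_smul]
  have e2 : proj0 B (B 0) = B 0 := by rw [proj0_apply, coord0_self, _root_.one_smul]
  rw [LinearMap.sub_apply, e1, e2, sub_self]

include h1 in
/-- `R d R⁻¹ − d` has image in `k ℓ₀`. -/
theorem conj_proj0_mem (u : V) : ∃ t : k, (R * proj0 B * Rinv - proj0 B) u = t • B 0 := by
  refine ⟨B.coord 0 (Rinv u) * x₀ - B.coord 0 u, ?_⟩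
  rw [LinearMap.sub_apply, Module.End.mul_apply, Module.End.mul_apply, proj0_apply, proj0_apply,
    map_smul, h1, smul_smul, sub_smul]

end conj

section cprime

variable (R Rinv C : Module.End k V) (hR : R * Rinv = 1) (hR' : Rinv * R = 1)
  (ℓ₁ : V) (x₀ z₀ : k) (hx₀ : x₀ ≠ 0)
  (h1 : R (B 0) = x₀ • B 0) (h2 : R ℓ₁ + C (R (B 0)) = x₀ • ℓ₁)
  (h3 : ∀ v, ∃ s t : k, R v - z₀ • v = s • B 0 ∧ C (R v) = s • ℓ₁ + t • B 0)

/-- The correcting endomorphism `m : v ↦ f(v) ℓ₁`. -/
def corr (ℓ₁ : V) : Module.End k V := (B.coord 0).smulRight ℓ₁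

@[simp] theorem corr_apply (u : V) : corr B ℓ₁ u = B.coord 0 u • ℓ₁ := rfl

include hR' hx₀ h1 h2 in
theorem cprime_basis0 : (C + (R * corr B ℓ₁ * Rinv - corr B ℓ₁)) (B 0) = 0 := by
  have hRl : R ℓ₁ = x₀ • ℓ₁ - x₀ • C (B 0) := by
    rw [h1, map_smul] at h2
    rw [← h2]; abel
  have e0 : B.coord 0 (x₀⁻¹ • B 0) = x₀⁻¹ := by
    rw [map_smul, coord0_self, smul_eq_mul, mul_one]
  have e1 : (R * corr B ℓ₁ * Rinv) (B 0) = ℓ₁ - C (B 0) := by
    rw [Module.End.mul_apply, Module.End.mul_apply, inv_basis0 B R Rinv hR' x₀ h1 hx₀,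
      corr_apply, e0, map_smul, hRl, smul_sub, smul_smul, smul_smul, inv_mul_cancel₀ hx₀,
      _root_.one_smul, _root_.one_smul]
  have e2 : corr B ℓ₁ (B 0) = ℓ₁ := by rw [corr_apply, coord0_self, _root_.one_smul]
  rw [LinearMap.add_apply, LinearMap.sub_apply, e1, e2]
  abel

include hR h1 h2 h3 in
theorem cprime_mem (u : V) : ∃ t : k, (C + (R * corr B ℓ₁ * Rinv - corr B ℓ₁)) u = t • B 0 := by
  obtain ⟨s, t, hs, ht⟩ := h3 (Rinv u)
  rw [apply_inv_apply' R Rinv hR] at hs ht
  obtain ⟨s'', t'', hs'', ht''⟩ := h3 (B 0)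
  have hs2 : s'' = x₀ - z₀ := by
    rw [h1, ← sub_smul] at hs''
    exact (smul_basis0_inj B hs'').symm
  have hRl : R ℓ₁ = z₀ • ℓ₁ - t'' • B 0 := by
    have : R ℓ₁ = x₀ • ℓ₁ - C (R (B 0)) := by rw [← h2]; abel
    rw [this, ht'', hs2, sub_smul]; abel
  have hf : B.coord 0 u - z₀ * B.coord 0 (Rinv u) = s := by
    have := congrArg (B.coord 0) hs
    rw [map_sub, map_smul, map_smul, coord0_self, smul_eq_mul, smul_eq_mul, mul_one] at this
    exact this
  refine ⟨t - B.coord 0 (Rinv u) * t'', ?_⟩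
  rw [LinearMap.add_apply, LinearMap.sub_apply, Module.End.mul_apply, Module.End.mul_apply,
    corr_apply, corr_apply, map_smul, hRl, ht, ← hf]
  module

end cprime

section traces

variable [Module.Finite k V]

theorem trace_nil0 : LinearMap.trace k V (nil0 B) = 0 := by
  rw [nil0, LinearMap.trace_smulRight, coord1_self0]

theorem trace_proj0 : LinearMap.trace k V (proj0 B) = 1 := by
  rw [proj0, LinearMap.trace_smulRight, coord0_self]

omit [Module.Finite k V] in
theorem finrank_eq_two_of_basis (B' : Module.Basis (Fin 2) k V) : Module.finrank k V = 2 := by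
  rw [Module.finrank_eq_card_basis B', Fintype.card_fin]

omit [Module.Finite k V] in
theorem trace_conj_sub (R Rinv m : Module.End k V) (hR' : Rinv * R = 1) :
    LinearMap.trace k V (R * m * Rinv - m) = 0 := by
  rw [map_sub, LinearMap.trace_mul_comm, ← mul_assoc, hR', one_mul, sub_self]

end traces

end Fermat.Agent.S56.H656

end

/-!
# S56 / LOC-SO (helper656): cocycle calculus on `D_P` relative to the ordinary line

* `IsSOLine`, `IsSOData`: the data produced by `locSO_struct`; uniqueness of the line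
  (`IsSOLine.unique`, uses that inertia at `p` acts non-trivially on `μ_p`).
* `isAdCocycle_cob`, `IsAdCocycle.add`: coboundaries and sums are cocycles of finite level.
* `kappa_props`: an `ad⁰`-cocycle with values in `Hom(V/L, L)` on `D_P` is `κ • n₀` with `κ` an
  `ω`-twisted `k`-valued cocycle on `D_P` of (global) finite level.
-/

set_option autoImplicit false

open IsLocalRing

noncomputable section

namespace Fermat.Agent.S56.H656

open Fermat.Agent.S56 Fermat.Agent.S56.H716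

section line

variable {k : Type} [Field k] (ρbar : ResidualGaloisRep k) (p : ℕ) (P : ValuationSubring Qb)

/-- The `c`-independent part of the strict-ordinary data: `ℓ₀` spans a `D_P`-stable line on
which `σ` acts by `ω(σ) z₀(σ)`, `z₀(σ) = ±1` is the action on the quotient, inertia acts trivially
on the quotient. -/
def IsSOLine (ℓ₀ : ρbar.V) : Prop :=
  ℓ₀ ≠ 0 ∧ ∀ σ ∈ P.decompositionSubgroup ℚ, ∃ z₀ : k, z₀ * z₀ = 1 ∧
    (∀ a : ℕ, IsCycExp p σ a → ρbar.ρ σ ℓ₀ = ((a : k) * z₀) • ℓ₀) ∧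
    (∀ v : ρbar.V, ∃ s : k, ρbar.ρ σ v - z₀ • v = s • ℓ₀) ∧
    (σ ∈ P.inertiaSubgroupIn ℚ → z₀ = 1)

/-- The full strict-ordinary data of a tangent cocycle `c` (output of `locSO_struct`). -/
def IsSOData (c : GQ → Module.End k ρbar.V) (ℓ₀ ℓ₁ : ρbar.V) : Prop :=
  ℓ₀ ≠ 0 ∧ ∀ σ ∈ P.decompositionSubgroup ℚ, ∃ z₀ : k, z₀ * z₀ = 1 ∧
    (∀ a : ℕ, IsCycExp p σ a →
      ρbar.ρ σ ℓ₀ = ((a : k) * z₀) • ℓ₀ ∧
      ρbar.ρ σ ℓ₁ + c σ (ρbar.ρ σ ℓ₀) = ((a : k) * z₀) • ℓ₁) ∧
    (∀ v : ρbar.V, ∃ s t : k, ρbar.ρ σ v - z₀ • v = s • ℓ₀ ∧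
      c σ (ρbar.ρ σ v) = s • ℓ₁ + t • ℓ₀) ∧
    (σ ∈ P.inertiaSubgroupIn ℚ → z₀ = 1)

variable {ρbar p P}

theorem IsSOData.isSOLine {c : GQ → Module.End k ρbar.V} {ℓ₀ ℓ₁ : ρbar.V}
    (h : IsSOData ρbar p P c ℓ₀ ℓ₁) : IsSOLine ρbar p P ℓ₀ := by
  refine ⟨h.1, fun σ hσ => ?_⟩
  obtain ⟨z₀, hzz, ha, hv, hI⟩ := h.2 σ hσ
  refine ⟨z₀, hzz, fun a hcyc => (ha a hcyc).1, fun v => ?_, hI⟩
  obtain ⟨s, t, hs, -⟩ := hv v
  exact ⟨s, hs⟩

theorem IsSOData.smul {c : GQ → Module.End k ρbar.V} {ℓ₀ ℓ₁ : ρbar.V}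
    (h : IsSOData ρbar p P c ℓ₀ ℓ₁) {r : k} (hr : r ≠ 0) :
    IsSOData ρbar p P c (r • ℓ₀) (r • ℓ₁) := by
  refine ⟨smul_ne_zero hr h.1, fun σ hσ => ?_⟩
  obtain ⟨z₀, hzz, ha, hv, hI⟩ := h.2 σ hσ
  refine ⟨z₀, hzz, fun a hcyc => ?_, fun v => ?_, hI⟩
  · obtain ⟨h1, h2⟩ := ha a hcyc
    constructor
    · rw [map_smul, h1, smul_comm]
    · rw [map_smul, map_smul, map_smul, ← _root_.smul_add, h2, smul_comm]
  · obtain ⟨s, t, hs, ht⟩ := hv v
    refine ⟨s * r⁻¹, t * r⁻¹, ?_, ?_⟩
    · rw [hs, smul_smul, mul_assoc, inv_mul_cancel₀ hr, mul_one]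
    · rw [ht, smul_smul, smul_smul, mul_assoc, mul_assoc, inv_mul_cancel₀ hr, mul_one, mul_one]

/-- The ordinary line is unique (`p` odd). -/
theorem IsSOLine.unique [CharP k p] (hp : p.Prime) (hp2 : p ≠ 2) (hP : P.LiesOverPrime p)
    {ℓ₀ ℓ₀' : ρbar.V} (h : IsSOLine ρbar p P ℓ₀) (h' : IsSOLine ρbar p P ℓ₀') :
    ∃ r : k, r ≠ 0 ∧ ℓ₀' = r • ℓ₀ := by
  obtain ⟨σ, hσI, a, ha, ha1⟩ := exists_inertia_isCycExp_ne_one hp hp2 k P hP
  have hσD := mem_decomposition_of_mem_inertia hσI
  obtain ⟨z₀, -, -, hv, hI⟩ := h.2 σ hσD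
  obtain ⟨z₀', -, hcyc', -, hI'⟩ := h'.2 σ hσD
  have hz : z₀ = 1 := hI hσI
  have hz' : z₀' = 1 := hI' hσI
  obtain ⟨s, hs⟩ := hv ℓ₀'
  rw [hcyc' a ha, hz, hz', mul_one, _root_.one_smul] at hs
  have ha1' : (a : k) - 1 ≠ 0 := sub_ne_zero.mpr ha1
  have hs' : ((a : k) - 1) • ℓ₀' = s • ℓ₀ := by rw [sub_smul, _root_.one_smul]; exact hs
  have hℓ : ℓ₀' = (((a : k) - 1)⁻¹ * s) • ℓ₀ := by
    rw [mul_smul, ← hs', smul_smul, inv_mul_cancel₀ ha1', _root_.one_smul]
  refine ⟨((a : k) - 1)⁻¹ * s, ?_, hℓ⟩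
  intro h0
  rw [h0, _root_.zero_smul] at hℓ
  exact h'.1 hℓ

end line

section cocycles

variable {k : Type} [Field k] (ρbar : ResidualGaloisRep k)

theorem rho_mul_inv' (σ : GQ) : ρbar.ρ σ * ρbar.ρ σ⁻¹ = 1 := by
  rw [← _root_.map_mul, mul_inv_cancel, _root_.map_one]

theorem rho_inv_mul' (σ : GQ) : ρbar.ρ σ⁻¹ * ρbar.ρ σ = 1 := by
  rw [← _root_.map_mul, inv_mul_cancel, _root_.map_one]

/-- Coboundaries are cocycles of finite level. -/
theorem isAdCocycle_cob (m : Module.End k ρbar.V) :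
    IsAdCocycle ρbar (fun σ => ρbar.ρ σ * m * ρbar.ρ σ⁻¹ - m) where
  trace_eq_zero σ := trace_conj_sub _ _ m (rho_inv_mul' ρbar σ)
  map_mul σ τ := by
    simp only [_root_.map_mul, mul_inv_rev, mul_sub, sub_mul, mul_assoc]
    abel
  level := by
    obtain ⟨L, hL, h1⟩ := ρbar.factorsThroughFiniteLevel
    refine ⟨L, hL, fun σ τ hτ => ?_⟩
    have hτ1 : ρbar.ρ τ = 1 := h1 τ hτ
    have hτi : ρbar.ρ τ⁻¹ = 1 := by
      apply h1
      intro x hx
      have := hτ x hx
      calc τ⁻¹ x = τ⁻¹ (τ x) := by rw [this]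
        _ = x := by
          show (τ⁻¹ * τ) x = x
          rw [inv_mul_cancel]; rfl
    show ρbar.ρ (σ * τ) * m * ρbar.ρ (σ * τ)⁻¹ - m = ρbar.ρ σ * m * ρbar.ρ σ⁻¹ - m
    rw [mul_inv_rev, _root_.map_mul, _root_.map_mul, hτ1, hτi, mul_one, one_mul]

variable {ρbar}

theorem IsAdCocycle.add' {c₁ c₂ : GQ → Module.End k ρbar.V} (h₁ : IsAdCocycle ρbar c₁)
    (h₂ : IsAdCocycle ρbar c₂) : IsAdCocycle ρbar (fun σ => c₁ σ + c₂ σ) where
  trace_eq_zero σ := by rw [map_add, h₁.trace_eq_zero, h₂.trace_eq_zero, add_zero]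
  map_mul σ τ := by
    rw [h₁.map_mul, h₂.map_mul, mul_add, add_mul]
    abel
  level := by
    obtain ⟨L₁, hL₁, h1⟩ := h₁.level
    obtain ⟨L₂, hL₂, h2⟩ := h₂.level
    have := hL₁
    have := hL₂
    refine ⟨L₁ ⊔ L₂, IntermediateField.finiteDimensional_sup L₁ L₂, fun σ τ hτ => ?_⟩
    rw [h1 σ τ fun x hx => hτ x ((le_sup_left : L₁ ≤ L₁ ⊔ L₂) hx),
      h2 σ τ fun x hx => hτ x ((le_sup_right : L₂ ≤ L₁ ⊔ L₂) hx)]

end cocycles

section kappa

variable {k : Type} [Field k] {ρbar : ResidualGaloisRep k} {p : ℕ} {P : ValuationSubring Qb}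
  (B : Module.Basis (Fin 2) k ρbar.V)

/-- On `D_P`, conjugation by `ρ̄(σ)` multiplies `n₀` by the cyclotomic character. -/
theorem conj_nil0_of_line (hline : IsSOLine ρbar p P (B 0)) {σ : GQ}
    (hσ : σ ∈ P.decompositionSubgroup ℚ) {a : ℕ} (ha : IsCycExp p σ a) :
    ρbar.ρ σ * nil0 B * ρbar.ρ σ⁻¹ = (a : k) • nil0 B := by
  obtain ⟨z₀, hzz, hcyc, hv, -⟩ := hline.2 σ hσ
  rw [conj_nil0 B (ρbar.ρ σ) (ρbar.ρ σ⁻¹) (rho_mul_inv' ρbar σ) ((a : k) * z₀) z₀ hzz
    (hcyc a ha) hv, mul_assoc, hzz, mul_one]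

/-- An `ad⁰`-cocycle with values in `Hom(V/L, L)` on `D_P` is `κ • n₀`, `κ` an `ω`-twisted cocycle
on `D_P` of global finite level. -/
theorem kappa_props (hline : IsSOLine ρbar p P (B 0)) {c' : GQ → Module.End k ρbar.V}
    (hc' : IsAdCocycle ρbar c')
    (hval : ∀ σ ∈ P.decompositionSubgroup ℚ, c' σ (B 0) = 0 ∧ ∀ u, ∃ t : k, c' σ u = t • B 0) :
    (∀ σ ∈ P.decompositionSubgroup ℚ, c' σ = B.coord 0 (c' σ (B 1)) • nil0 B) ∧
    (∀ σ ∈ P.decompositionSubgroup ℚ, ∀ τ ∈ P.decompositionSubgroup ℚ, ∀ a : ℕ,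
      IsCycExp p σ a →
        B.coord 0 (c' (σ * τ) (B 1)) = B.coord 0 (c' σ (B 1)) + (a : k) * B.coord 0 (c' τ (B 1))) ∧
    (∃ L : IntermediateField ℚ Qb, FiniteDimensional ℚ L ∧
      ∀ σ τ : GQ, (∀ x ∈ L, τ x = x) →
        B.coord 0 (c' (σ * τ) (B 1)) = B.coord 0 (c' σ (B 1))) := by
  have h1 : ∀ σ ∈ P.decompositionSubgroup ℚ, c' σ = B.coord 0 (c' σ (B 1)) • nil0 B :=
    fun σ hσ => eq_smul_nil0 B (c' σ) (hval σ hσ).1 (hval σ hσ).2
  refine ⟨h1, ?_, ?_⟩
  · intro σ hσ τ hτ a ha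
    have e1 : c' (σ * τ) = c' σ + ρbar.ρ σ * c' τ * ρbar.ρ σ⁻¹ := hc'.map_mul σ τ
    have e2 : ρbar.ρ σ * c' τ * ρbar.ρ σ⁻¹ =
        (B.coord 0 (c' τ (B 1)) * (a : k)) • nil0 B := by
      conv_lhs => rw [h1 τ hτ]
      rw [mul_smul_comm, smul_mul_assoc, conj_nil0_of_line B hline hσ ha, smul_smul]
    have e3 : c' (σ * τ) =
        (B.coord 0 (c' σ (B 1)) + (a : k) * B.coord 0 (c' τ (B 1))) • nil0 B := by
      rw [e1, e2, _root_.add_smul, mul_comm]
      congr 1
      exact h1 σ hσ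
    rw [e3, coord0_smul_nil0_basis1]
  · obtain ⟨L, hL, h⟩ := hc'.level
    exact ⟨L, hL, fun σ τ hτ => by rw [h σ τ hτ]⟩

end kappa

end Fermat.Agent.S56.H656

end

/-!
# S56 / LOC-SO (helper656): the local tangent bound at `p`, strict-ordinary condition

`locSO_of_kummerP : KummerPStatement → LocSOStatement`.

Every strict-ordinary tangent cocycle is, on `D_P`, cohomologous to `κ • n₀` with `κ` an
`ω`-twisted cocycle (`LocSOStruct`, `LocSOCoc`); by KUMMER-P these span a space of dimension `≤ 2`.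
If `H⁰(D_P, ad⁰ρ̄) = 0` the coboundary of the projector onto the ordinary line is a nonzero class
of this type which dies in `ad⁰`, so the span has dimension `≤ 1`.
-/

set_option autoImplicit false

open IsLocalRing

noncomputable section

namespace Fermat.Agent.S56.H656

open Fermat.Agent.S56 Fermat.Agent.S56.H716

section aux

variable {k : Type} [Field k] {W : Type} [AddCommGroup W] [Module k W]

theorem finrank_span_pair_le (t₁ t₂ : W) :
    Module.finrank k (Submodule.span k ({t₁, t₂} : Set W)) ≤ 2 := by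
  classical
  have h := finrank_span_finset_le_card (R := k) ({t₁, t₂} : Finset W)
  have h2 : ({t₁, t₂} : Finset W).card ≤ 2 := Finset.card_le_two
  have : ((({t₁, t₂} : Finset W) : Set W)) = ({t₁, t₂} : Set W) := by simp
  rw [this] at h
  exact h.trans h2

theorem finrank_span_single_le (t₁ : W) :
    Module.finrank k (Submodule.span k ({t₁} : Set W)) ≤ 1 := by
  classical
  have h := finrank_span_finset_le_card (R := k) ({t₁} : Finset W)
  have h2 : ({t₁} : Finset W).card ≤ 1 := by simp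
  have : ((({t₁} : Finset W) : Set W)) = ({t₁} : Set W) := by simp
  rw [this] at h
  exact h.trans h2

end aux

section main

variable {k : Type} [Field k] {ρbar : ResidualGaloisRep k} {p : ℕ} {P : ValuationSubring Qb}
  (B : Module.Basis (Fin 2) k ρbar.V)

/-- The coboundary of `m' • n₀` on `D_P`. -/
theorem cob_smul_nil0 (hline : IsSOLine ρbar p P (B 0)) {σ : GQ}
    (hσ : σ ∈ P.decompositionSubgroup ℚ) {a : ℕ} (ha : IsCycExp p σ a) (m' : k) :
    ρbar.ρ σ * (m' • nil0 B) * ρbar.ρ σ⁻¹ - m' • nil0 B = (((a : k) - 1) * m') • nil0 B := by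
  rw [mul_smul_comm, smul_mul_assoc, conj_nil0_of_line B hline hσ ha, smul_smul, ← sub_smul]
  congr 1
  ring

/-- Values of the corrected cocycle `c + ∂(corr)` on `D_P`. -/
theorem corrected_values [CharP k p] (hp : p.Prime) {c : GQ → Module.End k ρbar.V} {ℓ₁ : ρbar.V}
    (hdata : IsSOData ρbar p P c (B 0) ℓ₁) {σ : GQ} (hσ : σ ∈ P.decompositionSubgroup ℚ) :
    (c σ + (ρbar.ρ σ * corr B ℓ₁ * ρbar.ρ σ⁻¹ - corr B ℓ₁)) (B 0) = 0 ∧
      ∀ u, ∃ t : k, (c σ + (ρbar.ρ σ * corr B ℓ₁ * ρbar.ρ σ⁻¹ - corr B ℓ₁)) u = t • B 0 := by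
  obtain ⟨z₀, hzz, hcyc, hv, -⟩ := hdata.2 σ hσ
  obtain ⟨a, ha⟩ := Fermat.Agent.S56.H966.exists_isCycExp p hp.ne_zero σ
  have ha0 : (a : k) ≠ 0 := isCycExp_cast_ne_zero hp ha
  have hz0 : z₀ ≠ 0 := by
    intro h
    rw [h, mul_zero] at hzz
    exact zero_ne_one hzz
  have hx0 : (a : k) * z₀ ≠ 0 := mul_ne_zero ha0 hz0
  exact ⟨cprime_basis0 B (ρbar.ρ σ) (ρbar.ρ σ⁻¹) (c σ) (rho_inv_mul' ρbar σ) ℓ₁ _ hx0
      (hcyc a ha).1 (hcyc a ha).2,
    cprime_mem B (ρbar.ρ σ) (ρbar.ρ σ⁻¹) (c σ) (rho_mul_inv' ρbar σ) ℓ₁ _ z₀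
      (hcyc a ha).1 (hcyc a ha).2 hv⟩

/-- Values of the coboundary of the projector on `D_P`. -/
theorem proj_values [CharP k p] (hp : p.Prime) (hline : IsSOLine ρbar p P (B 0)) {σ : GQ}
    (hσ : σ ∈ P.decompositionSubgroup ℚ) :
    (ρbar.ρ σ * proj0 B * ρbar.ρ σ⁻¹ - proj0 B) (B 0) = 0 ∧
      ∀ u, ∃ t : k, (ρbar.ρ σ * proj0 B * ρbar.ρ σ⁻¹ - proj0 B) u = t • B 0 := by
  obtain ⟨z₀, hzz, hcyc, -, -⟩ := hline.2 σ hσ
  obtain ⟨a, ha⟩ := Fermat.Agent.S56.H966.exists_isCycExp p hp.ne_zero σ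
  have ha0 : (a : k) ≠ 0 := isCycExp_cast_ne_zero hp ha
  have hz0 : z₀ ≠ 0 := by
    intro h
    rw [h, mul_zero] at hzz
    exact zero_ne_one hzz
  have hx0 : (a : k) * z₀ ≠ 0 := mul_ne_zero ha0 hz0
  exact ⟨conj_proj0_basis0 B (ρbar.ρ σ) (ρbar.ρ σ⁻¹) (rho_inv_mul' ρbar σ) _ (hcyc a ha) hx0,
    conj_proj0_mem B (ρbar.ρ σ) (ρbar.ρ σ⁻¹) _ (hcyc a ha)⟩

/-- **Key step**: with KUMMER-P functions `κ₁ κ₂`, every cocycle with strict-ordinary data
relative to the line `B 0` is on `D_P` cohomologous to `(x κ₁ + y κ₂) • n₀`. -/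
theorem key_of_data [CharP k p] (hp : p.Prime) {κ₁ κ₂ : GQ → k}
    (hκ : ∀ κ : GQ → k,
      (∀ σ ∈ P.decompositionSubgroup ℚ, ∀ τ ∈ P.decompositionSubgroup ℚ, ∀ a : ℕ,
        IsCycExp p σ a → κ (σ * τ) = κ σ + (a : k) * κ τ) →
      (∃ L : IntermediateField ℚ Qb, FiniteDimensional ℚ L ∧
        ∀ σ τ : GQ, (∀ x ∈ L, τ x = x) → κ (σ * τ) = κ σ) →
      ∃ x y m : k, ∀ σ ∈ P.decompositionSubgroup ℚ, ∀ a : ℕ, IsCycExp p σ a →
        κ σ = x * κ₁ σ + y * κ₂ σ + ((a : k) - 1) * m)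
    {c : GQ → Module.End k ρbar.V} (hc : IsAdCocycle ρbar c) {ℓ₁ : ρbar.V}
    (hdata : IsSOData ρbar p P c (B 0) ℓ₁) :
    ∃ (x y : k) (M : Module.End k ρbar.V), ∀ σ ∈ P.decompositionSubgroup ℚ,
      c σ - (x * κ₁ σ + y * κ₂ σ) • nil0 B = ρbar.ρ σ * M * ρbar.ρ σ⁻¹ - M := by
  have hline := hdata.isSOLine
  have hc' : IsAdCocycle ρbar
      (fun σ => c σ + (ρbar.ρ σ * corr B ℓ₁ * ρbar.ρ σ⁻¹ - corr B ℓ₁)) :=
    IsAdCocycle.add' hc (isAdCocycle_cob ρbar (corr B ℓ₁))
  obtain ⟨h1, h2, h3⟩ := kappa_props B hline hc' (fun σ hσ => corrected_values B hp hdata hσ)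
  obtain ⟨x, y, m', hxy⟩ := hκ
    (fun σ => B.coord 0 ((c σ + (ρbar.ρ σ * corr B ℓ₁ * ρbar.ρ σ⁻¹ - corr B ℓ₁)) (B 1))) h2 h3
  refine ⟨x, y, m' • nil0 B - corr B ℓ₁, fun σ hσ => ?_⟩
  obtain ⟨a, ha⟩ := Fermat.Agent.S56.H966.exists_isCycExp p hp.ne_zero σ
  have e1 := h1 σ hσ
  have e2 := hxy σ hσ a ha
  beta_reduce at e1 e2
  rw [e2] at e1
  have e3 := cob_smul_nil0 B hline hσ ha m'
  have e4 : ρbar.ρ σ * (m' • nil0 B - corr B ℓ₁) * ρbar.ρ σ⁻¹ - (m' • nil0 B - corr B ℓ₁) =
      (ρbar.ρ σ * (m' • nil0 B) * ρbar.ρ σ⁻¹ - m' • nil0 B) -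
        (ρbar.ρ σ * corr B ℓ₁ * ρbar.ρ σ⁻¹ - corr B ℓ₁) := by
    rw [mul_sub, sub_mul]; abel
  rw [e4, e3]
  have e5 : c σ = (x * κ₁ σ + y * κ₂ σ + ((a : k) - 1) * m') • nil0 B -
      (ρbar.ρ σ * corr B ℓ₁ * ρbar.ρ σ⁻¹ - corr B ℓ₁) := by
    rw [← e1]; abel
  rw [e5, _root_.add_smul]
  abel

/-- The cocycle of the projector, in KUMMER-P coordinates. -/
theorem key_of_proj [CharP k p] (hp : p.Prime) {κ₁ κ₂ : GQ → k}
    (hκ : ∀ κ : GQ → k,
      (∀ σ ∈ P.decompositionSubgroup ℚ, ∀ τ ∈ P.decompositionSubgroup ℚ, ∀ a : ℕ,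
        IsCycExp p σ a → κ (σ * τ) = κ σ + (a : k) * κ τ) →
      (∃ L : IntermediateField ℚ Qb, FiniteDimensional ℚ L ∧
        ∀ σ τ : GQ, (∀ x ∈ L, τ x = x) → κ (σ * τ) = κ σ) →
      ∃ x y m : k, ∀ σ ∈ P.decompositionSubgroup ℚ, ∀ a : ℕ, IsCycExp p σ a →
        κ σ = x * κ₁ σ + y * κ₂ σ + ((a : k) - 1) * m)
    (hline : IsSOLine ρbar p P (B 0)) :
    ∃ (x y m : k), ∀ σ ∈ P.decompositionSubgroup ℚ,
      (x * κ₁ σ + y * κ₂ σ) • nil0 B =
        ρbar.ρ σ * (proj0 B - m • nil0 B) * ρbar.ρ σ⁻¹ - (proj0 B - m • nil0 B) := by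
  have hc' : IsAdCocycle ρbar (fun σ => ρbar.ρ σ * proj0 B * ρbar.ρ σ⁻¹ - proj0 B) :=
    isAdCocycle_cob ρbar (proj0 B)
  obtain ⟨h1, h2, h3⟩ := kappa_props B hline hc' (fun σ hσ => proj_values B hp hline hσ)
  obtain ⟨x, y, m', hxy⟩ := hκ
    (fun σ => B.coord 0 ((ρbar.ρ σ * proj0 B * ρbar.ρ σ⁻¹ - proj0 B) (B 1))) h2 h3
  refine ⟨x, y, m', fun σ hσ => ?_⟩
  obtain ⟨a, ha⟩ := Fermat.Agent.S56.H966.exists_isCycExp p hp.ne_zero σ
  have e1 := h1 σ hσ
  have e2 := hxy σ hσ a ha
  beta_reduce at e1 e2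
  rw [e2] at e1
  have e3 := cob_smul_nil0 B hline hσ ha m'
  have e4 : ρbar.ρ σ * (proj0 B - m' • nil0 B) * ρbar.ρ σ⁻¹ - (proj0 B - m' • nil0 B) =
      (ρbar.ρ σ * proj0 B * ρbar.ρ σ⁻¹ - proj0 B) -
        (ρbar.ρ σ * (m' • nil0 B) * ρbar.ρ σ⁻¹ - m' • nil0 B) := by
    rw [mul_sub, sub_mul]; abel
  rw [e4, e3, e1]
  module

end main

section final

variable {k : Type} [Field k]

theorem exists_basis_zero_eq {V : Type} [AddCommGroup V] [Module k V]
    (h2 : Module.finrank k V = 2) {ℓ₀ : V} (h0 : ℓ₀ ≠ 0) :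
    ∃ B : Module.Basis (Fin 2) k V, B 0 = ℓ₀ := by
  obtain ⟨y, hy⟩ := exists_linearIndependent_pair_of_one_lt_finrank (R := k) (by omega) h0
  refine ⟨basisOfLinearIndependentOfCardEqFinrank hy (by rw [Fintype.card_fin, h2]), ?_⟩
  rw [coe_basisOfLinearIndependentOfCardEqFinrank]
  rfl

theorem exists_complement_pair {x_d y_d : k} (h : ¬ (x_d = 0 ∧ y_d = 0)) :
    ∃ x_t y_t : k, ∀ x y : k, ∃ α β : k, x = α * x_d + β * x_t ∧ y = α * y_d + β * y_t := by
  by_cases hx : x_d = 0
  · have hy : y_d ≠ 0 := fun hy => h ⟨hx, hy⟩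
    refine ⟨1, 0, fun x y => ⟨y / y_d, x, ?_, ?_⟩⟩
    · rw [hx]; ring
    · field_simp; ring
  · refine ⟨0, 1, fun x y => ⟨x / x_d, y - x / x_d * y_d, ?_, ?_⟩⟩
    · field_simp; ring
    · ring

theorem conj_add_smul {V' : Type} [AddCommGroup V'] [Module k V']
    (R Rinv M N : Module.End k V') (α : k) :
    R * (M + α • N) * Rinv - (M + α • N) = (R * M * Rinv - M) + α • (R * N * Rinv - N) := by
  rw [mul_add, add_mul, mul_smul_comm, smul_mul_assoc, smul_sub]
  abel

/-- **LOC-SO over a field**: the local tangent bound at `p` for strictly ordinary lifts with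
cyclotomic determinant, defect `1`. -/
theorem localBoundAt_so {p : ℕ} [CharP k p] (hp : p.Prime) (hp2 : p ≠ 2)
    (ρbar : ResidualGaloisRep k) (P : ValuationSubring Qb) (hP : P.LiesOverPrime p) :
    LocalBoundAt ρbar P (fun ρ' => ρ'.DetIsCyclotomic p ∧ ρ'.IsStrictOrdinaryAt p) 1 := by
  classical
  haveI : Fact p.Prime := ⟨hp⟩
  by_cases hex : ∃ (c : GQ → Module.End k ρbar.V) (ρ' : GaloisRepAdic (DualNumber k)),
      IsLiftOf ρbar c ρ' ∧ ρ'.DetIsCyclotomic p ∧ ρ'.IsStrictOrdinaryAt p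
  swap
  · refine ⟨⊥, inferInstance, ?_, fun c _ h => ?_⟩
    · rw [finrank_bot]; exact Nat.zero_le _
    · obtain ⟨ρ', hl, hd, hs⟩ := h
      exact (hex ⟨c, ρ', hl, hd, hs⟩).elim
  obtain ⟨c₀, ρ₀, hl₀, hd₀, hs₀⟩ := hex
  obtain ⟨ℓ₀, ℓ₁, hdata₀⟩ := locSO_struct ρbar p hp hp2 c₀ ρ₀ hl₀ hd₀ hs₀ P hP
  have hdata₀' : IsSOData ρbar p P c₀ ℓ₀ ℓ₁ := hdata₀
  obtain ⟨B, hB0⟩ := exists_basis_zero_eq ρbar.finrank_eq hdata₀'.1
  have hline : IsSOLine ρbar p P (B 0) := by rw [hB0]; exact hdata₀'.isSOLine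
  obtain ⟨κ₁, κ₂, -, -, hκ'⟩ := Fermat.Agent.S56.H734.kummerP p hp2 k P hP
  have hκ : ∀ κ : GQ → k,
      (∀ σ ∈ P.decompositionSubgroup ℚ, ∀ τ ∈ P.decompositionSubgroup ℚ, ∀ a : ℕ,
        IsCycExp p σ a → κ (σ * τ) = κ σ + (a : k) * κ τ) →
      (∃ L : IntermediateField ℚ Qb, FiniteDimensional ℚ L ∧
        ∀ σ τ : GQ, (∀ x ∈ L, τ x = x) → κ (σ * τ) = κ σ) →
      ∃ x y m : k, ∀ σ ∈ P.decompositionSubgroup ℚ, ∀ a : ℕ, IsCycExp p σ a →
        κ σ = x * κ₁ σ + y * κ₂ σ + ((a : k) - 1) * m := by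
    rintro κ hc ⟨L, hL, hl⟩
    exact hκ' κ hc ⟨L, hL, fun σ _ τ _ hτ => hl σ τ hτ⟩
  -- every admissible cocycle is cohomologous on `D_P` to `(x κ₁ + y κ₂) • n₀`
  have key : ∀ c : GQ → Module.End k ρbar.V, IsAdCocycle ρbar c →
      (∃ ρ' : GaloisRepAdic (DualNumber k), IsLiftOf ρbar c ρ' ∧
        ρ'.DetIsCyclotomic p ∧ ρ'.IsStrictOrdinaryAt p) →
      ∃ (x y : k) (M : Module.End k ρbar.V), ∀ σ ∈ P.decompositionSubgroup ℚ,
        c σ - (x * κ₁ σ + y * κ₂ σ) • nil0 B = ρbar.ρ σ * M * ρbar.ρ σ⁻¹ - M := by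
    rintro c hc ⟨ρ', hl, hd, hs⟩
    obtain ⟨ℓ₀', ℓ₁', hdata⟩ := locSO_struct ρbar p hp hp2 c ρ' hl hd hs P hP
    have hdata' : IsSOData ρbar p P c ℓ₀' ℓ₁' := hdata
    obtain ⟨r, hr, hrl⟩ := IsSOLine.unique hp hp2 hP hline hdata'.isSOLine
    have h2 := hdata'.smul (inv_ne_zero hr)
    have e : r⁻¹ • ℓ₀' = B 0 := by rw [hrl, smul_smul, inv_mul_cancel₀ hr, _root_.one_smul]
    rw [e] at h2
    exact key_of_data B hp hκ hc h2
  set t₁ : GQ → Module.End k ρbar.V := fun σ => κ₁ σ • nil0 B with ht₁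
  set t₂ : GQ → Module.End k ρbar.V := fun σ => κ₂ σ • nil0 B with ht₂
  by_cases hinv : adInv ρbar (P.decompositionSubgroup ℚ) = ⊥
  · -- `H⁰ = 0`: the projector cocycle is a non-trivial relation
    obtain ⟨x_d, y_d, m_d, hd⟩ := key_of_proj B hp hκ hline
    have h2k : (2 : k) ≠ 0 := by
      intro h
      have h' : ((2 : ℕ) : k) = 0 := by exact_mod_cast h
      have hdvd : p ∣ 2 := (CharP.cast_eq_zero_iff k p 2).mp h'
      exact hp2 ((Nat.prime_dvd_prime_iff_eq hp Nat.prime_two).mp hdvd)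
    have hne : ¬ (x_d = 0 ∧ y_d = 0) := by
      rintro ⟨hx, hy⟩
      have hmem : proj0 B - m_d • nil0 B - (2 : k)⁻¹ • (1 : Module.End k ρbar.V) ∈
          adInv ρbar (P.decompositionSubgroup ℚ) := by
        refine ⟨?_, fun σ hσ => ?_⟩
        · rw [map_sub, map_sub, map_smul, map_smul, trace_proj0, trace_nil0,
            LinearMap.trace_one, ρbar.finrank_eq]
          simp only [smul_eq_mul, mul_zero, sub_zero, Nat.cast_ofNat]
          rw [inv_mul_cancel₀ h2k, sub_self]
        · have h := hd σ hσ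
          rw [hx, hy, zero_mul, zero_mul, add_zero, _root_.zero_smul] at h
          have h' : ρbar.ρ σ * (proj0 B - m_d • nil0 B) * ρbar.ρ σ⁻¹ =
              proj0 B - m_d • nil0 B := (sub_eq_zero.mp h.symm)
          rw [mul_sub, sub_mul, h', mul_smul_comm, smul_mul_assoc, mul_one,
            rho_mul_inv' ρbar σ]
      rw [hinv, Submodule.mem_bot] at hmem
      have h0 := congrArg (fun F : Module.End k ρbar.V => B.coord 0 (F (B 0))) hmem
      simp only [LinearMap.sub_apply, LinearMap.smul_apply, proj0_apply, nil0_apply,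
        Module.End.one_apply, map_sub, map_smul, coord0_self, coord1_self0, smul_eq_mul,
        mul_one, _root_.zero_smul, _root_.smul_zero, sub_zero, _root_.one_smul, LinearMap.zero_apply,
        map_zero] at h0
      have : (2 : k)⁻¹ = 1 := (sub_eq_zero.mp h0).symm
      have h21 : (2 : k) = 1 := by
        have := congrArg (fun t => (2 : k) * t) this
        simp only [mul_inv_cancel₀ h2k, mul_one] at this
        exact this.symm
      have h10 : (1 : k) = 0 := by
        have : (2 : k) - 1 = 0 := by rw [h21, sub_self]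
        norm_num at this
      exact one_ne_zero h10
    obtain ⟨x_t, y_t, hcomp⟩ := exists_complement_pair hne
    refine ⟨Submodule.span k {x_t • t₁ + y_t • t₂},
      Module.Finite.span_of_finite k (Set.toFinite _), ?_, fun c hc hex' => ?_⟩
    · rw [hinv, finrank_bot, zero_add]
      exact finrank_span_single_le _
    · obtain ⟨x, y, M, hM⟩ := key c hc hex'
      obtain ⟨α, β, hx, hy⟩ := hcomp x y
      refine ⟨β • (x_t • t₁ + y_t • t₂),
        Submodule.smul_mem _ _ (Submodule.subset_span (Set.mem_singleton _)),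
        M + α • (proj0 B - m_d • nil0 B), fun σ hσ => ?_⟩
      rw [conj_add_smul, ← hM σ hσ, ← hd σ hσ]
      show c σ - β • (x_t • κ₁ σ • nil0 B + y_t • κ₂ σ • nil0 B) = _
      rw [hx, hy]
      module
  · -- `H⁰ ≠ 0`: the Kummer bound suffices
    refine ⟨Submodule.span k {t₁, t₂}, Module.Finite.span_of_finite k (Set.toFinite _), ?_,
      fun c hc hex' => ?_⟩
    · have h1 : 1 ≤ Module.finrank k (adInv ρbar (P.decompositionSubgroup ℚ)) :=
        Submodule.one_le_finrank_iff.mpr hinv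
      have h2 := finrank_span_pair_le (k := k) t₁ t₂
      omega
    · obtain ⟨x, y, M, hM⟩ := key c hc hex'
      refine ⟨x • t₁ + y • t₂, ?_, M, fun σ hσ => ?_⟩
      · exact Submodule.add_mem _
          (Submodule.smul_mem _ _ (Submodule.subset_span (Set.mem_insert _ _)))
          (Submodule.smul_mem _ _ (Submodule.subset_span
            (Set.mem_insert_of_mem _ (Set.mem_singleton _))))
      · rw [← hM σ hσ]
        show c σ - (x • κ₁ σ • nil0 B + y • κ₂ σ • nil0 B) = _
        module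

end final

/-- **LOC-SO** (frozen layer-2 leaf `LocOrdPStatement` of `H716/SBSpec.lean`). -/
theorem locOrdP : LocOrdPStatement := by
  intro 𝒪 _ _ _ _ _ p ρbar S Smin hyp P hP
  have hpk : ((p : ℕ) : ResidueField 𝒪) = 0 := by
    have h := (IsLocalRing.residue_eq_zero_iff (p : 𝒪)).mpr hyp.hp𝒪
    rwa [map_natCast] at h
  haveI : CharP (ResidueField 𝒪) p := (CharP.charP_iff_prime_eq_zero hyp.hp).mpr hpk
  exact localBoundAt_so hyp.hp hyp.hp2 ρbar P hP

end Fermat.Agent.S56.H656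

end

end
-- ===== PACK-END S56/H656/LocOrdP.lean

-- ===== PACK-BEGIN S31/H862/Positive.lean
section



/-!
# S31 / SS (helper862) — the Petersson pairing is positive definite on cusp forms
-/

set_option autoImplicit false

open UpperHalfPlane CongruenceSubgroup MeasureTheory Matrix.SpecialLinearGroup
open scoped MatrixGroups ModularForm ComplexConjugate ENNReal NNReal

namespace Fermat.Agent.S31.H862

/-- The invariant measure on `ℍ` is positive on nonempty open sets. -/
theorem isOpenPosMeasure_uhp : (volume : Measure ℍ).IsOpenPosMeasure := by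
  refine ⟨fun U hU hne hzero => ?_⟩
  rw [UpperHalfPlane.volume_eq_lintegral] at hzero
  have hopen : IsOpen ((↑) '' U : Set ℂ) := _root_.UpperHalfPlane.isOpenEmbedding_coe.isOpenMap U hU
  have hmeas : Measurable fun z : ℂ => ((↑((1 / ‖z.im‖₊) ^ 2 : NNReal) : ℝ≥0∞)) := by
    fun_prop
  rw [lintegral_eq_zero_iff hmeas, Filter.EventuallyEq, ae_restrict_iff' hopen.measurableSet]
    at hzero
  have h2 : ∀ᵐ z : ℂ, z ∉ ((↑) '' U : Set ℂ) := by
    filter_upwards [hzero] with z hz hzU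
    have h3 := hz hzU
    obtain ⟨w, -, rfl⟩ := hzU
    have him : (0 : ℝ) < (w : ℂ).im := w.im_pos
    simp only [Pi.zero_apply, ENNReal.coe_eq_zero] at h3
    have h5 := pow_eq_zero_iff (two_ne_zero) |>.mp h3
    rw [one_div, _root_.inv_eq_zero, nnnorm_eq_zero] at h5
    exact him.ne' h5
  have h4 : volume ((↑) '' U : Set ℂ) = 0 := by
    rw [← compl_compl ((↑) '' U : Set ℂ)]
    exact h2
  exact (hopen.measure_ne_zero volume (hne.image _)) h4

section

variable (N : ℕ) [NeZero N]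

theorem petersson_self (f : ℍ → ℂ) (z : ℍ) :
    petersson 2 f f z = ((nrm f z ^ 2 : ℝ) : ℂ) := by
  simp only [petersson, nrm]
  rw [zpow_ofNat, mul_comm (conj (f z)), Complex.mul_conj, Complex.normSq_eq_norm_sq]
  push_cast
  ring

theorem continuous_nrm {f : ℍ → ℂ} (hf : Continuous f) : Continuous (nrm f) :=
  (continuous_norm.comp hf).mul UpperHalfPlane.continuous_im

theorem nrm_smul_of_slash_eq {f : ℍ → ℂ} {δ : GL (Fin 2) ℝ} (h : f ∣[(2 : ℤ)] δ = f) (z : ℍ) :
    nrm f (δ • z) = nrm f z := by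
  rw [← nrm_slash, h]

theorem eq_zero_of_pet_self_eq_zero {f : ℍ → ℂ} (hf : Nice f)
    (hinv : ∀ γ : Gamma0 N, f ∣[(2 : ℤ)] (mapGL ℝ (γ : SL(2, ℤ))) = f)
    (h0 : pet N f f = 0) : f = 0 := by
  have := isOpenPosMeasure_uhp
  have hint : Integrable (fun z : ℍ => nrm f z ^ 2 * wt N z) volume := by
    have := integrable_pint (integrable_wt N) hf hf
    have h2 : (fun z : ℍ => petersson 2 f f z * (wt N z : ℂ)) =
        fun z : ℍ => ((nrm f z ^ 2 * wt N z : ℝ) : ℂ) := by
      funext z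
      rw [petersson_self]
      push_cast
      ring
    rw [h2] at this
    exact this.re.congr (Filter.Eventually.of_forall fun z => by
      simp only [RCLike.re_to_complex, Complex.ofReal_re])
  have h1 : ∫ z : ℍ, nrm f z ^ 2 * wt N z = 0 := by
    have h2 : pet N f f = ((∫ z : ℍ, nrm f z ^ 2 * wt N z : ℝ) : ℂ) := by
      unfold pet pint
      rw [← integral_complex_ofReal]
      refine integral_congr_ae (Filter.Eventually.of_forall fun z => ?_)
      simp only [petersson_self]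
      push_cast
      ring
    rw [h2] at h0
    exact_mod_cast h0
  have hnn : 0 ≤ fun z : ℍ => nrm f z ^ 2 * wt N z :=
    fun z => mul_nonneg (sq_nonneg _) (wt_nonneg N z)
  have hae := (integral_eq_zero_iff_of_nonneg hnn hint).mp h1
  have hcont : Continuous fun z : ℍ => nrm f z ^ 2 * wt N z :=
    ((continuous_nrm hf.cont).pow 2).mul (continuous_wt N)
  have hall : (fun z : ℍ => nrm f z ^ 2 * wt N z) = 0 :=
    (Continuous.ae_eq_iff_eq volume hcont continuous_const).mp hae
  funext z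
  obtain ⟨γ, hγ⟩ : ∃ γ : Gamma0 N, wt N ((γ : SL(2, ℤ)) • z) ≠ 0 := by
    by_contra hcon
    push Not at hcon
    have h := hasSum_wt N z
    simp only [hcon] at h
    exact zero_ne_one (h.unique hasSum_zero).symm
  have h3 := congrFun hall ((γ : SL(2, ℤ)) • z)
  simp only [Pi.zero_apply, mul_eq_zero, hγ, or_false] at h3
  replace h3 := pow_eq_zero_iff (two_ne_zero) |>.mp h3
  have h4 : nrm f ((mapGL ℝ (γ : SL(2, ℤ))) • z) = nrm f z := nrm_smul_of_slash_eq (hinv γ) z
  have h5 : nrm f z = 0 := by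
    rw [← h4]
    exact h3
  rw [nrm, mul_eq_zero] at h5
  rcases h5 with h5 | h5
  · simpa using h5
  · exact absurd h5 z.im_pos.ne'

end

end Fermat.Agent.S31.H862

end
-- ===== PACK-END S31/H862/Positive.lean

-- ===== PACK-BEGIN S24/H624/Elliptic.lean
section


/-!
# Elliptic fixed points: the rotation factor is a primitive 2nd / 3rd root of unity
-/

set_option autoImplicit false

namespace Fermat.Agent.S24.H624

open UpperHalfPlane Complex
open scoped Manifold Topology MatrixGroups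

/-- The factor by which `γ` rotates leading coefficients at `τ`
(the derivative of `z ↦ γ⁻¹ • z` at `τ`). -/
noncomputable def rotFactor (γ : SL(2, ℤ)) (τ : ℍ) : ℂ :=
  1 / denom ((γ⁻¹ : SL(2, ℤ)) : GL (Fin 2) ℝ) (τ : ℂ) ^ 2

theorem rotFactor_def (γ : SL(2, ℤ)) (τ : ℍ) :
    rotFactor γ τ = 1 / denom ((γ⁻¹ : SL(2, ℤ)) : GL (Fin 2) ℝ) (τ : ℂ) ^ 2 := rfl

theorem rotFactor_ne_zero (γ : SL(2, ℤ)) (τ : ℍ) : rotFactor γ τ ≠ 0 :=
  one_div_ne_zero (pow_ne_zero _ (denom_ne_zero _ τ))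

/-- `LocalData`-shaped statement with `rotFactor`. -/
theorem laurentAt_smul_fixed_rotFactor {γ : SL(2, ℤ)} {τ : ℍ} (hτ : γ • τ = τ) (F : MerH) :
    (laurentAt τ (γ • F)).order = (laurentAt τ F).order ∧
    (laurentAt τ (γ • F)).leadingCoeff
      = rotFactor γ τ ^ (laurentAt τ F).order * (laurentAt τ F).leadingCoeff :=
  laurentAt_smul_of_fixed hτ F

theorem trace_inv_SL (γ : SL(2, ℤ)) : (γ⁻¹) 0 0 + (γ⁻¹) 1 1 = γ 0 0 + γ 1 1 := by
  rw [Matrix.SpecialLinearGroup.coe_inv, Matrix.adjugate_fin_two]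
  simp
  ring

theorem inv_smul_of_fixed {γ : SL(2, ℤ)} {τ : ℍ} (hτ : γ • τ = τ) : γ⁻¹ • τ = τ := by
  rw [inv_smul_eq_iff, hτ]

theorem rotFactor_eq_neg_one {γ : SL(2, ℤ)} {τ : ℍ} (hτ : γ • τ = τ)
    (htr : γ 0 0 + γ 1 1 = 0) : rotFactor γ τ = -1 := by
  have h2 := denom_sq_eq_of_fixed (inv_smul_of_fixed hτ)
  rw [trace_inv_SL, htr] at h2
  simp only [Int.cast_zero, zero_mul, zero_sub] at h2
  rw [rotFactor_def, h2]
  norm_num

theorem isPrimitiveRoot_rotFactor_two {γ : SL(2, ℤ)} {τ : ℍ} (hτ : γ • τ = τ)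
    (htr : γ 0 0 + γ 1 1 = 0) : IsPrimitiveRoot (rotFactor γ τ) 2 := by
  rw [rotFactor_eq_neg_one hτ htr]
  exact IsPrimitiveRoot.neg_one 0 (by norm_num)

theorem isPrimitiveRoot_three_of_root {μ : ℂ} (hμ : μ ^ 2 + μ + 1 = 0) : IsPrimitiveRoot μ 3 := by
  have h3 : μ ^ 3 = 1 := by linear_combination (μ - 1) * hμ
  refine IsPrimitiveRoot.mk_of_lt μ (by norm_num) h3 ?_
  intro l hl0 hl3 hl
  have : 3 ∣ l := three_dvd_of_root hμ hl
  omega

theorem isPrimitiveRoot_rotFactor_three {γ : SL(2, ℤ)} {τ : ℍ} (hτ : γ • τ = τ)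
    (htr : γ 0 0 + γ 1 1 = 1 ∨ γ 0 0 + γ 1 1 = -1) : IsPrimitiveRoot (rotFactor γ τ) 3 := by
  have h2 := denom_sq_eq_of_fixed (inv_smul_of_fixed hτ)
  rw [trace_inv_SL] at h2
  set lam := denom ((γ⁻¹ : SL(2, ℤ)) : GL (Fin 2) ℝ) (τ : ℂ) with hlam
  have hlam0 : lam ≠ 0 := denom_ne_zero _ τ
  have hμ : (lam ^ 2) ^ 2 + lam ^ 2 + 1 = 0 := by
    rcases htr with htr | htr
    · rw [htr] at h2
      simp only [Int.cast_one, one_mul] at h2
      linear_combination (lam ^ 2 + lam + 1) * h2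
    · rw [htr] at h2
      simp only [Int.cast_neg, Int.cast_one, neg_mul, one_mul] at h2
      linear_combination (lam ^ 2 - lam + 1) * h2
  apply isPrimitiveRoot_three_of_root
  rw [rotFactor_def, ← hlam]
  have h4 : (lam ^ 2) ≠ 0 := pow_ne_zero _ hlam0
  field_simp
  linear_combination hμ

theorem S_smul_I : ModularGroup.S • UpperHalfPlane.I = UpperHalfPlane.I := by
  rw [modular_S_smul]
  ext
  simp [UpperHalfPlane.coe_I, Complex.inv_I]

theorem trace_S : (ModularGroup.S : SL(2, ℤ)) 0 0 + (ModularGroup.S : SL(2, ℤ)) 1 1 = 0 := by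
  decide

theorem trace_ST :
    (ModularGroup.S * ModularGroup.T : SL(2, ℤ)) 0 0
      + (ModularGroup.S * ModularGroup.T : SL(2, ℤ)) 1 1 = 1 := by
  decide

/-- The point `ρ = -1/2 + (√3/2) i`. -/
noncomputable def rhoH : ℍ :=
  ⟨⟨-1 / 2, Real.sqrt 3 / 2⟩, by
    show (0 : ℝ) < Real.sqrt 3 / 2
    positivity⟩

theorem rhoH_coe : (rhoH : ℂ) = ⟨-1 / 2, Real.sqrt 3 / 2⟩ := rfl

theorem rhoH_sq : (rhoH : ℂ) ^ 2 + (rhoH : ℂ) + 1 = 0 := by
  have h3 : Real.sqrt 3 * Real.sqrt 3 = 3 := Real.mul_self_sqrt (by norm_num)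
  rw [rhoH_coe]
  apply Complex.ext
  · simp [pow_two]
    nlinarith
  · simp [pow_two]
    ring

theorem ST_smul_rhoH : (ModularGroup.S * ModularGroup.T) • rhoH = rhoH := by
  apply UpperHalfPlane.ext
  rw [coe_specialLinearGroup_apply]
  have h := rhoH_sq
  have hne : (rhoH : ℂ) + 1 ≠ 0 := by
    intro h0
    have : (rhoH : ℂ) = -1 := by linear_combination h0
    rw [this] at h
    norm_num at h
  have e00 : (ModularGroup.S * ModularGroup.T : SL(2, ℤ)) 0 0 = 0 := by decide
  have e01 : (ModularGroup.S * ModularGroup.T : SL(2, ℤ)) 0 1 = -1 := by decide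
  have e10 : (ModularGroup.S * ModularGroup.T : SL(2, ℤ)) 1 0 = 1 := by decide
  have e11 : (ModularGroup.S * ModularGroup.T : SL(2, ℤ)) 1 1 = 1 := by decide
  rw [e00, e01, e10, e11]
  simp only [algebraMap_int_eq, Int.coe_castRingHom, Int.cast_zero, Complex.ofReal_zero,
    zero_mul, Int.cast_neg, Int.cast_one, Complex.ofReal_neg, Complex.ofReal_one, zero_add,
    one_mul]
  rw [div_eq_iff hne]
  linear_combination -h

theorem isPrimitiveRoot_rotFactor_S :
    IsPrimitiveRoot (rotFactor ModularGroup.S UpperHalfPlane.I) 2 :=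
  isPrimitiveRoot_rotFactor_two S_smul_I trace_S

theorem isPrimitiveRoot_rotFactor_ST :
    IsPrimitiveRoot (rotFactor (ModularGroup.S * ModularGroup.T) rhoH) 3 :=
  isPrimitiveRoot_rotFactor_three ST_smul_rhoH (Or.inl trace_ST)

end Fermat.Agent.S24.H624

end
-- ===== PACK-END S24/H624/Elliptic.lean

-- ===== PACK-BEGIN S18/B12/H33/CoreMain.lean
section



/-!
# S18 b2.5 (helper33): `B2CoreAbsStatement` from the assembly pieces A0, A2, A2', A3, A4, A5, A5'
-/

set_option autoImplicit false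

noncomputable section

namespace Fermat.Agent.S18.B12.H33

open Polynomial

universe u v

theorem b2CoreAbs_of_pieces
    (hA0 : RegSeqAbsStatement.{u, v}) (hA2 : LocalBasisStatement.{u, v})
    (hA2' : LocalBasisRankStatement.{u, v}) (hA3 : DiscrRedStatement.{u, v})
    (hA4 : UFDStepStatement.{u}) (hA5 : GenericDiscrStatement.{u, v})
    (hA5' : RedBasisAbsStatement.{u, v}) : B2CoreAbsStatement.{u, v} := by
  intro P _ _ _ _ w hw hΛ hΛ₀ hℚ B _ _ _ _ _ _ hsep S hS1 hS2 hNC t ht n bb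
  haveI := hΛ
  haveI hdomΛ : IsDomain (P ⧸ Ideal.span {w}) := by
    rw [Ideal.Quotient.isDomain_iff_prime]
    exact (Ideal.span_singleton_prime hw.ne_zero).mpr hw
  have hmkw : Ideal.Quotient.mk (Ideal.span {w}) w = 0 :=
    Ideal.Quotient.eq_zero_iff_mem.mpr (Ideal.mem_span_singleton_self w)
  obtain ⟨p, hp⟩ := Ideal.Quotient.mk_surjective t
  -- the closed point
  have htmax : (Ideal.span {t}).IsMaximal :=
    PrincipalIdealRing.isMaximal_of_irreducible ht.irreducible
  have h𝔪p : (Ideal.span {w, p}).IsMaximal := by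
    rw [span_pair_eq_comap, hp]
    exact Ideal.comap_isMaximal_of_surjective _ Ideal.Quotient.mk_surjective
  -- choice of the second generator `q`
  obtain ⟨q, hq𝔪, hqcase⟩ : ∃ q, Ideal.span {w, q} = Ideal.span {w, p} ∧
      (q ∈ S ∨ ∀ s ∈ S, s ∉ Ideal.span {w, p}) := by
    by_cases h : ∃ s ∈ S, s ∈ Ideal.span {w, p}
    · obtain ⟨s, hs, hs𝔪⟩ := h
      refine ⟨s, ?_, Or.inl hs⟩
      have hmax := (hS1 s hs).2.2.1
      refine hmax.eq_of_le h𝔪p.ne_top ?_
      rw [Ideal.span_le]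
      intro z hz
      rcases hz with rfl | hz
      · exact Ideal.subset_span (by simp)
      · rw [Set.mem_singleton_iff] at hz; subst hz; exact hs𝔪
    · push_neg at h
      exact ⟨p, rfl, Or.inr h⟩
  have h𝔪max : (Ideal.span {w, q}).IsMaximal := hq𝔪 ▸ h𝔪p
  haveI h𝔪prime : (Ideal.span {w, q}).IsPrime := h𝔪max.isPrime
  have hw𝔪 : w ∈ Ideal.span {w, q} := Ideal.subset_span (by simp)
  -- `mk q` is associated to `t`
  have hqt : Associated (Ideal.Quotient.mk (Ideal.span {w}) q) t := by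
    rw [← Ideal.span_singleton_eq_span_singleton]
    ext b
    obtain ⟨a, rfl⟩ := Ideal.Quotient.mk_surjective b
    rw [Ideal.mem_span_singleton, Ideal.mem_span_singleton, ← mem_span_pair_iff_mk_dvd, hq𝔪,
      mem_span_pair_iff_mk_dvd, hp]
  have hmkq_prime : Prime (Ideal.Quotient.mk (Ideal.span {w}) q) := hqt.symm.prime ht
  have hwq : ¬ w ∣ q := by
    intro h
    apply hmkq_prime.ne_zero
    exact Ideal.Quotient.eq_zero_iff_mem.mpr (Ideal.mem_span_singleton.mpr h)
  -- local basis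
  haveI : Algebra.IsIntegral P B := inferInstance
  have hreg := hA0 P B q w hw hwq
  obtain ⟨n₀, x, hx⟩ := hA2 P B w q h𝔪max hreg
  obtain ⟨hn₀, hgram⟩ := hA2' P B (Ideal.span {w, q}) n₀ x hx
  obtain ⟨hn, u, hu, hD⟩ := hA3 P B w hw (Ideal.span {w, q}) hw𝔪 n₀ x hx n bb
  subst hn
  -- `w ∤ D`
  have hwD : ¬ w ∣ intDiscr P B x := by
    obtain ⟨x', hx'⟩ := hsep
    subst hn₀
    obtain ⟨g, v, hg, hgv⟩ := hgram x'
    intro hdvd
    have h1 : w ∣ g ^ 2 * intDiscr P B x' := by
      rw [hgv]; exact Dvd.dvd.mul_left hdvd _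
    rcases hw.dvd_or_dvd h1 with h2 | h2
    · exact hg (Ideal.mem_of_dvd _ (hw.dvd_of_dvd_pow h2) hw𝔪)
    · exact hx' h2
  have hD0 : intDiscr P B x ≠ 0 := fun h => hwD (h ▸ dvd_zero w)
  have hmkD0 : Ideal.Quotient.mk (Ideal.span {w}) (intDiscr P B x) ≠ 0 := by
    intro h
    exact hwD (Ideal.mem_span_singleton.mp (Ideal.Quotient.eq_zero_iff_mem.mp h))
  have hdisc0 : Algebra.discr (P ⧸ Ideal.span {w}) bb ≠ 0 := by
    intro h
    rw [h, mul_zero] at hD
    exact hmkD0 hD
  refine ⟨hdisc0, ?_⟩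
  have hmku : ¬ t ∣ Ideal.Quotient.mk (Ideal.span {w}) u := by
    intro h
    apply hu
    rw [mem_span_pair_iff_mk_dvd]
    exact hqt.dvd.trans h
  -- unramified primes through the closed point do not divide `D`
  have hunram : ∀ π : P, Prime π → π ∈ Ideal.span {w, q} → ¬ Associated π w →
      (∀ s ∈ S, ¬ Associated π s) → ¬ π ∣ intDiscr P B x := by
    intro π hπ hπ𝔪 hπw hπS
    have hrad := hNC π hπ hπw hπS
    have hxπ : IsLocalBasis P B (Ideal.span {π}) n x :=
      IsLocalBasis.mono ((Ideal.span_singleton_le_iff_mem _).mpr hπ𝔪) hx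
    have := hA5 P w hw hΛ₀ hℚ B π hπ hπw n x hxπ n x
      (fun a ha i => IsLocalBasis.dvd_coeff hx hπ hπ𝔪 a (hrad.radical ▸ ha) i)
    simpa using this
  rcases hqcase with hqS | hnoS
  · -- Case 1: the closed point is a branch point `q ∈ S`
    obtain ⟨hqprime, hqw, -, hqPID⟩ := hS1 q hqS
    obtain ⟨a, D₁, hDeq, hD₁⟩ := hA4 P (Ideal.span {w, q}) q hqprime (intDiscr P B x) hD0 (by
      intro π hπ hπD hπ𝔪
      by_contra hne
      refine hunram π hπ hπ𝔪 ?_ ?_ hπD
      · intro hπw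
        exact hwD (hπw.symm.dvd.trans hπD)
      · intro s hs hπs
        have hs𝔪 : s ∈ Ideal.span {w, q} := Ideal.mem_of_dvd _ hπs.dvd hπ𝔪
        by_cases hsq : q = s
        · subst hsq; exact hne hπs
        · exact hS2 q hqS s hs hsq hs𝔪)
    obtain ⟨r, y, hyi, hys⟩ := hA5' P B q hqprime hqPID
    have hxq : IsLocalBasis P B (Ideal.span {q}) n x :=
      IsLocalBasis.mono ((Ideal.span_singleton_le_iff_mem _).mpr (Ideal.subset_span (by simp))) hx
    have hnd := hA5 P w hw hΛ₀ hℚ B q hqprime hqw n x hxq r y hyi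
    have ha : a < n - r + 1 := by
      by_contra hcon
      push_neg at hcon
      apply hnd
      rw [hDeq]
      exact Dvd.dvd.mul_right (pow_dvd_pow q hcon) _
    refine ⟨r, fun i => Ideal.Quotient.mk _ (y i), ?_, ?_⟩
    · intro c
      obtain ⟨c, rfl⟩ := Ideal.Quotient.mk_surjective c
      obtain ⟨a', ha'⟩ := hys c
      refine ⟨fun i => Ideal.Quotient.mk _ (a' i), ?_⟩
      refine mk_sub_sum_mem_radical w y q t hqt c a' ?_
      refine Ideal.radical_mono ?_ ha'
      rw [Ideal.span_le]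
      intro z hz
      rw [Set.mem_singleton_iff] at hz; subst hz
      exact Ideal.subset_span (by simp)
    · intro hdvd
      have h1 : Ideal.Quotient.mk (Ideal.span {w}) q ^ (n - r + 1) ∣
          Ideal.Quotient.mk (Ideal.span {w}) (intDiscr P B x) := by
        rw [hD]
        exact Dvd.dvd.mul_left ((hqt.pow_pow.dvd).trans hdvd) _
      rw [hDeq, _root_.map_mul, _root_.map_pow] at h1
      have h2 : Ideal.Quotient.mk (Ideal.span {w}) q ^ (a + 1) ∣
          Ideal.Quotient.mk (Ideal.span {w}) q ^ a * Ideal.Quotient.mk (Ideal.span {w}) D₁ :=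
        (pow_dvd_pow _ (by omega)).trans h1
      rw [pow_succ, mul_dvd_mul_iff_left (pow_ne_zero _ hmkq_prime.ne_zero)] at h2
      exact hD₁ ((mem_span_pair_iff_mk_dvd w q D₁).mpr h2)
  · -- Case 2: no branch point at this closed point
    have hnoS' : ∀ s ∈ S, s ∉ Ideal.span {w, q} := hq𝔪 ▸ hnoS
    obtain ⟨a, D₁, hDeq, hD₁⟩ := hA4 P (Ideal.span {w, q}) w hw (intDiscr P B x) hD0 (by
      intro π hπ hπD hπ𝔪
      by_contra hne
      refine hunram π hπ hπ𝔪 hne ?_ hπD
      intro s hs hπs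
      exact hnoS' s hs (Ideal.mem_of_dvd _ hπs.dvd hπ𝔪))
    have ha0 : a = 0 := by
      by_contra h
      apply hwD
      rw [hDeq]
      exact Dvd.dvd.mul_right (dvd_pow_self w h) _
    subst ha0
    rw [pow_zero, one_mul] at hDeq
    obtain ⟨hli, g, hg, hsp⟩ := hx
    -- inverse of `g` modulo the maximal ideal
    obtain ⟨g', hg'⟩ : ∃ g', g * g' - 1 ∈ Ideal.span {w, q} := by
      have := h𝔪max.exists_inv hg
      obtain ⟨g', m, hm, hgm⟩ := this
      refine ⟨g', ?_⟩
      have : g * g' - 1 = -m := by linear_combination hgm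
      rw [this]; exact neg_mem hm
    refine ⟨n, fun i => Ideal.Quotient.mk _ (x i), ?_, ?_⟩
    · intro c
      obtain ⟨c, rfl⟩ := Ideal.Quotient.mk_surjective c
      have hgc := hsp c
      rw [Submodule.mem_span_range_iff_exists_fun] at hgc
      obtain ⟨cf, hcf⟩ := hgc
      refine ⟨fun i => Ideal.Quotient.mk _ (g' * cf i), ?_⟩
      refine mk_sub_sum_mem_radical w x q t hqt c (fun i => g' * cf i) ?_
      apply Ideal.le_radical
      have e : c - ∑ i, (g' * cf i) • x i = algebraMap P B (-(g * g' - 1)) * c := by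
        have : ∑ i, (g' * cf i) • x i = g' • (g • c) := by
          rw [← hcf, Finset.smul_sum]
          exact Finset.sum_congr rfl fun i _ => by rw [mul_smul]
        rw [this, Algebra.smul_def, Algebra.smul_def, _root_.map_neg, _root_.map_sub, _root_.map_mul, _root_.map_one]
        ring
      rw [e]
      refine Ideal.mul_mem_right _ _ ?_
      have hmap : Ideal.map (algebraMap P B) (Ideal.span {w, q})
          = Ideal.span {algebraMap P B w, algebraMap P B q} := by
        rw [Ideal.map_span]; congr 1; simp [Set.image_pair]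
      rw [← hmap]
      exact Ideal.mem_map_of_mem _ (neg_mem hg')
    · intro hdvd
      have hnn : n - n + 1 = 1 := by omega
      rw [hnn, pow_one] at hdvd
      have h1 : t ∣ Ideal.Quotient.mk (Ideal.span {w}) (intDiscr P B x) := by
        rw [hD]; exact Dvd.dvd.mul_left hdvd _
      apply hD₁
      rw [← hDeq, mem_span_pair_iff_mk_dvd]
      exact hqt.dvd.trans h1

end Fermat.Agent.S18.B12.H33

end
end
-- ===== PACK-END S18/B12/H33/CoreMain.lean

-- ===== PACK-BEGIN Lib/RR/H383/FF1OfFinite.lean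
section


/-!
# RR library (helper383): the standing hypotheses `FF1 K F` in any characteristic

`K` algebraically closed (any characteristic), `x ∈ F` transcendental over `K`, `F` finite over
`K(x)`.  Then `FF1 K F` holds: principal divisors have degree zero, all places have degree one,
there is a place, and `F` is finite over a rational function field.
No separability hypothesis is needed.

* `ff1_of_finite` : the bridge.
* `eq_algebraMap_of_forall_ord_eq_zero` : a function of order zero everywhere is constant.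
-/

set_option autoImplicit false

noncomputable section

open AlgebraicCurve IntermediateField

namespace Fermat.Agent.Lib.RR.H383

open Fermat.Agent.Lib.RR

variable {K F : Type*} [Field K] [Field F] [Algebra K F] [IsAlgClosed K]

/-- **Bridge**: a field finite over `K(x)`, `K` algebraically closed of any characteristic,
satisfies the standing hypotheses of the RR library. -/
theorem ff1_of_finite {x : F} (hx : Transcendental K x) [FiniteDimensional K⟮x⟯ F] :
    FF1 K F where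
  hpd := hasPrincipalDivisors_of_finite hx
  deg_eq_one := deg_eq_one_of_finite hx
  nonempty_place := by
    obtain ⟨v, -⟩ := exists_place_ord_pos (finite_of_finite hx) hx
    exact ⟨v⟩
  exists_finite := ⟨x, hx, inferInstance⟩

/-- A function whose order vanishes at every place is constant. -/
theorem eq_algebraMap_of_forall_ord_eq_zero {x : F} (hx : Transcendental K x)
    [FiniteDimensional K⟮x⟯ F] {f : F} (hf : ∀ v : Place K F, v.ord f = 0) :
    f ∈ (algebraMap K F).range :=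
  eq_algebraMap_of_forall_ord_nonneg (finite_of_finite hx) fun v => (hf v).ge

end Fermat.Agent.Lib.RR.H383

end
end
-- ===== PACK-END Lib/RR/H383/FF1OfFinite.lean

-- ===== PACK-BEGIN S37/Red/SpecMod.lean
section




/-!
# S37-RED — frozen interfaces at the modular level (architect: helper40)        v1

* `ModDatum N A`   : a reduction datum (`Spec.lean`) on `(F_N, F_{N,k})` with good charts, linked
                     to the `q`-expansion integrality of the Prelude and Galois-stable.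
* `PlaceRed N A ℓ` : everything about the place map `r` that the assembly needs.
* `AssemblyStatement` : `PlaceRed` + `HeckeInputsAlong`  ⟹  `H99.RedData`  (⟹ frozen S37 by
                     `H99.result_of_redData`, already on main).

Documentation: `coord/S37-red.md` on `origin/helper40`.
-/

set_option autoImplicit false
set_option synthInstance.maxHeartbeats 400000

noncomputable section

namespace Fermat.Agent.S37.Red

open ModularCurve AlgebraicCurve HahnSeries IsLocalRing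

/-- `Q̄` -/
abbrev Qb : Type := AlgebraicClosure ℚ

/-- the function field `F_N = Q̄(j(q^d) : d ∣ N)` of `X₀(N)` over `Q̄` -/
abbrev FN (N : ℕ) : Type := modularFunctionFieldBar N

/-- the residue field `k = A/𝔪` -/
abbrev kA (A : ValuationSubring Qb) : Type := ResidueField A

/-- the function field `F_{N,k} = k(j(q^d) : d ∣ N)` -/
abbrev FNk (A : ValuationSubring Qb) (N : ℕ) : Type := modularFunctionFieldFullC (kA A) N

/-- **RED-E (instantiation)**: a reduction datum on `(F_N, F_{N,k})` with good charts such that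
* (link) every Prelude-integral series `y` (i.e. `y ∈ A((q)) ∩ F_N`, `ȳ ∈ F_{N,k}`, `ȳ ≠ 0`) lies
  in `O` and `ρ y = ȳ`;
* (galois) the decomposition group of `A` preserves `O` and fixes the coordinate `x`. -/
structure ModDatum (N : ℕ) (A : ValuationSubring Qb) where
  /-- the datum -/
  G : Datum A (residue A) (FN N) (FNk A N)
  good : G.Good
  link : ∀ (y : LaurentSeries A) (hy : coeffMap A.subtype y ∈ modularFunctionFieldBar N)
    (hyk : coeffMap (residue A) y ∈ modularFunctionFieldFullC (kA A) N),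
    coeffMap (residue A) y ≠ 0 →
    ∃ h : (⟨coeffMap A.subtype y, hy⟩ : FN N) ∈ G.O,
      G.ρ ⟨⟨coeffMap A.subtype y, hy⟩, h⟩ = ⟨coeffMap (residue A) y, hyk⟩
  galois_mem : ∀ σ ∈ A.decompositionSubgroup ℚ, ∀ f : FN N, f ∈ G.O →
    arithmeticGalois (modularFunctionFieldFull N) σ • f ∈ G.O
  galois_x : ∀ σ : Qb ≃ₐ[ℚ] Qb, arithmeticGalois (modularFunctionFieldFull N) σ • G.x = G.x

/-- **RED-E1**: the abstract (i)+(ii) for a `ModDatum` give the Prelude's
`IsPlaceReductionModL`. -/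
def IsPlaceReductionOfIsRedStatement : Prop :=
  ∀ (N : ℕ) (A : ValuationSubring Qb) (M : ModDatum N A)
    (r : Place Qb (FN N) → Place (kA A) (FNk A N)),
    IsRed M.G r → IsPlaceReductionModL A N r

/-- Everything the assembly needs to know about the place map `r` (level `N`). -/
structure PlaceRed (N : ℕ) [NeZero N] (A : ValuationSubring Qb) (ℓ : ℕ) [NeZero ℓ] where
  /-- the place map -/
  r : Place Qb (FN N) → Place (kA A) (FNk A N)
  /-- (i), (ii) -/
  isRed : IsPlaceReductionModL A N r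
  /-- (iii) -/
  pgi : PrincipalGeneratedByIntegral A (residue A) N
  /-- (III) inertia acts trivially after reduction -/
  inertia : ∀ τ ∈ A.inertiaSubgroupIn ℚ, ∀ P : Place Qb (FN N),
    r (arithmeticGalois (modularFunctionFieldFull N) τ • P) = r P
  /-- the coefficientwise Frobenius of `F_{N,k}` -/
  φ : SemilinearAut (kA A) (FNk A N)
  /-- (IV) Frobenius elements reduce to `φ` -/
  frob : ∀ σ : Qb ≃ₐ[ℚ] Qb, A.IsFrobeniusAt σ ℓ → ∀ P : Place Qb (FN N),
    r (arithmeticGalois (modularFunctionFieldFull N) σ • P) = φ • r P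
  /-- (V) pointwise Eichler–Shimura: `r_*(T_ℓ P) = φ(rP) + ℓ·φ⁻¹(rP)` -/
  es : ∀ (hα : HeckeAlphaBarIntegral Qb N ℓ) (hβ : HeckeBetaBarIntegral Qb N ℓ)
    [HasPrincipalDivisors Qb (laurentBaseChange Qb (modularFunctionFieldFull (N * ℓ)))]
    (P : Place Qb (FN N)),
    Finsupp.mapDomain r (heckeDivBar hα hβ (Finsupp.single P 1)) =
      Finsupp.single (φ • r P) 1 + Finsupp.single (φ⁻¹ • r P) (ℓ : ℤ)
  /-- (S18 core, in the `r`-general form `DivisorCore` of helper94) -/
  inj : ∀ m : ℕ, m.Coprime ℓ → ∀ D : Divisor Qb (FN N),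
    Divisor.degree D = 0 → Divisor.IsPrincipal (m • D) →
      Divisor.IsPrincipal (Finsupp.mapDomain r D) → Divisor.IsPrincipal D

/-- **RED-H (assembly, level `N`)**: reduction data for the frozen S37 from `PlaceRed` and
`HeckeInputsAlong` (`red := reductionPic0Along r`). -/
def AssemblyStatement : Prop :=
  ∀ (N : ℕ) [NeZero N] (A : ValuationSubring Qb) (ℓ : ℕ) (hℓ : ℓ.Prime),
    haveI : NeZero ℓ := ⟨hℓ.ne_zero⟩
    HeckeInputsAlong Qb N ℓ → PlaceRed N A ℓ → Nonempty (H99.RedData N A ℓ hℓ)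

end Fermat.Agent.S37.Red

end
end
-- ===== PACK-END S37/Red/SpecMod.lean

-- ===== PACK-BEGIN A3/H75/DiscAlgOfCons.lean
section


/-!
# A3 / LOCAL / DISC (helper75): `DiscAlg` from conservation of zeros

`ConsInput.discRing I Q` : the `A`-algebra of functions of Gauss norm `≤ 1` regular on the residue
disc of `Q`.  `DiscParam.discAlg T : DiscAlg A (discRing I Q)` : it is a disc algebra in the sense
of helper799 (`Fermat/Agent/A3/H799/Disc.lean`), with parameter `t`, and evaluation `ev a` = value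
at the unique point `center a` of the disc with `t = a`.

Dictionary lemmas: `DiscParam.ev_eq_of_hasVal` (the abstract evaluation is the value at the point),
`DiscParam.hasVal_center`, `DiscParam.center_eq`.
-/

set_option autoImplicit false
set_option linter.unusedSectionVars false

noncomputable section

namespace Fermat.Agent.A3.H75

open AlgebraicCurve Fermat.Agent.Lib.RR Fermat.Agent.A3.H799

variable {K : Type*} [Field K] {A : ValuationSubring K} {F : Type*} [Field F] [Algebra K F]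
variable {k : Type*} [Field k] {Fk : Type*} [Field Fk] [Algebra k Fk]

theorem coe_mem_nonunits_of_mem_maximalIdeal (a : IsLocalRing.maximalIdeal A) :
    (((a : A) : K)) ∈ A.nonunits := by
  have h1 : (a : A) ∈ nonunits A := (IsLocalRing.mem_maximalIdeal _).mp a.2
  exact (ValuationSubring.coe_mem_nonunits_iff (A := A)).mpr h1

namespace ConsInput

variable (I : ConsInput A F k Fk) (Q : Place k Fk)

/-- The ring of functions of Gauss norm `≤ 1` which are regular on the residue disc of `Q`. -/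
def discRing : Subalgebra A F where
  carrier := {f | f ∈ I.V ∧ I.RegOn Q f}
  mul_mem' := fun ha hb => ⟨I.V.mul_mem _ _ ha.1 hb.1, ha.2.mul hb.2⟩
  add_mem' := fun ha hb => ⟨I.V.add_mem _ _ ha.1 hb.1, ha.2.add hb.2⟩
  algebraMap_mem' := fun a => ⟨I.algebraMap_mem _ a.2, I.regOn_algebraMap Q _⟩

theorem mem_discRing {f : F} : f ∈ I.discRing Q ↔ f ∈ I.V ∧ I.RegOn Q f := Iff.rfl

/-- a function of the disc ring, as an element of `V` -/
def toV (f : I.discRing Q) : I.V := ⟨(f : F), f.2.1⟩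

@[simp] theorem coe_toV (f : I.discRing Q) : ((I.toV Q f : I.V) : F) = (f : F) := rfl

theorem regOn_coe (f : I.discRing Q) : I.RegOn Q (f : F) := f.2.2

end ConsInput

namespace DiscParam

variable {I : ConsInput A F k Fk} {Q : Place k Fk} (T : DiscParam I Q) [FF1 K F]

/-- the parameter, as an element of the disc ring -/
def tElt : I.discRing Q := ⟨(T.t : F), T.t.2, T.t_reg⟩

@[simp] theorem coe_tElt : ((T.tElt : I.discRing Q) : F) = (T.t : F) := rfl

/-- the point of the disc with parameter value `a` -/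
def center (a : IsLocalRing.maximalIdeal A) : Place K F :=
  (T.exists_center (a : A) (coe_mem_nonunits_of_mem_maximalIdeal a)).choose

theorem r_center (a : IsLocalRing.maximalIdeal A) : I.r (T.center a) = Q :=
  (T.exists_center (a : A) (coe_mem_nonunits_of_mem_maximalIdeal a)).choose_spec.1

theorem hasVal_center (a : IsLocalRing.maximalIdeal A) :
    HasVal (T.center a) (T.t : F) (((a : A) : K)) :=
  (T.exists_center (a : A) (coe_mem_nonunits_of_mem_maximalIdeal a)).choose_spec.2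

/-- a point of the disc is the centre attached to its parameter value -/
theorem center_eq (a : IsLocalRing.maximalIdeal A) (P : Place K F) (hP : I.r P = Q)
    (h : HasVal P (T.t : F) (((a : A) : K))) : T.center a = P :=
  T.center_unique (a : A) (coe_mem_nonunits_of_mem_maximalIdeal a) _ _ (T.r_center a) hP
    (T.hasVal_center a) h

/-- every point of the disc is a centre -/
theorem exists_center_eq (P : Place K F) (hP : I.r P = Q) :
    ∃ a : IsLocalRing.maximalIdeal A, T.center a = P := by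
  obtain ⟨b, hb⟩ := I.exists_hasVal_mem Q T.t T.t_reg P hP
  have hbm := T.mem_nonunits_of_hasVal P hP b hb
  have hb' : b ∈ IsLocalRing.maximalIdeal A := by
    rw [IsLocalRing.mem_maximalIdeal]
    exact (ValuationSubring.coe_mem_nonunits_iff (A := A)).mp hbm
  exact ⟨⟨b, hb'⟩, T.center_eq ⟨b, hb'⟩ P hP hb⟩

/-- the value of a disc function at the centre `a` -/
def evVal (a : IsLocalRing.maximalIdeal A) (f : I.discRing Q) : A :=
  (I.exists_hasVal_mem Q (I.toV Q f) (I.regOn_coe Q f) (T.center a) (T.r_center a)).choose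

theorem hasVal_evVal (a : IsLocalRing.maximalIdeal A) (f : I.discRing Q) :
    HasVal (T.center a) (f : F) ((T.evVal a f : A) : K) :=
  (I.exists_hasVal_mem Q (I.toV Q f) (I.regOn_coe Q f) (T.center a) (T.r_center a)).choose_spec

theorem evVal_eq (a : IsLocalRing.maximalIdeal A) (f : I.discRing Q) (b : A)
    (h : HasVal (T.center a) (f : F) (b : K)) : T.evVal a f = b :=
  Subtype.ext ((T.hasVal_evVal a f).unique h)

/-- evaluation at the centre `a`, as an algebra homomorphism -/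
def ev (a : IsLocalRing.maximalIdeal A) : I.discRing Q →ₐ[A] A where
  toFun := T.evVal a
  map_one' := T.evVal_eq a 1 1 (hasVal_one _)
  map_mul' f g := T.evVal_eq a (f * g) _ ((T.hasVal_evVal a f).mul (T.hasVal_evVal a g))
  map_zero' := T.evVal_eq a 0 0 (hasVal_zero _)
  map_add' f g := T.evVal_eq a (f + g) _ ((T.hasVal_evVal a f).add (T.hasVal_evVal a g))
  commutes' c := T.evVal_eq a _ c (hasVal_algebraMap _ _)

@[simp] theorem ev_apply (a : IsLocalRing.maximalIdeal A) (f : I.discRing Q) :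
    T.ev a f = T.evVal a f := rfl

/-- **Dictionary.**  The abstract evaluation is the value at the point. -/
theorem ev_eq_of_hasVal (a : IsLocalRing.maximalIdeal A) (f : I.discRing Q) (P : Place K F)
    (hP : I.r P = Q) (ht : HasVal P (T.t : F) (((a : A) : K))) (b : A)
    (hf : HasVal P (f : F) (b : K)) : T.ev a f = b := by
  have hc := T.center_eq a P hP ht
  apply T.evVal_eq
  rw [hc]
  exact hf

theorem ev_tElt (a : IsLocalRing.maximalIdeal A) : T.ev a T.tElt = (a : A) :=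
  T.evVal_eq a T.tElt (a : A) (T.hasVal_center a)

/-- **Taylor.**  If `f` vanishes at the centre `a` then `f / (t - a)` is in the disc ring. -/
theorem div_shift_mem (a : IsLocalRing.maximalIdeal A) (f : I.discRing Q)
    (hf : HasVal (T.center a) (f : F) 0) :
    (f : F) * (((T.shift (a : A) : I.V) : F))⁻¹ ∈ I.discRing Q := by
  have ha := coe_mem_nonunits_of_mem_maximalIdeal a
  have hu0 := T.shift_ne_zero (a : A) ha
  have hunit : ((T.shift (a : A) : I.V) : F) ∉ I.V.nonunits := by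
    intro h
    exact T.ρ_shift_ne_zero (a : A) ha ((I.ρ_eq_zero _).mpr h)
  have hinv := (inv_mem_of_not_mem_nonunits I.V hunit).2
  refine ⟨I.V.mul_mem _ _ f.2.1 hinv, fun P hP => ?_⟩
  by_cases hf0 : (f : F) = 0
  · rw [hf0, zero_mul]
    exact P.toValuationSubring.zero_mem
  apply mem_of_ord_nonneg
  rw [P.ord_mul hf0 (inv_ne_zero hu0), P.ord_inv]
  by_cases hPc : P = T.center a
  · subst hPc
    have h1 := T.ord_shift_le_one (a : A) ha _ hP
    rcases (hasVal_zero_iff _ _).mp hf with h0 | hpos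
    · exact absurd h0 hf0
    · omega
  · have h1 := T.ord_shift_eq_zero (a : A) ha (T.center a) P (T.r_center a) hP
      (T.hasVal_center a) hPc
    have h2 := ord_nonneg_of_mem P (f.2.2 P hP)
    omega

/-- **The disc algebra of a residue disc.** -/
def discAlg : DiscAlg A (I.discRing Q) where
  t := T.tElt
  ev := T.ev
  ev_t := T.ev_tElt
  taylor := by
    intro a f
    have ha := coe_mem_nonunits_of_mem_maximalIdeal a
    have hu0 := T.shift_ne_zero (a : A) ha
    set g : I.discRing Q := f - algebraMap A (I.discRing Q) (T.ev a f) with hg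
    have hgval : HasVal (T.center a) (g : F) 0 := by
      have h1 := (T.hasVal_evVal a f).sub (hasVal_algebraMap (T.center a) ((T.evVal a f : A) : K))
      rw [sub_self] at h1
      exact h1
    refine ⟨⟨_, T.div_shift_mem a g hgval⟩, Subtype.ext ?_⟩
    show (f : F) = algebraMap K F ((T.evVal a f : A) : K) +
      ((T.t : F) - algebraMap K F ((a : A) : K)) *
        (((f : F) - algebraMap K F ((T.evVal a f : A) : K)) *
          (((T.shift (a : A) : I.V) : F))⁻¹)
    rw [coe_shift]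
    have hne : (T.t : F) - algebraMap K F ((a : A) : K) ≠ 0 := by
      rw [← coe_shift]
      exact hu0
    field_simp
    ring
  nzd := by
    intro a f hf
    have ha := coe_mem_nonunits_of_mem_maximalIdeal a
    have hu0 := T.shift_ne_zero (a : A) ha
    have h1 := congrArg (Subtype.val) hf
    have h2 : ((T.t : F) - algebraMap K F ((a : A) : K)) * (f : F) = 0 := h1
    rw [← coe_shift] at h2
    rcases mul_eq_zero.mp h2 with h | h
    · exact absurd h hu0
    · exact Subtype.ext h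

@[simp] theorem discAlg_t : T.discAlg.t = T.tElt := rfl

@[simp] theorem discAlg_ev (a : IsLocalRing.maximalIdeal A) : T.discAlg.ev a = T.ev a := rfl

end DiscParam

end Fermat.Agent.A3.H75

end
end
-- ===== PACK-END A3/H75/DiscAlgOfCons.lean

-- ===== PACK-BEGIN A2/Mod/H142/S2Frob.lean
section




/-!
# A2 / MODASM S2 — concrete basics (helper142)

* `inW_iff` : `InW V w f ↔ v(f) < 1` for a uniformiser `w`;
* `inW_mul`, `inW_add`, ... : ideal properties of `w V`;
* `frobCong` : `j_{dq} ≡ j_d ^ q  mod w V∞` (integer series, `q ∈ w R`);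
* `frobCong_inv` : `j_{dq}⁻¹ ≡ (j_d⁻¹) ^ q  mod w V∞`.
-/

set_option autoImplicit false
set_option synthInstance.maxHeartbeats 400000
set_option maxHeartbeats 1600000
set_option linter.unusedSectionVars false
set_option linter.style.haveILetI false

noncomputable section

namespace Fermat.Agent.A2.Mod.H142

open ModularCurve HahnSeries Polynomial

variable (P : ValuationSubring _root_.Fermat.Agent.A2.Mod.Qb) (E : IntermediateField ℚ _root_.Fermat.Agent.A2.Mod.Qb)

section Basic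

variable {P E} {N : ℕ} {V : ValuationSubring (_root_.Fermat.Agent.A2.Mod.FE E N)} {w : _root_.Fermat.Agent.A2.Mod.RE P E}

theorem inW_iff (hU : H48.IsUnif V (cE P E N w)) (f : _root_.Fermat.Agent.A2.Mod.FE E N) :
    InW P E N V w f ↔ V.valuation f < 1 :=
  hU.mul_inv_mem_iff

theorem inW_mul_right {f : _root_.Fermat.Agent.A2.Mod.FE E N} (hf : InW P E N V w f) {g : _root_.Fermat.Agent.A2.Mod.FE E N} (hg : g ∈ V) :
    InW P E N V w (f * g) := by
  unfold InW at hf ⊢
  have : f * g * (cE P E N w)⁻¹ = f * (cE P E N w)⁻¹ * g := by ring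
  rw [this]
  exact V.mul_mem _ _ hf hg

theorem inW_neg {f : _root_.Fermat.Agent.A2.Mod.FE E N} (hf : InW P E N V w f) : InW P E N V w (-f) := by
  unfold InW at hf ⊢
  rw [neg_mul]
  exact V.neg_mem _ hf

theorem inW_add {f g : _root_.Fermat.Agent.A2.Mod.FE E N} (hf : InW P E N V w f) (hg : InW P E N V w g) :
    InW P E N V w (f + g) := by
  unfold InW at hf hg ⊢
  rw [add_mul]
  exact V.add_mem _ _ hf hg

theorem inW_sub {f g : _root_.Fermat.Agent.A2.Mod.FE E N} (hf : InW P E N V w f) (hg : InW P E N V w g) :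
    InW P E N V w (f - g) := by
  unfold InW at hf hg ⊢
  rw [sub_mul]
  exact sub_mem hf hg

end Basic

section Frob

variable {P E}

/-- `q = r * w` in `R_E` when `P` lies over `q` and `w` is a uniformiser. -/
theorem exists_mul_eq_natCast {w : _root_.Fermat.Agent.A2.Mod.RE P E} {q : ℕ} (hdvr : IsDiscreteValuationRing (_root_.Fermat.Agent.A2.Mod.RE P E))
    (hw : Irreducible w) (hP : P.LiesOverPrime q) : ∃ r : _root_.Fermat.Agent.A2.Mod.RE P E, r * w = (q : _root_.Fermat.Agent.A2.Mod.RE P E) := by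
  haveI := hdvr
  have hmem : ((q : ℕ) : _root_.Fermat.Agent.A2.Mod.RE P E) ∈ IsLocalRing.maximalIdeal (_root_.Fermat.Agent.A2.Mod.RE P E) := by
    rw [IsLocalRing.mem_maximalIdeal, mem_nonunits_iff]
    intro hu
    obtain ⟨u, hu'⟩ := hu
    have h1 : (((u : _root_.Fermat.Agent.A2.Mod.RE P E) : E) : _root_.Fermat.Agent.A2.Mod.Qb) = (q : _root_.Fermat.Agent.A2.Mod.Qb) := by
      rw [hu']
      push_cast
      rfl
    have h3 : ((((u⁻¹ : (_root_.Fermat.Agent.A2.Mod.RE P E)ˣ) : _root_.Fermat.Agent.A2.Mod.RE P E) : E) : _root_.Fermat.Agent.A2.Mod.Qb) ∈ P := ((u⁻¹ : (_root_.Fermat.Agent.A2.Mod.RE P E)ˣ) : _root_.Fermat.Agent.A2.Mod.RE P E).2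
    have h4 : ((((u⁻¹ : (_root_.Fermat.Agent.A2.Mod.RE P E)ˣ) : _root_.Fermat.Agent.A2.Mod.RE P E) : E) : _root_.Fermat.Agent.A2.Mod.Qb) * (q : _root_.Fermat.Agent.A2.Mod.Qb) = 1 := by
      rw [← h1]
      have h5 : ((u⁻¹ : (_root_.Fermat.Agent.A2.Mod.RE P E)ˣ) : _root_.Fermat.Agent.A2.Mod.RE P E) * (u : _root_.Fermat.Agent.A2.Mod.RE P E) = 1 := Units.inv_mul u
      calc ((((u⁻¹ : (_root_.Fermat.Agent.A2.Mod.RE P E)ˣ) : _root_.Fermat.Agent.A2.Mod.RE P E) : E) : _root_.Fermat.Agent.A2.Mod.Qb) * (((u : _root_.Fermat.Agent.A2.Mod.RE P E) : E) : _root_.Fermat.Agent.A2.Mod.Qb)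
          = (((((u⁻¹ : (_root_.Fermat.Agent.A2.Mod.RE P E)ˣ) : _root_.Fermat.Agent.A2.Mod.RE P E) * (u : _root_.Fermat.Agent.A2.Mod.RE P E) : _root_.Fermat.Agent.A2.Mod.RE P E) : E) : _root_.Fermat.Agent.A2.Mod.Qb) := rfl
        _ = 1 := by rw [h5]; rfl
    have hq' : (q : _root_.Fermat.Agent.A2.Mod.Qb) ∈ P.nonunits := hP
    rw [ValuationSubring.mem_nonunits_iff_exists_mem_maximalIdeal] at hq'
    obtain ⟨hqP, hqm⟩ := hq'
    rw [IsLocalRing.mem_maximalIdeal, mem_nonunits_iff] at hqm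
    apply hqm
    refine IsUnit.of_mul_eq_one ⟨_, h3⟩ ?_
    exact Subtype.ext (by rw [mul_comm]; exact h4)
  rw [hw.maximalIdeal_eq, Ideal.mem_span_singleton'] at hmem
  exact hmem

/-- An element of `F_N` whose expansion is `q` times an integer series lies in `w V∞`. -/
theorem inW_of_coe_eq {w : _root_.Fermat.Agent.A2.Mod.RE P E} {q : ℕ} (hq0 : q ≠ 0)
    (hdvr : IsDiscreteValuationRing (_root_.Fermat.Agent.A2.Mod.RE P E))
    (hw : Irreducible w) (hP : P.LiesOverPrime q) {N : ℕ} (hN : N ≠ 0)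
    {V : ValuationSubring (_root_.Fermat.Agent.A2.Mod.FE E N)} (hV : IsVinf P E N V) (D : _root_.Fermat.Agent.A2.Mod.FE E N) (g : LaurentSeries ℤ)
    (hD : (D : LaurentSeries E) = coeffEmb E (H708.castQ (HahnSeries.C (q : ℤ) * g))) :
    InW P E N V w D := by
  haveI := hdvr
  obtain ⟨r, hr⟩ := exists_mul_eq_natCast hdvr hw hP
  have hL2 := H553.vinfBasic P E w N hN hdvr hw V hV
  have hw0 : (w : E) ≠ 0 := fun h0 => hw.ne_zero (Subtype.ext h0)
  have hcw : cE P E N w ≠ 0 := (_root_.map_ne_zero_iff _ (algebraMap E (_root_.Fermat.Agent.A2.Mod.FE E N)).injective).mpr hw0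
  have hqE : ((q : ℕ) : E) ≠ 0 := Nat.cast_ne_zero.mpr hq0
  have hqF : ((q : ℕ) : _root_.Fermat.Agent.A2.Mod.FE E N) ≠ 0 := Nat.cast_ne_zero.mpr hq0
  -- `G := D / q` has integral expansion `g`
  obtain ⟨G, hG⟩ : ∃ G : _root_.Fermat.Agent.A2.Mod.FE E N, G = D * ((q : ℕ) : _root_.Fermat.Agent.A2.Mod.FE E N)⁻¹ := ⟨_, rfl⟩
  have hqL : ((q : ℕ) : LaurentSeries E) ≠ 0 := by
    rw [← _root_.map_natCast (algebraMap E (LaurentSeries E))]
    exact (_root_.map_ne_zero _).mpr hqE
  have hCq : coeffEmb E (H708.castQ (HahnSeries.C (q : ℤ))) = ((q : ℕ) : LaurentSeries E) := by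
    have h1 : (HahnSeries.C (q : ℤ) : LaurentSeries ℤ) = ((q : ℕ) : LaurentSeries ℤ) := by
      rw [← _root_.map_natCast (HahnSeries.C : ℤ →+* LaurentSeries ℤ)]
    rw [h1, _root_.map_natCast, _root_.map_natCast]
  have hGc : (G : LaurentSeries E) = coeffEmb E (H708.castQ g) := by
    have h1 : (G : LaurentSeries E) = (D : LaurentSeries E) * ((q : ℕ) : LaurentSeries E)⁻¹ := by
      rw [hG]
      push_cast
      rfl
    rw [h1, hD, _root_.map_mul, _root_.map_mul, hCq, mul_comm (((q : ℕ) : LaurentSeries E)), mul_assoc,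
      mul_inv_cancel₀ hqL, mul_one]
  have hGV : G ∈ V := H553.mem_of_int hV hGc
  have hrV : algebraMap E (_root_.Fermat.Agent.A2.Mod.FE E N) (r : E) ∈ V := (hL2.2.1 _).mpr r.2
  have hqr : ((q : ℕ) : _root_.Fermat.Agent.A2.Mod.FE E N) = algebraMap E (_root_.Fermat.Agent.A2.Mod.FE E N) (r : E) * cE P E N w := by
    have h1 : ((r * w : _root_.Fermat.Agent.A2.Mod.RE P E) : E) = ((q : ℕ) : E) := by
      rw [hr]
      rfl
    have h2 : ((r * w : _root_.Fermat.Agent.A2.Mod.RE P E) : E) = (r : E) * (w : E) := rfl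
    rw [h2] at h1
    unfold cE
    rw [← _root_.map_mul, h1, _root_.map_natCast]
  have hDG : D = G * ((q : ℕ) : _root_.Fermat.Agent.A2.Mod.FE E N) := by
    rw [hG, mul_assoc, inv_mul_cancel₀ hqF, mul_one]
  unfold InW
  have : D * (cE P E N w)⁻¹ = G * algebraMap E (_root_.Fermat.Agent.A2.Mod.FE E N) (r : E) := by
    rw [hDG, hqr, mul_assoc, mul_assoc, mul_inv_cancel₀ hcw, mul_one]
  rw [this]
  exact V.mul_mem _ _ hGV hrV

/-- **Frobenius congruence** at level `E`: `j_{dq} ≡ j_d ^ q mod w V∞`. -/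
theorem frobCong {w : _root_.Fermat.Agent.A2.Mod.RE P E} {q : ℕ} (hq : q.Prime)
    (hdvr : IsDiscreteValuationRing (_root_.Fermat.Agent.A2.Mod.RE P E))
    (hw : Irreducible w) (hP : P.LiesOverPrime q) {N : ℕ} (hN : N ≠ 0)
    {V : ValuationSubring (_root_.Fermat.Agent.A2.Mod.FE E N)} (hV : IsVinf P E N V)
    (d : ℕ) [NeZero d] [NeZero (d * q)] (hd : d ∣ N) (hdq : d * q ∣ N) :
    InW P E N V w (jE E N (d * q) hdq - jE E N d hd ^ q) := by
  haveI : Fact q.Prime := ⟨hq⟩
  haveI : NeZero q := ⟨hq.ne_zero⟩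
  obtain ⟨g, hg⟩ := H528.exists_frobCong q (H708.jInt d)
  refine inW_of_coe_eq hq.ne_zero hdvr hw hP hN hV _ g ?_
  rw [← hg]
  have h1 : qExpand ℤ q (H708.jInt d) = H708.jInt (d * q) := by
    rw [H708.jInt, H708.jInt, jqNModC, jqNModC, qExpand_qExpand]
    exact qExpand_congr (mul_comm q d) _
  rw [h1, _root_.map_sub, _root_.map_sub, _root_.map_pow, _root_.map_pow]
  show ((jE E N (d * q) hdq : _root_.Fermat.Agent.A2.Mod.FE E N) : LaurentSeries E)
    - ((jE E N d hd : _root_.Fermat.Agent.A2.Mod.FE E N) : LaurentSeries E) ^ q = _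
  rw [H553.coe_jE, H553.coe_jE]

end Frob

end Fermat.Agent.A2.Mod.H142

end
end
-- ===== PACK-END A2/Mod/H142/S2Frob.lean

-- ===== PACK-BEGIN S18/H203/TraceRed.lean
section


/-!
# S18 / b1–b2.1 (helper203): traces and discriminants commute with reduction mod `w`

Setting of `LiftBasis.lean` / `KBasis.lean`: `S` Noetherian integrally closed domain, `w ∈ S`
prime, `K = Frac S`, `F / K` finite, `B` the integral closure of `S` in `F`, finite over `S`;
`S̄ = S ⧸ (w)`, `B̄ = B ⧸ (w) B`, and `b̄` an `S̄`-basis of `B̄`.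

* `trace_redB` : if `τ ∈ S` is the trace `Tr_{F/K} β` of `β ∈ B`, then
  `Tr_{B̄ / S̄} (β mod w) = τ mod w`.
* `exists_trace_eq` : the trace of `β ∈ B` lies in `S`.
* `exists_discr_eq` : for lifts `b i ∈ B` of `b̄ i` there is `d ∈ S` which is the discriminant of
  the `K`-basis `b` of `F` and whose reduction is the discriminant of the `S̄`-basis `b̄` of `B̄`.
-/

set_option autoImplicit false

namespace Fermat.Agent.S18.H203

open Ideal

section General

variable {R A : Type*} [CommRing R] [CommRing A] [Algebra R A]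
  {ι : Type*} [Fintype ι] [DecidableEq ι]

/-- Trace from a "matrix up to a scalar": if `r • (x * bas j) = ∑ i, s i j • bas i` for all `j`
then `r * Tr x = ∑ i, s i i`. -/
theorem mul_trace_eq_sum (bas : Module.Basis ι R A) (x : A) (r : R) (s : ι → ι → R)
    (h : ∀ j, r • (x * bas j) = ∑ i, s i j • bas i) :
    r * Algebra.trace R A x = ∑ i, s i i := by
  rw [Algebra.trace_eq_matrix_trace bas, Matrix.trace, Finset.mul_sum]
  refine Finset.sum_congr rfl fun i _ => ?_
  rw [Matrix.diag_apply, Algebra.leftMulMatrix_eq_repr_mul]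
  have h1 := congrArg (fun v => bas.repr v i) (h i)
  simp only [map_smul, Finsupp.smul_apply, _root_.smul_eq_mul, map_sum, Finsupp.coe_finsetSum,
    Finset.sum_apply, Module.Basis.repr_self, Finsupp.single_apply, mul_ite, mul_one,
    mul_zero, Finset.sum_ite_eq', Finset.mem_univ, if_true] at h1
  exact h1

end General

section

variable {S B : Type*} [CommRing S] [IsDomain S] [IsNoetherianRing S] [IsIntegrallyClosed S]
  [CommRing B] [Algebra S B] {ι : Type*} [Fintype ι] [DecidableEq ι]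

omit [IsNoetherianRing S] [IsDomain S] [DecidableEq ι] [Fintype ι] in
/-- The trace of an element of the integral closure lies in `S`. -/
theorem exists_trace_eq (K F : Type*) [Field K] [Algebra S K]
    [IsFractionRing S K] [Field F] [Algebra K F] [Algebra S F] [IsScalarTower S K F]
    [Algebra B F] [IsScalarTower S B F] [IsIntegralClosure B S F] [FiniteDimensional K F]
    (β : B) : ∃ τ : S, algebraMap S K τ = Algebra.trace K F (algebraMap B F β) := by
  have h1 : IsIntegral S (algebraMap B F β) := (IsIntegralClosure.isIntegral S F β).algebraMap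
  have h2 : IsIntegral S (Algebra.trace K F (algebraMap B F β)) := Algebra.isIntegral_trace h1
  exact IsIntegrallyClosed.isIntegral_iff.mp h2

omit [IsIntegrallyClosed S] in
/-- **Traces commute with reduction mod `w`.** -/
theorem trace_redB (K F : Type*) [Field K] [Algebra S K]
    [IsFractionRing S K] [Field F] [Algebra K F] [Algebra S F] [IsScalarTower S K F]
    [Algebra B F] [IsScalarTower S B F] [IsIntegralClosure B S F]
    [Module.Finite S B] [FiniteDimensional K F]
    {w : S} (hw : Prime w)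
    (bbar : Module.Basis ι (S ⧸ Ideal.span {w}) (B ⧸ (Ideal.span {w}).map (algebraMap S B)))
    (β : B) (τ : S) (hτ : algebraMap S K τ = Algebra.trace K F (algebraMap B F β)) :
    Algebra.trace (S ⧸ Ideal.span {w}) (B ⧸ (Ideal.span {w}).map (algebraMap S B))
      (redB (S := S) w β) = redS w τ := by
  -- lifts of the basis
  choose b hb using fun i => Ideal.Quotient.mk_surjective (bbar i)
  have hfun : (fun i => redB (S := S) w (b i)) = ⇑bbar := funext hb
  have hli : LinearIndependent (S ⧸ Ideal.span {w}) fun i => redB (S := S) w (b i) := by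
    rw [hfun]; exact bbar.linearIndependent
  have hspan : Submodule.span (S ⧸ Ideal.span {w})
      (Set.range fun i => redB (S := S) w (b i)) = ⊤ := by
    rw [hfun]; exact bbar.span_eq
  -- the `K`-basis
  set bK : Module.Basis ι K F := basisOfLift K F hw b hli hspan with hbK
  -- Nakayama
  obtain ⟨r, hr1, hr⟩ := exists_smul_mem_span w b hspan
  have hrbar : redS w r = 1 := by
    have : redS w (r - 1) = 0 := Ideal.Quotient.eq_zero_iff_mem.mpr hr1
    rwa [map_sub, map_one, sub_eq_zero] at this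
  -- the matrix
  have hex : ∀ j, ∃ c : ι → S, r • (β * b j) = ∑ i, c i • b i := fun j => by
    obtain ⟨c, hc⟩ := (Submodule.mem_span_range_iff_exists_fun S).mp (hr (β * b j))
    exact ⟨c, hc.symm⟩
  choose s hs using hex
  -- generic fibre
  have hK : ∀ j, algebraMap S K r • (algebraMap B F β * bK j) =
      ∑ i, algebraMap S K (s j i) • bK i := by
    intro j
    have := congrArg (algebraMap B F) (hs j)
    simp only [map_sum, Algebra.smul_def, _root_.map_mul, ← IsScalarTower.algebraMap_apply] at this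
    simp only [hbK, basisOfLift_apply, Algebra.smul_def, ← IsScalarTower.algebraMap_apply]
    exact this
  have e1 : algebraMap S K r * Algebra.trace K F (algebraMap B F β) =
      ∑ i, algebraMap S K (s i i) :=
    mul_trace_eq_sum bK (algebraMap B F β) (algebraMap S K r)
      (fun i j => algebraMap S K (s j i)) hK
  have e2 : r * τ = ∑ i, s i i := by
    apply IsFractionRing.injective S K
    rw [_root_.map_mul, hτ, e1, map_sum]
  -- special fibre
  have hbar : ∀ j, (1 : S ⧸ Ideal.span {w}) • (redB (S := S) w β * bbar j) =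
      ∑ i, redS w (s j i) • bbar i := by
    intro j
    have := congrArg (redB (S := S) w) (hs j)
    rw [redB_smul, hrbar, _root_.map_mul, map_sum, hb] at this
    rw [this]
    refine Finset.sum_congr rfl fun i _ => ?_
    rw [redB_smul, hb]
  have e3 := mul_trace_eq_sum bbar (redB (S := S) w β) 1 (fun i j => redS w (s j i)) hbar
  rw [one_mul] at e3
  rw [e3, ← map_sum, ← e2, _root_.map_mul, hrbar, one_mul]

/-- **Discriminants commute with reduction mod `w`.** -/
theorem exists_discr_eq (K F : Type*) [Field K] [Algebra S K]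
    [IsFractionRing S K] [Field F] [Algebra K F] [Algebra S F] [IsScalarTower S K F]
    [Algebra B F] [IsScalarTower S B F] [IsIntegralClosure B S F]
    [Module.Finite S B] [FiniteDimensional K F]
    {w : S} (hw : Prime w)
    (bbar : Module.Basis ι (S ⧸ Ideal.span {w}) (B ⧸ (Ideal.span {w}).map (algebraMap S B)))
    (b : ι → B) (hb : ∀ i, redB (S := S) w (b i) = bbar i) :
    ∃ d : S, algebraMap S K d = Algebra.discr K (fun i => algebraMap B F (b i)) ∧
      redS w d = Algebra.discr (S ⧸ Ideal.span {w}) bbar := by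
  choose D hD using fun p : ι × ι => exists_trace_eq (S := S) K F (b p.1 * b p.2)
  refine ⟨(Matrix.of fun i j => D (i, j)).det, ?_, ?_⟩
  · rw [Algebra.discr_def, RingHom.map_det]
    congr 1
    ext i j
    simp only [RingHom.mapMatrix_apply, Matrix.map_apply, Matrix.of_apply,
      Algebra.traceMatrix_apply, Algebra.traceForm_apply, hD (i, j), _root_.map_mul]
  · rw [Algebra.discr_def, RingHom.map_det]
    congr 1
    ext i j
    simp only [RingHom.mapMatrix_apply, Matrix.map_apply, Matrix.of_apply,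
      Algebra.traceMatrix_apply, Algebra.traceForm_apply]
    rw [← hb i, ← hb j, ← _root_.map_mul]
    exact (trace_redB K F hw bbar (b i * b j) (D (i, j)) (hD (i, j))).symm

end

end Fermat.Agent.S18.H203

end
-- ===== PACK-END S18/H203/TraceRed.lean

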