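import Mathlib
import Fermat.Prelude.Def_ModularCurve_HeckeModule
import Fermat.Agent.Pack.S33.E13L1
import Fermat.Agent.Pack.S33.E4L1
import Fermat.Agent.Pack.S33.E13L3
import Fermat.Agent.Pack.S33.E1L0
import Fermat.Agent.Pack.S33.E10L2
import Fermat.Agent.Pack.S33.E10L3
import Fermat.Agent.Pack.S33.E8L2
import Fermat.Agent.Pack.S33.E12L0
import Fermat.Agent.Pack.S33.E10L1
import Fermat.Agent.Pack.S33.E12L1
import Fermat.Agent.Pack.S33.E8L3
import Fermat.Agent.Pack.S33.E12L3
import Fermat.Agent.Pack.S33.E11L2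
import Fermat.Agent.Pack.S33.E0L1
import Fermat.Agent.Pack.S33.E11L1
import Fermat.Agent.Pack.S33.E5L3
import Fermat.Agent.Pack.S33.E5L2
import Fermat.Agent.Pack.S33.E3L2

-- ===== PACK-BEGIN Lib/NormL/Periodic.lean
section


/-!
# `NormL`, block KEY, part 1: `x ↦ N(x) mod m` is periodic modulo `m 𝓞 K`
-/

namespace Fermat.Agent.Lib.NormL

open NumberField

variable {K : Type*} [Field K] [NumberField K]

theorem intCast_det_zmod {ι : Type*} [Fintype ι] [DecidableEq ι] (m : ℕ) (M : Matrix ι ι ℤ) :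
    ((M.det : ℤ) : ZMod m) = ((Int.castRingHom (ZMod m)).mapMatrix M).det := by
  rw [← RingHom.map_det]
  rfl

theorem norm_add_natCast_mul_zmod (m : ℕ) (x y : 𝓞 K) :
    ((Algebra.norm ℤ (x + (m : 𝓞 K) * y) : ℤ) : ZMod m) =
      ((Algebra.norm ℤ x : ℤ) : ZMod m) := by
  classical
  let b := RingOfIntegers.basis K
  rw [Algebra.norm_eq_matrix_det b, Algebra.norm_eq_matrix_det b, intCast_det_zmod,
    intCast_det_zmod]
  congr 1
  rw [map_add (Algebra.leftMulMatrix b), map_mul (Algebra.leftMulMatrix b), map_add, map_mul,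
    map_natCast (Algebra.leftMulMatrix b), map_natCast]
  have h0 : ((m : ℕ) : Matrix (Module.Free.ChooseBasisIndex ℤ (𝓞 K))
      (Module.Free.ChooseBasisIndex ℤ (𝓞 K)) (ZMod m)) = 0 := by
    ext i j
    rw [Matrix.natCast_apply]
    simp
  rw [h0, zero_mul, add_zero]

/-- Periodicity modulo the ideal generated by `m`. -/
theorem norm_add_zmod_of_mem (m : ℕ) (x : 𝓞 K) {y : 𝓞 K}
    (hy : y ∈ Ideal.span {(m : 𝓞 K)}) :
    ((Algebra.norm ℤ (x + y) : ℤ) : ZMod m) = ((Algebra.norm ℤ x : ℤ) : ZMod m) := by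
  obtain ⟨z, rfl⟩ := Ideal.mem_span_singleton'.mp hy
  rw [mul_comm]
  exact norm_add_natCast_mul_zmod m x z

/-- If `x ≡ x'` modulo `m`, the norms agree modulo `m`. -/
theorem norm_zmod_eq_of_sub_mem (m : ℕ) {x x' : 𝓞 K}
    (h : x - x' ∈ Ideal.span {(m : 𝓞 K)}) :
    ((Algebra.norm ℤ x : ℤ) : ZMod m) = ((Algebra.norm ℤ x' : ℤ) : ZMod m) := by
  have := norm_add_zmod_of_mem m x' h
  rwa [add_sub_cancel] at this

end Fermat.Agent.Lib.NormL

end
-- ===== PACK-END Lib/NormL/Periodic.lean

-- ===== PACK-BEGIN Lib/NormL/Cls_584.lean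
section



/-!
# `NormL`, block CLS (helper584): decomposition of `normL` along ideal classes

* `normL_eq_sum_classL` (CLS1): `normL K χ s = ∑ C, classL K χ C s` for `s > 1`;
* `prinL_eq_mul_classL` (CLS2): if `[J] = C⁻¹` then
  `prinL K χ J s = χ(N J) * N(J)^(-s) * classL K χ C s`.

Statements are those of `Fermat/Agent/Lib/NormL/Interface.lean` (origin/helper44 @c43fef9),
with `classL` from `Defs.lean`.
-/

namespace Fermat.Agent.Lib.NormL

open NumberField NumberField.mixedEmbedding
open scoped nonZeroDivisors Classical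

variable (K : Type*) [Field K] [NumberField K]

/-- The general term of `normL`. -/
noncomputable def normLTerm {m : ℕ} (χ : DirichletCharacter ℂ m) (s : ℝ)
    (I : (Ideal (𝓞 K))⁰) : ℂ :=
  χ ((Ideal.absNorm (I : Ideal (𝓞 K)) : ℕ) : ZMod m) *
    (((Ideal.absNorm (I : Ideal (𝓞 K)) : ℝ) ^ (-s) : ℝ) : ℂ)

lemma normL_eq_tsum_normLTerm {m : ℕ} (χ : DirichletCharacter ℂ m) (s : ℝ) :
    normL K χ s = ∑' I : (Ideal (𝓞 K))⁰, normLTerm K χ s I := rfl

lemma classL_eq_tsum_normLTerm {m : ℕ} (χ : DirichletCharacter ℂ m) (C : ClassGroup (𝓞 K))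
    (s : ℝ) :
    classL K χ C s = ∑' I : {I : (Ideal (𝓞 K))⁰ // ClassGroup.mk0 I = C}, normLTerm K χ s I.1 :=
  rfl

lemma prinL_eq_tsum_normLTerm {m : ℕ} (χ : DirichletCharacter ℂ m) (A : Ideal (𝓞 K)) (s : ℝ) :
    prinL K χ A s =
      ∑' I : {I : (Ideal (𝓞 K))⁰ // (I : Ideal (𝓞 K)).IsPrincipal ∧ A ∣ (I : Ideal (𝓞 K))},
        normLTerm K χ s I.1 := rfl

lemma norm_normLTerm_le {m : ℕ} (χ : DirichletCharacter ℂ m) (s : ℝ) (I : (Ideal (𝓞 K))⁰) :
    ‖normLTerm K χ s I‖ ≤ (Ideal.absNorm (I : Ideal (𝓞 K)) : ℝ) ^ (-s) := by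
  unfold normLTerm
  rw [norm_mul, Complex.norm_real, Real.norm_eq_abs,
    abs_of_nonneg (Real.rpow_nonneg (Nat.cast_nonneg _) _)]
  calc ‖χ ((Ideal.absNorm (I : Ideal (𝓞 K)) : ℕ) : ZMod m)‖ *
        (Ideal.absNorm (I : Ideal (𝓞 K)) : ℝ) ^ (-s)
      ≤ 1 * (Ideal.absNorm (I : Ideal (𝓞 K)) : ℝ) ^ (-s) :=
        mul_le_mul_of_nonneg_right (DirichletCharacter.norm_le_one χ _)
          (Real.rpow_nonneg (Nat.cast_nonneg _) _)
    _ = _ := one_mul _

/-- Summability of the terms of `normL` for `s > 1`. -/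
theorem summable_normLTerm {m : ℕ} (χ : DirichletCharacter ℂ m) {s : ℝ} (hs : 1 < s) :
    Summable (normLTerm K χ s) := by
  have h1 : Summable (fun I : (Ideal (𝓞 K))⁰ ↦ (Ideal.absNorm (I : Ideal (𝓞 K)) : ℝ) ^ (-s)) :=
    (Fermat.Agent.Lib.EulerProd.summable_absNorm_rpow K hs).comp_injective
      Subtype.val_injective
  exact Summable.of_norm_bounded h1 (norm_normLTerm_le K χ s)

/-- CLS1 -/
theorem normL_eq_sum_classL {m : ℕ} (χ : DirichletCharacter ℂ m) {s : ℝ} (hs : 1 < s) :
    normL K χ s = ∑ C : ClassGroup (𝓞 K), classL K χ C s := by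
  have hsum := summable_normLTerm K χ hs
  set e := Equiv.sigmaFiberEquiv (fun I : (Ideal (𝓞 K))⁰ ↦ ClassGroup.mk0 I) with he
  have hsum' : Summable (fun x : (Σ C : ClassGroup (𝓞 K),
      {I : (Ideal (𝓞 K))⁰ // ClassGroup.mk0 I = C}) ↦ normLTerm K χ s (e x)) :=
    e.summable_iff.mpr hsum
  rw [normL_eq_tsum_normLTerm, ← e.tsum_eq (normLTerm K χ s), hsum'.tsum_sigma, tsum_fintype]
  rfl

/-- multiplicativity of the general term -/
lemma normLTerm_mul {m : ℕ} (χ : DirichletCharacter ℂ m) (s : ℝ) (I J : (Ideal (𝓞 K))⁰) :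
    normLTerm K χ s (I * J) = normLTerm K χ s I * normLTerm K χ s J := by
  unfold normLTerm
  have h1 : Ideal.absNorm ((I * J : (Ideal (𝓞 K))⁰) : Ideal (𝓞 K)) =
      Ideal.absNorm (I : Ideal (𝓞 K)) * Ideal.absNorm (J : Ideal (𝓞 K)) := by
    rw [Submonoid.coe_mul, map_mul]
  rw [h1, Nat.cast_mul, map_mul, Nat.cast_mul,
    Real.mul_rpow (Nat.cast_nonneg _) (Nat.cast_nonneg _), Complex.ofReal_mul]
  ring

/-- The bijection between the ideals of the class `C` and the principal ideals divisible by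
`J`, where `[J] = C⁻¹`. -/
noncomputable def classEquivPrin (C : ClassGroup (𝓞 K)) (J : (Ideal (𝓞 K))⁰)
    (hJ : ClassGroup.mk0 J = C⁻¹) :
    {I : (Ideal (𝓞 K))⁰ // ClassGroup.mk0 I = C} ≃
      {I : (Ideal (𝓞 K))⁰ // (I : Ideal (𝓞 K)).IsPrincipal ∧ J.1 ∣ (I : Ideal (𝓞 K))} where
  toFun I := ⟨J * I.1, by
    constructor
    · rw [← ClassGroup.mk0_eq_one_iff (J * I.1).2, map_mul, hJ, I.2, inv_mul_cancel]
    · rw [Submonoid.coe_mul]
      exact Dvd.intro _ rfl⟩
  invFun I := ⟨⟨(I.2.2).choose, by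
      rw [mem_nonZeroDivisors_iff_ne_zero]
      intro h0
      have h := (I.2.2).choose_spec
      rw [h0, mul_zero] at h
      exact nonZeroDivisors.coe_ne_zero I.1 h⟩, by
    have h := (I.2.2).choose_spec
    have hprin : ClassGroup.mk0 I.1 = 1 := (ClassGroup.mk0_eq_one_iff I.1.2).mpr I.2.1
    set I' : (Ideal (𝓞 K))⁰ := ⟨(I.2.2).choose, by
      rw [mem_nonZeroDivisors_iff_ne_zero]
      intro h0
      rw [h0, mul_zero] at h
      exact nonZeroDivisors.coe_ne_zero I.1 h⟩ with hI'
    have h2 : I.1 = J * I' := Subtype.ext (by rw [Submonoid.coe_mul]; exact h)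
    have h3 : ClassGroup.mk0 J * ClassGroup.mk0 I' = 1 := by
      rw [← map_mul, ← h2]; exact hprin
    rw [hJ] at h3
    calc ClassGroup.mk0 I' = C * (C⁻¹ * ClassGroup.mk0 I') := by rw [mul_inv_cancel_left]
      _ = C := by rw [h3, mul_one]⟩
  left_inv I := by
    apply Subtype.ext
    apply Subtype.ext
    have hmem : (J : Ideal (𝓞 K)) ∣ ((J * I.1 : (Ideal (𝓞 K))⁰) : Ideal (𝓞 K)) := by
      rw [Submonoid.coe_mul]; exact Dvd.intro _ rfl
    have h : ((J * I.1 : (Ideal (𝓞 K))⁰) : Ideal (𝓞 K)) = J * hmem.choose := hmem.choose_spec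
    have h' : (J : Ideal (𝓞 K)) * (I.1 : Ideal (𝓞 K)) = J * hmem.choose :=
      (Submonoid.coe_mul _ J I.1).symm.trans h
    have hJ0 : (J : Ideal (𝓞 K)) ≠ 0 := nonZeroDivisors.coe_ne_zero J
    exact (mul_left_cancel₀ hJ0 h').symm
  right_inv I := by
    apply Subtype.ext
    apply Subtype.ext
    rw [Submonoid.coe_mul]
    exact (I.2.2).choose_spec.symm

set_option linter.unusedVariables false in
/-- CLS2: ideals in the class `C` correspond to principal ideals divisible by `J`, where `J`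
is in the class `C⁻¹`. -/
theorem prinL_eq_mul_classL {m : ℕ} (χ : DirichletCharacter ℂ m) (C : ClassGroup (𝓞 K))
    (J : (Ideal (𝓞 K))⁰) (hJ : ClassGroup.mk0 J = C⁻¹) {s : ℝ} (hs : 1 < s) :
    prinL K χ (J : Ideal (𝓞 K)) s =
      χ ((Ideal.absNorm (J : Ideal (𝓞 K)) : ℕ) : ZMod m) *
        (((Ideal.absNorm (J : Ideal (𝓞 K)) : ℝ) ^ (-s) : ℝ) : ℂ) * classL K χ C s := by
  rw [prinL_eq_tsum_normLTerm, classL_eq_tsum_normLTerm,
    ← (classEquivPrin K C J hJ).tsum_eq, ← tsum_mul_left]
  refine tsum_congr fun I ↦ ?_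
  exact normLTerm_mul K χ s J I.1

end Fermat.Agent.Lib.NormL

end
-- ===== PACK-END Lib/NormL/Cls_584.lean

-- ===== PACK-BEGIN S33/AugCore.lean
section
/-
Row S33 — augmentation calculus on the frozen vocabulary of `Spec2.lean` (helper409).

The lemmas `iAug_mono` … `le_iAug_of_devissage` are those of helper270
(`origin/helper270:Fermat/Agent/S33/H270/KeyCore.lean`), restated for the frozen definitions.
New: `keyAt_pi` — (K) for `J` implies (K) for the finite powers `Fin r → J`.
-/


set_option autoImplicit false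

namespace Fermat.Agent.S33

variable {G : Type*} [Group G] {J J' : Type*} [AddCommGroup J] [AddCommGroup J']
  [DistribMulAction G J] [DistribMulAction G J']

theorem mem_torsSub {m : ℕ} {x : J} : x ∈ torsSub J m ↔ m • x = 0 := by
  unfold torsSub
  rw [AddMonoidHom.mem_ker]
  rfl

theorem smul_sub_mem_iAug {I : Subgroup G} {Y : AddSubgroup J} {σ : G} (hσ : σ ∈ I) {y : J}
    (hy : y ∈ Y) : σ • y - y ∈ iAug I Y :=
  AddSubgroup.subset_closure ⟨σ, hσ, y, hy, rfl⟩

theorem iAug_mono {I : Subgroup G} {Y Z : AddSubgroup J} (h : Y ≤ Z) : iAug I Y ≤ iAug I Z := by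
  unfold iAug
  apply AddSubgroup.closure_mono
  rintro z ⟨σ, hσ, y, hy, rfl⟩
  exact ⟨σ, hσ, y, h hy, rfl⟩

/-- `I_aug Y ≤ Y` when `Y` is `I`-stable. -/
theorem iAug_le_self {I : Subgroup G} {Y : AddSubgroup J}
    (hY : ∀ σ ∈ I, ∀ y ∈ Y, σ • y ∈ Y) : iAug I Y ≤ Y := by
  unfold iAug
  rw [AddSubgroup.closure_le]
  rintro z ⟨σ, hσ, y, hy, rfl⟩
  exact Y.sub_mem (hY σ hσ y hy) hy

/-- An `I`-equivariant additive map sends `I_aug Y` into `I_aug Y'` if it sends `Y` to `Y'`. -/
theorem map_mem_iAug {I : Subgroup G} (f : J →+ J')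
    (hf : ∀ σ ∈ I, ∀ x : J, f (σ • x) = σ • f x) {Y : AddSubgroup J} {Y' : AddSubgroup J'}
    (hYY' : ∀ y ∈ Y, f y ∈ Y') {x : J} (hx : x ∈ iAug I Y) : f x ∈ iAug I Y' := by
  unfold iAug at hx
  induction hx using AddSubgroup.closure_induction with
  | mem z hz =>
    obtain ⟨σ, hσ, y, hy, rfl⟩ := hz
    rw [map_sub, hf σ hσ]
    exact smul_sub_mem_iAug hσ (hYY' y hy)
  | zero => rw [map_zero]; exact AddSubgroup.zero_mem _
  | add a b _ _ ha hb => rw [map_add]; exact AddSubgroup.add_mem _ ha hb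
  | neg a _ ha => rw [map_neg]; exact AddSubgroup.neg_mem _ ha

/-- Every element of `I_aug (f Y)` is the image of an element of `I_aug Y`. -/
theorem exists_mem_iAug_of_mem_iAug_map {I : Subgroup G} (f : J →+ J')
    (hf : ∀ σ ∈ I, ∀ x : J, f (σ • x) = σ • f x) {Y : AddSubgroup J} {z : J'}
    (hz : z ∈ iAug I (Y.map f)) : ∃ x ∈ iAug I Y, f x = z := by
  unfold iAug at hz
  induction hz using AddSubgroup.closure_induction with
  | mem w hw =>
    obtain ⟨σ, hσ, y', hy', rfl⟩ := hw
    obtain ⟨y, hy, rfl⟩ := AddSubgroup.mem_map.mp hy'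
    exact ⟨σ • y - y, smul_sub_mem_iAug hσ hy, by rw [map_sub, hf σ hσ]⟩
  | zero => exact ⟨0, AddSubgroup.zero_mem _, map_zero f⟩
  | add a b _ _ ha hb =>
    obtain ⟨x, hx, rfl⟩ := ha
    obtain ⟨y, hy, rfl⟩ := hb
    exact ⟨x + y, AddSubgroup.add_mem _ hx hy, map_add f x y⟩
  | neg a _ ha =>
    obtain ⟨x, hx, rfl⟩ := ha
    exact ⟨-x, AddSubgroup.neg_mem _ hx, map_neg f x⟩

/-- **Dévissage** (right exactness of `I`-coinvariants, subgroup form). -/
theorem le_iAug_of_devissage {I : Subgroup G} (f : J →+ J')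
    (hf : ∀ σ ∈ I, ∀ x : J, f (σ • x) = σ • f x) {A B : AddSubgroup J}
    (hB : ∀ σ ∈ I, ∀ y ∈ B, σ • y ∈ B)
    (hAB : ∀ b ∈ B, f b = 0 → b ∈ A) (hAle : A ≤ B) (hA : A ≤ iAug I A)
    (hC : B.map f ≤ iAug I (B.map f)) : B ≤ iAug I B := by
  intro b hb
  obtain ⟨z, hz, hzb⟩ :=
    exists_mem_iAug_of_mem_iAug_map f hf (hC (AddSubgroup.mem_map_of_mem f hb))
  have hzB : z ∈ B := iAug_le_self hB hz
  have hbz : b - z ∈ A := hAB _ (B.sub_mem hb hzB) (by rw [map_sub, hzb, sub_self])
  have h1 : b - z ∈ iAug I B := iAug_mono hAle (hA hbz)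
  have h2 := AddSubgroup.add_mem _ h1 hz
  rwa [sub_add_cancel] at h2

/-- **(K) for finite powers.**  If every `G`-stable subgroup of `𝒮⁺(J)` is generated by its
augmentation, then so is every `G`-stable subgroup of `Fin r → J` with coordinates in `𝒮⁺(J)`. -/
theorem keyAt_pi {I : Subgroup G} {p : ℕ} (hKey : KeyAt I p J) :
    ∀ (r : ℕ) (Y : AddSubgroup (Fin r → J)), (∀ (σ : G), ∀ y ∈ Y, σ • y ∈ Y) →
      (∀ y ∈ Y, ∀ i, InSPlus I p (y i)) → Y ≤ iAug I Y := by
  intro r
  induction r with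
  | zero =>
    intro Y _ _ y _
    have : y = 0 := Subsingleton.elim _ _
    rw [this]
    exact AddSubgroup.zero_mem _
  | succ r ih =>
    intro Y hYG hY
    -- first coordinate
    let f : (Fin (r + 1) → J) →+ J := Pi.evalAddMonoidHom (fun _ => J) 0
    have hf : ∀ σ ∈ I, ∀ x : Fin (r + 1) → J, f (σ • x) = σ • f x := fun _ _ _ => rfl
    -- the tail
    let g : (Fin (r + 1) → J) →+ (Fin r → J) :=
      { toFun := fun y i => y i.succ
        map_zero' := rfl
        map_add' := fun _ _ => rfl }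
    -- extension by zero
    let ι : (Fin r → J) →+ (Fin (r + 1) → J) :=
      { toFun := fun z => Fin.cons (α := fun _ => J) 0 z
        map_zero' := by
          funext i
          refine Fin.cases ?_ (fun i => ?_) i <;> simp
        map_add' := fun z z' => by
          funext i
          refine Fin.cases ?_ (fun i => ?_) i <;> simp }
    have hι : ∀ σ ∈ I, ∀ z : Fin r → J, ι (σ • z) = σ • ι z := by
      intro σ _ z
      funext i
      refine Fin.cases ?_ (fun i => ?_) i
      · show (0 : J) = σ • (0 : J)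
        rw [smul_zero]
      · rfl
    have hιg : ∀ y : Fin (r + 1) → J, f y = 0 → ι (g y) = y := by
      intro y hy
      funext i
      refine Fin.cases ?_ (fun i => ?_) i
      · exact hy.symm
      · rfl
    set A : AddSubgroup (Fin (r + 1) → J) := Y ⊓ f.ker with hA
    refine le_iAug_of_devissage (A := A) f hf (fun σ _ y hy => hYG σ y hy)
      (fun b hb hb0 => AddSubgroup.mem_inf.mpr ⟨hb, AddMonoidHom.mem_ker.mpr hb0⟩)
      inf_le_left ?_ ?_
    · -- the kernel part, by induction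
      have hA' : A.map g ≤ iAug I (A.map g) := by
        refine ih (A.map g) ?_ ?_
        · rintro σ _ ⟨y, hy, rfl⟩
          have hy' : y ∈ Y ∧ f y = 0 := ⟨hy.1, AddMonoidHom.mem_ker.mp hy.2⟩
          refine ⟨σ • y, ⟨hYG σ y hy'.1, AddMonoidHom.mem_ker.mpr ?_⟩, rfl⟩
          show σ • f y = 0
          rw [hy'.2, smul_zero]
        · rintro _ ⟨y, hy, rfl⟩ i
          exact hY y hy.1 i.succ
      intro y hy
      have hy0 : f y = 0 := AddMonoidHom.mem_ker.mp hy.2
      have h1 : g y ∈ iAug I (A.map g) := hA' (AddSubgroup.mem_map_of_mem g hy)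
      have h2 : ι (g y) ∈ iAug I A := by
        refine map_mem_iAug ι hι ?_ h1
        rintro _ ⟨y', hy', rfl⟩
        rw [hιg y' (AddMonoidHom.mem_ker.mp hy'.2)]
        exact hy'
      rwa [hιg y hy0] at h2
    · -- the image in the first coordinate
      refine hKey _ ?_ ?_
      · rintro σ _ ⟨y, hy, rfl⟩
        exact ⟨σ • y, hYG σ y hy, rfl⟩
      · rintro _ ⟨y, hy, rfl⟩
        exact hY y hy 0

end Fermat.Agent.S33

end
-- ===== PACK-END S33/AugCore.lean

-- ===== PACK-BEGIN S29/H882/FieldDeg.lean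
section


/-!
# S29 / MERO (helper882), part 2: generic algebra

* `exists_relation_of_coeffMap_ne_zero`: descent of a NONZERO bivariate relation along a coefficient
  embedding (generalises the monic case of the landed `S24.Deg457`).
* `exists_clear_denominators`: a polynomial over `K(j)` becomes, after multiplication by a nonzero
  element of `K[j]`, the image of a bivariate polynomial.
* `algDeg_of_mem_adjoin`: if every element of a subalgebra `B ∋ j` of `K((q))` is algebraic of
  degree `≤ n` over `K[j]`, so is every element of the field generated by `B`.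
-/

set_option autoImplicit false

noncomputable section

open Polynomial ModularCurve IntermediateField

namespace Fermat.Agent.S29.H882

open Fermat.Agent.S24 Fermat.Agent.S24.Deg457

section Descent

variable {K L : Type*} [Field K] [Field L]

/-- **Descent** of a nonzero relation of degree `≤ n` over `L[ι J]` for `ι a` to a nonzero relation
of degree `≤ n` over `K[J]` for `a`. -/
theorem exists_relation_of_coeffMap_ne_zero (ι : K →+* L) (J a : LaurentSeries K) (n : ℕ)
    (P : L[X][X]) (hP : P ≠ 0) (hn : P.natDegree ≤ n)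
    (h0 : P.eval₂ (evJ (coeffMap ι J)) (coeffMap ι a) = 0) :
    ∃ Q : K[X][X], Q ≠ 0 ∧ Q.natDegree ≤ n ∧ Q.eval₂ (evJ J) a = 0 := by
  classical
  set D : ℕ := P.support.sup fun k => (P.coeff k).natDegree with hD
  have hDle : ∀ k, (P.coeff k).natDegree ≤ D := by
    intro k
    by_cases hk : k ∈ P.support
    · exact Finset.le_sup (f := fun k => (P.coeff k).natDegree) hk
    · rw [notMem_support_iff.mp hk]; simp
  let v : Fin (D + 1) × Fin (n + 1) → LaurentSeries K := fun p => J ^ (p.1 : ℕ) * a ^ (p.2 : ℕ)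
  have hnot : ¬ LinearIndependent K v := by
    intro hv
    have hw := linearIndependent_coeffMap ι v hv
    rw [Fintype.linearIndependent_iff] at hw
    -- a nonzero coefficient of `P`
    have hlc : P.coeff P.natDegree ≠ 0 := by
      rw [coeff_natDegree]; exact leadingCoeff_ne_zero.mpr hP
    have hlc2 : (P.coeff P.natDegree).coeff (P.coeff P.natDegree).natDegree ≠ 0 := by
      rw [coeff_natDegree]; exact leadingCoeff_ne_zero.mpr hlc
    have key := hw (fun p => (P.coeff p.2).coeff p.1) ?_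
      (⟨(P.coeff P.natDegree).natDegree, Nat.lt_succ_of_le (hDle _)⟩,
        ⟨P.natDegree, Nat.lt_succ_of_le hn⟩)
    · exact hlc2 key
    · rw [Fintype.sum_prod_type_right]
      rw [eval₂_eq_sum_range' _ (n := n + 1) (Nat.lt_succ_of_le hn)] at h0
      rw [← h0, Finset.sum_range]
      refine Finset.sum_congr rfl fun k _ => ?_
      rw [evJ_apply, aeval_eq_sum_range' (n := D + 1) (Nat.lt_succ_of_le (hDle _)),
        Finset.sum_range, Finset.sum_mul]
      refine Finset.sum_congr rfl fun i _ => ?_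
      simp only [v, _root_.map_mul, _root_.map_pow]
      rw [hsmul_eq_algebraMap_mul, Algebra.smul_def, mul_assoc]
  rw [Fintype.not_linearIndependent_iff] at hnot
  obtain ⟨g, hg, p, hp⟩ := hnot
  refine ⟨tablePoly g, ?_, tablePoly_natDegree_le g, ?_⟩
  · intro h
    apply hp
    rw [← tablePoly_coeff_coeff g p.1 p.2, h]
    simp
  · rw [tablePoly_eval₂]
    exact hg

end Descent

section Clear

variable {K M : Type*} [Field K] [Field M] [Algebra K M]

/-- Clearing denominators of a polynomial over `K(j)`. -/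
theorem exists_clear_denominators (j : M) (p : Polynomial (IntermediateField.adjoin K {j})) :
    ∃ (t : K[X]) (Q : K[X][X]), aeval (AdjoinSimple.gen K j) t ≠ 0 ∧
      Q.map ((aeval (AdjoinSimple.gen K j) : K[X] →ₐ[K] K⟮j⟯).toRingHom)
        = C (aeval (AdjoinSimple.gen K j) t) * p := by
  set φ : K[X] →+* K⟮j⟯ := (aeval (AdjoinSimple.gen K j) : K[X] →ₐ[K] K⟮j⟯).toRingHom with hφ
  have hφa : ∀ t : K[X], φ t = aeval (AdjoinSimple.gen K j) t := fun _ => rfl
  induction p using Polynomial.induction_on' with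
  | add p q hp hq =>
    obtain ⟨t₁, Q₁, h1, h1'⟩ := hp
    obtain ⟨t₂, Q₂, h2, h2'⟩ := hq
    refine ⟨t₁ * t₂, C t₂ * Q₁ + C t₁ * Q₂, ?_, ?_⟩
    · rw [_root_.map_mul]; exact mul_ne_zero h1 h2
    · rw [Polynomial.map_add, Polynomial.map_mul, Polynomial.map_mul, Polynomial.map_C,
        Polynomial.map_C, h1', h2', hφa, hφa, _root_.map_mul, C_mul]
      ring
  | monomial k c =>
    obtain ⟨r, s, hrs⟩ := (IntermediateField.mem_adjoin_simple_iff K (c : M)).mp c.2
    by_cases hs : aeval (AdjoinSimple.gen K j) s = 0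
    · -- then `c = 0`
      have hs' : aeval j s = 0 := by
        have := congrArg (algebraMap K⟮j⟯ M) hs
        rwa [← aeval_algebraMap_apply, AdjoinSimple.algebraMap_gen, _root_.map_zero] at this
      have hc : c = 0 := by
        apply Subtype.ext
        rw [hrs, hs', div_zero]; rfl
      refine ⟨1, 0, ?_, ?_⟩
      · rw [_root_.map_one]; exact one_ne_zero
      · rw [hc]; simp
    · refine ⟨s, monomial k r, hs, ?_⟩
      rw [Polynomial.map_monomial, C_mul_monomial]
      congr 1
      rw [hφa]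
      apply Subtype.ext
      have h1 : ((aeval (AdjoinSimple.gen K j) r : K⟮j⟯) : M) = aeval j r := by
        have := (aeval_algebraMap_apply M (AdjoinSimple.gen K j) r).symm
        rwa [AdjoinSimple.algebraMap_gen] at this
      have h2 : ((aeval (AdjoinSimple.gen K j) s : K⟮j⟯) : M) = aeval j s := by
        have := (aeval_algebraMap_apply M (AdjoinSimple.gen K j) s).symm
        rwa [AdjoinSimple.algebraMap_gen] at this
      have hs' : aeval j s ≠ 0 := by
        intro h
        apply hs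
        apply Subtype.ext
        rw [h2, h]; rfl
      rw [h1]
      show aeval j r = ((aeval (AdjoinSimple.gen K j) s : K⟮j⟯) : M) * (c : M)
      rw [h2, hrs]
      field_simp

end Clear

section Alg

variable {K : Type*} [Field K] [Algebra ℚ K]

theorem aeval_JK_mem (B : Subalgebra K (LaurentSeries K)) (hJ : JK K ∈ B) (t : K[X]) :
    aeval (JK K) t ∈ B := by
  rw [aeval_def, eval₂_eq_sum_range]
  refine Subalgebra.sum_mem _ fun i _ => ?_
  exact Subalgebra.mul_mem _ (Subalgebra.algebraMap_mem _ _) (Subalgebra.pow_mem _ hJ _)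

theorem eval₂_mem_subalgebra (B : Subalgebra K (LaurentSeries K)) (hJ : JK K ∈ B)
    (Q : K[X][X]) {s : LaurentSeries K} (hs : s ∈ B) :
    Q.eval₂ (evJ (JK K)) s ∈ B := by
  rw [eval₂_eq_sum_range]
  refine Subalgebra.sum_mem _ fun i _ => ?_
  exact Subalgebra.mul_mem _ (aeval_JK_mem B hJ _) (Subalgebra.pow_mem _ hs _)

/-- a nonzero algebraic element of `B` has an "inverse up to a polynomial in `j`" in `B`. -/
theorem exists_mul_eq_aeval_subalgebra (B : Subalgebra K (LaurentSeries K)) (hJ : JK K ∈ B)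
    {n : ℕ} {s : LaurentSeries K} (hs : s ∈ B) (hs0 : s ≠ 0)
    (ha : AlgDeg K n s) : ∃ g ∈ B, ∃ t : K[X], t ≠ 0 ∧ s * g = aeval (JK K) t := by
  obtain ⟨Q, hQ0, -, hQ⟩ := ha
  have key : ∀ m : ℕ, ∀ Q : K[X][X], Q.natDegree ≤ m → Q ≠ 0 → Q.eval₂ (evJ (JK K)) s = 0 →
      ∃ Q₁ : K[X][X], Q₁.coeff 0 ≠ 0 ∧ Q₁.eval₂ (evJ (JK K)) s = 0 := by
    intro m
    induction m with
    | zero =>
      intro Q hdeg hQ0 hQ
      refine ⟨Q, ?_, hQ⟩
      intro h0
      apply hQ0
      rw [eq_C_of_natDegree_le_zero hdeg, h0, _root_.map_zero]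
    | succ m ih =>
      intro Q hdeg hQ0 hQ
      by_cases h0 : Q.coeff 0 = 0
      · have hdiv : Q = divX Q * X := by
          conv_lhs => rw [← divX_mul_X_add Q, h0, _root_.map_zero, add_zero]
        have hd0 : divX Q ≠ 0 := by
          intro h; apply hQ0; rw [hdiv, h, zero_mul]
        have hev : (divX Q).eval₂ (evJ (JK K)) s = 0 := by
          rw [hdiv, eval₂_mul, eval₂_X] at hQ
          rcases mul_eq_zero.mp hQ with h | h
          · exact h
          · exact absurd h hs0
        refine ih (divX Q) ?_ hd0 hev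
        rw [natDegree_divX_eq_natDegree_tsub_one]
        omega
      · exact ⟨Q, h0, hQ⟩
  obtain ⟨Q₁, h0, hQ₁⟩ := key Q.natDegree Q le_rfl hQ0 hQ
  refine ⟨-(divX Q₁).eval₂ (evJ (JK K)) s, Subalgebra.neg_mem _ (eval₂_mem_subalgebra B hJ _ hs),
    Q₁.coeff 0, h0, ?_⟩
  have hsplit : Q₁.eval₂ (evJ (JK K)) s
      = (divX Q₁).eval₂ (evJ (JK K)) s * s + aeval (JK K) (Q₁.coeff 0) := by
    conv_lhs => rw [← divX_mul_X_add Q₁]
    rw [eval₂_add, eval₂_mul, eval₂_X, eval₂_C, evJ_apply]
  rw [hQ₁] at hsplit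
  linear_combination hsplit

/-- If every element of the subalgebra `B ∋ j` is algebraic of degree `≤ n` over `K[j]`, so is
every element of the field generated by `B`. -/
theorem algDeg_of_mem_adjoin (B : Subalgebra K (LaurentSeries K)) (hJ : JK K ∈ B) {n : ℕ}
    (hB : ∀ b ∈ B, AlgDeg K n b) {x : LaurentSeries K}
    (hx : x ∈ IntermediateField.adjoin K (B : Set (LaurentSeries K))) : AlgDeg K n x := by
  rw [IntermediateField.mem_adjoin_iff_div] at hx
  obtain ⟨r, hr, s, hs, rfl⟩ := hx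
  rw [Algebra.adjoin_eq] at hr hs
  by_cases hs0 : s = 0
  · subst hs0
    rw [div_zero]
    exact hB 0 (Subalgebra.zero_mem _)
  · obtain ⟨g, hg, t, ht, hst⟩ := exists_mul_eq_aeval_subalgebra B hJ hs hs0 (hB s hs)
    refine AlgDeg.of_mul_eq (a := r * g) ht ?_ (hB _ (Subalgebra.mul_mem _ hr hg))
    rw [← hst]
    field_simp

end Alg

end Fermat.Agent.S29.H882

end
end
-- ===== PACK-END S29/H882/FieldDeg.lean

-- ===== PACK-BEGIN S18/H107/T3Model.lean
section







/-!
# helper107 — S18 / M3-T : the good model for the coordinate `t₃` (case `ℓ = 2`)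

`goodModel_t3_107` : from the `j`-model WITHOUT branch-set fields (`BaseModel107 … j`, true for
every `ℓ ∤ M`), the branch data of the `j`-line in characteristic `0` (`BranchJ107`), the identity
`j t³ = (t + 27)(t + 243)³`, `3⁻¹ ∈ R`, `t ∈ Fc ∩ V` and the Gauss property of `t`, we get the
frozen `Alg.GoodModel Lc Ec Fc R V w t S` with `S = {0, -27}`.
-/

set_option autoImplicit false

namespace Fermat.Agent.S18.H107

open Polynomial Fermat.Agent.S18.Alg

variable {Ω : Type*} [Field Ω]

theorem goodModel_t3_107 {Lc Ec Fc : Subfield Ω} {R V : Subring Ω} {w j t : Ω} {S : Finset Ω}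
    (hb : BaseModel107 Lc Ec Fc R V w j) (hB : BranchJ107 Lc j)
    (hrel : j * t ^ 3 = (t + 27) * (t + 243) ^ 3) (htF : t ∈ Fc) (htV : t ∈ V)
    (h3 : (3 : Ω)⁻¹ ∈ R)
    (hgauss : ∀ P : Polynomial Ω, (∀ i, P.coeff i ∈ R) →
      (∃ i, P.coeff i ≠ 0 ∧ (P.coeff i)⁻¹ ∈ R) → (P.eval t)⁻¹ ∈ V)
    (hS : ∀ s, s ∈ S ↔ s = 0 ∨ s = -27) :
    GoodModel Lc Ec Fc R V w t S := by
  have := hb.charZero
  have hj0 : j ≠ 0 := ne_zero_of_transcendental107 hb.x_transcendental
  have hH : HauptT3107 Fc R V j t :=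
    { rel := hrel
      three_inv := h3
      three_ne := three_ne_zero
      j_ne := hj0
      t_mem_Fc := htF
      t_mem_V := htV
      t27_inv_mem_V := gauss_X_add_C107 hgauss (ofNat_mem R 27) }
  have ht0 : t ≠ 0 := hH.t_ne
  have hwF : w ∈ Fc := hb.E_le_F (hb.R_le hb.w_mem)
  have htinvV : t⁻¹ ∈ V := gauss_X107 hgauss
  have h64 : (27 : Ω)⁻¹ ∈ R := hH.inv27_mem
  -- `j ∈ Ec(t)`
  have hjrat : j ∈ ratField Ec t := by
    have e : j = (t + 27) * (t + 243) ^ 3 * (t ^ 3)⁻¹ := by
      field_simp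
      linear_combination hrel
    rw [e]
    have ht := self_mem_ratField107 Ec t
    exact mul_mem (mul_mem (add_mem ht (ofNat_mem _ 27)) (pow_mem (add_mem ht (ofNat_mem _ 243)) 3))
      (inv_mem (pow_mem ht 3))
  -- transcendence of `t`
  have htr : Transcendental Lc t := by
    intro halg
    apply hb.x_transcendental
    have e : j = (t + 27) * (t + 243) ^ 3 * (t ^ 3)⁻¹ := by
      field_simp
      linear_combination hrel
    rw [e]
    have h27 : IsAlgebraic Lc (27 : Ω) := by
      have : (27 : Ω) = algebraMap Lc Ω (27 : Lc) := by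
        rw [_root_.map_ofNat]
      rw [this]
      exact isAlgebraic_algebraMap _
    have h243 : IsAlgebraic Lc (243 : Ω) := by
      have : (243 : Ω) = algebraMap Lc Ω (243 : Lc) := by
        rw [_root_.map_ofNat]
      rw [this]
      exact isAlgebraic_algebraMap _
    exact ((halg.add h27).mul ((halg.add h243).pow 3)).mul (halg.pow 3).inv
  refine (show BaseModel107 Lc Ec Fc R V w t from
    { charZero := hb.charZero
      R_le := hb.R_le
      R_total := hb.R_total
      w_mem := hb.w_mem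
      w_ne_zero := hb.w_ne_zero
      w_inv_not_mem := hb.w_inv_not_mem
      w_gen := hb.w_gen
      w_discrete := hb.w_discrete
      residue_perfect := hb.residue_perfect
      E_le_L := hb.E_le_L
      E_le_F := hb.E_le_F
      L_algebraic := hb.L_algebraic
      L_algClosed := hb.L_algClosed
      E_closed_in_F := hb.E_closed_in_F
      compositum := hb.compositum
      x_mem := htF
      x_transcendental := htr
      finite := finite_transfer107 hjrat hb.finite
      V_le := hb.V_le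
      V_total := hb.V_total
      R_le_V := hb.R_le_V
      w_inv_not_mem_V := hb.w_inv_not_mem_V
      V_gen := hb.V_gen
      x_mem_V := htV
      gauss := hgauss
      qep_fin := hH.qep_fin hwF hb.qep_fin hb.qep_inf
      qep_inf := hH.qep_inf hwF hb.qep_fin hb.qep_inf
      separable := separable_transfer107 (e := t ^ 3)
        (Subring.pow_mem _ (self_mem_polyRing107 R t) 3)
        (by
          rw [hrel]
          exact Subring.mul_mem _ (Subring.add_mem _ (self_mem_polyRing107 R t) (ofNat_mem _ 27))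
            (Subring.pow_mem _
              (Subring.add_mem _ (self_mem_polyRing107 R t) (ofNat_mem _ 243)) 3))
        (V.pow_mem htV 3) (by rw [← inv_pow]; exact V.pow_mem htinvV 3) (pow_ne_zero _ ht0)
        hb.separable }).toGoodModel S ?_ ?_ ?_ ?_
  · intro s hs
    rcases (hS s).1 hs with rfl | rfl
    · exact R.zero_mem
    · exact R.neg_mem (ofNat_mem R 27)
  · intro s hs s' hs' hne
    rcases (hS s).1 hs with rfl | rfl <;> rcases (hS s').1 hs' with rfl | rfl
    · exact absurd rfl hne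
    · have e : ((0 : Ω) - -27)⁻¹ = (27 : Ω)⁻¹ := by norm_num
      rw [e]
      exact h64
    · have e : ((-27 : Ω) - 0)⁻¹ = -(27 : Ω)⁻¹ := by
        rw [sub_zero, inv_neg]
      rw [e]
      exact R.neg_mem h64
    · exact absurd rfl hne
  · intro s hs hs0
    rcases (hS s).1 hs with rfl | rfl
    · exact absurd rfl hs0
    · rw [inv_neg]
      exact R.neg_mem h64
  · intro O hL c hc hcS hz hz'
    have hc0 : c ≠ 0 := fun h => hcS ((hS c).2 (Or.inl h))
    have hc64 : c ≠ -27 := fun h => hcS ((hS c).2 (Or.inr h))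
    exact unramified_t3_107 Lc j t hrel hB O hL c hc hc64 hc0 hz hz'

end Fermat.Agent.S18.H107

end
-- ===== PACK-END S18/H107/T3Model.lean

-- ===== PACK-BEGIN Lib/RR/Riemann.lean
section




/-!
# RR library, layer L3: Riemann's theorem  (Stichtenoth 1.4.17)

Integration file (helper320).  `exists_riemann_bound` is proved in `H409/` (helper409), the core
of `exists_degree_bound` in `H98/` (helper98).

Proof sketch.  Let `x` be as in `FF1.exists_finite`, `n = [F : K(x)]`, `B = (x)_∞`
(`deg B ≤ n` by L2), `u_1, …, u_n` a `K(x)`-basis of `F`, `C ≥ 0` with `div u_j ≥ -C`.  The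
`n (l + 1)` elements `x ^ i * u_j` (`i ≤ l`) lie in `L(l B + C)` and are `K`-independent, so
`ℓ(l B) ≥ ℓ(l B + C) - deg C ≥ n (l + 1) - deg C`, i.e. `deg (l B) - ℓ(l B) ≤ deg C - n`.
For arbitrary `A`: `ℓ(l B - A⁺) > 0` for `l ≫ 0`; take `z ≠ 0` in it; then
`A - div z ≤ l B` and `deg A - ℓ(A) = deg (A - div z) - ℓ(A - div z) ≤ deg (l B) - ℓ(l B)`.
-/

set_option autoImplicit false

noncomputable section

open AlgebraicCurve

namespace Fermat.Agent.Lib.RR

variable (K F : Type*) [Field K] [Field F] [Algebra K F]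

/-- **L3.1** Riemann's theorem: `deg D - ℓ(D)` is bounded above. -/
theorem exists_riemann_bound [FF1 K F] :
    ∃ γ : ℤ, ∀ D : Divisor K F, Divisor.degree D - ell D ≤ γ :=
  H409.exists_riemann_bound K F

theorem exists_nat_riemann_bound [FF1 K F] :
    ∃ g : ℕ, ∀ D : Divisor K F, Divisor.degree D + 1 - (g : ℤ) ≤ ell D := by
  obtain ⟨γ, hγ⟩ := exists_riemann_bound K F
  refine ⟨(γ + 1).toNat, fun D => ?_⟩
  have h1 := hγ D
  have h2 : γ + 1 ≤ ((γ + 1).toNat : ℤ) := Int.self_le_toNat _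
  omega

open Classical in
/-- The genus in the sense of Riemann's theorem: the least `g` with
`ℓ(D) ≥ deg D + 1 - g` for all `D`. -/
def genusR [FF1 K F] : ℕ := Nat.find (exists_nat_riemann_bound K F)

variable {K F}

/-- **Riemann's inequality**. -/
theorem riemann_inequality [FF1 K F] (D : Divisor K F) :
    Divisor.degree D + 1 - (genusR K F : ℤ) ≤ ell D := by
  classical
  exact Nat.find_spec (exists_nat_riemann_bound K F) D

/-- The bound is attained. -/
theorem exists_ell_eq [FF1 K F] :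
    ∃ D : Divisor K F, (ell D : ℤ) = Divisor.degree D + 1 - (genusR K F : ℤ) := by
  classical
  by_cases hg : genusR K F = 0
  · refine ⟨0, ?_⟩
    rw [ell_zero, hg]; simp
  · have hlt : genusR K F - 1 < genusR K F := by omega
    have hmin := Nat.find_min (exists_nat_riemann_bound K F) hlt
    simp only [not_forall, not_le] at hmin
    obtain ⟨D, hD⟩ := hmin
    refine ⟨D, le_antisymm ?_ (riemann_inequality D)⟩
    have hcast : ((genusR K F - 1 : ℕ) : ℤ) = (genusR K F : ℤ) - 1 := by
      rw [Nat.cast_sub (by omega)]; simp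
    rw [hcast] at hD
    omega

/-- Above a divisor attaining the bound, the bound is attained. -/
theorem ell_eq_of_le [FF1 K F] {D₀ D : Divisor K F}
    (h₀ : (ell D₀ : ℤ) = Divisor.degree D₀ + 1 - (genusR K F : ℤ)) (h : D₀ ≤ D) :
    (ell D : ℤ) = Divisor.degree D + 1 - (genusR K F : ℤ) := by
  have h1 := degree_sub_ell_mono h
  have h2 := riemann_inequality D
  omega

/-- **L3.2**: `ℓ(D) = deg D + 1 - g` for all divisors of large degree. -/
theorem exists_degree_bound [FF1 K F] :
    ∃ c : ℤ, ∀ D : Divisor K F, c ≤ Divisor.degree D →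
      (ell D : ℤ) = Divisor.degree D + 1 - (genusR K F : ℤ) := by
  obtain ⟨D₀, h₀⟩ := exists_ell_eq (K := K) (F := F)
  exact ⟨Divisor.degree D₀ + (genusR K F : ℤ), fun D hD =>
    H98.ell_eq_of_degree_ge (genusR K F : ℤ) (fun D' => riemann_inequality D') h₀ hD⟩

end Fermat.Agent.Lib.RR

end
end
-- ===== PACK-END Lib/RR/Riemann.lean

-- ===== PACK-BEGIN Lib/RR/H80/Canonical.lean
section


/-!
# RR library, layer L5 (helper80): the divisor of a Weil differential and the duality theorem

Inputs from layers L3/L4 are explicit hypotheses: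
* `hfin : ∀ D, Module.Finite K (H1 D)`,
* `hrr  : ∀ D, ℓ(D) - dim H¹(D) = deg D + 1 - g`,
* `hvan : ∃ c, ∀ D, c ≤ deg D → ℓ(D) = deg D + 1 - g`.

Main result: `exists_canonical_of : ∃ W, ∀ D, dim H¹(D) = ℓ(W - D)`.
-/

set_option autoImplicit false

noncomputable section

open AlgebraicCurve

namespace Fermat.Agent.Lib.RR.H80

open Fermat.Agent.Lib.RR

variable {K F : Type*} [Field K] [Field F] [Algebra K F]

/-- The repartition with a single nonzero component. -/
def singleA (Q : Place K F) (a : F) : ↥(repartitions K F) :=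
  ⟨fun v => by classical exact if v = Q then a else 0,
    mem_repartitions_of_finite_ord <| (Set.finite_singleton Q).subset fun v hv => by
      classical
      have hv : v.ord (if v = Q then a else 0) < 0 := hv
      rw [Set.mem_singleton_iff]
      by_contra hne
      rw [if_neg hne, Place.ord_zero] at hv
      exact lt_irrefl _ hv⟩

theorem singleA_apply_self (Q : Place K F) (a : F) :
    ((singleA Q a : ↥(repartitions K F)) : Place K F → F) Q = a := by
  classical
  simp [singleA]

theorem singleA_apply_of_ne (Q : Place K F) (a : F) {v : Place K F} (h : v ≠ Q) :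
    ((singleA Q a : ↥(repartitions K F)) : Place K F → F) v = 0 := by
  classical
  simp [singleA, h]

/-- Key step: if `ω` vanishes on `𝔸(W) + F` and on `𝔸(D) + F` with `W Q < D Q`, then it vanishes
on `𝔸(W + Q) + F`. -/
theorem mem_Om_add_prim {W D : Divisor K F} {Q : Place K F} (hQ : W Q < D Q)
    {ω : Module.Dual K ↥(repartitions K F)} (hW : ω ∈ Om W) (hD : ω ∈ Om D) :
    ω ∈ Om (W + prim Q) := by
  rw [mem_Om_iff] at hW hD ⊢
  refine ⟨fun α hα => ?_, hW.2⟩
  rw [mem_repartitionsOf_iff] at hα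
  set β : ↥(repartitions K F) := singleA Q ((α : Place K F → F) Q) with hβ
  have h1 : β ∈ repartitionsOf D := by
    rw [mem_repartitionsOf_iff]
    intro v
    by_cases hv : v = Q
    · subst hv
      rw [hβ, singleA_apply_self]
      rcases hα v with h | h
      · exact Or.inl h
      · right
        simp only [Finsupp.coe_add, Pi.add_apply, prim_apply_self] at h
        omega
    · left
      rw [hβ, singleA_apply_of_ne _ _ hv]
  have h2 : α - β ∈ repartitionsOf W := by
    rw [mem_repartitionsOf_iff]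
    intro v
    have hsub : ((α - β : ↥(repartitions K F)) : Place K F → F) v
        = (α : Place K F → F) v - (β : Place K F → F) v := rfl
    by_cases hv : v = Q
    · subst hv
      left
      rw [hsub, hβ, singleA_apply_self, sub_self]
    · rw [hsub, hβ, singleA_apply_of_ne _ _ hv, sub_zero]
      rcases hα v with h | h
      · exact Or.inl h
      · right
        simpa [prim_apply_of_ne hv] using h
  have h3 : ω α = ω (α - β) + ω β := by rw [← map_add, sub_add_cancel]
  rw [h3, hW.1 _ h2, hD.1 _ h1, add_zero]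

section Input

variable [FF1 K F] {g : ℤ}

omit [FF1 K F] in
/-- Weil differentials vanishing on `𝔸(D) + F` with `deg D` large are zero. -/
theorem Om_eq_bot_of_degree_ge
    (hfin : ∀ D : Divisor K F, Module.Finite K (H1 D))
    (hrr : ∀ D : Divisor K F,
      (ell D : ℤ) - Module.finrank K (H1 D) = Divisor.degree D + 1 - g)
    {c : ℤ} (hc : ∀ D : Divisor K F, c ≤ Divisor.degree D →
      (ell D : ℤ) = Divisor.degree D + 1 - g)
    {D : Divisor K F} (hD : c ≤ Divisor.degree D) : Om D = ⊥ := by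
  have := hfin D
  have : Module.Finite K (Om D) := finite_Om D
  have h1 := finrank_Om_eq hrr D
  rw [hc D hD] at h1
  have h2 : Module.finrank K (Om D) = 0 := by
    have : (Module.finrank K (Om D) : ℤ) = 0 := by rw [h1]; ring
    exact_mod_cast this
  exact Submodule.finrank_eq_zero.mp h2

/-- **The divisor of a Weil differential**: a nonzero Weil differential `ω` has a divisor `W`
such that `ω` vanishes on `𝔸(D) + F` iff `D ≤ W`. -/
theorem exists_divisor_of_ne_zero
    (hfin : ∀ D : Divisor K F, Module.Finite K (H1 D))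
    (hrr : ∀ D : Divisor K F,
      (ell D : ℤ) - Module.finrank K (H1 D) = Divisor.degree D + 1 - g)
    (hvan : ∃ c : ℤ, ∀ D : Divisor K F, c ≤ Divisor.degree D →
      (ell D : ℤ) = Divisor.degree D + 1 - g)
    {A : Divisor K F} {ω : Module.Dual K ↥(repartitions K F)} (hA : ω ∈ Om A) (hω : ω ≠ 0) :
    ∃ W : Divisor K F, ∀ D : Divisor K F, ω ∈ Om D ↔ D ≤ W := by
  obtain ⟨c, hc⟩ := hvan
  have hbdd : ∀ D : Divisor K F, ω ∈ Om D → Divisor.degree D < c := by
    intro D hD
    by_contra hlt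
    have := Om_eq_bot_of_degree_ge hfin hrr hc (not_lt.mp hlt)
    rw [this, Submodule.mem_bot] at hD
    exact hω hD
  obtain ⟨d, ⟨W, hW, rfl⟩, hmax⟩ :=
    Int.exists_greatest_of_bdd (P := fun d => ∃ D : Divisor K F, ω ∈ Om D ∧ Divisor.degree D = d)
      ⟨c, fun z ⟨D, hD, hz⟩ => hz ▸ (hbdd D hD).le⟩ ⟨_, A, hA, rfl⟩
  refine ⟨W, fun D => ⟨fun hD => ?_, fun hle => Om_anti hle hW⟩⟩
  by_contra hnle
  rw [Finsupp.le_def] at hnle
  simp only [not_forall, not_le] at hnle
  obtain ⟨Q, hQ⟩ := hnle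
  have h1 := mem_Om_add_prim hQ hW hD
  have h2 := hmax _ ⟨W + prim Q, h1, rfl⟩
  rw [map_add, degree_prim'] at h2
  omega

/-- **Duality theorem** (Stichtenoth 1.5.14): `x ↦ x ω` maps `L(W - D)` onto `Ω(D)`. -/
theorem map_muMap_eq_Om
    (hfin : ∀ D : Divisor K F, Module.Finite K (H1 D))
    (hrr : ∀ D : Divisor K F,
      (ell D : ℤ) - Module.finrank K (H1 D) = Divisor.degree D + 1 - g)
    {W : Divisor K F} {ω : Module.Dual K ↥(repartitions K F)} (hω : ω ≠ 0)
    (hW : ∀ D : Divisor K F, ω ∈ Om D ↔ D ≤ W) (D : Divisor K F) :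
    Submodule.map (muMap ω) (riemannRochSpace (W - D)) = Om D := by
  have hWW : ω ∈ Om W := (hW W).mpr le_rfl
  apply le_antisymm
  · have := map_muMap_le (B := -D) hWW
    rwa [neg_neg, ← sub_eq_add_neg] at this
  · intro η hη
    obtain ⟨z, rfl⟩ := exists_smulD_eq hfin hrr hWW hω hη
    refine ⟨z, ?_, rfl⟩
    rcases eq_or_ne z 0 with rfl | hz
    · exact Submodule.zero_mem (riemannRochSpace (W - D))
    obtain ⟨E, hE, -⟩ := HasPrincipalDivisors.exists_divisor (K := K) z⁻¹ (inv_ne_zero hz)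
    have h1 : smulD z⁻¹ (smulD z ω) ∈ Om (D + E) := smulD_mem_Om (inv_ne_zero hz) hE hη
    rw [smulD_smulD, inv_mul_cancel₀ hz, smulD_one] at h1
    have h2 := (hW _).mp h1
    show z ∈ riemannRochSpace (W - D)
    rw [mem_L_iff]
    intro v
    right
    have h3 := Finsupp.le_def.mp h2 v
    simp only [Finsupp.coe_add, Pi.add_apply, hE v, v.ord_inv, Finsupp.coe_sub,
      Pi.sub_apply] at h3 ⊢
    omega

/-- **L5, hypothesis-explicit form**: existence of a canonical divisor. -/
theorem exists_canonical_of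
    (hfin : ∀ D : Divisor K F, Module.Finite K (H1 D))
    (hrr : ∀ D : Divisor K F,
      (ell D : ℤ) - Module.finrank K (H1 D) = Divisor.degree D + 1 - g)
    (hvan : ∃ c : ℤ, ∀ D : Divisor K F, c ≤ Divisor.degree D →
      (ell D : ℤ) = Divisor.degree D + 1 - g) :
    ∃ W : Divisor K F, ∀ D : Divisor K F, Module.finrank K (H1 D) = ell (W - D) := by
  obtain ⟨A, ω, hA, hω⟩ := exists_ne_zero_mem_Om (K := K) (F := F) hrr
  obtain ⟨W, hW⟩ := exists_divisor_of_ne_zero hfin hrr hvan hA hω
  refine ⟨W, fun D => ?_⟩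
  rw [← finrank_Om, ← map_muMap_eq_Om hfin hrr hω hW D, finrank_map_muMap hω]

end Input

end Fermat.Agent.Lib.RR.H80

end
end
-- ===== PACK-END Lib/RR/H80/Canonical.lean

-- ===== PACK-BEGIN S37/H818/Modular.lean
section
/-
S37 / LEVEL TRANSFER (helper818), part 8: instantiation at the modular function fields.

Levels `N`, `M = N * k`, Hecke prime `ℓ`.  `π^* : Pic0(F_N) → Pic0(F_{N k})` is the pullback
along the Prelude's `heckeAlphaBar L N k` (inclusion of function fields).
-/








set_option autoImplicit false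
set_option linter.style.haveILetI false

noncomputable section

namespace Fermat.Agent.S37.H818

open AlgebraicCurve ModularCurve IntermediateField

variable (L : Type*) [Field L] [Algebra ℚ L]

/-- Monotonicity of `laurentBaseChange` (the Prelude's version is private). -/
theorem laurentBaseChange_mono {F₀ F₁ : IntermediateField ℚ (LaurentSeries ℚ)}
    (h : F₀ ≤ F₁) : laurentBaseChange L F₀ ≤ laurentBaseChange L F₁ := by
  rw [laurentBaseChange, IntermediateField.adjoin_le_iff]
  rintro _ ⟨y, hy, rfl⟩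
  exact coeffEmb_mem_laurentBaseChange L (h hy)

/-- The function field of level `N` over `L`. -/
abbrev FB (N : ℕ) : IntermediateField L (LaurentSeries L) :=
  laurentBaseChange L (modularFunctionFieldFull N)

/-- Inclusion of function fields for `N ∣ M`. -/
def degenIncl {N M : ℕ} [NeZero N] [NeZero M] (h : N ∣ M) : FB L N →ₐ[L] FB L M :=
  IntermediateField.inclusion (laurentBaseChange_mono L (full_degeneracy_le h))

@[simp]
theorem coe_degenIncl {N M : ℕ} [NeZero N] [NeZero M] (h : N ∣ M) (x : FB L N) :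
    (degenIncl L h x : LaurentSeries L) = (x : LaurentSeries L) :=
  IntermediateField.coe_inclusion _ x

variable (N k ℓ : ℕ) [NeZero N] [NeZero k] [NeZero ℓ]

omit [NeZero N] [NeZero k] [NeZero ℓ] in
theorem dvd_aux : N * ℓ ∣ N * k * ℓ := ⟨k, by ring⟩

/-- The degeneracy map at level `N ℓ`:  `F_{Nℓ} ⊂ F_{(N k) ℓ}`. -/
def degenTop : FB L (N * ℓ) →ₐ[L] FB L (N * k * ℓ) := degenIncl L (dvd_aux N k ℓ)

theorem square_alpha :
    (degenTop L N k ℓ).comp (heckeAlphaBar L N ℓ) =
      (heckeAlphaBar L (N * k) ℓ).comp (heckeAlphaBar L N k) := by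
  refine AlgHom.ext fun x => Subtype.ext ?_
  rw [AlgHom.comp_apply, AlgHom.comp_apply, degenTop, coe_degenIncl, coe_heckeAlphaBar,
    coe_heckeAlphaBar, coe_heckeAlphaBar]

theorem square_beta :
    (degenTop L N k ℓ).comp (heckeBetaBar L N ℓ) =
      (heckeBetaBar L (N * k) ℓ).comp (heckeAlphaBar L N k) := by
  refine AlgHom.ext fun x => Subtype.ext ?_
  rw [AlgHom.comp_apply, AlgHom.comp_apply, degenTop, coe_degenIncl, coe_heckeBetaBar,
    coe_heckeBetaBar, coe_heckeAlphaBar]

variable {L N k ℓ}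

/-- **`π^* ∘ T_ℓ^{(N)} = T_ℓ^{(N k)} ∘ π^*`** for the Prelude's Hecke operators, given the Hecke
inputs at both levels and norm compatibility of the `α`-square. -/
theorem pullback_heckeOperatorAlong
    (hN : HeckeInputsAlong L N ℓ) (hM : HeckeInputsAlong L (N * k) ℓ)
    [HasPrincipalDivisors L (FB L (N * k))]
    (hi : (heckeAlphaBar L N k).toRingHom.IsIntegral)
    (hFIi : FundamentalIdentityAlong L (heckeAlphaBar L N k) hi)
    (hi₁ : (degenTop L N k ℓ).toRingHom.IsIntegral)
    (hnorm : NormCompat (heckeAlphaBar L N ℓ) (heckeAlphaBar L N k)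
      (heckeAlphaBar L (N * k) ℓ) (degenTop L N k ℓ))
    (x : Pic0 L (FB L N)) :
    pullbackPic0Along (heckeAlphaBar L N k) hi hFIi (heckeOperatorAlong L N ℓ x) =
      heckeOperatorAlong L (N * k) ℓ (pullbackPic0Along (heckeAlphaBar L N k) hi hFIi x) := by
  obtain ⟨hα, hβ, hP, hfin, hFI, hNF⟩ := hN
  obtain ⟨hα', hβ', hP', hfin', hFI', hNF'⟩ := hM
  haveI := hP
  haveI := hP'
  rw [heckeOperatorAlong_eq hα hβ hFI hfin hNF, heckeOperatorAlong_eq hα' hβ' hFI' hfin' hNF']
  exact pullbackPic0Along_correspondence (heckeAlphaBar L N ℓ) (heckeBetaBar L N ℓ)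
    (heckeAlphaBar L N k) (heckeAlphaBar L (N * k) ℓ) (heckeBetaBar L (N * k) ℓ)
    (degenTop L N k ℓ) hα hβ hi hα' hβ' hi₁ (square_alpha L N k ℓ) (square_beta L N k ℓ)
    hFI hfin hNF hFI' hfin' hNF' hFIi hnorm (hasLocalGenerators _ hα) x

/-- The arithmetic Galois actions at levels `N` and `M` are intertwined by the inclusion. -/
theorem intertwines_degenIncl {N M : ℕ} [NeZero N] [NeZero M] (h : N ∣ M) (σ : L ≃ₐ[ℚ] L) :
    SemilinearAut.IntertwinesAlong (degenIncl L h : FB L N →+* FB L M)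
      (arithmeticGalois (modularFunctionFieldFull N) σ)
      (arithmeticGalois (modularFunctionFieldFull M) σ) := by
  intro x
  apply Subtype.ext
  rw [RingHom.coe_coe, coe_arithmeticGalois_smul, coe_degenIncl, coe_degenIncl,
    coe_arithmeticGalois_smul]

theorem intertwines_heckeAlphaBar (σ : L ≃ₐ[ℚ] L) :
    SemilinearAut.IntertwinesAlong (heckeAlphaBar L N k : FB L N →+* FB L (N * k))
      (arithmeticGalois (modularFunctionFieldFull N) σ)
      (arithmeticGalois (modularFunctionFieldFull (N * k)) σ) := by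
  intro x
  apply Subtype.ext
  rw [RingHom.coe_coe, coe_arithmeticGalois_smul, coe_heckeAlphaBar, coe_heckeAlphaBar,
    coe_arithmeticGalois_smul]

/-- `π^*` is Galois equivariant. -/
theorem pullbackPic0Along_galois [HasPrincipalDivisors L (FB L (N * k))]
    (hi : (heckeAlphaBar L N k).toRingHom.IsIntegral)
    (hFIi : FundamentalIdentityAlong L (heckeAlphaBar L N k) hi)
    (σ : L ≃ₐ[ℚ] L) (x : Pic0 L (FB L N)) :
    pullbackPic0Along (heckeAlphaBar L N k) hi hFIi (σ • x) =
      σ • pullbackPic0Along (heckeAlphaBar L N k) hi hFIi x :=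
  pullbackPic0Along_smul (heckeAlphaBar L N k) hi (intertwines_heckeAlphaBar σ) hFIi x

end Fermat.Agent.S37.H818

end

end
-- ===== PACK-END S37/H818/Modular.lean

-- ===== PACK-BEGIN S19/H15/OrdBasic.lean
section





/-!
# Cell A3 (S19) — node ORD, part 1 (helper15): basic consequences of an `OrderDatum`

From an `OrderDatum ℓ M act` (only axiom on `act`: additivity):
* `act` is automatically a group action fixing `0` (`act_one`, `act_mul`, `act_zero`):
  `act σ m` is the unique point with `f (act σ m) = σ (f m)` for all generators `f`;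
* the `ℤ_(ℓ)`-algebra `ordAlg D` generated by the generators consists of equivariant functions
  with integral values and separates points.
-/

set_option autoImplicit false
set_option linter.style.haveILetI false

noncomputable section

namespace Fermat.Agent.S19.H15

open Fermat.Agent.S19

variable {ℓ : ℕ} {M : Type} [AddCommGroup M] {act : GalQ → M → M}

theorem act_one (D : OrderDatum ℓ M act) (m : M) : act 1 m = m :=
  D.separates _ _ fun f hf => by
    rw [D.equivariant f hf 1 m]
    rfl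

theorem act_mul (D : OrderDatum ℓ M act) (σ τ : GalQ) (m : M) :
    act σ (act τ m) = act (σ * τ) m :=
  D.separates _ _ fun f hf => by
    rw [D.equivariant f hf σ, D.equivariant f hf τ, D.equivariant f hf (σ * τ)]
    rfl

theorem act_zero (D : OrderDatum ℓ M act) (σ : GalQ) : act σ 0 = 0 := by
  have h := D.act_add σ 0 0
  rw [add_zero] at h
  exact left_eq_add.mp h

/-- The `ℤ_(ℓ)`-algebra generated by the generators of an order datum. -/
def ordAlg (D : OrderDatum ℓ M act) : Subalgebra (Rl ℓ) (M → Qb) :=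
  Algebra.adjoin (Rl ℓ) D.gens

theorem gens_le_ordAlg (D : OrderDatum ℓ M act) : D.gens ⊆ (ordAlg D : Set (M → Qb)) :=
  Algebra.subset_adjoin

/-- equivariant functions form a subalgebra -/
def equivSubalgebra (ℓ : ℕ) {X : Type} (act : GalQ → X → X) : Subalgebra (Rl ℓ) (X → Qb) where
  carrier := {f | H19.IsEquivariant act f}
  mul_mem' := fun {f g} hf hg σ m => by
    show f (act σ m) * g (act σ m) = σ (f m * g m)
    rw [hf σ m, hg σ m, map_mul]
  one_mem' := fun σ m => (map_one σ).symm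
  add_mem' := fun {f g} hf hg σ m => by
    show f (act σ m) + g (act σ m) = σ (f m + g m)
    rw [hf σ m, hg σ m, map_add]
  zero_mem' := fun σ m => (map_zero σ).symm
  algebraMap_mem' := fun r σ m => by
    show algebraMap (Rl ℓ) Qb r = σ (algebraMap (Rl ℓ) Qb r)
    have h : algebraMap (Rl ℓ) Qb r = algebraMap ℚ Qb (r : ℚ) := rfl
    rw [h, σ.commutes]

theorem mem_equivSubalgebra {X : Type} {act : GalQ → X → X} {f : X → Qb} :
    f ∈ equivSubalgebra ℓ act ↔ H19.IsEquivariant act f := Iff.rfl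

/-- functions with integral values form a subalgebra -/
def intSubalgebra (ℓ : ℕ) (X : Type) : Subalgebra (Rl ℓ) (X → Qb) where
  carrier := {f | ∀ x, IsIntegral (Rl ℓ) (f x)}
  mul_mem' := fun {f g} hf hg x => (hf x).mul (hg x)
  one_mem' := fun _ => isIntegral_one
  add_mem' := fun {f g} hf hg x => (hf x).add (hg x)
  zero_mem' := fun _ => isIntegral_zero
  algebraMap_mem' := fun _ _ => isIntegral_algebraMap

theorem mem_intSubalgebra {X : Type} {f : X → Qb} :
    f ∈ intSubalgebra ℓ X ↔ ∀ x, IsIntegral (Rl ℓ) (f x) := Iff.rfl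

theorem ordAlg_equivariant (D : OrderDatum ℓ M act) :
    ∀ f ∈ ordAlg D, H19.IsEquivariant act f := by
  have h : ordAlg D ≤ equivSubalgebra ℓ act :=
    Algebra.adjoin_le fun f hf => D.equivariant f hf
  exact fun f hf => h hf

theorem ordAlg_integral (D : OrderDatum ℓ M act) :
    ∀ f ∈ ordAlg D, ∀ m, IsIntegral (Rl ℓ) (f m) := by
  have h : ordAlg D ≤ intSubalgebra ℓ M :=
    Algebra.adjoin_le fun f hf => D.integral f hf
  exact fun f hf => h hf

theorem ordAlg_separates (D : OrderDatum ℓ M act) :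
    ∀ m m' : M, m ≠ m' → ∃ f ∈ ordAlg D, f m ≠ f m' := by
  intro m m' hne
  by_contra hcon
  push Not at hcon
  exact hne (D.separates m m' fun f hf => hcon f (gens_le_ordAlg D hf))

end Fermat.Agent.S19.H15

end

end
-- ===== PACK-END S19/H15/OrdBasic.lean

-- ===== PACK-BEGIN S19/H679/NT.lean
section



/-!
# Cell A3 (S19), block UNR (helper679) — number-theoretic inputs

`V` a valuation subring of `ℚ̄` over the prime `ℓ`.  Elementary facts about algebraic integers
and `V` ("rank one" lemmas), orbits under subgroups of the Galois group, and the two existence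
lemmas used by the descent:

* `exists_sepH679`  : an inertia-invariant integer of a normal level `E` moved (mod `𝔪_V`) by a
  given decomposition element which is not inertial on `E`;
* `exists_crtH679`  : an inertia-invariant integer `U` of `E`, `U ≡ 1 mod 𝔪_V`, whose conjugates
  `σ U` are divisible by `ℓ ^ n` for all `σ` not in `D_V · Gal(ℚ̄/E)`.
-/

set_option autoImplicit false

namespace Fermat.Agent.S19.H679

open Fermat.Agent.S54 Fermat.Agent.S55.Bridge Fermat.Agent.S55.Bridge.H594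
open Polynomial

attribute [local instance] isAlgebraic_Qbar isGalois_Qbar

variable (V : ValuationSubring Qb)

/-! ## Basic valuation facts -/

theorem mul_mem_nonunitsH679 {a b : Qb} (ha : a ∈ V) (hb : b ∈ V.nonunits) :
    a * b ∈ V.nonunits := by
  rw [ValuationSubring.mem_nonunits_iff] at hb ⊢
  rw [_root_.map_mul]
  have h1 : V.valuation a ≤ 1 := (V.valuation_le_one_iff a).2 ha
  calc V.valuation a * V.valuation b ≤ 1 * V.valuation b := mul_le_mul' h1 le_rfl
    _ = V.valuation b := one_mul _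
    _ < 1 := hb

theorem mul_mem_nonunitsH679' {a b : Qb} (ha : a ∈ V.nonunits) (hb : b ∈ V) :
    a * b ∈ V.nonunits := by
  rw [mul_comm]
  exact mul_mem_nonunitsH679 V hb ha

theorem mem_of_mem_nonunitsH679 {a : Qb} (ha : a ∈ V.nonunits) : a ∈ V :=
  V.nonunits_subset ha

theorem inv_mem_of_not_mem_nonunitsH679 {a : Qb} (ha : a ∉ V.nonunits) : a⁻¹ ∈ V := by
  by_contra h
  exact ha (V.mem_nonunits_iff_or.mpr (Or.inr h))

/-- `𝔪_V` is a prime ideal: a product of elements of `V` in `𝔪_V` has a factor in `𝔪_V`. -/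
theorem mem_nonunits_of_mulH679 {a b : Qb} (_ha : a ∈ V) (_hb : b ∈ V)
    (hab : a * b ∈ V.nonunits) : a ∈ V.nonunits ∨ b ∈ V.nonunits := by
  by_contra hcon
  rw [not_or] at hcon
  have h1 := inv_mem_of_not_mem_nonunitsH679 V hcon.1
  have h2 := inv_mem_of_not_mem_nonunitsH679 V hcon.2
  have ha0 : a ≠ 0 := fun h => hcon.1 (h ▸ V.nonunits.zero_mem)
  have hb0 : b ≠ 0 := fun h => hcon.2 (h ▸ V.nonunits.zero_mem)
  have h3 : (a⁻¹ * b⁻¹) * (a * b) ∈ V.nonunits :=
    mul_mem_nonunitsH679 V (V.mul_mem _ _ h1 h2) hab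
  have h4 : (a⁻¹ * b⁻¹) * (a * b) = 1 := by field_simp
  rw [h4, ValuationSubring.mem_nonunits_iff, _root_.map_one] at h3
  exact lt_irrefl _ h3

theorem one_not_mem_nonunitsH679 : (1 : Qb) ∉ V.nonunits := by
  rw [ValuationSubring.mem_nonunits_iff, _root_.map_one]
  exact lt_irrefl _

theorem prod_mem_nonunitsH679 {ι : Type*} (s : Finset ι) (g : ι → Qb) (hg : ∀ i ∈ s, g i ∈ V)
    (i₀ : ι) (hi₀ : i₀ ∈ s) (h0 : g i₀ ∈ V.nonunits) : ∏ i ∈ s, g i ∈ V.nonunits := by
  classical
  rw [← Finset.mul_prod_erase s g hi₀]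
  refine mul_mem_nonunitsH679' V h0 ?_
  exact Subring.prod_mem V.toSubring fun i hi => hg i (Finset.mem_of_mem_erase hi)

theorem exists_mem_nonunits_of_prodH679 {ι : Type*} (s : Finset ι) (g : ι → Qb)
    (hg : ∀ i ∈ s, g i ∈ V) (h : ∏ i ∈ s, g i ∈ V.nonunits) : ∃ i ∈ s, g i ∈ V.nonunits := by
  classical
  induction s using Finset.induction_on with
  | empty =>
    rw [Finset.prod_empty] at h
    exact absurd h (one_not_mem_nonunitsH679 V)
  | insert a s ha ih =>
    rw [Finset.prod_insert ha] at h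
    have h1 : g a ∈ V := hg a (Finset.mem_insert_self a s)
    have h2 : ∏ i ∈ s, g i ∈ V :=
      Subring.prod_mem V.toSubring fun i hi => hg i (Finset.mem_insert_of_mem hi)
    rcases mem_nonunits_of_mulH679 V h1 h2 h with h3 | h3
    · exact ⟨a, Finset.mem_insert_self a s, h3⟩
    · obtain ⟨i, hi, hi'⟩ := ih (fun i hi => hg i (Finset.mem_insert_of_mem hi)) h3
      exact ⟨i, Finset.mem_insert_of_mem hi, hi'⟩

variable {ℓ : ℕ} (hℓ : ℓ.Prime) (hV : (ℓ : Qb) ∈ V.nonunits)

include hℓ hV in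
/-- Integers prime to `ℓ` are units of `V`. -/
theorem intCast_inv_memH679 (d : ℤ) (hd : ¬ (ℓ : ℤ) ∣ d) : ((d : Qb))⁻¹ ∈ V := by
  apply inv_mem_of_not_mem_nonunitsH679
  intro h
  exact hd (dvd_of_intCast_mem_nonunits V ℓ hℓ hV d h)

include hℓ hV in
/-- **Bounded denominators**: for every `x` some `ℓ ^ a` clears the `V`-denominators of all
conjugates of `x`. -/
theorem exists_pow_mul_conj_memH679 (x : Qb) : ∃ a : ℕ, ∀ σ : GalQ, (ℓ : Qb) ^ a * σ x ∈ V := by
  have halg : IsAlgebraic ℤ x :=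
    (IsFractionRing.isAlgebraic_iff ℤ ℚ Qb).mpr (Algebra.IsAlgebraic.isAlgebraic x)
  obtain ⟨d, hd0, hd⟩ := halg.exists_integral_multiple
  -- `d = ℓ ^ a * d'` with `ℓ ∤ d'`
  obtain ⟨a, d', hd', hdd⟩ : ∃ (a : ℕ) (d' : ℤ), ¬ (ℓ : ℤ) ∣ d' ∧ d = (ℓ : ℤ) ^ a * d' := by
    have hfin : FiniteMultiplicity (ℓ : ℤ) d := by
      rw [Int.finiteMultiplicity_iff]
      refine ⟨?_, hd0⟩
      have := hℓ.one_lt
      simp only [Int.natAbs_natCast]
      omega
    obtain ⟨c, hc1, hc2⟩ := hfin.exists_eq_pow_mul_and_not_dvd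
    exact ⟨_, c, hc2, hc1⟩
  refine ⟨a, fun σ => ?_⟩
  have h1 : IsIntegral ℤ (σ (d • x)) := hd.map σ
  have h2 : σ (d • x) ∈ V := isIntegral_mem_valuationSubring V h1
  have h3 : ((d' : Qb))⁻¹ ∈ V := intCast_inv_memH679 V hℓ hV d' hd'
  have hd'0 : (d' : Qb) ≠ 0 := by
    intro h
    apply hd'
    have : d' = 0 := by exact_mod_cast h
    rw [this]
    exact dvd_zero _
  have h4 : (ℓ : Qb) ^ a * σ x = σ (d • x) * ((d' : Qb))⁻¹ := by
    rw [zsmul_eq_mul, _root_.map_mul, _root_.map_intCast, hdd]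
    push_cast
    field_simp
  rw [h4]
  exact V.mul_mem _ _ h2 h3

include hℓ hV in
/-- For a nonzero `y` some power of `ℓ` is divisible by `y` in `V`. -/
theorem exists_pow_div_memH679 (y : Qb) : ∃ e : ℕ, (ℓ : Qb) ^ e * y⁻¹ ∈ V := by
  obtain ⟨a, ha⟩ := exists_pow_mul_conj_memH679 V hℓ hV y⁻¹
  exact ⟨a, by simpa using ha 1⟩

include hℓ hV in
/-- **Rank one**: a non-unit algebraic integer has a power divisible by `ℓ`. -/
theorem exists_pow_eq_mulH679 (y : Qb) (hy : IsIntegral ℤ y) (hyV : y ∈ V.nonunits) :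
    ∃ k : ℕ, 0 < k ∧ ∃ z ∈ V, y ^ k = (ℓ : Qb) * z := by
  rcases eq_or_ne y 0 with rfl | hy0
  · exact ⟨1, one_pos, 0, V.zero_mem, by simp⟩
  obtain ⟨p, hpm, hpy⟩ := hy
  have hpy' : aeval y p = 0 := by
    rw [aeval_def]; exact hpy
  -- the least index with coefficient prime to `ℓ`
  have hex : ∃ i, ¬ (ℓ : ℤ) ∣ p.coeff i := by
    refine ⟨p.natDegree, ?_⟩
    rw [hpm.coeff_natDegree]
    intro h
    have h1 := Int.isUnit_iff.mp (isUnit_of_dvd_one h)
    have := hℓ.one_lt
    omega
  classical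
  set i := Nat.find hex with hi
  have hi1 : ¬ (ℓ : ℤ) ∣ p.coeff i := Nat.find_spec hex
  have hi2 : ∀ j < i, (ℓ : ℤ) ∣ p.coeff j := fun j hj => by
    by_contra h
    exact Nat.find_min hex hj h
  -- valuations
  set v := V.valuation with hv
  have hvy : v y < 1 := (ValuationSubring.mem_nonunits_iff V).1 hyV
  have hvy0 : v y ≠ 0 := (Valuation.ne_zero_iff v).2 hy0
  have hvl : v (ℓ : Qb) < 1 := (ValuationSubring.mem_nonunits_iff V).1 hV
  have hvint : ∀ n : ℤ, v (n : Qb) ≤ 1 := fun n =>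
    (V.valuation_le_one_iff _).2 (intCast_mem V n)
  have hvunit : v ((p.coeff i : ℤ) : Qb) = 1 := by
    have h1 := intCast_inv_memH679 V hℓ hV _ hi1
    have h2 : v (((p.coeff i : ℤ) : Qb))⁻¹ ≤ 1 := (V.valuation_le_one_iff _).2 h1
    have h3 := hvint (p.coeff i)
    have hne : ((p.coeff i : ℤ) : Qb) ≠ 0 := by
      intro h
      apply hi1
      have : p.coeff i = 0 := by exact_mod_cast h
      rw [this]; exact dvd_zero _
    rw [map_inv₀] at h2
    have h4 : v ((p.coeff i : ℤ) : Qb) ≠ 0 := (Valuation.ne_zero_iff v).2 hne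
    have h5 : 1 ≤ v ((p.coeff i : ℤ) : Qb) := by
      rwa [inv_le_one₀ (zero_lt_iff.2 h4)] at h2
    exact le_antisymm h3 h5
  -- the relation
  have hsum : aeval y p = ∑ j ∈ Finset.range (p.natDegree + 1), ((p.coeff j : ℤ) : Qb) * y ^ j := by
    rw [aeval_eq_sum_range]
    refine Finset.sum_congr rfl fun j _ => ?_
    rw [zsmul_eq_mul]
  have hile : i ≤ p.natDegree := by
    by_contra h
    rw [not_le] at h
    exact hi1 (by rw [coeff_eq_zero_of_natDegree_lt h]; exact dvd_zero _)
  have himem : i ∈ Finset.range (p.natDegree + 1) := Finset.mem_range.2 (by omega)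
  rw [hpy', ← Finset.add_sum_erase _ _ himem] at hsum
  have hrel : ((p.coeff i : ℤ) : Qb) * y ^ i
      = - ∑ j ∈ (Finset.range (p.natDegree + 1)).erase i, ((p.coeff j : ℤ) : Qb) * y ^ j := by
    rw [eq_neg_iff_add_eq_zero]
    exact hsum.symm
  have hvi : v (y ^ i) = v (∑ j ∈ (Finset.range (p.natDegree + 1)).erase i,
      ((p.coeff j : ℤ) : Qb) * y ^ j) := by
    have := congrArg v hrel
    rw [_root_.map_mul, hvunit, one_mul, Valuation.map_neg] at this
    exact this
  -- bound each term by `max (v ℓ) (v y ^ (i+1))`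
  have hbound : v (∑ j ∈ (Finset.range (p.natDegree + 1)).erase i,
      ((p.coeff j : ℤ) : Qb) * y ^ j) ≤ max (v (ℓ : Qb)) (v y ^ (i + 1)) := by
    apply Valuation.map_sum_le
    intro j hj
    have hji : j ≠ i := Finset.ne_of_mem_erase hj
    rcases lt_or_gt_of_ne hji with hlt | hgt
    · obtain ⟨c, hc⟩ := hi2 j hlt
      refine le_trans ?_ (le_max_left _ _)
      rw [hc]
      push_cast
      rw [_root_.map_mul, _root_.map_mul, _root_.map_pow]
      have h1 : v (c : Qb) ≤ 1 := hvint c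
      have h2 : v y ^ j ≤ 1 := pow_le_one₀ zero_le hvy.le
      calc v (ℓ : Qb) * v (c : Qb) * v y ^ j ≤ v (ℓ : Qb) * 1 * 1 := by
            gcongr
        _ = v (ℓ : Qb) := by rw [mul_one, mul_one]
    · refine le_trans ?_ (le_max_right _ _)
      rw [_root_.map_mul, _root_.map_pow]
      have h1 : v ((p.coeff j : ℤ) : Qb) ≤ 1 := hvint _
      have h2 : v y ^ j ≤ v y ^ (i + 1) := pow_le_pow_of_le_one zero_le hvy.le (by omega)
      calc v ((p.coeff j : ℤ) : Qb) * v y ^ j ≤ 1 * v y ^ (i + 1) := by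
            gcongr
        _ = v y ^ (i + 1) := one_mul _
  rw [← hvi, _root_.map_pow] at hbound
  have hstrict : v y ^ (i + 1) < v y ^ i := by
    rw [pow_succ]
    calc v y ^ i * v y < v y ^ i * 1 := by
          apply mul_lt_mul_of_pos_left hvy
          exact zero_lt_iff.2 (pow_ne_zero _ hvy0)
      _ = v y ^ i := mul_one _
  have hle : v y ^ i ≤ v (ℓ : Qb) := by
    rcases le_max_iff.1 hbound with h | h
    · exact h
    · exact absurd h (not_le.2 hstrict)
  have hipos : 0 < i := by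
    rcases Nat.eq_zero_or_pos i with h0 | h0
    · rw [h0, pow_zero] at hle
      exact absurd hvl (not_lt.2 hle)
    · exact h0
  refine ⟨i, hipos, y ^ i * ((ℓ : Qb))⁻¹, ?_, ?_⟩
  · rw [← V.valuation_le_one_iff, _root_.map_mul, map_inv₀, _root_.map_pow]
    have hl0 : v (ℓ : Qb) ≠ 0 := by
      rw [Valuation.ne_zero_iff]
      exact_mod_cast hℓ.ne_zero
    rw [← div_eq_mul_inv, div_le_one₀ (zero_lt_iff.2 hl0)]
    exact hle
  · have hl0 : (ℓ : Qb) ≠ 0 := by exact_mod_cast hℓ.ne_zero
    field_simp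

/-! ## Orbits of subgroups of the Galois group -/

/-- Orbits of elements of `ℚ̄` under any set of automorphisms are finite. -/
theorem finite_orbH679 (H : Set GalQ) (x : Qb) : {y : Qb | ∃ h ∈ H, h x = y}.Finite := by
  refine Set.Finite.subset (Polynomial.rootSet_finite (minpoly ℚ x) Qb) ?_
  rintro y ⟨h, -, rfl⟩
  rw [Polynomial.mem_rootSet]
  refine ⟨minpoly.ne_zero (Algebra.IsIntegral.isIntegral x), ?_⟩
  exact minpoly.aeval_algHom ℚ (h : Qb →ₐ[ℚ] Qb) x

/-- The orbit of `x` under a subgroup, as a finset. -/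
noncomputable def orbH679 (H : Subgroup GalQ) (x : Qb) : Finset Qb :=
  (finite_orbH679 (H : Set GalQ) x).toFinset

theorem mem_orbH679 {H : Subgroup GalQ} {x y : Qb} :
    y ∈ orbH679 H x ↔ ∃ h ∈ H, h x = y := by
  rw [orbH679, Set.Finite.mem_toFinset]
  rfl

theorem self_mem_orbH679 (H : Subgroup GalQ) (x : Qb) : x ∈ orbH679 H x :=
  mem_orbH679.2 ⟨1, H.one_mem, rfl⟩

theorem apply_mem_orbH679 {H : Subgroup GalQ} {x y : Qb} {h : GalQ} (hh : h ∈ H)
    (hy : y ∈ orbH679 H x) : h y ∈ orbH679 H x := by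
  obtain ⟨g, hg, rfl⟩ := mem_orbH679.1 hy
  exact mem_orbH679.2 ⟨h * g, H.mul_mem hh hg, rfl⟩

theorem galH679_inv_apply (h : GalQ) (y : Qb) : h⁻¹ (h y) = y := by
  show (h⁻¹ * h) y = y
  rw [inv_mul_cancel]; rfl

theorem galH679_apply_inv (h : GalQ) (y : Qb) : h (h⁻¹ y) = y := by
  show (h * h⁻¹) y = y
  rw [mul_inv_cancel]; rfl

/-- Products over an orbit are invariant. -/
theorem apply_prod_orbH679 {H : Subgroup GalQ} (x : Qb) {h : GalQ} (hh : h ∈ H) :
    h (∏ y ∈ orbH679 H x, y) = ∏ y ∈ orbH679 H x, y := by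
  rw [_root_.map_prod]
  refine Finset.prod_nbij' (fun y => h y) (fun y => h⁻¹ y)
    (fun y hy => apply_mem_orbH679 hh hy) (fun y hy => apply_mem_orbH679 (H.inv_mem hh) hy)
    (fun y _ => galH679_inv_apply h y) (fun y _ => galH679_apply_inv h y) (fun y _ => rfl)

/-- The orbit polynomial. -/
noncomputable def orbPolyH679 (H : Subgroup GalQ) (x : Qb) : Qb[X] :=
  ∏ y ∈ orbH679 H x, (X - C y)

theorem map_orbPolyH679 {H : Subgroup GalQ} (x : Qb) {h : GalQ} (hh : h ∈ H) :
    (orbPolyH679 H x).map (h : Qb →+* Qb) = orbPolyH679 H x := by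
  unfold orbPolyH679
  rw [Polynomial.map_prod]
  refine Finset.prod_nbij' (fun y => h y) (fun y => h⁻¹ y)
    (fun y hy => apply_mem_orbH679 hh hy) (fun y hy => apply_mem_orbH679 (H.inv_mem hh) hy)
    (fun y _ => galH679_inv_apply h y) (fun y _ => galH679_apply_inv h y) ?_
  intro y _
  simp

theorem apply_coeff_orbPolyH679 {H : Subgroup GalQ} (x : Qb) {h : GalQ} (hh : h ∈ H) (j : ℕ) :
    h ((orbPolyH679 H x).coeff j) = (orbPolyH679 H x).coeff j := by
  conv_rhs => rw [← map_orbPolyH679 x hh]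
  rw [Polynomial.coeff_map]
  rfl

/-- Coefficients of `∏ (X - y)` lie in any subring containing the `y`. -/
theorem coeff_prod_X_sub_C_memH679 (A : Subring Qb) (s : Finset Qb) (hs : ∀ y ∈ s, y ∈ A)
    (j : ℕ) : (∏ y ∈ s, (X - C y)).coeff j ∈ A := by
  classical
  induction s using Finset.induction_on generalizing j with
  | empty =>
    rw [Finset.prod_empty, Polynomial.coeff_one]
    split_ifs
    · exact A.one_mem
    · exact A.zero_mem
  | insert a s ha ih =>
    rw [Finset.prod_insert ha, mul_comm]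
    have hsa : ∀ y ∈ s, y ∈ A := fun y hy => hs y (Finset.mem_insert_of_mem hy)
    have haA : a ∈ A := hs a (Finset.mem_insert_self a s)
    rcases j with _ | j
    · rw [Polynomial.mul_coeff_zero]
      refine A.mul_mem (ih hsa 0) ?_
      simp only [coeff_sub, coeff_X_zero, coeff_C_zero, zero_sub]
      exact A.neg_mem haA
    · rw [Polynomial.coeff_mul_X_sub_C]
      exact A.sub_mem (ih hsa j) (A.mul_mem (ih hsa (j + 1)) haA)

theorem orbPolyH679_eval_self (H : Subgroup GalQ) (x : Qb) : (orbPolyH679 H x).eval x = 0 := by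
  unfold orbPolyH679
  rw [Polynomial.eval_prod]
  exact Finset.prod_eq_zero (self_mem_orbH679 H x) (by simp)

/-! ## Decomposition and inertia, elementwise -/

theorem mem_decompH679 {V : ValuationSubring Qb} {δ : GalQ}
    (hδ : δ ∈ V.decompositionSubgroup ℚ) (x : Qb) : δ x ∈ V ↔ x ∈ V :=
  (mem_decompositionSubgroup_iff V δ).1 hδ x

theorem mem_nonunits_decompH679 {V : ValuationSubring Qb} {δ : GalQ}
    (hδ : δ ∈ V.decompositionSubgroup ℚ) (x : Qb) : δ x ∈ V.nonunits ↔ x ∈ V.nonunits := by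
  rw [V.mem_nonunits_iff_or, V.mem_nonunits_iff_or, ← map_inv₀, mem_decompH679 hδ,
    _root_.map_eq_zero_iff _ δ.injective]

theorem inertia_le_decompH679 {V : ValuationSubring Qb} {ι : GalQ}
    (hι : ι ∈ V.inertiaSubgroupIn ℚ) : ι ∈ V.decompositionSubgroup ℚ :=
  ((mem_inertiaSubgroupIn_iff V ι).1 hι).1

theorem inertia_sub_memH679 {V : ValuationSubring Qb} {ι : GalQ}
    (hι : ι ∈ V.inertiaSubgroupIn ℚ) {z : Qb} (hz : z ∈ V) : ι z - z ∈ V.nonunits :=
  ((mem_inertiaSubgroupIn_iff V ι).1 hι).2 z hz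

/-- The `S19` inertia predicate follows from membership in the inertia group. -/
theorem isInertiaAt_of_memH679 {V : ValuationSubring Qb} {ι : GalQ}
    (hι : ι ∈ V.inertiaSubgroupIn ℚ) : IsInertiaAt V ι :=
  fun _ hz => inertia_sub_memH679 hι hz

/-- Inertia is normal in the decomposition group. -/
theorem conj_mem_inertiaH679 {V : ValuationSubring Qb} {δ ι : GalQ}
    (hδ : δ ∈ V.decompositionSubgroup ℚ) (hι : ι ∈ V.inertiaSubgroupIn ℚ) :
    δ * ι * δ⁻¹ ∈ V.inertiaSubgroupIn ℚ := by
  rw [mem_inertiaSubgroupIn_iff]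
  refine ⟨(V.decompositionSubgroup ℚ).mul_mem
    ((V.decompositionSubgroup ℚ).mul_mem hδ (inertia_le_decompH679 hι))
    ((V.decompositionSubgroup ℚ).inv_mem hδ), fun z hz => ?_⟩
  have h1 : δ⁻¹ z ∈ V := (mem_decompH679 ((V.decompositionSubgroup ℚ).inv_mem hδ) z).2 hz
  have h2 := inertia_sub_memH679 hι h1
  have h3 : (δ * ι * δ⁻¹) z - z = δ (ι (δ⁻¹ z) - δ⁻¹ z) := by
    rw [_root_.map_sub, galH679_apply_inv]
    rfl
  rw [h3]
  exact (mem_nonunits_decompH679 hδ _).2 h2

theorem prod_sub_one_mem_nonunitsH679 {ι : Type*} (s : Finset ι) (g : ι → Qb)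
    (hg : ∀ i ∈ s, g i - 1 ∈ V.nonunits) : ∏ i ∈ s, g i - 1 ∈ V.nonunits := by
  classical
  induction s using Finset.induction_on with
  | empty => simpa using V.nonunits.zero_mem
  | insert a s ha ih =>
    rw [Finset.prod_insert ha]
    have h1 := hg a (Finset.mem_insert_self a s)
    have h2 := ih fun i hi => hg i (Finset.mem_insert_of_mem hi)
    have h3 : g a ∈ V := by
      have := V.add_mem _ _ (mem_of_mem_nonunitsH679 V h1) V.one_mem
      simpa using this
    have h4 : g a * ∏ i ∈ s, g i - 1 = g a * (∏ i ∈ s, g i - 1) + (g a - 1) := by ring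
    rw [h4]
    exact V.nonunits.add_mem (mul_mem_nonunitsH679 V h3 h2) h1

/-! ## Finite order of residues -/

include hℓ hV in
/-- A unit of `V` which is an algebraic integer has finite order modulo `𝔪_V`. -/
theorem exists_pow_sub_one_memH679 (x : Qb) (hx : IsIntegral ℤ x) (hxu : x ∉ V.nonunits) :
    ∃ N : ℕ, 0 < N ∧ x ^ N - 1 ∈ V.nonunits := by
  have hprime := primeBelow_isPrime V
  have hQ : (ℓ : integralClosure ℤ Qb) ∈ primeBelow V := by
    rw [mem_primeBelow]
    simpa using hV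
  obtain ⟨σ, -, hσ⟩ := exists_frob_integralClosure ℓ hℓ (primeBelow V) hQ
  have hσ' : ∀ z : Qb, IsIntegral ℤ z → σ z - z ^ ℓ ∈ V.nonunits := by
    intro z hz
    have := hσ ⟨z, hz⟩
    rw [mem_primeBelow] at this
    simpa using this
  have hintV : ∀ z : Qb, IsIntegral ℤ z → z ∈ V := fun z hz =>
    isIntegral_mem_valuationSubring V hz
  -- iterate
  have hiter : ∀ k : ℕ, ∀ z : Qb, IsIntegral ℤ z → (σ ^ k) z - z ^ (ℓ ^ k) ∈ V.nonunits := by
    intro k
    induction k with
    | zero =>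
      intro z _
      simpa using V.nonunits.zero_mem
    | succ k ih =>
      intro z hz
      have h1 := ih (σ z) (hz.map σ)
      have h2 : (σ z) ^ (ℓ ^ k) - (z ^ ℓ) ^ (ℓ ^ k) ∈ V.nonunits := by
        have hgeom := Commute.mul_geom_sum₂ (Commute.all (σ z) (z ^ ℓ)) (ℓ ^ k)
        have hne : IsIntegral ℤ (∑ i ∈ Finset.range (ℓ ^ k),
            (σ z) ^ i * (z ^ ℓ) ^ (ℓ ^ k - 1 - i)) :=
          IsIntegral.sum _ fun i _ => ((hz.map σ).pow _).mul ((hz.pow _).pow _)
        rw [← hgeom]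
        exact mul_mem_nonunitsH679' V (hσ' z hz) (hintV _ hne)
      have h3 : (σ ^ (k + 1)) z - z ^ (ℓ ^ (k + 1))
          = ((σ ^ k) (σ z) - (σ z) ^ (ℓ ^ k)) + ((σ z) ^ (ℓ ^ k) - (z ^ ℓ) ^ (ℓ ^ k)) := by
        rw [pow_succ σ k, pow_succ ℓ k, mul_comm (ℓ ^ k) ℓ, pow_mul]
        show (σ ^ k) (σ z) - _ = _
        ring
      rw [h3]
      exact V.nonunits.add_mem h1 h2
  -- pigeonhole on the (finite) orbit of `x`
  have hfin : {y : Qb | ∃ h ∈ (Set.univ : Set GalQ), h x = y}.Finite := finite_orbH679 _ x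
  haveI : Finite ↥{y : Qb | ∃ h ∈ (Set.univ : Set GalQ), h x = y} := hfin.to_subtype
  obtain ⟨a, b, hab, heq⟩ := Finite.exists_ne_map_eq_of_infinite
    (fun n : ℕ => (⟨(σ ^ n) x, ⟨σ ^ n, trivial, rfl⟩⟩ :
      ↥{y : Qb | ∃ h ∈ (Set.univ : Set GalQ), h x = y}))
  have heq' : (σ ^ a) x = (σ ^ b) x := congrArg Subtype.val heq
  have key : ∀ a b : ℕ, a < b → (σ ^ a) x = (σ ^ b) x → ∃ k : ℕ, 0 < k ∧ (σ ^ k) x = x := by
    intro a b hlt h1
    refine ⟨b - a, by omega, ?_⟩
    have h2 : σ ^ b = σ ^ a * σ ^ (b - a) := by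
      rw [← pow_add]; congr 1; omega
    rw [h2] at h1
    exact ((σ ^ a).injective h1).symm
  obtain ⟨k, hk, hkx⟩ : ∃ k : ℕ, 0 < k ∧ (σ ^ k) x = x := by
    rcases lt_or_gt_of_ne hab with h | h
    · exact key a b h heq'
    · exact key b a h heq'.symm
  have h1 := hiter k x hx
  rw [hkx] at h1
  have hℓk : 2 ≤ ℓ ^ k := by
    calc 2 ≤ ℓ := hℓ.two_le
      _ = ℓ ^ 1 := (pow_one ℓ).symm
      _ ≤ ℓ ^ k := Nat.pow_le_pow_right hℓ.pos hk
  refine ⟨ℓ ^ k - 1, by omega, ?_⟩
  have h2 : x - x ^ (ℓ ^ k) = x * (-(x ^ (ℓ ^ k - 1) - 1)) := by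
    have : ℓ ^ k = (ℓ ^ k - 1) + 1 := by omega
    conv_lhs => rw [this, pow_succ]
    ring
  rw [h2] at h1
  have hxV : x ∈ V := hintV x hx
  have hpV : -(x ^ (ℓ ^ k - 1) - 1) ∈ V :=
    neg_mem (sub_mem (pow_mem hxV _) (one_mem V))
  rcases mem_nonunits_of_mulH679 V hxV hpV h1 with h | h
  · exact absurd h hxu
  · have := V.nonunits.neg_mem h
    simpa using this

end Fermat.Agent.S19.H679

end
-- ===== PACK-END S19/H679/NT.lean

-- ===== PACK-BEGIN Lib/RR/H638/NonSpecial.lean
section


/-!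
# Non-special effective divisors (helper638)

From Riemann's theorem (`IsRiemannGenus K F g`) alone — no duality, no canonical divisor:

`exists_nonspecial`: if `F / K` has infinitely many places (e.g. `K` infinite), then for every
finite set `S` of places and every `d ≤ g` there are `d` distinct places `P₁, …, P_d ∉ S` with
`ℓ(P₁ + ⋯ + P_d) = 1`, i.e. `L(P₁ + ⋯ + P_d) = K`.

This is input (G2) of the S18 endgames (origin/helper573:coord/S18-endgame-helper573.md).
-/

set_option autoImplicit false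

noncomputable section

open AlgebraicCurve

namespace Fermat.Agent.Lib.RR.H638

open Fermat.Agent.Lib.RR

variable {K F : Type*} [Field K] [Field F] [Algebra K F]

/-- An element of `L(E + P) ∖ L(E)` has order exactly `-(E P + 1)` at `P`. -/
theorem ord_eq_of_mem_of_not_mem (E : Divisor K F) (v : Place K F) {f : F}
    (hf : f ∈ riemannRochSpace (E + prim v)) (hf' : f ∉ riemannRochSpace E) :
    v.ord f = -(E v + 1) := by
  have hf0 : f ≠ 0 := fun h => hf' (h ▸ Submodule.zero_mem _)
  have h1 := (mem_L_iff.mp hf v).resolve_left hf0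
  simp only [Finsupp.coe_add, Pi.add_apply, prim_apply_self] at h1
  by_contra hne
  apply hf'
  rw [mem_L_iff]
  intro w
  right
  by_cases hw : w = v
  · subst hw; omega
  · have h2 := (mem_L_iff.mp hf w).resolve_left hf0
    simpa [prim_apply_of_ne hw] using h2

section

variable [FF1 K F]

/-- If `ℓ(E + P) > ℓ(E)` for all `P` in a finset `T` of places outside the support of `E`, then
`ℓ(E + ∑_{P ∈ T} P) ≥ ℓ(E) + #T`. -/
theorem ell_add_divT_ge (E : Divisor K F) (T : Finset (Place K F))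
    (hT : ∀ v ∈ T, ell E < ell (E + prim v)) :
    ell E + T.card ≤ ell (E + divT T) := by
  classical
  induction T using Finset.induction_on with
  | empty => simp [divT]
  | insert v T hv ih =>
    have ih' := ih (fun w hw => hT w (Finset.mem_insert_of_mem hw))
    have hvT := hT v (Finset.mem_insert_self v T)
    -- an element of L(E + v) not in L(E)
    have hne : ¬ riemannRochSpace (E + prim v) ≤ riemannRochSpace E := by
      intro hle
      have := Submodule.finrank_mono hle
      unfold ell at hvT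
      omega
    obtain ⟨f, hf, hf'⟩ := SetLike.not_le_iff_exists.mp hne
    have hford := ord_eq_of_mem_of_not_mem E v hf hf'
    have hdiv : divT (insert v T) = divT T + prim v := by
      unfold divT
      rw [Finset.sum_insert hv, add_comm]
    rw [hdiv, ← add_assoc, Finset.card_insert_of_notMem hv]
    -- f ∈ L(E + T + v) \ L(E + T)
    have hle : E + prim v ≤ E + divT T + prim v := by
      rw [Finsupp.le_def]; intro w
      have := divT_nonneg T w
      simp only [Finsupp.coe_add, Pi.add_apply]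
      omega
    have hf1 : f ∈ riemannRochSpace (E + divT T + prim v) := L_mono hle hf
    have hf2 : f ∉ riemannRochSpace (E + divT T) := by
      intro hmem
      have hf0 : f ≠ 0 := fun h => hf' (h ▸ Submodule.zero_mem _)
      have := (mem_L_iff.mp hmem v).resolve_left hf0
      simp only [Finsupp.coe_add, Pi.add_apply, divT_apply_not_mem hv] at this
      omega
    have hlt : ell (E + divT T) < ell (E + divT T + prim v) := by
      unfold ell
      apply Submodule.finrank_lt_finrank_of_lt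
      refine lt_of_le_of_ne (L_mono ?_) ?_
      · rw [Finsupp.le_def]; intro w
        simp only [Finsupp.coe_add, Pi.add_apply]
        by_cases hw : w = v
        · subst hw; rw [prim_apply_self]; omega
        · rw [prim_apply_of_ne hw]; omega
      · intro heq
        exact hf2 (heq ▸ hf1)
    omega

/-- One step: if `ℓ(E) = 1`-type bound `deg E + 1 - ℓ(E) < g`, then only finitely many places
`P ∉ supp E` can have `ℓ(E + P) > ℓ(E)`; quantitatively, any finset `T` of such places, disjoint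
from the support of `E`, has `#T` bounded. -/
theorem card_le_of_ell_lt {g : ℕ} (hg : IsRiemannGenus K F g) (E : Divisor K F) :
    ∃ N : ℕ, ∀ T : Finset (Place K F), (∀ v ∈ T, ell E < ell (E + prim v)) →
      (Divisor.degree E + 1 - (ell E : ℤ) < g) → T.card < N := by
  obtain ⟨c, hc⟩ := hg
  refine ⟨(c - Divisor.degree E).toNat + 1, fun T hT hlt => ?_⟩
  by_contra hcard
  push Not at hcard
  have h1 := ell_add_divT_ge E T hT
  have hdeg : Divisor.degree (E + divT T) = Divisor.degree E + T.card := by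
    rw [map_add, degree_divT]
  have hc' : c ≤ Divisor.degree (E + divT T) := by
    rw [hdeg]
    have := Int.self_le_toNat (c - Divisor.degree E)
    have : ((c - Divisor.degree E).toNat : ℤ) + 1 ≤ (T.card : ℤ) := by exact_mod_cast hcard
    omega
  have h2 := hc _ hc'
  rw [hdeg] at h2
  have h3 : (ell E : ℤ) + T.card ≤ ell (E + divT T) := by exact_mod_cast h1
  omega

/-- **Existence of non-special effective divisors.**  Assume `F / K` has infinitely many places.
For every finite set `S` of places and every `d ≤ g` there is a set `T` of `d` places outside `S`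
with `ℓ(∑_{P ∈ T} P) = 1`. -/
theorem exists_nonspecial {g : ℕ} (hg : IsRiemannGenus K F g) [Infinite (Place K F)]
    (S : Finset (Place K F)) (d : ℕ) (hd : d ≤ g) :
    ∃ T : Finset (Place K F), T.card = d ∧ Disjoint T S ∧ ell (divT T) = 1 := by
  classical
  induction d with
  | zero => exact ⟨∅, rfl, Finset.disjoint_empty_left S, by simp [divT, ell_zero]⟩
  | succ d ih =>
    obtain ⟨T, hTc, hTS, hTl⟩ := ih (by omega)
    obtain ⟨N, hN⟩ := card_le_of_ell_lt hg (divT T)
    have hdeg : Divisor.degree (divT T) + 1 - (ell (divT T) : ℤ) < g := by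
      rw [degree_divT, hTl, hTc]
      push_cast
      omega
    -- choose N fresh places outside `S ∪ T`
    have hinf : (((S ∪ T : Finset (Place K F)) : Set (Place K F))ᶜ).Infinite :=
      Set.Finite.infinite_compl (Finset.finite_toSet _)
    obtain ⟨U, hUsub, hUcard⟩ := hinf.exists_subset_card_eq N
    have hex : ∃ v ∈ U, ¬ ell (divT T) < ell (divT T + prim v) := by
      by_contra hall
      push Not at hall
      have := hN U hall hdeg
      omega
    obtain ⟨v, hvU, hv⟩ := hex
    have hvST : v ∉ S ∪ T := by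
      have := hUsub (Finset.mem_coe.mpr hvU)
      simpa using this
    have hvS : v ∉ S := fun h => hvST (Finset.mem_union_left _ h)
    have hvT : v ∉ T := fun h => hvST (Finset.mem_union_right _ h)
    refine ⟨insert v T, ?_, ?_, ?_⟩
    · rw [Finset.card_insert_of_notMem hvT, hTc]
    · rw [Finset.disjoint_insert_left]
      exact ⟨hvS, hTS⟩
    · have hdiv : divT (insert v T) = divT T + prim v := by
        unfold divT
        rw [Finset.sum_insert hvT, add_comm]
      rw [hdiv]
      have hle : divT T ≤ divT T + prim v := by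
        rw [Finsupp.le_def]; intro w
        simp only [Finsupp.coe_add, Pi.add_apply]
        by_cases hw : w = v
        · subst hw; rw [prim_apply_self]; omega
        · rw [prim_apply_of_ne hw]; omega
      have := ell_mono hle
      omega

/-- Over an infinite constant field there are infinitely many places: the zeros of `x - c`,
`c ∈ K`, are pairwise distinct. -/
theorem infinite_place [Infinite K] : Infinite (Place K F) := by
  obtain ⟨x, hxt, -⟩ := FF1.exists_finite (K := K) (F := F)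
  have hnc : ∀ c : K, x - algebraMap K F c ∉ Set.range (algebraMap K F) := by
    rintro c ⟨b, hb⟩
    apply hxt
    have hx : x = algebraMap K F (b + c) := by
      rw [map_add, hb]; ring
    rw [hx]
    exact isAlgebraic_algebraMap _
  have hne : ∀ c : K, x - algebraMap K F c ≠ 0 := by
    intro c h0
    exact hnc c ⟨0, by rw [map_zero, h0]⟩
  have hz : ∀ c : K, ∃ v : Place K F, 0 < v.ord (x - algebraMap K F c) := by
    intro c
    obtain ⟨v, hv⟩ := zerosOf_nonempty (K := K) (hne c) (hnc c)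
    exact ⟨v, mem_zerosOf.mp hv⟩
  choose z hz using hz
  refine Infinite.of_injective z ?_
  intro c c' hcc
  by_contra hne'
  have h1 := hz c
  have h2 := hz c'
  rw [hcc] at h1
  have hsub : (x - algebraMap K F c') - (x - algebraMap K F c) = algebraMap K F (c - c') := by
    rw [map_sub]; ring
  have hcne : algebraMap K F (c - c') ≠ 0 := by
    rw [Ne, map_eq_zero, sub_eq_zero]; exact hne'
  -- strict version: the difference has positive order
  have h4 : 0 < (z c').ord ((x - algebraMap K F c') - (x - algebraMap K F c)) := by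
    have := ord_add_of_le (z c') (f := x - algebraMap K F c') (g := -(x - algebraMap K F c))
      (n := 1) (Or.inr (by omega)) (Or.inr (by rw [ord_neg]; omega))
    rw [← sub_eq_add_neg] at this
    rcases this with h | h
    · rw [hsub] at h; exact absurd h hcne
    · omega
  rw [hsub, ord_algebraMap] at h4
  exact lt_irrefl _ h4

/-- `L(∑_{P ∈ T} P) = K` for the divisors of `exists_nonspecial`. -/
theorem L_eq_range_of_ell_eq_one {E : Divisor K F} (hE : 0 ≤ E) (h : ell E = 1) :
    riemannRochSpace E = LinearMap.range (Algebra.linearMap K F) := by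
  have hle : riemannRochSpace (0 : Divisor K F) ≤ riemannRochSpace E := L_mono hE
  have heq : riemannRochSpace (0 : Divisor K F) = riemannRochSpace E := by
    apply Submodule.eq_of_le_of_finrank_eq hle
    have h0 : ell (0 : Divisor K F) = 1 := ell_zero
    unfold ell at h h0
    rw [h, h0]
  rw [← heq, L_zero]

/-- Version of `exists_nonspecial` in terms of `L`: `d ≤ g` places outside `S` such that every
function with at most simple poles at these places (and no other poles) is constant. -/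
theorem exists_nonspecial' {g : ℕ} (hg : IsRiemannGenus K F g) [Infinite (Place K F)]
    (S : Finset (Place K F)) (d : ℕ) (hd : d ≤ g) :
    ∃ T : Finset (Place K F), T.card = d ∧ Disjoint T S ∧
      ∀ f : F, (∀ v : Place K F, v ∉ T → 0 ≤ v.ord f) → (∀ v ∈ T, -1 ≤ v.ord f) →
        f ∈ Set.range (algebraMap K F) := by
  obtain ⟨T, hc, hdisj, hl⟩ := exists_nonspecial hg S d hd
  refine ⟨T, hc, hdisj, fun f h1 h2 => ?_⟩
  have hE : (0 : Divisor K F) ≤ divT T := by
    rw [Finsupp.le_def]; intro v; exact divT_nonneg T v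
  have hf : f ∈ riemannRochSpace (divT T) := by
    rw [mem_L_iff]
    intro v
    right
    by_cases hv : v ∈ T
    · rw [divT_apply_mem hv]; exact h2 v hv
    · rw [divT_apply_not_mem hv]; simpa using h1 v hv
  rw [L_eq_range_of_ell_eq_one hE hl] at hf
  obtain ⟨c, hc⟩ := hf
  exact ⟨c, hc⟩

end

end Fermat.Agent.Lib.RR.H638

end
end
-- ===== PACK-END Lib/RR/H638/NonSpecial.lean

-- ===== PACK-BEGIN A2/H729/Gauss.lean
section



/-!
# A2 (helper729): the canonical Gauss ring of the `x`-line model and its `q`-expansion principle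

`R` a domain with `R[X]` integrally closed, `w ∈ R` prime, `F ⊇ R` a field, `x ∈ F` transcendental.
`gaussO hw x` is the ring of all `t ∈ F` such that `Q(x) t` is integral over `R[x]` for some
polynomial `Q` which is nonzero modulo `w` (the integral closure in `F` of the Gauss valuation ring
`R[x]_(w)` of `R(x)`; the intersection of the valuation rings of `F` over the Gauss valuation).

Results (all hypotheses of `generic_idempotent_trivial` / `kummer_trivial_of_local` about `O`):
* `chart_fin_le_gaussO`, `chart_inf_le_gaussO`, `chart_mid_le_gaussO`;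
* `qep_fin`, `qep_inf`, `qep_mid`: `chart ∩ w O = w chart`.
These hold for EVERY finite extension `F` (normality of the charts); reducedness of the special
fibre is what allows the user to prove congruences modulo `w O`.
-/

set_option autoImplicit false
set_option linter.unusedSectionVars false

namespace Fermat.Agent.A2.H729

open Polynomial Fermat.Agent.S18.H138

variable {R : Type*} [CommRing R] {F : Type*} [Field F] [Algebra R F]

/-- `s = Q(x)` for a polynomial `Q` which is nonzero modulo `w`. -/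
def IsGaussDenom (w : R) (x s : F) : Prop :=
  ∃ Q : R[X], ¬ C w ∣ Q ∧ s = aeval x Q

theorem not_C_dvd_one {w : R} (hw : Prime w) : ¬ (C w : R[X]) ∣ 1 := fun h =>
  hw.not_isUnit (Polynomial.isUnit_C.1 (isUnit_of_dvd_one h))

theorem not_C_dvd_X_pow {w : R} (hw : Prime w) (k : ℕ) : ¬ (C w : R[X]) ∣ X ^ k := by
  intro h
  have hp : Prime (C w : R[X]) := prime_C_iff.2 hw
  have h1 : (C w : R[X]) ∣ X := hp.dvd_of_dvd_pow h
  obtain ⟨q, hq⟩ := h1
  have := congrArg (fun p : R[X] => p.coeff 1) hq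
  simp only [coeff_X_one, coeff_C_mul] at this
  exact hw.not_isUnit (IsUnit.of_mul_eq_one _ this.symm)

theorem isGaussDenom_one {w : R} (hw : Prime w) (x : F) : IsGaussDenom w x 1 :=
  ⟨1, not_C_dvd_one hw, by simp⟩

theorem isGaussDenom_X_pow {w : R} (hw : Prime w) (x : F) (k : ℕ) : IsGaussDenom w x (x ^ k) :=
  ⟨X ^ k, not_C_dvd_X_pow hw k, by simp⟩

theorem IsGaussDenom.mul {w : R} (hw : Prime w) {x s s' : F} (hs : IsGaussDenom w x s)
    (hs' : IsGaussDenom w x s') : IsGaussDenom w x (s * s') := by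
  obtain ⟨Q, hQ, rfl⟩ := hs
  obtain ⟨Q', hQ', rfl⟩ := hs'
  refine ⟨Q * Q', fun h => ?_, by simp⟩
  rcases (prime_C_iff.2 hw).dvd_or_dvd h with h | h
  · exact hQ h
  · exact hQ' h

theorem IsGaussDenom.mem_adjoin {w : R} {x s : F} (hs : IsGaussDenom w x s) :
    s ∈ Algebra.adjoin R ({x} : Set F) := by
  obtain ⟨Q, -, rfl⟩ := hs
  exact mem_adjoin_singleton_iff.2 ⟨Q, rfl⟩

theorem x_mem_chart_fin (x : F) : x ∈ chart R ({x} : Set F) :=
  mem_chart_of_mem (Set.mem_singleton x)

theorem xinv_mem_chart_inf (x : F) : x⁻¹ ∈ chart R ({x⁻¹} : Set F) :=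
  mem_chart_of_mem (Set.mem_singleton x⁻¹)

theorem xinv_mem_chart_mid (x : F) : x⁻¹ ∈ chart R ({x, x⁻¹} : Set F) :=
  mem_chart_of_mem (Set.mem_insert_of_mem _ (Set.mem_singleton x⁻¹))

theorem chart_fin_le_mid (x : F) : chart R ({x} : Set F) ≤ chart R ({x, x⁻¹} : Set F) :=
  chart_mono (Set.singleton_subset_iff.2 (Set.mem_insert _ _))

theorem chart_inf_le_mid (x : F) : chart R ({x⁻¹} : Set F) ≤ chart R ({x, x⁻¹} : Set F) :=
  chart_mono (Set.singleton_subset_iff.2 (Set.mem_insert_of_mem _ (Set.mem_singleton x⁻¹)))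

/-- The canonical Gauss ring. -/
def gaussO {w : R} (hw : Prime w) (x : F) : Subalgebra R F where
  carrier := {t | ∃ s, IsGaussDenom w x s ∧ s * t ∈ chart R ({x} : Set F)}
  mul_mem' := by
    rintro a b ⟨s, hs, ha⟩ ⟨s', hs', hb⟩
    refine ⟨s * s', hs.mul hw hs', ?_⟩
    have : s * s' * (a * b) = (s * a) * (s' * b) := by ring
    rw [this]
    exact Subalgebra.mul_mem _ ha hb
  add_mem' := by
    rintro a b ⟨s, hs, ha⟩ ⟨s', hs', hb⟩
    refine ⟨s * s', hs.mul hw hs', ?_⟩
    have : s * s' * (a + b) = s' * (s * a) + s * (s' * b) := by ring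
    rw [this]
    exact Subalgebra.add_mem _
      (Subalgebra.mul_mem _ (adjoin_le_chart _ hs'.mem_adjoin) ha)
      (Subalgebra.mul_mem _ (adjoin_le_chart _ hs.mem_adjoin) hb)
  algebraMap_mem' r := ⟨1, isGaussDenom_one hw x, by
    rw [one_mul]; exact Subalgebra.algebraMap_mem _ r⟩

theorem mem_gaussO {w : R} {hw : Prime w} {x t : F} :
    t ∈ gaussO hw x ↔ ∃ s, IsGaussDenom w x s ∧ s * t ∈ chart R ({x} : Set F) := Iff.rfl

theorem chart_fin_le_gaussO {w : R} (hw : Prime w) (x : F) :
    chart R ({x} : Set F) ≤ gaussO hw x := fun t ht =>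
  ⟨1, isGaussDenom_one hw x, by rwa [one_mul]⟩

theorem chart_mid_le_gaussO {w : R} (hw : Prime w) {x : F} (hx : x ≠ 0) :
    chart R ({x, x⁻¹} : Set F) ≤ gaussO hw x := fun t ht => by
  obtain ⟨K, hK⟩ := exists_pow_mul_mem_chart hx ht
  exact ⟨x ^ K, isGaussDenom_X_pow hw x K, hK⟩

theorem chart_inf_le_gaussO {w : R} (hw : Prime w) {x : F} (hx : x ≠ 0) :
    chart R ({x⁻¹} : Set F) ≤ gaussO hw x :=
  le_trans (chart_inf_le_mid (R := R) x) (chart_mid_le_gaussO hw hx)

section Transcendental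

variable [IsDomain R]

/-- `R[X] ≃ R[x]` for transcendental `x`. -/
noncomputable def adjoinEquiv {x : F} (hx : Transcendental R x) :
    R[X] ≃ₐ[R] Algebra.adjoin R ({x} : Set F) :=
  (AlgEquiv.ofInjective (aeval x) (transcendental_iff_injective.1 hx)).trans
    (Subalgebra.equivOfEq _ _ (Algebra.adjoin_singleton_eq_range_aeval R x).symm)

theorem coe_adjoinEquiv {x : F} (hx : Transcendental R x) (Q : R[X]) :
    ((adjoinEquiv hx Q : Algebra.adjoin R ({x} : Set F)) : F) = aeval x Q := rfl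

theorem prime_algebraMap_adjoin {w : R} (hw : Prime w) {x : F} (hx : Transcendental R x) :
    Prime (algebraMap R (Algebra.adjoin R ({x} : Set F)) w) := by
  have h : Prime (adjoinEquiv hx (C w)) :=
    (MulEquiv.prime_iff (adjoinEquiv hx).toMulEquiv).2 (prime_C_iff.2 hw)
  have h2 : adjoinEquiv hx (C w) = algebraMap R (Algebra.adjoin R ({x} : Set F)) w := by
    apply Subtype.ext
    rw [coe_adjoinEquiv, aeval_C]
    rfl
  rwa [h2] at h

theorem not_dvd_adjoinEquiv {w : R} {x : F} (hx : Transcendental R x) {Q : R[X]}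
    (hQ : ¬ C w ∣ Q) :
    ¬ algebraMap R (Algebra.adjoin R ({x} : Set F)) w ∣ adjoinEquiv hx Q := by
  rintro ⟨a, ha⟩
  apply hQ
  refine ⟨(adjoinEquiv hx).symm a, ?_⟩
  apply (adjoinEquiv hx).injective
  rw [_root_.map_mul, AlgEquiv.apply_symm_apply, ha]
  congr 1
  apply Subtype.ext
  rw [coe_adjoinEquiv, aeval_C]
  rfl

variable [IsIntegrallyClosed R[X]]

/-- The regular-sequence lemma on the chart: if `w t` and `Q(x) t` are integral over `R[x]`,
`Q ≢ 0 mod w`, then `t` is integral over `R[x]`. -/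
theorem mem_chart_of_mul_mem {w : R} (hw : Prime w) {x : F} (hx : Transcendental R x)
    {s t : F} (hs : IsGaussDenom w x s)
    (h1 : algebraMap R F w * t ∈ chart R ({x} : Set F))
    (h2 : s * t ∈ chart R ({x} : Set F)) : t ∈ chart R ({x} : Set F) := by
  obtain ⟨Q, hQ, rfl⟩ := hs
  have := isIntegrallyClosed_adjoin_singleton (R := R) hx
  rw [mem_chart] at h1 h2 ⊢
  refine isIntegral_of_smul_of_smul (prime_algebraMap_adjoin hw hx)
    (not_dvd_adjoinEquiv hx hQ) ?_ ?_
  · have : algebraMap R (Algebra.adjoin R ({x} : Set F)) w • t = algebraMap R F w * t := rfl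
    rw [this]; exact h1
  · have : adjoinEquiv hx Q • t = aeval x Q * t := rfl
    rw [this]; exact h2

/-- **QEP** on the finite chart. -/
theorem qep_fin {w : R} (hw : Prime w) {x : F} (hx : Transcendental R x) :
    ∀ b ∈ chart R ({x} : Set F), InW (gaussO hw x) w b →
      ∃ t ∈ chart R ({x} : Set F), b = algebraMap R F w * t := by
  rintro b hb ⟨t, ⟨s, hs, hst⟩, rfl⟩
  exact ⟨t, mem_chart_of_mul_mem hw hx hs hb hst, rfl⟩

/-- **QEP** on the middle chart. -/
theorem qep_mid {w : R} (hw : Prime w) {x : F} (hx : Transcendental R x) :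
    ∀ b ∈ chart R ({x, x⁻¹} : Set F), InW (gaussO hw x) w b →
      ∃ t ∈ chart R ({x, x⁻¹} : Set F), b = algebraMap R F w * t := by
  have hx0 : x ≠ 0 := ne_zero_of_transcendental hx
  rintro b hb ⟨t, ⟨s, hs, hst⟩, rfl⟩
  obtain ⟨K, hK⟩ := exists_pow_mul_mem_chart hx0 hb
  have h1 : algebraMap R F w * (x ^ K * t) ∈ chart R ({x} : Set F) := by
    have : algebraMap R F w * (x ^ K * t) = x ^ K * (algebraMap R F w * t) := by ring
    rw [this]; exact hK
  have h2 : s * (x ^ K * t) ∈ chart R ({x} : Set F) := by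
    have : s * (x ^ K * t) = x ^ K * (s * t) := by ring
    rw [this]
    exact Subalgebra.mul_mem _ (Subalgebra.pow_mem _ (x_mem_chart_fin (R := R) x) K) hst
  have h3 : x ^ K * t ∈ chart R ({x} : Set F) := mem_chart_of_mul_mem hw hx hs h1 h2
  refine ⟨t, ?_, rfl⟩
  have : t = x⁻¹ ^ K * (x ^ K * t) := by
    rw [← mul_assoc, ← mul_pow, inv_mul_cancel₀ hx0, one_pow, one_mul]
  rw [this]
  exact Subalgebra.mul_mem _ (Subalgebra.pow_mem _ (xinv_mem_chart_mid (R := R) x) K)
    (chart_fin_le_mid (R := R) x h3)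

theorem not_C_dvd_reflect {w : R} {Q : R[X]} (hQ : ¬ C w ∣ Q) (d : ℕ) :
    ¬ C w ∣ reflect d Q := by
  rintro ⟨q, hq⟩
  apply hQ
  have h1 : Q = reflect d (reflect d Q) := reflect_reflect.symm
  rw [hq, reflect_C_mul] at h1
  exact ⟨_, h1⟩

/-- Membership in the Gauss ring can be tested on the chart at infinity. -/
theorem exists_denom_inv_of_mem_gaussO {w : R} (hw : Prime w) {x : F} (hx0 : x ≠ 0) {t : F}
    (ht : t ∈ gaussO hw x) :
    ∃ s, IsGaussDenom w x⁻¹ s ∧ s * t ∈ chart R ({x⁻¹} : Set F) := by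
  obtain ⟨s, ⟨Q, hQ, rfl⟩, hst⟩ := ht
  obtain ⟨D, hD⟩ := exists_inv_pow_mul_mem_chart hx0 hst
  set d := Q.natDegree with hd
  have hrefl : x⁻¹ ^ d * aeval x Q = aeval x⁻¹ (reflect d Q) := by
    have := pow_mul_aeval_inv (R := R) (x := x⁻¹) (inv_ne_zero hx0) Q (d := d) le_rfl
    rwa [inv_inv] at this
  refine ⟨aeval x⁻¹ (X ^ D * reflect d Q), ⟨X ^ D * reflect d Q, fun h => ?_, rfl⟩, ?_⟩
  · rcases (prime_C_iff.2 hw).dvd_or_dvd h with h | h
    · exact not_C_dvd_X_pow hw D h
    · exact not_C_dvd_reflect hQ d h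
  · rw [_root_.map_mul, _root_.map_pow, aeval_X, ← hrefl]
    have : x⁻¹ ^ D * (x⁻¹ ^ d * aeval x Q) * t = x⁻¹ ^ d * (x⁻¹ ^ D * (aeval x Q * t)) := by ring
    rw [this]
    exact Subalgebra.mul_mem _ (Subalgebra.pow_mem _ (xinv_mem_chart_inf (R := R) x) d) hD

/-- **QEP** on the chart at infinity. -/
theorem qep_inf {w : R} (hw : Prime w) {x : F} (hx : Transcendental R x) :
    ∀ b ∈ chart R ({x⁻¹} : Set F), InW (gaussO hw x) w b →
      ∃ t ∈ chart R ({x⁻¹} : Set F), b = algebraMap R F w * t := by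
  have hx0 : x ≠ 0 := ne_zero_of_transcendental hx
  rintro b hb ⟨t, ht, rfl⟩
  obtain ⟨s, hs, hst⟩ := exists_denom_inv_of_mem_gaussO hw hx0 ht
  exact ⟨t, mem_chart_of_mul_mem hw (transcendental_inv hx) hs hb hst, rfl⟩

end Transcendental

end Fermat.Agent.A2.H729

end
-- ===== PACK-END A2/H729/Gauss.lean

-- ===== PACK-BEGIN A2/H489/GaussFrameB.lean
section


/-!
# A2 / M1mod-FRAME part B (helper489): the Gauss ring of `E(x)` and `TwoExtHyp`

`R` a discrete valuation ring, `E = Frac R`, `L ⊇ E` a field, `x ∈ L`, `V` a valuation subring of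
`L` inducing the Gauss valuation on `E(x)` (`IsGaussOver R V x`).

* `gaussRing E V x = V ∩ E(x)` as a valuation subring of `E(x)`;
* `IsGaussOver.isDiscreteValuationRing` : it is a discrete valuation ring (uniformiser = that of
  `R`);
* `PolyIndepMod R V x u` : the family `u` is independent over `R[x]` modulo `𝔪_V`
  (`∑ Pᵢ(x) uᵢ ∈ 𝔪_V ⟹ Pᵢ ∈ 𝔪_R[X]`);
* `twoExtHyp_of_gauss` : two distinct valuation subrings `V₁, V₂` inducing the Gauss valuation,
  with `PolyIndepMod` families of sizes `f₁, f₂`, `[L : E(x)] ≤ f₁ + f₂`, satisfy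
  `TwoExtHyp E(x) (gaussRing E V₁ x) V₁ V₂ u₁ u₂`.
-/

set_option autoImplicit false

namespace Fermat.Agent.A2.H489

open IsLocalRing Polynomial IntermediateField

section Frame

variable {R E L : Type*} [CommRing R] [IsDomain R] [IsDiscreteValuationRing R]
  [Field E] [Algebra R E] [IsFractionRing R E]
  [Field L] [Algebra E L] [Algebra R L] [IsScalarTower R E L]

/-- The Gauss ring `V ∩ E(x)` as a valuation subring of `E(x)`. -/
def gaussRing (E : Type*) {L : Type*} [Field E] [Field L] [Algebra E L]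
    (V : ValuationSubring L) (x : L) : ValuationSubring E⟮x⟯ :=
  V.comap (algebraMap E⟮x⟯ L)

omit [IsDomain R] [IsDiscreteValuationRing R] [Algebra R E] [IsFractionRing R E] [Algebra R L]
  [IsScalarTower R E L] [CommRing R] in
theorem mem_gaussRing {V : ValuationSubring L} {x : L} (a : E⟮x⟯) :
    a ∈ gaussRing E V x ↔ (a : L) ∈ V := Iff.rfl

omit [IsDomain R] [IsDiscreteValuationRing R] [Algebra R E] [IsFractionRing R E] [Algebra R L]
  [IsScalarTower R E L] [CommRing R] in
theorem mem_nonunits_gaussRing {V : ValuationSubring L} {x : L} (a : E⟮x⟯) :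
    a ∈ (gaussRing E V x).nonunits ↔ (a : L) ∈ V.nonunits := by
  rw [ValuationSubring.mem_nonunits_iff_or, ValuationSubring.mem_nonunits_iff_or, mem_gaussRing]
  simp

omit [IsDomain R] [IsDiscreteValuationRing R] [Algebra R E] [IsFractionRing R E] [Algebra R L]
  [IsScalarTower R E L] [CommRing R] in
theorem mem_maximalIdeal_gaussRing {V : ValuationSubring L} {x : L} (a : gaussRing E V x) :
    a ∈ maximalIdeal (gaussRing E V x) ↔ ((a : E⟮x⟯) : L) ∈ V.nonunits := by
  rw [← ValuationSubring.coe_mem_nonunits_iff, mem_nonunits_gaussRing]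

variable {V : ValuationSubring L} {x : L}

/-- every nonzero element of `V ∩ E(x)` is a power of the uniformiser times a unit -/
theorem IsGaussOver.exists_pow_mul_unit (h : IsGaussOver R V x) {w : R} (hw : Irreducible w)
    {a : L} (ha : a ∈ E⟮x⟯) (ha0 : a ≠ 0) (haV : a ∈ V) :
    ∃ (n : ℕ) (u : L), u ∈ E⟮x⟯ ∧ u ∈ V ∧ u⁻¹ ∈ V ∧ a = algebraMap R L w ^ n * u := by
  obtain ⟨c, P, Q, hc0, hP, hQ, e⟩ := exists_normal_form_adjoin (E := E) hw x ha ha0
  have hc : algebraMap E L c ∈ V := by
    have h1 : algebraMap E L c = a * aeval x Q * (aeval x P)⁻¹ := by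
      rw [e, mul_assoc, mul_inv_cancel₀ (h.aeval_ne_zero hP), mul_one]
    rw [h1]
    exact _root_.MulMemClass.mul_mem (_root_.MulMemClass.mul_mem haV (h.aeval_mem Q)) (h.inv_aeval_mem hP)
  obtain ⟨r, rfl⟩ := (h.isOver.const_mem_iff c).mp hc
  have hr0 : r ≠ 0 := by
    rintro rfl
    exact hc0 (_root_.map_zero _)
  obtain ⟨n, hn⟩ := IsDiscreteValuationRing.associated_pow_irreducible hr0 hw
  obtain ⟨t, ht⟩ := hn.symm
  -- `w ^ n * t = r`
  have hw0 : algebraMap R L w ≠ 0 := algebraMap_RL_ne_zero E hw.ne_zero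
  have hwK : algebraMap R L w ∈ E⟮x⟯ := by
    rw [IsScalarTower.algebraMap_apply R E L]
    exact IntermediateField.algebraMap_mem _ _
  refine ⟨n, algebraMap R L (t : R) * aeval x P * (aeval x Q)⁻¹, ?_, ?_, ?_, ?_⟩
  · have h1 : algebraMap R L (t : R) * aeval x P * (aeval x Q)⁻¹
        = a * (algebraMap R L w ^ n)⁻¹ := by
      have h2 : a = algebraMap R L r * aeval x P * (aeval x Q)⁻¹ := by
        rw [IsScalarTower.algebraMap_apply R E L, ← e, mul_assoc,
          mul_inv_cancel₀ (h.aeval_ne_zero hQ), mul_one]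
      rw [h2, ← ht, _root_.map_mul, _root_.map_pow]
      field_simp
    rw [h1]
    exact _root_.MulMemClass.mul_mem ha (_root_.InvMemClass.inv_mem (_root_.pow_mem hwK n))
  · exact _root_.MulMemClass.mul_mem (_root_.MulMemClass.mul_mem (h.isOver.mem _) (h.aeval_mem P)) (h.inv_aeval_mem hQ)
  · have h1 : (algebraMap R L (t : R) * aeval x P * (aeval x Q)⁻¹)⁻¹
        = algebraMap R L ((t⁻¹ : Rˣ) : R) * aeval x Q * (aeval x P)⁻¹ := by
      have h3 : algebraMap R L (t : R) * algebraMap R L ((t⁻¹ : Rˣ) : R) = 1 := by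
        rw [← _root_.map_mul, Units.mul_inv, _root_.map_one]
      have h5 := h.aeval_ne_zero hP
      have h6 := h.aeval_ne_zero hQ
      apply inv_eq_of_mul_eq_one_right
      calc algebraMap R L (t : R) * aeval x P * (aeval x Q)⁻¹
            * (algebraMap R L ((t⁻¹ : Rˣ) : R) * aeval x Q * (aeval x P)⁻¹)
          = (algebraMap R L (t : R) * algebraMap R L ((t⁻¹ : Rˣ) : R))
            * (aeval x P * (aeval x P)⁻¹) * ((aeval x Q)⁻¹ * aeval x Q) := by ring
        _ = 1 := by rw [h3, mul_inv_cancel₀ h5, inv_mul_cancel₀ h6, one_mul, one_mul]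
    rw [h1]
    exact _root_.MulMemClass.mul_mem (_root_.MulMemClass.mul_mem (h.isOver.mem _) (h.aeval_mem Q)) (h.inv_aeval_mem hP)
  · rw [← mul_assoc, ← mul_assoc, ← _root_.map_pow, ← _root_.map_mul, ht, IsScalarTower.algebraMap_apply R E L,
      ← e, mul_assoc, mul_inv_cancel₀ (h.aeval_ne_zero hQ), mul_one]

/-- a nonunit of `V ∩ E(x)` is divisible by the uniformiser of `R` in `V ∩ E(x)` -/
theorem IsGaussOver.exists_mul_of_mem_nonunits (h : IsGaussOver R V x) {w : R}
    (hw : Irreducible w) {a : L} (ha : a ∈ E⟮x⟯) (haV : a ∈ V.nonunits) :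
    ∃ a' : L, a' ∈ E⟮x⟯ ∧ a' ∈ V ∧ a = algebraMap R L w * a' := by
  obtain ⟨P, Q, hQ, hP, e⟩ := (h.mem_nonunits_iff (E := E) ha).mp haV
  obtain ⟨P', rfl⟩ := exists_eq_C_mul_of_map_residue_eq_zero hw hP
  have hw0 : algebraMap R L w ≠ 0 := algebraMap_RL_ne_zero E hw.ne_zero
  have hwK : algebraMap R L w ∈ E⟮x⟯ := by
    rw [IsScalarTower.algebraMap_apply R E L]
    exact IntermediateField.algebraMap_mem _ _
  have h1 : a = algebraMap R L w * (aeval x P' * (aeval x Q)⁻¹) := by
    rw [← mul_assoc, ← aeval_C (A := L) x w, ← _root_.map_mul, ← e, mul_assoc,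
      mul_inv_cancel₀ (h.aeval_ne_zero hQ), mul_one]
  refine ⟨aeval x P' * (aeval x Q)⁻¹, ?_, _root_.MulMemClass.mul_mem (h.aeval_mem P') (h.inv_aeval_mem hQ), h1⟩
  have h2 : aeval x P' * (aeval x Q)⁻¹ = (algebraMap R L w)⁻¹ * a := by
    rw [h1, ← mul_assoc, inv_mul_cancel₀ hw0, one_mul]
  rw [h2]
  exact _root_.MulMemClass.mul_mem (_root_.InvMemClass.inv_mem hwK) ha

/-- The Gauss ring `V ∩ E(x)` is a discrete valuation ring. -/
theorem IsGaussOver.isDiscreteValuationRing (h : IsGaussOver R V x) :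
    IsDiscreteValuationRing (gaussRing E V x) := by
  obtain ⟨w, hw⟩ := IsDiscreteValuationRing.exists_irreducible R
  have hw0 : algebraMap R L w ≠ 0 := algebraMap_RL_ne_zero E hw.ne_zero
  have hwK : algebraMap R L w ∈ E⟮x⟯ := by
    rw [IsScalarTower.algebraMap_apply R E L]
    exact IntermediateField.algebraMap_mem _ _
  have hwmax : w ∈ maximalIdeal R := by
    rw [IsLocalRing.mem_maximalIdeal, _root_.mem_nonunits_iff]
    exact hw.not_isUnit
  let p : gaussRing E V x := ⟨⟨algebraMap R L w, hwK⟩, h.isOver.mem w⟩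
  have hp0 : p ≠ 0 := by
    intro h0
    apply hw0
    have := congrArg (fun z : gaussRing E V x => ((z : E⟮x⟯) : L)) h0
    exact this
  have hpmax : p ∈ maximalIdeal (gaussRing E V x) := by
    rw [mem_maximalIdeal_gaussRing]
    exact h.isOver.nonunit w hwmax
  have hdiv : ∀ a ∈ maximalIdeal (gaussRing E V x), ∃ a' : gaussRing E V x, a = p * a' := by
    intro a ha
    rw [mem_maximalIdeal_gaussRing] at ha
    obtain ⟨a', ha'K, ha'V, e⟩ := h.exists_mul_of_mem_nonunits (E := E) hw (a : E⟮x⟯).2 ha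
    exact ⟨⟨⟨a', ha'K⟩, ha'V⟩, Subtype.ext (Subtype.ext e)⟩
  apply IsDiscreteValuationRing.ofHasUnitMulPowIrreducibleFactorization
  refine ⟨p, ?_, ?_⟩
  · rw [irreducible_iff]
    refine ⟨fun hu => (IsLocalRing.mem_maximalIdeal p).mp hpmax hu, ?_⟩
    intro a b hab
    by_contra hcon
    push Not at hcon
    obtain ⟨hna, hnb⟩ := hcon
    obtain ⟨a', ha'⟩ := hdiv a ((IsLocalRing.mem_maximalIdeal a).mpr hna)
    rw [ha', mul_assoc] at hab
    have h1 : a' * b = 1 := by
      have h2 : p * 1 = p * (a' * b) := by rw [mul_one]; exact hab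
      exact (mul_left_cancel₀ hp0 h2).symm
    exact hnb (IsUnit.of_mul_eq_one a' (by rw [mul_comm]; exact h1))
  · intro a ha0
    have ha0' : ((a : E⟮x⟯) : L) ≠ 0 := by
      intro h0
      apply ha0
      exact Subtype.ext (Subtype.ext h0)
    obtain ⟨n, u, huK, huV, huV', e⟩ :=
      h.exists_pow_mul_unit (E := E) hw (a : E⟮x⟯).2 ha0' a.2
    have hu0 : u ≠ 0 := by
      rintro rfl
      rw [mul_zero] at e
      exact ha0' e
    let U : (gaussRing E V x)ˣ :=
      ⟨⟨⟨u, huK⟩, huV⟩, ⟨⟨u⁻¹, _root_.InvMemClass.inv_mem huK⟩, huV'⟩,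
        Subtype.ext (Subtype.ext (mul_inv_cancel₀ hu0)),
        Subtype.ext (Subtype.ext (inv_mul_cancel₀ hu0))⟩
    refine ⟨n, U, ?_⟩
    apply Subtype.ext
    apply Subtype.ext
    exact e.symm

end Frame

section Indep

/-- The family `u` is independent over `R[x]` modulo the maximal ideal of `V`:
`∑ Pᵢ(x) uᵢ ∈ 𝔪_V ⟹ Pᵢ ∈ 𝔪_R[X]` for all `i`. -/
def PolyIndepMod (R : Type*) {L : Type*} [CommRing R] [IsLocalRing R] [Field L] [Algebra R L]
    (V : ValuationSubring L) (x : L) {f : ℕ} (u : Fin f → L) : Prop :=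
  ∀ P : Fin f → R[X], (∑ i, aeval x (P i) * u i) ∈ V.nonunits →
    ∀ i, (P i).map (residue R) = 0

variable {R E L : Type*} [CommRing R] [IsDomain R] [IsDiscreteValuationRing R]
  [Field E] [Algebra R E] [IsFractionRing R E]
  [Field L] [Algebra E L] [Algebra R L] [IsScalarTower R E L]
  {V : ValuationSubring L} {x : L} {f : ℕ} {u : Fin f → L}

omit [IsDomain R] [IsDiscreteValuationRing R] in
/-- a nonempty `PolyIndepMod` family of elements of `V` forces the Gauss valuation on `E(x)` -/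
theorem IsGaussOver.of_polyIndepMod [IsLocalRing R] (hV : IsOver R V) (hx : x ∈ V) (hf : 0 < f)
    (hu : ∀ i, u i ∈ V) (hI : PolyIndepMod R V x u) : IsGaussOver R V x where
  isOver := hV
  mem := hx
  prim := by
    intro P hP
    classical
    have key := hI (fun i => if i = ⟨0, hf⟩ then P else 0) ?_ ⟨0, hf⟩
    · simpa using key
    · rw [Finset.sum_eq_single (⟨0, hf⟩ : Fin f)]
      · rw [if_pos rfl, mul_comm]
        exact mul_mem_nonunits (hu _) hP
      · intro i _ hi
        rw [if_neg hi, _root_.map_zero, zero_mul]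
      · intro h0
        exact absurd (Finset.mem_univ _) h0

/-- `PolyIndepMod` implies independence over the Gauss ring `V ∩ E(x)` modulo `𝔪_V`. -/
theorem IsGaussOver.indep_of_polyIndepMod (h : IsGaussOver R V x) (hI : PolyIndepMod R V x u)
    (a : Fin f → L) (haK : ∀ i, a i ∈ E⟮x⟯) (haV : ∀ i, a i ∈ V)
    (hsum : (∑ i, a i * u i) ∈ V.nonunits) : ∀ i, a i ∈ V.nonunits := by
  classical
  have hex : ∀ i, ∃ P Q : R[X], Q.map (residue R) ≠ 0 ∧ a i * aeval x Q = aeval x P :=
    fun i => (h.mem_iff (E := E) (haK i)).mp (haV i)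
  choose P Q hQ e using hex
  -- multiply by the common denominator
  have hD : (∏ l, aeval x (Q l)) ∈ V := _root_.prod_mem fun l _ => h.aeval_mem (Q l)
  have h1 : (∏ l, aeval x (Q l)) * ∑ i, a i * u i
      = ∑ i, aeval x (P i * ∏ l ∈ Finset.univ.erase i, Q l) * u i := by
    rw [Finset.mul_sum]
    refine Finset.sum_congr rfl fun i _ => ?_
    rw [← Finset.mul_prod_erase Finset.univ (fun l => aeval x (Q l)) (Finset.mem_univ i),
      _root_.map_mul, _root_.map_prod, ← e i]
    ring
  have h2 := hI (fun i => P i * ∏ l ∈ Finset.univ.erase i, Q l)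
    (by rw [← h1]; exact mul_mem_nonunits hD hsum)
  intro i
  have h3 := h2 i
  rw [Polynomial.map_mul, Polynomial.map_prod] at h3
  have h4 : (∏ l ∈ Finset.univ.erase i, (Q l).map (residue R)) ≠ 0 :=
    Finset.prod_ne_zero_iff.mpr fun l _ => hQ l
  have h5 : (P i).map (residue R) = 0 := (mul_eq_zero.mp h3).resolve_right h4
  exact (h.mem_nonunits_iff (E := E) (haK i)).mpr ⟨P i, Q i, hQ i, h5, e i⟩

/-- **FRAME.** Two distinct valuation subrings of `L` inducing the Gauss valuation on `E(x)`,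
with `R[x]`-independent families modulo the maximal ideals of total size `≥ [L : E(x)]`,
satisfy the hypotheses `TwoExtHyp` over the Gauss ring of `E(x)`. -/
theorem twoExtHyp_of_gauss {V₁ V₂ : ValuationSubring L}
    (h₁ : IsGaussOver R V₁ x) (h₂ : IsGaussOver R V₂ x) (hne : V₁ ≠ V₂)
    {f₁ f₂ : ℕ} {u₁ : Fin f₁ → L} {u₂ : Fin f₂ → L}
    (hu₁ : ∀ i, u₁ i ∈ V₁) (hu₂ : ∀ i, u₂ i ∈ V₂)
    (hI₁ : PolyIndepMod R V₁ x u₁) (hI₂ : PolyIndepMod R V₂ x u₂)
    (hdeg : Module.finrank E⟮x⟯ L ≤ f₁ + f₂)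
    [IsDiscreteValuationRing (gaussRing E V₁ x)] :
    TwoExtHyp E⟮x⟯ (gaussRing E V₁ x) V₁ V₂ u₁ u₂ where
  over₁ :=
    { mem := fun a => a.2
      nonunit := fun a ha => (mem_maximalIdeal_gaussRing a).mp ha }
  over₂ :=
    { mem := fun a => (h₁.mem_iff_mem (E := E) h₂ (a : E⟮x⟯).2).mp a.2
      nonunit := fun a ha =>
        (h₁.mem_nonunits_iff_mem (E := E) h₂ (a : E⟮x⟯).2).mp
          ((mem_maximalIdeal_gaussRing a).mp ha) }
  ne := hne
  deg := hdeg
  mem₁ := hu₁
  mem₂ := hu₂
  indep₁ := by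
    intro a hsum i
    rw [mem_maximalIdeal_gaussRing]
    exact h₁.indep_of_polyIndepMod (E := E) hI₁ (fun i => ((a i : E⟮x⟯) : L))
      (fun i => (a i : E⟮x⟯).2) (fun i => (a i).2) hsum i
  indep₂ := by
    intro a hsum i
    rw [mem_maximalIdeal_gaussRing]
    refine (h₁.mem_nonunits_iff_mem (E := E) h₂ (a i : E⟮x⟯).2).mpr ?_
    exact h₂.indep_of_polyIndepMod (E := E) hI₂ (fun i => ((a i : E⟮x⟯) : L))
      (fun i => (a i : E⟮x⟯).2)
      (fun i => (h₁.mem_iff_mem (E := E) h₂ (a i : E⟮x⟯).2).mp (a i).2) hsum i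

end Indep

end Fermat.Agent.A2.H489

end
-- ===== PACK-END A2/H489/GaussFrameB.lean

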