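import Fermat.Statements.S22
import Mathlib
import Fermat.Prelude.Def_AlgebraicCurve_DivisorPushPull
import Fermat.Prelude.Def_FLTPrelim_Ramification
import Fermat.Prelude.Thm_ModularCurve_coeffMap_qExpand
import Fermat.Agent.Pack.S33.E0L0
import Fermat.Agent.Pack.S33.E13L2
import Fermat.Agent.Pack.S33.E13L1
import Fermat.Agent.Pack.S33.E12L3
import Fermat.Agent.Pack.S33.E10L3
import Fermat.Agent.Pack.S33.E12L1
import Fermat.Agent.Pack.S33.E10L1
import Fermat.Agent.Pack.S33.E5L1
import Fermat.Agent.Pack.S33.E0L1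
import Fermat.Agent.Pack.S33.E12L2
import Fermat.Agent.Pack.S33.E2L3
import Fermat.Agent.Pack.S33.E7L3
import Fermat.Agent.Pack.S33.E6L3
import Fermat.Agent.Pack.S33.E13L0
import Fermat.Agent.Pack.S33.E6L0
import Fermat.Agent.Pack.S33.E13L3
import Fermat.Agent.Pack.S33.E5L3
import Fermat.Agent.Pack.S33.E11L3
import Fermat.Agent.Pack.S33.E6L1
import Fermat.Agent.Pack.S33.E3L1
import Fermat.Agent.Pack.S33.E11L1

-- ===== PACK-BEGIN S22.lean
section
-- Template for statement S22 (row 21; see the milestone table for weights).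
-- The statement below is byte-identical to the frozen
-- statement CuspForm.FermatFrozen.S22 (Fermat/Statements/S22.lean; the theorem CuspForm.moduleFinite_heckeAlgebra);
-- the grader kernel-checks Fermat.Agent.S22.result against that frozen type.






set_option autoImplicit false
open CuspForm

namespace Fermat.Agent.S22

theorem result (N : ℕ) [NeZero N] (k : ℤ) (S : Set ℕ) :
    Module.Finite ℤ (CuspForm.heckeAlgebra N k S) := by
  by_cases hk : k ≤ 1
  · exact H262.moduleFinite_heckeAlgebra_of_subsingleton (H262.cuspForm_eq_zero_of_le_one hk)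
  · obtain ⟨n, rfl⟩ : ∃ n : ℕ, k = (n : ℤ) + 2 := ⟨(k - 2).toNat, by omega⟩
    exact H262.moduleFinite_heckeAlgebra_of_lattice (H262.periodLattice N n)
      H262.periodLattice_fg (H262.periodLattice_stable S) H262.periodLattice_separating

end Fermat.Agent.S22

end
-- ===== PACK-END S22.lean

-- ===== PACK-BEGIN S18/H438/Front/H138Charts.lean
section




/-!
# S18 / ALG-FRONT (helper438), part 9: the hypotheses of `H394.kummer_charts_of_regular`
on the chart `H138.chart R {x}` of a good model

For `G : Alg.GoodModel Lc Ec Fc R V w x S`, with `R' := Rf Fc R` (a type), `x' := xf G : Fc`,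
`w' := wR G : R'` and `B := H138.chart R' {x'}`:

* `GoodModelFront.prime_chart`            : `Prime (algebraMap R' B w')`;
* `GoodModelFront.oneModPi_chart`         : `(u - 1) / w ∈ V` ⟹ `H754.OneModPi (algebraMap R' B w') u`;
* `GoodModelFront.divisibleDivisor_chart` : `H754.DivisibleDivisor B m u` from the divisor
  hypothesis of `Alg.AlgMainStatement`.

The chart at infinity is obtained by applying these to `H425.goodModel_inv G`.
-/

set_option autoImplicit false
set_option linter.style.haveILetI false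
set_option linter.unusedSectionVars false

noncomputable section

namespace Fermat.Agent.S18.H438

open Alg Polynomial

section Equiv

variable {F : Type*} [Field F] (R : Subring F) (z : F)

/-- The identity `chartRing R z ≃ H138.chart R {z}`. -/
def chartEquiv138 : chartRing R z ≃+* H138.chart R ({z} : Set F) where
  toFun c := ⟨c.1, c.2⟩
  invFun c := ⟨c.1, c.2⟩
  left_inv _ := rfl
  right_inv _ := rfl
  map_mul' _ _ := rfl
  map_add' _ _ := rfl

theorem chartEquiv138_chartUnif {w : F} (hwR : w ∈ R) :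
    chartEquiv138 R z (chartUnif (z := z) hwR) =
      algebraMap R (H138.chart R ({z} : Set F)) ⟨w, hwR⟩ := rfl

theorem prime_chart138 {w : F} (hwR : w ∈ R) (h : Prime (chartUnif (z := z) hwR)) :
    Prime (algebraMap R (H138.chart R ({z} : Set F)) ⟨w, hwR⟩) := by
  rw [← chartEquiv138_chartUnif]
  exact (MulEquiv.prime_iff (chartEquiv138 R z).toMulEquiv).2 h

theorem oneModPi_chart138 {w : F} (hwR : w ∈ R) {u : F}
    (h : H754.OneModPi (chartUnif (z := z) hwR) u) :
    H754.OneModPi (algebraMap R (H138.chart R ({z} : Set F)) ⟨w, hwR⟩) u := by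
  obtain ⟨a, s, hs, has, hu⟩ := h
  refine ⟨chartEquiv138 R z a, chartEquiv138 R z s, ?_, ?_, hu⟩
  · rw [Ideal.mem_span_singleton] at hs ⊢
    rw [← chartEquiv138_chartUnif]
    intro h
    exact hs ((map_dvd_iff (chartEquiv138 R z)).1 h)
  · rw [Ideal.mem_span_singleton] at has ⊢
    rw [← chartEquiv138_chartUnif, ← _root_.map_sub]
    exact (map_dvd_iff (chartEquiv138 R z)).2 has

end Equiv

variable {Ω : Type*} [Field Ω] {Lc Ec Fc : Subfield Ω} {R V : Subring Ω} {w x : Ω}
  {S : Finset Ω}

namespace GoodModelFront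

variable (G : GoodModel Lc Ec Fc R V w x S)

/-- the uniformiser as an element of the ring `R` -/
def wR : Rf Fc R := ⟨wf G, wf_mem_Rf G⟩

@[simp] theorem coe_wR : ((wR G : Rf Fc R) : Fc) = wf G := rfl

section

attribute [local instance] FractionRing.liftAlgebra

include G in
/-- instances on `chartRing R x` -/
theorem chartRing_instances :
    IsFractionRing (chartRing (Rf Fc R) (xf G)) Fc ∧
      IsNoetherianRing (chartRing (Rf Fc R) (xf G)) := by
  haveI := charZero_Fc G
  haveI := isDiscreteValuationRing_Rf G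
  haveI := finiteDimensional_fractionRing G
  exact ⟨chartRing_isFractionRing _ _, chartRing_isNoetherianRing _ _ (transcendental_xf G)⟩

end

/-- **`w` is prime in the chart.** -/
theorem prime_chart :
    Prime (algebraMap (Rf Fc R) (H138.chart (Rf Fc R) ({xf G} : Set Fc)) (wR G)) :=
  prime_chart138 (Rf Fc R) (xf G) (wf_mem_Rf G)
    (prime_chartUnif (V := Vf G) (wf_mem_Rf G) (wf_ne_zero G) (Rf_le_Vf G) (xf_mem_Vf G)
      (wf_inv_not_mem_Vf G) (Vf_gen G) (qep_fin' G))

/-- **`u ≡ 1 mod w` on the chart.** -/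
theorem oneModPi_chart {u : Fc} (hu : ((u : Ω) - 1) * w⁻¹ ∈ V) :
    H754.OneModPi (algebraMap (Rf Fc R) (H138.chart (Rf Fc R) ({xf G} : Set Fc)) (wR G)) u := by
  obtain ⟨i1, i2⟩ := chartRing_instances G
  refine oneModPi_chart138 (Rf Fc R) (xf G) (wf_mem_Rf G)
    (oneModPi_of_sub_one_mem (V := Vf G) (wf_mem_Rf G) (wf_ne_zero G) (Rf_le_Vf G) (xf_mem_Vf G)
      (wf_inv_not_mem_Vf G) (Vf_gen G) (qep_fin' G) ?_)
  exact hu

include G in
/-- instances on `H138.chart R {x}` -/
theorem chart_instances138 :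
    IsNoetherianRing (H138.chart (Rf Fc R) ({xf G} : Set Fc)) ∧
      IsIntegrallyClosed (H138.chart (Rf Fc R) ({xf G} : Set Fc)) ∧
      IsFractionRing (H138.chart (Rf Fc R) ({xf G} : Set Fc)) Fc := by
  haveI := charZero_Fc G
  haveI := isDiscreteValuationRing_Rf G
  haveI := finiteDimensional_baseField G
  exact H394.chart_instances (transcendental_xf G)

/-- **`m ∣ div u` on the chart**, from the divisor hypothesis of `Alg.AlgMainStatement`. -/
theorem divisibleDivisor_chart {u : Fc} (hu : ((u : Ω) - 1) * w⁻¹ ∈ V) {m : ℕ}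
    (hdiv : ∀ O : ValuationSubring Ω, (∀ a ∈ Lc, a ∈ O) →
      ∃ t : Ω, t ≠ 0 ∧ (u : Ω) * t ^ m ∈ O ∧ ((u : Ω) * t ^ m)⁻¹ ∈ O) :
    H754.DivisibleDivisor (H138.chart (Rf Fc R) ({xf G} : Set Fc)) m u := by
  obtain ⟨i1, i2, i3⟩ := chart_instances138 G
  exact divisibleDivisor G
    (fun r hr => ⟨algebraMap (Rf Fc R) (H138.chart (Rf Fc R) ({xf G} : Set Fc)) ⟨r, hr⟩, rfl⟩)
    _ (prime_chart G) rfl (oneModPi_chart G hu) hdiv

end GoodModelFront

end Fermat.Agent.S18.H438

end
end
-- ===== PACK-END S18/H438/Front/H138Charts.lean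

-- ===== PACK-BEGIN S18/H394/KummerCharts.lean
section






/-!
# S18, Route K (helper394): the Kummer endgame on the charts of the `x`-line model

Typed core of `node_alg`.  Setting (as in `H138/Connected.lean`): `R` a noetherian local domain
with `R[X]` integrally closed (e.g. a DVR), `F` a field of characteristic `0` containing `R`,
`x ∈ F` transcendental over `R`, `F` finite over `baseField R x`, `R` integrally closed in `F`;
charts `B₀ = chart R {x}`, `B₁ = chart R {x⁻¹}`, `M = chart R {x, x⁻¹}` (integral closures of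
`R[x]`, `R[x⁻¹]`, `R[x, x⁻¹]` in `F`), `w ∈ R` a non-unit, `m` invertible in `R`.

* `kummer_charts`: the hypotheses `hrc`, `hloc`, `hint`, `hfin`, `hden`, `hw1` of
  `H394.kummer_endgame` are discharged for the charts; conclusion: `u` does NOT have exact order
  `m` modulo `Frac(R)ˣ (Fˣ)^m`.
* `kummer_charts_prime`: for `m` prime, `u = r ^ a * y ^ m` with `r ∈ R`, `a ∈ ℤ`, `y ∈ F`.
* `kummer_charts_of_regular`: the same from the chartwise hypotheses
  `Prime w`, `H754.RegularAlong w` (b2), `H754.OneModPi w u`, `H754.DivisibleDivisor B m u`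
  (via `H214.local_existence`; the saturation hypothesis `hsat` is proved here).
-/

set_option autoImplicit false
set_option linter.style.haveILetI false

namespace Fermat.Agent.S18.H394

open Polynomial
open Fermat.Agent.S18.H138 (chart baseField)

section Basic

variable {R : Type*} [CommRing R] {F : Type*} [Field F] [Algebra R F]

theorem rootClosed_chart (S : Set F) {m : ℕ} (hm : 0 < m) : RootClosed m (chart R S) := by
  intro f hf
  rw [H138.mem_chart] at hf ⊢
  exact IsIntegral.of_pow hm hf

theorem chart_inv_pair (x : F) :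
    chart R ({x⁻¹, x⁻¹⁻¹} : Set F) = chart R ({x, x⁻¹} : Set F) := by
  rw [inv_inv, Set.pair_comm]

theorem subalgebra_dvd_iff (B : Subalgebra R F) (w : R) (s : B) :
    algebraMap R B w ∣ s ↔ ∃ c ∈ B, (s : F) = algebraMap R F w * c := by
  constructor
  · rintro ⟨c, hc⟩
    exact ⟨c, c.2, by rw [hc]; rfl⟩
  · rintro ⟨c, hc, h⟩
    exact ⟨⟨c, hc⟩, Subtype.ext h⟩

/-- Elementary unmixedness inside the fraction field. -/
theorem mem_of_mul_mem_of_prime (B : Subalgebra R F) (w : R)
    (hw : Prime (algebraMap R B w)) (s : B) (hs : ¬ algebraMap R B w ∣ s) (g : F)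
    (h1 : algebraMap R F w * g ∈ B) (h2 : (s : F) * g ∈ B) : g ∈ B := by
  have hw0 : algebraMap R F w ≠ 0 := by
    intro h
    apply hw.ne_zero
    exact Subtype.ext h
  have hdvd : algebraMap R B w ∣ s * ⟨_, h1⟩ := by
    refine ⟨⟨_, h2⟩, Subtype.ext ?_⟩
    change (s : F) * (algebraMap R F w * g) = algebraMap R F w * ((s : F) * g)
    ring
  rcases hw.dvd_or_dvd hdvd with h | h
  · exact absurd h hs
  · obtain ⟨c, hc, h3⟩ := (subalgebra_dvd_iff B w _).mp h
    have : g = c := mul_left_cancel₀ hw0 h3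
    rw [this]; exact hc

end Basic

section Charts

variable {R : Type*} [CommRing R] {F : Type*} [Field F] [Algebra R F]
variable [IsNoetherianRing R] [IsIntegrallyClosed R[X]] [CharZero F]

/-- Finite generation of the chart in the form used by `kummer_endgame`. -/
theorem exists_finset_gens {x : F} (hx : Transcendental R x)
    [FiniteDimensional (baseField R x) F] :
    ∃ s : Finset F, ∀ b ∈ chart R ({x} : Set F), ∃ P : F → R[X],
      b = ∑ β ∈ s, aeval x (P β) * β := by
  classical
  obtain ⟨n, bs, -, hgen⟩ := H138.exists_finite_gens (R := R) hx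
  refine ⟨Finset.univ.image bs, fun b hb => ?_⟩
  have key : ∀ z ∈ Submodule.span R {z : F | ∃ (j : ℕ) (i : Fin n), z = x ^ j * bs i},
      ∃ P : F → R[X], z = ∑ β ∈ Finset.univ.image bs, aeval x (P β) * β := by
    intro z hz
    induction hz using Submodule.span_induction with
    | mem z hz =>
      obtain ⟨j, i, rfl⟩ := hz
      refine ⟨fun β => if β = bs i then X ^ j else 0, ?_⟩
      rw [Finset.sum_eq_single (bs i)]
      · simp
      · intro β _ hβ
        simp [hβ]
      · intro h
        exact absurd (Finset.mem_image_of_mem bs (Finset.mem_univ i)) h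
    | zero => exact ⟨fun _ => 0, by simp⟩
    | add y z _ _ hy hz =>
      obtain ⟨P, hP⟩ := hy
      obtain ⟨Q, hQ⟩ := hz
      refine ⟨fun β => P β + Q β, ?_⟩
      rw [hP, hQ, ← Finset.sum_add_distrib]
      refine Finset.sum_congr rfl fun β _ => ?_
      rw [_root_.map_add, add_mul]
    | smul r z _ hz =>
      obtain ⟨P, hP⟩ := hz
      refine ⟨fun β => C r * P β, ?_⟩
      rw [hP, Finset.smul_sum]
      refine Finset.sum_congr rfl fun β _ => ?_
      rw [_root_.map_mul, aeval_C, Algebra.smul_def, mul_assoc]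
  exact key b (hgen b hb)

/-- Every element of `F` has a denominator in the chart. -/
theorem exists_den {x : F} (hx : Transcendental R x) [FiniteDimensional (baseField R x) F]
    (z : F) : ∃ d ∈ chart R ({x} : Set F), d ≠ 0 ∧ d * z ∈ chart R ({x} : Set F) := by
  obtain ⟨-, -, hfr⟩ := chart_instances (R := R) hx
  obtain ⟨a, b, hb, hab⟩ := IsFractionRing.div_surjective (A := chart R ({x} : Set F)) z
  have hb0 : (b : F) ≠ 0 := by
    intro h
    exact nonZeroDivisors.ne_zero hb (Subtype.ext h)
  refine ⟨b, b.2, hb0, ?_⟩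
  have : (b : F) * z = a := by
    rw [← hab]
    change (b : F) * ((a : F) / (b : F)) = a
    field_simp
  rw [this]
  exact a.2

/-- `C w ∣ Q` if `Q(x) ∈ w B₀`. -/
theorem dvd_coeff_of_aeval_eq_mul {x : F} (hx : Transcendental R x)
    (hinjR : Function.Injective (algebraMap R F)) (w : R) (hw0 : w ≠ 0) (Q : R[X]) {t : F}
    (ht : t ∈ chart R ({x} : Set F)) (h : aeval x Q = algebraMap R F w * t) (n : ℕ) :
    w ∣ Q.coeff n := by
  have hwF : algebraMap R F w ≠ 0 := fun h0 => hw0 (hinjR (by rw [h0, _root_.map_zero]))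
  haveI := H138.isIntegrallyClosed_adjoin_singleton (R := R) hx
  have htK : t ∈ baseField R x := by
    have : t = aeval x Q / algebraMap R F w := by
      rw [h, mul_div_cancel_left₀ _ hwF]
    rw [this]
    refine (baseField R x).div_mem (H138.adjoin_le_baseField x ?_)
      (Subfield.subset_closure (Or.inl ⟨w, rfl⟩))
    exact H138.mem_adjoin_singleton_iff.2 ⟨Q, rfl⟩
  have htA : t ∈ Algebra.adjoin R ({x} : Set F) :=
    H138.mem_of_isIntegral_of_mem _ (baseField R x) (fun a ha => H138.adjoin_le_baseField x ha)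
      (fun z hz => H138.exists_div_of_mem_baseField x hz) htK ht
  obtain ⟨P, rfl⟩ := H138.mem_adjoin_singleton_iff.1 htA
  have h3 : aeval x (Q - C w * P) = 0 := by
    rw [_root_.map_sub, _root_.map_mul, aeval_C, h, sub_self]
  have h4 := (transcendental_iff.1 hx) _ h3
  have h5 : Q = C w * P := sub_eq_zero.1 h4
  refine ⟨P.coeff n, ?_⟩
  rw [h5, coeff_C_mul]

variable [IsLocalRing R]

/-- **The Kummer endgame on the charts.** -/
theorem kummer_charts
    (hinjR : Function.Injective (algebraMap R F))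
    (hRF : ∀ y : F, IsIntegral R y → y ∈ Set.range (algebraMap R F))
    {x : F} (hx : Transcendental R x) [FiniteDimensional (baseField R x) F]
    (w : R) (hw : ¬ IsUnit w)
    (m : ℕ) (hm : 2 ≤ m) (ν : R) (hν : ν * (m : R) = 1)
    (u : F) (hu : u ≠ 0) (σ₀ σ₁ : F)
    (h₀ : ∃ b ∈ chart R ({x} : Set F), σ₀ ^ m * u - 1 = algebraMap R F w * b)
    (h₁ : ∃ b ∈ chart R ({x⁻¹} : Set F), σ₁ ^ m * u - 1 = algebraMap R F w * b)
    (h₀₁ : ∃ γ : F, σ₀ - σ₁ = algebraMap R F w * γ ∧ γ ^ m * u ∈ chart R ({x, x⁻¹} : Set F)) :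
    ∃ i : ℕ, 0 < i ∧ i < m ∧ ∃ f : F, f ≠ 0 ∧ ∃ r : R, f ^ m * u ^ i = algebraMap R F r := by
  by_contra hcon
  push Not at hcon
  have hx0 : x ≠ 0 := H138.ne_zero_of_transcendental hx
  have hm0 : 0 < m := by omega
  refine kummer_endgame m hm ν hν w u hu (chart R ({x} : Set F)) (chart R ({x⁻¹} : Set F))
    (chart R ({x, x⁻¹} : Set F)) (rootClosed_chart _ hm0) (rootClosed_chart _ hm0)
    (rootClosed_chart _ hm0) x hx0 (H138.mem_chart_of_mem rfl) (H138.mem_chart_of_mem rfl)
    (H138.chart_mono (by simp)) (H138.chart_mono (by simp)) ?_ ?_ ?_ (exists_finset_gens hx) ?_ ?_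
    (fun i hi him f hf r => hcon i hi him f hf r) σ₀ σ₁ h₀ h₁ h₀₁
  · intro y hy
    exact H138.exists_pow_mul_mem_chart hx0 hy
  · intro y hy
    refine H138.exists_pow_mul_mem_chart (inv_ne_zero hx0) ?_
    rw [chart_inv_pair]
    exact hy
  · intro y hy0 hy1
    obtain ⟨r, hr⟩ := hRF y (H138.isIntegral_of_mem_chart_inter hx hy0 hy1)
    exact ⟨r, hr⟩
  · obtain ⟨d, hd, hd0, hdu⟩ := exists_den (R := R) hx u⁻¹
    exact ⟨d, hd, hd0, hdu⟩
  · intro b hb h
    apply hw
    have := H138.dvd_of_algebraMap_eq_mul hinjR hx w 1 hb (by rw [_root_.map_one, h])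
    exact isUnit_of_dvd_one this

/-- For prime `m`: `u` is a constant times an `m`-th power. -/
theorem kummer_charts_prime
    (hinjR : Function.Injective (algebraMap R F))
    (hRF : ∀ y : F, IsIntegral R y → y ∈ Set.range (algebraMap R F))
    {x : F} (hx : Transcendental R x) [FiniteDimensional (baseField R x) F]
    (w : R) (hw : ¬ IsUnit w)
    (m : ℕ) (hm : m.Prime) (ν : R) (hν : ν * (m : R) = 1)
    (u : F) (hu : u ≠ 0) (σ₀ σ₁ : F)
    (h₀ : ∃ b ∈ chart R ({x} : Set F), σ₀ ^ m * u - 1 = algebraMap R F w * b)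
    (h₁ : ∃ b ∈ chart R ({x⁻¹} : Set F), σ₁ ^ m * u - 1 = algebraMap R F w * b)
    (h₀₁ : ∃ γ : F, σ₀ - σ₁ = algebraMap R F w * γ ∧ γ ^ m * u ∈ chart R ({x, x⁻¹} : Set F)) :
    ∃ (r : R) (a : ℤ) (y : F), r ≠ 0 ∧ u = algebraMap R F r ^ a * y ^ m := by
  obtain ⟨i, hi0, him, f, hf, r, hr⟩ :=
    kummer_charts hinjR hRF hx w hw m hm.two_le ν hν u hu σ₀ σ₁ h₀ h₁ h₀₁
  have hr0 : r ≠ 0 := by
    rintro rfl
    rw [_root_.map_zero] at hr
    exact mul_ne_zero (pow_ne_zero m hf) (pow_ne_zero i hu) hr
  have hrF : algebraMap R F r ≠ 0 := fun h => hr0 (hinjR (by rw [h, _root_.map_zero]))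
  have hcop : Nat.Coprime i m :=
    ((Nat.Prime.coprime_iff_not_dvd hm).mpr (Nat.not_dvd_of_pos_of_lt hi0 him)).symm
  -- Bezout
  have hbez : (i : ℤ) * Nat.gcdA i m + (m : ℤ) * Nat.gcdB i m = 1 := by
    have := Nat.gcd_eq_gcd_ab i m
    rw [hcop.gcd_eq_one] at this
    exact_mod_cast this.symm
  set a : ℤ := Nat.gcdA i m with ha
  set b : ℤ := Nat.gcdB i m with hb
  refine ⟨r, a, f⁻¹ ^ a * u ^ b, hr0, ?_⟩
  have e1 : (f ^ m * u ^ i) ^ a = f ^ ((m : ℤ) * a) * u ^ ((i : ℤ) * a) := by
    rw [mul_zpow, ← zpow_natCast f m, ← zpow_natCast u i, ← zpow_mul, ← zpow_mul]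
  have e2 : (f⁻¹ ^ a * u ^ b) ^ m = f ^ (-((m : ℤ) * a)) * u ^ ((m : ℤ) * b) := by
    rw [mul_pow, ← zpow_natCast (f⁻¹ ^ a) m, ← zpow_natCast (u ^ b) m, ← zpow_mul, ← zpow_mul,
      inv_zpow', mul_comm a (m : ℤ), mul_comm b (m : ℤ)]
  rw [← hr, e1, e2]
  have e3 : f ^ ((m : ℤ) * a) * u ^ ((i : ℤ) * a) * (f ^ (-((m : ℤ) * a)) * u ^ ((m : ℤ) * b))
      = (f ^ ((m : ℤ) * a) * f ^ (-((m : ℤ) * a))) * (u ^ ((i : ℤ) * a) * u ^ ((m : ℤ) * b)) := by
    ring
  rw [e3, ← zpow_add₀ hf, ← zpow_add₀ hu, add_neg_cancel, zpow_zero, one_mul, hbez, zpow_one]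

end Charts

end Fermat.Agent.S18.H394

end
-- ===== PACK-END S18/H394/KummerCharts.lean

-- ===== PACK-BEGIN S19/H435/OfModel.lean
section
/-
A3 / WP-C piece A (helper435): a Hopf model (frozen interface `HopfModel`) gives a Hopf lattice:
`Λ :=` image of `H` under evaluation at the points.
-/




set_option autoImplicit false
set_option linter.style.haveILetI false

noncomputable section

namespace Fermat.Agent.S19.H435

open TensorProduct

/-- Every tensor is a `Fin`-indexed sum of pure tensors. -/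
theorem exists_fin_tmul {R : Type*} [CommSemiring R] {A B : Type*} [AddCommMonoid A]
    [AddCommMonoid B] [Module R A] [Module R B] (t : A ⊗[R] B) :
    ∃ (n : ℕ) (a : Fin n → A) (b : Fin n → B), t = ∑ k, a k ⊗ₜ[R] b k := by
  induction t using TensorProduct.induction_on with
  | zero => exact ⟨0, Fin.elim0, Fin.elim0, by simp⟩
  | tmul a b => exact ⟨1, fun _ => a, fun _ => b, by simp⟩
  | add x y hx hy =>
    obtain ⟨n, a, b, rfl⟩ := hx
    obtain ⟨m, a', b', rfl⟩ := hy
    refine ⟨n + m, Fin.append a a', Fin.append b b', ?_⟩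
    rw [Fin.sum_univ_add]
    simp only [Fin.append_left, Fin.append_right]

/-- **Piece A.** A Hopf model gives a Hopf lattice. -/
theorem exists_isHopfLattice_of_hopfModel {ℓ : ℕ} {M : Type} [AddCommGroup M]
    {act : Gal → M → M} (h : Fermat.Agent.S19.HopfModel ℓ M act) :
    ∃ Λ : Subalgebra (Zl ℓ) (M → _root_.Fermat.Agent.S19.H435.Qb), IsHopfLattice ℓ act Λ := by
  obtain ⟨H, _, _, hfin, -, -, e, hmul, hgal⟩ := h
  let ev : H →ₐ[Zl ℓ] (M → _root_.Fermat.Agent.S19.H435.Qb) := AlgHom.pi (fun m => (e.symm m).ofConv)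
  have hev : ∀ (x : H) (m : M), ev x m = (e.symm m).ofConv x := fun _ _ => rfl
  refine ⟨ev.range, ?_, ?_, ?_, ?_⟩
  · -- finitely generated
    have h1 : Subalgebra.toSubmodule ev.range = Submodule.map ev.toLinearMap ⊤ := by
      ext f
      simp [AlgHom.mem_range]
    rw [h1]
    exact Submodule.FG.map _ (Module.finite_def.mp hfin)
  · -- equivariance
    rintro _ ⟨x, rfl⟩ σ m
    show ev x (act σ m) = σ (ev x m)
    rw [hev, hev]
    let σR : _root_.Fermat.Agent.S19.H435.Qb →ₐ[Zl ℓ] _root_.Fermat.Agent.S19.H435.Qb := (σ : _root_.Fermat.Agent.S19.H435.Qb →ₐ[ℚ] _root_.Fermat.Agent.S19.H435.Qb).restrictScalars (Zl ℓ)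
    let y : WithConv (H →ₐ[Zl ℓ] _root_.Fermat.Agent.S19.H435.Qb) := WithConv.toConv (σR.comp (e.symm m).ofConv)
    have hy : e y = act σ (e (e.symm m)) := hgal σ (e.symm m) y (fun _ => rfl)
    rw [Equiv.apply_symm_apply] at hy
    rw [← hy, Equiv.symm_apply_apply]
    rfl
  · -- separation
    intro m n hmn
    by_contra hcon
    push Not at hcon
    apply hmn
    have : e.symm m = e.symm n := by
      apply WithConv.ext
      apply AlgHom.ext
      intro x
      have := hcon (ev x) ⟨x, rfl⟩
      rw [hev, hev] at this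
      exact this
    exact e.symm.injective this
  · -- comultiplication
    rintro _ ⟨x, rfl⟩
    obtain ⟨n, a, b, hab⟩ := exists_fin_tmul (R := Zl ℓ) (CoalgebraStruct.comul (R := Zl ℓ) x)
    refine ⟨n, fun k => ev (a k), fun k => ev (b k), fun k => ⟨a k, rfl⟩, fun k => ⟨b k, rfl⟩, ?_⟩
    intro s t
    have hst : e.symm (s + t) = e.symm s * e.symm t := by
      apply e.injective
      rw [hmul, Equiv.apply_symm_apply, Equiv.apply_symm_apply, Equiv.apply_symm_apply]
    show ev x (s + t) = ∑ k, ev (a k) s * ev (b k) t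
    rw [hev, hst, AlgHom.convMul_apply, hab, map_sum]
    refine Finset.sum_congr rfl fun k _ => ?_
    rw [Algebra.TensorProduct.lift_tmul]
    rfl

end Fermat.Agent.S19.H435

end
end
-- ===== PACK-END S19/H435/OfModel.lean

-- ===== PACK-BEGIN S19/H135/Quotient.lean
section
/-
Cell A3 / WP-C (helper135): Hopf lattices pass to quotients by stable subgroups, WITHOUT Cartier
duality.  For an equivariant surjection `q : M →+ M₂` the lattice on `M₂` is
`Λ₂ = {g | g ∘ q ∈ Λ}`.
* comultiplication: expansion in `ℚ̄`-independent bases + invariance under the kernel;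
* separation of points: traces `m ↦ ∑_{k ∈ ker q} h (m + k)` lie in `Λ` (descent of
  coefficients) and Dedekind independence of the evaluation characters.
-/


set_option autoImplicit false

namespace Fermat.Agent.S19.H135

section Quot

variable {ℓ : ℕ} [Fact ℓ.Prime] {M M₂ : Type} [AddCommGroup M] [AddCommGroup M₂]
  {act : (AlgebraicClosure ℚ ≃ₐ[ℚ] AlgebraicClosure ℚ) → M → M}
  {act₂ : (AlgebraicClosure ℚ ≃ₐ[ℚ] AlgebraicClosure ℚ) → M₂ → M₂}
  {Λ : Subalgebra (GaloisRep.ratLocalizedAt ℓ) (M → AlgebraicClosure ℚ)}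

omit [Fact ℓ.Prime] in
/-- Translates of elements of a Hopf lattice, expanded in a spanning family: the coefficients
are values of elements of the lattice. -/
theorem IsHopfLattice.exists_translate_expansion (hΛ : IsHopfLattice ℓ act Λ)
    {n : ℕ} (b : Fin n → M → AlgebraicClosure ℚ)
    (hspan : Submodule.span (GaloisRep.ratLocalizedAt ℓ) (Set.range b) =
      Subalgebra.toSubmodule Λ)
    {h : M → AlgebraicClosure ℚ} (hh : h ∈ Λ) :
    ∃ g : Fin n → M → AlgebraicClosure ℚ, (∀ i, g i ∈ Λ) ∧
      ∀ m k, h (m + k) = ∑ i, b i m * g i k :=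
  box_expand b hspan (hΛ.comul_mem hh)

/-- The trace of an element of a Hopf lattice over a finite stable set of translations lies in
the lattice. -/
theorem IsHopfLattice.trace_mem (hΛ : IsHopfLattice ℓ act Λ) (K : Finset M)
    (hK : ∀ σ, ∀ k, k ∈ K ↔ act σ k ∈ K)
    {h : M → AlgebraicClosure ℚ} (hh : h ∈ Λ) :
    (fun m => ∑ k ∈ K, h (m + k)) ∈ Λ := by
  have hact : ∀ σ, Function.Surjective (act σ) := fun σ => (hΛ.act_bijective σ).2
  obtain ⟨n, b, hbΛ, hbli, hbspan⟩ := exists_basis_of_fg_equivariant act hact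
    (Subalgebra.toSubmodule Λ) hΛ.fg hΛ.equivariant
  obtain ⟨g, hg, hexp⟩ := hΛ.exists_translate_expansion b hbspan hh
  have hrepr : (fun m => ∑ k ∈ K, h (m + k)) = ∑ i, (∑ k ∈ K, g i k) • b i := by
    funext m
    simp only [Finset.sum_apply, Pi.smul_apply, smul_eq_mul, hexp]
    rw [Finset.sum_comm]
    refine Finset.sum_congr rfl (fun i _ => ?_)
    rw [Finset.sum_mul]
    exact Finset.sum_congr rfl (fun k _ => mul_comm _ _)
  have hmem : ∑ i, (∑ k ∈ K, g i k) • b i ∈
      Submodule.span (GaloisRep.ratLocalizedAt ℓ) (Set.range b) := by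
    refine mem_of_integral_combination act hact b (fun i σ m => hΛ.equivariant _ (hbΛ i) σ m)
      hbli _ (fun i => IsIntegral.sum _ (fun k _ => hΛ.isIntegral_apply (hg i) k)) ?_
    intro σ m
    rw [← hrepr]
    show ∑ k ∈ K, h (act σ m + k) = σ (∑ k ∈ K, h (m + k))
    rw [map_sum]
    refine Finset.sum_nbij' (fun k => act σ⁻¹ k) (fun k => act σ k) ?_ ?_ ?_ ?_ ?_
    · intro k hk
      rw [hK σ, ← hΛ.act_mul, mul_inv_cancel, hΛ.act_one]
      exact hk
    · intro k hk
      exact (hK σ k).mp hk
    · intro k _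
      rw [← hΛ.act_mul, mul_inv_cancel, hΛ.act_one]
    · intro k _
      rw [← hΛ.act_mul, inv_mul_cancel, hΛ.act_one]
    · intro k _
      rw [← hΛ.equivariant h hh, hΛ.act_add, ← hΛ.act_mul, mul_inv_cancel, hΛ.act_one]
  rw [hrepr]
  rw [hbspan] at hmem
  exact hmem

variable (q : M →+ M₂)

omit [Fact ℓ.Prime] in
theorem IsHopfLattice.quot_equivariant (hΛ : IsHopfLattice ℓ act Λ)
    (hq : Function.Surjective q) (heq : ∀ σ m, q (act σ m) = act₂ σ (q m))
    (g : M₂ → AlgebraicClosure ℚ)
    (hg : g ∈ Λ.comap (pull (GaloisRep.ratLocalizedAt ℓ) (AlgebraicClosure ℚ) q))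
    (σ : AlgebraicClosure ℚ ≃ₐ[ℚ] AlgebraicClosure ℚ) (y : M₂) :
    g (act₂ σ y) = σ (g y) := by
  obtain ⟨m, rfl⟩ := hq y
  rw [← heq]
  exact hΛ.equivariant _ hg σ m

theorem IsHopfLattice.quot_fg (hΛ : IsHopfLattice ℓ act Λ) (hq : Function.Surjective q) :
    (Subalgebra.toSubmodule
      (Λ.comap (pull (GaloisRep.ratLocalizedAt ℓ) (AlgebraicClosure ℚ) q))).FG := by
  refine Submodule.fg_of_fg_map_injective
    (pull (GaloisRep.ratLocalizedAt ℓ) (AlgebraicClosure ℚ) q).toLinearMap
    (pull_injective (GaloisRep.ratLocalizedAt ℓ) (AlgebraicClosure ℚ) hq) ?_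
  refine fg_of_le_of_fg_h135 hΛ.fg ?_
  rintro _ ⟨g, hg, rfl⟩
  exact hg

omit [Fact ℓ.Prime] in
theorem IsHopfLattice.quot_act_surjective (hΛ : IsHopfLattice ℓ act Λ)
    (hq : Function.Surjective q) (heq : ∀ σ m, q (act σ m) = act₂ σ (q m))
    (σ : AlgebraicClosure ℚ ≃ₐ[ℚ] AlgebraicClosure ℚ) : Function.Surjective (act₂ σ) := by
  intro y
  obtain ⟨m, rfl⟩ := hq y
  obtain ⟨m', rfl⟩ := (hΛ.act_bijective σ).2 m
  exact ⟨q m', (heq σ m').symm⟩

/-- Comultiplication on the quotient lattice. -/
theorem IsHopfLattice.quot_comul (hΛ : IsHopfLattice ℓ act Λ)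
    (hq : Function.Surjective q) (heq : ∀ σ m, q (act σ m) = act₂ σ (q m))
    {g : M₂ → AlgebraicClosure ℚ}
    (hg : g ∈ Λ.comap (pull (GaloisRep.ratLocalizedAt ℓ) (AlgebraicClosure ℚ) q)) :
    (fun p : M₂ × M₂ => g (p.1 + p.2)) ∈
      (Λ.comap (pull (GaloisRep.ratLocalizedAt ℓ) (AlgebraicClosure ℚ) q)).map
        (pull (GaloisRep.ratLocalizedAt ℓ) (AlgebraicClosure ℚ) (Prod.fst : M₂ × M₂ → M₂)) ⊔
      (Λ.comap (pull (GaloisRep.ratLocalizedAt ℓ) (AlgebraicClosure ℚ) q)).map
        (pull (GaloisRep.ratLocalizedAt ℓ) (AlgebraicClosure ℚ) (Prod.snd : M₂ × M₂ → M₂)) := by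
  set Λ₂ := Λ.comap (pull (GaloisRep.ratLocalizedAt ℓ) (AlgebraicClosure ℚ) q) with hΛ₂
  have hact : ∀ σ, Function.Surjective (act σ) := fun σ => (hΛ.act_bijective σ).2
  have hact₂ : ∀ σ, Function.Surjective (act₂ σ) := hΛ.quot_act_surjective q hq heq
  obtain ⟨n, b, hbΛ, hbli, hbspan⟩ := exists_basis_of_fg_equivariant act hact
    (Subalgebra.toSubmodule Λ) hΛ.fg hΛ.equivariant
  obtain ⟨n₂, u, huΛ, huli, huspan⟩ := exists_basis_of_fg_equivariant act₂ hact₂
    (Subalgebra.toSubmodule Λ₂) (hΛ.quot_fg q hq) (hΛ.quot_equivariant q hq heq)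
  -- Step 1: expand `f (m + n)`, `f = g ∘ q`, along the basis `b` in the first variable
  have hf : (fun m => g (q m)) ∈ Λ := hg
  obtain ⟨c, hc, hexp⟩ := hΛ.exists_translate_expansion b hbspan hf
  -- Step 2: the `c i` are invariant under the kernel
  have hcinv : ∀ i, ∀ m k : M, q k = 0 → c i (m + k) = c i m := by
    intro i m k hk
    have h1 : ∑ j, (c j (m + k) - c j m) • b j = 0 := by
      funext x
      simp only [Finset.sum_apply, Pi.smul_apply, smul_eq_mul, Pi.zero_apply, sub_mul,
        Finset.sum_sub_distrib]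
      have e1 := hexp x (m + k)
      have e2 := hexp x m
      have e3 : g (q (x + (m + k))) = g (q (x + m)) := by
        simp only [map_add, hk, add_zero]
      rw [e1, e2] at e3
      rw [sub_eq_zero]
      calc ∑ j, c j (m + k) * b j x = ∑ j, b j x * c j (m + k) :=
            Finset.sum_congr rfl (fun j _ => mul_comm _ _)
        _ = ∑ j, b j x * c j m := e3
        _ = ∑ j, c j m * b j x := Finset.sum_congr rfl (fun j _ => mul_comm _ _)
    have := linearIndependent_iff'.mp hbli Finset.univ _ h1 i (Finset.mem_univ i)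
    exact sub_eq_zero.mp this
  have hcbar : ∀ i, ∃ cb : M₂ → AlgebraicClosure ℚ, ∀ m, cb (q m) = c i m :=
    fun i => exists_factor_of_ker_invariant q hq (c i) (hcinv i)
  choose cb hcb using hcbar
  have hcbΛ : ∀ i, cb i ∈ Λ₂ := by
    intro i
    show (fun m => cb i (q m)) ∈ Λ
    have : (fun m => cb i (q m)) = c i := funext (hcb i)
    rw [this]
    exact hc i
  -- Step 3: the mixed function on `M × M₂`, expanded along `u` in the second variable
  have hmixed : (fun p : M × M₂ => ∑ i, b i p.1 * cb i p.2) ∈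
      Λ.map (pull (GaloisRep.ratLocalizedAt ℓ) (AlgebraicClosure ℚ) (Prod.fst : M × M₂ → M)) ⊔
      Λ₂.map (pull (GaloisRep.ratLocalizedAt ℓ) (AlgebraicClosure ℚ)
        (Prod.snd : M × M₂ → M₂)) :=
    sum_mul_mem_box b cb hbΛ hcbΛ
  obtain ⟨d, hd, hexp₂⟩ := box_expand' u huspan hmixed
  have hmix_eq : ∀ m m' : M, ∑ i, d i m * u i (q m') = g (q m + q m') := by
    intro m m'
    rw [← hexp₂ m (q m')]
    simp only [hcb]
    rw [← hexp m m', map_add]
  -- Step 4: the `d i` are invariant under the kernel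
  have hdinv : ∀ i, ∀ m k : M, q k = 0 → d i (m + k) = d i m := by
    intro i m k hk
    have h1 : ∑ j, (d j (m + k) - d j m) • u j = 0 := by
      funext y
      obtain ⟨m', rfl⟩ := hq y
      simp only [Finset.sum_apply, Pi.smul_apply, smul_eq_mul, Pi.zero_apply, sub_mul,
        Finset.sum_sub_distrib]
      rw [hmix_eq, hmix_eq, map_add, hk, add_zero, sub_self]
    have := linearIndependent_iff'.mp huli Finset.univ _ h1 i (Finset.mem_univ i)
    exact sub_eq_zero.mp this
  have hdbar : ∀ i, ∃ db : M₂ → AlgebraicClosure ℚ, ∀ m, db (q m) = d i m :=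
    fun i => exists_factor_of_ker_invariant q hq (d i) (hdinv i)
  choose db hdb using hdbar
  have hdbΛ : ∀ i, db i ∈ Λ₂ := by
    intro i
    show (fun m => db i (q m)) ∈ Λ
    have : (fun m => db i (q m)) = d i := funext (hdb i)
    rw [this]
    exact hd i
  -- Step 5: conclusion
  have hfinal : (fun p : M₂ × M₂ => g (p.1 + p.2)) =
      fun p : M₂ × M₂ => ∑ i, db i p.1 * u i p.2 := by
    funext p
    obtain ⟨m, hm⟩ := hq p.1
    obtain ⟨m', hm'⟩ := hq p.2
    rw [← hm, ← hm']
    simp only [hdb]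
    exact (hmix_eq m m').symm
  rw [hfinal]
  exact sum_mul_mem_box db u hdbΛ huΛ

/-- Separation of points on the quotient. -/
theorem IsHopfLattice.quot_separates (hΛ : IsHopfLattice ℓ act Λ)
    (hq : Function.Surjective q) (heq : ∀ σ m, q (act σ m) = act₂ σ (q m))
    (x y : M₂)
    (hxy : ∀ g ∈ Λ.comap (pull (GaloisRep.ratLocalizedAt ℓ) (AlgebraicClosure ℚ) q),
      g x = g y) : x = y := by
  classical
  have hfinM : Finite M := hΛ.finite
  let _ : Fintype M := Fintype.ofFinite M
  obtain ⟨m₁, rfl⟩ := hq x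
  obtain ⟨m₂, rfl⟩ := hq y
  have hact₂0 : ∀ σ, act₂ σ 0 = 0 := by
    intro σ
    have := heq σ 0
    rw [hΛ.act_zero, map_zero] at this
    exact this.symm
  set K : Finset M := Finset.univ.filter (fun k => q k = 0) with hKdef
  have hKmem : ∀ k, k ∈ K ↔ q k = 0 := fun k => by simp [hKdef]
  have hK : ∀ σ, ∀ k, k ∈ K ↔ act σ k ∈ K := by
    intro σ k
    rw [hKmem, hKmem, heq]
    constructor
    · intro h
      rw [h, hact₂0]
    · intro h
      have h2 := congrArg (act₂ σ⁻¹) h
      rw [← heq, ← heq, ← hΛ.act_mul, inv_mul_cancel, hΛ.act_one, hact₂0] at h2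
      exact h2
  -- traces agree
  have htr : ∀ h ∈ Λ, ∑ k ∈ K, h (m₁ + k) = ∑ k ∈ K, h (m₂ + k) := by
    intro h hh
    have hT := hΛ.trace_mem K hK hh
    have hinv : ∀ m k : M, q k = 0 →
        (fun m => ∑ k ∈ K, h (m + k)) (m + k) = (fun m => ∑ k ∈ K, h (m + k)) m := by
      intro m k hk
      show ∑ k' ∈ K, h (m + k + k') = ∑ k' ∈ K, h (m + k')
      refine Finset.sum_nbij' (fun k' => k + k') (fun k' => -k + k') ?_ ?_ ?_ ?_ ?_
      · intro k' hk'
        rw [hKmem] at hk' ⊢
        rw [map_add, hk, hk', add_zero]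
      · intro k' hk'
        rw [hKmem] at hk' ⊢
        rw [map_add, map_neg, hk, hk', neg_zero, add_zero]
      · intro k' _
        simp
      · intro k' _
        simp
      · intro k' _
        rw [add_assoc]
    obtain ⟨T, hT'⟩ := exists_factor_of_ker_invariant q hq
      (fun m => ∑ k ∈ K, h (m + k)) hinv
    have hTΛ : T ∈ Λ.comap (pull (GaloisRep.ratLocalizedAt ℓ) (AlgebraicClosure ℚ) q) := by
      show (fun m => T (q m)) ∈ Λ
      have : (fun m => T (q m)) = fun m => ∑ k ∈ K, h (m + k) := funext hT'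
      rw [this]
      exact hT
    have := hxy T hTΛ
    rw [hT', hT'] at this
    exact this
  -- Dedekind independence of the evaluation characters of `Λ`
  let ev : M → (Λ →* AlgebraicClosure ℚ) := fun m =>
    ((Pi.evalRingHom (fun _ : M => AlgebraicClosure ℚ) m).comp
      (Λ.val : Λ →+* (M → AlgebraicClosure ℚ)) : Λ →+* AlgebraicClosure ℚ).toMonoidHom
  have hev : ∀ m (h : Λ), ev m h = (h : M → AlgebraicClosure ℚ) m := fun _ _ => rfl
  have hevinj : Function.Injective ev := by
    intro a a' haa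
    apply hΛ.separates
    intro h hh
    have := congrArg (fun φ : Λ →* AlgebraicClosure ℚ => φ ⟨h, hh⟩) haa
    exact this
  have hli : LinearIndependent (AlgebraicClosure ℚ)
      (fun m : M => (ev m : Λ → AlgebraicClosure ℚ)) :=
    (linearIndependent_monoidHom Λ (AlgebraicClosure ℚ)).comp ev hevinj
  let coef : M → AlgebraicClosure ℚ := fun m =>
    (if m - m₁ ∈ K then 1 else 0) - (if m - m₂ ∈ K then 1 else 0)
  have hsum : ∑ m, coef m • (ev m : Λ → AlgebraicClosure ℚ) = 0 := by
    funext h
    simp only [Finset.sum_apply, Pi.smul_apply, smul_eq_mul, Pi.zero_apply, coef, sub_mul,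
      Finset.sum_sub_distrib, ite_mul, one_mul, zero_mul, hev]
    rw [sub_eq_zero]
    have key : ∀ m₀ : M, ∑ m, (if m - m₀ ∈ K then (h : M → AlgebraicClosure ℚ) m else 0) =
        ∑ k ∈ K, (h : M → AlgebraicClosure ℚ) (m₀ + k) := by
      intro m₀
      rw [← Finset.sum_filter]
      refine Finset.sum_nbij' (fun m => m - m₀) (fun k => m₀ + k) ?_ ?_ ?_ ?_ ?_
      · intro m hm
        exact (Finset.mem_filter.mp hm).2
      · intro k hk
        simp only [Finset.mem_filter, Finset.mem_univ, true_and, add_sub_cancel_left]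
        exact hk
      · intro m _
        simp
      · intro k _
        simp
      · intro m _
        simp
    rw [key m₁, key m₂]
    exact htr h h.2
  have hcoef := linearIndependent_iff'.mp hli Finset.univ coef hsum m₁ (Finset.mem_univ m₁)
  have h0K : (0 : M) ∈ K := (hKmem 0).mpr (map_zero q)
  simp only [coef, sub_self, h0K, if_true] at hcoef
  by_cases hmem : m₁ - m₂ ∈ K
  · have := (hKmem _).mp hmem
    rw [map_sub, sub_eq_zero] at this
    exact this
  · rw [if_neg hmem, sub_zero] at hcoef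
    exact absurd hcoef one_ne_zero

/-- **Quotients of Hopf lattices.** -/
theorem IsHopfLattice.quot (hΛ : IsHopfLattice ℓ act Λ)
    (hq : Function.Surjective q) (heq : ∀ σ m, q (act σ m) = act₂ σ (q m)) :
    IsHopfLattice ℓ act₂
      (Λ.comap (pull (GaloisRep.ratLocalizedAt ℓ) (AlgebraicClosure ℚ) q)) := by
  refine ⟨hΛ.quot_fg q hq, hΛ.quot_equivariant q hq heq, hΛ.quot_separates q hq heq, ?_⟩
  rintro _ ⟨g, hg, rfl⟩
  exact hΛ.quot_comul q hq heq hg

theorem HasHopfLattice.of_surjective (h : HasHopfLattice ℓ M act)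
    (hq : Function.Surjective q) (heq : ∀ σ m, q (act σ m) = act₂ σ (q m)) :
    HasHopfLattice ℓ M₂ act₂ := by
  obtain ⟨Λ, hΛ⟩ := h
  exact ⟨_, hΛ.quot q hq heq⟩

end Quot

end Fermat.Agent.S19.H135

end
-- ===== PACK-END S19/H135/Quotient.lean

-- ===== PACK-BEGIN S37/H568/ValueGroup.lean
section



/-!
# S37 / node_rim, leaf VG (helper568): `ValueGroupHyp` for the modular function fields

Input `hVG` of helper940's `H940.reductionInputsAlong_of_atlas`, for
`F = modularFunctionFieldBar N`, `F_k = modularFunctionFieldFullC k N`, `π = residue A`: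

    theorem valueGroupHyp_modular (hcore : CoreData N (IsLocalRing.ResidueField A)) :
        H940.ValueGroupHyp A (IsLocalRing.residue A) (modularFunctionFieldBar N)
          (modularFunctionFieldFullC (IsLocalRing.ResidueField A) N)

(every `f ≠ 0` of `F` is a constant times a quotient of two integral `q`-series with nonzero
reduction in `F_k`).  Same mathematics as helper700's `pgi` (normal form + normalisation), from
the output `CoreData` of row S28.
-/

set_option autoImplicit false

noncomputable section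

namespace Fermat.Agent.S37.H568

open ModularCurve HahnSeries Polynomial AlgebraicCurve
open Fermat.Agent.S28 (jField intDivisorExpansions CoreData)
open Fermat.Agent.S37.H700 Fermat.Agent.S37.H940

variable {N : ℕ} [NeZero N] {A : ValuationSubring (AlgebraicClosure ℚ)}

/-- **`ValueGroupHyp` for `ℚ̄(X₀(N))`.** -/
theorem valueGroupHyp_modular (hcore : CoreData N (IsLocalRing.ResidueField A)) :
    ValueGroupHyp A (IsLocalRing.residue A) (modularFunctionFieldBar N)
      (modularFunctionFieldFullC (IsLocalRing.ResidueField A) N) := by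
  classical
  obtain ⟨n, y, hy_mem, hy_span, hy_ind⟩ := hcore.exists_basis
  intro f hf0
  have hfU : (f : LaurentSeries Qb) ≠ 0 := fun h => hf0 (Subtype.ext h)
  obtain ⟨Q₀, P₀, hQ₀, h₀⟩ := exists_denominator Qb y
    (mem_spanL_of_mem_baseChange Qb y N hy_mem hy_span f.2)
  have hQ₀e : evalJ Qb Q₀ ≠ 0 := fun h => hQ₀ ((evalJ_eq_zero_iff Qb).mp h)
  have hP₀ : ∃ i, P₀ i ≠ 0 := by
    by_contra hcon
    push Not at hcon
    have : evalJ Qb Q₀ * (f : LaurentSeries Qb) = 0 := by
      rw [h₀]
      exact Finset.sum_eq_zero fun i _ => by rw [hcon i, evalJ_zero, zero_mul]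
    exact (mul_ne_zero hQ₀e hfU) this
  obtain ⟨cQ, hcQ, Q', hQ', u₀, hQ'red⟩ := normalize_family A (fun _ : Unit => Q₀) ⟨(), hQ₀⟩
  obtain ⟨cP, hcP, P', hP', i₀, hi₀⟩ := normalize_family A P₀ hP₀
  set b : LaurentSeries A := evalJ A (Q' ()) with hb
  set a : LaurentSeries A := ∑ i, evalJ A (P' i) * coeffMap (Int.castRingHom A) (y i) with ha
  have hbL : coeffMap A.subtype b = HahnSeries.C cQ * evalJ Qb Q₀ := by
    rw [hb, coeffMap_evalJ, hQ' (), evalJ_mul, evalJ_C]
  have haL : coeffMap A.subtype a = HahnSeries.C cP * (evalJ Qb Q₀ * (f : LaurentSeries Qb)) := by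
    rw [ha, _root_.map_sum, h₀, Finset.mul_sum]
    refine Finset.sum_congr rfl fun i _ => ?_
    rw [_root_.map_mul, coeffMap_evalJ, hP' i, evalJ_mul, evalJ_C, coeffMap_coeffMap, mul_assoc]
    congr 2
  have hQmem : evalJ Qb Q₀ ∈ modularFunctionFieldBar N := jField_le_bar (evalJ_mem_jField Qb Q₀)
  have hbmem : coeffMap A.subtype b ∈ modularFunctionFieldBar N := by
    rw [hbL]; exact mul_mem (C_mem_bar cQ) hQmem
  have hamem : coeffMap A.subtype a ∈ modularFunctionFieldBar N := by
    rw [haL]; exact mul_mem (C_mem_bar cP) (mul_mem hQmem f.2)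
  have hbred : coeffMap (IsLocalRing.residue A) b ≠ 0 := by
    rw [hb, coeffMap_evalJ]
    exact fun h => hQ'red ((evalJ_eq_zero_iff _).mp h)
  have hared : coeffMap (IsLocalRing.residue A) a ≠ 0 := by
    intro h
    rw [ha, _root_.map_sum] at h
    have h' : ∑ i, evalJ (IsLocalRing.ResidueField A) ((P' i).map (IsLocalRing.residue A)) *
        coeffMap (Int.castRingHom (IsLocalRing.ResidueField A)) (y i) = 0 := by
      rw [← h]
      refine Finset.sum_congr rfl fun i _ => ?_
      rw [_root_.map_mul, coeffMap_evalJ, coeffMap_coeffMap]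
      congr 1
    exact hi₀ (eq_zero_of_sum_evalJ_eq_zero _ hy_ind _ h' i₀)
  -- the two integral series as elements of `intQ`
  have haI : IsIntQ A (IsLocalRing.residue A) (modularFunctionFieldBar N)
      (modularFunctionFieldFullC (IsLocalRing.ResidueField A) N) ⟨coeffMap A.subtype a, hamem⟩ :=
    ⟨a, rfl, reduction_mem hcore a hamem⟩
  have hbI : IsIntQ A (IsLocalRing.residue A) (modularFunctionFieldBar N)
      (modularFunctionFieldFullC (IsLocalRing.ResidueField A) N) ⟨coeffMap A.subtype b, hbmem⟩ :=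
    ⟨b, rfl, reduction_mem hcore b hbmem⟩
  refine ⟨cQ / cP, div_ne_zero hcQ hcP, ⟨⟨coeffMap A.subtype a, hamem⟩, haI⟩,
    ⟨⟨coeffMap A.subtype b, hbmem⟩, hbI⟩, ?_, ?_, ?_⟩
  · intro h
    apply hared
    have := congrArg (fun z : modularFunctionFieldFullC (IsLocalRing.ResidueField A) N =>
      (z : LaurentSeries (IsLocalRing.ResidueField A))) h
    rw [coe_redQ A (IsLocalRing.residue A) _ _ ⟨⟨coeffMap A.subtype a, hamem⟩, haI⟩ (y := a) rfl]
      at this
    exact this
  · intro h
    apply hbred
    have := congrArg (fun z : modularFunctionFieldFullC (IsLocalRing.ResidueField A) N =>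
      (z : LaurentSeries (IsLocalRing.ResidueField A))) h
    rw [coe_redQ A (IsLocalRing.residue A) _ _ ⟨⟨coeffMap A.subtype b, hbmem⟩, hbI⟩ (y := b) rfl]
      at this
    exact this
  · apply Subtype.ext
    show (f : LaurentSeries Qb) * coeffMap A.subtype b =
      algebraMap Qb (LaurentSeries Qb) (cQ / cP) * coeffMap A.subtype a
    rw [hbL, haL, algebraMap_laurentSeries_eq_single]
    have hC : (HahnSeries.single 0 (cQ / cP) : LaurentSeries Qb) * HahnSeries.C cP =
        HahnSeries.C cQ := by
      show (HahnSeries.C (cQ / cP) : LaurentSeries Qb) * HahnSeries.C cP = HahnSeries.C cQ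
      rw [← _root_.map_mul, div_mul_cancel₀ _ hcP]
    calc (f : LaurentSeries Qb) * (HahnSeries.C cQ * evalJ Qb Q₀)
        = HahnSeries.C cQ * (evalJ Qb Q₀ * (f : LaurentSeries Qb)) := by ring
      _ = (HahnSeries.single 0 (cQ / cP) * HahnSeries.C cP) *
            (evalJ Qb Q₀ * (f : LaurentSeries Qb)) := by rw [hC]
      _ = _ := by ring

end Fermat.Agent.S37.H568

end

end
-- ===== PACK-END S37/H568/ValueGroup.lean

-- ===== PACK-BEGIN S37/Red/H144/Basic.lean
section



/-!
# S37-RED, piece RED-D (route N), part 1: basic lemmas (helper144)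

Values at places (`ValAt`), kernels of `π` and `ρ`, the chart dichotomy.
-/

set_option autoImplicit false

noncomputable section

namespace Fermat.Agent.S37.Red.H144

open AlgebraicCurve IntermediateField Polynomial

universe u

variable {K k F Fk : Type u} [Field K] [Field k] [Field F] [Field Fk]
  [Algebra K F] [Algebra k Fk] {A : ValuationSubring K} {π : A →+* k}

/-! ### Values at places -/

theorem valAt_mem {P : Place K F} {f : F} {a : K} (h : ValAt P f a) :
    f ∈ P.toValuationSubring := by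
  have h1 : f - algebraMap K F a ∈ P.toValuationSubring :=
    (P.toValuationSubring.valuation_le_one_iff _).mp (le_of_lt h)
  have h2 := P.algebraMap_mem' a
  have h3 : f = (f - algebraMap K F a) + algebraMap K F a := by ring
  rw [h3]
  exact _root_.AddMemClass.add_mem h1 h2

theorem valuation_const (P : Place K F) {a : K} (ha : a ≠ 0) :
    P.toValuationSubring.valuation (algebraMap K F a) = 1 :=
  Lib.RR.H443.valuation_algebraMap_eq_one P.toValuationSubring P.algebraMap_mem' a ha

theorem valAt_unique {P : Place K F} {f : F} {a b : K} (ha : ValAt P f a) (hb : ValAt P f b) :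
    a = b := by
  by_contra hne
  have hc : a - b ≠ 0 := sub_ne_zero.mpr hne
  have h1 : P.toValuationSubring.valuation (algebraMap K F (a - b)) < 1 := by
    have h2 : algebraMap K F (a - b) = (f - algebraMap K F b) - (f - algebraMap K F a) := by
      rw [_root_.map_sub]; ring
    rw [h2]
    exact lt_of_le_of_lt (Valuation.map_sub _ _ _) (max_lt hb ha)
  rw [valuation_const P hc] at h1
  exact lt_irrefl _ h1

theorem valAt_zero_iff {P : Place K F} {f : F} :
    ValAt P f 0 ↔ P.toValuationSubring.valuation f < 1 := by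
  unfold ValAt
  rw [_root_.map_zero, sub_zero]

/-- A nonzero function with `f⁻¹(P) = 0` is not regular at `P`. -/
theorem not_mem_of_valuation_inv_lt {O : ValuationSubring F} {f : F} (hf0 : f ≠ 0)
    (h : O.valuation f⁻¹ < 1) : f ∉ O := by
  intro hf
  have h1 : O.valuation f ≤ 1 := (O.valuation_le_one_iff _).mpr hf
  have h2 : O.valuation f * O.valuation f⁻¹ = 1 := by
    rw [← _root_.map_mul, mul_inv_cancel₀ hf0, _root_.map_one]
  have h3 : O.valuation f * O.valuation f⁻¹ < 1 := by
    calc O.valuation f * O.valuation f⁻¹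
        ≤ 1 * O.valuation f⁻¹ := mul_le_mul' h1 le_rfl
      _ = O.valuation f⁻¹ := one_mul _
      _ < 1 := h
  rw [h2] at h3
  exact lt_irrefl _ h3

/-- If `f ∉ O` then `f⁻¹` is a non-unit of `O`. -/
theorem valuation_inv_lt_of_not_mem {O : ValuationSubring F} {f : F} (hf : f ∉ O) :
    O.valuation f⁻¹ < 1 := by
  have h1 : ¬ O.valuation f ≤ 1 := fun h => hf ((O.valuation_le_one_iff _).mp h)
  rw [not_le] at h1
  have hf0 : f ≠ 0 := fun h => hf (h ▸ O.zero_mem)
  have h2 : O.valuation f * O.valuation f⁻¹ = 1 := by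
    rw [← _root_.map_mul, mul_inv_cancel₀ hf0, _root_.map_one]
  by_contra h3
  rw [not_lt] at h3
  have h4 : 1 < O.valuation f * O.valuation f⁻¹ := by
    calc (1 : _) < O.valuation f := h1
      _ = O.valuation f * 1 := (mul_one _).symm
      _ ≤ O.valuation f * O.valuation f⁻¹ := mul_le_mul' le_rfl h3
  rw [h2] at h4
  exact lt_irrefl _ h4

/-! ### Kernels of surjections onto fields -/

/-- A surjective ring homomorphism from a valuation ring onto a field kills the non-units. -/
theorem map_eq_zero_of_valuation_lt {L E : Type*} [Field L] [Field E] (O : ValuationSubring L)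
    (φ : O →+* E) (hφ : Function.Surjective φ) (z : O) (hz : O.valuation (z : L) < 1) :
    φ z = 0 := by
  by_contra hne
  obtain ⟨w, hw⟩ := hφ (φ z)⁻¹
  have h1 : φ (z * w - 1) = 0 := by
    rw [_root_.map_sub, _root_.map_mul, hw, mul_inv_cancel₀ hne, _root_.map_one, sub_self]
  -- `z w - 1` is a unit of `O`
  have h2 : O.valuation ((z * w : O) : L) < 1 := by
    have hw1 : O.valuation (w : L) ≤ 1 := (O.valuation_le_one_iff _).mpr w.2
    push_cast
    rw [_root_.map_mul]
    calc O.valuation (z : L) * O.valuation (w : L) ≤ O.valuation (z : L) * 1 :=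
          mul_le_mul' le_rfl hw1
      _ = O.valuation (z : L) := mul_one _
      _ < 1 := hz
  have h3 : O.valuation (((z * w - 1 : O)) : L) = 1 := by
    have h4 : (((z * w - 1 : O)) : L) = ((z * w : O) : L) + (-1) := by
      push_cast; ring
    rw [h4]
    have h5 : O.valuation (-1 : L) = 1 := by rw [Valuation.map_neg, _root_.map_one]
    have := Valuation.map_add_eq_of_lt_right O.valuation (x := ((z * w : O) : L)) (y := (-1 : L))
      (by rw [h5]; exact h2)
    rw [this, h5]
  have h6 : IsUnit (z * w - 1 : O) := (O.valuation_eq_one_iff _).mpr h3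
  have h7 : IsUnit (φ (z * w - 1)) := h6.map φ
  rw [h1] at h7
  exact not_isUnit_zero h7


/-! ### The datum: kernels, inverses of the coordinate -/

section Datum

variable (G : Datum A π F Fk)

/-- `π` kills the non-units of `A`. -/
theorem pi_eq_zero (G : Datum A π F Fk) (a : A) (ha : A.valuation (a : K) < 1) : π a = 0 :=
  map_eq_zero_of_valuation_lt A π G.π_surj a ha

/-- `ρ` kills the non-units of `O`. -/
theorem rho_eq_zero (z : G.O) (hz : G.O.valuation (z : F) < 1) : G.ρ z = 0 :=
  map_eq_zero_of_valuation_lt G.O G.ρ G.ρ_surj z hz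

theorem xk_ne_zero : G.xk ≠ 0 := fun h =>
  G.xk_transc (by rw [show G.ρ ⟨G.x, G.x_mem⟩ = G.xk from rfl, h]; exact isAlgebraic_zero)

theorem x_ne_zero : G.x ≠ 0 := by
  intro h
  apply xk_ne_zero G
  have : (⟨G.x, G.x_mem⟩ : G.O) = 0 := Subtype.ext h
  rw [Datum.xk, this, _root_.map_zero]

/-- `x` is a unit of `O`. -/
theorem x_inv_mem : G.x⁻¹ ∈ G.O := by
  by_contra h
  have h1 : G.O.valuation (G.x⁻¹)⁻¹ < 1 := valuation_inv_lt_of_not_mem h
  rw [inv_inv] at h1
  exact xk_ne_zero G (rho_eq_zero G ⟨G.x, G.x_mem⟩ h1)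

theorem rho_x_inv : G.ρ ⟨G.x⁻¹, x_inv_mem G⟩ = G.xk⁻¹ := by
  have h1 : (⟨G.x, G.x_mem⟩ : G.O) * ⟨G.x⁻¹, x_inv_mem G⟩ = 1 :=
    Subtype.ext (mul_inv_cancel₀ (x_ne_zero G))
  have h2 : G.xk * G.ρ ⟨G.x⁻¹, x_inv_mem G⟩ = 1 := by
    rw [Datum.xk, ← _root_.map_mul, h1, _root_.map_one]
  exact eq_inv_of_mul_eq_one_right h2

theorem red_eq {f : F} (hf : f ∈ G.O) : G.red f = G.ρ ⟨f, hf⟩ := by
  unfold Datum.red
  rw [dif_pos hf]

/-- elements of `A[t]` are integral over `A[t]` -/
theorem polyRing_le_chart (t : F) : G.polyRing t ≤ G.chart t := by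
  intro s hs
  show IsIntegral (G.polyRing t) s
  exact isIntegral_algebraMap (R := G.polyRing t) (x := ⟨s, hs⟩)

theorem self_mem_polyRing (t : F) : t ∈ G.polyRing t := by
  unfold Datum.polyRing
  exact (le_sup_right : Subring.closure {t} ≤ _) (Subring.subset_closure rfl)

theorem const_mem_polyRing (t : F) (a : A) : algebraMap K F (a : K) ∈ G.polyRing t := by
  unfold Datum.polyRing
  refine (le_sup_left : G.constRing ≤ _) ?_
  exact ⟨(a : K), a.2, rfl⟩

theorem self_mem_chart (t : F) : t ∈ G.chart t :=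
  polyRing_le_chart G t (self_mem_polyRing G t)

end Datum

end Fermat.Agent.S37.Red.H144

end
end
-- ===== PACK-END S37/Red/H144/Basic.lean

-- ===== PACK-BEGIN Lib/HI/H864/RelPlace.lean
section




/-!
# Lib / HI (helper864): the fibre of a place in a finite extension of function fields

`K` algebraically closed of characteristic `0`, `F'/F` a finite extension of function fields of
one variable over `K`, `v` a place of `F`.  With `R = O_v` and `S` the integral closure of `R` in
`F'`:

* `sum_fiber_ord_uniformizer` : `∑_{w | v} w(τ) = [F' : F]` for a uniformizer `τ` of `v`;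
* `sum_fiber_ord_eq_ord_norm` : `∑_{w | v} w(f) = v(N_{F'/F} f)`.
-/

set_option autoImplicit false
set_option linter.unusedSectionVars false
set_option linter.style.haveILetI false
set_option linter.unusedVariables false

noncomputable section

open AlgebraicCurve IsDedekindDomain IntermediateField

namespace Fermat.Agent.Lib.HI.H864

open Fermat.Agent.S24

section

variable {K F F' : Type*} [Field K] [Field F] [Field F'] [Algebra K F] [Algebra K F']
  [Algebra F F'] [IsScalarTower K F F']

theorem flat_of_torsionFree (R S : Type*) [CommRing R] [IsDedekindDomain R] [CommRing S]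
    [Algebra R S] [Module.IsTorsionFree R S] : Module.Flat R S := inferInstance

theorem torsionFree_integralClosure (v : Place K F) :
    Module.IsTorsionFree v.toValuationSubring (integralClosure v.toValuationSubring F') :=
  inferInstance

theorem isScalarTower_valuationSubring (v : Place K F) :
    IsScalarTower K v.toValuationSubring F' :=
  IsScalarTower.of_algebraMap_eq fun a => by
    rw [IsScalarTower.algebraMap_apply K F F']
    rfl

/-- `ord` on the valuation ring is the multiplicity of the maximal ideal. -/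
theorem ord_coe_eq_multiplicity (v : Place K F) {r : v.toValuationSubring} (hr : r ≠ 0) :
    v.ord (r : F) = (multiplicity (IsLocalRing.maximalIdeal v.toValuationSubring)
      (Ideal.span {r}) : ℤ) := by
  show -(WithZero.log (v.heightOneSpectrum.valuation F (algebraMap v.toValuationSubring F r))) = _
  rw [HeightOneSpectrum.valuation_of_algebraMap,
    HeightOneSpectrum.intValuation_eq_exp_neg_multiplicity _ hr, WithZero.log_exp, neg_neg,
    Place.heightOneSpectrum_asIdeal]

section Fiber

variable [Algebra.IsIntegral F F']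

/-- A place `w` of `F'` restricts to `v` iff its valuation ring contains `O_v`. -/
theorem restrict_eq_iff (v : Place K F) (w : Place K F') :
    w.restrict F = v ↔
      ∀ r : v.toValuationSubring, algebraMap F F' (r : F) ∈ w.toValuationSubring := by
  constructor
  · rintro rfl r
    exact (Place.mem_restrict_iff w).mp r.2
  · intro h
    apply Place.ext
    symm
    refine ValuationSubring.eq_of_le_of_ne_top _ ?_ (w.restrict F).ne_top'
    intro r hr
    exact (Place.mem_restrict_iff w).mpr (h ⟨r, hr⟩)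

theorem ord_algebraMap_of_restrict_eq {v : Place K F} {w : Place K F'} (hw : w.restrict F = v)
    (f : F) : w.ord (algebraMap F F' f) = (w.ramificationIndex F : ℤ) * v.ord f := by
  rw [w.ord_restrict f, hw]

theorem ord_uniformizer_of_restrict_eq {v : Place K F} {w : Place K F'} (hw : w.restrict F = v)
    {τ : v.toValuationSubring} (hτ : Irreducible τ) :
    w.ord (algebraMap F F' (τ : F)) = (w.ramificationIndex F : ℤ) := by
  rw [ord_algebraMap_of_restrict_eq hw, v.ord_coe_irreducible hτ, mul_one]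

theorem fiber_iff [HasPrincipalDivisors K F'] (v : Place K F) {τ : v.toValuationSubring}
    (hτ : Irreducible τ) (w : Place K F') :
    w ∈ v.fiber F' ↔ (0 < w.ord (algebraMap v.toValuationSubring F' τ) ∧
      ∀ r : v.toValuationSubring, algebraMap v.toValuationSubring F' r ∈ w.toValuationSubring) := by
  rw [Place.mem_fiber, restrict_eq_iff]
  constructor
  · intro h
    refine ⟨?_, h⟩
    have hw : w.restrict F = v := (restrict_eq_iff v w).mpr h
    show 0 < w.ord (algebraMap F F' (τ : F))
    rw [ord_uniformizer_of_restrict_eq hw hτ]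
    exact_mod_cast w.ramificationIndex_pos (F := F)
  · rintro ⟨-, h⟩
    exact h

end Fiber

section Main

variable [IsAlgClosed K] [CharZero K] [FiniteDimensional F F'] [HasPrincipalDivisors K F']

theorem exists_const_sub_mem_maximalIdeal (x : F) (hx : Transcendental K x)
    [FiniteDimensional K⟮x⟯ F] (v : Place K F) (r : v.toValuationSubring) :
    ∃ c : K, r - algebraMap K v.toValuationSubring c
      ∈ IsLocalRing.maximalIdeal v.toValuationSubring := by
  obtain ⟨a, ha⟩ := FF.exists_const_sub_mem_nonunits v hx r.2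
  refine ⟨a, ?_⟩
  rw [← ValuationSubring.coe_mem_nonunits_iff]
  exact ha

/-- **Relative fundamental identity** for a uniformizer. -/
theorem sum_fiber_ord_uniformizer (x : F) (hx : Transcendental K x)
    [FiniteDimensional K⟮x⟯ F] (v : Place K F) {τ : v.toValuationSubring}
    (hτ : Irreducible τ) :
    ∑ w ∈ v.fiber F', w.ord (algebraMap F F' (τ : F)) = (Module.finrank F F' : ℤ) := by
  haveI : Module.IsTorsionFree v.toValuationSubring (integralClosure v.toValuationSubring F') :=
    torsionFree_integralClosure v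
  haveI : Module.Flat v.toValuationSubring (integralClosure v.toValuationSubring F') :=
    flat_of_torsionFree _ _
  haveI : IsScalarTower K v.toValuationSubring F' := isScalarTower_valuationSubring v
  haveI : CharZero F := charZero_of_injective_algebraMap (algebraMap K F).injective
  haveI : IsScalarTower v.toValuationSubring (integralClosure v.toValuationSubring F') F' :=
    Subalgebra.isScalarTower_mid _
  haveI : IsFractionRing (integralClosure v.toValuationSubring F') F' :=
    integralClosure.isFractionRing_of_finite_extension F F'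
  haveI : IsDedekindDomain (integralClosure v.toValuationSubring F') :=
    IsIntegralClosure.isDedekindDomain v.toValuationSubring F F'
      (integralClosure v.toValuationSubring F')
  haveI : Module.Finite v.toValuationSubring (integralClosure v.toValuationSubring F') :=
    IsIntegralClosure.finite v.toValuationSubring F F' (integralClosure v.toValuationSubring F')
  have hfin : Module.finrank F F'
      = Module.finrank v.toValuationSubring (integralClosure v.toValuationSubring F') :=
    IsFractionRing.finrank_eq v.toValuationSubring F (integralClosure v.toValuationSubring F') F'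
  haveI hmax : (IsLocalRing.maximalIdeal v.toValuationSubring).IsMaximal :=
    IsLocalRing.maximalIdeal.isMaximal _
  have hinj : Function.Injective
      (algebraMap v.toValuationSubring (integralClosure v.toValuationSubring F')) := by
    intro a b hab
    have := congrArg (algebraMap (integralClosure v.toValuationSubring F') F') hab
    rw [← IsScalarTower.algebraMap_apply, ← IsScalarTower.algebraMap_apply] at this
    exact Subtype.ext ((algebraMap F F').injective this)
  rw [hfin]
  exact sum_ord_tau_eq_finrank (K := K) (F := F')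
    (S := integralClosure v.toValuationSubring F') (R := v.toValuationSubring)
    (IsLocalRing.maximalIdeal v.toValuationSubring) τ hτ.maximalIdeal_eq hτ.ne_zero hinj
    (exists_const_sub_mem_maximalIdeal x hx v) (v.fiber F') (fiber_iff v hτ)

/-- Over an algebraically closed constant field all inertia degrees are `1`. -/
theorem place_inertiaDeg_eq_one (x : F) (hx : Transcendental K x) [FiniteDimensional K⟮x⟯ F]
    (x' : F') (hx' : Transcendental K x') [FiniteDimensional K⟮x'⟯ F'] (w : Place K F') :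
    w.inertiaDeg F = 1 := by
  have h := w.deg_restrict_mul_inertiaDeg (F := F)
  rw [FF.deg_eq_one (w.restrict F) hx, FF.deg_eq_one w hx', one_mul] at h
  exact h

/-- **`∑ e f = n`** in the language of places. -/
theorem sumRamificationInertia (x : F) (hx : Transcendental K x) [FiniteDimensional K⟮x⟯ F]
    (x' : F') (hx' : Transcendental K x') [FiniteDimensional K⟮x'⟯ F'] :
    SumRamificationInertia K F F' where
  sum_ramificationIndex_mul_inertiaDeg v := by
    obtain ⟨τ, hτ⟩ := IsDiscreteValuationRing.exists_irreducible v.toValuationSubring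
    rw [← sum_fiber_ord_uniformizer x hx v hτ]
    refine Finset.sum_congr rfl fun w hw => ?_
    rw [ord_uniformizer_of_restrict_eq (Place.mem_fiber.mp hw) hτ,
      place_inertiaDeg_eq_one x hx x' hx' w, Nat.cast_one, mul_one]

/-- Norm formula for integral elements. -/
theorem sum_fiber_ord_integral (x : F) (hx : Transcendental K x)
    [FiniteDimensional K⟮x⟯ F] (v : Place K F)
    {a : integralClosure v.toValuationSubring F'} (ha : a ≠ 0) :
    ∑ w ∈ v.fiber F', w.ord (a : F') = v.ord (Algebra.norm F (a : F')) := by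
  obtain ⟨τ, hτ⟩ := IsDiscreteValuationRing.exists_irreducible v.toValuationSubring
  haveI : Module.IsTorsionFree v.toValuationSubring (integralClosure v.toValuationSubring F') :=
    torsionFree_integralClosure v
  haveI : IsScalarTower K v.toValuationSubring F' := isScalarTower_valuationSubring v
  haveI : CharZero F := charZero_of_injective_algebraMap (algebraMap K F).injective
  haveI : CharZero v.toValuationSubring :=
    charZero_of_injective_algebraMap (algebraMap K v.toValuationSubring).injective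
  haveI : CharZero (FractionRing v.toValuationSubring) :=
    charZero_of_injective_algebraMap
      (IsFractionRing.injective v.toValuationSubring (FractionRing v.toValuationSubring))
  haveI : PerfectField (FractionRing v.toValuationSubring) := PerfectField.ofCharZero
  haveI : IsScalarTower v.toValuationSubring (integralClosure v.toValuationSubring F') F' :=
    Subalgebra.isScalarTower_mid _
  haveI : IsFractionRing (integralClosure v.toValuationSubring F') F' :=
    integralClosure.isFractionRing_of_finite_extension F F'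
  haveI : IsDedekindDomain (integralClosure v.toValuationSubring F') :=
    IsIntegralClosure.isDedekindDomain v.toValuationSubring F F'
      (integralClosure v.toValuationSubring F')
  haveI : Module.Finite v.toValuationSubring (integralClosure v.toValuationSubring F') :=
    IsIntegralClosure.finite v.toValuationSubring F F' (integralClosure v.toValuationSubring F')
  haveI hmax : (IsLocalRing.maximalIdeal v.toValuationSubring).IsMaximal :=
    IsLocalRing.maximalIdeal.isMaximal _
  have hinj : Function.Injective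
      (algebraMap v.toValuationSubring (integralClosure v.toValuationSubring F')) := by
    intro a b hab
    have := congrArg (algebraMap (integralClosure v.toValuationSubring F') F') hab
    rw [← IsScalarTower.algebraMap_apply, ← IsScalarTower.algebraMap_apply] at this
    exact Subtype.ext ((algebraMap F F').injective this)
  have h1 := sum_ord_eq_multiplicity_intNorm (K := K) (F := F')
    (S := integralClosure v.toValuationSubring F') (R := v.toValuationSubring)
    (IsLocalRing.maximalIdeal v.toValuationSubring) τ hτ.maximalIdeal_eq hτ.ne_zero hinj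
    (exists_const_sub_mem_maximalIdeal x hx v) (v.fiber F') (fiber_iff v hτ) ha
  have h3 : algebraMap v.toValuationSubring F
      (Algebra.intNorm v.toValuationSubring (integralClosure v.toValuationSubring F') a)
        = Algebra.norm F (algebraMap (integralClosure v.toValuationSubring F') F' a) :=
    Algebra.algebraMap_intNorm (A := v.toValuationSubring) (K := F) (L := F')
      (B := integralClosure v.toValuationSubring F') a
  have ha' : (a : F') ≠ 0 := fun h => ha (Subtype.ext h)
  have hn0 : Algebra.intNorm v.toValuationSubring (integralClosure v.toValuationSubring F') a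
      ≠ 0 := by
    intro h0
    rw [h0, map_zero] at h3
    exact (Algebra.norm_ne_zero_iff.mpr ha') h3.symm
  have h2 := ord_coe_eq_multiplicity v hn0
  have h4 : (algebraMap (integralClosure v.toValuationSubring F') F' a) = (a : F') := rfl
  rw [h4] at h1 h3
  rw [h1, ← h2, ← h3]
  rfl

/-- **Norm formula**: `∑_{w | v} w(f) = v(N_{F'/F} f)`. -/
theorem sum_fiber_ord_eq_ord_norm (x : F) (hx : Transcendental K x)
    [FiniteDimensional K⟮x⟯ F] (v : Place K F) {f : F'} (hf : f ≠ 0) :
    ∑ w ∈ v.fiber F', w.ord f = v.ord (Algebra.norm F f) := by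
  haveI : CharZero F := charZero_of_injective_algebraMap (algebraMap K F).injective
  haveI : IsScalarTower v.toValuationSubring (integralClosure v.toValuationSubring F') F' :=
    Subalgebra.isScalarTower_mid _
  haveI : IsFractionRing (integralClosure v.toValuationSubring F') F' :=
    integralClosure.isFractionRing_of_finite_extension F F'
  obtain ⟨a, b, hb, hab⟩ :=
    IsFractionRing.div_surjective (A := integralClosure v.toValuationSubring F') f
  have hb0 : b ≠ 0 := nonZeroDivisors.ne_zero hb
  have hb' : (b : F') ≠ 0 := fun h => hb0 (Subtype.ext h)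
  have hfb : f * (b : F') = (a : F') := by
    have h1 : algebraMap (integralClosure v.toValuationSubring F') F' a = (a : F') := rfl
    have h2 : algebraMap (integralClosure v.toValuationSubring F') F' b = (b : F') := rfl
    rw [h1, h2] at hab
    rw [← hab, div_mul_cancel₀ _ hb']
  have ha' : (a : F') ≠ 0 := by
    rw [← hfb]
    exact mul_ne_zero hf hb'
  have ha0 : a ≠ 0 := fun h => ha' (by rw [h]; rfl)
  have hA := sum_fiber_ord_integral x hx v ha0
  have hB := sum_fiber_ord_integral x hx v hb0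
  have hsum : ∑ w ∈ v.fiber F', w.ord (a : F')
      = ∑ w ∈ v.fiber F', w.ord f + ∑ w ∈ v.fiber F', w.ord (b : F') := by
    rw [← Finset.sum_add_distrib]
    refine Finset.sum_congr rfl fun w _ => ?_
    rw [← hfb, w.ord_mul hf hb']
  have hnorm : Algebra.norm F (a : F') = Algebra.norm F f * Algebra.norm F (b : F') := by
    rw [← hfb, map_mul]
  have hNf : Algebra.norm F f ≠ 0 := Algebra.norm_ne_zero_iff.mpr hf
  have hNb : Algebra.norm F (b : F') ≠ 0 := Algebra.norm_ne_zero_iff.mpr hb'
  rw [hnorm, v.ord_mul hNf hNb] at hA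
  omega

/-- **Push-forward of principal divisors is given by the norm.** -/
theorem pushforwardNormFormula (x : F) (hx : Transcendental K x) [FiniteDimensional K⟮x⟯ F]
    (x' : F') (hx' : Transcendental K x') [FiniteDimensional K⟮x'⟯ F'] :
    Divisor.PushforwardNormFormula K F F' := by
  classical
  intro f hf D hD v
  rw [Divisor.pushforward_apply, ← sum_fiber_ord_eq_ord_norm x hx v hf]
  have h1 : ∀ w ∈ D.support, (if w.restrict F = v then D w * (w.inertiaDeg F : ℤ) else 0)
      = if w ∈ v.fiber F' then w.ord f else 0 := by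
    intro w _
    by_cases hwv : w.restrict F = v
    · rw [if_pos hwv, if_pos (Place.mem_fiber.mpr hwv), hD,
        place_inertiaDeg_eq_one x hx x' hx' w, Nat.cast_one, mul_one]
    · rw [if_neg hwv, if_neg (fun h => hwv (Place.mem_fiber.mp h))]
  rw [Finset.sum_congr rfl h1, ← Finset.sum_filter]
  refine Finset.sum_subset (fun w hw => (Finset.mem_filter.mp hw).2) ?_
  intro w hw hnot
  rw [Finset.mem_filter, not_and_or] at hnot
  rcases hnot with h | h
  · rw [Finsupp.mem_support_iff, not_not, hD] at h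
    exact h
  · exact absurd hw h

end Main

end

end Fermat.Agent.Lib.HI.H864

end
end
-- ===== PACK-END Lib/HI/H864/RelPlace.lean

-- ===== PACK-BEGIN S35/G/SpecLevel.lean
section




/-!
# S35, piece (G') — frozen LEVEL interfaces (architect helper450)

Finite levels `E ⊆ ℚ̄` (good for the place `A | q` in the sense of `A2.GoodField`, and stable under
the Frobenius lift `s`), `R = R_E = A ∩ E`, `w` a uniformiser, `F = F_E(M q) = A2.Mod.FE E (M * q)`,
`ψ = σ²`, `σ` = action of `s` on the coefficients.  Language of `A2/Spec`, `A2/Alg/Spec`,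
`A2/Mod/{Spec,Asm}` (all on main).

* `IFsStatement`    : `s`-stable good levels containing a given finite set.
* `LevelFrobAt`     : the Kummer form of (G') at a level `E`;  `T1FStatement` : descent `ℚ̄ → E`.
* `AlgFrobStatement`: ABSTRACT Frobenius-twisted gluing (Mathlib + `A2.SSChart` only):
                      `h` toric (`≡ m`-th powers on both components), `m ∣ div h`
                      ⟹ `ψ h / h ^ Q` is an `m`-th power.  (`Q = 1`, `ψ = τ ∈ I` is Step II of the
                      wall A2.)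
* `StableStatement`, `NodeRatStatement`, `ToricStatement`, `ModelStatement` : the modular inputs.

Definitions only (no `sorry`).  Board: `coord/S35-G-helper450.md` on `origin/helper450`.
-/

set_option autoImplicit false
set_option linter.style.haveILetI false
set_option linter.unusedSectionVars false
set_option synthInstance.maxHeartbeats 400000
set_option maxHeartbeats 1600000

noncomputable section

namespace Fermat.Agent.S35.G

open ModularCurve AlgebraicCurve

/-! ## Abstract part (Mathlib + `A2.SSChart`) -/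

section Abstract

variable {R F : Type*} [CommRing R] [Field F] [Algebra R F]

/-- `u ≡ g ^ m mod w V` for a unit `g` of `V`: the residue of `u` at `V` is an `m`-th power. -/
def PowV (w : R) (V : ValuationSubring F) (m : ℕ) (u : F) : Prop :=
  ∃ g : F, g ∈ V ∧ g⁻¹ ∈ V ∧ (u - g ^ m) * (algebraMap R F w)⁻¹ ∈ V

/-- The two components of the chart `B` are cut out by the valuation rings `V₁`, `V₂`:
`B ⊆ V_i`, `p_i = B ∩ w V_i`. -/
structure CutBy (w : R) (B : Subalgebra R F) (c : A2.SSChart w B)
    (V₁ V₂ : ValuationSubring F) : Prop where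
  le₁ : ∀ b ∈ B, b ∈ V₁
  le₂ : ∀ b ∈ B, b ∈ V₂
  cut₁ : ∀ b : B, b ∈ c.p₁ ↔ (b : F) * (algebraMap R F w)⁻¹ ∈ V₁
  cut₂ : ∀ b : B, b ∈ c.p₂ ↔ (b : F) * (algebraMap R F w)⁻¹ ∈ V₂

/-- `ψ` maps every crossing point of the two components of the chart `B` into itself. -/
def NodeStable {w : R} (B : Subalgebra R F) (c : A2.SSChart w B) (ψ : F ≃+* F) : Prop :=
  ∀ n : Ideal B, n.IsMaximal → c.p₁ ≤ n → c.p₂ ≤ n →
    ∀ b : B, b ∈ n → ∀ b' : B, (b' : F) = ψ (b : F) → b' ∈ n

/-- **ALG-FROB (interface statement).**  Setting of `A2.AlgSSStatement` (henselian DVR `R` with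
algebraically closed residue field of characteristic `q`, two semistable charts), the components
cut out by two valuation rings `V₁`, `V₂` of `F`; `ψ` a semilinear automorphism fixing the
coordinate, inducing `r ↦ r ^ Q` on the residue field of `R`, preserving `V₁`, `V₂` and every
crossing point.  Then for every `h` with `m ∣ div h` whose residues at `V₁` and `V₂` are `m`-th
powers, `ψ h / h ^ Q` is an `m`-th power. -/
def AlgFrobStatement : Prop :=
  ∀ {R E F : Type} [CommRing R] [IsDomain R] [IsDiscreteValuationRing R] [HenselianLocalRing R]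
    [IsAlgClosed (IsLocalRing.ResidueField R)]
    [Field E] [CharZero E] [Algebra R E] [IsFractionRing R E]
    [Field F] [Algebra E F] [Algebra R F] [IsScalarTower R E F]
    (w : R) (_ : Irreducible w) (q m Q : ℕ) (_ : q.Prime)
    (_ : (q : R) ∈ IsLocalRing.maximalIdeal R) (_ : 0 < m) (_ : ¬ q ∣ m)
    (x : F) (_ : Transcendental E x)
    (_ : FiniteDimensional (IntermediateField.adjoin E ({x} : Set F)) F)
    (_ : ∀ f : F, IsAlgebraic E f → f ∈ (algebraMap E F).range)
    (Bf Bi : Subalgebra R F)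
    (_ : ∀ f : F, f ∈ Bf ↔ IsIntegral (Algebra.adjoin R ({x} : Set F)) f)
    (_ : ∀ f : F, f ∈ Bi ↔ IsIntegral (Algebra.adjoin R ({x⁻¹} : Set F)) f)
    (cf : A2.SSChart w Bf) (ci : A2.SSChart w Bi)
    (_ : A2.SepCoord R E x Bf) (_ : A2.SepCoord R E x⁻¹ Bi)
    (V₁ V₂ : ValuationSubring F) (_ : CutBy w Bf cf V₁ V₂) (_ : CutBy w Bi ci V₁ V₂)
    (ψ : F ≃+* F) (ψE : E ≃+* E) (ψR : R ≃+* R)
    (_ : ∀ e : E, ψ (algebraMap E F e) = algebraMap E F (ψE e))
    (_ : ∀ r : R, ψE (algebraMap R E r) = algebraMap R E (ψR r))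
    (_ : ψ x = x)
    (_ : ∀ r : R, ψR r - r ^ Q ∈ IsLocalRing.maximalIdeal R)
    (_ : ∀ f ∈ V₁, ψ f ∈ V₁) (_ : ∀ f ∈ V₂, ψ f ∈ V₂)
    (_ : NodeStable Bf cf ψ) (_ : NodeStable Bi ci ψ),
    ∀ h : F, h ≠ 0 → A2.DivisibleDiv E m h → PowV w V₁ m h → PowV w V₂ m h →
      ∃ y : F, y ≠ 0 ∧ ψ h = y ^ m * h ^ Q

end Abstract

/-! ## Levels -/

/-- `E` is stable under `s` and `s⁻¹`. -/
abbrev StableUnder (E : IntermediateField ℚ Qb) (s : Qb ≃ₐ[ℚ] Qb) : Prop :=
  ∀ e : Qb, e ∈ E → s e ∈ E ∧ s.symm e ∈ E

/-- **IFs (interface statement).**  Every finite set of algebraic numbers lies in a good level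
for `A` which is stable under a given element `s` of the decomposition group of `A`
(`E` = compositum of the inertia field `ℚ̄^{I_A}` and a finite NORMAL extension of `ℚ`; the
inertia group is normal in the decomposition group). -/
def IFsStatement : Prop :=
  ∀ (q : ℕ) (_ : q.Prime) (A : ValuationSubring Qb) (_ : A.LiesOverPrime q)
    (s : Qb ≃ₐ[ℚ] Qb) (_ : s ∈ A.decompositionSubgroup ℚ) (S : Finset Qb),
    ∃ E : IntermediateField ℚ Qb, (∀ x ∈ S, x ∈ E) ∧ A2.GoodField A E ∧ StableUnder E s

section Level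

variable (A : ValuationSubring Qb) (E : IntermediateField ℚ Qb) (M q m : ℕ) [NeZero M] [NeZero q]

/-- `σ_E(t)`: the automorphism of `F_E(N)` induced by an automorphism `t` of `E`. -/
abbrev actE (N : ℕ) (t : E ≃ₐ[ℚ] E) : A2.Mod.FE E N ≃+* A2.Mod.FE E N :=
  arithmeticRingAut (modularFunctionFieldFull N) t

/-- `ψ = σ_E(s)²` at level `N`. -/
abbrev psiE (N : ℕ) (s : Qb ≃ₐ[ℚ] Qb) (hs : StableUnder E s) : A2.Mod.FE E N ≃+* A2.Mod.FE E N :=
  actE E N (A2.Mod.resE E s hs * A2.Mod.resE E s hs)

/-- **Kummer form of (G') at the level `E`.** -/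
def LevelFrobAt : Prop :=
  A.LiesOverPrime q → A2.GoodField A E →
    ∀ (s : Qb ≃ₐ[ℚ] Qb) (hs : StableUnder E s), A.IsFrobeniusAt s q →
      ∀ y : A2.Mod.FE E (M * q), y ≠ 0 → A2.DivisibleDiv E m y →
        NormPow (A2.Mod.αE E M q) m y → NormPow (A2.Mod.βE E M q) m y →
        ∃ h : A2.Mod.FE E (M * q), h ≠ 0 ∧
          frobPoly (psiE E (M * q) s hs) (q ^ 2) y = h ^ m

end Level

/-- **T1F (descent to a level).**  `f`, and `c`, `g` with `N_α f = c g ^ m`, `N_β f = c' g' ^ m`,
are defined over every level containing a finite set `S` (`A2.T1.H669.exists_finset_descent`);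
norms commute with the base change `E → ℚ̄` (`S37.H818.normCompat_of_finrank_eq`,
`S37.H157.finrank_algIncl`); `m ∣ div` descends (`A2.T1.H669.divisibleDiv_of_ord`). -/
def T1FStatement : Prop :=
  ∀ (M q m : ℕ) [NeZero M] [NeZero q], q.Prime → ¬ q ∣ M → 0 < m → ¬ q ∣ m →
    IFsStatement →
    (∀ (A : ValuationSubring Qb) (E : IntermediateField ℚ Qb), LevelFrobAt A E M q m) →
    KummerFrobAt M q m

/-! ## The modular inputs (level `M * q`, objects of `A2/Mod/Spec.lean`) -/

section Modular

variable (A : ValuationSubring Qb) (E : IntermediateField ℚ Qb) (M q m : ℕ) [NeZero M] [NeZero q]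
  (w : A2.Mod.RE A E)

/-- **STABLE.**  An element `s` of the decomposition group of `A` stabilising `E` preserves the
Gauss valuation ring `V∞` (any level `N`) and commutes with the Fricke involution; hence it also
preserves `V₀ = V∞ ∘ W`.  (As `A2.Mod.InertiaStatement` = L14, `A2/Mod/H549/L14.lean`:
`isGaussInt_coeffMap`, `fricke_comm`.) -/
def StableStatement : Prop :=
  ∀ N : ℕ, N ≠ 0 → IsDiscreteValuationRing (A2.Mod.RE A E) →
    ∀ (V : ValuationSubring (A2.Mod.FE E N)) (W : A2.Mod.FE E N ≃ₐ[E] A2.Mod.FE E N),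
      A2.Mod.IsVinf A E N V → A2.Mod.IsFricke E N W →
      ∀ (s : Qb ≃ₐ[ℚ] Qb) (hs : StableUnder E s), s ∈ A.decompositionSubgroup ℚ →
        (∀ f : A2.Mod.FE E N, actE E N (A2.Mod.resE E s hs) (W f) =
          W (actE E N (A2.Mod.resE E s hs) f)) ∧
        ∀ f ∈ V, actE E N (A2.Mod.resE E s hs) f ∈ V

/-- **NODE-RAT.**  The crossing points of the two components are fixed by `ψ = σ²`
(the supersingular points are `𝔽_{q²}`-rational).  Proof: on `C∞` Kronecker gives
`β (σ a) ≡ (α a) ^ q`, on `C₀` (Fricke) `α (σ a) ≡ (β a) ^ q`; at a crossing point `n`,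
`α (σ² a) ≡ (α a) ^ (q²) mod n` for `a ∈ B_M`; `B = α (B_M) + p∞` (S2-type surjectivity,
`A2.H612.exists_sub_mem_of_residue_degree_one`), and `B / n = k`. -/
def NodeRatStatement : Prop :=
  A2.Mod.Setting A E M q w → A2.GoodField A E →
    ∀ (VM : ValuationSubring (A2.Mod.FE E M)) (V : ValuationSubring (A2.Mod.FE E (M * q)))
      (W : A2.Mod.FE E (M * q) ≃ₐ[E] A2.Mod.FE E (M * q)),
      A2.Mod.IsVinf A E M VM → A2.Mod.IsVinf A E (M * q) V → A2.Mod.IsFricke E (M * q) W →
      ∀ (yM : A2.Mod.FE E M) (y : A2.Mod.FE E (M * q)), A2.Mod.IsCoordPair E M q yM y →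
        A2.Mod.GoodRedAt A E M w VM yM →
        ∀ c : A2.SSChart w (A2.Mod.chartAlg A E (M * q) y),
          A2.Mod.IsCut A E (M * q) w V (A2.Mod.chartAlg A E (M * q) y) c.p₁ →
          A2.Mod.IsCut A E (M * q) w
            (V.comap (W : A2.Mod.FE E (M * q) →+* A2.Mod.FE E (M * q)))
            (A2.Mod.chartAlg A E (M * q) y) c.p₂ →
          ∀ (s : Qb ≃ₐ[ℚ] Qb) (hs : StableUnder E s), A.IsFrobeniusAt s q →
            NodeStable (A2.Mod.chartAlg A E (M * q) y) c (psiE E (M * q) s hs)

/-- **TORIC.**  If the norms of `f` along `α` and `β` are constants times `m`-th powers, then the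
residues of `(ψ - 1)² f` at `V∞` and at `V₀` are `m`-th powers.
Proof (`u := ψ f / f`, a unit of `V∞` and `V₀` by STABLE): `u ≡ α U` at `V∞`, `u ≡ β U'` at `V₀`
(L11 + Fricke L5, L7); norm reduction for the two extensions `V∞`, `V₀` of `V∞_M` along `α`
(`e = 1`, `f = 1, q`, the second purely inseparable: `A2.H48.Qep2`, leaf NORMRED2) and Kronecker
`β (σ a) ≡ (α a) ^ q` give `N_α u ≡ U · σ U'`, `N_β u ≡ σ U · U'` modulo `w`; hence
`σ² U / U` and `σ² U' / U'` are `m`-th powers modulo `w` (the residue field of `R_E` is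
algebraically closed), and `ψ u / u ≡ α (σ² U / U)` at `V∞`, `≡ β (σ² U' / U')` at `V₀`. -/
def ToricStatement : Prop :=
  A2.Mod.Setting A E M q w → A2.GoodField A E → 0 < m → ¬ q ∣ m →
    ∀ (V : ValuationSubring (A2.Mod.FE E (M * q)))
      (W : A2.Mod.FE E (M * q) ≃ₐ[E] A2.Mod.FE E (M * q)),
      A2.Mod.IsVinf A E (M * q) V → A2.Mod.IsFricke E (M * q) W →
      ∀ (s : Qb ≃ₐ[ℚ] Qb) (hs : StableUnder E s), A.IsFrobeniusAt s q →
        ∀ f : A2.Mod.FE E (M * q), f ≠ 0 →
          NormPow (A2.Mod.αE E M q) m f → NormPow (A2.Mod.βE E M q) m f →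
          PowV w V m (frobSub (psiE E (M * q) s hs) 1 (frobSub (psiE E (M * q) s hs) 1 f)) ∧
          PowV w (V.comap (W : A2.Mod.FE E (M * q) →+* A2.Mod.FE E (M * q))) m
            (frobSub (psiE E (M * q) s hs) 1 (frobSub (psiE E (M * q) s hs) 1 f))

/-- **MODEL.**  The semistable two-chart model of `A2.ModSSData` at the level `E`, with its two
components cut out by `V∞` and `V₀` (this is what `A2.Mod.modSSData_of_parts` constructs from
S1–S4, L1, L2, L4, L8 and good reduction at level `M`; the latter needs the auxiliary prime;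
`B ⊆ V∞, V₀` because `x = j j_q` is a unit of both, L2 + L4). -/
def ModelStatement : Prop :=
  A2.Mod.Setting A E M q w → A2.GoodField A E → HasAux M q →
    ∃ (V : ValuationSubring (A2.Mod.FE E (M * q)))
      (W : A2.Mod.FE E (M * q) ≃ₐ[E] A2.Mod.FE E (M * q))
      (VM : ValuationSubring (A2.Mod.FE E M)),
      A2.Mod.IsVinf A E (M * q) V ∧ A2.Mod.IsFricke E (M * q) W ∧ A2.Mod.IsVinf A E M VM ∧
      A2.Mod.GoodRedAt A E M w VM (A2.Mod.jE E M 1 (one_dvd _)) ∧
      A2.Mod.GoodRedAt A E M w VM (A2.Mod.jE E M 1 (one_dvd _))⁻¹ ∧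
      A2.Mod.DegStatement E M q ∧
      A2.SepCoord (A2.Mod.RE A E) E (A2.Mod.xE E M q)
        (A2.Mod.chartAlg A E (M * q) (A2.Mod.xE E M q)) ∧
      A2.SepCoord (A2.Mod.RE A E) E (A2.Mod.xE E M q)⁻¹
        (A2.Mod.chartAlg A E (M * q) (A2.Mod.xE E M q)⁻¹) ∧
      ∃ (cf : A2.SSChart w (A2.Mod.chartAlg A E (M * q) (A2.Mod.xE E M q)))
        (ci : A2.SSChart w (A2.Mod.chartAlg A E (M * q) (A2.Mod.xE E M q)⁻¹)),
        CutBy w (A2.Mod.chartAlg A E (M * q) (A2.Mod.xE E M q)) cf V
          (V.comap (W : A2.Mod.FE E (M * q) →+* A2.Mod.FE E (M * q))) ∧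
        CutBy w (A2.Mod.chartAlg A E (M * q) (A2.Mod.xE E M q)⁻¹) ci V
          (V.comap (W : A2.Mod.FE E (M * q) →+* A2.Mod.FE E (M * q)))

/-- **FROB-RES.**  A Frobenius lift `s` at `A` stabilising `E` induces on `R_E = A ∩ E` an
automorphism which is `r ↦ r ^ q` modulo the maximal ideal
(`A2.H612.valuation_frob_sub_pow_lt_one`); stated for `s²`. -/
def FrobResStatement : Prop :=
  A.LiesOverPrime q → q.Prime →
    ∀ (s : Qb ≃ₐ[ℚ] Qb) (hs : StableUnder E s), A.IsFrobeniusAt s q →
      ∃ ψR : A2.Mod.RE A E ≃+* A2.Mod.RE A E,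
        (∀ r : A2.Mod.RE A E,
          (A2.Mod.resE E s hs * A2.Mod.resE E s hs) (r : E) = ((ψR r : A2.Mod.RE A E) : E)) ∧
        ∀ r : A2.Mod.RE A E, ψR r - r ^ (q ^ 2) ∈ IsLocalRing.maximalIdeal (A2.Mod.RE A E)

/-- **KRON-FROB.**  Kronecker congruence with the explicit Frobenius twist: for `a ∈ V∞_M`,
`β (σ a) ≡ (α a) ^ q mod w V∞` (on `t`-expansions: `∑ s(aₙ) t^{qn} ≡ (∑ aₙ tⁿ)^q`).
(`A2.Mod.KronStatement` = L12 only asserts the existence of the twisted element;
`A2/H612/Kron.lean` has the computation over `ℚ̄`.)  Used by NODE-RAT and TORIC. -/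
def KronFrobStatement : Prop :=
  A2.Mod.Setting A E M q w →
    ∀ (VM : ValuationSubring (A2.Mod.FE E M)) (V : ValuationSubring (A2.Mod.FE E (M * q))),
      A2.Mod.IsVinf A E M VM → A2.Mod.IsVinf A E (M * q) V →
      ∀ (s : Qb ≃ₐ[ℚ] Qb) (hs : StableUnder E s), A.IsFrobeniusAt s q →
        ∀ a ∈ VM, A2.Mod.InW A E (M * q) V w
          (A2.Mod.βE E M q (actE E M (A2.Mod.resE E s hs) a) - (A2.Mod.αE E M q a) ^ q)

/-- **COORD.**  The coordinate `x = j · j_q` has rational coefficients: it is fixed by the action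
of every automorphism of `E` on the coefficients. -/
def CoordStatement : Prop :=
  ∀ t : E ≃ₐ[ℚ] E, actE E (M * q) t (A2.Mod.xE E M q) = A2.Mod.xE E M q

end Modular

end Fermat.Agent.S35.G

end

end
-- ===== PACK-END S35/G/SpecLevel.lean

-- ===== PACK-BEGIN S18/H576/Unif.lean
section




/-!
# S18 / MOD-ASM (helper576): the uniformiser facts (`UnifFacts`) from `H602.isDiscreteValuationRing_RE`
-/

set_option autoImplicit false

noncomputable section

namespace Fermat.Agent.S18.H576

open ModularCurve AlgebraicCurve HahnSeries Fermat.Agent.S18 Fermat.Agent.S18.Mod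
open Fermat.Agent.S18.H602 (RE mem_RE toA)

variable {M : ℕ} {A : ValuationSubring Qb} {E : IntermediateField ℚ Qb}

/-- The inclusion `R_E → Ω`. -/
def iotaR (M : ℕ) (A : ValuationSubring Qb) (E : IntermediateField ℚ Qb) : RE A E →+* Om M :=
  (iota M).comp ((algebraMap E Qb).comp (RE A E).subtype)

theorem iotaR_apply (r : RE A E) : iotaR M A E r = iota M ((r : E) : Qb) := rfl

theorem iotaR_injective : Function.Injective (iotaR M A E) := by
  intro r s h
  have h1 : ((r : E) : Qb) = ((s : E) : Qb) := iota_injective M h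
  exact Subtype.ext (Subtype.ext h1)

theorem iotaR_mem_Rc (r : RE A E) : iotaR M A E r ∈ Rc M A E :=
  iota_mem_Rc (mem_RE.mp r.2) (r : E).2

theorem mem_Rc_iff_exists_iotaR {y : Om M} : y ∈ Rc M A E ↔ ∃ r : RE A E, iotaR M A E r = y := by
  constructor
  · intro hy
    obtain ⟨a, haA, haE, rfl⟩ := mem_Rc_iff.mp hy
    exact ⟨⟨⟨a, haE⟩, haA⟩, rfl⟩
  · rintro ⟨r, rfl⟩
    exact iotaR_mem_Rc r

theorem iotaR_inv_mem_Rc_iff (r : RE A E) : (iotaR M A E r)⁻¹ ∈ Rc M A E ↔ r = 0 ∨ IsUnit r := by
  constructor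
  · intro h
    by_cases hr : r = 0
    · exact Or.inl hr
    right
    obtain ⟨s, hs⟩ := mem_Rc_iff_exists_iotaR.mp h
    refine isUnit_iff_exists_inv.mpr ⟨s, ?_⟩
    apply iotaR_injective (M := M)
    rw [_root_.map_mul, hs, _root_.map_one]
    exact mul_inv_cancel₀ (fun h0 => hr (iotaR_injective (by rw [h0, _root_.map_zero])))
  · rintro (rfl | hu)
    · rw [_root_.map_zero, inv_zero]
      exact zero_mem _
    · obtain ⟨s, hs⟩ := isUnit_iff_exists_inv.mp hu
      have : (iotaR M A E r)⁻¹ = iotaR M A E s := by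
        have h1 : iotaR M A E r * iotaR M A E s = 1 := by rw [← _root_.map_mul, hs, _root_.map_one]
        exact inv_eq_of_mul_eq_one_right h1
      rw [this]
      exact iotaR_mem_Rc s

/-- Every element of the residue field of `R_E` is algebraic over `𝔽_ℓ`. -/
theorem exists_polynomial_residue (r : RE A E) {ℓ : ℕ} (hℓ : ℓ.Prime) :
    ∃ P : Polynomial ℤ, P.map (Int.castRingHom (ZMod ℓ)) ≠ 0 ∧
      Polynomial.eval₂ (Int.castRingHom (RE A E)) r P = 0 := by
  haveI : Fact ℓ.Prime := ⟨hℓ⟩
  have halgQ : IsAlgebraic ℚ ((r : E) : Qb) := (AlgebraicClosure.isAlgebraic ℚ).isAlgebraic _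
  have halgZ : IsAlgebraic ℤ ((r : E) : Qb) := (IsFractionRing.isAlgebraic_iff ℤ ℚ Qb).mpr halgQ
  obtain ⟨P, hP0, hP⟩ := halgZ
  have hprim : P.primPart.IsPrimitive := Polynomial.isPrimitive_primPart P
  have hev : Polynomial.aeval ((r : E) : Qb) P.primPart = 0 := by
    have h1 := P.eq_C_content_mul_primPart
    rw [h1, _root_.map_mul, Polynomial.aeval_C] at hP
    rcases mul_eq_zero.mp hP with h | h
    · exfalso
      have : (P.content : Qb) = 0 := by simpa using h
      have h2 : P.content = 0 := by exact_mod_cast this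
      exact hP0 (Polynomial.content_eq_zero_iff.mp h2)
    · exact h
  refine ⟨P.primPart, ?_, ?_⟩
  · intro h0
    have hdvd : Polynomial.C (ℓ : ℤ) ∣ P.primPart := by
      rw [Polynomial.C_dvd_iff_dvd_coeff]
      intro i
      have := congrArg (fun Q : Polynomial (ZMod ℓ) => Q.coeff i) h0
      simp only [Polynomial.coeff_map, Polynomial.coeff_zero, eq_intCast] at this
      exact (ZMod.intCast_zmod_eq_zero_iff_dvd _ _).mp this
    have hu := hprim _ hdvd
    have : IsUnit (ℓ : ℤ) := hu
    rw [Int.isUnit_iff] at this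
    have hℓ2 := hℓ.two_le
    omega
  · have hinj : Function.Injective ((algebraMap E Qb).comp (RE A E).subtype) := by
      intro a b h
      exact Subtype.ext (Subtype.ext h)
    apply hinj
    rw [_root_.map_zero, Polynomial.hom_eval₂]
    have : (((algebraMap E Qb).comp (RE A E).subtype).comp (Int.castRingHom (RE A E))) =
        algebraMap ℤ Qb := RingHom.ext_int _ _
    rw [this]
    exact hev

end Fermat.Agent.S18.H576

namespace Fermat.Agent.S18.H576

open ModularCurve AlgebraicCurve HahnSeries Fermat.Agent.S18 Fermat.Agent.S18.Mod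
open Fermat.Agent.S18.H602 (RE mem_RE toA)

variable {M : ℕ} {A : ValuationSubring Qb} {E : IntermediateField ℚ Qb}

theorem natCast_mem_maximalIdeal_RE {ℓ : ℕ} (hA : A.LiesOverPrime ℓ) :
    ((ℓ : ℕ) : RE A E) ∈ IsLocalRing.maximalIdeal (RE A E) := by
  rw [IsLocalRing.mem_maximalIdeal, mem_nonunits_iff]
  have h := H602.natCast_not_isUnit_RE A E (ℓ := ℓ) hA
  intro hu
  apply h
  have : (⟨(ℓ : E), H602.natCast_mem_RE A E ℓ⟩ : RE A E) = ((ℓ : ℕ) : RE A E) := by
    apply Subtype.ext
    simp
  rw [this]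
  exact hu

theorem natCast_residue_RE_eq_zero {ℓ : ℕ} (hA : A.LiesOverPrime ℓ) :
    ((ℓ : ℕ) : IsLocalRing.ResidueField (RE A E)) = 0 := by
  have := (IsLocalRing.residue_eq_zero_iff ((ℓ : ℕ) : RE A E)).mpr
    (natCast_mem_maximalIdeal_RE hA)
  simpa using this

/-- The residue field of `R_E` is perfect: Frobenius is surjective modulo the maximal ideal. -/
theorem exists_pow_sub_mem_maximalIdeal {ℓ : ℕ} (hℓ : ℓ.Prime) (hA : A.LiesOverPrime ℓ)
    (r : RE A E) : ∃ s : RE A E, r - s ^ ℓ ∈ IsLocalRing.maximalIdeal (RE A E) := by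
  haveI : Fact ℓ.Prime := ⟨hℓ⟩
  set κ := IsLocalRing.ResidueField (RE A E) with hκ
  haveI : CharP κ ℓ := (CharP.charP_iff_prime_eq_zero hℓ).mpr (natCast_residue_RE_eq_zero hA)
  letI : Algebra (ZMod ℓ) κ := ZMod.algebra κ ℓ
  haveI : Algebra.IsAlgebraic (ZMod ℓ) κ := by
    refine ⟨fun x => ?_⟩
    obtain ⟨r', rfl⟩ := IsLocalRing.residue_surjective x
    obtain ⟨P, hP0, hP⟩ := exists_polynomial_residue r' hℓ
    refine ⟨P.map (Int.castRingHom (ZMod ℓ)), hP0, ?_⟩
    rw [Polynomial.aeval_def, Polynomial.eval₂_map]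
    have h1 : (algebraMap (ZMod ℓ) κ).comp (Int.castRingHom (ZMod ℓ)) =
        (IsLocalRing.residue (RE A E)).comp (Int.castRingHom (RE A E)) := RingHom.ext_int _ _
    rw [h1, ← Polynomial.hom_eval₂, hP, _root_.map_zero]
  haveI : PerfectField κ := Algebra.IsAlgebraic.perfectField (ZMod ℓ)
  haveI : ExpChar κ ℓ := ExpChar.prime hℓ
  obtain ⟨y, hy⟩ := surjective_frobenius κ ℓ (IsLocalRing.residue (RE A E) r)
  obtain ⟨s, rfl⟩ := IsLocalRing.residue_surjective y
  refine ⟨s, ?_⟩
  rw [← IsLocalRing.residue_eq_zero_iff, _root_.map_sub, map_pow, sub_eq_zero]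
  rw [frobenius_def] at hy
  exact hy.symm

/-- The uniformiser facts for `w = ` image of a uniformiser of `R_E`. -/
theorem exists_unifFacts (M : ℕ) {A : ValuationSubring Qb} (E : IntermediateField ℚ Qb)
    [FiniteDimensional ℚ E] {ℓ : ℕ} (hℓ : ℓ.Prime) (hA : A.LiesOverPrime ℓ) :
    ∃ ϖ : RE A E, Irreducible ϖ ∧ UnifFacts M A E (iotaR M A E ϖ) := by
  haveI : IsDiscreteValuationRing (RE A E) :=
    H602.isDiscreteValuationRing_RE A E hℓ.ne_zero hA
  obtain ⟨ϖ, hϖ⟩ := IsDiscreteValuationRing.exists_irreducible (RE A E)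
  have hϖ0 : ϖ ≠ 0 := hϖ.ne_zero
  have hw0 : iotaR M A E ϖ ≠ 0 := fun h => hϖ0 (iotaR_injective (by rw [h, _root_.map_zero]))
  have hmax : ∀ r : RE A E, r ∈ IsLocalRing.maximalIdeal (RE A E) → ∃ b : RE A E, r = b * ϖ := by
    intro r hr
    rw [hϖ.maximalIdeal_eq, Ideal.mem_span_singleton] at hr
    obtain ⟨b, hb⟩ := hr
    exact ⟨b, by rw [hb, mul_comm]⟩
  have hdiv : ∀ b : RE A E, iotaR M A E (b * ϖ) * (iotaR M A E ϖ)⁻¹ = iotaR M A E b := by
    intro b
    rw [_root_.map_mul, mul_assoc, mul_inv_cancel₀ hw0, mul_one]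
  refine ⟨ϖ, hϖ, ⟨iotaR_mem_Rc ϖ, hw0, ?_, ?_, ?_, ?_⟩⟩
  · intro h
    rcases (iotaR_inv_mem_Rc_iff ϖ).mp h with h0 | hu
    · exact hϖ0 h0
    · exact hϖ.not_isUnit hu
  · intro y hy hyinv
    obtain ⟨r, rfl⟩ := mem_Rc_iff_exists_iotaR.mp hy
    have hr : r ∈ IsLocalRing.maximalIdeal (RE A E) := by
      rw [IsLocalRing.mem_maximalIdeal, mem_nonunits_iff]
      intro hu
      exact hyinv ((iotaR_inv_mem_Rc_iff r).mpr (Or.inr hu))
    obtain ⟨b, rfl⟩ := hmax r hr
    rw [hdiv]
    exact iotaR_mem_Rc b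
  · intro y hy hy0
    obtain ⟨r, rfl⟩ := mem_Rc_iff_exists_iotaR.mp hy
    have hr0 : r ≠ 0 := fun h => hy0 (by rw [h, _root_.map_zero])
    obtain ⟨n, u, hu⟩ := IsDiscreteValuationRing.eq_unit_mul_pow_irreducible hr0 hϖ
    refine ⟨n, ?_⟩
    have h1 : iotaR M A E r * ((iotaR M A E ϖ)⁻¹) ^ n = iotaR M A E (u : RE A E) := by
      rw [hu, _root_.map_mul, map_pow, mul_assoc, ← mul_pow, mul_inv_cancel₀ hw0, one_pow, mul_one]
    rw [h1]
    exact ⟨iotaR_mem_Rc _, (iotaR_inv_mem_Rc_iff _).mpr (Or.inr u.isUnit)⟩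
  · refine ⟨ℓ, hℓ, ?_, ?_⟩
    · obtain ⟨b, hb⟩ := hmax _ (natCast_mem_maximalIdeal_RE (E := E) hA)
      have h1 : ((ℓ : ℕ) : Om M) = iotaR M A E (b * ϖ) := by
        rw [← hb, map_natCast]
      rw [h1, hdiv]
      exact iotaR_mem_Rc b
    · intro y hy
      obtain ⟨r, rfl⟩ := mem_Rc_iff_exists_iotaR.mp hy
      obtain ⟨s, hs⟩ := exists_pow_sub_mem_maximalIdeal hℓ hA r
      obtain ⟨b, hb⟩ := hmax _ hs
      refine ⟨iotaR M A E s, iotaR_mem_Rc s, ?_⟩
      have h1 : iotaR M A E r - iotaR M A E s ^ ℓ = iotaR M A E (b * ϖ) := by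
        rw [← hb, _root_.map_sub, map_pow]
      rw [h1, hdiv]
      exact iotaR_mem_Rc b

end Fermat.Agent.S18.H576

end
end
-- ===== PACK-END S18/H576/Unif.lean

-- ===== PACK-BEGIN A2/Top/H994/Wall.lean
section



/-!
# WALL A2 — final assembly for ALL `q` (deputy helper994)

The MOD block can produce the semistable model `ModSSData P E N` only at levels `N` where the
good-reduction input at level `M = N / q` is available from S18: for `q = 3` this needs `2 ∣ N`,
for `q = 2` it needs `3 ∣ N` (Hauptmodul charts).  This file closes the wall for every level: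

* `t1_perN`            : `T1` for ONE level `N` (same proof as `T1.H669.t1`, which uses MOD only at
                         the level `N`);
* `ModSSGoodStatement` : `ModSSStatement` restricted to levels with the auxiliary prime;
* `D2Statement`        : descent of `KummerTarget` from the auxiliary level to `N` (norm trick,
                         degree `3` resp. `4`, prime to `m`; owners helper876 / helper133);
* `wall`               : `AlgSS → IF → ModSSGood → D2 → Target N q m` for all `q ‖ N`, `q ∤ m`.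
-/

set_option autoImplicit false
set_option synthInstance.maxHeartbeats 400000
set_option maxHeartbeats 1600000

noncomputable section

namespace Fermat.Agent.A2.Top.H994

open ModularCurve AlgebraicCurve Fermat.Agent.A2 Fermat.Agent.A2.T1.H669

/-- **T1 for one level.**  `ALG + IF + (MOD at the level N) ⟹ KummerTarget N q m`. -/
theorem t1_perN (hALG : AlgSSStatement) (hIF : IFStatement) (N q m : ℕ) (hq : q.Prime)
    (hm : 0 < m) (hqm : ¬ q ∣ m)
    (hMOD : ∀ (P : ValuationSubring _root_.Fermat.Agent.A2.Qb) (E : IntermediateField ℚ _root_.Fermat.Agent.A2.Qb),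
      P.LiesOverPrime q → GoodField P E → Nonempty (ModSSData P E N)) :
    KummerTarget N q m := by
  intro P hP τ hτ f hf hdiv
  refine kummer_of_levels (modularFunctionFieldFull N) m τ (fun S => ?_) f hf hdiv
  obtain ⟨E, hSE, hE⟩ := hIF q hq P hP S
  refine ⟨E, hSE, hE.res τ hτ, fun e => rfl, fun y hy0 hdd => ?_⟩
  obtain ⟨D⟩ := hMOD P E hP hE
  haveI : IsDiscreteValuationRing ↥(RE P E) := hE.dvr
  haveI : HenselianLocalRing ↥(RE P E) := hE.henselian
  haveI : IsAlgClosed (IsLocalRing.ResidueField ↥(RE P E)) := hE.algClosed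
  obtain ⟨w, hw⟩ := IsDiscreteValuationRing.exists_irreducible ↥(RE P E)
  obtain ⟨cf⟩ := D.cf w hw
  obtain ⟨ci⟩ := D.ci w hw
  have hconcl : AlgSSConclusion E m
      (arithmeticRingAut (modularFunctionFieldFull N) (hE.res τ hτ)) :=
    hALG (R := ↥(RE P E)) (E := E) (F := ↥(FE E N)) w hw q m hq
      (natCast_mem_maximalIdeal_RE E hP) hm hqm D.x D.hx D.hfin D.hconst D.Bf D.Bi D.hBf D.hBi
      cf ci D.sf D.si
      (arithmeticRingAut (modularFunctionFieldFull N) (hE.res τ hτ))
      (hE.res τ hτ).toRingEquiv (resR hE τ hτ)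
      (fun e => arithmeticRingAut_algebraMap (modularFunctionFieldFull N) (hE.res τ hτ) e)
      (fun r => rfl)
      (D.hτx hE τ hτ)
      (finite_order_arithmeticRingAut (modularFunctionFieldFull N) hE τ hτ)
      (D.hτf hE τ hτ w hw) (D.hτi hE τ hτ w hw)
  exact hconcl y hy0 hdd

/-- The auxiliary level: `lcm N 2` for `q = 3`, `lcm N 3` for `q = 2`, `N` otherwise. -/
def auxLevel (N q : ℕ) : ℕ :=
  if q = 3 then Nat.lcm N 2 else if q = 2 then Nat.lcm N 3 else N

/-- **MOD, producible form**: the semistable model at the levels `N` with `q ‖ N` which contain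
the auxiliary prime (`2 ∣ N` if `q = 3`, `3 ∣ N` if `q = 2`). -/
def ModSSGoodStatement : Prop :=
  ∀ (P : ValuationSubring _root_.Fermat.Agent.A2.Qb) (E : IntermediateField ℚ _root_.Fermat.Agent.A2.Qb) (N q : ℕ),
    q.Prime → q ∣ N → ¬ q ^ 2 ∣ N → N ≠ 0 → (q = 3 → 2 ∣ N) → (q = 2 → 3 ∣ N) →
    P.LiesOverPrime q → GoodField P E → Nonempty (ModSSData P E N)

/-- **D2, auxiliary-level descent** (norm trick; `[F_{aux} : F_N] ∈ {1, 3, 4}` is prime to `m`). -/
def D2Statement : Prop :=
  ∀ (N q m : ℕ), q.Prime → q ∣ N → ¬ q ^ 2 ∣ N → N ≠ 0 → 0 < m → ¬ q ∣ m →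
    KummerTarget (auxLevel N q) q m → KummerTarget N q m

theorem auxLevel_ne_zero {N : ℕ} (q : ℕ) (hN : N ≠ 0) : auxLevel N q ≠ 0 := by
  unfold auxLevel
  split_ifs
  · exact Nat.lcm_ne_zero hN (by norm_num)
  · exact Nat.lcm_ne_zero hN (by norm_num)
  · exact hN

theorem dvd_auxLevel (N q : ℕ) : N ∣ auxLevel N q := by
  unfold auxLevel
  split_ifs
  · exact Nat.dvd_lcm_left N 2
  · exact Nat.dvd_lcm_left N 3
  · exact dvd_rfl

theorem not_sq_dvd_lcm {N q a : ℕ} (hq : q.Prime) (ha : a.Prime) (hqa : q ≠ a)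
    (hq2 : ¬ q ^ 2 ∣ N) : ¬ q ^ 2 ∣ Nat.lcm N a := by
  intro h
  have hdvd : Nat.lcm N a ∣ N * a := Nat.lcm_dvd_mul N a
  have h1 : q ^ 2 ∣ N * a := h.trans hdvd
  have hcop : Nat.Coprime (q ^ 2) a := by
    apply Nat.Coprime.pow_left
    exact (Nat.coprime_primes hq ha).2 hqa
  exact hq2 (hcop.dvd_of_dvd_mul_right h1)

theorem not_sq_dvd_auxLevel {N q : ℕ} (hq : q.Prime) (hq2 : ¬ q ^ 2 ∣ N) :
    ¬ q ^ 2 ∣ auxLevel N q := by
  unfold auxLevel
  split_ifs with h3 h2
  · exact not_sq_dvd_lcm hq Nat.prime_two (by omega) hq2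
  · exact not_sq_dvd_lcm hq Nat.prime_three (by omega) hq2
  · exact hq2

theorem aux_two_dvd {N q : ℕ} (h : q = 3) : 2 ∣ auxLevel N q := by
  unfold auxLevel
  rw [if_pos h]
  exact Nat.dvd_lcm_right N 2

theorem aux_three_dvd {N q : ℕ} (h : q = 2) : 3 ∣ auxLevel N q := by
  unfold auxLevel
  rw [if_neg (by omega), if_pos h]
  exact Nat.dvd_lcm_right N 3

/-- **The Kummer form of the wall, all `q`.** -/
theorem kummerTarget_all (hALG : AlgSSStatement) (hIF : IFStatement)
    (hMOD : ModSSGoodStatement) (hD2 : D2Statement)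
    (N q m : ℕ) (hq : q.Prime) (hqN : q ∣ N) (hq2 : ¬ q ^ 2 ∣ N) (hN : N ≠ 0) (hm : 0 < m)
    (hqm : ¬ q ∣ m) : KummerTarget N q m := by
  apply hD2 N q m hq hqN hq2 hN hm hqm
  apply t1_perN hALG hIF (auxLevel N q) q m hq hm hqm
  intro P E hP hE
  exact hMOD P E (auxLevel N q) q hq (hqN.trans (dvd_auxLevel N q))
    (not_sq_dvd_auxLevel hq hq2) (auxLevel_ne_zero q hN) aux_two_dvd aux_three_dvd hP hE

/-- **The wall A2, all `q`**: unipotent inertia on `J₀(N)[m]` at every `q ‖ N`, `q ∤ m`. -/
theorem wall (hALG : AlgSSStatement) (hIF : IFStatement)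
    (hMOD : ModSSGoodStatement) (hD2 : D2Statement)
    (N q m : ℕ) (hq : q.Prime) (hqN : q ∣ N) (hq2 : ¬ q ^ 2 ∣ N) (hN : N ≠ 0) (hm : 0 < m)
    (hqm : ¬ q ∣ m) : Target N q m :=
  Fermat.Agent.A2.T0.H669.target_of_kummerTarget N q m hm
    (kummerTarget_all hALG hIF hMOD hD2 N q m hq hqN hq2 hN hm hqm)

end Fermat.Agent.A2.Top.H994

end

end
-- ===== PACK-END A2/Top/H994/Wall.lean

-- ===== PACK-BEGIN A2/Mod/H732/SepRed.lean
section



/-!
# WALL A2 / MODASM S4 (helper732), part 5: elementwise separability from a reduction relation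

Abstract.  `R` a discrete valuation ring with uniformiser `w` and perfect residue field `k`,
`F` a field over `R`, `V` a valuation subring of `F`, and `T ≤ F × k((t))` a subring
("`(g, ḡ) ∈ T` iff `ḡ` is a reduction of `g`"; no well-definedness is needed) such that
`(r, r̄) ∈ T` for `r ∈ R`, `(g, 0) ∈ T ⟹ v(g) < 1`, `(g, b) ∈ T, b ≠ 0 ⟹ v(g) = 1`.

* `eval₂_mem_graph`, `graph_eval` : polynomial expressions respect the relation;
* `exists_primitive_annihilator` : every `f` algebraic over `E(x)` is a root of some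
  `P ∈ R[X][Y]` with nonzero reduction;
* `exists_sep_poly_of_graph` : if `(x, x̄), (f, f̄) ∈ T`, `dx̄/dt ≠ 0` and `f` is a root of a
  primitive `P ∈ R[X][Y]`, then there is `Q ∈ R[X][Y]` with `v(Q(x, f)) < 1` and
  `v(Q_Y(x, f)) = 1` (the hypotheses `hs₁`, `hs₂` of `sepCoord_of_gauss`).
-/

set_option autoImplicit false
set_option linter.unusedSectionVars false
set_option linter.style.haveILetI false
set_option synthInstance.maxHeartbeats 400000
set_option maxHeartbeats 1600000

noncomputable section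

namespace Fermat.Agent.A2.Mod.H732

open Polynomial IsLocalRing

section Graph

variable {A B C : Type*} [CommRing A] [CommRing B] [CommRing C]

/-- polynomial expressions respect a relation which is a subring -/
theorem eval₂_mem_graph (T : Subring (B × C)) (φ : A →+* B) (ψ : A →+* C)
    (h : ∀ a, (φ a, ψ a) ∈ T) {y : B} {z : C} (hyz : (y, z) ∈ T) (Q : A[X]) :
    (Q.eval₂ φ y, Q.eval₂ ψ z) ∈ T := by
  have key : Q.eval₂ (φ.prod ψ) (y, z) = (Q.eval₂ φ y, Q.eval₂ ψ z) := by
    refine Prod.ext ?_ ?_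
    · have h1 := Polynomial.hom_eval₂ Q (φ.prod ψ) (RingHom.fst B C) (y, z)
      rw [RingHom.fst_comp_prod] at h1
      exact h1
    · have h1 := Polynomial.hom_eval₂ Q (φ.prod ψ) (RingHom.snd B C) (y, z)
      rw [RingHom.snd_comp_prod] at h1
      exact h1
  rw [← key, eval₂_eq_sum_range]
  exact sum_mem fun i _ => mul_mem (h _) (pow_mem hyz i)

end Graph

section Sep

variable {R F : Type*} [CommRing R] [IsLocalRing R] [Field F] [Algebra R F]

/-- constants: `R → k((t))` -/
def cres (R : Type*) [CommRing R] [IsLocalRing R] : R →+* LaurentSeries (ResidueField R) :=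
  (algebraMap (ResidueField R) (LaurentSeries (ResidueField R))).comp (residue R)

theorem cres_apply (r : R) :
    cres R r = algebraMap (ResidueField R) (LaurentSeries (ResidueField R)) (residue R r) := rfl

/-- bivariate polynomial expressions over `R` respect the relation -/
theorem graph_eval (T : Subring (F × LaurentSeries (ResidueField R)))
    (hR : ∀ r : R, (algebraMap R F r, cres R r) ∈ T)
    {x : F} {xb : LaurentSeries (ResidueField R)} (hx : (x, xb) ∈ T)
    {f : F} {fb : LaurentSeries (ResidueField R)} (hf : (f, fb) ∈ T) (Q : R[X][X]) :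
    (Q.eval₂ ((aeval x : R[X] →ₐ[R] F) : R[X] →+* F) f,
      (Q.map (mapRingHom (residue R))).eval₂
        ((aeval xb : (ResidueField R)[X] →ₐ[ResidueField R] LaurentSeries (ResidueField R)) :
          (ResidueField R)[X] →+* LaurentSeries (ResidueField R)) fb) ∈ T := by
  have hcomp : ((aeval xb :
      (ResidueField R)[X] →ₐ[ResidueField R] LaurentSeries (ResidueField R)) :
        (ResidueField R)[X] →+* LaurentSeries (ResidueField R)).comp (mapRingHom (residue R))
      = eval₂RingHom (cres R) xb := by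
    refine Polynomial.ringHom_ext (fun r => ?_) ?_
    · simp [cres]
    · simp
  rw [eval₂_map, hcomp]
  refine eval₂_mem_graph T _ _ (fun a => ?_) hf Q
  exact eval₂_mem_graph T (algebraMap R F) (cres R) hR hx a

/-- **Elementwise separability from a reduction relation.** -/
theorem exists_sep_poly_of_graph [PerfectField (ResidueField R)] (V : ValuationSubring F)
    (T : Subring (F × LaurentSeries (ResidueField R)))
    (hR : ∀ r : R, (algebraMap R F r, cres R r) ∈ T)
    (hker : ∀ g : F, (g, (0 : LaurentSeries (ResidueField R))) ∈ T → V.valuation g < 1)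
    (hunit : ∀ (g : F) (b : LaurentSeries (ResidueField R)), (g, b) ∈ T → b ≠ 0 →
      V.valuation g = 1)
    {x : F} {xb : LaurentSeries (ResidueField R)} (hx : (x, xb) ∈ T)
    (hdx : Fermat.Agent.S18.H602.dq xb ≠ 0)
    {f : F} {fb : LaurentSeries (ResidueField R)} (hf : (f, fb) ∈ T)
    (P : R[X][X]) (hP : P.map (mapRingHom (residue R)) ≠ 0)
    (hPf : P.eval₂ ((aeval x : R[X] →ₐ[R] F) : R[X] →+* F) f = 0) :
    ∃ Q : R[X][X],
      V.valuation (Q.eval₂ ((aeval x : R[X] →ₐ[R] F) : R[X] →+* F) f) < 1 ∧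
      V.valuation ((derivative Q).eval₂ ((aeval x : R[X] →ₐ[R] F) : R[X] →+* F) f) = 1 := by
  classical
  -- the reduction of `P` kills `f̄`
  have h0 : (P.map (mapRingHom (residue R))).eval₂
      ((aeval xb : (ResidueField R)[X] →ₐ[ResidueField R] LaurentSeries (ResidueField R)) :
        (ResidueField R)[X] →+* LaurentSeries (ResidueField R)) fb = 0 := by
    by_contra hne
    have h1 := graph_eval T hR hx hf P
    rw [hPf] at h1
    have h2 := hunit _ _ h1 hne
    rw [_root_.map_zero] at h2
    exact zero_ne_one h2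
  -- `x̄` is transcendental, hence `f̄` is algebraic over `k(x̄)`
  have htr : Transcendental (ResidueField R) xb :=
    Fermat.Agent.S18.H602.laurent_transcendental xb hdx
  have halg : IsAlgebraic (IntermediateField.adjoin (ResidueField R) ({xb} : Set _)) fb := by
    set ι : (ResidueField R)[X] →+* IntermediateField.adjoin (ResidueField R)
        ({xb} : Set (LaurentSeries (ResidueField R))) :=
      (aeval (R := ResidueField R)
        (IntermediateField.AdjoinSimple.gen (ResidueField R) xb)).toRingHom with hι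
    have hinj : Function.Injective ι := by
      have h1 : Transcendental (ResidueField R)
          (IntermediateField.AdjoinSimple.gen (ResidueField R) xb) := by
        intro h
        apply htr
        have := h.algebraMap (A := LaurentSeries (ResidueField R))
        simpa using this
      exact transcendental_iff_injective.mp h1
    refine ⟨(P.map (mapRingHom (residue R))).map ι, ?_, ?_⟩
    · rw [Ne, Polynomial.map_eq_zero_iff hinj]
      exact hP
    · have hc : (algebraMap (IntermediateField.adjoin (ResidueField R)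
          ({xb} : Set (LaurentSeries (ResidueField R)))) (LaurentSeries (ResidueField R))).comp ι
          = ((aeval xb : (ResidueField R)[X] →ₐ[ResidueField R]
              LaurentSeries (ResidueField R)) :
            (ResidueField R)[X] →+* LaurentSeries (ResidueField R)) := by
        refine Polynomial.ringHom_ext (fun r => ?_) ?_
        · simp [hι]
        · simp [hι]
      rw [aeval_def, eval₂_map, hc]
      exact h0
  obtain ⟨Pb, hb0, hb1⟩ := Fermat.Agent.S18.H602.laurent_exists_sep_poly xb hdx fb halg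
  obtain ⟨Q, hQ⟩ := Polynomial.map_surjective (mapRingHom (residue R))
    (Polynomial.map_surjective (residue R) residue_surjective) Pb
  refine ⟨Q, hker _ ?_, hunit _ _ (graph_eval T hR hx hf (derivative Q)) ?_⟩
  · have h1 := graph_eval T hR hx hf Q
    rw [hQ] at h1
    have h2 : eval₂ ((aeval xb : (ResidueField R)[X] →ₐ[ResidueField R]
        LaurentSeries (ResidueField R)) :
          (ResidueField R)[X] →+* LaurentSeries (ResidueField R)) fb Pb = 0 := hb0
    rw [h2] at h1
    exact h1
  · rw [← derivative_map, hQ]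
    exact hb1

end Sep

section Annihilator

variable {R E F : Type*} [CommRing R] [IsDomain R] [IsDiscreteValuationRing R]
  [Field E] [Algebra R E] [IsFractionRing R E]
  [Field F] [Algebra E F] [Algebra R F] [IsScalarTower R E F]

/-- every element algebraic over `E(x)` is a root of a bivariate polynomial over `R` with
nonzero reduction -/
theorem exists_primitive_annihilator {w : R} (hw : Irreducible w) {x : F}
    (hx : Transcendental E x) {f : F}
    (hf : IsAlgebraic (IntermediateField.adjoin E ({x} : Set F)) f) :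
    ∃ P : R[X][X], P.map (mapRingHom (residue R)) ≠ 0 ∧
      P.eval₂ ((aeval x : R[X] →ₐ[R] F) : R[X] →+* F) f = 0 := by
  classical
  letI algF : Algebra R[X] F := ((aeval x : R[X] →ₐ[R] F) : R[X] →+* F).toAlgebra
  letI algK : Algebra R[X] (IntermediateField.adjoin E ({x} : Set F)) :=
    (polyToAdjoin (E := E) x).toAlgebra
  haveI : IsScalarTower R[X] (IntermediateField.adjoin E ({x} : Set F)) F :=
    IsScalarTower.of_algebraMap_eq (fun P => rfl)
  haveI : IsFractionRing R[X] (IntermediateField.adjoin E ({x} : Set F)) :=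
    isFractionRing_adjoin hx
  have hf' : IsAlgebraic R[X] f :=
    (IsFractionRing.isAlgebraic_iff R[X] (IntermediateField.adjoin E ({x} : Set F)) F).mpr hf
  obtain ⟨P, hP0, hP⟩ := hf'
  have hirr : Irreducible (C (C w) : R[X][X]) :=
    (prime_C_iff.mpr (prime_C_iff.mpr hw.prime)).irreducible
  obtain ⟨n, P₀, hnd, hP₀⟩ := WfDvdMonoid.max_power_factor hP0 hirr
  have hwF : algebraMap R[X] F (C w) ≠ 0 := by
    show aeval x (C w) ≠ 0
    rw [aeval_C, IsScalarTower.algebraMap_apply R E F]
    intro h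
    have h1 := (_root_.map_eq_zero (algebraMap E F)).mp h
    exact hw.ne_zero ((_root_.map_eq_zero_iff _ (IsFractionRing.injective R E)).mp h1)
  refine ⟨P₀, ?_, ?_⟩
  · intro h0
    apply hnd
    rw [Polynomial.C_dvd_iff_dvd_coeff]
    intro i
    apply C_dvd_of_map_residue_eq_zero hw
    have := congrArg (fun q => q.coeff i) h0
    simpa using this
  · have h1 : aeval f P = (algebraMap R[X] F (C w)) ^ n * aeval f P₀ := by
      rw [hP₀, _root_.map_mul, _root_.map_pow, aeval_C]
    rw [hP] at h1
    rcases mul_eq_zero.mp h1.symm with h | h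
    · exact absurd h (pow_ne_zero n hwF)
    · exact h

end Annihilator

end Fermat.Agent.A2.Mod.H732

end
end
-- ===== PACK-END A2/Mod/H732/SepRed.lean

-- ===== PACK-BEGIN A2/H12/AlgLeaves.lean
section



/-!
# Cell A2 — route G: the leaves of ALG in the frozen language of `A2/Spec.lean` (helper12)

Definitions only, no `sorry`.  `SSCtx` bundles the data and hypotheses of
`Fermat.Agent.A2.AlgSSStatement` (the frozen ALG interface of the row-lead).  Each leaf is a `Prop`
of the form `∀ context, SSCtx … → conclusion`; the conclusions are those of `H12/GSpec.lean`.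
`H12/AlgSS.lean` proves `AlgSSStatement` from the seven leaves.

| leaf | conclusion |
|---|---|
| `BaseLeaf`   | the sheets of `F` exist, are `τ`-stable with `τ ≡ id` on the residue field, and are discrete with uniformiser `w` |
| `RootLeaf`   | `μ_m ⊆ R` fixed by `τ`, units of `R` are `m`-th powers |
| `SheetsLeaf` | `SheetsConclusion` for every Kummer-split cover |
| `RedLeaf`    | `RedConclusion` for every Kummer-split cover |
| `ConstLeaf`  | `ConstConclusion` for every Kummer-split cover |
| `CountLeaf`  | `CountConclusion` for every Kummer-split cover (the δ-count) |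
| `CoverLeaf`  | `CoverConclusion` for every split `g` with `m ∣ div g` |
-/

set_option autoImplicit false

namespace Fermat.Agent.A2.H12

open Fermat.Agent.A2

/-- The data and hypotheses of `AlgSSStatement`. -/
structure SSCtx {R E F : Type} [CommRing R] [IsDomain R] [IsDiscreteValuationRing R]
    [HenselianLocalRing R] [IsAlgClosed (IsLocalRing.ResidueField R)]
    [Field E] [CharZero E] [Algebra R E] [IsFractionRing R E]
    [Field F] [Algebra E F] [Algebra R F] [IsScalarTower R E F]
    (w : R) (q m : ℕ) (x : F) (Bf Bi : Subalgebra R F)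
    (τ : F ≃+* F) (τE : E ≃+* E) (τR : R ≃+* R) : Prop where
  irr : Irreducible w
  qprime : q.Prime
  qmem : (q : R) ∈ IsLocalRing.maximalIdeal R
  mpos : 0 < m
  qm : ¬ q ∣ m
  transc : Transcendental E x
  fin : FiniteDimensional (IntermediateField.adjoin E ({x} : Set F)) F
  const : ∀ f : F, IsAlgebraic E f → f ∈ (algebraMap E F).range
  hBf : ∀ f : F, f ∈ Bf ↔ IsIntegral (Algebra.adjoin R ({x} : Set F)) f
  hBi : ∀ f : F, f ∈ Bi ↔ IsIntegral (Algebra.adjoin R ({x⁻¹} : Set F)) f
  cf : Nonempty (SSChart w Bf)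
  ci : Nonempty (SSChart w Bi)
  sf : SepCoord R E x Bf
  si : SepCoord R E x⁻¹ Bi
  hτE : ∀ e : E, τ (algebraMap E F e) = algebraMap E F (τE e)
  hτR : ∀ r : R, τE (algebraMap R E r) = algebraMap R E (τR r)
  hτx : τ x = x
  hfo : ∃ r : ℕ, 0 < r ∧ ∀ f : F, (⇑τ)^[r] f = f
  hτf : ∀ b ∈ Bf, ∃ c ∈ Bf, τ b - b = algebraMap R F w * c
  hτi : ∀ b ∈ Bi, ∃ c ∈ Bi, τ b - b = algebraMap R F w * c

section Conclusions

variable {R F : Type} [CommRing R] [Field F] [Algebra R F]

/-- Conclusion of leaf **BASE**. -/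
structure BaseConclusion (w : R) (x : F) (τ : F ≃+* F) : Prop where
  exists_sheet : ∃ V : ValuationSubring F, IsSheet w x V
  stable : ∀ V : ValuationSubring F, IsSheet w x V → ∀ c : F,
    (c ∈ V ↔ τ c ∈ V) ∧ (c ∈ V → τ c - c ∈ V.nonunits)
  discrete : ∀ V : ValuationSubring F, IsSheet w x V → ∀ f : F, f ≠ 0 →
    ∃ (n : ℤ) (u : F), u ∈ V ∧ u⁻¹ ∈ V ∧ f = algebraMap R F w ^ n * u

/-- Conclusion of leaf **ROOT**. -/
structure RootConclusion (m : ℕ) (τR : R ≃+* R) : Prop where
  root : ∃ ζ : R, IsPrimitiveRoot ζ m ∧ τR ζ = ζ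
  unit_pow : ∀ c : R, IsUnit c → ∃ c₀ : R, c = c₀ ^ m

end Conclusions

/-- Leaf **BASE**. -/
def BaseLeaf : Prop :=
  ∀ {R E F : Type} [CommRing R] [IsDomain R] [IsDiscreteValuationRing R]
    [HenselianLocalRing R] [IsAlgClosed (IsLocalRing.ResidueField R)]
    [Field E] [CharZero E] [Algebra R E] [IsFractionRing R E]
    [Field F] [Algebra E F] [Algebra R F] [IsScalarTower R E F]
    (w : R) (q m : ℕ) (x : F) (Bf Bi : Subalgebra R F)
    (τ : F ≃+* F) (τE : E ≃+* E) (τR : R ≃+* R),
    SSCtx w q m x Bf Bi τ τE τR → BaseConclusion w x τ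

/-- Leaf **ROOT**. -/
def RootLeaf : Prop :=
  ∀ {R E F : Type} [CommRing R] [IsDomain R] [IsDiscreteValuationRing R]
    [HenselianLocalRing R] [IsAlgClosed (IsLocalRing.ResidueField R)]
    [Field E] [CharZero E] [Algebra R E] [IsFractionRing R E]
    [Field F] [Algebra E F] [Algebra R F] [IsScalarTower R E F]
    (w : R) (q m : ℕ) (x : F) (Bf Bi : Subalgebra R F)
    (τ : F ≃+* F) (τE : E ≃+* E) (τR : R ≃+* R),
    SSCtx w q m x Bf Bi τ τE τR → RootConclusion m τR

/-- Leaf **SHEETS**. -/
def SheetsLeaf : Prop :=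
  ∀ {R E F : Type} [CommRing R] [IsDomain R] [IsDiscreteValuationRing R]
    [HenselianLocalRing R] [IsAlgClosed (IsLocalRing.ResidueField R)]
    [Field E] [CharZero E] [Algebra R E] [IsFractionRing R E]
    [Field F] [Algebra E F] [Algebra R F] [IsScalarTower R E F]
    (w : R) (q m : ℕ) (x : F) (Bf Bi : Subalgebra R F)
    (τ : F ≃+* F) (τE : E ≃+* E) (τR : R ≃+* R),
    SSCtx w q m x Bf Bi τ τE τR →
    ∀ (L : Type) [Field L] [Algebra F L] [Algebra R L] [IsScalarTower R F L],
      IsKummerSplit L w x m → SheetsConclusion L w x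

/-- Leaf **RED**. -/
def RedLeaf : Prop :=
  ∀ {R E F : Type} [CommRing R] [IsDomain R] [IsDiscreteValuationRing R]
    [HenselianLocalRing R] [IsAlgClosed (IsLocalRing.ResidueField R)]
    [Field E] [CharZero E] [Algebra R E] [IsFractionRing R E]
    [Field F] [Algebra E F] [Algebra R F] [IsScalarTower R E F]
    (w : R) (q m : ℕ) (x : F) (Bf Bi : Subalgebra R F)
    (τ : F ≃+* F) (τE : E ≃+* E) (τR : R ≃+* R),
    SSCtx w q m x Bf Bi τ τE τR →
    ∀ (L : Type) [Field L] [Algebra F L] [Algebra R L] [IsScalarTower R F L],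
      IsKummerSplit L w x m → RedConclusion L w x

/-- Leaf **CONST**. -/
def ConstLeaf : Prop :=
  ∀ {R E F : Type} [CommRing R] [IsDomain R] [IsDiscreteValuationRing R]
    [HenselianLocalRing R] [IsAlgClosed (IsLocalRing.ResidueField R)]
    [Field E] [CharZero E] [Algebra R E] [IsFractionRing R E]
    [Field F] [Algebra E F] [Algebra R F] [IsScalarTower R E F]
    (w : R) (q m : ℕ) (x : F) (Bf Bi : Subalgebra R F)
    (τ : F ≃+* F) (τE : E ≃+* E) (τR : R ≃+* R),
    SSCtx w q m x Bf Bi τ τE τR →
    ∀ (L : Type) [Field L] [Algebra F L] [Algebra R L] [IsScalarTower R F L],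
      IsKummerSplit L w x m → ConstConclusion (R := R) L x

/-- Leaf **COUNT** (the δ-count). -/
def CountLeaf : Prop :=
  ∀ {R E F : Type} [CommRing R] [IsDomain R] [IsDiscreteValuationRing R]
    [HenselianLocalRing R] [IsAlgClosed (IsLocalRing.ResidueField R)]
    [Field E] [CharZero E] [Algebra R E] [IsFractionRing R E]
    [Field F] [Algebra E F] [Algebra R F] [IsScalarTower R E F]
    (w : R) (q m : ℕ) (x : F) (Bf Bi : Subalgebra R F)
    (τ : F ≃+* F) (τE : E ≃+* E) (τR : R ≃+* R),
    SSCtx w q m x Bf Bi τ τE τR →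
    ∀ (L : Type) [Field L] [Algebra F L] [Algebra R L] [IsScalarTower R F L],
      IsKummerSplit L w x m → CountConclusion L w x

/-- Leaf **COVER**. -/
def CoverLeaf : Prop :=
  ∀ {R E F : Type} [CommRing R] [IsDomain R] [IsDiscreteValuationRing R]
    [HenselianLocalRing R] [IsAlgClosed (IsLocalRing.ResidueField R)]
    [Field E] [CharZero E] [Algebra R E] [IsFractionRing R E]
    [Field F] [Algebra E F] [Algebra R F] [IsScalarTower R E F]
    (w : R) (q m : ℕ) (x : F) (Bf Bi : Subalgebra R F)
    (τ : F ≃+* F) (τE : E ≃+* E) (τR : R ≃+* R),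
    SSCtx w q m x Bf Bi τ τE τR →
    ∀ g : F, g ≠ 0 → HorDiv R m g →
      (∀ V : ValuationSubring F, IsSheet w x V → SplitAt m V g) →
      CoverConclusion w x m τ g

end Fermat.Agent.A2.H12

end
-- ===== PACK-END A2/H12/AlgLeaves.lean

-- ===== PACK-BEGIN A2/Mod/H872/PolyJ.lean
section




/-!
# A2 / MOD leaf L7 (helper872), part 3: polynomials in `j_d` as integral series

`L ⊇ ℚ` a field, `A` a valuation subring of `L`.  For a polynomial `p ∈ A[X]` the series
`p(j_d) = qExpand d (evalJ p) ∈ A((t))`; its image in `L((t))` and its reduction.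
-/

set_option autoImplicit false
set_option linter.unusedSectionVars false

noncomputable section

namespace Fermat.Agent.A2.Mod.H872

open ModularCurve HahnSeries Polynomial Fermat.Agent.A2.H708 Fermat.Agent.S37.H700

variable {L : Type*} [Field L] [Algebra ℚ L] (A : ValuationSubring L)

/-- `p(j_d)` as an `A`-integral series. -/
def polyJ (d : ℕ) [NeZero d] (p : Polynomial A) : LaurentSeries A :=
  qExpand A d (evalJ A p)

theorem incl_polyJ (d : ℕ) [NeZero d] (p : Polynomial A) :
    incl A (polyJ A d p) = qExpand L d (evalJ L (p.map A.subtype)) := by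
  unfold polyJ
  rw [coeffMap_qExpand, coeffMap_evalJ]

theorem red_polyJ (d : ℕ) [NeZero d] (p : Polynomial A) :
    red A (polyJ A d p) =
      qExpand (IsLocalRing.ResidueField A) d
        (evalJ (IsLocalRing.ResidueField A) (p.map (IsLocalRing.residue A))) := by
  unfold polyJ
  rw [coeffMap_qExpand, coeffMap_evalJ]

theorem red_polyJ_ne_zero (d : ℕ) [NeZero d] {p : Polynomial A}
    (hp : p.map (IsLocalRing.residue A) ≠ 0) : red A (polyJ A d p) ≠ 0 := by
  rw [red_polyJ]
  intro h
  have h1 : evalJ (IsLocalRing.ResidueField A) (p.map (IsLocalRing.residue A)) = 0 :=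
    qExpand_injective d (by rw [h, _root_.map_zero])
  exact hp ((evalJ_eq_zero_iff _).mp h1)

theorem polyJ_eq_zero_iff (d : ℕ) [NeZero d] (p : Polynomial A) :
    incl A (polyJ A d p) = 0 ↔ p = 0 := by
  rw [incl_polyJ]
  constructor
  · intro h
    have h1 : evalJ L (p.map A.subtype) = 0 := qExpand_injective d (by rw [h, _root_.map_zero])
    have h2 := (evalJ_eq_zero_iff L).mp h1
    exact Polynomial.map_injective A.subtype Subtype.val_injective (by rw [h2, Polynomial.map_zero])
  · rintro rfl
    rw [Polynomial.map_zero, evalJ_zero, _root_.map_zero]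

/-- In a discrete valuation ring with uniformiser `w`: a polynomial with zero reduction is
divisible by `w`. -/
theorem C_dvd_of_map_residue_eq_zero [IsDiscreteValuationRing A] {w : A} (hw : Irreducible w)
    {p : Polynomial A} (hp : p.map (IsLocalRing.residue A) = 0) : Polynomial.C w ∣ p := by
  rw [Polynomial.C_dvd_iff_dvd_coeff]
  intro i
  have h1 : IsLocalRing.residue A (p.coeff i) = 0 := by
    have := congrArg (fun r => Polynomial.coeff r i) hp
    simpa [Polynomial.coeff_map] using this
  rw [IsLocalRing.residue_eq_zero_iff, hw.maximalIdeal_eq, Ideal.mem_span_singleton] at h1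
  exact h1

theorem map_residue_ne_zero_of_not_C_dvd [IsDiscreteValuationRing A] {w : A}
    (hw : Irreducible w) {p : Polynomial A} (hp : ¬ Polynomial.C w ∣ p) :
    p.map (IsLocalRing.residue A) ≠ 0 :=
  fun h => hp (C_dvd_of_map_residue_eq_zero A hw h)

/-- The generator `j_d` as a series over `L`. -/
theorem coeffEmb_qExpand_jq (d : ℕ) [NeZero d] :
    coeffEmb L (qExpand ℚ d jq) = qExpand L d (jqModC L) := by
  rw [coeffEmb, coeffMap_qExpand, ← jqModC_rat, coeffMap_jqModC]

/-- Evaluation of `p ∈ A[X]` at an element `x` of a subfield `F ⊆ L((t))` whose series is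
`j_d`, read in `L((t))`. -/
theorem coe_eval₂_eq_incl_polyJ (F : IntermediateField L (LaurentSeries L)) (d : ℕ) [NeZero d]
    {x : F} (hx : (x : LaurentSeries L) = qExpand L d (jqModC L)) (p : Polynomial A) :
    ((p.eval₂ ((algebraMap L F).comp A.subtype) x : F) : LaurentSeries L) =
      incl A (polyJ A d p) := by
  rw [incl_polyJ]
  have h1 : ((p.eval₂ ((algebraMap L F).comp A.subtype) x : F) : LaurentSeries L) =
      p.eval₂ (F.val.toRingHom.comp ((algebraMap L F).comp A.subtype)) (F.val x) :=
    Polynomial.hom_eval₂ p _ F.val.toRingHom x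
  rw [h1]
  unfold evalJ
  rw [Polynomial.hom_eval₂, Polynomial.eval₂_map]
  have hx' : F.val x = qExpand L d (jqModC L) := hx
  rw [hx']
  congr 1
  ext r : 1
  show algebraMap L (LaurentSeries L) (r : L) = qExpand L d (HahnSeries.C (r : L))
  rw [qExpand_C, algebraMap_laurentSeries_eq_single]
  rfl

end Fermat.Agent.A2.Mod.H872

end
end
-- ===== PACK-END A2/Mod/H872/PolyJ.lean

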