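import Mathlib
import Fermat.Prelude.Def_GroupCohomology_ContinuousUnramified
import Fermat.Prelude.Def_FLTPrelim_Ramification
import Fermat.Prelude.Def_ModularCurve_ArithmeticGalois
import Fermat.Prelude.Def_ModularCurve_X0ModL
import Fermat.Agent.Pack.S33.E13L1
import Fermat.Agent.Pack.S33.E13L0
import Fermat.Agent.Pack.S33.E12L0
import Fermat.Agent.Pack.S33.E4L0
import Fermat.Agent.Pack.S33.E13L2
import Fermat.Agent.Pack.S33.E0L3
import Fermat.Agent.Pack.S33.E10L3
import Fermat.Agent.Pack.S33.E11L3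
import Fermat.Agent.Pack.S33.E12L1
import Fermat.Agent.Pack.S33.E12L3
import Fermat.Agent.Pack.S33.E6L1
import Fermat.Agent.Pack.S33.E2L2
import Fermat.Agent.Pack.S33.E3L3
import Fermat.Agent.Pack.S33.E13L3
import Fermat.Agent.Pack.S33.E9L0
import Fermat.Agent.Pack.S33.E6L0
import Fermat.Agent.Pack.S33.E3L0

-- ===== PACK-BEGIN Lib/NormL/Orb.lean
section



/-!
# `NormL`, piece ORB (helper941): sums over elements vs sums over principal ideals

`elemSum K χ ε A s = torsionOrder K * prinL K χ A s` for `ε = decide (χ (-1) = -1)` and `s > 1`.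

The weight `χ(N x) sign(N x)^ε` only depends on `|N x| = N((x))`, hence is constant on the orbits
of the units; the orbit sums of `rho` are `torsionOrder K` (helper74, `hasSum_rho_unit_smul`).
-/

namespace Fermat.Agent.Lib.NormL

open NumberField NumberField.mixedEmbedding NumberField.Units Fermat.Agent.S14.H74
open scoped nonZeroDivisors Classical

/-- The sign-twisted character value only depends on `|n|`. -/
theorem orb941_char_sign {m : ℕ} (χ : DirichletCharacter ℂ m) {n : ℤ} (hn : n ≠ 0) :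
    χ ((n : ℤ) : ZMod m) *
        (((if decide (χ (-1) = -1) = true then ((n.sign : ℤ) : ℝ) else 1 : ℝ)) : ℂ) =
      χ ((n.natAbs : ℕ) : ZMod m) := by
  have hsq : χ (-1) * χ (-1) = 1 := by
    rw [← map_mul]
    simp
  have h11 : χ (-1) = 1 ∨ χ (-1) = -1 := mul_self_eq_one_iff.mp hsq
  rcases lt_or_gt_of_ne hn with h | h
  · have hs : n.sign = -1 := Int.sign_eq_neg_one_of_neg h
    have hn' : ((n : ℤ) : ZMod m) = -1 * ((n.natAbs : ℕ) : ZMod m) := by
      have h0 : n = -((n.natAbs : ℕ) : ℤ) := by omega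
      calc ((n : ℤ) : ZMod m) = ((-((n.natAbs : ℕ) : ℤ) : ℤ) : ZMod m) := by rw [← h0]
        _ = -1 * ((n.natAbs : ℕ) : ZMod m) := by
          rw [Int.cast_neg, Int.cast_natCast, neg_one_mul]
    rw [hn', map_mul, hs]
    by_cases hε : χ (-1) = -1
    · rw [hε]
      simp
    · have h1 : χ (-1) = 1 := h11.resolve_right hε
      rw [h1]
      have h2 : ¬ ((1 : ℂ) = -1) := by norm_num
      simp [h2]
  · have hs : n.sign = 1 := Int.sign_eq_one_of_pos h
    have hn' : ((n : ℤ) : ZMod m) = ((n.natAbs : ℕ) : ZMod m) := by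
      have h0 : n = ((n.natAbs : ℕ) : ℤ) := by omega
      calc ((n : ℤ) : ZMod m) = ((((n.natAbs : ℕ) : ℤ) : ℤ) : ZMod m) := by rw [← h0]
        _ = ((n.natAbs : ℕ) : ZMod m) := Int.cast_natCast _
    rw [hn', hs]
    by_cases hε : χ (-1) = -1 <;> simp [hε]

variable (K : Type*) [Field K] [NumberField K]

/-- The summand of `elemSum` in terms of the ideal generated by `x`. -/
theorem orb941_term_eq {m : ℕ} (χ : DirichletCharacter ℂ m) (s : ℝ) (x : 𝓞 K) :
    χ ((Algebra.norm ℤ (x : 𝓞 K) : ℤ) : ZMod m) *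
        ((GS K (decide (χ (-1) = -1)) s x : ℝ) : ℂ) =
      χ ((Ideal.absNorm (Ideal.span {x}) : ℕ) : ZMod m) * ((FS K s x : ℝ) : ℂ) := by
  by_cases hx : x = 0
  · subst hx
    simp [GS, FS_zero]
  · have hN : Algebra.norm ℤ x ≠ 0 := by
      rwa [Ne, Algebra.norm_eq_zero_iff]
    rw [Ideal.absNorm_span_singleton, ← orb941_char_sign χ hN]
    unfold GS
    push_cast
    ring

variable {K} in
/-- `PJ A` (helper74) against the index type of `prinL`. -/
noncomputable def orb941_equiv (A : Ideal (𝓞 K)) :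
    PJ A ≃ {I : (Ideal (𝓞 K))⁰ // (I : Ideal (𝓞 K)).IsPrincipal ∧ A ∣ (I : Ideal (𝓞 K))} where
  toFun I := ⟨⟨I.1, mem_nonZeroDivisors_iff_ne_zero.mpr I.2.1⟩, I.2.2.1,
    Ideal.dvd_iff_le.mpr I.2.2.2⟩
  invFun I := ⟨I.1.1, nonZeroDivisors.coe_ne_zero I.1, I.2.1, Ideal.dvd_iff_le.mp I.2.2⟩
  left_inv _ := rfl
  right_inv _ := rfl

/-- **ORB**: the sum over elements is `torsionOrder` times the sum over principal ideals. -/
theorem elemSum_eq_torsionOrder_mul_prinL {m : ℕ} (χ : DirichletCharacter ℂ m)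
    (A : (Ideal (𝓞 K))⁰) {s : ℝ} (hs : 1 < s) :
    elemSum K χ (decide (χ (-1) = -1)) (A : Ideal (𝓞 K)) s =
      (Units.torsionOrder K : ℂ) * prinL K χ (A : Ideal (𝓞 K)) s := by
  set J : Ideal (𝓞 K) := (A : Ideal (𝓞 K)) with hJ
  set T : 𝓞 K → ℂ := fun x ↦
    χ ((Ideal.absNorm (Ideal.span {x}) : ℕ) : ZMod m) * ((FS K s x : ℝ) : ℂ) with hT
  have hT0 : T 0 = 0 := by simp [hT, FS_zero]
  have hTn : ∀ x, ‖T x‖ ≤ FS K s x := by
    intro x
    simp only [hT]
    rw [norm_mul, Complex.norm_real, Real.norm_of_nonneg (FS_nonneg s x)]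
    exact mul_le_of_le_one_left (FS_nonneg s x) (DirichletCharacter.norm_le_one χ _)
  have hsumF := summable_FS (K := K) hs
  have hsumT : Summable T := Summable.of_norm_bounded hsumF hTn
  have h1 : elemSum K χ (decide (χ (-1) = -1)) J s = ∑' x : J, T (x : 𝓞 K) := by
    unfold elemSum
    exact tsum_congr fun x ↦ orb941_term_eq K χ s x
  rw [h1]
  have h2 : ∑' x : J, T (x : 𝓞 K) = ∑' y : {y : 𝓞 K // y ∈ J ∧ y ≠ 0}, T (y : 𝓞 K) := by
    have e1 := tsum_subtype (J : Set (𝓞 K)) T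
    have e2 := tsum_subtype ({y : 𝓞 K | y ∈ J ∧ y ≠ 0}) T
    have e3 : (J : Set (𝓞 K)).indicator T = ({y : 𝓞 K | y ∈ J ∧ y ≠ 0}).indicator T := by
      funext y
      by_cases hy : y = 0
      · subst hy
        simp [Set.indicator, hT0]
      · simp [Set.indicator, hy]
    calc ∑' x : J, T (x : 𝓞 K) = ∑' y, (J : Set (𝓞 K)).indicator T y := e1
      _ = ∑' y, ({y : 𝓞 K | y ∈ J ∧ y ≠ 0}).indicator T y := by rw [e3]
      _ = _ := e2.symm
  rw [h2]
  have hsum0 : Summable fun y : {y : 𝓞 K // y ∈ J ∧ y ≠ 0} ↦ T (y : 𝓞 K) :=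
    hsumT.comp_injective Subtype.val_injective
  set c : PJ J → ℂ := fun I ↦
    χ ((Ideal.absNorm I.1 : ℕ) : ZMod m) * (((Ideal.absNorm I.1 : ℝ) ^ (-s) : ℝ) : ℂ) with hc
  set G : PJ J × (𝓞 K)ˣ → ℂ := fun p ↦
    c p.1 * ((rho K (p.2 • mixedEmbedding K (pjGen p.1 : K)) : ℝ) : ℂ) with hG
  have hcomp : (fun y : {y : 𝓞 K // y ∈ J ∧ y ≠ 0} ↦ T (y : 𝓞 K)) ∘ orbitEquiv J = G := by
    funext p
    simp only [Function.comp_apply, orbitEquiv_apply, hG, hT, hc]
    rw [FS_unit_mul s p.2 p.1, span_unit_mul, span_pjGen]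
    push_cast
    ring
  have hsumG : Summable G := by
    rw [← hcomp]
    exact (orbitEquiv J).summable_iff.mpr hsum0
  have hfib : ∀ I : PJ J, HasSum (fun u : (𝓞 K)ˣ ↦ G (I, u))
      (c I * (torsionOrder K : ℂ)) := by
    intro I
    have hN : mixedEmbedding.norm (mixedEmbedding K (pjGen I : K)) ≠ 0 := by
      rw [norm_pjGen]
      have : Ideal.absNorm I.1 ≠ 0 := by
        rw [Ne, Ideal.absNorm_eq_zero_iff]
        exact I.2.1
      exact_mod_cast this
    have h := hasSum_rho_unit_smul hN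
    have h' : HasSum (fun u : (𝓞 K)ˣ ↦
        ((rho K (u • mixedEmbedding K (pjGen I : K)) : ℝ) : ℂ)) (((torsionOrder K : ℝ)) : ℂ) :=
      Complex.hasSum_ofReal.mpr h
    have h'' := h'.mul_left (c I)
    simpa [hG] using h''
  have hre : ∑' I : PJ J, c I = prinL K χ J s := by
    unfold prinL
    exact (orb941_equiv J).tsum_eq (fun I ↦
      χ ((Ideal.absNorm (I.1 : Ideal (𝓞 K)) : ℕ) : ZMod m) *
        (((Ideal.absNorm (I.1 : Ideal (𝓞 K)) : ℝ) ^ (-s) : ℝ) : ℂ))
  calc ∑' y : {y : 𝓞 K // y ∈ J ∧ y ≠ 0}, T (y : 𝓞 K)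
      = ∑' p : PJ J × (𝓞 K)ˣ, G p := by
        rw [← hcomp]
        exact ((orbitEquiv J).tsum_eq _).symm
    _ = ∑' I : PJ J, ∑' u : (𝓞 K)ˣ, G (I, u) := hsumG.tsum_prod' fun I ↦ (hfib I).summable
    _ = ∑' I : PJ J, c I * (torsionOrder K : ℂ) := tsum_congr fun I ↦ (hfib I).tsum_eq
    _ = (∑' I : PJ J, c I) * (torsionOrder K : ℂ) := tsum_mul_right
    _ = _ := by rw [hre, mul_comm]

end Fermat.Agent.Lib.NormL

end
-- ===== PACK-END Lib/NormL/Orb.lean

-- ===== PACK-BEGIN S32/H692/Rel.lean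
section
/-
Row S32 (flat at `p`), piece REL (helper692) — unconditional form.

`rel : Fermat.Agent.S32.RelStatement` (exact Prop of `Fermat/Agent/S32/Spec.lean`), from
`RelCore.rel_of_chebWeak` and Tier 1 of the shared CHEB library (`Lib.Cheb.frobeniusDivision`).
-/




set_option autoImplicit false

namespace Fermat.Agent.S32.H692

/-- **REL.**  At a local point `P` of the coefficient ring of a datum, every element of `G_ℚ`
satisfies on the eigenmodule of `P.χ ∘ π` the characteristic polynomial of `H.ρ`. -/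
theorem rel : Fermat.Agent.S32.RelStatement :=
  rel_of_chebWeak
    (Fermat.Agent.S30.H990.chebWeak_of_frobeniusDivision Fermat.Agent.Lib.Cheb.frobeniusDivision)

end Fermat.Agent.S32.H692

end
-- ===== PACK-END S32/H692/Rel.lean

-- ===== PACK-BEGIN S31/H862/SelfAdjoint.lean
section




/-!
# S31 / SS (helper862) — `T_p` (`p ∤ N`) is self-adjoint for the Petersson pairing
-/

set_option autoImplicit false

open UpperHalfPlane CongruenceSubgroup MeasureTheory Matrix.SpecialLinearGroup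
open scoped MatrixGroups ModularForm ComplexConjugate

open P2MW.S_ModularForm_heckeT_slash_eq_self_of_mem_Gamma0.ModularForm.HeckeSlashInvariance

namespace Fermat.Agent.S31.H862

/-- `HasSum` over a product with a finite second factor, from `HasSum` on each fibre. -/
theorem hasSum_prod_of_fintype {α β M : Type*} [Fintype β] [AddCommMonoid M]
    [TopologicalSpace M] [ContinuousAdd M] {f : α × β → M} {a : β → M}
    (h : ∀ b, HasSum (fun x => f (x, b)) (a b)) : HasSum f (∑ b, a b) := by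
  classical
  have h1 : ∀ b : β, HasSum (fun y : α × β => if y.2 = b then f y else 0) (a b) := by
    intro b
    have hinj : Function.Injective (fun x : α => ((x, b) : α × β)) := fun x x' hxx' => by
      simpa using hxx'
    have := (hinj.hasSum_iff (f := fun y : α × β => if y.2 = b then f y else 0) (a := a b)
      (by
        rintro ⟨x, b'⟩ hy
        have hb : b' ≠ b := by
          rintro rfl
          exact hy ⟨x, rfl⟩
        simp [hb])).mp
    apply this
    simpa [Function.comp_def] using h b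
  have h2 := hasSum_sum (s := Finset.univ) fun b _ => h1 b
  have h3 : (fun y : α × β => ∑ i : β, if y.2 = i then f y else 0) = f := by
    funext y
    rw [Finset.sum_ite_eq]
    simp
  rwa [h3] at h2

section

variable {p : ℕ} [Fact p.Prime]

theorem scalarP_smul (z : ℍ) : scalarP p • z = z := by
  rw [scalarP]
  exact glScalar_smul _ z

theorem slash_scalarP (g : ℍ → ℂ) : g ∣[(2 : ℤ)] scalarP p = g := by
  funext z
  have hp : (p : ℝ) ≠ 0 := Nat.cast_ne_zero.mpr (Fact.out : p.Prime).ne_zero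
  have hpc : (p : ℂ) ≠ 0 := Nat.cast_ne_zero.mpr (Fact.out : p.Prime).ne_zero
  have hdet : (scalarP p).det.val = (p : ℝ) ^ 2 := by
    rw [scalarP, Matrix.GeneralLinearGroup.det_scalar]
    simp
  have hσ : σ (scalarP p) = ContinuousAlgEquiv.refl ℝ ℂ := by
    rw [σ, if_pos (by rw [hdet]; positivity)]
  have hden : denom (scalarP p) z = (p : ℂ) := by
    rw [scalarP, denom_scalar]
    simp
  rw [slash_two_apply, scalarP_smul, hσ, hdet, hden]
  simp only [ContinuousAlgEquiv.refl_apply]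
  rw [abs_of_pos (by positivity)]
  push_cast
  field_simp

end

section

variable {N : ℕ} [NeZero N]

theorem cusp_slash_mapGL (g : CuspForm (Gamma0 N) 2) (γ : Gamma0 N) :
    (g : ℍ → ℂ) ∣[(2 : ℤ)] (mapGL ℝ (γ : SL(2, ℤ))) = g :=
  SlashInvariantFormClass.slash_action_eq g _ (Subgroup.mem_map_of_mem (mapGL ℝ) γ.2)

theorem nice_cusp (g : CuspForm (Gamma0 N) 2) : Nice (g : ℍ → ℂ) := nice_cuspForm g

variable {p : ℕ} [Fact p.Prime]

/-- `⟨f, T_p g⟩` as an unfolded sum over the double coset. -/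
theorem hasSum_kern_cosets (f g : CuspForm (Gamma0 N) 2) :
    HasSum (fun y : Gamma0 N × OnePoint (ZMod p) => kern N f g (cosetMap p N y))
      (pet N f (ModularForm.heckeT 2 p g)) := by
  haveI : NeZero p := ⟨(Fact.out : p.Prime).ne_zero⟩
  have h1 : pet N f (ModularForm.heckeT 2 p g) =
      ∑ x : OnePoint (ZMod p), pet N f ((g : ℍ → ℂ) ∣[(2 : ℤ)] heckeRep p x) := by
    rw [heckeT_eq_sum_onePoint]
    exact pint_sum_right (integrable_wt N) Finset.univ (nice_cusp f)
      fun x _ => (nice_cusp g).slash _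
  rw [h1]
  exact hasSum_prod_of_fintype fun x =>
    hasSum_kern N (nice_cusp f) (nice_cusp g) (cusp_slash_mapGL g) (heckeRep p x)

/-- **Self-adjointness of `T_p`, `p ∤ N`** (function level). -/
theorem pet_heckeT_comm (hpN : ¬ p ∣ N) (f g : CuspForm (Gamma0 N) 2) :
    pet N (ModularForm.heckeT 2 p f) g = pet N f (ModularForm.heckeT 2 p g) := by
  have hA := hasSum_kern_cosets (p := p) f g
  have hB := hasSum_kern_cosets (p := p) g f
  have hB' : HasSum (fun y : Gamma0 N × OnePoint (ZMod p) => conj (kern N g f (cosetMap p N y)))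
      (conj (pet N g (ModularForm.heckeT 2 p f))) :=
    hB.map (starRingEnd ℂ) Complex.continuous_conj
  rw [pet_conj] at hB'
  have hkey : ∀ y : Gamma0 N × OnePoint (ZMod p),
      conj (kern N g f (cosetMap p N y)) = kern N f g (cosetMap p N (adjPerm hpN y)) := by
    intro y
    refine conj_kern N _ _ (det_cosetMap_pos y) (fun z => ?_) ?_
    · rw [← mul_smul, adjPerm_apply, adjFun_spec, scalarP_smul]
    · rw [← SlashAction.slash_mul, adjPerm_apply, adjFun_spec, slash_scalarP]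
  simp only [hkey] at hB'
  have hB'' := (Equiv.hasSum_iff (adjPerm (N := N) (p := p) hpN)
    (f := fun y => kern N f g (cosetMap p N y))).mp hB'
  exact hB''.unique hA

end

end Fermat.Agent.S31.H862

end
-- ===== PACK-END S31/H862/SelfAdjoint.lean

-- ===== PACK-BEGIN S29/H882/GoodQ.lean
section


/-!
# S29 / MERO (helper882), part 1: `q`-expansions of good functions

`goodQ N` is the `ℂ`-subalgebra of `ℂ((q))` of `q`-expansions of the functions in the landed
`S24.H648.goodRing N` (holomorphic, `Γ₀(N)`-invariant, all `SL₂(ℤ)`-translates of at most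
exponential growth at `i∞`).  Every element of `goodQ N` is a root of a monic polynomial of degree
`[SL₂(ℤ) : Γ₀(N)]` over `ℂ[j]`.
-/

set_option autoImplicit false

noncomputable section

open UpperHalfPlane ModularGroup CongruenceSubgroup Polynomial ModularCurve
open scoped MatrixGroups Manifold Modular Real

namespace Fermat.Agent.S29.H882

open Fermat.Agent.S24 Fermat.Agent.S24.H648 Fermat.Agent.S24.H708 Fermat.Agent.S24.Deg457

variable (N : ℕ)

theorem T_mem_Gamma0 : ModularGroup.T ∈ Gamma0 N := by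
  rw [Gamma0_mem]
  simp [ModularGroup.T]

variable {N}

/-- A `Γ₀(N)`-invariant function is `1`-periodic. -/
theorem periodic_of_invariant {f : ℍ → ℂ} (hf : ∀ γ ∈ Gamma0 N, ∀ τ : ℍ, f (γ • τ) = f τ) :
    Function.Periodic (f ∘ ofComplex) (1 : ℝ) := by
  intro w
  by_cases hw : 0 < Complex.im w
  · have hw' : 0 < Complex.im (w + ((1 : ℝ) : ℂ)) := by simpa using hw
    simp only [Function.comp_apply, ofComplex_apply_of_im_pos hw', ofComplex_apply_of_im_pos hw]
    have h := hf _ (T_mem_Gamma0 N) ⟨w, hw⟩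
    rw [← h]
    congr 1
    apply UpperHalfPlane.ext
    rw [UpperHalfPlane.modular_T_smul, UpperHalfPlane.coe_vadd]
    simp [add_comm]
  · have hw0 : Complex.im w ≤ 0 := not_lt.mp hw
    have hw' : Complex.im (w + ((1 : ℝ) : ℂ)) ≤ 0 := by simpa using hw0
    simp only [Function.comp_apply]
    rw [ofComplex_apply_of_im_nonpos hw', ofComplex_apply_of_im_nonpos hw0]

/-- Exponential growth gives a pole of finite order at `i∞`. -/
theorem isBounded_mul_qh_pow_of_expGrowth {f : ℍ → ℂ} (hf : ExpGrowth f) :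
    ∃ M : ℕ, IsBoundedAtImInfty (f * qh 1 ^ M) := by
  obtain ⟨C, m, h⟩ := hf
  refine ⟨m, ?_⟩
  rw [UpperHalfPlane.isBoundedAtImInfty_iff]
  refine ⟨C, 1, fun τ hτ => ?_⟩
  have h1 := h τ hτ
  have hq : ‖qh 1 τ‖ = Real.exp (-2 * π * τ.im) := by
    rw [qh_apply, Function.Periodic.norm_qParam]
    simp
  rw [Pi.mul_apply, Pi.pow_apply, norm_mul, norm_pow, hq, ← Real.exp_nat_mul]
  calc ‖f τ‖ * Real.exp (m * (-2 * π * τ.im))
      ≤ C * Real.exp (2 * π * m * τ.im) * Real.exp (m * (-2 * π * τ.im)) :=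
        mul_le_mul_of_nonneg_right h1 (Real.exp_pos _).le
    _ = C := by
        rw [mul_assoc, ← Real.exp_add]
        have : 2 * π * m * τ.im + m * (-2 * π * τ.im) = 0 := by ring
        rw [this, Real.exp_zero, mul_one]

theorem isMerInf_of_mem_goodRing {f : ℍ → ℂ} (hf : f ∈ goodRing N) : IsMerInf 1 f := by
  obtain ⟨h1, h2, h3⟩ := hf
  refine ⟨h1, ?_, ?_⟩
  · have := periodic_of_invariant h2
    simpa using this
  · have h := h3 1
    simp only [one_smul] at h
    exact isBounded_mul_qh_pow_of_expGrowth h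

theorem hasQExp_of_mem_goodRing {f : ℍ → ℂ} (hf : f ∈ goodRing N) :
    HasQExp 1 f (qexpFun 1 f) :=
  HasQExp.of_isMerInf (isMerInf_of_mem_goodRing hf)

variable (N)

/-- The algebra of `q`-expansions of good functions of level `N`. -/
def goodQ : Subalgebra ℂ (LaurentSeries ℂ) where
  carrier := {b | ∃ f ∈ goodRing N, HasQExp 1 f b}
  mul_mem' := by
    rintro a b ⟨f, hf, hfa⟩ ⟨g, hg, hgb⟩
    exact ⟨f * g, (goodRing N).mul_mem hf hg, hfa.mul hgb⟩
  add_mem' := by
    rintro a b ⟨f, hf, hfa⟩ ⟨g, hg, hgb⟩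
    exact ⟨f + g, (goodRing N).add_mem hf hg, hfa.add hgb⟩
  algebraMap_mem' := fun c => by
    refine ⟨fun _ => c, (goodRing N).algebraMap_mem c, ?_⟩
    have : algebraMap ℂ (LaurentSeries ℂ) c = HahnSeries.C c := by
      rw [algebraMap_laurentSeries_eq_single]; rfl
    rw [this]
    exact HasQExp.const 1 c

variable {N}

theorem mem_goodQ {b : LaurentSeries ℂ} :
    b ∈ goodQ N ↔ ∃ f ∈ goodRing N, HasQExp 1 f b := Iff.rfl

theorem qexpFun_mem_goodQ {f : ℍ → ℂ} (hf : f ∈ goodRing N) : qexpFun 1 f ∈ goodQ N :=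
  ⟨f, hf, hasQExp_of_mem_goodRing hf⟩

variable (N) in
theorem AK_le_goodQ [NeZero N] : AK ℂ N ≤ goodQ N := by
  intro b hb
  have hJ : ∃ C : ℝ, ∀ τ : ℍ, τ ∈ 𝒟 → ‖JFun.jFun τ‖ ≤ C * Real.exp (2 * π * τ.im) := by
    rw [jFun_eq_H648]
    exact Fermat.Agent.S24.H648.jFun_bound_fd
  exact exists_goodRing_hasQExp N hJ hb

variable (N) in
theorem JK_mem_goodQ [NeZero N] : JK ℂ ∈ goodQ N := AK_le_goodQ N (JK_mem_AK ℂ N)

/-- Every `q`-expansion of a good function is a root of a monic polynomial of degree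
`[SL₂(ℤ) : Γ₀(N)]` over `ℂ[j]`. -/
theorem exists_monic_of_mem_goodQ [NeZero N] {b : LaurentSeries ℂ} (hb : b ∈ goodQ N) :
    ∃ P : ℂ[X][X], P.Monic ∧ P.natDegree = Nat.card (XX N) ∧
      P.eval₂ (evJ (JK ℂ)) b = 0 := by
  obtain ⟨f, hf, hfb⟩ := hb
  haveI : Finite (SL(2, ℤ) ⧸ Gamma0 N) := inferInstanceAs (Finite (XX N))
  letI : Fintype (SL(2, ℤ) ⧸ Gamma0 N) := Fintype.ofFinite _
  obtain ⟨P, hPm, hPn, hP⟩ := exists_charPoly_jFun_eval_eq_zero (N := N) hf
  refine ⟨P, hPm, ?_, ?_⟩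
  · rw [hPn, Nat.card_eq_fintype_card]
  · have h1 := hasQExp_eval₂ P hfb
    rw [h1.eq_zero_iff]
    funext τ
    exact hP τ

theorem algDeg_of_mem_goodQ [NeZero N] {b : LaurentSeries ℂ} (hb : b ∈ goodQ N) :
    AlgDeg ℂ (Nat.card (XX N)) b := by
  obtain ⟨P, hPm, hPn, hP⟩ := exists_monic_of_mem_goodQ hb
  exact ⟨P, hPm.ne_zero, hPn.le, hP⟩

end Fermat.Agent.S29.H882

end
end
-- ===== PACK-END S29/H882/GoodQ.lean

-- ===== PACK-BEGIN S59/H659/Cyclo.lean
section



/-!
# S59, piece G3 (helper659): cyclotomic congruences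

* `IsCycExp N σ a` : `σ` acts on the `N`-th roots of unity of `ℚ̄` by `μ ↦ μ ^ a`;
  existence (`exists_isCycExp`) and uniqueness modulo `N` (`IsCycExp.modEq`).
* `CycCong p σ d z` : the congruences `d ≡ a z` modulo `pⁿ` for all cyclotomic exponents `a` of
  `σ` at the levels `pⁿ` ("`d = ε(σ) z`"), as they occur in the Prelude's `DetIsCyclotomic` and
  `IsStrictOrdinaryAt`; they are stable under ring homomorphisms (`CycCong.map`), descend along
  jointly injective pairs of homomorphisms to rings in which `p` is nilpotent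
  (`CycCong.of_fibre`) and from the quotients `A ⧸ 𝔪ⁿ` (`CycCong.of_quotients`).
* `exists_inertia_cycExp_ne_one` : for an odd prime `p` the inertia group of a place of `ℚ̄`
  over `p` acts non-trivially on the `p`-th roots of unity.
-/

set_option autoImplicit false
set_option linter.unusedSectionVars false
set_option linter.style.haveILetI false

namespace Fermat.Agent.S59.H659

open Fermat.Agent.S53 IsLocalRing Polynomial

/-- `σ` acts on the `N`-th roots of unity by `μ ↦ μ ^ a`. -/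
def IsCycExp (N : ℕ) (σ : GQ) (a : ℕ) : Prop :=
  ∀ μ : AlgebraicClosure ℚ, μ ^ N = 1 → σ μ = μ ^ a

theorem exists_isCycExp (N : ℕ) (hN : N ≠ 0) (σ : GQ) : ∃ a : ℕ, IsCycExp N σ a := by
  haveI : NeZero N := ⟨hN⟩
  refine ⟨(modularCyclotomicCharacter.toFun N (σ : AlgebraicClosure ℚ ≃+* AlgebraicClosure ℚ)).val,
    fun μ hμ => ?_⟩
  have hu : IsUnit μ := IsUnit.of_pow_eq_one hμ hN
  have hmem : hu.unit ∈ rootsOfUnity N (AlgebraicClosure ℚ) := by
    rw [mem_rootsOfUnity]
    apply Units.ext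
    rw [Units.val_pow_eq_pow_val, IsUnit.unit_spec, hμ, Units.val_one]
  have := modularCyclotomicCharacter.toFun_spec'
    (σ : AlgebraicClosure ℚ ≃+* AlgebraicClosure ℚ) hmem
  simpa using this

theorem IsCycExp.of_dvd {N N' : ℕ} (h : N ∣ N') {σ : GQ} {a : ℕ} (ha : IsCycExp N' σ a) :
    IsCycExp N σ a := by
  intro μ hμ
  obtain ⟨c, rfl⟩ := h
  exact ha μ (by rw [pow_mul, hμ, one_pow])

theorem IsCycExp.modEq {N : ℕ} (hN : N ≠ 0) {σ : GQ} {a a' : ℕ} (h : IsCycExp N σ a)
    (h' : IsCycExp N σ a') : a ≡ a' [MOD N] := by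
  haveI : NeZero N := ⟨hN⟩
  obtain ⟨ζ, hζ⟩ := HasEnoughRootsOfUnity.exists_primitiveRoot (AlgebraicClosure ℚ) N
  have h1 : ζ ^ a = ζ ^ a' := by rw [← h ζ hζ.pow_eq_one, ← h' ζ hζ.pow_eq_one]
  have hfin : IsOfFinOrder ζ := isOfFinOrder_iff_pow_eq_one.mpr ⟨N, Nat.pos_of_ne_zero hN,
    hζ.pow_eq_one⟩
  have h2 := hfin.pow_eq_pow_iff_modEq.mp h1
  rwa [← hζ.eq_orderOf] at h2

/-- The difference of two cyclotomic exponents at level `N` is divisible by `N` in any ring. -/
theorem IsCycExp.sub_mem {N : ℕ} (hN : N ≠ 0) {σ : GQ} {a a' : ℕ} (h : IsCycExp N σ a)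
    (h' : IsCycExp N σ a') (A : Type) [CommRing A] :
    (a : A) - (a' : A) ∈ Ideal.span {((N : ℕ) : A)} := by
  have h1 := (Int.natCast_modEq_iff.mpr (h'.modEq hN h)).dvd
  obtain ⟨c, hc⟩ := h1
  rw [Ideal.mem_span_singleton']
  refine ⟨(c : A), ?_⟩
  have : ((a : ℤ) - (a' : ℤ) : ℤ) = N * c := hc
  have h2 := congrArg (Int.cast : ℤ → A) this
  push_cast at h2
  rw [h2, mul_comm]

/-- The congruences `d ≡ ε(σ) z` modulo all powers of `p`. -/
def CycCong (p : ℕ) (σ : GQ) {A : Type} [CommRing A] (d z : A) : Prop :=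
  ∀ n a : ℕ, (∀ μ : AlgebraicClosure ℚ, μ ^ p ^ n = 1 → σ μ = μ ^ a) →
    d - (a : A) * z ∈ Ideal.span {((p ^ n : ℕ) : A)}

theorem CycCong.map {p : ℕ} {σ : GQ} {A B : Type} [CommRing A] [CommRing B] (φ : A →+* B)
    {d z : A} (h : CycCong p σ d z) : CycCong p σ (φ d) (φ z) := by
  intro n a ha
  have h1 := Ideal.mem_map_of_mem φ (h n a ha)
  rw [Ideal.map_span, Set.image_singleton, _root_.map_natCast, _root_.map_sub, _root_.map_mul, _root_.map_natCast] at h1
  exact h1

/-- If `p ^ N = 0` in `A` and `d ≡ ε(σ) z`, then `d = a z` for every exponent `a` of level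
`p ^ N`. -/
theorem CycCong.eq_of_pow_eq_zero {p : ℕ} {σ : GQ} {A : Type} [CommRing A] {d z : A}
    (h : CycCong p σ d z) {N : ℕ} (hN : (p : A) ^ N = 0) {a : ℕ} (ha : IsCycExp (p ^ N) σ a) :
    d = (a : A) * z := by
  have h1 := h N a ha
  rw [Nat.cast_pow, hN, Ideal.span_singleton_eq_bot.mpr rfl, Ideal.mem_bot, sub_eq_zero] at h1
  exact h1

/-- If `p ^ N = 0` in `A` and `d = a z` for one exponent `a` of level `p ^ N`, then
`d ≡ ε(σ) z`. -/
theorem CycCong.of_eq {p : ℕ} (hp : p ≠ 0) {σ : GQ} {A : Type} [CommRing A] {d z : A}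
    {N : ℕ} (hN : (p : A) ^ N = 0) {a : ℕ} (ha : IsCycExp (p ^ N) σ a) (h : d = (a : A) * z) :
    CycCong p σ d z := by
  intro n b hb
  have hb' : IsCycExp (p ^ n) σ b := hb
  rw [h, ← sub_mul]
  refine Ideal.mul_mem_right _ _ ?_
  rcases le_total n N with hnN | hNn
  · exact (ha.of_dvd (pow_dvd_pow p hnN)).sub_mem (pow_ne_zero _ hp) hb' A
  · have h1 := ha.sub_mem (pow_ne_zero _ hp) (hb'.of_dvd (pow_dvd_pow p hNn)) A
    rw [Nat.cast_pow, hN, Ideal.span_singleton_eq_bot.mpr rfl, Ideal.mem_bot] at h1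
    rw [h1]
    exact Ideal.zero_mem _

/-- Descent of the cyclotomic congruences along a jointly injective pair of homomorphisms to
rings in which `p` is nilpotent. -/
theorem CycCong.of_fibre {p : ℕ} (hp : p ≠ 0) {σ : GQ} {P A B : Type} [CommRing P] [CommRing A]
    [CommRing B] (pA : P →+* A) (pB : P →+* B)
    (hinj : Function.Injective (fun x => (pA x, pB x)))
    (hpA : IsNilpotent (p : A)) (hpB : IsNilpotent (p : B)) {d z : P}
    (hA : CycCong p σ (pA d) (pA z)) (hB : CycCong p σ (pB d) (pB z)) : CycCong p σ d z := by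
  obtain ⟨N₁, hN₁⟩ := hpA
  obtain ⟨N₂, hN₂⟩ := hpB
  set N := N₁ + N₂ with hN
  have hNA : (p : A) ^ N = 0 := by rw [hN, pow_add, hN₁, zero_mul]
  have hNB : (p : B) ^ N = 0 := by rw [hN, pow_add, hN₂, mul_zero]
  have hNP : (p : P) ^ N = 0 :=
    eq_zero_of_fibre pA pB hinj (by rw [_root_.map_pow, _root_.map_natCast, hNA])
      (by rw [_root_.map_pow, _root_.map_natCast, hNB])
  obtain ⟨a, ha⟩ := exists_isCycExp (p ^ N) (pow_ne_zero _ hp) σ
  refine CycCong.of_eq hp hNP ha (eq_of_fibre pA pB hinj ?_ ?_)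
  · rw [_root_.map_mul, _root_.map_natCast]
    exact hA.eq_of_pow_eq_zero hNA ha
  · rw [_root_.map_mul, _root_.map_natCast]
    exact hB.eq_of_pow_eq_zero hNB ha

/-- Descent of the cyclotomic congruences from the quotients `A ⧸ 𝔪ⁿ`. -/
theorem CycCong.of_quotients {p : ℕ} {σ : GQ} {A : Type} [CommRing A] [IsLocalRing A]
    [IsNoetherianRing A] {d z : A}
    (h : ∀ n : ℕ, n ≠ 0 → CycCong p σ (Ideal.Quotient.mk (maximalIdeal A ^ n) d)
      (Ideal.Quotient.mk (maximalIdeal A ^ n) z)) : CycCong p σ d z := by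
  intro n a ha
  refine mem_of_quotients _ fun k hk => ?_
  have h1 := h k hk n a ha
  rw [Ideal.map_span, Set.image_singleton, _root_.map_natCast, _root_.map_sub, _root_.map_mul, _root_.map_natCast]
  exact h1

/-- In an Artinian local ring with residue characteristic `p`, `p` is nilpotent. -/
theorem isNilpotent_natCast_of_mem {A : Type} [CommRing A] [IsLocalRing A] [IsArtinianRing A]
    {p : ℕ} (h : (p : A) ∈ maximalIdeal A) : IsNilpotent (p : A) := by
  obtain ⟨n, hn⟩ := exists_maximalIdeal_pow_eq_bot_of_isArtinianRing A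
  refine ⟨n, ?_⟩
  have := Ideal.pow_mem_pow h n
  rwa [hn, Ideal.mem_bot] at this

/-- **Total ramification of `ℚ(ζ_p)` at `p`.** For an odd prime `p` and a place of `ℚ̄` over
`p`, some element of the inertia group acts on the `p`-th roots of unity by an exponent
`a ≢ 1 mod p`. -/
theorem exists_inertia_cycExp_ne_one (p : ℕ) (hp : p.Prime) (hp2 : p ≠ 2)
    (𝔓 : ValuationSubring (AlgebraicClosure ℚ)) (h𝔓 : 𝔓.LiesOverPrime p) :
    ∃ σ ∈ 𝔓.inertiaSubgroupIn ℚ, ∀ a : ℕ, IsCycExp p σ a → ¬ a ≡ 1 [MOD p] := by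
  haveI : NeZero p := ⟨hp.ne_zero⟩
  obtain ⟨ζ, hζ⟩ := HasEnoughRootsOfUnity.exists_primitiveRoot (AlgebraicClosure ℚ) p
  -- an automorphism moving `ζ`
  have hζ2 : ζ ^ 2 ≠ ζ := by
    intro h
    have h1 : ζ ^ 2 = ζ ^ 1 := by rw [h, pow_one]
    have h2 := hζ.pow_inj (i := 2) (j := 1)
      (lt_of_le_of_ne hp.two_le (Ne.symm hp2)) hp.one_lt h1
    omega
  have hζ2' : IsPrimitiveRoot (ζ ^ 2) p := by
    refine hζ.pow_of_coprime 2 ?_
    exact (Nat.coprime_primes Nat.prime_two hp).mpr (Ne.symm hp2)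
  obtain ⟨g, hg⟩ : ∃ g : GQ, g ζ = ζ ^ 2 := by
    haveI := Fermat.Agent.S54.isGalois_algebraicClosure_rat
    have hirr : Irreducible (cyclotomic p ℚ) := cyclotomic.irreducible_rat hp.pos
    have hmin1 : minpoly ℚ ζ = cyclotomic p ℚ :=
      (hζ.minpoly_eq_cyclotomic_of_irreducible hirr).symm
    have hmin2 : minpoly ℚ (ζ ^ 2) = cyclotomic p ℚ :=
      (hζ2'.minpoly_eq_cyclotomic_of_irreducible hirr).symm
    have hconj : IsConjRoot ℚ (ζ ^ 2) ζ := by
      rw [IsConjRoot, hmin1, hmin2]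
    obtain ⟨g, hg⟩ := (isConjRoot_iff_exists_algEquiv (K := ℚ) (L := AlgebraicClosure ℚ)
      (x := ζ ^ 2) (y := ζ)).mp hconj
    exact ⟨g, hg⟩
  have hconj : ∀ τ : GQ, (∀ x ∈ (⊥ : IntermediateField ℚ (AlgebraicClosure ℚ)), τ x = x) →
      𝔓.valuation (τ (ζ - 1)) = 𝔓.valuation (ζ - 1) := by
    intro τ _
    have hτζ : IsPrimitiveRoot (τ ζ) p := hζ.map_of_injective τ.injective
    rw [_root_.map_sub, _root_.map_one]
    exact Fermat.Agent.S14.H894.valuation_sub_one_eq_of_mem_primitiveRoots 𝔓 p hp ζ hζ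
      ((mem_primitiveRoots hp.pos).2 hτζ)
  have hbot : ∀ x ∈ (⊥ : IntermediateField ℚ (AlgebraicClosure ℚ)), g x = x := by
    intro x hx
    obtain ⟨q, rfl⟩ := IntermediateField.mem_bot.1 hx
    exact g.commutes q
  obtain ⟨σ, hσ, -, hσγ⟩ := Fermat.Agent.S14.H894.exists_inertia_eq_on_adjoin 𝔓 p hp h𝔓 ⊥
    (ζ - 1) (Fermat.Agent.S14.H894.cycloShift p) (Fermat.Agent.S14.H894.cycloShift_monic p)
    (Fermat.Agent.S14.H894.cycloShift_aeval p hp ζ hζ)
    (Fermat.Agent.S14.H894.cyclo_indep 𝔓 p hp h𝔓 ζ hζ) hconj g hbot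
  have hσζ : σ ζ = ζ ^ 2 := by
    have := hσγ
    rw [_root_.map_sub, _root_.map_sub, _root_.map_one, _root_.map_one] at this
    rw [← hg]
    exact sub_left_injective this
  refine ⟨σ, hσ, fun a ha hcon => hζ2 ?_⟩
  have hfin : IsOfFinOrder ζ := isOfFinOrder_iff_pow_eq_one.mpr ⟨p, hp.pos, hζ.pow_eq_one⟩
  have h1 : ζ ^ a = ζ ^ 1 := by
    rw [hfin.pow_eq_pow_iff_modEq, ← hζ.eq_orderOf]
    exact hcon
  rw [← hσζ, ha ζ hζ.pow_eq_one, h1, pow_one]

end Fermat.Agent.S59.H659

end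
-- ===== PACK-END S59/H659/Cyclo.lean

-- ===== PACK-BEGIN S55/Bridge/H594/Unram.lean
section



/-!
# S55 bridge (helper594), piece B10: Prelude "unramified" versus classical "unramified"

`F ⊂ ℚ̄` a finite Galois extension of `ℚ`, `q` a prime number.  The Prelude condition

  `∀ A : ValuationSubring ℚ̄, A.LiesOverPrime q → A.inertiaSubgroupIn ℚ ≤ F.fixingSubgroup`

is equivalent to: all inertia groups in `Gal(F/ℚ)` of primes of `𝓞 F` containing `q` are trivial,
and to: the ramification index of `q` in `𝓞 F` is `1`.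
-/

set_option autoImplicit false
set_option linter.style.haveILetI false
set_option linter.unusedSectionVars false

namespace Fermat.Agent.S55.Bridge.H594

open Fermat.Agent.S54 Fermat.Agent.S55.Bridge NumberField
open scoped Pointwise

attribute [local instance] isAlgebraic_Qbar isGalois_Qbar

section unram

variable (F : IntermediateField ℚ (AlgebraicClosure ℚ)) [FiniteDimensional ℚ F]

/-- A finite intermediate field of `ℚ̄/ℚ` is a number field. -/
theorem numberField_of_finite : NumberField F :=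
  { to_charZero := inferInstance, to_finiteDimensional := inferInstance }

attribute [local instance] numberField_of_finite

variable (A : ValuationSubring (AlgebraicClosure ℚ))

theorem algebraMap_ringOfIntegers_mem (x : 𝓞 F) :
    algebraMap (𝓞 F) (AlgebraicClosure ℚ) x ∈ A := by
  apply isIntegral_mem_valuationSubring A
  exact (RingOfIntegers.isIntegral x).map
    (IsScalarTower.toAlgHom ℤ (𝓞 F) (AlgebraicClosure ℚ))

/-- The prime of `𝓞 F` below the valuation subring `A` of `ℚ̄`. -/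
def primeBelowF : Ideal (𝓞 F) where
  carrier := {x | algebraMap (𝓞 F) (AlgebraicClosure ℚ) x ∈ A.nonunits}
  add_mem' := fun {a b} ha hb => by
    simp only [Set.mem_ofPred_eq, map_add] at ha hb ⊢
    exact A.nonunits.add_mem ha hb
  zero_mem' := by
    simp only [Set.mem_ofPred_eq, map_zero]
    exact A.nonunits.zero_mem
  smul_mem' := fun c b hb => by
    simp only [Set.mem_ofPred_eq, smul_eq_mul, map_mul] at hb ⊢
    rw [ValuationSubring.mem_nonunits_iff] at hb ⊢
    rw [map_mul]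
    have hc : A.valuation (algebraMap (𝓞 F) (AlgebraicClosure ℚ) c) ≤ 1 :=
      (A.valuation_le_one_iff _).mpr (algebraMap_ringOfIntegers_mem F A c)
    exact mul_lt_one_of_nonneg_of_lt_one_right hc zero_le hb

theorem mem_primeBelowF (x : 𝓞 F) :
    x ∈ primeBelowF F A ↔ algebraMap (𝓞 F) (AlgebraicClosure ℚ) x ∈ A.nonunits := Iff.rfl

theorem primeBelowF_isPrime : (primeBelowF F A).IsPrime := by
  constructor
  · intro h
    have : (1 : 𝓞 F) ∈ primeBelowF F A := by rw [h]; trivial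
    rw [mem_primeBelowF, ValuationSubring.mem_nonunits_iff, map_one, map_one] at this
    exact lt_irrefl _ this
  · intro a b hab
    rw [mem_primeBelowF, ValuationSubring.mem_nonunits_iff] at hab ⊢
    rw [mem_primeBelowF, ValuationSubring.mem_nonunits_iff]
    have ha : A.valuation (algebraMap (𝓞 F) (AlgebraicClosure ℚ) a) ≤ 1 :=
      (A.valuation_le_one_iff _).mpr (algebraMap_ringOfIntegers_mem F A a)
    have hb : A.valuation (algebraMap (𝓞 F) (AlgebraicClosure ℚ) b) ≤ 1 :=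
      (A.valuation_le_one_iff _).mpr (algebraMap_ringOfIntegers_mem F A b)
    by_contra hcon
    rw [not_or, not_lt, not_lt] at hcon
    have ha1 := le_antisymm ha hcon.1
    have hb1 := le_antisymm hb hcon.2
    rw [map_mul, map_mul, ha1, hb1, mul_one] at hab
    exact lt_irrefl _ hab

theorem natCast_mem_primeBelowF {q : ℕ} (hA : A.LiesOverPrime q) :
    (q : 𝓞 F) ∈ primeBelowF F A := by
  rw [mem_primeBelowF, map_natCast]
  exact hA

variable [IsGalois ℚ F]

theorem algebraMap_smul_ringOfIntegers (τ : F ≃ₐ[ℚ] F) (x : 𝓞 F) :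
    algebraMap (𝓞 F) (AlgebraicClosure ℚ) (τ • x) =
      ((τ (algebraMap (𝓞 F) F x) : F) : AlgebraicClosure ℚ) := rfl

theorem algebraMap_restrict_smul (σ : AlgebraicClosure ℚ ≃ₐ[ℚ] AlgebraicClosure ℚ) (x : 𝓞 F) :
    algebraMap (𝓞 F) (AlgebraicClosure ℚ) (AlgEquiv.restrictNormalHom F σ • x) =
      σ (algebraMap (𝓞 F) (AlgebraicClosure ℚ) x) := by
  rw [algebraMap_smul_ringOfIntegers, restrictNormalHom_apply]
  rfl

/-- The restriction to `F` of an element of the inertia group of `A` lies in the inertia group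
of the prime of `𝓞 F` below `A`. -/
theorem restrict_mem_inertia_primeBelowF (σ : AlgebraicClosure ℚ ≃ₐ[ℚ] AlgebraicClosure ℚ)
    (hσ : σ ∈ A.inertiaSubgroupIn ℚ) :
    AlgEquiv.restrictNormalHom F σ ∈ (primeBelowF F A).inertia (F ≃ₐ[ℚ] F) := by
  intro x
  show _ - x ∈ primeBelowF F A
  rw [mem_primeBelowF, map_sub, algebraMap_restrict_smul]
  exact ((mem_inertiaSubgroupIn_iff A σ).mp hσ).2 _ (algebraMap_ringOfIntegers_mem F A x)

/-- **B14 (inertia), ideal form**: the image in `Gal(F/ℚ)` of the inertia group of `A` is the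
inertia group of the prime of `𝓞 F` below `A`. -/
theorem map_inertiaSubgroupIn_eq {q : ℕ} (hq : q.Prime) (hA : A.LiesOverPrime q) :
    (A.inertiaSubgroupIn ℚ).map (AlgEquiv.restrictNormalHom F) =
      (primeBelowF F A).inertia (F ≃ₐ[ℚ] F) := by
  apply le_antisymm
  · rintro _ ⟨σ, hσ, rfl⟩
    exact restrict_mem_inertia_primeBelowF F A σ hσ
  · intro τ hτ
    obtain ⟨σ, hσ, hστ⟩ := exists_inertia_lift F A hq hA τ (fun x hx => by
      obtain ⟨y, rfl⟩ : ∃ y : 𝓞 F, algebraMap (𝓞 F) F y = x := ⟨⟨x, hx⟩, rfl⟩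
      have h2 : τ • y - y ∈ primeBelowF F A := hτ y
      rw [mem_primeBelowF, map_sub, algebraMap_smul_ringOfIntegers] at h2
      exact h2)
    exact ⟨σ, hσ, hστ⟩

/-- **B10.**  The Prelude unramifiedness condition at `q` for the finite Galois field `F` is
equivalent to the triviality of all inertia groups in `Gal(F/ℚ)` of primes of `𝓞 F` over `q`. -/
theorem inertia_le_fixingSubgroup_iff_inertia_eq_bot {q : ℕ} (hq : q.Prime) :
    (∀ A : ValuationSubring (AlgebraicClosure ℚ), A.LiesOverPrime q →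
        A.inertiaSubgroupIn ℚ ≤ F.fixingSubgroup) ↔
      ∀ P : Ideal (𝓞 F), P.IsPrime → (q : 𝓞 F) ∈ P → P.inertia (F ≃ₐ[ℚ] F) = ⊥ := by
  constructor
  · intro h P hP hqP
    rw [eq_bot_iff]
    intro τ hτ
    -- a valuation subring of `ℚ̄` above `P`
    let A₀ : Subring (AlgebraicClosure ℚ) := (algebraMap (𝓞 F) (AlgebraicClosure ℚ)).range
    let g : 𝓞 F →+* A₀ := (algebraMap (𝓞 F) (AlgebraicClosure ℚ)).rangeRestrict
    have hginj : Function.Injective g := by
      intro x y hxy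
      have h1 : algebraMap (𝓞 F) (AlgebraicClosure ℚ) x =
          algebraMap (𝓞 F) (AlgebraicClosure ℚ) y :=
        congrArg (fun z : A₀ => (z : AlgebraicClosure ℚ)) hxy
      exact FaithfulSMul.algebraMap_injective (𝓞 F) (AlgebraicClosure ℚ) h1
    have hgsurj : Function.Surjective g :=
      (algebraMap (𝓞 F) (AlgebraicClosure ℚ)).rangeRestrict_surjective
    have hI : P.map g ≠ ⊤ := by
      intro htop
      have h1 : (P.map g).comap g = P := Ideal.comap_map_of_bijective g ⟨hginj, hgsurj⟩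
      rw [htop, Ideal.comap_top] at h1
      exact hP.ne_top h1.symm
    obtain ⟨A, -, hA⟩ := Ideal.image_subset_nonunits_valuationSubring _ hI
    have hPA : ∀ x ∈ P, algebraMap (𝓞 F) (AlgebraicClosure ℚ) x ∈ A.nonunits := by
      intro x hx
      exact hA ⟨g x, Ideal.mem_map_of_mem g hx, rfl⟩
    have hAq : A.LiesOverPrime q := by
      have := hPA _ hqP
      rwa [map_natCast] at this
    obtain ⟨σ, hσ, hστ⟩ := exists_inertia_lift F A hq hAq τ (fun x hx => by
      obtain ⟨y, rfl⟩ : ∃ y : 𝓞 F, algebraMap (𝓞 F) F y = x := ⟨⟨x, hx⟩, rfl⟩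
      have h2 := hPA _ (hτ y)
      rw [map_sub, algebraMap_smul_ringOfIntegers] at h2
      exact h2)
    have h3 := h A hAq hσ
    rw [← hστ, Subgroup.mem_bot]
    exact restrictNormalHom_eq_one_of_mem_fixingSubgroup F σ h3
  · intro h A hA σ hσ
    haveI := primeBelowF_isPrime F A
    have h1 := restrict_mem_inertia_primeBelowF F A σ hσ
    rw [h (primeBelowF F A) inferInstance (natCast_mem_primeBelowF F A hA), Subgroup.mem_bot] at h1
    rw [IntermediateField.mem_fixingSubgroup_iff]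
    intro x hx
    have h2 := restrictNormalHom_apply F σ ⟨x, hx⟩
    rw [h1] at h2
    exact h2.symm

/-- A prime of `𝓞 F` containing the prime number `q` lies over `(q) ⊂ ℤ`. -/
theorem liesOver_span_of_natCast_mem {q : ℕ} (hq : q.Prime) (P : Ideal (𝓞 F)) [P.IsPrime]
    (hqP : (q : 𝓞 F) ∈ P) : P.LiesOver (Ideal.span {(q : ℤ)}) := by
  haveI hmax : (Ideal.span {(q : ℤ)}).IsMaximal :=
    PrincipalIdealRing.isMaximal_of_irreducible (Nat.prime_iff_prime_int.mp hq).irreducible
  refine ⟨?_⟩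
  have hle : Ideal.span {(q : ℤ)} ≤ P.under ℤ := by
    rw [Ideal.span_le, Set.singleton_subset_iff]
    show algebraMap ℤ (𝓞 F) (q : ℤ) ∈ P
    simpa using hqP
  exact hmax.eq_of_le (Ideal.IsPrime.under ℤ P).ne_top hle

/-- **B10, ramification index form.**  The Prelude unramifiedness condition at `q` for the
finite Galois field `F` holds iff `q` has ramification index `1` in `𝓞 F`. -/
theorem inertia_le_fixingSubgroup_iff_ramificationIdxIn {q : ℕ} (hq : q.Prime) :
    (∀ A : ValuationSubring (AlgebraicClosure ℚ), A.LiesOverPrime q →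
        A.inertiaSubgroupIn ℚ ≤ F.fixingSubgroup) ↔
      (Ideal.span {(q : ℤ)}).ramificationIdxIn (𝓞 F) = 1 := by
  haveI hgal : IsGaloisGroup (F ≃ₐ[ℚ] F) ℤ (𝓞 F) :=
    IsGaloisGroup.of_isFractionRing (F ≃ₐ[ℚ] F) ℤ (𝓞 F) ℚ F
  haveI hmax : (Ideal.span {(q : ℤ)}).IsMaximal :=
    PrincipalIdealRing.isMaximal_of_irreducible (Nat.prime_iff_prime_int.mp hq).irreducible
  haveI hprime : (Ideal.span {(q : ℤ)}).IsPrime := hmax.isPrime
  rw [inertia_le_fixingSubgroup_iff_inertia_eq_bot F hq]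
  constructor
  · intro h
    obtain ⟨A, hA⟩ := exists_valuationSubring_liesOver q hq
    haveI := primeBelowF_isPrime F A
    haveI := liesOver_span_of_natCast_mem F hq (primeBelowF F A) (natCast_mem_primeBelowF F A hA)
    rw [← Ideal.card_inertia_eq_ramificationIdxIn (G := F ≃ₐ[ℚ] F) (Ideal.span {(q : ℤ)})
      (primeBelowF F A), h _ inferInstance (natCast_mem_primeBelowF F A hA)]
    exact Subgroup.card_bot
  · intro h P hP hqP
    haveI := hP
    haveI := liesOver_span_of_natCast_mem F hq P hqP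
    have h1 := Ideal.card_inertia_eq_ramificationIdxIn (G := F ≃ₐ[ℚ] F) (Ideal.span {(q : ℤ)}) P
    rw [h] at h1
    exact (Subgroup.card_eq_one).mp h1

/-- **B10 for levels.**  A finite Galois `F` is unramified outside `S` in the Prelude sense iff
every prime number outside `S` has ramification index `1` in `𝓞 F`. -/
theorem isUnramifiedOutside_iff_ramificationIdxIn (S : Finset Nat.Primes) :
    F.IsUnramifiedOutside S ↔
      ∀ q : Nat.Primes, q ∉ S → (Ideal.span {((q : ℕ) : ℤ)}).ramificationIdxIn (𝓞 F) = 1 := by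
  constructor
  · intro h q hqS
    exact (inertia_le_fixingSubgroup_iff_ramificationIdxIn F q.2).mp (h.2 q hqS)
  · intro h
    exact ⟨inferInstance, fun q hqS =>
      (inertia_le_fixingSubgroup_iff_ramificationIdxIn F q.2).mpr (h q hqS)⟩

/-- **B10 for levels, inertia form.** -/
theorem isUnramifiedOutside_iff_inertia_eq_bot (S : Finset Nat.Primes) :
    F.IsUnramifiedOutside S ↔
      ∀ q : Nat.Primes, q ∉ S → ∀ P : Ideal (𝓞 F), P.IsPrime → ((q : ℕ) : 𝓞 F) ∈ P →
        P.inertia (F ≃ₐ[ℚ] F) = ⊥ := by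
  constructor
  · intro h q hqS
    exact (inertia_le_fixingSubgroup_iff_inertia_eq_bot F q.2).mp (h.2 q hqS)
  · intro h
    exact ⟨inferInstance, fun q hqS =>
      (inertia_le_fixingSubgroup_iff_inertia_eq_bot F q.2).mpr (h q hqS)⟩

end unram

end Fermat.Agent.S55.Bridge.H594

end
-- ===== PACK-END S55/Bridge/H594/Unram.lean

-- ===== PACK-BEGIN S37/Rim/Spec.lean
section


/-!
# S37 / node_rim — frozen leaf statements (squad-lead helper39)

`node_rim` = `ModularCurve.ReductionInputsModL A M` (existence of the place reduction map).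
ONE assembly: helper940's landed core `H940.Atlas.exists_red` (fibres with conservation `FC`,
local parameters `LP`, separation `SEP`), applied to the fibres of the coordinate `x = j`:

* tube over `c ∈ k`   : places `P` of `F_M` with `j(P) ∈ A`, `j(P) ≡ c`;
* tube over `∞`       : all other places (`j` has a pole at `P` or `j(P) ∉ A`);
* points over `c ∈ k` : places `Q` of `F_{M,k}` with `j̄(Q) = c`;  over `∞`: the poles of `j̄`.

The leaves are `FCStatement`, `LPStatement`, `SEPStatement` (this file);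
`Rim/Assembly.lean` proves `ReductionInputsModL A M` from them (complete proof).

Notation: `ctx A M` is helper940's context of fractions of integral `q`-series,
`V = (ctx A M).V ⊆ F_M` (fractions `a/b`, `a, b` integral `q`-series in `F_M`, `b̄ ≠ 0`),
`ρ = (ctx A M).ρ : V → F_{M,k}` the coefficientwise reduction.
-/

set_option autoImplicit false
set_option synthInstance.maxHeartbeats 400000

noncomputable section

namespace Fermat.Agent.S37.Rim

open AlgebraicCurve ModularCurve HahnSeries IsLocalRing Fermat.Agent.S37.H940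

/-- `ℚ̄` -/
abbrev Qb : Type := AlgebraicClosure ℚ

/-- the residue field `k = A/𝔪` -/
abbrev kA (A : ValuationSubring Qb) : Type := ResidueField A

/-- `F_M = ℚ̄(X₀(M))` -/
abbrev FM (M : ℕ) : IntermediateField Qb (LaurentSeries Qb) :=
  laurentBaseChange Qb (modularFunctionFieldFull M)

/-- `F_{M,k} = k(X₀(M))` -/
abbrev FkM (A : ValuationSubring Qb) (M : ℕ) : IntermediateField (kA A) (LaurentSeries (kA A)) :=
  modularFunctionFieldFullC (kA A) M

theorem residue_eq_zero_iff_not_isUnit (A : ValuationSubring Qb) (a : A) :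
    residue A a = 0 ↔ ¬ IsUnit a := by
  rw [residue_eq_zero_iff, mem_maximalIdeal, mem_nonunits_iff]

/-- helper940's reduction context for `(F_M, F_{M,k})`. -/
def ctx (A : ValuationSubring Qb) (M : ℕ) : Ctx Qb (FM M) (kA A) (FkM A M) :=
  (qData A (residue A) (FM M) (FkM A M) residue_surjective
    (residue_eq_zero_iff_not_isUnit A)).ctx

/-- the coordinate `j ∈ F_M` (the same term as `Fermat.Agent.S24.jF M`) -/
def xF (M : ℕ) [NeZero M] : FM M :=
  ⟨coeffEmb Qb jq,
    coeffEmb_mem_laurentBaseChange Qb (modularFunctionField_le_full M (jq_mem M))⟩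

/-- the coordinate `j̄ ∈ F_{M,k}` -/
def xk (A : ValuationSubring Qb) (M : ℕ) : FkM A M :=
  ⟨jqModC (kA A), jqModC_mem_full (kA A) M⟩

/-- the tube over `c ∈ k ∪ {∞}` (`none = ∞`) -/
def tube (A : ValuationSubring Qb) (M : ℕ) [NeZero M] : Option (kA A) → Set (Place Qb (FM M))
  | some c => {P | ∃ a : A, residue A a = c ∧ InMax P (xF M - algebraMap Qb (FM M) (a : Qb))}
  | none => {P | ¬ ∃ a : A, InMax P (xF M - algebraMap Qb (FM M) (a : Qb))}

/-- `Q` is a point of the special fibre over `c ∈ k ∪ {∞}` -/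
def IsPt (A : ValuationSubring Qb) (M : ℕ) : Option (kA A) → Place (kA A) (FkM A M) → Prop
  | some c => fun Q => InMax Q (xk A M - algebraMap (kA A) (FkM A M) c)
  | none => fun Q => Q.ord (xk A M) < 0

/-- **LEAF FC (conservation of number in the fibres of `j`)**: for `u ∈ V` with `ρ u ≠ 0` and
`c ∈ k ∪ {∞}`: the number of zeros minus poles of `u` in the tube over `c` equals the number of
zeros minus poles of `ρ u` over `c`.  (Norms commute with reduction + Gauss lemma for the roots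
of `N_{F/K(j)}(u)`; NO smoothness needed.) -/
def FCStatement (A : ValuationSubring Qb) (M : ℕ) [NeZero M] : Prop :=
  ∀ (c : Option (kA A)) (𝔊 : Finset (Place (kA A) (FkM A M))), (∀ Q, Q ∈ 𝔊 ↔ IsPt A M c Q) →
    ∀ u : (ctx A M).V, (ctx A M).ρ u ≠ 0 →
      ∑ᶠ P ∈ tube A M c, P.ord (u : FM M) = ∑ Q ∈ 𝔊, Q.ord ((ctx A M).ρ u)

/-- **LEAF LP (local parameters lift)**: every point `Q` over `c` has a local parameter which is
the reduction of an element of `V` regular on the tube over `c` and is a unit at the other points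
over `c`.  (Normality of the special fibre + CRT.) -/
def LPStatement (A : ValuationSubring Qb) (M : ℕ) [NeZero M] : Prop :=
  ∀ (c : Option (kA A)) (Q : Place (kA A) (FkM A M)), IsPt A M c Q →
    ∃ t : (ctx A M).V, (∀ P ∈ tube A M c, 0 ≤ P.ord (t : FM M)) ∧ Q.ord ((ctx A M).ρ t) = 1 ∧
      ∀ Q', IsPt A M c Q' → Q' ≠ Q → Q'.ord ((ctx A M).ρ t) = 0

/-- **LEAF SEP (separation)**: some element of `V` regular on the tube over `c` has a reduction
taking pairwise distinct values at the points over `c`.  (Normality of the special fibre + CRT.) -/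
def SEPStatement (A : ValuationSubring Qb) (M : ℕ) [NeZero M] : Prop :=
  ∀ c : Option (kA A), ∃ s : (ctx A M).V, (∀ P ∈ tube A M c, 0 ≤ P.ord (s : FM M)) ∧
    ∀ Q Q', IsPt A M c Q → IsPt A M c Q' → ∀ a : kA A,
      InMax Q ((ctx A M).ρ s - algebraMap (kA A) (FkM A M) a) →
      InMax Q' ((ctx A M).ρ s - algebraMap (kA A) (FkM A M) a) → Q = Q'

end Fermat.Agent.S37.Rim

end
end
-- ===== PACK-END S37/Rim/Spec.lean

-- ===== PACK-BEGIN S37/H159/MLocal.lean
section




/-!
# Theorem M, part 5: specialisation of fibres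
(row S37, piece R-b; seat helper159)

`B_η` = integral closure of `K[x]` in `F`, `T = ρ(O ∩ B_η)`.  For `c ∈ A` with reduction `c̄`:
elements of `O ∩ B_η` lying in `(x - c) B_η` (resp. in its radical) reduce into `(x̄ - c̄) T`
(resp. its radical).  Hence lifts of families which are `k`-independent modulo `(x̄ - c̄) T`
(resp. its radical) are `K`-independent modulo `(x - c) B_η` (resp. its radical)
(`dvd_of_sum_smul_mem`).
-/

set_option autoImplicit false
set_option linter.unusedSectionVars false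
set_option linter.style.haveILetI false

namespace Fermat.Agent.S37.H159

open Polynomial

namespace RedCtx

variable {K : Type*} [Field K] {A : ValuationSubring K} {k : Type*} [Field k]
  {F : Type*} [Field F] [Algebra K[X] F] {Fk : Type*} [Field Fk] [Algebra k[X] Fk]
  (G : RedCtx A k F Fk)

/-- the `k`-algebra structure of `T` -/
noncomputable instance instAlgebraTk : Algebra k G.Tk :=
  ((algebraMap k[X] G.Tk).comp (C : k →+* k[X])).toAlgebra

instance instIsScalarTowerTk : IsScalarTower k k[X] G.Tk :=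
  IsScalarTower.of_algebraMap_eq fun _ => rfl

variable (hinj : Function.Injective (algebraMap k[X] Fk)) (c : A)

/-- `x - c` as an element of `O` -/
noncomputable def xsub : G.O := G.polyO (X - C c)

theorem xsub_coe : (G.xsub c : F) = algebraMap K[X] F (X - C (c : K)) := by
  show algebraMap K[X] F ((X - C c : A[X]).map A.subtype) = _
  rw [Polynomial.map_sub, Polynomial.map_X, Polynomial.map_C]
  rfl

theorem ρ_xsub : G.ρ (G.xsub c) = algebraMap k[X] Fk (X - C (G.π c)) := by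
  rw [xsub, G.ρ_polyO, Polynomial.map_sub, Polynomial.map_X, Polynomial.map_C]

include hinj in
theorem ρ_xsub_ne_zero : G.ρ (G.xsub c) ≠ 0 := by
  rw [ρ_xsub]
  intro h0
  have := hinj (h0.trans (_root_.map_zero _).symm)
  exact Polynomial.X_sub_C_ne_zero _ this

include hinj in
theorem xsub_inv_mem : (G.xsub c : F)⁻¹ ∈ G.O :=
  G.inv_mem_of_ρ_ne_zero _ (G.ρ_xsub_ne_zero hinj c)

include hinj in
theorem xsub_ne_zero : (G.xsub c : F) ≠ 0 :=
  G.ne_zero_of_ρ_ne_zero _ (G.ρ_xsub_ne_zero hinj c)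

/-- reduction `O ∩ B_η → T` -/
noncomputable def redT (w : integralClosure K[X] F) (hwO : (w : F) ∈ G.O) : G.Tk :=
  ⟨G.ρ ⟨w, hwO⟩, G.ρ_mem_Tk ⟨w, hwO⟩ w.2⟩

theorem redT_coe (w : integralClosure K[X] F) (hwO : (w : F) ∈ G.O) :
    (G.redT w hwO : Fk) = G.ρ ⟨w, hwO⟩ := rfl

include hinj in
/-- Elements of `O ∩ (x - c) B_η` reduce into `(x̄ - c̄) T`. -/
theorem redT_mem_fibreIdeal (w : integralClosure K[X] F) (hwO : (w : F) ∈ G.O)
    (hw : w ∈ Ideal.span {algebraMap K[X] (integralClosure K[X] F) (X - C (c : K))}) :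
    G.redT w hwO ∈ H939.fibreIdeal G.Tk (G.π c) := by
  rw [Ideal.mem_span_singleton] at hw
  obtain ⟨h, rfl⟩ := hw
  have hcoe : ((algebraMap K[X] (integralClosure K[X] F) (X - C (c : K)) * h :
      integralClosure K[X] F) : F) = (G.xsub c : F) * (h : F) := by
    rw [G.xsub_coe]
    rfl
  have hhO : (h : F) ∈ G.O := by
    have : (h : F) = (G.xsub c : F)⁻¹ *
        ((algebraMap K[X] (integralClosure K[X] F) (X - C (c : K)) * h :
          integralClosure K[X] F) : F) := by
      rw [hcoe, ← mul_assoc, inv_mul_cancel₀ (G.xsub_ne_zero hinj c), one_mul]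
    rw [this]
    exact G.O.mul_mem _ _ (G.xsub_inv_mem hinj c) hwO
  rw [H939.fibreIdeal, Ideal.mem_span_singleton]
  refine ⟨G.redT h hhO, ?_⟩
  apply Subtype.ext
  show G.ρ ⟨_, hwO⟩ = algebraMap k[X] Fk (X - C (G.π c)) * G.ρ ⟨h, hhO⟩
  rw [← G.ρ_xsub, ← _root_.map_mul]
  congr 1
  exact Subtype.ext hcoe

include hinj in
/-- Elements of `O ∩ rad((x - c) B_η)` reduce into `rad((x̄ - c̄) T)`. -/
theorem redT_mem_radical (w : integralClosure K[X] F) (hwO : (w : F) ∈ G.O)
    (hw : w ∈ (Ideal.span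
      {algebraMap K[X] (integralClosure K[X] F) (X - C (c : K))}).radical) :
    G.redT w hwO ∈ (H939.fibreIdeal G.Tk (G.π c)).radical := by
  obtain ⟨N, hN⟩ := hw
  refine ⟨N, ?_⟩
  have hO : ((w ^ N : integralClosure K[X] F) : F) ∈ G.O := by
    rw [SubmonoidClass.coe_pow]
    exact G.O.pow_mem hwO N
  have := G.redT_mem_fibreIdeal hinj c (w ^ N) hO hN
  have e : G.redT (w ^ N) hO = G.redT w hwO ^ N := by
    apply Subtype.ext
    show G.ρ ⟨_, hO⟩ = (G.ρ ⟨w, hwO⟩) ^ N
    rw [← _root_.map_pow]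
    congr 1
  rwa [e] at this

section Lift

variable {ι : Type*} [Fintype ι] (w : ι → integralClosure K[X] F)
  (hwO : ∀ j, (w j : F) ∈ G.O)

include hwO in
theorem sum_C_smul_mem (α : ι → A) :
    ((∑ j, (C ((α j : A) : K) : K[X]) • w j : integralClosure K[X] F) : F) ∈ G.O := by
  rw [AddSubmonoidClass.coe_finsetSum]
  refine G.O.toSubring.sum_mem fun j _ => ?_
  have : (((C ((α j : A) : K) : K[X]) • w j : integralClosure K[X] F) : F) =
      algebraMap K[X] F (C ((α j : A) : K)) * (w j : F) := by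
    rw [Algebra.smul_def]
    rfl
  rw [this]
  exact G.O.mul_mem _ _ (G.C_mem (α j)) (hwO j)

theorem redT_sum_C_smul (α : ι → A) :
    G.redT (∑ j, (C ((α j : A) : K) : K[X]) • w j) (G.sum_C_smul_mem w hwO α) =
      ∑ j, (C (G.π (α j)) : k[X]) • G.redT (w j) (hwO j) := by
  apply Subtype.ext
  rw [AddSubmonoidClass.coe_finsetSum]
  have h1 : (⟨_, G.sum_C_smul_mem w hwO α⟩ : G.O) =
      ∑ j, (⟨_, G.C_mem (α j)⟩ : G.O) * ⟨w j, hwO j⟩ := by
    apply Subtype.ext
    show ((∑ j, (C ((α j : A) : K) : K[X]) • w j : integralClosure K[X] F) : F) =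
      G.O.subtype (∑ j, (⟨_, G.C_mem (α j)⟩ : G.O) * ⟨w j, hwO j⟩)
    rw [_root_.map_sum, AddSubmonoidClass.coe_finsetSum]
    refine Finset.sum_congr rfl fun j _ => ?_
    rw [Algebra.smul_def]
    rfl
  show G.ρ ⟨_, G.sum_C_smul_mem w hwO α⟩ = _
  rw [h1, _root_.map_sum]
  refine Finset.sum_congr rfl fun j _ => ?_
  rw [_root_.map_mul, G.ρ_C]
  show _ = (((C (G.π (α j)) : k[X]) • G.redT (w j) (hwO j) : G.Tk) : Fk)
  rw [Algebra.smul_def]
  rfl

include hwO in
/-- **Specialisation of independence** (constant coefficients). -/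
theorem eq_zero_of_sum_C_smul_mem (I : Ideal (integralClosure K[X] F)) (Ik : Ideal G.Tk)
    (hI : ∀ (v : integralClosure K[X] F) (hvO : (v : F) ∈ G.O), v ∈ I → G.redT v hvO ∈ Ik)
    (hind : ∀ a : ι → k,
      (∑ j, (C (a j) : k[X]) • G.redT (w j) (hwO j)) ∈ Ik → ∀ j, a j = 0)
    (α : ι → K) (hα : (∑ j, (C (α j) : K[X]) • w j) ∈ I) : ∀ j, α j = 0 := by
  by_contra hne
  have hα0 : α ≠ 0 := by
    intro h0
    apply hne
    intro j
    rw [h0]
    rfl
  obtain ⟨m, hm0, hm⟩ := H217.exists_scale A α hα0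
  let α' : ι → A := fun j => ⟨α j / α m, hm j⟩
  have hg : (∑ j, (C ((α' j : A) : K) : K[X]) • w j) ∈ I := by
    have : (∑ j, (C ((α' j : A) : K) : K[X]) • w j) =
        (C (α m)⁻¹ : K[X]) • ∑ j, (C (α j) : K[X]) • w j := by
      rw [Finset.smul_sum]
      refine Finset.sum_congr rfl fun j _ => ?_
      rw [smul_smul, ← C_mul]
      congr 2
      show α j / α m = (α m)⁻¹ * α j
      rw [div_eq_inv_mul]
    rw [this, Algebra.smul_def]
    exact I.mul_mem_left _ hα
  have h1 := hI _ (G.sum_C_smul_mem w hwO α') hg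
  rw [G.redT_sum_C_smul w hwO α'] at h1
  have h2 := hind (fun j => G.π (α' j)) h1 m
  have h3 : α' m = 1 := Subtype.ext (div_self hm0)
  rw [h3, _root_.map_one] at h2
  exact one_ne_zero h2

include hwO in
/-- **Specialisation of independence** (witness form for the tame discriminant bound). -/
theorem dvd_of_sum_smul_mem (c : A) (I : Ideal (integralClosure K[X] F)) (Ik : Ideal G.Tk)
    (hI : ∀ (v : integralClosure K[X] F) (hvO : (v : F) ∈ G.O), v ∈ I → G.redT v hvO ∈ Ik)
    (hind : ∀ a : ι → k,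
      (∑ j, (C (a j) : k[X]) • G.redT (w j) (hwO j)) ∈ Ik → ∀ j, a j = 0)
    (hle : Ideal.span {algebraMap K[X] (integralClosure K[X] F) (X - C (c : K))} ≤ I)
    (a : ι → K[X]) (ha : (∑ j, a j • w j) ∈ I) : ∀ j, (X - C (c : K)) ∣ a j := by
  have hdvd : ∀ j, (X - C (c : K)) ∣ a j - C ((a j).eval (c : K)) := fun j =>
    Polynomial.X_sub_C_dvd_sub_C_eval
  have h1 : (∑ j, (a j - C ((a j).eval (c : K))) • w j) ∈ I := by
    refine I.sum_mem fun j _ => ?_
    obtain ⟨q, hq⟩ := hdvd j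
    rw [hq, mul_smul, Algebra.smul_def]
    exact hle (Ideal.mul_mem_right _ _ (Ideal.subset_span rfl))
  have h2 : (∑ j, (C ((a j).eval (c : K)) : K[X]) • w j) ∈ I := by
    have : (∑ j, (C ((a j).eval (c : K)) : K[X]) • w j) =
        (∑ j, a j • w j) - ∑ j, (a j - C ((a j).eval (c : K))) • w j := by
      rw [← Finset.sum_sub_distrib]
      refine Finset.sum_congr rfl fun j _ => ?_
      rw [sub_smul, sub_sub_cancel]
    rw [this]
    exact I.sub_mem ha h1
  intro j
  have h3 := G.eq_zero_of_sum_C_smul_mem w hwO I Ik hI hind _ h2 j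
  rw [Polynomial.dvd_iff_isRoot]
  exact h3

end Lift

end RedCtx

end Fermat.Agent.S37.H159

end
-- ===== PACK-END S37/H159/MLocal.lean

-- ===== PACK-BEGIN A2/H553/Vinf.lean
section








/-!
# A2 / K2c (helper553): the Gauss valuation `V∞` of `Q̄(X₀(N)) ⊆ Q̄((q))` over `A`

`A ⊆ Q̄` a valuation subring over a prime `ℓ`, `F₀ ⊆ ℚ((q))` a subfield all of whose elements are
`FinFrac` (e.g. `modularFunctionFieldFull N`, any `N`), `F̄ = laurentBaseChange Q̄ F₀`.

* `Vinf A F₀ h : ValuationSubring F̄` — the Gauss valuation ring `F̄ ∩ gaussA A`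
  (`x ∈ Vinf ↔ x = a/b`, `a, b` `A`-integral `q`-series, `b` primitive: `mem_Vinf_iff`);
* `redInf : Vinf →+* k_A((q))` with `redInf x = 0 ↔ v x < 1` (`redInf_eq_zero_iff`);
* `algebraMap_mem_Vinf_iff` : `Vinf ∩ Q̄ = A`;
* the three hypotheses of helper129's K2 (`Fermat.Agent.A2.H129.GaussTwice`):
  `hasConstValues_Vinf`, `preservesConstValues_Vinf`, `inInertia_Vinf`
  for `τ = arithmeticRingAut F₀ σ`, `σ ∈ A.inertiaSubgroupIn ℚ` (resp. decomposition group);
* `gaussInput_modular` : the hypotheses hold for `F₀ = modularFunctionFieldFull N`.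
-/

set_option autoImplicit false
set_option linter.unusedSectionVars false
set_option linter.style.haveILetI false

noncomputable section

namespace Fermat.Agent.A2.H553

open ModularCurve HahnSeries IntermediateField AlgebraicCurve
open Fermat.Agent.S28.H86 Fermat.Agent.S18.H602 Fermat.Agent.A2.H129

local notation "Q̄" => AlgebraicClosure ℚ

/-- The input of the construction: `A` lies over a prime and `F₀` consists of `FinFrac`
elements. -/
structure GaussInput (A : ValuationSubring Q̄) (F₀ : IntermediateField ℚ (LaurentSeries ℚ)) :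
    Prop where
  exists_prime : ∃ ℓ : ℕ, ℓ ≠ 0 ∧ A.LiesOverPrime ℓ
  finFrac : ∀ z ∈ F₀, FinFrac A (coeffEmb Q̄ z)

variable {A : ValuationSubring Q̄} {F₀ : IntermediateField ℚ (LaurentSeries ℚ)}

/-- Every nonzero element of `F̄` is a constant times a Gauss unit. -/
theorem GaussInput.hasGaussForm (h : GaussInput A F₀) {x : LaurentSeries Q̄}
    (hx : x ∈ laurentBaseChange Q̄ F₀) (hx0 : x ≠ 0) : HasGaussForm A x := by
  obtain ⟨ℓ, hℓ, hA⟩ := h.exists_prime
  exact (finFrac_of_mem_laurentBaseChange h.finFrac hx).hasGaussForm hℓ hA hx0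

/-- The Gauss valuation ring of `F̄ = Q̄ · F₀`. -/
def Vinf (A : ValuationSubring Q̄) (F₀ : IntermediateField ℚ (LaurentSeries ℚ))
    (h : GaussInput A F₀) : ValuationSubring ↥(laurentBaseChange Q̄ F₀) where
  toSubring := (gaussA A).comap
    ((laurentBaseChange Q̄ F₀).val : ↥(laurentBaseChange Q̄ F₀) →+* LaurentSeries Q̄)
  mem_or_inv_mem' := by
    intro x
    rcases eq_or_ne x 0 with rfl | hx
    · exact Or.inl (Subring.zero_mem _)
    · have hx0 : (x : LaurentSeries Q̄) ≠ 0 := fun h0 => hx (Subtype.ext h0)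
      rcases (h.hasGaussForm x.2 hx0).mem_or_inv_mem with h1 | h1
      · exact Or.inl h1
      · exact Or.inr h1

theorem mem_Vinf_iff (h : GaussInput A F₀) {x : ↥(laurentBaseChange Q̄ F₀)} :
    x ∈ Vinf A F₀ h ↔ (x : LaurentSeries Q̄) ∈ gaussA A := Iff.rfl

/-- general: valuation one iff the element and its inverse are integral -/
theorem valuation_eq_one_iff_mem {F : Type*} [Field F] (V : ValuationSubring F) {x : F}
    (hx : x ≠ 0) : V.valuation x = 1 ↔ x ∈ V ∧ x⁻¹ ∈ V := by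
  rw [← V.valuation_le_one_iff, ← V.valuation_le_one_iff, map_inv₀]
  have hv : V.valuation x ≠ 0 := (Valuation.ne_zero_iff _).mpr hx
  constructor
  · intro h; rw [h]; simp
  · rintro ⟨h1, h2⟩
    exact le_antisymm h1 ((inv_le_one₀ (zero_lt_iff.mpr hv)).mp h2)

/-- general: valuation `< 1` iff integral and not a unit -/
theorem valuation_lt_one_iff_mem {F : Type*} [Field F] (V : ValuationSubring F) {x : F} :
    V.valuation x < 1 ↔ x ∈ V ∧ (x = 0 ∨ x⁻¹ ∉ V) := by
  rcases eq_or_ne x 0 with rfl | hx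
  · simp
  · rw [lt_iff_le_and_ne, V.valuation_le_one_iff, Ne, valuation_eq_one_iff_mem V hx]
    constructor
    · rintro ⟨h1, h2⟩
      exact ⟨h1, Or.inr fun h3 => h2 ⟨h1, h3⟩⟩
    · rintro ⟨h1, h2 | h2⟩
      · exact absurd h2 hx
      · exact ⟨h1, fun h3 => h2 h3.2⟩

/-- The reduction map `V∞ → k_A((q))`. -/
def redInf (h : GaussInput A F₀) :
    ↥(Vinf A F₀ h) →+* LaurentSeries (IsLocalRing.ResidueField ↥A) :=
  (redA A).comp
    (((laurentBaseChange Q̄ F₀).val : ↥(laurentBaseChange Q̄ F₀) →+* LaurentSeries Q̄).restrict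
      (Vinf A F₀ h).toSubring (gaussA A) (fun _ hx => hx))

theorem redInf_apply (h : GaussInput A F₀) (x : ↥(Vinf A F₀ h)) :
    redInf h x = redA A ⟨((x : ↥(laurentBaseChange Q̄ F₀)) : LaurentSeries Q̄), x.2⟩ := rfl

theorem redInf_eq (h : GaussInput A F₀) (x : ↥(Vinf A F₀ h))
    (a b : LaurentSeries ↥A.toSubring) (hb : redL (resA A) b ≠ 0)
    (hab : ((x : ↥(laurentBaseChange Q̄ F₀)) : LaurentSeries Q̄) * inclL A.toSubring b =
      inclL A.toSubring a) :
    redInf h x = redL (resA A) a / redL (resA A) b :=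
  redA_eq ⟨_, x.2⟩ a b hb hab

/-- the kernel of the reduction is the maximal ideal -/
theorem redInf_eq_zero_iff (h : GaussInput A F₀) (x : ↥(Vinf A F₀ h)) :
    redInf h x = 0 ↔ (Vinf A F₀ h).valuation (x : ↥(laurentBaseChange Q̄ F₀)) < 1 := by
  rw [valuation_lt_one_iff_mem]
  constructor
  · intro h0
    refine ⟨x.2, ?_⟩
    by_contra hcon
    push Not at hcon
    obtain ⟨hx0, hxinv⟩ := hcon
    have hx0' : ((x : ↥(laurentBaseChange Q̄ F₀)) : LaurentSeries Q̄) ≠ 0 :=
      fun h1 => hx0 (Subtype.ext h1)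
    exact redA_ne_zero_of_inv_mem ⟨_, x.2⟩ hx0' hxinv h0
  · rintro ⟨-, h1 | h1⟩
    · have : x = 0 := Subtype.ext h1
      rw [this, _root_.map_zero]
    · by_contra hne
      exact h1 (inv_mem_gaussA_of_redA_ne_zero ⟨_, x.2⟩ hne)

/-- `V∞ ∩ Q̄ = A`. -/
theorem algebraMap_mem_Vinf_iff (h : GaussInput A F₀) {c : Q̄} :
    algebraMap Q̄ ↥(laurentBaseChange Q̄ F₀) c ∈ Vinf A F₀ h ↔ c ∈ A := by
  rw [mem_Vinf_iff]
  have : ((algebraMap Q̄ ↥(laurentBaseChange Q̄ F₀) c : ↥(laurentBaseChange Q̄ F₀)) :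
      LaurentSeries Q̄) = HahnSeries.C c := by
    show algebraMap Q̄ (LaurentSeries Q̄) c = _
    rw [algebraMap_laurentSeries_eq_single]
    rfl
  rw [this]
  exact const_mem_gaussA

theorem valuation_algebraMap_eq_one (h : GaussInput A F₀) {c : Q̄} (hc : A.valuation c = 1) :
    (Vinf A F₀ h).valuation (algebraMap Q̄ ↥(laurentBaseChange Q̄ F₀) c) = 1 := by
  have hc0 : c ≠ 0 := by
    rintro rfl
    rw [_root_.map_zero] at hc
    exact zero_ne_one hc
  rw [valuation_eq_one_iff_mem _ (by simpa using hc0), ← map_inv₀, algebraMap_mem_Vinf_iff,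
    algebraMap_mem_Vinf_iff, ← A.valuation_le_one_iff, ← A.valuation_le_one_iff, map_inv₀, hc]
  simp

/-! ### The hypotheses of K2 -/

/-- the subfield of constants of `F̄` -/
def constField (F₀ : IntermediateField ℚ (LaurentSeries ℚ)) :
    Subfield ↥(laurentBaseChange Q̄ F₀) :=
  (algebraMap Q̄ ↥(laurentBaseChange Q̄ F₀)).fieldRange

theorem mem_constField {x : ↥(laurentBaseChange Q̄ F₀)} :
    x ∈ constField F₀ ↔ ∃ c : Q̄, algebraMap Q̄ ↥(laurentBaseChange Q̄ F₀) c = x :=
  Iff.rfl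

/-- Galois preserves the constants. -/
theorem arithmeticRingAut_mem_constField (σ : Q̄ ≃ₐ[ℚ] Q̄) {c : ↥(laurentBaseChange Q̄ F₀)}
    (hc : c ∈ constField F₀) : arithmeticRingAut F₀ σ c ∈ constField F₀ := by
  obtain ⟨c₀, rfl⟩ := hc
  exact ⟨σ c₀, (arithmeticRingAut_algebraMap F₀ σ c₀).symm⟩

/-- **K2 hypothesis `HasConstValues`** for `V∞`. -/
theorem hasConstValues_Vinf (h : GaussInput A F₀) :
    HasConstValues (constField F₀) (Vinf A F₀ h) := by
  intro f hf
  have hf0 : (f : LaurentSeries Q̄) ≠ 0 := fun h0 => hf (Subtype.ext h0)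
  obtain ⟨c, hc, a, b, ha, hb, hab⟩ := h.hasGaussForm f.2 hf0
  refine ⟨algebraMap Q̄ _ c, ⟨c, rfl⟩, by simpa using hc, ?_⟩
  have hC := C_ne_zero' (K := Q̄) hc
  have hcoe : ((f * (algebraMap Q̄ ↥(laurentBaseChange Q̄ F₀) c)⁻¹ :
      ↥(laurentBaseChange Q̄ F₀)) : LaurentSeries Q̄) =
      (f : LaurentSeries Q̄) * (HahnSeries.C c)⁻¹ := by
    have : ((algebraMap Q̄ ↥(laurentBaseChange Q̄ F₀) c : ↥(laurentBaseChange Q̄ F₀)) :
        LaurentSeries Q̄) = HahnSeries.C c := by
      show algebraMap Q̄ (LaurentSeries Q̄) c = _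
      rw [algebraMap_laurentSeries_eq_single]
      rfl
    rw [← this]
    rfl
  have hrel : (f : LaurentSeries Q̄) * (HahnSeries.C c)⁻¹ * inclL A.toSubring b =
      inclL A.toSubring a := by
    calc (f : LaurentSeries Q̄) * (HahnSeries.C c)⁻¹ * inclL A.toSubring b
        = (HahnSeries.C c)⁻¹ * ((f : LaurentSeries Q̄) * inclL A.toSubring b) := by ring
      _ = inclL A.toSubring a := by rw [hab, ← mul_assoc, inv_mul_cancel₀ hC, one_mul]
  have hmem : (f : LaurentSeries Q̄) * (HahnSeries.C c)⁻¹ ∈ gaussA A := ⟨a, b, hb, hrel⟩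
  have hred : redA A ⟨_, hmem⟩ ≠ 0 := by
    rw [redA_eq ⟨_, hmem⟩ a b hb hrel]
    exact div_ne_zero ha hb
  have hinv := inv_mem_gaussA_of_redA_ne_zero ⟨_, hmem⟩ hred
  have hne : f * (algebraMap Q̄ ↥(laurentBaseChange Q̄ F₀) c)⁻¹ ≠ 0 :=
    mul_ne_zero hf (inv_ne_zero (by simpa using hc))
  show (Vinf A F₀ h).valuation _ = 1
  rw [valuation_eq_one_iff_mem _ hne, mem_Vinf_iff, mem_Vinf_iff]
  refine ⟨by rw [hcoe]; exact hmem, ?_⟩
  have : (((f * (algebraMap Q̄ ↥(laurentBaseChange Q̄ F₀) c)⁻¹)⁻¹ :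
      ↥(laurentBaseChange Q̄ F₀)) : LaurentSeries Q̄) =
      ((f : LaurentSeries Q̄) * (HahnSeries.C c)⁻¹)⁻¹ := by
    rw [← hcoe]
    push_cast
    rfl
  rw [this]
  exact hinv

/-- **K2 hypothesis `PreservesConstValues`** for `V∞` and `σ` in the decomposition group. -/
theorem preservesConstValues_Vinf (h : GaussInput A F₀) {σ : Q̄ ≃ₐ[ℚ] Q̄}
    (hσ : σ ∈ A.decompositionSubgroup ℚ) :
    PreservesConstValues (constField F₀) (Vinf A F₀ h) (arithmeticRingAut F₀ σ) := by
  haveI := isAlgebraic_Qbar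
  rintro c ⟨c₀, rfl⟩ hc
  have hc₀ : c₀ ≠ 0 := by
    rintro rfl
    exact hc (_root_.map_zero _)
  show (Vinf A F₀ h).valuation _ = 1
  rw [arithmeticRingAut_algebraMap, ← map_inv₀, ← _root_.map_mul]
  apply valuation_algebraMap_eq_one
  rw [← div_eq_mul_inv]
  exact Fermat.Agent.A2.H708.valuation_apply_div_self A hσ hc₀

/-! ### Inertia acts trivially on the residue field of `V∞` -/

/-- restriction of `σ` in the decomposition group to `A` -/
def restrictA (A : ValuationSubring Q̄) {σ : Q̄ ≃ₐ[ℚ] Q̄} (hσ : σ ∈ A.decompositionSubgroup ℚ) :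
    ↥A.toSubring →+* ↥A.toSubring :=
  ((σ : Q̄ →+* Q̄).comp A.toSubring.subtype).codRestrict A.toSubring
    (fun x => Fermat.Agent.A2.H708.apply_mem_of_mem_decomposition A hσ x.2)

theorem coe_restrictA {σ : Q̄ ≃ₐ[ℚ] Q̄} (hσ : σ ∈ A.decompositionSubgroup ℚ)
    (x : ↥A.toSubring) : ((restrictA A hσ x : ↥A.toSubring) : Q̄) = σ (x : Q̄) := rfl

theorem coeffMap_inclL {σ : Q̄ ≃ₐ[ℚ] Q̄} (hσ : σ ∈ A.decompositionSubgroup ℚ)
    (a : LaurentSeries ↥A.toSubring) :
    coeffMap (σ : Q̄ →+* Q̄) (inclL A.toSubring a) =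
      inclL A.toSubring (coeffMap (restrictA A hσ) a) := by
  ext n
  rfl

theorem redL_coeffMap_restrictA {σ : Q̄ ≃ₐ[ℚ] Q̄} (hσ : σ ∈ A.inertiaSubgroupIn ℚ)
    (a : LaurentSeries ↥A.toSubring) :
    redL (resA A)
      (coeffMap (restrictA A (Fermat.Agent.A2.H708.mem_decomposition_of_mem_inertiaIn A hσ)) a)
      = redL (resA A) a := by
  ext n
  rw [redL_coeff, redL_coeff, coeffMap_coeff, ← sub_eq_zero, ← _root_.map_sub, resA_eq_zero_iff]
  exact Fermat.Agent.A2.H708.valuation_sub_lt_one_of_mem_inertiaIn A hσ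
    ((A.valuation_le_one_iff _).mpr (a.coeff n).2)

/-- the decomposition group preserves `V∞` -/
theorem arithmeticRingAut_mem_Vinf (h : GaussInput A F₀) {σ : Q̄ ≃ₐ[ℚ] Q̄}
    (hσ : σ ∈ A.decompositionSubgroup ℚ) {u : ↥(laurentBaseChange Q̄ F₀)}
    (hu : u ∈ Vinf A F₀ h) : arithmeticRingAut F₀ σ u ∈ Vinf A F₀ h := by
  obtain ⟨a, b, hb, hab⟩ := hu
  have hinj : Function.Injective (coeffMap (restrictA A hσ)) := by
    apply coeffMap_injective
    intro x y hxy
    apply Subtype.ext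
    have := congrArg (fun z : ↥A.toSubring => (z : Q̄)) hxy
    simp only [coe_restrictA] at this
    exact σ.injective this
  refine ⟨coeffMap (restrictA A hσ) a, coeffMap (restrictA A hσ) b, ?_, ?_⟩
  · -- `redL` of the twisted denominator is nonzero: the twist is primitive again
    rw [redL_ne_zero_iff] at hb ⊢
    obtain ⟨n, hn⟩ := hb
    refine ⟨n, ?_⟩
    rw [coeffMap_coeff, coe_restrictA]
    haveI := isAlgebraic_Qbar
    rw [Fermat.Agent.A2.H708.valuation_apply_of_mem_decomposition A hσ]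
    exact hn
  · show coeffMap (σ : Q̄ →+* Q̄) (u : LaurentSeries Q̄) * _ = _
    rw [← coeffMap_inclL hσ, ← coeffMap_inclL hσ, ← _root_.map_mul]
    exact congrArg _ hab

/-- **K2 hypothesis `InInertia`** for `V∞`: the inertia group of `A` acts trivially on the residue
field of `V∞`. -/
theorem inInertia_Vinf (h : GaussInput A F₀) {σ : Q̄ ≃ₐ[ℚ] Q̄}
    (hσ : σ ∈ A.inertiaSubgroupIn ℚ) :
    InInertia (Vinf A F₀ h) (arithmeticRingAut F₀ σ) := by
  intro u hu
  have hσD := Fermat.Agent.A2.H708.mem_decomposition_of_mem_inertiaIn A hσ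
  have huV : u ∈ Vinf A F₀ h := ((Vinf A F₀ h).valuation_le_one_iff u).mp hu
  have hτuV := arithmeticRingAut_mem_Vinf h hσD huV
  have hsub : arithmeticRingAut F₀ σ u - u ∈ Vinf A F₀ h := _root_.sub_mem hτuV huV
  have key : redInf h ⟨_, hτuV⟩ = redInf h ⟨u, huV⟩ := by
    obtain ⟨a, b, hb, hab⟩ := huV
    have hb' : redL (resA A) (coeffMap (restrictA A hσD) b) ≠ 0 := by
      rw [redL_coeffMap_restrictA hσ]; exact hb
    have hab' : ((arithmeticRingAut F₀ σ u : ↥(laurentBaseChange Q̄ F₀)) : LaurentSeries Q̄) *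
        inclL A.toSubring (coeffMap (restrictA A hσD) b) =
        inclL A.toSubring (coeffMap (restrictA A hσD) a) := by
      show coeffMap (σ : Q̄ →+* Q̄) (u : LaurentSeries Q̄) * _ = _
      rw [← coeffMap_inclL hσD, ← coeffMap_inclL hσD, ← _root_.map_mul]
      exact congrArg _ hab
    rw [redInf_eq h ⟨_, hτuV⟩ _ _ hb' hab', redInf_eq h ⟨u, _⟩ a b hb hab,
      redL_coeffMap_restrictA hσ, redL_coeffMap_restrictA hσ]
  have h0 : redInf h ⟨_, hsub⟩ = 0 := by
    have : (⟨_, hsub⟩ : ↥(Vinf A F₀ h)) = ⟨_, hτuV⟩ - ⟨u, huV⟩ := rfl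
    rw [this, _root_.map_sub, key, sub_self]
  exact (redInf_eq_zero_iff h ⟨_, hsub⟩).mp h0

/-- the reduction map is invariant under inertia -/
theorem redInf_arithmeticRingAut (h : GaussInput A F₀) {σ : Q̄ ≃ₐ[ℚ] Q̄}
    (hσ : σ ∈ A.inertiaSubgroupIn ℚ) (u : ↥(laurentBaseChange Q̄ F₀)) (hu : u ∈ Vinf A F₀ h) :
    redInf h ⟨arithmeticRingAut F₀ σ u, arithmeticRingAut_mem_Vinf h
      (Fermat.Agent.A2.H708.mem_decomposition_of_mem_inertiaIn A hσ) hu⟩ =
      redInf h ⟨u, hu⟩ := by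
  have hσD := Fermat.Agent.A2.H708.mem_decomposition_of_mem_inertiaIn A hσ
  obtain ⟨a, b, hb, hab⟩ := hu
  have hb' : redL (resA A) (coeffMap (restrictA A hσD) b) ≠ 0 := by
    rw [redL_coeffMap_restrictA hσ]; exact hb
  have hab' : ((arithmeticRingAut F₀ σ u : ↥(laurentBaseChange Q̄ F₀)) : LaurentSeries Q̄) *
      inclL A.toSubring (coeffMap (restrictA A hσD) b) =
      inclL A.toSubring (coeffMap (restrictA A hσD) a) := by
    show coeffMap (σ : Q̄ →+* Q̄) (u : LaurentSeries Q̄) * _ = _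
    rw [← coeffMap_inclL hσD, ← coeffMap_inclL hσD, ← _root_.map_mul]
    exact congrArg _ hab
  rw [redInf_eq h ⟨_, _⟩ _ _ hb' hab', redInf_eq h ⟨u, _⟩ a b hb hab,
    redL_coeffMap_restrictA hσ, redL_coeffMap_restrictA hσ]

end Fermat.Agent.A2.H553

end
end
-- ===== PACK-END A2/H553/Vinf.lean

-- ===== PACK-BEGIN Ribet/H495/AlgPAsm.lean
section



/-!
# W-ALGP: LF-p and the assembly `algP_of_leaves` (helper495)

* `localFactorP_of_pureAtP` (**LF-p**): `PureAtP u n ⟹ LocalFactorP (τ u / u ^ c) n`.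
* `algP_of_leaves` : `WPSmoothLeaf → WPNodeLeaf → GluePLeaf → AlgPStatement`.
-/

set_option autoImplicit false
set_option linter.style.haveILetI false
set_option linter.unusedSectionVars false

namespace Fermat.Agent.Ribet.H495.AlgP

open Fermat.Agent.A2 Fermat.Agent.A2.Alg

section LF

variable {R F : Type*} [CommRing R] [Field F] [Algebra R F]

theorem w_mem_comp₁ {w : R} {B : Subalgebra R F} (c : SSChart w B) :
    algebraMap R B w ∈ c.p₁ := by
  have : algebraMap R B w ∈ c.p₁ ⊓ c.p₂ := by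
    rw [c.inf_eq]
    exact Ideal.mem_span_singleton_self _
  exact this.1

theorem w_mem_comp₂ {w : R} {B : Subalgebra R F} (c : SSChart w B) :
    algebraMap R B w ∈ c.p₂ := by
  have : algebraMap R B w ∈ c.p₁ ⊓ c.p₂ := by
    rw [c.inf_eq]
    exact Ideal.mem_span_singleton_self _
  exact this.2

/-- the component part of LF-p: `ζ^j d ∈ 1 + λ B_𝔭 ⟹ τ d / d^c ∈ 1 + λ w B_𝔭`. -/
theorem comp_of_pure {w : R} {B : Subalgebra R F} {τ : F ≃+* F}
    (hτB : ∀ b ∈ B, ∃ c ∈ B, τ b - b = algebraMap R F w * c)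
    (𝔭 : Ideal B) (h𝔭 : 𝔭.IsPrime) (hw𝔭 : algebraMap R B w ∈ 𝔭)
    (p : ℕ) (ζ ρ k₀ κ₁ : R) (cc : ℕ) (hζp : ζ ^ p = 1) (hp : 0 < p)
    (hlam : ζ - 1 = w * ρ)
    (hτζ : τ (algebraMap R F ζ) = algebraMap R F (ζ ^ cc))
    (hgeom : ζ ^ cc - 1 = (ζ - 1) * k₀)
    (hk1 : k₀ = (cc : R) + w * κ₁)
    {d : F} (hd : d ≠ 0) {j : ℕ} (h : LocOneR B 𝔭 (ζ - 1) (algebraMap R F (ζ ^ j) * d)) :
    LocOneR B 𝔭 ((ζ - 1) * w) (τ d * (d ^ cc)⁻¹) := by
  have hS := tauLoc_locSub w B τ hτB 𝔭 h𝔭 hw𝔭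
  obtain ⟨z, hz, e⟩ := (locOneR_iff h𝔭).1 h
  have hτlam : τ (algebraMap R F (ζ - 1)) = algebraMap R F (ζ - 1) * algebraMap R F k₀ := by
    rw [map_sub, map_sub, map_one, map_one, hτζ, ← map_one (algebraMap R F), ← map_sub,
      ← map_sub, ← map_mul, hgeom]
  obtain ⟨hne, s, hs, hτ⟩ := tau_one_add hS (ζ - 1) ρ k₀ κ₁ cc 1 one_pos hlam hτlam
    (by rw [pow_one]; exact hk1) hz
  rw [pow_one] at hτ hne
  have hZ : algebraMap R F ζ ^ p = 1 := by rw [← map_pow, hζp, map_one]
  have hZ0 : algebraMap R F ζ ≠ 0 := by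
    intro h0
    rw [h0, zero_pow hp.ne'] at hZ
    exact zero_ne_one hZ
  have hZj : algebraMap R F (ζ ^ j) ≠ 0 := by
    rw [map_pow]
    exact pow_ne_zero _ hZ0
  have hτZj : τ (algebraMap R F (ζ ^ j)) = algebraMap R F (ζ ^ j) ^ cc := by
    rw [map_pow, map_pow, hτζ, map_pow, ← pow_mul, ← pow_mul, mul_comm]
  -- `τ (ζ^j d) = (ζ^j d)^c (1 + λ w s)`
  rw [← e, map_mul, hτZj, mul_pow] at hτ
  have hτd : τ d = d ^ cc * (1 + algebraMap R F (ζ - 1) * algebraMap R F w * s) := by
    have h3 := mul_left_cancel₀ (pow_ne_zero cc hZj)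
      (show algebraMap R F (ζ ^ j) ^ cc * τ d = algebraMap R F (ζ ^ j) ^ cc *
        (d ^ cc * (1 + algebraMap R F (ζ - 1) * algebraMap R F w * s)) by
        rw [hτ]; ring)
    exact h3
  refine (locOneR_iff h𝔭).2 ⟨s, hs, ?_⟩
  rw [hτd, map_mul]
  field_simp

/-- **LF-p.** -/
theorem localFactorP_of_pureAtP {w : R} {B : Subalgebra R F} (c : SSChart w B) {τ : F ≃+* F}
    (hτB : ∀ b ∈ B, ∃ c ∈ B, τ b - b = algebraMap R F w * c)
    (n : Ideal B) (hn : n.IsPrime) (hwn : algebraMap R B w ∈ n)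
    (p : ℕ) (ζ ρ k₀ κ₁ κ₂ : R) (cc : ℕ) (hζp : ζ ^ p = 1) (hp : 0 < p)
    (hlam : ζ - 1 = w * ρ)
    (hτζ : τ (algebraMap R F ζ) = algebraMap R F (ζ ^ cc))
    (hgeom : ζ ^ cc - 1 = (ζ - 1) * k₀)
    (hk1 : k₀ = (cc : R) + w * κ₁) (hkp : k₀ ^ p = (cc : R) + w * κ₂)
    {u : F} (hu : u ≠ 0) (h : PureAtP B c p ζ u n) :
    LocalFactorP B c p (ζ - 1) (τ u * (u ^ cc)⁻¹) n := by
  obtain ⟨d, hd, hloc, ⟨j₁, h₁⟩, ⟨j₂, h₂⟩⟩ := h
  have hτd : τ d ≠ 0 := (map_ne_zero τ).2 hd
  refine ⟨τ d * (d ^ cc)⁻¹, mul_ne_zero hτd (inv_ne_zero (pow_ne_zero _ hd)), ?_,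
    comp_of_pure hτB c.p₁ c.prime₁ (w_mem_comp₁ c) p ζ ρ k₀ κ₁ cc hζp hp hlam hτζ hgeom hk1 hd h₁,
    comp_of_pure hτB c.p₂ c.prime₂ (w_mem_comp₂ c) p ζ ρ k₀ κ₁ cc hζp hp hlam hτζ hgeom hk1 hd h₂⟩
  have hS := tauLoc_locSub w B τ hτB n hn hwn
  obtain ⟨t, ht, e⟩ := (locOneR_iff hn).1 hloc
  have hτlam : τ (algebraMap R F (ζ - 1)) = algebraMap R F (ζ - 1) * algebraMap R F k₀ := by
    rw [map_sub, map_sub, map_one, map_one, hτζ, ← map_one (algebraMap R F), ← map_sub,
      ← map_sub, ← map_mul, hgeom]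
  obtain ⟨hne, s, hs, hτ⟩ := tau_one_add hS (ζ - 1) ρ k₀ κ₂ cc p hp hlam hτlam hkp ht
  rw [map_pow] at e
  rw [← e] at hτ hne
  refine (locOneR_iff hn).2 ⟨s, hs, ?_⟩
  have hu' : u ^ cc ≠ 0 := pow_ne_zero _ hu
  have hd' : d ^ cc ≠ 0 := pow_ne_zero _ hd
  have key : τ u * (u ^ cc)⁻¹ * (τ d * (d ^ cc)⁻¹) ^ p = τ (u * d ^ p) * ((u * d ^ p) ^ cc)⁻¹ := by
    rw [map_mul, map_pow, mul_pow, mul_pow, inv_pow, mul_inv, ← pow_mul, ← pow_mul,
      mul_comm p cc]
    ring
  rw [key, hτ, map_mul, map_pow]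
  field_simp

end LF

section Div

variable {E F : Type*} [Field E] [Field F] [Algebra E F]

theorem divisibleDiv_pow495 (m : ℕ) (f : F) (hf : DivisibleDiv E m f) (c : ℕ) :
    DivisibleDiv E m (f ^ c) := by
  intro V hV hE
  obtain ⟨h, u, hh, hu, hu', rfl⟩ := hf V hV hE
  refine ⟨h ^ c, u ^ c, pow_ne_zero _ hh, V.pow_mem hu c, ?_, ?_⟩
  · rw [← inv_pow]
    exact V.pow_mem hu' c
  · rw [mul_pow, ← pow_mul, ← pow_mul, mul_comm m c]

end Div

section Asm

variable {R E F : Type} [CommRing R] [IsDomain R] [IsDiscreteValuationRing R]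
  [HenselianLocalRing R] [IsAlgClosed (IsLocalRing.ResidueField R)]
  [Field E] [CharZero E] [Algebra R E] [IsFractionRing R E]
  [Field F] [Algebra E F] [Algebra R F] [IsScalarTower R E F]

/-- `ζ - 1` lies in the maximal ideal. -/
theorem zeta_sub_one_mem (p : ℕ) (hp : p.Prime) (hpR : (p : R) ∈ IsLocalRing.maximalIdeal R)
    (ζ : R) (hζ : ζ ^ p = 1) : ζ - 1 ∈ IsLocalRing.maximalIdeal R := by
  haveI : Fact p.Prime := ⟨hp⟩
  have h0 : ((p : ℕ) : IsLocalRing.ResidueField R) = 0 := by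
    have := (IsLocalRing.residue_eq_zero_iff (p : R)).2 hpR
    rwa [map_natCast] at this
  haveI : CharP (IsLocalRing.ResidueField R) p := (CharP.charP_iff_prime_eq_zero hp).2 h0
  rw [← IsLocalRing.residue_eq_zero_iff]
  have h1 : (IsLocalRing.residue R (ζ - 1)) ^ p = 0 := by
    rw [map_sub, map_one, sub_pow_char, one_pow, ← map_pow, hζ, map_one, sub_self]
  exact pow_eq_zero_iff (hp.ne_zero) |>.1 h1

/-- the arithmetic of the cyclotomic exponent modulo `w`. -/
theorem exists_cyclo_data (w : R) (hw : Irreducible w) (p : ℕ) (hp : p.Prime)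
    (hpR : (p : R) ∈ IsLocalRing.maximalIdeal R) (ζ : R) (hζ : ζ ^ p = 1) (c : ℕ) :
    ∃ ρ k₀ κ₁ κ₂ : R, ζ - 1 = w * ρ ∧ ζ ^ c - 1 = (ζ - 1) * k₀ ∧
      k₀ = (c : R) + w * κ₁ ∧ k₀ ^ p = (c : R) + w * κ₂ := by
  have hmax : IsLocalRing.maximalIdeal R = Ideal.span {w} := hw.maximalIdeal_eq
  have hmem : ∀ r : R, r ∈ IsLocalRing.maximalIdeal R ↔ ∃ s, r = w * s := by
    intro r
    rw [hmax, Ideal.mem_span_singleton']
    constructor
    · rintro ⟨a, ha⟩
      exact ⟨a, by rw [← ha, mul_comm]⟩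
    · rintro ⟨s, hs⟩
      exact ⟨s, by rw [hs, mul_comm]⟩
  obtain ⟨ρ, hρ⟩ := (hmem _).1 (zeta_sub_one_mem p hp hpR ζ hζ)
  set k₀ : R := ∑ i ∈ Finset.range c, ζ ^ i with hk₀
  have hgeom : ζ ^ c - 1 = (ζ - 1) * k₀ := (mul_geom_sum ζ c).symm
  -- `k₀ - c ∈ 𝔪`
  have h1 : k₀ - (c : R) ∈ IsLocalRing.maximalIdeal R := by
    have : k₀ - (c : R) = ∑ i ∈ Finset.range c, (ζ ^ i - 1) := by
      rw [Finset.sum_sub_distrib, Finset.sum_const, Finset.card_range, nsmul_eq_mul, mul_one]
    rw [this]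
    refine Ideal.sum_mem _ fun i _ => ?_
    have hi : ζ ^ i - 1 = (ζ - 1) * ∑ j ∈ Finset.range i, ζ ^ j := (mul_geom_sum ζ i).symm
    rw [hi]
    exact Ideal.mul_mem_right _ _ (zeta_sub_one_mem p hp hpR ζ hζ)
  obtain ⟨κ₁, hκ₁⟩ := (hmem _).1 h1
  -- `k₀^p - c ∈ 𝔪`
  have h2 : k₀ ^ p - (c : R) ∈ IsLocalRing.maximalIdeal R := by
    have ha : k₀ ^ p - (c : R) ^ p ∈ IsLocalRing.maximalIdeal R := by
      obtain ⟨q, hq⟩ := sub_dvd_pow_sub_pow k₀ (c : R) p
      rw [hq]
      exact Ideal.mul_mem_right _ _ h1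
    have hb : (c : R) ^ p - (c : R) ∈ IsLocalRing.maximalIdeal R := by
      haveI : Fact p.Prime := ⟨hp⟩
      have hz : ((c : ZMod p)) ^ p - (c : ZMod p) = 0 := by rw [ZMod.pow_card, sub_self]
      have hz' : (((c : ℤ) ^ p - (c : ℤ) : ℤ) : ZMod p) = 0 := by
        push_cast
        exact hz
      obtain ⟨m, hm⟩ := (ZMod.intCast_zmod_eq_zero_iff_dvd _ p).1 hz'
      have : (c : R) ^ p - (c : R) = (p : R) * (m : R) := by
        have := congrArg (Int.cast : ℤ → R) hm
        push_cast at this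
        exact this
      rw [this]
      exact Ideal.mul_mem_right _ _ hpR
    have : k₀ ^ p - (c : R) = (k₀ ^ p - (c : R) ^ p) + ((c : R) ^ p - (c : R)) := by ring
    rw [this]
    exact Ideal.add_mem _ ha hb
  obtain ⟨κ₂, hκ₂⟩ := (hmem _).1 h2
  exact ⟨ρ, k₀, κ₁, κ₂, hρ, hgeom, by linear_combination hκ₁, by linear_combination hκ₂⟩

/-- **ALG-p from the three leaves.** -/
theorem algP_of_leaves (hS : WPSmoothLeaf) (hN : WPNodeLeaf) (hG : GluePLeaf) :
    AlgPStatement := by
  intro R E F _ _ _ _ _ _ _ _ _ _ _ _ _ w hw p hp hp2 hpR ζ hζ x hx hfin hconst Bf Bi hBf hBi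
    cf ci τ τE τR hτE hτR hτf hτi c hc u hu hdiv hdf hdi
  have hCf : ChartCtx E w x Bf := ⟨hw, hx, hfin, hconst, hBf⟩
  have hCi : ChartCtx E w x⁻¹ Bi := H34.chartCtx_inv w hw x hx hfin hconst Bi hBi
  have hIf : Incomparable cf := ⟨cf.not_le₁₂, cf.not_le₂₁⟩
  have hIi : Incomparable ci := ⟨ci.not_le₁₂, ci.not_le₂₁⟩
  have hζp : ζ ^ p = 1 := hζ.pow_eq_one
  obtain ⟨ρ, k₀, κ₁, κ₂, hlam, hgeom, hk1, hkp⟩ := exists_cyclo_data w hw p hp hpR ζ hζp c
  have hτζ : τ (algebraMap R F ζ) = algebraMap R F (ζ ^ c) := by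
    rw [IsScalarTower.algebraMap_apply R E F, hτE, hτR, hc,
      ← IsScalarTower.algebraMap_apply R E F]
  have hτu : τ u ≠ 0 := (map_ne_zero τ).2 hu
  have hv : τ u * (u ^ c)⁻¹ ≠ 0 := mul_ne_zero hτu (inv_ne_zero (pow_ne_zero _ hu))
  have hdivv : DivisibleDiv E p (τ u * (u ^ c)⁻¹) :=
    H34.divisibleDiv_mul_inv p _ _ (H34.divisibleDiv_tau τ τE hτE p u hdiv)
      (divisibleDiv_pow495 p u hdiv c)
  have hlf : LocallyFactoredP Bf cf p (ζ - 1) (τ u * (u ^ c)⁻¹) := by
    intro n hn hwn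
    have hpure : PureAtP Bf cf p ζ u n := by
      by_cases h1 : cf.p₁ ≤ n ∧ cf.p₂ ≤ n
      · exact hN p hp hp2 hpR ζ hζ w x Bf hCf cf hIf u hu hdiv hdf n hn hwn h1.1 h1.2
      · exact hS p hp hp2 hpR ζ hζ w x Bf hCf cf hIf u hu hdiv hdf n hn hwn h1
    exact localFactorP_of_pureAtP cf hτf n hn.isPrime hwn p ζ ρ k₀ κ₁ κ₂ c hζp hp.pos hlam hτζ
      hgeom hk1 hkp hu hpure
  have hli : LocallyFactoredP Bi ci p (ζ - 1) (τ u * (u ^ c)⁻¹) := by
    intro n hn hwn
    have hpure : PureAtP Bi ci p ζ u n := by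
      by_cases h1 : ci.p₁ ≤ n ∧ ci.p₂ ≤ n
      · exact hN p hp hp2 hpR ζ hζ w x⁻¹ Bi hCi ci hIi u hu hdiv hdi n hn hwn h1.1 h1.2
      · exact hS p hp hp2 hpR ζ hζ w x⁻¹ Bi hCi ci hIi u hu hdiv hdi n hn hwn h1
    exact localFactorP_of_pureAtP ci hτi n hn.isPrime hwn p ζ ρ k₀ κ₁ κ₂ c hζp hp.pos hlam hτζ
      hgeom hk1 hkp hu hpure
  obtain ⟨y, hy, hyv⟩ := hG p hp hp2 hpR ζ hζ w x Bf Bi hCf hCi cf ci hIf hIi _ hv hdivv hlf hli
  refine ⟨y, hy, ?_⟩
  rw [← hyv, mul_assoc, inv_mul_cancel₀ (pow_ne_zero _ hu), mul_one]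

end Asm

end Fermat.Agent.Ribet.H495.AlgP

end
-- ===== PACK-END Ribet/H495/AlgPAsm.lean

-- ===== PACK-BEGIN A2/Alg/H754/PuritySmooth.lean
section





/-!
# A2 / ALG leaf P-S (helper754): `purity_smooth`, VERBATIM statement of `A2/Alg/Skel.lean`

Purity at a closed point `n` of the special fibre lying on exactly ONE component `p` of the
chart `B`:

* `B` is a Noetherian integrally closed domain with fraction field `F`
  (`S18.H394.chart_instances`), integral over `R[x]` of Krull dimension `2`, so `B ⧸ p` is a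
  Dedekind domain (`isDedekindDomain_quotient_of_dim`);
* `m ∣ div u` at every height-one prime of `B` (`divisibleDivisor_of_divisibleDiv`: horizontal
  primes from `DivisibleDiv`, the two vertical primes from `IsSplit`);
* abstract purity `pure_smooth_abs` (`B_n` is a UFD).

Also exported (reusable for P-N / GLUE): `chart_package`, `isDedekindDomain_component`,
`divisibleDivisor_of_divisibleDiv`.
-/

set_option autoImplicit false
set_option linter.style.haveILetI false
set_option linter.unusedSectionVars false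
set_option linter.unusedVariables false

noncomputable section

namespace Fermat.Agent.A2.Alg.H754

open Polynomial IsLocalRing
open Fermat.Agent.A2
open Fermat.Agent.S18.H138 (chart baseField)
open Fermat.Agent.S18.H754 (DivisibleDivisor)

section Chart

variable {R E F : Type*} [CommRing R] [IsDomain R] [IsDiscreteValuationRing R]
  [Field E] [Algebra R E] [IsFractionRing R E]
  [Field F] [Algebra E F] [Algebra R F] [IsScalarTower R E F]

omit [IsDomain R] [IsDiscreteValuationRing R] in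
theorem finiteDimensional_baseField (x : F)
    (hfin : FiniteDimensional (IntermediateField.adjoin E ({x} : Set F)) F) :
    FiniteDimensional (baseField R x) F := by
  have hle : ∀ z : F, z ∈ IntermediateField.adjoin E ({x} : Set F) → z ∈ baseField R x := by
    intro z hz
    have hz' : z ∈ Subfield.closure (Set.range (algebraMap E F) ∪ {x}) := hz
    refine Subfield.closure_le.2 ?_ hz'
    rintro y (⟨e, rfl⟩ | hy)
    · obtain ⟨a, b, hb, rfl⟩ := IsFractionRing.div_surjective (A := R) e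
      rw [map_div₀, ← IsScalarTower.algebraMap_apply, ← IsScalarTower.algebraMap_apply]
      exact (baseField R x).div_mem (Subfield.subset_closure (Or.inl ⟨a, rfl⟩))
        (Subfield.subset_closure (Or.inl ⟨b, rfl⟩))
    · exact Subfield.subset_closure (Or.inr hy)
  let φ : (IntermediateField.adjoin E ({x} : Set F)) →+* (baseField R x) :=
    { toFun := fun z => ⟨z.1, hle z.1 z.2⟩
      map_one' := rfl
      map_mul' := fun _ _ => rfl
      map_zero' := rfl
      map_add' := fun _ _ => rfl }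
  letI : Algebra (IntermediateField.adjoin E ({x} : Set F)) (baseField R x) := φ.toAlgebra
  haveI : IsScalarTower (IntermediateField.adjoin E ({x} : Set F)) (baseField R x) F :=
    IsScalarTower.of_algebraMap_eq (fun _ => rfl)
  exact Module.Finite.of_restrictScalars_finite (IntermediateField.adjoin E ({x} : Set F))
    (baseField R x) F

omit [Field E] [Algebra R E] [IsFractionRing R E] [Algebra E F] [IsScalarTower R E F] in
theorem ringKrullDim_adjoin_le (x : F) (hx : Transcendental R x) :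
    ringKrullDim (Algebra.adjoin R ({x} : Set F)) ≤ 2 := by
  have hinj : Function.Injective (aeval (R := R) x) :=
    (injective_iff_map_eq_zero _).2 (transcendental_iff.1 hx)
  let e : R[X] ≃ₐ[R] Algebra.adjoin R ({x} : Set F) :=
    (AlgEquiv.ofInjective (aeval (R := R) x) hinj).trans
      (Subalgebra.equivOfEq _ _ (Algebra.adjoin_singleton_eq_range_aeval R x).symm)
  rw [← ringKrullDim_eq_of_ringEquiv e.toRingEquiv, ringKrullDim_of_isNoetherianRing]
  have h1 : ringKrullDim R ≤ 1 := by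
    have := Ring.krullDimLE_iff.1 (inferInstance : Ring.KrullDimLE 1 R)
    exact_mod_cast this
  calc ringKrullDim R + 1 ≤ 1 + 1 := by gcongr
    _ = 2 := by norm_num

theorem transcendental_base [CharZero E] {x : F} (hx : Transcendental E x) : Transcendental R x :=
  hx.restrictScalars (IsFractionRing.injective R E)

include E in
omit [IsDomain R] [IsDiscreteValuationRing R] in
theorem algebraMap_base_injective : Function.Injective (algebraMap R F) := by
  rw [IsScalarTower.algebraMap_eq R E F]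
  exact (algebraMap E F).injective.comp (IsFractionRing.injective R E)

include E in
omit [IsDomain R] [IsDiscreteValuationRing R] in
theorem algebraMap_chart_injective (B : Subalgebra R F) :
    Function.Injective (algebraMap R B) := by
  intro a b hab
  apply algebraMap_base_injective (E := E) (F := F)
  have := congrArg (fun z : B => (z : F)) hab
  exact this

/-- The chart is a Noetherian integrally closed domain with fraction field `F`. -/
theorem chart_package [CharZero E] (w : R) (x : F) (B : Subalgebra R F) (hB : ChartCtx E w x B) :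
    IsNoetherianRing B ∧ IsIntegrallyClosed B ∧ IsFractionRing B F := by
  obtain rfl : B = chart R ({x} : Set F) :=
    SetLike.ext fun f => (hB.hB f).trans Fermat.Agent.S18.H138.mem_chart.symm
  haveI : CharZero F := charZero_of_injective_algebraMap (algebraMap E F).injective
  haveI := finiteDimensional_baseField (R := R) x hB.hfin
  exact Fermat.Agent.S18.H394.chart_instances (R := R) (transcendental_base hB.hx)

/-- The components of the chart are Dedekind. -/
theorem isDedekindDomain_component [CharZero E] (w : R) (x : F) (B : Subalgebra R F)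
    (hB : ChartCtx E w x B) (p : Ideal B) [hp : p.IsPrime] (hwp : algebraMap R B w ∈ p)
    (hnorm : IsIntegrallyClosed (B ⧸ p)) : IsDedekindDomain (B ⧸ p) := by
  obtain ⟨hN, -, -⟩ := chart_package w x B hB
  have hp0 : p ≠ ⊥ := by
    intro h0
    rw [h0, Ideal.mem_bot] at hwp
    exact hB.hw.ne_zero (algebraMap_chart_injective (E := E) B (by rw [hwp, _root_.map_zero]))
  obtain rfl : B = chart R ({x} : Set F) :=
    SetLike.ext fun f => (hB.hB f).trans Fermat.Agent.S18.H138.mem_chart.symm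
  have hxR : Transcendental R x := transcendental_base hB.hx
  haveI := Fermat.Agent.S18.H138.isNoetherianRing_adjoin_singleton (R := R) hxR
  letI : Algebra (Algebra.adjoin R ({x} : Set F)) (chart R ({x} : Set F)) :=
    inferInstanceAs (Algebra (Algebra.adjoin R ({x} : Set F))
      (integralClosure (Algebra.adjoin R ({x} : Set F)) F))
  haveI : Algebra.IsIntegral (Algebra.adjoin R ({x} : Set F)) (chart R ({x} : Set F)) :=
    inferInstanceAs (Algebra.IsIntegral (Algebra.adjoin R ({x} : Set F))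
      (integralClosure (Algebra.adjoin R ({x} : Set F)) F))
  exact isDedekindDomain_quotient_of_dim (A₀ := Algebra.adjoin R ({x} : Set F))
    (ringKrullDim_adjoin_le x hxR) p hp0 hnorm

/-- `m ∣ div u` at every height-one prime of the chart. -/
theorem divisibleDivisor_of_divisibleDiv (w : R) (hw : Irreducible w) (B : Subalgebra R F)
    [IsNoetherianRing B] [IsIntegrallyClosed B] [IsFractionRing B F]
    (c : SSChart w B) (m : ℕ) (u : F) (hdiv : DivisibleDiv E m u) (hs : IsSplit B c u) :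
    DivisibleDivisor B m u := by
  intro 𝔭 h𝔭 hht
  haveI := h𝔭
  have hinjB : Function.Injective (algebraMap R B) := algebraMap_chart_injective (E := E) B
  have hwB0 : algebraMap R B w ≠ 0 := fun h0 => hw.ne_zero (hinjB (by rw [h0, _root_.map_zero]))
  have hwpp : algebraMap R B w ∈ c.p₁ ⊓ c.p₂ := by
    rw [c.inf_eq]
    exact Ideal.mem_span_singleton_self _
  by_cases hw𝔭 : algebraMap R B w ∈ 𝔭
  · -- vertical prime: one of the two components
    have hle : c.p₁ * c.p₂ ≤ 𝔭 := by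
      refine le_trans Ideal.mul_le_inf ?_
      rw [c.inf_eq, Ideal.span_singleton_le_iff_mem]
      exact hw𝔭
    have key : ∀ p : Ideal B, p.IsPrime → algebraMap R B w ∈ p → p ≤ 𝔭 → ConstAt B p u →
        ∃ t : F, ∃ a s : B, a ∉ 𝔭 ∧ s ∉ 𝔭 ∧ u * t ^ m * algebraMap B F s = algebraMap B F a := by
      intro p hp hwp hp𝔭 hconst
      haveI := hp
      haveI : p.FiniteHeight := Ideal.finiteHeight_of_isNoetherianRing p
      have hpeq : p = 𝔭 := by
        refine Ideal.eq_of_le_of_height_le p hp𝔭 ?_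
        rw [hht, Order.one_le_iff_pos, pos_iff_ne_zero, Ne, Ideal.height_eq_zero_iff_eq_bot]
        intro h0
        rw [h0, Ideal.mem_bot] at hwp
        exact hwB0 hwp
      subst hpeq
      obtain ⟨c₀, hc₀, a, b, hb, hab, hu⟩ := hconst
      refine ⟨1, a, b, ?_, hb, ?_⟩
      · intro ha
        have h2 : algebraMap R B c₀ * b ∈ p := by
          have := p.sub_mem ha hab
          rwa [sub_sub_cancel] at this
        rcases hp.mem_or_mem h2 with h | h
        · exact hp.ne_top (Ideal.eq_top_of_isUnit_mem _ h (hc₀.map (algebraMap R B)))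
        · exact hb h
      · rw [one_pow, mul_one]
        exact hu
    rcases (Ideal.IsPrime.mul_le h𝔭).1 hle with h | h
    · exact key c.p₁ c.prime₁ hwpp.1 h hs.1
    · exact key c.p₂ c.prime₂ hwpp.2 h hs.2
  · -- horizontal prime: `B_𝔭` is a DVR containing `E`
    obtain ⟨W, hdvr, hW⟩ := Fermat.Agent.S18.H438.exists_dvr_of_height_one (F := F) 𝔭 hht
    have hE : ∀ e : E, algebraMap E F e ∈ W := by
      intro e
      obtain ⟨a, b, hb, rfl⟩ := IsFractionRing.div_surjective (A := R) e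
      have hb0 : b ≠ 0 := nonZeroDivisors.ne_zero hb
      obtain ⟨k, υ, hbk⟩ := IsDiscreteValuationRing.eq_unit_mul_pow_irreducible hb0 hw
      have hb𝔭 : algebraMap R B b ∉ 𝔭 := by
        rw [hbk, _root_.map_mul, _root_.map_pow]
        intro h
        rcases h𝔭.mem_or_mem h with h | h
        · exact h𝔭.ne_top (Ideal.eq_top_of_isUnit_mem _ h (υ.isUnit.map (algebraMap R B)))
        · exact hw𝔭 (h𝔭.mem_of_pow_mem k h)
      have hbF : algebraMap R F b ≠ 0 := fun h0 =>
        hb0 (algebraMap_base_injective (E := E) (F := F) (by rw [h0, _root_.map_zero]))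
      refine (hW _).2 ⟨algebraMap R B a, algebraMap R B b, hb𝔭, ?_⟩
      rw [← IsScalarTower.algebraMap_apply R B F, ← IsScalarTower.algebraMap_apply R B F,
        map_div₀, ← IsScalarTower.algebraMap_apply R E F, ← IsScalarTower.algebraMap_apply R E F,
        div_mul_cancel₀ _ hbF]
    obtain ⟨h, u₀, hh, hu₀, hu₀', hu⟩ := hdiv W hdvr hE
    by_cases hu₀0 : u₀ = 0
    · -- degenerate: `u = 0`, excluded by `IsSplit`
      exfalso
      obtain ⟨c₀, hc₀, a, b, hb, hab, hu'⟩ := hs.1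
      rw [hu, hu₀0, zero_mul, zero_mul] at hu'
      have ha0 : a = 0 := Subtype.ext hu'.symm
      rw [ha0, zero_sub, neg_mem_iff] at hab
      rcases c.prime₁.mem_or_mem hab with h' | h'
      · exact c.prime₁.ne_top (Ideal.eq_top_of_isUnit_mem _ h' (hc₀.map (algebraMap R B)))
      · exact hb h'
    · obtain ⟨a, s, ha, hs', has⟩ :=
        (locU_iff_of_valuationSubring 𝔭 W hW hu₀0).2 ⟨hu₀, hu₀'⟩
      refine ⟨h⁻¹, a, s, ha, hs', ?_⟩
      rw [hu, inv_pow, mul_assoc u₀, mul_inv_cancel₀ (pow_ne_zero _ hh), mul_one]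
      exact has

/-- One-sided form of `purity_smooth`: `n` lies on `p` and not on `p'`. -/
theorem purity_smooth_aux [CharZero E] (m : ℕ) (hm : 0 < m)
    (w : R) (x : F) (B : Subalgebra R F) (hB : ChartCtx E w x B)
    (c : SSChart w B) (u : F) (hu : u ≠ 0) (hdiv : DivisibleDiv E m u) (hs : IsSplit B c u)
    (p p' : Ideal B) (hp : p.IsPrime) (hp' : p'.IsPrime)
    (hinf : p ⊓ p' = Ideal.span {algebraMap R B w}) (h12 : ¬ p ≤ p') (h21 : ¬ p' ≤ p)
    (hnorm : IsIntegrallyClosed (B ⧸ p)) (hup : ConstAt B p u)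
    (n : Ideal B) (hn : n.IsMaximal) (hpn : p ≤ n) (hp'n : ¬ p' ≤ n) :
    ∃ d : F, d ≠ 0 ∧ LocUnit B n (u * d ^ m) ∧ LocUnit B p d ∧ LocUnit B p' d := by
  obtain ⟨hN, hIC, hFr⟩ := chart_package w x B hB
  haveI := hN
  haveI := hIC
  haveI := hFr
  haveI := hp
  haveI := hp'
  have hwB0 : algebraMap R B w ≠ 0 := fun h0 =>
    hB.hw.ne_zero (algebraMap_chart_injective (E := E) B (by rw [h0, _root_.map_zero]))
  have hwp : algebraMap R B w ∈ p := by
    have : algebraMap R B w ∈ p ⊓ p' := hinf ▸ Ideal.mem_span_singleton_self _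
    exact this.1
  have hD : IsDedekindDomain (B ⧸ p) := isDedekindDomain_component w x B hB p hwp hnorm
  have hDD : DivisibleDivisor B m u := divisibleDivisor_of_divisibleDiv w hB.hw B c m u hdiv hs
  have hup' : LocU p u := by
    obtain ⟨c₀, hc₀, a, b, hb, hab, hu'⟩ := hup
    refine ⟨a, b, ?_, hb, hu'⟩
    intro ha
    have h2 : algebraMap R B c₀ * b ∈ p := by
      have := p.sub_mem ha hab
      rwa [sub_sub_cancel] at this
    rcases hp.mem_or_mem h2 with h | h
    · exact hp.ne_top (Ideal.eq_top_of_isUnit_mem _ h (hc₀.map (algebraMap R B)))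
    · exact hb h
  exact pure_smooth_abs (algebraMap R B w) hwB0 p p' hinf h12 h21 hD n hn hpn hp'n m hm u hu
    hDD hup'

end Chart

section Leaf

variable {R E F : Type*} [CommRing R] [IsDomain R] [IsDiscreteValuationRing R]
  [HenselianLocalRing R] [IsAlgClosed (IsLocalRing.ResidueField R)]
  [Field E] [CharZero E] [Algebra R E] [IsFractionRing R E]
  [Field F] [Algebra E F] [Algebra R F] [IsScalarTower R E F]

/-- **P-S (purity at a smooth point).**  `n` lies on exactly one component `p`; then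
`B_n / w = (B / p)_n` is a DVR, every divisorial ideal of `B_n` without vertical component is
principal (Nakayama), so the horizontal part `m · D` of `div u` is `m · div d⁻¹`; adjust `d` by an
element of `p' ∖ (n ∪ p'^{(2)})` to make it a unit on the other component `p'`. -/
theorem purity_smooth (q m : ℕ) (hq : q.Prime) (hqR : (q : R) ∈ IsLocalRing.maximalIdeal R)
    (hm : 0 < m) (hqm : ¬ q ∣ m)
    (w : R) (x : F) (B : Subalgebra R F) (hB : ChartCtx E w x B)
    (c : SSChart w B) (hc : Incomparable c)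
    (u : F) (hu : u ≠ 0) (hdiv : DivisibleDiv E m u) (hs : IsSplit B c u)
    (n : Ideal B) (hn : n.IsMaximal) (hwn : algebraMap R B w ∈ n)
    (h1 : ¬ (c.p₁ ≤ n ∧ c.p₂ ≤ n)) : PureAt B c m u n := by
  have hle : c.p₁ * c.p₂ ≤ n := by
    refine le_trans Ideal.mul_le_inf ?_
    rw [c.inf_eq, Ideal.span_singleton_le_iff_mem]
    exact hwn
  rcases (Ideal.IsPrime.mul_le hn.isPrime).1 hle with h | h
  · have h2 : ¬ c.p₂ ≤ n := fun h2 => h1 ⟨h, h2⟩
    obtain ⟨d, hd0, hdn, hd1, hd2⟩ := purity_smooth_aux m hm w x B hB c u hu hdiv hs c.p₁ c.p₂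
      c.prime₁ c.prime₂ c.inf_eq hc.1 hc.2 c.normal₁ hs.1 n hn h h2
    exact ⟨d, hd0, hdn, hd1, hd2⟩
  · have h2 : ¬ c.p₁ ≤ n := fun h2 => h1 ⟨h2, h⟩
    obtain ⟨d, hd0, hdn, hd2, hd1⟩ := purity_smooth_aux m hm w x B hB c u hu hdiv hs c.p₂ c.p₁
      c.prime₂ c.prime₁ (by rw [inf_comm]; exact c.inf_eq) hc.2 hc.1 c.normal₂ hs.2 n hn h h2
    exact ⟨d, hd0, hdn, hd1, hd2⟩

end Leaf

end Fermat.Agent.A2.Alg.H754

end

end
-- ===== PACK-END A2/Alg/H754/PuritySmooth.lean

-- ===== PACK-BEGIN A2/H609/Smooth.lean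
section


/-!
# Node purity, part 8: a smooth point of the special fibre

`R` a noetherian local integrally closed domain, `𝔭 = (π)` prime with `R ⧸ 𝔭` a discrete
valuation ring (so `R` is regular of dimension two, but unique factorisation of regular local
rings is not used).  If `u ∉ 𝔭` satisfies (H1) `m ∣ ord_𝔓 u` at the horizontal primes and (H2)
`u` is a unit times an `m`-th power modulo `𝔭`, then `u = ε f ^ m`.  Mathlib only.
-/

set_option autoImplicit false

namespace Fermat.Agent.A2.H609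

open Ideal

section BranchLength

variable {R : Type*} [CommRing R] [IsLocalRing R]
variable (𝔭 : Ideal R) [𝔭.IsPrime] [IsDiscreteValuationRing (R ⧸ 𝔭)]

/-- `𝔪 = (x) + 𝔭` for a uniformiser `x` modulo `𝔭`. -/
theorem maximalIdeal_le_span_sup {x : R} (hx : Irreducible (Ideal.Quotient.mk 𝔭 x)) :
    IsLocalRing.maximalIdeal R ≤ Ideal.span {x} ⊔ 𝔭 := by
  intro s hs
  obtain ⟨g, hg⟩ := exists_sub_mul_mem_of_mem_maximalIdeal 𝔭 hx hs
  have h : s = x * g + (s - x * g) := by ring
  rw [h]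
  exact Ideal.add_mem _ (Ideal.mem_sup_left (Ideal.mem_span_singleton.mpr (Dvd.intro g rfl)))
    (Ideal.mem_sup_right hg)

/-- `ℓ(R / ((x ^ k) + 𝔭)) = k` for a uniformiser `x` modulo `𝔭`. -/
theorem relLen_branch_pow {x : R} (hx : Irreducible (Ideal.Quotient.mk 𝔭 x)) (k : ℕ) :
    relLen (Ideal.span {x ^ k} ⊔ 𝔭) (⊤ : Ideal R) = k := by
  have h := relLen_pow_chain 𝔭 hx 𝔭 le_rfl 0 ?_ k
  · rw [zero_add, pow_zero, Ideal.span_singleton_one, top_sup_eq] at h
    exact h
  · intro n _ s hs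
    obtain ⟨g, hg⟩ := exists_sub_mul_mem_of_mem_maximalIdeal 𝔭 hx hs
    have h : s * x ^ n = x ^ (n + 1) * g + (s - x * g) * x ^ n := by ring
    rw [h]
    exact Ideal.add_mem _
      (Ideal.mem_sup_left (Ideal.mem_span_singleton.mpr (Dvd.intro g rfl)))
      (Ideal.mem_sup_right (𝔭.mul_mem_right _ hg))

omit [IsLocalRing R] [IsDiscreteValuationRing (R ⧸ 𝔭)] [𝔭.IsPrime] in
/-- A prime containing `𝔭` and `u ≡ ε x ^ n` contains `x`. -/
theorem mem_of_le_of_mk_eq {x u : R} {n : ℕ} {ε : (R ⧸ 𝔭)ˣ}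
    (hu : Ideal.Quotient.mk 𝔭 u = ε * (Ideal.Quotient.mk 𝔭 x) ^ n)
    {𝔮 : Ideal R} (h𝔮 : 𝔮.IsPrime) (hle : 𝔭 ≤ 𝔮) (hu𝔮 : u ∈ 𝔮) : x ∈ 𝔮 := by
  obtain ⟨e, he⟩ := exists_pow_sub_mul_mem 𝔭 hu
  refine h𝔮.mem_of_pow_mem n ?_
  have h : x ^ n = (x ^ n - u * e) + u * e := by ring
  rw [h]
  exact 𝔮.add_mem (hle he) (𝔮.mul_mem_right _ hu𝔮)

end BranchLength

variable {R : Type*} [CommRing R] [IsDomain R] [IsIntegrallyClosed R] [IsNoetherianRing R]
  [IsLocalRing R]

/-- **Purity at a smooth point of the special fibre.** -/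
theorem exists_unit_mul_pow_of_smooth {u π : R} {m : ℕ} (hm : m ≠ 0) (hπ0 : π ≠ 0)
    (𝔭 : Ideal R) [𝔭.IsPrime] [IsDiscreteValuationRing (R ⧸ 𝔭)] (h𝔭 : 𝔭 = Ideal.span {π})
    (hu : u ∉ 𝔭)
    (H1 : ∀ 𝔓 : Ideal R, 𝔓.IsPrime → u ∈ 𝔓 → π ∉ 𝔓 → ∃ f r : R, r ∉ 𝔓 ∧ f ^ m = u * r)
    (H2 : ∃ v : R ⧸ 𝔭, Associated (v ^ m) (Ideal.Quotient.mk 𝔭 u)) :
    ∃ (f : R) (ε : Rˣ), u = ε * f ^ m := by
  have hπ𝔭 : π ∈ 𝔭 := by
    rw [h𝔭]
    exact Ideal.mem_span_singleton_self π
  have h𝔭𝔪 : 𝔭 ≤ IsLocalRing.maximalIdeal R :=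
    IsLocalRing.le_maximalIdeal (Ideal.IsPrime.ne_top inferInstance)
  have hu0 : u ≠ 0 := by
    rintro rfl
    exact hu 𝔭.zero_mem
  obtain ⟨ϖ, hϖ⟩ := IsDiscreteValuationRing.exists_irreducible (R ⧸ 𝔭)
  obtain ⟨x, rfl⟩ := Ideal.Quotient.mk_surjective ϖ
  obtain ⟨a, ε, hε⟩ := exists_mk_eq_unit_mul_pow 𝔭 hϖ hm hu H2
  have h𝔪 := maximalIdeal_le_span_sup 𝔭 hϖ
  have hreg : ∀ z : R, π ∣ u * z → π ∣ z := by
    intro z hz
    have h1 : u * z ∈ 𝔭 := by
      rw [h𝔭]
      exact Ideal.mem_span_singleton.mpr hz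
    rcases Ideal.IsPrime.mem_or_mem inferInstance h1 with h | h
    · exact absurd h hu
    · rw [h𝔭] at h
      exact Ideal.mem_span_singleton.mp h
  have huπ : ∀ 𝔮 : Ideal R, 𝔮.IsPrime → u ∈ 𝔮 → π ∈ 𝔮 →
      𝔮 = IsLocalRing.maximalIdeal R := by
    intro 𝔮 h𝔮 hu𝔮 hπ𝔮
    have hle : 𝔭 ≤ 𝔮 := by
      rw [h𝔭, Ideal.span_singleton_le_iff_mem]
      exact hπ𝔮
    have hx𝔮 : x ∈ 𝔮 := mem_of_le_of_mk_eq 𝔭 hε h𝔮 hle hu𝔮
    refine le_antisymm (IsLocalRing.le_maximalIdeal h𝔮.ne_top) (h𝔪.trans ?_)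
    exact sup_le ((Ideal.span_singleton_le_iff_mem _).mpr hx𝔮) hle
  refine exists_unit_mul_pow_of_relLen hm hu0 hπ0 (h𝔭𝔪 hπ𝔭) hreg huπ H1
    (Ideal.span {x ^ (a + 1)} ⊔ 𝔭) (Ideal.mem_sup_right hπ𝔭) ?_ (a + 1) ?_ ?_
  · intro f r hf hr
    obtain ⟨g, hg⟩ := exists_sub_pow_succ_mul_mem 𝔭 hϖ hε hf hr
    have h : f = x ^ (a + 1) * g + (f - x ^ (a + 1) * g) := by ring
    rw [h]
    exact Ideal.add_mem _
      (Ideal.mem_sup_left (Ideal.mem_span_singleton.mpr (Dvd.intro g rfl)))
      (Ideal.mem_sup_right hg)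
  · rw [relLen_branch_pow 𝔭 hϖ (a + 1)]
  · have hle : Ideal.span {x ^ (m * a)} ⊔ 𝔭 ≤ Ideal.span {u, π} := by
      refine sup_le ?_ ?_
      · rw [Ideal.span_singleton_le_iff_mem]
        obtain ⟨e, he⟩ := exists_pow_sub_mul_mem 𝔭 hε
        rw [h𝔭, Ideal.mem_span_singleton] at he
        obtain ⟨c, hc⟩ := he
        have h : x ^ (m * a) = e * u + c * π := by
          have : x ^ (m * a) = (x ^ (m * a) - u * e) + u * e := by ring
          rw [this, hc]
          ring
        rw [h]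
        exact Ideal.add_mem _
          (Ideal.mul_mem_left _ _ (Ideal.subset_span (by simp)))
          (Ideal.mul_mem_left _ _ (Ideal.subset_span (by simp)))
      · rw [h𝔭, Ideal.span_singleton_le_iff_mem]
        exact Ideal.subset_span (by simp)
    have h1 : relLen (Ideal.span {u, π}) (⊤ : Ideal R) ≤ ((m * a : ℕ) : ℕ∞) := by
      rw [← relLen_branch_pow 𝔭 hϖ (m * a)]
      exact relLen_mono_left hle le_top
    refine lt_of_le_of_lt h1 ?_
    have h2 : m * a < m * (a + 1) := by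
      have : 0 < m := Nat.pos_of_ne_zero hm
      nlinarith
    exact_mod_cast h2

end Fermat.Agent.A2.H609

end
-- ===== PACK-END A2/H609/Smooth.lean

-- ===== PACK-BEGIN A2/Alg/H34/Base.lean
section



/-!
# WALL A2 / ALG — BASE adapter (helper34)

From the standing hypotheses of `AlgSSStatement` (`E = Frac R`, `F / E(x)` finite, charts given by
an integrality predicate) to the setting of `S18.H138` / `S18.H394` (`chart R {x}`,
`baseField R x`): `chart_eq`, `transcendental_of_field`, `finiteDimensional_baseField`,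
`algebraMap_RF_injective`, `chart_instances'` (noetherian, integrally closed, fraction field `F`).
-/

set_option autoImplicit false
set_option linter.unusedSectionVars false
set_option linter.style.haveILetI false

namespace Fermat.Agent.A2.Alg.H34

open Fermat.Agent.A2 Fermat.Agent.A2.Alg
open Fermat.Agent.S18.H138 (chart baseField)
open Polynomial

variable {R E F : Type*} [CommRing R] [IsDomain R] [Field E] [Algebra R E] [IsFractionRing R E]
  [Field F] [Algebra E F] [Algebra R F] [IsScalarTower R E F]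

omit [IsDomain R] [Field E] [Algebra R E] [IsFractionRing R E] [Algebra E F]
  [IsScalarTower R E F] in
theorem algebraMap_RF_injective (E : Type*) [Field E] [Algebra R E] [IsFractionRing R E]
    [Algebra E F] [IsScalarTower R E F] : Function.Injective (algebraMap R F) := by
  rw [IsScalarTower.algebraMap_eq R E F]
  exact (algebraMap E F).injective.comp (IsFractionRing.injective R E)

theorem transcendental_of_field {x : F} (hx : Transcendental E x) : Transcendental R x := by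
  intro h
  exact hx (h.extendScalars (IsFractionRing.injective R E))

theorem algebraMap_mem_baseField (x : F) (e : E) : algebraMap E F e ∈ baseField R x := by
  obtain ⟨a, b, -, rfl⟩ := IsFractionRing.div_surjective (A := R) e
  rw [map_div₀, ← IsScalarTower.algebraMap_apply, ← IsScalarTower.algebraMap_apply]
  exact div_mem (Subfield.subset_closure (Or.inl ⟨a, rfl⟩))
    (Subfield.subset_closure (Or.inl ⟨b, rfl⟩))

theorem mem_baseField_of_mem_adjoin (x : F) {z : F}
    (hz : z ∈ IntermediateField.adjoin E ({x} : Set F)) : z ∈ baseField R x := by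
  have h : IntermediateField.adjoin E ({x} : Set F) ≤
      Subfield.toIntermediateField (baseField R x) (algebraMap_mem_baseField (R := R) x) := by
    rw [IntermediateField.adjoin_le_iff]
    rintro y hy
    rw [Set.mem_singleton_iff] at hy
    subst hy
    exact Subfield.subset_closure (Or.inr rfl)
  exact h hz

theorem finiteDimensional_baseField (x : F)
    (hfin : FiniteDimensional (IntermediateField.adjoin E ({x} : Set F)) F) :
    FiniteDimensional (baseField R x) F := by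
  let ι : (IntermediateField.adjoin E ({x} : Set F)) →+* baseField R x :=
    { toFun := fun a => ⟨a.1, mem_baseField_of_mem_adjoin (R := R) x a.2⟩
      map_one' := rfl
      map_mul' := fun _ _ => rfl
      map_zero' := rfl
      map_add' := fun _ _ => rfl }
  letI : Algebra (IntermediateField.adjoin E ({x} : Set F)) (baseField R x) := ι.toAlgebra
  haveI : IsScalarTower (IntermediateField.adjoin E ({x} : Set F)) (baseField R x) F :=
    IsScalarTower.of_algebraMap_eq (fun _ => rfl)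
  exact Module.Finite.of_restrictScalars_finite (IntermediateField.adjoin E ({x} : Set F))
    (baseField R x) F

theorem chart_eq (x : F) (B : Subalgebra R F)
    (hB : ∀ f : F, f ∈ B ↔ IsIntegral (Algebra.adjoin R ({x} : Set F)) f) :
    B = chart R ({x} : Set F) :=
  SetLike.ext fun f => (hB f).trans Fermat.Agent.S18.H138.mem_chart.symm

theorem charZero_of_field [CharZero E] : CharZero F :=
  charZero_of_injective_algebraMap (algebraMap E F).injective

/-- The chart of `ChartCtx` is a noetherian integrally closed domain with fraction field `F`. -/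
theorem chart_instances' [IsDiscreteValuationRing R] [CharZero E] (w : R) (x : F)
    (B : Subalgebra R F) (hB : ChartCtx E w x B) :
    IsNoetherianRing B ∧ IsIntegrallyClosed B ∧ IsFractionRing B F := by
  obtain rfl := chart_eq x B hB.hB
  haveI : CharZero F := charZero_of_field (E := E)
  haveI := finiteDimensional_baseField (R := R) x hB.hfin
  exact Fermat.Agent.S18.H394.chart_instances (transcendental_of_field hB.hx)

end Fermat.Agent.A2.Alg.H34

end
-- ===== PACK-END A2/Alg/H34/Base.lean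

-- ===== PACK-BEGIN A2/H729/Kummer.lean
section


/-!
# A2, piece ALG_ss (helper729), versions B and C: the Kummer idempotent

Same setting as `Glue.lean`; `F` is now the Kummer field `F₀(y)`, `y ^ m = u`, `m` invertible
in `R`, and `y ≡ (root of unity)` generically on the special fibre: `y ^ m - 1 ∈ w O`.

* `kummerIdem mi m y = mi * ∑_{i < m} y ^ i` is idempotent modulo `w O`
  (`inW_kummerIdem_sq_sub`), and `(y - 1) * kummerIdem ∈ w O` (`inW_sub_one_mul_kummerIdem`).
* **Version B** (`kummer_trivial_of_local`): if at every closed point `𝔫 ∋ w` of both charts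
  there is `y₁ ≡ y mod w O` and a denominator `s ∉ 𝔫` with `s * y₁` in the chart, then
  `kummerIdem ∈ w O` or `y - 1 ∈ w O`.
* **Version C** (`kummer_trivial_of_local_factorisation`): the same with the local hypothesis
  stated on the charts of a base subalgebra `F₀` (local factorisation `y ^ m = ε * h ^ m`,
  `h ≡ 1 mod w O`, `ε` regular at the point).
-/

set_option autoImplicit false

namespace Fermat.Agent.A2.H729

open Fermat.Agent.S18.H138

variable {R : Type*} [CommRing R] {F : Type*} [Field F] [Algebra R F]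

/-- The Kummer idempotent `(1/m) ∑_{i<m} y^i`. -/
noncomputable def kummerIdem (mi : R) (m : ℕ) (y : F) : F :=
  algebraMap R F mi * ∑ i ∈ Finset.range m, y ^ i

theorem kummerIdem_mem {O : Subalgebra R F} (mi : R) (m : ℕ) {y : F} (hy : y ∈ O) :
    kummerIdem mi m y ∈ O :=
  O.mul_mem (O.algebraMap_mem mi) (O.sum_mem fun i _ => O.pow_mem hy i)

theorem sub_one_mul_geom (m : ℕ) (y : F) :
    (y - 1) * ∑ i ∈ Finset.range m, y ^ i = y ^ m - 1 := by
  rw [mul_comm]
  exact geom_sum_mul y m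

/-- `(y - 1) e₀ ∈ w O`. -/
theorem inW_sub_one_mul_kummerIdem {O : Subalgebra R F} {w : R} (mi : R) (m : ℕ) {y : F}
    (hym : InW O w (y ^ m - 1)) : InW O w ((y - 1) * kummerIdem mi m y) := by
  have : (y - 1) * kummerIdem mi m y = algebraMap R F mi * (y ^ m - 1) := by
    rw [kummerIdem, ← sub_one_mul_geom m y]; ring
  rw [this]
  exact hym.mul_left (O.algebraMap_mem mi)

theorem inW_pow_sub_one_mul_kummerIdem {O : Subalgebra R F} {w : R} (mi : R) (m : ℕ) {y : F}
    (hy : y ∈ O) (hym : InW O w (y ^ m - 1)) (k : ℕ) :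
    InW O w ((y ^ k - 1) * kummerIdem mi m y) := by
  induction k with
  | zero => simpa using InW.zero O w
  | succ k ih =>
    have : (y ^ (k + 1) - 1) * kummerIdem mi m y =
        y * ((y ^ k - 1) * kummerIdem mi m y) + (y - 1) * kummerIdem mi m y := by ring
    rw [this]
    exact (ih.mul_left hy).add (inW_sub_one_mul_kummerIdem mi m hym)

/-- `e₀² ≡ e₀ mod w O`. -/
theorem inW_kummerIdem_sq_sub {O : Subalgebra R F} {w : R} {mi : R} {m : ℕ}
    (hmi : (m : R) * mi = 1) {y : F} (hy : y ∈ O) (hym : InW O w (y ^ m - 1)) :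
    InW O w (kummerIdem mi m y ^ 2 - kummerIdem mi m y) := by
  have hmiF : (m : F) * algebraMap R F mi = 1 := by
    have := congrArg (algebraMap R F) hmi
    simpa using this
  have key : kummerIdem mi m y ^ 2 - kummerIdem mi m y =
      algebraMap R F mi * ∑ i ∈ Finset.range m, (y ^ i - 1) * kummerIdem mi m y := by
    have h1 : ∑ i ∈ Finset.range m, (y ^ i - 1) * kummerIdem mi m y =
        (∑ i ∈ Finset.range m, y ^ i) * kummerIdem mi m y - (m : F) * kummerIdem mi m y := by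
      rw [← Finset.sum_mul, Finset.sum_sub_distrib]
      simp [sub_mul]
    rw [h1]
    have h2 : algebraMap R F mi * ((∑ i ∈ Finset.range m, y ^ i) * kummerIdem mi m y) =
        kummerIdem mi m y ^ 2 := by
      rw [kummerIdem]; ring
    have h3 : algebraMap R F mi * ((m : F) * kummerIdem mi m y) = kummerIdem mi m y := by
      rw [← mul_assoc, mul_comm (algebraMap R F mi), hmiF, one_mul]
    rw [mul_sub, h2, h3]
  rw [key]
  exact (InW.sum _ _ fun i _ => inW_pow_sub_one_mul_kummerIdem mi m hy hym i).mul_left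
    (O.algebraMap_mem mi)

/-- If `e₀ ≡ 1` then `y ≡ 1`. -/
theorem inW_sub_one_of_inW_one_sub_kummerIdem {O : Subalgebra R F} {w : R} (mi : R) (m : ℕ)
    {y : F} (hy : y ∈ O) (hym : InW O w (y ^ m - 1))
    (h : InW O w (1 - kummerIdem mi m y)) : InW O w (y - 1) := by
  have : y - 1 = (y - 1) * kummerIdem mi m y + (y - 1) * (1 - kummerIdem mi m y) := by ring
  rw [this]
  exact (inW_sub_one_mul_kummerIdem mi m hym).add (h.mul_left (O.sub_mem hy O.one_mem))

/-- `y ^ i ≡ y₁ ^ i` if `y ≡ y₁`. -/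
theorem inW_pow_sub_pow {O : Subalgebra R F} {w : R} {y y₁ : F} (hy : y ∈ O) (hy₁ : y₁ ∈ O)
    (h : InW O w (y - y₁)) (i : ℕ) : InW O w (y ^ i - y₁ ^ i) := by
  induction i with
  | zero => simpa using InW.zero O w
  | succ i ih =>
    have : y ^ (i + 1) - y₁ ^ (i + 1) = y * (y ^ i - y₁ ^ i) + (y - y₁) * y₁ ^ i := by ring
    rw [this]
    exact (ih.mul_left hy).add (h.mul_right (O.pow_mem hy₁ i))

/-- Local regularity of the Kummer idempotent from a local integral model of `y`. -/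
theorem kummerIdem_locally_regular {C O : Subalgebra R F} (hCO : C ≤ O) {w : R} (mi : R)
    {m : ℕ} (hm : 0 < m) {y : F} (hy : y ∈ O) (𝔫 : Ideal C) [h𝔫 : 𝔫.IsPrime]
    {s : C} (hs : s ∉ 𝔫) {y₁ : F} (h₁ : InW O w (y - y₁)) (hsy : (s : F) * y₁ ∈ C) :
    ∃ s' : C, s' ∉ 𝔫 ∧ ∃ e ∈ C, InW O w ((s' : F) * kummerIdem mi m y - e) := by
  have hy₁ : y₁ ∈ O := by
    have : y₁ = y - (y - y₁) := by ring
    rw [this]
    exact O.sub_mem hy h₁.mem
  refine ⟨s ^ (m - 1), fun h => hs (h𝔫.mem_of_pow_mem _ h),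
    (s : F) ^ (m - 1) * kummerIdem mi m y₁, ?_, ?_⟩
  · -- `s^(m-1) * e₁ ∈ C`
    have : (s : F) ^ (m - 1) * kummerIdem mi m y₁ =
        algebraMap R F mi * ∑ i ∈ Finset.range m, (s : F) ^ (m - 1 - i) * ((s : F) * y₁) ^ i := by
      rw [kummerIdem, Finset.mul_sum, Finset.mul_sum, Finset.mul_sum]
      refine Finset.sum_congr rfl fun i hi => ?_
      have hi' : i ≤ m - 1 := by
        have := Finset.mem_range.1 hi
        omega
      have : (s : F) ^ (m - 1) = (s : F) ^ (m - 1 - i) * (s : F) ^ i := by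
        rw [← pow_add]; congr 1; omega
      rw [this, mul_pow]; ring
    rw [this]
    exact C.mul_mem (C.algebraMap_mem mi)
      (C.sum_mem fun i _ => C.mul_mem (C.pow_mem s.2 _) (C.pow_mem hsy i))
  · have : ((s ^ (m - 1) : C) : F) * kummerIdem mi m y - (s : F) ^ (m - 1) * kummerIdem mi m y₁ =
        ((s : F) ^ (m - 1) * algebraMap R F mi) * ∑ i ∈ Finset.range m, (y ^ i - y₁ ^ i) := by
      rw [kummerIdem, kummerIdem, Finset.sum_sub_distrib]
      push_cast
      ring
    rw [this]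
    exact (InW.sum _ _ fun i _ => inW_pow_sub_pow hy hy₁ h₁ i).mul_left
      (O.mul_mem (O.pow_mem (hCO s.2) _) (O.algebraMap_mem mi))

section Main

variable [IsNoetherianRing R] [IsIntegrallyClosed (Polynomial R)] [CharZero F]

/-- **ALG_ss, version B.** -/
theorem kummer_trivial_of_local
    (hinjR : Function.Injective (algebraMap R F))
    (hRF : ∀ y : F, IsIntegral R y → y ∈ Set.range (algebraMap R F))
    {x : F} (hx : Transcendental R x) [FiniteDimensional (baseField R x) F]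
    (w : R) (hw : Prime w)
    (O : Subalgebra R F)
    (hfin : chart R ({x} : Set F) ≤ O) (hinf : chart R ({x⁻¹} : Set F) ≤ O)
    (qep_fin : ∀ b ∈ chart R ({x} : Set F), InW O w b →
      ∃ t ∈ chart R ({x} : Set F), b = algebraMap R F w * t)
    (qep_inf : ∀ b ∈ chart R ({x⁻¹} : Set F), InW O w b →
      ∃ t ∈ chart R ({x⁻¹} : Set F), b = algebraMap R F w * t)
    (qep_mid : ∀ b ∈ chart R ({x, x⁻¹} : Set F), InW O w b →
      ∃ t ∈ chart R ({x, x⁻¹} : Set F), b = algebraMap R F w * t)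
    {mi : R} {m : ℕ} (hm : 0 < m) (hmi : (m : R) * mi = 1)
    {y : F} (hy : y ∈ O) (hym : InW O w (y ^ m - 1))
    (hloc_fin : ∀ 𝔫 : Ideal (chart R ({x} : Set F)), 𝔫.IsMaximal →
      algebraMap R (chart R ({x} : Set F)) w ∈ 𝔫 →
      ∃ s : chart R ({x} : Set F), s ∉ 𝔫 ∧
        ∃ y₁ : F, InW O w (y - y₁) ∧ (s : F) * y₁ ∈ chart R ({x} : Set F))
    (hloc_inf : ∀ 𝔫 : Ideal (chart R ({x⁻¹} : Set F)), 𝔫.IsMaximal →
      algebraMap R (chart R ({x⁻¹} : Set F)) w ∈ 𝔫 →
      ∃ s : chart R ({x⁻¹} : Set F), s ∉ 𝔫 ∧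
        ∃ y₁ : F, InW O w (y - y₁) ∧ (s : F) * y₁ ∈ chart R ({x⁻¹} : Set F)) :
    InW O w (kummerIdem mi m y) ∨ InW O w (y - 1) := by
  have h := generic_idempotent_trivial hinjR hRF hx w hw O hfin hinf qep_fin qep_inf qep_mid
    (kummerIdem_mem mi m hy) (inW_kummerIdem_sq_sub hmi hy hym)
    (fun 𝔫 h𝔫 hw𝔫 => by
      obtain ⟨s, hs, y₁, h₁, hsy⟩ := hloc_fin 𝔫 h𝔫 hw𝔫
      have := h𝔫.isPrime
      exact kummerIdem_locally_regular hfin mi hm hy 𝔫 hs h₁ hsy)
    (fun 𝔫 h𝔫 hw𝔫 => by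
      obtain ⟨s, hs, y₁, h₁, hsy⟩ := hloc_inf 𝔫 h𝔫 hw𝔫
      have := h𝔫.isPrime
      exact kummerIdem_locally_regular hinf mi hm hy 𝔫 hs h₁ hsy)
  rcases h with h | h
  · exact Or.inl h
  · exact Or.inr (inW_sub_one_of_inW_one_sub_kummerIdem mi m hy hym h)

end Main

end Fermat.Agent.A2.H729

end
-- ===== PACK-END A2/H729/Kummer.lean

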