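import Mathlib.NumberTheory.ModularForms.Basic
import Mathlib
import Fermat.Prelude.Def_AlgebraicCurve_DivisorPushPull
import Fermat.Agent.Pack.S33.E0L1
import Fermat.Agent.Pack.S33.E13L2
import Fermat.Agent.Pack.S33.E13L0
import Fermat.Agent.Pack.S33.E7L0
import Fermat.Agent.Pack.S33.E7L3
import Fermat.Agent.Pack.S33.E5L3
import Fermat.Agent.Pack.S33.E13L3
import Fermat.Agent.Pack.S33.E14L2
import Fermat.Agent.Pack.S33.E12L3
import Fermat.Agent.Pack.S33.E2L3
import Fermat.Agent.Pack.S33.E14L3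
import Fermat.Agent.Pack.S33.E4L1
import Fermat.Agent.Pack.S33.E14L0

-- ===== PACK-BEGIN S24/Alg/Open.lean
section



/-!
# S24 / ALG — the fundamental equality (FF1)

INTERFACE FILE (statement by helper984).  Proof: helper804's Dedekind dictionary
(`Fermat.Agent.S24.FF.finite_setOf_ord_pos`, `Fermat.Agent.S24.FF.sum_ord_eq_finrank`).
-/

set_option autoImplicit false

noncomputable section

open AlgebraicCurve

namespace Fermat.Agent.S24

variable {K F : Type*} [Field K] [Field F] [Algebra K F] [IsAlgClosed K] [CharZero K]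

/-- FF1 (fundamental equality): the zeros of a transcendental `t` are finite in number and
`∑_{v | t} ord_v t = [F : K(t)]`. -/
theorem open_fundamental_eq (t : F) (ht : Transcendental K t)
    [FiniteDimensional ↥(IntermediateField.adjoin K {t}) F] :
    ∃ s : Finset (Place K F), (∀ v : Place K F, v ∈ s ↔ 0 < v.ord t) ∧
      ∑ v ∈ s, v.ord t = (Module.finrank ↥(IntermediateField.adjoin K {t}) F : ℤ) :=
  ⟨(FF.finite_setOf_ord_pos ht).toFinset, fun v => by simp,
    FF.sum_ord_eq_finrank ht _ (fun v => by simp)⟩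

end Fermat.Agent.S24

end
end
-- ===== PACK-END S24/Alg/Open.lean

-- ===== PACK-BEGIN S30/H709/ParEigen.lean
section




/-!
# S30-OCC, unconditional: the eigensystem `χ` occurs in the parabolic cohomology `H¹_par(Γ₀(N), O)`

* `periodHecke_facCoh` : the hypothesis `PeriodHecke` holds for the factorisation of `DefsM.lean`
  (`heckeFac`), by helper201's E2a (`H201.periodMap_heckeTLin`) and helper391's bridge
  (`M4aTop_heckeCoh_eq_sum_trf`).
* `exists_parEigen` : for every domain `O` (any characteristic) and every ring homomorphism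
  `χ : heckeAlgebra N 2 S →+* O` (`S` containing the primes dividing `N`) there is a nonzero
  parabolic character `c : Γ₀(N) → O` (`S29.IsParHom`) with `heckeCoh N ℓ c = χ (T_ℓ) • c` for all
  primes `ℓ ∉ S`.  This is the statement `(P) ParEigenStatement` of the adic module layer
  (helper330 `AdicDefs.lean`), unfolded.
* `exists_adic_eigen_lattice_coh`, `exists_occ_tensor_coh` : the lattice form and the transport to
  `O ⊗ J`, with `PeriodHecke` discharged.
-/

set_option autoImplicit false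

noncomputable section

namespace Fermat.Agent.S30.H709

open CongruenceSubgroup ModularCurve ModularCurve.Period TensorProduct IsLocalRing
open Fermat.Agent.S29
open scoped MatrixGroups

variable (N : ℕ) [NeZero N]

/-- The multiset `{γ'ᵢ}` of `DefsM.heckeFac`: `αᵢ γ = γ'ᵢ α_{π i}`. -/
def facCoh (ℓ : ℕ) (γ : Gamma0 N) : Multiset (Gamma0 N) :=
  (Finset.univ : Finset (Option (Fin ℓ))).val.map fun i => (heckeFac N ℓ γ i).2

omit [NeZero N] in
theorem sum_map_facCoh {A : Type*} [AddCommMonoid A] (ℓ : ℕ) (c : Gamma0 N → A) (γ : Gamma0 N) :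
    ((facCoh N ℓ γ).map c).sum = heckeCoh N ℓ c γ := by
  rw [facCoh, Multiset.map_map]
  rfl

omit [NeZero N] in
/-- **`PeriodHecke` holds** for the factorisation `heckeFac` of `DefsM.lean`. -/
theorem periodHecke_facCoh : PeriodHecke N (facCoh N) := by
  intro ℓ hℓ hℓN f γ
  have : Fact ℓ.Prime := ⟨hℓ⟩
  rw [sum_map_facCoh N ℓ (fun δ => periodMap N f (Additive.ofMul δ)) γ,
    M4aTop_heckeCoh_eq_sum_trf hℓN, Fermat.Agent.S29.H201.periodMap_heckeTLin hℓ hℓN f,
    Fermat.Agent.S29.H201.heckeHom_apply]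

variable {N}

/-- Period classes of elements of finite order vanish. -/
theorem perCls_eq_zero_of_pow {γ : Gamma0 N} {n : ℕ} (hn : 0 < n) (hγ : γ ^ n = 1) :
    perCls N γ = 0 := by
  have hpow : ∀ k : ℕ, perCls N (γ ^ k) = k • perCls N γ := by
    intro k
    induction k with
    | zero => rw [pow_zero, perCls_one, _root_.zero_smul]
    | succ k ih => rw [pow_succ, perCls_mul, ih, succ_nsmul]
  have h := hpow n
  rw [hγ, perCls_one] at h
  have h2 : (n : ℤ) • perCls N γ = 0 := by rw [natCast_zsmul]; exact h.symm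
  rcases smul_eq_zero.mp h2 with h3 | h3
  · exact absurd h3 (by exact_mod_cast hn.ne')
  · exact h3

/-- **(P)** The eigensystem `χ` occurs in the parabolic cohomology of `Γ₀(N)` with coefficients
in `O` (any domain). -/
theorem exists_parEigen {S : Set ℕ} (hNS : ∀ q : ℕ, q.Prime → q ∣ N → q ∈ S)
    {O : Type*} [CommRing O] [IsDomain O] (χ : CuspForm.heckeAlgebra N 2 S →+* O) :
    ∃ c : G0 N → O, IsParHom c ∧ c ≠ 0 ∧
      ∀ (ℓ : ℕ) (hℓ : ℓ.Prime) (hℓN : ¬ ℓ ∣ N) (hℓS : ℓ ∉ S) (γ : G0 N),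
        heckeCoh N ℓ c γ = χ (CuspForm.heckeAlgebra.T hℓ hℓN hℓS) * c γ := by
  classical
  have hPH := periodHecke_facCoh N
  let b := Module.finBasis ℤ (perLattice N)
  obtain ⟨w, hw0, hw⟩ := exists_eigen_coeffs (perRho hPH hNS) (perRho_injective hPH hNS) b χ
  -- the `χ`-semilinear functional on the period lattice
  let u : perLattice N →+ O :=
    { toFun := fun x => ∑ j, w j * ((b.repr x j : ℤ) : O)
      map_zero' := by simp
      map_add' := fun x y => by
        simp only [map_add, Finsupp.coe_add, Pi.add_apply, Int.cast_add, mul_add,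
          Finset.sum_add_distrib] }
  have hu : ∀ x, u x = ∑ j, w j * ((b.repr x j : ℤ) : O) := fun _ => rfl
  have hub : ∀ k, u (b k) = w k := by
    intro k
    rw [hu, Finset.sum_eq_single k]
    · rw [Module.Basis.repr_self, Finsupp.single_eq_same, Int.cast_one, mul_one]
    · intro j _ hj
      rw [Module.Basis.repr_self, Finsupp.single_eq_of_ne hj, Int.cast_zero, mul_zero]
    · intro h
      exact absurd (Finset.mem_univ k) h
  have hsemi : ∀ (t : CuspForm.heckeAlgebra N 2 S) (x : perLattice N),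
      u (perRho hPH hNS t x) = χ t * u x := by
    intro t x
    conv_lhs => rw [← b.sum_repr x]
    conv_rhs => rw [← b.sum_repr x]
    rw [map_sum, map_sum, map_sum, Finset.mul_sum]
    refine Finset.sum_congr rfl fun k _ => ?_
    rw [map_zsmul, map_zsmul, map_zsmul, hub, zsmul_eq_mul, zsmul_eq_mul, hu, hw t k]
    ring
  refine ⟨fun γ => u (perCls N γ), ⟨?_, ?_, ?_⟩, ?_, ?_⟩
  · intro γ γ'
    show u (perCls N (γ * γ')) = _
    rw [perCls_mul, map_add]
  · intro γ hγ
    have htr : ((γ : SL(2, ℤ)) : Matrix (Fin 2) (Fin 2) ℤ).trace ^ 2 = 4 := by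
      rcases hγ with h | h
      · have : ((γ : SL(2, ℤ)) : Matrix (Fin 2) (Fin 2) ℤ).trace = 2 := h
        rw [this]; norm_num
      · have : ((γ : SL(2, ℤ)) : Matrix (Fin 2) (Fin 2) ℤ).trace = -2 := h
        rw [this]; norm_num
    show u (perCls N γ) = 0
    rw [perCls_eq_zero_of_trace γ htr, map_zero]
  · intro γ n hn hγ
    show u (perCls N γ) = 0
    rw [perCls_eq_zero_of_pow hn hγ, map_zero]
  · intro hc
    apply hw0
    have hvan : ∀ x : perLattice N, u x = 0 := by
      intro x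
      induction x using perCls_induction with
      | h0 => exact map_zero u
      | hadd x y hx hy => rw [map_add, hx, hy, add_zero]
      | hneg x hx => rw [map_neg, hx, neg_zero]
      | hcls γ => exact congrFun hc γ
    funext k
    rw [← hub k, hvan]
    rfl
  · intro ℓ hℓ hℓN hℓS γ
    rw [← sum_map_facCoh N ℓ (fun γ => u (perCls N γ)) γ]
    have h1 : ((facCoh N ℓ γ).map fun δ => u (perCls N δ)).sum
        = u (((facCoh N ℓ γ).map (perCls N)).sum) := by
      rw [map_multiset_sum, Multiset.map_map]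
      rfl
    rw [h1, ← perRho_perCls hPH hNS hℓ hℓN hℓS γ, hsemi]

end Fermat.Agent.S30.H709

end
end
-- ===== PACK-END S30/H709/ParEigen.lean

-- ===== PACK-BEGIN S37/Core/Assemble.lean
section


/-!
# S37 row (helper37): assembly

`result_of_pieces` : the frozen statement S37 from the three top-level pieces
* `hHIA`  : `HeckeInputsAlong ℚ̄ N ℓ` (so that the Prelude `T_ℓ` is the honest correspondence),
* `hS18`  : the conclusion of the frozen statement S18,
* `hPR`   : a `PlaceRed N A ℓ σ₀` for every Frobenius element `σ₀` at `A`.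
Fully proved.
-/

set_option autoImplicit false
set_option synthInstance.maxHeartbeats 400000

noncomputable section

namespace Fermat.Agent.S37.Core

open ModularCurve ValuationSubring AlgebraicCurve HahnSeries Fermat.Agent.S37.H99

section Main

variable {N : ℕ} [NeZero N] {A : ValuationSubring (AlgebraicClosure ℚ)} {ℓ : ℕ} [NeZero ℓ]
  {σ₀ : AlgebraicClosure ℚ ≃ₐ[ℚ] AlgebraicClosure ℚ}

/-- the Eichler-Shimura relation after reduction -/
theorem PlaceRed.red_relation (D : PlaceRed N A ℓ σ₀)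
    (HIA : HeckeInputsAlong (AlgebraicClosure ℚ) N ℓ) (x : JZero N) :
    D.red (σ₀ • σ₀ • x - heckeOperatorAlong (AlgebraicClosure ℚ) N ℓ (σ₀ • x) + ℓ • x) = 0 := by
  obtain ⟨hα, hβ, hP, hfin, hFI, hN⟩ := HIA
  haveI := hP
  rw [heckeOperatorAlong_eq hα hβ hFI hfin hN]
  obtain ⟨E, rfl⟩ := Pic0.mk_surjective x
  set g := arithmeticGalois (modularFunctionFieldFull N) σ₀ with hg
  have e1 : σ₀ • σ₀ • Pic0.mk E - heckePic0Bar hα hβ hFI hfin hN (σ₀ • Pic0.mk E) + ℓ • Pic0.mk E
      = Pic0.mk (SemilinearAut.degZeroSMulHom g (SemilinearAut.degZeroSMulHom g E) -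
          Pic0.degZeroCorrespondence (heckeBetaBar (AlgebraicClosure ℚ) N ℓ)
            (heckeAlphaBar (AlgebraicClosure ℚ) N ℓ) hβ hα hFI (SemilinearAut.degZeroSMulHom g E) +
          ℓ • E) := rfl
  rw [e1, D.red_mk]
  have e2 : reductionDegZeroAlong D.r D.isRed.1
      (SemilinearAut.degZeroSMulHom g (SemilinearAut.degZeroSMulHom g E) -
          Pic0.degZeroCorrespondence (heckeBetaBar (AlgebraicClosure ℚ) N ℓ)
            (heckeAlphaBar (AlgebraicClosure ℚ) N ℓ) hβ hα hFI (SemilinearAut.degZeroSMulHom g E) +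
          ℓ • E) = 0 := by
    apply Subtype.ext
    rw [coe_reductionDegZeroAlong]
    exact D.mapDomain_relation hα hβ (E : Divisor (AlgebraicClosure ℚ) (modularFunctionFieldBar N))
  rw [e2]
  rfl

end Main

/-- **S37 at one place from the pieces.** -/
theorem isWeakRed_of_placeRed (N p : ℕ) [NeZero N] (hcomm : HeckeOperatorsCommuteBar N)
    (A : ValuationSubring (AlgebraicClosure ℚ)) (ℓ : ℕ) (hℓ : ℓ.Prime) (hℓp : ¬ ℓ ∣ p)
    (σ₀ : AlgebraicClosure ℚ ≃ₐ[ℚ] AlgebraicClosure ℚ) (hσ₀ : A.IsFrobeniusAt σ₀ ℓ)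
    (HIA : haveI : NeZero ℓ := ⟨hℓ.ne_zero⟩; HeckeInputsAlong (AlgebraicClosure ℚ) N ℓ)
    (hS18 : InjTorsionModL N ℓ A)
    (D : haveI : NeZero ℓ := ⟨hℓ.ne_zero⟩; PlaceRed N A ℓ σ₀) :
    letI := heckeModuleBar N
    ∀ (_ : SMulCommClass (AlgebraicClosure ℚ ≃ₐ[ℚ] AlgebraicClosure ℚ) HeckeAlg (JZero N)),
      IsWeakRed (K := ℚ) p (JZero N) A ℓ hℓ σ₀
        (haveI : NeZero ℓ := ⟨hℓ.ne_zero⟩; D.red) := by
  letI := heckeModuleBar N
  haveI : NeZero ℓ := ⟨hℓ.ne_zero⟩
  intro _
  refine ⟨hσ₀, fun τ hτ x => D.red_inertia hτ x, ?_, ?_⟩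
  · rintro x ⟨n, hn⟩ hx
    refine D.red_inj_torsion hS18 (m := p ^ n) ?_ hn hx
    exact fun h => hℓp (hℓ.dvd_of_dvd_pow h)
  · intro x
    have h := D.red_relation HIA x
    rw [heckeModuleBar_heckeGen_smul hcomm ⟨ℓ, hℓ⟩ (σ₀ • x)]
    exact h

/-- **S37 from the three top-level pieces.** -/
theorem result_of_pieces (N p : ℕ) [NeZero N]
    (hHIA : ∀ (ℓ : ℕ) (hℓ : ℓ.Prime), ¬ ℓ ∣ N →
      haveI : NeZero ℓ := ⟨hℓ.ne_zero⟩; HeckeInputsAlong (AlgebraicClosure ℚ) N ℓ)
    (hS18 : ∀ (ℓ : ℕ), ℓ.Prime → ¬ ℓ ∣ N →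
      ∀ A : ValuationSubring (AlgebraicClosure ℚ), A.LiesOverPrime ℓ → InjTorsionModL N ℓ A)
    (hPR : ∀ (ℓ : ℕ) (hℓ : ℓ.Prime), ¬ ℓ ∣ N →
      ∀ A : ValuationSubring (AlgebraicClosure ℚ), A.LiesOverPrime ℓ →
        ∀ σ₀ : AlgebraicClosure ℚ ≃ₐ[ℚ] AlgebraicClosure ℚ, A.IsFrobeniusAt σ₀ ℓ →
          haveI : NeZero ℓ := ⟨hℓ.ne_zero⟩; Nonempty (PlaceRed N A ℓ σ₀))
    (hcomm : ModularCurve.HeckeOperatorsCommuteBar N) :
    letI := ModularCurve.heckeModuleBar N
    ∀ (_ : SMulCommClass (AlgebraicClosure ℚ ≃ₐ[ℚ] AlgebraicClosure ℚ) ModularCurve.HeckeAlg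
      (ModularCurve.JZero N)),
      ModularCurve.SpecializationExists (K := ℚ) (L := AlgebraicClosure ℚ) N p
        (ModularCurve.JZero N) := by
  letI := ModularCurve.heckeModuleBar N
  intro inst
  intro ℓ hℓ hdvd A hA
  have hℓN : ¬ ℓ ∣ N := fun h => hdvd (Dvd.dvd.mul_right h p)
  have hℓp : ¬ ℓ ∣ p := fun h => hdvd (Dvd.dvd.mul_left h N)
  obtain ⟨σ₀, hσ₀⟩ := exists_isFrobeniusAt ℓ hℓ A hA
  haveI : NeZero ℓ := ⟨hℓ.ne_zero⟩
  obtain ⟨D⟩ := hPR ℓ hℓ hℓN A hA σ₀ hσ₀
  exact exists_specialization_of_isWeakRed p A ℓ hℓ σ₀ D.red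
    (isWeakRed_of_placeRed N p hcomm A ℓ hℓ hℓp σ₀ hσ₀ (hHIA ℓ hℓ hℓN) (hS18 ℓ hℓ hℓN A hA) D inst)

end Fermat.Agent.S37.Core

end
end
-- ===== PACK-END S37/Core/Assemble.lean

-- ===== PACK-BEGIN S28/H568/Series.lean
section



/-!
# S28 / H568 — formal preliminaries on `LaurentSeries ℂ`

* order / leading coefficient of integer powers and finite products;
* the subring of Laurent series with coefficients in a subring `C ⊆ ℂ`;
* `InfExp` for integer powers and finite products.
-/

set_option autoImplicit false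

noncomputable section

open HahnSeries ModularCurve UpperHalfPlane Complex
open scoped Real

namespace Fermat.Agent.S28.H568

open Fermat.Agent.S24

/-! ### order and leading coefficient -/

section Order

variable {K : Type*} [Field K]

theorem order_inv' {x : LaurentSeries K} (hx : x ≠ 0) : (x⁻¹).order = -x.order := by
  have h := HahnSeries.order_mul hx (inv_ne_zero hx)
  rw [mul_inv_cancel₀ hx, HahnSeries.order_one] at h
  linarith

theorem leadingCoeff_inv' (x : LaurentSeries K) : (x⁻¹).leadingCoeff = x.leadingCoeff⁻¹ := by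
  rcases eq_or_ne x 0 with rfl | hx
  · simp
  · have h := HahnSeries.leadingCoeff_mul x x⁻¹
    rw [mul_inv_cancel₀ hx, HahnSeries.leadingCoeff_one] at h
    exact eq_inv_of_mul_eq_one_right h.symm

theorem order_pow' {x : LaurentSeries K} (hx : x ≠ 0) (n : ℕ) :
    (x ^ n).order = n * x.order := by
  induction n with
  | zero => simp
  | succ n ih =>
    rw [pow_succ, HahnSeries.order_mul (pow_ne_zero n hx) hx, ih]
    push_cast
    ring

theorem leadingCoeff_pow' (x : LaurentSeries K) (n : ℕ) :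
    (x ^ n).leadingCoeff = x.leadingCoeff ^ n := by
  induction n with
  | zero => simp
  | succ n ih => rw [pow_succ, HahnSeries.leadingCoeff_mul, ih, pow_succ]

theorem order_zpow' {x : LaurentSeries K} (hx : x ≠ 0) (r : ℤ) :
    (x ^ r).order = r * x.order := by
  obtain ⟨n, rfl | rfl⟩ := r.eq_nat_or_neg
  · rw [zpow_natCast, order_pow' hx]
  · rw [zpow_neg, zpow_natCast, order_inv' (pow_ne_zero n hx), order_pow' hx]
    ring

theorem leadingCoeff_zpow' (x : LaurentSeries K) (r : ℤ) :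
    (x ^ r).leadingCoeff = x.leadingCoeff ^ r := by
  obtain ⟨n, rfl | rfl⟩ := r.eq_nat_or_neg
  · rw [zpow_natCast, zpow_natCast, leadingCoeff_pow']
  · rw [zpow_neg, zpow_natCast, zpow_neg, zpow_natCast, leadingCoeff_inv', leadingCoeff_pow']

theorem order_prod' {ι : Type*} (s : Finset ι) (f : ι → LaurentSeries K)
    (hf : ∀ i ∈ s, f i ≠ 0) : (∏ i ∈ s, f i).order = ∑ i ∈ s, (f i).order := by
  classical
  induction s using Finset.induction_on with
  | empty => simp
  | insert a s ha ih =>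
    rw [Finset.prod_insert ha, Finset.sum_insert ha,
      HahnSeries.order_mul (hf a (Finset.mem_insert_self a s))
        (Finset.prod_ne_zero_iff.mpr fun i hi => hf i (Finset.mem_insert_of_mem hi)),
      ih fun i hi => hf i (Finset.mem_insert_of_mem hi)]

theorem leadingCoeff_prod' {ι : Type*} (s : Finset ι) (f : ι → LaurentSeries K) :
    (∏ i ∈ s, f i).leadingCoeff = ∏ i ∈ s, (f i).leadingCoeff := by
  classical
  induction s using Finset.induction_on with
  | empty => simp
  | insert a s ha ih =>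
    rw [Finset.prod_insert ha, Finset.prod_insert ha, HahnSeries.leadingCoeff_mul, ih]

end Order

/-! ### series with coefficients in a subring -/

section Coeff

variable (C : Subring ℂ)

/-- Laurent series over `ℂ` all of whose coefficients lie in the subring `C`. -/
def coeffSubring : Subring (LaurentSeries ℂ) := (coeffMap C.subtype).range

variable {C}

theorem mem_coeffSubring_iff {φ : LaurentSeries ℂ} :
    φ ∈ coeffSubring C ↔ ∀ n, φ.coeff n ∈ C := by
  constructor
  · rintro ⟨ψ, rfl⟩ n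
    rw [coeffMap_coeff]
    exact (ψ.coeff n).2
  · intro h
    refine ⟨⟨fun n => ⟨φ.coeff n, h n⟩, φ.isPWO_support.mono fun n hn => ?_⟩, ?_⟩
    · simp only [Function.mem_support, ne_eq] at hn
      rw [mem_support]
      intro h0
      exact hn (Subtype.ext h0)
    · ext n
      rw [coeffMap_coeff]
      rfl

theorem C_mem_coeffSubring {c : ℂ} (hc : c ∈ C) : (HahnSeries.C c : LaurentSeries ℂ) ∈
    coeffSubring C := by
  rw [mem_coeffSubring_iff]
  intro n
  rw [C_apply]
  by_cases hn : n = 0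
  · subst hn; simpa using hc
  · rw [coeff_single_of_ne hn]; exact C.zero_mem

theorem qExpand_mem_coeffSubring (e : ℕ) [NeZero e] {φ : LaurentSeries ℂ}
    (hφ : φ ∈ coeffSubring C) : qExpand ℂ e φ ∈ coeffSubring C := by
  rw [mem_coeffSubring_iff] at hφ ⊢
  intro n
  by_cases hn : (e : ℤ) ∣ n
  · obtain ⟨k, rfl⟩ := hn
    rw [qExpand_coeff_mul]
    exact hφ k
  · rw [qExpand_coeff_of_not_dvd e _ hn]
    exact C.zero_mem

theorem infTwist_mem_coeffSubring (u : ℂˣ) (hu : (u : ℂ) ∈ C) (hu' : ((u⁻¹ : ℂˣ) : ℂ) ∈ C)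
    {φ : LaurentSeries ℂ} (hφ : φ ∈ coeffSubring C) : infTwist u φ ∈ coeffSubring C := by
  rw [mem_coeffSubring_iff] at hφ ⊢
  intro n
  rw [infTwist_coeff]
  refine C.mul_mem (hφ n) ?_
  obtain ⟨m, rfl | rfl⟩ := n.eq_nat_or_neg
  · rw [zpow_natCast, Units.val_pow_eq_pow_val]
    exact C.pow_mem hu m
  · rw [zpow_neg, zpow_natCast, ← inv_pow, Units.val_pow_eq_pow_val]
    exact C.pow_mem hu' m

theorem coeffMap_int_mem_coeffSubring (ψ : LaurentSeries ℤ) :
    coeffMap (Int.castRingHom ℂ) ψ ∈ coeffSubring C := by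
  rw [mem_coeffSubring_iff]
  intro n
  rw [coeffMap_coeff]
  exact intCast_mem C _

theorem leadingCoeff_mem_of_mem_coeffSubring {φ : LaurentSeries ℂ} (hφ : φ ∈ coeffSubring C) :
    φ.leadingCoeff ∈ C := by
  rw [leadingCoeff_eq]
  exact mem_coeffSubring_iff.mp hφ _

end Coeff

/-! ### `InfExp` for powers and products -/

section Exp

variable {N : ℕ}

theorem InfExp.pow' {f : ℍ → ℂ} {φ : LaurentSeries ℂ} (hf : InfExp N f φ) (n : ℕ) :
    InfExp N (fun τ => f τ ^ n) (φ ^ n) := by
  induction n with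
  | zero => simpa using (InfExp.one (N := N))
  | succ n ih =>
    have := ih.mul hf
    simpa [pow_succ] using this

theorem InfExp.zpow' {f : ℍ → ℂ} {φ ψ : LaurentSeries ℂ} (hf : InfExp N f φ)
    (hg : InfExp N (fun τ => (f τ)⁻¹) ψ) (hφψ : φ * ψ = 1) (r : ℤ) :
    InfExp N (fun τ => f τ ^ r) (φ ^ r) := by
  have hψ : ψ = φ⁻¹ := eq_inv_of_mul_eq_one_right hφψ
  obtain ⟨n, rfl | rfl⟩ := r.eq_nat_or_neg
  · simpa using InfExp.pow' hf n
  · have := InfExp.pow' hg n
    rw [hψ] at this
    simpa [zpow_neg, inv_pow] using this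

theorem InfExp.prod' {ι : Type*} (s : Finset ι) {f : ι → ℍ → ℂ} {φ : ι → LaurentSeries ℂ}
    (hf : ∀ i ∈ s, InfExp N (f i) (φ i)) :
    InfExp N (fun τ => ∏ i ∈ s, f i τ) (∏ i ∈ s, φ i) := by
  classical
  induction s using Finset.induction_on with
  | empty => simpa using (InfExp.one (N := N))
  | insert a s ha ih =>
    have h1 := hf a (Finset.mem_insert_self a s)
    have h2 := ih fun i hi => hf i (Finset.mem_insert_of_mem hi)
    have := h1.mul h2
    simpa [Finset.prod_insert ha] using this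

end Exp

end Fermat.Agent.S28.H568

end
end
-- ===== PACK-END S28/H568/Series.lean

-- ===== PACK-BEGIN S29/H942/KummerChar.lean
section



/-!
# The Kummer character of a holomorphic function with invariant `p`-th power

If `c : ℍ → ℂ` is holomorphic, `c ≠ 0`, and `c ^ p` is invariant under a subgroup
`Γ ≤ SL(2,ℤ)`, then `c (γ z) = κ γ * c z` for a unique character `κ : Γ →* ℂˣ` with `κ ^ p = 1`.
-/

set_option autoImplicit false

noncomputable section

open Filter Topology Set Complex Function UpperHalfPlane ModularForm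
open scoped Manifold MatrixGroups

namespace Fermat.Agent.S29.H942

lemma mdiff_comp_smul {c : ℍ → ℂ} (hc : MDiff c) (γ : SL(2, ℤ)) :
    MDiff (fun z : ℍ => c (γ • z)) := by
  have h := MDifferentiable.slash hc 0 (γ : GL (Fin 2) ℝ)
  have h2 : (c ∣[(0 : ℤ)] (γ : GL (Fin 2) ℝ)) = fun z : ℍ => c (γ • z) := by
    funext z
    rw [← SL_slash, SL_slash_apply]
    simp
  rwa [h2] at h

lemma exists_ne_zero_of_ne_zero {c : ℍ → ℂ} (hc0 : c ≠ 0) : ∃ z : ℍ, c z ≠ 0 := by
  by_contra h
  simp only [not_exists, not_not] at h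
  exact hc0 (funext h)

/-- **Kummer character.** -/
theorem exists_kummerChar (Γ : Subgroup SL(2, ℤ)) {c : ℍ → ℂ} (hc : MDiff c) (hc0 : c ≠ 0)
    {p : ℕ} (hp : p ≠ 0)
    (hinv : ∀ γ ∈ Γ, ∀ z : ℍ, c (γ • z) ^ p = c z ^ p) :
    ∃ κ : Γ →* ℂˣ, (∀ γ, κ γ ^ p = 1) ∧
      ∀ (γ : Γ) (z : ℍ), c ((γ : SL(2, ℤ)) • z) = ((κ γ : ℂˣ) : ℂ) * c z := by
  obtain ⟨z₀, hz₀⟩ := exists_ne_zero_of_ne_zero hc0
  have h1 : ∀ γ : Γ, ∃ ζ : ℂ, ζ ^ p = 1 ∧
      (fun z : ℍ => c ((γ : SL(2, ℤ)) • z)) = fun z => ζ * c z := by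
    intro γ
    refine holomorphic_root_unique hc (mdiff_comp_smul hc γ) hc0 hp ?_
    funext z
    simp only [Pi.pow_apply]
    exact (hinv γ γ.2 z).symm
  choose ζ hζ hζc using h1
  have hζ0 : ∀ γ, ζ γ ≠ 0 := by
    intro γ h0
    have := hζ γ
    rw [h0, zero_pow hp] at this
    exact zero_ne_one this
  have hζapp : ∀ (γ : Γ) (z : ℍ), c ((γ : SL(2, ℤ)) • z) = ζ γ * c z := fun γ z =>
    congrFun (hζc γ) z
  have hone : ζ 1 = 1 := by
    have := hζapp 1 z₀
    simp only [Subgroup.coe_one, one_smul] at this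
    have h2 : (ζ 1 - 1) * c z₀ = 0 := by rw [sub_mul, one_mul, ← this, sub_self]
    rcases mul_eq_zero.1 h2 with h | h
    · exact sub_eq_zero.1 h
    · exact absurd h hz₀
  have hmul : ∀ γ δ : Γ, ζ (γ * δ) = ζ γ * ζ δ := by
    intro γ δ
    have h2 := hζapp (γ * δ) z₀
    rw [Subgroup.coe_mul, mul_smul, hζapp γ, hζapp δ] at h2
    have h3 : (ζ (γ * δ) - ζ γ * ζ δ) * c z₀ = 0 := by
      rw [sub_mul, ← h2]
      ring
    rcases mul_eq_zero.1 h3 with h | h
    · exact sub_eq_zero.1 h
    · exact absurd h hz₀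
  refine ⟨{ toFun := fun γ => Units.mk0 (ζ γ) (hζ0 γ)
            map_one' := by
              apply Units.ext
              simpa using hone
            map_mul' := fun γ δ => by
              apply Units.ext
              simpa using hmul γ δ }, fun γ => ?_, fun γ z => ?_⟩
  · apply Units.ext
    simpa using hζ γ
  · simpa using hζapp γ z

end Fermat.Agent.S29.H942

end
end
-- ===== PACK-END S29/H942/KummerChar.lean

-- ===== PACK-BEGIN S18/H456/ModR.lean
section



/-!
# S18 / MOD assembly (helper456): G-R — the fields `w_mem`, `w_ne_zero`, `w_inv_not_mem`, `w_gen`,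
`w_discrete`, `residue_perfect` of `Alg.GoodModel` for `R = Rc M A E` (`E/ℚ` finite)

Input: `H602.isDiscreteValuationRing_RE` (helper602, on main).
-/

set_option autoImplicit false

noncomputable section

namespace Fermat.Agent.S18.H456

open ModularCurve AlgebraicCurve HahnSeries Fermat.Agent.S18 Fermat.Agent.S18.Mod
open scoped NumberField

variable (M : ℕ) (A : ValuationSubring Qb) (E : IntermediateField ℚ Qb)

/-- The constant in `Ω` attached to an element of `R_E = A ∩ E`. -/
def cstR (r : H602.RE A E) : Om M := cst M ((r : E) : Qb)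

theorem cstR_mem_Rc (r : H602.RE A E) : cstR M A E r ∈ Rc M A E :=
  cst_mem_Rc M A E (H602.mem_RE.1 r.2) (r : E).2

theorem mem_Rc_iff_cstR {f : Om M} : f ∈ Rc M A E ↔ ∃ r : H602.RE A E, cstR M A E r = f := by
  constructor
  · intro hf
    obtain ⟨c, hA, hE, rfl⟩ := (mem_Rc_iff M A E).1 hf
    exact ⟨⟨⟨c, hE⟩, H602.mem_RE.2 hA⟩, rfl⟩
  · rintro ⟨r, rfl⟩
    exact cstR_mem_Rc M A E r

theorem cstR_injective : Function.Injective (cstR M A E) := by
  intro r s h
  have h1 : ((r : E) : Qb) = ((s : E) : Qb) := cst_injective M h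
  exact Subtype.ext (Subtype.ext h1)

theorem cstR_mul (r s : H602.RE A E) : cstR M A E (r * s) = cstR M A E r * cstR M A E s := by
  unfold cstR
  rw [← _root_.map_mul]
  rfl

theorem cstR_pow (r : H602.RE A E) (n : ℕ) : cstR M A E (r ^ n) = cstR M A E r ^ n := by
  unfold cstR
  rw [← map_pow]
  rfl

theorem cstR_sub (r s : H602.RE A E) : cstR M A E (r - s) = cstR M A E r - cstR M A E s := by
  unfold cstR
  rw [← _root_.map_sub]
  rfl

theorem cstR_one : cstR M A E 1 = 1 := by
  unfold cstR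
  exact _root_.map_one _

theorem cstR_zero : cstR M A E 0 = 0 := by
  unfold cstR
  exact _root_.map_zero _

theorem cstR_natCast (n : ℕ) : cstR M A E (n : H602.RE A E) = (n : Om M) := by
  unfold cstR
  show cst M (((n : H602.RE A E) : E) : Qb) = _
  have : (((n : H602.RE A E) : E) : Qb) = (n : Qb) := by simp
  rw [this]
  exact map_natCast _ n

theorem cstR_eq_zero_iff {r : H602.RE A E} : cstR M A E r = 0 ↔ r = 0 := by
  rw [← cstR_zero M A E]
  exact (cstR_injective M A E).eq_iff

/-- `cstR r` is invertible in `Rc` iff `r` is a unit. -/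
theorem inv_cstR_mem_Rc_iff {r : H602.RE A E} (hr : r ≠ 0) :
    (cstR M A E r)⁻¹ ∈ Rc M A E ↔ IsUnit r := by
  constructor
  · intro h
    obtain ⟨s, hs⟩ := (mem_Rc_iff_cstR M A E).1 h
    refine isUnit_iff_exists_inv.2 ⟨s, ?_⟩
    apply cstR_injective M A E
    rw [cstR_mul, hs, cstR_one]
    exact mul_inv_cancel₀ (fun h0 => hr ((cstR_eq_zero_iff M A E).1 h0))
  · intro h
    obtain ⟨s, hs⟩ := isUnit_iff_exists_inv.1 h
    have : (cstR M A E r)⁻¹ = cstR M A E s := by
      apply inv_eq_of_mul_eq_one_right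
      rw [← cstR_mul, hs, cstR_one]
    rw [this]
    exact cstR_mem_Rc M A E s

/-- `w` is (the image of) a uniformiser of `R_E`. -/
def IsUnif (w : Om M) : Prop := ∃ ϖ : H602.RE A E, Irreducible ϖ ∧ w = cstR M A E ϖ

variable {M A E}

theorem IsUnif.mem {w : Om M} (hw : IsUnif M A E w) : w ∈ Rc M A E := by
  obtain ⟨ϖ, -, rfl⟩ := hw
  exact cstR_mem_Rc M A E ϖ

theorem IsUnif.ne_zero {w : Om M} (hw : IsUnif M A E w) : w ≠ 0 := by
  obtain ⟨ϖ, hϖ, rfl⟩ := hw
  exact fun h => hϖ.ne_zero ((cstR_eq_zero_iff M A E).1 h)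

theorem IsUnif.inv_not_mem {w : Om M} (hw : IsUnif M A E w) : w⁻¹ ∉ Rc M A E := by
  obtain ⟨ϖ, hϖ, rfl⟩ := hw
  exact fun h => hϖ.not_isUnit ((inv_cstR_mem_Rc_iff M A E hϖ.ne_zero).1 h)

section DVR

variable [IsDiscreteValuationRing (H602.RE A E)]

theorem IsUnif.gen {w : Om M} (hw : IsUnif M A E w) :
    ∀ r ∈ Rc M A E, r⁻¹ ∉ Rc M A E → r * w⁻¹ ∈ Rc M A E := by
  obtain ⟨ϖ, hϖ, rfl⟩ := hw
  intro r hr hrinv
  obtain ⟨r₀, rfl⟩ := (mem_Rc_iff_cstR M A E).1 hr
  have hr0 : r₀ ≠ 0 := by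
    rintro rfl
    rw [cstR_zero, inv_zero] at hrinv
    exact hrinv (zero_mem _)
  have hnu : ¬ IsUnit r₀ := fun h => hrinv ((inv_cstR_mem_Rc_iff M A E hr0).2 h)
  have hmem : r₀ ∈ IsLocalRing.maximalIdeal (H602.RE A E) :=
    (IsLocalRing.mem_maximalIdeal _).2 hnu
  rw [hϖ.maximalIdeal_eq, Ideal.mem_span_singleton] at hmem
  obtain ⟨s, rfl⟩ := hmem
  rw [cstR_mul, mul_comm (cstR M A E ϖ), mul_assoc,
    mul_inv_cancel₀ (fun h => hϖ.ne_zero ((cstR_eq_zero_iff M A E).1 h)), mul_one]
  exact cstR_mem_Rc M A E s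

theorem IsUnif.discrete {w : Om M} (hw : IsUnif M A E w) :
    ∀ r ∈ Rc M A E, r ≠ 0 →
      ∃ n : ℕ, r * (w⁻¹) ^ n ∈ Rc M A E ∧ (r * (w⁻¹) ^ n)⁻¹ ∈ Rc M A E := by
  obtain ⟨ϖ, hϖ, rfl⟩ := hw
  intro r hr hr0
  obtain ⟨r₀, rfl⟩ := (mem_Rc_iff_cstR M A E).1 hr
  have hr0' : r₀ ≠ 0 := fun h => hr0 (by rw [h, cstR_zero])
  obtain ⟨n, u, hu⟩ := IsDiscreteValuationRing.eq_unit_mul_pow_irreducible hr0' hϖ
  have hw0 : cstR M A E ϖ ≠ 0 := fun h => hϖ.ne_zero ((cstR_eq_zero_iff M A E).1 h)
  have key : cstR M A E r₀ * ((cstR M A E ϖ)⁻¹) ^ n = cstR M A E (u : H602.RE A E) := by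
    rw [hu, cstR_mul, cstR_pow, mul_assoc, inv_pow, mul_inv_cancel₀ (pow_ne_zero n hw0), mul_one]
  refine ⟨n, ?_, ?_⟩
  · rw [key]
    exact cstR_mem_Rc M A E _
  · rw [key]
    exact (inv_cstR_mem_Rc_iff M A E u.ne_zero).2 u.isUnit

/-- Membership in the maximal ideal, in terms of `w`. -/
theorem IsUnif.mul_inv_mem_iff {w : Om M} (hw : IsUnif M A E w) (r : H602.RE A E) :
    cstR M A E r * w⁻¹ ∈ Rc M A E ↔ r ∈ IsLocalRing.maximalIdeal (H602.RE A E) := by
  obtain ⟨ϖ, hϖ, rfl⟩ := hw
  have hw0 : cstR M A E ϖ ≠ 0 := fun h => hϖ.ne_zero ((cstR_eq_zero_iff M A E).1 h)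
  rw [hϖ.maximalIdeal_eq, Ideal.mem_span_singleton]
  constructor
  · intro h
    obtain ⟨s, hs⟩ := (mem_Rc_iff_cstR M A E).1 h
    refine ⟨s, ?_⟩
    apply cstR_injective M A E
    rw [cstR_mul, hs, mul_comm, mul_assoc, inv_mul_cancel₀ hw0, mul_one]
  · rintro ⟨s, rfl⟩
    rw [cstR_mul, mul_comm (cstR M A E ϖ), mul_assoc, mul_inv_cancel₀ hw0, mul_one]
    exact cstR_mem_Rc M A E s

end DVR

variable (M A E)

theorem exists_isUnif [IsDiscreteValuationRing (H602.RE A E)] : ∃ w : Om M, IsUnif M A E w := by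
  obtain ⟨ϖ, hϖ⟩ := IsDiscreteValuationRing.exists_irreducible (H602.RE A E)
  exact ⟨cstR M A E ϖ, ϖ, hϖ, rfl⟩

end Fermat.Agent.S18.H456

end
end
-- ===== PACK-END S18/H456/ModR.lean

-- ===== PACK-BEGIN S18/H24/GaussB.lean
section


/-!
# S18 / MOD-ASM, piece G-V (helper24) — part B: `V_gen`, primitive parts, `V_total`

`IsUnif A E w₀` : `w₀` is a uniformiser of the discrete valuation ring `A ∩ E` (element-wise form,
to be supplied by G-R).  With `w = cst M w₀`:

* `field_V_gen`          : `f ∈ V`, `f⁻¹ ∉ V` ⟹ `f/w ∈ V`;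
* `exists_primitive`     : a nonzero integral series is `w₀^a ·` (integral series with nonzero
                           reduction);
* `exists_gauss_form`    : every `f ≠ 0` in `Fc` is `w^n · U₁/U₂` with `U₁, U₂` integral of nonzero
                           reduction;
* `field_V_total`        : `f ∈ V ∨ f⁻¹ ∈ V` for `f ∈ Fc`.
-/

set_option autoImplicit false

noncomputable section

namespace Fermat.Agent.S18.H24

open ModularCurve AlgebraicCurve HahnSeries Fermat.Agent.S18 Fermat.Agent.S18.Mod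
open Fermat.Agent.S18.H456

/-- `w₀` is a uniformiser of the discrete valuation ring `A ∩ E`. -/
structure IsUnif (A : ValuationSubring Qb) (E : IntermediateField ℚ Qb) (w₀ : Qb) : Prop where
  mem_A : w₀ ∈ A
  mem_E : w₀ ∈ E
  ne_zero : w₀ ≠ 0
  inv_not_mem : w₀⁻¹ ∉ A
  gen : ∀ c, c ∈ A → c ∈ E → c⁻¹ ∉ A → c * w₀⁻¹ ∈ A
  discrete : ∀ c, c ∈ A → c ∈ E → c ≠ 0 →
    ∃ n : ℕ, c * (w₀⁻¹) ^ n ∈ A ∧ (c * (w₀⁻¹) ^ n)⁻¹ ∈ A

variable {M : ℕ} {A : ValuationSubring Qb} {E : IntermediateField ℚ Qb}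

theorem val_inv (f : Om M) : ((f⁻¹ : Om M) : LaurentSeries Qb) = (f : LaurentSeries Qb)⁻¹ := rfl

theorem val_mul (f g : Om M) :
    ((f * g : Om M) : LaurentSeries Qb) = (f : LaurentSeries Qb) * (g : LaurentSeries Qb) := rfl

theorem val_cst' (c : Qb) : ((cst M c : Om M) : LaurentSeries Qb) = HahnSeries.C c := by
  rw [val_cst]; rfl

theorem val_eq_zero_iff {f : Om M} : (f : LaurentSeries Qb) = 0 ↔ f = 0 :=
  ⟨fun h => Subtype.ext h, fun h => by rw [h]; rfl⟩

theorem red_ne_zero_imp_inc_ne_zero {U : LaurentSeries A} (h : red A U ≠ 0) : inc A U ≠ 0 := by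
  intro h0
  apply h
  have : U = 0 := inc_injective (by rw [h0, _root_.map_zero])
  rw [this, _root_.map_zero]

/-- Dividing an integral series with zero reduction by the uniformiser. -/
theorem exists_div_unif {w₀ : Qb} (hw : _root_.Fermat.Agent.S18.H24.IsUnif A E w₀) {U : LaurentSeries A}
    (hU : IsIntE M A E U) (hred : red A U = 0) :
    ∃ U' : LaurentSeries A, IsIntE M A E U' ∧ inc A U' = HahnSeries.C (w₀⁻¹) * inc A U := by
  have hcoef : ∀ n, (HahnSeries.C (w₀⁻¹) * inc A U).coeff n ∈ A := by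
    intro n
    rw [HahnSeries.C_mul_eq_smul, HahnSeries.coeff_smul, inc_coeff, smul_eq_mul, mul_comm]
    have hm := (red_eq_zero_iff U).mp hred n
    rcases (mem_maximalIdeal_iff _).mp hm with h0 | hni
    · rw [h0, zero_mul]; exact A.zero_mem
    · exact hw.gen _ (U.coeff n).2 (hU.1 n) hni
  obtain ⟨U', hU'⟩ := exists_inc_eq hcoef
  refine ⟨U', ?_, hU'⟩
  obtain ⟨f, hf, hfU⟩ := hU.2
  refine (isIntE_iff M A E).mpr ⟨(cst M w₀)⁻¹ * f, ?_, ?_⟩
  · exact mul_mem (inv_mem (field_E_le_F M E (cst_mem_Ec M E hw.mem_E))) hf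
  · rw [hU', val_mul, val_inv, val_cst', hfU, ← map_inv₀]

variable (M) in
/-- field `V_gen`. -/
theorem field_V_gen {w₀ : Qb} (hw : _root_.Fermat.Agent.S18.H24.IsUnif A E w₀) :
    ∀ f ∈ Vc M A E, f⁻¹ ∉ Vc M A E → f * (cst M w₀)⁻¹ ∈ Vc M A E := by
  rintro f ⟨hfF, U₁, U₂, h₁, h₂, hr, hfU⟩ hfinv
  have hf0 : f ≠ 0 := by
    rintro rfl
    rw [inv_zero] at hfinv
    exact hfinv (zero_mem _)
  have hfv0 : (f : LaurentSeries Qb) ≠ 0 := fun h => hf0 (val_eq_zero_iff.mp h)
  have hred : red A U₁ = 0 := by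
    by_contra hne
    apply hfinv
    refine ⟨inv_mem hfF, U₂, U₁, h₂, h₁, hne, ?_⟩
    rw [val_inv, ← hfU]
    field_simp
  obtain ⟨U', hU', hU'eq⟩ := exists_div_unif hw h₁ hred
  refine ⟨mul_mem hfF (inv_mem (field_E_le_F M E (cst_mem_Ec M E hw.mem_E))), U', U₂, hU', h₂, hr,
    ?_⟩
  rw [hU'eq, val_mul, val_inv, val_cst', ← hfU, ← map_inv₀]
  ring

/-! ### Primitive parts -/

theorem unit_mul_pow_mem {w₀ : Qb} (hw : _root_.Fermat.Agent.S18.H24.IsUnif A E w₀) {c : Qb} {k a : ℕ} (hak : a ≤ k)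
    (hc : c * (w₀⁻¹) ^ k ∈ A) : c * (w₀⁻¹) ^ a ∈ A := by
  obtain ⟨d, rfl⟩ := Nat.exists_eq_add_of_le hak
  have : c * (w₀⁻¹) ^ a = c * (w₀⁻¹) ^ (a + d) * w₀ ^ d := by
    rw [_root_.pow_add, inv_pow, inv_pow]
    have := hw.ne_zero
    field_simp
  rw [this]
  exact A.mul_mem _ _ hc (pow_mem hw.mem_A d)

/-- A nonzero integral series is a power of the uniformiser times an integral series with
nonzero reduction. -/
theorem exists_primitive {w₀ : Qb} (hw : _root_.Fermat.Agent.S18.H24.IsUnif A E w₀) {U : LaurentSeries A}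
    (hU : IsIntE M A E U) (hU0 : U ≠ 0) :
    ∃ (a : ℕ) (U₀ : LaurentSeries A), IsIntE M A E U₀ ∧ red A U₀ ≠ 0 ∧
      inc A U = HahnSeries.C (w₀ ^ a) * inc A U₀ := by
  classical
  -- the set of valuations of nonzero coefficients
  have hex : ∃ k : ℕ, ∃ n : ℤ, U.coeff n ≠ 0 ∧ (U.coeff n : Qb) * (w₀⁻¹) ^ k ∈ A ∧
      ((U.coeff n : Qb) * (w₀⁻¹) ^ k)⁻¹ ∈ A := by
    obtain ⟨n, hn⟩ : ∃ n, U.coeff n ≠ 0 := by
      by_contra h
      push Not at h
      exact hU0 (HahnSeries.ext (funext h))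
    have hn' : (U.coeff n : Qb) ≠ 0 := fun h => hn (Subtype.ext h)
    obtain ⟨k, hk1, hk2⟩ := hw.discrete _ (U.coeff n).2 (hU.1 n) hn'
    exact ⟨k, n, hn, hk1, hk2⟩
  set a := Nat.find hex with ha
  obtain ⟨n₀, hn₀, hn₀1, hn₀2⟩ := Nat.find_spec hex
  have hmin : ∀ k, (∃ n : ℤ, U.coeff n ≠ 0 ∧ (U.coeff n : Qb) * (w₀⁻¹) ^ k ∈ A ∧
      ((U.coeff n : Qb) * (w₀⁻¹) ^ k)⁻¹ ∈ A) → a ≤ k := fun k hk => Nat.find_min' hex hk
  have hcoef : ∀ n, (HahnSeries.C ((w₀⁻¹) ^ a) * inc A U).coeff n ∈ A := by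
    intro n
    rw [HahnSeries.C_mul_eq_smul, HahnSeries.coeff_smul, inc_coeff, smul_eq_mul, mul_comm]
    by_cases hn : U.coeff n = 0
    · rw [hn]; simp
    · have hn' : (U.coeff n : Qb) ≠ 0 := fun h => hn (Subtype.ext h)
      obtain ⟨k, hk1, hk2⟩ := hw.discrete _ (U.coeff n).2 (hU.1 n) hn'
      exact unit_mul_pow_mem hw (hmin k ⟨n, hn, hk1, hk2⟩) hk1
  obtain ⟨U₀, hU₀⟩ := exists_inc_eq hcoef
  have hw0 := hw.ne_zero
  refine ⟨a, U₀, ?_, ?_, ?_⟩
  · obtain ⟨f, hf, hfU⟩ := hU.2
    refine (isIntE_iff M A E).mpr ⟨((cst M w₀)⁻¹) ^ a * f, ?_, ?_⟩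
    · exact mul_mem (pow_mem (inv_mem (field_E_le_F M E (cst_mem_Ec M E hw.mem_E))) _) hf
    · rw [hU₀, val_mul, hfU]
      congr 1
      show (((cst M w₀)⁻¹ ^ a : Om M) : LaurentSeries Qb) = _
      rw [← map_inv₀, ← map_pow]
      exact val_cst' _
  · intro hred
    have hm := (red_eq_zero_iff U₀).mp hred n₀
    rcases (mem_maximalIdeal_iff _).mp hm with h0 | hni
    · have h1 : ((U₀.coeff n₀ : A) : Qb) = (U.coeff n₀ : Qb) * (w₀⁻¹) ^ a := by
        rw [← inc_coeff, hU₀, HahnSeries.C_mul_eq_smul, HahnSeries.coeff_smul, inc_coeff,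
          smul_eq_mul, mul_comm]
      rw [h1] at h0
      have hn₀' : (U.coeff n₀ : Qb) ≠ 0 := fun h => hn₀ (Subtype.ext h)
      exact mul_ne_zero hn₀' (pow_ne_zero _ (inv_ne_zero hw0)) h0
    · apply hni
      have h1 : ((U₀.coeff n₀ : A) : Qb) = (U.coeff n₀ : Qb) * (w₀⁻¹) ^ a := by
        rw [← inc_coeff, hU₀, HahnSeries.C_mul_eq_smul, HahnSeries.coeff_smul, inc_coeff,
          smul_eq_mul, mul_comm]
      rw [h1]
      exact hn₀2
  · rw [hU₀, ← mul_assoc, ← _root_.map_mul, inv_pow, mul_inv_cancel₀ (pow_ne_zero _ hw0), _root_.map_one,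
      one_mul]

/-! ### The Gauss normal form -/

/-- `f = w^n · U₁ / U₂` with integral `U₁, U₂` of nonzero reduction. -/
def GaussForm (M : ℕ) (A : ValuationSubring Qb) (E : IntermediateField ℚ Qb) (w₀ : Qb)
    (f : Om M) : Prop :=
  ∃ (n : ℤ) (U₁ U₂ : LaurentSeries A), IsIntE M A E U₁ ∧ IsIntE M A E U₂ ∧
    red A U₁ ≠ 0 ∧ red A U₂ ≠ 0 ∧
    (f : LaurentSeries Qb) * inc A U₂ = HahnSeries.C w₀ ^ n * inc A U₁

theorem GaussForm.ne_zero {w₀ : Qb} (hw0 : w₀ ≠ 0) {f : Om M} (h : GaussForm M A E w₀ f) :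
    f ≠ 0 := by
  rintro rfl
  obtain ⟨n, U₁, U₂, -, -, hr₁, -, heq⟩ := h
  have h1 : (HahnSeries.C w₀ : LaurentSeries Qb) ≠ 0 := by
    intro h
    exact hw0 (HahnSeries.C_injective (by rw [h, _root_.map_zero]))
  have : HahnSeries.C w₀ ^ n * inc A U₁ = 0 := by
    rw [← heq]
    show (0 : LaurentSeries Qb) * _ = 0
    rw [zero_mul]
  rcases mul_eq_zero.mp this with h | h
  · exact zpow_ne_zero n h1 h
  · exact red_ne_zero_imp_inc_ne_zero hr₁ h

theorem C_ne_zero' {w₀ : Qb} (hw0 : w₀ ≠ 0) : (HahnSeries.C w₀ : LaurentSeries Qb) ≠ 0 := by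
  intro h
  exact hw0 (HahnSeries.C_injective (by rw [h, _root_.map_zero]))

theorem GaussForm.inv {w₀ : Qb} (hw0 : w₀ ≠ 0) {f : Om M} (h : GaussForm M A E w₀ f) :
    GaussForm M A E w₀ f⁻¹ := by
  have hf0 := h.ne_zero hw0
  obtain ⟨n, U₁, U₂, h₁, h₂, hr₁, hr₂, heq⟩ := h
  refine ⟨-n, U₂, U₁, h₂, h₁, hr₂, hr₁, ?_⟩
  have hfv0 : (f : LaurentSeries Qb) ≠ 0 := fun h => hf0 (val_eq_zero_iff.mp h)
  have hC := C_ne_zero' hw0
  have hCn : (HahnSeries.C w₀ : LaurentSeries Qb) ^ n ≠ 0 := zpow_ne_zero n hC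
  rw [val_inv, zpow_neg]
  have h1 : inc A U₁ = (HahnSeries.C w₀ ^ n)⁻¹ * ((f : LaurentSeries Qb) * inc A U₂) := by
    rw [heq, ← mul_assoc, inv_mul_cancel₀ hCn, one_mul]
  rw [h1]
  field_simp

theorem GaussForm.mul {w₀ : Qb} (hw0 : w₀ ≠ 0) {f g : Om M} (hf : GaussForm M A E w₀ f)
    (hg : GaussForm M A E w₀ g) : GaussForm M A E w₀ (f * g) := by
  obtain ⟨n, U₁, U₂, h₁, h₂, hr₁, hr₂, heq⟩ := hf
  obtain ⟨n', W₁, W₂, k₁, k₂, kr₁, kr₂, heq'⟩ := hg
  refine ⟨n + n', U₁ * W₁, U₂ * W₂, IsIntE.mul h₁ k₁, IsIntE.mul h₂ k₂, ?_, ?_, ?_⟩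
  · rw [_root_.map_mul]; exact mul_ne_zero hr₁ kr₁
  · rw [_root_.map_mul]; exact mul_ne_zero hr₂ kr₂
  · rw [val_mul, _root_.map_mul, _root_.map_mul, zpow_add₀ (C_ne_zero' hw0)]
    calc (f : LaurentSeries Qb) * (g : LaurentSeries Qb) * (inc A U₂ * inc A W₂)
        = ((f : LaurentSeries Qb) * inc A U₂) * ((g : LaurentSeries Qb) * inc A W₂) := by ring
      _ = _ := by rw [heq, heq']; ring

theorem GaussForm.neg {w₀ : Qb} {f : Om M} (hf : GaussForm M A E w₀ f) :
    GaussForm M A E w₀ (-f) := by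
  obtain ⟨n, U₁, U₂, h₁, h₂, hr₁, hr₂, heq⟩ := hf
  refine ⟨n, -U₁, U₂, IsIntE.neg h₁, h₂, ?_, hr₂, ?_⟩
  · rw [_root_.map_neg]; exact neg_ne_zero.mpr hr₁
  · show (-(f : LaurentSeries Qb)) * inc A U₂ = _
    rw [_root_.map_neg, neg_mul, heq, mul_neg]

/-- The sum of two Gauss forms (with `n ≤ n'`) is `0` or a Gauss form. -/
theorem GaussForm.add_aux {w₀ : Qb} (hw : _root_.Fermat.Agent.S18.H24.IsUnif A E w₀) {f g : Om M} {n : ℤ} {d : ℕ}
    {U₁ U₂ W₁ W₂ : LaurentSeries A}
    (h₁ : IsIntE M A E U₁) (h₂ : IsIntE M A E U₂) (hr₂ : red A U₂ ≠ 0)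
    (heq : (f : LaurentSeries Qb) * inc A U₂ = HahnSeries.C w₀ ^ n * inc A U₁)
    (k₁ : IsIntE M A E W₁) (k₂ : IsIntE M A E W₂) (kr₂ : red A W₂ ≠ 0)
    (heq' : (g : LaurentSeries Qb) * inc A W₂ = HahnSeries.C w₀ ^ (n + d) * inc A W₁) :
    f + g = 0 ∨ GaussForm M A E w₀ (f + g) := by
  have hw0 := hw.ne_zero
  have hC := C_ne_zero' hw0
  -- the numerator
  set Nn : LaurentSeries A := U₁ * W₂ + HahnSeries.C (⟨w₀, hw.mem_A⟩ ^ d : A) * W₁ * U₂ with hNn
  have hNint : IsIntE M A E Nn := by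
    refine IsIntE.add (IsIntE.mul h₁ k₂) (IsIntE.mul (IsIntE.mul ?_ k₁) h₂)
    refine isIntE_C ?_
    show ((⟨w₀, hw.mem_A⟩ ^ d : A) : Qb) ∈ E
    rw [SubmonoidClass.coe_pow]
    exact pow_mem hw.mem_E d
  have hincN : inc A Nn = inc A U₁ * inc A W₂ + HahnSeries.C w₀ ^ d * inc A W₁ * inc A U₂ := by
    rw [hNn, _root_.map_add, _root_.map_mul, _root_.map_mul, _root_.map_mul, inc_C, SubmonoidClass.coe_pow, map_pow]
  have hden : red A (U₂ * W₂) ≠ 0 := by rw [_root_.map_mul]; exact mul_ne_zero hr₂ kr₂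
  have hmain : ((f + g : Om M) : LaurentSeries Qb) * inc A (U₂ * W₂) =
      HahnSeries.C w₀ ^ n * inc A Nn := by
    show ((f : LaurentSeries Qb) + (g : LaurentSeries Qb)) * inc A (U₂ * W₂) = _
    rw [_root_.map_mul, hincN]
    calc ((f : LaurentSeries Qb) + (g : LaurentSeries Qb)) * (inc A U₂ * inc A W₂)
        = ((f : LaurentSeries Qb) * inc A U₂) * inc A W₂ +
            ((g : LaurentSeries Qb) * inc A W₂) * inc A U₂ := by ring
      _ = _ := by
        rw [heq, heq', zpow_add₀ hC, zpow_natCast]; ring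
  by_cases hN0 : Nn = 0
  · left
    rw [hN0, _root_.map_zero, mul_zero] at hmain
    rcases mul_eq_zero.mp hmain with h | h
    · exact val_eq_zero_iff.mp h
    · exact absurd h (red_ne_zero_imp_inc_ne_zero hden)
  · right
    obtain ⟨a, N₀, hN₀, hrN₀, hNeq⟩ := exists_primitive hw hNint hN0
    refine ⟨n + a, N₀, U₂ * W₂, hN₀, IsIntE.mul h₂ k₂, hrN₀, hden, ?_⟩
    rw [hmain, hNeq, zpow_add₀ hC, zpow_natCast, map_pow]
    ring

theorem GaussForm.add {w₀ : Qb} (hw : _root_.Fermat.Agent.S18.H24.IsUnif A E w₀) {f g : Om M}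
    (hf : GaussForm M A E w₀ f) (hg : GaussForm M A E w₀ g) :
    f + g = 0 ∨ GaussForm M A E w₀ (f + g) := by
  obtain ⟨n, U₁, U₂, h₁, h₂, -, hr₂, heq⟩ := hf
  obtain ⟨n', W₁, W₂, k₁, k₂, -, kr₂, heq'⟩ := hg
  rcases le_total n n' with h | h
  · obtain ⟨d, hd⟩ := Int.le.dest h
    rw [← hd] at heq'
    exact GaussForm.add_aux hw h₁ h₂ hr₂ heq k₁ k₂ kr₂ heq'
  · obtain ⟨d, hd⟩ := Int.le.dest h
    rw [← hd] at heq
    rw [add_comm]
    exact GaussForm.add_aux hw k₁ k₂ kr₂ heq' h₁ h₂ hr₂ heq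

end Fermat.Agent.S18.H24

end
end
-- ===== PACK-END S18/H24/GaussB.lean

-- ===== PACK-BEGIN S56/H906/FlatOSpec.lean
section



/-!
# Row S56 — FLAT-O (flat tangent bound at `p`, reducible case): interface (helper906)

Plan and all the mathematics: `coord/S56-FLATO-helper906.md` on `origin/helper906`.

`FlatOStatement`  ⇐  (FI) + (FT) + (FU) + (KUM) + (TAMEFROB) + (UNRHOM)      (assembly = piece ASM)

Everything local at `p` is phrased on the landed A3 Hopf lattices
(`Fermat.Agent.S19.H435.IsHopfLattice`): a `ℤ_(p)`-subalgebra `Λ ⊂ (M → ℚ̄)` of equivariant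
functions on a finite Galois module `M`, closed under `f ↦ f(x + y)`.  A Prelude `IsFlatAt`
gives such a lattice by `Fermat.Agent.S19.H435.exists_isHopfLattice_of_hopfModel`; quotients
are `IsHopfLattice.quotient`.

* `UnrValStatement` (UNR): an inertia-fixed element of `ℚ̄` has the valuation of a power of `p`.
* `LemmaAStatement` (A): a point of order `p` all of whose coordinates are `≡` the coordinates
  of `0` modulo `lam`, where `v(lam)^(p-1) < v(p)`, is `0`.
* `FlatInertiaStatement` (FI): an inertia-fixed point in the subgroup generated by the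
  `σ y - y`, `σ ∈ I_P`, is `0`.                                           [(UNR) + (A)]
* `FlatTameStatement` (FT): if inertia acts on `x ≠ 0` through `𝔽_p^×`, the character is trivial
  or the cyclotomic character.                                        [(UNR) + (A) + leading terms]
* `FlatUnitStatement` (FU): unit resolvent = "peu ramifié".
* `KumStatement` (KUM): the peu ramifié classes in `H¹(D_P, k(a))`, `a|_I = ω`, span `≤ 1`
  dimension.
* `TameFrobStatement`, `UnramHomStatement`: structure of `D_P / wild inertia`.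

Nothing is proved in this file; nothing is `sorry`.
-/

set_option autoImplicit false

open Polynomial IsLocalRing

noncomputable section

namespace Fermat.Agent.S56.H906

open Fermat.Agent.S56 Fermat.Agent.S56.H716

/-- `ℤ_(p)` (the Prelude ring). -/
abbrev Zp (p : ℕ) : Type := Fermat.Agent.S19.H435.Zl p

/-- Hopf lattices of cell A3. -/
abbrev IsHL (p : ℕ) {M : Type} [AddCommGroup M] (act : GQ → M → M)
    (Λ : Subalgebra (Zp p) (M → Qb)) : Prop :=
  Fermat.Agent.S19.H435.IsHopfLattice p act Λ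

/-! ## Local flatness inputs -/

/-- (UNR) the inertia field is unramified: the valuation of an inertia-fixed element is an
integral power of the valuation of `p`. -/
def UnrValStatement : Prop :=
  ∀ p : ℕ, p.Prime → ∀ P : ValuationSubring Qb, P.LiesOverPrime p →
    ∀ y : Qb, y ≠ 0 → (∀ σ ∈ P.inertiaSubgroupIn ℚ, σ y = y) →
      ∃ n : ℤ, P.valuation y = P.valuation (p : Qb) ^ n

/-- (A) rigidity of points of order `p` ("Lemma A", all `p`; for `lam = p` it needs `p ≥ 3`). -/
def LemmaAStatement : Prop :=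
  ∀ (p : ℕ) [Fact p.Prime] (M : Type) [AddCommGroup M] [Finite M] (act : GQ → M → M)
    (Λ : Subalgebra (Zp p) (M → Qb)), IsHL p act Λ →
    ∀ P : ValuationSubring Qb, P.LiesOverPrime p →
    ∀ (x : M) (lam : Qb), p • x = 0 →
      P.valuation lam ^ (p - 1) < P.valuation (p : Qb) →
      (∀ f ∈ Λ, P.valuation (f x - f 0) ≤ P.valuation lam) → x = 0

/-- (FI) connected–étale, Galois-module form: `(I_aug M) ∩ M^I = 0` for a flat `M` killed by
`p`, `p` odd. -/
def FlatInertiaStatement : Prop :=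
  ∀ (p : ℕ) [Fact p.Prime], p ≠ 2 →
    ∀ (M : Type) [AddCommGroup M] [Finite M] (act : GQ → M → M)
    (Λ : Subalgebra (Zp p) (M → Qb)), IsHL p act Λ → (∀ x : M, p • x = 0) →
    ∀ P : ValuationSubring Qb, P.LiesOverPrime p → ∀ x : M,
      (∀ σ ∈ P.inertiaSubgroupIn ℚ, act σ x = x) →
      x ∈ AddSubgroup.closure
        {z : M | ∃ σ ∈ P.inertiaSubgroupIn ℚ, ∃ y : M, z = act σ y - y} →
      x = 0

/-- (FT) Raynaud's tame characters in the only case needed: if inertia acts on a nonzero point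
`x` of a flat `M` (killed by `p`, `p` odd) through scalars of `𝔽_p`, then it acts trivially or
through the cyclotomic character. -/
def FlatTameStatement : Prop :=
  ∀ (p : ℕ) [Fact p.Prime], p ≠ 2 →
    ∀ (M : Type) [AddCommGroup M] [Finite M] (act : GQ → M → M)
    (Λ : Subalgebra (Zp p) (M → Qb)), IsHL p act Λ → (∀ x : M, p • x = 0) →
    ∀ P : ValuationSubring Qb, P.LiesOverPrime p → ∀ x : M, x ≠ 0 →
      (∀ τ ∈ P.inertiaSubgroupIn ℚ, ∃ n : ℕ, act τ x = n • x) →
      (∀ τ ∈ P.inertiaSubgroupIn ℚ, act τ x = x) ∨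
        (∀ τ ∈ P.inertiaSubgroupIn ℚ, ∀ a : ℕ, IsCycExp p τ a → act τ x = a • x)

/-- (FU) unit resolvent.  `H := {σ ∈ I_P : σ ζ = ζ}`; `L ⊂ M` a subgroup fixed pointwise by `H`
and containing all `σ y - y` (`σ ∈ H`).  Then for every point `x` and every additive character
`ξ : M → 𝔽_p` the Kummer character `σ ↦ ζ^{ξ(σ x - x)}` of `H` is the Kummer character of a
`P`-unit. -/
def FlatUnitStatement : Prop :=
  ∀ (p : ℕ) [Fact p.Prime]
    (M : Type) [AddCommGroup M] [Finite M] (act : GQ → M → M)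
    (Λ : Subalgebra (Zp p) (M → Qb)), IsHL p act Λ → (∀ x : M, p • x = 0) →
    ∀ P : ValuationSubring Qb, P.LiesOverPrime p →
    ∀ ζ : Qb, IsPrimitiveRoot ζ p → ∀ L : AddSubgroup M,
      (∀ σ ∈ P.inertiaSubgroupIn ℚ, σ ζ = ζ → ∀ t ∈ L, act σ t = t) →
      (∀ σ ∈ P.inertiaSubgroupIn ℚ, σ ζ = ζ → ∀ y : M, act σ y - y ∈ L) →
      ∀ (ξ : M →+ ZMod p) (x : M),
        ∃ B : Qb, P.valuation B = 1 ∧
          ∀ σ ∈ P.inertiaSubgroupIn ℚ, σ ζ = ζ → σ B = ζ ^ (ξ (act σ x - x)).val * B

/-! ## Local Galois cohomology at `p` -/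

section Loc

variable (p : ℕ) (P : ValuationSubring Qb) {k : Type} [Field k]

/-- `a` has finite level on `D_P`. -/
def HasLevelOn (a : GQ → k) : Prop :=
  ∃ L : IntermediateField ℚ Qb, FiniteDimensional ℚ L ∧
    ∀ σ ∈ P.decompositionSubgroup ℚ, ∀ τ ∈ P.decompositionSubgroup ℚ,
      (∀ x ∈ L, τ x = x) → a (σ * τ) = a σ

/-- `a : G_ℚ → k` restricts to a character of `D_P` of finite level. -/
structure IsLocChar (a : GQ → k) : Prop where
  map_one : a 1 = 1
  map_mul : ∀ σ ∈ P.decompositionSubgroup ℚ, ∀ τ ∈ P.decompositionSubgroup ℚ,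
    a (σ * τ) = a σ * a τ
  level : HasLevelOn P a

/-- `a` is a character of `D_P` which is the mod-`p` cyclotomic character on inertia. -/
structure IsOrdChar (a : GQ → k) : Prop extends IsLocChar P a where
  cyc : ∀ σ ∈ P.inertiaSubgroupIn ℚ, ∀ n : ℕ, IsCycExp p σ n → a σ = (n : k)

/-- `c` restricts to a cocycle `D_P → k(a)` of finite level. -/
structure IsLocCocycle (a c : GQ → k) : Prop where
  map_mul : ∀ σ ∈ P.decompositionSubgroup ℚ, ∀ τ ∈ P.decompositionSubgroup ℚ,
    c (σ * τ) = c σ + a σ * c τ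
  level : HasLevelOn P c

/-- `c` is *peu ramifié*: every `𝔽_p`-component of `c`, restricted to `{σ ∈ I_P : σ ζ = ζ}`,
is the Kummer character of a `P`-unit. -/
def IsPeu (c : GQ → k) : Prop :=
  ∀ ζ : Qb, IsPrimitiveRoot ζ p → ∀ ℓ : k →+ ZMod p,
    ∃ B : Qb, P.valuation B = 1 ∧
      ∀ σ ∈ P.inertiaSubgroupIn ℚ, σ ζ = ζ → σ B = ζ ^ (ℓ (c σ)).val * B

end Loc

/-- (KUM) the peu ramifié classes in `H¹(D_P, k(a))`, `a|_{I_P}` cyclotomic, span at most one
dimension. -/
def KumStatement : Prop :=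
  ∀ (p : ℕ) [Fact p.Prime], p ≠ 2 → ∀ (k : Type) [Field k] [Finite k] [CharP k p]
    (P : ValuationSubring Qb), P.LiesOverPrime p → ∀ a : GQ → k, IsOrdChar p P a →
    ∃ c₀ : GQ → k, ∀ c : GQ → k, IsLocCocycle P a c → IsPeu p P c →
      ∃ lam m : k, ∀ σ ∈ P.decompositionSubgroup ℚ, c σ = lam * c₀ σ + (a σ - 1) * m

/-- (TAMEFROB) a character `D_P → k^×` (`k` finite of characteristic `p`) has values in
`𝔽_p^×` on inertia. -/
def TameFrobStatement : Prop :=
  ∀ (p : ℕ) [Fact p.Prime] (k : Type) [Field k] [Finite k] [CharP k p]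
    (P : ValuationSubring Qb), P.LiesOverPrime p → ∀ a : GQ → k, IsLocChar P a →
    ∀ τ ∈ P.inertiaSubgroupIn ℚ, a τ ^ p = a τ

/-- (UNRHOM) `D_P / I_P` is procyclic: an unramified homomorphism `D_P → k` of finite level
vanishing at one (suitable) element `φ` vanishes. -/
def UnramHomStatement : Prop :=
  ∀ (p : ℕ), p.Prime → ∀ (P : ValuationSubring Qb), P.LiesOverPrime p →
    ∃ φ ∈ P.decompositionSubgroup ℚ, ∀ (k : Type) [Field k] (h : GQ → k),
      (∀ σ ∈ P.decompositionSubgroup ℚ, ∀ τ ∈ P.decompositionSubgroup ℚ,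
        h (σ * τ) = h σ + h τ) →
      HasLevelOn P h → (∀ σ ∈ P.inertiaSubgroupIn ℚ, h σ = 0) → h φ = 0 →
      ∀ σ ∈ P.decompositionSubgroup ℚ, h σ = 0

/-! ## The local bound -/

section Top

variable {k : Type} [Field k] (ρbar : ResidualGaloisRep k) (P : ValuationSubring Qb)

/-- `H⁰(D_P, ad⁰ ρ̄)`: trace-zero endomorphisms commuting with `ρ̄(D_P)`. -/
def adInv : Submodule k (Module.End k ρbar.V) where
  carrier := {m | LinearMap.trace k ρbar.V m = 0 ∧
    ∀ σ ∈ P.decompositionSubgroup ℚ, ρbar.ρ σ * m = m * ρbar.ρ σ}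
  add_mem' := by
    rintro a b ⟨ha, ha'⟩ ⟨hb, hb'⟩
    refine ⟨by rw [_root_.map_add, ha, hb, add_zero], fun σ hσ => ?_⟩
    rw [mul_add, add_mul, ha' σ hσ, hb' σ hσ]
  zero_mem' := ⟨_root_.map_zero _, fun σ _ => by rw [mul_zero, zero_mul]⟩
  smul_mem' := by
    rintro r a ⟨ha, ha'⟩
    refine ⟨by rw [_root_.map_smul, ha, smul_zero], fun σ hσ => ?_⟩
    rw [mul_smul_comm, smul_mul_assoc, ha' σ hσ]

/-- `c` and `t` are cohomologous on `D_P` (as `ad⁰`-valued cochains). -/
def CohomOn (c t : GQ → Module.End k ρbar.V) : Prop :=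
  ∃ m : Module.End k ρbar.V, LinearMap.trace k ρbar.V m = 0 ∧
    ∀ σ ∈ P.decompositionSubgroup ℚ, c σ - t σ = ρbar.ρ σ * m * ρbar.ρ σ⁻¹ - m

end Top

/-- The local flat bound at `P | p`: all flat tangent cocycles (any `Q`) lie, on `D_P` and modulo
coboundaries, in one `k`-space of dimension `≤ h⁰(D_P, ad⁰ ρ̄) + 1`. -/
def LocalBoundFlatAt (𝒪 : Type) [CommRing 𝒪] [IsLocalRing 𝒪] (p : ℕ)
    (ρbar : ResidualGaloisRep (ResidueField 𝒪)) (Smin : Finset ℕ)
    (P : ValuationSubring Qb) : Prop :=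
  ∃ T : Submodule (ResidueField 𝒪) (GQ → Module.End (ResidueField 𝒪) ρbar.V),
    Module.Finite (ResidueField 𝒪) T ∧
    Module.finrank (ResidueField 𝒪) T ≤ Module.finrank (ResidueField 𝒪) (_root_.Fermat.Agent.S56.H906.adInv ρbar P) + 1 ∧
    ∀ (Q : Finset ℕ) (c : GQ → Module.End (ResidueField 𝒪) ρbar.V),
      IsTanCocycle 𝒪 ρbar (flatCond 𝒪 p Smin Q) c → ∃ t ∈ T, CohomOn ρbar P c t

/-- `ρ̄|_{D_P}` is reducible. -/
def IsReducibleAt {k : Type} [Field k] (ρbar : ResidualGaloisRep k)
    (P : ValuationSubring Qb) : Prop :=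
  ∃ W : Submodule k ρbar.V, W ≠ ⊥ ∧ W ≠ ⊤ ∧
    ∀ σ ∈ P.decompositionSubgroup ℚ, ∀ x ∈ W, ρbar.ρ σ x ∈ W

/-- (FLAT-O) the local flat bound when `ρ̄|_{D_P}` is reducible. -/
def FlatOStatement : Prop :=
  ∀ (𝒪 : Type) [CommRing 𝒪] [IsDomain 𝒪] [IsDiscreteValuationRing 𝒪]
    [IsAdicComplete (maximalIdeal 𝒪) 𝒪] [Finite (ResidueField 𝒪)]
    (p : ℕ) (ρbar : ResidualGaloisRep (ResidueField 𝒪)) (S Smin : Finset ℕ),
    Hyp 𝒪 p ρbar S Smin → ∀ P : ValuationSubring Qb, P.LiesOverPrime p →
      IsReducibleAt ρbar P → LocalBoundFlatAt 𝒪 p ρbar Smin P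

/-- (FLAT-SS) the local flat bound when `ρ̄|_{D_P}` is irreducible (owner: FL plan of helper426). -/
def FlatSSStatement : Prop :=
  ∀ (𝒪 : Type) [CommRing 𝒪] [IsDomain 𝒪] [IsDiscreteValuationRing 𝒪]
    [IsAdicComplete (maximalIdeal 𝒪) 𝒪] [Finite (ResidueField 𝒪)]
    (p : ℕ) (ρbar : ResidualGaloisRep (ResidueField 𝒪)) (S Smin : Finset ℕ),
    Hyp 𝒪 p ρbar S Smin → ∀ P : ValuationSubring Qb, P.LiesOverPrime p →
      ¬ IsReducibleAt ρbar P → LocalBoundFlatAt 𝒪 p ρbar Smin P

/-- (FLAT) = (FLAT-O) + (FLAT-SS): the local flat bound at every `P | p`. -/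
def FlatStatement : Prop :=
  ∀ (𝒪 : Type) [CommRing 𝒪] [IsDomain 𝒪] [IsDiscreteValuationRing 𝒪]
    [IsAdicComplete (maximalIdeal 𝒪) 𝒪] [Finite (ResidueField 𝒪)]
    (p : ℕ) (ρbar : ResidualGaloisRep (ResidueField 𝒪)) (S Smin : Finset ℕ),
    Hyp 𝒪 p ρbar S Smin → ∀ P : ValuationSubring Qb, P.LiesOverPrime p →
      LocalBoundFlatAt 𝒪 p ρbar Smin P

theorem flat_of_cases (hO : FlatOStatement) (hSS : FlatSSStatement) : FlatStatement := by
  intro 𝒪 _ _ _ _ _ p ρbar S Smin hyp P hP
  by_cases h : IsReducibleAt ρbar P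
  · exact hO 𝒪 p ρbar S Smin hyp P hP h
  · exact hSS 𝒪 p ρbar S Smin hyp P hP h

/-- Target of the assembly (piece ASM). -/
def AsmStatement : Prop :=
  FlatInertiaStatement → FlatTameStatement → FlatUnitStatement → KumStatement →
    TameFrobStatement → UnramHomStatement → FlatOStatement

end Fermat.Agent.S56.H906

end

end
-- ===== PACK-END S56/H906/FlatOSpec.lean

-- ===== PACK-BEGIN S56/H66/VG0.lean
section




/-!
# S56 / FLAT-O, leaf FO-VG (helper66): valuation inputs, part 0

`vg0` : an element of `ℚ̄` fixed by the inertia group of `A | p` has `A`-valuation in `v(p)^ℤ`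
("the inertia field is unramified").
-/

set_option autoImplicit false
set_option linter.style.haveILetI false

open NumberField IsDedekindDomain
open scoped Pointwise

namespace Fermat.Agent.S56.H66

local notation "Qb" => AlgebraicClosure ℚ
local notation "GQ" => (AlgebraicClosure ℚ ≃ₐ[ℚ] AlgebraicClosure ℚ)

/-- A finite Galois extension of `ℚ` inside `ℚ̄` containing a given element. -/
theorem exists_finite_galois_mem (a : Qb) :
    ∃ F : IntermediateField ℚ Qb, FiniteDimensional ℚ F ∧ IsGalois ℚ F ∧ a ∈ F := by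
  have halg : IsAlgebraic ℚ a := (AlgebraicClosure.isAlgebraic ℚ).isAlgebraic a
  haveI : FiniteDimensional ℚ (IntermediateField.adjoin ℚ {a}) :=
    IntermediateField.adjoin.finiteDimensional halg.isIntegral
  haveI : Algebra.IsAlgebraic ℚ Qb := AlgebraicClosure.isAlgebraic ℚ
  haveI : IsAlgClosure ℚ Qb := ⟨inferInstance, inferInstance⟩
  haveI : Normal ℚ Qb := IsAlgClosure.normal ℚ Qb
  refine ⟨IntermediateField.normalClosure ℚ (IntermediateField.adjoin ℚ {a}) Qb,
    inferInstance, ?_, ?_⟩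
  · haveI : Normal ℚ (IntermediateField.normalClosure ℚ (IntermediateField.adjoin ℚ {a}) Qb) :=
      normalClosure.normal ℚ (IntermediateField.adjoin ℚ {a}) Qb
    exact ⟨⟩
  · exact (IntermediateField.le_normalClosure _) (IntermediateField.mem_adjoin_simple_self ℚ a)

/-- Finite-level core of `vg0`: `F/ℚ` finite Galois inside `ℚ̄`, `x ∈ F` fixed by the inertia
group (in `Gal(F/ℚ)`) of the prime of `𝓞 F` below `A`.  Then `v_A(x) ∈ v_A(p)^ℤ`. -/
theorem vg0_finite (p : ℕ) (hp : p.Prime) (A : ValuationSubring Qb) (hA : A.LiesOverPrime p)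
    (F : IntermediateField ℚ Qb) [FiniteDimensional ℚ F] [IsGalois ℚ F]
    (x : F) (hx0 : x ≠ 0)
    (hfix : ∀ τ ∈ (Fermat.Agent.S55.Bridge.H594.primeBelowF F A).inertia (F ≃ₐ[ℚ] F), τ x = x) :
    ∃ n : ℤ, A.valuation (x : Qb) = A.valuation (p : Qb) ^ n := by
  classical
  haveI : NumberField F := Fermat.Agent.S55.Bridge.H594.numberField_of_finite F
  set P : Ideal (𝓞 F) := Fermat.Agent.S55.Bridge.H594.primeBelowF F A with hP
  haveI hPprime : P.IsPrime := Fermat.Agent.S55.Bridge.H594.primeBelowF_isPrime F A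
  have hpP : ((p : ℕ) : 𝓞 F) ∈ P := Fermat.Agent.S55.Bridge.H594.natCast_mem_primeBelowF F A hA
  have hPne : P ≠ ⊥ := by
    intro h
    rw [h, Ideal.mem_bot] at hpP
    exact (by exact_mod_cast hp.ne_zero : ((p : ℕ) : 𝓞 F) ≠ 0) hpP
  haveI hPmax : P.IsMaximal := Ring.DimensionLEOne.maximalOfPrime hPne hPprime
  -- the inertia field
  let K : IntermediateField ℚ F := IntermediateField.fixedField (P.inertia (F ≃ₐ[ℚ] F))
  have hxK : x ∈ K := by
    rw [IntermediateField.mem_fixedField_iff]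
    intro τ hτ
    exact hfix τ hτ
  have he : (P.under (𝓞 K)).ramificationIdx ℤ = 1 := by
    apply Fermat.Agent.S17.H140.ramificationIdx_under_eq_one F K P
    intro σ hσ a ha
    exact (IntermediateField.mem_fixedField_iff _ a).mp ha σ hσ
  -- `K` as a number field with an algebra map to `ℚ̄`
  letI algK : Algebra K Qb := ((algebraMap F Qb).comp (algebraMap K F)).toAlgebra
  have halgK : ∀ y : K, algebraMap K Qb y = (((y : F)) : Qb) := fun y => rfl
  set Q : Ideal (𝓞 K) := P.under (𝓞 K) with hQ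
  haveI hQprime : Q.IsPrime := Ideal.IsPrime.under (𝓞 K) P
  have hmemQ : ∀ y : 𝓞 K, y ∈ Q ↔ (((y : K) : F) : Qb) ∈ A.nonunits := by
    intro y
    rw [hQ, Ideal.under_def, Ideal.mem_comap, hP, Fermat.Agent.S55.Bridge.H594.mem_primeBelowF]
    rfl
  have hpQ : ((p : ℕ) : 𝓞 K) ∈ Q := by
    rw [hmemQ]
    have hA' : (p : Qb) ∈ A.nonunits := hA
    simpa using hA'
  have hQne : Q ≠ ⊥ := by
    intro h
    rw [h, Ideal.mem_bot] at hpQ
    exact (by exact_mod_cast hp.ne_zero : ((p : ℕ) : 𝓞 K) ≠ 0) hpQ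
  let w : HeightOneSpectrum (𝓞 K) := ⟨Q, hQprime, hQne⟩
  have hw : w.asIdeal = Fermat.Agent.S14.H937.primeOf K A := by
    ext y
    rw [Fermat.Agent.S14.H937.mem_primeOf]
    exact hmemQ y
  -- the prime of `ℤ` below
  set q : Ideal ℤ := Q.under ℤ with hq
  haveI hqprime : q.IsPrime := Ideal.IsPrime.under ℤ Q
  have hpq : (p : ℤ) ∈ q := by
    rw [hq, Ideal.under_def, Ideal.mem_comap]
    simpa using hpQ
  have hqspan : q = Ideal.span {(p : ℤ)} := by
    have hmax : (Ideal.span {(p : ℤ)}).IsMaximal :=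
      PrincipalIdealRing.isMaximal_of_irreducible
        (Nat.prime_iff_prime_int.mp hp).irreducible
    have hle : Ideal.span {(p : ℤ)} ≤ q := (Ideal.span_singleton_le_iff_mem q).mpr hpq
    exact (hmax.eq_of_le hqprime.ne_top hle).symm
  have hqne : q ≠ ⊥ := by
    rw [hqspan]
    simp [hp.ne_zero]
  let v : HeightOneSpectrum ℤ := ⟨q, hqprime, hqne⟩
  haveI hlies : w.asIdeal.LiesOver v.asIdeal := ⟨rfl⟩
  have he' : v.asIdeal.ramificationIdx' w.asIdeal = 1 := by
    rw [Ideal.ramificationIdx'_eq_ramificationIdx v.asIdeal w.asIdeal hqne]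
    exact he
  have hvp : v.valuation ℚ (algebraMap ℤ ℚ (p : ℤ)) = WithZero.exp (-1 : ℤ) := by
    rw [HeightOneSpectrum.valuation_of_algebraMap]
    exact v.intValuation_singleton (by exact_mod_cast hp.ne_zero) hqspan
  have hwp : w.valuation K ((p : ℕ) : K) = WithZero.exp (-1 : ℤ) := by
    have h1 := HeightOneSpectrum.valuation_liesOver K v w (algebraMap ℤ ℚ (p : ℤ))
    rw [he', pow_one, hvp] at h1
    rw [h1]
    congr 1
  -- the element
  let xK : K := ⟨x, hxK⟩
  have hxK0 : xK ≠ 0 := by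
    intro h
    apply hx0
    have := congrArg (fun y : K => (y : F)) h
    simpa [xK] using this
  have hwx : w.valuation K xK ≠ 0 := (Valuation.ne_zero_iff _).mpr hxK0
  obtain ⟨m, hm⟩ : ∃ m : ℤ, w.valuation K xK = WithZero.exp m :=
    ⟨WithZero.log _, (WithZero.exp_log hwx).symm⟩
  refine ⟨-m, ?_⟩
  have hpK0 : ((p : ℕ) : K) ≠ 0 := by exact_mod_cast hp.ne_zero
  have h2 : w.valuation K (xK / ((p : ℕ) : K) ^ (-m)) = 1 := by
    rw [map_div₀, map_zpow₀, hwp, hm, ← WithZero.exp_zsmul]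
    simp
  have h3 := Fermat.Agent.S14.H937.valuation_eq_one_of K A w hw _ h2
  have h4 : algebraMap K Qb (xK / ((p : ℕ) : K) ^ (-m)) = (x : Qb) / (p : Qb) ^ (-m) := by
    rw [map_div₀, map_zpow₀, map_natCast]
    rfl
  rw [h4, map_div₀, map_zpow₀] at h3
  have hpv : A.valuation (p : Qb) ^ (-m) ≠ 0 := by
    apply zpow_ne_zero
    rw [Valuation.ne_zero_iff]
    exact_mod_cast hp.ne_zero
  exact (div_eq_one_iff_eq hpv).mp h3

/-- **(VG0)** An element of `ℚ̄` fixed by the inertia group of `A | p` has `A`-valuation in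
`v(p)^ℤ` (the inertia field is unramified). -/
theorem vg0 (p : ℕ) (hp : p.Prime) (A : ValuationSubring Qb) (hA : A.LiesOverPrime p)
    (a : Qb) (ha : a ≠ 0) (hfix : ∀ σ ∈ A.inertiaSubgroupIn ℚ, σ a = a) :
    ∃ n : ℤ, A.valuation a = A.valuation (p : Qb) ^ n := by
  obtain ⟨F, hFfin, hFgal, haF⟩ := exists_finite_galois_mem a
  haveI := hFfin
  haveI := hFgal
  have h := vg0_finite p hp A hA F ⟨a, haF⟩ (fun h0 => ha (congrArg Subtype.val h0)) ?_
  · exact h
  · intro τ hτ
    rw [← Fermat.Agent.S55.Bridge.H594.map_inertiaSubgroupIn_eq F A hp hA] at hτ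
    obtain ⟨σ, hσ, rfl⟩ := hτ
    apply Subtype.ext
    rw [Fermat.Agent.S55.Bridge.H594.restrictNormalHom_apply]
    exact hfix σ hσ

/-- (VG0), integral form: a non-unit of `A` fixed by inertia is divisible by `p` in `A`:
`v(a) ≤ v(p)`. -/
theorem vg0_le (p : ℕ) (hp : p.Prime) (A : ValuationSubring Qb) (hA : A.LiesOverPrime p)
    (a : Qb) (ha : a ∈ A.nonunits) (hfix : ∀ σ ∈ A.inertiaSubgroupIn ℚ, σ a = a) :
    A.valuation a ≤ A.valuation (p : Qb) := by
  rcases eq_or_ne a 0 with rfl | ha0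
  · simp
  obtain ⟨n, hn⟩ := vg0 p hp A hA a ha0 hfix
  have hpv : A.valuation (p : Qb) < 1 := (A.mem_nonunits_iff).mp hA
  have hp0 : A.valuation (p : Qb) ≠ 0 := by
    rw [Valuation.ne_zero_iff]
    exact_mod_cast hp.ne_zero
  have hav : A.valuation a < 1 := (A.mem_nonunits_iff).mp ha
  rw [hn] at hav ⊢
  -- `v(p)^n < 1` with `v(p) < 1` forces `n ≥ 1`
  have hn1 : 1 ≤ n := by
    by_contra hcon
    push Not at hcon
    have hn0 : n ≤ 0 := by omega
    have : 1 ≤ A.valuation (p : Qb) ^ n := by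
      obtain ⟨k, rfl⟩ : ∃ k : ℕ, n = -(k : ℤ) := ⟨(-n).toNat, by omega⟩
      rw [zpow_neg, zpow_natCast]
      exact (one_le_inv₀ (pow_pos (zero_lt_iff.mpr hp0) k)).mpr (pow_le_one₀ zero_le hpv.le)
    exact absurd hav (not_lt.mpr this)
  obtain ⟨k, rfl⟩ : ∃ k : ℕ, n = (k : ℤ) + 1 := ⟨(n - 1).toNat, by omega⟩
  rw [zpow_add_one₀ hp0, zpow_natCast]
  calc A.valuation (p : Qb) ^ k * A.valuation (p : Qb)
      ≤ 1 * A.valuation (p : Qb) := by
        gcongr
        exact pow_le_one₀ zero_le hpv.le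
    _ = A.valuation (p : Qb) := one_mul _

end Fermat.Agent.S56.H66

end
-- ===== PACK-END S56/H66/VG0.lean

-- ===== PACK-BEGIN S37/H160/SepFF.lean
section







/-!
# Separable port (helper160) of `Lib/FF398/Local.lean` (helper398): relative theory of places

For a place `v` of `F` and a finite extension `F'/F` (characteristic zero) we use the integral
closure `S` of `O_v` in `F'` (a semi-local Dedekind domain) as a dictionary:
places of `F'` over `v`  ↔  height-one primes of `S`.

Main results of this file (helper398):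
* `placeOf v q` : the place of `F'` attached to a height one prime `q` of `S`;
* `restrict_placeOf`, `exists_placeOf_eq`, `placeOf_injective` : the dictionary;
* `ord_placeOf` : `ord` of `placeOf v q` is the `q`-adic valuation.
-/

set_option autoImplicit false
set_option linter.unusedSectionVars false

open AlgebraicCurve IsDedekindDomain

namespace Fermat.Agent.S37.H160.SepFF

section Max

variable {K F : Type*} [Field K] [Field F] [Algebra K F]

/-- Discrete valuation rings are maximal subrings: comparable places are equal. -/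
theorem place_eq_of_le {v w : Place K F} (h : v.toValuationSubring ≤ w.toValuationSubring) :
    v = w :=
  Place.ext (ValuationSubring.eq_of_le_of_ne_top _ h w.ne_top')

end Max

section Local

variable {K F F' : Type*} [Field K] [Field F] [Field F'] [Algebra K F] [Algebra K F']
  [Algebra F F'] [IsScalarTower K F F'] [FiniteDimensional F F'] [Algebra.IsSeparable F F']
variable (v : Place K F)

variable (F') in
/-- The integral closure of `O_v` in `F'`. -/
abbrev intCl : Subalgebra v.toValuationSubring F' := integralClosure v.toValuationSubring F'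

omit [Algebra K F'] [IsScalarTower K F F'] [FiniteDimensional F F'] [Algebra.IsSeparable F F'] in
theorem algebraMap_OF'_injective :
    Function.Injective (algebraMap v.toValuationSubring F') := by
  intro a b h
  apply Subtype.ext
  exact (algebraMap F F').injective h

instance (priority := 2000) instFaithfulOF' : FaithfulSMul v.toValuationSubring F' :=
  (faithfulSMul_iff_algebraMap_injective _ _).mpr (algebraMap_OF'_injective v)

instance (priority := 2000) instTorsionFreeOF' :
    Module.IsTorsionFree v.toValuationSubring F' :=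
  FaithfulSMul.to_isTorsionFree _ _

instance (priority := 2000) instTorsionFreeIntCl :
    Module.IsTorsionFree v.toValuationSubring (intCl F' v) :=
  Subalgebra.instIsTorsionFree (intCl F' v)

instance instTowerKOF' : IsScalarTower K v.toValuationSubring F' :=
  IsScalarTower.of_algebraMap_eq fun a => by
    show algebraMap K F' a = algebraMap F F' (algebraMap K F a)
    rw [← IsScalarTower.algebraMap_apply]

instance instDedekindIntCl : IsDedekindDomain (intCl F' v) :=
  integralClosure.isDedekindDomain v.toValuationSubring F F'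

instance instFracIntCl : IsFractionRing (intCl F' v) F' :=
  IsIntegralClosure.isFractionRing_of_finite_extension v.toValuationSubring F F' (intCl F' v)

instance instFiniteIntCl : Module.Finite v.toValuationSubring (intCl F' v) :=
  IsIntegralClosure.finite v.toValuationSubring F F' (intCl F' v)

instance instFreeIntCl : Module.Free v.toValuationSubring (intCl F' v) :=
  Module.free_of_finite_type_torsion_free'

/-- The place of `F'` attached to a height-one prime of the integral closure of `O_v`. -/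
noncomputable def placeOf (q : HeightOneSpectrum (intCl F' v)) : Place K F' :=
  Place.ofHeightOneSpectrum (K := K) q

theorem placeOf_toValuationSubring (q : HeightOneSpectrum (intCl F' v)) :
    (placeOf v q).toValuationSubring = (q.valuation F').valuationSubring := rfl

theorem mem_placeOf_iff (q : HeightOneSpectrum (intCl F' v)) (g : F') :
    g ∈ (placeOf v q).toValuationSubring ↔ q.valuation F' g ≤ 1 := Iff.rfl

/-- `placeOf v q` lies over `v`. -/
theorem restrict_placeOf (q : HeightOneSpectrum (intCl F' v)) :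
    (placeOf v q).restrict F = v := by
  symm
  apply place_eq_of_le
  intro a ha
  rw [Place.restrict_toValuationSubring, ValuationSubring.mem_comap, mem_placeOf_iff]
  have : algebraMap F F' a = algebraMap (intCl F' v) F'
      (algebraMap v.toValuationSubring (intCl F' v) ⟨a, ha⟩) := rfl
  rw [this]
  exact q.valuation_le_one _

/-- The order function of `placeOf v q` is the `q`-adic valuation. -/
theorem ord_placeOf (q : HeightOneSpectrum (intCl F' v)) (g : F') :
    (placeOf v q).ord g = -(WithZero.log (q.valuation F' g)) := by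
  rcases eq_or_ne g 0 with rfl | hg
  · simp
  symm
  obtain ⟨π, hπ⟩ := q.valuation_exists_uniformizer F'
  have hπ0 : π ≠ 0 := by
    rintro rfl
    rw [map_zero] at hπ
    exact WithZero.exp_ne_zero hπ.symm
  refine Fermat.Agent.S24.FF.ordLike_eq_ord (fun g => -(WithZero.log (q.valuation F' g)))
    (fun f g hf hg => ?_) (placeOf v q) (fun f hf => ?_) hπ0 ?_ hg
  · rw [map_mul, WithZero.log_mul ((Valuation.ne_zero_iff _).mpr hf)
      ((Valuation.ne_zero_iff _).mpr hg)]
    ring
  · rw [mem_placeOf_iff, neg_nonneg,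
      WithZero.log_le_iff_le_exp ((Valuation.ne_zero_iff _).mpr hf)]
    rfl
  · rw [hπ, WithZero.log_exp]
    ring

/-- Membership in a height-one prime, read off from the valuation subring. -/
theorem mem_asIdeal_iff (q : HeightOneSpectrum (intCl F' v)) (s : intCl F' v) :
    s ∈ q.asIdeal ↔ s = 0 ∨ ((s : F'))⁻¹ ∉ (placeOf v q).toValuationSubring := by
  rw [mem_placeOf_iff, ← q.valuation_lt_one_iff_mem (K := F')]
  show q.valuation F' (s : F') < 1 ↔ s = 0 ∨ ¬ q.valuation F' ((s : F'))⁻¹ ≤ 1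
  rcases eq_or_ne s 0 with rfl | hs
  · simp
  have hs' : (s : F') ≠ 0 := fun h => hs (Subtype.ext h)
  have hv0 : q.valuation F' (s : F') ≠ 0 := (Valuation.ne_zero_iff _).mpr hs'
  rw [map_inv₀, not_le, one_lt_inv₀ (zero_lt_iff.mpr hv0)]
  simp [hs]

theorem placeOf_injective : Function.Injective (placeOf (F' := F') v) := by
  intro q q' h
  apply HeightOneSpectrum.ext
  ext s
  rw [mem_asIdeal_iff, mem_asIdeal_iff, h]

/-- The integral closure of `O_{w|F}` is contained in `O_w`. -/
theorem coe_intCl_mem (w : Place K F') (s : intCl F' (w.restrict F)) :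
    (s : F') ∈ w.toValuationSubring := by
  obtain ⟨p, hp, hps⟩ := s.2
  have hint : IsIntegral w.toValuationSubring (s : F') := by
    refine ⟨p.map (Place.restrictInclusion F w), hp.map _, ?_⟩
    rw [Polynomial.eval₂_map]
    exact hps
  obtain ⟨y, hy⟩ := IsIntegrallyClosed.isIntegral_iff.mp hint
  rw [← hy]
  exact y.2

/-- The inclusion of the integral closure of `O_{w|F}` into `O_w`. -/
def intClInclusion (w : Place K F') : intCl F' (w.restrict F) →+* w.toValuationSubring where
  toFun s := ⟨(s : F'), coe_intCl_mem w s⟩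
  map_one' := rfl
  map_mul' _ _ := rfl
  map_zero' := rfl
  map_add' _ _ := rfl

@[simp]
theorem coe_intClInclusion (w : Place K F') (s : intCl F' (w.restrict F)) :
    ((intClInclusion w s : w.toValuationSubring) : F') = (s : F') := rfl

/-- The centre of `w` on the integral closure of `O_{w|F}`. -/
def centre (w : Place K F') : Ideal (intCl F' (w.restrict F)) :=
  Ideal.comap (intClInclusion w) (IsLocalRing.maximalIdeal w.toValuationSubring)

instance centre_isPrime (w : Place K F') : (centre (F := F) w).IsPrime :=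
  Ideal.comap_isPrime _ _

theorem centre_ne_bot (w : Place K F') : centre (F := F) w ≠ ⊥ := by
  obtain ⟨π, hπ⟩ := IsDiscreteValuationRing.exists_irreducible (w.restrict F).toValuationSubring
  intro h
  have hmem : algebraMap (w.restrict F).toValuationSubring (intCl F' (w.restrict F)) π
      ∈ centre (F := F) w := by
    rw [centre, Ideal.mem_comap, IsLocalRing.mem_maximalIdeal, mem_nonunits_iff]
    intro hu
    have hu' : IsUnit (Place.restrictInclusion F w π) := hu
    exact hπ.not_isUnit (isUnit_of_map_unit (Place.restrictInclusion F w) π hu')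
  rw [h, Ideal.mem_bot] at hmem
  have hinj : Function.Injective
      (algebraMap (w.restrict F).toValuationSubring (intCl F' (w.restrict F))) :=
    FaithfulSMul.algebraMap_injective _ _
  exact hπ.ne_zero (hinj (by rw [hmem, map_zero]))

/-- The centre of `w` as a height-one prime. -/
def centrePrime (w : Place K F') : HeightOneSpectrum (intCl F' (w.restrict F)) :=
  ⟨centre w, centre_isPrime w, centre_ne_bot w⟩

theorem placeOf_centrePrime (w : Place K F') : placeOf (w.restrict F) (centrePrime w) = w := by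
  apply place_eq_of_le
  intro g hg
  rw [mem_placeOf_iff] at hg
  obtain ⟨n, d, hnd⟩ := (centrePrime w).exists_primeCompl_mul_eq_of_integer g hg
  have hd : (d : intCl F' (w.restrict F)) ∉ centre (F := F) w := d.2
  rw [centre, Ideal.mem_comap, IsLocalRing.mem_maximalIdeal, mem_nonunits_iff, not_not] at hd
  obtain ⟨b, hb⟩ := isUnit_iff_exists_inv.mp hd
  have hb' : ((d : intCl F' (w.restrict F)) : F') * (b : F') = 1 := congrArg Subtype.val hb
  have hd0 : ((d : intCl F' (w.restrict F)) : F') ≠ 0 := left_ne_zero_of_mul_eq_one hb'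
  have hg' : g = ((n : F')) * (b : F') := by
    have h1 : g * ((d : intCl F' (w.restrict F)) : F') = (n : F') := hnd
    calc g = g * (((d : intCl F' (w.restrict F)) : F') * (b : F')) := by rw [hb', mul_one]
      _ = (n : F') * (b : F') := by rw [← mul_assoc, h1]
  rw [hg']
  exact mul_mem (coe_intCl_mem w n) b.2

/-- Every place of `F'` over `v` comes from a height-one prime of the integral closure. -/
theorem exists_placeOf_eq (w : Place K F') (hw : w.restrict F = v) :
    ∃ q : HeightOneSpectrum (intCl F' v), placeOf v q = w := by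
  subst hw
  exact ⟨centrePrime w, placeOf_centrePrime w⟩

theorem range_placeOf : Set.range (placeOf (F' := F') v) = {w : Place K F' | w.restrict F = v} := by
  ext w
  constructor
  · rintro ⟨q, rfl⟩
    exact restrict_placeOf v q
  · intro hw
    exact exists_placeOf_eq v w hw

/-! ### Primes over the maximal ideal of `O_v` -/

/-- The maximal ideal of `O_v`. -/
abbrev pv : Ideal v.toValuationSubring := IsLocalRing.maximalIdeal v.toValuationSubring

theorem pv_ne_bot : pv v ≠ ⊥ := IsDiscreteValuationRing.not_a_field _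

theorem algebraMap_O_intCl_injective :
    Function.Injective (algebraMap v.toValuationSubring (intCl F' v)) :=
  FaithfulSMul.algebraMap_injective _ _

theorem map_pv_ne_bot : (pv v).map (algebraMap v.toValuationSubring (intCl F' v)) ≠ ⊥ := by
  rw [Ne, Ideal.map_eq_bot_iff_of_injective (algebraMap_O_intCl_injective v)]
  exact pv_ne_bot v

instance liesOver_pv (q : HeightOneSpectrum (intCl F' v)) : q.asIdeal.LiesOver (pv v) := by
  constructor
  have hprime : (q.asIdeal.under v.toValuationSubring).IsPrime := Ideal.IsPrime.under _ _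
  have hne : q.asIdeal.under v.toValuationSubring ≠ ⊥ :=
    Ideal.under_ne_bot v.toValuationSubring q.ne_bot
  have hmax : (q.asIdeal.under v.toValuationSubring).IsMaximal := hprime.isMaximal hne
  exact (IsLocalRing.eq_maximalIdeal hmax).symm

instance isMaximal_asIdeal (q : HeightOneSpectrum (intCl F' v)) : q.asIdeal.IsMaximal :=
  q.isPrime.isMaximal q.ne_bot

/-- The height-one prime attached to a prime over `𝔪_v`. -/
def primeOfOver (q : (pv v).primesOver (intCl F' v)) : HeightOneSpectrum (intCl F' v) :=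
  ⟨q.1, q.2.1, by
    have := q.2.2
    exact Ideal.ne_bot_of_liesOver_of_ne_bot (pv_ne_bot v) q.1⟩

@[simp]
theorem primeOfOver_asIdeal (q : (pv v).primesOver (intCl F' v)) :
    (primeOfOver v q).asIdeal = q.1 := rfl

theorem primeOfOver_injective : Function.Injective (primeOfOver (F' := F') v) := by
  intro q q' h
  apply Subtype.ext
  exact congrArg HeightOneSpectrum.asIdeal h

theorem primeOfOver_surjective : Function.Surjective (primeOfOver (F' := F') v) := by
  intro q
  exact ⟨⟨q.asIdeal, q.isPrime, liesOver_pv v q⟩, rfl⟩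

instance finite_primesOver : Finite ((pv v).primesOver (intCl F' v)) :=
  (Algebra.QuasiFinite.finite_primesOver (pv v)).to_subtype

instance finite_heightOneSpectrum : Finite (HeightOneSpectrum (intCl F' v)) :=
  Finite.of_surjective _ (primeOfOver_surjective v)

/-- The fibre over `v` is finite (no `HasPrincipalDivisors` needed). -/
theorem finite_fibre : {w : Place K F' | w.restrict F = v}.Finite := by
  rw [← range_placeOf]
  exact Set.finite_range _

/-! ### Ramification index and residue degree -/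

theorem mem_asIdeal_iff_ord (q : HeightOneSpectrum (intCl F' v)) (s : intCl F' v) :
    s ∈ q.asIdeal ↔ s = 0 ∨ 0 < (placeOf v q).ord (s : F') := by
  rcases eq_or_ne s 0 with rfl | hs
  · simp
  have hs' : (s : F') ≠ 0 := fun h => hs (Subtype.ext h)
  have hv0 : q.valuation F' (s : F') ≠ 0 := (Valuation.ne_zero_iff _).mpr hs'
  rw [ord_placeOf, neg_pos, WithZero.log_lt_iff_lt_exp hv0, ← q.valuation_lt_one_iff_mem (K := F')]
  simp only [hs, false_or]
  rfl

theorem ord_placeOf_coe_nonneg (q : HeightOneSpectrum (intCl F' v)) (s : intCl F' v) :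
    0 ≤ (placeOf v q).ord (s : F') :=
  (Fermat.Agent.S24.FF.mem_iff_ord_nonneg _).mp
    ((mem_placeOf_iff v q _).mpr (q.valuation_le_one s))

/-- The ramification index of `placeOf v q` (in the sense of the Prelude) is Mathlib's
ramification index of `q` over `O_v`. -/
theorem ramificationIndex_placeOf (q : HeightOneSpectrum (intCl F' v)) :
    ((placeOf v q).ramificationIndex F : ℤ)
      = (q.asIdeal.ramificationIdx v.toValuationSubring : ℤ) := by
  obtain ⟨π, hπ, hπ1⟩ := Fermat.Agent.S24.FF.exists_irreducible_coe v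
  have h1 := (placeOf v q).ord_restrict (F := F) (π : F)
  rw [restrict_placeOf, hπ1, mul_one] at h1
  rw [← h1, ord_placeOf]
  have hπS : algebraMap v.toValuationSubring (intCl F' v) π ≠ 0 := fun h =>
    hπ.ne_zero (algebraMap_O_intCl_injective v (by rw [h, map_zero]))
  have h2 : q.valuation F' (algebraMap F F' (π : F))
      = q.intValuation (algebraMap v.toValuationSubring (intCl F' v) π) :=
    q.valuation_of_algebraMap (algebraMap v.toValuationSubring (intCl F' v) π)
  rw [h2, q.intValuation_eq_exp_neg_multiplicity hπS, WithZero.log_exp, neg_neg,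
    Ideal.IsDedekindDomain.ramificationIdx_eq_multiplicity (pv v) q.asIdeal (map_pv_ne_bot v)]
  have h3 : (pv v).map (algebraMap v.toValuationSubring (intCl F' v))
      = Ideal.span {algebraMap v.toValuationSubring (intCl F' v) π} := by
    rw [pv, hπ.maximalIdeal_eq, Ideal.map_span, Set.image_singleton]
  rw [h3]

/-- If all places of `F'` have degree one, residue degrees over `O_v` are one. -/
theorem inertiaDeg_intCl_eq_one (hdeg' : ∀ w : Place K F', w.deg = 1)
    (q : HeightOneSpectrum (intCl F' v)) :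
    q.asIdeal.inertiaDeg v.toValuationSubring = 1 := by
  refine Fermat.Agent.S24.FF.inertiaDeg_eq_one_of_forall_exists (pv v) q.asIdeal fun s => ?_
  obtain ⟨c, hc⟩ := Fermat.Agent.Lib.RR.exists_const_sub (placeOf v q) (hdeg' _)
    (ord_placeOf_coe_nonneg v q s)
  refine ⟨algebraMap K v.toValuationSubring c, ?_⟩
  rw [mem_asIdeal_iff_ord]
  have hcoe : ((s - algebraMap v.toValuationSubring (intCl F' v)
      (algebraMap K v.toValuationSubring c) : intCl F' v) : F') = (s : F') - algebraMap K F' c := by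
    rw [IsScalarTower.algebraMap_apply K F F']
    rfl
  rcases hc with hc | hc
  · left
    apply Subtype.ext
    rw [hcoe]
    exact hc
  · right
    rw [hcoe]
    exact hc

omit [Algebra.IsSeparable F F'] [FiniteDimensional F F'] in
/-- If all places of `F'` have degree one, the Prelude's residue degrees are one. -/
theorem inertiaDeg_eq_one [Algebra.IsIntegral F F'] (hdeg' : ∀ w : Place K F', w.deg = 1)
    (w : Place K F') : w.inertiaDeg F = 1 := by
  have h := w.deg_restrict_mul_inertiaDeg (F := F)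
  rw [hdeg' w] at h
  exact (mul_eq_one.mp h).2

omit [Algebra.IsSeparable F F'] [FiniteDimensional F F'] in
theorem deg_restrict_eq_one [Algebra.IsIntegral F F'] (hdeg' : ∀ w : Place K F', w.deg = 1)
    (w : Place K F') : (w.restrict F).deg = 1 := by
  have h := w.deg_restrict_mul_inertiaDeg (F := F)
  rw [hdeg' w] at h
  exact (mul_eq_one.mp h).1

/-- **Local fundamental identity** `∑_{w | v} e(w|v) = [F' : F]`. -/
theorem sum_ramificationIndex (hdeg' : ∀ w : Place K F', w.deg = 1)
    (s : Finset (Place K F')) (hs : ∀ w, w ∈ s ↔ w.restrict F = v) :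
    ∑ w ∈ s, (w.ramificationIndex F : ℤ) = (Module.finrank F F' : ℤ) := by
  let _ : Fintype ((pv v).primesOver (intCl F' v)) := Fintype.ofFinite _
  have h := Ideal.sum_ramification_inertia_eq_finrank (pv v) (intCl F' v)
  rw [IsFractionRing.finrank_eq v.toValuationSubring F (intCl F' v) F', ← h]
  push_cast
  symm
  refine Finset.sum_bij (fun q _ => placeOf v (primeOfOver v q)) ?_ ?_ ?_ ?_
  · intro q _
    exact (hs _).mpr (restrict_placeOf v _)
  · intro q _ q' _ h
    exact primeOfOver_injective v (placeOf_injective v h)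
  · intro w hw
    obtain ⟨q, hq⟩ := exists_placeOf_eq v w ((hs w).mp hw)
    obtain ⟨q', rfl⟩ := primeOfOver_surjective v q
    exact ⟨q', Finset.mem_univ _, hq⟩
  · intro q _
    have h1 := inertiaDeg_intCl_eq_one v hdeg' (primeOfOver v q)
    rw [primeOfOver_asIdeal] at h1
    rw [ramificationIndex_placeOf, primeOfOver_asIdeal, h1]
    simp

/-! ### Norm formula -/

open UniqueFactorizationMonoid

theorem ord_coe_eq_multiplicity (a : v.toValuationSubring) (ha : a ≠ 0) :
    v.ord (a : F) = (multiplicity (pv v) (Ideal.span {a}) : ℤ) := by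
  rw [Place.ord, v.adicValuation_coe, v.heightOneSpectrum.intValuation_eq_exp_neg_multiplicity ha,
    WithZero.log_exp, neg_neg]
  rfl

theorem ord_placeOf_coe_eq_multiplicity (q : HeightOneSpectrum (intCl F' v)) (x : intCl F' v)
    (hx : x ≠ 0) :
    (placeOf v q).ord (x : F') = (multiplicity q.asIdeal (Ideal.span {x}) : ℤ) := by
  rw [ord_placeOf]
  have h2 : q.valuation F' (x : F') = q.intValuation x := q.valuation_of_algebraMap x
  rw [h2, q.intValuation_eq_exp_neg_multiplicity hx, WithZero.log_exp, neg_neg]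

theorem multiplicity_eq_count (q : HeightOneSpectrum (intCl F' v)) (I : Ideal (intCl F' v))
    (hI : I ≠ ⊥) :
    multiplicity q.asIdeal I = (normalizedFactors I).count q.asIdeal := by
  have hq : Prime q.asIdeal := Ideal.prime_of_isPrime q.ne_bot q.isPrime
  rw [multiplicity_eq_of_emultiplicity_eq_some
    (emultiplicity_eq_count_normalizedFactors hq.irreducible hI), normalize_eq]

theorem sum_count_eq_card [Fintype (HeightOneSpectrum (intCl F' v))] (I : Ideal (intCl F' v))
    (hI : I ≠ ⊥) :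
    ∑ q : HeightOneSpectrum (intCl F' v), (normalizedFactors I).count q.asIdeal
      = Multiset.card (normalizedFactors I) := by
  classical
  rw [← Multiset.toFinset_sum_count_eq]
  have hinj : Function.Injective
      (fun q : HeightOneSpectrum (intCl F' v) => q.asIdeal) := fun q q' h =>
    HeightOneSpectrum.ext h
  rw [← Finset.sum_image (s := Finset.univ)
    (f := fun P : Ideal (intCl F' v) => (normalizedFactors I).count P)
    (g := fun q : HeightOneSpectrum (intCl F' v) => q.asIdeal) (fun q _ q' _ h => hinj h)]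
  symm
  refine Finset.sum_subset ?_ ?_
  · intro P hP
    rw [Multiset.mem_toFinset, Ideal.mem_normalizedFactors_iff hI] at hP
    have hPne : P ≠ ⊥ := fun h => hI (le_bot_iff.mp (h ▸ hP.2))
    exact Finset.mem_image.mpr ⟨⟨P, hP.1, hPne⟩, Finset.mem_univ _, rfl⟩
  · intro P _ hP
    rw [Multiset.mem_toFinset] at hP
    exact Multiset.count_eq_zero_of_notMem hP

/-- Replacement (helper160) for Mathlib's `Ideal.relNorm_eq_pow_of_isMaximal`, which needs a
perfect fraction field: when all residue degrees are one, `N(q) = p` follows by counting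
(`N(q) = p ^ s_q` with `s_q ≥ 1`, `∑ e_q s_q = n = ∑ e_q`). -/
theorem relNorm_asIdeal_eq (hdeg' : ∀ w : Place K F', w.deg = 1)
    (q₀ : HeightOneSpectrum (intCl F' v)) :
    Ideal.relNorm v.toValuationSubring q₀.asIdeal = pv v := by
  classical
  let _ : Fintype ((pv v).primesOver (intCl F' v)) := Fintype.ofFinite _
  have hptop : pv v ≠ ⊤ := (IsLocalRing.maximalIdeal.isMaximal _).ne_top
  have hs : ∀ Q : (pv v).primesOver (intCl F' v), ∃ s : ℕ, 1 ≤ s ∧
      Ideal.relNorm v.toValuationSubring Q.1 = pv v ^ s := by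
    intro Q
    have : Q.1.IsPrime := Q.2.1
    have : Q.1.LiesOver (pv v) := Q.2.2
    obtain ⟨s, hs⟩ := Ideal.exists_relNorm_eq_pow_of_isPrime Q.1 (pv v)
    refine ⟨s, ?_, hs⟩
    by_contra h
    have h0 : s = 0 := by omega
    rw [h0, pow_zero, Ideal.one_eq_top] at hs
    have hle := Ideal.relNorm_le_comap v.toValuationSubring Q.1
    rw [hs, top_le_iff] at hle
    have hover : Q.1.comap (algebraMap v.toValuationSubring (intCl F' v)) = pv v :=
      (Ideal.LiesOver.over (P := Q.1) (p := pv v)).symm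
    exact hptop (hover ▸ hle)
  choose s hs1 hs2 using hs
  have hmap := Ideal.map_algebraMap_eq_finsetProd_pow (R := intCl F' v)
    (p := pv v) (pv_ne_bot v)
  have hN := Ideal.relNorm_algebraMap (intCl F' v) (pv v)
  rw [hmap, map_prod] at hN
  have hN' : ∏ Q : (pv v).primesOver (intCl F' v),
      (pv v) ^ (s Q * Q.1.ramificationIdx v.toValuationSubring)
      = pv v ^ Module.finrank v.toValuationSubring (intCl F' v) := by
    rw [← hN, ← Finset.prod_set_coe]
    refine Finset.prod_congr (by ext; simp) fun Q _ => ?_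
    rw [map_pow, hs2 Q, ← pow_mul]
  rw [Finset.prod_pow_eq_pow_sum] at hN'
  have hinj : Function.Injective (fun n : ℕ => pv v ^ n) := by
    have hprime : Prime (pv v) :=
      Ideal.prime_of_isPrime (pv_ne_bot v) (IsLocalRing.maximalIdeal.isMaximal _).isPrime
    exact pow_injective_of_not_isUnit hprime.not_isUnit (pv_ne_bot v)
  have hsum1 := hinj hN'
  have hsum2 := Ideal.sum_ramification_inertia_eq_finrank (pv v) (intCl F' v)
  have hf : ∀ Q : (pv v).primesOver (intCl F' v), Q.1.inertiaDeg v.toValuationSubring = 1 := by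
    intro Q
    have := inertiaDeg_intCl_eq_one v hdeg' (primeOfOver v Q)
    rwa [primeOfOver_asIdeal] at this
  simp only [hf, mul_one] at hsum2
  have he : ∀ Q : (pv v).primesOver (intCl F' v),
      Q.1.ramificationIdx v.toValuationSubring ≠ 0 := by
    intro Q
    have : Q.1.IsPrime := Q.2.1
    exact (Ideal.ramificationIdx_pos (R := v.toValuationSubring) Q.1).ne'
  -- all `s Q = 1`
  have hall : ∀ Q : (pv v).primesOver (intCl F' v), s Q = 1 := by
    by_contra hne
    push Not at hne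
    obtain ⟨Q₁, hQ₁⟩ := hne
    have hlt : ∑ Q : (pv v).primesOver (intCl F' v), Q.1.ramificationIdx v.toValuationSubring
        < ∑ Q : (pv v).primesOver (intCl F' v),
          s Q * Q.1.ramificationIdx v.toValuationSubring := by
      refine Finset.sum_lt_sum (fun Q _ => ?_) ⟨Q₁, Finset.mem_univ _, ?_⟩
      · exact Nat.le_mul_of_pos_left _ (hs1 Q)
      · have h2 : 2 ≤ s Q₁ := by have := hs1 Q₁; omega
        have := Nat.pos_of_ne_zero (he Q₁)
        nlinarith
    omega
  obtain ⟨Q, rfl⟩ := primeOfOver_surjective v q₀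
  rw [primeOfOver_asIdeal, hs2 Q, hall Q, pow_one]

theorem relNorm_eq_pow (hdeg' : ∀ w : Place K F', w.deg = 1) (I : Ideal (intCl F' v))
    (hI : I ≠ ⊥) :
    Ideal.relNorm v.toValuationSubring I = (pv v) ^ Multiset.card (normalizedFactors I) := by
  conv_lhs => rw [← Ideal.prod_normalizedFactors_eq_self hI]
  rw [map_multiset_prod]
  have hconst : (normalizedFactors I).map (Ideal.relNorm v.toValuationSubring)
      = (normalizedFactors I).map (fun _ => pv v) := by
    refine Multiset.map_congr rfl fun P hP => ?_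
    rw [Ideal.mem_normalizedFactors_iff hI] at hP
    have hPne : P ≠ ⊥ := fun h => hI (le_bot_iff.mp (h ▸ hP.2))
    exact relNorm_asIdeal_eq v hdeg' ⟨P, hP.1, hPne⟩
  rw [hconst, Multiset.map_const', Multiset.prod_replicate]

theorem sum_ord_coe_eq_ord_intNorm [Fintype (HeightOneSpectrum (intCl F' v))]
    (hdeg' : ∀ w : Place K F', w.deg = 1) (x : intCl F' v) (hx : x ≠ 0) :
    ∑ q : HeightOneSpectrum (intCl F' v), (placeOf v q).ord (x : F')
      = v.ord ((Algebra.intNorm v.toValuationSubring (intCl F' v) x : v.toValuationSubring) : F) := by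
  have hI : Ideal.span {x} ≠ (⊥ : Ideal (intCl F' v)) := by
    rw [Ne, Ideal.span_singleton_eq_bot]
    exact hx
  have hN : Algebra.intNorm v.toValuationSubring (intCl F' v) x ≠ 0 :=
    Algebra.intNorm_ne_zero.mpr hx
  rw [ord_coe_eq_multiplicity v _ hN, ← Ideal.relNorm_singleton, relNorm_eq_pow v hdeg' _ hI,
    multiplicity_pow_self_of_prime
      (Ideal.prime_of_isPrime (pv_ne_bot v) (IsLocalRing.maximalIdeal.isMaximal _).isPrime),
    ← sum_count_eq_card v _ hI]
  push_cast
  refine Finset.sum_congr rfl fun q _ => ?_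
  rw [ord_placeOf_coe_eq_multiplicity v q x hx, multiplicity_eq_count v q _ hI]

omit [FiniteDimensional F F'] [Algebra.IsSeparable F F'] [Algebra K F'] [IsScalarTower K F F'] [Algebra F F'] in
theorem ord_div' (u : Place K F) {f g : F} (hf : f ≠ 0) (hg : g ≠ 0) :
    u.ord (f / g) = u.ord f - u.ord g := by
  rw [div_eq_mul_inv, u.ord_mul hf (inv_ne_zero hg), u.ord_inv]
  ring

theorem sum_ord_eq_ord_norm_of_mem (hdeg' : ∀ w : Place K F', w.deg = 1)
    (s : Finset (Place K F')) (hs : ∀ w, w ∈ s ↔ w.restrict F = v)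
    (x : intCl F' v) (hx : x ≠ 0) :
    ∑ w ∈ s, w.ord (x : F') = v.ord (Algebra.norm F (x : F')) := by
  let _ : Fintype (HeightOneSpectrum (intCl F' v)) := Fintype.ofFinite _
  have h1 := sum_ord_coe_eq_ord_intNorm v hdeg' x hx
  have h2 : ((Algebra.intNorm v.toValuationSubring (intCl F' v) x : v.toValuationSubring) : F)
      = Algebra.norm F (x : F') :=
    Algebra.algebraMap_intNorm (A := v.toValuationSubring) (K := F) (L := F')
      (B := intCl F' v) x
  rw [← h2, ← h1]
  symm
  refine Finset.sum_bij (fun q _ => placeOf v q) ?_ ?_ ?_ ?_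
  · intro q _
    exact (hs _).mpr (restrict_placeOf v _)
  · intro q _ q' _ h
    exact placeOf_injective v h
  · intro w hw
    obtain ⟨q, hq⟩ := exists_placeOf_eq v w ((hs w).mp hw)
    exact ⟨q, Finset.mem_univ _, hq⟩
  · intro q _
    rfl

/-- **Local norm formula** `∑_{w | v} ord_w(g) = ord_v(N_{F'/F} g)`. -/
theorem sum_ord_eq_ord_norm (hdeg' : ∀ w : Place K F', w.deg = 1)
    (s : Finset (Place K F')) (hs : ∀ w, w ∈ s ↔ w.restrict F = v)
    (g : F') (hg : g ≠ 0) :
    ∑ w ∈ s, w.ord g = v.ord (Algebra.norm F g) := by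
  obtain ⟨a, b, hb, rfl⟩ := IsFractionRing.div_surjective (A := intCl F' v) g
  have hb0 : b ≠ 0 := nonZeroDivisors.ne_zero hb
  have ha0 : a ≠ 0 := by
    rintro rfl
    simp at hg
  have ha' : (a : F') ≠ 0 := fun h => ha0 (Subtype.ext h)
  have hb' : (b : F') ≠ 0 := fun h => hb0 (Subtype.ext h)
  have hcoea : algebraMap (intCl F' v) F' a = (a : F') := rfl
  have hcoeb : algebraMap (intCl F' v) F' b = (b : F') := rfl
  have hnorm : Algebra.norm F ((a : F') / (b : F'))
      = Algebra.norm F (a : F') / Algebra.norm F (b : F') := by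
    rw [eq_div_iff (Algebra.norm_ne_zero_iff.mpr hb'), ← map_mul, div_mul_cancel₀ _ hb']
  rw [hcoea, hcoeb, hnorm,
    ord_div' v (Algebra.norm_ne_zero_iff.mpr ha') (Algebra.norm_ne_zero_iff.mpr hb'),
    ← sum_ord_eq_ord_norm_of_mem v hdeg' s hs a ha0,
    ← sum_ord_eq_ord_norm_of_mem v hdeg' s hs b hb0, ← Finset.sum_sub_distrib]
  refine Finset.sum_congr rfl fun w _ => ?_
  exact ord_div' w ha' hb'

end Local

end Fermat.Agent.S37.H160.SepFF

end
-- ===== PACK-END S37/H160/SepFF.lean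

-- ===== PACK-BEGIN S37/Red/ModG.lean
section




/-!
# S37 node_rim — RED-E1: the modular reduction datum (architect: helper40)

For `F ⊆ Q̄((q))`, `F_k ⊆ k((q))` the modular function fields and `A ⊆ Q̄` a valuation subring,
we build the reduction datum `modG : Datum A (residue A) F F_k` of `Red/Spec.lean`:

* `O`  = the ring `V` of fractions `a / b` of integral `q`-series (`a, b ∈ A((q)) ∩ F` with
         reductions in `F_k`, `b̄ ≠ 0`) of helper940 (`H940.qData`, `FracData.V`); it is a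
         VALUATION ring by the value-group hypothesis `ModVG` (every `f ≠ 0` is `c · y₁ / y₂`);
* `ρ`  = `ρ (a / b) = ā / b̄`;
* `x`  = any integral coordinate with transcendental reduction (`j`, or a Hauptmodul).

`modG_link` is the `link` of `ModDatum`.  What remains for NODE [RIM] is exactly
`(modG …).Good` (+ `MainStatement` + PGI): see `node_rim_of_modG`.
-/

set_option autoImplicit false
set_option synthInstance.maxHeartbeats 400000

noncomputable section

namespace Fermat.Agent.S37.Red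

open ModularCurve AlgebraicCurve HahnSeries IsLocalRing

variable (N : ℕ) (A : ValuationSubring Qb)

theorem residue_eq_zero_iff_not_isUnit (a : A) : residue A a = 0 ↔ ¬ IsUnit a := by
  rw [IsLocalRing.residue_eq_zero_iff, IsLocalRing.mem_maximalIdeal, mem_nonunits_iff]

/-- helper940's fraction data for the modular function fields -/
def modFrac : H940.FracData Qb (FN N) (kA A) (FNk A N) :=
  H940.qData A (residue A) (modularFunctionFieldBar N)
    (modularFunctionFieldFullC (kA A) N) IsLocalRing.residue_surjective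
    (residue_eq_zero_iff_not_isUnit A)

/-- **Value-group hypothesis** (helper940's `ValueGroupHyp`): every nonzero `f ∈ F` is a constant
times a fraction of integral `q`-series with nonzero reductions in `F_k`. -/
abbrev ModVG : Prop :=
  H940.ValueGroupHyp A (residue A) (modularFunctionFieldBar N)
    (modularFunctionFieldFullC (kA A) N)

variable {N A}

/-- the Gauss valuation ring of `F` -/
def modO (hVG : ModVG N A) : ValuationSubring (FN N) :=
  { (modFrac N A).V with
    mem_or_inv_mem' := by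
      intro f
      rcases eq_or_ne f 0 with rfl | hf
      · exact Or.inl (Subring.zero_mem _)
      obtain ⟨c, hc, y₁, y₂, h₁, h₂, hfy⟩ := hVG f hf
      let z₁ : (modFrac N A).O := y₁
      let z₂ : (modFrac N A).O := y₂
      have hz₁ : (modFrac N A).ρ₀ z₁ ≠ 0 := h₁
      have hz₂ : (modFrac N A).ρ₀ z₂ ≠ 0 := h₂
      have hfz : f * (z₂ : FN N) = algebraMap Qb (FN N) c * (z₁ : FN N) := hfy
      by_cases hcA : c ∈ A
      · left
        refine ⟨⟨algebraMap Qb (FN N) c, (modFrac N A).A_mem ⟨c, hcA⟩⟩ * z₁, z₂, hz₂, ?_⟩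
        rw [hfz]
        rfl
      · right
        have hinv : c⁻¹ ∈ A := (A.mem_or_inv_mem c).resolve_left hcA
        refine ⟨⟨algebraMap Qb (FN N) c⁻¹, (modFrac N A).A_mem ⟨c⁻¹, hinv⟩⟩ * z₂, z₁, hz₁, ?_⟩
        have hy₁ : (z₁ : FN N) ≠ 0 := (modFrac N A).coe_ne_zero hz₁
        have hc' : algebraMap Qb (FN N) c ≠ 0 := by
          rwa [Ne, map_eq_zero_iff _ (algebraMap Qb (FN N)).injective]
        show f⁻¹ * (z₁ : FN N) = algebraMap Qb (FN N) c⁻¹ * (z₂ : FN N)
        rw [map_inv₀, inv_mul_eq_iff_eq_mul₀ hf, ← mul_assoc, mul_comm f, mul_assoc, hfz,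
          ← mul_assoc, inv_mul_cancel₀ hc', one_mul] }

theorem mem_modO (hVG : ModVG N A) {f : FN N} : f ∈ modO hVG ↔ f ∈ (modFrac N A).V := Iff.rfl

/-- the reduction map on the Gauss valuation ring -/
def modρ (hVG : ModVG N A) : modO hVG →+* FNk A N := (modFrac N A).ρ

end Fermat.Agent.S37.Red

namespace Fermat.Agent.S37.Red

open ModularCurve AlgebraicCurve HahnSeries IsLocalRing

variable {N : ℕ} {A : ValuationSubring Qb}

/-- an integral series of `F` with reduction in `F_k`, as an element of the Gauss valuation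
ring -/
def ofSeries (hVG : ModVG N A) (y : LaurentSeries A)
    (hy : coeffMap A.subtype y ∈ modularFunctionFieldBar N)
    (hyk : coeffMap (residue A) y ∈ modularFunctionFieldFullC (kA A) N) : modO hVG :=
  ⟨⟨coeffMap A.subtype y, hy⟩, (modFrac N A).isFrac_of_mem ⟨⟨coeffMap A.subtype y, hy⟩, y, rfl, hyk⟩⟩

@[simp] theorem coe_ofSeries (hVG : ModVG N A) (y : LaurentSeries A)
    (hy : coeffMap A.subtype y ∈ modularFunctionFieldBar N)
    (hyk : coeffMap (residue A) y ∈ modularFunctionFieldFullC (kA A) N) :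
    ((ofSeries hVG y hy hyk : modO hVG) : FN N) = ⟨coeffMap A.subtype y, hy⟩ := rfl

theorem modρ_ofSeries (hVG : ModVG N A) (y : LaurentSeries A)
    (hy : coeffMap A.subtype y ∈ modularFunctionFieldBar N)
    (hyk : coeffMap (residue A) y ∈ modularFunctionFieldFullC (kA A) N) :
    modρ hVG (ofSeries hVG y hy hyk) = ⟨coeffMap (residue A) y, hyk⟩ := by
  have h := (modFrac N A).ρ_ofO ⟨⟨coeffMap A.subtype y, hy⟩, y, rfl, hyk⟩
  refine Eq.trans h ?_
  apply Subtype.ext
  exact H940.coe_redQ A (residue A) _ _ ⟨⟨coeffMap A.subtype y, hy⟩, y, rfl, hyk⟩ (y := y) rfl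

/-- **`link`**: a Prelude-integral series lies in `O` and `ρ` is its coefficientwise
reduction. -/
theorem modG_link (hVG : ModVG N A) (y : LaurentSeries A)
    (hy : coeffMap A.subtype y ∈ modularFunctionFieldBar N)
    (hyk : coeffMap (residue A) y ∈ modularFunctionFieldFullC (kA A) N) :
    ∃ h : (⟨coeffMap A.subtype y, hy⟩ : FN N) ∈ modO hVG,
      modρ hVG ⟨⟨coeffMap A.subtype y, hy⟩, h⟩ = ⟨coeffMap (residue A) y, hyk⟩ :=
  ⟨(ofSeries hVG y hy hyk).2, modρ_ofSeries hVG y hy hyk⟩

/-- units of `O`: nonzero reduction implies the inverse is in `O` -/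
theorem inv_mem_modO (hVG : ModVG N A) (u : modO hVG) (hu : modρ hVG u ≠ 0) :
    ((u : FN N))⁻¹ ∈ modO hVG :=
  (modFrac N A).ctx.inv_mem u hu

/-- the image of `ρ`, as a set of series -/
def ρImage (hVG : ModVG N A) : Set (LaurentSeries (kA A)) :=
  {g | ∃ u : modO hVG, ((modρ hVG u : FNk A N) : LaurentSeries (kA A)) = g}

/-- the image of `ρ` is an intermediate field -/
def ρField (hVG : ModVG N A) : IntermediateField (kA A) (LaurentSeries (kA A)) where
  carrier := ρImage hVG
  mul_mem' := by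
    rintro _ _ ⟨u, rfl⟩ ⟨v, rfl⟩
    exact ⟨u * v, by rw [_root_.map_mul]; rfl⟩
  one_mem' := ⟨1, by rw [_root_.map_one]; rfl⟩
  add_mem' := by
    rintro _ _ ⟨u, rfl⟩ ⟨v, rfl⟩
    exact ⟨u + v, by rw [_root_.map_add]; rfl⟩
  zero_mem' := ⟨0, by rw [_root_.map_zero]; rfl⟩
  algebraMap_mem' := by
    intro c
    obtain ⟨a, rfl⟩ := IsLocalRing.residue_surjective (R := A) c
    refine ⟨⟨algebraMap Qb (FN N) (a : Qb), (modFrac N A).ctx.A_mem a⟩, ?_⟩
    have h := (modFrac N A).ctx.ρ_A a
    show ((modρ hVG _ : FNk A N) : LaurentSeries (kA A)) = _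
    have h' : modρ hVG ⟨algebraMap Qb (FN N) (a : Qb), (modFrac N A).ctx.A_mem a⟩ =
        algebraMap (kA A) (FNk A N) (residue A a) := h
    rw [h']
    rfl
  inv_mem' := by
    rintro _ ⟨u, rfl⟩
    by_cases hu : modρ hVG u = 0
    · refine ⟨0, ?_⟩
      rw [hu, _root_.map_zero]
      simp
    · refine ⟨⟨((u : FN N))⁻¹, inv_mem_modO hVG u hu⟩, ?_⟩
      have hmul : (⟨((u : FN N))⁻¹, inv_mem_modO hVG u hu⟩ : modO hVG) * u = 1 := by
        apply Subtype.ext
        have hu0 : (u : FN N) ≠ 0 := by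
          intro h0
          apply hu
          have : u = 0 := Subtype.ext h0
          rw [this, _root_.map_zero]
        show ((u : FN N))⁻¹ * (u : FN N) = 1
        exact inv_mul_cancel₀ hu0
      have h1 := congrArg (modρ hVG) hmul
      rw [_root_.map_mul, _root_.map_one] at h1
      have h2 : modρ hVG ⟨((u : FN N))⁻¹, inv_mem_modO hVG u hu⟩ = (modρ hVG u)⁻¹ :=
        eq_inv_of_mul_eq_one_left h1
      rw [h2]
      rfl

end Fermat.Agent.S37.Red

namespace Fermat.Agent.S37.Red

open ModularCurve AlgebraicCurve HahnSeries IsLocalRing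

variable {N : ℕ} {A : ValuationSubring Qb}

/-- `j(q^d) ∈ F` for `d ∣ N` -/
theorem jqNModC_mem_bar {d : ℕ} [NeZero d] (hd : d ∣ N) :
    jqNModC Qb d ∈ modularFunctionFieldBar N := by
  have h1 : jqNModC ℚ d ∈ modularFunctionFieldFull N := by
    rw [← modularFunctionFieldFullC_rat]
    exact jqModCd_mem_full ℚ N hd
  have h2 := coeffEmb_mem_laurentBaseChange Qb h1
  have h3 : coeffEmb Qb (jqNModC ℚ d) = jqNModC Qb d :=
    coeffMap_jqNModC (algebraMap ℚ Qb) d
  rwa [h3] at h2

/-- the generators of `F_k` are reductions -/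
theorem generators_mem_ρField (hVG : ModVG N A) :
    divisorExpansionsC (kA A) N ⊆ (ρField hVG : Set (LaurentSeries (kA A))) := by
  rintro g ⟨d, hne, hd, rfl⟩
  haveI := hne
  have hy : coeffMap A.subtype (jqNModC A d) ∈ modularFunctionFieldBar N := by
    rw [coeffMap_jqNModC]
    exact jqNModC_mem_bar hd
  have hyk : coeffMap (residue A) (jqNModC A d) ∈ modularFunctionFieldFullC (kA A) N := by
    rw [coeffMap_jqNModC]
    exact jqModCd_mem_full (kA A) N hd
  refine ⟨ofSeries hVG (jqNModC A d) hy hyk, ?_⟩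
  rw [modρ_ofSeries]
  show coeffMap (residue A) (jqNModC A d) = _
  rw [coeffMap_jqNModC]
  rfl

/-- **`ρ` is surjective** -/
theorem modρ_surjective (hVG : ModVG N A) : Function.Surjective (modρ hVG) := by
  intro g
  have hle : modularFunctionFieldFullC (kA A) N ≤ ρField hVG :=
    IntermediateField.adjoin_le_iff.mpr (generators_mem_ρField hVG)
  obtain ⟨u, hu⟩ := hle g.2
  exact ⟨u, Subtype.ext hu⟩

/-- **RED-E1: the modular reduction datum** with coordinate `x` (an integral series of `F`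
whose reduction lies in `F_k` and is transcendental over `k`). -/
def modG (hVG : ModVG N A) (x : LaurentSeries A)
    (hx : coeffMap A.subtype x ∈ modularFunctionFieldBar N)
    (hxk : coeffMap (residue A) x ∈ modularFunctionFieldFullC (kA A) N)
    (htr : Transcendental (kA A) (⟨coeffMap (residue A) x, hxk⟩ : FNk A N)) :
    Datum A (residue A) (FN N) (FNk A N) where
  π_surj := IsLocalRing.residue_surjective
  O := modO hVG
  ρ := modρ hVG
  ρ_surj := modρ_surjective hVG
  const_mem := fun a => (modFrac N A).ctx.A_mem a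
  ρ_const := fun a => (modFrac N A).ctx.ρ_A a
  x := ⟨coeffMap A.subtype x, hx⟩
  x_mem := (ofSeries hVG x hx hxk).2
  xk_transc := by
    have h := modρ_ofSeries hVG x hx hxk
    have h' : modρ hVG ⟨⟨coeffMap A.subtype x, hx⟩, (ofSeries hVG x hx hxk).2⟩ =
        ⟨coeffMap (residue A) x, hxk⟩ := h
    rw [h']
    exact htr

/-- `j ∈ F`, as an integral series -/
theorem coeffMap_jqModC_mem_bar (N : ℕ) (A : ValuationSubring Qb) :
    coeffMap A.subtype (jqModC A) ∈ modularFunctionFieldBar N := by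
  have h := jqNModC_mem_bar (N := N) (d := 1) (one_dvd N)
  rw [jqNModC_one] at h
  rw [coeffMap_jqModC]
  exact h

/-- `j̄ ∈ F_k` -/
theorem coeffMap_jqModC_mem_fullC (N : ℕ) (A : ValuationSubring Qb) :
    coeffMap (residue A) (jqModC A) ∈ modularFunctionFieldFullC (kA A) N := by
  rw [coeffMap_jqModC]
  exact jqModC_mem_full (kA A) N

/-- the reduced coordinate `j̄ ∈ F_k` -/
def jk (N : ℕ) (A : ValuationSubring Qb) : FNk A N :=
  ⟨coeffMap (residue A) (jqModC A), coeffMap_jqModC_mem_fullC N A⟩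

/-- **The modular reduction datum with coordinate `x = j`.** -/
def modGj (hVG : ModVG N A) (htr : Transcendental (kA A) (jk N A)) :
    Datum A (residue A) (FN N) (FNk A N) :=
  modG hVG (jqModC A) (coeffMap_jqModC_mem_bar N A) (coeffMap_jqModC_mem_fullC N A) htr

/-- **NODE [RIM] from `MainStatement`, PGI and goodness of the modular datum.** -/
theorem node_rim_of_modG (hMain : MainStatement.{0}) (hVG : ModVG N A) (x : LaurentSeries A)
    (hx : coeffMap A.subtype x ∈ modularFunctionFieldBar N)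
    (hxk : coeffMap (residue A) x ∈ modularFunctionFieldFullC (kA A) N)
    (htr : Transcendental (kA A) (⟨coeffMap (residue A) x, hxk⟩ : FNk A N))
    (hgood : (modG hVG x hx hxk htr).Good)
    (hpgi : PrincipalGeneratedByIntegral A (residue A) N) :
    ReductionInputsModL A N := by
  haveI : IsAlgClosed (kA A) := Fermat.Agent.S18.H9.resAlgClosed Qb A
  obtain ⟨r, hr, -⟩ := hMain Qb (kA A) (FN N) (FNk A N) A (residue A) _ hgood
  refine ⟨r, ⟨hr.1, ?_⟩, hpgi⟩
  intro y hy hyk hne D hD Q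
  obtain ⟨h, hρ⟩ := modG_link hVG y hy hyk
  have hne' : (modG hVG x hx hxk htr).ρ ⟨⟨coeffMap A.subtype y, hy⟩, h⟩ ≠ 0 := by
    intro h0
    apply hne
    have := hρ.symm.trans h0
    exact congrArg Subtype.val this
  have key := hr.2 _ h hne' D hD Q
  have hρ' : (modG hVG x hx hxk htr).ρ ⟨⟨coeffMap A.subtype y, hy⟩, h⟩ =
      ⟨coeffMap (residue A) y, hyk⟩ := hρ
  rw [hρ'] at key
  exact key

end Fermat.Agent.S37.Red

end
end
-- ===== PACK-END S37/Red/ModG.lean

-- ===== PACK-BEGIN A2/H553/Modular.lean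
section



/-!
# A2 / K2c (helper553): `V∞` for the modular function fields `Q̄(X₀(N))`

* `gaussInput_modular` : `GaussInput A (modularFunctionFieldFull N)` for every `N` and every
  valuation subring `A ⊆ Q̄` over a prime;
* `VinfModular A hℓ hA N : ValuationSubring (modularFunctionFieldBar N)`;
* `k2_Vinf_modular` : the three K2 hypotheses for `VinfModular`, packaged.
-/

set_option autoImplicit false
set_option linter.unusedSectionVars false
set_option linter.style.haveILetI false

noncomputable section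

namespace Fermat.Agent.A2.H553

open ModularCurve HahnSeries IntermediateField AlgebraicCurve
open Fermat.Agent.S28.H86 Fermat.Agent.S18.H602 Fermat.Agent.A2.H129

local notation "Q̄" => AlgebraicClosure ℚ

/-- the `q`-expansions `j(q^d)` over `Q̄` have integer coefficients -/
theorem coeffEmb_jqd_eq (d : ℕ) [NeZero d] :
    coeffEmb Q̄ (qExpand ℚ d jq) = coeffMap (Int.castRingHom Q̄) (qExpand ℤ d (jqModC ℤ)) := by
  rw [coeffMap_qExpand, coeffMap_jqModC, coeffEmb, coeffMap_qExpand, ← jqModC_rat,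
    coeffMap_jqModC]

theorem finFrac_intSeries (A : ValuationSubring Q̄) (y : LaurentSeries ℤ) :
    FinFrac A (coeffMap (Int.castRingHom Q̄) y) := by
  haveI : FiniteDimensional ℚ (⊥ : IntermediateField ℚ Q̄) := inferInstance
  refine FinFrac.of_mem (E := ⊥) ?_
  intro n
  rw [coeffMap_coeff, eq_intCast]
  exact ⟨_root_.intCast_mem A _, _root_.intCast_mem (⊥ : IntermediateField ℚ Q̄) _⟩

/-- The hypotheses hold for the function field of `X₀(N)`, any `N`, any prime `ℓ`. -/
theorem gaussInput_modular (A : ValuationSubring Q̄) {ℓ : ℕ} (hℓ : ℓ ≠ 0)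
    (hA : A.LiesOverPrime ℓ) (N : ℕ) : GaussInput A (modularFunctionFieldFull N) where
  exists_prime := ⟨ℓ, hℓ, hA⟩
  finFrac := by
    intro z hz
    refine finFrac_coeffEmb_of_adjoin ?_ hz
    rintro _ ⟨d, hd, -, rfl⟩
    haveI := hd
    rw [coeffEmb_jqd_eq]
    exact finFrac_intSeries A _

/-- The Gauss valuation at `∞` of `Q̄(X₀(N))` over `A`. -/
def VinfModular (A : ValuationSubring Q̄) {ℓ : ℕ} (hℓ : ℓ ≠ 0) (hA : A.LiesOverPrime ℓ) (N : ℕ) :
    ValuationSubring ↥(modularFunctionFieldBar N) :=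
  Vinf A (modularFunctionFieldFull N) (gaussInput_modular A hℓ hA N)

/-- **K2c.**  The hypotheses of helper129's K2 (`GaussTwice`) for the Gauss valuation at `∞` of
`Q̄(X₀(N))` and the arithmetic action of an element of the inertia group of `A`. -/
theorem k2_Vinf_modular (A : ValuationSubring Q̄) {ℓ : ℕ} (hℓ : ℓ ≠ 0) (hA : A.LiesOverPrime ℓ)
    (N : ℕ) {σ : Q̄ ≃ₐ[ℚ] Q̄} (hσ : σ ∈ A.inertiaSubgroupIn ℚ) :
    HasConstValues (constField (modularFunctionFieldFull N)) (VinfModular A hℓ hA N) ∧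
    PreservesConstValues (constField (modularFunctionFieldFull N)) (VinfModular A hℓ hA N)
      (arithmeticRingAut (modularFunctionFieldFull N) σ) ∧
    InInertia (VinfModular A hℓ hA N) (arithmeticRingAut (modularFunctionFieldFull N) σ) ∧
    (∀ c ∈ constField (modularFunctionFieldFull N),
      arithmeticRingAut (modularFunctionFieldFull N) σ c ∈
        constField (modularFunctionFieldFull N)) :=
  ⟨hasConstValues_Vinf _,
    preservesConstValues_Vinf _ (Fermat.Agent.A2.H708.mem_decomposition_of_mem_inertiaIn A hσ),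
    inInertia_Vinf _ hσ, fun _ hc => arithmeticRingAut_mem_constField σ hc⟩

end Fermat.Agent.A2.H553

end
end
-- ===== PACK-END A2/H553/Modular.lean

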