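import Mathlib
import Fermat.Prelude.Def_AlgebraicCurve_DivisorClassGroup
import Fermat.Prelude.Def_AlgebraicCurve_BaseChangeGalois
import Fermat.Prelude.Def_AlgebraicCurve_Correspondence
import Fermat.Agent.Pack.S33.E13L2
import Fermat.Agent.Pack.S33.E4L0
import Fermat.Agent.Pack.S33.E9L2
import Fermat.Agent.Pack.S33.E7L0
import Fermat.Agent.Pack.S33.E13L0
import Fermat.Agent.Pack.S33.E10L1
import Fermat.Agent.Pack.S33.E13L3
import Fermat.Agent.Pack.S33.E7L3
import Fermat.Agent.Pack.S33.E14L0
import Fermat.Agent.Pack.S33.E14L1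
import Fermat.Agent.Pack.S33.E10L3
import Fermat.Agent.Pack.S33.E10L2
import Fermat.Agent.Pack.S33.E14L2
import Fermat.Agent.Pack.S33.E13L1
import Fermat.Agent.Pack.S33.E8L0

-- ===== PACK-BEGIN S24/FFDegree.lean
section




/-!
# S24 / FF layer: poles of a coordinate function and `deg (div f) = 0`
(helper804)
-/

set_option autoImplicit false
set_option linter.unusedSectionVars false

namespace Fermat.Agent.S24.FF

open AlgebraicCurve Polynomial IntermediateField

variable {K F : Type*} [Field K] [Field F] [Algebra K F]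

theorem adjoin_inv_eq (f : F) : K⟮f⁻¹⟯ = K⟮f⟯ := by
  apply le_antisymm
  · rw [adjoin_simple_le_iff]
    exact _root_.InvMemClass.inv_mem (mem_adjoin_simple_self K f)
  · rw [adjoin_simple_le_iff]
    have := _root_.InvMemClass.inv_mem (mem_adjoin_simple_self K f⁻¹)
    rwa [inv_inv] at this

theorem finrank_adjoin_inv (f : F) : Module.finrank K⟮f⁻¹⟯ F = Module.finrank K⟮f⟯ F := by
  rw [adjoin_inv_eq]

theorem transcendental_inv {f : F} (hf : Transcendental K f) : Transcendental K f⁻¹ := by
  intro h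
  apply hf
  have := h.inv
  rwa [inv_inv] at this

theorem finiteDimensional_adjoin_inv (f : F) [h : FiniteDimensional K⟮f⟯ F] :
    FiniteDimensional K⟮f⁻¹⟯ F := by
  rw [adjoin_inv_eq]
  exact h

theorem adjoin_sub_const_eq (f : F) (a : K) : K⟮f - algebraMap K F a⟯ = K⟮f⟯ := by
  apply le_antisymm
  · rw [adjoin_simple_le_iff]
    exact _root_.sub_mem (mem_adjoin_simple_self K f) (IntermediateField.algebraMap_mem _ a)
  · rw [adjoin_simple_le_iff]
    have := _root_.AddMemClass.add_mem (mem_adjoin_simple_self K (f - algebraMap K F a))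
      (IntermediateField.algebraMap_mem K⟮f - algebraMap K F a⟯ a)
    rwa [sub_add_cancel] at this

theorem finrank_adjoin_sub_const (f : F) (a : K) :
    Module.finrank K⟮f - algebraMap K F a⟯ F = Module.finrank K⟮f⟯ F := by
  rw [adjoin_sub_const_eq]

theorem finiteDimensional_adjoin_sub_const (f : F) (a : K) [h : FiniteDimensional K⟮f⟯ F] :
    FiniteDimensional K⟮f - algebraMap K F a⟯ F := by
  rw [adjoin_sub_const_eq]
  exact h

theorem transcendental_sub_const {f : F} (hf : Transcendental K f) (a : K) :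
    Transcendental K (f - algebraMap K F a) := by
  intro h
  apply hf
  have := h.add (isAlgebraic_algebraMap (R := K) (A := F) a)
  rwa [sub_add_cancel] at this

section

variable [CharZero K]

/-- A coordinate function has finitely many poles. -/
theorem finite_setOf_ord_neg {t : F} (ht : Transcendental K t) [FiniteDimensional K⟮t⟯ F] :
    {v : Place K F | v.ord t < 0}.Finite := by
  have := finiteDimensional_adjoin_inv (K := K) t
  have h := finite_setOf_ord_pos (transcendental_inv ht)
  refine h.subset ?_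
  intro v hv
  change 0 < v.ord t⁻¹
  have hv' : v.ord t < 0 := hv
  rw [v.ord_inv]
  omega

/-- A nonconstant function has finitely many zeros and poles. -/
theorem finite_setOf_ord_ne_zero {t : F} (ht : Transcendental K t) [FiniteDimensional K⟮t⟯ F] :
    {v : Place K F | v.ord t ≠ 0}.Finite := by
  refine ((finite_setOf_ord_pos ht).union (finite_setOf_ord_neg ht)).subset ?_
  intro v hv
  have hv' : v.ord t ≠ 0 := hv
  rcases lt_or_gt_of_ne hv' with h | h
  · exact Or.inr h
  · exact Or.inl h

variable [IsAlgClosed K]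

/-- **Fundamental identity at the poles**: `∑_{v(t) < 0} ord_v(t) = -[F : K(t)]`. -/
theorem sum_ord_neg_eq_neg_finrank {t : F} (ht : Transcendental K t) [FiniteDimensional K⟮t⟯ F]
    (s : Finset (Place K F)) (hs : ∀ v, v ∈ s ↔ v.ord t < 0) :
    ∑ v ∈ s, v.ord t = -(Module.finrank K⟮t⟯ F : ℤ) := by
  have := finiteDimensional_adjoin_inv (K := K) t
  have h := sum_ord_eq_finrank (transcendental_inv ht) s (fun v => by
    rw [hs, v.ord_inv]
    omega)
  rw [finrank_adjoin_inv] at h
  rw [← h, ← Finset.sum_neg_distrib]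
  refine Finset.sum_congr rfl fun v _ => ?_
  rw [v.ord_inv, neg_neg]

/-- **Fundamental identity over the point `a`**: `∑_{v(t - a) > 0} ord_v(t - a) = [F : K(t)]`. -/
theorem sum_ord_sub_const_eq_finrank {t : F} (ht : Transcendental K t)
    [FiniteDimensional K⟮t⟯ F] (a : K)
    (s : Finset (Place K F)) (hs : ∀ v, v ∈ s ↔ 0 < v.ord (t - algebraMap K F a)) :
    ∑ v ∈ s, v.ord (t - algebraMap K F a) = (Module.finrank K⟮t⟯ F : ℤ) := by
  have := finiteDimensional_adjoin_sub_const (K := K) t a
  have h := sum_ord_eq_finrank (transcendental_sub_const ht a) s hs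
  rwa [finrank_adjoin_sub_const] at h

theorem degree_eq_sum (D : Divisor K F) :
    Divisor.degree D = ∑ v ∈ D.support, D v * (v.deg : ℤ) := by
  simp [Divisor.degree, Finsupp.sum]

/-- **FF3: a principal divisor has degree zero.** -/
theorem degree_principal (j : F) (hj : Transcendental K j) [FiniteDimensional K⟮j⟯ F]
    (f : F) (D : Divisor K F) (hD : ∀ v : Place K F, D v = v.ord f) :
    Divisor.degree D = 0 := by
  by_cases hfr : f ∈ (algebraMap K F).range
  · obtain ⟨a, rfl⟩ := hfr
    have : D = 0 := by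
      ext v
      rw [hD, _root_.Fermat.Agent.S24.FF.ord_algebraMap]
      rfl
    rw [this, _root_.map_zero]
  have hft : Transcendental K f := transcendental_of_not_mem_range hfr
  have hfin : FiniteDimensional K⟮f⟯ F := finiteDimensional_adjoin_of_transcendental hj hft
  classical
  rw [degree_eq_sum]
  have hsupp : ∀ v, v ∈ D.support ↔ v.ord f ≠ 0 := fun v => by
    rw [Finsupp.mem_support_iff, hD]
  have h1 : ∑ v ∈ D.support, D v * (v.deg : ℤ) = ∑ v ∈ D.support, v.ord f := by
    refine Finset.sum_congr rfl fun v _ => ?_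
    rw [hD, deg_eq_one v hj]
    simp
  rw [h1, ← Finset.sum_filter_add_sum_filter_not D.support (fun v => 0 < v.ord f)]
  have hP := sum_ord_eq_finrank hft (D.support.filter fun v => 0 < v.ord f) (fun v => by
    rw [Finset.mem_filter, hsupp]
    constructor
    · exact fun h => h.2
    · exact fun h => ⟨h.ne', h⟩)
  have hN := sum_ord_neg_eq_neg_finrank hft (D.support.filter fun v => ¬ 0 < v.ord f)
    (fun v => by
      rw [Finset.mem_filter, hsupp]
      constructor
      · rintro ⟨h1, h2⟩
        omega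
      · intro h
        exact ⟨h.ne, by omega⟩)
  rw [hP, hN]
  ring

end

end Fermat.Agent.S24.FF

namespace Fermat.Agent.S24.FF

open AlgebraicCurve

variable {K F : Type*} [Field K] [Field F] [Algebra K F] [IsAlgClosed K] [CharZero K]

/-- Exact shape of helper984's `open_fundamental_le` (`Alg/Open.lean`). -/
theorem fundamental_le (t : F) (ht : Transcendental K t)
    [FiniteDimensional ↥(IntermediateField.adjoin K {t}) F]
    (s : Finset (Place K F)) (hs : ∀ v : Place K F, v ∈ s ↔ 0 < v.ord t) :
    (Module.finrank ↥(IntermediateField.adjoin K {t}) F : ℤ) ≤ ∑ v ∈ s, v.ord t :=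
  (sum_ord_eq_finrank ht s hs).ge

/-- Exact shape of helper984's `open_degree_principal` (`Alg/Open.lean`). -/
theorem degree_principal' (j : F) (hj : Transcendental K j)
    [FiniteDimensional ↥(IntermediateField.adjoin K {j}) F] (f : F) (_hf : f ≠ 0)
    (D : Divisor K F) (hD : ∀ v : Place K F, D v = v.ord f) : Divisor.degree D = 0 :=
  _root_.Fermat.Agent.S24.FF.degree_principal j hj f D hD

end Fermat.Agent.S24.FF

end
-- ===== PACK-END S24/FFDegree.lean

-- ===== PACK-BEGIN S28/H589/ModPoly.lean
section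






/-!
# S28 / [A-Φ] (helper589): the modular polynomial `Φ_p ∈ ℤ[Y][X]`

Analytic input: helper648's conjugate product (`Fermat.Agent.S24.H648.exists_charPoly_jFun`)
gives `Φ ∈ ℂ[Y][X]`, monic of degree `[SL₂(ℤ) : Γ₀(p)] = p + 1`, with
`Φ(j(pτ), j(τ)) = 0` and `Φ(j(τ), j(pτ)) = 0` as functions on `ℍ`.
helper565's `HasTExp` calculus turns these into identities in `ℂ((q))`, and `descent`
(this directory) shows that `Φ` has integer coefficients.
-/

set_option autoImplicit false

noncomputable section

open UpperHalfPlane ModularCurve CongruenceSubgroup Function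
open scoped MatrixGroups Manifold Real

namespace Fermat.Agent.S28.H589

open Fermat.Agent.S28.H565 (HasTExp)
open Fermat.Agent.S24.H648 (goodRing charPolyAt)

local notation "𝕢" => Periodic.qParam

/-- The scaling map `τ ↦ d τ` on `ℍ`. -/
def scaleH (d : ℕ) (hd : 0 < d) (τ : ℍ) : ℍ :=
  UpperHalfPlane.mk ((d : ℂ) * (τ : ℂ)) (by
    have h : ((d : ℂ) * (τ : ℂ)).im = d * τ.im := by simp
    rw [h]
    exact mul_pos (by exact_mod_cast hd) τ.im_pos)

@[simp]
theorem scaleH_coe (d : ℕ) (hd : 0 < d) (τ : ℍ) : ((scaleH d hd τ : ℍ) : ℂ) = (d : ℂ) * τ := rfl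

theorem qParam_scaleH (d : ℕ) (hd : 0 < d) (τ : ℍ) :
    𝕢 1 ((scaleH d hd τ : ℍ) : ℂ) = 𝕢 1 (τ : ℂ) ^ d := by
  simp only [Periodic.qParam, scaleH_coe]
  rw [← Complex.exp_nat_mul]
  congr 1
  push_cast
  ring

/-- If `f` has `q`-expansion `φ` then `τ ↦ f (d τ)` has `q`-expansion `V_d φ`. -/
theorem hasTExp_comp_scaleH (d : ℕ) [NeZero d] (hd : 0 < d) {f : ℍ → ℂ} {φ : LaurentSeries ℂ}
    (hf : HasTExp 1 f φ) : HasTExp 1 (fun τ => f (scaleH d hd τ)) (qExpand ℂ d φ) := by
  intro τ
  have hm : (d : ℤ) ≠ 0 := by exact_mod_cast NeZero.ne d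
  have hι : Function.Injective (fun k : ℤ => (d : ℤ) * k) := mul_right_injective₀ hm
  have hzero : ∀ n ∉ Set.range (fun k : ℤ => (d : ℤ) * k),
      (qExpand ℂ d φ).coeff n * 𝕢 1 τ ^ n = 0 := by
    intro n hn
    rw [qExpand_coeff_of_not_dvd, zero_mul]
    rintro ⟨c, rfl⟩
    exact hn ⟨c, rfl⟩
  rw [← hι.hasSum_iff hzero]
  have hfun : ((fun n : ℤ => (qExpand ℂ d φ).coeff n * 𝕢 1 τ ^ n) ∘
      fun k : ℤ => (d : ℤ) * k) = fun k : ℤ => φ.coeff k * 𝕢 1 (scaleH d hd τ) ^ k := by
    funext k
    simp only [Function.comp_apply]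
    rw [qExpand_coeff_mul, qParam_scaleH, zpow_mul, zpow_natCast]
  rw [hfun]
  exact hf (scaleH d hd τ)

/-- Two-variable polynomial expressions in functions with `q`-expansions. -/
theorem hasTExp_eval₂ (P : Polynomial (Polynomial ℂ)) {a b : ℍ → ℂ} {α β : LaurentSeries ℂ}
    (ha : HasTExp 1 a α) (hb : HasTExp 1 b β) :
    HasTExp 1 (fun τ => (P.map (Polynomial.evalRingHom (a τ))).eval (b τ))
      (P.eval₂ (evC α) β) := by
  induction P using Polynomial.induction_on' with
  | add p q hp hq =>
    rw [Polynomial.eval₂_add]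
    exact (hp.add hq).congr fun τ => by simp
  | monomial n c =>
    rw [Polynomial.eval₂_monomial, evC_eq_aeval]
    have h1 := (ha.polynomial_aeval c).mul (hb.pow n)
    exact h1.congr fun τ => by simp [Polynomial.eval_monomial]

/-- A function-level identity `P(a(τ))(b(τ)) = 0` gives the formal identity. -/
theorem eval₂_eq_zero_of_forall (P : Polynomial (Polynomial ℂ)) {a b : ℍ → ℂ}
    {α β : LaurentSeries ℂ} (ha : HasTExp 1 a α) (hb : HasTExp 1 b β)
    (h : ∀ τ, (P.map (Polynomial.evalRingHom (a τ))).eval (b τ) = 0) :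
    P.eval₂ (evC α) β = 0 := by
  have h1 := hasTExp_eval₂ P ha hb
  have h2 : HasTExp 1 (0 : ℍ → ℂ) (P.eval₂ (evC α) β) := h1.congr fun τ => by simp [h τ]
  exact h2.eq_zero one_pos

theorem jFun648_eq : (Fermat.Agent.S24.H648.jFun : ℍ → ℂ) = Fermat.Agent.S28.H565.jFun := rfl

theorem scaleH_S_scaleH (p : ℕ) (hp : 0 < p) (w : ℍ) :
    scaleH p hp (ModularGroup.S • scaleH p hp w) = ModularGroup.S • w := by
  apply UpperHalfPlane.ext
  rw [scaleH_coe, UpperHalfPlane.modular_S_smul, UpperHalfPlane.modular_S_smul]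
  simp only [scaleH_coe]
  have hw : (w : ℂ) ≠ 0 := UpperHalfPlane.ne_zero w
  have hp' : (p : ℂ) ≠ 0 := by exact_mod_cast hp.ne'
  field_simp

theorem dedekindPsi_prime (p : ℕ) (hp : p.Prime) : ModularCurve.dedekindPsi p = p + 1 := by
  have h := Fermat.Agent.S20.H872.dedekindPsi_mul_prime_of_not_dvd (N := 1) one_ne_zero hp
    (by
      intro h
      exact hp.one_lt.ne' (Nat.dvd_one.mp h))
  rwa [one_mul, ModularCurve.dedekindPsi_one, mul_one] at h

theorem finite_quot_Gamma0 (N : ℕ) [NeZero N] : Finite (SL(2, ℤ) ⧸ Gamma0 N) := by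
  apply Nat.finite_of_card_ne_zero
  rw [Fermat.Agent.S20.H872.card_quot_Gamma0]
  intro h
  have hpos : 0 < ModularCurve.dedekindPsi N := by
    unfold ModularCurve.dedekindPsi
    apply Finset.sum_pos'
    · intro d _; exact Nat.zero_le _
    · refine ⟨1, ?_, ?_⟩
      · simp [NeZero.ne N]
      · simp [Nat.pos_of_ne_zero (NeZero.ne N)]
  omega

/-- The fintype structure on `SL₂(ℤ) / Γ₀(N)` used for the conjugate product. -/
@[reducible] def fintypeQuot (N : ℕ) [NeZero N] : Fintype (SL(2, ℤ) ⧸ Gamma0 N) :=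
  haveI := finite_quot_Gamma0 N
  Fintype.ofFinite _

theorem card_quot_prime (p : ℕ) [NeZero p] (hp : p.Prime) :
    @Fintype.card (SL(2, ℤ) ⧸ Gamma0 p) (fintypeQuot p) = p + 1 := by
  letI := fintypeQuot p
  rw [← Nat.card_eq_fintype_card, Fermat.Agent.S20.H872.card_quot_Gamma0, dedekindPsi_prime p hp]

/-- The complex modular polynomial with its two formal vanishing relations. -/
theorem exists_modPoly_complex (p : ℕ) [NeZero p] (hp : p.Prime) :
    ∃ Φ : Polynomial (Polynomial ℂ), Φ.Monic ∧ Φ.natDegree = p + 1 ∧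
      Φ.eval₂ (evC (jqModC ℂ)) (qExpand ℂ p (jqModC ℂ)) = 0 ∧
      Φ.eval₂ (evC (qExpand ℂ p (jqModC ℂ))) (jqModC ℂ) = 0 := by
  letI := fintypeQuot p
  set f₀ : ℍ → ℂ := fun τ => Fermat.Agent.S24.H648.jFun (scaleH p hp.pos τ) with hf₀
  have hf : f₀ ∈ goodRing p :=
    Fermat.Agent.S24.H648.jFun_scale_mem_goodRing p p hp.pos dvd_rfl (scaleH p hp.pos)
      (fun τ => rfl)
  obtain ⟨P, hPm, hPd, hP⟩ := Fermat.Agent.S24.H648.exists_charPoly_jFun hf
  have hj : HasTExp 1 Fermat.Agent.S24.H648.jFun (jqModC ℂ) := by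
    rw [jFun648_eq]; exact Fermat.Agent.S28.H565.hasTExp_jFun
  have hjp : HasTExp 1 f₀ (qExpand ℂ p (jqModC ℂ)) := hasTExp_comp_scaleH p hp.pos hj
  refine ⟨P, hPm, ?_, ?_, ?_⟩
  · rw [hPd]; exact card_quot_prime p hp
  · refine eval₂_eq_zero_of_forall P hj hjp fun τ => ?_
    rw [hP]
    exact Fermat.Agent.S24.H648.charPolyAt_eval_self hf.2.1 τ
  · refine eval₂_eq_zero_of_forall P hjp hj fun w => ?_
    show (P.map (Polynomial.evalRingHom
      (Fermat.Agent.S24.H648.jFun (scaleH p hp.pos w)))).eval (Fermat.Agent.S24.H648.jFun w) = 0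
    rw [hP]
    have hconj : Fermat.Agent.S24.H648.conj p f₀
        (((ModularGroup.S)⁻¹ : SL(2, ℤ)) : SL(2, ℤ) ⧸ Gamma0 p) (scaleH p hp.pos w)
        = Fermat.Agent.S24.H648.jFun w := by
      rw [Fermat.Agent.S24.H648.conj_mk hf.2.1, inv_inv]
      show Fermat.Agent.S24.H648.jFun (scaleH p hp.pos (ModularGroup.S • scaleH p hp.pos w)) = _
      rw [scaleH_S_scaleH, Fermat.Agent.S24.H648.jFun_smul]
    rw [← hconj]
    exact Fermat.Agent.S24.H648.charPolyAt_eval_conj f₀ _ _

theorem jqModC_int_ne_zero : jqModC ℤ ≠ 0 := jqModC_ne_zero_of_nontrivial ℤ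

theorem order_jqModC_int : (jqModC ℤ).order = -1 := by
  rw [← order_iotaC, iotaC, coeffMap_jqModC]
  exact Fermat.Agent.S28.H145.order_jqModC ℂ

/-- **[A-Φ]** -/
theorem nonempty_modPolyData (p : ℕ) [NeZero p] (hp : p.Prime) : Nonempty (ModPolyData p) := by
  obtain ⟨Φ, hΦm, hΦd, h1, h2⟩ := exists_modPoly_complex p hp
  have hne : jqModC ℤ ≠ qExpand ℤ p (qExpand ℤ p (jqModC ℤ)) := by
    intro h
    have hc : (jqModC ℤ).coeff (-1) = (qExpand ℤ p (qExpand ℤ p (jqModC ℤ))).coeff (-1) :=
      congrArg (fun z => z.coeff (-1)) h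
    rw [qExpand_coeff_of_not_dvd] at hc
    · have h1 : (jqModC ℤ).coeff (-1) ≠ 0 := by
        have := HahnSeries.coeff_order_eq_zero (x := jqModC ℤ)
        rw [order_jqModC_int] at this
        exact fun h0 => jqModC_int_ne_zero (this.mp h0)
      exact h1 hc
    · intro hdvd
      have h2 : (p : ℤ) ∣ 1 := (Int.dvd_neg).mp hdvd
      have h3 : p ∣ 1 := by exact_mod_cast h2
      exact hp.one_lt.ne' (Nat.dvd_one.mp h3)
  have hcop : IsCoprime (jqModC ℤ).order (p : ℤ) := by
    rw [order_jqModC_int]
    exact (isCoprime_one_left (x := (p : ℤ))).neg_left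
  obtain ⟨Ψ, hΨm, hΨd, hΨ1, hΨ2⟩ := descent p Φ hΦm (p + 1) hΦd rfl
    (qExpand ℤ p (jqModC ℤ)) (jqModC ℤ) jqModC_int_ne_zero hcop hne
    (by rw [iotaC, coeffMap_qExpand, coeffMap_jqModC]; exact h1)
    (by rw [iotaC, coeffMap_jqModC]; exact h2)
  exact ⟨⟨Ψ, hΨm, hΨd, hΨ1, hΨ2⟩⟩

end Fermat.Agent.S28.H589

end

end
-- ===== PACK-END S28/H589/ModPoly.lean

-- ===== PACK-BEGIN Lib/RR/H443/Bridge.lean
section




/-!
# RR bridge (helper443), part 4: `FF1 K F` in ANY characteristic

For `K` algebraically closed (of any characteristic) and `F` a finite extension of `K(x)`, `x`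
transcendental over `K`:

* `hasPrincipalDivisors_of_isAlgClosed` : `HasPrincipalDivisors K F`
  (finitely many zeros and poles, principal divisors have degree `0`);
* `ff1_of_isAlgClosed` : the standing hypotheses `FF1 K F` of the RR library;
* `sum_ord_zeros_eq_finrank'`, `sum_ord_poles_eq_finrank'` : the fundamental identity
  `∑_{v(x) > 0} ord_v x = [F : K(x)] = ∑_{v(x) < 0} -ord_v x`;
* `exists_place_ord_pos'`, `exists_place_ord_neg'` : existence of zeros and poles.

No separability, no Dedekind domains: only valuation theory (Stichtenoth, Ch. 1).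
-/

set_option autoImplicit false

noncomputable section

open AlgebraicCurve Polynomial IntermediateField
open Fermat.Agent.Lib.RR

namespace Fermat.Agent.Lib.RR.H443

variable {K F : Type*} [Field K] [Field F] [Algebra K F]

/-- Layer L2 of the RR library gives the zeros bound. -/
theorem zerosBound (hdeg : ∀ v : Place K F, v.deg = 1) : ZerosBound K F :=
  fun x _ S hS => sum_ord_le_finrank hdeg x S hS

variable [IsAlgClosed K]

/-- The hypotheses of the bridge hold over an algebraically closed constant field. -/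
theorem hyp_of_isAlgClosed {x : F} (hx : Transcendental K x) [FiniteDimensional K⟮x⟯ F] :
    Hyp K F where
  deg_eq_one := fun v => S24.FF.deg_eq_one v hx
  finite := fun _ hy => S24.FF.finiteDimensional_adjoin_of_transcendental hx hy
  const := fun _ hf => S24.FF.mem_range_of_isAlgebraic hf

/-- **`FF1 K F` in any characteristic.** -/
theorem ff1_of_isAlgClosed {x : F} (hx : Transcendental K x) [FiniteDimensional K⟮x⟯ F] :
    FF1 K F :=
  ff1_of_hyp (hyp_of_isAlgClosed hx) (zerosBound (hyp_of_isAlgClosed hx).deg_eq_one) hx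

/-- **`HasPrincipalDivisors K F` in any characteristic.** -/
theorem hasPrincipalDivisors_of_isAlgClosed {x : F} (hx : Transcendental K x)
    [FiniteDimensional K⟮x⟯ F] : HasPrincipalDivisors K F :=
  hasPrincipalDivisors (hyp_of_isAlgClosed hx) (zerosBound (hyp_of_isAlgClosed hx).deg_eq_one)

/-- Every place has degree one. -/
theorem deg_eq_one_of_isAlgClosed {x : F} (hx : Transcendental K x) [FiniteDimensional K⟮x⟯ F]
    (v : Place K F) : v.deg = 1 :=
  S24.FF.deg_eq_one v hx

/-- Every nonconstant function has a zero. -/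
theorem exists_place_ord_pos' {x : F} (hx : Transcendental K x) [FiniteDimensional K⟮x⟯ F]
    {t : F} (ht : Transcendental K t) : ∃ v : Place K F, 0 < v.ord t :=
  exists_place_ord_pos (hyp_of_isAlgClosed hx).finite ht

/-- Every nonconstant function has a pole. -/
theorem exists_place_ord_neg' {x : F} (hx : Transcendental K x) [FiniteDimensional K⟮x⟯ F]
    {t : F} (ht : Transcendental K t) : ∃ v : Place K F, v.ord t < 0 :=
  exists_place_ord_neg (hyp_of_isAlgClosed hx).finite ht

/-- Finitely many zeros and poles. -/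
theorem finite_setOf_ord_ne_zero {x : F} (hx : Transcendental K x) [FiniteDimensional K⟮x⟯ F]
    (f : F) : {v : Place K F | v.ord f ≠ 0}.Finite := by
  have h := hyp_of_isAlgClosed hx
  have hZ := zerosBound h.deg_eq_one
  refine ((finite_zeros h hZ f).union (finite_poles h hZ f)).subset fun v hv => ?_
  have hv' : v.ord f ≠ 0 := hv
  rcases lt_or_gt_of_ne hv' with h1 | h1
  · exact Or.inr h1
  · exact Or.inl h1

/-- **Fundamental identity at the zeros** (any characteristic). -/
theorem sum_ord_zeros_eq_finrank' {x : F} (hx : Transcendental K x) [FiniteDimensional K⟮x⟯ F]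
    (S : Finset (Place K F)) (hS : ∀ v, v ∈ S ↔ 0 < v.ord x) :
    ∑ v ∈ S, v.ord x = (Module.finrank K⟮x⟯ F : ℤ) :=
  sum_ord_zeros_eq_finrank (hyp_of_isAlgClosed hx)
    (zerosBound (hyp_of_isAlgClosed hx).deg_eq_one) hx S hS

/-- **Fundamental identity at the poles** (any characteristic). -/
theorem sum_ord_poles_eq_finrank' {x : F} (hx : Transcendental K x) [FiniteDimensional K⟮x⟯ F]
    (S : Finset (Place K F)) (hS : ∀ v, v ∈ S ↔ v.ord x < 0) :
    ∑ v ∈ S, -v.ord x = (Module.finrank K⟮x⟯ F : ℤ) :=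
  sum_ord_poles_eq_finrank (hyp_of_isAlgClosed hx)
    (zerosBound (hyp_of_isAlgClosed hx).deg_eq_one) hx S hS

/-- Every valuation subring `≠ ⊤` of `F` containing `K` is (the ring of) a place. -/
theorem exists_place_eq (O : ValuationSubring F) (hK : ∀ a : K, algebraMap K F a ∈ O)
    (hO : O ≠ ⊤) {x : F} (hx : Transcendental K x) [FiniteDimensional K⟮x⟯ F] :
    ∃ v : Place K F, v.toValuationSubring = O :=
  ⟨placeOfValuationSubring O hK hO (hyp_of_isAlgClosed hx).finite, rfl⟩

end Fermat.Agent.Lib.RR.H443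

end
end
-- ===== PACK-END Lib/RR/H443/Bridge.lean

-- ===== PACK-BEGIN S18/B12/H33/Regular.lean
section



/-!
# S18 b2.5 (helper33): OUTPUT O1 — `B2RegularStatement` from the pieces

`B2RegularStatement` (special fibre of the normal model is regular = `H754.RegularAlong (C w)`)
from `B2CoreAbsStatement` (heart), A0 (regular sequence), A8 (normality from discriminant bounds),
A9 (regular along a Dedekind fibre) and A1 (instantiation `P = R[X]`).
-/

set_option autoImplicit false

noncomputable section

namespace Fermat.Agent.S18.B12.H33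

open Polynomial

universe u v

section Abs

variable {P : Type u} [CommRing P] [IsDomain P] [IsIntegrallyClosed P]
  {B : Type v} [CommRing B] [IsDomain B] [IsIntegrallyClosed B] [Algebra P B]
  [Module.Finite P B] [Module.IsTorsionFree P B]

/-- `B/wB` is torsion-free over `P/(w)` (from A0). -/
theorem isTorsionFree_quotient (hA0 : RegSeqAbsStatement.{u, v}) (w : P) (hw : Prime w) :
    Module.IsTorsionFree (P ⧸ Ideal.span {w}) (B ⧸ (Ideal.span {w}).map (algebraMap P B)) := by
  haveI : IsDomain (P ⧸ Ideal.span {w}) := by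
    rw [Ideal.Quotient.isDomain_iff_prime]
    exact (Ideal.span_singleton_prime hw.ne_zero).mpr hw
  haveI : Algebra.IsIntegral P B := inferInstance
  have hJ : (Ideal.span {w}).map (algebraMap P B) = Ideal.span {algebraMap P B w} := by
    rw [Ideal.map_span, Set.image_singleton]
  refine Module.IsTorsionFree.of_smul_eq_zero fun a b hab => ?_
  obtain ⟨a, rfl⟩ := Ideal.Quotient.mk_surjective a
  obtain ⟨b, rfl⟩ := Ideal.Quotient.mk_surjective b
  by_cases ha : w ∣ a
  · left
    exact Ideal.Quotient.eq_zero_iff_mem.mpr (Ideal.mem_span_singleton.mpr ha)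
  · right
    rw [Ideal.Quotient.mk_smul_mk_quotient_map_quotient, Ideal.Quotient.eq_zero_iff_mem, hJ,
      Ideal.mem_span_singleton] at hab
    obtain ⟨c, hc⟩ := hab
    obtain ⟨b'', hb, -⟩ := hA0 P B a w hw ha b c hc
    rw [Ideal.Quotient.eq_zero_iff_mem, hJ, Ideal.mem_span_singleton]
    exact ⟨b'', hb⟩

end Abs

end Fermat.Agent.S18.B12.H33

namespace Fermat.Agent.S18.B12.H33

open Polynomial

universe u v

/-- In `P/(w)`, the image of `p` is prime if `(w, p)` is maximal and `w ∤ p`. -/
theorem prime_mk_of_isMaximal {P : Type u} [CommRing P] [IsDomain P] (w p : P) (hw : Prime w)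
    (hmax : (Ideal.span {w, p}).IsMaximal) (hwp : ¬ w ∣ p) :
    Prime (Ideal.Quotient.mk (Ideal.span {w}) p) := by
  haveI : IsDomain (P ⧸ Ideal.span {w}) := by
    rw [Ideal.Quotient.isDomain_iff_prime]
    exact (Ideal.span_singleton_prime hw.ne_zero).mpr hw
  have hne : Ideal.Quotient.mk (Ideal.span {w}) p ≠ 0 := by
    intro h
    exact hwp (Ideal.mem_span_singleton.mp (Ideal.Quotient.eq_zero_iff_mem.mp h))
  rw [← Ideal.span_singleton_prime hne]
  have hcomap : Ideal.comap (Ideal.Quotient.mk (Ideal.span {w}))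
      (Ideal.span {Ideal.Quotient.mk (Ideal.span {w}) p}) = Ideal.span {w, p} :=
    (span_pair_eq_comap w p).symm
  have hmap : Ideal.span {Ideal.Quotient.mk (Ideal.span {w}) p}
      = Ideal.map (Ideal.Quotient.mk (Ideal.span {w})) (Ideal.span {w, p}) := by
    rw [← hcomap, Ideal.map_comap_of_surjective _ Ideal.Quotient.mk_surjective]
  rw [hmap]
  rcases Ideal.map_eq_top_or_isMaximal_of_surjective (Ideal.Quotient.mk (Ideal.span {w}))
    Ideal.Quotient.mk_surjective hmax with h | h
  · exfalso
    rw [← hmap] at h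
    have : Ideal.span {w, p} = ⊤ := by
      rw [← hcomap, h, Ideal.comap_top]
    exact hmax.ne_top this
  · exact h.isPrime

theorem b2Regular_of_pieces
    (hcore : B2CoreAbsStatement.{u, v}) (hA0 : RegSeqAbsStatement.{u, v})
    (hA8 : IntClosedOfDiscrStatement.{u, v}) (hA9 : RegularAlongOfDedekindStatement.{v})
    (hA1 : PolyInstStatement.{u}) : B2RegularStatement.{u, v} := by
  intro R _ _ _ _ w hw B _ _ _ _ _ _ hdom hsep S hS hNC 𝔪 h𝔪 hw𝔪
  obtain ⟨hCw, hΛ, hΛ₀, hℚ, hc⟩ := hA1 R w hw
  refine hA9 B (algebraMap R[X] B (C w)) ?_ 𝔪 h𝔪 hw𝔪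
  have hJ : (Ideal.span {(C w : R[X])}).map (algebraMap R[X] B)
      = Ideal.span {algebraMap R[X] B (C w)} := by
    rw [Ideal.map_span, Set.image_singleton]
  rw [← hJ]
  -- instances on the special fibre
  haveI hJprime : ((Ideal.span {(C w : R[X])}).map (algebraMap R[X] B)).IsPrime := by
    rw [hJ]; exact (Ideal.span_singleton_prime hdom.ne_zero).mpr hdom
  haveI := hΛ
  haveI : IsDomain (R[X] ⧸ Ideal.span {(C w : R[X])}) := by
    rw [Ideal.Quotient.isDomain_iff_prime]
    exact (Ideal.span_singleton_prime hCw.ne_zero).mpr hCw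
  haveI tf := isTorsionFree_quotient (B := B) hA0 (C w : R[X]) hCw
  haveI : Module.Finite (R[X] ⧸ Ideal.span {(C w : R[X])})
      (B ⧸ (Ideal.span {(C w : R[X])}).map (algebraMap R[X] B)) :=
    Module.Finite.of_restrictScalars_finite R[X] _ _
  haveI : Module.Free (R[X] ⧸ Ideal.span {(C w : R[X])})
      (B ⧸ (Ideal.span {(C w : R[X])}).map (algebraMap R[X] B)) :=
    Module.free_of_finite_type_torsion_free'
  let bb := Module.finBasis (R[X] ⧸ Ideal.span {(C w : R[X])})
      (B ⧸ (Ideal.span {(C w : R[X])}).map (algebraMap R[X] B))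
  -- translate the hypotheses
  classical
  have hS1' : ∀ s ∈ S.image (fun c => (X - C c : R[X])), Prime s ∧ ¬ Associated s (C w) ∧
      (Ideal.span {(C w : R[X]), s}).IsMaximal ∧
      IsPrincipalIdealRing (R[X] ⧸ Ideal.span {s}) := by
    intro s hs
    obtain ⟨c, -, rfl⟩ := Finset.mem_image.mp hs
    obtain ⟨h1, h2, h3, h4, -⟩ := hc c
    exact ⟨h1, h2, h3, h4⟩
  have hS2' : ∀ s ∈ S.image (fun c => (X - C c : R[X])),
      ∀ s' ∈ S.image (fun c => (X - C c : R[X])), s ≠ s' →
      s' ∉ Ideal.span {(C w : R[X]), s} := by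
    intro s hs s' hs' hne hmem
    obtain ⟨c, hcS, rfl⟩ := Finset.mem_image.mp hs
    obtain ⟨c', hcS', rfl⟩ := Finset.mem_image.mp hs'
    have hcc : c ≠ c' := fun h => hne (by rw [h])
    exact (hc c).2.2.2.2 c' hmem (hS c hcS c' hcS' hcc)
  have hNC' : ∀ π : R[X], Prime π → ¬ Associated π (C w) →
      (∀ s ∈ S.image (fun c => (X - C c : R[X])), ¬ Associated π s) →
      (Ideal.span {algebraMap R[X] B π}).IsRadical := by
    intro π hπ hπw hπS
    exact hNC π hπ hπw (fun c hcS => hπS _ (Finset.mem_image_of_mem _ hcS))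
  have hcore' := hcore R[X] (C w) hCw hΛ hΛ₀ hℚ B hsep (S.image (fun c => (X - C c : R[X])))
    hS1' hS2' hNC'
  -- a prime of `Λ`
  obtain ⟨h01, h02, h03, -, -⟩ := hc 0
  have hw0 : ¬ (C w : R[X]) ∣ X - C 0 := by
    intro hdvd
    obtain ⟨r, hr⟩ := hdvd
    rcases h01.irreducible.isUnit_or_isUnit hr with h | h
    · exact hCw.not_unit h
    · exact h02 ⟨h.unit⁻¹, by rw [hr, mul_assoc, IsUnit.mul_val_inv, mul_one]⟩
  have ht₀ := prime_mk_of_isMaximal (C w : R[X]) (X - C 0) hCw h03 hw0
  have hdisc := (hcore' _ ht₀ _ bb).1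
  haveI : IsIntegrallyClosed (B ⧸ (Ideal.span {(C w : R[X])}).map (algebraMap R[X] B)) :=
    hA8 _ _ _ bb hdisc (fun t ht => (hcore' t ht _ bb).2)
  haveI : IsNoetherianRing B :=
    isNoetherian_of_tower R[X] (isNoetherian_of_isNoetherianRing_of_finite R[X] B)
  haveI : Ring.DimensionLEOne (B ⧸ (Ideal.span {(C w : R[X])}).map (algebraMap R[X] B)) :=
    Ring.DimensionLEOne.of_isIntegral (R[X] ⧸ Ideal.span {(C w : R[X])}) _
  exact { }

end Fermat.Agent.S18.B12.H33

end
end
-- ===== PACK-END S18/B12/H33/Regular.lean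

-- ===== PACK-BEGIN Lib/RR/Adeles.lean
section




/-!
# RR library, layer L4: repartitions and `H¹(D)`  (Stichtenoth 1.5.4)

Integration file (helper320).  `mem_repartitions_iff` is proved in `H653/` (helper653), the core
of `finite_H1` / `ell_sub_finrank_H1` in `H742/` (helper742).

`𝔸 = repartitions K F`, `𝔸(D) = repartitionsOf D`, `H¹(D) = 𝔸 / (𝔸(D) + F)`.

Proof sketch.  (1) One step: `𝔸(D + P) = 𝔸(D) + K α₀` for any `α₀ ∈ 𝔸(D + P) \ 𝔸(D)`, and
`𝔸(D + P) ⊆ 𝔸(D) + F` iff `ℓ(D + P) = ℓ(D) + 1`.  Hence the surjection `H¹(D) → H¹(D + P)` has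
kernel of dimension `1 - (ℓ(D + P) - ℓ(D))`.  (2) If `ℓ(D) = deg D + 1 - g` then
`𝔸 = 𝔸(D) + F`, i.e. `H¹(D) = 0`.  (3) Descend from a divisor attaining the bound.
-/

set_option autoImplicit false

noncomputable section

open AlgebraicCurve

namespace Fermat.Agent.Lib.RR

variable {K F : Type*} [Field K] [Field F] [Algebra K F]

/-- **L4.0**: the repartitions are exactly the families with finitely many poles. -/
theorem mem_repartitions_iff [HasPrincipalDivisors K F] {α : Place K F → F} :
    α ∈ repartitions K F ↔ {v : Place K F | v.ord (α v) < 0}.Finite :=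
  H653.mem_repartitions_iff

/-- **L4.1**: `H¹(D)` is finite-dimensional. -/
theorem finite_H1 [FF1 K F] (D : Divisor K F) : Module.Finite K (H1 D) := by
  obtain ⟨D₀, h₀⟩ := exists_ell_eq (K := K) (F := F)
  exact (H742.H1_core (genusR K F : ℤ) (fun D' => riemann_inequality D') h₀ D).1

/-- **L4.2**: Riemann–Roch, first form. -/
theorem ell_sub_finrank_H1 [FF1 K F] (D : Divisor K F) :
    (ell D : ℤ) - Module.finrank K (H1 D) = Divisor.degree D + 1 - (genusR K F : ℤ) := by
  obtain ⟨D₀, h₀⟩ := exists_ell_eq (K := K) (F := F)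
  exact (H742.H1_core (genusR K F : ℤ) (fun D' => riemann_inequality D') h₀ D).2

/-- The Prelude's genus `genusFF = dim H¹(0)` is the genus of Riemann's theorem. -/
theorem genusFF_eq_genusR [FF1 K F] : genusFF K F = genusR K F := by
  have h := ell_sub_finrank_H1 (0 : Divisor K F)
  rw [ell_zero, map_zero] at h
  have : (Module.finrank K (H1 (0 : Divisor K F)) : ℤ) = genusR K F := by
    push_cast at h; omega
  unfold genusFF
  exact_mod_cast this

/-- **Riemann–Roch, first form**, with the Prelude's genus. -/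
theorem riemann_roch_H1 [FF1 K F] (D : Divisor K F) :
    (ell D : ℤ) - Module.finrank K (H1 D) = Divisor.degree D + 1 - (genusFF K F : ℤ) := by
  rw [genusFF_eq_genusR]; exact ell_sub_finrank_H1 D

/-- **Riemann's inequality** with the Prelude's genus. -/
theorem riemann_inequality_genusFF [FF1 K F] (D : Divisor K F) :
    Divisor.degree D + 1 - (genusFF K F : ℤ) ≤ ell D := by
  rw [genusFF_eq_genusR]; exact riemann_inequality D

end Fermat.Agent.Lib.RR

end
end
-- ===== PACK-END Lib/RR/Adeles.lean

-- ===== PACK-BEGIN S17/H680/Descent.lean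
section



/-!
# S17 / P2 (helper680): minimal representatives of divisor classes, Galois descent

Let `F / K` be a function field all of whose places have degree one (`FF1 K F`) and let `vinf` be a
place.  Every class `x ∈ Pic⁰(F)` has a unique *minimal representative*: the least `m` with
`ℓ(x + m vinf) ≥ 1` (then `ℓ = 1` and `m ≤ g`), and the unique effective divisor `E` of degree `m`
with `x = [E - m vinf]`; moreover `E(vinf) = 0`.

The construction is equivariant for every semilinear automorphism fixing `vinf`; hence a class fixed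
by a group `Γ` of such automorphisms is represented by the `Γ`-invariant divisor `E - m vinf`.
-/

set_option autoImplicit false

noncomputable section

open AlgebraicCurve

namespace Fermat.Agent.S17.H680

open Fermat.Agent.Lib.RR

variable {K F : Type*} [Field K] [Field F] [Algebra K F]

/-! ### Generalities on divisors -/

section Generalities

variable [FF1 K F]

theorem apply_le_degree {E : Divisor K F} (h0 : 0 ≤ E) (v : Place K F) :
    E v ≤ Divisor.degree E := by
  classical
  have hge : E v • prim v ≤ E := by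
    rw [Finsupp.le_def]
    intro w
    by_cases hw : w = v
    · subst hw
      simp [prim]
    · have : (0 : ℤ) ≤ E w := by simpa using Finsupp.le_def.mp h0 w
      simpa [prim, Finsupp.single_apply, Ne.symm hw] using this
  have := degree_mono hge
  rw [map_zsmul, degree_prim v (deg_eq_one v)] at this
  simpa using this

theorem eq_zero_of_nonneg_of_degree_eq_zero {E : Divisor K F} (h0 : 0 ≤ E)
    (hd : Divisor.degree E = 0) : E = 0 := by
  ext v
  have h1 := apply_le_degree h0 v
  have h2 : (0 : ℤ) ≤ E v := by simpa using Finsupp.le_def.mp h0 v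
  rw [hd] at h1
  simpa using le_antisymm h1 h2

theorem divOf_mul (f g : F) (hf : f ≠ 0) (hg : g ≠ 0) :
    divOf (K := K) (f * g) (mul_ne_zero hf hg) = divOf f hf + divOf g hg := by
  ext v
  simp [divOf_apply, v.ord_mul hf hg]

theorem divOf_inv (f : F) (hf : f ≠ 0) :
    divOf (K := K) f⁻¹ (inv_ne_zero hf) = -divOf f hf := by
  ext v
  simp [divOf_apply, v.ord_inv]

theorem divOf_algebraMap (c : K) (hc : algebraMap K F c ≠ 0) :
    divOf (K := K) (algebraMap K F c) hc = 0 := by
  ext v
  simp [divOf_apply, ord_algebraMap]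

theorem divOf_congr {f g : F} (hf : f ≠ 0) (h : f = g) :
    divOf (K := K) f hf = divOf g (h ▸ hf) := by
  subst h; rfl

theorem divOf_smul (c : K) (hc : c ≠ 0) (f : F) (hf : f ≠ 0) (h : c • f ≠ 0) :
    divOf (K := K) (c • f) h = divOf f hf := by
  ext v
  have hc' : algebraMap K F c ≠ 0 := by
    simpa using hc
  rw [divOf_apply, divOf_apply, Algebra.smul_def, v.ord_mul hc' hf, ord_algebraMap, zero_add]

theorem mem_L_iff_nonneg {D : Divisor K F} {f : F} (hf : f ≠ 0) :
    f ∈ riemannRochSpace D ↔ 0 ≤ D + divOf f hf := by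
  rw [mem_L_iff, Finsupp.le_def]
  constructor
  · intro h v
    have := (h v).resolve_left hf
    simp only [Finsupp.coe_zero, Pi.zero_apply, Finsupp.coe_add, Pi.add_apply, divOf_apply]
    omega
  · intro h v
    right
    have := h v
    simp only [Finsupp.coe_zero, Pi.zero_apply, Finsupp.coe_add, Pi.add_apply,
      divOf_apply] at this
    omega

omit [FF1 K F] in
theorem add_nsmul_prim_apply (D : Divisor K F) (m : ℕ) (v w : Place K F) :
    (D + m • prim v) w = D w + m * prim v w := by
  simp [Finsupp.add_apply, Finsupp.smul_apply]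

theorem isPrincipal_iff {D : Divisor K F} :
    D ∈ Divisor.principal (K := K) (F := F) ↔ ∃ (h : F) (hh : h ≠ 0), D = divOf h hh := by
  rw [Divisor.mem_principal]
  constructor
  · rintro ⟨h, hh, hD⟩
    refine ⟨h, hh, ?_⟩
    ext v
    rw [hD v, divOf_apply]
  · rintro ⟨h, hh, rfl⟩
    exact ⟨h, hh, fun v => divOf_apply h hh v⟩

/-- In a one-dimensional `L(D)`, any two nonzero elements have the same divisor. -/
theorem divOf_eq_of_ell_eq_one {D : Divisor K F} (h1 : ell D = 1) {f f' : F} (hf : f ≠ 0)
    (hf' : f' ≠ 0) (hfL : f ∈ riemannRochSpace D) (hfL' : f' ∈ riemannRochSpace D) :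
    divOf (K := K) f hf = divOf f' hf' := by
  have hfin : Module.finrank K (riemannRochSpace D) = 1 := h1
  have hne : (⟨f, hfL⟩ : riemannRochSpace D) ≠ 0 := fun h => hf (congrArg Subtype.val h)
  obtain ⟨c, hc⟩ := (finrank_eq_one_iff_of_nonzero' ⟨f, hfL⟩ hne).mp hfin ⟨f', hfL'⟩
  have hc' : c • f = f' := congrArg Subtype.val hc
  have hc0 : c ≠ 0 := by
    rintro rfl
    rw [zero_smul] at hc'
    exact hf' hc'.symm
  have hcf : c • f ≠ 0 := by rw [hc']; exact hf'
  rw [← divOf_smul c hc0 f hf hcf]
  exact divOf_congr hcf hc'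

end Generalities

/-! ### Minimal representatives, on the level of divisors -/

section MinRepD

variable [FF1 K F] (vinf : Place K F)

theorem exists_one_le_ell (D : Divisor K F) : ∃ m : ℕ, 1 ≤ ell (D + m • prim vinf) := by
  refine ⟨(genusR K F - Divisor.degree D).toNat, ?_⟩
  have h := riemann_inequality (D + (genusR K F - Divisor.degree D).toNat • prim vinf)
  rw [map_add, map_nsmul, degree_prim vinf (deg_eq_one vinf), nsmul_eq_mul, mul_one] at h
  have h2 : (genusR K F : ℤ) - Divisor.degree D ≤ ((genusR K F - Divisor.degree D).toNat : ℤ) :=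
    Int.self_le_toNat _
  have h3 : (1 : ℤ) ≤ ell (D + (genusR K F - Divisor.degree D).toNat • prim vinf) := by omega
  exact_mod_cast h3

open Classical in
/-- The least `m` with `ℓ(D + m vinf) ≥ 1`. -/
def minDegD (D : Divisor K F) : ℕ := Nat.find (exists_one_le_ell vinf D)

theorem one_le_ell_minDegD (D : Divisor K F) : 1 ≤ ell (D + minDegD vinf D • prim vinf) := by
  classical
  exact Nat.find_spec (exists_one_le_ell vinf D)

theorem minDegD_le {D : Divisor K F} {m : ℕ} (h : 1 ≤ ell (D + m • prim vinf)) :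
    minDegD vinf D ≤ m := by
  classical
  exact Nat.find_min' (exists_one_le_ell vinf D) h

theorem ell_eq_zero_of_lt_minDegD {D : Divisor K F} {m : ℕ} (h : m < minDegD vinf D) :
    ell (D + m • prim vinf) = 0 := by
  classical
  have := Nat.find_min (exists_one_le_ell vinf D) h
  omega

theorem minDegD_le_genus {D : Divisor K F} (hD : Divisor.degree D = 0) :
    minDegD vinf D ≤ genusR K F := by
  apply minDegD_le
  have h := riemann_inequality (D + genusR K F • prim vinf)
  rw [map_add, map_nsmul, degree_prim vinf (deg_eq_one vinf), nsmul_eq_mul, mul_one, hD] at h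
  have h3 : (1 : ℤ) ≤ ell (D + genusR K F • prim vinf) := by omega
  exact_mod_cast h3

theorem ell_minDegD {D : Divisor K F} (hD : Divisor.degree D ≤ 0) :
    ell (D + minDegD vinf D • prim vinf) = 1 := by
  refine le_antisymm ?_ (one_le_ell_minDegD vinf D)
  rcases Nat.eq_zero_or_pos (minDegD vinf D) with h0 | hpos
  · rw [h0, zero_smul, add_zero]
    have h1 := one_le_ell_minDegD vinf D
    rw [h0, zero_smul, add_zero] at h1
    have h2 := ell_le_toNat D
    have h3 : (Divisor.degree D + 1).toNat ≤ 1 := by omega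
    omega
  · have hlt : minDegD vinf D - 1 < minDegD vinf D := by omega
    have h1 := ell_eq_zero_of_lt_minDegD vinf hlt
    have h2 := ell_add_prim_le (D + (minDegD vinf D - 1) • prim vinf) vinf
    have h3 : D + (minDegD vinf D - 1) • prim vinf + prim vinf = D + minDegD vinf D • prim vinf := by
      rw [add_assoc, ← succ_nsmul]
      congr 2
      omega
    rw [h3, h1] at h2
    exact h2

theorem exists_minFun (D : Divisor K F) :
    ∃ f : F, f ≠ 0 ∧ f ∈ riemannRochSpace (D + minDegD vinf D • prim vinf) := by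
  have h := one_le_ell_minDegD vinf D
  have hpos : 0 < Module.finrank K (riemannRochSpace (D + minDegD vinf D • prim vinf)) := h
  obtain ⟨⟨f, hfL⟩, hf⟩ := Module.finrank_pos_iff_exists_ne_zero.mp hpos
  exact ⟨f, fun h => hf (Subtype.ext h), hfL⟩

/-- A nonzero function in `L(D + m vinf)`, `m` minimal. -/
def minFun (D : Divisor K F) : F := (exists_minFun vinf D).choose

theorem minFun_ne_zero (D : Divisor K F) : minFun vinf D ≠ 0 := (exists_minFun vinf D).choose_spec.1

theorem minFun_mem (D : Divisor K F) :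
    minFun vinf D ∈ riemannRochSpace (D + minDegD vinf D • prim vinf) :=
  (exists_minFun vinf D).choose_spec.2

/-- The minimal effective representative of the class of `D + m vinf`. -/
def minRepD (D : Divisor K F) : Divisor K F :=
  D + minDegD vinf D • prim vinf + divOf (minFun vinf D) (minFun_ne_zero vinf D)

theorem minRepD_apply (D : Divisor K F) (w : Place K F) :
    minRepD vinf D w = D w + minDegD vinf D * prim vinf w + w.ord (minFun vinf D) := by
  rw [minRepD, Finsupp.add_apply, add_nsmul_prim_apply, divOf_apply]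

theorem minRepD_nonneg (D : Divisor K F) : 0 ≤ minRepD vinf D :=
  (mem_L_iff_nonneg (minFun_ne_zero vinf D)).mp (minFun_mem vinf D)

theorem degree_minRepD (D : Divisor K F) :
    Divisor.degree (minRepD vinf D) = Divisor.degree D + minDegD vinf D := by
  rw [minRepD, map_add, map_add, degree_divOf, map_nsmul, degree_prim vinf (deg_eq_one vinf)]
  simp

theorem minRepD_eq {D : Divisor K F} (hD : Divisor.degree D ≤ 0) {f : F} (hf : f ≠ 0)
    (hfL : f ∈ riemannRochSpace (D + minDegD vinf D • prim vinf)) :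
    minRepD vinf D = D + minDegD vinf D • prim vinf + divOf f hf := by
  rw [minRepD, divOf_eq_of_ell_eq_one (ell_minDegD vinf hD) (minFun_ne_zero vinf D) hf
    (minFun_mem vinf D) hfL]

/-- The minimal representative does not contain `vinf`. -/
theorem minRepD_apply_infty {D : Divisor K F} (hD : Divisor.degree D = 0) :
    minRepD vinf D vinf = 0 := by
  rcases Nat.eq_zero_or_pos (minDegD vinf D) with h0 | hpos
  · have hdeg := degree_minRepD vinf D
    rw [h0, hD] at hdeg
    rw [eq_zero_of_nonneg_of_degree_eq_zero (minRepD_nonneg vinf D) (by simpa using hdeg)]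
    rfl
  · by_contra hne
    have hnn : (0 : ℤ) ≤ minRepD vinf D vinf := by
      simpa using Finsupp.le_def.mp (minRepD_nonneg vinf D) vinf
    have h1 : (1 : ℤ) ≤ minRepD vinf D vinf := by omega
    -- then `minFun ∈ L(D + (m - 1) vinf)`
    have hlt : minDegD vinf D - 1 < minDegD vinf D := by omega
    have hz := ell_eq_zero_of_lt_minDegD vinf hlt
    have hmem : minFun vinf D ∈ riemannRochSpace (D + (minDegD vinf D - 1) • prim vinf) := by
      rw [mem_L_iff_nonneg (minFun_ne_zero vinf D), Finsupp.le_def]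
      intro w
      have hw : (0 : ℤ) ≤ minRepD vinf D w := by
        simpa using Finsupp.le_def.mp (minRepD_nonneg vinf D) w
      have hcast : ((minDegD vinf D - 1 : ℕ) : ℤ) = (minDegD vinf D : ℤ) - 1 := by
        rw [Nat.cast_sub (by omega)]; simp
      rw [minRepD_apply] at hw h1
      rw [Finsupp.coe_zero, Pi.zero_apply, Finsupp.add_apply, add_nsmul_prim_apply, divOf_apply,
        hcast]
      by_cases hwv : w = vinf
      · subst hwv
        rw [prim_apply_self] at h1 ⊢
        linarith
      · rw [prim_apply_of_ne hwv] at hw ⊢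
        linarith
    have hpos' : 0 < Module.finrank K (riemannRochSpace (D + (minDegD vinf D - 1) • prim vinf)) :=
      Module.finrank_pos_iff_exists_ne_zero.mpr
        ⟨⟨_, hmem⟩, fun h => minFun_ne_zero vinf D (congrArg Subtype.val h)⟩
    have : ell (D + (minDegD vinf D - 1) • prim vinf) = 0 := hz
    unfold ell at this
    omega

/-- Linearly equivalent divisors have the same minimal degree. -/
theorem minDegD_add_divOf (D : Divisor K F) (h : F) (hh : h ≠ 0) :
    minDegD vinf (D + divOf h hh) = minDegD vinf D := by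
  have key : ∀ m : ℕ, ell (D + divOf h hh + m • prim vinf) = ell (D + m • prim vinf) := by
    intro m
    rw [add_right_comm, ell_add_divOf]
  apply le_antisymm
  · apply minDegD_le
    rw [key]
    exact one_le_ell_minDegD vinf D
  · apply minDegD_le
    rw [← key]
    exact one_le_ell_minDegD vinf (D + divOf h hh)

/-- Linearly equivalent divisors (of degree `0`) have the same minimal representative. -/
theorem minRepD_add_divOf {D : Divisor K F} (hD : Divisor.degree D ≤ 0) (h : F) (hh : h ≠ 0) :
    minRepD vinf (D + divOf h hh) = minRepD vinf D := by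
  have hm := minDegD_add_divOf vinf D h hh
  set f := minFun vinf (D + divOf h hh) with hf_def
  have hf0 : f ≠ 0 := minFun_ne_zero vinf _
  have hfL := minFun_mem vinf (D + divOf h hh)
  have hhf : h * f ≠ 0 := mul_ne_zero hh hf0
  have hmem : h * f ∈ riemannRochSpace (D + minDegD vinf D • prim vinf) := by
    rw [mem_L_iff_nonneg hhf, divOf_mul h f hh hf0]
    rw [mem_L_iff_nonneg hf0, hm] at hfL
    have : D + divOf h hh + minDegD vinf D • prim vinf + divOf f hf0
        = D + minDegD vinf D • prim vinf + (divOf h hh + divOf f hf0) := by abel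
    rwa [this] at hfL
  rw [minRepD_eq vinf hD hhf hmem, minRepD, hm, divOf_mul h f hh hf0]
  abel

end MinRepD

/-! ### Semilinear automorphisms -/

section Semilinear

variable [FF1 K F] (g : SemilinearAut K F)

omit [FF1 K F] in
theorem smul_ne_zero {f : F} (hf : f ≠ 0) : g • f ≠ 0 := by
  rw [SemilinearAut.smul_def]
  exact (map_ne_zero_iff _ (SemilinearAut.toRingAut g).injective).mpr hf

theorem smul_divOf (f : F) (hf : f ≠ 0) :
    g • divOf (K := K) f hf = divOf (g • f) (smul_ne_zero g hf) := by
  ext w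
  rw [SemilinearAut.divisor_smul_apply, divOf_apply, divOf_apply]
  have h := SemilinearAut.ord_smul g (g⁻¹ • w) f
  rw [smul_inv_smul] at h
  exact h.symm

omit [FF1 K F] in
theorem smul_prim (v : Place K F) : g • prim v = prim (g • v) := by
  rw [prim, prim, SemilinearAut.smul_single]

omit [FF1 K F] in
theorem smul_nonneg {D : Divisor K F} (h : 0 ≤ D) : 0 ≤ g • D := by
  rw [Finsupp.le_def] at h ⊢
  intro w
  rw [SemilinearAut.divisor_smul_apply]
  simpa using h (g⁻¹ • w)

theorem smul_mem_L {D : Divisor K F} {f : F} (hf : f ∈ riemannRochSpace D) :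
    g • f ∈ riemannRochSpace (g • D) := by
  rcases eq_or_ne f 0 with rfl | hf0
  · rw [smul_zero]; exact Submodule.zero_mem _
  · rw [mem_L_iff_nonneg (smul_ne_zero g hf0), ← smul_divOf g f hf0, ← smul_add]
    exact _root_.Fermat.Agent.S17.H680.smul_nonneg g ((mem_L_iff_nonneg hf0).mp hf)

theorem smul_mem_L_iff {D : Divisor K F} {f : F} :
    g • f ∈ riemannRochSpace (g • D) ↔ f ∈ riemannRochSpace D := by
  refine ⟨fun h => ?_, smul_mem_L g⟩
  have := smul_mem_L g⁻¹ h
  rwa [inv_smul_smul, inv_smul_smul] at this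

/-- The semilinear bijection `L(D) ≃ L(g D)`. -/
def smulL (D : Divisor K F) : riemannRochSpace D ≃+ riemannRochSpace (g • D) where
  toFun f := ⟨g • (f : F), smul_mem_L g f.2⟩
  invFun f := ⟨g⁻¹ • (f : F), by
    have := smul_mem_L g⁻¹ f.2
    rwa [inv_smul_smul] at this⟩
  left_inv f := Subtype.ext (inv_smul_smul g (f : F))
  right_inv f := Subtype.ext (smul_inv_smul g (f : F))
  map_add' f f' := Subtype.ext (smul_add g (f : F) (f' : F))

theorem ell_smul (D : Divisor K F) : ell (g • D) = ell D := by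
  have h := rank_eq_of_equiv_equiv (R := K) (R' := K) (SemilinearAut.baseAut g) (smulL g D)
    (SemilinearAut.baseAut g).bijective (fun c f => by
      apply Subtype.ext
      show g • (c • (f : F)) = SemilinearAut.baseAut g c • (g • (f : F))
      rw [Algebra.smul_def, Algebra.smul_def, smul_mul', SemilinearAut.smul_algebraMap])
  unfold ell Module.finrank
  rw [h]

variable {vinf : Place K F} (hg : g • vinf = vinf)

include hg in
theorem minDegD_smul (D : Divisor K F) : minDegD vinf (g • D) = minDegD vinf D := by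
  have key : ∀ m : ℕ, ell (g • D + m • prim vinf) = ell (D + m • prim vinf) := by
    intro m
    rw [← ell_smul g (D + m • prim vinf), smul_add, smul_comm g m (prim vinf), smul_prim, hg]
  apply le_antisymm
  · apply minDegD_le
    rw [key]
    exact one_le_ell_minDegD vinf D
  · apply minDegD_le
    rw [← key]
    exact one_le_ell_minDegD vinf (g • D)

include hg in
/-- The minimal representative is equivariant. -/
theorem minRepD_smul {D : Divisor K F} (hD : Divisor.degree D ≤ 0) :
    minRepD vinf (g • D) = g • minRepD vinf D := by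
  have hm := minDegD_smul g hg D
  have hD' : Divisor.degree (g • D) ≤ 0 := by rwa [SemilinearAut.degree_smul]
  have hf0 := minFun_ne_zero vinf D
  have hmem : g • minFun vinf D ∈ riemannRochSpace (g • D + minDegD vinf (g • D) • prim vinf) := by
    have := smul_mem_L g (minFun_mem vinf D)
    rwa [smul_add, smul_comm g (minDegD vinf D) (prim vinf), smul_prim, hg, ← hm] at this
  rw [minRepD_eq vinf hD' (smul_ne_zero g hf0) hmem, minRepD, smul_add, smul_add,
    smul_comm g (minDegD vinf D) (prim vinf), smul_prim, hg, smul_divOf, hm]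

end Semilinear

/-! ### Minimal representatives of classes in `Pic⁰` -/

section Pic0

variable [FF1 K F] (vinf : Place K F)

omit [FF1 K F] in
theorem mk_eq_mk_iff {D D' : Divisor.degZero (K := K) (F := F)} :
    Pic0.mk D = Pic0.mk D' ↔ (D' : Divisor K F) - D ∈ Divisor.principal (K := K) (F := F) := by
  unfold Pic0.mk
  rw [QuotientAddGroup.eq, AddSubgroup.mem_addSubgroupOf]
  have : ((-D + D' : Divisor.degZero (K := K) (F := F)) : Divisor K F)
      = (D' : Divisor K F) - D := by
    rw [AddSubgroup.coe_add, AddSubgroup.coe_neg]; abel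
  rw [this]

theorem mk_eq_mk_iff' {D D' : Divisor.degZero (K := K) (F := F)} :
    Pic0.mk D = Pic0.mk D' ↔
      ∃ (h : F) (hh : h ≠ 0), (D' : Divisor K F) = (D : Divisor K F) + divOf h hh := by
  rw [mk_eq_mk_iff, isPrincipal_iff]
  constructor
  · rintro ⟨h, hh, e⟩
    exact ⟨h, hh, by rw [← e]; abel⟩
  · rintro ⟨h, hh, e⟩
    exact ⟨h, hh, by rw [e]; abel⟩

/-- A chosen representative of a class. -/
def repD (x : Pic0 K F) : Divisor.degZero (K := K) (F := F) := (Pic0.mk_surjective x).choose

omit [FF1 K F] in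
theorem mk_repD (x : Pic0 K F) : Pic0.mk (repD x) = x := (Pic0.mk_surjective x).choose_spec

omit [FF1 K F] in
theorem degree_coe (D : Divisor.degZero (K := K) (F := F)) :
    Divisor.degree (D : Divisor K F) = 0 := D.2

/-- The least `m` such that `x + m v∞` contains an effective divisor. -/
def minDeg (x : Pic0 K F) : ℕ := minDegD vinf (repD x : Divisor K F)

/-- The effective divisor `E` of degree `minDeg x` with `x = [E - m v∞]`. -/
def minRep (x : Pic0 K F) : Divisor K F := minRepD vinf (repD x : Divisor K F)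

theorem minDeg_mk (D : Divisor.degZero (K := K) (F := F)) :
    minDeg vinf (Pic0.mk D) = minDegD vinf (D : Divisor K F) := by
  obtain ⟨h, hh, e⟩ := mk_eq_mk_iff'.mp (mk_repD (Pic0.mk D)).symm
  rw [minDeg, e, minDegD_add_divOf]

theorem minRep_mk (D : Divisor.degZero (K := K) (F := F)) :
    minRep vinf (Pic0.mk D) = minRepD vinf (D : Divisor K F) := by
  obtain ⟨h, hh, e⟩ := mk_eq_mk_iff'.mp (mk_repD (Pic0.mk D)).symm
  rw [minRep, e, minRepD_add_divOf vinf (le_of_eq (degree_coe D))]

theorem minRep_nonneg (x : Pic0 K F) : 0 ≤ minRep vinf x := minRepD_nonneg vinf _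

theorem degree_minRep (x : Pic0 K F) : Divisor.degree (minRep vinf x) = minDeg vinf x := by
  rw [minRep, degree_minRepD, degree_coe, zero_add, minDeg]

theorem minRep_apply_infty (x : Pic0 K F) : minRep vinf x vinf = 0 :=
  minRepD_apply_infty vinf (degree_coe _)

theorem minDeg_le_genus (x : Pic0 K F) : minDeg vinf x ≤ genusR K F :=
  minDegD_le_genus vinf (degree_coe _)

theorem ell_minRep (x : Pic0 K F) : ell (minRep vinf x) = 1 := by
  rw [minRep, minRepD, ell_add_divOf]
  exact ell_minDegD vinf (le_of_eq (degree_coe _))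

theorem degree_minRep_sub (x : Pic0 K F) :
    Divisor.degree (minRep vinf x - minDeg vinf x • prim vinf) = 0 := by
  rw [map_sub, degree_minRep, map_nsmul, degree_prim vinf (deg_eq_one vinf)]
  simp

/-- The divisor `E - m v∞` of degree zero representing `x`. -/
def minDiv (x : Pic0 K F) : Divisor.degZero (K := K) (F := F) :=
  ⟨minRep vinf x - minDeg vinf x • prim vinf, degree_minRep_sub vinf x⟩

theorem coe_minDiv (x : Pic0 K F) :
    (minDiv vinf x : Divisor K F) = minRep vinf x - minDeg vinf x • prim vinf := rfl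

/-- `x = [E - m v∞]`. -/
theorem mk_minDiv (x : Pic0 K F) : Pic0.mk (minDiv vinf x) = x := by
  conv_rhs => rw [← mk_repD x]
  rw [eq_comm, mk_eq_mk_iff']
  refine ⟨minFun vinf (repD x : Divisor K F), minFun_ne_zero vinf _, ?_⟩
  rw [coe_minDiv, minRep, minRepD, minDeg]
  abel

/-- Uniqueness: an effective divisor `E` of degree `minDeg x` with `x = [E - m v∞]` is the
minimal representative. -/
theorem eq_minRep {x : Pic0 K F} {E : Divisor K F} (hE : 0 ≤ E)
    (hdeg : Divisor.degree (E - minDeg vinf x • prim vinf) = 0)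
    (hx : Pic0.mk ⟨E - minDeg vinf x • prim vinf, hdeg⟩ = x) : E = minRep vinf x := by
  have h1 : Pic0.mk (repD x) = Pic0.mk ⟨E - minDeg vinf x • prim vinf, hdeg⟩ := by
    rw [mk_repD, hx]
  obtain ⟨h, hh, e⟩ := mk_eq_mk_iff'.mp h1
  have e' : E = (repD x : Divisor K F) + minDeg vinf x • prim vinf + divOf h hh := by
    have : E - minDeg vinf x • prim vinf = (repD x : Divisor K F) + divOf h hh := e
    rw [sub_eq_iff_eq_add] at this
    rw [this]; abel
  have hmem : h ∈ riemannRochSpace ((repD x : Divisor K F) + minDeg vinf x • prim vinf) := by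
    rw [mem_L_iff_nonneg hh, ← e']
    exact hE
  rw [minRep, minRepD_eq vinf (le_of_eq (degree_coe _)) hh hmem, e']
  rfl

/-- Any effective divisor `E` of degree `m` with `x = [E - m v∞]` has `m ≥ minDeg x`. -/
theorem minDeg_le_of_rep {x : Pic0 K F} {E : Divisor K F} {m : ℕ} (hE : 0 ≤ E)
    (hdeg : Divisor.degree (E - m • prim vinf) = 0)
    (hx : Pic0.mk ⟨E - m • prim vinf, hdeg⟩ = x) : minDeg vinf x ≤ m := by
  have h1 : Pic0.mk (repD x) = Pic0.mk ⟨E - m • prim vinf, hdeg⟩ := by
    rw [mk_repD, hx]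
  obtain ⟨h, hh, e⟩ := mk_eq_mk_iff'.mp h1
  have e' : E = (repD x : Divisor K F) + m • prim vinf + divOf h hh := by
    have : E - m • prim vinf = (repD x : Divisor K F) + divOf h hh := e
    rw [sub_eq_iff_eq_add] at this
    rw [this]; abel
  have hmem : h ∈ riemannRochSpace ((repD x : Divisor K F) + m • prim vinf) := by
    rw [mem_L_iff_nonneg hh, ← e']
    exact hE
  apply minDegD_le
  have hpos : 0 < Module.finrank K (riemannRochSpace ((repD x : Divisor K F) + m • prim vinf)) :=
    Module.finrank_pos_iff_exists_ne_zero.mpr ⟨⟨h, hmem⟩, fun h0 => hh (congrArg Subtype.val h0)⟩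
  exact hpos

/-! ### Equivariance and descent -/

variable {vinf}

theorem minDeg_smul (g : SemilinearAut K F) (hg : g • vinf = vinf) (x : Pic0 K F) :
    minDeg vinf (g • x) = minDeg vinf x := by
  obtain ⟨D, rfl⟩ := Pic0.mk_surjective x
  rw [SemilinearAut.pic0_smul_mk, minDeg_mk, minDeg_mk, SemilinearAut.coe_degZeroSMulHom,
    minDegD_smul g hg]

theorem minRep_smul (g : SemilinearAut K F) (hg : g • vinf = vinf) (x : Pic0 K F) :
    minRep vinf (g • x) = g • minRep vinf x := by
  obtain ⟨D, rfl⟩ := Pic0.mk_surjective x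
  rw [SemilinearAut.pic0_smul_mk, minRep_mk, minRep_mk, SemilinearAut.coe_degZeroSMulHom,
    minRepD_smul g hg (le_of_eq (degree_coe D))]

/-- **Descent**: the minimal representative of a class fixed by `g` is fixed by `g`. -/
theorem smul_minRep_eq (g : SemilinearAut K F) (hg : g • vinf = vinf) {x : Pic0 K F}
    (hx : g • x = x) : g • minRep vinf x = minRep vinf x := by
  rw [← minRep_smul g hg, hx]

theorem smul_minDiv_eq (g : SemilinearAut K F) (hg : g • vinf = vinf) {x : Pic0 K F}
    (hx : g • x = x) : g • (minDiv vinf x : Divisor K F) = minDiv vinf x := by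
  rw [coe_minDiv, smul_sub, smul_minRep_eq g hg hx, smul_comm g (minDeg vinf x) (prim vinf),
    smul_prim, hg]

/-- A class is determined by its minimal representative. -/
theorem minRep_injective : Function.Injective (minRep (K := K) (F := F) vinf) := by
  intro x y h
  have hd : minDeg vinf x = minDeg vinf y := by
    have h1 := degree_minRep vinf x
    have h2 := degree_minRep vinf y
    rw [h] at h1
    exact_mod_cast h1.symm.trans h2
  rw [← mk_minDiv vinf x, ← mk_minDiv vinf y]
  congr 1
  apply Subtype.ext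
  rw [coe_minDiv, coe_minDiv, h, hd]

end Pic0

end Fermat.Agent.S17.H680

end
end
-- ===== PACK-END S17/H680/Descent.lean

-- ===== PACK-BEGIN S37/Core/Geo.lean
section


/-!
# S37 row (helper37): the Layer-2 interface `GeoRed` (definitions only)

Notation: `A` a valuation subring of `ℚ̄` over `ℓ`, `k = A/𝔪`, `F = ℚ̄(X₀(N))`
(`modularFunctionFieldBar N ⊆ ℚ̄((q))`), `F_k = modularFunctionFieldFullC k N ⊆ k((q))`.

* `HasValue P f b` : the function `f` is regular at the place `P` with value `b`.
* `IntElt A N` : a q-series `y ∈ A((q))` lying in `F` whose reduction lies in `F_k`.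
* `IntElt.IsFin` / `IsInf` : `y` is integral over `A[j]` / over `A[j⁻¹]` (inside `A((q))`).
* `GeoRed A N` : a place reduction map `r` with the Prelude spec (`isRed`, `gen`) and
  - `vc_fin`/`vc_inf` (value compatibility): for `f` integral over `A[j]` and `P` with `j(P) ∈ A`,
    `f(P) = b` implies `f̄(r P) = b̄`; same at infinity;
  - `sep_fin`/`sep_inf` (separation, = normality of the special fibre of the model): two places
    of `F_k` at which all reductions `f̄` take the same values are equal.
-/

set_option autoImplicit false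
set_option synthInstance.maxHeartbeats 400000

noncomputable section

namespace Fermat.Agent.S37.Core

open ModularCurve ValuationSubring AlgebraicCurve HahnSeries

/-- `f` is regular at `P` with value `b` -/
def HasValue {K F : Type*} [Field K] [Field F] [Algebra K F] (P : Place K F) (f : F) (b : K) :
    Prop :=
  f - algebraMap K F b ∈ P.toValuationSubring.nonunits

section

variable (A : ValuationSubring (AlgebraicClosure ℚ)) (N : ℕ)

/-- an `A`-integral q-series lying in `F = ℚ̄(X₀(N))` with reduction in `F_k` -/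
structure IntElt where
  /-- the q-series -/
  y : LaurentSeries A
  mem : coeffMap A.subtype y ∈ modularFunctionFieldBar N
  memk : coeffMap (IsLocalRing.residue A) y ∈
    modularFunctionFieldFullC (IsLocalRing.ResidueField A) N

variable {A N}

/-- the function in characteristic `0` -/
def IntElt.gen (c : IntElt A N) : modularFunctionFieldBar N := ⟨coeffMap A.subtype c.y, c.mem⟩

/-- the reduced function -/
def IntElt.sp (c : IntElt A N) : modularFunctionFieldFullC (IsLocalRing.ResidueField A) N :=
  ⟨coeffMap (IsLocalRing.residue A) c.y, c.memk⟩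

variable (A) in
/-- evaluation `A[X] → A((q))`, `X ↦ u` -/
def evalSeries (u : LaurentSeries A) : Polynomial A →+* LaurentSeries A :=
  Polynomial.eval₂RingHom (HahnSeries.C : A →+* LaurentSeries A) u

/-- `y` is integral over `A[j]` -/
def IntElt.IsFin (c : IntElt A N) : Prop :=
  ∃ p : Polynomial (Polynomial A), p.Monic ∧ p.eval₂ (evalSeries A (jqModC A)) c.y = 0

/-- `y` is integral over `A[j⁻¹]` -/
def IntElt.IsInf (c : IntElt A N) : Prop :=
  ∃ u : LaurentSeries A, u * jqModC A = 1 ∧
    ∃ p : Polynomial (Polynomial A), p.Monic ∧ p.eval₂ (evalSeries A u) c.y = 0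

variable (A N) in
/-- **Layer-2 interface**: a geometric place reduction map. -/
structure GeoRed [NeZero N] : Type where
  /-- the reduction map on places -/
  r : Place (AlgebraicClosure ℚ) (modularFunctionFieldBar N) →
    Place (IsLocalRing.ResidueField A) (modularFunctionFieldFullC (IsLocalRing.ResidueField A) N)
  isRed : IsPlaceReductionModL A N r
  gen : PrincipalGeneratedByIntegral A (IsLocalRing.residue A) N
  vc_fin : ∀ j : IntElt A N, j.y = jqModC A → ∀ c : IntElt A N, c.IsFin →
    ∀ (P : Place (AlgebraicClosure ℚ) (modularFunctionFieldBar N)) (a b : A),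
      HasValue P j.gen a → HasValue P c.gen b → HasValue (r P) c.sp (IsLocalRing.residue A b)
  vc_inf : ∀ j : IntElt A N, j.y * jqModC A = 1 → ∀ c : IntElt A N, c.IsInf →
    ∀ (P : Place (AlgebraicClosure ℚ) (modularFunctionFieldBar N)) (a b : A),
      HasValue P j.gen a → HasValue P c.gen b → HasValue (r P) c.sp (IsLocalRing.residue A b)
  sep_fin : ∀ j : IntElt A N, j.y = jqModC A →
    ∀ (Q Q' : Place (IsLocalRing.ResidueField A)
      (modularFunctionFieldFullC (IsLocalRing.ResidueField A) N)) (a : IsLocalRing.ResidueField A),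
      HasValue Q j.sp a →
      (∀ c : IntElt A N, c.IsFin → ∀ b : IsLocalRing.ResidueField A,
        HasValue Q c.sp b → HasValue Q' c.sp b) → Q = Q'
  sep_inf : ∀ j : IntElt A N, j.y * jqModC A = 1 →
    ∀ (Q Q' : Place (IsLocalRing.ResidueField A)
      (modularFunctionFieldFullC (IsLocalRing.ResidueField A) N)) (a : IsLocalRing.ResidueField A),
      HasValue Q j.sp a →
      (∀ c : IntElt A N, c.IsInf → ∀ b : IsLocalRing.ResidueField A,
        HasValue Q c.sp b → HasValue Q' c.sp b) → Q = Q'

end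

end Fermat.Agent.S37.Core

end
end
-- ===== PACK-END S37/Core/Geo.lean

-- ===== PACK-BEGIN S19/H15/OrdFG.lean
section


/-!
# Cell A3 (S19) — node ORD, part 3 (helper15): finite generation

`exists_bound`: for a finitely generated, separating `ℤ_(ℓ)`-subalgebra `H₀` of equivariant
functions on a finite `Gal`-set `M` there is `d ≠ 0` in `ℤ_(ℓ)` with `d • u ∈ H₀` for EVERY
equivariant function `u` with integral values (Gram matrix of the pairing `Σ_m f(m) g(m)`).

`ordAlg_fg`: the algebra generated by the generators of an order datum is a finitely generated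
`ℤ_(ℓ)`-module.
-/

set_option autoImplicit false
set_option linter.style.haveILetI false

noncomputable section

namespace Fermat.Agent.S19.H15

open Fermat.Agent.S19
open scoped Matrix

variable {ℓ : ℕ} [Fact ℓ.Prime]

omit [Fact ℓ.Prime] in
/-- A function on a finite set with integral values is integral. -/
theorem isIntegral_of_forall_apply {X : Type} [Finite X] (f : X → Qb)
    (hf : ∀ x, IsIntegral (Rl ℓ) (f x)) : IsIntegral (Rl ℓ) f := by
  classical
  haveI := Fintype.ofFinite X
  choose p hp hp0 using hf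
  refine ⟨∏ x, p x, Polynomial.monic_prod_of_monic _ _ fun x _ => hp x, ?_⟩
  funext y
  have h1 : (Polynomial.eval₂ (algebraMap (Rl ℓ) (X → Qb)) f (∏ x, p x)) y =
      Polynomial.eval₂ (algebraMap (Rl ℓ) Qb) (f y) (∏ x, p x) := by
    have := Polynomial.aeval_algHom_apply (Pi.evalAlgHom (Rl ℓ) (fun _ : X => Qb) y) f (∏ x, p x)
    simp only [Polynomial.aeval_def, Pi.evalAlgHom_apply] at this
    exact this.symm
  rw [h1, Polynomial.eval₂_finsetProd]
  exact Finset.prod_eq_zero (Finset.mem_univ y) (hp0 y)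

section Bound

variable {M : Type} {act : GalQ → M → M}

/-- the pairing -/
def pair [Fintype M] (f g : M → Qb) : Qb := ∑ m, f m * g m

theorem pair_fixed [Fintype M] (hone : ∀ m, act 1 m = m)
    (hact : ∀ σ τ m, act σ (act τ m) = act (σ * τ) m)
    {f g : M → Qb} (hf : H19.IsEquivariant act f) (hg : H19.IsEquivariant act g) (σ : GalQ) :
    σ (pair f g) = pair f g := by
  unfold pair
  rw [map_sum]
  let e : M ≃ M :=
    { toFun := act σ
      invFun := act σ⁻¹
      left_inv := fun m => by rw [hact, inv_mul_cancel, hone]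
      right_inv := fun m => by rw [hact, mul_inv_cancel, hone] }
  rw [← Equiv.sum_comp e (fun m => f m * g m)]
  refine Finset.sum_congr rfl fun m _ => ?_
  show σ (f m * g m) = f (act σ m) * g (act σ m)
  rw [_root_.map_mul, hf σ m, hg σ m]

omit [Fact ℓ.Prime] in
theorem pair_integral [Fintype M] {f g : M → Qb} (hf : ∀ m, IsIntegral (Rl ℓ) (f m))
    (hg : ∀ m, IsIntegral (Rl ℓ) (g m)) : IsIntegral (Rl ℓ) (pair f g) :=
  IsIntegral.sum _ fun m _ => (hf m).mul (hg m)

theorem exists_Rl_pair [Fintype M] (hone : ∀ m, act 1 m = m)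
    (hact : ∀ σ τ m, act σ (act τ m) = act (σ * τ) m)
    {f g : M → Qb} (hf : H19.IsEquivariant act f) (hg : H19.IsEquivariant act g)
    (hfi : ∀ m, IsIntegral (Rl ℓ) (f m)) (hgi : ∀ m, IsIntegral (Rl ℓ) (g m)) :
    ∃ r : Rl ℓ, algebraMap (Rl ℓ) Qb r = pair f g := by
  haveI : IsPrincipalIdealRing ↥(GaloisRep.ratLocalizedAt ℓ) := inferInstance
  exact H19.mem_range_of_fixed_of_isIntegral (Rl ℓ)
    (fun q hq => H19.mem_of_isIntegral_of_pid (Rl ℓ) q hq) _
    (fun σ => pair_fixed hone hact hf hg σ) (pair_integral hfi hgi)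

omit [Fact ℓ.Prime] in
/-- The `Q̄`-span of a separating subalgebra is everything. -/
theorem span_Qb_eq_top [Finite M] (H₀ : Subalgebra (Rl ℓ) (M → Qb))
    (hsep : ∀ m m' : M, m ≠ m' → ∃ f ∈ H₀, f m ≠ f m') :
    Submodule.span Qb (H₀ : Set (M → Qb)) = ⊤ := by
  have h1 : Algebra.adjoin Qb (H₀ : Set (M → Qb)) = ⊤ := by
    apply H19.subalgebra_eq_top_of_separates
    intro m m' hne
    obtain ⟨f, hf, hfm⟩ := hsep m m' hne
    exact ⟨f, Algebra.subset_adjoin hf, hfm⟩
  have h2 := Algebra.adjoin_eq_span Qb (H₀ : Set (M → Qb))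
  have h3 : Submonoid.closure (H₀ : Set (M → Qb)) = H₀.toSubmonoid :=
    Submonoid.closure_eq H₀.toSubmonoid
  rw [h3, h1] at h2
  rw [eq_top_iff]
  intro x _
  have : x ∈ Subalgebra.toSubmodule (⊤ : Subalgebra Qb (M → Qb)) := by simp
  rw [h2] at this
  exact this

/-- **Bounded denominators.** -/
theorem exists_bound [Finite M] (hone : ∀ m, act 1 m = m)
    (hact : ∀ σ τ m, act σ (act τ m) = act (σ * τ) m)
    (H₀ : Subalgebra (Rl ℓ) (M → Qb)) (hequiv : ∀ f ∈ H₀, H19.IsEquivariant act f)
    (hfg : (Subalgebra.toSubmodule H₀).FG)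
    (hsep : ∀ m m' : M, m ≠ m' → ∃ f ∈ H₀, f m ≠ f m') :
    ∃ d : Rl ℓ, d ≠ 0 ∧ ∀ u : M → Qb, H19.IsEquivariant act u →
      (∀ m, IsIntegral (Rl ℓ) (u m)) → d • u ∈ H₀ := by
  classical
  haveI := Fintype.ofFinite M
  haveI : IsPrincipalIdealRing ↥(GaloisRep.ratLocalizedAt ℓ) := inferInstance
  obtain ⟨ι, hι, b, hb⟩ := H19.good_of_equivariant (Rl ℓ) hone hact H₀ hequiv hfg
  haveI := Fintype.ofFinite ι
  -- the basis functions
  set e : ι → M → Qb := fun i => ((b i : H₀) : M → Qb) with he
  have hemem : ∀ i, e i ∈ H₀ := fun i => (b i).2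
  have heq : ∀ i, H19.IsEquivariant act (e i) := fun i => hequiv _ (hemem i)
  have hint₀ : ∀ f ∈ H₀, ∀ m, IsIntegral (Rl ℓ) (f m) := by
    intro f hf m
    haveI : Module.Finite (Rl ℓ) H₀ := Module.Finite.iff_fg.mpr hfg
    have h1 : IsIntegral (Rl ℓ) (⟨f, hf⟩ : H₀) := Algebra.IsIntegral.isIntegral _
    exact h1.map (H19.IsOrder.evPt H₀ m)
  have hei : ∀ i m, IsIntegral (Rl ℓ) (e i m) := fun i m => hint₀ _ (hemem i) m
  have hli : LinearIndependent Qb e := hb
  -- every function is a `Q̄`-combination of the `e i`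
  have hspan : ∀ u : M → Qb, ∃ c : ι → Qb, u = ∑ i, c i • e i := by
    have h1 : Submodule.span Qb (Set.range e) = ⊤ := by
      rw [eq_top_iff, ← span_Qb_eq_top H₀ hsep]
      refine Submodule.span_le.mpr ?_
      intro f hf
      have h2 := congrArg (fun g : H₀ => (g : M → Qb)) (b.sum_repr ⟨f, hf⟩)
      simp only at h2
      rw [SetLike.mem_coe, ← h2, AddSubmonoidClass.coe_finsetSum]
      refine Submodule.sum_mem _ fun i _ => ?_
      have h3 : (((b.repr ⟨f, hf⟩ i) • b i : H₀) : M → Qb) =
          (algebraMap (Rl ℓ) Qb (b.repr ⟨f, hf⟩ i)) • e i := by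
        rw [algebraMap_smul]
        rfl
      rw [h3]
      exact Submodule.smul_mem _ _ (Submodule.subset_span ⟨i, rfl⟩)
    intro u
    have hu : u ∈ Submodule.span Qb (Set.range e) := by rw [h1]; trivial
    obtain ⟨c, hc⟩ := (Submodule.mem_span_range_iff_exists_fun Qb).mp hu
    exact ⟨c, hc.symm⟩
  -- Gram matrix
  choose g hg using fun i j => exists_Rl_pair (ℓ := ℓ) hone hact (heq i) (heq j) (hei i) (hei j)
  let G : Matrix ι ι (Rl ℓ) := Matrix.of g
  let GQ : Matrix ι ι Qb := G.map (algebraMap (Rl ℓ) Qb)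
  have hGQ : ∀ i j, GQ i j = pair (e i) (e j) := fun i j => hg i j
  have hpair_sum : ∀ (c : ι → Qb) (j : ι), pair (∑ i, c i • e i) (e j) = (c ᵥ* GQ) j := by
    intro c j
    simp only [pair, Matrix.vecMul, dotProduct, hGQ, Finset.sum_apply, Pi.smul_apply,
      smul_eq_mul, Finset.sum_mul, Finset.mul_sum]
    rw [Finset.sum_comm]
    refine Finset.sum_congr rfl fun i _ => Finset.sum_congr rfl fun m _ => by ring
  have hdetQ : GQ.det = algebraMap (Rl ℓ) Qb G.det := (RingHom.map_det _ _).symm
  have hinj : Function.Injective (algebraMap (Rl ℓ) Qb) := H19.algebraMap_subring_injective (Rl ℓ)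
  -- the determinant is nonzero
  have hdet : G.det ≠ 0 := by
    intro h0
    have h1 : GQ.det = 0 := by rw [hdetQ, h0, _root_.map_zero]
    obtain ⟨x, hx0, hx⟩ := Matrix.exists_vecMul_eq_zero_iff.mpr h1
    -- `w = Σ x i • e i` is orthogonal to everything
    set w : M → Qb := ∑ i, x i • e i with hw
    have hwe : ∀ j, pair w (e j) = 0 := by
      intro j
      rw [hw, hpair_sum, hx]
      rfl
    have hwall : ∀ f : M → Qb, pair w f = 0 := by
      intro f
      obtain ⟨c, rfl⟩ := hspan f
      have : pair w (∑ i, c i • e i) = ∑ i, c i * pair w (e i) := by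
        simp only [pair, Finset.sum_apply, Pi.smul_apply, smul_eq_mul, Finset.mul_sum]
        rw [Finset.sum_comm]
        refine Finset.sum_congr rfl fun i _ => Finset.sum_congr rfl fun m _ => by ring
      rw [this]
      exact Finset.sum_eq_zero fun i _ => by rw [hwe i, _root_.MulZeroClass.mul_zero]
    have hw0 : w = 0 := by
      funext m
      have := hwall (Pi.single m 1)
      simp only [pair, Pi.single_apply, mul_ite, _root_.mul_one, _root_.MulZeroClass.mul_zero, Finset.sum_ite_eq',
        Finset.mem_univ, if_true] at this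
      exact this
    have hx' := (Fintype.linearIndependent_iff.mp hli) x (hw ▸ hw0)
    exact hx0 (funext hx')
  refine ⟨G.det, hdet, fun u hu hui => ?_⟩
  obtain ⟨c, rfl⟩ := hspan u
  -- the pairings with the basis are in `R`
  choose r hr using fun j =>
    exists_Rl_pair (ℓ := ℓ) hone hact hu (heq j) hui (hei j)
  have hv : c ᵥ* GQ = fun j => algebraMap (Rl ℓ) Qb (r j) := by
    funext j
    rw [← hpair_sum, hr j]
  -- multiply by the adjugate
  have hadj : (GQ.det) • c = (fun j => algebraMap (Rl ℓ) Qb (r j)) ᵥ* GQ.adjugate := by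
    rw [← hv, Matrix.vecMul_vecMul, Matrix.mul_adjugate, Matrix.vecMul_smul, Matrix.vecMul_one]
  have hadj' : GQ.adjugate = G.adjugate.map (algebraMap (Rl ℓ) Qb) :=
    (RingHom.map_adjugate _ _).symm
  have hci : ∀ i, algebraMap (Rl ℓ) Qb G.det * c i =
      algebraMap (Rl ℓ) Qb (∑ j, r j * G.adjugate j i) := by
    intro i
    have := congrFun hadj i
    rw [Pi.smul_apply, smul_eq_mul, hdetQ] at this
    rw [this, hadj', map_sum]
    simp only [Matrix.vecMul, dotProduct, Matrix.map_apply, _root_.map_mul]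
  have hfinal : G.det • (∑ i, c i • e i) = ∑ i, (∑ j, r j * G.adjugate j i) • e i := by
    rw [Finset.smul_sum]
    refine Finset.sum_congr rfl fun i _ => ?_
    funext m
    simp only [Pi.smul_apply, smul_eq_mul]
    rw [Algebra.smul_def, Algebra.smul_def, ← _root_.mul_assoc, hci i]
  rw [hfinal]
  exact Subalgebra.sum_mem _ fun i _ => Subalgebra.smul_mem _ (hemem i) _

end Bound

end Fermat.Agent.S19.H15

end

end
-- ===== PACK-END S19/H15/OrdFG.lean

-- ===== PACK-BEGIN Lib/HI/H864/Along.lean
section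





/-!
# Lib / HI (helper864): the five inputs of a correspondence, along an embedding

`K` algebraically closed of characteristic `0`, `φ : F →ₐ[K] F'` an embedding of function fields
of one variable (`x ∈ F` transcendental, `F / K(x)` and `F' / K(φ x)` finite).  Then, in the
language of the Prelude (`Def_AlgebraicCurve_Correspondence`):

* `isIntegral_along_of_finite` : `φ.toRingHom.IsIntegral`
* `finiteAlong`                : `FiniteAlong K φ`
* `hasPrincipalDivisors`       : `HasPrincipalDivisors K F'`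
* `fundamentalIdentityAlong`   : `FundamentalIdentityAlong K φ hφ`
* `normFormulaAlong`           : `NormFormulaAlong K φ hfin`
-/

set_option autoImplicit false
set_option linter.unusedSectionVars false
set_option linter.style.haveILetI false
set_option linter.unusedVariables false

noncomputable section

open AlgebraicCurve IsDedekindDomain IntermediateField

namespace Fermat.Agent.Lib.HI.H864

open Fermat.Agent.S24

section Finite

variable {K F F' : Type*} [Field K] [Field F] [Field F'] [Algebra K F] [Algebra K F']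
  [Algebra F F'] [IsScalarTower K F F']

/-- If `F'` is finite over `K(x')` with `x'` the image of `x ∈ F`, then `F'` is finite over `F`. -/
theorem finite_of_adjoin (x : F) [hfin : FiniteDimensional K⟮algebraMap F F' x⟯ F'] :
    FiniteDimensional F F' := by
  obtain ⟨s, hs⟩ := (Module.Finite.fg_top : (⊤ : Submodule K⟮algebraMap F F' x⟯ F').FG)
  refine ⟨⟨s, ?_⟩⟩
  have hle : K⟮algebraMap F F' x⟯ ≤ (IsScalarTower.toAlgHom K F F').fieldRange := by
    rw [IntermediateField.adjoin_simple_le_iff]
    exact ⟨x, rfl⟩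
  have key : ∀ y ∈ Submodule.span K⟮algebraMap F F' x⟯ (s : Set F'),
      y ∈ Submodule.span F (s : Set F') := by
    intro y hy
    induction hy using Submodule.span_induction with
    | mem z hz => exact Submodule.subset_span hz
    | zero => exact _root_.ZeroMemClass.zero_mem _
    | add a b _ _ ha hb => exact _root_.AddMemClass.add_mem ha hb
    | smul c z _ hz =>
      obtain ⟨c', hc'⟩ := hle c.2
      have h1 : c • z = c' • z := by
        rw [Algebra.smul_def, Algebra.smul_def]
        congr 1
        exact hc'.symm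
      rw [h1]
      exact Submodule.smul_mem _ _ hz
  rw [eq_top_iff]
  intro y _
  exact key y (by rw [hs]; trivial)

end Finite

section HPD

variable {K F : Type*} [Field K] [Field F] [Algebra K F] [IsAlgClosed K] [CharZero K]

/-- divisors of functions exist (finitely many zeros and poles) and have degree `0` -/
theorem exists_divisor (x : F) (hx : Transcendental K x)
    [FiniteDimensional ↥(IntermediateField.adjoin K {x}) F] (f : F) (hf : f ≠ 0) :
    ∃ D : Divisor K F, (∀ v : Place K F, D v = v.ord f) ∧ Divisor.degree D = 0 := by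
  classical
  suffices h : ∃ D : Divisor K F, ∀ v : Place K F, D v = v.ord f by
    obtain ⟨D, hD⟩ := h
    exact ⟨D, hD, S24.H864.degree_principal x hx f hf D hD⟩
  by_cases hfK : f ∈ (algebraMap K F).range
  · obtain ⟨c, rfl⟩ := hfK
    exact ⟨0, fun v => by rw [S24.FF.ord_algebraMap v c]; rfl⟩
  · have hft : Transcendental K f := S24.FF.transcendental_of_not_mem_range hfK
    haveI : FiniteDimensional ↥(IntermediateField.adjoin K {f}) F :=
      S24.FF.finiteDimensional_adjoin_of_transcendental hx hft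
    haveI : FiniteDimensional ↥(IntermediateField.adjoin K {f⁻¹}) F := by
      rw [S24.H864.adjoin_simple_inv_eq]; infer_instance
    obtain ⟨sp, hsp⟩ := S24.H864.exists_finset_zeros f hft
    obtain ⟨sn, hsn⟩ := S24.H864.exists_finset_zeros f⁻¹ (S24.H864.transcendental_inv hft)
    refine ⟨Finsupp.onFinset (sp ∪ sn) (fun v => v.ord f) ?_, fun v => rfl⟩
    intro v hv
    rw [Finset.mem_union, hsp, hsn, Place.ord_inv]
    omega

theorem hasPrincipalDivisors (x : F) (hx : Transcendental K x)
    [FiniteDimensional ↥(IntermediateField.adjoin K {x}) F] : HasPrincipalDivisors K F :=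
  ⟨fun f hf => exists_divisor x hx f hf⟩

end HPD

section Along

variable {K F F' : Type*} [Field K] [Field F] [Field F'] [Algebra K F] [Algebra K F']
  [IsAlgClosed K] [CharZero K]
variable (φ : F →ₐ[K] F') (x : F)

theorem transcendental_map (hx : Transcendental K x) : Transcendental K (φ x) := by
  intro h
  exact hx ((isAlgebraic_algHom_iff φ φ.injective).mp h)

theorem finiteAlong [hfin : FiniteDimensional K⟮φ x⟯ F'] : FiniteAlong K φ := by
  unfold FiniteAlong
  letI := algebraAlong φ
  haveI := isScalarTower_along φ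
  haveI : FiniteDimensional K⟮algebraMap F F' x⟯ F' := hfin
  exact finite_of_adjoin (K := K) x

theorem isIntegral_along_of_finite [hfin : FiniteDimensional K⟮φ x⟯ F'] :
    φ.toRingHom.IsIntegral := by
  letI := algebraAlong φ
  haveI : Module.Finite F F' := finiteAlong φ x
  exact (Algebra.IsIntegral.of_finite F F').isIntegral

theorem fundamentalIdentityAlong (hx : Transcendental K x) [FiniteDimensional K⟮x⟯ F]
    [hfin : FiniteDimensional K⟮φ x⟯ F'] [HasPrincipalDivisors K F']
    (hφ : φ.toRingHom.IsIntegral) : FundamentalIdentityAlong K φ hφ := by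
  unfold FundamentalIdentityAlong
  letI := algebraAlong φ
  haveI := isScalarTower_along φ
  haveI : FiniteDimensional F F' := finiteAlong φ x
  haveI : SumRamificationInertia K F F' :=
    sumRamificationInertia x hx (φ x) (transcendental_map φ x hx)
  exact instFundamentalIdentityOfSumRamificationInertia

theorem normFormulaAlong (hx : Transcendental K x) [FiniteDimensional K⟮x⟯ F]
    [hfin : FiniteDimensional K⟮φ x⟯ F']
    (hfin' : FiniteAlong K φ) : NormFormulaAlong K φ hfin' := by
  unfold NormFormulaAlong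
  letI := algebraAlong φ
  haveI := isScalarTower_along φ
  haveI : FiniteDimensional F F' := hfin'
  haveI : HasPrincipalDivisors K F' :=
    hasPrincipalDivisors (φ x) (transcendental_map φ x hx)
  exact pushforwardNormFormula x hx (φ x) (transcendental_map φ x hx)

end Along

end Fermat.Agent.Lib.HI.H864

end
end
-- ===== PACK-END Lib/HI/H864/Along.lean

-- ===== PACK-BEGIN A2/Mod/H13/Frame.lean
section





/-!
# WALL A2 / MODASM, S1 part 1 (helper13): from the leaves to helper489's FRAME

Level `N = M * q`, coordinate `x = j · j_q`, `V = V∞` (`IsVinf`), `V₀ = V.comap W` (`IsFricke`).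
From the leaves L2 (`H553.vinfBasic`, main), L3 (`H816.vinfGauss`, main), L6, L8, L9, L10
(hypotheses) we produce the hypotheses of `H489.twoExtHyp_of_gauss`:

* `isOver_of_isVinf`, `isOver_comap`        : `V`, `V₀` lie over `R_E`;
* `isGaussOver_of_polar`                    : `IsGaussOver R V u` for every polar `u ∈ F_N`;
* `isGaussOver_xE`, `isGaussOver_comap_xE`  : the Gauss property of `V`, `V₀` for `x`;
* `polyIndepMod_of_indepMod`                : `Mod.IndepMod ⟹ H489.PolyIndepMod`;
* `twoExtHyp_of_leaves`                     : `H489.TwoExtHyp E(x) (V ∩ E(x)) V V₀ b c`.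
-/

set_option autoImplicit false
set_option linter.unusedSectionVars false
set_option linter.style.haveILetI false
set_option synthInstance.maxHeartbeats 400000
set_option maxHeartbeats 1600000

noncomputable section

namespace Fermat.Agent.A2.Mod.H13

open ModularCurve HahnSeries Polynomial IntermediateField
open Fermat.Agent.A2 Fermat.Agent.A2.Mod

variable (P : ValuationSubring _root_.Fermat.Agent.A2.Mod.Qb) (E : IntermediateField ℚ _root_.Fermat.Agent.A2.Mod.Qb)

/-! ### Integer series with a pole of exact order -/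

/-- An integer Laurent series is *polar of order `a`*: lowest term `t^(-a)` with coefficient `1`. -/
def IsPolarInt (g : LaurentSeries ℤ) (a : ℕ) : Prop :=
  (∀ n : ℤ, n < -(a : ℤ) → g.coeff n = 0) ∧ g.coeff (-(a : ℤ)) = 1

theorem IsPolarInt.order {g : LaurentSeries ℤ} {a : ℕ} (h : IsPolarInt g a) :
    g.order = -(a : ℤ) := by
  have h1 : g.coeff (-(a : ℤ)) ≠ 0 := by rw [h.2]; exact one_ne_zero
  have hg : g ≠ 0 := by
    rintro rfl
    exact h1 (by simp)
  apply le_antisymm
  · exact order_le_of_coeff_ne_zero h1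
  · by_contra hlt
    exact (HahnSeries.coeff_order_eq_zero.not.mpr hg) (h.1 _ (not_le.mp hlt))

theorem IsPolarInt.mul {g g' : LaurentSeries ℤ} {a a' : ℕ} (h : IsPolarInt g a)
    (h' : IsPolarInt g' a') : IsPolarInt (g * g') (a + a') := by
  have hg : g ≠ 0 := by
    rintro rfl
    have := h.2
    simp at this
  have hg' : g' ≠ 0 := by
    rintro rfl
    have := h'.2
    simp at this
  have hord : (g * g').order = -((a + a' : ℕ) : ℤ) := by
    rw [HahnSeries.order_mul hg hg', h.order, h'.order]
    push_cast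
    ring
  refine ⟨fun n hn => ?_, ?_⟩
  · apply HahnSeries.coeff_eq_zero_of_lt_order
    rw [hord]
    exact hn
  · have key := HahnSeries.coeff_mul_order_add_order g g'
    rw [HahnSeries.leadingCoeff_eq, HahnSeries.leadingCoeff_eq, h.order, h'.order, h.2, h'.2,
      mul_one] at key
    rw [← key]
    congr 1
    push_cast
    ring

theorem isPolarInt_jInt (d : ℕ) [NeZero d] : IsPolarInt (H708.jInt d) d := by
  refine ⟨fun n hn => ?_, H553.coeff_jInt_top d⟩
  rw [H708.jInt, jqNModC]
  by_cases hdn : (d : ℤ) ∣ n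
  · obtain ⟨k, rfl⟩ := hdn
    rw [qExpand_coeff_mul]
    apply coeff_jqModC_of_lt
    have hd : (0 : ℤ) < d := by exact_mod_cast Nat.pos_of_ne_zero (NeZero.ne d)
    by_contra hk
    have hk' : -1 ≤ k := not_lt.mp hk
    have : -(d : ℤ) ≤ (d : ℤ) * k := by nlinarith
    omega
  · exact qExpand_coeff_of_not_dvd d _ hdn

/-! ### `V∞` and `V₀` lie over `R_E` -/

section Over

variable {P E} {N : ℕ} [IsDiscreteValuationRing (_root_.Fermat.Agent.A2.Mod.RE P E)]

theorem algebraMap_RE_eq (r : _root_.Fermat.Agent.A2.Mod.RE P E) :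
    algebraMap (_root_.Fermat.Agent.A2.Mod.RE P E) (_root_.Fermat.Agent.A2.Mod.FE E N) r = algebraMap E (_root_.Fermat.Agent.A2.Mod.FE E N) (r : E) := rfl

theorem isOver_of_isVinf {V : ValuationSubring (_root_.Fermat.Agent.A2.Mod.FE E N)} (hV : IsVinf P E N V) :
    H489.IsOver (_root_.Fermat.Agent.A2.Mod.RE P E) V where
  mem := fun r => (H553.algebraMap_mem_iff P E hV (r : E)).mpr r.2
  nonunit := fun r hr => by
    rw [ValuationSubring.mem_nonunits_iff_or]
    by_cases h0 : r = 0
    · left
      rw [h0, _root_.map_zero]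
    · right
      intro hmem
      have hr0 : (r : E) ≠ 0 := fun h => h0 (Subtype.ext h)
      have e : (algebraMap (_root_.Fermat.Agent.A2.Mod.RE P E) (_root_.Fermat.Agent.A2.Mod.FE E N) r)⁻¹ = algebraMap E (_root_.Fermat.Agent.A2.Mod.FE E N) ((r : E)⁻¹) := by
        rw [algebraMap_RE_eq, map_inv₀]
      rw [e, H553.algebraMap_mem_iff P E hV] at hmem
      have hu : IsUnit r :=
        isUnit_iff_exists_inv.mpr ⟨⟨_, hmem⟩, Subtype.ext (mul_inv_cancel₀ hr0)⟩
      exact (IsLocalRing.mem_maximalIdeal r).mp hr hu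

/-- Nonunits of the pull-back of a valuation ring along an automorphism. -/
theorem mem_nonunits_comap {F : Type*} [Field F] (V : ValuationSubring F) (W : F →+* F) (f : F) :
    f ∈ (V.comap W).nonunits ↔ W f ∈ V.nonunits := by
  rw [ValuationSubring.mem_nonunits_iff_or, ValuationSubring.mem_nonunits_iff_or,
    ValuationSubring.mem_comap]
  constructor
  · rintro (h | h)
    · left
      rw [h, _root_.map_zero]
    · right
      intro h'
      apply h
      show W f⁻¹ ∈ V
      rw [map_inv₀]
      exact h'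
  · rintro (h | h)
    · left
      exact (_root_.map_eq_zero W).mp h
    · right
      intro h'
      apply h
      have h'' : W f⁻¹ ∈ V := h'
      rwa [map_inv₀] at h''

theorem isOver_comap {V : ValuationSubring (_root_.Fermat.Agent.A2.Mod.FE E N)} (hV : IsVinf P E N V)
    (W : _root_.Fermat.Agent.A2.Mod.FE E N ≃ₐ[E] _root_.Fermat.Agent.A2.Mod.FE E N) :
    H489.IsOver (_root_.Fermat.Agent.A2.Mod.RE P E) (V.comap (W : _root_.Fermat.Agent.A2.Mod.FE E N →+* _root_.Fermat.Agent.A2.Mod.FE E N)) where
  mem := fun r => by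
    rw [ValuationSubring.mem_comap]
    show W (algebraMap (_root_.Fermat.Agent.A2.Mod.RE P E) (_root_.Fermat.Agent.A2.Mod.FE E N) r) ∈ V
    rw [algebraMap_RE_eq, W.commutes]
    exact (isOver_of_isVinf hV).mem r
  nonunit := fun r hr => by
    rw [mem_nonunits_comap]
    show W (algebraMap (_root_.Fermat.Agent.A2.Mod.RE P E) (_root_.Fermat.Agent.A2.Mod.FE E N) r) ∈ V.nonunits
    rw [algebraMap_RE_eq, W.commutes]
    exact (isOver_of_isVinf hV).nonunit r hr

end Over

/-! ### The Gauss property for polar elements -/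

section Gauss

variable {P E} {N : ℕ} [IsDiscreteValuationRing (_root_.Fermat.Agent.A2.Mod.RE P E)]

variable (E N) in
/-- `u ∈ F_N` is *polar of order `a`*: its `t`-expansion is an integer series with lowest term
`t^(-a)`. -/
def IsPolar (u : _root_.Fermat.Agent.A2.Mod.FE E N) (a : ℕ) : Prop :=
  ∃ g : LaurentSeries ℤ, IsPolarInt g a ∧ (u : LaurentSeries E) = coeffEmb E (H708.castQ g)

theorem IsPolar.mul {u u' : _root_.Fermat.Agent.A2.Mod.FE E N} {a a' : ℕ} (h : IsPolar E N u a) (h' : IsPolar E N u' a') :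
    IsPolar E N (u * u') (a + a') := by
  obtain ⟨g, hg, e⟩ := h
  obtain ⟨g', hg', e'⟩ := h'
  refine ⟨g * g', hg.mul hg', ?_⟩
  rw [_root_.map_mul, _root_.map_mul, ← e, ← e']
  rfl

theorem isPolar_jE (d : ℕ) [NeZero d] (hd : d ∣ N) : IsPolar E N (jE E N d hd) d :=
  ⟨H708.jInt d, isPolarInt_jInt d, H553.coe_jE N d hd⟩

theorem ev_eq_aeval (u : _root_.Fermat.Agent.A2.Mod.FE E N) (p : Polynomial (_root_.Fermat.Agent.A2.Mod.RE P E)) : ev P E N u p = aeval u p := rfl

theorem not_C_dvd_of_map_ne_zero {w : _root_.Fermat.Agent.A2.Mod.RE P E} (hw : Irreducible w) {p : Polynomial (_root_.Fermat.Agent.A2.Mod.RE P E)}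
    (hp : p.map (IsLocalRing.residue (_root_.Fermat.Agent.A2.Mod.RE P E)) ≠ 0) : ¬ Polynomial.C w ∣ p := by
  rintro ⟨Q, rfl⟩
  apply hp
  rw [Polynomial.map_mul, Polynomial.map_C]
  have : IsLocalRing.residue (_root_.Fermat.Agent.A2.Mod.RE P E) w = 0 := by
    rw [IsLocalRing.residue_eq_zero_iff]
    exact (IsLocalRing.mem_maximalIdeal w).mpr hw.not_isUnit
  rw [this, _root_.map_zero, zero_mul]

/-- **Gauss property** of `V∞` for a polar element. -/
theorem isGaussOver_of_polar {V : ValuationSubring (_root_.Fermat.Agent.A2.Mod.FE E N)} (hV : IsVinf P E N V)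
    {w : _root_.Fermat.Agent.A2.Mod.RE P E} (hw : Irreducible w) (hN : N ≠ 0) {u : _root_.Fermat.Agent.A2.Mod.FE E N} {a : ℕ} (ha : 0 < a)
    (hu : IsPolar E N u a) (htr : Transcendental (_root_.Fermat.Agent.A2.Mod.RE P E) u) :
    H489.IsGaussOver (_root_.Fermat.Agent.A2.Mod.RE P E) V u where
  isOver := isOver_of_isVinf hV
  mem := by
    obtain ⟨g, -, e⟩ := hu
    exact H553.mem_of_int hV e
  prim := by
    intro p hp
    by_contra hne
    obtain ⟨g, hg, e⟩ := hu
    have hp0 : p ≠ 0 := by
      rintro rfl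
      exact hne (Polynomial.map_zero _)
    have h3 := H816.vinfGauss P E w N hN inferInstance hw V hV u (H708.castA (_root_.Fermat.Agent.A2.Mod.RE P E) g) a ha
      (by rw [e]; exact H553.coeffEmb_castQ (P := P) g)
      (fun n hn => by
        show ((g.coeff n : ℤ) : _root_.Fermat.Agent.A2.Mod.RE P E) = 0
        rw [hg.1 n hn, Int.cast_zero])
      (by
        have : (H708.castA (_root_.Fermat.Agent.A2.Mod.RE P E) g).coeff (-(a : ℤ)) = 1 := by
          show ((g.coeff (-(a : ℤ)) : ℤ) : _root_.Fermat.Agent.A2.Mod.RE P E) = 1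
          rw [hg.2, Int.cast_one]
        rw [this]
        exact isUnit_one)
      p (not_C_dvd_of_map_ne_zero hw hne)
    rw [ev_eq_aeval] at h3
    rcases (ValuationSubring.mem_nonunits_iff_or V).mp hp with h0 | h0
    · exact htr ⟨p, hp0, h0⟩
    · exact h0 h3.2

/-- transport of the Gauss property along an `E`-automorphism. -/
theorem isGaussOver_comap {V : ValuationSubring (_root_.Fermat.Agent.A2.Mod.FE E N)} (hV : IsVinf P E N V)
    (W : _root_.Fermat.Agent.A2.Mod.FE E N ≃ₐ[E] _root_.Fermat.Agent.A2.Mod.FE E N) {u : _root_.Fermat.Agent.A2.Mod.FE E N} (h : H489.IsGaussOver (_root_.Fermat.Agent.A2.Mod.RE P E) V (W u)) :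
    H489.IsGaussOver (_root_.Fermat.Agent.A2.Mod.RE P E) (V.comap (W : _root_.Fermat.Agent.A2.Mod.FE E N →+* _root_.Fermat.Agent.A2.Mod.FE E N)) u where
  isOver := isOver_comap hV W
  mem := h.mem
  prim := by
    intro p hp
    apply h.prim p
    rw [mem_nonunits_comap] at hp
    have e : W (aeval u p) = aeval (W u) p := by
      have := Polynomial.aeval_algHom_apply (W.toAlgHom.restrictScalars (_root_.Fermat.Agent.A2.Mod.RE P E)) u p
      exact this.symm
    rw [← e]
    exact hp

theorem transcendental_RE {u : _root_.Fermat.Agent.A2.Mod.FE E N} (h : Transcendental E u) : Transcendental (_root_.Fermat.Agent.A2.Mod.RE P E) u :=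
  h.restrictScalars (fun a b hab => Subtype.ext hab)

theorem transcendental_algEquiv (W : _root_.Fermat.Agent.A2.Mod.FE E N ≃ₐ[E] _root_.Fermat.Agent.A2.Mod.FE E N) {u : _root_.Fermat.Agent.A2.Mod.FE E N}
    (h : Transcendental E u) : Transcendental E (W u) := by
  rintro ⟨p, hp0, hp⟩
  apply h
  refine ⟨p, hp0, ?_⟩
  have e := Polynomial.aeval_algHom_apply W.toAlgHom u p
  have e' : W (aeval u p) = 0 := by
    rw [← hp]
    exact e.symm
  exact (_root_.map_eq_zero_iff W W.injective).mp e'

end Gauss

/-! ### The coordinate `x = j · j_q` -/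

section Coordinate

variable {P E} (M q : ℕ) [NeZero M] [NeZero q] [IsDiscreteValuationRing (_root_.Fermat.Agent.A2.Mod.RE P E)]

theorem isPolar_xE : IsPolar E (M * q) (xE E M q) (1 + q) :=
  (isPolar_jE 1 (one_dvd _)).mul (isPolar_jE q (dvd_mul_left q M))

theorem isPolar_fricke_xE {W : _root_.Fermat.Agent.A2.Mod.FE E (M * q) ≃ₐ[E] _root_.Fermat.Agent.A2.Mod.FE E (M * q)} (hW : IsFricke E (M * q) W) :
    IsPolar E (M * q) (W (xE E M q)) (M * q + M) := by
  have h1 : W (jE E (M * q) 1 (one_dvd _)) = jE E (M * q) (M * q) (dvd_refl _) :=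
    hW.1 1 (M * q) (one_dvd _) (dvd_refl _) (one_mul _)
  have h2 : W (jE E (M * q) q (dvd_mul_left q M)) = jE E (M * q) M (dvd_mul_right M q) :=
    hW.1 q M (dvd_mul_left q M) (dvd_mul_right M q) (mul_comm q M)
  rw [xE, _root_.map_mul, h1, h2]
  exact (isPolar_jE (M * q) (dvd_refl _)).mul (isPolar_jE M (dvd_mul_right M q))

variable {M q}

/-- `V∞` induces the Gauss valuation on `E(x)`. -/
theorem isGaussOver_xE {w : _root_.Fermat.Agent.A2.Mod.RE P E} (hw : Irreducible w)
    {V : ValuationSubring (_root_.Fermat.Agent.A2.Mod.FE E (M * q))} (hV : IsVinf P E (M * q) V)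
    (htr : Transcendental E (xE E M q)) :
    H489.IsGaussOver (_root_.Fermat.Agent.A2.Mod.RE P E) V (xE E M q) :=
  isGaussOver_of_polar hV hw (NeZero.ne _) (by omega) (isPolar_xE M q) (transcendental_RE htr)

/-- `V₀ = V∞ ∘ W` induces the Gauss valuation on `E(x)`. -/
theorem isGaussOver_comap_xE {w : _root_.Fermat.Agent.A2.Mod.RE P E} (hw : Irreducible w)
    {V : ValuationSubring (_root_.Fermat.Agent.A2.Mod.FE E (M * q))} (hV : IsVinf P E (M * q) V)
    {W : _root_.Fermat.Agent.A2.Mod.FE E (M * q) ≃ₐ[E] _root_.Fermat.Agent.A2.Mod.FE E (M * q)} (hW : IsFricke E (M * q) W)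
    (htr : Transcendental E (xE E M q)) :
    H489.IsGaussOver (_root_.Fermat.Agent.A2.Mod.RE P E) (V.comap (W : _root_.Fermat.Agent.A2.Mod.FE E (M * q) →+* _root_.Fermat.Agent.A2.Mod.FE E (M * q))) (xE E M q) :=
  isGaussOver_comap hV W
    (isGaussOver_of_polar hV hw (NeZero.ne _)
      (Nat.add_pos_right _ (Nat.pos_of_ne_zero (NeZero.ne M)))
      (isPolar_fricke_xE M q hW) (transcendental_RE (transcendental_algEquiv W htr)))

end Coordinate

/-! ### Independence and the final frame -/

section Indep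

variable {P E} {N : ℕ} [IsDiscreteValuationRing (_root_.Fermat.Agent.A2.Mod.RE P E)]

theorem inW_iff_mem_nonunits {V : ValuationSubring (_root_.Fermat.Agent.A2.Mod.FE E N)} {w : _root_.Fermat.Agent.A2.Mod.RE P E}
    (hu : H48.IsUnif V (cE P E N w)) (f : _root_.Fermat.Agent.A2.Mod.FE E N) : InW P E N V w f ↔ f ∈ V.nonunits := by
  rw [InW, hu.mul_inv_mem_iff, ValuationSubring.mem_nonunits_iff]

theorem isUnif_comap {V : ValuationSubring (_root_.Fermat.Agent.A2.Mod.FE E N)} {w : _root_.Fermat.Agent.A2.Mod.RE P E}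
    (hu : H48.IsUnif V (cE P E N w)) (W : _root_.Fermat.Agent.A2.Mod.FE E N ≃ₐ[E] _root_.Fermat.Agent.A2.Mod.FE E N) :
    H48.IsUnif (V.comap (W : _root_.Fermat.Agent.A2.Mod.FE E N →+* _root_.Fermat.Agent.A2.Mod.FE E N)) (cE P E N w) := by
  have hW : W (cE P E N w) = cE P E N w := W.commutes _
  have hWi : W (cE P E N w)⁻¹ = (cE P E N w)⁻¹ := by rw [map_inv₀, hW]
  refine ⟨?_, ?_, ?_⟩
  · show W (cE P E N w) ∈ V
    rw [hW]
    exact hu.mem
  · intro h
    have h' : W (cE P E N w)⁻¹ ∈ V := h
    rw [hWi] at h'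
    exact hu.inv_not_mem h'
  · intro f hf hfi
    show W (f * (cE P E N w)⁻¹) ∈ V
    rw [_root_.map_mul, hWi]
    refine hu.gen (W f) hf ?_
    intro h
    apply hfi
    show W f⁻¹ ∈ V
    rw [map_inv₀]
    exact h

theorem polyIndepMod_of_indepMod {V : ValuationSubring (_root_.Fermat.Agent.A2.Mod.FE E N)} {w : _root_.Fermat.Agent.A2.Mod.RE P E}
    (hw : Irreducible w) (hu : H48.IsUnif V (cE P E N w)) {x : _root_.Fermat.Agent.A2.Mod.FE E N} {n : ℕ}
    {b : Fin n → _root_.Fermat.Agent.A2.Mod.FE E N} (h : IndepMod P E N V w x b) :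
    H489.PolyIndepMod (_root_.Fermat.Agent.A2.Mod.RE P E) V x b := by
  intro a ha i
  have h1 := h a ((inW_iff_mem_nonunits hu _).mpr ha) i
  by_contra hne
  exact not_C_dvd_of_map_ne_zero hw hne h1

end Indep

section Final

variable {P E} {M q : ℕ} [NeZero M] [NeZero q] {w : _root_.Fermat.Agent.A2.Mod.RE P E}

/-- **The frame for `X₀(Mq)`**: from the leaves L2, L3 (main) and L6, L8, L9, L10 (hypotheses),
the two valuation rings `V∞`, `V₀ = V∞ ∘ W` satisfy `H489.TwoExtHyp` over the Gauss ring of
`E(x)`, `x = j · j_q`. -/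
theorem twoExtHyp_of_leaves (hS : Setting P E M q w)
    (V : ValuationSubring (_root_.Fermat.Agent.A2.Mod.FE E (M * q))) (W : _root_.Fermat.Agent.A2.Mod.FE E (M * q) ≃ₐ[E] _root_.Fermat.Agent.A2.Mod.FE E (M * q))
    (hV : IsVinf P E (M * q) V) (hW : IsFricke E (M * q) W)
    (hL6 : VzeroNeStatement P E M q w) (hL8 : DegStatement E M q)
    (hL9 : IndInfStatement P E M q w) (hL10 : IndZeroStatement P E M q w) :
    haveI := hS.dvr
    ∃ (b c : Fin ((q + 1) * dedekindPsi M) → _root_.Fermat.Agent.A2.Mod.FE E (M * q))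
      (_ : IsDiscreteValuationRing (H489.gaussRing E V (xE E M q))),
      H489.TwoExtHyp (IntermediateField.adjoin E ({xE E M q} : Set (_root_.Fermat.Agent.A2.Mod.FE E (M * q))))
        (H489.gaussRing E V (xE E M q)) V
        (V.comap (W : _root_.Fermat.Agent.A2.Mod.FE E (M * q) →+* _root_.Fermat.Agent.A2.Mod.FE E (M * q))) b c := by
  haveI := hS.dvr
  obtain ⟨htr, hfr, -⟩ := hL8 hS.q_prime hS.q_not_dvd
  obtain ⟨b, hb, hbI⟩ := hL9 hS V hV
  obtain ⟨c, hc, hcI⟩ := hL10 hS V W hV hW
  have hu : H48.IsUnif V (cE P E (M * q) w) :=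
    (H553.vinfBasic P E w (M * q) (NeZero.ne _) hS.dvr hS.unif V hV).1
  have hG₁ := isGaussOver_xE hS.unif hV htr
  have hG₂ := isGaussOver_comap_xE hS.unif hV hW htr
  have hdvr : IsDiscreteValuationRing (H489.gaussRing E V (xE E M q)) :=
    hG₁.isDiscreteValuationRing
  refine ⟨b, c, hdvr, ?_⟩
  exact H489.twoExtHyp_of_gauss hG₁ hG₂ (fun h => hL6 hS V W hV hW h.symm) hb hc
    (polyIndepMod_of_indepMod hS.unif hu hbI)
    (polyIndepMod_of_indepMod hS.unif (isUnif_comap hu W) hcI)
    (by rw [hfr, two_mul])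

end Final


end Fermat.Agent.A2.Mod.H13

end
end
-- ===== PACK-END A2/Mod/H13/Frame.lean

-- ===== PACK-BEGIN S18/H576/Transport.lean
section



/-!
# S18 / node_mod (helper576): TRANSPORT between the `E`-level and the concrete objects of `Mod/Defs`

`E ⊆ Q̄` an intermediate field, `R_E = H602.RE A E = A ∩ E`, `κ_E` its residue field,
`F_E = laurentBaseChange E (modularFunctionFieldFull M) ⊆ E((q))`.

* `descendsTo_of_mem_Fc`     : `f ∈ Fc M E` ⟹ `f` comes from `F_E`;
* `exists_mem_Fc_of_mem_FE`  : `g ∈ F_E` ⟹ `g` is (the `q`-expansion of) an element of `Fc M E`;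
* `OE M A E : Subring R_E((q))` : the integral series lying in `F_E`;
  `phi : OE →+* Ω` (injective, values in `Fc M E`), `rho : OE →+* κ_E((q))` (reduction);
* `exists_rep_of_mem_VcSet`  : `f ∈ VcSet M A E` ⟹ `f · phi V₂ = phi V₁` with `rho V₂ ≠ 0`;
* `mem_VcSet_of_rep`         : the converse;
* `exists_div_of_rho_eq_zero`: `rho V = 0` ⟹ `phi V · w⁻¹ = phi V'` (for `w` with `w_gen`).
-/

set_option autoImplicit false

noncomputable section

namespace Fermat.Agent.S18.H576

open ModularCurve AlgebraicCurve HahnSeries Fermat.Agent.S18 Fermat.Agent.S18.Mod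
open Fermat.Agent.S18.H602 (RE mem_RE toA)

variable {M : ℕ} {A : ValuationSubring Qb} {E : IntermediateField ℚ Qb}

/-- Elements of `Fc M E` are defined over `E` (inside the base change `F_E`). -/
theorem descendsTo_of_mem_Fc {f : Om M} (hf : f ∈ Fc M E) :
    H602.DescendsTo (modularFunctionFieldFull M) E (f : LaurentSeries Qb) := by
  unfold Fc at hf
  induction hf using Subfield.closure_induction with
  | mem y hy =>
      rcases hy with hy | ⟨d, hd, hdM, rfl⟩
      · obtain ⟨a, ha, rfl⟩ := mem_Ec_iff.mp hy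
        refine ⟨algebraMap E (LaurentSeries E) ⟨a, ha⟩,
          (laurentBaseChange E (modularFunctionFieldFull M)).algebraMap_mem _, ?_⟩
        rw [H602.coeffMap_algebraMap']
        rfl
      · exact H602.descendsTo_coeffEmb E (jqd_mem_full M hdM)
  | one => exact H602.DescendsTo.one E
  | add x y _ _ hx hy => exact hx.add hy
  | neg x _ hx => exact hx.neg
  | inv x _ hx => exact hx.inv
  | mul x y _ _ hx hy => exact hx.mul hy

/-- Elements of `F_E` give elements of `Fc M E`. -/
theorem exists_mem_Fc_of_mem_FE {g : LaurentSeries E}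
    (hg : g ∈ laurentBaseChange E (modularFunctionFieldFull M)) :
    ∃ f ∈ Fc M E, (f : LaurentSeries Qb) = coeffMap (algebraMap E Qb) g := by
  rw [mem_laurentBaseChange_iff] at hg
  induction hg using Subfield.closure_induction with
  | mem y hy =>
      rcases hy with ⟨a, rfl⟩ | ⟨z, hz, rfl⟩
      · refine ⟨iota M (a : Qb), Ec_le_Fc (iota_mem_Ec a.2), ?_⟩
        rw [H602.coeffMap_algebraMap']
        rfl
      · obtain ⟨f, hf, hfz⟩ := exists_mem_Fc_of_mem_full (M := M) (E := E) hz
        refine ⟨f, hf, ?_⟩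
        rw [hfz, H602.coeffMap_coeffEmb']
  | one => exact ⟨1, one_mem _, by rw [_root_.map_one]; rfl⟩
  | add x y _ _ hx hy =>
      obtain ⟨f, hf, hfx⟩ := hx
      obtain ⟨g, hg, hgy⟩ := hy
      exact ⟨f + g, add_mem hf hg, by rw [_root_.map_add, ← hfx, ← hgy]; rfl⟩
  | neg x _ hx =>
      obtain ⟨f, hf, hfx⟩ := hx
      exact ⟨-f, neg_mem hf, by rw [_root_.map_neg, ← hfx]; rfl⟩
  | inv x _ hx =>
      obtain ⟨f, hf, hfx⟩ := hx
      exact ⟨f⁻¹, inv_mem hf, by rw [map_inv₀, ← hfx]; rfl⟩
  | mul x y _ _ hx hy =>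
      obtain ⟨f, hf, hfx⟩ := hx
      obtain ⟨g, hg, hgy⟩ := hy
      exact ⟨f * g, mul_mem hf hg, by rw [_root_.map_mul, ← hfx, ← hgy]; rfl⟩

theorem C_mem_FE (M : ℕ) (c : E) :
    HahnSeries.C (Γ := ℤ) c ∈ laurentBaseChange E (modularFunctionFieldFull M) := by
  have := (laurentBaseChange E (modularFunctionFieldFull M)).algebraMap_mem c
  rwa [algebraMap_laurentSeries_eq_single, ← HahnSeries.C_apply] at this

/-- The ring of integral series over `R_E` lying in `F_E`. -/
def OE (M : ℕ) (A : ValuationSubring Qb) (E : IntermediateField ℚ Qb) :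
    Subring (LaurentSeries (RE A E)) :=
  (laurentBaseChange E (modularFunctionFieldFull M)).toSubfield.toSubring.comap
    (coeffMap (RE A E).subtype)

theorem mem_OE {V : LaurentSeries (RE A E)} :
    V ∈ OE M A E ↔
      coeffMap (RE A E).subtype V ∈ laurentBaseChange E (modularFunctionFieldFull M) :=
  Iff.rfl

/-- `R_E((q)) → Q̄((q))`. -/
def incQ (A : ValuationSubring Qb) (E : IntermediateField ℚ Qb) :
    LaurentSeries (RE A E) →+* LaurentSeries Qb :=
  (coeffMap (algebraMap E Qb)).comp (coeffMap (RE A E).subtype)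

theorem incQ_apply (V : LaurentSeries (RE A E)) :
    incQ A E V = coeffMap (algebraMap E Qb) (coeffMap (RE A E).subtype V) := rfl

theorem incQ_eq (V : LaurentSeries (RE A E)) :
    incQ A E V = coeffMap A.subtype (coeffMap (toA A E) V) := by
  rw [incQ_apply, coeffMap_coeffMap, coeffMap_coeffMap, H602.subtype_comp_toA]

theorem incQ_injective : Function.Injective (incQ A E) := by
  intro x y h
  have h1 := H602.coeffMap_injective (algebraMap E Qb) (algebraMap E Qb).injective h
  exact H602.coeffMap_injective (RE A E).subtype Subtype.val_injective h1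

theorem incQ_mem (V : OE M A E) :
    incQ A E (V : LaurentSeries (RE A E)) ∈ modularFunctionFieldBar M :=
  H602.coeffMap_mem_laurentBaseChange _ _ V.2

/-- The element of `Ω` defined by an integral series. -/
def phi (M : ℕ) (A : ValuationSubring Qb) (E : IntermediateField ℚ Qb) : OE M A E →+* Om M where
  toFun V := ⟨incQ A E (V : LaurentSeries (RE A E)), incQ_mem V⟩
  map_one' := Subtype.ext (by simp)
  map_mul' x y := Subtype.ext (by simp)
  map_zero' := Subtype.ext (by simp)
  map_add' x y := Subtype.ext (by simp)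

theorem coe_phi (V : OE M A E) :
    ((phi M A E V : Om M) : LaurentSeries Qb) = incQ A E (V : LaurentSeries (RE A E)) := rfl

theorem phi_injective : Function.Injective (phi M A E) := by
  intro x y h
  have h1 : incQ A E (x : LaurentSeries (RE A E)) = incQ A E (y : LaurentSeries (RE A E)) :=
    congrArg Subtype.val h
  exact Subtype.ext (incQ_injective h1)

theorem phi_mem_Fc (V : OE M A E) : phi M A E V ∈ Fc M E := by
  obtain ⟨f, hf, hfV⟩ := exists_mem_Fc_of_mem_FE (M := M) V.2
  have : phi M A E V = f := Subtype.ext (by rw [coe_phi, incQ_apply, hfV])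
  rw [this]
  exact hf

/-- Reduction of an integral series. -/
def rho (M : ℕ) (A : ValuationSubring Qb) (E : IntermediateField ℚ Qb) :
    OE M A E →+* LaurentSeries (IsLocalRing.ResidueField (RE A E)) :=
  (coeffMap (IsLocalRing.residue (RE A E))).comp (OE M A E).subtype

theorem rho_apply (V : OE M A E) :
    rho M A E V = coeffMap (IsLocalRing.residue (RE A E)) (V : LaurentSeries (RE A E)) := rfl

/-- The reduction over `A` of the series over `A` attached to `V`. -/
theorem residue_toA_eq (V : LaurentSeries (RE A E)) :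
    coeffMap (IsLocalRing.residue A) (coeffMap (toA A E) V) =
      coeffMap (H602.resMap A E) (coeffMap (IsLocalRing.residue (RE A E)) V) :=
  H602.coeffMap_residue_toA A E V

theorem residue_toA_ne_zero_iff (V : LaurentSeries (RE A E)) :
    coeffMap (IsLocalRing.residue A) (coeffMap (toA A E) V) ≠ 0 ↔
      coeffMap (IsLocalRing.residue (RE A E)) V ≠ 0 := by
  rw [residue_toA_eq]
  constructor
  · intro h h0
    exact h (by rw [h0, _root_.map_zero])
  · intro h h0
    apply h
    apply H602.coeffMap_injective (H602.resMap A E) (H602.resMap_injective A E)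
    rw [h0, _root_.map_zero]

theorem isIntE_toA (V : OE M A E) :
    IsIntE M A E (coeffMap (toA A E) (V : LaurentSeries (RE A E))) := by
  refine ⟨fun n => ?_, phi M A E V, phi_mem_Fc V, ?_⟩
  · rw [coeffMap_coeff]
    exact ((V : LaurentSeries (RE A E)).coeff n : E).2
  · rw [coe_phi, incQ_eq]

/-- Every element of `VcSet` is a quotient of two integral series over `R_E`, the denominator
with nonzero reduction. -/
theorem exists_rep_of_mem_VcSet {f : Om M} (hf : f ∈ VcSet M A E) :
    ∃ V₁ V₂ : OE M A E, rho M A E V₂ ≠ 0 ∧ f * phi M A E V₂ = phi M A E V₁ := by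
  obtain ⟨-, U₁, U₂, ⟨-, g₁, hg₁, hgU₁⟩, ⟨-, g₂, hg₂, hgU₂⟩, hne, heq⟩ := hf
  have d₁ := descendsTo_of_mem_Fc hg₁
  have d₂ := descendsTo_of_mem_Fc hg₂
  rw [hgU₁] at d₁
  rw [hgU₂] at d₂
  obtain ⟨V₁, hV₁, hVU₁⟩ := H602.exists_series_descent U₁ d₁
  obtain ⟨V₂, hV₂, hVU₂⟩ := H602.exists_series_descent U₂ d₂
  refine ⟨⟨V₁, hV₁⟩, ⟨V₂, hV₂⟩, ?_, ?_⟩
  · rw [rho_apply]
    rw [← hVU₂] at hne
    exact (residue_toA_ne_zero_iff V₂).mp hne
  · apply Subtype.ext
    show (f : LaurentSeries Qb) * incQ A E V₂ = incQ A E V₁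
    rw [incQ_eq, incQ_eq, hVU₁, hVU₂]
    exact heq

/-- Conversely a quotient of two integral series over `R_E`, the denominator with nonzero
reduction, lies in `VcSet`. -/
theorem mem_VcSet_of_rep {g : Om M} (V₁ V₂ : OE M A E) (h2 : rho M A E V₂ ≠ 0)
    (h : g * phi M A E V₂ = phi M A E V₁) : g ∈ VcSet M A E := by
  have hV₂0 : phi M A E V₂ ≠ 0 := by
    intro h0
    apply h2
    have : V₂ = 0 := phi_injective (by rw [h0, _root_.map_zero])
    rw [this, _root_.map_zero]
  have hg : g = phi M A E V₁ * (phi M A E V₂)⁻¹ := by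
    rw [← h, mul_assoc, mul_inv_cancel₀ hV₂0, mul_one]
  refine ⟨?_, coeffMap (toA A E) (V₁ : LaurentSeries (RE A E)),
    coeffMap (toA A E) (V₂ : LaurentSeries (RE A E)), isIntE_toA V₁, isIntE_toA V₂, ?_, ?_⟩
  · rw [hg]
    exact mul_mem (phi_mem_Fc V₁) (inv_mem (phi_mem_Fc V₂))
  · exact (residue_toA_ne_zero_iff _).mpr h2
  · rw [← incQ_eq, ← incQ_eq, ← coe_phi, ← coe_phi, ← h]
    rfl

theorem coeff_mem_maximalIdeal_of_rho_eq_zero (V : OE M A E) (hV : rho M A E V = 0) (n : ℤ) :
    (V : LaurentSeries (RE A E)).coeff n ∈ IsLocalRing.maximalIdeal (RE A E) := by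
  rw [← IsLocalRing.residue_eq_zero_iff]
  have := congrArg (fun z : LaurentSeries (IsLocalRing.ResidueField (RE A E)) => z.coeff n) hV
  simpa [rho_apply, coeffMap_coeff] using this

/-- A series with zero reduction is divisible by the uniformiser `w`. -/
theorem exists_div_of_rho_eq_zero {w : Om M} (hwm : w ∈ Rc M A E)
    (hwg : ∀ r ∈ Rc M A E, r⁻¹ ∉ Rc M A E → r * w⁻¹ ∈ Rc M A E)
    (V : OE M A E) (hV : rho M A E V = 0) :
    ∃ V' : OE M A E, phi M A E V' = phi M A E V * w⁻¹ := by
  obtain ⟨ϖ, rfl⟩ := mem_Rc_iff_exists_iotaR.mp hwm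
  set c : E := ((ϖ : E))⁻¹ with hc
  set y : LaurentSeries E :=
    HahnSeries.C c * coeffMap (RE A E).subtype (V : LaurentSeries (RE A E)) with hy
  have hcoeff : ∀ n, y.coeff n = c * (((V : LaurentSeries (RE A E)).coeff n : RE A E) : E) := by
    intro n
    rw [hy, HahnSeries.C_mul_eq_smul, HahnSeries.coeff_smul, smul_eq_mul, coeffMap_coeff]
    rfl
  have hrange : ∀ n, y.coeff n ∈ Set.range (RE A E).subtype := by
    intro n
    set r : RE A E := (V : LaurentSeries (RE A E)).coeff n with hr
    by_cases hr0 : r = 0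
    · refine ⟨0, ?_⟩
      rw [hcoeff, ← hr, hr0]
      simp
    have hnu : ¬ IsUnit r := by
      have := coeff_mem_maximalIdeal_of_rho_eq_zero V hV n
      rwa [IsLocalRing.mem_maximalIdeal, mem_nonunits_iff] at this
    have hinv : (iotaR M A E r)⁻¹ ∉ Rc M A E := by
      intro h
      rcases (iotaR_inv_mem_Rc_iff r).mp h with h | h
      · exact hr0 h
      · exact hnu h
    obtain ⟨s, hs⟩ := mem_Rc_iff_exists_iotaR.mp (hwg _ (iotaR_mem_Rc r) hinv)
    refine ⟨s, ?_⟩
    rw [hcoeff, ← hr]
    have hinj : Function.Injective ((iota M).comp (algebraMap E Qb)) :=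
      (iota_injective M).comp (algebraMap E Qb).injective
    apply hinj
    show iotaR M A E s = _
    rw [hs, _root_.map_mul, hc, map_inv₀, mul_comm]
    rfl
  obtain ⟨V', hV'⟩ := H602.exists_coeffMap_eq (RE A E).subtype Subtype.val_injective y hrange
  have hV'mem : V' ∈ OE M A E := by
    rw [mem_OE, hV', hy]
    exact mul_mem (C_mem_FE M c) V.2
  refine ⟨⟨V', hV'mem⟩, ?_⟩
  apply Subtype.ext
  show incQ A E V' = incQ A E (V : LaurentSeries (RE A E)) *
    ((iotaR M A E ϖ : Om M) : LaurentSeries Qb)⁻¹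
  rw [incQ_apply, hV', hy, _root_.map_mul, H516.coeffMap_C, ← incQ_apply, iotaR_apply, coe_iota_single,
    ← HahnSeries.C_apply, ← map_inv₀, hc, map_inv₀, mul_comm]
  rfl

end Fermat.Agent.S18.H576

end
end
-- ===== PACK-END S18/H576/Transport.lean

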