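import Mathlib
import Fermat.Agent.Pack.S33.E13L2
import Fermat.Agent.Pack.S33.E13L1
import Fermat.Agent.Pack.S33.E7L2
import Fermat.Agent.Pack.S33.E1L3
import Fermat.Agent.Pack.S33.E13L3
import Fermat.Agent.Pack.S33.E2L0
import Fermat.Agent.Pack.S33.E14L3
import Fermat.Agent.Pack.S33.E0L1
import Fermat.Agent.Pack.S33.E5L2
import Fermat.Agent.Pack.S33.E10L0
import Fermat.Agent.Pack.S33.E14L2
import Fermat.Agent.Pack.S33.E14L1
import Fermat.Agent.Pack.S33.E6L1
import Fermat.Agent.Pack.S33.E3L0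
import Fermat.Agent.Pack.S33.E14L0
import Fermat.Agent.Pack.S33.E11L1
import Fermat.Agent.Pack.S33.E9L0
import Fermat.Agent.Pack.S33.E13L0
import Fermat.Agent.Pack.S33.E3L3

-- ===== PACK-BEGIN S29/H222/ESKInertia.lean
section
/-
S29 / helper222 — piece ESK-U: inertia at `A` acts trivially on `J₀(N)(ℚ̄)[m]`, from
`S18.CoreStatement N A m` and the Prelude's `PrincipalGeneratedByIntegral`.

Proof: `x = [D]`, `m D = div U₁ - div U₂` (`U₁, U₂` integral).  For `τ` in the inertia group put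
`V₁ = τU₁ · U₂`, `V₂ = U₁ · τU₂`; they have the same reduction, and `div V₁ - div V₂ = m (τD - D)`.
CORE gives `V₁ = c y^m V₂`, hence `τD - D = div y`.
-/


set_option autoImplicit false
set_option linter.style.haveILetI false

noncomputable section

namespace Fermat.Agent.S29.H222

open ModularCurve AlgebraicCurve HahnSeries IsLocalRing
open Fermat.Agent.S18 (Qb IsInt toF CoreStatement)

variable {A : ValuationSubring Qb} {N : ℕ}

/-- `m`-torsion classes: `m • D` is principal. -/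
theorem smul_mem_principal_of_torsion {m : ℕ}
    (D : Divisor.degZero (K := Qb) (F := modularFunctionFieldBar N))
    (hx : (m : ℤ) • (Pic0.mk D : JZero N) = 0) :
    (m : ℤ) • (D : Divisor Qb (modularFunctionFieldBar N))
      ∈ Divisor.principal (K := Qb) (F := modularFunctionFieldBar N) := by
  have hx' : ((m : ℤ) • D : Divisor.degZero (K := Qb) (F := modularFunctionFieldBar N)) ∈
      (Divisor.principal (K := Qb) (F := modularFunctionFieldBar N)).addSubgroupOf
        (Divisor.degZero (K := Qb) (F := modularFunctionFieldBar N)) := by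
    have : Pic0.mk ((m : ℤ) • D) = 0 := hx
    exact (QuotientAddGroup.eq_zero_iff _).mp this
  rw [AddSubgroup.mem_addSubgroupOf] at hx'
  simpa using hx'

/-- Two classes are equal as soon as the difference of the divisors is the divisor of a
function. -/
theorem pic0_mk_eq_of_isDivOf
    (D D' : Divisor.degZero (K := Qb) (F := modularFunctionFieldBar N))
    {y : modularFunctionFieldBar N} (hy : y ≠ 0)
    (h : IsDivOf (K := Qb) y ((D' : Divisor Qb (modularFunctionFieldBar N))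
      - (D : Divisor Qb (modularFunctionFieldBar N)))) :
    (Pic0.mk D' : JZero N) = Pic0.mk D := by
  symm
  refine QuotientAddGroup.eq.mpr ?_
  rw [AddSubgroup.mem_addSubgroupOf]
  refine ⟨y, hy, fun v => ?_⟩
  have := h v
  rw [← this]
  simp [sub_eq_neg_add]

theorem decK_eq_self_of_mem_inertia {g : A.decompositionSubgroup ℚ}
    (hg : g ∈ A.inertiaSubgroup ℚ) (x : ResidueField A) : decK g x = x := by
  have h1 := MonoidHom.mem_ker.mp hg
  exact congrArg (fun e : RingAut (ResidueField A) => e x) h1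

theorem coeffMap_decK_of_mem_inertia {g : A.decompositionSubgroup ℚ}
    (hg : g ∈ A.inertiaSubgroup ℚ) (x : LaurentSeries (ResidueField A)) :
    coeffMap (decK g) x = x := by
  ext n
  rw [coeffMap_coeff, decK_eq_self_of_mem_inertia hg]

/-- **ESK-U.** -/
theorem esk_inertia : ESKInertiaStatement := by
  intro N _ m hm A hcore hpgi τ hτ x hx
  obtain ⟨g, hg, rfl⟩ := hτ
  obtain ⟨D, rfl⟩ := Pic0.mk_surjective x
  obtain ⟨U₁, U₂, h₁, h₂, D₁, D₂, hd₁, hd₂, hDD⟩ :=
    exists_isInt_of_principal hpgi (smul_mem_principal_of_torsion D hx)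
  set G := arithmeticGalois (modularFunctionFieldFull N)
    (((A.decompositionSubgroup ℚ).subtype g : Qb ≃ₐ[ℚ] Qb)) with hG
  have hV₁ : IsInt A N (galA g U₁ * U₂) := isInt_mul (isInt_galA g h₁) h₂
  have hV₂ : IsInt A N (U₁ * galA g U₂) := isInt_mul h₁ (isInt_galA g h₂)
  have hred : coeffMap (residue A) (galA g U₁ * U₂) = coeffMap (residue A) (U₁ * galA g U₂) := by
    rw [_root_.map_mul, _root_.map_mul, coeffMap_residue_galA, coeffMap_residue_galA,
      coeffMap_decK_of_mem_inertia hg, coeffMap_decK_of_mem_inertia hg]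
  have hgd₁ : IsDivOf (toF (isInt_galA g h₁)) (G • D₁) := by
    rw [toF_galA]; exact hd₁.smul G
  have hgd₂ : IsDivOf (toF (isInt_galA g h₂)) (G • D₂) := by
    rw [toF_galA]; exact hd₂.smul G
  have hdV₁ : IsDivOf (toF hV₁) (G • D₁ + D₂) := by
    rw [toF_mul (isInt_galA g h₁) h₂]
    exact hgd₁.mul (toF_ne_zero _) (toF_ne_zero _) hd₂
  have hdV₂ : IsDivOf (toF hV₂) (D₁ + G • D₂) := by
    rw [toF_mul h₁ (isInt_galA g h₂)]
    exact hd₁.mul (toF_ne_zero _) (toF_ne_zero _) hgd₂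
  have hkey : ∀ v : Place Qb (modularFunctionFieldBar N),
      (m : ℤ) * (G • (D : Divisor Qb (modularFunctionFieldBar N)) - D) v
        = v.ord (toF hV₁) - v.ord (toF hV₂) := by
    intro v
    rw [← hdV₁ v, ← hdV₂ v]
    have e1 : ((m : ℤ) • (D : Divisor Qb (modularFunctionFieldBar N))) v = D₁ v - D₂ v := by
      rw [hDD, Finsupp.sub_apply]
    have e2 : ((m : ℤ) • (D : Divisor Qb (modularFunctionFieldBar N))) (G⁻¹ • v)
        = D₁ (G⁻¹ • v) - D₂ (G⁻¹ • v) := by
      rw [hDD, Finsupp.sub_apply]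
    rw [Finsupp.smul_apply, smul_eq_mul] at e1 e2
    simp only [Finsupp.sub_apply, Finsupp.add_apply, SemilinearAut.divisor_smul_apply]
    linear_combination e2 - e1
  have hord : ∀ v : Place Qb (modularFunctionFieldBar N),
      (m : ℤ) ∣ v.ord (toF hV₁) - v.ord (toF hV₂) := fun v => ⟨_, (hkey v).symm⟩
  obtain ⟨c, y, hc, hy, hcy⟩ := hcore _ _ hV₁ hV₂ hred hord
  have hE := isDivOf_of_eq_const_mul_pow hm hc hy (toF_ne_zero hV₂) hcy hkey
  show (((A.decompositionSubgroup ℚ).subtype g : Qb ≃ₐ[ℚ] Qb)) • (Pic0.mk D : JZero N) = Pic0.mk D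
  rw [galois_smul_pic0_def, SemilinearAut.pic0_smul_mk]
  exact pic0_mk_eq_of_isDivOf D _ hy hE

end Fermat.Agent.S29.H222

end
end
-- ===== PACK-END S29/H222/ESKInertia.lean

-- ===== PACK-BEGIN S28/H867/Lower.lean
section




set_option autoImplicit false
noncomputable section
open ModularCurve HahnSeries IntermediateField Polynomial

namespace Fermat.Agent.S28.H867

section Lower

variable (k : Type*) [Field k]

/-- Everything the lower-bound induction needs at level `N`. -/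
structure Good (N : ℕ) : Prop where
  ne_zero : N ≠ 0
  modPoly : ∀ p : ℕ, p.Prime → p ∣ N → ∀ [NeZero p], Nonempty (ModPolyData p)
  prime : ∀ p : ℕ, p.Prime → p ∣ N → ∀ [NeZero p], PrimeLevel k p
  indep : ∀ p : ℕ, p.Prime → p ∣ N → ∀ [NeZero p], LeafI k p
  upper : ∀ M : ℕ, M ∣ N → degE k M ≤ gFun M

variable {k}

theorem Good.of_dvd {N M : ℕ} (h : Good k N) (hMN : M ∣ N) : Good k M where
  ne_zero := fun h0 => h.ne_zero (by rw [h0] at hMN; exact Nat.eq_zero_of_zero_dvd hMN)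
  modPoly := fun p hp hpM => h.modPoly p hp (hpM.trans hMN)
  prime := fun p hp hpM => h.prime p hp (hpM.trans hMN)
  indep := fun p hp hpM => h.indep p hp (hpM.trans hMN)
  upper := fun M' hM' => h.upper M' (hM'.trans hMN)

theorem Good.degE_ne_zero {N : ℕ} (h : Good k N) : degE k N ≠ 0 :=
  H867.degE_ne_zero k N h.ne_zero h.modPoly

variable (k) in
theorem degE_one : degE k 1 = 1 := by
  rw [degE, relfinrank_eq_one_iff]
  show adjoin k (divisorExpansionsC k 1) ≤ jField k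
  rw [adjoin_le_iff]
  rintro x ⟨d, hd, hd1, rfl⟩
  have : d = 1 := Nat.dvd_one.mp hd1
  subst this
  rw [qExpand_one_apply]
  exact jq_mem_jField k

variable (k) in
theorem EF_prime_eq (p : ℕ) [NeZero p] (hp : p.Prime) : EF k p = jField k ⊔ jpField k p := by
  apply le_antisymm
  · show adjoin k (divisorExpansionsC k p) ≤ _
    rw [adjoin_le_iff]
    rintro x ⟨d, hd, hdp, rfl⟩
    rcases (Nat.dvd_prime hp).mp hdp with h1 | h1
    · subst h1
      rw [qExpand_one_apply]
      exact (le_sup_left : jField k ≤ _) (jq_mem_jField k)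
    · subst h1
      exact (le_sup_right : jpField k d ≤ _) (jp_mem_jpField k d)
  · refine sup_le (jField_le_EF k p) ?_
    rw [jpField, adjoin_simple_le_iff]
    exact jqModCd_mem_full k p dvd_rfl

theorem Good.degE_prime {p : ℕ} (hp : p.Prime) (h : Good k p) : degE k p = p + 1 := by
  have : NeZero p := ⟨hp.ne_zero⟩
  rw [degE, EF_prime_eq k p hp]
  exact (h.prime p hp dvd_rfl).deg_j

/-- the (b)-step in `Good` form -/
theorem Good.mul_le {N p : ℕ} (h : Good k N) (hp : p.Prime) (hpN : p ∣ N) :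
    p * degE k (N / p) ≤ degE k N := by
  have : NeZero p := ⟨hp.ne_zero⟩
  have hN : N / p * p = N := Nat.div_mul_cancel hpN
  have := degE_mul_ge k (N / p) p (h.prime p hp hpN) (h.indep p hp hpN)
    (by rw [hN]; exact h.degE_ne_zero)
  rwa [hN] at this

theorem Good.tower {N M : ℕ} (h : Good k N) (hMN : M ∣ N) :
    degE k M * (EF k M).relfinrank (EF k N) = degE k N := by
  have : NeZero N := ⟨h.ne_zero⟩
  have : NeZero M := ⟨(h.of_dvd hMN).ne_zero⟩
  exact relfinrank_mul_relfinrank (jField_le_EF k M) (full_degeneracyC_le k hMN)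

/-- For a prime `p ∣ N` with `p ∤ N / p`: if `[E_{N/p} : k(j)] = g(N/p)`, then `[E_N : k(j)]`
is `p · g(N/p)` or `(p+1) · g(N/p) = g(N)`. -/
theorem Good.dichotomy {N p : ℕ} (h : Good k N) (hp : p.Prime) (hpN : p ∣ N)
    (hpM : ¬ p ∣ N / p) (hM : degE k (N / p) = gFun (N / p)) :
    degE k N = gFun N ∨ degE k N * (p + 1) = p * gFun N := by
  have hN : N / p * p = N := Nat.div_mul_cancel hpN
  have hM0 : N / p ≠ 0 := fun h0 => h.ne_zero (by rw [← hN, h0, zero_mul])
  have hg : gFun N = (p + 1) * gFun (N / p) := by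
    conv_lhs => rw [← hN]
    exact gFun_mul_of_not_dvd hM0 hp hpM
  have htower := h.tower (Nat.div_dvd_of_dvd hpN)
  set a := (EF k (N / p)).relfinrank (EF k N) with ha
  have hup := h.upper N dvd_rfl
  have hlow := h.mul_le hp hpN
  rw [hM] at htower hlow
  have hgpos := gFun_pos (N / p)
  rw [← htower] at hup hlow ⊢
  rw [hg] at hup ⊢
  have ha1 : p ≤ a := by
    rw [mul_comm] at hlow
    exact Nat.le_of_mul_le_mul_left hlow hgpos
  have ha2 : a ≤ p + 1 := by
    rw [mul_comm (p + 1)] at hup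
    exact Nat.le_of_mul_le_mul_left hup hgpos
  rcases Nat.lt_or_ge a (p + 1) with h1 | h1
  · right
    have : a = p := by omega
    rw [this]; ring
  · left
    have : a = p + 1 := by omega
    rw [this]; ring

theorem Good.le_degE : ∀ {N : ℕ}, Good k N → gFun N ≤ degE k N := by
  intro N
  induction N using Nat.strong_induction_on with
  | _ N ih =>
    intro h
    rcases Nat.lt_or_ge 1 N with hN1 | hN1
    swap
    · have : N = 1 := by have := h.ne_zero; omega
      subst this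
      rw [gFun_one, degE_one]
    -- `N > 1`
    by_cases hsq : ∃ r : ℕ, r.Prime ∧ r ∣ N ∧ r ∣ N / r
    · obtain ⟨r, hr, hrN, hrM⟩ := hsq
      have hN : N / r * r = N := Nat.div_mul_cancel hrN
      have hM0 : N / r ≠ 0 := fun h0 => h.ne_zero (by rw [← hN, h0, zero_mul])
      have hlt : N / r < N := Nat.div_lt_self (by omega) hr.one_lt
      have ihM := ih (N / r) hlt (h.of_dvd (Nat.div_dvd_of_dvd hrN))
      calc gFun N = gFun (N / r * r) := by rw [hN]
        _ = r * gFun (N / r) := gFun_mul_of_dvd hM0 hr hrM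
        _ ≤ r * degE k (N / r) := Nat.mul_le_mul_left _ ihM
        _ ≤ degE k N := h.mul_le hr hrN
    · simp only [not_exists, not_and] at hsq
      -- first prime
      set p := N.minFac with hp
      have hpp : p.Prime := Nat.minFac_prime (by omega)
      have hpN : p ∣ N := Nat.minFac_dvd N
      have hN : N / p * p = N := Nat.div_mul_cancel hpN
      rcases Nat.lt_or_ge 1 (N / p) with hM1 | hM1
      swap
      · -- `N = p` is prime
        have hM0 : N / p ≠ 0 := fun h0 => h.ne_zero (by rw [← hN, h0, zero_mul])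
        have : N / p = 1 := Nat.le_antisymm hM1 (Nat.one_le_iff_ne_zero.mpr hM0)
        have hNp : N = p := by rw [← hN, this, one_mul]
        have h' : Good k p := hNp ▸ h
        rw [hNp, gFun_prime hpp, h'.degE_prime hpp]
      -- second prime
      set r := (N / p).minFac with hr
      have hrp : r.Prime := Nat.minFac_prime (by omega)
      have hrM : r ∣ N / p := Nat.minFac_dvd _
      have hrN : r ∣ N := hrM.trans (Nat.div_dvd_of_dvd hpN)
      have hpM : ¬ p ∣ N / p := hsq p hpp hpN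
      have hrM' : ¬ r ∣ N / r := hsq r hrp hrN
      have hne : r ≠ p := fun he => hpM (he ▸ hrM)
      have hltp : N / p < N := Nat.div_lt_self (by omega) hpp.one_lt
      have hltr : N / r < N := Nat.div_lt_self (by omega) hrp.one_lt
      have hMp : degE k (N / p) = gFun (N / p) :=
        le_antisymm (h.upper _ (Nat.div_dvd_of_dvd hpN))
          (ih _ hltp (h.of_dvd (Nat.div_dvd_of_dvd hpN)))
      have hMr : degE k (N / r) = gFun (N / r) :=
        le_antisymm (h.upper _ (Nat.div_dvd_of_dvd hrN))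
          (ih _ hltr (h.of_dvd (Nat.div_dvd_of_dvd hrN)))
      rcases h.dichotomy hpp hpN hpM hMp with h1 | h1
      · exact h1.ge
      rcases h.dichotomy hrp hrN hrM' hMr with h2 | h2
      · exact h2.ge
      exfalso
      have hD : degE k N ≠ 0 := h.degE_ne_zero
      have hD' : 0 < degE k N := Nat.pos_of_ne_zero hD
      have key : degE k N * ((p + 1) * r) = degE k N * ((r + 1) * p) := by
        calc degE k N * ((p + 1) * r) = (degE k N * (p + 1)) * r := by ring
          _ = p * gFun N * r := by rw [h1]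
          _ = (r * gFun N) * p := by ring
          _ = (degE k N * (r + 1)) * p := by rw [h2]
          _ = degE k N * ((r + 1) * p) := by ring
      have := Nat.eq_of_mul_eq_mul_left hD' key
      apply hne
      nlinarith

theorem Good.degE_eq {N : ℕ} (h : Good k N) : degE k N = gFun N :=
  le_antisymm (h.upper N dvd_rfl) h.le_degE

end Lower

end Fermat.Agent.S28.H867

end
end
-- ===== PACK-END S28/H867/Lower.lean

-- ===== PACK-BEGIN S18/H333/HauptMem.lean
section



/-!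
# S18 / c3 (helper333): `t₂ ∈ K(j, j(q²))`, `t₃ ∈ K(j, j(q³))`

For every field `K`:
* `t2 K, t3 K : LaurentSeries K` (images of `t2Z`, `t3Z`), with the four relations
  `t2_rel_a`, `t2_rel_b`, `t3_rel_a`, `t3_rel_b`;
* `t2_mem_full : (2 : K) ≠ 0 → 2 ∣ M → t2 K ∈ modularFunctionFieldFullC K M`;
* `t3_mem_full : (3 : K) ≠ 0 → 3 ∣ M → t3 K ∈ modularFunctionFieldFullC K M`.
Proof: explicit elimination `D t + N = 0` (HauptElim) and `D ≠ 0`, because
`D Δ² Δ₂² = -2²⁴ q⁵ + …`  resp.  `D Δ⁵ Δ₃³ = -3¹⁸ q⁷ + …`  (kernel computation).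
-/

set_option autoImplicit false

noncomputable section

namespace Fermat.Agent.S18.H333

open PowerSeries ModularCurve HahnSeries

/-! ### two more truncation rules -/

theorem tl_ofNat (n : ℕ) (c : ℕ) [c.AtLeastTwo] :
    tl n (ofNat(c) : PowerSeries ℤ) = tsmul n (ofNat(c)) (tone n) := by
  rw [← tl_one, ← tl_smul]
  congr 1
  rw [zsmul_eq_mul, mul_one, Int.cast_ofNat]

theorem tl_neg (n : ℕ) (f : PowerSeries ℤ) : tl n (-f) = tsmul n (-1) (tl n f) := by
  rw [← tl_smul]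
  congr 1
  simp

/-! ### the numerators of `D` -/

/-- `D₂ Δ² Δ₂²` -/
def P2 : PowerSeries ℤ := elimDh2 (Ez ^ 3) Dz (Vser 2 Ez ^ 3) (Vser 2 Dz)

/-- `D₃ Δ⁵ Δ₃³` -/
def P3 : PowerSeries ℤ := elimDh3 (Ez ^ 3) Dz (Vser 3 Ez ^ 3) (Vser 3 Dz)

theorem tl_Ez_8 : tl 8 Ez = [1, 240, 2160, 6720, 17520, 30240, 60480, 82560] := by
  rw [tl_Ez]; decide +kernel

theorem tl_Dz_8 : tl 8 Dz = [0, 1, -24, 252, -1472, 4830, -6048, -16744] := by
  rw [tl_Dz]; decide +kernel

theorem tl_Ez_6 : tl 6 Ez = [1, 240, 2160, 6720, 17520, 30240] := by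
  rw [tl_Ez]; decide +kernel

theorem tl_Dz_6 : tl 6 Dz = [0, 1, -24, 252, -1472, 4830] := by
  rw [tl_Dz]; decide +kernel

theorem tl_P2 : tl 6 P2 = [0, 0, 0, 0, 0, -16777216] := by
  rw [P2, elimDh2]
  simp only [tl_sub, tl_mul, tl_pow, tl_add, tl_neg, tl_ofNat,
    tl_Vser _ _ (show 0 < 2 by norm_num), tl_Dz_6, tl_Ez_6]
  decide +kernel

theorem tl_P3 : tl 8 P3 = [0, 0, 0, 0, 0, 0, 0, -387420489] := by
  rw [P3, elimDh3]
  simp only [tl_sub, tl_mul, tl_pow, tl_add, tl_neg, tl_ofNat,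
    tl_Vser _ _ (show 0 < 3 by norm_num), tl_Dz_8, tl_Ez_8]
  decide +kernel

theorem coeff_P2 : PowerSeries.coeff 5 P2 = -16777216 := by
  have h := tl_getD 6 P2 (i := 5) (by norm_num)
  rw [tl_P2] at h
  simpa using h.symm

theorem coeff_P3 : PowerSeries.coeff 7 P3 = -387420489 := by
  have h := tl_getD 8 P3 (i := 7) (by norm_num)
  rw [tl_P3] at h
  simpa using h.symm

theorem elimD2_mul : elimD2 (jqModC ℤ) (qExpand ℤ 2 (jqModC ℤ)) * DL ^ 2 * qExpand ℤ 2 DL ^ 2
    = ιZ P2 := by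
  rw [elimD2_hom, jZ_mul_DL, qExpand_jZ_mul, P2, map_elimDh2, ← qExpand_ιZ 2 Dz]
  rfl

theorem elimD3_mul : elimD3 (jqModC ℤ) (qExpand ℤ 3 (jqModC ℤ)) * DL ^ 5 * qExpand ℤ 3 DL ^ 3
    = ιZ P3 := by
  rw [elimD3_hom, jZ_mul_DL, qExpand_jZ_mul, P3, map_elimDh3, ← qExpand_ιZ 3 Dz]
  rfl

/-! ### over a field -/

section Field

variable (K : Type*) [Field K]

/-- `t₂` over `K` -/
def t2 : LaurentSeries K := coeffMap (Int.castRingHom K) t2Z

/-- `t₃` over `K` -/
def t3 : LaurentSeries K := coeffMap (Int.castRingHom K) t3Z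

theorem t2_rel_a : jqModC K * t2 K ^ 2 = (t2 K + 256) ^ 3 := by
  have h := congrArg (coeffMap (Int.castRingHom K)) t2Z_rel_a
  simpa only [t2, _root_.map_mul, map_pow, _root_.map_add, map_ofNat, coeffMap_jqModC] using h

theorem t2_rel_b : qExpand K 2 (jqModC K) * t2 K = (t2 K + 16) ^ 3 := by
  have h := congrArg (coeffMap (Int.castRingHom K)) t2Z_rel_b
  simpa only [t2, _root_.map_mul, map_pow, _root_.map_add, map_ofNat, coeffMap_jqModC, coeffMap_qExpand] using h

theorem t3_rel_a : jqModC K * t3 K ^ 3 = (t3 K + 27) * (t3 K + 243) ^ 3 := by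
  have h := congrArg (coeffMap (Int.castRingHom K)) t3Z_rel_a
  simpa only [t3, _root_.map_mul, map_pow, _root_.map_add, map_ofNat, coeffMap_jqModC] using h

theorem t3_rel_b : qExpand K 3 (jqModC K) * t3 K = (t3 K + 27) * (t3 K + 3) ^ 3 := by
  have h := congrArg (coeffMap (Int.castRingHom K)) t3Z_rel_b
  simpa only [t3, _root_.map_mul, map_pow, _root_.map_add, map_ofNat, coeffMap_jqModC, coeffMap_qExpand] using h

theorem coeffMap_ιZ_coeff (P : PowerSeries ℤ) (n : ℕ) :
    (coeffMap (Int.castRingHom K) (ιZ P)).coeff (n : ℤ) = ((PowerSeries.coeff n P : ℤ) : K) := by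
  rw [coeffMap_coeff, ιZ_coeff_nat]
  rfl

theorem elimD2_ne_zero (h2 : (2 : K) ≠ 0) :
    elimD2 (jqModC K) (qExpand K 2 (jqModC K)) ≠ 0 := by
  intro h0
  have h := congrArg (coeffMap (Int.castRingHom K)) elimD2_mul
  rw [_root_.map_mul, _root_.map_mul, map_elimD2, coeffMap_jqModC, coeffMap_qExpand, coeffMap_jqModC, h0,
    zero_mul, zero_mul] at h
  have h5 := congrArg (fun x : LaurentSeries K => x.coeff ((5 : ℕ) : ℤ)) h
  simp only [coeffMap_ιZ_coeff, coeff_P2] at h5
  have : ((-16777216 : ℤ) : K) = -(2 : K) ^ 24 := by push_cast; norm_num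
  rw [this] at h5
  exact neg_ne_zero.mpr (pow_ne_zero 24 h2) h5.symm

theorem elimD3_ne_zero (h3 : (3 : K) ≠ 0) :
    elimD3 (jqModC K) (qExpand K 3 (jqModC K)) ≠ 0 := by
  intro h0
  have h := congrArg (coeffMap (Int.castRingHom K)) elimD3_mul
  rw [_root_.map_mul, _root_.map_mul, map_elimD3, coeffMap_jqModC, coeffMap_qExpand, coeffMap_jqModC, h0,
    zero_mul, zero_mul] at h
  have h5 := congrArg (fun x : LaurentSeries K => x.coeff ((7 : ℕ) : ℤ)) h
  simp only [coeffMap_ιZ_coeff, coeff_P3] at h5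
  have : ((-387420489 : ℤ) : K) = -(3 : K) ^ 18 := by push_cast; norm_num
  rw [this] at h5
  exact neg_ne_zero.mpr (pow_ne_zero 18 h3) h5.symm

/-- explicit formula: `t₂ = -N₂(j, j₂) / D₂(j, j₂)` -/
theorem t2_eq (h2 : (2 : K) ≠ 0) :
    t2 K = -elimN2 (jqModC K) (qExpand K 2 (jqModC K))
      / elimD2 (jqModC K) (qExpand K 2 (jqModC K)) := by
  have h := elim2 (t2 K) _ _ (t2_rel_a K) (t2_rel_b K)
  rw [eq_div_iff (elimD2_ne_zero K h2)]
  linear_combination h

/-- explicit formula: `t₃ = -N₃(j, j₃) / D₃(j, j₃)` -/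
theorem t3_eq (h3 : (3 : K) ≠ 0) :
    t3 K = -elimN3 (jqModC K) (qExpand K 3 (jqModC K))
      / elimD3 (jqModC K) (qExpand K 3 (jqModC K)) := by
  have h := elim3 (t3 K) _ _ (t3_rel_a K) (t3_rel_b K)
  rw [eq_div_iff (elimD3_ne_zero K h3)]
  linear_combination h

variable {K} in
theorem elimD2_mem (F : IntermediateField K (LaurentSeries K)) {j J : LaurentSeries K}
    (hj : j ∈ F) (hJ : J ∈ F) : elimD2 j J ∈ F := by
  have := map_elimD2 (algebraMap F (LaurentSeries K)) ⟨j, hj⟩ ⟨J, hJ⟩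
  exact this ▸ (elimD2 (⟨j, hj⟩ : F) ⟨J, hJ⟩).2

variable {K} in
theorem elimN2_mem (F : IntermediateField K (LaurentSeries K)) {j J : LaurentSeries K}
    (hj : j ∈ F) (hJ : J ∈ F) : elimN2 j J ∈ F := by
  have := map_elimN2 (algebraMap F (LaurentSeries K)) ⟨j, hj⟩ ⟨J, hJ⟩
  exact this ▸ (elimN2 (⟨j, hj⟩ : F) ⟨J, hJ⟩).2

variable {K} in
theorem elimD3_mem (F : IntermediateField K (LaurentSeries K)) {j J : LaurentSeries K}
    (hj : j ∈ F) (hJ : J ∈ F) : elimD3 j J ∈ F := by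
  have := map_elimD3 (algebraMap F (LaurentSeries K)) ⟨j, hj⟩ ⟨J, hJ⟩
  exact this ▸ (elimD3 (⟨j, hj⟩ : F) ⟨J, hJ⟩).2

variable {K} in
theorem elimN3_mem (F : IntermediateField K (LaurentSeries K)) {j J : LaurentSeries K}
    (hj : j ∈ F) (hJ : J ∈ F) : elimN3 j J ∈ F := by
  have := map_elimN3 (algebraMap F (LaurentSeries K)) ⟨j, hj⟩ ⟨J, hJ⟩
  exact this ▸ (elimN3 (⟨j, hj⟩ : F) ⟨J, hJ⟩).2

/-- **`t₂` is a modular function of level `M`** (`2 ∣ M`, `char K ≠ 2`). -/
theorem t2_mem_full (h2 : (2 : K) ≠ 0) (M : ℕ) (hM : 2 ∣ M) :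
    t2 K ∈ modularFunctionFieldFullC K M := by
  have hj : jqModC K ∈ modularFunctionFieldFullC K M := jqModC_mem_full K M
  have hJ : qExpand K 2 (jqModC K) ∈ modularFunctionFieldFullC K M := jqModCd_mem_full K M hM
  rw [t2_eq K h2]
  exact div_mem (neg_mem (elimN2_mem _ hj hJ)) (elimD2_mem _ hj hJ)

/-- **`t₃` is a modular function of level `M`** (`3 ∣ M`, `char K ≠ 3`). -/
theorem t3_mem_full (h3 : (3 : K) ≠ 0) (M : ℕ) (hM : 3 ∣ M) :
    t3 K ∈ modularFunctionFieldFullC K M := by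
  have hj : jqModC K ∈ modularFunctionFieldFullC K M := jqModC_mem_full K M
  have hJ : qExpand K 3 (jqModC K) ∈ modularFunctionFieldFullC K M := jqModCd_mem_full K M hM
  rw [t3_eq K h3]
  exact div_mem (neg_mem (elimN3_mem _ hj hJ)) (elimD3_mem _ hj hJ)

end Field

end Fermat.Agent.S18.H333

end
end
-- ===== PACK-END S18/H333/HauptMem.lean

-- ===== PACK-BEGIN S33/H270/KeySpec.lean
section




/-!
# S33, leaf KEY in the frozen shape of `S33/Spec2.lean`  — helper270

`keyStatement : S33.OrdFilStatement → S33.OldAugStatement → S33.KeyStatement`  (VERBATIM Spec2).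

Proof: dévissage `KeyCore.key_of` along `Y ⊇ Y ∩ ker α ⊇ Y ∩ ker α ∩ ker β`; on the last step
inertia acts through the cyclotomic character by (S1⁺) + (S2), and some `σ₀ ∈ I_P` has
`χ(σ₀) ≢ 1 mod p` (total ramification of `ℚ(ζ_p)` at `p`, `S59.H659.exists_inertia_cycExp_ne_one`).
-/

set_option autoImplicit false
set_option linter.style.haveILetI false

namespace Fermat.Agent.S33.H270

/-- The Spec2 vocabulary is the `KeyCore` vocabulary. -/
theorem spec_iAug_eq {G : Type*} [Group G] {J : Type*} [AddCommGroup J] [DistribMulAction G J]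
    (I : Subgroup G) (Y : AddSubgroup J) : Fermat.Agent.S33.iAug I Y = _root_.Fermat.Agent.S33.H270.iAug I Y := rfl

theorem spec_inSPlus_iff {G : Type*} [Group G] {J : Type*} [AddCommGroup J]
    [DistribMulAction G J] (I : Subgroup G) (p : ℕ) (x : J) :
    Fermat.Agent.S33.InSPlus I p x ↔ _root_.Fermat.Agent.S33.H270.InSPlus I p x := Iff.rfl

/-- DETI in the form used by `KeyCore`: some `σ₀ ∈ I_P` acts on `μ_p` through an exponent `c₀`
with `d * c₀ ≡ d + 1 mod p` for some `d`. -/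
theorem exists_inertia_scalar_spec {p : ℕ} (hp : p.Prime) (hp2 : p ≠ 2)
    (P : ValuationSubring (AlgebraicClosure ℚ)) (hP : P.LiesOverPrime p) :
    ∃ σ₀ ∈ P.inertiaSubgroupIn ℚ, ∃ c₀ d : ℕ,
      (∀ ζ : AlgebraicClosure ℚ, ζ ^ p = 1 → σ₀ ζ = ζ ^ c₀) ∧ d * c₀ ≡ d + 1 [MOD p] := by
  obtain ⟨σ₀, hσ₀, hne⟩ := Fermat.Agent.S59.H659.exists_inertia_cycExp_ne_one p hp hp2 P hP
  obtain ⟨c₀, hc₀⟩ := Fermat.Agent.S59.H659.exists_isCycExp p hp.ne_zero σ₀
  have hc1 : ¬ c₀ ≡ 1 [MOD p] := hne c₀ hc₀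
  haveI : Fact p.Prime := ⟨hp⟩
  have hu : ((c₀ : ZMod p) - 1) ≠ 0 := by
    intro h
    apply hc1
    rw [← ZMod.natCast_eq_natCast_iff]
    rw [sub_eq_zero] at h
    rw [h, Nat.cast_one]
  refine ⟨σ₀, hσ₀, c₀, (((c₀ : ZMod p) - 1)⁻¹).val, hc₀, ?_⟩
  rw [← ZMod.natCast_eq_natCast_iff]
  push_cast
  rw [ZMod.natCast_zmod_val]
  have h1 : ((c₀ : ZMod p) - 1)⁻¹ * ((c₀ : ZMod p) - 1) = 1 := inv_mul_cancel₀ hu
  linear_combination h1

/-- **KEY**, frozen Spec2 shape. -/
theorem keyStatement (hNEW : Fermat.Agent.S33.OrdFilStatement)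
    (hOLD : Fermat.Agent.S33.OldAugStatement) : Fermat.Agent.S33.KeyStatement := by
  intro p N _ hp hp2 hN hN2 P hP
  obtain ⟨M', rfl⟩ := hN
  have hM' : M' ≠ 0 := by
    rintro rfl
    exact NeZero.ne (p * 0) (mul_zero p)
  haveI : NeZero M' := ⟨hM'⟩
  have hpM' : ¬ p ∣ M' := by
    rintro ⟨k, rfl⟩
    exact hN2 ⟨k, by ring⟩
  obtain ⟨α, β, hα, hβ, hfil⟩ := hNEW p M' hp hp2 hpM'
  obtain ⟨𝒮, hS1, hS2⟩ := hfil P hP
  obtain ⟨σ₀, hσ₀, c₀, d, hc₀, hcd⟩ := exists_inertia_scalar_spec hp hp2 P hP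
  intro Y hYG hY
  rw [spec_iAug_eq]
  refine key_of (I := P.inertiaSubgroupIn ℚ) (p := p) α β hα hβ hσ₀ hcd 𝒮
    (fun x hx => hS1 x hx) (fun x hx hpx hαx hβx => hS2 x hx hpx hαx hβx σ₀ hσ₀ c₀ hc₀)
    (fun Y' hY'G hY' => hOLD p M' hp hp2 hpM' P hP Y' hY'G hY') Y hYG hY

end Fermat.Agent.S33.H270

end
-- ===== PACK-END S33/H270/KeySpec.lean

-- ===== PACK-BEGIN S19/H135/Closure.lean
section
/-
Cell A3 / WP-C (helper135): closure properties of Hopf models (the S19 / `IsFlatAt`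
existential) under equivariant sub-objects, quotients, products, finite powers and
sub-quotients, and the glue to `GaloisRepAdic.IsFlatAt` (piece C4).

Everything is relative to the ORD block `Fermat.Agent.S19.OrdStatement` of the frozen A3
interface (order datum on a finite module gives a Hopf model), taken as a hypothesis.
-/





set_option autoImplicit false

namespace Fermat.Agent.S19.H135

open Fermat.Agent.S19

section Adapter

variable {ℓ : ℕ} {M : Type} [AddCommGroup M] {act : GalQ → M → M}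

/-- `FlatModel` is the frozen `HopfModel`. -/
theorem flatModel_iff_hopfModel : FlatModel ℓ M act ↔ HopfModel ℓ M act := Iff.rfl

/-- A Hopf lattice is an order datum of the frozen A3 interface. -/
def IsHopfLattice.toOrderDatum {Λ : Subalgebra (GaloisRep.ratLocalizedAt ℓ) (M → Qb)}
    (hΛ : IsHopfLattice ℓ act Λ) : OrderDatum ℓ M act where
  act_add := hΛ.act_add
  gens := (Λ : Set (M → Qb))
  equivariant := fun f hf => hΛ.equivariant f hf
  integral := fun _ hf m => hΛ.isIntegral_apply hf m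
  separates := hΛ.separates
  add_mem := fun f hf => by
    refine box_induction (C := fun F => F ∈ Algebra.adjoin (Zb ℓ)
      (coordFunctions (Λ : Set (M → Qb)))) (hΛ.comul_mem hf) ?_ ?_
    · intro a ha b hb
      have h1 : (fun p : M × M => a p.1) ∈ Algebra.adjoin (Zb ℓ)
          (coordFunctions (Λ : Set (M → Qb))) :=
        Algebra.subset_adjoin (Or.inl ⟨a, ha, rfl⟩)
      have h2 : (fun p : M × M => b p.2) ∈ Algebra.adjoin (Zb ℓ)
          (coordFunctions (Λ : Set (M → Qb))) :=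
        Algebra.subset_adjoin (Or.inr ⟨b, hb, rfl⟩)
      exact Subalgebra.mul_mem _ h1 h2
    · intro F₁ F₂ h₁ h₂
      exact Subalgebra.add_mem _ h₁ h₂

/-- A Hopf lattice gives a Hopf model (given the ORD block). -/
theorem HasHopfLattice.hopfModel (hord : OrdStatement) [Fact ℓ.Prime]
    (h : HasHopfLattice ℓ M act) : HopfModel ℓ M act := by
  obtain ⟨Λ, hΛ⟩ := h
  have : Finite M := hΛ.finite
  exact hord ℓ M act ⟨hΛ.toOrderDatum⟩

/-- The ORD block implies the hypothesis `Layer0` of this library. -/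
theorem layer0_of_ordStatement (hord : OrdStatement) [Fact ℓ.Prime] : Layer0 ℓ :=
  fun _ _ _ h => h.hopfModel hord

theorem HopfModel.hasHopfLattice_h135 (h : HopfModel ℓ M act) : HasHopfLattice ℓ M act :=
  FlatModel.hasHopfLattice h

/-- A module carrying a Hopf model is finite. -/
theorem HopfModel.finite_h135 (h : HopfModel ℓ M act) : Finite M := by
  obtain ⟨Λ, hΛ⟩ := HopfModel.hasHopfLattice_h135 h
  exact hΛ.finite

/-- The Galois action of a module carrying a Hopf model is additive. -/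
theorem HopfModel.act_add_h135 (h : HopfModel ℓ M act) (σ : GalQ) (m n : M) :
    act σ (m + n) = act σ m + act σ n := by
  obtain ⟨Λ, hΛ⟩ := HopfModel.hasHopfLattice_h135 h
  exact hΛ.act_add σ m n

/-- The Galois action of a module carrying a Hopf model is an action. -/
theorem HopfModel.act_mul_h135 (h : HopfModel ℓ M act) (σ τ : GalQ) (m : M) :
    act (σ * τ) m = act σ (act τ m) := by
  obtain ⟨Λ, hΛ⟩ := HopfModel.hasHopfLattice_h135 h
  exact hΛ.act_mul σ τ m

theorem HopfModel.act_one_h135 (h : HopfModel ℓ M act) (m : M) : act 1 m = m := by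
  obtain ⟨Λ, hΛ⟩ := HopfModel.hasHopfLattice_h135 h
  exact hΛ.act_one m

end Adapter

section Closure

variable (hord : OrdStatement) {ℓ : ℕ} [Fact ℓ.Prime]
variable {M M₁ M₂ : Type} [AddCommGroup M] [AddCommGroup M₁] [AddCommGroup M₂]
  {act : GalQ → M → M} {act₁ : GalQ → M₁ → M₁} {act₂ : GalQ → M₂ → M₂}

include hord

/-- **Sub-objects**: Hopf models restrict along equivariant additive injections. -/
theorem hopfModel_of_injective (h : HopfModel ℓ M act) (i : M₁ →+ M)
    (hi : Function.Injective i) (heq : ∀ σ m, i (act₁ σ m) = act σ (i m)) :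
    HopfModel ℓ M₁ act₁ :=
  ((HopfModel.hasHopfLattice_h135 h).of_injective i hi heq).hopfModel hord

/-- **Transport** along equivariant additive isomorphisms. -/
theorem hopfModel_of_addEquiv (h : HopfModel ℓ M act) (e : M ≃+ M₁)
    (heq : ∀ σ m, e (act σ m) = act₁ σ (e m)) : HopfModel ℓ M₁ act₁ :=
  ((HopfModel.hasHopfLattice_h135 h).of_addEquiv e heq).hopfModel hord

/-- **Quotients**: Hopf models descend along equivariant additive surjections. -/
theorem hopfModel_of_surjective (h : HopfModel ℓ M act) (q : M →+ M₂)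
    (hq : Function.Surjective q) (heq : ∀ σ m, q (act σ m) = act₂ σ (q m)) :
    HopfModel ℓ M₂ act₂ :=
  ((HopfModel.hasHopfLattice_h135 h).of_surjective q hq heq).hopfModel hord

/-- **Sub-quotients**. -/
theorem hopfModel_of_subquotient (h : HopfModel ℓ M act) (i : M₁ →+ M)
    (hi : Function.Injective i) (hieq : ∀ σ m, i (act₁ σ m) = act σ (i m))
    (q : M₁ →+ M₂) (hq : Function.Surjective q) (hqeq : ∀ σ m, q (act₁ σ m) = act₂ σ (q m)) :
    HopfModel ℓ M₂ act₂ :=
  (((HopfModel.hasHopfLattice_h135 h).of_injective i hi hieq).of_surjective q hq hqeq).hopfModel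
    hord

/-- **Binary products**. -/
theorem hopfModel_prod (h₁ : HopfModel ℓ M₁ act₁) (h₂ : HopfModel ℓ M₂ act₂) :
    HopfModel ℓ (M₁ × M₂) (fun σ m => (act₁ σ m.1, act₂ σ m.2)) :=
  ((HopfModel.hasHopfLattice_h135 h₁).prod (HopfModel.hasHopfLattice_h135 h₂)).hopfModel hord

/-- **Finite powers**. -/
theorem hopfModel_power (h : HopfModel ℓ M act) (ι : Type) [Finite ι] :
    HopfModel ℓ (ι → M) (fun σ v i => act σ (v i)) :=
  ((HopfModel.hasHopfLattice_h135 h).power ι).hopfModel hord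

/-- Stable subgroups. -/
theorem hopfModel_addSubgroup (h : HopfModel ℓ M act) (M' : AddSubgroup M)
    (hM' : ∀ σ, ∀ m ∈ M', act σ m ∈ M') :
    HopfModel ℓ M' (fun σ m => ⟨act σ m.1, hM' σ m.1 m.2⟩) :=
  ((HopfModel.hasHopfLattice_h135 h).addSubgroup M' hM').hopfModel hord

end Closure

section C4

variable (hord : OrdStatement) {p : ℕ} [Fact p.Prime]
variable {A : Type} [CommRing A] [IsLocalRing A]

include hord

/-- **Piece C4.**  A Galois representation all of whose finite quotients `V / I V` are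
equivariant sub-quotients of modules carrying Hopf models is flat at `p`. -/
theorem isFlatAt_of_subquotient (ρ : GaloisRepAdic A)
    (hres : Finite (IsLocalRing.ResidueField A))
    (h : ∀ I : Ideal A, Finite (A ⧸ I) →
      ∃ (M : Type) (_ : AddCommGroup M) (act : GalQ → M → M)
        (M₁ : Type) (_ : AddCommGroup M₁) (act₁ : GalQ → M₁ → M₁)
        (i : M₁ →+ M) (q : M₁ →+ ρ.V ⧸ (I • (⊤ : Submodule A ρ.V))),
        HopfModel p M act ∧ Function.Injective i ∧ (∀ σ m, i (act₁ σ m) = act σ (i m)) ∧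
        Function.Surjective q ∧ ∀ σ m, q (act₁ σ m) = ρ.levelAction I σ (q m)) :
    ρ.IsFlatAt p := by
  refine ⟨hres, fun I hI => ?_⟩
  obtain ⟨M, _, act, M₁, _, act₁, i, q, hM, hi, hieq, hq, hqeq⟩ := h I hI
  exact hopfModel_of_subquotient hord hM i hi hieq q hq hqeq

/-- Variant of C4 with the Hopf models provided by the frozen S19 for the torsion of `J₀(N)`:
it suffices to present every `V / I V` as a sub-quotient of a finite power of some
`J₀(N)[p^k]`. -/
theorem isFlatAt_of_subquotient_tors (N : ℕ)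
    (hS19 : ∀ k : ℕ, HopfModel p (Tors N p k) (torsAct N p k))
    (ρ : GaloisRepAdic A) (hres : Finite (IsLocalRing.ResidueField A))
    (h : ∀ I : Ideal A, Finite (A ⧸ I) →
      ∃ (k r : ℕ) (M₁ : Type) (_ : AddCommGroup M₁) (act₁ : GalQ → M₁ → M₁)
        (i : M₁ →+ (Fin r → Tors N p k)) (q : M₁ →+ ρ.V ⧸ (I • (⊤ : Submodule A ρ.V))),
        Function.Injective i ∧ (∀ σ m, i (act₁ σ m) = fun j => torsAct N p k σ (i m j)) ∧
        Function.Surjective q ∧ ∀ σ m, q (act₁ σ m) = ρ.levelAction I σ (q m)) :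
    ρ.IsFlatAt p := by
  refine isFlatAt_of_subquotient hord ρ hres (fun I hI => ?_)
  obtain ⟨k, r, M₁, _, act₁, i, q, hi, hieq, hq, hqeq⟩ := h I hI
  exact ⟨Fin r → Tors N p k, inferInstance, fun σ v j => torsAct N p k σ (v j), M₁, _, act₁, i, q,
    hopfModel_power hord (hS19 k) (Fin r), hi, hieq, hq, hqeq⟩

end C4

section Frozen

/-- The frozen S19 conclusion gives a Hopf model for the torsion module (converse of
`Fermat.Agent.S19.frozen_of_hopfModel`). -/
theorem hopfModel_of_frozenShape (N ℓ k : ℕ)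
    (h : ∃ (H : Type) (_ : CommRing H) (_ : HopfAlgebra (GaloisRep.ratLocalizedAt ℓ) H),
      Module.Finite (GaloisRep.ratLocalizedAt ℓ) H ∧ Module.Flat (GaloisRep.ratLocalizedAt ℓ) H ∧
      Coalgebra.IsCocomm (GaloisRep.ratLocalizedAt ℓ) H ∧
      ∃ e : WithConv (H →ₐ[GaloisRep.ratLocalizedAt ℓ] AlgebraicClosure ℚ) ≃
          ↥(Submodule.torsionBy ℤ (ModularCurve.JZero N) ((ℓ : ℤ) ^ k)),
        (∀ f g, e (f * g) = e f + e g) ∧
        ∀ (σ : AlgebraicClosure ℚ ≃ₐ[ℚ] AlgebraicClosure ℚ)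
          (f g : WithConv (H →ₐ[GaloisRep.ratLocalizedAt ℓ] AlgebraicClosure ℚ)),
          (∀ h : H, g h = σ (f h)) →
            ((e g : ModularCurve.JZero N)) = σ • (e f : ModularCurve.JZero N)) :
    HopfModel ℓ (Tors N ℓ k) (torsAct N ℓ k) := by
  obtain ⟨H, i1, i2, hfin, hflat, hco, e, hmul, hgal⟩ := h
  refine ⟨H, i1, i2, hfin, hflat, hco, e, hmul, ?_⟩
  intro σ f g hfg
  exact Subtype.ext (hgal σ f g hfg)

end Frozen

end Fermat.Agent.S19.H135

end
-- ===== PACK-END S19/H135/Closure.lean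

-- ===== PACK-BEGIN S19/H15/OrdDescent.lean
section


/-!
# Cell A3 (S19) — node ORD, part 2 (helper15): descent `Z̄_(ℓ) → ℤ_(ℓ)`

`mem_of_mem_span_of_equivariant`: for a finitely generated `ℤ_(ℓ)`-subalgebra `Λ` of equivariant
functions `X → Q̄` (any `Gal`-set `X`), an EQUIVARIANT function in the `Z̄_(ℓ)`-span of `Λ` lies
in `Λ`.  (Same proof as helper435's lemma for Hopf lattices, for arbitrary `X`.)
-/

set_option autoImplicit false
set_option linter.style.haveILetI false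

noncomputable section

namespace Fermat.Agent.S19.H15

open Fermat.Agent.S19

variable {ℓ : ℕ} [Fact ℓ.Prime]

theorem isIntegrallyClosed_Rl (q : ℚ) (hq : IsIntegral (Rl ℓ) q) : q ∈ Rl ℓ := by
  haveI : IsPrincipalIdealRing ↥(GaloisRep.ratLocalizedAt ℓ) := inferInstance
  exact H19.mem_of_isIntegral_of_pid (Rl ℓ) q hq

/-- **Descent.** -/
theorem mem_of_mem_span_of_equivariant {X : Type} {act : GalQ → X → X}
    (hone : ∀ m, act 1 m = m) (hact : ∀ σ τ m, act σ (act τ m) = act (σ * τ) m)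
    (Λ : Subalgebra (Rl ℓ) (X → Qb)) (hequiv : ∀ f ∈ Λ, H19.IsEquivariant act f)
    (hfg : (Subalgebra.toSubmodule Λ).FG)
    {u : X → Qb} (hu : u ∈ Submodule.span (Zb ℓ) (Λ : Set (X → Qb)))
    (hueq : H19.IsEquivariant act u) : u ∈ Λ := by
  classical
  haveI : IsPrincipalIdealRing ↥(GaloisRep.ratLocalizedAt ℓ) := inferInstance
  obtain ⟨ι, hι, b, hb⟩ := H19.good_of_equivariant (Rl ℓ) hone hact Λ hequiv hfg
  haveI := Fintype.ofFinite ι
  -- coordinates with integral coefficients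
  have hcoord : ∀ v ∈ Submodule.span (Zb ℓ) (Λ : Set (X → Qb)),
      ∃ W : ι → Qb, (∀ i, IsIntegral (Rl ℓ) (W i)) ∧ v = ∑ i, W i • ((b i : Λ) : X → Qb) := by
    intro v hv
    induction hv using Submodule.span_induction with
    | mem f hf =>
      refine ⟨fun i => algebraMap (Rl ℓ) Qb (b.repr ⟨f, hf⟩ i), fun i => isIntegral_algebraMap, ?_⟩
      have h1 := congrArg (fun g : Λ => (g : X → Qb)) (b.sum_repr ⟨f, hf⟩)
      simp only at h1
      refine h1.symm.trans ?_
      rw [AddSubmonoidClass.coe_finsetSum]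
      refine Finset.sum_congr rfl fun i _ => ?_
      show ((b.repr ⟨f, hf⟩ i) • ((b i : Λ) : X → Qb)) = _
      rw [algebraMap_smul]
    | zero => exact ⟨0, fun i => isIntegral_zero, by simp⟩
    | add x y _ _ hx hy =>
      obtain ⟨W, hW, rfl⟩ := hx
      obtain ⟨W', hW', rfl⟩ := hy
      refine ⟨W + W', fun i => (hW i).add (hW' i), ?_⟩
      simp [add_smul, Finset.sum_add_distrib]
    | smul z x _ hx =>
      obtain ⟨W, hW, rfl⟩ := hx
      refine ⟨fun i => (z : Qb) * W i, fun i => z.2.mul (hW i), ?_⟩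
      show (z : Qb) • (∑ i, W i • ((b i : Λ) : X → Qb)) = _
      rw [Finset.smul_sum]
      refine Finset.sum_congr rfl fun i _ => ?_
      rw [smul_smul]
  obtain ⟨W, hW, rfl⟩ := hcoord u hu
  have hpt : ∀ m : X, (∑ i, W i • ((b i : Λ) : X → Qb)) m = ∑ i, W i * ((b i : Λ) : X → Qb) m := by
    intro m
    simp [Finset.sum_apply]
  have hfix : ∀ (σ : GalQ) (i : ι), σ (W i) = W i := by
    intro σ
    have h0 : ∑ i, (σ (W i) - W i) • ((b i : Λ) : X → Qb) = 0 := by
      funext m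
      simp only [Finset.sum_apply, Pi.smul_apply, smul_eq_mul, Pi.zero_apply, sub_mul,
        Finset.sum_sub_distrib]
      have h1 := hueq σ⁻¹ m
      rw [hpt, hpt] at h1
      have h2 := congrArg σ h1
      rw [map_sum] at h2
      have h3 : σ (σ⁻¹ (∑ i, W i * ((b i : Λ) : X → Qb) m)) = ∑ i, W i * ((b i : Λ) : X → Qb) m :=
        AlgEquiv.apply_symm_apply σ _
      rw [h3] at h2
      rw [← h2, sub_eq_zero]
      refine Finset.sum_congr rfl fun i _ => ?_
      rw [map_mul, hequiv _ (b i).2 σ⁻¹ m]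
      congr 1
      exact (AlgEquiv.apply_symm_apply σ (((b i : Λ) : X → Qb) m)).symm
    intro i
    have := (Fintype.linearIndependent_iff.mp hb) _ h0 i
    exact sub_eq_zero.mp this
  have hr : ∀ i, ∃ r : Rl ℓ, algebraMap (Rl ℓ) Qb r = W i := fun i =>
    H19.mem_range_of_fixed_of_isIntegral (Rl ℓ) isIntegrallyClosed_Rl (W i)
      (fun σ => hfix σ i) (hW i)
  choose r hr using hr
  have : ∑ i, W i • ((b i : Λ) : X → Qb) = ∑ i, r i • ((b i : Λ) : X → Qb) := by
    refine Finset.sum_congr rfl fun i _ => ?_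
    rw [← hr i, algebraMap_smul]
  rw [this]
  exact Subalgebra.sum_mem _ fun i _ => Subalgebra.smul_mem _ (b i).2 _

end Fermat.Agent.S19.H15

end

end
-- ===== PACK-END S19/H15/OrdDescent.lean

-- ===== PACK-BEGIN S19/H679/Level.lean
section


/-!
# Cell A3 (S19), block UNR (helper679) — elements at a finite normal level `E`

`V` a valuation subring of `ℚ̄` over `ℓ`, `D_V ⊇ I_V` its decomposition and inertia groups,
`E ⊂ ℚ̄` a finite normal extension of `ℚ`.

* `exists_repsH679`     : finitely many automorphisms represent all restrictions to `E`;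
* `exists_crtH679`      : for every `n` an inertia-invariant integer `U ∈ E`, `U ≡ 1 mod 𝔪_V`,
                          with `σ U ∈ ℓ ^ n V` for all `σ` not agreeing on `E` with an element of
                          `D_V`;
* `exists_weightsH679`  : inertia-invariant integers `c_j ∈ E` and weights `a_j ∈ V` with
                          `∑ a_j δ(c_j) = 1` or `0` for `δ ∈ D_V`, according to whether `δ`
                          agrees on `E` with an inertia element or not.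
-/

set_option autoImplicit false

namespace Fermat.Agent.S19.H679

open Fermat.Agent.S54 Fermat.Agent.S55.Bridge Fermat.Agent.S55.Bridge.H594
open Polynomial

attribute [local instance] isAlgebraic_Qbar isGalois_Qbar

variable (V : ValuationSubring Qb) (E : IntermediateField ℚ Qb)

/-- Elements of `E` which are algebraic integers fixed by the inertia group of `V`. -/
def IsGoodEltH679 (c : Qb) : Prop :=
  c ∈ E ∧ IsIntegral ℤ c ∧ ∀ ι ∈ V.inertiaSubgroupIn ℚ, ι c = c

theorem IsGoodEltH679.one : IsGoodEltH679 V E 1 :=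
  ⟨E.one_mem, isIntegral_one, fun ι _ => _root_.map_one ι⟩

theorem IsGoodEltH679.mul {a b : Qb} (ha : IsGoodEltH679 V E a) (hb : IsGoodEltH679 V E b) :
    IsGoodEltH679 V E (a * b) :=
  ⟨E.mul_mem ha.1 hb.1, ha.2.1.mul hb.2.1, fun ι hι => by rw [_root_.map_mul, ha.2.2 ι hι, hb.2.2 ι hι]⟩

theorem IsGoodEltH679.prod {ι : Type*} (s : Finset ι) (g : ι → Qb)
    (hg : ∀ i ∈ s, IsGoodEltH679 V E (g i)) : IsGoodEltH679 V E (∏ i ∈ s, g i) := by
  classical
  induction s using Finset.induction_on with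
  | empty => simpa using IsGoodEltH679.one V E
  | insert a s ha ih =>
    rw [Finset.prod_insert ha]
    exact (hg a (Finset.mem_insert_self a s)).mul V E
      (ih fun i hi => hg i (Finset.mem_insert_of_mem hi))

theorem IsGoodEltH679.mem_V {c : Qb} (hc : IsGoodEltH679 V E c) : c ∈ V :=
  isIntegral_mem_valuationSubring V hc.2.1

theorem IsGoodEltH679.apply_mem_V {c : Qb} (hc : IsGoodEltH679 V E c) (σ : GalQ) : σ c ∈ V :=
  isIntegral_mem_valuationSubring V (hc.2.1.map σ)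

section normal

variable [Normal ℚ E]

theorem apply_mem_levelH679 (σ : GalQ) {x : Qb} (hx : x ∈ E) : σ x ∈ E := by
  have := restrictNormalHom_apply E σ ⟨x, hx⟩
  rw [← this]
  exact (AlgEquiv.restrictNormalHom E σ ⟨x, hx⟩).2

theorem agree_iff_restrictH679 (σ τ : GalQ) :
    (∀ x ∈ E, σ x = τ x) ↔ AlgEquiv.restrictNormalHom E σ = AlgEquiv.restrictNormalHom E τ := by
  constructor
  · intro h
    apply AlgEquiv.ext
    intro x
    apply Subtype.ext
    rw [restrictNormalHom_apply, restrictNormalHom_apply]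
    exact h x x.2
  · intro h x hx
    have h1 := restrictNormalHom_apply E σ ⟨x, hx⟩
    have h2 := restrictNormalHom_apply E τ ⟨x, hx⟩
    rw [← h1, ← h2, h]

variable [FiniteDimensional ℚ E]

/-- Finitely many automorphisms represent all restrictions to `E`. -/
theorem exists_repsH679 :
    ∃ reps : Finset GalQ, ∀ σ : GalQ, ∃ ρ ∈ reps, ∀ x ∈ E, σ x = ρ x := by
  classical
  haveI : Fintype (E ≃ₐ[ℚ] E) := Fintype.ofFinite _
  have hsurj := AlgEquiv.restrictNormalHom_surjective (F := ℚ) (K₁ := E) Qb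
  refine ⟨Finset.univ.image (Function.surjInv hsurj), fun σ => ?_⟩
  refine ⟨Function.surjInv hsurj (AlgEquiv.restrictNormalHom E σ),
    Finset.mem_image_of_mem _ (Finset.mem_univ _), ?_⟩
  rw [agree_iff_restrictH679, Function.surjInv_eq hsurj]

end normal

variable {ℓ : ℕ} (hℓ : ℓ.Prime) (hV : (ℓ : Qb) ∈ V.nonunits)

section crt

variable [Normal ℚ E]

include hℓ hV in
/-- One bad automorphism: an integer of `E`, `≡ 1 mod 𝔪_V`, sent into `𝔪_V`. -/
theorem exists_crt1H679 (σ : GalQ)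
    (hσ : ¬ ∃ δ ∈ V.decompositionSubgroup ℚ, ∀ x ∈ E, δ x = σ x) :
    ∃ w : Qb, w ∈ E ∧ IsIntegral ℤ w ∧ w - 1 ∈ V.nonunits ∧ σ w ∈ V.nonunits := by
  have hex : ∃ x : E, IsIntegral ℤ x ∧
      ¬ ((σ (x : Qb)) ∈ V.nonunits ↔ (x : Qb) ∈ V.nonunits) := by
    by_contra hcon
    push Not at hcon
    apply hσ
    obtain ⟨δ, hδ, hδr⟩ := exists_decomposition_lift E V hℓ hV (AlgEquiv.restrictNormalHom E σ)
      (fun x hx => by
        rw [restrictNormalHom_apply]
        exact hcon x hx)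
    exact ⟨δ, hδ, (agree_iff_restrictH679 E δ σ).2 hδr⟩
  obtain ⟨x, hxint, hx⟩ := hex
  have hxint' : IsIntegral ℤ (x : Qb) := hxint.map (IntermediateField.val E)
  have hxV : (x : Qb) ∈ V := isIntegral_mem_valuationSubring V hxint'
  have hσxint : IsIntegral ℤ (σ (x : Qb)) := hxint'.map σ
  have hσxV : σ (x : Qb) ∈ V := isIntegral_mem_valuationSubring V hσxint
  by_cases h1 : (x : Qb) ∈ V.nonunits
  · -- `x ∈ 𝔪`, `σ x ∉ 𝔪`
    have h2 : σ (x : Qb) ∉ V.nonunits := fun h => hx ⟨fun _ => h1, fun _ => h⟩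
    obtain ⟨N, hN, hN'⟩ := exists_pow_sub_one_memH679 V hℓ hV _ hσxint h2
    refine ⟨1 - (x : Qb) ^ N, E.sub_mem E.one_mem (pow_mem x.2 N),
      isIntegral_one.sub (hxint'.pow N), ?_, ?_⟩
    · have : (1 - (x : Qb) ^ N) - 1 = -((x : Qb) ^ (N - 1) * (x : Qb)) := by
        rw [← pow_succ, Nat.sub_add_cancel hN]; ring
      rw [this]
      exact V.nonunits.neg_mem (mul_mem_nonunitsH679 V (pow_mem hxV _) h1)
    · have : σ (1 - (x : Qb) ^ N) = -((σ (x : Qb)) ^ N - 1) := by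
        rw [_root_.map_sub, _root_.map_one, _root_.map_pow]; ring
      rw [this]
      exact V.nonunits.neg_mem hN'
  · -- `x ∉ 𝔪`, `σ x ∈ 𝔪`
    have h2 : σ (x : Qb) ∈ V.nonunits := by
      by_contra h
      exact hx ⟨fun h' => absurd h' h, fun h' => absurd h' h1⟩
    obtain ⟨N, hN, hN'⟩ := exists_pow_sub_one_memH679 V hℓ hV _ hxint' h1
    refine ⟨(x : Qb) ^ N, pow_mem x.2 N, hxint'.pow N, hN', ?_⟩
    rw [_root_.map_pow]
    have : (σ (x : Qb)) ^ N = (σ (x : Qb)) ^ (N - 1) * σ (x : Qb) := by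
      rw [← pow_succ, Nat.sub_add_cancel hN]
    rw [this]
    exact mul_mem_nonunitsH679 V (pow_mem hσxV _) h2

include hℓ hV in
/-- One bad automorphism, with divisibility by `ℓ ^ n`. -/
theorem exists_crt2H679 (n : ℕ) (σ : GalQ)
    (hσ : ¬ ∃ δ ∈ V.decompositionSubgroup ℚ, ∀ x ∈ E, δ x = σ x) :
    ∃ w : Qb, w ∈ E ∧ IsIntegral ℤ w ∧ w - 1 ∈ V.nonunits ∧
      ∃ z ∈ V, σ w = (ℓ : Qb) ^ n * z := by
  obtain ⟨w, hwE, hwint, hw1, hσw⟩ := exists_crt1H679 V E hℓ hV σ hσ
  obtain ⟨k, -, z, hz, hk⟩ := exists_pow_eq_mulH679 V hℓ hV (σ w) (hwint.map σ) hσw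
  refine ⟨w ^ (k * n), pow_mem hwE _, hwint.pow _, ?_, z ^ n, pow_mem hz n, ?_⟩
  · have := prod_sub_one_mem_nonunitsH679 V (Finset.range (k * n)) (fun _ => w) (fun _ _ => hw1)
    simpa using this
  · rw [_root_.map_pow, pow_mul, hk, mul_pow]

variable [FiniteDimensional ℚ E]

include hℓ hV in
/-- **CRT element**: an inertia-invariant integer `U ∈ E`, `U ≡ 1 mod 𝔪_V`, all of whose bad
conjugates are divisible by `ℓ ^ n`. -/
theorem exists_crtH679 (n : ℕ) :
    ∃ U : Qb, IsGoodEltH679 V E U ∧ U - 1 ∈ V.nonunits ∧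
      ∀ σ : GalQ, (¬ ∃ δ ∈ V.decompositionSubgroup ℚ, ∀ x ∈ E, δ x = σ x) →
        ∃ z ∈ V, σ U = (ℓ : Qb) ^ n * z := by
  classical
  obtain ⟨reps, hreps⟩ := exists_repsH679 E
  -- the bad representatives
  set bad : Finset GalQ := reps.filter fun ρ =>
    ¬ ∃ δ ∈ V.decompositionSubgroup ℚ, ∀ x ∈ E, δ x = ρ x with hbad
  have hchoose : ∀ ρ : GalQ, ∃ w : Qb, ρ ∈ bad → (w ∈ E ∧ IsIntegral ℤ w ∧ w - 1 ∈ V.nonunits ∧
      ∃ z ∈ V, ρ w = (ℓ : Qb) ^ n * z) := by
    intro ρ
    by_cases hρ : ρ ∈ bad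
    · obtain ⟨w, hw⟩ := exists_crt2H679 V E hℓ hV n ρ (Finset.mem_filter.1 hρ).2
      exact ⟨w, fun _ => hw⟩
    · exact ⟨0, fun h => absurd h hρ⟩
  choose w hw using hchoose
  set U₀ : Qb := ∏ ρ ∈ bad, w ρ with hU₀
  have hU₀E : U₀ ∈ E := Subring.prod_mem E.toSubfield.toSubring fun ρ hρ => (hw ρ hρ).1
  have hU₀int : IsIntegral ℤ U₀ := IsIntegral.prod _ fun ρ hρ => (hw ρ hρ).2.1
  have hU₀1 : U₀ - 1 ∈ V.nonunits :=
    prod_sub_one_mem_nonunitsH679 V bad w fun ρ hρ => (hw ρ hρ).2.2.1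
  have hU₀bad : ∀ σ : GalQ, (¬ ∃ δ ∈ V.decompositionSubgroup ℚ, ∀ x ∈ E, δ x = σ x) →
      ∃ z ∈ V, σ U₀ = (ℓ : Qb) ^ n * z := by
    intro σ hσ
    obtain ⟨ρ, hρ, hσρ⟩ := hreps σ
    have hρbad : ρ ∈ bad := by
      rw [hbad, Finset.mem_filter]
      refine ⟨hρ, ?_⟩
      rintro ⟨δ, hδ, hδρ⟩
      exact hσ ⟨δ, hδ, fun x hx => (hδρ x hx).trans (hσρ x hx).symm⟩
    obtain ⟨z, hz, hρw⟩ := (hw ρ hρbad).2.2.2
    refine ⟨z * ∏ ρ' ∈ bad.erase ρ, σ (w ρ'), ?_, ?_⟩
    · refine V.mul_mem _ _ hz (Subring.prod_mem V.toSubring fun ρ' hρ' => ?_)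
      exact isIntegral_mem_valuationSubring V
        (((hw ρ' (Finset.mem_of_mem_erase hρ')).2.1).map σ)
    · rw [hU₀, _root_.map_prod, ← Finset.mul_prod_erase bad _ hρbad, hσρ _ (hw ρ hρbad).1, hρw]
      ring
  -- make it inertia-invariant
  set I := V.inertiaSubgroupIn ℚ with hI
  refine ⟨∏ y ∈ orbH679 I U₀, y, ⟨?_, ?_, ?_⟩, ?_, ?_⟩
  · refine Subring.prod_mem E.toSubfield.toSubring fun y hy => ?_
    obtain ⟨ι, -, rfl⟩ := mem_orbH679.1 hy
    exact apply_mem_levelH679 E ι hU₀E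
  · refine IsIntegral.prod _ fun y hy => ?_
    obtain ⟨ι, -, rfl⟩ := mem_orbH679.1 hy
    exact hU₀int.map ι
  · intro ι hι
    exact apply_prod_orbH679 U₀ hι
  · refine prod_sub_one_mem_nonunitsH679 V _ _ fun y hy => ?_
    obtain ⟨ι, hι, rfl⟩ := mem_orbH679.1 hy
    have h1 := inertia_sub_memH679 hι (isIntegral_mem_valuationSubring V hU₀int)
    have : ι U₀ - 1 = (ι U₀ - U₀) + (U₀ - 1) := by ring
    rw [this]
    exact V.nonunits.add_mem h1 hU₀1
  · intro σ hσ
    obtain ⟨z, hz, hσU⟩ := hU₀bad σ hσ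
    refine ⟨z * ∏ y ∈ (orbH679 I U₀).erase U₀, σ y, ?_, ?_⟩
    · refine V.mul_mem _ _ hz (Subring.prod_mem V.toSubring fun y hy => ?_)
      obtain ⟨ι, -, rfl⟩ := mem_orbH679.1 (Finset.mem_of_mem_erase hy)
      exact isIntegral_mem_valuationSubring V ((hU₀int.map ι).map σ)
    · rw [_root_.map_prod, ← Finset.mul_prod_erase _ _ (self_mem_orbH679 I U₀), hσU]
      ring

end crt

section sep

variable [Normal ℚ E]

include hℓ hV in
/-- **Separating element**: a decomposition element which is not inertial on `E` moves the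
residue of some inertia-invariant integer of `E`. -/
theorem exists_sep1H679 (δ : GalQ) (hδ : δ ∈ V.decompositionSubgroup ℚ)
    (hδI : ¬ ∃ ι ∈ V.inertiaSubgroupIn ℚ, ∀ x ∈ E, δ x = ι x) :
    ∃ t : Qb, IsGoodEltH679 V E t ∧ δ t - t ∉ V.nonunits := by
  have hex : ∃ x : E, IsIntegral ℤ x ∧ δ (x : Qb) - (x : Qb) ∉ V.nonunits := by
    by_contra hcon
    push Not at hcon
    apply hδI
    obtain ⟨ι, hι, hιr⟩ := exists_inertia_lift E V hℓ hV (AlgEquiv.restrictNormalHom E δ)
      (fun x hx => by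
        rw [restrictNormalHom_apply]
        exact hcon x hx)
    exact ⟨ι, hι, fun x hx => ((agree_iff_restrictH679 E ι δ).2 hιr x hx).symm⟩
  obtain ⟨x, hxint, hx⟩ := hex
  have hxint' : IsIntegral ℤ (x : Qb) := hxint.map (IntermediateField.val E)
  have hxV : (x : Qb) ∈ V := isIntegral_mem_valuationSubring V hxint'
  set I := V.inertiaSubgroupIn ℚ with hI
  set Q := orbPolyH679 I (x : Qb) with hQ
  have horbE : ∀ y ∈ orbH679 I (x : Qb), y ∈ E := by
    intro y hy
    obtain ⟨ι, -, rfl⟩ := mem_orbH679.1 hy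
    exact apply_mem_levelH679 E ι x.2
  have horbint : ∀ y ∈ orbH679 I (x : Qb), IsIntegral ℤ y := by
    intro y hy
    obtain ⟨ι, -, rfl⟩ := mem_orbH679.1 hy
    exact hxint'.map ι
  have hgood : ∀ j, IsGoodEltH679 V E (Q.coeff j) := by
    intro j
    refine ⟨?_, ?_, fun ι hι => apply_coeff_orbPolyH679 (x : Qb) hι j⟩
    · exact coeff_prod_X_sub_C_memH679 E.toSubfield.toSubring _ horbE j
    · exact coeff_prod_X_sub_C_memH679 (integralClosure ℤ Qb).toSubring _ horbint j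
  by_contra hcon
  push Not at hcon
  have hall : ∀ j, δ (Q.coeff j) - Q.coeff j ∈ V.nonunits := fun j =>
    hcon (Q.coeff j) (hgood j)
  -- evaluate `Q^δ - Q` at `x`
  have hdeg : (Q.map (δ : Qb →+* Qb)).natDegree = Q.natDegree :=
    Polynomial.natDegree_map_eq_of_injective δ.injective Q
  have h1 : (Q.map (δ : Qb →+* Qb)).eval (x : Qb) - Q.eval (x : Qb)
      = ∑ i ∈ Finset.range (Q.natDegree + 1), (δ (Q.coeff i) - Q.coeff i) * (x : Qb) ^ i := by
    rw [Polynomial.eval_eq_sum_range, Polynomial.eval_eq_sum_range, hdeg, ← Finset.sum_sub_distrib]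
    refine Finset.sum_congr rfl fun i _ => ?_
    rw [Polynomial.coeff_map, sub_mul]
    rfl
  have h2 : (Q.map (δ : Qb →+* Qb)).eval (x : Qb) ∈ V.nonunits := by
    have h3 : Q.eval (x : Qb) = 0 := orbPolyH679_eval_self I (x : Qb)
    rw [h3, sub_zero] at h1
    rw [h1]
    refine V.nonunits.sum_mem fun i _ => ?_
    exact mul_mem_nonunitsH679' V (hall i) (pow_mem hxV i)
  have h4 : (Q.map (δ : Qb →+* Qb)).eval (x : Qb)
      = ∏ y ∈ orbH679 I (x : Qb), ((x : Qb) - δ y) := by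
    rw [hQ, orbPolyH679, Polynomial.map_prod, Polynomial.eval_prod]
    refine Finset.prod_congr rfl fun y _ => ?_
    simp
  rw [h4] at h2
  obtain ⟨y, hy, hy'⟩ := exists_mem_nonunits_of_prodH679 V _ _ (fun y hy =>
    sub_mem hxV (isIntegral_mem_valuationSubring V ((horbint y hy).map δ))) h2
  obtain ⟨ι, hι, rfl⟩ := mem_orbH679.1 hy
  have h5 : δ (ι (x : Qb)) - δ (x : Qb) ∈ V.nonunits := by
    rw [← _root_.map_sub]
    exact (mem_nonunits_decompH679 hδ _).2 (inertia_sub_memH679 hι hxV)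
  apply hx
  have h6 : δ (x : Qb) - (x : Qb) = -(((x : Qb) - δ (ι (x : Qb))) + (δ (ι (x : Qb)) - δ (x : Qb))) := by
    ring
  rw [h6]
  exact V.nonunits.neg_mem (V.nonunits.add_mem hy' h5)

variable [FiniteDimensional ℚ E]

include hℓ hV in
/-- **Lagrange weights** for the unramified part of the descent. -/
theorem exists_weightsH679 :
    ∃ (J : Type) (_ : Fintype J) (c : J → Qb) (a : J → V),
      (∀ j, IsGoodEltH679 V E (c j)) ∧
      (∀ δ ∈ V.decompositionSubgroup ℚ, (∃ ι ∈ V.inertiaSubgroupIn ℚ, ∀ x ∈ E, δ x = ι x) →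
        ∑ j, (a j : Qb) * δ (c j) = 1) ∧
      (∀ δ ∈ V.decompositionSubgroup ℚ, (¬ ∃ ι ∈ V.inertiaSubgroupIn ℚ, ∀ x ∈ E, δ x = ι x) →
        ∑ j, (a j : Qb) * δ (c j) = 0) := by
  classical
  obtain ⟨reps, hreps⟩ := exists_repsH679 E
  set B : Finset GalQ := reps.filter fun ρ =>
    ∃ δ ∈ V.decompositionSubgroup ℚ, (∀ x ∈ E, δ x = ρ x) ∧
      ¬ ∃ ι ∈ V.inertiaSubgroupIn ℚ, ∀ x ∈ E, δ x = ι x with hB
  have hchoose : ∀ ρ : GalQ, ∃ (δ : GalQ) (t : Qb), ρ ∈ B →
      ((∀ x ∈ E, δ x = ρ x) ∧ IsGoodEltH679 V E t ∧ δ t - t ∉ V.nonunits) := by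
    intro ρ
    by_cases hρ : ρ ∈ B
    · obtain ⟨δ, hδ, hδρ, hδI⟩ := (Finset.mem_filter.1 hρ).2
      obtain ⟨t, ht, ht'⟩ := exists_sep1H679 V E hℓ hV δ hδ hδI
      exact ⟨δ, t, fun _ => ⟨hδρ, ht, ht'⟩⟩
    · exact ⟨1, 0, fun h => absurd h hρ⟩
  choose d t hdt using hchoose
  set β : GalQ → Qb := fun ρ => d ρ (t ρ) with hβ
  have hβV : ∀ ρ ∈ B, β ρ ∈ V := fun ρ hρ => (hdt ρ hρ).2.1.apply_mem_V V E (d ρ)
  have hunit : ∀ ρ ∈ B, (t ρ - β ρ)⁻¹ ∈ V := by
    intro ρ hρ
    apply inv_mem_of_not_mem_nonunitsH679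
    intro h
    apply (hdt ρ hρ).2.2
    have : d ρ (t ρ) - t ρ = -(t ρ - β ρ) := by rw [hβ]; ring
    rw [this]
    exact V.nonunits.neg_mem h
  have hne : ∀ ρ ∈ B, t ρ - β ρ ≠ 0 := by
    intro ρ hρ h
    apply (hdt ρ hρ).2.2
    have : d ρ (t ρ) - t ρ = -(t ρ - β ρ) := by rw [hβ]; ring
    rw [this, h, neg_zero]
    exact V.nonunits.zero_mem
  set κ : Qb := ∏ ρ ∈ B, (t ρ - β ρ)⁻¹ with hκ
  have hκV : κ ∈ V := Subring.prod_mem V.toSubring hunit
  have haV : ∀ S : Finset GalQ, S ∈ B.powerset → κ * ∏ ρ ∈ B \ S, (-β ρ) ∈ V := by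
    intro S _
    refine V.mul_mem _ _ hκV (Subring.prod_mem V.toSubring fun ρ hρ => ?_)
    exact V.neg_mem _ (hβV ρ (Finset.mem_sdiff.1 hρ).1)
  -- the key identity
  have hkey : ∀ δ : GalQ, ∑ S ∈ B.powerset, (κ * ∏ ρ ∈ B \ S, (-β ρ)) * δ (∏ ρ ∈ S, t ρ)
      = κ * ∏ ρ ∈ B, (δ (t ρ) - β ρ) := by
    intro δ
    have h1 : ∏ ρ ∈ B, (δ (t ρ) - β ρ) = ∏ ρ ∈ B, (δ (t ρ) + (-β ρ)) :=
      Finset.prod_congr rfl fun ρ _ => sub_eq_add_neg _ _
    rw [h1, Finset.prod_add, Finset.mul_sum]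
    refine Finset.sum_congr rfl fun S _ => ?_
    rw [_root_.map_prod]
    ring
  refine ⟨↥B.powerset, inferInstance, fun S => ∏ ρ ∈ S.1, t ρ,
    fun S => ⟨κ * ∏ ρ ∈ B \ S.1, (-β ρ), haV S.1 S.2⟩, ?_, ?_, ?_⟩
  · intro S
    refine IsGoodEltH679.prod V E _ _ fun ρ hρ => (hdt ρ ?_).2.1
    exact Finset.mem_powerset.1 S.2 hρ
  · intro δ _ hδI
    obtain ⟨ι, hι, hδι⟩ := hδI
    have hsum := Finset.sum_coe_sort B.powerset
      (fun S => (κ * ∏ ρ ∈ B \ S, (-β ρ)) * δ (∏ ρ ∈ S, t ρ))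
    rw [hkey] at hsum
    show ∑ S : ↥B.powerset, (κ * ∏ ρ ∈ B \ S.1, (-β ρ)) * δ (∏ ρ ∈ S.1, t ρ) = 1
    rw [hsum]
    have h2 : ∀ ρ ∈ B, δ (t ρ) = t ρ := by
      intro ρ hρ
      rw [hδι _ (hdt ρ hρ).2.1.1]
      exact (hdt ρ hρ).2.1.2.2 ι hι
    rw [Finset.prod_congr rfl fun ρ hρ => by rw [h2 ρ hρ], hκ, ← Finset.prod_mul_distrib]
    exact Finset.prod_eq_one fun ρ hρ => inv_mul_cancel₀ (hne ρ hρ)
  · intro δ hδ hδI
    have hsum := Finset.sum_coe_sort B.powerset
      (fun S => (κ * ∏ ρ ∈ B \ S, (-β ρ)) * δ (∏ ρ ∈ S, t ρ))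
    rw [hkey] at hsum
    show ∑ S : ↥B.powerset, (κ * ∏ ρ ∈ B \ S.1, (-β ρ)) * δ (∏ ρ ∈ S.1, t ρ) = 0
    rw [hsum]
    obtain ⟨ρ, hρ, hδρ⟩ := hreps δ
    have hρB : ρ ∈ B := by
      rw [hB, Finset.mem_filter]
      exact ⟨hρ, δ, hδ, hδρ, hδI⟩
    have h3 : δ (t ρ) - β ρ = 0 := by
      rw [hβ, sub_eq_zero, hδρ _ (hdt ρ hρB).2.1.1, ← (hdt ρ hρB).1 _ (hdt ρ hρB).2.1.1]
    rw [Finset.prod_eq_zero hρB h3, mul_zero]

end sep

end Fermat.Agent.S19.H679

end
-- ===== PACK-END S19/H679/Level.lean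

-- ===== PACK-BEGIN A2/H553/Bridge708.lean
section




/-!
# A2 / VINF (helper553): the two definitions of `V∞` on main agree

`Fermat.Agent.A2.H553.Vinf A F₀ h` (fractions `a / b` of `A`-integral series, `b` primitive) and
`Fermat.Agent.A2.H708.gaussInf A F₀ hgen hmax` (the same with `b ∈ F`) are the SAME valuation
subring of `Q̄ · F₀`.  So every statement proved for one of them transfers to the other by `rw`.
-/

set_option autoImplicit false
set_option linter.unusedSectionVars false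

noncomputable section

namespace Fermat.Agent.A2.H553

open ModularCurve HahnSeries IntermediateField
open Fermat.Agent.S28.H86

local notation "Q̄" => AlgebraicClosure ℚ

variable {A : ValuationSubring Q̄} {F₀ : IntermediateField ℚ (LaurentSeries ℚ)}

theorem Vinf_eq_gaussInf (h : GaussInput A F₀) (hgen : Fermat.Agent.A2.H708.IntGen F₀)
    (hmax : Fermat.Agent.A2.H708.AttainsMax A F₀) :
    Vinf A F₀ h = Fermat.Agent.A2.H708.gaussInf A F₀ hgen hmax := by
  ext f
  constructor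
  · intro hf
    rcases eq_or_ne f 0 with rfl | hf0
    · exact Subring.zero_mem _
    have hf0' : (f : LaurentSeries Q̄) ≠ 0 := fun h0 => hf0 (Subtype.ext h0)
    obtain ⟨c, U₁, U₂, hc, h₁, h₂, hm₁, hm₂, he⟩ :=
      Fermat.Agent.A2.H708.exists_normal_form hgen hmax f.2 hf0'
    refine (Fermat.Agent.A2.H708.isGaussInt_iff_of_normal_form h₁ h₂ hm₂ he).mpr ?_
    -- read off `c ∈ A` from membership in `gaussA A`
    have he' : (f : LaurentSeries Q̄) * inclL A.toSubring U₂ =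
        HahnSeries.C c * inclL A.toSubring U₁ := by
      have : (HahnSeries.C c : LaurentSeries Q̄) = algebraMap Q̄ (LaurentSeries Q̄) c := by
        rw [algebraMap_laurentSeries_eq_single]; rfl
      rw [this]
      exact he
    exact HasGaussForm.const_mem_of_mem (A := A) (a := U₁) (b := U₂) h₁ he' hf
  · rintro ⟨U₁, U₂, h₂, -, he⟩
    exact ⟨U₁, U₂, h₂, he⟩

end Fermat.Agent.A2.H553

end
end
-- ===== PACK-END A2/H553/Bridge708.lean

-- ===== PACK-BEGIN A2/H729/GaussUnits.lean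
section


/-!
# A2 (helper729): units and roots in the canonical Gauss ring

* `mem_chart_of_pow_mem`, `mem_gaussO_of_pow_mem` : the charts and the Gauss ring are closed under
  taking roots (they are integrally closed in `F`).
* `inv_one_add_mem_gaussO` : `w` lies in the Jacobson radical of the Gauss ring:
  `t ∈ O → (1 + w t)⁻¹ ∈ O`.
* `inW_inv_sub_one` : `h ≡ 1 mod w O → h⁻¹ ≡ 1 mod w O`.
-/

set_option autoImplicit false
set_option linter.unusedSectionVars false

namespace Fermat.Agent.A2.H729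

open Polynomial Fermat.Agent.S18.H138

variable {R : Type*} [CommRing R] {F : Type*} [Field F] [Algebra R F]

theorem mem_chart_of_pow_mem {S : Set F} {z : F} {n : ℕ} (hn : 0 < n)
    (h : z ^ n ∈ chart R S) : z ∈ chart R S := by
  rw [mem_chart] at h ⊢
  exact IsIntegral.of_pow hn h

theorem mem_gaussO_of_pow_mem {w : R} (hw : Prime w) {x z : F} {n : ℕ} (hn : 0 < n)
    (h : z ^ n ∈ gaussO hw x) : z ∈ gaussO hw x := by
  obtain ⟨s, hs, hsz⟩ := h
  refine ⟨s, hs, mem_chart_of_pow_mem hn ?_⟩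
  have : (s * z) ^ n = s ^ (n - 1) * (s * z ^ n) := by
    rw [mul_pow, ← mul_assoc, ← pow_succ]
    congr 2
    omega
  rw [this]
  exact Subalgebra.mul_mem _ (Subalgebra.pow_mem _ (adjoin_le_chart _ hs.mem_adjoin) _) hsz

section Transcendental

variable [IsDomain R]

theorem not_C_dvd_symm {w : R} {x : F} (hx : Transcendental R x)
    {a : Algebra.adjoin R ({x} : Set F)}
    (ha : ¬ algebraMap R (Algebra.adjoin R ({x} : Set F)) w ∣ a) :
    ¬ C w ∣ (adjoinEquiv hx).symm a := by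
  rintro ⟨q, hq⟩
  apply ha
  refine ⟨adjoinEquiv hx q, ?_⟩
  have h1 := congrArg (adjoinEquiv hx) hq
  rw [AlgEquiv.apply_symm_apply, _root_.map_mul] at h1
  rw [h1]
  congr 1
  apply Subtype.ext
  rw [coe_adjoinEquiv, aeval_C]
  rfl

theorem isGaussDenom_of_not_dvd {w : R} {x : F} (hx : Transcendental R x)
    {a : Algebra.adjoin R ({x} : Set F)}
    (ha : ¬ algebraMap R (Algebra.adjoin R ({x} : Set F)) w ∣ a) :
    IsGaussDenom w x (a : F) := by
  refine ⟨(adjoinEquiv hx).symm a, not_C_dvd_symm hx ha, ?_⟩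
  rw [← coe_adjoinEquiv hx, AlgEquiv.apply_symm_apply]

/-- `w` is in the Jacobson radical of the Gauss ring. -/
theorem one_add_unit_gaussO {w : R} (hw : Prime w) {x : F} (hx : Transcendental R x)
    {t : F} (ht : t ∈ gaussO hw x) :
    (1 + algebraMap R F w * t) ≠ 0 ∧ (1 + algebraMap R F w * t)⁻¹ ∈ gaussO hw x := by
  classical
  obtain ⟨s, ⟨Q, hQ, rfl⟩, hst⟩ := ht
  set A := Algebra.adjoin R ({x} : Set F) with hA
  set w' : A := algebraMap R A w with hw'
  have hw'p : Prime w' := prime_algebraMap_adjoin hw hx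
  set sA : A := adjoinEquiv hx Q with hsA
  have hsA' : ¬ w' ∣ sA := not_dvd_adjoinEquiv hx hQ
  have hsAcoe : (sA : F) = aeval x Q := coe_adjoinEquiv hx Q
  set c : F := aeval x Q * t with hc
  obtain ⟨m, hm, hmc⟩ := (mem_chart.1 hst : IsIntegral A c)
  set n := m.natDegree with hn
  set P : A[X] := (m.scaleRoots w').comp (X - C sA) with hP
  set β : F := aeval x Q + algebraMap R F w * c with hβ
  have hβC : β ∈ chart R ({x} : Set F) :=
    Subalgebra.add_mem _ (adjoin_le_chart _ (mem_adjoin_singleton_iff.2 ⟨Q, rfl⟩))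
      (Subalgebra.mul_mem _ (Subalgebra.algebraMap_mem _ w) hst)
  -- `P(β) = 0`
  have hPβ : aeval β P = 0 := by
    rw [hP, aeval_comp]
    have h1 : aeval β (X - C sA : A[X]) = algebraMap A F w' * c := by
      rw [_root_.map_sub, aeval_X, aeval_C]
      have : algebraMap A F sA = aeval x Q := hsAcoe
      rw [this, hβ]
      have : algebraMap A F w' = algebraMap R F w := rfl
      rw [this]
      ring
    rw [h1]
    exact scaleRoots_aeval_eq_zero hmc
  -- constant term of `P`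
  have hP0 : ¬ w' ∣ P.coeff 0 := by
    rw [coeff_zero_eq_eval_zero, hP, eval_comp]
    have h0 : eval 0 (X - C sA : A[X]) = -sA := by simp
    rw [h0, eval_eq_sum_range, natDegree_scaleRoots, Finset.sum_range_succ]
    intro hdvd
    have hlow : w' ∣ ∑ i ∈ Finset.range m.natDegree,
        (m.scaleRoots w').coeff i * (-sA) ^ i := by
      refine Finset.dvd_sum fun i hi => ?_
      rw [coeff_scaleRoots]
      have hi' : 0 < m.natDegree - i := by
        have := Finset.mem_range.1 hi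
        omega
      exact Dvd.dvd.mul_right (Dvd.dvd.mul_left (dvd_pow_self _ hi'.ne') _) _
    have htop : w' ∣ (m.scaleRoots w').coeff m.natDegree * (-sA) ^ m.natDegree :=
      (dvd_add_right hlow).1 hdvd
    rw [coeff_scaleRoots, Nat.sub_self, pow_zero, mul_one, hm.coeff_natDegree, one_mul] at htop
    have := hw'p.dvd_of_dvd_pow htop
    exact hsA' ((dvd_neg).1 this)
  -- `β * γ = p₀`
  set γ : F := -aeval β P.divX with hγ
  have hγC : γ ∈ chart R ({x} : Set F) := by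
    rw [hγ]
    refine Subalgebra.neg_mem _ ?_
    rw [aeval_eq_sum_range]
    refine Subalgebra.sum_mem _ fun i _ => ?_
    rw [Algebra.smul_def]
    exact Subalgebra.mul_mem _ (adjoin_le_chart _ (P.divX.coeff i).2)
      (Subalgebra.pow_mem _ hβC i)
  have hβγ : β * γ = ((P.coeff 0 : A) : F) := by
    have h1 : aeval β (P.divX * X + C (P.coeff 0)) = 0 := by rw [divX_mul_X_add, hPβ]
    rw [_root_.map_add, _root_.map_mul, aeval_X, aeval_C] at h1
    have h2 : algebraMap A F (P.coeff 0) = ((P.coeff 0 : A) : F) := rfl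
    rw [h2] at h1
    rw [hγ]
    linear_combination -h1
  have hp0 : ((P.coeff 0 : A) : F) ≠ 0 := by
    intro h
    have : P.coeff 0 = 0 := Subtype.ext h
    exact hP0 (this ▸ dvd_zero _)
  have hβ0 : β ≠ 0 := fun h => hp0 (by rw [← hβγ, h, zero_mul])
  have hz : β = aeval x Q * (1 + algebraMap R F w * t) := by
    rw [hβ, hc]; ring
  have hz0 : (1 + algebraMap R F w * t) ≠ 0 := fun h => hβ0 (by rw [hz, h, mul_zero])
  refine ⟨hz0, ((P.coeff 0 : A) : F), isGaussDenom_of_not_dvd hx hP0, ?_⟩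
  have : ((P.coeff 0 : A) : F) * (1 + algebraMap R F w * t)⁻¹ = aeval x Q * γ := by
    rw [← hβγ, hz]
    field_simp
  rw [this]
  exact Subalgebra.mul_mem _ (adjoin_le_chart _ (mem_adjoin_singleton_iff.2 ⟨Q, rfl⟩)) hγC

theorem inv_one_add_mem_gaussO {w : R} (hw : Prime w) {x : F} (hx : Transcendental R x)
    {t : F} (ht : t ∈ gaussO hw x) : (1 + algebraMap R F w * t)⁻¹ ∈ gaussO hw x :=
  (one_add_unit_gaussO hw hx ht).2

/-- `h ≡ 1 mod w O` implies `h ≠ 0`, `h⁻¹ ∈ O` and `h⁻¹ ≡ 1 mod w O`. -/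
theorem inW_inv_sub_one {w : R} (hw : Prime w) {x : F} (hx : Transcendental R x)
    {h : F} (hh : InW (gaussO hw x) w (h - 1)) :
    h ≠ 0 ∧ h⁻¹ ∈ gaussO hw x ∧ InW (gaussO hw x) w (h⁻¹ - 1) := by
  obtain ⟨t, ht, htt⟩ := hh
  have hh' : h = 1 + algebraMap R F w * t := by rw [← htt]; ring
  obtain ⟨hne, hinv⟩ := one_add_unit_gaussO hw hx ht
  rw [← hh'] at hne hinv
  refine ⟨hne, hinv, ⟨-(h⁻¹ * t), Subalgebra.neg_mem _ (Subalgebra.mul_mem _ hinv ht), ?_⟩⟩
  field_simp
  rw [hh']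
  ring

end Transcendental

end Fermat.Agent.A2.H729

end
-- ===== PACK-END A2/H729/GaussUnits.lean

-- ===== PACK-BEGIN A2/H489/ChartB.lean
section



/-!
# A2 / MODASM step S1 (helper489): the two components of a chart, from an explicit coordinate

`R` a discrete valuation ring with uniformiser `w`, `E = Frac R`, `F ⊇ E` a field, `y ∈ F` a
coordinate, `V₁ ≠ V₂` valuation subrings of `F` inducing the Gauss valuation on `E(y)`
(`IsGaussOver`), both with uniformiser `w`, with `R[y]`-independent families modulo the maximal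
ideals (`PolyIndepMod`) of total size `≥ [F : E(y)]`.

* `gaussPairLe_of_frame` : the hypotheses `H48.GaussPairLe` for the `R[X]`-algebra structure
  `X ↦ y` (all instances are constructed here);
* `frame_exists_components` : for the chart `B` = integral closure of `R[y]`
  (`f ∈ B ↔ IsIntegral (Algebra.adjoin R {y}) f`) there are prime ideals `p₁ p₂` of `B` with
  `b ∈ p_i ↔ b ∈ 𝔪_{V_i}`, incomparable, and `p₁ ⊓ p₂ = w B`
  (= the fields `p₁ … inf_eq` of `Fermat.Agent.A2.SSChart`).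
-/

set_option autoImplicit false
set_option linter.style.haveILetI false
set_option linter.unusedSectionVars false

namespace Fermat.Agent.A2.H489

open IsLocalRing Polynomial IntermediateField

section Inj

variable {R F : Type*} [CommRing R] [IsDomain R] [IsDiscreteValuationRing R]
  [Field F] [Algebra R F]

/-- the coordinate of a Gauss valuation is transcendental over `R` -/
theorem IsGaussOver.aeval_injective (E : Type*) [Field E] [Algebra R E] [IsFractionRing R E]
    [Algebra E F] [IsScalarTower R E F] {V : ValuationSubring F} {y : F}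
    (h : IsGaussOver R V y) :
    Function.Injective (aeval y : R[X] → F) := by
  rw [injective_iff_map_eq_zero]
  intro P hP
  by_contra hP0
  obtain ⟨w, hw⟩ := IsDiscreteValuationRing.exists_irreducible R
  obtain ⟨n, P₀, rfl, hP₀⟩ := exists_eq_pow_mul_prim hw hP0
  rw [_root_.map_mul, aeval_C] at hP
  rcases mul_eq_zero.mp hP with h1 | h1
  · exact algebraMap_RL_ne_zero E (pow_ne_zero n hw.ne_zero) h1
  · exact h.aeval_ne_zero hP₀ h1

end Inj

section FrameChart

variable {R E F : Type*} [CommRing R] [IsDomain R] [IsDiscreteValuationRing R]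
  [Field E] [Algebra R E] [IsFractionRing R E]
  [Field F] [Algebra E F] [Algebra R F] [IsScalarTower R E F]

/-- divisibility by the uniformiser = vanishing modulo the maximal ideal -/
theorem C_dvd_iff_map_residue_eq_zero {w : R} (hw : Irreducible w) (P : R[X]) :
    C w ∣ P ↔ P.map (residue R) = 0 := by
  constructor
  · rintro ⟨P', rfl⟩
    have hwm : residue R w = 0 := by
      rw [residue_eq_zero_iff, IsLocalRing.mem_maximalIdeal, _root_.mem_nonunits_iff]
      exact hw.not_isUnit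
    rw [Polynomial.map_mul, map_C, hwm, C_0, zero_mul]
  · intro h
    obtain ⟨P', hP'⟩ := exists_eq_C_mul_of_map_residue_eq_zero hw h
    exact ⟨P', hP'⟩

variable {V : ValuationSubring F} {y : F}

/-- every element of `E(y)` is a quotient of polynomials over `R` -/
theorem exists_div_aeval_of_mem_adjoin {a : F} (ha : a ∈ E⟮y⟯) :
    ∃ P Q : R[X], a = aeval y P / aeval y Q := by
  obtain ⟨r, s, hrs⟩ := (mem_adjoin_simple_iff E a).mp ha
  by_cases hr : r = 0
  · refine ⟨0, 1, ?_⟩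
    rw [hrs, hr, _root_.map_zero, zero_div, _root_.map_zero, zero_div]
  by_cases hs : s = 0
  · refine ⟨0, 1, ?_⟩
    rw [hrs, hs, _root_.map_zero, div_zero, _root_.map_zero, zero_div]
  obtain ⟨dr, R', hdr, -, eR⟩ := exists_aeval_eq_of_polynomial (R := R) y hr
  obtain ⟨ds, S', hds, -, eS⟩ := exists_aeval_eq_of_polynomial (R := R) y hs
  have hdrL : algebraMap R F dr ≠ 0 := algebraMap_RL_ne_zero E hdr
  have hdsL : algebraMap R F ds ≠ 0 := algebraMap_RL_ne_zero E hds
  refine ⟨C ds * R', C dr * S', ?_⟩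
  rw [_root_.map_mul, _root_.map_mul, aeval_C, aeval_C, ← eR, ← eS, hrs]
  by_cases hs0 : aeval y s = 0
  · rw [hs0, div_zero, mul_zero, mul_zero, div_zero]
  · field_simp

/-- **MODASM S1, explicit coordinate.**  The two components of the chart `B` = integral closure
of `R[y]`: primes `p₁ = B ∩ 𝔪_{V₁}`, `p₂ = B ∩ 𝔪_{V₂}`, incomparable, `p₁ ⊓ p₂ = w B`. -/
theorem frame_exists_components {w : R} (hw : Irreducible w) {V₁ V₂ : ValuationSubring F}
    (h₁ : IsGaussOver R V₁ y) (h₂ : IsGaussOver R V₂ y)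
    (hu₁ : H48.IsUnif V₁ (algebraMap R F w)) (hu₂ : H48.IsUnif V₂ (algebraMap R F w))
    (hne : V₁ ≠ V₂) {f₁ f₂ : ℕ} {u₁ : Fin f₁ → F} {u₂ : Fin f₂ → F}
    (hm₁ : ∀ i, u₁ i ∈ V₁) (hm₂ : ∀ i, u₂ i ∈ V₂)
    (hI₁ : PolyIndepMod R V₁ y u₁) (hI₂ : PolyIndepMod R V₂ y u₂)
    [FiniteDimensional E⟮y⟯ F] (hdeg : Module.finrank E⟮y⟯ F ≤ f₁ + f₂)
    (B : Subalgebra R F)
    (hB : ∀ f : F, f ∈ B ↔ IsIntegral (Algebra.adjoin R ({y} : Set F)) f) :
    ∃ p₁ p₂ : Ideal B,
      (∀ b : B, b ∈ p₁ ↔ (b : F) ∈ V₁.nonunits) ∧ (∀ b : B, b ∈ p₂ ↔ (b : F) ∈ V₂.nonunits) ∧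
      p₁.IsPrime ∧ p₂.IsPrime ∧ p₁ ≠ p₂ ∧ ¬ p₁ ≤ p₂ ∧ ¬ p₂ ≤ p₁ ∧
      p₁ ⊓ p₂ = Ideal.span {algebraMap R B w} := by
  classical
  -- the `R[X]`-algebra structures `X ↦ y`
  letI algF : Algebra R[X] F := (aeval y : R[X] →ₐ[R] F).toRingHom.toAlgebra
  have hF : ∀ P : R[X], algebraMap R[X] F P = aeval y P := fun _ => rfl
  let yK : E⟮y⟯ := ⟨y, mem_adjoin_simple_self E y⟩
  letI algK : Algebra R[X] E⟮y⟯ := (aeval yK : R[X] →ₐ[R] E⟮y⟯).toRingHom.toAlgebra
  have hK : ∀ P : R[X], algebraMap R[X] E⟮y⟯ P = aeval yK P := fun _ => rfl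
  haveI towerK : IsScalarTower R E⟮y⟯ F := IsScalarTower.of_algebraMap_eq (fun _ => rfl)
  have hKF : ∀ P : R[X], ((aeval yK P : E⟮y⟯) : F) = aeval y P := by
    intro P
    have := Polynomial.aeval_algHom_apply (IsScalarTower.toAlgHom R E⟮y⟯ F) yK P
    exact this.symm
  haveI tower : IsScalarTower R[X] E⟮y⟯ F :=
    IsScalarTower.of_algebraMap_eq (fun P => (hKF P).symm)
  haveI towerR : IsScalarTower R R[X] F :=
    IsScalarTower.of_algebraMap_eq (fun r => (aeval_C y r).symm)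
  have hinjF : Function.Injective (aeval y : R[X] → F) := h₁.aeval_injective E
  have hinjK : Function.Injective (algebraMap R[X] E⟮y⟯) := by
    intro P Q hPQ
    apply hinjF
    rw [← hKF, ← hKF, ← hK, ← hK, hPQ]
  haveI : FaithfulSMul R[X] E⟮y⟯ := (faithfulSMul_iff_algebraMap_injective _ _).mpr hinjK
  haveI frac : IsFractionRing R[X] E⟮y⟯ := by
    apply IsFractionRing.of_field
    intro z
    obtain ⟨P, Q, hPQ⟩ := exists_div_aeval_of_mem_adjoin (R := R) (E := E) z.2
    refine ⟨P, Q, Subtype.ext ?_⟩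
    rw [hPQ]
    show aeval y P / aeval y Q = ((aeval yK P / aeval yK Q : E⟮y⟯) : F)
    rw [IntermediateField.coe_div, hKF, hKF]
  have hCw : algebraMap R[X] F (C w) = algebraMap R F w := aeval_C y w
  have hprim : ∀ P : R[X], ¬ C w ∣ P → P.map (residue R) ≠ 0 := fun P hP h0 =>
    hP ((C_dvd_iff_map_residue_eq_zero hw P).mpr h0)
  have hG : H48.GaussPairLe (K := E⟮y⟯) w V₁ V₂ u₁ u₂ :=
    { prime := hw.prime
      unif₁ := by rw [hCw]; exact hu₁
      unif₂ := by rw [hCw]; exact hu₂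
      poly₁ := fun P => h₁.aeval_mem P
      poly₂ := fun P => h₂.aeval_mem P
      gauss₁ := fun P hP => h₁.inv_aeval_mem (hprim P hP)
      gauss₂ := fun P hP => h₂.inv_aeval_mem (hprim P hP)
      ne := hne
      b_mem := hm₁
      c_mem := hm₂
      b_indep := by
        intro a ha i
        rw [hCw, hu₁.mul_inv_mem_iff, ← ValuationSubring.mem_nonunits_iff] at ha
        exact (C_dvd_iff_map_residue_eq_zero hw (a i)).mpr (hI₁ a ha i)
      c_indep := by
        intro a ha i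
        rw [hCw, hu₂.mul_inv_mem_iff, ← ValuationSubring.mem_nonunits_iff] at ha
        exact (C_dvd_iff_map_residue_eq_zero hw (a i)).mpr (hI₂ a ha i)
      le := hdeg }
  have hX : algebraMap R[X] F X = y := aeval_X y
  have hB' : ∀ f : F, f ∈ B ↔
      IsIntegral (Algebra.adjoin R ({algebraMap R[X] F X} : Set F)) f := by
    rw [hX]
    exact hB
  exact gaussPairLe_exists_components hG B hB'

end FrameChart

/-! ## The chart at infinity: the coordinate `y⁻¹` -/

section Inv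

variable {R E F : Type*} [CommRing R] [IsDomain R] [IsDiscreteValuationRing R]
  [Field E] [Algebra R E] [IsFractionRing R E]
  [Field F] [Algebra E F] [Algebra R F] [IsScalarTower R E F]
  {V : ValuationSubring F} {y : F}

omit [IsDomain R] [IsDiscreteValuationRing R] in
theorem aeval_inv_mul_pow (hy : y ≠ 0) (N : ℕ) (P : R[X]) (hP : P.natDegree ≤ N) :
    aeval y⁻¹ P * y ^ N = aeval y (reflect N P) := by
  have hy' : y⁻¹ ≠ 0 := inv_ne_zero hy
  letI : Invertible (y⁻¹) := invertibleOfNonzero hy'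
  have h := eval₂_reflect_mul_pow (algebraMap R F) (y⁻¹) N P hP
  rw [invOf_eq_inv, inv_inv] at h
  rw [aeval_def, aeval_def, ← h, mul_assoc, ← mul_pow, inv_mul_cancel₀ hy, one_pow, mul_one]

omit [IsDomain R] [IsDiscreteValuationRing R] in
theorem map_residue_reflect_eq_zero [IsLocalRing R] {N : ℕ} {P : R[X]}
    (h : (reflect N P).map (residue R) = 0) : P.map (residue R) = 0 := by
  rw [map_residue_eq_zero_iff] at h ⊢
  intro i
  have := h (revAt N i)
  rwa [coeff_reflect, revAt_invol] at this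

omit [IsDomain R] [IsDiscreteValuationRing R] in
/-- the coordinate of a Gauss valuation is a unit -/
theorem IsGaussOver.inv_mem [IsLocalRing R] (h : IsGaussOver R V y) :
    y⁻¹ ∈ V := by
  have h1 := h.inv_aeval_mem (P := X) (by
    rw [Polynomial.map_X]
    exact X_ne_zero)
  rwa [aeval_X] at h1

omit [IsDomain R] [IsDiscreteValuationRing R] in
theorem IsGaussOver.ne_zero [IsLocalRing R] (h : IsGaussOver R V y) :
    y ≠ 0 := by
  have h1 := h.aeval_ne_zero (P := X) (by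
    rw [Polynomial.map_X]
    exact X_ne_zero)
  rwa [aeval_X] at h1

omit [IsDomain R] [IsDiscreteValuationRing R] in
/-- The Gauss valuation of `E(y)` is the Gauss valuation of `E(y⁻¹)`. -/
theorem IsGaussOver.inv [IsLocalRing R] (h : IsGaussOver R V y) :
    IsGaussOver R V y⁻¹ where
  isOver := h.isOver
  mem := h.inv_mem
  prim := by
    intro P hP
    apply map_residue_reflect_eq_zero (N := P.natDegree)
    apply h.prim
    rw [← aeval_inv_mul_pow h.ne_zero P.natDegree P le_rfl, mul_comm]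
    exact mem_mul_nonunits (_root_.pow_mem h.mem _) hP

omit [IsDomain R] [IsDiscreteValuationRing R] in
theorem PolyIndepMod.inv [IsLocalRing R] (h : IsGaussOver R V y) {f : ℕ}
    {u : Fin f → F} (hI : PolyIndepMod R V y u) : PolyIndepMod R V y⁻¹ u := by
  intro P hP i
  set D := Finset.univ.sup (fun i => (P i).natDegree) with hD
  have hdeg : ∀ i, (P i).natDegree ≤ D := fun i =>
    Finset.le_sup (f := fun i => (P i).natDegree) (Finset.mem_univ i)
  apply map_residue_reflect_eq_zero (N := D)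
  refine hI (fun i => reflect D (P i)) ?_ i
  have h1 : ∑ i, aeval y (reflect D (P i)) * u i = y ^ D * ∑ i, aeval y⁻¹ (P i) * u i := by
    rw [Finset.mul_sum]
    refine Finset.sum_congr rfl fun i _ => ?_
    rw [← aeval_inv_mul_pow h.ne_zero D (P i) (hdeg i)]
    ring
  rw [h1]
  exact mem_mul_nonunits (_root_.pow_mem h.mem _) hP

omit [IsDomain R] [IsDiscreteValuationRing R] [Algebra R E] [IsFractionRing R E] [Algebra R F]
  [IsScalarTower R E F] [CommRing R] in
theorem adjoin_inv_eq (E : Type*) [Field E] [Algebra E F] (y : F) : E⟮y⁻¹⟯ = E⟮y⟯ := by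
  apply le_antisymm
  · rw [adjoin_simple_le_iff]
    exact _root_.InvMemClass.inv_mem (mem_adjoin_simple_self E y)
  · rw [adjoin_simple_le_iff]
    have := _root_.InvMemClass.inv_mem (mem_adjoin_simple_self E y⁻¹)
    rwa [inv_inv] at this

/-- **MODASM S1, chart at infinity.**  Same hypotheses on the coordinate `y`; the chart is the
integral closure of `R[y⁻¹]`. -/
theorem frame_exists_components_inv {w : R} (hw : Irreducible w) {V₁ V₂ : ValuationSubring F}
    (h₁ : IsGaussOver R V₁ y) (h₂ : IsGaussOver R V₂ y)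
    (hu₁ : H48.IsUnif V₁ (algebraMap R F w)) (hu₂ : H48.IsUnif V₂ (algebraMap R F w))
    (hne : V₁ ≠ V₂) {f₁ f₂ : ℕ} {u₁ : Fin f₁ → F} {u₂ : Fin f₂ → F}
    (hm₁ : ∀ i, u₁ i ∈ V₁) (hm₂ : ∀ i, u₂ i ∈ V₂)
    (hI₁ : PolyIndepMod R V₁ y u₁) (hI₂ : PolyIndepMod R V₂ y u₂)
    [hfin : FiniteDimensional E⟮y⟯ F] (hdeg : Module.finrank E⟮y⟯ F ≤ f₁ + f₂)
    (B : Subalgebra R F)
    (hB : ∀ f : F, f ∈ B ↔ IsIntegral (Algebra.adjoin R ({y⁻¹} : Set F)) f) :
    ∃ p₁ p₂ : Ideal B,
      (∀ b : B, b ∈ p₁ ↔ (b : F) ∈ V₁.nonunits) ∧ (∀ b : B, b ∈ p₂ ↔ (b : F) ∈ V₂.nonunits) ∧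
      p₁.IsPrime ∧ p₂.IsPrime ∧ p₁ ≠ p₂ ∧ ¬ p₁ ≤ p₂ ∧ ¬ p₂ ≤ p₁ ∧
      p₁ ⊓ p₂ = Ideal.span {algebraMap R B w} := by
  have hE : E⟮y⁻¹⟯ = E⟮y⟯ := adjoin_inv_eq E y
  have key : ∀ (K : IntermediateField E F), K = E⟮y⟯ →
      FiniteDimensional K F ∧ Module.finrank K F ≤ f₁ + f₂ := by
    rintro K rfl
    exact ⟨hfin, hdeg⟩
  obtain ⟨hfin', hdeg'⟩ := key _ hE
  exact frame_exists_components (E := E) hw h₁.inv h₂.inv hu₁ hu₂ hne hm₁ hm₂
    (hI₁.inv h₁) (hI₂.inv h₂) hdeg' B hB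

end Inv

end Fermat.Agent.A2.H489

end
-- ===== PACK-END A2/H489/ChartB.lean

-- ===== PACK-BEGIN A2/Mod/H142/S2Side.lean
section



/-!
# A2 / MODASM S2 — one component (helper142)

`normal_side` : for a valuation subring `V'` of `F_{Mq}` (`V∞` or `V₀`) with uniformiser `w` and a
degeneracy map `γ : F_M → F_{Mq}` (`α` or `β`) such that

* `γ V∞_M ⊆ V'`, residue degree one (`V' = γ V∞_M + w V'`),
* `y ≡ γ (y_M ^ (q+1)) mod w V'`, `γ y_M ∈ chartAlg y`,
* good reduction at level `M` in the chart of `y_M`,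

the component `chartAlg y ⧸ (chartAlg y ∩ w V')` is integrally closed.
-/

set_option autoImplicit false
set_option synthInstance.maxHeartbeats 400000
set_option maxHeartbeats 1600000
set_option linter.unusedSectionVars false
set_option linter.style.haveILetI false

noncomputable section

namespace Fermat.Agent.A2.Mod.H142

open ModularCurve HahnSeries Polynomial

variable (P : ValuationSubring _root_.Fermat.Agent.A2.Mod.Qb) (E : IntermediateField ℚ _root_.Fermat.Agent.A2.Mod.Qb)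

section Chart

variable (N : ℕ)

/-- `chart` (Spec) and `chartAlg` (Asm) have the same elements. -/
theorem mem_chart_iff (y f : _root_.Fermat.Agent.A2.Mod.FE E N) : f ∈ chart P E N y ↔ f ∈ chartAlg P E N y :=
  (isIntegral_adjoin_iff (R := _root_.Fermat.Agent.A2.Mod.RE P E) y f).symm

theorem self_mem_chartAlg (y : _root_.Fermat.Agent.A2.Mod.FE E N) : y ∈ chartAlg P E N y := by
  rw [mem_chartAlg]
  have h : y = algebraMap (Algebra.adjoin (_root_.Fermat.Agent.A2.Mod.RE P E) ({y} : Set (_root_.Fermat.Agent.A2.Mod.FE E N))) (_root_.Fermat.Agent.A2.Mod.FE E N)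
      ⟨y, Algebra.subset_adjoin (Set.mem_singleton y)⟩ := rfl
  rw [h]
  exact isIntegral_algebraMap

end Chart

variable (M q : ℕ) [NeZero M] [NeZero q] (w : _root_.Fermat.Agent.A2.Mod.RE P E)

/-- **One component is normal.** -/
theorem normal_side (hS : Setting P E M q w)
    (VM : ValuationSubring (_root_.Fermat.Agent.A2.Mod.FE E M)) (hVM : IsVinf P E M VM)
    (V' : ValuationSubring (_root_.Fermat.Agent.A2.Mod.FE E (M * q))) (hU' : H48.IsUnif V' (cE P E (M * q) w))
    (hRV' : ∀ r : _root_.Fermat.Agent.A2.Mod.RE P E, algebraMap (_root_.Fermat.Agent.A2.Mod.RE P E) (_root_.Fermat.Agent.A2.Mod.FE E (M * q)) r ∈ V')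
    (γ : _root_.Fermat.Agent.A2.Mod.FE E M →ₐ[E] _root_.Fermat.Agent.A2.Mod.FE E (M * q))
    (hγV : ∀ g ∈ VM, γ g ∈ V')
    (hres : ∀ f ∈ V', ∃ g ∈ VM, InW P E (M * q) V' w (f - γ g))
    (yM : _root_.Fermat.Agent.A2.Mod.FE E M) (y : _root_.Fermat.Agent.A2.Mod.FE E (M * q))
    (hyM : yM ∈ VM) (hy : y ∈ V')
    (hcong : InW P E (M * q) V' w (y - γ (yM ^ (q + 1))))
    (hγy : γ yM ∈ chartAlg P E (M * q) y)
    (hgood : GoodRedAt P E M w VM yM)
    (p : Ideal (chartAlg P E (M * q) y))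
    (hp : IsCut P E (M * q) w V' (chartAlg P E (M * q) y) p) :
    IsIntegrallyClosed (chartAlg P E (M * q) y ⧸ p) := by
  have hdvr := hS.dvr
  have hL2M := H553.vinfBasic P E w M hS.M_ne_zero hdvr hS.unif VM hVM
  have hUM : H48.IsUnif VM (cE P E M w) := hL2M.1
  have hRVM : ∀ r : _root_.Fermat.Agent.A2.Mod.RE P E, algebraMap (_root_.Fermat.Agent.A2.Mod.RE P E) (_root_.Fermat.Agent.A2.Mod.FE E M) r ∈ VM := fun r =>
    (hL2M.2.1 (r : E)).mpr r.2
  have hγR : ∀ r : _root_.Fermat.Agent.A2.Mod.RE P E, (γ : _root_.Fermat.Agent.A2.Mod.FE E M →+* _root_.Fermat.Agent.A2.Mod.FE E (M * q)) (algebraMap (_root_.Fermat.Agent.A2.Mod.RE P E) (_root_.Fermat.Agent.A2.Mod.FE E M) r) =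
      algebraMap (_root_.Fermat.Agent.A2.Mod.RE P E) (_root_.Fermat.Agent.A2.Mod.FE E (M * q)) r := fun r => γ.commutes (r : E)
  have hγc : γ (cE P E M w) = cE P E (M * q) w := γ.commutes (w : E)
  -- the charts lie in the valuation rings
  have hB₀ : ∀ b ∈ chartAlg P E M yM, b ∈ VM := fun b hb =>
    mem_valuationSubring_of_isIntegral_adjoin VM hRVM hyM ((mem_chartAlg P E M).1 hb)
  have hB : ∀ b ∈ chartAlg P E (M * q) y, b ∈ V' := fun b hb =>
    mem_valuationSubring_of_isIntegral_adjoin V' hRV' hy ((mem_chartAlg P E (M * q)).1 hb)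
  have hγB : ∀ b ∈ chartAlg P E M yM, (γ : _root_.Fermat.Agent.A2.Mod.FE E M →+* _root_.Fermat.Agent.A2.Mod.FE E (M * q)) b ∈ chartAlg P E (M * q) y :=
    fun b hb => (mem_chartAlg P E (M * q)).2
      (isIntegral_adjoin_map (γ : _root_.Fermat.Agent.A2.Mod.FE E M →+* _root_.Fermat.Agent.A2.Mod.FE E (M * q)) hγR
        ((mem_chartAlg P E (M * q)).1 hγy) ((mem_chartAlg P E M).1 hb))
  have hγp : ∀ g : _root_.Fermat.Agent.A2.Mod.FE E M, VM.valuation g < 1 →
      V'.valuation ((γ : _root_.Fermat.Agent.A2.Mod.FE E M →+* _root_.Fermat.Agent.A2.Mod.FE E (M * q)) g) < 1 := by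
    intro g hg
    rw [← inW_iff hUM] at hg
    rw [← inW_iff hU']
    unfold InW at hg ⊢
    have h1 := hγV _ hg
    rw [_root_.map_mul, map_inv₀, hγc] at h1
    exact h1
  have hres' : ∀ f ∈ V', ∃ g ∈ VM,
      V'.valuation (f - (γ : _root_.Fermat.Agent.A2.Mod.FE E M →+* _root_.Fermat.Agent.A2.Mod.FE E (M * q)) g) < 1 := by
    intro f hf
    obtain ⟨g, hg, hfg⟩ := hres f hf
    exact ⟨g, hg, (inW_iff hU' _).1 hfg⟩
  have hnorm₀ : NormalIn VM ((chartAlg P E M yM : Subalgebra (_root_.Fermat.Agent.A2.Mod.RE P E) (_root_.Fermat.Agent.A2.Mod.FE E M)) : Set (_root_.Fermat.Agent.A2.Mod.FE E M)) := by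
    intro f hf ⟨n, c, hc, hrel⟩
    obtain ⟨b, hb, hfb⟩ := hgood.normal f hf
      ⟨n, c, fun i => (mem_chart_iff P E M yM (c i)).2 (hc i), (inW_iff hUM _).2 hrel⟩
    exact ⟨b, (mem_chart_iff P E M yM b).1 hb, (inW_iff hUM _).1 hfb⟩
  have hint := isIntegralElem_of_coord (γ : _root_.Fermat.Agent.A2.Mod.FE E M →+* _root_.Fermat.Agent.A2.Mod.FE E (M * q)) hγR V'
    (chartAlg P E M yM) (chartAlg P E (M * q) y) hB hγB y (self_mem_chartAlg P E (M * q) y)
    (yM ^ (q + 1)) (pow_mem (self_mem_chartAlg P E M yM) _) ((inW_iff hU' _).1 hcong)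
    (fun b hb => (mem_chartAlg P E (M * q)).1 hb)
  have hnorm : NormalIn V'
      ((chartAlg P E (M * q) y : Subalgebra (_root_.Fermat.Agent.A2.Mod.RE P E) (_root_.Fermat.Agent.A2.Mod.FE E (M * q))) : Set (_root_.Fermat.Agent.A2.Mod.FE E (M * q))) :=
    normalIn_transfer (γ : _root_.Fermat.Agent.A2.Mod.FE E M →+* _root_.Fermat.Agent.A2.Mod.FE E (M * q)) VM V' hγV hγp
      (chartAlg P E M yM) (chartAlg P E (M * q) y) hB₀ hB hγB hres' hint hnorm₀
  exact isIntegrallyClosed_quotient_of_normal V' (chartAlg P E (M * q) y) hB p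
    (fun b => (hp b).trans (inW_iff hU' _)) hnorm

end Fermat.Agent.A2.Mod.H142

end
end
-- ===== PACK-END A2/Mod/H142/S2Side.lean

-- ===== PACK-BEGIN A2/Mod/H378/L11.lean
section






/-!
# A2 / MOD leaf L11 `ResInf` (helper378)

`theorem resInf : ResInfStatement P E M q w` : residue degree one over level `M` on `C∞`.

Route (independent of the other leaves): `F_{Mq} = F_M(j_{dq} : d ∣ M)`; by the Kronecker
congruence `Φ_q(X, Y) = (X^q - Y)(X - Y^q) + q Θ` (`S28.h88_kronecker_int`, with `Φ_q` from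
`S28.H326.nonempty_modPolyData`) the generators satisfy
`(j_{dq}^q - j_d) (j_{dq} - j_d^q) = - q Θ(j_{dq}, j_d)` with `j_{dq}^q - j_d` a unit of `V∞`
(its expansion starts with `t^{-d q²}`).  The abstract lemma `ResOneData.exists_congr`
(`L11Abstract.lean`) then gives `V∞_{Mq} = α(V∞_M) + w V∞_{Mq}`.
-/

set_option autoImplicit false
set_option linter.unusedSectionVars false
set_option linter.style.haveILetI false
set_option synthInstance.maxHeartbeats 400000
set_option maxHeartbeats 1600000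

noncomputable section

namespace Fermat.Agent.A2.Mod.H378

open ModularCurve HahnSeries Fermat.Agent.A2.H708 Fermat.Agent.S28

/-! ## Generic facts on Gauss-integral elements -/

section Generic

variable {L : Type*} [Field L] [Algebra ℚ L] (A : ValuationSubring L)
variable {F₀ F₁ : IntermediateField ℚ (LaurentSeries ℚ)}

theorem isGaussInt_mono (hle : laurentBaseChange L F₀ ≤ laurentBaseChange L F₁)
    {f : LaurentSeries L} (hf : IsGaussInt A F₀ f) : IsGaussInt A F₁ f := by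
  obtain ⟨U₁, U₂, h0, hm, he⟩ := hf
  exact ⟨U₁, U₂, h0, hle hm, he⟩

theorem isGaussInt_descend (hgen : IntGen F₀) (hmax : AttainsMax A F₀)
    (hle : laurentBaseChange L F₀ ≤ laurentBaseChange L F₁)
    {f : LaurentSeries L} (hfF : f ∈ laurentBaseChange L F₀) (hf : IsGaussInt A F₁ f) :
    IsGaussInt A F₀ f := by
  by_cases hf0 : f = 0
  · rw [hf0]; exact IsGaussInt.zero
  obtain ⟨c, U₁, U₂, hc, h₁, h₂, hm₁, hm₂, he⟩ := exists_normal_form hgen hmax hfF hf0
  have hcA : c ∈ A := (isGaussInt_iff_of_normal_form h₁ h₂ (hle hm₂) he).mp hf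
  exact (isGaussInt_iff_of_normal_form h₁ h₂ hm₂ he).mpr hcA

theorem isGaussInt_cst_iff (F₀ : IntermediateField ℚ (LaurentSeries ℚ)) (c : L) :
    IsGaussInt A F₀ (cst c) ↔ c ∈ A := by
  have he : cst c * incl A 1 = cst c * incl A 1 := rfl
  exact isGaussInt_iff_of_normal_form (by rw [_root_.map_one]; exact one_ne_zero)
    (by rw [_root_.map_one]; exact one_ne_zero) (by rw [_root_.map_one]; exact one_mem _) he

/-- the inverse of a primitive integral series of `F` is Gauss-integral. -/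
theorem isGaussInt_inv_of_prim {U : LaurentSeries A} (hU : red A U ≠ 0)
    (hm : incl A U ∈ laurentBaseChange L F₀) : IsGaussInt A F₀ (incl A U)⁻¹ := by
  refine ⟨1, U, hU, hm, ?_⟩
  rw [_root_.map_one, inv_mul_cancel₀ (incl_ne_zero A (ne_zero_of_red_ne_zero A hU))]

/-- discreteness: a nonzero Gauss-integral element is `w ^ n` times a Gauss unit. -/
theorem exists_pow_mul_unit [IsDiscreteValuationRing A] {w : A} (hw : Irreducible w)
    (hgen : IntGen F₀) (hmax : AttainsMax A F₀) {f : LaurentSeries L}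
    (hfF : f ∈ laurentBaseChange L F₀) (hf0 : f ≠ 0) (hf : IsGaussInt A F₀ f) :
    ∃ n : ℕ, IsGaussInt A F₀ (f * (cst (w : L) ^ n)⁻¹) ∧
      IsGaussInt A F₀ (f * (cst (w : L) ^ n)⁻¹)⁻¹ := by
  obtain ⟨c, U₁, U₂, hc, h₁, h₂, hm₁, hm₂, he⟩ := exists_normal_form hgen hmax hfF hf0
  have hcA : c ∈ A := (isGaussInt_iff_of_normal_form h₁ h₂ hm₂ he).mp hf
  have hc' : (⟨c, hcA⟩ : A) ≠ 0 := fun h => hc (congrArg Subtype.val h)
  obtain ⟨n, u, hu⟩ := IsDiscreteValuationRing.eq_unit_mul_pow_irreducible hc' hw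
  have hcu : c = ((u : A) : L) * (w : L) ^ n := by
    have h1 := congrArg Subtype.val hu
    simpa using h1
  have hw0 : (w : L) ≠ 0 := fun h => hw.ne_zero (Subtype.ext h)
  have hwn : cst (w : L) ^ n ≠ 0 := pow_ne_zero _ (cst_ne_zero hw0)
  have hu0 : ((u : A) : L) ≠ 0 := fun h => u.ne_zero (Subtype.ext h)
  have he' : (f * (cst (w : L) ^ n)⁻¹) * incl A U₂ = cst ((u : A) : L) * incl A U₁ := by
    have hpow : cst ((w : L) ^ n) = cst (w : L) ^ n := map_pow _ _ _
    rw [mul_right_comm, he, hcu, cst_mul, hpow]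
    field_simp
  have hf0' : f * (cst (w : L) ^ n)⁻¹ ≠ 0 := mul_ne_zero hf0 (inv_ne_zero hwn)
  refine ⟨n, (isGaussInt_iff_of_normal_form h₁ h₂ hm₂ he').mpr (u : A).2, ?_⟩
  have he'' := normal_form_inv (A := A) hf0' hu0 he'
  refine (isGaussInt_iff_of_normal_form h₂ h₁ hm₁ he'').mpr ?_
  have h2 : ((u : A) : L)⁻¹ = (((u⁻¹ : Aˣ) : A) : L) := by
    apply inv_eq_of_mul_eq_one_right
    have h3 := congrArg A.subtype u.mul_inv
    rw [_root_.map_mul, _root_.map_one] at h3
    exact h3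
  rw [h2]
  exact ((u⁻¹ : Aˣ) : A).2

end Generic

/-! ## Series facts -/

section Series

variable (E : IntermediateField ℚ _root_.Fermat.Agent.A2.Mod.Qb)

/-- `j(t^d)` as a series over `E`. -/
def jser (d : ℕ) [NeZero d] : LaurentSeries E := qExpand E d (jqModC E)

theorem jser_eq_coeffEmb (d : ℕ) [NeZero d] : jser E d = coeffEmb E (qExpand ℚ d jq) := by
  rw [jser, coeffEmb, ← jqModC_rat, coeffMap_qExpand, coeffMap_jqModC]

theorem jser_eq_incl (A : ValuationSubring E) (d : ℕ) [NeZero d] :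
    jser E d = incl A (castA A (jInt d)) := by
  rw [incl_castA, castQ_jInt, jser_eq_coeffEmb]

theorem jser_mem (N d : ℕ) [NeZero d] (hd : d ∣ N) : jser E d ∈ _root_.Fermat.Agent.A2.Mod.FE E N := by
  rw [jser_eq_coeffEmb]
  exact coeffEmb_mem_laurentBaseChange E (jqd_mem_full N hd)

theorem FE_le (M q : ℕ) [NeZero M] [NeZero q] : _root_.Fermat.Agent.A2.Mod.FE E M ≤ _root_.Fermat.Agent.A2.Mod.FE E (M * q) := by
  intro x hx
  have h := (heckeAlphaBar E M q ⟨x, hx⟩).2
  rw [coe_heckeAlphaBar] at h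
  exact h

/-- the transfer `ℤ((t)) → E((t))`, `t ↦ t^d`. -/
def rho (d : ℕ) [NeZero d] : LaurentSeries ℤ →+* LaurentSeries E :=
  (qExpand E d).comp (coeffMap (Int.castRingHom E))

theorem rho_j (d : ℕ) [NeZero d] : rho E d (jqModC ℤ) = jser E d := by
  rw [rho, RingHom.comp_apply, coeffMap_jqModC, jser]

theorem rho_jq (d q : ℕ) [NeZero d] [NeZero q] :
    rho E d (qExpand ℤ q (jqModC ℤ)) = jser E (d * q) := by
  rw [rho, RingHom.comp_apply, coeffMap_qExpand, coeffMap_jqModC, qExpand_qExpand, jser]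

theorem rho_comp_evalAt (d : ℕ) [NeZero d] (y : LaurentSeries ℤ) :
    (rho E d).comp (evalAt y) = evalAt (rho E d y) := by
  apply Polynomial.ringHom_ext
  · intro a
    simp [evalAt]
  · simp [evalAt]

/-- **Kronecker relation** for `j_{dq}`, `j_d`. -/
theorem kron_series (q : ℕ) [NeZero q] (hq : q.Prime) (d : ℕ) [NeZero d] :
    ∃ Θ : Polynomial (Polynomial ℤ),
      (jser E (d * q) ^ q - jser E d) * (jser E (d * q) - jser E d ^ q)
        + (q : LaurentSeries E) * Θ.eval₂ (evalAt (jser E d)) (jser E (d * q)) = 0 := by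
  have hfact : Fact q.Prime := ⟨hq⟩
  obtain ⟨D⟩ := Fermat.Agent.S28.H326.nonempty_modPolyData q hq
  obtain ⟨Θ, hΘ⟩ := h88_kronecker_int q D
  refine ⟨Θ, ?_⟩
  have h0 := D.eval_jp
  rw [hΘ] at h0
  have h1 := congrArg (rho E d) h0
  rw [_root_.map_zero, Polynomial.hom_eval₂, rho_comp_evalAt, rho_j, rho_jq] at h1
  have e1 : evalAt (jser E d) (Polynomial.X) = jser E d := by simp [evalAt]
  have e2 : evalAt (jser E d) (Polynomial.X ^ q) = jser E d ^ q := by simp [evalAt]
  have e3 : evalAt (jser E d) (Polynomial.C (q : ℤ)) = (q : LaurentSeries E) := by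
    simp [evalAt]
  rw [Polynomial.eval₂_add, Polynomial.eval₂_mul, Polynomial.eval₂_sub, Polynomial.eval₂_sub,
    Polynomial.eval₂_pow, Polynomial.eval₂_X, Polynomial.eval₂_C, Polynomial.eval₂_C,
    Polynomial.eval₂_mul, Polynomial.eval₂_C, e1, e2, e3] at h1
  exact h1

/-- the leading coefficient of `j_{dq}^q - j_d`. -/
theorem coeff_sInt (q : ℕ) [NeZero q] (hq : 2 ≤ q) (d : ℕ) [NeZero d] :
    (jInt (d * q) ^ q - jInt d).coeff (-((d * q * q : ℕ) : ℤ)) = 1 := by
  rw [HahnSeries.coeff_sub, jInt, jInt, jqNModC, jqNModC, ← map_pow]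
  have h1 : (-((d * q * q : ℕ) : ℤ)) = ((d * q : ℕ) : ℤ) * (-(q : ℤ)) := by
    push_cast
    ring
  have h2 : (-((d * q * q : ℕ) : ℤ)) = ((d : ℕ) : ℤ) * (-((q * q : ℕ) : ℤ)) := by
    push_cast
    ring
  have h3 : (qExpand ℤ (d * q) (jqModC ℤ ^ q)).coeff (-((d * q * q : ℕ) : ℤ)) = 1 := by
    rw [h1, qExpand_coeff_mul, coeff_jqModC_pow_self]
  have h4 : (qExpand ℤ d (jqModC ℤ)).coeff (-((d * q * q : ℕ) : ℤ)) = 0 := by
    rw [h2, qExpand_coeff_mul]
    apply coeff_jqModC_of_lt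
    have : (4 : ℤ) ≤ ((q * q : ℕ) : ℤ) := by
      have : 4 ≤ q * q := by nlinarith
      exact_mod_cast this
    omega
  rw [h3, h4, sub_zero]

/-- `j_{dq}^q - j_d` is a primitive integral series. -/
theorem red_sInt_ne_zero (A : ValuationSubring E) (q : ℕ) [NeZero q] (hq : 2 ≤ q) (d : ℕ)
    [NeZero d] : red A (castA A (jInt (d * q) ^ q - jInt d)) ≠ 0 := by
  intro h
  have h1 := congrArg (fun z => z.coeff (-((d * q * q : ℕ) : ℤ))) h
  simp only [coeffMap_coeff, HahnSeries.coeff_zero] at h1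
  rw [coeff_sInt q hq d] at h1
  simp at h1

theorem incl_sInt (A : ValuationSubring E) (q d : ℕ) [NeZero q] [NeZero d] :
    incl A (castA A (jInt (d * q) ^ q - jInt d)) = jser E (d * q) ^ q - jser E d := by
  rw [_root_.map_sub, _root_.map_sub, map_pow, map_pow, ← jser_eq_incl, ← jser_eq_incl]

end Series

/-! ## The concrete data -/

section Concrete

variable {P : ValuationSubring _root_.Fermat.Agent.A2.Mod.Qb} {E : IntermediateField ℚ _root_.Fermat.Agent.A2.Mod.Qb} {M q : ℕ} [NeZero M] [NeZero q]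
  {w : _root_.Fermat.Agent.A2.Mod.RE P E}

/-- the new generators `j_{dq}`, `d ∣ M`, of `F_{Mq}` over `F_M`. -/
def Xset (E : IntermediateField ℚ _root_.Fermat.Agent.A2.Mod.Qb) (M q : ℕ) [NeZero q] : Set (_root_.Fermat.Agent.A2.Mod.FE E (M * q)) :=
  {x | ∃ (d : ℕ) (_ : NeZero d), d ∣ M ∧ (x : LaurentSeries E) = jser E (d * q)}

/-- `α(V∞_M)` as a subring of `F_{Mq}`. -/
def Oring (E : IntermediateField ℚ _root_.Fermat.Agent.A2.Mod.Qb) (M q : ℕ) [NeZero M] [NeZero q]
    (VM : ValuationSubring (_root_.Fermat.Agent.A2.Mod.FE E M)) : Subring (_root_.Fermat.Agent.A2.Mod.FE E (M * q)) :=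
  VM.toSubring.map (αE E M q : _root_.Fermat.Agent.A2.Mod.FE E M →+* _root_.Fermat.Agent.A2.Mod.FE E (M * q))

theorem mem_Oring {VM : ValuationSubring (_root_.Fermat.Agent.A2.Mod.FE E M)} {x : _root_.Fermat.Agent.A2.Mod.FE E (M * q)} :
    x ∈ Oring E M q VM ↔ ∃ g ∈ VM, αE E M q g = x := by
  rw [Oring, Subring.mem_map]
  rfl

theorem attains (hS : Setting P E M q w) (N : ℕ) :
    AttainsMax (_root_.Fermat.Agent.A2.Mod.RE P E) (modularFunctionFieldFull N) := by
  haveI := hS.dvr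
  exact attainsMax_of_isNoetherianRing _ _

theorem alpha_mem_iff (hS : Setting P E M q w) {VM : ValuationSubring (_root_.Fermat.Agent.A2.Mod.FE E M)}
    {V : ValuationSubring (_root_.Fermat.Agent.A2.Mod.FE E (M * q))} (hVM : IsVinf P E M VM) (hV : IsVinf P E (M * q) V)
    (g : _root_.Fermat.Agent.A2.Mod.FE E M) : αE E M q g ∈ V ↔ g ∈ VM := by
  rw [hV (αE E M q g), hVM g, coe_heckeAlphaBar]
  constructor
  · exact isGaussInt_descend (_root_.Fermat.Agent.A2.Mod.RE P E) (intGen_full M) (attains hS M) (FE_le E M q) g.2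
  · exact isGaussInt_mono (_root_.Fermat.Agent.A2.Mod.RE P E) (FE_le E M q)

theorem cE_mem {N : ℕ} {V : ValuationSubring (_root_.Fermat.Agent.A2.Mod.FE E N)} (hV : IsVinf P E N V) (r : _root_.Fermat.Agent.A2.Mod.RE P E) :
    cE P E N r ∈ V := by
  rw [hV]
  exact (isGaussInt_cst_iff (_root_.Fermat.Agent.A2.Mod.RE P E) _ (r : E)).mpr r.2

theorem alpha_cE (r : _root_.Fermat.Agent.A2.Mod.RE P E) : αE E M q (cE P E M r) = cE P E (M * q) r :=
  (αE E M q).commutes (r : E)

theorem w_ne_zero (hS : Setting P E M q w) : (w : E) ≠ 0 :=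
  fun h => hS.unif.ne_zero (Subtype.ext h)

theorem cE_ne_zero (hS : Setting P E M q w) (N : ℕ) : cE P E N w ≠ 0 := by
  intro h
  exact w_ne_zero hS ((map_eq_zero (algebraMap E (_root_.Fermat.Agent.A2.Mod.FE E N))).mp h)

theorem w_inv_not_mem (hS : Setting P E M q w) : (w : E)⁻¹ ∉ _root_.Fermat.Agent.A2.Mod.RE P E := by
  intro h
  apply hS.unif.not_isUnit
  refine ⟨⟨w, ⟨(w : E)⁻¹, h⟩, ?_, ?_⟩, rfl⟩
  · exact Subtype.ext (mul_inv_cancel₀ (w_ne_zero hS))
  · exact Subtype.ext (inv_mul_cancel₀ (w_ne_zero hS))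

/-- `q ∈ w R`. -/
theorem exists_q_eq (hS : Setting P E M q w) : ∃ c : _root_.Fermat.Agent.A2.Mod.RE P E, ((q : ℕ) : E) = (w : E) * (c : E) := by
  haveI := hS.dvr
  have hq := hS.lies_over
  have hqv : P.valuation ((q : ℕ) : _root_.Fermat.Agent.A2.Mod.Qb) < 1 := (ValuationSubring.mem_nonunits_iff P).mp hq
  have hqP : algebraMap E _root_.Fermat.Agent.A2.Mod.Qb ((q : ℕ) : E) ∈ P := by
    rw [map_natCast, ← ValuationSubring.valuation_le_one_iff]
    exact hqv.le
  set qA : _root_.Fermat.Agent.A2.Mod.RE P E := ⟨((q : ℕ) : E), hqP⟩ with hqA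
  have hnu : ¬ IsUnit qA := by
    rintro ⟨u, hu⟩
    have h1 : qA * ((u⁻¹ : (_root_.Fermat.Agent.A2.Mod.RE P E)ˣ) : _root_.Fermat.Agent.A2.Mod.RE P E) = 1 := by
      rw [← hu]
      exact u.mul_inv
    have h2 : ((q : ℕ) : _root_.Fermat.Agent.A2.Mod.Qb) * algebraMap E _root_.Fermat.Agent.A2.Mod.Qb (((u⁻¹ : (_root_.Fermat.Agent.A2.Mod.RE P E)ˣ) : _root_.Fermat.Agent.A2.Mod.RE P E) : E) = 1 := by
      have h3 := congrArg (fun z : _root_.Fermat.Agent.A2.Mod.RE P E => algebraMap E _root_.Fermat.Agent.A2.Mod.Qb (z : E)) h1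
      simpa [hqA] using h3
    have h4 : P.valuation (algebraMap E _root_.Fermat.Agent.A2.Mod.Qb (((u⁻¹ : (_root_.Fermat.Agent.A2.Mod.RE P E)ˣ) : _root_.Fermat.Agent.A2.Mod.RE P E) : E)) ≤ 1 :=
      (ValuationSubring.valuation_le_one_iff _ _).mpr ((u⁻¹ : (_root_.Fermat.Agent.A2.Mod.RE P E)ˣ) : _root_.Fermat.Agent.A2.Mod.RE P E).2
    have h5 := congrArg P.valuation h2
    rw [_root_.map_mul, _root_.map_one] at h5
    have h6 : P.valuation ((q : ℕ) : _root_.Fermat.Agent.A2.Mod.Qb) *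
        P.valuation (algebraMap E _root_.Fermat.Agent.A2.Mod.Qb (((u⁻¹ : (_root_.Fermat.Agent.A2.Mod.RE P E)ˣ) : _root_.Fermat.Agent.A2.Mod.RE P E) : E)) < 1 := by
      calc _ ≤ P.valuation ((q : ℕ) : _root_.Fermat.Agent.A2.Mod.Qb) * 1 := by gcongr
        _ = P.valuation ((q : ℕ) : _root_.Fermat.Agent.A2.Mod.Qb) := mul_one _
        _ < 1 := hqv
    exact (ne_of_lt h6) h5
  have hmem : qA ∈ IsLocalRing.maximalIdeal (_root_.Fermat.Agent.A2.Mod.RE P E) := (IsLocalRing.mem_maximalIdeal _).mpr hnu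
  rw [hS.unif.maximalIdeal_eq, Ideal.mem_span_singleton] at hmem
  obtain ⟨c, hc⟩ := hmem
  refine ⟨c, ?_⟩
  have := congrArg Subtype.val hc
  simpa [hqA] using this

theorem eval₂_mem_subring {R S : Type*} [CommRing R] [CommRing S] (f : R →+* S) (x : S)
    (T : Subring S) (hf : ∀ r, f r ∈ T) (hx : x ∈ T) (p : Polynomial R) : p.eval₂ f x ∈ T := by
  rw [Polynomial.eval₂_eq_sum, Polynomial.sum]
  exact Subring.sum_mem _ fun i _ => T.mul_mem (hf _) (T.pow_mem hx i)

theorem jser_mem_V {N : ℕ} {V : ValuationSubring (_root_.Fermat.Agent.A2.Mod.FE E N)} (hV : IsVinf P E N V)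
    {x : _root_.Fermat.Agent.A2.Mod.FE E N} {d : ℕ} [NeZero d] (hx : (x : LaurentSeries E) = jser E d) : x ∈ V := by
  rw [hV, hx, jser_eq_incl E (_root_.Fermat.Agent.A2.Mod.RE P E) d]
  exact IsGaussInt.of_incl _

/-- the subtype ring homomorphism `F_N → E((t))`. -/
def valHom (E : IntermediateField ℚ _root_.Fermat.Agent.A2.Mod.Qb) (N : ℕ) : _root_.Fermat.Agent.A2.Mod.FE E N →+* LaurentSeries E :=
  ((_root_.Fermat.Agent.A2.Mod.FE E N).val : _root_.Fermat.Agent.A2.Mod.FE E N →+* LaurentSeries E)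

theorem valHom_apply (N : ℕ) (x : _root_.Fermat.Agent.A2.Mod.FE E N) : valHom E N x = (x : LaurentSeries E) := rfl

theorem valHom_comp_aeval (N : ℕ) (y : _root_.Fermat.Agent.A2.Mod.FE E N) :
    (valHom E N).comp (Polynomial.aeval (R := ℤ) y).toRingHom = evalAt (y : LaurentSeries E) := by
  apply Polynomial.ringHom_ext
  · intro a
    simp [evalAt, valHom]
  · simp [evalAt, valHom]

/-- **The Kronecker relation** for the generators `j_{dq}`. -/
theorem kron_X (hS : Setting P E M q w) {VM : ValuationSubring (_root_.Fermat.Agent.A2.Mod.FE E M)}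
    {V : ValuationSubring (_root_.Fermat.Agent.A2.Mod.FE E (M * q))} (hVM : IsVinf P E M VM) (hV : IsVinf P E (M * q) V)
    {x : _root_.Fermat.Agent.A2.Mod.FE E (M * q)} (hx : x ∈ Xset E M q) :
    ∃ a ∈ Oring E M q VM,
      ∃ s ∈ Subring.closure ((Oring E M q VM : Set (_root_.Fermat.Agent.A2.Mod.FE E (M * q))) ∪ Xset E M q),
        s ≠ 0 ∧ s⁻¹ ∈ V.toSubring ∧
        ∃ c ∈ Subring.closure ((Oring E M q VM : Set (_root_.Fermat.Agent.A2.Mod.FE E (M * q))) ∪ Xset E M q),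
          s * (x - a) = cE P E (M * q) w * c := by
  obtain ⟨d, hd, hdM, hxd⟩ := hx
  haveI := hd
  set B := Subring.closure ((Oring E M q VM : Set (_root_.Fermat.Agent.A2.Mod.FE E (M * q))) ∪ Xset E M q) with hB
  set y0 : _root_.Fermat.Agent.A2.Mod.FE E M := ⟨jser E d, jser_mem E M d hdM⟩ with hy0
  have hy0V : y0 ∈ VM := jser_mem_V hVM (d := d) rfl
  set y : _root_.Fermat.Agent.A2.Mod.FE E (M * q) := αE E M q y0 with hy
  have hyc : (y : LaurentSeries E) = jser E d := coe_heckeAlphaBar M q y0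
  have hyO : y ∈ Oring E M q VM := mem_Oring.mpr ⟨y0, hy0V, rfl⟩
  have hxB : x ∈ B := Subring.subset_closure (Or.inr ⟨d, hd, hdM, hxd⟩)
  have hyB : y ∈ B := Subring.subset_closure (Or.inl hyO)
  obtain ⟨Θ, hΘ⟩ := kron_series E q hS.q_prime d
  obtain ⟨c0, hc0⟩ := exists_q_eq hS
  set θ : _root_.Fermat.Agent.A2.Mod.FE E (M * q) := Θ.eval₂ ((Polynomial.aeval (R := ℤ) y).toRingHom) x with hθ
  have hθB : θ ∈ B := by
    refine eval₂_mem_subring _ x B (fun r => ?_) hxB Θ
    show Polynomial.aeval y r ∈ B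
    rw [Polynomial.aeval_def]
    refine eval₂_mem_subring _ y B (fun n => ?_) hyB r
    rw [eq_intCast]
    exact intCast_mem B n
  have hθc : (θ : LaurentSeries E) = Θ.eval₂ (evalAt (jser E d)) (jser E (d * q)) := by
    rw [← valHom_apply, hθ, Polynomial.hom_eval₂, valHom_comp_aeval, valHom_apply, hxd, hyc]
  -- the unit `s`
  have hsc : ((x ^ q - y : _root_.Fermat.Agent.A2.Mod.FE E (M * q)) : LaurentSeries E)
      = incl (_root_.Fermat.Agent.A2.Mod.RE P E) (castA (_root_.Fermat.Agent.A2.Mod.RE P E) (jInt (d * q) ^ q - jInt d)) := by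
    rw [incl_sInt, ← valHom_apply, _root_.map_sub, map_pow, valHom_apply, valHom_apply, hxd, hyc]
  have hred := red_sInt_ne_zero E (_root_.Fermat.Agent.A2.Mod.RE P E) q hS.q_prime.two_le d
  have hs0 : x ^ q - y ≠ 0 := by
    intro h
    have h1 : ((x ^ q - y : _root_.Fermat.Agent.A2.Mod.FE E (M * q)) : LaurentSeries E) = 0 := by
      rw [h]
      rfl
    rw [hsc] at h1
    exact incl_ne_zero _ (ne_zero_of_red_ne_zero _ hred) h1
  have hsi : (x ^ q - y)⁻¹ ∈ V := by
    rw [hV, IntermediateField.coe_inv, hsc]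
    refine isGaussInt_inv_of_prim _ hred ?_
    rw [← hsc]
    exact (x ^ q - y).2
  have hc0O : cE P E (M * q) c0 ∈ Oring E M q VM :=
    mem_Oring.mpr ⟨cE P E M c0, cE_mem hVM c0, alpha_cE c0⟩
  refine ⟨y ^ q, (Oring E M q VM).pow_mem hyO q, x ^ q - y,
    B.sub_mem (B.pow_mem hxB q) hyB, hs0, hsi, -(cE P E (M * q) c0 * θ),
    B.neg_mem (B.mul_mem (Subring.subset_closure (Or.inl hc0O)) hθB), ?_⟩
  apply Subtype.ext
  have hqc : ((q : ℕ) : LaurentSeries E) = cst ((w : E)) * cst (c0 : E) := by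
    rw [← cst_mul, ← hc0]
    exact (map_natCast (algebraMap E (LaurentSeries E)) q).symm
  have hL : (((x ^ q - y) * (x - y ^ q) : _root_.Fermat.Agent.A2.Mod.FE E (M * q)) : LaurentSeries E)
      = (jser E (d * q) ^ q - jser E d) * (jser E (d * q) - jser E d ^ q) := by
    rw [← valHom_apply, _root_.map_mul, _root_.map_sub, _root_.map_sub, map_pow, map_pow, valHom_apply, valHom_apply,
      hxd, hyc]
  have hR : ((cE P E (M * q) w * -(cE P E (M * q) c0 * θ) : _root_.Fermat.Agent.A2.Mod.FE E (M * q)) : LaurentSeries E)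
      = cst (w : E) * -(cst (c0 : E) * Θ.eval₂ (evalAt (jser E d)) (jser E (d * q))) := by
    rw [← valHom_apply, _root_.map_mul, _root_.map_neg, _root_.map_mul, valHom_apply _ θ, hθc]
    rfl
  rw [hL, hR]
  rw [hqc] at hΘ
  linear_combination hΘ

/-- divisors of `M q`: either `d ∣ M` or `d = d' q` with `d' ∣ M`. -/
theorem dvd_cases {M q d : ℕ} (hq : q.Prime) (hd : d ∣ M * q) :
    d ∣ M ∨ ∃ d', d' ∣ M ∧ d = d' * q := by
  by_cases hqd : q ∣ d
  · right
    obtain ⟨d', rfl⟩ := hqd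
    refine ⟨d', ?_, mul_comm _ _⟩
    rw [mul_comm q d'] at hd
    exact (Nat.mul_dvd_mul_iff_right hq.pos).mp hd
  · left
    have hcop : Nat.Coprime d q := ((Nat.Prime.coprime_iff_not_dvd hq).mpr hqd).symm
    exact hcop.dvd_of_dvd_mul_right hd

/-- `F_{Mq}` is generated as a field by `α(V∞_M)` and the `j_{dq}`. -/
theorem gen_X (hS : Setting P E M q w) {VM : ValuationSubring (_root_.Fermat.Agent.A2.Mod.FE E M)}
    (hVM : IsVinf P E M VM) (f : _root_.Fermat.Agent.A2.Mod.FE E (M * q)) :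
    f ∈ Subfield.closure ((Oring E M q VM : Set (_root_.Fermat.Agent.A2.Mod.FE E (M * q))) ∪ Xset E M q) := by
  set G := Subfield.closure ((Oring E M q VM : Set (_root_.Fermat.Agent.A2.Mod.FE E (M * q))) ∪ Xset E M q) with hG
  set Gs : Subfield (LaurentSeries E) := G.map (valHom E (M * q)) with hGsdef
  have hGs : ∀ x : _root_.Fermat.Agent.A2.Mod.FE E (M * q), (x : LaurentSeries E) ∈ Gs → x ∈ G := by
    intro x hx
    obtain ⟨y, hy, hyx⟩ := Subfield.mem_map.mp hx
    have h1 : y = x := Subtype.ext hyx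
    rw [← h1]
    exact hy
  have hGs' : ∀ x : _root_.Fermat.Agent.A2.Mod.FE E (M * q), x ∈ G → (x : LaurentSeries E) ∈ Gs :=
    fun x hx => Subfield.mem_map.mpr ⟨x, hx, rfl⟩
  -- constants
  have hconstA : ∀ r : _root_.Fermat.Agent.A2.Mod.RE P E, cE P E (M * q) r ∈ G := fun r =>
    Subfield.subset_closure (Or.inl (mem_Oring.mpr ⟨cE P E M r, cE_mem hVM r, alpha_cE r⟩))
  have hconst : ∀ e : E, algebraMap E (LaurentSeries E) e ∈ Gs := by
    intro e
    refine hGs' (algebraMap E (_root_.Fermat.Agent.A2.Mod.FE E (M * q)) e) ?_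
    rcases (_root_.Fermat.Agent.A2.Mod.RE P E).mem_or_inv_mem e with h | h
    · exact hconstA ⟨e, h⟩
    · have h1 : algebraMap E (_root_.Fermat.Agent.A2.Mod.FE E (M * q)) e = (cE P E (M * q) ⟨e⁻¹, h⟩)⁻¹ := by
        rw [cE, ← map_inv₀, inv_inv]
      rw [h1]
      exact G.inv_mem (hconstA _)
  -- generators
  have hj : ∀ (d : ℕ) [NeZero d], d ∣ M * q → jser E d ∈ Gs := by
    intro d hd hdN
    rcases dvd_cases hS.q_prime hdN with hdM | ⟨d', hd'M, hdd'⟩
    · have h1 : αE E M q ⟨jser E d, jser_mem E M d hdM⟩ ∈ G :=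
        Subfield.subset_closure (Or.inl (mem_Oring.mpr
          ⟨⟨jser E d, jser_mem E M d hdM⟩, jser_mem_V hVM (d := d) rfl, rfl⟩))
      exact hGs' _ h1
    · subst hdd'
      haveI : NeZero d' := ⟨fun h => by
        rw [h, zero_mul] at hd
        exact hd.out rfl⟩
      have h1 : (⟨jser E (d' * q), jser_mem E (M * q) (d' * q) hdN⟩ : _root_.Fermat.Agent.A2.Mod.FE E (M * q)) ∈ G :=
        Subfield.subset_closure (Or.inr ⟨d', inferInstance, hd'M, rfl⟩)
      exact hGs' _ h1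
  apply hGs
  have hf := mem_laurentBaseChange_iff.mp f.2
  refine Subfield.closure_le.mpr ?_ hf
  rintro z (⟨e, rfl⟩ | ⟨z0, hz0, rfl⟩)
  · exact hconst e
  · have hz0' : z0 ∈ IntermediateField.adjoin ℚ (divisorExpansions (M * q)) := hz0
    induction hz0' using IntermediateField.adjoin_induction with
    | mem y hy =>
      obtain ⟨d, hd, hdN, rfl⟩ := hy
      haveI := hd
      show coeffEmb E (qExpand ℚ d jq) ∈ Gs
      rw [← jser_eq_coeffEmb]
      exact hj d hdN
    | algebraMap c =>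
      have h1 : coeffEmb E (algebraMap ℚ (LaurentSeries ℚ) c)
          = algebraMap E (LaurentSeries E) (algebraMap ℚ E c) := by
        rw [coeffEmb, algebraMap_laurentSeries_eq_single, algebraMap_laurentSeries_eq_single,
          coeffMap_single]
      show coeffEmb E (algebraMap ℚ (LaurentSeries ℚ) c) ∈ Gs
      rw [h1]
      exact hconst _
    | add x y hx hy ihx ihy =>
      show coeffEmb E (x + y) ∈ Gs
      rw [_root_.map_add]
      exact Gs.add_mem (ihx hx) (ihy hy)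
    | inv x hx ihx =>
      show coeffEmb E x⁻¹ ∈ Gs
      rw [map_inv₀]
      exact Gs.inv_mem (ihx hx)
    | mul x y hx hy ihx ihy =>
      show coeffEmb E (x * y) ∈ Gs
      rw [_root_.map_mul]
      exact Gs.mul_mem (ihx hx) (ihy hy)

/-- discreteness of `V∞`. -/
theorem disc_V (hS : Setting P E M q w) (N : ℕ) {V : ValuationSubring (_root_.Fermat.Agent.A2.Mod.FE E N)}
    (hV : IsVinf P E N V) {x : _root_.Fermat.Agent.A2.Mod.FE E N} (hx : x ∈ V) (hx0 : x ≠ 0) :
    ∃ (n : ℕ) (u : _root_.Fermat.Agent.A2.Mod.FE E N), u ∈ V ∧ u⁻¹ ∈ V ∧ x = cE P E N w ^ n * u := by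
  haveI := hS.dvr
  have hx0' : (x : LaurentSeries E) ≠ 0 := fun h => hx0 (Subtype.ext h)
  obtain ⟨n, h1, h2⟩ := exists_pow_mul_unit (_root_.Fermat.Agent.A2.Mod.RE P E) hS.unif (intGen_full N) (attains hS N)
    x.2 hx0' ((hV x).mp hx)
  have hcw := cE_ne_zero hS N
  have hu : ((x * (cE P E N w ^ n)⁻¹ : _root_.Fermat.Agent.A2.Mod.FE E N) : LaurentSeries E)
      = (x : LaurentSeries E) * (cst ((w : _root_.Fermat.Agent.A2.Mod.RE P E) : E) ^ n)⁻¹ := by
    rw [← valHom_apply, _root_.map_mul, map_inv₀, map_pow]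
    rfl
  refine ⟨n, x * (cE P E N w ^ n)⁻¹, ?_, ?_, ?_⟩
  · rw [hV, hu]
    exact h1
  · rw [hV, ← valHom_apply, map_inv₀, valHom_apply, hu]
    exact h2
  · field_simp

/-- **The data of the abstract lemma.** -/
theorem resOneData (hS : Setting P E M q w) {VM : ValuationSubring (_root_.Fermat.Agent.A2.Mod.FE E M)}
    {V : ValuationSubring (_root_.Fermat.Agent.A2.Mod.FE E (M * q))} (hVM : IsVinf P E M VM) (hV : IsVinf P E (M * q) V) :
    ResOneData V.toSubring (Oring E M q VM) (cE P E (M * q) w) (Xset E M q) where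
  O_le := by
    intro x hx
    obtain ⟨g, hg, rfl⟩ := mem_Oring.mp hx
    exact (alpha_mem_iff hS hVM hV g).mpr hg
  w_mem := mem_Oring.mpr ⟨cE P E M w, cE_mem hVM w, alpha_cE w⟩
  w_ne := cE_ne_zero hS _
  w_nonunit := by
    intro h
    have h1 : (cE P E (M * q) w)⁻¹ ∈ V := h
    rw [hV, ← valHom_apply, map_inv₀] at h1
    have h2 : valHom E (M * q) (cE P E (M * q) w) = cst ((w : _root_.Fermat.Agent.A2.Mod.RE P E) : E) := rfl
    have h3 : (cst ((w : _root_.Fermat.Agent.A2.Mod.RE P E) : E))⁻¹ = cst ((w : E)⁻¹) := (map_inv₀ _ _).symm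
    rw [h2, h3, isGaussInt_cst_iff] at h1
    exact w_inv_not_mem hS h1
  O_div := by
    intro x hx hxw
    obtain ⟨g, hg, rfl⟩ := mem_Oring.mp hx
    have h1 : αE E M q g * (cE P E (M * q) w)⁻¹ = αE E M q (g * (cE P E M w)⁻¹) := by
      rw [_root_.map_mul, map_inv₀, alpha_cE]
    rw [h1] at hxw ⊢
    exact mem_Oring.mpr ⟨_, (alpha_mem_iff hS hVM hV _).mp hxw, rfl⟩
  O_inv := by
    intro x hx hxi
    obtain ⟨g, hg, rfl⟩ := mem_Oring.mp hx
    have h1 : (αE E M q g)⁻¹ = αE E M q g⁻¹ := (map_inv₀ _ _).symm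
    rw [h1] at hxi ⊢
    exact mem_Oring.mpr ⟨_, (alpha_mem_iff hS hVM hV _).mp hxi, rfl⟩
  X_le := by
    rintro x ⟨d, hd, hdM, hxd⟩
    haveI := hd
    exact jser_mem_V hV hxd
  disc := fun x hx hx0 => disc_V hS (M * q) hV hx hx0
  kron := fun x hx => kron_X hS hVM hV hx
  gen := gen_X hS hVM

/-- **Leaf L11 (`ResInf`)**: residue degree one over level `M` on `C∞`. -/
theorem resInf (P : ValuationSubring _root_.Fermat.Agent.A2.Mod.Qb) (E : IntermediateField ℚ _root_.Fermat.Agent.A2.Mod.Qb) (M q : ℕ) [NeZero M]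
    [NeZero q] (w : _root_.Fermat.Agent.A2.Mod.RE P E) : ResInfStatement P E M q w := by
  intro hS VM V hVM hV f hf
  obtain ⟨g', hg', hcong⟩ := (resOneData hS hVM hV).exists_congr hf
  obtain ⟨g, hg, rfl⟩ := mem_Oring.mp hg'
  exact ⟨g, hg, hcong⟩

end Concrete

end Fermat.Agent.A2.Mod.H378

end
end
-- ===== PACK-END A2/Mod/H378/L11.lean

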