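import Mathlib
import Fermat.Prelude.Def_AlgebraicCurve_DivisorPushPull
import Fermat.Prelude.Def_ModularCurve_X0ModL
import Fermat.Prelude.Def_AlgebraicCurve_BaseChangeGalois
import Fermat.Agent.Pack.S33.E13L1
import Fermat.Agent.Pack.S33.E4L0
import Fermat.Agent.Pack.S33.E13L2
import Fermat.Agent.Pack.S33.E0L1
import Fermat.Agent.Pack.S33.E4L1
import Fermat.Agent.Pack.S33.E13L3
import Fermat.Agent.Pack.S33.E13L0
import Fermat.Agent.Pack.S33.E1L1
import Fermat.Agent.Pack.S33.E5L1
import Fermat.Agent.Pack.S33.E14L2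
import Fermat.Agent.Pack.S33.E6L2
import Fermat.Agent.Pack.S33.E8L1
import Fermat.Agent.Pack.S33.E14L3
import Fermat.Agent.Pack.S33.E8L0
import Fermat.Agent.Pack.S33.E14L1

-- ===== PACK-BEGIN S30/H990/Final.lean
section
/-
S30 top glue (helper990): the frozen statement S30 from the adic eigenmodules alone
(the Chebotarev input is Tier 1 of the shared CHEB library).
-/




set_option autoImplicit false

namespace Fermat.Agent.S30.H990

open Polynomial

/-- **S30 from the adic eigenmodules.** -/
theorem result_of_hasAdicEigenModules (hmod : HasAdicEigenModules) :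
    ∀ (p : ℕ) [Fact p.Prime] (N : ℕ) [NeZero N] (S : Finset ℕ)
      (_hpS : p ∈ S) (_hNS : ∀ q : ℕ, q.Prime → q ∣ N → q ∈ S)
      (𝒪' : Type) [CommRing 𝒪'] [IsDomain 𝒪'] [IsDiscreteValuationRing 𝒪']
      [IsAdicComplete (IsLocalRing.maximalIdeal 𝒪') 𝒪'] [Finite (IsLocalRing.ResidueField 𝒪')]
      [CharZero 𝒪'] (_hp𝒪' : (p : 𝒪') ∈ IsLocalRing.maximalIdeal 𝒪')
      (χ : CuspForm.heckeAlgebra N 2 (↑S : Set ℕ) →+* 𝒪'),
      ∃ (𝒪'' : Type) (_ : CommRing 𝒪'') (_ : IsDomain 𝒪'') (_ : IsDiscreteValuationRing 𝒪'')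
        (_ : IsAdicComplete (IsLocalRing.maximalIdeal 𝒪'') 𝒪'')
        (_ : Finite (IsLocalRing.ResidueField 𝒪'')) (_ : CharZero 𝒪'')
        (_ : Algebra 𝒪' 𝒪'') (_ : Module.Finite 𝒪' 𝒪'') (_ : IsLocalHom (algebraMap 𝒪' 𝒪'')),
      Function.Injective (algebraMap 𝒪' 𝒪'') ∧
      ∃ ρ : GaloisRepAdic 𝒪'',
        (∀ (ℓ : ℕ) (hℓ : ℓ.Prime) (hℓN : ¬ ℓ ∣ N) (hℓS : ℓ ∉ (↑S : Set ℕ)),
          ∀ A : ValuationSubring (AlgebraicClosure ℚ), A.LiesOverPrime ℓ →
            ∀ σ : AlgebraicClosure ℚ ≃ₐ[ℚ] AlgebraicClosure ℚ, A.IsFrobeniusAt σ ℓ →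
              LinearMap.charpoly (ρ.ρ σ) =
                X ^ 2 - C (algebraMap 𝒪' 𝒪'' (χ (CuspForm.heckeAlgebra.T hℓ hℓN hℓS))) * X
                  + C ((ℓ : 𝒪''))) ∧
        (∀ q : ℕ, q.Prime → ¬ q ∣ N → q ≠ p → ρ.IsUnramifiedAt q) :=
  result_of (chebWeak_of_frobeniusDivision Fermat.Agent.Lib.Cheb.frobeniusDivision) hmod

end Fermat.Agent.S30.H990

end
-- ===== PACK-END S30/H990/Final.lean

-- ===== PACK-BEGIN Lib/FF398/Local.lean
section







/-!
# Lib/FF398 — relative theory of places for a finite extension `F'/F` of function fields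

For a place `v` of `F` and a finite extension `F'/F` (characteristic zero) we use the integral
closure `S` of `O_v` in `F'` (a semi-local Dedekind domain) as a dictionary:
places of `F'` over `v`  ↔  height-one primes of `S`.

Main results of this file (helper398):
* `placeOf v q` : the place of `F'` attached to a height one prime `q` of `S`;
* `restrict_placeOf`, `exists_placeOf_eq`, `placeOf_injective` : the dictionary;
* `ord_placeOf` : `ord` of `placeOf v q` is the `q`-adic valuation.
-/

set_option autoImplicit false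
set_option linter.unusedSectionVars false

open AlgebraicCurve IsDedekindDomain

namespace Fermat.Agent.Lib.FF398

section Max

variable {K F : Type*} [Field K] [Field F] [Algebra K F]

/-- Discrete valuation rings are maximal subrings: comparable places are equal. -/
theorem place_eq_of_le {v w : Place K F} (h : v.toValuationSubring ≤ w.toValuationSubring) :
    v = w :=
  Place.ext (ValuationSubring.eq_of_le_of_ne_top _ h w.ne_top')

end Max

section Local

variable {K F F' : Type*} [Field K] [Field F] [Field F'] [Algebra K F] [Algebra K F']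
  [Algebra F F'] [IsScalarTower K F F'] [FiniteDimensional F F'] [CharZero F]
variable (v : Place K F)

variable (F') in
/-- The integral closure of `O_v` in `F'`. -/
abbrev intCl : Subalgebra v.toValuationSubring F' := integralClosure v.toValuationSubring F'

omit [Algebra K F'] [IsScalarTower K F F'] [FiniteDimensional F F'] [CharZero F] in
theorem algebraMap_OF'_injective :
    Function.Injective (algebraMap v.toValuationSubring F') := by
  intro a b h
  apply Subtype.ext
  exact (algebraMap F F').injective h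

instance (priority := 2000) instFaithfulOF' : FaithfulSMul v.toValuationSubring F' :=
  (faithfulSMul_iff_algebraMap_injective _ _).mpr (algebraMap_OF'_injective v)

instance (priority := 2000) instTorsionFreeOF' :
    Module.IsTorsionFree v.toValuationSubring F' :=
  FaithfulSMul.to_isTorsionFree _ _

instance (priority := 2000) instTorsionFreeIntCl :
    Module.IsTorsionFree v.toValuationSubring (intCl F' v) :=
  Subalgebra.instIsTorsionFree (intCl F' v)

instance instTowerKOF' : IsScalarTower K v.toValuationSubring F' :=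
  IsScalarTower.of_algebraMap_eq fun a => by
    show algebraMap K F' a = algebraMap F F' (algebraMap K F a)
    rw [← IsScalarTower.algebraMap_apply]

instance instDedekindIntCl : IsDedekindDomain (intCl F' v) :=
  integralClosure.isDedekindDomain v.toValuationSubring F F'

instance instFracIntCl : IsFractionRing (intCl F' v) F' :=
  IsIntegralClosure.isFractionRing_of_finite_extension v.toValuationSubring F F' (intCl F' v)

instance instFiniteIntCl : Module.Finite v.toValuationSubring (intCl F' v) :=
  IsIntegralClosure.finite v.toValuationSubring F F' (intCl F' v)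

instance instFreeIntCl : Module.Free v.toValuationSubring (intCl F' v) :=
  Module.free_of_finite_type_torsion_free'

/-- The place of `F'` attached to a height-one prime of the integral closure of `O_v`. -/
noncomputable def placeOf (q : HeightOneSpectrum (intCl F' v)) : Place K F' :=
  Place.ofHeightOneSpectrum (K := K) q

theorem placeOf_toValuationSubring (q : HeightOneSpectrum (intCl F' v)) :
    (placeOf v q).toValuationSubring = (q.valuation F').valuationSubring := rfl

theorem mem_placeOf_iff (q : HeightOneSpectrum (intCl F' v)) (g : F') :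
    g ∈ (placeOf v q).toValuationSubring ↔ q.valuation F' g ≤ 1 := Iff.rfl

/-- `placeOf v q` lies over `v`. -/
theorem restrict_placeOf (q : HeightOneSpectrum (intCl F' v)) :
    (placeOf v q).restrict F = v := by
  symm
  apply place_eq_of_le
  intro a ha
  rw [Place.restrict_toValuationSubring, ValuationSubring.mem_comap, mem_placeOf_iff]
  have : algebraMap F F' a = algebraMap (intCl F' v) F'
      (algebraMap v.toValuationSubring (intCl F' v) ⟨a, ha⟩) := rfl
  rw [this]
  exact q.valuation_le_one _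

/-- The order function of `placeOf v q` is the `q`-adic valuation. -/
theorem ord_placeOf (q : HeightOneSpectrum (intCl F' v)) (g : F') :
    (placeOf v q).ord g = -(WithZero.log (q.valuation F' g)) := by
  rcases eq_or_ne g 0 with rfl | hg
  · simp
  symm
  obtain ⟨π, hπ⟩ := q.valuation_exists_uniformizer F'
  have hπ0 : π ≠ 0 := by
    rintro rfl
    rw [map_zero] at hπ
    exact WithZero.exp_ne_zero hπ.symm
  refine Fermat.Agent.S24.FF.ordLike_eq_ord (fun g => -(WithZero.log (q.valuation F' g)))
    (fun f g hf hg => ?_) (placeOf v q) (fun f hf => ?_) hπ0 ?_ hg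
  · rw [map_mul, WithZero.log_mul ((Valuation.ne_zero_iff _).mpr hf)
      ((Valuation.ne_zero_iff _).mpr hg)]
    ring
  · rw [mem_placeOf_iff, neg_nonneg,
      WithZero.log_le_iff_le_exp ((Valuation.ne_zero_iff _).mpr hf)]
    rfl
  · rw [hπ, WithZero.log_exp]
    ring

/-- Membership in a height-one prime, read off from the valuation subring. -/
theorem mem_asIdeal_iff (q : HeightOneSpectrum (intCl F' v)) (s : intCl F' v) :
    s ∈ q.asIdeal ↔ s = 0 ∨ ((s : F'))⁻¹ ∉ (placeOf v q).toValuationSubring := by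
  rw [mem_placeOf_iff, ← q.valuation_lt_one_iff_mem (K := F')]
  show q.valuation F' (s : F') < 1 ↔ s = 0 ∨ ¬ q.valuation F' ((s : F'))⁻¹ ≤ 1
  rcases eq_or_ne s 0 with rfl | hs
  · simp
  have hs' : (s : F') ≠ 0 := fun h => hs (Subtype.ext h)
  have hv0 : q.valuation F' (s : F') ≠ 0 := (Valuation.ne_zero_iff _).mpr hs'
  rw [map_inv₀, not_le, one_lt_inv₀ (zero_lt_iff.mpr hv0)]
  simp [hs]

theorem placeOf_injective : Function.Injective (placeOf (F' := F') v) := by
  intro q q' h
  apply HeightOneSpectrum.ext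
  ext s
  rw [mem_asIdeal_iff, mem_asIdeal_iff, h]

omit [CharZero F] in
/-- The integral closure of `O_{w|F}` is contained in `O_w`. -/
theorem coe_intCl_mem (w : Place K F') (s : intCl F' (w.restrict F)) :
    (s : F') ∈ w.toValuationSubring := by
  obtain ⟨p, hp, hps⟩ := s.2
  have hint : IsIntegral w.toValuationSubring (s : F') := by
    refine ⟨p.map (Place.restrictInclusion F w), hp.map _, ?_⟩
    rw [Polynomial.eval₂_map]
    exact hps
  obtain ⟨y, hy⟩ := IsIntegrallyClosed.isIntegral_iff.mp hint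
  rw [← hy]
  exact y.2

/-- The inclusion of the integral closure of `O_{w|F}` into `O_w`. -/
def intClInclusion (w : Place K F') : intCl F' (w.restrict F) →+* w.toValuationSubring where
  toFun s := ⟨(s : F'), coe_intCl_mem w s⟩
  map_one' := rfl
  map_mul' _ _ := rfl
  map_zero' := rfl
  map_add' _ _ := rfl

@[simp]
theorem coe_intClInclusion (w : Place K F') (s : intCl F' (w.restrict F)) :
    ((intClInclusion w s : w.toValuationSubring) : F') = (s : F') := rfl

/-- The centre of `w` on the integral closure of `O_{w|F}`. -/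
def centre (w : Place K F') : Ideal (intCl F' (w.restrict F)) :=
  Ideal.comap (intClInclusion w) (IsLocalRing.maximalIdeal w.toValuationSubring)

instance centre_isPrime (w : Place K F') : (centre (F := F) w).IsPrime :=
  Ideal.comap_isPrime _ _

theorem centre_ne_bot (w : Place K F') : centre (F := F) w ≠ ⊥ := by
  obtain ⟨π, hπ⟩ := IsDiscreteValuationRing.exists_irreducible (w.restrict F).toValuationSubring
  intro h
  have hmem : algebraMap (w.restrict F).toValuationSubring (intCl F' (w.restrict F)) π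
      ∈ centre (F := F) w := by
    rw [centre, Ideal.mem_comap, IsLocalRing.mem_maximalIdeal, mem_nonunits_iff]
    intro hu
    have hu' : IsUnit (Place.restrictInclusion F w π) := hu
    exact hπ.not_isUnit (isUnit_of_map_unit (Place.restrictInclusion F w) π hu')
  rw [h, Ideal.mem_bot] at hmem
  have hinj : Function.Injective
      (algebraMap (w.restrict F).toValuationSubring (intCl F' (w.restrict F))) :=
    FaithfulSMul.algebraMap_injective _ _
  exact hπ.ne_zero (hinj (by rw [hmem, map_zero]))

/-- The centre of `w` as a height-one prime. -/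
def centrePrime (w : Place K F') : HeightOneSpectrum (intCl F' (w.restrict F)) :=
  ⟨centre w, centre_isPrime w, centre_ne_bot w⟩

theorem placeOf_centrePrime (w : Place K F') : placeOf (w.restrict F) (centrePrime w) = w := by
  apply place_eq_of_le
  intro g hg
  rw [mem_placeOf_iff] at hg
  obtain ⟨n, d, hnd⟩ := (centrePrime w).exists_primeCompl_mul_eq_of_integer g hg
  have hd : (d : intCl F' (w.restrict F)) ∉ centre (F := F) w := d.2
  rw [centre, Ideal.mem_comap, IsLocalRing.mem_maximalIdeal, mem_nonunits_iff, not_not] at hd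
  obtain ⟨b, hb⟩ := isUnit_iff_exists_inv.mp hd
  have hb' : ((d : intCl F' (w.restrict F)) : F') * (b : F') = 1 := congrArg Subtype.val hb
  have hd0 : ((d : intCl F' (w.restrict F)) : F') ≠ 0 := left_ne_zero_of_mul_eq_one hb'
  have hg' : g = ((n : F')) * (b : F') := by
    have h1 : g * ((d : intCl F' (w.restrict F)) : F') = (n : F') := hnd
    calc g = g * (((d : intCl F' (w.restrict F)) : F') * (b : F')) := by rw [hb', mul_one]
      _ = (n : F') * (b : F') := by rw [← mul_assoc, h1]
  rw [hg']
  exact mul_mem (coe_intCl_mem w n) b.2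

/-- Every place of `F'` over `v` comes from a height-one prime of the integral closure. -/
theorem exists_placeOf_eq (w : Place K F') (hw : w.restrict F = v) :
    ∃ q : HeightOneSpectrum (intCl F' v), placeOf v q = w := by
  subst hw
  exact ⟨centrePrime w, placeOf_centrePrime w⟩

theorem range_placeOf : Set.range (placeOf (F' := F') v) = {w : Place K F' | w.restrict F = v} := by
  ext w
  constructor
  · rintro ⟨q, rfl⟩
    exact restrict_placeOf v q
  · intro hw
    exact exists_placeOf_eq v w hw

/-! ### Primes over the maximal ideal of `O_v` -/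

/-- The maximal ideal of `O_v`. -/
abbrev pv : Ideal v.toValuationSubring := IsLocalRing.maximalIdeal v.toValuationSubring

theorem pv_ne_bot : pv v ≠ ⊥ := IsDiscreteValuationRing.not_a_field _

theorem algebraMap_O_intCl_injective :
    Function.Injective (algebraMap v.toValuationSubring (intCl F' v)) :=
  FaithfulSMul.algebraMap_injective _ _

theorem map_pv_ne_bot : (pv v).map (algebraMap v.toValuationSubring (intCl F' v)) ≠ ⊥ := by
  rw [Ne, Ideal.map_eq_bot_iff_of_injective (algebraMap_O_intCl_injective v)]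
  exact pv_ne_bot v

instance liesOver_pv (q : HeightOneSpectrum (intCl F' v)) : q.asIdeal.LiesOver (pv v) := by
  constructor
  have hprime : (q.asIdeal.under v.toValuationSubring).IsPrime := Ideal.IsPrime.under _ _
  have hne : q.asIdeal.under v.toValuationSubring ≠ ⊥ :=
    Ideal.under_ne_bot v.toValuationSubring q.ne_bot
  have hmax : (q.asIdeal.under v.toValuationSubring).IsMaximal := hprime.isMaximal hne
  exact (IsLocalRing.eq_maximalIdeal hmax).symm

instance isMaximal_asIdeal (q : HeightOneSpectrum (intCl F' v)) : q.asIdeal.IsMaximal :=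
  q.isPrime.isMaximal q.ne_bot

/-- The height-one prime attached to a prime over `𝔪_v`. -/
def primeOfOver (q : (pv v).primesOver (intCl F' v)) : HeightOneSpectrum (intCl F' v) :=
  ⟨q.1, q.2.1, by
    have := q.2.2
    exact Ideal.ne_bot_of_liesOver_of_ne_bot (pv_ne_bot v) q.1⟩

@[simp]
theorem primeOfOver_asIdeal (q : (pv v).primesOver (intCl F' v)) :
    (primeOfOver v q).asIdeal = q.1 := rfl

theorem primeOfOver_injective : Function.Injective (primeOfOver (F' := F') v) := by
  intro q q' h
  apply Subtype.ext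
  exact congrArg HeightOneSpectrum.asIdeal h

theorem primeOfOver_surjective : Function.Surjective (primeOfOver (F' := F') v) := by
  intro q
  exact ⟨⟨q.asIdeal, q.isPrime, liesOver_pv v q⟩, rfl⟩

instance finite_primesOver : Finite ((pv v).primesOver (intCl F' v)) :=
  (Algebra.QuasiFinite.finite_primesOver (pv v)).to_subtype

instance finite_heightOneSpectrum : Finite (HeightOneSpectrum (intCl F' v)) :=
  Finite.of_surjective _ (primeOfOver_surjective v)

/-- The fibre over `v` is finite (no `HasPrincipalDivisors` needed). -/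
theorem finite_fibre : {w : Place K F' | w.restrict F = v}.Finite := by
  rw [← range_placeOf]
  exact Set.finite_range _

/-! ### Ramification index and residue degree -/

theorem mem_asIdeal_iff_ord (q : HeightOneSpectrum (intCl F' v)) (s : intCl F' v) :
    s ∈ q.asIdeal ↔ s = 0 ∨ 0 < (placeOf v q).ord (s : F') := by
  rcases eq_or_ne s 0 with rfl | hs
  · simp
  have hs' : (s : F') ≠ 0 := fun h => hs (Subtype.ext h)
  have hv0 : q.valuation F' (s : F') ≠ 0 := (Valuation.ne_zero_iff _).mpr hs'
  rw [ord_placeOf, neg_pos, WithZero.log_lt_iff_lt_exp hv0, ← q.valuation_lt_one_iff_mem (K := F')]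
  simp only [hs, false_or]
  rfl

theorem ord_placeOf_coe_nonneg (q : HeightOneSpectrum (intCl F' v)) (s : intCl F' v) :
    0 ≤ (placeOf v q).ord (s : F') :=
  (Fermat.Agent.S24.FF.mem_iff_ord_nonneg _).mp
    ((mem_placeOf_iff v q _).mpr (q.valuation_le_one s))

/-- The ramification index of `placeOf v q` (in the sense of the Prelude) is Mathlib's
ramification index of `q` over `O_v`. -/
theorem ramificationIndex_placeOf (q : HeightOneSpectrum (intCl F' v)) :
    ((placeOf v q).ramificationIndex F : ℤ)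
      = (q.asIdeal.ramificationIdx v.toValuationSubring : ℤ) := by
  obtain ⟨π, hπ, hπ1⟩ := Fermat.Agent.S24.FF.exists_irreducible_coe v
  have h1 := (placeOf v q).ord_restrict (F := F) (π : F)
  rw [restrict_placeOf, hπ1, mul_one] at h1
  rw [← h1, ord_placeOf]
  have hπS : algebraMap v.toValuationSubring (intCl F' v) π ≠ 0 := fun h =>
    hπ.ne_zero (algebraMap_O_intCl_injective v (by rw [h, map_zero]))
  have h2 : q.valuation F' (algebraMap F F' (π : F))
      = q.intValuation (algebraMap v.toValuationSubring (intCl F' v) π) :=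
    q.valuation_of_algebraMap (algebraMap v.toValuationSubring (intCl F' v) π)
  rw [h2, q.intValuation_eq_exp_neg_multiplicity hπS, WithZero.log_exp, neg_neg,
    Ideal.IsDedekindDomain.ramificationIdx_eq_multiplicity (pv v) q.asIdeal (map_pv_ne_bot v)]
  have h3 : (pv v).map (algebraMap v.toValuationSubring (intCl F' v))
      = Ideal.span {algebraMap v.toValuationSubring (intCl F' v) π} := by
    rw [pv, hπ.maximalIdeal_eq, Ideal.map_span, Set.image_singleton]
  rw [h3]

/-- If all places of `F'` have degree one, residue degrees over `O_v` are one. -/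
theorem inertiaDeg_intCl_eq_one (hdeg' : ∀ w : Place K F', w.deg = 1)
    (q : HeightOneSpectrum (intCl F' v)) :
    q.asIdeal.inertiaDeg v.toValuationSubring = 1 := by
  refine Fermat.Agent.S24.FF.inertiaDeg_eq_one_of_forall_exists (pv v) q.asIdeal fun s => ?_
  obtain ⟨c, hc⟩ := Fermat.Agent.Lib.RR.exists_const_sub (placeOf v q) (hdeg' _)
    (ord_placeOf_coe_nonneg v q s)
  refine ⟨algebraMap K v.toValuationSubring c, ?_⟩
  rw [mem_asIdeal_iff_ord]
  have hcoe : ((s - algebraMap v.toValuationSubring (intCl F' v)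
      (algebraMap K v.toValuationSubring c) : intCl F' v) : F') = (s : F') - algebraMap K F' c := by
    rw [IsScalarTower.algebraMap_apply K F F']
    rfl
  rcases hc with hc | hc
  · left
    apply Subtype.ext
    rw [hcoe]
    exact hc
  · right
    rw [hcoe]
    exact hc

omit [CharZero F] [FiniteDimensional F F'] in
/-- If all places of `F'` have degree one, the Prelude's residue degrees are one. -/
theorem inertiaDeg_eq_one [Algebra.IsIntegral F F'] (hdeg' : ∀ w : Place K F', w.deg = 1)
    (w : Place K F') : w.inertiaDeg F = 1 := by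
  have h := w.deg_restrict_mul_inertiaDeg (F := F)
  rw [hdeg' w] at h
  exact (mul_eq_one.mp h).2

omit [CharZero F] [FiniteDimensional F F'] in
theorem deg_restrict_eq_one [Algebra.IsIntegral F F'] (hdeg' : ∀ w : Place K F', w.deg = 1)
    (w : Place K F') : (w.restrict F).deg = 1 := by
  have h := w.deg_restrict_mul_inertiaDeg (F := F)
  rw [hdeg' w] at h
  exact (mul_eq_one.mp h).1

/-- **Local fundamental identity** `∑_{w | v} e(w|v) = [F' : F]`. -/
theorem sum_ramificationIndex (hdeg' : ∀ w : Place K F', w.deg = 1)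
    (s : Finset (Place K F')) (hs : ∀ w, w ∈ s ↔ w.restrict F = v) :
    ∑ w ∈ s, (w.ramificationIndex F : ℤ) = (Module.finrank F F' : ℤ) := by
  let _ : Fintype ((pv v).primesOver (intCl F' v)) := Fintype.ofFinite _
  have h := Ideal.sum_ramification_inertia_eq_finrank (pv v) (intCl F' v)
  rw [IsFractionRing.finrank_eq v.toValuationSubring F (intCl F' v) F', ← h]
  push_cast
  symm
  refine Finset.sum_bij (fun q _ => placeOf v (primeOfOver v q)) ?_ ?_ ?_ ?_
  · intro q _
    exact (hs _).mpr (restrict_placeOf v _)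
  · intro q _ q' _ h
    exact primeOfOver_injective v (placeOf_injective v h)
  · intro w hw
    obtain ⟨q, hq⟩ := exists_placeOf_eq v w ((hs w).mp hw)
    obtain ⟨q', rfl⟩ := primeOfOver_surjective v q
    exact ⟨q', Finset.mem_univ _, hq⟩
  · intro q _
    have h1 := inertiaDeg_intCl_eq_one v hdeg' (primeOfOver v q)
    rw [primeOfOver_asIdeal] at h1
    rw [ramificationIndex_placeOf, primeOfOver_asIdeal, h1]
    simp

/-! ### Norm formula -/

open UniqueFactorizationMonoid

theorem ord_coe_eq_multiplicity (a : v.toValuationSubring) (ha : a ≠ 0) :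
    v.ord (a : F) = (multiplicity (pv v) (Ideal.span {a}) : ℤ) := by
  rw [Place.ord, v.adicValuation_coe, v.heightOneSpectrum.intValuation_eq_exp_neg_multiplicity ha,
    WithZero.log_exp, neg_neg]
  rfl

theorem ord_placeOf_coe_eq_multiplicity (q : HeightOneSpectrum (intCl F' v)) (x : intCl F' v)
    (hx : x ≠ 0) :
    (placeOf v q).ord (x : F') = (multiplicity q.asIdeal (Ideal.span {x}) : ℤ) := by
  rw [ord_placeOf]
  have h2 : q.valuation F' (x : F') = q.intValuation x := q.valuation_of_algebraMap x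
  rw [h2, q.intValuation_eq_exp_neg_multiplicity hx, WithZero.log_exp, neg_neg]

theorem multiplicity_eq_count (q : HeightOneSpectrum (intCl F' v)) (I : Ideal (intCl F' v))
    (hI : I ≠ ⊥) :
    multiplicity q.asIdeal I = (normalizedFactors I).count q.asIdeal := by
  have hq : Prime q.asIdeal := Ideal.prime_of_isPrime q.ne_bot q.isPrime
  rw [multiplicity_eq_of_emultiplicity_eq_some
    (emultiplicity_eq_count_normalizedFactors hq.irreducible hI), normalize_eq]

theorem sum_count_eq_card [Fintype (HeightOneSpectrum (intCl F' v))] (I : Ideal (intCl F' v))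
    (hI : I ≠ ⊥) :
    ∑ q : HeightOneSpectrum (intCl F' v), (normalizedFactors I).count q.asIdeal
      = Multiset.card (normalizedFactors I) := by
  classical
  rw [← Multiset.toFinset_sum_count_eq]
  have hinj : Function.Injective
      (fun q : HeightOneSpectrum (intCl F' v) => q.asIdeal) := fun q q' h =>
    HeightOneSpectrum.ext h
  rw [← Finset.sum_image (s := Finset.univ)
    (f := fun P : Ideal (intCl F' v) => (normalizedFactors I).count P)
    (g := fun q : HeightOneSpectrum (intCl F' v) => q.asIdeal) (fun q _ q' _ h => hinj h)]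
  symm
  refine Finset.sum_subset ?_ ?_
  · intro P hP
    rw [Multiset.mem_toFinset, Ideal.mem_normalizedFactors_iff hI] at hP
    have hPne : P ≠ ⊥ := fun h => hI (le_bot_iff.mp (h ▸ hP.2))
    exact Finset.mem_image.mpr ⟨⟨P, hP.1, hPne⟩, Finset.mem_univ _, rfl⟩
  · intro P _ hP
    rw [Multiset.mem_toFinset] at hP
    exact Multiset.count_eq_zero_of_notMem hP

theorem relNorm_eq_pow (hdeg' : ∀ w : Place K F', w.deg = 1) (I : Ideal (intCl F' v))
    (hI : I ≠ ⊥) :
    Ideal.relNorm v.toValuationSubring I = (pv v) ^ Multiset.card (normalizedFactors I) := by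
  conv_lhs => rw [← Ideal.prod_normalizedFactors_eq_self hI]
  rw [map_multiset_prod]
  have hconst : (normalizedFactors I).map (Ideal.relNorm v.toValuationSubring)
      = (normalizedFactors I).map (fun _ => pv v) := by
    refine Multiset.map_congr rfl fun P hP => ?_
    rw [Ideal.mem_normalizedFactors_iff hI] at hP
    have hPne : P ≠ ⊥ := fun h => hI (le_bot_iff.mp (h ▸ hP.2))
    have key : ∀ q : HeightOneSpectrum (intCl F' v),
        Ideal.relNorm v.toValuationSubring q.asIdeal = pv v := fun q => by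
      have h1 := Ideal.relNorm_eq_pow_of_isMaximal q.asIdeal (pv v)
      rw [inertiaDeg_intCl_eq_one v hdeg' q, pow_one] at h1
      exact h1
    exact key ⟨P, hP.1, hPne⟩
  rw [hconst, Multiset.map_const', Multiset.prod_replicate]

theorem sum_ord_coe_eq_ord_intNorm [Fintype (HeightOneSpectrum (intCl F' v))]
    (hdeg' : ∀ w : Place K F', w.deg = 1) (x : intCl F' v) (hx : x ≠ 0) :
    ∑ q : HeightOneSpectrum (intCl F' v), (placeOf v q).ord (x : F')
      = v.ord ((Algebra.intNorm v.toValuationSubring (intCl F' v) x : v.toValuationSubring) : F) := by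
  have hI : Ideal.span {x} ≠ (⊥ : Ideal (intCl F' v)) := by
    rw [Ne, Ideal.span_singleton_eq_bot]
    exact hx
  have hN : Algebra.intNorm v.toValuationSubring (intCl F' v) x ≠ 0 :=
    Algebra.intNorm_ne_zero.mpr hx
  rw [ord_coe_eq_multiplicity v _ hN, ← Ideal.relNorm_singleton, relNorm_eq_pow v hdeg' _ hI,
    multiplicity_pow_self_of_prime
      (Ideal.prime_of_isPrime (pv_ne_bot v) (IsLocalRing.maximalIdeal.isMaximal _).isPrime),
    ← sum_count_eq_card v _ hI]
  push_cast
  refine Finset.sum_congr rfl fun q _ => ?_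
  rw [ord_placeOf_coe_eq_multiplicity v q x hx, multiplicity_eq_count v q _ hI]

omit [FiniteDimensional F F'] [CharZero F] [Algebra K F'] [IsScalarTower K F F'] [Algebra F F'] in
theorem ord_div' (u : Place K F) {f g : F} (hf : f ≠ 0) (hg : g ≠ 0) :
    u.ord (f / g) = u.ord f - u.ord g := by
  rw [div_eq_mul_inv, u.ord_mul hf (inv_ne_zero hg), u.ord_inv]
  ring

theorem sum_ord_eq_ord_norm_of_mem (hdeg' : ∀ w : Place K F', w.deg = 1)
    (s : Finset (Place K F')) (hs : ∀ w, w ∈ s ↔ w.restrict F = v)
    (x : intCl F' v) (hx : x ≠ 0) :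
    ∑ w ∈ s, w.ord (x : F') = v.ord (Algebra.norm F (x : F')) := by
  let _ : Fintype (HeightOneSpectrum (intCl F' v)) := Fintype.ofFinite _
  have h1 := sum_ord_coe_eq_ord_intNorm v hdeg' x hx
  have h2 : ((Algebra.intNorm v.toValuationSubring (intCl F' v) x : v.toValuationSubring) : F)
      = Algebra.norm F (x : F') :=
    Algebra.algebraMap_intNorm (A := v.toValuationSubring) (K := F) (L := F')
      (B := intCl F' v) x
  rw [← h2, ← h1]
  symm
  refine Finset.sum_bij (fun q _ => placeOf v q) ?_ ?_ ?_ ?_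
  · intro q _
    exact (hs _).mpr (restrict_placeOf v _)
  · intro q _ q' _ h
    exact placeOf_injective v h
  · intro w hw
    obtain ⟨q, hq⟩ := exists_placeOf_eq v w ((hs w).mp hw)
    exact ⟨q, Finset.mem_univ _, hq⟩
  · intro q _
    rfl

/-- **Local norm formula** `∑_{w | v} ord_w(g) = ord_v(N_{F'/F} g)`. -/
theorem sum_ord_eq_ord_norm (hdeg' : ∀ w : Place K F', w.deg = 1)
    (s : Finset (Place K F')) (hs : ∀ w, w ∈ s ↔ w.restrict F = v)
    (g : F') (hg : g ≠ 0) :
    ∑ w ∈ s, w.ord g = v.ord (Algebra.norm F g) := by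
  obtain ⟨a, b, hb, rfl⟩ := IsFractionRing.div_surjective (A := intCl F' v) g
  have hb0 : b ≠ 0 := nonZeroDivisors.ne_zero hb
  have ha0 : a ≠ 0 := by
    rintro rfl
    simp at hg
  have ha' : (a : F') ≠ 0 := fun h => ha0 (Subtype.ext h)
  have hb' : (b : F') ≠ 0 := fun h => hb0 (Subtype.ext h)
  have hcoea : algebraMap (intCl F' v) F' a = (a : F') := rfl
  have hcoeb : algebraMap (intCl F' v) F' b = (b : F') := rfl
  have hnorm : Algebra.norm F ((a : F') / (b : F'))
      = Algebra.norm F (a : F') / Algebra.norm F (b : F') := by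
    rw [eq_div_iff (Algebra.norm_ne_zero_iff.mpr hb'), ← map_mul, div_mul_cancel₀ _ hb']
  rw [hcoea, hcoeb, hnorm,
    ord_div' v (Algebra.norm_ne_zero_iff.mpr ha') (Algebra.norm_ne_zero_iff.mpr hb'),
    ← sum_ord_eq_ord_norm_of_mem v hdeg' s hs a ha0,
    ← sum_ord_eq_ord_norm_of_mem v hdeg' s hs b hb0, ← Finset.sum_sub_distrib]
  refine Finset.sum_congr rfl fun w _ => ?_
  exact ord_div' w ha' hb'

end Local

end Fermat.Agent.Lib.FF398

end
-- ===== PACK-END Lib/FF398/Local.lean

-- ===== PACK-BEGIN Lib/RR/H864/FF1Bridge.lean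
section




/-!
# RR library, bridge: `FF1 K F` in characteristic zero

For `K` algebraically closed of characteristic `0` and `F` finite over `K(x)`, `x` transcendental:
`HasPrincipalDivisors K F` (divisors of functions exist and have degree `0`), every place has
degree one, and there is a place.  Hence `FF1 K F`.
-/

set_option autoImplicit false

noncomputable section

open AlgebraicCurve IntermediateField

namespace Fermat.Agent.Lib.RR.H864

variable {K F : Type*} [Field K] [Field F] [Algebra K F] [IsAlgClosed K] [CharZero K]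

/-- divisors of functions exist (finitely many zeros and poles) -/
theorem exists_divisor (x : F) (hx : Transcendental K x)
    [FiniteDimensional ↥(IntermediateField.adjoin K {x}) F] (f : F) (hf : f ≠ 0) :
    ∃ D : Divisor K F, (∀ v : Place K F, D v = v.ord f) ∧ Divisor.degree D = 0 := by
  classical
  suffices h : ∃ D : Divisor K F, ∀ v : Place K F, D v = v.ord f by
    obtain ⟨D, hD⟩ := h
    exact ⟨D, hD, S24.H864.degree_principal x hx f hf D hD⟩
  by_cases hfK : f ∈ (algebraMap K F).range
  · obtain ⟨c, rfl⟩ := hfK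
    exact ⟨0, fun v => by rw [S24.FF.ord_algebraMap v c]; rfl⟩
  · have hft : Transcendental K f := S24.FF.transcendental_of_not_mem_range hfK
    haveI : FiniteDimensional ↥(IntermediateField.adjoin K {f}) F :=
      S24.FF.finiteDimensional_adjoin_of_transcendental hx hft
    haveI : FiniteDimensional ↥(IntermediateField.adjoin K {f⁻¹}) F := by
      rw [S24.H864.adjoin_simple_inv_eq]; infer_instance
    obtain ⟨sp, hsp⟩ := S24.H864.exists_finset_zeros f hft
    obtain ⟨sn, hsn⟩ := S24.H864.exists_finset_zeros f⁻¹ (S24.H864.transcendental_inv hft)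
    refine ⟨Finsupp.onFinset (sp ∪ sn) (fun v => v.ord f) ?_, fun v => rfl⟩
    intro v hv
    rw [Finset.mem_union, hsp, hsn, Place.ord_inv]
    omega

theorem hasPrincipalDivisors (x : F) (hx : Transcendental K x)
    [FiniteDimensional ↥(IntermediateField.adjoin K {x}) F] : HasPrincipalDivisors K F :=
  ⟨fun f hf => exists_divisor x hx f hf⟩

/-- there is a place (a zero of `x`) -/
theorem nonempty_place (x : F) (hx : Transcendental K x)
    [FiniteDimensional ↥(IntermediateField.adjoin K {x}) F] : Nonempty (Place K F) := by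
  obtain ⟨s, _, hsum⟩ := S24.H864.fundamental_eq x hx
  by_contra hne
  rw [not_nonempty_iff] at hne
  have h0 : ∑ v ∈ s, v.ord x = 0 := Finset.sum_eq_zero fun v _ => (hne.false v).elim
  rw [h0] at hsum
  have hpos : 0 < Module.finrank ↥(IntermediateField.adjoin K {x}) F := Module.finrank_pos
  omega

/-- **Bridge.**  `FF1 K F` for function fields of one variable over an algebraically closed field
of characteristic zero. -/
theorem ff1 (x : F) (hx : Transcendental K x)
    [hfin : FiniteDimensional ↥(IntermediateField.adjoin K {x}) F] : FF1 K F where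
  hpd := hasPrincipalDivisors x hx
  deg_eq_one := fun v => S24.FF.deg_eq_one v hx
  nonempty_place := nonempty_place x hx
  exists_finite := ⟨x, hx, hfin⟩

end Fermat.Agent.Lib.RR.H864

end
end
-- ===== PACK-END Lib/RR/H864/FF1Bridge.lean

-- ===== PACK-BEGIN S29/H882/Inter.lean
section


/-!
# S29 / MERO (helper882), part (C): `F_L ∩ K((q)) = F_K`

For a field embedding `ι : K → L` and `F₀ ≤ ℚ((q))`: a Laurent series `y` over `K` whose base change
`coeffMap ι y` lies in `laurentBaseChange L F₀` already lies in `laurentBaseChange K F₀`.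
-/

set_option autoImplicit false

noncomputable section

open Polynomial ModularCurve IntermediateField

namespace Fermat.Agent.S29.H882

open Fermat.Agent.S24 Fermat.Agent.S24.Deg457

section Span

variable (L : Type*) [Field L] [Algebra ℚ L] (F₀ : IntermediateField ℚ (LaurentSeries ℚ))

/-- `coeffEmb` as a `ℚ`-linear map (for the `ℚ`-structure on `L((q))` induced by `L`). -/
theorem coeffEmb_smul_rat (c : ℚ) (u : LaurentSeries ℚ) :
    coeffEmb L (c • u) = (algebraMap ℚ L c) • coeffEmb L u := by
  ext k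
  simp only [coeffEmb_coeff, HahnSeries.coeff_smul, smul_eq_mul, _root_.map_mul]

/-- The `L`-span of the image of `F₀`. -/
def spanImage : Submodule L (LaurentSeries L) :=
  Submodule.span L (⇑(coeffEmb L) '' (F₀ : Set (LaurentSeries ℚ)))

variable {L F₀}

theorem coeffEmb_mem_spanImage {u : LaurentSeries ℚ} (hu : u ∈ F₀) :
    coeffEmb L u ∈ spanImage L F₀ :=
  Submodule.subset_span ⟨u, hu, rfl⟩

theorem spanImage_le : (spanImage L F₀ : Set (LaurentSeries L)) ⊆ laurentBaseChange L F₀ := by
  intro x hx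
  refine Submodule.span_induction (p := fun x _ => x ∈ laurentBaseChange L F₀) ?_ ?_ ?_ ?_ hx
  · rintro _ ⟨u, hu, rfl⟩
    exact coeffEmb_mem_laurentBaseChange L hu
  · exact _root_.ZeroMemClass.zero_mem _
  · intro a b _ _ ha hb
    exact _root_.AddMemClass.add_mem ha hb
  · intro c a _ ha
    rw [hsmul_eq_algebraMap_mul]
    exact _root_.MulMemClass.mul_mem ((laurentBaseChange L F₀).algebraMap_mem c) ha

theorem mul_mem_spanImage {a b : LaurentSeries L} (ha : a ∈ spanImage L F₀)
    (hb : b ∈ spanImage L F₀) : a * b ∈ spanImage L F₀ := by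
  refine Submodule.span_induction (p := fun a _ => a * b ∈ spanImage L F₀) ?_ ?_ ?_ ?_ ha
  · rintro _ ⟨u, hu, rfl⟩
    refine Submodule.span_induction (p := fun b _ => coeffEmb L u * b ∈ spanImage L F₀)
      ?_ ?_ ?_ ?_ hb
    · rintro _ ⟨v, hv, rfl⟩
      rw [← _root_.map_mul]
      exact coeffEmb_mem_spanImage (_root_.MulMemClass.mul_mem hu hv)
    · rw [mul_zero]; exact _root_.ZeroMemClass.zero_mem _
    · intro x y _ _ hx hy
      rw [mul_add]; exact _root_.AddMemClass.add_mem hx hy
    · intro c x _ hx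
      have : coeffEmb L u * c • x = c • (coeffEmb L u * x) := by
        rw [hsmul_eq_algebraMap_mul, hsmul_eq_algebraMap_mul]; ring
      rw [this]; exact Submodule.smul_mem _ c hx
  · rw [zero_mul]; exact _root_.ZeroMemClass.zero_mem _
  · intro x y _ _ hx hy
    rw [add_mul]; exact _root_.AddMemClass.add_mem hx hy
  · intro c x _ hx
    have : c • x * b = c • (x * b) := by
      rw [hsmul_eq_algebraMap_mul, hsmul_eq_algebraMap_mul]; ring
    rw [this]; exact Submodule.smul_mem _ c hx

theorem one_mem_spanImage : (1 : LaurentSeries L) ∈ spanImage L F₀ := by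
  have := coeffEmb_mem_spanImage (L := L) (F₀ := F₀) (_root_.OneMemClass.one_mem F₀)
  rwa [_root_.map_one] at this

theorem algebraMap_mem_spanImage (c : L) :
    algebraMap L (LaurentSeries L) c ∈ spanImage L F₀ := by
  have h : algebraMap L (LaurentSeries L) c = c • (1 : LaurentSeries L) := by
    rw [hsmul_eq_algebraMap_mul, mul_one]
  rw [h]
  exact Submodule.smul_mem _ c one_mem_spanImage

variable (L F₀) in
/-- The span as a subalgebra. -/
def spanAlg : Subalgebra L (LaurentSeries L) where
  carrier := spanImage L F₀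
  mul_mem' := mul_mem_spanImage
  add_mem' := fun ha hb => _root_.AddMemClass.add_mem ha hb
  algebraMap_mem' := algebraMap_mem_spanImage

/-- Every element of the function field is a quotient of two elements of the span. -/
theorem exists_div_of_mem_laurentBaseChange {x : LaurentSeries L}
    (hx : x ∈ laurentBaseChange L F₀) :
    ∃ r ∈ spanImage L F₀, ∃ s ∈ spanImage L F₀, x = r / s := by
  rw [laurentBaseChange, IntermediateField.mem_adjoin_iff_div] at hx
  obtain ⟨r, hr, s, hs, rfl⟩ := hx
  have hle : Algebra.adjoin L (⇑(coeffEmb L) '' (F₀ : Set (LaurentSeries ℚ))) ≤ spanAlg L F₀ :=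
    Algebra.adjoin_le (fun x hx => Submodule.subset_span hx)
  exact ⟨r, hle hr, s, hle hs, rfl⟩

end Span

section Main

variable {K L : Type*} [Field K] [Algebra ℚ K] [Field L] [Algebra ℚ L]

/-- A finite `ℚ`-independent family in `F₀` whose image spans two given elements of the span. -/
theorem exists_indep_family (F₀ : IntermediateField ℚ (LaurentSeries ℚ))
    {r s : LaurentSeries L} (hr : r ∈ spanImage L F₀) (hs : s ∈ spanImage L F₀) :
    ∃ (m : ℕ) (e : Fin m → LaurentSeries ℚ), (∀ i, e i ∈ F₀) ∧ LinearIndependent ℚ e ∧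
      ∃ a b : Fin m → L, r = ∑ i, a i • coeffEmb L (e i) ∧ s = ∑ i, b i • coeffEmb L (e i) := by
  classical
  -- finite supports
  obtain ⟨lr, hlr, rfl⟩ := (Finsupp.mem_span_image_iff_linearCombination L).mp hr
  obtain ⟨ls, hls, rfl⟩ := (Finsupp.mem_span_image_iff_linearCombination L).mp hs
  set S : Finset (LaurentSeries ℚ) := lr.support ∪ ls.support with hS
  have hSF : ∀ u ∈ S, u ∈ F₀ := by
    intro u hu
    rcases Finset.mem_union.mp hu with h | h
    · exact hlr h
    · exact hls h
  obtain ⟨B, hBt, hspan, hind⟩ := exists_linearIndependent ℚ (S : Set (LaurentSeries ℚ))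
  have hBfin : B.Finite := (Finset.finite_toSet S).subset hBt
  haveI : Fintype B := hBfin.fintype
  -- the image of every element of `S` lies in the `L`-span of the image of `B`
  let EL : LaurentSeries ℚ →ₗ[ℚ] LaurentSeries L :=
    { toFun := coeffEmb L
      map_add' := _root_.map_add _
      map_smul' := fun c u => by
        rw [coeffEmb_smul_rat, RingHom.id_apply, algebraMap_smul] }
  have hmem : ∀ u ∈ S, coeffEmb L u ∈ Submodule.span L (Set.range fun e : B => coeffEmb L (e : _)) := by
    intro u hu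
    have h1 : u ∈ Submodule.span ℚ B := by
      rw [hspan]; exact Submodule.subset_span hu
    have h2 := Submodule.apply_mem_span_image_of_mem_span EL h1
    have h3 : Submodule.span ℚ (EL '' B) ≤
        (Submodule.span L (EL '' B)).restrictScalars ℚ := Submodule.span_le_restrictScalars ℚ L _
    have h4 := h3 h2
    have h5 : (EL '' B) = Set.range fun e : B => coeffEmb L (e : _) := by
      ext x
      constructor
      · rintro ⟨u, hu, rfl⟩; exact ⟨⟨u, hu⟩, rfl⟩
      · rintro ⟨⟨u, hu⟩, rfl⟩; exact ⟨u, hu, rfl⟩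
    rw [h5] at h4
    exact h4
  have hlin : ∀ l : LaurentSeries ℚ →₀ L, (l.support ⊆ S) →
      Finsupp.linearCombination L (⇑(coeffEmb L)) l ∈
        Submodule.span L (Set.range fun e : B => coeffEmb L (e : _)) := by
    intro l hl
    rw [Finsupp.linearCombination_apply, Finsupp.sum]
    refine Submodule.sum_mem _ fun u hu => ?_
    exact Submodule.smul_mem _ _ (hmem u (hl hu))
  have hr' := hlin lr Finset.subset_union_left
  have hs' := hlin ls Finset.subset_union_right
  rw [Submodule.mem_span_range_iff_exists_fun] at hr' hs'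
  obtain ⟨a, ha⟩ := hr'
  obtain ⟨b, hb⟩ := hs'
  -- reindex by `Fin m`
  let eq := Fintype.equivFin B
  refine ⟨Fintype.card B, fun i => ((eq.symm i : B) : LaurentSeries ℚ), ?_, ?_,
    fun i => a (eq.symm i), fun i => b (eq.symm i), ?_, ?_⟩
  · intro i
    exact hSF _ (hBt (eq.symm i).2)
  · exact hind.comp _ eq.symm.injective
  · rw [← ha]
    exact (Equiv.sum_comp eq.symm (fun e : B => a e • coeffEmb L (e : LaurentSeries ℚ))).symm
  · rw [← hb]
    exact (Equiv.sum_comp eq.symm (fun e : B => b e • coeffEmb L (e : LaurentSeries ℚ))).symm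

/-- **(C)** `F_L ∩ K((q)) = F_K`. -/
theorem mem_laurentBaseChange_of_coeffMap_mem (ι : K →+* L)
    (F₀ : IntermediateField ℚ (LaurentSeries ℚ)) {y : LaurentSeries K}
    (hy : coeffMap ι y ∈ laurentBaseChange L F₀) : y ∈ laurentBaseChange K F₀ := by
  classical
  obtain ⟨r, hr, s, hs, hrs⟩ := exists_div_of_mem_laurentBaseChange hy
  by_cases hs0 : s = 0
  · -- then `coeffMap ι y = 0`, so `y = 0`
    rw [hs0, div_zero] at hrs
    have : y = 0 := by
      ext k
      have := congrArg (fun z : LaurentSeries L => z.coeff k) hrs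
      simp only [coeffMap_coeff, HahnSeries.coeff_zero] at this
      simpa using this
    rw [this]; exact _root_.ZeroMemClass.zero_mem _
  obtain ⟨m, e, heF, hind, a, b, hra, hsb⟩ := exists_indep_family F₀ hr hs
  have hxs : coeffMap ι y * s = r := by
    rw [hrs]; field_simp
  -- the family over `K`
  let w : Fin m ⊕ Fin m → LaurentSeries K :=
    Sum.elim (fun i => y * coeffEmb K (e i)) (fun i => coeffEmb K (e i))
  have hindK : LinearIndependent K (fun i => coeffEmb K (e i)) := by
    have := linearIndependent_coeffMap (algebraMap ℚ K) e hind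
    exact this
  have hnot : ¬ LinearIndependent K w := by
    intro hw
    have hL := linearIndependent_coeffMap ι w hw
    rw [Fintype.linearIndependent_iff] at hL
    have key := hL (Sum.elim b (fun i => -a i)) ?_
    · apply hs0
      rw [hsb]
      refine Finset.sum_eq_zero fun i _ => ?_
      have := key (Sum.inl i)
      simp only [Sum.elim_inl] at this
      rw [this, zero_smul]
    · rw [Fintype.sum_sum_type]
      simp only [Sum.elim_inl, Sum.elim_inr, w, _root_.map_mul, coeffMap_coeffEmb']
      have h1 : ∑ i, b i • (coeffMap ι y * coeffEmb L (e i)) = coeffMap ι y * s := by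
        rw [hsb, Finset.mul_sum]
        refine Finset.sum_congr rfl fun i _ => ?_
        rw [hsmul_eq_algebraMap_mul, hsmul_eq_algebraMap_mul]; ring
      have h2 : ∑ i, (-a i) • coeffEmb L (e i) = -r := by
        rw [hra, ← Finset.sum_neg_distrib]
        refine Finset.sum_congr rfl fun i _ => ?_
        rw [neg_smul]
      rw [h1, h2, hxs, add_neg_cancel]
  rw [Fintype.not_linearIndependent_iff] at hnot
  obtain ⟨g, hg, i₀, hi₀⟩ := hnot
  rw [Fintype.sum_sum_type] at hg
  simp only [Sum.elim_inl, Sum.elim_inr, w] at hg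
  set s' : LaurentSeries K := ∑ i, g (Sum.inl i) • coeffEmb K (e i) with hs'
  set r' : LaurentSeries K := -∑ i, g (Sum.inr i) • coeffEmb K (e i) with hr'
  have hys : y * s' = r' := by
    have h1 : ∑ i, g (Sum.inl i) • (y * coeffEmb K (e i)) = y * s' := by
      rw [hs', Finset.mul_sum]
      refine Finset.sum_congr rfl fun i _ => ?_
      rw [hsmul_eq_algebraMap_mul, hsmul_eq_algebraMap_mul]; ring
    rw [h1] at hg
    rw [hr']
    exact eq_neg_of_add_eq_zero_left hg
  have hs'mem : s' ∈ laurentBaseChange K F₀ := by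
    refine _root_.sum_mem fun i _ => ?_
    rw [hsmul_eq_algebraMap_mul]
    exact _root_.MulMemClass.mul_mem ((laurentBaseChange K F₀).algebraMap_mem _)
      (coeffEmb_mem_laurentBaseChange K (heF i))
  have hr'mem : r' ∈ laurentBaseChange K F₀ := by
    refine _root_.NegMemClass.neg_mem (_root_.sum_mem fun i _ => ?_)
    rw [hsmul_eq_algebraMap_mul]
    exact _root_.MulMemClass.mul_mem ((laurentBaseChange K F₀).algebraMap_mem _)
      (coeffEmb_mem_laurentBaseChange K (heF i))
  have hs'0 : s' ≠ 0 := by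
    intro h0
    rw [Fintype.linearIndependent_iff] at hindK
    have hb0 : ∀ i, g (Sum.inl i) = 0 := hindK _ h0
    have hr0 : r' = 0 := by rw [← hys, h0, mul_zero]
    have ha0 : ∀ i, g (Sum.inr i) = 0 := hindK _ (neg_eq_zero.mp hr0)
    rcases i₀ with i | i
    · exact hi₀ (hb0 i)
    · exact hi₀ (ha0 i)
  have : y = r' / s' := by
    rw [← hys]; field_simp
  rw [this]
  exact _root_.div_mem hr'mem hs'mem

end Main

end Fermat.Agent.S29.H882

end
end
-- ===== PACK-END S29/H882/Inter.lean

-- ===== PACK-BEGIN S28/H807/Core.lean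
section
/-
S28 / helper807 — generic construction: from two convergent `q`-series `g, e ∈ ℤ((q))` whose
families of conjugates are `S`-stable, the polynomial `(X - e)·charpoly(secMat p g)` has
coefficients in `ℤ[j]`.
-/





set_option autoImplicit false
set_option maxHeartbeats 400000

noncomputable section

open ModularCurve Polynomial Matrix UpperHalfPlane
open scoped MatrixGroups

namespace Fermat.Agent.S28.H807

/-- The level-one polynomial principle (analytic input, provided by the bridge seats):
an `S`-invariant function on `ℍ` with a convergent Laurent `q`-expansion is a polynomial in `j`. -/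
def PolyPrinciple : Prop :=
  ∀ (c : LaurentSeries ℂ) (F : ℍ → ℂ), HasQExp c F →
    (∀ τ : ℍ, F (ModularGroup.S • τ) = F τ) → ∃ P : Polynomial ℂ, c = evalJ ℂ P

section Formal

variable {R : Type*} [CommRing R] (p : ℕ) [NeZero p]

/-- The formal polynomial `(X - e) · charpoly (secMat p g)`. -/
def formalPoly (g e : LaurentSeries R) : Polynomial (LaurentSeries R) :=
  (X - C e) * (secMat p g).charpoly

theorem formalPoly_monic (g e : LaurentSeries R) : (formalPoly p g e).Monic :=
  (monic_X_sub_C e).mul (Matrix.charpoly_monic _)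

theorem formalPoly_natDegree [Nontrivial R] (g e : LaurentSeries R) :
    (formalPoly p g e).natDegree = p + 1 := by
  unfold formalPoly
  rw [Polynomial.Monic.natDegree_mul (monic_X_sub_C e) (Matrix.charpoly_monic _),
    natDegree_X_sub_C, Matrix.charpoly_natDegree_eq_dim, Fintype.card_fin, add_comm]

theorem formalPoly_eval_self (g e : LaurentSeries R) : (formalPoly p g e).eval e = 0 := by
  simp [formalPoly]

theorem formalPoly_map_qExpand_eval (g e : LaurentSeries R) :
    ((formalPoly p g e).map (qExpand R p)).eval g = 0 := by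
  unfold formalPoly
  rw [Polynomial.map_mul, Polynomial.eval_mul, secMat_charpoly_eval, _root_.MulZeroClass.mul_zero]

theorem formalPoly_map_coeffMap {S : Type*} [CommRing S] (φ : R →+* S) (g e : LaurentSeries R) :
    (formalPoly p g e).map (coeffMap φ) = formalPoly p (coeffMap φ g) (coeffMap φ e) := by
  unfold formalPoly
  rw [Polynomial.map_mul, Polynomial.map_sub, Polynomial.map_X, Polynomial.map_C,
    ← Matrix.charpoly_map, secMat_coeffMap]

end Formal

/-- Evaluation at `j` as a ring hom `ℤ[Y] → ℤ((q))`. -/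
def evalJZHom : Polynomial ℤ →+* LaurentSeries ℤ :=
  Polynomial.eval₂RingHom (Int.castRingHom _) (jqModC ℤ)

theorem evalJZHom_apply (Q : Polynomial ℤ) : evalJZHom Q = evalJZ Q := rfl

variable (p : ℕ) [NeZero p]

/-- The coefficients of the formal polynomial lie in `ℤ[j]`. -/
theorem formalPoly_coeff_mem_range (hPP : PolyPrinciple) (gZ eZ : LaurentSeries ℤ)
    (G E : ℍ → ℂ)
    (hG : HasQExp (coeffMap (Int.castRingHom ℂ) gZ) G)
    (hE : HasQExp (coeffMap (Int.castRingHom ℂ) eZ) E)
    (hS : ∀ τ : ℍ, conjPoly p E G (ModularGroup.S • τ) = conjPoly p E G τ) (k : ℕ) :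
    (formalPoly p gZ eZ).coeff k ∈ Set.range evalJZHom := by
  have h1 : HasQExp ((formalPoly p (coeffMap (Int.castRingHom ℂ) gZ)
      (coeffMap (Int.castRingHom ℂ) eZ)).coeff k) (fun τ => (conjPoly p E G τ).coeff k) :=
    hasQExp_coeff_mul_charpoly p _ _ G E hG hE k
  have h2 : ∀ τ : ℍ, (conjPoly p E G (ModularGroup.S • τ)).coeff k = (conjPoly p E G τ).coeff k :=
    fun τ => by rw [hS τ]
  obtain ⟨P, hP⟩ := hPP _ _ h1 h2
  have h3 : evalJ ℂ P = coeffMap (Int.castRingHom ℂ) ((formalPoly p gZ eZ).coeff k) := by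
    rw [← hP, ← formalPoly_map_coeffMap, Polynomial.coeff_map]
  obtain ⟨Q, hQ⟩ := exists_int_poly_of_evalJ_eq P _ h3
  exact ⟨Q, hQ⟩

/-- **Main generic theorem**: a monic lift of the formal polynomial to `ℤ[Y][X]`. -/
theorem exists_lift_formalPoly (hPP : PolyPrinciple) (gZ eZ : LaurentSeries ℤ)
    (G E : ℍ → ℂ)
    (hG : HasQExp (coeffMap (Int.castRingHom ℂ) gZ) G)
    (hE : HasQExp (coeffMap (Int.castRingHom ℂ) eZ) E)
    (hS : ∀ τ : ℍ, conjPoly p E G (ModularGroup.S • τ) = conjPoly p E G τ) :
    ∃ Φ : Polynomial (Polynomial ℤ), Φ.Monic ∧ Φ.natDegree = p + 1 ∧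
      Φ.map evalJZHom = formalPoly p gZ eZ := by
  have hl : formalPoly p gZ eZ ∈ Polynomial.lifts evalJZHom := by
    rw [Polynomial.lifts_iff_coeff_lifts]
    intro k
    exact formalPoly_coeff_mem_range p hPP gZ eZ G E hG hE hS k
  obtain ⟨Φ, h1, h2, h3⟩ :=
    Polynomial.lifts_and_natDegree_eq_and_monic hl (formalPoly_monic p gZ eZ)
  exact ⟨Φ, h3, by rw [h2, formalPoly_natDegree], h1⟩

end Fermat.Agent.S28.H807

end

end
-- ===== PACK-END S28/H807/Core.lean

-- ===== PACK-BEGIN S18/Mod/H216/Basis.lean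
section


/-!
# S18 / MOD (helper216): the S28 basis inside `Fc M E`

* `exists_Fc_of_full` (T0): `coeffEmb Q̄ z`, `z ∈ F_ℚ`, is the value of an element of `Fc M E`.
* `exists_FE_of_Fc` (T1): every `f ∈ Fc M E` is the coefficientwise image of an element of
  `F_E := laurentBaseChange E (modularFunctionFieldFull M) ⊆ E((q))`.
* `yInt` : the S28 monomials as elements of `intE M A E`.
* `exists_scaled_relation` (B2): `q(j) f = ∑ pᵢ(j) yᵢ` with `q, pᵢ ∈ (A ∩ E)[X]`, jointly primitive.
* `redE_sum_eq_zero` (B3): independence of the reductions over `κ[j̄]`.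
-/

set_option autoImplicit false
set_option linter.unusedSectionVars false

noncomputable section

namespace Fermat.Agent.S18.Mod.H216

open ModularCurve AlgebraicCurve HahnSeries Polynomial Fermat.Agent.S18 Fermat.Agent.S18.Mod
open Fermat.Agent.S28

variable (M : ℕ) (A : ValuationSubring Qb) (E : IntermediateField ℚ Qb)

/-! ### T0, T1 -/

theorem coe_jd (d : ℕ) [NeZero d] (hd : d ∣ M) :
    ((jd M d hd : Om M) : LaurentSeries Qb) = coeffEmb Qb (qExpand ℚ d jq) := rfl

theorem jd_mem_Fc (d : ℕ) [NeZero d] (hd : d ∣ M) : jd M d hd ∈ Fc M E :=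
  Subfield.subset_closure (Or.inr ⟨d, inferInstance, hd, rfl⟩)

theorem coeffEmb_algebraMap (r : ℚ) :
    coeffEmb Qb (algebraMap ℚ (LaurentSeries ℚ) r) = HahnSeries.C (algebraMap ℚ Qb r) := by
  rw [algebraMap_laurentSeries_eq_single, coeffEmb, coeffMap_single, ← HahnSeries.C_apply]

/-- **T0.** -/
theorem exists_Fc_of_full {z : LaurentSeries ℚ} (hz : z ∈ modularFunctionFieldFull M) :
    ∃ f ∈ Fc M E, (f : LaurentSeries Qb) = coeffEmb Qb z := by
  have hle : Subfield.closure (Set.range (algebraMap ℚ (LaurentSeries ℚ)) ∪ divisorExpansions M) ≤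
      Subfield.comap (coeffEmb Qb) ((Fc M E).map (omVal M)) := by
    rw [Subfield.closure_le]
    rintro x (⟨r, rfl⟩ | ⟨d, hd, hdM, rfl⟩)
    · refine ⟨algebraMap Qb (Om M) (algebraMap ℚ Qb r), ?_, ?_⟩
      · exact Ec_le_Fc M E ((mem_Ec_iff M E).mpr ⟨_, E.algebraMap_mem r, rfl⟩)
      · rw [omVal_apply, coe_algebraMap_Om, coeffEmb_algebraMap]
    · haveI := hd
      exact ⟨jd M d hdM, jd_mem_Fc M E d hdM, rfl⟩
  obtain ⟨f, hf, hfz⟩ := hle hz
  exact ⟨f, hf, hfz⟩

/-- `E((q)) → Q̄((q))`. -/
abbrev iotaE : LaurentSeries ↥E →+* LaurentSeries Qb := coeffMap (algebraMap ↥E Qb)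

theorem iotaE_coeffEmb (z : LaurentSeries ℚ) : iotaE E (coeffEmb ↥E z) = coeffEmb Qb z := by
  rw [coeffEmb, coeffEmb, coeffMap_coeffMap]
  exact coeffMap_congr (RingHom.ext_rat _ _) z

theorem iotaE_algebraMap (c : ↥E) :
    iotaE E (algebraMap ↥E (LaurentSeries ↥E) c) = HahnSeries.C (c : Qb) := by
  rw [algebraMap_laurentSeries_eq_single, coeffMap_single, ← HahnSeries.C_apply]
  rfl

/-- **T1.** -/
theorem exists_FE_of_Fc {f : Om M} (hf : f ∈ Fc M E) :
    ∃ g ∈ laurentBaseChange ↥E (modularFunctionFieldFull M), iotaE E g = (f : LaurentSeries Qb) := by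
  have hle : Fc M E ≤ Subfield.comap (omVal M)
      ((laurentBaseChange ↥E (modularFunctionFieldFull M)).toSubfield.map (iotaE E)) := by
    rw [Fc, Subfield.closure_le]
    rintro x (hx | ⟨d, hd, hdM, rfl⟩)
    · obtain ⟨c, hc, rfl⟩ := (mem_Ec_iff M E).mp hx
      refine ⟨algebraMap ↥E (LaurentSeries ↥E) ⟨c, hc⟩, ?_, ?_⟩
      · exact (laurentBaseChange ↥E (modularFunctionFieldFull M)).algebraMap_mem _
      · rw [omVal_apply, coe_algebraMap_Om]
        exact iotaE_algebraMap E ⟨c, hc⟩
    · haveI := hd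
      refine ⟨coeffEmb ↥E (qExpand ℚ d jq), ?_, ?_⟩
      · exact coeffEmb_mem_laurentBaseChange ↥E (jqd_mem_full M hdM)
      · rw [omVal_apply, coe_jd]
        exact iotaE_coeffEmb E _
  obtain ⟨g, hg, hgf⟩ := hle hf
  exact ⟨g, hg, hgf⟩

/-! ### The monomials -/

variable {M} {n : ℕ} {y : Fin n → LaurentSeries ℤ}

theorem coeffMap_intCast_mem_intE [NeZero M] (hS : H516.SpansQ M y) (i : Fin n) :
    coeffMap (Int.castRingHom ↥A) (y i) ∈ intE M A E := by
  rw [mem_intE]
  obtain ⟨f, hf, hfz⟩ := exists_Fc_of_full M E (H516.yQ_mem_full hS i)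
  refine ⟨fun k => ?_, f, hf, ?_⟩
  · rw [coeffMap_coeff]
    simp only [eq_intCast, SubringClass.coe_intCast]
    exact intCast_mem E _
  · rw [hfz, ← H516.coeffMap_intCast_eq_coeffEmb, coeffMap_coeffMap]
    exact coeffMap_congr (RingHom.ext_int _ _) _

/-- The S28 monomials as integral series. -/
def yInt [NeZero M] (hS : H516.SpansQ M y) (i : Fin n) : ↥(intE M A E) :=
  ⟨coeffMap (Int.castRingHom ↥A) (y i), coeffMap_intCast_mem_intE A E hS i⟩

theorem coe_toOm_yInt [NeZero M] (hS : H516.SpansQ M y) (i : Fin n) :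
    ((toOm M A E (yInt A E hS i) : Om M) : LaurentSeries Qb) =
      coeffMap (Int.castRingHom Qb) (y i) := by
  rw [coe_toOm]
  show coeffMap A.subtype (coeffMap (Int.castRingHom ↥A) (y i)) = _
  rw [coeffMap_coeffMap]
  exact coeffMap_congr (RingHom.ext_int _ _) _

theorem redE_yInt [NeZero M] (hS : H516.SpansQ M y) (i : Fin n) :
    redE M A E (yInt A E hS i) =
      coeffMap (Int.castRingHom (IsLocalRing.ResidueField ↥A)) (y i) := by
  show coeffMap (IsLocalRing.residue ↥A) (coeffMap (Int.castRingHom ↥A) (y i)) = _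
  rw [coeffMap_coeffMap]
  exact coeffMap_congr (RingHom.ext_int _ _) _

/-- **(B3)** independence of the reductions over `κ[j̄]`. -/
theorem redE_sum_eq_zero [NeZero M] (hS : H516.SpansQ M y)
    (hli : LinearIndependent (jField (IsLocalRing.ResidueField ↥A))
      (fun i => coeffMap (Int.castRingHom (IsLocalRing.ResidueField ↥A)) (y i)))
    (p : Fin n → (↥(S0 A E))[X])
    (h : redE M A E (∑ i, Uev M A E (p i) * yInt A E hS i) = 0) :
    ∀ i, (p i).map (resS A E) = 0 := by
  rw [_root_.map_sum] at h
  simp only [_root_.map_mul, redE_Uev, redE_yInt] at h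
  have h2 := Fintype.linearIndependent_iff.mp hli
    (fun i => (⟨H516.evJ ((p i).map (resS A E)), H516.evJ_mem_jField _ _⟩ :
      jField (IsLocalRing.ResidueField ↥A))) h
  intro i
  have h3 := congrArg Subtype.val (h2 i)
  exact (H516.evJ_eq_zero_iff _).mp h3

/-! ### (B2) the scaled relation -/

variable (M) in
theorem coe_toOm_Uev (p : (↥(S0 A E))[X]) :
    ((toOm M A E (Uev M A E p) : Om M) : LaurentSeries Qb) =
      H516.evJ (p.map (S0 A E).subtype) := by
  have h : (omVal M).comp ((toOm M A E).comp (Uev M A E)) =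
      (Polynomial.eval₂RingHom (HahnSeries.C (Γ := ℤ) (R := Qb)) (jqModC Qb)).comp
        (Polynomial.mapRingHom (S0 A E).subtype) := by
    apply Polynomial.ringHom_ext
    · intro c
      simp only [RingHom.comp_apply, Uev, Polynomial.coe_eval₂RingHom, Polynomial.eval₂_C,
        Polynomial.coe_mapRingHom, Polynomial.map_C, omVal_apply]
      rw [toOm_cS, coe_algebraMap_Om]
      rfl
    · simp only [RingHom.comp_apply, Uev, Polynomial.coe_eval₂RingHom, Polynomial.eval₂_X,
        Polynomial.coe_mapRingHom, Polynomial.map_X, omVal_apply]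
      rw [toOm_jInt, coe_jOm]
  exact RingHom.congr_fun h p

/-- `A ∩ E` as a valuation subring of `E`. -/
def RE : ValuationSubring ↥E := A.comap (algebraMap ↥E Qb)

/-- `RE → S0`. -/
def reToS0 : ↥(RE A E) →+* ↥(S0 A E) where
  toFun c := ⟨algebraMap ↥E Qb (c : ↥E), c.2, (c : ↥E).2⟩
  map_one' := Subtype.ext (by simp)
  map_mul' a b := Subtype.ext (by simp)
  map_zero' := Subtype.ext (by simp)
  map_add' a b := Subtype.ext (by simp)

theorem subtype_comp_reToS0 :
    (S0 A E).subtype.comp (reToS0 A E) = (algebraMap ↥E Qb).comp (RE A E).subtype := rfl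

variable (M) in
theorem coe_toOm_Uev_map (P : (↥(RE A E))[X]) :
    ((toOm M A E (Uev M A E (P.map (reToS0 A E))) : Om M) : LaurentSeries Qb) =
      iotaE E (H516.evJ (P.map (RE A E).subtype)) := by
  rw [coe_toOm_Uev, H516.coeffMap_evJ, Polynomial.map_map, Polynomial.map_map,
    subtype_comp_reToS0]

/-- **(B2)** every `f ∈ Fc M E` satisfies a jointly primitive relation
`q(j) f = ∑ pᵢ(j) yᵢ` over `A ∩ E`. -/
theorem exists_scaled_relation [NeZero M] (hS : H516.SpansQ M y) {f : Om M}
    (hf : f ∈ Fc M E) :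
    ∃ (q : (↥(S0 A E))[X]) (p : Fin n → (↥(S0 A E))[X]),
      (q.map (resS A E) ≠ 0 ∨ ∃ i, (p i).map (resS A E) ≠ 0) ∧
      toOm M A E (Uev M A E q) * f =
        toOm M A E (∑ i, Uev M A E (p i) * yInt A E hS i) := by
  classical
  obtain ⟨g, hg, hgf⟩ := exists_FE_of_Fc M E hf
  have hgs := (H516.mem_baseChange_iff_mem_spanL ↥E hS).mp hg
  obtain ⟨G, H, hG, hrel⟩ :=
    H516.exists_cleared ↥E (fun i => coeffMap (Int.castRingHom ↥E) (y i)) hgs
  obtain ⟨c, H', hc, hH', i0, m0, h1⟩ :=
    H516.exists_scale (RE A E) (Fin.cons G H : Fin (n + 1) → (↥E)[X]) ⟨0, by simpa using hG⟩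
  have hq : (H' 0).map (RE A E).subtype = _root_.Polynomial.C c⁻¹ * G := by
    rw [hH' 0, Fin.cons_zero]
  have hp : ∀ i : Fin n, (H' i.succ).map (RE A E).subtype = _root_.Polynomial.C c⁻¹ * H i := by
    intro i
    rw [hH' i.succ, Fin.cons_succ]
  refine ⟨(H' 0).map (reToS0 A E), fun i => (H' i.succ).map (reToS0 A E), ?_, ?_⟩
  · -- primitivity
    have hone : ∀ P : (↥(RE A E))[X], P.coeff m0 = 1 →
        (P.map (reToS0 A E)).map (resS A E) ≠ 0 := by
      intro P hP h0
      have := congrArg (fun q => q.coeff m0) h0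
      simp only [Polynomial.coeff_map, hP, _root_.map_one, Polynomial.coeff_zero] at this
      exact one_ne_zero this
    rcases Fin.eq_zero_or_eq_succ i0 with h0 | ⟨i, hi⟩
    · left
      exact hone _ (h0 ▸ h1)
    · right
      exact ⟨i, hone _ (hi ▸ h1)⟩
  · -- the relation
    have hE : H516.evJ ((H' 0).map (RE A E).subtype) * g =
        ∑ i, H516.evJ ((H' i.succ).map (RE A E).subtype) *
          coeffMap (Int.castRingHom ↥E) (y i) := by
      rw [hq, H516.evJ_mul, mul_assoc, hrel, Finset.mul_sum]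
      refine Finset.sum_congr rfl fun i _ => ?_
      rw [hp i, H516.evJ_mul, mul_assoc]
    apply Subtype.ext
    have hy : ∀ i, iotaE E (coeffMap (Int.castRingHom ↥E) (y i)) =
        ((toOm M A E (yInt A E hS i) : Om M) : LaurentSeries Qb) := by
      intro i
      rw [coe_toOm_yInt, coeffMap_coeffMap]
      exact coeffMap_congr (RingHom.ext_int _ _) _
    have h2 := congrArg (iotaE E) hE
    rw [_root_.map_mul, _root_.map_sum, hgf, ← coe_toOm_Uev_map M] at h2
    rw [_root_.map_sum]
    push_cast
    rw [h2]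
    refine Finset.sum_congr rfl fun i _ => ?_
    rw [_root_.map_mul, hy, ← coe_toOm_Uev_map M, _root_.map_mul]
    rfl

end Fermat.Agent.S18.Mod.H216

end
end
-- ===== PACK-END S18/Mod/H216/Basis.lean

-- ===== PACK-BEGIN S18/H394/KummerRegular.lean
section




/-!
# S18, Route K (helper394): typed core of `node_alg` (prime `m`)

Setting of `H394/KummerCharts.lean` (= `H138/Connected.lean`): `R` noetherian local with `R[X]`
integrally closed, `F ⊇ R` a field of characteristic `0`, `x` transcendental, `F` finite over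
`baseField R x`, `R` integrally closed in `F`; charts `B₀ = chart R {x}`, `B₁ = chart R {x⁻¹}`.

**Theorem `kummer_charts_of_regular`.**  Let `m` be a prime invertible in `R`, `w ∈ R`, `u ∈ Fˣ`.
Assume on each chart `B ∈ {B₀, B₁}`:
* `w` is prime in `B`                      (q-expansion principle),
* `H754.RegularAlong w`                    (b2: the special fibre is regular = `B12.H33.b2Regular`),
* `H754.OneModPi w u`                      (`u ≡ 1 mod w`),
* `H754.DivisibleDivisor B m u`            (`m ∣ div u`).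
Then `u = r ^ a * y ^ m` with `r ∈ R ∖ {0}`, `a ∈ ℤ`, `y ∈ F`.

Proof: `H214.local_existence` (LE) + `H394.kummer_charts_prime` (graded Kummer algebra + b5).
No Kummer extension field, no roots of unity, no enlargement of constants.
-/

set_option autoImplicit false
set_option linter.style.haveILetI false

namespace Fermat.Agent.S18.H394

open Polynomial
open Fermat.Agent.S18.H138 (chart baseField)

section Regular

variable {R : Type*} [CommRing R] {F : Type*} [Field F] [Algebra R F]
variable [IsNoetherianRing R] [IsIntegrallyClosed R[X]] [CharZero F]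

/-- `w ∤ x` in the chart `B₀`. -/
theorem not_dvd_coord (hinjR : Function.Injective (algebraMap R F)) {x : F}
    (hx : Transcendental R x) (w : R) (hw : ¬ IsUnit w) (hw0 : w ≠ 0)
    (X₀ : chart R ({x} : Set F)) (hX₀ : (X₀ : F) = x) :
    ¬ algebraMap R (chart R ({x} : Set F)) w ∣ X₀ := by
  intro h
  obtain ⟨c, hc, h⟩ := (subalgebra_dvd_iff _ w X₀).mp h
  rw [hX₀] at h
  have := dvd_coeff_of_aeval_eq_mul hx hinjR w hw0 X hc (by rw [aeval_X]; exact h) 1
  rw [coeff_X_one] at this
  exact hw (isUnit_of_dvd_one this)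

/-- The saturation property of the overlap `M` (hypothesis `hsat` of `H214.local_existence`). -/
theorem chart_saturated (hinjR : Function.Injective (algebraMap R F)) {x : F}
    (hx : Transcendental R x) (w : R)
    (hw₀ : Prime (algebraMap R (chart R ({x} : Set F)) w))
    (hw₁ : Prime (algebraMap R (chart R ({x⁻¹} : Set F)) w))
    (f : F) (s₀ : chart R ({x} : Set F)) (hs₀ : ¬ algebraMap R (chart R ({x} : Set F)) w ∣ s₀)
    (s₁ : chart R ({x⁻¹} : Set F)) (hs₁ : ¬ algebraMap R (chart R ({x⁻¹} : Set F)) w ∣ s₁)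
    (h1 : (s₀ : F) * (s₁ : F) * f ∈ chart R ({x, x⁻¹} : Set F))
    (h2 : algebraMap R F w * f ∈ chart R ({x, x⁻¹} : Set F)) :
    f ∈ chart R ({x, x⁻¹} : Set F) := by
  have hx0 : x ≠ 0 := H138.ne_zero_of_transcendental hx
  have h0M : (chart R ({x} : Set F)) ≤ (chart R ({x, x⁻¹} : Set F)) := H138.chart_mono (by simp)
  have h1M : (chart R ({x⁻¹} : Set F)) ≤ (chart R ({x, x⁻¹} : Set F)) := H138.chart_mono (by simp)
  have hxB0 : x ∈ (chart R ({x} : Set F)) := H138.mem_chart_of_mem rfl
  have hxB1 : x⁻¹ ∈ (chart R ({x⁻¹} : Set F)) := H138.mem_chart_of_mem rfl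
  have hloc0 : ∀ y ∈ (chart R ({x, x⁻¹} : Set F)), ∃ n : ℕ, x ^ n * y ∈ (chart R ({x} : Set F)) := fun y hy =>
    H138.exists_pow_mul_mem_chart hx0 hy
  have hloc1 : ∀ y ∈ (chart R ({x, x⁻¹} : Set F)), ∃ n : ℕ, x⁻¹ ^ n * y ∈ (chart R ({x⁻¹} : Set F)) := by
    intro y hy
    refine H138.exists_pow_mul_mem_chart (inv_ne_zero hx0) ?_
    rw [chart_inv_pair]
    exact hy
  have hwnu : ¬ IsUnit w := fun h => hw₀.not_isUnit (h.map _)
  have hw0 : w ≠ 0 := by
    rintro rfl
    exact hw₀.ne_zero (_root_.map_zero _)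
  have hX₁ : ¬ algebraMap R (chart R ({x⁻¹} : Set F)) w ∣ (⟨x⁻¹, hxB1⟩ : (chart R ({x⁻¹} : Set F))) :=
    not_dvd_coord hinjR (H138.transcendental_inv hx) w hwnu hw0 _ rfl
  -- `t₁ = x ^ j * s₁ ∈ (chart R ({x} : Set F)) ∖ w (chart R ({x} : Set F))`
  obtain ⟨j, hj⟩ := hloc0 (s₁ : F) (h1M s₁.2)
  have ht₁ : ¬ algebraMap R (chart R ({x} : Set F)) w ∣ (⟨x ^ j * s₁, hj⟩ : (chart R ({x} : Set F))) := by
    intro h
    obtain ⟨c, hc, h⟩ := (subalgebra_dvd_iff _ w _).mp h
    change x ^ j * (s₁ : F) = algebraMap R F w * c at h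
    obtain ⟨n, hn⟩ := hloc1 c (h0M hc)
    have hs : (s₁ : F) = x⁻¹ ^ j * (algebraMap R F w * c) := by
      rw [← h, ← mul_assoc, ← mul_pow, inv_mul_cancel₀ hx0, one_pow, one_mul]
    have hdvd : algebraMap R (chart R ({x⁻¹} : Set F)) w ∣ (⟨x⁻¹, hxB1⟩ : (chart R ({x⁻¹} : Set F))) ^ n * s₁ := by
      rw [subalgebra_dvd_iff]
      refine ⟨x⁻¹ ^ j * (x⁻¹ ^ n * c), (chart R ({x⁻¹} : Set F)).mul_mem ((chart R ({x⁻¹} : Set F)).pow_mem hxB1 _) hn, ?_⟩
      change (x⁻¹) ^ n * (s₁ : F) = algebraMap R F w * (x⁻¹ ^ j * (x⁻¹ ^ n * c))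
      rw [hs]
      ring
    rcases hw₁.dvd_or_dvd hdvd with h' | h'
    · exact hX₁ (hw₁.dvd_of_dvd_pow h')
    · exact hs₁ h'
  obtain ⟨N₁, hN₁⟩ := hloc0 _ h2
  obtain ⟨N₂, hN₂⟩ := hloc0 _ h1
  set g : F := x ^ (N₁ + N₂ + j) * f with hg
  have hg1 : algebraMap R F w * g ∈ (chart R ({x} : Set F)) := by
    have : algebraMap R F w * g = x ^ (N₂ + j) * (x ^ N₁ * (algebraMap R F w * f)) := by
      rw [hg]; ring
    rw [this]
    exact (chart R ({x} : Set F)).mul_mem ((chart R ({x} : Set F)).pow_mem hxB0 _) hN₁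
  have hg2 : ((s₀ * ⟨x ^ j * s₁, hj⟩ : (chart R ({x} : Set F))) : F) * g ∈ (chart R ({x} : Set F)) := by
    have : ((s₀ * ⟨x ^ j * s₁, hj⟩ : (chart R ({x} : Set F))) : F) * g
        = x ^ (N₁ + j + j) * (x ^ N₂ * ((s₀ : F) * (s₁ : F) * f)) := by
      change (s₀ : F) * (x ^ j * (s₁ : F)) * g = _
      rw [hg]; ring
    rw [this]
    exact (chart R ({x} : Set F)).mul_mem ((chart R ({x} : Set F)).pow_mem hxB0 _) hN₂
  have hst : ¬ algebraMap R (chart R ({x} : Set F)) w ∣ s₀ * ⟨x ^ j * s₁, hj⟩ := by
    intro h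
    rcases hw₀.dvd_or_dvd h with h' | h'
    · exact hs₀ h'
    · exact ht₁ h'
  have hgB : g ∈ (chart R ({x} : Set F)) := mem_of_mul_mem_of_prime (chart R ({x} : Set F)) w hw₀ _ hst g hg1 hg2
  have : f = x⁻¹ ^ (N₁ + N₂ + j) * g := by
    rw [hg, ← mul_assoc, ← mul_pow, inv_mul_cancel₀ hx0, one_pow, one_mul]
  rw [this]
  exact (chart R ({x, x⁻¹} : Set F)).mul_mem ((chart R ({x, x⁻¹} : Set F)).pow_mem (h1M hxB1) _) (h0M hgB)

variable [IsLocalRing R]

/-- **Typed core of `node_alg`** (prime `m`). -/
theorem kummer_charts_of_regular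
    (hinjR : Function.Injective (algebraMap R F))
    (hRF : ∀ y : F, IsIntegral R y → y ∈ Set.range (algebraMap R F))
    {x : F} (hx : Transcendental R x) [FiniteDimensional (baseField R x) F]
    (w : R) (m : ℕ) (hm : m.Prime) (ν : R) (hν : ν * (m : R) = 1)
    (u : F) (hu : u ≠ 0)
    (hw₀ : Prime (algebraMap R (chart R ({x} : Set F)) w))
    (hw₁ : Prime (algebraMap R (chart R ({x⁻¹} : Set F)) w))
    (hreg₀ : H754.RegularAlong (algebraMap R (chart R ({x} : Set F)) w))
    (hreg₁ : H754.RegularAlong (algebraMap R (chart R ({x⁻¹} : Set F)) w))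
    (hu₀ : H754.OneModPi (algebraMap R (chart R ({x} : Set F)) w) u)
    (hu₁ : H754.OneModPi (algebraMap R (chart R ({x⁻¹} : Set F)) w) u)
    (hdiv₀ : H754.DivisibleDivisor (chart R ({x} : Set F)) m u)
    (hdiv₁ : H754.DivisibleDivisor (chart R ({x⁻¹} : Set F)) m u) :
    ∃ (r : R) (a : ℤ) (y : F), r ≠ 0 ∧ u = algebraMap R F r ^ a * y ^ m := by
  have hwnu : ¬ IsUnit w := fun h => hw₀.not_isUnit (h.map _)
  haveI : FiniteDimensional (baseField R x⁻¹) F := by
    rw [H138.baseField_inv]; infer_instance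
  obtain ⟨i1, i2, i3⟩ := chart_instances (R := R) hx
  obtain ⟨j1, j2, j3⟩ := chart_instances (R := R) (H138.transcendental_inv hx)
  obtain ⟨σ₀, σ₁, h₀, h₁, h₀₁⟩ := H214.local_existence m hm.ne_zero w u
    (chart R ({x} : Set F)) (chart R ({x⁻¹} : Set F)) (chart R ({x, x⁻¹} : Set F))
    (H138.chart_mono (by simp)) (H138.chart_mono (by simp)) hw₀ hw₁ hreg₀ hreg₁ hu₀ hu₁
    hdiv₀ hdiv₁ (rootClosed_chart _ hm.pos)
    (fun f s₀ hs₀ s₁ hs₁ h1 h2 => chart_saturated hinjR hx w hw₀ hw₁ f s₀ hs₀ s₁ hs₁ h1 h2)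
  exact kummer_charts_prime hinjR hRF hx w hwnu m hm ν hν u hu σ₀ σ₁ h₀ h₁ h₀₁

end Regular

end Fermat.Agent.S18.H394

end
-- ===== PACK-END S18/H394/KummerRegular.lean

-- ===== PACK-BEGIN S19/H435/Sub.lean
section
/-
A3 / WP-C pieces C, D (helper435): pullback of a Hopf lattice along an injective, additive,
Galois-compatible map (sub-objects and transport along isomorphisms).
-/




set_option autoImplicit false
set_option linter.style.haveILetI false

noncomputable section

namespace Fermat.Agent.S19.H435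

variable {ℓ : ℕ} {M : Type*} [AddCommGroup M] {act : Gal → M → M}
  {Λ : Subalgebra (Zl ℓ) (M → _root_.Fermat.Agent.S19.H435.Qb)}

namespace IsHopfLattice

/-- **Pieces C, D (sub-objects, transport).** Restriction of a Hopf lattice along an injective
additive map compatible with the Galois actions. -/
theorem pullback (hΛ : IsHopfLattice ℓ act Λ) {M' : Type*} [AddCommGroup M'] (ι : M' →+ M)
    (hι : Function.Injective ι) (act' : Gal → M' → M')
    (hcompat : ∀ σ m', ι (act' σ m') = act σ (ι m')) :
    IsHopfLattice ℓ act' (Λ.map (precompAlgHom ℓ ι)) := by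
  refine ⟨?_, ?_, ?_, ?_⟩
  · have h1 : Subalgebra.toSubmodule (Λ.map (precompAlgHom ℓ ι)) =
        (Subalgebra.toSubmodule Λ).map (precompAlgHom ℓ ι).toLinearMap := by
      ext f
      simp [Subalgebra.mem_map]
    rw [h1]
    exact hΛ.fg.map _
  · rintro _ ⟨f, hf, rfl⟩ σ m'
    show f (ι (act' σ m')) = σ (f (ι m'))
    rw [hcompat]
    exact hΛ.equivariant f hf σ (ι m')
  · intro m n hmn
    obtain ⟨f, hf, hfne⟩ := hΛ.separates (ι m) (ι n) (fun h => hmn (hι h))
    exact ⟨precompAlgHom ℓ ι f, ⟨f, hf, rfl⟩, hfne⟩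
  · rintro _ ⟨f, hf, rfl⟩
    obtain ⟨n, a, b, ha, hb, hab⟩ := hΛ.comul_mem f hf
    refine ⟨n, fun k => precompAlgHom ℓ ι (a k), fun k => precompAlgHom ℓ ι (b k),
      fun k => ⟨a k, ha k, rfl⟩, fun k => ⟨b k, hb k, rfl⟩, ?_⟩
    intro x y
    show f (ι (x + y)) = ∑ k, a k (ι x) * b k (ι y)
    rw [map_add, hab]

end IsHopfLattice

section HopfModel

open Fermat.Agent.S19 (HopfModel OrdStatement)

/-- Sub-objects (and transport): Hopf models pull back along injective compatible maps. -/
theorem hopfModel_of_injective (hord : OrdStatement) {ℓ : ℕ} [Fact ℓ.Prime] {M M' : Type}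
    [AddCommGroup M] [AddCommGroup M'] {act : Gal → M → M} (h : HopfModel ℓ M act)
    (ι : M' →+ M) (hι : Function.Injective ι) (act' : Gal → M' → M')
    (hcompat : ∀ σ m', ι (act' σ m') = act σ (ι m')) : HopfModel ℓ M' act' := by
  obtain ⟨Λ, hΛ⟩ := exists_isHopfLattice_of_hopfModel h
  exact (hΛ.pullback ι hι act' hcompat).hopfModel hord

/-- Quotients: Hopf models push forward along surjective compatible maps. -/
theorem hopfModel_of_surjective (hord : OrdStatement) {ℓ : ℕ} [Fact ℓ.Prime] {M M'' : Type}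
    [AddCommGroup M] [AddCommGroup M''] {act : Gal → M → M} (h : HopfModel ℓ M act)
    (π : M →+ M'') (hπ : Function.Surjective π) (act'' : Gal → M'' → M'')
    (hcompat : ∀ σ m, act'' σ (π m) = π (act σ m)) : HopfModel ℓ M'' act'' := by
  obtain ⟨Λ, hΛ⟩ := exists_isHopfLattice_of_hopfModel h
  haveI : Finite M := hΛ.finite
  exact (hΛ.quotient π hπ act'' hcompat).hopfModel hord

/-- Subquotients of Hopf models are Hopf models. -/
theorem hopfModel_of_subquotient (hord : OrdStatement) {ℓ : ℕ} [Fact ℓ.Prime] {M M' M'' : Type}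
    [AddCommGroup M] [AddCommGroup M'] [AddCommGroup M''] {act : Gal → M → M}
    (h : HopfModel ℓ M act)
    (ι : M' →+ M) (hι : Function.Injective ι) (act' : Gal → M' → M')
    (hcompat' : ∀ σ m', ι (act' σ m') = act σ (ι m'))
    (π : M' →+ M'') (hπ : Function.Surjective π) (act'' : Gal → M'' → M'')
    (hcompat'' : ∀ σ m, act'' σ (π m) = π (act' σ m)) : HopfModel ℓ M'' act'' :=
  hopfModel_of_surjective hord (hopfModel_of_injective hord h ι hι act' hcompat') π hπ act''
    hcompat''

end HopfModel

end Fermat.Agent.S19.H435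

end
end
-- ===== PACK-END S19/H435/Sub.lean

-- ===== PACK-BEGIN S37/H159/MBound.lean
section





/-!
# Theorem M, part 6: the local discriminant bounds
(row S37, piece R-b; seat helper159)

`β` a `K[X]`-basis of `B_η`, `y` the lifted basis (of `F / K(x)`), `M` the matrix of `y` in `β`.

* `not_dvd_det` (local basis): `X - c ∤ det M` for every `c ∈ A`;
* `not_dvd_discr_of_isRadical` : `(x - c) B_η` radical implies `X - c ∤ disc β`;
* `not_pow_dvd_discr` : `(X - c)^(n - s + 1) ∤ disc β` for `c ∈ A`, `s = redRank T c̄`.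
-/

set_option autoImplicit false
set_option linter.unusedSectionVars false
set_option linter.style.haveILetI false

namespace Fermat.Agent.S37.H159

open Polynomial

/-- Membership in a principal ideal generated by a scalar, in coordinates. -/
theorem mem_span_algebraMap_iff {R T ι : Type*} [CommRing R] [CommRing T] [Algebra R T]
    [Fintype ι] (b : Module.Basis ι R T) (t : R) (z : T) :
    z ∈ Ideal.span {algebraMap R T t} ↔ ∀ i, t ∣ b.repr z i := by
  rw [Ideal.mem_span_singleton]
  constructor
  · rintro ⟨y, rfl⟩ i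
    rw [← Algebra.smul_def, _root_.map_smul]
    exact ⟨b.repr y i, by simp⟩
  · intro h
    choose q hq using h
    refine ⟨∑ i, q i • b i, ?_⟩
    rw [← Algebra.smul_def, Finset.smul_sum]
    conv_lhs => rw [← b.sum_repr z]
    refine Finset.sum_congr rfl fun i _ => ?_
    rw [hq i, mul_smul]

namespace RedCtx

variable {K : Type*} [Field K] [CharZero K] {A : ValuationSubring K} {k : Type*} [Field k]
  {F : Type*} [Field F] [Algebra K[X] F] {Fk : Type*} [Field Fk] [Algebra k[X] Fk]
  (G : RedCtx A k F Fk)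

variable (hinj : Function.Injective (algebraMap k[X] Fk))

variable {n : ℕ} (β : Module.Basis (Fin n) K[X] (integralClosure K[X] F))
  (b : Module.Basis (Fin n) k[X] G.Tk)
  (yη : Fin n → integralClosure K[X] F) (hyO : ∀ i, (yη i : F) ∈ G.O)
  (hρ : ∀ i, G.redT (yη i) (hyO i) = b i)

include hinj b hyO hρ in
/-- **Local basis**: the lifted basis is a basis of `B_η` locally at every `c ∈ A`. -/
theorem not_dvd_det (c : A) :
    ¬ (X - C (c : K)) ∣ (Matrix.of fun i j => β.repr (yη i) j).det := by
  classical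
  intro hdvd
  set M : Matrix (Fin n) (Fin n) K[X] := Matrix.of fun i j => β.repr (yη i) j with hM
  have hdet : ((evalRingHom (c : K)).mapMatrix M).det = 0 := by
    rw [← RingHom.map_det]
    exact Polynomial.dvd_iff_isRoot.mp hdvd
  obtain ⟨v, hv0, hv⟩ := Matrix.exists_vecMul_eq_zero_iff.mpr hdet
  -- the combination `g = ∑ v_i y_i` lies in `(x - c) B_η`
  have hg : (∑ i, (C (v i) : K[X]) • yη i) ∈
      Ideal.span {algebraMap K[X] (integralClosure K[X] F) (X - C (c : K))} := by
    rw [mem_span_algebraMap_iff β]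
    intro j
    rw [Polynomial.dvd_iff_isRoot, IsRoot.def, _root_.map_sum, Finsupp.coe_finsetSum,
      Finset.sum_apply, eval_finsetSum]
    have := congrFun hv j
    rw [Matrix.vecMul, dotProduct] at this
    rw [Pi.zero_apply] at this
    rw [← this]
    refine Finset.sum_congr rfl fun i _ => ?_
    rw [_root_.map_smul, Finsupp.smul_apply, smul_eq_mul, eval_mul, eval_C]
    rfl
  have hind : ∀ a : Fin n → k,
      (∑ j, (C (a j) : k[X]) • G.redT (yη j) (hyO j)) ∈ H939.fibreIdeal G.Tk (G.π c) →
        ∀ j, a j = 0 := by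
    intro a ha j
    rw [H939.mem_fibreIdeal_iff b] at ha
    have h1 := ha j
    have h2 : b.repr (∑ j, (C (a j) : k[X]) • G.redT (yη j) (hyO j)) j = C (a j) := by
      simp only [hρ, _root_.map_sum, _root_.map_smul, Module.Basis.repr_self, Finsupp.smul_single,
        smul_eq_mul, mul_one, Finsupp.coe_finsetSum, Finset.sum_apply,
        Finsupp.single_apply, Finset.sum_ite_eq', Finset.mem_univ, if_true]
    rw [h2, Polynomial.dvd_iff_isRoot, IsRoot.def, eval_C] at h1
    exact h1
  have := G.eq_zero_of_sum_C_smul_mem yη hyO _ _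
    (fun v hvO hv => G.redT_mem_fibreIdeal hinj c v hvO hv) hind v hg
  exact hv0 (_root_.funext this)

section Tame

variable (L₀ : Type*) [Field L₀] [Algebra K[X] L₀] [IsFractionRing K[X] L₀] [Algebra L₀ F]
  [IsScalarTower K[X] L₀ F] [FiniteDimensional L₀ F]

include L₀ in
theorem isTorsionFree_Tη : Module.IsTorsionFree K[X] (integralClosure K[X] F) := by
  refine Module.isTorsionFree_iff_algebraMap_injective.mpr fun p q hpq => ?_
  apply algebraMap_injective_K (K := K) (F := F) L₀
  exact congrArg (fun z : integralClosure K[X] F => (z : F)) hpq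

include L₀ in
/-- **Tame bound at an unramified point**: if `(x - c) B_η` is radical then `X - c ∤ disc β`. -/
theorem not_dvd_discr_of_isRadical (c : K)
    (hrad : (Ideal.span {algebraMap K[X] (integralClosure K[X] F) (X - C c)}).IsRadical) :
    ¬ (X - C c) ∣ Algebra.discr K[X] β := by
  classical
  haveI := isSeparable_of_charZero K L₀ F
  haveI : IsDedekindDomain (integralClosure K[X] F) :=
    integralClosure.isDedekindDomain K[X] L₀ F
  haveI := isTorsionFree_Tη (K := K) (F := F) L₀
  have h := S18.H213.tame_discr_witness (X - C c) (Polynomial.prime_X_sub_C c) n β n β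
    (fun a ha i => by
      rw [hrad.radical] at ha
      have h1 := (mem_span_algebraMap_iff β _ _).mp ha i
      have h2 : β.repr (∑ i, a i • β i) i = a i := by
        simp only [_root_.map_sum, _root_.map_smul, Module.Basis.repr_self, Finsupp.smul_single,
          smul_eq_mul, mul_one, Finsupp.coe_finsetSum, Finset.sum_apply,
          Finsupp.single_apply, Finset.sum_ite_eq', Finset.mem_univ, if_true]
      rwa [h2] at h1)
  rw [Nat.sub_self, zero_add, pow_one] at h
  exact h

include L₀ hinj b in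
/-- **Tame bound + specialisation of fibres**: for `c ∈ A` and `s = redRank T c̄`,
`(X - c)^(n - s + 1) ∤ disc β`. -/
theorem not_pow_dvd_discr (c : A) :
    ¬ (X - C (c : K)) ^ (n - H939.redRank G.Tk (G.π c) + 1) ∣ Algebra.discr K[X] β := by
  classical
  haveI := isSeparable_of_charZero K L₀ F
  haveI : IsDedekindDomain (integralClosure K[X] F) :=
    integralClosure.isDedekindDomain K[X] L₀ F
  haveI := isTorsionFree_Tη (K := K) (F := F) L₀
  haveI : Module.Finite k (G.Tk ⧸ (H939.fibreIdeal G.Tk (G.π c)).radical) :=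
    H939.finite_quot_radical b (G.π c)
  set Rad : Ideal G.Tk := (H939.fibreIdeal G.Tk (G.π c)).radical with hRad
  have hs : Module.finrank k (G.Tk ⧸ Rad) = H939.redRank G.Tk (G.π c) := rfl
  haveI : Module.Free k (G.Tk ⧸ Rad) := Module.Free.of_divisionRing k _
  let e : Module.Basis (Fin (H939.redRank G.Tk (G.π c))) k (G.Tk ⧸ Rad) :=
    Module.finBasisOfFinrankEq k _ hs
  choose t ht using fun j => Ideal.Quotient.mk_surjective (e j)
  choose f hf using fun j => (G.mem_Tk (t j : Fk)).mp (t j).2
  let w : Fin (H939.redRank G.Tk (G.π c)) → integralClosure K[X] F := fun j => ⟨f j, (hf j).1⟩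
  have hwO : ∀ j, (w j : F) ∈ G.O := fun j => (f j).2
  have hred : ∀ j, G.redT (w j) (hwO j) = t j := fun j => Subtype.ext (hf j).2
  have hind : ∀ a : Fin (H939.redRank G.Tk (G.π c)) → k,
      (∑ j, (C (a j) : k[X]) • G.redT (w j) (hwO j)) ∈ Rad → ∀ j, a j = 0 := by
    intro a ha
    have h1 : ∑ j, a j • e j = 0 := by
      have h2 : Ideal.Quotient.mk Rad (∑ j, (C (a j) : k[X]) • G.redT (w j) (hwO j)) = 0 :=
        Ideal.Quotient.eq_zero_iff_mem.mpr ha
      rw [_root_.map_sum] at h2
      rw [← h2]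
      refine Finset.sum_congr rfl fun j _ => ?_
      rw [hred, ← ht j]
      have h3 : (C (a j) : k[X]) • t j = a j • t j := by
        rw [← Polynomial.algebraMap_eq, algebraMap_smul]
      rw [h3]
      rfl
    exact Fintype.linearIndependent_iff.mp e.linearIndependent a h1
  apply S18.H213.tame_discr_witness (X - C (c : K)) (Polynomial.prime_X_sub_C _) n β _ w
  intro a ha
  exact G.dvd_of_sum_smul_mem w hwO c _ Rad
    (fun v hvO hv => G.redT_mem_radical hinj c v hvO hv) hind Ideal.le_radical a ha

end Tame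

end RedCtx

end Fermat.Agent.S37.H159

end
-- ===== PACK-END S37/H159/MBound.lean

-- ===== PACK-BEGIN S37/Red/H144/Swap.lean
section


/-!
# S37-RED, piece RED-D (route N), part 2: chart dichotomy and the swapped datum (helper144)
-/

set_option autoImplicit false

noncomputable section

namespace Fermat.Agent.S37.Red.H144

open AlgebraicCurve IntermediateField Polynomial

universe u

variable {K k F Fk : Type u} [Field K] [Field k] [Field F] [Field Fk]
  [Algebra K F] [Algebra k Fk] {A : ValuationSubring K} {π : A →+* k}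

/-! ### The chart dichotomy -/

/-- If `F` has a place at all, the coordinate is transcendental over `K`. -/
theorem transcendental_x [IsAlgClosed K] (G : Datum A π F Fk) (hgood : G.Good)
    (P : Place K F) : Transcendental K G.x := by
  intro halg
  have hfin := hgood.finite
  apply P.ne_top'
  have h1 : Algebra.IsAlgebraic K K⟮G.x⟯ :=
    IntermediateField.isAlgebraic_adjoin_simple halg.isIntegral
  have h2 : Algebra.IsAlgebraic K⟮G.x⟯ F := Algebra.IsAlgebraic.of_finite _ _
  have h3 : Algebra.IsAlgebraic K F := Algebra.IsAlgebraic.trans K K⟮G.x⟯ F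
  rw [eq_top_iff]
  intro f _
  obtain ⟨a, rfl⟩ := S24.FF.mem_range_of_isAlgebraic (h3.isAlgebraic f)
  exact P.algebraMap_mem' a

/-- Every place lies in the finite chart or in the chart at infinity. -/
theorem chart_dichotomy [IsAlgClosed K] (G : Datum A π F Fk) (hgood : G.Good)
    (P : Place K F) :
    (∃ a₀ : A, ValAt P G.x a₀) ∨ (∃ a₀ : A, π a₀ = 0 ∧ ValAt P G.x⁻¹ a₀) := by
  have hx := transcendental_x G hgood P
  have hfin := hgood.finite
  by_cases hmem : G.x ∈ P.toValuationSubring
  · obtain ⟨a, ha⟩ := S24.FF.exists_const_sub_mem_nonunits P hx hmem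
    have hav : P.toValuationSubring.valuation (G.x - algebraMap K F a) < 1 := ha
    by_cases haA : a ∈ A
    · exact Or.inl ⟨⟨a, haA⟩, hav⟩
    · right
      have hinv : A.valuation a⁻¹ < 1 := valuation_inv_lt_of_not_mem haA
      have hinvA : a⁻¹ ∈ A := (A.valuation_le_one_iff _).mp hinv.le
      have ha0 : a ≠ 0 := fun h => haA (h ▸ A.zero_mem)
      refine ⟨⟨a⁻¹, hinvA⟩, pi_eq_zero G _ hinv, ?_⟩
      show P.toValuationSubring.valuation (G.x⁻¹ - algebraMap K F a⁻¹) < 1
      have hx0 := x_ne_zero G
      have hva : P.toValuationSubring.valuation (algebraMap K F a) = 1 := valuation_const P ha0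
      have hvx : P.toValuationSubring.valuation G.x = 1 := by
        have h4 : G.x = algebraMap K F a + (G.x - algebraMap K F a) := by ring
        rw [h4, Valuation.map_add_eq_of_lt_left _ (by rw [hva]; exact hav), hva]
      have haF : algebraMap K F a ≠ 0 := (_root_.map_ne_zero _).mpr ha0
      have h5 : G.x⁻¹ - algebraMap K F a⁻¹ =
          -(G.x - algebraMap K F a) * G.x⁻¹ * (algebraMap K F a)⁻¹ := by
        rw [map_inv₀]
        field_simp
        ring
      rw [h5, _root_.map_mul, _root_.map_mul, Valuation.map_neg, map_inv₀, map_inv₀, hvx, hva, inv_one,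
        mul_one, mul_one]
      exact hav
  · right
    refine ⟨0, _root_.map_zero π, ?_⟩
    show ValAt P G.x⁻¹ (0 : K)
    rw [valAt_zero_iff]
    exact valuation_inv_lt_of_not_mem hmem

/-! ### The swapped datum -/

theorem adjoin_inv_eq' {E L : Type*} [Field E] [Field L] [Algebra E L] (f : L) :
    E⟮f⁻¹⟯ = E⟮f⟯ := by
  apply le_antisymm
  · rw [IntermediateField.adjoin_simple_le_iff]
    exact _root_.InvMemClass.inv_mem (IntermediateField.mem_adjoin_simple_self E f)
  · rw [IntermediateField.adjoin_simple_le_iff]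
    have h := _root_.InvMemClass.inv_mem (IntermediateField.mem_adjoin_simple_self E f⁻¹)
    rwa [inv_inv] at h

/-- The datum with coordinate `x⁻¹`. -/
def swap (G : Datum A π F Fk) : Datum A π F Fk :=
  { G with
    x := G.x⁻¹
    x_mem := x_inv_mem G
    xk_transc := by
      rw [rho_x_inv]
      intro h
      apply G.xk_transc
      have := h.inv
      rwa [inv_inv] at this }

@[simp] theorem swap_x (G : Datum A π F Fk) : (swap G).x = G.x⁻¹ := rfl

theorem swap_xk (G : Datum A π F Fk) : (swap G).xk = G.xk⁻¹ := rho_x_inv G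

theorem swap_O (G : Datum A π F Fk) : (swap G).O = G.O := rfl

theorem swap_good (G : Datum A π F Fk) (h : G.Good) : (swap G).Good where
  finite := by
    show FiniteDimensional K⟮G.x⁻¹⟯ F
    rw [adjoin_inv_eq']
    exact h.finite
  finite_k := by
    rw [swap_xk, adjoin_inv_eq']
    exact h.finite_k
  sep_k := by
    rw [swap_xk, adjoin_inv_eq']
    exact h.sep_k
  finrank_eq := by
    show Module.finrank K⟮G.x⁻¹⟯ F = Module.finrank k⟮(swap G).xk⟯ Fk
    rw [swap_xk, adjoin_inv_eq', adjoin_inv_eq']
    exact h.finrank_eq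
  lift_fin := by
    intro c hc
    have hc' : c ∈ G.chartk G.xk⁻¹ := by
      rw [← swap_xk]
      exact hc
    exact h.lift_inf c hc'
  lift_inf := by
    intro c hc
    have hc' : c ∈ G.chartk G.xk := by
      have h1 : c ∈ G.chartk ((swap G).xk)⁻¹ := hc
      rwa [swap_xk, inv_inv] at h1
    obtain ⟨b, hb, hbO, e⟩ := h.lift_fin c hc'
    refine ⟨b, ?_, hbO, e⟩
    show b ∈ G.chart (G.x⁻¹)⁻¹
    rw [inv_inv]
    exact hb
  sat_fin := fun f hf hfK => h.sat_inf f hf hfK
  sat_inf := by
    intro f hf hfK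
    show f ∈ G.chart (G.x⁻¹)⁻¹
    have hfK' : f ∈ G.chartK (G.x⁻¹)⁻¹ := hfK
    rw [inv_inv] at hfK' ⊢
    exact h.sat_fin f hf hfK'

theorem swap_evalCompat (G : Datum A π F Fk) (r : Place K F → Place k Fk)
    (h : EvalCompat G r) : EvalCompat (swap G) r := by
  refine ⟨h.2, ?_⟩
  show EvalCompatAt G r (G.x⁻¹)⁻¹
  rw [inv_inv]
  exact h.1

end Fermat.Agent.S37.Red.H144

end
end
-- ===== PACK-END S37/Red/H144/Swap.lean

-- ===== PACK-BEGIN A3/H499/Orth.lean
section




/-!
# A3 / GR-ORTH (helper499): orthonormal bases of all Riemann–Roch spaces from a base case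

Abstract, instance-free.  Setting = the first fields of `A3.H799.GoodRed`
(`V`, `O`, `res`, `red`, a set `I` of semilinear automorphisms).

* `exists_orthBasis_of_le` (sub-orthonormal lemma): if `e` is an orthonormal family and
  `U ≤ span e` is a `K`-subspace, then `U` has an orthonormal basis; if the `e i` are fixed by
  `I` and `U` is `I`-stable, the basis can be chosen `I`-fixed (the unit-pivot chart of `U` is
  unique, hence has `I`-fixed entries).
* `orthonormal_of_base` : the field `orthonormal` of `GoodRed` for ALL divisors, from the base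
  case "`L(m • B₀)` has an `I`-fixed orthonormal basis for arbitrarily large `m`".
-/

set_option autoImplicit false
set_option linter.unusedSectionVars false
set_option linter.style.longLine false

noncomputable section

open AlgebraicCurve Matrix

namespace Fermat.Agent.A3.H499

variable {K F : Type*} [Field K] [Field F] [Algebra K F]
variable (k : Type*) {Fk : Type*} [Field k] [Field Fk] [Algebra k Fk]

/-- `b` is an orthonormal basis of the `K`-subspace `U` of `F`: it consists of elements of the
valuation ring `O`, spans `U`, and its reductions are `k`-linearly independent. -/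
def IsOrthBasis (O : ValuationSubring F) (red : O →+* Fk) (U : Submodule K F) {n : ℕ}
    (b : Fin n → O) : Prop :=
  LinearIndependent k (fun i => red (b i)) ∧ (∀ i, ((b i : O) : F) ∈ U) ∧
    Submodule.span K (Set.range fun i => ((b i : O) : F)) = U

variable {k}

section Sub

variable (V : ValuationSubring K) (O : ValuationSubring F) (res : V →+* k) (red : O →+* Fk)
variable (algebraMap_mem : ∀ a : K, a ∈ V → algebraMap K F a ∈ O)
variable (red_algebraMap : ∀ (a : V) (h : algebraMap K F (a : K) ∈ O),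
    red ⟨algebraMap K F (a : K), h⟩ = algebraMap k Fk (res a))

include algebraMap_mem red_algebraMap in
/-- **Sub-orthonormal lemma.** -/
theorem exists_orthBasis_of_le {n : ℕ} (e : Fin n → O)
    (he : LinearIndependent k (fun i => red (e i)))
    (U : Submodule K F) (hU : U ≤ Submodule.span K (Set.range fun i => ((e i : O) : F)))
    (I : Set (SemilinearAut K F)) (heI : ∀ g ∈ I, ∀ i, g • ((e i : O) : F) = e i)
    (hUI : ∀ g ∈ I, ∀ f ∈ U, g • f ∈ U) :
    ∃ (d : ℕ) (u : Fin d → O), IsOrthBasis k O red U u ∧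
      ∀ g ∈ I, ∀ a, g • ((u a : O) : F) = u a := by
  classical
  -- coordinates
  let T : (Fin n → K) →ₗ[K] F := Fintype.linearCombination K (fun i => ((e i : O) : F))
  have hT : ∀ c : Fin n → K, T c = ∑ i, c i • ((e i : O) : F) := fun c =>
    Fintype.linearCombination_apply K _ c
  have hrangeT : LinearMap.range T = Submodule.span K (Set.range fun i => ((e i : O) : F)) :=
    Fintype.range_linearCombination K _
  let W : Submodule K (Fin n → K) := U.comap T
  obtain ⟨B, p, hint, hB, hrange⟩ :=
    Fermat.Agent.S19.H495.exists_integral_basis_matrix V.valuation W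
  have hBV : ∀ i a, B i a ∈ V := fun i a => (V.valuation_le_one_iff _).mp (hint i a)
  -- the columns of `B`
  have hcol : ∀ a, B *ᵥ (Pi.single a 1) = fun i => B i a := by
    intro a
    funext i
    simp [Matrix.mulVec, dotProduct, Pi.single_apply]
  have hcolW : ∀ a, (fun i => B i a) ∈ W := by
    intro a
    rw [← hrange, ← hcol a]
    exact ⟨_, rfl⟩
  -- the new basis
  let u : Fin (Module.finrank K W) → O := fun a =>
    ∑ i, (⟨algebraMap K F (B i a), algebraMap_mem _ (hBV i a)⟩ : O) * e i
  have hu_coe : ∀ a, ((u a : O) : F) = T (fun i => B i a) := by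
    intro a
    rw [hT]
    simp only [u]
    push_cast
    refine Finset.sum_congr rfl fun i _ => ?_
    rw [Algebra.smul_def]
  have hu_red : ∀ a, red (u a) = ∑ i, res ⟨B i a, hBV i a⟩ • red (e i) := by
    intro a
    simp only [u]
    rw [map_sum]
    refine Finset.sum_congr rfl fun i _ => ?_
    rw [_root_.map_mul, red_algebraMap ⟨B i a, hBV i a⟩, Algebra.smul_def]
  have hpiv : ∀ b a, res ⟨B (p b) a, hBV (p b) a⟩ = if b = a then 1 else 0 := by
    intro b a
    have h1 : B (p b) a = if b = a then 1 else 0 := by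
      have := congrFun (congrFun hB b) a
      simpa [Matrix.submatrix_apply, Matrix.one_apply] using this
    by_cases hba : b = a
    · have h2 : (⟨B (p b) a, hBV (p b) a⟩ : V) = 1 :=
        Subtype.ext (show B (p b) a = 1 by rw [h1, if_pos hba])
      rw [h2, _root_.map_one, if_pos hba]
    · have h2 : (⟨B (p b) a, hBV (p b) a⟩ : V) = 0 :=
        Subtype.ext (show B (p b) a = 0 by rw [h1, if_neg hba])
      rw [h2, _root_.map_zero, if_neg hba]
  refine ⟨Module.finrank K W, u, ⟨?_, ?_, ?_⟩, ?_⟩
  · -- independence of the reductions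
    rw [Fintype.linearIndependent_iff]
    intro lam hlam b
    have h1 : ∑ i, (∑ a, lam a * res ⟨B i a, hBV i a⟩) • red (e i) = 0 := by
      rw [← hlam]
      simp only [hu_red, Finset.smul_sum, Finset.sum_smul, smul_smul]
      rw [Finset.sum_comm]
    have h2 := Fintype.linearIndependent_iff.mp he _ h1 (p b)
    simp only [hpiv] at h2
    simpa using h2
  · intro a
    rw [hu_coe]
    exact hcolW a
  · apply le_antisymm
    · rw [Submodule.span_le]
      rintro _ ⟨a, rfl⟩
      show ((u a : O) : F) ∈ U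
      rw [hu_coe]
      exact hcolW a
    · intro y hy
      have hy' : y ∈ LinearMap.range T := by
        rw [hrangeT]
        exact hU hy
      obtain ⟨c, rfl⟩ := hy'
      have hc : c ∈ W := hy
      rw [← hrange] at hc
      obtain ⟨x, rfl⟩ := hc
      have h3 : T (B.mulVecLin x) = ∑ a, x a • ((u a : O) : F) := by
        rw [hT]
        simp only [hu_coe, hT, Matrix.mulVecLin_apply, Matrix.mulVec, dotProduct, Finset.smul_sum,
          Finset.sum_smul, smul_smul]
        rw [Finset.sum_comm]
        refine Finset.sum_congr rfl fun a _ => Finset.sum_congr rfl fun i _ => ?_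
        rw [mul_comm]
      rw [h3]
      refine Submodule.sum_mem _ fun a _ => Submodule.smul_mem _ _ ?_
      exact Submodule.subset_span ⟨a, rfl⟩
  · -- invariance
    intro g hg a
    let c' : Fin n → K := fun i => SemilinearAut.baseAut g (B i a)
    have h4 : g • ((u a : O) : F) = T c' := by
      rw [hu_coe, hT, hT, Finset.smul_sum]
      refine Finset.sum_congr rfl fun i _ => ?_
      rw [Algebra.smul_def, Algebra.smul_def, smul_mul', SemilinearAut.smul_algebraMap, heI g hg]
    have h5 : c' ∈ W := by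
      show T c' ∈ U
      rw [← h4]
      refine hUI g hg _ ?_
      rw [hu_coe]
      exact hcolW a
    rw [← hrange] at h5
    obtain ⟨x, hx⟩ := h5
    have hx' : B *ᵥ x = c' := hx
    have h6 : x = Pi.single a 1 := by
      funext b
      rw [Fermat.Agent.S19.H495.coeff_eq_of_submatrix_eq_one B p hB x b, hx']
      have h1 : B (p b) a = if b = a then 1 else 0 := by
        have := congrFun (congrFun hB b) a
        simpa [Matrix.submatrix_apply, Matrix.one_apply] using this
      show SemilinearAut.baseAut g (B (p b) a) = _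
      rw [h1, Pi.single_apply]
      by_cases hba : b = a
      · simp [hba]
      · simp [hba]
    have h7 : c' = fun i => B i a := by
      rw [← hx', h6, hcol]
    rw [h4, h7, ← hu_coe]

end Sub

section Aux

/-- An element of `O` with non-zero reduction is a unit of `O`. -/
theorem inv_mem_of_red_ne_zero (O : ValuationSubring F) (red : O →+* Fk)
    (hsurj : Function.Surjective red) (f : O) (hf : red f ≠ 0) : ((f : O) : F)⁻¹ ∈ O := by
  have hmax : (RingHom.ker red).IsMaximal := RingHom.ker_isMaximal_of_surjective red hsurj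
  have hker : RingHom.ker red = IsLocalRing.maximalIdeal O := IsLocalRing.eq_maximalIdeal hmax
  have hunit : IsUnit f := by
    by_contra h
    have h1 : f ∈ IsLocalRing.maximalIdeal O := (IsLocalRing.mem_maximalIdeal f).mpr h
    rw [← hker] at h1
    exact hf ((RingHom.mem_ker).mp h1)
  obtain ⟨u, hu⟩ := hunit
  have h2 : ((f : O) : F) * (((u⁻¹ : Oˣ) : O) : F) = 1 := by
    rw [← hu]
    calc ((u : O) : F) * (((u⁻¹ : Oˣ) : O) : F) = (((u : O) * ((u⁻¹ : Oˣ) : O) : O) : F) := rfl
      _ = ((1 : O) : F) := by rw [u.mul_inv]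
      _ = 1 := rfl
  rw [← eq_inv_of_mul_eq_one_right h2]
  exact (((u⁻¹ : Oˣ) : O)).2

/-- Semilinear automorphisms map `L(E)` to `L(g • E)`. -/
theorem smul_mem_L (g : SemilinearAut K F) {E : Divisor K F} {f : F}
    (hf : f ∈ riemannRochSpace E) : g • f ∈ riemannRochSpace (g • E) := by
  rw [Fermat.Agent.Lib.RR.mem_L_iff] at hf ⊢
  intro w
  rcases hf (g⁻¹ • w) with h0 | h1
  · left
    rw [h0, smul_zero]
  · right
    have h2 : (g • (g⁻¹ • w)).ord (g • f) = (g⁻¹ • w).ord f := SemilinearAut.ord_smul g _ f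
    rw [smul_inv_smul] at h2
    rw [h2, SemilinearAut.divisor_smul_apply]
    exact h1

/-- The positive part of a divisor. -/
def posPart (D : Divisor K F) : Divisor K F := D ⊔ 0

theorem posPart_apply (D : Divisor K F) (v : Place K F) : posPart D v = max (D v) 0 := by
  simp [posPart, Finsupp.sup_apply]

theorem le_posPart (D : Divisor K F) : D ≤ posPart D := le_sup_left

theorem posPart_nonneg (D : Divisor K F) : 0 ≤ posPart D := le_sup_right

theorem smul_posPart (g : SemilinearAut K F) {D : Divisor K F} (hD : g • D = D) :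
    g • posPart D = posPart D := by
  ext w
  rw [SemilinearAut.divisor_smul_apply, posPart_apply, posPart_apply]
  have h := SemilinearAut.divisor_smul_apply g D w
  rw [hD] at h
  rw [h]

end Aux

section Main

open Fermat.Agent.Lib.RR

variable [FF1 K F]
variable (V : ValuationSubring K) (O : ValuationSubring F) (res : V →+* k) (red : O →+* Fk)
variable (algebraMap_mem : ∀ a : K, a ∈ V → algebraMap K F a ∈ O)
variable (red_algebraMap : ∀ (a : V) (h : algebraMap K F (a : K) ∈ O),
    red ⟨algebraMap K F (a : K), h⟩ = algebraMap k Fk (res a))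
variable (red_surjective : Function.Surjective red)
variable (I : Set (SemilinearAut K F))
variable (B₀ : Divisor K F) (hB₀ : 0 < Divisor.degree B₀) (hB₀I : ∀ g ∈ I, g • B₀ = B₀)
variable (hbase : ∀ m₀ : ℕ, ∃ m, m₀ ≤ m ∧ ∃ (n : ℕ) (e : Fin n → O),
    IsOrthBasis k O red (riemannRochSpace (m • B₀)) e ∧
      ∀ g ∈ I, ∀ i, g • ((e i : O) : F) = e i)

include algebraMap_mem red_algebraMap red_surjective hB₀ hB₀I hbase in
theorem exists_orthBasis_aux (D : Divisor K F) (J : Set (SemilinearAut K F)) (hJ : J ⊆ I)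
    (hDJ : ∀ g ∈ J, g • D = D) :
    ∃ (n : ℕ) (b : Fin n → O), IsOrthBasis k O red (riemannRochSpace D) b ∧
      ∀ g ∈ J, ∀ i, g • ((b i : O) : F) = b i := by
  classical
  set A : Divisor K F := posPart D with hA
  -- choose `m`
  obtain ⟨m, hm, n, e, ⟨he_ind, he_mem, he_span⟩, heI⟩ :=
    hbase ((genusR K F : ℤ) + Divisor.degree A).toNat
  have hdeg : (genusR K F : ℤ) + Divisor.degree A ≤ Divisor.degree ((m : ℕ) • B₀) := by
    rw [map_nsmul, nsmul_eq_mul]
    have h1 : (genusR K F : ℤ) + Divisor.degree A ≤ (m : ℤ) :=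
      (Int.self_le_toNat _).trans (Int.ofNat_le.mpr hm)
    have h2 : (0 : ℤ) ≤ (m : ℤ) := Int.natCast_nonneg m
    nlinarith
  -- the space `U₁ = L(m B₀ - A)` is non-zero
  have hell : 1 ≤ ell ((m : ℕ) • B₀ - A) := by
    have h1 := riemann_inequality (K := K) (F := F) ((m : ℕ) • B₀ - A)
    rw [_root_.map_sub] at h1
    have h2 : (1 : ℤ) ≤ (ell ((m : ℕ) • B₀ - A) : ℤ) := by linarith
    exact_mod_cast h2
  have hU₁le : riemannRochSpace ((m : ℕ) • B₀ - A) ≤
      Submodule.span K (Set.range fun i => ((e i : O) : F)) := by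
    rw [he_span]
    apply L_mono
    have := posPart_nonneg D
    rw [← hA] at this
    exact sub_le_self _ this
  have hJI : ∀ g ∈ J, ∀ i, g • ((e i : O) : F) = e i := fun g hg i => heI g (hJ hg) i
  have hAJ : ∀ g ∈ J, g • A = A := fun g hg => smul_posPart g (hDJ g hg)
  have hU₁J : ∀ g ∈ J, ∀ f ∈ riemannRochSpace ((m : ℕ) • B₀ - A),
      g • f ∈ riemannRochSpace ((m : ℕ) • B₀ - A) := by
    intro g hg f hf
    have h1 := smul_mem_L g hf
    rw [smul_sub, smul_comm g m B₀, hB₀I g (hJ hg), hAJ g hg] at h1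
    exact h1
  obtain ⟨d₁, u₁, ⟨hu₁_ind, hu₁_mem, hu₁_span⟩, hu₁J⟩ :=
    exists_orthBasis_of_le V O res red algebraMap_mem red_algebraMap e he_ind _ hU₁le J hJI hU₁J
  have hd₁ : 0 < d₁ := by
    by_contra h0
    have h0' : d₁ = 0 := by omega
    subst h0'
    have h1 : riemannRochSpace ((m : ℕ) • B₀ - A) = ⊥ := by
      rw [← hu₁_span]
      have : (Set.range fun i : Fin 0 => ((u₁ i : O) : F)) = ∅ := Set.range_eq_empty _
      rw [this, Submodule.span_empty]
    have h2 : ell ((m : ℕ) • B₀ - A) = 0 := by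
      unfold ell
      rw [h1]
      exact finrank_bot K F
    omega
  set h : O := u₁ ⟨0, hd₁⟩ with hh
  have hh_red : red h ≠ 0 := hu₁_ind.ne_zero ⟨0, hd₁⟩
  have hh0 : ((h : O) : F) ≠ 0 := by
    intro h0
    apply hh_red
    have : h = 0 := Subtype.ext h0
    rw [this, _root_.map_zero]
  have hh_mem : ((h : O) : F) ∈ riemannRochSpace ((m : ℕ) • B₀ - A) := hu₁_mem _
  have hh_inv : ((h : O) : F)⁻¹ ∈ O := inv_mem_of_red_ne_zero O red red_surjective h hh_red
  have hhJ : ∀ g ∈ J, g • ((h : O) : F) = h := fun g hg => hu₁J g hg _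
  -- the twisted space
  set U₂ : Submodule K F := (riemannRochSpace D).map (LinearMap.mulLeft K ((h : O) : F)) with hU₂
  have hU₂le : U₂ ≤ Submodule.span K (Set.range fun i => ((e i : O) : F)) := by
    rw [he_span]
    rintro _ ⟨f, hf', rfl⟩
    have hf : f ∈ riemannRochSpace D := hf'
    show ((h : O) : F) * f ∈ riemannRochSpace ((m : ℕ) • B₀)
    rw [mem_L_iff] at hf hh_mem ⊢
    intro v
    by_cases hf0 : f = 0
    · left
      rw [hf0, _root_.MulZeroClass.mul_zero]
    · right
      have h1 := (hh_mem v).resolve_left hh0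
      have h2 := (hf v).resolve_left hf0
      have h3 : D v ≤ A v := Finsupp.le_def.mp (le_posPart D) v
      rw [v.ord_mul hh0 hf0]
      rw [Finsupp.sub_apply] at h1
      omega
  have hU₂J : ∀ g ∈ J, ∀ f ∈ U₂, g • f ∈ U₂ := by
    rintro g hg _ ⟨f, hf', rfl⟩
    have hf : f ∈ riemannRochSpace D := hf'
    refine ⟨g • f, ?_, ?_⟩
    · have h1 := smul_mem_L g hf
      rw [hDJ g hg] at h1
      exact h1
    · show ((h : O) : F) * (g • f) = g • (((h : O) : F) * f)
      rw [smul_mul', hhJ g hg]
  obtain ⟨d₂, u₂, ⟨hu₂_ind, hu₂_mem, hu₂_span⟩, hu₂J⟩ :=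
    exists_orthBasis_of_le V O res red algebraMap_mem red_algebraMap e he_ind U₂ hU₂le J hJI hU₂J
  -- untwist
  set hinv : O := ⟨((h : O) : F)⁻¹, hh_inv⟩ with hhinv
  have hmul : h * hinv = 1 := Subtype.ext (mul_inv_cancel₀ hh0)
  have hred_inv : red hinv ≠ 0 := by
    intro h0
    have := congrArg red hmul
    rw [_root_.map_mul, h0, _root_.MulZeroClass.mul_zero, _root_.map_one] at this
    exact zero_ne_one this
  have hb_coe : ∀ i, (((u₂ i * hinv : O) : O) : F) = ((u₂ i : O) : F) * ((h : O) : F)⁻¹ :=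
    fun i => rfl
  have hb_mem : ∀ i, (((u₂ i * hinv : O) : O) : F) ∈ riemannRochSpace D := by
    intro i
    obtain ⟨f, hf, hfi⟩ := hu₂_mem i
    have hfi' : ((h : O) : F) * f = ((u₂ i : O) : F) := hfi
    rw [hb_coe, ← hfi', mul_comm, ← _root_.mul_assoc, inv_mul_cancel₀ hh0, _root_.one_mul]
    exact hf
  refine ⟨d₂, fun i => u₂ i * hinv, ⟨?_, hb_mem, ?_⟩, ?_⟩
  · have h1 : (fun i => red (u₂ i * hinv)) =
        (LinearMap.mulRight k (red hinv)) ∘ (fun i => red (u₂ i)) := by
      funext i
      simp [_root_.map_mul]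
    rw [h1]
    refine hu₂_ind.map' _ ?_
    rw [LinearMap.ker_eq_bot]
    exact mul_left_injective₀ hred_inv
  · apply le_antisymm
    · rw [Submodule.span_le]
      rintro _ ⟨i, rfl⟩
      exact hb_mem i
    · intro f hf
      have h1 : ((h : O) : F) * f ∈ U₂ := ⟨f, hf, rfl⟩
      rw [← hu₂_span] at h1
      obtain ⟨c, hc⟩ := (Submodule.mem_span_range_iff_exists_fun K).mp h1
      have h2 : f = ∑ i, c i • (((u₂ i * hinv : O) : O) : F) := by
        have h3 : f = ((h : O) : F)⁻¹ * (((h : O) : F) * f) := by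
          rw [← _root_.mul_assoc, inv_mul_cancel₀ hh0, _root_.one_mul]
        rw [h3, ← hc, Finset.mul_sum]
        refine Finset.sum_congr rfl fun i _ => ?_
        rw [hb_coe, Algebra.smul_def, Algebra.smul_def]
        ring
      rw [h2]
      refine Submodule.sum_mem _ fun i _ => Submodule.smul_mem _ _ ?_
      exact Submodule.subset_span ⟨i, rfl⟩
  · intro g hg i
    show g • (((u₂ i * hinv : O) : O) : F) = ((u₂ i * hinv : O) : F)
    rw [hb_coe, smul_mul', smul_inv'', hu₂J g hg i, hhJ g hg]

include algebraMap_mem red_algebraMap red_surjective hB₀ hB₀I hbase in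
/-- **GR-ORTH.**  The field `orthonormal` of `GoodRed`, for all divisors, from the base case. -/
theorem orthonormal_of_base (D : Divisor K F) :
    ∃ (n : ℕ) (b : Fin n → O),
      LinearIndependent k (fun i => red (b i)) ∧
      (∀ i, ((b i : O) : F) ∈ riemannRochSpace D) ∧
      Submodule.span K (Set.range fun i => ((b i : O) : F)) = riemannRochSpace D ∧
      ((∀ g ∈ I, g • D = D) → ∀ i, ∀ g ∈ I, g • ((b i : O) : F) = ((b i : O) : F)) := by
  by_cases hD : ∀ g ∈ I, g • D = D
  · obtain ⟨n, b, ⟨h1, h2, h3⟩, h4⟩ :=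
      exists_orthBasis_aux V O res red algebraMap_mem red_algebraMap red_surjective I B₀ hB₀ hB₀I
        hbase D I subset_rfl hD
    exact ⟨n, b, h1, h2, h3, fun _ i g hg => h4 g hg i⟩
  · obtain ⟨n, b, ⟨h1, h2, h3⟩, -⟩ :=
      exists_orthBasis_aux V O res red algebraMap_mem red_algebraMap red_surjective I B₀ hB₀ hB₀I
        hbase D ∅ (Set.empty_subset _) (fun g hg => absurd hg (Set.notMem_empty g))
    exact ⟨n, b, h1, h2, h3, fun h => absurd h hD⟩

include algebraMap_mem red_algebraMap red_surjective hB₀ in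
/-- `orthonormal_of_base` for a subgroup `I`, verbatim in the shape of the field
`A3.H799.GoodRed.orthonormal`. -/
theorem orthonormal_of_base_subgroup (I' : Subgroup (SemilinearAut K F))
    (hB₀I' : ∀ g ∈ I', g • B₀ = B₀)
    (hbase' : ∀ m₀ : ℕ, ∃ m, m₀ ≤ m ∧ ∃ (n : ℕ) (e : Fin n → O),
      (LinearIndependent k (fun i => red (e i)) ∧
        (∀ i, ((e i : O) : F) ∈ riemannRochSpace (m • B₀)) ∧
        Submodule.span K (Set.range fun i => ((e i : O) : F)) = riemannRochSpace (m • B₀)) ∧
        ∀ g ∈ I', ∀ i, g • ((e i : O) : F) = e i) :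
    ∀ D : Divisor K F, ∃ (n : ℕ) (b : Fin n → O),
      LinearIndependent k (fun i => red (b i)) ∧
      (∀ i, ((b i : O) : F) ∈ riemannRochSpace D) ∧
      Submodule.span K (Set.range fun i => ((b i : O) : F)) = riemannRochSpace D ∧
      ((∀ g ∈ I', g • D = D) → ∀ i, ∀ g ∈ I', g • ((b i : O) : F) = ((b i : O) : F)) :=
  fun D => orthonormal_of_base V O res red algebraMap_mem red_algebraMap red_surjective
    (I' : Set (SemilinearAut K F)) B₀ hB₀ hB₀I' hbase' D

end Main

end Fermat.Agent.A3.H499

end

end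
-- ===== PACK-END A3/H499/Orth.lean

-- ===== PACK-BEGIN S19/H679/Basis.lean
section


/-!
# Cell A3 (S19), block UNR (helper679) — minimal spanning sets over a valuation ring

* `exists_minimal_spanningH679` : a finitely generated module spanned by a set `S` is spanned
  by a finite subset of `S` none of whose elements is in the span of the others;
* `indep_of_minimalH679`        : over a valuation ring `V` of `ℚ̄` such a set is linearly
  independent over `ℚ̄`;
* `tensor_indepH679`            : products `f(x) g(y)` of an independent family of functions are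
  independent;
* `mem_ratLocalizedAtH679`      : `ℚ ∩ V = ℤ_(ℓ)`;
* `isIntegral_of_conj_memH679`  : an element all of whose conjugates lie in `V` is integral
  over `ℤ_(ℓ)`.
-/

set_option autoImplicit false

namespace Fermat.Agent.S19.H679

open Fermat.Agent.S54 Fermat.Agent.S55.Bridge
open Polynomial

attribute [local instance] isAlgebraic_Qbar isGalois_Qbar

/-- A finite generating subset of `S` with no redundant element. -/
theorem exists_minimal_spanningH679 {A W : Type*} [CommRing A] [AddCommGroup W] [Module A W]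
    (S : Set W) (N : Submodule A W) (hN : N.FG) (hS : Submodule.span A S = N) :
    ∃ F : Finset W, (F : Set W) ⊆ S ∧ Submodule.span A (F : Set W) = N ∧
      ∀ f ∈ F, f ∉ Submodule.span A ((F : Set W) \ {f}) := by
  classical
  have hex : ∃ n : ℕ, ∃ F : Finset W, (F : Set W) ⊆ S ∧ Submodule.span A (F : Set W) = N ∧
      F.card = n := by
    rw [← hS] at hN
    obtain ⟨F, hF1, hF2⟩ := (Submodule.fg_span_iff_fg_span_finset_subset S).1 hN
    exact ⟨F.card, F, hF1, by rw [← hF2, hS], rfl⟩
  obtain ⟨F, hF1, hF2, hF3⟩ := Nat.find_spec hex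
  refine ⟨F, hF1, hF2, fun f hf hmem => ?_⟩
  rw [← Finset.coe_erase] at hmem
  have hlt : (F.erase f).card < Nat.find hex := by
    rw [← hF3]
    exact Finset.card_erase_lt_of_mem hf
  apply Nat.find_min hex hlt
  refine ⟨F.erase f, ?_, ?_, rfl⟩
  · exact fun x hx => hF1 (Finset.mem_of_mem_erase (Finset.mem_coe.1 hx))
  · rw [← hF2]
    apply le_antisymm
    · exact Submodule.span_mono fun x hx => Finset.mem_of_mem_erase (Finset.mem_coe.1 hx)
    · rw [Submodule.span_le]
      intro x hx
      by_cases hxf : x = f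
      · rw [hxf]; exact hmem
      · exact Submodule.subset_span (Finset.mem_coe.2 (Finset.mem_erase.2 ⟨hxf, hx⟩))

/-- Over a valuation ring, a spanning set without redundant elements is independent over the
fraction field. -/
theorem indep_of_minimalH679 (V : ValuationSubring Qb) {N : Type*} (F : Finset (N → Qb))
    (hmin : ∀ f ∈ F, f ∉ Submodule.span V ((F : Set (N → Qb)) \ {f}))
    (g : (N → Qb) → Qb) (hg : ∑ f ∈ F, g f • f = 0) : ∀ f ∈ F, g f = 0 := by
  classical
  by_contra hcon
  push Not at hcon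
  obtain ⟨f₀, hf₀, hgf₀⟩ := hcon
  obtain ⟨f₁, hf₁, hmax⟩ := Finset.exists_max_image F (fun f => V.valuation (g f)) ⟨f₀, hf₀⟩
  have hg1 : g f₁ ≠ 0 := by
    intro h
    have h1 := hmax f₀ hf₀
    rw [h, _root_.map_zero] at h1
    exact hgf₀ ((Valuation.zero_iff _).1 (le_antisymm h1 zero_le))
  have hcoef : ∀ f ∈ F, g f * (g f₁)⁻¹ ∈ V := by
    intro f hf
    rw [← V.valuation_le_one_iff, _root_.map_mul, map_inv₀, ← div_eq_mul_inv]
    have hpos : 0 < V.valuation (g f₁) := zero_lt_iff.2 ((Valuation.ne_zero_iff _).2 hg1)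
    rw [div_le_one₀ hpos]
    exact hmax f hf
  apply hmin f₁ hf₁
  rw [← Finset.coe_erase]
  have hrel : f₁ = ∑ f ∈ F.erase f₁, (-(g f * (g f₁)⁻¹)) • f := by
    rw [← Finset.add_sum_erase F _ hf₁] at hg
    have h1 : g f₁ • f₁ = -∑ f ∈ F.erase f₁, g f • f := eq_neg_of_add_eq_zero_left hg
    calc f₁ = (g f₁)⁻¹ • (g f₁ • f₁) := by rw [smul_smul, inv_mul_cancel₀ hg1, one_smul]
      _ = (g f₁)⁻¹ • (-∑ f ∈ F.erase f₁, g f • f) := by rw [h1]
      _ = ∑ f ∈ F.erase f₁, (-(g f * (g f₁)⁻¹)) • f := by
        rw [smul_neg, Finset.smul_sum, ← Finset.sum_neg_distrib]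
        refine Finset.sum_congr rfl fun f _ => ?_
        rw [smul_smul, neg_smul, mul_comm]
  have hgoal : ∑ f ∈ F.erase f₁, (-(g f * (g f₁)⁻¹)) • f
      ∈ Submodule.span V ((F.erase f₁ : Finset (N → Qb)) : Set (N → Qb)) := by
    refine Submodule.sum_mem _ fun f hf => ?_
    have hfF : f ∈ F := Finset.mem_of_mem_erase hf
    have h3 : (-(g f * (g f₁)⁻¹)) • f
        = (⟨-(g f * (g f₁)⁻¹), V.neg_mem _ (hcoef f hfF)⟩ : V) • f := rfl
    rw [h3]
    exact Submodule.smul_mem _ _ (Submodule.subset_span (Finset.mem_coe.2 hf))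
  have key : ∀ S : Submodule V (N → Qb),
      ∑ f ∈ F.erase f₁, (-(g f * (g f₁)⁻¹)) • f ∈ S → f₁ ∈ S := by
    intro S h
    rw [hrel]
    exact h
  exact key _ hgoal

/-- Independence of the products `f(x) g(y)`. -/
theorem tensor_indepH679 {N : Type*} (F : Finset (N → Qb))
    (hind : ∀ g : (N → Qb) → Qb, ∑ f ∈ F, g f • f = 0 → ∀ f ∈ F, g f = 0)
    (c : (N → Qb) → (N → Qb) → Qb)
    (hc : ∀ x y : N, ∑ f ∈ F, ∑ g ∈ F, c f g * (f x * g y) = 0) :
    ∀ f ∈ F, ∀ g ∈ F, c f g = 0 := by
  classical
  -- first in the variable `x`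
  have h1 : ∀ y : N, ∀ f ∈ F, ∑ g ∈ F, c f g * g y = 0 := by
    intro y
    apply hind (fun f => ∑ g ∈ F, c f g * g y)
    funext x
    rw [Finset.sum_apply, Pi.zero_apply, ← hc x y]
    refine Finset.sum_congr rfl fun f _ => ?_
    rw [Pi.smul_apply, smul_eq_mul, Finset.sum_mul]
    refine Finset.sum_congr rfl fun g _ => ?_
    ring
  intro f hf
  apply hind (fun g => c f g)
  funext y
  rw [Finset.sum_apply, Pi.zero_apply, ← h1 y f hf]
  refine Finset.sum_congr rfl fun g _ => ?_
  rw [Pi.smul_apply, smul_eq_mul]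

variable (V : ValuationSubring Qb) {ℓ : ℕ} (hℓ : ℓ.Prime) (hV : (ℓ : Qb) ∈ V.nonunits)

include hℓ hV in
/-- `ℚ ∩ V = ℤ_(ℓ)`. -/
theorem mem_ratLocalizedAtH679 (q : ℚ) (hq : (algebraMap ℚ Qb q) ∈ V) : q ∈ Rl ℓ := by
  show q.den.Coprime ℓ
  rw [Nat.coprime_comm, hℓ.coprime_iff_not_dvd]
  intro hdvd
  obtain ⟨k, hk⟩ := hdvd
  -- `num = q * den ∈ 𝔪`
  have h1 : ((q.num : ℤ) : Qb) = algebraMap ℚ Qb q * ((q.den : ℕ) : Qb) := by
    have h2 : (q.num : ℚ) = q * (q.den : ℚ) := (Rat.mul_den_eq_num q).symm
    have h3 := congrArg (algebraMap ℚ Qb) h2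
    rw [_root_.map_mul, _root_.map_intCast, _root_.map_natCast] at h3
    exact h3
  have h4 : ((q.den : ℕ) : Qb) ∈ V.nonunits := by
    rw [hk]
    push_cast
    exact mul_mem_nonunitsH679' V hV (natCast_mem V k)
  have h5 : ((q.num : ℤ) : Qb) ∈ V.nonunits := by
    rw [h1]
    exact mul_mem_nonunitsH679 V hq h4
  have h6 := dvd_of_intCast_mem_nonunits V ℓ hℓ hV _ h5
  have h7 : (ℓ : ℤ) ∣ (q.den : ℤ) := ⟨k, by exact_mod_cast hk⟩
  have h8 : IsCoprime q.num (q.den : ℤ) := by
    rw [Int.isCoprime_iff_gcd_eq_one]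
    have := q.reduced
    rw [Nat.Coprime] at this
    rw [Int.gcd]
    simpa using this
  have h9 : IsUnit (ℓ : ℤ) := h8.isUnit_of_dvd' h6 h7
  rw [Int.isUnit_iff] at h9
  have := hℓ.one_lt
  omega

/-- Elements of `ℚ̄` fixed by the whole Galois group are rational. -/
theorem mem_range_of_fixedH679 (x : Qb) (hx : ∀ σ : GalQ, σ x = x) :
    ∃ q : ℚ, algebraMap ℚ Qb q = x := by
  have hfix : x ∈ IntermediateField.fixedField (⊤ : Subgroup GalQ) := by
    rintro ⟨g, -⟩
    exact hx g
  rw [InfiniteGalois.fixedField_bot, IntermediateField.mem_bot] at hfix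
  exact hfix

include hℓ hV in
/-- An element all of whose conjugates lie in `V` is integral over `ℤ_(ℓ)`. -/
theorem isIntegral_of_conj_memH679 (x : Qb) (hx : ∀ σ : GalQ, σ x ∈ V) :
    IsIntegral (Rl ℓ) x := by
  set Q := orbPolyH679 (⊤ : Subgroup GalQ) x with hQ
  have hmonic : Q.Monic := monic_prod_of_monic _ _ fun y _ => monic_X_sub_C y
  have hcoefV : ∀ j, Q.coeff j ∈ V := fun j =>
    coeff_prod_X_sub_C_memH679 V.toSubring _ (fun y hy => by
      obtain ⟨σ, -, rfl⟩ := mem_orbH679.1 hy
      exact hx σ) j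
  have hcoefQ : ∀ j, ∃ r : Rl ℓ, algebraMap (Rl ℓ) Qb r = Q.coeff j := by
    intro j
    obtain ⟨q, hq⟩ := mem_range_of_fixedH679 (Q.coeff j) fun σ =>
      apply_coeff_orbPolyH679 x (Subgroup.mem_top σ) j
    exact ⟨⟨q, mem_ratLocalizedAtH679 V hℓ hV q (hq ▸ hcoefV j)⟩, hq⟩
  have hlift : Q ∈ Polynomial.lifts (algebraMap (Rl ℓ) Qb) := by
    rw [Polynomial.lifts_iff_coeff_lifts]
    intro j
    obtain ⟨r, hr⟩ := hcoefQ j
    exact ⟨r, hr⟩
  obtain ⟨P, hP, -, hPm⟩ := Polynomial.lifts_and_degree_eq_and_monic hlift hmonic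
  refine ⟨P, hPm, ?_⟩
  rw [← Polynomial.eval_map, hP]
  exact orbPolyH679_eval_self _ x

end Fermat.Agent.S19.H679

end
-- ===== PACK-END S19/H679/Basis.lean

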