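import Mathlib
import Mathlib.RingTheory.Polynomial.ScaleRoots
import Fermat.Agent.Pack.S33.E12L3
import Fermat.Agent.Pack.S33.E14L0
import Fermat.Agent.Pack.S33.E4L1
import Fermat.Agent.Pack.S33.E0L1
import Fermat.Agent.Pack.S33.E7L3
import Fermat.Agent.Pack.S33.E4L3
import Fermat.Agent.Pack.S33.E15L0
import Fermat.Agent.Pack.S33.E7L1
import Fermat.Agent.Pack.S33.E15L3
import Fermat.Agent.Pack.S33.E12L2
import Fermat.Agent.Pack.S33.E1L1
import Fermat.Agent.Pack.S33.E15L1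
import Fermat.Agent.Pack.S33.E1L3
import Fermat.Agent.Pack.S33.E8L2
import Fermat.Agent.Pack.S33.E8L1
import Fermat.Agent.Pack.S33.E8L3
import Fermat.Agent.Pack.S33.E12L0
import Fermat.Agent.Pack.S33.E11L3
import Fermat.Agent.Pack.S33.E2L2
import Fermat.Agent.Pack.S33.E14L3
import Fermat.Agent.Pack.S33.E6L3
import Fermat.Agent.Pack.S33.E15L2
import Fermat.Agent.Pack.S33.E14L2

-- ===== PACK-BEGIN S24/Mod/H997Taylor.lean
section




/-!
# S24 / MOD — the finite-point data of `AnalyticCore` from Taylor expansions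

For a `HolBase N` whose ring `Hol` consists of holomorphic functions and whose `J 1` is the
`j`-function, the three `PointData` fields of `AnalyticCore` are constructed from
helper624's Taylor/rotation package (`H624`) and helper47's local orders of `j` (`M7.H47`).
-/

set_option autoImplicit false

noncomputable section

open ModularCurve HahnSeries UpperHalfPlane ModularForm EisensteinSeries
open scoped MatrixGroups Manifold

namespace Fermat.Agent.S24.H997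

open Fermat.Agent.S24.H624 Fermat.Agent.S20.L1 Fermat.Agent.S24.M7.H47

variable {N : ℕ} [NeZero N]

/-- `Hol` consists of holomorphic functions and `J 1` is the `j`-function. -/
structure HolBase.IsHolo (B : HolBase N) : Prop where
  mdiff : ∀ f ∈ B.Hol, f ∈ holoRing
  J_one : B.J 1 = jFun

namespace HolBase

variable (B : HolBase N) (hB : B.IsHolo)

/-- the inclusion `Hol → holoRing` -/
def toHolo : B.Hol →+* holoRing where
  toFun h := ⟨h.1, hB.mdiff h.1 h.2⟩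
  map_one' := rfl
  map_mul' _ _ := rfl
  map_zero' := rfl
  map_add' _ _ := rfl

theorem toHolo_injective : Function.Injective (B.toHolo hB) := by
  intro x y h
  exact Subtype.ext (congrArg (fun f : holoRing => (f : ℍ → ℂ)) h)

theorem toHolo_compH (ε : SL(2, ℤ)) (h : B.Hol) :
    B.toHolo hB (B.compH ε h) = ε⁻¹ • B.toHolo hB h := by
  apply Subtype.ext
  funext τ
  rw [smul_holoRing_apply, inv_inv]
  rfl

/-- the Taylor expansion at `τ₀` as an `Expansion` -/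
def taylorExpansion (τ₀ : ℍ) : Expansion B where
  E := (taylorLaurent τ₀).comp (B.toHolo hB)
  inj := (taylorLaurent_injective τ₀).comp (B.toHolo_injective hB)
  const c := by
    show HahnSeries.ofPowerSeries ℤ ℂ (taylorAt τ₀ (B.toHolo hB (B.constH c))) = HahnSeries.C c
    have : B.toHolo hB (B.constH c) = algebraMap ℂ holoRing c := rfl
    rw [this, AlgHom.commutes, PowerSeries.algebraMap_apply, Algebra.algebraMap_self,
      RingHom.id_apply, HahnSeries.ofPowerSeries_C]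

theorem taylorExpansion_E (τ₀ : ℍ) (h : B.Hol) :
    (B.taylorExpansion hB τ₀).E h
      = laurentAt τ₀ (algebraMap holoRing MerH (B.toHolo hB h)) :=
  (laurentAt_algebraMap τ₀ _).symm

/-- rotation data at a fixed point -/
def taylorRot {τ₀ : ℍ} {ε : SL(2, ℤ)} (hε : ε • τ₀ = τ₀) (m : ℕ) (hm : 0 < m)
    (hζ : IsPrimitiveRoot (rotFactor ε⁻¹ τ₀) m) :
    RotData B (B.taylorExpansion hB τ₀) ε where
  m := m
  m_pos := hm
  ζ := rotFactor ε⁻¹ τ₀
  hζ := hζ
  rot h := by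
    have hfix : ε⁻¹ • τ₀ = τ₀ := inv_smul_of_fixed hε
    rw [taylorExpansion_E, taylorExpansion_E, toHolo_compH, ← smul_algebraMap_MerH]
    exact laurentAt_smul_fixed_rotFactor hfix _

/-- trivial rotation data -/
def trivialRot (X : Expansion B) : RotData B X 1 where
  m := 1
  m_pos := one_pos
  ζ := 1
  hζ := IsPrimitiveRoot.one
  rot h := by
    rw [B.compH_one]
    exact ⟨rfl, by simp⟩

theorem taylor_order_J (τ₀ : ℍ) (a : ℂ) (ha : jFun τ₀ = a) (m : ℕ)
    (hord : analyticOrderAt (fun w : ℂ => jFun (ofComplex w) - jFun τ₀) (τ₀ : ℂ) = m) :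
    ((B.taylorExpansion hB τ₀).E (B.JH 1 (one_dvd N) - B.constH a)).order = (m : ℤ) := by
  show (HahnSeries.ofPowerSeries ℤ ℂ (taylorAt τ₀ (B.toHolo hB _))).order = _
  apply order_ofPowerSeries
  rw [order_taylorAt, ordAt_def, ← hord]
  congr 1
  funext w
  show B.J 1 (ofComplex w) - a = _
  rw [hB.J_one, ha]

/-- the point data over a generic value -/
def genericPoint (a : ℂ) (h0 : a ≠ 0) (h1 : a ≠ 1728) : PointData B a 1 :=
  let τ₀ : ℍ := (jFun_surjective a).choose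
  have hτ₀ : jFun τ₀ = a := (jFun_surjective a).choose_spec
  { X := B.taylorExpansion hB τ₀
    R := B.trivialRot _
    order_J := by
      have h4 : E₄ τ₀ ≠ 0 := fun h => h0 (hτ₀ ▸ (jFun_eq_zero_iff τ₀).mpr h)
      have h6 : E₆ τ₀ ≠ 0 := fun h => h1 (hτ₀ ▸ (jFun_eq_1728_iff τ₀).mpr h)
      have := B.taylor_order_J hB τ₀ a hτ₀ 1
        (by exact_mod_cast analyticOrderAt_jFun_sub_generic h4 h6)
      exact this }

/-- the point data over `1728` (at `i`, rotation by `S`) -/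
def point1728 : PointData B 1728 ModularGroup.S where
  X := B.taylorExpansion hB UpperHalfPlane.I
  R := B.taylorRot hB (τ₀ := UpperHalfPlane.I) (ε := ModularGroup.S)
    Fermat.Agent.S24.H624.S_smul_I 2 two_pos
    (isPrimitiveRoot_rotFactor_two (inv_smul_of_fixed Fermat.Agent.S24.H624.S_smul_I)
      (by rw [trace_inv_SL]; exact trace_S))
  order_J := by
    have := B.taylor_order_J hB UpperHalfPlane.I 1728 jFun_I 2
      (by exact_mod_cast analyticOrderAt_jFun_sub_of_E₆ E₆_I)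
    exact this

/-- the point data over `0` (at `ρ`, rotation by `S * T`) -/
def point0 : PointData B 0 (ModularGroup.S * ModularGroup.T) where
  X := B.taylorExpansion hB rho
  R := B.taylorRot hB (τ₀ := rho) (ε := ModularGroup.S * ModularGroup.T)
    ST_smul_rho 3 (by norm_num)
    (isPrimitiveRoot_rotFactor_three (inv_smul_of_fixed ST_smul_rho)
      (by rw [trace_inv_SL]; exact Or.inl trace_ST))
  order_J := by
    have := B.taylor_order_J hB rho 0 jFun_rho 3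
      (by exact_mod_cast analyticOrderAt_jFun_sub_of_E₄ E₄_rho)
    exact this

/-- **`AnalyticCore` from a holomorphic `HolBase` with `T`-shift.** -/
def toAnalyticCore (ζ : ℂ) (hζ : IsPrimitiveRoot ζ N)
    (hshift : ∀ (h : B.Hol) (n : ℤ),
      (B.qexp (B.compH ModularGroup.T h)).coeff n = ζ ^ n * (B.qexp h).coeff n) :
    AnalyticCore N where
  toHolBase := B
  generic := B.genericPoint hB
  at1728 := B.point1728 hB
  at0 := B.point0 hB
  infζ := ζ
  inf_hζ := hζ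
  inf_shift := hshift

end HolBase

end Fermat.Agent.S24.H997

end
end
-- ===== PACK-END S24/Mod/H997Taylor.lean

-- ===== PACK-BEGIN S24/Alg/Principal.lean
section





/-!
# S24 / ALG — principal divisors have degree zero (FF3), from the fundamental equality (FF1)

helper984.  `deg div f = ∑_{zeros} ord_v f - ∑_{poles} ord_v f⁻¹ = [F:K(f)] - [F:K(f⁻¹)] = 0`.
-/

set_option autoImplicit false

noncomputable section

open AlgebraicCurve

namespace Fermat.Agent.S24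

variable {K F : Type*} [Field K] [Field F] [Algebra K F]

theorem degree_eq_sum_of_deg_one' (hdeg : ∀ v : Place K F, v.deg = 1) (E : Divisor K F)
    (T : Finset (Place K F)) (hT : E.support ⊆ T) :
    Divisor.degree E = ∑ v ∈ T, E v := by
  have h1 : Divisor.degree E = E.sum fun v n => n * (v.deg : ℤ) := by
    simp [Divisor.degree, Finsupp.liftAddHom_apply]
  rw [h1, Finsupp.sum_of_support_subset E hT _ (fun v _ => by simp)]
  refine Finset.sum_congr rfl fun v _ => ?_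
  rw [hdeg v]; simp

variable [IsAlgClosed K] [CharZero K]

/-- FF1 in inequality form, for an arbitrary enumeration `s` of the zeros of `t`. -/
theorem fundamental_le (t : F) (ht : Transcendental K t)
    [FiniteDimensional ↥(IntermediateField.adjoin K {t}) F]
    (s : Finset (Place K F)) (hs : ∀ v : Place K F, v ∈ s ↔ 0 < v.ord t) :
    (Module.finrank ↥(IntermediateField.adjoin K {t}) F : ℤ) ≤ ∑ v ∈ s, v.ord t := by
  obtain ⟨s', hs', hsum⟩ := open_fundamental_eq t ht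
  have : s = s' := by
    ext v
    rw [hs, hs']
  rw [this, hsum]

/-- FF3: a principal divisor has degree zero. -/
theorem degree_principal (j : F) (hj : Transcendental K j)
    [FiniteDimensional ↥(IntermediateField.adjoin K {j}) F] (f : F) (hf : f ≠ 0)
    (D : Divisor K F) (hD : ∀ v : Place K F, D v = v.ord f) : Divisor.degree D = 0 := by
  classical
  by_cases hfK : f ∈ (algebraMap K F).range
  · -- constants have no zeros or poles
    obtain ⟨c, rfl⟩ := hfK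
    have : D = 0 := by
      ext v
      rw [hD, ord_algebraMap]
      rfl
    rw [this, map_zero]
  · have hft : Transcendental K f := FF.transcendental_of_not_mem_range hfK
    have hfit : Transcendental K f⁻¹ := by
      intro h
      exact hft (by simpa using h.inv)
    haveI : FiniteDimensional ↥(IntermediateField.adjoin K {f}) F :=
      FF.finiteDimensional_adjoin_of_transcendental hj hft
    obtain ⟨hfd, hfr⟩ := finiteDimensional_and_finrank_of_eq (adjoin_inv K f)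
    obtain ⟨Z, hZ, hZsum⟩ := open_fundamental_eq f hft
    obtain ⟨P, hP, hPsum⟩ := open_fundamental_eq f⁻¹ hfit
    have hdeg : ∀ v : Place K F, v.deg = 1 := fun v => FF.deg_eq_one v hj
    have hsupp : D.support ⊆ Z ∪ P := by
      intro v hv
      rw [Finsupp.mem_support_iff, hD] at hv
      rw [Finset.mem_union, hZ, hP, v.ord_inv]
      omega
    have hdisj : Disjoint Z P := by
      rw [Finset.disjoint_left]
      intro v hvZ hvP
      rw [hZ] at hvZ
      rw [hP, v.ord_inv] at hvP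
      omega
    rw [degree_eq_sum_of_deg_one' hdeg D _ hsupp, Finset.sum_union hdisj]
    have h1 : ∑ v ∈ Z, D v = ∑ v ∈ Z, v.ord f := Finset.sum_congr rfl fun v _ => hD v
    have h2 : ∑ v ∈ P, D v = -∑ v ∈ P, v.ord f⁻¹ := by
      rw [← Finset.sum_neg_distrib]
      refine Finset.sum_congr rfl fun v _ => ?_
      rw [hD, v.ord_inv, neg_neg]
    rw [h1, h2, hZsum, hPsum, hfr]
    ring

end Fermat.Agent.S24

end
end
-- ===== PACK-END S24/Alg/Principal.lean

-- ===== PACK-BEGIN S30/H990/FromH330.lean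
section
/-
S30 top glue (helper990): adapter from helper330's adic module layer
(`H330.HasAdicFrobModule O (N * p) (· ∉ S) (eigenvalue χ)`) to the input of the top glue, and the
frozen statement S30 from it.
-/



set_option autoImplicit false

namespace Fermat.Agent.S30.H990

open Polynomial

/-- helper330's output is an adic eigenmodule. -/
theorem nonempty_adicEigenModule_of_H330 {p N : ℕ} [NeZero N] (hp : p.Prime) {S : Finset ℕ}
    {𝒪 : Type} [CommRing 𝒪] [IsLocalRing 𝒪]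
    (χ : CuspForm.heckeAlgebra N 2 (↑S : Set ℕ) →+* 𝒪)
    (h : Fermat.Agent.S30.H330.HasAdicFrobModule 𝒪 (N * p) (fun ℓ => ℓ ∉ S)
      (Fermat.Agent.S30.H330.eigenvalue χ)) :
    Nonempty (AdicEigenModule p N S 𝒪 χ) := by
  obtain ⟨M, i1, i2, i3, i4, ρ, hnt, hcont, hunr, hfrob⟩ := h
  have hdvd : ∀ q : ℕ, q.Prime → ¬ q ∣ N → q ≠ p → ¬ q ∣ N * p := by
    intro q hq hqN hqp hdiv
    rcases (Nat.Prime.dvd_mul hq).1 hdiv with h1 | h1
    · exact hqN h1
    · exact hqp ((Nat.prime_dvd_prime_iff_eq hq hp).1 h1)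
  exact ⟨{
    M := M
    ρ := ρ
    cont := hcont
    unram := fun q hq hqN hqp P hP σ hσ => hunr q hq (hdvd q hq hqN hqp) P hP σ hσ
    frob := fun ℓ hℓ hℓN hℓS A hA σ hσ => by
      have h1 := hfrob ℓ hℓ (fun hmem => hℓS (Finset.mem_coe.mpr hmem)) A hA σ hσ
      have h2 : Fermat.Agent.S30.H330.eigenvalue χ ℓ
          = χ (CuspForm.heckeAlgebra.T hℓ hℓN hℓS) := by
        unfold Fermat.Agent.S30.H330.eigenvalue
        rw [dif_pos ⟨hℓ, hℓN, hℓS⟩]
      rw [h2] at h1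
      exact h1 }⟩

/-- The tower hypothesis of the top glue from helper330's adic module layer. -/
theorem hasAdicEigenModules_of_H330
    (h : ∀ (p : ℕ) [Fact p.Prime] (N : ℕ) [NeZero N] (S : Finset ℕ)
      (_hpS : p ∈ S) (_hNS : ∀ q : ℕ, q.Prime → q ∣ N → q ∈ S)
      (𝒪' : Type) [CommRing 𝒪'] [IsDomain 𝒪'] [IsDiscreteValuationRing 𝒪']
      [IsAdicComplete (IsLocalRing.maximalIdeal 𝒪') 𝒪'] [Finite (IsLocalRing.ResidueField 𝒪')]
      [CharZero 𝒪'] (_hp𝒪' : (p : 𝒪') ∈ IsLocalRing.maximalIdeal 𝒪')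
      (χ : CuspForm.heckeAlgebra N 2 (↑S : Set ℕ) →+* 𝒪'),
      Fermat.Agent.S30.H330.HasAdicFrobModule 𝒪' (N * p) (fun ℓ => ℓ ∉ S)
        (Fermat.Agent.S30.H330.eigenvalue χ)) :
    HasAdicEigenModules := by
  intro p _ N _ S hpS hNS 𝒪' _ _ _ _ _ _ hp𝒪' χ
  exact nonempty_adicEigenModule_of_H330 (Fact.out : p.Prime) χ (h p N S hpS hNS 𝒪' hp𝒪' χ)

end Fermat.Agent.S30.H990

end
-- ===== PACK-END S30/H990/FromH330.lean

-- ===== PACK-BEGIN S29/H812/FundId.lean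
section




/-!
# S29 / H812 — the fundamental identity `∑_{w | v} e(w | v) = [F' : F]` for a finite extension of
function fields of one variable over an algebraically closed field of characteristic zero.
-/

set_option autoImplicit false

noncomputable section

open AlgebraicCurve IntermediateField

namespace Fermat.Agent.S29.H812

open Fermat.Agent.S24

variable {K F F' : Type*} [Field K] [Field F] [Field F']
  [Algebra K F] [Algebra K F'] [Algebra F F'] [IsScalarTower K F F']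
  [Algebra.IsIntegral F F'] [HasPrincipalDivisors K F']

/-- The index set of the adapted family of the fibre over `v`. -/
abbrev FibIdx (F' : Type*) [Field F'] [Algebra K F'] [Algebra F F'] [IsScalarTower K F F']
    [Algebra.IsIntegral F F'] [HasPrincipalDivisors K F'] (v : Place K F) : Type _ :=
  Σ w : {w : Place K F' // w ∈ v.fiber F'}, Fin (w.1.ramificationIndex F)

theorem card_fibIdx (v : Place K F) :
    Fintype.card (FibIdx F' v) = ∑ w ∈ v.fiber F', w.ramificationIndex F := by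
  classical
  rw [Fintype.card_sigma]
  simp only [Fintype.card_fin]
  exact Finset.sum_coe_sort (v.fiber F') (fun w => w.ramificationIndex F)

theorem fibIdx_ext (v : Place K F) (a b : FibIdx F' v) (h1 : a.1.1 = b.1.1)
    (h2 : (a.2 : ℕ) = (b.2 : ℕ)) : a = b := by
  obtain ⟨⟨w, hw⟩, i⟩ := a
  obtain ⟨⟨w', hw'⟩, i'⟩ := b
  simp only at h1
  subst h1
  simp only at h2
  have : i = i' := Fin.ext h2
  subst this
  rfl

/-- An adapted family for the fibre over `v`. -/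
theorem exists_family (v : Place K F) :
    ∃ u : FibIdx F' v → F', (∀ a, u a ≠ 0) ∧ (∀ a : FibIdx F' v, a.1.1.ord (u a) = (a.2 : ℕ)) ∧
      (∀ a b : FibIdx F' v, b.1.1 ≠ a.1.1 →
        ((b.1.1.ramificationIndex F : ℕ) : ℤ) ≤ b.1.1.ord (u a)) := by
  classical
  set B : ℕ := ∑ w ∈ v.fiber F', w.ramificationIndex F with hB
  have h : ∀ a : FibIdx F' v, ∃ u : F', u ≠ 0 ∧ a.1.1.ord u = (a.2 : ℕ) ∧
      ∀ w' ∈ (v.fiber F').erase a.1.1, (B : ℤ) ≤ w'.ord u := fun a =>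
    exists_ord_eq_and_ge a.1.1 ((v.fiber F').erase a.1.1) (Finset.notMem_erase _ _) a.2 B
  choose u hu0 hu1 hu2 using h
  refine ⟨u, hu0, hu1, ?_⟩
  intro a b hne
  have hmem : b.1.1 ∈ (v.fiber F').erase a.1.1 := Finset.mem_erase.mpr ⟨hne, b.1.2⟩
  have h1 := hu2 a b.1.1 hmem
  have h2 : b.1.1.ramificationIndex F ≤ B :=
    Finset.single_le_sum (f := fun w : Place K F' => w.ramificationIndex F)
      (fun _ _ => Nat.zero_le _) b.1.2
  have h3 : ((b.1.1.ramificationIndex F : ℕ) : ℤ) ≤ (B : ℤ) := by exact_mod_cast h2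
  linarith

/-- The coordinate lemma for an adapted family. -/
theorem family_coord (v : Place K F) (u : FibIdx F' v → F') (hu0 : ∀ a, u a ≠ 0)
    (hu1 : ∀ a : FibIdx F' v, a.1.1.ord (u a) = (a.2 : ℕ))
    (hu2 : ∀ a b : FibIdx F' v, b.1.1 ≠ a.1.1 →
        ((b.1.1.ramificationIndex F : ℕ) : ℤ) ≤ b.1.1.ord (u a))
    (c : FibIdx F' v → F) (hc : ∃ a, c a ≠ 0) :
    ∃ a₀, c a₀ ≠ 0 ∧ (∀ a, c a ≠ 0 → v.ord (c a₀) ≤ v.ord (c a)) ∧
      (∑ a, c a • u a) ≠ 0 ∧
      a₀.1.1.ord (∑ a, c a • u a)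
        = (a₀.1.1.ramificationIndex F : ℤ) * v.ord (c a₀) + ((a₀.2 : ℕ) : ℤ) :=
  coord_lemma v (fun a : FibIdx F' v => a.1.1) (fun a => (a.2 : ℕ)) u
    (fun a => Place.mem_fiber.mp a.1.2) (fun a => a.2.2) hu0 hu1 hu2
    (fun a b h1 h2 => fibIdx_ext v a b h1 h2) c hc

theorem family_linearIndependent (v : Place K F) (u : FibIdx F' v → F') (hu0 : ∀ a, u a ≠ 0)
    (hu1 : ∀ a : FibIdx F' v, a.1.1.ord (u a) = (a.2 : ℕ))
    (hu2 : ∀ a b : FibIdx F' v, b.1.1 ≠ a.1.1 →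
        ((b.1.1.ramificationIndex F : ℕ) : ℤ) ≤ b.1.1.ord (u a)) :
    LinearIndependent F u := by
  rw [Fintype.linearIndependent_iff]
  intro c hsum a
  by_contra ha
  obtain ⟨_, _, _, hne, _⟩ := family_coord v u hu0 hu1 hu2 c ⟨a, ha⟩
  exact hne hsum

/-- **Fundamental inequality** `∑_{w | v} e(w | v) ≤ [F' : F]`. -/
theorem sum_ramificationIndex_le_finrank [Module.Finite F F'] (v : Place K F) :
    ∑ w ∈ v.fiber F', w.ramificationIndex F ≤ Module.finrank F F' := by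
  obtain ⟨u, hu0, hu1, hu2⟩ := exists_family (F' := F') v
  rw [← card_fibIdx]
  exact (family_linearIndependent v u hu0 hu1 hu2).fintype_card_le_finrank

section Identity

variable [IsAlgClosed K] [CharZero K] [Module.Finite F F']

omit [Algebra.IsIntegral F F'] [HasPrincipalDivisors K F'] [IsAlgClosed K] [CharZero K]
  [Module.Finite F F'] in
theorem not_mem_range_of_ord_ne_zero (v : Place K F) {f : F} (hf : v.ord f ≠ 0) :
    f ∉ (algebraMap K F).range := by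
  rintro ⟨c, rfl⟩
  exact hf (H117.ord_algebraMap v c)

/-- **Fundamental identity** `∑_{w | v} e(w | v) = [F' : F]`. -/
theorem sum_ramificationIndex_eq_finrank
    (hF : ∃ x : F, Transcendental K x ∧ FiniteDimensional K⟮x⟯ F) (v : Place K F) :
    ∑ w ∈ v.fiber F', w.ramificationIndex F = Module.finrank F F' := by
  classical
  obtain ⟨x, hx, hxfin⟩ := hF
  obtain ⟨π, hπ0, hπ1⟩ := H117.exists_ord_eq_one v
  have hπt : Transcendental K π :=
    FF.transcendental_of_not_mem_range (not_mem_range_of_ord_ne_zero v (by rw [hπ1]; norm_num))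
  haveI hπfin : FiniteDimensional K⟮π⟯ F := FF.finiteDimensional_adjoin_of_transcendental hx hπt
  set π' : F' := algebraMap F F' π with hπ'
  have hπ't : Transcendental K π' := transcendental_algebraMap_of hπt
  haveI hπ'fin : FiniteDimensional K⟮π'⟯ F' := finiteDimensional_adjoin_algebraMap π
  set Z : Finset (Place K F) := (FF.finite_setOf_ord_pos hπt).toFinset with hZ
  set Z' : Finset (Place K F') := (FF.finite_setOf_ord_pos hπ't).toFinset with hZ'
  have hZmem : ∀ v', v' ∈ Z ↔ 0 < v'.ord π := fun v' => by simp [hZ]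
  have hZ'mem : ∀ w, w ∈ Z' ↔ 0 < w.ord π' := fun w => by simp [hZ']
  have h1 := FF.sum_ord_eq_finrank hπt Z hZmem
  have h2 := FF.sum_ord_eq_finrank hπ't Z' hZ'mem
  rw [finrank_adjoin_algebraMap] at h2
  -- positivity transfer
  have hpos : ∀ w : Place K F', 0 < w.ord π' ↔ 0 < (w.restrict F).ord π := by
    intro w
    rw [hπ', w.ord_restrict]
    have he : (0 : ℤ) < (w.ramificationIndex F : ℤ) := by
      exact_mod_cast w.ramificationIndex_pos (F := F)
    constructor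
    · intro h
      by_contra hcon
      push Not at hcon
      nlinarith
    · intro h
      exact mul_pos he h
  have hmaps : ∀ w ∈ Z', w.restrict F ∈ Z := fun w hw =>
    (hZmem _).mpr ((hpos w).mp ((hZ'mem w).mp hw))
  have h3 : ∑ w ∈ Z', w.ord π'
      = ∑ v' ∈ Z, v'.ord π * ((∑ w ∈ v'.fiber F', w.ramificationIndex F : ℕ) : ℤ) := by
    rw [← Finset.sum_fiberwise_of_maps_to hmaps]
    refine Finset.sum_congr rfl fun v' hv' => ?_
    have hfilter : Z'.filter (fun w => w.restrict F = v') = v'.fiber F' := by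
      ext w
      simp only [Finset.mem_filter, Place.mem_fiber]
      constructor
      · exact fun h => h.2
      · intro h
        refine ⟨(hZ'mem w).mpr ((hpos w).mpr ?_), h⟩
        rw [h]
        exact (hZmem v').mp hv'
    rw [hfilter]
    push_cast
    rw [Finset.mul_sum]
    refine Finset.sum_congr rfl fun w hw => ?_
    rw [hπ', w.ord_restrict, Place.mem_fiber.mp hw]
    ring
  -- compare
  have h4 : ∑ v' ∈ Z, v'.ord π * ((∑ w ∈ v'.fiber F', w.ramificationIndex F : ℕ) : ℤ)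
      = ∑ v' ∈ Z, v'.ord π * (Module.finrank F F' : ℤ) := by
    rw [← h3, h2, ← Finset.sum_mul, h1]
    push_cast
    ring
  have hle : ∀ v' ∈ Z, v'.ord π * ((∑ w ∈ v'.fiber F', w.ramificationIndex F : ℕ) : ℤ)
      ≤ v'.ord π * (Module.finrank F F' : ℤ) := by
    intro v' hv'
    have h5 : (0 : ℤ) ≤ v'.ord π := ((hZmem v').mp hv').le
    have h6 : ((∑ w ∈ v'.fiber F', w.ramificationIndex F : ℕ) : ℤ) ≤ (Module.finrank F F' : ℤ) := by
      exact_mod_cast sum_ramificationIndex_le_finrank (F' := F') v'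
    exact mul_le_mul_of_nonneg_left h6 h5
  have h7 := (Finset.sum_eq_sum_iff_of_le hle).mp h4 v ((hZmem v).mpr (by rw [hπ1]; norm_num))
  rw [hπ1, one_mul, one_mul] at h7
  exact_mod_cast h7

end Identity

end Fermat.Agent.S29.H812

end
end
-- ===== PACK-END S29/H812/FundId.lean

-- ===== PACK-BEGIN S18/H24/GaussC.lean
section



/-!
# S18 / MOD-ASM, piece G-V (helper24) — part C: `V_total`, `gauss`, `x ∈ V`

* `gaussForm_of_mem_Fc` : every `f ∈ Fc` is `0` or has a Gauss normal form `w^n U₁/U₂`;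
* `field_V_total`       : field `V_total` of `Alg.GoodModel`;
* `field_gauss`         : field `gauss` for every coordinate with an integral expansion `q⁻¹ + …`;
* `coord_mem_Vc`        : the coordinate lies in `V`.
-/

set_option autoImplicit false

noncomputable section

namespace Fermat.Agent.S18.H24

open ModularCurve AlgebraicCurve HahnSeries Fermat.Agent.S18 Fermat.Agent.S18.Mod
open Fermat.Agent.S18.H456

variable {M : ℕ} {A : ValuationSubring Qb} {E : IntermediateField ℚ Qb}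

theorem residue_ne_zero_of_inv_mem {c : A} (hc0 : (c : Qb) ≠ 0) (hc : (c : Qb)⁻¹ ∈ A) :
    IsLocalRing.residue A c ≠ 0 := by
  intro h
  have hm := (IsLocalRing.residue_eq_zero_iff _).mp h
  rcases (mem_maximalIdeal_iff _).mp hm with h0 | hni
  · exact hc0 h0
  · exact hni hc

/-- Gauss form of a nonzero constant of `E`. -/
theorem gaussForm_cst {w₀ : Qb} (hw : _root_.Fermat.Agent.S18.H24.IsUnif A E w₀) {c : Qb} (hcE : c ∈ E) (hc0 : c ≠ 0) :
    GaussForm M A E w₀ (cst M c) := by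
  have hw0 := hw.ne_zero
  have hC := C_ne_zero' hw0
  -- the case `c ∈ A`
  have key : ∀ c : Qb, c ∈ E → c ≠ 0 → c ∈ A → GaussForm M A E w₀ (cst M c) := by
    intro c hcE hc0 hcA
    obtain ⟨k, hk1, hk2⟩ := hw.discrete c hcA hcE hc0
    have hu0 : c * (w₀⁻¹) ^ k ≠ 0 := mul_ne_zero hc0 (pow_ne_zero _ (inv_ne_zero hw0))
    have huE : c * (w₀⁻¹) ^ k ∈ E := mul_mem hcE (pow_mem (inv_mem hw.mem_E) _)
    refine ⟨k, HahnSeries.C (⟨c * (w₀⁻¹) ^ k, hk1⟩ : A), 1, isIntE_C huE, isIntE_one, ?_, ?_, ?_⟩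
    · rw [red_C]
      intro h
      exact residue_ne_zero_of_inv_mem (c := ⟨c * (w₀⁻¹) ^ k, hk1⟩) hu0 hk2
        (HahnSeries.C_injective (by rw [h, _root_.map_zero]))
    · rw [_root_.map_one]; exact one_ne_zero
    · rw [_root_.map_one, mul_one, val_cst', inc_C, zpow_natCast, ← map_pow, ← _root_.map_mul]
      congr 1
      show c = w₀ ^ k * (c * (w₀⁻¹) ^ k)
      rw [inv_pow]
      field_simp
  rcases A.mem_or_inv_mem c with hcA | hcA
  · exact key c hcE hc0 hcA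
  · have := (key c⁻¹ (inv_mem hcE) (inv_ne_zero hc0) hcA).inv hw0
    rwa [← map_inv₀, inv_inv] at this

theorem jqNModC_ne_zero (K : Type*) [CommRing K] [Nontrivial K] (d : ℕ) [NeZero d] :
    jqNModC K d ≠ 0 := by
  intro h
  have : jqModC K = 0 := qExpand_injective d (by rw [_root_.map_zero]; exact h)
  exact jqModC_ne_zero_of_nontrivial K this

theorem val_jd (d : ℕ) [NeZero d] (hd : d ∣ M) :
    ((jd M d hd : Om M) : LaurentSeries Qb) = inc A (jqNModC A d) := by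
  show coeffEmb Qb (qExpand ℚ d jq) = _
  have h1 : coeffEmb Qb (qExpand ℚ d jq) = jqNModC Qb d := coeffMap_jqNModC (algebraMap ℚ Qb) d
  rw [h1]
  exact (coeffMap_jqNModC A.subtype d).symm

theorem jd_mem_Fc (d : ℕ) [NeZero d] (hd : d ∣ M) : jd M d hd ∈ Fc M E :=
  Subfield.subset_closure (Or.inr ⟨d, inferInstance, hd, rfl⟩)

theorem gaussForm_jd (w₀ : Qb) (d : ℕ) [NeZero d] (hd : d ∣ M) :
    GaussForm M A E w₀ (jd M d hd) := by
  refine ⟨0, jqNModC A d, 1, ?_, isIntE_one, ?_, ?_, ?_⟩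
  · exact (isIntE_iff M A E).mpr ⟨jd M d hd, jd_mem_Fc d hd, val_jd d hd⟩
  · show coeffMap (IsLocalRing.residue A) (jqNModC A d) ≠ 0
    rw [coeffMap_jqNModC]
    exact jqNModC_ne_zero _ d
  · rw [_root_.map_one]; exact one_ne_zero
  · rw [_root_.map_one, mul_one, zpow_zero, one_mul, val_jd d hd]

theorem gaussForm_one (w₀ : Qb) : GaussForm M A E w₀ 1 := by
  refine ⟨0, 1, 1, isIntE_one, isIntE_one, ?_, ?_, ?_⟩
  · rw [_root_.map_one]; exact one_ne_zero
  · rw [_root_.map_one]; exact one_ne_zero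
  · rw [_root_.map_one, mul_one, zpow_zero, one_mul]; rfl

/-- **Gauss normal form.** -/
theorem gaussForm_of_mem_Fc {w₀ : Qb} (hw : _root_.Fermat.Agent.S18.H24.IsUnif A E w₀) {f : Om M} (hf : f ∈ Fc M E) :
    f = 0 ∨ GaussForm M A E w₀ f := by
  have hw0 := hw.ne_zero
  unfold Fc at hf
  induction hf using Subfield.closure_induction with
  | mem y hy =>
    rcases hy with hy | hy
    · obtain ⟨c, hc, rfl⟩ := (mem_Ec_iff M E).1 hy
      by_cases hc0 : c = 0
      · left; rw [hc0]; exact _root_.map_zero _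
      · right; exact gaussForm_cst hw hc hc0
    · obtain ⟨d, hd, hdM, rfl⟩ := hy
      right
      exact gaussForm_jd w₀ d hdM
  | one => right; exact gaussForm_one w₀
  | add x y _ _ hx hy =>
    rcases hx with rfl | hx
    · rw [zero_add]; exact hy
    · rcases hy with rfl | hy
      · rw [add_zero]; exact Or.inr hx
      · exact hx.add hw hy
  | neg x _ hx =>
    rcases hx with rfl | hx
    · left; rw [neg_zero]
    · right; exact hx.neg
  | inv x _ hx =>
    rcases hx with rfl | hx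
    · left; rw [inv_zero]
    · right; exact hx.inv hw0
  | mul x y _ _ hx hy =>
    rcases hx with rfl | hx
    · left; rw [zero_mul]
    · rcases hy with rfl | hy
      · left; rw [mul_zero]
      · right; exact hx.mul hw0 hy

/-- A Gauss form with `n ≥ 0` lies in `V`. -/
theorem GaussForm.mem_Vc_of_nonneg {w₀ : Qb} (hw : _root_.Fermat.Agent.S18.H24.IsUnif A E w₀) {f : Om M} (hfF : f ∈ Fc M E)
    {n : ℕ} {U₁ U₂ : LaurentSeries A} (h₁ : IsIntE M A E U₁) (h₂ : IsIntE M A E U₂)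
    (hr₂ : red A U₂ ≠ 0)
    (heq : (f : LaurentSeries Qb) * inc A U₂ = HahnSeries.C w₀ ^ n * inc A U₁) :
    f ∈ Vc M A E := by
  refine ⟨hfF, HahnSeries.C (⟨w₀, hw.mem_A⟩ ^ n : A) * U₁, U₂, IsIntE.mul (isIntE_C ?_) h₁, h₂,
    hr₂, ?_⟩
  · show ((⟨w₀, hw.mem_A⟩ ^ n : A) : Qb) ∈ E
    rw [SubmonoidClass.coe_pow]
    exact pow_mem hw.mem_E n
  · rw [heq, _root_.map_mul, inc_C, SubmonoidClass.coe_pow, map_pow]

variable (M) in
/-- field `V_total`. -/
theorem field_V_total {w₀ : Qb} (hw : _root_.Fermat.Agent.S18.H24.IsUnif A E w₀) :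
    ∀ f ∈ Fc M E, f ∈ Vc M A E ∨ f⁻¹ ∈ Vc M A E := by
  intro f hf
  rcases gaussForm_of_mem_Fc hw hf with rfl | hG
  · left; exact zero_mem _
  · have hw0 := hw.ne_zero
    obtain ⟨n, U₁, U₂, h₁, h₂, hr₁, hr₂, heq⟩ := hG
    rcases le_total 0 n with hn | hn
    · left
      obtain ⟨d, rfl⟩ := Int.eq_ofNat_of_zero_le hn
      rw [zpow_natCast] at heq
      exact GaussForm.mem_Vc_of_nonneg hw hf h₁ h₂ hr₂ heq
    · right
      have hG' : GaussForm M A E w₀ f := ⟨n, U₁, U₂, h₁, h₂, hr₁, hr₂, heq⟩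
      obtain ⟨n', W₁, W₂, k₁, k₂, kr₁, kr₂, heq'⟩ := hG'.inv hw0
      -- use the explicit inverse form instead
      have hf0 := hG'.ne_zero hw0
      have hfv0 : (f : LaurentSeries Qb) ≠ 0 := fun h => hf0 (val_eq_zero_iff.mp h)
      have hC := C_ne_zero' hw0
      obtain ⟨d, hd⟩ : ∃ d : ℕ, -n = d := Int.eq_ofNat_of_zero_le (by omega)
      have heq2 : ((f⁻¹ : Om M) : LaurentSeries Qb) * inc A U₁ = HahnSeries.C w₀ ^ d * inc A U₂ := by
        rw [val_inv]
        have hCn : (HahnSeries.C w₀ : LaurentSeries Qb) ^ n ≠ 0 := zpow_ne_zero n hC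
        have h1 : inc A U₁ = (HahnSeries.C w₀ ^ n)⁻¹ * ((f : LaurentSeries Qb) * inc A U₂) := by
          rw [heq, ← mul_assoc, inv_mul_cancel₀ hCn, one_mul]
        rw [h1, ← zpow_neg, hd, zpow_natCast]
        field_simp
      exact GaussForm.mem_Vc_of_nonneg hw (inv_mem hf) h₂ h₁ hr₁ heq2

/-! ### The coordinate and the field `gauss` -/

section Coord

variable [NeZero M]

/-- The integral series of a coordinate, over `A`. -/
theorem exists_series_of_hasIntExp {x : Om M} (hx : HasIntExp M x) :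
    ∃ XA : LaurentSeries A, IsIntE M A E XA ∧ inc A XA = (x : LaurentSeries Qb) ∧
      (red A XA).order ≠ 0 := by
  have hxF := mem_Fc_of_hasIntExp M E hx
  obtain ⟨X, h1, h2, h3, -⟩ := hx
  refine ⟨coeffMap (Int.castRingHom A) X, ?_, ?_, ?_⟩
  · refine (isIntE_iff M A E).mpr ⟨x, hxF, ?_⟩
    rw [h3]
    show _ = coeffMap A.subtype (coeffMap (Int.castRingHom A) X)
    rw [coeffMap_coeffMap]
    exact coeffMap_congr (RingHom.ext_int _ _) X
  · rw [h3]
    show coeffMap A.subtype (coeffMap (Int.castRingHom A) X) = _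
    rw [coeffMap_coeffMap]
    exact coeffMap_congr (RingHom.ext_int _ _) X
  · show (coeffMap (IsLocalRing.residue A) (coeffMap (Int.castRingHom A) X)).order ≠ 0
    rw [coeffMap_coeffMap]
    set Xk := coeffMap ((IsLocalRing.residue A).comp (Int.castRingHom A)) X with hXk
    have hc1 : Xk.coeff (-1) = 1 := by
      rw [hXk, coeffMap_coeff, h1, _root_.map_one]
    have hne : Xk ≠ 0 := by
      intro h
      rw [h, HahnSeries.coeff_zero] at hc1
      exact zero_ne_one hc1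
    have hle : Xk.order ≤ -1 := HahnSeries.order_le_of_coeff_ne_zero (by rw [hc1]; exact one_ne_zero)
    omega

theorem coord_mem_Vc {x : Om M} (hx : HasIntExp M x) : x ∈ Vc M A E := by
  obtain ⟨XA, hXA, hinc, -⟩ := exists_series_of_hasIntExp (A := A) (E := E) hx
  exact mem_VcSet_of_isIntE hXA hinc.symm

/-- field `gauss` (for a coordinate with integral expansion `q⁻¹ + …`). -/
theorem field_gauss {x : Om M} (hx : HasIntExp M x) :
    ∀ P : Polynomial (Om M), (∀ i, P.coeff i ∈ Rc M A E) →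
      (∃ i, P.coeff i ≠ 0 ∧ (P.coeff i)⁻¹ ∈ Rc M A E) → (P.eval x)⁻¹ ∈ Vc M A E := by
  intro P hP hunit
  have hxF := mem_Fc_of_hasIntExp M E hx
  obtain ⟨XA, hXA, hinc, hord⟩ := exists_series_of_hasIntExp (A := A) (E := E) hx
  -- lift `P` to `A[X]`
  let φ : A →+* Om M := (algebraMap Qb (Om M)).comp A.subtype
  have hlift : P ∈ Polynomial.lifts φ := by
    rw [Polynomial.lifts_iff_coeff_lifts]
    intro i
    obtain ⟨c, hcA, -, hc⟩ := (mem_Rc_iff M A E).mp (hP i)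
    exact ⟨⟨c, hcA⟩, hc⟩
  obtain ⟨p, hp'⟩ := hlift
  have hp : p.map φ = P := hp'
  have hpcoeff : ∀ i, cst M ((p.coeff i : A) : Qb) = P.coeff i := by
    intro i
    rw [← hp, Polynomial.coeff_map]
    rfl
  have hpE : ∀ i, ((p.coeff i : A) : Qb) ∈ E := by
    intro i
    obtain ⟨c, -, hcE, hc⟩ := (mem_Rc_iff M A E).mp (hP i)
    have : c = ((p.coeff i : A) : Qb) := cst_injective M (by rw [hc, hpcoeff])
    rw [← this]; exact hcE
  -- the series
  set U : LaurentSeries A := p.eval₂ (HahnSeries.C (Γ := ℤ) (R := A)) XA with hU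
  have hUint : IsIntE M A E U := by
    rw [hU, Polynomial.eval₂_eq_sum_range]
    have : ∀ (s : Finset ℕ), IsIntE M A E (∑ i ∈ s, HahnSeries.C (p.coeff i) * XA ^ i) := by
      intro s
      induction s using Finset.induction_on with
      | empty => rw [Finset.sum_empty]; exact isIntE_zero
      | insert a s ha ih =>
        rw [Finset.sum_insert ha]
        exact IsIntE.add (IsIntE.mul (isIntE_C (hpE a)) (IsIntE.pow hXA a)) ih
    exact this _
  have hincU : inc A U = ((P.eval x : Om M) : LaurentSeries Qb) := by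
    rw [hU, Polynomial.hom_eval₂, hinc]
    have h1 : ((P.eval x : Om M) : LaurentSeries Qb) =
        P.eval₂ (modularFunctionFieldBar M).val.toRingHom (x : LaurentSeries Qb) := by
      have := Polynomial.hom_eval₂ P (RingHom.id (Om M)) (modularFunctionFieldBar M).val.toRingHom x
      simp only [Polynomial.eval₂_id, RingHom.comp_id] at this
      exact this
    rw [h1, ← hp, Polynomial.eval₂_map]
    congr 1
    ext c : 1
    show inc A (HahnSeries.C c) = ((cst M (c : Qb) : Om M) : LaurentSeries Qb)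
    rw [inc_C, val_cst']
  have hredU : red A U ≠ 0 := by
    rw [hU, Polynomial.hom_eval₂]
    have hcomp : (red A).comp (HahnSeries.C (Γ := ℤ) (R := A)) =
        (HahnSeries.C (Γ := ℤ) (R := IsLocalRing.ResidueField A)).comp (IsLocalRing.residue A) := by
      ext c : 1
      exact red_C c
    rw [hcomp, ← Polynomial.eval₂_map]
    intro h0
    have hp0 := Fermat.Agent.S28.H806.eq_zero_of_eval₂_C_eq_zero _ hord _ h0
    obtain ⟨i, hi0, hiinv⟩ := hunit
    have hci : (p.map (IsLocalRing.residue A)).coeff i = 0 := by rw [hp0, Polynomial.coeff_zero]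
    rw [Polynomial.coeff_map] at hci
    have hc0 : ((p.coeff i : A) : Qb) ≠ 0 := by
      intro h
      apply hi0
      rw [← hpcoeff, h]
      exact _root_.map_zero _
    have hcinv : ((p.coeff i : A) : Qb)⁻¹ ∈ A := by
      obtain ⟨c, hcA, -, hc⟩ := (mem_Rc_iff M A E).mp hiinv
      rw [← hpcoeff, ← map_inv₀] at hc
      have := cst_injective M hc
      rw [← this]; exact hcA
    exact residue_ne_zero_of_inv_mem hc0 hcinv hci
  have hPx0 : ((P.eval x : Om M) : LaurentSeries Qb) ≠ 0 := by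
    rw [← hincU]; exact red_ne_zero_imp_inc_ne_zero hredU
  refine ⟨inv_mem ?_, 1, U, isIntE_one, hUint, hredU, ?_⟩
  · -- `P.eval x ∈ Fc`
    rw [Polynomial.eval_eq_sum_range]
    refine Subfield.sum_mem _ fun i _ => ?_
    exact mul_mem (field_E_le_F M E (field_R_le M A E (hP i))) (pow_mem hxF i)
  · rw [val_inv, hincU, _root_.map_one, inv_mul_cancel₀ hPx0]

end Coord

end Fermat.Agent.S18.H24

end
end
-- ===== PACK-END S18/H24/GaussC.lean

-- ===== PACK-BEGIN S18/B12/H33/B2Regular.lean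
section












/-!
# S18 b2 (squad S18/S33, assembled by helper33): `b2Regular : B2RegularStatement`, UNCONDITIONAL

This is output O1 of piece b2 of Route K (see `B12/Spec3.lean`): for a finite, torsion-free,
integrally closed `R[X]`-algebra `B` (`R` a DVR-like PID of characteristic 0 with prime `w`) whose
special fibre `B / w B` is a domain and generically separable over `k[X]`, tame at the primes
`X - c` (`c ∈ S`, distinct mod `w`) and unramified (reduced fibre) at all other primes of `R[X]`,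
the ring `B` is regular along `w`:  `H754.RegularAlong (algebraMap R[X] B (C w))`.

Pieces (all sorry-free, standard axioms):
* A0, A2, A2' (regular sequence, local bases, rank)  : helper93  (`B12/H93`; also helper873)
* A3  (discriminant reduction)                        : helper393 (`B12/H393`; also helper203/204)
* A4, A1 (UFD step, polynomial-ring instance)         : helper203 (`B12/H203`; also helper245/693)
* A5  (generic discriminant, tame)                    : helper444 (`B12/H444`, via helper274 P3)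
* A5' (reduction basis)                               : helper203 (`B12/H203`; also helper245/633)
* A8, A9 (integrally closed fibre, Dedekind => regular): helper84 (`B12/H84`, via helper278 P2;
                                                        also helper231/845)
* heart A6' and glue O1                               : helper33  (`B12/H33`)
-/

set_option autoImplicit false

namespace Fermat.Agent.S18.B12.H33

universe u v

/-- **A6' (heart of b2), unconditional.** -/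
theorem b2CoreAbs : B2CoreAbsStatement.{u, v} :=
  b2CoreAbs_of_pieces H93.regSeqAbs H93.localBasis H93.localBasisRank H393.discrRed
    H203.ufdStep H444.genericDiscr H203.redBasisAbs

/-- **O1 = b2, unconditional**: `H754.RegularAlong (C w)` for the chart ring. -/
theorem b2Regular : B2RegularStatement.{u, v} :=
  b2Regular_of_pieces b2CoreAbs H93.regSeqAbs H84.a8 H84.a9 H203.polyInst

end Fermat.Agent.S18.B12.H33

end
-- ===== PACK-END S18/B12/H33/B2Regular.lean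

-- ===== PACK-BEGIN S56/H66/VG1.lean
section




/-!
# S56 / FLAT-O, leaf FO-VG (helper66): valuation inputs, part 1

`A` a valuation subring of `ℚ̄` over the prime `p`, `I` its inertia group, `ζ` a primitive
`p`-th root of unity, `π = ζ - 1`, `I₁ = {σ ∈ I : σ ζ = ζ}`.

* `vg1` : an element of `ℚ̄` fixed by `I₁` has `A`-valuation in `v(π)^ℤ`;
* `vg1_le` : a non-unit of `A` fixed by `I₁` has valuation `≤ v(π)`.
-/

set_option autoImplicit false
set_option linter.style.haveILetI false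

open scoped Pointwise

namespace Fermat.Agent.S56.H66

open Polynomial Fermat.Agent.S14.H894

local notation "Qb" => AlgebraicClosure ℚ
local notation "GQ" => (AlgebraicClosure ℚ ≃ₐ[ℚ] AlgebraicClosure ℚ)

/-- The inertia field `ℚ̄^{I_A}`. -/
noncomputable def inertiaField (A : ValuationSubring Qb) : IntermediateField ℚ Qb :=
  IntermediateField.fixedField (A.inertiaSubgroupIn ℚ)

theorem mem_inertiaField_iff (A : ValuationSubring Qb) (x : Qb) :
    x ∈ inertiaField A ↔ ∀ σ ∈ A.inertiaSubgroupIn ℚ, σ x = x :=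
  IntermediateField.mem_fixedField_iff _ x

section

variable (A : ValuationSubring Qb) (p : ℕ) (hp : p.Prime) (hA : A.LiesOverPrime p)
  (ζ : Qb) (hζ : IsPrimitiveRoot ζ p)

include hp hA in
/-- (VG0) for the inertia field. -/
theorem exists_zpow_valuation_inertiaField (c : Qb) (hc : c ∈ inertiaField A) (hc0 : c ≠ 0) :
    ∃ m : ℤ, A.valuation c = A.valuation (p : Qb) ^ m :=
  vg0 p hp A hA c hc0 ((mem_inertiaField_iff A c).mp hc)

/-- The monic polynomial of degree `p - 1` over the inertia field killing `ζ - 1`. -/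
noncomputable def cycloShiftI : (inertiaField A)[X] :=
  (cyclotomic p (inertiaField A)).comp (X + C 1)

theorem cycloShiftI_monic : (cycloShiftI A p).Monic :=
  (cyclotomic.monic p _).comp_X_add_C 1

include hp in
theorem cycloShiftI_natDegree : (cycloShiftI A p).natDegree = p - 1 := by
  unfold cycloShiftI
  rw [natDegree_comp, natDegree_X_add_C, mul_one, natDegree_cyclotomic, Nat.totient_prime hp]

include hp hζ in
theorem cycloShiftI_aeval : aeval (ζ - 1) (cycloShiftI A p) = 0 := by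
  unfold cycloShiftI
  rw [aeval_comp]
  simp only [_root_.map_add, aeval_X, _root_.map_one, sub_add_cancel]
  rw [aeval_def, ← eval_map, map_cyclotomic]
  exact hζ.isRoot_cyclotomic hp.pos

/-- An element fixed by `I₁` lies in `ℚ̄^I(ζ - 1)`. -/
theorem mem_adjoinField_inertiaField (a : Qb)
    (hfix : ∀ σ ∈ A.inertiaSubgroupIn ℚ, σ ζ = ζ → σ a = a) :
    a ∈ adjoinField (inertiaField A) (ζ - 1) := by
  haveI : Algebra.IsAlgebraic ℚ Qb := AlgebraicClosure.isAlgebraic ℚ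
  haveI : IsAlgClosure ℚ Qb := ⟨inferInstance, inferInstance⟩
  haveI : Normal ℚ Qb := IsAlgClosure.normal ℚ Qb
  haveI : IsGalois ℚ Qb := isGalois_iff.mpr ⟨inferInstance, inferInstance⟩
  rw [← InfiniteGalois.fixedField_fixingSubgroup (adjoinField (inertiaField A) (ζ - 1)),
    IntermediateField.mem_fixedField_iff]
  intro σ hσ
  rw [mem_fixingSubgroup_adjoinField_iff] at hσ
  obtain ⟨hK, hπ⟩ := hσ
  have hI : σ ∈ A.inertiaSubgroupIn ℚ :=
    Fermat.Agent.A2.IF.H9.mem_inertiaSubgroupIn_of_fixes_fixedField A σ hK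
  refine hfix σ hI ?_
  have := congrArg (· + 1) hπ
  simpa using this

include hp hA hζ in
theorem cycloI_indep : ∀ k : ℕ, 0 < k → k < (cycloShiftI A p).natDegree →
    ∀ c ∈ inertiaField A, A.valuation (ζ - 1) ^ k ≠ A.valuation c := by
  intro k hk0 hk c hc heq
  rw [cycloShiftI_natDegree A p hp] at hk
  have hπ0 := valuation_zeta_sub_one_ne_zero A p hp ζ hζ
  have hπ1 := valuation_zeta_sub_one_lt_one A p hp hA ζ hζ
  by_cases hq : c = 0
  · subst hq
    rw [_root_.map_zero] at heq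
    exact pow_ne_zero k hπ0 heq
  · obtain ⟨m, hm⟩ := exists_zpow_valuation_inertiaField A p hp hA c hc hq
    rw [hm, valuation_natCast_eq_pow A p hp ζ hζ, ← zpow_natCast, ← zpow_natCast,
      ← zpow_mul] at heq
    have h1 := (zpow_right_strictAnti₀ (zero_lt_iff.mpr hπ0) hπ1).injective heq
    have h2 : ((p - 1 : ℕ) : ℤ) ∣ (k : ℤ) := ⟨m, h1⟩
    have h3 : (p - 1) ∣ k := by exact_mod_cast h2
    exact absurd (Nat.le_of_dvd hk0 h3) (not_le.mpr hk)

include hp hA hζ in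
/-- **(VG1)** An element of `ℚ̄` fixed by `I₁ = {σ ∈ I : σ ζ = ζ}` has valuation in
`v(ζ - 1)^ℤ`. -/
theorem vg1 (a : Qb) (ha : a ≠ 0)
    (hfix : ∀ σ ∈ A.inertiaSubgroupIn ℚ, σ ζ = ζ → σ a = a) :
    ∃ n : ℤ, A.valuation a = A.valuation (ζ - 1) ^ n := by
  obtain ⟨c, hc, rfl⟩ := exists_coeffs_of_mem_adjoinField (inertiaField A) (ζ - 1)
    (cycloShiftI A p) (cycloShiftI_monic A p) (cycloShiftI_aeval A p hp ζ hζ) a
    (mem_adjoinField_inertiaField A ζ a hfix)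
  have hindep := cycloI_indep A p hp hA ζ hζ
  have hdist := distinct_terms A (inertiaField A) (ζ - 1) _ hindep c hc (ζ - 1) rfl
  have hv := valuation_sum_eq_sup A.valuation _ _ hdist
  have hne : (Finset.range (cycloShiftI A p).natDegree).Nonempty := by
    rw [cycloShiftI_natDegree A p hp, Finset.nonempty_range_iff]
    have := hp.two_le
    omega
  obtain ⟨i, hi, his⟩ := Finset.exists_mem_eq_sup _ hne
    (fun i => A.valuation (c i * (ζ - 1) ^ i))
  rw [his] at hv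
  rw [hv]
  have hci : c i ≠ 0 := by
    intro h0
    rw [h0, zero_mul, _root_.map_zero] at hv
    exact ha ((_root_.map_eq_zero _).mp hv)
  obtain ⟨m, hm⟩ := exists_zpow_valuation_inertiaField A p hp hA (c i) (hc i) hci
  refine ⟨((p - 1 : ℕ) : ℤ) * m + i, ?_⟩
  have hπ0 := valuation_zeta_sub_one_ne_zero A p hp ζ hζ
  rw [_root_.map_mul, _root_.map_pow, hm, valuation_natCast_eq_pow A p hp ζ hζ,
    zpow_add₀ hπ0, zpow_mul, zpow_natCast, zpow_natCast]

end

end Fermat.Agent.S56.H66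

end
-- ===== PACK-END S56/H66/VG1.lean

-- ===== PACK-BEGIN A2/H609/Node.lean
section


/-!
# Node purity, part 9: an ordinary double point of the special fibre

`R` a noetherian local integrally closed domain, `𝔭₁ 𝔭₂` primes with `𝔭₁ ⊓ 𝔭₂ = (π)`,
`𝔭₁ ⊔ 𝔭₂ = 𝔪` and `R ⧸ 𝔭ᵢ` discrete valuation rings (two smooth branches meeting transversally;
no hypothesis on the thickness of the node, no completion).  If `u ∉ 𝔭₁ ∪ 𝔭₂` satisfies
(H1) `m ∣ ord_𝔓 u` at the horizontal primes and (H2) `u` is a unit times an `m`-th power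
modulo each `𝔭ᵢ`, then `u = ε f ^ m`.  Mathlib only.
-/

set_option autoImplicit false

namespace Fermat.Agent.A2.H609

open Ideal

section NodeData

variable {R : Type*} [CommRing R] [IsLocalRing R]
variable (𝔭 𝔮 : Ideal R) [𝔭.IsPrime] [IsDiscreteValuationRing (R ⧸ 𝔭)]

/-- A uniformiser of the branch `𝔭` lying on the other branch `𝔮`. -/
theorem exists_mem_irreducible_mk (hsup : IsLocalRing.maximalIdeal R ≤ 𝔭 ⊔ 𝔮) :
    ∃ x ∈ 𝔮, Irreducible (Ideal.Quotient.mk 𝔭 x) := by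
  obtain ⟨ϖ, hϖ⟩ := IsDiscreteValuationRing.exists_irreducible (R ⧸ 𝔭)
  obtain ⟨z, rfl⟩ := Ideal.Quotient.mk_surjective ϖ
  have hz : z ∈ IsLocalRing.maximalIdeal R := by
    rw [IsLocalRing.mem_maximalIdeal]
    intro h
    exact hϖ.not_isUnit (h.map (Ideal.Quotient.mk 𝔭))
  obtain ⟨z₁, hz₁, z₂, hz₂, rfl⟩ := Submodule.mem_sup.mp (hsup hz)
  refine ⟨z₂, hz₂, ?_⟩
  have h : Ideal.Quotient.mk 𝔭 (z₁ + z₂) = Ideal.Quotient.mk 𝔭 z₂ := by
    rw [Ideal.Quotient.eq, add_sub_cancel_right]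
    exact hz₁
  rwa [h] at hϖ

/-- The other branch is generated by the uniformiser and `𝔭 ⊓ 𝔮`. -/
theorem le_span_sup_inf {x : R} (hx𝔮 : x ∈ 𝔮) (hx : Irreducible (Ideal.Quotient.mk 𝔭 x))
    (h𝔮 : 𝔮 ≤ IsLocalRing.maximalIdeal R) : 𝔮 ≤ Ideal.span {x} ⊔ (𝔭 ⊓ 𝔮) := by
  intro z hz
  obtain ⟨g, hg⟩ := exists_sub_mul_mem_of_mem_maximalIdeal 𝔭 hx (h𝔮 hz)
  have h : z = x * g + (z - x * g) := by ring
  rw [h]
  refine Ideal.add_mem _
    (Ideal.mem_sup_left (Ideal.mem_span_singleton.mpr (Dvd.intro g rfl)))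
    (Ideal.mem_sup_right ⟨hg, ?_⟩)
  exact 𝔮.sub_mem hz (𝔮.mul_mem_right _ hx𝔮)

end NodeData

variable {R : Type*} [CommRing R] [IsDomain R] [IsIntegrallyClosed R] [IsNoetherianRing R]
  [IsLocalRing R]

/-- **Purity at an ordinary double point of the special fibre.** -/
theorem exists_unit_mul_pow_of_node {u π : R} {m : ℕ} (hm : m ≠ 0)
    (𝔭₁ 𝔭₂ : Ideal R) [𝔭₁.IsPrime] [𝔭₂.IsPrime]
    [IsDiscreteValuationRing (R ⧸ 𝔭₁)] [IsDiscreteValuationRing (R ⧸ 𝔭₂)]
    (hinf : 𝔭₁ ⊓ 𝔭₂ = Ideal.span {π}) (hsup : 𝔭₁ ⊔ 𝔭₂ = IsLocalRing.maximalIdeal R)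
    (hu₁ : u ∉ 𝔭₁) (hu₂ : u ∉ 𝔭₂)
    (H1 : ∀ 𝔓 : Ideal R, 𝔓.IsPrime → u ∈ 𝔓 → π ∉ 𝔓 → ∃ f r : R, r ∉ 𝔓 ∧ f ^ m = u * r)
    (H2₁ : ∃ v : R ⧸ 𝔭₁, Associated (v ^ m) (Ideal.Quotient.mk 𝔭₁ u))
    (H2₂ : ∃ v : R ⧸ 𝔭₂, Associated (v ^ m) (Ideal.Quotient.mk 𝔭₂ u)) :
    ∃ (f : R) (ε : Rˣ), u = ε * f ^ m := by
  have h𝔭₁𝔪 : 𝔭₁ ≤ IsLocalRing.maximalIdeal R := hsup ▸ le_sup_left
  have h𝔭₂𝔪 : 𝔭₂ ≤ IsLocalRing.maximalIdeal R := hsup ▸ le_sup_right
  have hπ₁ : π ∈ 𝔭₁ :=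
    (inf_le_left : 𝔭₁ ⊓ 𝔭₂ ≤ 𝔭₁) (hinf ▸ Ideal.mem_span_singleton_self π)
  have hπ₂ : π ∈ 𝔭₂ :=
    (inf_le_right : 𝔭₁ ⊓ 𝔭₂ ≤ 𝔭₂) (hinf ▸ Ideal.mem_span_singleton_self π)
  have hmem_inf : ∀ z : R, z ∈ 𝔭₁ → z ∈ 𝔭₂ → ∃ c : R, z = c * π := by
    intro z h1 h2
    have h : z ∈ 𝔭₁ ⊓ 𝔭₂ := ⟨h1, h2⟩
    rw [hinf] at h
    exact Ideal.mem_span_singleton'.mp h |>.imp fun c hc => hc.symm
  have hu0 : u ≠ 0 := by
    rintro rfl
    exact hu₁ 𝔭₁.zero_mem
  -- uniformisers of the two branches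
  obtain ⟨x, hx₂, hx⟩ := exists_mem_irreducible_mk 𝔭₁ 𝔭₂ hsup.ge
  obtain ⟨y, hy₁, hy⟩ := exists_mem_irreducible_mk 𝔭₂ 𝔭₁ (by rw [sup_comm]; exact hsup.ge)
  have hx₁ : x ∉ 𝔭₁ := fun h => hx.ne_zero (Ideal.Quotient.eq_zero_iff_mem.mpr h)
  have hy₂ : y ∉ 𝔭₂ := fun h => hy.ne_zero (Ideal.Quotient.eq_zero_iff_mem.mpr h)
  have h𝔭₂ : 𝔭₂ ≤ Ideal.span {x} ⊔ Ideal.span {π} := by
    rw [← hinf]
    exact le_span_sup_inf 𝔭₁ 𝔭₂ hx₂ hx h𝔭₂𝔪
  have h𝔭₁ : 𝔭₁ ≤ Ideal.span {y} ⊔ Ideal.span {π} := by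
    rw [← hinf, inf_comm]
    exact le_span_sup_inf 𝔭₂ 𝔭₁ hy₁ hy h𝔭₁𝔪
  have h𝔭₂' : 𝔭₂ = Ideal.span {x} ⊔ Ideal.span {π} :=
    le_antisymm h𝔭₂ (sup_le ((Ideal.span_singleton_le_iff_mem _).mpr hx₂)
      ((Ideal.span_singleton_le_iff_mem _).mpr hπ₂))
  have hπ0 : π ≠ 0 := by
    rintro rfl
    obtain ⟨c, hc⟩ := hmem_inf (x * y) (𝔭₁.mul_mem_left _ hy₁) (𝔭₂.mul_mem_right _ hx₂)
    rw [mul_zero] at hc
    rcases mul_eq_zero.mp hc with h | h
    · exact hx₁ (h ▸ 𝔭₁.zero_mem)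
    · exact hy₂ (h ▸ 𝔭₂.zero_mem)
  obtain ⟨a₁, ε₁, hε₁⟩ := exists_mk_eq_unit_mul_pow 𝔭₁ hx hm hu₁ H2₁
  obtain ⟨a₂, ε₂, hε₂⟩ := exists_mk_eq_unit_mul_pow 𝔭₂ hy hm hu₂ H2₂
  have hreg : ∀ z : R, π ∣ u * z → π ∣ z := by
    intro z hz
    have h1 : u * z ∈ 𝔭₁ ⊓ 𝔭₂ := by
      rw [hinf]
      exact Ideal.mem_span_singleton.mpr hz
    have h2 : z ∈ 𝔭₁ :=
      (Ideal.IsPrime.mem_or_mem inferInstance h1.1).resolve_left hu₁
    have h3 : z ∈ 𝔭₂ :=
      (Ideal.IsPrime.mem_or_mem inferInstance h1.2).resolve_left hu₂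
    obtain ⟨c, hc⟩ := hmem_inf z h2 h3
    exact ⟨c, by rw [hc, _root_.mul_comm]⟩
  have huπ : ∀ 𝔮 : Ideal R, 𝔮.IsPrime → u ∈ 𝔮 → π ∈ 𝔮 →
      𝔮 = IsLocalRing.maximalIdeal R := by
    intro 𝔮 h𝔮 hu𝔮 hπ𝔮
    have hle : 𝔭₁ ⊓ 𝔭₂ ≤ 𝔮 := by
      rw [hinf, Ideal.span_singleton_le_iff_mem]
      exact hπ𝔮
    refine le_antisymm (IsLocalRing.le_maximalIdeal h𝔮.ne_top) ?_
    rw [← hsup]
    rcases h𝔮.inf_le.mp hle with h | h
    · have hx𝔮 : x ∈ 𝔮 := mem_of_le_of_mk_eq 𝔭₁ hε₁ h𝔮 h hu𝔮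
      refine sup_le h (h𝔭₂.trans (sup_le ?_ ?_))
      · exact (Ideal.span_singleton_le_iff_mem _).mpr hx𝔮
      · exact (Ideal.span_singleton_le_iff_mem _).mpr hπ𝔮
    · have hy𝔮 : y ∈ 𝔮 := mem_of_le_of_mk_eq 𝔭₂ hε₂ h𝔮 h hu𝔮
      refine sup_le (h𝔭₁.trans (sup_le ?_ ?_)) h
      · exact (Ideal.span_singleton_le_iff_mem _).mpr hy𝔮
      · exact (Ideal.span_singleton_le_iff_mem _).mpr hπ𝔮
  -- the lengths of the ideals `J(b, c) = (x ^ b, y ^ c, π)`, `b, c ≥ 1`
  have hlen : ∀ k c : ℕ, relLen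
      (Ideal.span {x ^ (1 + k)} ⊔ (Ideal.span {y ^ (c + 1)} ⊔ Ideal.span {π}))
      (⊤ : Ideal R) = ((k + (c + 1) : ℕ) : ℕ∞) := by
    intro k c
    have h𝔞 : Ideal.span {y ^ (c + 1)} ⊔ Ideal.span {π} ≤ 𝔭₁ :=
      sup_le ((Ideal.span_singleton_le_iff_mem _).mpr (𝔭₁.pow_mem_of_mem hy₁ _ (by omega)))
        ((Ideal.span_singleton_le_iff_mem _).mpr hπ₁)
    have hchain := relLen_pow_chain 𝔭₁ hx _ h𝔞 1 ?_ k
    · have hbase : Ideal.span {x ^ 1} ⊔ (Ideal.span {y ^ (c + 1)} ⊔ Ideal.span {π}) =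
          Ideal.span {y ^ (c + 1)} ⊔ 𝔭₂ := by
        rw [pow_one, h𝔭₂', sup_left_comm]
      have hmono : Ideal.span {x ^ (1 + k)} ⊔ (Ideal.span {y ^ (c + 1)} ⊔ Ideal.span {π}) ≤
          Ideal.span {x ^ 1} ⊔ (Ideal.span {y ^ (c + 1)} ⊔ Ideal.span {π}) := by
        refine sup_le_sup_right ?_ _
        rw [Ideal.span_singleton_le_span_singleton]
        exact pow_dvd_pow x (by omega)
      rw [relLen_add hmono le_top, hchain, hbase, relLen_branch_pow 𝔭₂ hy (c + 1)]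
      push_cast
      rfl
    · intro n hn s hs
      obtain ⟨g, hg⟩ := exists_sub_mul_mem_of_mem_maximalIdeal 𝔭₁ hx hs
      obtain ⟨d, hd⟩ := hmem_inf ((s - x * g) * x ^ n) (𝔭₁.mul_mem_right _ hg)
        (𝔭₂.mul_mem_left _ (𝔭₂.pow_mem_of_mem hx₂ _ (by omega)))
      have h : s * x ^ n = x ^ (n + 1) * g + d * π := by
        rw [← hd]
        ring
      rw [h]
      exact Ideal.add_mem _
        (Ideal.mem_sup_left (Ideal.mem_span_singleton.mpr (Dvd.intro g rfl)))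
        (Ideal.mem_sup_right (Ideal.mem_sup_right
          (Ideal.mem_span_singleton.mpr (Dvd.intro_left d rfl))))
  refine exists_unit_mul_pow_of_relLen hm hu0 hπ0 (h𝔭₁𝔪 hπ₁) hreg huπ H1
    (Ideal.span {x ^ (1 + a₁)} ⊔ (Ideal.span {y ^ (a₂ + 1)} ⊔ Ideal.span {π}))
    (Ideal.mem_sup_right (Ideal.mem_sup_right (Ideal.mem_span_singleton_self π))) ?_
    (a₁ + (a₂ + 1)) (hlen a₁ a₂).ge ?_
  · -- every `f` with `f ^ m = u r`, `r ∈ 𝔪`, lies in `J(a₁ + 1, a₂ + 1)`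
    intro f r hf hr
    obtain ⟨g₁, hg₁⟩ := exists_sub_pow_succ_mul_mem 𝔭₁ hx hε₁ hf hr
    obtain ⟨g₂, hg₂⟩ := exists_sub_pow_succ_mul_mem 𝔭₂ hy hε₂ hf hr
    obtain ⟨d, hd⟩ := hmem_inf (f - x ^ (a₁ + 1) * g₁ - y ^ (a₂ + 1) * g₂)
      (𝔭₁.sub_mem hg₁ (𝔭₁.mul_mem_right _ (𝔭₁.pow_mem_of_mem hy₁ _ (by omega))))
      (by
        have h : f - x ^ (a₁ + 1) * g₁ - y ^ (a₂ + 1) * g₂ =
            (f - y ^ (a₂ + 1) * g₂) - x ^ (a₁ + 1) * g₁ := by ring
        rw [h]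
        exact 𝔭₂.sub_mem hg₂ (𝔭₂.mul_mem_right _ (𝔭₂.pow_mem_of_mem hx₂ _ (by omega))))
    have h : f = x ^ (1 + a₁) * g₁ + (y ^ (a₂ + 1) * g₂ + d * π) := by
      rw [← hd, add_comm 1 a₁]
      ring
    rw [h]
    exact Ideal.add_mem _
      (Ideal.mem_sup_left (Ideal.mem_span_singleton.mpr (Dvd.intro g₁ rfl)))
      (Ideal.mem_sup_right (Ideal.add_mem _
        (Ideal.mem_sup_left (Ideal.mem_span_singleton.mpr (Dvd.intro g₂ rfl)))
        (Ideal.mem_sup_right (Ideal.mem_span_singleton.mpr (Dvd.intro_left d rfl)))))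
  · -- `ℓ(R/(u, π)) ≤ m (a₁ + a₂)`
    set J'' : Ideal R :=
      Ideal.span {x ^ (1 + m * a₁)} ⊔ (Ideal.span {y ^ (m * a₂ + 1)} ⊔ Ideal.span {π})
      with hJ''
    set T : Ideal R := IsLocalRing.maximalIdeal R * Ideal.span {u} ⊔ Ideal.span {π} with hT
    have hxT : x ^ (1 + m * a₁) ∈ T := by
      obtain ⟨e, he⟩ := exists_pow_sub_mul_mem 𝔭₁ hε₁
      obtain ⟨d, hd⟩ := hmem_inf (x * (x ^ (m * a₁) - u * e)) (𝔭₁.mul_mem_left _ he)
        (𝔭₂.mul_mem_right _ hx₂)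
      have h : x ^ (1 + m * a₁) = (x * e) * u + d * π := by
        rw [← hd]
        ring
      rw [h]
      exact Ideal.add_mem _
        (Ideal.mem_sup_left (Ideal.mul_mem_mul (Ideal.mul_mem_right _ _ (h𝔭₂𝔪 hx₂))
          (Ideal.mem_span_singleton_self u)))
        (Ideal.mem_sup_right (Ideal.mem_span_singleton.mpr (Dvd.intro_left d rfl)))
    have hyT : y ^ (m * a₂ + 1) ∈ T := by
      obtain ⟨e, he⟩ := exists_pow_sub_mul_mem 𝔭₂ hε₂
      obtain ⟨d, hd⟩ := hmem_inf (y * (y ^ (m * a₂) - u * e)) (𝔭₁.mul_mem_right _ hy₁)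
        (𝔭₂.mul_mem_left _ he)
      have h : y ^ (m * a₂ + 1) = (y * e) * u + d * π := by
        rw [← hd]
        ring
      rw [h]
      exact Ideal.add_mem _
        (Ideal.mem_sup_left (Ideal.mul_mem_mul (Ideal.mul_mem_right _ _ (h𝔭₁𝔪 hy₁))
          (Ideal.mem_span_singleton_self u)))
        (Ideal.mem_sup_right (Ideal.mem_span_singleton.mpr (Dvd.intro_left d rfl)))
    have hJT : J'' ≤ T :=
      sup_le ((Ideal.span_singleton_le_iff_mem _).mpr hxT)
        (sup_le ((Ideal.span_singleton_le_iff_mem _).mpr hyT) le_sup_right)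
    have huT : u ∉ T := by
      intro h
      obtain ⟨t, ht, p, hp, htp⟩ := Submodule.mem_sup.mp h
      obtain ⟨s, hs, rfl⟩ := Ideal.mem_mul_span_singleton.mp ht
      obtain ⟨c, rfl⟩ := Ideal.mem_span_singleton'.mp hp
      have h1 : u * (1 - s) ∈ 𝔭₁ := by
        have : u * (1 - s) = c * π := by
          linear_combination -htp
        rw [this]
        exact 𝔭₁.mul_mem_left _ hπ₁
      rcases Ideal.IsPrime.mem_or_mem inferInstance h1 with h2 | h2
      · exact hu₁ h2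
      · have h3 : (1 : R) ∈ IsLocalRing.maximalIdeal R := by
          have : (1 : R) = (1 - s) + s := by ring
          rw [this]
          exact Ideal.add_mem _ (h𝔭₁𝔪 h2) hs
        exact (Ideal.ne_top_iff_one _).mp (IsLocalRing.maximalIdeal.isMaximal R).ne_top h3
    have hTle : T ≤ Ideal.span {u, π} := by
      refine sup_le ?_ ?_
      · refine Ideal.mul_le_right.trans ?_
        rw [Ideal.span_singleton_le_iff_mem]
        exact Ideal.subset_span (by simp)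
      · rw [Ideal.span_singleton_le_iff_mem]
        exact Ideal.subset_span (by simp)
    have h1 : 1 ≤ relLen J'' (Ideal.span {u, π}) :=
      one_le_relLen_of_notMem (Ideal.subset_span (by simp)) (fun h => huT (hJT h))
    have h2 : relLen J'' (⊤ : Ideal R) = ((m * a₁ + (m * a₂ + 1) : ℕ) : ℕ∞) := hlen _ _
    rw [relLen_add (hJT.trans hTle) le_top] at h2
    have h3 : relLen (Ideal.span {u, π}) (⊤ : Ideal R) ≠ ⊤ := by
      intro h
      rw [h, add_top] at h2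
      exact ENat.top_ne_natCast _ h2
    have h4 : relLen J'' (Ideal.span {u, π}) ≠ ⊤ := by
      intro h
      rw [h, top_add] at h2
      exact ENat.top_ne_natCast _ h2
    lift relLen (Ideal.span {u, π}) (⊤ : Ideal R) to ℕ using h3 with L
    lift relLen J'' (Ideal.span {u, π}) to ℕ using h4 with L'
    have h5 : 1 ≤ L' := by exact_mod_cast h1
    have h6 : L' + L = m * a₁ + (m * a₂ + 1) := by exact_mod_cast h2
    have h7 : L < m * (a₁ + (a₂ + 1)) := by
      have : 0 < m := Nat.pos_of_ne_zero hm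
      nlinarith
    exact_mod_cast h7

end Fermat.Agent.A2.H609

end
-- ===== PACK-END A2/H609/Node.lean

-- ===== PACK-BEGIN A2/H609/MinPrimes.lean
section


/-!
# Node purity, part 10: (H1) at the minimal primes of `(u)` only

The theorems `exists_unit_mul_pow_of_relLen`, `exists_unit_mul_pow_of_smooth`,
`exists_unit_mul_pow_of_node` with the hypothesis (H1) required only at the minimal primes `𝔓`
of `(u)` with `π ∉ 𝔓` (these are the primes at which `R_𝔓` is a discrete valuation ring, so that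
(H1) follows from `m ∣ ord_𝔓 u`).  Mathlib only.
-/

set_option autoImplicit false

namespace Fermat.Agent.A2.H609

open Ideal

variable {R : Type*} [CommRing R] [IsDomain R] [IsIntegrallyClosed R] [IsNoetherianRing R]
  [IsLocalRing R]

omit [IsIntegrallyClosed R] in
/-- If `𝔪` is the only prime containing `u` and `π`, every prime `𝔓 ∋ u` with `π ∉ 𝔓` is a
minimal prime of `(u)`. -/
theorem mem_minimalPrimes_of_mem_of_notMem {u π : R} (hu0 : u ≠ 0)
    (hπ : π ∈ IsLocalRing.maximalIdeal R)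
    (huπ : ∀ 𝔮 : Ideal R, 𝔮.IsPrime → u ∈ 𝔮 → π ∈ 𝔮 → 𝔮 = IsLocalRing.maximalIdeal R)
    {𝔓 : Ideal R} (h𝔓 : 𝔓.IsPrime) (hu : u ∈ 𝔓) (hπ𝔓 : π ∉ 𝔓) :
    𝔓 ∈ (Ideal.span {u}).minimalPrimes := by
  have hle : Ideal.span {u} ≤ 𝔓 := by
    rw [Ideal.span_le, Set.singleton_subset_iff]
    exact hu
  obtain ⟨𝔓₀, h𝔓₀min, h𝔓₀le⟩ := Ideal.exists_minimalPrimes_le hle
  have h𝔓₀ : 𝔓₀.IsPrime := h𝔓₀min.1.1
  have hu₀ : u ∈ 𝔓₀ := h𝔓₀min.1.2 (Ideal.mem_span_singleton_self u)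
  by_cases hne : 𝔓₀ = 𝔓
  · rw [← hne]
    exact h𝔓₀min
  · exact (not_lt_of_mem_of_not_mem hu0 hπ huπ hu₀ hπ𝔓 (lt_of_le_of_ne h𝔓₀le hne)).elim

/-- The abstract purity criterion, (H1) at the minimal primes of `(u)`. -/
theorem exists_unit_mul_pow_of_relLen_min {u π : R} {m : ℕ} (hm : m ≠ 0) (hu0 : u ≠ 0)
    (hπ0 : π ≠ 0) (hπ : π ∈ IsLocalRing.maximalIdeal R)
    (hreg : ∀ x : R, π ∣ u * x → π ∣ x)
    (huπ : ∀ 𝔮 : Ideal R, 𝔮.IsPrime → u ∈ 𝔮 → π ∈ 𝔮 → 𝔮 = IsLocalRing.maximalIdeal R)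
    (H1 : ∀ 𝔓 ∈ (Ideal.span {u}).minimalPrimes, π ∉ 𝔓 → ∃ f r : R, r ∉ 𝔓 ∧ f ^ m = u * r)
    (J' : Ideal R) (hπJ : π ∈ J')
    (hJ' : ∀ f r : R, f ^ m = u * r → r ∈ IsLocalRing.maximalIdeal R → f ∈ J')
    (B : ℕ) (hB : (B : ℕ∞) ≤ relLen J' (⊤ : Ideal R))
    (hlt : relLen (Ideal.span {u, π}) (⊤ : Ideal R) < (m : ℕ∞) * B) :
    ∃ (f : R) (ε : Rˣ), u = ε * f ^ m :=
  exists_unit_mul_pow_of_relLen hm hu0 hπ0 hπ hreg huπ
    (fun 𝔓 h𝔓 hu𝔓 hπ𝔓 =>
      H1 𝔓 (mem_minimalPrimes_of_mem_of_notMem hu0 hπ huπ h𝔓 hu𝔓 hπ𝔓) hπ𝔓)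
    J' hπJ hJ' B hB hlt

/-- **Purity at a smooth point of the special fibre**, (H1) at the minimal primes of `(u)`. -/
theorem exists_unit_mul_pow_of_smooth_min {u π : R} {m : ℕ} (hm : m ≠ 0) (hπ0 : π ≠ 0)
    (𝔭 : Ideal R) [𝔭.IsPrime] [IsDiscreteValuationRing (R ⧸ 𝔭)] (h𝔭 : 𝔭 = Ideal.span {π})
    (hu : u ∉ 𝔭)
    (H1 : ∀ 𝔓 ∈ (Ideal.span {u}).minimalPrimes, π ∉ 𝔓 → ∃ f r : R, r ∉ 𝔓 ∧ f ^ m = u * r)
    (H2 : ∃ v : R ⧸ 𝔭, Associated (v ^ m) (Ideal.Quotient.mk 𝔭 u)) :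
    ∃ (f : R) (ε : Rˣ), u = ε * f ^ m := by
  have hπ𝔭 : π ∈ 𝔭 := by
    rw [h𝔭]
    exact Ideal.mem_span_singleton_self π
  have h𝔭𝔪 : 𝔭 ≤ IsLocalRing.maximalIdeal R :=
    IsLocalRing.le_maximalIdeal (Ideal.IsPrime.ne_top inferInstance)
  have hu0 : u ≠ 0 := by
    rintro rfl
    exact hu 𝔭.zero_mem
  obtain ⟨ϖ, hϖ⟩ := IsDiscreteValuationRing.exists_irreducible (R ⧸ 𝔭)
  obtain ⟨x, rfl⟩ := Ideal.Quotient.mk_surjective ϖ
  obtain ⟨a, ε, hε⟩ := exists_mk_eq_unit_mul_pow 𝔭 hϖ hm hu H2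
  have h𝔪 := maximalIdeal_le_span_sup 𝔭 hϖ
  have hreg : ∀ z : R, π ∣ u * z → π ∣ z := by
    intro z hz
    have h1 : u * z ∈ 𝔭 := by
      rw [h𝔭]
      exact Ideal.mem_span_singleton.mpr hz
    rcases Ideal.IsPrime.mem_or_mem inferInstance h1 with h | h
    · exact absurd h hu
    · rw [h𝔭] at h
      exact Ideal.mem_span_singleton.mp h
  have huπ : ∀ 𝔮 : Ideal R, 𝔮.IsPrime → u ∈ 𝔮 → π ∈ 𝔮 →
      𝔮 = IsLocalRing.maximalIdeal R := by
    intro 𝔮 h𝔮 hu𝔮 hπ𝔮
    have hle : 𝔭 ≤ 𝔮 := by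
      rw [h𝔭, Ideal.span_singleton_le_iff_mem]
      exact hπ𝔮
    have hx𝔮 : x ∈ 𝔮 := mem_of_le_of_mk_eq 𝔭 hε h𝔮 hle hu𝔮
    refine le_antisymm (IsLocalRing.le_maximalIdeal h𝔮.ne_top) (h𝔪.trans ?_)
    exact sup_le ((Ideal.span_singleton_le_iff_mem _).mpr hx𝔮) hle
  refine exists_unit_mul_pow_of_relLen_min hm hu0 hπ0 (h𝔭𝔪 hπ𝔭) hreg huπ H1
    (Ideal.span {x ^ (a + 1)} ⊔ 𝔭) (Ideal.mem_sup_right hπ𝔭) ?_ (a + 1) ?_ ?_
  · intro f r hf hr
    obtain ⟨g, hg⟩ := exists_sub_pow_succ_mul_mem 𝔭 hϖ hε hf hr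
    have h : f = x ^ (a + 1) * g + (f - x ^ (a + 1) * g) := by ring
    rw [h]
    exact Ideal.add_mem _
      (Ideal.mem_sup_left (Ideal.mem_span_singleton.mpr (Dvd.intro g rfl)))
      (Ideal.mem_sup_right hg)
  · rw [relLen_branch_pow 𝔭 hϖ (a + 1)]
  · have hle : Ideal.span {x ^ (m * a)} ⊔ 𝔭 ≤ Ideal.span {u, π} := by
      refine sup_le ?_ ?_
      · rw [Ideal.span_singleton_le_iff_mem]
        obtain ⟨e, he⟩ := exists_pow_sub_mul_mem 𝔭 hε
        rw [h𝔭, Ideal.mem_span_singleton] at he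
        obtain ⟨c, hc⟩ := he
        have h : x ^ (m * a) = e * u + c * π := by
          have : x ^ (m * a) = (x ^ (m * a) - u * e) + u * e := by ring
          rw [this, hc]
          ring
        rw [h]
        exact Ideal.add_mem _
          (Ideal.mul_mem_left _ _ (Ideal.subset_span (by simp)))
          (Ideal.mul_mem_left _ _ (Ideal.subset_span (by simp)))
      · rw [h𝔭, Ideal.span_singleton_le_iff_mem]
        exact Ideal.subset_span (by simp)
    have h1 : relLen (Ideal.span {u, π}) (⊤ : Ideal R) ≤ ((m * a : ℕ) : ℕ∞) := by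
      rw [← relLen_branch_pow 𝔭 hϖ (m * a)]
      exact relLen_mono_left hle le_top
    refine lt_of_le_of_lt h1 ?_
    have h2 : m * a < m * (a + 1) := by
      have : 0 < m := Nat.pos_of_ne_zero hm
      nlinarith
    exact_mod_cast h2


/-- **Purity at an ordinary double point of the special fibre**, (H1) at the minimal primes
of `(u)`. -/
theorem exists_unit_mul_pow_of_node_min {u π : R} {m : ℕ} (hm : m ≠ 0)
    (𝔭₁ 𝔭₂ : Ideal R) [𝔭₁.IsPrime] [𝔭₂.IsPrime]
    [IsDiscreteValuationRing (R ⧸ 𝔭₁)] [IsDiscreteValuationRing (R ⧸ 𝔭₂)]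
    (hinf : 𝔭₁ ⊓ 𝔭₂ = Ideal.span {π}) (hsup : 𝔭₁ ⊔ 𝔭₂ = IsLocalRing.maximalIdeal R)
    (hu₁ : u ∉ 𝔭₁) (hu₂ : u ∉ 𝔭₂)
    (H1 : ∀ 𝔓 ∈ (Ideal.span {u}).minimalPrimes, π ∉ 𝔓 → ∃ f r : R, r ∉ 𝔓 ∧ f ^ m = u * r)
    (H2₁ : ∃ v : R ⧸ 𝔭₁, Associated (v ^ m) (Ideal.Quotient.mk 𝔭₁ u))
    (H2₂ : ∃ v : R ⧸ 𝔭₂, Associated (v ^ m) (Ideal.Quotient.mk 𝔭₂ u)) :
    ∃ (f : R) (ε : Rˣ), u = ε * f ^ m := by
  have h𝔭₁𝔪 : 𝔭₁ ≤ IsLocalRing.maximalIdeal R := hsup ▸ le_sup_left
  have h𝔭₂𝔪 : 𝔭₂ ≤ IsLocalRing.maximalIdeal R := hsup ▸ le_sup_right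
  have hπ₁ : π ∈ 𝔭₁ :=
    (inf_le_left : 𝔭₁ ⊓ 𝔭₂ ≤ 𝔭₁) (hinf ▸ Ideal.mem_span_singleton_self π)
  have hπ₂ : π ∈ 𝔭₂ :=
    (inf_le_right : 𝔭₁ ⊓ 𝔭₂ ≤ 𝔭₂) (hinf ▸ Ideal.mem_span_singleton_self π)
  have hmem_inf : ∀ z : R, z ∈ 𝔭₁ → z ∈ 𝔭₂ → ∃ c : R, z = c * π := by
    intro z h1 h2
    have h : z ∈ 𝔭₁ ⊓ 𝔭₂ := ⟨h1, h2⟩
    rw [hinf] at h
    exact Ideal.mem_span_singleton'.mp h |>.imp fun c hc => hc.symm
  have hu0 : u ≠ 0 := by
    rintro rfl
    exact hu₁ 𝔭₁.zero_mem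
  -- uniformisers of the two branches
  obtain ⟨x, hx₂, hx⟩ := exists_mem_irreducible_mk 𝔭₁ 𝔭₂ hsup.ge
  obtain ⟨y, hy₁, hy⟩ := exists_mem_irreducible_mk 𝔭₂ 𝔭₁ (by rw [sup_comm]; exact hsup.ge)
  have hx₁ : x ∉ 𝔭₁ := fun h => hx.ne_zero (Ideal.Quotient.eq_zero_iff_mem.mpr h)
  have hy₂ : y ∉ 𝔭₂ := fun h => hy.ne_zero (Ideal.Quotient.eq_zero_iff_mem.mpr h)
  have h𝔭₂ : 𝔭₂ ≤ Ideal.span {x} ⊔ Ideal.span {π} := by
    rw [← hinf]
    exact le_span_sup_inf 𝔭₁ 𝔭₂ hx₂ hx h𝔭₂𝔪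
  have h𝔭₁ : 𝔭₁ ≤ Ideal.span {y} ⊔ Ideal.span {π} := by
    rw [← hinf, inf_comm]
    exact le_span_sup_inf 𝔭₂ 𝔭₁ hy₁ hy h𝔭₁𝔪
  have h𝔭₂' : 𝔭₂ = Ideal.span {x} ⊔ Ideal.span {π} :=
    le_antisymm h𝔭₂ (sup_le ((Ideal.span_singleton_le_iff_mem _).mpr hx₂)
      ((Ideal.span_singleton_le_iff_mem _).mpr hπ₂))
  have hπ0 : π ≠ 0 := by
    rintro rfl
    obtain ⟨c, hc⟩ := hmem_inf (x * y) (𝔭₁.mul_mem_left _ hy₁) (𝔭₂.mul_mem_right _ hx₂)
    rw [mul_zero] at hc
    rcases mul_eq_zero.mp hc with h | h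
    · exact hx₁ (h ▸ 𝔭₁.zero_mem)
    · exact hy₂ (h ▸ 𝔭₂.zero_mem)
  obtain ⟨a₁, ε₁, hε₁⟩ := exists_mk_eq_unit_mul_pow 𝔭₁ hx hm hu₁ H2₁
  obtain ⟨a₂, ε₂, hε₂⟩ := exists_mk_eq_unit_mul_pow 𝔭₂ hy hm hu₂ H2₂
  have hreg : ∀ z : R, π ∣ u * z → π ∣ z := by
    intro z hz
    have h1 : u * z ∈ 𝔭₁ ⊓ 𝔭₂ := by
      rw [hinf]
      exact Ideal.mem_span_singleton.mpr hz
    have h2 : z ∈ 𝔭₁ :=
      (Ideal.IsPrime.mem_or_mem inferInstance h1.1).resolve_left hu₁
    have h3 : z ∈ 𝔭₂ :=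
      (Ideal.IsPrime.mem_or_mem inferInstance h1.2).resolve_left hu₂
    obtain ⟨c, hc⟩ := hmem_inf z h2 h3
    exact ⟨c, by rw [hc, _root_.mul_comm]⟩
  have huπ : ∀ 𝔮 : Ideal R, 𝔮.IsPrime → u ∈ 𝔮 → π ∈ 𝔮 →
      𝔮 = IsLocalRing.maximalIdeal R := by
    intro 𝔮 h𝔮 hu𝔮 hπ𝔮
    have hle : 𝔭₁ ⊓ 𝔭₂ ≤ 𝔮 := by
      rw [hinf, Ideal.span_singleton_le_iff_mem]
      exact hπ𝔮
    refine le_antisymm (IsLocalRing.le_maximalIdeal h𝔮.ne_top) ?_
    rw [← hsup]
    rcases h𝔮.inf_le.mp hle with h | h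
    · have hx𝔮 : x ∈ 𝔮 := mem_of_le_of_mk_eq 𝔭₁ hε₁ h𝔮 h hu𝔮
      refine sup_le h (h𝔭₂.trans (sup_le ?_ ?_))
      · exact (Ideal.span_singleton_le_iff_mem _).mpr hx𝔮
      · exact (Ideal.span_singleton_le_iff_mem _).mpr hπ𝔮
    · have hy𝔮 : y ∈ 𝔮 := mem_of_le_of_mk_eq 𝔭₂ hε₂ h𝔮 h hu𝔮
      refine sup_le (h𝔭₁.trans (sup_le ?_ ?_)) h
      · exact (Ideal.span_singleton_le_iff_mem _).mpr hy𝔮
      · exact (Ideal.span_singleton_le_iff_mem _).mpr hπ𝔮
  -- the lengths of the ideals `J(b, c) = (x ^ b, y ^ c, π)`, `b, c ≥ 1`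
  have hlen : ∀ k c : ℕ, relLen
      (Ideal.span {x ^ (1 + k)} ⊔ (Ideal.span {y ^ (c + 1)} ⊔ Ideal.span {π}))
      (⊤ : Ideal R) = ((k + (c + 1) : ℕ) : ℕ∞) := by
    intro k c
    have h𝔞 : Ideal.span {y ^ (c + 1)} ⊔ Ideal.span {π} ≤ 𝔭₁ :=
      sup_le ((Ideal.span_singleton_le_iff_mem _).mpr (𝔭₁.pow_mem_of_mem hy₁ _ (by omega)))
        ((Ideal.span_singleton_le_iff_mem _).mpr hπ₁)
    have hchain := relLen_pow_chain 𝔭₁ hx _ h𝔞 1 ?_ k
    · have hbase : Ideal.span {x ^ 1} ⊔ (Ideal.span {y ^ (c + 1)} ⊔ Ideal.span {π}) =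
          Ideal.span {y ^ (c + 1)} ⊔ 𝔭₂ := by
        rw [pow_one, h𝔭₂', sup_left_comm]
      have hmono : Ideal.span {x ^ (1 + k)} ⊔ (Ideal.span {y ^ (c + 1)} ⊔ Ideal.span {π}) ≤
          Ideal.span {x ^ 1} ⊔ (Ideal.span {y ^ (c + 1)} ⊔ Ideal.span {π}) := by
        refine sup_le_sup_right ?_ _
        rw [Ideal.span_singleton_le_span_singleton]
        exact pow_dvd_pow x (by omega)
      rw [relLen_add hmono le_top, hchain, hbase, relLen_branch_pow 𝔭₂ hy (c + 1)]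
      push_cast
      rfl
    · intro n hn s hs
      obtain ⟨g, hg⟩ := exists_sub_mul_mem_of_mem_maximalIdeal 𝔭₁ hx hs
      obtain ⟨d, hd⟩ := hmem_inf ((s - x * g) * x ^ n) (𝔭₁.mul_mem_right _ hg)
        (𝔭₂.mul_mem_left _ (𝔭₂.pow_mem_of_mem hx₂ _ (by omega)))
      have h : s * x ^ n = x ^ (n + 1) * g + d * π := by
        rw [← hd]
        ring
      rw [h]
      exact Ideal.add_mem _
        (Ideal.mem_sup_left (Ideal.mem_span_singleton.mpr (Dvd.intro g rfl)))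
        (Ideal.mem_sup_right (Ideal.mem_sup_right
          (Ideal.mem_span_singleton.mpr (Dvd.intro_left d rfl))))
  refine exists_unit_mul_pow_of_relLen_min hm hu0 hπ0 (h𝔭₁𝔪 hπ₁) hreg huπ H1
    (Ideal.span {x ^ (1 + a₁)} ⊔ (Ideal.span {y ^ (a₂ + 1)} ⊔ Ideal.span {π}))
    (Ideal.mem_sup_right (Ideal.mem_sup_right (Ideal.mem_span_singleton_self π))) ?_
    (a₁ + (a₂ + 1)) (hlen a₁ a₂).ge ?_
  · -- every `f` with `f ^ m = u r`, `r ∈ 𝔪`, lies in `J(a₁ + 1, a₂ + 1)`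
    intro f r hf hr
    obtain ⟨g₁, hg₁⟩ := exists_sub_pow_succ_mul_mem 𝔭₁ hx hε₁ hf hr
    obtain ⟨g₂, hg₂⟩ := exists_sub_pow_succ_mul_mem 𝔭₂ hy hε₂ hf hr
    obtain ⟨d, hd⟩ := hmem_inf (f - x ^ (a₁ + 1) * g₁ - y ^ (a₂ + 1) * g₂)
      (𝔭₁.sub_mem hg₁ (𝔭₁.mul_mem_right _ (𝔭₁.pow_mem_of_mem hy₁ _ (by omega))))
      (by
        have h : f - x ^ (a₁ + 1) * g₁ - y ^ (a₂ + 1) * g₂ =
            (f - y ^ (a₂ + 1) * g₂) - x ^ (a₁ + 1) * g₁ := by ring
        rw [h]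
        exact 𝔭₂.sub_mem hg₂ (𝔭₂.mul_mem_right _ (𝔭₂.pow_mem_of_mem hx₂ _ (by omega))))
    have h : f = x ^ (1 + a₁) * g₁ + (y ^ (a₂ + 1) * g₂ + d * π) := by
      rw [← hd, add_comm 1 a₁]
      ring
    rw [h]
    exact Ideal.add_mem _
      (Ideal.mem_sup_left (Ideal.mem_span_singleton.mpr (Dvd.intro g₁ rfl)))
      (Ideal.mem_sup_right (Ideal.add_mem _
        (Ideal.mem_sup_left (Ideal.mem_span_singleton.mpr (Dvd.intro g₂ rfl)))
        (Ideal.mem_sup_right (Ideal.mem_span_singleton.mpr (Dvd.intro_left d rfl)))))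
  · -- `ℓ(R/(u, π)) ≤ m (a₁ + a₂)`
    set J'' : Ideal R :=
      Ideal.span {x ^ (1 + m * a₁)} ⊔ (Ideal.span {y ^ (m * a₂ + 1)} ⊔ Ideal.span {π})
      with hJ''
    set T : Ideal R := IsLocalRing.maximalIdeal R * Ideal.span {u} ⊔ Ideal.span {π} with hT
    have hxT : x ^ (1 + m * a₁) ∈ T := by
      obtain ⟨e, he⟩ := exists_pow_sub_mul_mem 𝔭₁ hε₁
      obtain ⟨d, hd⟩ := hmem_inf (x * (x ^ (m * a₁) - u * e)) (𝔭₁.mul_mem_left _ he)
        (𝔭₂.mul_mem_right _ hx₂)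
      have h : x ^ (1 + m * a₁) = (x * e) * u + d * π := by
        rw [← hd]
        ring
      rw [h]
      exact Ideal.add_mem _
        (Ideal.mem_sup_left (Ideal.mul_mem_mul (Ideal.mul_mem_right _ _ (h𝔭₂𝔪 hx₂))
          (Ideal.mem_span_singleton_self u)))
        (Ideal.mem_sup_right (Ideal.mem_span_singleton.mpr (Dvd.intro_left d rfl)))
    have hyT : y ^ (m * a₂ + 1) ∈ T := by
      obtain ⟨e, he⟩ := exists_pow_sub_mul_mem 𝔭₂ hε₂
      obtain ⟨d, hd⟩ := hmem_inf (y * (y ^ (m * a₂) - u * e)) (𝔭₁.mul_mem_right _ hy₁)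
        (𝔭₂.mul_mem_left _ he)
      have h : y ^ (m * a₂ + 1) = (y * e) * u + d * π := by
        rw [← hd]
        ring
      rw [h]
      exact Ideal.add_mem _
        (Ideal.mem_sup_left (Ideal.mul_mem_mul (Ideal.mul_mem_right _ _ (h𝔭₁𝔪 hy₁))
          (Ideal.mem_span_singleton_self u)))
        (Ideal.mem_sup_right (Ideal.mem_span_singleton.mpr (Dvd.intro_left d rfl)))
    have hJT : J'' ≤ T :=
      sup_le ((Ideal.span_singleton_le_iff_mem _).mpr hxT)
        (sup_le ((Ideal.span_singleton_le_iff_mem _).mpr hyT) le_sup_right)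
    have huT : u ∉ T := by
      intro h
      obtain ⟨t, ht, p, hp, htp⟩ := Submodule.mem_sup.mp h
      obtain ⟨s, hs, rfl⟩ := Ideal.mem_mul_span_singleton.mp ht
      obtain ⟨c, rfl⟩ := Ideal.mem_span_singleton'.mp hp
      have h1 : u * (1 - s) ∈ 𝔭₁ := by
        have : u * (1 - s) = c * π := by
          linear_combination -htp
        rw [this]
        exact 𝔭₁.mul_mem_left _ hπ₁
      rcases Ideal.IsPrime.mem_or_mem inferInstance h1 with h2 | h2
      · exact hu₁ h2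
      · have h3 : (1 : R) ∈ IsLocalRing.maximalIdeal R := by
          have : (1 : R) = (1 - s) + s := by ring
          rw [this]
          exact Ideal.add_mem _ (h𝔭₁𝔪 h2) hs
        exact (Ideal.ne_top_iff_one _).mp (IsLocalRing.maximalIdeal.isMaximal R).ne_top h3
    have hTle : T ≤ Ideal.span {u, π} := by
      refine sup_le ?_ ?_
      · refine Ideal.mul_le_right.trans ?_
        rw [Ideal.span_singleton_le_iff_mem]
        exact Ideal.subset_span (by simp)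
      · rw [Ideal.span_singleton_le_iff_mem]
        exact Ideal.subset_span (by simp)
    have h1 : 1 ≤ relLen J'' (Ideal.span {u, π}) :=
      one_le_relLen_of_notMem (Ideal.subset_span (by simp)) (fun h => huT (hJT h))
    have h2 : relLen J'' (⊤ : Ideal R) = ((m * a₁ + (m * a₂ + 1) : ℕ) : ℕ∞) := hlen _ _
    rw [relLen_add (hJT.trans hTle) le_top] at h2
    have h3 : relLen (Ideal.span {u, π}) (⊤ : Ideal R) ≠ ⊤ := by
      intro h
      rw [h, add_top] at h2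
      exact ENat.top_ne_natCast _ h2
    have h4 : relLen J'' (Ideal.span {u, π}) ≠ ⊤ := by
      intro h
      rw [h, top_add] at h2
      exact ENat.top_ne_natCast _ h2
    lift relLen (Ideal.span {u, π}) (⊤ : Ideal R) to ℕ using h3 with L
    lift relLen J'' (Ideal.span {u, π}) to ℕ using h4 with L'
    have h5 : 1 ≤ L' := by exact_mod_cast h1
    have h6 : L' + L = m * a₁ + (m * a₂ + 1) := by exact_mod_cast h2
    have h7 : L < m * (a₁ + (a₂ + 1)) := by
      have : 0 < m := Nat.pos_of_ne_zero hm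
      nlinarith
    exact_mod_cast h7


end Fermat.Agent.A2.H609

end
-- ===== PACK-END A2/H609/MinPrimes.lean

-- ===== PACK-BEGIN A2/Alg/H132/ChartFacts.lean
section


/-!
# WALL A2 / ALG — chart facts (helper132)

`B ⊆ F` the chart of `ChartCtx` (integral closure of `R[x]` in `F`), `R` a discrete valuation ring
with uniformiser `w`.

* `dimensionLEOne_of_polynomial_integral` : a domain integral over `R[X]` in which a maximal ideal
  `I` of `R` dies has Krull dimension `≤ 1` (it is integral over `(R ⧸ I)[X]`).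
* `isIntegral_aeval_chart` : the chart is integral over `R[X]` (via `X ↦ x`).
* `dimensionLEOne_chart_quotient` : `B ⧸ p` has dimension `≤ 1` for every prime `p ∋ w`.
* `isDedekindDomain_chart_quotient` : `B ⧸ p` is a Dedekind domain if moreover it is integrally
  closed (the components of an `SSChart`).
* `algebraMap_mem_of_chart_le` : a valuation ring of `F` containing `B` and `w⁻¹` contains `E`.
* `hdiv_of_divisibleDiv` : the hypothesis `hdiv` of `H609.exists_pureAt_node` from `DivisibleDiv`.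
-/

set_option autoImplicit false
set_option linter.unusedSectionVars false
set_option linter.style.haveILetI false

namespace Fermat.Agent.A2.Alg.H132

open Fermat.Agent.A2 Fermat.Agent.A2.Alg
open Polynomial

section Abstract

/-- A domain `D` which is integral over `R[X]` and in which a maximal ideal `I` of `R` dies has
Krull dimension `≤ 1`. -/
theorem dimensionLEOne_of_polynomial_integral {R : Type*} [CommRing R] {D : Type*} [CommRing D]
    [IsDomain D] (I : Ideal R) [hI : I.IsMaximal] (ψ : R[X] →+* D) (hψ : ψ.IsIntegral)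
    (hψI : ∀ r ∈ I, ψ (C r) = 0) : Ring.DimensionLEOne D := by
  letI : Field (R ⧸ I) := Ideal.Quotient.field I
  let φ₁ : (R ⧸ I) →+* D := Ideal.Quotient.lift I (ψ.comp C) (fun r hr => hψI r hr)
  let g : (R ⧸ I)[X] →+* D := eval₂RingHom φ₁ (ψ X)
  have hcomp : g.comp (mapRingHom (Ideal.Quotient.mk I)) = ψ := by
    refine Polynomial.ringHom_ext (fun r => ?_) ?_
    · simp [g, φ₁]
    · simp [g]
  have hg : g.IsIntegral := by
    refine RingHom.IsIntegral.tower_top (mapRingHom (Ideal.Quotient.mk I)) g ?_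
    rw [hcomp]
    exact hψ
  letI : Algebra (R ⧸ I)[X] D := g.toAlgebra
  haveI : Algebra.IsIntegral (R ⧸ I)[X] D := ⟨fun d => hg d⟩
  exact Ring.DimensionLEOne.of_isIntegral (R ⧸ I)[X] D

end Abstract

section Chart

variable {R F : Type*} [CommRing R] [Field F] [Algebra R F]

/-- The chart is integral over `R[X]`. -/
theorem isIntegral_aeval_chart (x : F) (B : Subalgebra R F)
    (hB : ∀ f : F, f ∈ B ↔ IsIntegral (Algebra.adjoin R ({x} : Set F)) f) (hx : x ∈ B) :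
    ((aeval (⟨x, hx⟩ : B) : R[X] →ₐ[R] B) : R[X] →+* B).IsIntegral := by
  intro b
  have hb : IsIntegral (Algebra.adjoin R ({x} : Set F)) (b : F) := (hB b).1 b.2
  obtain ⟨P, hP, hPb⟩ := hb
  -- the surjection `R[X] → R[x]`
  let xA : Algebra.adjoin R ({x} : Set F) := ⟨x, Algebra.subset_adjoin (Set.mem_singleton x)⟩
  let θ : R[X] →+* Algebra.adjoin R ({x} : Set F) := (aeval xA : R[X] →ₐ[R] _)
  have hθ : Function.Surjective θ := by
    rintro ⟨a, ha⟩
    rw [Algebra.adjoin_singleton_eq_range_aeval] at ha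
    obtain ⟨Q, rfl⟩ := ha
    refine ⟨Q, Subtype.ext ?_⟩
    show ((aeval xA Q : Algebra.adjoin R ({x} : Set F)) : F) = aeval x Q
    rw [← Subalgebra.coe_val, ← aeval_algHom_apply]
    rfl
  have hlift : P ∈ Polynomial.lifts θ := by
    rw [Polynomial.mem_lifts]
    exact Polynomial.map_surjective θ hθ P
  obtain ⟨Q, hQP, -, hQ⟩ := Polynomial.lifts_and_degree_eq_and_monic hlift hP
  refine ⟨Q, hQ, ?_⟩
  apply Subtype.val_injective
  show (B.val : B →+* F) (eval₂ _ b Q) = (B.val : B →+* F) 0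
  rw [_root_.map_zero, Polynomial.hom_eval₂]
  have hcomp : (B.val : B →+* F).comp ((aeval (⟨x, hx⟩ : B) : R[X] →ₐ[R] B) : R[X] →+* B)
      = (algebraMap (Algebra.adjoin R ({x} : Set F)) F).comp θ := by
    refine Polynomial.ringHom_ext (fun r => ?_) ?_
    · simp [θ]
    · simp [θ, xA]
  rw [hcomp, ← Polynomial.eval₂_map, hQP]
  exact hPb

theorem coord_mem_chart (x : F) (B : Subalgebra R F)
    (hB : ∀ f : F, f ∈ B ↔ IsIntegral (Algebra.adjoin R ({x} : Set F)) f) : x ∈ B := by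
  rw [hB]
  exact isIntegral_algebraMap
    (x := (⟨x, Algebra.subset_adjoin (Set.mem_singleton x)⟩ : Algebra.adjoin R ({x} : Set F)))

end Chart

section Quot

variable {R F : Type*} [CommRing R] [IsDomain R] [IsDiscreteValuationRing R]
  [Field F] [Algebra R F]

/-- `B ⧸ p` has Krull dimension `≤ 1` for every prime `p ∋ w` of the chart. -/
theorem dimensionLEOne_chart_quotient (w : R) (hw : Irreducible w) (x : F) (B : Subalgebra R F)
    (hB : ∀ f : F, f ∈ B ↔ IsIntegral (Algebra.adjoin R ({x} : Set F)) f)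
    (p : Ideal B) [p.IsPrime] (hwp : algebraMap R B w ∈ p) : Ring.DimensionLEOne (B ⧸ p) := by
  have hx : x ∈ B := coord_mem_chart x B hB
  refine dimensionLEOne_of_polynomial_integral (IsLocalRing.maximalIdeal R)
    ((Ideal.Quotient.mk p).comp ((aeval (⟨x, hx⟩ : B) : R[X] →ₐ[R] B) : R[X] →+* B)) ?_ ?_
  · exact RingHom.IsIntegral.trans _ _ (isIntegral_aeval_chart x B hB hx)
      (RingHom.isIntegral_of_surjective _ Ideal.Quotient.mk_surjective)
  · intro r hr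
    rw [hw.maximalIdeal_eq, Ideal.mem_span_singleton] at hr
    obtain ⟨s, rfl⟩ := hr
    rw [RingHom.comp_apply, Ideal.Quotient.eq_zero_iff_mem]
    have h : ((aeval (⟨x, hx⟩ : B) : R[X] →ₐ[R] B) : R[X] →+* B) (C (w * s))
        = algebraMap R B w * algebraMap R B s := by
      simp
    rw [h]
    exact p.mul_mem_right _ hwp

end Quot

section Ctx

variable {R E F : Type*} [CommRing R] [IsDomain R] [IsDiscreteValuationRing R]
  [Field E] [Algebra R E] [IsFractionRing R E]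
  [Field F] [Algebra E F] [Algebra R F] [IsScalarTower R E F]

/-- `B ⧸ p` is a Dedekind domain for every prime `p ∋ w` of the chart with `B ⧸ p` integrally
closed. -/
theorem isDedekindDomain_chart_quotient [CharZero E] (w : R) (x : F) (B : Subalgebra R F)
    (hC : ChartCtx E w x B) (p : Ideal B) [p.IsPrime] (hwp : algebraMap R B w ∈ p)
    (hn : IsIntegrallyClosed (B ⧸ p)) : IsDedekindDomain (B ⧸ p) := by
  obtain ⟨hnoeth, -, -⟩ := Fermat.Agent.A2.Alg.H34.chart_instances' w x B hC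
  haveI := hnoeth
  haveI := hn
  haveI : Ring.DimensionLEOne (B ⧸ p) := dimensionLEOne_chart_quotient w hC.hw x B hC.hB p hwp
  haveI h1 : IsDomain (B ⧸ p) := inferInstance
  haveI h2 : IsNoetherianRing (B ⧸ p) := inferInstance
  haveI h3 : IsIntegrallyClosed (B ⧸ p) := inferInstance
  haveI h4 : IsDedekindRing (B ⧸ p) := { }
  have h : IsDedekindDomain (B ⧸ p) := { }
  exact h

theorem uniformiser_mem_p₁ {w : R} {B : Subalgebra R F} (c : SSChart w B) :
    algebraMap R B w ∈ c.p₁ := by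
  have h : algebraMap R B w ∈ c.p₁ ⊓ c.p₂ := by
    rw [c.inf_eq]
    exact Ideal.mem_span_singleton_self _
  exact h.1

theorem uniformiser_mem_p₂ {w : R} {B : Subalgebra R F} (c : SSChart w B) :
    algebraMap R B w ∈ c.p₂ := by
  have h : algebraMap R B w ∈ c.p₁ ⊓ c.p₂ := by
    rw [c.inf_eq]
    exact Ideal.mem_span_singleton_self _
  exact h.2

/-- The first component of a semistable chart is a Dedekind scheme. -/
theorem isDedekindDomain_quotient_p₁ [CharZero E] (w : R) (x : F) (B : Subalgebra R F)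
    (hC : ChartCtx E w x B) (c : SSChart w B) :
    haveI := c.prime₁
    IsDedekindDomain (B ⧸ c.p₁) :=
  haveI := c.prime₁
  isDedekindDomain_chart_quotient w x B hC c.p₁ (uniformiser_mem_p₁ c) c.normal₁

/-- The second component of a semistable chart is a Dedekind scheme. -/
theorem isDedekindDomain_quotient_p₂ [CharZero E] (w : R) (x : F) (B : Subalgebra R F)
    (hC : ChartCtx E w x B) (c : SSChart w B) :
    haveI := c.prime₂
    IsDedekindDomain (B ⧸ c.p₂) :=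
  haveI := c.prime₂
  isDedekindDomain_chart_quotient w x B hC c.p₂ (uniformiser_mem_p₂ c) c.normal₂

/-- A valuation ring of `F` containing the chart `B` and `w⁻¹` contains `E`. -/
theorem algebraMap_mem_of_chart_le (w : R) (hw : Irreducible w) (B : Subalgebra R F)
    (V : ValuationSubring F) (hBV : ∀ b : B, (b : F) ∈ V) (hwV : (algebraMap R F w)⁻¹ ∈ V)
    (e : E) : algebraMap E F e ∈ V := by
  have hRV : ∀ r : R, algebraMap R F r ∈ V := fun r => hBV (algebraMap R B r)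
  obtain ⟨a, b, hb, rfl⟩ := IsFractionRing.div_surjective (A := R) e
  have hb0 : b ≠ 0 := nonZeroDivisors.ne_zero hb
  obtain ⟨n, ε, hε⟩ := IsDiscreteValuationRing.eq_unit_mul_pow_irreducible hb0 hw
  have hinj : Function.Injective (algebraMap R F) := by
    rw [IsScalarTower.algebraMap_eq R E F]
    exact (algebraMap E F).injective.comp (IsFractionRing.injective R E)
  have hwF : algebraMap R F w ≠ 0 := fun h =>
    hw.ne_zero (hinj (by rw [h, _root_.map_zero]))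
  have hεF : algebraMap R F (ε : R) * algebraMap R F ((ε⁻¹ : Rˣ) : R) = 1 := by
    rw [← _root_.map_mul, Units.mul_inv, _root_.map_one]
  have hεF0 : algebraMap R F (ε : R) ≠ 0 := left_ne_zero_of_mul_eq_one hεF
  have key : algebraMap E F (algebraMap R E a / algebraMap R E b)
      = algebraMap R F a * algebraMap R F ((ε⁻¹ : Rˣ) : R) * ((algebraMap R F w)⁻¹) ^ n := by
    rw [map_div₀, ← IsScalarTower.algebraMap_apply, ← IsScalarTower.algebraMap_apply, hε,
      _root_.map_mul, _root_.map_pow, inv_pow]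
    have h1 : algebraMap R F ((ε⁻¹ : Rˣ) : R) = (algebraMap R F (ε : R))⁻¹ :=
      eq_inv_of_mul_eq_one_right hεF
    rw [h1]
    field_simp
  rw [key]
  exact mul_mem (mul_mem (hRV a) (hRV _)) (pow_mem hwV n)

/-- The hypothesis `hdiv` of `H609.exists_pureAt_node` from `DivisibleDiv`. -/
theorem hdiv_of_divisibleDiv (w : R) (hw : Irreducible w) (B : Subalgebra R F) (m : ℕ) (u : F)
    (hdiv : DivisibleDiv E m u) :
    ∀ V : ValuationSubring F, IsDiscreteValuationRing V →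
      (∀ b : B, algebraMap B F b ∈ V) → (algebraMap B F (algebraMap R B w))⁻¹ ∈ V →
      ∃ h u₀ : F, u₀ ∈ V ∧ u₀⁻¹ ∈ V ∧ u = u₀ * h ^ m := by
  intro V hV hBV hwV
  obtain ⟨h, u₀, -, hu₀, hu₀', hu⟩ := hdiv V hV
    (algebraMap_mem_of_chart_le w hw B V hBV hwV)
  exact ⟨h, u₀, hu₀, hu₀', hu⟩

/-- The hypothesis `hs` of `H609.exists_pureAt_node` from `ConstAt`. -/
theorem hs_of_constAt (B : Subalgebra R F) (p : Ideal B) (u : F) (h : ConstAt B p u) :
    ∃ c a b : B, IsUnit c ∧ b ∉ p ∧ a - c * b ∈ p ∧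
      u * algebraMap B F b = algebraMap B F a := by
  obtain ⟨c, hc, a, b, hb, hab, hu⟩ := h
  exact ⟨algebraMap R B c, a, b, hc.map _, hb, hab, hu⟩

end Ctx

end Fermat.Agent.A2.Alg.H132

end
-- ===== PACK-END A2/Alg/H132/ChartFacts.lean

-- ===== PACK-BEGIN Ribet/H7/WildPurity.lean
section



/-!
# RIBET row 38, WALL-p, crux (I6): leaf WPUR = `H704.I6.WildPurityStatement`  (helper7)

Wild purity at a node: a horizontally `p`-divisible `g ∉ 𝔭₁ ∪ 𝔭₂` which is a `p`-th power in the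
`π`-adic completions of both branches is, up to `p`-th powers of the fraction field, a one-unit of
level `λ ^ p` (`λ ^ (p - 1) = p · unit`): `g · d₂ ^ p = d₁ ^ p · s ^ p · (1 + λ ^ p z)`.

No completions, no hypothesis on the thickness.

* purity at the node (`A2.H609.exists_unit_mul_pow_of_node`): `g = ε₀ f ^ p`, `ε₀` a unit;
* fix approximate roots `hᵢ / rᵢ` of `ε₀` on the two branches modulo `π ^ (p e)`;
* successive approximation: for `j = 0, …, e` there is `s ∈ R` with `hᵢ - s rᵢ ∈ π ^ j R_{𝔭ᵢ}`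
  on both branches.  Step: `(r' r) ^ p (ε₀ - s ^ p) = π ^ (j p) (a ^ p + π w)` on each branch, hence
  `ε₀ - s ^ p = π ^ (j p) c` in `R`, `c` is a `p`-th power `βᵢ ^ p` modulo `𝔭ᵢ`, the two roots agree
  at the node (Frobenius is injective on the residue field) and glue to `b ∈ R`; `s + π ^ j b`.
* `j = e`: `ε₀ - s ^ p ∈ π ^ (p e) R = λ ^ p R`.
-/

set_option autoImplicit false

namespace Fermat.Agent.Ribet.H7

open Ideal
open Fermat.Agent.Ribet.H704.I6

section General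

variable {R : Type*} [CommRing R]

/-- The binomial expansion of an approximate root. -/
theorem wp_expand {p : ℕ} (hp : p.Prime) (π u s h r r' a t : R) (j K : ℕ)
    (h1 : r' * (h - s * r) = π ^ j * a) (h2 : u * r ^ p - h ^ p = π ^ K * t) :
    ∃ q : R, (r' * r) ^ p * (u - s ^ p) =
      π ^ (j * p) * a ^ p + (p : R) * π ^ j * (r' * s * r * a * q) + π ^ K * (r' ^ p * t) := by
  obtain ⟨q, hq⟩ := exists_add_pow_prime_eq hp (r' * s * r) (π ^ j * a)
  have e1 : r' * h = r' * s * r + π ^ j * a := by linear_combination h1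
  have e2 : (r' * h) ^ p = (r' * s * r) ^ p + (π ^ j * a) ^ p
      + (p : R) * (r' * s * r) * (π ^ j * a) * q := by rw [e1, hq]
  refine ⟨q, ?_⟩
  linear_combination r' ^ p * h2 + e2

/-- Divisibility by a power of `π` can be tested on the two branches. -/
theorem wp_dvd_of_branches [IsDomain R] {𝔭₁ 𝔭₂ : Ideal R} [h𝔭₁ : 𝔭₁.IsPrime]
    [h𝔭₂ : 𝔭₂.IsPrime] {π : R} (hπ0 : π ≠ 0) (hinf : 𝔭₁ ⊓ 𝔭₂ = Ideal.span {π}) :
    ∀ (n : ℕ) (z r₁ r₂ : R), r₁ ∉ 𝔭₁ → r₂ ∉ 𝔭₂ → π ^ n ∣ r₁ * z → π ^ n ∣ r₂ * z →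
      π ^ n ∣ z := by
  have hπ : π ∈ 𝔭₁ ⊓ 𝔭₂ := hinf ▸ Ideal.mem_span_singleton_self π
  intro n
  induction n with
  | zero =>
    intro z _ _ _ _ _ _
    simp
  | succ n ih =>
    intro z r₁ r₂ hr₁ hr₂ h₁ h₂
    have hz₁ : z ∈ 𝔭₁ := by
      have : r₁ * z ∈ 𝔭₁ := by
        obtain ⟨c, hc⟩ := h₁
        rw [hc, pow_succ, _root_.mul_assoc]
        exact 𝔭₁.mul_mem_left _ (𝔭₁.mul_mem_right _ hπ.1)
      exact (h𝔭₁.mem_or_mem this).resolve_left hr₁
    have hz₂ : z ∈ 𝔭₂ := by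
      have : r₂ * z ∈ 𝔭₂ := by
        obtain ⟨c, hc⟩ := h₂
        rw [hc, pow_succ, _root_.mul_assoc]
        exact 𝔭₂.mul_mem_left _ (𝔭₂.mul_mem_right _ hπ.2)
      exact (h𝔭₂.mem_or_mem this).resolve_left hr₂
    have hz : z ∈ Ideal.span {π} := hinf ▸ ⟨hz₁, hz₂⟩
    obtain ⟨z', rfl⟩ := Ideal.mem_span_singleton'.mp hz
    have h₁' : π ^ n ∣ r₁ * z' := by
      obtain ⟨c, hc⟩ := h₁
      exact ⟨c, mul_right_cancel₀ hπ0 (by linear_combination hc)⟩
    have h₂' : π ^ n ∣ r₂ * z' := by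
      obtain ⟨c, hc⟩ := h₂
      exact ⟨c, mul_right_cancel₀ hπ0 (by linear_combination hc)⟩
    obtain ⟨d, hd⟩ := ih z' r₁ r₂ hr₁ hr₂ h₁' h₂'
    exact ⟨d, by rw [hd]; ring⟩

/-- On a branch which is a valuation ring: `a ^ p = ρ ^ p c` modulo `𝔭` with `ρ ∉ 𝔭` gives a
`p`-th root of `c` modulo `𝔭`, namely `a / ρ`. -/
theorem wp_exists_root (𝔭 : Ideal R) [𝔭.IsPrime] [ValuationRing (R ⧸ 𝔭)]
    {p : ℕ} (hp : p ≠ 0) (a ρ c : R) (hρ : ρ ∉ 𝔭) (h : ρ ^ p * c - a ^ p ∈ 𝔭) :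
    ∃ β : R, a - ρ * β ∈ 𝔭 ∧ β ^ p - c ∈ 𝔭 := by
  have hρ0 : Ideal.Quotient.mk 𝔭 ρ ≠ 0 := fun h0 => hρ (Ideal.Quotient.eq_zero_iff_mem.mp h0)
  have hq : Ideal.Quotient.mk 𝔭 ρ ^ p * Ideal.Quotient.mk 𝔭 c = Ideal.Quotient.mk 𝔭 a ^ p := by
    rw [← _root_.map_pow, ← _root_.map_pow, ← _root_.map_mul]
    exact Ideal.Quotient.eq.mpr h
  have hdvd : Ideal.Quotient.mk 𝔭 ρ ∣ Ideal.Quotient.mk 𝔭 a := by
    rcases ValuationRing.dvd_total (Ideal.Quotient.mk 𝔭 ρ) (Ideal.Quotient.mk 𝔭 a) with h1 | h1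
    · exact h1
    · obtain ⟨w, hw⟩ := h1
      have ha0 : Ideal.Quotient.mk 𝔭 a ≠ 0 := by
        intro h0
        rw [h0, zero_mul] at hw
        exact hρ0 hw
      have h1 : Ideal.Quotient.mk 𝔭 a ^ p * (w ^ p * Ideal.Quotient.mk 𝔭 c) =
          Ideal.Quotient.mk 𝔭 a ^ p * 1 := by
        calc Ideal.Quotient.mk 𝔭 a ^ p * (w ^ p * Ideal.Quotient.mk 𝔭 c)
            = (Ideal.Quotient.mk 𝔭 a * w) ^ p * Ideal.Quotient.mk 𝔭 c := by ring
          _ = Ideal.Quotient.mk 𝔭 ρ ^ p * Ideal.Quotient.mk 𝔭 c := by rw [← hw]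
          _ = Ideal.Quotient.mk 𝔭 a ^ p := hq
          _ = Ideal.Quotient.mk 𝔭 a ^ p * 1 := (mul_one _).symm
      have h2 : w ^ p * Ideal.Quotient.mk 𝔭 c = 1 := mul_left_cancel₀ (pow_ne_zero _ ha0) h1
      have hw' : IsUnit w := (isUnit_pow_iff hp).mp (IsUnit.of_mul_eq_one _ h2)
      obtain ⟨w', hw'⟩ := hw'
      refine ⟨(↑w'⁻¹ : (R ⧸ 𝔭)), ?_⟩
      rw [hw, ← hw', _root_.mul_assoc, Units.mul_inv, mul_one]
  obtain ⟨β', hβ'⟩ := hdvd
  obtain ⟨β, rfl⟩ := Ideal.Quotient.mk_surjective β'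
  refine ⟨β, ?_, ?_⟩
  · rw [← Ideal.Quotient.eq, _root_.map_mul]
    exact hβ'
  · rw [← Ideal.Quotient.eq, _root_.map_pow]
    have h1 : Ideal.Quotient.mk 𝔭 ρ ^ p * Ideal.Quotient.mk 𝔭 β ^ p =
        Ideal.Quotient.mk 𝔭 ρ ^ p * Ideal.Quotient.mk 𝔭 c := by
      rw [hq, hβ', mul_pow]
    exact mul_left_cancel₀ (pow_ne_zero _ hρ0) h1

/-- Gluing two `p`-th roots of `c` on the branches along the node. -/
theorem wp_glue [IsLocalRing R] {𝔭₁ 𝔭₂ : Ideal R}
    (hsup : 𝔭₁ ⊔ 𝔭₂ = IsLocalRing.maximalIdeal R)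
    {p : ℕ} (hp : p.Prime) (hpm : (p : R) ∈ IsLocalRing.maximalIdeal R) (β₁ β₂ c : R)
    (h₁ : β₁ ^ p - c ∈ 𝔭₁) (h₂ : β₂ ^ p - c ∈ 𝔭₂) :
    ∃ b : R, b - β₁ ∈ 𝔭₁ ∧ b - β₂ ∈ 𝔭₂ := by
  have hm : β₁ ^ p - β₂ ^ p ∈ IsLocalRing.maximalIdeal R := by
    rw [← hsup]
    have : β₁ ^ p - β₂ ^ p = (β₁ ^ p - c) + -(β₂ ^ p - c) := by ring
    rw [this]
    exact Ideal.add_mem _ (Ideal.mem_sup_left h₁) (Ideal.mem_sup_right (𝔭₂.neg_mem h₂))
  obtain ⟨q, hq⟩ := exists_add_pow_prime_eq hp (β₁ - β₂) β₂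
  have hpow : (β₁ - β₂) ^ p ∈ IsLocalRing.maximalIdeal R := by
    have : (β₁ - β₂) ^ p = (β₁ ^ p - β₂ ^ p) - (p : R) * ((β₁ - β₂) * β₂ * q) := by
      have h3 : (β₁ - β₂ + β₂) ^ p = β₁ ^ p := by rw [sub_add_cancel]
      linear_combination h3 - hq
    rw [this]
    exact Ideal.sub_mem _ hm (Ideal.mul_mem_right _ _ hpm)
  have hmem : β₁ - β₂ ∈ IsLocalRing.maximalIdeal R :=
    (IsLocalRing.maximalIdeal.isMaximal R).isPrime.mem_of_pow_mem p hpow
  rw [← hsup] at hmem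
  obtain ⟨u₁, hu₁, u₂, hu₂, hu⟩ := Submodule.mem_sup.mp hmem
  refine ⟨β₁ - u₁, ?_, ?_⟩
  · have : β₁ - u₁ - β₁ = -u₁ := by ring
    rw [this]
    exact 𝔭₁.neg_mem hu₁
  · have : β₁ - u₁ - β₂ = u₂ := by linear_combination -hu
    rw [this]
    exact hu₂

end General

section Node

variable {R : Type*} [CommRing R] [IsDomain R] [IsLocalRing R]
  {𝔭₁ 𝔭₂ : Ideal R} {π x y : R}

theorem wp_pi_ne_zero (hn : IsNode 𝔭₁ 𝔭₂ π x y) : π ≠ 0 := by
  rintro rfl
  have hxy : x * y ∈ 𝔭₁ ⊓ 𝔭₂ := ⟨𝔭₁.mul_mem_left _ hn.hy, 𝔭₂.mul_mem_right _ hn.hx⟩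
  rw [hn.inf_eq, Ideal.mem_span_singleton'] at hxy
  obtain ⟨a, ha⟩ := hxy
  rw [mul_zero] at ha
  rcases mul_eq_zero.mp ha.symm with h | h
  · exact hn.hx₁ (h ▸ 𝔭₁.zero_mem)
  · exact hn.hy₂ (h ▸ 𝔭₂.zero_mem)

omit [IsDomain R] [IsLocalRing R] in
/-- A branch of a node is a discrete valuation ring. -/
theorem wp_isDVR (𝔭 : Ideal R) [𝔭.IsPrime] (ϖ : R)
    (hnu : ¬ IsUnit (Ideal.Quotient.mk 𝔭 ϖ)) (hϖ : ϖ ∉ 𝔭)
    (hunif : ∀ a : R, a ∉ 𝔭 → ∃ s : ℕ, OrdOn 𝔭 ϖ a s) :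
    IsDiscreteValuationRing (R ⧸ 𝔭) := by
  have hϖ0 : Ideal.Quotient.mk 𝔭 ϖ ≠ 0 := fun h0 => hϖ (Ideal.Quotient.eq_zero_iff_mem.mp h0)
  have hfac : ∀ z : R ⧸ 𝔭, z ≠ 0 → ∃ n : ℕ, Associated (Ideal.Quotient.mk 𝔭 ϖ ^ n) z := by
    intro z hz
    obtain ⟨a, rfl⟩ := Ideal.Quotient.mk_surjective z
    have ha : a ∉ 𝔭 := fun h => hz (Ideal.Quotient.eq_zero_iff_mem.mpr h)
    obtain ⟨s, hs⟩ := hunif a ha
    exact ⟨s, hs.symm⟩
  apply IsDiscreteValuationRing.ofHasUnitMulPowIrreducibleFactorization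
  refine ⟨Ideal.Quotient.mk 𝔭 ϖ, ?_, fun {z} hz => hfac z hz⟩
  rw [irreducible_iff]
  refine ⟨hnu, fun a b hab => ?_⟩
  have ha0 : a ≠ 0 := by
    rintro rfl
    rw [zero_mul] at hab
    exact hϖ0 hab
  have hb0 : b ≠ 0 := by
    rintro rfl
    rw [mul_zero] at hab
    exact hϖ0 hab
  obtain ⟨i, hi⟩ := hfac a ha0
  obtain ⟨j, hj⟩ := hfac b hb0
  rcases Nat.eq_zero_or_pos i with h0 | h0
  · left
    subst h0
    rw [pow_zero] at hi
    exact hi.isUnit_iff.mp isUnit_one |> fun h => h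
  rcases Nat.eq_zero_or_pos j with h1 | h1
  · right
    subst h1
    rw [pow_zero] at hj
    exact hj.isUnit_iff.mp isUnit_one |> fun h => h
  exfalso
  obtain ⟨ua, hua⟩ := hi
  obtain ⟨ub, hub⟩ := hj
  obtain ⟨i', rfl⟩ : ∃ i', i = i' + 1 := ⟨i - 1, by omega⟩
  obtain ⟨j', rfl⟩ : ∃ j', j = j' + 1 := ⟨j - 1, by omega⟩
  apply hnu
  have h2 : Ideal.Quotient.mk 𝔭 ϖ * (Ideal.Quotient.mk 𝔭 ϖ ^ (i' + j' + 1) * (ua * ub)) =
      Ideal.Quotient.mk 𝔭 ϖ * 1 := by
    rw [mul_one]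
    conv_rhs => rw [hab, ← hua, ← hub]
    ring
  have h3 := mul_left_cancel₀ hϖ0 h2
  rw [pow_succ, _root_.mul_assoc, _root_.mul_comm, _root_.mul_assoc] at h3
  exact IsUnit.of_mul_eq_one _ h3

/-- `h / r` is approximated by `s` modulo `π ^ j` on the branch `𝔭`. -/
def WpApprox (𝔭 : Ideal R) (π h r s : R) (j : ℕ) : Prop :=
  ∃ r' a : R, r' ∉ 𝔭 ∧ r' * (h - s * r) = π ^ j * a

omit [IsDomain R] [IsLocalRing R] in
theorem wp_branch {p : ℕ} (hp : p.Prime) (π u s h r t : R) (j K : ℕ) (ν : R)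
    (h2 : u * r ^ p - h ^ p = π ^ K * t) (hK : j * p + 1 ≤ K)
    (hpπ : (p : R) * π ^ j = π ^ (j * p + 1) * ν)
    (r' a : R) (h1 : r' * (h - s * r) = π ^ j * a) :
    ∃ w : R, (r' * r) ^ p * (u - s ^ p) = π ^ (j * p) * (a ^ p + π * w) := by
  obtain ⟨q, hq⟩ := wp_expand hp π u s h r r' a t j K h1 h2
  obtain ⟨m, rfl⟩ := Nat.exists_eq_add_of_le hK
  refine ⟨ν * (r' * s * r * a * q) + π ^ m * (r' ^ p * t), ?_⟩
  rw [hq, hpπ]
  ring

/-- The successive approximation step. -/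
theorem wp_step (hn : IsNode 𝔭₁ 𝔭₂ π x y) [h𝔭₁ : 𝔭₁.IsPrime] [h𝔭₂ : 𝔭₂.IsPrime]
    [ValuationRing (R ⧸ 𝔭₁)] [ValuationRing (R ⧸ 𝔭₂)] {p : ℕ} (hp : p.Prime)
    (hpm : (p : R) ∈ IsLocalRing.maximalIdeal R)
    (u h₁ r₁ t₁ h₂ r₂ t₂ : R) (j K : ℕ) (ν : R)
    (hr₁ : r₁ ∉ 𝔭₁) (hr₂ : r₂ ∉ 𝔭₂)
    (e₁ : u * r₁ ^ p - h₁ ^ p = π ^ K * t₁) (e₂ : u * r₂ ^ p - h₂ ^ p = π ^ K * t₂)
    (hK : j * p + 1 ≤ K) (hpπ : (p : R) * π ^ j = π ^ (j * p + 1) * ν)
    (s : R) (A₁ : WpApprox 𝔭₁ π h₁ r₁ s j) (A₂ : WpApprox 𝔭₂ π h₂ r₂ s j) :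
    ∃ s' : R, WpApprox 𝔭₁ π h₁ r₁ s' (j + 1) ∧ WpApprox 𝔭₂ π h₂ r₂ s' (j + 1) := by
  have hπ0 := wp_pi_ne_zero hn
  have hπ : π ∈ 𝔭₁ ⊓ 𝔭₂ := hn.inf_eq ▸ Ideal.mem_span_singleton_self π
  obtain ⟨r₁', a₁, hr₁', f₁⟩ := A₁
  obtain ⟨r₂', a₂, hr₂', f₂⟩ := A₂
  obtain ⟨w₁, g₁⟩ := wp_branch hp π u s h₁ r₁ t₁ j K ν e₁ hK hpπ r₁' a₁ f₁
  obtain ⟨w₂, g₂⟩ := wp_branch hp π u s h₂ r₂ t₂ j K ν e₂ hK hpπ r₂' a₂ f₂
  have hρ₁ : r₁' * r₁ ∉ 𝔭₁ := fun h => (h𝔭₁.mem_or_mem h).elim hr₁' hr₁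
  have hρ₂ : r₂' * r₂ ∉ 𝔭₂ := fun h => (h𝔭₂.mem_or_mem h).elim hr₂' hr₂
  have hρ₁p : (r₁' * r₁) ^ p ∉ 𝔭₁ := fun h => hρ₁ (h𝔭₁.mem_of_pow_mem _ h)
  have hρ₂p : (r₂' * r₂) ^ p ∉ 𝔭₂ := fun h => hρ₂ (h𝔭₂.mem_of_pow_mem _ h)
  obtain ⟨c, hc⟩ : π ^ (j * p) ∣ u - s ^ p :=
    wp_dvd_of_branches hπ0 hn.inf_eq (j * p) (u - s ^ p) _ _ hρ₁p hρ₂p ⟨_, g₁⟩ ⟨_, g₂⟩
  have k₁ : (r₁' * r₁) ^ p * c = a₁ ^ p + π * w₁ :=
    mul_left_cancel₀ (pow_ne_zero (j * p) hπ0) (by rw [← g₁, hc]; ring)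
  have k₂ : (r₂' * r₂) ^ p * c = a₂ ^ p + π * w₂ :=
    mul_left_cancel₀ (pow_ne_zero (j * p) hπ0) (by rw [← g₂, hc]; ring)
  obtain ⟨β₁, hβ₁a, hβ₁c⟩ := wp_exists_root 𝔭₁ hp.ne_zero a₁ (r₁' * r₁) c hρ₁ (by
    rw [show (r₁' * r₁) ^ p * c - a₁ ^ p = π * w₁ by linear_combination k₁]
    exact 𝔭₁.mul_mem_right _ hπ.1)
  obtain ⟨β₂, hβ₂a, hβ₂c⟩ := wp_exists_root 𝔭₂ hp.ne_zero a₂ (r₂' * r₂) c hρ₂ (by
    rw [show (r₂' * r₂) ^ p * c - a₂ ^ p = π * w₂ by linear_combination k₂]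
    exact 𝔭₂.mul_mem_right _ hπ.2)
  obtain ⟨b, hb₁, hb₂⟩ := wp_glue hn.sup_eq hp hpm β₁ β₂ c hβ₁c hβ₂c
  refine ⟨s + π ^ j * b, ?_, ?_⟩
  · have hmem : a₁ - r₁' * r₁ * b ∈ 𝔭₁ := by
      have : a₁ - r₁' * r₁ * b = (a₁ - r₁' * r₁ * β₁) - r₁' * r₁ * (b - β₁) := by ring
      rw [this]
      exact 𝔭₁.sub_mem hβ₁a (𝔭₁.mul_mem_left _ hb₁)
    have hx : x * (a₁ - r₁' * r₁ * b) ∈ 𝔭₁ ⊓ 𝔭₂ :=
      ⟨𝔭₁.mul_mem_left _ hmem, 𝔭₂.mul_mem_right _ hn.hx⟩
    rw [hn.inf_eq, Ideal.mem_span_singleton'] at hx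
    obtain ⟨a', ha'⟩ := hx
    refine ⟨x * r₁', a', fun h => (h𝔭₁.mem_or_mem h).elim hn.hx₁ hr₁', ?_⟩
    linear_combination x * f₁ - π ^ j * ha'
  · have hmem : a₂ - r₂' * r₂ * b ∈ 𝔭₂ := by
      have : a₂ - r₂' * r₂ * b = (a₂ - r₂' * r₂ * β₂) - r₂' * r₂ * (b - β₂) := by ring
      rw [this]
      exact 𝔭₂.sub_mem hβ₂a (𝔭₂.mul_mem_left _ hb₂)
    have hy : y * (a₂ - r₂' * r₂ * b) ∈ 𝔭₁ ⊓ 𝔭₂ :=
      ⟨𝔭₁.mul_mem_right _ hn.hy, 𝔭₂.mul_mem_left _ hmem⟩
    rw [hn.inf_eq, Ideal.mem_span_singleton'] at hy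
    obtain ⟨a', ha'⟩ := hy
    refine ⟨y * r₂', a', fun h => (h𝔭₂.mem_or_mem h).elim hn.hy₂ hr₂', ?_⟩
    linear_combination y * f₂ - π ^ j * ha'

theorem wp_exp_arith (p e j : ℕ) (hp : 2 ≤ p) (hj : j < e) :
    ∃ n, e * (p - 1) + j = j * p + 1 + n := by
  obtain ⟨q, rfl⟩ : ∃ q, p = q + 2 := ⟨p - 2, by omega⟩
  obtain ⟨m, rfl⟩ : ∃ m, e = j + 1 + m := ⟨e - j - 1, by omega⟩
  refine ⟨q + m * (q + 1), ?_⟩
  have : q + 2 - 1 = q + 1 := rfl
  rw [this]
  ring

end Node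

section Main

/-- The core: a unit which is a `p`-th power modulo `π ^ (e p)` on both branches is a `p`-th power
modulo `π ^ (e p)`. -/
theorem wp_core {R : Type*} [CommRing R] [IsDomain R] [IsLocalRing R]
    {𝔭₁ 𝔭₂ : Ideal R} {π x y : R} (hn : IsNode 𝔭₁ 𝔭₂ π x y)
    [h𝔭₁ : 𝔭₁.IsPrime] [h𝔭₂ : 𝔭₂.IsPrime]
    [ValuationRing (R ⧸ 𝔭₁)] [ValuationRing (R ⧸ 𝔭₂)] {p : ℕ} (hp : p.Prime)
    (e : ℕ) (he : 0 < e) (ν : R) (hpR : (p : R) = ν * π ^ (e * (p - 1)))
    (u : R) (hu : IsUnit u)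
    (H₁ : ∃ h r t : R, r ∉ 𝔭₁ ∧ u * r ^ p - h ^ p = π ^ (e * p) * t)
    (H₂ : ∃ h r t : R, r ∉ 𝔭₂ ∧ u * r ^ p - h ^ p = π ^ (e * p) * t) :
    ∃ s c : R, IsUnit s ∧ u = s ^ p + π ^ (e * p) * c := by
  have hπ0 := wp_pi_ne_zero hn
  have hπ : π ∈ 𝔭₁ ⊓ 𝔭₂ := hn.inf_eq ▸ Ideal.mem_span_singleton_self π
  have hπm : π ∈ IsLocalRing.maximalIdeal R := hn.sup_eq ▸ Ideal.mem_sup_left hπ.1
  have hp2 := hp.two_le
  have hpm : (p : R) ∈ IsLocalRing.maximalIdeal R := by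
    rw [hpR]
    exact Ideal.mul_mem_left _ _
      (Ideal.pow_mem_of_mem _ hπm _ (Nat.mul_pos he (by omega)))
  obtain ⟨h₁, r₁, t₁, hr₁, e₁⟩ := H₁
  obtain ⟨h₂, r₂, t₂, hr₂, e₂⟩ := H₂
  have ind : ∀ j, j ≤ e → ∃ s, WpApprox 𝔭₁ π h₁ r₁ s j ∧ WpApprox 𝔭₂ π h₂ r₂ s j := by
    intro j
    induction j with
    | zero =>
      intro _
      refine ⟨0, ⟨1, h₁ - 0 * r₁, fun h => h𝔭₁.ne_top ((Ideal.eq_top_iff_one _).mpr h), by ring⟩,
        ⟨1, h₂ - 0 * r₂, fun h => h𝔭₂.ne_top ((Ideal.eq_top_iff_one _).mpr h), by ring⟩⟩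
    | succ j ih =>
      intro hj
      obtain ⟨s, A₁, A₂⟩ := ih (by omega)
      obtain ⟨n, hn'⟩ := wp_exp_arith p e j hp2 (by omega)
      have hpπ : (p : R) * π ^ j = π ^ (j * p + 1) * (ν * π ^ n) := by
        rw [hpR, _root_.mul_assoc, ← pow_add, hn', pow_add]
        ring
      have hK : j * p + 1 ≤ e * p :=
        calc j * p + 1 ≤ j * p + p := by omega
          _ = (j + 1) * p := by ring
          _ ≤ e * p := Nat.mul_le_mul_right p hj
      exact wp_step hn hp hpm u h₁ r₁ t₁ h₂ r₂ t₂ j (e * p) (ν * π ^ n) hr₁ hr₂ e₁ e₂ hK hpπ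
        s A₁ A₂
  obtain ⟨s, ⟨r₁', a₁, hr₁', f₁⟩, ⟨r₂', a₂, hr₂', f₂⟩⟩ := ind e le_rfl
  obtain ⟨q₁, E₁⟩ := wp_expand hp π u s h₁ r₁ r₁' a₁ t₁ e (e * p) f₁ e₁
  obtain ⟨q₂, E₂⟩ := wp_expand hp π u s h₂ r₂ r₂' a₂ t₂ e (e * p) f₂ e₂
  have hpe : (p : R) * π ^ e = π ^ (e * p) * ν := by
    have h1 : e * (p - 1) + e = e * p := by
      obtain ⟨q, rfl⟩ : ∃ q, p = q + 1 := ⟨p - 1, by omega⟩
      have : q + 1 - 1 = q := rfl
      rw [this]
      ring
    rw [hpR, _root_.mul_assoc, ← pow_add, h1]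
    ring
  have hρ₁p : (r₁' * r₁) ^ p ∉ 𝔭₁ := fun h =>
    (h𝔭₁.mem_or_mem (h𝔭₁.mem_of_pow_mem _ h)).elim hr₁' hr₁
  have hρ₂p : (r₂' * r₂) ^ p ∉ 𝔭₂ := fun h =>
    (h𝔭₂.mem_or_mem (h𝔭₂.mem_of_pow_mem _ h)).elim hr₂' hr₂
  have d₁ : π ^ (e * p) ∣ (r₁' * r₁) ^ p * (u - s ^ p) :=
    ⟨a₁ ^ p + ν * (r₁' * s * r₁ * a₁ * q₁) + r₁' ^ p * t₁, by rw [E₁, hpe]; ring⟩
  have d₂ : π ^ (e * p) ∣ (r₂' * r₂) ^ p * (u - s ^ p) :=
    ⟨a₂ ^ p + ν * (r₂' * s * r₂ * a₂ * q₂) + r₂' ^ p * t₂, by rw [E₂, hpe]; ring⟩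
  obtain ⟨c, hc⟩ := wp_dvd_of_branches hπ0 hn.inf_eq (e * p) (u - s ^ p) _ _ hρ₁p hρ₂p d₁ d₂
  have husc : u = s ^ p + π ^ (e * p) * c := by linear_combination hc
  refine ⟨s, c, ?_, husc⟩
  by_contra hs
  have hsm : s ∈ IsLocalRing.maximalIdeal R := (IsLocalRing.mem_maximalIdeal s).mpr hs
  have hum : u ∈ IsLocalRing.maximalIdeal R := by
    rw [husc]
    exact Ideal.add_mem _ (Ideal.pow_mem_of_mem _ hsm _ hp.pos)
      (Ideal.mul_mem_right _ _ (Ideal.pow_mem_of_mem _ hπm _ (Nat.mul_pos he hp.pos)))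
  exact (IsLocalRing.mem_maximalIdeal u).mp hum hu

/-- **WPUR** (wild purity at a node). -/
theorem wildPurity : WildPurityStatement := by
  intro R _ _ _ _ _ 𝔭₁ 𝔭₂ π x y hn p hp lam ε η e hε hlam hη he hlamπ g hg₁ hg₂ hHor H₁ H₂
  have h𝔭₁ := hn.prime₁
  have h𝔭₂ := hn.prime₂
  have : IsDiscreteValuationRing (R ⧸ 𝔭₁) := wp_isDVR 𝔭₁ x hn.nonunit₁ hn.hx₁ hn.unif₁
  have : IsDiscreteValuationRing (R ⧸ 𝔭₂) := wp_isDVR 𝔭₂ y hn.nonunit₂ hn.hy₂ hn.unif₂
  have hπ : π ∈ 𝔭₁ ⊓ 𝔭₂ := hn.inf_eq ▸ Ideal.mem_span_singleton_self π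
  -- the reductions of `g` are `p`-th powers
  have H2₁ : ∃ v : R ⧸ 𝔭₁, Associated (v ^ p) (Ideal.Quotient.mk 𝔭₁ g) := by
    obtain ⟨h, r, t, hr, hk⟩ := H₁ 1
    obtain ⟨β, -, hβ⟩ := wp_exists_root 𝔭₁ hp.ne_zero h r g hr (by
      rw [show r ^ p * g - h ^ p = π * t by linear_combination hk]
      exact 𝔭₁.mul_mem_right _ hπ.1)
    refine ⟨Ideal.Quotient.mk 𝔭₁ β, ?_⟩
    rw [← _root_.map_pow, Ideal.Quotient.eq.mpr hβ]
  have H2₂ : ∃ v : R ⧸ 𝔭₂, Associated (v ^ p) (Ideal.Quotient.mk 𝔭₂ g) := by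
    obtain ⟨h, r, t, hr, hk⟩ := H₂ 1
    obtain ⟨β, -, hβ⟩ := wp_exists_root 𝔭₂ hp.ne_zero h r g hr (by
      rw [show r ^ p * g - h ^ p = π * t by linear_combination hk]
      exact 𝔭₂.mul_mem_right _ hπ.2)
    refine ⟨Ideal.Quotient.mk 𝔭₂ β, ?_⟩
    rw [← _root_.map_pow, Ideal.Quotient.eq.mpr hβ]
  -- purity at the node
  obtain ⟨f, ε₀, hgf⟩ := Fermat.Agent.A2.H609.exists_unit_mul_pow_of_node hp.ne_zero 𝔭₁ 𝔭₂
    hn.inf_eq hn.sup_eq hg₁ hg₂ hHor H2₁ H2₂
  have hf₁ : f ∉ 𝔭₁ := fun h =>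
    hg₁ (by rw [hgf]; exact 𝔭₁.mul_mem_left _ (Ideal.pow_mem_of_mem _ h _ hp.pos))
  have hf₂ : f ∉ 𝔭₂ := fun h =>
    hg₂ (by rw [hgf]; exact 𝔭₂.mul_mem_left _ (Ideal.pow_mem_of_mem _ h _ hp.pos))
  have hf0 : f ≠ 0 := fun h => hf₁ (h ▸ 𝔭₁.zero_mem)
  obtain ⟨ε', hε'⟩ := hε.exists_right_inv
  obtain ⟨η', hη'⟩ := hη.exists_right_inv
  have hpR : (p : R) = (η ^ (p - 1) * ε') * π ^ (e * (p - 1)) := by
    have h1 : lam ^ (p - 1) * ε' = p := by rw [hlam, _root_.mul_assoc, hε', mul_one]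
    rw [← h1, hlamπ, mul_pow, ← pow_mul]
    ring
  have K₁ : ∃ h r t : R, r ∉ 𝔭₁ ∧ (ε₀ : R) * r ^ p - h ^ p = π ^ (e * p) * t := by
    obtain ⟨h, r, t, hr, hk⟩ := H₁ (e * p)
    exact ⟨h, f * r, t, fun h' => (h𝔭₁.mem_or_mem h').elim hf₁ hr, by rw [← hk, hgf]; ring⟩
  have K₂ : ∃ h r t : R, r ∉ 𝔭₂ ∧ (ε₀ : R) * r ^ p - h ^ p = π ^ (e * p) * t := by
    obtain ⟨h, r, t, hr, hk⟩ := H₂ (e * p)
    exact ⟨h, f * r, t, fun h' => (h𝔭₂.mem_or_mem h').elim hf₂ hr, by rw [← hk, hgf]; ring⟩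
  obtain ⟨s, c, hs, hsc⟩ := wp_core hn hp e he _ hpR (ε₀ : R) ε₀.isUnit K₁ K₂
  obtain ⟨s', hs'⟩ := hs.exists_right_inv
  have h1 : (η * η') ^ p = 1 := by rw [hη', one_pow]
  have h2 : (s * s') ^ p = 1 := by rw [hs', one_pow]
  refine ⟨f, 1, s, c * η' ^ p * s' ^ p, hf0, one_ne_zero, hs, ?_⟩
  rw [hgf, hlamπ]
  linear_combination f ^ p * hsc - f ^ p * π ^ (e * p) * c * (s * s') ^ p * h1
    - f ^ p * π ^ (e * p) * c * h2

end Main

end Fermat.Agent.Ribet.H7

end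
-- ===== PACK-END Ribet/H7/WildPurity.lean

-- ===== PACK-BEGIN A2/H729/GaussClosed.lean
section



/-!
# A2 (helper729): the canonical Gauss ring is integrally closed in `F`

* `mem_chart_of_isIntegral_chart` : the charts are integrally closed in `F`.
* `mem_gaussO_of_isIntegral` : the Gauss ring `gaussO hw x` is integrally closed in `F`.
* `inv_not_mem_gaussO` : `w⁻¹ ∉ gaussO`.
-/

set_option autoImplicit false
set_option linter.unusedSectionVars false
set_option linter.style.haveILetI false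

namespace Fermat.Agent.A2.H729

open Polynomial Fermat.Agent.S18.H138

variable {R : Type*} [CommRing R] {F : Type*} [Field F] [Algebra R F]

/-- An element integral over a chart lies in the chart. -/
theorem mem_chart_of_isIntegral_chart {S : Set F} {y : F} (hy : IsIntegral (chart R S) y) :
    y ∈ chart R S := by
  rw [mem_chart]
  have h1 : IsIntegral (integralClosure (Algebra.adjoin R S) F) y := hy
  exact isIntegral_trans (R := Algebra.adjoin R S) (A := integralClosure (Algebra.adjoin R S) F)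
    y h1

theorem IsGaussDenom.prod {w : R} (hw : Prime w) (x : F) {ι : Type*} (s : Finset ι)
    (g : ι → F) (h : ∀ i ∈ s, IsGaussDenom w x (g i)) : IsGaussDenom w x (∏ i ∈ s, g i) := by
  classical
  induction s using Finset.induction_on with
  | empty => simpa using isGaussDenom_one hw x
  | insert a s ha ih =>
    rw [Finset.prod_insert ha]
    exact (h a (Finset.mem_insert_self a s)).mul hw
      (ih fun i hi => h i (Finset.mem_insert_of_mem hi))

/-- The Gauss ring is integrally closed in `F`. -/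
theorem mem_gaussO_of_isIntegral {w : R} (hw : Prime w) {x f : F}
    (hf : IsIntegral (gaussO hw x) f) : f ∈ gaussO hw x := by
  classical
  obtain ⟨p, hpm, hp⟩ := hf
  have hden : ∀ i : ℕ, ∃ s, IsGaussDenom w x s ∧
      s * ((p.coeff i : gaussO hw x) : F) ∈ chart R ({x} : Set F) := fun i => (p.coeff i).2
  choose s hs hsc using hden
  have hS : IsGaussDenom w x (∏ i ∈ Finset.range p.natDegree, s i) :=
    IsGaussDenom.prod hw x _ _ (fun i _ => hs i)
  have hSch : (∏ i ∈ Finset.range p.natDegree, s i) ∈ chart R ({x} : Set F) :=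
    adjoin_le_chart _ hS.mem_adjoin
  have hSmem : (∏ i ∈ Finset.range p.natDegree, s i) ∈ gaussO hw x :=
    chart_fin_le_gaussO hw x hSch
  have hScoeff : ∀ i < p.natDegree,
      (∏ i ∈ Finset.range p.natDegree, s i) * ((p.coeff i : gaussO hw x) : F) ∈
        chart R ({x} : Set F) := by
    intro i hi
    have h1 : (∏ j ∈ Finset.range p.natDegree, s j) =
        s i * ∏ j ∈ (Finset.range p.natDegree).erase i, s j :=
      (Finset.mul_prod_erase _ _ (Finset.mem_range.2 hi)).symm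
    rw [h1, mul_right_comm]
    exact Subalgebra.mul_mem _ (hsc i)
      (Subalgebra.prod_mem _ fun j _ => adjoin_le_chart _ (hs j).mem_adjoin)
  generalize hSdef : (∏ i ∈ Finset.range p.natDegree, s i) = S at hS hSch hSmem hScoeff
  -- the scaled polynomial
  have hroot : eval₂ (algebraMap (gaussO hw x) F) (S * f)
      (scaleRoots p (⟨S, hSmem⟩ : gaussO hw x)) = 0 := by
    have h1 := scaleRoots_eval₂_mul (p := p) (algebraMap (gaussO hw x) F) f
      (⟨S, hSmem⟩ : gaussO hw x)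
    have h2 : algebraMap (gaussO hw x) F (⟨S, hSmem⟩ : gaussO hw x) = S := rfl
    rw [h2] at h1
    rw [h1, hp, mul_zero]
  have hlift : scaleRoots p (⟨S, hSmem⟩ : gaussO hw x) ∈
      lifts (Subalgebra.inclusion (chart_fin_le_gaussO hw x)).toRingHom := by
    rw [lifts_iff_coeff_lifts]
    intro i
    rw [coeff_scaleRoots]
    rcases lt_trichotomy i p.natDegree with hi | hi | hi
    · have h1 : ((p.coeff i : gaussO hw x) : F) * S ^ (p.natDegree - i) ∈
          chart R ({x} : Set F) := by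
        have h2 : S ^ (p.natDegree - i) = S * S ^ (p.natDegree - i - 1) := by
          rw [← pow_succ']; congr 1; omega
        have h3 : ((p.coeff i : gaussO hw x) : F) * S ^ (p.natDegree - i) =
            (S * ((p.coeff i : gaussO hw x) : F)) * S ^ (p.natDegree - i - 1) := by
          rw [h2]; ring
        rw [h3]
        exact Subalgebra.mul_mem _ (hScoeff i hi) (Subalgebra.pow_mem _ hSch _)
      exact ⟨⟨_, h1⟩, Subtype.ext rfl⟩
    · rw [hi, hpm.coeff_natDegree, Nat.sub_self, pow_zero, mul_one]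
      exact ⟨1, _root_.map_one _⟩
    · rw [coeff_eq_zero_of_natDegree_lt hi, zero_mul]
      exact ⟨0, _root_.map_zero _⟩
  obtain ⟨q, hq, -, hqm⟩ := lifts_and_degree_eq_and_monic hlift
    ((monic_scaleRoots_iff (⟨S, hSmem⟩ : gaussO hw x)).2 hpm)
  have hint : IsIntegral (chart R ({x} : Set F)) (S * f) := by
    refine ⟨q, hqm, ?_⟩
    have h1 : (algebraMap (gaussO hw x) F).comp
        (Subalgebra.inclusion (chart_fin_le_gaussO hw x)).toRingHom =
        algebraMap (chart R ({x} : Set F)) F := rfl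
    rw [← h1, ← eval₂_map, hq]
    exact hroot
  exact ⟨S, hS, mem_chart_of_isIntegral_chart hint⟩

section Dom

variable [IsDomain R] [IsIntegrallyClosed (Polynomial R)]

/-- `w` is not a unit of the Gauss ring. -/
theorem inv_not_mem_gaussO (hinjR : Function.Injective (algebraMap R F)) {w : R}
    (hw : Prime w) {x : F} (hx : Transcendental R x) :
    (algebraMap R F w)⁻¹ ∉ gaussO hw x := by
  intro h
  have hw0 : algebraMap R F w ≠ 0 := fun h0 => hw.ne_zero (hinjR (by rw [h0, _root_.map_zero]))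
  have h1 : InW (gaussO hw x) w (algebraMap R F 1) := by
    refine ⟨_, h, ?_⟩
    rw [_root_.map_one, mul_inv_cancel₀ hw0]
  obtain ⟨t, ht, htt⟩ := qep_fin hw hx _ (Subalgebra.algebraMap_mem _ (1 : R)) h1
  have h2 : w ∣ (1 : R) := dvd_of_algebraMap_eq_mul hinjR hx w 1 ht htt
  exact hw.not_isUnit (isUnit_of_dvd_one h2)

end Dom

end Fermat.Agent.A2.H729

end
-- ===== PACK-END A2/H729/GaussClosed.lean

-- ===== PACK-BEGIN A2/H552/ConstLeaf.lean
section



/-!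
# A2 / route G, leaf CONST (helper552)

Hand-in for the leaf `Fermat.Agent.A2.H12.ConstLeaf` of `H12/AlgLeaves.lean`:

* `constConclusion_of_sheet` : the conclusion `ConstConclusion L x` for ANY finite extension
  `L / F` possessing ONE sheet `W` (valuation subring over the Gauss valuation) in which `w`
  generates the non-units (`e = 1`).  No Kummer hypothesis.
* `constLeaf_of_base_sheets : BaseLeaf → SheetsLeaf → ConstLeaf` : the leaf, from the conclusions
  `BaseConclusion.exists_sheet`, `SheetsConclusion.exists_over`, `SheetsConclusion.unif`.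

The proof of `closed` is `mem_range_of_isAlgebraic_of_valuationSubring` (`H552/Const.lean`, HENS:
`R` Henselian with algebraically closed residue field of characteristic zero fraction field);
`finite` is the tower `Frac R (x) ⊆ F ⊆ L`.
-/

set_option autoImplicit false

namespace Fermat.Agent.A2.H552

open Fermat.Agent.A2 Fermat.Agent.A2.H12
open Fermat.Agent.S18.H138 (baseField)

section Finite

variable {R E F L : Type*} [CommRing R] [Field E] [Algebra R E] [IsFractionRing R E]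
  [Field F] [Algebra E F] [Algebra R F] [IsScalarTower R E F]
  [Field L] [Algebra F L] [Algebra R L] [IsScalarTower R F L]

/-- The constants `E = Frac R` lie in the base field of the `x`-line of `L`. -/
theorem algebraMap_mem_baseField_cover (x : F) (e : E) :
    algebraMap F L (algebraMap E F e) ∈ baseField R (algebraMap F L x) := by
  obtain ⟨a, b, -, rfl⟩ := IsFractionRing.div_surjective (A := R) e
  rw [map_div₀, map_div₀, ← IsScalarTower.algebraMap_apply R E F,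
    ← IsScalarTower.algebraMap_apply R E F, ← IsScalarTower.algebraMap_apply R F L,
    ← IsScalarTower.algebraMap_apply R F L]
  exact div_mem (Subfield.subset_closure (Or.inl ⟨a, rfl⟩))
    (Subfield.subset_closure (Or.inl ⟨b, rfl⟩))

/-- `E(x) ⊆ F` maps into the base field of the `x`-line of `L`. -/
theorem algebraMap_mem_baseField_of_mem_adjoin (x : F) {z : F}
    (hz : z ∈ IntermediateField.adjoin E ({x} : Set F)) :
    algebraMap F L z ∈ baseField R (algebraMap F L x) := by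
  have h : IntermediateField.adjoin E ({x} : Set F) ≤
      Subfield.toIntermediateField ((baseField R (algebraMap F L x)).comap (algebraMap F L))
        (fun e => algebraMap_mem_baseField_cover (R := R) (L := L) x e) := by
    rw [IntermediateField.adjoin_le_iff]
    rintro y hy
    rw [Set.mem_singleton_iff] at hy
    subst hy
    exact Subfield.subset_closure (Or.inr rfl)
  exact h hz

/-- **CONST, finiteness part**: if `F` is finite over `E(x)` and `L` is finite over `F`, then `L`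
is finite over the base field `Frac R (x)` of the `x`-line of `L`. -/
theorem finiteDimensional_baseField_cover (x : F)
    (hfin : FiniteDimensional (IntermediateField.adjoin E ({x} : Set F)) F)
    [FiniteDimensional F L] :
    FiniteDimensional (baseField R (algebraMap F L x)) L := by
  let K := IntermediateField.adjoin E ({x} : Set F)
  let K' := baseField R (algebraMap F L x)
  have : Module.Finite K L := Module.Finite.trans F L
  let φ : K →+* K' :=
    { toFun := fun a => ⟨algebraMap F L a, algebraMap_mem_baseField_of_mem_adjoin (R := R) x a.2⟩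
      map_one' := Subtype.ext (map_one _)
      map_mul' := fun a b => Subtype.ext (map_mul _ _ _)
      map_zero' := Subtype.ext (map_zero _)
      map_add' := fun a b => Subtype.ext (map_add _ _ _) }
  let _ : Algebra K K' := φ.toAlgebra
  have : IsScalarTower K K' L := IsScalarTower.of_algebraMap_eq fun _ => rfl
  exact Module.Finite.of_restrictScalars_finite K K' L

end Finite

section Closed

variable {R E L : Type*} [CommRing R] [IsDomain R] [IsDiscreteValuationRing R]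
  [HenselianLocalRing R] [IsAlgClosed (IsLocalRing.ResidueField R)]
  [Field E] [CharZero E] [Algebra R E] [IsFractionRing R E]
  [Field L] [Algebra E L] [Algebra R L] [IsScalarTower R E L]

variable (E) in
include E in
/-- **CONST, closedness part**: `R` is integrally closed in any extension `L` of `E = Frac R`
possessing a valuation subring `W ⊇ R` in which `w` is a non-unit generating the non-units. -/
theorem isIntegral_mem_range_of_unramified (w : R) (hw : Irreducible w)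
    (W : ValuationSubring L) (hRW : ∀ r : R, algebraMap R L r ∈ W)
    (hwW : algebraMap R L w ∈ W.nonunits)
    (hunif : ∀ a ∈ W.nonunits, ∃ b ∈ W, a = algebraMap R L w * b)
    (y : L) (hy : IsIntegral R y) : y ∈ Set.range (algebraMap R L) := by
  have hinjRL : Function.Injective (algebraMap R L) := by
    rw [IsScalarTower.algebraMap_eq R E L]
    exact (algebraMap E L).injective.comp (IsFractionRing.injective R E)
  have hwL : algebraMap R L w ≠ 0 := fun h0 => hw.ne_zero (hinjRL (by rw [h0, map_zero]))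
  have hwinv : (algebraMap R L w)⁻¹ ∉ W := by
    intro hmem
    have h1 := (ValuationSubring.mem_nonunits_iff W).1 hwW
    have h2 : W.valuation (algebraMap R L w)⁻¹ ≤ 1 := (W.valuation_le_one_iff _).2 hmem
    rw [map_inv₀] at h2
    have h3 : W.valuation (algebraMap R L w) ≠ 0 := (W.valuation.ne_zero_iff).2 hwL
    have h4 : (1 : W.ValueGroup) ≤ W.valuation (algebraMap R L w) := by
      rwa [inv_le_one₀ (zero_lt_iff.2 h3)] at h2
    exact absurd h1 (not_lt.2 h4)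
  have hgen : ∀ b ∈ W, b⁻¹ ∉ W → b * (algebraMap R L w)⁻¹ ∈ W := by
    intro b hb hbinv
    have hbn : b ∈ W.nonunits := by
      rw [ValuationSubring.mem_nonunits_iff W]
      rcases eq_or_ne b 0 with h0 | h0
      · rw [h0, map_zero]
        exact zero_lt_one
      · have h1 : W.valuation b ≤ 1 := (W.valuation_le_one_iff _).2 hb
        refine lt_of_le_of_ne h1 fun h2 => hbinv ?_
        rw [← W.valuation_le_one_iff, map_inv₀, h2, inv_one]
    obtain ⟨c, hc, rfl⟩ := hunif b hbn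
    rw [mul_comm, ← mul_assoc, inv_mul_cancel₀ hwL, one_mul]
    exact hc
  have hyalg : IsAlgebraic E y := (IsFractionRing.isAlgebraic_iff R E L).mp hy.isAlgebraic
  obtain ⟨e, rfl⟩ := mem_range_of_isAlgebraic_of_valuationSubring (E := E) w hw W hRW hwinv hgen
    y hyalg
  have he : IsIntegral R e := (isIntegral_algebraMap_iff (algebraMap E L).injective).mp hy
  obtain ⟨r, rfl⟩ := (IsIntegrallyClosed.isIntegral_iff (R := R) (K := E)).mp he
  exact ⟨r, IsScalarTower.algebraMap_apply R E L r⟩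

end Closed

section Leaf

/-- **CONST for a cover with one unramified sheet.**  `L / F` finite, `W` a sheet of `L` in which
`w` generates the non-units.  Then `R` is integrally closed in `L` and `L` is finite over
`Frac R (x)`. -/
theorem constConclusion_of_sheet {R E F : Type} [CommRing R] [IsDomain R]
    [IsDiscreteValuationRing R] [HenselianLocalRing R] [IsAlgClosed (IsLocalRing.ResidueField R)]
    [Field E] [CharZero E] [Algebra R E] [IsFractionRing R E]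
    [Field F] [Algebra E F] [Algebra R F] [IsScalarTower R E F]
    (w : R) (hw : Irreducible w) (x : F)
    (hfin : FiniteDimensional (IntermediateField.adjoin E ({x} : Set F)) F)
    (L : Type) [Field L] [Algebra F L] [Algebra R L] [IsScalarTower R F L]
    [FiniteDimensional F L]
    (W : ValuationSubring L) (hW : IsSheet w (algebraMap F L x) W)
    (hunif : ∀ a ∈ W.nonunits, ∃ b ∈ W, a = algebraMap R L w * b) :
    ConstConclusion (R := R) L x := by
  let _ : Algebra E L := ((algebraMap F L).comp (algebraMap E F)).toAlgebra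
  have hEL : ∀ e : E, algebraMap E L e = algebraMap F L (algebraMap E F e) := fun _ => rfl
  have : IsScalarTower R E L := IsScalarTower.of_algebraMap_eq fun r => by
    rw [hEL, ← IsScalarTower.algebraMap_apply R E F, ← IsScalarTower.algebraMap_apply R F L]
  exact
    { closed := fun y hy =>
        isIntegral_mem_range_of_unramified (E := E) w hw W hW.1 hW.2.2.1 hunif y hy
      finite := finiteDimensional_baseField_cover (R := R) (E := E) x hfin }

/-- **Leaf CONST** of route G, from the leaves BASE (existence of a sheet of `F`) and SHEETS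
(existence of a sheet of `L` above it, with uniformiser `w`). -/
theorem constLeaf_of_base_sheets (hB : BaseLeaf) (hS : SheetsLeaf) : ConstLeaf := by
  intro R E F _ _ _ _ _ _ _ _ _ _ _ _ _ w q m x Bf Bi τ τE τR ctx L _ _ _ _ hL
  obtain ⟨V, hV⟩ := (hB w q m x Bf Bi τ τE τR ctx).exists_sheet
  have hSh := hS w q m x Bf Bi τ τE τR ctx L hL
  obtain ⟨W, hW, -⟩ := hSh.exists_over V hV
  have := hL.finite
  exact constConclusion_of_sheet (E := E) w ctx.irr x ctx.fin L W hW (hSh.unif W hW)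

end Leaf

end Fermat.Agent.A2.H552

end
-- ===== PACK-END A2/H552/ConstLeaf.lean

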