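import Mathlib
import Fermat.Prelude.Def_AlgebraicCurve_DivisorClassGroup
import Mathlib.RingTheory.Ideal.GoingUp
import Fermat.Agent.Pack.S33.E15L0
import Fermat.Agent.Pack.S33.E1L0
import Fermat.Agent.Pack.S33.E15L3
import Fermat.Agent.Pack.S33.E15L2
import Fermat.Agent.Pack.S33.E5L3
import Fermat.Agent.Pack.S33.E15L1
import Fermat.Agent.Pack.S33.E5L1
import Fermat.Agent.Pack.S33.E2L2
import Fermat.Agent.Pack.S33.E2L3
import Fermat.Agent.Pack.S33.E13L0

-- ===== PACK-BEGIN S37/Core/AssemblePull.lean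
section


/-!
# S37 row (helper37): assembly through an auxiliary level

For `ℓ ∈ {2, 3}` the smooth model is only available at levels `M` divisible by an auxiliary
prime.  `PullData N M ℓ` is the interface of piece [PULL]: a pullback map
`π^* : J₀(N) → J₀(M)` which is Galois equivariant, injective on prime-to-`ℓ` torsion and
commutes with `T_ℓ`.  `result_of_pieces'` is the variant of `result_of_pieces` in which the
place reduction may live at any such level `M` (take `M = N`, `pull = id` when possible).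
Fully proved.
-/

set_option autoImplicit false
set_option synthInstance.maxHeartbeats 400000

noncomputable section

namespace Fermat.Agent.S37.Core

open ModularCurve ValuationSubring AlgebraicCurve HahnSeries Fermat.Agent.S37.H99

/-- Interface of piece [PULL]. -/
structure PullData (N M : ℕ) [NeZero N] [NeZero M] (ℓ : ℕ) [NeZero ℓ] : Type where
  /-- the pullback map -/
  pull : JZero N →+ JZero M
  galois : ∀ (σ : AlgebraicClosure ℚ ≃ₐ[ℚ] AlgebraicClosure ℚ) (x : JZero N),
    pull (σ • x) = σ • pull x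
  inj_torsion : ∀ (m : ℕ), ¬ ℓ ∣ m → ∀ x : JZero N, m • x = 0 → pull x = 0 → x = 0
  hecke : ∀ x : JZero N,
    pull (heckeOperatorAlong (AlgebraicClosure ℚ) N ℓ x) =
      heckeOperatorAlong (AlgebraicClosure ℚ) M ℓ (pull x)

/-- the trivial pull datum -/
def PullData.refl (N : ℕ) [NeZero N] (ℓ : ℕ) [NeZero ℓ] : PullData N N ℓ where
  pull := AddMonoidHom.id _
  galois _ _ := rfl
  inj_torsion _ _ _ _ h := h
  hecke _ := rfl

/-- **S37 at one place from the pieces, through an auxiliary level `M`.** -/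
theorem isWeakRed_of_placeRed_pull (N M p : ℕ) [NeZero N] [NeZero M]
    (hcomm : HeckeOperatorsCommuteBar N)
    (A : ValuationSubring (AlgebraicClosure ℚ)) (ℓ : ℕ) (hℓ : ℓ.Prime) (hℓp : ¬ ℓ ∣ p)
    (σ₀ : AlgebraicClosure ℚ ≃ₐ[ℚ] AlgebraicClosure ℚ) (hσ₀ : A.IsFrobeniusAt σ₀ ℓ)
    (HIA : haveI : NeZero ℓ := ⟨hℓ.ne_zero⟩; HeckeInputsAlong (AlgebraicClosure ℚ) M ℓ)
    (hS18 : InjTorsionModL M ℓ A)
    (D : haveI : NeZero ℓ := ⟨hℓ.ne_zero⟩; PlaceRed M A ℓ σ₀)
    (Pd : haveI : NeZero ℓ := ⟨hℓ.ne_zero⟩; PullData N M ℓ) :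
    letI := heckeModuleBar N
    ∀ (_ : SMulCommClass (AlgebraicClosure ℚ ≃ₐ[ℚ] AlgebraicClosure ℚ) HeckeAlg (JZero N)),
      IsWeakRed (K := ℚ) p (JZero N) A ℓ hℓ σ₀
        (haveI : NeZero ℓ := ⟨hℓ.ne_zero⟩; D.red.comp Pd.pull) := by
  letI := heckeModuleBar N
  haveI : NeZero ℓ := ⟨hℓ.ne_zero⟩
  intro _
  refine ⟨hσ₀, ?_, ?_, ?_⟩
  · intro τ hτ x
    show D.red (Pd.pull (τ • x)) = D.red (Pd.pull x)
    rw [Pd.galois, D.red_inertia hτ]
  · rintro x ⟨n, hn⟩ hx
    have hℓpn : ¬ ℓ ∣ p ^ n := fun h => hℓp (hℓ.dvd_of_dvd_pow h)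
    refine Pd.inj_torsion (p ^ n) hℓpn x hn ?_
    refine D.red_inj_torsion hS18 (m := p ^ n) hℓpn ?_ hx
    rw [← map_nsmul, hn, _root_.map_zero]
  · intro x
    rw [heckeModuleBar_heckeGen_smul hcomm ⟨ℓ, hℓ⟩ (σ₀ • x)]
    show D.red (Pd.pull (σ₀ • σ₀ • x - heckeOperatorAlong (AlgebraicClosure ℚ) N ℓ (σ₀ • x)
      + ℓ • x)) = 0
    rw [_root_.map_add, _root_.map_sub, map_nsmul, Pd.galois, Pd.galois, Pd.hecke, Pd.galois]
    exact D.red_relation HIA (Pd.pull x)

/-- **S37 from the pieces, the place reduction living at auxiliary levels.** -/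
theorem result_of_pieces' (N p : ℕ) [NeZero N]
    (H : ∀ (ℓ : ℕ) (hℓ : ℓ.Prime), ¬ ℓ ∣ N →
      ∀ A : ValuationSubring (AlgebraicClosure ℚ), A.LiesOverPrime ℓ →
        ∀ σ₀ : AlgebraicClosure ℚ ≃ₐ[ℚ] AlgebraicClosure ℚ, A.IsFrobeniusAt σ₀ ℓ →
          haveI : NeZero ℓ := ⟨hℓ.ne_zero⟩
          ∃ (M : ℕ) (_ : NeZero M), HeckeInputsAlong (AlgebraicClosure ℚ) M ℓ ∧
            InjTorsionModL M ℓ A ∧ Nonempty (PlaceRed M A ℓ σ₀) ∧ Nonempty (PullData N M ℓ))
    (hcomm : ModularCurve.HeckeOperatorsCommuteBar N) :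
    letI := ModularCurve.heckeModuleBar N
    ∀ (_ : SMulCommClass (AlgebraicClosure ℚ ≃ₐ[ℚ] AlgebraicClosure ℚ) ModularCurve.HeckeAlg
      (ModularCurve.JZero N)),
      ModularCurve.SpecializationExists (K := ℚ) (L := AlgebraicClosure ℚ) N p
        (ModularCurve.JZero N) := by
  letI := ModularCurve.heckeModuleBar N
  intro inst ℓ hℓ hdvd A hA
  have hℓN : ¬ ℓ ∣ N := fun h => hdvd (Dvd.dvd.mul_right h p)
  have hℓp : ¬ ℓ ∣ p := fun h => hdvd (Dvd.dvd.mul_left h N)
  obtain ⟨σ₀, hσ₀⟩ := exists_isFrobeniusAt ℓ hℓ A hA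
  haveI : NeZero ℓ := ⟨hℓ.ne_zero⟩
  obtain ⟨M, hM, hHIA, hS18, ⟨D⟩, ⟨Pd⟩⟩ := H ℓ hℓ hℓN A hA σ₀ hσ₀
  exact exists_specialization_of_isWeakRed p A ℓ hℓ σ₀ (D.red.comp Pd.pull)
    (isWeakRed_of_placeRed_pull N M p hcomm A ℓ hℓ hℓp σ₀ hσ₀ hHIA hS18 D Pd inst)

end Fermat.Agent.S37.Core

end
end
-- ===== PACK-END S37/Core/AssemblePull.lean

-- ===== PACK-BEGIN S28/H807/ModPoly.lean
section
/-
S28 / helper807 — the prime-level analytic inputs `ModPolyData p` and `UnitPolyData p`
of the captain skeleton (`Fermat/Agent/S28/Defs.lean`), from three explicit analytic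
hypotheses (level-one polynomial principle, `q`-expansion of `j`, `q`-expansion of `Δ^{±1}`).
-/




set_option autoImplicit false
set_option maxHeartbeats 400000

noncomputable section

open ModularCurve Polynomial Matrix UpperHalfPlane
open scoped MatrixGroups

namespace Fermat.Agent.S28.H807

open Fermat.Agent.S28

theorem evalAt_jqModC_eq : evalAt (jqModC ℤ) = evalJZHom := by
  apply Polynomial.ringHom_ext
  · intro a
    simp [evalAt, evalJZHom]
  · simp [evalAt, evalJZHom]

theorem evalAt_comp_qExpand (p : ℕ) [NeZero p] :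
    evalAt (qExpand ℤ p (jqModC ℤ)) = (qExpand ℤ p).comp evalJZHom := by
  apply Polynomial.ringHom_ext
  · intro a
    simp [evalAt, evalJZHom]
  · simp [evalAt, evalJZHom]

variable (p : ℕ) [NeZero p]

/-- **[A-Φ]** The modular polynomial of prime level `p`, from the analytic hypotheses. -/
theorem nonempty_modPolyData_of (hp : p.Prime) (hPP : PolyPrinciple) (J : ℍ → ℂ)
    (hJinv : ∀ (γ : SL(2, ℤ)) (τ : ℍ), J (γ • τ) = J τ)
    (hJexp : HasQExp (jqModC ℂ) J) : Nonempty (ModPolyData p) := by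
  have hG : HasQExp (coeffMap (Int.castRingHom ℂ) (jqModC ℤ)) J := by
    rw [coeffMap_jqModC]; exact hJexp
  have hE : HasQExp (coeffMap (Int.castRingHom ℂ) (qExpand ℤ p (jqModC ℤ)))
      (fun τ => J (mulNat p τ)) := by
    rw [coeffMap_qExpand, coeffMap_jqModC]; exact hJexp.mulNat p
  obtain ⟨Φ, hmonic, hdeg, hmap⟩ := exists_lift_formalPoly p hPP (jqModC ℤ)
    (qExpand ℤ p (jqModC ℤ)) J (fun τ => J (mulNat p τ)) hG hE (conjPoly_J_S p hp J hJinv)
  refine ⟨⟨Φ, hmonic, hdeg, ?_, ?_⟩⟩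
  · rw [evalAt_jqModC_eq, Polynomial.eval₂_eq_eval_map, hmap]
    exact formalPoly_eval_self p _ _
  · rw [evalAt_comp_qExpand, Polynomial.eval₂_eq_eval_map, ← Polynomial.map_map, hmap]
    exact formalPoly_map_qExpand_eval p _ _

/-- **[A-W]** `p¹² Δ(q^p)/Δ(q)` is integral over `ℤ[j]`, from the analytic hypotheses. -/
theorem nonempty_unitPolyData_of (hp : p.Prime) (hPP : PolyPrinciple) (D : ℍ → ℂ)
    (hD0 : ∀ τ, D τ ≠ 0)
    (hD : ∀ (γ : SL(2, ℤ)) (τ : ℍ), D (γ • τ) = (denom γ τ) ^ 12 * D τ)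
    (hDexp : HasQExp (coeffMap (Int.castRingHom ℂ) (deltaL ℤ)) D)
    (hDinvexp : HasQExp (coeffMap (Int.castRingHom ℂ) (deltaInvL ℤ)) (fun τ => (D τ)⁻¹)) :
    Nonempty (UnitPolyData p) := by
  have hG : HasQExp (coeffMap (Int.castRingHom ℂ) (deltaL ℤ * qExpand ℤ p (deltaInvL ℤ)))
      (unitG p D) := by
    rw [_root_.map_mul, coeffMap_qExpand]
    intro τ
    have := (hDexp.mul (hDinvexp.mulNat p)) τ
    simpa [unitG, div_eq_mul_inv] using this
  have hE : HasQExp (coeffMap (Int.castRingHom ℂ) ((p : LaurentSeries ℤ) ^ 12 * unitL ℤ p))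
      (unitE p D) := by
    rw [_root_.map_mul, _root_.map_pow, _root_.map_natCast, unitL, _root_.map_mul, coeffMap_qExpand]
    have hc : HasQExp ((p : LaurentSeries ℂ) ^ 12) (fun _ => (p : ℂ) ^ 12) := by
      have h1 : ((p : LaurentSeries ℂ) ^ 12) = HahnSeries.C ((p : ℂ) ^ 12) := by
        rw [_root_.map_pow, _root_.map_natCast]
      rw [h1]
      exact hasQExp_C _
    intro τ
    have := (hc.mul ((hDexp.mulNat p).mul hDinvexp)) τ
    simpa [unitE, div_eq_mul_inv, _root_.mul_assoc] using this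
  obtain ⟨Φ, hmonic, _, hmap⟩ := exists_lift_formalPoly p hPP
    (deltaL ℤ * qExpand ℤ p (deltaInvL ℤ)) ((p : LaurentSeries ℤ) ^ 12 * unitL ℤ p)
    (unitG p D) (unitE p D) hG hE (conjPoly_unit_S p hp D hD0 hD)
  refine ⟨⟨Φ, hmonic, ?_⟩⟩
  rw [evalAt_jqModC_eq, Polynomial.eval₂_eq_eval_map, hmap]
  exact formalPoly_eval_self p _ _

end Fermat.Agent.S28.H807

end

end
-- ===== PACK-END S28/H807/ModPoly.lean

-- ===== PACK-BEGIN S18/H333/Coord.lean
section



/-!
# S18 / NODE COORD (c3), helper333: existence of the coordinates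

`node_coord` has EXACTLY the type of `Integ.node_coord` in the row skeleton
(origin/helper18:Fermat/Agent/S18/Integ/Skeleton.lean):

    theorem node_coord (M : ℕ) [NeZero M] {ℓ : ℕ} [Fact ℓ.Prime] (hℓM : ¬ ℓ ∣ M)
        (h3 : ℓ = 3 → 2 ∣ M) (h2 : ℓ = 2 → 3 ∣ M) : Mod.CoordinateStatement M ℓ

`ℓ ≥ 5`: `x = j`;  `ℓ = 3`: `x = t₂ = q⁻¹(η(q)/η(q²))²⁴`;  `ℓ = 2`: `x = t₃ = q⁻¹(η(q)/η(q³))¹²`.
-/

set_option autoImplicit false

noncomputable section

namespace Fermat.Agent.S18.H333

open ModularCurve AlgebraicCurve HahnSeries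

theorem coeffEmb_coeffMap_int (X : LaurentSeries ℤ) :
    coeffEmb Qb (coeffMap (Int.castRingHom ℚ) X) = coeffMap (Int.castRingHom Qb) X := by
  rw [coeffEmb, coeffMap_coeffMap]
  exact coeffMap_congr (RingHom.ext_int _ _) X

theorem jOm_coe (M : ℕ) : ((Mod.jOm M : Mod.Om M) : LaurentSeries Qb) = jqModC Qb := by
  show coeffEmb Qb (qExpand ℚ 1 jq) = jqModC Qb
  rw [qExpand_one_apply, ← jqModC_rat, coeffEmb, coeffMap_jqModC]

/-- the element of `Ω = F_M` given by an integral series lying in `ℚ(j_d : d ∣ M)` -/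
def omOf (M : ℕ) (X : LaurentSeries ℤ)
    (hX : coeffMap (Int.castRingHom ℚ) X ∈ modularFunctionFieldFull M) : Mod.Om M :=
  ⟨coeffEmb Qb (coeffMap (Int.castRingHom ℚ) X), coeffEmb_mem_laurentBaseChange Qb hX⟩

theorem omOf_coe (M : ℕ) (X : LaurentSeries ℤ)
    (hX : coeffMap (Int.castRingHom ℚ) X ∈ modularFunctionFieldFull M) :
    ((omOf M X hX : Mod.Om M) : LaurentSeries Qb) = coeffMap (Int.castRingHom Qb) X :=
  coeffEmb_coeffMap_int X

theorem t2Q_mem (M : ℕ) (hM : 2 ∣ M) :
    coeffMap (Int.castRingHom ℚ) t2Z ∈ modularFunctionFieldFull M :=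
  t2_mem_full ℚ (by norm_num) M hM

theorem t3Q_mem (M : ℕ) (hM : 3 ∣ M) :
    coeffMap (Int.castRingHom ℚ) t3Z ∈ modularFunctionFieldFull M :=
  t3_mem_full ℚ (by norm_num) M hM

/-- `t₂ ∈ Ω = F_M` (`2 ∣ M`) -/
def t2Om (M : ℕ) (hM : 2 ∣ M) : Mod.Om M := omOf M t2Z (t2Q_mem M hM)

/-- `t₃ ∈ Ω = F_M` (`3 ∣ M`) -/
def t3Om (M : ℕ) (hM : 3 ∣ M) : Mod.Om M := omOf M t3Z (t3Q_mem M hM)

theorem t2Om_rel (M : ℕ) (hM : 2 ∣ M) :
    Mod.jOm M * t2Om M hM ^ 2 = (t2Om M hM + 256) ^ 3 := by
  apply Subtype.ext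
  have h := t2_rel_a Qb
  have hx : ((t2Om M hM : Mod.Om M) : LaurentSeries Qb) = t2 Qb := omOf_coe M t2Z _
  push_cast
  rw [jOm_coe, hx]
  exact h

theorem t3Om_rel (M : ℕ) (hM : 3 ∣ M) :
    Mod.jOm M * t3Om M hM ^ 3 = (t3Om M hM + 27) * (t3Om M hM + 243) ^ 3 := by
  apply Subtype.ext
  have h := t3_rel_a Qb
  have hx : ((t3Om M hM : Mod.Om M) : LaurentSeries Qb) = t3 Qb := omOf_coe M t3Z _
  push_cast
  rw [jOm_coe, hx]
  exact h

/-- **NODE COORD.** -/
theorem node_coord (M : ℕ) [NeZero M] {ℓ : ℕ} [Fact ℓ.Prime] (hℓM : ¬ ℓ ∣ M)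
    (h3 : ℓ = 3 → 2 ∣ M) (h2 : ℓ = 2 → 3 ∣ M) : Mod.CoordinateStatement M ℓ := by
  classical
  have hp : ℓ.Prime := Fact.out
  by_cases hl3 : ℓ = 3
  · refine ⟨t2Om M (h3 hl3), {0, -64}, Or.inr ⟨Or.inl ⟨hl3, t2Om_rel M (h3 hl3), ?_⟩, ?_⟩⟩
    · intro s; simp
    · exact ⟨t2Z, t2Z_coeff_neg_one, fun k hk => t2Z_coeff_of_lt hk, omOf_coe M t2Z _,
        t2Q_mem M (h3 hl3)⟩
  by_cases hl2 : ℓ = 2
  · refine ⟨t3Om M (h2 hl2), {0, -27}, Or.inr ⟨Or.inr ⟨hl2, t3Om_rel M (h2 hl2), ?_⟩, ?_⟩⟩
    · intro s; simp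
    · exact ⟨t3Z, t3Z_coeff_neg_one, fun k hk => t3Z_coeff_of_lt hk, omOf_coe M t3Z _,
        t3Q_mem M (h2 hl2)⟩
  · refine ⟨Mod.jOm M, {0, 1728}, Or.inl ⟨?_, rfl, ?_⟩⟩
    · have h2' := hp.two_le
      by_contra hlt
      have : ℓ = 4 := by omega
      subst this
      exact absurd hp (by norm_num)
    · intro s; simp

end Fermat.Agent.S18.H333

end
end
-- ===== PACK-END S18/H333/Coord.lean

-- ===== PACK-BEGIN S18/H456/ModRes.lean
section


/-!
# S18 / MOD assembly (helper456): `residue_perfect` for `R = Rc M A E`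
-/

set_option autoImplicit false

noncomputable section

namespace Fermat.Agent.S18.H456

open ModularCurve AlgebraicCurve HahnSeries Fermat.Agent.S18 Fermat.Agent.S18.Mod
open IsDedekindDomain
open scoped NumberField

variable (A : ValuationSubring Qb) (E : IntermediateField ℚ Qb)

section NF

variable [NumberField E]

/-- `𝓞 E → κ_E`. -/
def toRes : 𝓞 E →+* IsLocalRing.ResidueField (H602.RE A E) :=
  (IsLocalRing.residue (H602.RE A E)).comp (H602.ofInt A E)

omit [NumberField E] in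
theorem toRes_eq_zero_iff (a : 𝓞 E) : toRes A E a = 0 ↔ a ∈ H602.primeBelow A E := by
  unfold toRes
  rw [RingHom.comp_apply, IsLocalRing.residue_eq_zero_iff]
  rfl

theorem toRes_surjective {ℓ : ℕ} (hℓ : ℓ ≠ 0) (hA : (ℓ : Qb) ∈ A.nonunits) :
    Function.Surjective (toRes A E) := by
  intro x
  obtain ⟨r, rfl⟩ := IsLocalRing.residue_surjective x
  have hr : (r : E) ∈ (H602.primeSpec A E hℓ hA).valuationSubringAtPrime E := by
    rw [H602.RE_eq_valuationSubringAtPrime A E hℓ hA]
    exact r.2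
  obtain ⟨a, s, hs, hrs⟩ := hr
  -- `s` is invertible modulo the maximal ideal `P`
  have hPmax : (H602.primeBelow A E).IsMaximal :=
    Ideal.IsPrime.isMaximal inferInstance (H602.primeBelow_ne_bot A E hℓ hA)
  have hs' : s ∉ H602.primeBelow A E := hs
  obtain ⟨t, ht⟩ := Ideal.IsMaximal.exists_inv hPmax hs'
  obtain ⟨u, hu, hstu⟩ := ht
  -- `s * t + u = 1`, hence `φ s * φ t = 1`
  have h1 : toRes A E s * toRes A E t = 1 := by
    have := congrArg (toRes A E) hstu
    rw [_root_.map_add, _root_.map_mul, (toRes_eq_zero_iff A E u).2 hu, add_zero, _root_.map_one] at this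
    rwa [mul_comm] at this
  refine ⟨a * t, ?_⟩
  -- `r * s = a` in `R_E`
  have h2 : r * H602.ofInt A E s = H602.ofInt A E a := by
    apply Subtype.ext
    show (r : E) * algebraMap (𝓞 E) E s = algebraMap (𝓞 E) E a
    rw [hrs]
    have hs0 : algebraMap (𝓞 E) E s ≠ 0 := by
      intro h0
      have : s = 0 := by
        apply FaithfulSMul.algebraMap_injective (𝓞 E) E
        rw [h0, _root_.map_zero]
      exact hs' (this ▸ Ideal.zero_mem _)
    rw [mul_assoc, inv_mul_cancel₀ hs0, mul_one]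
  have h3 : IsLocalRing.residue (H602.RE A E) r * toRes A E s = toRes A E a := by
    have := congrArg (IsLocalRing.residue (H602.RE A E)) h2
    rwa [_root_.map_mul] at this
  rw [_root_.map_mul, ← h3, mul_assoc, h1, mul_one]

theorem finite_residueField {ℓ : ℕ} (hℓ : ℓ ≠ 0) (hA : (ℓ : Qb) ∈ A.nonunits) :
    Finite (IsLocalRing.ResidueField (H602.RE A E)) := by
  have hP : H602.primeBelow A E ≠ ⊥ := H602.primeBelow_ne_bot A E hℓ hA
  have : Finite (𝓞 E ⧸ H602.primeBelow A E) := Ideal.finiteQuotientOfFreeOfNeBot _ hP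
  let ψ : 𝓞 E ⧸ H602.primeBelow A E →+* IsLocalRing.ResidueField (H602.RE A E) :=
    Ideal.Quotient.lift _ (toRes A E) (fun a ha => (toRes_eq_zero_iff A E a).2 ha)
  have hψ : Function.Surjective ψ := by
    intro x
    obtain ⟨a, rfl⟩ := toRes_surjective A E hℓ hA x
    exact ⟨Ideal.Quotient.mk _ a, rfl⟩
  exact Finite.of_surjective ψ hψ

end NF

/-- Frobenius is surjective on the residue field of `R_E` (`E/ℚ` finite). -/
theorem exists_pow_sub_mem_maximalIdeal [FiniteDimensional ℚ E] {ℓ : ℕ} (hℓ : ℓ.Prime)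
    (hA : A.LiesOverPrime ℓ) (r : H602.RE A E) :
    ∃ s : H602.RE A E, r - s ^ ℓ ∈ IsLocalRing.maximalIdeal (H602.RE A E) := by
  have := H602.numberField_of_finiteDimensional E
  have : Finite (IsLocalRing.ResidueField (H602.RE A E)) :=
    finite_residueField A E hℓ.ne_zero hA
  have hℓ0 : ((ℓ : ℕ) : IsLocalRing.ResidueField (H602.RE A E)) = 0 := by
    rw [← map_natCast (IsLocalRing.residue (H602.RE A E)), IsLocalRing.residue_eq_zero_iff,
      IsLocalRing.mem_maximalIdeal, mem_nonunits_iff]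
    exact H602.natCast_not_isUnit_RE A E hA
  have : Fact ℓ.Prime := ⟨hℓ⟩
  have : CharP (IsLocalRing.ResidueField (H602.RE A E)) ℓ :=
    (CharP.charP_iff_prime_eq_zero hℓ).2 hℓ0
  have : PerfectRing (IsLocalRing.ResidueField (H602.RE A E)) ℓ :=
    PerfectRing.ofFiniteOfIsReduced ℓ _
  obtain ⟨y, hy⟩ := surjective_frobenius (IsLocalRing.ResidueField (H602.RE A E)) ℓ
    (IsLocalRing.residue _ r)
  obtain ⟨s, rfl⟩ := IsLocalRing.residue_surjective y
  refine ⟨s, ?_⟩
  rw [← IsLocalRing.residue_eq_zero_iff, _root_.map_sub, map_pow, sub_eq_zero]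
  exact hy.symm

variable (M : ℕ)

/-- **`residue_perfect`** for `R = Rc M A E`. -/
theorem field_residue_perfect [FiniteDimensional ℚ E] {ℓ : ℕ} (hℓ : ℓ.Prime)
    (hA : A.LiesOverPrime ℓ) {w : Om M} (hw : IsUnif M A E w) :
    ∃ p : ℕ, p.Prime ∧ (p : Om M) * w⁻¹ ∈ Rc M A E ∧
      ∀ r ∈ Rc M A E, ∃ s ∈ Rc M A E, (r - s ^ p) * w⁻¹ ∈ Rc M A E := by
  have : IsDiscreteValuationRing (H602.RE A E) :=
    H602.isDiscreteValuationRing_RE A E hℓ.ne_zero hA
  refine ⟨ℓ, hℓ, ?_, ?_⟩
  · rw [← cstR_natCast M A E, hw.mul_inv_mem_iff, IsLocalRing.mem_maximalIdeal, mem_nonunits_iff]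
    exact H602.natCast_not_isUnit_RE A E hA
  · intro r hr
    obtain ⟨r₀, rfl⟩ := (mem_Rc_iff_cstR M A E).1 hr
    obtain ⟨s, hs⟩ := exists_pow_sub_mem_maximalIdeal A E hℓ hA r₀
    refine ⟨cstR M A E s, cstR_mem_Rc M A E s, ?_⟩
    rw [← cstR_pow, ← cstR_sub, hw.mul_inv_mem_iff]
    exact hs

end Fermat.Agent.S18.H456

end
end
-- ===== PACK-END S18/H456/ModRes.lean

-- ===== PACK-BEGIN S18/H804/ValPlace.lean
section




/-!
# S18 / GLUE input: every nontrivial valuation subring of a function field containing the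
constants is a place  (helper804)

`K` a field of characteristic zero, `F` finite over `K(x)`, `x` transcendental.  A valuation
subring `O ≠ ⊤` of `F` containing `K` is the valuation ring of a `Place K F` (a discrete
valuation ring).  Proof: `x` or `x⁻¹` lies in `O`; `O` dominates the localisation of the integral
closure of `K[x^{±1}]` at its center, which is a DVR, hence maximal among proper subrings.

Corollary (`exists_mul_pow_unit`): if `m ∣ ord_v u` for every place `v`, then for every valuation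
subring `O ⊇ K` of `F` there is `t ≠ 0` with `u * t ^ m` a unit of `O`.
-/

set_option autoImplicit false
set_option linter.unusedSectionVars false

namespace Fermat.Agent.S18.H804

open AlgebraicCurve Polynomial IntermediateField IsDedekindDomain Fermat.Agent.S24 FF

open scoped IntermediateField.algebraAdjoinAdjoin

variable {K F : Type*} [Field K] [Field F] [Algebra K F] {t : F}

/-- `K[t] ⊆ O` when `t ∈ O`. -/
theorem mem_of_mem_coordRing_val (O : ValuationSubring F)
    (hK : ∀ a : K, algebraMap K F a ∈ O) (ht : t ∈ O) {r : F}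
    (hr : r ∈ coordRing K t) : r ∈ O := by
  induction hr using Algebra.adjoin_induction with
  | mem x hx =>
    rw [Set.mem_singleton_iff] at hx
    subst hx
    exact ht
  | algebraMap a => exact hK a
  | add x y _ _ hx hy => exact _root_.AddMemClass.add_mem hx hy
  | mul x y _ _ hx hy => exact _root_.MulMemClass.mul_mem hx hy

/-- The integral closure of `K[t]` is contained in `O` when `t ∈ O`. -/
theorem mem_of_mem_intRing_val (O : ValuationSubring F)
    (hK : ∀ a : K, algebraMap K F a ∈ O) (ht : t ∈ O) {s : F}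
    (hs : s ∈ intRing K t) : s ∈ O := by
  let φ : coordRing K t →+* O :=
    { toFun := fun y => ⟨y, mem_of_mem_coordRing_val O hK ht y.2⟩
      map_one' := rfl
      map_mul' := fun _ _ => rfl
      map_zero' := rfl
      map_add' := fun _ _ => rfl }
  obtain ⟨p, hpm, hp⟩ := hs
  have hint' : IsIntegral O s := by
    refine ⟨p.map φ, hpm.map φ, ?_⟩
    rw [← hp, Polynomial.eval₂_map]
    rfl
  obtain ⟨y, hy⟩ := IsIntegrallyClosed.isIntegral_iff.mp hint'
  rw [← hy]
  exact y.2

/-- The inclusion of the integral closure of `K[t]` into `O`. -/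
def toValRing (O : ValuationSubring F) (hK : ∀ a : K, algebraMap K F a ∈ O) (ht : t ∈ O) :
    intRing K t →+* O where
  toFun s := ⟨s, mem_of_mem_intRing_val O hK ht s.2⟩
  map_one' := rfl
  map_mul' _ _ := rfl
  map_zero' := rfl
  map_add' _ _ := rfl

/-- The center of `O` on the integral closure of `K[t]`. -/
def centerVal (O : ValuationSubring F) (hK : ∀ a : K, algebraMap K F a ∈ O) (ht : t ∈ O) :
    Ideal (intRing K t) :=
  Ideal.comap (toValRing O hK ht) (IsLocalRing.maximalIdeal O)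

instance centerVal_isPrime (O : ValuationSubring F) (hK : ∀ a : K, algebraMap K F a ∈ O)
    (ht : t ∈ O) : (centerVal O hK ht).IsPrime := by
  unfold centerVal
  infer_instance

theorem mem_centerVal_iff (O : ValuationSubring F) (hK : ∀ a : K, algebraMap K F a ∈ O)
    (ht : t ∈ O) (s : intRing K t) :
    s ∈ centerVal O hK ht ↔ (s : F) ∈ O.nonunits := by
  rw [centerVal, Ideal.mem_comap]
  exact ValuationSubring.coe_mem_nonunits_iff.symm

section withCoord

variable [CharZero K] [IsCoord K t]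

/-- The center of a proper valuation subring is nonzero. -/
theorem centerVal_ne_bot (O : ValuationSubring F) (hK : ∀ a : K, algebraMap K F a ∈ O)
    (ht : t ∈ O) (hO : O ≠ ⊤) : centerVal O hK ht ≠ ⊥ := by
  intro h
  apply hO
  refine SetLike.ext fun f => ⟨fun _ => ValuationSubring.mem_top f, fun _ => ?_⟩
  -- `f = a / b` with `a, b` in the integral closure, `b ≠ 0` a unit of `O`
  obtain ⟨a, b, hb, rfl⟩ := IsFractionRing.div_surjective (A := intRing K t) f
  have hb0 : b ≠ 0 := nonZeroDivisors.ne_zero hb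
  have hbF : (b : F) ≠ 0 := fun h0 => hb0 (Subtype.ext h0)
  have hbnot : (b : F) ∉ O.nonunits := by
    intro hbn
    have : b ∈ centerVal O hK ht := (mem_centerVal_iff O hK ht b).mpr hbn
    rw [h, Ideal.mem_bot] at this
    exact hb0 this
  have hbinv : (b : F)⁻¹ ∈ O := by
    by_contra hcon
    exact hbnot ((ValuationSubring.mem_nonunits_iff_or _).mpr (Or.inr hcon))
  have ha : (a : F) ∈ O := mem_of_mem_intRing_val O hK ht a.2
  show algebraMap (intRing K t) F a / algebraMap (intRing K t) F b ∈ O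
  rw [div_eq_mul_inv]
  exact _root_.MulMemClass.mul_mem ha hbinv

/-- A proper valuation subring containing `K` and `t` is the valuation ring of a place. -/
theorem exists_place_of_mem (O : ValuationSubring F) (hK : ∀ a : K, algebraMap K F a ∈ O)
    (ht : t ∈ O) (hO : O ≠ ⊤) : ∃ v : Place K F, v.toValuationSubring = O := by
  let q : HeightOneSpectrum (intRing K t) :=
    ⟨centerVal O hK ht, inferInstance, centerVal_ne_bot O hK ht hO⟩
  refine ⟨placeOfPrime K t q, ?_⟩
  rw [placeOfPrime_toValuationSubring,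
    ← HeightOneSpectrum.valuationSubringAtPrime_eq_valuationSubring]
  refine ValuationSubring.eq_of_le_of_ne_top _ ?_ hO
  rintro x ⟨a, s, hs, rfl⟩
  have ha : (a : F) ∈ O := mem_of_mem_intRing_val O hK ht a.2
  have hs' : (s : F) ∉ O.nonunits := fun h =>
    hs ((mem_centerVal_iff O hK ht s).mpr h)
  have hsinv : (s : F)⁻¹ ∈ O := by
    by_contra hcon
    exact hs' ((ValuationSubring.mem_nonunits_iff_or _).mpr (Or.inr hcon))
  exact _root_.MulMemClass.mul_mem ha hsinv

end withCoord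

/-- **Every proper valuation subring of `F` containing `K` is a place.** -/
theorem exists_place_of_valuationSubring [CharZero K] {x : F} (hx : Transcendental K x)
    [FiniteDimensional K⟮x⟯ F] (O : ValuationSubring F)
    (hK : ∀ a : K, algebraMap K F a ∈ O) (hO : O ≠ ⊤) :
    ∃ v : Place K F, v.toValuationSubring = O := by
  rcases O.mem_or_inv_mem x with h | h
  · have : IsCoord K x := ⟨hx, inferInstance⟩
    exact exists_place_of_mem O hK h hO
  · have : FiniteDimensional K⟮x⁻¹⟯ F := finiteDimensional_adjoin_inv x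
    have : IsCoord K x⁻¹ := ⟨transcendental_inv hx, inferInstance⟩
    exact exists_place_of_mem O hK h hO

/-- If `m` divides the order of `u` at every place, then `u` is, up to an `m`-th power, a unit of
every valuation subring of `F` containing `K`. -/
theorem exists_mul_pow_unit [CharZero K] {x : F} (hx : Transcendental K x)
    [FiniteDimensional K⟮x⟯ F] (m : ℕ) (u : F) (hu : u ≠ 0)
    (hdiv : ∀ v : Place K F, (m : ℤ) ∣ v.ord u) (O : ValuationSubring F)
    (hK : ∀ a : K, algebraMap K F a ∈ O) :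
    ∃ t : F, t ≠ 0 ∧ u * t ^ m ∈ O ∧ (u * t ^ m)⁻¹ ∈ O := by
  by_cases hO : O = ⊤
  · subst hO
    exact ⟨1, one_ne_zero, ValuationSubring.mem_top _, ValuationSubring.mem_top _⟩
  obtain ⟨v, rfl⟩ := exists_place_of_valuationSubring hx O hK hO
  obtain ⟨π, hπ, hπ1⟩ := exists_irreducible_coe v
  have hπ0 : (π : F) ≠ 0 := by
    intro h
    rw [h, v.ord_zero] at hπ1
    exact zero_ne_one hπ1
  obtain ⟨k, hk⟩ := hdiv v
  refine ⟨(π : F) ^ (-k), zpow_ne_zero _ hπ0, ?_, ?_⟩
  all_goals
    have hne : u * ((π : F) ^ (-k)) ^ m ≠ 0 :=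
      mul_ne_zero hu (pow_ne_zero _ (zpow_ne_zero _ hπ0))
    have hord : v.ord (u * ((π : F) ^ (-k)) ^ m) = 0 := by
      rw [v.ord_mul hu (pow_ne_zero _ (zpow_ne_zero _ hπ0)), ← zpow_natCast, ← zpow_mul,
        v.ord_zpow, hπ1, hk]
      ring
  · exact mem_of_ord_nonneg v hord.ge
  · apply mem_of_ord_nonneg v
    rw [v.ord_inv, hord]
    simp

end Fermat.Agent.S18.H804

end
-- ===== PACK-END S18/H804/ValPlace.lean

-- ===== PACK-BEGIN S56/H906/LemmaA.lean
section



/-!
# S56 / FLAT-O, piece (A): rigidity of points of order `p` of a Hopf lattice (helper906)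

`lemmaA : LemmaAStatement`.  Newton's forward differences for `n ↦ f (n • x)`; no completion, no
units of the convolution ring.

Reusable: `zp_mem`, `apply_mem` (values of a Hopf lattice lie in `P`), `pspan` (the `P`-span of a
Hopf lattice), `translate` and `delta_mem` (the difference operator maps `P·Λ` into `μ·P·Λ`).
-/

set_option autoImplicit false
set_option linter.unusedSectionVars false

open Polynomial

noncomputable section

namespace Fermat.Agent.S56.H906

open Fermat.Agent.S56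

section Basic

variable {p : ℕ} (P : ValuationSubring Qb)

/-- `ℤ_(p) ⊂ P` for `P` above `p`. -/
theorem zp_mem (hp : p.Prime) (hP : P.LiesOverPrime p) (r : Zp p) :
    algebraMap (Zp p) Qb r ∈ P := by
  have hr : (r : ℚ).den.Coprime p := r.2
  have h1 : algebraMap (Zp p) Qb r = algebraMap ℚ Qb (r : ℚ) := rfl
  rw [h1]
  have h2 : (r : ℚ) = ((r : ℚ).num : ℚ) / ((r : ℚ).den : ℚ) := (Rat.num_div_den _).symm
  rw [h2, map_div₀, _root_.map_intCast, _root_.map_natCast]
  have hden : ((r : ℚ).den : Qb) ∉ P.nonunits := by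
    have := Fermat.Agent.S14.H714.intCast_not_mem_nonunits P hp hP (n := ((r : ℚ).den : ℤ))
      (by
        intro hd
        have hd' : p ∣ (r : ℚ).den := by exact_mod_cast hd
        have := Nat.Coprime.eq_one_of_dvd hr.symm hd'
        exact hp.one_lt.ne' this)
    simpa using this
  have hdenmem : (((r : ℚ).den : Qb))⁻¹ ∈ P :=
    (Fermat.Agent.S14.H714.inv_mem_of_not_mem_nonunits P hden).2
  rw [div_eq_mul_inv]
  exact mul_mem (intCast_mem P _) hdenmem

/-- An element of `ℚ̄` which is integral over `ℤ_(p)` lies in `P`. -/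
theorem mem_of_isIntegral_zp (hp : p.Prime) (hP : P.LiesOverPrime p) {y : Qb}
    (hy : IsIntegral (Zp p) y) : y ∈ P := by
  obtain ⟨q, hq, hqy⟩ := hy
  -- the ring hom `ℤ_(p) → P`
  let ι : Zp p →+* P :=
    { toFun := fun r => ⟨algebraMap (Zp p) Qb r, zp_mem P hp hP r⟩
      map_one' := Subtype.ext (_root_.map_one _)
      map_mul' := fun a b => Subtype.ext (_root_.map_mul _ a b)
      map_zero' := Subtype.ext (_root_.map_zero _)
      map_add' := fun a b => Subtype.ext (_root_.map_add _ a b) }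
  have hint : IsIntegral P y := by
    refine ⟨q.map ι, hq.map ι, ?_⟩
    rw [Polynomial.eval₂_map]
    have : (algebraMap P Qb).comp ι = algebraMap (Zp p) Qb := by
      ext r; rfl
    rw [this]
    exact hqy
  obtain ⟨z, hz⟩ := (IsIntegrallyClosed.isIntegral_iff (R := P) (K := Qb)).mp hint
  rw [← hz]
  exact z.2

end Basic

section Lattice

variable {p : ℕ} [Fact p.Prime] {M : Type} [AddCommGroup M] {act : GQ → M → M}
  {Λ : Subalgebra (Zp p) (M → Qb)} (P : ValuationSubring Qb)

/-- Values of the functions of a Hopf lattice lie in every `P` above `p`. -/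
theorem apply_mem (hΛ : IsHL p act Λ) (hP : P.LiesOverPrime p) {f : M → Qb} (hf : f ∈ Λ)
    (m : M) : f m ∈ P :=
  mem_of_isIntegral_zp P (Fact.out : p.Prime) hP
    (Fermat.Agent.S19.H435.IsHopfLattice.isIntegral_apply hΛ hf m)

/-- The `P`-span of a lattice of functions. -/
def pspan (Λ : Subalgebra (Zp p) (M → Qb)) : Submodule P (M → Qb) :=
  Submodule.span P (Λ : Set (M → Qb))

theorem subset_pspan {f : M → Qb} (hf : f ∈ Λ) : f ∈ pspan P Λ :=
  Submodule.subset_span hf

/-- Values of elements of the `P`-span lie in `P`. -/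
theorem pspan_apply_mem (hΛ : IsHL p act Λ) (hP : P.LiesOverPrime p) {F : M → Qb}
    (hF : F ∈ pspan P Λ) (m : M) : F m ∈ P := by
  induction hF using Submodule.span_induction with
  | mem f hf => exact apply_mem P hΛ hP hf m
  | zero => exact P.zero_mem
  | add F G _ _ hF hG => exact P.add_mem _ _ hF hG
  | smul a F _ hF => exact P.mul_mem _ _ a.2 hF

/-- Translation by `x`. -/
def translate (x : M) : Module.End Qb (M → Qb) := LinearMap.funLeft Qb Qb (fun y => y + x)

@[simp] theorem translate_apply (x : M) (F : M → Qb) (y : M) : translate x F y = F (y + x) := rfl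

theorem translate_pow (x : M) (n : ℕ) : translate x ^ n = translate (n • x) := by
  induction n with
  | zero =>
    ext F y
    simp [translate, LinearMap.funLeft]
  | succ n ih =>
    rw [pow_succ, ih]
    ext F y
    simp only [Module.End.mul_apply, _root_.Fermat.Agent.S56.H906.translate_apply, succ_nsmul]
    congr 1
    abel

/-- The difference operator `F ↦ F(· + x) - F`. -/
def delta (x : M) : Module.End Qb (M → Qb) := translate x - 1

theorem delta_apply (x : M) (F : M → Qb) (y : M) : delta x F y = F (y + x) - F y := rfl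

/-- If all coordinates of `x` are congruent to those of `0` modulo `μ`, then the difference
operator maps `P·Λ` into `μ·P·Λ`. -/
theorem delta_mem (hΛ : IsHL p act Λ) (x : M) (μ : Qb) (hμ : μ ≠ 0)
    (hle : ∀ g ∈ Λ, P.valuation (g x - g 0) ≤ P.valuation μ)
    {F : M → Qb} (hF : F ∈ pspan P Λ) :
    ∃ G ∈ pspan P Λ, delta x F = μ • G := by
  induction hF using Submodule.span_induction with
  | mem f hf =>
    obtain ⟨n, a, b, ha, hb, hab⟩ := hΛ.comul_mem f hf
    have hq : ∀ k, (b k x - b k 0) / μ ∈ P := by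
      intro k
      rw [← ValuationSubring.valuation_le_one_iff, map_div₀]
      exact div_le_one_of_le₀ (hle _ (hb k)) zero_le
    refine ⟨∑ k, (⟨(b k x - b k 0) / μ, hq k⟩ : P) • a k,
      Submodule.sum_mem _ fun k _ => Submodule.smul_mem _ _ (subset_pspan P (ha k)), ?_⟩
    funext y
    rw [delta_apply]
    have h1 := hab y x
    have h2 := hab y 0
    rw [add_zero] at h2
    rw [h1]
    conv_lhs => rw [h2]
    rw [← Finset.sum_sub_distrib]
    simp only [Pi.smul_apply, Finset.sum_apply, smul_eq_mul, Finset.mul_sum]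
    refine Finset.sum_congr rfl fun k _ => ?_
    show a k y * b k x - a k y * b k 0 = μ * (((b k x - b k 0) / μ) * a k y)
    field_simp
  | zero => exact ⟨0, Submodule.zero_mem _, by simp⟩
  | add F G _ _ hF hG =>
    obtain ⟨F', hF', hF''⟩ := hF
    obtain ⟨G', hG', hG''⟩ := hG
    exact ⟨F' + G', Submodule.add_mem _ hF' hG', by rw [_root_.map_add, hF'', hG'', smul_add]⟩
  | smul a F _ hF =>
    obtain ⟨F', hF', hF''⟩ := hF
    refine ⟨a • F', Submodule.smul_mem _ _ hF', ?_⟩
    have : (a • F : M → Qb) = (a : Qb) • F := rfl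
    rw [this, _root_.map_smul, hF'']
    have : (a • F' : M → Qb) = (a : Qb) • F' := rfl
    rw [this, smul_comm]

/-- Iterated differences. -/
theorem delta_pow_mem (hΛ : IsHL p act Λ) (x : M) (μ : Qb) (hμ : μ ≠ 0)
    (hle : ∀ g ∈ Λ, P.valuation (g x - g 0) ≤ P.valuation μ) (j : ℕ)
    {F : M → Qb} (hF : F ∈ pspan P Λ) :
    ∃ G ∈ pspan P Λ, (delta x ^ j) F = μ ^ j • G := by
  induction j generalizing F with
  | zero => exact ⟨F, hF, by simp⟩
  | succ j ih =>
    obtain ⟨G, hG, hG'⟩ := delta_mem P hΛ x μ hμ hle hF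
    obtain ⟨G₂, hG₂, hG₂'⟩ := ih hG
    refine ⟨G₂, hG₂, ?_⟩
    rw [pow_succ, Module.End.mul_apply, hG', _root_.map_smul, hG₂', smul_smul, ← pow_succ']

/-- The binomial expansion of `translate (p • x)` evaluated at `0`. -/
theorem sum_choose_delta (x : M) (n : ℕ) (F : M → Qb) :
    F (n • x) = ∑ m ∈ Finset.range (n + 1), (n.choose m : Qb) * (delta x ^ m) F 0 := by
  have h1 : translate x = delta x + 1 := by rw [delta]; abel
  have h2 : translate x ^ n = ∑ m ∈ Finset.range (n + 1),
      delta x ^ m * 1 ^ (n - m) * (n.choose m : Module.End Qb (M → Qb)) := by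
    rw [h1]
    exact (Commute.one_right (delta x)).add_pow n
  have h3 := congrFun (congrArg (fun T : Module.End Qb (M → Qb) => T F) h2) 0
  simp only [translate_pow, _root_.Fermat.Agent.S56.H906.translate_apply, zero_add] at h3
  rw [h3, LinearMap.sum_apply, Finset.sum_apply]
  refine Finset.sum_congr rfl fun m _ => ?_
  rw [one_pow, mul_one, Module.End.mul_apply]
  have : ∀ k : ℕ, ((k : Module.End Qb (M → Qb))) F = (k : Qb) • F := by
    intro k
    rw [Nat.cast_smul_eq_nsmul]
    induction k with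
    | zero => simp
    | succ k ih => simp [add_smul, ih]
  rw [this, _root_.map_smul, Pi.smul_apply, smul_eq_mul]

end Lattice

/-- **(A)** rigidity of points of order `p`. -/
theorem lemmaA : LemmaAStatement := by
  intro p _ M _ _ act Λ hΛ P hP x lam hpx hlam hle
  have hp : p.Prime := Fact.out
  by_contra hx
  set v := P.valuation with hv
  have hvp : v (p : Qb) < 1 := (ValuationSubring.mem_nonunits_iff P).mp hP
  have hlam1 : v lam < 1 := by
    by_contra hcon
    rw [not_lt] at hcon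
    have : (1 : P.ValueGroup) ≤ v lam ^ (p - 1) := one_le_pow₀ hcon
    exact absurd (lt_of_le_of_lt this (lt_trans hlam hvp)) (lt_irrefl _)
  obtain ⟨f₀, hf₀, hne⟩ := hΛ.separates x 0 hx
  obtain ⟨n, e, he, -, -, hexp⟩ := Fermat.Agent.S19.H435.IsHopfLattice.exists_basis hΛ
  -- coordinates of a general element
  have hcoord : ∀ g ∈ Λ, ∃ c : Fin n → Zp p,
      g x - g 0 = ∑ i, algebraMap (Zp p) Qb (c i) * (e i x - e i 0) := by
    intro g hg
    obtain ⟨c, hc⟩ := hexp g hg
    refine ⟨c, ?_⟩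
    have h1 : ∀ y : M, g y = ∑ i, algebraMap (Zp p) Qb (c i) * e i y := by
      intro y
      rw [hc, Finset.sum_apply]
      refine Finset.sum_congr rfl fun i _ => ?_
      rw [Pi.smul_apply, Algebra.smul_def]
    rw [h1 x, h1 0, ← Finset.sum_sub_distrib]
    exact Finset.sum_congr rfl fun i _ => by ring
  -- some coordinate difference is nonzero
  have hex : ∃ i, e i x - e i 0 ≠ 0 := by
    by_contra hcon
    push Not at hcon
    obtain ⟨c, hc⟩ := hcoord f₀ hf₀
    apply hne
    rw [← sub_eq_zero, hc]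
    exact Finset.sum_eq_zero fun i _ => by rw [hcon i, mul_zero]
  obtain ⟨i₁, hi₁⟩ := hex
  obtain ⟨i₀, -, hi₀⟩ := Finset.exists_max_image Finset.univ (fun i => v (e i x - e i 0))
    ⟨i₁, Finset.mem_univ _⟩
  set μ := e i₀ x - e i₀ 0 with hμdef
  have hμ0 : μ ≠ 0 := by
    intro h0
    have h1 := hi₀ i₁ (Finset.mem_univ _)
    rw [h0, _root_.map_zero] at h1
    exact hi₁ ((Valuation.zero_iff v).mp (le_antisymm h1 zero_le))
  have hvμ0 : v μ ≠ 0 := (Valuation.ne_zero_iff v).mpr hμ0
  have hmax : ∀ g ∈ Λ, v (g x - g 0) ≤ v μ := by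
    intro g hg
    obtain ⟨c, hc⟩ := hcoord g hg
    rw [hc]
    refine Valuation.map_sum_le v fun i _ => ?_
    rw [_root_.map_mul]
    calc v (algebraMap (Zp p) Qb (c i)) * v (e i x - e i 0)
        ≤ 1 * v (e i x - e i 0) := by
          gcongr
          exact (ValuationSubring.valuation_le_one_iff P _).mpr (zp_mem P hp hP (c i))
      _ = v (e i x - e i 0) := one_mul _
      _ ≤ v μ := hi₀ i (Finset.mem_univ _)
  have hμlam : v μ ≤ v lam := hle _ (he i₀)
  have hμ1 : v μ < 1 := lt_of_le_of_lt hμlam hlam1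
  have hμp : v μ ^ (p - 1) < v (p : Qb) :=
    lt_of_le_of_lt (pow_le_pow_left₀ zero_le hμlam _) hlam
  -- Newton
  have hN := sum_choose_delta x p (e i₀)
  rw [hpx] at hN
  obtain ⟨q, hq⟩ : ∃ q, p = q + 2 := ⟨p - 2, by have := hp.two_le; omega⟩
  have hterm : ∀ m, ∃ g : Qb, g ∈ P ∧ (delta x ^ m) (e i₀) 0 = μ ^ m * g := by
    intro m
    obtain ⟨G, hG, hG'⟩ := delta_pow_mem P hΛ x μ hμ0 hmax m (subset_pspan P (he i₀))
    exact ⟨G 0, pspan_apply_mem P hΛ hP hG 0, by rw [hG']; rfl⟩
  rw [hq, Finset.sum_range_succ', Finset.sum_range_succ'] at hN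
  simp only [Nat.choose_zero_right, Nat.cast_one, pow_zero, Module.End.one_apply, one_mul,
    zero_add, Nat.choose_one_right, pow_one] at hN
  have hd1 : delta x (e i₀) 0 = μ := by rw [delta_apply, zero_add]
  rw [hd1, ← hq] at hN
  have hsum : (p : Qb) * μ = - ∑ k ∈ Finset.range (q + 1),
      ((p.choose (k + 1 + 1) : ℕ) : Qb) * (delta x ^ (k + 1 + 1)) (e i₀) 0 := by
    have := hN
    linear_combination -this
  have hlt : v (∑ k ∈ Finset.range (q + 1),
      ((p.choose (k + 1 + 1) : ℕ) : Qb) * (delta x ^ (k + 1 + 1)) (e i₀) 0) < v ((p : Qb) * μ) := by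
    have hpm0 : v ((p : Qb) * μ) ≠ 0 := by
      rw [_root_.map_mul]
      exact mul_ne_zero ((Valuation.ne_zero_iff v).mpr (by exact_mod_cast hp.ne_zero)) hvμ0
    refine Valuation.map_sum_lt v hpm0 fun k hk => ?_
    obtain ⟨g, hg, hg'⟩ := hterm (k + 1 + 1)
    have hg1 : v g ≤ 1 := (ValuationSubring.valuation_le_one_iff P _).mpr hg
    rw [hg', _root_.map_mul, _root_.map_mul, _root_.map_pow, _root_.map_mul]
    rw [Finset.mem_range] at hk
    by_cases hkq : k = q
    · -- the last term: choose = 1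
      subst hkq
      rw [← hq, Nat.choose_self, Nat.cast_one, _root_.map_one, one_mul]
      have h1 : v μ ^ p = v μ ^ (p - 1) * v μ := by
        rw [← pow_succ]; congr 1; have := hp.two_le; omega
      rw [h1]
      calc v μ ^ (p - 1) * v μ * v g ≤ v μ ^ (p - 1) * v μ * 1 := by gcongr
        _ = v μ ^ (p - 1) * v μ := mul_one _
        _ < v (p : Qb) * v μ := by
          exact mul_lt_mul_of_pos_right hμp (zero_lt_iff.mpr hvμ0)
    · -- middle terms: `p ∣ choose`
      have hk2 : k + 1 + 1 < p := by omega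
      have hdvd : p ∣ p.choose (k + 1 + 1) := hp.dvd_choose_self (by omega) hk2
      obtain ⟨t, ht⟩ := hdvd
      have hc : v ((p.choose (k + 1 + 1) : ℕ) : Qb) ≤ v (p : Qb) := by
        rw [ht, Nat.cast_mul, _root_.map_mul]
        calc v (p : Qb) * v (t : Qb) ≤ v (p : Qb) * 1 := by
              gcongr
              exact (ValuationSubring.valuation_le_one_iff P _).mpr (natCast_mem P t)
          _ = v (p : Qb) := mul_one _
      have hμk : v μ ^ (k + 1 + 1) < v μ := by
        calc v μ ^ (k + 1 + 1) = v μ ^ (k + 1) * v μ := pow_succ _ _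
          _ < 1 * v μ := by
            refine mul_lt_mul_of_pos_right ?_ (zero_lt_iff.mpr hvμ0)
            exact pow_lt_one₀ zero_le hμ1 (by omega)
          _ = v μ := one_mul _
      calc v ((p.choose (k + 1 + 1) : ℕ) : Qb) * (v μ ^ (k + 1 + 1) * v g)
          ≤ v (p : Qb) * (v μ ^ (k + 1 + 1) * 1) := by gcongr
        _ = v (p : Qb) * v μ ^ (k + 1 + 1) := by rw [mul_one]
        _ < v (p : Qb) * v μ := by
          refine mul_lt_mul_of_pos_left hμk (zero_lt_iff.mpr ?_)
          exact (Valuation.ne_zero_iff v).mpr (by exact_mod_cast hp.ne_zero)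
  rw [hsum, Valuation.map_neg] at hlt
  exact lt_irrefl _ hlt

end Fermat.Agent.S56.H906

end

end
-- ===== PACK-END S56/H906/LemmaA.lean

-- ===== PACK-BEGIN S37/Red/H144/Monic.lean
section


/-!
# S37-RED, piece RED-D (route N), part 3: monic-like functions at the poles of `x̄` (helper144)

If `t = x^M (1 + x⁻¹ β)` with `β` integral over `A[x⁻¹]` and `M ≥ 1`, then `t̄` has a pole at
every pole of `x̄`.
-/

set_option autoImplicit false

noncomputable section

namespace Fermat.Agent.S37.Red.H144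

open AlgebraicCurve IntermediateField Polynomial

universe u

variable {K k F Fk : Type u} [Field K] [Field k] [Field F] [Field Fk]
  [Algebra K F] [Algebra k Fk] {A : ValuationSubring K} {π : A →+* k}

/-- An element integral over a subring of a valuation ring lies in the valuation ring. -/
theorem mem_of_isIntegral_subring {L : Type*} [Field L] (O : ValuationSubring L)
    (S : Subring L) (hS : S ≤ O.toSubring) {b : L} (hb : IsIntegral S b) : b ∈ O := by
  obtain ⟨p, hp, hev⟩ := hb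
  let φ : S →+* O := Subring.inclusion hS
  have hcomp : (algebraMap O L).comp φ = algebraMap S L := by
    ext s
    rfl
  have hint : IsIntegral O b := by
    refine ⟨p.map φ, hp.map φ, ?_⟩
    rw [Polynomial.eval₂_map, hcomp]
    exact hev
  obtain ⟨y, hy⟩ := IsIntegrallyClosed.isIntegral_iff.mp hint
  rw [← hy]
  exact y.2

/-- Reduction of integral elements: if `ρ` maps a subring `S ⊆ O` into a valuation ring `Q'`
of `F_k`, it maps the elements of `O` integral over `S` into `Q'`. -/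
theorem rho_mem_of_isIntegral (G : Datum A π F Fk) (S : Subring F) (hS : S ≤ G.O.toSubring)
    (Q' : ValuationSubring Fk) (hSQ : ∀ s (hs : s ∈ S), G.ρ ⟨s, hS hs⟩ ∈ Q')
    {b : F} (hb : IsIntegral S b) (hbO : b ∈ G.O) : G.ρ ⟨b, hbO⟩ ∈ Q' := by
  obtain ⟨p, hp, hev⟩ := hb
  let φ : S →+* G.O := Subring.inclusion hS
  let ψ : S →+* Q' := (G.ρ.comp φ).codRestrict Q'.toSubring (fun s => hSQ s.1 s.2)
  have hcomp : (algebraMap Q' Fk).comp ψ = G.ρ.comp φ := by
    ext s
    rfl
  have hcomp2 : (algebraMap G.O F).comp φ = algebraMap S F := by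
    ext s
    rfl
  have hzero : Polynomial.eval₂ φ (⟨b, hbO⟩ : G.O) p = 0 := by
    apply Subtype.ext
    have h1 := Polynomial.hom_eval₂ p φ (algebraMap G.O F) (⟨b, hbO⟩ : G.O)
    rw [hcomp2] at h1
    have h2 : (algebraMap G.O F) (⟨b, hbO⟩ : G.O) = b := rfl
    rw [h2, hev] at h1
    exact h1
  have hint : IsIntegral Q' (G.ρ ⟨b, hbO⟩) := by
    refine ⟨p.map ψ, hp.map ψ, ?_⟩
    rw [Polynomial.eval₂_map, hcomp, ← Polynomial.hom_eval₂, hzero, _root_.map_zero]
  obtain ⟨y, hy⟩ := IsIntegrallyClosed.isIntegral_iff.mp hint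
  rw [← hy]
  exact y.2

theorem constRing_le_O (G : Datum A π F Fk) : G.constRing ≤ G.O.toSubring := by
  rintro s ⟨a, ha, rfl⟩
  exact G.const_mem ⟨a, ha⟩

theorem polyRing_le_O (G : Datum A π F Fk) {t : F} (ht : t ∈ G.O) :
    G.polyRing t ≤ G.O.toSubring := by
  unfold Datum.polyRing
  refine sup_le (constRing_le_O G) ?_
  rw [Subring.closure_le]
  intro s hs
  rw [Set.mem_singleton_iff] at hs
  rw [hs]
  exact ht

/-- The chart `B_t` is contained in `O` as soon as `t ∈ O`. -/
theorem chart_le_O (G : Datum A π F Fk) {t : F} (ht : t ∈ G.O) {b : F}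
    (hb : b ∈ G.chart t) : b ∈ G.O :=
  mem_of_isIntegral_subring G.O (G.polyRing t) (polyRing_le_O G ht) hb

/-- If `ρ t` is regular at the valuation ring `Q'` of `F_k` (containing `k`), then `ρ` maps
`B_t` into `Q'`. -/
theorem rho_chart_mem (G : Datum A π F Fk) {t : F} (ht : t ∈ G.O) (Q' : ValuationSubring Fk)
    (hk : ∀ c : k, algebraMap k Fk c ∈ Q') (htQ : G.ρ ⟨t, ht⟩ ∈ Q')
    {b : F} (hb : b ∈ G.chart t) (hbO : b ∈ G.O) : G.ρ ⟨b, hbO⟩ ∈ Q' := by
  refine rho_mem_of_isIntegral G (G.polyRing t) (polyRing_le_O G ht) Q' ?_ hb hbO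
  -- the subring of `F` of elements of `O` whose reduction lies in `Q'`
  let S' : Subring F := (Q'.toSubring.comap G.ρ).map G.O.subtype
  have hS' : G.polyRing t ≤ S' := by
    unfold Datum.polyRing
    refine sup_le ?_ ?_
    · rintro s ⟨a, ha, rfl⟩
      refine ⟨⟨algebraMap K F a, G.const_mem ⟨a, ha⟩⟩, ?_, rfl⟩
      show G.ρ _ ∈ Q'
      rw [G.ρ_const ⟨a, ha⟩]
      exact hk _
    · rw [Subring.closure_le]
      intro s hs
      rw [Set.mem_singleton_iff] at hs
      rw [hs]
      exact ⟨⟨t, ht⟩, htQ, rfl⟩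
  intro s hs
  obtain ⟨z, hz, hzs⟩ := hS' hs
  have : z = ⟨s, polyRing_le_O G ht hs⟩ := Subtype.ext hzs
  rw [← this]
  exact hz

/-- **Monic-like functions have poles at the poles of `x̄`.** -/
theorem rho_not_mem_of_monicLike (G : Datum A π F Fk) {t : F} {M : ℕ} (hM : 0 < M)
    (hml : G.MonicLike t M) (ht : t ∈ G.O) (Q : Place k Fk)
    (hQ : G.xk ∉ Q.toValuationSubring) : G.ρ ⟨t, ht⟩ ∉ Q.toValuationSubring := by
  obtain ⟨-, β, hβ, heq⟩ := hml
  have hxi := x_inv_mem G
  have hβO : β ∈ G.O := chart_le_O G hxi hβ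
  -- the relation after reduction
  have hrel : G.ρ ⟨t, ht⟩ = G.xk ^ M * (1 + G.xk⁻¹ * G.ρ ⟨β, hβO⟩) := by
    have h1 : (⟨t, ht⟩ : G.O) =
        (⟨G.x, G.x_mem⟩ : G.O) ^ M * (1 + ⟨G.x⁻¹, hxi⟩ * ⟨β, hβO⟩) := Subtype.ext heq
    rw [h1, _root_.map_mul, _root_.map_pow, _root_.map_add, _root_.map_one, _root_.map_mul, rho_x_inv]
    rfl
  set v := Q.toValuationSubring.valuation with hv
  have hxk : v G.xk⁻¹ < 1 := valuation_inv_lt_of_not_mem hQ
  have hxkQ : G.xk⁻¹ ∈ Q.toValuationSubring :=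
    (Q.toValuationSubring.valuation_le_one_iff _).mp hxk.le
  have hβQ : G.ρ ⟨β, hβO⟩ ∈ Q.toValuationSubring := by
    refine rho_chart_mem G hxi Q.toValuationSubring Q.algebraMap_mem' ?_ hβ hβO
    rw [rho_x_inv]
    exact hxkQ
  have hβv : v (G.ρ ⟨β, hβO⟩) ≤ 1 := (Q.toValuationSubring.valuation_le_one_iff _).mpr hβQ
  have h2 : v (G.xk⁻¹ * G.ρ ⟨β, hβO⟩) < 1 := by
    rw [_root_.map_mul]
    calc v G.xk⁻¹ * v (G.ρ ⟨β, hβO⟩) ≤ v G.xk⁻¹ * 1 := mul_le_mul' le_rfl hβv
      _ = v G.xk⁻¹ := mul_one _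
      _ < 1 := hxk
  have h3 : v (1 + G.xk⁻¹ * G.ρ ⟨β, hβO⟩) = 1 := by
    rw [Valuation.map_add_eq_of_lt_left _ (by rw [_root_.map_one]; exact h2), _root_.map_one]
  have h4 : 1 < v G.xk := by
    by_contra h
    rw [not_lt] at h
    exact hQ ((Q.toValuationSubring.valuation_le_one_iff _).mp h)
  have h5 : 1 < v (G.ρ ⟨t, ht⟩) := by
    rw [hrel, _root_.map_mul, _root_.map_pow, h3, mul_one]
    exact one_lt_pow₀ h4 (Nat.pos_iff_ne_zero.mp hM)
  intro hmem
  have := (Q.toValuationSubring.valuation_le_one_iff _).mpr hmem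
  exact absurd h5 (not_lt.mpr this)

end Fermat.Agent.S37.Red.H144

end
end
-- ===== PACK-END S37/Red/H144/Monic.lean

-- ===== PACK-BEGIN A3/H499/OrthGood.lean
section


/-!
# A3 / GR-ORTH, route D (helper499): orthonormal bases from a degree equality (Deuring)

Abstract, instance-free; no places, no `div_red`, no uniformiser.

Setting = the first fields of `A3.H799.GoodRed` (`V`, `O`, `res`, `red`), a coordinate `x ∈ O`
with transcendental reduction and elements `w i ∈ O` such that the reductions of `x ^ j * w i`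
are `k`-linearly independent and every `f ∈ F` has a denominator `h ∈ K[x]` with
`h * f ∈ ∑ K x ^ j w i`  (i.e. the `w i` are a `K(x)`-basis of `F` whose reductions are
`k(x̄)`-independent: the situation `[F : K(x)] = [F_k : k(x̄)]` of `S37.Red.Datum.Good`).

* `exists_orthBasis_of_span` : every finitely generated `K`-subspace `M` of `F` has an
  orthonormal basis; if `x` and the `w i` are fixed by a group `I` of semilinear automorphisms
  and `M` is `I`-stable, the basis can be chosen `I`-fixed.  (The monic denominator of `M` of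
  minimal degree is unique, hence `I`-fixed.)
-/

set_option autoImplicit false
set_option linter.unusedSectionVars false
set_option linter.style.longLine false

noncomputable section

open AlgebraicCurve Polynomial

namespace Fermat.Agent.A3.H499

variable {K F : Type*} [Field K] [Field F] [Algebra K F]
variable {k : Type*} {Fk : Type*} [Field k] [Field Fk] [Algebra k Fk]

section PolyAction

/-- A semilinear automorphism fixing `x` acts on `K[x]` through the coefficients. -/
theorem smul_aeval (g : SemilinearAut K F) (x : F) (hx : g • x = x) (p : K[X]) :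
    g • (aeval x p) = aeval x (p.map (SemilinearAut.baseAut g : K →+* K)) := by
  induction p using Polynomial.induction_on' with
  | add p q hp hq => rw [_root_.map_add, smul_add, hp, hq, Polynomial.map_add, _root_.map_add]
  | monomial n a =>
    rw [Polynomial.map_monomial, aeval_monomial, aeval_monomial, smul_mul', smul_pow', hx,
      SemilinearAut.smul_algebraMap]
    rfl

/-- semilinearity on scalar multiples -/
theorem smul_smul_semilinear (g : SemilinearAut K F) (a : K) (f : F) :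
    g • (a • f) = (SemilinearAut.baseAut g a) • (g • f) := by
  rw [Algebra.smul_def, Algebra.smul_def, smul_mul', SemilinearAut.smul_algebraMap]

end PolyAction

section Twist

variable (V : ValuationSubring K) (O : ValuationSubring F) (res : V →+* k) (red : O →+* Fk)
variable (algebraMap_mem : ∀ a : K, a ∈ V → algebraMap K F a ∈ O)
variable (red_algebraMap : ∀ (a : V) (h : algebraMap K F (a : K) ∈ O),
    red ⟨algebraMap K F (a : K), h⟩ = algebraMap k Fk (res a))
variable (red_surjective : Function.Surjective red)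

include algebraMap_mem red_algebraMap red_surjective in
/-- **Twist.**  If `h ∈ O` has non-zero reduction and `h • M` lies in the span of an orthonormal
family, then `M` has an orthonormal basis (fixed by `J` if everything is). -/
theorem exists_orthBasis_of_mul_le {n : ℕ} (e : Fin n → O)
    (he : LinearIndependent k (fun i => red (e i)))
    (h : O) (hh_red : red h ≠ 0) (M : Submodule K F)
    (hM : M.map (LinearMap.mulLeft K ((h : O) : F)) ≤
      Submodule.span K (Set.range fun i => ((e i : O) : F)))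
    (J : Set (SemilinearAut K F)) (heJ : ∀ g ∈ J, ∀ i, g • ((e i : O) : F) = e i)
    (hhJ : ∀ g ∈ J, g • ((h : O) : F) = h)
    (hMJ : ∀ g ∈ J, ∀ f ∈ M, g • f ∈ M) :
    ∃ (d : ℕ) (b : Fin d → O), IsOrthBasis k O red M b ∧
      ∀ g ∈ J, ∀ i, g • ((b i : O) : F) = b i := by
  classical
  have hh0 : ((h : O) : F) ≠ 0 := by
    intro h0
    apply hh_red
    have : h = 0 := Subtype.ext h0
    rw [this, _root_.map_zero]
  have hh_inv : ((h : O) : F)⁻¹ ∈ O := inv_mem_of_red_ne_zero O red red_surjective h hh_red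
  set U₂ : Submodule K F := M.map (LinearMap.mulLeft K ((h : O) : F)) with hU₂
  have hU₂J : ∀ g ∈ J, ∀ f ∈ U₂, g • f ∈ U₂ := by
    rintro g hg _ ⟨f, hf', rfl⟩
    have hf : f ∈ M := hf'
    refine ⟨g • f, hMJ g hg f hf, ?_⟩
    show ((h : O) : F) * (g • f) = g • (((h : O) : F) * f)
    rw [smul_mul', hhJ g hg]
  obtain ⟨d₂, u₂, ⟨hu₂_ind, hu₂_mem, hu₂_span⟩, hu₂J⟩ :=
    exists_orthBasis_of_le V O res red algebraMap_mem red_algebraMap e he U₂ hM J heJ hU₂J
  -- untwist
  set hinv : O := ⟨((h : O) : F)⁻¹, hh_inv⟩ with hhinv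
  have hmul : h * hinv = 1 := Subtype.ext (mul_inv_cancel₀ hh0)
  have hred_inv : red hinv ≠ 0 := by
    intro h0
    have := congrArg red hmul
    rw [_root_.map_mul, h0, mul_zero, _root_.map_one] at this
    exact zero_ne_one this
  have hb_coe : ∀ i, (((u₂ i * hinv : O) : O) : F) = ((u₂ i : O) : F) * ((h : O) : F)⁻¹ :=
    fun i => rfl
  have hb_mem : ∀ i, (((u₂ i * hinv : O) : O) : F) ∈ M := by
    intro i
    obtain ⟨f, hf, hfi⟩ := hu₂_mem i
    have hfi' : ((h : O) : F) * f = ((u₂ i : O) : F) := hfi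
    rw [hb_coe, ← hfi', mul_comm, ← mul_assoc, inv_mul_cancel₀ hh0, one_mul]
    exact hf
  refine ⟨d₂, fun i => u₂ i * hinv, ⟨?_, hb_mem, ?_⟩, ?_⟩
  · have h1 : (fun i => red (u₂ i * hinv)) =
        (LinearMap.mulRight k (red hinv)) ∘ (fun i => red (u₂ i)) := by
      funext i
      simp [_root_.map_mul]
    rw [h1]
    refine hu₂_ind.map' _ ?_
    rw [LinearMap.ker_eq_bot]
    exact mul_left_injective₀ hred_inv
  · apply le_antisymm
    · rw [Submodule.span_le]
      rintro _ ⟨i, rfl⟩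
      exact hb_mem i
    · intro f hf
      have h1 : ((h : O) : F) * f ∈ U₂ := ⟨f, hf, rfl⟩
      rw [← hu₂_span] at h1
      obtain ⟨c, hc⟩ := (Submodule.mem_span_range_iff_exists_fun K).mp h1
      have h2 : f = ∑ i, c i • (((u₂ i * hinv : O) : O) : F) := by
        have h3 : f = ((h : O) : F)⁻¹ * (((h : O) : F) * f) := by
          rw [← mul_assoc, inv_mul_cancel₀ hh0, one_mul]
        rw [h3, ← hc, Finset.mul_sum]
        refine Finset.sum_congr rfl fun i _ => ?_
        rw [hb_coe, Algebra.smul_def, Algebra.smul_def]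
        ring
      rw [h2]
      refine Submodule.sum_mem _ fun i _ => Submodule.smul_mem _ _ ?_
      exact Submodule.subset_span ⟨i, rfl⟩
  · intro g hg i
    show g • (((u₂ i * hinv : O) : O) : F) = ((u₂ i * hinv : O) : F)
    rw [hb_coe, smul_mul', smul_inv'', hu₂J g hg i, hhJ g hg]

end Twist

section Core

variable {O : ValuationSubring F} (x : O) {n : ℕ} (w : Fin n → O)

/-- the `K`-span of the `x ^ j * w i`, `j ∈ ℕ` -/
def polySpan {O : ValuationSubring F} (x : O) {n : ℕ} (w : Fin n → O) : Submodule K F :=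
  Submodule.span K (Set.range fun p : ℕ × Fin n => ((x : O) : F) ^ p.1 * ((w p.2 : O) : F))

/-- the `K`-span of the `x ^ j * w i`, `j < d` -/
def polySpanLt {O : ValuationSubring F} (x : O) {n : ℕ} (w : Fin n → O) (d : ℕ) :
    Submodule K F :=
  Submodule.span K (Set.range fun p : Fin d × Fin n =>
    ((x : O) : F) ^ (p.1 : ℕ) * ((w p.2 : O) : F))

theorem polySpanLt_mono {d d' : ℕ} (h : d ≤ d') :
    polySpanLt (K := K) x w d ≤ polySpanLt (K := K) x w d' := by
  unfold polySpanLt
  rw [Submodule.span_le]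
  rintro _ ⟨p, rfl⟩
  exact Submodule.subset_span ⟨(⟨p.1, lt_of_lt_of_le p.1.2 h⟩, p.2), rfl⟩

theorem exists_mem_polySpanLt {r : F} (hr : r ∈ polySpan (K := K) x w) :
    ∃ d, r ∈ polySpanLt (K := K) x w d := by
  unfold polySpan at hr
  induction hr using Submodule.span_induction with
  | mem r hr =>
    obtain ⟨p, rfl⟩ := hr
    exact ⟨p.1 + 1, Submodule.subset_span ⟨(⟨p.1, Nat.lt_succ_self _⟩, p.2), rfl⟩⟩
  | zero => exact ⟨0, Submodule.zero_mem _⟩
  | add a b _ _ ha hb =>
    obtain ⟨d₁, h₁⟩ := ha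
    obtain ⟨d₂, h₂⟩ := hb
    exact ⟨max d₁ d₂, Submodule.add_mem _ (polySpanLt_mono x w (le_max_left _ _) h₁)
      (polySpanLt_mono x w (le_max_right _ _) h₂)⟩
  | smul c a _ ha =>
    obtain ⟨d, hd⟩ := ha
    exact ⟨d, Submodule.smul_mem _ _ hd⟩

theorem exists_le_polySpanLt (M : Submodule K F) (hMfg : M.FG)
    (hM : M ≤ polySpan (K := K) x w) : ∃ d, M ≤ polySpanLt (K := K) x w d := by
  classical
  obtain ⟨S, hS⟩ := hMfg
  have h1 : ∀ s ∈ S, ∃ d, s ∈ polySpanLt (K := K) x w d := fun s hs =>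
    exists_mem_polySpanLt x w (hM (hS ▸ Submodule.subset_span hs))
  choose! dfun hdfun using h1
  refine ⟨S.sup dfun, ?_⟩
  rw [← hS, Submodule.span_le]
  intro s hs
  exact polySpanLt_mono x w (Finset.le_sup (f := dfun) hs) (hdfun s hs)

theorem mul_x_mem_polySpan {r : F} (hr : r ∈ polySpan (K := K) x w) :
    ((x : O) : F) * r ∈ polySpan (K := K) x w := by
  unfold polySpan at hr ⊢
  induction hr using Submodule.span_induction with
  | mem r hr =>
    obtain ⟨p, rfl⟩ := hr
    refine Submodule.subset_span ⟨(p.1 + 1, p.2), ?_⟩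
    show ((x : O) : F) ^ (p.1 + 1) * ((w p.2 : O) : F) = _
    rw [pow_succ']
    ring
  | zero => rw [mul_zero]; exact Submodule.zero_mem _
  | add a b _ _ ha hb => rw [mul_add]; exact Submodule.add_mem _ ha hb
  | smul c a _ ha => rw [mul_smul_comm]; exact Submodule.smul_mem _ _ ha

theorem x_pow_mul_mem_polySpan (j : ℕ) {r : F} (hr : r ∈ polySpan (K := K) x w) :
    ((x : O) : F) ^ j * r ∈ polySpan (K := K) x w := by
  induction j with
  | zero => rw [pow_zero, one_mul]; exact hr
  | succ j ih =>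
    rw [pow_succ', mul_assoc]
    exact mul_x_mem_polySpan x w ih

theorem aeval_mul_mem_polySpan (p : K[X]) {r : F} (hr : r ∈ polySpan (K := K) x w) :
    aeval ((x : O) : F) p * r ∈ polySpan (K := K) x w := by
  induction p using Polynomial.induction_on' with
  | add p q hp hq => rw [_root_.map_add, add_mul]; exact Submodule.add_mem _ hp hq
  | monomial j a =>
    rw [aeval_monomial, mul_assoc, ← Algebra.smul_def]
    exact Submodule.smul_mem _ _ (x_pow_mul_mem_polySpan x w j hr)

theorem smul_mem_polySpan (g : SemilinearAut K F) (hgx : g • ((x : O) : F) = x)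
    (hgw : ∀ i, g • ((w i : O) : F) = w i) {r : F} (hr : r ∈ polySpan (K := K) x w) :
    g • r ∈ polySpan (K := K) x w := by
  unfold polySpan at hr ⊢
  induction hr using Submodule.span_induction with
  | mem r hr =>
    obtain ⟨p, rfl⟩ := hr
    refine Submodule.subset_span ⟨p, ?_⟩
    show _ = g • (((x : O) : F) ^ p.1 * ((w p.2 : O) : F))
    rw [smul_mul', smul_pow', hgx, hgw]
  | zero => rw [smul_zero]; exact Submodule.zero_mem _
  | add a b _ _ ha hb => rw [smul_add]; exact Submodule.add_mem _ ha hb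
  | smul c a _ ha => rw [smul_smul_semilinear]; exact Submodule.smul_mem _ _ ha

/-- `h` is a common denominator of `M` -/
def IsDen {O : ValuationSubring F} (x : O) {n : ℕ} (w : Fin n → O) (M : Submodule K F)
    (h : K[X]) : Prop :=
  ∀ f ∈ M, aeval ((x : O) : F) h * f ∈ polySpan (K := K) x w

variable {x w}

theorem IsDen.sub {M : Submodule K F} {h h' : K[X]} (hh : IsDen x w M h) (hh' : IsDen x w M h') :
    IsDen x w M (h - h') := by
  intro f hf
  rw [_root_.map_sub, sub_mul]
  exact Submodule.sub_mem _ (hh f hf) (hh' f hf)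

theorem IsDen.mul_left {M : Submodule K F} {h : K[X]} (hh : IsDen x w M h) (p : K[X]) :
    IsDen x w M (p * h) := by
  intro f hf
  rw [_root_.map_mul, mul_assoc]
  exact aeval_mul_mem_polySpan x w p (hh f hf)

theorem IsDen.map {M : Submodule K F} {h : K[X]} (hh : IsDen x w M h)
    (g : SemilinearAut K F) (hgx : g • ((x : O) : F) = x)
    (hgw : ∀ i, g • ((w i : O) : F) = w i) (hgM : ∀ f ∈ M, g⁻¹ • f ∈ M) :
    IsDen x w M (h.map (SemilinearAut.baseAut g : K →+* K)) := by
  intro f hf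
  have h1 := smul_mem_polySpan x w g hgx hgw (hh _ (hgM f hf))
  rw [smul_mul', smul_aeval g _ hgx, smul_inv_smul] at h1
  exact h1

theorem exists_isDen_ne_zero (M : Submodule K F) (hMfg : M.FG)
    (hspan : ∀ f : F, ∃ h : K[X], h ≠ 0 ∧ aeval ((x : O) : F) h * f ∈ polySpan (K := K) x w) :
    ∃ h : K[X], h ≠ 0 ∧ IsDen x w M h := by
  classical
  obtain ⟨S, hS⟩ := hMfg
  choose hfun hfun0 hfun_mem using hspan
  refine ⟨∏ s ∈ S, hfun s, Finset.prod_ne_zero_iff.mpr fun s _ => hfun0 s, ?_⟩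
  intro f hf
  rw [← hS] at hf
  induction hf using Submodule.span_induction with
  | mem s hs =>
    have hs' : s ∈ S := hs
    rw [← Finset.mul_prod_erase S hfun hs', mul_comm (hfun s), _root_.map_mul, mul_assoc]
    exact aeval_mul_mem_polySpan x w _ (hfun_mem s)
  | zero => rw [mul_zero]; exact Submodule.zero_mem _
  | add a b _ _ ha hb => rw [mul_add]; exact Submodule.add_mem _ ha hb
  | smul c a _ ha => rw [mul_smul_comm]; exact Submodule.smul_mem _ _ ha

end Core

section Main

variable (V : ValuationSubring K) (O : ValuationSubring F) (res : V →+* k) (red : O →+* Fk)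
variable (algebraMap_mem : ∀ a : K, a ∈ V → algebraMap K F a ∈ O)
variable (red_algebraMap : ∀ (a : V) (h : algebraMap K F (a : K) ∈ O),
    red ⟨algebraMap K F (a : K), h⟩ = algebraMap k Fk (res a))
variable (red_surjective : Function.Surjective red)

include algebraMap_mem red_algebraMap red_surjective in
/-- **Route D, core.**  Every finitely generated `K`-subspace `M` of `F` has an orthonormal
basis, which is `I`-fixed if `x`, the `w i` are `I`-fixed and `M` is `I`-stable. -/
theorem exists_orthBasis_of_span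
    (x : O) (hxtr : Transcendental k (red x)) {n : ℕ} (w : Fin n → O)
    (horth : LinearIndependent k (fun p : ℕ × Fin n => red (x ^ p.1 * w p.2)))
    (hspan : ∀ f : F, ∃ h : K[X], h ≠ 0 ∧ aeval ((x : O) : F) h * f ∈ polySpan (K := K) x w)
    (I : Subgroup (SemilinearAut K F))
    (hIx : ∀ g ∈ I, g • ((x : O) : F) = x)
    (hIw : ∀ g ∈ I, ∀ i, g • ((w i : O) : F) = w i)
    (M : Submodule K F) (hMfg : M.FG) (hMI : ∀ g ∈ I, ∀ f ∈ M, g • f ∈ M) :
    ∃ (d : ℕ) (u : Fin d → O), IsOrthBasis k O red M u ∧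
      ∀ g ∈ I, ∀ a, g • ((u a : O) : F) = u a := by
  classical
  -- Step 1: a non-zero denominator of minimal degree
  obtain ⟨h₀', hh₀'0, hh₀'den⟩ := exists_isDen_ne_zero M hMfg hspan
  have hex : ∃ d, ∃ h : K[X], h ≠ 0 ∧ IsDen x w M h ∧ h.natDegree = d :=
    ⟨_, h₀', hh₀'0, hh₀'den, rfl⟩
  obtain ⟨h₀, hh₀0, hh₀den, hh₀deg⟩ := Nat.find_spec hex
  have hmin : ∀ h : K[X], h ≠ 0 → IsDen x w M h → Nat.find hex ≤ h.natDegree :=
    fun h h0 hd => Nat.find_min' hex ⟨h, h0, hd, rfl⟩
  -- Step 2: the monic one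
  have hlc : h₀.leadingCoeff ≠ 0 := leadingCoeff_ne_zero.mpr hh₀0
  set h₁ : K[X] := C h₀.leadingCoeff⁻¹ * h₀ with hh₁
  have hh₁monic : h₁.Monic := monic_C_mul_of_mul_leadingCoeff_eq_one (inv_mul_cancel₀ hlc)
  have hh₁den : IsDen x w M h₁ := hh₀den.mul_left _
  have hh₁deg : h₁.natDegree = Nat.find hex := by
    rw [hh₁, natDegree_C_mul (inv_ne_zero hlc), hh₀deg]
  -- Step 3: it is `I`-fixed
  have hh₁I : ∀ g ∈ I, h₁.map (SemilinearAut.baseAut g : K →+* K) = h₁ := by
    intro g hg
    by_contra hne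
    have hden' : IsDen x w M (h₁.map (SemilinearAut.baseAut g : K →+* K)) :=
      hh₁den.map g (hIx g hg) (hIw g hg) (fun f hf => hMI g⁻¹ (I.inv_mem hg) f hf)
    have hsub := hh₁den.sub hden'
    have hne' : h₁ - h₁.map (SemilinearAut.baseAut g : K →+* K) ≠ 0 :=
      sub_ne_zero.mpr (Ne.symm hne)
    have h1 := hmin _ hne' hsub
    have hmonic' : (h₁.map (SemilinearAut.baseAut g : K →+* K)).Monic := hh₁monic.map _
    have hlt : (h₁ - h₁.map (SemilinearAut.baseAut g : K →+* K)).degree < h₁.degree :=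
      degree_sub_lt_left (by rw [degree_map]) hh₁monic.ne_zero
        (by rw [hh₁monic.leadingCoeff, hmonic'.leadingCoeff])
    have h2 := natDegree_lt_natDegree hne' hlt
    omega
  -- Step 4: normalise to Gauss norm one
  have hsupp : h₁.support.Nonempty := ⟨h₁.natDegree, by
    rw [mem_support_iff, coeff_natDegree, hh₁monic.leadingCoeff]; exact one_ne_zero⟩
  obtain ⟨m, hm_mem, hm_max⟩ :=
    Finset.exists_max_image h₁.support (fun i => V.valuation (h₁.coeff i)) hsupp
  set c : K := h₁.coeff m with hc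
  have hc0 : c ≠ 0 := mem_support_iff.mp hm_mem
  set h : K[X] := C c⁻¹ * h₁ with hh
  have hcoeff : ∀ i, h.coeff i = c⁻¹ * h₁.coeff i := fun i => by rw [hh, coeff_C_mul]
  have hcoeffV : ∀ i, h.coeff i ∈ V := by
    intro i
    rw [hcoeff, ← ValuationSubring.valuation_le_one_iff, _root_.map_mul, map_inv₀]
    have hv : V.valuation c ≠ 0 := (_root_.map_ne_zero _).mpr hc0
    rw [inv_mul_le_iff₀ (zero_lt_iff.mpr hv), mul_one]
    by_cases hi : i ∈ h₁.support
    · exact hm_max i hi
    · rw [notMem_support_iff.mp hi, _root_.map_zero]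
      exact zero_le
  have hcoeffm : h.coeff m = 1 := by rw [hcoeff, ← hc, inv_mul_cancel₀ hc0]
  have hden : IsDen x w M h := hh₁den.mul_left _
  have hcI : ∀ g ∈ I, SemilinearAut.baseAut g c = c := by
    intro g hg
    have := congrArg (fun q : K[X] => q.coeff m) (hh₁I g hg)
    simpa [coeff_map] using this
  have hhI : ∀ g ∈ I, h.map (SemilinearAut.baseAut g : K →+* K) = h := by
    intro g hg
    rw [hh, Polynomial.map_mul, map_C, hh₁I g hg]
    congr 2
    show SemilinearAut.baseAut g c⁻¹ = c⁻¹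
    rw [map_inv₀, hcI g hg]
  -- the value `H = h(x) ∈ O`
  set H : O := ∑ i ∈ Finset.range (h.natDegree + 1),
    (⟨algebraMap K F (h.coeff i), algebraMap_mem _ (hcoeffV i)⟩ : O) * x ^ i with hH
  have hHcoe : ((H : O) : F) = aeval ((x : O) : F) h := by
    rw [aeval_eq_sum_range, hH]
    push_cast
    refine Finset.sum_congr rfl fun i _ => ?_
    rw [Algebra.smul_def]
  set hbar : k[X] := ∑ i ∈ Finset.range (h.natDegree + 1),
    monomial i (res ⟨h.coeff i, hcoeffV i⟩) with hhbar
  have hHred : red H = aeval (red x) hbar := by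
    rw [hH, hhbar, _root_.map_sum, _root_.map_sum]
    refine Finset.sum_congr rfl fun i _ => ?_
    rw [_root_.map_mul, _root_.map_pow, red_algebraMap ⟨h.coeff i, hcoeffV i⟩, aeval_monomial]
  have hmle : m ≤ h.natDegree := le_natDegree_of_ne_zero (by rw [hcoeffm]; exact one_ne_zero)
  have hbar_ne : hbar ≠ 0 := by
    intro h0
    have h1 := congrArg (fun q : k[X] => q.coeff m) h0
    simp only [hhbar, finsetSum_coeff, coeff_monomial, coeff_zero] at h1
    rw [Finset.sum_ite_eq' (Finset.range (h.natDegree + 1)) m, if_pos (by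
      rw [Finset.mem_range]; omega)] at h1
    have h2 : (⟨h.coeff m, hcoeffV m⟩ : V) = 1 := Subtype.ext hcoeffm
    rw [h2, _root_.map_one] at h1
    exact one_ne_zero h1
  have hHred0 : red H ≠ 0 := by
    rw [hHred]
    intro h0
    exact hbar_ne (transcendental_iff.mp hxtr hbar h0)
  -- Step 5: `H • M` lies in a finite level
  have hU : M.map (LinearMap.mulLeft K ((H : O) : F)) ≤ polySpan (K := K) x w := by
    rintro _ ⟨f, hf, rfl⟩
    show ((H : O) : F) * f ∈ polySpan (K := K) x w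
    rw [hHcoe]
    exact hden f hf
  obtain ⟨d, hd⟩ := exists_le_polySpanLt x w _ (hMfg.map _) hU
  -- Step 6: reindex by `Fin (d * n)`
  set ι : Fin (d * n) → ℕ × Fin n := fun a =>
    (((finProdFinEquiv.symm a).1 : ℕ), (finProdFinEquiv.symm a).2) with hι
  have hιinj : Function.Injective ι := by
    intro a b hab
    have h1 : ((finProdFinEquiv.symm a).1 : ℕ) = ((finProdFinEquiv.symm b).1 : ℕ) :=
      congrArg (fun q : ℕ × Fin n => q.1) hab
    have h2 : (finProdFinEquiv.symm a).2 = (finProdFinEquiv.symm b).2 :=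
      congrArg (fun q : ℕ × Fin n => q.2) hab
    exact finProdFinEquiv.symm.injective (Prod.ext (Fin.ext h1) h2)
  set e : Fin (d * n) → O := fun a => x ^ (ι a).1 * w (ι a).2 with he
  have he_ind : LinearIndependent k (fun a => red (e a)) := horth.comp ι hιinj
  have hle : polySpanLt (K := K) x w d ≤
      Submodule.span K (Set.range fun a => ((e a : O) : F)) := by
    unfold polySpanLt
    rw [Submodule.span_le]
    rintro _ ⟨p, rfl⟩
    refine Submodule.subset_span ⟨finProdFinEquiv p, ?_⟩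
    show ((x ^ (ι (finProdFinEquiv p)).1 * w (ι (finProdFinEquiv p)).2 : O) : F) = _
    simp only [hι, Equiv.symm_apply_apply]
    rfl
  have heI : ∀ g ∈ (I : Set (SemilinearAut K F)), ∀ a, g • ((e a : O) : F) = e a := by
    intro g hg a
    show g • (((x : O) : F) ^ (ι a).1 * ((w (ι a).2 : O) : F)) = _
    rw [smul_mul', smul_pow', hIx g hg, hIw g hg]
    rfl
  have hHI : ∀ g ∈ (I : Set (SemilinearAut K F)), g • ((H : O) : F) = H := by
    intro g hg
    rw [hHcoe, smul_aeval g _ (hIx g hg), hhI g hg]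
  exact exists_orthBasis_of_mul_le V O res red algebraMap_mem red_algebraMap red_surjective
    e he_ind H hHred0 M (hd.trans hle) (I : Set (SemilinearAut K F)) heI hHI hMI

end Main

end Fermat.Agent.A3.H499

end

end
-- ===== PACK-END A3/H499/OrthGood.lean

-- ===== PACK-BEGIN S37/H448/AscentMod.lean
section




/-!
# S37 / RED-E4(c) (helper448): (H3) over `A` from (H3) over `𝔽_ℓ` — modular instance

`A ⊆ ℚ̄` a valuation subring, `k = A/𝔪` (algebraically closed, algebraic over `𝔽_ℓ`),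
`F₀ = modularFunctionFieldFullC (ZMod ℓ) N ⊆ 𝔽_ℓ((q))`, `F_k = modularFunctionFieldFullC k N`.

* `mem_fullC_decomp` : every `z ∈ F_k` is `∑ C (e i) * ι (w i)` with `w i ∈ F₀`
  (`F_k = k · ι(F₀)`, because `k / 𝔽_ℓ` is algebraic).
* `lift_of_base` : for ANY coordinate `X₀ ∈ 𝔽_ℓ((q))`: if every `w ∈ F₀` integral over `𝔽_ℓ[X₀]`
  lifts to an `A`-integral series `y` (in `F̄_N`, integral over `A[X]`, where `X̄ = ι X₀`), then
  every `z ∈ F_k` integral over `k[ι X₀]` lifts as well.
* `lift_fin_of_base`, `lift_inf_of_base` : the two charts, in the language of `Core.IntElt`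
  (`IsFin`, `IsInf`), i.e. `(H3)` = `Red.Datum.Good.lift_fin / lift_inf` over `A` from the same
  statement for `w` defined over `𝔽_ℓ` — normality of the special fibre is needed only for the
  model over `ℤ_(ℓ)`.
* `isAlgebraic_residueField`, `lift_fin_of_base_liesOver`, `lift_inf_of_base_liesOver` :
  the instances for `A` over `ℓ`.
-/

set_option autoImplicit false
set_option linter.style.haveILetI false
set_option linter.unusedSimpArgs false
set_option synthInstance.maxHeartbeats 400000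

noncomputable section

namespace Fermat.Agent.S37.H448

open HahnSeries ModularCurve Polynomial AlgebraicCurve Fermat.Agent.S37.Core

section Decomp

variable {k₀ k : Type*} [Field k₀] [Field k] [Algebra k₀ k]

theorem algebraMap_laurent_eq_C (c : k₀) :
    algebraMap k₀ (LaurentSeries k) c = HahnSeries.C (algebraMap k₀ k c) := by
  rw [HahnSeries.algebraMap_apply']
  have h1 : algebraMap k₀ (PowerSeries k) c = PowerSeries.C (algebraMap k₀ k c) := by
    simp [PowerSeries.algebraMap_apply]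
  rw [h1, HahnSeries.ofPowerSeries_C]

theorem isScalarTower_laurent :
    @IsScalarTower k₀ k (LaurentSeries k) Algebra.toSMul Algebra.toSMul Algebra.toSMul := by
  refine IsScalarTower.of_algebraMap_eq (R := k₀) (S := k) (A := LaurentSeries k) fun c => ?_
  rw [algebraMap_laurent_eq_C (k₀ := k₀) (k := k), algebraMap_laurent_eq_C (k₀ := k) (k := k)]
  rfl

/-- the coefficientwise embedding as a `k₀`-algebra homomorphism -/
def iotaAlg (k₀ k : Type*) [Field k₀] [Field k] [Algebra k₀ k] :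
    LaurentSeries k₀ →ₐ[k₀] LaurentSeries k where
  __ := coeffMap (algebraMap k₀ k)
  commutes' c := by
    show coeffMap (algebraMap k₀ k) (algebraMap k₀ (LaurentSeries k₀) c) =
      algebraMap k₀ (LaurentSeries k) c
    rw [algebraMap_laurent_eq_C (k₀ := k₀) (k := k₀), algebraMap_laurent_eq_C (k₀ := k₀) (k := k),
      coeffMap_C']
    rfl

@[simp]
theorem iotaAlg_apply (x : LaurentSeries k₀) : iotaAlg k₀ k x = coeffMap (algebraMap k₀ k) x :=
  rfl

/-- `F_k = k · ι(F₀)` for `k / k₀` algebraic. -/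
theorem mem_fullC_decomp [Algebra.IsAlgebraic k₀ k] (N : ℕ) [NeZero N]
    {z : LaurentSeries k} (hz : z ∈ modularFunctionFieldFullC k N) :
    ∃ (m : ℕ) (e : Fin m → k) (w : Fin m → LaurentSeries k₀),
      (∀ i, w i ∈ modularFunctionFieldFullC k₀ N) ∧
      z = ∑ i, HahnSeries.C (e i) * coeffMap (algebraMap k₀ k) (w i) := by
  classical
  set L : IntermediateField k₀ (LaurentSeries k) :=
    (modularFunctionFieldFullC k₀ N).map (iotaAlg k₀ k) with hL
  have hle : modularFunctionFieldFullC k N ≤ IntermediateField.adjoin k (L : Set (LaurentSeries k)) := by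
    rw [modularFunctionFieldFullC, IntermediateField.adjoin_le_iff]
    rintro x ⟨d, hne, hd, rfl⟩
    haveI := hne
    refine IntermediateField.subset_adjoin k _ ?_
    refine ⟨qExpand k₀ d (jqModC k₀), jqModCd_mem_full k₀ N hd, ?_⟩
    show coeffMap (algebraMap k₀ k) (qExpand k₀ d (jqModC k₀)) = qExpand k d (jqModC k)
    rw [coeffMap_qExpand, coeffMap_jqModC]
  have hz1 : z ∈ (IntermediateField.adjoin k (L : Set (LaurentSeries k))).toSubalgebra := hle hz
  haveI := isScalarTower_laurent (k₀ := k₀) (k := k)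
  rw [IntermediateField.adjoin_intermediateField_toSubalgebra_of_isAlgebraic_left] at hz1
  have hz2 := hz1
  rw [← Subalgebra.mem_toSubmodule, Algebra.adjoin_eq_span] at hz2
  have hcl : (Submonoid.closure (L : Set (LaurentSeries k)) : Set (LaurentSeries k)) =
      (L : Set (LaurentSeries k)) := by
    have : Submonoid.closure (L : Set (LaurentSeries k)) = L.toSubalgebra.toSubmonoid :=
      Submonoid.closure_eq L.toSubalgebra.toSubmonoid
    rw [this]
    rfl
  rw [hcl] at hz2
  obtain ⟨m, f, g, hfg⟩ :=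
    (@Submodule.mem_span_set' k (LaurentSeries k) _ _ Algebra.toModule z
      (L : Set (LaurentSeries k))).mp hz2
  have hg : ∀ i, ∃ w ∈ modularFunctionFieldFullC k₀ N,
      coeffMap (algebraMap k₀ k) w = (g i : LaurentSeries k) := by
    intro i
    obtain ⟨w, hw, hwg⟩ := (g i).2
    exact ⟨w, hw, hwg⟩
  choose w hw hwg using hg
  refine ⟨m, f, w, hw, ?_⟩
  rw [← hfg]
  refine Finset.sum_congr rfl fun i _ => ?_
  rw [hwg i, Algebra.smul_def, algebraMap_laurent_eq_C (k₀ := k) (k := k)]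
  rfl

end Decomp

section Lift

variable {N : ℕ} [NeZero N] {ℓ : ℕ} [Fact ℓ.Prime] (A : ValuationSubring (AlgebraicClosure ℚ))

/-- **Generic lifting statement** (any coordinate): if every `w ∈ F₀` integral over `𝔽_ℓ[X₀]`
is the reduction of an `A`-integral series in `F̄_N` integral over `A[X]` (`X̄ = ι X₀`), then so is
every `z ∈ F_k` integral over `k[ι X₀]`. -/
theorem lift_of_base [IsAlgClosed (IsLocalRing.ResidueField A)]
    (φ : ZMod ℓ →+* IsLocalRing.ResidueField A) (hφ : φ.IsIntegral)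
    (X₀ : LaurentSeries (ZMod ℓ)) (X : LaurentSeries A)
    (hbase : ∀ w : LaurentSeries (ZMod ℓ), w ∈ modularFunctionFieldFullC (ZMod ℓ) N →
      (evalSer (ZMod ℓ) X₀).IsIntegralElem w →
      ∃ y : LaurentSeries A, coeffMap A.subtype y ∈ modularFunctionFieldBar N ∧
        (evalSer A X).IsIntegralElem y ∧ coeffMap (IsLocalRing.residue A) y = coeffMap φ w)
    {z : LaurentSeries (IsLocalRing.ResidueField A)}
    (hz : z ∈ modularFunctionFieldFullC (IsLocalRing.ResidueField A) N)
    (hint : (evalSer (IsLocalRing.ResidueField A) (coeffMap φ X₀)).IsIntegralElem z) :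
    ∃ y : LaurentSeries A, coeffMap A.subtype y ∈ modularFunctionFieldBar N ∧
      (evalSer A X).IsIntegralElem y ∧ coeffMap (IsLocalRing.residue A) y = z := by
  classical
  letI : Algebra (ZMod ℓ) (IsLocalRing.ResidueField A) := φ.toAlgebra
  haveI : Algebra.IsIntegral (ZMod ℓ) (IsLocalRing.ResidueField A) := ⟨hφ⟩
  haveI : Algebra.IsAlgebraic (ZMod ℓ) (IsLocalRing.ResidueField A) :=
    Algebra.IsIntegral.isAlgebraic
  have hφa : algebraMap (ZMod ℓ) (IsLocalRing.ResidueField A) = φ := rfl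
  obtain ⟨m, e, w, hw, rfl⟩ := mem_fullC_decomp (k₀ := ZMod ℓ) N hz
  have hCmem : ∀ (c : ZMod ℓ) (x : LaurentSeries (ZMod ℓ)),
      x ∈ (modularFunctionFieldFullC (ZMod ℓ) N : Set (LaurentSeries (ZMod ℓ))) →
      HahnSeries.C c * x ∈ (modularFunctionFieldFullC (ZMod ℓ) N : Set (LaurentSeries (ZMod ℓ))) := by
    intro c x hx
    refine mul_mem ?_ hx
    have h1 : (HahnSeries.C c : LaurentSeries (ZMod ℓ)) =
        algebraMap (ZMod ℓ) (LaurentSeries (ZMod ℓ)) c := by
      rw [algebraMap_laurentSeries_eq_single]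
      rfl
    rw [h1]
    exact (modularFunctionFieldFullC (ZMod ℓ) N).algebraMap_mem _
  obtain ⟨n, e', w', hw', hint', hzz⟩ := exists_integral_decomp
    (modularFunctionFieldFullC (ZMod ℓ) N : Set (LaurentSeries (ZMod ℓ))) (zero_mem _)
    (fun x y hx hy => add_mem hx hy) hCmem X₀ e w hw hint
  have hy : ∀ j, ∃ y : LaurentSeries A, coeffMap A.subtype y ∈ modularFunctionFieldBar N ∧
      (evalSer A X).IsIntegralElem y ∧ coeffMap (IsLocalRing.residue A) y = coeffMap φ (w' j) :=
    fun j => hbase (w' j) (hw' j) (hint' j)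
  choose y hy1 hy2 hy3 using hy
  have ha : ∀ j, ∃ a : A, IsLocalRing.residue A a = e' j := fun j =>
    IsLocalRing.residue_surjective (e' j)
  choose a ha using ha
  refine ⟨∑ j, HahnSeries.C (a j) * y j, ?_, ?_, ?_⟩
  · rw [_root_.map_sum]
    refine sum_mem fun j _ => ?_
    rw [_root_.map_mul, coeffMap_C']
    refine mul_mem ?_ (hy1 j)
    have h1 : (HahnSeries.C (A.subtype (a j)) : LaurentSeries (AlgebraicClosure ℚ)) =
        algebraMap (AlgebraicClosure ℚ) (LaurentSeries (AlgebraicClosure ℚ)) (a j : AlgebraicClosure ℚ) := by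
      rw [algebraMap_laurentSeries_eq_single]
      rfl
    rw [h1]
    exact (modularFunctionFieldBar N).algebraMap_mem _
  · exact isIntegralElem_sum _ _ _ fun j _ =>
      RingHom.IsIntegralElem.mul _ (isIntegralElem_C _ _) (hy2 j)
  · rw [hzz, _root_.map_sum]
    refine Finset.sum_congr rfl fun j _ => ?_
    rw [_root_.map_mul, coeffMap_C', ha j, hy3 j, hφa]

/-- **(H3), finite chart**: lifting of elements of `F_k` integral over `k[j̄]` to
`Core.IntElt A N` with `IsFin`, from the same statement for the elements defined over `𝔽_ℓ`. -/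
theorem lift_fin_of_base [IsAlgClosed (IsLocalRing.ResidueField A)]
    (φ : ZMod ℓ →+* IsLocalRing.ResidueField A) (hφ : φ.IsIntegral)
    (hbase : ∀ w : LaurentSeries (ZMod ℓ), w ∈ modularFunctionFieldFullC (ZMod ℓ) N →
      (evalSer (ZMod ℓ) (jqModC (ZMod ℓ))).IsIntegralElem w →
      ∃ c : IntElt A N, c.IsFin ∧ coeffMap (IsLocalRing.residue A) c.y = coeffMap φ w)
    {z : LaurentSeries (IsLocalRing.ResidueField A)}
    (hz : z ∈ modularFunctionFieldFullC (IsLocalRing.ResidueField A) N)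
    (hint : (evalSer (IsLocalRing.ResidueField A)
      (jqModC (IsLocalRing.ResidueField A))).IsIntegralElem z) :
    ∃ c : IntElt A N, c.IsFin ∧ coeffMap (IsLocalRing.residue A) c.y = z := by
  have hint' : (evalSer (IsLocalRing.ResidueField A)
      (coeffMap φ (jqModC (ZMod ℓ)))).IsIntegralElem z := by
    rwa [coeffMap_jqModC]
  obtain ⟨y, hy1, hy2, hy3⟩ := lift_of_base A φ hφ (jqModC (ZMod ℓ)) (jqModC A)
    (fun w hw hwi => by
      obtain ⟨c, hc, hcw⟩ := hbase w hw hwi
      exact ⟨c.y, c.mem, hc, hcw⟩) hz hint'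
  exact ⟨⟨y, hy1, by rw [hy3]; exact hz⟩, hy2, hy3⟩

/-- **(H3), chart at infinity**: the same with `j⁻¹`. -/
theorem lift_inf_of_base [IsAlgClosed (IsLocalRing.ResidueField A)]
    (φ : ZMod ℓ →+* IsLocalRing.ResidueField A) (hφ : φ.IsIntegral)
    (hbase : ∀ w : LaurentSeries (ZMod ℓ), w ∈ modularFunctionFieldFullC (ZMod ℓ) N →
      (evalSer (ZMod ℓ) (jqModC (ZMod ℓ))⁻¹).IsIntegralElem w →
      ∃ c : IntElt A N, c.IsInf ∧ coeffMap (IsLocalRing.residue A) c.y = coeffMap φ w)
    {z : LaurentSeries (IsLocalRing.ResidueField A)}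
    (hz : z ∈ modularFunctionFieldFullC (IsLocalRing.ResidueField A) N)
    (hint : (evalSer (IsLocalRing.ResidueField A)
      (jqModC (IsLocalRing.ResidueField A))⁻¹).IsIntegralElem z) :
    ∃ c : IntElt A N, c.IsInf ∧ coeffMap (IsLocalRing.residue A) c.y = z := by
  -- the inverse of `j` over `A`
  obtain ⟨c₀, ⟨u, hu, -⟩, -⟩ := hbase 0 (zero_mem _) (RingHom.isIntegralElem_zero _)
  have huniq : ∀ u' : LaurentSeries A, u' * jqModC A = 1 → u' = u := by
    intro u' hu'
    calc u' = u' * (u * jqModC A) := by rw [hu, mul_one]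
      _ = (u' * jqModC A) * u := by ring
      _ = u := by rw [hu', one_mul]
  have hint' : (evalSer (IsLocalRing.ResidueField A)
      (coeffMap φ (jqModC (ZMod ℓ))⁻¹)).IsIntegralElem z := by
    rwa [map_inv₀, coeffMap_jqModC]
  obtain ⟨y, hy1, hy2, hy3⟩ := lift_of_base A φ hφ (jqModC (ZMod ℓ))⁻¹ u
    (fun w hw hwi => by
      obtain ⟨c, ⟨u', hu', hc⟩, hcw⟩ := hbase w hw hwi
      rw [huniq u' hu'] at hc
      exact ⟨c.y, c.mem, hc, hcw⟩) hz hint'
  exact ⟨⟨y, hy1, by rw [hy3]; exact hz⟩, ⟨u, hu, hy2⟩, hy3⟩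

end Lift

section Instances

variable {ℓ : ℕ} [Fact ℓ.Prime] (A : ValuationSubring (AlgebraicClosure ℚ))

/-- the residue field of a valuation subring of `ℚ̄` is algebraic over `𝔽_ℓ` (for any ring
homomorphism `𝔽_ℓ → k`) -/
theorem isIntegral_residueField (φ : ZMod ℓ →+* IsLocalRing.ResidueField A) : φ.IsIntegral := by
  intro x
  obtain ⟨a, rfl⟩ := IsLocalRing.residue_surjective x
  -- an integer polynomial killing `a`
  have halg : IsAlgebraic ℤ (a : AlgebraicClosure ℚ) :=
    (IsFractionRing.isAlgebraic_iff ℤ ℚ (AlgebraicClosure ℚ)).mpr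
      ((AlgebraicClosure.isAlgebraic ℚ).isAlgebraic (a : AlgebraicClosure ℚ))
  obtain ⟨P, hP0, hPa⟩ := halg
  -- its primitive part
  have hc0 : (P.content : AlgebraicClosure ℚ) ≠ 0 := by
    have : P.content ≠ 0 := fun h => hP0 (Polynomial.content_eq_zero_iff.mp h)
    exact_mod_cast this
  have hPa1 : Polynomial.aeval (a : AlgebraicClosure ℚ) P.primPart = 0 := by
    have h1 := hPa
    rw [P.eq_C_content_mul_primPart, _root_.map_mul, Polynomial.aeval_C] at h1
    rcases mul_eq_zero.mp h1 with h2 | h2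
    · exact absurd (by simpa using h2) hc0
    · exact h2
  have hprim : P.primPart.IsPrimitive := P.isPrimitive_primPart
  have hℓ : (ℓ : ℕ).Prime := Fact.out
  have hred : P.primPart.map (Int.castRingHom (ZMod ℓ)) ≠ 0 := by
    intro h0
    have hdvd : Polynomial.C ((ℓ : ℕ) : ℤ) ∣ P.primPart := by
      rw [Polynomial.C_dvd_iff_dvd_coeff]
      intro n
      have := congrArg (fun q => q.coeff n) h0
      simp only [Polynomial.coeff_map, Polynomial.coeff_zero, eq_intCast] at this
      exact (ZMod.intCast_zmod_eq_zero_iff_dvd _ _).mp this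
    have hu := hprim _ hdvd
    rw [Int.isUnit_iff] at hu
    rcases hu with h | h
    · have : (ℓ : ℤ) = 1 := h
      have : ℓ = 1 := by exact_mod_cast this
      exact hℓ.one_lt.ne' this
    · have : (ℓ : ℤ) = -1 := h
      have h2 : (0 : ℤ) ≤ (ℓ : ℤ) := Int.natCast_nonneg ℓ
      omega
  -- evaluation in `A`
  have hA0 : Polynomial.eval₂ (Int.castRingHom A) a P.primPart = 0 := by
    apply Subtype.ext
    have h1 : ((Polynomial.eval₂ (Int.castRingHom A) a P.primPart : A) : AlgebraicClosure ℚ) =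
        Polynomial.eval₂ (A.subtype.comp (Int.castRingHom A)) (A.subtype a) P.primPart :=
      Polynomial.hom_eval₂ P.primPart (Int.castRingHom A) A.subtype a
    rw [h1, ZeroMemClass.coe_zero, ← hPa1, Polynomial.aeval_def]
    congr 1
  letI : Algebra (ZMod ℓ) (IsLocalRing.ResidueField A) := φ.toAlgebra
  have halg' : IsAlgebraic (ZMod ℓ) (IsLocalRing.residue A a) := by
    refine ⟨P.primPart.map (Int.castRingHom (ZMod ℓ)), hred, ?_⟩
    rw [Polynomial.aeval_def, Polynomial.eval₂_map]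
    have h2 : (algebraMap (ZMod ℓ) (IsLocalRing.ResidueField A)).comp (Int.castRingHom (ZMod ℓ)) =
        (IsLocalRing.residue A).comp (Int.castRingHom A) := RingHom.ext_int _ _
    rw [h2, ← Polynomial.hom_eval₂, hA0, _root_.map_zero]
  exact halg'.isIntegral

/-- the residue field of a valuation subring of `ℚ̄` over `ℓ` has characteristic `ℓ`
(copy of `charP_residueField_of_liesOverPrime`, to keep this file light) -/
theorem charP_resField (hA : A.LiesOverPrime ℓ) : CharP (IsLocalRing.ResidueField A) ℓ := by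
  refine (CharP.charP_iff_prime_eq_zero (Fact.out : ℓ.Prime)).mpr ?_
  have h1 : ((ℓ : A) : AlgebraicClosure ℚ) ∈ A.nonunits := by
    have : ((ℓ : A) : AlgebraicClosure ℚ) = (ℓ : AlgebraicClosure ℚ) := by push_cast; rfl
    rw [this]; exact hA
  have h2 : (ℓ : A) ∈ IsLocalRing.maximalIdeal A := ValuationSubring.coe_mem_nonunits_iff.mp h1
  have h3 := (IsLocalRing.residue_eq_zero_iff (ℓ : A)).mpr h2
  rwa [_root_.map_natCast] at h3

/-- there is a ring homomorphism `𝔽_ℓ → k` -/
theorem exists_zmod_hom (hA : A.LiesOverPrime ℓ) :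
    Nonempty (ZMod ℓ →+* IsLocalRing.ResidueField A) := by
  haveI := charP_resField A hA
  exact ⟨ZMod.castHom (dvd_refl ℓ) (IsLocalRing.ResidueField A)⟩

variable {N : ℕ} [NeZero N]

/-- **(H3) over `A` from (H3) over `𝔽_ℓ`, finite chart**, `A` over `ℓ`.  (`c.sp` form.) -/
theorem lift_fin_of_base_liesOver (hA : A.LiesOverPrime ℓ)
    (hbase : ∀ (φ : ZMod ℓ →+* IsLocalRing.ResidueField A) (w : LaurentSeries (ZMod ℓ)),
      w ∈ modularFunctionFieldFullC (ZMod ℓ) N →
      (evalSer (ZMod ℓ) (jqModC (ZMod ℓ))).IsIntegralElem w →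
      ∃ c : IntElt A N, c.IsFin ∧ coeffMap (IsLocalRing.residue A) c.y = coeffMap φ w)
    (z : modularFunctionFieldFullC (IsLocalRing.ResidueField A) N)
    (hint : (evalSer (IsLocalRing.ResidueField A)
      (jqModC (IsLocalRing.ResidueField A))).IsIntegralElem (z : LaurentSeries _)) :
    ∃ c : IntElt A N, c.IsFin ∧ c.sp = z := by
  haveI := Fermat.Agent.S18.H9.resAlgClosed (AlgebraicClosure ℚ) A
  obtain ⟨φ⟩ := exists_zmod_hom A hA
  obtain ⟨c, hc, hcz⟩ := lift_fin_of_base A φ (isIntegral_residueField A φ) (hbase φ) z.2 hint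
  exact ⟨c, hc, Subtype.ext hcz⟩

/-- **(H3) over `A` from (H3) over `𝔽_ℓ`, chart at infinity**, `A` over `ℓ`. -/
theorem lift_inf_of_base_liesOver (hA : A.LiesOverPrime ℓ)
    (hbase : ∀ (φ : ZMod ℓ →+* IsLocalRing.ResidueField A) (w : LaurentSeries (ZMod ℓ)),
      w ∈ modularFunctionFieldFullC (ZMod ℓ) N →
      (evalSer (ZMod ℓ) (jqModC (ZMod ℓ))⁻¹).IsIntegralElem w →
      ∃ c : IntElt A N, c.IsInf ∧ coeffMap (IsLocalRing.residue A) c.y = coeffMap φ w)
    (z : modularFunctionFieldFullC (IsLocalRing.ResidueField A) N)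
    (hint : (evalSer (IsLocalRing.ResidueField A)
      (jqModC (IsLocalRing.ResidueField A))⁻¹).IsIntegralElem (z : LaurentSeries _)) :
    ∃ c : IntElt A N, c.IsInf ∧ c.sp = z := by
  haveI := Fermat.Agent.S18.H9.resAlgClosed (AlgebraicClosure ℚ) A
  obtain ⟨φ⟩ := exists_zmod_hom A hA
  obtain ⟨c, hc, hcz⟩ := lift_inf_of_base A φ (isIntegral_residueField A φ) (hbase φ) z.2 hint
  exact ⟨c, hc, Subtype.ext hcz⟩

end Instances

section BaseRing

variable {N : ℕ} {ℓ : ℕ} [Fact ℓ.Prime] (A : ValuationSubring (AlgebraicClosure ℚ))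

/-- **Adapter for the producer of (H3) over a base ring `R₀`** (e.g. `R₀ = ℤ_(ℓ)`): if every
`w ∈ F₀` integral over `𝔽_ℓ[j̄]` is the reduction (along `ρ₀ : R₀ → 𝔽_ℓ`) of a series
`y₀ ∈ R₀((q))`, integral over `R₀[j]`, whose image in `ℚ̄((q))` lies in `F̄_N`, then the hypothesis
`hbase` of `lift_fin_of_base` holds for every `φ` with `residue ∘ ψ = φ ∘ ρ₀`. -/
theorem base_fin_of_ring {R₀ : Type*} [CommRing R₀] (ψ : R₀ →+* A) (ρ₀ : R₀ →+* ZMod ℓ)
    (φ : ZMod ℓ →+* IsLocalRing.ResidueField A)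
    (hcomp : (IsLocalRing.residue A).comp ψ = φ.comp ρ₀)
    (hmemk : ∀ y : LaurentSeries A, coeffMap A.subtype y ∈ modularFunctionFieldBar N →
      coeffMap (IsLocalRing.residue A) y ∈ modularFunctionFieldFullC (IsLocalRing.ResidueField A) N)
    (h0 : ∀ w : LaurentSeries (ZMod ℓ), w ∈ modularFunctionFieldFullC (ZMod ℓ) N →
      (evalSer (ZMod ℓ) (jqModC (ZMod ℓ))).IsIntegralElem w →
      ∃ y₀ : LaurentSeries R₀,
        coeffMap (A.subtype.comp ψ) y₀ ∈ modularFunctionFieldBar N ∧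
        (evalSer R₀ (jqModC R₀)).IsIntegralElem y₀ ∧ coeffMap ρ₀ y₀ = w)
    (w : LaurentSeries (ZMod ℓ)) (hw : w ∈ modularFunctionFieldFullC (ZMod ℓ) N)
    (hwi : (evalSer (ZMod ℓ) (jqModC (ZMod ℓ))).IsIntegralElem w) :
    ∃ c : IntElt A N, c.IsFin ∧ coeffMap (IsLocalRing.residue A) c.y = coeffMap φ w := by
  obtain ⟨y₀, hy1, hy2, hy3⟩ := h0 w hw hwi
  have hmem : coeffMap A.subtype (coeffMap ψ y₀) ∈ modularFunctionFieldBar N := by
    rw [coeffMap_coeffMap]
    exact hy1
  refine ⟨⟨coeffMap ψ y₀, hmem, hmemk _ hmem⟩, ?_, ?_⟩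
  · have h1 := isIntegralElem_coeffMap ψ hy2
    rw [coeffMap_jqModC] at h1
    exact h1
  · show coeffMap (IsLocalRing.residue A) (coeffMap ψ y₀) = coeffMap φ w
    rw [coeffMap_coeffMap, hcomp, ← coeffMap_coeffMap, hy3]

end BaseRing

end Fermat.Agent.S37.H448

end
end
-- ===== PACK-END S37/H448/AscentMod.lean

-- ===== PACK-BEGIN S18/B12/H638/Normal.lean
section



/-!
# S18 b2 (helper638): FULL NORMALITY of the special fibre — `B2NormalDomStatement`

Requested by row S37 (helper37, `coord/S37-b2-request.md`): hypothesis (H3) `lift_fin`/`lift_inf`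
of the S37 reduction datum needs b2 for ALL integral elements of `Frac (B/wB)`, not only for
idempotents.

* `H638.B2NormalDomStatement` : the requested statement `B2NormalStatement`, with the extra hypothesis
  `hdom : Prime (algebraMap R[X] B (C w))` (the special fibre is a domain; in the application
  `B/wB` embeds into `κ((q))` by the `q`-expansion principle).
* `B2IntClosedStatement` : same hypotheses, conclusion `IsIntegrallyClosed (B/wB)`.
* `b2IntClosed_of_pieces`, `b2NormalDom_of_pieces` : both from the frozen pieces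
  `B2CoreAbsStatement` (A6'), `RegSeqAbsStatement` (A0), `IntClosedOfDiscrStatement` (A8),
  `PolyInstStatement` (A1) of `B12/Spec*.lean`.
* `b2NormalDom_of_intClosed` : the pure algebra step (no pieces): in a domain `B` with `w` prime and
  `B/wB` integrally closed, `b/g` integral over `B/wB` implies `b ≡ g b₀ mod w`.
-/

set_option autoImplicit false
set_option linter.style.haveILetI false

noncomputable section

namespace Fermat.Agent.S18.B12.H638

open Polynomial

universe u v

/-- **b2, integrally closed form.**  Hypotheses of `B2RegularStatement`; conclusion: the special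
fibre `B/wB` is an integrally closed domain. -/
def B2IntClosedStatement : Prop :=
  ∀ (R : Type u) [CommRing R] [IsDomain R] [IsDiscreteValuationRing R] [CharZero R]
    (w : R) (_ : Irreducible w)
    (B : Type v) [CommRing B] [IsDomain B] [IsIntegrallyClosed B] [Algebra R[X] B]
    [Module.Finite R[X] B] [Module.IsTorsionFree R[X] B]
    (_ : Prime (algebraMap R[X] B (C w)))
    (_ : ∃ x : Fin (Module.finrank R[X] B) → B,
        ¬ C w ∣ (Matrix.of fun i j => Algebra.intTrace R[X] B (x i * x j)).det)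
    (S : Finset R) (_ : ∀ c ∈ S, ∀ c' ∈ S, c ≠ c' → IsUnit (c - c'))
    (_ : ∀ π : R[X], Prime π → ¬ Associated π (C w) → (∀ c ∈ S, ¬ Associated π (X - C c)) →
        (Ideal.span {algebraMap R[X] B π}).IsRadical),
    IsIntegrallyClosed (B ⧸ Ideal.span {algebraMap R[X] B (C w)})

/-- **b2, full normality form (domain case).**  `B2NormalStatement` of
`origin/helper37:coord/S37-b2-request.md` with the extra hypothesis that `w` is prime in `B`:
if `ε = b/g` satisfies `ε^d + Σ a_i ε^i = 0` in `Frac (B/wB)` then `ε ∈ B/wB`. -/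
def B2NormalDomStatement : Prop :=
  ∀ (R : Type u) [CommRing R] [IsDomain R] [IsDiscreteValuationRing R] [CharZero R]
    (w : R) (_ : Irreducible w)
    (B : Type v) [CommRing B] [IsDomain B] [IsIntegrallyClosed B] [Algebra R[X] B]
    [Module.Finite R[X] B] [Module.IsTorsionFree R[X] B]
    (_ : Prime (algebraMap R[X] B (C w)))
    (_ : ∃ x : Fin (Module.finrank R[X] B) → B,
        ¬ C w ∣ (Matrix.of fun i j => Algebra.intTrace R[X] B (x i * x j)).det)
    (S : Finset R) (_ : ∀ c ∈ S, ∀ c' ∈ S, c ≠ c' → IsUnit (c - c'))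
    (_ : ∀ π : R[X], Prime π → ¬ Associated π (C w) → (∀ c ∈ S, ¬ Associated π (X - C c)) →
        (Ideal.span {algebraMap R[X] B π}).IsRadical)
    (b : B) (g : R[X]), ¬ C w ∣ g →
    (∃ (d : ℕ) (a : Fin d → B),
        b ^ d + ∑ i : Fin d, a i * b ^ (i : ℕ) * algebraMap R[X] B g ^ (d - (i : ℕ)) ∈
          Ideal.span {algebraMap R[X] B (C w)}) →
      ∃ b₀ : B, b - algebraMap R[X] B g * b₀ ∈ Ideal.span {algebraMap R[X] B (C w)}


/-- In a torsion-free integral extension `B` of an integrally closed domain `P`, divisibility of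
elements of `P` can be tested in `B`. -/
theorem dvd_of_algebraMap_dvd {P : Type u} {B : Type v} [CommRing P] [IsDomain P]
    [IsIntegrallyClosed P] [CommRing B] [IsDomain B] [Algebra P B] [Algebra.IsIntegral P B]
    [Module.IsTorsionFree P B] (w g : P) (hw : w ≠ 0)
    (h : algebraMap P B w ∣ algebraMap P B g) : w ∣ g := by
  obtain ⟨c, hc⟩ := h
  have hinj : Function.Injective (algebraMap P B) := FaithfulSMul.algebraMap_injective P B
  let K := FractionRing P
  let L := FractionRing B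
  have hinjL : Function.Injective (algebraMap P L) := by
    rw [IsScalarTower.algebraMap_eq P B L]
    exact (IsFractionRing.injective B L).comp hinj
  haveI : FaithfulSMul P L := (faithfulSMul_iff_algebraMap_injective P L).mpr hinjL
  letI : Algebra K L := FractionRing.liftAlgebra P L
  haveI : IsScalarTower P K L := FractionRing.isScalarTower_liftAlgebra P L
  have hwK : algebraMap P K w ≠ 0 := by
    intro h0
    exact hw ((IsFractionRing.injective P K) (by rw [h0, _root_.map_zero]))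
  set k : K := algebraMap P K g / algebraMap P K w with hk
  have hkL : algebraMap K L k = algebraMap B L c := by
    have hwL : algebraMap K L (algebraMap P K w) ≠ 0 := by
      intro h0
      exact hwK ((algebraMap K L).injective (by rw [h0, _root_.map_zero]))
    rw [hk, map_div₀, div_eq_iff hwL, ← IsScalarTower.algebraMap_apply P K L,
      ← IsScalarTower.algebraMap_apply P K L, IsScalarTower.algebraMap_apply P B L g, hc,
      _root_.map_mul, IsScalarTower.algebraMap_apply P B L w, mul_comm]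
  have hint : IsIntegral P k := by
    have h1 : IsIntegral P (algebraMap B L c) :=
      (Algebra.IsIntegral.isIntegral (R := P) c).algebraMap
    rw [← hkL] at h1
    exact (isIntegral_algebraMap_iff (algebraMap K L).injective).mp h1
  obtain ⟨y, hy⟩ := (IsIntegrallyClosed.isIntegral_iff (R := P) (K := K)).mp hint
  refine ⟨y, ?_⟩
  apply IsFractionRing.injective P K
  rw [_root_.map_mul, hy, hk, mul_div_cancel₀ _ hwK]

/-- **Pure algebra step.**  `B` a commutative ring, `ϖ ∈ B` prime with `B/ϖB` integrally closed,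
`γ ∉ ϖB`.  If `b^d + Σ_{i<d} a_i b^i γ^(d-i) ∈ ϖB` then `b ≡ γ b₀ mod ϖ` for some `b₀`. -/
theorem exists_sub_mul_mem_of_isIntegrallyClosed {B : Type v} [CommRing B] (ϖ : B)
    (hϖ : Prime ϖ) [IsIntegrallyClosed (B ⧸ Ideal.span {ϖ})] (b γ : B)
    (hγ : γ ∉ Ideal.span {ϖ}) (d : ℕ) (a : Fin d → B)
    (h : b ^ d + ∑ i : Fin d, a i * b ^ (i : ℕ) * γ ^ (d - (i : ℕ)) ∈ Ideal.span {ϖ}) :
    ∃ b₀ : B, b - γ * b₀ ∈ Ideal.span {ϖ} := by
  haveI hprime : (Ideal.span {ϖ}).IsPrime := (Ideal.span_singleton_prime hϖ.ne_zero).mpr hϖ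
  haveI : IsDomain (B ⧸ Ideal.span {ϖ}) := Ideal.Quotient.isDomain _
  set Cq := B ⧸ Ideal.span {ϖ} with hCq
  set K := FractionRing Cq with hK
  let mk : B →+* Cq := Ideal.Quotient.mk _
  have hγ0 : mk γ ≠ 0 := fun h0 => hγ (Ideal.Quotient.eq_zero_iff_mem.mp h0)
  have hγK : algebraMap Cq K (mk γ) ≠ 0 := by
    intro h0
    exact hγ0 ((IsFractionRing.injective Cq K) (by rw [h0, _root_.map_zero]))
  -- the equation in `Cq`
  have heq : mk b ^ d + ∑ i : Fin d, mk (a i) * mk b ^ (i : ℕ) * mk γ ^ (d - (i : ℕ)) = 0 := by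
    have := Ideal.Quotient.eq_zero_iff_mem.mpr h
    simpa [_root_.map_add, _root_.map_sum, _root_.map_mul, _root_.map_pow] using this
  -- the monic polynomial
  let p : Cq[X] := X ^ d + ∑ i : Fin d, C (mk (a i)) * X ^ (i : ℕ)
  have hlt : (∑ i : Fin d, C (mk (a i)) * X ^ (i : ℕ) : Cq[X]).degree < (d : WithBot ℕ) :=
    Polynomial.degree_sum_fin_lt fun i => mk (a i)
  have hmonic : p.Monic := Polynomial.monic_X_pow_add hlt
  set ε : K := algebraMap Cq K (mk b) / algebraMap Cq K (mk γ) with hε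
  have hroot : Polynomial.eval₂ (algebraMap Cq K) ε p = 0 := by
    have h1 := congrArg (algebraMap Cq K) heq
    simp only [_root_.map_add, _root_.map_sum, _root_.map_mul, _root_.map_pow, _root_.map_zero] at h1
    have hb : algebraMap Cq K (mk b) = ε * algebraMap Cq K (mk γ) := by
      rw [hε, div_mul_cancel₀ _ hγK]
    simp only [p, Polynomial.eval₂_add, Polynomial.eval₂_pow, Polynomial.eval₂_X,
      Polynomial.eval₂_finsetSum, Polynomial.eval₂_mul, Polynomial.eval₂_C]
    have hgd : (algebraMap Cq K (mk γ)) ^ d ≠ 0 := pow_ne_zero _ hγK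
    apply mul_right_cancel₀ hgd
    rw [zero_mul, add_mul, Finset.sum_mul, ← h1, hb]
    congr 1
    · rw [mul_pow]
    · refine Finset.sum_congr rfl fun i _ => ?_
      have hi : (i : ℕ) + (d - (i : ℕ)) = d := Nat.add_sub_cancel' i.2.le
      calc algebraMap Cq K (mk (a i)) * ε ^ (i : ℕ) * algebraMap Cq K (mk γ) ^ d
          = algebraMap Cq K (mk (a i)) * ε ^ (i : ℕ) *
              (algebraMap Cq K (mk γ) ^ (i : ℕ) * algebraMap Cq K (mk γ) ^ (d - (i : ℕ))) := by
            rw [← pow_add, hi]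
        _ = algebraMap Cq K (mk (a i)) * (ε * algebraMap Cq K (mk γ)) ^ (i : ℕ) *
              algebraMap Cq K (mk γ) ^ (d - (i : ℕ)) := by
            rw [mul_pow]; ring
  have hint : IsIntegral Cq ε := ⟨p, hmonic, hroot⟩
  obtain ⟨c, hc⟩ := (IsIntegrallyClosed.isIntegral_iff (R := Cq) (K := K)).mp hint
  obtain ⟨b₀, rfl⟩ := Ideal.Quotient.mk_surjective c
  refine ⟨b₀, ?_⟩
  rw [← Ideal.Quotient.eq_zero_iff_mem, _root_.map_sub, _root_.map_mul, sub_eq_zero]
  apply IsFractionRing.injective Cq K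
  rw [_root_.map_mul]
  change algebraMap Cq K (mk b) = algebraMap Cq K (mk γ) * algebraMap Cq K (mk b₀)
  rw [hc, hε, mul_div_cancel₀ _ hγK]

/-- `B2IntClosedStatement` from the frozen pieces (first half of `H33.b2Regular_of_pieces`). -/
theorem b2IntClosed_of_pieces
    (hcore : B2CoreAbsStatement.{u, v}) (hA0 : RegSeqAbsStatement.{u, v})
    (hA8 : IntClosedOfDiscrStatement.{u, v}) (hA1 : PolyInstStatement.{u}) :
    B2IntClosedStatement.{u, v} := by
  intro R _ _ _ _ w hw B _ _ _ _ _ _ hdom hsep S hS hNC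
  obtain ⟨hCw, hΛ, hΛ₀, hℚ, hc⟩ := hA1 R w hw
  have hJ : (Ideal.span {(C w : R[X])}).map (algebraMap R[X] B)
      = Ideal.span {algebraMap R[X] B (C w)} := by
    rw [Ideal.map_span, Set.image_singleton]
  rw [← hJ]
  -- instances on the special fibre
  haveI hJprime : ((Ideal.span {(C w : R[X])}).map (algebraMap R[X] B)).IsPrime := by
    rw [hJ]; exact (Ideal.span_singleton_prime hdom.ne_zero).mpr hdom
  haveI := hΛ
  haveI : IsDomain (R[X] ⧸ Ideal.span {(C w : R[X])}) := by
    rw [Ideal.Quotient.isDomain_iff_prime]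
    exact (Ideal.span_singleton_prime hCw.ne_zero).mpr hCw
  haveI tf := H33.isTorsionFree_quotient (B := B) hA0 (C w : R[X]) hCw
  haveI : Module.Finite (R[X] ⧸ Ideal.span {(C w : R[X])})
      (B ⧸ (Ideal.span {(C w : R[X])}).map (algebraMap R[X] B)) :=
    Module.Finite.of_restrictScalars_finite R[X] _ _
  haveI : Module.Free (R[X] ⧸ Ideal.span {(C w : R[X])})
      (B ⧸ (Ideal.span {(C w : R[X])}).map (algebraMap R[X] B)) :=
    Module.free_of_finite_type_torsion_free'
  let bb := Module.finBasis (R[X] ⧸ Ideal.span {(C w : R[X])})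
      (B ⧸ (Ideal.span {(C w : R[X])}).map (algebraMap R[X] B))
  -- translate the hypotheses
  classical
  have hS1' : ∀ s ∈ S.image (fun c => (X - C c : R[X])), Prime s ∧ ¬ Associated s (C w) ∧
      (Ideal.span {(C w : R[X]), s}).IsMaximal ∧
      IsPrincipalIdealRing (R[X] ⧸ Ideal.span {s}) := by
    intro s hs
    obtain ⟨c, -, rfl⟩ := Finset.mem_image.mp hs
    obtain ⟨h1, h2, h3, h4, -⟩ := hc c
    exact ⟨h1, h2, h3, h4⟩
  have hS2' : ∀ s ∈ S.image (fun c => (X - C c : R[X])),
      ∀ s' ∈ S.image (fun c => (X - C c : R[X])), s ≠ s' →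
      s' ∉ Ideal.span {(C w : R[X]), s} := by
    intro s hs s' hs' hne hmem
    obtain ⟨c, hcS, rfl⟩ := Finset.mem_image.mp hs
    obtain ⟨c', hcS', rfl⟩ := Finset.mem_image.mp hs'
    have hcc : c ≠ c' := fun h => hne (by rw [h])
    exact (hc c).2.2.2.2 c' hmem (hS c hcS c' hcS' hcc)
  have hNC' : ∀ π : R[X], Prime π → ¬ Associated π (C w) →
      (∀ s ∈ S.image (fun c => (X - C c : R[X])), ¬ Associated π s) →
      (Ideal.span {algebraMap R[X] B π}).IsRadical := by
    intro π hπ hπw hπS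
    exact hNC π hπ hπw (fun c hcS => hπS _ (Finset.mem_image_of_mem _ hcS))
  have hcore' := hcore R[X] (C w) hCw hΛ hΛ₀ hℚ B hsep (S.image (fun c => (X - C c : R[X])))
    hS1' hS2' hNC'
  -- a prime of `Λ`
  obtain ⟨h01, h02, h03, -, -⟩ := hc 0
  have hw0 : ¬ (C w : R[X]) ∣ X - C 0 := by
    intro hdvd
    obtain ⟨r, hr⟩ := hdvd
    rcases h01.irreducible.isUnit_or_isUnit hr with h | h
    · exact hCw.not_isUnit h
    · exact h02 ⟨h.unit⁻¹, by rw [hr, mul_assoc, IsUnit.mul_val_inv, mul_one]⟩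
  have ht₀ := H33.prime_mk_of_isMaximal (C w : R[X]) (X - C 0) hCw h03 hw0
  have hdisc := (hcore' _ ht₀ _ bb).1
  exact hA8 _ _ _ bb hdisc (fun t ht => (hcore' t ht _ bb).2)

/-- `B2NormalDomStatement` from `B2IntClosedStatement` (pure algebra). -/
theorem b2NormalDom_of_intClosed (hIC : B2IntClosedStatement.{u, v}) :
    B2NormalDomStatement.{u, v} := by
  intro R _ _ _ _ w hw B _ _ _ _ _ _ hdom hsep S hS hNC b g hg hex
  obtain ⟨d, a, h⟩ := hex
  haveI := hIC R w hw B hdom hsep S hS hNC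
  refine exists_sub_mul_mem_of_isIntegrallyClosed (algebraMap R[X] B (C w)) hdom b
    (algebraMap R[X] B g) ?_ d a h
  -- `g ∉ wB` from `¬ C w ∣ g`: `B` is integrally closed, `g / w ∈ Frac R[X]` integral
  intro hmem
  haveI : IsIntegrallyClosed R[X] := inferInstance
  have hCw : (C w : R[X]) ≠ 0 := by
    rw [Ne, Polynomial.C_eq_zero]; exact hw.ne_zero
  exact hg (dvd_of_algebraMap_dvd (P := R[X]) (B := B) (C w) g hCw
    (Ideal.mem_span_singleton.mp hmem))

/-- **`B2NormalDomStatement` from the frozen pieces.** -/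
theorem b2NormalDom_of_pieces
    (hcore : B2CoreAbsStatement.{u, v}) (hA0 : RegSeqAbsStatement.{u, v})
    (hA8 : IntClosedOfDiscrStatement.{u, v}) (hA1 : PolyInstStatement.{u}) :
    B2NormalDomStatement.{u, v} :=
  b2NormalDom_of_intClosed (b2IntClosed_of_pieces hcore hA0 hA8 hA1)

end Fermat.Agent.S18.B12.H638

end
end
-- ===== PACK-END S18/B12/H638/Normal.lean

-- ===== PACK-BEGIN A2/Mod/H489/S1.lean
section



/-!
# WALL A2 / MODASM — sub-assembly S1 (helper489): the two components of both charts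

`s1_of_leaves : L2 → L6 → L8 → L9 → L10 → S1Statement P E M q w`
(`Fermat/Agent/A2/Mod/Asm.lean`, statement VERBATIM; the leaves are the `…Statement`s of
`Fermat/Agent/A2/Mod/Spec.lean`, VERBATIM; L3 is not needed: the Gauss property of `V∞` and `V₀`
on `E(x)` follows from the residue independence L9 / L10).

Proof: `H489.frame_exists_components` (chart of `x`) and `H489.frame_exists_components_inv`
(chart of `x⁻¹`), i.e. helper48's `GaussPairLe.qep2` + incomparability by weak approximation.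
-/

set_option autoImplicit false
set_option linter.unusedSectionVars false
set_option linter.style.haveILetI false
set_option synthInstance.maxHeartbeats 400000
set_option maxHeartbeats 1600000

noncomputable section

namespace Fermat.Agent.A2.Mod.H489

open ModularCurve HahnSeries Polynomial IsLocalRing
open Fermat.Agent.A2 Fermat.Agent.A2.Mod

variable (P : ValuationSubring _root_.Fermat.Agent.A2.Mod.Qb) (E : IntermediateField ℚ _root_.Fermat.Agent.A2.Mod.Qb) (N : ℕ)

/-- `ev` is `aeval`. -/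
theorem ev_eq_aeval (x : _root_.Fermat.Agent.A2.Mod.FE E N) (a : Polynomial (_root_.Fermat.Agent.A2.Mod.RE P E)) :
    ev P E N x a = aeval x a := rfl

/-- `cE` is the structure map. -/
theorem cE_eq_algebraMap (r : _root_.Fermat.Agent.A2.Mod.RE P E) : cE P E N r = algebraMap (_root_.Fermat.Agent.A2.Mod.RE P E) (_root_.Fermat.Agent.A2.Mod.FE E N) r := rfl

variable {P E N}

/-- `InW` in terms of the maximal ideal. -/
theorem inW_iff_mem_nonunits {V : ValuationSubring (_root_.Fermat.Agent.A2.Mod.FE E N)} {w : _root_.Fermat.Agent.A2.Mod.RE P E}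
    (hu : H48.IsUnif V (algebraMap (_root_.Fermat.Agent.A2.Mod.RE P E) (_root_.Fermat.Agent.A2.Mod.FE E N) w)) (f : _root_.Fermat.Agent.A2.Mod.FE E N) :
    InW P E N V w f ↔ f ∈ V.nonunits := by
  rw [ValuationSubring.mem_nonunits_iff, ← hu.mul_inv_mem_iff]
  rfl

/-- the uniformiser is a uniformiser of `V ∘ W` for every `E`-automorphism `W` -/
theorem isUnif_comap {V : ValuationSubring (_root_.Fermat.Agent.A2.Mod.FE E N)} {w : _root_.Fermat.Agent.A2.Mod.RE P E}
    (hu : H48.IsUnif V (algebraMap (_root_.Fermat.Agent.A2.Mod.RE P E) (_root_.Fermat.Agent.A2.Mod.FE E N) w)) (W : _root_.Fermat.Agent.A2.Mod.FE E N ≃ₐ[E] _root_.Fermat.Agent.A2.Mod.FE E N) :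
    H48.IsUnif (V.comap (W : _root_.Fermat.Agent.A2.Mod.FE E N →+* _root_.Fermat.Agent.A2.Mod.FE E N)) (algebraMap (_root_.Fermat.Agent.A2.Mod.RE P E) (_root_.Fermat.Agent.A2.Mod.FE E N) w) := by
  have hW : W (algebraMap (_root_.Fermat.Agent.A2.Mod.RE P E) (_root_.Fermat.Agent.A2.Mod.FE E N) w) = algebraMap (_root_.Fermat.Agent.A2.Mod.RE P E) (_root_.Fermat.Agent.A2.Mod.FE E N) w :=
    W.commutes (w : E)
  refine ⟨?_, ?_, ?_⟩
  · show W _ ∈ V
    rw [hW]
    exact hu.mem
  · show ¬ W _ ∈ V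
    rw [map_inv₀, hW]
    exact hu.inv_not_mem
  · intro f hf hfinv
    show W _ ∈ V
    rw [_root_.map_mul, map_inv₀, hW]
    refine hu.gen (W f) hf ?_
    intro h
    apply hfinv
    show W _ ∈ V
    rw [map_inv₀]
    exact h

/-- `V` lies over `R_E`. -/
theorem isOver_of_unif [IsDiscreteValuationRing (_root_.Fermat.Agent.A2.Mod.RE P E)] {V : ValuationSubring (_root_.Fermat.Agent.A2.Mod.FE E N)}
    {w : _root_.Fermat.Agent.A2.Mod.RE P E} (hw : Irreducible w)
    (hu : H48.IsUnif V (algebraMap (_root_.Fermat.Agent.A2.Mod.RE P E) (_root_.Fermat.Agent.A2.Mod.FE E N) w))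
    (hmem : ∀ r : _root_.Fermat.Agent.A2.Mod.RE P E, algebraMap (_root_.Fermat.Agent.A2.Mod.RE P E) (_root_.Fermat.Agent.A2.Mod.FE E N) r ∈ V) :
    Fermat.Agent.A2.H489.IsOver (_root_.Fermat.Agent.A2.Mod.RE P E) V where
  mem := hmem
  nonunit := by
    intro r hr
    rw [hw.maximalIdeal_eq, Ideal.mem_span_singleton] at hr
    obtain ⟨r', rfl⟩ := hr
    rw [_root_.map_mul, mul_comm]
    exact Fermat.Agent.A2.H489.mem_mul_nonunits (hmem r')
      ((ValuationSubring.mem_nonunits_iff V).mpr hu.val_lt_one)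

/-- `IndepMod` (Spec) gives `PolyIndepMod` (frame). -/
theorem polyIndepMod_of_indepMod [IsDiscreteValuationRing (_root_.Fermat.Agent.A2.Mod.RE P E)]
    {V : ValuationSubring (_root_.Fermat.Agent.A2.Mod.FE E N)} {w : _root_.Fermat.Agent.A2.Mod.RE P E} (hw : Irreducible w)
    (hu : H48.IsUnif V (algebraMap (_root_.Fermat.Agent.A2.Mod.RE P E) (_root_.Fermat.Agent.A2.Mod.FE E N) w)) {x : _root_.Fermat.Agent.A2.Mod.FE E N} {n : ℕ}
    {b : Fin n → _root_.Fermat.Agent.A2.Mod.FE E N} (hI : IndepMod P E N V w x b) :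
    Fermat.Agent.A2.H489.PolyIndepMod (_root_.Fermat.Agent.A2.Mod.RE P E) V x b := by
  intro a ha i
  rw [← Fermat.Agent.A2.H489.C_dvd_iff_map_residue_eq_zero hw]
  exact hI a ((inW_iff_mem_nonunits hu _).mpr ha) i

/-- `p = B ∩ 𝔪_V` is `IsCut`. -/
theorem isCut_of_mem_iff {V : ValuationSubring (_root_.Fermat.Agent.A2.Mod.FE E N)} {w : _root_.Fermat.Agent.A2.Mod.RE P E}
    (hu : H48.IsUnif V (algebraMap (_root_.Fermat.Agent.A2.Mod.RE P E) (_root_.Fermat.Agent.A2.Mod.FE E N) w))
    {B : Subalgebra (_root_.Fermat.Agent.A2.Mod.RE P E) (_root_.Fermat.Agent.A2.Mod.FE E N)} {p : Ideal B}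
    (hp : ∀ b : B, b ∈ p ↔ (b : _root_.Fermat.Agent.A2.Mod.FE E N) ∈ V.nonunits) : IsCut P E N w V B p :=
  fun b => (hp b).trans (inW_iff_mem_nonunits hu _).symm

/-- **MODASM sub-assembly S1** from the leaves L2, L6, L8, L9, L10 (all VERBATIM). -/
theorem s1_of_leaves (P : ValuationSubring _root_.Fermat.Agent.A2.Mod.Qb) (E : IntermediateField ℚ _root_.Fermat.Agent.A2.Mod.Qb) (M q : ℕ)
    [NeZero M] [NeZero q] (w : _root_.Fermat.Agent.A2.Mod.RE P E)
    (hL2 : VinfBasicStatement P E w) (hL6 : VzeroNeStatement P E M q w)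
    (hL8 : DegStatement E M q) (hL9 : IndInfStatement P E M q w)
    (hL10 : IndZeroStatement P E M q w) : S1Statement P E M q w := by
  intro hS V W hV hW y hy
  haveI hdvr : IsDiscreteValuationRing (_root_.Fermat.Agent.A2.Mod.RE P E) := hS.dvr
  have hw := hS.unif
  have hN : M * q ≠ 0 := mul_ne_zero hS.M_ne_zero hS.q_prime.ne_zero
  obtain ⟨hu, hconst, hj⟩ := hL2 (M * q) hN hdvr hw V hV
  have hu₂ := isUnif_comap hu W
  have hmem₁ : ∀ r : _root_.Fermat.Agent.A2.Mod.RE P E, algebraMap (_root_.Fermat.Agent.A2.Mod.RE P E) (_root_.Fermat.Agent.A2.Mod.FE E (M * q)) r ∈ V :=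
    fun r => (hconst (r : E)).mpr r.2
  have hmem₂ : ∀ r : _root_.Fermat.Agent.A2.Mod.RE P E, algebraMap (_root_.Fermat.Agent.A2.Mod.RE P E) (_root_.Fermat.Agent.A2.Mod.FE E (M * q)) r ∈
      V.comap (W : _root_.Fermat.Agent.A2.Mod.FE E (M * q) →+* _root_.Fermat.Agent.A2.Mod.FE E (M * q)) := by
    intro r
    show W (algebraMap E (_root_.Fermat.Agent.A2.Mod.FE E (M * q)) (r : E)) ∈ V
    rw [W.commutes]
    exact hmem₁ r
  have ho₁ := isOver_of_unif hw hu hmem₁
  have ho₂ := isOver_of_unif hw hu₂ hmem₂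
  obtain ⟨b, hb, hIb⟩ := hL9 hS V hV
  obtain ⟨c, hc, hIc⟩ := hL10 hS V W hV hW
  have hx₁ : xE E M q ∈ V := mul_mem (hj 1 (one_dvd _)).1 (hj q (dvd_mul_left q M)).1
  have hx₂ : xE E M q ∈ V.comap (W : _root_.Fermat.Agent.A2.Mod.FE E (M * q) →+* _root_.Fermat.Agent.A2.Mod.FE E (M * q)) := by
    show W (xE E M q) ∈ V
    unfold xE
    rw [_root_.map_mul, hW.1 1 (M * q) (one_dvd _) (dvd_refl _) (one_mul _),
      hW.1 q M (dvd_mul_left q M) (dvd_mul_right M q) (mul_comm q M)]
    exact mul_mem (hj _ _).1 (hj _ _).1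
  have hpos : 0 < (q + 1) * dedekindPsi M :=
    Nat.mul_pos (Nat.succ_pos q) (dedekindPsi_pos_of_ne_zero M hS.M_ne_zero)
  have hP₁ := polyIndepMod_of_indepMod hw hu hIb
  have hP₂ := polyIndepMod_of_indepMod hw hu₂ hIc
  have hG₁ := Fermat.Agent.A2.H489.IsGaussOver.of_polyIndepMod ho₁ hx₁ hpos hb hP₁
  have hG₂ := Fermat.Agent.A2.H489.IsGaussOver.of_polyIndepMod ho₂ hx₂ hpos hc hP₂
  have hne : V ≠ V.comap (W : _root_.Fermat.Agent.A2.Mod.FE E (M * q) →+* _root_.Fermat.Agent.A2.Mod.FE E (M * q)) :=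
    fun h => hL6 hS V W hV hW h.symm
  obtain ⟨-, hdeg, -⟩ := hL8 hS.q_prime hS.q_not_dvd
  haveI hfin : FiniteDimensional
      (IntermediateField.adjoin E ({xE E M q} : Set (_root_.Fermat.Agent.A2.Mod.FE E (M * q)))) (_root_.Fermat.Agent.A2.Mod.FE E (M * q)) :=
    Module.finite_of_finrank_pos (by rw [hdeg]; omega)
  have hdeg' : Module.finrank
      (IntermediateField.adjoin E ({xE E M q} : Set (_root_.Fermat.Agent.A2.Mod.FE E (M * q)))) (_root_.Fermat.Agent.A2.Mod.FE E (M * q)) ≤
      (q + 1) * dedekindPsi M + (q + 1) * dedekindPsi M := by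
    rw [hdeg]
    omega
  rcases hy with rfl | rfl
  · obtain ⟨p₁, p₂, hp₁, hp₂, hpr₁, hpr₂, -, h12, h21, hinf⟩ :=
      Fermat.Agent.A2.H489.frame_exists_components (E := E) hw hG₁ hG₂ hu hu₂ hne hb hc
        hP₁ hP₂ hdeg' (chartAlg P E (M * q) (xE E M q)) (fun _ => Iff.rfl)
    exact ⟨p₁, p₂, isCut_of_mem_iff hu hp₁, isCut_of_mem_iff hu₂ hp₂, hpr₁, hpr₂, h12, h21,
      hinf⟩
  · obtain ⟨p₁, p₂, hp₁, hp₂, hpr₁, hpr₂, -, h12, h21, hinf⟩ :=
      Fermat.Agent.A2.H489.frame_exists_components_inv (E := E) hw hG₁ hG₂ hu hu₂ hne hb hc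
        hP₁ hP₂ hdeg' (chartAlg P E (M * q) (xE E M q)⁻¹) (fun _ => Iff.rfl)
    exact ⟨p₁, p₂, isCut_of_mem_iff hu hp₁, isCut_of_mem_iff hu₂ hp₂, hpr₁, hpr₂, h12, h21,
      hinf⟩

end Fermat.Agent.A2.Mod.H489

end
end
-- ===== PACK-END A2/Mod/H489/S1.lean

-- ===== PACK-BEGIN A2/H729/Bridge.lean
section



/-!
# A2 (helper729): from the components of the special fibre to the canonical Gauss ring

`B = chart R {x}`, `p₁, p₂` prime ideals of `B` with `p₁ ⊓ p₂ = (w)` (the two components of a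
reduced special fibre).

* `inv_mem_gaussO_of_not_mem` (**Gauss units**): `b ∈ B`, `b ∉ p₁`, `b ∉ p₂` implies
  `b⁻¹ ∈ gaussO` (going-up and incomparability for the integral extension `R[x] ⊆ B`).
* `inW_sub_one_of_oneAt` (**bridge**): if `h ≡ 1` on both components
  (`h b_i = a_i`, `b_i ∉ p_i`, `a_i - b_i ∈ p_i`) and the components are incomparable, then
  `h ≡ 1 mod w · gaussO`.
-/

set_option autoImplicit false
set_option linter.unusedSectionVars false
set_option linter.style.haveILetI false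

namespace Fermat.Agent.A2.H729

open Polynomial Fermat.Agent.S18.H138

variable {R : Type*} [CommRing R] [IsDomain R] {F : Type*} [Field F] [Algebra R F]

/-- The inclusion `R[x] → chart R {x}`. -/
noncomputable def adjoinToChart (x : F) :
    Algebra.adjoin R ({x} : Set F) →+* chart R ({x} : Set F) :=
  (Subalgebra.inclusion (adjoin_le_chart (R := R) ({x} : Set F))).toRingHom

theorem coe_adjoinToChart (x : F) (a : Algebra.adjoin R ({x} : Set F)) :
    ((adjoinToChart x a : chart R ({x} : Set F)) : F) = (a : F) := rfl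

theorem adjoinToChart_algebraMap (x : F) (r : R) :
    adjoinToChart x (algebraMap R (Algebra.adjoin R ({x} : Set F)) r) =
      algebraMap R (chart R ({x} : Set F)) r := rfl

theorem adjoinToChart_isIntegral (x : F) : (adjoinToChart (R := R) x).IsIntegral := by
  intro b
  obtain ⟨p, hpm, hp⟩ := (mem_chart.1 b.2 : IsIntegral (Algebra.adjoin R ({x} : Set F)) (b : F))
  refine ⟨p, hpm, ?_⟩
  apply Subtype.ext
  have h1 : ((eval₂ (adjoinToChart (R := R) x) b p : chart R ({x} : Set F)) : F) =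
      eval₂ (((chart R ({x} : Set F)).val.toRingHom).comp (adjoinToChart (R := R) x))
        (b : F) p :=
    hom_eval₂ p (adjoinToChart (R := R) x) ((chart R ({x} : Set F)).val.toRingHom) b
  rw [h1]
  exact hp

/-- **Gauss units.**  An element of the chart outside both components of the special fibre is
a unit of the Gauss ring. -/
theorem exists_gaussDenom_mul_of_not_mem {w : R} (hw : Prime w) {x : F}
    (hx : Transcendental R x) {p₁ p₂ : Ideal (chart R ({x} : Set F))}
    (hp₁ : p₁.IsPrime) (hp₂ : p₂.IsPrime)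
    (hinf : p₁ ⊓ p₂ = Ideal.span {algebraMap R (chart R ({x} : Set F)) w})
    {b : chart R ({x} : Set F)} (hb₁ : b ∉ p₁) (hb₂ : b ∉ p₂) :
    ∃ s : F, IsGaussDenom w x s ∧ ∃ c : chart R ({x} : Set F), s = (b : F) * (c : F) := by
  classical
  letI : Algebra (Algebra.adjoin R ({x} : Set F)) (chart R ({x} : Set F)) :=
    (adjoinToChart (R := R) x).toAlgebra
  haveI : Algebra.IsIntegral (Algebra.adjoin R ({x} : Set F)) (chart R ({x} : Set F)) :=
    ⟨adjoinToChart_isIntegral x⟩
  have hwAp : Prime (algebraMap R (Algebra.adjoin R ({x} : Set F)) w) :=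
    prime_algebraMap_adjoin hw hx
  haveI hPprime : (Ideal.span {algebraMap R (Algebra.adjoin R ({x} : Set F)) w}).IsPrime :=
    (Ideal.span_singleton_prime hwAp.ne_zero).2 hwAp
  have hw₁ : algebraMap R (chart R ({x} : Set F)) w ∈ p₁ := by
    have : algebraMap R (chart R ({x} : Set F)) w ∈ p₁ ⊓ p₂ := by
      rw [hinf]; exact Ideal.mem_span_singleton_self _
    exact this.1
  have hw₂ : algebraMap R (chart R ({x} : Set F)) w ∈ p₂ := by
    have : algebraMap R (chart R ({x} : Set F)) w ∈ p₁ ⊓ p₂ := by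
      rw [hinf]; exact Ideal.mem_span_singleton_self _
    exact this.2
  -- the key claim
  have key : ¬ (Ideal.span {b}).comap
      (algebraMap (Algebra.adjoin R ({x} : Set F)) (chart R ({x} : Set F))) ≤
      Ideal.span {algebraMap R (Algebra.adjoin R ({x} : Set F)) w} := by
    intro hle
    obtain ⟨Q, hQb, hQp, hQ⟩ := Ideal.exists_ideal_over_prime_of_isIntegral
      (Ideal.span {algebraMap R (Algebra.adjoin R ({x} : Set F)) w}) (Ideal.span {b}) hle
    have hbQ : b ∈ Q := hQb (Ideal.mem_span_singleton_self b)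
    have hwQ : algebraMap R (chart R ({x} : Set F)) w ∈ Q := by
      have : algebraMap R (Algebra.adjoin R ({x} : Set F)) w ∈
          Q.comap (algebraMap (Algebra.adjoin R ({x} : Set F)) (chart R ({x} : Set F))) := by
        rw [hQ]; exact Ideal.mem_span_singleton_self _
      exact this
    have hle' : p₁ ⊓ p₂ ≤ Q := by
      rw [hinf, Ideal.span_singleton_le_iff_mem]
      exact hwQ
    -- a component contained in `Q` with the same contraction equals `Q`
    have aux : ∀ p : Ideal (chart R ({x} : Set F)), p.IsPrime →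
        algebraMap R (chart R ({x} : Set F)) w ∈ p → p ≤ Q → b ∉ p → False := by
      intro p hp hwp hpQ hbp
      have hlt : p < Q := lt_of_le_of_ne hpQ (fun h => hbp (h ▸ hbQ))
      obtain ⟨z, hzQ, hzp⟩ := SetLike.exists_of_lt hlt
      have h1 : p.comap (algebraMap (Algebra.adjoin R ({x} : Set F)) (chart R ({x} : Set F))) <
          Q.comap (algebraMap (Algebra.adjoin R ({x} : Set F)) (chart R ({x} : Set F))) :=
        Ideal.comap_lt_comap_of_integral_mem_sdiff hpQ ⟨hzQ, hzp⟩
          (Algebra.IsIntegral.isIntegral z)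
      have h2 : Q.comap (algebraMap (Algebra.adjoin R ({x} : Set F)) (chart R ({x} : Set F))) ≤
          p.comap (algebraMap (Algebra.adjoin R ({x} : Set F)) (chart R ({x} : Set F))) := by
        rw [hQ, Ideal.span_singleton_le_iff_mem]
        exact hwp
      exact (lt_irrefl _ (lt_of_lt_of_le h1 h2))
    rcases (Ideal.IsPrime.inf_le hQp).1 hle' with h | h
    · exact aux p₁ hp₁ hw₁ h hb₁
    · exact aux p₂ hp₂ hw₂ h hb₂
  obtain ⟨a, ha, haP⟩ := SetLike.not_le_iff_exists.1 key
  have ha' : algebraMap (Algebra.adjoin R ({x} : Set F)) (chart R ({x} : Set F)) a ∈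
      Ideal.span {b} := ha
  obtain ⟨c, hc⟩ := Ideal.mem_span_singleton'.1 ha'
  have hnd : ¬ algebraMap R (Algebra.adjoin R ({x} : Set F)) w ∣ a :=
    fun h => haP (Ideal.mem_span_singleton.2 h)
  refine ⟨(a : F), isGaussDenom_of_not_dvd hx hnd, c, ?_⟩
  have := congrArg (fun t : chart R ({x} : Set F) => (t : F)) hc
  rw [mul_comm]
  exact this.symm

theorem inv_mem_gaussO_of_not_mem {w : R} (hw : Prime w) {x : F}
    (hx : Transcendental R x) {p₁ p₂ : Ideal (chart R ({x} : Set F))}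
    (hp₁ : p₁.IsPrime) (hp₂ : p₂.IsPrime)
    (hinf : p₁ ⊓ p₂ = Ideal.span {algebraMap R (chart R ({x} : Set F)) w})
    {b : chart R ({x} : Set F)} (hb₁ : b ∉ p₁) (hb₂ : b ∉ p₂) :
    (b : F)⁻¹ ∈ gaussO hw x := by
  obtain ⟨s, hs, c, hsc⟩ := exists_gaussDenom_mul_of_not_mem hw hx hp₁ hp₂ hinf hb₁ hb₂
  have hb0 : (b : F) ≠ 0 := by
    intro h0
    apply hb₁
    have : b = 0 := Subtype.ext h0
    rw [this]
    exact p₁.zero_mem
  refine ⟨s, hs, ?_⟩
  have : s * (b : F)⁻¹ = (c : F) := by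
    rw [hsc]; field_simp
  rw [this]
  exact c.2

/-- **Bridge.**  `h ≡ 1` on both components implies `h ≡ 1 mod w · gaussO`. -/
theorem inW_sub_one_of_oneAt {w : R} (hw : Prime w) {x : F}
    (hx : Transcendental R x) {p₁ p₂ : Ideal (chart R ({x} : Set F))}
    (hp₁ : p₁.IsPrime) (hp₂ : p₂.IsPrime)
    (hinf : p₁ ⊓ p₂ = Ideal.span {algebraMap R (chart R ({x} : Set F)) w})
    (h₁₂ : ¬ p₁ ≤ p₂) (h₂₁ : ¬ p₂ ≤ p₁) {h : F}
    (hone₁ : ∃ a b : chart R ({x} : Set F), b ∉ p₁ ∧ a - b ∈ p₁ ∧ h * (b : F) = (a : F))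
    (hone₂ : ∃ a b : chart R ({x} : Set F), b ∉ p₂ ∧ a - b ∈ p₂ ∧ h * (b : F) = (a : F)) :
    InW (gaussO hw x) w (h - 1) := by
  obtain ⟨a₁, b₁, hb₁, hab₁, e₁⟩ := hone₁
  obtain ⟨a₂, b₂, hb₂, hab₂, e₂⟩ := hone₂
  obtain ⟨c₂, hc₂p₁, hc₂p₂⟩ := SetLike.not_le_iff_exists.1 h₁₂
  obtain ⟨c₁, hc₁p₂, hc₁p₁⟩ := SetLike.not_le_iff_exists.1 h₂₁
  -- `c₁ ∈ p₂ ∖ p₁`, `c₂ ∈ p₁ ∖ p₂`
  set b := b₁ * c₁ + b₂ * c₂ with hb
  set a := a₁ * c₁ + a₂ * c₂ with ha
  have hbp₁ : b ∉ p₁ := by
    intro hmem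
    have h1 : b₂ * c₂ ∈ p₁ := p₁.mul_mem_left _ hc₂p₁
    have h2 : b₁ * c₁ ∈ p₁ := by
      have := p₁.sub_mem hmem h1
      rwa [hb, add_sub_cancel_right] at this
    rcases hp₁.mem_or_mem h2 with h3 | h3
    · exact hb₁ h3
    · exact hc₁p₁ h3
  have hbp₂ : b ∉ p₂ := by
    intro hmem
    have h1 : b₁ * c₁ ∈ p₂ := p₂.mul_mem_left _ hc₁p₂
    have h2 : b₂ * c₂ ∈ p₂ := by
      have := p₂.sub_mem hmem h1
      rwa [hb, add_sub_cancel_left] at this
    rcases hp₂.mem_or_mem h2 with h3 | h3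
    · exact hb₂ h3
    · exact hc₂p₂ h3
  have hab : a - b ∈ p₁ ⊓ p₂ := by
    have e : a - b = (a₁ - b₁) * c₁ + (a₂ - b₂) * c₂ := by rw [ha, hb]; ring
    rw [e]
    refine ⟨p₁.add_mem (p₁.mul_mem_right _ hab₁) (p₁.mul_mem_left _ hc₂p₁),
      p₂.add_mem (p₂.mul_mem_left _ hc₁p₂) (p₂.mul_mem_right _ hab₂)⟩
  rw [hinf] at hab
  obtain ⟨d, hd⟩ := Ideal.mem_span_singleton'.1 hab
  have hbinv := inv_mem_gaussO_of_not_mem hw hx hp₁ hp₂ hinf hbp₁ hbp₂
  have hb0 : (b : F) ≠ 0 := by
    intro h0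
    apply hbp₁
    have : b = 0 := Subtype.ext h0
    rw [this]
    exact p₁.zero_mem
  have ehb : h * (b : F) = (a : F) := by
    have : (b : F) = (b₁ : F) * c₁ + (b₂ : F) * c₂ := by rw [hb]; rfl
    rw [this]
    have : (a : F) = (a₁ : F) * c₁ + (a₂ : F) * c₂ := by rw [ha]; rfl
    rw [this, ← e₁, ← e₂]
    ring
  have hdF : (a : F) - (b : F) = (d : F) * algebraMap R F w := by
    have := congrArg (fun t : chart R ({x} : Set F) => (t : F)) hd
    exact this.symm
  refine ⟨(d : F) * (b : F)⁻¹,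
    Subalgebra.mul_mem _ (chart_fin_le_gaussO hw x d.2) hbinv, ?_⟩
  have : h - 1 = ((a : F) - (b : F)) * (b : F)⁻¹ := by
    rw [← ehb]; field_simp
  rw [this, hdF]
  ring

end Fermat.Agent.A2.H729

end
-- ===== PACK-END A2/H729/Bridge.lean

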