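import Mathlib
import Fermat.Prelude.Def_AlgebraicCurve_DivisorClassGroup
import Fermat.Prelude.Def_ModularCurve_HeckeOperatorTotal
import Fermat.Agent.Pack.S33.E14L0
import Fermat.Agent.Pack.S33.E14L1
import Fermat.Agent.Pack.S33.E14L3
import Fermat.Agent.Pack.S33.E0L1
import Fermat.Agent.Pack.S33.E15L1
import Fermat.Agent.Pack.S33.E9L2
import Fermat.Agent.Pack.S33.E10L2
import Fermat.Agent.Pack.S33.E15L2
import Fermat.Agent.Pack.S33.E6L1
import Fermat.Agent.Pack.S33.E7L3
import Fermat.Agent.Pack.S33.E10L3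
import Fermat.Agent.Pack.S33.E13L1
import Fermat.Agent.Pack.S33.E11L1
import Fermat.Agent.Pack.S33.E8L1
import Fermat.Agent.Pack.S33.E9L0
import Fermat.Agent.Pack.S33.E3L3
import Fermat.Agent.Pack.S33.E3L0

-- ===== PACK-BEGIN Lib/NormL/DS.lean
section


/-!
# `NormL`, block DS: domination of differences of the signed summand `GS`, coset lemma
-/

namespace Fermat.Agent.Lib.NormL

open NumberField NumberField.mixedEmbedding Fermat.Agent.S14.H74 Module
open scoped Classical

variable (K : Type*) [Field K] [NumberField K]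

/-- The sign twist. -/
noncomputable def theta (ε : Bool) (x : 𝓞 K) : ℝ :=
  if ε then (((Algebra.norm ℤ x).sign : ℤ) : ℝ) else 1

variable {K}

theorem GS_eq (ε : Bool) (s : ℝ) (x : 𝓞 K) : GS K ε s x = FS K s x * theta K ε x := rfl

theorem abs_theta_le_one (ε : Bool) (x : 𝓞 K) : |theta K ε x| ≤ 1 := by
  unfold theta
  split_ifs
  · rcases lt_trichotomy (Algebra.norm ℤ x) 0 with h | h | h
    · rw [Int.sign_eq_neg_one_of_neg h]; simp
    · rw [h]; simp
    · rw [Int.sign_eq_one_of_pos h]; simp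
  · simp

theorem abs_GS_le (ε : Bool) (s : ℝ) (x : 𝓞 K) : |GS K ε s x| ≤ FS K s x := by
  rw [GS_eq, abs_mul, abs_of_nonneg (FS_nonneg s x)]
  exact mul_le_of_le_one_right (FS_nonneg s x) (abs_theta_le_one ε x)

theorem summable_GS (ε : Bool) {s : ℝ} (hs : 1 < s) : Summable (GS K ε s) :=
  Summable.of_norm_bounded (summable_FS (K := K) hs) fun x ↦ by
    rw [Real.norm_eq_abs]
    exact abs_GS_le ε s x

theorem continuous_FS (x : 𝓞 K) : Continuous fun s : ℝ ↦ FS K s x := by
  by_cases hx : x = 0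
  · subst hx
    simp only [FS_zero]
    exact continuous_const
  · have h1 := one_le_mixedEmbedding_norm hx
    have h0 : mixedEmbedding.norm (mixedEmbedding K (x : K)) ≠ 0 := by linarith
    unfold FS fS
    exact continuous_const.mul ((Real.continuous_const_rpow h0).comp continuous_neg)

theorem continuous_GS (ε : Bool) (x : 𝓞 K) : Continuous fun s : ℝ ↦ GS K ε s x := by
  simp only [GS_eq]
  exact (continuous_FS x).mul continuous_const

theorem FS_eq_zero_of_rho_eq_zero {s : ℝ} {x : 𝓞 K}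
    (h : rho K (mixedEmbedding K (x : K)) = 0) : FS K s x = 0 :=
  fS_eq_zero_of_rho_eq_zero h

/-- On the support of `rho`, far from the origin, the sign twist is stable. -/
theorem theta_add_eq {A : ℝ} (hA1 : 1 ≤ A)
    (hA : ∀ x : mixedSpace K, rho K x ≠ 0 → ∀ w, ‖x‖ ≤ A * normAtPlace w x) (ε : Bool)
    {y t : 𝓞 K} (hρ : rho K (mixedEmbedding K (y : K)) ≠ 0) (hy : A * mnorm K t < mnorm K y) :
    theta K ε (y + t) = theta K ε y := by
  unfold theta
  split_ifs
  · congr 1
    apply sign_norm_add_eq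
    intro w
    have h1 := hA _ hρ w
    rw [normAtPlace_apply] at h1
    have h2 : w (t : K) ≤ mnorm K t := by
      have := normAtPlace_le_norm w (mixedEmbedding K (t : K))
      rwa [normAtPlace_apply] at this
    have hA0 : 0 < A := by linarith
    have h3 : A * w (t : K) ≤ A * mnorm K t := mul_le_mul_of_nonneg_left h2 hA0.le
    have h4 : A * w (t : K) < A * w (y : K) := by
      unfold mnorm at hy h3
      linarith
    exact lt_of_mul_lt_mul_left h4 hA0.le
  · rfl

/-- Signed version of helper74's `exists_dominating`. -/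
theorem exists_dominating_GS (ε : Bool) (t : 𝓞 K) : ∃ g : 𝓞 K → ℝ, Summable g ∧
    (∀ y, 0 ≤ g y) ∧
    ∀ s : ℝ, 1 ≤ s → s ≤ 2 → ∀ y : 𝓞 K, |GS K ε s (y + t) - GS K ε s y| ≤ g y := by
  obtain ⟨g, hg, hg0, hgb⟩ := exists_dominating (K := K) t
  obtain ⟨A, hA1, hA⟩ := exists_support_bound (K := K)
  have hA0 : 0 < A := by linarith
  set n : ℕ := _root_.Module.finrank ℚ K with hn
  set R : ℝ := A * mnorm K t with hR
  have hR0 : 0 ≤ R := mul_nonneg hA0.le (mnorm_nonneg t)
  have hsum : Summable fun y : 𝓞 K ↦ mnorm K y ^ (-((n : ℝ) + 1)) :=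
    summable_mnorm_rpow (by rw [neg_lt_neg_iff]; linarith)
  refine ⟨fun y ↦ g y + 2 * R ^ (n + 1) * mnorm K y ^ (-((n : ℝ) + 1)) +
      if y = 0 then 2 else 0,
    (hg.add (hsum.mul_left _)).add (hasSum_ite_eq 0 (2 : ℝ)).summable, fun y ↦ ?_,
    fun s hs1 hs2 y ↦ ?_⟩
  · have h1 : 0 ≤ mnorm K y ^ (-((n : ℝ) + 1)) := Real.rpow_nonneg (mnorm_nonneg y) _
    have h2 : (0 : ℝ) ≤ if y = 0 then 2 else 0 := by split_ifs <;> norm_num
    have h3 := hg0 y
    show 0 ≤ g y + 2 * R ^ (n + 1) * mnorm K y ^ (-((n : ℝ) + 1)) + if y = 0 then 2 else 0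
    positivity
  · have hs0 : (0 : ℝ) ≤ s := by linarith
    show |GS K ε s (y + t) - GS K ε s y| ≤
      g y + 2 * R ^ (n + 1) * mnorm K y ^ (-((n : ℝ) + 1)) + if y = 0 then 2 else 0
    have hb := hgb s hs1 hs2 y
    have h1 : 0 ≤ 2 * R ^ (n + 1) * mnorm K y ^ (-((n : ℝ) + 1)) :=
      mul_nonneg (by positivity) (Real.rpow_nonneg (mnorm_nonneg y) _)
    have h2 : (0 : ℝ) ≤ if y = 0 then 2 else 0 := by split_ifs <;> norm_num
    by_cases hρ : rho K (mixedEmbedding K (y : K)) = 0
    · have hF : FS K s y = 0 := FS_eq_zero_of_rho_eq_zero hρ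
      have hG : GS K ε s y = 0 := by rw [GS_eq, hF, zero_mul]
      rw [hG, sub_zero]
      rw [hF, sub_zero, abs_of_nonneg (FS_nonneg s _)] at hb
      have := abs_GS_le ε s (y + t)
      linarith
    · by_cases hy : R < mnorm K y
      · have hθ := theta_add_eq hA1 hA ε hρ hy
        have e : GS K ε s (y + t) - GS K ε s y =
            (FS K s (y + t) - FS K s y) * theta K ε y := by
          rw [GS_eq, GS_eq, hθ]
          ring
        rw [e, abs_mul]
        have := mul_le_of_le_one_right (abs_nonneg (FS K s (y + t) - FS K s y))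
          (abs_theta_le_one ε y)
        linarith
      · have hy' : mnorm K y ≤ R := not_lt.mp hy
        have a1 := abs_GS_le ε s (y + t)
        have a2 := abs_GS_le ε s y
        have a3 := FS_le_one hs0 (y + t)
        have a4 := FS_le_one hs0 y
        have h3 : |GS K ε s (y + t) - GS K ε s y| ≤ 2 := by
          have := abs_sub (GS K ε s (y + t)) (GS K ε s y)
          linarith
        by_cases hy0 : y = 0
        · rw [if_pos hy0]
          have := hg0 y
          linarith
        · rw [if_neg hy0, add_zero]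
          have hm : 0 < mnorm K y := lt_of_le_of_ne (mnorm_nonneg y) (Ne.symm (by
            rwa [Ne, mnorm_eq_zero_iff]))
          have e : mnorm K y ^ (-((n : ℝ) + 1)) = 1 / mnorm K y ^ (n + 1) := by
            rw [Real.rpow_neg hm.le, one_div]
            congr 1
            exact_mod_cast Real.rpow_natCast (mnorm K y) (n + 1)
          have h4 : 2 ≤ 2 * R ^ (n + 1) * mnorm K y ^ (-((n : ℝ) + 1)) := by
            rw [e, mul_one_div, le_div_iff₀ (by positivity)]
            have : mnorm K y ^ (n + 1) ≤ R ^ (n + 1) := pow_le_pow_left₀ hm.le hy' _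
            linarith
          have := hg0 y
          linarith

/-- **Coset lemma**: the difference of the sums of `GS` over two cosets of an ideal `Λ`
extends continuously to `[1, 2]`. -/
theorem exists_continuousOn_coset_sub (ε : Bool) (Λ : Ideal (𝓞 K)) (r r' : 𝓞 K) :
    ∃ D : ℝ → ℝ, ContinuousOn D (Set.Icc 1 2) ∧ ∀ s : ℝ, 1 < s → s ≤ 2 →
      (∑' l : Λ, GS K ε s (r + (l : 𝓞 K))) - (∑' l : Λ, GS K ε s (r' + (l : 𝓞 K))) = D s := by
  obtain ⟨g, hg, hg0, hgb⟩ := exists_dominating_GS (K := K) ε (r - r')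
  have hinj : ∀ a : 𝓞 K, Function.Injective fun l : Λ ↦ a + (l : 𝓞 K) := fun a l l' h ↦
    Subtype.ext (add_left_cancel h)
  have hgΛ : Summable fun l : Λ ↦ g (r' + (l : 𝓞 K)) := hg.comp_injective (hinj r')
  refine ⟨fun s ↦ ∑' l : Λ, (GS K ε s (r + (l : 𝓞 K)) - GS K ε s (r' + (l : 𝓞 K))), ?_,
    fun s hs1 hs2 ↦ ?_⟩
  · refine continuousOn_tsum (fun l ↦ ?_) hgΛ fun l s hs ↦ ?_
    · exact ((continuous_GS ε _).sub (continuous_GS ε _)).continuousOn
    · rw [Real.norm_eq_abs]
      have := hgb s hs.1 hs.2 (r' + (l : 𝓞 K))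
      rwa [show r' + (l : 𝓞 K) + (r - r') = r + (l : 𝓞 K) by ring] at this
  · have h1 : Summable fun l : Λ ↦ GS K ε s (r + (l : 𝓞 K)) :=
      (summable_GS ε hs1).comp_injective (hinj r)
    have h2 : Summable fun l : Λ ↦ GS K ε s (r' + (l : 𝓞 K)) :=
      (summable_GS ε hs1).comp_injective (hinj r')
    exact (h1.tsum_sub h2).symm

end Fermat.Agent.Lib.NormL

end
-- ===== PACK-END Lib/NormL/DS.lean

-- ===== PACK-BEGIN Lib/NormL/Cosets.lean
section



/-!
# `NormL`, block KEY, part 2: coset decompositions of sums over ideals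
-/

namespace Fermat.Agent.Lib.NormL

open NumberField Fermat.Agent.S14.H74
open scoped Classical

variable {K : Type*} [Field K] [NumberField K]

/-- The coset bijection: if `r i` is a system of representatives of `X` modulo `Λ`. -/
noncomputable def cosetSystemEquiv (X Λ : Ideal (𝓞 K)) (hΛ : Λ ≤ X) {ι : Type*} (r : ι → 𝓞 K)
    (hr : ∀ i, r i ∈ X) (hex : ∀ x ∈ X, ∃ i, x - r i ∈ Λ)
    (hinj : ∀ i j, r i - r j ∈ Λ → i = j) : ι × Λ ≃ X :=
  Equiv.ofBijective (fun p ↦ ⟨r p.1 + (p.2 : 𝓞 K), X.add_mem (hr _) (hΛ p.2.2)⟩) (by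
    constructor
    · rintro ⟨i, l⟩ ⟨j, l'⟩ h
      have h1 : r i + (l : 𝓞 K) = r j + (l' : 𝓞 K) := congrArg Subtype.val h
      have h2 : r i - r j = (l' : 𝓞 K) - (l : 𝓞 K) := by
        linear_combination h1
      have hij : i = j := hinj i j (by rw [h2]; exact Λ.sub_mem l'.2 l.2)
      subst hij
      have : (l : 𝓞 K) = (l' : 𝓞 K) := add_left_cancel h1
      rw [Subtype.ext this]
    · rintro ⟨x, hx⟩
      obtain ⟨i, hi⟩ := hex x hx
      refine ⟨(i, ⟨x - r i, hi⟩), ?_⟩
      apply Subtype.ext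
      show r i + (x - r i) = x
      ring)

theorem cosetSystemEquiv_apply (X Λ : Ideal (𝓞 K)) (hΛ : Λ ≤ X) {ι : Type*} (r : ι → 𝓞 K)
    (hr : ∀ i, r i ∈ X) (hex : ∀ x ∈ X, ∃ i, x - r i ∈ Λ)
    (hinj : ∀ i j, r i - r j ∈ Λ → i = j) (p : ι × Λ) :
    ((cosetSystemEquiv X Λ hΛ r hr hex hinj p : X) : 𝓞 K) = r p.1 + (p.2 : 𝓞 K) := rfl

/-- **GEN**: decomposition of a sum over an ideal `X` into sums over cosets of `Λ ≤ X`. -/
theorem tsum_ideal_eq_sum_cosets {E : Type*} [NormedAddCommGroup E] [CompleteSpace E]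
    (X Λ : Ideal (𝓞 K)) (hΛ : Λ ≤ X) {ι : Type*} [Fintype ι] (r : ι → 𝓞 K)
    (hr : ∀ i, r i ∈ X) (hex : ∀ x ∈ X, ∃ i, x - r i ∈ Λ)
    (hinj : ∀ i j, r i - r j ∈ Λ → i = j) (F : 𝓞 K → E) (hF : Summable F) :
    ∑' x : X, F (x : 𝓞 K) = ∑ i, ∑' l : Λ, F (r i + (l : 𝓞 K)) := by
  set e := cosetSystemEquiv X Λ hΛ r hr hex hinj with he
  have hX : Summable fun x : X ↦ F (x : 𝓞 K) := hF.comp_injective Subtype.val_injective
  have hs : Summable fun p : ι × Λ ↦ F (r p.1 + (p.2 : 𝓞 K)) :=
    (e.summable_iff (f := fun x : X ↦ F (x : 𝓞 K))).mpr hX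
  have hfib : ∀ i, Summable fun l : Λ ↦ F (r i + (l : 𝓞 K)) := fun i ↦
    hF.comp_injective (i := fun l : Λ ↦ r i + (l : 𝓞 K)) fun l l' h ↦
      Subtype.ext (add_left_cancel h)
  have e1 : ∑' x : X, F (x : 𝓞 K) = ∑' p : ι × Λ, F (r p.1 + (p.2 : 𝓞 K)) :=
    (e.tsum_eq (fun x : X ↦ F (x : 𝓞 K))).symm
  rw [e1, hs.tsum_prod' hfib, tsum_fintype]

end Fermat.Agent.Lib.NormL

end
-- ===== PACK-END Lib/NormL/Cosets.lean

-- ===== PACK-BEGIN S31/H862/Reduced.lean
section




/-!
# S31 / SS (helper862) — the anemic Hecke algebra of weight 2 is reduced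

`heckeAlgebra_isReduced`: if `S` contains all primes dividing `N`, then
`CuspForm.heckeAlgebra N 2 S` is reduced (exact statement of the row skeleton, piece SS).
-/

set_option autoImplicit false

open UpperHalfPlane CongruenceSubgroup MeasureTheory Matrix.SpecialLinearGroup
open scoped MatrixGroups ModularForm ComplexConjugate

namespace Fermat.Agent.S31.H862

section

variable {N : ℕ} [NeZero N]

/-- The Petersson pairing on cusp forms. -/
noncomputable def petC (f g : CuspForm (Gamma0 N) 2) : ℂ := pet N f g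

theorem pet_add_right {f g₁ g₂ : ℍ → ℂ} (hf : Nice f) (hg₁ : Nice g₁) (hg₂ : Nice g₂) :
    pet N f (g₁ + g₂) = pet N f g₁ + pet N f g₂ := by
  unfold pet pint
  rw [← integral_add (integrable_pint (integrable_wt N) hf hg₁)
    (integrable_pint (integrable_wt N) hf hg₂)]
  refine integral_congr_ae (Filter.Eventually.of_forall fun z => ?_)
  simp only [petersson_add_right]
  ring

theorem petC_add_right (f g₁ g₂ : CuspForm (Gamma0 N) 2) :
    petC f (g₁ + g₂) = petC f g₁ + petC f g₂ := by
  unfold petC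
  rw [FunLike.coe_add]
  exact pet_add_right (nice_cusp f) (nice_cusp g₁) (nice_cusp g₂)

theorem petC_conj (f g : CuspForm (Gamma0 N) 2) : conj (petC f g) = petC g f :=
  pet_conj N _ _

theorem petC_add_left (f₁ f₂ g : CuspForm (Gamma0 N) 2) :
    petC (f₁ + f₂) g = petC f₁ g + petC f₂ g := by
  rw [← petC_conj g, petC_add_right, map_add, petC_conj, petC_conj]

omit [NeZero N] in
theorem petC_zero_right (f : CuspForm (Gamma0 N) 2) : petC f 0 = 0 := by
  unfold petC pet pint
  simp [petersson]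

theorem petC_smul_int (n : ℤ) (f g : CuspForm (Gamma0 N) 2) :
    petC (n • f) g = petC f (n • g) := by
  unfold petC pet pint
  refine integral_congr_ae (Filter.Eventually.of_forall fun z => ?_)
  have h1 : ∀ h : CuspForm (Gamma0 N) 2, ((n • h : CuspForm (Gamma0 N) 2) : ℍ → ℂ) z
      = (n : ℂ) * h z := by
    intro h
    rw [← Int.cast_smul_eq_zsmul ℂ n h]
    simp
  simp only [petersson, h1, map_mul, map_intCast]
  ring

theorem eq_zero_of_petC_self (f : CuspForm (Gamma0 N) 2) (h : petC f f = 0) : f = 0 := by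
  have h1 := eq_zero_of_pet_self_eq_zero N (nice_cusp f) (cusp_slash_mapGL f) h
  exact DFunLike.coe_injective h1

/-- Self-adjoint endomorphisms of the space of cusp forms. -/
def IsSA (t : Module.End ℂ (CuspForm (Gamma0 N) 2)) : Prop :=
  ∀ f g : CuspForm (Gamma0 N) 2, petC (t f) g = petC f (t g)

theorem isSA_heckeTLin {p : ℕ} (hp : p.Prime) (hpN : ¬ p ∣ N) :
    IsSA (CuspForm.heckeTLin (N := N) 2 hp hpN) := by
  intro f g
  have : Fact p.Prime := ⟨hp⟩
  unfold petC
  rw [CuspForm.coe_heckeTLin_apply, CuspForm.coe_heckeTLin_apply]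
  exact pet_heckeT_comm hpN f g

theorem isSA_algebraMap (n : ℤ) :
    IsSA (algebraMap ℤ (Module.End ℂ (CuspForm (Gamma0 N) 2)) n) := by
  intro f g
  have h : ∀ h : CuspForm (Gamma0 N) 2,
      (algebraMap ℤ (Module.End ℂ (CuspForm (Gamma0 N) 2)) n) h = n • h := by
    intro h
    simp
  rw [h, h]
  exact petC_smul_int n f g

theorem IsSA.add {s t : Module.End ℂ (CuspForm (Gamma0 N) 2)} (hs : IsSA s) (ht : IsSA t) :
    IsSA (s + t) := by
  intro f g
  rw [LinearMap.add_apply, LinearMap.add_apply, petC_add_left, petC_add_right, hs f g, ht f g]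

omit [NeZero N] in
theorem IsSA.mul {s t : Module.End ℂ (CuspForm (Gamma0 N) 2)} (hs : IsSA s) (ht : IsSA t)
    (hc : s * t = t * s) : IsSA (s * t) := by
  intro f g
  have h1 : petC ((s * t) f) g = petC f ((t * s) g) := by
    rw [Module.End.mul_apply, Module.End.mul_apply, hs, ht]
  rw [h1, hc]

end

/-- **SS**: the anemic Hecke algebra of weight 2 and level `Γ₀(N)` is reduced. -/
theorem heckeAlgebra_isReduced (N : ℕ) [NeZero N] (S : Set ℕ)
    (hNS : ∀ q : ℕ, q.Prime → q ∣ N → q ∈ S) : IsReduced (CuspForm.heckeAlgebra N 2 S) := by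
  have hgen : ∀ t ∈ CuspForm.heckeGenerators N 2 S, IsSA t := by
    rintro t (⟨ℓ, hℓ, hℓN, -, rfl⟩ | ⟨q, hqN, hq, hqS, rfl⟩)
    · exact isSA_heckeTLin hℓ hℓN
    · exact absurd (hNS q hq hqN) hqS
  have hcomm : ∀ s t : Module.End ℂ (CuspForm (Gamma0 N) 2),
      s ∈ CuspForm.heckeAlgebra N 2 S → t ∈ CuspForm.heckeAlgebra N 2 S → s * t = t * s := by
    intro s t hs ht
    have := mul_comm (⟨s, hs⟩ : CuspForm.heckeAlgebra N 2 S) ⟨t, ht⟩
    exact congrArg Subtype.val this
  have hall : ∀ t ∈ CuspForm.heckeAlgebra N 2 S, IsSA t := by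
    intro t ht
    unfold CuspForm.heckeAlgebra at ht
    induction ht using Algebra.adjoin_induction with
    | mem x hx => exact hgen x hx
    | algebraMap r => exact isSA_algebraMap r
    | add x y hx hy ihx ihy => exact ihx.add ihy
    | mul x y hx hy ihx ihy => exact ihx.mul ihy (hcomm x y hx hy)
  rw [isReduced_iff_pow_one_lt 2 one_lt_two]
  rintro ⟨t, ht⟩ h2
  have h3 : t * t = 0 := by
    have := congrArg Subtype.val h2
    simpa [pow_two] using this
  apply Subtype.ext
  show t = 0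
  refine LinearMap.ext fun f => ?_
  apply eq_zero_of_petC_self
  rw [hall t ht, ← Module.End.mul_apply, h3, LinearMap.zero_apply]
  exact petC_zero_right _

end Fermat.Agent.S31.H862

end
-- ===== PACK-END S31/H862/Reduced.lean

-- ===== PACK-BEGIN Lib/RR/H804/CharZero.lean
section



/-!
# RR library, bridge: `FF1 K F` for function fields over an algebraically closed field of
characteristic zero  (helper804)

From the Dedekind dictionary of `Fermat.Agent.S24.FF`: if `K` is algebraically closed of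
characteristic zero and `F` is finite over `K(x)` for a transcendental `x`, then `F/K` satisfies
the standing hypotheses `FF1 K F` of the RR library.
-/

set_option autoImplicit false

noncomputable section

open AlgebraicCurve IntermediateField

namespace Fermat.Agent.Lib.RR.H804

open Fermat.Agent.S24

variable {K F : Type*} [Field K] [Field F] [Algebra K F] [IsAlgClosed K] [CharZero K]

/-- Every function has finitely many zeros and poles. -/
theorem finite_setOf_ord_ne_zero {x : F} (hx : Transcendental K x) [FiniteDimensional K⟮x⟯ F]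
    (f : F) : {v : Place K F | v.ord f ≠ 0}.Finite := by
  by_cases hfr : f ∈ (algebraMap K F).range
  · obtain ⟨a, rfl⟩ := hfr
    convert Set.finite_empty
    ext v
    simp [FF.ord_algebraMap]
  · have hft : Transcendental K f := FF.transcendental_of_not_mem_range hfr
    have : FiniteDimensional K⟮f⟯ F := FF.finiteDimensional_adjoin_of_transcendental hx hft
    exact FF.finite_setOf_ord_ne_zero hft

/-- The divisor of a function. -/
def divOf {x : F} (hx : Transcendental K x) [FiniteDimensional K⟮x⟯ F] (f : F) :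
    Divisor K F :=
  Finsupp.ofSupportFinite (fun v => v.ord f) (finite_setOf_ord_ne_zero hx f)

@[simp] theorem divOf_apply {x : F} (hx : Transcendental K x) [FiniteDimensional K⟮x⟯ F]
    (f : F) (v : Place K F) : _root_.Fermat.Agent.Lib.RR.H804.divOf hx f v = v.ord f := rfl

theorem degree_divOf {x : F} (hx : Transcendental K x) [FiniteDimensional K⟮x⟯ F] (f : F) :
    Divisor.degree (_root_.Fermat.Agent.Lib.RR.H804.divOf hx f) = 0 :=
  FF.degree_principal x hx f _ (fun _ => rfl)

/-- Principal divisors exist and have degree zero. -/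
theorem hasPrincipalDivisors {x : F} (hx : Transcendental K x) [FiniteDimensional K⟮x⟯ F] :
    HasPrincipalDivisors K F :=
  ⟨fun f _ => ⟨_root_.Fermat.Agent.Lib.RR.H804.divOf hx f, fun _ => rfl, _root_.Fermat.Agent.Lib.RR.H804.degree_divOf hx f⟩⟩

/-- There is at least one place (a zero of `x`). -/
theorem nonempty_place {x : F} (hx : Transcendental K x) [FiniteDimensional K⟮x⟯ F] :
    Nonempty (Place K F) := by
  by_contra hne
  rw [not_nonempty_iff] at hne
  have h := FF.sum_ord_eq_finrank hx (∅ : Finset (Place K F)) (fun v => (hne.false v).elim)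
  rw [Finset.sum_empty] at h
  have hpos : 0 < Module.finrank K⟮x⟯ F := Module.finrank_pos
  omega

/-- There is a zero of `x - a` for every `a`. -/
theorem exists_place_ord_sub_pos {x : F} (hx : Transcendental K x) [FiniteDimensional K⟮x⟯ F]
    (a : K) : ∃ v : Place K F, 0 < v.ord (x - algebraMap K F a) := by
  by_contra hne
  rw [not_exists] at hne
  have h := FF.sum_ord_sub_const_eq_finrank hx a (∅ : Finset (Place K F))
    (fun v => ⟨fun h => (Finset.notMem_empty v h).elim, fun h => (hne v h).elim⟩)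
  rw [Finset.sum_empty] at h
  have hpos : 0 < Module.finrank K⟮x⟯ F := Module.finrank_pos
  omega

/-- There is a pole of `x`. -/
theorem exists_place_ord_neg {x : F} (hx : Transcendental K x) [FiniteDimensional K⟮x⟯ F] :
    ∃ v : Place K F, v.ord x < 0 := by
  by_contra hne
  rw [not_exists] at hne
  have h := FF.sum_ord_neg_eq_neg_finrank hx (∅ : Finset (Place K F))
    (fun v => ⟨fun h => (Finset.notMem_empty v h).elim, fun h => (hne v h).elim⟩)
  rw [Finset.sum_empty] at h
  have hpos : 0 < Module.finrank K⟮x⟯ F := Module.finrank_pos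
  omega

omit [CharZero K] in
/-- The residue field of every place is `K`. -/
theorem residue_bijective {x : F} (hx : Transcendental K x) [FiniteDimensional K⟮x⟯ F]
    (v : Place K F) : Function.Bijective (algebraMap K v.ResidueField) := by
  refine ⟨(algebraMap K v.ResidueField).injective, fun r => ?_⟩
  obtain ⟨f, rfl⟩ := IsLocalRing.residue_surjective r
  obtain ⟨a, ha⟩ := FF.exists_const_sub_mem_nonunits v hx f.2
  refine ⟨a, ?_⟩
  rw [IsScalarTower.algebraMap_apply K v.toValuationSubring v.ResidueField]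
  symm
  rw [IsLocalRing.ResidueField.algebraMap_eq, ← sub_eq_zero, ← map_sub,
    IsLocalRing.residue_eq_zero_iff]
  exact ValuationSubring.coe_mem_nonunits_iff.mp ha

omit [CharZero K] in
/-- Residue fields are finite over `K`. -/
theorem finite_residueField {x : F} (hx : Transcendental K x) [FiniteDimensional K⟮x⟯ F]
    (v : Place K F) : Module.Finite K v.ResidueField :=
  Module.Finite.of_surjective (Algebra.linearMap K v.ResidueField)
    (residue_bijective hx v).2

/-- **Bridge**: `FF1 K F` for `K` algebraically closed of characteristic zero. -/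
theorem ff1 {x : F} (hx : Transcendental K x) [FiniteDimensional K⟮x⟯ F] : FF1 K F where
  hpd := hasPrincipalDivisors hx
  deg_eq_one := fun v => FF.deg_eq_one v hx
  nonempty_place := nonempty_place hx
  exists_finite := ⟨x, hx, inferInstance⟩

end Fermat.Agent.Lib.RR.H804

end
end
-- ===== PACK-END Lib/RR/H804/CharZero.lean

-- ===== PACK-BEGIN S28/H589/UnitAnalytic.lean
section





/-!
# S28 / [A-W], analytic part (helper589): the unit `p¹² Δ(pτ)/Δ(τ)` is a good function

We show that `u(τ) = p¹² Δ(pτ)/Δ(τ)` belongs to helper648's `goodRing p`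
(holomorphic, `Γ₀(p)`-invariant, all `SL₂(ℤ)`-translates of at most exponential growth).
-/

set_option autoImplicit false

noncomputable section

open UpperHalfPlane ModularCurve CongruenceSubgroup Function Filter Asymptotics
open scoped MatrixGroups Manifold Real Modular

namespace Fermat.Agent.S28.H589

open Fermat.Agent.S24.H648 (goodRing ExpGrowth)

local notation "Δ" => ModularForm.discriminant

/-- The unit `u(τ) = p¹² Δ(pτ)/Δ(τ)`. -/
def unitFun (p : ℕ) (hp : 0 < p) (τ : ℍ) : ℂ :=
  (p : ℂ) ^ 12 * Δ (scaleH p hp τ) * (Δ τ)⁻¹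

/-- Its conjugate under `S` evaluated at `pτ`: `Δ(τ)/Δ(pτ)`. -/
def unitFun' (p : ℕ) (hp : 0 < p) (τ : ℍ) : ℂ :=
  Δ τ * (Δ (scaleH p hp τ))⁻¹

theorem continuous_discriminant : Continuous (Δ : ℍ → ℂ) :=
  (Fermat.Agent.S28.H565.mdifferentiable_discriminant).continuous

/-- `‖Δ τ‖ · (im τ)⁶` is bounded. -/
theorem exists_discriminant_bound : ∃ C : ℝ, ∀ τ : ℍ, ‖Δ τ‖ * τ.im ^ 6 ≤ C := by
  obtain ⟨C, hC⟩ := CuspFormClass.exists_bound (k := 12) (Γ := 𝒮ℒ) CuspForm.discriminant
  refine ⟨C, fun τ => ?_⟩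
  have h := hC τ
  have him : 0 < τ.im := τ.im_pos
  have hpow : τ.im ^ (((12 : ℤ) : ℝ) / 2) = τ.im ^ 6 := by
    have : (((12 : ℤ) : ℝ) / 2) = ((6 : ℕ) : ℝ) := by norm_num
    rw [this, Real.rpow_natCast]
  rw [hpow] at h
  have h6 : 0 < τ.im ^ 6 := by positivity
  have h' : ‖Δ τ‖ ≤ C / τ.im ^ 6 := h
  rwa [le_div_iff₀ h6] at h'

/-- `‖Δ τ‖ · (im τ)⁶` is `SL₂(ℤ)`-invariant. -/
theorem discriminant_norm_mul_im_smul (g : SL(2, ℤ)) (τ : ℍ) :
    ‖Δ (g • τ)‖ * (g • τ).im ^ 6 = ‖Δ τ‖ * τ.im ^ 6 := by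
  rw [Fermat.Agent.S24.H648.discriminant_smul, ModularGroup.im_smul_eq_div_normSq, norm_mul,
    norm_zpow]
  have hd : denom g τ ≠ 0 := denom_ne_zero _ _
  have hn : 0 < Complex.normSq (denom g τ) := Complex.normSq_pos.mpr hd
  have h1 : ‖denom g τ‖ ^ (12 : ℤ) = Complex.normSq (denom g τ) ^ 6 := by
    rw [Complex.normSq_eq_norm_sq, ← pow_mul]
    norm_cast
  rw [h1, div_pow]
  field_simp

/-- `1/Δ` has at most exponential growth on `im τ ≥ 1`. -/
theorem exists_inv_discriminant_bound :
    ∃ C : ℝ, ∀ τ : ℍ, 1 ≤ τ.im → ‖(Δ τ)⁻¹‖ ≤ C * Real.exp (2 * π * τ.im) := by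
  have hcont : Continuous (fun τ : ℍ => (Δ τ)⁻¹) :=
    continuous_discriminant.inv₀ fun τ => ModularForm.discriminant_ne_zero τ
  have hinv : (fun τ : ℍ => (Δ τ)⁻¹)
      =O[atImInfty] fun τ : ℍ => Real.exp (2 * π * (1 : ℝ) * τ.im) := by
    have hΔ := ModularForm.exp_isBigO_discriminant
    have h1 : (fun τ : ℍ => (Δ τ)⁻¹)
        =O[atImInfty] fun τ : ℍ => (Real.exp (-2 * π * τ.im))⁻¹ := by
      refine hΔ.inv_rev ?_
      exact Eventually.of_forall fun τ h => absurd h (Real.exp_pos _).ne'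
    refine h1.congr_right fun τ => ?_
    rw [← Real.exp_neg]
    congr 1
    ring
  obtain ⟨C, hC⟩ := Fermat.Agent.S24.H648.exists_bound_fd_of_isBigO_exp hcont 1 hinv
  refine ⟨C, fun τ hτ => ?_⟩
  -- translate into the fundamental domain
  set n : ℤ := -round τ.re with hn
  set τ' : ℍ := ModularGroup.T ^ n • τ with hτ'
  have hcoe : (τ' : ℂ) = τ + n := ModularGroup.coe_T_zpow_smul_eq τ
  have him : τ'.im = τ.im := by
    have := congrArg Complex.im hcoe
    simpa using this
  have hre : τ'.re = τ.re - round τ.re := by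
    have := congrArg Complex.re hcoe
    simp only [Complex.add_re, Complex.intCast_re, hn] at this
    rw [UpperHalfPlane.coe_re, UpperHalfPlane.coe_re] at this
    rw [this]
    push_cast
    ring
  have hfd : τ' ∈ 𝒟 := by
    refine ⟨?_, ?_⟩
    · rw [Complex.normSq_apply]
      have h1 : (τ' : ℂ).im = τ.im := by rw [UpperHalfPlane.coe_im, him]
      rw [h1]
      nlinarith [mul_self_nonneg (τ' : ℂ).re]
    · rw [hre]
      exact abs_sub_round _
  have hΔ : Δ τ' = Δ τ := by
    rw [hτ', Fermat.Agent.S28.H565.discriminant_smul, ModularGroup.coe_T_zpow]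
    simp
  have h := hC τ' hfd
  rw [hΔ, him] at h
  simpa using h

/-- Pure real-number bookkeeping for `expGrowth_unitFun_smul`. -/
theorem unit_real_aux (P X Y D a b C₁ C₂ E : ℝ) (hP : 0 < P) (ha : 0 < a)
    (hb : 1 ≤ b) (hD : 0 < D) (hY : 0 < Y) (hC₁ : 0 ≤ C₁)
    (hX : X * (P * a) ^ 6 ≤ C₁) (hinv : Y * a ^ 6 = D * b ^ 6) (h2 : D⁻¹ ≤ C₂ * E) :
    P ^ 12 * X * Y⁻¹ ≤ P ^ 6 * C₁ * C₂ * E := by
  have hb0 : 0 < b := lt_of_lt_of_le one_pos hb
  have ha6 : 0 < a ^ 6 := pow_pos ha 6
  have hb6 : 1 ≤ b ^ 6 := one_le_pow₀ hb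
  have hP6 : 0 < P ^ 6 := pow_pos hP 6
  have hYinv : Y⁻¹ = a ^ 6 * D⁻¹ * (b ^ 6)⁻¹ := by
    have hY' : Y = D * b ^ 6 / a ^ 6 := by
      rw [eq_div_iff ha6.ne']; exact hinv
    rw [hY', inv_div, div_eq_mul_inv, mul_inv, mul_assoc]
  have hbinv : (b ^ 6)⁻¹ ≤ 1 := inv_le_one_of_one_le₀ hb6
  have hDinv : 0 < D⁻¹ := inv_pos.mpr hD
  have h3 : P ^ 12 * X * Y⁻¹ = P ^ 6 * (X * (P * a) ^ 6) * D⁻¹ * (b ^ 6)⁻¹ := by
    rw [hYinv]; ring
  rw [h3]
  have h4 : P ^ 6 * (X * (P * a) ^ 6) ≤ P ^ 6 * C₁ := mul_le_mul_of_nonneg_left hX hP6.le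
  have h5 : P ^ 6 * (X * (P * a) ^ 6) * D⁻¹ ≤ P ^ 6 * C₁ * D⁻¹ :=
    mul_le_mul_of_nonneg_right h4 hDinv.le
  have h6 : 0 ≤ P ^ 6 * C₁ * D⁻¹ := by positivity
  have h7 : P ^ 6 * (X * (P * a) ^ 6) * D⁻¹ * (b ^ 6)⁻¹ ≤ P ^ 6 * C₁ * D⁻¹ := by
    have h8 : P ^ 6 * (X * (P * a) ^ 6) * D⁻¹ * (b ^ 6)⁻¹
        ≤ P ^ 6 * C₁ * D⁻¹ * (b ^ 6)⁻¹ :=
      mul_le_mul_of_nonneg_right h5 (inv_nonneg.mpr (by positivity))
    exact h8.trans (mul_le_of_le_one_right h6 hbinv)
  refine h7.trans ?_
  have h9 : P ^ 6 * C₁ * D⁻¹ ≤ P ^ 6 * C₁ * (C₂ * E) :=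
    mul_le_mul_of_nonneg_left h2 (by positivity)
  refine h9.trans (le_of_eq ?_)
  ring

theorem im_scaleH (p : ℕ) (hp : 0 < p) (τ : ℍ) : (scaleH p hp τ).im = p * τ.im := by
  have h : ((scaleH p hp τ : ℍ) : ℂ).im = ((p : ℂ) * (τ : ℂ)).im := rfl
  rw [UpperHalfPlane.coe_im] at h
  rw [h]
  simp

/-- Growth of all translates of the unit. -/
theorem expGrowth_unitFun_smul (p : ℕ) (hp : 0 < p) (g : SL(2, ℤ)) :
    ExpGrowth (fun τ => unitFun p hp (g • τ)) := by
  obtain ⟨C₁, hC₁⟩ := exists_discriminant_bound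
  obtain ⟨C₂, hC₂⟩ := exists_inv_discriminant_bound
  have hC₁0 : 0 ≤ C₁ := le_trans (by positivity) (hC₁ UpperHalfPlane.I)
  refine ⟨(p : ℝ) ^ 6 * C₁ * C₂, 1, fun τ hτ => ?_⟩
  have hX := hC₁ (scaleH p hp (g • τ))
  rw [im_scaleH] at hX
  have h2 := hC₂ τ hτ
  rw [norm_inv] at h2
  have key := unit_real_aux (p : ℝ) ‖Δ (scaleH p hp (g • τ))‖ ‖Δ (g • τ)‖ ‖Δ τ‖ (g • τ).im τ.im
    C₁ C₂ (Real.exp (2 * π * τ.im)) (by exact_mod_cast hp) (g • τ).im_pos hτ
    (norm_pos_iff.mpr (ModularForm.discriminant_ne_zero τ))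
    (norm_pos_iff.mpr (ModularForm.discriminant_ne_zero _)) hC₁0 hX
    (discriminant_norm_mul_im_smul g τ) h2
  show ‖unitFun p hp (g • τ)‖ ≤ _
  rw [unitFun, norm_mul, norm_mul, norm_pow, norm_inv, Complex.norm_natCast]
  refine key.trans (le_of_eq ?_)
  push_cast
  ring_nf

end Fermat.Agent.S28.H589

end

end
-- ===== PACK-END S28/H589/UnitAnalytic.lean

-- ===== PACK-BEGIN S29/H222/ESKNorm.lean
section
/-
S29 / helper222 — piece ESK, part 3: the Hecke correspondence on divisors of functions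
(`T_ℓ (div y) = div (Nm_α (β y))`, from the Prelude's `HeckeInputsAlong`), and the integral
Kronecker norm `K(U) = kronNorm ℓ (σ U)` with its reduction.
-/


set_option autoImplicit false
set_option linter.style.haveILetI false

noncomputable section

namespace Fermat.Agent.S29.H222

open ModularCurve AlgebraicCurve HahnSeries IsLocalRing
open Fermat.Agent.S18 (Qb IsInt toF CoreStatement)
open Fermat.Agent.S37.H400 (kronNorm)

variable {A : ValuationSubring Qb} {N : ℕ}

/-! ### Characteristic of the residue field -/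

theorem charP_residueField_of_liesOver {ℓ : ℕ} (hℓ : ℓ.Prime) (hA : A.LiesOverPrime ℓ) :
    CharP (ResidueField A) ℓ := by
  rw [CharP.charP_iff_prime_eq_zero hℓ]
  have h1 : ((ℓ : A) : Qb) ∈ A.nonunits := by
    have : ((ℓ : A) : Qb) = (ℓ : Qb) := by simp
    rw [this]; exact hA
  have h2 : (ℓ : A) ∈ maximalIdeal A := ValuationSubring.coe_mem_nonunits_iff.mp h1
  have h3 : residue A (ℓ : A) = 0 := (residue_eq_zero_iff _).mpr h2
  rw [← h3, map_natCast]

/-! ### The Hecke correspondence on divisors of functions -/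

section Hecke

variable [NeZero N] {ℓ : ℕ} [NeZero ℓ]

omit [NeZero N] in
/-- `β^* (div y) = div (β y)`. -/
theorem isDivOf_pullbackAlong_beta
    [HasPrincipalDivisors Qb (laurentBaseChange Qb (modularFunctionFieldFull (N * ℓ)))]
    (hβ : HeckeBetaBarIntegral Qb N ℓ)
    {y : modularFunctionFieldBar N} {E : Divisor Qb (modularFunctionFieldBar N)}
    (hE : IsDivOf y E) :
    IsDivOf (K := Qb) (heckeBetaBar Qb N ℓ y)
      (Divisor.pullbackAlong (heckeBetaBar Qb N ℓ) hβ E) := by
  intro w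
  letI := algebraAlong (heckeBetaBar Qb N ℓ)
  haveI := isScalarTower_along (heckeBetaBar Qb N ℓ)
  haveI := isIntegral_along (heckeBetaBar Qb N ℓ) hβ
  exact Divisor.pullback_apply_eq_ord hE w

/-- `α_* (div z) = div (Nm_α z)`. -/
theorem isDivOf_pushforwardAlong_alpha
    (hα : HeckeAlphaBarIntegral Qb N ℓ) (hfin : FiniteAlong Qb (heckeAlphaBar Qb N ℓ))
    (hN : NormFormulaAlong Qb (heckeAlphaBar Qb N ℓ) hfin)
    {z : laurentBaseChange Qb (modularFunctionFieldFull (N * ℓ))} (hz : z ≠ 0)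
    {E : Divisor Qb (laurentBaseChange Qb (modularFunctionFieldFull (N * ℓ)))}
    (hE : IsDivOf z E) :
    IsDivOf (K := Qb)
      (letI := algebraAlong (heckeAlphaBar Qb N ℓ)
       Algebra.norm (modularFunctionFieldBar N) z)
      (Divisor.pushforwardAlong (heckeAlphaBar Qb N ℓ) hα E) := by
  intro v
  letI := algebraAlong (heckeAlphaBar Qb N ℓ)
  haveI := isScalarTower_along (heckeAlphaBar Qb N ℓ)
  haveI := isIntegral_along (heckeAlphaBar Qb N ℓ) hα
  haveI : Module.Finite (modularFunctionFieldBar N)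
    (laurentBaseChange Qb (modularFunctionFieldFull (N * ℓ))) := hfin
  exact hN z hz E hE v

/-- `T_ℓ (div y) = div (heckeNorm y)` on divisors. -/
theorem isDivOf_heckeDivBar
    [HasPrincipalDivisors Qb (laurentBaseChange Qb (modularFunctionFieldFull (N * ℓ)))]
    (hα : HeckeAlphaBarIntegral Qb N ℓ) (hβ : HeckeBetaBarIntegral Qb N ℓ)
    (hfin : FiniteAlong Qb (heckeAlphaBar Qb N ℓ))
    (hN : NormFormulaAlong Qb (heckeAlphaBar Qb N ℓ) hfin)
    {y : modularFunctionFieldBar N} (hy : y ≠ 0) {E : Divisor Qb (modularFunctionFieldBar N)}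
    (hE : IsDivOf y E) :
    IsDivOf (K := Qb) (heckeNorm N ℓ y) (heckeDivBar hα hβ E) := by
  have hβy : heckeBetaBar Qb N ℓ y ≠ 0 := by
    intro h
    exact hy ((heckeBetaBar Qb N ℓ).toRingHom.injective (by simpa using h))
  exact isDivOf_pushforwardAlong_alpha hα hfin hN hβy (isDivOf_pullbackAlong_beta hβ hE)

end Hecke

end Fermat.Agent.S29.H222

end
end
-- ===== PACK-END S29/H222/ESKNorm.lean

-- ===== PACK-BEGIN S37/H940/Line.lean
section







/-!
# S37 / RIM (helper940): function fields over a coordinate line, characteristic free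

`F / K` a function field (Prelude `Place K F`), `K` algebraically closed, `t ∈ F` transcendental
with `F` finite over `K(t)`.  Characteristic-free facts used to build the fibres of the place
reduction map over the `t`-line:

* `Line.exists_value`      : regular functions have values in `K`;
* `Line.finite_ord_ne_zero`: zeros and poles are finite in number;
* `Line.inMax_aeval_sub`   : `p(t)` has the value `p(c)` where `t` has the value `c`;
* `Line.mem_integralClosure_of_regular` : a function regular wherever `t` is regular is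
  integral over `K[t]`;
* `Line.exists_clear`      : pole clearing by a polynomial in `t` not vanishing at `c`;
* `Line.exists_localParam`, `Line.exists_separating` : elements of the integral closure of `K[t]`
  which are local parameters at a given point of the fibre `t = c` (units at the others), resp.
  which separate the points of the fibre `t = c`.
-/

set_option autoImplicit false

noncomputable section

namespace Fermat.Agent.S37.H940.Line

open AlgebraicCurve IntermediateField Polynomial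
open Fermat.Agent.S37.H940

variable {K F : Type*} [Field K] [Field F] [Algebra K F]

/-- regularity in terms of membership -/
theorem regular_iff_mem (P : Place K F) (f : F) : 0 ≤ P.ord f ↔ f ∈ P.toValuationSubring :=
  (Fermat.Agent.S24.FF.mem_iff_ord_nonneg P).symm

theorem regular_mul (P : Place K F) {f g : F} (hf : 0 ≤ P.ord f) (hg : 0 ≤ P.ord g) :
    0 ≤ P.ord (f * g) := by
  rw [regular_iff_mem] at *
  exact _root_.MulMemClass.mul_mem hf hg

theorem regular_pow (P : Place K F) {f : F} (hf : 0 ≤ P.ord f) (n : ℕ) : 0 ≤ P.ord (f ^ n) := by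
  rw [regular_iff_mem] at *
  exact _root_.pow_mem hf n

theorem regular_sub_const (P : Place K F) {f : F} (hf : 0 ≤ P.ord f) (c : K) :
    0 ≤ P.ord (f - algebraMap K F c) := by
  rw [regular_iff_mem] at *
  exact _root_.sub_mem hf (P.algebraMap_mem' c)

theorem regular_aeval (P : Place K F) {t : F} (ht : 0 ≤ P.ord t) (p : K[X]) :
    0 ≤ P.ord (aeval t p) :=
  (regular_iff_mem P _).mpr (Fermat.Agent.Lib.RR.aeval_mem P ht p)

/-- `p(t)` has the value `p(c)` at a place where `t` has the value `c` -/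
theorem inMax_aeval_sub (P : Place K F) {t : F} {c : K} (h : InMax P (t - algebraMap K F c))
    (p : K[X]) : InMax P (aeval t p - algebraMap K F (p.eval c)) := by
  have hreg : 0 ≤ P.ord t := ord_nonneg_of_inMax_sub h
  obtain ⟨q, hq⟩ : (X - C c) ∣ p - C (p.eval c) := by
    rw [Polynomial.dvd_iff_isRoot]
    simp
  have e : aeval t p - algebraMap K F (p.eval c) = (t - algebraMap K F c) * aeval t q := by
    have := congrArg (aeval t) hq
    simpa using this
  rw [e]
  exact h.mul_of_ord_nonneg (regular_aeval P hreg q)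

section AlgClosed

variable [IsAlgClosed K] {t : F} (ht : Transcendental K t) [FiniteDimensional K⟮t⟯ F]

include ht

/-- regular functions have values in `K` -/
theorem exists_value (P : Place K F) {f : F} (hf : 0 ≤ P.ord f) :
    ∃ c : K, InMax P (f - algebraMap K F c) := by
  obtain ⟨a, ha⟩ := Fermat.Agent.S24.FF.exists_const_sub_mem_nonunits P ht
    ((regular_iff_mem P f).mp hf)
  exact ⟨a, inMax_iff_mem_nonunits.mpr ha⟩

theorem deg_eq_one (P : Place K F) : P.deg = 1 := Fermat.Agent.S24.FF.deg_eq_one P ht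

theorem hyp : Fermat.Agent.Lib.RR.H443.Hyp K F := Fermat.Agent.Lib.RR.H443.hyp_of_isAlgClosed ht

theorem zerosBound : Fermat.Agent.Lib.RR.H443.ZerosBound K F :=
  Fermat.Agent.Lib.RR.H443.zerosBound (hyp ht).deg_eq_one

/-- zeros and poles are finite in number -/
theorem finite_ord_ne_zero (u : F) : {P : Place K F | P.ord u ≠ 0}.Finite := by
  refine ((Fermat.Agent.Lib.RR.H443.finite_zeros (hyp ht) (zerosBound ht) u).union
    (Fermat.Agent.Lib.RR.H443.finite_poles (hyp ht) (zerosBound ht) u)).subset fun P hP => ?_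
  have hP' : P.ord u ≠ 0 := hP
  rcases lt_or_gt_of_ne hP' with h | h
  · exact Or.inr h
  · exact Or.inl h

omit [IsAlgClosed K] [FiniteDimensional K⟮t⟯ F] in
theorem sub_const_ne_zero (c : K) : t - algebraMap K F c ≠ 0 := by
  intro h
  apply ht
  rw [sub_eq_zero] at h
  rw [h]
  exact isAlgebraic_algebraMap c

/-- the fibre `t = c` is finite -/
theorem finite_fibre (c : K) : {P : Place K F | InMax P (t - algebraMap K F c)}.Finite := by
  refine (finite_ord_ne_zero ht (t - algebraMap K F c)).subset fun P hP => ?_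
  have := InMax.ord_pos hP (sub_const_ne_zero ht c)
  exact ne_of_gt this

/-- the fibre `t = c` is not empty -/
theorem exists_mem_fibre (c : K) : ∃ P : Place K F, InMax P (t - algebraMap K F c) := by
  have htr : Transcendental K (t - algebraMap K F c) := by
    intro h
    apply ht
    have := h.add (isAlgebraic_algebraMap (R := K) (A := F) c)
    rwa [sub_add_cancel] at this
  obtain ⟨P, hP⟩ := Fermat.Agent.Lib.RR.H443.exists_place_ord_pos (hyp ht).finite htr
  exact ⟨P, inMax_of_ord_pos hP⟩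

/-- **Regular functions are integral.**  A function which is regular at every place where `t`
is regular is integral over `K[t]`. -/
theorem mem_integralClosure_of_regular (f : F)
    (h : ∀ P : Place K F, 0 ≤ P.ord t → 0 ≤ P.ord f) :
    f ∈ integralClosure (Algebra.adjoin K {t}) F := by
  set s : Set F := Set.range (algebraMap K F) ∪ {t} with hs
  have hmem : f ∈ (integralClosure (Subring.closure s) F).toSubring := by
    rw [← iInf_valuationSubring_superset]
    rw [Subring.mem_iInf]
    rintro ⟨V, hV⟩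
    by_cases htop : V = ⊤
    · show f ∈ V
      rw [htop]
      exact ValuationSubring.mem_top f
    · have hK : ∀ a : K, algebraMap K F a ∈ V := fun a => hV (Or.inl ⟨a, rfl⟩)
      have htV : t ∈ V := hV (Or.inr rfl)
      let P : Place K F :=
        Fermat.Agent.Lib.RR.H443.placeOfValuationSubring V hK htop (hyp ht).finite
      have h1 : 0 ≤ P.ord t := (regular_iff_mem P t).mpr htV
      exact (regular_iff_mem P f).mp (h P h1)
  have hint : IsIntegral (Subring.closure s) f := hmem
  obtain ⟨p, hp, hpf⟩ := hint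
  have hle : Subring.closure s ≤ (Algebra.adjoin K {t}).toSubring := by
    rw [Subring.closure_le]
    rintro y (⟨a, rfl⟩ | rfl)
    · exact (Algebra.adjoin K {t}).algebraMap_mem a
    · exact Algebra.self_mem_adjoin_singleton K _
  let ι : Subring.closure s →+* Algebra.adjoin K {t} := Subring.inclusion hle
  refine ⟨p.map ι, hp.map ι, ?_⟩
  rw [Polynomial.eval₂_map]
  exact hpf

/-- **Pole clearing**: a function regular on the fibre `t = c` becomes regular wherever `t` is
regular after multiplication by a polynomial in `t` which does not vanish at `c`. -/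
theorem exists_clear (c : K) (f : F)
    (hreg : ∀ P : Place K F, InMax P (t - algebraMap K F c) → 0 ≤ P.ord f) :
    ∃ p : K[X], p.eval c ≠ 0 ∧ ∀ P : Place K F, 0 ≤ P.ord t → 0 ≤ P.ord (f * aeval t p) := by
  classical
  -- induction on a finite set containing the finite poles
  have key : ∀ (S : Finset (Place K F)) (f : F),
      (∀ P : Place K F, 0 ≤ P.ord t → P.ord f < 0 → P ∈ S) →
      (∀ P ∈ S, ¬ InMax P (t - algebraMap K F c)) → (∀ P ∈ S, 0 ≤ P.ord t) →
      ∃ p : K[X], p.eval c ≠ 0 ∧ ∀ P : Place K F, 0 ≤ P.ord t → 0 ≤ P.ord (f * aeval t p) := by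
    intro S
    induction S using Finset.induction_on with
    | empty =>
      intro f h1 _ _
      refine ⟨1, by simp, fun P hP => ?_⟩
      rw [_root_.map_one, mul_one]
      by_contra hneg
      exact absurd (h1 P hP (not_le.mp hneg)) (Finset.notMem_empty P)
    | insert P₀ S' hP₀ ih =>
      intro f h1 h2 h3
      have hP₀t : 0 ≤ P₀.ord t := h3 P₀ (Finset.mem_insert_self _ _)
      obtain ⟨c₀, hc₀⟩ := exists_value ht P₀ hP₀t
      have hne : c₀ ≠ c := by
        rintro rfl
        exact h2 P₀ (Finset.mem_insert_self _ _) hc₀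
      set m : ℕ := (-(P₀.ord f)).toNat with hm
      set g : F := t - algebraMap K F c₀ with hg
      have hg0 : g ≠ 0 := sub_const_ne_zero ht c₀
      have hgreg : ∀ P : Place K F, 0 ≤ P.ord t → 0 ≤ P.ord (g ^ m) := fun P hP =>
        regular_pow P (regular_sub_const P hP c₀) m
      have hpoles : ∀ P : Place K F, 0 ≤ P.ord t → P.ord (f * g ^ m) < 0 → P ∈ S' := by
        intro P hP hneg
        rcases eq_or_ne f 0 with rfl | hf0
        · rw [zero_mul, P.ord_zero] at hneg
          exact absurd hneg (lt_irrefl _)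
        have hgm0 : g ^ m ≠ 0 := pow_ne_zero _ hg0
        have hord : P.ord (f * g ^ m) = P.ord f + P.ord (g ^ m) := P.ord_mul hf0 hgm0
        have hfneg : P.ord f < 0 := by
          have := hgreg P hP
          omega
        have hmem := h1 P hP hfneg
        rcases Finset.mem_insert.mp hmem with rfl | hS
        · exfalso
          have h4 : (m : ℤ) ≤ P.ord (g ^ m) := by
            have h5 : P.ord (g ^ m) = m * P.ord g := by
              have := P.ord_zpow g (m : ℤ)
              rwa [zpow_natCast] at this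
            have h6 : 0 < P.ord g := InMax.ord_pos hc₀ hg0
            rw [h5]
            nlinarith
          have h7 : -(P.ord f) ≤ (m : ℤ) := by
            rw [hm]
            exact Int.self_le_toNat _
          omega
        · exact hS
      obtain ⟨p', hp', hp'reg⟩ := ih (f * g ^ m) hpoles
        (fun P hP => h2 P (Finset.mem_insert_of_mem hP))
        (fun P hP => h3 P (Finset.mem_insert_of_mem hP))
      refine ⟨(X - C c₀) ^ m * p', ?_, fun P hP => ?_⟩
      · rw [eval_mul, eval_pow, eval_sub, eval_X, eval_C]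
        exact mul_ne_zero (pow_ne_zero _ (sub_ne_zero.mpr hne.symm)) hp'
      · have e : f * aeval t ((X - C c₀) ^ m * p') = f * g ^ m * aeval t p' := by
          rw [_root_.map_mul, _root_.map_pow, _root_.map_sub, aeval_X, aeval_C, mul_assoc]
        rw [e]
        exact hp'reg P hP
  have hfin : {P : Place K F | P.ord f < 0}.Finite :=
    Fermat.Agent.Lib.RR.H443.finite_poles (hyp ht) (zerosBound ht) f
  have hfin' : {P : Place K F | P.ord f < 0 ∧ 0 ≤ P.ord t}.Finite :=
    hfin.subset fun P hP => hP.1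
  refine key hfin'.toFinset f (fun P hP hneg => ?_) (fun P hP hin => ?_) (fun P hP => ?_)
  · rw [Set.Finite.mem_toFinset]
    exact ⟨hneg, hP⟩
  · rw [Set.Finite.mem_toFinset] at hP
    have := hreg P hin
    have := hP.1
    omega
  · rw [Set.Finite.mem_toFinset] at hP
    exact hP.2

omit [FiniteDimensional K⟮t⟯ F] [IsAlgClosed K] in
/-- a polynomial in `t` not vanishing at `c` is a unit on the fibre `t = c` -/
theorem aeval_unit_on_fibre {c : K} {p : K[X]} (hp : p.eval c ≠ 0) {P : Place K F}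
    (hP : InMax P (t - algebraMap K F c)) : aeval t p ≠ 0 ∧ P.ord (aeval t p) = 0 := by
  have _ := ht
  have h1 := inMax_aeval_sub P hP p
  refine ⟨?_, ord_eq_zero_of_inMax_sub h1 hp⟩
  intro h0
  rw [h0, zero_sub] at h1
  have h2 := h1.neg
  rw [neg_neg, inMax_algebraMap_iff] at h2
  exact hp h2

/-- **Local parameters.**  Every point of the fibre `t = c` has a local parameter which is
integral over `K[t]` and a unit at the other points of the fibre. -/
theorem exists_localParam (c : K) (P₀ : Place K F) (_hP₀ : InMax P₀ (t - algebraMap K F c)) :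
    ∃ τ ∈ integralClosure (Algebra.adjoin K {t}) F, P₀.ord τ = 1 ∧
      ∀ P : Place K F, InMax P (t - algebraMap K F c) → P ≠ P₀ → P.ord τ = 0 := by
  classical
  set S : Finset (Place K F) := (finite_fibre ht c).toFinset with hS
  have hmemS : ∀ P : Place K F, P ∈ S ↔ InMax P (t - algebraMap K F c) := fun P => by
    rw [hS, Set.Finite.mem_toFinset]; rfl
  obtain ⟨z, hz⟩ := Fermat.Agent.Lib.RR.H623.weak_approximation (insert P₀ S) (fun _ => (0 : F))
    (fun P => if P = P₀ then 1 else 0)
  have hz0 : z ≠ 0 := by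
    have := (hz P₀ (Finset.mem_insert_self _ _)).1
    rwa [sub_zero] at this
  have hzord : ∀ P ∈ insert P₀ S, P.ord z = if P = P₀ then 1 else 0 := fun P hP => by
    have := (hz P hP).2
    rwa [sub_zero] at this
  have hreg : ∀ P : Place K F, InMax P (t - algebraMap K F c) → 0 ≤ P.ord z := by
    intro P hP
    rw [hzord P (Finset.mem_insert_of_mem ((hmemS P).mpr hP))]
    split_ifs <;> norm_num
  obtain ⟨p, hp, hpreg⟩ := exists_clear ht c z hreg
  refine ⟨z * aeval t p, mem_integralClosure_of_regular ht _ hpreg, ?_, fun P hP hne => ?_⟩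
  · obtain ⟨h1, h2⟩ := aeval_unit_on_fibre ht hp _hP₀
    rw [P₀.ord_mul hz0 h1, h2, hzord P₀ (Finset.mem_insert_self _ _), if_pos rfl, add_zero]
  · obtain ⟨h1, h2⟩ := aeval_unit_on_fibre ht hp hP
    rw [P.ord_mul hz0 h1, h2, hzord P (Finset.mem_insert_of_mem ((hmemS P).mpr hP)), if_neg hne,
      add_zero]

/-- **Separating functions.**  Some function integral over `K[t]` takes pairwise different
values at the points of the fibre `t = c`. -/
theorem exists_separating (c : K) :
    ∃ σ ∈ integralClosure (Algebra.adjoin K {t}) F,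
      ∀ P P' : Place K F, InMax P (t - algebraMap K F c) → InMax P' (t - algebraMap K F c) →
        ∀ a : K, InMax P (σ - algebraMap K F a) → InMax P' (σ - algebraMap K F a) → P = P' := by
  classical
  set S : Finset (Place K F) := (finite_fibre ht c).toFinset with hS
  have hmemS : ∀ P : Place K F, P ∈ S ↔ InMax P (t - algebraMap K F c) := fun P => by
    rw [hS, Set.Finite.mem_toFinset]; rfl
  have : Infinite K := IsAlgClosed.instInfinite
  -- distinct target values
  let a : Place K F → K := fun P =>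
    if h : P ∈ S then Infinite.natEmbedding K (S.equivFin ⟨P, h⟩ : ℕ) else 0
  have ha_inj : ∀ P ∈ S, ∀ P' ∈ S, a P = a P' → P = P' := by
    intro P hP P' hP' h
    simp only [a, dif_pos hP, dif_pos hP'] at h
    have h1 := (Infinite.natEmbedding K).injective h
    have h2 := Fin.val_injective h1
    have h3 := S.equivFin.injective h2
    exact congrArg Subtype.val h3
  obtain ⟨z, hz⟩ := Fermat.Agent.Lib.RR.H623.weak_approximation_ge S
    (fun P => algebraMap K F (a P)) (fun _ => 1)
  have hzval : ∀ P : Place K F, InMax P (t - algebraMap K F c) →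
      InMax P (z - algebraMap K F (a P)) := by
    intro P hP
    rcases hz P ((hmemS P).mpr hP) with h | h
    · exact Or.inl h
    · exact Or.inr (by omega)
  have hreg : ∀ P : Place K F, InMax P (t - algebraMap K F c) → 0 ≤ P.ord z :=
    fun P hP => ord_nonneg_of_inMax_sub (hzval P hP)
  obtain ⟨p, hp, hpreg⟩ := exists_clear ht c z hreg
  have hval : ∀ P : Place K F, InMax P (t - algebraMap K F c) →
      InMax P (z * aeval t p - algebraMap K F (a P * p.eval c)) := by
    intro P hP
    have h1 := hzval P hP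
    have h2 := inMax_aeval_sub P hP p
    have hregp : 0 ≤ P.ord (aeval t p) := regular_aeval P (ord_nonneg_of_inMax_sub hP) p
    have e : z * aeval t p - algebraMap K F (a P * p.eval c)
        = (z - algebraMap K F (a P)) * aeval t p
          + algebraMap K F (a P) * (aeval t p - algebraMap K F (p.eval c)) := by
      rw [_root_.map_mul]; ring
    rw [e]
    exact (h1.mul_of_ord_nonneg hregp).add (h2.const_mul (a P))
  refine ⟨z * aeval t p, mem_integralClosure_of_regular ht _ hpreg, ?_⟩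
  intro P P' hP hP' b hb hb'
  have e1 := value_unique (hval P hP) hb
  have e2 := value_unique (hval P' hP') hb'
  have e3 : a P = a P' := by
    have : a P * p.eval c = a P' * p.eval c := by rw [e1, e2]
    exact mul_right_cancel₀ hp this
  exact ha_inj P ((hmemS P).mpr hP) P' ((hmemS P').mpr hP') e3

end AlgClosed

end Fermat.Agent.S37.H940.Line

end
end
-- ===== PACK-END S37/H940/Line.lean

-- ===== PACK-BEGIN S19/H15/Ord.lean
section



/-!
# Cell A3 (S19) — node ORD (helper15): `ordStatement : OrdStatement`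

An `OrderDatum` on a finite module gives a finite flat commutative cocommutative Hopf algebra over
`ℤ_(ℓ)` with the prescribed points.  The Hopf algebra itself is helper19's
`H19.exists_hopf_of_equivariant_order`; this file supplies its hypotheses for
`H := Algebra.adjoin ℤ_(ℓ) gens`:

* `ordAlg_fg`    : `H` is a finitely generated module (bounded denominators, `exists_bound`);
* `ordAlg_comul` : `f ∘ add` lies in the image of `H ⊗ H` (descent `Z̄_(ℓ) → ℤ_(ℓ)` of `add_mem`).
-/

set_option autoImplicit false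
set_option linter.style.haveILetI false

noncomputable section

namespace Fermat.Agent.S19.H15

open Fermat.Agent.S19
open scoped TensorProduct

variable {ℓ : ℕ} [Fact ℓ.Prime] {M : Type} [AddCommGroup M] [Finite M] {act : GalQ → M → M}

/-- The algebra of an order datum is a finitely generated module. -/
theorem ordAlg_fg (D : OrderDatum ℓ M act) : (Subalgebra.toSubmodule (ordAlg D)).FG := by
  classical
  haveI : IsPrincipalIdealRing ↥(GaloisRep.ratLocalizedAt ℓ) := inferInstance
  haveI : IsNoetherianRing ↥(Rl ℓ) := inferInstance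
  -- a finite separating set of generators
  have hex : ∀ p : {p : M × M // p.1 ≠ p.2}, ∃ f ∈ D.gens, f p.1.1 ≠ f p.1.2 := by
    intro p
    by_contra hcon
    push Not at hcon
    exact p.2 (D.separates _ _ hcon)
  choose F hF hFne using hex
  set H₀ : Subalgebra (Rl ℓ) (M → Qb) := Algebra.adjoin (Rl ℓ) (Set.range F) with hH₀
  have hle : H₀ ≤ ordAlg D := Algebra.adjoin_mono (by rintro _ ⟨p, rfl⟩; exact hF p)
  have hfg₀ : (Subalgebra.toSubmodule H₀).FG :=
    fg_adjoin_of_finite (Set.finite_range F) (by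
      rintro _ ⟨p, rfl⟩
      exact isIntegral_of_forall_apply _ (D.integral _ (hF p)))
  have hsep₀ : ∀ m m' : M, m ≠ m' → ∃ f ∈ H₀, f m ≠ f m' := fun m m' hne =>
    ⟨F ⟨(m, m'), hne⟩, Algebra.subset_adjoin ⟨_, rfl⟩, hFne ⟨(m, m'), hne⟩⟩
  obtain ⟨d, hd0, hd⟩ := exists_bound (act_one D) (act_mul D) H₀
    (fun f hf => ordAlg_equivariant D f (hle hf)) hfg₀ hsep₀
  let φ : (M → Qb) →ₗ[Rl ℓ] (M → Qb) := LinearMap.lsmul (Rl ℓ) (M → Qb) d
  have hφ : Function.Injective φ := by
    intro u v huv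
    funext m
    have h1 := congrFun huv m
    simp only [φ, LinearMap.lsmul_apply, Pi.smul_apply, _root_.Algebra.smul_def] at h1
    have h2 : algebraMap (Rl ℓ) Qb d ≠ 0 := fun h =>
      hd0 (H19.algebraMap_subring_injective (Rl ℓ) (h.trans (map_zero _).symm))
    exact mul_left_cancel₀ h2 h1
  have hmap : (Subalgebra.toSubmodule (ordAlg D)).map φ ≤ Subalgebra.toSubmodule H₀ := by
    rintro _ ⟨u, hu, rfl⟩
    exact hd u (ordAlg_equivariant D u hu) (ordAlg_integral D u hu)
  exact Submodule.fg_of_fg_map_injective φ hφ (Submodule.FG.of_le hfg₀ hmap)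

/-- the diagonal action on pairs -/
def act₂ (act : GalQ → M → M) (σ : GalQ) (p : M × M) : M × M := (act σ p.1, act σ p.2)

omit [Fact ℓ.Prime] [Finite M] in
theorem range_prodMap_equivariant (D : OrderDatum ℓ M act) :
    ∀ F ∈ (H19.prodMap (ordAlg D).val (ordAlg D).val).range,
      H19.IsEquivariant (act₂ act) F := by
  rintro _ ⟨t, rfl⟩
  induction t using TensorProduct.induction_on with
  | zero =>
    intro σ p
    simp
  | tmul a b =>
    intro σ p
    show (H19.prodMap (ordAlg D).val (ordAlg D).val) (a ⊗ₜ[Rl ℓ] b) (act₂ act σ p) =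
      σ ((H19.prodMap (ordAlg D).val (ordAlg D).val) (a ⊗ₜ[Rl ℓ] b) p)
    rw [H19.prodMap_tmul, H19.prodMap_tmul]
    show (a : M → Qb) (act σ p.1) * (b : M → Qb) (act σ p.2) = _
    rw [ordAlg_equivariant D _ a.2 σ, ordAlg_equivariant D _ b.2 σ, _root_.map_mul]
    rfl
  | add x y hx hy =>
    intro σ p
    rw [map_add, Pi.add_apply, Pi.add_apply, hx σ p, hy σ p, map_add]

theorem range_prodMap_fg (D : OrderDatum ℓ M act) :
    (Subalgebra.toSubmodule (H19.prodMap (ordAlg D).val (ordAlg D).val).range).FG := by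
  haveI : Module.Finite (Rl ℓ) (ordAlg D) := Module.Finite.iff_fg.mpr (ordAlg_fg D)
  have h1 : (⊤ : Submodule (Rl ℓ) ((ordAlg D) ⊗[Rl ℓ] (ordAlg D))).FG := Module.Finite.fg_top
  have h2 := h1.map (H19.prodMap (ordAlg D).val (ordAlg D).val).toLinearMap
  convert h2 using 1
  ext x
  simp [AlgHom.mem_range]

omit [Fact ℓ.Prime] [Finite M] in
theorem coordFunctions_subset_range (D : OrderDatum ℓ M act) :
    coordFunctions D.gens ⊆
      ((H19.prodMap (ordAlg D).val (ordAlg D).val).range : Set (M × M → Qb)) := by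
  rintro _ (⟨h, hh, rfl⟩ | ⟨h, hh, rfl⟩)
  · refine ⟨(⟨h, gens_le_ordAlg D hh⟩ : ordAlg D) ⊗ₜ[Rl ℓ] 1, ?_⟩
    funext p
    show (H19.prodMap (ordAlg D).val (ordAlg D).val)
      ((⟨h, gens_le_ordAlg D hh⟩ : ordAlg D) ⊗ₜ[Rl ℓ] 1) p = h p.1
    rw [H19.prodMap_tmul]
    simp
  · refine ⟨(1 : ordAlg D) ⊗ₜ[Rl ℓ] (⟨h, gens_le_ordAlg D hh⟩ : ordAlg D), ?_⟩
    funext p
    show (H19.prodMap (ordAlg D).val (ordAlg D).val)
      ((1 : ordAlg D) ⊗ₜ[Rl ℓ] (⟨h, gens_le_ordAlg D hh⟩ : ordAlg D)) p = h p.2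
    rw [H19.prodMap_tmul]
    simp

/-- `f ∘ add` lies in the image of `H ⊗ H`, for the generators. -/
theorem gens_comul (D : OrderDatum ℓ M act) (f : M → Qb) (hf : f ∈ D.gens) :
    (fun p : M × M => f (p.1 + p.2)) ∈ (H19.prodMap (ordAlg D).val (ordAlg D).val).range := by
  set Λ₂ := (H19.prodMap (ordAlg D).val (ordAlg D).val).range with hΛ₂
  refine mem_of_mem_span_of_equivariant (act := act₂ act)
    (fun p => Prod.ext (act_one D p.1) (act_one D p.2))
    (fun σ τ p => Prod.ext (act_mul D σ τ p.1) (act_mul D σ τ p.2))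
    Λ₂ (range_prodMap_equivariant D) (range_prodMap_fg D) ?_ ?_
  · -- membership in the `Zb`-span
    have h1 : Algebra.adjoin (Zb ℓ) (coordFunctions D.gens) ≤
        Algebra.adjoin (Zb ℓ) (Λ₂ : Set (M × M → Qb)) :=
      Algebra.adjoin_mono (coordFunctions_subset_range D)
    have h2 := Algebra.adjoin_eq_span (Zb ℓ) (Λ₂ : Set (M × M → Qb))
    have h3 : Submonoid.closure (Λ₂ : Set (M × M → Qb)) = Λ₂.toSubmonoid :=
      Submonoid.closure_eq Λ₂.toSubmonoid
    rw [h3] at h2
    have h4 : (fun p : M × M => f (p.1 + p.2)) ∈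
        Subalgebra.toSubmodule (Algebra.adjoin (Zb ℓ) (Λ₂ : Set (M × M → Qb))) :=
      h1 (D.add_mem f hf)
    rw [h2] at h4
    exact h4
  · intro σ p
    show f (act σ p.1 + act σ p.2) = σ (f (p.1 + p.2))
    rw [← D.act_add, D.equivariant f hf]

/-- `f ∘ add` lies in the image of `H ⊗ H`, for all `f ∈ H`. -/
theorem ordAlg_comul (D : OrderDatum ℓ M act) :
    ∀ f ∈ ordAlg D, (fun p : M × M => f (p.1 + p.2)) ∈
      (H19.prodMap (ordAlg D).val (ordAlg D).val).range := by
  have h : ordAlg D ≤ (H19.prodMap (ordAlg D).val (ordAlg D).val).range.comap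
      (H19.pullback (Rl ℓ) Qb (fun p : M × M => p.1 + p.2)) :=
    Algebra.adjoin_le fun f hf => gens_comul D f hf
  exact fun f hf => h hf

/-- **Node ORD.** -/
theorem ordStatement : OrdStatement := by
  intro ℓ _ M _ _ act hD
  obtain ⟨D⟩ := hD
  haveI : IsPrincipalIdealRing ↥(GaloisRep.ratLocalizedAt ℓ) := inferInstance
  exact H19.exists_hopf_of_equivariant_order (Rl ℓ) isIntegrallyClosed_Rl
    (act_one D) (act_mul D) (act_zero D) (ordAlg D) (ordAlg_equivariant D) (ordAlg_fg D)
    (ordAlg_separates D) (ordAlg_comul D)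

end Fermat.Agent.S19.H15

end

end
-- ===== PACK-END S19/H15/Ord.lean

-- ===== PACK-BEGIN Lib/HI/H864/Modular.lean
section




/-!
# Lib / HI (helper864): `HeckeInputsAlong ℚ̄ N ℓ` holds

The Prelude Hecke operator `heckeOperatorAlong ℚ̄ N ℓ` is defined as the genuine correspondence
`α_* β^*` when the six inputs `HeckeInputsAlong` hold (and as `0` otherwise).  They always hold:

* `heckeInputsAlong_bar' N ℓ`        (any `N, ℓ ≠ 0`)
* `heckeInputsAlong_bar N ℓ hℓ`      (exact shape of `S29/SkeletonM.lean`, piece `HI`)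
-/

set_option autoImplicit false
set_option linter.unusedSectionVars false
set_option linter.style.haveILetI false
set_option linter.unusedVariables false

noncomputable section

open AlgebraicCurve ModularCurve IntermediateField

namespace Fermat.Agent.Lib.HI.H864

open Fermat.Agent.S24

theorem jF_not_mem_range (N : ℕ) [NeZero N] :
    jF N ∉ (algebraMap Kbar (FF N)).range := by
  rintro ⟨c, hc⟩
  have h1 : ((algebraMap Kbar (FF N) c : FF N) : LaurentSeries Kbar).coeff (-1)
      = ((jF N : FF N) : LaurentSeries Kbar).coeff (-1) := by rw [hc]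
  have h2 : ((algebraMap Kbar (FF N) c : FF N) : LaurentSeries Kbar)
      = algebraMap Kbar (LaurentSeries Kbar) c := rfl
  rw [h2, algebraMap_laurentSeries_eq_single] at h1
  have h3 : ((jF N : FF N) : LaurentSeries Kbar) = coeffEmb Kbar jq := rfl
  rw [h3, coeffEmb_coeff, coeff_jq_neg_one, map_one,
    HahnSeries.coeff_single_of_ne (by norm_num)] at h1
  exact zero_ne_one h1

theorem transcendental_jF (N : ℕ) [NeZero N] : Transcendental Kbar (jF N) :=
  FF.transcendental_of_not_mem_range (jF_not_mem_range N)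

theorem finiteDimensional_jF (N : ℕ) [NeZero N] :
    FiniteDimensional ↥(IntermediateField.adjoin Kbar {jF N}) (FF N) :=
  (Deg457.degree_fields N).1

/-- The modular function field has principal divisors. -/
theorem hasPrincipalDivisors_FF (N : ℕ) [NeZero N] :
    HasPrincipalDivisors (AlgebraicClosure ℚ) ↥(modularFunctionFieldBar N) := by
  haveI := finiteDimensional_jF N
  exact hasPrincipalDivisors (jF N) (transcendental_jF N)

section

variable (N ℓ : ℕ) [NeZero N] [NeZero ℓ]

theorem heckeAlphaBar_jF : heckeAlphaBar Kbar N ℓ (jF N) = jF (N * ℓ) := rfl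

theorem finiteDimensional_alpha :
    FiniteDimensional ↥(IntermediateField.adjoin Kbar {heckeAlphaBar Kbar N ℓ (jF N)})
      (FF (N * ℓ)) := by
  rw [heckeAlphaBar_jF]
  exact finiteDimensional_jF (N * ℓ)

theorem finiteDimensional_beta :
    FiniteDimensional ↥(IntermediateField.adjoin Kbar {heckeBetaBar Kbar N ℓ (jF N)})
      (FF (N * ℓ)) := by
  haveI := finiteDimensional_jF (N * ℓ)
  exact FF.finiteDimensional_adjoin_of_transcendental (transcendental_jF (N * ℓ))
    (transcendental_map (heckeBetaBar Kbar N ℓ) (jF N) (transcendental_jF N))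

theorem heckeAlphaBarIntegral : HeckeAlphaBarIntegral Kbar N ℓ := by
  haveI := finiteDimensional_alpha N ℓ
  exact isIntegral_along_of_finite (heckeAlphaBar Kbar N ℓ) (jF N)

theorem heckeBetaBarIntegral : HeckeBetaBarIntegral Kbar N ℓ := by
  haveI := finiteDimensional_beta N ℓ
  exact isIntegral_along_of_finite (heckeBetaBar Kbar N ℓ) (jF N)

theorem finiteAlong_alpha : FiniteAlong Kbar (heckeAlphaBar Kbar N ℓ) := by
  haveI := finiteDimensional_alpha N ℓ
  exact finiteAlong (heckeAlphaBar Kbar N ℓ) (jF N)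

theorem finiteAlong_beta : FiniteAlong Kbar (heckeBetaBar Kbar N ℓ) := by
  haveI := finiteDimensional_beta N ℓ
  exact finiteAlong (heckeBetaBar Kbar N ℓ) (jF N)

theorem fundamentalIdentityAlong_beta
    [HasPrincipalDivisors Kbar (laurentBaseChange Kbar (modularFunctionFieldFull (N * ℓ)))]
    (hβ : HeckeBetaBarIntegral Kbar N ℓ) :
    FundamentalIdentityAlong Kbar (heckeBetaBar Kbar N ℓ) hβ := by
  haveI := finiteDimensional_jF N
  haveI := finiteDimensional_beta N ℓ
  exact fundamentalIdentityAlong (heckeBetaBar Kbar N ℓ) (jF N) (transcendental_jF N) hβ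

theorem fundamentalIdentityAlong_alpha
    [HasPrincipalDivisors Kbar (laurentBaseChange Kbar (modularFunctionFieldFull (N * ℓ)))]
    (hα : HeckeAlphaBarIntegral Kbar N ℓ) :
    FundamentalIdentityAlong Kbar (heckeAlphaBar Kbar N ℓ) hα := by
  haveI := finiteDimensional_jF N
  haveI := finiteDimensional_alpha N ℓ
  exact fundamentalIdentityAlong (heckeAlphaBar Kbar N ℓ) (jF N) (transcendental_jF N) hα

theorem normFormulaAlong_alpha (hfin : FiniteAlong Kbar (heckeAlphaBar Kbar N ℓ)) :
    NormFormulaAlong Kbar (heckeAlphaBar Kbar N ℓ) hfin := by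
  haveI := finiteDimensional_jF N
  haveI := finiteDimensional_alpha N ℓ
  exact normFormulaAlong (heckeAlphaBar Kbar N ℓ) (jF N) (transcendental_jF N) hfin

theorem normFormulaAlong_beta (hfin : FiniteAlong Kbar (heckeBetaBar Kbar N ℓ)) :
    NormFormulaAlong Kbar (heckeBetaBar Kbar N ℓ) hfin := by
  haveI := finiteDimensional_jF N
  haveI := finiteDimensional_beta N ℓ
  exact normFormulaAlong (heckeBetaBar Kbar N ℓ) (jF N) (transcendental_jF N) hfin

/-- **HI.**  All six inputs of the Prelude Hecke correspondence hold over `ℚ̄`. -/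
theorem heckeInputsAlong_bar' : HeckeInputsAlong (AlgebraicClosure ℚ) N ℓ := by
  haveI hP : HasPrincipalDivisors Kbar
      (laurentBaseChange Kbar (modularFunctionFieldFull (N * ℓ))) :=
    hasPrincipalDivisors_FF (N * ℓ)
  exact heckeInputsAlong_intro (heckeAlphaBarIntegral N ℓ) (heckeBetaBarIntegral N ℓ)
    (fundamentalIdentityAlong_beta N ℓ _) (finiteAlong_alpha N ℓ)
    (normFormulaAlong_alpha N ℓ _)

end

/-- **HI**, exact shape of `S29/SkeletonM.lean`. -/
theorem heckeInputsAlong_bar (N : ℕ) [NeZero N] (ℓ : ℕ) [NeZero ℓ] (hℓ : ℓ.Prime) :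
    HeckeInputsAlong (AlgebraicClosure ℚ) N ℓ :=
  heckeInputsAlong_bar' N ℓ

end Fermat.Agent.Lib.HI.H864

end
end
-- ===== PACK-END Lib/HI/H864/Modular.lean

-- ===== PACK-BEGIN A2/Mod/H13/S1.lean
section



/-!
# WALL A2 / MODASM, sub-assembly S1 (helper13): the two components of the special fibre

`s1 : VzeroNeStatement → DegStatement → IndInfStatement → IndZeroStatement → S1Statement`
(leaves L6, L8, L9, L10 of `Mod/Spec.lean`; L2 and L3 are used from main).

For both charts `B = chartAlg y`, `y ∈ {x, x⁻¹}`, `x = j · j_q`: the ideals `p∞ = B ∩ w V∞`,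
`p₀ = B ∩ w V₀` are prime, incomparable, and `p∞ ⊓ p₀ = w B` (the special fibre is reduced with
exactly two components).  Proof: `Frame.lean` (leaves ⟹ frame) + helper489's
`frame_exists_components(_inv)` (frame ⟹ components; two-extension theorem + QEP2).
-/

set_option autoImplicit false
set_option linter.unusedSectionVars false
set_option linter.style.haveILetI false
set_option synthInstance.maxHeartbeats 400000
set_option maxHeartbeats 1600000

noncomputable section

namespace Fermat.Agent.A2.Mod.H13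

open ModularCurve HahnSeries Polynomial IntermediateField
open Fermat.Agent.A2 Fermat.Agent.A2.Mod

variable {P : ValuationSubring _root_.Fermat.Agent.A2.Mod.Qb} {E : IntermediateField ℚ _root_.Fermat.Agent.A2.Mod.Qb} {M q : ℕ} [NeZero M] [NeZero q]
  {w : _root_.Fermat.Agent.A2.Mod.RE P E}

/-- **S1.** -/
theorem s1 (hL6 : VzeroNeStatement P E M q w) (hL8 : DegStatement E M q)
    (hL9 : IndInfStatement P E M q w) (hL10 : IndZeroStatement P E M q w) :
    S1Statement P E M q w := by
  intro hS V W hV hW y hy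
  haveI := hS.dvr
  obtain ⟨htr, hfr, -⟩ := hL8 hS.q_prime hS.q_not_dvd
  obtain ⟨b, hb, hbI⟩ := hL9 hS V hV
  obtain ⟨c, hc, hcI⟩ := hL10 hS V W hV hW
  have hu : H48.IsUnif V (cE P E (M * q) w) :=
    (H553.vinfBasic P E w (M * q) (NeZero.ne _) hS.dvr hS.unif V hV).1
  have hu₂ := isUnif_comap hu W
  have hG₁ := isGaussOver_xE hS.unif hV htr
  have hG₂ := isGaussOver_comap_xE hS.unif hV hW htr
  have hne : V ≠ V.comap (W : _root_.Fermat.Agent.A2.Mod.FE E (M * q) →+* _root_.Fermat.Agent.A2.Mod.FE E (M * q)) :=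
    fun h => hL6 hS V W hV hW h.symm
  have hpos : 0 < Module.finrank (IntermediateField.adjoin E ({xE E M q} : Set (_root_.Fermat.Agent.A2.Mod.FE E (M * q))))
      (_root_.Fermat.Agent.A2.Mod.FE E (M * q)) := by
    rw [hfr]
    have h1 := dedekindPsi_pos_of_ne_zero M (NeZero.ne M)
    positivity
  haveI hfin : FiniteDimensional (IntermediateField.adjoin E ({xE E M q} : Set (_root_.Fermat.Agent.A2.Mod.FE E (M * q))))
      (_root_.Fermat.Agent.A2.Mod.FE E (M * q)) := Module.finite_of_finrank_pos hpos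
  have hdeg : Module.finrank (IntermediateField.adjoin E ({xE E M q} : Set (_root_.Fermat.Agent.A2.Mod.FE E (M * q))))
      (_root_.Fermat.Agent.A2.Mod.FE E (M * q)) ≤ (q + 1) * dedekindPsi M + (q + 1) * dedekindPsi M := by
    rw [hfr, two_mul]
  have hI₁ := polyIndepMod_of_indepMod hS.unif hu hbI
  have hI₂ := polyIndepMod_of_indepMod hS.unif hu₂ hcI
  rcases hy with rfl | rfl
  · obtain ⟨p₁, p₂, hc₁, hc₂, hp₁, hp₂, -, h₁₂, h₂₁, hinf⟩ :=
      H489.frame_exists_components (E := E) hS.unif hG₁ hG₂ hu hu₂ hne hb hc hI₁ hI₂ hdeg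
        (chartAlg P E (M * q) (xE E M q)) (fun _ => Iff.rfl)
    exact ⟨p₁, p₂, fun b => (hc₁ b).trans (inW_iff_mem_nonunits hu _).symm,
      fun b => (hc₂ b).trans (inW_iff_mem_nonunits hu₂ _).symm, hp₁, hp₂, h₁₂, h₂₁, hinf⟩
  · obtain ⟨p₁, p₂, hc₁, hc₂, hp₁, hp₂, -, h₁₂, h₂₁, hinf⟩ :=
      H489.frame_exists_components_inv (E := E) hS.unif hG₁ hG₂ hu hu₂ hne hb hc hI₁ hI₂ hdeg
        (chartAlg P E (M * q) (xE E M q)⁻¹) (fun _ => Iff.rfl)
    exact ⟨p₁, p₂, fun b => (hc₁ b).trans (inW_iff_mem_nonunits hu _).symm,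
      fun b => (hc₂ b).trans (inW_iff_mem_nonunits hu₂ _).symm, hp₁, hp₂, h₁₂, h₂₁, hinf⟩

end Fermat.Agent.A2.Mod.H13

end
end
-- ===== PACK-END A2/Mod/H13/S1.lean

-- ===== PACK-BEGIN A2/Mod/H216/Bridge.lean
section





/-!
# A2 / GOODRED (helper216): the BRIDGE between the `E`-level objects of `A2/Mod/Spec.lean`
and the concrete objects of row S18 (`S18/Mod/Defs.lean`)

`F_{M,E} = FE E M ⊆ E((t))` (A2 language)  versus  `Fc M E ⊆ Ω = Om M ⊆ Q̄((t))` (S18 language).

* `bridge E M : FE E M →+* Om M` : coefficientwise embedding `E ⊆ Q̄`; injective, range `Fc M E`;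
* `bridge_algebraMap`, `bridge_cE`, `bridge_jE` : constants and generators;
* `bridge_mem_VcSet_iff`  : `H708.IsGaussInt (RE P E) _ f ↔ bridge f ∈ VcSet M P E`
                            (so `IsVinf V` means `f ∈ V ↔ bridge f ∈ VcSet`);
* `bridge_mem_chart_iff`  : `f ∈ Mod.chart P E M y ↔ bridge f ∈ S18.Alg.chart Fc R (bridge y)`.
-/

set_option autoImplicit false
set_option linter.unusedSectionVars false
set_option linter.style.haveILetI false
set_option synthInstance.maxHeartbeats 400000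
set_option maxHeartbeats 1600000

noncomputable section

namespace Fermat.Agent.A2.Mod.H216

open ModularCurve HahnSeries Polynomial

variable (P : ValuationSubring _root_.Fermat.Agent.A2.Mod.Qb) (E : IntermediateField ℚ _root_.Fermat.Agent.A2.Mod.Qb) (M : ℕ)

/-- The coefficientwise embedding `F_{M,E} → Ω = F_M`. -/
def bridge : _root_.Fermat.Agent.A2.Mod.FE E M →+* S18.Mod.Om M where
  toFun f := ⟨coeffMap (algebraMap E _root_.Fermat.Agent.A2.Mod.Qb) (f : LaurentSeries E),
    S18.H602.coeffMap_mem_laurentBaseChange _ _ f.2⟩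
  map_one' := Subtype.ext (by simp)
  map_mul' x y := Subtype.ext (by simp)
  map_zero' := Subtype.ext (by simp)
  map_add' x y := Subtype.ext (by simp)

variable {E M}

theorem coe_bridge (f : _root_.Fermat.Agent.A2.Mod.FE E M) :
    ((bridge E M f : S18.Mod.Om M) : LaurentSeries _root_.Fermat.Agent.A2.Mod.Qb) =
      coeffMap (algebraMap E _root_.Fermat.Agent.A2.Mod.Qb) (f : LaurentSeries E) := rfl

theorem bridge_injective : Function.Injective (bridge E M) := by
  intro x y h
  have h1 : coeffMap (algebraMap E _root_.Fermat.Agent.A2.Mod.Qb) (x : LaurentSeries E) =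
      coeffMap (algebraMap E _root_.Fermat.Agent.A2.Mod.Qb) (y : LaurentSeries E) := congrArg Subtype.val h
  exact Subtype.ext (S18.H602.coeffMap_injective _ (algebraMap E _root_.Fermat.Agent.A2.Mod.Qb).injective h1)

theorem bridge_mem_Fc (f : _root_.Fermat.Agent.A2.Mod.FE E M) : bridge E M f ∈ S18.Mod.Fc M E := by
  obtain ⟨g, hg, hgf⟩ := S18.H576.exists_mem_Fc_of_mem_FE (M := M) (E := E) f.2
  have : bridge E M f = g := Subtype.ext (by rw [coe_bridge, hgf])
  rw [this]
  exact hg

theorem exists_bridge_eq {g : S18.Mod.Om M} (hg : g ∈ S18.Mod.Fc M E) :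
    ∃ f : _root_.Fermat.Agent.A2.Mod.FE E M, bridge E M f = g := by
  obtain ⟨y, hy, hyg⟩ := S18.H576.descendsTo_of_mem_Fc hg
  exact ⟨⟨y, hy⟩, Subtype.ext hyg⟩

theorem bridge_algebraMap (e : E) :
    bridge E M (algebraMap E (_root_.Fermat.Agent.A2.Mod.FE E M) e) = algebraMap _root_.Fermat.Agent.A2.Mod.Qb (S18.Mod.Om M) (e : _root_.Fermat.Agent.A2.Mod.Qb) := by
  apply Subtype.ext
  rw [coe_bridge]
  exact S18.H602.coeffMap_algebraMap' (algebraMap E _root_.Fermat.Agent.A2.Mod.Qb) e

theorem bridge_cE (r : _root_.Fermat.Agent.A2.Mod.RE P E) :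
    bridge E M (cE P E M r) = S18.H576.iotaR M P E r :=
  bridge_algebraMap (r : E)

theorem bridge_cE_mem_Rc (r : _root_.Fermat.Agent.A2.Mod.RE P E) : bridge E M (cE P E M r) ∈ S18.Mod.Rc M P E := by
  rw [bridge_cE]
  exact S18.H576.mem_Rc_iff_exists_iotaR.2 ⟨r, rfl⟩

theorem bridge_jE (d : ℕ) [NeZero d] (hd : d ∣ M) :
    bridge E M (jE E M d hd) = S18.Mod.jd M d hd := by
  apply Subtype.ext
  rw [coe_bridge]
  exact S18.H602.coeffMap_coeffEmb' (algebraMap E _root_.Fermat.Agent.A2.Mod.Qb) _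

/-! ### The Gauss valuation ring -/

theorem bridge_mem_VcSet_iff (f : _root_.Fermat.Agent.A2.Mod.FE E M) :
    bridge E M f ∈ S18.Mod.VcSet M P E ↔
      H708.IsGaussInt (_root_.Fermat.Agent.A2.Mod.RE P E) (modularFunctionFieldFull M) (f : LaurentSeries E) := by
  constructor
  · intro hf
    obtain ⟨V₁, V₂, h2, h⟩ := S18.H576.exists_rep_of_mem_VcSet hf
    refine ⟨V₁.1, V₂.1, h2, V₂.2, ?_⟩
    apply S18.H602.coeffMap_injective _ (algebraMap E _root_.Fermat.Agent.A2.Mod.Qb).injective
    have h' := congrArg Subtype.val h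
    rw [_root_.map_mul]
    exact h'
  · rintro ⟨U₁, U₂, h0, hm, he⟩
    have hm1 : coeffMap (_root_.Fermat.Agent.A2.Mod.RE P E).subtype U₁ ∈
        laurentBaseChange E (modularFunctionFieldFull M) := by
      have : H708.incl (_root_.Fermat.Agent.A2.Mod.RE P E) U₁ = (f : LaurentSeries E) * H708.incl (_root_.Fermat.Agent.A2.Mod.RE P E) U₂ := he.symm
      show H708.incl (_root_.Fermat.Agent.A2.Mod.RE P E) U₁ ∈ _
      rw [this]
      exact mul_mem f.2 hm
    refine S18.H576.mem_VcSet_of_rep (M := M) (A := P) (E := E) ⟨U₁, hm1⟩ ⟨U₂, hm⟩ h0 ?_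
    apply Subtype.ext
    show coeffMap (algebraMap E _root_.Fermat.Agent.A2.Mod.Qb) (f : LaurentSeries E) *
        coeffMap (algebraMap E _root_.Fermat.Agent.A2.Mod.Qb) (coeffMap (_root_.Fermat.Agent.A2.Mod.RE P E).subtype U₂) =
      coeffMap (algebraMap E _root_.Fermat.Agent.A2.Mod.Qb) (coeffMap (_root_.Fermat.Agent.A2.Mod.RE P E).subtype U₁)
    rw [← _root_.map_mul]
    exact congrArg _ he

theorem mem_iff_bridge_mem_VcSet {V : ValuationSubring (_root_.Fermat.Agent.A2.Mod.FE E M)} (hV : IsVinf P E M V)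
    (f : _root_.Fermat.Agent.A2.Mod.FE E M) : f ∈ V ↔ bridge E M f ∈ S18.Mod.VcSet M P E := by
  rw [bridge_mem_VcSet_iff]
  exact hV f

theorem mem_iff_bridge_mem_Vc {V : ValuationSubring (_root_.Fermat.Agent.A2.Mod.FE E M)} (hV : IsVinf P E M V)
    (f : _root_.Fermat.Agent.A2.Mod.FE E M) : f ∈ V ↔ bridge E M f ∈ S18.Mod.H216.Vc M P E := by
  rw [mem_iff_bridge_mem_VcSet P hV]
  rw [← S18.Mod.H216.coe_Vc M P E]
  rfl

/-! ### The charts -/

section Chart

variable (y : _root_.Fermat.Agent.A2.Mod.FE E M)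

/-- The structure map `R_E → F_{M,E}`. -/
abbrev c0 (P : ValuationSubring _root_.Fermat.Agent.A2.Mod.Qb) (E : IntermediateField ℚ _root_.Fermat.Agent.A2.Mod.Qb) (M : ℕ) : _root_.Fermat.Agent.A2.Mod.RE P E →+* _root_.Fermat.Agent.A2.Mod.FE E M :=
  (algebraMap E (_root_.Fermat.Agent.A2.Mod.FE E M)).comp (_root_.Fermat.Agent.A2.Mod.RE P E).subtype

/-- `R_E → R = Rc M P E`. -/
def toRc (P : ValuationSubring _root_.Fermat.Agent.A2.Mod.Qb) (E : IntermediateField ℚ _root_.Fermat.Agent.A2.Mod.Qb) (M : ℕ) :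
    _root_.Fermat.Agent.A2.Mod.RE P E →+* ↥(S18.Mod.Rc M P E) :=
  ((bridge E M).comp (c0 P E M)).codRestrict (S18.Mod.Rc M P E) (fun r => bridge_cE_mem_Rc P r)

theorem coe_toRc (r : _root_.Fermat.Agent.A2.Mod.RE P E) :
    ((toRc P E M r : ↥(S18.Mod.Rc M P E)) : S18.Mod.Om M) = bridge E M (c0 P E M r) := rfl

theorem toRc_surjective : Function.Surjective (toRc P E M) := by
  rintro ⟨u, hu⟩
  obtain ⟨r, hr⟩ := S18.H576.mem_Rc_iff_exists_iotaR.1 hu
  have hr' : bridge E M (cE P E M (show _root_.Fermat.Agent.A2.Mod.RE P E from r)) = u := by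
    rw [bridge_cE]
    exact hr
  exact ⟨(show _root_.Fermat.Agent.A2.Mod.RE P E from r), Subtype.ext hr'⟩

/-- `bridge (a(y)) = (ρ a)(bridge y)` for `a ∈ R_E[X]`. -/
theorem bridge_eval₂ (a : Polynomial (_root_.Fermat.Agent.A2.Mod.RE P E)) :
    bridge E M (a.eval₂ (c0 P E M) y) =
      S18.Mod.H216.evR (S18.Mod.Rc M P E) (bridge E M y) (a.map (toRc P E M)) := by
  rw [S18.Mod.H216.evR_apply, Polynomial.eval₂_map, Polynomial.hom_eval₂]
  rfl

theorem bridge_eval₂_mem_polyRing (a : Polynomial (_root_.Fermat.Agent.A2.Mod.RE P E)) :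
    bridge E M (a.eval₂ (c0 P E M) y) ∈
      S18.Alg.polyRing (S18.Mod.Rc M P E) (bridge E M y) := by
  rw [bridge_eval₂, S18.Mod.H216.mem_polyRing_iff]
  exact ⟨_, rfl⟩

/-- `R_E[X] → R[bridge y]`, `X ↦ bridge y`. -/
def toPolyRing : Polynomial (_root_.Fermat.Agent.A2.Mod.RE P E) →+*
    ↥(S18.Alg.polyRing (S18.Mod.Rc M P E) (bridge E M y)) :=
  ((bridge E M).comp (Polynomial.eval₂RingHom (c0 P E M) y)).codRestrict _
    (fun a => bridge_eval₂_mem_polyRing P y a)

theorem coe_toPolyRing (a : Polynomial (_root_.Fermat.Agent.A2.Mod.RE P E)) :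
    ((toPolyRing P y a : ↥(S18.Alg.polyRing (S18.Mod.Rc M P E) (bridge E M y))) :
      S18.Mod.Om M) = bridge E M (a.eval₂ (c0 P E M) y) := rfl

theorem toPolyRing_surjective : Function.Surjective (toPolyRing P y) := by
  rintro ⟨u, hu⟩
  obtain ⟨p, hp⟩ := (S18.Mod.H216.mem_polyRing_iff _ _).1 hu
  obtain ⟨a, ha⟩ := Polynomial.map_surjective (toRc P E M) (toRc_surjective P) p
  refine ⟨a, Subtype.ext ?_⟩
  rw [coe_toPolyRing, bridge_eval₂, ha, hp]

theorem subtype_comp_toPolyRing :
    (S18.Alg.polyRing (S18.Mod.Rc M P E) (bridge E M y)).subtype.comp (toPolyRing P y) =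
      (bridge E M).comp (Polynomial.eval₂RingHom (c0 P E M) y) :=
  RingHom.ext fun _ => rfl

/-- **The charts correspond.** -/
theorem bridge_mem_chart_iff (f : _root_.Fermat.Agent.A2.Mod.FE E M) :
    f ∈ chart P E M y ↔
      bridge E M f ∈ S18.Alg.chart (S18.Mod.Fc M E) (S18.Mod.Rc M P E) (bridge E M y) := by
  constructor
  · rintro ⟨p, hpm, hp⟩
    refine ⟨bridge_mem_Fc f, p.map (toPolyRing P y), hpm.map _, ?_⟩
    rw [Polynomial.eval₂_map]
    have h1 : (algebraMap ↥(S18.Alg.polyRing (S18.Mod.Rc M P E) (bridge E M y))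
        (S18.Mod.Om M)).comp (toPolyRing P y) =
        (bridge E M).comp (Polynomial.eval₂RingHom (c0 P E M) y) :=
      subtype_comp_toPolyRing P y
    rw [h1, ← Polynomial.hom_eval₂]
    have hp' : p.eval₂ (Polynomial.eval₂RingHom (c0 P E M) y) f = 0 := hp
    rw [hp', _root_.map_zero]
  · rintro ⟨-, p, hpm, hp⟩
    have hl : p ∈ Polynomial.lifts (toPolyRing P y) := by
      rw [Polynomial.lifts_iff_coeff_lifts]
      intro i
      exact toPolyRing_surjective P y _
    obtain ⟨q, hq, -, hqm⟩ := Polynomial.lifts_and_natDegree_eq_and_monic hl hpm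
    refine ⟨q, hqm, ?_⟩
    apply bridge_injective
    rw [_root_.map_zero, Polynomial.hom_eval₂]
    have h1 : (algebraMap ↥(S18.Alg.polyRing (S18.Mod.Rc M P E) (bridge E M y))
        (S18.Mod.Om M)).comp (toPolyRing P y) =
        (bridge E M).comp (Polynomial.eval₂RingHom (c0 P E M) y) :=
      subtype_comp_toPolyRing P y
    rw [← h1, ← Polynomial.eval₂_map, hq]
    exact hp

end Chart

end Fermat.Agent.A2.Mod.H216

end
end
-- ===== PACK-END A2/Mod/H216/Bridge.lean

-- ===== PACK-BEGIN A2/Alg/H34/StepI.lean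
section




/-!
# WALL A2 / ALG — leaf A1 = Step I (helper34)

`stepI` : for every `f ≠ 0`, `τ f / f` has constant unit residues on both components of the
chart (`IsSplit`).  Statement VERBATIM that of `Fermat/Agent/A2/Alg/Skel.lean`.

`constAt_tau_div` is the ring-theoretic core (one component, any noetherian chart with
fraction field `F`).
-/

set_option autoImplicit false
set_option linter.unusedSectionVars false
set_option linter.style.haveILetI false

namespace Fermat.Agent.A2.Alg.H34

open Fermat.Agent.A2 Fermat.Agent.A2.Alg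

section Core

variable {R F : Type*} [CommRing R] [Field F] [Algebra R F]

/-- every `f ≠ 0` is `w ^ (k₁ - k₂) * A / D` with `A, D ∈ B ∖ p`. -/
theorem exists_decomp (w : R) (B : Subalgebra R F) [IsNoetherianRing B] [IsFractionRing B F]
    (p q : Ideal B) (hp : p.IsPrime) (hpq : p ⊓ q = Ideal.span {algebraMap R B w})
    (hqp : ¬ q ≤ p) (f : F) (hf : f ≠ 0) :
    ∃ (k₁ k₂ : ℕ) (A D : B), A ∉ p ∧ D ∉ p ∧
      f * (algebraMap R F w ^ k₂ * (D : F)) = algebraMap R F w ^ k₁ * (A : F) := by
  haveI := hp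
  have hwp : algebraMap R B w ∈ p := by
    have : algebraMap R B w ∈ p ⊓ q := by
      rw [hpq]
      exact Ideal.mem_span_singleton_self _
    exact this.1
  obtain ⟨s, hsq, hsp⟩ := SetLike.not_le_iff_exists.1 hqp
  have hloc : ∀ a ∈ p, ∃ s, s ∉ p ∧ ∃ a', a * s = algebraMap R B w * a' := by
    intro a ha
    have h1 : a * s ∈ p ⊓ q := ⟨p.mul_mem_right _ ha, q.mul_mem_left _ hsq⟩
    rw [hpq, Ideal.mem_span_singleton'] at h1
    obtain ⟨a', ha'⟩ := h1
    exact ⟨s, hsp, a', by rw [← ha', mul_comm]⟩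
  obtain ⟨a₀, b₀, hb₀, hab⟩ := IsFractionRing.div_surjective (A := B) f
  have hb₀' : b₀ ≠ 0 := nonZeroDivisors.ne_zero hb₀
  have hb₀F : (b₀ : F) ≠ 0 := fun h => hb₀' (Subtype.ext h)
  have hfb : f * (b₀ : F) = (a₀ : F) := by
    have : (a₀ : F) / (b₀ : F) = f := hab
    rw [← this]
    field_simp
  have ha₀ : a₀ ≠ 0 := by
    rintro rfl
    have : f * (b₀ : F) = 0 := by rw [hfb]; rfl
    rcases mul_eq_zero.1 this with h | h
    · exact hf h
    · exact hb₀F h
  obtain ⟨k₁, a₁, t₁, ha₁, ht₁, h₁⟩ := exists_pow_mul_eq p (algebraMap R B w) hwp hloc a₀ ha₀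
  obtain ⟨k₂, a₂, t₂, ha₂, ht₂, h₂⟩ := exists_pow_mul_eq p (algebraMap R B w) hwp hloc b₀ hb₀'
  refine ⟨k₁, k₂, t₂ * a₁, a₂ * t₁, ?_, ?_, ?_⟩
  · intro h
    rcases hp.mem_or_mem h with h | h
    · exact ht₂ h
    · exact ha₁ h
  · intro h
    rcases hp.mem_or_mem h with h | h
    · exact ha₂ h
    · exact ht₁ h
  · have e₁ : (t₁ : F) * (a₀ : F) = algebraMap R F w ^ k₁ * (a₁ : F) := by
      have := congrArg (fun b : B => (b : F)) h₁
      simpa using this
    have e₂ : (t₂ : F) * (b₀ : F) = algebraMap R F w ^ k₂ * (a₂ : F) := by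
      have := congrArg (fun b : B => (b : F)) h₂
      simpa using this
    push_cast
    calc f * (algebraMap R F w ^ k₂ * ((a₂ : F) * (t₁ : F)))
        = f * ((algebraMap R F w ^ k₂ * (a₂ : F)) * (t₁ : F)) := by ring
      _ = f * (((t₂ : F) * (b₀ : F)) * (t₁ : F)) := by rw [e₂]
      _ = (t₂ : F) * ((t₁ : F) * (f * (b₀ : F))) := by ring
      _ = (t₂ : F) * ((t₁ : F) * (a₀ : F)) := by rw [hfb]
      _ = (t₂ : F) * (algebraMap R F w ^ k₁ * (a₁ : F)) := by rw [e₁]
      _ = algebraMap R F w ^ k₁ * ((t₂ : F) * (a₁ : F)) := by ring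

/-- **Step I, one component.** -/
theorem constAt_tau_div (w : R) (B : Subalgebra R F) [IsNoetherianRing B] [IsFractionRing B F]
    (p q : Ideal B) (hp : p.IsPrime) (hpq : p ⊓ q = Ideal.span {algebraMap R B w})
    (hqp : ¬ q ≤ p) (hw0 : algebraMap R F w ≠ 0)
    (τ : F ≃+* F) (hτB : ∀ b ∈ B, ∃ c ∈ B, τ b - b = algebraMap R F w * c)
    (ξ ξ' : R) (hξ : ξ * ξ' = 1) (hτw : τ (algebraMap R F w) = algebraMap R F (ξ * w))
    (f : F) (hf : f ≠ 0) : ConstAt B p (τ f * f⁻¹) := by
  have hwp : algebraMap R B w ∈ p := by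
    have : algebraMap R B w ∈ p ⊓ q := by
      rw [hpq]
      exact Ideal.mem_span_singleton_self _
    exact this.1
  obtain ⟨k₁, k₂, A, D, hA, hD, h⟩ := exists_decomp w B p q hp hpq hqp f hf
  obtain ⟨A', cA, hA', hcA⟩ := exists_tau_eq w B τ hτB A
  obtain ⟨D', cD, hD', hcD⟩ := exists_tau_eq w B τ hτB D
  have hD'p : D' ∉ p := by
    intro h'
    apply hD
    have h1 : D = D' - algebraMap R B w * cD := by rw [← hcD]; ring
    rw [h1]
    exact p.sub_mem h' (p.mul_mem_right _ hwp)
  have hA0 : (A : F) ≠ 0 := fun h' => hA (by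
    have : A = 0 := Subtype.ext h'
    rw [this]; exact p.zero_mem)
  have hD0 : (D : F) ≠ 0 := fun h' => hD (by
    have : D = 0 := Subtype.ext h'
    rw [this]; exact p.zero_mem)
  have hD'0 : (D' : F) ≠ 0 := by
    rw [hD']
    exact (map_ne_zero τ).2 hD0
  -- the constant
  refine ⟨ξ ^ k₁ * ξ' ^ k₂, ?_, algebraMap R B (ξ ^ k₁ * ξ' ^ k₂) * (A' * D), D' * A, ?_, ?_, ?_⟩
  · have h1 : IsUnit ξ := IsUnit.of_mul_eq_one ξ' hξ
    have h2 : IsUnit ξ' := IsUnit.of_mul_eq_one ξ (by rw [mul_comm]; exact hξ)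
    exact (h1.pow _).mul (h2.pow _)
  · intro h'
    rcases hp.mem_or_mem h' with h' | h'
    · exact hD'p h'
    · exact hA h'
  · have h1 : algebraMap R B (ξ ^ k₁ * ξ' ^ k₂) * (A' * D) -
        algebraMap R B (ξ ^ k₁ * ξ' ^ k₂) * (D' * A) =
        algebraMap R B w * (algebraMap R B (ξ ^ k₁ * ξ' ^ k₂) * (cA * D - cD * A)) := by
      have e1 : A' = A + algebraMap R B w * cA := by rw [← hcA]; ring
      have e2 : D' = D + algebraMap R B w * cD := by rw [← hcD]; ring
      rw [e1, e2]
      ring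
    rw [h1]
    exact p.mul_mem_right _ hwp
  · -- the identity in `F`
    set W : F := algebraMap R F w with hW
    set X : F := algebraMap R F ξ with hX
    set X' : F := algebraMap R F ξ' with hX'
    have hXX' : X * X' = 1 := by
      rw [hX, hX', ← map_mul, hξ, map_one]
    have hτW : τ W = X * W := by
      rw [hW, hτw, map_mul]
    have h2 : τ f * ((X * W) ^ k₂ * (D' : F)) = (X * W) ^ k₁ * (A' : F) := by
      have := congrArg τ h
      rw [map_mul, map_mul, map_mul, map_pow, map_pow, hτW] at this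
      rw [hD', hA']
      exact this
    have hX0 : X ≠ 0 := left_ne_zero_of_mul_eq_one hXX'
    have hfac : X ^ k₂ * W ^ k₂ * W ^ k₁ * f ≠ 0 :=
      mul_ne_zero (mul_ne_zero (mul_ne_zero (pow_ne_zero _ hX0) (pow_ne_zero _ hw0))
        (pow_ne_zero _ hw0)) hf
    have hpow : X ^ k₂ * X' ^ k₂ = 1 := by rw [← mul_pow, hXX', one_pow]
    apply mul_right_cancel₀ hfac
    have hff : f⁻¹ * f = 1 := inv_mul_cancel₀ hf
    push_cast
    rw [← hX, ← hX']
    have e1 : τ f * f⁻¹ * ((D' : F) * (A : F)) * (X ^ k₂ * W ^ k₂ * W ^ k₁ * f) =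
        (τ f * ((X * W) ^ k₂ * (D' : F))) * ((A : F) * W ^ k₁) * (f⁻¹ * f) := by
      rw [mul_pow]; ring
    have e2 : X ^ k₁ * X' ^ k₂ * ((A' : F) * (D : F)) * (X ^ k₂ * W ^ k₂ * W ^ k₁ * f) =
        (X ^ k₂ * X' ^ k₂) * (X ^ k₁ * W ^ k₁ * (A' : F)) * (f * (W ^ k₂ * (D : F))) := by
      ring
    rw [e1, e2, h2, h, hff, hpow, mul_pow]
    ring

end Core

section Main

variable {R E F : Type*} [CommRing R] [IsDomain R] [IsDiscreteValuationRing R]
  [HenselianLocalRing R] [IsAlgClosed (IsLocalRing.ResidueField R)]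
  [Field E] [CharZero E] [Algebra R E] [IsFractionRing R E]
  [Field F] [Algebra E F] [Algebra R F] [IsScalarTower R E F]

/-- `τ w = ξ w` with `ξ` a unit of `R`. -/
theorem exists_tau_unif (w : R) (hw : Irreducible w) (B : Subalgebra R F)
    (τ : F ≃+* F) (τE : E ≃+* E) (τR : R ≃+* R) (hτ : TauCtx w B τ τE τR) :
    ∃ ξ ξ' : R, ξ * ξ' = 1 ∧ τ (algebraMap R F w) = algebraMap R F (ξ * w) := by
  have h1 : τ (algebraMap R F w) = algebraMap R F (τR w) := by
    rw [IsScalarTower.algebraMap_apply R E F, hτ.hτE, hτ.hτR, ← IsScalarTower.algebraMap_apply]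
  have h2 : Irreducible (τR w) := (MulEquiv.irreducible_iff τR).2 hw
  obtain ⟨v, hv⟩ := IsDiscreteValuationRing.associated_of_irreducible R hw h2
  refine ⟨v, ↑v⁻¹, Units.mul_inv v, ?_⟩
  rw [h1, ← hv, mul_comm]

/-- **A1 (Step I).**  `B_{p_i}` is a DVR with uniformiser `w`; write `f = w ^ k · a / b`,
`a, b ∈ B ∖ p_i`; `τ w / w ∈ Rˣ` and `τ a · b - a · τ b ∈ w B`. -/
theorem stepI (w : R) (x : F) (B : Subalgebra R F) (hB : ChartCtx E w x B)
    (c : SSChart w B) (hc : Incomparable c)
    (τ : F ≃+* F) (τE : E ≃+* E) (τR : R ≃+* R) (hτ : TauCtx w B τ τE τR)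
    (f : F) (hf : f ≠ 0) : IsSplit B c (τ f * f⁻¹) := by
  obtain ⟨hN, -, hFr⟩ := chart_instances' w x B hB
  haveI := hN
  haveI := hFr
  have hw0 : algebraMap R F w ≠ 0 := by
    intro h
    exact hB.hw.ne_zero (algebraMap_RF_injective E (by rw [h, map_zero]))
  obtain ⟨ξ, ξ', hξ, hτw⟩ := exists_tau_unif w hB.hw B τ τE τR hτ
  refine ⟨constAt_tau_div w B c.p₁ c.p₂ c.prime₁ c.inf_eq hc.2 hw0 τ hτ.hτB ξ ξ' hξ hτw f hf,
    constAt_tau_div w B c.p₂ c.p₁ c.prime₂ (by rw [inf_comm]; exact c.inf_eq) hc.1 hw0 τ hτ.hτB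
      ξ ξ' hξ hτw f hf⟩

end Main

end Fermat.Agent.A2.Alg.H34

end
-- ===== PACK-END A2/Alg/H34/StepI.lean

-- ===== PACK-BEGIN A2/Alg/H729/CompVal.lean
section


/-!
# WALL A2 / ALG (helper729): the local ring of a component as a valuation subring

`B ⊆ F` a noetherian chart with fraction field `F`, `p, q` ideals with `p` prime,
`p ⊓ q = (w)`, `¬ q ≤ p`, `w ≠ 0`.  Then `B_p ⊆ F` is a valuation subring (`compVal`) with
uniformiser `w`:

* `algebraMap_mem_compVal`  : `R ⊆ B_p`;
* `inv_not_mem_compVal`     : `w⁻¹ ∉ B_p`;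
* `mul_inv_mem_compVal`     : every non-unit of `B_p` is divisible by `w`;
* `exists_pow_mul_mem_compVal` : `F = B_p[1/w]`;
* `exists_mem_compVal_of_oneAt` : `OneAt B p u → u = 1 + w t`, `t ∈ B_p`.
-/

set_option autoImplicit false
set_option linter.unusedSectionVars false
set_option linter.style.haveILetI false

namespace Fermat.Agent.A2.Alg.H729

open Fermat.Agent.A2 Fermat.Agent.A2.Alg

variable {R F : Type*} [CommRing R] [Field F] [Algebra R F]

theorem one_not_mem_of_prime {B : Type*} [CommRing B] {p : Ideal B} (hp : p.IsPrime) :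
    (1 : B) ∉ p := fun h => hp.ne_top ((Ideal.eq_top_iff_one p).2 h)

theorem coe_ne_zero_of_not_mem {B : Subalgebra R F} {p : Ideal B} {b : B} (hb : b ∉ p) :
    (b : F) ≠ 0 := by
  intro h
  apply hb
  have : b = 0 := Subtype.ext h
  rw [this]
  exact p.zero_mem

/-- A normal form: `z * D = w ^ k * A` or `z⁻¹ * A = w ^ k * D`, `A, D ∉ p`. -/
theorem exists_normal_form (w : R) (B : Subalgebra R F) [IsNoetherianRing B]
    [IsFractionRing B F] (p q : Ideal B) (hp : p.IsPrime)
    (hpq : p ⊓ q = Ideal.span {algebraMap R B w}) (hqp : ¬ q ≤ p)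
    (hw0 : algebraMap R F w ≠ 0) (z : F) (hz : z ≠ 0) :
    ∃ (k : ℕ) (A D : B), A ∉ p ∧ D ∉ p ∧
      (z * (D : F) = algebraMap R F w ^ k * (A : F) ∨
        (0 < k ∧ z⁻¹ * (A : F) = algebraMap R F w ^ k * (D : F))) := by
  obtain ⟨k₁, k₂, A, D, hA, hD, e⟩ := H34.exists_decomp w B p q hp hpq hqp z hz
  have hA0 := coe_ne_zero_of_not_mem hA
  have hD0 := coe_ne_zero_of_not_mem hD
  rcases le_or_gt k₂ k₁ with h | h
  · refine ⟨k₁ - k₂, A, D, hA, hD, Or.inl ?_⟩
    have h1 : algebraMap R F w ^ k₁ = algebraMap R F w ^ k₂ * algebraMap R F w ^ (k₁ - k₂) := by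
      rw [← pow_add]; congr 1; omega
    rw [h1] at e
    have h2 : algebraMap R F w ^ k₂ * (z * (D : F)) =
        algebraMap R F w ^ k₂ * (algebraMap R F w ^ (k₁ - k₂) * (A : F)) := by
      rw [← mul_assoc _ _ (A : F), ← e]; ring
    exact mul_left_cancel₀ (pow_ne_zero _ hw0) h2
  · refine ⟨k₂ - k₁, A, D, hA, hD, Or.inr ⟨by omega, ?_⟩⟩
    have h1 : algebraMap R F w ^ k₂ = algebraMap R F w ^ k₁ * algebraMap R F w ^ (k₂ - k₁) := by
      rw [← pow_add]; congr 1; omega
    rw [h1] at e
    have h2 : z * (algebraMap R F w ^ (k₂ - k₁) * (D : F)) = (A : F) := by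
      have h3 : algebraMap R F w ^ k₁ * (z * (algebraMap R F w ^ (k₂ - k₁) * (D : F))) =
          algebraMap R F w ^ k₁ * (A : F) := by
        rw [← e]; ring
      exact mul_left_cancel₀ (pow_ne_zero _ hw0) h3
    rw [← h2]
    field_simp

/-- The local ring `B_p ⊆ F` of a component of the special fibre, as a valuation subring. -/
noncomputable def compVal (w : R) (B : Subalgebra R F) [IsNoetherianRing B]
    [IsFractionRing B F] (p q : Ideal B) (hp : p.IsPrime)
    (hpq : p ⊓ q = Ideal.span {algebraMap R B w}) (hqp : ¬ q ≤ p)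
    (hw0 : algebraMap R F w ≠ 0) : ValuationSubring F where
  carrier := {z | ∃ a b : B, b ∉ p ∧ z * (b : F) = (a : F)}
  mul_mem' := by
    rintro y z ⟨a, b, hb, e⟩ ⟨a', b', hb', e'⟩
    refine ⟨a * a', b * b', fun h => ?_, ?_⟩
    · rcases hp.mem_or_mem h with h | h
      · exact hb h
      · exact hb' h
    · push_cast
      rw [← e, ← e']
      ring
  one_mem' := ⟨1, 1, one_not_mem_of_prime hp, by simp⟩
  add_mem' := by
    rintro y z ⟨a, b, hb, e⟩ ⟨a', b', hb', e'⟩
    refine ⟨a * b' + a' * b, b * b', fun h => ?_, ?_⟩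
    · rcases hp.mem_or_mem h with h | h
      · exact hb h
      · exact hb' h
    · push_cast
      rw [← e, ← e']
      ring
  zero_mem' := ⟨0, 1, one_not_mem_of_prime hp, by simp⟩
  neg_mem' := by
    rintro y ⟨a, b, hb, e⟩
    refine ⟨-a, b, hb, ?_⟩
    push_cast
    rw [← e]
    ring
  mem_or_inv_mem' := by
    intro z
    by_cases hz : z = 0
    · left
      subst hz
      exact ⟨0, 1, one_not_mem_of_prime hp, by simp⟩
    obtain ⟨k, A, D, hA, hD, e | ⟨-, e⟩⟩ := exists_normal_form w B p q hp hpq hqp hw0 z hz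
    · left
      exact ⟨algebraMap R B w ^ k * A, D, hD, by rw [e]; rfl⟩
    · right
      exact ⟨algebraMap R B w ^ k * D, A, hA, by rw [e]; rfl⟩

section Props

variable (w : R) (B : Subalgebra R F) [IsNoetherianRing B] [IsFractionRing B F]
  (p q : Ideal B) (hp : p.IsPrime) (hpq : p ⊓ q = Ideal.span {algebraMap R B w})
  (hqp : ¬ q ≤ p) (hw0 : algebraMap R F w ≠ 0)

theorem mem_compVal {z : F} :
    z ∈ compVal w B p q hp hpq hqp hw0 ↔ ∃ a b : B, b ∉ p ∧ z * (b : F) = (a : F) := Iff.rfl

theorem algebraMap_mem_compVal (r : R) : algebraMap R F r ∈ compVal w B p q hp hpq hqp hw0 :=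
  ⟨algebraMap R B r, 1, one_not_mem_of_prime hp, by
    rw [OneMemClass.coe_one, mul_one]; rfl⟩

omit [IsNoetherianRing B] [IsFractionRing B F] in
include hpq in
theorem algebraMap_mem_p : algebraMap R B w ∈ p := by
  have : algebraMap R B w ∈ p ⊓ q := by
    rw [hpq]; exact Ideal.mem_span_singleton_self _
  exact this.1

theorem inv_not_mem_compVal : (algebraMap R F w)⁻¹ ∉ compVal w B p q hp hpq hqp hw0 := by
  rintro ⟨a, b, hb, e⟩
  apply hb
  have h1 : (b : F) = algebraMap R F w * (a : F) := by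
    rw [← e]; field_simp
  have h2 : b = algebraMap R B w * a := Subtype.ext h1
  rw [h2]
  exact p.mul_mem_right _ (algebraMap_mem_p w B p q hpq)

theorem mul_inv_mem_compVal (a : F) (ha : a ∈ compVal w B p q hp hpq hqp hw0)
    (hinv : a⁻¹ ∉ compVal w B p q hp hpq hqp hw0) :
    a * (algebraMap R F w)⁻¹ ∈ compVal w B p q hp hpq hqp hw0 := by
  by_cases hz : a = 0
  · subst hz
    rw [zero_mul]
    exact (compVal w B p q hp hpq hqp hw0).zero_mem
  obtain ⟨k, A, D, hA, hD, e | ⟨-, e⟩⟩ := exists_normal_form w B p q hp hpq hqp hw0 a hz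
  · rcases Nat.eq_zero_or_pos k with hk | hk
    · exfalso
      apply hinv
      subst hk
      rw [pow_zero, one_mul] at e
      refine ⟨D, A, hA, ?_⟩
      rw [← e]
      field_simp
    · refine ⟨algebraMap R B w ^ (k - 1) * A, D, hD, ?_⟩
      have h1 : algebraMap R F w ^ k = algebraMap R F w * algebraMap R F w ^ (k - 1) := by
        rw [← pow_succ']; congr 1; omega
      have h2 : ((algebraMap R B w ^ (k - 1) * A : B) : F) =
          algebraMap R F w ^ (k - 1) * (A : F) := rfl
      rw [h2]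
      have h3 : a * (algebraMap R F w)⁻¹ * (D : F) = (a * (D : F)) * (algebraMap R F w)⁻¹ := by
        ring
      rw [h3, e, h1]
      field_simp
  · exfalso
    apply hinv
    exact ⟨algebraMap R B w ^ k * D, A, hA, by rw [e]; rfl⟩

theorem exists_pow_mul_mem_compVal (c : F) :
    ∃ k : ℕ, algebraMap R F w ^ k * c ∈ compVal w B p q hp hpq hqp hw0 := by
  by_cases hz : c = 0
  · subst hz
    exact ⟨0, by rw [mul_zero]; exact (compVal w B p q hp hpq hqp hw0).zero_mem⟩
  obtain ⟨k, A, D, hA, hD, e | ⟨-, e⟩⟩ := exists_normal_form w B p q hp hpq hqp hw0 c hz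
  · exact ⟨0, by
      rw [pow_zero, one_mul]
      exact ⟨algebraMap R B w ^ k * A, D, hD, by rw [e]; rfl⟩⟩
  · refine ⟨k, A, D, hD, ?_⟩
    have hA0 := coe_ne_zero_of_not_mem hA
    have h1 : (A : F) = c * (algebraMap R F w ^ k * (D : F)) := by
      rw [← e]; field_simp
    rw [h1]
    ring

theorem exists_mem_compVal_of_oneAt {u : F} (hu : OneAt B p u) :
    ∃ t ∈ compVal w B p q hp hpq hqp hw0, u = 1 + algebraMap R F w * t := by
  obtain ⟨a, b, hb, hab, e⟩ := hu
  obtain ⟨s, hsq, hsp⟩ := SetLike.not_le_iff_exists.1 hqp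
  have h1 : (a - b) * s ∈ p ⊓ q := ⟨p.mul_mem_right _ hab, q.mul_mem_left _ hsq⟩
  rw [hpq, Ideal.mem_span_singleton'] at h1
  obtain ⟨a', ha'⟩ := h1
  have hbs : b * s ∉ p := fun h => by
    rcases hp.mem_or_mem h with h | h
    · exact hb h
    · exact hsp h
  have hb0 := coe_ne_zero_of_not_mem hb
  have hs0 := coe_ne_zero_of_not_mem hsp
  have ha'F : (a' : F) * algebraMap R F w = ((a : F) - (b : F)) * (s : F) :=
    congrArg (fun t : B => (t : F)) ha'
  refine ⟨(a' : F) * ((b : F) * (s : F))⁻¹, ⟨a', b * s, hbs, ?_⟩, ?_⟩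
  · push_cast
    field_simp
  · have h2 : u = (a : F) * (b : F)⁻¹ := by
      rw [← e]; field_simp
    rw [h2]
    have h3 : algebraMap R F w * ((a' : F) * ((b : F) * (s : F))⁻¹) =
        ((a' : F) * algebraMap R F w) * ((b : F) * (s : F))⁻¹ := by ring
    rw [h3, ha'F]
    field_simp
    ring

end Props

end Fermat.Agent.A2.Alg.H729

end
-- ===== PACK-END A2/Alg/H729/CompVal.lean

-- ===== PACK-BEGIN S55/Bridge/H594/Comap.lean
section


/-!
# S55 bridge (helper594), piece B14 in `ValuationSubring.comap` form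

For a finite (or just normal) intermediate field `F` of `ℚ̄/ℚ` and a valuation subring `A` of `ℚ̄`
over a prime number `q`, with `A ∩ F := A.comap (algebraMap F ℚ̄)`:

* `map_decompositionSubgroup_eq_comap`: the image of `D_A` in `Gal(F/ℚ)` is `D_{A ∩ F}`;
* `map_inertiaSubgroupIn_eq_comap`: the image of `I_A` in `Gal(F/ℚ)` is `I_{A ∩ F}`.

The first part of the file gives elementwise membership criteria for the decomposition and
inertia groups of a valuation subring of an arbitrary field extension.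
-/

set_option autoImplicit false
set_option linter.style.haveILetI false
set_option linter.unusedSectionVars false

namespace Fermat.Agent.S55.Bridge.H594

open Fermat.Agent.S54 Fermat.Agent.S55.Bridge
open scoped Pointwise

section general

variable {K L : Type*} [Field K] [Field L] [Algebra K L] (A : ValuationSubring L)

/-- Membership in the decomposition group, elementwise (general fields). -/
theorem mem_decompositionSubgroup_iff_forall (σ : L ≃ₐ[K] L) :
    σ ∈ A.decompositionSubgroup K ↔ ∀ x, σ x ∈ A ↔ x ∈ A := by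
  rw [MulAction.mem_stabilizer_iff]
  constructor
  · intro h x
    have hinv : σ⁻¹ • A = A := by
      conv_lhs => rw [← h]
      rw [inv_smul_smul]
    have h1 := ValuationSubring.mem_pointwise_smul_iff_inv_smul_mem (S := A)
      (g := σ⁻¹) (x := x)
    rw [hinv, inv_inv] at h1
    rw [h1]
    rfl
  · intro h
    apply SetLike.ext
    intro x
    rw [ValuationSubring.mem_pointwise_smul_iff_inv_smul_mem]
    have h2 := h (σ⁻¹ • x)
    rw [AlgEquiv.smul_def] at h2 ⊢
    rw [← h2]
    have : σ (σ⁻¹ x) = x := by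
      show (σ * σ⁻¹) x = x
      rw [mul_inv_cancel]
      rfl
    rw [this]

/-- Membership in the inertia group, elementwise (general fields). -/
theorem mem_inertiaSubgroupIn_iff_forall (σ : L ≃ₐ[K] L) :
    σ ∈ A.inertiaSubgroupIn K ↔
      σ ∈ A.decompositionSubgroup K ∧ ∀ z ∈ A, σ z - z ∈ A.nonunits := by
  constructor
  · rintro ⟨g, hg, rfl⟩
    refine ⟨g.2, fun z hzA => ?_⟩
    have h1 : MulSemiringAction.toRingAut (A.decompositionSubgroup K)
        (IsLocalRing.ResidueField A) g = 1 := hg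
    have h2 : g • (IsLocalRing.residue A ⟨z, hzA⟩) = IsLocalRing.residue A ⟨z, hzA⟩ := by
      have := congrArg (fun f => f (IsLocalRing.residue A ⟨z, hzA⟩)) h1
      simpa using this
    rw [← IsLocalRing.ResidueField.residue_smul] at h2
    have h3 : (g • (⟨z, hzA⟩ : A)) - ⟨z, hzA⟩ ∈ IsLocalRing.maximalIdeal A := by
      rw [← Ideal.Quotient.eq]
      exact h2
    rw [ValuationSubring.valuation_lt_one_iff] at h3
    rw [ValuationSubring.mem_nonunits_iff]
    exact h3
  · rintro ⟨hD, h⟩
    refine ⟨⟨σ, hD⟩, ?_, rfl⟩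
    show (⟨σ, hD⟩ : A.decompositionSubgroup K) ∈ MonoidHom.ker
      (MulSemiringAction.toRingAut (A.decompositionSubgroup K) (IsLocalRing.ResidueField A))
    rw [MonoidHom.mem_ker]
    apply RingEquiv.ext
    intro y
    obtain ⟨x, rfl⟩ := IsLocalRing.residue_surjective y
    show (⟨σ, hD⟩ : A.decompositionSubgroup K) • (IsLocalRing.residue A x)
      = IsLocalRing.residue A x
    rw [← IsLocalRing.ResidueField.residue_smul]
    rw [← sub_eq_zero, ← map_sub, IsLocalRing.residue_eq_zero_iff]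
    have h3 := h x.1 x.2
    rw [ValuationSubring.mem_nonunits_iff] at h3
    rw [ValuationSubring.valuation_lt_one_iff]
    exact h3

/-- Non-units of a `comap`. -/
theorem mem_nonunits_comap_iff {M : Type*} [Field M] (f : M →+* L) (x : M) :
    x ∈ (A.comap f).nonunits ↔ f x ∈ A.nonunits := by
  rw [ValuationSubring.mem_nonunits_iff_or, ValuationSubring.mem_nonunits_iff_or,
    ValuationSubring.mem_comap, map_inv₀, map_eq_zero_iff f f.injective]

end general

section comap

attribute [local instance] isAlgebraic_Qbar isGalois_Qbar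

variable (F : IntermediateField ℚ (AlgebraicClosure ℚ)) [Normal ℚ F]
variable (A : ValuationSubring (AlgebraicClosure ℚ))

/-- **B14 (decomposition groups).** -/
theorem map_decompositionSubgroup_eq_comap {q : ℕ} (hq : q.Prime) (hA : A.LiesOverPrime q) :
    (A.decompositionSubgroup ℚ).map (AlgEquiv.restrictNormalHom F) =
      (A.comap (algebraMap F (AlgebraicClosure ℚ))).decompositionSubgroup ℚ := by
  apply le_antisymm
  · rintro _ ⟨σ, hσ, rfl⟩
    rw [mem_decompositionSubgroup_iff_forall]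
    intro x
    rw [ValuationSubring.mem_comap, ValuationSubring.mem_comap]
    have := (mem_decompositionSubgroup_iff_forall A σ).mp hσ (x : AlgebraicClosure ℚ)
    have h2 : algebraMap F (AlgebraicClosure ℚ) (AlgEquiv.restrictNormalHom F σ x) =
        σ (x : AlgebraicClosure ℚ) := restrictNormalHom_apply F σ x
    rw [h2]
    exact this
  · intro τ hτ
    have hτ' := (mem_decompositionSubgroup_iff_forall _ τ).mp hτ
    obtain ⟨σ, hσ, hστ⟩ := exists_decomposition_lift F A hq hA τ (fun x _ => by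
      have h1 := mem_nonunits_comap_iff A (algebraMap F (AlgebraicClosure ℚ)) (τ x)
      have h2 := mem_nonunits_comap_iff A (algebraMap F (AlgebraicClosure ℚ)) x
      rw [show ((τ x : F) : AlgebraicClosure ℚ) = algebraMap F (AlgebraicClosure ℚ) (τ x) from rfl,
        show ((x : F) : AlgebraicClosure ℚ) = algebraMap F (AlgebraicClosure ℚ) x from rfl,
        ← h1, ← h2, ValuationSubring.mem_nonunits_iff_or, ValuationSubring.mem_nonunits_iff_or,
        ← map_inv₀, hτ', map_eq_zero_iff τ τ.injective])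
    exact ⟨σ, hσ, hστ⟩

/-- **B14 (inertia groups).** -/
theorem map_inertiaSubgroupIn_eq_comap {q : ℕ} (hq : q.Prime) (hA : A.LiesOverPrime q) :
    (A.inertiaSubgroupIn ℚ).map (AlgEquiv.restrictNormalHom F) =
      (A.comap (algebraMap F (AlgebraicClosure ℚ))).inertiaSubgroupIn ℚ := by
  apply le_antisymm
  · rintro _ ⟨σ, hσ, rfl⟩
    obtain ⟨hD, hI⟩ := (mem_inertiaSubgroupIn_iff_forall A σ).mp hσ
    rw [mem_inertiaSubgroupIn_iff_forall]
    refine ⟨?_, fun z hz => ?_⟩
    · rw [← map_decompositionSubgroup_eq_comap F A hq hA]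
      exact ⟨σ, hD, rfl⟩
    · rw [mem_nonunits_comap_iff, map_sub]
      rw [ValuationSubring.mem_comap] at hz
      have := hI _ hz
      rw [show algebraMap F (AlgebraicClosure ℚ) (AlgEquiv.restrictNormalHom F σ z) =
        σ (algebraMap F (AlgebraicClosure ℚ) z) from restrictNormalHom_apply F σ z]
      exact this
  · intro τ hτ
    obtain ⟨-, hI⟩ := (mem_inertiaSubgroupIn_iff_forall _ τ).mp hτ
    obtain ⟨σ, hσ, hστ⟩ := exists_inertia_lift F A hq hA τ (fun x hx => by
      have hxA : x ∈ A.comap (algebraMap F (AlgebraicClosure ℚ)) := by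
        rw [ValuationSubring.mem_comap]
        exact isIntegral_mem_valuationSubring A
          (hx.map (IsScalarTower.toAlgHom ℤ F (AlgebraicClosure ℚ)))
      have h1 := hI x hxA
      rw [mem_nonunits_comap_iff, map_sub] at h1
      exact h1)
    exact ⟨σ, hσ, hστ⟩

end comap

end Fermat.Agent.S55.Bridge.H594

end
-- ===== PACK-END S55/Bridge/H594/Comap.lean

-- ===== PACK-BEGIN A2/IF/H429/Inertia.lean
section





/-!
# A2 / IF (helper429): the inertia group of a valuation subring of `ℚ̄` and its fixed field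

`P` a valuation subring of `ℚ̄` over a prime number `q`, `I = P.inertiaSubgroupIn ℚ`,
`E_I = ℚ̄^I` the inertia field.

* `valuation_map_eq`          : elements of the decomposition group preserve the valuation of `P`;
* `exists_inertia_apply_eq`   : an automorphism fixing `E_I` pointwise agrees, on each element of
                                `ℚ̄`, with some element of `I`;
* `exists_zpow_of_mem_inertiaField` : every nonzero element of `E_I` is a unit times a power of
                                `q` (the inertia field is unramified).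
-/

set_option autoImplicit false
set_option linter.style.haveILetI false
set_option linter.unusedSectionVars false

open scoped Pointwise
open NumberField IsDedekindDomain

namespace Fermat.Agent.A2.IF.H429

open Fermat.Agent.S55.Bridge Fermat.Agent.S55.Bridge.H594

attribute [local instance] isAlgebraic_Qbar isGalois_Qbar

/-- `ℚ̄` (local abbreviation). -/
local notation "Qb" => AlgebraicClosure ℚ

variable (P : ValuationSubring Qb)

/-! ## Decomposition and inertia elements -/

theorem mem_of_mem_decomp {σ : Qb ≃ₐ[ℚ] Qb} (hσ : σ ∈ P.decompositionSubgroup ℚ) {x : Qb}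
    (hx : x ∈ P) : σ x ∈ P :=
  ((mem_decompositionSubgroup_iff_forall P σ).mp hσ x).mpr hx

theorem mem_nonunits_of_mem_decomp {σ : Qb ≃ₐ[ℚ] Qb} (hσ : σ ∈ P.decompositionSubgroup ℚ)
    {x : Qb} (hx : x ∈ P.nonunits) : σ x ∈ P.nonunits := by
  rw [ValuationSubring.mem_nonunits_iff_or] at hx ⊢
  rcases hx with rfl | hx
  · left; simp
  · right
    intro h
    apply hx
    rw [← map_inv₀] at h
    exact ((mem_decompositionSubgroup_iff_forall P σ).mp hσ _).mp h

theorem decomp_of_inertia {σ : Qb ≃ₐ[ℚ] Qb} (hσ : σ ∈ P.inertiaSubgroupIn ℚ) :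
    σ ∈ P.decompositionSubgroup ℚ :=
  ((mem_inertiaSubgroupIn_iff_forall P σ).mp hσ).1

theorem sub_mem_nonunits_of_inertia {σ : Qb ≃ₐ[ℚ] Qb} (hσ : σ ∈ P.inertiaSubgroupIn ℚ)
    {x : Qb} (hx : x ∈ P) : σ x - x ∈ P.nonunits :=
  ((mem_inertiaSubgroupIn_iff_forall P σ).mp hσ).2 x hx

/-- Elements of the decomposition group are strictly monotone for the valuation. -/
theorem valuation_map_lt {σ : Qb ≃ₐ[ℚ] Qb} (hσ : σ ∈ P.decompositionSubgroup ℚ) {a b : Qb}
    (h : P.valuation a < P.valuation b) : P.valuation (σ a) < P.valuation (σ b) := by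
  have hb : b ≠ 0 := by
    rintro rfl
    simp at h
  have hbv : P.valuation b ≠ 0 := (Valuation.ne_zero_iff _).mpr hb
  have hσb : σ b ≠ 0 := by simpa using hb
  have hσbv : P.valuation (σ b) ≠ 0 := (Valuation.ne_zero_iff _).mpr hσb
  have h1 : a / b ∈ P.nonunits := by
    rw [ValuationSubring.mem_nonunits_iff, map_div₀]
    exact (div_lt_one₀ (zero_lt_iff.mpr hbv)).mpr h
  have h2 := mem_nonunits_of_mem_decomp P hσ h1
  rw [ValuationSubring.mem_nonunits_iff, map_div₀, map_div₀] at h2
  exact (div_lt_one₀ (zero_lt_iff.mpr hσbv)).mp h2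

theorem valuation_iterate_lt {σ : Qb ≃ₐ[ℚ] Qb} (hσ : σ ∈ P.decompositionSubgroup ℚ) {x : Qb}
    (h : P.valuation (σ x) < P.valuation x) (k : ℕ) :
    P.valuation ((σ ^ (k + 1)) x) < P.valuation x := by
  induction k with
  | zero => simpa using h
  | succ k ih =>
    have h1 := valuation_map_lt P hσ ih
    have h2 : (σ ^ (k + 1 + 1)) x = σ ((σ ^ (k + 1)) x) := by
      rw [pow_succ' σ (k + 1)]; rfl
    rw [h2]
    exact h1.trans h

theorem valuation_iterate_gt {σ : Qb ≃ₐ[ℚ] Qb} (hσ : σ ∈ P.decompositionSubgroup ℚ) {x : Qb}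
    (h : P.valuation x < P.valuation (σ x)) (k : ℕ) :
    P.valuation x < P.valuation ((σ ^ (k + 1)) x) := by
  induction k with
  | zero => simpa using h
  | succ k ih =>
    have h1 := valuation_map_lt P hσ ih
    have h2 : (σ ^ (k + 1 + 1)) x = σ ((σ ^ (k + 1)) x) := by
      rw [pow_succ' σ (k + 1)]; rfl
    rw [h2]
    exact h.trans h1

/-- Every element of `ℚ̄` is fixed by a positive power of any automorphism. -/
theorem exists_pow_apply_eq (σ : Qb ≃ₐ[ℚ] Qb) (x : Qb) : ∃ k : ℕ, (σ ^ (k + 1)) x = x := by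
  have hx : IsIntegral ℚ x := Algebra.IsIntegral.isIntegral x
  have hfin : ((minpoly ℚ x).rootSet Qb).Finite := Polynomial.rootSet_finite _ _
  have hmem : ∀ i : ℕ, (σ ^ i) x ∈ (minpoly ℚ x).rootSet Qb := by
    intro i
    rw [Polynomial.mem_rootSet]
    refine ⟨minpoly.ne_zero hx, ?_⟩
    have := Polynomial.aeval_algHom_apply ((σ ^ i : Qb ≃ₐ[ℚ] Qb) : Qb →ₐ[ℚ] Qb) x (minpoly ℚ x)
    rw [minpoly.aeval, map_zero] at this
    exact this
  haveI : Finite ((minpoly ℚ x).rootSet Qb) := hfin
  obtain ⟨i, j, hij, h⟩ := Finite.exists_ne_map_eq_of_infinite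
    (fun i : ℕ => (⟨(σ ^ i) x, hmem i⟩ : (minpoly ℚ x).rootSet Qb))
  have h' : (σ ^ i) x = (σ ^ j) x := congrArg Subtype.val h
  wlog hlt : i < j generalizing i j
  · exact this j i hij.symm h.symm h'.symm (lt_of_le_of_ne (not_lt.mp hlt) hij.symm)
  obtain ⟨k, rfl⟩ : ∃ k, j = i + (k + 1) := ⟨j - i - 1, by omega⟩
  refine ⟨k, ?_⟩
  have h3 : (σ ^ (i + (k + 1))) x = (σ ^ i) ((σ ^ (k + 1)) x) := by
    rw [pow_add]; rfl
  rw [h3] at h'
  exact ((σ ^ i).injective h').symm

/-- Elements of the decomposition group preserve the valuation. -/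
theorem valuation_map_eq {σ : Qb ≃ₐ[ℚ] Qb} (hσ : σ ∈ P.decompositionSubgroup ℚ) (x : Qb) :
    P.valuation (σ x) = P.valuation x := by
  obtain ⟨k, hk⟩ := exists_pow_apply_eq σ x
  rcases lt_trichotomy (P.valuation (σ x)) (P.valuation x) with h | h | h
  · have := valuation_iterate_lt P hσ h k
    rw [hk] at this
    exact absurd this (lt_irrefl _)
  · exact h
  · have := valuation_iterate_gt P hσ h k
    rw [hk] at this
    exact absurd this (lt_irrefl _)

/-- Every finite set of algebraic numbers lies in a finite Galois extension of `ℚ` in `ℚ̄`. -/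
theorem exists_finite_galois (S : Finset Qb) :
    ∃ M : IntermediateField ℚ Qb, (∀ s ∈ S, s ∈ M) ∧ FiniteDimensional ℚ M ∧ IsGalois ℚ M := by
  let M₀ : IntermediateField ℚ Qb := IntermediateField.adjoin ℚ (S : Set Qb)
  haveI : FiniteDimensional ℚ M₀ :=
    IntermediateField.finiteDimensional_adjoin (fun x _ => Algebra.IsIntegral.isIntegral x)
  let M : IntermediateField ℚ Qb := IntermediateField.normalClosure ℚ M₀ Qb
  refine ⟨M, fun s hs => ?_, inferInstance, ?_⟩
  · have h1 : M₀ ≤ M := IntermediateField.le_normalClosure M₀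
    exact h1 (IntermediateField.subset_adjoin ℚ _ hs)
  · haveI : Normal ℚ Qb := IsGalois.to_normal
    haveI : Normal ℚ M := normalClosure.normal ℚ M₀ Qb
    exact ⟨⟩

/-- The inertia field of `P`. -/
noncomputable def inertiaField : IntermediateField ℚ Qb :=
  IntermediateField.fixedField (P.inertiaSubgroupIn ℚ)

theorem mem_inertiaField_iff {x : Qb} :
    x ∈ inertiaField P ↔ ∀ τ ∈ P.inertiaSubgroupIn ℚ, τ x = x := by
  unfold inertiaField
  rw [IntermediateField.mem_fixedField_iff]

/-- **Lemma A.**  An automorphism fixing the inertia field pointwise agrees, on each element,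
with some element of the inertia group. -/
theorem exists_inertia_apply_eq (σ : Qb ≃ₐ[ℚ] Qb) (hσ : ∀ e ∈ inertiaField P, σ e = e)
    (x : Qb) : ∃ τ ∈ P.inertiaSubgroupIn ℚ, σ x = τ x := by
  obtain ⟨M, hxM, hfin, hgal⟩ := exists_finite_galois {x}
  have hx : x ∈ M := hxM x (Finset.mem_singleton_self x)
  let H : Subgroup (M ≃ₐ[ℚ] M) := (P.inertiaSubgroupIn ℚ).map (AlgEquiv.restrictNormalHom M)
  have hmem : AlgEquiv.restrictNormalHom M σ ∈ H := by
    rw [← IntermediateField.fixingSubgroup_fixedField H]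
    rw [IntermediateField.mem_fixingSubgroup_iff]
    intro y hy
    apply Subtype.ext
    rw [restrictNormalHom_apply]
    apply hσ
    rw [mem_inertiaField_iff]
    intro τ hτ
    rw [IntermediateField.mem_fixedField_iff] at hy
    have h1 := hy (AlgEquiv.restrictNormalHom M τ) ⟨τ, hτ, rfl⟩
    rw [← restrictNormalHom_apply M τ y, h1]
  obtain ⟨τ, hτ, hτσ⟩ := hmem
  refine ⟨τ, hτ, ?_⟩
  have h1 := restrictNormalHom_apply M σ ⟨x, hx⟩
  have h2 := restrictNormalHom_apply M τ ⟨x, hx⟩
  rw [← hτσ] at h1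
  exact h1.symm.trans h2


/-- **The inertia field is unramified**: every nonzero element of the inertia field is a unit of
`P` times a power of `q`. -/
theorem exists_zpow_of_mem_inertiaField (q : ℕ) (hq : q.Prime) (hP : P.LiesOverPrime q)
    (y : Qb) (hy : y ∈ inertiaField P) (hy0 : y ≠ 0) :
    ∃ k : ℤ, P.valuation (y / (q : Qb) ^ k) = 1 := by
  obtain ⟨M, hyM, hfin, hgal⟩ := exists_finite_galois {y}
  have hyM' : y ∈ M := hyM y (Finset.mem_singleton_self y)
  haveI : NumberField M := numberField_of_finite M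
  have hne : Fermat.Agent.S14.H937.primeOf M P ≠ ⊥ :=
    Fermat.Agent.S14.H937.primeOf_ne_bot M P q hq hP
  let w : HeightOneSpectrum (𝓞 M) := ⟨Fermat.Agent.S14.H937.primeOf M P, inferInstance, hne⟩
  have hw : w.asIdeal = Fermat.Agent.S14.H937.primeOf M P := rfl
  have hqw : (q : 𝓞 M) ∈ w.asIdeal := Fermat.Agent.S14.H937.natCast_mem_primeOf M P q hP
  have hfix : ∀ τ ∈ w.asIdeal.inertia Gal(M/ℚ), τ (⟨y, hyM'⟩ : M) = ⟨y, hyM'⟩ := by
    intro τ hτ
    obtain ⟨σ, hσ, hστ⟩ := exists_inertia_lift M P hq hP τ (fun x hx => by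
      obtain ⟨x', rfl⟩ : ∃ x' : 𝓞 M, algebraMap (𝓞 M) M x' = x := ⟨⟨x, hx⟩, rfl⟩
      have h2 : τ • x' - x' ∈ Fermat.Agent.S14.H937.primeOf M P := hτ x'
      exact (Fermat.Agent.S14.H937.mem_primeOf M P _).mp h2)
    apply Subtype.ext
    rw [← hστ, restrictNormalHom_apply]
    exact (mem_inertiaField_iff P).mp hy σ hσ
  obtain ⟨k, hk⟩ := exists_zpow_valuation_eq_one_of_fixed M w q hq hqw ⟨y, hyM'⟩
    (fun h => hy0 (congrArg Subtype.val h)) hfix
  refine ⟨k, ?_⟩
  have h1 := Fermat.Agent.S14.H937.valuation_eq_one_of M P w hw _ hk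
  rw [map_div₀, map_zpow₀, map_natCast] at h1
  exact h1


end Fermat.Agent.A2.IF.H429

end
-- ===== PACK-END A2/IF/H429/Inertia.lean

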