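import Fermat.Prelude.Def_AlgebraicCurve_Correspondence
import Mathlib
import Fermat.Agent.Pack.S33.E15L3
import Fermat.Agent.Pack.S33.E15L1
import Fermat.Agent.Pack.S33.E15L0
import Fermat.Agent.Pack.S33.E15L2
import Fermat.Agent.Pack.S33.E5L0
import Fermat.Agent.Pack.S33.E4L1
import Fermat.Agent.Pack.S33.E7L3
import Fermat.Agent.Pack.S33.E12L0
import Fermat.Agent.Pack.S33.E10L0
import Fermat.Agent.Pack.S33.E14L0
import Fermat.Agent.Pack.S33.E12L3
import Fermat.Agent.Pack.S33.E2L2
import Fermat.Agent.Pack.S33.E10L1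
import Fermat.Agent.Pack.S33.E14L1
import Fermat.Agent.Pack.S33.E11L0
import Fermat.Agent.Pack.S33.E11L1
import Fermat.Agent.Pack.S33.E3L2
import Fermat.Agent.Pack.S33.E6L0
import Fermat.Agent.Pack.S33.E6L3
import Fermat.Agent.Pack.S33.E5L1

-- ===== PACK-BEGIN Lib/FF398/Global.lean
section




/-!
# Lib/FF398 — global consequences for function fields over an algebraically closed field

* `hasPrincipalDivisors` : a function field of one variable over an algebraically closed field
  of characteristic zero has principal divisors (finite support, degree zero)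
  [repackaging of helper804's `S24.FF.degree_principal`];
* `sumRamificationInertia`, `fundamentalIdentity` : `∑_{w | v} e(w|v) f(w|v) = [F' : F]`;
* `pushforwardNormFormula` : `N_* div(g) = div(N g)`.
(helper398)
-/

set_option autoImplicit false
set_option linter.unusedSectionVars false

open AlgebraicCurve IsDedekindDomain IntermediateField

namespace Fermat.Agent.Lib.FF398

section HPD

variable {K F : Type*} [Field K] [Field F] [Algebra K F] [IsAlgClosed K] [CharZero K]

/-- A function field of one variable over an algebraically closed field of characteristic zero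
has principal divisors. -/
theorem hasPrincipalDivisors (j : F) (hj : Transcendental K j) [FiniteDimensional K⟮j⟯ F] :
    HasPrincipalDivisors K F where
  exists_divisor f hf := by
    by_cases hfr : f ∈ (algebraMap K F).range
    · obtain ⟨a, rfl⟩ := hfr
      refine ⟨0, fun v => ?_, map_zero _⟩
      rw [Fermat.Agent.S24.FF.ord_algebraMap]
      rfl
    · have hft : Transcendental K f := Fermat.Agent.S24.FF.transcendental_of_not_mem_range hfr
      have hfin : FiniteDimensional K⟮f⟯ F :=
        Fermat.Agent.S24.FF.finiteDimensional_adjoin_of_transcendental hj hft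
      have hfinite : {v : Place K F | v.ord f ≠ 0}.Finite :=
        Fermat.Agent.S24.FF.finite_setOf_ord_ne_zero hft
      let D : Divisor K F := Finsupp.ofSupportFinite (fun v => v.ord f) hfinite
      have hD : ∀ v : Place K F, D v = v.ord f := fun v => rfl
      exact ⟨D, hD, Fermat.Agent.S24.FF.degree_principal j hj f D hD⟩

end HPD

section Relative

variable {K F F' : Type*} [Field K] [Field F] [Field F'] [Algebra K F] [Algebra K F']
  [Algebra F F'] [IsScalarTower K F F'] [FiniteDimensional F F'] [CharZero F]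
  [HasPrincipalDivisors K F']

/-- **Fundamental identity** `∑_{w | v} e(w|v) f(w|v) = [F' : F]` when all places of `F'` have
degree one. -/
theorem sumRamificationInertia (hdeg' : ∀ w : Place K F', w.deg = 1) :
    SumRamificationInertia K F F' where
  sum_ramificationIndex_mul_inertiaDeg v := by
    rw [← sum_ramificationIndex v hdeg' (v.fiber F') (fun w => Place.mem_fiber)]
    refine Finset.sum_congr rfl fun w _ => ?_
    rw [inertiaDeg_eq_one hdeg' w]
    simp

theorem fundamentalIdentity (hdeg' : ∀ w : Place K F', w.deg = 1) :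
    FundamentalIdentity K F F' :=
  haveI := sumRamificationInertia (F := F) hdeg'
  inferInstance

/-- **Norm formula** `N_* div(g) = div(N_{F'/F} g)` when all places of `F'` have degree one. -/
theorem pushforwardNormFormula (hdeg' : ∀ w : Place K F', w.deg = 1) :
    Divisor.PushforwardNormFormula K F F' := by
  classical
  intro g hg D hD v
  rw [Divisor.pushforward_apply, ← sum_ord_eq_ord_norm v hdeg' (v.fiber F')
    (fun w => Place.mem_fiber) g hg]
  rw [← Finset.sum_filter]
  refine Finset.sum_subset_zero_on_sdiff ?_ ?_ ?_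
  · intro w hw
    rw [Finset.mem_filter] at hw
    exact Place.mem_fiber.mpr hw.2
  · intro w hw
    rw [Finset.mem_sdiff, Finset.mem_filter, Place.mem_fiber] at hw
    have hnot : w ∉ D.support := fun h => hw.2 ⟨h, hw.1⟩
    rw [Finsupp.notMem_support_iff, hD] at hnot
    exact hnot
  · intro w hw
    rw [hD, inertiaDeg_eq_one hdeg' w]
    simp

end Relative

end Fermat.Agent.Lib.FF398

end
-- ===== PACK-END Lib/FF398/Global.lean

-- ===== PACK-BEGIN S28/H568/DeltaSeries.lean
section


/-!
# S28 / H568 — the formal discriminant over `ℤ` and `ℂ`, and its expansions along `τ ↦ (aτ+b)/d`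
-/

set_option autoImplicit false

noncomputable section

open HahnSeries ModularCurve UpperHalfPlane Complex Matrix
open scoped Real MatrixGroups

namespace Fermat.Agent.S28.H568

open Fermat.Agent.S24

/-! ### the integral series -/

/-- The formal discriminant `Δ = q ∏ (1 - qⁿ)²⁴` over `ℤ`. -/
def deltaZ : LaurentSeries ℤ :=
  HahnSeries.single (1 : ℤ) (1 : ℤ) * HahnSeries.ofPowerSeries ℤ ℤ dedekindEtaUnit

/-- The formal inverse of `Δ` over `ℤ`. -/
def deltaInvZ : LaurentSeries ℤ :=
  HahnSeries.single (-1 : ℤ) (1 : ℤ) * HahnSeries.ofPowerSeries ℤ ℤ dedekindEtaUnitInv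

theorem deltaZ_mul_deltaInvZ : deltaZ * deltaInvZ = 1 := by
  rw [deltaZ, deltaInvZ]
  have h1 : HahnSeries.single (1 : ℤ) (1 : ℤ) * HahnSeries.single (-1 : ℤ) (1 : ℤ) = 1 := by
    rw [HahnSeries.single_mul_single]
    simp
  have h2 : HahnSeries.ofPowerSeries ℤ ℤ dedekindEtaUnit *
      HahnSeries.ofPowerSeries ℤ ℤ dedekindEtaUnitInv = 1 := by
    rw [← _root_.map_mul, dedekindEtaUnit_mul_inv, _root_.map_one]
  calc _ = (HahnSeries.single (1 : ℤ) (1 : ℤ) * HahnSeries.single (-1 : ℤ) (1 : ℤ)) *
      (HahnSeries.ofPowerSeries ℤ ℤ dedekindEtaUnit *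
        HahnSeries.ofPowerSeries ℤ ℤ dedekindEtaUnitInv) := by ring
    _ = 1 := by rw [h1, h2, _root_.one_mul]

/-- `Δ` as a unit of `ℤ((q))`. -/
def deltaU : (LaurentSeries ℤ)ˣ :=
  ⟨deltaZ, deltaInvZ, deltaZ_mul_deltaInvZ, by rw [mul_comm]; exact deltaZ_mul_deltaInvZ⟩

@[simp] theorem deltaU_val : (deltaU : LaurentSeries ℤ) = deltaZ := rfl

/-- Coefficient extension `ℤ((q)) → ℂ((q))`. -/
abbrev castC : LaurentSeries ℤ →+* LaurentSeries ℂ := coeffMap (Int.castRingHom ℂ)

theorem castC_injective : Function.Injective castC :=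
  inf_coeffMap_injective (RingHom.injective_int (Int.castRingHom ℂ))

/-- The formal discriminant over `ℂ`. -/
abbrev dS : LaurentSeries ℂ := H565.deltaSeriesC

/-- The formal inverse discriminant over `ℂ`. -/
abbrev dInvS : LaurentSeries ℂ := H565.deltaInvSeriesC

theorem castC_deltaZ : castC deltaZ = dS := by
  rw [deltaZ, _root_.map_mul, coeffMap_single, coeffMap_ofPowerSeries, H565.map_dedekindEtaUnit]
  simp [H565.deltaSeriesC]

theorem castC_deltaInvZ : castC deltaInvZ = dInvS := by
  rw [deltaInvZ, _root_.map_mul, coeffMap_single, coeffMap_ofPowerSeries]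
  simp [H565.deltaInvSeriesC, H565.etaInvC]

theorem dS_mul_dInvS : dS * dInvS = 1 := H565.deltaSeriesC_mul_inv

theorem dS_ne_zero : dS ≠ 0 := left_ne_zero_of_mul_eq_one dS_mul_dInvS

theorem dInvS_ne_zero : dInvS ≠ 0 := right_ne_zero_of_mul_eq_one dS_mul_dInvS

theorem dInvS_eq_inv : dInvS = dS⁻¹ := eq_inv_of_mul_eq_one_right dS_mul_dInvS

theorem dS_coeff_one : dS.coeff 1 = 1 := by
  have h := inf_coeff_single_mul_ofPowerSeries (1 : ℤ) (H565.etaProdC ^ 24) 0
  simp only [Nat.cast_zero, zero_add] at h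
  rw [show dS = _root_.HahnSeries.single (1 : ℤ) (1 : ℂ) * ofPowerSeries ℤ ℂ (H565.etaProdC ^ 24) from rfl, h,
    ← H565.map_dedekindEtaUnit, PowerSeries.coeff_map, PowerSeries.coeff_zero_eq_constantCoeff,
    constantCoeff_dedekindEtaUnit]
  simp

theorem dS_coeff_of_lt {m : ℤ} (hm : m < 1) : dS.coeff m = 0 :=
  inf_coeff_single_mul_ofPowerSeries_of_lt (1 : ℤ) (H565.etaProdC ^ 24) hm

theorem dS_order : dS.order = 1 :=
  inf_order_eq_of_coeff (by rw [dS_coeff_one]; exact one_ne_zero) fun _ hm => dS_coeff_of_lt hm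

theorem dS_leadingCoeff : dS.leadingCoeff = 1 := by
  rw [leadingCoeff_eq, dS_order, dS_coeff_one]

theorem dInvS_order : dInvS.order = -1 := by
  rw [dInvS_eq_inv, order_inv' dS_ne_zero, dS_order]

theorem dInvS_leadingCoeff : dInvS.leadingCoeff = 1 := by
  rw [dInvS_eq_inv, leadingCoeff_inv', dS_leadingCoeff, inv_one]

theorem dS_mem_coeffSubring (C : Subring ℂ) : dS ∈ coeffSubring C := by
  rw [← castC_deltaZ]; exact coeffMap_int_mem_coeffSubring _

theorem dInvS_mem_coeffSubring (C : Subring ℂ) : dInvS ∈ coeffSubring C := by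
  rw [← castC_deltaInvZ]; exact coeffMap_int_mem_coeffSubring _

/-! ### analytic expansions -/

local notation "Δ" => ModularForm.discriminant

theorem infExp_of_hasTExp_one {f : ℍ → ℂ} {φ : LaurentSeries ℂ} (h : H565.HasTExp 1 f φ) :
    InfExp 1 f φ := by
  intro τ
  have := h τ
  simpa [infZ] using this

theorem infExp_delta : InfExp 1 Δ dS := infExp_of_hasTExp_one H565.hasTExp_discriminant

theorem infExp_delta_inv : InfExp 1 (fun τ => (Δ τ)⁻¹) dInvS :=
  infExp_of_hasTExp_one H565.hasTExp_discriminant_inv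

/-- Expansion of `Δ((aτ+b)/d)` in `z = exp(2πiτ/N)` when `e·d = a·N`. -/
theorem infExp_delta_aff {N a d e : ℕ} [NeZero e] (b : ℤ)
    (ha : 0 < a) (hd : 0 < d) (hN : 0 < N) (he : e * d = a * N) :
    InfExp N (fun τ => Δ (infAff a b d τ)) (qExpand ℂ e (infTwist (infRoot b d) dS)) := by
  have h := infExp_delta.comp_infAff (e := e) b ha hd one_pos hN (by rw [_root_.mul_one]; exact he)
  rw [_root_.mul_one] at h
  exact h

/-- Expansion of `Δ((aτ+b)/d)⁻¹` in `z = exp(2πiτ/N)` when `e·d = a·N`. -/
theorem infExp_delta_inv_aff {N a d e : ℕ} [NeZero e] (b : ℤ)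
    (ha : 0 < a) (hd : 0 < d) (hN : 0 < N) (he : e * d = a * N) :
    InfExp N (fun τ => (Δ (infAff a b d τ))⁻¹) (qExpand ℂ e (infTwist (infRoot b d) dInvS)) := by
  have h := infExp_delta_inv.comp_infAff (e := e) b ha hd one_pos hN (by rw [_root_.mul_one]; exact he)
  rw [_root_.mul_one] at h
  exact h

/-- Expansion of `Δ(τ)` in `z = exp(2πiτ/N)`. -/
theorem infExp_delta_N {N : ℕ} [NeZero N] : InfExp N Δ (qExpand ℂ N dS) := by
  have hN : 0 < N := Nat.pos_of_ne_zero (NeZero.ne N)
  have h := infExp_delta_aff (N := N) (e := N) 0 one_pos one_pos hN (by ring)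
  rw [infRoot_zero, infTwist_one] at h
  exact h.congr fun τ => by rw [infAff_one_zero_one]

/-- Expansion of `Δ(τ)⁻¹` in `z = exp(2πiτ/N)`. -/
theorem infExp_delta_inv_N {N : ℕ} [NeZero N] :
    InfExp N (fun τ => (Δ τ)⁻¹) (qExpand ℂ N dInvS) := by
  have hN : 0 < N := Nat.pos_of_ne_zero (NeZero.ne N)
  have h := infExp_delta_inv_aff (N := N) (e := N) 0 one_pos one_pos hN (by ring)
  rw [infRoot_zero, infTwist_one] at h
  exact h.congr fun τ => by rw [infAff_one_zero_one]

/-! ### transformation of `Δ` -/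

theorem discriminant_smul (γ : SL(2, ℤ)) (τ : ℍ) :
    Δ (γ • τ) = (((γ 1 0 : ℤ) : ℂ) * τ + ((γ 1 1 : ℤ) : ℂ)) ^ 12 * Δ τ := by
  have := SlashInvariantForm.slash_action_eqn' (Γ := 𝒮ℒ) CuspForm.discriminant
    (γ := (Matrix.SpecialLinearGroup.mapGL ℝ γ)) ⟨γ, rfl⟩ τ
  have h2 : (Matrix.SpecialLinearGroup.mapGL ℝ γ) • τ = γ • τ := rfl
  rw [h2] at this
  simpa using this

end Fermat.Agent.S28.H568

end
end
-- ===== PACK-END S28/H568/DeltaSeries.lean

-- ===== PACK-BEGIN S28/H867/Core.lean
section








set_option autoImplicit false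
noncomputable section
open ModularCurve HahnSeries IntermediateField Polynomial

namespace Fermat.Agent.S28.H867

section Psi

theorem gFun_eq_dedekindPsi : ∀ {N : ℕ}, N ≠ 0 → gFun N = dedekindPsi N := by
  intro N
  induction N using Nat.strong_induction_on with
  | _ N ih =>
    intro hN
    rcases Nat.lt_or_ge 1 N with hN1 | hN1
    swap
    · have : N = 1 := by omega
      subst this
      rw [gFun_one, dedekindPsi_one]
    have hpp : N.minFac.Prime := Nat.minFac_prime (by omega)
    have hpN : N.minFac ∣ N := Nat.minFac_dvd N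
    have hNe : N / N.minFac * N.minFac = N := Nat.div_mul_cancel hpN
    have hM0 : N / N.minFac ≠ 0 := fun h0 => hN (by rw [← hNe, h0, zero_mul])
    have hlt : N / N.minFac < N := Nat.div_lt_self (by omega) hpp.one_lt
    have ihM := ih _ hlt hM0
    by_cases hd : N.minFac ∣ N / N.minFac
    · calc gFun N = gFun (N / N.minFac * N.minFac) := by rw [hNe]
        _ = N.minFac * gFun (N / N.minFac) := gFun_mul_of_dvd hM0 hpp hd
        _ = N.minFac * dedekindPsi (N / N.minFac) := by rw [ihM]
        _ = dedekindPsi (N / N.minFac * N.minFac) := (H626.psi_mul_prime_of_dvd hM0 hpp hd).symm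
        _ = dedekindPsi N := by rw [hNe]
    · calc gFun N = gFun (N / N.minFac * N.minFac) := by rw [hNe]
        _ = (N.minFac + 1) * gFun (N / N.minFac) := gFun_mul_of_not_dvd hM0 hpp hd
        _ = (N.minFac + 1) * dedekindPsi (N / N.minFac) := by rw [ihM]
        _ = dedekindPsi (N / N.minFac * N.minFac) :=
            (H626.psi_mul_prime_of_not_dvd hM0 hpp hd).symm
        _ = dedekindPsi N := by rw [hNe]

end Psi

section Adapters

variable (k : Type*) [Field k]

/-- Leaf [L.I] from helper145's `eq_zero_of_sum_qExpand_mul_pow_eq_zero`. -/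
theorem leafI (p : ℕ) [NeZero p] : LeafI k p := by
  intro B hB
  rw [Fintype.linearIndependent_iff]
  intro g hg i
  have hc : ∀ i, ∃ c : LaurentSeries k, qExpand k p c = (g i : LaurentSeries k) := by
    intro i
    obtain ⟨c, hc⟩ := hB (g i).2
    exact ⟨c, hc⟩
  choose c hc using hc
  have h : ∑ i : Fin p, qExpand k p (c i) * (jqModC k) ^ (i : ℕ) = 0 := by
    rw [← hg]
    refine Finset.sum_congr rfl fun i _ => ?_
    rw [hc i]
    rfl
  have := H145.eq_zero_of_sum_qExpand_mul_pow_eq_zero p (jqModC k) (H145.jqModC_ne_zero' k)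
    (H145.isCoprime_order_jqModC k p) c h i
  apply Subtype.ext
  rw [← hc i, this, _root_.map_zero]
  rfl

/-- Leaf [L.B1] from helper88's `h88_jp_not_mem_jField`. -/
theorem leafB1 (p : ℕ) [NeZero p] (hp : p.Prime) (hpk : (p : k) ≠ 0) (W : UnitPolyData p)
    (hθ : (thetaL ℤ (jqModC ℤ)) ^ 6 = deltaL ℤ * (jqModC ℤ) ^ 4 * (jqModC ℤ - 1728) ^ 3) :
    LeafB1 k p :=
  h88_jp_not_mem_jField k p hpk hp.one_lt W hθ

/-- `ModPolyData` in helper626's hypothesis form. -/
theorem isModPoly_of_modPolyData {p : ℕ} [NeZero p] (D : ModPolyData p) :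
    H626.IsModPoly p D.Φ := by
  have hev : ∀ y x : LaurentSeries ℤ, H626.ev2 D.Φ y x = D.Φ.eval₂ (evalAt y) x := by
    intro y x
    unfold H626.ev2
    congr 1
    apply Polynomial.ringHom_ext
    · intro a; simp [evalAt]
    · simp [evalAt]
  refine ⟨D.monic, D.natDegree_eq, ?_, ?_⟩
  · rw [hev]; exact D.eval_jp
  · rw [hev]; exact D.eval_j

end Adapters

end Fermat.Agent.S28.H867

namespace Fermat.Agent.S28.H867

section Assembly

variable (k : Type*) [Field k]

theorem hasModPolys (N : ℕ)
    (hΦ : ∀ p : ℕ, p.Prime → p ∣ N → ∀ [NeZero p], Nonempty (ModPolyData p))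
    (hchar : ∀ p : ℕ, p.Prime → p ∣ N → (p : k) ≠ 0) : H626.HasModPolys k N := by
  intro p hp hpN
  have : NeZero p := ⟨hp.ne_zero⟩
  obtain ⟨D⟩ := hΦ p hp hpN
  exact ⟨hchar p hp hpN, D.Φ, isModPoly_of_modPolyData D⟩

/-- The upper bound in `relfinrank` form. -/
theorem degE_le_gFun (M : ℕ) (hM : M ≠ 0) (H : H626.HasModPolys k M) : degE k M ≤ gFun M := by
  have : NeZero M := ⟨hM⟩
  rw [gFun_eq_dedekindPsi hM, degE, relfinrank_eq_finrank_of_le (jField_le_EF k M)]
  exact H626.finrank_extendScalars_le M H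

theorem good_of_inputs (N : ℕ) (hN : N ≠ 0)
    (hΦ : ∀ p : ℕ, p.Prime → p ∣ N → ∀ [NeZero p], Nonempty (ModPolyData p))
    (hW : ∀ p : ℕ, p.Prime → p ∣ N → ∀ [NeZero p], Nonempty (UnitPolyData p))
    (hθ : (thetaL ℤ (jqModC ℤ)) ^ 6 = deltaL ℤ * (jqModC ℤ) ^ 4 * (jqModC ℤ - 1728) ^ 3)
    (hchar : ∀ p : ℕ, p.Prime → p ∣ N → (p : k) ≠ 0) : Good k N where
  ne_zero := hN
  modPoly := hΦ
  prime := by
    intro p hp hpN _
    obtain ⟨D⟩ := hΦ p hp hpN
    obtain ⟨W⟩ := hW p hp hpN
    exact primeLevel_of_leaves k hp D (leafI k p) (leafB1 k p hp (hchar p hp hpN) W hθ)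
  indep := fun p _ _ _ => leafI k p
  upper := by
    intro M hMN
    have hM : M ≠ 0 := fun h0 => hN (by rw [h0] at hMN; exact Nat.eq_zero_of_zero_dvd hMN)
    exact degE_le_gFun k M hM ((hasModPolys k N hΦ hchar).mono hMN)

variable {k} in
/-- Extraction of `ψ(N)` independent elements. -/
theorem Good.exists_linearIndependent {N : ℕ} (h : Good k N) :
    ∃ x : Fin (dedekindPsi N) → LaurentSeries k,
      (∀ i, x i ∈ modularFunctionFieldFullC k N) ∧ LinearIndependent (jField k) x := by
  have hdeg : degE k N = dedekindPsi N := by rw [h.degE_eq, gFun_eq_dedekindPsi h.ne_zero]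
  have hle := jField_le_EF k N
  rw [degE, relfinrank_eq_finrank_of_le hle] at hdeg
  obtain ⟨x, hx⟩ : ∃ x : Fin (dedekindPsi N) → extendScalars hle,
      LinearIndependent (jField k) x :=
    exists_linearIndependent_of_le_finrank hdeg.ge
  refine ⟨fun i => (x i : LaurentSeries k), fun i => (x i).2, ?_⟩
  have := hx.map' (extendScalars hle).val.toLinearMap
    (LinearMap.ker_eq_bot.mpr (extendScalars hle).val.injective)
  exact this

end Assembly

section Final

/-- **[L]** `CoreData` from the three analytic inputs. -/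
theorem coreData_of_inputs (N : ℕ) [NeZero N] (ℓ : ℕ) [Fact ℓ.Prime] (hℓN : ¬ ℓ ∣ N)
    (K : Type) [Field K] [CharP K ℓ]
    (hΦ : ∀ p : ℕ, p.Prime → p ∣ N → ∀ [NeZero p], Nonempty (ModPolyData p))
    (hW : ∀ p : ℕ, p.Prime → p ∣ N → ∀ [NeZero p], Nonempty (UnitPolyData p))
    (hθ : (thetaL ℤ (jqModC ℤ)) ^ 6 = deltaL ℤ * (jqModC ℤ) ^ 4 * (jqModC ℤ - 1728) ^ 3) :
    CoreData N K := by
  have hN : N ≠ 0 := NeZero.ne N
  have hcharK : ∀ p : ℕ, p.Prime → p ∣ N → (p : K) ≠ 0 := by
    intro p hp hpN h0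
    have hdvd : ℓ ∣ p := (CharP.cast_eq_zero_iff K ℓ p).mp h0
    have hℓ : ℓ.Prime := Fact.out
    have : ℓ = p := (Nat.prime_dvd_prime_iff_eq hℓ hp).mp hdvd
    exact hℓN (this ▸ hpN)
  have hcharQ : ∀ p : ℕ, p.Prime → p ∣ N → (p : ℚ) ≠ 0 := by
    intro p hp _
    exact_mod_cast hp.ne_zero
  have hgood : Good K N := good_of_inputs K N hN hΦ hW hθ hcharK
  refine H325.coreData_of_bounds N K (RingHom.id K) (dedekindPsi N)
    (coreData_integral N hΦ) ?_ hgood.exists_linearIndependent
  intro m x hx hli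
  have := H626.card_le_of_linearIndependent (k := ℚ) N (hasModPolys ℚ N hΦ hcharQ) x hx hli
  simpa using this

end Final

end Fermat.Agent.S28.H867

end
end
-- ===== PACK-END S28/H867/Core.lean

-- ===== PACK-BEGIN S18/Mod/H216/DenJ.lean
section


/-!
# S18 / MOD (helper216): `V_total`, denominators and integrality for the coordinate `j`

From the S28 basis (`SpansQ M y`, independence of the reductions over `κ(j̄)`, integrality of the
`j(q^d)` over `ℤ[j]`):

* `V_total_j`     : `Vc M A E` is a valuation ring of `Fc M E`;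
* `injective_evR_j` : `j` is transcendental over `Rc M A E`;
* `isIntegral_toOm_yInt` : the monomials are integral over `Rc[j]`;
* `denAt_j`       : the denominator statement `DenAt` on the chart `Rc[j]`.
-/

set_option autoImplicit false
set_option linter.unusedSectionVars false

noncomputable section

namespace Fermat.Agent.S18.Mod.H216

open ModularCurve AlgebraicCurve HahnSeries Polynomial Fermat.Agent.S18 Fermat.Agent.S18.Mod
open Fermat.Agent.S28 Fermat.Agent.S18.Alg

variable {M : ℕ} [NeZero M] (A : ValuationSubring Qb) (E : IntermediateField ℚ Qb)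
variable {n : ℕ} {y : Fin n → LaurentSeries ℤ}

theorem redE_sum_ne_zero (hS : H516.SpansQ M y)
    (hli : LinearIndependent (jField (IsLocalRing.ResidueField ↥A))
      (fun i => coeffMap (Int.castRingHom (IsLocalRing.ResidueField ↥A)) (y i)))
    {q : (↥(S0 A E))[X]} {p : Fin n → (↥(S0 A E))[X]}
    (hprim : q.map (resS A E) ≠ 0 ∨ ∃ i, (p i).map (resS A E) ≠ 0)
    (hq : q.map (resS A E) = 0) :
    redE M A E (∑ i, Uev M A E (p i) * yInt A E hS i) ≠ 0 := by
  intro h
  have h1 := redE_sum_eq_zero A E hS hli p h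
  rcases hprim with h2 | ⟨i, hi⟩
  · exact h2 hq
  · exact hi (h1 i)

/-- **`V_total`** for `x = j`. -/
theorem V_total_j (hS : H516.SpansQ M y)
    (hli : LinearIndependent (jField (IsLocalRing.ResidueField ↥A))
      (fun i => coeffMap (Int.castRingHom (IsLocalRing.ResidueField ↥A)) (y i))) :
    ∀ f ∈ Fc M E, f ∈ Vc M A E ∨ f⁻¹ ∈ Vc M A E := by
  intro f hf
  obtain ⟨q, p, hprim, hrel⟩ := exists_scaled_relation A E hS hf
  by_cases hq : q.map (resS A E) = 0
  · right
    have hN := redE_sum_ne_zero A E hS hli hprim hq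
    have hf0 : f ≠ 0 := by
      intro h0
      rw [h0, mul_zero] at hrel
      exact toOm_ne_zero_of_redE M A E hN hrel.symm
    refine (mem_Vc_iff' M A E).mpr
      ⟨Uev M A E q, ∑ i, Uev M A E (p i) * yInt A E hS i, hN, ?_⟩
    rw [← hrel, mul_comm (toOm M A E (Uev M A E q)), ← mul_assoc, inv_mul_cancel₀ hf0, one_mul]
  · left
    have hD : redE M A E (Uev M A E q) ≠ 0 := by rwa [Ne, redE_Uev_eq_zero_iff]
    refine (mem_Vc_iff' M A E).mpr
      ⟨∑ i, Uev M A E (p i) * yInt A E hS i, Uev M A E q, hD, ?_⟩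
    rw [mul_comm]
    exact hrel

/-- `j` is transcendental over `Rc`. -/
theorem injective_evR_j : Function.Injective (evR (Rc M A E) (jOm M)) := by
  rw [injective_iff_map_eq_zero]
  intro p hp
  rw [evR_eq_toOm_Uev] at hp
  have h1 := congrArg (fun z : Om M => (z : LaurentSeries Qb)) hp
  simp only [coe_toOm_Uev, ZeroMemClass.coe_zero] at h1
  have h2 := (H516.evJ_eq_zero_iff Qb).mp h1
  rw [Polynomial.map_map] at h2
  have hinj : Function.Injective
      (((S0 A E).subtype).comp ((eRc M A E).symm : ↥(Rc M A E) →+* ↥(S0 A E))) :=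
    (Subtype.val_injective).comp (eRc M A E).symm.injective
  exact Polynomial.map_injective _ hinj (by rw [h2, Polynomial.map_zero])

theorem toOm_Uev_mem_polyRing (p : (↥(S0 A E))[X]) :
    toOm M A E (Uev M A E p) ∈ polyRing (Rc M A E) (jOm M) := by
  rw [toOm_Uev]
  exact (mem_polyRing_iff _ _).mpr ⟨_, rfl⟩

theorem isIntegral_toOm_Uev (p : (↥(S0 A E))[X]) :
    IsIntegral (polyRing (Rc M A E) (jOm M)) (toOm M A E (Uev M A E p)) :=
  isIntegral_algebraMap (R := polyRing (Rc M A E) (jOm M)) (A := Om M)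
    (x := ⟨_, toOm_Uev_mem_polyRing A E p⟩)

/-- **Denominators** on the chart `Rc[j]`. -/
theorem denAt_j {w : Om M} (hR : PartR (Ec M E) (Rc M A E) w) (hS : H516.SpansQ M y)
    (hli : LinearIndependent (jField (IsLocalRing.ResidueField ↥A))
      (fun i => coeffMap (Int.castRingHom (IsLocalRing.ResidueField ↥A)) (y i)))
    (hint : ∀ i, IsIntegral (polyRing (Rc M A E) (jOm M)) (toOm M A E (yInt A E hS i))) :
    DenAt (Fc M E) (Rc M A E) (Vc M A E) w (jOm M) := by
  intro f hf hfV
  obtain ⟨q, p, hprim, hrel⟩ := exists_scaled_relation A E hS hf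
  have hq : q.map (resS A E) ≠ 0 := by
    intro hq0
    have hN := redE_sum_ne_zero A E hS hli hprim hq0
    obtain ⟨U₁, U₂, hne, heq⟩ := (mem_Vc_iff' M A E).mp hfV
    have h1 : toOm M A E (Uev M A E q * U₁) =
        toOm M A E ((∑ i, Uev M A E (p i) * yInt A E hS i) * U₂) := by
      rw [_root_.map_mul, _root_.map_mul, ← heq, ← hrel]
      ring
    have h3 := congrArg (redE M A E) (toOm_injective M A E h1)
    rw [_root_.map_mul, _root_.map_mul, (redE_Uev_eq_zero_iff M A E q).mpr hq0, zero_mul] at h3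
    exact mul_ne_zero hN hne h3.symm
  have hD : redE M A E (Uev M A E q) ≠ 0 := by rwa [Ne, redE_Uev_eq_zero_iff]
  refine ⟨toOm M A E (Uev M A E q), toOm_Uev_mem_polyRing A E q, ?_, ?_⟩
  · intro h
    obtain ⟨c, hA, hE, hc0, hcinv, rfl⟩ := exists_unif M A E hR
    have hw0 : algebraMap Qb (Om M) c ≠ 0 := hR.w_ne_zero
    obtain ⟨U₁, U₂, hne, heq⟩ := (mem_Vc_iff' M A E).mp h
    have h1 : toOm M A E (Uev M A E q * U₂) = toOm M A E (cInt M A E hA hE * U₁) := by
      rw [_root_.map_mul, _root_.map_mul, toOm_cInt, ← heq]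
      field_simp
    have h3 := congrArg (redE M A E) (toOm_injective M A E h1)
    rw [_root_.map_mul, _root_.map_mul, redE_cInt, residue_eq_zero_of_inv_not_mem A hA hcinv, _root_.map_zero,
      zero_mul] at h3
    exact mul_ne_zero hD hne h3
  · rw [hrel, _root_.map_sum]
    refine IsIntegral.sum _ fun i _ => ?_
    rw [_root_.map_mul]
    exact (isIntegral_toOm_Uev A E (p i)).mul (hint i)

end Fermat.Agent.S18.Mod.H216

end
end
-- ===== PACK-END S18/Mod/H216/DenJ.lean

-- ===== PACK-BEGIN S56/FO/H6/CE.lean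
section






/-!
# S56 / FLAT-O / leaf CE (helper6): kernel of reduction = augmentation

`(M, act, Λ)` a Hopf lattice over `ℤ_(p)`, `p` odd, `p • M = 0`, `P | p` a place of `ℚ̄`,
`I = P.inertiaSubgroupIn ℚ`.

* `ConnEtStatement` (CE): a point `x` with `v(f x - f 0) < 1` for all `f ∈ Λ` (a point of the
  kernel of reduction) lies in the subgroup generated by the `act σ y - y`, `σ ∈ I`.
* `UnrVal1Statement` (VG1): an element of `ℚ̄` fixed by `I₁ = {σ ∈ I : σ ζ = ζ}` which is a
  non-unit has valuation `≤ v(ζ - 1)`.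
* `connEt_of : UnrVal1Statement → ConnEtStatement`.

Plan and use in the FLAT-O assembly: `coord/S56-FLAT-O-CE-helper6.md` (origin/helper6).
No quotient of Hopf lattices, no Cartier duality: only CHAR-INT (`CharInt.lean`).
-/

set_option autoImplicit false
set_option linter.style.haveILetI false
set_option linter.unusedSectionVars false

noncomputable section

namespace Fermat.Agent.S56.FO.H6

open Fermat.Agent.S56
open scoped BigOperators

/-- (VG1) a non-unit of `ℚ̄` fixed by `{σ ∈ I_P : σ ζ = ζ}` has valuation `≤ v(ζ - 1)`. -/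
def UnrVal1Statement : Prop :=
  ∀ p : ℕ, p.Prime → ∀ P : ValuationSubring Qb, P.LiesOverPrime p →
    ∀ ζ : Qb, IsPrimitiveRoot ζ p → ∀ y : Qb,
      (∀ σ ∈ P.inertiaSubgroupIn ℚ, σ ζ = ζ → σ y = y) → P.valuation y < 1 →
      P.valuation y ≤ P.valuation (ζ - 1)

/-- (CE) the kernel of reduction of a Hopf lattice killed by `p` (`p` odd) is contained in the
augmentation subgroup of inertia. -/
def ConnEtStatement : Prop :=
  ∀ (p : ℕ) [Fact p.Prime], p ≠ 2 →
    ∀ (M : Type) [AddCommGroup M] [Finite M] (act : GQ → M → M)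
    (Λ : Subalgebra (H906.Zp p) (M → Qb)), H906.IsHL p act Λ → (∀ x : M, p • x = 0) →
    ∀ P : ValuationSubring Qb, P.LiesOverPrime p → ∀ x : M,
      (∀ f ∈ Λ, P.valuation (f x - f 0) < 1) →
      x ∈ AddSubgroup.closure
        {z : M | ∃ σ ∈ P.inertiaSubgroupIn ℚ, ∃ y : M, z = act σ y - y}

/-! ## Auxiliary lemmas -/

/-- Elements of `ℤ_(p)` are `P`-integral for `P | p`. -/
theorem valuation_Zl_le_one {p : ℕ} (hp : p.Prime) (P : ValuationSubring Qb)
    (hP : P.LiesOverPrime p) (r : H906.Zp p) :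
    P.valuation (algebraMap (H906.Zp p) Qb r) ≤ 1 := by
  have hden : (r : ℚ).den.Coprime p := r.2
  have hq : algebraMap (H906.Zp p) Qb r = algebraMap ℚ Qb (r : ℚ) := rfl
  have h1 : algebraMap ℚ Qb (r : ℚ) = ((r : ℚ).num : Qb) / (((r : ℚ).den : ℤ) : Qb) := by
    conv_lhs => rw [← Rat.num_div_den (r : ℚ)]
    rw [map_div₀, map_intCast, map_natCast]
    push_cast
    rfl
  rw [hq, h1, map_div₀]
  have hnd : ¬ (p : ℤ) ∣ (((r : ℚ).den : ℕ) : ℤ) := by
    intro h
    have h2 : p ∣ (r : ℚ).den := by exact_mod_cast h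
    have h3 := Nat.Coprime.eq_one_of_dvd hden.symm h2
    exact hp.one_lt.ne' h3
  rw [Fermat.Agent.S14.H894.valuation_intCast_eq_one P p hp hP _ hnd, div_one]
  exact Fermat.Agent.S14.H894.valuation_intCast_le_one P _

/-- Elements of `ℚ̄` integral over `ℤ_(p)` are `P`-integral for `P | p`. -/
theorem valuation_le_one_of_isIntegral {p : ℕ} (hp : p.Prime) (P : ValuationSubring Qb)
    (hP : P.LiesOverPrime p) {c : Qb} (hc : IsIntegral (H906.Zp p) c) :
    P.valuation c ≤ 1 := by
  obtain ⟨f, hf, hfc⟩ := hc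
  by_contra hlt
  rw [not_le] at hlt
  have hn : f.natDegree ≠ 0 := by
    intro hn
    have h1 : f = 1 := by
      have := Polynomial.eq_C_of_natDegree_eq_zero hn
      rw [this]
      have h2 : f.coeff 0 = 1 := by
        have := hf.coeff_natDegree
        rwa [hn] at this
      rw [h2, map_one]
    rw [h1, Polynomial.eval₂_one] at hfc
    exact one_ne_zero hfc
  rw [Polynomial.eval₂_eq_sum_range, Finset.sum_range_succ, hf.coeff_natDegree, map_one,
    one_mul, add_eq_zero_iff_eq_neg] at hfc
  have h3 := congrArg P.valuation hfc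
  rw [Valuation.map_neg, map_pow] at h3
  have h4 : P.valuation (∑ i ∈ Finset.range f.natDegree,
      algebraMap (H906.Zp p) Qb (f.coeff i) * c ^ i) < P.valuation c ^ f.natDegree := by
    refine P.valuation.map_sum_lt ?_ ?_
    · exact pow_ne_zero _ (ne_of_gt (lt_trans zero_lt_one hlt))
    · intro i hi
      rw [Finset.mem_range] at hi
      rw [map_mul, map_pow]
      calc P.valuation (algebraMap (H906.Zp p) Qb (f.coeff i)) * P.valuation c ^ i
          ≤ 1 * P.valuation c ^ i :=
            mul_le_mul_of_nonneg_right (valuation_Zl_le_one hp P hP _) zero_le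
        _ = P.valuation c ^ i := one_mul _
        _ < P.valuation c ^ f.natDegree := pow_lt_pow_right₀ hlt hi
  rw [h3] at h4
  exact lt_irrefl _ h4

/-- A vector outside a subspace is detected by a linear form vanishing on the subspace. -/
theorem exists_dual_of_not_mem {p : ℕ} [Fact p.Prime] {M : Type*} [AddCommGroup M]
    [Module (ZMod p) M] (Z : Submodule (ZMod p) M) {x₀ : M} (hx : x₀ ∉ Z) :
    ∃ f : M →ₗ[ZMod p] ZMod p, f x₀ ≠ 0 ∧ ∀ z ∈ Z, f z = 0 := by
  obtain ⟨f, hf, hfZ⟩ : ∃ f : M →ₗ[ZMod p] ZMod p, f x₀ ≠ 0 ∧ Z.map f = ⊥ :=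
    Submodule.exists_dual_map_eq_bot_of_notMem hx inferInstance
  refine ⟨f, hf, fun z hz => ?_⟩
  have : f z ∈ Z.map f := ⟨z, hz, rfl⟩
  rw [hfZ] at this
  exact (Submodule.mem_bot _).mp this

/-- A point outside a subgroup of a group killed by `p` is detected by an additive character
with values in `ZMod p`. -/
theorem exists_addChar_of_not_mem {p : ℕ} [Fact p.Prime] {M : Type*} [AddCommGroup M]
    (hpM : ∀ x : M, p • x = 0) (Z : AddSubgroup M) {x₀ : M} (hx : x₀ ∉ Z) :
    ∃ ξ : M →+ ZMod p, (∀ z ∈ Z, ξ z = 0) ∧ ξ x₀ ≠ 0 := by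
  letI : Module (ZMod p) M := AddCommGroup.zmodModule hpM
  obtain ⟨f, hf, hfZ⟩ := exists_dual_of_not_mem (AddSubgroup.toZModSubmodule p Z) hx
  exact ⟨f.toAddMonoidHom, fun z hz => hfZ z hz, hf⟩

/-- The multiplicative character `m ↦ ζ ^ (ξ m).val`. -/
theorem zeta_pow_val_add {p : ℕ} [Fact p.Prime] {ζ : Qb} (hζ : ζ ^ p = 1) (a b : ZMod p) :
    ζ ^ (a + b).val = ζ ^ a.val * ζ ^ b.val := by
  rw [ZMod.val_add, ← pow_add]
  exact (pow_eq_pow_mod _ hζ).symm

/-! ## The theorem -/

/-- **(CE)** from (VG1). -/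
theorem connEt_of (hV : UnrVal1Statement) : ConnEtStatement := by
  intro p _ hp2 M _ _ act Λ hΛ hpM P hP x₀ hx₀
  classical
  have hp : p.Prime := Fact.out
  haveI : NeZero p := ⟨hp.ne_zero⟩
  by_contra hx
  set Z : AddSubgroup M := AddSubgroup.closure
    {z : M | ∃ σ ∈ P.inertiaSubgroupIn ℚ, ∃ y : M, z = act σ y - y} with hZ
  -- (1) the character
  obtain ⟨ξ, hξZ, hξx⟩ := exists_addChar_of_not_mem hpM Z hx
  obtain ⟨ζ, hζ⟩ := Fermat.Agent.S56.P3.H254.exists_primitiveRoot p
  have hζp : ζ ^ p = 1 := hζ.pow_eq_one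
  set χ : M → Qb := fun m => ζ ^ (ξ m).val with hχdef
  have hχ0 : χ 0 = 1 := by
    show ζ ^ (ξ 0).val = 1
    rw [map_zero, ZMod.val_zero, pow_zero]
  have hχadd : ∀ x y : M, χ (x + y) = χ x * χ y := by
    intro x y
    show ζ ^ (ξ (x + y)).val = _
    rw [map_add]
    exact zeta_pow_val_add hζp _ _
  have hχp : ∀ m : M, χ m ^ p = 1 := by
    intro m
    show (ζ ^ (ξ m).val) ^ p = 1
    rw [← pow_mul, mul_comm, pow_mul, hζp, one_pow]
  -- `χ` is invariant under inertia translations
  have hχact : ∀ σ ∈ P.inertiaSubgroupIn ℚ, ∀ m : M, χ (act σ m) = χ m := by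
    intro σ hσ m
    have h1 : act σ m - m ∈ Z := AddSubgroup.subset_closure ⟨σ, hσ, m, rfl⟩
    have h2 : ξ (act σ m) = ξ m := by
      have := hξZ _ h1
      rw [map_sub, sub_eq_zero] at this
      exact this
    show ζ ^ (ξ (act σ m)).val = ζ ^ (ξ m).val
    rw [h2]
  -- (3) the basis and the coefficients
  obtain ⟨n, e, he, -, hliQ, hexp⟩ := Fermat.Agent.S19.H435.IsHopfLattice.exists_basis hΛ
  have hli := Fintype.linearIndependent_iff.mp hliQ
  obtain ⟨c, hcint, hc⟩ := isIntegral_coeff_of_character hΛ e he hliQ hexp χ hχ0 hχadd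
  have hχc : ∀ m : M, χ m = ∑ i, c i * e i m := by
    intro m
    rw [hc, sum_Qb_smul_apply]
  -- the inverse character
  set χ' : M → Qb := fun m => χ m ^ (p - 1) with hχ'def
  have hχ'0 : χ' 0 = 1 := by
    show χ 0 ^ (p - 1) = 1
    rw [hχ0, one_pow]
  have hχ'add : ∀ x y : M, χ' (x + y) = χ' x * χ' y := by
    intro x y
    show χ (x + y) ^ (p - 1) = χ x ^ (p - 1) * χ y ^ (p - 1)
    rw [hχadd, mul_pow]
  obtain ⟨c', hc'int, hc'⟩ := isIntegral_coeff_of_character hΛ e he hliQ hexp χ' hχ'0 hχ'add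
  have hχ'c : ∀ m : M, χ' m = ∑ i, c' i * e i m := by
    intro m
    rw [hc', sum_Qb_smul_apply]
  -- the unit function and the structure constants
  obtain ⟨u, hu⟩ := hexp 1 Λ.one_mem
  have hu1 : ∀ m : M, (1 : Qb) = ∑ k, algebraMap (H906.Zp p) Qb (u k) * e k m := by
    intro m
    have := congrFun hu m
    rw [sum_Zl_smul_apply] at this
    exact this
  choose s hs using fun i j => hexp (e i * e j) (Λ.mul_mem (he i) (he j))
  have hs' : ∀ (i j : Fin n) (m : M),
      e i m * e j m = ∑ k, algebraMap (H906.Zp p) Qb (s i j k) * e k m := by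
    intro i j m
    have := congrFun (hs i j) m
    rw [sum_Zl_smul_apply] at this
    exact this
  -- (5) twisting
  have htw : ∀ σ ∈ P.inertiaSubgroupIn ℚ, ∀ a : ℕ, σ ζ = ζ ^ a →
      ∀ m : M, ∑ i, σ (c i) * e i m = χ m ^ a := by
    intro σ hσ a ha m
    have hσi : σ⁻¹ ∈ P.inertiaSubgroupIn ℚ := Subgroup.inv_mem _ hσ
    have h1 : χ (act σ⁻¹ m) = ∑ i, c i * σ⁻¹ (e i m) := by
      rw [hχc]
      refine Finset.sum_congr rfl fun i _ => ?_
      rw [hΛ.equivariant _ (he i) σ⁻¹ m]
    have h2 := congrArg σ h1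
    rw [map_sum, hχact σ⁻¹ hσi m] at h2
    have h3 : ∀ i, σ (c i * σ⁻¹ (e i m)) = σ (c i) * e i m := by
      intro i
      rw [map_mul]
      congr 1
      exact AlgEquiv.apply_symm_apply σ (e i m)
    rw [Finset.sum_congr rfl fun i _ => h3 i] at h2
    rw [← h2]
    show σ (ζ ^ (ξ m).val) = (ζ ^ (ξ m).val) ^ a
    rw [map_pow, ha, ← pow_mul, ← pow_mul, mul_comm]
  -- (4) an inertia element acting by `ζ ↦ ζ²`
  have h2p : Nat.Coprime 2 p := by
    rw [Nat.coprime_comm]
    exact (Nat.coprime_primes hp Nat.prime_two).mpr hp2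
  obtain ⟨g, hg⟩ := Fermat.Agent.S56.P3.H254.exists_apply_eq_pow hζ (ZMod.unitOfCoprime 2 h2p)
  have hval2 : ((ZMod.unitOfCoprime 2 h2p : (ZMod p)ˣ) : ZMod p).val = 2 := by
    rw [ZMod.coe_unitOfCoprime, ZMod.val_natCast]
    refine Nat.mod_eq_of_lt ?_
    have := hp.two_le
    omega
  rw [hval2] at hg
  obtain ⟨τ, hτ, hτζ⟩ := Fermat.Agent.S56.H656.exists_inertia_apply_eq hp P hP hζ g
  rw [hg] at hτζ
  -- valuations of the coefficients
  have hvc : ∀ i, P.valuation (c i) ≤ 1 := fun i => valuation_le_one_of_isIntegral hp P hP (hcint i)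
  have hvc' : ∀ i, P.valuation (c' i) ≤ 1 :=
    fun i => valuation_le_one_of_isIntegral hp P hP (hc'int i)
  set t : Fin n → Qb := fun j => τ (c j) - c j with ht
  have hvt : ∀ j, P.valuation (t j) < 1 := fun j =>
    Fermat.Agent.A2.H708.valuation_sub_lt_one_of_mem_inertiaIn P hτ (hvc j)
  -- (6a) `c k - u k = D k`
  set D : Fin n → Qb := fun k => ∑ i, ∑ j, c' i * t j * algebraMap (H906.Zp p) Qb (s i j k)
    with hD
  have hcu : ∀ k, c k - algebraMap (H906.Zp p) Qb (u k) = D k := by
    intro k
    have h0 : ∑ k, (c k - algebraMap (H906.Zp p) Qb (u k) - D k) • e k = 0 := by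
      funext m
      rw [sum_Qb_smul_apply, Pi.zero_apply]
      simp only [sub_mul, Finset.sum_sub_distrib]
      rw [← hχc m, ← hu1 m]
      -- `χ m - 1 = χ' m * (χ m ^ 2 - χ m)`
      have h1 : χ m - 1 = χ' m * (χ m ^ 2 - χ m) := by
        show χ m - 1 = χ m ^ (p - 1) * (χ m ^ 2 - χ m)
        have hpp : χ m ^ (p - 1) * χ m = 1 := by
          rw [← pow_succ, Nat.sub_add_cancel hp.one_le, hχp]
        calc χ m - 1 = (χ m ^ (p - 1) * χ m) * χ m - χ m ^ (p - 1) * χ m := by
              rw [hpp, one_mul]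
          _ = χ m ^ (p - 1) * (χ m ^ 2 - χ m) := by ring
      have h2 : χ m ^ 2 - χ m = ∑ j, t j * e j m := by
        rw [← htw τ hτ 2 hτζ m, hχc m, ← Finset.sum_sub_distrib]
        refine Finset.sum_congr rfl fun j _ => ?_
        rw [ht]
        ring
      have h3 : ∑ k, D k * e k m = χ' m * (χ m ^ 2 - χ m) := by
        rw [h2, hχ'c m, Finset.sum_mul_sum]
        have h4 : ∀ i j, c' i * e i m * (t j * e j m) =
            ∑ k, c' i * t j * algebraMap (H906.Zp p) Qb (s i j k) * e k m := by
          intro i j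
          have : c' i * e i m * (t j * e j m) = c' i * t j * (e i m * e j m) := by ring
          rw [this, hs' i j m, Finset.mul_sum]
          refine Finset.sum_congr rfl fun k _ => ?_
          ring
        simp_rw [h4]
        rw [hD]
        simp only [Finset.sum_mul]
        rw [Finset.sum_comm]
        refine Finset.sum_congr rfl fun i _ => ?_
        rw [Finset.sum_comm]
      rw [h3, h1, sub_self]
    exact sub_eq_zero.mp (hli _ h0 k)
  have hvD : ∀ k, P.valuation (D k) < 1 := by
    intro k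
    refine P.valuation.map_sum_lt one_ne_zero fun i _ => ?_
    refine P.valuation.map_sum_lt one_ne_zero fun j _ => ?_
    rw [map_mul, map_mul]
    calc P.valuation (c' i) * P.valuation (t j) *
          P.valuation (algebraMap (H906.Zp p) Qb (s i j k))
        ≤ 1 * P.valuation (t j) * 1 := by
          gcongr
          · exact hvc' i
          · exact valuation_Zl_le_one hp P hP _
      _ = P.valuation (t j) := by rw [one_mul, mul_one]
      _ < 1 := hvt j
  -- (6b) the coefficients are fixed by `I₁`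
  have hfix : ∀ σ ∈ P.inertiaSubgroupIn ℚ, σ ζ = ζ → ∀ k, σ (D k) = D k := by
    intro σ hσ hσζ k
    have hck : σ (c k) = c k := by
      have h0 : ∑ i, (σ (c i) - c i) • e i = 0 := by
        funext m
        rw [sum_Qb_smul_apply, Pi.zero_apply]
        simp only [sub_mul, Finset.sum_sub_distrib]
        rw [htw σ hσ 1 (by rw [pow_one]; exact hσζ) m, pow_one, ← hχc m, sub_self]
      exact sub_eq_zero.mp (hli _ h0 k)
    rw [← hcu k, map_sub, hck]
    congr 1
    exact σ.commutes ((u k : ℚ))
  -- (VG1)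
  have hvD' : ∀ k, P.valuation (D k) ≤ P.valuation (ζ - 1) := fun k =>
    hV p hp P hP ζ hζ (D k) (fun σ hσ hσζ => hfix σ hσ hσζ k) (hvD k)
  -- (7) the value at `x₀`
  have hval : χ x₀ - 1 = ∑ k, D k * (e k x₀ - e k 0) := by
    have h1 : χ x₀ - 1 = ∑ k, c k * (e k x₀ - e k 0) := by
      rw [← hχ0, hχc x₀, hχc 0, ← Finset.sum_sub_distrib]
      refine Finset.sum_congr rfl fun k _ => ?_
      ring
    have h2 : ∑ k, algebraMap (H906.Zp p) Qb (u k) * (e k x₀ - e k 0) = 0 := by
      simp only [mul_sub, Finset.sum_sub_distrib]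
      rw [← hu1 x₀, ← hu1 0, sub_self]
    rw [h1, ← sub_zero (∑ k, c k * (e k x₀ - e k 0)), ← h2, ← Finset.sum_sub_distrib]
    refine Finset.sum_congr rfl fun k _ => ?_
    rw [← hcu k]
    ring
  have hπ0 : P.valuation (ζ - 1) ≠ 0 :=
    Fermat.Agent.S14.H894.valuation_zeta_sub_one_ne_zero P p hp ζ hζ
  have hlt : P.valuation (χ x₀ - 1) < P.valuation (ζ - 1) := by
    rw [hval]
    refine P.valuation.map_sum_lt hπ0 fun k _ => ?_
    rw [map_mul]
    calc P.valuation (D k) * P.valuation (e k x₀ - e k 0)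
        ≤ P.valuation (ζ - 1) * P.valuation (e k x₀ - e k 0) :=
          mul_le_mul_of_nonneg_right (hvD' k) zero_le
      _ < P.valuation (ζ - 1) * 1 :=
          mul_lt_mul_of_pos_left (hx₀ _ (he k)) (zero_lt_iff.mpr hπ0)
      _ = P.valuation (ζ - 1) := mul_one _
  -- (8) `χ x₀` is a primitive `p`-th root of unity
  have hk0 : (ξ x₀).val ≠ 0 := by
    intro h
    exact hξx ((ZMod.val_eq_zero _).mp h)
  have hcop : (ξ x₀).val.Coprime p := by
    rw [Nat.coprime_comm, hp.coprime_iff_not_dvd]
    intro hdvd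
    have h1 := Nat.le_of_dvd (Nat.pos_of_ne_zero hk0) hdvd
    exact absurd (ZMod.val_lt (ξ x₀)) (not_lt.mpr h1)
  have hprim : IsPrimitiveRoot (χ x₀) p := hζ.pow_of_coprime _ hcop
  have heq := Fermat.Agent.S14.H894.valuation_sub_one_eq_of_mem_primitiveRoots P p hp ζ hζ
    ((mem_primitiveRoots hp.pos).mpr hprim)
  rw [heq] at hlt
  exact lt_irrefl _ hlt

end Fermat.Agent.S56.FO.H6

end
end
-- ===== PACK-END S56/FO/H6/CE.lean

-- ===== PACK-BEGIN S37/Red/H160/RatFibre.lean
section




/-!
# S37-RED, piece A (helper160): fibre sums over a rational point of the `t`-line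

`K` algebraically closed (any characteristic), `F / K(t)` finite separable.  For `f ∈ Fˣ` with
`N_{F/K(t)}(f) = p(t)/q(t)` and `a ∈ K`:

  `∑_{P : t(P) = a} ord_P f = mult_a(p) - mult_a(q)`            (`sum_ord_fibre`)

(sum over any finite set of places over `t = a` containing the zeros and poles of `f` there).
Uses the separable local norm formula `SepFF.sum_ord_eq_ord_norm` and the description of the
places of `K(t)`.
-/

set_option autoImplicit false
set_option linter.unusedSectionVars false

noncomputable section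

namespace Fermat.Agent.S37.Red.H160

open AlgebraicCurve Polynomial IntermediateField
open Fermat.Agent.S37.H160

variable {K F : Type*} [Field K] [Field F] [Algebra K F]

section RatPlace

variable {t : F}

/-- Every element of `K(t)` is a quotient of polynomials in `t`. -/
theorem exists_aeval_div (ht : Transcendental K t) (g : K⟮t⟯) :
    ∃ r s : K[X], s ≠ 0 ∧ g * aeval (AdjoinSimple.gen K t) s = aeval (AdjoinSimple.gen K t) r := by
  obtain ⟨r, s, hrs⟩ := (mem_adjoin_simple_iff K (g : F)).mp g.2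
  have hcoe : ∀ p : K[X], ((aeval (AdjoinSimple.gen K t) p : K⟮t⟯) : F) = aeval t p := fun p => by
    rw [← AdjoinSimple.algebraMap_gen K t, aeval_algebraMap_apply]
    rfl
  by_cases hs : s = 0
  · refine ⟨0, 1, one_ne_zero, ?_⟩
    apply Subtype.ext
    rw [hs, _root_.map_zero, div_zero] at hrs
    simp [hrs]
  · refine ⟨r, s, hs, ?_⟩
    have hs' : aeval t s ≠ 0 := fun h => hs ((transcendental_iff.mp ht) s h)
    apply Subtype.ext
    rw [MulMemClass.coe_mul, hcoe, hcoe, hrs, div_mul_cancel₀ _ hs']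

theorem aeval_gen_ne_zero (ht : Transcendental K t) {p : K[X]} (hp : p ≠ 0) :
    aeval (AdjoinSimple.gen K t) p ≠ 0 := by
  intro h
  have h1 : ((aeval (AdjoinSimple.gen K t) p : K⟮t⟯) : F) = aeval t p := by
    rw [← AdjoinSimple.algebraMap_gen K t, aeval_algebraMap_apply]
    rfl
  rw [h] at h1
  exact hp ((transcendental_iff.mp ht) p h1.symm)

variable (v : Place K K⟮t⟯) (a : K)

/-- At a place of `K(t)` over `t = a`, `t - a` is a uniformizer. -/
theorem ord_gen_sub_eq_one (ht : Transcendental K t)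
    (hv : 0 < v.ord (AdjoinSimple.gen K t - algebraMap K K⟮t⟯ a)) :
    v.ord (AdjoinSimple.gen K t - algebraMap K K⟮t⟯ a) = 1 := by
  obtain ⟨π, hπ, hπ1⟩ := Fermat.Agent.S24.FF.exists_irreducible_coe v
  obtain ⟨r, s, hs, hrs⟩ := exists_aeval_div ht (π : K⟮t⟯)
  have hπ0 : (π : K⟮t⟯) ≠ 0 := by
    intro h
    rw [h, v.ord_zero] at hπ1
    exact zero_ne_one hπ1
  have hs0 := aeval_gen_ne_zero ht hs
  have hr : r ≠ 0 := by
    rintro rfl
    rw [_root_.map_zero] at hrs
    rcases mul_eq_zero.mp hrs with h | h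
    · exact hπ0 h
    · exact hs0 h
  have h1 := (Fermat.Agent.S24.H324.ord_aeval_at v _ a hv r hr).2
  have h2 := (Fermat.Agent.S24.H324.ord_aeval_at v _ a hv s hs).2
  have h3 := congrArg v.ord hrs
  rw [v.ord_mul hπ0 hs0, hπ1, h1, h2] at h3
  set e := v.ord (AdjoinSimple.gen K t - algebraMap K K⟮t⟯ a) with he
  have h4 : ((r.rootMultiplicity a : ℤ) - s.rootMultiplicity a) * e = 1 := by linarith
  have h5 : e ∣ 1 := Dvd.intro_left _ h4
  have h6 := Int.eq_one_or_neg_one_of_mul_eq_one' h4
  rcases Int.isUnit_iff.mp (isUnit_of_dvd_one h5) with h | h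
  · exact h
  · omega

/-- Order of a rational function at a place of `K(t)` over `t = a`. -/
theorem ord_of_mul_aeval (ht : Transcendental K t)
    (hv : 0 < v.ord (AdjoinSimple.gen K t - algebraMap K K⟮t⟯ a))
    {g : K⟮t⟯} (hg : g ≠ 0) {r s : K[X]} (hs : s ≠ 0)
    (hrs : g * aeval (AdjoinSimple.gen K t) s = aeval (AdjoinSimple.gen K t) r) :
    v.ord g = (r.rootMultiplicity a : ℤ) - s.rootMultiplicity a := by
  have hs0 := aeval_gen_ne_zero ht hs
  have hr : r ≠ 0 := by
    rintro rfl
    rw [_root_.map_zero] at hrs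
    rcases mul_eq_zero.mp hrs with h | h
    · exact hg h
    · exact hs0 h
  have h1 := (Fermat.Agent.S24.H324.ord_aeval_at v _ a hv r hr).2
  have h2 := (Fermat.Agent.S24.H324.ord_aeval_at v _ a hv s hs).2
  have h3 := congrArg v.ord hrs
  rw [v.ord_mul hg hs0, h1, h2, ord_gen_sub_eq_one v a ht hv] at h3
  linarith

/-- A place of `K(t)` is determined by the value of `t`. -/
theorem ratPlace_unique (ht : Transcendental K t) {v v' : Place K K⟮t⟯} {a : K}
    (hv : 0 < v.ord (AdjoinSimple.gen K t - algebraMap K K⟮t⟯ a))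
    (hv' : 0 < v'.ord (AdjoinSimple.gen K t - algebraMap K K⟮t⟯ a)) : v = v' := by
  apply Place.ext
  ext g
  rw [Fermat.Agent.S24.FF.mem_iff_ord_nonneg, Fermat.Agent.S24.FF.mem_iff_ord_nonneg]
  rcases eq_or_ne g 0 with rfl | hg
  · simp
  obtain ⟨r, s, hs, hrs⟩ := exists_aeval_div ht g
  rw [ord_of_mul_aeval v a ht hv hg hs hrs, ord_of_mul_aeval v' a ht hv' hg hs hrs]

end RatPlace

section Fibre

variable [IsAlgClosed K] {t : F} [FiniteDimensional K⟮t⟯ F] [Algebra.IsSeparable K⟮t⟯ F]

theorem coe_gen_sub (a : K) :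
    algebraMap K⟮t⟯ F (AdjoinSimple.gen K t - algebraMap K K⟮t⟯ a) = t - algebraMap K F a := by
  rw [_root_.map_sub, AdjoinSimple.algebraMap_gen, ← IsScalarTower.algebraMap_apply]

/-- A place of `F` lies over `t = a` iff its restriction to `K(t)` does. -/
theorem ord_restrict_gen_sub_pos_iff (w : Place K F) (a : K) :
    0 < (w.restrict K⟮t⟯).ord (AdjoinSimple.gen K t - algebraMap K K⟮t⟯ a) ↔
      0 < w.ord (t - algebraMap K F a) := by
  have h := w.ord_restrict (F := K⟮t⟯) (AdjoinSimple.gen K t - algebraMap K K⟮t⟯ a)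
  rw [coe_gen_sub] at h
  have he : 0 < (w.ramificationIndex K⟮t⟯ : ℤ) := by
    exact_mod_cast w.ramificationIndex_pos (F := K⟮t⟯)
  rw [h]
  constructor
  · intro h1
    exact mul_pos he h1
  · intro h1
    exact (mul_pos_iff_of_pos_left he).mp h1

/-- **Fibre sum over a rational point.** -/
theorem sum_ord_fibre (ht : Transcendental K t) (a : K) (f : F) (hf : f ≠ 0)
    (p q : K[X]) (hq : q ≠ 0)
    (hN : algebraMap K⟮t⟯ F (Algebra.norm K⟮t⟯ f) * aeval t q = aeval t p)
    (S : Finset (Place K F)) (hS1 : ∀ P ∈ S, 0 < P.ord (t - algebraMap K F a))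
    (hS2 : ∀ P : Place K F, P.ord f ≠ 0 → 0 < P.ord (t - algebraMap K F a) → P ∈ S) :
    ∑ P ∈ S, P.ord f = (p.rootMultiplicity a : ℤ) - q.rootMultiplicity a := by
  classical
  have hta : Transcendental K (t - algebraMap K F a) := by
    intro halg
    apply ht
    have := halg.add (isAlgebraic_algebraMap (R := K) (A := F) a)
    simpa using this
  obtain ⟨P₀, hP₀⟩ := Fermat.Agent.Lib.RR.H443.exists_place_ord_pos' ht hta
  set v := P₀.restrict K⟮t⟯ with hvdef
  have hv : 0 < v.ord (AdjoinSimple.gen K t - algebraMap K K⟮t⟯ a) :=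
    (ord_restrict_gen_sub_pos_iff P₀ a).mpr hP₀
  have hfib : ∀ w : Place K F, w.restrict K⟮t⟯ = v ↔ 0 < w.ord (t - algebraMap K F a) := by
    intro w
    constructor
    · intro h
      rw [← ord_restrict_gen_sub_pos_iff, h]
      exact hv
    · intro h
      exact ratPlace_unique ht ((ord_restrict_gen_sub_pos_iff w a).mpr h) hv
  have hfin := SepFF.finite_fibre (F' := F) v
  set s := hfin.toFinset with hsdef
  have hs : ∀ w, w ∈ s ↔ w.restrict K⟮t⟯ = v := fun w => by
    rw [hsdef, Set.Finite.mem_toFinset]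
    rfl
  have hdeg : ∀ w : Place K F, w.deg = 1 := fun w => Fermat.Agent.S24.FF.deg_eq_one w ht
  have hsum := SepFF.sum_ord_eq_ord_norm v hdeg s hs f hf
  have hSs : S ⊆ s := fun P hP => (hs P).mpr ((hfib P).mpr (hS1 P hP))
  have h1 : ∑ P ∈ S, P.ord f = ∑ P ∈ s, P.ord f := by
    refine Finset.sum_subset hSs fun P hPs hPS => ?_
    by_contra hne
    exact hPS (hS2 P hne ((hfib P).mp ((hs P).mp hPs)))
  rw [h1, hsum]
  have hNne : Algebra.norm K⟮t⟯ f ≠ 0 := Algebra.norm_ne_zero_iff.mpr hf
  refine ord_of_mul_aeval v a ht hv hNne hq ?_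
  apply (algebraMap K⟮t⟯ F).injective
  rw [_root_.map_mul, ← aeval_algebraMap_apply, ← aeval_algebraMap_apply, AdjoinSimple.algebraMap_gen]
  exact hN

end Fibre

end Fermat.Agent.S37.Red.H160

end
end
-- ===== PACK-END S37/Red/H160/RatFibre.lean

-- ===== PACK-BEGIN Lib/RR/Duality.lean
section



/-!
# RR library, layer L5: Weil differentials, canonical divisor, duality  (Stichtenoth 1.5.5–1.5.16)

A Weil differential is a `K`-linear map `ω : 𝔸 → K` vanishing on `𝔸(A) + F` for some divisor `A`.
They form a one-dimensional `F`-vector space; a nonzero `ω` has a largest such `A =: (ω)`, and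
`x ↦ x ω` is an isomorphism `L((ω) - A) ≅ (𝔸 / (𝔸(A) + F))^*`.

The proof of `exists_canonical` is in `H80/{Weil,OneDim,Canonical}.lean` (helper80); the statements
are those of the frozen skeleton of helper320.
-/

set_option autoImplicit false

noncomputable section

open AlgebraicCurve

namespace Fermat.Agent.Lib.RR

variable {K F : Type*} [Field K] [Field F] [Algebra K F]

/-- **L5**: existence of a canonical divisor (duality theorem). -/
theorem exists_canonical [FF1 K F] :
    ∃ W : Divisor K F, ∀ D : Divisor K F, Module.finrank K (H1 D) = ell (W - D) :=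
  H80.exists_canonical_of (g := (genusR K F : ℤ)) finite_H1 ell_sub_finrank_H1
    exists_degree_bound

/-- **Riemann–Roch**. -/
theorem riemann_roch [FF1 K F] :
    ∃ W : Divisor K F, Divisor.degree W = 2 * (genusFF K F : ℤ) - 2 ∧ ell W = genusFF K F ∧
      ∀ D : Divisor K F,
        (ell D : ℤ) = Divisor.degree D + 1 - (genusFF K F : ℤ) + ell (W - D) := by
  obtain ⟨W, hW⟩ := exists_canonical (K := K) (F := F)
  have hRR : ∀ D : Divisor K F,
      (ell D : ℤ) = Divisor.degree D + 1 - (genusFF K F : ℤ) + ell (W - D) := by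
    intro D
    have := riemann_roch_H1 D
    rw [hW D] at this
    omega
  have h0 := hRR 0
  rw [ell_zero, map_zero, sub_zero] at h0
  have hW1 : (ell W : ℤ) = genusFF K F := by push_cast at h0; omega
  have h1 := hRR W
  rw [sub_self, ell_zero] at h1
  refine ⟨W, ?_, by exact_mod_cast hW1, hRR⟩
  push_cast at h1
  omega

/-- `ℓ(D) = deg D + 1 - g` as soon as `deg D > 2g - 2`. -/
theorem ell_eq_of_degree_gt [FF1 K F] {D : Divisor K F}
    (h : 2 * (genusFF K F : ℤ) - 2 < Divisor.degree D) :
    (ell D : ℤ) = Divisor.degree D + 1 - (genusFF K F : ℤ) := by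
  obtain ⟨W, hW, -, hRR⟩ := riemann_roch (K := K) (F := F)
  have h0 : ell (W - D) = 0 :=
    ell_eq_zero_of_degree_neg (by rw [map_sub, hW]; omega)
  have := hRR D
  rw [h0] at this
  simpa using this

end Fermat.Agent.Lib.RR

end
end
-- ===== PACK-END Lib/RR/Duality.lean

-- ===== PACK-BEGIN S37/H159/MMain.lean
section





/-!
# THEOREM M: normality of the special fibre, directly over a valuation ring
(row S37, piece R-b / RED-E4 (H3); seat helper159)

Setting: `K` algebraically closed of characteristic `0`, `A ⊆ K` a valuation ring with residue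
map `π : A ↠ k` (`k` algebraically closed); `F ⊇ K(x)` finite, `O ⊆ F` a valuation ring with
residue map `ρ : O ↠ F_k`, `F_k ⊇ k(x̄)` finite separable with `[F_k : k(x̄)] = [F : K(x)]`,
`ρ(P(x)) = P̄(x̄)` for `P ∈ A[X]` (a `RedCtx`).  `B_η` = integral closure of `K[x]` in `F`.

Hypothesis (NC): there is a finite set `S ⊆ A`, injective modulo `𝔪_A`, such that
`(x - c) B_η` is a radical ideal for every `c ∈ A \ S` (no ramification over `x = c`).

Conclusion:
* `isIntegrallyClosed_Tk` : `T = ρ(O ∩ B_η)` is integrally closed;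
* `lift_integral` : every element of `F_k` integral over `k[x̄]` is the reduction of an element
  of `O` which is integral over `A[x]`.

No noetherian hypothesis on `A`, no descent to a discrete valuation ring.
-/

set_option autoImplicit false
set_option linter.unusedSectionVars false
set_option linter.style.haveILetI false

namespace Fermat.Agent.S37.H159

open Polynomial

namespace RedCtx

variable {K : Type*} [Field K] [IsAlgClosed K] [CharZero K] {A : ValuationSubring K}
  {k : Type*} [Field k] [IsAlgClosed k]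
  {F : Type*} [Field F] [Algebra K[X] F] {Fk : Type*} [Field Fk] [Algebra k[X] Fk]
  (G : RedCtx A k F Fk)

variable (L₀ : Type*) [Field L₀] [Algebra K[X] L₀] [IsFractionRing K[X] L₀] [Algebra L₀ F]
  [IsScalarTower K[X] L₀ F] [FiniteDimensional L₀ F]
variable (L₀k : Type*) [Field L₀k] [Algebra k[X] L₀k] [IsFractionRing k[X] L₀k] [Algebra L₀k Fk]
  [IsScalarTower k[X] L₀k Fk] [FiniteDimensional L₀k Fk] [Algebra.IsSeparable L₀k Fk]

include L₀ L₀k in
/-- **Theorem M** (ring form): the order `T = ρ(O ∩ B_η)` is integrally closed. -/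
theorem isIntegrallyClosed_Tk (hdeg : Module.finrank L₀ F = Module.finrank L₀k Fk)
    (S : Finset A) (hS : Set.InjOn G.π (S : Set A))
    (hNC : ∀ c : A, c ∉ S → (Ideal.span
      {algebraMap K[X] (integralClosure K[X] F) (X - C (c : K))}).IsRadical) :
    IsIntegrallyClosed G.Tk := by
  classical
  obtain ⟨b, y, bk, hyint, hR, hbk, hyO, hρy⟩ := G.exists_basis_Tk L₀ L₀k hdeg
  have hinj := algebraMap_injective_k (k := k) (Fk := Fk) L₀k
  haveI := finite_Tη (K := K) (F := F) L₀
  haveI := free_Tη (K := K) (F := F) L₀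
  let β : Module.Basis (Fin (Module.finrank L₀k Fk)) K[X] (integralClosure K[X] F) :=
    Module.finBasisOfFinrankEq K[X] _ ((finrank_Tη (K := K) (F := F) L₀).trans hdeg)
  let yη : Fin (Module.finrank L₀k Fk) → integralClosure K[X] F := fun i => ⟨y i, hyint i⟩
  have hyηO : ∀ i, (yη i : F) ∈ G.O := hyO
  have hρη : ∀ i, G.redT (yη i) (hyηO i) = b i := fun i => Subtype.ext (hρy i)
  have hρbk : ∀ i, G.ρ ⟨y i, hyO i⟩ = bk i := fun i => by rw [hbk]; exact hρy i
  obtain ⟨D, hD1, hD2⟩ := G.exists_discr_lift L₀ L₀k y hyO hR bk hρbk b hbk hdeg hyint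
  have hdb : Algebra.discr k[X] b ≠ 0 := G.discr_Tk_ne_zero L₀ L₀k bk b hbk hdeg
  -- the matrix of `y` in the basis `β`
  set M : Matrix (Fin (Module.finrank L₀k Fk)) (Fin (Module.finrank L₀k Fk)) K[X] :=
    Matrix.of fun i j => β.repr (yη i) j with hM
  have hyM : yη = Matrix.vecMul (⇑β) (M.transpose.map (algebraMap K[X] (integralClosure K[X] F))) := by
    funext i
    rw [Matrix.vecMul, dotProduct]
    conv_lhs => rw [← β.sum_repr (yη i)]
    refine Finset.sum_congr rfl fun j _ => ?_
    rw [Matrix.map_apply, Matrix.transpose_apply, Algebra.smul_def, mul_comm]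
    rfl
  have hdisc : Algebra.discr K[X] yη = M.det ^ 2 * Algebra.discr K[X] β := by
    rw [hyM, Algebra.discr_of_matrix_vecMul, Matrix.det_transpose]
  have hDK : D.map (algebraMap A K) = M.det ^ 2 * Algebra.discr K[X] β := hD1.trans hdisc
  have hDπ : D.map G.π ≠ 0 := by rw [hD2]; exact hdb
  have hD0 : D ≠ 0 := fun h0 => hDπ (by rw [h0, Polynomial.map_zero])
  have hDK0 : D.map (algebraMap A K) ≠ 0 := by
    intro h0
    apply hD0
    apply Polynomial.map_injective (algebraMap A K) Subtype.coe_injective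
    rw [h0, Polynomial.map_zero]
  have hβ0 : Algebra.discr K[X] β ≠ 0 := by
    intro h0
    apply hDK0
    rw [hDK, h0, mul_zero]
  have hdet : ∀ c : A, ¬ (X - C (c : K)) ∣ M.det := fun c =>
    G.not_dvd_det hinj β b yη hyηO hρη c
  -- all roots of `D` in `A` lie in `S`
  have hroots : ∀ c : A, (D.map (algebraMap A K)).IsRoot (c : K) → c ∈ S := by
    intro c hc
    by_contra hcS
    have h2 := not_dvd_discr_of_isRadical β L₀ (c : K) (hNC c hcS)
    rw [← Polynomial.dvd_iff_isRoot, hDK] at hc
    rcases (Polynomial.prime_X_sub_C _).dvd_or_dvd hc with h | h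
    · exact hdet c ((Polynomial.prime_X_sub_C _).dvd_of_dvd_pow h)
    · exact h2 h
  refine H939.isIntegrallyClosed_of_discr_criterion b hdb (IsAlgClosed.splits _) ?_
  intro cbar hcbar
  rw [← hD2] at hcbar ⊢
  obtain ⟨c, rfl, hc⟩ := exists_root_of_isRoot_map A G.π G.π_surj D hDπ cbar hcbar
  have hcS := hroots c hc
  have h1 := rootMultiplicity_map_le A G.π G.π_surj D hDπ c
    (fun c' hc' hπ => hS (hroots c' hc') hcS hπ)
  have h2 : (D.map (algebraMap A K)).rootMultiplicity (c : K) =
      (Algebra.discr K[X] β).rootMultiplicity (c : K) := by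
    rw [hDK, Polynomial.rootMultiplicity_mul (by rw [← hDK]; exact hDK0),
      Polynomial.rootMultiplicity_eq_zero (p := M.det ^ 2), zero_add]
    intro hroot
    rw [← Polynomial.dvd_iff_isRoot] at hroot
    exact hdet c ((Polynomial.prime_X_sub_C _).dvd_of_dvd_pow hroot)
  have h3 := G.not_pow_dvd_discr hinj β b L₀ c
  have h4 : (Algebra.discr K[X] β).rootMultiplicity (c : K) ≤
      Module.finrank L₀k Fk - H939.redRank G.Tk (G.π c) := by
    by_contra hlt
    push Not at hlt
    exact h3 ((Polynomial.le_rootMultiplicity_iff hβ0).mp hlt)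
  have h5 : H939.redRank G.Tk (G.π c) ≤ Fintype.card (Fin (Module.finrank L₀k Fk)) :=
    redRank_le_card b _
  rw [Fintype.card_fin] at h5 ⊢
  omega

include L₀ L₀k in
/-- **Theorem M** (lifting form, = (H3) of S37-RED): every element of `F_k` integral over
`k[x̄]` is the reduction of an element of `O` integral over `A[x]`. -/
theorem lift_integral (hdeg : Module.finrank L₀ F = Module.finrank L₀k Fk)
    (S : Finset A) (hS : Set.InjOn G.π (S : Set A))
    (hNC : ∀ c : A, c ∉ S → (Ideal.span
      {algebraMap K[X] (integralClosure K[X] F) (X - C (c : K))}).IsRadical)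
    (z : Fk) (hz : IsIntegral k[X] z) :
    ∃ f : G.O, (polyF (A := A) (F := F)).IsIntegralElem (f : F) ∧ G.ρ f = z := by
  haveI := G.isIntegrallyClosed_Tk L₀ L₀k hdeg S hS hNC
  haveI := G.isFractionRing_Tk L₀ L₀k
  have hzT : IsIntegral G.Tk z := hz.tower_top
  obtain ⟨t, ht⟩ := IsIntegrallyClosed.isIntegral_iff.mp hzT
  obtain ⟨f, hf, hfz⟩ := (G.mem_Tk _).mp t.2
  exact ⟨f, G.isIntegralElem_of_mem L₀ L₀k hdeg f f.2 hf, hfz.trans ht⟩

end RedCtx

end Fermat.Agent.S37.H159

end
-- ===== PACK-END S37/H159/MMain.lean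

-- ===== PACK-BEGIN S19/H679/Conj.lean
section



/-!
# Cell A3 (S19), block UNR (helper679) — the conjugate family and the local algebra `Hloc`

For a `LocalCoordDatum` `L` (valuation ring `V`, coordinates `Ψ_i`, equivariant under inertia):

* `conjFamH679 L`  : the functions `δ ⋆ Ψ_i`, `δ ∈ D_V` (a finite set);
* `HlocH679 L`     : the `V`-subalgebra of `M → ℚ̄` generated by them.

Proved here: the generators are `V`-valued and inertia-invariant, `Hloc` is stable under `D_V`,
finitely generated as a `V`-module, contains `ℓ ^ e • 1_m` for some `e` (conductor), and there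
is a finite normal level `E` containing all values, over which the action on `M` is trivial.
-/

set_option autoImplicit false

namespace Fermat.Agent.S19.H679

open Fermat.Agent.S54 Fermat.Agent.S55.Bridge Fermat.Agent.S55.Bridge.H594
open Polynomial

attribute [local instance] isAlgebraic_Qbar isGalois_Qbar

variable {ℓ : ℕ} {M : Type} [AddCommGroup M] {act : GalQ → M → M}

theorem isActH679_of_cont (hact : IsContAddAction act) : IsActH679 act :=
  ⟨hact.act_one, hact.act_mul⟩

/-- The `i`-th coordinate as a function on `M`. -/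
def psiH679 (L : LocalCoordDatum ℓ M act) (i : L.ι) : M → Qb := fun m => L.Ψ m i

/-- The conjugates of the coordinates under the decomposition group. -/
def conjFamH679 (L : LocalCoordDatum ℓ M act) : Set (M → Qb) :=
  {φ | ∃ δ ∈ L.V.decompositionSubgroup ℚ, ∃ i, φ = starH679 act δ (psiH679 L i)}

/-- The local algebra. -/
noncomputable def HlocH679 (L : LocalCoordDatum ℓ M act) : Subalgebra L.V (M → Qb) :=
  Algebra.adjoin L.V (conjFamH679 L)

/-- Functions with values in `V`. -/
noncomputable def valuedH679 (V : ValuationSubring Qb) (N : Type*) : Subalgebra V (N → Qb) where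
  carrier := {f | ∀ m, f m ∈ V}
  mul_mem' := fun hf hg m => V.mul_mem _ _ (hf m) (hg m)
  add_mem' := fun hf hg m => V.add_mem _ _ (hf m) (hg m)
  algebraMap_mem' := fun r _ => r.2

theorem mem_valuedH679 {V : ValuationSubring Qb} {N : Type*} {f : N → Qb} :
    f ∈ valuedH679 V N ↔ ∀ m, f m ∈ V := Iff.rfl

section basic

variable (hact : IsContAddAction act) (L : LocalCoordDatum ℓ M act)

include hact in
theorem psi_mem_conjFamH679 (i : L.ι) : psiH679 L i ∈ conjFamH679 L :=
  ⟨1, (L.V.decompositionSubgroup ℚ).one_mem, i, (starH679_one (isActH679_of_cont hact) _).symm⟩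

include hact in
theorem psi_mem_HlocH679 (i : L.ι) : psiH679 L i ∈ HlocH679 L :=
  Algebra.subset_adjoin (psi_mem_conjFamH679 hact L i)

include hact in
/-- The coordinates are inertia-invariant. -/
theorem star_psiH679 {ι : GalQ} (hι : ι ∈ L.V.inertiaSubgroupIn ℚ) (i : L.ι) :
    starH679 act ι (psiH679 L i) = psiH679 L i := by
  rw [starH679_eq_self_iff (isActH679_of_cont hact)]
  intro m
  exact L.equivariant ι (isInertiaAt_of_memH679 hι) m i

theorem conjFam_valuedH679 {φ : M → Qb} (hφ : φ ∈ conjFamH679 L) (m : M) : φ m ∈ L.V := by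
  obtain ⟨δ, hδ, i, rfl⟩ := hφ
  exact (mem_decompH679 hδ _).2 (L.integral _ i)

include hact in
theorem conjFam_inertiaH679 {φ : M → Qb} (hφ : φ ∈ conjFamH679 L) {ι : GalQ}
    (hι : ι ∈ L.V.inertiaSubgroupIn ℚ) : starH679 act ι φ = φ := by
  obtain ⟨δ, hδ, i, rfl⟩ := hφ
  have hA := isActH679_of_cont hact
  have h1 : δ⁻¹ * ι * δ ∈ L.V.inertiaSubgroupIn ℚ := by
    have := conj_mem_inertiaH679 ((L.V.decompositionSubgroup ℚ).inv_mem hδ) hι
    rwa [inv_inv] at this
  have h2 : ι * δ = δ * (δ⁻¹ * ι * δ) := by group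
  rw [← starH679_mul hA, h2, starH679_mul hA, star_psiH679 hact L h1]

include hact in
theorem conjFam_stableH679 {φ : M → Qb} (hφ : φ ∈ conjFamH679 L) {δ : GalQ}
    (hδ : δ ∈ L.V.decompositionSubgroup ℚ) : starH679 act δ φ ∈ conjFamH679 L := by
  obtain ⟨δ', hδ', i, rfl⟩ := hφ
  exact ⟨δ * δ', (L.V.decompositionSubgroup ℚ).mul_mem hδ hδ', i,
    (starH679_mul (isActH679_of_cont hact) _ _ _).symm⟩

theorem Hloc_le_valuedH679 : HlocH679 L ≤ valuedH679 L.V M :=
  Algebra.adjoin_le fun _ hφ => conjFam_valuedH679 L hφ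

end basic

/-- Transport of membership in an adjoin along the semilinear action of a decomposition
element. -/
theorem star_mem_adjoinH679 {V : ValuationSubring Qb} {N : Type*} (act' : GalQ → N → N)
    {δ : GalQ} (hδ : δ ∈ V.decompositionSubgroup ℚ) (S S' : Set (N → Qb))
    (hS : ∀ g ∈ S, starH679 act' δ g ∈ Algebra.adjoin V S') {h : N → Qb}
    (hh : h ∈ Algebra.adjoin V S) : starH679 act' δ h ∈ Algebra.adjoin V S' := by
  induction hh using Algebra.adjoin_induction with
  | mem x hx => exact hS x hx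
  | algebraMap r =>
    have : starH679 act' δ (algebraMap V (N → Qb) r)
        = algebraMap V (N → Qb) ⟨δ (r : Qb), (mem_decompH679 hδ _).2 r.2⟩ := by
      funext m
      rfl
    rw [this]
    exact Subalgebra.algebraMap_mem _ _
  | add x y _ _ hx hy =>
    rw [starH679_add]
    exact add_mem hx hy
  | mul x y _ _ hx hy =>
    have : starH679 act' δ (x * y) = starH679 act' δ x * starH679 act' δ y :=
      _root_.map_mul (starRingHomH679 act' δ) x y
    rw [this]
    exact mul_mem hx hy

theorem Hloc_stableH679 (hact : IsContAddAction act) (L : LocalCoordDatum ℓ M act)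
    {δ : GalQ} (hδ : δ ∈ L.V.decompositionSubgroup ℚ) {h : M → Qb} (hh : h ∈ HlocH679 L) :
    starH679 act δ h ∈ HlocH679 L :=
  star_mem_adjoinH679 act hδ _ _
    (fun _ hg => Algebra.subset_adjoin (conjFam_stableH679 hact L hg hδ)) hh

/-! ## The level -/

section level

variable [Finite M]

/-- A finite normal level containing a given finite set, over which the action is trivial. -/
theorem exists_levelH679 (hact : IsContAddAction act) (s : Finset Qb) :
    ∃ E : IntermediateField ℚ Qb, FiniteDimensional ℚ E ∧ Normal ℚ E ∧ (∀ x ∈ s, x ∈ E) ∧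
      ∀ ρ : GalQ, (∀ x ∈ E, ρ x = x) → ∀ m, act ρ m = m := by
  classical
  choose Lm hLfin hLfix using hact.cont
  haveI : ∀ m, FiniteDimensional ℚ (Lm m) := hLfin
  haveI : FiniteDimensional ℚ (IntermediateField.adjoin ℚ (s : Set Qb)) :=
    IntermediateField.finiteDimensional_adjoin fun x _ => Algebra.IsIntegral.isIntegral x
  set E₀ : IntermediateField ℚ Qb := (⨆ m, Lm m) ⊔ IntermediateField.adjoin ℚ (s : Set Qb)
    with hE₀
  haveI : FiniteDimensional ℚ E₀ := by
    rw [hE₀]
    exact IntermediateField.finiteDimensional_sup _ _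
  refine ⟨IntermediateField.normalClosure ℚ E₀ Qb,
    normalClosure.is_finiteDimensional ℚ E₀ Qb, normalClosure.normal ℚ E₀ Qb, ?_, ?_⟩
  · intro x hx
    apply IntermediateField.le_normalClosure E₀
    exact (le_sup_right : _ ≤ E₀) (IntermediateField.subset_adjoin ℚ _ hx)
  · intro ρ hρ m
    apply hLfix m ρ
    intro a ha
    apply hρ
    apply IntermediateField.le_normalClosure E₀
    exact (le_sup_left : _ ≤ E₀) ((le_iSup Lm m) ha)

end level

/-- `E` is a level for the action: automorphisms fixing `E` act trivially on `M`. -/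
def IsLevelH679 (act : GalQ → M → M) (E : IntermediateField ℚ Qb) : Prop :=
  ∀ ρ : GalQ, (∀ x ∈ E, ρ x = x) → ∀ m, act ρ m = m

section ratfun

variable (hact : IsContAddAction act) {E : IntermediateField ℚ Qb} (hE : IsLevelH679 act E)

include hact hE in
/-- Automorphisms agreeing on `E` act in the same way on `M`. -/
theorem act_eq_of_agreeH679 {σ ρ : GalQ} (h : ∀ x ∈ E, σ x = ρ x) (m : M) :
    act σ m = act ρ m := by
  have h1 : ∀ x ∈ E, (ρ⁻¹ * σ) x = x := by
    intro x hx
    show ρ⁻¹ (σ x) = x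
    rw [h x hx]
    exact galH679_inv_apply ρ x
  have h2 := hE _ h1 m
  have h3 : act σ m = act ρ (act (ρ⁻¹ * σ) m) := by
    rw [← hact.act_mul, mul_inv_cancel_left]
  rw [h3, h2]

include hact hE in
/-- Automorphisms agreeing on `E` act in the same way on `E`-valued functions. -/
theorem star_eq_of_agreeH679 [Normal ℚ E] {σ ρ : GalQ} (h : ∀ x ∈ E, σ x = ρ x) {f : M → Qb}
    (hf : ∀ m, f m ∈ E) : starH679 act σ f = starH679 act ρ f := by
  funext m
  have h1 : ∀ x ∈ E, σ⁻¹ x = ρ⁻¹ x := by
    intro x hx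
    have hx' : ρ⁻¹ x ∈ E := apply_mem_levelH679 E ρ⁻¹ hx
    have h2 := h _ hx'
    rw [galH679_apply_inv] at h2
    calc σ⁻¹ x = σ⁻¹ (σ (ρ⁻¹ x)) := by rw [h2]
      _ = ρ⁻¹ x := galH679_inv_apply σ _
  rw [starH679_apply, starH679_apply, act_eq_of_agreeH679 hact hE h1 m]
  exact h _ (hf _)

end ratfun

theorem smul_applyH679 {V : ValuationSubring Qb} {N : Type*} (r : V) (f : N → Qb) (n : N) :
    (r • f) n = (r : Qb) * f n := rfl

/-! ## Integrality and finite generation -/

/-- A `V`-valued function on a finite set is integral over `V`. -/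
theorem isIntegral_of_valuedH679 {N : Type*} [Finite N] (V : ValuationSubring Qb) (f : N → Qb)
    (hf : ∀ n, f n ∈ V) : IsIntegral V f := by
  classical
  haveI := Fintype.ofFinite N
  refine ⟨∏ n : N, (X - C (⟨f n, hf n⟩ : V)), monic_prod_of_monic _ _ fun n _ => monic_X_sub_C _,
    ?_⟩
  funext n
  have h1 := Polynomial.hom_eval₂ (∏ n : N, (X - C (⟨f n, hf n⟩ : V)))
    (algebraMap V (N → Qb)) (Pi.evalRingHom (fun _ : N => Qb) n) f
  show Pi.evalRingHom (fun _ : N => Qb) n (eval₂ (algebraMap V (N → Qb)) f _) = 0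
  rw [h1, Polynomial.eval₂_finsetProd]
  refine Finset.prod_eq_zero (Finset.mem_univ n) ?_
  rw [eval₂_sub, eval₂_X, eval₂_C]
  show f n - f n = 0
  exact sub_self _

/-- Data of a finite normal level for a local coordinate datum. -/
structure LevelDataH679 (L : LocalCoordDatum ℓ M act) where
  E : IntermediateField ℚ Qb
  fin : FiniteDimensional ℚ E
  normal : Normal ℚ E
  level : IsLevelH679 act E
  psi_mem : ∀ m i, L.Ψ m i ∈ E

theorem exists_levelDataH679 [Finite M] (hact : IsContAddAction act)
    (L : LocalCoordDatum ℓ M act) : Nonempty (LevelDataH679 L) := by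
  classical
  haveI := L.fin
  haveI := Fintype.ofFinite M
  haveI := Fintype.ofFinite L.ι
  obtain ⟨E, h1, h2, h3, h4⟩ := exists_levelH679 hact
    (Finset.univ.image fun p : M × L.ι => L.Ψ p.1 p.2)
  exact ⟨⟨E, h1, h2, h4, fun m i => h3 _ (Finset.mem_image_of_mem _ (Finset.mem_univ (m, i)))⟩⟩

section withLevel

variable (hact : IsContAddAction act) (L : LocalCoordDatum ℓ M act) (Λ : LevelDataH679 L)

theorem conjFam_mem_levelH679 {φ : M → Qb} (hφ : φ ∈ conjFamH679 L) (m : M) : φ m ∈ Λ.E := by
  haveI := Λ.normal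
  obtain ⟨δ, -, i, rfl⟩ := hφ
  exact apply_mem_levelH679 Λ.E δ (Λ.psi_mem _ i)

include hact Λ in
theorem conjFam_finiteH679 : (conjFamH679 L).Finite := by
  classical
  haveI := Λ.normal
  haveI := Λ.fin
  haveI := L.fin
  haveI := Fintype.ofFinite L.ι
  obtain ⟨reps, hreps⟩ := exists_repsH679 Λ.E
  refine Set.Finite.subset
    ((reps ×ˢ (Finset.univ : Finset L.ι)).image
      fun p : GalQ × L.ι => starH679 act p.1 (psiH679 L p.2)).finite_toSet ?_
  rintro φ ⟨δ, -, i, rfl⟩
  obtain ⟨ρ, hρ, hδρ⟩ := hreps δ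
  rw [Finset.mem_coe, Finset.mem_image]
  refine ⟨(ρ, i), Finset.mem_product.2 ⟨hρ, Finset.mem_univ i⟩, ?_⟩
  exact (star_eq_of_agreeH679 hact Λ.level hδρ fun m => Λ.psi_mem m i).symm

include hact Λ in
/-- `Hloc` is a finitely generated `V`-module. -/
theorem Hloc_fgH679 [Finite M] : (Subalgebra.toSubmodule (HlocH679 L)).FG :=
  fg_adjoin_of_finite (conjFam_finiteH679 hact L Λ) fun φ hφ =>
    isIntegral_of_valuedH679 L.V φ (conjFam_valuedH679 L hφ)

/-- The functions used as module generators of `Hloc`: `E`-valued, inertia-invariant elements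
of `Hloc`. -/
def IsGoodFunH679 (f : M → Qb) : Prop :=
  (∀ m, f m ∈ Λ.E) ∧ (∀ ι ∈ L.V.inertiaSubgroupIn ℚ, starH679 act ι f = f) ∧ f ∈ HlocH679 L

include hact in
theorem isGoodFun_of_mem_closureH679 {f : M → Qb}
    (hf : f ∈ Submonoid.closure (conjFamH679 L)) : IsGoodFunH679 L Λ f := by
  induction hf using Submonoid.closure_induction with
  | mem x hx =>
    exact ⟨conjFam_mem_levelH679 L Λ hx, fun ι hι => conjFam_inertiaH679 hact L hx hι,
      Algebra.subset_adjoin hx⟩
  | one =>
    refine ⟨fun m => Λ.E.one_mem, fun ι _ => ?_, one_mem _⟩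
    exact _root_.map_one (starRingHomH679 (Ω := Qb) act ι)
  | mul x y _ _ hx hy =>
    refine ⟨fun m => Λ.E.mul_mem (hx.1 m) (hy.1 m), fun ι hι => ?_, mul_mem hx.2.2 hy.2.2⟩
    have : starH679 act ι (x * y) = starH679 act ι x * starH679 act ι y :=
      _root_.map_mul (starRingHomH679 act ι) x y
    rw [this, hx.2.1 ι hι, hy.2.1 ι hι]

include hact in
/-- `Hloc` is spanned by good functions. -/
theorem Hloc_le_span_goodH679 :
    Subalgebra.toSubmodule (HlocH679 L) ≤ Submodule.span L.V {f | IsGoodFunH679 L Λ f} := by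
  rw [HlocH679, Algebra.adjoin_eq_span]
  exact Submodule.span_mono fun f hf => isGoodFun_of_mem_closureH679 hact L Λ hf

end withLevel

/-! ## The conductor -/

section conductor

variable [Finite M] (hℓ : ℓ.Prime) (hact : IsContAddAction act) (L : LocalCoordDatum ℓ M act)

include hℓ hact in
/-- Multiples of the indicator functions lie in `Hloc`. -/
theorem exists_single_memH679 (m : M) :
    ∃ (e : ℕ) (P : M → Qb), P ∈ HlocH679 L ∧ P m = (ℓ : Qb) ^ e ∧ ∀ m', m' ≠ m → P m' = 0 := by
  classical
  haveI := Fintype.ofFinite M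
  have hsep : ∀ m' : M, ∃ g : M → Qb, g ∈ HlocH679 L ∧ (m' ≠ m → g m' = 0) ∧ g m ≠ 0 := by
    intro m'
    by_cases h : m' = m
    · exact ⟨1, one_mem _, fun h' => absurd h h', one_ne_zero⟩
    · have hex : ∃ i : L.ι, L.Ψ m i ≠ L.Ψ m' i := by
        by_contra hcon
        push Not at hcon
        apply h
        apply L.inj
        funext i
        exact (hcon i).symm
      obtain ⟨i, hi⟩ := hex
      refine ⟨psiH679 L i - algebraMap L.V (M → Qb) ⟨L.Ψ m' i, L.integral m' i⟩,
        sub_mem (psi_mem_HlocH679 hact L i) (Subalgebra.algebraMap_mem _ _), fun _ => ?_, ?_⟩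
      · show L.Ψ m' i - L.Ψ m' i = 0
        exact sub_self _
      · show L.Ψ m i - L.Ψ m' i ≠ 0
        exact sub_ne_zero.2 hi
  choose g hg1 hg2 hg3 using hsep
  set P : M → Qb := ∏ m', g m' with hP
  have hPmem : P ∈ HlocH679 L := prod_mem fun m' _ => hg1 m'
  have hPval : ∀ n, P n = ∏ m', g m' n := fun n => by
    rw [hP, Finset.prod_apply]
  have hP0 : ∀ m', m' ≠ m → P m' = 0 := by
    intro m' hm'
    rw [hPval]
    exact Finset.prod_eq_zero (Finset.mem_univ m') (hg2 m' hm')
  have hPm : P m ≠ 0 := by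
    rw [hPval]
    exact Finset.prod_ne_zero_iff.2 fun m' _ => hg3 m'
  obtain ⟨e, he⟩ := exists_pow_div_memH679 L.V hℓ L.ell_mem (P m)
  refine ⟨e, (⟨(ℓ : Qb) ^ e * (P m)⁻¹, he⟩ : L.V) • P, Subalgebra.smul_mem _ hPmem _, ?_, ?_⟩
  · rw [smul_applyH679]
    show (ℓ : Qb) ^ e * (P m)⁻¹ * P m = (ℓ : Qb) ^ e
    rw [mul_assoc, inv_mul_cancel₀ hPm, mul_one]
  · intro m' hm'
    rw [smul_applyH679, hP0 m' hm', mul_zero]

include hℓ hact in
/-- **Conductor**: functions with values in `ℓ ^ (e+1) V` lie in `𝔪_V • Hloc`. -/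
theorem exists_conductorH679 :
    ∃ e : ℕ, ∀ F : M → Qb, (∀ m, ∃ z ∈ L.V, F m = (ℓ : Qb) ^ (e + 1) * z) →
      F ∈ IsLocalRing.maximalIdeal L.V • Subalgebra.toSubmodule (HlocH679 L) := by
  classical
  haveI := Fintype.ofFinite M
  choose em P hP1 hP2 hP3 using exists_single_memH679 hℓ hact L
  refine ⟨∑ m, em m, fun F hF => ?_⟩
  choose z hz hFz using hF
  have hle : ∀ m, em m ≤ ∑ m, em m := fun m =>
    Finset.single_le_sum (fun _ _ => Nat.zero_le _) (Finset.mem_univ m)
  have hℓV : (ℓ : Qb) ∈ L.V := mem_of_mem_nonunitsH679 L.V L.ell_mem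
  set lV : L.V := ⟨(ℓ : Qb), hℓV⟩ with hlV
  have hlm : lV ∈ IsLocalRing.maximalIdeal L.V :=
    (ValuationSubring.coe_mem_nonunits_iff).1 L.ell_mem
  have hcoef : ∀ m, (ℓ : Qb) ^ ((∑ m, em m) - em m) * z m ∈ L.V := fun m =>
    L.V.mul_mem _ _ (pow_mem hℓV _) (hz m)
  have hF' : F = ∑ m, lV • ((⟨_, hcoef m⟩ : L.V) • P m) := by
    funext n
    rw [Finset.sum_apply, Finset.sum_eq_single n]
    · rw [smul_applyH679, smul_applyH679, hP2, hFz n]
      show _ = (ℓ : Qb) * ((ℓ : Qb) ^ ((∑ m, em m) - em n) * z n * (ℓ : Qb) ^ em n)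
      have : (∑ m, em m) + 1 = 1 + ((∑ m, em m) - em n) + em n := by
        have := hle n
        omega
      rw [this, pow_add, pow_add, pow_one]
      ring
    · intro m _ hmn
      rw [smul_applyH679, smul_applyH679, hP3 m n (Ne.symm hmn), mul_zero, mul_zero]
    · intro h
      exact absurd (Finset.mem_univ n) h
  rw [hF']
  refine Submodule.sum_mem _ fun m _ => ?_
  exact Submodule.smul_mem_smul hlm (Submodule.smul_mem _ _ (hP1 m))

end conductor

end Fermat.Agent.S19.H679

end
-- ===== PACK-END S19/H679/Conj.lean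

-- ===== PACK-BEGIN A2/Alg/H348/ChartComp.lean
section




/-!
# A2 / ALG / GLUE, `hconst` part, step 2: the components of a chart give discrete valuation rings

In the setting of `Alg/Spec.lean` (`ChartCtx E w x B`, `c : SSChart w B`): the hypotheses
`CompData` of `CompDvr.lean` hold for `A = R[x]`, `B`, `p = c.p₁`, `p' = c.p₂` (and symmetrically),
hence `B_{p_i}` is a discrete valuation ring of `F` with uniformiser `w`
(`compData₁`, `compData₂`).

Reusable pieces:
* `chart_eq`                 : `B = H138.chart R {x}`;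
* `injective_algebraMap_RF`, `transcendental_R`, `prime_w`;
* `isAlgebraic_adjoin`       : `F` is algebraic over `R[x]` (from `hfin`);
* `exists_mul_mem_chart`     : `F = Frac B`, denominators in `R[x]`;
* `contract_of_inf`          : `p ∩ R[x] = w R[x]` (torsion-freeness of `B / w B` over `k[x]`,
                               `H729.mem_chart_of_mul_mem`).
-/

set_option autoImplicit false
set_option linter.unusedSectionVars false
set_option linter.style.haveILetI false

open Polynomial

namespace Fermat.Agent.A2.Alg.H348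

open Fermat.Agent.A2 Fermat.Agent.A2.Alg Fermat.Agent.A2.H348
open Fermat.Agent.S18.H138 (chart baseField)

section Basic

theorem injective_algebraMap_RF (R E F : Type*) [CommRing R] [IsDomain R]
    [Field E] [Algebra R E] [IsFractionRing R E]
    [Field F] [Algebra E F] [Algebra R F] [IsScalarTower R E F] :
    Function.Injective (algebraMap R F) := by
  rw [IsScalarTower.algebraMap_eq R E F]
  exact (algebraMap E F).injective.comp (IsFractionRing.injective R E)

variable {R E F : Type*} [CommRing R] [IsDomain R]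
  [Field E] [Algebra R E] [IsFractionRing R E]
  [Field F] [Algebra E F] [Algebra R F] [IsScalarTower R E F]

variable (R) in
theorem transcendental_R {x : F} (hx : Transcendental E x) : Transcendental R x :=
  hx.restrictScalars (IsFractionRing.injective R E)

/-- `E(x) ⊆ Frac R[x]` inside `F`. -/
theorem adjoin_le_baseField (x : F) :
    (IntermediateField.adjoin E ({x} : Set F)).toSubfield ≤ baseField R x := by
  rw [IntermediateField.adjoin_toSubfield, Subfield.closure_le]
  rintro y (⟨e, rfl⟩ | hy)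
  · obtain ⟨a, b, -, rfl⟩ := IsFractionRing.div_surjective (A := R) e
    rw [map_div₀, ← IsScalarTower.algebraMap_apply, ← IsScalarTower.algebraMap_apply]
    exact (baseField R x).div_mem (Subfield.subset_closure (Or.inl ⟨a, rfl⟩))
      (Subfield.subset_closure (Or.inl ⟨b, rfl⟩))
  · exact Subfield.subset_closure (Or.inr hy)

/-- `F` is algebraic over `R[x]`. -/
theorem isAlgebraic_adjoin {x : F}
    (hfin : FiniteDimensional (IntermediateField.adjoin E ({x} : Set F)) F) (f : F) :
    IsAlgebraic (Algebra.adjoin R ({x} : Set F)) f := by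
  classical
  set A : Subalgebra R F := Algebra.adjoin R ({x} : Set F) with hA
  set K : Subfield F := baseField R x with hK
  have hle := _root_.Fermat.Agent.A2.Alg.H348.adjoin_le_baseField (R := R) (E := E) x
  have h1 : IsAlgebraic (IntermediateField.adjoin E ({x} : Set F)) f :=
    Algebra.IsAlgebraic.isAlgebraic f
  obtain ⟨P, hP0, hP⟩ := h1
  let φ : A →+* K :=
    { toFun := fun a => ⟨a, Fermat.Agent.S18.H138.adjoin_le_baseField x a.2⟩
      map_one' := rfl
      map_mul' := fun _ _ => rfl
      map_zero' := rfl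
      map_add' := fun _ _ => rfl }
  letI : Algebra A K := φ.toAlgebra
  haveI : IsScalarTower A K F := IsScalarTower.of_algebraMap_eq (fun _ => rfl)
  have hinj : Function.Injective (algebraMap A K) := by
    intro a b hab
    have : (a : F) = b := congrArg (fun t : K => (t : F)) hab
    exact Subtype.ext this
  haveI : FaithfulSMul A K := (faithfulSMul_iff_algebraMap_injective A K).2 hinj
  haveI : IsFractionRing A K := by
    refine IsFractionRing.of_field A K (fun z => ?_)
    obtain ⟨a, ha, b, hb, h⟩ := Fermat.Agent.S18.H138.exists_div_of_mem_baseField (R := R) x z.2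
    exact ⟨⟨a, ha⟩, ⟨b, hb⟩, Subtype.ext h⟩
  rw [IsFractionRing.isAlgebraic_iff A K F]
  refine ⟨P.map (Subfield.inclusion hle), ?_, ?_⟩
  · exact (Polynomial.map_ne_zero_iff (Subfield.inclusion hle).injective).2 hP0
  · rw [aeval_def, eval₂_map]
    exact hP

end Basic

section Chart

variable {R E F : Type*} [CommRing R] [IsDomain R] [IsDiscreteValuationRing R]
  [Field E] [Algebra R E] [IsFractionRing R E]
  [Field F] [Algebra E F] [Algebra R F] [IsScalarTower R E F]

theorem prime_w {w : R} (hw : Irreducible w) : Prime w := hw.prime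

theorem chart_eq {w : R} {x : F} {B : Subalgebra R F} (hB : ChartCtx E w x B) :
    B = chart R ({x} : Set F) := by
  ext f
  rw [hB.hB f]
  rfl

/-- `F = Frac B`, with denominators in `R[x]`. -/
theorem exists_mul_mem_chart {x : F}
    (hfin : FiniteDimensional (IntermediateField.adjoin E ({x} : Set F)) F) (f : F) :
    ∃ a ∈ Algebra.adjoin R ({x} : Set F), a ≠ 0 ∧ a * f ∈ chart R ({x} : Set F) := by
  obtain ⟨a, ha0, ha⟩ := (isAlgebraic_adjoin (R := R) (E := E) hfin f).exists_integral_multiple
  refine ⟨a, a.2, fun h => ha0 (Subtype.ext h), ?_⟩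
  exact ha

/-- every nonzero element of the chart divides a nonzero element of `R[x]`. -/
theorem exists_cofactor {x : F} {b : F} (hb : b ∈ chart R ({x} : Set F)) (hb0 : b ≠ 0) :
    ∃ g ∈ chart R ({x} : Set F), b * g ∈ Algebra.adjoin R ({x} : Set F) ∧ b * g ≠ 0 := by
  have hint : IsIntegral (Algebra.adjoin R ({x} : Set F)) b := hb
  obtain ⟨t, ht, r, hr, h⟩ := hint.isAlgebraic.exists_nonzero_eq_adjoin_mul
    (mem_nonZeroDivisors_of_ne_zero hb0)
  have ht' : IsIntegral (Algebra.adjoin R ({x} : Set F)) t := adjoin_le_integralClosure hint ht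
  refine ⟨t, ht', ?_, ?_⟩
  · rw [h]; exact r.2
  · rw [h]
    intro h0
    exact hr (Subtype.ext h0)

/-- no nonzero element of `R[x]` is divisible by all powers of `w`. -/
theorem exists_not_pow_dvd {w : R} (hw : Irreducible w) {x : F} (hx : Transcendental R x)
    {a : F} (ha : a ∈ Algebra.adjoin R ({x} : Set F)) (ha0 : a ≠ 0) :
    ∃ n : ℕ, ∀ a' ∈ Algebra.adjoin R ({x} : Set F), a ≠ algebraMap R F w ^ (n + 1) * a' := by
  haveI := Fermat.Agent.S18.H138.isNoetherianRing_adjoin_singleton (R := R) hx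
  have hpr := Fermat.Agent.A2.H729.prime_algebraMap_adjoin (prime_w hw) hx
  have hfm : FiniteMultiplicity (algebraMap R (Algebra.adjoin R ({x} : Set F)) w)
      (⟨a, ha⟩ : Algebra.adjoin R ({x} : Set F)) :=
    FiniteMultiplicity.of_not_isUnit hpr.not_unit (fun h => ha0 (congrArg Subtype.val h))
  obtain ⟨n, hn⟩ := hfm
  refine ⟨n, fun a' ha' h => hn ⟨⟨a', ha'⟩, ?_⟩⟩
  apply Subtype.ext
  exact h

/-- `p ∩ R[x] = w R[x]` for a component `p` of the special fibre of the chart. -/
theorem contract_of_inf {w : R} (hw : Irreducible w) {x : F} (hx : Transcendental R x)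
    {p p' : Ideal (chart R ({x} : Set F))}
    (hinf : p ⊓ p' = Ideal.span {algebraMap R (chart R ({x} : Set F)) w}) (hle : ¬ p' ≤ p)
    (a : chart R ({x} : Set F)) (haA : (a : F) ∈ Algebra.adjoin R ({x} : Set F)) (hap : a ∈ p) :
    ∃ a' ∈ Algebra.adjoin R ({x} : Set F), (a : F) = algebraMap R F w * a' := by
  by_contra hcon
  have hw0 : algebraMap R F w ≠ 0 := by
    intro h0
    apply hcon
    exact absurd (Fermat.Agent.A2.H729.prime_algebraMap_adjoin (prime_w hw) hx).ne_zero
      (by
        intro hne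
        apply hne
        apply Subtype.ext
        exact h0)
  have hnd : ¬ algebraMap R (Algebra.adjoin R ({x} : Set F)) w ∣
      (⟨(a : F), haA⟩ : Algebra.adjoin R ({x} : Set F)) := by
    rintro ⟨a', ha'⟩
    apply hcon
    refine ⟨a', a'.2, ?_⟩
    exact congrArg Subtype.val ha'
  have hG := Fermat.Agent.A2.H729.isGaussDenom_of_not_dvd hx hnd
  obtain ⟨t, ht', ht⟩ := SetLike.not_le_iff_exists.1 hle
  have hat : a * t ∈ p ⊓ p' := ⟨p.mul_mem_right _ hap, p'.mul_mem_left _ ht'⟩
  rw [hinf, Ideal.mem_span_singleton'] at hat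
  obtain ⟨c, hc⟩ := hat
  have hc' : (c : F) * algebraMap R F w = (a : F) * (t : F) := congrArg Subtype.val hc
  have h1 : algebraMap R F w * ((t : F) * (algebraMap R F w)⁻¹) ∈ chart R ({x} : Set F) := by
    have : algebraMap R F w * ((t : F) * (algebraMap R F w)⁻¹) = (t : F) := by field_simp
    rw [this]; exact t.2
  have h2 : (a : F) * ((t : F) * (algebraMap R F w)⁻¹) ∈ chart R ({x} : Set F) := by
    have : (a : F) * ((t : F) * (algebraMap R F w)⁻¹) = (c : F) := by
      rw [← mul_assoc, ← hc', mul_assoc, mul_inv_cancel₀ hw0, mul_one]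
    rw [this]; exact c.2
  have h3 := Fermat.Agent.A2.H729.mem_chart_of_mul_mem (prime_w hw) hx hG h1 h2
  apply ht
  have h4 : t = algebraMap R (chart R ({x} : Set F)) w * ⟨_, h3⟩ := by
    apply Subtype.ext
    show (t : F) = algebraMap R F w * ((t : F) * (algebraMap R F w)⁻¹)
    field_simp
  have hwp : algebraMap R (chart R ({x} : Set F)) w ∈ p := by
    have : algebraMap R (chart R ({x} : Set F)) w ∈ p ⊓ p' := by
      rw [hinf]; exact Ideal.mem_span_singleton_self _
    exact this.1
  rw [h4]
  exact p.mul_mem_right _ hwp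

theorem adjoin_le_of_ctx {w : R} {x : F} {B : Subalgebra R F} (hB : ChartCtx E w x B) :
    Algebra.adjoin R ({x} : Set F) ≤ B := by
  rw [chart_eq hB]
  exact Fermat.Agent.S18.H138.adjoin_le_chart _

/-- **`CompData` for a component of a chart.** -/
theorem compData_of_inf {w : R} {x : F} {B : Subalgebra R F} (hB : ChartCtx E w x B)
    {p p' : Ideal B} (hinf : p ⊓ p' = Ideal.span {algebraMap R B w}) (hle : ¬ p' ≤ p) :
    CompData (Algebra.adjoin R ({x} : Set F)) B p p' w := by
  obtain rfl := chart_eq hB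
  have hx : Transcendental R x := transcendental_R R hB.hx
  have hw0 : algebraMap R F w ≠ 0 := by
    intro h0
    exact hB.hw.ne_zero (injective_algebraMap_RF R E F (by rw [h0, _root_.map_zero]))
  exact
    { inf_eq := hinf
      not_le := hle
      w_ne := hw0
      contract := contract_of_inf hB.hw hx hinf hle
      finite_mult := fun a ha ha0 => exists_not_pow_dvd hB.hw hx ha ha0
      cofactor := fun b hb hb0 => exists_cofactor hb hb0
      frac := fun f => by
        obtain ⟨a, ha, ha0, haf⟩ := exists_mul_mem_chart (R := R) (E := E) hB.hfin f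
        exact ⟨a, ha, ha0, Fermat.Agent.S18.H138.adjoin_le_chart _ ha, haf⟩ }

theorem compData₁ {w : R} {x : F} {B : Subalgebra R F} (hB : ChartCtx E w x B)
    (c : SSChart w B) : CompData (Algebra.adjoin R ({x} : Set F)) B c.p₁ c.p₂ w :=
  compData_of_inf hB c.inf_eq c.not_le₂₁

theorem compData₂ {w : R} {x : F} {B : Subalgebra R F} (hB : ChartCtx E w x B)
    (c : SSChart w B) : CompData (Algebra.adjoin R ({x} : Set F)) B c.p₂ c.p₁ w :=
  compData_of_inf hB (by rw [inf_comm]; exact c.inf_eq) c.not_le₁₂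

end Chart

end Fermat.Agent.A2.Alg.H348

end
-- ===== PACK-END A2/Alg/H348/ChartComp.lean

-- ===== PACK-BEGIN S18/B12/H203/DiscrRed.lean
section




/-!
# S18 / b2.5, piece A3: discriminant reduction mod `w` (`DiscrRedStatement`)

`P` an integrally closed domain, `B` an integrally closed domain, finite and torsion-free over `P`,
`w ∈ P` prime, `𝔪 ∋ w` a prime ideal, `x` a basis of `B` locally at `𝔪` (`g • B ⊆ span x`, `g ∉ 𝔪`),
`bb` a basis of `B/wB` over `P/(w)`.  Then `bb` has as many elements as `x` and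
`intDiscr x mod w = ū² · disc bb` with `u ∉ 𝔪`.
-/

set_option autoImplicit false
set_option linter.unusedSectionVars false
set_option linter.unusedVariables false

noncomputable section

namespace Fermat.Agent.S18.B12.H203

open Fermat.Agent.S18.H203

universe u v

section Quasi

variable {P : Type*} {B : Type*} [CommRing P] [CommRing B] [Algebra P B]
  {ι : Type*} [Fintype ι]

/-- Coefficients of `g • b` with respect to a quasi-basis. -/
theorem exists_coef_of_smul_mem (x : ι → B) (g : P)
    (hg : ∀ b : B, g • b ∈ Submodule.span P (Set.range x)) :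
    ∃ c : B → ι → P, ∀ b, g • b = ∑ i, c b i • x i := by
  choose c hc using fun b => (Submodule.mem_span_range_iff_exists_fun P).mp (hg b)
  exact ⟨c, fun b => (hc b).symm⟩

/-- The reduction mod `w` of a quasi-basis (with `w ∤ g`) is linearly independent. -/
theorem linearIndependent_red_of_quasi [IsDomain P] {w : P} (hw : Prime w) (x : ι → B)
    (hli : LinearIndependent P x) (g : P) (hgw : ¬ w ∣ g)
    (hg : ∀ b : B, g • b ∈ Submodule.span P (Set.range x)) :
    LinearIndependent (P ⧸ Ideal.span {w}) fun i => redB (S := P) w (x i) := by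
  obtain ⟨c, hc⟩ := exists_coef_of_smul_mem x g hg
  rw [Fintype.linearIndependent_iff]
  intro ab hab i
  choose a ha using fun i => Ideal.Quotient.mk_surjective (ab i)
  have h1 : redB (S := P) w (∑ i, a i • x i) = 0 := by
    rw [map_sum, ← hab]
    refine Finset.sum_congr rfl fun i _ => ?_
    rw [redB_smul, ha]
  rw [redB_eq_zero_iff] at h1
  obtain ⟨b', hb'⟩ := h1
  have h2 : ∑ i, (g * a i) • x i = ∑ i, (w * c b' i) • x i := by
    calc ∑ i, (g * a i) • x i = g • ∑ i, a i • x i := by
          rw [Finset.smul_sum]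
          exact Finset.sum_congr rfl fun i _ => mul_smul _ _ _
      _ = g • (algebraMap P B w * b') := by rw [hb']
      _ = w • (g • b') := by rw [← Algebra.smul_def, smul_comm]
      _ = ∑ i, (w * c b' i) • x i := by
          rw [hc, Finset.smul_sum]
          exact Finset.sum_congr rfl fun i _ => (mul_smul _ _ _).symm
  have h3 : g * a i = w * c b' i := by
    have := Fintype.linearIndependent_iff.mp hli (fun i => g * a i - w * c b' i) (by
      simp only [sub_smul, Finset.sum_sub_distrib, h2, sub_self])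
    exact sub_eq_zero.mp (this i)
  have h4 : w ∣ a i := (hw.dvd_or_dvd ⟨c b' i, h3⟩).resolve_left hgw
  rw [← ha i]
  exact (redS_eq_zero_iff w (a i)).mpr h4

end Quasi

section Abstract

variable {A V : Type*} [CommRing A] [CommRing V] [Algebra A V] {n : ℕ}

/-- If `g • bb j = ∑ i, N i j • xb i` then `toMatrix bb xb * N = g • 1`. -/
theorem toMatrix_mul_eq_smul_one (bb : Module.Basis (Fin n) A V) (xb : Fin n → V) (g : A)
    (N : Matrix (Fin n) (Fin n) A) (hN : ∀ j, g • bb j = ∑ i, N i j • xb i) :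
    bb.toMatrix xb * N = g • (1 : Matrix (Fin n) (Fin n) A) := by
  ext l j
  have h := congrArg (fun v => bb.repr v l) (hN j)
  simp only [map_smul, Finsupp.smul_apply, smul_eq_mul, map_sum, Finsupp.coe_finsetSum,
    Finset.sum_apply, Module.Basis.repr_self, Finsupp.single_apply] at h
  rw [Matrix.mul_apply, Matrix.smul_apply, Matrix.one_apply, smul_eq_mul]
  simp only [Module.Basis.toMatrix_apply]
  rw [show (∑ k, bb.repr (xb k) l * N k j) = ∑ k, N k j * bb.repr (xb k) l from
    Finset.sum_congr rfl fun k _ => mul_comm _ _, ← h]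
  by_cases hlj : l = j
  · simp [hlj]
  · have : ¬ j = l := fun h' => hlj h'.symm
    simp [hlj, this]

/-- The determinant of the transition matrix to a quasi-basis is nonzero. -/
theorem det_toMatrix_ne_zero [IsDomain A] (bb : Module.Basis (Fin n) A V) (xb : Fin n → V)
    (g : A) (hg0 : g ≠ 0) (N : Matrix (Fin n) (Fin n) A)
    (hN : ∀ j, g • bb j = ∑ i, N i j • xb i) :
    (bb.toMatrix xb).det * N.det = g ^ n ∧ (bb.toMatrix xb).det ≠ 0 := by
  have h := congrArg Matrix.det (toMatrix_mul_eq_smul_one bb xb g N hN)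
  rw [Matrix.det_mul, Matrix.det_smul, Matrix.det_one, mul_one, Fintype.card_fin] at h
  refine ⟨h, fun h0 => ?_⟩
  rw [h0, zero_mul] at h
  exact pow_ne_zero n hg0 h.symm

/-- Trace from a "matrix up to a scalar" with respect to a quasi-basis. -/
theorem mul_trace_eq_trace_of_quasi [IsDomain A] (bb : Module.Basis (Fin n) A V)
    (xb : Fin n → V) (hdet : (bb.toMatrix xb).det ≠ 0) (g : A) (β : V)
    (m : Matrix (Fin n) (Fin n) A) (hm : ∀ j, g • (β * xb j) = ∑ i, m i j • xb i) :
    g * Algebra.trace A V β = m.trace := by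
  set M := bb.toMatrix xb with hM
  set T := Algebra.leftMulMatrix bb β with hT
  have key : g • (T * M) = M * m := by
    ext l j
    have h := congrArg (fun v => bb.repr v l) (hm j)
    simp only [map_smul, Finsupp.smul_apply, smul_eq_mul, map_sum, Finsupp.coe_finsetSum,
      Finset.sum_apply] at h
    rw [Matrix.smul_apply, smul_eq_mul, Matrix.mul_apply, Matrix.mul_apply]
    have h1 : ∑ k, T l k * M k j = bb.repr (β * xb j) l := by
      have := congrFun (Algebra.leftMulMatrix_mulVec_repr bb β (xb j)) l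
      rw [← this]
      rfl
    rw [h1, h]
    exact Finset.sum_congr rfl fun k _ => mul_comm _ _
  have h1 : M.det * (g * T.trace) = M.det * m.trace := by
    calc M.det * (g * T.trace) = ((g • (T * M)) * M.adjugate).trace := by
          rw [Matrix.smul_mul, Matrix.mul_assoc, Matrix.mul_adjugate, Matrix.trace_smul,
            Matrix.mul_smul, Matrix.trace_smul, Matrix.mul_one, smul_eq_mul, smul_eq_mul]
          ring
      _ = (M * m * M.adjugate).trace := by rw [key]
      _ = (M.adjugate * (M * m)).trace := by rw [Matrix.trace_mul_comm]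
      _ = M.det * m.trace := by
          rw [← Matrix.mul_assoc, Matrix.adjugate_mul, Matrix.smul_mul, Matrix.one_mul,
            Matrix.trace_smul, smul_eq_mul]
  rw [Algebra.trace_eq_matrix_trace bb]
  exact mul_left_cancel₀ hdet h1

end Abstract

section Generic

variable {S B : Type*} [CommRing S] [IsDomain S] [CommRing B] [Algebra S B]
  {ι : Type*} [Fintype ι]

/-- A linearly independent family of `B` stays linearly independent in the generic fibre. -/
theorem linearIndependent_map_of_linearIndependent (K F : Type*) [Field K] [Algebra S K]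
    [IsFractionRing S K] [Field F] [Algebra K F] [Algebra S F] [IsScalarTower S K F]
    [Algebra B F] [IsScalarTower S B F] [IsIntegralClosure B S F]
    (b : ι → B) (h1 : LinearIndependent S b) :
    LinearIndependent K fun i => algebraMap B F (b i) := by
  have h2 : LinearIndependent S fun i => algebraMap B F (b i) := by
    have := h1.map' (IsScalarTower.toAlgHom S B F).toLinearMap
      (LinearMap.ker_eq_bot.mpr (IsIntegralClosure.algebraMap_injective B S F))
    exact this
  exact (LinearIndependent.iff_fractionRing S K).mp h2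

/-- A quasi-basis spans the generic fibre. -/
theorem span_map_eq_top_of_smul_mem (K F : Type*) [Field K] [Algebra S K]
    [IsFractionRing S K] [Field F] [Algebra K F] [Algebra S F] [IsScalarTower S K F]
    [Algebra B F] [IsScalarTower S B F] [IsIntegralClosure B S F]
    [Algebra.IsAlgebraic K F]
    (r : S) (hr0 : r ≠ 0) (b : ι → B)
    (hr : ∀ β : B, r • β ∈ Submodule.span S (Set.range b)) :
    Submodule.span K (Set.range fun i => algebraMap B F (b i)) = ⊤ := by
  have hinjSK : Function.Injective (algebraMap S K) := IsFractionRing.injective S K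
  rw [eq_top_iff]
  intro f _
  have hf : IsAlgebraic S f := by
    have := Algebra.IsAlgebraic.isAlgebraic (R := K) f
    exact (IsFractionRing.isAlgebraic_iff S K F).mpr this
  obtain ⟨y, hy0, hy⟩ := hf.exists_integral_multiple
  obtain ⟨β, hβ⟩ := (IsIntegralClosure.isIntegral_iff (A := B)).mp hy
  have h1 := hr β
  have h2 : algebraMap B F (r • β) ∈
      Submodule.span K (Set.range fun i => algebraMap B F (b i)) := by
    have h3 : (IsScalarTower.toAlgHom S B F).toLinearMap (r • β) ∈
        Submodule.map (IsScalarTower.toAlgHom S B F).toLinearMap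
          (Submodule.span S (Set.range b)) := Submodule.mem_map_of_mem h1
    rw [Submodule.map_span, ← Set.range_comp] at h3
    have h4 : Submodule.span S (Set.range ((IsScalarTower.toAlgHom S B F).toLinearMap ∘ b)) ≤
        (Submodule.span K (Set.range fun i => algebraMap B F (b i))).restrictScalars S := by
      rw [Submodule.span_le]
      rintro _ ⟨i, rfl⟩
      exact Submodule.subset_span ⟨i, rfl⟩
    exact h4 h3
  have h5 : algebraMap B F (r • β) = (algebraMap S K (r * y)) • f := by
    rw [Algebra.smul_def r β, map_mul, hβ, ← IsScalarTower.algebraMap_apply,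
      Algebra.smul_def y f, Algebra.smul_def, ← IsScalarTower.algebraMap_apply, map_mul]
    ring
  rw [h5] at h2
  have h6 : algebraMap S K (r * y) ≠ 0 := by
    simpa using (map_ne_zero_iff _ hinjSK).mpr (mul_ne_zero hr0 hy0)
  have h7 := Submodule.smul_mem _ (algebraMap S K (r * y))⁻¹ h2
  rwa [smul_smul, inv_mul_cancel₀ h6, one_smul] at h7

/-- The `K`-basis of the generic fibre given by a quasi-basis. -/
def quasiBasis (K F : Type*) [Field K] [Algebra S K]
    [IsFractionRing S K] [Field F] [Algebra K F] [Algebra S F] [IsScalarTower S K F]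
    [Algebra B F] [IsScalarTower S B F] [IsIntegralClosure B S F]
    [Algebra.IsAlgebraic K F]
    (b : ι → B) (hli : LinearIndependent S b) (r : S) (hr0 : r ≠ 0)
    (hr : ∀ β : B, r • β ∈ Submodule.span S (Set.range b)) :
    Module.Basis ι K F :=
  Module.Basis.mk (linearIndependent_map_of_linearIndependent K F b hli)
    (span_map_eq_top_of_smul_mem K F r hr0 b hr).ge

@[simp]
theorem quasiBasis_apply (K F : Type*) [Field K] [Algebra S K]
    [IsFractionRing S K] [Field F] [Algebra K F] [Algebra S F] [IsScalarTower S K F]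
    [Algebra B F] [IsScalarTower S B F] [IsIntegralClosure B S F]
    [Algebra.IsAlgebraic K F]
    (b : ι → B) (hli : LinearIndependent S b) (r : S) (hr0 : r ≠ 0)
    (hr : ∀ β : B, r • β ∈ Submodule.span S (Set.range b)) (i : ι) :
    quasiBasis K F b hli r hr0 hr i = algebraMap B F (b i) := by
  simp [quasiBasis]

/-- Trace in the generic fibre from a matrix up to a scalar, with respect to a quasi-basis. -/
theorem mul_trace_eq_sum_of_quasi [DecidableEq ι] (K F : Type*) [Field K] [Algebra S K]
    [IsFractionRing S K] [Field F] [Algebra K F] [Algebra S F] [IsScalarTower S K F]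
    [Algebra B F] [IsScalarTower S B F] [IsIntegralClosure B S F]
    [Algebra.IsAlgebraic K F]
    (b : ι → B) (hli : LinearIndependent S b) (r : S) (hr0 : r ≠ 0)
    (hr : ∀ β : B, r • β ∈ Submodule.span S (Set.range b))
    (β : B) (m : ι → ι → S) (hm : ∀ j, r • (β * b j) = ∑ i, m i j • b i) :
    algebraMap S K r * Algebra.trace K F (algebraMap B F β) = ∑ i, algebraMap S K (m i i) := by
  have hK : ∀ j, algebraMap S K r • (algebraMap B F β * quasiBasis K F b hli r hr0 hr j) =
      ∑ i, algebraMap S K (m i j) • quasiBasis K F b hli r hr0 hr i := by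
    intro j
    have := congrArg (algebraMap B F) (hm j)
    simp only [map_sum, Algebra.smul_def, map_mul, ← IsScalarTower.algebraMap_apply] at this
    simp only [quasiBasis_apply, Algebra.smul_def, ← IsScalarTower.algebraMap_apply]
    exact this
  exact mul_trace_eq_sum (quasiBasis K F b hli r hr0 hr) (algebraMap B F β) (algebraMap S K r)
    (fun i j => algebraMap S K (m i j)) hK

end Generic

section IntTrace

variable {P : Type u} {B : Type v} [CommRing P] [IsDomain P] [IsIntegrallyClosed P]
  [CommRing B] [IsDomain B] [IsIntegrallyClosed B] [Algebra P B] [Module.Finite P B]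
  [Module.IsTorsionFree P B] {ι : Type*} [Fintype ι] [DecidableEq ι]

open nonZeroDivisors in
/-- The integral trace from a matrix up to a scalar, with respect to a quasi-basis. -/
theorem mul_intTrace_eq_sum_of_quasi
    (b : ι → B) (hli : LinearIndependent P b) (r : P) (hr0 : r ≠ 0)
    (hr : ∀ β : B, r • β ∈ Submodule.span P (Set.range b))
    (β : B) (m : ι → ι → P) (hm : ∀ j, r • (β * b j) = ∑ i, m i j • b i) :
    r * Algebra.intTrace P B β = ∑ i, m i i := by
  let _ : Algebra (FractionRing P) (FractionRing B) := FractionRing.liftAlgebra P _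
  have : IsScalarTower P (FractionRing P) (FractionRing B) :=
    FractionRing.isScalarTower_liftAlgebra P (FractionRing B)
  have : IsIntegralClosure B P (FractionRing B) :=
    IsIntegralClosure.of_isIntegrallyClosed _ _ _
  have : Algebra.IsAlgebraic (FractionRing P) (FractionRing B) :=
    isAlgebraic_of_isFractionRing P B ..
  apply IsFractionRing.injective P (FractionRing P)
  rw [map_mul, Algebra.algebraMap_intTrace_fractionRing, map_sum]
  exact mul_trace_eq_sum_of_quasi (FractionRing P) (FractionRing B) b hli r hr0 hr β m hm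

end IntTrace

section Final

variable {P : Type u} {B : Type v} [CommRing P] [IsDomain P] [CommRing B] [Algebra P B]

/-- Reduction of the quasi-basis relation: `ḡ • β̄ ∈ span x̄`, with coefficients. -/
theorem exists_red_coef {w : P} {ι : Type*} [Fintype ι] (x : ι → B) (g : P)
    (hg : ∀ b : B, g • b ∈ Submodule.span P (Set.range x))
    (y : B ⧸ (Ideal.span {w}).map (algebraMap P B)) :
    ∃ c : ι → P ⧸ Ideal.span {w}, redS w g • y = ∑ i, c i • redB (S := P) w (x i) := by
  obtain ⟨b, rfl⟩ := Ideal.Quotient.mk_surjective y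
  obtain ⟨c, hc⟩ := (Submodule.mem_span_range_iff_exists_fun P).mp (hg b)
  refine ⟨fun i => redS w (c i), ?_⟩
  have := congrArg (redB (S := P) w) hc
  rw [redB_smul] at this
  rw [← this, map_sum]
  exact Finset.sum_congr rfl fun i _ => (redB_smul w (c i) (x i)).symm

theorem isDomain_quotient_span_of_prime {w : P} (hw : Prime w) :
    IsDomain (P ⧸ Ideal.span {w}) := by
  have : (Ideal.span {w}).IsPrime := (Ideal.span_singleton_prime hw.ne_zero).mpr hw
  exact Ideal.Quotient.isDomain _

/-- A basis of the special fibre has as many elements as a quasi-basis. -/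
theorem card_eq_of_quasi {w : P} (hw : Prime w) {n n' : ℕ} (x : Fin n → B)
    (hli : LinearIndependent P x) (g : P) (hgw : ¬ w ∣ g)
    (hg : ∀ b : B, g • b ∈ Submodule.span P (Set.range x))
    (bb : Module.Basis (Fin n') (P ⧸ Ideal.span {w})
      (B ⧸ (Ideal.span {w}).map (algebraMap P B))) : n' = n := by
  have hdom : IsDomain (P ⧸ Ideal.span {w}) := isDomain_quotient_span_of_prime hw
  have hg0 : redS w g ≠ 0 := fun h => hgw ((redS_eq_zero_iff w g).mp h)
  apply le_antisymm
  · -- `ḡ • bb` is linearly independent inside `span x̄`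
    have hv : LinearIndependent (P ⧸ Ideal.span {w}) fun j => redS w g • bb j := by
      rw [Fintype.linearIndependent_iff]
      intro a ha j
      have h1 : ∑ j, (a j * redS w g) • bb j = 0 := by
        rw [← ha]
        exact Finset.sum_congr rfl fun j _ => mul_smul _ _ _
      have h2 := Fintype.linearIndependent_iff.mp bb.linearIndependent _ h1 j
      exact (mul_eq_zero.mp h2).resolve_right hg0
    have hsub : Set.range (fun j => redS w g • bb j) ≤
        Submodule.span (P ⧸ Ideal.span {w}) (Set.range fun i => redB (S := P) w (x i)) := by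
      rintro _ ⟨j, rfl⟩
      obtain ⟨c, hc⟩ := exists_red_coef (w := w) x g hg (bb j)
      simp only [SetLike.mem_coe]
      rw [hc]
      exact Submodule.sum_mem _ fun i _ => Submodule.smul_mem _ _ (Submodule.subset_span ⟨i, rfl⟩)
    classical
    have h3 := linearIndependent_le_span_aux' _ hv _ hsub
    have h4 := Fintype.card_range_le (fun i => redB (S := P) w (x i))
    simpa using h3.trans h4
  · have hxb := linearIndependent_red_of_quasi hw x hli g hgw hg
    have hfin : Module.Finite (P ⧸ Ideal.span {w})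
        (B ⧸ (Ideal.span {w}).map (algebraMap P B)) := Module.Finite.of_basis bb
    have h1 := hxb.fintype_card_le_finrank
    rw [Module.finrank_eq_card_basis bb] at h1
    simpa using h1

end Final

section Final2

variable {P : Type u} {B : Type v} [CommRing P] [IsDomain P] [IsIntegrallyClosed P]
  [CommRing B] [IsDomain B] [IsIntegrallyClosed B] [Algebra P B] [Module.Finite P B]
  [Module.IsTorsionFree P B]

/-- **The integral trace commutes with reduction mod `w`** (quasi-basis version). -/
theorem trace_red_of_quasi {w : P} (hw : Prime w) {n : ℕ} (x : Fin n → B)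
    (hli : LinearIndependent P x) (g : P) (hgw : ¬ w ∣ g)
    (hg : ∀ b : B, g • b ∈ Submodule.span P (Set.range x))
    (bb : Module.Basis (Fin n) (P ⧸ Ideal.span {w})
      (B ⧸ (Ideal.span {w}).map (algebraMap P B))) (β : B) :
    Algebra.trace (P ⧸ Ideal.span {w}) (B ⧸ (Ideal.span {w}).map (algebraMap P B))
      (redB (S := P) w β) = redS w (Algebra.intTrace P B β) := by
  have hdom : IsDomain (P ⧸ Ideal.span {w}) := isDomain_quotient_span_of_prime hw
  have hgb0 : redS w g ≠ 0 := fun h => hgw ((redS_eq_zero_iff w g).mp h)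
  have hg0 : g ≠ 0 := by
    rintro rfl
    exact hgw (dvd_zero w)
  obtain ⟨c, hc⟩ := exists_coef_of_smul_mem x g hg
  -- generic side
  have e1 : g * Algebra.intTrace P B β = ∑ i, c (β * x i) i :=
    mul_intTrace_eq_sum_of_quasi x hli g hg0 hg β (fun i j => c (β * x j) i)
      (fun j => hc (β * x j))
  -- special side
  choose N hN using fun j => exists_red_coef (w := w) x g hg (bb j)
  have hdet := (det_toMatrix_ne_zero bb (fun i => redB (S := P) w (x i)) (redS w g) hgb0
    (Matrix.of fun i j => N j i) (fun j => by simpa using hN j)).2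
  have e2 := mul_trace_eq_trace_of_quasi bb (fun i => redB (S := P) w (x i)) hdet (redS w g)
    (redB (S := P) w β) (Matrix.of fun i j => redS w (c (β * x j) i)) (fun j => by
      have := congrArg (redB (S := P) w) (hc (β * x j))
      rw [redB_smul, map_mul, map_sum] at this
      rw [this]
      exact Finset.sum_congr rfl fun i _ => redB_smul w _ _)
  have e3 : redS w g * Algebra.trace (P ⧸ Ideal.span {w})
      (B ⧸ (Ideal.span {w}).map (algebraMap P B)) (redB (S := P) w β) =
      redS w g * redS w (Algebra.intTrace P B β) := by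
    rw [e2, ← map_mul, e1, map_sum]
    rfl
  exact mul_left_cancel₀ hgb0 e3

end Final2

/-- **A3 (discriminant reduction mod `w`).** -/
theorem discrRed.{u₁, v₁} : DiscrRedStatement.{u₁, v₁} := by
  intro P _ _ _ B _ _ _ _ _ _ w hw 𝔪 h𝔪 hwm n x hx n' bb
  obtain ⟨hli, g, hgm, hg⟩ := hx
  have hgw : ¬ w ∣ g := fun h => hgm (Ideal.mem_of_dvd 𝔪 h hwm)
  have hnn : n' = n := card_eq_of_quasi hw x hli g hgw hg bb
  subst hnn
  refine ⟨rfl, ?_⟩
  have hdom : IsDomain (P ⧸ Ideal.span {w}) := isDomain_quotient_span_of_prime hw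
  have hgb0 : redS w g ≠ 0 := fun h => hgw ((redS_eq_zero_iff w g).mp h)
  choose N hN using fun j => exists_red_coef (w := w) x g hg (bb j)
  obtain ⟨hMN, hdet⟩ := det_toMatrix_ne_zero bb (fun i => redB (S := P) w (x i)) (redS w g) hgb0
    (Matrix.of fun i j => N j i) (fun j => by simpa using hN j)
  obtain ⟨u, hu⟩ := Ideal.Quotient.mk_surjective (bb.toMatrix fun i => redB (S := P) w (x i)).det
  obtain ⟨v, hv⟩ := Ideal.Quotient.mk_surjective (Matrix.of fun i j => N j i).det
  refine ⟨u, ?_, ?_⟩
  · intro hum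
    have h1 : redS w (u * v - g ^ n') = 0 := by
      rw [map_sub, map_mul, map_pow]
      change Ideal.Quotient.mk _ u * Ideal.Quotient.mk _ v - _ = 0
      rw [hu, hv, hMN, sub_self]
    rw [redS_eq_zero_iff] at h1
    have h2 : u * v - g ^ n' ∈ 𝔪 := Ideal.mem_of_dvd 𝔪 h1 hwm
    have h3 : g ^ n' ∈ 𝔪 := by
      have := 𝔪.sub_mem (𝔪.mul_mem_right v hum) h2
      simpa using this
    exact hgm (h𝔪.mem_of_pow_mem n' h3)
  · rw [hu]
    have hx' : (fun i => redB (S := P) w (x i)) =
        Matrix.vecMul (⇑bb) ((bb.toMatrix fun i => redB (S := P) w (x i)).map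
          (algebraMap (P ⧸ Ideal.span {w}) (B ⧸ (Ideal.span {w}).map (algebraMap P B)))) := by
      funext j
      rw [← Module.Basis.sum_toMatrix_smul_self bb (fun i => redB (S := P) w (x i)) j]
      simp only [Matrix.vecMul, dotProduct, Matrix.map_apply, Algebra.smul_def]
      exact Finset.sum_congr rfl fun i _ => mul_comm _ _
    rw [← Algebra.discr_of_matrix_vecMul, ← hx', Algebra.discr_def, intDiscr, RingHom.map_det]
    congr 1
    ext i j
    simp only [RingHom.mapMatrix_apply, Matrix.map_apply, Matrix.of_apply,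
      Algebra.traceMatrix_apply, Algebra.traceForm_apply]
    rw [← map_mul]
    exact (trace_red_of_quasi hw x hli g hgw hg bb (x i * x j)).symm

end Fermat.Agent.S18.B12.H203

end
end
-- ===== PACK-END S18/B12/H203/DiscrRed.lean

-- ===== PACK-BEGIN A2/H729/BaseChange.lean
section


/-!
# A2 (helper729): base change of charts and Gauss rings along a field extension `F₀ → F`

`F₀ ⊆ F` fields over `R`, `x₀ ∈ F₀`, `x = algebraMap F₀ F x₀`.  The charts and the Gauss ring of
`F₀` map into those of `F`, congruences modulo `w O` are preserved, maximal ideals of the chart of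
`F` contract to maximal ideals of the chart of `F₀`, and `F₀`-automorphisms of `F` preserve the
charts, the Gauss ring and congruences modulo `w O`.
-/

set_option autoImplicit false
set_option linter.unusedSectionVars false

namespace Fermat.Agent.A2.H729

open Polynomial Fermat.Agent.S18.H138

variable {R : Type*} [CommRing R] {F₀ : Type*} [Field F₀] [Algebra R F₀]
  {F : Type*} [Field F] [Algebra R F] [Algebra F₀ F] [IsScalarTower R F₀ F]

/-- The restriction `R[S] → R[φ S]` of `F₀ → F`. -/
noncomputable def adjoinMap (S : Set F₀) :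
    Algebra.adjoin R S →ₐ[R] Algebra.adjoin R ((algebraMap F₀ F) '' S) :=
  AlgHom.codRestrict ((IsScalarTower.toAlgHom R F₀ F).comp (Algebra.adjoin R S).val)
    (Algebra.adjoin R ((algebraMap F₀ F) '' S)) (fun a => by
      have h := AlgHom.map_adjoin (IsScalarTower.toAlgHom R F₀ F) S
      have h2 : (IsScalarTower.toAlgHom R F₀ F) a ∈
          Subalgebra.map (IsScalarTower.toAlgHom R F₀ F) (Algebra.adjoin R S) :=
        Subalgebra.mem_map.2 ⟨a, a.2, rfl⟩
      rw [h] at h2
      exact h2)

theorem coe_adjoinMap (S : Set F₀) (a : Algebra.adjoin R S) :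
    ((adjoinMap (F := F) S a : Algebra.adjoin R ((algebraMap F₀ F) '' S)) : F) =
      algebraMap F₀ F a := rfl

/-- Charts map to charts. -/
theorem algebraMap_mem_chart {S : Set F₀} {z : F₀} (hz : z ∈ chart R S) :
    algebraMap F₀ F z ∈ chart R ((algebraMap F₀ F) '' S) := by
  rw [mem_chart] at hz ⊢
  exact IsIntegral.map_of_comp_eq (adjoinMap (F := F) S).toRingHom (algebraMap F₀ F)
    (by ext a; rfl) hz

theorem algebraMap_mem_chart_singleton {x₀ z : F₀} (hz : z ∈ chart R ({x₀} : Set F₀)) :
    algebraMap F₀ F z ∈ chart R ({algebraMap F₀ F x₀} : Set F) := by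
  have := algebraMap_mem_chart (F := F) hz
  rwa [Set.image_singleton] at this

theorem algebraMap_mem_chart_inv {x₀ z : F₀} (hz : z ∈ chart R ({x₀⁻¹} : Set F₀)) :
    algebraMap F₀ F z ∈ chart R ({(algebraMap F₀ F x₀)⁻¹} : Set F) := by
  have := algebraMap_mem_chart (F := F) hz
  rwa [Set.image_singleton, map_inv₀] at this

theorem IsGaussDenom.map {w : R} {x₀ s : F₀} (hs : IsGaussDenom w x₀ s) :
    IsGaussDenom w (algebraMap F₀ F x₀) (algebraMap F₀ F s) := by
  obtain ⟨Q, hQ, rfl⟩ := hs
  refine ⟨Q, hQ, ?_⟩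
  rw [← aeval_algebraMap_apply]

/-- The Gauss ring maps to the Gauss ring. -/
theorem algebraMap_mem_gaussO {w : R} (hw : Prime w) {x₀ t : F₀} (ht : t ∈ gaussO hw x₀) :
    algebraMap F₀ F t ∈ gaussO hw (algebraMap F₀ F x₀) := by
  obtain ⟨s, hs, hst⟩ := ht
  refine ⟨algebraMap F₀ F s, hs.map, ?_⟩
  rw [← _root_.map_mul]
  exact algebraMap_mem_chart_singleton hst

/-- Congruences modulo `w O` are preserved. -/
theorem InW.map {w : R} (hw : Prime w) {x₀ z : F₀} (hz : InW (gaussO hw x₀) w z) :
    InW (gaussO hw (algebraMap F₀ F x₀)) w (algebraMap F₀ F z) := by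
  obtain ⟨t, ht, rfl⟩ := hz
  refine ⟨algebraMap F₀ F t, algebraMap_mem_gaussO hw ht, ?_⟩
  rw [_root_.map_mul, ← IsScalarTower.algebraMap_apply]

section Auto

/-- `F₀`-automorphisms of `F` preserve the chart. -/
theorem algEquiv_mem_chart (σ : F ≃ₐ[F₀] F) {S : Set F}
    (hS : ∀ a ∈ S, σ a = a) {z : F} (hz : z ∈ chart R S) : σ z ∈ chart R S := by
  rw [mem_chart] at hz ⊢
  have hfix : ∀ a ∈ Algebra.adjoin R S, σ a = a := by
    intro a ha
    induction ha using Algebra.adjoin_induction with
    | mem y hy => exact hS y hy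
    | algebraMap r =>
      rw [IsScalarTower.algebraMap_apply R F₀ F, AlgEquiv.commutes]
    | add y z _ _ hy hz => rw [_root_.map_add, hy, hz]
    | mul y z _ _ hy hz => rw [_root_.map_mul, hy, hz]
  refine IsIntegral.map_of_comp_eq (RingHom.id _) (σ : F →+* F) ?_ hz
  ext a
  exact (hfix a a.2).symm

theorem algEquiv_mem_gaussO {w : R} (hw : Prime w) (σ : F ≃ₐ[F₀] F) {x₀ : F₀} {t : F}
    (ht : t ∈ gaussO hw (algebraMap F₀ F x₀)) : σ t ∈ gaussO hw (algebraMap F₀ F x₀) := by
  obtain ⟨s, ⟨Q, hQ, rfl⟩, hst⟩ := ht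
  have hsx : σ (algebraMap F₀ F x₀) = algebraMap F₀ F x₀ := σ.commutes x₀
  have hs : σ (aeval (algebraMap F₀ F x₀) Q) = aeval (algebraMap F₀ F x₀) Q := by
    rw [aeval_algebraMap_apply, σ.commutes]
  refine ⟨aeval (algebraMap F₀ F x₀) Q, ⟨Q, hQ, rfl⟩, ?_⟩
  have := algEquiv_mem_chart (R := R) σ
    (S := ({algebraMap F₀ F x₀} : Set F)) (fun a ha => by
      rw [Set.mem_singleton_iff] at ha; rw [ha, hsx]) hst
  rwa [_root_.map_mul, hs] at this

theorem InW.algEquiv {w : R} (hw : Prime w) (σ : F ≃ₐ[F₀] F) {x₀ : F₀} {z : F}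
    (hz : InW (gaussO hw (algebraMap F₀ F x₀)) w z) :
    InW (gaussO hw (algebraMap F₀ F x₀)) w (σ z) := by
  obtain ⟨t, ht, rfl⟩ := hz
  refine ⟨σ t, algEquiv_mem_gaussO hw σ ht, ?_⟩
  rw [_root_.map_mul, IsScalarTower.algebraMap_apply R F₀ F, σ.commutes]

end Auto

end Fermat.Agent.A2.H729

end
-- ===== PACK-END A2/H729/BaseChange.lean

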