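import Fermat.Agent.Pack.S33.E16L0
import Fermat.Agent.Pack.S33.E13L2
import Fermat.Agent.Pack.S33.E7L3
import Fermat.Agent.Pack.S33.E0L1
import Fermat.Agent.Pack.S33.E13L1
import Fermat.Agent.Pack.S33.E1L0
import Fermat.Agent.Pack.S33.E16L3
import Fermat.Agent.Pack.S33.E7L2
import Fermat.Agent.Pack.S33.E16L2
import Fermat.Agent.Pack.S33.E12L2
import Fermat.Agent.Pack.S33.E13L3
import Fermat.Agent.Pack.S33.E10L2
import Fermat.Agent.Pack.S33.E2L0
import Fermat.Agent.Pack.S33.E5L3

-- ===== PACK-BEGIN S24/Mod/H997HolBase.lean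
section




/-!
# S24 / MOD — the concrete `HolBase N` and `Nonempty (AnalyticCore N)`

`Hol := {f holomorphic on ℍ | ∀ γ ∈ SL(2,ℤ), f ∘ γ has a convergent expansion in exp(2πiτ/N)}`,
`J d τ := j(dτ)`, `qexp :=` expansion at `i∞` (helper384's `expInf`).
-/

set_option autoImplicit false

noncomputable section

open ModularCurve HahnSeries UpperHalfPlane ModularForm EisensteinSeries
open scoped MatrixGroups Manifold Real

namespace Fermat.Agent.S24.H997

open Fermat.Agent.S24.H624 Fermat.Agent.S20.L1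

/-- the `j`-function has the Prelude `q`-expansion -/
theorem infExp_jFun : InfExp 1 jFun infJq := by
  intro τ
  have h := Fermat.Agent.S24.JFun.hasSum_jFun τ
  have h1 : infJq = jqModC ℂ := by
    rw [infJq, ← map_jqModC (algebraMap ℚ ℂ), jqModC_rat]
    rfl
  have h2 : infZ 1 τ = Function.Periodic.qParam 1 (τ : ℂ) := by
    simp [infZ]
  rw [h1]
  simp only [h2]
  exact h

theorem jFun_smul' (γ : SL(2, ℤ)) (τ : ℍ) : jFun (γ • τ) = jFun τ :=
  Fermat.Agent.S24.M7.H47.jFun_smul γ τ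

/-- `τ ↦ j(dτ)` -/
def Jd (d : ℕ) : ℍ → ℂ := fun τ => jFun (infAff d 0 1 τ)

theorem Jd_one : Jd 1 = jFun := by
  funext τ
  simp [Jd]

theorem mdiff_Jd {d : ℕ} (hd : 0 < d) : MDiff (Jd d) := by
  rw [UpperHalfPlane.mdifferentiable_iff]
  have hj : DifferentiableOn ℂ (jFun ∘ ofComplex) {z : ℂ | 0 < z.im} :=
    UpperHalfPlane.mdifferentiable_iff.mp mdiff_jFun
  have hmul : DifferentiableOn ℂ (fun z : ℂ => (d : ℂ) * z) {z : ℂ | 0 < z.im} :=
    (differentiable_id.const_mul (d : ℂ)).differentiableOn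
  have hmaps : Set.MapsTo (fun z : ℂ => (d : ℂ) * z) {z : ℂ | 0 < z.im} {z : ℂ | 0 < z.im} := by
    intro z hz
    simp only [Set.mem_ofPred_eq] at hz ⊢
    have : ((d : ℂ) * z).im = d * z.im := by simp
    rw [this]
    have hd' : (0 : ℝ) < d := by exact_mod_cast hd
    positivity
  refine (hj.comp hmul hmaps).congr ?_
  intro z hz
  simp only [Set.mem_ofPred_eq] at hz
  simp only [Function.comp_apply, Jd]
  congr 1
  apply UpperHalfPlane.ext
  rw [infAff_coe hd one_pos, ofComplex_apply_of_im_pos hz]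
  have hz' : 0 < ((d : ℂ) * z).im := hmaps hz
  rw [ofComplex_apply_of_im_pos hz']
  simp

variable (N : ℕ) [NeZero N]

/-- the ring `Hol` -/
def holN : Subring (ℍ → ℂ) where
  carrier := {f | f ∈ holoRing ∧ ∀ γ : SL(2, ℤ), compSL γ f ∈ expRing N}
  mul_mem' := by
    rintro f g ⟨hf, hf'⟩ ⟨hg, hg'⟩
    exact ⟨mul_mem hf hg, fun γ => mul_mem (hf' γ) (hg' γ)⟩
  one_mem' := ⟨one_mem _, fun _ => one_mem _⟩
  add_mem' := by
    rintro f g ⟨hf, hf'⟩ ⟨hg, hg'⟩
    exact ⟨add_mem hf hg, fun γ => add_mem (hf' γ) (hg' γ)⟩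
  zero_mem' := ⟨zero_mem _, fun _ => zero_mem _⟩
  neg_mem' := by
    rintro f ⟨hf, hf'⟩
    exact ⟨neg_mem hf, fun γ => neg_mem (hf' γ)⟩

theorem mem_holN {f : ℍ → ℂ} :
    f ∈ holN N ↔ f ∈ holoRing ∧ ∀ γ : SL(2, ℤ), compSL γ f ∈ expRing N := Iff.rfl

theorem const_mem_holN (c : ℂ) : (fun _ : ℍ => c) ∈ holN N :=
  ⟨(algebraMap ℂ holoRing c).2, fun _ => (InfExp.const c).mem_expRing⟩

theorem comp_mem_holN (g : SL(2, ℤ)) (f : ℍ → ℂ) (hf : f ∈ holN N) : compSL g f ∈ holN N := by
  refine ⟨(precompSL g ⟨f, hf.1⟩).2, fun γ => ?_⟩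
  rw [← compSL_mul]
  exact hf.2 _

theorem Jd_mem_holN (d : ℕ) (hd : d ∣ N) : Jd d ∈ holN N := by
  have hN : 0 < N := Nat.pos_of_ne_zero (NeZero.ne N)
  have hd0 : 0 < d := Nat.pos_of_dvd_of_pos hd hN
  exact ⟨mdiff_Jd hd0, fun γ => inf_J_mul_smul_mem_expRing jFun_smul' infExp_jFun hd γ⟩

theorem Jd_inv (d : ℕ) (hd : d ∣ N) (g : SL(2, ℤ)) (hg : g ∈ CongruenceSubgroup.Gamma0 N)
    (τ : ℍ) : Jd d (g • τ) = Jd d τ := by
  have hN : 0 < N := Nat.pos_of_ne_zero (NeZero.ne N)
  have hd0 : 0 < d := Nat.pos_of_dvd_of_pos hd hN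
  have hNg : (N : ℤ) ∣ g 1 0 := by
    rw [CongruenceSubgroup.Gamma0_mem] at hg
    exact (ZMod.intCast_zmod_eq_zero_iff_dvd _ _).mp hg
  have hdg : (d : ℤ) ∣ g 1 0 := dvd_trans (by exact_mod_cast hd) hNg
  obtain ⟨c, hc⟩ := hdg
  have hdet := inf_sl_det g
  let g' : SL(2, ℤ) := ⟨!![g 0 0, d * g 0 1; c, g 1 1], by
    rw [Matrix.det_fin_two_of]
    rw [hc] at hdet
    linear_combination hdet⟩
  have h := inf_aff_smul_eq (d := d) (a := d) (d' := 1) (b := 0) hd0 hd0 one_pos g g'
    (by simp [g']; ring) (by simp [g']) (by simp [g', hc]; ring) (by simp [g']) τ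
  show jFun (infAff d 0 1 (g • τ)) = jFun (infAff d 0 1 τ)
  rw [h, jFun_smul']

theorem Jd_distinct (g : SL(2, ℤ)) (h : ∀ τ : ℍ, Jd N (g • τ) = Jd N τ) :
    g ∈ CongruenceSubgroup.Gamma0 N := by
  have := inf_distinct (J := jFun) jFun_smul' infExp_jFun (N := N) g 1
    (fun τ => by simpa [Jd] using h τ)
  simpa using this

/-- the inclusion `Hol → expRing N` -/
def holToExp : holN N →+* expRing N where
  toFun h := ⟨h.1, by simpa [compSL_one] using h.2.2 1⟩
  map_one' := rfl
  map_mul' _ _ := rfl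
  map_zero' := rfl
  map_add' _ _ := rfl

theorem holToExp_injective : Function.Injective (holToExp N) := by
  intro x y h
  exact Subtype.ext (congrArg (fun f : expRing N => (f : ℍ → ℂ)) h)

theorem expInf_Jd (d : ℕ) (hd : d ∣ N) :
    haveI : NeZero (d * N) := ⟨Nat.mul_ne_zero
      (Nat.pos_of_dvd_of_pos hd (Nat.pos_of_ne_zero (NeZero.ne N))).ne' (NeZero.ne N)⟩
    expInf N (holToExp N ⟨Jd d, Jd_mem_holN N d hd⟩) = qExpand ℂ (d * N) infJq := by
  have hN : 0 < N := Nat.pos_of_ne_zero (NeZero.ne N)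
  have hd0 : 0 < d := Nat.pos_of_dvd_of_pos hd hN
  exact (inf_J_mul_exp infExp_jFun hd0 hN).expInf_eq

/-- **The concrete `HolBase N`.** -/
def holBase : HolBase N where
  Hol := holN N
  const_mem := const_mem_holN N
  comp_mem := comp_mem_holN N
  J := Jd
  J_mem := Jd_mem_holN N
  J_one_inv g τ := by rw [Jd_one]; exact jFun_smul' g τ
  J_inv := Jd_inv N
  J_distinct := Jd_distinct N
  qexp := (expInf N).comp (holToExp N)
  qexp_injective := expInf_injective.comp (holToExp_injective N)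
  qexp_const c := (InfExp.const c).expInf_eq
  qexp_J d hd k := by
    have hN : 0 < N := Nat.pos_of_ne_zero (NeZero.ne N)
    have hd0 : 0 < d := Nat.pos_of_dvd_of_pos hd hN
    haveI : NeZero (d * N) := ⟨Nat.mul_ne_zero hd0.ne' (NeZero.ne N)⟩
    show (expInf N (holToExp N ⟨Jd d, Jd_mem_holN N d hd⟩)).coeff k = _
    rw [expInf_Jd N d hd]
    have hcast : ((N * d : ℕ) : ℤ) = ((d * N : ℕ) : ℤ) := by rw [mul_comm]
    rw [hcast]
    split_ifs with hk
    · obtain ⟨m, rfl⟩ := hk
      rw [qExpand_coeff_mul, Int.mul_ediv_cancel_left _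
        (by exact_mod_cast (NeZero.ne (d * N)) : ((d * N : ℕ) : ℤ) ≠ 0)]
      rfl
    · exact qExpand_coeff_of_not_dvd (d * N) _ hk

theorem holBase_isHolo : (holBase N).IsHolo where
  mdiff f hf := hf.1
  J_one := Jd_one

theorem T_smul_eq_infAff (τ : ℍ) : ModularGroup.T • τ = infAff 1 1 1 τ := by
  apply UpperHalfPlane.ext
  rw [UpperHalfPlane.modular_T_smul, infAff_coe one_pos one_pos]
  simp [add_comm]

theorem holBase_shift (h : (holBase N).Hol) (n : ℤ) :
    ((holBase N).qexp ((holBase N).compH ModularGroup.T h)).coeff n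
      = ((infRoot 1 N : ℂˣ) : ℂ) ^ n * ((holBase N).qexp h).coeff n := by
  have hf : InfExp N (h : ℍ → ℂ) ((holBase N).qexp h) := expInf_spec (holToExp N h)
  have hT := hf.comp_translate 1
  have hT' : InfExp N (((holBase N).compH ModularGroup.T h : (holBase N).Hol) : ℍ → ℂ)
      (infTwist (infRoot 1 N) ((holBase N).qexp h)) := by
    refine hT.congr fun τ => ?_
    show (h : ℍ → ℂ) (infAff 1 1 1 τ) = (h : ℍ → ℂ) (ModularGroup.T • τ)
    rw [T_smul_eq_infAff]
  have heq : (holBase N).qexp ((holBase N).compH ModularGroup.T h)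
      = infTwist (infRoot 1 N) ((holBase N).qexp h) :=
    (expInf_spec (holToExp N ((holBase N).compH ModularGroup.T h))).unique hT'
  rw [heq, infTwist_coeff, Units.val_zpow_eq_zpow_val, mul_comm]

theorem isPrimitiveRoot_infRoot : IsPrimitiveRoot ((infRoot 1 N : ℂˣ) : ℂ) N := by
  have h := Complex.isPrimitiveRoot_exp N (NeZero.ne N)
  have : ((infRoot 1 N : ℂˣ) : ℂ) = Complex.exp (2 * π * Complex.I / N) := by
    rw [infRoot_coe]
    congr 1
    push_cast
    ring
  rw [this]
  exact h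

/-- **The analytic core exists.** -/
def analyticCore : AnalyticCore N :=
  (holBase N).toAnalyticCore (holBase_isHolo N) _ (isPrimitiveRoot_infRoot N) (holBase_shift N)

theorem nonempty_analyticCore : Nonempty (AnalyticCore N) := ⟨analyticCore N⟩

end Fermat.Agent.S24.H997

end
end
-- ===== PACK-END S24/Mod/H997HolBase.lean

-- ===== PACK-BEGIN S24/Mod.lean
section




/-!
# S24 — modular side: local embedding data for the function field of `X₀(N)`

INTERFACE FILE (statements frozen by helper984 @4630f4b).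

Proof: helper997's assembly `H997.AnalyticCore.modularPackage_fields` applied to
* the concrete analytic core `H997.analyticCore N` (`Mod/H997HolBase.lean`: helper384's
  expansions at `∞`, helper624's Taylor expansions, helper47's local orders of `j`, helper264's
  `q`-expansion of `j`), and
* the degree bound `Deg457.degree_fields N` (helper457 / helper648 / helper708).
-/

set_option autoImplicit false

noncomputable section

open AlgebraicCurve ModularCurve
open scoped MatrixGroups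

namespace Fermat.Agent.S24

/-- Everything the algebraic side needs to know about `F = ℚ̄(j(q^d) : d ∣ N)`. -/
structure ModularPackage (N : ℕ) [NeZero N] where
  finiteDimensional :
    FiniteDimensional ↥(IntermediateField.adjoin Kbar {jF N}) (FF N)
  finrank_eq :
    Module.finrank ↥(IntermediateField.adjoin Kbar {jF N}) (FF N) = Nat.card (XX N)
  dataFin : ∀ a : Kbar, LocalData Kbar (FF N) ℂ (XX N) (jF N - algebraMap Kbar (FF N) a)
  dataInf : LocalData Kbar (FF N) ℂ (XX N) (jF N)⁻¹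
  perm_generic : ∀ a : Kbar, a ≠ 0 → a ≠ 1728 → (dataFin a).perm = 1
  orbits_zero :
    numOrbits (dataFin 0).perm = numOrbits (permOf N (ModularGroup.S * ModularGroup.T))
  orbits_1728 : numOrbits (dataFin 1728).perm = numOrbits (permOf N ModularGroup.S)
  orbits_inf : numOrbits dataInf.perm = numOrbits (permOf N ModularGroup.T)

theorem nonempty_modularPackage (N : ℕ) [NeZero N] : Nonempty (ModularPackage N) := by
  obtain ⟨hfd, hle⟩ := Deg457.degree_fields N
  obtain ⟨dF, dI, h1, h2, h3, h4, h5⟩ := (H997.analyticCore N).modularPackage_fields hfd hle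
  exact ⟨⟨hfd, h1, dF, dI, h2, h3, h4, h5⟩⟩

end Fermat.Agent.S24

end
end
-- ===== PACK-END S24/Mod.lean

-- ===== PACK-BEGIN S29/H332/KummerFun.lean
section




/-!
# S29 / M4b / K1 — the Kummer function `h = E^χ₁₂ / (2Δ)`

For a character `χ : Γ₀(N) →* ℂˣ`, unitary and trivial on all elements of trace `±2`, the function
`kummerFun N χ = E^χ₁₂ / (2Δ)` is holomorphic on `ℍ`, satisfies `h(γτ) = χ(γ) h(τ)`, belongs to the
S24 ring `holN N` (expansions in `exp(2πiτ/N)` at all cusps) and has a simple pole with leading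
coefficient `1` at `i∞` (in `q = exp(2πiτ)`).

The first part is abstract: any holomorphic function with a parabolic character and moderate growth
belongs to `holN N`.
-/

set_option autoImplicit false

noncomputable section

open UpperHalfPlane EisensteinSeries ModularForm Filter Topology HahnSeries ModularCurve
open scoped Matrix MatrixGroups Manifold

namespace Fermat.Agent.S29.H332

open Fermat.Agent.S24 Fermat.Agent.S24.H997 Fermat.Agent.S24.H624

local notation "Δ" => ModularForm.discriminant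

/-! ### Conjugates of translations -/

/-- `g T^w g⁻¹` has trace `2`. -/
theorem trace_conj_T_zpow (g : SL(2, ℤ)) (w : ℤ) :
    (g * ModularGroup.T ^ w * g⁻¹ : SL(2, ℤ)).1.trace = 2 := by
  rw [Matrix.SpecialLinearGroup.coe_mul, Matrix.SpecialLinearGroup.coe_mul, Matrix.trace_mul_comm,
    ← Matrix.mul_assoc, ← Matrix.SpecialLinearGroup.coe_mul, inv_mul_cancel,
    Matrix.SpecialLinearGroup.coe_one, Matrix.one_mul, ModularGroup.coe_T_zpow]
  simp [Matrix.trace_fin_two]

/-- `g T^N g⁻¹ ∈ Γ₀(N)` for every `g ∈ SL(2,ℤ)`. -/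
theorem conj_T_zpow_mem_Gamma0 (N : ℕ) (g : SL(2, ℤ)) (m : ℤ) :
    g * ModularGroup.T ^ ((N : ℤ) * m) * g⁻¹ ∈ CongruenceSubgroup.Gamma0 N := by
  rw [CongruenceSubgroup.Gamma0_mem]
  have h : (g * ModularGroup.T ^ ((N : ℤ) * m) * g⁻¹ : SL(2, ℤ)).1 1 0
      = -((N : ℤ) * m * (g.1 1 0) ^ 2) := by
    rw [Matrix.SpecialLinearGroup.coe_mul, Matrix.SpecialLinearGroup.coe_mul,
      ModularGroup.coe_T_zpow, Matrix.SpecialLinearGroup.coe_inv, Matrix.adjugate_fin_two]
    simp [Matrix.mul_apply, Fin.sum_univ_two]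
    ring
  rw [h]
  push_cast
  simp

/-! ### The discriminant -/

theorem mdiff_delta : MDiff Δ := CuspForm.discriminant.holo'

theorem mdiff_delta_pow (m : ℕ) : MDiff (fun τ : ℍ => Δ τ ^ m) := by
  induction m with
  | zero => simpa using (mdifferentiable_const : MDiff (fun _ : ℍ => (1 : ℂ)))
  | succ m ih =>
    have := ih.mul mdiff_delta
    have e : (fun τ : ℍ => Δ τ ^ (m + 1)) = (fun τ => Δ τ ^ m) * Δ := by
      funext τ
      simp [pow_succ]
    rw [e]
    exact this

theorem delta_slash (γ : SL(2, ℤ)) : Δ ∣[(12 : ℤ)] γ = Δ := by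
  have := SlashInvariantFormClass.slash_action_eq CuspForm.discriminant
    (Matrix.SpecialLinearGroup.mapGL ℝ γ) ⟨γ, rfl⟩
  rw [CuspForm.coe_discriminant] at this
  rw [ModularForm.SL_slash]
  exact this

theorem delta_smul (γ : SL(2, ℤ)) (τ : ℍ) : Δ (γ • τ) = denom γ τ ^ (12 : ℤ) * Δ τ := by
  have h := congrFun (delta_slash γ) τ
  rw [SL_slash_apply] at h
  have hd : denom γ τ ≠ 0 := denom_ne_zero γ τ
  rw [← h, mul_comm, _root_.mul_assoc, ← zpow_add₀ hd]
  simp

theorem delta_vadd (n : ℤ) (τ : ℍ) : Δ ((n : ℝ) +ᵥ τ) = Δ τ := by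
  have h := delta_smul (ModularGroup.T ^ n) τ
  rw [denom_T_zpow, _root_.one_zpow, _root_.one_mul, UpperHalfPlane.modular_T_zpow_smul] at h
  exact h

/-- A function on `ℍ` invariant under `τ ↦ τ + N` gives an `N`-periodic function on `ℂ`. -/
theorem periodic_comp_ofComplex_of_vadd {f : ℍ → ℂ} {N : ℕ}
    (h : ∀ τ : ℍ, f (((N : ℤ) : ℝ) +ᵥ τ) = f τ) :
    Function.Periodic (f ∘ ofComplex) (N : ℝ) := by
  intro z
  simp only [Function.comp_apply]
  by_cases hz : 0 < z.im
  · have hz' : 0 < (z + (N : ℝ)).im := by simpa using hz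
    rw [ofComplex_apply_of_im_pos hz, ofComplex_apply_of_im_pos hz']
    rw [← h ⟨z, hz⟩]
    congr 1
    apply UpperHalfPlane.ext
    simp [add_comm]
  · have hz' : ¬ 0 < (z + (N : ℝ)).im := by simpa using hz
    rw [ofComplex_apply_eq_of_im_nonpos (not_lt.mp hz') (not_lt.mp hz)]

theorem infExp_deltaInv (N : ℕ) [NeZero N] :
    InfExp N (fun τ : ℍ => (Δ τ)⁻¹) (qExpand ℂ N Fermat.Agent.S28.H568.dInvS) := by
  have hN : 0 < N := Nat.pos_of_ne_zero (NeZero.ne N)
  have h := Fermat.Agent.S28.H568.infExp_delta_inv_aff (N := N) (e := N) 0 one_pos one_pos hN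
    (by ring)
  rw [infRoot_zero, infTwist_one] at h
  exact h.congr fun τ => by rw [infAff_one_zero_one]

/-! ### Functions with a parabolic character -/

section Character

variable {N : ℕ} [NeZero N]

/-- `χ` is trivial on all elements of `Γ₀(N)` of trace `±2` (cusp stabilisers and `-1`). -/
def ParTrivial (χ : CongruenceSubgroup.Gamma0 N →* ℂˣ) : Prop :=
  ∀ γ : CongruenceSubgroup.Gamma0 N,
    ((γ : SL(2, ℤ)).1.trace = 2 ∨ (γ : SL(2, ℤ)).1.trace = -2) → χ γ = 1

/-- `h(γ τ) = χ(γ) h(τ)` for all `γ ∈ Γ₀(N)`. -/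
def HasCharacter (χ : CongruenceSubgroup.Gamma0 N →* ℂˣ) (h : ℍ → ℂ) : Prop :=
  ∀ (γ : CongruenceSubgroup.Gamma0 N) (τ : ℍ), h ((γ : SL(2, ℤ)) • τ) = (χ γ : ℂ) * h τ

variable {χ : CongruenceSubgroup.Gamma0 N →* ℂˣ} {h : ℍ → ℂ}

omit [NeZero N] in
/-- If `g T^w g⁻¹ ∈ Γ₀(N)`, then `h ∘ g` is invariant under `τ ↦ τ + w` (local parameter of width
`w` at the cusp `g∞`). -/
theorem HasCharacter.compSL_T_zpow (hh : HasCharacter χ h) (hχ : ParTrivial χ) (g : SL(2, ℤ))
    (w : ℤ) (hw : g * ModularGroup.T ^ w * g⁻¹ ∈ CongruenceSubgroup.Gamma0 N) (τ : ℍ) :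
    compSL g h (ModularGroup.T ^ w • τ) = compSL g h τ := by
  have h1 : g • (ModularGroup.T ^ w • τ) = (g * ModularGroup.T ^ w * g⁻¹) • (g • τ) := by
    rw [← _root_.SemigroupAction.mul_smul, ← _root_.SemigroupAction.mul_smul, _root_.mul_assoc, _root_.mul_assoc, inv_mul_cancel, _root_.mul_one]
  have h2 := hh ⟨_, hw⟩ (g • τ)
  rw [hχ ⟨_, hw⟩ (Or.inl (trace_conj_T_zpow g w))] at h2
  simp only [compSL_apply]
  rw [h1, h2, Units.val_one, _root_.one_mul]

omit [NeZero N] in
/-- `h ∘ g` is `w`-periodic if `g T^w g⁻¹ ∈ Γ₀(N)`. -/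
theorem HasCharacter.compSL_vadd (hh : HasCharacter χ h) (hχ : ParTrivial χ) (g : SL(2, ℤ))
    (w : ℕ) (hw : g * ModularGroup.T ^ (w : ℤ) * g⁻¹ ∈ CongruenceSubgroup.Gamma0 N)
    (τ : ℍ) : compSL g h (((w : ℤ) : ℝ) +ᵥ τ) = compSL g h τ := by
  have := hh.compSL_T_zpow hχ g (w : ℤ) hw τ
  rwa [UpperHalfPlane.modular_T_zpow_smul] at this

omit [NeZero N] in
theorem HasCharacter.periodic (hh : HasCharacter χ h) (hχ : ParTrivial χ) (g : SL(2, ℤ))
    (w : ℕ) (hw : g * ModularGroup.T ^ (w : ℤ) * g⁻¹ ∈ CongruenceSubgroup.Gamma0 N) :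
    Function.Periodic (compSL g h ∘ ofComplex) (w : ℝ) :=
  periodic_comp_ofComplex_of_vadd (hh.compSL_vadd hχ g w hw)

/-- The expansion of `h ∘ g` in the local parameter of width `w`, as an explicit Laurent series
(`m` = a bound for the pole order in units of `Δ⁻¹`). -/
def cuspExp (h : ℍ → ℂ) (m : ℕ) (g : SL(2, ℤ)) (w : ℕ) [NeZero w] : LaurentSeries ℂ :=
  qExpand ℂ w Fermat.Agent.S28.H568.dInvS ^ m *
    HahnSeries.ofPowerSeries ℤ ℂ
      (UpperHalfPlane.qExpansion (w : ℝ) (fun τ => Δ τ ^ m * compSL g h τ))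

omit [NeZero N] in
/-- Expansion at the cusp `g∞` in the local parameter of width `w` (any `w` with
`g T^w g⁻¹ ∈ Γ₀(N)`): a holomorphic function with a parabolic character such that
`Δ^m · (h ∘ g)` is bounded at `i∞` has a Laurent expansion in `exp(2πiτ/w)`. -/
theorem HasCharacter.infExp_cuspExp (hh : HasCharacter χ h) (hχ : ParTrivial χ)
    (hhol : MDiff h) (m : ℕ) (g : SL(2, ℤ)) (w : ℕ) [NeZero w]
    (hw : g * ModularGroup.T ^ (w : ℤ) * g⁻¹ ∈ CongruenceSubgroup.Gamma0 N)
    (hbd : IsBoundedAtImInfty (fun τ => Δ τ ^ m * compSL g h τ)) :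
    InfExp w (compSL g h) (cuspExp h m g w) := by
  have hN : (0 : ℝ) < w := by exact_mod_cast Nat.pos_of_ne_zero (NeZero.ne w)
  set F : ℍ → ℂ := fun τ => Δ τ ^ m * compSL g h τ with hF
  have hcomp : MDiff (compSL g h) := (precompSL g ⟨h, hhol⟩).2
  have hFhol : MDiff F := (mdiff_delta_pow m).mul hcomp
  have hFper : Function.Periodic (F ∘ ofComplex) (w : ℝ) := by
    intro z
    have h1 := hh.periodic hχ g w hw z
    have h2 := periodic_comp_ofComplex_of_vadd (f := Δ) (N := w) (fun τ => delta_vadd w τ) z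
    simp only [Function.comp_apply, hF] at h1 h2 ⊢
    rw [h1, h2]
  have hsum := fun τ => UpperHalfPlane.hasSum_qExpansion hN hFper hFhol hbd τ
  have hP : InfPExp w F (UpperHalfPlane.qExpansion (w : ℝ) F) := by
    intro τ
    simpa [infZ, smul_eq_mul] using hsum τ
  have hE : InfExp w F (HahnSeries.ofPowerSeries ℤ ℂ (UpperHalfPlane.qExpansion (w : ℝ) F)) := by
    have := hP.infExp 0
    simp only [zpow_zero, _root_.one_mul] at this
    have e : (HahnSeries.single (0 : ℤ) (1 : ℂ)) = 1 := rfl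
    rwa [e, _root_.one_mul] at this
  have hDinv : InfExp w (fun τ => (Δ τ)⁻¹ ^ m)
      (qExpand ℂ w Fermat.Agent.S28.H568.dInvS ^ m) :=
    Fermat.Agent.S28.H568.InfExp.pow' (infExp_deltaInv w) m
  have : compSL g h = fun τ => (Δ τ)⁻¹ ^ m * F τ := by
    funext τ
    simp only [hF]
    have hΔ : Δ τ ≠ 0 := ModularForm.discriminant_ne_zero τ
    rw [← _root_.mul_assoc, ← mul_pow, inv_mul_cancel₀ hΔ, one_pow, _root_.one_mul]
  rw [this]
  exact hDinv.mul hE

/-- Abstract membership criterion at one cusp. -/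
theorem HasCharacter.compSL_mem_expRing (hh : HasCharacter χ h) (hχ : ParTrivial χ)
    (hhol : MDiff h) (m : ℕ) (g : SL(2, ℤ))
    (hbd : IsBoundedAtImInfty (fun τ => Δ τ ^ m * compSL g h τ)) :
    compSL g h ∈ expRing N :=
  (hh.infExp_cuspExp hχ hhol m g N (by simpa using conj_T_zpow_mem_Gamma0 N g 1) hbd).mem_expRing

/-- Abstract membership criterion: a holomorphic function with a parabolic character such that
`Δ^m · (h ∘ g)` is bounded at `i∞` for every `g ∈ SL(2,ℤ)` lies in the S24 ring `holN N`. -/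
theorem HasCharacter.mem_holN (hh : HasCharacter χ h) (hχ : ParTrivial χ)
    (hhol : MDiff h) (m : ℕ)
    (hbd : ∀ g : SL(2, ℤ), IsBoundedAtImInfty (fun τ => Δ τ ^ m * compSL g h τ)) :
    h ∈ holN N :=
  ⟨hhol, fun g => hh.compSL_mem_expRing hχ hhol m g (hbd g)⟩

omit [NeZero N] in
/-- Powers: `h ^ p` has character `χ ^ p`; in particular it is `Γ₀(N)`-invariant if `χ ^ p = 1`. -/
theorem HasCharacter.pow_invariant (hh : HasCharacter χ h) {p : ℕ}
    (hp : ∀ γ, χ γ ^ p = 1) (γ : CongruenceSubgroup.Gamma0 N) (τ : ℍ) :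
    h ((γ : SL(2, ℤ)) • τ) ^ p = h τ ^ p := by
  rw [hh γ τ, mul_pow, ← Units.val_pow_eq_pow_val, hp γ, Units.val_one, _root_.one_mul]

end Character

/-! ### The Kummer function -/

section Kummer

variable (N : ℕ) [NeZero N] (χ : CongruenceSubgroup.Gamma0 N →* ℂˣ)

/-- The Kummer function `E^χ₁₂ / (2Δ)`. -/
def kummerFun : ℍ → ℂ :=
  fun τ => twistedEis (CongruenceSubgroup.Gamma0 N) χ 12 τ / (2 * Δ τ)

variable {N χ}

omit [NeZero N] in
theorem ParTrivial.trivialOnUnipotent (hχ : ParTrivial χ) : TrivialOnUnipotent χ := by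
  intro γ hγ
  apply hχ γ
  left
  have h10 : (γ : SL(2, ℤ)).1 1 0 = 0 := by
    have := congrFun hγ 0
    simpa [botRow] using this
  have h11 : (γ : SL(2, ℤ)).1 1 1 = 1 := by
    have := congrFun hγ 1
    simpa [botRow] using this
  have hdet := (γ : SL(2, ℤ)).det_coe
  rw [Matrix.det_fin_two, h10, h11, _root_.MulZeroClass.mul_zero, sub_zero, _root_.mul_one] at hdet
  rw [Matrix.trace_fin_two, hdet, h11]
  rfl

omit [NeZero N] in
theorem ParTrivial.neg_one (hχ : ParTrivial χ)
    (hneg : (-1 : SL(2, ℤ)) ∈ CongruenceSubgroup.Gamma0 N) : χ ⟨-1, hneg⟩ = 1 := by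
  apply hχ
  right
  simp [Matrix.trace_fin_two]

omit [NeZero N] in
theorem neg_one_mem_Gamma0 : (-1 : SL(2, ℤ)) ∈ CongruenceSubgroup.Gamma0 N := by
  rw [CongruenceSubgroup.Gamma0_mem]
  simp

omit [NeZero N] in
theorem compSL_kummerFun (g : SL(2, ℤ)) :
    compSL g (kummerFun N χ)
      = fun τ => (twistedEis (CongruenceSubgroup.Gamma0 N) χ 12 ∣[(12 : ℤ)] g) τ / (2 * Δ τ) := by
  funext τ
  have hd : denom g τ ≠ 0 := denom_ne_zero g τ
  have hΔ : Δ τ ≠ 0 := ModularForm.discriminant_ne_zero τ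
  simp only [compSL_apply, kummerFun]
  rw [SL_slash_apply, delta_smul, _root_.zpow_neg]
  field_simp

omit [NeZero N] in
theorem hasCharacter_kummerFun (hχ : ParTrivial χ) : HasCharacter χ (kummerFun N χ) := by
  intro γ τ
  have h := congrFun (compSL_kummerFun (N := N) (χ := χ) (γ : SL(2, ℤ))) τ
  rw [compSL_apply] at h
  rw [h, twistedEis_slash hχ.trivialOnUnipotent]
  simp only [Pi.smul_apply, smul_eq_mul, kummerFun]
  ring

omit [NeZero N] in
theorem mdiff_kummerFun (hχ : ParTrivial χ) (hnorm : ∀ γ, ‖(χ γ : ℂ)‖ = 1) :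
    MDiff (kummerFun N χ) := by
  have hE : MDiff (twistedEis (CongruenceSubgroup.Gamma0 N) χ 12) :=
    twistedEis_mdifferentiable hχ.trivialOnUnipotent hnorm (by norm_num)
  rw [UpperHalfPlane.mdifferentiable_iff] at hE ⊢
  have hΔ := UpperHalfPlane.mdifferentiable_iff.mp mdiff_delta
  have h2 : DifferentiableOn ℂ (fun z => 2 * (Δ ∘ ofComplex) z) {z : ℂ | 0 < z.im} :=
    hΔ.const_mul 2
  refine (hE.div h2 ?_).congr ?_
  · intro z hz
    exact _root_.mul_ne_zero two_ne_zero (ModularForm.discriminant_ne_zero _)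
  · intro z hz
    simp [kummerFun]

omit [NeZero N] in
theorem isBoundedAtImInfty_delta_mul_kummerFun (hχ : ParTrivial χ)
    (hnorm : ∀ γ, ‖(χ γ : ℂ)‖ = 1) (g : SL(2, ℤ)) :
    IsBoundedAtImInfty (fun τ => Δ τ ^ 1 * compSL g (kummerFun N χ) τ) := by
  have hE := twistedEis_slash_isBoundedAtImInfty hχ.trivialOnUnipotent hnorm
    (k := 12) (by norm_num) g
  have : (fun τ => Δ τ ^ 1 * compSL g (kummerFun N χ) τ)
      = (fun _ : ℍ => (1 / 2 : ℂ)) * (twistedEis (CongruenceSubgroup.Gamma0 N) χ 12 ∣[(12 : ℤ)] g) := by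
    funext τ
    have hΔ : Δ τ ≠ 0 := ModularForm.discriminant_ne_zero τ
    rw [compSL_kummerFun]
    simp only [Pi.mul_apply, pow_one]
    field_simp
  rw [this]
  exact (Filter.const_boundedAtFilter _ _).mul hE

/-- **K1**: the Kummer function lies in the S24 ring `holN N`. -/
theorem kummerFun_mem_holN (hχ : ParTrivial χ) (hnorm : ∀ γ, ‖(χ γ : ℂ)‖ = 1) :
    kummerFun N χ ∈ holN N :=
  (hasCharacter_kummerFun hχ).mem_holN hχ (mdiff_kummerFun hχ hnorm) 1
    (isBoundedAtImInfty_delta_mul_kummerFun hχ hnorm)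

/-! ### The expansion of the Kummer function at `i∞` -/

omit [NeZero N] in
theorem T_mem_Gamma0 :
    (1 : SL(2, ℤ)) * ModularGroup.T ^ ((1 : ℕ) : ℤ) * (1 : SL(2, ℤ))⁻¹
      ∈ CongruenceSubgroup.Gamma0 N := by
  rw [CongruenceSubgroup.Gamma0_mem]
  simp [ModularGroup.T]

omit [NeZero N] in
theorem delta_mul_kummerFun (τ : ℍ) :
    Δ τ ^ 1 * compSL 1 (kummerFun N χ) τ
      = twistedEis (CongruenceSubgroup.Gamma0 N) χ 12 τ / 2 := by
  have hΔ : Δ τ ≠ 0 := ModularForm.discriminant_ne_zero τ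
  rw [compSL_one]
  simp only [kummerFun, pow_one]
  field_simp

omit [NeZero N] in
theorem tendsto_delta_mul_kummerFun (hχ : ParTrivial χ) (hnorm : ∀ γ, ‖(χ γ : ℂ)‖ = 1) :
    Tendsto (fun τ => Δ τ ^ 1 * compSL 1 (kummerFun N χ) τ) atImInfty (𝓝 1) := by
  have h := tendsto_twistedEis_two hχ.trivialOnUnipotent hnorm (k := 12) (by norm_num)
    (by decide) neg_one_mem_Gamma0 (hχ.neg_one _)
  have h2 := h.div_const 2
  rw [div_self (two_ne_zero)] at h2
  refine h2.congr fun τ => ?_
  rw [delta_mul_kummerFun]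

variable (N χ) in
/-- The expansion of the Kummer function at `i∞` in `q = exp(2πiτ)`. -/
def kummerExp : LaurentSeries ℂ := cuspExp (kummerFun N χ) 1 1 1

omit [NeZero N] in
theorem infExp_kummerFun (hχ : ParTrivial χ) (hnorm : ∀ γ, ‖(χ γ : ℂ)‖ = 1) :
    InfExp 1 (kummerFun N χ) (kummerExp N χ) := by
  have h := (hasCharacter_kummerFun hχ).infExp_cuspExp hχ (mdiff_kummerFun hχ hnorm) 1 1 1
    T_mem_Gamma0 (isBoundedAtImInfty_delta_mul_kummerFun hχ hnorm 1)
  rwa [compSL_one] at h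

omit [NeZero N] in
theorem coeff_zero_qExpansion_kummer (hχ : ParTrivial χ) (hnorm : ∀ γ, ‖(χ γ : ℂ)‖ = 1) :
    (UpperHalfPlane.qExpansion ((1 : ℕ) : ℝ)
      (fun τ => Δ τ ^ 1 * compSL 1 (kummerFun N χ) τ)).coeff 0 = 1 := by
  have hper : Function.Periodic ((fun τ => Δ τ ^ 1 * compSL 1 (kummerFun N χ) τ) ∘ ofComplex)
      ((1 : ℕ) : ℝ) := by
    intro z
    have h1 := (hasCharacter_kummerFun hχ).periodic hχ 1 1 T_mem_Gamma0 z
    have h2 := periodic_comp_ofComplex_of_vadd (f := Δ) (N := 1) (fun τ => delta_vadd (1 : ℕ) τ) z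
    simp only [Function.comp_apply] at h1 h2 ⊢
    rw [h1, h2]
  have hhol : MDiff (fun τ => Δ τ ^ 1 * compSL 1 (kummerFun N χ) τ) :=
    (mdiff_delta_pow 1).mul (precompSL 1 ⟨_, mdiff_kummerFun hχ hnorm⟩).2
  have han := UpperHalfPlane.analyticAt_cuspFunction_zero (h := ((1 : ℕ) : ℝ)) (by norm_num)
    hper hhol (isBoundedAtImInfty_delta_mul_kummerFun hχ hnorm 1)
  rw [UpperHalfPlane.qExpansion_coeff_zero (by norm_num) han hper]
  exact (tendsto_delta_mul_kummerFun hχ hnorm).limUnder_eq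

omit [NeZero N] in
theorem kummerExp_eq (hχ : ParTrivial χ) (hnorm : ∀ γ, ‖(χ γ : ℂ)‖ = 1) :
    (kummerExp N χ).order = -1 ∧ (kummerExp N χ).leadingCoeff = 1 := by
  set ψ := UpperHalfPlane.qExpansion ((1 : ℕ) : ℝ)
      (fun τ => Δ τ ^ 1 * compSL 1 (kummerFun N χ) τ) with hψ
  have hc : PowerSeries.coeff 0 ψ = 1 := coeff_zero_qExpansion_kummer hχ hnorm
  have hord : ψ.order = ((0 : ℕ) : ℕ∞) := by
    rw [PowerSeries.order_eq_nat]
    exact ⟨by rw [hc]; exact one_ne_zero, fun i hi => absurd hi (Nat.not_lt_zero i)⟩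
  have h1 : (HahnSeries.ofPowerSeries ℤ ℂ ψ).order = 0 := by
    simpa using order_ofPowerSeries hord
  have h2 : (HahnSeries.ofPowerSeries ℤ ℂ ψ).leadingCoeff = 1 := by
    rw [leadingCoeff_ofPowerSeries hord, hc]
  have h3 : (qExpand ℂ 1 Fermat.Agent.S28.H568.dInvS ^ 1).order = -1 := by
    rw [pow_one, inf_qExpand_order, Fermat.Agent.S28.H568.dInvS_order]
    simp
  have h4 : (qExpand ℂ 1 Fermat.Agent.S28.H568.dInvS ^ 1).leadingCoeff = 1 := by
    rw [pow_one, inf_qExpand_leadingCoeff, Fermat.Agent.S28.H568.dInvS_leadingCoeff]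
  have hx : (qExpand ℂ 1 Fermat.Agent.S28.H568.dInvS ^ 1) ≠ 0 := by
    intro h0
    rw [h0] at h4
    simp at h4
  have hy : (HahnSeries.ofPowerSeries ℤ ℂ ψ) ≠ 0 := by
    intro h0
    rw [h0] at h2
    simp at h2
  refine ⟨?_, ?_⟩
  · show (_ * _ : LaurentSeries ℂ).order = -1
    rw [HahnSeries.order_mul hx hy, h3, h1, add_zero]
  · show (_ * _ : LaurentSeries ℂ).leadingCoeff = 1
    rw [HahnSeries.leadingCoeff_mul, h4, h2, _root_.one_mul]

omit [NeZero N] in
theorem kummerExp_ne_zero (hχ : ParTrivial χ) (hnorm : ∀ γ, ‖(χ γ : ℂ)‖ = 1) :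
    kummerExp N χ ≠ 0 := by
  intro h0
  have := (kummerExp_eq hχ hnorm).2
  rw [h0] at this
  simp at this

omit [NeZero N] in
theorem kummerFun_ne_zero (hχ : ParTrivial χ) (hnorm : ∀ γ, ‖(χ γ : ℂ)‖ = 1) :
    kummerFun N χ ≠ 0 := by
  intro h0
  have h := infExp_kummerFun hχ hnorm
  rw [h0] at h
  exact kummerExp_ne_zero hχ hnorm (InfExp.eq_zero h)

/-- The expansion in `exp(2πiτ/N)` (the S24 `qexp`). -/
theorem infExp_kummerFun_level (hχ : ParTrivial χ) (hnorm : ∀ γ, ‖(χ γ : ℂ)‖ = 1) :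
    InfExp N (kummerFun N χ) (qExpand ℂ N (kummerExp N χ)) := by
  have hN : (N : ℂ) ≠ 0 := by exact_mod_cast NeZero.ne N
  have h := (infExp_kummerFun hχ hnorm).subst (N := N) (fun τ => τ) 1 N (fun τ => by
    rw [infZ_def, infZ_def, Units.val_one, _root_.one_mul, ← Complex.exp_nat_mul]
    congr 1
    push_cast
    field_simp)
  rwa [infTwist_one] at h

theorem expInf_kummerFun (hχ : ParTrivial χ) (hnorm : ∀ γ, ‖(χ γ : ℂ)‖ = 1) :
    expInf N (holToExp N ⟨kummerFun N χ, kummerFun_mem_holN hχ hnorm⟩)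
      = qExpand ℂ N (kummerExp N χ) :=
  (infExp_kummerFun_level hχ hnorm).expInf_eq

end Kummer


end Fermat.Agent.S29.H332

end
end
-- ===== PACK-END S29/H332/KummerFun.lean

-- ===== PACK-BEGIN S29/H812/IntBasis.lean
section


/-!
# S29 / H812 — a local integral basis at a place `v` of `F` for a finite extension `F'/F`

`InFib v x` : `x ∈ F'` is integral at every place above `v`.  We construct a basis `b` of `F'/F`
consisting of such elements, such that the coordinates of every such element lie in the valuation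
ring of `v`.
-/

set_option autoImplicit false

noncomputable section

open AlgebraicCurve IntermediateField

namespace Fermat.Agent.S29.H812

open Fermat.Agent.S24

variable {K F F' : Type*} [Field K] [Field F] [Field F']
  [Algebra K F] [Algebra K F'] [Algebra F F'] [IsScalarTower K F F']
  [Algebra.IsIntegral F F'] [HasPrincipalDivisors K F']

/-- `x` is integral at all places of `F'` above `v`. -/
def InFib (v : Place K F) (x : F') : Prop := ∀ w ∈ v.fiber F', x ∈ w.toValuationSubring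

theorem inFib_zero (v : Place K F) : InFib v (0 : F') := fun _ _ => _root_.ZeroMemClass.zero_mem _

theorem inFib_one (v : Place K F) : InFib v (1 : F') := fun _ _ => _root_.OneMemClass.one_mem _

theorem InFib.add {v : Place K F} {x y : F'} (hx : InFib v x) (hy : InFib v y) :
    InFib v (x + y) := fun w hw => _root_.AddMemClass.add_mem (hx w hw) (hy w hw)

theorem InFib.mul {v : Place K F} {x y : F'} (hx : InFib v x) (hy : InFib v y) :
    InFib v (x * y) := fun w hw => _root_.MulMemClass.mul_mem (hx w hw) (hy w hw)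

theorem inFib_sum {v : Place K F} {ι : Type*} (s : Finset ι) (f : ι → F')
    (h : ∀ i ∈ s, InFib v (f i)) : InFib v (∑ i ∈ s, f i) :=
  fun w hw => _root_.sum_mem fun i hi => h i hi w hw

theorem inFib_algebraMap {v : Place K F} {c : F} (hc : c ∈ v.toValuationSubring) :
    InFib v (algebraMap F F' c) := by
  intro w hw
  have h := Place.mem_fiber.mp hw
  rw [← h] at hc
  exact (Place.mem_restrict_iff w).mp hc

theorem InFib.smul {v : Place K F} {c : F} (hc : c ∈ v.toValuationSubring) {x : F'}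
    (hx : InFib v x) : InFib v (c • x) := by
  rw [Algebra.smul_def]
  exact (inFib_algebraMap hc).mul hx

theorem inFib_iff_ord {v : Place K F} {x : F'} :
    InFib v x ↔ ∀ w ∈ v.fiber F', 0 ≤ w.ord x :=
  forall₂_congr fun w _ => H117.mem_iff_ord_nonneg w

section Basis

variable [IsAlgClosed K] [CharZero K] [Module.Finite F F']

/-- **Local integral basis.** -/
theorem exists_integral_basis
    (hF : ∃ x : F, Transcendental K x ∧ FiniteDimensional K⟮x⟯ F) (v : Place K F) :
    ∃ b : Module.Basis (FibIdx F' v) F F',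
      (∀ i, InFib v (b i)) ∧
      (∀ x : F', InFib v x → ∀ i, b.repr x i ∈ v.toValuationSubring) := by
  classical
  obtain ⟨u, hu0, hu1, hu2⟩ := exists_family (F' := F') v
  have hli := family_linearIndependent v u hu0 hu1 hu2
  have hcard : Fintype.card (FibIdx F' v) = Module.finrank F F' := by
    rw [card_fibIdx, sum_ramificationIndex_eq_finrank hF v]
  set b : Module.Basis (FibIdx F' v) F F' := basisOfLinearIndependentOfCardEqFinrank' u hli hcard
    with hb
  have hbu : ∀ i, b i = u i := fun i => by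
    rw [hb, coe_basisOfLinearIndependentOfCardEqFinrank']
  refine ⟨b, ?_, ?_⟩
  · intro a
    rw [hbu, inFib_iff_ord]
    intro w hw
    by_cases h : w = a.1.1
    · rw [h, hu1]; exact Int.natCast_nonneg _
    · have hpos : 0 < w.ramificationIndex F := w.ramificationIndex_pos (F := F)
      have := hu2 a ⟨⟨w, hw⟩, ⟨0, hpos⟩⟩ h
      have h0 : (0 : ℤ) ≤ ((w.ramificationIndex F : ℕ) : ℤ) := Int.natCast_nonneg _
      exact h0.trans this
  · intro x hx a
    by_cases hall : ∀ a, b.repr x a = 0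
    · rw [hall a]; exact _root_.ZeroMemClass.zero_mem _
    push Not at hall
    obtain ⟨a₀, hc₀, hmin, -, hord⟩ := family_coord v u hu0 hu1 hu2 (fun a => b.repr x a) hall
    have hsum : ∑ a, b.repr x a • u a = x := by
      have := b.sum_repr x
      simpa [hbu] using this
    rw [hsum] at hord
    have h0 : 0 ≤ a₀.1.1.ord x := H117.ord_nonneg_of_mem _ (hx a₀.1.1 a₀.1.2)
    have hi : ((a₀.2 : ℕ) : ℤ) < (a₀.1.1.ramificationIndex F : ℤ) := by exact_mod_cast a₀.2.2
    have hm : 0 ≤ v.ord (b.repr x a₀) := by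
      by_contra hneg
      push Not at hneg
      have he : (0 : ℤ) < (a₀.1.1.ramificationIndex F : ℤ) := by
        exact_mod_cast a₀.1.1.ramificationIndex_pos (F := F)
      nlinarith
    by_cases ha : b.repr x a = 0
    · rw [ha]; exact _root_.ZeroMemClass.zero_mem _
    · exact H117.mem_of_ord_nonneg v (hm.trans (hmin a ha))

end Basis

end Fermat.Agent.S29.H812

end
end
-- ===== PACK-END S29/H812/IntBasis.lean

-- ===== PACK-BEGIN S29/H812/Norm.lean
section


/-!
# S29 / H812 — the norm formula `ord_v (N_{F'/F} f) = ∑_{w | v} ord_w f` for a finite extension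
of function fields of one variable over an algebraically closed field of characteristic zero.
-/

set_option autoImplicit false

noncomputable section

open AlgebraicCurve IntermediateField

namespace Fermat.Agent.S29.H812

open Fermat.Agent.S24

section Single

variable {K F : Type*} [Field K] [Field F] [Algebra K F]

theorem ord_prod (w : Place K F) {ι : Type*} (s : Finset ι) (g : ι → F)
    (hg : ∀ i ∈ s, g i ≠ 0) : w.ord (∏ i ∈ s, g i) = ∑ i ∈ s, w.ord (g i) := by
  classical
  induction s using Finset.induction_on with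
  | empty => simp
  | insert a s ha ih =>
    rw [Finset.prod_insert ha, Finset.sum_insert ha,
      w.ord_mul (hg a (Finset.mem_insert_self _ _))
        (Finset.prod_ne_zero_iff.mpr fun i hi => hg i (Finset.mem_insert_of_mem hi)),
      ih fun i hi => hg i (Finset.mem_insert_of_mem hi)]

theorem isUnit_of_ord_eq_zero (v : Place K F) (a : v.toValuationSubring) (ha : (a : F) ≠ 0)
    (h : v.ord (a : F) = 0) : IsUnit a := by
  rw [← v.adicValuation_coe_eq_one_iff, H504.adicValuation_eq_exp_neg_ord v ha, h]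
  simp

end Single

variable {K F F' : Type*} [Field K] [Field F] [Field F']
  [Algebra K F] [Algebra K F'] [Algebra F F'] [IsScalarTower K F F']
  [Algebra.IsIntegral F F'] [HasPrincipalDivisors K F']
  [IsAlgClosed K] [CharZero K] [Module.Finite F F']

/-- The matrix of multiplication by an integral element in a local integral basis, over the
valuation ring. -/
theorem exists_matrix (v : Place K F) [DecidableEq (FibIdx F' v)]
    (b : Module.Basis (FibIdx F' v) F F')
    (hb : ∀ i, InFib v (b i))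
    (hrepr : ∀ x : F', InFib v x → ∀ i, b.repr x i ∈ v.toValuationSubring)
    {x : F'} (hx : InFib v x) :
    ∃ A : Matrix (FibIdx F' v) (FibIdx F' v) v.toValuationSubring,
      Algebra.leftMulMatrix b x = A.map v.toValuationSubring.subtype := by
  refine ⟨fun i j => ⟨Algebra.leftMulMatrix b x i j, ?_⟩, ?_⟩
  · rw [Algebra.leftMulMatrix_eq_repr_mul]
    exact hrepr _ (hx.mul (hb j)) i
  · ext i j
    rfl

/-- The norm of an element integral above `v` is integral at `v`. -/
theorem norm_mem_of_inFib (hF : ∃ x : F, Transcendental K x ∧ FiniteDimensional K⟮x⟯ F)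
    (v : Place K F) {x : F'} (hx : InFib v x) : Algebra.norm F x ∈ v.toValuationSubring := by
  classical
  obtain ⟨b, hb, hrepr⟩ := exists_integral_basis (F' := F') hF v
  obtain ⟨A, hA⟩ := exists_matrix v b hb hrepr hx
  rw [Algebra.norm_eq_matrix_det b x, hA, ← RingHom.mapMatrix_apply, ← RingHom.map_det]
  exact (A.det).2

/-- If the norm of an integral element is a unit at `v`, the inverse is integral above `v`. -/
theorem inFib_inv_of_ord_norm_eq_zero
    (hF : ∃ x : F, Transcendental K x ∧ FiniteDimensional K⟮x⟯ F)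
    (v : Place K F) {x : F'} (hx0 : x ≠ 0) (hx : InFib v x)
    (hN : v.ord (Algebra.norm F x) = 0) : InFib v x⁻¹ := by
  classical
  obtain ⟨b, hb, hrepr⟩ := exists_integral_basis (F' := F') hF v
  obtain ⟨A, hA⟩ := exists_matrix v b hb hrepr hx
  have hdet : ((A.det : v.toValuationSubring) : F) = Algebra.norm F x := by
    rw [Algebra.norm_eq_matrix_det b x, hA, ← RingHom.mapMatrix_apply, ← RingHom.map_det]
    rfl
  have hNne : Algebra.norm F x ≠ 0 := Algebra.norm_ne_zero_iff.mpr hx0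
  have hunit : IsUnit A.det :=
    isUnit_of_ord_eq_zero v A.det (by rw [hdet]; exact hNne) (by rw [hdet]; exact hN)
  -- the inverse matrix
  have h1 : A⁻¹ * A = 1 := Matrix.nonsing_inv_mul A hunit
  have h2 : (A⁻¹).map v.toValuationSubring.subtype * Algebra.leftMulMatrix b x = 1 := by
    rw [hA, ← Matrix.map_mul, h1]
    exact Matrix.map_one _ (map_zero _) (map_one _)
  have h3 : Algebra.leftMulMatrix b x * Algebra.leftMulMatrix b x⁻¹ = 1 := by
    rw [← map_mul, mul_inv_cancel₀ hx0, map_one]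
  have h4 : Algebra.leftMulMatrix b x⁻¹ = (A⁻¹).map v.toValuationSubring.subtype := by
    calc Algebra.leftMulMatrix b x⁻¹
        = ((A⁻¹).map v.toValuationSubring.subtype * Algebra.leftMulMatrix b x)
            * Algebra.leftMulMatrix b x⁻¹ := by rw [h2, one_mul]
      _ = (A⁻¹).map v.toValuationSubring.subtype := by rw [mul_assoc, h3, mul_one]
  -- coordinates of `x⁻¹`
  have hcoord : ∀ i, b.repr x⁻¹ i ∈ v.toValuationSubring := by
    intro i
    have h5 := congrFun (Algebra.leftMulMatrix_mulVec_repr b x⁻¹ 1) i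
    rw [mul_one] at h5
    rw [← h5, Matrix.mulVec, dotProduct]
    refine _root_.sum_mem fun j _ => _root_.MulMemClass.mul_mem ?_ (hrepr 1 (inFib_one v) j)
    rw [h4]
    exact (A⁻¹ i j).2
  rw [← b.sum_repr x⁻¹]
  exact inFib_sum _ _ fun i _ => (hb i).smul (hcoord i)

variable (hF : ∃ x : F, Transcendental K x ∧ FiniteDimensional K⟮x⟯ F)

include hF in
/-- Units above `v` have unit norm. -/
theorem ord_norm_eq_zero_of_unit (v : Place K F) {x : F'} (hx0 : x ≠ 0)
    (hx : ∀ w ∈ v.fiber F', w.ord x = 0) : v.ord (Algebra.norm F x) = 0 := by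
  have h1 : InFib v x := inFib_iff_ord.mpr fun w hw => (hx w hw).ge
  have h2 : InFib v x⁻¹ := inFib_iff_ord.mpr fun w hw => by
    rw [w.ord_inv, hx w hw]; rfl
  have h3 := H117.ord_nonneg_of_mem v (norm_mem_of_inFib hF v h1)
  have h4 := H117.ord_nonneg_of_mem v (norm_mem_of_inFib hF v h2)
  have h5 : Algebra.norm F x * Algebra.norm F x⁻¹ = 1 := by
    rw [← map_mul, mul_inv_cancel₀ hx0, map_one]
  have h6 : v.ord (Algebra.norm F x) + v.ord (Algebra.norm F x⁻¹) = 0 := by
    rw [← v.ord_mul (Algebra.norm_ne_zero_iff.mpr hx0)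
      (Algebra.norm_ne_zero_iff.mpr (inv_ne_zero hx0)), h5, v.ord_one]
  omega

include hF in
/-- Non-units above `v` have non-unit norm. -/
theorem ord_norm_pos_of_ord_pos (v : Place K F) {x : F'} (hx0 : x ≠ 0) (hx : InFib v x)
    {w₀ : Place K F'} (hw₀ : w₀ ∈ v.fiber F') (hpos : 0 < w₀.ord x) :
    0 < v.ord (Algebra.norm F x) := by
  have h3 := H117.ord_nonneg_of_mem v (norm_mem_of_inFib hF v hx)
  rcases eq_or_lt_of_le h3 with h0 | hlt
  · exfalso
    have h := inFib_inv_of_ord_norm_eq_zero hF v hx0 hx h0.symm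
    have := H117.ord_nonneg_of_mem w₀ (h w₀ hw₀)
    rw [w₀.ord_inv] at this
    omega
  · exact hlt

include hF in
/-- Elements with the same orders above `v` have norms of the same order at `v`. -/
theorem ord_norm_congr (v : Place K F) {g h : F'} (hg : g ≠ 0) (hh : h ≠ 0)
    (hgh : ∀ w ∈ v.fiber F', w.ord g = w.ord h) :
    v.ord (Algebra.norm F g) = v.ord (Algebra.norm F h) := by
  have hu0 : g * h⁻¹ ≠ 0 := mul_ne_zero hg (inv_ne_zero hh)
  have hu : v.ord (Algebra.norm F (g * h⁻¹)) = 0 :=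
    ord_norm_eq_zero_of_unit hF v hu0 fun w hw => by
      rw [w.ord_mul hg (inv_ne_zero hh), w.ord_inv, hgh w hw]; ring
  have h1 : g = (g * h⁻¹) * h := by field_simp
  have h2 : Algebra.norm F g = Algebra.norm F (g * h⁻¹) * Algebra.norm F h := by
    rw [← map_mul, ← h1]
  rw [h2, v.ord_mul (Algebra.norm_ne_zero_iff.mpr hu0) (Algebra.norm_ne_zero_iff.mpr hh), hu,
    zero_add]

end Fermat.Agent.S29.H812

end
end
-- ===== PACK-END S29/H812/Norm.lean

-- ===== PACK-BEGIN S29/H509/KummerFun.lean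
section



/-!
# The Kummer function of a character (helper509, S29 piece K1-full)

For `Γ ≤ SL(2, ℤ)` and a unitary character `χ : Γ →* ℂˣ` trivial on the stabiliser of `∞`:
`kumH χ τ = twEis χ 12 τ / Δ τ` is holomorphic on `ℍ`, nonzero, satisfies
`kumH χ (γ • τ) = χ γ * kumH χ τ` for `γ ∈ Γ`, and all its `SL(2, ℤ)`-translates have at most
exponential growth at `i∞`.  If `χ ^ p = 1` and `Γ = Γ₀(N)`, then `kumH χ ^ p` lies in helper648's
`goodRing N` (so, by helper882's MERO, its `q`-expansion lies in the function field over `ℂ`).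
-/

set_option autoImplicit false

namespace Fermat.Agent.S29.H509

open ModularForm UpperHalfPlane Matrix CongruenceSubgroup EisensteinSeries Filter Topology
open scoped MatrixGroups Manifold Real

open Fermat.Agent.S24.H648 (goodRing ExpGrowth)

noncomputable section

local notation "Δ" => ModularForm.discriminant

/-- A uniform bound for weighted Eisenstein sums on `im z ≥ 1`. -/
theorem exists_bound_wEis {k : ℤ} (hk : 3 ≤ k) :
    ∃ M : ℝ, ∀ (w : (Fin 2 → ℤ) → ℂ), (∀ v, ‖w v‖ ≤ 1) → ∀ z : ℍ, 1 ≤ z.im →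
      ‖wEis w k z‖ ≤ M := by
  refine ⟨∑' x : Fin 2 → ℤ, r ⟨⟨1, 1⟩, one_pos⟩ ^ (-k) * ‖x‖ ^ (-k), fun w hw z hz => ?_⟩
  obtain ⟨n, hn⟩ := ModularGroup_T_zpow_mem_verticalStrip z (N := 1) one_pos
  refine (norm_wEis_le_eisMaj hw hk z).trans ?_
  rw [← eisMaj_T_zpow_smul k ((1 : ℕ) * n) z]
  refine eisMaj_le_of_mem_verticalStrip hk one_pos ?_
  exact verticalStrip_anti_right _ hz (by simpa using hn)

variable {Γ : Subgroup SL(2, ℤ)}

/-- A uniform bound for all `SL(2, ℤ)`-translates of the twisted Eisenstein series on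
`im z ≥ 1`. -/
theorem exists_bound_twEis_slash {χ : Γ →* ℂˣ} (hnorm : ∀ γ, ‖(χ γ : ℂ)‖ = 1) {k : ℤ}
    (hk : 3 ≤ k) : ∃ M : ℝ, ∀ (g : SL(2, ℤ)) (z : ℍ), 1 ≤ z.im →
      ‖(twEis χ k ∣[k] g) z‖ ≤ M := by
  obtain ⟨M, hM⟩ := exists_bound_wEis hk
  refine ⟨M, fun g z hz => ?_⟩
  unfold twEis
  rw [wEis_slash]
  exact hM _ (fun v => norm_chiWeight_le hnorm _) z hz

/-- The Kummer function `E^χ₁₂ / Δ` of a character `χ`. -/
def kumH (χ : Γ →* ℂˣ) : ℍ → ℂ := fun τ => twEis χ 12 τ * (Δ τ)⁻¹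

lemma kumH_apply (χ : Γ →* ℂˣ) (τ : ℍ) : kumH χ τ = twEis χ 12 τ * (Δ τ)⁻¹ := rfl

theorem kumH_mdifferentiable {χ : Γ →* ℂˣ} (hnorm : ∀ γ, ‖(χ γ : ℂ)‖ = 1) :
    MDiff (kumH χ) := by
  have h1 : MDiff (twEis χ 12) := twEis_mdifferentiable hnorm (by norm_num)
  have h2 := h1.div Fermat.Agent.S28.H565.mdifferentiable_discriminant
    ModularForm.discriminant_ne_zero
  have h3 : kumH χ = twEis χ 12 / Δ := by
    funext τ
    simp only [kumH_apply, Pi.div_apply, div_eq_mul_inv]
  rw [h3]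
  exact h2

lemma denom_SL_eq (g : SL(2, ℤ)) (τ : ℍ) :
    denom (g : SL(2, ℤ)) τ = ((g 1 0 : ℤ) : ℂ) * τ + ((g 1 1 : ℤ) : ℂ) := by
  simp [UpperHalfPlane.denom]

/-- Translates of the Kummer function by `SL(2, ℤ)`. -/
theorem kumH_smul_SL (χ : Γ →* ℂˣ) (g : SL(2, ℤ)) (τ : ℍ) :
    kumH χ (g • τ) = (twEis χ 12 ∣[(12 : ℤ)] g) τ * (Δ τ)⁻¹ := by
  have hd : denom (g : SL(2, ℤ)) τ ≠ 0 := denom_ne_zero _ τ
  rw [kumH_apply, SL_slash_apply, Fermat.Agent.S28.H565.discriminant_smul, ← denom_SL_eq,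
    mul_inv, _root_.zpow_neg]
  ring

/-- The Kummer function transforms under `Γ` by the character `χ`. -/
theorem kumH_smul {χ : Γ →* ℂˣ} (hχ : TrivOnUnip χ) (γ : Γ) (τ : ℍ) :
    kumH χ ((γ : SL(2, ℤ)) • τ) = (χ γ : ℂ) * kumH χ τ := by
  rw [kumH_smul_SL, twEis_slash hχ, Pi.smul_apply, smul_eq_mul, kumH_apply, _root_.mul_assoc]

/-- All translates of the Kummer function have at most exponential growth at `i∞`. -/
theorem kumH_expGrowth {χ : Γ →* ℂˣ} (hnorm : ∀ γ, ‖(χ γ : ℂ)‖ = 1) (g : SL(2, ℤ)) :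
    ExpGrowth (fun τ => kumH χ (g • τ)) := by
  obtain ⟨M, hM⟩ := exists_bound_twEis_slash (χ := χ) hnorm (k := 12) (by norm_num)
  obtain ⟨C, hC⟩ := Fermat.Agent.S28.H589.exists_inv_discriminant_bound
  have hM0 : 0 ≤ M := (norm_nonneg _).trans (hM 1 UpperHalfPlane.I (by simp))
  refine ⟨M * C, 1, fun τ hτ => ?_⟩
  show ‖kumH χ (g • τ)‖ ≤ _
  rw [kumH_smul_SL, norm_mul]
  calc ‖(twEis χ 12 ∣[(12 : ℤ)] g) τ‖ * ‖(Δ τ)⁻¹‖
      ≤ M * (C * Real.exp (2 * π * τ.im)) :=
        mul_le_mul (hM g τ hτ) (hC τ hτ) (norm_nonneg _) hM0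
    _ = M * C * Real.exp (2 * π * (1 : ℕ) * τ.im) := by
        simp only [Nat.cast_one, _root_.mul_one]
        ring

/-- The Kummer function is not identically zero. -/
theorem kumH_ne_zero {χ : Γ →* ℂˣ} (hnorm : ∀ γ, ‖(χ γ : ℂ)‖ = 1) (hχ : TrivOnStabInfty χ) :
    kumH χ ≠ 0 := by
  intro h0
  apply twEis_ne_zero hnorm hχ (k := 12) (by norm_num) (by decide)
  funext τ
  have h1 : kumH χ τ = 0 := by rw [h0]; rfl
  rw [kumH_apply] at h1
  rcases mul_eq_zero.mp h1 with h | h
  · exact h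
  · exact absurd (inv_eq_zero.mp h) (ModularForm.discriminant_ne_zero τ)

/-- The `p`-th power of the Kummer function of a character of order dividing `p` is a good
function for `Γ₀(N)`: holomorphic, `Γ₀(N)`-invariant, all translates of exponential growth. -/
theorem kumH_pow_mem_goodRing {N : ℕ} {χ : Gamma0 N →* ℂˣ} (hχ : TrivOnUnip χ) {p : ℕ}
    (hp : p ≠ 0) (hχp : ∀ γ, χ γ ^ p = 1) : kumH χ ^ p ∈ goodRing N := by
  have hnorm : ∀ γ, ‖(χ γ : ℂ)‖ = 1 := fun γ => norm_eq_one_of_pow_eq_one' hp (hχp γ)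
  refine ⟨(kumH_mdifferentiable hnorm).pow p, fun γ hγ τ => ?_, fun g => ?_⟩
  · have h := kumH_smul hχ ⟨γ, hγ⟩ τ
    simp only [Pi.pow_apply]
    change kumH χ (γ • τ) = _ at h
    rw [h, mul_pow]
    have h1 : (χ ⟨γ, hγ⟩ : ℂ) ^ p = 1 := by
      have := congrArg (fun x : ℂˣ => (x : ℂ)) (hχp ⟨γ, hγ⟩)
      simpa using this
    rw [h1, _root_.one_mul]
  · have h := kumH_expGrowth (χ := χ) hnorm g
    have hpow : ∀ n : ℕ, ExpGrowth (fun τ => kumH χ (g • τ) ^ n) := by
      intro n
      induction n with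
      | zero =>
        simp only [pow_zero]
        exact Fermat.Agent.S24.H648.expGrowth_const 1
      | succ n ih =>
        have h2 := ih.mul h
        have h3 : ((fun τ => kumH χ (g • τ) ^ n) * fun τ => kumH χ (g • τ))
            = fun τ => kumH χ (g • τ) ^ (n + 1) := by
          funext τ
          simp only [Pi.mul_apply, pow_succ]
        rwa [h3] at h2
    exact hpow p

end

end Fermat.Agent.S29.H509

end
-- ===== PACK-END S29/H509/KummerFun.lean

-- ===== PACK-BEGIN S29/H509/KummerHom.lean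
section


/-!
# The Kummer function of an additive character `Γ₀(N) → ℤ/p` (helper509, S29 piece K1-full)

`chiOfHom c γ = exp (2πi c(γ) / p)` turns `c : Additive Γ →+ ZMod p` into a character
`Γ →* ℂˣ`; `exists_kummerFun_of_hom` is the packaged statement for consumers (DICT / DESC / NORM).
-/

set_option autoImplicit false

namespace Fermat.Agent.S29.H509

open ModularForm UpperHalfPlane Matrix CongruenceSubgroup EisensteinSeries Filter Topology
open scoped MatrixGroups Manifold Real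

open Fermat.Agent.S24.H648 (goodRing ExpGrowth)

noncomputable section

variable {Γ : Subgroup SL(2, ℤ)} {p : ℕ} [NeZero p]

/-- The character `γ ↦ exp (2πi c(γ) / p)` attached to `c : Γ → ℤ/p`. -/
def chiOfHom (c : Additive Γ →+ ZMod p) : Γ →* ℂˣ :=
  MonoidHom.toHomUnits
    { toFun := fun γ => ZMod.stdAddChar (N := p) (c (Additive.ofMul γ))
      map_one' := by simp
      map_mul' := fun a b => by
        rw [ofMul_mul, _root_.map_add, AddChar.map_add_eq_mul] }

@[simp] lemma chiOfHom_apply (c : Additive Γ →+ ZMod p) (γ : Γ) :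
    ((chiOfHom c γ : ℂˣ) : ℂ) = ZMod.stdAddChar (N := p) (c (Additive.ofMul γ)) := rfl

lemma chiOfHom_eq_one_iff (c : Additive Γ →+ ZMod p) (γ : Γ) :
    chiOfHom c γ = 1 ↔ c (Additive.ofMul γ) = 0 := by
  rw [← Units.val_inj, chiOfHom_apply, Units.val_one,
    ← (ZMod.stdAddChar (N := p)).map_zero_eq_one, ZMod.injective_stdAddChar.eq_iff]

lemma chiOfHom_pow (c : Additive Γ →+ ZMod p) (γ : Γ) : chiOfHom c γ ^ p = 1 := by
  rw [← Units.val_inj, Units.val_pow_eq_pow_val, chiOfHom_apply, Units.val_one,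
    ← AddChar.map_nsmul_eq_pow]
  simp

lemma chiOfHom_add (c c' : Additive Γ →+ ZMod p) (γ : Γ) :
    chiOfHom (c + c') γ = chiOfHom c γ * chiOfHom c' γ := by
  rw [← Units.val_inj, Units.val_mul, chiOfHom_apply, chiOfHom_apply, chiOfHom_apply,
    AddMonoidHom.add_apply, AddChar.map_add_eq_mul]

lemma chiOfHom_zero : chiOfHom (0 : Additive Γ →+ ZMod p) = 1 := by
  ext γ
  simp

lemma trivOnStabInfty_chiOfHom {c : Additive Γ →+ ZMod p}
    (hc : ∀ γ : Γ, (γ : SL(2, ℤ)) 1 0 = 0 → c (Additive.ofMul γ) = 0) :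
    TrivOnStabInfty (chiOfHom c) :=
  fun γ hγ => (chiOfHom_eq_one_iff c γ).mpr (hc γ hγ)

/-- An element of `SL(2, ℤ)` with lower left entry `0` has trace `±2`. -/
lemma trace_sq_of_lower_left_eq_zero (γ : SL(2, ℤ)) (h : γ 1 0 = 0) :
    (γ : Matrix (Fin 2) (Fin 2) ℤ).trace ^ 2 = 4 := by
  have hdet := γ.det_coe
  rw [Matrix.det_fin_two] at hdet
  have h' : (γ : Matrix (Fin 2) (Fin 2) ℤ) 1 0 = 0 := h
  rw [h', _root_.MulZeroClass.mul_zero, sub_zero] at hdet
  rw [Matrix.trace_fin_two]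
  rcases Int.eq_one_or_neg_one_of_mul_eq_one' hdet with ⟨h1, h2⟩ | ⟨h1, h2⟩
  · rw [h1, h2]; norm_num
  · rw [h1, h2]; norm_num

/-- **K1 (packaged).**  For an additive character `c : Γ₀(N) → ℤ/p` vanishing on the elements
fixing `∞` (e.g. on all elements with `trace ^ 2 = 4`), the Kummer function
`h = kumH (chiOfHom c)` is holomorphic, nonzero, transforms by
`h (γ • τ) = exp (2πi c(γ)/p) * h τ` under `Γ₀(N)`, all its `SL(2, ℤ)`-translates have at most
exponential growth, and `h ^ p` is a good function for `Γ₀(N)`. -/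
theorem exists_kummerFun_of_hom (N : ℕ) (c : Additive (Gamma0 N) →+ ZMod p)
    (hc : ∀ γ : Gamma0 N, (γ : SL(2, ℤ)) 1 0 = 0 → c (Additive.ofMul γ) = 0) :
    ∃ h : ℍ → ℂ, MDiff h ∧ h ≠ 0 ∧
      (∀ (γ : Gamma0 N) (τ : ℍ),
        h ((γ : SL(2, ℤ)) • τ) = ZMod.stdAddChar (N := p) (c (Additive.ofMul γ)) * h τ) ∧
      (∀ g : SL(2, ℤ), ExpGrowth (fun τ => h (g • τ))) ∧
      h ^ p ∈ goodRing N := by
  have hp : p ≠ 0 := NeZero.ne p
  have hstab := trivOnStabInfty_chiOfHom hc
  have hnorm : ∀ γ, ‖((chiOfHom c γ : ℂˣ) : ℂ)‖ = 1 :=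
    fun γ => norm_eq_one_of_pow_eq_one' hp (chiOfHom_pow c γ)
  refine ⟨kumH (chiOfHom c), kumH_mdifferentiable hnorm, kumH_ne_zero hnorm hstab,
    fun γ τ => ?_, kumH_expGrowth hnorm, kumH_pow_mem_goodRing hstab.trivOnUnip hp
      (chiOfHom_pow c)⟩
  rw [kumH_smul hstab.trivOnUnip, chiOfHom_apply]

end

end Fermat.Agent.S29.H509

end
-- ===== PACK-END S29/H509/KummerHom.lean

-- ===== PACK-BEGIN S18/H24/GaussFields.lean
section


/-!
# S18 / node_mod, part G-V (helper24) — HAND-IN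

All `V`-fields of `Alg.GoodModel` (v4 on main) for the concrete objects of `S18/Mod/Defs.lean`:

`gv_fields` : for every subring `V` with underlying set `VcSet M A E`, every `w` satisfying the
`w`-fields of G-R (`w_mem, w_ne_zero, w_inv_not_mem, w_gen, w_discrete` for `Rc M A E`), and every
coordinate `x` with an integral expansion `q⁻¹ + …` (`H456.HasIntExp`, e.g. from `IsCoordinate`):

    V_le ∧ V_total ∧ R_le_V ∧ x_mem_V ∧ w_inv_not_mem_V ∧ V_gen ∧ gauss

in exactly the field types of `Alg.GoodModel (Lc M) (Ec M E) (Fc M E) (Rc M A E) V w x S`.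
No hypothesis on `ℓ`, `M`, or finiteness of `E` is needed here (they enter through G-R).
-/

set_option autoImplicit false

noncomputable section

namespace Fermat.Agent.S18.H24

open ModularCurve AlgebraicCurve HahnSeries Fermat.Agent.S18 Fermat.Agent.S18.Mod
open Fermat.Agent.S18.H456

variable {M : ℕ} {A : ValuationSubring Qb} {E : IntermediateField ℚ Qb}

/-- The `w`-fields of G-R give a uniformiser in the sense of `IsUnif`. -/
theorem exists_isUnif {w : Om M} (hwR : w ∈ Rc M A E) (hw0 : w ≠ 0) (hwinv : w⁻¹ ∉ Rc M A E)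
    (hgen : ∀ r ∈ Rc M A E, r⁻¹ ∉ Rc M A E → r * w⁻¹ ∈ Rc M A E)
    (hdisc : ∀ r ∈ Rc M A E, r ≠ 0 →
      ∃ n : ℕ, r * (w⁻¹) ^ n ∈ Rc M A E ∧ (r * (w⁻¹) ^ n)⁻¹ ∈ Rc M A E) :
    ∃ w₀ : Qb, w = cst M w₀ ∧ _root_.Fermat.Agent.S18.H24.IsUnif A E w₀ := by
  obtain ⟨w₀, hw₀A, hw₀E, rfl⟩ := (mem_Rc_iff M A E).mp hwR
  have hw₀0 : w₀ ≠ 0 := by
    rintro rfl
    exact hw0 (_root_.map_zero _)
  have hninv : w₀⁻¹ ∉ A := by
    intro h
    apply hwinv
    rw [← map_inv₀]
    exact cst_mem_Rc M A E h (inv_mem hw₀E)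
  refine ⟨w₀, rfl, hw₀A, hw₀E, hw₀0, hninv, ?_, ?_⟩
  · intro c hcA hcE hcinv
    have h1 : (cst M c)⁻¹ ∉ Rc M A E := by
      intro h
      rw [← map_inv₀] at h
      exact hcinv ((cst_mem_Rc_iff M A E).mp h).1
    have h2 := hgen _ (cst_mem_Rc M A E hcA hcE) h1
    rw [← map_inv₀, ← _root_.map_mul] at h2
    exact ((cst_mem_Rc_iff M A E).mp h2).1
  · intro c hcA hcE hc0
    have h1 : cst M c ≠ 0 := fun h => hc0 (cst_injective M (by rw [h]; exact (_root_.map_zero _).symm))
    obtain ⟨n, hn1, hn2⟩ := hdisc _ (cst_mem_Rc M A E hcA hcE) h1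
    refine ⟨n, ?_, ?_⟩
    · rw [← map_inv₀, ← map_pow, ← _root_.map_mul] at hn1
      exact ((cst_mem_Rc_iff M A E).mp hn1).1
    · rw [← map_inv₀, ← map_pow, ← _root_.map_mul, ← map_inv₀] at hn2
      exact ((cst_mem_Rc_iff M A E).mp hn2).1

/-- **G-V hand-in**: all `V`-fields of `GoodModel` for the concrete Gauss valuation ring. -/
theorem gv_fields [NeZero M] (V : Subring (Om M)) (hV : (V : Set (Om M)) = VcSet M A E)
    {w : Om M} (hwR : w ∈ Rc M A E) (hw0 : w ≠ 0) (hwinv : w⁻¹ ∉ Rc M A E)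
    (hgen : ∀ r ∈ Rc M A E, r⁻¹ ∉ Rc M A E → r * w⁻¹ ∈ Rc M A E)
    (hdisc : ∀ r ∈ Rc M A E, r ≠ 0 →
      ∃ n : ℕ, r * (w⁻¹) ^ n ∈ Rc M A E ∧ (r * (w⁻¹) ^ n)⁻¹ ∈ Rc M A E)
    {x : Om M} (hx : HasIntExp M x) :
    ((V : Set (Om M)) ⊆ Fc M E) ∧
    (∀ f ∈ Fc M E, f ∈ V ∨ f⁻¹ ∈ V) ∧
    (Rc M A E ≤ V) ∧
    (x ∈ V) ∧
    (w⁻¹ ∉ V) ∧
    (∀ f ∈ V, f⁻¹ ∉ V → f * w⁻¹ ∈ V) ∧
    (∀ P : Polynomial (Om M), (∀ i, P.coeff i ∈ Rc M A E) →
      (∃ i, P.coeff i ≠ 0 ∧ (P.coeff i)⁻¹ ∈ Rc M A E) → (P.eval x)⁻¹ ∈ V) := by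
  have hVeq : V = Vc M A E := SetLike.coe_injective (by rw [hV, coe_Vc])
  subst hVeq
  obtain ⟨w₀, rfl, hw⟩ := _root_.Fermat.Agent.S18.H24.exists_isUnif hwR hw0 hwinv hgen hdisc
  exact ⟨field_V_le M A E, field_V_total M hw, field_R_le_V M A E, coord_mem_Vc hx,
    field_w_inv_not_mem_V hw.ne_zero hw.inv_not_mem, field_V_gen M hw, field_gauss hx⟩

/-- The same for a coordinate in the sense of `Mod.IsCoordinate`. -/
theorem gv_fields_of_isCoordinate [NeZero M] (V : Subring (Om M))
    (hV : (V : Set (Om M)) = VcSet M A E)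
    {w : Om M} (hwR : w ∈ Rc M A E) (hw0 : w ≠ 0) (hwinv : w⁻¹ ∉ Rc M A E)
    (hgen : ∀ r ∈ Rc M A E, r⁻¹ ∉ Rc M A E → r * w⁻¹ ∈ Rc M A E)
    (hdisc : ∀ r ∈ Rc M A E, r ≠ 0 →
      ∃ n : ℕ, r * (w⁻¹) ^ n ∈ Rc M A E ∧ (r * (w⁻¹) ^ n)⁻¹ ∈ Rc M A E)
    {ℓ : ℕ} {x : Om M} {S : Finset (Om M)} (hx : IsCoordinate M ℓ x S) :
    ((V : Set (Om M)) ⊆ Fc M E) ∧
    (∀ f ∈ Fc M E, f ∈ V ∨ f⁻¹ ∈ V) ∧
    (Rc M A E ≤ V) ∧
    (x ∈ V) ∧
    (w⁻¹ ∉ V) ∧
    (∀ f ∈ V, f⁻¹ ∉ V → f * w⁻¹ ∈ V) ∧
    (∀ P : Polynomial (Om M), (∀ i, P.coeff i ∈ Rc M A E) →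
      (∃ i, P.coeff i ≠ 0 ∧ (P.coeff i)⁻¹ ∈ Rc M A E) → (P.eval x)⁻¹ ∈ V) :=
  gv_fields V hV hwR hw0 hwinv hgen hdisc (hasIntExp_of_isCoordinate M hx)

end Fermat.Agent.S18.H24

end
end
-- ===== PACK-END S18/H24/GaussFields.lean

-- ===== PACK-BEGIN S18/H24/Branch.lean
section






/-!
# S18 / MOD (M2) — ramification of `F_N / ℚ̄(j)` in `Place` language  (helper24)

`F_N = modularFunctionFieldBar N = ℚ̄(j(q^d) : d ∣ N)`, `j = jF N`.  For a place `v` of `F_N/ℚ̄`:

* `ord_sub_eq_one`     : `a ≠ 0, 1728`, `0 < v.ord (j - a)`  ⟹  `v.ord (j - a) = 1`   (unramified);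
* `ord_zero_dvd`       : `0 < v.ord j`                      ⟹  `v.ord j ∣ 3`;
* `ord_1728_dvd`       : `0 < v.ord (j - 1728)`             ⟹  `v.ord (j - 1728) ∣ 2`;
* `ord_inv_dvd`        : `0 < v.ord j⁻¹`                    ⟹  `v.ord j⁻¹ ∣ N`;
* `finrank_eq_psi`     : `[F_N : ℚ̄(j)] = ψ(N)`.

So `F_N/ℚ̄(j)` is tamely ramified, with branch values in `{0, 1728, ∞}` and ramification indices
dividing `3`, `2`, `N` respectively.  Source: the `LocalData` of the S24 modular package
(`H997.analyticCore`), helper117's local theorem and the relations `S² = (ST)³ = -1`,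
`T^N ∈ Γ(N)`.
-/

set_option autoImplicit false

noncomputable section

open AlgebraicCurve ModularCurve IntermediateField
open scoped MatrixGroups

namespace Fermat.Agent.S18.H24

open Fermat.Agent.S24

variable (N : ℕ) [NeZero N]

/-- `[F_N : ℚ̄(j)]` is finite. -/
instance finiteDimensional_FF :
    FiniteDimensional ↥(IntermediateField.adjoin Kbar {jF N}) (FF N) :=
  (Deg457.degree_fields N).1

theorem finrank_eq_card :
    Module.finrank ↥(IntermediateField.adjoin Kbar {jF N}) (FF N) = Nat.card (XX N) := by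
  obtain ⟨hfd, hle⟩ := Deg457.degree_fields N
  obtain ⟨_, _, h1, -⟩ := (H997.analyticCore N).modularPackage_fields hfd hle
  exact h1

/-- `[F_N : ℚ̄(j)] = ψ(N)`. -/
theorem finrank_eq_psi :
    Module.finrank ↥(IntermediateField.adjoin Kbar {jF N}) (FF N) = dedekindPsi N := by
  rw [finrank_eq_card, card_XX]

instance finite_XX : Finite (XX N) := by
  apply Nat.finite_of_card_ne_zero
  rw [← finrank_eq_card]
  exact Module.finrank_pos.ne'

section Generic

variable {N}
variable {t : FF N} (L : LocalData Kbar (FF N) ℂ (XX N) t)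

/-- General principle: if `perm ^ k = 1` then every ramification index over `t = 0`
divides `k`. -/
theorem ord_dvd_of_perm_pow (hE : IntermediateField.adjoin Kbar {jF N} ≤ Kbar⟮t⟯) (k : ℕ)
    (hk : L.perm ^ k = 1) (v : Place Kbar (FF N)) (hv : 0 < v.ord t) : v.ord t ∣ (k : ℤ) := by
  obtain ⟨x, rfl⟩ := H117.exists_placeOf_eq L (IntermediateField.adjoin Kbar {jF N}) hE
    (finrank_eq_card N) v hv
  exact H117.ord_t_dvd_of_pow_apply_eq L x k (by rw [hk]; rfl)

end Generic

theorem adjoin_le_sub (a : Kbar) :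
    IntermediateField.adjoin Kbar {jF N} ≤ Kbar⟮jF N - algebraMap Kbar (FF N) a⟯ := by
  rw [IntermediateField.adjoin_simple_le_iff]
  have h1 : jF N - algebraMap Kbar (FF N) a ∈ Kbar⟮jF N - algebraMap Kbar (FF N) a⟯ :=
    IntermediateField.mem_adjoin_simple_self _ _
  have h2 : algebraMap Kbar (FF N) a ∈ Kbar⟮jF N - algebraMap Kbar (FF N) a⟯ :=
    IntermediateField.algebraMap_mem _ a
  have := _root_.AddMemClass.add_mem h1 h2
  rwa [sub_add_cancel] at this

theorem adjoin_le_inv : IntermediateField.adjoin Kbar {jF N} ≤ Kbar⟮(jF N)⁻¹⟯ := by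
  rw [IntermediateField.adjoin_simple_le_iff]
  have h1 : (jF N)⁻¹ ∈ Kbar⟮(jF N)⁻¹⟯ := IntermediateField.mem_adjoin_simple_self _ _
  have := _root_.InvMemClass.inv_mem h1
  rwa [inv_inv] at this

/-! ### the permutations of the concrete local data -/

theorem permOf_pow (g : SL(2, ℤ)) (k : ℕ) : (permOf N g) ^ k = permOf N (g ^ k) :=
  (map_pow (MulAction.toPermHom SL(2, ℤ) (XX N)) g k).symm

theorem permOf_neg_one : permOf N (-1) = 1 := by
  ext x
  exact Fermat.Agent.S20.Comb.neg_one_smul_quotient N x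

theorem permOf_one' : permOf N 1 = 1 := by
  ext x
  simp [permOf]

theorem dataFin_perm_zero :
    ((H997.analyticCore N).dataFin 0).perm = permOf N (ModularGroup.S * ModularGroup.T)⁻¹ := by
  unfold H997.AnalyticCore.dataFin
  rw [dif_pos rfl]
  rfl

theorem dataFin_perm_1728 :
    ((H997.analyticCore N).dataFin 1728).perm = permOf N ModularGroup.S⁻¹ := by
  have h0 : (1728 : Kbar) ≠ 0 := by norm_num
  unfold H997.AnalyticCore.dataFin
  rw [dif_neg h0, dif_pos rfl]
  rfl

theorem dataInf_perm : (H997.analyticCore N).dataInf.perm = permOf N ModularGroup.T⁻¹ := rfl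

theorem perm_zero_pow : ((H997.analyticCore N).dataFin 0).perm ^ 3 = 1 := by
  rw [dataFin_perm_zero, permOf_pow, inv_pow, Fermat.Agent.S20.Comb.ST_pow_three]
  have : ((-1 : SL(2, ℤ)))⁻¹ = -1 := by
    rw [inv_eq_iff_eq_inv, eq_inv_iff_mul_eq_one]
    simp
  rw [this, permOf_neg_one]

theorem perm_1728_pow : ((H997.analyticCore N).dataFin 1728).perm ^ 2 = 1 := by
  rw [dataFin_perm_1728, permOf_pow, inv_pow, Fermat.Agent.S20.Comb.S_pow_two]
  have : ((-1 : SL(2, ℤ)))⁻¹ = -1 := by
    rw [inv_eq_iff_eq_inv, eq_inv_iff_mul_eq_one]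
    simp
  rw [this, permOf_neg_one]

/-- `T ^ N` acts trivially on `SL₂(ℤ)/Γ₀(N)`. -/
theorem permOf_T_pow : permOf N (ModularGroup.T ^ N) = 1 := by
  ext x
  obtain ⟨g, rfl⟩ := QuotientGroup.mk_surjective x
  show (ModularGroup.T ^ N) • (QuotientGroup.mk g : SL(2, ℤ) ⧸ CongruenceSubgroup.Gamma0 N) = _
  rw [Equiv.Perm.one_apply, Fermat.Agent.S20.Comb.smul_mk_eq_mk_iff]
  have hT : ((ModularGroup.T ^ N : SL(2, ℤ)) : Matrix (Fin 2) (Fin 2) ℤ) = !![1, (N : ℤ); 0, 1] := by
    have := ModularGroup.coe_T_zpow (N : ℤ)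
    rw [zpow_natCast] at this
    exact this
  have h00 : ((ModularGroup.T ^ N * g : SL(2, ℤ)) 0 0 : ℤ) = g 0 0 + N * g 1 0 := by
    rw [Matrix.SpecialLinearGroup.coe_mul, hT, Matrix.mul_apply, Fin.sum_univ_two]
    simp
  have h10 : ((ModularGroup.T ^ N * g : SL(2, ℤ)) 1 0 : ℤ) = g 1 0 := by
    rw [Matrix.SpecialLinearGroup.coe_mul, hT, Matrix.mul_apply, Fin.sum_univ_two]
    simp
  rw [h00, h10]
  push_cast
  simp
  ring

theorem perm_inf_pow : (H997.analyticCore N).dataInf.perm ^ N = 1 := by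
  rw [dataInf_perm, permOf_pow, inv_pow, ← permOf_one' N]
  have h : permOf N ((ModularGroup.T ^ N)⁻¹) = (permOf N (ModularGroup.T ^ N))⁻¹ := by
    ext x
    simp [permOf]
  rw [h, permOf_T_pow, inv_one, permOf_one']

/-! ### the ramification statements -/

/-- **Unramified outside `0, 1728, ∞`.** -/
theorem ord_sub_eq_one (a : Kbar) (h0 : a ≠ 0) (h1 : a ≠ 1728) (v : Place Kbar (FF N))
    (hv : 0 < v.ord (jF N - algebraMap Kbar (FF N) a)) :
    v.ord (jF N - algebraMap Kbar (FF N) a) = 1 := by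
  have hperm : ((H997.analyticCore N).dataFin a).perm ^ 1 = 1 := by
    rw [pow_one]
    exact (H997.analyticCore N).dataFin_perm_generic a h0 h1
  have h := ord_dvd_of_perm_pow ((H997.analyticCore N).dataFin a) (adjoin_le_sub N a) 1 hperm v hv
  have h2 : v.ord (jF N - algebraMap Kbar (FF N) a) ≤ 1 := Int.le_of_dvd one_pos (by simpa using h)
  omega

/-- Over `j = 0` the ramification indices divide `3`. -/
theorem ord_zero_dvd (v : Place Kbar (FF N)) (hv : 0 < v.ord (jF N)) : v.ord (jF N) ∣ 3 := by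
  have hv' : 0 < v.ord (jF N - algebraMap Kbar (FF N) 0) := by rwa [map_zero, sub_zero]
  have h := ord_dvd_of_perm_pow ((H997.analyticCore N).dataFin 0) (adjoin_le_sub N 0) 3
    (perm_zero_pow N) v hv'
  rw [map_zero, sub_zero] at h
  exact_mod_cast h

/-- Over `j = 1728` the ramification indices divide `2`. -/
theorem ord_1728_dvd (v : Place Kbar (FF N))
    (hv : 0 < v.ord (jF N - algebraMap Kbar (FF N) 1728)) :
    v.ord (jF N - algebraMap Kbar (FF N) 1728) ∣ 2 := by
  have h := ord_dvd_of_perm_pow ((H997.analyticCore N).dataFin 1728) (adjoin_le_sub N 1728) 2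
    (perm_1728_pow N) v hv
  exact_mod_cast h

/-- Over `j = ∞` the ramification indices divide `N`. -/
theorem ord_inv_dvd (v : Place Kbar (FF N)) (hv : 0 < v.ord (jF N)⁻¹) :
    v.ord (jF N)⁻¹ ∣ (N : ℤ) :=
  ord_dvd_of_perm_pow (H997.analyticCore N).dataInf (adjoin_le_inv N) N (perm_inf_pow N) v hv

end Fermat.Agent.S18.H24

end
end
-- ===== PACK-END S18/H24/Branch.lean

-- ===== PACK-BEGIN S37/Red/H160/FibreSum.lean
section




/-!
# S37-RED, piece A (helper160): `FibreSumStatement` from `NormRedStatement`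

`fibreSum G (hA1 : NormRedStatement G) : FibreSumStatement G`   (exact shapes of `Red/Spec.lean`).

Proof: `g := N_{F/K(t)}(y) = w · r₀(t)/s₀(t)` with `r₀, s₀ ∈ A[X]` primitive and `w ∈ Aˣ`
(`normRep`, from RED-A1); the norm formula on both sides (`sum_ord_fibre`, separable version) and
Gauss' lemma for roots (`rootMultiplicity_map_residue`).
-/

set_option autoImplicit false
set_option linter.unusedSectionVars false

noncomputable section

namespace Fermat.Agent.S37.Red.H160

open AlgebraicCurve Polynomial IntermediateField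
open Fermat.Agent.S37.Red Fermat.Agent.S37.H160

universe u

variable {K k F Fk : Type u} [Field K] [Field k] [Field F] [Field Fk]
  [Algebra K F] [Algebra k Fk] [IsAlgClosed K] [CharZero K] [IsAlgClosed k]
  {A : ValuationSubring K} {π : A →+* k} (G : Datum A π F Fk)

/-- A polynomial over `A` with a coefficient `1`, evaluated at `t ∈ O` with transcendental
reduction, is a unit of `O`. -/
theorem ρ_aeval_ne_zero {t : F} (ht : t ∈ G.O) (htb : Transcendental k (G.ρ ⟨t, ht⟩))
    {p : A[X]} {n : ℕ} (hp : p.coeff n = 1) :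
    G.ρ ⟨aeval t (p.map A.subtype), aeval_mem G ht p⟩ ≠ 0 := by
  rw [ρ_aeval G ht]
  intro h
  exact map_ne_zero_of_coeff_eq_one π hp ((transcendental_iff.mp htb) _ h)

/-- **Normal form of the norm** of a unit `y` of `O`:
`N(y) · s₀(t) = w · r₀(t)` and `N(ȳ) · s̄₀(t̄) = w̄ · r̄₀(t̄)` with `r₀, s₀ ∈ A[X]` primitive,
`w ∈ Aˣ`. -/
theorem normRep (hA1 : NormRedStatement G) {t : F} (ht : G.AuxCoord t) {y : F} (hy : y ∈ G.O)
    (hρy : G.ρ ⟨y, hy⟩ ≠ 0) :
    ∃ (r₀ s₀ : A[X]) (w : A), (∃ n, r₀.coeff n = 1) ∧ (∃ n, s₀.coeff n = 1) ∧ π w ≠ 0 ∧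
      algebraMap K⟮t⟯ F (Algebra.norm K⟮t⟯ y) * aeval t (s₀.map A.subtype)
        = aeval t (C (w : K) * r₀.map A.subtype) ∧
      algebraMap k⟮G.red t⟯ Fk (Algebra.norm k⟮G.red t⟯ (G.ρ ⟨y, hy⟩)) * aeval (G.red t) (s₀.map π)
        = aeval (G.red t) (C (π w) * r₀.map π) := by
  have htO := ht.mem
  have htb : Transcendental k (G.ρ ⟨t, htO⟩) := by
    have := ht.transc
    rwa [red_of_mem G htO] at this
  have htK : Transcendental K t := transcendental_of_red G htO ht.transc
  haveI := ht.finite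
  haveI := ht.finite_k
  obtain ⟨hgO, hgred⟩ := hA1 t ht y hy
  have hy0 : y ≠ 0 := by
    rintro rfl
    apply hρy
    have : (⟨0, hy⟩ : G.O) = 0 := rfl
    rw [this, _root_.map_zero]
  set g : K⟮t⟯ := Algebra.norm K⟮t⟯ y with hg
  have hg0 : g ≠ 0 := Algebra.norm_ne_zero_iff.mpr hy0
  -- reduction of the norm
  have hredy : G.red y = G.ρ ⟨y, hy⟩ := red_of_mem G hy
  have hρg : G.ρ ⟨(g : F), hgO⟩
      = algebraMap k⟮G.red t⟯ Fk (Algebra.norm k⟮G.red t⟯ (G.ρ ⟨y, hy⟩)) := by
    rw [← red_of_mem G hgO, hgred, hredy]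
    rfl
  have hρg0 : G.ρ ⟨(g : F), hgO⟩ ≠ 0 := by
    rw [hρg]
    intro h
    have h1 : Algebra.norm k⟮G.red t⟯ (G.ρ ⟨y, hy⟩) = 0 :=
      (algebraMap k⟮G.red t⟯ Fk).injective (by rw [h, _root_.map_zero])
    exact hρy (Algebra.norm_eq_zero_iff.mp h1)
  -- rational representation
  obtain ⟨r, s, hs, hrs⟩ := exists_aeval_div htK g
  have hcoe : ∀ p : K[X], ((aeval (AdjoinSimple.gen K t) p : K⟮t⟯) : F) = aeval t p := fun p => by
    rw [← AdjoinSimple.algebraMap_gen K t, aeval_algebraMap_apply]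
    rfl
  have hrsF : (g : F) * aeval t s = aeval t r := by
    have := congrArg (fun z : K⟮t⟯ => (z : F)) hrs
    simpa only [MulMemClass.coe_mul, hcoe] using this
  have hr : r ≠ 0 := by
    rintro rfl
    rw [_root_.map_zero] at hrs
    rcases mul_eq_zero.mp hrs with h | h
    · exact hg0 h
    · exact aeval_gen_ne_zero htK hs h
  obtain ⟨u₁, r₀, hu₁, hr₀, n₁, hn₁⟩ := exists_primitive_scale_one A r hr
  obtain ⟨u₂, s₀, hu₂, hs₀, n₂, hn₂⟩ := exists_primitive_scale_one A s hs
  -- values in `O`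
  have hrO := aeval_mem G htO r₀
  have hsO := aeval_mem G htO s₀
  have hρr := ρ_aeval_ne_zero G htO htb hn₁
  have hρs := ρ_aeval_ne_zero G htO htb hn₂
  have hr0 : aeval t (r₀.map A.subtype) ≠ 0 := by
    intro h
    apply hρr
    have : (⟨aeval t (r₀.map A.subtype), hrO⟩ : G.O) = 0 := Subtype.ext h
    rw [this, _root_.map_zero]
  -- the constant
  set w : K := u₁ / u₂ with hw
  have hw0 : w ≠ 0 := div_ne_zero hu₁ hu₂
  have hmain : (g : F) * aeval t (s₀.map A.subtype) = algebraMap K F w * aeval t (r₀.map A.subtype) := by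
    have h1 : (g : F) * (algebraMap K F u₂ * aeval t (s₀.map A.subtype))
        = algebraMap K F u₁ * aeval t (r₀.map A.subtype) := by
      have := hrsF
      rw [hr₀, hs₀] at this
      simpa only [_root_.map_mul, aeval_C] using this
    have hu₂' : algebraMap K F u₂ ≠ 0 := by simpa using hu₂
    rw [hw, map_div₀]
    field_simp
    linear_combination h1
  have hwO : algebraMap K F w ∈ G.O := by
    have hinv := _root_.Fermat.Agent.S37.Red.H160.inv_mem G hrO hρr
    have h1 : algebraMap K F w = (g : F) * aeval t (s₀.map A.subtype)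
        * (aeval t (r₀.map A.subtype))⁻¹ := by
      rw [hmain]
      field_simp
    rw [h1]
    exact _root_.MulMemClass.mul_mem (_root_.MulMemClass.mul_mem hgO hsO) hinv
  have hwA : w ∈ A := mem_of_algebraMap_mem G hwO
  -- the identity in `O` and its reduction
  have hO : (⟨(g : F), hgO⟩ : G.O) * ⟨aeval t (s₀.map A.subtype), hsO⟩
      = ⟨algebraMap K F ((⟨w, hwA⟩ : A) : K), G.const_mem ⟨w, hwA⟩⟩
        * ⟨aeval t (r₀.map A.subtype), hrO⟩ := Subtype.ext hmain
  have hρ := congrArg G.ρ hO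
  rw [_root_.map_mul, _root_.map_mul, G.ρ_const, ρ_aeval G htO, ρ_aeval G htO, hρg] at hρ
  have hπw : π ⟨w, hwA⟩ ≠ 0 := by
    intro h
    rw [h, _root_.map_zero, zero_mul] at hρ
    rcases mul_eq_zero.mp hρ with h1 | h1
    · rw [← hρg] at h1
      exact hρg0 h1
    · have := ρ_aeval_ne_zero G htO htb hn₂
      rw [ρ_aeval G htO] at this
      exact this h1
  refine ⟨r₀, s₀, ⟨w, hwA⟩, ⟨n₁, hn₁⟩, ⟨n₂, hn₂⟩, hπw, ?_, ?_⟩
  · rw [_root_.map_mul, aeval_C]
    exact hmain
  · rw [_root_.map_mul, aeval_C]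
    rw [← red_of_mem G htO] at hρ
    exact hρ

/-- **RED-A**: fibre sums, from RED-A1. -/
theorem fibreSum (hA1 : NormRedStatement G) : FibreSumStatement G := by
  classical
  intro t ht y hy hρy c S T hS2 hS1 hT2 hT1
  have htO := ht.mem
  have htbT : Transcendental k (G.red t) := ht.transc
  have htK : Transcendental K t := transcendental_of_red G htO ht.transc
  haveI := ht.finite
  haveI := ht.finite_k
  haveI := ht.sep_k
  haveI : CharZero F := charZero_of_injective_algebraMap (algebraMap K F).injective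
  have hπ := ker_π G
  have hy0 : y ≠ 0 := by
    rintro rfl
    apply hρy
    have : (⟨0, hy⟩ : G.O) = 0 := rfl
    rw [this, _root_.map_zero]
  obtain ⟨r₀, s₀, w, ⟨n₁, hn₁⟩, ⟨n₂, hn₂⟩, hπw, hNK, hNk⟩ := normRep G hA1 ht hy hρy
  have hw0 : (w : K) ≠ 0 := by
    intro h
    apply hπw
    have : w = 0 := Subtype.ext h
    rw [this, _root_.map_zero]
  have hr₀π : r₀.map π ≠ 0 := map_ne_zero_of_coeff_eq_one π hn₁
  have hs₀π : s₀.map π ≠ 0 := map_ne_zero_of_coeff_eq_one π hn₂
  have hr₀K : r₀.map A.subtype ≠ 0 := map_ne_zero_of_coeff_eq_one A.subtype hn₁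
  have hs₀K : s₀.map A.subtype ≠ 0 := map_ne_zero_of_coeff_eq_one A.subtype hn₂
  have hsubK : ∀ a : K, t - algebraMap K F a ≠ 0 := by
    intro a h
    apply htK
    rw [sub_eq_zero.mp h]
    exact isAlgebraic_algebraMap _
  have hsubk : ∀ a : k, G.red t - algebraMap k Fk a ≠ 0 := by
    intro a h
    apply htbT
    rw [sub_eq_zero.mp h]
    exact isAlgebraic_algebraMap _
  -- `k`-side
  have hkside : ∑ Q ∈ T, Q.ord (G.ρ ⟨y, hy⟩)
      = ((r₀.map π).rootMultiplicity (π c) : ℤ) - (s₀.map π).rootMultiplicity (π c) := by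
    have h := sum_ord_fibre htbT (π c) (G.ρ ⟨y, hy⟩) hρy (C (π w) * r₀.map π) (s₀.map π) hs₀π hNk T
      (fun Q hQ => (valAt_iff_ord_pos Q (hsubk _)).mp (hT1 Q hQ))
      (fun Q hQ hpos => hT2 Q hQ ((valAt_iff_ord_pos Q (hsubk _)).mpr hpos))
    rw [h, rootMultiplicity_mul (mul_ne_zero (by rwa [Ne, C_eq_zero]) hr₀π), rootMultiplicity_C]
    simp
  -- `K`-side, one value at a time
  have hKside : ∀ (a : K) (Sa : Finset (Place K F)),
      (∀ P ∈ Sa, 0 < P.ord (t - algebraMap K F a)) →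
      (∀ P : Place K F, P.ord y ≠ 0 → 0 < P.ord (t - algebraMap K F a) → P ∈ Sa) →
      ∑ P ∈ Sa, P.ord y = ((r₀.map A.subtype).roots.count a : ℤ)
        - (s₀.map A.subtype).roots.count a := by
    intro a Sa h1 h2
    have h := sum_ord_fibre htK a y hy0 (C (w : K) * r₀.map A.subtype) (s₀.map A.subtype) hs₀K
      hNK Sa h1 h2
    rw [h, rootMultiplicity_mul (mul_ne_zero (by rwa [Ne, C_eq_zero]) hr₀K), rootMultiplicity_C,
      count_roots, count_roots]
    simp
  -- the value map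
  let pred : K → Prop := fun a => a ∈ A ∧ redK π a = π c
  let val : Place K F → K := fun P =>
    if h : ∃ a : A, π a = π c ∧ ValAt P t (a : K) then (h.choose : K) else 0
  have hval : ∀ P : Place K F, (∃ a : A, π a = π c ∧ ValAt P t (a : K)) →
      pred (val P) ∧ ValAt P t (val P) := by
    intro P h
    have hv : val P = (h.choose : K) := dif_pos h
    rw [hv]
    refine ⟨⟨h.choose.2, ?_⟩, h.choose_spec.2⟩
    rw [redK_coe]
    exact h.choose_spec.1
  let Z : Finset K := ((r₀.map A.subtype).roots.filter pred).toFinset ∪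
    ((s₀.map A.subtype).roots.filter pred).toFinset
  let U : Finset K := S.image val ∪ Z
  have hU : ∀ a ∈ U, pred a := by
    intro a ha
    rcases Finset.mem_union.mp ha with h | h
    · obtain ⟨P, hP, rfl⟩ := Finset.mem_image.mp h
      exact (hval P (hS1 P hP)).1
    · rcases Finset.mem_union.mp h with h | h
      · exact (Multiset.mem_filter.mp (Multiset.mem_toFinset.mp h)).2
      · exact (Multiset.mem_filter.mp (Multiset.mem_toFinset.mp h)).2
  -- Gauss' lemma as a sum over `U`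
  have hcard : ∀ m : Multiset K, (m.filter pred).toFinset ⊆ U →
      ((m.filter pred).card : ℤ) = ∑ a ∈ U, (m.count a : ℤ) := by
    intro m hm
    rw [← Multiset.toFinset_sum_count_eq, Nat.cast_sum]
    rw [Finset.sum_subset hm]
    · refine Finset.sum_congr rfl fun a ha => ?_
      rw [Multiset.count_filter, if_pos (hU a ha)]
    · intro a _ ha
      rw [Multiset.mem_toFinset] at ha
      exact_mod_cast Multiset.count_eq_zero_of_notMem ha
  have hGr := rootMultiplicity_map_residue π hπ r₀ hr₀π (π c)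
  have hGs := rootMultiplicity_map_residue π hπ s₀ hs₀π (π c)
  have hZr : ((r₀.map A.subtype).roots.filter pred).toFinset ⊆ U := fun a ha =>
    Finset.mem_union_right _ (Finset.mem_union_left _ ha)
  have hZs : ((s₀.map A.subtype).roots.filter pred).toFinset ⊆ U := fun a ha =>
    Finset.mem_union_right _ (Finset.mem_union_right _ ha)
  rw [hkside, hGr, hGs, hcard _ hZr, hcard _ hZs, ← Finset.sum_sub_distrib]
  -- fibrewise decomposition of the `K`-side
  have hmaps : ∀ P ∈ S, val P ∈ U := fun P hP =>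
    Finset.mem_union_left _ (Finset.mem_image_of_mem _ hP)
  rw [← Finset.sum_fiberwise_of_maps_to hmaps]
  refine Finset.sum_congr rfl fun a ha => ?_
  symm
  have hpa := hU a ha
  refine hKside a _ ?_ ?_
  · intro P hP
    obtain ⟨hPS, hPa⟩ := Finset.mem_filter.mp hP
    have := (hval P (hS1 P hPS)).2
    rw [hPa] at this
    exact (valAt_iff_ord_pos P (hsubK _)).mp this
  · intro P hP hpos
    have hva : ValAt P t a := (valAt_iff_ord_pos P (hsubK _)).mpr hpos
    have hex : ∃ a' : A, π a' = π c ∧ ValAt P t (a' : K) :=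
      ⟨⟨a, hpa.1⟩, by rw [← redK_of_mem π hpa.1]; exact hpa.2, hva⟩
    have hPS := hS2 P hP hex
    refine Finset.mem_filter.mpr ⟨hPS, ?_⟩
    exact valAt_unique P (hval P hex).2 hva

end Fermat.Agent.S37.Red.H160

end
end
-- ===== PACK-END S37/Red/H160/FibreSum.lean

-- ===== PACK-BEGIN S37/Red/H160/FibreSumMain.lean
section



/-!
# S37-RED, piece A (helper160): `FibreSumStatement G`, unconditional

`fibreSumStatement G : FibreSumStatement G` = `fibreSum` (this directory) applied to RED-A1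
`H399.normRed` (helper399, on main).
-/

set_option autoImplicit false

namespace Fermat.Agent.S37.Red.H160

open Fermat.Agent.S37.Red

universe u

/-- **RED-A** (`Red/Spec.lean`): fibre sums. -/
theorem fibreSumStatement {K k F Fk : Type u} [Field K] [Field k] [Field F] [Field Fk]
    [Algebra K F] [Algebra k Fk] [IsAlgClosed K] [CharZero K] [IsAlgClosed k]
    {A : ValuationSubring K} {π : A →+* k} (G : Datum A π F Fk) : FibreSumStatement G :=
  fibreSum G (H399.normRed G)

end Fermat.Agent.S37.Red.H160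

end
-- ===== PACK-END S37/Red/H160/FibreSumMain.lean

-- ===== PACK-BEGIN S19/H195/RedDatum.lean
section


/-!
# A3 / WP-W4 (helper195): integral Riemann–Roch lattices, abstract form

Language: Prelude `AlgebraicCurve` (`Place`, `Divisor`, `riemannRochSpace`, `genusFF`) + `Lib/RR`.

`RedDatum K F k Fk` : an abstract "good reduction datum" of the function field `F / K` with special
fibre `Fk / k`:

* `V ⊆ F` the Gauss valuation ring (only a subring is required), `red : V → Fk` its reduction;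
* the constants `O = V ∩ K` form a valuation ring of `K` with residue field `k`
  (`const_total`, `red_const`, `red_const_surj`, `red_const_unit`);
* `r : Place K F → Place k Fk` the reduction of points, with `r_* div u = div (red u)` for every
  `u ∈ V` with nonzero reduction (`ord_red`, same shape as the Prelude's `IsPlaceReductionAlong`).

`R.OrthOn W` : the finite-dimensional `K`-subspace `W ⊆ F` has a basis in `V` with `k`-linearly
independent reductions (an "orthonormal basis").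

Main results (for `D` a divisor of `F / K`, `L(D) ∩ V` the integral lattice):

* `RedDatum.linearIndependent_of_red`  lifts of `k`-independent reductions are `K`-independent;
* `RedDatum.coeff_mem_of_red`  lattice property: if `∑ cᵢ wᵢ ∈ V` with `red wᵢ` independent then all
  `cᵢ ∈ O`;
* `RedDatum.redL_le`   `red (L(D) ∩ V) ⊆ L(r_* D)`;
* `RedDatum.finrank_redL`  `dim_k red (L(D) ∩ V) = ℓ(D)`;
* `RedDatum.ell_le_ell_mapDomain`  upper semicontinuity `ℓ(D) ≤ ℓ(r_* D)`;
* `RedDatum.genusFF_le`  `g(Fk) ≤ g(F)`;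
* `RedDatum.redL_eq`   **W4**: if `g(F) ≤ g(Fk)` and `deg D > 2 g(Fk) - 2` then
  `red (L(D) ∩ V) = L(r_* D)`;
* `RedDatum.exists_lattice_basis`  **W4, basis form**: a `K`-basis `w` of `L(D)` inside `V` whose
  reductions form a `k`-basis of `L(r_* D)`, and `L(D) ∩ V = ⊕ O wᵢ`.
-/

set_option autoImplicit false

noncomputable section

open AlgebraicCurve Fermat.Agent.Lib.RR

namespace Fermat.Agent.S19.H195

universe u₁ u₂ u₃ u₄

/-- Abstract good-reduction datum for a function field `F / K` with special fibre `Fk / k`. -/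
structure RedDatum (K : Type u₁) (F : Type u₂) (k : Type u₃) (Fk : Type u₄)
    [Field K] [Field F] [Algebra K F] [Field k] [Field Fk] [Algebra k Fk] where
  /-- the Gauss valuation ring -/
  V : Subring F
  /-- reduction modulo the maximal ideal of `V` -/
  red : V →+* Fk
  /-- reduction of places -/
  r : Place K F → Place k Fk
  /-- the constants in `V` form a valuation ring of `K` -/
  const_total : ∀ a : K, algebraMap K F a ∈ V ∨ algebraMap K F a⁻¹ ∈ V
  /-- integral constants reduce to constants -/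
  red_const : ∀ (a : K) (h : algebraMap K F a ∈ V), ∃ b : k, red ⟨_, h⟩ = algebraMap k Fk b
  /-- every constant of the special fibre is a reduction -/
  red_const_surj : ∀ b : k, ∃ (a : K) (h : algebraMap K F a ∈ V), red ⟨_, h⟩ = algebraMap k Fk b
  /-- an integral constant with nonzero reduction is a unit -/
  red_const_unit : ∀ (a : K) (h : algebraMap K F a ∈ V), red ⟨_, h⟩ ≠ 0 →
    algebraMap K F a⁻¹ ∈ V
  /-- principal divisors specialise: `r_* div u = div (red u)` -/
  ord_red : ∀ (u : F) (hu : u ∈ V), red ⟨u, hu⟩ ≠ 0 → ∀ D : Divisor K F,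
    (∀ P, D P = P.ord u) → ∀ Q, Finsupp.mapDomain r D Q = Q.ord (red ⟨u, hu⟩)

variable {K : Type u₁} {F : Type u₂} {k : Type u₃} {Fk : Type u₄}
  [Field K] [Field F] [Algebra K F] [Field k] [Field Fk] [Algebra k Fk]

namespace RedDatum

variable (R : RedDatum K F k Fk)

/-- `W` has a basis in `V` with `k`-linearly independent reductions. -/
def OrthOn (W : Submodule K F) : Prop :=
  ∃ (n : ℕ) (w : Fin n → F) (hw : ∀ i, w i ∈ R.V), (∀ i, w i ∈ W) ∧
    W ≤ Submodule.span K (Set.range w) ∧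
    LinearIndependent k (fun i => R.red ⟨w i, hw i⟩)

/-! ### Constants -/

theorem red_mk_eq {f g : F} (hf : f ∈ R.V) (hg : g ∈ R.V) (h : f = g) :
    R.red ⟨f, hf⟩ = R.red ⟨g, hg⟩ := by
  subst h; rfl

/-- Among finitely many constants, not all zero, one has maximal absolute value. -/
theorem exists_max {ι : Type*} (s : Finset ι) (c : ι → K) (h : ∃ i ∈ s, c i ≠ 0) :
    ∃ j ∈ s, c j ≠ 0 ∧ ∀ i ∈ s, algebraMap K F (c i / c j) ∈ R.V := by
  classical
  induction s using Finset.induction_on with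
  | empty => obtain ⟨i, hi, -⟩ := h; simp at hi
  | insert a s _ ih =>
    by_cases hs : ∃ i ∈ s, c i ≠ 0
    · obtain ⟨j, hj, hj0, hjs⟩ := ih hs
      by_cases hV : algebraMap K F (c a / c j) ∈ R.V
      · refine ⟨j, Finset.mem_insert_of_mem hj, hj0, fun i hi => ?_⟩
        rcases Finset.mem_insert.mp hi with rfl | hi
        · exact hV
        · exact hjs i hi
      · have ha0 : c a ≠ 0 := by
          rintro h0
          apply hV
          rw [h0, zero_div, map_zero]
          exact R.V.zero_mem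
        have hV' : algebraMap K F (c j / c a) ∈ R.V := by
          have := (R.const_total (c a / c j)).resolve_left hV
          rwa [inv_div] at this
        refine ⟨a, Finset.mem_insert_self a s, ha0, fun i hi => ?_⟩
        rcases Finset.mem_insert.mp hi with rfl | hi
        · rw [div_self ha0, map_one]; exact R.V.one_mem
        · have h1 := R.V.mul_mem (hjs i hi) hV'
          rw [← map_mul] at h1
          have h2 : c i / c j * (c j / c a) = c i / c a := by
            field_simp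
          rwa [h2] at h1
    · have ha0 : c a ≠ 0 := by
        obtain ⟨i, hi, hi0⟩ := h
        rcases Finset.mem_insert.mp hi with rfl | hi
        · exact hi0
        · exact absurd ⟨i, hi, hi0⟩ hs
      refine ⟨a, Finset.mem_insert_self a s, ha0, fun i hi => ?_⟩
      rcases Finset.mem_insert.mp hi with rfl | hi
      · rw [div_self ha0, map_one]; exact R.V.one_mem
      · have : c i = 0 := by
          by_contra h0
          exact hs ⟨i, hi, h0⟩
        rw [this, zero_div, map_zero]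
        exact R.V.zero_mem


/-! ### Orthogonality -/

/-- Core of all orthogonality arguments: a relation `∑ dᵢ wᵢ = t` with integral coefficients, one of
them equal to `1`, and `red t = 0` contradicts the independence of the `red wᵢ`. -/
theorem false_of_relation {ι : Type*} (w : ι → F) (hw : ∀ i, w i ∈ R.V)
    (hli : LinearIndependent k (fun i => R.red ⟨w i, hw i⟩))
    (s : Finset ι) (d : ι → K) (hd : ∀ i ∈ s, algebraMap K F (d i) ∈ R.V)
    {j : ι} (hj : j ∈ s) (hdj : d j = 1) {t : F} (ht : t ∈ R.V) (hred : R.red ⟨t, ht⟩ = 0)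
    (hsum : ∑ i ∈ s, d i • w i = t) : False := by
  classical
  -- the reductions of the coefficients
  have hb : ∀ i : s, ∃ b : k,
      R.red ⟨algebraMap K F (d i.1), hd i.1 i.2⟩ = algebraMap k Fk b :=
    fun i => R.red_const (d i.1) (hd i.1 i.2)
  choose b hb using hb
  let b' : ι → k := fun i => if h : i ∈ s then b ⟨i, h⟩ else 0
  have hb' : ∀ i : s, b' i.1 = b i := fun i => by simp [b', i.2]
  let x : R.V := ∑ i ∈ s.attach,
    (⟨algebraMap K F (d i.1), hd i.1 i.2⟩ : R.V) * ⟨w i.1, hw i.1⟩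
  have hx : (x : F) = t := by
    rw [← hsum, ← Finset.sum_attach s (fun i => d i • w i)]
    show (R.V.subtype x : F) = _
    rw [map_sum]
    exact Finset.sum_congr rfl fun i _ => (Algebra.smul_def _ _).symm
  have hx0 : R.red x = 0 := by
    have : x = ⟨t, ht⟩ := Subtype.ext hx
    rw [this, hred]
  have hsum' : ∑ i ∈ s, b' i • R.red ⟨w i, hw i⟩ = 0 := by
    rw [← Finset.sum_attach s (fun i => b' i • R.red ⟨w i, hw i⟩), ← hx0]
    simp only [x, map_sum, map_mul]
    refine Finset.sum_congr rfl fun i _ => ?_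
    rw [hb i, hb' i, Algebra.smul_def]
  have h0 := linearIndependent_iff'.mp hli s b' hsum' j hj
  have h1 : algebraMap k Fk (b' j) = 1 := by
    have := hb ⟨j, hj⟩
    rw [hb' ⟨j, hj⟩, ← this]
    have h1 : (⟨algebraMap K F (d j), hd j hj⟩ : R.V) = 1 := by
      apply Subtype.ext
      simp [hdj]
    rw [h1, map_one]
  rw [h0, map_zero] at h1
  exact zero_ne_one h1

/-- Elements of `V` with `k`-linearly independent reductions are `K`-linearly independent. -/
theorem linearIndependent_of_red {ι : Type*} (w : ι → F) (hw : ∀ i, w i ∈ R.V)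
    (hli : LinearIndependent k (fun i => R.red ⟨w i, hw i⟩)) : LinearIndependent K w := by
  classical
  rw [linearIndependent_iff']
  intro s g hg
  by_contra hne
  push Not at hne
  obtain ⟨j, hj, hj0, hjs⟩ := R.exists_max s g hne
  refine R.false_of_relation w hw hli s (fun i => g i / g j) hjs hj (div_self hj0)
    R.V.zero_mem (map_zero _) ?_
  have : ∑ i ∈ s, (g i / g j) • w i = (g j)⁻¹ • ∑ i ∈ s, g i • w i := by
    rw [Finset.smul_sum]
    refine Finset.sum_congr rfl fun i _ => ?_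
    rw [smul_smul, div_eq_inv_mul]
  rw [this, hg, smul_zero]

/-- **Lattice property**: if `∑ cᵢ wᵢ ∈ V` and the `red wᵢ` are `k`-independent, then all
coefficients are integral. -/
theorem coeff_mem_of_red {ι : Type*} (w : ι → F) (hw : ∀ i, w i ∈ R.V)
    (hli : LinearIndependent k (fun i => R.red ⟨w i, hw i⟩))
    (s : Finset ι) (c : ι → K) (hf : ∑ i ∈ s, c i • w i ∈ R.V) :
    ∀ i ∈ s, algebraMap K F (c i) ∈ R.V := by
  classical
  by_contra hne
  push Not at hne
  obtain ⟨i₀, hi₀, hi₀V⟩ := hne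
  have hi₀0 : c i₀ ≠ 0 := by
    rintro h0
    apply hi₀V
    rw [h0, map_zero]
    exact R.V.zero_mem
  obtain ⟨j, hj, hj0, hjs⟩ := R.exists_max s c ⟨i₀, hi₀, hi₀0⟩
  -- `c j` is not integral
  have hjV : algebraMap K F (c j) ∉ R.V := by
    intro h
    apply hi₀V
    have h1 := R.V.mul_mem (hjs i₀ hi₀) h
    rw [← map_mul, div_mul_cancel₀ _ hj0] at h1
    exact h1
  have hjinv : algebraMap K F (c j)⁻¹ ∈ R.V := (R.const_total (c j)).resolve_left hjV
  have hjred : R.red ⟨_, hjinv⟩ = 0 := by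
    by_contra h
    have := R.red_const_unit _ hjinv h
    rw [inv_inv] at this
    exact hjV this
  have ht : algebraMap K F (c j)⁻¹ * ∑ i ∈ s, c i • w i ∈ R.V := R.V.mul_mem hjinv hf
  refine R.false_of_relation w hw hli s (fun i => c i / c j) hjs hj (div_self hj0) ht ?_ ?_
  · have : (⟨_, ht⟩ : R.V) = ⟨_, hjinv⟩ * ⟨_, hf⟩ := Subtype.ext rfl
    rw [this, map_mul, hjred, zero_mul]
  · rw [← Algebra.smul_def, Finset.smul_sum]
    refine Finset.sum_congr rfl fun i _ => ?_
    rw [smul_smul, div_eq_inv_mul]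


/-! ### The reduction of `L(D) ∩ V` -/

/-- The reduction of the integral lattice `L(D) ∩ V`, a `k`-subspace of `Fk`. -/
def redL (D : Divisor K F) : Submodule k Fk where
  carrier := {g | ∃ (f : F) (hf : f ∈ R.V), f ∈ riemannRochSpace D ∧ R.red ⟨f, hf⟩ = g}
  zero_mem' := ⟨0, R.V.zero_mem, Submodule.zero_mem _, map_zero R.red⟩
  add_mem' := by
    rintro g g' ⟨f, hf, hfD, rfl⟩ ⟨f', hf', hfD', rfl⟩
    exact ⟨f + f', R.V.add_mem hf hf', Submodule.add_mem _ hfD hfD',
      map_add R.red ⟨f, hf⟩ ⟨f', hf'⟩⟩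
  smul_mem' := by
    rintro b g ⟨f, hf, hfD, rfl⟩
    obtain ⟨a, ha, hab⟩ := R.red_const_surj b
    refine ⟨algebraMap K F a * f, R.V.mul_mem ha hf, ?_, ?_⟩
    · rw [← Algebra.smul_def]; exact Submodule.smul_mem _ a hfD
    · have : (⟨algebraMap K F a * f, R.V.mul_mem ha hf⟩ : R.V) = ⟨_, ha⟩ * ⟨f, hf⟩ := rfl
      rw [this, map_mul, hab, Algebra.smul_def]

theorem mem_redL {D : Divisor K F} {g : Fk} :
    g ∈ R.redL D ↔ ∃ (f : F) (hf : f ∈ R.V), f ∈ riemannRochSpace D ∧ R.red ⟨f, hf⟩ = g :=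
  Iff.rfl

theorem red_mem_redL {D : Divisor K F} {f : F} (hf : f ∈ R.V) (hfD : f ∈ riemannRochSpace D) :
    R.red ⟨f, hf⟩ ∈ R.redL D :=
  ⟨f, hf, hfD, rfl⟩

theorem mapDomain_nonneg {α β : Type*} (f : α → β) {v : α →₀ ℤ} (hv : 0 ≤ v) :
    0 ≤ Finsupp.mapDomain f v := by
  classical
  rw [Finsupp.le_def]
  intro b
  rw [Finsupp.mapDomain, Finsupp.sum_apply]
  refine Finset.sum_nonneg fun a _ => ?_
  show 0 ≤ (Finsupp.single (f a) (v a)) b
  rw [Finsupp.single_apply]
  split_ifs
  · exact Finsupp.le_def.mp hv a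
  · exact le_rfl

/-- Reduction of divisors preserves the degree (all places have degree one). -/
theorem degree_mapDomain [FF1 K F] [FF1 k Fk] (D : Divisor K F) :
    Divisor.degree (Finsupp.mapDomain R.r D) = Divisor.degree D := by
  induction D using Finsupp.induction with
  | zero => simp
  | single_add P n D _ _ ih =>
    rw [Finsupp.mapDomain_add, map_add, map_add, ih, Finsupp.mapDomain_single,
      Divisor.degree_single, Divisor.degree_single, deg_eq_one, deg_eq_one]

/-- `red (L(D) ∩ V) ⊆ L(r_* D)`. -/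
theorem redL_le [FF1 K F] (D : Divisor K F) :
    R.redL D ≤ riemannRochSpace (Finsupp.mapDomain R.r D) := by
  rintro g ⟨f, hf, hfD, rfl⟩
  rw [mem_L_iff]
  intro Q
  by_cases hg : R.red ⟨f, hf⟩ = 0
  · exact Or.inl hg
  right
  have hf0 : f ≠ 0 := by
    rintro rfl
    exact hg (map_zero R.red)
  have hE := R.ord_red f hf hg (divOf f hf0) (fun P => divOf_apply f hf0 P) Q
  rw [← hE]
  have hnn : 0 ≤ D + divOf f hf0 := by
    rw [Finsupp.le_def]
    intro P
    have := (mem_L_iff.mp hfD P).resolve_left hf0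
    simp only [Finsupp.coe_zero, Pi.zero_apply, Finsupp.coe_add, Pi.add_apply, divOf_apply]
    omega
  have := Finsupp.le_def.mp (mapDomain_nonneg R.r hnn) Q
  rw [Finsupp.mapDomain_add] at this
  simp only [Finsupp.coe_zero, Pi.zero_apply, Finsupp.coe_add, Pi.add_apply] at this
  omega

/-- Consequences of an orthonormal basis of `L(D)`. -/
theorem exists_basis_of_orthOn [FF1 K F] (D : Divisor K F)
    (horth : R.OrthOn (riemannRochSpace D)) :
    ∃ (w : Fin (ell D) → F) (hw : ∀ i, w i ∈ R.V), (∀ i, w i ∈ riemannRochSpace D) ∧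
      LinearIndependent K w ∧ Submodule.span K (Set.range w) = riemannRochSpace D ∧
      LinearIndependent k (fun i => R.red ⟨w i, hw i⟩) ∧
      Submodule.span k (Set.range fun i => R.red ⟨w i, hw i⟩) = R.redL D ∧
      ∀ f ∈ riemannRochSpace D, f ∈ R.V →
        ∃ c : Fin (ell D) → K, (∀ i, algebraMap K F (c i) ∈ R.V) ∧ f = ∑ i, c i • w i := by
  classical
  obtain ⟨n, w, hw, hwD, hspan, hli⟩ := horth
  have hliK : LinearIndependent K w := R.linearIndependent_of_red w hw hli
  have hspan' : Submodule.span K (Set.range w) = riemannRochSpace D :=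
    le_antisymm (Submodule.span_le.mpr (by rintro _ ⟨i, rfl⟩; exact hwD i)) hspan
  have hn : n = ell D := by
    have := finrank_span_eq_card hliK
    rw [hspan', Fintype.card_fin] at this
    exact this.symm
  subst hn
  have hlat : ∀ f ∈ riemannRochSpace D, f ∈ R.V →
      ∃ c : Fin (ell D) → K, (∀ i, algebraMap K F (c i) ∈ R.V) ∧ f = ∑ i, c i • w i := by
    intro f hfD hfV
    rw [← hspan'] at hfD
    obtain ⟨c, hc⟩ := (Submodule.mem_span_range_iff_exists_fun K).mp hfD
    refine ⟨c, fun i => ?_, hc.symm⟩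
    exact R.coeff_mem_of_red w hw hli Finset.univ c (by rw [hc]; exact hfV) i (Finset.mem_univ i)
  refine ⟨w, hw, hwD, hliK, hspan', hli, ?_, hlat⟩
  apply le_antisymm
  · rw [Submodule.span_le]
    rintro _ ⟨i, rfl⟩
    exact R.red_mem_redL (hw i) (hwD i)
  · rintro g ⟨f, hf, hfD, rfl⟩
    obtain ⟨c, hcV, hfc⟩ := hlat f hfD hf
    have hx : (⟨f, hf⟩ : R.V) = ∑ i, (⟨_, hcV i⟩ : R.V) * ⟨w i, hw i⟩ := by
      apply Subtype.ext
      show f = (R.V.subtype _ : F)
      rw [map_sum, hfc]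
      exact Finset.sum_congr rfl fun i _ => Algebra.smul_def _ _
    rw [hx, map_sum]
    refine Submodule.sum_mem _ fun i _ => ?_
    rw [map_mul]
    obtain ⟨b, hb⟩ := R.red_const (c i) (hcV i)
    rw [hb, ← Algebra.smul_def]
    exact Submodule.smul_mem _ _ (Submodule.subset_span ⟨i, rfl⟩)

/-- `dim_k red (L(D) ∩ V) = ℓ(D)`. -/
theorem finrank_redL [FF1 K F] (D : Divisor K F) (horth : R.OrthOn (riemannRochSpace D)) :
    Module.finrank k (R.redL D) = ell D := by
  obtain ⟨w, hw, -, -, -, hli, hspan, -⟩ := R.exists_basis_of_orthOn D horth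
  rw [← hspan, finrank_span_eq_card hli, Fintype.card_fin]

/-- **Upper semicontinuity**: `ℓ(D) ≤ ℓ(r_* D)`. -/
theorem ell_le_ell_mapDomain [FF1 K F] [FF1 k Fk] (D : Divisor K F)
    (horth : R.OrthOn (riemannRochSpace D)) :
    ell D ≤ ell (Finsupp.mapDomain R.r D) := by
  rw [← R.finrank_redL D horth]
  exact Submodule.finrank_mono (R.redL_le D)

/-- The genus cannot go up under reduction. -/
theorem genusFF_le [FF1 K F] [FF1 k Fk]
    (horth : ∀ D : Divisor K F, R.OrthOn (riemannRochSpace D)) :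
    genusFF k Fk ≤ genusFF K F := by
  obtain ⟨v⟩ := FF1.nonempty_place (K := K) (F := F)
  -- a divisor of large degree
  set m : ℤ := 2 * (genusFF k Fk : ℤ) + 2 * (genusFF K F : ℤ) with hm
  let D : Divisor K F := Finsupp.single v m
  have hdeg : Divisor.degree D = m := by
    simp [D, deg_eq_one]
  have h1 : (ell D : ℤ) = Divisor.degree D + 1 - (genusFF K F : ℤ) :=
    ell_eq_of_degree_gt (by rw [hdeg]; omega)
  have h2 : (ell (Finsupp.mapDomain R.r D) : ℤ)
      = Divisor.degree (Finsupp.mapDomain R.r D) + 1 - (genusFF k Fk : ℤ) :=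
    ell_eq_of_degree_gt (by rw [R.degree_mapDomain, hdeg]; omega)
  have h3 := R.ell_le_ell_mapDomain D (horth D)
  rw [R.degree_mapDomain] at h2
  omega

/-- **W4**: if the genus does not drop and `deg D > 2 g - 2`, the integral lattice `L(D) ∩ V`
reduces ONTO `L(r_* D)`. -/
theorem redL_eq [FF1 K F] [FF1 k Fk] (hg : genusFF K F ≤ genusFF k Fk) (D : Divisor K F)
    (hD : 2 * (genusFF k Fk : ℤ) - 2 < Divisor.degree D)
    (horth : R.OrthOn (riemannRochSpace D)) :
    R.redL D = riemannRochSpace (Finsupp.mapDomain R.r D) := by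
  refine Submodule.eq_of_le_of_finrank_le (R.redL_le D) ?_
  rw [R.finrank_redL D horth]
  have h1 := riemann_inequality_genusFF D
  have h2 : (ell (Finsupp.mapDomain R.r D) : ℤ)
      = Divisor.degree (Finsupp.mapDomain R.r D) + 1 - (genusFF k Fk : ℤ) :=
    ell_eq_of_degree_gt (by rw [R.degree_mapDomain]; exact hD)
  rw [R.degree_mapDomain] at h2
  have : (ell (Finsupp.mapDomain R.r D) : ℤ) ≤ ell D := by
    have : (genusFF K F : ℤ) ≤ genusFF k Fk := by exact_mod_cast hg
    omega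
  exact_mod_cast this

/-- In the situation of W4, `ℓ(D) = ℓ(r_* D) = deg D + 1 - g`. -/
theorem ell_eq [FF1 K F] [FF1 k Fk] (hg : genusFF K F ≤ genusFF k Fk) (D : Divisor K F)
    (hD : 2 * (genusFF k Fk : ℤ) - 2 < Divisor.degree D)
    (horth : R.OrthOn (riemannRochSpace D)) :
    ell D = ell (Finsupp.mapDomain R.r D) ∧
      (ell D : ℤ) = Divisor.degree D + 1 - (genusFF k Fk : ℤ) := by
  have h0 := R.finrank_redL D horth
  rw [R.redL_eq hg D hD horth] at h0
  have h2 : (ell (Finsupp.mapDomain R.r D) : ℤ)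
      = Divisor.degree (Finsupp.mapDomain R.r D) + 1 - (genusFF k Fk : ℤ) :=
    ell_eq_of_degree_gt (by rw [R.degree_mapDomain]; exact hD)
  rw [R.degree_mapDomain] at h2
  have h3 : ell (Finsupp.mapDomain R.r D) = ell D := h0
  exact ⟨h3.symm, by rw [← h3]; exact h2⟩

/-- **W4, basis form**: for `deg D > 2 g - 2` (equal genus) there is a `K`-basis `w` of `L(D)`
inside `V` whose reductions form a `k`-basis of `L(r_* D)`, and `L(D) ∩ V = ⊕ O wᵢ`. -/
theorem exists_lattice_basis [FF1 K F] [FF1 k Fk] (hg : genusFF K F ≤ genusFF k Fk)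
    (D : Divisor K F) (hD : 2 * (genusFF k Fk : ℤ) - 2 < Divisor.degree D)
    (horth : R.OrthOn (riemannRochSpace D)) :
    ∃ (w : Fin (ell D) → F) (hw : ∀ i, w i ∈ R.V), (∀ i, w i ∈ riemannRochSpace D) ∧
      LinearIndependent K w ∧ Submodule.span K (Set.range w) = riemannRochSpace D ∧
      LinearIndependent k (fun i => R.red ⟨w i, hw i⟩) ∧
      Submodule.span k (Set.range fun i => R.red ⟨w i, hw i⟩)
        = riemannRochSpace (Finsupp.mapDomain R.r D) ∧
      ∀ f ∈ riemannRochSpace D, f ∈ R.V →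
        ∃ c : Fin (ell D) → K, (∀ i, algebraMap K F (c i) ∈ R.V) ∧ f = ∑ i, c i • w i := by
  obtain ⟨w, hw, h1, h2, h3, h4, h5, h6⟩ := R.exists_basis_of_orthOn D horth
  exact ⟨w, hw, h1, h2, h3, h4, by rw [h5, R.redL_eq hg D hD horth], h6⟩

end RedDatum

end Fermat.Agent.S19.H195

end
end
-- ===== PACK-END S19/H195/RedDatum.lean

-- ===== PACK-BEGIN S19/H679/Delta.lean
section


/-!
# Cell A3 (S19), block UNR (helper679) — `Hloc` is closed under the comultiplication

For `h ∈ Hloc` the function `(x, y) ↦ h (x + y)` lies in the image of `Hloc ⊗ Hloc`, i.e. in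
`Submodule.map₂ T Hloc Hloc` with `T g g' = fun p => g p.1 * g' p.2`.
-/

set_option autoImplicit false

namespace Fermat.Agent.S19.H679

open Fermat.Agent.S54 Fermat.Agent.S55.Bridge

variable {ℓ : ℕ} {M : Type} [AddCommGroup M] {act : GalQ → M → M}

/-- The diagonal action on pairs. -/
def act2H679 (act : GalQ → M → M) (σ : GalQ) (p : M × M) : M × M := (act σ p.1, act σ p.2)

/-- Pull-back of functions along the addition. -/
def addPullH679 (f : M → Qb) : M × M → Qb := fun p => f (p.1 + p.2)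

/-- `T g g' = (x, y) ↦ g x * g' y`, as a bilinear map over `V`. -/
noncomputable def tensH679 (V : ValuationSubring Qb) (N : Type*) :
    (N → Qb) →ₗ[V] (N → Qb) →ₗ[V] (N × N → Qb) :=
  LinearMap.mk₂ V (fun g g' p => g p.1 * g' p.2)
    (fun g₁ g₂ g' => by funext p; simp [add_mul])
    (fun c g g' => by funext p; simp)
    (fun g g₁ g₂ => by funext p; simp [mul_add])
    (fun c g g' => by funext p; simp)

@[simp] theorem tensH679_apply (V : ValuationSubring Qb) {N : Type*} (g g' : N → Qb)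
    (p : N × N) : tensH679 V N g g' p = g p.1 * g' p.2 := rfl

theorem tensH679_mul (V : ValuationSubring Qb) {N : Type*} (g₁ g₁' g₂ g₂' : N → Qb) :
    tensH679 V N g₁ g₁' * tensH679 V N g₂ g₂' = tensH679 V N (g₁ * g₂) (g₁' * g₂') := by
  funext p
  simp only [Pi.mul_apply, tensH679_apply]
  ring

section

variable (hact : IsContAddAction act) (L : LocalCoordDatum ℓ M act)

include hact in
/-- (Δ1) the generators. -/
theorem addPull_conjFamH679 {φ : M → Qb} (hφ : φ ∈ conjFamH679 L) :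
    addPullH679 φ ∈ Algebra.adjoin L.V (coordFunctions (conjFamH679 L)) := by
  obtain ⟨δ, hδ, i, rfl⟩ := hφ
  have h1 := L.add_mem i
  have h2 := star_mem_adjoinH679 (act2H679 act) hδ _ (coordFunctions (conjFamH679 L)) ?_ h1
  · have h3 : starH679 (act2H679 act) δ (fun p : M × M => L.Ψ (p.1 + p.2) i)
        = addPullH679 (starH679 act δ (psiH679 L i)) := by
      funext p
      show δ (L.Ψ (act δ⁻¹ p.1 + act δ⁻¹ p.2) i) = δ (L.Ψ (act δ⁻¹ (p.1 + p.2)) i)
      rw [hact.act_add]
    rw [h3] at h2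
    exact h2
  · rintro g (⟨j, rfl⟩ | ⟨j, rfl⟩)
    · refine Algebra.subset_adjoin (Or.inl ⟨starH679 act δ (psiH679 L j), ⟨δ, hδ, j, rfl⟩, ?_⟩)
      funext p
      rfl
    · refine Algebra.subset_adjoin (Or.inr ⟨starH679 act δ (psiH679 L j), ⟨δ, hδ, j, rfl⟩, ?_⟩)
      funext p
      rfl

include hact in
/-- (Δ2) all of `Hloc`. -/
theorem addPull_HlocH679 {h : M → Qb} (hh : h ∈ HlocH679 L) :
    addPullH679 h ∈ Algebra.adjoin L.V (coordFunctions (conjFamH679 L)) := by
  unfold HlocH679 at hh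
  induction hh using Algebra.adjoin_induction with
  | mem x hx => exact addPull_conjFamH679 hact L hx
  | algebraMap r =>
    have : addPullH679 (algebraMap L.V (M → Qb) r) = algebraMap L.V (M × M → Qb) r := by
      funext p
      rfl
    rw [this]
    exact Subalgebra.algebraMap_mem _ _
  | add x y _ _ hx hy =>
    have : addPullH679 (x + y) = addPullH679 x + addPullH679 y := by
      funext p
      rfl
    rw [this]
    exact add_mem hx hy
  | mul x y _ _ hx hy =>
    have : addPullH679 (x * y) = addPullH679 x * addPullH679 y := by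
      funext p
      rfl
    rw [this]
    exact mul_mem hx hy

/-- The image of `Hloc ⊗ Hloc`. -/
noncomputable def tensImageH679 : Submodule L.V (M × M → Qb) :=
  Submodule.map₂ (tensH679 L.V M) (Subalgebra.toSubmodule (HlocH679 L))
    (Subalgebra.toSubmodule (HlocH679 L))

theorem tens_mem_tensImageH679 {g g' : M → Qb} (hg : g ∈ HlocH679 L) (hg' : g' ∈ HlocH679 L) :
    tensH679 L.V M g g' ∈ tensImageH679 L :=
  Submodule.apply_mem_map₂ _ hg hg'

theorem tensImage_eq_spanH679 :
    tensImageH679 L = Submodule.span L.V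
      (Set.image2 (fun g g' => tensH679 L.V M g g')
        (Subalgebra.toSubmodule (HlocH679 L) : Set (M → Qb))
        (Subalgebra.toSubmodule (HlocH679 L) : Set (M → Qb))) :=
  Submodule.map₂_eq_span_image2 _ _ _

theorem tensImage_mulH679 {x y : M × M → Qb} (hx : x ∈ tensImageH679 L)
    (hy : y ∈ tensImageH679 L) : x * y ∈ tensImageH679 L := by
  rw [tensImage_eq_spanH679] at hx hy ⊢
  have h1 := Submodule.mul_mem_mul hx hy
  rw [Submodule.span_mul_span] at h1
  refine Submodule.span_mono ?_ h1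
  rintro z ⟨a, ⟨g₁, hg₁, g₁', hg₁', rfl⟩, b, ⟨g₂, hg₂, g₂', hg₂', rfl⟩, rfl⟩
  refine ⟨g₁ * g₂, ?_, g₁' * g₂', ?_, (tensH679_mul L.V g₁ g₁' g₂ g₂').symm⟩
  · exact (HlocH679 L).mul_mem hg₁ hg₂
  · exact (HlocH679 L).mul_mem hg₁' hg₂'

/-- (Δ3) the adjoin of the coordinate functions lies in the image of `Hloc ⊗ Hloc`. -/
theorem adjoin_le_tensImageH679 {G : M × M → Qb}
    (hG : G ∈ Algebra.adjoin L.V (coordFunctions (conjFamH679 L))) : G ∈ tensImageH679 L := by
  induction hG using Algebra.adjoin_induction with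
  | mem x hx =>
    rcases hx with ⟨h, hh, rfl⟩ | ⟨h, hh, rfl⟩
    · have : (fun p : M × M => h p.1) = tensH679 L.V M h 1 := by
        funext p
        simp
      rw [this]
      exact tens_mem_tensImageH679 L (Algebra.subset_adjoin hh) (one_mem _)
    · have : (fun p : M × M => h p.2) = tensH679 L.V M 1 h := by
        funext p
        simp
      rw [this]
      exact tens_mem_tensImageH679 L (one_mem _) (Algebra.subset_adjoin hh)
  | algebraMap r =>
    have : algebraMap L.V (M × M → Qb) r = r • tensH679 L.V M 1 1 := by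
      funext p
      simp [Algebra.algebraMap_eq_smul_one]
    rw [this]
    exact Submodule.smul_mem _ _ (tens_mem_tensImageH679 L (one_mem _) (one_mem _))
  | add x y _ _ hx hy => exact add_mem hx hy
  | mul x y _ _ hx hy => exact tensImage_mulH679 L hx hy

include hact in
/-- (Δ) `Hloc` is closed under the comultiplication. -/
theorem addPull_mem_tensImageH679 {h : M → Qb} (hh : h ∈ HlocH679 L) :
    addPullH679 h ∈ tensImageH679 L :=
  adjoin_le_tensImageH679 L (addPull_HlocH679 hact L hh)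

/-- (Δ4) in terms of a spanning set of `Hloc`. -/
theorem tensImage_eq_span_of_spanH679 (F : Set (M → Qb))
    (hF : Submodule.span L.V F = Subalgebra.toSubmodule (HlocH679 L)) :
    tensImageH679 L = Submodule.span L.V
      (Set.image2 (fun g g' => tensH679 L.V M g g') F F) := by
  unfold tensImageH679
  rw [← hF, Submodule.map₂_span_span]

end

end Fermat.Agent.S19.H679

end
-- ===== PACK-END S19/H679/Delta.lean

-- ===== PACK-BEGIN Lib/RR/H439/StrongApprox.lean
section



/-!
# Strong approximation inside Riemann–Roch spaces (vanishing of `H¹` in large degree)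

(helper439, cell A3 / pieces D5, D8(b): "the jet matrix has full rank".)

* `sup_eq_top_of_degree_gt` : `deg D > 2g - 2` ⟹ `𝔸 = 𝔸(D) + F`.
* `exists_approx`           : `deg D > 2g - 2`, `S` finite, targets `φ v` (`v ∈ S`) ⟹ there is
                              `f ∈ F` with `ord_v (f - φ v) ≥ -D(v)` on `S` and `ord_v f ≥ -D(v)`
                              off `S`.
* `exists_mem_L_approx`     : interpolation of jets inside `L(B)`: if `D ≥ 0` on `S`,
                              `D = 0` off `S`, `deg (B - D) > 2g - 2` and the targets satisfy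
                              `ord_v (φ v) ≥ -B(v)`, then some `f ∈ L(B)` has
                              `ord_v (f - φ v) ≥ D(v) - B(v)` for all `v ∈ S`.
-/

set_option autoImplicit false

noncomputable section

open AlgebraicCurve

namespace Fermat.Agent.Lib.RR.H439

open Fermat.Agent.Lib.RR

variable {K F : Type*} [Field K] [Field F] [Algebra K F] [FF1 K F]

/-- **Vanishing of `H¹`**: if `deg D > 2g - 2` then `𝔸 = 𝔸(D) + F`. -/
theorem sup_eq_top_of_degree_gt {D : Divisor K F}
    (hD : 2 * (genusFF K F : ℤ) - 2 < Divisor.degree D) :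
    repartitionsOf D ⊔ principalRepartitions K F = ⊤ :=
  sup_eq_top_of_attains (genusFF K F : ℤ) (fun D' => riemann_inequality_genusFF D') D
    (ell_eq_of_degree_gt hD)

open Classical in
/-- **Strong approximation**: if `deg D > 2g - 2`, then for every finite set `S` of places and
arbitrary targets `φ v ∈ F` there is `f ∈ F` with `ord_v (f - φ v) ≥ -D(v)` for `v ∈ S` and
`ord_v f ≥ -D(v)` for `v ∉ S`. -/
theorem exists_approx {D : Divisor K F}
    (hD : 2 * (genusFF K F : ℤ) - 2 < Divisor.degree D) (S : Finset (Place K F))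
    (φ : Place K F → F) :
    ∃ f : F, (∀ v ∈ S, f - φ v = 0 ∨ -D v ≤ v.ord (f - φ v)) ∧
      ∀ v ∉ S, f = 0 ∨ -D v ≤ v.ord f := by
  -- the repartition `α = φ` on `S`, `0` elsewhere
  let α₀ : Place K F → F := fun v => if v ∈ S then φ v else 0
  have hα₀ : α₀ ∈ repartitions K F := by
    apply mem_repartitions_of_finite_ord
    refine (Finset.finite_toSet S).subset fun v hv => ?_
    by_contra hvS
    have hv' : v.ord (α₀ v) < 0 := hv
    have : α₀ v = 0 := if_neg hvS
    rw [this, v.ord_zero] at hv'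
    exact lt_irrefl _ hv'
  let α : ↥(repartitions K F) := ⟨α₀, hα₀⟩
  have hmem : α ∈ repartitionsOf D ⊔ principalRepartitions K F := by
    rw [sup_eq_top_of_degree_gt hD]; trivial
  obtain ⟨β, hβ, γ, hγ, hsum⟩ := Submodule.mem_sup.mp hmem
  obtain ⟨f, hf⟩ := mem_principalRepartitions_iff.mp hγ
  rw [mem_repartitionsOf_iff] at hβ
  have hval : ∀ v, (β : Place K F → F) v = α₀ v - f := by
    intro v
    have h1 := congrArg (fun x : ↥(repartitions K F) => (x : Place K F → F) v) hsum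
    simp only [coe_add_apply] at h1
    have h2 : (γ : Place K F → F) v = f := by rw [hf]
    rw [h2] at h1
    have h3 : (α : Place K F → F) v = α₀ v := rfl
    rw [h3] at h1
    rw [← h1]; ring
  refine ⟨f, fun v hv => ?_, fun v hv => ?_⟩
  · have h := hβ v
    rw [hval v] at h
    have hα : α₀ v = φ v := if_pos hv
    rw [hα] at h
    rcases h with h | h
    · left
      rw [← neg_sub, h, neg_zero]
    · right
      rw [← neg_sub, ord_neg]
      exact h
  · have h := hβ v
    rw [hval v] at h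
    have hα : α₀ v = 0 := if_neg hv
    rw [hα, zero_sub] at h
    rcases h with h | h
    · left
      exact neg_eq_zero.mp h
    · right
      rwa [ord_neg] at h

/-- **Interpolation of jets in `L(B)`**.  Let `D` be a divisor with `D ≥ 0` on the finite set `S`
and `D = 0` off `S`, and assume `deg (B - D) > 2g - 2`.  For arbitrary targets `φ v ∈ F`
(`v ∈ S`) with `ord_v (φ v) ≥ -B(v)` there is `f ∈ L(B)` with
`ord_v (f - φ v) ≥ D(v) - B(v)` for all `v ∈ S`. -/
theorem exists_mem_L_approx {B D : Divisor K F} (S : Finset (Place K F))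
    (hDS : ∀ v ∈ S, 0 ≤ D v) (hD0 : ∀ v ∉ S, D v = 0)
    (hdeg : 2 * (genusFF K F : ℤ) - 2 < Divisor.degree (B - D))
    (φ : Place K F → F) (hφ : ∀ v ∈ S, φ v = 0 ∨ -B v ≤ v.ord (φ v)) :
    ∃ f ∈ riemannRochSpace B, ∀ v ∈ S, f - φ v = 0 ∨ D v - B v ≤ v.ord (f - φ v) := by
  obtain ⟨f, h1, h2⟩ := exists_approx hdeg S φ
  simp only [Finsupp.coe_sub, Pi.sub_apply, neg_sub] at h1 h2
  refine ⟨f, ?_, h1⟩
  rw [mem_L_iff]
  intro v
  by_cases hv : v ∈ S
  · -- `f = (f - φ v) + φ v`
    have hdec : f = (f - φ v) + φ v := by ring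
    have hD := hDS v hv
    have ha : f - φ v = 0 ∨ -B v ≤ v.ord (f - φ v) := by
      rcases h1 v hv with h | h
      · exact Or.inl h
      · right; omega
    have := ord_add_of_le v ha (hφ v hv)
    rwa [← hdec] at this
  · have := h2 v hv
    rw [hD0 v hv] at this
    rcases this with h | h
    · exact Or.inl h
    · right; omega

end Fermat.Agent.Lib.RR.H439

end
end
-- ===== PACK-END Lib/RR/H439/StrongApprox.lean

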