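import Mathlib
import Fermat.Prelude.Def_ModularCurve_ReductionModL
import Fermat.Prelude.Def_FLTPrelim_Ramification
import Fermat.Agent.Pack.S33.E16L2
import Fermat.Agent.Pack.S33.E0L1
import Fermat.Agent.Pack.S33.E7L3
import Fermat.Agent.Pack.S33.E4L1
import Fermat.Agent.Pack.S33.E12L2
import Fermat.Agent.Pack.S33.E16L0
import Fermat.Agent.Pack.S33.E4L3
import Fermat.Agent.Pack.S33.E16L3
import Fermat.Agent.Pack.S33.E13L0
import Fermat.Agent.Pack.S33.E12L0
import Fermat.Agent.Pack.S33.E1L1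
import Fermat.Agent.Pack.S33.E8L0
import Fermat.Agent.Pack.S33.E5L1
import Fermat.Agent.Pack.S33.E5L3
import Fermat.Agent.Pack.S33.E5L0
import Fermat.Agent.Pack.S33.E15L0
import Fermat.Agent.Pack.S33.E16L1
import Fermat.Agent.Pack.S33.E8L3
import Fermat.Agent.Pack.S33.E2L3
import Fermat.Agent.Pack.S33.E14L1

-- ===== PACK-BEGIN Lib/NormL/Index.lean
section


/-!
# `NormL`, block KEY, part 3: passing from `Λ` to the sublattice `Λ * P`
-/

namespace Fermat.Agent.Lib.NormL

open NumberField Fermat.Agent.S14.H74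
open scoped Classical

variable {K : Type*} [Field K] [NumberField K]

/-- The kernel of `𝓞 ⧸ Λ' → 𝓞 ⧸ Λ`. -/
noncomputable abbrev factorKer (Λ' Λ : Ideal (𝓞 K)) (h : Λ' ≤ Λ) : AddSubgroup (𝓞 K ⧸ Λ') :=
  (Ideal.Quotient.factor h).toAddMonoidHom.ker

theorem mem_factorKer_iff {Λ' Λ : Ideal (𝓞 K)} (h : Λ' ≤ Λ) (q : 𝓞 K ⧸ Λ') :
    q ∈ factorKer Λ' Λ h ↔ Quotient.out q ∈ Λ := by
  rw [AddMonoidHom.mem_ker]
  conv_lhs => rw [← Ideal.Quotient.mk_out q]
  show Ideal.Quotient.factor h (Ideal.Quotient.mk Λ' (Quotient.out q)) = 0 ↔ _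
  rw [Ideal.Quotient.factor_mk, Ideal.Quotient.eq_zero_iff_mem]

theorem card_factorKer_mul (Λ' Λ : Ideal (𝓞 K)) (h : Λ' ≤ Λ) :
    Nat.card (factorKer Λ' Λ h) * Ideal.absNorm Λ = Ideal.absNorm Λ' := by
  have h1 := AddSubgroup.card_mul_index (factorKer Λ' Λ h)
  have h2 : (factorKer Λ' Λ h).index = Nat.card (𝓞 K ⧸ Λ) := by
    unfold factorKer
    rw [AddSubgroup.index_ker]
    have hsurj : Function.Surjective (Ideal.Quotient.factor h).toAddMonoidHom :=
      Ideal.Quotient.factor_surjective h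
    rw [AddMonoidHom.range_eq_top.mpr hsurj, AddSubgroup.card_top]
  rw [h2] at h1
  rw [Ideal.absNorm_apply, Ideal.absNorm_apply, Submodule.cardQuot_apply,
    Submodule.cardQuot_apply]
  exact h1

theorem card_factorKer_mul_right (Λ P : Ideal (𝓞 K)) (hΛ : Λ ≠ ⊥) :
    Nat.card (factorKer (Λ * P) Λ Ideal.mul_le_left) = Ideal.absNorm P := by
  have h := card_factorKer_mul (Λ * P) Λ Ideal.mul_le_left
  rw [map_mul, mul_comm] at h
  have h0 : Ideal.absNorm Λ ≠ 0 := by
    rwa [Ne, Ideal.absNorm_eq_zero_iff]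
  exact Nat.eq_of_mul_eq_mul_left (Nat.pos_of_ne_zero h0) h

/-- **K3**: `N(P) * ∑_{Λ P} GS (r' + ·) - ∑_{Λ} GS (r + ·)` extends continuously to `[1, 2]`. -/
theorem exists_continuousOn_index_sub (ε : Bool) (Λ P : Ideal (𝓞 K)) (hΛ : Λ ≠ ⊥) (hP : P ≠ ⊥)
    (r r' : 𝓞 K) :
    ∃ D : ℝ → ℝ, ContinuousOn D (Set.Icc 1 2) ∧ ∀ s : ℝ, 1 < s → s ≤ 2 →
      (Ideal.absNorm P : ℝ) * (∑' l : (Λ * P : Ideal (𝓞 K)), GS K ε s (r' + (l : 𝓞 K))) -
        (∑' l : Λ, GS K ε s (r + (l : 𝓞 K))) = D s := by
  have hle : Λ * P ≤ Λ := Ideal.mul_le_left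
  have hne : Λ * P ≠ ⊥ := mul_ne_zero hΛ hP
  have : Finite (𝓞 K ⧸ (Λ * P)) := Ideal.finiteQuotientOfFreeOfNeBot _ hne
  let _ : Fintype (factorKer (Λ * P) Λ hle) := Fintype.ofFinite _
  have hcard : Fintype.card (factorKer (Λ * P) Λ hle) = Ideal.absNorm P := by
    rw [← Nat.card_eq_fintype_card]
    exact card_factorKer_mul_right Λ P hΛ
  set rep : factorKer (Λ * P) Λ hle → 𝓞 K := fun q ↦ Quotient.out (q : 𝓞 K ⧸ (Λ * P)) with hrep
  have hr : ∀ q, rep q ∈ Λ := fun q ↦ (mem_factorKer_iff hle _).mp q.2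
  have hex : ∀ x ∈ Λ, ∃ q, x - rep q ∈ Λ * P := by
    intro x hx
    have hq : Ideal.Quotient.mk (Λ * P) x ∈ factorKer (Λ * P) Λ hle := by
      rw [AddMonoidHom.mem_ker]
      show Ideal.Quotient.factor hle (Ideal.Quotient.mk (Λ * P) x) = 0
      rw [Ideal.Quotient.factor_mk, Ideal.Quotient.eq_zero_iff_mem]
      exact hx
    refine ⟨⟨_, hq⟩, ?_⟩
    rw [← Ideal.Quotient.eq, hrep]
    simp only
    rw [Ideal.Quotient.mk_out]
  have hinj : ∀ q q', rep q - rep q' ∈ Λ * P → q = q' := by
    intro q q' h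
    rw [← Ideal.Quotient.eq, hrep] at h
    simp only at h
    rw [Ideal.Quotient.mk_out, Ideal.Quotient.mk_out] at h
    exact Subtype.ext h
  choose D hDc hD using fun q : factorKer (Λ * P) Λ hle ↦
    exists_continuousOn_coset_sub (K := K) ε (Λ * P) r' (r + rep q)
  refine ⟨fun s ↦ ∑ q, D q s, continuousOn_finsetSum _ fun q _ ↦ hDc q, fun s hs1 hs2 ↦ ?_⟩
  have hF : Summable fun x : 𝓞 K ↦ GS K ε s (r + x) :=
    (summable_GS ε hs1).comp_injective (add_right_injective r)
  have h1 := tsum_ideal_eq_sum_cosets Λ (Λ * P) hle rep hr hex hinj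
    (fun x : 𝓞 K ↦ GS K ε s (r + x)) hF
  rw [h1]
  have h2 : (Ideal.absNorm P : ℝ) * (∑' l : (Λ * P : Ideal (𝓞 K)), GS K ε s (r' + (l : 𝓞 K))) =
      ∑ _q : factorKer (Λ * P) Λ hle, ∑' l : (Λ * P : Ideal (𝓞 K)), GS K ε s (r' + (l : 𝓞 K)) := by
    rw [Finset.sum_const, Finset.card_univ, hcard, nsmul_eq_mul]
  rw [h2, ← Finset.sum_sub_distrib]
  refine Finset.sum_congr rfl fun q _ ↦ ?_
  rw [← hD q s hs1 hs2]
  simp only [add_assoc]

end Fermat.Agent.Lib.NormL

end
-- ===== PACK-END Lib/NormL/Index.lean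

-- ===== PACK-BEGIN S24/Alg/Sub.lean
section






/-!
# S24 / ALG — sub-interface (statements needed by the global assembly in `Alg.lean`)

Adapters (helper984) from the FF layer (helper804), the KD layer (helper84) and the local
theorem (helper117) to the shapes used by the assembly.
-/

set_option autoImplicit false

noncomputable section

open AlgebraicCurve KaehlerDifferential

namespace Fermat.Agent.S24

variable {K F : Type*} [Field K] [Field F] [Algebra K F] [IsAlgClosed K] [CharZero K]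
variable {C : Type*} [Field C] [CharZero C] {X : Type*} [Finite X]

/-- The places of `F/K` at which `t` vanishes. -/
def zeroPlaces (K : Type*) {F : Type*} [Field K] [Field F] [Algebra K F] (t : F) :
    Set (Place K F) := {v | 0 < v.ord t}

/-! ### FF (function-field generalities) -/

omit [CharZero K] in
/-- FF2: all places have degree one. -/
theorem sub_deg_eq_one (j : F) (hj : Transcendental K j)
    [FiniteDimensional ↥(IntermediateField.adjoin K {j}) F] (v : Place K F) : v.deg = 1 :=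
  FF.deg_eq_one v hj

/-- FF3: a principal divisor has degree zero. -/
theorem sub_degree_principal (j : F) (hj : Transcendental K j)
    [FiniteDimensional ↥(IntermediateField.adjoin K {j}) F] (f : F) (hf : f ≠ 0)
    (D : Divisor K F) (hD : ∀ v : Place K F, D v = v.ord f) : Divisor.degree D = 0 :=
  degree_principal j hj f hf D hD

omit [CharZero K] in
/-- FF4: every place lies over a point of `ℙ¹_j`. -/
theorem sub_exists_point (j : F)
    [FiniteDimensional ↥(IntermediateField.adjoin K {j}) F] (v : Place K F) :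
    v.ord j < 0 ∨ ∃ a : K, 0 < v.ord (j - algebraMap K F a) := by
  rcases lt_or_ge (v.ord j) 0 with h | h
  · exact Or.inl h
  · haveI : Algebra.IsAlgebraic ↥(IntermediateField.adjoin K {j}) F :=
      Algebra.IsAlgebraic.of_finite _ _
    exact Or.inr (FF.exists_ord_sub_pos v j h)

/-! ### KD (Kähler differentials) -/

omit [IsAlgClosed K] in
/-- KD1: `Ω[F/K]` is spanned by `D j`. -/
theorem sub_exists_smul_D (j : F)
    [FiniteDimensional ↥(IntermediateField.adjoin K {j}) F] (ω : Ω[F⁄K]) :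
    ∃ f : F, ω = f • D K F j := by
  haveI : Algebra.IsAlgebraic ↥(IntermediateField.adjoin K {j}) F :=
    Algebra.IsAlgebraic.of_finite _ _
  have h : ω ∈ Submodule.span F {D K F j} := by
    rw [H84.span_D_eq_top j]; exact Submodule.mem_top
  obtain ⟨f, hf⟩ := Submodule.mem_span_singleton.mp h
  exact ⟨f, hf.symm⟩

/-- KD2: `ordDifferential` is additive in the coefficient. -/
theorem sub_ordDifferential_smul (j : F)
    [FiniteDimensional ↥(IntermediateField.adjoin K {j}) F] (v : Place K F)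
    (f : F) (hf : f ≠ 0) (ω : Ω[F⁄K]) (hω : ω ≠ 0) :
    v.ordDifferential (f • ω) = v.ord f + v.ordDifferential ω := by
  haveI : v.DCoordGenerates := H84.place_dCoordGenerates j v
  haveI : Nontrivial Ω[F⁄K] := ⟨⟨ω, 0, hω⟩⟩
  refine v.ordDifferential_smul hf ?_
  intro h0
  apply hω
  rw [← v.differentialCoeff_smul_dCoord ω, h0, zero_smul]

/-! ### LT (local theorem) -/

/-- LT: the places over the zero of `t` are finite in number, in bijection with the orbits of
`perm`, and the ramification indices add up to the degree. -/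
theorem sub_local_count (t : F)
    [FiniteDimensional ↥(IntermediateField.adjoin K {t}) F]
    (hrank : Module.finrank ↥(IntermediateField.adjoin K {t}) F = Nat.card X)
    (d : LocalData K F C X t) :
    (zeroPlaces K t).Finite ∧ Nat.card ↥(zeroPlaces K t) = numOrbits d.perm ∧
      ∑ᶠ v ∈ zeroPlaces K t, v.ord t = (Nat.card X : ℤ) := by
  classical
  have hfin : (zeroPlaces K t).Finite :=
    H117.finite_places_over d (IntermediateField.adjoin K {t}) le_rfl hrank
  have hs : ∀ v : Place K F, v ∈ hfin.toFinset ↔ 0 < v.ord t := fun v => by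
    simp [zeroPlaces]
  have ht : Transcendental K t := by
    have hpos : 0 < Nat.card X := hrank ▸ Module.finrank_pos
    obtain ⟨x⟩ := (Nat.card_pos_iff.mp hpos).1
    refine FF.transcendental_of_not_mem_range ?_
    rintro ⟨c, hc⟩
    have h1 := d.σ_t_order x
    have h3 : d.σ x t = HahnSeries.C (d.ι c) := by rw [← d.σ_const x c, hc]
    rw [h3] at h1
    have h2 : (HahnSeries.C (d.ι c) : LaurentSeries C).order = 0 := by
      rw [HahnSeries.C_apply]
      by_cases h0 : d.ι c = 0
      · simp [h0]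
      · exact HahnSeries.order_single h0
    rw [h2] at h1
    have := d.m_pos
    omega
  have hle : (Nat.card X : ℤ) ≤ ∑ v ∈ hfin.toFinset, v.ord t := by
    rw [← hrank]
    exact fundamental_le t ht hfin.toFinset hs
  obtain ⟨h1, -, h3⟩ :=
    H117.localThm d (IntermediateField.adjoin K {t}) le_rfl hrank hfin.toFinset hs hle
  refine ⟨hfin, ?_, ?_⟩
  · rw [Nat.card_coe_set_eq, Set.ncard_eq_toFinset_card _ hfin]
    exact h1
  · rw [finsum_mem_eq_finite_toFinset_sum _ hfin]
    exact h3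

/-- LT + KD4: order of `dt` at a zero of `t`. -/
theorem sub_ordDifferential_D (t : F)
    [FiniteDimensional ↥(IntermediateField.adjoin K {t}) F]
    (hrank : Module.finrank ↥(IntermediateField.adjoin K {t}) F = Nat.card X)
    (d : LocalData K F C X t) (v : Place K F) (hv : 0 < v.ord t) :
    v.ordDifferential (D K F t) = v.ord t - 1 := by
  obtain ⟨x, rfl⟩ :=
    H117.exists_placeOf_eq d (IntermediateField.adjoin K {t}) le_rfl hrank v hv
  haveI : (H117.placeOf d x).DCoordGenerates := H84.place_dCoordGenerates t _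
  exact H84.place_ordDifferential_D_of_ord_ne_zero (H117.placeOf d x) (d.σ x) d.ι (d.σ_const x)
    (H117.mult d x) (H117.mult_pos d x) (fun f _ => H117.order_eq d x f) t hv.ne'

end Fermat.Agent.S24

end
end
-- ===== PACK-END S24/Alg/Sub.lean

-- ===== PACK-BEGIN S24/Alg.lean
section





/-!
# S24 — algebraic side (Riemann–Hurwitz for `F / K(j)` from local embedding data)

Global assembly (helper984): the two frozen interface theorems
`exists_differential_ne_zero` and `degree_eq_of_localData`, proved from the sub-interface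
in `Alg/Sub.lean`.
-/

set_option autoImplicit false

noncomputable section

open AlgebraicCurve KaehlerDifferential

namespace Fermat.Agent.S24

variable {K F : Type*} [Field K] [Field F] [Algebra K F] [IsAlgClosed K] [CharZero K]
variable {C : Type*} [Field C] [CharZero C] {X : Type*} [Finite X]

omit [CharZero K] in
theorem exists_algebraMap_eq_of_isAlgebraic {x : F} (hx : IsAlgebraic K x) :
    ∃ c : K, algebraMap K F c = x := by
  have hint : IsIntegral K x := hx.isIntegral
  refine ⟨-(minpoly K x).coeff 0, ?_⟩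
  have hq : (minpoly K x).leadingCoeff = 1 := minpoly.monic hint
  have h : (minpoly K x).degree = 1 :=
    IsAlgClosed.degree_eq_one_of_irreducible K (minpoly.irreducible hint)
  have : Polynomial.aeval x (minpoly K x) = 0 := minpoly.aeval K x
  rw [Polynomial.eq_X_add_C_of_degree_eq_one h, hq, Polynomial.C_1, one_mul,
    Polynomial.aeval_add, Polynomial.aeval_X, Polynomial.aeval_C,
    add_eq_zero_iff_eq_neg] at this
  exact (map_neg (algebraMap K F) ((minpoly K x).coeff 0)).symm ▸ this.symm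

omit [IsAlgClosed K] [CharZero K] [CharZero C] [Finite X] in
theorem not_mem_range_of_localData {t : F} [Nonempty X] (d : LocalData K F C X t) (c : K) :
    t ≠ algebraMap K F c := by
  intro h
  obtain ⟨x⟩ := ‹Nonempty X›
  have h1 := d.σ_t_order x
  have h3 : d.σ x t = HahnSeries.C (d.ι c) := (congrArg (d.σ x) h).trans (d.σ_const x c)
  rw [h3] at h1
  have h2 : (HahnSeries.C (d.ι c) : LaurentSeries C).order = 0 := by
    rw [HahnSeries.C_apply]
    by_cases hc : d.ι c = 0
    · simp [hc]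
    · exact HahnSeries.order_single hc
  rw [h2] at h1
  have := d.m_pos
  omega

omit [CharZero K] [CharZero C] [Finite X] in
theorem transcendental_of_localData_inv (j : F) [Nonempty X]
    (dataInf : LocalData K F C X j⁻¹) : Transcendental K j := by
  intro halg
  obtain ⟨c, hc⟩ := exists_algebraMap_eq_of_isAlgebraic halg
  refine not_mem_range_of_localData dataInf c⁻¹ ?_
  rw [map_inv₀, hc]

omit [Finite X] in
theorem numOrbits_one : numOrbits (1 : Equiv.Perm X) = Nat.card X := by
  unfold numOrbits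
  refine Nat.card_congr (Equiv.ofBijective (Quotient.mk'' (s₁ := MulAction.orbitRel _ X)) ?_).symm
  constructor
  · intro x y hxy
    have h := Quotient.exact' hxy
    change x ∈ MulAction.orbit _ y at h
    obtain ⟨⟨g, hg⟩, hgx⟩ := h
    rw [Subgroup.zpowers_one_eq_bot, Subgroup.mem_bot] at hg
    subst hg
    simpa using hgx.symm
  · exact Quotient.mk''_surjective

end Fermat.Agent.S24

namespace Fermat.Agent.S24

variable {K F : Type*} [Field K] [Field F] [Algebra K F] [IsAlgClosed K] [CharZero K]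
variable {C : Type*} [Field C] [CharZero C] {X : Type*} [Finite X]

omit [IsAlgClosed K] [CharZero K] [Finite X] in
/-- `dt ≠ 0` if there is local data at `t` (helper240). -/
theorem D_ne_zero_of_localData {t : F} [Nonempty X] (d : LocalData K F C X t) :
    D K F t ≠ 0 := by
  obtain ⟨x⟩ := ‹Nonempty X›
  apply H240.exists_embDerivation (d.σ x) d.ι (d.σ_const x)
  apply H240.lsD_ne_zero_of_order_ne_zero
  rw [d.σ_t_order x]
  exact_mod_cast d.m_pos.ne'

omit [IsAlgClosed K] [CharZero K] [Finite X] in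
/-- If `F` admits local data at `j⁻¹`, then `Ω[F/K] ≠ 0` (helper240). -/
theorem exists_differential_ne_zero (j : F) [Nonempty X]
    (dataInf : LocalData K F C X j⁻¹) :
    ∃ ω : Ω[F⁄K], ω ≠ 0 :=
  ⟨D K F j⁻¹, D_ne_zero_of_localData dataInf⟩

section LocalConsequences

variable (t : F) [FiniteDimensional ↥(IntermediateField.adjoin K {t}) F]
  (hrank : Module.finrank ↥(IntermediateField.adjoin K {t}) F = Nat.card X)
  (d : LocalData K F C X t)

include hrank d in
theorem zeroPlaces_finite : (zeroPlaces K t).Finite := (sub_local_count t hrank d).1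

include hrank in
theorem card_zeroPlaces_toFinset :
    ((zeroPlaces_finite t hrank d).toFinset.card : ℤ) = numOrbits d.perm := by
  have h := (sub_local_count t hrank d).2.1
  rw [Nat.card_coe_set_eq, Set.ncard_eq_toFinset_card _ (zeroPlaces_finite t hrank d)] at h
  exact_mod_cast h

include hrank in
theorem sum_ord_zeroPlaces :
    ∑ v ∈ (zeroPlaces_finite t hrank d).toFinset, v.ord t = (Nat.card X : ℤ) := by
  have h := (sub_local_count t hrank d).2.2
  rwa [finsum_mem_eq_finite_toFinset_sum _ (zeroPlaces_finite t hrank d)] at h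

include hrank in
theorem sum_ord_sub_one_zeroPlaces :
    ∑ v ∈ (zeroPlaces_finite t hrank d).toFinset, (v.ord t - 1)
      = (Nat.card X : ℤ) - numOrbits d.perm := by
  rw [Finset.sum_sub_distrib, sum_ord_zeroPlaces t hrank d, Finset.sum_const,
    ← card_zeroPlaces_toFinset t hrank d]
  simp

include hrank in
theorem sum_neg_ord_sub_one_zeroPlaces :
    ∑ v ∈ (zeroPlaces_finite t hrank d).toFinset, (-(v.ord t) - 1)
      = -(Nat.card X : ℤ) - numOrbits d.perm := by
  rw [Finset.sum_sub_distrib, Finset.sum_neg_distrib, sum_ord_zeroPlaces t hrank d,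
    Finset.sum_const, ← card_zeroPlaces_toFinset t hrank d]
  simp

include hrank in
/-- If the monodromy is trivial, `t` is unramified: every zero of `t` is simple. -/
theorem ord_eq_one_of_perm_eq_one (hperm : d.perm = 1) (v : Place K F) (hv : 0 < v.ord t) :
    v.ord t = 1 := by
  have hsum := sum_ord_sub_one_zeroPlaces t hrank d
  rw [hperm, numOrbits_one, sub_self] at hsum
  have hnonneg : ∀ w ∈ (zeroPlaces_finite t hrank d).toFinset, 0 ≤ w.ord t - 1 := by
    intro w hw
    have : 0 < w.ord t := by simpa [zeroPlaces] using hw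
    omega
  have hz := (Finset.sum_eq_zero_iff_of_nonneg hnonneg).mp hsum v
    (by simpa [zeroPlaces] using hv)
  omega

end LocalConsequences

section Global

variable (j : F) [FiniteDimensional ↥(IntermediateField.adjoin K {j}) F]
  (hrank : Module.finrank ↥(IntermediateField.adjoin K {j}) F = Nat.card X)

include hrank in
/-- Local package at a finite point, with all instance transport done. -/
theorem local_fin (a : K) (d : LocalData K F C X (j - algebraMap K F a)) :
    ∃ Z : Finset (Place K F), (∀ v : Place K F, v ∈ Z ↔ 0 < v.ord (j - algebraMap K F a)) ∧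
      ∑ v ∈ Z, (v.ord (j - algebraMap K F a) - 1) = (Nat.card X : ℤ) - numOrbits d.perm ∧
      (∀ v : Place K F, 0 < v.ord (j - algebraMap K F a) →
        v.ordDifferential (D K F (j - algebraMap K F a)) = v.ord (j - algebraMap K F a) - 1) ∧
      (d.perm = 1 → ∀ v : Place K F, 0 < v.ord (j - algebraMap K F a) →
        v.ord (j - algebraMap K F a) = 1) := by
  obtain ⟨hfd, hfr⟩ := finiteDimensional_and_finrank_of_eq (adjoin_sub_algebraMap K j a)
  have hr := hfr.trans hrank
  refine ⟨(zeroPlaces_finite _ hr d).toFinset, fun v => by simp [zeroPlaces],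
    sum_ord_sub_one_zeroPlaces _ hr d, fun v hv => sub_ordDifferential_D _ hr d v hv,
    fun h v hv => ord_eq_one_of_perm_eq_one _ hr d h v hv⟩

include hrank in
/-- Local package at infinity, with all instance transport done. -/
theorem local_inf (d : LocalData K F C X j⁻¹) :
    ∃ Z : Finset (Place K F), (∀ v : Place K F, v ∈ Z ↔ 0 < v.ord j⁻¹) ∧
      ∑ v ∈ Z, (-(v.ord j⁻¹) - 1) = -(Nat.card X : ℤ) - numOrbits d.perm ∧
      (∀ v : Place K F, 0 < v.ord j⁻¹ → v.ordDifferential (D K F j⁻¹) = v.ord j⁻¹ - 1) := by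
  obtain ⟨hfd, hfr⟩ := finiteDimensional_and_finrank_of_eq (adjoin_inv K j)
  have hr := hfr.trans hrank
  exact ⟨(zeroPlaces_finite _ hr d).toFinset, fun v => by simp [zeroPlaces],
    sum_neg_ord_sub_one_zeroPlaces _ hr d, fun v hv => sub_ordDifferential_D _ hr d v hv⟩

omit [IsAlgClosed K] [CharZero K] in
theorem degree_eq_sum_of_deg_one (hdeg : ∀ v : Place K F, v.deg = 1) (E : Divisor K F)
    (T : Finset (Place K F)) (hT : E.support ⊆ T) :
    Divisor.degree E = ∑ v ∈ T, E v := by
  have h1 : Divisor.degree E = E.sum fun v n => n * (v.deg : ℤ) := by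
    simp [Divisor.degree, Finsupp.liftAddHom_apply]
  rw [h1, Finsupp.sum_of_support_subset E hT _ (fun v _ => by simp)]
  refine Finset.sum_congr rfl fun v _ => ?_
  rw [hdeg v]; simp

include hrank in
/-- **Riemann–Hurwitz from embeddings.**  Degree of the divisor of any nonzero differential. -/
theorem degree_eq_of_localData
    (dataFin : ∀ a : K, LocalData K F C X (j - algebraMap K F a))
    (dataInf : LocalData K F C X j⁻¹)
    (S₀ : Finset K) (hgen : ∀ a : K, a ∉ S₀ → (dataFin a).perm = 1)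
    (ω : Ω[F⁄K]) (hω : ω ≠ 0) (E : Divisor K F)
    (hE : ∀ v : Place K F, E v = v.ordDifferential ω) :
    Divisor.degree E =
      (∑ a ∈ S₀, ((Nat.card X : ℤ) - numOrbits (dataFin a).perm))
        - Nat.card X - numOrbits dataInf.perm := by
  classical
  have hpos : 0 < Nat.card X := hrank ▸ Module.finrank_pos
  have hne : Nonempty X := (Nat.card_pos_iff.mp hpos).1
  have hj : Transcendental K j := transcendental_of_localData_inv j dataInf
  have hj0 : j ≠ 0 := fun h => hj (h ▸ isAlgebraic_zero)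
  have hdeg : ∀ v : Place K F, v.deg = 1 := sub_deg_eq_one j hj
  -- `ω = f • dj`
  obtain ⟨f, rfl⟩ := sub_exists_smul_D j ω
  have hf : f ≠ 0 := by rintro rfl; simp at hω
  have hDinv : D K F j = (-(j ^ 2)) • D K F j⁻¹ := by
    have h := Derivation.leibniz_inv (D K F) (j⁻¹)
    rw [inv_inv] at h
    exact h
  have hDjinv : D K F j⁻¹ ≠ 0 := D_ne_zero_of_localData dataInf
  have hc : (-(j ^ 2)) ≠ 0 := neg_ne_zero.mpr (pow_ne_zero 2 hj0)
  have hDj : D K F j ≠ 0 := by
    rw [hDinv]
    exact smul_ne_zero hc hDjinv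
  -- local packages
  choose Zf hZf_mem hZf_sum hZf_ord hZf_unr using fun a => local_fin j hrank a (dataFin a)
  obtain ⟨Zi, hZi_mem, hZi_sum, hZi_ord⟩ := local_inf j hrank dataInf
  -- the ramification function
  set R : Place K F → ℤ := fun v => v.ordDifferential (D K F j) with hR
  have hDv : ∀ v : Place K F, E v = v.ord f + R v := fun v => by
    rw [hE, sub_ordDifferential_smul j v f hf _ hDj]
  have hRfin : ∀ (a : K) (v : Place K F), 0 < v.ord (j - algebraMap K F a) →
      R v = v.ord (j - algebraMap K F a) - 1 := by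
    intro a v hv
    have : D K F (j - algebraMap K F a) = D K F j := by simp
    rw [← hZf_ord a v hv, this]
  have hRinf : ∀ v : Place K F, 0 < v.ord j⁻¹ → R v = -(v.ord j⁻¹) - 1 := by
    intro v hv
    show v.ordDifferential (D K F j) = _
    rw [hDinv, sub_ordDifferential_smul j v _ hc _ hDjinv, hZi_ord v hv, ord_neg, pow_two,
      v.ord_mul hj0 hj0]
    have := v.ord_inv j
    omega
  -- the finite set of special places
  set T : Finset (Place K F) := S₀.biUnion Zf ∪ Zi with hT
  have hRT : ∀ v : Place K F, R v ≠ 0 → v ∈ T := by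
    intro v hv
    rcases sub_exists_point j v with h | ⟨a, ha⟩
    · refine Finset.mem_union_right _ ((hZi_mem v).mpr ?_)
      have := v.ord_inv j
      omega
    · by_cases haS : a ∈ S₀
      · exact Finset.mem_union_left _ (Finset.mem_biUnion.mpr ⟨a, haS, (hZf_mem a v).mpr ha⟩)
      · exfalso
        apply hv
        rw [hRfin a v ha, hZf_unr a (hgen a haS) v ha]
        simp
  let Rfs : Divisor K F := Finsupp.onFinset T R hRT
  have hRfs : ∀ v : Place K F, Rfs v = R v := fun v => rfl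
  have hprinc : Divisor.degree (E - Rfs) = 0 :=
    sub_degree_principal j hj f hf (E - Rfs) fun v => by
      rw [Finsupp.sub_apply, hRfs, hDv]; ring
  have hsplit : Divisor.degree E = Divisor.degree Rfs := by
    have := map_sub (Divisor.degree (K := K) (F := F)) E Rfs
    rw [hprinc] at this
    linarith
  rw [hsplit, degree_eq_sum_of_deg_one hdeg Rfs T Finsupp.support_onFinset_subset]
  simp only [hRfs]
  -- split the sum
  have hdisj1 : Disjoint (S₀.biUnion Zf) Zi := by
    rw [Finset.disjoint_left]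
    intro v hv hvi
    obtain ⟨a, -, hva⟩ := Finset.mem_biUnion.mp hv
    exact not_pos_ord_sub_of_pos_ord_inv v j a ((hZi_mem v).mp hvi) ((hZf_mem a v).mp hva)
  have hdisj2 : (S₀ : Set K).PairwiseDisjoint Zf := by
    intro a _ b _ hab
    rw [Function.onFun, Finset.disjoint_left]
    intro v hva hvb
    exact hab (point_unique v j ((hZf_mem a v).mp hva) ((hZf_mem b v).mp hvb))
  rw [hT, Finset.sum_union hdisj1, Finset.sum_biUnion hdisj2]
  have h1 : ∀ a ∈ S₀, ∑ v ∈ Zf a, R v = (Nat.card X : ℤ) - numOrbits (dataFin a).perm := by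
    intro a _
    rw [← hZf_sum a]
    exact Finset.sum_congr rfl fun v hv => hRfin a v ((hZf_mem a v).mp hv)
  have h2 : ∑ v ∈ Zi, R v = -(Nat.card X : ℤ) - numOrbits dataInf.perm := by
    rw [← hZi_sum]
    exact Finset.sum_congr rfl fun v hv => hRinf v ((hZi_mem v).mp hv)
  rw [Finset.sum_congr rfl h1, h2]
  ring

end Global

end Fermat.Agent.S24

end
end
-- ===== PACK-END S24/Alg.lean

-- ===== PACK-BEGIN S18/H516/CoreRes.lean
section







/-!
# S18 / MOD (helper516): the S28 core data for the residue field of a place over `ℓ`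

`coreData_residue` : for `A ⊆ L` a valuation subring with `(ℓ : L) ∈ 𝔪_A` (`A.LiesOverPrime ℓ`),
`ℓ ∤ N`: `CoreData N (IsLocalRing.ResidueField A)` (S28 H867 + H326 + H25, all on main).
`coreData_of_charP` : the same for any field `k : Type` of characteristic `ℓ`.
-/

set_option autoImplicit false

noncomputable section

namespace Fermat.Agent.S18.H516

open ModularCurve Fermat.Agent.S28

/-- S28 core data for every field of characteristic `ℓ ∤ N`. -/
theorem coreData_of_charP (N : ℕ) [NeZero N] (ℓ : ℕ) [Fact ℓ.Prime] (hℓN : ¬ ℓ ∣ N)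
    (k : Type) [Field k] [CharP k ℓ] : CoreData N k :=
  H867.coreData_of_inputs N ℓ hℓN k
    (fun p hp _ _ => H326.nonempty_modPolyData p hp)
    (fun p hp _ _ => H326.nonempty_unitPolyData p hp)
    H25.theta_identity

theorem charP_residue {L : Type*} [Field L] (A : ValuationSubring L) {ℓ : ℕ} [Fact ℓ.Prime]
    (hA : A.LiesOverPrime ℓ) : CharP (IsLocalRing.ResidueField A) ℓ := by
  have hℓ : ℓ.Prime := Fact.out
  have h0 : ((ℓ : ℕ) : IsLocalRing.ResidueField A) = 0 := by
    have h1 : IsLocalRing.residue A ((ℓ : ℕ) : ↥A) = 0 := by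
      rw [IsLocalRing.residue_eq_zero_iff, IsLocalRing.mem_maximalIdeal, mem_nonunits_iff]
      intro hu
      have h2 : (ℓ : L) ∈ A.nonunits := hA
      rw [ValuationSubring.mem_nonunits_iff] at h2
      have h3 : A.valuation (ℓ : L) = 1 := by
        have := (A.valuation_eq_one_iff ((ℓ : ℕ) : ↥A)).mp hu
        simpa using this
      exact absurd h3 h2.ne
    simpa using h1
  exact (CharP.charP_iff_prime_eq_zero hℓ).mpr h0

/-- **S28 core data for the residue field of a place over `ℓ ∤ N`.** -/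
theorem coreData_residue (N : ℕ) [NeZero N] {ℓ : ℕ} [Fact ℓ.Prime] (hℓN : ¬ ℓ ∣ N)
    (A : ValuationSubring (AlgebraicClosure ℚ)) (hA : A.LiesOverPrime ℓ) :
    CoreData N (IsLocalRing.ResidueField A) := by
  have := charP_residue A hA
  exact coreData_of_charP N ℓ hℓN _

end Fermat.Agent.S18.H516

end
end
-- ===== PACK-END S18/H516/CoreRes.lean

-- ===== PACK-BEGIN S18/H694/CoreMul.lean
section






/-!
# S18 / helper694 — the hub `CoreStatement N A m` is multiplicative in `m`

The S18 interfaces (v4) prove `CoreStatement N A p` only for PRIME `p ≠ ℓ`.  Row S29 (ES-KUM,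
`S29/H222/ESKFamily.lean`, `CoreFamily`) consumes `CoreStatement N A (p ^ n)`.  This file is the
bridge:

* `laurent_const_of_pow_eq_C` : in `k((q))`, `z ^ a = C γ`, `γ ≠ 0`, `(a : k) ≠ 0` ⟹ `z = C δ`.
* `gauss_unit`      : `incl W₁ = C γ * incl W₂` with `W̄₁ ≠ 0 ≠ W̄₂` ⟹ `γ` is a unit of `A`.
* `core_mul`        : `CoreStatement N A a → CoreStatement N A b → CoreStatement N A (a * b)`
                      (given `CoreData N k` for the residue field `k` and `(a : k) ≠ 0`).
* `coreStatement_one`, `coreStatement_of_prime`, `coreFamily_of_prime` (exact body of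
  `S29.H222.CoreFamily`).
-/

set_option autoImplicit false

noncomputable section

namespace Fermat.Agent.S18.H694

open ModularCurve AlgebraicCurve HahnSeries

/-! ## 1. Constants of `k((q))` -/

section Const

variable {k : Type*} [Field k]

/-- In a power series ring over a field: `p ^ a = C γ` with `(a : k) ≠ 0`, `γ ≠ 0` forces `p`
to be constant. -/
theorem powerSeries_const_of_pow_eq_C {a : ℕ} (ha : (a : k) ≠ 0) {p : PowerSeries k} {γ : k}
    (hγ : γ ≠ 0) (h : p ^ a = PowerSeries.C γ) :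
    p = PowerSeries.C (PowerSeries.constantCoeff p) := by
  set p₀ : k := PowerSeries.constantCoeff p with hp₀
  have h0 : p₀ ^ a = γ := by
    have := congrArg PowerSeries.constantCoeff h
    rwa [map_pow, PowerSeries.constantCoeff_C] at this
  have hp₀ne : p₀ ≠ 0 := by
    intro h'
    rw [h'] at h0
    have ha0 : a ≠ 0 := by
      rintro rfl
      exact ha (by simp)
    rw [zero_pow ha0] at h0
    exact hγ h0.symm
  have hgeom := geom_sum₂_mul p (PowerSeries.C p₀) a
  have hrhs : p ^ a - (PowerSeries.C p₀) ^ a = 0 := by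
    rw [h, ← map_pow, h0, sub_self]
  rw [hrhs] at hgeom
  have hsum : (∑ i ∈ Finset.range a, p ^ i * (PowerSeries.C p₀) ^ (a - 1 - i)) ≠ 0 := by
    intro hs
    have := congrArg PowerSeries.constantCoeff hs
    rw [map_sum, _root_.map_zero] at this
    have h2 : ∀ i ∈ Finset.range a,
        PowerSeries.constantCoeff (p ^ i * (PowerSeries.C p₀) ^ (a - 1 - i)) = p₀ ^ (a - 1) := by
      intro i hi
      rw [_root_.map_mul, map_pow, map_pow, PowerSeries.constantCoeff_C, ← hp₀, ← _root_.pow_add]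
      congr 1
      have := Finset.mem_range.mp hi
      omega
    rw [Finset.sum_congr rfl h2, Finset.sum_const, Finset.card_range, nsmul_eq_mul] at this
    rcases mul_eq_zero.mp this with h3 | h3
    · exact ha h3
    · exact hp₀ne (pow_eq_zero_iff (n := a - 1) (by
        intro h4
        rw [h4, pow_zero] at h3
        exact one_ne_zero h3) |>.mp h3)
  rcases mul_eq_zero.mp hgeom with h1 | h1
  · exact absurd h1 hsum
  · exact sub_eq_zero.mp h1

/-- In `k((q))`: `z ^ a = C γ` with `(a : k) ≠ 0`, `γ ≠ 0` forces `z` to be a nonzero constant. -/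
theorem laurent_const_of_pow_eq_C {a : ℕ} (ha : (a : k) ≠ 0) {z : LaurentSeries k} {γ : k}
    (hγ : γ ≠ 0) (h : z ^ a = HahnSeries.C γ) :
    ∃ δ : k, δ ≠ 0 ∧ z = HahnSeries.C δ := by
  have ha0 : a ≠ 0 := by
    rintro rfl
    exact ha (by simp)
  have hz : z ≠ 0 := by
    rintro rfl
    rw [zero_pow ha0] at h
    exact hγ (HahnSeries.C_injective (by rw [← h, _root_.map_zero]))
  have hord : z.order = 0 := by
    have h1 := congrArg HahnSeries.order h
    rw [HahnSeries.order_pow, HahnSeries.order_C, nsmul_eq_mul] at h1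
    rcases mul_eq_zero.mp h1 with h2 | h2
    · exact absurd (by exact_mod_cast h2) ha0
    · exact h2
  have hp : HahnSeries.ofPowerSeries ℤ k z.powerSeriesPart = z := by
    rw [LaurentSeries.ofPowerSeries_powerSeriesPart, hord, neg_zero]
    show (1 : LaurentSeries k) * z = z
    rw [one_mul]
  have hpa : z.powerSeriesPart ^ a = PowerSeries.C γ := by
    apply HahnSeries.ofPowerSeries_injective (Γ := ℤ)
    rw [map_pow, hp, h, HahnSeries.ofPowerSeries_C]
  have hconst := powerSeries_const_of_pow_eq_C ha hγ hpa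
  refine ⟨PowerSeries.constantCoeff z.powerSeriesPart, ?_, ?_⟩
  · intro h0
    rw [h0, _root_.map_zero] at hconst
    rw [hconst, _root_.map_zero] at hp
    exact hz hp.symm
  · rw [← HahnSeries.ofPowerSeries_C, ← hconst, hp]

end Const

/-! ## 2. The Gauss unit lemma -/

section Gauss

variable {L : Type*} [Field L] (A : ValuationSubring L)

/-- If two series over `A` with nonzero reductions differ by a constant `γ` of `L`, then `γ` is
(the image of) a unit of `A`. -/
theorem gauss_unit {W₁ W₂ : LaurentSeries A} {γ : L}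
    (h1 : coeffMap (IsLocalRing.residue A) W₁ ≠ 0)
    (h2 : coeffMap (IsLocalRing.residue A) W₂ ≠ 0)
    (h : coeffMap A.subtype W₁ = HahnSeries.C γ * coeffMap A.subtype W₂) :
    ∃ g : A, (g : L) = γ ∧ IsLocalRing.residue A g ≠ 0 ∧ W₁ = HahnSeries.C g * W₂ := by
  have key : ∀ hγ : γ ∈ A, ∃ g : A, (g : L) = γ ∧ IsLocalRing.residue A g ≠ 0 ∧
      W₁ = HahnSeries.C g * W₂ := by
    intro hγ
    have hW : W₁ = HahnSeries.C (⟨γ, hγ⟩ : A) * W₂ := by
      apply H516.incl_injective A
      rw [_root_.map_mul, H516.coeffMap_C, h]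
      rfl
    refine ⟨⟨γ, hγ⟩, rfl, ?_, hW⟩
    intro h0
    apply h1
    rw [hW, _root_.map_mul, H516.coeffMap_C, h0, _root_.map_zero, zero_mul]
  rcases A.mem_or_inv_mem γ with hγ | hγ
  · exact key hγ
  · have hγ0 : γ ≠ 0 := by
      rintro rfl
      apply h1
      have : W₁ = 0 := by
        apply H516.incl_injective A
        rw [h, _root_.map_zero, zero_mul, _root_.map_zero]
      rw [this, _root_.map_zero]
    have hW : HahnSeries.C (⟨γ⁻¹, hγ⟩ : A) * W₁ = W₂ := by
      apply H516.incl_injective A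
      rw [_root_.map_mul, H516.coeffMap_C, h]
      show HahnSeries.C γ⁻¹ * (HahnSeries.C γ * _) = _
      rw [← mul_assoc, ← _root_.map_mul, inv_mul_cancel₀ hγ0, _root_.map_one, one_mul]
    have hres : IsLocalRing.residue A (⟨γ⁻¹, hγ⟩ : A) ≠ 0 := by
      intro h0
      apply h2
      rw [← hW, _root_.map_mul, H516.coeffMap_C, h0, _root_.map_zero, zero_mul]
    have hu : IsUnit (⟨γ⁻¹, hγ⟩ : A) := by
      by_contra hnu
      exact hres ((IsLocalRing.residue_eq_zero_iff _).mpr
        ((IsLocalRing.mem_maximalIdeal _).mpr (mem_nonunits_iff.mpr hnu)))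
    obtain ⟨u, hu⟩ := hu
    have hmem : γ ∈ A := by
      have h3 : ((u⁻¹ : Aˣ) : A) * (⟨γ⁻¹, hγ⟩ : A) = 1 := by
        rw [← hu]
        exact u.inv_mul
      have h4 : (((u⁻¹ : Aˣ) : A) : L) * γ⁻¹ = 1 := by
        have := congrArg (Subtype.val) h3
        simpa using this
      have h5 : (((u⁻¹ : Aˣ) : A) : L) = γ := by
        field_simp at h4
        exact h4
      rw [← h5]
      exact ((u⁻¹ : Aˣ) : A).2
    exact key hmem

end Gauss

/-! ## 3. Multiplicativity of the hub -/

section Core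

variable (N : ℕ) [NeZero N] (A : ValuationSubring Qb)

omit [NeZero N] in
theorem coe_algebraMap_bar (c : Qb) :
    ((algebraMap Qb (modularFunctionFieldBar N) c : modularFunctionFieldBar N) :
      LaurentSeries Qb) = HahnSeries.C c := by
  show algebraMap Qb (LaurentSeries Qb) c = HahnSeries.C c
  rw [algebraMap_laurentSeries_eq_single, ← HahnSeries.C_apply]

variable {N A}

omit [NeZero N] in
theorem toF_ne_zero {U : LaurentSeries A} (h : IsInt A N U) : toF h ≠ 0 := by
  intro h0
  have h1 : coeffMap A.subtype U = 0 := congrArg Subtype.val h0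
  have h2 : U = 0 := H516.incl_injective A (by rw [h1, _root_.map_zero])
  exact h.2.2 (by rw [h2, _root_.map_zero])

theorem isInt_C_mul {U : LaurentSeries A} (h : IsInt A N U) {g : A}
    (hg : IsLocalRing.residue A g ≠ 0) : IsInt A N (HahnSeries.C g * U) := by
  refine ⟨?_, ?_, ?_⟩
  · rw [_root_.map_mul, H516.coeffMap_C]
    exact mul_mem (H516.C_mem_baseChange N _) h.1
  · rw [_root_.map_mul, H516.coeffMap_C]
    exact mul_mem (H516.C_mem_fullC N _ _) h.2.1
  · rw [_root_.map_mul, H516.coeffMap_C]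
    refine mul_ne_zero ?_ h.2.2
    intro h0
    exact hg (HahnSeries.C_injective (by rw [h0, _root_.map_zero]))

omit [NeZero N] in
theorem toF_C_mul {U : LaurentSeries A} (h : IsInt A N U) {g : A}
    (hg : IsInt A N (HahnSeries.C g * U)) :
    toF hg = algebraMap Qb (modularFunctionFieldBar N) (g : Qb) * toF h := by
  apply Subtype.ext
  show coeffMap A.subtype (HahnSeries.C g * U) = _
  rw [_root_.map_mul, H516.coeffMap_C]
  show _ = ((algebraMap Qb (modularFunctionFieldBar N) (g : Qb) : modularFunctionFieldBar N) :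
      LaurentSeries Qb) * coeffMap A.subtype U
  rw [coe_algebraMap_bar]
  rfl

/-- **Multiplicativity of the hub.**  `CORE(a)` and `CORE(b)` imply `CORE(a * b)`, provided `a` is
invertible in the residue field of `A` (and the S28 core data for the residue field). -/
theorem core_mul (core : Fermat.Agent.S28.CoreData N (IsLocalRing.ResidueField A)) {a b : ℕ}
    (ha : ((a : ℕ) : IsLocalRing.ResidueField A) ≠ 0)
    (hCa : CoreStatement N A a) (hCb : CoreStatement N A b) : CoreStatement N A (a * b) := by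
  intro U₁ U₂ h₁ h₂ hred hdiv
  have ha0 : a ≠ 0 := by
    rintro rfl
    exact ha (by simp)
  have hdiv_a : ∀ v : Place Qb (modularFunctionFieldBar N),
      (a : ℤ) ∣ v.ord (toF h₁) - v.ord (toF h₂) := by
    intro v
    refine dvd_trans ?_ (hdiv v)
    push_cast
    exact dvd_mul_right _ _
  obtain ⟨c, y, hc, hy, hcy⟩ := hCa U₁ U₂ h₁ h₂ hred hdiv_a
  have h₂ne := toF_ne_zero h₂
  have hcne : ∀ {c : Qb}, c ≠ 0 → algebraMap Qb (modularFunctionFieldBar N) c ≠ 0 := by
    intro c hc
    exact (map_ne_zero _).mpr hc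
  have hord : ∀ v : Place Qb (modularFunctionFieldBar N),
      v.ord (toF h₁) - v.ord (toF h₂) = a * v.ord y := by
    intro v
    rw [hcy, v.ord_mul (mul_ne_zero (hcne hc) (pow_ne_zero _ hy)) h₂ne,
      v.ord_mul (hcne hc) (pow_ne_zero _ hy), Lib.RR.ord_algebraMap, Lib.RR.ord_pow]
    ring
  have hb : ∀ v : Place Qb (modularFunctionFieldBar N), (b : ℤ) ∣ v.ord y := by
    intro v
    have := hdiv v
    rw [hord v] at this
    push_cast at this
    exact (mul_dvd_mul_iff_left (by exact_mod_cast ha0)).mp this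
  -- Gauss decomposition of `y`
  have hyL : (y : LaurentSeries Qb) ≠ 0 := fun h => hy (Subtype.ext h)
  obtain ⟨c', Y₁, Y₂, hc', hY₁, hY₂, hdec⟩ :=
    H516.exists_gauss_decomp A (IsLocalRing.residue A) N core y.2 hyL
  have hY₁' : IsInt A N Y₁ := hY₁
  have hY₂' : IsInt A N Y₂ := hY₂
  -- the identity of series
  have hcyL : coeffMap A.subtype U₁ =
      HahnSeries.C c * (y : LaurentSeries Qb) ^ a * coeffMap A.subtype U₂ := by
    have h := congrArg (Subtype.val) hcy
    rw [← coe_algebraMap_bar N c]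
    exact h
  have hW : coeffMap A.subtype (U₁ * Y₂ ^ a) =
      HahnSeries.C (c * c' ^ a) * coeffMap A.subtype (Y₁ ^ a * U₂) := by
    rw [_root_.map_mul, map_pow, _root_.map_mul, map_pow, hcyL, _root_.map_mul, map_pow]
    calc HahnSeries.C c * (y : LaurentSeries Qb) ^ a * coeffMap A.subtype U₂ *
          coeffMap A.subtype Y₂ ^ a
        = HahnSeries.C c * ((y : LaurentSeries Qb) * coeffMap A.subtype Y₂) ^ a *
          coeffMap A.subtype U₂ := by ring
      _ = HahnSeries.C c * (HahnSeries.C c' * coeffMap A.subtype Y₁) ^ a *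
          coeffMap A.subtype U₂ := by rw [hdec]
      _ = _ := by ring
  have hW₁ : coeffMap (IsLocalRing.residue A) (U₁ * Y₂ ^ a) ≠ 0 := by
    rw [_root_.map_mul, map_pow]
    exact mul_ne_zero h₁.2.2 (pow_ne_zero _ hY₂'.2.2)
  have hW₂ : coeffMap (IsLocalRing.residue A) (Y₁ ^ a * U₂) ≠ 0 := by
    rw [_root_.map_mul, map_pow]
    exact mul_ne_zero (pow_ne_zero _ hY₁'.2.2) h₂.2.2
  obtain ⟨g, -, hgres, hWA⟩ := gauss_unit A hW₁ hW₂ hW
  -- reduce mod the maximal ideal
  have hWk := congrArg (coeffMap (IsLocalRing.residue A)) hWA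
  rw [_root_.map_mul, map_pow, _root_.map_mul, _root_.map_mul, map_pow, H516.coeffMap_C, ← hred] at hWk
  have hY₁ne := hY₁'.2.2
  have hz : (coeffMap (IsLocalRing.residue A) Y₂ * (coeffMap (IsLocalRing.residue A) Y₁)⁻¹) ^ a =
      HahnSeries.C (IsLocalRing.residue A g) := by
    have h3 : coeffMap (IsLocalRing.residue A) Y₂ ^ a =
        HahnSeries.C (IsLocalRing.residue A g) * coeffMap (IsLocalRing.residue A) Y₁ ^ a := by
      apply mul_left_cancel₀ h₁.2.2
      rw [hWk]
      ring
    rw [mul_pow, h3, inv_pow, mul_assoc, mul_inv_cancel₀ (pow_ne_zero _ hY₁ne), mul_one]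
  obtain ⟨δ', hδ', hzδ⟩ := laurent_const_of_pow_eq_C ha hgres hz
  obtain ⟨δ, rfl⟩ := IsLocalRing.residue_surjective δ'
  have hY₁'' : IsInt A N (HahnSeries.C δ * Y₁) := isInt_C_mul hY₁' hδ'
  have hredY : coeffMap (IsLocalRing.residue A) (HahnSeries.C δ * Y₁) =
      coeffMap (IsLocalRing.residue A) Y₂ := by
    rw [_root_.map_mul, H516.coeffMap_C, ← hzδ, mul_assoc, inv_mul_cancel₀ hY₁ne, mul_one]
  have hδne : (δ : Qb) ≠ 0 := by
    intro h0
    apply hδ'
    have : δ = 0 := Subtype.ext h0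
    rw [this, _root_.map_zero]
  have hF1 := toF_C_mul hY₁' hY₁''
  have hF2 : y * toF hY₂' = algebraMap Qb (modularFunctionFieldBar N) c' * toF hY₁' := by
    apply Subtype.ext
    show (y : LaurentSeries Qb) * coeffMap A.subtype Y₂ =
      ((algebraMap Qb (modularFunctionFieldBar N) c' : modularFunctionFieldBar N) :
        LaurentSeries Qb) * coeffMap A.subtype Y₁
    rw [coe_algebraMap_bar, hdec]
  have hY₁F := toF_ne_zero hY₁'
  have hY₂F := toF_ne_zero hY₂'
  have hdivb : ∀ v : Place Qb (modularFunctionFieldBar N),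
      (b : ℤ) ∣ v.ord (toF hY₁'') - v.ord (toF hY₂') := by
    intro v
    have e1 : v.ord (toF hY₁'') = v.ord (toF hY₁') := by
      rw [hF1, v.ord_mul (hcne hδne) hY₁F, Lib.RR.ord_algebraMap, zero_add]
    have e2 : v.ord y + v.ord (toF hY₂') = v.ord (toF hY₁') := by
      have := congrArg v.ord hF2
      rw [v.ord_mul hy hY₂F, v.ord_mul (hcne hc') hY₁F, Lib.RR.ord_algebraMap, zero_add] at this
      exact this
    have e3 : v.ord (toF hY₁'') - v.ord (toF hY₂') = v.ord y := by
      rw [e1, ← e2]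
      ring
    rw [e3]
    exact hb v
  obtain ⟨c'', t, hc'', ht, hct⟩ := hCb (HahnSeries.C δ * Y₁) Y₂ hY₁'' hY₂' hredY hdivb
  have hyt : y = algebraMap Qb (modularFunctionFieldBar N) (c' * (δ : Qb)⁻¹ * c'') * t ^ b := by
    apply mul_right_cancel₀ hY₂F
    rw [hF2]
    have h4 : toF hY₁' = algebraMap Qb (modularFunctionFieldBar N) (δ : Qb)⁻¹ * toF hY₁'' := by
      rw [hF1, ← mul_assoc, ← _root_.map_mul, inv_mul_cancel₀ hδne, _root_.map_one, one_mul]
    rw [h4, hct]
    simp only [_root_.map_mul]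
    ring
  refine ⟨c * (c' * (δ : Qb)⁻¹ * c'') ^ a, t, ?_, ht, ?_⟩
  · exact mul_ne_zero hc
      (pow_ne_zero _ (mul_ne_zero (mul_ne_zero hc' (inv_ne_zero hδne)) hc''))
  · rw [hcy, hyt]
    simp only [_root_.map_mul, map_pow]
    rw [mul_comm a b, pow_mul]
    ring

omit [NeZero N] in
/-- `CORE(1)` is trivial. -/
theorem coreStatement_one : CoreStatement N A 1 := by
  intro U₁ U₂ h₁ h₂ _ _
  have h₁ne := toF_ne_zero h₁
  have h₂ne := toF_ne_zero h₂
  refine ⟨1, toF h₁ * (toF h₂)⁻¹, one_ne_zero, mul_ne_zero h₁ne (inv_ne_zero h₂ne), ?_⟩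
  rw [_root_.map_one, one_mul, pow_one, mul_assoc, inv_mul_cancel₀ h₂ne, mul_one]

/-- **From prime `m` to all `m`.**  If the hub holds for all primes `p ≠ ℓ`, it holds for all `m`
prime to `ℓ` (`A` over `ℓ ∤ N`). -/
theorem coreStatement_of_prime {ℓ : ℕ} [Fact ℓ.Prime] (hℓN : ¬ ℓ ∣ N)
    (hA : A.LiesOverPrime ℓ)
    (h : ∀ p : ℕ, p.Prime → ¬ ℓ ∣ p → CoreStatement N A p) :
    ∀ m : ℕ, ¬ ℓ ∣ m → CoreStatement N A m := by
  have core := H516.coreData_residue N hℓN A hA
  have := H516.charP_residue A hA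
  intro m
  induction m using Nat.recOnMul with
  | zero => intro h0; exact absurd (dvd_zero ℓ) h0
  | one => intro _; exact coreStatement_one
  | prime p hp => intro hp'; exact h p hp hp'
  | mul a b iha ihb =>
    intro hab
    have ha' : ¬ ℓ ∣ a := fun h' => hab (Dvd.dvd.mul_right h' b)
    have hb' : ¬ ℓ ∣ b := fun h' => hab (Dvd.dvd.mul_left h' a)
    refine core_mul core ?_ (iha ha') (ihb hb')
    rw [Ne, CharP.cast_eq_zero_iff (IsLocalRing.ResidueField A) ℓ]
    exact ha'

end Core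

/-- The bridge S18 → S29 in the exact shape of `Fermat.Agent.S29.H222.CoreFamily`: the hub for
all primes `p ≠ ℓ` gives the hub for all `m` prime to `ℓ`. -/
theorem coreFamily_of_prime
    (h : ∀ (N : ℕ) [NeZero N] (ℓ : ℕ), ℓ.Prime → ¬ ℓ ∣ N → ∀ p : ℕ, p.Prime → ¬ ℓ ∣ p →
      ∀ A : ValuationSubring Qb, A.LiesOverPrime ℓ → CoreStatement N A p) :
    ∀ (N : ℕ) [NeZero N] (ℓ : ℕ), ℓ.Prime → ¬ ℓ ∣ N → ∀ m : ℕ, ¬ ℓ ∣ m →
      ∀ A : ValuationSubring Qb, A.LiesOverPrime ℓ → CoreStatement N A m := by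
  intro N _ ℓ hℓ hℓN m hm A hA
  have : Fact ℓ.Prime := ⟨hℓ⟩
  exact coreStatement_of_prime hℓN hA (fun p hp hp' => h N ℓ hℓ hℓN p hp hp' A hA) m hm

end Fermat.Agent.S18.H694

end
end
-- ===== PACK-END S18/H694/CoreMul.lean

-- ===== PACK-BEGIN S18/H264/SepConcrete.lean
section






/-!
# S18 / G-SEP at the concrete objects (helper264)

The field `separable` of `Alg.GoodModel` for the concrete objects of `Mod/Defs.lean`
(`Rc M A E`, `VcSet M A E`, coordinate `jOm M`), for every subring `V` with underlying set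
`VcSet M A E` and every uniformiser `w` of `Rc M A E`.
-/

set_option autoImplicit false

noncomputable section

namespace Fermat.Agent.S18.H264

open ModularCurve AlgebraicCurve Polynomial Fermat.Agent.S18 Fermat.Agent.S18.Mod
open Fermat.Agent.S28

/-! ### (C1) the residue field of a valuation ring of `Q̄` over `ℓ` is algebraic over `𝔽_ℓ` -/

section ResAlg

variable (A : ValuationSubring Qb) (ℓ : ℕ) [hℓ : Fact ℓ.Prime]
  [Algebra (ZMod ℓ) (IsLocalRing.ResidueField A)]

theorem isAlgebraic_residue_zmod (c : IsLocalRing.ResidueField A) : IsAlgebraic (ZMod ℓ) c := by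
  obtain ⟨a, rfl⟩ := IsLocalRing.residue_surjective c
  have halgQ : IsAlgebraic ℚ (a : Qb) := (AlgebraicClosure.isAlgebraic ℚ).isAlgebraic _
  have halgZ : IsAlgebraic ℤ (a : Qb) := (IsFractionRing.isAlgebraic_iff ℤ ℚ Qb).mpr halgQ
  obtain ⟨p, hp0, hpa⟩ := halgZ
  have hq0 : p.primPart ≠ 0 := primPart_ne_zero p
  have hqa : aeval (a : Qb) p.primPart = 0 := aeval_primPart_eq_zero hp0 hpa
  have hqA : Polynomial.eval₂ (Int.castRingHom A) a p.primPart = 0 := by
    apply Subtype.ext
    have h := Polynomial.hom_eval₂ p.primPart (Int.castRingHom A) A.subtype a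
    rw [ZeroMemClass.coe_zero, ← hqa, aeval_def]
    have hc : (A.subtype).comp (Int.castRingHom A) = algebraMap ℤ Qb := RingHom.ext_int _ _
    rw [← hc]
    exact h
  refine ⟨p.primPart.map (Int.castRingHom (ZMod ℓ)), ?_, ?_⟩
  · intro h0
    have hdvd : Polynomial.C (ℓ : ℤ) ∣ p.primPart := by
      rw [C_dvd_iff_dvd_coeff]
      intro i
      have := congrArg (fun r => r.coeff i) h0
      simp only [coeff_map, coeff_zero, eq_intCast] at this
      exact (ZMod.intCast_zmod_eq_zero_iff_dvd _ _).mp this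
    have hu := (isPrimitive_iff_isUnit_of_C_dvd.mp (isPrimitive_primPart p)) _ hdvd
    have := Int.isUnit_iff.mp hu
    have h2 := hℓ.out.two_le
    omega
  · rw [aeval_def, Polynomial.eval₂_map]
    have hc : (algebraMap (ZMod ℓ) (IsLocalRing.ResidueField A)).comp (Int.castRingHom (ZMod ℓ)) =
        (IsLocalRing.residue A).comp (Int.castRingHom A) := RingHom.ext_int _ _
    rw [hc, ← Polynomial.hom_eval₂, hqA, _root_.map_zero]

instance algebra_isAlgebraic_residue_zmod :
    Algebra.IsAlgebraic (ZMod ℓ) (IsLocalRing.ResidueField A) :=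
  ⟨isAlgebraic_residue_zmod A ℓ⟩

end ResAlg

/-! ### (C2), (C3) the function field `F_k` is algebraic over `𝔽_ℓ(j̄)` -/

section FullAlg

variable {k : Type} [Field k] (ℓ : ℕ) [hℓ : Fact ℓ.Prime]

theorem evalAt_eq_eval₂RingHom {B : Type*} [CommRing B] (y : LaurentSeries B) :
    evalAt y = Polynomial.eval₂RingHom (Int.castRingHom (LaurentSeries B)) y := by
  refine Polynomial.ringHom_ext (fun n => ?_) ?_
  · simp [evalAt]
  · simp [evalAt]

/-- Base change of the integrality equation of `j(q^d)` to `k((q))`. -/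
theorem evalZZ_jd_eq_zero {N : ℕ} [NeZero N] (core : CoreData N k) (d : ℕ) [NeZero d]
    (hd : d ∣ N) :
    ∃ P : Polynomial (Polynomial ℤ), P.Monic ∧
      evalZZ (jqModC k) (qExpand k d (jqModC k)) P = 0 := by
  obtain ⟨P, hP, h0⟩ := core.integral d hd
  refine ⟨P, hP, ?_⟩
  rw [evalAt_eq_eval₂RingHom, ← evalZZ_apply] at h0
  have h := map_evalZZ (coeffMap (Int.castRingHom k)) (jqModC ℤ) (qExpand ℤ d (jqModC ℤ)) P
  rw [h0, _root_.map_zero, coeffMap_qExpand, coeffMap_jqModC] at h
  exact h.symm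

/-- `j(q^d)` is integral over `𝔽_ℓ(j̄)`. -/
theorem isIntegral_jd [Algebra (ZMod ℓ) (LaurentSeries k)] {N : ℕ} [NeZero N]
    (core : CoreData N k) (d : ℕ) [NeZero d] (hd : d ∣ N) :
    IsIntegral (IntermediateField.adjoin (ZMod ℓ) {jqModC k}) (qExpand k d (jqModC k)) := by
  obtain ⟨P, hP, h0⟩ := evalZZ_jd_eq_zero core d hd
  set J := IntermediateField.adjoin (ZMod ℓ) {jqModC k} with hJ
  set ψ : Polynomial ℤ →+* J := Polynomial.eval₂RingHom (Int.castRingHom J)
    ⟨jqModC k, IntermediateField.mem_adjoin_simple_self _ _⟩ with hψ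
  have hcomp : (algebraMap J (LaurentSeries k)).comp ψ =
      Polynomial.eval₂RingHom (Int.castRingHom (LaurentSeries k)) (jqModC k) := by
    refine Polynomial.ringHom_ext (fun n => ?_) ?_
    · simp [hψ]
    · simp [hψ]
  refine ⟨P.map ψ, hP.map _, ?_⟩
  rw [Polynomial.eval₂_map, hcomp, ← evalZZ_apply]
  exact h0

/-- Every element of `F_k = k(j(q^d) : d ∣ N)` is algebraic over `𝔽_ℓ(j̄)`. -/
theorem isAlgebraic_of_mem_fullC [Algebra (ZMod ℓ) k] [Algebra.IsAlgebraic (ZMod ℓ) k]
    {N : ℕ} [NeZero N] (core : CoreData N k)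
    {a : LaurentSeries k} (ha : a ∈ modularFunctionFieldFullC k N) :
    IsAlgebraic (IntermediateField.adjoin (ZMod ℓ) {jqModC k}) a := by
  set J := IntermediateField.adjoin (ZMod ℓ) {jqModC k} with hJ
  rw [← mem_algebraicClosure_iff]
  have hle : (modularFunctionFieldFullC k N).toSubfield ≤ (algebraicClosure J (LaurentSeries k)).toSubfield := by
    rw [modularFunctionFieldFullC, IntermediateField.adjoin_toSubfield, Subfield.closure_le]
    rintro y (⟨c, rfl⟩ | ⟨d, hd0, hd, rfl⟩)
    · show algebraMap k (LaurentSeries k) c ∈ algebraicClosure J (LaurentSeries k)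
      rw [mem_algebraicClosure_iff]
      obtain ⟨p, hp0, hpc⟩ := (Algebra.IsAlgebraic.isAlgebraic c : IsAlgebraic (ZMod ℓ) c)
      refine ⟨p.map (algebraMap (ZMod ℓ) J), (Polynomial.map_ne_zero_iff
        (algebraMap (ZMod ℓ) J).injective).mpr hp0, ?_⟩
      rw [aeval_def, Polynomial.eval₂_map]
      have hc : (algebraMap J (LaurentSeries k)).comp (algebraMap (ZMod ℓ) J) =
          (algebraMap k (LaurentSeries k)).comp (algebraMap (ZMod ℓ) k) := RingHom.ext_zmod _ _
      rw [hc, ← Polynomial.hom_eval₂, ← aeval_def, hpc, _root_.map_zero]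
    · show qExpand k d (jqModC k) ∈ algebraicClosure J (LaurentSeries k)
      rw [mem_algebraicClosure_iff']
      have := hd0
      exact isIntegral_jd ℓ core d hd
  exact hle ha

end FullAlg

/-! ### (C4) the reduction relation on the Gauss valuation ring -/

section RedRel

variable (M : ℕ) (A : ValuationSubring Qb) (E : IntermediateField ℚ Qb)

/-- Reduction of series modulo the maximal ideal of `A`. -/
abbrev redS : LaurentSeries A →+* LaurentSeries (IsLocalRing.ResidueField A) :=
  coeffMap (IsLocalRing.residue A)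

/-- Inclusion `A((q)) → Q̄((q))`. -/
abbrev inclS : LaurentSeries A →+* LaurentSeries Qb := coeffMap A.subtype

/-- The coercion `Ω = F_M → Q̄((q))` as a ring homomorphism. -/
def omValH : Om M →+* LaurentSeries Qb := (modularFunctionFieldBar M).val.toRingHom

@[simp] theorem omValH_apply (f : Om M) : omValH M f = (f : LaurentSeries Qb) := rfl

/-- Series over `Q̄` all of whose coefficients lie in `E`. -/
def coeffsInE : Subring (LaurentSeries Qb) where
  carrier := {U | ∀ n : ℤ, U.coeff n ∈ E}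
  zero_mem' := fun n => by simp
  one_mem' := fun n => by
    rw [HahnSeries.coeff_one]
    split_ifs
    · exact one_mem _
    · exact zero_mem _
  add_mem' := fun {a b} ha hb n => by
    rw [HahnSeries.coeff_add]
    exact add_mem (ha n) (hb n)
  neg_mem' := fun {a} ha n => by
    rw [HahnSeries.coeff_neg]
    exact neg_mem (ha n)
  mul_mem' := fun {a b} ha hb n => by
    rw [HahnSeries.coeff_mul]
    exact sum_mem fun ij _ => mul_mem (ha _) (hb _)

/-- The subring of `A((q))` cut out by `IsIntE`. -/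
def intESub : Subring (LaurentSeries A) :=
  (coeffsInE E).comap (inclS A) ⊓ ((Fc M E).toSubring.map (omValH M)).comap (inclS A)

theorem mem_intESub {U : LaurentSeries A} : U ∈ intESub M A E ↔ IsIntE M A E U := by
  constructor
  · rintro ⟨h1, f, hf, hfU⟩
    exact ⟨fun n => h1 n, f, hf, hfU⟩
  · rintro ⟨h1, f, hf, hfU⟩
    exact ⟨fun n => h1 n, f, hf, hfU⟩

/-- The reduction relation: `(g, ḡ) ∈ redRel` iff `g = U₁/U₂` and `ḡ = Ū₁/Ū₂` for `E`-rational
integral series `U₁, U₂` in `Fc` with `Ū₂ ≠ 0`. -/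
def redRel : Subring (Om M × LaurentSeries (IsLocalRing.ResidueField A)) where
  carrier := {z | z.1 ∈ Fc M E ∧ ∃ U₁ U₂ : LaurentSeries A, U₁ ∈ intESub M A E ∧
    U₂ ∈ intESub M A E ∧ redS A U₂ ≠ 0 ∧
    (z.1 : LaurentSeries Qb) * inclS A U₂ = inclS A U₁ ∧ z.2 * redS A U₂ = redS A U₁}
  zero_mem' := by
    refine ⟨zero_mem _, 0, 1, zero_mem _, one_mem _, ?_, ?_, ?_⟩
    · rw [_root_.map_one]; exact one_ne_zero
    · simp
    · simp
  one_mem' := by
    refine ⟨one_mem _, 1, 1, one_mem _, one_mem _, ?_, ?_, ?_⟩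
    · rw [_root_.map_one]; exact one_ne_zero
    · simp
    · simp
  add_mem' := by
    rintro ⟨f, a⟩ ⟨g, b⟩ ⟨hf, U₁, U₂, h₁, h₂, hne, heq, hred⟩ ⟨hg, W₁, W₂, k₁, k₂, kne, keq, kred⟩
    refine ⟨add_mem hf hg, U₁ * W₂ + W₁ * U₂, U₂ * W₂, add_mem (mul_mem h₁ k₂) (mul_mem k₁ h₂),
      mul_mem h₂ k₂, ?_, ?_, ?_⟩
    · rw [_root_.map_mul]; exact mul_ne_zero hne kne
    · simp only [Prod.fst_add] at heq keq ⊢
      push_cast
      rw [_root_.map_add, _root_.map_mul, _root_.map_mul, _root_.map_mul, ← heq, ← keq]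
      ring
    · simp only [Prod.snd_add] at hred kred ⊢
      rw [_root_.map_add, _root_.map_mul, _root_.map_mul, _root_.map_mul, ← hred, ← kred]
      ring
  neg_mem' := by
    rintro ⟨f, a⟩ ⟨hf, U₁, U₂, h₁, h₂, hne, heq, hred⟩
    refine ⟨neg_mem hf, -U₁, U₂, neg_mem h₁, h₂, hne, ?_, ?_⟩
    · simp only [Prod.fst_neg] at heq ⊢
      push_cast
      rw [_root_.map_neg, ← heq]
      ring
    · simp only [Prod.snd_neg] at hred ⊢
      rw [_root_.map_neg, ← hred]
      ring
  mul_mem' := by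
    rintro ⟨f, a⟩ ⟨g, b⟩ ⟨hf, U₁, U₂, h₁, h₂, hne, heq, hred⟩ ⟨hg, W₁, W₂, k₁, k₂, kne, keq, kred⟩
    refine ⟨mul_mem hf hg, U₁ * W₁, U₂ * W₂, mul_mem h₁ k₁, mul_mem h₂ k₂, ?_, ?_, ?_⟩
    · rw [_root_.map_mul]; exact mul_ne_zero hne kne
    · simp only [Prod.fst_mul] at heq keq ⊢
      push_cast
      rw [_root_.map_mul, _root_.map_mul, ← heq, ← keq]
      ring
    · simp only [Prod.snd_mul] at hred kred ⊢
      rw [_root_.map_mul, _root_.map_mul, ← hred, ← kred]
      ring

theorem mem_redRel {g : Om M} {a : LaurentSeries (IsLocalRing.ResidueField A)} :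
    (g, a) ∈ redRel M A E ↔ g ∈ Fc M E ∧ ∃ U₁ U₂ : LaurentSeries A, U₁ ∈ intESub M A E ∧
      U₂ ∈ intESub M A E ∧ redS A U₂ ≠ 0 ∧
      (g : LaurentSeries Qb) * inclS A U₂ = inclS A U₁ ∧ a * redS A U₂ = redS A U₁ := Iff.rfl

/-- (R2) every element of the Gauss valuation ring has a reduction. -/
theorem exists_red_of_mem_VcSet {f : Om M} (hf : f ∈ VcSet M A E) :
    ∃ a, (f, a) ∈ redRel M A E := by
  obtain ⟨hfF, U₁, U₂, h₁, h₂, hne, heq⟩ := hf
  refine ⟨redS A U₁ * (redS A U₂)⁻¹, hfF, U₁, U₂, (mem_intESub M A E).mpr h₁,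
    (mem_intESub M A E).mpr h₂, hne, heq, ?_⟩
  rw [mul_assoc, inv_mul_cancel₀ hne, mul_one]

theorem mem_VcSet_of_mem_redRel {g : Om M} {a : LaurentSeries (IsLocalRing.ResidueField A)}
    (h : (g, a) ∈ redRel M A E) : g ∈ VcSet M A E := by
  obtain ⟨hgF, U₁, U₂, h₁, h₂, hne, heq, -⟩ := h
  exact ⟨hgF, U₁, U₂, (mem_intESub M A E).mp h₁, (mem_intESub M A E).mp h₂, hne, heq⟩

/-- (R4) an element with nonzero reduction is a unit of the Gauss valuation ring. -/
theorem inv_mem_VcSet_of_red_ne_zero {g : Om M}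
    {a : LaurentSeries (IsLocalRing.ResidueField A)} (h : (g, a) ∈ redRel M A E) (ha : a ≠ 0) :
    g ≠ 0 ∧ g⁻¹ ∈ VcSet M A E := by
  obtain ⟨hgF, U₁, U₂, h₁, h₂, hne, heq, hred⟩ := h
  have hne₁ : redS A U₁ ≠ 0 := by
    rw [← hred]
    exact mul_ne_zero ha hne
  have hg0 : g ≠ 0 := by
    rintro rfl
    apply hne₁
    have h0 : inclS A U₁ = 0 := by
      rw [← heq]
      simp
    have hU : U₁ = 0 := H516.incl_injective A (by rw [h0, _root_.map_zero])
    rw [hU, _root_.map_zero]
  refine ⟨hg0, inv_mem hgF, U₂, U₁, (mem_intESub M A E).mp h₂, (mem_intESub M A E).mp h₁,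
    hne₁, ?_⟩
  have hg0' : (g : LaurentSeries Qb) ≠ 0 := fun h => hg0 (Subtype.ext h)
  push_cast
  rw [← heq, ← mul_assoc, inv_mul_cancel₀ hg0', one_mul]

/-- (C5) reductions lie in the function field `F_k`. -/
theorem red_mem_fullC [NeZero M] (core : CoreData M (IsLocalRing.ResidueField A)) {g : Om M}
    {a : LaurentSeries (IsLocalRing.ResidueField A)} (h : (g, a) ∈ redRel M A E) :
    a ∈ modularFunctionFieldFullC (IsLocalRing.ResidueField A) M := by
  obtain ⟨-, U₁, U₂, h₁, h₂, hne, -, hred⟩ := h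
  have key : ∀ U : LaurentSeries A, U ∈ intESub M A E →
      redS A U ∈ modularFunctionFieldFullC (IsLocalRing.ResidueField A) M := by
    intro U hU
    obtain ⟨-, f, -, hfU⟩ := (mem_intESub M A E).mp hU
    refine H516.red_mem_of_incl_mem A (IsLocalRing.residue A) M core ?_
    rw [← hfU]
    exact f.2
  have ha : a = redS A U₁ * (redS A U₂)⁻¹ := by
    rw [← hred, mul_assoc, mul_inv_cancel₀ hne, mul_one]
  rw [ha]
  exact mul_mem (key U₁ h₁) (inv_mem (key U₂ h₂))

/-- (R5) the reduction of `j` is `j̄`. -/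
theorem jOm_mem_redRel : (jOm M, jqModC (IsLocalRing.ResidueField A)) ∈ redRel M A E := by
  have hjF : jOm M ∈ Fc M E :=
    Subfield.subset_closure (Set.mem_union_right _ ⟨1, inferInstance, one_dvd M, rfl⟩)
  have hjval : (jOm M : LaurentSeries Qb) = inclS A (jqModC A) := by
    show coeffEmb Qb (qExpand ℚ 1 jq) = coeffMap A.subtype (jqModC A)
    rw [qExpand_one_apply, H516.coeffEmb_jq, coeffMap_jqModC]
  have hjint : jqModC A ∈ intESub M A E := by
    refine ⟨fun n => ?_, jOm M, hjF, hjval⟩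
    show ((coeffMap A.subtype (jqModC A)).coeff n) ∈ E
    rw [coeffMap_jqModC, coeff_jqModC_eq_intCast]
    exact intCast_mem E _
  refine ⟨hjF, jqModC A, 1, hjint, one_mem _, ?_, ?_, ?_⟩
  · rw [_root_.map_one]; exact one_ne_zero
  · rw [_root_.map_one, mul_one, hjval]
  · rw [_root_.map_one, mul_one]
    exact (coeffMap_jqModC (IsLocalRing.residue A)).symm

/-- (R3) an element with zero reduction is divisible by the uniformiser `w`. -/
theorem mul_inv_mem_VcSet_of_red_eq_zero {w : Om M} (hw : w ∈ Rc M A E) (hw0 : w ≠ 0)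
    (hgen : ∀ r ∈ Rc M A E, r⁻¹ ∉ Rc M A E → r * w⁻¹ ∈ Rc M A E) {g : Om M}
    (h : (g, (0 : LaurentSeries (IsLocalRing.ResidueField A))) ∈ redRel M A E) :
    g * w⁻¹ ∈ VcSet M A E := by
  obtain ⟨hgF, U₁, U₂, h₁, h₂, hne, heq, hred⟩ := h
  simp only [zero_mul] at hred
  obtain ⟨aw, ⟨hawA, hawE⟩, rfl⟩ := hw
  have haw0 : aw ≠ 0 := by
    rintro rfl
    exact hw0 (_root_.map_zero _)
  obtain ⟨hU₁E, f₁, hf₁F, hf₁U⟩ := (mem_intESub M A E).mp h₁
  have hinj : Function.Injective (algebraMap Qb (Om M)) := (algebraMap Qb (Om M)).injective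
  -- every coefficient of `U₁` is divisible by `aw` in `A`
  have hdiv : ∀ n : ℤ, ((U₁.coeff n : A) : Qb) * aw⁻¹ ∈ A := by
    intro n
    by_cases hc0 : ((U₁.coeff n : A) : Qb) = 0
    · rw [hc0, zero_mul]
      exact zero_mem _
    have hcres : IsLocalRing.residue A (U₁.coeff n) = 0 := by
      have := congrArg (fun S : LaurentSeries (IsLocalRing.ResidueField A) => S.coeff n) hred
      simpa using this.symm
    have hr : algebraMap Qb (Om M) ((U₁.coeff n : A) : Qb) ∈ Rc M A E :=
      ⟨_, ⟨(U₁.coeff n).2, hU₁E n⟩, rfl⟩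
    have hrinv : (algebraMap Qb (Om M) ((U₁.coeff n : A) : Qb))⁻¹ ∉ Rc M A E := by
      rintro ⟨b, ⟨hbA, -⟩, hb⟩
      have hb' : b = ((U₁.coeff n : A) : Qb)⁻¹ := hinj (by rw [hb, map_inv₀])
      have hunit : IsUnit (U₁.coeff n) := by
        refine isUnit_iff_exists_inv.mpr ⟨⟨b, hbA⟩, Subtype.ext ?_⟩
        show ((U₁.coeff n : A) : Qb) * b = 1
        rw [hb', mul_inv_cancel₀ hc0]
      have hmem : U₁.coeff n ∈ IsLocalRing.maximalIdeal A :=
        (IsLocalRing.residue_eq_zero_iff _).mp hcres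
      exact (IsLocalRing.mem_maximalIdeal _).mp hmem hunit
    obtain ⟨b, ⟨hbA, -⟩, hb⟩ := hgen _ hr hrinv
    have hb' : b = ((U₁.coeff n : A) : Qb) * aw⁻¹ := hinj (by rw [hb, _root_.map_mul, map_inv₀])
    rw [← hb']
    exact hbA
  -- the divided series
  let U₁' : LaurentSeries A :=
    ⟨fun n => ⟨((U₁.coeff n : A) : Qb) * aw⁻¹, hdiv n⟩,
      U₁.isPWO_support.mono (fun n hn => by
        intro h0
        apply hn
        apply Subtype.ext
        show ((U₁.coeff n : A) : Qb) * aw⁻¹ = 0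
        rw [h0]
        simp)⟩
  have hwval : algebraMap Qb (LaurentSeries Qb) aw = HahnSeries.single 0 aw :=
    algebraMap_laurentSeries_eq_single Qb aw
  have hwcoe : ((algebraMap Qb (Om M) aw : Om M) : LaurentSeries Qb) =
      algebraMap Qb (LaurentSeries Qb) aw := rfl
  have hwne : algebraMap Qb (LaurentSeries Qb) aw ≠ 0 := by
    rw [← hwcoe]
    exact fun h => hw0 (Subtype.ext h)
  have hU' : inclS A U₁' * algebraMap Qb (LaurentSeries Qb) aw = inclS A U₁ := by
    rw [hwval]
    ext n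
    rw [HahnSeries.coeff_mul_single_zero]
    show ((U₁.coeff n : A) : Qb) * aw⁻¹ * aw = ((U₁.coeff n : A) : Qb)
    rw [mul_assoc, inv_mul_cancel₀ haw0, mul_one]
  have hU'' : inclS A U₁' = inclS A U₁ * (algebraMap Qb (LaurentSeries Qb) aw)⁻¹ := by
    rw [← hU', mul_assoc, mul_inv_cancel₀ hwne, mul_one]
  have hwF : algebraMap Qb (Om M) aw ∈ Fc M E :=
    Subfield.subset_closure (Set.mem_union_left _ ⟨aw, hawE, rfl⟩)
  have hU₁' : IsIntE M A E U₁' := by
    refine ⟨fun n => ?_, f₁ * (algebraMap Qb (Om M) aw)⁻¹, mul_mem hf₁F (inv_mem hwF), ?_⟩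
    · show ((U₁.coeff n : A) : Qb) * aw⁻¹ ∈ E
      exact mul_mem (hU₁E n) (inv_mem hawE)
    · show (f₁ : LaurentSeries Qb) *
        (((algebraMap Qb (Om M) aw : Om M) : LaurentSeries Qb))⁻¹ = inclS A U₁'
      rw [hwcoe, hf₁U, hU'']
  refine ⟨mul_mem hgF (inv_mem hwF), U₁', U₂, hU₁', (mem_intESub M A E).mp h₂, hne, ?_⟩
  show (g : LaurentSeries Qb) * (((algebraMap Qb (Om M) aw : Om M) : LaurentSeries Qb))⁻¹ *
    inclS A U₂ = inclS A U₁'
  rw [hwcoe, hU'', ← heq]
  ring

end RedRel

/-! ### (C6) the field `separable` at the concrete objects -/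

section Main

variable (M : ℕ) [NeZero M] {ℓ : ℕ} [hℓ : Fact ℓ.Prime]

/-- **G-SEP at the concrete objects, coordinate `j`.**  For every subring `V` with underlying
set `VcSet M A E` and every `w ∈ Rc M A E`, `w ≠ 0`, generating the maximal ideal of `Rc M A E`
(fields `w_mem`, `w_ne_zero`, `w_gen` of `PartR`): the field `separable` of `Alg.GoodModel`.
No hypothesis on `E`.  The polynomial even has coefficients in `ℤ[j]`. -/
theorem separable_jOm (hℓM : ¬ ℓ ∣ M) (A : ValuationSubring Qb) (hA : A.LiesOverPrime ℓ)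
    (E : IntermediateField ℚ Qb) (V : Subring (Om M)) (hV : (V : Set (Om M)) = VcSet M A E)
    (w : Om M) (hw : w ∈ Rc M A E) (hw0 : w ≠ 0)
    (hgen : ∀ r ∈ Rc M A E, r⁻¹ ∉ Rc M A E → r * w⁻¹ ∈ Rc M A E) :
    ∀ f ∈ V, ∃ P : Polynomial (Om M), (∀ i, P.coeff i ∈ Alg.polyRing (Rc M A E) (jOm M)) ∧
      P.eval f * w⁻¹ ∈ V ∧ (Polynomial.derivative P).eval f ≠ 0 ∧
      ((Polynomial.derivative P).eval f)⁻¹ ∈ V := by
  intro f hf
  have hmemV : ∀ g : Om M, g ∈ V ↔ g ∈ VcSet M A E := fun g => by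
    rw [← hV]
    rfl
  have hchar : CharP (IsLocalRing.ResidueField A) ℓ := H516.charP_residue A hA
  let _ : Algebra (ZMod ℓ) (IsLocalRing.ResidueField A) := ZMod.algebra _ ℓ
  have core := H516.coreData_residue M hℓM A hA
  obtain ⟨a, ha⟩ := exists_red_of_mem_VcSet M A E ((hmemV f).mp hf)
  have halg := isAlgebraic_of_mem_fullC ℓ core (red_mem_fullC M A E core ha)
  have hv : HahnSeries.addVal ℤ (IsLocalRing.ResidueField A)
      (jqModC (IsLocalRing.ResidueField A)) = ((-1 : ℤ) : WithTop ℤ) := by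
    rw [HahnSeries.addVal_apply_of_ne (jqModC_ne_zero_of_nontrivial _), order_jqModC]
  exact exists_poly_of_graph_sep ℓ (HahnSeries.addVal ℤ _) (redRel M A E) V (Rc M A E) w
    (jOm M) f (jqModC _) a (jOm_mem_redRel M A E) ha
    (fun g hg => (hmemV _).mpr (mul_inv_mem_VcSet_of_red_eq_zero M A E hw hw0 hgen hg))
    (fun g b hg hb => ⟨(inv_mem_VcSet_of_red_ne_zero M A E hg hb).1,
      (hmemV _).mpr (inv_mem_VcSet_of_red_ne_zero M A E hg hb).2⟩)
    (-1) hv (not_prime_dvd_neg_one ℓ hℓ.out) halg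

end Main

end Fermat.Agent.S18.H264

end
end
-- ===== PACK-END S18/H264/SepConcrete.lean

-- ===== PACK-BEGIN S56/H66/VGArch.lean
section


/-!
# S56 / FLAT-O, leaf FO-VG (helper66): valuation inputs, part 2

* `arch` (ARCH): for `c ≠ 0` in `ℚ̄` there is `N` with `v(p)^N ≤ v(c)`;
* `vg1_le`: a non-unit of `A` fixed by `I₁` has valuation `≤ v(ζ - 1)`;
* `vg1_mem`: such an element is `(ζ - 1) · b` with `b ∈ A`;
* `vg0_mem`: a non-unit of `A` fixed by `I` is `p · b` with `b ∈ A`.
-/

set_option autoImplicit false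
set_option linter.style.haveILetI false

open scoped Pointwise

namespace Fermat.Agent.S56.H66

open Polynomial Fermat.Agent.S14.H894

local notation "Qb" => AlgebraicClosure ℚ
local notation "GQ" => (AlgebraicClosure ℚ ≃ₐ[ℚ] AlgebraicClosure ℚ)

section

variable (A : ValuationSubring Qb) (p : ℕ) (hp : p.Prime) (hA : A.LiesOverPrime p)
  (ζ : Qb) (hζ : IsPrimitiveRoot ζ p)

include hp hA in
/-- **(ARCH)** The valuation of a nonzero algebraic number is bounded below by a power of
`v(p)`. -/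
theorem arch (c : Qb) (hc : c ≠ 0) : ∃ N : ℕ, A.valuation (p : Qb) ^ N ≤ A.valuation c := by
  have halg : IsAlgebraic ℤ c⁻¹ :=
    (IsFractionRing.isAlgebraic_iff ℤ ℚ Qb).mpr
      ((AlgebraicClosure.isAlgebraic ℚ).isAlgebraic c⁻¹)
  obtain ⟨d, hd0, hd⟩ := halg.exists_integral_multiple
  have hmem : d • c⁻¹ ∈ A := Fermat.Agent.S54.isIntegral_mem_valuationSubring A hd
  have hle : A.valuation (d • c⁻¹) ≤ 1 := (A.valuation_le_one_iff _).mpr hmem
  have hdn : d.natAbs ≠ 0 := Int.natAbs_ne_zero.mpr hd0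
  obtain ⟨N, hN⟩ := exists_pow_valuation_nat A p hp hA d.natAbs hdn
  have hvd : A.valuation ((d : ℤ) : Qb) = A.valuation (p : Qb) ^ N := by
    rw [← hN]
    rcases Int.natAbs_eq d with h | h
    · conv_lhs => rw [h]
      simp
    · conv_lhs => rw [h]
      simp
  refine ⟨N, ?_⟩
  have hcv : A.valuation c ≠ 0 := (Valuation.ne_zero_iff _).mpr hc
  rw [zsmul_eq_mul, _root_.map_mul, map_inv₀, hvd] at hle
  have := (mul_inv_le_iff₀ (zero_lt_iff.mpr hcv)).mp hle
  simpa using this

include hp hA hζ in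
/-- (VG1), integral form: a non-unit of `A` fixed by `I₁` has valuation `≤ v(ζ - 1)`. -/
theorem vg1_le (a : Qb) (ha : a ∈ A.nonunits)
    (hfix : ∀ σ ∈ A.inertiaSubgroupIn ℚ, σ ζ = ζ → σ a = a) :
    A.valuation a ≤ A.valuation (ζ - 1) := by
  rcases eq_or_ne a 0 with rfl | ha0
  · simp
  obtain ⟨n, hn⟩ := vg1 A p hp hA ζ hζ a ha0 hfix
  have hπ0 := valuation_zeta_sub_one_ne_zero A p hp ζ hζ
  have hπ1 := valuation_zeta_sub_one_lt_one A p hp hA ζ hζ
  have hav : A.valuation a < 1 := (A.mem_nonunits_iff).mp ha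
  rw [hn] at hav ⊢
  have hn1 : 1 ≤ n := by
    by_contra hcon
    push Not at hcon
    have hn0 : n ≤ 0 := by omega
    have : 1 ≤ A.valuation (ζ - 1) ^ n := by
      obtain ⟨k, rfl⟩ : ∃ k : ℕ, n = -(k : ℤ) := ⟨(-n).toNat, by omega⟩
      rw [zpow_neg, zpow_natCast]
      exact (one_le_inv₀ (pow_pos (zero_lt_iff.mpr hπ0) k)).mpr (pow_le_one₀ zero_le hπ1.le)
    exact absurd hav (not_lt.mpr this)
  obtain ⟨k, rfl⟩ : ∃ k : ℕ, n = (k : ℤ) + 1 := ⟨(n - 1).toNat, by omega⟩
  rw [zpow_add_one₀ hπ0, zpow_natCast]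
  calc A.valuation (ζ - 1) ^ k * A.valuation (ζ - 1)
      ≤ 1 * A.valuation (ζ - 1) := by
        gcongr
        exact pow_le_one₀ zero_le hπ1.le
    _ = A.valuation (ζ - 1) := one_mul _

/-- `v(a) ≤ v(b)`, `b ≠ 0` ⇒ `a = b * c` with `c ∈ A`. -/
theorem exists_mul_of_valuation_le {a b : Qb} (hb : b ≠ 0)
    (h : A.valuation a ≤ A.valuation b) : ∃ c ∈ A, a = b * c := by
  refine ⟨a / b, ?_, by field_simp⟩
  rw [← A.valuation_le_one_iff, map_div₀]
  exact div_le_one_of_le₀ h zero_le

include hp hA hζ in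
/-- (VG1), divisibility form. -/
theorem vg1_mem (a : Qb) (ha : a ∈ A.nonunits)
    (hfix : ∀ σ ∈ A.inertiaSubgroupIn ℚ, σ ζ = ζ → σ a = a) :
    ∃ c ∈ A, a = (ζ - 1) * c :=
  exists_mul_of_valuation_le A (sub_ne_zero.mpr (hζ.ne_one hp.one_lt))
    (vg1_le A p hp hA ζ hζ a ha hfix)

include hp hA in
/-- (VG0), divisibility form. -/
theorem vg0_mem (a : Qb) (ha : a ∈ A.nonunits)
    (hfix : ∀ σ ∈ A.inertiaSubgroupIn ℚ, σ a = a) :
    ∃ c ∈ A, a = (p : Qb) * c :=
  exists_mul_of_valuation_le A (by exact_mod_cast hp.ne_zero) (vg0_le p hp A hA a ha hfix)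

end

end Fermat.Agent.S56.H66

end
-- ===== PACK-END S56/H66/VGArch.lean

-- ===== PACK-BEGIN S56/H66/Unr.lean
section



/-!
# S56 / FLAT-O, leaf UNR (helper66)

`unrVal : Fermat.Agent.S56.H906.UnrValStatement` — the inertia field is unramified
(verbatim statement of `H906/FlatOSpec.lean`), from `vg0`.
-/

set_option autoImplicit false

namespace Fermat.Agent.S56.H66

/-- **(UNR)** of `H906/FlatOSpec.lean`. -/
theorem unrVal : Fermat.Agent.S56.H906.UnrValStatement :=
  fun p hp P hP y hy hfix => vg0 p hp P hP y hy hfix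

end Fermat.Agent.S56.H66

end
-- ===== PACK-END S56/H66/Unr.lean

-- ===== PACK-BEGIN Lib/RR/H259/Mult.lean
section


/-!
# RR library, add-on (helper259): multiplication maps of Riemann–Roch spaces

For a function field `F/K` satisfying `FF1` with `K` infinite and genus `g = genusFF K F`:

* `mul_le_L`            : `L(A) * L(B) ≤ L(A + B)`;
* `IsBpfPencil D s₁ s₂` : `s₁, s₂ ∈ L(D)`, `s₁ ≠ 0`, at every place one of them has order exactly
  `-D v` (a base-point-free pencil);
* `exists_bpfPencil`    : `2g ≤ deg D` ⇒ a base-point-free pencil exists in `L(D)`;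
* `pencil_trick`        : (base-point-free pencil trick) if `deg D + 2g - 1 ≤ deg E` then every
  `h ∈ L(E + D)` is `s₁ * a + s₂ * b` with `a, b ∈ L(E)`;
* `L_mul_L_of_le`       : `2g ≤ deg D`, `deg D + 2g - 1 ≤ deg E` ⇒ `L(E) * L(D) = L(E + D)`;
* `L_mul_L`             : `4g ≤ deg A`, `4g ≤ deg B` ⇒ `L(A) * L(B) = L(A + B)`.

(Castelnuovo–Mumford type surjectivity of `L(A) ⊗ L(B) → L(A + B)`; the bound `4g` is not sharp,
but it is all that Khuri-Makdisi style linear algebra on divisors needs.)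
-/

set_option autoImplicit false

noncomputable section

open AlgebraicCurve

namespace Fermat.Agent.Lib.RR.H259

open Fermat.Agent.Lib.RR

variable {K F : Type*} [Field K] [Field F] [Algebra K F]

/-- `L(A) * L(B) ≤ L(A + B)`. -/
theorem mul_le_L (A B : Divisor K F) :
    riemannRochSpace A * riemannRochSpace B ≤ riemannRochSpace (A + B) := by
  rw [Submodule.mul_le]
  intro f hf g hg
  rw [mem_L_iff] at hf hg ⊢
  intro v
  rcases eq_or_ne f 0 with rfl | hf0
  · left; simp
  rcases eq_or_ne g 0 with rfl | hg0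
  · left; simp
  right
  rw [v.ord_mul hf0 hg0]
  have h1 := (hf v).resolve_left hf0
  have h2 := (hg v).resolve_left hg0
  simp only [Finsupp.coe_add, Pi.add_apply]
  omega

/-- A base-point-free pencil in `L(D)`. -/
structure IsBpfPencil (D : Divisor K F) (s₁ s₂ : F) : Prop where
  mem₁ : s₁ ∈ riemannRochSpace D
  mem₂ : s₂ ∈ riemannRochSpace D
  ne_zero : s₁ ≠ 0
  bpf : ∀ v : Place K F, v.ord s₁ = -D v ∨ (s₂ ≠ 0 ∧ v.ord s₂ = -D v)

theorem IsBpfPencil.degree_nonneg [HasPrincipalDivisors K F] {D : Divisor K F} {s₁ s₂ : F}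
    (h : IsBpfPencil D s₁ s₂) : 0 ≤ Divisor.degree D :=
  degree_nonneg_of_mem_L h.mem₁ h.ne_zero


/-- the map `(a, b) ↦ s₁ a + s₂ b` on `L(E) × L(E)` -/
def pencilMap (E : Divisor K F) (s₁ s₂ : F) :
    (riemannRochSpace E × riemannRochSpace E) →ₗ[K] F :=
  ((LinearMap.mulLeft K s₁).comp (riemannRochSpace E).subtype).coprod
    ((LinearMap.mulLeft K s₂).comp (riemannRochSpace E).subtype)

@[simp] theorem pencilMap_apply (E : Divisor K F) (s₁ s₂ : F)
    (p : riemannRochSpace E × riemannRochSpace E) :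
    pencilMap E s₁ s₂ p = s₁ * (p.1 : F) + s₂ * (p.2 : F) := by
  simp [pencilMap]

theorem range_pencilMap_le {D E : Divisor K F} {s₁ s₂ : F} (h : IsBpfPencil D s₁ s₂) :
    LinearMap.range (pencilMap E s₁ s₂) ≤ riemannRochSpace (E + D) := by
  rintro _ ⟨p, rfl⟩
  rw [pencilMap_apply]
  have h1 : s₁ * (p.1 : F) ∈ riemannRochSpace (E + D) := by
    rw [add_comm E D]
    exact mul_le_L D E (Submodule.mul_mem_mul h.mem₁ p.1.2)
  have h2 : s₂ * (p.2 : F) ∈ riemannRochSpace (E + D) := by
    rw [add_comm E D]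
    exact mul_le_L D E (Submodule.mul_mem_mul h.mem₂ p.2.2)
  exact Submodule.add_mem _ h1 h2

/-- the kernel of the pencil map embeds into `L(E - D)` by `(a, b) ↦ -b / s₁` -/
theorem finrank_ker_pencilMap_le [FF1 K F] {D E : Divisor K F} {s₁ s₂ : F}
    (h : IsBpfPencil D s₁ s₂) :
    Module.finrank K (LinearMap.ker (pencilMap E s₁ s₂)) ≤ ell (E - D) := by
  classical
  have hs₁ := h.ne_zero
  -- the map
  let ψ₀ : LinearMap.ker (pencilMap E s₁ s₂) →ₗ[K] F :=
    (LinearMap.mulLeft K (-s₁⁻¹)).comp ((riemannRochSpace E).subtype.comp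
      ((LinearMap.snd K _ _).comp (LinearMap.ker (pencilMap E s₁ s₂)).subtype))
  have hψ₀ : ∀ p : LinearMap.ker (pencilMap E s₁ s₂), ψ₀ p = -s₁⁻¹ * (p.1.2 : F) := by
    intro p; rfl
  have hmem : ∀ p : LinearMap.ker (pencilMap E s₁ s₂), ψ₀ p ∈ riemannRochSpace (E - D) := by
    intro p
    rw [hψ₀, mem_L_iff]
    intro v
    set a : F := (p.1.1 : F) with ha
    set b : F := (p.1.2 : F) with hb
    have hker : s₁ * a + s₂ * b = 0 := by
      have := p.2
      rw [LinearMap.mem_ker, pencilMap_apply] at this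
      exact this
    have haL : a ∈ riemannRochSpace E := p.1.1.2
    have hbL : b ∈ riemannRochSpace E := p.1.2.2
    rw [mem_L_iff] at haL hbL
    rcases eq_or_ne b 0 with hb0 | hb0
    · left; rw [hb0]; simp
    right
    have hc0 : -s₁⁻¹ * b ≠ 0 := mul_ne_zero (neg_ne_zero.mpr (inv_ne_zero hs₁)) hb0
    simp only [Finsupp.coe_sub, Pi.sub_apply]
    rcases h.bpf v with h1 | ⟨hs₂, h2⟩
    · have : v.ord (-s₁⁻¹ * b) = -v.ord s₁ + v.ord b := by
        rw [v.ord_mul (neg_ne_zero.mpr (inv_ne_zero hs₁)) hb0, ord_neg, v.ord_inv]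
      rw [this, h1]
      have := (hbL v).resolve_left hb0
      omega
    · -- `-b / s₁ = a / s₂`
      have ha0 : a ≠ 0 := by
        intro ha0
        rw [ha0, mul_zero, zero_add] at hker
        exact hb0 ((mul_eq_zero.mp hker).resolve_left hs₂)
      have hc : -s₁⁻¹ * b = s₂⁻¹ * a := by
        have e1 : s₁ * a = -(s₂ * b) := by linear_combination hker
        calc -s₁⁻¹ * b = s₂⁻¹ * s₁⁻¹ * (-(s₂ * b)) := by field_simp
          _ = s₂⁻¹ * s₁⁻¹ * (s₁ * a) := by rw [e1]
          _ = s₂⁻¹ * a := by field_simp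
      have : v.ord (s₂⁻¹ * a) = -v.ord s₂ + v.ord a := by
        rw [v.ord_mul (inv_ne_zero hs₂) ha0, v.ord_inv]
      rw [hc, this, h2]
      have := (haL v).resolve_left ha0
      omega
  let ψ : LinearMap.ker (pencilMap E s₁ s₂) →ₗ[K] riemannRochSpace (E - D) :=
    LinearMap.codRestrict _ ψ₀ hmem
  have hker : ∀ p : LinearMap.ker (pencilMap E s₁ s₂),
      s₁ * (p.1.1 : F) + s₂ * (p.1.2 : F) = 0 := by
    intro p
    have := p.2
    rw [LinearMap.mem_ker, pencilMap_apply] at this
    exact this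
  have hinj0 : Function.Injective ψ₀ := by
    intro p q hpq
    rw [hψ₀, hψ₀] at hpq
    have hb : (p.1.2 : F) = (q.1.2 : F) :=
      mul_left_cancel₀ (neg_ne_zero.mpr (inv_ne_zero hs₁)) hpq
    have hkp := hker p
    have hkq := hker q
    have ha : (p.1.1 : F) = (q.1.1 : F) := by
      have : s₁ * (p.1.1 : F) = s₁ * (q.1.1 : F) := by
        rw [hb] at hkp
        linear_combination hkp - hkq
      exact mul_left_cancel₀ hs₁ this
    exact Subtype.ext (Prod.ext (Subtype.ext ha) (Subtype.ext hb))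
  have hinj : Function.Injective ψ := by
    intro p q hpq
    apply hinj0
    have := congrArg (fun x : riemannRochSpace (E - D) => (x : F)) hpq
    simpa [ψ] using this
  exact LinearMap.finrank_le_finrank_of_injective hinj


/-- **Base-point-free pencil trick.** -/
theorem range_pencilMap_eq [FF1 K F] {D E : Divisor K F} {s₁ s₂ : F} (h : IsBpfPencil D s₁ s₂)
    (hdeg : Divisor.degree D + 2 * (genusFF K F : ℤ) - 1 ≤ Divisor.degree E) :
    LinearMap.range (pencilMap E s₁ s₂) = riemannRochSpace (E + D) := by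
  have hD0 := h.degree_nonneg
  have hE : (ell E : ℤ) = Divisor.degree E + 1 - (genusFF K F : ℤ) :=
    ell_eq_of_degree_gt (by omega)
  have hED : (ell (E - D) : ℤ) = Divisor.degree E - Divisor.degree D + 1 - (genusFF K F : ℤ) := by
    have := ell_eq_of_degree_gt (D := E - D) (by rw [map_sub]; omega)
    rwa [map_sub] at this
  have hEpD : (ell (E + D) : ℤ)
      = Divisor.degree E + Divisor.degree D + 1 - (genusFF K F : ℤ) := by
    have := ell_eq_of_degree_gt (D := E + D) (by rw [map_add]; omega)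
    rwa [map_add] at this
  have hrn := LinearMap.finrank_range_add_finrank_ker (pencilMap E s₁ s₂)
  have hprod : Module.finrank K (riemannRochSpace E × riemannRochSpace E) = ell E + ell E :=
    Module.finrank_prod
  have hk := finrank_ker_pencilMap_le (E := E) h
  apply Submodule.eq_of_le_of_finrank_le (range_pencilMap_le h)
  have : Module.finrank K (riemannRochSpace (E + D)) = ell (E + D) := rfl
  omega

/-- every `h ∈ L(E + D)` is `s₁ a + s₂ b` with `a, b ∈ L(E)` -/
theorem pencil_trick [FF1 K F] {D E : Divisor K F} {s₁ s₂ : F} (h : IsBpfPencil D s₁ s₂)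
    (hdeg : Divisor.degree D + 2 * (genusFF K F : ℤ) - 1 ≤ Divisor.degree E) {f : F}
    (hf : f ∈ riemannRochSpace (E + D)) :
    ∃ a ∈ riemannRochSpace E, ∃ b ∈ riemannRochSpace E, f = s₁ * a + s₂ * b := by
  rw [← range_pencilMap_eq h hdeg] at hf
  obtain ⟨p, rfl⟩ := hf
  exact ⟨p.1, p.1.2, p.2, p.2.2, pencilMap_apply E s₁ s₂ p⟩

/-- `L(D)` contains a base-point-free pencil as soon as `deg D ≥ 2g` (`K` infinite). -/
theorem exists_bpfPencil [FF1 K F] [Infinite K] {D : Divisor K F}
    (hD : 2 * (genusFF K F : ℤ) ≤ Divisor.degree D) : ∃ s₁ s₂ : F, IsBpfPencil D s₁ s₂ := by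
  classical
  have hell : (ell D : ℤ) = Divisor.degree D + 1 - (genusFF K F : ℤ) :=
    ell_eq_of_degree_gt (by omega)
  have hpos : 0 < Module.finrank K (riemannRochSpace D) := by
    have : Module.finrank K (riemannRochSpace D) = ell D := rfl
    omega
  obtain ⟨s₁', hs₁'⟩ : ∃ x : riemannRochSpace D, x ≠ 0 :=
    Module.finrank_pos_iff_exists_ne_zero.mp hpos
  have hs₁ : (s₁' : F) ≠ 0 := fun h => hs₁' (Subtype.ext h)
  let S : Finset (Place K F) := (divOf (K := K) (s₁' : F) hs₁ + D).support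
  have hS : ∀ v ∉ S, v.ord (s₁' : F) = - D v := by
    intro v hv
    rw [Finsupp.notMem_support_iff] at hv
    simp only [Finsupp.coe_add, Pi.add_apply, divOf_apply] at hv
    omega
  let p : Place K F → Subspace K (riemannRochSpace D) := fun v =>
    (riemannRochSpace (D - prim v)).comap (riemannRochSpace D).subtype
  have hp : ∀ v, p v ≠ ⊤ := by
    intro v htop
    have hle : riemannRochSpace D ≤ riemannRochSpace (D - prim v) := by
      intro f hf
      have : (⟨f, hf⟩ : riemannRochSpace D) ∈ p v := by rw [htop]; trivial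
      exact this
    have h1 : ell D ≤ ell (D - prim v) := Submodule.finrank_mono hle
    have h2 : (ell (D - prim v) : ℤ) = Divisor.degree D - 1 + 1 - (genusFF K F : ℤ) := by
      have := ell_eq_of_degree_gt (D := D - prim v)
        (by rw [map_sub, degree_prim v (deg_eq_one v)]; omega)
      rw [map_sub, degree_prim v (deg_eq_one v)] at this
      exact this
    omega
  have hnot : (⊤ : Subspace K (riemannRochSpace D)) ∉ S.image p := by
    intro hmem
    obtain ⟨v, -, hv⟩ := Finset.mem_image.mp hmem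
    exact hp v hv
  have hne := Subspace.biUnion_ne_univ_of_top_notMem hnot
  obtain ⟨s₂', hs₂'⟩ : ∃ x : riemannRochSpace D,
      x ∉ ⋃ q ∈ S.image p, (q : Set (riemannRochSpace D)) := by
    by_contra hcon
    simp only [not_exists, not_not] at hcon
    exact hne (Set.eq_univ_of_forall hcon)
  refine ⟨s₁', s₂', ⟨s₁'.2, s₂'.2, hs₁, fun v => ?_⟩⟩
  by_cases hv : v ∈ S
  · right
    have hnm : s₂' ∉ p v := fun hm =>
      hs₂' (Set.mem_biUnion (Finset.mem_image_of_mem p hv) hm)
    have hmem := s₂'.2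
    rw [mem_L_iff] at hmem
    have hnm' : ¬ ((s₂' : F) ∈ riemannRochSpace (D - prim v)) := hnm
    rw [mem_L_iff] at hnm'
    simp only [not_forall, not_or, not_le] at hnm'
    obtain ⟨w, hw0, hw⟩ := hnm'
    have hwv : w = v := by
      by_contra hne'
      have h3 := (hmem w).resolve_left hw0
      simp only [Finsupp.coe_sub, Pi.sub_apply, prim_apply_of_ne hne'] at hw
      omega
    subst hwv
    refine ⟨hw0, ?_⟩
    have h3 := (hmem w).resolve_left hw0
    simp only [Finsupp.coe_sub, Pi.sub_apply, prim_apply_self] at hw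
    omega
  · left
    exact hS v hv

/-- `L(E) * L(D) = L(E + D)` if `deg D ≥ 2g` and `deg E ≥ deg D + 2g - 1`. -/
theorem L_mul_L_of_le [FF1 K F] [Infinite K] {D E : Divisor K F}
    (hD : 2 * (genusFF K F : ℤ) ≤ Divisor.degree D)
    (hE : Divisor.degree D + 2 * (genusFF K F : ℤ) - 1 ≤ Divisor.degree E) :
    riemannRochSpace E * riemannRochSpace D = riemannRochSpace (E + D) := by
  apply le_antisymm (mul_le_L E D)
  obtain ⟨s₁, s₂, h⟩ := exists_bpfPencil hD
  intro f hf
  obtain ⟨a, ha, b, hb, rfl⟩ := pencil_trick h hE hf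
  refine Submodule.add_mem _ ?_ ?_
  · exact (mul_comm a s₁) ▸ Submodule.mul_mem_mul ha h.mem₁
  · exact (mul_comm b s₂) ▸ Submodule.mul_mem_mul hb h.mem₂

theorem L_mul_L_aux [FF1 K F] [Infinite K] {A B : Divisor K F}
    (hA : 4 * (genusFF K F : ℤ) ≤ Divisor.degree A)
    (hB : 4 * (genusFF K F : ℤ) ≤ Divisor.degree B)
    (hAB : Divisor.degree B ≤ Divisor.degree A) :
    riemannRochSpace A * riemannRochSpace B = riemannRochSpace (A + B) := by
  obtain ⟨v₀⟩ := FF1.nonempty_place (K := K) (F := F)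
  have hg : (0 : ℤ) ≤ (genusFF K F : ℤ) := Int.natCast_nonneg _
  obtain ⟨n, hn1, hn2⟩ : ∃ n : ℤ, 2 * n ≤ Divisor.degree B ∧ Divisor.degree B ≤ 2 * n + 1 :=
    ⟨Divisor.degree B / 2, by omega, by omega⟩
  set B₂ : Divisor K F := n • prim v₀ with hB₂def
  set B₁ : Divisor K F := B - B₂ with hB₁def
  have hB₂ : Divisor.degree B₂ = n := by
    rw [hB₂def, map_zsmul, degree_prim v₀ (deg_eq_one v₀)]; simp
  have hB₁ : Divisor.degree B₁ = Divisor.degree B - n := by
    rw [hB₁def, map_sub, hB₂]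
  have e3 : B₂ + B₁ = B := by rw [hB₁def]; abel
  have e1 : riemannRochSpace (A + B₂) * riemannRochSpace B₁
      = riemannRochSpace (A + B₂ + B₁) :=
    L_mul_L_of_le (D := B₁) (E := A + B₂) (by omega) (by rw [map_add]; omega)
  have e2 : riemannRochSpace A * riemannRochSpace B₂ = riemannRochSpace (A + B₂) :=
    L_mul_L_of_le (D := B₂) (E := A) (by omega) (by omega)
  apply le_antisymm (mul_le_L A B)
  have e4 : A + B₂ + B₁ = A + B := by rw [add_assoc, e3]
  rw [← e4, ← e1, ← e2, mul_assoc]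
  have h5 : riemannRochSpace B₂ * riemannRochSpace B₁ ≤ riemannRochSpace B := by
    have := mul_le_L B₂ B₁
    rwa [e3] at this
  exact mul_le_mul' le_rfl h5

/-- **Multiplication of Riemann–Roch spaces**: `L(A) * L(B) = L(A + B)` as soon as both degrees
are at least `4g`. -/
theorem L_mul_L [FF1 K F] [Infinite K] {A B : Divisor K F}
    (hA : 4 * (genusFF K F : ℤ) ≤ Divisor.degree A)
    (hB : 4 * (genusFF K F : ℤ) ≤ Divisor.degree B) :
    riemannRochSpace A * riemannRochSpace B = riemannRochSpace (A + B) := by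
  rcases le_total (Divisor.degree B) (Divisor.degree A) with h | h
  · exact L_mul_L_aux hA hB h
  · rw [mul_comm, add_comm]
    exact L_mul_L_aux hB hA h

/-- element form: every `f ∈ L(A + B)` is a finite sum `∑ aᵢ bᵢ`, `aᵢ ∈ L(A)`, `bᵢ ∈ L(B)` -/
theorem exists_sum_mul_eq [FF1 K F] [Infinite K] {A B : Divisor K F}
    (hA : 4 * (genusFF K F : ℤ) ≤ Divisor.degree A)
    (hB : 4 * (genusFF K F : ℤ) ≤ Divisor.degree B) {f : F}
    (hf : f ∈ riemannRochSpace (A + B)) :
    ∃ (n : ℕ) (a b : Fin n → F), (∀ i, a i ∈ riemannRochSpace A) ∧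
      (∀ i, b i ∈ riemannRochSpace B) ∧ f = ∑ i, a i * b i := by
  rw [← L_mul_L hA hB] at hf
  refine Submodule.mul_induction_on hf ?_ ?_
  · intro a ha b hb
    exact ⟨1, fun _ => a, fun _ => b, fun _ => ha, fun _ => hb, by simp⟩
  · intro x y hx hy
    obtain ⟨n, a, b, ha, hb, rfl⟩ := hx
    obtain ⟨m, a', b', ha', hb', rfl⟩ := hy
    refine ⟨n + m, Fin.append a a', Fin.append b b', ?_, ?_, ?_⟩
    · intro i
      refine Fin.addCases (fun j => ?_) (fun j => ?_) i
      · simpa using ha j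
      · simpa using ha' j
    · intro i
      refine Fin.addCases (fun j => ?_) (fun j => ?_) i
      · simpa using hb j
      · simpa using hb' j
    · rw [Fin.sum_univ_add]
      simp

end Fermat.Agent.Lib.RR.H259

end
end
-- ===== PACK-END Lib/RR/H259/Mult.lean

-- ===== PACK-BEGIN A3/H499/OrthDatum.lean
section




/-!
# A3 / GR-ORTH, route D (helper499): `GoodRed.orthonormal` from `S37.Red.Datum.Good`

* `exists_orthBasis_of_finrank_eq` : in an abstract Gauss reduction context (`S37.H217.RedCtx`)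
  with a coordinate `x ∈ O`, `x̄` transcendental, `[F : K(x)] = [F_k : k(x̄)] < ∞`, and a group
  `I` of semilinear automorphisms fixing `x` such that every element of `F_k` has an `I`-fixed
  lift in `O`: every finitely generated `K`-subspace `M ⊆ F` has an orthonormal basis, `I`-fixed
  if `M` is `I`-stable.
* `orthonormal_of_good` : the field `orthonormal` of `A3.H799.GoodRed`, verbatim, for a
  `S37.Red.Datum` with good charts (only the degree fields (H1) of `Good` are used).
-/

set_option autoImplicit false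
set_option linter.unusedSectionVars false
set_option linter.style.longLine false

noncomputable section

open AlgebraicCurve Polynomial IntermediateField

namespace Fermat.Agent.A3.H499

open Fermat.Agent.S37.H217

section Powers

/-- the powers of a transcendental element are linearly independent -/
theorem linearIndependent_pow_of_transcendental {R S : Type*} [CommRing R] [Ring S]
    [Algebra R S] {y : S} (hy : Transcendental R y) :
    LinearIndependent R (fun j : ℕ => y ^ j) := by
  have h1 : LinearIndependent R (Polynomial.basisMonomials R) :=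
    (Polynomial.basisMonomials R).linearIndependent
  have h2 := h1.map' (aeval y).toLinearMap
    (LinearMap.ker_eq_bot.mpr (transcendental_iff_injective.mp hy))
  have h3 : (fun j : ℕ => y ^ j) = (aeval y).toLinearMap ∘ (Polynomial.basisMonomials R) := by
    funext j
    simp
  rw [h3]
  exact h2

variable {k Fk : Type*} [Field k] [Field Fk] [Algebra k Fk]

/-- if `y` is transcendental over `k` and the `c i` are `k(y)`-independent, the `y ^ j * c i`
are `k`-independent -/
theorem linearIndependent_pow_mul {y : Fk} (hy : Transcendental k y) {n : ℕ} (c : Fin n → Fk)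
    (hc : LinearIndependent k⟮y⟯ c) :
    LinearIndependent k (fun p : ℕ × Fin n => y ^ p.1 * c p.2) := by
  have hb : LinearIndependent k (fun j : ℕ => (AdjoinSimple.gen k y) ^ j) := by
    apply LinearIndependent.of_comp (IntermediateField.val k⟮y⟯).toLinearMap
    convert linearIndependent_pow_of_transcendental hy using 1
    funext j
    simp
  have h1 := linearIndependent_smul hb hc
  have h2 : (fun p : ℕ × Fin n => y ^ p.1 * c p.2) =
      fun p : ℕ × Fin n => (AdjoinSimple.gen k y) ^ p.1 • c p.2 := by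
    funext p
    rw [Algebra.smul_def, IntermediateField.algebraMap_apply]
    simp
  rw [h2]
  exact h1

end Powers

variable {K F : Type*} [Field K] [Field F] [Algebra K F]
variable {k : Type*} {Fk : Type*} [Field k] [Field Fk] [Algebra k Fk]
variable {A : ValuationSubring K} {π : A →+* k}

section Resid

variable (G : RedCtx A π F Fk) {t : F} (ht : t ∈ G.O) (htr : Transcendental k (G.ρ ⟨t, ht⟩))

include htr in
/-- lifts of a `k(t̄)`-independent family are residually independent over `O ∩ K(t)` -/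
theorem residIndep_of_lifts {ι : Type*} [Fintype ι] (e : ι → G.O)
    (hind : LinearIndependent k⟮G.ρ ⟨t, ht⟩⟯ (fun i => G.ρ (e i))) :
    ResidIndep (G.V₀ t) G.O (fun i => ((e i : G.O) : F)) := by
  classical
  intro c hc hsum
  set s : G.O := ∑ i, G.incl t ⟨c i, hc i⟩ * e i with hs
  have hsF : (s : F) = ∑ i, c i • ((e i : G.O) : F) := by
    rw [hs, ← ValuationSubring.subtype_apply, _root_.map_sum]
    refine Finset.sum_congr rfl fun i _ => ?_
    rw [_root_.map_mul, Algebra.smul_def]
    rfl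
  have hρs : G.ρ s = 0 := by
    rw [G.ρ_eq_zero_iff, hsF]
    exact hsum
  have hρs' : ∑ i, G.ρ₀ ht htr ⟨c i, hc i⟩ • G.ρ (e i) = 0 := by
    rw [← hρs, hs, _root_.map_sum]
    refine Finset.sum_congr rfl fun i _ => ?_
    rw [_root_.map_mul, Algebra.smul_def]
    rfl
  have hzero := Fintype.linearIndependent_iff.mp hind _ hρs'
  intro i
  have h1 : G.ρ (G.incl t ⟨c i, hc i⟩) = 0 := by
    have := congrArg (fun z : k⟮G.ρ ⟨t, ht⟩⟯ => (z : Fk)) (hzero i)
    simpa [RedCtx.coe_ρ₀] using this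
  rw [G.ρ_eq_zero_iff, RedCtx.coe_incl] at h1
  exact ((G.valExtends t).mem_nonunits_iff (c i)).mp h1

end Resid

section Ctx

variable (G : RedCtx A π F Fk) {x : F} (hx : x ∈ G.O) (hxtr : Transcendental k (G.ρ ⟨x, hx⟩))

/-- elements of `K(x)` are quotients of polynomials (denominator form) -/
theorem exists_den_adjoin_simple (x : F) (c : K⟮x⟯) :
    ∃ r s : K[X], s ≠ 0 ∧ aeval x s * ((c : K⟮x⟯) : F) = aeval x r := by
  obtain ⟨r, s, hrs⟩ := (mem_adjoin_simple_iff K ((c : K⟮x⟯) : F)).mp c.2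
  by_cases hs : aeval x s = 0
  · refine ⟨0, 1, one_ne_zero, ?_⟩
    rw [hrs, hs, div_zero, mul_zero, _root_.map_zero]
  · refine ⟨r, s, fun h0 => hs (by rw [h0, _root_.map_zero]), ?_⟩
    rw [hrs, mul_div_cancel₀ _ hs]

include hxtr in
/-- **Route D.**  Orthonormal bases of all finitely generated subspaces from the degree
equality `[F : K(x)] = [F_k : k(x̄)]` and `I`-fixed lifts. -/
theorem exists_orthBasis_of_finrank_eq
    [FiniteDimensional K⟮x⟯ F] [FiniteDimensional k⟮G.ρ ⟨x, hx⟩⟯ Fk]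
    (hfr : Module.finrank K⟮x⟯ F = Module.finrank k⟮G.ρ ⟨x, hx⟩⟯ Fk)
    (I : Subgroup (SemilinearAut K F)) (hIx : ∀ g ∈ I, g • x = x)
    (hIlift : ∀ c : Fk, ∃ f : G.O, G.ρ f = c ∧ ∀ g ∈ I, g • ((f : G.O) : F) = f)
    (M : Submodule K F) (hMfg : M.FG) (hMI : ∀ g ∈ I, ∀ f ∈ M, g • f ∈ M) :
    ∃ (d : ℕ) (u : Fin d → G.O), IsOrthBasis k G.O G.ρ M u ∧
      ∀ g ∈ I, ∀ a, g • ((u a : G.O) : F) = u a := by
  classical
  set b₁ := Module.finBasis k⟮G.ρ ⟨x, hx⟩⟯ Fk with hb₁
  choose w hw hwI using fun i => hIlift (b₁ i)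
  have hind : LinearIndependent k⟮G.ρ ⟨x, hx⟩⟯ (fun i => G.ρ (w i)) := by
    have h1 : (fun i => G.ρ (w i)) = b₁ := _root_.funext hw
    rw [h1]
    exact b₁.linearIndependent
  have horth : LinearIndependent k
      (fun p : ℕ × Fin (Module.finrank k⟮G.ρ ⟨x, hx⟩⟯ Fk) =>
        G.ρ ((⟨x, hx⟩ : G.O) ^ p.1 * w p.2)) := by
    have h1 := linearIndependent_pow_mul hxtr _ hind
    have h2 : (fun p : ℕ × Fin (Module.finrank k⟮G.ρ ⟨x, hx⟩⟯ Fk) =>
        G.ρ ((⟨x, hx⟩ : G.O) ^ p.1 * w p.2)) =
        fun p => G.ρ ⟨x, hx⟩ ^ p.1 * G.ρ (w p.2) := by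
      funext p
      rw [_root_.map_mul, _root_.map_pow]
    rw [h2]
    exact h1
  have hR : ResidIndep (G.V₀ x) G.O (fun i => ((w i : G.O) : F)) :=
    residIndep_of_lifts G hx hxtr w hind
  have : Nonempty (Fin (Module.finrank k⟮G.ρ ⟨x, hx⟩⟯ Fk)) := ⟨⟨0, Module.finrank_pos⟩⟩
  obtain ⟨b, hb⟩ := exists_basis_of_residIndep hR (by rw [Fintype.card_fin, hfr])
  have hbi : ∀ i, b i = ((w i : G.O) : F) := fun i => congrFun hb i
  have hspan : ∀ f : F, ∃ h : K[X], h ≠ 0 ∧
      aeval (((⟨x, hx⟩ : G.O) : G.O) : F) h * f ∈ polySpan (K := K) (⟨x, hx⟩ : G.O) w := by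
    intro f
    choose r s hs hrs using fun i => exists_den_adjoin_simple x (b.repr f i)
    refine ⟨∏ i, s i, Finset.prod_ne_zero_iff.mpr (fun i _ => hs i), ?_⟩
    have hf : f = ∑ i, ((b.repr f i : K⟮x⟯) : F) * ((w i : G.O) : F) := by
      conv_lhs => rw [← b.sum_repr f]
      refine Finset.sum_congr rfl fun i _ => ?_
      rw [hbi, Algebra.smul_def]
      rfl
    show aeval x (∏ i, s i) * f ∈ _
    rw [hf, Finset.mul_sum]
    refine Submodule.sum_mem _ fun i _ => ?_
    have h1 : aeval x (∏ l, s l) * (((b.repr f i : K⟮x⟯) : F) * ((w i : G.O) : F)) =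
        aeval x ((∏ l ∈ Finset.univ.erase i, s l) * r i) * ((w i : G.O) : F) := by
      rw [← Finset.mul_prod_erase Finset.univ s (Finset.mem_univ i), _root_.map_mul, _root_.map_mul, ← hrs i]
      ring
    rw [h1]
    refine aeval_mul_mem_polySpan (⟨x, hx⟩ : G.O) w _ (Submodule.subset_span ⟨(0, i), ?_⟩)
    show x ^ 0 * ((w i : G.O) : F) = _
    rw [pow_zero, one_mul]
  exact exists_orthBasis_of_span A G.O π G.ρ (fun a ha => G.const_mem ⟨a, ha⟩)
    (fun a _ => G.ρ_const a) G.ρ_surj (⟨x, hx⟩ : G.O) hxtr w horth hspan I hIx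
    (fun g hg i => hwI i g hg) M hMfg hMI

end Ctx

section Datum

universe u

variable {K k F Fk : Type u} [Field K] [Field k] [Field F] [Field Fk]
  [Algebra K F] [Algebra k Fk] {A : ValuationSubring K} {π : A →+* k}

/-- the Gauss reduction context underlying a reduction datum of row S37 -/
def ctxOfDatum (G : Fermat.Agent.S37.Red.Datum A π F Fk) : RedCtx A π F Fk where
  π_surj := G.π_surj
  O := G.O
  ρ := G.ρ
  ρ_surj := G.ρ_surj
  const_mem := G.const_mem
  ρ_const := G.ρ_const

/-- **GR-ORTH, route D.**  The field `orthonormal` of `A3.H799.GoodRed` (with `O := G.O`,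
`red := G.ρ`), verbatim, for a reduction datum `G` of row S37 with the degree equality (H1) of
`G.Good`, a group `I` fixing the coordinate `G.x`, and `I`-fixed lifts of the elements of
`F_k`. -/
theorem orthonormal_of_good (G : Fermat.Agent.S37.Red.Datum A π F Fk)
    (hfin : FiniteDimensional K⟮G.x⟯ F) (hfink : FiniteDimensional k⟮G.xk⟯ Fk)
    (hfr : Module.finrank K⟮G.x⟯ F = Module.finrank k⟮G.xk⟯ Fk)
    (hff : Fermat.Agent.Lib.RR.FF1 K F)
    (I : Subgroup (SemilinearAut K F)) (hIx : ∀ g ∈ I, g • G.x = G.x)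
    (hIlift : ∀ c : Fk, ∃ f : G.O, G.ρ f = c ∧ ∀ g ∈ I, g • ((f : G.O) : F) = f) :
    ∀ D : Divisor K F, ∃ (n : ℕ) (b : Fin n → G.O),
      LinearIndependent k (fun i => G.ρ (b i)) ∧
      (∀ i, ((b i : G.O) : F) ∈ riemannRochSpace D) ∧
      Submodule.span K (Set.range fun i => ((b i : G.O) : F)) = riemannRochSpace D ∧
      ((∀ g ∈ I, g • D = D) → ∀ i, ∀ g ∈ I, g • ((b i : G.O) : F) = ((b i : G.O) : F)) := by
  intro D
  have := hff
  have := hfin
  have : FiniteDimensional k⟮(ctxOfDatum G).ρ ⟨G.x, G.x_mem⟩⟯ Fk := hfink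
  have hfg : (riemannRochSpace D : Submodule K F).FG := Module.Finite.iff_fg.mp inferInstance
  by_cases hD : ∀ g ∈ I, g • D = D
  · obtain ⟨n, b, ⟨h1, h2, h3⟩, h4⟩ :=
      exists_orthBasis_of_finrank_eq (ctxOfDatum G) G.x_mem G.xk_transc hfr I hIx hIlift
        (riemannRochSpace D) hfg (fun g hg f hf => by
          have := smul_mem_L g hf
          rwa [hD g hg] at this)
    exact ⟨n, b, h1, h2, h3, fun _ i g hg => h4 g hg i⟩
  · obtain ⟨n, b, ⟨h1, h2, h3⟩, -⟩ :=
      exists_orthBasis_of_finrank_eq (ctxOfDatum G) G.x_mem G.xk_transc hfr ⊥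
        (fun g hg => by rw [Subgroup.mem_bot.mp hg, one_smul])
        (fun c => by
          obtain ⟨f, hf, -⟩ := hIlift c
          exact ⟨f, hf, fun g hg => by rw [Subgroup.mem_bot.mp hg, one_smul]⟩)
        (riemannRochSpace D) hfg (fun g hg f hf => by rwa [Subgroup.mem_bot.mp hg, one_smul])
    exact ⟨n, b, h1, h2, h3, fun h => absurd h hD⟩

/-- `orthonormal_of_good` with the hypothesis `G.Good`. -/
theorem orthonormal_of_good' (G : Fermat.Agent.S37.Red.Datum A π F Fk) (hgood : G.Good)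
    (hff : Fermat.Agent.Lib.RR.FF1 K F)
    (I : Subgroup (SemilinearAut K F)) (hIx : ∀ g ∈ I, g • G.x = G.x)
    (hIlift : ∀ c : Fk, ∃ f : G.O, G.ρ f = c ∧ ∀ g ∈ I, g • ((f : G.O) : F) = f) :
    ∀ D : Divisor K F, ∃ (n : ℕ) (b : Fin n → G.O),
      LinearIndependent k (fun i => G.ρ (b i)) ∧
      (∀ i, ((b i : G.O) : F) ∈ riemannRochSpace D) ∧
      Submodule.span K (Set.range fun i => ((b i : G.O) : F)) = riemannRochSpace D ∧
      ((∀ g ∈ I, g • D = D) → ∀ i, ∀ g ∈ I, g • ((b i : G.O) : F) = ((b i : G.O) : F)) :=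
  orthonormal_of_good G hgood.finite hgood.finite_k hgood.finrank_eq hff I hIx hIlift

end Datum

end Fermat.Agent.A3.H499

end

end
-- ===== PACK-END A3/H499/OrthDatum.lean

-- ===== PACK-BEGIN S19/H679/Descent.lean
section


/-!
# Cell A3 (S19), block UNR (helper679) — the key descent

`Hloc = V · (Hloc ∩ {Galois-invariant functions})`.

For a good function `f` (inertia-invariant, `E`-valued, in `Hloc`) the orbit traces
`∑_{p ∈ orbit of (c, f)} c_p • f_p` with coefficients `c_j = U · c⁰_j` (`U` the CRT element,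
`c⁰_j` the Lagrange monomials) are Galois-invariant elements of `Hloc`, and
`∑_j a_j • trace_j ≡ f` modulo `𝔪_V • Hloc`.  Nakayama finishes.
-/

set_option autoImplicit false

namespace Fermat.Agent.S19.H679

open Fermat.Agent.S54 Fermat.Agent.S55.Bridge Fermat.Agent.S55.Bridge.H594

attribute [local instance] isAlgebraic_Qbar isGalois_Qbar

variable {ℓ : ℕ} {M : Type} [AddCommGroup M] {act : GalQ → M → M}

/-- The Galois-invariant elements of `Hloc`. -/
def invSetH679 (L : LocalCoordDatum ℓ M act) : Set (M → Qb) :=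
  {h | h ∈ Subalgebra.toSubmodule (HlocH679 L) ∧ ∀ σ : GalQ, starH679 act σ h = h}

section

variable [Finite M] (hℓ : ℓ.Prime) (hact : IsContAddAction act) (L : LocalCoordDatum ℓ M act)

include hℓ in
/-- Uniform bound for the denominators of the conjugates of the values of a function. -/
theorem exists_denomH679 (f : M → Qb) :
    ∃ a : ℕ, ∀ (σ : GalQ) (m : M), (ℓ : Qb) ^ a * σ (f m) ∈ L.V := by
  classical
  haveI := Fintype.ofFinite M
  choose am ham using fun m => exists_pow_mul_conj_memH679 L.V hℓ L.ell_mem (f m)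
  refine ⟨∑ m, am m, fun σ m => ?_⟩
  have hle : am m ≤ ∑ m, am m :=
    Finset.single_le_sum (fun _ _ => Nat.zero_le _) (Finset.mem_univ m)
  have : (ℓ : Qb) ^ (∑ m, am m) * σ (f m)
      = (ℓ : Qb) ^ ((∑ m, am m) - am m) * ((ℓ : Qb) ^ am m * σ (f m)) := by
    rw [← mul_assoc, ← pow_add, Nat.sub_add_cancel hle]
  rw [this]
  exact L.V.mul_mem _ _ (pow_mem (mem_of_mem_nonunitsH679 L.V L.ell_mem) _) (ham m σ)

include hℓ hact in
/-- One good function is, modulo `𝔪 • Hloc`, a combination of invariants. -/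
theorem good_mem_supH679 (Λ : LevelDataH679 L) (e : ℕ)
    (he : ∀ F : M → Qb, (∀ m, ∃ z ∈ L.V, F m = (ℓ : Qb) ^ (e + 1) * z) →
      F ∈ IsLocalRing.maximalIdeal L.V • Subalgebra.toSubmodule (HlocH679 L))
    {f : M → Qb} (hf : IsGoodFunH679 L Λ f) :
    f ∈ Submodule.span L.V (invSetH679 L) ⊔
      IsLocalRing.maximalIdeal L.V • Subalgebra.toSubmodule (HlocH679 L) := by
  classical
  haveI := Λ.normal
  haveI := Λ.fin
  have hA := isActH679_of_cont hact
  obtain ⟨a, ha⟩ := exists_denomH679 hℓ L f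
  obtain ⟨U, hUgood, hU1, hUbad⟩ := exists_crtH679 L.V Λ.E hℓ L.ell_mem (e + 1 + a)
  obtain ⟨J, hJ, c, w, hcgood, hw1, hw0⟩ := exists_weightsH679 L.V Λ.E hℓ L.ell_mem
  obtain ⟨reps, hreps⟩ := exists_repsH679 Λ.E
  have hc'good : ∀ j, IsGoodEltH679 L.V Λ.E (U * c j) := fun j => hUgood.mul L.V Λ.E (hcgood j)
  -- agreement on `E` gives the same action on the base point
  have hagree : ∀ σ ρ : GalQ, (∀ x ∈ Λ.E, σ x = ρ x) →
      actPairH679 act σ ((fun j => U * c j), f) = actPairH679 act ρ ((fun j => U * c j), f) := by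
    intro σ ρ h
    unfold actPairH679
    refine Prod.ext ?_ ?_
    · funext j
      exact h _ (hc'good j).1
    · exact star_eq_of_agreeH679 hact Λ.level h hf.1
  have hfix : ∀ ι ∈ L.V.inertiaSubgroupIn ℚ,
      actPairH679 act ι ((fun j => U * c j), f) = ((fun j => U * c j), f) := by
    intro ι hι
    unfold actPairH679
    refine Prod.ext ?_ ?_
    · funext j
      exact (hc'good j).2.2 ι hι
    · exact hf.2.1 ι hι
  refine orbitTrace_mem hA (IsLocalRing.maximalIdeal L.V) (Subalgebra.toSubmodule (HlocH679 L))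
    (fun j => U * c j) w f (L.V.decompositionSubgroup ℚ : Set GalQ)
    (L.V.decompositionSubgroup ℚ).one_mem ?_ ?_ ?_ ?_ ?_ ?_
  · -- finiteness of the orbit
    refine Set.Finite.subset
      (reps.image fun ρ => actPairH679 act ρ ((fun j => U * c j), f)).finite_toSet ?_
    rintro p ⟨σ, rfl⟩
    obtain ⟨ρ, hρ, hσρ⟩ := hreps σ
    rw [Finset.mem_coe, Finset.mem_image]
    exact ⟨ρ, hρ, (hagree σ ρ hσρ).symm⟩
  · intro δ hδ
    exact Hloc_stableH679 hact L hδ hf.2.2
  · intro δ _ j
    exact ⟨⟨δ (U * c j), (hc'good j).apply_mem_V L.V Λ.E δ⟩, rfl⟩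
  · -- the base term
    refine ⟨⟨U - 1, mem_of_mem_nonunitsH679 L.V hU1⟩,
      (ValuationSubring.coe_mem_nonunits_iff).1 hU1, ?_⟩
    have h1 := hw1 1 (L.V.decompositionSubgroup ℚ).one_mem
      ⟨1, (L.V.inertiaSubgroupIn ℚ).one_mem, fun _ _ => rfl⟩
    have h2 : ∑ j, algebraMap L.V Qb (w j) * (U * c j)
        = U * ∑ j, (w j : Qb) * (1 : GalQ) (c j) := by
      rw [Finset.mul_sum]
      refine Finset.sum_congr rfl fun j _ => ?_
      show (w j : Qb) * (U * c j) = U * ((w j : Qb) * c j)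
      ring
    rw [h2, h1, mul_one]
    show U = 1 + (U - 1)
    ring
  · -- decomposition elements moving the base point
    intro δ hδ hne
    have hδI : ¬ ∃ ι ∈ L.V.inertiaSubgroupIn ℚ, ∀ x ∈ Λ.E, δ x = ι x := by
      rintro ⟨ι, hι, hδι⟩
      apply hne
      rw [hagree δ ι hδι]
      exact hfix ι hι
    refine ⟨0, zero_mem _, ?_⟩
    have h1 := hw0 δ hδ hδI
    have h2 : ∑ j, algebraMap L.V Qb (w j) * δ • (U * c j)
        = δ U * ∑ j, (w j : Qb) * δ (c j) := by
      rw [Finset.mul_sum]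
      refine Finset.sum_congr rfl fun j _ => ?_
      show (w j : Qb) * δ (U * c j) = δ U * ((w j : Qb) * δ (c j))
      rw [map_mul]
      ring
    rw [h2, h1, mul_zero, map_zero]
  · -- bad automorphisms
    intro σ hσ j
    have hσD : ¬ ∃ δ ∈ L.V.decompositionSubgroup ℚ, ∀ x ∈ Λ.E, δ x = σ x := by
      rintro ⟨δ, hδ, hδσ⟩
      exact hσ δ hδ (hagree δ σ hδσ).symm
    obtain ⟨z, hz, hσU⟩ := hUbad σ hσD
    apply he
    intro m
    refine ⟨z * σ (c j) * ((ℓ : Qb) ^ a * σ (f (act σ⁻¹ m))),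
      L.V.mul_mem _ _ (L.V.mul_mem _ _ hz ((hcgood j).apply_mem_V L.V Λ.E σ)) (ha σ _), ?_⟩
    show σ (U * c j) * σ (f (act σ⁻¹ m)) = _
    rw [map_mul, hσU, pow_add, pow_add]
    ring

include hℓ hact in
/-- **Key descent**: `Hloc` is spanned over `V` by its Galois-invariant elements. -/
theorem Hloc_le_span_invH679 :
    Subalgebra.toSubmodule (HlocH679 L) ≤ Submodule.span L.V (invSetH679 L) := by
  obtain ⟨Λ⟩ := exists_levelDataH679 hact L
  obtain ⟨e, he⟩ := exists_conductorH679 hℓ hact L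
  refine Submodule.le_of_le_smul_of_le_jacobson_bot (Hloc_fgH679 hact L Λ)
    (le_of_eq (IsLocalRing.jacobson_eq_maximalIdeal ⊥ bot_ne_top).symm) ?_
  refine (Hloc_le_span_goodH679 hact L Λ).trans (Submodule.span_le.2 ?_)
  intro f hf
  exact good_mem_supH679 hℓ hact L Λ e he hf

end

end Fermat.Agent.S19.H679

end
-- ===== PACK-END S19/H679/Descent.lean

-- ===== PACK-BEGIN Lib/RR/H439/Pencil.lean
section



/-!
# Riemann–Roch corollaries: base points, generic members, the base-point-free pencil trick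

(helper439, cell A3 / piece D5 of `coord/A3-helper979.md`; route independent.)

Setting: `[FF1 K F]` (function field of one variable, all places of degree one), `g = genusFF K F`.

* `ell_sub_prim_add_one`       : `deg E ≥ 2g` ⟹ `ℓ(E - P) + 1 = ℓ(E)`.
* `exists_mem_L_ord_eq`        : `deg E ≥ 2g` ⟹ `P` is not a base point of `|E|`.
* `exists_mem_L_forall_ord_eq` : (`K` infinite) a member of `|E|` avoiding a finite set of places.
* `exists_two_members`         : (`K` infinite) two members of `|E|` without common zero, both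
                                 avoiding a given finite set.
* `pencil_trick`               : `β₁ α₂ = β₂ α₁`, `α₁, α₂` without common zero ⟹
                                 `(β₁, β₂) = γ (α₁, α₂)` with `γ ∈ L(B - E)`.
* `exists_eq_mul_add_mul`      : `L(B) α₁ + L(B) α₂ = L(B + E)` if `deg (B - E) > 2g - 2`.
* `exists_effective`           : `deg D ≥ g` ⟹ the class of `D` is effective.
* `eq_of_effective_of_ell_eq_one` : uniqueness of the effective representative when `ℓ = 1`.
* `ell_eq_ell_sub_add_degree`  : `ℓ(B) = ℓ(B - D) + deg D` if `deg (B - D) > 2g - 2`.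
-/

set_option autoImplicit false

noncomputable section

open AlgebraicCurve

namespace Fermat.Agent.Lib.RR.H439

open Fermat.Agent.Lib.RR

variable {K F : Type*} [Field K] [Field F] [Algebra K F]

section Basic

/-- An element of `L(E) ∖ L(E - P)` has order exactly `-E(P)` at `P`. -/
theorem ord_eq_of_mem_of_not_mem_sub (E : Divisor K F) (v : Place K F) {f : F}
    (hf : f ∈ riemannRochSpace E) (hf' : f ∉ riemannRochSpace (E - prim v)) :
    v.ord f = -E v := by
  have h1 : f ∈ riemannRochSpace ((E - prim v) + prim v) := by rwa [sub_add_cancel]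
  have := H638.ord_eq_of_mem_of_not_mem (E - prim v) v h1 hf'
  rw [this]
  simp only [Finsupp.coe_sub, Pi.sub_apply, prim_apply_self]
  ring

/-- Conversely, an element of order `-E(P)` at `P` is not in `L(E - P)`. -/
theorem not_mem_sub_of_ord_eq (E : Divisor K F) (v : Place K F) {f : F} (hf0 : f ≠ 0)
    (h : v.ord f = -E v) : f ∉ riemannRochSpace (E - prim v) := by
  intro hmem
  have := (mem_L_iff.mp hmem v).resolve_left hf0
  simp only [Finsupp.coe_sub, Pi.sub_apply, prim_apply_self] at this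
  omega

theorem sub_prim_le (E : Divisor K F) (v : Place K F) : E - prim v ≤ E := by
  rw [Finsupp.le_def]
  intro w
  simp only [Finsupp.coe_sub, Pi.sub_apply]
  by_cases hw : w = v
  · subst hw; rw [prim_apply_self]; omega
  · rw [prim_apply_of_ne hw]; omega

end Basic

section RR

variable [FF1 K F]

/-- `deg E ≥ 2g` ⟹ `ℓ(E - P) + 1 = ℓ(E)`. -/
theorem ell_sub_prim_add_one {E : Divisor K F}
    (hE : 2 * (genusFF K F : ℤ) ≤ Divisor.degree E) (v : Place K F) :
    ell (E - prim v) + 1 = ell E := by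
  have h1 : (ell E : ℤ) = Divisor.degree E + 1 - (genusFF K F : ℤ) :=
    ell_eq_of_degree_gt (by omega)
  have h2 : (ell (E - prim v) : ℤ) = Divisor.degree (E - prim v) + 1 - (genusFF K F : ℤ) :=
    ell_eq_of_degree_gt (by rw [map_sub, degree_prim']; omega)
  rw [map_sub, degree_prim'] at h2
  omega

/-- `deg E ≥ 2g` ⟹ `L(E - P)` is a proper subspace of `L(E)`. -/
theorem exists_mem_not_mem_sub {E : Divisor K F}
    (hE : 2 * (genusFF K F : ℤ) ≤ Divisor.degree E) (v : Place K F) :
    ∃ f ∈ riemannRochSpace E, f ∉ riemannRochSpace (E - prim v) := by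
  by_contra hcon
  push Not at hcon
  have hle : riemannRochSpace E ≤ riemannRochSpace (E - prim v) := fun f hf => hcon f hf
  have := Submodule.finrank_mono hle
  have h2 := ell_sub_prim_add_one hE v
  unfold ell at h2
  omega

/-- **No base points**: if `deg E ≥ 2g` then for every place `P` some member of `L(E)` has order
exactly `-E(P)` at `P`. -/
theorem exists_mem_L_ord_eq {E : Divisor K F}
    (hE : 2 * (genusFF K F : ℤ) ≤ Divisor.degree E) (v : Place K F) :
    ∃ f ∈ riemannRochSpace E, f ≠ 0 ∧ v.ord f = -E v := by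
  obtain ⟨f, hf, hf'⟩ := exists_mem_not_mem_sub hE v
  refine ⟨f, hf, ?_, ord_eq_of_mem_of_not_mem_sub E v hf hf'⟩
  rintro rfl
  exact hf' (Submodule.zero_mem _)

/-- **Generic members**: over an infinite constant field, if `deg E ≥ 2g` then for every finite
set `S` of places some member of `L(E)` has order exactly `-E(P)` at all `P ∈ S`. -/
theorem exists_mem_L_forall_ord_eq [Infinite K] {E : Divisor K F}
    (hE : 2 * (genusFF K F : ℤ) ≤ Divisor.degree E) (S : Finset (Place K F)) :
    ∃ f ∈ riemannRochSpace E, f ≠ 0 ∧ ∀ v ∈ S, v.ord f = -E v := by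
  classical
  -- the proper subspaces `L(E - P) ∩ L(E)` of `L(E)`, together with `⊥`
  let p : Place K F → Subspace K (riemannRochSpace E) := fun v =>
    Submodule.comap (riemannRochSpace E).subtype (riemannRochSpace (E - prim v))
  let s : Finset (Subspace K (riemannRochSpace E)) := insert ⊥ (S.image p)
  have hne : ∀ v, p v ≠ ⊤ := by
    intro v htop
    obtain ⟨f, hf, hf'⟩ := exists_mem_not_mem_sub hE v
    have : (⟨f, hf⟩ : riemannRochSpace E) ∈ p v := by rw [htop]; trivial
    exact hf' this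
  have hbot : (⊥ : Subspace K (riemannRochSpace E)) ≠ ⊤ := by
    intro h
    obtain ⟨v⟩ := (inferInstance : FF1 K F).nonempty_place
    obtain ⟨f, hf, hf0, -⟩ := exists_mem_L_ord_eq hE v
    have : (⟨f, hf⟩ : riemannRochSpace E) ∈ (⊥ : Subspace K (riemannRochSpace E)) := by
      rw [h]; trivial
    rw [Submodule.mem_bot] at this
    exact hf0 (congrArg Subtype.val this)
  have hs : (⊤ : Subspace K (riemannRochSpace E)) ∉ s := by
    intro h
    rcases Finset.mem_insert.mp h with h | h
    · exact hbot h.symm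
    · obtain ⟨v, -, hv⟩ := Finset.mem_image.mp h
      exact hne v hv
  have hcov := Subspace.biUnion_ne_univ_of_top_notMem hs
  obtain ⟨x, hx⟩ := (Set.ne_univ_iff_exists_notMem _).mp hcov
  simp only [Set.mem_iUnion, not_exists] at hx
  have hx0 : x ≠ 0 := by
    intro h0
    refine hx ⊥ (Finset.mem_insert_self _ _) ?_
    rw [h0]; exact Submodule.zero_mem _
  refine ⟨x, x.2, fun h => hx0 (Subtype.ext h), fun v hv => ?_⟩
  apply ord_eq_of_mem_of_not_mem_sub E v x.2
  intro hmem
  exact hx (p v) (Finset.mem_insert_of_mem (Finset.mem_image_of_mem p hv)) hmem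

/-- The zeros of a member `f` of `|E|` (the support of the residual divisor `E + div f`) form a
finite set. -/
theorem finite_setOf_ord_ne {E : Divisor K F} {f : F} (hf0 : f ≠ 0) :
    {v : Place K F | v.ord f ≠ -E v}.Finite := by
  classical
  refine (Finset.finite_toSet (E + divOf f hf0).support).subset ?_
  intro v hv
  rw [Finset.mem_coe, Finsupp.mem_support_iff]
  simp only [Finsupp.coe_add, Pi.add_apply, divOf_apply]
  intro h
  exact hv (by omega)

/-- **Two members without common zero**: over an infinite constant field, if `deg E ≥ 2g` then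
there are `f₁, f₂ ∈ L(E)` such that at every place one of them has order exactly `-E(P)`, and
both have order exactly `-E(P)` at every place of a given finite set `S`. -/
theorem exists_two_members [Infinite K] {E : Divisor K F}
    (hE : 2 * (genusFF K F : ℤ) ≤ Divisor.degree E) (S : Finset (Place K F)) :
    ∃ f₁ ∈ riemannRochSpace E, ∃ f₂ ∈ riemannRochSpace E, f₁ ≠ 0 ∧ f₂ ≠ 0 ∧
      (∀ v ∈ S, v.ord f₁ = -E v ∧ v.ord f₂ = -E v) ∧
      ∀ v : Place K F, v.ord f₁ = -E v ∨ v.ord f₂ = -E v := by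
  classical
  obtain ⟨f₁, hf₁, hf₁0, h₁⟩ := exists_mem_L_forall_ord_eq hE S
  have hfin := finite_setOf_ord_ne (E := E) hf₁0
  obtain ⟨f₂, hf₂, hf₂0, h₂⟩ := exists_mem_L_forall_ord_eq hE (S ∪ hfin.toFinset)
  refine ⟨f₁, hf₁, f₂, hf₂, hf₁0, hf₂0, fun v hv => ⟨h₁ v hv, h₂ v (Finset.mem_union_left _ hv)⟩,
    fun v => ?_⟩
  by_cases hv : v.ord f₁ = -E v
  · exact Or.inl hv
  · right
    apply h₂ v
    apply Finset.mem_union_right
    rw [Set.Finite.mem_toFinset]
    exact hv

end RR

section Pencil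

/-- **Base-point-free pencil trick** (pointwise form).  If `α₁, α₂` have no common zero as
sections of `O(E)` and `β₁ α₂ = β₂ α₁` with `β₁, β₂ ∈ L(B)`, then `(β₁, β₂) = γ (α₁, α₂)` with
`γ ∈ L(B - E)`. -/
theorem pencil_trick {E B : Divisor K F} {α₁ α₂ β₁ β₂ : F} (hα₁ : α₁ ≠ 0) (hα₂ : α₂ ≠ 0)
    (hα : ∀ v : Place K F, v.ord α₁ = -E v ∨ v.ord α₂ = -E v)
    (hβ₁ : β₁ ∈ riemannRochSpace B) (hβ₂ : β₂ ∈ riemannRochSpace B)
    (h : β₁ * α₂ = β₂ * α₁) :
    ∃ γ ∈ riemannRochSpace (B - E), β₁ = γ * α₁ ∧ β₂ = γ * α₂ := by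
  have e1 : β₁ = β₁ / α₁ * α₁ := by field_simp
  have e2 : β₂ = β₁ / α₁ * α₂ := by
    field_simp
    rw [h]
  refine ⟨β₁ / α₁, ?_, e1, e2⟩
  rw [mem_L_iff]
  intro v
  by_cases hγ : β₁ / α₁ = 0
  · exact Or.inl hγ
  right
  have hβ₁0 : β₁ ≠ 0 := by
    rintro rfl
    exact hγ (by simp)
  have hβ₂0 : β₂ ≠ 0 := by
    rw [e2]
    exact mul_ne_zero hγ hα₂
  simp only [Finsupp.coe_sub, Pi.sub_apply]
  rcases hα v with hv | hv
  · have h1 := (mem_L_iff.mp hβ₁ v).resolve_left hβ₁0
    have h2 : v.ord β₁ = v.ord (β₁ / α₁) + v.ord α₁ := by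
      conv_lhs => rw [e1]
      exact v.ord_mul hγ hα₁
    omega
  · have h1 := (mem_L_iff.mp hβ₂ v).resolve_left hβ₂0
    have h2 : v.ord β₂ = v.ord (β₁ / α₁) + v.ord α₂ := by
      conv_lhs => rw [e2]
      exact v.ord_mul hγ hα₂
    omega

/-- Multiplication `L(B - E) × L(E) → L(B)`. -/
theorem mul_mem_L {B E : Divisor K F} {γ α : F} (hγ : γ ∈ riemannRochSpace (B - E))
    (hα : α ∈ riemannRochSpace E) : γ * α ∈ riemannRochSpace B := by
  rw [mem_L_iff]
  intro v
  by_cases h0 : γ * α = 0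
  · exact Or.inl h0
  right
  have hγ0 : γ ≠ 0 := left_ne_zero_of_mul h0
  have hα0 : α ≠ 0 := right_ne_zero_of_mul h0
  have h1 := (mem_L_iff.mp hγ v).resolve_left hγ0
  have h2 := (mem_L_iff.mp hα v).resolve_left hα0
  simp only [Finsupp.coe_sub, Pi.sub_apply] at h1
  rw [v.ord_mul hγ0 hα0]
  omega

end Pencil

end Fermat.Agent.Lib.RR.H439

end
end
-- ===== PACK-END Lib/RR/H439/Pencil.lean

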