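import Mathlib
import Fermat.Prelude.Def_ModularCurve_ArithmeticGalois
import Fermat.Prelude.Def_ModularCurve_X0ModL
import Mathlib.RingTheory.Ideal.AssociatedPrime.Localization
import Fermat.Agent.Pack.S33.E9L3
import Fermat.Agent.Pack.S33.E16L2
import Fermat.Agent.Pack.S33.E0L0
import Fermat.Agent.Pack.S33.E14L2
import Fermat.Agent.Pack.S33.E16L1
import Fermat.Agent.Pack.S33.E10L2
import Fermat.Agent.Pack.S33.E10L1
import Fermat.Agent.Pack.S33.E16L3
import Fermat.Agent.Pack.S33.E12L0
import Fermat.Agent.Pack.S33.E5L1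
import Fermat.Agent.Pack.S33.E10L3
import Fermat.Agent.Pack.S33.E12L3
import Fermat.Agent.Pack.S33.E5L0
import Fermat.Agent.Pack.S33.E16L0
import Fermat.Agent.Pack.S33.E1L0
import Fermat.Agent.Pack.S33.E10L0
import Fermat.Agent.Pack.S33.E7L3
import Fermat.Agent.Pack.S33.E8L2
import Fermat.Agent.Pack.S33.E8L1
import Fermat.Agent.Pack.S33.E8L3
import Fermat.Agent.Pack.S33.E12L2
import Fermat.Agent.Pack.S33.E11L0
import Fermat.Agent.Pack.S33.E14L3
import Fermat.Agent.Pack.S33.E3L1

-- ===== PACK-BEGIN S32/H185/Red.lean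
section





/-!
# Row S32, piece RED (helper185): the coefficient ring of a Hecke–Galois datum is reduced

`red : Fermat.Agent.S32.RedStatement` (exact `Prop` of `S32/Spec.lean`).

Route.  Let `𝕋 = heckeAlgebra N 2 S`, `K = Frac 𝒪`.  The ring `K ⊗[ℤ] 𝕋` is reduced
(`S31.H862.heckeAlgebra_isReduced` = Petersson, `S31.H262.isReduced_field_tensor`) and artinian
(`𝕋` is finite over `ℤ`: landed S22), hence semisimple, so every quotient of it is reduced.
`K ⊗[𝒪] T` is such a quotient because `T` is generated over `𝒪` by the image of `π`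
(`adjoin_range_π`), and `T ↪ K ⊗[𝒪] T` because `T` is `𝒪`-free.

Abstract, reusable (no modular forms): `isReduced_of_surjective_of_isArtinianRing`,
`compMap`, `compMap_surjective`, `isReduced_of_adjoin_range`.
-/

set_option autoImplicit false
set_option linter.style.haveILetI false
set_option linter.unusedSectionVars false

open scoped TensorProduct

namespace Fermat.Agent.S32.H185

/-- A quotient of a reduced artinian commutative ring is reduced. -/
theorem isReduced_of_surjective_of_isArtinianRing {R R' : Type*} [CommRing R] [CommRing R']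
    [IsArtinianRing R] [IsReduced R] (f : R →+* R') (hf : Function.Surjective f) :
    IsReduced R' := by
  haveI : IsSemisimpleRing R := IsArtinianRing.isSemisimpleRing_of_isReduced R
  haveI : IsSemisimpleRing R' := f.isSemisimpleRing_of_surjective hf
  infer_instance

section

variable {𝒪 : Type} [CommRing 𝒪] (K : Type) [Field K] [Algebra 𝒪 K]
  {B : Type} [CommRing B] {T : Type} [CommRing T] [Algebra 𝒪 T]

/-- `B → K ⊗[𝒪] T`, as a `ℤ`-algebra homomorphism. -/
noncomputable def rightHom (π : B →+* T) : B →ₐ[ℤ] K ⊗[𝒪] T where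
  toRingHom := (Algebra.TensorProduct.includeRight : T →ₐ[𝒪] K ⊗[𝒪] T).toRingHom.comp π
  commutes' n := by
    rw [eq_intCast (algebraMap ℤ B) n, eq_intCast (algebraMap ℤ (K ⊗[𝒪] T)) n]
    simp

/-- `K → K ⊗[𝒪] T`, as a `ℤ`-algebra homomorphism. -/
noncomputable def leftHom : K →ₐ[ℤ] K ⊗[𝒪] T where
  toRingHom := (Algebra.TensorProduct.includeLeft : K →ₐ[𝒪] K ⊗[𝒪] T).toRingHom
  commutes' n := by
    rw [eq_intCast (algebraMap ℤ K) n, eq_intCast (algebraMap ℤ (K ⊗[𝒪] T)) n]
    simp

/-- The comparison map `K ⊗[ℤ] B → K ⊗[𝒪] T`, `k ⊗ b ↦ k ⊗ π b`. -/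
noncomputable def compMap (π : B →+* T) : K ⊗[ℤ] B →ₐ[ℤ] K ⊗[𝒪] T :=
  Algebra.TensorProduct.lift (leftHom (𝒪 := 𝒪) (T := T) K) (rightHom K π)
    (fun _ _ => Commute.all _ _)

theorem compMap_tmul (π : B →+* T) (k : K) (b : B) :
    compMap K π (k ⊗ₜ b) = k ⊗ₜ[𝒪] π b := by
  unfold compMap
  rw [Algebra.TensorProduct.lift_tmul]
  show (k ⊗ₜ[𝒪] (1 : T)) * ((1 : K) ⊗ₜ[𝒪] π b) = _
  rw [Algebra.TensorProduct.tmul_mul_tmul, one_mul, mul_one]

/-- If `T` is generated over `𝒪` by the image of `π`, the comparison map is surjective. -/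
theorem compMap_surjective (π : B →+* T) (hπ : Algebra.adjoin 𝒪 (Set.range π) = ⊤) :
    Function.Surjective (compMap (𝒪 := 𝒪) K π) := by
  have hright : ∀ t : T, (1 : K) ⊗ₜ[𝒪] t ∈ (compMap (𝒪 := 𝒪) K π).range := by
    intro t
    have ht : t ∈ Algebra.adjoin 𝒪 (Set.range π) := by rw [hπ]; trivial
    induction ht using Algebra.adjoin_induction with
    | mem x hx =>
      obtain ⟨b, rfl⟩ := hx
      exact ⟨1 ⊗ₜ b, compMap_tmul K π 1 b⟩
    | algebraMap r =>
      refine ⟨algebraMap 𝒪 K r ⊗ₜ 1, (compMap_tmul K π _ _).trans ?_⟩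
      rw [_root_.map_one, Algebra.algebraMap_eq_smul_one, Algebra.algebraMap_eq_smul_one,
        TensorProduct.smul_tmul]
    | add x y _ _ hx hy =>
      rw [TensorProduct.tmul_add]
      exact (compMap (𝒪 := 𝒪) K π).range.add_mem hx hy
    | mul x y _ _ hx hy =>
      have : (1 : K) ⊗ₜ[𝒪] (x * y) = ((1 : K) ⊗ₜ[𝒪] x) * ((1 : K) ⊗ₜ[𝒪] y) := by
        rw [Algebra.TensorProduct.tmul_mul_tmul, one_mul]
      rw [this]
      exact (compMap (𝒪 := 𝒪) K π).range.mul_mem hx hy
  intro z
  have : z ∈ (compMap (𝒪 := 𝒪) K π).range := by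
    induction z using TensorProduct.induction_on with
    | zero => exact (compMap (𝒪 := 𝒪) K π).range.zero_mem
    | tmul k t =>
      have : k ⊗ₜ[𝒪] t = (k ⊗ₜ[𝒪] (1 : T)) * ((1 : K) ⊗ₜ[𝒪] t) := by
        rw [Algebra.TensorProduct.tmul_mul_tmul, one_mul, mul_one]
      rw [this]
      refine (compMap (𝒪 := 𝒪) K π).range.mul_mem
        ⟨k ⊗ₜ 1, (compMap_tmul K π _ _).trans ?_⟩ (hright t)
      rw [_root_.map_one]
    | add x y hx hy => exact (compMap (𝒪 := 𝒪) K π).range.add_mem hx hy
  exact this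

/-- **Abstract form of RED.**  `T` a flat `𝒪`-algebra, `𝒪 ⊆ K` a field, `T` generated over `𝒪`
by the image of a ring homomorphism from a ring `B`, finite over `ℤ`, with `K ⊗[ℤ] B` reduced.
Then `T` is reduced. -/
theorem isReduced_of_adjoin_range [Module.Flat 𝒪 T] [Module.Finite ℤ B]
    (hK : Function.Injective (algebraMap 𝒪 K)) (hB : IsReduced (K ⊗[ℤ] B))
    (π : B →+* T) (hπ : Algebra.adjoin 𝒪 (Set.range π) = ⊤) : IsReduced T := by
  haveI : Module.Finite K (K ⊗[ℤ] B) := inferInstance
  haveI : IsArtinianRing (K ⊗[ℤ] B) := isArtinian_of_tower K inferInstance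
  haveI : IsReduced (K ⊗[𝒪] T) :=
    isReduced_of_surjective_of_isArtinianRing (compMap (𝒪 := 𝒪) K π).toRingHom
      (compMap_surjective K π hπ)
  exact isReduced_of_injective (Algebra.TensorProduct.includeRight : T →ₐ[𝒪] K ⊗[𝒪] T)
    (Algebra.TensorProduct.includeRight_injective hK)

end

/-- **RED** (exact `Prop` of `S32/Spec.lean`): the coefficient ring `T` of a Hecke–Galois datum
is reduced. -/
theorem red : Fermat.Agent.S32.RedStatement := by
  intro N _ S hNS 𝒪 _ _ _ _ _ θ T _ _ _ _ _ _ _ _ H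
  haveI : Module.Finite ℤ (CuspForm.heckeAlgebra N 2 (↑S : Set ℕ)) :=
    Fermat.Agent.S22.result N 2 (↑S : Set ℕ)
  haveI : IsReduced (CuspForm.heckeAlgebra N 2 (↑S : Set ℕ)) :=
    Fermat.Agent.S31.H862.heckeAlgebra_isReduced N (↑S : Set ℕ) hNS
  haveI : CharZero (FractionRing 𝒪) :=
    charZero_of_injective_algebraMap (IsFractionRing.injective 𝒪 (FractionRing 𝒪))
  exact isReduced_of_adjoin_range (FractionRing 𝒪)
    (IsFractionRing.injective 𝒪 (FractionRing 𝒪))
    (Fermat.Agent.S31.H262.isReduced_field_tensor _ (FractionRing 𝒪)) H.π H.adjoin_range_π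

end Fermat.Agent.S32.H185

end
-- ===== PACK-END S32/H185/Red.lean

-- ===== PACK-BEGIN S28/H807/Analytic.lean
section
/-
S28 / helper807 — UNCONDITIONAL prime-level analytic inputs `[A-Φ]`, `[A-W]` of the captain
skeleton: `Nonempty (ModPolyData p)` and `Nonempty (UnitPolyData p)` for every prime `p`.

Bridge facts used (already on main): helper565 (`q`-expansions of `j`, `Δ`, `Δ⁻¹`,
`SL(2,ℤ)`-invariance of `j`) and helper685 (level-one polynomial principle, `S`-invariant form).
-/





set_option autoImplicit false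
set_option maxHeartbeats 400000

noncomputable section

open ModularCurve Polynomial Matrix UpperHalfPlane
open scoped MatrixGroups

namespace Fermat.Agent.S28.H807

open Fermat.Agent.S28

theorem hasQExp_iff_hasTExp (c : LaurentSeries ℂ) (F : ℍ → ℂ) :
    HasQExp c F ↔ H565.HasTExp 1 F c := by
  rw [hasQExp_iff]
  rfl

theorem hasQExp_iff_hasQLaurent (c : LaurentSeries ℂ) (F : ℍ → ℂ) :
    HasQExp c F ↔ H685.HasQLaurent 1 F c := by
  rw [hasQExp_iff]
  rfl

theorem evalJ_eq_aeval (P : Polynomial ℂ) :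
    evalJ ℂ P = Polynomial.aeval (jqModC ℂ) P := by
  unfold evalJ
  rw [Polynomial.aeval_def]
  congr 1
  ext c : 1
  exact (H685.algebraMap_eq_C c).symm

/-- The polynomial principle holds (helper685). -/
theorem polyPrinciple : PolyPrinciple := by
  intro c F hF hS
  obtain ⟨P, hP, -⟩ := H685.exists_polynomial_of_S_invariant' F c
    ((hasQExp_iff_hasQLaurent c F).mp hF) hS
  exact ⟨P, by rw [evalJ_eq_aeval]; exact hP⟩

theorem hasQExp_jFun : HasQExp (jqModC ℂ) H565.jFun :=
  (hasQExp_iff_hasTExp _ _).mpr H565.hasTExp_jFun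

theorem coeffMap_deltaL : coeffMap (Int.castRingHom ℂ) (deltaL ℤ) = H565.deltaSeriesC := by
  unfold deltaL H565.deltaSeriesC
  rw [_root_.map_mul, coeffMap_single, coeffMap_ofPowerSeries, _root_.map_one]
  congr 2
  rw [← H565.map_dedekindEtaUnit]
  ext n
  simp

theorem coeffMap_deltaInvL :
    coeffMap (Int.castRingHom ℂ) (deltaInvL ℤ) = H565.deltaInvSeriesC := by
  unfold deltaInvL H565.deltaInvSeriesC H565.etaInvC
  rw [_root_.map_mul, coeffMap_single, coeffMap_ofPowerSeries, _root_.map_one]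
  congr 2

theorem discriminant_smul_denom (γ : SL(2, ℤ)) (τ : ℍ) :
    ModularForm.discriminant (γ • τ) = (denom γ τ) ^ 12 * ModularForm.discriminant τ := by
  rw [H565.discriminant_smul, ModularGroup.denom_apply]
  norm_cast

variable (p : ℕ) [NeZero p]

/-- **[A-Φ]** (captain stub `nonempty_modPolyData`): the modular polynomial of prime level. -/
theorem nonempty_modPolyData (hp : p.Prime) : Nonempty (ModPolyData p) :=
  nonempty_modPolyData_of p hp polyPrinciple H565.jFun H565.jFun_smul hasQExp_jFun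

/-- **[A-W]** (captain stub `nonempty_unitPolyData`): `p¹² Δ(q^p)/Δ(q)` is integral over
`ℤ[j]`. -/
theorem nonempty_unitPolyData (hp : p.Prime) : Nonempty (UnitPolyData p) :=
  nonempty_unitPolyData_of p hp polyPrinciple ModularForm.discriminant
    ModularForm.discriminant_ne_zero discriminant_smul_denom
    (by rw [coeffMap_deltaL]; exact (hasQExp_iff_hasTExp _ _).mpr H565.hasTExp_discriminant)
    (by rw [coeffMap_deltaInvL]; exact (hasQExp_iff_hasTExp _ _).mpr H565.hasTExp_discriminant_inv)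

end Fermat.Agent.S28.H807

end

end
-- ===== PACK-END S28/H807/Analytic.lean

-- ===== PACK-BEGIN S28/H988/Degree.lean
section
/-
S28 degree API (helper988), UNCONDITIONAL, for consumers in rows S18 / S37 / A2.
`E_N(k) := modularFunctionFieldFullC k N = k(j(q^d) : d ∣ N) ⊂ k((q))`.

* `relfinrank_jField_full_eq`  : `[E_N(k) : k(j)] = ψ(N)`            (all primes `p ∣ N` invertible in `k`)
* `relfinrank_full_mul_prime`  : `[E_{Np}(k) : E_N(k)] = p + 1` (`p ∤ N`), `= p` (`p ∣ N`)
* `modularFunctionFieldBar_eq_fullC` : the Prelude's `ℚ̄`-function field of `X₀(N)` is `E_N(ℚ̄)`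
* `relfinrank_bar_mul_prime`, `relfinrank_jField_bar_eq` : the same for `modularFunctionFieldBar`.
-/







set_option autoImplicit false

noncomputable section

open ModularCurve IntermediateField

namespace Fermat.Agent.S28.H988

section AnyField

variable (k : Type*) [Field k]

/-- All hypotheses of helper867's degree theory hold as soon as the primes dividing `N` are
invertible in `k`. -/
theorem good_of_char (N : ℕ) (hN : N ≠ 0) (hchar : ∀ p : ℕ, p.Prime → p ∣ N → (p : k) ≠ 0) :
    H867.Good k N :=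
  H867.good_of_inputs k N hN (fun p hp _ _ => H807.nonempty_modPolyData p hp)
    (fun p hp _ _ => H807.nonempty_unitPolyData p hp) H25.theta_identity hchar

/-- **Degree formula.** `[k(j(q^d) : d ∣ N) : k(j)] = ψ(N)`. -/
theorem relfinrank_jField_full_eq (N : ℕ) (hN : N ≠ 0)
    (hchar : ∀ p : ℕ, p.Prime → p ∣ N → (p : k) ≠ 0) :
    (jField k).relfinrank (modularFunctionFieldFullC k N) = dedekindPsi N := by
  have h := (good_of_char k N hN hchar).degE_eq
  rw [H867.gFun_eq_dedekindPsi hN] at h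
  exact h

theorem dedekindPsi_pos (N : ℕ) (hN : N ≠ 0) : 0 < dedekindPsi N := by
  rw [← H867.gFun_eq_dedekindPsi hN]
  exact H867.gFun_pos N

/-- **Degree of the tower step.** `[E_{Np} : E_N] = p + 1` if `p ∤ N`, `= p` if `p ∣ N`. -/
theorem relfinrank_full_mul_prime (N p : ℕ) (hN : N ≠ 0) (hp : p.Prime)
    (hchar : ∀ r : ℕ, r.Prime → r ∣ N * p → (r : k) ≠ 0) :
    (modularFunctionFieldFullC k N).relfinrank (modularFunctionFieldFullC k (N * p)) =
      if p ∣ N then p else p + 1 := by
  have hNp : N * p ≠ 0 := Nat.mul_ne_zero hN hp.ne_zero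
  have hdvd : N ∣ N * p := Dvd.intro p rfl
  have hG := good_of_char k (N * p) hNp hchar
  have htower := hG.tower hdvd
  have h1 : H867.degE k N = dedekindPsi N :=
    relfinrank_jField_full_eq k N hN (fun r hr hrN => hchar r hr (hrN.trans hdvd))
  have h2 : H867.degE k (N * p) = dedekindPsi (N * p) :=
    relfinrank_jField_full_eq k (N * p) hNp hchar
  rw [h1, h2] at htower
  have hpos := dedekindPsi_pos N hN
  by_cases hpN : p ∣ N
  · rw [if_pos hpN]
    rw [H626.psi_mul_prime_of_dvd hN hp hpN, mul_comm p] at htower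
    exact Nat.eq_of_mul_eq_mul_left hpos htower
  · rw [if_neg hpN]
    rw [H626.psi_mul_prime_of_not_dvd hN hp hpN, mul_comm (p + 1)] at htower
    exact Nat.eq_of_mul_eq_mul_left hpos htower

end AnyField

section Bar

variable (L : Type*) [Field L] [Algebra ℚ L]

theorem image_divisorExpansions_eq (N : ℕ) :
    ⇑(coeffEmb L) '' divisorExpansions N = divisorExpansionsC L N := by
  ext x
  constructor
  · rintro ⟨y, ⟨d, hne, hd, rfl⟩, rfl⟩
    refine ⟨d, hne, hd, ?_⟩
    rw [coeffEmb, ← jqModC_rat, coeffMap_qExpand, coeffMap_jqModC]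
  · rintro ⟨d, hne, hd, rfl⟩
    refine ⟨qExpand ℚ d jq, ⟨d, hne, hd, rfl⟩, ?_⟩
    rw [coeffEmb, ← jqModC_rat, coeffMap_qExpand, coeffMap_jqModC]

/-- The base change of the Prelude's `ℚ`-function field is `L(j(q^d) : d ∣ N)`. -/
theorem laurentBaseChange_full_eq_fullC (N : ℕ) :
    laurentBaseChange L (modularFunctionFieldFull N) = modularFunctionFieldFullC L N := by
  rw [modularFunctionFieldFull, Fermat.Agent.S24.H368.laurentBaseChange_adjoin,
    image_divisorExpansions_eq]
  rfl

end Bar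

/-- The Prelude's function field of `X₀(N)` over `ℚ̄` is `ℚ̄(j(q^d) : d ∣ N)`. -/
theorem modularFunctionFieldBar_eq_fullC (N : ℕ) :
    modularFunctionFieldBar N = modularFunctionFieldFullC (AlgebraicClosure ℚ) N :=
  laurentBaseChange_full_eq_fullC _ N

theorem natCast_ne_zero_bar {p : ℕ} (hp : p ≠ 0) : ((p : ℕ) : AlgebraicClosure ℚ) ≠ 0 :=
  Nat.cast_ne_zero.mpr hp

/-- `[ℚ̄(X₀(N)) : ℚ̄(j)] = ψ(N)`. -/
theorem relfinrank_jField_bar_eq (N : ℕ) (hN : N ≠ 0) :
    (jField (AlgebraicClosure ℚ)).relfinrank (modularFunctionFieldBar N) = dedekindPsi N := by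
  rw [modularFunctionFieldBar_eq_fullC]
  exact relfinrank_jField_full_eq _ N hN (fun p hp _ => natCast_ne_zero_bar hp.ne_zero)

/-- `[ℚ̄(X₀(Np)) : ℚ̄(X₀(N))] = p + 1` if `p ∤ N`, `= p` if `p ∣ N`. -/
theorem relfinrank_bar_mul_prime (N p : ℕ) (hN : N ≠ 0) (hp : p.Prime) :
    (modularFunctionFieldBar N).relfinrank (modularFunctionFieldBar (N * p)) =
      if p ∣ N then p else p + 1 := by
  rw [modularFunctionFieldBar_eq_fullC, modularFunctionFieldBar_eq_fullC]
  exact relfinrank_full_mul_prime _ N p hN hp (fun r hr _ => natCast_ne_zero_bar hr.ne_zero)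

end Fermat.Agent.S28.H988

end

end
-- ===== PACK-END S28/H988/Degree.lean

-- ===== PACK-BEGIN S18/Mod/H216/IntegJ.lean
section


/-!
# S18 / MOD (helper216): integrality of the S28 monomials over `Rc[j]`, and G-V, G-QEP for `x = j`

* `isIntegral_jd` : `j(q^d)` is integral over `Rc[j]` (from `CoreData.integral`).
* `isIntegral_toOm_yInt` : the monomials `yᵢ ∈ ℤ[j_d : d ∣ M]` are integral over `Rc[j]`.
* `partV_j`, `partQep_j` : `PartV`, `PartQep` for `(Fc M E, Rc M A E, Vc M A E, w, jOm M)` from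
  `CoreData M κ`, `κ` the residue field of `A`.
-/

set_option autoImplicit false
set_option linter.unusedSectionVars false

noncomputable section

namespace Fermat.Agent.S18.Mod.H216

open ModularCurve AlgebraicCurve HahnSeries Polynomial Fermat.Agent.S18 Fermat.Agent.S18.Mod
open Fermat.Agent.S28 Fermat.Agent.S18.Alg

variable {M : ℕ} [NeZero M] (A : ValuationSubring Qb) (E : IntermediateField ℚ Qb)

/-- `ℤ((q)) → Q̄((q))`. -/
abbrev phiZ : LaurentSeries ℤ →+* LaurentSeries Qb := coeffMap (Int.castRingHom Qb)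

theorem coe_jd_eq_phiZ (d : ℕ) [NeZero d] (hd : d ∣ M) :
    ((jd M d hd : Om M) : LaurentSeries Qb) = phiZ (qExpand ℤ d (jqModC ℤ)) := by
  rw [coe_jd, coeffEmb, coeffMap_qExpand, coeffMap_qExpand, ← jqModC_rat, coeffMap_jqModC,
    coeffMap_jqModC]

theorem intCast_mem_Rc (k : ℤ) : (k : Om M) ∈ Rc M A E := intCast_mem _ k

theorem aeval_jOm_mem_polyRing (g : Polynomial ℤ) :
    Polynomial.aeval (jOm M) g ∈ polyRing (Rc M A E) (jOm M) := by
  rw [Polynomial.aeval_eq_sum_range]
  refine sum_mem fun i _ => ?_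
  rw [zsmul_eq_mul]
  exact mul_mem (le_polyRing _ _ (intCast_mem_Rc A E _)) (pow_mem (self_mem_polyRing _ _) i)

/-- `ℤ[X] → Rc[j]`. -/
def psiZ : Polynomial ℤ →+* ↥(polyRing (Rc M A E) (jOm M)) :=
  (Polynomial.aeval (R := ℤ) (jOm M)).toRingHom.codRestrict (polyRing (Rc M A E) (jOm M))
    (aeval_jOm_mem_polyRing A E)

theorem omVal_comp_aeval :
    (omVal M).comp (Polynomial.aeval (R := ℤ) (jOm M)).toRingHom =
      phiZ.comp (evalAt (jqModC ℤ)) := by
  apply Polynomial.ringHom_ext
  · intro k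
    simp
  · simp only [RingHom.comp_apply, AlgHom.toRingHom_eq_coe, RingHom.coe_coe, Polynomial.aeval_X,
      omVal_apply]
    rw [coe_jOm, coeffMap_jqModC]

theorem isIntegral_jd
    (hint : ∀ (d : ℕ) [NeZero d], d ∣ M → ∃ P : Polynomial (Polynomial ℤ), P.Monic ∧
      P.eval₂ (evalAt (jqModC ℤ)) (qExpand ℤ d (jqModC ℤ)) = 0)
    (d : ℕ) [NeZero d] (hd : d ∣ M) :
    IsIntegral (polyRing (Rc M A E) (jOm M)) (jd M d hd) := by
  obtain ⟨P, hmonic, hroot⟩ := hint d hd
  refine ⟨P.map (psiZ A E), hmonic.map _, ?_⟩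
  rw [Polynomial.eval₂_map]
  have hcomp : (algebraMap ↥(polyRing (Rc M A E) (jOm M)) (Om M)).comp (psiZ A E) =
      (Polynomial.aeval (R := ℤ) (jOm M)).toRingHom := rfl
  rw [hcomp]
  apply omVal_injective M
  rw [_root_.map_zero, Polynomial.hom_eval₂, omVal_comp_aeval, omVal_apply, coe_jd_eq_phiZ,
    ← Polynomial.hom_eval₂, hroot, _root_.map_zero]

variable {n : ℕ} {y : Fin n → LaurentSeries ℤ}

theorem isIntegral_toOm_yInt (hS : H516.SpansQ M y)
    (hint : ∀ (d : ℕ) [NeZero d], d ∣ M → ∃ P : Polynomial (Polynomial ℤ), P.Monic ∧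
      P.eval₂ (evalAt (jqModC ℤ)) (qExpand ℤ d (jqModC ℤ)) = 0)
    (i : Fin n) :
    IsIntegral (polyRing (Rc M A E) (jOm M)) (toOm M A E (yInt A E hS i)) := by
  have hle : Subring.closure (intDivisorExpansions M) ≤
      Subring.comap phiZ
        ((integralClosure ↥(polyRing (Rc M A E) (jOm M)) (Om M)).toSubring.map (omVal M)) := by
    rw [Subring.closure_le]
    rintro z ⟨d, hd, hdM, rfl⟩
    haveI := hd
    exact ⟨jd M d hdM, isIntegral_jd A E hint d hdM, coe_jd_eq_phiZ d hdM⟩
  obtain ⟨f, hf, hfy⟩ := hle (hS.1 i)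
  have : f = toOm M A E (yInt A E hS i) := by
    apply Subtype.ext
    rw [coe_toOm_yInt]
    exact hfy
  rw [← this]
  exact hf

/-! ### G-V and G-QEP for `x = j` -/

/-- **G-V** for the coordinate `j`. -/
theorem partV_j (core : CoreData M (IsLocalRing.ResidueField ↥A)) {w : Om M}
    (hR : PartR (Ec M E) (Rc M A E) w) :
    PartV (Fc M E) (Rc M A E) (Vc M A E) w (jOm M) := by
  obtain ⟨n, y, hy, hspan, hli⟩ := core.exists_basis
  have hS : H516.SpansQ M y := ⟨hy, hspan⟩
  exact
    { V_le := Vc_le_Fc M A E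
      V_total := V_total_j A E hS hli
      R_le_V := R_le_V M A E
      w_inv_not_mem_V := w_inv_not_mem_V M A E hR
      V_gen := V_gen M A E hR
      x_mem_V := jOm_mem_Vc M A E
      gauss := gauss_j M A E }

/-- **G-QEP** for the coordinate `j`. -/
theorem partQep_j (core : CoreData M (IsLocalRing.ResidueField ↥A)) {w : Om M}
    (hR : PartR (Ec M E) (Rc M A E) w) :
    PartQep (Fc M E) (Rc M A E) (Vc M A E) w (jOm M) := by
  obtain ⟨n, y, hy, hspan, hli⟩ := core.exists_basis
  have hS : H516.SpansQ M y := ⟨hy, hspan⟩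
  exact partQep_of_den hR (partV_j A E core hR) (Ec_le_Fc M E) (jOm_mem_Vc M A E)
    (injective_evR_j A E)
    (denAt_j A E hR hS hli (isIntegral_toOm_yInt A E hS (fun d _ hd => core.integral d hd)))

end Fermat.Agent.S18.Mod.H216

end
end
-- ===== PACK-END S18/Mod/H216/IntegJ.lean

-- ===== PACK-BEGIN S18/Mod/H216/NodeJ.lean
section






/-!
# S18 / MOD (helper216): G-V and G-QEP for the coordinate `j` — UNCONDITIONAL

For `ℓ ∤ M` and `A` over `ℓ`:
* `coreData_residue` : S28 `CoreData M κ` for the residue field `κ` of `A`;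
* `partVStatement_j`   : `PartVStatement M A (jOm M)`;
* `partQepStatement_j` : `PartQepStatement M A (jOm M)`.
-/

set_option autoImplicit false
set_option linter.unusedSectionVars false

noncomputable section

namespace Fermat.Agent.S18.Mod.H216

open ModularCurve AlgebraicCurve HahnSeries Polynomial Fermat.Agent.S18 Fermat.Agent.S18.Mod
open Fermat.Agent.S28 Fermat.Agent.S18.Alg

variable {M : ℕ} [NeZero M] {ℓ : ℕ} [Fact ℓ.Prime] (A : ValuationSubring Qb)

theorem charP_residue (hA : A.LiesOverPrime ℓ) : CharP (IsLocalRing.ResidueField ↥A) ℓ := by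
  have hp : ℓ.Prime := Fact.out
  rw [CharP.charP_iff_prime_eq_zero hp]
  obtain ⟨ha, hmem⟩ := (ValuationSubring.mem_nonunits_iff_exists_mem_maximalIdeal).mp hA
  have h1 : IsLocalRing.residue ↥A ⟨(ℓ : Qb), ha⟩ = 0 :=
    (IsLocalRing.residue_eq_zero_iff _).mpr hmem
  have h2 : (⟨(ℓ : Qb), ha⟩ : ↥A) = ((ℓ : ℕ) : ↥A) := Subtype.ext (by simp)
  rw [h2, _root_.map_natCast] at h1
  exact h1

/-- S28 `CoreData` over the residue field of `A`. -/
theorem coreData_residue (hℓM : ¬ ℓ ∣ M) (hA : A.LiesOverPrime ℓ) :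
    CoreData M (IsLocalRing.ResidueField ↥A) := by
  haveI := charP_residue A hA
  exact H867.coreData_of_inputs M ℓ hℓM (IsLocalRing.ResidueField ↥A)
    (fun p hp _ _ => H807.nonempty_modPolyData p hp)
    (fun p hp _ _ => H807.nonempty_unitPolyData p hp)
    H25.theta_identity

/-- **G-V for `x = j`** (exact target `PartVStatement M A (jOm M)`). -/
theorem partVStatement_j (hℓM : ¬ ℓ ∣ M) (hA : A.LiesOverPrime ℓ) :
    PartVStatement M A (jOm M) :=
  fun E _ _ hR => partV_j A E (coreData_residue A hℓM hA) hR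

/-- **G-QEP for `x = j`** (exact target `PartQepStatement M A (jOm M)`). -/
theorem partQepStatement_j (hℓM : ¬ ℓ ∣ M) (hA : A.LiesOverPrime ℓ) :
    PartQepStatement M A (jOm M) :=
  fun E _ _ hR => partQep_j A E (coreData_residue A hℓM hA) hR

end Fermat.Agent.S18.Mod.H216

end
end
-- ===== PACK-END S18/Mod/H216/NodeJ.lean

-- ===== PACK-BEGIN S18/H24/Finite.lean
section




/-!
# S18 / node_mod, part G-FLD (helper24) — the field `finite` for `x = j`

`field_finite_j` : for every intermediate field `E` of `Q̄/ℚ` and every level `M ≥ 1`,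

    ∃ s : Finset (Om M), ↑s ⊆ Fc M E ∧ ∀ f ∈ Fc M E, f ∈ Submodule.span (ratField (Ec M E) (jOm M)) ↑s

(exact type of the field `finite` of `Alg.GoodModel` at the concrete objects, `x = jOm M`).

Proof: `Fc = Ec(j)(j_d : d ∣ M)`, finitely many generators, each integral over `ℤ[j]`
(modular polynomials, S28 `H867.coreData_integral` + `H807.nonempty_modPolyData`).
`field_finite_of_mem` : the same for any coordinate `x ∈ Fc` with `j ∈ Ec(x)` (e.g. `t₂`, `t₃`).
-/

set_option autoImplicit false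

noncomputable section

namespace Fermat.Agent.S18.H24

open ModularCurve AlgebraicCurve HahnSeries Fermat.Agent.S18 Fermat.Agent.S18.Mod
open Fermat.Agent.S18.Alg Fermat.Agent.S18.H456 Fermat.Agent.S28 Polynomial

variable (M : ℕ) [NeZero M] (E : IntermediateField ℚ Qb)

/-- `ℤ[Y] → Ω`, `Y ↦ j`. -/
def evJOm : Polynomial ℤ →+* Om M := (Polynomial.aeval (R := ℤ) (jOm M)).toRingHom

/-- The subtype map `Ω → Q̄((q))` as a ring hom. -/
abbrev valHom : Om M →+* LaurentSeries Qb := (modularFunctionFieldBar M).val.toRingHom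

theorem valHom_injective : Function.Injective (valHom M) := Subtype.val_injective

theorem val_jd' (d : ℕ) [NeZero d] (hd : d ∣ M) :
    valHom M (jd M d hd) = coeffMap (Int.castRingHom Qb) (qExpand ℤ d (jqModC ℤ)) := by
  show coeffEmb Qb (qExpand ℚ d jq) = _
  have h1 : coeffEmb Qb (qExpand ℚ d jq) = jqNModC Qb d := coeffMap_jqNModC (algebraMap ℚ Qb) d
  have h2 : coeffMap (Int.castRingHom Qb) (jqNModC ℤ d) = jqNModC Qb d :=
    coeffMap_jqNModC (Int.castRingHom Qb) d
  exact h1.trans h2.symm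

theorem val_jOm' : valHom M (jOm M) = coeffMap (Int.castRingHom Qb) (jqModC ℤ) := by
  show ((jOm M : Om M) : LaurentSeries Qb) = _
  rw [val_jOm, coeffMap_jqModC]

/-- compatibility of the two evaluations `ℤ[Y] → Q̄((q))`. -/
theorem valHom_comp_evJOm :
    (valHom M).comp (evJOm M) =
      (coeffMap (Int.castRingHom Qb)).comp (evalAt (jqModC ℤ)) := by
  apply Polynomial.ringHom_ext
  · intro a
    simp [evJOm, evalAt]
  · show valHom M (Polynomial.aeval (jOm M) (X : Polynomial ℤ)) =
      coeffMap (Int.castRingHom Qb) (Polynomial.aeval (jqModC ℤ) (X : Polynomial ℤ))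
    rw [Polynomial.aeval_X, Polynomial.aeval_X]
    exact val_jOm' M

/-- `j_d` is a root of a monic polynomial with coefficients in `ℤ[j] ⊆ Ω`. -/
theorem exists_monic_root_jd (d : ℕ) [NeZero d] (hd : d ∣ M) :
    ∃ P : Polynomial (Polynomial ℤ), P.Monic ∧ (P.map (evJOm M)).eval (jd M d hd) = 0 := by
  obtain ⟨P, hP, hPe⟩ := H867.coreData_integral M
    (fun p hp _ _ => H807.nonempty_modPolyData p hp) d hd
  refine ⟨P, hP, ?_⟩
  apply valHom_injective M
  rw [_root_.map_zero, Polynomial.eval_map, Polynomial.hom_eval₂, valHom_comp_evJOm, val_jd',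
    ← Polynomial.hom_eval₂, hPe, _root_.map_zero]

theorem jOm_mem_ratField : jOm M ∈ ratField (Ec M E) (jOm M) :=
  Subfield.subset_closure (Or.inr rfl)

theorem Ec_le_ratField (x : Om M) : Ec M E ≤ ratField (Ec M E) x :=
  fun _ h => Subfield.subset_closure (Or.inl h)

theorem evJOm_mem_ratField (p : Polynomial ℤ) : evJOm M p ∈ ratField (Ec M E) (jOm M) := by
  show Polynomial.aeval (jOm M) p ∈ _
  rw [Polynomial.aeval_def, Polynomial.eval₂_eq_sum_range]
  refine Subfield.sum_mem _ fun i _ => ?_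
  refine mul_mem ?_ (pow_mem (jOm_mem_ratField M E) i)
  rw [eq_intCast]
  exact intCast_mem _ _

/-- `j_d` is integral over `Ec(j)`. -/
theorem isIntegral_jd (d : ℕ) [NeZero d] (hd : d ∣ M) :
    IsIntegral (ratField (Ec M E) (jOm M)) (jd M d hd) := by
  obtain ⟨P, hP, hroot⟩ := exists_monic_root_jd M d hd
  have hl : P.map (evJOm M) ∈ Polynomial.lifts (ratField (Ec M E) (jOm M)).subtype := by
    rw [Polynomial.lifts_iff_coeff_lifts]
    intro i
    rw [Polynomial.coeff_map]
    exact ⟨⟨_, evJOm_mem_ratField M E (P.coeff i)⟩, rfl⟩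
  obtain ⟨q, hq, -, hqm⟩ := Polynomial.lifts_and_natDegree_eq_and_monic hl (hP.map _)
  refine ⟨q, hqm, ?_⟩
  have : eval₂ (ratField (Ec M E) (jOm M)).subtype (jd M d hd) q =
      eval (jd M d hd) (q.map (ratField (Ec M E) (jOm M)).subtype) := (eval_map _ _).symm
  rw [show (algebraMap (ratField (Ec M E) (jOm M)) (Om M)) =
    (ratField (Ec M E) (jOm M)).subtype from rfl, this, hq, hroot]

theorem gens_finite : (gens M).Finite := by
  classical
  have : gens M ⊆ Set.range (fun d : {d : ℕ // d ∣ M ∧ d ≠ 0} =>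
      haveI : NeZero d.1 := ⟨d.2.2⟩
      jd M d.1 d.2.1) := by
    rintro y ⟨d, hd, hdM, rfl⟩
    exact ⟨⟨d, hdM, hd.out⟩, rfl⟩
  refine Set.Finite.subset ?_ this
  have hfin : Finite {d : ℕ // d ∣ M ∧ d ≠ 0} := by
    have : {d : ℕ | d ∣ M ∧ d ≠ 0} ⊆ (M.divisors : Set ℕ) := by
      intro d hd
      exact Nat.mem_divisors.mpr ⟨hd.1, NeZero.ne M⟩
    exact Set.Finite.subset (Finset.finite_toSet _) this
  exact Set.finite_range _

/-- `Fc` as an intermediate field over `Ec(j)`. -/
theorem Fc_eq_adjoin :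
    (Fc M E : Set (Om M)) =
      (IntermediateField.adjoin (ratField (Ec M E) (jOm M)) (gens M) : Set (Om M)) := by
  have hjF : jOm M ∈ Fc M E :=
    Subfield.subset_closure (Or.inr ⟨1, inferInstance, one_dvd M, rfl⟩)
  have hK : ratField (Ec M E) (jOm M) ≤ Fc M E := by
    refine Subfield.closure_le.mpr ?_
    rintro y (hy | hy)
    · exact field_E_le_F M E hy
    · rw [Set.mem_singleton_iff] at hy
      rw [hy]; exact hjF
  apply Set.Subset.antisymm
  · -- `Fc ⊆ adjoin`
    have : Fc M E ≤ (IntermediateField.adjoin (ratField (Ec M E) (jOm M)) (gens M)).toSubfield := by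
      refine Subfield.closure_le.mpr ?_
      rintro y (hy | hy)
      · exact IntermediateField.algebraMap_mem
          (IntermediateField.adjoin (ratField (Ec M E) (jOm M)) (gens M))
          (⟨y, Ec_le_ratField M E _ hy⟩ : ratField (Ec M E) (jOm M))
      · exact IntermediateField.subset_adjoin _ _ hy
    exact this
  · -- `adjoin ⊆ Fc`
    intro y hy
    have h : IntermediateField.adjoin (ratField (Ec M E) (jOm M)) (gens M) ≤
        Subfield.toIntermediateField (Fc M E) (fun x => hK x.2) := by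
      rw [IntermediateField.adjoin_le_iff]
      intro z hz
      exact Subfield.subset_closure (Or.inr hz)
    exact h hy

/-- **field `finite` for `x = j`.** -/
theorem field_finite_j :
    ∃ s : Finset (Om M), (s : Set (Om M)) ⊆ Fc M E ∧
      ∀ f ∈ Fc M E, f ∈ Submodule.span (ratField (Ec M E) (jOm M)) (s : Set (Om M)) := by
  classical
  set K := ratField (Ec M E) (jOm M) with hKdef
  set L := IntermediateField.adjoin K (gens M) with hLdef
  have hint : ∀ y ∈ gens M, IsIntegral K y := by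
    rintro y ⟨d, hd, hdM, rfl⟩
    exact isIntegral_jd M E d hdM
  haveI : Finite (gens M) := (gens_finite M).to_subtype
  haveI hfd : FiniteDimensional K L := IntermediateField.finiteDimensional_adjoin hint
  -- a finite spanning set of `L` over `K`
  obtain ⟨s, hs⟩ := (Module.finite_def (R := K) (M := L)).mp hfd
  refine ⟨s.image (fun y : L => (y : Om M)), ?_, ?_⟩
  · intro y hy
    rw [Finset.coe_image] at hy
    obtain ⟨z, -, rfl⟩ := hy
    have h0 : (z : Om M) ∈
        (IntermediateField.adjoin (ratField (Ec M E) (jOm M)) (gens M) : Set (Om M)) := z.2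
    rw [← Fc_eq_adjoin M E] at h0
    exact h0
  · intro f hf
    have hfL : f ∈ L := by
      have h0 : f ∈
          (IntermediateField.adjoin (ratField (Ec M E) (jOm M)) (gens M) : Set (Om M)) := by
        rw [← Fc_eq_adjoin M E]; exact hf
      exact h0
    have h1 : (⟨f, hfL⟩ : L) ∈ Submodule.span K (s : Set L) := by
      rw [hs]; exact Submodule.mem_top
    have h2 := Submodule.mem_map_of_mem (f := (L.val.toLinearMap : L →ₗ[K] Om M)) h1
    rw [Submodule.map_span] at h2
    rw [Finset.coe_image]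
    exact h2

omit [NeZero M] in
theorem span_mono_subfield {K₁ K₂ : Subfield (Om M)} (h : K₁ ≤ K₂) (s : Set (Om M)) {f : Om M}
    (hf : f ∈ Submodule.span K₁ s) : f ∈ Submodule.span K₂ s := by
  induction hf using Submodule.span_induction with
  | mem x hx => exact Submodule.subset_span hx
  | zero => exact Submodule.zero_mem _
  | add x y _ _ hx hy => exact Submodule.add_mem _ hx hy
  | smul c x _ hx =>
    have : c • x = (⟨(c : Om M), h c.2⟩ : K₂) • x := rfl
    rw [this]
    exact Submodule.smul_mem _ _ hx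

/-- **field `finite`** for every admissible coordinate. -/
theorem field_finite {ℓ : ℕ} {x : Om M} {S : Finset (Om M)} (hx : IsCoordinate M ℓ x S) :
    ∃ s : Finset (Om M), (s : Set (Om M)) ⊆ Fc M E ∧
      ∀ f ∈ Fc M E, f ∈ Submodule.span (ratField (Ec M E) x) (s : Set (Om M)) := by
  have hx0 : x ≠ 0 := by
    rintro rfl
    exact field_x_transcendental M hx isAlgebraic_zero
  have hxK : x ∈ ratField (Ec M E) x := Subfield.subset_closure (Or.inr rfl)
  have hnat : ∀ n : ℕ, (n : Om M) ∈ ratField (Ec M E) x := fun n => natCast_mem _ n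
  -- `j ∈ Ec(x)`
  have hj : jOm M ∈ ratField (Ec M E) x := by
    rcases hx with ⟨-, rfl, -⟩ | ⟨h | h, -⟩
    · exact hxK
    · obtain ⟨-, hid, -⟩ := h
      have : jOm M = (x + 256) ^ 3 * (x ^ 2)⁻¹ := by
        rw [← hid]; field_simp
      rw [this]
      exact mul_mem (pow_mem (add_mem hxK (by exact_mod_cast hnat 256)) 3)
        (inv_mem (pow_mem hxK 2))
    · obtain ⟨-, hid, -⟩ := h
      have : jOm M = (x + 27) * (x + 243) ^ 3 * (x ^ 3)⁻¹ := by
        rw [← hid]; field_simp
      rw [this]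
      exact mul_mem (mul_mem (add_mem hxK (by exact_mod_cast hnat 27))
        (pow_mem (add_mem hxK (by exact_mod_cast hnat 243)) 3)) (inv_mem (pow_mem hxK 3))
  have hle : ratField (Ec M E) (jOm M) ≤ ratField (Ec M E) x := by
    refine Subfield.closure_le.mpr ?_
    rintro y (hy | hy)
    · exact Ec_le_ratField M E x hy
    · rw [Set.mem_singleton_iff] at hy
      rw [hy]; exact hj
  obtain ⟨s, hs, hspan⟩ := field_finite_j M E
  exact ⟨s, hs, fun f hf => span_mono_subfield M hle _ (hspan f hf)⟩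

end Fermat.Agent.S18.H24

end
end
-- ===== PACK-END S18/H24/Finite.lean

-- ===== PACK-BEGIN S18/B12/H33/RegChart.lean
section






/-!
# S18 b2 (helper33): REG-CHART — `b2Regular` instantiated on the charts of helper138

Setting (the one of `H138.connected_special_fibre`): `R` a discrete valuation ring, `F` a field of
characteristic `0` which is an `R`-algebra, `x : F` transcendental over `R`,
`[FiniteDimensional (H138.baseField R x) F]`, and the chart
`B := H138.chart R {x} : Subalgebra R F` (the integral closure of `R[x]` in `F`).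

Main result `regularAlong_chart`:

    H754.RegularAlong (algebraMap R (H138.chart R {x}) w)

from
* `hdom` : `w` is prime in the chart (QEP),
* `hsep` : elementwise separability of the special fibre (shape of `H425.hsep_poly`),
* `S`, `hS` : the branch values, pairwise distinct mod `w`,
* `hNC` : for every prime `π` of `R[X]` not associated to `w` or to some `X - c` (`c ∈ S`), the
  ideal `π(x) B` is radical (unramifiedness away from `S`, from `GoodModel.unramified`).

All the instance plumbing (`R[X]`-algebra structure through `aeval x`, finiteness, torsion-freeness,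
integral closedness) is done here.  `regularAlong_chart_field` is the same theorem with the
hypotheses `hsep`, `hNC` stated by elements of `F`.
-/

set_option autoImplicit false
set_option linter.style.haveILetI false

noncomputable section

namespace Fermat.Agent.S18.B12.H33

open Polynomial

universe u v

section RegChart

variable (R : Type u) [CommRing R] {F : Type v} [Field F] [Algebra R F]

/-- The coordinate `x` as an element of the chart. -/
def chartX (x : F) : H138.chart R ({x} : Set F) := ⟨x, H138.mem_chart_of_mem rfl⟩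

/-- The structure map `R[X] → B`, `X ↦ x`. -/
def chartPolyHom (x : F) : R[X] →ₐ[R] H138.chart R ({x} : Set F) := aeval (chartX R x)

variable {R}

@[simp] theorem coe_chartX (x : F) : ((chartX R x : H138.chart R ({x} : Set F)) : F) = x := rfl

theorem chartPolyHom_apply (x : F) (p : R[X]) : chartPolyHom R x p = aeval (chartX R x) p := rfl

theorem coe_chartPolyHom (x : F) (p : R[X]) :
    ((chartPolyHom R x p : H138.chart R ({x} : Set F)) : F) = aeval x p := by
  have h := Polynomial.aeval_algHom_apply (H138.chart R ({x} : Set F)).val (chartX R x) p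
  rw [chartPolyHom_apply]
  exact h.symm

theorem chartPolyHom_C (x : F) (r : R) :
    chartPolyHom R x (C r) = algebraMap R (H138.chart R ({x} : Set F)) r := by
  rw [chartPolyHom_apply, aeval_C]

theorem chartPolyHom_injective {x : F} (hx : Transcendental R x) :
    Function.Injective (chartPolyHom R x) := by
  rw [injective_iff_map_eq_zero]
  intro p hp
  have h : aeval x p = 0 := by
    rw [← coe_chartPolyHom, hp]; rfl
  exact transcendental_iff.1 hx p h

theorem algebraMap_injective_of_transcendental {x : F} (hx : Transcendental R x) :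
    Function.Injective (algebraMap R F) := by
  rw [injective_iff_map_eq_zero]
  intro r hr
  have h : aeval x (C r : R[X]) = 0 := by rw [aeval_C, hr]
  have := transcendental_iff.1 hx _ h
  exact C_eq_zero.1 this

end RegChart

section Package

variable {R : Type u} [CommRing R] {F : Type v} [Field F] [Algebra R F]

/-- The `R[X]`-algebra structure of the chart (`X ↦ x`).  Not an instance. -/
@[reducible] def chartAlgebra (R : Type u) [CommRing R] {F : Type v} [Field F] [Algebra R F]
    (x : F) : Algebra R[X] (H138.chart R ({x} : Set F)) :=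
  (chartPolyHom R x).toRingHom.toAlgebra

/-- The chart is (tautologically) the integral closure of `R[x]` in `F`. -/
def chartEquiv (x : F) :
    integralClosure (Algebra.adjoin R ({x} : Set F)) F ≃+* H138.chart R ({x} : Set F) where
  toFun c := ⟨c.1, c.2⟩
  invFun c := ⟨c.1, c.2⟩
  left_inv _ := rfl
  right_inv _ := rfl
  map_mul' _ _ := rfl
  map_add' _ _ := rfl

/-- `R[X] ≃ R[x]` for transcendental `x`. -/
def polyEquivAdjoin {x : F} (hx : Transcendental R x) :
    R[X] ≃ₐ[R] Algebra.adjoin R ({x} : Set F) :=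
  (AlgEquiv.ofInjective (aeval (R := R) x)
    ((injective_iff_map_eq_zero _).2 (transcendental_iff.1 hx))).trans
      (Subalgebra.equivOfEq _ _ (Algebra.adjoin_singleton_eq_range_aeval R x).symm)

theorem coe_polyEquivAdjoin {x : F} (hx : Transcendental R x) (p : R[X]) :
    ((polyEquivAdjoin hx p : Algebra.adjoin R ({x} : Set F)) : F) = aeval x p := rfl

/-- The chart is integrally closed and finite over `R[X]`. -/
theorem chart_package [IsDomain R] [IsNoetherianRing R] [IsIntegrallyClosed R[X]] [CharZero F]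
    {x : F} (hx : Transcendental R x) [FiniteDimensional (H138.baseField R x) F] :
    IsIntegrallyClosed (H138.chart R ({x} : Set F)) ∧
      @Module.Finite R[X] (H138.chart R ({x} : Set F)) _ _ (chartAlgebra R x).toModule := by
  classical
  set A : Subalgebra R F := Algebra.adjoin R ({x} : Set F) with hA
  set K : Subfield F := H138.baseField R x with hK
  haveI := H138.isIntegrallyClosed_adjoin_singleton (R := R) hx
  haveI := H138.isNoetherianRing_adjoin_singleton (R := R) hx
  let φ : A →+* K :=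
    { toFun := fun a => ⟨a, H138.adjoin_le_baseField x a.2⟩
      map_one' := rfl
      map_mul' := fun _ _ => rfl
      map_zero' := rfl
      map_add' := fun _ _ => rfl }
  letI : Algebra A K := φ.toAlgebra
  haveI : IsScalarTower A K F := IsScalarTower.of_algebraMap_eq (fun _ => rfl)
  have hinj : Function.Injective (algebraMap A K) := by
    intro a b hab
    have : (a : F) = b := congrArg (fun t : K => (t : F)) hab
    exact Subtype.ext this
  haveI : FaithfulSMul A K := (faithfulSMul_iff_algebraMap_injective A K).2 hinj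
  haveI : IsFractionRing A K := by
    refine IsFractionRing.of_field A K (fun z => ?_)
    obtain ⟨a, ha, b, hb, h⟩ := H138.exists_div_of_mem_baseField (R := R) x z.2
    exact ⟨⟨a, ha⟩, ⟨b, hb⟩, Subtype.ext h⟩
  haveI : CharZero K := (algebraMap K F).charZero
  haveI hfinA : Module.Finite A (integralClosure A F) :=
    IsIntegralClosure.finite A K F (integralClosure A F)
  haveI hic : IsIntegrallyClosed (integralClosure A F) :=
    integralClosure.isIntegrallyClosedOfFiniteExtension K
  refine ⟨IsIntegrallyClosed.of_equiv (chartEquiv x), ?_⟩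
  letI := chartAlgebra R x
  refine Module.Finite.of_equiv_equiv (A₁ := A) (B₁ := integralClosure A F)
    (polyEquivAdjoin hx).symm.toRingEquiv (chartEquiv x) ?_
  refine RingHom.ext (fun a => ?_)
  obtain ⟨p, rfl⟩ := (polyEquivAdjoin hx).surjective a
  apply Subtype.ext
  simp only [RingHom.comp_apply, RingHom.coe_coe,
    AlgEquiv.coe_ringEquiv, AlgEquiv.symm_apply_apply]
  change ((chartPolyHom R x p : H138.chart R ({x} : Set F)) : F) = _
  rw [coe_chartPolyHom]
  rfl

end Package

section Coe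

variable {R : Type u} [CommRing R] {F : Type v} [Field F] [Algebra R F]

/-- Divisibility by `w` in the chart, in terms of elements of `F`. -/
theorem algebraMap_dvd_chart_iff {x : F} (w : R) (z : H138.chart R ({x} : Set F)) :
    algebraMap R (H138.chart R ({x} : Set F)) w ∣ z ↔
      ∃ t ∈ H138.chart R ({x} : Set F), (z : F) = algebraMap R F w * t := by
  constructor
  · rintro ⟨t, rfl⟩
    exact ⟨t, t.2, rfl⟩
  · rintro ⟨t, ht, h⟩
    exact ⟨⟨t, ht⟩, Subtype.ext h⟩

/-- Divisibility by `π(x)` in the chart, in terms of elements of `F`. -/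
theorem chartPolyHom_dvd_chart_iff {x : F} (π : R[X]) (z : H138.chart R ({x} : Set F)) :
    chartPolyHom R x π ∣ z ↔
      ∃ t ∈ H138.chart R ({x} : Set F), (z : F) = aeval x π * t := by
  constructor
  · rintro ⟨t, rfl⟩
    exact ⟨t, t.2, by rw [Subalgebra.coe_mul, coe_chartPolyHom]⟩
  · rintro ⟨t, ht, h⟩
    exact ⟨⟨t, ht⟩, Subtype.ext (by rw [Subalgebra.coe_mul, coe_chartPolyHom]; exact h)⟩

/-- Evaluation of a lifted polynomial, in terms of elements of `F`. -/
theorem coe_eval₂_chartPolyHom {x : F} (Q : R[X][X]) (b : H138.chart R ({x} : Set F)) :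
    ((Q.eval₂ (chartPolyHom R x : R[X] →+* H138.chart R ({x} : Set F)) b :
      H138.chart R ({x} : Set F)) : F)
      = (Q.map (aeval x : R[X] →ₐ[R] F).toRingHom).eval (b : F) := by
  have h := Polynomial.hom_eval₂ Q (chartPolyHom R x : R[X] →+* H138.chart R ({x} : Set F))
    (H138.chart R ({x} : Set F)).val.toRingHom b
  rw [eval_map]
  have hcomp : ((H138.chart R ({x} : Set F)).val.toRingHom.comp
      (chartPolyHom R x : R[X] →+* H138.chart R ({x} : Set F)))
      = (aeval x : R[X] →ₐ[R] F).toRingHom := by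
    refine RingHom.ext (fun p => ?_)
    exact coe_chartPolyHom x p
  rw [hcomp] at h
  exact h

end Coe

section Main

variable {R : Type u} [CommRing R] [IsDomain R] [IsDiscreteValuationRing R]
  {F : Type v} [Field F] [CharZero F] [Algebra R F]

/-- **REG-CHART.**  `b2Regular` on the chart `H138.chart R {x}`: the special fibre of the chart is
regular at every closed point. -/
theorem regularAlong_chart
    {x : F} (hx : Transcendental R x) [FiniteDimensional (H138.baseField R x) F]
    (w : R) (hw : Irreducible w)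
    (hdom : Prime (algebraMap R (H138.chart R ({x} : Set F)) w))
    (hsep : ∀ b : H138.chart R ({x} : Set F), ∃ P : R[X][X],
        algebraMap R (H138.chart R ({x} : Set F)) w ∣
          P.eval₂ (chartPolyHom R x : R[X] →+* H138.chart R ({x} : Set F)) b ∧
        ¬ algebraMap R (H138.chart R ({x} : Set F)) w ∣
          (derivative P).eval₂ (chartPolyHom R x : R[X] →+* H138.chart R ({x} : Set F)) b)
    (S : Finset R) (hS : ∀ c ∈ S, ∀ c' ∈ S, c ≠ c' → IsUnit (c - c'))
    (hNC : ∀ π : R[X], Prime π → ¬ Associated π (C w) → (∀ c ∈ S, ¬ Associated π (X - C c)) →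
        (Ideal.span {chartPolyHom R x π}).IsRadical) :
    H754.RegularAlong (algebraMap R (H138.chart R ({x} : Set F)) w) := by
  classical
  haveI : CharZero R := (algebraMap R F).charZero
  obtain ⟨hic, hfin⟩ := chart_package (R := R) hx
  letI := chartAlgebra R x
  haveI := hic
  haveI := hfin
  haveI : Module.IsTorsionFree R[X] (H138.chart R ({x} : Set F)) :=
    Module.isTorsionFree_iff_algebraMap_injective.2 (chartPolyHom_injective hx)
  have hCw : algebraMap R[X] (H138.chart R ({x} : Set F)) (C w)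
      = algebraMap R (H138.chart R ({x} : Set F)) w := chartPolyHom_C x w
  have hdom' : Prime (algebraMap R[X] (H138.chart R ({x} : Set F)) (C w)) := by
    rw [hCw]; exact hdom
  have hsep' := H425.hsep_poly R w hw (H138.chart R ({x} : Set F)) hdom' (by
    intro b
    obtain ⟨P, h1, h2⟩ := hsep b
    refine ⟨P, ?_, ?_⟩
    · rw [hCw]; exact h1
    · rw [hCw]; exact h2)
  have hreg := b2Regular.{u, v} R w hw (H138.chart R ({x} : Set F)) hdom' hsep' S hS hNC
  intro 𝔪 h𝔪 hw𝔪
  have := hreg 𝔪 h𝔪 (by rw [hCw]; exact hw𝔪)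
  rwa [hCw] at this

/-- **REG-CHART, field form.**  Same as `regularAlong_chart`, with `hsep` and `hNC` stated by
elements of `F`:
* `hsep` : for every `b` in the chart there is a polynomial `P` with coefficients in `R[x]` with
  `P(b) ∈ w B` and `P'(b) ∉ w B`;
* `hNC`  : for the primes `π` of `R[X]` away from `w` and the `X - c`, `c ∈ S`:
  `b ∈ B`, `b² ∈ π(x) B` ⟹ `b ∈ π(x) B`. -/
theorem regularAlong_chart_field
    {x : F} (hx : Transcendental R x) [FiniteDimensional (H138.baseField R x) F]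
    (w : R) (hw : Irreducible w)
    (hdom : Prime (algebraMap R (H138.chart R ({x} : Set F)) w))
    (hsep : ∀ b ∈ H138.chart R ({x} : Set F), ∃ P : F[X],
        (∀ i, P.coeff i ∈ Algebra.adjoin R ({x} : Set F)) ∧
        (∃ t ∈ H138.chart R ({x} : Set F), P.eval b = algebraMap R F w * t) ∧
        ¬ ∃ t ∈ H138.chart R ({x} : Set F), (derivative P).eval b = algebraMap R F w * t)
    (S : Finset R) (hS : ∀ c ∈ S, ∀ c' ∈ S, c ≠ c' → IsUnit (c - c'))
    (hNC : ∀ π : R[X], Prime π → ¬ Associated π (C w) → (∀ c ∈ S, ¬ Associated π (X - C c)) →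
        ∀ b ∈ H138.chart R ({x} : Set F),
          (∃ t ∈ H138.chart R ({x} : Set F), b ^ 2 = aeval x π * t) →
          ∃ t ∈ H138.chart R ({x} : Set F), b = aeval x π * t) :
    H754.RegularAlong (algebraMap R (H138.chart R ({x} : Set F)) w) := by
  refine regularAlong_chart hx w hw hdom ?_ S hS ?_
  · intro b
    obtain ⟨P, hP, h1, h2⟩ := hsep b b.2
    have hlift : P ∈ Polynomial.lifts (aeval x : R[X] →ₐ[R] F).toRingHom := by
      rw [Polynomial.lifts_iff_coeff_lifts]
      intro n
      have := hP n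
      rw [Algebra.adjoin_singleton_eq_range_aeval] at this
      obtain ⟨q, hq⟩ := this
      exact ⟨q, hq⟩
    obtain ⟨Q, hQ⟩ := (Polynomial.mem_lifts P).1 hlift
    refine ⟨Q, ?_, ?_⟩
    · rw [algebraMap_dvd_chart_iff, coe_eval₂_chartPolyHom, hQ]
      exact h1
    · rw [algebraMap_dvd_chart_iff, coe_eval₂_chartPolyHom, ← derivative_map, hQ]
      exact h2
  · intro π hπ h1 h2
    rw [Ideal.isRadical_iff_pow_one_lt 2 one_lt_two]
    intro r hr
    rw [Ideal.mem_span_singleton] at hr ⊢
    rw [chartPolyHom_dvd_chart_iff] at hr ⊢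
    obtain ⟨t, ht, h⟩ := hr
    refine hNC π hπ h1 h2 r r.2 ⟨t, ht, ?_⟩
    rw [← h]
    rfl

omit [IsDomain R] [IsDiscreteValuationRing R] [CharZero F] in
/-- The finiteness instance for the chart at infinity. -/
theorem finiteDimensional_baseField_inv (x : F) [h : FiniteDimensional (H138.baseField R x) F] :
    FiniteDimensional (H138.baseField R x⁻¹) F := by
  rw [H138.baseField_inv]
  exact h

/-- **REG-CHART at infinity** (field form): `regularAlong_chart_field` for the chart
`H138.chart R {x⁻¹}`, with the finiteness instance of the finite chart. -/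
theorem regularAlong_chart_inv_field
    {x : F} (hx : Transcendental R x) [FiniteDimensional (H138.baseField R x) F]
    (w : R) (hw : Irreducible w)
    (hdom : Prime (algebraMap R (H138.chart R ({x⁻¹} : Set F)) w))
    (hsep : ∀ b ∈ H138.chart R ({x⁻¹} : Set F), ∃ P : F[X],
        (∀ i, P.coeff i ∈ Algebra.adjoin R ({x⁻¹} : Set F)) ∧
        (∃ t ∈ H138.chart R ({x⁻¹} : Set F), P.eval b = algebraMap R F w * t) ∧
        ¬ ∃ t ∈ H138.chart R ({x⁻¹} : Set F), (derivative P).eval b = algebraMap R F w * t)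
    (S : Finset R) (hS : ∀ c ∈ S, ∀ c' ∈ S, c ≠ c' → IsUnit (c - c'))
    (hNC : ∀ π : R[X], Prime π → ¬ Associated π (C w) → (∀ c ∈ S, ¬ Associated π (X - C c)) →
        ∀ b ∈ H138.chart R ({x⁻¹} : Set F),
          (∃ t ∈ H138.chart R ({x⁻¹} : Set F), b ^ 2 = aeval x⁻¹ π * t) →
          ∃ t ∈ H138.chart R ({x⁻¹} : Set F), b = aeval x⁻¹ π * t) :
    H754.RegularAlong (algebraMap R (H138.chart R ({x⁻¹} : Set F)) w) := by
  haveI := finiteDimensional_baseField_inv (R := R) x
  exact regularAlong_chart_field (H138.transcendental_inv hx) w hw hdom hsep S hS hNC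

end Main

end Fermat.Agent.S18.B12.H33

end
end
-- ===== PACK-END S18/B12/H33/RegChart.lean

-- ===== PACK-BEGIN S18/H438/Front/Regular.lean
section




/-!
# S18 / ALG-FRONT (helper438), part 10: `H754.RegularAlong` on the chart of a good model

For `G : Alg.GoodModel Lc Ec Fc R V w x S`, `B := H138.chart (Rf Fc R) {xf G}`:

* `GoodModelFront.hsep_chart`  : elementwise separability (field form of
  `B12.H33.regularAlong_chart_field`), from `G.separable` and the `q`-expansion principle;
* `GoodModelFront.hNC_chart`   : `(span {π(x)}).IsRadical` for the primes `π` of `R[X]` not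
  associated to `w`, `X - c` (`c ∈ S`), from `G.unramified` via `H754.hNC_typed`;
* `GoodModelFront.regularAlong_chart` : `H754.RegularAlong (algebraMap R B w)`  (b2 on the chart).
-/

set_option autoImplicit false
set_option linter.style.haveILetI false
set_option linter.unusedSectionVars false

noncomputable section

namespace Fermat.Agent.S18.H438

open Alg Polynomial

variable {Ω : Type*} [Field Ω] {Lc Ec Fc : Subfield Ω} {R V : Subring Ω} {w x : Ω}
  {S : Finset Ω}

namespace GoodModelFront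

/-- the branch values, as a finite subset of the ring `R` -/
def SR (Fc : Subfield Ω) (R : Subring Ω) (S : Finset Ω) : Finset (Rf Fc R) :=
  S.preimage (fun r : Rf Fc R => ((r : Fc) : Ω))
    (fun _ _ _ _ h => Subtype.ext (Subtype.ext h))

theorem mem_SR {c : Rf Fc R} : c ∈ SR Fc R S ↔ ((c : Fc) : Ω) ∈ S := Finset.mem_preimage

variable (G : GoodModel Lc Ec Fc R V w x S)

include G in
theorem SR_isUnit_sub :
    ∀ c ∈ SR Fc R S, ∀ c' ∈ SR Fc R S, c ≠ c' → IsUnit (c - c') := by
  intro c hc c' hc' hne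
  rw [isUnit_subring_iff]
  have h1 : ((c : Fc) : Ω) ≠ ((c' : Fc) : Ω) := fun h => hne (Subtype.ext (Subtype.ext h))
  refine ⟨fun h => hne (sub_eq_zero.1 (Subtype.ext h)), ?_⟩
  exact G.S_distinct _ (mem_SR.1 hc) _ (mem_SR.1 hc') h1

/-- evaluation of polynomials over `Fc`, seen in `Ω` -/
theorem coe_eval_Fc (Q : Polynomial Fc) (b : Fc) :
    ((Q.eval b : Fc) : Ω) = (Q.map Fc.subtype).eval (b : Ω) := by
  rw [Polynomial.eval_map]
  exact (Polynomial.eval₂_at_apply Fc.subtype b).symm

include G in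
/-- **Elementwise separability of the special fibre of the chart** (field form). -/
theorem hsep_chart : ∀ b ∈ H138.chart (Rf Fc R) ({xf G} : Set Fc), ∃ P : Polynomial Fc,
    (∀ i, P.coeff i ∈ Algebra.adjoin (Rf Fc R) ({xf G} : Set Fc)) ∧
    (∃ t ∈ H138.chart (Rf Fc R) ({xf G} : Set Fc),
      P.eval b = algebraMap (Rf Fc R) Fc (wR G) * t) ∧
    ¬ ∃ t ∈ H138.chart (Rf Fc R) ({xf G} : Set Fc),
      (derivative P).eval b = algebraMap (Rf Fc R) Fc (wR G) * t := by
  intro b hb
  have hb' : b ∈ chartRing (Rf Fc R) (xf G) := hb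
  have hbV : b ∈ Vf G :=
    chartRing_le_valuationSubring (Rf Fc R) (xf G) (Vf G) (Rf_le_Vf G) (xf_mem_Vf G) hb'
  obtain ⟨P₀, hc, h1, h2, h3⟩ := G.separable (b : Ω) hbV
  have hRF : ∀ r ∈ R, r ∈ Fc := fun r hr => R_le_Fc G hr
  -- lift `P₀` to `Fc[X]`
  have hlift : P₀ ∈ Polynomial.lifts Fc.subtype := by
    rw [Polynomial.lifts_iff_coeff_lifts]
    intro n
    obtain ⟨a, -, h⟩ := exists_mem_baseRing_of_mem_polyRing Fc R (xf G) hRF (hc n)
    exact ⟨a, h⟩
  obtain ⟨P, hP⟩ := (Polynomial.mem_lifts _).1 hlift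
  have hcoe : ∀ i, ((P.coeff i : Fc) : Ω) = P₀.coeff i := fun i => by
    rw [← hP, Polynomial.coeff_map]; rfl
  have hcoeff : ∀ i, P.coeff i ∈ baseRing (Rf Fc R) (xf G) := fun i =>
    (mem_baseRing_iff Fc R (xf G) hRF).2 (by rw [hcoe]; exact hc i)
  have hw0 : wf G ≠ 0 := wf_ne_zero G
  -- values of polynomials with coefficients in `R[x]` at `b` lie in the chart
  have hmem : ∀ Q : Polynomial Fc, (∀ i, Q.coeff i ∈ baseRing (Rf Fc R) (xf G)) →
      Q.eval b ∈ chartRing (Rf Fc R) (xf G) := by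
    intro Q hQ
    rw [Polynomial.eval_eq_sum_range]
    refine Subalgebra.sum_mem _ fun i _ => ?_
    exact Subalgebra.mul_mem _
      ((chartRing (Rf Fc R) (xf G)).algebraMap_mem ⟨Q.coeff i, hQ i⟩)
      (Subalgebra.pow_mem _ hb' i)
  refine ⟨P, hcoeff, ?_, ?_⟩
  · refine ⟨P.eval b * (wf G)⁻¹, ?_, ?_⟩
    · refine qep_fin' G _ (hmem P hcoeff) ?_
      show ((P.eval b : Fc) : Ω) * w⁻¹ ∈ V
      rw [coe_eval_Fc, hP]
      exact h1
    · show P.eval b = wf G * (P.eval b * (wf G)⁻¹)
      field_simp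
  · rintro ⟨t, ht, h⟩
    have htV : t ∈ Vf G :=
      chartRing_le_valuationSubring (Rf Fc R) (xf G) (Vf G) (Rf_le_Vf G) (xf_mem_Vf G) ht
    have hd : (((derivative P).eval b : Fc) : Ω) = (derivative P₀).eval (b : Ω) := by
      rw [coe_eval_Fc, ← Polynomial.derivative_map, hP]
    have h' : (derivative P₀).eval (b : Ω) = w * (t : Ω) := by
      rw [← hd, h]; rfl
    have hw0' : w ≠ 0 := G.w_ne_zero
    have ht0 : (t : Ω) ≠ 0 := by
      intro ht0
      rw [ht0, mul_zero] at h'
      exact h2 h'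
    apply G.w_inv_not_mem_V
    have : w⁻¹ = (t : Ω) * ((derivative P₀).eval (b : Ω))⁻¹ := by
      rw [h']
      field_simp
    rw [this]
    exact V.mul_mem htV h3

include G in
/-- every element of `Lc` is algebraic over the ring `R` -/
theorem exists_poly_of_mem_Lc (a : Ω) (ha : a ∈ Lc) :
    ∃ p : Polynomial (Rf Fc R), p ≠ 0 ∧
      Polynomial.eval₂ (Fc.subtype.comp (Rf Fc R).subtype) a p = 0 := by
  have halg : IsAlgebraic Ec a := G.L_algebraic a ha
  letI : Algebra (Re G) Ω := ((algebraMap Ec Ω).comp (algebraMap (Re G) Ec)).toAlgebra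
  haveI : IsScalarTower (Re G) Ec Ω := IsScalarTower.of_algebraMap_eq (fun _ => rfl)
  obtain ⟨q, hq0, hq⟩ := (IsFractionRing.isAlgebraic_iff (Re G) Ec Ω).2 halg
  let j : Re G →+* Rf Fc R :=
    { toFun := fun e => ⟨⟨((e : Ec) : Ω), G.E_le_F (e : Ec).2⟩, e.2⟩
      map_one' := rfl
      map_mul' := fun _ _ => rfl
      map_zero' := rfl
      map_add' := fun _ _ => rfl }
  have hj : Function.Injective j := fun a b h =>
    Subtype.ext (Subtype.ext (congrArg (fun t : Rf Fc R => ((t : Fc) : Ω)) h))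
  refine ⟨q.map j, (Polynomial.map_ne_zero_iff hj).2 hq0, ?_⟩
  rw [Polynomial.eval₂_map]
  rw [Polynomial.aeval_def] at hq
  exact hq

include G in
/-- **hNC on the chart**: for every prime `π` of `R[X]` not associated to `w` or to `X - c`,
`c ∈ S`, the ideal `π(x) B` is radical. -/
theorem hNC_chart :
    ∀ π : Polynomial (Rf Fc R), Prime π → ¬ Associated π (C (wR G)) →
      (∀ c ∈ SR Fc R S, ¬ Associated π (X - C c)) →
      (Ideal.span {(B12.H33.chartPolyHom (Rf Fc R) (xf G) π :
        H138.chart (Rf Fc R) ({xf G} : Set Fc))}).IsRadical := by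
  haveI := charZero_Fc G
  haveI := isDiscreteValuationRing_Rf G
  haveI := finiteDimensional_baseField G
  haveI : CharZero (Rf Fc R) := RingHom.charZero (Rf Fc R).subtype
  have hx := transcendental_xf G
  obtain ⟨hic, hfin⟩ := B12.H33.chart_package (R := Rf Fc R) hx
  letI := B12.H33.chartAlgebra (Rf Fc R) (xf G)
  haveI := hic
  haveI := hfin
  haveI : Module.IsTorsionFree (Polynomial (Rf Fc R)) (H138.chart (Rf Fc R) ({xf G} : Set Fc)) :=
    Module.isTorsionFree_iff_algebraMap_injective.2 (B12.H33.chartPolyHom_injective hx)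
  haveI : FaithfulSMul (H138.chart (Rf Fc R) ({xf G} : Set Fc)) Ω :=
    (faithfulSMul_iff_algebraMap_injective (H138.chart (Rf Fc R) ({xf G} : Set Fc)) Ω).2
      (fun a b h => Subtype.ext (Subtype.ext h))
  have hC : ∀ r : Rf Fc R,
      algebraMap (H138.chart (Rf Fc R) ({xf G} : Set Fc)) Ω
        (algebraMap (Polynomial (Rf Fc R)) (H138.chart (Rf Fc R) ({xf G} : Set Fc)) (C r)) =
        ((r : Fc) : Ω) := by
    intro r
    show ((B12.H33.chartPolyHom (Rf Fc R) (xf G) (C r) : H138.chart (Rf Fc R) ({xf G} : Set Fc)) :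
      Fc).1 = _
    rw [B12.H33.coe_chartPolyHom, Polynomial.aeval_C]
    rfl
  have hX : algebraMap (H138.chart (Rf Fc R) ({xf G} : Set Fc)) Ω
        (algebraMap (Polynomial (Rf Fc R)) (H138.chart (Rf Fc R) ({xf G} : Set Fc)) X) = x := by
    show ((B12.H33.chartPolyHom (Rf Fc R) (xf G) X : H138.chart (Rf Fc R) ({xf G} : Set Fc)) :
      Fc).1 = _
    rw [B12.H33.coe_chartPolyHom, Polynomial.aeval_X]
    rfl
  have hwB : Prime (algebraMap (Polynomial (Rf Fc R)) (H138.chart (Rf Fc R) ({xf G} : Set Fc))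
      (C (wR G))) := by
    show Prime (B12.H33.chartPolyHom (Rf Fc R) (xf G) (C (wR G)))
    rw [B12.H33.chartPolyHom_C]
    exact prime_chart G
  refine H754.hNC_typed (Rf Fc R) (H138.chart (Rf Fc R) ({xf G} : Set Fc)) (Ω := Ω) (wR G)
    (irreducible_wf G) hwB Lc G.L_algClosed ?_ ?_ (SR Fc R S) S ?_ ?_
  · intro r
    rw [hC]
    exact G.E_le_L (G.R_le r.2)
  · intro a ha
    obtain ⟨p, hp0, hp⟩ := exists_poly_of_mem_Lc G a ha
    refine ⟨p, hp0, ?_⟩
    have hhom : ((algebraMap (H138.chart (Rf Fc R) ({xf G} : Set Fc)) Ω).comp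
        ((algebraMap (Polynomial (Rf Fc R)) (H138.chart (Rf Fc R) ({xf G} : Set Fc))).comp C)) =
        Fc.subtype.comp (Rf Fc R).subtype := RingHom.ext fun r => hC r
    rw [hhom]
    exact hp
  · intro c hc
    refine ⟨⟨⟨c, R_le_Fc G (G.S_mem c hc)⟩, G.S_mem c hc⟩, mem_SR.2 hc, ?_⟩
    rw [hC]
  · rw [hX]
    exact G.unramified

include G in
/-- **b2 on the chart of a good model**: the chart is regular along `w`. -/
theorem regularAlong_chart :
    H754.RegularAlong
      (algebraMap (Rf Fc R) (H138.chart (Rf Fc R) ({xf G} : Set Fc)) (wR G)) := by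
  haveI := charZero_Fc G
  haveI := isDiscreteValuationRing_Rf G
  haveI := finiteDimensional_baseField G
  refine B12.H33.regularAlong_chart_field (transcendental_xf G) (wR G) (irreducible_wf G)
    (prime_chart G) (hsep_chart G) (SR Fc R S) (SR_isUnit_sub G) ?_
  intro π hπ hπw hπS b hb hb2
  have hrad := hNC_chart G π hπ hπw hπS
  have h1 : (⟨b, hb⟩ : H138.chart (Rf Fc R) ({xf G} : Set Fc)) ^ 2 ∈
      Ideal.span {(B12.H33.chartPolyHom (Rf Fc R) (xf G) π :
        H138.chart (Rf Fc R) ({xf G} : Set Fc))} := by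
    rw [Ideal.mem_span_singleton, B12.H33.chartPolyHom_dvd_chart_iff]
    obtain ⟨t, ht, h⟩ := hb2
    exact ⟨t, ht, h⟩
  have h2 := hrad (Ideal.mem_radical_iff.2 ⟨2, h1⟩)
  rw [Ideal.mem_span_singleton, B12.H33.chartPolyHom_dvd_chart_iff] at h2
  exact h2

end GoodModelFront

end Fermat.Agent.S18.H438

end
end
-- ===== PACK-END S18/H438/Front/Regular.lean

-- ===== PACK-BEGIN S18/H739/ModFinite.lean
section
/-
S18 helper (helper739), piece MOD.1 of squad S18/S05 (statement frozen in
`origin/helper5:Fermat/Agent/S18/Sq05/Spec.lean` as `ModFiniteStatement`):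
`j` is transcendental over `k` and `k(j(q^d) : d ∣ N)` is finite over `k(j)`, for every field
`k` in which the primes dividing `N` are invertible.  From landed S28: upper bound of helper626,
modular polynomials of helper807.
-/







set_option autoImplicit false

noncomputable section

open ModularCurve IntermediateField

namespace Fermat.Agent.S18.H739

open Fermat.Agent.S28

variable (k : Type*) [Field k]

/-- `j` is transcendental over `k` in `k((q))`. -/
theorem transcendental_jqModC : Transcendental k (jqModC k) :=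
  (transcendental_iff_injective).mpr (h88_aeval_jqModC_injective k)

/-- `j`, as an element of the function field, is transcendental over `k`. -/
theorem transcendental_jC (N : ℕ) :
    Transcendental k (⟨jqModC k, jqModC_mem_full k N⟩ : modularFunctionFieldFullC k N) := by
  intro h
  have h2 : IsAlgebraic k (algebraMap (modularFunctionFieldFullC k N) (LaurentSeries k)
      ⟨jqModC k, jqModC_mem_full k N⟩) := h.algebraMap
  exact transcendental_jqModC k h2

/-- The modular polynomials exist at every prime, so `HasModPolys` only needs invertibility. -/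
theorem hasModPolys_of_invertible (N : ℕ) (hchar : ∀ p : ℕ, p.Prime → p ∣ N → (p : k) ≠ 0) :
    H626.HasModPolys k N :=
  H867.hasModPolys k N (fun p hp _ _ => H807.nonempty_modPolyData p hp) hchar

/-- `k(j)`, inside the function field, is the preimage of `k(j) ⊂ k((q))`. -/
theorem adjoin_jC_eq_comap (N : ℕ) :
    k⟮(⟨jqModC k, jqModC_mem_full k N⟩ : modularFunctionFieldFullC k N)⟯ =
      (IntermediateField.adjoin k {jqModC k}).comap (modularFunctionFieldFullC k N).val := by
  rw [← IntermediateField.comap_map (modularFunctionFieldFullC k N).val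
    k⟮(⟨jqModC k, jqModC_mem_full k N⟩ : modularFunctionFieldFullC k N)⟯,
    IntermediateField.adjoin_map, Set.image_singleton]
  rfl

/-- **MOD.1**, finiteness part. -/
theorem finiteDimensional_adjoin_jC (N : ℕ) [NeZero N]
    (hchar : ∀ p : ℕ, p.Prime → p ∣ N → (p : k) ≠ 0) :
    FiniteDimensional k⟮(⟨jqModC k, jqModC_mem_full k N⟩ : modularFunctionFieldFullC k N)⟯
      (modularFunctionFieldFullC k N) := by
  have H := hasModPolys_of_invertible k N hchar
  have h1 := H626.relrank_adjoin_j_full_le N H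
  rw [adjoin_jC_eq_comap]
  have h2 : Module.rank
      ((IntermediateField.adjoin k {jqModC k}).comap (modularFunctionFieldFullC k N).val)
      (modularFunctionFieldFullC k N) < Cardinal.aleph0 := by
    rw [IntermediateField.rank_comap, IntermediateField.fieldRange_val]
    exact lt_of_le_of_lt h1 (Cardinal.natCast_lt_aleph0)
  exact IsNoetherian.iff_fg.1 (IsNoetherian.iff_rank_lt_aleph0.2 h2)

/-- **MOD.1** (unfolded `Fermat.Agent.S18.Sq05.ModFiniteStatement`; `Sq05.jC k N` is by definition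
`⟨jqModC k, jqModC_mem_full k N⟩`). -/
theorem modFinite :
    ∀ (k : Type) [Field k] (N : ℕ) [NeZero N], (∀ p : ℕ, p.Prime → p ∣ N → (p : k) ≠ 0) →
      Transcendental k (⟨jqModC k, jqModC_mem_full k N⟩ : modularFunctionFieldFullC k N) ∧
      FiniteDimensional k⟮(⟨jqModC k, jqModC_mem_full k N⟩ : modularFunctionFieldFullC k N)⟯
        (modularFunctionFieldFullC k N) :=
  fun k _ N _ hchar => ⟨transcendental_jC k N, finiteDimensional_adjoin_jC k N hchar⟩

end Fermat.Agent.S18.H739

end

end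
-- ===== PACK-END S18/H739/ModFinite.lean

-- ===== PACK-BEGIN S37/H159/MAdapt.lean
section



/-!
# THEOREM M, concrete form: coordinate `t ∈ F`, `K(t) = K⟮t⟯ ⊆ F`
(row S37, piece R-b / RED-E4 (H3); seat helper159)

`lift_integral_adjoin`: `K` algebraically closed of characteristic `0`, `A ⊆ K` a valuation ring,
`π : A ↠ k`, `O ⊆ F` a valuation ring with `ρ : O ↠ F_k` extending `π`, `t ∈ O` with `ρ t`
transcendental over `k`, `[F : K(t)] = [F_k : k(t̄)] < ∞`, `F_k / k(t̄)` separable, and

(NC) for `c ∈ A` outside a finite set `S` injective mod `𝔪_A`: for `f` integral over `K[t]`,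
     `f² / (t - c)` integral over `K[t]` implies `f / (t - c)` integral over `K[t]`.

Then every `z ∈ F_k` integral over `k[t̄]` is `ρ b` for some `b ∈ O` integral over `A[t]`.
-/

set_option autoImplicit false
set_option linter.unusedSectionVars false
set_option linter.style.haveILetI false

namespace Fermat.Agent.S37.H159

open Polynomial IntermediateField

/-- Integrality along a composite with a surjective first map. -/
theorem isIntegralElem_comp_of_surjective {R S T : Type*} [CommRing R] [CommRing S]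
    [Nontrivial S] [Ring T]
    (f : R →+* S) (hf : Function.Surjective f) (g : S →+* T) {x : T}
    (h : g.IsIntegralElem x) : (g.comp f).IsIntegralElem x := by
  obtain ⟨p, hp, hpx⟩ := h
  have hl : p ∈ Polynomial.lifts f := by
    rw [Polynomial.lifts_iff_coeff_lifts]
    exact fun i => hf _
  obtain ⟨q, hq, -, hqm⟩ := Polynomial.lifts_and_degree_eq_and_monic hl hp
  refine ⟨q, hqm, ?_⟩
  rw [← Polynomial.eval₂_map, hq]
  exact hpx

section Poly

variable (K : Type*) {F : Type*} [Field K] [Field F] [Algebra K F] (t : F)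

/-- `K[X] → F`, `X ↦ t`, as an algebra structure -/
@[reducible] noncomputable def polyAlg : Algebra K[X] F := (aeval t).toRingHom.toAlgebra

/-- `K[X] → K(t)`, `X ↦ t`, as an algebra structure -/
@[reducible] noncomputable def polyAlgAdjoin : Algebra K[X] K⟮t⟯ :=
  (aeval (AdjoinSimple.gen K t)).toRingHom.toAlgebra

theorem coe_aeval_gen (p : K[X]) : ((aeval (AdjoinSimple.gen K t) p : K⟮t⟯) : F) = aeval t p := by
  rw [← AdjoinSimple.algebraMap_gen K t, aeval_algebraMap_apply]
  rfl

theorem isScalarTower_polyAlg :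
    letI := polyAlg K t
    letI := polyAlgAdjoin K t
    IsScalarTower K[X] K⟮t⟯ F := by
  letI := polyAlg K t
  letI := polyAlgAdjoin K t
  exact IsScalarTower.of_algebraMap_eq fun p => (coe_aeval_gen K t p).symm

theorem isFractionRing_polyAlg (ht : Transcendental K t) :
    letI := polyAlgAdjoin K t
    IsFractionRing K[X] K⟮t⟯ := by
  letI := polyAlgAdjoin K t
  have hinj : Function.Injective (algebraMap K[X] K⟮t⟯) := by
    intro p q hpq
    have h1 : aeval t p = aeval t q := by
      have := congrArg (fun z : K⟮t⟯ => (z : F)) hpq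
      exact (coe_aeval_gen K t p).symm.trans (this.trans (coe_aeval_gen K t q))
    exact transcendental_iff_injective.mp ht h1
  haveI : FaithfulSMul K[X] K⟮t⟯ := (faithfulSMul_iff_algebraMap_injective _ _).mpr hinj
  refine IsFractionRing.of_field (R := K[X]) K⟮t⟯ fun z => ?_
  obtain ⟨r, s, hrs⟩ := (mem_adjoin_simple_iff K (z : F)).mp z.2
  refine ⟨r, s, ?_⟩
  apply Subtype.ext
  rw [hrs]
  show aeval t r / aeval t s = ((aeval (AdjoinSimple.gen K t) r / aeval (AdjoinSimple.gen K t) s :
    K⟮t⟯) : F)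
  rw [IntermediateField.coe_div, coe_aeval_gen, coe_aeval_gen]

/-- integrality over `K[X]` (via `X ↦ t`) is integrality over `K[t]` -/
theorem isIntegral_polyAlg_iff (f : F) :
    letI := polyAlg K t
    IsIntegral K[X] f ↔ IsIntegral (Algebra.adjoin K {t}) f := by
  letI := polyAlg K t
  let φ : K[X] →+* Algebra.adjoin K {t} :=
    RingHom.codRestrict (aeval t).toRingHom (Algebra.adjoin K {t})
      (fun p => by rw [Algebra.adjoin_singleton_eq_range_aeval]; exact ⟨p, rfl⟩)
  have hφ : Function.Surjective φ := by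
    rintro ⟨y, hy⟩
    rw [Algebra.adjoin_singleton_eq_range_aeval] at hy
    obtain ⟨p, hp⟩ := hy
    exact ⟨p, Subtype.ext hp⟩
  have hcomp : (algebraMap (Algebra.adjoin K {t}) F).comp φ = algebraMap K[X] F := rfl
  constructor
  · intro h
    have h' : ((algebraMap (Algebra.adjoin K {t}) F).comp φ).IsIntegralElem f := h
    exact RingHom.IsIntegralElem.of_comp h'
  · intro h
    exact isIntegralElem_comp_of_surjective φ hφ _ h

end Poly

section Main

variable {K k F Fk : Type*} [Field K] [Field k] [Field F] [Field Fk] [Algebra K F] [Algebra k Fk]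

/-- the subring `A[t] ⊆ F` generated by the image of `A` and `t` -/
def polySubring (A : ValuationSubring K) (t : F) : Subring F :=
  A.toSubring.map (algebraMap K F) ⊔ Subring.closure {t}

theorem aeval_map_mem_polySubring (A : ValuationSubring K) (t : F) (p : A[X]) :
    aeval t (p.map A.subtype) ∈ polySubring A t := by
  induction p using Polynomial.induction_on with
  | C a =>
    rw [Polynomial.map_C, aeval_C]
    exact (le_sup_left : _ ≤ polySubring A t) (Subring.mem_map.mpr ⟨a, a.2, rfl⟩)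
  | add p q hp hq =>
    rw [Polynomial.map_add, _root_.map_add]
    exact Subring.add_mem _ hp hq
  | monomial n a _ =>
    rw [Polynomial.map_mul, Polynomial.map_C, Polynomial.map_pow, Polynomial.map_X, _root_.map_mul,
      aeval_C, _root_.map_pow, aeval_X]
    refine Subring.mul_mem _ ?_ (Subring.pow_mem _ ?_ _)
    · exact (le_sup_left : _ ≤ polySubring A t) (Subring.mem_map.mpr ⟨a, a.2, rfl⟩)
    · exact (le_sup_right : _ ≤ polySubring A t) (Subring.subset_closure rfl)

variable [IsAlgClosed K] [CharZero K] [IsAlgClosed k]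

/-- **THEOREM M**, concrete form (see the module docstring). -/
theorem lift_integral_adjoin (A : ValuationSubring K) (π : A →+* k)
    (hπ : Function.Surjective π) (O : ValuationSubring F) (ρ : O →+* Fk)
    (hρ : Function.Surjective ρ) (hc : ∀ a : A, algebraMap K F (a : K) ∈ O)
    (hρc : ∀ a : A, ρ ⟨algebraMap K F (a : K), hc a⟩ = algebraMap k Fk (π a))
    (t : F) (ht : t ∈ O) (htr : Transcendental k (ρ ⟨t, ht⟩))
    [FiniteDimensional K⟮t⟯ F] [FiniteDimensional k⟮ρ ⟨t, ht⟩⟯ Fk]
    [Algebra.IsSeparable k⟮ρ ⟨t, ht⟩⟯ Fk]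
    (hdeg : Module.finrank K⟮t⟯ F = Module.finrank k⟮ρ ⟨t, ht⟩⟯ Fk)
    (S : Finset A) (hS : Set.InjOn π (S : Set A))
    (hNC : ∀ c : A, c ∉ S → ∀ f : F, IsIntegral (Algebra.adjoin K {t}) f →
      IsIntegral (Algebra.adjoin K {t}) (f ^ 2 / (t - algebraMap K F (c : K))) →
      IsIntegral (Algebra.adjoin K {t}) (f / (t - algebraMap K F (c : K))))
    (z : Fk) (hz : IsIntegral (Algebra.adjoin k {ρ ⟨t, ht⟩}) z) :
    ∃ (b : F) (hb : b ∈ O), IsIntegral (polySubring A t) b ∧ ρ ⟨b, hb⟩ = z := by
  classical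
  letI algF : Algebra K[X] F := polyAlg K t
  letI algFk : Algebra k[X] Fk := polyAlg k (ρ ⟨t, ht⟩)
  letI algL : Algebra K[X] K⟮t⟯ := polyAlgAdjoin K t
  letI algLk : Algebra k[X] k⟮ρ ⟨t, ht⟩⟯ := polyAlgAdjoin k (ρ ⟨t, ht⟩)
  haveI : IsScalarTower K[X] K⟮t⟯ F := isScalarTower_polyAlg K t
  haveI : IsScalarTower k[X] k⟮ρ ⟨t, ht⟩⟯ Fk := isScalarTower_polyAlg k (ρ ⟨t, ht⟩)
  haveI : IsFractionRing k[X] k⟮ρ ⟨t, ht⟩⟯ := isFractionRing_polyAlg k (ρ ⟨t, ht⟩) htr
  have hinjk : Function.Injective (algebraMap k[X] Fk) := transcendental_iff_injective.mp htr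
  -- evaluation `A[X] → O`
  let constO : A →+* O := RingHom.codRestrict ((algebraMap K F).comp A.subtype) O hc
  let evalO : A[X] →+* O := Polynomial.eval₂RingHom constO ⟨t, ht⟩
  have hev1 : O.subtype.comp evalO = (aeval t).toRingHom.comp (mapRingHom A.subtype) := by
    refine Polynomial.ringHom_ext (fun a => ?_) ?_
    · show ((Polynomial.eval₂ constO ⟨t, ht⟩ (C a) : O) : F) =
        aeval t ((C a : A[X]).map A.subtype)
      rw [Polynomial.eval₂_C, Polynomial.map_C, aeval_C]
      rfl
    · show ((Polynomial.eval₂ constO ⟨t, ht⟩ X : O) : F) = aeval t ((X : A[X]).map A.subtype)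
      rw [Polynomial.eval₂_X, Polynomial.map_X, aeval_X]
  have hev2 : ρ.comp evalO = (aeval (ρ ⟨t, ht⟩)).toRingHom.comp (mapRingHom π) := by
    refine Polynomial.ringHom_ext (fun a => ?_) ?_
    · show ρ (Polynomial.eval₂ constO ⟨t, ht⟩ (C a)) = aeval (ρ ⟨t, ht⟩) ((C a : A[X]).map π)
      rw [Polynomial.eval₂_C, Polynomial.map_C, aeval_C]
      exact hρc a
    · show ρ (Polynomial.eval₂ constO ⟨t, ht⟩ X) = aeval (ρ ⟨t, ht⟩) ((X : A[X]).map π)
      rw [Polynomial.eval₂_X, Polynomial.map_X, aeval_X]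
  have hcoe : ∀ p : A[X], ((evalO p : O) : F) = algebraMap K[X] F (p.map A.subtype) := fun p =>
    congrArg (fun g : A[X] →+* F => g p) hev1
  let G : RedCtx A k F Fk :=
    { π := π
      π_surj := hπ
      O := O
      ρ := ρ
      ρ_surj := hρ
      mem := fun p => by rw [← hcoe p]; exact (evalO p).2
      ρ_poly := fun p => by
        have h1 := congrArg (fun g : A[X] →+* Fk => g p) hev2
        have h2 : (⟨algebraMap K[X] F (p.map A.subtype), by rw [← hcoe p]; exact (evalO p).2⟩ : O)
            = evalO p := Subtype.ext (hcoe p).symm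
        rw [h2]
        exact h1 }
  -- `t` is transcendental over `K`
  have httr : Transcendental K t := by
    rw [transcendental_iff]
    intro P hP
    by_contra hP0
    obtain ⟨lam, P₀, m, hlam, hm, hPeq⟩ := exists_primitive A P hP0
    have hne := G.map_π_ne_zero_of_coeff_eq_one P₀ m hm
    have h1 := G.ne_zero_of_map_ne_zero hinjk P₀ hne
    apply h1
    have h2 : aeval t P = algebraMap K F lam * algebraMap K[X] F (P₀.map A.subtype) := by
      conv_lhs => rw [hPeq]
      rw [_root_.map_mul, aeval_C]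
      rfl
    rw [hP] at h2
    rcases mul_eq_zero.mp h2.symm with h | h
    · exact absurd ((_root_.map_eq_zero _).mp h) hlam
    · exact h
  haveI : IsFractionRing K[X] K⟮t⟯ := isFractionRing_polyAlg K t httr
  -- (NC) in ring form
  have hNC' : ∀ c : A, c ∉ S → (Ideal.span
      {algebraMap K[X] (integralClosure K[X] F) (X - C (c : K))}).IsRadical := by
    intro c hcS
    rw [Ideal.isRadical_iff_pow_one_lt 2 one_lt_two]
    intro r hr
    rw [Ideal.mem_span_singleton] at hr ⊢
    obtain ⟨h, hh⟩ := hr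
    have ha : ((algebraMap K[X] (integralClosure K[X] F) (X - C (c : K)) :
        integralClosure K[X] F) : F) = t - algebraMap K F (c : K) := by
      show aeval t (X - C (c : K)) = _
      rw [_root_.map_sub, aeval_X, aeval_C]
    have ha0 : t - algebraMap K F (c : K) ≠ 0 := by
      intro h0
      have h1 : aeval t (X - C (c : K)) = 0 := by rw [_root_.map_sub, aeval_X, aeval_C, h0]
      exact Polynomial.X_sub_C_ne_zero _ ((transcendental_iff.mp httr) _ h1)
    have h1 : IsIntegral (Algebra.adjoin K {t}) (r : F) := (isIntegral_polyAlg_iff K t _).mp r.2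
    have hh' : (r : F) ^ 2 = (t - algebraMap K F (c : K)) * (h : F) := by
      have := congrArg (fun w : integralClosure K[X] F => (w : F)) hh
      simp only [SubmonoidClass.coe_pow, MulMemClass.coe_mul] at this
      rw [this, ha]
    have h2 : IsIntegral (Algebra.adjoin K {t}) ((r : F) ^ 2 / (t - algebraMap K F (c : K))) := by
      have : (r : F) ^ 2 / (t - algebraMap K F (c : K)) = (h : F) := by
        rw [hh', mul_div_assoc, mul_comm, div_mul_cancel₀ _ ha0]
      rw [this]
      exact (isIntegral_polyAlg_iff K t _).mp h.2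
    have h3 := hNC c hcS (r : F) h1 h2
    refine ⟨⟨(r : F) / (t - algebraMap K F (c : K)), (isIntegral_polyAlg_iff K t _).mpr h3⟩,
      Subtype.ext ?_⟩
    show (r : F) = ((algebraMap K[X] (integralClosure K[X] F) (X - C (c : K)) :
        integralClosure K[X] F) : F) * ((r : F) / (t - algebraMap K F (c : K)))
    rw [ha, mul_div_cancel₀ _ ha0]
  have hz' : IsIntegral k[X] z := (isIntegral_polyAlg_iff k (ρ ⟨t, ht⟩) z).mpr hz
  obtain ⟨f, hf, hfz⟩ := G.lift_integral K⟮t⟯ k⟮ρ ⟨t, ht⟩⟯ hdeg S hS hNC' z hz'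
  refine ⟨f, f.2, ?_, hfz⟩
  let ψ : A[X] →+* polySubring A t :=
    RingHom.codRestrict (RedCtx.polyF (A := A) (F := F)) (polySubring A t)
      (fun p => aeval_map_mem_polySubring A t p)
  have hψ : (polySubring A t).subtype.comp ψ = RedCtx.polyF (A := A) (F := F) := rfl
  have hf' : ((polySubring A t).subtype.comp ψ).IsIntegralElem (f : F) := hf
  exact RingHom.IsIntegralElem.of_comp hf'

end Main

end Fermat.Agent.S37.H159

end
-- ===== PACK-END S37/H159/MAdapt.lean

-- ===== PACK-BEGIN S18/B12/H638/NormalFinal.lean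
section











/-!
# S18 b2 (helper638): FULL NORMALITY of the special fibre, UNCONDITIONAL

Assembly of the landed b2.5 pieces (A0, A2, A2' helper93; A3, A4, A5', A1 helper203; A5 helper444;
A8 helper84 with Theorem L of helper278; heart A6' helper33):

* `b2CoreAbs : B2CoreAbsStatement` (the heart, unconditional);
* `b2IntClosed : B2IntClosedStatement` — `R` DVR of char 0, `B` normal, finite, torsion-free over
  `R[X]`, `w` prime in `B`, `hsep`, branch values `S` distinct mod `w`, unramified outside `S`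
  ⟹ `B/wB` is integrally closed;
* `b2NormalDom : B2NormalDomStatement` — the shape requested by row S37
  (`origin/helper37:coord/S37-b2-request.md`, with `hdom`);
* `b2Regular : B2RegularStatement` (output O1 of `B12/Spec3.lean`).
-/

set_option autoImplicit false

namespace Fermat.Agent.S18.B12.H638

universe u v

/-- The heart A6' of b2, unconditional. -/
theorem b2CoreAbs : B2CoreAbsStatement.{u, v} :=
  H33.b2CoreAbs_of_pieces H93.regSeqAbs H93.localBasis H93.localBasisRank H203.discrRed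
    H203.ufdStep H444.genericDiscr H203.redBasisAbs

/-- **b2, integrally closed form, unconditional.** -/
theorem b2IntClosed : B2IntClosedStatement.{u, v} :=
  b2IntClosed_of_pieces b2CoreAbs H93.regSeqAbs H84.a8 H203.polyInst

/-- **b2, full normality form (domain case), unconditional.** -/
theorem b2NormalDom : B2NormalDomStatement.{u, v} :=
  b2NormalDom_of_intClosed b2IntClosed

/-- **b2, regular form (output O1), unconditional.** -/
theorem b2Regular : B2RegularStatement.{u, v} :=
  H33.b2Regular_of_pieces b2CoreAbs H93.regSeqAbs H84.a8 H84.a9 H203.polyInst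

end Fermat.Agent.S18.B12.H638

end
-- ===== PACK-END S18/B12/H638/NormalFinal.lean

-- ===== PACK-BEGIN Ribet/H913/WPSmooth.lean
section





/-!
# RIBET wall-p, W-ALGP, leaf **WPS** (helper913): `wpSmoothLeaf : H495.AlgP.WPSmoothLeaf`

Wild purity at a closed point `n` of the special fibre lying on exactly ONE component `P` of the
chart (`P'` the other one).  With `O = B_n`, `V = B_P`, `V' = B_{P'}`:

* A2 purity (`A2.Alg.H754.purity_smooth_aux`, exponent `p`) gives `d₀` with
  `ε = u d₀ ^ p ∈ Oˣ`, `d₀ ∈ Vˣ`;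
* climbing (`Climb.lean`, `wps_abs913`): `(H1)` `O ∩ w V = w O` (`h1_chart913`), `(H2)`
  `O / w O = (B / P)_n` is integrally closed in `V / w V = Frac (B / P)` (`h2_chart913`,
  from `IsIntegrallyClosed (B ⧸ P)`);
* density of `O` in `F` for the `P'`-adic topology (`dens_chart913`, `P' ⊄ n`), using the
  normal form `A2.Alg.H348.CompData.exists_pow_mul` in the discrete valuation ring `V'`.

The sheet labels are `j = 0` on both components.
-/

set_option autoImplicit false
set_option linter.unusedSectionVars false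
set_option linter.unusedVariables false
set_option linter.style.haveILetI false

namespace Fermat.Agent.Ribet.H913

open Fermat.Agent.A2 Fermat.Agent.A2.Alg Fermat.Agent.Ribet.H495.AlgP

section Loc

variable {R F : Type*} [CommRing R] [Field F] [Algebra R F]

theorem locSub_mono913 {B : Subalgebra R F} {P n : Ideal B} (hP : P.IsPrime) (hn : n.IsPrime)
    (hPn : P ≤ n) : locSub B n hn ≤ locSub B P hP := by
  rintro f ⟨a, b, hb, hab⟩
  exact ⟨a, b, fun h => hb (hPn h), hab⟩

theorem coe_mem_locSub913 {B : Subalgebra R F} {n : Ideal B} (hn : n.IsPrime) (b : B) :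
    (b : F) ∈ locSub B n hn :=
  ⟨b, 1, fun h => hn.ne_top ((Ideal.eq_top_iff_one n).2 h), by simp⟩

theorem div_mem_locSub913 {B : Subalgebra R F} {n : Ideal B} (hn : n.IsPrime) (a : B) {b : B}
    (hb : b ∉ n) : (a : F) * (b : F)⁻¹ ∈ locSub B n hn := by
  have hb0 : (b : F) ≠ 0 := coe_ne_zero_of_notMem495 hb
  exact ⟨a, b, hb, by field_simp⟩

theorem inv_mem_locSub913 {B : Subalgebra R F} {n : Ideal B} (hn : n.IsPrime) {b : B}
    (hb : b ∉ n) : ((b : F))⁻¹ ∈ locSub B n hn := by
  have := div_mem_locSub913 (F := F) hn (1 : B) hb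
  simpa using this

theorem mem_locAt_iff913 {B : Subalgebra R F} {P : Ideal B} [hP : P.IsPrime] {f : F} :
    f ∈ Fermat.Agent.A2.H348.locAt B P ↔ f ∈ locSub B P hP := by
  constructor
  · rintro ⟨s, hs, hsf⟩
    exact ⟨⟨_, hsf⟩, s, hs, mul_comm _ _⟩
  · rintro ⟨a, b, hb, hab⟩
    exact ⟨b, hb, by rw [mul_comm, hab]; exact a.2⟩

theorem w_mem_left913 {B : Subalgebra R F} {P P' : Ideal B} {w : R}
    (hinf : P ⊓ P' = Ideal.span {algebraMap R B w}) : algebraMap R B w ∈ P := by
  have h : algebraMap R B w ∈ P ⊓ P' := by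
    rw [hinf]; exact Ideal.mem_span_singleton_self _
  exact h.1

/-- `P B_P ⊆ w B_P`. -/
theorem exists_eq_w_mul913 {B : Subalgebra R F} {P P' : Ideal B} (hP : P.IsPrime) {w : R}
    (hinf : P ⊓ P' = Ideal.span {algebraMap R B w}) (hP'P : ¬ P' ≤ P) {a : B} (ha : a ∈ P) :
    ∃ v ∈ locSub B P hP, (a : F) = algebraMap R F w * v := by
  obtain ⟨s, hs', hs⟩ := SetLike.not_le_iff_exists.1 hP'P
  have h : a * s ∈ P ⊓ P' := ⟨P.mul_mem_right _ ha, P'.mul_mem_left _ hs'⟩
  rw [hinf, Ideal.mem_span_singleton'] at h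
  obtain ⟨m, hm⟩ := h
  have hmF : (m : F) * algebraMap R F w = (a : F) * (s : F) := congrArg Subtype.val hm
  have hs0 : (s : F) ≠ 0 := coe_ne_zero_of_notMem495 hs
  refine ⟨(m : F) * (s : F)⁻¹, div_mem_locSub913 hP m hs, ?_⟩
  field_simp
  linear_combination -hmF

/-- `B ∩ w B_P ⊆ P`. -/
theorem mem_of_eq_w_mul913 {B : Subalgebra R F} {P : Ideal B} (hP : P.IsPrime) {w : R}
    (hwP : algebraMap R B w ∈ P) {b : B} {v : F} (hv : v ∈ locSub B P hP)
    (h : (b : F) = algebraMap R F w * v) : b ∈ P := by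
  obtain ⟨a, s, hs, hvs⟩ := hv
  have h1 : b * s = algebraMap R B w * a := by
    apply Subtype.ext
    show (b : F) * (s : F) = algebraMap R F w * (a : F)
    rw [h, mul_assoc, hvs]
  have h2 : b * s ∈ P := by rw [h1]; exact P.mul_mem_right _ hwP
  exact (hP.mem_or_mem h2).resolve_right hs

/-- `(H1)`: `B_n ∩ w B_P = w B_n` when `n` is not on the other component. -/
theorem h1_chart913 {B : Subalgebra R F} {P P' n : Ideal B} (hP : P.IsPrime) (hn : n.IsPrime)
    {w : R} (hinf : P ⊓ P' = Ideal.span {algebraMap R B w}) (hP'n : ¬ P' ≤ n) :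
    ∀ z ∈ locSub B n hn, (∃ v ∈ locSub B P hP, z = algebraMap R F w * v) →
      ∃ o ∈ locSub B n hn, z = algebraMap R F w * o := by
  rintro z ⟨a, b, hb, hab⟩ ⟨v, hv, hzv⟩
  have hwP : algebraMap R B w ∈ P := w_mem_left913 hinf
  have haP : a ∈ P := mem_of_eq_w_mul913 hP hwP (v := v * (b : F))
    ((locSub B P hP).mul_mem hv (coe_mem_locSub913 hP b)) (by rw [← hab, hzv]; ring)
  obtain ⟨s, hs', hs⟩ := SetLike.not_le_iff_exists.1 hP'n
  have h : a * s ∈ P ⊓ P' := ⟨P.mul_mem_right _ haP, P'.mul_mem_left _ hs'⟩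
  rw [hinf, Ideal.mem_span_singleton'] at h
  obtain ⟨m, hm⟩ := h
  have hmF : (m : F) * algebraMap R F w = (a : F) * (s : F) := congrArg Subtype.val hm
  have hsb : s * b ∉ n := fun h => (hn.mem_or_mem h).elim hs hb
  have hb0 : (b : F) ≠ 0 := coe_ne_zero_of_notMem495 hb
  have hs0 : (s : F) ≠ 0 := coe_ne_zero_of_notMem495 hs
  refine ⟨(m : F) * ((s * b : B) : F)⁻¹, div_mem_locSub913 hn m hsb, ?_⟩
  have hz : z = (a : F) * (b : F)⁻¹ := by
    field_simp
    exact hab
  rw [hz]
  push_cast
  field_simp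
  linear_combination -hmF

/-- `(H2)`: a `p`-th root modulo `w B_P` of an element of `B_n` is congruent to an element of
`B_n` (`B ⧸ P` integrally closed). -/
theorem h2_chart913 {B : Subalgebra R F} {P P' n : Ideal B} (hP : P.IsPrime) (hn : n.IsPrime)
    {w : R} (hinf : P ⊓ P' = Ideal.span {algebraMap R B w}) (hP'P : ¬ P' ≤ P) (hPn : P ≤ n)
    (hnorm : IsIntegrallyClosed (B ⧸ P)) {p : ℕ} (hp0 : p ≠ 0) :
    ∀ γ ∈ locSub B P hP, ∀ c ∈ locSub B n hn,
      (∃ v ∈ locSub B P hP, γ ^ p - c = algebraMap R F w * v) →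
      ∃ γ₀ ∈ locSub B n hn, ∃ v ∈ locSub B P hP, γ - γ₀ = algebraMap R F w * v := by
  rintro γ ⟨a, b, hb, hab⟩ c ⟨ac, bc, hbc, hac⟩ ⟨v, ⟨av, bv, hbv, hav⟩, hγc⟩
  haveI := hP
  haveI := hnorm
  have hwP : algebraMap R B w ∈ P := w_mem_left913 hinf
  have hbcP : bc ∉ P := fun h => hbc (hPn h)
  have hb0 : (b : F) ≠ 0 := coe_ne_zero_of_notMem495 hb
  have hbc0 : (bc : F) ≠ 0 := coe_ne_zero_of_notMem495 hbc
  have hbv0 : (bv : F) ≠ 0 := coe_ne_zero_of_notMem495 hbv
  -- the relation in `B`
  have hrel : (a ^ p * bc - ac * b ^ p) * bv = algebraMap R B w * (av * b ^ p * bc) := by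
    apply Subtype.ext
    show ((a : F) ^ p * (bc : F) - (ac : F) * (b : F) ^ p) * (bv : F) =
      algebraMap R F w * ((av : F) * (b : F) ^ p * (bc : F))
    rw [← hab, ← hac, ← hav, mul_pow]
    linear_combination ((b : F) ^ p * (bc : F) * (bv : F)) * hγc
  have hmemP : a ^ p * bc - ac * b ^ p ∈ P := by
    have h2 : (a ^ p * bc - ac * b ^ p) * bv ∈ P := by
      rw [hrel]; exact P.mul_mem_right _ hwP
    exact (hP.mem_or_mem h2).resolve_right hbv
  -- in `D = B ⧸ P`
  have hD : (Ideal.Quotient.mk P a) ^ p * Ideal.Quotient.mk P bc =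
      Ideal.Quotient.mk P ac * (Ideal.Quotient.mk P b) ^ p := by
    have := (Ideal.Quotient.eq (I := P)).2 hmemP
    simpa using this
  obtain ⟨p', rfl⟩ : ∃ p', p = p' + 1 := ⟨p - 1, by omega⟩
  have hdvd : (Ideal.Quotient.mk P b) ^ (p' + 1) ∣ (Ideal.Quotient.mk P (a * bc)) ^ (p' + 1) := by
    refine ⟨Ideal.Quotient.mk P ac * (Ideal.Quotient.mk P bc) ^ p', ?_⟩
    rw [map_mul, mul_pow, pow_succ (Ideal.Quotient.mk P bc) p']
    linear_combination (Ideal.Quotient.mk P bc) ^ p' * hD
  obtain ⟨a₀', ha₀'⟩ := (IsIntegrallyClosed.pow_dvd_pow_iff (Nat.succ_ne_zero p')).1 hdvd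
  obtain ⟨a₀, rfl⟩ := Ideal.Quotient.mk_surjective a₀'
  have hmem2 : a * bc - b * a₀ ∈ P := by
    rw [← Ideal.Quotient.eq, ha₀', map_mul]
  obtain ⟨v₂, hv₂, hv₂e⟩ := exists_eq_w_mul913 (F := F) hP hinf hP'P hmem2
  have hbbc : b * bc ∉ P := fun h => (hP.mem_or_mem h).elim hb hbcP
  refine ⟨(a₀ : F) * (bc : F)⁻¹, div_mem_locSub913 hn a₀ hbc,
    v₂ * ((b * bc : B) : F)⁻¹,
    (locSub B P hP).mul_mem hv₂ (inv_mem_locSub913 hP hbbc), ?_⟩
  have hγ : γ = (a : F) * (b : F)⁻¹ := by
    field_simp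
    exact hab
  have hv₂e' : (a : F) * (bc : F) - (b : F) * (a₀ : F) = algebraMap R F w * v₂ := by
    rw [← hv₂e]; rfl
  rw [hγ]
  push_cast
  field_simp
  linear_combination hv₂e'

end Loc

section Arith

/-- The arithmetic of `λ = ζ - 1` in a discrete valuation ring of residue characteristic `p`:
`λ = w ^ e υ` with `e ≥ 1`, `υ` a unit, and `p = λ ^ (p - 1) z`. -/
theorem zeta_arith913 {R : Type*} [CommRing R] [IsDomain R] [IsDiscreteValuationRing R]
    {p : ℕ} (hp : p.Prime) (hpR : (p : R) ∈ IsLocalRing.maximalIdeal R) {ζ : R}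
    (hζ : IsPrimitiveRoot ζ p) {w : R} (hw : Irreducible w) :
    ∃ (e : ℕ) (υ υ' z : R), 1 ≤ e ∧ ζ - 1 = w ^ e * υ ∧ υ * υ' = 1 ∧
      (p : R) = (ζ - 1) ^ (p - 1) * z := by
  have hlam0 : ζ - 1 ≠ 0 := sub_ne_zero.2 (hζ.ne_one hp.one_lt)
  have hlamp : (ζ - 1) ^ p ∈ IsLocalRing.maximalIdeal R := by
    have h1 := add_pow_prime_eq hp (ζ - 1) (1 : R)
    rw [sub_add_cancel, hζ.pow_eq_one, one_pow] at h1
    have h2 : (ζ - 1) ^ p = -((p : R) * ((ζ - 1) * 1 *
        ∑ k ∈ Finset.Ioo 0 p, (ζ - 1) ^ (k - 1) * 1 ^ (p - k - 1) * ((p.choose k / p : ℕ) : R))) := by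
      linear_combination -h1
    rw [h2]
    exact neg_mem (Ideal.mul_mem_right _ _ hpR)
  have hlam : ζ - 1 ∈ IsLocalRing.maximalIdeal R :=
    (IsLocalRing.maximalIdeal.isMaximal R).isPrime.mem_of_pow_mem p hlamp
  obtain ⟨e, υ, hυ⟩ := IsDiscreteValuationRing.eq_unit_mul_pow_irreducible hlam0 hw
  obtain ⟨z, -, hz⟩ := hζ.self_sub_one_pow_dvd_order (Nat.sub_lt hp.pos one_pos)
  refine ⟨e, (υ : R), ((υ⁻¹ : Rˣ) : R), z, ?_, ?_, ?_, ?_⟩
  · rcases Nat.eq_zero_or_pos e with h0 | h0
    · exfalso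
      rw [h0, pow_zero, mul_one] at hυ
      rw [hυ] at hlam
      exact (IsLocalRing.mem_maximalIdeal _).1 hlam υ.isUnit
    · exact h0
  · rw [hυ]; ring
  · exact υ.mul_inv
  · rw [hz]; ring

end Arith

section Chart

variable {R E F : Type*} [CommRing R] [IsDomain R] [IsDiscreteValuationRing R]
  [Field E] [Algebra R E] [IsFractionRing R E]
  [Field F] [Algebra E F] [Algebra R F] [IsScalarTower R E F]

/-- `1 + w B_n ⊆ (B_n)ˣ`. -/
theorem one_add_w_mul913 {w : R} {B : Subalgebra R F} {n : Ideal B} (hn : n.IsPrime)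
    (hwn : algebraMap R B w ∈ n) :
    ∀ o ∈ locSub B n hn, 1 + algebraMap R F w * o ≠ 0 ∧
      (1 + algebraMap R F w * o)⁻¹ ∈ locSub B n hn :=
  (tauLoc_locSub w B (RingEquiv.refl F)
    (fun b hb => ⟨0, B.zero_mem, by simp⟩) n hn hwn).inv_mem

/-- **Density**: `B_n + f⁻¹ B_{P'} = F` when the closed point `n` is not on the component `P'`. -/
theorem dens_chart913 {w : R} {x : F} {B : Subalgebra R F} (hB : ChartCtx E w x B)
    {P P' n : Ideal B} (hP' : P'.IsPrime) (hn : n.IsPrime)
    (hinf : P' ⊓ P = Ideal.span {algebraMap R B w}) (hPP' : ¬ P ≤ P') (hP'n : ¬ P' ≤ n) :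
    ∀ g f : F, ∃ b ∈ locSub B n hn, f * (b - g) ∈ locSub B P' hP' := by
  intro g f
  haveI := hP'
  have D := Fermat.Agent.A2.Alg.H348.compData_of_inf hB hinf hPP'
  have hAB := Fermat.Agent.A2.Alg.H348.adjoin_le_of_ctx hB
  have hW0 : algebraMap R F w ≠ 0 := D.w_ne
  have hwP' : algebraMap R B w ∈ P' := w_mem_left913 hinf
  obtain ⟨s, hsA, hs0, hsB, hsg⟩ := D.frac g
  by_cases hsn : (⟨s, hsB⟩ : B) ∈ n
  · obtain ⟨y, hy', hy⟩ := SetLike.not_le_iff_exists.1 hP'n
    obtain ⟨k, hk⟩ := D.exists_mul_pow_mem hAB (f * g)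
    rw [mem_locAt_iff913] at hk
    obtain ⟨m, ε, hε, hε', hsε⟩ := D.exists_pow_mul hAB hsB hs0
    rw [mem_locAt_iff913] at hε hε'
    have hε0 : ε ≠ 0 := by
      rintro rfl
      exact hs0 (by rw [hsε, mul_zero])
    obtain ⟨y', hy'V, hyy'⟩ := exists_eq_w_mul913 (F := F) hP' hinf hPP' hy'
    set K : ℕ := k + m + 1 with hK
    have hsK : (⟨s, hsB⟩ : B) + y ^ K ∉ n := by
      intro h
      have h2 : y ^ K ∈ n := by
        have := n.sub_mem h hsn
        simpa using this
      exact hy (hn.mem_of_pow_mem K h2)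
    have hsK0 : (((⟨s, hsB⟩ : B) + y ^ K : B) : F) ≠ 0 := coe_ne_zero_of_notMem495 hsK
    have hsKF : (((⟨s, hsB⟩ : B) + y ^ K : B) : F) = s + (y : F) ^ K := by
      push_cast; rfl
    rw [hsKF] at hsK0
    set η : F := 1 + algebraMap R F w * (algebraMap R F w ^ k * ε⁻¹ * y' ^ K) with hη
    obtain ⟨hη0, hηinv⟩ := one_add_w_mul913 hP' hwP' (algebraMap R F w ^ k * ε⁻¹ * y' ^ K)
      ((locSub B P' hP').mul_mem ((locSub B P' hP').mul_mem
        ((locSub B P' hP').pow_mem ((locSub B P' hP').algebraMap_mem w) k) hε')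
        ((locSub B P' hP').pow_mem hy'V K))
    have hsKη : s + (y : F) ^ K = algebraMap R F w ^ m * ε * η := by
      rw [hη, hyy', hsε, hK, mul_pow]
      have h1 : ε * ε⁻¹ = 1 := mul_inv_cancel₀ hε0
      have h2 : algebraMap R F w ^ (k + m + 1) =
          algebraMap R F w ^ m * algebraMap R F w * algebraMap R F w ^ k := by
        rw [pow_add, pow_add, pow_one]; ring
      rw [h2]
      linear_combination
        (-(algebraMap R F w ^ m * algebraMap R F w * algebraMap R F w ^ k * y' ^ (k + m + 1))) * h1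
    refine ⟨(⟨s * g, hsg⟩ : B) * ((((⟨s, hsB⟩ : B) + y ^ K : B) : F))⁻¹,
      div_mem_locSub913 hn _ hsK, ?_⟩
    have hval : f * ((⟨s * g, hsg⟩ : B) * ((((⟨s, hsB⟩ : B) + y ^ K : B) : F))⁻¹ - g) =
        -(f * g * algebraMap R F w ^ k) * algebraMap R F w * y' ^ K * ε⁻¹ * η⁻¹ := by
      rw [hsKF]
      show f * (s * g * (s + (y : F) ^ K)⁻¹ - g) = _
      have h3 : s * g * (s + (y : F) ^ K)⁻¹ - g = -(g * (y : F) ^ K) * (s + (y : F) ^ K)⁻¹ := by
        field_simp
        ring
      rw [h3, hsKη, hyy', hK, mul_pow]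
      have hWm : algebraMap R F w ^ m ≠ 0 := pow_ne_zero _ hW0
      field_simp
      ring
    rw [hval]
    exact (locSub B P' hP').mul_mem ((locSub B P' hP').mul_mem ((locSub B P' hP').mul_mem
      ((locSub B P' hP').mul_mem ((locSub B P' hP').neg_mem hk)
        ((locSub B P' hP').algebraMap_mem w)) ((locSub B P' hP').pow_mem hy'V K)) hε') hηinv
  · refine ⟨g, ⟨⟨s * g, hsg⟩, ⟨s, hsB⟩, hsn, mul_comm _ _⟩, ?_⟩
    rw [sub_self, mul_zero]
    exact (locSub B P' hP').zero_mem

theorem locUnit_mem913 {B : Subalgebra R F} {n : Ideal B} (hn : n.IsPrime) {u : F}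
    (h : LocUnit B n u) : u ∈ locSub B n hn ∧ u⁻¹ ∈ locSub B n hn := by
  obtain ⟨a, b, ha, hb, hab⟩ := h
  have ha0 : (a : F) ≠ 0 := coe_ne_zero_of_notMem495 ha
  have hb0 : (b : F) ≠ 0 := coe_ne_zero_of_notMem495 hb
  have hu0 : u ≠ 0 := by
    rintro rfl
    rw [zero_mul] at hab
    exact ha0 hab.symm
  refine ⟨⟨a, b, hb, hab⟩, ⟨b, a, ha, ?_⟩⟩
  rw [← hab]
  field_simp

theorem constAt_of_locOneR913 {B : Subalgebra R F} {P : Ideal B} {r : R} {u : F}
    (hr : algebraMap R B r ∈ P) (h : LocOneR B P r u) : ConstAt B P u := by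
  obtain ⟨a, b, hb, hab, e⟩ := h
  refine ⟨1, isUnit_one, a, b, hb, ?_, e⟩
  rw [map_one, one_mul]
  exact (Ideal.span_singleton_le_iff_mem (I := P)).2 hr hab

/-- One-sided form of WPS: `n` lies on `P` and not on `P'`. -/
theorem wps_aux913 [CharZero E] (p : ℕ) (hp : p.Prime)
    (hpR : (p : R) ∈ IsLocalRing.maximalIdeal R) (ζ : R) (hζ : IsPrimitiveRoot ζ p)
    (w : R) (x : F) (B : Subalgebra R F) (hB : ChartCtx E w x B) (c : SSChart w B)
    (u : F) (hu : u ≠ 0) (hdiv : DivisibleDiv E p u) (hdeep : DeepOne B c p (ζ - 1) u)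
    (P P' : Ideal B) (hP : P.IsPrime) (hP' : P'.IsPrime)
    (hinf : P ⊓ P' = Ideal.span {algebraMap R B w}) (h12 : ¬ P ≤ P') (h21 : ¬ P' ≤ P)
    (hnorm : IsIntegrallyClosed (B ⧸ P)) (huP : LocOneR B P ((ζ - 1) ^ p * w) u)
    (n : Ideal B) (hn : n.IsMaximal) (hPn : P ≤ n) (hP'n : ¬ P' ≤ n) :
    ∃ d : F, d ≠ 0 ∧ LocOneR B n ((ζ - 1) ^ p) (u * d ^ p) ∧ LocOneR B P (ζ - 1) d ∧
      LocOneR B P' (ζ - 1) d := by
  have hnp : n.IsPrime := hn.isPrime
  have hwP : algebraMap R B w ∈ P := w_mem_left913 hinf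
  have hwn : algebraMap R B w ∈ n := hPn hwP
  have hw1 : algebraMap R B w ∈ c.p₁ := w_mem_left913 c.inf_eq
  have hw2 : algebraMap R B w ∈ c.p₂ :=
    w_mem_left913 (P := c.p₂) (P' := c.p₁) (by rw [inf_comm]; exact c.inf_eq)
  have hW0 : algebraMap R F w ≠ 0 := fun h0 =>
    hB.hw.ne_zero (Fermat.Agent.A2.Alg.H348.injective_algebraMap_RF R E F (by rw [h0, map_zero]))
  -- A2 purity
  have hsplit : IsSplit B c u := by
    refine ⟨constAt_of_locOneR913 ?_ hdeep.1, constAt_of_locOneR913 ?_ hdeep.2⟩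
    · rw [map_mul]; exact Ideal.mul_mem_left _ _ hw1
    · rw [map_mul]; exact Ideal.mul_mem_left _ _ hw2
  have hconstP : ConstAt B P u :=
    constAt_of_locOneR913 (by rw [map_mul]; exact Ideal.mul_mem_left _ _ hwP) huP
  obtain ⟨d₀, hd₀, hd₀n, hd₀P, -⟩ := Fermat.Agent.A2.Alg.H754.purity_smooth_aux p hp.pos w x B hB
    c u hu hdiv hsplit P P' hP hP' hinf h12 h21 hnorm hconstP n hn hPn hP'n
  obtain ⟨hεO, hεO'⟩ := locUnit_mem913 hnp hd₀n
  obtain ⟨hd₀V, -⟩ := locUnit_mem913 hP hd₀P
  -- arithmetic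
  obtain ⟨e, υ, υ', z, he, hlam, hυ, hpz⟩ := zeta_arith913 hp hpR hζ hB.hw
  obtain ⟨v, hv, huv⟩ := (locOneR_iff hP).1 huP
  set O := locSub B n hnp with hO
  set V := locSub B P hP with hV
  set V' := locSub B P' hP' with hV'
  obtain ⟨d, hd0, ⟨o, ho, hdo⟩, ⟨v₁, hv₁, hdv₁⟩, ⟨v₂, hv₂, hdv₂⟩⟩ :=
    wps_abs913 O V V' (locSub_mono913 hP hnp hPn) (W := algebraMap R F w)
      (Lam := algebraMap R F (ζ - 1)) (ρ := algebraMap R F υ) (ρ' := algebraMap R F υ')
      (z := algebraMap R F z) hW0 (O.algebraMap_mem w) hp e he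
      (by rw [hlam, map_mul, map_pow]) (O.algebraMap_mem υ) (O.algebraMap_mem υ')
      (by rw [← map_mul, hυ, map_one]) (O.algebraMap_mem z)
      (by rw [← map_pow, ← map_mul, ← hpz, map_natCast])
      (h1_chart913 hP hnp hinf hP'n)
      (h2_chart913 hP hnp hinf h21 hPn hnorm hp.ne_zero)
      (one_add_w_mul913 hnp hwn)
      (dens_chart913 hB hP' hnp (by rw [inf_comm]; exact hinf) h12 hP'n)
      hu hd₀ hd₀V hεO hεO'
      ⟨v, hv, by rw [huv, map_mul, map_pow]⟩
  refine ⟨d, hd0, (locOneR_iff hnp).2 ⟨o, ho, ?_⟩, (locOneR_iff hP).2 ⟨v₁, hv₁, hdv₁⟩,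
    (locOneR_iff hP').2 ⟨v₂, hv₂, hdv₂⟩⟩
  rw [hdo, map_pow]

end Chart

/-- **Leaf WPS** (wild purity at a closed point lying on ONE component), VERBATIM statement of
`Ribet/H495/AlgPSpec.lean`. -/
theorem wpSmoothLeaf : WPSmoothLeaf := by
  intro R E F _ _ _ _ _ _ _ _ _ _ _ _ _ p hp hp2 hpR ζ hζ w x B hB c hc u hu hdiv hdeep n hn hwn h1
  have hle : c.p₁ * c.p₂ ≤ n := by
    refine le_trans Ideal.mul_le_inf ?_
    rw [c.inf_eq, Ideal.span_singleton_le_iff_mem]
    exact hwn
  rcases (Ideal.IsPrime.mul_le hn.isPrime).1 hle with h | h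
  · have h2 : ¬ c.p₂ ≤ n := fun h2 => h1 ⟨h, h2⟩
    obtain ⟨d, hd0, hdn, hd1, hd2⟩ := wps_aux913 p hp hpR ζ hζ w x B hB c u hu hdiv hdeep
      c.p₁ c.p₂ c.prime₁ c.prime₂ c.inf_eq hc.1 hc.2 c.normal₁ hdeep.1 n hn h h2
    exact ⟨d, hd0, hdn, ⟨0, by simpa using hd1⟩, ⟨0, by simpa using hd2⟩⟩
  · have h2 : ¬ c.p₁ ≤ n := fun h2 => h1 ⟨h2, h⟩
    obtain ⟨d, hd0, hdn, hd2, hd1⟩ := wps_aux913 p hp hpR ζ hζ w x B hB c u hu hdiv hdeep
      c.p₂ c.p₁ c.prime₂ c.prime₁ (by rw [inf_comm]; exact c.inf_eq) hc.2 hc.1 c.normal₂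
      hdeep.2 n hn h h2
    exact ⟨d, hd0, hdn, ⟨0, by simpa using hd1⟩, ⟨0, by simpa using hd2⟩⟩

end Fermat.Agent.Ribet.H913

end
-- ===== PACK-END Ribet/H913/WPSmooth.lean

-- ===== PACK-BEGIN A2/H609/Horizontal.lean
section




/-!
# Node purity, part 11: (H1) from divisibility of the horizontal valuations

`R` a noetherian integrally closed domain with fraction field `K`, `u ∈ R`, `u ≠ 0`, `𝔓` a
minimal prime of `(u)`.  Then `R_𝔓 ⊆ K` is a discrete valuation ring
(`isDiscreteValuationRing_locAt_of_mem_minimalPrimes`), and if `u = u₀ h ^ m` with `u₀` a unit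
of the corresponding valuation subring, then `f ^ m = u r` with `f, r ∈ R`, `r ∉ 𝔓`
(`exists_pow_eq_mul_of_divisible`): this is hypothesis (H1) of the purity theorems.
Mathlib + `A2.H849` (Hartogs).
-/

set_option autoImplicit false

namespace Fermat.Agent.A2.H609

open Fermat.Agent.A2.H849

variable {R : Type*} [CommRing R] [IsDomain R] [IsNoetherianRing R] [IsIntegrallyClosed R]
variable {K : Type*} [Field K] [Algebra R K] [IsFractionRing R K]

omit [IsIntegrallyClosed R] [IsDomain R] in
/-- A minimal prime of `(u)` is a colon ideal `(u) : c`. -/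
theorem exists_colon_of_mem_minimalPrimes {u : R} {𝔓 : Ideal R}
    (h𝔓 : 𝔓 ∈ (Ideal.span {u}).minimalPrimes) :
    ∃ c : R, ∀ r, r ∈ 𝔓 ↔ u ∣ r * c := by
  have h1 : 𝔓 ∈ (Module.annihilator R (R ⧸ Ideal.span {u})).minimalPrimes := by
    rw [Ideal.annihilator_quotient]
    exact h𝔓
  have h2 := Module.associatedPrimes.minimalPrimes_annihilator_subset_associatedPrimes R
    (R ⧸ Ideal.span {u}) h1
  obtain ⟨-, y, hy⟩ := (isAssociatedPrime_iff (I := 𝔓) (M := R ⧸ Ideal.span {u})).1 h2
  obtain ⟨c, rfl⟩ := Ideal.Quotient.mk_surjective y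
  refine ⟨c, fun r => ?_⟩
  rw [hy, Submodule.mem_colon_singleton, Submodule.mem_bot]
  exact smul_mk_span_eq_zero_iff u r c

/-- The localisation at a minimal prime of a nonzero principal ideal is a discrete valuation
ring. -/
theorem isDiscreteValuationRing_locAt_of_mem_minimalPrimes {u : R} (hu : u ≠ 0)
    {𝔓 : Ideal R} [𝔓.IsPrime] (h𝔓 : 𝔓 ∈ (Ideal.span {u}).minimalPrimes) :
    IsDiscreteValuationRing (locAt K 𝔓) := by
  obtain ⟨c, hc⟩ := exists_colon_of_mem_minimalPrimes h𝔓
  exact isDiscreteValuationRing_locAt_of_colon 𝔓 u c hu hc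

omit [IsDomain R] [IsNoetherianRing R] [IsIntegrallyClosed R] [Algebra R K]
  [IsFractionRing R K] in
/-- In a valuation subring, `x ^ m ∈ V → x ∈ V`. -/
theorem mem_valuationSubring_of_pow_mem (V : ValuationSubring K) {x : K} {m : ℕ} (hm : m ≠ 0)
    (hx : x ^ m ∈ V) : x ∈ V := by
  rcases V.mem_or_inv_mem x with h | h
  · exact h
  · by_cases hx0 : x = 0
    · rw [hx0]
      exact V.zero_mem
    have h1 : x = x ^ m * x⁻¹ ^ (m - 1) := by
      obtain ⟨k, rfl⟩ := Nat.exists_eq_succ_of_ne_zero hm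
      rw [Nat.succ_sub_one, pow_succ, inv_pow]
      field_simp
    rw [h1]
    exact V.mul_mem _ _ hx (V.pow_mem h _)

/-- **(H1) from divisibility.**  At a minimal prime `𝔓` of `(u)`: if `u = u₀ h ^ m` with `u₀` a
unit of the discrete valuation ring `R_𝔓`, then `f ^ m = u r` with `r ∉ 𝔓`. -/
theorem exists_pow_eq_mul_of_divisible {u : R} (hu : u ≠ 0) {m : ℕ} (hm : m ≠ 0)
    {𝔓 : Ideal R} (h𝔓 : 𝔓 ∈ (Ideal.span {u}).minimalPrimes)
    (hdiv : ∀ V : ValuationSubring K, IsDiscreteValuationRing V →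
      (∀ r : R, algebraMap R K r ∈ V) → (∀ s : R, s ∉ 𝔓 → (algebraMap R K s)⁻¹ ∈ V) →
      ∃ h u₀ : K, u₀ ∈ V ∧ u₀⁻¹ ∈ V ∧ algebraMap R K u = u₀ * h ^ m) :
    ∃ f r : R, r ∉ 𝔓 ∧ f ^ m = u * r := by
  have h𝔓p : 𝔓.IsPrime := h𝔓.1.1
  have hinj : Function.Injective (algebraMap R K) := IsFractionRing.injective R K
  have hdvr : IsDiscreteValuationRing (locAt K 𝔓) :=
    isDiscreteValuationRing_locAt_of_mem_minimalPrimes hu h𝔓
  have hV := isLocDVR_locValuationSubring (K := K) 𝔓 hdvr
  set V : ValuationSubring K :=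
    locValuationSubring 𝔓 (inferInstance : ValuationRing (locAt K 𝔓)) with hVdef
  obtain ⟨h, u₀, hu₀, hu₀', huh⟩ := hdiv V hV.dvr hV.le hV.inv_mem
  have huK : algebraMap R K u ≠ 0 := fun h0 => hu (hinj (by rw [h0, map_zero]))
  have hu₀0 : u₀ ≠ 0 := by
    rintro rfl
    rw [zero_mul] at huh
    exact huK huh
  have hh0 : h ≠ 0 := by
    rintro rfl
    rw [zero_pow hm, mul_zero] at huh
    exact huK huh
  have hhV : h ∈ V := by
    refine mem_valuationSubring_of_pow_mem V hm ?_
    have : h ^ m = algebraMap R K u * u₀⁻¹ := by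
      rw [huh]
      field_simp
    rw [this]
    exact V.mul_mem _ _ (hV.le u) hu₀'
  obtain ⟨φ, s, hs, hφ⟩ := hV.exists_frac h hhV
  obtain ⟨ρ, t, ht, hρ⟩ := hV.exists_frac u₀⁻¹ hu₀'
  have hsK : algebraMap R K s ≠ 0 := by
    intro h0
    apply hs
    rw [hinj (by rw [h0, map_zero] : algebraMap R K s = algebraMap R K 0)]
    exact 𝔓.zero_mem
  have htK : algebraMap R K t ≠ 0 := by
    intro h0
    apply ht
    rw [hinj (by rw [h0, map_zero] : algebraMap R K t = algebraMap R K 0)]
    exact 𝔓.zero_mem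
  have hρK : algebraMap R K ρ ≠ 0 := by
    intro h0
    rw [h0, zero_mul] at hρ
    exact inv_ne_zero hu₀0 hρ
  have hρ0 : ρ ≠ 0 := by
    rintro rfl
    exact hρK (map_zero _)
  have hu₀ρ : u₀ * algebraMap R K ρ = algebraMap R K t := by
    have h1 : u₀ * u₀⁻¹ = 1 := mul_inv_cancel₀ hu₀0
    rw [hρ] at h1
    field_simp at h1
    exact h1
  have hρ𝔓 : ρ ∉ 𝔓 := by
    intro hmem
    apply hV.inv_not_mem ρ hmem hρ0
    have : (algebraMap R K ρ)⁻¹ = u₀ * (algebraMap R K t)⁻¹ := by
      rw [← hu₀ρ]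
      field_simp
    rw [this]
    exact V.mul_mem _ _ hu₀ (hV.inv_mem t ht)
  refine ⟨φ * t, ρ * s ^ m * t ^ (m - 1), ?_, ?_⟩
  · intro hmem
    rcases h𝔓p.mem_or_mem hmem with h1 | h1
    · rcases h𝔓p.mem_or_mem h1 with h2 | h2
      · exact hρ𝔓 h2
      · exact hs (h𝔓p.mem_of_pow_mem m h2)
    · exact ht (h𝔓p.mem_of_pow_mem _ h1)
  · apply hinj
    obtain ⟨k, rfl⟩ := Nat.exists_eq_succ_of_ne_zero hm
    rw [Nat.succ_sub_one]
    simp only [map_mul, map_pow]
    have hs' : h * algebraMap R K s = algebraMap R K φ := by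
      rw [hφ]
      field_simp
    calc (algebraMap R K φ * algebraMap R K t) ^ (k + 1)
        = algebraMap R K t * (algebraMap R K φ) ^ (k + 1) * (algebraMap R K t) ^ k := by ring
      _ = (u₀ * algebraMap R K ρ) * (h * algebraMap R K s) ^ (k + 1) *
            (algebraMap R K t) ^ k := by rw [hu₀ρ, hs']
      _ = algebraMap R K u * (algebraMap R K ρ * (algebraMap R K s) ^ (k + 1) *
            (algebraMap R K t) ^ k) := by rw [huh, Nat.succ_eq_add_one]; ring

end Fermat.Agent.A2.H609

end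
-- ===== PACK-END A2/H609/Horizontal.lean

-- ===== PACK-BEGIN A2/IF/H429/Local.lean
section


/-!
# A2 / IF (helper429): local lemmas for a valuation subring `P` of `ℚ̄` over `q`

* `root_unique_of_derivative_notMem` : a root of `f` is determined by its residue class when the
  derivative is a unit there;
* `exists_root_sub_mem_nonunits` : if `f(a) ≡ 0`, some root of the monic `f` is `≡ a`;
* `exists_pow_sub_mem_nonunits` : the residue field of `P` is algebraic over `𝔽_q`, in the form
  `a ^ N ≡ a` for some `N` divisible by `q`;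
* `exists_teichmuller` : every element of `P` is congruent to an element of the inertia field
  (a root of `X ^ N - X`).
-/

set_option autoImplicit false
set_option linter.style.haveILetI false
set_option linter.unusedSectionVars false

open scoped Pointwise
open Polynomial

namespace Fermat.Agent.A2.IF.H429

open Fermat.Agent.S55.Bridge Fermat.Agent.S55.Bridge.H594

attribute [local instance] isAlgebraic_Qbar isGalois_Qbar

local notation "Qb" => AlgebraicClosure ℚ

/-- A root of `f` is determined by its class modulo `m` if `f'` is not in `m` there. -/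
theorem root_unique_of_derivative_notMem {A : Type*} [CommRing A] [IsDomain A] (m : Ideal A)
    (f : A[X]) (a₀ α β : A) (hα : f.IsRoot α) (hβ : f.IsRoot β)
    (hd : f.derivative.eval a₀ ∉ m) (hαa : α - a₀ ∈ m) (hβa : β - a₀ ∈ m) : α = β := by
  by_contra hne
  obtain ⟨g, hg⟩ : ∃ g, f = (X - C α) * g := Polynomial.dvd_iff_isRoot.mpr hα
  have hgβ : g.eval β = 0 := by
    have h1 : f.eval β = 0 := hβ
    rw [hg, eval_mul, eval_sub, eval_X, eval_C] at h1
    rcases mul_eq_zero.mp h1 with h | h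
    · exact absurd (sub_eq_zero.mp h).symm hne
    · exact h
  apply hd
  have h2 : f.derivative.eval a₀ = g.eval a₀ + (a₀ - α) * g.derivative.eval a₀ := by
    rw [hg, derivative_mul, derivative_sub, derivative_X, derivative_C]
    simp
  rw [h2]
  apply m.add_mem
  · have h3 : a₀ - β ∣ g.eval a₀ - g.eval β := sub_dvd_eval_sub a₀ β g
    rw [hgβ, sub_zero] at h3
    obtain ⟨c, hc⟩ := h3
    rw [hc]
    apply m.mul_mem_right
    have : a₀ - β = -(β - a₀) := by ring
    rw [this]
    exact m.neg_mem hβa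
  · apply m.mul_mem_right
    have : a₀ - α = -(α - a₀) := by ring
    rw [this]
    exact m.neg_mem hαa

variable (P : ValuationSubring Qb)

/-- Roots of monic polynomials over `P` lie in `P`. -/
theorem mem_of_isRoot_map (g : (P : Type)[X]) (hg : g.Monic) (r : Qb)
    (hr : (g.map P.subtype).IsRoot r) : r ∈ P := by
  have hint : IsIntegral P r := by
    refine ⟨g, hg, ?_⟩
    have h1 : (g.map P.subtype).eval r = 0 := hr
    rw [eval_map] at h1
    exact h1
  obtain ⟨y, hy⟩ := IsIntegrallyClosed.isIntegral_iff.mp hint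
  rw [← hy]
  exact y.2

/-- If `f(a)` is a non-unit, then `a` is congruent to a root of the monic polynomial `f`. -/
theorem exists_root_sub_mem_nonunits (f : Qb[X]) (hf : f.Monic)
    (hroots : ∀ r ∈ f.roots, r ∈ P) (a : Qb) (ha : a ∈ P) (h : f.eval a ∈ P.nonunits) :
    ∃ r ∈ f.roots, a - r ∈ P.nonunits := by
  by_contra hcon
  have h1 : ∀ r ∈ f.roots, P.valuation (a - r) = 1 := by
    intro r hr
    have h2 : a - r ∉ P.nonunits := fun h' => hcon ⟨r, hr, h'⟩
    rw [ValuationSubring.mem_nonunits_iff, not_lt] at h2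
    exact le_antisymm ((P.valuation_le_one_iff _).mpr (sub_mem ha (hroots r hr))) h2
  have h3 : P.valuation (f.eval a) = 1 := by
    rw [(IsAlgClosed.splits f).eval_eq_prod_roots_of_monic hf a, _root_.map_multiset_prod,
      Multiset.map_map]
    apply Multiset.prod_eq_one
    intro x hx
    obtain ⟨r, hr, rfl⟩ := Multiset.mem_map.mp hx
    exact h1 r hr
  rw [ValuationSubring.mem_nonunits_iff, h3] at h
  exact lt_irrefl _ h

/-- Every algebraic number is a root of a primitive integer polynomial. -/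
theorem exists_primitive_aeval_eq_zero (a : Qb) :
    ∃ h : ℤ[X], h.IsPrimitive ∧ aeval a h = 0 := by
  have h1 : IsAlgebraic ℚ a := Algebra.IsAlgebraic.isAlgebraic a
  have h2 : IsAlgebraic ℤ a := (IsFractionRing.isAlgebraic_iff ℤ ℚ Qb).mpr h1
  obtain ⟨h, hh0, hha⟩ := h2
  refine ⟨h.primPart, h.isPrimitive_primPart, ?_⟩
  have h3 := h.eq_C_content_mul_primPart
  rw [h3, _root_.map_mul, aeval_C] at hha
  rcases mul_eq_zero.mp hha with h4 | h4
  · exfalso
    have h5 : h.content ≠ 0 := by
      rw [Ne, content_eq_zero_iff]; exact hh0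
    rw [eq_intCast, Int.cast_eq_zero] at h4
    exact h5 h4
  · exact h4

/-- The residue field of `P` is algebraic over `𝔽_q`, elementary form. -/
theorem exists_pow_sub_mem_nonunits (q : ℕ) (hq : q.Prime) (hP : P.LiesOverPrime q)
    (a : Qb) (ha : a ∈ P) : ∃ N : ℕ, q ∣ N ∧ 0 < N ∧ a ^ N - a ∈ P.nonunits := by
  classical
  haveI : Fact q.Prime := ⟨hq⟩
  let k := IsLocalRing.ResidueField P
  have hqk : ((q : ℕ) : k) = 0 := by
    have h1 : ((q : ℕ) : k) = IsLocalRing.residue P ((q : ℕ) : P) := by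
      rw [_root_.map_natCast]
    rw [h1, IsLocalRing.residue_eq_zero_iff, ← ValuationSubring.coe_mem_nonunits_iff]
    have h2 : (((q : ℕ) : P) : Qb) = (q : Qb) := by simp
    rw [h2]
    exact hP
  haveI : CharP k q := (CharP.charP_iff_prime_eq_zero hq).mpr hqk
  letI : Algebra (ZMod q) k := ZMod.algebra k q
  let a' : P := ⟨a, ha⟩
  let ā : k := IsLocalRing.residue P a'
  have halg : IsAlgebraic (ZMod q) ā := by
    obtain ⟨h, hprim, hha⟩ := exists_primitive_aeval_eq_zero a
    refine ⟨h.map (Int.castRingHom (ZMod q)), ?_, ?_⟩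
    · intro h0
      have hdvd : C (q : ℤ) ∣ h := by
        rw [C_dvd_iff_dvd_coeff]
        intro i
        have := congrArg (fun p => coeff p i) h0
        simp only [coeff_map, eq_intCast, coeff_zero] at this
        exact (ZMod.intCast_zmod_eq_zero_iff_dvd _ q).mp this
      have hu := hprim (q : ℤ) hdvd
      rw [Int.isUnit_iff] at hu
      rcases hu with hu | hu
      · have : q = 1 := by exact_mod_cast hu
        exact hq.one_lt.ne' this
      · have : (0 : ℤ) ≤ (q : ℤ) := Int.natCast_nonneg q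
        omega
    · rw [aeval_def, eval₂_map]
      have hcomp : (algebraMap (ZMod q) k).comp (Int.castRingHom (ZMod q)) =
          (IsLocalRing.residue P).comp (Int.castRingHom P) := RingHom.ext_int _ _
      rw [hcomp, ← hom_eval₂]
      have hz : eval₂ (Int.castRingHom P) a' h = 0 := by
        apply Subtype.ext
        have h1 := hom_eval₂ h (Int.castRingHom P) P.subtype a'
        have h2 : P.subtype.comp (Int.castRingHom P) = algebraMap ℤ Qb := RingHom.ext_int _ _
        rw [h2] at h1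
        have h3 : eval₂ (algebraMap ℤ Qb) (P.subtype a') h = 0 := hha
        rw [h3] at h1
        exact h1
      rw [hz, _root_.map_zero]
  let F : IntermediateField (ZMod q) k := IntermediateField.adjoin (ZMod q) {ā}
  haveI : FiniteDimensional (ZMod q) F :=
    IntermediateField.adjoin.finiteDimensional halg.isIntegral
  haveI : Finite F := Module.finite_of_finite (ZMod q)
  haveI : Fintype F := Fintype.ofFinite F
  let x : F := ⟨ā, IntermediateField.mem_adjoin_simple_self (ZMod q) ā⟩
  have hx : x ^ Fintype.card F = x := FiniteField.pow_card x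
  have hN0 : ((Fintype.card F : ℕ) : F) = 0 := FiniteField.cast_card_eq_zero F
  haveI : CharP F q := (RingHom.charP_iff (algebraMap F k) (algebraMap F k).injective q).mpr
    inferInstance
  refine ⟨Fintype.card F, (CharP.cast_eq_zero_iff F q _).mp hN0, Fintype.card_pos, ?_⟩
  have h1 : ā ^ Fintype.card F = ā := by
    have := congrArg (fun y : F => (y : k)) hx
    simpa using this
  have h2 : IsLocalRing.residue P (a' ^ Fintype.card F - a') = 0 := by
    rw [_root_.map_sub, _root_.map_pow]
    exact sub_eq_zero.mpr h1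
  rw [IsLocalRing.residue_eq_zero_iff, ← ValuationSubring.coe_mem_nonunits_iff] at h2
  simpa using h2


theorem natCast_mem_maximalIdeal_of_dvd (q : ℕ) (hP : P.LiesOverPrime q) (N : ℕ) (hqN : q ∣ N) :
    ((N : ℕ) : P) ∈ IsLocalRing.maximalIdeal P := by
  obtain ⟨c, rfl⟩ := hqN
  rw [Nat.cast_mul]
  apply Ideal.mul_mem_right
  rw [← ValuationSubring.coe_mem_nonunits_iff]
  have h2 : (((q : ℕ) : P) : Qb) = (q : Qb) := by simp
  rw [h2]
  exact hP

/-- **Teichmüller lifts.**  Every element of `P` is congruent modulo the maximal ideal to an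
element of the inertia field lying in `P`. -/
theorem exists_teichmuller (q : ℕ) (hq : q.Prime) (hP : P.LiesOverPrime q) (a : Qb)
    (ha : a ∈ P) : ∃ z : Qb, z ∈ P ∧ z ∈ inertiaField P ∧ a - z ∈ P.nonunits := by
  obtain ⟨N, hqN, hN0, haN⟩ := exists_pow_sub_mem_nonunits P q hq hP a ha
  have hN2 : 2 ≤ N := le_trans hq.two_le (Nat.le_of_dvd hN0 hqN)
  let g : (P : Type)[X] := X ^ N - X
  have hg : g.Monic := by
    apply monic_X_pow_sub
    rw [degree_X]
    exact_mod_cast hN2
  have hgmap : g.map P.subtype = X ^ N - X := by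
    simp [g]
  have hroots : ∀ r ∈ (g.map P.subtype).roots, r ∈ P := fun r hr =>
    mem_of_isRoot_map P g hg r (isRoot_of_mem_roots hr)
  have heval : (g.map P.subtype).eval a ∈ P.nonunits := by
    rw [hgmap]
    simpa using haN
  obtain ⟨z, hz, hza⟩ := exists_root_sub_mem_nonunits P _ (hg.map _) hroots a ha heval
  have hzP : z ∈ P := hroots z hz
  have hzN : z ^ N = z := by
    have h1 : (g.map P.subtype).eval z = 0 := isRoot_of_mem_roots hz
    rw [hgmap] at h1
    simp only [eval_sub, eval_pow, eval_X] at h1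
    exact sub_eq_zero.mp h1
  refine ⟨z, hzP, ?_, hza⟩
  rw [mem_inertiaField_iff]
  intro τ hτ
  have hτzP : τ z ∈ P := mem_of_mem_decomp P (decomp_of_inertia P hτ) hzP
  have hτzN : (τ z) ^ N = τ z := by rw [← _root_.map_pow, hzN]
  have key := root_unique_of_derivative_notMem (IsLocalRing.maximalIdeal P) g
    (⟨z, hzP⟩ : P) ⟨z, hzP⟩ ⟨τ z, hτzP⟩ ?_ ?_ ?_ ?_ ?_
  · exact (congrArg Subtype.val key).symm
  · show g.eval _ = 0
    simp only [g, eval_sub, eval_pow, eval_X]
    apply Subtype.ext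
    simpa using sub_eq_zero.mpr hzN
  · show g.eval _ = 0
    simp only [g, eval_sub, eval_pow, eval_X]
    apply Subtype.ext
    simpa using sub_eq_zero.mpr hτzN
  · intro hmem
    have hN := natCast_mem_maximalIdeal_of_dvd P q hP N hqN
    have h1 : g.derivative.eval (⟨z, hzP⟩ : P) =
        (N : P) * (⟨z, hzP⟩ : P) ^ (N - 1) - 1 := by
      simp [g, derivative_X_pow]
    rw [h1] at hmem
    have h2 : (1 : P) ∈ IsLocalRing.maximalIdeal P := by
      have := Ideal.sub_mem _ (Ideal.mul_mem_right ((⟨z, hzP⟩ : P) ^ (N - 1)) _ hN) hmem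
      simpa using this
    exact (Ideal.ne_top_iff_one _).mp (IsLocalRing.maximalIdeal.isMaximal P).ne_top h2
  · simp
  · rw [← ValuationSubring.coe_mem_nonunits_iff]
    exact sub_mem_nonunits_of_inertia P hτ hzP


end Fermat.Agent.A2.IF.H429

end
-- ===== PACK-END A2/IF/H429/Local.lean

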