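import Fermat.Prelude.Def_ModularCurve_HeckeModule
import Mathlib
import Fermat.Prelude.Def_AlgebraicCurve_DivisorClassGroup
import Fermat.Prelude.Def_AlgebraicCurve_BaseChangeGalois
import Fermat.Agent.Pack.S33.E16L3
import Fermat.Agent.Pack.S33.E13L1
import Fermat.Agent.Pack.S33.E7L0
import Fermat.Agent.Pack.S33.E15L0
import Fermat.Agent.Pack.S33.E12L2
import Fermat.Agent.Pack.S33.E16L1
import Fermat.Agent.Pack.S33.E16L2
import Fermat.Agent.Pack.S33.E10L1
import Fermat.Agent.Pack.S33.E2L3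
import Fermat.Agent.Pack.S33.E5L3
import Fermat.Agent.Pack.S33.E5L2
import Fermat.Agent.Pack.S33.E9L1

-- ===== PACK-BEGIN Lib/FF398/Hecke.lean
section




/-!
# Lib/FF398 — the Hecke correspondence `T_ℓ` on `J₀(N)` is the genuine one

`ModularCurve.heckeOperatorAlong L N ℓ` is defined by `dite` on `HeckeInputsAlong L N ℓ`
(junk value `0` if the inputs fail).  We prove the inputs for `L = ℚ̄`:

* `heckeInputs_general` : for ANY two `K`-embeddings `α β : F → F'` of function fields of one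
  variable over an algebraically closed field of characteristic zero, all six inputs hold;
* `heckeInputsAlong N ℓ : HeckeInputsAlong ℚ̄ N ℓ`;
* `heckeOperatorBar_eq` : `heckeOperatorBar N ℓ` is `Pic0.correspondence β α` (norm ∘ conorm).
(helper398)
-/

set_option autoImplicit false
set_option linter.unusedSectionVars false

open AlgebraicCurve IsDedekindDomain IntermediateField ModularCurve

namespace Fermat.Agent.Lib.FF398

section General

variable {K F F' : Type*} [Field K] [Field F] [Field F'] [Algebra K F] [Algebra K F']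
  [IsAlgClosed K] [CharZero K]

/-- A `K`-embedding of function fields of one variable is finite. -/
theorem finiteAlong_of_functionField (φ : F →ₐ[K] F') (j : F) (hj : Transcendental K j)
    (j' : F') (hj' : Transcendental K j') [FiniteDimensional K⟮j'⟯ F'] :
    FiniteAlong K φ := by
  letI := algebraAlong φ
  show Module.Finite F F'
  have hy : Transcendental K (φ j) := by
    intro h
    exact hj ((isAlgebraic_algHom_iff φ φ.injective).mp h)
  haveI : FiniteDimensional K⟮φ j⟯ F' :=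
    Fermat.Agent.S24.FF.finiteDimensional_adjoin_of_transcendental hj' hy
  obtain ⟨S, hS⟩ := (Module.finite_def (R := K⟮φ j⟯) (M := F')).mp inferInstance
  refine Module.finite_def.mpr ⟨S, ?_⟩
  have hle : K⟮φ j⟯ ≤ φ.fieldRange := by
    rw [adjoin_le_iff]
    rintro _ rfl
    exact ⟨j, rfl⟩
  have key : ∀ x : F', x ∈ Submodule.span K⟮φ j⟯ (S : Set F') →
      x ∈ Submodule.span F (S : Set F') := by
    intro x hx
    induction hx using Submodule.span_induction with
    | mem x hx => exact Submodule.subset_span hx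
    | zero => exact _root_.ZeroMemClass.zero_mem _
    | add x y _ _ hx hy => exact _root_.AddMemClass.add_mem hx hy
    | smul e x _ hx =>
      obtain ⟨f, hf⟩ := hle e.2
      have : e • x = f • x := by
        rw [Algebra.smul_def, Algebra.smul_def]
        show (e : F') * x = φ f * x
        rw [← hf]
        rfl
      rw [this]
      exact Submodule.smul_mem _ _ hx
  rw [eq_top_iff]
  intro x _
  exact key x (by rw [hS]; trivial)

/-- **All six inputs of the Hecke correspondence** for two embeddings of function fields. -/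
theorem heckeInputs_general (α β : F →ₐ[K] F') (j : F) (hj : Transcendental K j)
    (j' : F') (hj' : Transcendental K j') [FiniteDimensional K⟮j'⟯ F'] :
    ∃ (_ : α.toRingHom.IsIntegral) (hβ : β.toRingHom.IsIntegral)
      (_ : HasPrincipalDivisors K F') (hfin : FiniteAlong K α),
      FundamentalIdentityAlong K β hβ ∧ NormFormulaAlong K α hfin := by
  haveI hP : HasPrincipalDivisors K F' := hasPrincipalDivisors j' hj'
  haveI : CharZero F := charZero_of_injective_algebraMap (algebraMap K F).injective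
  have hdeg' : ∀ w : Place K F', w.deg = 1 := fun w => Fermat.Agent.S24.FF.deg_eq_one w hj'
  have hfinα : FiniteAlong K α := finiteAlong_of_functionField α j hj j' hj'
  have hfinβ : FiniteAlong K β := finiteAlong_of_functionField β j hj j' hj'
  have hα : α.toRingHom.IsIntegral := by
    letI := algebraAlong α
    haveI : Module.Finite F F' := hfinα
    exact fun x => Algebra.IsIntegral.isIntegral (R := F) x
  have hβ : β.toRingHom.IsIntegral := by
    letI := algebraAlong β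
    haveI : Module.Finite F F' := hfinβ
    exact fun x => Algebra.IsIntegral.isIntegral (R := F) x
  refine ⟨hα, hβ, hP, hfinα, ?_, ?_⟩
  · letI := algebraAlong β
    haveI := isScalarTower_along β
    haveI : Module.Finite F F' := hfinβ
    exact fundamentalIdentity (K := K) (F := F) (F' := F') hdeg'
  · letI := algebraAlong α
    haveI := isScalarTower_along α
    haveI : Module.Finite F F' := hfinα
    exact pushforwardNormFormula (K := K) (F := F) (F' := F') hdeg'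

end General

section Modular

open Fermat.Agent.S24

theorem transcendental_jF (N : ℕ) [NeZero N] : Transcendental Kbar (jF N) := by
  intro halg
  obtain ⟨p, hp0, hp⟩ := halg
  apply Deg457.aeval_JK_ne_zero Kbar hp0
  have h2 := congrArg (algebraMap (FF N) (LaurentSeries Kbar)) hp
  rw [← Polynomial.aeval_algebraMap_apply, map_zero] at h2
  exact h2

instance finiteDimensional_FF (N : ℕ) [NeZero N] :
    FiniteDimensional ↥(IntermediateField.adjoin Kbar {jF N}) (FF N) :=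
  (Deg457.degree_fields N).1

/-- The function field of `X₀(N)` over `ℚ̄` has principal divisors. -/
theorem hasPrincipalDivisors_FF (N : ℕ) [NeZero N] :
    HasPrincipalDivisors Kbar (FF N) :=
  hasPrincipalDivisors (jF N) (transcendental_jF N)

/-- Every place of the function field of `X₀(N)` over `ℚ̄` has degree one. -/
theorem deg_eq_one_FF (N : ℕ) [NeZero N] (v : Place Kbar (FF N)) : v.deg = 1 :=
  Fermat.Agent.S24.FF.deg_eq_one v (transcendental_jF N)

/-- **The Hecke correspondence `T_ℓ` on `J₀(N)` over `ℚ̄` is the genuine one.** -/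
theorem heckeInputsAlong (N ℓ : ℕ) [NeZero N] [NeZero ℓ] :
    HeckeInputsAlong (AlgebraicClosure ℚ) N ℓ :=
  heckeInputs_general (heckeAlphaBar (AlgebraicClosure ℚ) N ℓ)
    (heckeBetaBar (AlgebraicClosure ℚ) N ℓ) (jF N) (transcendental_jF N)
    (jF (N * ℓ)) (transcendental_jF (N * ℓ))

/-! ### Named components (for unfolding `T_ℓ`) -/

variable (N ℓ : ℕ) [NeZero N] [NeZero ℓ]

/-- The function field of `X₀(M)` over `ℚ̄` has principal divisors (instance form). -/
instance instHasPrincipalDivisorsFF (M : ℕ) [NeZero M] :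
    HasPrincipalDivisors (AlgebraicClosure ℚ)
      (laurentBaseChange (AlgebraicClosure ℚ) (modularFunctionFieldFull M)) :=
  hasPrincipalDivisors_FF M

theorem heckeAlphaBarIntegral : HeckeAlphaBarIntegral (AlgebraicClosure ℚ) N ℓ :=
  (heckeInputsAlong N ℓ).1

theorem heckeBetaBarIntegral : HeckeBetaBarIntegral (AlgebraicClosure ℚ) N ℓ :=
  (heckeInputsAlong N ℓ).2.1

theorem finiteAlong_alpha : FiniteAlong (AlgebraicClosure ℚ) (heckeAlphaBar (AlgebraicClosure ℚ) N ℓ) :=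
  finiteAlong_of_functionField _ (jF N) (transcendental_jF N) (jF (N * ℓ))
    (transcendental_jF (N * ℓ))

theorem finiteAlong_beta : FiniteAlong (AlgebraicClosure ℚ) (heckeBetaBar (AlgebraicClosure ℚ) N ℓ) :=
  finiteAlong_of_functionField _ (jF N) (transcendental_jF N) (jF (N * ℓ))
    (transcendental_jF (N * ℓ))

theorem fundamentalIdentityAlong_beta :
    FundamentalIdentityAlong (AlgebraicClosure ℚ) (heckeBetaBar (AlgebraicClosure ℚ) N ℓ)
      (heckeBetaBarIntegral N ℓ) := by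
  letI := algebraAlong (heckeBetaBar (AlgebraicClosure ℚ) N ℓ)
  haveI := isScalarTower_along (heckeBetaBar (AlgebraicClosure ℚ) N ℓ)
  haveI : Module.Finite (FF N) (FF (N * ℓ)) := finiteAlong_beta N ℓ
  haveI : CharZero (FF N) :=
    charZero_of_injective_algebraMap (algebraMap (AlgebraicClosure ℚ) (FF N)).injective
  exact fundamentalIdentity (K := AlgebraicClosure ℚ) (F := FF N) (F' := FF (N * ℓ))
    (deg_eq_one_FF (N * ℓ))

theorem fundamentalIdentityAlong_alpha :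
    FundamentalIdentityAlong (AlgebraicClosure ℚ) (heckeAlphaBar (AlgebraicClosure ℚ) N ℓ)
      (heckeAlphaBarIntegral N ℓ) := by
  letI := algebraAlong (heckeAlphaBar (AlgebraicClosure ℚ) N ℓ)
  haveI := isScalarTower_along (heckeAlphaBar (AlgebraicClosure ℚ) N ℓ)
  haveI : Module.Finite (FF N) (FF (N * ℓ)) := finiteAlong_alpha N ℓ
  haveI : CharZero (FF N) :=
    charZero_of_injective_algebraMap (algebraMap (AlgebraicClosure ℚ) (FF N)).injective
  exact fundamentalIdentity (K := AlgebraicClosure ℚ) (F := FF N) (F' := FF (N * ℓ))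
    (deg_eq_one_FF (N * ℓ))

theorem normFormulaAlong_alpha :
    NormFormulaAlong (AlgebraicClosure ℚ) (heckeAlphaBar (AlgebraicClosure ℚ) N ℓ)
      (finiteAlong_alpha N ℓ) := by
  letI := algebraAlong (heckeAlphaBar (AlgebraicClosure ℚ) N ℓ)
  haveI := isScalarTower_along (heckeAlphaBar (AlgebraicClosure ℚ) N ℓ)
  haveI : Module.Finite (FF N) (FF (N * ℓ)) := finiteAlong_alpha N ℓ
  haveI : CharZero (FF N) :=
    charZero_of_injective_algebraMap (algebraMap (AlgebraicClosure ℚ) (FF N)).injective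
  exact pushforwardNormFormula (K := AlgebraicClosure ℚ) (F := FF N) (F' := FF (N * ℓ))
    (deg_eq_one_FF (N * ℓ))

theorem normFormulaAlong_beta :
    NormFormulaAlong (AlgebraicClosure ℚ) (heckeBetaBar (AlgebraicClosure ℚ) N ℓ)
      (finiteAlong_beta N ℓ) := by
  letI := algebraAlong (heckeBetaBar (AlgebraicClosure ℚ) N ℓ)
  haveI := isScalarTower_along (heckeBetaBar (AlgebraicClosure ℚ) N ℓ)
  haveI : Module.Finite (FF N) (FF (N * ℓ)) := finiteAlong_beta N ℓ
  haveI : CharZero (FF N) :=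
    charZero_of_injective_algebraMap (algebraMap (AlgebraicClosure ℚ) (FF N)).injective
  exact pushforwardNormFormula (K := AlgebraicClosure ℚ) (F := FF N) (F' := FF (N * ℓ))
    (deg_eq_one_FF (N * ℓ))

/-- `T_ℓ` on `Pic⁰` is `α_* ∘ β^*` (norm ∘ conorm), not the junk value. -/
theorem heckeOperatorAlong_eq_heckePic0Bar :
    heckeOperatorAlong (AlgebraicClosure ℚ) N ℓ
      = heckePic0Bar (heckeAlphaBarIntegral N ℓ) (heckeBetaBarIntegral N ℓ)
          (fundamentalIdentityAlong_beta N ℓ) (finiteAlong_alpha N ℓ)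
          (normFormulaAlong_alpha N ℓ) :=
  heckeOperatorAlong_eq _ _ _ _ _

/-- `T_ℓ` on a divisor class: `T_ℓ [D] = [α_* β^* D]`. -/
theorem heckeOperatorAlong_mk
    (D : Divisor.degZero (K := AlgebraicClosure ℚ)
      (F := laurentBaseChange (AlgebraicClosure ℚ) (modularFunctionFieldFull N))) :
    heckeOperatorAlong (AlgebraicClosure ℚ) N ℓ (Pic0.mk D)
      = Pic0.mk (Pic0.degZeroCorrespondence (heckeBetaBar (AlgebraicClosure ℚ) N ℓ)
          (heckeAlphaBar (AlgebraicClosure ℚ) N ℓ) (heckeBetaBarIntegral N ℓ)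
          (heckeAlphaBarIntegral N ℓ) (fundamentalIdentityAlong_beta N ℓ) D) := by
  rw [heckeOperatorAlong_eq_heckePic0Bar]
  rfl

/-- `T_ℓ` (as `heckeOperatorBar`) on a divisor class. -/
theorem heckeOperatorBar_mk (p : Nat.Primes)
    (D : Divisor.degZero (K := AlgebraicClosure ℚ)
      (F := laurentBaseChange (AlgebraicClosure ℚ) (modularFunctionFieldFull N))) :
    haveI : NeZero (p : ℕ) := ⟨p.2.ne_zero⟩
    heckeOperatorBar N p (Pic0.mk D)
      = Pic0.mk (Pic0.degZeroCorrespondence (heckeBetaBar (AlgebraicClosure ℚ) N p)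
          (heckeAlphaBar (AlgebraicClosure ℚ) N p) (heckeBetaBarIntegral N p)
          (heckeAlphaBarIntegral N p) (fundamentalIdentityAlong_beta N p) D) := by
  haveI : NeZero (p : ℕ) := ⟨p.2.ne_zero⟩
  rw [heckeOperatorBar_apply]
  exact heckeOperatorAlong_mk N p D

end Modular

end Fermat.Agent.Lib.FF398

end
-- ===== PACK-END Lib/FF398/Hecke.lean

-- ===== PACK-BEGIN S37/H98/RawES.lean
section





/-!
# S37 → S29 export (helper98): the raw Eichler–Shimura statement on torsion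

Row S29 (helper269) consumes from rows S37/S18 exactly `Fermat.Agent.S29.RawESStatement`
(`Fermat/Agent/S29/Parts.lean`): for `ℓ ∤ N p`, `A` over `ℓ`, inertia at `A` fixes the
`p`-torsion of `JZero N` and every Frobenius `σ` at `A` satisfies
`σ² x - T_ℓ (σ x) + ℓ x = 0` on it.  This file derives it formally

* `rawES_of_redData`  : from reduction data `H99.RedData N A ℓ hℓ` for all `ℓ ∤ N`, `A`;
* `rawES_of_pieces`   : from the two remaining pieces of the S37 row plan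
  (`Core.result_of_pieces`): [S18] `Core.InjTorsionModL` and [PR] `Core.PlaceRed`
  ([HIA] is on main: `Lib.FF398.heckeInputsAlong`).

No Hecke-module structure, no `HeckeOperatorsCommuteBar`.  The pointwise versions
`rawES_at_of_redData`, `rawES_at_of_placeRed` hold for every `m` prime to `ℓ` (not only primes).
-/

set_option autoImplicit false
set_option synthInstance.maxHeartbeats 400000

noncomputable section

namespace Fermat.Agent.S37.H98

open ModularCurve ValuationSubring AlgebraicCurve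

section Abstract

variable {G J : Type*} [Group G] [AddCommGroup J] [DistribMulAction G J]

/-- Abstract core, inertia part: a map killing `τ x - x` and injective on `m`-torsion. -/
theorem smul_eq_of_red {Y : Type*} [AddCommGroup Y] (red : J →+ Y) {m : ℕ}
    (hinj : ∀ x : J, m • x = 0 → red x = 0 → x = 0) (τ : G)
    (hτ : ∀ x : J, red (τ • x) = red x) {x : J} (hx : (m : ℤ) • x = 0) :
    τ • x = x := by
  have h1 : (m : ℤ) • (τ • x - x) = 0 := by
    rw [zsmul_sub, ← smul_comm τ (m : ℤ) x, hx, smul_zero, sub_zero]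
  rw [natCast_zsmul] at h1
  have h2 : red (τ • x - x) = 0 := by rw [map_sub, hτ x, sub_self]
  exact sub_eq_zero.mp (hinj _ h1 h2)

/-- Abstract core, Frobenius part (`T` any additive endomorphism). -/
theorem relation_eq_zero_of_red {Y : Type*} [AddCommGroup Y] (red : J →+ Y) {m : ℕ}
    (hinj : ∀ x : J, m • x = 0 → red x = 0 → x = 0) (σ : G) (T : J →+ J) (ℓ : ℕ)
    (hσ : ∀ x : J, red (σ • σ • x - T (σ • x) + ℓ • x) = 0)
    {x : J} (hx : (m : ℤ) • x = 0) :
    σ • σ • x - T (σ • x) + (ℓ : ℤ) • x = 0 := by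
  rw [natCast_zsmul]
  refine hinj _ ?_ (hσ x)
  have h0 : (m : ℤ) • (σ • x) = 0 := by
    rw [← smul_comm σ (m : ℤ) x, hx, smul_zero]
  have h1 : (m : ℤ) • (σ • σ • x) = 0 := by
    rw [← smul_comm σ (m : ℤ) (σ • x), h0, smul_zero]
  have h2 : (m : ℤ) • T (σ • x) = 0 := by
    rw [← map_zsmul, h0, map_zero]
  have h3 : (m : ℤ) • (ℓ • x) = 0 := by
    rw [← natCast_zsmul x ℓ, smul_comm, hx, smul_zero]
  have h4 : (m : ℤ) • (σ • σ • x - T (σ • x) + ℓ • x) = 0 := by
    rw [zsmul_add, zsmul_sub, h1, h2, h3, sub_zero, add_zero]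
  rwa [natCast_zsmul] at h4

end Abstract

/-- Raw Eichler–Shimura at `(ℓ, A)` on `m`-torsion (`m` prime to `ℓ`), from reduction data. -/
theorem rawES_at_of_redData {N : ℕ} [NeZero N] {A : ValuationSubring (AlgebraicClosure ℚ)}
    {ℓ : ℕ} {hℓ : ℓ.Prime} (D : Fermat.Agent.S37.H99.RedData N A ℓ hℓ) (m : ℕ)
    (hm : m.Coprime ℓ) :
    (∀ σ ∈ A.inertiaSubgroupIn ℚ, ∀ x : JZero N, (m : ℤ) • x = 0 → σ • x = x) ∧
    (∀ σ : AlgebraicClosure ℚ ≃ₐ[ℚ] AlgebraicClosure ℚ, A.IsFrobeniusAt σ ℓ →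
      ∀ x : JZero N, (m : ℤ) • x = 0 →
        σ • σ • x - heckeOperatorBar N ⟨ℓ, hℓ⟩ (σ • x) + (ℓ : ℤ) • x = 0) := by
  have hinj : ∀ x : JZero N, m • x = 0 → D.red x = 0 → x = 0 :=
    fun x hx h0 => D.inj_torsion m x hm hx h0
  exact ⟨fun τ hτ x hx => smul_eq_of_red D.red hinj τ (D.inertia τ hτ) hx,
    fun σ hσ x hx => relation_eq_zero_of_red D.red hinj σ
      (heckeOperatorBar N ⟨ℓ, hℓ⟩).toAddMonoidHom ℓ (D.relation σ hσ) hx⟩

/-- **`RawESStatement` from reduction data** (`H99.RedData` for all `ℓ ∤ N` and all `A`). -/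
theorem rawES_of_redData
    (H : ∀ (N : ℕ) [NeZero N] (ℓ : ℕ) (hℓ : ℓ.Prime), ¬ ℓ ∣ N →
      ∀ A : ValuationSubring (AlgebraicClosure ℚ), A.LiesOverPrime ℓ →
        Nonempty (Fermat.Agent.S37.H99.RedData N A ℓ hℓ)) :
    Fermat.Agent.S29.RawESStatement := by
  intro N p _ hp ℓ hℓ hdvd A hA
  have hℓN : ¬ ℓ ∣ N := fun h => hdvd (Dvd.dvd.mul_right h p)
  have hℓp : ¬ ℓ ∣ p := fun h => hdvd (Dvd.dvd.mul_left h N)
  obtain ⟨D⟩ := H N ℓ hℓ hℓN A hA
  exact rawES_at_of_redData D p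
    (Nat.coprime_comm.mp ((Nat.Prime.coprime_iff_not_dvd hℓ).mpr hℓp))

open Fermat.Agent.S37.Core in
/-- Raw Eichler–Shimura for ONE Frobenius `σ₀` at `(ℓ, A)` on `m`-torsion (`ℓ ∤ m`), from a
`Core.PlaceRed` and the conclusion of S18. -/
theorem rawES_at_of_placeRed {N : ℕ} [NeZero N] {A : ValuationSubring (AlgebraicClosure ℚ)}
    {ℓ : ℕ} (hℓ : ℓ.Prime) {σ₀ : AlgebraicClosure ℚ ≃ₐ[ℚ] AlgebraicClosure ℚ}
    (D : haveI : NeZero ℓ := ⟨hℓ.ne_zero⟩; PlaceRed N A ℓ σ₀)
    (hS18 : InjTorsionModL N ℓ A) (m : ℕ) (hm : ¬ ℓ ∣ m) :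
    (∀ σ ∈ A.inertiaSubgroupIn ℚ, ∀ x : JZero N, (m : ℤ) • x = 0 → σ • x = x) ∧
    (∀ x : JZero N, (m : ℤ) • x = 0 →
        σ₀ • σ₀ • x - heckeOperatorBar N ⟨ℓ, hℓ⟩ (σ₀ • x) + (ℓ : ℤ) • x = 0) := by
  have : NeZero ℓ := ⟨hℓ.ne_zero⟩
  have hinj : ∀ x : JZero N, m • x = 0 → D.red x = 0 → x = 0 :=
    fun x hx h0 => D.red_inj_torsion hS18 hm hx h0
  exact ⟨fun τ hτ x hx => smul_eq_of_red D.red hinj τ (fun y => D.red_inertia hτ y) hx,
    fun x hx => relation_eq_zero_of_red D.red hinj σ₀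
      (heckeOperatorBar N ⟨ℓ, hℓ⟩).toAddMonoidHom ℓ
      (fun y => D.red_relation (Fermat.Agent.Lib.FF398.heckeInputsAlong N ℓ) y) hx⟩

open Fermat.Agent.S37.Core in
/-- **`RawESStatement` from the two open pieces of the S37 row plan**: [S18] and [PR]. -/
theorem rawES_of_pieces
    (hS18 : ∀ (N : ℕ) [NeZero N] (ℓ : ℕ), ℓ.Prime → ¬ ℓ ∣ N →
      ∀ A : ValuationSubring (AlgebraicClosure ℚ), A.LiesOverPrime ℓ → InjTorsionModL N ℓ A)
    (hPR : ∀ (N : ℕ) [NeZero N] (ℓ : ℕ) (hℓ : ℓ.Prime), ¬ ℓ ∣ N →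
      ∀ A : ValuationSubring (AlgebraicClosure ℚ), A.LiesOverPrime ℓ →
        ∀ σ₀ : AlgebraicClosure ℚ ≃ₐ[ℚ] AlgebraicClosure ℚ, A.IsFrobeniusAt σ₀ ℓ →
          haveI : NeZero ℓ := ⟨hℓ.ne_zero⟩; Nonempty (PlaceRed N A ℓ σ₀)) :
    Fermat.Agent.S29.RawESStatement := by
  intro N p _ hp ℓ hℓ hdvd A hA
  have hℓN : ¬ ℓ ∣ N := fun h => hdvd (Dvd.dvd.mul_right h p)
  have hℓp : ¬ ℓ ∣ p := fun h => hdvd (Dvd.dvd.mul_left h N)
  refine ⟨?_, fun σ hσ x hx => ?_⟩
  · obtain ⟨σ₀, hσ₀⟩ := Fermat.Agent.S37.H99.exists_isFrobeniusAt ℓ hℓ A hA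
    obtain ⟨D⟩ := hPR N ℓ hℓ hℓN A hA σ₀ hσ₀
    exact (rawES_at_of_placeRed hℓ D (hS18 N ℓ hℓ hℓN A hA) p hℓp).1
  · obtain ⟨D⟩ := hPR N ℓ hℓ hℓN A hA σ hσ
    exact (rawES_at_of_placeRed hℓ D (hS18 N ℓ hℓ hℓN A hA) p hℓp).2 x hx

end Fermat.Agent.S37.H98

end
end
-- ===== PACK-END S37/H98/RawES.lean

-- ===== PACK-BEGIN S37/Core/Final.lean
section


/-!
# S37 row (helper37): the FINAL interface `WeakRedData`

`WeakRedData M A ℓ σ₀` : an additive map `red : J₀(M) →+ Y` (any target) with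
* `inertia`     : `red (τ • x) = red x` for `τ` in the inertia group at `A`,
* `inj_torsion` : `red` is injective on torsion of order prime to `ℓ`,
* `relation`    : `red (σ₀² x - T_ℓ σ₀ x + ℓ x) = 0` for the ONE Frobenius element `σ₀`,
  where `T_ℓ = heckeOperatorAlong ℚ̄ M ℓ` is the Prelude operator (no `HeckeInputsAlong` needed
  here: it is needed by whoever proves `relation`).

`result_of_weakRedData` : the frozen statement S37 at level `N` from a `WeakRedData` at some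
level `M` and a `PullData N M ℓ` (`M = N`, `PullData.refl` for `ℓ ≥ 5`).
Fully proved.
-/

set_option autoImplicit false
set_option synthInstance.maxHeartbeats 400000

noncomputable section

namespace Fermat.Agent.S37.Core

open ModularCurve ValuationSubring AlgebraicCurve HahnSeries Fermat.Agent.S37.H99

/-- The final interface of the geometric part of S37. -/
structure WeakRedData (M : ℕ) [NeZero M] (A : ValuationSubring (AlgebraicClosure ℚ)) (ℓ : ℕ)
    [NeZero ℓ] (σ₀ : AlgebraicClosure ℚ ≃ₐ[ℚ] AlgebraicClosure ℚ) : Type 1 where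
  /-- the target group -/
  Y : Type
  /-- additive group structure on the target -/
  instY : AddCommGroup Y
  /-- the reduction map -/
  red : JZero M →+ Y
  inertia : ∀ τ ∈ A.inertiaSubgroupIn ℚ, ∀ x : JZero M, red (τ • x) = red x
  inj_torsion : ∀ (m : ℕ), ¬ ℓ ∣ m → ∀ x : JZero M, m • x = 0 → red x = 0 → x = 0
  relation : ∀ x : JZero M,
    red (σ₀ • σ₀ • x - heckeOperatorAlong (AlgebraicClosure ℚ) M ℓ (σ₀ • x) + ℓ • x) = 0

attribute [instance] WeakRedData.instY

/-- a `PlaceRed` gives a `WeakRedData` (pointwise route) -/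
def PlaceRed.toWeakRedData {M : ℕ} [NeZero M] {A : ValuationSubring (AlgebraicClosure ℚ)}
    {ℓ : ℕ} [NeZero ℓ] {σ₀ : AlgebraicClosure ℚ ≃ₐ[ℚ] AlgebraicClosure ℚ}
    (D : PlaceRed M A ℓ σ₀) (HIA : HeckeInputsAlong (AlgebraicClosure ℚ) M ℓ)
    (hS18 : InjTorsionModL M ℓ A) : WeakRedData M A ℓ σ₀ where
  Y := JZeroC (IsLocalRing.ResidueField A) M
  instY := inferInstance
  red := D.red
  inertia τ hτ x := D.red_inertia hτ x
  inj_torsion _ hm _ hx h0 := D.red_inj_torsion hS18 hm hx h0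
  relation x := D.red_relation HIA x

/-- **S37 at one place from a `WeakRedData` at level `M` and a `PullData N M ℓ`.** -/
theorem isWeakRed_of_weakRedData (N M p : ℕ) [NeZero N] [NeZero M]
    (hcomm : HeckeOperatorsCommuteBar N)
    (A : ValuationSubring (AlgebraicClosure ℚ)) (ℓ : ℕ) (hℓ : ℓ.Prime) (hℓp : ¬ ℓ ∣ p)
    (σ₀ : AlgebraicClosure ℚ ≃ₐ[ℚ] AlgebraicClosure ℚ) (hσ₀ : A.IsFrobeniusAt σ₀ ℓ)
    (W : haveI : NeZero ℓ := ⟨hℓ.ne_zero⟩; WeakRedData M A ℓ σ₀)
    (Pd : haveI : NeZero ℓ := ⟨hℓ.ne_zero⟩; PullData N M ℓ) :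
    letI := heckeModuleBar N
    ∀ (_ : SMulCommClass (AlgebraicClosure ℚ ≃ₐ[ℚ] AlgebraicClosure ℚ) HeckeAlg (JZero N)),
      IsWeakRed (K := ℚ) p (JZero N) A ℓ hℓ σ₀
        (haveI : NeZero ℓ := ⟨hℓ.ne_zero⟩; W.red.comp Pd.pull) := by
  letI := heckeModuleBar N
  haveI : NeZero ℓ := ⟨hℓ.ne_zero⟩
  intro _
  refine ⟨hσ₀, ?_, ?_, ?_⟩
  · intro τ hτ x
    show W.red (Pd.pull (τ • x)) = W.red (Pd.pull x)
    rw [Pd.galois, W.inertia τ hτ]
  · rintro x ⟨n, hn⟩ hx
    have hℓpn : ¬ ℓ ∣ p ^ n := fun h => hℓp (hℓ.dvd_of_dvd_pow h)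
    refine Pd.inj_torsion (p ^ n) hℓpn x hn ?_
    refine W.inj_torsion (p ^ n) hℓpn _ ?_ hx
    rw [← map_nsmul, hn, _root_.map_zero]
  · intro x
    rw [heckeModuleBar_heckeGen_smul hcomm ⟨ℓ, hℓ⟩ (σ₀ • x)]
    show W.red (Pd.pull (σ₀ • σ₀ • x - heckeOperatorAlong (AlgebraicClosure ℚ) N ℓ (σ₀ • x)
      + ℓ • x)) = 0
    rw [_root_.map_add, _root_.map_sub, map_nsmul, Pd.galois, Pd.galois, Pd.hecke, Pd.galois]
    exact W.relation (Pd.pull x)

/-- **S37 from `WeakRedData` at auxiliary levels.**  THE final glue of the row. -/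
theorem result_of_weakRedData (N p : ℕ) [NeZero N]
    (H : ∀ (ℓ : ℕ) (hℓ : ℓ.Prime), ¬ ℓ ∣ N →
      ∀ A : ValuationSubring (AlgebraicClosure ℚ), A.LiesOverPrime ℓ →
        ∀ σ₀ : AlgebraicClosure ℚ ≃ₐ[ℚ] AlgebraicClosure ℚ, A.IsFrobeniusAt σ₀ ℓ →
          haveI : NeZero ℓ := ⟨hℓ.ne_zero⟩
          ∃ (M : ℕ) (_ : NeZero M), Nonempty (WeakRedData M A ℓ σ₀) ∧ Nonempty (PullData N M ℓ))
    (hcomm : ModularCurve.HeckeOperatorsCommuteBar N) :
    letI := ModularCurve.heckeModuleBar N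
    ∀ (_ : SMulCommClass (AlgebraicClosure ℚ ≃ₐ[ℚ] AlgebraicClosure ℚ) ModularCurve.HeckeAlg
      (ModularCurve.JZero N)),
      ModularCurve.SpecializationExists (K := ℚ) (L := AlgebraicClosure ℚ) N p
        (ModularCurve.JZero N) := by
  letI := ModularCurve.heckeModuleBar N
  intro inst ℓ hℓ hdvd A hA
  have hℓN : ¬ ℓ ∣ N := fun h => hdvd (Dvd.dvd.mul_right h p)
  have hℓp : ¬ ℓ ∣ p := fun h => hdvd (Dvd.dvd.mul_left h N)
  obtain ⟨σ₀, hσ₀⟩ := exists_isFrobeniusAt ℓ hℓ A hA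
  haveI : NeZero ℓ := ⟨hℓ.ne_zero⟩
  obtain ⟨M, hM, ⟨W⟩, ⟨Pd⟩⟩ := H ℓ hℓ hℓN A hA σ₀ hσ₀
  exact exists_specialization_of_isWeakRed p A ℓ hℓ σ₀ (W.red.comp Pd.pull)
    (isWeakRed_of_weakRedData N M p hcomm A ℓ hℓ hℓp σ₀ hσ₀ W Pd inst)

end Fermat.Agent.S37.Core

end
end
-- ===== PACK-END S37/Core/Final.lean

-- ===== PACK-BEGIN S37/H999/RawES.lean
section



/-!
# S37 → S29 bridge (helper999): the RAW Eichler–Shimura statement

`Fermat.Agent.S29.RawESStatement` (the only input the rows S29/S30/S42 take from the rows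
S37/S18) follows from the FINAL interface of the S37 row, i.e. from exactly the hypothesis `H` of
`Fermat.Agent.S37.Core.result_of_weakRedData` (for all levels `N`).  No Hecke-module structure,
no `HeckeOperatorsCommuteBar`, no `SMulCommClass` is needed.

* `rawES_at` : the statement at one `(N, p, ℓ, A)`;
* `rawES_of_weakRedData` : `RawESStatement`.

Fully proved.
-/

set_option autoImplicit false
set_option synthInstance.maxHeartbeats 400000

noncomputable section

namespace Fermat.Agent.S37.H999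

open ModularCurve ValuationSubring AlgebraicCurve Fermat.Agent.S37.Core Fermat.Agent.S37.H99

/-- additive maps preserve `m`-torsion -/
theorem nsmul_map_eq_zero {G H : Type*} [AddCommGroup G] [AddCommGroup H] (f : G →+ H) {m : ℕ}
    {x : G} (hx : m • x = 0) : m • f x = 0 := by
  rw [← map_nsmul, hx, map_zero]

/-- the composite reduction map kills nothing on prime-to-`ℓ` torsion -/
theorem eq_zero_of_red_pull_eq_zero {N M : ℕ} [NeZero N] [NeZero M]
    {A : ValuationSubring (AlgebraicClosure ℚ)} {ℓ : ℕ} [NeZero ℓ]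
    {σ₀ : AlgebraicClosure ℚ ≃ₐ[ℚ] AlgebraicClosure ℚ}
    (W : WeakRedData M A ℓ σ₀) (Pd : PullData N M ℓ) {m : ℕ} (hm : ¬ ℓ ∣ m)
    {z : JZero N} (hz : m • z = 0) (h0 : W.red (Pd.pull z) = 0) : z = 0 := by
  refine Pd.inj_torsion m hm z hz ?_
  refine W.inj_torsion m hm _ ?_ h0
  rw [← map_nsmul, hz, map_zero]

/-- inertia acts trivially on prime-to-`ℓ` torsion -/
theorem inertia_smul_eq_of_weakRedData {N M : ℕ} [NeZero N] [NeZero M]
    {A : ValuationSubring (AlgebraicClosure ℚ)} {ℓ : ℕ} [NeZero ℓ]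
    {σ₀ : AlgebraicClosure ℚ ≃ₐ[ℚ] AlgebraicClosure ℚ}
    (W : WeakRedData M A ℓ σ₀) (Pd : PullData N M ℓ) {m : ℕ} (hm : ¬ ℓ ∣ m)
    {τ : AlgebraicClosure ℚ ≃ₐ[ℚ] AlgebraicClosure ℚ} (hτ : τ ∈ A.inertiaSubgroupIn ℚ)
    {x : JZero N} (hx : m • x = 0) : τ • x = x := by
  have hz : m • (τ • x - x) = 0 := by
    have h := nsmul_map_eq_zero (DistribSMul.toAddMonoidHom (JZero N) τ - AddMonoidHom.id _) hx
    exact h
  have h0 : W.red (Pd.pull (τ • x - x)) = 0 := by
    rw [map_sub, map_sub, Pd.galois, W.inertia τ hτ, sub_self]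
  exact sub_eq_zero.mp (eq_zero_of_red_pull_eq_zero W Pd hm hz h0)

/-- the Eichler–Shimura relation on prime-to-`ℓ` torsion, for the Frobenius element `σ₀` -/
theorem frobenius_relation_of_weakRedData {N M : ℕ} [NeZero N] [NeZero M]
    {A : ValuationSubring (AlgebraicClosure ℚ)} {ℓ : ℕ} [NeZero ℓ]
    {σ₀ : AlgebraicClosure ℚ ≃ₐ[ℚ] AlgebraicClosure ℚ}
    (W : WeakRedData M A ℓ σ₀) (Pd : PullData N M ℓ) {m : ℕ} (hm : ¬ ℓ ∣ m)
    {x : JZero N} (hx : m • x = 0) :
    σ₀ • σ₀ • x - heckeOperatorAlong (AlgebraicClosure ℚ) N ℓ (σ₀ • x) + ℓ • x = 0 := by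
  refine eq_zero_of_red_pull_eq_zero W Pd hm ?_ ?_
  · have h := nsmul_map_eq_zero
      ((DistribSMul.toAddMonoidHom (JZero N) σ₀).comp (DistribSMul.toAddMonoidHom (JZero N) σ₀) -
        (heckeOperatorAlong (AlgebraicClosure ℚ) N ℓ).comp
          (DistribSMul.toAddMonoidHom (JZero N) σ₀) + ℓ • AddMonoidHom.id _) hx
    exact h
  · rw [map_add, map_sub, map_nsmul, Pd.galois, Pd.galois, Pd.hecke, Pd.galois]
    exact W.relation (Pd.pull x)

/-- The RAW Eichler–Shimura statement at one `(N, p, ℓ, A)`, from the final interface of the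
S37 row at `(N, ℓ, A)`. -/
theorem rawES_at (N p : ℕ) [NeZero N] (ℓ : ℕ) (hℓ : ℓ.Prime) (hdvd : ¬ ℓ ∣ N * p)
    (A : ValuationSubring (AlgebraicClosure ℚ)) (hA : A.LiesOverPrime ℓ)
    (H : ∀ σ₀ : AlgebraicClosure ℚ ≃ₐ[ℚ] AlgebraicClosure ℚ, A.IsFrobeniusAt σ₀ ℓ →
      haveI : NeZero ℓ := ⟨hℓ.ne_zero⟩
      ∃ (M : ℕ) (_ : NeZero M), Nonempty (WeakRedData M A ℓ σ₀) ∧ Nonempty (PullData N M ℓ)) :
    (∀ σ ∈ A.inertiaSubgroupIn ℚ, ∀ x : JZero N, (p : ℤ) • x = 0 → σ • x = x) ∧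
      (∀ σ : AlgebraicClosure ℚ ≃ₐ[ℚ] AlgebraicClosure ℚ, A.IsFrobeniusAt σ ℓ →
        ∀ x : JZero N, (p : ℤ) • x = 0 →
          σ • σ • x - heckeOperatorBar N ⟨ℓ, hℓ⟩ (σ • x) + (ℓ : ℤ) • x = 0) := by
  have : NeZero ℓ := ⟨hℓ.ne_zero⟩
  have hℓp : ¬ ℓ ∣ p := fun h => hdvd (Dvd.dvd.mul_left h N)
  constructor
  · intro τ hτ x hx
    obtain ⟨σ₀, hσ₀⟩ := exists_isFrobeniusAt ℓ hℓ A hA
    obtain ⟨M, hM, ⟨W⟩, ⟨Pd⟩⟩ := H σ₀ hσ₀
    rw [natCast_zsmul] at hx
    exact inertia_smul_eq_of_weakRedData W Pd hℓp hτ hx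
  · intro σ hσ x hx
    obtain ⟨M, hM, ⟨W⟩, ⟨Pd⟩⟩ := H σ hσ
    rw [natCast_zsmul] at hx
    rw [natCast_zsmul]
    exact frobenius_relation_of_weakRedData W Pd hℓp hx

/-- **`RawESStatement` of the S29 row from the final interface of the S37 row.** -/
theorem rawES_of_weakRedData
    (H : ∀ (N : ℕ) [NeZero N] (ℓ : ℕ) (hℓ : ℓ.Prime), ¬ ℓ ∣ N →
      ∀ A : ValuationSubring (AlgebraicClosure ℚ), A.LiesOverPrime ℓ →
        ∀ σ₀ : AlgebraicClosure ℚ ≃ₐ[ℚ] AlgebraicClosure ℚ, A.IsFrobeniusAt σ₀ ℓ →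
          haveI : NeZero ℓ := ⟨hℓ.ne_zero⟩
          ∃ (M : ℕ) (_ : NeZero M), Nonempty (WeakRedData M A ℓ σ₀) ∧
            Nonempty (PullData N M ℓ)) :
    Fermat.Agent.S29.RawESStatement := by
  intro N p _ _ ℓ hℓ hdvd A hA
  have hℓN : ¬ ℓ ∣ N := fun h => hdvd (Dvd.dvd.mul_right h p)
  exact rawES_at N p ℓ hℓ hdvd A hA (fun σ₀ hσ₀ => H N ℓ hℓ hℓN A hA σ₀ hσ₀)

end Fermat.Agent.S37.H999

end
end
-- ===== PACK-END S37/H999/RawES.lean

-- ===== PACK-BEGIN S29/H222/ESKFrob.lean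
section
/-
S29 / helper222 — piece ESK-F: every Frobenius element at `A` satisfies the Eichler–Shimura
relation `σ² - T_ℓ σ + ℓ = 0` on `J₀(N)(ℚ̄)[m]`, from `S18.CoreStatement N A m`, the Prelude's
`PrincipalGeneratedByIntegral`, `HeckeInputsAlong` and NORM-ID.

Proof: `x = [D]`, `m D = div U₁ - div U₂` (`U₁, U₂` integral).  With `K(U) := kronNorm ℓ (σU)`
(`= Nm_α (β (σU))` by NORM-ID, reduction `Ū^ℓ · Φ²Ū` by the Kronecker congruence) put
`V₁ = σ²U₁ · U₁^ℓ · K(U₂)`, `V₂ = σ²U₂ · U₂^ℓ · K(U₁)`: same reduction, and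
`div V₁ - div V₂ = m (σ²D - T_ℓ σD + ℓ D)`.  CORE gives `V₁ = c y^m V₂`.
-/


set_option autoImplicit false
set_option linter.style.haveILetI false

noncomputable section

namespace Fermat.Agent.S29.H222

open ModularCurve AlgebraicCurve HahnSeries IsLocalRing
open Fermat.Agent.S18 (Qb IsInt toF CoreStatement)
open Fermat.Agent.S37.H400 (kronNorm)

variable {A : ValuationSubring Qb} {N : ℕ}

section Kron

variable [NeZero N] {ℓ : ℕ} [Fact ℓ.Prime] [NeZero ℓ] [CharP (ResidueField A) ℓ]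

/-- Reduction of the Kronecker norm of `σU` for a Frobenius element `σ`. -/
theorem coeffMap_residue_kronNorm_galA {g : A.decompositionSubgroup ℚ}
    (hgk : decK g = frobenius (ResidueField A) ℓ) (U : LaurentSeries A) :
    coeffMap (residue A) (kronNorm ℓ (galA g U))
      = coeffMap (residue A) U ^ ℓ
        * coeffMap (decK g) (coeffMap (decK g) (coeffMap (residue A) U)) := by
  have h1 := Fermat.Agent.S37.H400.coeffMap_kronNorm_char ℓ (residue A) (galA g U)
  have h2 := Fermat.Agent.S37.H400.laurent_pow_char ℓ (coeffMap (residue A) U)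
  rw [coeffMap_residue_galA, ← hgk] at h1
  rw [← hgk] at h2
  rw [h1, h2]

/-- The integral Kronecker norm `K(U) = kronNorm ℓ (σ U)`. -/
theorem isInt_kronNorm_galA (hnid : NormId N ℓ) {g : A.decompositionSubgroup ℚ}
    (hgk : decK g = frobenius (ResidueField A) ℓ) {U : LaurentSeries A} (hU : IsInt A N U) :
    IsInt A N (kronNorm ℓ (galA g U)) := by
  refine ⟨?_, ?_, ?_⟩
  · rw [Fermat.Agent.S37.H400.coeffMap_kronNorm]
    have := hnid (toF (isInt_galA g hU))
    rw [coe_toF] at this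
    rw [← this]
    exact (heckeNorm N ℓ (toF (isInt_galA g hU))).2
  · rw [coeffMap_residue_kronNorm_galA hgk]
    exact mul_mem (pow_mem hU.2.1 ℓ) (coeffMap_mem_fullC _ (coeffMap_mem_fullC _ hU.2.1))
  · rw [coeffMap_residue_kronNorm_galA hgk]
    exact mul_ne_zero (pow_ne_zero ℓ hU.2.2)
      (coeffMap_ne_zero_of_injective _ (decK_injective g)
        (coeffMap_ne_zero_of_injective _ (decK_injective g) hU.2.2))

theorem toF_kronNorm_galA (hnid : NormId N ℓ) {g : A.decompositionSubgroup ℚ}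
    (hgk : decK g = frobenius (ResidueField A) ℓ) {U : LaurentSeries A} (hU : IsInt A N U) :
    toF (isInt_kronNorm_galA hnid hgk hU) = heckeNorm N ℓ (toF (isInt_galA g hU)) := by
  apply Subtype.ext
  rw [coe_toF, Fermat.Agent.S37.H400.coeffMap_kronNorm, hnid (toF (isInt_galA g hU)), coe_toF]

end Kron

end Fermat.Agent.S29.H222

namespace Fermat.Agent.S29.H222

open ModularCurve AlgebraicCurve HahnSeries IsLocalRing
open Fermat.Agent.S18 (Qb IsInt toF CoreStatement)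
open Fermat.Agent.S37.H400 (kronNorm)

variable {A : ValuationSubring Qb} {N : ℕ}

/-- A class is zero as soon as its divisor is the divisor of a function. -/
theorem pic0_mk_eq_zero_of_isDivOf
    (D : Divisor.degZero (K := Qb) (F := modularFunctionFieldBar N))
    {y : modularFunctionFieldBar N} (hy : y ≠ 0)
    (h : IsDivOf (K := Qb) y (D : Divisor Qb (modularFunctionFieldBar N))) :
    (Pic0.mk D : JZero N) = 0 := by
  refine (QuotientAddGroup.eq_zero_iff _).mpr ?_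
  rw [AddSubgroup.mem_addSubgroupOf]
  exact ⟨y, hy, h⟩

theorem galois_smul_mk (σ : Qb ≃ₐ[ℚ] Qb)
    (D : Divisor.degZero (K := Qb) (F := modularFunctionFieldBar N)) :
    σ • (Pic0.mk D : JZero N)
      = Pic0.mk (SemilinearAut.degZeroSMulHom
          (arithmeticGalois (modularFunctionFieldFull N) σ) D) := by
  rw [galois_smul_pic0_def, SemilinearAut.pic0_smul_mk]

/-- **ESK-F.** -/
theorem esk_frob : ESKFrobStatement := by
  intro N _ ℓ hℓ m hm A hA hcore hpgi hHI hnid σ hσ x hx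
  haveI : NeZero ℓ := ⟨hℓ.ne_zero⟩
  haveI : Fact ℓ.Prime := ⟨hℓ⟩
  haveI : CharP (ResidueField A) ℓ := charP_residueField_of_liesOver hℓ hA
  obtain ⟨hdec, hfrob⟩ := hσ
  set g : A.decompositionSubgroup ℚ := ⟨σ, hdec⟩ with hg
  have hgk : decK g = frobenius (ResidueField A) ℓ := RingHom.ext fun x => hfrob x
  obtain ⟨hα, hβ, hP, hfin, hFI, hN⟩ := hHI
  haveI := hP
  obtain ⟨D, rfl⟩ := Pic0.mk_surjective x
  obtain ⟨U₁, U₂, h₁, h₂, D₁, D₂, hd₁, hd₂, hDD⟩ :=
    exists_isInt_of_principal hpgi (smul_mem_principal_of_torsion D hx)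
  set G := arithmeticGalois (modularFunctionFieldFull N) σ with hG
  -- the integral series
  have hg₁ := isInt_galA g h₁
  have hg₂ := isInt_galA g h₂
  have hgg₁ := isInt_galA g hg₁
  have hgg₂ := isInt_galA g hg₂
  have hK₁ := isInt_kronNorm_galA hnid hgk h₁
  have hK₂ := isInt_kronNorm_galA hnid hgk h₂
  have hV₁ : IsInt A N (galA g (galA g U₁) * U₁ ^ ℓ * kronNorm ℓ (galA g U₂)) :=
    isInt_mul (isInt_mul hgg₁ (isInt_pow h₁ ℓ)) hK₂
  have hV₂ : IsInt A N (galA g (galA g U₂) * U₂ ^ ℓ * kronNorm ℓ (galA g U₁)) :=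
    isInt_mul (isInt_mul hgg₂ (isInt_pow h₂ ℓ)) hK₁
  -- equal reductions
  have hred : coeffMap (residue A) (galA g (galA g U₁) * U₁ ^ ℓ * kronNorm ℓ (galA g U₂))
      = coeffMap (residue A) (galA g (galA g U₂) * U₂ ^ ℓ * kronNorm ℓ (galA g U₁)) := by
    simp only [_root_.map_mul, map_pow, coeffMap_residue_galA, coeffMap_residue_kronNorm_galA hgk]
    ring
  -- divisors
  have hσ₁ : IsDivOf (toF hg₁) (G • D₁) := by rw [toF_galA]; exact hd₁.smul G
  have hσ₂ : IsDivOf (toF hg₂) (G • D₂) := by rw [toF_galA]; exact hd₂.smul G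
  have hσσ₁ : IsDivOf (toF hgg₁) (G • G • D₁) := by rw [toF_galA]; exact hσ₁.smul G
  have hσσ₂ : IsDivOf (toF hgg₂) (G • G • D₂) := by rw [toF_galA]; exact hσ₂.smul G
  have hp₁ : IsDivOf (toF (isInt_pow h₁ ℓ)) ((ℓ : ℤ) • D₁) := by
    rw [toF_pow]; exact hd₁.pow ℓ
  have hp₂ : IsDivOf (toF (isInt_pow h₂ ℓ)) ((ℓ : ℤ) • D₂) := by
    rw [toF_pow]; exact hd₂.pow ℓ
  have hT₁ : IsDivOf (toF hK₁) (heckeDivBar hα hβ (G • D₁)) := by
    rw [toF_kronNorm_galA hnid hgk h₁]
    exact isDivOf_heckeDivBar hα hβ hfin hN (toF_ne_zero hg₁) hσ₁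
  have hT₂ : IsDivOf (toF hK₂) (heckeDivBar hα hβ (G • D₂)) := by
    rw [toF_kronNorm_galA hnid hgk h₂]
    exact isDivOf_heckeDivBar hα hβ hfin hN (toF_ne_zero hg₂) hσ₂
  have hdV₁ : IsDivOf (toF hV₁)
      (G • G • D₁ + (ℓ : ℤ) • D₁ + heckeDivBar hα hβ (G • D₂)) := by
    rw [toF_mul (isInt_mul hgg₁ (isInt_pow h₁ ℓ)) hK₂, toF_mul hgg₁ (isInt_pow h₁ ℓ)]
    exact ((hσσ₁.mul (toF_ne_zero _) (toF_ne_zero _) hp₁).mul
      (mul_ne_zero (toF_ne_zero _) (toF_ne_zero _)) (toF_ne_zero _) hT₂)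
  have hdV₂ : IsDivOf (toF hV₂)
      (G • G • D₂ + (ℓ : ℤ) • D₂ + heckeDivBar hα hβ (G • D₁)) := by
    rw [toF_mul (isInt_mul hgg₂ (isInt_pow h₂ ℓ)) hK₁, toF_mul hgg₂ (isInt_pow h₂ ℓ)]
    exact ((hσσ₂.mul (toF_ne_zero _) (toF_ne_zero _) hp₂).mul
      (mul_ne_zero (toF_ne_zero _) (toF_ne_zero _)) (toF_ne_zero _) hT₁)
  -- the divisor of the relation
  set Dv : Divisor Qb (modularFunctionFieldBar N) := (D : Divisor Qb (modularFunctionFieldBar N))
    with hDv
  set E : Divisor Qb (modularFunctionFieldBar N) :=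
    G • G • Dv - heckeDivBar hα hβ (G • Dv) + (ℓ : ℤ) • Dv with hE
  have hGz : ∀ X : Divisor Qb (modularFunctionFieldBar N), G • ((m : ℤ) • X) = (m : ℤ) • (G • X) :=
    fun X => map_zsmul (DistribSMul.toAddMonoidHom (Divisor Qb (modularFunctionFieldBar N)) G) m X
  have hmE : (m : ℤ) • E
      = (G • G • D₁ + (ℓ : ℤ) • D₁ + heckeDivBar hα hβ (G • D₂))
        - (G • G • D₂ + (ℓ : ℤ) • D₂ + heckeDivBar hα hβ (G • D₁)) := by
    have e1 : (m : ℤ) • E = G • G • ((m : ℤ) • Dv) - heckeDivBar hα hβ (G • ((m : ℤ) • Dv))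
        + (ℓ : ℤ) • ((m : ℤ) • Dv) := by
      rw [hE, smul_add, smul_sub, hGz, hGz, map_zsmul, smul_comm (m : ℤ) (ℓ : ℤ) Dv]
    rw [e1, hDD, smul_sub, smul_sub, smul_sub, _root_.map_sub]
    abel
  have hkey : ∀ v : Place Qb (modularFunctionFieldBar N),
      (m : ℤ) * E v = v.ord (toF hV₁) - v.ord (toF hV₂) := by
    intro v
    rw [← hdV₁ v, ← hdV₂ v, ← Finsupp.sub_apply, ← hmE, Finsupp.smul_apply, smul_eq_mul]
  have hord : ∀ v : Place Qb (modularFunctionFieldBar N),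
      (m : ℤ) ∣ v.ord (toF hV₁) - v.ord (toF hV₂) := fun v => ⟨_, (hkey v).symm⟩
  obtain ⟨c, y, hc, hy, hcy⟩ := hcore _ _ hV₁ hV₂ hred hord
  have hEy : IsDivOf y E := isDivOf_of_eq_const_mul_pow hm hc hy (toF_ne_zero hV₂) hcy hkey
  -- conclusion in `Pic0`
  have hT : heckeOperatorBar N ⟨ℓ, hℓ⟩
      = (heckePic0Bar hα hβ hFI hfin hN).toIntLinearMap := by
    unfold heckeOperatorBar
    rw [heckeOperatorAlong_eq hα hβ hFI hfin hN]
  rw [galois_smul_mk, galois_smul_mk, hT]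
  show Pic0.mk _ - Pic0.correspondence _ _ hβ hα hFI hfin hN (Pic0.mk _) + (ℓ : ℤ) • Pic0.mk D = 0
  rw [Pic0.correspondence_mk]
  have hfinal : (Pic0.mk (SemilinearAut.degZeroSMulHom G (SemilinearAut.degZeroSMulHom G D))
      - Pic0.mk (Pic0.degZeroCorrespondence (heckeBetaBar Qb N ℓ) (heckeAlphaBar Qb N ℓ) hβ hα hFI
          (SemilinearAut.degZeroSMulHom G D))
      + (ℓ : ℤ) • Pic0.mk D : JZero N)
      = Pic0.mk (SemilinearAut.degZeroSMulHom G (SemilinearAut.degZeroSMulHom G D)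
          - Pic0.degZeroCorrespondence (heckeBetaBar Qb N ℓ) (heckeAlphaBar Qb N ℓ) hβ hα hFI
              (SemilinearAut.degZeroSMulHom G D)
          + (ℓ : ℤ) • D) := rfl
  rw [hfinal]
  exact pic0_mk_eq_zero_of_isDivOf _ hy hEy

end Fermat.Agent.S29.H222

end
end
-- ===== PACK-END S29/H222/ESKFrob.lean

-- ===== PACK-BEGIN S29/H222/ESKFamily.lean
section
/-
S29 / helper222 — piece ESK, adapter: the Eichler–Shimura input of layer M in the exact shape of
`Fermat.Agent.S29.M.ESStatement` (deputy helper30's `M/Defs.lean`), from the four external inputs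
stated as families:

* `CoreFamily`   : `S18.CoreStatement N A m` for `ℓ ∤ N`, `ℓ ∤ m`, `A` over `ℓ`     (row S18)
* `PGIFamily`    : Prelude `PrincipalGeneratedByIntegral A (residue A) N`            (S18/S37, M1-Gauss)
* `HIFamily`     : Prelude `HeckeInputsAlong ℚ̄ N ℓ`                                  (piece HI)
* `NormIdFamily` : `NormId N ℓ`                                                      (piece NKI)
-/


set_option autoImplicit false
set_option linter.style.haveILetI false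

noncomputable section

namespace Fermat.Agent.S29.H222

open ModularCurve AlgebraicCurve HahnSeries IsLocalRing
open Fermat.Agent.S18 (Qb IsInt toF CoreStatement)

/-- Row S18: the Kummer core for all `ℓ ∤ N m`. -/
def CoreFamily : Prop :=
  ∀ (N : ℕ) [NeZero N] (ℓ : ℕ), ℓ.Prime → ¬ ℓ ∣ N → ∀ m : ℕ, ¬ ℓ ∣ m →
    ∀ A : ValuationSubring Qb, A.LiesOverPrime ℓ → CoreStatement N A m

/-- Principal divisors are generated by divisors of integral series (a theorem for `ℓ ∤ N`). -/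
def PGIFamily : Prop :=
  ∀ (N : ℕ) [NeZero N] (ℓ : ℕ), ℓ.Prime → ¬ ℓ ∣ N →
    ∀ A : ValuationSubring Qb, A.LiesOverPrime ℓ →
      PrincipalGeneratedByIntegral A (IsLocalRing.residue A) N

/-- The six Prelude inputs of the Hecke correspondence `T_ℓ`, `ℓ ∤ N`. -/
def HIFamily : Prop :=
  ∀ (N : ℕ) [NeZero N] (ℓ : ℕ) [NeZero ℓ], ℓ.Prime → ¬ ℓ ∣ N → HeckeInputsAlong Qb N ℓ

/-- NORM-ID for all `ℓ ∤ N`. -/
def NormIdFamily : Prop :=
  ∀ (N : ℕ) [NeZero N] (ℓ : ℕ) [NeZero ℓ], ℓ.Prime → ¬ ℓ ∣ N → NormId N ℓ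

/-- **ES raw**, in the exact shape of the body of `Fermat.Agent.S29.M.ESStatement`. -/
theorem esRaw_of_families (hcore : CoreFamily) (hpgi : PGIFamily) (hHI : HIFamily)
    (hnid : NormIdFamily) :
    ∀ (N p : ℕ) [NeZero N] (ℓ : ℕ) (hℓ : ℓ.Prime), ¬ ℓ ∣ N * p →
      ∀ A : ValuationSubring Qb, A.LiesOverPrime ℓ →
        (∀ τ ∈ A.inertiaSubgroupIn ℚ, ∀ x : JZero N, (∃ n : ℕ, p ^ n • x = 0) → τ • x = x) ∧
        (∀ σ : Qb ≃ₐ[ℚ] Qb, A.IsFrobeniusAt σ ℓ → ∀ x : JZero N, (∃ n : ℕ, p ^ n • x = 0) →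
          σ • σ • x - heckeOperatorBar N ⟨ℓ, hℓ⟩ (σ • x) + ℓ • x = 0) := by
  intro N p _ ℓ hℓ hℓNp A hA
  haveI : NeZero ℓ := ⟨hℓ.ne_zero⟩
  have hℓN : ¬ ℓ ∣ N := fun h => hℓNp (Dvd.dvd.mul_right h p)
  have hℓp : ¬ ℓ ∣ p := fun h => hℓNp (Dvd.dvd.mul_left h N)
  have hp0 : p ≠ 0 := fun h => hℓp (h ▸ dvd_zero ℓ)
  have hℓpn : ∀ n : ℕ, ¬ ℓ ∣ p ^ n := fun n h => hℓp (hℓ.dvd_of_dvd_pow h)
  have hx' : ∀ (n : ℕ) (x : JZero N), p ^ n • x = 0 → ((p ^ n : ℕ) : ℤ) • x = 0 := by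
    intro n x hx
    rw [natCast_zsmul]
    exact hx
  refine ⟨?_, ?_⟩
  · rintro τ hτ x ⟨n, hx⟩
    exact esk_inertia N (p ^ n) (pow_ne_zero n hp0) A (hcore N ℓ hℓ hℓN (p ^ n) (hℓpn n) A hA)
      (hpgi N ℓ hℓ hℓN A hA) τ hτ x (hx' n x hx)
  · rintro σ hσ x ⟨n, hx⟩
    have h := esk_frob N ℓ hℓ (p ^ n) (pow_ne_zero n hp0) A hA
      (hcore N ℓ hℓ hℓN (p ^ n) (hℓpn n) A hA) (hpgi N ℓ hℓ hℓN A hA)
      (hHI N ℓ hℓ hℓN) (hnid N ℓ hℓ hℓN) σ hσ x (hx' n x hx)
    rw [natCast_zsmul] at h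
    exact h

end Fermat.Agent.S29.H222

end
end
-- ===== PACK-END S29/H222/ESKFamily.lean

-- ===== PACK-BEGIN S37/H940/Chart.lean
section





/-!
# S37 / RIM (helper940): the atlas of a coordinate

Setting: a reduction context `C : Ctx K F k Fk` (constants `A ⊆ K`, `π : A ↠ k`, `V ⊆ F` with
`ρ : V → F_k`), `K` and `k` algebraically closed (any characteristics), and a coordinate `x ∈ V`
with `x̄ = ρ x` transcendental, `F / K(x)` and `F_k / k(x̄)` finite.

For a local coordinate `t ∈ V` (`t = x` or `t = x⁻¹`) and `c̄ ∈ k` the hypothesis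
`LocalCoord C t c̄` consists of
* `FC`   : conservation of number over the residue disc `t ≡ c̄`
  (`∑_{P : t(P) ≡ c̄} ord_P u = ∑_{Q : t̄(Q) = c̄} ord_Q (ρ u)` for `u ∈ V`, `ρ u ≠ 0`);
* `LIFT` : every element of `F_k` integral over `k[t̄]` is the reduction of some `b ∈ V` which is
  regular wherever `t` is regular  (normality of the special fibre).

Main results:
* `fibreOf`            : the fibre (in the sense of `Core.lean`) over `c̄`;
* `atlasOf`            : the atlas indexed by `Option k` (`none` = the point at infinity);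
* `exists_red_of_coord`: the place reduction map `r` with (i) degrees, (ii) specialisation of
  principal divisors, and value compatibility on both charts.

Only `FC` for the two local coordinates `x`, `x⁻¹` is needed: no auxiliary separating
coordinates, no degree computations, no Dedekind domains.
-/

set_option autoImplicit false

noncomputable section

namespace Fermat.Agent.S37.H940

open AlgebraicCurve IntermediateField Polynomial

variable {K F k Fk : Type*} [Field K] [Field F] [Algebra K F] [Field k] [Field Fk]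
  [Algebra k Fk]

namespace Ctx

variable (C : Ctx K F k Fk)

/-- the residue disc `t ≡ c̄` -/
def tube (t : F) (c : k) : Set (Place K F) :=
  {P | ∃ a : C.A, C.π a = c ∧ InMax P (t - algebraMap K F (a : K))}

/-- the points of the special fibre with `s = c̄` -/
def pts (_C : Ctx K F k Fk) (s : Fk) (c : k) : Set (Place k Fk) :=
  {Q | InMax Q (s - algebraMap k Fk c)}

theorem ord_nonneg_of_mem_tube {t : F} {c : k} {P : Place K F} (h : P ∈ C.tube t c) :
    0 ≤ P.ord t := by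
  obtain ⟨a, -, ha⟩ := h
  exact ord_nonneg_of_inMax_sub ha

/-- an element of `V` whose reduction is transcendental is transcendental -/
theorem transcendental_of_ρ [IsAlgClosed K] {t : C.V} (ht : Transcendental k (C.ρ t)) :
    Transcendental K (t : F) := by
  intro halg
  obtain ⟨c, hc⟩ := Fermat.Agent.S24.FF.mem_range_of_isAlgebraic halg
  by_cases hcA : c ∈ C.A
  · apply ht
    have e : t = C.const ⟨c, hcA⟩ := Subtype.ext hc.symm
    rw [e, C.ρ_const]
    exact isAlgebraic_algebraMap _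
  · obtain ⟨a, ha, hπ⟩ := C.exists_inv_of_not_mem hcA
    have hc0 : c ≠ 0 := by
      rintro rfl
      exact hcA (_root_.ZeroMemClass.zero_mem _)
    have e : t * C.const a = 1 := by
      apply Subtype.ext
      show (t : F) * algebraMap K F (a : K) = 1
      rw [← hc, ha, ← _root_.map_mul, mul_inv_cancel₀ hc0, _root_.map_one]
    have := congrArg C.ρ e
    rw [_root_.map_mul, C.ρ_const, hπ, _root_.map_zero, mul_zero, _root_.map_one] at this
    exact zero_ne_one this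

end Ctx

/-- The hypotheses on a local coordinate `t` over the point `c̄`. -/
structure LocalCoord (C : Ctx K F k Fk) (t : C.V) (c : k) : Prop where
  /-- conservation of number over the residue disc -/
  FC : ∀ u : C.V, C.ρ u ≠ 0 → ∀ (S : Finset (Place K F)) (T : Finset (Place k Fk)),
    (∀ P ∈ C.tube (t : F) c, P.ord (u : F) ≠ 0 → P ∈ S) → (∀ P ∈ S, P ∈ C.tube (t : F) c) →
    (∀ Q ∈ C.pts (C.ρ t) c, Q.ord (C.ρ u) ≠ 0 → Q ∈ T) → (∀ Q ∈ T, Q ∈ C.pts (C.ρ t) c) →
    ∑ P ∈ S, P.ord (u : F) = ∑ Q ∈ T, Q.ord (C.ρ u)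
  /-- normality of the special fibre: integral functions lift to regular functions -/
  LIFT : ∀ τ ∈ integralClosure (Algebra.adjoin k {C.ρ t}) Fk,
    ∃ b : C.V, C.ρ b = τ ∧ ∀ P : Place K F, 0 ≤ P.ord (t : F) → 0 ≤ P.ord (b : F)

section Fibre

variable [IsAlgClosed K] [IsAlgClosed k] (C : Ctx K F k Fk) (t : C.V)
  (ht : Transcendental k (C.ρ t)) [FiniteDimensional K⟮(t : F)⟯ F]
  [FiniteDimensional k⟮C.ρ t⟯ Fk] (c : k) (h : LocalCoord C t c)

/-- **The fibre over `c̄`** of a local coordinate. -/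
def fibreOf : Fibre C where
  𝔉 := C.tube (t : F) c
  𝔊 := (Line.finite_fibre ht c).toFinset
  ne := by
    obtain ⟨Q, hQ⟩ := Line.exists_mem_fibre ht c
    exact ⟨Q, by rw [Set.Finite.mem_toFinset]; exact hQ⟩
  res := fun P _ f hf => Line.exists_value (C.transcendental_of_ρ ht) P hf
  fin := fun u _ =>
    (Line.finite_ord_ne_zero (C.transcendental_of_ρ ht) u).subset fun P hP => hP.2
  FC := by
    intro u hu
    have hu0 : (u : F) ≠ 0 := C.ne_zero_of_ρ_ne_zero hu
    have hfin : {P : Place K F | P ∈ C.tube (t : F) c ∧ P.ord (u : F) ≠ 0}.Finite :=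
      (Line.finite_ord_ne_zero (C.transcendental_of_ρ ht) (u : F)).subset fun P hP => hP.2
    rw [← h.FC u hu hfin.toFinset (Line.finite_fibre ht c).toFinset
      (fun P hP hne => by rw [Set.Finite.mem_toFinset]; exact ⟨hP, hne⟩)
      (fun P hP => by rw [Set.Finite.mem_toFinset] at hP; exact hP.1)
      (fun Q hQ _ => by rw [Set.Finite.mem_toFinset]; exact hQ)
      (fun Q hQ => by rw [Set.Finite.mem_toFinset] at hQ; exact hQ)]
    apply finsum_mem_eq_sum_of_inter_support_eq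
    ext P
    simp only [Set.mem_inter_iff, Function.mem_support, ne_eq, Set.Finite.coe_toFinset,
      Set.mem_ofPred_eq]
    constructor
    · rintro ⟨h1, h2⟩
      exact ⟨⟨h1, h2⟩, h2⟩
    · rintro ⟨⟨h1, h2⟩, -⟩
      exact ⟨h1, h2⟩
  LP := by
    intro Q hQ
    rw [Set.Finite.mem_toFinset] at hQ
    obtain ⟨τ, hτ, h1, h2⟩ := Line.exists_localParam ht c Q hQ
    obtain ⟨b, hb, hreg⟩ := h.LIFT τ hτ
    refine ⟨b, fun P hP => hreg P (C.ord_nonneg_of_mem_tube hP), by rw [hb]; exact h1, ?_⟩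
    intro Q' hQ' hne
    rw [Set.Finite.mem_toFinset] at hQ'
    rw [hb]
    exact h2 Q' hQ' hne
  SEP := by
    obtain ⟨σ, hσ, hsep⟩ := Line.exists_separating ht c
    obtain ⟨b, hb, hreg⟩ := h.LIFT σ hσ
    refine ⟨b, fun P hP => hreg P (C.ord_nonneg_of_mem_tube hP), ?_⟩
    intro Q hQ Q' hQ' a ha ha'
    rw [Set.Finite.mem_toFinset] at hQ hQ'
    rw [hb] at ha ha'
    exact hsep Q Q' hQ hQ' a ha ha'

@[simp] theorem fibreOf_𝔉 : (fibreOf C t ht c h).𝔉 = C.tube (t : F) c := rfl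

theorem mem_fibreOf_𝔊 (Q : Place k Fk) :
    Q ∈ (fibreOf C t ht c h).𝔊 ↔ InMax Q (C.ρ t - algebraMap k Fk c) := by
  show Q ∈ (Line.finite_fibre ht c).toFinset ↔ _
  rw [Set.Finite.mem_toFinset]
  rfl

end Fibre

section Atlas

variable (C : Ctx K F k Fk) (x : C.V)

theorem ρ_ne_zero_of_transcendental (hx : Transcendental k (C.ρ x)) : C.ρ x ≠ 0 :=
  fun h => hx (h ▸ isAlgebraic_zero)

/-- the inverse of the coordinate -/
def xinv (hx : Transcendental k (C.ρ x)) : C.V := C.inv x (ρ_ne_zero_of_transcendental C x hx)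

@[simp] theorem coe_xinv (hx : Transcendental k (C.ρ x)) :
    ((xinv C x hx : C.V) : F) = ((x : F))⁻¹ := rfl

@[simp] theorem ρ_xinv (hx : Transcendental k (C.ρ x)) : C.ρ (xinv C x hx) = (C.ρ x)⁻¹ :=
  C.ρ_inv x _

theorem transcendental_ρ_xinv (hx : Transcendental k (C.ρ x)) :
    Transcendental k (C.ρ (xinv C x hx)) := by
  rw [ρ_xinv]
  intro h
  apply hx
  simpa using h.inv

theorem finiteDimensional_xinv [IsAlgClosed K] (hx : Transcendental k (C.ρ x))
    [FiniteDimensional K⟮(x : F)⟯ F] :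
    FiniteDimensional K⟮((xinv C x hx : C.V) : F)⟯ F :=
  Fermat.Agent.S24.FF.finiteDimensional_adjoin_of_transcendental (C.transcendental_of_ρ hx)
    (C.transcendental_of_ρ (transcendental_ρ_xinv C x hx))

theorem finiteDimensional_ρ_xinv (hx : Transcendental k (C.ρ x))
    [FiniteDimensional k⟮C.ρ x⟯ Fk] :
    FiniteDimensional k⟮C.ρ (xinv C x hx)⟯ Fk :=
  Fermat.Agent.S24.FF.finiteDimensional_adjoin_of_transcendental hx
    (transcendental_ρ_xinv C x hx)

theorem coe_x_ne_zero (hx : Transcendental k (C.ρ x)) : (x : F) ≠ 0 :=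
  C.ne_zero_of_ρ_ne_zero (ρ_ne_zero_of_transcendental C x hx)

/-- every place of `F` lies in a finite tube or in the tube at infinity -/
theorem cover_tube [IsAlgClosed K] (hx : Transcendental k (C.ρ x))
    [FiniteDimensional K⟮(x : F)⟯ F] (P : Place K F) :
    (∃ c : k, P ∈ C.tube (x : F) c) ∨ P ∈ C.tube ((x : F))⁻¹ 0 := by
  have hx0 : (x : F) ≠ 0 := coe_x_ne_zero C x hx
  by_cases h : 0 ≤ P.ord (x : F)
  · obtain ⟨c, hc⟩ := Line.exists_value (C.transcendental_of_ρ hx) P h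
    by_cases hcA : c ∈ C.A
    · exact Or.inl ⟨C.π ⟨c, hcA⟩, ⟨c, hcA⟩, rfl, hc⟩
    · right
      obtain ⟨a, ha, hπ⟩ := C.exists_inv_of_not_mem hcA
      have hc0 : c ≠ 0 := by
        rintro rfl
        exact hcA (_root_.ZeroMemClass.zero_mem _)
      refine ⟨a, hπ, ?_⟩
      have hord : P.ord (x : F) = 0 := ord_eq_zero_of_inMax_sub hc hc0
      have hreg : 0 ≤ P.ord ((x : F)⁻¹ * algebraMap K F c⁻¹) := by
        refine Line.regular_mul P ?_ (ord_nonneg_const P _)
        rw [P.ord_inv, hord]; simp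
      have e : (x : F)⁻¹ - algebraMap K F (a : K)
          = -((x : F) - algebraMap K F c) * ((x : F)⁻¹ * algebraMap K F c⁻¹) := by
        have hcF : algebraMap K F c ≠ 0 := by simpa using hc0
        rw [ha, map_inv₀]
        field_simp
        ring
      rw [e]
      exact hc.neg.mul_of_ord_nonneg hreg
  · right
    refine ⟨0, _root_.map_zero _, ?_⟩
    have : 0 < P.ord ((x : F))⁻¹ := by
      rw [P.ord_inv]
      omega
    simpa using inMax_of_ord_pos this

theorem disj_tube_fin (P : Place K F) {c c' : k} (h : P ∈ C.tube (x : F) c)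
    (h' : P ∈ C.tube (x : F) c') : c = c' := by
  obtain ⟨a, rfl, ha⟩ := h
  obtain ⟨a', rfl, ha'⟩ := h'
  have := value_unique ha ha'
  rw [Subtype.ext this]

theorem disj_tube_inf (hx : Transcendental k (C.ρ x)) (P : Place K F) {c : k}
    (h : P ∈ C.tube (x : F) c) (h' : P ∈ C.tube ((x : F))⁻¹ 0) : False := by
  have hx0 : (x : F) ≠ 0 := coe_x_ne_zero C x hx
  obtain ⟨a, -, ha⟩ := h
  obtain ⟨a', hπ, ha'⟩ := h'
  have hreg : 0 ≤ P.ord ((x : F))⁻¹ := ord_nonneg_of_inMax_sub ha'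
  have h1 : InMax P (((x : F) - algebraMap K F (a : K)) * (x : F)⁻¹
      + algebraMap K F (a : K) * ((x : F)⁻¹ - algebraMap K F (a' : K))) :=
    (ha.mul_of_ord_nonneg hreg).add (ha'.const_mul _)
  have e : ((x : F) - algebraMap K F (a : K)) * (x : F)⁻¹
      + algebraMap K F (a : K) * ((x : F)⁻¹ - algebraMap K F (a' : K))
      = algebraMap K F (1 - (a : K) * (a' : K)) := by
    rw [_root_.map_sub, _root_.map_mul, _root_.map_one]
    field_simp
    ring
  rw [e, inMax_algebraMap_iff] at h1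
  have h2 : a * a' = 1 := by
    apply Subtype.ext
    show (a : K) * (a' : K) = 1
    exact (sub_eq_zero.mp h1).symm
  have := congrArg C.π h2
  rw [_root_.map_mul, hπ, mul_zero, _root_.map_one] at this
  exact zero_ne_one this

/-- every place of `F_k` lies over a finite point or over infinity -/
theorem cover_pts [IsAlgClosed k] (hx : Transcendental k (C.ρ x))
    [FiniteDimensional k⟮C.ρ x⟯ Fk] (Q : Place k Fk) :
    (∃ c : k, Q ∈ C.pts (C.ρ x) c) ∨ Q ∈ C.pts (C.ρ x)⁻¹ 0 := by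
  by_cases h : 0 ≤ Q.ord (C.ρ x)
  · obtain ⟨c, hc⟩ := Line.exists_value hx Q h
    exact Or.inl ⟨c, hc⟩
  · right
    have : 0 < Q.ord (C.ρ x)⁻¹ := by
      rw [Q.ord_inv]
      omega
    show InMax Q ((C.ρ x)⁻¹ - algebraMap k Fk 0)
    simpa using inMax_of_ord_pos this

theorem disj_pts_fin (Q : Place k Fk) {c c' : k} (h : Q ∈ C.pts (C.ρ x) c)
    (h' : Q ∈ C.pts (C.ρ x) c') : c = c' :=
  value_unique h h'

theorem disj_pts_inf (hx : Transcendental k (C.ρ x)) (Q : Place k Fk) {c : k}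
    (h : Q ∈ C.pts (C.ρ x) c) (h' : Q ∈ C.pts (C.ρ x)⁻¹ 0) : False := by
  have hx0 : C.ρ x ≠ 0 := ρ_ne_zero_of_transcendental C x hx
  have h1 : 0 ≤ Q.ord (C.ρ x) := ord_nonneg_of_inMax_sub h
  have h2 : InMax Q (C.ρ x)⁻¹ := by
    have : InMax Q ((C.ρ x)⁻¹ - algebraMap k Fk 0) := h'
    simpa using this
  have h3 := h2.ord_pos (inv_ne_zero hx0)
  rw [Q.ord_inv] at h3
  omega

variable [IsAlgClosed K] [IsAlgClosed k] (hx : Transcendental k (C.ρ x))
  [FiniteDimensional K⟮(x : F)⟯ F] [FiniteDimensional k⟮C.ρ x⟯ Fk]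
  (hfin : ∀ c : k, LocalCoord C x c) (hinf : LocalCoord C (xinv C x hx) 0)

/-- the fibre at infinity -/
def fibreInf : Fibre C :=
  haveI := finiteDimensional_xinv C x hx
  haveI := finiteDimensional_ρ_xinv C x hx
  fibreOf C (xinv C x hx) (transcendental_ρ_xinv C x hx) 0 hinf

theorem fibreInf_𝔉 : (fibreInf C x hx hinf).𝔉 = C.tube ((x : F))⁻¹ 0 := rfl

theorem mem_fibreInf_𝔊 (Q : Place k Fk) :
    Q ∈ (fibreInf C x hx hinf).𝔊 ↔ Q ∈ C.pts (C.ρ x)⁻¹ 0 := by
  have i1 := finiteDimensional_xinv C x hx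
  have i2 := finiteDimensional_ρ_xinv C x hx
  have := mem_fibreOf_𝔊 C (xinv C x hx) (transcendental_ρ_xinv C x hx) 0 hinf Q
  rw [ρ_xinv] at this
  exact this

/-- **The atlas of a coordinate**, indexed by the points of the projective line over `k`. -/
def atlasOf : Atlas C (Option k) where
  Φ := fun i => match i with
    | some c => fibreOf C x hx c (hfin c)
    | none => fibreInf C x hx hinf
  cover := fun P => by
    rcases cover_tube C x hx P with ⟨c, hc⟩ | h
    · exact ⟨some c, hc⟩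
    · exact ⟨none, h⟩
  disj := fun i j P hi hj => by
    match i, j with
    | some c, some c' => exact congrArg some (disj_tube_fin C x P hi hj)
    | some c, none => exact (disj_tube_inf C x hx P hi hj).elim
    | none, some c => exact (disj_tube_inf C x hx P hj hi).elim
    | none, none => rfl
  cover' := fun Q => by
    rcases cover_pts C x hx Q with ⟨c, hc⟩ | h
    · exact ⟨some c, (mem_fibreOf_𝔊 C x hx c (hfin c) Q).mpr hc⟩
    · exact ⟨none, (mem_fibreInf_𝔊 C x hx hinf Q).mpr h⟩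
  disj' := fun i j Q hi hj => by
    match i, j with
    | some c, some c' =>
      exact congrArg some (disj_pts_fin C x Q ((mem_fibreOf_𝔊 C x hx c (hfin c) Q).mp hi)
        ((mem_fibreOf_𝔊 C x hx c' (hfin c') Q).mp hj))
    | some c, none =>
      exact (disj_pts_inf C x hx Q ((mem_fibreOf_𝔊 C x hx c (hfin c) Q).mp hi)
        ((mem_fibreInf_𝔊 C x hx hinf Q).mp hj)).elim
    | none, some c =>
      exact (disj_pts_inf C x hx Q ((mem_fibreOf_𝔊 C x hx c (hfin c) Q).mp hj)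
        ((mem_fibreInf_𝔊 C x hx hinf Q).mp hi)).elim
    | none, none => rfl

include hfin hinf in
/-- **Existence of the place reduction map over a coordinate line.**

`K`, `k` algebraically closed; `x ∈ V` with `x̄` transcendental, `F / K(x)` and `F_k / k(x̄)`
finite; conservation of number and normality for the local coordinates `x` (all `c̄ ∈ k`) and
`x⁻¹` (at `0`).  Then there is `r : Pl(F) → Pl(F_k)` with
(i) `deg (r P) = deg P`, (ii) `r_* div u = div (ρ u)` for `u ∈ V`, `ρ u ≠ 0`,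
(EC) value compatibility on both charts. -/
theorem exists_red_of_coord :
    ∃ r : Place K F → Place k Fk,
      (∀ P, (r P).deg = P.deg) ∧
      (∀ u : C.V, C.ρ u ≠ 0 → ∀ D : Divisor K F, (∀ P, D P = P.ord (u : F)) →
        ∀ Q, Finsupp.mapDomain r D Q = Q.ord (C.ρ u)) ∧
      (∀ b : C.V, (∀ P : Place K F, 0 ≤ P.ord (x : F) → 0 ≤ P.ord (b : F)) →
        ∀ (P : Place K F) (a c : C.A), InMax P ((x : F) - algebraMap K F (a : K)) →
          InMax P ((b : F) - algebraMap K F (c : K)) →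
          InMax (r P) (C.ρ b - algebraMap k Fk (C.π c))) ∧
      (∀ b : C.V, (∀ P : Place K F, 0 ≤ P.ord ((x : F))⁻¹ → 0 ≤ P.ord (b : F)) →
        ∀ (P : Place K F) (a c : C.A), InMax P ((x : F)⁻¹ - algebraMap K F (a : K)) →
          InMax P ((b : F) - algebraMap K F (c : K)) →
          InMax (r P) (C.ρ b - algebraMap k Fk (C.π c))) := by
  have hInf : Infinite k := IsAlgClosed.instInfinite
  set 𝔄 := atlasOf C x hx hfin hinf with h𝔄
  have hresK : ∀ (P : Place K F) (f : F), 0 ≤ P.ord f →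
      ∃ c : K, InMax P (f - algebraMap K F c) :=
    fun P f hf => Line.exists_value (C.transcendental_of_ρ hx) P hf
  have hresk : ∀ (Q : Place k Fk) (g : Fk), 0 ≤ Q.ord g →
      ∃ a : k, InMax Q (g - algebraMap k Fk a) :=
    fun Q g hg => Line.exists_value hx Q hg
  refine ⟨𝔄.red, fun P => ?_, fun u hu D hD Q => 𝔄.mapDomain_red u hu D hD Q, ?_, ?_⟩
  · rw [deg_eq_one_of_res P (hresK P), deg_eq_one_of_res (𝔄.red P) (hresk _)]
  · intro b hreg P a c ha hc
    have hP : P ∈ (𝔄.Φ (some (C.π a))).𝔉 := ⟨a, rfl, ha⟩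
    exact 𝔄.red_value (i := some (C.π a)) b
      (fun P' hP' => hreg P' (C.ord_nonneg_of_mem_tube (t := (x : F)) hP')) hP hc
  · intro b hreg P a c ha hc
    by_cases hπ : C.π a = 0
    · have hP : P ∈ (𝔄.Φ none).𝔉 := ⟨a, hπ, ha⟩
      exact 𝔄.red_value (i := none) b
        (fun P' hP' => hreg P' (C.ord_nonneg_of_mem_tube (t := ((x : F))⁻¹) hP')) hP hc
    · -- `a` is a unit: `P` lies in the finite tube over `1 / ā`
      have hau : IsUnit a := by
        by_contra hnu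
        exact hπ ((C.π_eq_zero a).mpr hnu)
      obtain ⟨a', ha'⟩ := hau.exists_right_inv
      have ha0 : (a : K) ≠ 0 := by
        intro h0
        have : a = 0 := Subtype.ext h0
        rw [this, zero_mul] at ha'
        exact zero_ne_one ha'
      have haa' : (a : K) * (a' : K) = 1 := congrArg Subtype.val ha'
      have hx0 : (x : F) ≠ 0 := coe_x_ne_zero C x hx
      have hordinv : P.ord ((x : F))⁻¹ = 0 := ord_eq_zero_of_inMax_sub ha ha0
      have hordx : P.ord (x : F) = 0 := by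
        rw [P.ord_inv] at hordinv
        omega
      have hval : InMax P ((x : F) - algebraMap K F (a' : K)) := by
        have e : (x : F) - algebraMap K F (a' : K)
            = -((x : F)⁻¹ - algebraMap K F (a : K)) * ((x : F) * algebraMap K F (a' : K)) := by
          have h1 : algebraMap K F (a : K) * algebraMap K F (a' : K) = 1 := by
            rw [← _root_.map_mul, haa', _root_.map_one]
          have : -((x : F)⁻¹ - algebraMap K F (a : K)) * ((x : F) * algebraMap K F (a' : K))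
              = (algebraMap K F (a : K) * algebraMap K F (a' : K)) * (x : F)
                - ((x : F)⁻¹ * (x : F)) * algebraMap K F (a' : K) := by ring
          rw [this, h1, inv_mul_cancel₀ hx0, one_mul, one_mul]
        rw [e]
        refine ha.neg.mul_of_ord_nonneg (Line.regular_mul P ?_ (ord_nonneg_const P _))
        rw [hordx]
      have hP : P ∈ (𝔄.Φ (some (C.π a'))).𝔉 := ⟨a', rfl, hval⟩
      refine 𝔄.red_value (i := some (C.π a')) b (fun P' hP' => hreg P' ?_) hP hc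
      -- on the tube over `1 / ā` the function `x⁻¹` is regular
      obtain ⟨a'', ha''π, ha''⟩ := hP'
      have ha''0 : (a'' : K) ≠ 0 := by
        intro h0
        have h1 : a'' = 0 := Subtype.ext h0
        rw [h1, _root_.map_zero] at ha''π
        have h2 := congrArg C.π ha'
        rw [_root_.map_mul, ← ha''π, mul_zero, _root_.map_one] at h2
        exact zero_ne_one h2
      have := ord_eq_zero_of_inMax_sub ha'' ha''0
      rw [P'.ord_inv, this]
      simp

end Atlas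

end Fermat.Agent.S37.H940

end
end
-- ===== PACK-END S37/H940/Chart.lean

-- ===== PACK-BEGIN S37/Red/H940/Main.lean
section




/-!
# S37-RED (helper940): `MainStatement` from the fibre sums of the two coordinates `x`, `x⁻¹`

Interface: `Fermat/Agent/S37/Red/Spec.lean` (helper40).  For a reduction datum `G` with good
charts (`G.Good`) we prove

* `main_of_fibreSum` : `FibreSumStatement G → ∃ r, IsRed G r ∧ EvalCompat G r`;
* `main_of_fibreSum'`: the same from the fibre sums for the TWO auxiliary coordinates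
  `t = x` (all `c ∈ A`) and `t = x⁻¹` (`c = 0`) only  (`FibreSumAt G G.x`, `FibreSumAt G G.x⁻¹`);
* `mainStatement_of_fibreSum` : `(∀ G, FibreSumStatement G) → MainStatement`.

So the pieces RED-B (`DegEqStatement`), RED-D1 (`SepStatement`), RED-C and RED-D of
`coord/S37-red.md` are not needed: the construction of `r` and the count (ii) are done by the
fibre-local core `Fermat/Agent/S37/H940/{Core,Assembly,Line,Chart}.lean`
(`exists_red_of_coord`), which needs conservation of number only for the coordinate itself.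
Characteristic `0` of `K` and separability (`Good.sep_k`) are not used here.
-/

set_option autoImplicit false

noncomputable section

namespace Fermat.Agent.S37.Red.H940

open AlgebraicCurve IntermediateField Polynomial
open Fermat.Agent.S37.H940

universe u

variable {K k F Fk : Type u} [Field K] [Field k] [Field F] [Field Fk]
  [Algebra K F] [Algebra k Fk] {A : ValuationSubring K} {π : A →+* k} (G : Datum A π F Fk)

/-- `ValAt` is `InMax` of the difference -/
theorem valAt_iff_inMax {K F : Type u} [Field K] [Field F] [Algebra K F] (P : Place K F) (f : F)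
    (a : K) : ValAt P f a ↔ InMax P (f - algebraMap K F a) := by
  rw [inMax_iff_mem_nonunits, ValuationSubring.mem_nonunits_iff]
  rfl

/-- the fibre sums for ONE auxiliary coordinate `t` and one `c ∈ A` -/
def FibreSumAt (t : F) (c : A) : Prop :=
  ∀ (y : F) (hy : y ∈ G.O), G.ρ ⟨y, hy⟩ ≠ 0 →
    ∀ (S : Finset (Place K F)) (T : Finset (Place k Fk)),
      (∀ P : Place K F, P.ord y ≠ 0 → (∃ a : A, π a = π c ∧ ValAt P t a) → P ∈ S) →
      (∀ P ∈ S, ∃ a : A, π a = π c ∧ ValAt P t a) →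
      (∀ Q : Place k Fk, Q.ord (G.ρ ⟨y, hy⟩) ≠ 0 → ValAt Q (G.red t) (π c) → Q ∈ T) →
      (∀ Q ∈ T, ValAt Q (G.red t) (π c)) →
      ∑ Q ∈ T, Q.ord (G.ρ ⟨y, hy⟩) = ∑ P ∈ S, P.ord y

/-- **The reduction context of a datum.** -/
def ctx : Ctx K F k Fk where
  A := A
  π := π
  π_surj := G.π_surj
  π_eq_zero := fun a => by
    rw [H399.pi_eq_zero_iff G a, ValuationSubring.coe_mem_nonunits_iff,
      IsLocalRing.mem_maximalIdeal, mem_nonunits_iff]
  V := G.O.toSubring
  ρ := G.ρ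
  A_mem := G.const_mem
  ρ_A := G.ρ_const
  inv_mem := fun u hu => by
    have h1 : ¬ ((u : F) ∈ G.O.nonunits) := fun h =>
      hu ((H399.rho_eq_zero_iff G ⟨(u : F), u.2⟩).mpr h)
    rw [ValuationSubring.mem_nonunits_iff, not_lt] at h1
    show ((u : F))⁻¹ ∈ G.O
    rw [← ValuationSubring.valuation_le_one_iff, map_inv₀]
    have h2 : G.O.valuation (u : F) ≤ 1 := (ValuationSubring.valuation_le_one_iff _ _).mpr u.2
    have h3 : G.O.valuation (u : F) = 1 := le_antisymm h2 h1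
    rw [h3, inv_one]

@[simp] theorem ctx_ρ (y : F) (hy : y ∈ G.O) : (ctx G).ρ ⟨y, hy⟩ = G.ρ ⟨y, hy⟩ := rfl

/-- the coordinate as an element of the context -/
def cx : (ctx G).V := ⟨G.x, G.x_mem⟩

theorem ρ_cx : (ctx G).ρ (cx G) = G.xk := rfl

theorem transc_cx : Transcendental k ((ctx G).ρ (cx G)) := G.xk_transc

/-- elements of the chart of `t` are regular wherever `t` is regular -/
theorem regular_of_mem_chart {t b : F} (hb : b ∈ G.chart t) (P : Place K F)
    (ht : 0 ≤ P.ord t) : 0 ≤ P.ord b := by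
  have hle : ∀ r : G.polyRing t, algebraMap (G.polyRing t) F r ∈ P.toValuationSubring.toSubring := by
    rintro ⟨r, hr⟩
    show r ∈ P.toValuationSubring.toSubring
    have h1 : G.polyRing t ≤ P.toValuationSubring.toSubring := by
      unfold Datum.polyRing
      rw [sup_le_iff]
      constructor
      · rintro _ ⟨a, -, rfl⟩
        exact P.algebraMap_mem' a
      · rw [Subring.closure_le]
        rintro _ rfl
        exact (Line.regular_iff_mem P _).mp ht
    exact h1 hr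
  have hcl : IsIntegrallyClosedIn P.toValuationSubring.toSubring F :=
    inferInstanceAs (IsIntegrallyClosedIn P.toValuationSubring F)
  have h2 := (Subring.integralClosure_le_iff (R := G.polyRing t)
    (T := P.toValuationSubring.toSubring)).mpr hle
  exact (Line.regular_iff_mem P b).mpr (h2 hb)

section Main

variable [IsAlgClosed K] [IsAlgClosed k]

/-- the hypotheses of the fibre-local core for the coordinate `x` over `c̄ = π c` -/
theorem localCoord_fin (hG : G.Good) (c : A) (hFS : FibreSumAt G G.x c) :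
    LocalCoord (ctx G) (cx G) (π c) where
  FC := by
    intro u hu S T h1 h2 h3 h4
    have hred : G.red G.x = G.xk := H399.red_eq_of_mem G G.x_mem
    refine (hFS (u : F) u.2 hu S T ?_ ?_ ?_ ?_).symm
    · rintro P hP ⟨a, ha, hval⟩
      exact h1 P ⟨a, ha, (valAt_iff_inMax P _ _).mp hval⟩ hP
    · intro P hP
      obtain ⟨a, ha, hval⟩ := h2 P hP
      exact ⟨a, ha, (valAt_iff_inMax P _ _).mpr hval⟩
    · intro Q hQ hval
      rw [hred] at hval
      exact h3 Q ((valAt_iff_inMax Q _ _).mp hval) hQ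
    · intro Q hQ
      rw [hred]
      exact (valAt_iff_inMax Q _ _).mpr (h4 Q hQ)
  LIFT := by
    intro τ hτ
    obtain ⟨b, hb, hbO, hρ⟩ := hG.lift_fin τ hτ
    exact ⟨⟨b, hbO⟩, hρ, fun P hP => regular_of_mem_chart G hb P hP⟩

theorem xk_ne_zero : G.xk ≠ 0 := ρ_ne_zero_of_transcendental (ctx G) (cx G) (transc_cx G)

theorem xinv_mem : G.x⁻¹ ∈ G.O := (ctx G).inv_mem (cx G) (xk_ne_zero G)

theorem red_xinv : G.red G.x⁻¹ = G.xk⁻¹ := by
  rw [H399.red_eq_of_mem G (xinv_mem G)]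
  exact (ctx G).ρ_inv (cx G) (xk_ne_zero G)

/-- the hypotheses of the fibre-local core for the coordinate `x⁻¹` over `0` -/
theorem localCoord_inf (hG : G.Good) (hFS : FibreSumAt G G.x⁻¹ 0) :
    LocalCoord (ctx G) (xinv (ctx G) (cx G) (transc_cx G)) 0 where
  FC := by
    intro u hu S T h1 h2 h3 h4
    have hred : G.red G.x⁻¹ = G.xk⁻¹ := red_xinv G
    have hρ : (ctx G).ρ (xinv (ctx G) (cx G) (transc_cx G)) = G.xk⁻¹ :=
      ρ_xinv (ctx G) (cx G) (transc_cx G)
    have hπ0 : π (0 : A) = 0 := _root_.map_zero π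
    refine (hFS (u : F) u.2 hu S T ?_ ?_ ?_ ?_).symm
    · rintro P hP ⟨a, ha, hval⟩
      rw [hπ0] at ha
      exact h1 P ⟨a, ha, (valAt_iff_inMax P _ _).mp hval⟩ hP
    · intro P hP
      obtain ⟨a, ha, hval⟩ := h2 P hP
      exact ⟨a, by rw [hπ0]; exact ha, (valAt_iff_inMax P _ _).mpr hval⟩
    · intro Q hQ hval
      rw [hred, hπ0] at hval
      refine h3 Q ?_ hQ
      show InMax Q ((ctx G).ρ (xinv (ctx G) (cx G) (transc_cx G)) - algebraMap k Fk 0)
      rw [hρ]
      exact (valAt_iff_inMax Q _ _).mp hval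
    · intro Q hQ
      rw [hred, hπ0]
      have := h4 Q hQ
      have h5 : InMax Q ((ctx G).ρ (xinv (ctx G) (cx G) (transc_cx G)) - algebraMap k Fk 0) :=
        this
      rw [hρ] at h5
      exact (valAt_iff_inMax Q _ _).mpr h5
  LIFT := by
    intro τ hτ
    have hρ : (ctx G).ρ (xinv (ctx G) (cx G) (transc_cx G)) = G.xk⁻¹ :=
      ρ_xinv (ctx G) (cx G) (transc_cx G)
    rw [hρ] at hτ
    obtain ⟨b, hb, hbO, hρb⟩ := hG.lift_inf τ hτ
    exact ⟨⟨b, hbO⟩, hρb, fun P hP => regular_of_mem_chart G hb P hP⟩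

/-- **MAIN from the fibre sums of the two coordinates.** -/
theorem main_of_fibreSum' (hG : G.Good) (hfin : ∀ c : A, FibreSumAt G G.x c)
    (hinf : FibreSumAt G G.x⁻¹ 0) :
    ∃ r : Place K F → Place k Fk, IsRed G r ∧ EvalCompat G r := by
  have i1 : FiniteDimensional K⟮((cx G : (ctx G).V) : F)⟯ F := hG.finite
  have i2 : FiniteDimensional k⟮(ctx G).ρ (cx G)⟯ Fk := hG.finite_k
  have hfin' : ∀ c : k, LocalCoord (ctx G) (cx G) c := by
    intro c
    obtain ⟨a, rfl⟩ := G.π_surj c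
    exact localCoord_fin G hG a (hfin a)
  obtain ⟨r, hdeg, hii, hecf, heci⟩ := exists_red_of_coord (ctx G) (cx G) (transc_cx G) hfin'
    (localCoord_inf G hG hinf)
  refine ⟨r, ⟨hdeg, fun y hy hρ D hD Q => hii ⟨y, hy⟩ hρ D hD Q⟩, ?_, ?_⟩
  · intro P a₀ ha₀ b hb hbO a hba
    rw [valAt_iff_inMax]
    exact hecf ⟨b, hbO⟩ (fun P' hP' => regular_of_mem_chart G hb P' hP') P a₀ a
      ((valAt_iff_inMax P _ _).mp ha₀) ((valAt_iff_inMax P _ _).mp hba)
  · intro P a₀ ha₀ b hb hbO a hba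
    rw [valAt_iff_inMax]
    exact heci ⟨b, hbO⟩ (fun P' hP' => regular_of_mem_chart G hb P' hP') P a₀ a
      ((valAt_iff_inMax P _ _).mp ha₀) ((valAt_iff_inMax P _ _).mp hba)

/-- an auxiliary coordinate from its data, with the reduction given by name -/
theorem auxCoord_of_eq [CharZero K] {t : F} (ht : t ∈ G.O) {s : Fk} (hs : G.red t = s)
    (htr : Transcendental k s) (h1 : FiniteDimensional K⟮t⟯ F)
    (h2 : FiniteDimensional k⟮s⟯ Fk) (h3 : Algebra.IsSeparable k⟮s⟯ Fk)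
    (h4 : Module.finrank K⟮t⟯ F = Module.finrank k⟮s⟯ Fk) : G.AuxCoord t := by
  subst hs
  exact ⟨ht, htr, h1, h2, h3, h4⟩

/-- the coordinate `x` is an auxiliary coordinate -/
theorem auxCoord_x [CharZero K] (hG : G.Good) : G.AuxCoord G.x :=
  auxCoord_of_eq G G.x_mem (H399.red_eq_of_mem G G.x_mem) G.xk_transc hG.finite hG.finite_k
    hG.sep_k hG.finrank_eq

omit [IsAlgClosed K] [IsAlgClosed k] in
theorem transport_adjoin {K F : Type u} [Field K] [Field F] [Algebra K F]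
    (p : IntermediateField K F → Prop) {L L' : IntermediateField K F} (h : L = L') (hp : p L) :
    p L' := h ▸ hp

/-- the coordinate `x⁻¹` is an auxiliary coordinate -/
theorem auxCoord_xinv [CharZero K] (hG : G.Good) : G.AuxCoord G.x⁻¹ := by
  have e1 : K⟮G.x⟯ = K⟮G.x⁻¹⟯ := Fermat.Agent.Lib.RR.adjoin_inv_eq G.x
  have e2 : k⟮G.xk⟯ = k⟮G.xk⁻¹⟯ := Fermat.Agent.Lib.RR.adjoin_inv_eq G.xk
  have htr : Transcendental k G.xk⁻¹ := by
    have := transcendental_ρ_xinv (ctx G) (cx G) (transc_cx G)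
    rwa [ρ_xinv] at this
  refine auxCoord_of_eq G (xinv_mem G) (red_xinv G) htr ?_ ?_ ?_ ?_
  · exact transport_adjoin (fun L => FiniteDimensional L F) e1 hG.finite
  · exact transport_adjoin (fun L => FiniteDimensional L Fk) e2 hG.finite_k
  · exact transport_adjoin (fun L => Algebra.IsSeparable L Fk) e2 hG.sep_k
  · have h1 : Module.finrank K⟮G.x⁻¹⟯ F = Module.finrank K⟮G.x⟯ F :=
      transport_adjoin (fun L => Module.finrank L F = Module.finrank K⟮G.x⟯ F) e1 rfl
    have h2 : Module.finrank k⟮G.xk⁻¹⟯ Fk = Module.finrank k⟮G.xk⟯ Fk :=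
      transport_adjoin (fun L => Module.finrank L Fk = Module.finrank k⟮G.xk⟯ Fk) e2 rfl
    rw [h1, h2]
    exact hG.finrank_eq

/-- **RED-MAIN from RED-A**: a datum with good charts and fibre sums has a place reduction map
with (i), (ii) and (EC). -/
theorem main_of_fibreSum [CharZero K] (hG : G.Good) (hFS : FibreSumStatement G) :
    ∃ r : Place K F → Place k Fk, IsRed G r ∧ EvalCompat G r :=
  main_of_fibreSum' G hG (fun c y hy hρ => hFS G.x (auxCoord_x G hG) y hy hρ c)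
    (fun y hy hρ => hFS G.x⁻¹ (auxCoord_xinv G hG) y hy hρ 0)

end Main

/-- **`MainStatement` from `FibreSumStatement`** (RED-A ⟹ RED-MAIN). -/
theorem mainStatement_of_fibreSum
    (h : ∀ (K k F Fk : Type u) [Field K] [Field k] [Field F] [Field Fk] [Algebra K F]
      [Algebra k Fk] [IsAlgClosed K] [CharZero K] [IsAlgClosed k] (A : ValuationSubring K)
      (π : A →+* k) (G : Datum A π F Fk), G.Good → FibreSumStatement G) :
    MainStatement.{u} :=
  fun K k F Fk _ _ _ _ _ _ _ _ _ A π G hG => main_of_fibreSum G hG (h K k F Fk A π G hG)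

end Fermat.Agent.S37.Red.H940

end
end
-- ===== PACK-END S37/Red/H940/Main.lean

-- ===== PACK-BEGIN A3/H799/GoodRed.lean
section




/-!
# A3 / LOCAL — the FROZEN input interface `GoodRed`  (architect helper799)

`GoodRed K F k Fk` = abstract good reduction of a function field `F / K` at a valuation ring `V` of
the (algebraically closed) constant field `K`, with special fibre `Fk / k`.  It is helper979's
`RedDatum` (origin/helper979:Fermat/Agent/S19/H979/Spec.lean) VERBATIM; only the name is changed to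
the one used on the A3 board.

Instance wanted (block GOODRED-INST): `K = ℚ̄`, `F = modularFunctionFieldBar M`,
`Fk = modularFunctionFieldFullC k M`, `O` = functions with `V`-integral `q`-expansion, `red` =
reduction of `q`-expansions, `r` = the place map of `ReductionInputsModL`, `I` = image of the
inertia group of `V` under `arithmeticGalois`; level `M = N` (`ℓ ≥ 5`), `lcm(N,2)` (`ℓ = 3`),
`lcm(N,3)` (`ℓ = 2`).

Output of block LOCAL: `LocalStatement` below (= helper979's `disc_localCoords`).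
-/

set_option autoImplicit false

noncomputable section

open AlgebraicCurve

namespace Fermat.Agent.A3.H799

/-- Abstract good reduction of a function field `F/K` at a valuation ring `V` of `K`. -/
structure GoodRed (K F k Fk : Type*) [Field K] [Field F] [Algebra K F]
    [Field k] [Field Fk] [Algebra k Fk] where
  /-- the valuation ring of the constants -/
  V : ValuationSubring K
  /-- the Gauss valuation ring of `F` -/
  O : ValuationSubring F
  /-- the residue map of `V` -/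
  res : V →+* k
  /-- reduction of functions -/
  red : O →+* Fk
  /-- reduction of places -/
  r : Place K F → Place k Fk
  /-- the inertia group, acting semilinearly -/
  I : Subgroup (SemilinearAut K F)
  res_surjective : Function.Surjective res
  res_eq_zero : ∀ a : V, res a = 0 ↔ (a : K) ∈ V.nonunits
  algebraMap_mem : ∀ a : K, algebraMap K F a ∈ O ↔ a ∈ V
  red_algebraMap : ∀ (a : V) (h : algebraMap K F (a : K) ∈ O),
    red ⟨algebraMap K F (a : K), h⟩ = algebraMap k Fk (res a)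
  red_surjective : Function.Surjective red
  /-- Gauss: every nonzero function is a constant times a function of norm one. -/
  gauss : ∀ f : F, f ≠ 0 → ∃ a : K, a ≠ 0 ∧ ∃ h : algebraMap K F a * f ∈ O,
    red ⟨algebraMap K F a * f, h⟩ ≠ 0
  /-- the reduction of the divisor of a function of norm one is the divisor of its reduction -/
  div_red : ∀ f : O, red f ≠ 0 → ∀ D : Divisor K F, (∀ P, D P = P.ord (f : F)) →
    ∀ Q : Place k Fk, Finsupp.mapDomain r D Q = Q.ord (red f)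
  /-- Riemann-Roch on both fibres, equal genus -/
  ff1 : Lib.RR.FF1 K F
  ff1k : Lib.RR.FF1 k Fk
  genus_eq : genusFF K F = genusFF k Fk
  /-- every Riemann-Roch space has an orthonormal basis; for an inertia-invariant divisor the
  basis can be chosen inertia-invariant -/
  orthonormal : ∀ D : Divisor K F, ∃ (n : ℕ) (b : Fin n → O),
    LinearIndependent k (fun i => red (b i)) ∧
    (∀ i, ((b i : O) : F) ∈ riemannRochSpace D) ∧
    Submodule.span K (Set.range fun i => ((b i : O) : F)) = riemannRochSpace D ∧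
    ((∀ g ∈ I, g • D = D) → ∀ i, ∀ g ∈ I, g • ((b i : O) : F) = ((b i : O) : F))
  /-- inertia acts trivially on everything residual -/
  I_base : ∀ g ∈ I, ∀ a : V, ∃ h : SemilinearAut.baseAut g (a : K) ∈ V,
    res ⟨SemilinearAut.baseAut g (a : K), h⟩ = res a
  I_red : ∀ g ∈ I, ∀ f : O, ∃ h : g • (f : F) ∈ O, red ⟨g • (f : F), h⟩ = red f
  I_place : ∀ g ∈ I, ∀ P : Place K F, r (g • P) = r P
  /-- every residue constant has an inertia-invariant lift -/
  I_lift_const : ∀ c : k, ∃ a : V, res a = c ∧ ∀ g ∈ I, SemilinearAut.baseAut g (a : K) = (a : K)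
  /-- there is an inertia-invariant place (the cusp `∞`) -/
  I_fixed_place : ∃ P : Place K F, ∀ g ∈ I, g • P = P

/-- **Output of block LOCAL** (frozen; = helper979's `disc_localCoords`).  For a finite
inertia-stable subgroup `T` of `Pic0` there are `V`-integral, inertia-equivariant, injective
coordinates on `T` whose addition is polynomial with `V`-coefficients. -/
def LocalStatement (K F k Fk : Type*) [Field K] [Field F] [Algebra K F]
    [Field k] [Field Fk] [Algebra k Fk] [IsAlgClosed K] [IsAlgClosed k] [CharZero K] : Prop :=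
  ∀ (𝓡 : GoodRed K F k Fk),
    (∀ a b : K, a ∈ 𝓡.V.nonunits → b ≠ 0 → ∃ n : ℕ, a ^ n / b ∈ 𝓡.V) →
    ∀ (T : AddSubgroup (Pic0 K F)) [Finite T]
      (hT : ∀ g ∈ 𝓡.I, ∀ x ∈ T, g • x ∈ T),
      ∃ (ι : Type) (_ : Finite ι) (Ψ : T → ι → K),
        Function.Injective Ψ ∧ (∀ x i, Ψ x i ∈ 𝓡.V) ∧
        (∀ (g : SemilinearAut K F) (hg : g ∈ 𝓡.I) (x : T) (i : ι),
          Ψ ⟨g • (x : Pic0 K F), hT g hg x x.2⟩ i = SemilinearAut.baseAut g (Ψ x i)) ∧
        ∀ i, (fun p : T × T => Ψ (p.1 + p.2) i) ∈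
          Algebra.adjoin 𝓡.V ({f | ∃ j, f = fun p : T × T => Ψ p.1 j} ∪
            {f | ∃ j, f = fun p : T × T => Ψ p.2 j})

end Fermat.Agent.A3.H799

end
end
-- ===== PACK-END A3/H799/GoodRed.lean

-- ===== PACK-BEGIN S19/H979/LocalGlue.lean
section



/-!
# Cell A3 (S19) — LOCAL = DISC + GR : the frozen split and its glue  (deputy helper979)

    S19.LocalStatement   <==   AbsLocalStatement  +  GrStatement  +  RankOneStatement

* `AbsLocalStatement` (block DISC, architect helper799): the abstract LOCAL theorem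
  `Fermat.Agent.A3.H799.LocalStatement K F k Fk` (for the frozen interface
  `Fermat.Agent.A3.H799.GoodRed`), used at `K = Q̄` only.
* `GrStatement` (block GR / GOODRED-INST): at a good level `N` there is a `GoodRed` datum for
  `F = Q̄(X₀(N))` (`modularFunctionFieldBar N`) over a valuation ring `V` of `Q̄` above `ℓ`, whose
  group `I` contains the image of the inertia group of `V` under `arithmeticGalois`.
  The residue field `k` and the special fibre `Fk` are chosen by the GR block (any `Type`).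
* `RankOneStatement` (pure algebra): valuation rings of `Q̄` above `ℓ` have rank one.

The glue `localStatement_of_abs_gr` is proved here without holes.
-/

set_option autoImplicit false

noncomputable section

open AlgebraicCurve ModularCurve

namespace Fermat.Agent.S19.H979

open Fermat.Agent.S19

/-- **DISC** (abstract LOCAL theorem, constants `Q̄`): `A3.H799.LocalStatement` for every function
field over `Q̄` and every special fibre. -/
def AbsLocalStatement : Prop :=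
  ∀ (F : Type) [Field F] [Algebra Qb F] (k : Type) [Field k] [IsAlgClosed k]
    (Fk : Type) [Field Fk] [Algebra k Fk], A3.H799.LocalStatement Qb F k Fk

/-- **GR** (good reduction of `X₀(N)` at a good level, in the form of the frozen `GoodRed`). -/
def GrStatement : Prop :=
  ∀ (N : ℕ) [NeZero N] (ℓ : ℕ) [Fact ℓ.Prime], ¬ ℓ ∣ N → GoodLevel N ℓ →
    ∃ (k : Type) (_ : Field k) (_ : IsAlgClosed k) (Fk : Type) (_ : Field Fk) (_ : Algebra k Fk)
      (𝓡 : A3.H799.GoodRed Qb (modularFunctionFieldBar N) k Fk),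
      (ℓ : Qb) ∈ 𝓡.V.nonunits ∧
      ∀ σ : GalQ, IsInertiaAt 𝓡.V σ → arithmeticGalois (modularFunctionFieldFull N) σ ∈ 𝓡.I

/-- **RANK ONE** (pure algebra): a valuation ring of `Q̄` above `ℓ` has rank one. -/
def RankOneStatement : Prop :=
  ∀ (ℓ : ℕ) [Fact ℓ.Prime] (V : ValuationSubring Qb), (ℓ : Qb) ∈ V.nonunits →
    ∀ a b : Qb, a ∈ V.nonunits → b ≠ 0 → ∃ n : ℕ, a ^ n / b ∈ V

/-- The torsion of `J₀(N)` as an additive subgroup of `Pic0`. -/
def torsSubgroup (N ℓ e : ℕ) : AddSubgroup (Pic0 Qb (modularFunctionFieldBar N)) :=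
  (Submodule.torsionBy ℤ (ModularCurve.JZero N) ((ℓ : ℤ) ^ e)).toAddSubgroup

/-- The identification `Tors N ℓ e ≃+ torsSubgroup N ℓ e` (identity on the carrier). -/
def torsEquiv (N ℓ e : ℕ) : Tors N ℓ e ≃+ torsSubgroup N ℓ e where
  toFun x := ⟨(x : ModularCurve.JZero N), x.2⟩
  invFun x := ⟨(x : Pic0 Qb (modularFunctionFieldBar N)), x.2⟩
  left_inv _ := rfl
  right_inv _ := rfl
  map_add' _ _ := rfl

theorem smul_mem_torsSubgroup (N ℓ e : ℕ)
    (g : SemilinearAut Qb (modularFunctionFieldBar N))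
    (x : Pic0 Qb (modularFunctionFieldBar N)) (hx : x ∈ torsSubgroup N ℓ e) :
    g • x ∈ torsSubgroup N ℓ e := by
  have h : ((ℓ : ℤ) ^ e) • x = 0 := (Submodule.mem_torsionBy_iff _ _).1 hx
  refine (Submodule.mem_torsionBy_iff _ _).2 ?_
  have h2 := (DistribSMul.toAddMonoidHom (Pic0 Qb (modularFunctionFieldBar N)) g).map_zsmul
    ((ℓ : ℤ) ^ e) x
  rw [h, map_zero] at h2
  exact h2.symm

/-- **Glue**: LOCAL from the abstract LOCAL theorem, the good-reduction instance, and rank one. -/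
theorem localStatement_of_abs_gr (hD : AbsLocalStatement) (hG : GrStatement)
    (hR : RankOneStatement) : LocalStatement := by
  intro N _ ℓ _ hℓN hgood e hfin
  obtain ⟨k, _, _, Fk, _, _, 𝓡, hℓ, hI⟩ := hG N ℓ hℓN hgood
  have hrank := hR ℓ 𝓡.V hℓ
  have : Finite (torsSubgroup N ℓ e) := Finite.of_equiv _ (torsEquiv N ℓ e).toEquiv
  have hT : ∀ g ∈ 𝓡.I, ∀ x ∈ torsSubgroup N ℓ e, g • x ∈ torsSubgroup N ℓ e :=
    fun g _ x hx => smul_mem_torsSubgroup N ℓ e g x hx
  obtain ⟨ι, hι, Ψ, hinj, hint, heq, hadd⟩ :=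
    hD (modularFunctionFieldBar N) k Fk 𝓡 hrank (torsSubgroup N ℓ e) hT
  refine ⟨{ V := 𝓡.V
            ell_mem := hℓ
            ι := ι
            fin := hι
            Ψ := fun m => Ψ (torsEquiv N ℓ e m)
            inj := fun m m' h => (torsEquiv N ℓ e).injective (hinj h)
            integral := fun m i => hint _ i
            equivariant := ?_
            add_mem := ?_ }⟩
  · intro σ hσ m i
    exact heq (arithmeticGalois (modularFunctionFieldFull N) σ) (hI σ hσ) (torsEquiv N ℓ e m) i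
  · intro i
    -- pull back along `torsEquiv × torsEquiv`
    let φ : (torsSubgroup N ℓ e × torsSubgroup N ℓ e → Qb) →ₐ[𝓡.V]
        (Tors N ℓ e × Tors N ℓ e → Qb) :=
      { toFun := fun G p => G (torsEquiv N ℓ e p.1, torsEquiv N ℓ e p.2)
        map_one' := rfl
        map_mul' := fun _ _ => rfl
        map_zero' := rfl
        map_add' := fun _ _ => rfl
        commutes' := fun _ => rfl }
    have h1 := Subalgebra.mem_map.2 ⟨_, hadd i, (rfl : φ _ = φ _)⟩
    rw [AlgHom.map_adjoin] at h1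
    have h2 : (fun p : Tors N ℓ e × Tors N ℓ e => Ψ (torsEquiv N ℓ e (p.1 + p.2)) i) =
        φ (fun p : torsSubgroup N ℓ e × torsSubgroup N ℓ e => Ψ (p.1 + p.2) i) := by
      funext p
      show Ψ (torsEquiv N ℓ e (p.1 + p.2)) i = Ψ (torsEquiv N ℓ e p.1 + torsEquiv N ℓ e p.2) i
      rw [map_add]
    rw [h2]
    refine Algebra.adjoin_mono ?_ h1
    rintro _ ⟨g, (⟨j, rfl⟩ | ⟨j, rfl⟩), rfl⟩
    · exact Or.inl ⟨j, rfl⟩
    · exact Or.inr ⟨j, rfl⟩

end Fermat.Agent.S19.H979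

end

end
-- ===== PACK-END S19/H979/LocalGlue.lean

-- ===== PACK-BEGIN Ribet/H883/DKCore.lean
section



/-!
# RIBET / WALL-p / (S2) / leaf DK: the abstract core   (helper883)

`H220.DeepKummerStatement` = level descent + MOD at `p` + THIS FILE.

Setting of `H495.AlgP.AlgPStatement` (henselian DVR `R`, two semistable charts `Bf`, `Bi`), the two
components cut out by two valuation rings `V₁`, `V₂` of `F` on BOTH charts (`S35.G.CutBy`, in
explicit form here).  Then for `f ≠ 0` with `p ∣ div f` and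

  `f = g₁ ^ p * (1 + r y₁)`, `y₁ ∈ V₁`,   `f = g₂ ^ p * (1 + r y₂)`, `y₂ ∈ V₂`,   `λ^p w ∣ r`

(`Deep V_i p r f` of `H220/S2Spec.lean`, e.g. `r = p²`) the conclusion of ALG-p gives
`τ f = h ^ p * f ^ c`.

Steps:
* `exists_sep`     : `e ≡ 1 mod w^N W₁`, `e ≡ 0 mod w^N W₂` (two discrete valuation rings);
* `merge_deep`     : weak approximation: ONE `g` with `f = g^p (1 + r z_i)`, `z_i ∈ W_i`;
* `valuationSubring_eq_of_common` : the local rings `B_{p_i}` of the two charts coincide (both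
  contain `V_i`);
* `locOneR_of_mem_locAt` : `u ∈ 1 + r B_n ⟹ LocOneR B n r u`;
* `sq_natCast_eq_mul`    : `p² = (ζ-1)^p w e`;
* `dkCore`, `dkCore_sq`.
-/

set_option autoImplicit false
set_option linter.unusedSectionVars false
set_option linter.unusedVariables false
set_option linter.style.haveILetI false

namespace Fermat.Agent.Ribet.H883.DK

open Fermat.Agent.A2 Fermat.Agent.A2.Alg Fermat.Agent.A2.H348 Fermat.Agent.A2.Alg.H348
open Fermat.Agent.Ribet.H495.AlgP

/-! ## 1. Weak approximation for two valuation rings -/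

section Merge

variable {F : Type*} [Field F]

theorem val_eq_one_of_unit (W : ValuationSubring F) {t : F} (ht0 : t ≠ 0) (ht : t ∈ W)
    (ht' : t⁻¹ ∈ W) : W.valuation t = 1 := by
  have h1 : W.valuation t ≤ 1 := (W.valuation_le_one_iff t).2 ht
  have h2 : W.valuation t⁻¹ ≤ 1 := (W.valuation_le_one_iff _).2 ht'
  rw [map_inv₀] at h2
  have h3 : W.valuation t ≠ 0 := (Valuation.ne_zero_iff _).2 ht0
  have h4 : 1 ≤ W.valuation t := by
    have := (inv_le_one₀ (zero_lt_iff.2 h3)).1 h2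
    exact this
  exact le_antisymm h1 h4

theorem val_lt_one_of_mul_inv (W : ValuationSubring F) {w s : F} (hw0 : w ≠ 0)
    (hw : W.valuation w < 1) (hs : s * w⁻¹ ∈ W) : W.valuation s < 1 := by
  have h1 : W.valuation (s * w⁻¹) ≤ 1 := (W.valuation_le_one_iff _).2 hs
  have e : s = (s * w⁻¹) * w := by field_simp
  rw [e, map_mul]
  calc W.valuation (s * w⁻¹) * W.valuation w ≤ 1 * W.valuation w := by gcongr
    _ = W.valuation w := one_mul _
    _ < 1 := hw

/-- `e ≡ 1 mod w^N W₁`, `e ≡ 0 mod w^N W₂`. -/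
theorem exists_sep (W₁ W₂ : ValuationSubring F) (w t s : F) (hw0 : w ≠ 0)
    (hw₁ : W₁.valuation w < 1) (hw₂ : W₂.valuation w < 1)
    (ht0 : t ≠ 0) (ht₁ : t ∈ W₁) (ht₁' : t⁻¹ ∈ W₁) (ht₂ : t * w⁻¹ ∈ W₂)
    (hs0 : s ≠ 0) (hs₂ : s ∈ W₂) (hs₂' : s⁻¹ ∈ W₂) (hs₁ : s * w⁻¹ ∈ W₁) (N : ℕ) :
    ∃ e : F, (e - 1) * (w ^ N)⁻¹ ∈ W₁ ∧ e * (w ^ N)⁻¹ ∈ W₂ := by
  rcases Nat.eq_zero_or_pos N with rfl | hN
  · exact ⟨1, by simp [W₁.zero_mem], by simp [W₂.one_mem]⟩
  have hN0 : N ≠ 0 := hN.ne'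
  have hvt₁ : W₁.valuation t = 1 := val_eq_one_of_unit W₁ ht0 ht₁ ht₁'
  have hvs₂ : W₂.valuation s = 1 := val_eq_one_of_unit W₂ hs0 hs₂ hs₂'
  have hvs₁ : W₁.valuation s < 1 := val_lt_one_of_mul_inv W₁ hw0 hw₁ hs₁
  have hvt₂ : W₂.valuation t < 1 := val_lt_one_of_mul_inv W₂ hw0 hw₂ ht₂
  have hd₁ : W₁.valuation (t ^ N + s ^ N) = 1 := by
    have h1 : W₁.valuation (s ^ N) < W₁.valuation (t ^ N) := by
      rw [map_pow, map_pow, hvt₁, one_pow]
      exact pow_lt_one₀ zero_le hvs₁ hN0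
    rw [Valuation.map_add_eq_of_lt_left _ h1, map_pow, hvt₁, one_pow]
  have hd₂ : W₂.valuation (t ^ N + s ^ N) = 1 := by
    have h1 : W₂.valuation (t ^ N) < W₂.valuation (s ^ N) := by
      rw [map_pow, map_pow, hvs₂, one_pow]
      exact pow_lt_one₀ zero_le hvt₂ hN0
    rw [Valuation.map_add_eq_of_lt_right _ h1, map_pow, hvs₂, one_pow]
  have hd0 : t ^ N + s ^ N ≠ 0 := by
    intro h
    rw [h, map_zero] at hd₁
    exact zero_ne_one hd₁
  refine ⟨t ^ N / (t ^ N + s ^ N), ?_, ?_⟩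
  · have e : (t ^ N / (t ^ N + s ^ N) - 1) * (w ^ N)⁻¹ =
        -((s * w⁻¹) ^ N * (t ^ N + s ^ N)⁻¹) := by
      rw [mul_pow, inv_pow]
      field_simp
      ring
    rw [e, ← W₁.valuation_le_one_iff, Valuation.map_neg, map_mul, map_pow, map_inv₀, hd₁,
      inv_one, mul_one]
    exact pow_le_one₀ zero_le ((W₁.valuation_le_one_iff _).2 hs₁)
  · have e : t ^ N / (t ^ N + s ^ N) * (w ^ N)⁻¹ = (t * w⁻¹) ^ N * (t ^ N + s ^ N)⁻¹ := by
      rw [mul_pow, inv_pow]
      field_simp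
    rw [e, ← W₂.valuation_le_one_iff, map_mul, map_pow, map_inv₀, hd₂, inv_one, mul_one]
    exact pow_le_one₀ zero_le ((W₂.valuation_le_one_iff _).2 ht₂)

/-- One approximation step: replacing the root `g'` by `g = g' (1 + r w a)`. -/
theorem approx_step (W : ValuationSubring F) (w : F) (hw : W.valuation w < 1)
    (r : F) (hr : r ∈ W) (p : ℕ) (f g g' y a : F) (hg' : g' ≠ 0) (ha : a ∈ W)
    (hgg : g = g' * (1 + r * w * a)) (hy : y ∈ W) (hf : f = g' ^ p * (1 + r * y)) :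
    g ≠ 0 ∧ ∃ z ∈ W, f = g ^ p * (1 + r * z) := by
  have hrwa : W.valuation (r * w * a) < 1 := by
    rw [mul_comm r w, mul_assoc, map_mul]
    have h1 : W.valuation (r * a) ≤ 1 := (W.valuation_le_one_iff _).2 (W.mul_mem _ _ hr ha)
    calc W.valuation w * W.valuation (r * a) ≤ W.valuation w * 1 := by gcongr
      _ = W.valuation w := mul_one _
      _ < 1 := hw
  have hη : W.valuation (1 + r * w * a) = 1 := Valuation.map_one_add_of_lt _ hrwa
  have hη0 : (1 + r * w * a) ≠ 0 := by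
    intro h
    rw [h, map_zero] at hη
    exact zero_ne_one hη
  have hηinv : (1 + r * w * a)⁻¹ ∈ W := by
    rw [← W.valuation_le_one_iff, map_inv₀, hη, inv_one]
  have hwW : w ∈ W := (W.valuation_le_one_iff _).1 hw.le
  have hg0 : g ≠ 0 := by
    rw [hgg]
    exact mul_ne_zero hg' hη0
  refine ⟨hg0, ?_⟩
  -- `η⁻¹ = 1 + r b`
  set b : F := -(w * a * (1 + r * w * a)⁻¹) with hb
  have hbW : b ∈ W := W.neg_mem _ (W.mul_mem _ _ (W.mul_mem _ _ hwW ha) hηinv)
  have hηb : (1 + r * w * a)⁻¹ = 1 + r * b := by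
    rw [hb]
    field_simp
    ring
  -- `(η⁻¹)^p = 1 + r b'`
  set b' : F := b * ∑ k ∈ Finset.range p, ((1 + r * w * a)⁻¹) ^ k with hb'
  have hb'W : b' ∈ W :=
    W.mul_mem _ _ hbW (W.toSubring.sum_mem fun k _ => W.pow_mem hηinv k)
  have hpow : ((1 + r * w * a)⁻¹) ^ p = 1 + r * b' := by
    have h1 := mul_geom_sum ((1 + r * w * a)⁻¹) p
    have h2 : (1 + r * w * a)⁻¹ - 1 = r * b := by rw [hηb]; ring
    rw [h2] at h1
    rw [hb']
    linear_combination -h1
  refine ⟨b' + y + r * b' * y, ?_, ?_⟩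
  · exact W.add_mem _ _ (W.add_mem _ _ hb'W hy) (W.mul_mem _ _ (W.mul_mem _ _ hr hb'W) hy)
  · have hg'eq : g' = g * (1 + r * w * a)⁻¹ := by
      rw [hgg]
      field_simp
    rw [hf, hg'eq, mul_pow, hpow]
    ring

/-- **Merge** (weak approximation at two discrete valuation rings): a function which is a `p`-th
power times an element of `1 + r W_i` at `W₁` and at `W₂`, with roots `g₁`, `g₂`, is so with ONE
root `g`. -/
theorem merge_deep (W₁ W₂ : ValuationSubring F) (w t s : F) (hw0 : w ≠ 0)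
    (hw₁ : W₁.valuation w < 1) (hw₂ : W₂.valuation w < 1)
    (ht0 : t ≠ 0) (ht₁ : t ∈ W₁) (ht₁' : t⁻¹ ∈ W₁) (ht₂ : t * w⁻¹ ∈ W₂)
    (hs0 : s ≠ 0) (hs₂ : s ∈ W₂) (hs₂' : s⁻¹ ∈ W₂) (hs₁ : s * w⁻¹ ∈ W₁)
    (harch₁ : ∀ f : F, f ≠ 0 → ∃ N : ℕ, w ^ N * f⁻¹ ∈ W₁)
    (harch₂ : ∀ f : F, f ≠ 0 → ∃ N : ℕ, w ^ N * f⁻¹ ∈ W₂)
    (p : ℕ) (r : F) (hr₁ : r ∈ W₁) (hr₂ : r ∈ W₂)
    (f g₁ g₂ y₁ y₂ : F) (hg₁ : g₁ ≠ 0) (hg₂ : g₂ ≠ 0) (hy₁ : y₁ ∈ W₁) (hy₂ : y₂ ∈ W₂)
    (h₁ : f = g₁ ^ p * (1 + r * y₁)) (h₂ : f = g₂ ^ p * (1 + r * y₂)) :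
    ∃ g z₁ z₂ : F, g ≠ 0 ∧ z₁ ∈ W₁ ∧ z₂ ∈ W₂ ∧ f = g ^ p * (1 + r * z₁) ∧
      f = g ^ p * (1 + r * z₂) := by
  rcases eq_or_ne r 0 with rfl | hr0
  · refine ⟨g₁, 0, 0, hg₁, W₁.zero_mem, W₂.zero_mem, ?_, ?_⟩ <;> simpa using h₁
  have hwW₁ : w ∈ W₁ := (W₁.valuation_le_one_iff _).1 hw₁.le
  have hwW₂ : w ∈ W₂ := (W₂.valuation_le_one_iff _).1 hw₂.le
  -- the two error terms
  set c₁ : F := (g₂ - g₁) / (g₁ * r * w) with hc₁
  set c₂ : F := (g₁ - g₂) / (g₂ * r * w) with hc₂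
  have hN₁ : ∃ N : ℕ, ∀ M : ℕ, N ≤ M → w ^ M * c₁ ∈ W₁ := by
    rcases eq_or_ne c₁ 0 with h | h
    · exact ⟨0, fun M _ => by rw [h, mul_zero]; exact W₁.zero_mem⟩
    · obtain ⟨N, hN⟩ := harch₁ c₁⁻¹ (inv_ne_zero h)
      rw [inv_inv] at hN
      refine ⟨N, fun M hM => ?_⟩
      obtain ⟨d, rfl⟩ := Nat.exists_eq_add_of_le hM
      rw [pow_add, mul_comm (w ^ N), mul_assoc]
      exact W₁.mul_mem _ _ (W₁.pow_mem hwW₁ d) hN
  have hN₂ : ∃ N : ℕ, ∀ M : ℕ, N ≤ M → w ^ M * c₂ ∈ W₂ := by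
    rcases eq_or_ne c₂ 0 with h | h
    · exact ⟨0, fun M _ => by rw [h, mul_zero]; exact W₂.zero_mem⟩
    · obtain ⟨N, hN⟩ := harch₂ c₂⁻¹ (inv_ne_zero h)
      rw [inv_inv] at hN
      refine ⟨N, fun M hM => ?_⟩
      obtain ⟨d, rfl⟩ := Nat.exists_eq_add_of_le hM
      rw [pow_add, mul_comm (w ^ N), mul_assoc]
      exact W₂.mul_mem _ _ (W₂.pow_mem hwW₂ d) hN
  obtain ⟨N₁, hN₁⟩ := hN₁
  obtain ⟨N₂, hN₂⟩ := hN₂
  obtain ⟨e, he₁, he₂⟩ := exists_sep W₁ W₂ w t s hw0 hw₁ hw₂ ht0 ht₁ ht₁' ht₂ hs0 hs₂ hs₂' hs₁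
    (max N₁ N₂)
  have hwN : w ^ (max N₁ N₂) ≠ 0 := pow_ne_zero _ hw0
  set g : F := e * g₁ + (1 - e) * g₂ with hg
  have hgg₁ : g = g₁ * (1 + r * w *
      (-((e - 1) * (w ^ (max N₁ N₂))⁻¹) * (w ^ (max N₁ N₂) * c₁))) := by
    rw [hg, hc₁]
    field_simp
    ring
  have hgg₂ : g = g₂ * (1 + r * w *
      ((e * (w ^ (max N₁ N₂))⁻¹) * (w ^ (max N₁ N₂) * c₂))) := by
    rw [hg, hc₂]
    field_simp
    ring
  obtain ⟨hg0, z₁, hz₁, hfz₁⟩ := approx_step W₁ w hw₁ r hr₁ p f g g₁ y₁ _ hg₁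
    (W₁.mul_mem _ _ (W₁.neg_mem _ he₁) (hN₁ _ (le_max_left _ _))) hgg₁ hy₁ h₁
  obtain ⟨-, z₂, hz₂, hfz₂⟩ := approx_step W₂ w hw₂ r hr₂ p f g g₂ y₂ _ hg₂
    (W₂.mul_mem _ _ he₂ (hN₂ _ (le_max_right _ _))) hgg₂ hy₂ h₂
  exact ⟨g, z₁, z₂, hg0, hz₁, hz₂, hfz₁, hfz₂⟩

/-- Two discrete valuation rings (uniformiser `w`) containing a common valuation ring coincide,
one inclusion. -/
theorem le_of_le_of_disc (W W' : ValuationSubring F) (w : F) (hw0 : w ≠ 0) (hle : W ≤ W')
    (hwW : w ∈ W) (hW' : w⁻¹ ∉ W')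
    (hd : ∀ f : F, f ≠ 0 → ∃ (k l : ℕ) (ε : F), ε ∈ W ∧ ε⁻¹ ∈ W ∧ f * w ^ k = w ^ l * ε) :
    W' ≤ W := by
  intro z hz
  rcases eq_or_ne z 0 with rfl | hz0
  · exact W.zero_mem
  obtain ⟨k, l, ε, hε, hε', h⟩ := hd z hz0
  rcases le_or_gt k l with hkl | hkl
  · obtain ⟨d, rfl⟩ := Nat.exists_eq_add_of_le hkl
    have : z = w ^ d * ε := by
      have h2 : z * w ^ k = (w ^ d * ε) * w ^ k := by rw [h, pow_add]; ring
      exact mul_right_cancel₀ (pow_ne_zero _ hw0) h2
    rw [this]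
    exact W.mul_mem _ _ (W.pow_mem hwW d) hε
  · exfalso
    obtain ⟨d, rfl⟩ := Nat.exists_eq_add_of_le hkl.le
    have hd0 : d ≠ 0 := by
      rintro rfl
      exact lt_irrefl _ hkl
    obtain ⟨d', rfl⟩ := Nat.exists_eq_succ_of_ne_zero hd0
    apply hW'
    have e : w⁻¹ = w ^ d' * (z * ε⁻¹) := by
      have hε0 : ε ≠ 0 := by
        rintro rfl
        rw [mul_zero] at h
        exact (mul_ne_zero hz0 (pow_ne_zero _ hw0)) h
      have h2 : z * w ^ (d' + 1) * w ^ l = ε * w ^ l := by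
        rw [mul_assoc, ← pow_add, add_comm (d' + 1) l, h]; ring
      have h3 : z * w ^ (d' + 1) = ε := mul_right_cancel₀ (pow_ne_zero _ hw0) h2
      rw [← h3]
      field_simp
      ring
    rw [e]
    exact W'.mul_mem _ _ (W'.pow_mem (hle hwW) d') (W'.mul_mem _ _ hz (hle hε'))

/-- Two discrete valuation rings (uniformiser `w`) containing a common valuation ring coincide. -/
theorem valuationSubring_eq_of_common (V W W' : ValuationSubring F) (w : F) (hw0 : w ≠ 0)
    (hVW : V ≤ W) (hVW' : V ≤ W') (hwW : w ∈ W) (hwW' : w ∈ W') (hW : w⁻¹ ∉ W)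
    (hW' : w⁻¹ ∉ W')
    (hd : ∀ f : F, f ≠ 0 → ∃ (k l : ℕ) (ε : F), ε ∈ W ∧ ε⁻¹ ∈ W ∧ f * w ^ k = w ^ l * ε)
    (hd' : ∀ f : F, f ≠ 0 → ∃ (k l : ℕ) (ε : F), ε ∈ W' ∧ ε⁻¹ ∈ W' ∧ f * w ^ k = w ^ l * ε) :
    W = W' := by
  by_cases hle : W ≤ W'
  · exact le_antisymm hle (le_of_le_of_disc W W' w hw0 hle hwW hW' hd)
  · have hle' : W' ≤ W := by
      obtain ⟨z, hzW, hzW'⟩ := SetLike.not_le_iff_exists.1 hle
      intro z' hz'
      by_contra hz'W
      have hz0 : z ≠ 0 := by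
        rintro rfl
        exact hzW' W'.zero_mem
      have hz'0 : z' ≠ 0 := by
        rintro rfl
        exact hz'W W.zero_mem
      rcases V.mem_or_inv_mem (z / z') with h | h
      · apply hzW'
        have e : z = (z / z') * z' := by field_simp
        rw [e]
        exact W'.mul_mem _ _ (hVW' h) hz'
      · apply hz'W
        have e : z' = (z / z')⁻¹ * z := by field_simp
        rw [e]
        exact W.mul_mem _ _ (hVW h) hzW
    exact le_antisymm (le_of_le_of_disc W' W w hw0 hle' hwW' hW hd') hle'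

end Merge

/-! ## 2. Charts: the local rings of the components -/

section Chart

variable {R F : Type*} [CommRing R] [Field F] [Algebra R F]

/-- A valuation ring cutting out the component `p` is contained in `B_p`. -/
theorem mem_locAt_of_cut {w : R} {B A : Subalgebra R F} {p p' : Ideal B}
    [hp : p.IsPrime] (D : CompData A B p p' w) (hAB : A ≤ B) (V : ValuationSubring F)
    (hle : ∀ b ∈ B, b ∈ V) (hcut : ∀ b : B, b ∈ p ↔ (b : F) * (algebraMap R F w)⁻¹ ∈ V)
    (z : F) (hz : z ∈ V) : z ∈ locAt B p := by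
  rcases D.mem_or_inv_mem hAB z with h | h
  · exact h
  · by_contra hz'
    obtain ⟨s, hs, hsz⟩ := D.mul_inv_mem h (by rwa [inv_inv])
    apply hs
    rw [hcut]
    have hz0 : z ≠ 0 := by
      rintro rfl
      exact hz' (locAt B p).zero_mem
    have hw0 := D.w_ne
    have e : (s : F) * (algebraMap R F w)⁻¹ = (s : F) * (z⁻¹ * (algebraMap R F w)⁻¹) * z := by
      field_simp
    rw [e]
    exact V.mul_mem _ _ (hle _ hsz) hz

/-- `u ∈ 1 + r B_n ⟹ LocOneR B n r u`. -/
theorem locOneR_of_mem_locAt (B : Subalgebra R F) (n : Ideal B) [n.IsPrime] (r : R) (u z : F)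
    (hz : z ∈ locAt B n) (hu : u = 1 + algebraMap R F r * z) : LocOneR B n r u := by
  obtain ⟨s, hs, hsz⟩ := hz
  refine ⟨s + algebraMap R B r * ⟨(s : F) * z, hsz⟩, s, hs, ?_, ?_⟩
  · rw [add_sub_cancel_left]
    exact Ideal.mul_mem_right _ _ (Ideal.mem_span_singleton_self _)
  · rw [hu]
    push_cast
    ring

/-- The valuation of the uniformiser at a component. -/
theorem val_w_lt_one {w : R} {B A : Subalgebra R F} {p p' : Ideal B}
    [hp : p.IsPrime] (D : CompData A B p p' w) (hAB : A ≤ B) :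
    (D.valuationSubring hAB).valuation (algebraMap R F w) < 1 := by
  have h1 : (D.valuationSubring hAB).valuation (algebraMap R F w) ≤ 1 :=
    ((D.valuationSubring hAB).valuation_le_one_iff _).2 ((locAt B p).algebraMap_mem w)
  rcases h1.lt_or_eq with h | h
  · exact h
  · exfalso
    apply D.w_inv_notMem
    have : (algebraMap R F w)⁻¹ ∈ D.valuationSubring hAB := by
      rw [← ValuationSubring.valuation_le_one_iff, map_inv₀, h, inv_one]
    exact this

/-- The local ring of a component is archimedean with respect to `w`. -/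
theorem arch_locAt {w : R} {B A : Subalgebra R F} {p p' : Ideal B}
    [hp : p.IsPrime] (D : CompData A B p p' w) (hAB : A ≤ B) (f : F) (hf : f ≠ 0) :
    ∃ N : ℕ, algebraMap R F w ^ N * f⁻¹ ∈ D.valuationSubring hAB := by
  obtain ⟨k, l, ε, hε, hε', h⟩ := D.exists_zpow_mul hAB hf
  refine ⟨l, ?_⟩
  have hw0 := D.w_ne
  have hε0 : ε ≠ 0 := by
    rintro rfl
    rw [mul_zero] at h
    exact (mul_ne_zero hf (pow_ne_zero _ hw0)) h
  have e : algebraMap R F w ^ l * f⁻¹ = algebraMap R F w ^ k * ε⁻¹ := by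
    have h2 : algebraMap R F w ^ l = f * algebraMap R F w ^ k * ε⁻¹ := by
      rw [h]
      field_simp
    rw [h2]
    field_simp
  rw [e]
  exact (locAt B p).mul_mem ((locAt B p).pow_mem ((locAt B p).algebraMap_mem w) k) hε'

end Chart

/-! ## 3. `p² ∈ λ^p w R` -/

section Lam

variable {R : Type*} [CommRing R] [IsDomain R]

/-- `p = (ζ - 1) ^ (p - 1) · unit` for a primitive `p`-th root of unity `ζ` of a domain. -/
theorem natCast_eq_lam_pow_mul {p : ℕ} (hp : p.Prime) {ζ : R} (hζ : IsPrimitiveRoot ζ p) :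
    ∃ u : R, IsUnit u ∧ (p : R) = (ζ - 1) ^ (p - 1) * u := by
  classical
  have : Fact p.Prime := ⟨hp⟩
  have h1 : (p : R) = ∏ μ ∈ primitiveRoots p R, (1 - μ) := by
    have h2 := congrArg (Polynomial.eval 1)
      (Polynomial.cyclotomic_eq_prod_X_sub_primitiveRoots (K := R) hζ)
    rw [Polynomial.eval_one_cyclotomic_prime] at h2
    rw [h2, Polynomial.eval_prod]
    simp
  have h3 : ∀ μ ∈ primitiveRoots p R, ∃ v : R, IsUnit v ∧ 1 - μ = (ζ - 1) * v := by
    intro μ hμ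
    have hμ' : IsPrimitiveRoot μ p := (mem_primitiveRoots hp.pos).1 hμ
    have : NeZero p := ⟨hp.ne_zero⟩
    obtain ⟨j, -, rfl⟩ := hζ.eq_pow_of_pow_eq_one hμ'.pow_eq_one
    have hj : ζ ^ j ≠ 1 := hμ'.ne_one hp.one_lt
    have hcop : j.Coprime p := by
      rw [Nat.coprime_comm, hp.coprime_iff_not_dvd]
      intro hdvd
      obtain ⟨k, rfl⟩ := hdvd
      exact hj (by rw [pow_mul, hζ.pow_eq_one, one_pow])
    obtain ⟨ε, hε⟩ := hζ.associated_sub_one_pow_sub_one_of_coprime hcop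
    refine ⟨-ε, ε.isUnit.neg, ?_⟩
    rw [mul_neg, hε]
    ring
  choose! v hv using h3
  refine ⟨∏ μ ∈ primitiveRoots p R, v μ, ?_, ?_⟩
  · refine Finset.prod_induction v IsUnit (fun a b ha hb => ha.mul hb) isUnit_one ?_
    intro μ hμ
    exact (hv μ hμ).1
  · rw [h1, Finset.prod_congr rfl (fun μ hμ => (hv μ hμ).2), Finset.prod_mul_distrib,
      Finset.prod_const, hζ.card_primitiveRoots, Nat.totient_prime hp]

/-- `p² = (ζ - 1)^p · w · e` in a discrete valuation ring of residue characteristic `p ≥ 3`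
containing a primitive `p`-th root of unity `ζ`. -/
theorem sq_natCast_eq_mul [IsDiscreteValuationRing R] (w : R) (hw : Irreducible w) (p : ℕ)
    (hp : p.Prime) (hp2 : p ≠ 2) (hpR : (p : R) ∈ IsLocalRing.maximalIdeal R) (ζ : R)
    (hζ : IsPrimitiveRoot ζ p) : ∃ e : R, (p : R) ^ 2 = ((ζ - 1) ^ p * w) * e := by
  obtain ⟨u, hu, hpu⟩ := natCast_eq_lam_pow_mul hp hζ
  have hlam : (ζ - 1) ∈ IsLocalRing.maximalIdeal R := by
    have h1 : (ζ - 1) ^ (p - 1) ∈ IsLocalRing.maximalIdeal R := by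
      obtain ⟨u', rfl⟩ := hu
      have : (ζ - 1) ^ (p - 1) = (p : R) * ((u'⁻¹ : Rˣ) : R) := by
        rw [hpu, mul_assoc, Units.mul_inv, mul_one]
      rw [this]
      exact Ideal.mul_mem_right _ _ hpR
    exact (IsLocalRing.maximalIdeal.isMaximal R).isPrime.mem_of_pow_mem _ h1
  rw [hw.maximalIdeal_eq, Ideal.mem_span_singleton'] at hlam
  obtain ⟨k, hk⟩ := hlam
  have h3 : 3 ≤ p := by
    have := hp.two_le
    omega
  obtain ⟨q, rfl⟩ := Nat.exists_eq_add_of_le h3
  refine ⟨k * (ζ - 1) ^ q * u ^ 2, ?_⟩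
  have e1 : 3 + q - 1 = q + 2 := by omega
  rw [e1] at hpu
  rw [hpu]
  have e2 : ((ζ - 1) ^ (q + 2) * u) ^ 2 =
      (ζ - 1) ^ (3 + q) * (ζ - 1) * ((ζ - 1) ^ q * u ^ 2) := by ring
  rw [e2, ← hk]
  ring

end Lam

/-! ## 4. The core -/

section Core

variable {R E F : Type*} [CommRing R] [IsDomain R] [IsDiscreteValuationRing R]
  [Field E] [Algebra R E] [IsFractionRing R E]
  [Field F] [Algebra E F] [Algebra R F] [IsScalarTower R E F]

theorem divisibleDiv_of_mul_pow {m : ℕ} {f g u : F} (hg : g ≠ 0) (hfu : f = g ^ m * u)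
    (h : DivisibleDiv E m f) : DivisibleDiv E m u := by
  intro V hV hE
  obtain ⟨h', ε, hh', hε, hε', hf⟩ := h V hV hE
  refine ⟨h' * g⁻¹, ε, mul_ne_zero hh' (inv_ne_zero hg), hε, hε', ?_⟩
  have hgm : g ^ m ≠ 0 := pow_ne_zero _ hg
  have : u = f * (g ^ m)⁻¹ := by
    rw [hfu]
    field_simp
  rw [this, hf, mul_pow, inv_pow]
  ring

/-- **DK, abstract core.**  The two components of both charts are cut out by the valuation rings
`V₁`, `V₂`; `f` is a `p`-th power times an element of `1 + r V_i` at `V₁` and at `V₂`, with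
`λ^p w ∣ r`, and `p ∣ div f`.  Then the conclusion of ALG-p applies to `f`:
`τ f = h ^ p * f ^ c`. -/
theorem dkCore (w : R) (p : ℕ) (lam : R) (x : F) (Bf Bi : Subalgebra R F)
    (hCf : ChartCtx E w x Bf) (hCi : ChartCtx E w x⁻¹ Bi)
    (cf : SSChart w Bf) (ci : SSChart w Bi) (V₁ V₂ : ValuationSubring F)
    (hfle₁ : ∀ b ∈ Bf, b ∈ V₁) (hfle₂ : ∀ b ∈ Bf, b ∈ V₂)
    (hfcut₁ : ∀ b : Bf, b ∈ cf.p₁ ↔ (b : F) * (algebraMap R F w)⁻¹ ∈ V₁)
    (hfcut₂ : ∀ b : Bf, b ∈ cf.p₂ ↔ (b : F) * (algebraMap R F w)⁻¹ ∈ V₂)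
    (hile₁ : ∀ b ∈ Bi, b ∈ V₁) (hile₂ : ∀ b ∈ Bi, b ∈ V₂)
    (hicut₁ : ∀ b : Bi, b ∈ ci.p₁ ↔ (b : F) * (algebraMap R F w)⁻¹ ∈ V₁)
    (hicut₂ : ∀ b : Bi, b ∈ ci.p₂ ↔ (b : F) * (algebraMap R F w)⁻¹ ∈ V₂)
    (c : ℕ) (τ : F ≃+* F) (hAlg : AlgPConclusion E Bf Bi cf ci p lam c τ)
    (r : R) (hr : lam ^ p * w ∣ r)
    (f : F) (hf : f ≠ 0) (hdiv : DivisibleDiv E p f)
    (h₁ : ∃ g y : F, g ≠ 0 ∧ y ∈ V₁ ∧ f = g ^ p * (1 + algebraMap R F r * y))
    (h₂ : ∃ g y : F, g ≠ 0 ∧ y ∈ V₂ ∧ f = g ^ p * (1 + algebraMap R F r * y)) :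
    ∃ h : F, h ≠ 0 ∧ τ f = h ^ p * f ^ c := by
  haveI := cf.prime₁
  haveI := cf.prime₂
  haveI := ci.prime₁
  haveI := ci.prime₂
  have hABf := adjoin_le_of_ctx hCf
  have hABi := adjoin_le_of_ctx hCi
  have D1f := compData₁ hCf cf
  have D2f := compData₂ hCf cf
  have D1i := compData₁ hCi ci
  have D2i := compData₂ hCi ci
  have hw0 : algebraMap R F w ≠ 0 := D1f.w_ne
  -- the local rings of the components
  set W₁ : ValuationSubring F := D1f.valuationSubring hABf with hW₁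
  set W₂ : ValuationSubring F := D2f.valuationSubring hABf with hW₂
  have hV₁W₁ : V₁ ≤ W₁ := fun z hz => mem_locAt_of_cut D1f hABf V₁ hfle₁ hfcut₁ z hz
  have hV₂W₂ : V₂ ≤ W₂ := fun z hz => mem_locAt_of_cut D2f hABf V₂ hfle₂ hfcut₂ z hz
  have hV₁W₁i : V₁ ≤ D1i.valuationSubring hABi :=
    fun z hz => mem_locAt_of_cut D1i hABi V₁ hile₁ hicut₁ z hz
  have hV₂W₂i : V₂ ≤ D2i.valuationSubring hABi :=
    fun z hz => mem_locAt_of_cut D2i hABi V₂ hile₂ hicut₂ z hz
  have hE₁ : W₁ = D1i.valuationSubring hABi :=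
    valuationSubring_eq_of_common V₁ W₁ _ (algebraMap R F w) hw0 hV₁W₁ hV₁W₁i
      ((locAt Bf cf.p₁).algebraMap_mem w) ((locAt Bi ci.p₁).algebraMap_mem w)
      D1f.w_inv_notMem D1i.w_inv_notMem (fun f hf => D1f.exists_zpow_mul hABf hf)
      (fun f hf => D1i.exists_zpow_mul hABi hf)
  have hE₂ : W₂ = D2i.valuationSubring hABi :=
    valuationSubring_eq_of_common V₂ W₂ _ (algebraMap R F w) hw0 hV₂W₂ hV₂W₂i
      ((locAt Bf cf.p₂).algebraMap_mem w) ((locAt Bi ci.p₂).algebraMap_mem w)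
      D2f.w_inv_notMem D2i.w_inv_notMem (fun f hf => D2f.exists_zpow_mul hABf hf)
      (fun f hf => D2i.exists_zpow_mul hABi hf)
  -- separating elements
  obtain ⟨t, ht₂, ht₁⟩ := D1f.exists_notMem
  obtain ⟨s, hs₁, hs₂⟩ := D2f.exists_notMem
  have ht0 : (t : F) ≠ 0 := coe_ne_zero_of_notMem cf.p₁ ht₁
  have hs0 : (s : F) ≠ 0 := coe_ne_zero_of_notMem cf.p₂ hs₂
  obtain ⟨g₁, y₁, hg₁, hy₁, hf₁⟩ := h₁
  obtain ⟨g₂, y₂, hg₂, hy₂, hf₂⟩ := h₂
  obtain ⟨g, z₁, z₂, hg0, hz₁, hz₂, hfz₁, hfz₂⟩ :=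
    merge_deep W₁ W₂ (algebraMap R F w) (t : F) (s : F) hw0 (val_w_lt_one D1f hABf)
      (val_w_lt_one D2f hABf) ht0 (le_locAt cf.p₁ t.2) (inv_mem_locAt cf.p₁ ht₁)
      (hV₂W₂ ((hfcut₂ t).1 ht₂)) hs0 (le_locAt cf.p₂ s.2) (inv_mem_locAt cf.p₂ hs₂)
      (hV₁W₁ ((hfcut₁ s).1 hs₁)) (arch_locAt D1f hABf) (arch_locAt D2f hABf) p
      (algebraMap R F r) ((locAt Bf cf.p₁).algebraMap_mem r) ((locAt Bf cf.p₂).algebraMap_mem r)
      f g₁ g₂ y₁ y₂ hg₁ hg₂ (hV₁W₁ hy₁) (hV₂W₂ hy₂) hf₁ hf₂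
  -- the normalised function
  obtain ⟨e, rfl⟩ := hr
  have hgp : g ^ p ≠ 0 := pow_ne_zero _ hg0
  have hz₁' : algebraMap R F e * z₁ ∈ W₁ := W₁.mul_mem _ _ ((locAt Bf cf.p₁).algebraMap_mem e) hz₁
  have hz₂' : algebraMap R F e * z₂ ∈ W₂ := W₂.mul_mem _ _ ((locAt Bf cf.p₂).algebraMap_mem e) hz₂
  have hu₁ : 1 + algebraMap R F (lam ^ p * w * e) * z₁ =
      1 + algebraMap R F (lam ^ p * w) * (algebraMap R F e * z₁) := by
    rw [map_mul (algebraMap R F) (lam ^ p * w) e]
    ring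
  have hu₂ : 1 + algebraMap R F (lam ^ p * w * e) * z₁ =
      1 + algebraMap R F (lam ^ p * w) * (algebraMap R F e * z₂) := by
    have h12 : 1 + algebraMap R F (lam ^ p * w * e) * z₁ =
        1 + algebraMap R F (lam ^ p * w * e) * z₂ :=
      mul_left_cancel₀ hgp (hfz₁.symm.trans hfz₂)
    rw [h12, map_mul (algebraMap R F) (lam ^ p * w) e]
    ring
  have hu0 : 1 + algebraMap R F (lam ^ p * w * e) * z₁ ≠ 0 := by
    intro h
    rw [h, mul_zero] at hfz₁
    exact hf hfz₁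
  have hdivu : DivisibleDiv E p (1 + algebraMap R F (lam ^ p * w * e) * z₁) :=
    divisibleDiv_of_mul_pow hg0 hfz₁ hdiv
  have hDf : DeepOne Bf cf p lam (1 + algebraMap R F (lam ^ p * w * e) * z₁) :=
    ⟨locOneR_of_mem_locAt Bf cf.p₁ _ _ _ hz₁' hu₁, locOneR_of_mem_locAt Bf cf.p₂ _ _ _ hz₂' hu₂⟩
  have hDi : DeepOne Bi ci p lam (1 + algebraMap R F (lam ^ p * w * e) * z₁) := by
    rw [hE₁] at hz₁'
    rw [hE₂] at hz₂'
    exact ⟨locOneR_of_mem_locAt Bi ci.p₁ _ _ _ hz₁' hu₁,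
      locOneR_of_mem_locAt Bi ci.p₂ _ _ _ hz₂' hu₂⟩
  obtain ⟨h, hh0, hτ⟩ := hAlg _ hu0 hdivu hDf hDi
  refine ⟨τ g * h * (g ^ c)⁻¹, ?_, ?_⟩
  · exact mul_ne_zero (mul_ne_zero ((map_ne_zero_iff τ τ.injective).2 hg0) hh0)
      (inv_ne_zero (pow_ne_zero _ hg0))
  · have hgc : g ^ c ≠ 0 := pow_ne_zero _ hg0
    have e1 : τ f = τ g ^ p * τ (1 + algebraMap R F (lam ^ p * w * e) * z₁) := by
      conv_lhs => rw [hfz₁]
      rw [map_mul, map_pow]
    rw [e1, hτ]
    conv_rhs => rw [hfz₁]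
    have hgpc : g ^ (p * c) ≠ 0 := pow_ne_zero _ hg0
    rw [mul_pow, mul_pow, mul_pow, inv_pow, ← pow_mul, ← pow_mul, mul_comm c p]
    field_simp

/-- **DK, abstract core at depth `p²`** (`λ = ζ - 1`, `p ≥ 3`). -/
theorem dkCore_sq (w : R) (hw : Irreducible w) (p : ℕ)
    (hp : p.Prime) (hp2 : p ≠ 2) (hpR : (p : R) ∈ IsLocalRing.maximalIdeal R) (ζ : R)
    (hζ : IsPrimitiveRoot ζ p) (x : F) (Bf Bi : Subalgebra R F)
    (hCf : ChartCtx E w x Bf) (hCi : ChartCtx E w x⁻¹ Bi)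
    (cf : SSChart w Bf) (ci : SSChart w Bi) (V₁ V₂ : ValuationSubring F)
    (hfle₁ : ∀ b ∈ Bf, b ∈ V₁) (hfle₂ : ∀ b ∈ Bf, b ∈ V₂)
    (hfcut₁ : ∀ b : Bf, b ∈ cf.p₁ ↔ (b : F) * (algebraMap R F w)⁻¹ ∈ V₁)
    (hfcut₂ : ∀ b : Bf, b ∈ cf.p₂ ↔ (b : F) * (algebraMap R F w)⁻¹ ∈ V₂)
    (hile₁ : ∀ b ∈ Bi, b ∈ V₁) (hile₂ : ∀ b ∈ Bi, b ∈ V₂)
    (hicut₁ : ∀ b : Bi, b ∈ ci.p₁ ↔ (b : F) * (algebraMap R F w)⁻¹ ∈ V₁)
    (hicut₂ : ∀ b : Bi, b ∈ ci.p₂ ↔ (b : F) * (algebraMap R F w)⁻¹ ∈ V₂)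
    (c : ℕ) (τ : F ≃+* F) (hAlg : AlgPConclusion E Bf Bi cf ci p (ζ - 1) c τ)
    (f : F) (hf : f ≠ 0) (hdiv : DivisibleDiv E p f)
    (h₁ : ∃ g y : F, g ≠ 0 ∧ y ∈ V₁ ∧ f = g ^ p * (1 + (p : F) ^ 2 * y))
    (h₂ : ∃ g y : F, g ≠ 0 ∧ y ∈ V₂ ∧ f = g ^ p * (1 + (p : F) ^ 2 * y)) :
    ∃ h : F, h ≠ 0 ∧ τ f = h ^ p * f ^ c := by
  obtain ⟨e, he⟩ := sq_natCast_eq_mul w hw p hp hp2 hpR ζ hζ
  have hcast : algebraMap R F ((p : R) ^ 2) = (p : F) ^ 2 := by
    rw [map_pow, map_natCast]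
  refine dkCore w p (ζ - 1) x Bf Bi hCf hCi cf ci V₁ V₂ hfle₁ hfle₂ hfcut₁ hfcut₂ hile₁ hile₂
    hicut₁ hicut₂ c τ hAlg ((p : R) ^ 2) ⟨e, he⟩ f hf hdiv ?_ ?_
  · rw [hcast]
    exact h₁
  · rw [hcast]
    exact h₂

end Core

end Fermat.Agent.Ribet.H883.DK

end
-- ===== PACK-END Ribet/H883/DKCore.lean

-- ===== PACK-BEGIN A2/H729/Contract.lean
section


/-!
# A2 (helper729): contraction of closed points of the chart of `F` to the chart of `F₀`

`chartMap x₀ : chart_{F₀} {x₀} →+* chart_F {x}` is an integral ring homomorphism, so maximal ideals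
contract to maximal ideals.
-/

set_option autoImplicit false
set_option linter.unusedSectionVars false

namespace Fermat.Agent.A2.H729

open Polynomial Fermat.Agent.S18.H138

variable {R : Type*} [CommRing R] {F₀ : Type*} [Field F₀] [Algebra R F₀]
  {F : Type*} [Field F] [Algebra R F] [Algebra F₀ F] [IsScalarTower R F₀ F]

/-- `R[x₀] → R[x]`. -/
noncomputable def adjoinMapS (x₀ : F₀) :
    Algebra.adjoin R ({x₀} : Set F₀) →ₐ[R] Algebra.adjoin R ({algebraMap F₀ F x₀} : Set F) :=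
  AlgHom.codRestrict ((IsScalarTower.toAlgHom R F₀ F).comp (Algebra.adjoin R ({x₀} : Set F₀)).val)
    (Algebra.adjoin R ({algebraMap F₀ F x₀} : Set F)) (fun a => by
      have h := AlgHom.map_adjoin_singleton (IsScalarTower.toAlgHom R F₀ F) x₀
      have h2 : (IsScalarTower.toAlgHom R F₀ F) a ∈
          Subalgebra.map (IsScalarTower.toAlgHom R F₀ F) (Algebra.adjoin R ({x₀} : Set F₀)) :=
        Subalgebra.mem_map.2 ⟨a, a.2, rfl⟩
      rw [h] at h2
      exact h2)

theorem coe_adjoinMapS (x₀ : F₀) (a : Algebra.adjoin R ({x₀} : Set F₀)) :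
    ((adjoinMapS (F := F) x₀ a : Algebra.adjoin R ({algebraMap F₀ F x₀} : Set F)) : F) =
      algebraMap F₀ F a := rfl

theorem adjoinMapS_surjective (x₀ : F₀) :
    Function.Surjective (adjoinMapS (R := R) (F := F) x₀) := by
  rintro ⟨b, hb⟩
  have h := AlgHom.map_adjoin_singleton (IsScalarTower.toAlgHom R F₀ F) x₀
  have hb' : b ∈ Subalgebra.map (IsScalarTower.toAlgHom R F₀ F)
      (Algebra.adjoin R ({x₀} : Set F₀)) := by
    rw [h]; exact hb
  obtain ⟨a, ha, rfl⟩ := Subalgebra.mem_map.1 hb'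
  exact ⟨⟨a, ha⟩, Subtype.ext rfl⟩

/-- `chart_{F₀} {x₀} → chart_F {x}`. -/
noncomputable def chartMap (x₀ : F₀) :
    chart R ({x₀} : Set F₀) →+* chart R ({algebraMap F₀ F x₀} : Set F) where
  toFun z := ⟨algebraMap F₀ F z, algebraMap_mem_chart_singleton z.2⟩
  map_one' := Subtype.ext (_root_.map_one _)
  map_mul' _ _ := Subtype.ext (_root_.map_mul _ _ _)
  map_zero' := Subtype.ext (_root_.map_zero _)
  map_add' _ _ := Subtype.ext (_root_.map_add _ _ _)

theorem coe_chartMap (x₀ : F₀) (z : chart R ({x₀} : Set F₀)) :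
    ((chartMap (F := F) x₀ z : chart R ({algebraMap F₀ F x₀} : Set F)) : F) =
      algebraMap F₀ F z := rfl

theorem chartMap_algebraMap (x₀ : F₀) (r : R) :
    chartMap (R := R) (F := F) x₀ (algebraMap R (chart R ({x₀} : Set F₀)) r) =
      algebraMap R (chart R ({algebraMap F₀ F x₀} : Set F)) r := by
  apply Subtype.ext
  rw [coe_chartMap]
  exact (IsScalarTower.algebraMap_apply R F₀ F r).symm

theorem chartMap_isIntegral (x₀ : F₀) : (chartMap (R := R) (F := F) x₀).IsIntegral := by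
  classical
  intro c
  obtain ⟨p, hpm, hp⟩ := (mem_chart.1 c.2 :
    IsIntegral (Algebra.adjoin R ({algebraMap F₀ F x₀} : Set F)) (c : F))
  have hlift : p ∈ lifts (adjoinMapS (R := R) (F := F) x₀).toRingHom := by
    rw [lifts_iff_coeff_lifts]
    intro n
    exact adjoinMapS_surjective x₀ _
  obtain ⟨q, hq, -, hqm⟩ := lifts_and_degree_eq_and_monic hlift hpm
  -- inclusion `R[x₀] → chart`
  let incl : Algebra.adjoin R ({x₀} : Set F₀) →+* chart R ({x₀} : Set F₀) :=
    (Subalgebra.inclusion (adjoin_le_chart (R := R) ({x₀} : Set F₀))).toRingHom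
  refine ⟨q.map incl, hqm.map incl, ?_⟩
  apply Subtype.ext
  have h1 : ((eval₂ (chartMap (R := R) (F := F) x₀) c (q.map incl) :
      chart R ({algebraMap F₀ F x₀} : Set F)) : F) =
      eval₂ (((chart R ({algebraMap F₀ F x₀} : Set F)).val.toRingHom).comp
        (chartMap (R := R) (F := F) x₀)) (c : F) (q.map incl) :=
    hom_eval₂ (q.map incl) (chartMap (R := R) (F := F) x₀)
      ((chart R ({algebraMap F₀ F x₀} : Set F)).val.toRingHom) c
  rw [h1, eval₂_map]
  have h2 : ((((chart R ({algebraMap F₀ F x₀} : Set F)).val.toRingHom).comp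
      (chartMap (R := R) (F := F) x₀)).comp incl) =
      (algebraMap (Algebra.adjoin R ({algebraMap F₀ F x₀} : Set F)) F).comp
        (adjoinMapS (R := R) (F := F) x₀).toRingHom := by
    ext a
    rfl
  rw [h2, ← eval₂_map, hq]
  exact hp

/-- Maximal ideals of the chart of `F` contract to maximal ideals of the chart of `F₀`. -/
theorem isMaximal_comap_chartMap (x₀ : F₀)
    (𝔫 : Ideal (chart R ({algebraMap F₀ F x₀} : Set F))) [𝔫.IsMaximal] :
    (Ideal.comap (chartMap (R := R) (F := F) x₀) 𝔫).IsMaximal :=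
  Ideal.isMaximal_comap_of_isIntegral_of_isMaximal' _ (chartMap_isIntegral x₀) 𝔫

end Fermat.Agent.A2.H729

end
-- ===== PACK-END A2/H729/Contract.lean

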