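import Fermat.Prelude.Def_ModularCurve_HeckeOperatorTotal
import Fermat.Agent.Pack.S33.E17L0
import Fermat.Agent.Pack.S33.E12L3
import Fermat.Agent.Pack.S33.E15L3
import Fermat.Agent.Pack.S33.E5L3
import Fermat.Agent.Pack.S33.E1L2
import Fermat.Agent.Pack.S33.E4L1
import Fermat.Agent.Pack.S33.E15L1
import Fermat.Agent.Pack.S33.E5L2
import Fermat.Agent.Pack.S33.E17L3
import Fermat.Agent.Pack.S33.E11L0
import Fermat.Agent.Pack.S33.E14L1
import Fermat.Agent.Pack.S33.E10L3
import Fermat.Agent.Pack.S33.E17L1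
import Fermat.Agent.Pack.S33.E14L0
import Fermat.Agent.Pack.S33.E13L3
import Fermat.Agent.Pack.S33.E3L0
import Fermat.Agent.Pack.S33.E0L0
import Fermat.Agent.Pack.S33.E12L0
import Fermat.Agent.Pack.S33.E16L3
import Fermat.Agent.Pack.S33.E17L2

-- ===== PACK-BEGIN S29/H332/Rot.lean
section



/-!
# S29 / M4b / K2 (analytic part): local orders of a function with character

In the S24 framework (`HolBase`, `Expansion`, `RotData`): if `f ∈ Hol` is invariant under `ε ^ k`
then `R.m ∣ k * ord (X.E f)`.  For a function `h` with a character `χ` of `Γ₀(N)` and the coset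
`x = g Γ₀(N)`, `h ∘ g⁻¹` is invariant under `ε ^ k` as soon as `ε ^ k x = x` and `χ` is trivial on
`g⁻¹ ε ^ k g` (automatic if `χ` kills parabolic and finite-order elements).  Hence the order of
the expansion `σ_x` of `h ^ p` is divisible by `p * (m / k)`: the divisor of `h ^ p` is divisible
by `p` at every place.
-/

set_option autoImplicit false
set_option linter.unusedSectionVars false

noncomputable section

open UpperHalfPlane HahnSeries ModularCurve
open scoped MatrixGroups

namespace Fermat.Agent.S29.H332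

open Fermat.Agent.S24 Fermat.Agent.S24.H997

variable {N : ℕ} [NeZero N]

section Abstract

variable (B : HolBase N) (X : Expansion B) {ε : SL(2, ℤ)} (R : RotData B X ε)

/-- Iterating the rotation relation. -/
theorem rotRel_pow (k : ℕ) (f : B.Hol) :
    RotRel (R.ζ ^ k) (X.E f) (X.E (B.compH (ε ^ k) f)) := by
  induction k with
  | zero =>
    rw [pow_zero, pow_zero, HolBase.compH_one]
    exact ⟨rfl, by simp⟩
  | succ k ih =>
    have h1 := R.rot (B.compH (ε ^ k) f)
    rw [← HolBase.compH_mul, ← pow_succ] at h1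
    refine ⟨h1.1.trans ih.1, ?_⟩
    rw [h1.2, ih.1, ih.2, ← mul_assoc, pow_succ, mul_zpow, mul_comm (R.ζ ^ (X.E f).order)]

/-- If `f ≠ 0` is invariant under `ε ^ k`, then `m ∣ k * ord (E f)`. -/
theorem dvd_mul_order_of_compH_pow_eq (k : ℕ) {f : B.Hol} (hf : f ≠ 0)
    (hinv : B.compH (ε ^ k) f = f) : (R.m : ℤ) ∣ (k : ℤ) * (X.E f).order := by
  have h := rotRel_pow B X R k f
  rw [hinv] at h
  have hE : X.E f ≠ 0 := fun h0 => hf (X.inj (by rw [h0, _root_.map_zero]))
  have hlc : (X.E f).leadingCoeff ≠ 0 := leadingCoeff_ne_zero.mpr hE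
  have h2 := h.2
  have h3 : (R.ζ ^ k) ^ (X.E f).order = 1 := by
    have : (R.ζ ^ k) ^ (X.E f).order * (X.E f).leadingCoeff = 1 * (X.E f).leadingCoeff := by
      rw [one_mul]
      exact h2.symm
    exact mul_right_cancel₀ hlc this
  rw [← zpow_natCast, ← zpow_mul] at h3
  exact (R.hζ.zpow_eq_one_iff_dvd _).mp h3

end Abstract

section Character

variable {χ : CongruenceSubgroup.Gamma0 N →* ℂˣ} {h : ℍ → ℂ}

omit [NeZero N] in
/-- `h ∘ g` is invariant under `δ` if `g δ g⁻¹ ∈ Γ₀(N)` and `χ (g δ g⁻¹) = 1`. -/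
theorem HasCharacter.compSL_compSL (hh : HasCharacter χ h) (g δ : SL(2, ℤ))
    (hδ : g * δ * g⁻¹ ∈ CongruenceSubgroup.Gamma0 N) (hχ : χ ⟨_, hδ⟩ = 1) :
    compSL δ (compSL g h) = compSL g h := by
  funext τ
  simp only [compSL_apply]
  have h1 : g • (δ • τ) = (g * δ * g⁻¹) • (g • τ) := by
    rw [← mul_smul, ← mul_smul, mul_assoc, mul_assoc, inv_mul_cancel, mul_one]
  have h2 := hh ⟨_, hδ⟩ (g • τ)
  rw [hχ, Units.val_one, one_mul] at h2
  rw [h1, h2]

/-- `χ` is trivial on the elements of finite order. -/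
def EllTrivial (χ : CongruenceSubgroup.Gamma0 N →* ℂˣ) : Prop :=
  ∀ (γ : CongruenceSubgroup.Gamma0 N) (n : ℕ), 0 < n → γ ^ n = 1 → χ γ = 1

/-- **Local divisibility.**  Let `h ∈ holN N` be nonzero with character `χ`, `X` an expansion with
rotation data for `ε`, `g ∈ SL(2,ℤ)` and `k` with `g ε^k g⁻¹ ∈ Γ₀(N)`, `χ(g ε^k g⁻¹) = 1`.  Then
`m ∣ k * ord (E (h ∘ g))`. -/
theorem HasCharacter.dvd_mul_order (hh : HasCharacter χ h) (hmem : h ∈ holN N) (h0 : h ≠ 0)
    (X : Expansion (holBase N)) {ε : SL(2, ℤ)} (R : RotData (holBase N) X ε)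
    (g : SL(2, ℤ)) (k : ℕ) (hk : g * ε ^ k * g⁻¹ ∈ CongruenceSubgroup.Gamma0 N)
    (hχ : χ ⟨_, hk⟩ = 1) :
    (R.m : ℤ) ∣ (k : ℤ) * (X.E ((holBase N).compH g ⟨h, hmem⟩)).order := by
  refine dvd_mul_order_of_compH_pow_eq (holBase N) X R k ?_ ?_
  · intro hz
    apply h0
    have := (holBase N).compH_injective g (hz.trans (_root_.map_zero _).symm)
    exact congrArg Subtype.val this
  · apply Subtype.ext
    exact hh.compSL_compSL g (ε ^ k) hk hχ

omit [NeZero N] in
/-- Conjugates of elements of finite order have finite order. -/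
theorem EllTrivial.conj (hχ : EllTrivial χ) {ε : SL(2, ℤ)} {n : ℕ} (hn : 0 < n) (hε : ε ^ n = 1)
    (g : SL(2, ℤ)) (k : ℕ) (hk : g * ε ^ k * g⁻¹ ∈ CongruenceSubgroup.Gamma0 N) :
    χ ⟨_, hk⟩ = 1 := by
  refine hχ _ n hn ?_
  apply Subtype.ext
  rw [SubgroupClass.coe_pow, Subgroup.coe_mk, OneMemClass.coe_one]
  have : (g * ε ^ k * g⁻¹) ^ n = g * (ε ^ k) ^ n * g⁻¹ := conj_pow
  rw [this, ← pow_mul, mul_comm, pow_mul, hε, one_pow, mul_one, mul_inv_cancel]

omit [NeZero N] in
/-- Conjugates of powers of `T` are parabolic. -/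
theorem ParTrivial.conj_T (hχ : ParTrivial χ) (g : SL(2, ℤ)) (k : ℕ)
    (hk : g * ModularGroup.T ^ k * g⁻¹ ∈ CongruenceSubgroup.Gamma0 N) :
    χ ⟨_, hk⟩ = 1 := by
  apply hχ
  left
  have := trace_conj_T_zpow g (k : ℤ)
  rwa [zpow_natCast] at this

/-- Local divisibility at a point with finite-order rotation `ε` (elliptic points: `ε = S`,
`ε = S * T`; generic points: `ε = 1`). -/
theorem HasCharacter.dvd_mul_order_of_finite_order (hh : HasCharacter χ h) (hmem : h ∈ holN N)
    (h0 : h ≠ 0) (hχ : EllTrivial χ)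
    (X : Expansion (holBase N)) {ε : SL(2, ℤ)} (R : RotData (holBase N) X ε)
    {n : ℕ} (hn : 0 < n) (hε : ε ^ n = 1)
    (g : SL(2, ℤ)) (k : ℕ) (hk : g * ε ^ k * g⁻¹ ∈ CongruenceSubgroup.Gamma0 N) :
    (R.m : ℤ) ∣ (k : ℤ) * (X.E ((holBase N).compH g ⟨h, hmem⟩)).order :=
  hh.dvd_mul_order hmem h0 X R g k hk (hχ.conj hn hε g k hk)

/-- Local divisibility at the cusps (`ε = T`). -/
theorem HasCharacter.dvd_mul_order_T (hh : HasCharacter χ h) (hmem : h ∈ holN N)
    (h0 : h ≠ 0) (hχ : ParTrivial χ)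
    (X : Expansion (holBase N)) (R : RotData (holBase N) X ModularGroup.T)
    (g : SL(2, ℤ)) (k : ℕ)
    (hk : g * ModularGroup.T ^ k * g⁻¹ ∈ CongruenceSubgroup.Gamma0 N) :
    (R.m : ℤ) ∣ (k : ℤ) * (X.E ((holBase N).compH g ⟨h, hmem⟩)).order :=
  hh.dvd_mul_order hmem h0 X R g k hk (hχ.conj_T g k hk)

end Character

end Fermat.Agent.S29.H332

end
end
-- ===== PACK-END S29/H332/Rot.lean

-- ===== PACK-BEGIN Lib/RR/H864/FF1Modular.lean
section



/-!
# RR library, bridge: `FF1` for the function field of `X₀(N)` over `ℚ̄`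
-/

set_option autoImplicit false

noncomputable section

open AlgebraicCurve ModularCurve IntermediateField

namespace Fermat.Agent.Lib.RR.H864

open Fermat.Agent.S24 in
theorem jF_not_mem_range (N : ℕ) [NeZero N] :
    jF N ∉ (algebraMap Kbar (FF N)).range := by
  rintro ⟨c, hc⟩
  have h1 : ((algebraMap Kbar (FF N) c : FF N) : LaurentSeries Kbar).coeff (-1)
      = ((jF N : FF N) : LaurentSeries Kbar).coeff (-1) := by rw [hc]
  have h2 : ((algebraMap Kbar (FF N) c : FF N) : LaurentSeries Kbar)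
      = algebraMap Kbar (LaurentSeries Kbar) c := rfl
  rw [h2, algebraMap_laurentSeries_eq_single] at h1
  have h3 : ((jF N : FF N) : LaurentSeries Kbar) = coeffEmb Kbar jq := rfl
  rw [h3, coeffEmb_coeff, coeff_jq_neg_one, map_one,
    HahnSeries.coeff_single_of_ne (by norm_num)] at h1
  exact zero_ne_one h1

open Fermat.Agent.S24 in
theorem transcendental_jF (N : ℕ) [NeZero N] : Transcendental Kbar (jF N) :=
  FF.transcendental_of_not_mem_range (jF_not_mem_range N)

open Fermat.Agent.S24 in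
/-- **`FF1` for the modular function field** `ℚ̄(j(q^d) : d ∣ N)`. -/
theorem ff1_modularFunctionFieldBar (N : ℕ) [NeZero N] :
    FF1 (AlgebraicClosure ℚ) ↥(modularFunctionFieldBar N) := by
  obtain ⟨P⟩ := nonempty_modularPackage N
  haveI := P.finiteDimensional
  exact ff1 (jF N) (transcendental_jF N)

/-- The modular function field has principal divisors. -/
theorem hasPrincipalDivisors_modularFunctionFieldBar (N : ℕ) [NeZero N] :
    HasPrincipalDivisors (AlgebraicClosure ℚ) ↥(modularFunctionFieldBar N) :=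
  (ff1_modularFunctionFieldBar N).hpd

end Fermat.Agent.Lib.RR.H864

end
end
-- ===== PACK-END Lib/RR/H864/FF1Modular.lean

-- ===== PACK-BEGIN S29/H812/NormFormula.lean
section


/-!
# S29 / H812 — the norm formula and the Prelude classes `SumRamificationInertia`,
`FundamentalIdentity`, `PushforwardNormFormula` for finite extensions of function fields over an
algebraically closed field of characteristic zero.
-/

set_option autoImplicit false

noncomputable section

open AlgebraicCurve IntermediateField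

namespace Fermat.Agent.S29.H812

open Fermat.Agent.S24

variable {K F F' : Type*} [Field K] [Field F] [Field F']
  [Algebra K F] [Algebra K F'] [Algebra F F'] [IsScalarTower K F F']
  [Algebra.IsIntegral F F'] [HasPrincipalDivisors K F']
  [IsAlgClosed K] [CharZero K] [Module.Finite F F']

variable (hF : ∃ x : F, Transcendental K x ∧ FiniteDimensional K⟮x⟯ F)

include hF in
omit [HasPrincipalDivisors K F'] [CharZero K] in
theorem inertiaDeg_eq_one (w : Place K F') : w.inertiaDeg F = 1 := by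
  obtain ⟨x, hx, hxfin⟩ := hF
  haveI := finiteDimensional_adjoin_algebraMap (K := K) (F' := F') x
  have h := w.deg_restrict_mul_inertiaDeg (F := F)
  rw [FF.deg_eq_one (w.restrict F) hx,
    FF.deg_eq_one w (transcendental_algebraMap_of (F' := F') hx), one_mul] at h
  exact h

include hF in
/-- **Norm formula**: `ord_v (N f) = ∑_{w | v} ord_w f`. -/
theorem ord_norm_eq_sum (v : Place K F) {f : F'} (hf : f ≠ 0) :
    v.ord (Algebra.norm F f) = ∑ w ∈ v.fiber F', w.ord f := by
  classical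
  have hϖ : ∀ w : Place K F', ∃ ϖ : F', ϖ ≠ 0 ∧ w.ord ϖ = 1 ∧
      ∀ w' ∈ (v.fiber F').erase w, w'.ord ϖ = 0 := fun w =>
    exists_ord_eq_one_and_zero w _ (Finset.notMem_erase _ _)
  choose ϖ hϖ0 hϖ1 hϖ2 using hϖ
  set c : Place K F' → ℤ := fun w => v.ord (Algebra.norm F (ϖ w)) with hc
  have hpne : ∀ k : Place K F' → ℕ, ∏ w ∈ v.fiber F', ϖ w ^ k w ≠ 0 := fun k =>
    Finset.prod_ne_zero_iff.mpr fun w _ => pow_ne_zero _ (hϖ0 w)
  have hprod : ∀ (k : Place K F' → ℕ), ∀ w' ∈ v.fiber F',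
      w'.ord (∏ w ∈ v.fiber F', ϖ w ^ k w) = k w' := by
    intro k w' hw'
    rw [ord_prod w' _ _ fun w _ => pow_ne_zero _ (hϖ0 w)]
    simp_rw [H117.ord_pow]
    rw [Finset.sum_eq_single w']
    · rw [hϖ1 w']; ring
    · intro w _ hne
      rw [hϖ2 w w' (Finset.mem_erase.mpr ⟨fun h => hne h.symm, hw'⟩)]; ring
    · intro h; exact absurd hw' h
  have hnorm : ∀ k : Place K F' → ℕ,
      v.ord (Algebra.norm F (∏ w ∈ v.fiber F', ϖ w ^ k w)) = ∑ w ∈ v.fiber F', (k w : ℤ) * c w := by
    intro k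
    rw [map_prod, ord_prod v _ _ fun w _ =>
      Algebra.norm_ne_zero_iff.mpr (pow_ne_zero _ (hϖ0 w))]
    refine Finset.sum_congr rfl fun w _ => ?_
    rw [map_pow, H117.ord_pow]
  have hstar : ∀ f : F', f ≠ 0 →
      v.ord (Algebra.norm F f) = ∑ w ∈ v.fiber F', w.ord f * c w := by
    intro f hf
    set p : Place K F' → ℕ := fun w => (w.ord f).toNat with hp
    set n : Place K F' → ℕ := fun w => (-(w.ord f)).toNat with hn
    have hpn : ∀ w : Place K F', w.ord f = (p w : ℤ) - (n w : ℤ) := by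
      intro w
      simp only [hp, hn]
      omega
    have hcong := ord_norm_congr hF v (g := f * ∏ w ∈ v.fiber F', ϖ w ^ n w)
      (h := ∏ w ∈ v.fiber F', ϖ w ^ p w) (mul_ne_zero hf (hpne n)) (hpne p) (by
        intro w' hw'
        rw [w'.ord_mul hf (hpne n), hprod n w' hw', hprod p w' hw', hpn w']
        ring)
    rw [map_mul, v.ord_mul (Algebra.norm_ne_zero_iff.mpr hf)
      (Algebra.norm_ne_zero_iff.mpr (hpne n)), hnorm, hnorm] at hcong
    have : ∑ w ∈ v.fiber F', w.ord f * c w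
        = ∑ w ∈ v.fiber F', (p w : ℤ) * c w - ∑ w ∈ v.fiber F', (n w : ℤ) * c w := by
      rw [← Finset.sum_sub_distrib]
      refine Finset.sum_congr rfl fun w _ => ?_
      rw [hpn w]; ring
    rw [this]
    linarith
  -- the constants `c w` are all `1`
  obtain ⟨π, hπ0, hπ1⟩ := H117.exists_ord_eq_one v
  have hπ' : algebraMap F F' π ≠ 0 := by simpa using hπ0
  have h1 := hstar (algebraMap F F' π) hπ'
  rw [Algebra.norm_algebraMap, H117.ord_pow, hπ1, mul_one] at h1
  have h2 : ∀ w ∈ v.fiber F', w.ord (algebraMap F F' π) = (w.ramificationIndex F : ℤ) := by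
    intro w hw
    rw [w.ord_restrict, Place.mem_fiber.mp hw, hπ1, mul_one]
  have h3 : ((∑ w ∈ v.fiber F', w.ramificationIndex F : ℕ) : ℤ) = (Module.finrank F F' : ℤ) := by
    exact_mod_cast sum_ramificationIndex_eq_finrank hF v
  have hcpos : ∀ w ∈ v.fiber F', 1 ≤ c w := by
    intro w hw
    have hin : InFib v (ϖ w) := inFib_iff_ord.mpr fun w' hw' => by
      by_cases h : w' = w
      · rw [h, hϖ1]; norm_num
      · rw [hϖ2 w w' (Finset.mem_erase.mpr ⟨h, hw'⟩)]
    have := ord_norm_pos_of_ord_pos hF v (hϖ0 w) hin hw (by rw [hϖ1]; norm_num)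
    exact this
  have h4 : ∑ w ∈ v.fiber F', (w.ramificationIndex F : ℤ) * (c w - 1) = 0 := by
    have : ∑ w ∈ v.fiber F', (w.ramificationIndex F : ℤ) * (c w - 1)
        = ∑ w ∈ v.fiber F', w.ord (algebraMap F F' π) * c w
          - ∑ w ∈ v.fiber F', (w.ramificationIndex F : ℤ) := by
      rw [← Finset.sum_sub_distrib]
      refine Finset.sum_congr rfl fun w hw => ?_
      rw [h2 w hw]; ring
    rw [this, ← h1]
    push_cast at h3
    rw [h3]; ring
  have h5 := (Finset.sum_eq_zero_iff_of_nonneg (fun w hw => by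
    have he : (0 : ℤ) ≤ (w.ramificationIndex F : ℤ) := Int.natCast_nonneg _
    have := hcpos w hw
    exact mul_nonneg he (by omega))).mp h4
  have hc1 : ∀ w ∈ v.fiber F', c w = 1 := by
    intro w hw
    have h6 := h5 w hw
    have he : (0 : ℤ) < (w.ramificationIndex F : ℤ) := by
      exact_mod_cast w.ramificationIndex_pos (F := F)
    rcases mul_eq_zero.mp h6 with h7 | h7
    · omega
    · omega
  rw [hstar f hf]
  refine Finset.sum_congr rfl fun w hw => ?_
  rw [hc1 w hw, mul_one]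

include hF in
/-- The Prelude's `PushforwardNormFormula`. -/
theorem pushforwardNormFormula : Divisor.PushforwardNormFormula K F F' := by
  classical
  intro f hf D hD v
  rw [Divisor.pushforward_apply, ord_norm_eq_sum hF v hf]
  have h1 : ∀ w ∈ D.support,
      (if w.restrict F = v then D w * (w.inertiaDeg F : ℤ) else 0)
        = if w.restrict F = v then w.ord f else 0 := by
    intro w _
    rw [inertiaDeg_eq_one hF w, hD w]
    simp
  rw [Finset.sum_congr rfl h1, ← Finset.sum_filter]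
  refine Finset.sum_subset ?_ ?_
  · intro w hw
    exact Place.mem_fiber.mpr (Finset.mem_filter.mp hw).2
  · intro w hw hnot
    have : w ∉ D.support := fun h => hnot (Finset.mem_filter.mpr ⟨h, Place.mem_fiber.mp hw⟩)
    rw [Finsupp.notMem_support_iff] at this
    rw [← hD w, this]

include hF in
/-- The Prelude's `SumRamificationInertia`. -/
theorem sumRamificationInertia : SumRamificationInertia K F F' where
  sum_ramificationIndex_mul_inertiaDeg v := by
    have h := sum_ramificationIndex_eq_finrank (F' := F') hF v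
    rw [← h]
    push_cast
    refine Finset.sum_congr rfl fun w _ => ?_
    rw [inertiaDeg_eq_one hF w]
    simp

include hF in
/-- The Prelude's `FundamentalIdentity`. -/
theorem fundamentalIdentity : FundamentalIdentity K F F' :=
  haveI := sumRamificationInertia (F' := F') hF
  inferInstance

end Fermat.Agent.S29.H812

end
end
-- ===== PACK-END S29/H812/NormFormula.lean

-- ===== PACK-BEGIN S37/H819/Gamma.lean
section


/-!
# S37 / NORM (helper819) — matrix lemmas for the cosets of `Γ₀(Nℓ)` in `Γ₀(N)`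

For a prime `ℓ ∤ N` and `h ∈ Γ₀(N)`:
* either `ℓ ∣ h₁₀` (then `h ∈ Γ₀(Nℓ)`), or there is `b` with `ℓ ∣ h₁₁ - b h₁₀`;
* in the second case `diag(dℓ,1)·h = γ'·[[d, d b],[0, ℓ]]` for every `d ∣ N`, i.e.
  `j(dℓ·hτ) = j(d(τ+b)/ℓ)`;
* every residue `b` occurs.
-/

set_option autoImplicit false

noncomputable section

open UpperHalfPlane
open scoped MatrixGroups

namespace Fermat.Agent.S37.H819

open Fermat.Agent.S24 Fermat.Agent.S24.H997

theorem gamma0_mem_iff_dvd (N : ℕ) (g : SL(2, ℤ)) :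
    g ∈ CongruenceSubgroup.Gamma0 N ↔ (N : ℤ) ∣ g 1 0 := by
  rw [CongruenceSubgroup.Gamma0_mem, ZMod.intCast_zmod_eq_zero_iff_dvd]

/-- If `ℓ ∣ h₁₀` and `h ∈ Γ₀(N)` with `gcd(N,ℓ) = 1`, then `h ∈ Γ₀(Nℓ)`. -/
theorem mem_gamma0_mul {N ℓ : ℕ} (hcop : Nat.Coprime N ℓ) {h : SL(2, ℤ)}
    (hN : h ∈ CongruenceSubgroup.Gamma0 N) (hℓ : (ℓ : ℤ) ∣ h 1 0) :
    h ∈ CongruenceSubgroup.Gamma0 (N * ℓ) := by
  rw [gamma0_mem_iff_dvd] at hN ⊢
  have hc : IsCoprime (N : ℤ) (ℓ : ℤ) := Nat.isCoprime_iff_coprime.mpr hcop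
  push_cast
  exact hc.mul_dvd hN hℓ

/-- For `ℓ` prime, either `ℓ ∣ h₁₀` or `h₁₁ ≡ b h₁₀ mod ℓ` for some `b`. -/
theorem dvd_or_exists_b {ℓ : ℕ} (hℓ : ℓ.Prime) (h : SL(2, ℤ)) :
    (ℓ : ℤ) ∣ h 1 0 ∨ ∃ b : ℤ, (ℓ : ℤ) ∣ h 1 1 - b * h 1 0 := by
  by_cases hd : (ℓ : ℤ) ∣ h 1 0
  · exact Or.inl hd
  · right
    have hp : Prime (ℓ : ℤ) := Nat.prime_iff_prime_int.mp hℓ
    have hc : IsCoprime (ℓ : ℤ) (h 1 0) := (Prime.coprime_iff_not_dvd hp).mpr hd
    obtain ⟨s, t, hst⟩ := hc
    refine ⟨h 1 1 * t, ⟨h 1 1 * s, ?_⟩⟩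
    linear_combination (-(h 1 1)) * hst

/-- `ℓ ∣ h₁₁ - b h₁₀` excludes `ℓ ∣ h₁₀`. -/
theorem not_dvd_of_twist {ℓ : ℕ} (hℓ : ℓ.Prime) {h : SL(2, ℤ)} {b : ℤ}
    (hb : (ℓ : ℤ) ∣ h 1 1 - b * h 1 0) : ¬ (ℓ : ℤ) ∣ h 1 0 := by
  intro hd
  have h11 : (ℓ : ℤ) ∣ h 1 1 := by
    have := dvd_add hb (Dvd.dvd.mul_left hd b)
    simpa using this
  have hdet := inf_sl_det h
  have h1 : (ℓ : ℤ) ∣ 1 := by
    rw [← hdet]
    exact dvd_sub (Dvd.dvd.mul_left h11 _) (Dvd.dvd.mul_left hd _)
  have hp : Prime (ℓ : ℤ) := Nat.prime_iff_prime_int.mp hℓ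
  exact hp.not_dvd_one h1

/-- The Hermite normal form `diag(dℓ,1)·h = γ'·[[d, d b],[0, ℓ]]`. -/
theorem exists_hnf_twist (d ℓ : ℕ) (b : ℤ) (h : SL(2, ℤ)) (hd : (d : ℤ) ∣ h 1 0)
    (hb : (ℓ : ℤ) ∣ h 1 1 - b * h 1 0) :
    ∃ γ' : SL(2, ℤ), ((d * ℓ : ℕ) : ℤ) * h 0 0 = γ' 0 0 * (d : ℕ) ∧
      ((d * ℓ : ℕ) : ℤ) * h 0 1 = γ' 0 0 * ((d : ℤ) * b) + γ' 0 1 * (ℓ : ℕ) ∧
      h 1 0 = γ' 1 0 * (d : ℕ) ∧ h 1 1 = γ' 1 0 * ((d : ℤ) * b) + γ' 1 1 * (ℓ : ℕ) := by
  obtain ⟨c, hc⟩ := hd
  obtain ⟨e, he⟩ := hb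
  have hdet := inf_sl_det h
  refine ⟨⟨!![(ℓ : ℤ) * h 0 0, (d : ℤ) * h 0 1 - (d : ℤ) * b * h 0 0; c, e], ?_⟩, ?_, ?_, ?_, ?_⟩
  · rw [Matrix.det_fin_two_of]
    have h11 : h 1 1 = (ℓ : ℤ) * e + b * h 1 0 := by linarith
    rw [h11, hc] at hdet
    linear_combination hdet
  · simp; ring
  · simp; ring
  · simp [hc]; ring
  · simp
    have h11 : h 1 1 = (ℓ : ℤ) * e + b * h 1 0 := by linarith
    rw [h11, hc]; ring

/-- Every residue class `b` is realised by some `h ∈ Γ₀(N)`. -/
theorem exists_rep {N ℓ : ℕ} (hcop : Nat.Coprime N ℓ) (b : ℤ) :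
    ∃ h : SL(2, ℤ), h ∈ CongruenceSubgroup.Gamma0 N ∧ (ℓ : ℤ) ∣ h 1 1 - b * h 1 0 := by
  have hc : IsCoprime (b * N + ℓ : ℤ) (N : ℤ) := by
    have h0 : IsCoprime (ℓ : ℤ) (N : ℤ) := (Nat.isCoprime_iff_coprime.mpr hcop).symm
    have := h0.add_mul_right_left b
    simpa [add_comm] using this
  obtain ⟨s, t, hst⟩ := hc
  have hdet : (!![s, -t; (N : ℤ), b * N + ℓ] : Matrix (Fin 2) (Fin 2) ℤ).det = 1 := by
    rw [Matrix.det_fin_two_of]
    linear_combination hst
  let g : SL(2, ℤ) := ⟨!![s, -t; (N : ℤ), b * N + ℓ], hdet⟩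
  have g10 : g 1 0 = (N : ℤ) := by simp [g]
  have g11 : g 1 1 = b * N + ℓ := by simp [g]
  refine ⟨g, ?_, ?_⟩
  · rw [gamma0_mem_iff_dvd, g10]
  · rw [g10, g11]
    exact ⟨1, by ring⟩

end Fermat.Agent.S37.H819

end
end
-- ===== PACK-END S37/H819/Gamma.lean

-- ===== PACK-BEGIN S18/H107/BranchConcrete.lean
section







/-!
# helper107 — S18 / node_mod, G-BR : the branch data of the `j`-line at the CONCRETE objects

`branchJ_concrete107 M : BranchJ107 (Mod.Lc M) (Mod.jOm M)` — in valuation-subring language over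
`Ω = Om M = F_M`:  `F_M / ℚ̄(j)` is unramified outside `0, 1728, ∞`, with `ord ≤ 3` over `0` and
`ord ≤ 2` over `1728`.

Adapter from the `Place`-language results on main (`H24.ord_sub_eq_one`, `ord_zero_dvd`,
`ord_1728_dvd`) via `H504.placeOfValuationSubring` (a valuation subring of `F_M` containing `ℚ̄`
with a nonzero non-unit is a `Place`).

Consequences: `unramified_j_concrete107` (= field `unramified` of `Alg.GoodModel` for `x = j`,
`S = {0, 1728}`), and, through `unramified_t2_107` / `unramified_t3_107`, the field `unramified`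
for the Hauptmodul coordinates.
-/

set_option autoImplicit false

noncomputable section

namespace Fermat.Agent.S18.H107

open AlgebraicCurve ModularCurve IntermediateField HahnSeries
open Fermat.Agent.S18 Fermat.Agent.S18.Mod Fermat.Agent.S24 Fermat.Agent.Lib.RR

variable (M : ℕ) [NeZero M]

theorem jOm_eq_jF107 : jOm M = jF M := by
  apply Subtype.ext
  show coeffEmb Qb (qExpand ℚ 1 jq) = coeffEmb Kbar jq
  rw [qExpand_one_apply]

variable {M}

omit [NeZero M] in
theorem algebraMap_mem_of_Lc107 {O : ValuationSubring (Om M)} (hL : ∀ a ∈ Lc M, a ∈ O)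
    (a : Qb) : algebraMap Qb (Om M) a ∈ O :=
  hL _ ⟨a, rfl⟩

omit [NeZero M] in
/-- A bound on `ord` at the place defined by `O` gives `OrdLe107`. -/
theorem ordLe_of_place107 (v : Place Qb (Om M)) {y : Om M} (hy0 : y ≠ 0) (k : ℕ)
    (hk : v.ord y ≤ k) : OrdLe107 v.toValuationSubring y k := by
  intro s hs hs'
  have hs0 : s ≠ 0 := by
    rintro rfl
    exact hs' (by rw [inv_zero]; exact v.toValuationSubring.zero_mem)
  have h1 : 0 ≤ v.ord s := ord_nonneg_of_mem v hs
  have h2 : ¬ 0 ≤ v.ord s⁻¹ := fun h => hs' (mem_of_ord_nonneg v h)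
  rw [v.ord_inv] at h2
  have h3 : 1 ≤ v.ord s := by omega
  apply mem_of_ord_nonneg v
  rw [v.ord_mul (pow_ne_zero _ hs0) (inv_ne_zero hy0), ord_pow, v.ord_inv]
  have h4 : (k : ℤ) * 1 ≤ (k : ℤ) * v.ord s := by
    apply mul_le_mul_of_nonneg_left h3
    exact_mod_cast Nat.zero_le k
  omega

omit [NeZero M] in
/-- positivity of `ord` at the place of a valuation ring, for a non-unit. -/
theorem ord_pos_of_nonunit107 (v : Place Qb (Om M)) {y : Om M} (hy : y ∈ v.toValuationSubring)
    (hy' : y⁻¹ ∉ v.toValuationSubring) : 0 < v.ord y := by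
  have h1 : 0 ≤ v.ord y := ord_nonneg_of_mem v hy
  have h2 : ¬ 0 ≤ v.ord y⁻¹ := fun h => hy' (mem_of_ord_nonneg v h)
  rw [v.ord_inv] at h2
  omega

omit [NeZero M] in
theorem ne_zero_of_inv_not_mem107 {O : ValuationSubring (Om M)} {y : Om M} (hy' : y⁻¹ ∉ O) :
    y ≠ 0 := by
  rintro rfl
  exact hy' (by rw [inv_zero]; exact O.zero_mem)

variable (M)

/-- **G-BR, branch data of the `j`-line** at the concrete objects. -/
theorem branchJ_concrete107 : BranchJ107 (Lc M) (jOm M) := by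
  haveI : FiniteDimensional Kbar⟮jF M⟯ (FF M) := H24.finiteDimensional_FF M
  refine ⟨?_, ?_, ?_⟩
  · rintro O hL _ ⟨a, rfl⟩ ha0 ha1728 hz hz'
    have ha0' : a ≠ 0 := fun h => ha0 (by rw [h, _root_.map_zero])
    have ha1728' : a ≠ 1728 := fun h => ha1728 (by rw [h, map_ofNat])
    rw [jOm_eq_jF107] at hz hz' ⊢
    haveI : FiniteDimensional Kbar⟮jF M - algebraMap Kbar (FF M) a⟯ (FF M) :=
      FF.finiteDimensional_adjoin_sub_const (jF M) a
    set v : Place Kbar (FF M) :=
      H504.placeOfValuationSubring O (algebraMap_mem_of_Lc107 hL) hz hz' with hv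
    have hpos : 0 < v.ord (jF M - algebraMap Kbar (FF M) a) := ord_pos_of_nonunit107 v hz hz'
    have h1 := H24.ord_sub_eq_one M a ha0' ha1728' v hpos
    exact ordLe_of_place107 v (ne_zero_of_inv_not_mem107 hz') 1 (by rw [h1]; norm_num)
  · intro O hL hz hz'
    rw [jOm_eq_jF107] at hz hz' ⊢
    set v : Place Kbar (FF M) :=
      H504.placeOfValuationSubring O (algebraMap_mem_of_Lc107 hL) hz hz' with hv
    have hpos : 0 < v.ord (jF M) := ord_pos_of_nonunit107 v hz hz'
    have h1 := H24.ord_zero_dvd M v hpos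
    exact ordLe_of_place107 v (ne_zero_of_inv_not_mem107 hz') 3
      (Int.le_of_dvd (by norm_num) h1)
  · intro O hL hz hz'
    rw [jOm_eq_jF107] at hz hz' ⊢
    have e : (1728 : FF M) = algebraMap Kbar (FF M) 1728 := by rw [map_ofNat]
    rw [e] at hz hz' ⊢
    haveI : FiniteDimensional Kbar⟮jF M - algebraMap Kbar (FF M) 1728⟯ (FF M) :=
      FF.finiteDimensional_adjoin_sub_const (jF M) 1728
    set v : Place Kbar (FF M) :=
      H504.placeOfValuationSubring O (algebraMap_mem_of_Lc107 hL) hz hz' with hv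
    have hpos : 0 < v.ord (jF M - algebraMap Kbar (FF M) 1728) :=
      ord_pos_of_nonunit107 v hz hz'
    have h1 := H24.ord_1728_dvd M v hpos
    exact ordLe_of_place107 v (ne_zero_of_inv_not_mem107 hz') 2
      (Int.le_of_dvd (by norm_num) h1)

/-- The field `unramified` of `Alg.GoodModel` for `x = j`, `S = {0, 1728}`. -/
theorem unramified_j_concrete107 (S : Finset (Om M)) (hS : ∀ s, s ∈ S ↔ s = 0 ∨ s = 1728) :
    ∀ O : ValuationSubring (Om M), (∀ a ∈ Lc M, a ∈ O) → ∀ c ∈ Lc M, c ∉ S →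
      jOm M - c ∈ O → (jOm M - c)⁻¹ ∉ O → ∀ t ∈ O, t⁻¹ ∉ O → t * (jOm M - c)⁻¹ ∈ O := by
  intro O hL c hc hcS hz hz'
  rw [← OrdLe107.one_iff]
  exact (branchJ_concrete107 M).generic O hL c hc (fun h => hcS ((hS c).2 (Or.inl h)))
    (fun h => hcS ((hS c).2 (Or.inr h))) hz hz'

end Fermat.Agent.S18.H107

end
end
-- ===== PACK-END S18/H107/BranchConcrete.lean

-- ===== PACK-BEGIN S37/Red/H940/MainStatement.lean
section



/-!
# S37-RED (helper940): `MainStatement` is PROVED

`Fermat.Agent.S37.Red.H940.mainStatement : MainStatement` (interface `Red/Spec.lean`, helper40):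
over algebraically closed constants (`K` of characteristic `0`), every reduction datum with good
charts has a place reduction map `r` with (i), (ii) (`IsRed`) and (EC) (`EvalCompat`).

Proof: `mainStatement_of_fibreSum` (`Red/H940/Main.lean`, on the fibre-local core
`S37/H940/{Core,Assembly,Line,Chart}.lean`) applied to RED-A
`H160.fibreSumStatement` (helper160, on RED-A1 `H399.normRed` of helper399).
-/

set_option autoImplicit false

namespace Fermat.Agent.S37.Red.H940

open AlgebraicCurve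

universe u

/-- **RED-MAIN.** -/
theorem mainStatement : MainStatement.{u} :=
  mainStatement_of_fibreSum fun _ _ _ _ _ _ _ _ _ _ _ _ _ _ _ G _ => H160.fibreSumStatement G

/-- **RED-MAIN**, unbundled: a reduction datum with good charts has a place reduction map with
(i), (ii) and (EC). -/
theorem exists_isRed {K k F Fk : Type u} [Field K] [Field k] [Field F] [Field Fk]
    [Algebra K F] [Algebra k Fk] [IsAlgClosed K] [CharZero K] [IsAlgClosed k]
    {A : ValuationSubring K} {π : A →+* k} (G : Datum A π F Fk) (hG : G.Good) :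
    ∃ r : Place K F → Place k Fk, IsRed G r ∧ EvalCompat G r :=
  mainStatement K k F Fk A π G hG

end Fermat.Agent.S37.Red.H940

end
-- ===== PACK-END S37/Red/H940/MainStatement.lean

-- ===== PACK-BEGIN S19/H979/RankOne.lean
section


/-!
# Cell A3 (S19) — RANK ONE  (helper979)

`rankOneStatement : RankOneStatement`: a valuation ring `V` of `Q̄` in which the prime `ℓ` is not a
unit has rank one, in the form used by the abstract LOCAL theorem:
`a ∈ 𝔪_V`, `b ≠ 0`  ⟹  `a ^ n / b ∈ V` for some `n`.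

Consequence: `localStatement_of_abs_gr' : AbsLocalStatement → GrStatement → S19.LocalStatement`.
-/

set_option autoImplicit false

noncomputable section

namespace Fermat.Agent.S19.H979

open Polynomial Fermat.Agent.S19

section LocalRing

variable {A : Type*} [CommRing A] [IsLocalRing A]

/-- An integer prime to `ℓ` is a unit in a local ring in which `ℓ` is not a unit. -/
theorem isUnit_intCast_of_not_dvd {ℓ : ℕ} (hℓ : ℓ.Prime) (hℓA : ((ℓ : ℤ) : A) ∈ nonunits A)
    {u : ℤ} (hu : ¬ (ℓ : ℤ) ∣ u) : IsUnit ((u : ℤ) : A) := by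
  have hcop : IsCoprime (ℓ : ℤ) u :=
    (Prime.coprime_iff_not_dvd (Nat.prime_iff_prime_int.1 hℓ)).2 hu
  obtain ⟨x, y, hxy⟩ := hcop
  have h1 : ((y : ℤ) : A) * ((u : ℤ) : A) = 1 - ((x : ℤ) : A) * ((ℓ : ℤ) : A) := by
    have := congrArg (Int.cast : ℤ → A) hxy
    push_cast at this
    push_cast
    linear_combination this
  have h2 : ((x : ℤ) : A) * ((ℓ : ℤ) : A) ∈ nonunits A := by
    rw [← IsLocalRing.mem_maximalIdeal] at hℓA ⊢
    exact Ideal.mul_mem_left _ _ hℓA
  have h3 : IsUnit (((y : ℤ) : A) * ((u : ℤ) : A)) := by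
    rw [h1]
    exact IsLocalRing.isUnit_one_sub_self_of_mem_nonunits _ h2
  exact isUnit_of_mul_isUnit_right h3

/-- Newton-polygon step: if `p ∈ ℤ[X]` has its first `ℓ`-unit coefficient in degree `n` and
`ℓ ∣ p(a) a^k` for a non-unit `a`, then `ℓ ∣ a ^ (n + k)`. -/
theorem dvd_pow_of_aeval {ℓ : ℕ} (hℓ : ℓ.Prime) (hℓA : ((ℓ : ℤ) : A) ∈ nonunits A)
    (a : A) (ha : a ∈ nonunits A) :
    ∀ (n k : ℕ) (p : ℤ[X]), (∀ i < n, (ℓ : ℤ) ∣ p.coeff i) → ¬ (ℓ : ℤ) ∣ p.coeff n →
      ((ℓ : ℤ) : A) ∣ aeval a p * a ^ k → ((ℓ : ℤ) : A) ∣ a ^ (n + k) := by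
  intro n
  induction n with
  | zero =>
    intro k p _ h0 hdiv
    have hp : aeval a p = aeval a p.divX * a + ((p.coeff 0 : ℤ) : A) := by
      conv_lhs => rw [← divX_mul_X_add p]
      simp
    have hu : IsUnit (aeval a p) := by
      by_contra hnu
      have h1 : aeval a p.divX * a ∈ nonunits A := by
        rw [← IsLocalRing.mem_maximalIdeal] at ha ⊢
        exact Ideal.mul_mem_left _ _ ha
      have h2 : ((p.coeff 0 : ℤ) : A) ∈ nonunits A := by
        have h3 : ((p.coeff 0 : ℤ) : A) = aeval a p - aeval a p.divX * a := by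
          rw [hp]; ring
        rw [h3]
        rw [← IsLocalRing.mem_maximalIdeal] at h1 ⊢
        exact Ideal.sub_mem _ ((IsLocalRing.mem_maximalIdeal _).2 hnu) h1
      exact h2 (isUnit_intCast_of_not_dvd hℓ hℓA h0)
    rw [zero_add]
    exact (hu.dvd_mul_left).1 hdiv
  | succ n ih =>
    intro k p hlow hn hdiv
    have hp : aeval a p = aeval a p.divX * a + ((p.coeff 0 : ℤ) : A) := by
      conv_lhs => rw [← divX_mul_X_add p]
      simp
    have h0 : ((ℓ : ℤ) : A) ∣ ((p.coeff 0 : ℤ) : A) := by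
      obtain ⟨c, hc⟩ := hlow 0 (Nat.succ_pos n)
      exact ⟨(c : A), by rw [hc]; push_cast; ring⟩
    have h1 : ((ℓ : ℤ) : A) ∣ aeval a p.divX * a ^ (k + 1) := by
      have h2 : aeval a p.divX * a ^ (k + 1) =
          aeval a p * a ^ k - ((p.coeff 0 : ℤ) : A) * a ^ k := by
        rw [hp]; ring
      rw [h2]
      exact dvd_sub hdiv (Dvd.dvd.mul_right h0 _)
    have h3 := ih (k + 1) p.divX
      (fun i hi => by rw [coeff_divX]; exact hlow (i + 1) (Nat.succ_lt_succ hi))
      (by rw [coeff_divX]; exact hn) h1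
    have h4 : n + 1 + k = n + (k + 1) := by ring
    rw [h4]
    exact h3

end LocalRing

/-- Every element of `Q̄` is algebraic over `ℤ`. -/
theorem isAlgebraic_int_qb (x : Qb) : IsAlgebraic ℤ x :=
  (IsFractionRing.isAlgebraic_iff ℤ ℚ Qb).2 ((AlgebraicClosure.isAlgebraic ℚ).isAlgebraic x)

/-- Step B: a power of a non-unit is divisible by `ℓ`. -/
theorem exists_pow_eq_ell_mul {ℓ : ℕ} (hℓ : ℓ.Prime) (V : ValuationSubring Qb)
    (hℓV : (ℓ : Qb) ∈ V.nonunits) (a : Qb) (ha : a ∈ V.nonunits) :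
    ∃ (j : ℕ) (s : Qb), s ∈ V ∧ a ^ j = (ℓ : Qb) * s := by
  by_cases ha0 : a = 0
  · exact ⟨1, 0, V.zero_mem, by rw [ha0]; simp⟩
  obtain ⟨haV, ham⟩ := (V.mem_nonunits_iff_exists_mem_maximalIdeal).1 ha
  obtain ⟨hℓmem, hℓm⟩ := (V.mem_nonunits_iff_exists_mem_maximalIdeal).1 hℓV
  obtain ⟨p, hp0, hpa⟩ := isAlgebraic_int_qb a
  have hq : aeval a p.primPart = 0 := aeval_primPart_eq_zero hp0 hpa
  have hprim : p.primPart.IsPrimitive := isPrimitive_primPart p
  have hex : ∃ i, ¬ (ℓ : ℤ) ∣ p.primPart.coeff i := by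
    by_contra hcon
    push Not at hcon
    have h1 : C (ℓ : ℤ) ∣ p.primPart := (C_dvd_iff_dvd_coeff _ _).2 hcon
    have h2 : IsUnit (ℓ : ℤ) := hprim _ h1
    exact (Nat.prime_iff_prime_int.1 hℓ).not_isUnit h2
  classical
  let n := Nat.find hex
  have hn : ¬ (ℓ : ℤ) ∣ p.primPart.coeff n := Nat.find_spec hex
  have hlow : ∀ i < n, (ℓ : ℤ) ∣ p.primPart.coeff i := fun i hi => by
    have := Nat.find_min hex hi
    push Not at this
    exact this
  -- transfer to the local ring `V`
  let a' : V := ⟨a, haV⟩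
  have ha' : a' ∈ nonunits V := (IsLocalRing.mem_maximalIdeal _).1 ham
  have hℓ' : (((ℓ : ℤ) : V)) ∈ nonunits V := by
    have h : (((ℓ : ℤ) : V)) = ⟨(ℓ : Qb), hℓmem⟩ := Subtype.ext (by simp)
    rw [h]
    exact (IsLocalRing.mem_maximalIdeal _).1 hℓm
  have haev : aeval a' p.primPart = 0 := by
    have h1 : algebraMap V Qb (aeval a' p.primPart) = aeval (algebraMap V Qb a') p.primPart :=
      (aeval_algebraMap_apply Qb a' p.primPart).symm
    have h2 : aeval (algebraMap V Qb a') p.primPart = 0 := hq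
    rw [h2] at h1
    exact (FaithfulSMul.algebraMap_injective V Qb) (by rw [h1, _root_.map_zero])
  have hdiv : (((ℓ : ℤ) : V)) ∣ aeval a' p.primPart * a' ^ 0 := by
    rw [haev, zero_mul]
    exact dvd_zero _
  obtain ⟨s, hs⟩ := dvd_pow_of_aeval hℓ hℓ' a' ha' n 0 p.primPart hlow hn hdiv
  refine ⟨n, (s : Qb), s.2, ?_⟩
  have := congrArg (fun x : V => (x : Qb)) hs
  simpa using this

/-- Step A: every nonzero element divides a power of `ℓ`. -/
theorem exists_ell_pow_div_mem {ℓ : ℕ} (hℓ : ℓ.Prime) (V : ValuationSubring Qb)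
    (hℓV : (ℓ : Qb) ∈ V.nonunits) (b : Qb) :
    ∃ m : ℕ, (ℓ : Qb) ^ m / b ∈ V := by
  obtain ⟨hℓmem, hℓm⟩ := (V.mem_nonunits_iff_exists_mem_maximalIdeal).1 hℓV
  have hℓ' : (((ℓ : ℤ) : V)) ∈ nonunits V := by
    have h : (((ℓ : ℤ) : V)) = ⟨(ℓ : Qb), hℓmem⟩ := Subtype.ext (by simp)
    rw [h]
    exact (IsLocalRing.mem_maximalIdeal _).1 hℓm
  obtain ⟨d, hd0, hd⟩ := (isAlgebraic_int_qb b⁻¹).exists_integral_multiple
  -- `d • b⁻¹ ∈ V`
  have hdV : (d : Qb) * b⁻¹ ∈ V := by
    have h1 : IsIntegral V (d • b⁻¹ : Qb) := hd.tower_top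
    obtain ⟨y, hy⟩ := (IsIntegrallyClosed.isIntegral_iff (R := V) (K := Qb)).1 h1
    have h2 : (d • b⁻¹ : Qb) = (d : Qb) * b⁻¹ := by simp [zsmul_eq_mul]
    rw [← h2, ← hy]
    exact y.2
  -- `d = ℓ ^ m * u` with `u` prime to `ℓ`
  have hfin : FiniteMultiplicity (ℓ : ℤ) d :=
    Int.finiteMultiplicity_iff.2 ⟨by simpa using hℓ.ne_one, hd0⟩
  obtain ⟨u, hdu, hu⟩ := hfin.exists_eq_pow_mul_and_not_dvd
  have huV : IsUnit ((u : ℤ) : V) := isUnit_intCast_of_not_dvd hℓ hℓ' hu
  obtain ⟨w, hw⟩ := huV.exists_left_inv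
  refine ⟨multiplicity (ℓ : ℤ) d, ?_⟩
  have hwu : (w : Qb) * (u : Qb) = 1 := by
    have := congrArg (fun x : V => (x : Qb)) hw
    simpa using this
  have key : (ℓ : Qb) ^ multiplicity (ℓ : ℤ) d / b = (w : Qb) * ((d : Qb) * b⁻¹) := by
    have hdq : (d : Qb) = (ℓ : Qb) ^ multiplicity (ℓ : ℤ) d * (u : Qb) := by
      conv_lhs => rw [hdu]
      push_cast
      ring
    rw [hdq, div_eq_mul_inv]
    calc (ℓ : Qb) ^ multiplicity (ℓ : ℤ) d * b⁻¹
        = ((w : Qb) * (u : Qb)) * ((ℓ : Qb) ^ multiplicity (ℓ : ℤ) d * b⁻¹) := by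
          rw [hwu, one_mul]
      _ = (w : Qb) * ((ℓ : Qb) ^ multiplicity (ℓ : ℤ) d * (u : Qb) * b⁻¹) := by ring
  rw [key]
  exact V.mul_mem _ _ w.2 hdV

/-- **RANK ONE.** -/
theorem rankOneStatement : RankOneStatement := by
  intro ℓ hfact V hℓV a b ha _
  obtain ⟨j, s, hs, hjs⟩ := exists_pow_eq_ell_mul hfact.out V hℓV a ha
  obtain ⟨m, hm⟩ := exists_ell_pow_div_mem hfact.out V hℓV b
  refine ⟨j * m, ?_⟩
  have key : a ^ (j * m) / b = s ^ m * ((ℓ : Qb) ^ m / b) := by
    rw [pow_mul, hjs, mul_pow]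
    ring
  rw [key]
  exact V.mul_mem _ _ (V.pow_mem hs m) hm

/-- **Glue, final form**: LOCAL from the abstract LOCAL theorem and the good-reduction
instance. -/
theorem localStatement_of_abs_gr' (hD : AbsLocalStatement) (hG : GrStatement) :
    LocalStatement :=
  localStatement_of_abs_gr hD hG rankOneStatement

end Fermat.Agent.S19.H979

end

end
-- ===== PACK-END S19/H979/RankOne.lean

-- ===== PACK-BEGIN A3/H799/LocalSpec.lean
section



/-!
# A3 / LOCAL — FROZEN leaf statements  (architect helper799)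

`LocalStatement K F k Fk` (GoodRed.lean) is cut into five leaves, each a `Prop` below:

    DISC   `DiscStatement`   residue-disc calculus: a `DiscData` at every point of the special fibre
    NSP    `NspStatement`    special fibre: `g` distinct points with `ℓ(ΣQ_i) = 1`
    COORD  `CoordStatement`  the kernel of reduction is the polydisc `(𝔪_V)^g`
    ZADD   `ZaddStatement`   addition is algebraic: divisor form, for families on a finite set
    LIFTI  `LiftiStatement`  inertia-invariant lifts of classes of the special fibre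

Everything is about HONEST functions/divisors of `F/K`; the only "families" are functions on a
finite set `T` with values in `V`, and `Λ` is any `V`-algebra of such functions
(`Fermat.Agent.A3.H799.local_mem` is the algebra behind ZADD).
-/

set_option autoImplicit false

noncomputable section

open AlgebraicCurve

namespace Fermat.Agent.A3.H799

variable {K F k Fk : Type*} [Field K] [Field F] [Algebra K F] [Field k] [Field Fk] [Algebra k Fk]

/-- The kernel of reduction `J¹ ⊆ Pic0`: classes of degree-zero divisors whose reduction is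
principal. -/
def GoodRed.kerRed (𝓡 : GoodRed K F k Fk) : AddSubgroup (Pic0 K F) where
  carrier := {x | ∃ D : Divisor.degZero (K := K) (F := F), Pic0.mk D = x ∧
    Finsupp.mapDomain 𝓡.r (D : Divisor K F) ∈ Divisor.principal (K := k) (F := Fk)}
  zero_mem' := ⟨0, rfl, by simp [Finsupp.mapDomain_zero]⟩
  add_mem' := by
    rintro _ _ ⟨D, rfl, hD⟩ ⟨D', rfl, hD'⟩
    refine ⟨D + D', rfl, ?_⟩
    rw [AddSubgroup.coe_add, Finsupp.mapDomain_add]
    exact AddSubgroup.add_mem _ hD hD'
  neg_mem' := by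
    rintro _ ⟨D, rfl, hD⟩
    refine ⟨-D, rfl, ?_⟩
    have h : Finsupp.mapDomain 𝓡.r ((-D : Divisor.degZero (K := K) (F := F)) : Divisor K F) =
        -Finsupp.mapDomain 𝓡.r (D : Divisor K F) := by
      rw [AddSubgroup.coe_neg, ← Finsupp.mapDomain.addMonoidHom_apply, map_neg,
        Finsupp.mapDomain.addMonoidHom_apply]
    rw [h]
    exact AddSubgroup.neg_mem _ hD

/-- **Residue-disc data** at a point `Q` of the special fibre: the ring of integral functions
without poles in the disc `r⁻¹ Q`, as a disc algebra (`Disc.lean`), with the dictionary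
"evaluation `ev a` = value at the point `pt a` of the disc". -/
structure DiscData (𝓡 : GoodRed K F k Fk) (Q : Place k Fk) where
  /-- integral functions without poles in the disc -/
  ring : Subalgebra 𝓡.V F
  ring_le : ∀ f ∈ ring, f ∈ 𝓡.O
  ring_reg : ∀ f ∈ ring, ∀ P : Place K F, 𝓡.r P = Q → f ∈ P.toValuationSubring
  mem_ring : ∀ f ∈ 𝓡.O, (∀ P : Place K F, 𝓡.r P = Q → f ∈ P.toValuationSubring) → f ∈ ring
  /-- the disc algebra structure: parameter `t`, evaluations, Taylor -/
  D : DiscAlg 𝓡.V ring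
  /-- the point of the disc with parameter value `a` -/
  pt : IsLocalRing.maximalIdeal 𝓡.V → Place K F
  r_pt : ∀ a, 𝓡.r (pt a) = Q
  pt_surj : ∀ P : Place K F, 𝓡.r P = Q → ∃ a, pt a = P
  /-- the reduction of the parameter is a uniformiser at `Q` -/
  ord_t : Q.ord (𝓡.red ⟨(D.t : F), ring_le _ D.t.2⟩) = 1
  /-- `ev a f` is the value of `f` at `pt a` -/
  ev_spec : ∀ (a : IsLocalRing.maximalIdeal 𝓡.V) (f : ring),
    (f : F) = algebraMap K F ((D.ev a f : 𝓡.V) : K) ∨
      1 ≤ (pt a).ord ((f : F) - algebraMap K F ((D.ev a f : 𝓡.V) : K))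
  /-- the reduction of `ev a f` is the value of `red f` at `Q` -/
  red_ev : ∀ (a : IsLocalRing.maximalIdeal 𝓡.V) (f : ring),
    𝓡.red ⟨(f : F), ring_le _ f.2⟩ = algebraMap k Fk (𝓡.res (D.ev a f)) ∨
      1 ≤ Q.ord (𝓡.red ⟨(f : F), ring_le _ f.2⟩ - algebraMap k Fk (𝓡.res (D.ev a f)))

/-- The effective divisor `Σ_i [pt_i (z i)]` of the polydisc point `z`. -/
def polyDiv {𝓡 : GoodRed K F k Fk} {ι : Type*} [Fintype ι] {Qs : ι → Place k Fk}
    (d : ∀ i, DiscData 𝓡 (Qs i)) (z : ι → IsLocalRing.maximalIdeal 𝓡.V) : Divisor K F :=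
  ∑ i, Finsupp.single ((d i).pt (z i)) 1

section Statements

variable (K F k Fk)

/-- **DISC.**  Every point of the special fibre has residue-disc data, with an
inertia-invariant parameter. -/
def DiscStatement : Prop :=
  ∀ (𝓡 : GoodRed K F k Fk) (Q : Place k Fk),
    ∃ d : DiscData 𝓡 Q, ∀ g ∈ 𝓡.I, g • ((d.D.t : d.ring) : F) = ((d.D.t : d.ring) : F)

/-- **DISC-I.**  For an inertia-invariant parameter the points of the disc are permuted by
inertia through their parameter values. -/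
def DiscEquivStatement : Prop :=
  ∀ (𝓡 : GoodRed K F k Fk) (Q : Place k Fk) (d : DiscData 𝓡 Q),
    (∀ g ∈ 𝓡.I, g • ((d.D.t : d.ring) : F) = ((d.D.t : d.ring) : F)) →
    ∀ g ∈ 𝓡.I, ∀ a : IsLocalRing.maximalIdeal 𝓡.V,
      ∃ h : SemilinearAut.baseAut g ((a : 𝓡.V) : K) ∈ 𝓡.V,
        ∃ h' : (⟨SemilinearAut.baseAut g ((a : 𝓡.V) : K), h⟩ : 𝓡.V) ∈
            IsLocalRing.maximalIdeal 𝓡.V,
          g • d.pt a = d.pt ⟨⟨SemilinearAut.baseAut g ((a : 𝓡.V) : K), h⟩, h'⟩

/-- **NSP.**  On the special fibre there are `g` distinct points `Q_i` with `ℓ(Σ Q_i) = 1`. -/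
def NspStatement : Prop :=
  ∀ [IsAlgClosed k] [Lib.RR.FF1 k Fk], ∃ Qs : Fin (genusFF k Fk) → Place k Fk, Function.Injective Qs ∧
    Lib.RR.ell (∑ i, Finsupp.single (Qs i) (1 : ℤ)) = 1

/-- **COORD.**  With `E = polyDiv d 0`: every class of the kernel of reduction is `[D_z - E]` for
a unique polydisc point `z`, and conversely. -/
def CoordStatement : Prop :=
  ∀ (𝓡 : GoodRed K F k Fk) (Qs : Fin (genusFF k Fk) → Place k Fk), Function.Injective Qs →
    @Lib.RR.ell k Fk _ _ _ (∑ i, Finsupp.single (Qs i) (1 : ℤ)) = 1 →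
    ∀ d : ∀ i, DiscData 𝓡 (Qs i),
      (∀ x ∈ 𝓡.kerRed, ∃! z : Fin (genusFF k Fk) → IsLocalRing.maximalIdeal 𝓡.V,
        ∃ D : Divisor.degZero (K := K) (F := F),
          (D : Divisor K F) = polyDiv d z - polyDiv d 0 ∧ Pic0.mk D = x) ∧
      ∀ z : Fin (genusFF k Fk) → IsLocalRing.maximalIdeal 𝓡.V,
        ∀ D : Divisor.degZero (K := K) (F := F),
          (D : Divisor K F) = polyDiv d z - polyDiv d 0 → Pic0.mk D ∈ 𝓡.kerRed

/-- **ZADD** (divisor form).  If `D_x + D_y ∼ D_s + E` for every parameter value `τ` of a finite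
set `T`, and the coordinates of `x`, `y` lie in the `V`-algebra `Λ` of functions on `T`, then so do
the coordinates of `s`. -/
def ZaddStatement.{w} : Prop :=
  ∀ (𝓡 : GoodRed K F k Fk) (Qs : Fin (genusFF k Fk) → Place k Fk), Function.Injective Qs →
    @Lib.RR.ell k Fk _ _ _ (∑ i, Finsupp.single (Qs i) (1 : ℤ)) = 1 →
    ∀ (d : ∀ i, DiscData 𝓡 (Qs i)) (T : Type w) [Finite T] (Λ : Subalgebra 𝓡.V (T → 𝓡.V))
      (zx zy zs : T → Fin (genusFF k Fk) → IsLocalRing.maximalIdeal 𝓡.V),
      (∀ j, (fun τ => ((zx τ j : IsLocalRing.maximalIdeal 𝓡.V) : 𝓡.V)) ∈ Λ) →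
      (∀ j, (fun τ => ((zy τ j : IsLocalRing.maximalIdeal 𝓡.V) : 𝓡.V)) ∈ Λ) →
      (∀ τ, polyDiv d (zx τ) + polyDiv d (zy τ) - polyDiv d (zs τ) - polyDiv d 0 ∈
        Divisor.principal (K := K) (F := F)) →
      ∀ i, (fun τ => ((zs τ i : IsLocalRing.maximalIdeal 𝓡.V) : 𝓡.V)) ∈ Λ

/-- **ZTRI** (sub-leaf of ZADD, one application of `local_mem` with `L(3E)`):
`D_x + D_y + D_w ∼ 3E`. -/
def ZtriStatement.{w} : Prop :=
  ∀ (𝓡 : GoodRed K F k Fk) (Qs : Fin (genusFF k Fk) → Place k Fk), Function.Injective Qs →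
    @Lib.RR.ell k Fk _ _ _ (∑ i, Finsupp.single (Qs i) (1 : ℤ)) = 1 →
    ∀ (d : ∀ i, DiscData 𝓡 (Qs i)) (T : Type w) [Finite T] (Λ : Subalgebra 𝓡.V (T → 𝓡.V))
      (zx zy zw : T → Fin (genusFF k Fk) → IsLocalRing.maximalIdeal 𝓡.V),
      (∀ j, (fun τ => ((zx τ j : IsLocalRing.maximalIdeal 𝓡.V) : 𝓡.V)) ∈ Λ) →
      (∀ j, (fun τ => ((zy τ j : IsLocalRing.maximalIdeal 𝓡.V) : 𝓡.V)) ∈ Λ) →
      (∀ τ, polyDiv d (zx τ) + polyDiv d (zy τ) + polyDiv d (zw τ) - (3 : ℤ) • polyDiv d 0 ∈
        Divisor.principal (K := K) (F := F)) →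
      ∀ i, (fun τ => ((zw τ i : IsLocalRing.maximalIdeal 𝓡.V) : 𝓡.V)) ∈ Λ

/-- **ZNEG** (sub-leaf of ZADD, one application of `local_mem` with `L(2E)`):
`D_x + D_n ∼ 2E`. -/
def ZnegStatement.{w} : Prop :=
  ∀ (𝓡 : GoodRed K F k Fk) (Qs : Fin (genusFF k Fk) → Place k Fk), Function.Injective Qs →
    @Lib.RR.ell k Fk _ _ _ (∑ i, Finsupp.single (Qs i) (1 : ℤ)) = 1 →
    ∀ (d : ∀ i, DiscData 𝓡 (Qs i)) (T : Type w) [Finite T] (Λ : Subalgebra 𝓡.V (T → 𝓡.V))
      (zx zn : T → Fin (genusFF k Fk) → IsLocalRing.maximalIdeal 𝓡.V),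
      (∀ j, (fun τ => ((zx τ j : IsLocalRing.maximalIdeal 𝓡.V) : 𝓡.V)) ∈ Λ) →
      (∀ τ, polyDiv d (zx τ) + polyDiv d (zn τ) - (2 : ℤ) • polyDiv d 0 ∈
        Divisor.principal (K := K) (F := F)) →
      ∀ i, (fun τ => ((zn τ i : IsLocalRing.maximalIdeal 𝓡.V) : 𝓡.V)) ∈ Λ

/-- **LIFTI.**  Every class is congruent modulo the kernel of reduction to an
inertia-invariant class. -/
def LiftiStatement : Prop :=
  ∀ (𝓡 : GoodRed K F k Fk) (x : Pic0 K F),
    ∃ y : Pic0 K F, (∀ g ∈ 𝓡.I, g • y = y) ∧ x - y ∈ 𝓡.kerRed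

end Statements

end Fermat.Agent.A3.H799

end
end
-- ===== PACK-END A3/H799/LocalSpec.lean

-- ===== PACK-BEGIN A3/H799/LocalSpec2.lean
section


/-!
# A3 / LOCAL — FROZEN statements, second layer  (architect helper799)

Sub-leaves of ZTRI / ZNEG (both are the case `s = 2`, `s = 1` of one statement) and the
intermediate statement CHART between the leaves of `LocalSpec.lean` and `LocalStatement`.

    GEO    `GeoStatement`    pointwise geometry: the section through the moving points has exactly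
                             one further zero in each disc (hypothesis `hgeo` of `local_mem`)
    DET    `DetStatement`    integral functions `φ_j ∈ L((s+1)E)` whose jets of order `< s` along
                             the discs form a matrix of unit determinant (hypothesis `hdet`)
    CHART  `ChartStatement`  coordinates `z` on the kernel of reduction: injective, inertia
                             equivariant, addition algebraic for families
-/

set_option autoImplicit false

noncomputable section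

open AlgebraicCurve

namespace Fermat.Agent.A3.H799

variable (K F k Fk : Type*) [Field K] [Field F] [Algebra K F] [Field k] [Field Fk] [Algebra k Fk]

/-- **GEO.**  Pointwise geometric input of `local_mem`.  `E = polyDiv d 0`, `s` moving points
`zs r` and one further point `zw` with `Σ_r D_{zs r} + D_{zw} ∼ (s+1) E`.  If `φ ∈ L((s+1)E)` is
integral with reduction `1` and `t_i^{s+1} φ` is divisible by `∏_r (t_i - zs r i)` on every disc,
then the quotient is `(t_i - zw i) · u` with `u` a unit at `zw i`. -/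
def GeoStatement : Prop :=
  ∀ (𝓡 : GoodRed K F k Fk) (Qs : Fin (genusFF k Fk) → Place k Fk), Function.Injective Qs →
    @Lib.RR.ell k Fk _ _ _ (∑ i, Finsupp.single (Qs i) (1 : ℤ)) = 1 →
    ∀ (d : ∀ i, DiscData 𝓡 (Qs i)) (s : ℕ)
      (zs : Fin s → Fin (genusFF k Fk) → IsLocalRing.maximalIdeal 𝓡.V)
      (zw : Fin (genusFF k Fk) → IsLocalRing.maximalIdeal 𝓡.V),
      (∑ r, polyDiv d (zs r)) + polyDiv d zw - ((s : ℤ) + 1) • polyDiv d 0 ∈
        Divisor.principal (K := K) (F := F) →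
      ∀ φ : 𝓡.O, ((φ : 𝓡.O) : F) ∈ riemannRochSpace (((s : ℤ) + 1) • polyDiv d 0) →
        𝓡.red φ = 1 →
      ∀ G : ∀ i, (d i).ring,
        (∀ i, ((G i : (d i).ring) : F) =
          ((((d i).D.t : (d i).ring) : F)) ^ (s + 1) * ((φ : 𝓡.O) : F)) →
        (∀ i, ∃ h : (d i).ring,
          G i = Polynomial.aeval (d i).D.t (DiscAlg.nodal (List.ofFn fun r => zs r i)) * h) →
        ∀ i, ∃ u : (d i).ring, IsUnit ((d i).D.ev (zw i) u) ∧
          G i = Polynomial.aeval (d i).D.t (DiscAlg.nodal (List.ofFn fun r => zs r i)) *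
            ((d i).D.t - algebraMap 𝓡.V (d i).ring ((zw i : IsLocalRing.maximalIdeal 𝓡.V) : 𝓡.V)) * u

/-- **DET.**  For `s ≥ 1` there are integral `φ_j ∈ L((s+1)E)`, `j ∈ Fin g × Fin s`, such that the
Taylor coefficients of order `< s` of `t_i^{s+1} φ_j` in the disc algebras form a matrix with unit
determinant (it can be chosen `≡ 1` modulo `𝔪`: jets on the special fibre are independent because
`ℓ(Ē) = 1`, i.e. `𝔸 = 𝔸(Ē) + Fk`). -/
def DetStatement : Prop :=
  ∀ (𝓡 : GoodRed K F k Fk) (Qs : Fin (genusFF k Fk) → Place k Fk), Function.Injective Qs →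
    @Lib.RR.ell k Fk _ _ _ (∑ i, Finsupp.single (Qs i) (1 : ℤ)) = 1 →
    ∀ (d : ∀ i, DiscData 𝓡 (Qs i)) (s : ℕ), 0 < s →
      ∃ (φ : (Σ _ : Fin (genusFF k Fk), Fin s) → 𝓡.O)
        (f : (Σ _ : Fin (genusFF k Fk), Fin s) → ∀ i, (d i).ring)
        (P : (Σ _ : Fin (genusFF k Fk), Fin s) → Fin (genusFF k Fk) → Polynomial 𝓡.V)
        (H : (Σ _ : Fin (genusFF k Fk), Fin s) → ∀ i, (d i).ring),
        (∀ j, ((φ j : 𝓡.O) : F) ∈ riemannRochSpace (((s : ℤ) + 1) • polyDiv d 0)) ∧
        (∀ j i, ((f j i : (d i).ring) : F) =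
          ((((d i).D.t : (d i).ring) : F)) ^ (s + 1) * ((φ j : 𝓡.O) : F)) ∧
        (∀ j i, f j i = Polynomial.aeval (d i).D.t (P j i) + (d i).D.t ^ s * H j i) ∧
        ∀ [DecidableEq (Σ _ : Fin (genusFF k Fk), Fin s)],
          IsUnit (Matrix.of fun (c j : Σ _ : Fin (genusFF k Fk), Fin s) =>
            (P j c.1).coeff (c.2 : ℕ)).det

/-- **ZGEN** (general number `s ≥ 1` of moving points; ZTRI is `s = 2`, ZNEG is `s = 1`). -/
def ZgenStatement.{w} : Prop :=
  ∀ (𝓡 : GoodRed K F k Fk) (Qs : Fin (genusFF k Fk) → Place k Fk), Function.Injective Qs →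
    @Lib.RR.ell k Fk _ _ _ (∑ i, Finsupp.single (Qs i) (1 : ℤ)) = 1 →
    ∀ (d : ∀ i, DiscData 𝓡 (Qs i)) (T : Type w) [Finite T] (Λ : Subalgebra 𝓡.V (T → 𝓡.V))
      (s : ℕ), 0 < s →
      ∀ (zs : Fin s → T → Fin (genusFF k Fk) → IsLocalRing.maximalIdeal 𝓡.V)
        (zw : T → Fin (genusFF k Fk) → IsLocalRing.maximalIdeal 𝓡.V),
      (∀ r j, (fun τ => ((zs r τ j : IsLocalRing.maximalIdeal 𝓡.V) : 𝓡.V)) ∈ Λ) →
      (∀ τ, (∑ r, polyDiv d (zs r τ)) + polyDiv d (zw τ) - ((s : ℤ) + 1) • polyDiv d 0 ∈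
        Divisor.principal (K := K) (F := F)) →
      ∀ i, (fun τ => ((zw τ i : IsLocalRing.maximalIdeal 𝓡.V) : 𝓡.V)) ∈ Λ

/-- **CHART.**  Coordinates on the kernel of reduction: injective, inertia-equivariant, with
algebraic addition for families over a finite set. -/
def ChartStatement.{w} : Prop :=
  ∀ (𝓡 : GoodRed K F k Fk),
    ∃ (n : ℕ) (z : 𝓡.kerRed → Fin n → IsLocalRing.maximalIdeal 𝓡.V),
      Function.Injective z ∧
      (∀ g ∈ 𝓡.I, ∀ (u : 𝓡.kerRed) (hgu : g • (u : Pic0 K F) ∈ 𝓡.kerRed) (i : Fin n),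
        (((z ⟨g • (u : Pic0 K F), hgu⟩ i : IsLocalRing.maximalIdeal 𝓡.V) : 𝓡.V) : K) =
          SemilinearAut.baseAut g (((z u i : IsLocalRing.maximalIdeal 𝓡.V) : 𝓡.V) : K)) ∧
      ∀ (T : Type w) [Finite T] (Λ : Subalgebra 𝓡.V (T → 𝓡.V)) (a b : T → 𝓡.kerRed),
        (∀ j, (fun τ => ((z (a τ) j : IsLocalRing.maximalIdeal 𝓡.V) : 𝓡.V)) ∈ Λ) →
        (∀ j, (fun τ => ((z (b τ) j : IsLocalRing.maximalIdeal 𝓡.V) : 𝓡.V)) ∈ Λ) →
        ∀ i, (fun τ => ((z (a τ + b τ) i : IsLocalRing.maximalIdeal 𝓡.V) : 𝓡.V)) ∈ Λ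

/-- **KER-I.**  Inertia acts trivially modulo the kernel of reduction. -/
def KerInertiaStatement : Prop :=
  ∀ (𝓡 : GoodRed K F k Fk), ∀ g ∈ 𝓡.I, ∀ x : Pic0 K F, g • x - x ∈ 𝓡.kerRed

end Fermat.Agent.A3.H799

end
end
-- ===== PACK-END A3/H799/LocalSpec2.lean

-- ===== PACK-BEGIN A3/H799/Red195.lean
section



/-!
# A3 / LOCAL — integral Riemann–Roch for `GoodRed`  (helper799)

Adapter `GoodRed → H195.RedDatum` and the three facts used by ZTRI/ZNEG/COORD:

* `GoodRed.ell_le`      : `ℓ(D) ≤ ℓ(r_* D)` (upper semicontinuity);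
* `GoodRed.exists_lift` : for `deg D > 2g - 2` every element of `L(r_* D)` is the reduction of an
                          integral element of `L(D)`;
* `GoodRed.red_mem_L`   : the reduction of an integral element of `L(D)` lies in `L(r_* D)`.
-/

set_option autoImplicit false

noncomputable section

open AlgebraicCurve Fermat.Agent.Lib.RR

namespace Fermat.Agent.A3.H799

variable {K F k Fk : Type*} [Field K] [Field F] [Algebra K F] [Field k] [Field Fk] [Algebra k Fk]

namespace GoodRed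

variable (𝓡 : GoodRed K F k Fk)

theorem mem_V_of_algebraMap_mem {a : K} (h : algebraMap K F a ∈ 𝓡.O) : a ∈ 𝓡.V :=
  (𝓡.algebraMap_mem a).mp h

/-- The adapter to helper195's `RedDatum`. -/
def toRed195 : Fermat.Agent.S19.H195.RedDatum K F k Fk where
  V := 𝓡.O.toSubring
  red := 𝓡.red
  r := 𝓡.r
  const_total a := by
    rcases 𝓡.O.mem_or_inv_mem (algebraMap K F a) with h | h
    · exact Or.inl h
    · right
      rw [map_inv₀]
      exact h
  red_const a h := ⟨𝓡.res ⟨a, (𝓡.algebraMap_mem a).mp h⟩,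
    𝓡.red_algebraMap ⟨a, (𝓡.algebraMap_mem a).mp h⟩ h⟩
  red_const_surj b := by
    obtain ⟨a, ha⟩ := 𝓡.res_surjective b
    refine ⟨(a : K), (𝓡.algebraMap_mem _).mpr a.2, ?_⟩
    rw [← ha]
    exact 𝓡.red_algebraMap a _
  red_const_unit a h hne := by
    have haV : a ∈ 𝓡.V := (𝓡.algebraMap_mem a).mp h
    have h1 : 𝓡.res ⟨a, haV⟩ ≠ 0 := by
      intro h0
      apply hne
      have := 𝓡.red_algebraMap ⟨a, haV⟩ h
      rw [h0, map_zero] at this
      exact this
    have h2 : a ∉ 𝓡.V.nonunits := fun hn => h1 ((𝓡.res_eq_zero ⟨a, haV⟩).mpr hn)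
    have h3 : a⁻¹ ∈ 𝓡.V := by
      by_contra hinv
      apply h2
      rw [ValuationSubring.mem_nonunits_iff_exists_mem_maximalIdeal]
      refine ⟨haV, ?_⟩
      rw [IsLocalRing.mem_maximalIdeal, mem_nonunits_iff]
      rintro ⟨u, hu⟩
      apply hinv
      have h4 : ((u⁻¹ : 𝓡.Vˣ) : K) = a⁻¹ := by
        have h5 : ((u : 𝓡.V) : K) = a := congrArg Subtype.val hu
        have h6 : ((u : 𝓡.V) : K) * ((u⁻¹ : 𝓡.Vˣ) : K) = 1 := by
          exact_mod_cast congrArg Subtype.val (u.mul_inv)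
        rw [h5] at h6
        exact eq_inv_of_mul_eq_one_right h6
      rw [← h4]
      exact Subtype.mem _
    exact (𝓡.algebraMap_mem _).mpr h3
  ord_red u hu hne D hD Q := 𝓡.div_red ⟨u, hu⟩ hne D hD Q

/-- Every Riemann–Roch space has an orthonormal basis. -/
theorem orthOn (D : Divisor K F) : 𝓡.toRed195.OrthOn (riemannRochSpace D) := by
  obtain ⟨n, b, hli, hmem, hspan, -⟩ := 𝓡.orthonormal D
  exact ⟨n, fun i => ((b i : 𝓡.O) : F), fun i => (b i).2, hmem, hspan.ge, hli⟩

/-- Upper semicontinuity `ℓ(D) ≤ ℓ(r_* D)`. -/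
theorem ell_le (D : Divisor K F) :
    @ell K F _ _ _ D ≤ @ell k Fk _ _ _ (Finsupp.mapDomain 𝓡.r D) := by
  have := 𝓡.ff1
  have := 𝓡.ff1k
  exact 𝓡.toRed195.ell_le_ell_mapDomain D (𝓡.orthOn D)

/-- Reduction of divisors preserves the degree. -/
theorem degree_mapDomain (D : Divisor K F) :
    Divisor.degree (Finsupp.mapDomain 𝓡.r D) = Divisor.degree D := by
  have := 𝓡.ff1
  have := 𝓡.ff1k
  exact 𝓡.toRed195.degree_mapDomain D

/-- The reduction of an integral element of `L(D)` lies in `L(r_* D)`. -/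
theorem red_mem_L (D : Divisor K F) {f : F} (hf : f ∈ 𝓡.O) (hfD : f ∈ riemannRochSpace D) :
    𝓡.red ⟨f, hf⟩ ∈ riemannRochSpace (Finsupp.mapDomain 𝓡.r D) := by
  have := 𝓡.ff1
  exact 𝓡.toRed195.redL_le D (𝓡.toRed195.red_mem_redL hf hfD)

/-- **Integral Riemann–Roch (LIFT).** -/
theorem exists_lift (D : Divisor K F) (hD : 2 * (genusFF k Fk : ℤ) - 2 < Divisor.degree D)
    {ψ : Fk} (hψ : ψ ∈ riemannRochSpace (Finsupp.mapDomain 𝓡.r D)) :
    ∃ (f : F) (hf : f ∈ 𝓡.O), f ∈ riemannRochSpace D ∧ 𝓡.red ⟨f, hf⟩ = ψ := by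
  have := 𝓡.ff1
  have := 𝓡.ff1k
  have h := 𝓡.toRed195.redL_eq (le_of_eq 𝓡.genus_eq) D hD (𝓡.orthOn D)
  have hψ' : ψ ∈ 𝓡.toRed195.redL D := by
    rw [h]; exact hψ
  exact hψ'

end GoodRed

end Fermat.Agent.A3.H799

end
end
-- ===== PACK-END A3/H799/Red195.lean

-- ===== PACK-BEGIN A3/H255/Coord.lean
section




/-!
# A3 / LOCAL, leaf COORD (helper255): the kernel of reduction is the polydisc `(𝔪_V)^g`

`coordStatement : CoordStatement K F k Fk` (frozen leaf of `A3/H799/LocalSpec.lean`).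

Proof.  Let `E = polyDiv d 0`, `Ē = Σ Q_i = r_* E`, `ℓ_k(Ē) = 1`.
* existence: `x = [D₀]`, `r_* D₀ = div φ`.  Riemann on `F` gives `f ≠ 0` in `L(D₀ + E)`
  (`deg = g`, equal genus); normalise `f` by `gauss`; then `D' = D₀ + E + div f ≥ 0` and
  `r_* D' = Ē + div (φ · red f)` is effective, so `φ · red f ∈ L_k(Ē) = k`, `r_* D' = Ē`.  Hence
  over every `Q_i` there is a point `P_i` of `D'`; `D' - Σ P_i ≥ 0` has degree `0`, so
  `D' = Σ P_i`, and `P_i = pt_i (z_i)` by `pt_surj`.
* uniqueness: semicontinuity `ℓ(D) ≤ ℓ_k(r_* D)` (from `orthonormal` + `div_red`) gives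
  `ℓ(polyDiv d z) = 1`, so linearly equivalent polydisc divisors are equal; `pt_i` is injective
  by `ev_spec` for the parameter `t`.
* the converse is `r_* (polyDiv d z - polyDiv d 0) = 0`.

All proofs complete.
-/

set_option autoImplicit false
set_option linter.style.haveILetI false

noncomputable section

open AlgebraicCurve

namespace Fermat.Agent.A3.H255

open Fermat.Agent.Lib.RR Fermat.Agent.A3.H799

/-! ### Generalities on `Finsupp.mapDomain` -/

section MapDomain

variable {α β : Type*}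

open scoped Classical in
theorem mapDomain_apply_eq_sum (r : α → β) (D : α →₀ ℤ) (b : β) :
    Finsupp.mapDomain r D b = ∑ a ∈ D.support, if r a = b then D a else 0 := by
  rw [Finsupp.mapDomain, Finsupp.sum_apply, Finsupp.sum]
  refine Finset.sum_congr rfl fun a _ => ?_
  rw [Finsupp.single_apply]

theorem mapDomain_nonneg (r : α → β) {D : α →₀ ℤ} (hD : 0 ≤ D) :
    0 ≤ Finsupp.mapDomain r D := by
  classical
  rw [Finsupp.le_def]
  intro b
  rw [mapDomain_apply_eq_sum]
  refine Finset.sum_nonneg fun a _ => ?_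
  have := Finsupp.le_def.mp hD a
  split_ifs
  · simpa using this
  · exact le_rfl

theorem exists_of_mapDomain_ne_zero (r : α → β) {D : α →₀ ℤ} {b : β}
    (h : Finsupp.mapDomain r D b ≠ 0) : ∃ a, r a = b ∧ D a ≠ 0 := by
  classical
  by_contra hcon
  push Not at hcon
  apply h
  rw [mapDomain_apply_eq_sum]
  refine Finset.sum_eq_zero fun a _ => ?_
  split_ifs with hab
  · exact hcon a hab
  · rfl

theorem mapDomain_sub' (r : α → β) (D D' : α →₀ ℤ) :
    Finsupp.mapDomain r (D - D') = Finsupp.mapDomain r D - Finsupp.mapDomain r D' := by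
  rw [← Finsupp.mapDomain.addMonoidHom_apply, map_sub, Finsupp.mapDomain.addMonoidHom_apply,
    Finsupp.mapDomain.addMonoidHom_apply]

theorem mapDomain_sum_single {ι : Type*} [Fintype ι] (r : α → β) (P : ι → α) :
    Finsupp.mapDomain r (∑ i, Finsupp.single (P i) (1 : ℤ)) =
      ∑ i, Finsupp.single (r (P i)) (1 : ℤ) := by
  rw [Finsupp.mapDomain_finsetSum]
  refine Finset.sum_congr rfl fun i _ => ?_
  rw [Finsupp.mapDomain_single]

theorem sum_single_apply_of_injective {ι : Type*} [Fintype ι] {P : ι → α}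
    (hP : Function.Injective P) (i : ι) :
    (∑ j, Finsupp.single (P j) (1 : ℤ)) (P i) = 1 := by
  classical
  rw [Finsupp.finsetSum_apply]
  simp only [Finsupp.single_apply]
  rw [Finset.sum_eq_single i]
  · simp
  · intro j _ hji
    rw [if_neg]
    exact fun h => hji (hP h)
  · intro h
    exact absurd (Finset.mem_univ i) h

theorem sum_single_apply_of_forall_ne {ι : Type*} [Fintype ι] {P : ι → α} {a : α}
    (h : ∀ i, P i ≠ a) : (∑ j, Finsupp.single (P j) (1 : ℤ)) a = 0 := by
  classical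
  rw [Finsupp.finsetSum_apply]
  refine Finset.sum_eq_zero fun j _ => ?_
  rw [Finsupp.single_apply, if_neg (h j)]

theorem sum_single_nonneg {ι : Type*} [Fintype ι] (P : ι → α) :
    (0 : α →₀ ℤ) ≤ ∑ j, Finsupp.single (P j) (1 : ℤ) := by
  classical
  rw [Finsupp.le_def]
  intro a
  rw [Finsupp.finsetSum_apply]
  refine Finset.sum_nonneg fun j _ => ?_
  rw [Finsupp.single_apply]
  split_ifs <;> simp

theorem one_le_sum_single_apply {ι : Type*} [Fintype ι] (P : ι → α) (i : ι) :
    1 ≤ (∑ j, Finsupp.single (P j) (1 : ℤ)) (P i) := by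
  classical
  rw [Finsupp.finsetSum_apply]
  have h1 : (Finsupp.single (P i) (1 : ℤ)) (P i) ≤
      ∑ j, (Finsupp.single (P j) (1 : ℤ)) (P i) := by
    refine Finset.single_le_sum (f := fun j => (Finsupp.single (P j) (1 : ℤ)) (P i))
      (fun j _ => ?_) (Finset.mem_univ i)
    show 0 ≤ (Finsupp.single (P j) (1 : ℤ)) (P i)
    rw [Finsupp.single_apply]
    split_ifs <;> simp
  simpa using h1

end MapDomain

variable {K F k Fk : Type*} [Field K] [Field F] [Algebra K F] [Field k] [Field Fk] [Algebra k Fk]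

/-! ### Divisors of degree zero -/

/-- An effective divisor of degree `0` is `0`. -/
theorem eq_zero_of_nonneg_of_degree_eq_zero [FF1 K F] {D : Divisor K F} (hD : 0 ≤ D)
    (hdeg : Divisor.degree D = 0) : D = 0 := by
  rw [degree_eq_sum] at hdeg
  have h0 : ∀ v ∈ D.support, D v * (v.deg : ℤ) = 0 := by
    refine (Finset.sum_eq_zero_iff_of_nonneg fun v _ => ?_).mp hdeg
    have := Finsupp.le_def.mp hD v
    rw [deg_eq_one v]
    simpa using this
  ext v
  by_cases hv : v ∈ D.support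
  · have := h0 v hv
    rw [deg_eq_one v] at this
    simpa using this
  · simpa using Finsupp.notMem_support_iff.mp hv

theorem degree_sum_single [FF1 K F] {ι : Type*} [Fintype ι] (P : ι → Place K F) :
    Divisor.degree (∑ i, Finsupp.single (P i) (1 : ℤ)) = Fintype.card ι := by
  rw [map_sum]
  simp only [Divisor.degree_single, deg_eq_one, Nat.cast_one, mul_one]
  simp

/-! ### Reduction of principal divisors and semicontinuity -/

/-- Push-forward of the divisor of a function of norm one. -/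
theorem mapDomain_divOf (𝓡 : GoodRed K F k Fk) (f : 𝓡.O) (hred : 𝓡.red f ≠ 0)
    (D : Divisor K F) (hD : ∀ P : Place K F, D P = P.ord (f : F)) (Q : Place k Fk) :
    Finsupp.mapDomain 𝓡.r D Q = Q.ord (𝓡.red f) :=
  𝓡.div_red f hred D hD Q

/-- If `f ∈ L(D)` has norm one, then `red f ∈ L_k(r_* D)`. -/
theorem red_mem_L (𝓡 : GoodRed K F k Fk) (D : Divisor K F) (f : 𝓡.O) (hred : 𝓡.red f ≠ 0)
    (hf : (f : F) ∈ riemannRochSpace D) :
    𝓡.red f ∈ riemannRochSpace (Finsupp.mapDomain 𝓡.r D) := by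
  haveI := 𝓡.ff1
  have hf0 : (f : F) ≠ 0 := by
    intro h
    apply hred
    have : f = 0 := Subtype.ext h
    rw [this, map_zero]
  rw [mem_L_iff]
  intro Q
  right
  have h1 := mapDomain_divOf 𝓡 f hred (divOf (K := K) (f : F) hf0)
    (fun P => divOf_apply _ _ P) Q
  have h2 : (0 : Divisor K F) ≤ D + divOf (K := K) (f : F) hf0 := by
    rw [Finsupp.le_def]
    intro P
    have := (mem_L_iff.mp hf P).resolve_left hf0
    simp only [Finsupp.coe_zero, Pi.zero_apply, Finsupp.coe_add, Pi.add_apply, divOf_apply]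
    omega
  have h3 := Finsupp.le_def.mp (mapDomain_nonneg 𝓡.r h2) Q
  rw [Finsupp.mapDomain_add] at h3
  simp only [Finsupp.coe_zero, Pi.zero_apply, Finsupp.coe_add, Pi.add_apply] at h3
  omega

/-- **Semicontinuity**: `ℓ(D) ≤ ℓ_k(r_* D)`. -/
theorem ell_le_ell_mapDomain (𝓡 : GoodRed K F k Fk) (D : Divisor K F) :
    ell D ≤ ell (Finsupp.mapDomain 𝓡.r D) := by
  haveI := 𝓡.ff1
  haveI := 𝓡.ff1k
  obtain ⟨n, b, hli, hmem, hspan, -⟩ := 𝓡.orthonormal D
  have h1 : ell D ≤ n := by
    unfold ell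
    rw [← hspan]
    have := finrank_range_le_card (R := K) (fun i => ((b i : 𝓡.O) : F))
    simpa [Set.finrank] using this
  have h2 : n ≤ ell (Finsupp.mapDomain 𝓡.r D) := by
    have hmemk : ∀ i, 𝓡.red (b i) ∈ riemannRochSpace (Finsupp.mapDomain 𝓡.r D) :=
      fun i => red_mem_L 𝓡 D (b i) (hli.ne_zero i) (hmem i)
    let c : Fin n → riemannRochSpace (Finsupp.mapDomain 𝓡.r D) :=
      fun i => ⟨𝓡.red (b i), hmemk i⟩
    have hc : LinearIndependent k c := by
      apply LinearIndependent.of_comp (riemannRochSpace (Finsupp.mapDomain 𝓡.r D)).subtype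
      exact hli
    have := hc.fintype_card_le_finrank
    simpa [ell] using this
  exact h1.trans h2

/-! ### The polydisc divisors -/

section Poly

variable {𝓡 : GoodRed K F k Fk} {ι : Type*} [Fintype ι] {Qs : ι → Place k Fk}

theorem mapDomain_polyDiv (d : ∀ i, DiscData 𝓡 (Qs i))
    (z : ι → IsLocalRing.maximalIdeal 𝓡.V) :
    Finsupp.mapDomain 𝓡.r (polyDiv d z) = ∑ i, Finsupp.single (Qs i) (1 : ℤ) := by
  unfold polyDiv
  rw [mapDomain_sum_single]
  refine Finset.sum_congr rfl fun i _ => ?_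
  rw [(d i).r_pt]

theorem polyDiv_nonneg (d : ∀ i, DiscData 𝓡 (Qs i))
    (z : ι → IsLocalRing.maximalIdeal 𝓡.V) : 0 ≤ polyDiv d z :=
  sum_single_nonneg _

theorem degree_polyDiv (d : ∀ i, DiscData 𝓡 (Qs i))
    (z : ι → IsLocalRing.maximalIdeal 𝓡.V) :
    Divisor.degree (polyDiv d z) = Fintype.card ι := by
  haveI := 𝓡.ff1
  exact degree_sum_single _

/-- The points of a disc are determined by their parameter values. -/
theorem pt_injective {Q : Place k Fk} (d : DiscData 𝓡 Q) : Function.Injective d.pt := by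
  intro a a' h
  have h1 := d.ev_spec a d.D.t
  have h2 := d.ev_spec a' d.D.t
  rw [d.D.ev_t] at h1 h2
  rw [← h] at h2
  have b1 : H623.Big (d.pt a) 1 (((d.D.t : d.ring) : F) - algebraMap K F ((a : 𝓡.V) : K)) := by
    rcases h1 with h1 | h1
    · left; rw [h1, sub_self]
    · exact Or.inr h1
  have b2 : H623.Big (d.pt a) 1 (((d.D.t : d.ring) : F) - algebraMap K F ((a' : 𝓡.V) : K)) := by
    rcases h2 with h2 | h2
    · left; rw [h2, sub_self]
    · exact Or.inr h2
  have b3 := b2.sub b1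
  have e : ((d.D.t : d.ring) : F) - algebraMap K F ((a' : 𝓡.V) : K) -
      (((d.D.t : d.ring) : F) - algebraMap K F ((a : 𝓡.V) : K)) =
      algebraMap K F (((a : 𝓡.V) : K) - ((a' : 𝓡.V) : K)) := by
    rw [map_sub]; ring
  rw [e] at b3
  rcases b3 with h0 | h0
  · have : ((a : 𝓡.V) : K) - ((a' : 𝓡.V) : K) = 0 :=
      (map_eq_zero (algebraMap K F)).mp h0
    exact Subtype.ext (Subtype.ext (sub_eq_zero.mp this))
  · rw [ord_algebraMap] at h0
    omega

/-- Equal polydisc divisors have equal parameters. -/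
theorem polyDiv_injective (hQs : Function.Injective Qs) (d : ∀ i, DiscData 𝓡 (Qs i))
    {z z' : ι → IsLocalRing.maximalIdeal 𝓡.V} (h : polyDiv d z = polyDiv d z') : z = z' := by
  funext i
  apply pt_injective (d i)
  by_contra hne
  have h1 : 1 ≤ (polyDiv d z) ((d i).pt (z i)) :=
    one_le_sum_single_apply (fun j => (d j).pt (z j)) i
  have h2 : (polyDiv d z') ((d i).pt (z i)) = 0 := by
    apply sum_single_apply_of_forall_ne
    intro j hj
    have hr : Qs j = Qs i := by rw [← (d j).r_pt (z' j), hj, (d i).r_pt]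
    have hji : j = i := hQs hr
    subst hji
    exact hne hj.symm
  rw [h, h2] at h1
  omega

end Poly

/-! ### The leaf -/

section Leaf

variable (𝓡 : GoodRed K F k Fk) (Qs : Fin (genusFF k Fk) → Place k Fk)
  (hQs : Function.Injective Qs)
  (hell : @Lib.RR.ell k Fk _ _ _ (∑ i, Finsupp.single (Qs i) (1 : ℤ)) = 1)
  (d : ∀ i, DiscData 𝓡 (Qs i))

include hell in
/-- `ℓ(polyDiv d z) = 1`. -/
theorem ell_polyDiv (z : Fin (genusFF k Fk) → IsLocalRing.maximalIdeal 𝓡.V) :
    ell (polyDiv d z) = 1 := by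
  haveI := 𝓡.ff1
  have h1 := ell_le_ell_mapDomain 𝓡 (polyDiv d z)
  rw [_root_.Fermat.Agent.A3.H255.mapDomain_polyDiv, hell] at h1
  have h2 : ell (0 : Divisor K F) ≤ ell (polyDiv d z) := ell_mono (_root_.Fermat.Agent.A3.H255.polyDiv_nonneg d z)
  rw [ell_zero] at h2
  omega

/-- The converse direction: polydisc classes lie in the kernel of reduction. -/
theorem mem_kerRed_of_polyDiv (z : Fin (genusFF k Fk) → IsLocalRing.maximalIdeal 𝓡.V)
    (D : Divisor.degZero (K := K) (F := F))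
    (hD : (D : Divisor K F) = polyDiv d z - polyDiv d 0) : Pic0.mk D ∈ 𝓡.kerRed := by
  refine ⟨D, rfl, ?_⟩
  rw [hD, mapDomain_sub', _root_.Fermat.Agent.A3.H255.mapDomain_polyDiv, _root_.Fermat.Agent.A3.H255.mapDomain_polyDiv, sub_self]
  exact zero_mem _

include hQs hell in
/-- Uniqueness of the polydisc point. -/
theorem polyDiv_unique {z z' : Fin (genusFF k Fk) → IsLocalRing.maximalIdeal 𝓡.V}
    (h : polyDiv d z' - polyDiv d z ∈ Divisor.principal (K := K) (F := F)) : z = z' := by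
  haveI := 𝓡.ff1
  obtain ⟨u, hu0, hu⟩ := h
  have huL : u ∈ riemannRochSpace (polyDiv d z) := by
    rw [mem_L_iff]
    intro P
    right
    have h1 := hu P
    have h2 := Finsupp.le_def.mp (_root_.Fermat.Agent.A3.H255.polyDiv_nonneg d z') P
    simp only [Finsupp.coe_sub, Pi.sub_apply, Finsupp.coe_zero, Pi.zero_apply] at h1 h2
    omega
  have hL := H638.L_eq_range_of_ell_eq_one (_root_.Fermat.Agent.A3.H255.polyDiv_nonneg d z) (ell_polyDiv 𝓡 Qs hell d z)
  rw [hL] at huL
  obtain ⟨c, hc⟩ := huL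
  have hc' : u = algebraMap K F c := hc.symm
  apply polyDiv_injective hQs d
  ext P
  have h1 := hu P
  rw [hc', ord_algebraMap] at h1
  simp only [Finsupp.coe_sub, Pi.sub_apply] at h1
  omega

include hQs hell in
/-- Existence of the polydisc point. -/
theorem exists_polyDiv (x : Pic0 K F) (hx : x ∈ 𝓡.kerRed) :
    ∃ z : Fin (genusFF k Fk) → IsLocalRing.maximalIdeal 𝓡.V,
      ∃ D : Divisor.degZero (K := K) (F := F),
        (D : Divisor K F) = polyDiv d z - polyDiv d 0 ∧ Pic0.mk D = x := by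
  haveI := 𝓡.ff1
  haveI := 𝓡.ff1k
  obtain ⟨D₀, rfl, φ, hφ0, hφ⟩ := hx
  have hD₀ : Divisor.degree (D₀ : Divisor K F) = 0 := D₀.2
  -- a nonzero function in `L(D₀ + E)`
  have hdeg : (genusFF K F : ℤ) ≤ Divisor.degree ((D₀ : Divisor K F) + polyDiv d 0) := by
    rw [map_add, hD₀, degree_polyDiv, 𝓡.genus_eq]
    simp
  have h1 := riemann_inequality_genusFF (K := K) (F := F) ((D₀ : Divisor K F) + polyDiv d 0)
  have hpos : 0 < Module.finrank K (riemannRochSpace ((D₀ : Divisor K F) + polyDiv d 0)) := by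
    have h2 : Module.finrank K (riemannRochSpace ((D₀ : Divisor K F) + polyDiv d 0)) =
        ell ((D₀ : Divisor K F) + polyDiv d 0) := rfl
    have : (0 : ℤ) < (ell ((D₀ : Divisor K F) + polyDiv d 0) : ℤ) := by omega
    rw [h2]
    exact_mod_cast this
  obtain ⟨f₀, hf₀⟩ := Module.finrank_pos_iff_exists_ne_zero.mp hpos
  have hf₀F : (f₀ : F) ≠ 0 := fun h => hf₀ (Subtype.ext h)
  -- normalise
  obtain ⟨a, ha0, hmem, hred⟩ := 𝓡.gauss (f₀ : F) hf₀F
  have haF : algebraMap K F a ≠ 0 := (map_ne_zero (algebraMap K F)).mpr ha0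
  have hf0 : algebraMap K F a * (f₀ : F) ≠ 0 := mul_ne_zero haF hf₀F
  have hord : ∀ P : Place K F, P.ord (algebraMap K F a * (f₀ : F)) = P.ord (f₀ : F) := by
    intro P
    rw [P.ord_mul haF hf₀F, ord_algebraMap, zero_add]
  set Df : Divisor K F := divOf (K := K) (algebraMap K F a * (f₀ : F)) hf0 with hDf
  set D' : Divisor K F := (D₀ : Divisor K F) + polyDiv d 0 + Df with hD'
  have hD'0 : 0 ≤ D' := by
    rw [Finsupp.le_def]
    intro P
    have := (mem_L_iff.mp f₀.2 P).resolve_left hf₀F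
    simp only [hD', hDf, Finsupp.coe_zero, Pi.zero_apply, Finsupp.coe_add, Pi.add_apply,
      divOf_apply, hord] at this ⊢
    omega
  have hrDf : ∀ Q : Place k Fk, Finsupp.mapDomain 𝓡.r Df Q =
      Q.ord (𝓡.red ⟨algebraMap K F a * (f₀ : F), hmem⟩) :=
    fun Q => mapDomain_divOf 𝓡 ⟨_, hmem⟩ hred Df (fun P => divOf_apply _ _ P) Q
  have hrD' : ∀ Q : Place k Fk, Finsupp.mapDomain 𝓡.r D' Q =
      Q.ord φ + (∑ i, Finsupp.single (Qs i) (1 : ℤ)) Q +
        Q.ord (𝓡.red ⟨algebraMap K F a * (f₀ : F), hmem⟩) := by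
    intro Q
    rw [hD', Finsupp.mapDomain_add, Finsupp.mapDomain_add, _root_.Fermat.Agent.A3.H255.mapDomain_polyDiv]
    simp only [Finsupp.coe_add, Pi.add_apply]
    rw [hrDf Q, hφ Q]
  -- `φ · red f` is a constant
  have hcL : φ * 𝓡.red ⟨algebraMap K F a * (f₀ : F), hmem⟩ ∈
      riemannRochSpace (∑ i, Finsupp.single (Qs i) (1 : ℤ)) := by
    rw [mem_L_iff]
    intro Q
    right
    rw [Q.ord_mul hφ0 hred]
    have h3 := Finsupp.le_def.mp (mapDomain_nonneg 𝓡.r hD'0) Q
    rw [hrD' Q] at h3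
    simp only [Finsupp.coe_zero, Pi.zero_apply] at h3
    omega
  rw [H638.L_eq_range_of_ell_eq_one (sum_single_nonneg _) hell] at hcL
  obtain ⟨c, hc⟩ := hcL
  have hc0 : c ≠ 0 := by
    intro h0
    have hc' : algebraMap k Fk c = φ * 𝓡.red ⟨algebraMap K F a * (f₀ : F), hmem⟩ := hc
    rw [h0, map_zero] at hc'
    exact mul_ne_zero hφ0 hred hc'.symm
  have hsum0 : ∀ Q : Place k Fk,
      Q.ord φ + Q.ord (𝓡.red ⟨algebraMap K F a * (f₀ : F), hmem⟩) = 0 := by
    intro Q
    rw [← Q.ord_mul hφ0 hred]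
    have hc' : algebraMap k Fk c = φ * 𝓡.red ⟨algebraMap K F a * (f₀ : F), hmem⟩ := hc
    rw [← hc', ord_algebraMap]
  -- a point of `D'` over every `Q_i`
  have hP : ∀ i, ∃ P : Place K F, 𝓡.r P = Qs i ∧ 1 ≤ D' P := by
    intro i
    have h3 : Finsupp.mapDomain 𝓡.r D' (Qs i) ≠ 0 := by
      rw [hrD' (Qs i)]
      have := one_le_sum_single_apply Qs i
      have := hsum0 (Qs i)
      omega
    obtain ⟨P, hP1, hP2⟩ := exists_of_mapDomain_ne_zero 𝓡.r h3
    refine ⟨P, hP1, ?_⟩
    have := Finsupp.le_def.mp hD'0 P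
    simp only [Finsupp.coe_zero, Pi.zero_apply] at this
    omega
  choose P hPr hPD using hP
  have hPinj : Function.Injective P := fun i j h => hQs (by rw [← hPr i, ← hPr j, h])
  -- `D' = Σ P_i`
  have hD'eq : D' = ∑ i, Finsupp.single (P i) (1 : ℤ) := by
    have hnn : 0 ≤ D' - ∑ i, Finsupp.single (P i) (1 : ℤ) := by
      rw [Finsupp.le_def]
      intro P'
      simp only [Finsupp.coe_zero, Pi.zero_apply, Finsupp.coe_sub, Pi.sub_apply]
      by_cases hex : ∃ i, P i = P'
      · obtain ⟨i, rfl⟩ := hex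
        rw [sum_single_apply_of_injective hPinj i]
        have := hPD i
        omega
      · push Not at hex
        rw [sum_single_apply_of_forall_ne hex]
        have := Finsupp.le_def.mp hD'0 P'
        simpa using this
    have hdeg0 : Divisor.degree (D' - ∑ i, Finsupp.single (P i) (1 : ℤ)) = 0 := by
      rw [map_sub, degree_sum_single, hD', map_add, map_add, hD₀, degree_polyDiv, hDf,
        degree_divOf]
      simp
    have := eq_zero_of_nonneg_of_degree_eq_zero hnn hdeg0
    exact sub_eq_zero.mp this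
  -- the parameters
  have hz : ∀ i, ∃ b, (d i).pt b = P i := fun i => (d i).pt_surj (P i) (hPr i)
  choose z hz using hz
  have hpoly : polyDiv d z = D' := by
    rw [hD'eq]
    unfold polyDiv
    refine Finset.sum_congr rfl fun i _ => ?_
    rw [hz i]
  have hdegz : Divisor.degree (polyDiv d z - polyDiv d 0) = 0 := by
    rw [map_sub, degree_polyDiv, degree_polyDiv, sub_self]
  refine ⟨z, ⟨polyDiv d z - polyDiv d 0, hdegz⟩, rfl, ?_⟩
  -- the class
  show (QuotientAddGroup.mk _ : Pic0 K F) = QuotientAddGroup.mk _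
  rw [QuotientAddGroup.eq, AddSubgroup.mem_addSubgroupOf]
  refine ⟨(algebraMap K F a * (f₀ : F))⁻¹, inv_ne_zero hf0, fun v => ?_⟩
  rw [v.ord_inv]
  have e : (((-(⟨polyDiv d z - polyDiv d 0, hdegz⟩ : Divisor.degZero (K := K) (F := F)) + D₀ :
      Divisor.degZero (K := K) (F := F)) : Divisor K F)) =
      -(polyDiv d z - polyDiv d 0) + (D₀ : Divisor K F) := rfl
  rw [e, hpoly, hD']
  simp only [Finsupp.coe_add, Finsupp.coe_neg, Finsupp.coe_sub, Pi.add_apply, Pi.neg_apply,
    Pi.sub_apply, hDf, divOf_apply]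
  ring

end Leaf

/-- **COORD**: the frozen leaf `CoordStatement` of `A3/H799/LocalSpec.lean`. -/
theorem coordStatement : CoordStatement K F k Fk := by
  intro 𝓡 Qs hQs hell d
  refine ⟨fun x hx => ?_, fun z D hD => mem_kerRed_of_polyDiv 𝓡 Qs d z D hD⟩
  obtain ⟨z, D, hD, hDx⟩ := exists_polyDiv 𝓡 Qs hQs hell d x hx
  refine ⟨z, ⟨D, hD, hDx⟩, ?_⟩
  rintro z' ⟨D', hD', hD'x⟩
  symm
  apply polyDiv_unique 𝓡 Qs hQs hell d
  -- `D' - D` is principal
  have h1 : Pic0.mk D = Pic0.mk D' := by rw [hDx, hD'x]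
  have h2 : (QuotientAddGroup.mk D : Pic0 K F) = QuotientAddGroup.mk D' := h1
  rw [QuotientAddGroup.eq, AddSubgroup.mem_addSubgroupOf] at h2
  have e : ((-D + D' : Divisor.degZero (K := K) (F := F)) : Divisor K F) =
      polyDiv d z' - polyDiv d z := by
    show -(D : Divisor K F) + (D' : Divisor K F) = _
    rw [hD, hD']
    abel
  rwa [e] at h2

end Fermat.Agent.A3.H255

end
end
-- ===== PACK-END A3/H255/Coord.lean

-- ===== PACK-BEGIN S19/H255/NSP.lean
section



/-!
# Cell A3 / S19, piece D5 = NSP (helper255): the special fibre — corollaries of Riemann–Roch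

All statements are for a function field `F/K` with `[FF1 K F]` (shared library `Lib/RR`), genus
`g = genusFF K F`; `K` infinite where generic choices are made (e.g. `K` algebraically closed).
In cell A3 they are applied to the special fibre `Fk / kbar` (and to `F / Qbar`).

* `isRiemannGenus_genusFF`      : `genusFF` is the genus of Riemann's theorem.
* `exists_reduced_nonspecial`   : **D5(a)** for every finite set `S` of places there are `g` DISTINCT
                                  places `Q₁, …, Q_g ∉ S` with `ℓ(Q₁ + ⋯ + Q_g) = 1`.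
* `exists_ne_zero_mem_L`        : **D5(b)** `deg D ≥ g ⇒ L(D) ≠ 0` (every class of degree `≥ g` is
                                  effective); `exists_effective`: the effective divisor.
* `eq_smul_of_ell_eq_one`, `ord_eq_of_ell_eq_one` : if `ℓ(D) = 1` the effective divisor of the
                                  class of `D` is unique.
* `ell_sub_eq_degree`           : `E ≥ 0`, `deg (B - E) > 2g - 2 ⇒ ℓ(B) - ℓ(B - E) = deg E`
                                  (jets at `E` are independent conditions on `L(B)`).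
* `exists_bpfPencil_avoiding`   : **D5(c)** `deg D ≥ 2g ⇒` there are `s₁, s₂ ∈ L(D)` whose residual
                                  divisors `div sᵢ + D` are disjoint and avoid a given finite set.
* `exists_of_cross_eq`          : **D5(d)** for such a pencil, `b₁ s₂ = b₂ s₁` with `bᵢ ∈ L(E)`
                                  forces `(b₁, b₂) = h • (s₁, s₂)` with `h ∈ L(E - D)`.
* `cross_ker_line`              : hence, if `ℓ(E - D) = 1` (non-special), the solutions of the
                                  cross system form a line spanned by `(h₀ s₁, h₀ s₂)`.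

All proofs complete.
-/

set_option autoImplicit false
set_option linter.style.haveILetI false

noncomputable section

open AlgebraicCurve

namespace Fermat.Agent.S19.H255

open Fermat.Agent.Lib.RR

variable {K F : Type*} [Field K] [Field F] [Algebra K F]

/-- `genusFF` is the genus of Riemann's theorem. -/
theorem isRiemannGenus_genusFF [FF1 K F] : H638.IsRiemannGenus K F (genusFF K F) := by
  rw [genusFF_eq_genusR]
  exact exists_degree_bound (K := K) (F := F)

/-- **D5(a)**: reduced non-special effective divisors of degree `g` avoiding a finite set. -/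
theorem exists_reduced_nonspecial [FF1 K F] [Infinite K] (S : Finset (Place K F)) :
    ∃ T : Finset (Place K F), T.card = genusFF K F ∧ Disjoint T S ∧ ell (H638.divT T) = 1 := by
  haveI : Infinite (Place K F) := H638.infinite_place
  exact H638.exists_nonspecial isRiemannGenus_genusFF S (genusFF K F) le_rfl

/-- **D5(b)**: `L(D) ≠ 0` as soon as `deg D ≥ g`. -/
theorem exists_ne_zero_mem_L [FF1 K F] {D : Divisor K F}
    (hD : (genusFF K F : ℤ) ≤ Divisor.degree D) :
    ∃ f : F, f ≠ 0 ∧ f ∈ riemannRochSpace D := by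
  have h1 := riemann_inequality_genusFF (K := K) (F := F) D
  have hpos : 0 < Module.finrank K (riemannRochSpace D) := by
    have h2 : Module.finrank K (riemannRochSpace D) = ell D := rfl
    have : (0 : ℤ) < (ell D : ℤ) := by omega
    rw [h2]
    exact_mod_cast this
  obtain ⟨x, hx⟩ := Module.finrank_pos_iff_exists_ne_zero.mp hpos
  exact ⟨x, fun h => hx (Subtype.ext h), x.2⟩

/-- **D5(b)**, divisor form: every divisor of degree `≥ g` is linearly equivalent to an
effective one. -/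
theorem exists_effective [FF1 K F] {D : Divisor K F}
    (hD : (genusFF K F : ℤ) ≤ Divisor.degree D) :
    ∃ (f : F) (hf : f ≠ 0), 0 ≤ D + divOf (K := K) f hf := by
  obtain ⟨f, hf, hfD⟩ := exists_ne_zero_mem_L hD
  refine ⟨f, hf, ?_⟩
  rw [Finsupp.le_def]
  intro v
  have := (mem_L_iff.mp hfD v).resolve_left hf
  simp only [Finsupp.coe_zero, Pi.zero_apply, Finsupp.coe_add, Pi.add_apply, divOf_apply]
  omega

/-- If `ℓ(D) = 1`, any two nonzero elements of `L(D)` are proportional. -/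
theorem eq_smul_of_ell_eq_one [FF1 K F] {D : Divisor K F} (hD : ell D = 1) {f g : F}
    (hf : f ≠ 0) (hfD : f ∈ riemannRochSpace D) (hgD : g ∈ riemannRochSpace D) :
    ∃ c : K, g = algebraMap K F c * f := by
  have h1 : Module.finrank K (riemannRochSpace D) = 1 := hD
  have hf' : (⟨f, hfD⟩ : riemannRochSpace D) ≠ 0 := fun h => hf (congrArg Subtype.val h)
  obtain ⟨c, hc⟩ := (finrank_eq_one_iff_of_nonzero' (⟨f, hfD⟩ : riemannRochSpace D) hf').mp h1
    ⟨g, hgD⟩
  refine ⟨c, ?_⟩
  have := congrArg Subtype.val hc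
  simp only [Submodule.coe_smul] at this
  rw [← this, Algebra.smul_def]

/-- If `ℓ(D) = 1`, the effective divisor in the class of `D` is unique: any two nonzero elements
of `L(D)` have the same divisor. -/
theorem ord_eq_of_ell_eq_one [FF1 K F] {D : Divisor K F} (hD : ell D = 1) {f g : F}
    (hf : f ≠ 0) (hg : g ≠ 0) (hfD : f ∈ riemannRochSpace D) (hgD : g ∈ riemannRochSpace D)
    (v : Place K F) : v.ord g = v.ord f := by
  obtain ⟨c, rfl⟩ := eq_smul_of_ell_eq_one hD hf hfD hgD
  have hc : algebraMap K F c ≠ 0 := fun h => hg (by rw [h, zero_mul])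
  rw [v.ord_mul hc hf, ord_algebraMap, zero_add]

/-- Independence of conditions: for `E ≥ 0` and `deg (B - E) > 2g - 2`,
`ℓ(B) - ℓ(B - E) = deg E`. -/
theorem ell_sub_eq_degree [FF1 K F] {B E : Divisor K F} (hE : 0 ≤ E)
    (h : 2 * (genusFF K F : ℤ) - 2 < Divisor.degree (B - E)) :
    (ell B : ℤ) - ell (B - E) = Divisor.degree E := by
  have h1 := ell_eq_of_degree_gt h
  have hE' : 0 ≤ Divisor.degree E := degree_nonneg hE
  have h2 : 2 * (genusFF K F : ℤ) - 2 < Divisor.degree B := by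
    rw [map_sub] at h
    omega
  have h3 := ell_eq_of_degree_gt h2
  rw [map_sub] at h1
  omega

/-- **D5(c)**: for `deg D ≥ 2g` there is a base-point-free pencil `s₁, s₂ ∈ L(D)` (residual
divisors `div sᵢ + D` disjoint), both of whose members avoid a given finite set `S` of places
(their residual divisors do not meet `S`). -/
theorem exists_bpfPencil_avoiding [FF1 K F] [Infinite K] {D : Divisor K F}
    (hD : 2 * (genusFF K F : ℤ) ≤ Divisor.degree D) (S : Finset (Place K F)) :
    ∃ s₁ s₂ : F, H259.IsBpfPencil D s₁ s₂ ∧ s₂ ≠ 0 ∧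
      (∀ v ∈ S, v.ord s₁ = - D v) ∧ (∀ v ∈ S, v.ord s₂ = - D v) := by
  classical
  have hell : (ell D : ℤ) = Divisor.degree D + 1 - (genusFF K F : ℤ) :=
    ell_eq_of_degree_gt (by omega)
  have hpos : 0 < Module.finrank K (riemannRochSpace D) := by
    have : Module.finrank K (riemannRochSpace D) = ell D := rfl
    omega
  haveI : Nontrivial (riemannRochSpace D) := Module.finrank_pos_iff.mp hpos
  let p : Place K F → Subspace K (riemannRochSpace D) := fun v =>
    (riemannRochSpace (D - prim v)).comap (riemannRochSpace D).subtype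
  have hp : ∀ v, p v ≠ ⊤ := by
    intro v htop
    have hle : riemannRochSpace D ≤ riemannRochSpace (D - prim v) := by
      intro f hf
      have : (⟨f, hf⟩ : riemannRochSpace D) ∈ p v := by rw [htop]; trivial
      exact this
    have h1 : ell D ≤ ell (D - prim v) := Submodule.finrank_mono hle
    have h2 : (ell (D - prim v) : ℤ) = Divisor.degree D - 1 + 1 - (genusFF K F : ℤ) := by
      have := ell_eq_of_degree_gt (D := D - prim v)
        (by rw [map_sub, degree_prim v (deg_eq_one v)]; omega)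
      rw [map_sub, degree_prim v (deg_eq_one v)] at this
      exact this
    omega
  -- an element outside finitely many of the hyperplanes `p v` and nonzero
  have key : ∀ S' : Finset (Place K F), ∃ x : riemannRochSpace D, x ≠ 0 ∧ ∀ v ∈ S', x ∉ p v := by
    intro S'
    have hnot : (⊤ : Subspace K (riemannRochSpace D)) ∉ insert ⊥ (S'.image p) := by
      intro hmem
      rcases Finset.mem_insert.mp hmem with h | h
      · exact top_ne_bot h
      · obtain ⟨v, -, hv⟩ := Finset.mem_image.mp h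
        exact hp v hv
    have hne := Subspace.biUnion_ne_univ_of_top_notMem hnot
    obtain ⟨x, hx⟩ : ∃ x : riemannRochSpace D,
        x ∉ ⋃ q ∈ insert ⊥ (S'.image p), (q : Set (riemannRochSpace D)) := by
      by_contra hcon
      simp only [not_exists, not_not] at hcon
      exact hne (Set.eq_univ_of_forall hcon)
    refine ⟨x, ?_, fun v hv hm => ?_⟩
    · intro h0
      apply hx
      refine Set.mem_biUnion (Finset.mem_insert_self _ _) ?_
      rw [h0]
      exact Submodule.zero_mem _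
    · exact hx (Set.mem_biUnion (Finset.mem_insert_of_mem (Finset.mem_image_of_mem p hv)) hm)
  -- an element of `L(D)` outside `p v` has order exactly `-D v` at `v`
  have hord : ∀ (x : riemannRochSpace D) (v : Place K F), x ≠ 0 → x ∉ p v →
      v.ord (x : F) = - D v := by
    intro x v hx0 hnm
    have hx0' : (x : F) ≠ 0 := fun h => hx0 (Subtype.ext h)
    have hmem := x.2
    rw [mem_L_iff] at hmem
    have hnm' : ¬ ((x : F) ∈ riemannRochSpace (D - prim v)) := hnm
    rw [mem_L_iff] at hnm'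
    simp only [not_forall, not_or, not_le] at hnm'
    obtain ⟨w, hw0, hw⟩ := hnm'
    have hwv : w = v := by
      by_contra hne'
      have h3 := (hmem w).resolve_left hw0
      simp only [Finsupp.coe_sub, Pi.sub_apply, prim_apply_of_ne hne'] at hw
      omega
    subst hwv
    have h3 := (hmem w).resolve_left hw0
    simp only [Finsupp.coe_sub, Pi.sub_apply, prim_apply_self] at hw
    omega
  obtain ⟨s₁, hs₁0, hs₁⟩ := key S
  have hs₁F : (s₁ : F) ≠ 0 := fun h => hs₁0 (Subtype.ext h)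
  let S₁ : Finset (Place K F) := (divOf (K := K) (s₁ : F) hs₁F + D).support
  have hS₁ : ∀ v ∉ S₁, v.ord (s₁ : F) = - D v := by
    intro v hv
    rw [Finsupp.notMem_support_iff] at hv
    simp only [Finsupp.coe_add, Pi.add_apply, divOf_apply] at hv
    omega
  obtain ⟨s₂, hs₂0, hs₂⟩ := key (S ∪ S₁)
  have hs₂F : (s₂ : F) ≠ 0 := fun h => hs₂0 (Subtype.ext h)
  refine ⟨s₁, s₂, ⟨s₁.2, s₂.2, hs₁F, fun v => ?_⟩, hs₂F, ?_, ?_⟩
  · by_cases hv : v ∈ S₁
    · right
      exact ⟨hs₂F, hord s₂ v hs₂0 (hs₂ v (Finset.mem_union_right _ hv))⟩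
    · left
      exact hS₁ v hv
  · intro v hv
    exact hord s₁ v hs₁0 (hs₁ v hv)
  · intro v hv
    exact hord s₂ v hs₂0 (hs₂ v (Finset.mem_union_left _ hv))

/-- **D5(d)**: the cross system of a base-point-free pencil.  If `s₁, s₂` is a base-point-free
pencil of `L(D)` and `b₁, b₂ ∈ L(E)` satisfy `b₁ s₂ = b₂ s₁`, then `(b₁, b₂) = h • (s₁, s₂)` with
`h ∈ L(E - D)`. -/
theorem exists_of_cross_eq {D E : Divisor K F} {s₁ s₂ b₁ b₂ : F} (h : H259.IsBpfPencil D s₁ s₂)
    (hb₁ : b₁ ∈ riemannRochSpace E) (hb₂ : b₂ ∈ riemannRochSpace E)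
    (hcross : b₁ * s₂ = b₂ * s₁) :
    ∃ c ∈ riemannRochSpace (E - D), b₁ = c * s₁ ∧ b₂ = c * s₂ := by
  have hs₁ := h.ne_zero
  have e1 : b₁ = b₁ / s₁ * s₁ := by field_simp
  have e2 : b₂ = b₁ / s₁ * s₂ := by
    have : b₂ * s₁ = b₁ / s₁ * s₂ * s₁ := by
      rw [← hcross]
      field_simp
    exact mul_right_cancel₀ hs₁ this
  refine ⟨b₁ / s₁, ?_, e1, e2⟩
  rw [mem_L_iff]
  intro v
  rcases eq_or_ne (b₁ / s₁) 0 with h0 | h0
  · exact Or.inl h0
  right
  rw [mem_L_iff] at hb₁ hb₂
  simp only [Finsupp.coe_sub, Pi.sub_apply]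
  rcases h.bpf v with hv | ⟨hs₂, hv⟩
  · have hb₁0 : b₁ ≠ 0 := by
      intro hb
      apply h0
      rw [hb, zero_div]
    have h3 := (hb₁ v).resolve_left hb₁0
    rw [e1, v.ord_mul h0 hs₁, hv] at h3
    omega
  · have hb₂0 : b₂ ≠ 0 := by
      rw [e2]
      exact mul_ne_zero h0 hs₂
    have h3 := (hb₂ v).resolve_left hb₂0
    rw [e2, v.ord_mul h0 hs₂, hv] at h3
    omega

/-- Converse of `exists_of_cross_eq`: multiples of the pencil by `L(E - D)` solve the cross
system and lie in `L(E)`. -/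
theorem cross_of_mem {D E : Divisor K F} {s₁ s₂ c : F} (h : H259.IsBpfPencil D s₁ s₂)
    (hc : c ∈ riemannRochSpace (E - D)) :
    c * s₁ ∈ riemannRochSpace E ∧ c * s₂ ∈ riemannRochSpace E ∧
      (c * s₁) * s₂ = (c * s₂) * s₁ := by
  have hsub : E - D + D = E := sub_add_cancel E D
  refine ⟨?_, ?_, by ring⟩
  · have := H259.mul_le_L (E - D) D (Submodule.mul_mem_mul hc h.mem₁)
    rwa [hsub] at this
  · have := H259.mul_le_L (E - D) D (Submodule.mul_mem_mul hc h.mem₂)
    rwa [hsub] at this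

/-- **D5(d), line form**: if moreover `ℓ(E - D) = 1` and `h₀ ≠ 0` spans `L(E - D)`, every solution
of the cross system is a `K`-multiple of `(h₀ s₁, h₀ s₂)`. -/
theorem cross_ker_line [FF1 K F] {D E : Divisor K F} {s₁ s₂ b₁ b₂ h₀ : F}
    (h : H259.IsBpfPencil D s₁ s₂) (hell : ell (E - D) = 1)
    (hh₀ : h₀ ≠ 0) (hh₀E : h₀ ∈ riemannRochSpace (E - D))
    (hb₁ : b₁ ∈ riemannRochSpace E) (hb₂ : b₂ ∈ riemannRochSpace E)
    (hcross : b₁ * s₂ = b₂ * s₁) :
    ∃ a : K, b₁ = algebraMap K F a * (h₀ * s₁) ∧ b₂ = algebraMap K F a * (h₀ * s₂) := by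
  obtain ⟨c, hc, e1, e2⟩ := exists_of_cross_eq h hb₁ hb₂ hcross
  obtain ⟨a, ha⟩ := eq_smul_of_ell_eq_one hell hh₀ hh₀E hc
  refine ⟨a, ?_, ?_⟩
  · rw [e1, ha]; ring
  · rw [e2, ha]; ring

end Fermat.Agent.S19.H255

end
end
-- ===== PACK-END S19/H255/NSP.lean

-- ===== PACK-BEGIN A3/H255/Nsp.lean
section



/-!
# A3 / LOCAL, leaf NSP (helper255): non-special reduced divisors on the special fibre

`nspStatement : NspStatement k Fk` (frozen leaf of `A3/H799/LocalSpec.lean`), from
`exists_reduced_nonspecial` (`S19/H255/NSP.lean`, on `Lib/RR/H638`).  Also the version avoiding a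
finite set of places.

All proofs complete.
-/

set_option autoImplicit false
set_option linter.style.haveILetI false

noncomputable section

open AlgebraicCurve

namespace Fermat.Agent.A3.H255

open Fermat.Agent.Lib.RR Fermat.Agent.A3.H799

variable {k Fk : Type*} [Field k] [Field Fk] [Algebra k Fk]

/-- `g` distinct places outside a finite set `S` with `ℓ(Σ Q_i) = 1`, as a family. -/
theorem exists_nonspecial_family [FF1 k Fk] [Infinite k] (S : Finset (Place k Fk)) :
    ∃ Qs : Fin (genusFF k Fk) → Place k Fk, Function.Injective Qs ∧ (∀ i, Qs i ∉ S) ∧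
      ell (∑ i, Finsupp.single (Qs i) (1 : ℤ)) = 1 := by
  classical
  obtain ⟨T, hcard, hdisj, hell⟩ := Fermat.Agent.S19.H255.exists_reduced_nonspecial S
  let e : Fin (genusFF k Fk) ≃ T := (T.equivFinOfCardEq hcard).symm
  refine ⟨fun i => (e i : Place k Fk), ?_, ?_, ?_⟩
  · intro i j h
    exact e.injective (Subtype.ext h)
  · intro i hi
    exact (Finset.disjoint_left.mp hdisj) (e i).2 hi
  · have h1 : (∑ i, Finsupp.single ((e i : T) : Place k Fk) (1 : ℤ)) = H638.divT T := by
      unfold H638.divT prim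
      rw [Equiv.sum_comp e (fun v : T => Finsupp.single (v : Place k Fk) (1 : ℤ))]
      exact Finset.sum_coe_sort T (fun v => Finsupp.single v (1 : ℤ))
    rw [h1]
    exact hell

/-- **NSP**: the frozen leaf `NspStatement` of `A3/H799/LocalSpec.lean`. -/
theorem nspStatement : NspStatement k Fk := by
  intro _ _
  haveI : Infinite k := IsAlgClosed.instInfinite
  obtain ⟨Qs, hinj, -, hell⟩ := exists_nonspecial_family (k := k) (Fk := Fk) ∅
  exact ⟨Qs, hinj, hell⟩

end Fermat.Agent.A3.H255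

end
end
-- ===== PACK-END A3/H255/Nsp.lean

-- ===== PACK-BEGIN A3/H555/Lifti.lean
section
/-
helper555 — cell A3 (S19), block LOCAL, leaf LIFTI.

`LiftiStatement K F k Fk` (frozen in `Fermat/Agent/A3/H799/LocalSpec.lean`): every class of
`Pic0` is congruent modulo the kernel of reduction to an inertia-invariant class.

Proved here from the leaves DISC and DISC-I: the point with parameter value `0` of a residue disc
with inertia-invariant parameter is fixed by inertia; replacing every point of a divisor by the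
fixed point of its residue disc gives an inertia-invariant divisor with the same reduction.
-/


set_option autoImplicit false

noncomputable section

open AlgebraicCurve

namespace Fermat.Agent.A3.H555

open Fermat.Agent.A3.H799 Fermat.Agent.Lib.RR

variable {K F k Fk : Type*} [Field K] [Field F] [Algebra K F] [Field k] [Field Fk] [Algebra k Fk]

/-- A map of places which preserves degrees preserves degrees of divisors. -/
theorem degree_mapDomain_of_deg {K' F' : Type*} [Field K'] [Field F'] [Algebra K' F']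
    (φ : Place K F → Place K' F') (hφ : ∀ v, (φ v).deg = v.deg) (D : Divisor K F) :
    Divisor.degree (Finsupp.mapDomain φ D) = Divisor.degree D := by
  induction D using Finsupp.induction with
  | zero => simp
  | single_add P n D _ _ ih =>
    rw [Finsupp.mapDomain_add, map_add, map_add, ih, Finsupp.mapDomain_single,
      Divisor.degree_single, Divisor.degree_single, hφ]

/-- **Inertia-fixed points.**  Every point of the special fibre is the reduction of a place fixed
by inertia (the centre of its residue disc for an inertia-invariant parameter). -/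
theorem exists_fixed_place (hdisc : DiscStatement K F k Fk)
    (hequiv : DiscEquivStatement K F k Fk) (𝓡 : GoodRed K F k Fk) (Q : Place k Fk) :
    ∃ P : Place K F, 𝓡.r P = Q ∧ ∀ g ∈ 𝓡.I, g • P = P := by
  obtain ⟨d, hd⟩ := hdisc 𝓡 Q
  refine ⟨d.pt 0, d.r_pt 0, fun g hg => ?_⟩
  obtain ⟨h, h', e⟩ := hequiv 𝓡 Q d hd g hg 0
  rw [e]
  congr 1
  exact Subtype.ext (Subtype.ext (map_zero _))

/-- The reduction map of places is onto (consequence of DISC). -/
theorem r_surjective (hdisc : DiscStatement K F k Fk) (𝓡 : GoodRed K F k Fk) :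
    Function.Surjective 𝓡.r := fun Q => by
  obtain ⟨d, -⟩ := hdisc 𝓡 Q
  exact ⟨d.pt 0, d.r_pt 0⟩

/-- **Inertia-invariant lifts of divisors**: if every residue disc which contains a place
contains an inertia-fixed place, then for every divisor `D` there is an inertia-invariant divisor
`D'` of the same degree with the same reduction. -/
theorem exists_invariant_divisor (𝓡 : GoodRed K F k Fk)
    (hfixed : ∀ P₀ : Place K F, ∃ P : Place K F, 𝓡.r P = 𝓡.r P₀ ∧ ∀ g ∈ 𝓡.I, g • P = P)
    (D : Divisor K F) :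
    ∃ D' : Divisor K F, (∀ g ∈ 𝓡.I, g • D' = D') ∧
      Divisor.degree D' = Divisor.degree D ∧
      Finsupp.mapDomain 𝓡.r D' = Finsupp.mapDomain 𝓡.r D := by
  choose lift hr hfix using hfixed
  have := 𝓡.ff1
  refine ⟨Finsupp.mapDomain lift D, fun g hg => ?_, ?_, ?_⟩
  · rw [SemilinearAut.divisor_smul_def, ← Finsupp.mapDomain_comp]
    congr 1
    funext P
    exact hfix P g hg
  · exact degree_mapDomain_of_deg _ (fun v => by rw [FF1.deg_eq_one, FF1.deg_eq_one]) D
  · rw [← Finsupp.mapDomain_comp]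
    congr 1
    funext P
    exact hr P

/-- **LIFTI** for one good-reduction datum, from inertia-fixed places in every residue disc. -/
theorem lifti_of_fixed (𝓡 : GoodRed K F k Fk)
    (hfixed : ∀ P₀ : Place K F, ∃ P : Place K F, 𝓡.r P = 𝓡.r P₀ ∧ ∀ g ∈ 𝓡.I, g • P = P)
    (x : Pic0 K F) :
    ∃ y : Pic0 K F, (∀ g ∈ 𝓡.I, g • y = y) ∧ x - y ∈ 𝓡.kerRed := by
  obtain ⟨D, rfl⟩ := Pic0.mk_surjective x
  obtain ⟨D', hinv, hdeg, hred⟩ := exists_invariant_divisor 𝓡 hfixed (D : Divisor K F)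
  have hD' : D' ∈ Divisor.degZero (K := K) (F := F) := by
    rw [Divisor.mem_degZero, hdeg]
    exact D.2
  refine ⟨Pic0.mk ⟨D', hD'⟩, fun g hg => ?_, ⟨D - ⟨D', hD'⟩, rfl, ?_⟩⟩
  · rw [SemilinearAut.pic0_smul_mk]
    exact congrArg Pic0.mk (Subtype.ext (hinv g hg))
  · have : Finsupp.mapDomain 𝓡.r
        ((D - ⟨D', hD'⟩ : Divisor.degZero (K := K) (F := F)) : Divisor K F) = 0 := by
      rw [AddSubgroup.coe_sub, Finsupp.mapDomain_sub, hred, sub_self]
    rw [this]
    exact AddSubgroup.zero_mem _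

/-- **LIFTI** from DISC and DISC-I. -/
theorem liftiStatement_of_disc (hdisc : DiscStatement K F k Fk)
    (hequiv : DiscEquivStatement K F k Fk) : LiftiStatement K F k Fk :=
  fun 𝓡 x => lifti_of_fixed 𝓡
    (fun P₀ => exists_fixed_place hdisc hequiv 𝓡 (𝓡.r P₀)) x

end Fermat.Agent.A3.H555

end
end
-- ===== PACK-END A3/H555/Lifti.lean

-- ===== PACK-BEGIN A3/H75/DiscDataOfParam.lean
section



/-!
# A3 / LOCAL / DISC (helper75): `DiscData` of a `GoodRed` from a parameter

* `toConsInput` : a `GoodRed` is a `ConsInput` (conservation of zeros = `div_red`);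
* `discData_of_param` : for a place `Q` of the special fibre and a parameter `t` (a function of
  `𝓡.O`, regular on the disc of `Q`, with `ord_Q (red t) = 1`) the frozen `DiscData 𝓡 Q` of
  `Fermat/Agent/A3/H799/LocalSpec.lean`, with `D.t = t`.

So the leaf `DiscStatement` is reduced to the existence of an inertia-invariant parameter at every
place of the special fibre (`disc_of_param`).
-/

set_option autoImplicit false
set_option linter.unusedSectionVars false

noncomputable section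

namespace Fermat.Agent.A3.H75

open AlgebraicCurve Fermat.Agent.Lib.RR Fermat.Agent.A3.H799

variable {K F k Fk : Type*} [Field K] [Field F] [Algebra K F] [Field k] [Field Fk] [Algebra k Fk]

theorem red_eq_zero_iff (𝓡 : GoodRed K F k Fk) (x : 𝓡.O) :
    𝓡.red x = 0 ↔ (x : F) ∈ 𝓡.O.nonunits := by
  have hmax : (RingHom.ker 𝓡.red).IsMaximal := RingHom.ker_isMaximal_of_surjective _ 𝓡.red_surjective
  have heq : RingHom.ker 𝓡.red = IsLocalRing.maximalIdeal 𝓡.O := IsLocalRing.eq_maximalIdeal hmax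
  rw [← RingHom.mem_ker, heq, IsLocalRing.mem_maximalIdeal]
  exact (ValuationSubring.coe_mem_nonunits_iff (A := 𝓡.O)).symm

theorem algebraMap_mem_nonunits_of_mem (𝓡 : GoodRed K F k Fk) (a : K) (ha : a ∈ 𝓡.V.nonunits) :
    algebraMap K F a ∈ 𝓡.O.nonunits := by
  rw [ValuationSubring.mem_nonunits_iff_or] at ha ⊢
  rcases ha with rfl | ha
  · left
    exact map_zero _
  · right
    rw [← map_inv₀, 𝓡.algebraMap_mem]
    exact ha

/-- A `GoodRed` is a `ConsInput`. -/
def toConsInput (𝓡 : GoodRed K F k Fk) :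
    ConsInput 𝓡.V F k Fk where
  V := 𝓡.O
  algebraMap_mem a ha := (𝓡.algebraMap_mem a).mpr ha
  algebraMap_mem_nonunits := algebraMap_mem_nonunits_of_mem 𝓡
  π := 𝓡.res
  π_eq_zero a ha := (𝓡.res_eq_zero a).mp ha
  ρ := 𝓡.red
  ρ_eq_zero := red_eq_zero_iff 𝓡
  ρ_algebraMap a ha := 𝓡.red_algebraMap ⟨a, ha⟩ _
  r := 𝓡.r
  cons := 𝓡.div_red

/-- The frozen `DiscData` from a parameter. -/
def discData_of_param (𝓡 : GoodRed K F k Fk) (Q : Place k Fk) (T : DiscParam (toConsInput 𝓡) Q) :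
    DiscData 𝓡 Q :=
  haveI : FF1 K F := 𝓡.ff1
  { ring := (toConsInput 𝓡).discRing Q
    ring_le := fun f hf => hf.1
    ring_reg := fun f hf => hf.2
    mem_ring := fun f hf hreg => ⟨hf, hreg⟩
    D := T.discAlg
    pt := T.center
    r_pt := T.r_center
    pt_surj := T.exists_center_eq
    ord_t := T.ord_t
    ev_spec := by
      intro a f
      have h := T.hasVal_evVal a f
      rcases (mem_nonunits_iff_ord _ _).mp h with h0 | hpos
      · left
        exact sub_eq_zero.mp h0
      · right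
        exact hpos
    red_ev := by
      intro a f
      have h := (toConsInput 𝓡).hasVal_red Q ((toConsInput 𝓡).toV Q f) ((toConsInput 𝓡).regOn_coe Q f)
        (T.center a) (T.r_center a) (T.evVal a f) (T.hasVal_evVal a f)
      rcases (mem_nonunits_iff_ord _ _).mp h with h0 | hpos
      · left
        exact sub_eq_zero.mp h0
      · right
        exact hpos }

theorem discData_of_param_t (𝓡 : GoodRed K F k Fk) (Q : Place k Fk)
    (T : DiscParam (toConsInput 𝓡) Q) :
    (((discData_of_param 𝓡 Q T).D.t : (discData_of_param 𝓡 Q T).ring) : F) = (T.t : F) := rfl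

/-- **DISC from PAR.**  The leaf `DiscStatement` follows from the existence, at every place `Q` of
the special fibre, of an inertia-invariant function of `𝓡.O`, regular on the disc of `Q`, whose
reduction is a uniformiser at `Q`. -/
theorem disc_of_param
    (hpar : ∀ (𝓡 : GoodRed K F k Fk) (Q : Place k Fk), ∃ t : 𝓡.O,
      (∀ P : Place K F, 𝓡.r P = Q → (t : F) ∈ P.toValuationSubring) ∧
      Q.ord (𝓡.red t) = 1 ∧ ∀ g ∈ 𝓡.I, g • (t : F) = (t : F)) :
    DiscStatement K F k Fk := by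
  intro 𝓡 Q
  obtain ⟨t, hreg, hord, hinv⟩ := hpar 𝓡 Q
  exact ⟨discData_of_param 𝓡 Q ⟨t, hreg, hord⟩, hinv⟩

end Fermat.Agent.A3.H75

end
end
-- ===== PACK-END A3/H75/DiscDataOfParam.lean

-- ===== PACK-BEGIN Lib/X0Deg/Basic.lean
section




/-!
# Shared library X0DEG (helper760): relative degrees of the function fields `ℚ̄(X₀(M))`

All fields are the Prelude fields `modularFunctionFieldBar M ⊆ ℚ̄((q))`.

* `relfinrank_JB`      : `[F̄_N : ℚ̄(j)] = ψ(N)` in ambient (`IntermediateField.relfinrank`) form;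
* `relfinrank_mul_psi` : `N ∣ M → [F̄_M : F̄_N] * ψ(N) = ψ(M)`;
* `finrankAlong_inclusion`, `finrankAlong_heckeAlphaBar_mul_psi`,
  `finrankAlong_heckeAlphaBar_of_not_dvd` (`= ℓ + 1`), `finrankAlong_heckeAlphaBar_of_dvd` (`= ℓ`),
  `finiteAlong_heckeAlphaBar` : the same for the Prelude degeneracy map `heckeAlphaBar`.

Input: landed S24 (`nonempty_modularPackage`, `card_XX`) and S20 (`dedekindPsi` arithmetic).
-/

set_option autoImplicit false

noncomputable section

open ModularCurve AlgebraicCurve IntermediateField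
open Fermat.Agent.S24

namespace Fermat.Agent.Lib.X0Deg

/-- The `j`-function as a Laurent series over `ℚ̄`. -/
def jB : LaurentSeries Kbar := coeffEmb Kbar jq

/-- `j(q^d)` as a Laurent series over `ℚ̄`. -/
def jBd (d : ℕ) [NeZero d] : LaurentSeries Kbar := coeffEmb Kbar (qExpand ℚ d jq)

/-- `ℚ̄(j)` as an intermediate field of `ℚ̄((q))/ℚ̄`. -/
def JB : IntermediateField Kbar (LaurentSeries Kbar) := adjoin Kbar {jB}

theorem jBd_mem {d M : ℕ} [NeZero d] (hd : d ∣ M) : jBd d ∈ modularFunctionFieldBar M :=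
  coeffEmb_mem_laurentBaseChange Kbar (jqd_mem_full M hd)

theorem jB_mem (M : ℕ) [NeZero M] : jB ∈ modularFunctionFieldBar M :=
  coeffEmb_mem_laurentBaseChange Kbar (modularFunctionField_le_full M (jq_mem M))

theorem jBd_one : jBd 1 = jB := by
  simp [jBd, jB, qExpand_one_apply]

theorem JB_le (M : ℕ) [NeZero M] : JB ≤ modularFunctionFieldBar M := by
  rw [JB, adjoin_le_iff]
  rintro x hx
  rw [Set.mem_singleton_iff] at hx
  subst hx
  exact jB_mem M

/-- Monotonicity of the Prelude function fields in the level. -/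
theorem modularFunctionFieldBar_mono {N M : ℕ} [NeZero N] [NeZero M] (h : N ∣ M) :
    modularFunctionFieldBar N ≤ modularFunctionFieldBar M := by
  show laurentBaseChange Kbar _ ≤ laurentBaseChange Kbar _
  rw [laurentBaseChange, adjoin_le_iff]
  rintro _ ⟨y, hy, rfl⟩
  exact coeffEmb_mem_laurentBaseChange Kbar (full_degeneracy_le h hy)

theorem val_jF (N : ℕ) [NeZero N] : ((jF N : FF N) : LaurentSeries Kbar) = jB := rfl

theorem comap_val_JB (N : ℕ) [NeZero N] :
    JB.comap (modularFunctionFieldBar N).val = adjoin Kbar {jF N} := by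
  have h1 : (adjoin Kbar {jF N}).map (modularFunctionFieldBar N).val = JB := by
    rw [adjoin_map, Set.image_singleton]
    rfl
  rw [← h1]
  exact comap_map _ _

/-- `[F̄_N : ℚ̄(j)] = ψ(N)`. -/
theorem relfinrank_JB (N : ℕ) [NeZero N] :
    JB.relfinrank (modularFunctionFieldBar N) = dedekindPsi N := by
  obtain ⟨P⟩ := nonempty_modularPackage N
  have h1 := relfinrank_comap JB (modularFunctionFieldBar N).val ⊤
  rw [relfinrank_top_right, ← AlgHom.fieldRange_eq_map, fieldRange_val] at h1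
  rw [← h1, ← card_XX N, ← P.finrank_eq]
  rw [comap_val_JB]

theorem dedekindPsi_pos (N : ℕ) [NeZero N] : 0 < dedekindPsi N := by
  rw [← card_XX N]
  exact Nat.card_pos

/-- `N ∣ M → [F̄_M : F̄_N] * ψ(N) = ψ(M)`. -/
theorem relfinrank_mul_psi {N M : ℕ} [NeZero N] [NeZero M] (h : N ∣ M) :
    (modularFunctionFieldBar N).relfinrank (modularFunctionFieldBar M) * dedekindPsi N
      = dedekindPsi M := by
  have := relfinrank_mul_relfinrank (JB_le N) (modularFunctionFieldBar_mono h)
  rw [relfinrank_JB, relfinrank_JB] at this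
  rw [mul_comm]
  exact this

end Fermat.Agent.Lib.X0Deg

end
end
-- ===== PACK-END Lib/X0Deg/Basic.lean

-- ===== PACK-BEGIN S18/MOD/H396/SepLaurent.lean
section






/-!
# S18 / MOD, piece SEP for Laurent series and for the modular function field (helper396)

* `laurentD_ne_zero_of_coeff` : a series `x = c q⁻¹ + …` (`c ≠ 0`) has `dx/dq ≠ 0` (any
  characteristic).
* `isSeparable_laurent`, `exists_bivariate_separable_laurent` : SEP in `κ((q))`, `κ` perfect.
* `isAlgebraic_of_mem_full`, `isSeparable_of_mem_full`, `exists_bivariate_of_mem_full` :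
  every `y ∈ F_κ = modularFunctionFieldFullC κ N` is algebraic and SEPARABLE over `κ(j̄)` when the
  primes dividing `N` are invertible in the perfect field `κ` (field G-SEP of `GoodModel`, `x = j`).
-/

set_option autoImplicit false

noncomputable section

namespace Fermat.Agent.S18.MOD.H396

open Polynomial IntermediateField ModularCurve

variable (κ : Type*) [Field κ]

theorem laurentD_ne_zero_of_coeff (x : LaurentSeries κ) (hx : x.coeff (-1) ≠ 0) :
    Fermat.Agent.S24.H84.laurentD κ x ≠ 0 := by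
  intro h
  have h2 := congrArg (fun f : LaurentSeries κ => f.coeff (-2)) h
  simp only [Fermat.Agent.S24.H84.laurentD_coeff, HahnSeries.coeff_zero] at h2
  have e : ((-2 : ℤ) + 1) = -1 := by norm_num
  rw [e] at h2
  rcases mul_eq_zero.mp h2 with h3 | h3
  · have : ((-1 : ℤ) : κ) = -1 := by norm_num
    rw [this] at h3
    exact one_ne_zero (neg_eq_zero.mp h3)
  · exact hx h3

theorem laurentD_jqModC_ne_zero : Fermat.Agent.S24.H84.laurentD κ (jqModC κ) ≠ 0 :=
  laurentD_ne_zero_of_coeff κ _ (by rw [coeff_jqModC_neg_one]; exact one_ne_zero)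

/-- `d/dq` as a derivation for the `Algebra.toModule` structure. -/
def laurentDer :
    @Derivation κ (LaurentSeries κ) (LaurentSeries κ) _ _ _ _ Algebra.toModule Algebra.toModule :=
  derivationOfFun (k := κ) (K := LaurentSeries κ) (fun f => Fermat.Agent.S24.H84.laurentD κ f)
    (fun a b => _root_.map_add _ a b)
    (fun a b => by
      have := (Fermat.Agent.S24.H84.laurentD κ).leibniz a b
      simpa only [smul_eq_mul] using this)
    (fun c => (Fermat.Agent.S24.H84.laurentD κ).map_algebraMap c)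

theorem laurentDer_apply (f : LaurentSeries κ) :
    laurentDer κ f = Fermat.Agent.S24.H84.laurentD κ f := rfl

/-- **SEP in `κ((q))`.** -/
theorem isSeparable_laurent [PerfectField κ] (x : LaurentSeries κ) (hx : x.coeff (-1) ≠ 0)
    (y : LaurentSeries κ) (hy : IsAlgebraic κ⟮x⟯ y) : IsSeparable κ⟮x⟯ y :=
  isSeparable_of_D_ne_zero (laurentDer κ) x
    (by rw [laurentDer_apply]; exact laurentD_ne_zero_of_coeff κ x hx) y hy

/-- **SEP in `κ((q))`, bivariate form.** -/
theorem exists_bivariate_separable_laurent [PerfectField κ] (x : LaurentSeries κ)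
    (hx : x.coeff (-1) ≠ 0) (y : LaurentSeries κ) (hy : IsAlgebraic κ⟮x⟯ y) :
    ∃ Q : (κ[X])[X], Q.eval₂ (aeval x : κ[X] →ₐ[κ] LaurentSeries κ).toRingHom y = 0 ∧
      (derivative Q).eval₂ (aeval x : κ[X] →ₐ[κ] LaurentSeries κ).toRingHom y ≠ 0 :=
  exists_bivariate_separable (laurentDer κ) x
    (by rw [laurentDer_apply]; exact laurentD_ne_zero_of_coeff κ x hx) y hy

/-- Every element of `F_κ` is algebraic over `κ(j̄)`. -/
theorem isAlgebraic_of_mem_full (N : ℕ) (hN : N ≠ 0)
    (hchar : ∀ p : ℕ, p.Prime → p ∣ N → (p : κ) ≠ 0)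
    (y : LaurentSeries κ) (hy : y ∈ modularFunctionFieldFullC κ N) :
    IsAlgebraic κ⟮jqModC κ⟯ y := by
  have : NeZero N := ⟨hN⟩
  have H : Fermat.Agent.S28.H626.HasModPolys κ N :=
    Fermat.Agent.S28.H867.hasModPolys κ N
      (fun p hp _ _ => Fermat.Agent.S28.H807.nonempty_modPolyData p hp) hchar
  have hfin := Fermat.Agent.S28.H626.finiteDimensional_extendScalars N H
  have hle := Fermat.Agent.S28.H626.adjoin_j_le_full (k := κ) N
  have hy' : y ∈ extendScalars hle := (mem_extendScalars hle).mpr hy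
  have h1 : IsAlgebraic κ⟮jqModC κ⟯ (⟨y, hy'⟩ : extendScalars hle) :=
    (IsIntegral.of_finite κ⟮jqModC κ⟯ (⟨y, hy'⟩ : extendScalars hle)).isAlgebraic
  exact (IntermediateField.isAlgebraic_iff).mp h1

/-- **G-SEP at level `N`, coordinate `j`**: `F_κ / κ(j̄)` is separable. -/
theorem isSeparable_of_mem_full [PerfectField κ] (N : ℕ) (hN : N ≠ 0)
    (hchar : ∀ p : ℕ, p.Prime → p ∣ N → (p : κ) ≠ 0)
    (y : LaurentSeries κ) (hy : y ∈ modularFunctionFieldFullC κ N) :
    IsSeparable κ⟮jqModC κ⟯ y :=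
  isSeparable_laurent κ _ (by rw [coeff_jqModC_neg_one]; exact one_ne_zero) y
    (isAlgebraic_of_mem_full κ N hN hchar y hy)

/-- **G-SEP at level `N`, coordinate `j`, bivariate form.** -/
theorem exists_bivariate_of_mem_full [PerfectField κ] (N : ℕ) (hN : N ≠ 0)
    (hchar : ∀ p : ℕ, p.Prime → p ∣ N → (p : κ) ≠ 0)
    (y : LaurentSeries κ) (hy : y ∈ modularFunctionFieldFullC κ N) :
    ∃ Q : (κ[X])[X],
      Q.eval₂ (aeval (jqModC κ) : κ[X] →ₐ[κ] LaurentSeries κ).toRingHom y = 0 ∧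
      (derivative Q).eval₂ (aeval (jqModC κ) : κ[X] →ₐ[κ] LaurentSeries κ).toRingHom y ≠ 0 :=
  exists_bivariate_separable_laurent κ _ (by rw [coeff_jqModC_neg_one]; exact one_ne_zero) y
    (isAlgebraic_of_mem_full κ N hN hchar y hy)

end Fermat.Agent.S18.MOD.H396

end
end
-- ===== PACK-END S18/MOD/H396/SepLaurent.lean

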