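import Mathlib
import Fermat.Prelude.Def_ModularCurve_HeckeModule
import Fermat.Prelude.Def_ModularCurve_HeckeOperator
import Fermat.Prelude.Thm_ModularCurve_coeffMap_qExpand
import Fermat.Agent.Pack.S33.E17L0
import Fermat.Agent.Pack.S33.E17L3
import Fermat.Agent.Pack.S33.E12L2
import Fermat.Agent.Pack.S33.E12L3
import Fermat.Agent.Pack.S33.E14L1
import Fermat.Agent.Pack.S33.E2L0
import Fermat.Agent.Pack.S33.E17L2
import Fermat.Agent.Pack.S33.E7L1
import Fermat.Agent.Pack.S33.E11L1
import Fermat.Agent.Pack.S33.E13L2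
import Fermat.Agent.Pack.S33.E17L1
import Fermat.Agent.Pack.S33.E13L1
import Fermat.Agent.Pack.S33.E8L0
import Fermat.Agent.Pack.S33.E3L1
import Fermat.Agent.Pack.S33.E16L3
import Fermat.Agent.Pack.S33.E12L0
import Fermat.Agent.Pack.S33.E9L3
import Fermat.Agent.Pack.S33.E14L3

-- ===== PACK-BEGIN S29/H282/FracK.lean
section


/-!
# S29 / M4b-K2 (helper282) — the function field of `X₀(N)` over an arbitrary field `K ⊇ ℚ`

Port of `Fermat/Agent/S24/Mod/H997Frac.lean` from `ℚ̄` to an arbitrary field `K` of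
characteristic zero:

* `FFK K N`    : the function field `laurentBaseChange K (modularFunctionFieldFull N)`;
* `RNK K N`    : the `K`-subalgebra of `K((q))` generated by the `j(q^d)`, `d ∣ N`;
* `inclRNK`    : the inclusion `RNK K N → FFK K N`;
* `liftFK`     : every injective ring hom `RNK K N →+* L` into a field extends to `FFK K N`.
-/

set_option autoImplicit false

noncomputable section

open ModularCurve HahnSeries IntermediateField

namespace Fermat.Agent.S29.H282

open Fermat.Agent.S24 Fermat.Agent.S24.Deg457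

variable (K : Type*) [Field K] [Algebra ℚ K] (N : ℕ)

/-- The function field of `X₀(N)` over `K` (as a type). -/
abbrev FFK : Type _ := ↥(laurentBaseChange K (modularFunctionFieldFull N))

/-- The function field of `X₀(N)` over `K` is generated over `K` by the `j(q^d)`, `d ∣ N`. -/
theorem ffK_eq_adjoin :
    laurentBaseChange K (modularFunctionFieldFull N) = IntermediateField.adjoin K (gens K N) := by
  apply le_antisymm
  · exact laurentBaseChange_full_le N
  · rw [laurentBaseChange]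
    exact IntermediateField.adjoin.mono _ _ _
      (Set.image_mono (IntermediateField.subset_adjoin ℚ _))

/-- The polynomial ring `K[j(q^d) : d ∣ N] ⊆ K((q))`. -/
abbrev RNK : Subalgebra K (LaurentSeries K) := AK K N

theorem RNK_le : RNK K N ≤ (laurentBaseChange K (modularFunctionFieldFull N)).toSubalgebra := by
  rw [ffK_eq_adjoin]
  exact IntermediateField.algebra_adjoin_le_adjoin K (gens K N)

/-- The inclusion `R_N → FFK K N`. -/
def inclRNK : RNK K N →ₐ[K] FFK K N := Subalgebra.inclusion (RNK_le K N)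

@[simp] theorem coe_inclRNK (r : RNK K N) :
    ((inclRNK K N r : FFK K N) : LaurentSeries K) = r := rfl

theorem inclRNK_injective : Function.Injective (inclRNK K N) :=
  Subalgebra.inclusion_injective (RNK_le K N)

theorem exists_div_inclRNK (f : FFK K N) :
    ∃ r t : RNK K N, t ≠ 0 ∧ f = inclRNK K N r / inclRNK K N t := by
  have hf : (f : LaurentSeries K) ∈ IntermediateField.adjoin K (gens K N) := by
    rw [← ffK_eq_adjoin]; exact f.2
  obtain ⟨r, hr, s, hs, h⟩ := IntermediateField.mem_adjoin_iff_div.mp hf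
  by_cases hs0 : s = 0
  · refine ⟨0, 1, one_ne_zero, ?_⟩
    apply Subtype.ext
    rw [h, hs0, div_zero]
    simp
  · refine ⟨⟨r, hr⟩, ⟨s, hs⟩, fun h0 => hs0 (congrArg Subtype.val h0), ?_⟩
    apply Subtype.ext
    rw [h]
    simp

/-- The generator `j(q^d)` as an element of `R_N`. -/
def jRK (d : ℕ) [NeZero d] (hd : d ∣ N) : RNK K N :=
  ⟨coeffEmb K (qExpand ℚ d jq),
    Algebra.subset_adjoin ⟨_, mem_divisorExpansions N hd, rfl⟩⟩

/-- The `j`-function as an element of the function field of `X₀(N)` over `K`. -/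
def jFK [NeZero N] : FFK K N :=
  ⟨coeffEmb K jq,
    coeffEmb_mem_laurentBaseChange K (modularFunctionField_le_full N (jq_mem N))⟩

theorem inclRNK_jRK_one [NeZero N] : inclRNK K N (jRK K N 1 (one_dvd N)) = jFK K N := by
  apply Subtype.ext
  simp [jRK, jFK, qExpand_one_apply]

theorem jFK_Kbar [NeZero N] : jFK Kbar N = jF N := rfl

section Lift

variable {K N}
variable {L : Type*} [Field L]

/-- Extension of an injective ring hom `R_N →+* L` to the fraction field `FFK K N`. -/
def liftFK (s : RNK K N →+* L) (hs : Function.Injective s) : FFK K N →+* L :=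
  letI : Algebra (RNK K N) (FFK K N) := (inclRNK K N).toRingHom.toAlgebra
  haveI : FaithfulSMul (RNK K N) (FFK K N) :=
    (faithfulSMul_iff_algebraMap_injective _ _).mpr (inclRNK_injective K N)
  haveI : IsFractionRing (RNK K N) (FFK K N) :=
    IsFractionRing.of_field _ _ fun z => by
      obtain ⟨r, t, -, h⟩ := exists_div_inclRNK K N z
      exact ⟨r, t, h⟩
  IsFractionRing.lift hs

theorem liftFK_inclRNK (s : RNK K N →+* L) (hs : Function.Injective s) (r : RNK K N) :
    liftFK s hs (inclRNK K N r) = s r := by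
  let _ : Algebra (RNK K N) (FFK K N) := (inclRNK K N).toRingHom.toAlgebra
  have : FaithfulSMul (RNK K N) (FFK K N) :=
    (faithfulSMul_iff_algebraMap_injective _ _).mpr (inclRNK_injective K N)
  have : IsFractionRing (RNK K N) (FFK K N) :=
    IsFractionRing.of_field _ _ fun z => by
      obtain ⟨r, t, -, h⟩ := exists_div_inclRNK K N z
      exact ⟨r, t, h⟩
  exact IsFractionRing.lift_algebraMap hs r

theorem liftFK_div (s : RNK K N →+* L) (hs : Function.Injective s) (r t : RNK K N) :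
    liftFK s hs (inclRNK K N r / inclRNK K N t) = s r / s t := by
  rw [map_div₀, liftFK_inclRNK, liftFK_inclRNK]

theorem liftFK_algebraMap (s : RNK K N →+* L) (hs : Function.Injective s) (c : K) :
    liftFK s hs (algebraMap K (FFK K N) c) = s (algebraMap K (RNK K N) c) := by
  rw [← liftFK_inclRNK s hs]
  congr 1

end Lift

end Fermat.Agent.S29.H282

end
end
-- ===== PACK-END S29/H282/FracK.lean

-- ===== PACK-BEGIN S37/Core/RawES.lean
section


/-!
# S37 row (helper37): RAW Eichler-Shimura on torsion points (export for rows S29 / S30 / S42)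

`rawES_of_weakRedData` : from the same hypothesis `H` as `Core.result_of_weakRedData`
(a `WeakRedData` at some level `M` and a `PullData N M ℓ`, for every `ℓ ∤ N`, `A`, Frobenius `σ₀`)
we get, for every prime `ℓ ∤ N * p` and every `A` over `ℓ`:
* inertia at `A` fixes every `x : JZero N` with `p • x = 0`,
* every Frobenius `σ` at `A` satisfies `σ²x - T_ℓ(σ x) + ℓ x = 0` on such `x`.
This is the body of `Fermat.Agent.S29.RawESStatement` (no Hecke module structure, no commutation
hypothesis).  Fully proved.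
-/

set_option autoImplicit false
set_option synthInstance.maxHeartbeats 400000

noncomputable section

namespace Fermat.Agent.S37.Core

open ModularCurve ValuationSubring AlgebraicCurve HahnSeries

section

variable {N M : ℕ} [NeZero N] [NeZero M] {A : ValuationSubring (AlgebraicClosure ℚ)} {ℓ : ℕ}
  [NeZero ℓ] {σ₀ : AlgebraicClosure ℚ ≃ₐ[ℚ] AlgebraicClosure ℚ}

/-- `red ∘ π^*` is injective on torsion of order prime to `ℓ` -/
theorem WeakRedData.eq_zero_of_red_pull (W : WeakRedData M A ℓ σ₀) (Pd : PullData N M ℓ)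
    {m : ℕ} (hm : ¬ ℓ ∣ m) {x : JZero N} (hx : m • x = 0) (h : W.red (Pd.pull x) = 0) :
    x = 0 := by
  refine Pd.inj_torsion m hm x hx ?_
  refine W.inj_torsion m hm _ ?_ h
  rw [← map_nsmul, hx, _root_.map_zero]

/-- inertia acts trivially on torsion of order prime to `ℓ` -/
theorem WeakRedData.inertia_smul_eq (W : WeakRedData M A ℓ σ₀) (Pd : PullData N M ℓ)
    {m : ℕ} (hm : ¬ ℓ ∣ m) {τ : AlgebraicClosure ℚ ≃ₐ[ℚ] AlgebraicClosure ℚ}
    (hτ : τ ∈ A.inertiaSubgroupIn ℚ) {x : JZero N} (hx : m • x = 0) : τ • x = x := by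
  rw [← sub_eq_zero]
  refine W.eq_zero_of_red_pull Pd hm ?_ ?_
  · have h1 : m • (τ • x) = τ • (m • x) := smul_comm m τ x
    have z1 : τ • (0 : JZero N) = 0 := smul_zero (A := JZero N) τ
    rw [nsmul_sub, h1, hx, z1, sub_zero]
  · rw [_root_.map_sub, Pd.galois, _root_.map_sub, W.inertia τ hτ, sub_self]

/-- the Eichler-Shimura relation at `σ₀` on torsion of order prime to `ℓ` -/
theorem WeakRedData.relation_eq_zero (W : WeakRedData M A ℓ σ₀) (Pd : PullData N M ℓ)
    {m : ℕ} (hm : ¬ ℓ ∣ m) {x : JZero N} (hx : m • x = 0) :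
    σ₀ • σ₀ • x - heckeOperatorAlong (AlgebraicClosure ℚ) N ℓ (σ₀ • x) + ℓ • x = 0 := by
  refine W.eq_zero_of_red_pull Pd hm ?_ ?_
  · have h1 : m • (σ₀ • σ₀ • x) = σ₀ • σ₀ • (m • x) := by
      rw [smul_comm m σ₀, smul_comm m σ₀]
    have h2 : m • heckeOperatorAlong (AlgebraicClosure ℚ) N ℓ (σ₀ • x) =
        heckeOperatorAlong (AlgebraicClosure ℚ) N ℓ (σ₀ • (m • x)) := by
      rw [← map_nsmul, smul_comm m σ₀]
    have h3 : m • (ℓ • x) = ℓ • (m • x) := smul_comm m ℓ x
    have z1 : σ₀ • (0 : JZero N) = 0 := smul_zero (A := JZero N) σ₀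
    have z2 : ℓ • (0 : JZero N) = 0 := smul_zero ℓ
    rw [nsmul_add, nsmul_sub, h1, h2, h3, hx, z1, z1, _root_.map_zero, sub_zero, z2, add_zero]
  · rw [_root_.map_add, _root_.map_sub, map_nsmul, Pd.galois, Pd.galois, Pd.hecke, Pd.galois]
    exact W.relation (Pd.pull x)

end

/-- **RAW Eichler-Shimura** (body of `Fermat.Agent.S29.RawESStatement` at level `N`). -/
theorem rawES_of_weakRedData (N : ℕ) [NeZero N]
    (H : ∀ (ℓ : ℕ) (hℓ : ℓ.Prime), ¬ ℓ ∣ N →
      ∀ A : ValuationSubring (AlgebraicClosure ℚ), A.LiesOverPrime ℓ →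
        ∀ σ₀ : AlgebraicClosure ℚ ≃ₐ[ℚ] AlgebraicClosure ℚ, A.IsFrobeniusAt σ₀ ℓ →
          haveI : NeZero ℓ := ⟨hℓ.ne_zero⟩
          ∃ (M : ℕ) (_ : NeZero M), Nonempty (WeakRedData M A ℓ σ₀) ∧ Nonempty (PullData N M ℓ))
    (p : ℕ) (ℓ : ℕ) (hℓ : ℓ.Prime) (hdvd : ¬ ℓ ∣ N * p)
    (A : ValuationSubring (AlgebraicClosure ℚ)) (hA : A.LiesOverPrime ℓ) :
    (∀ σ ∈ A.inertiaSubgroupIn ℚ, ∀ x : JZero N, (p : ℤ) • x = 0 → σ • x = x) ∧
      (∀ σ : AlgebraicClosure ℚ ≃ₐ[ℚ] AlgebraicClosure ℚ, A.IsFrobeniusAt σ ℓ →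
        ∀ x : JZero N, (p : ℤ) • x = 0 →
          σ • σ • x - heckeOperatorBar N ⟨ℓ, hℓ⟩ (σ • x) + (ℓ : ℤ) • x = 0) := by
  have hℓN : ¬ ℓ ∣ N := fun h => hdvd (Dvd.dvd.mul_right h p)
  have hℓp : ¬ ℓ ∣ p := fun h => hdvd (Dvd.dvd.mul_left h N)
  haveI : NeZero ℓ := ⟨hℓ.ne_zero⟩
  constructor
  · intro τ hτ x hx
    obtain ⟨σ₀, hσ₀⟩ := Fermat.Agent.S37.H99.exists_isFrobeniusAt ℓ hℓ A hA
    obtain ⟨M, hM, ⟨W⟩, ⟨Pd⟩⟩ := H ℓ hℓ hℓN A hA σ₀ hσ₀
    refine W.inertia_smul_eq Pd hℓp hτ ?_
    rwa [natCast_zsmul] at hx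
  · intro σ hσ x hx
    obtain ⟨M, hM, ⟨W⟩, ⟨Pd⟩⟩ := H ℓ hℓ hℓN A hA σ hσ
    have h := W.relation_eq_zero Pd hℓp (x := x) (by rwa [natCast_zsmul] at hx)
    rw [natCast_zsmul]
    exact h

end Fermat.Agent.S37.Core

end
end
-- ===== PACK-END S37/Core/RawES.lean

-- ===== PACK-BEGIN S37/H697/RedDataOf.lean
section





/-!
# S37 (helper697): reduction data `H99.RedData` / `Core.WeakRedData` from named inputs

`redData_of` constructs helper99's `RedData N A ℓ hℓ` (hence, via `H99.result_of_redData`, the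
frozen statement S37), and `weakRedData_of` constructs the row's final interface
`Core.WeakRedData N A ℓ σ₀`, from

* `h    : ReductionInputsModL A N`              — existence of a place reduction (good reduction),
* `hinj : …`                                   — the conclusion of S18 (injectivity on torsion),
* `hHIA : HeckeInputsAlong ℚ̄ N ℓ`              — the Hecke correspondence is defined,
* `hK   : KroneckerNorm …`                      — Kronecker congruence for the norm of `y(q^ℓ)`,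
* `hR   : RiemannBound ℚ̄ F_N`, `hdeg`           — consequences of Riemann's inequality / `FF1`.

No pointwise description of the reduction of places or of `T_ℓ` is needed.
-/

set_option autoImplicit false
set_option linter.style.haveILetI false

noncomputable section

open HahnSeries IntermediateField AlgebraicCurve ModularCurve ValuationSubring

namespace Fermat.Agent.S37.H697

section ResidueAction

variable {K L : Type*} [Field K] [Field L] [Algebra K L] (A : ValuationSubring L)

/-- Elements of the decomposition group preserve `A`. -/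
theorem apply_mem_of_mem_decompositionSubgroup {σ : L ≃ₐ[K] L}
    (hσ : σ ∈ A.decompositionSubgroup K) : ∀ a ∈ A, σ a ∈ A :=
  fun a ha => ((⟨σ, hσ⟩ : A.decompositionSubgroup K) • (⟨a, ha⟩ : A)).2

/-- The automorphism of the residue field induced by an element of the decomposition group. -/
def resAut (d : A.decompositionSubgroup K) :
    IsLocalRing.ResidueField A ≃+* IsLocalRing.ResidueField A :=
  MulSemiringAction.toRingEquiv (A.decompositionSubgroup K) (IsLocalRing.ResidueField A) d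

theorem resAut_apply (d : A.decompositionSubgroup K) (x : IsLocalRing.ResidueField A) :
    resAut A d x = d • x := rfl

theorem residue_apply_eq_resAut {σ : L ≃ₐ[K] L} (hσ : σ ∈ A.decompositionSubgroup K) (a : A) :
    IsLocalRing.residue A ⟨σ a, apply_mem_of_mem_decompositionSubgroup A hσ a a.2⟩
      = resAut A ⟨σ, hσ⟩ (IsLocalRing.residue A a) :=
  IsLocalRing.ResidueField.residue_smul (A.decompositionSubgroup K)
    (⟨σ, hσ⟩ : A.decompositionSubgroup K) a

theorem resAut_eq_refl_of_mem_inertiaSubgroup {d : A.decompositionSubgroup K}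
    (hd : d ∈ A.inertiaSubgroup K) : resAut A d = RingEquiv.refl _ := by
  have h : MulSemiringAction.toRingAut (A.decompositionSubgroup K)
      (IsLocalRing.ResidueField A) d = 1 := MonoidHom.mem_ker.mp hd
  exact h

end ResidueAction

section Main

set_option synthInstance.maxHeartbeats 400000
set_option maxHeartbeats 1600000

variable (N : ℕ) [NeZero N] (A : ValuationSubring (AlgebraicClosure ℚ)) (ℓ : ℕ) [NeZero ℓ]

omit [NeZero N] in
/-- Equivariance of `reductionModL` for the decomposition group. -/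
theorem reductionModL_smul
    (h : ReductionInputsModL A N)
    (hR : RiemannBound (AlgebraicClosure ℚ) (modularFunctionFieldBar N))
    (σ : AlgebraicClosure ℚ ≃ₐ[ℚ] AlgebraicClosure ℚ)
    (hσ : σ ∈ A.decompositionSubgroup ℚ) (x : JZero N) :
    reductionModL A N (σ • x) = coeffSL N (resAut A ⟨σ, hσ⟩) • reductionModL A N x := by
  have hred : reductionModL A N = reductionPic0Along h.choose h.choose_spec.1 h.choose_spec.2 :=
    reductionAlong_eq h
  rw [hred]
  exact reductionPic0Along_galois_smul h.choose_spec.1 h.choose_spec.2 hR σ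
    (apply_mem_of_mem_decompositionSubgroup A hσ) (resAut A ⟨σ, hσ⟩)
    (residue_apply_eq_resAut A hσ) x

omit [NeZero N] in
/-- Inertia acts trivially after reduction. -/
theorem reductionModL_inertia
    (h : ReductionInputsModL A N)
    (hR : RiemannBound (AlgebraicClosure ℚ) (modularFunctionFieldBar N))
    (τ : AlgebraicClosure ℚ ≃ₐ[ℚ] AlgebraicClosure ℚ) (hτ : τ ∈ A.inertiaSubgroupIn ℚ)
    (x : JZero N) :
    reductionModL A N (τ • x) = reductionModL A N x := by
  obtain ⟨d, hd, rfl⟩ := hτ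
  have h1 := reductionModL_smul N A h hR d.1 d.2 x
  rw [show (⟨d.1, d.2⟩ : A.decompositionSubgroup ℚ) = d from rfl,
    resAut_eq_refl_of_mem_inertiaSubgroup A hd, coeffSL_refl, one_smul] at h1
  exact h1

omit [NeZero N] in
/-- Elements of the decomposition group preserve the kernel of the reduction. -/
theorem reductionModL_decomp_ker
    (h : ReductionInputsModL A N)
    (hR : RiemannBound (AlgebraicClosure ℚ) (modularFunctionFieldBar N))
    (σ : AlgebraicClosure ℚ ≃ₐ[ℚ] AlgebraicClosure ℚ) (hσ : σ ∈ A.decompositionSubgroup ℚ)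
    (x : JZero N) (hx : reductionModL A N x = 0) :
    reductionModL A N (σ • x) = 0 := by
  rw [reductionModL_smul N A h hR σ hσ x, hx]
  exact smul_zero (A := JZeroC (IsLocalRing.ResidueField A) N) (coeffSL N (resAut A ⟨σ, hσ⟩))

/-- The reduction of the Hecke operator: `red ∘ T_ℓ = (Φ + ℓ Φ⁻¹) ∘ red`. -/
theorem reductionModL_hecke
    (h : ReductionInputsModL A N)
    (hR : RiemannBound (AlgebraicClosure ℚ) (modularFunctionFieldBar N))
    (hdeg : ∀ P : Place (AlgebraicClosure ℚ) (modularFunctionFieldBar N), P.deg = 1)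
    (hHIA : HeckeInputsAlong (AlgebraicClosure ℚ) N ℓ)
    (φ : IsLocalRing.ResidueField A ≃+* IsLocalRing.ResidueField A)
    (hK : KroneckerNorm A (IsLocalRing.residue A) N ℓ φ)
    (y : JZero N) :
    reductionModL A N (heckeOperatorAlong (AlgebraicClosure ℚ) N ℓ y)
      = coeffSL N φ • reductionModL A N y + ℓ • ((coeffSL N φ)⁻¹ • reductionModL A N y) := by
  obtain ⟨hα, hβ, hP, hfin, hFI, hN⟩ := hHIA
  haveI := hP
  have hred : reductionModL A N = reductionPic0Along h.choose h.choose_spec.1 h.choose_spec.2 :=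
    reductionAlong_eq h
  have hT : heckeOperatorAlong (AlgebraicClosure ℚ) N ℓ y = heckePic0Bar hα hβ hFI hfin hN y :=
    congrFun (congrArg DFunLike.coe (heckeOperatorAlong_eq hα hβ hFI hfin hN)) y
  have hC : ∀ P : Place (AlgebraicClosure ℚ) (modularFunctionFieldBar N),
      l1norm (heckeDivBar hα hβ (Finsupp.single P 1))
        ≤ finrankAlong (AlgebraicClosure ℚ) (heckeBetaBar (AlgebraicClosure ℚ) N ℓ) :=
    fun P => (l1norm_heckeDivBar_single hα hβ hdeg hFI P).le
  rw [hT, hred]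
  exact reductionPic0Along_hecke hα hβ h.choose_spec.1 h.choose_spec.2 hR hFI hfin hN φ hK _ hC y

/-- The Eichler–Shimura relation after reduction. -/
theorem reductionModL_relation
    (h : ReductionInputsModL A N)
    (hR : RiemannBound (AlgebraicClosure ℚ) (modularFunctionFieldBar N))
    (hdeg : ∀ P : Place (AlgebraicClosure ℚ) (modularFunctionFieldBar N), P.deg = 1)
    (hHIA : HeckeInputsAlong (AlgebraicClosure ℚ) N ℓ)
    (hK : ∀ φ : IsLocalRing.ResidueField A ≃+* IsLocalRing.ResidueField A, (∀ x, φ x = x ^ ℓ) →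
        KroneckerNorm A (IsLocalRing.residue A) N ℓ φ)
    (σ : AlgebraicClosure ℚ ≃ₐ[ℚ] AlgebraicClosure ℚ) (hσ : A.IsFrobeniusAt σ ℓ)
    (x : JZero N) :
    reductionModL A N
      (σ • σ • x - heckeOperatorAlong (AlgebraicClosure ℚ) N ℓ (σ • x) + ℓ • x) = 0 := by
  have hσmem := hσ.mem_decompositionSubgroup
  have hφpow : ∀ y, resAut A ⟨σ, hσmem⟩ y = y ^ ℓ := fun y => hσ.smul_residue_eq y
  have h1 := reductionModL_hecke N A ℓ h hR hdeg hHIA (resAut A ⟨σ, hσmem⟩)
    (hK _ hφpow) (σ • x)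
  have h2 := reductionModL_smul N A h hR σ hσmem (σ • x)
  have h3 := reductionModL_smul N A h hR σ hσmem x
  rw [h3, inv_smul_smul] at h1
  rw [_root_.map_add, _root_.map_sub, map_nsmul, h1, h2, h3, sub_add_eq_sub_sub, sub_self, zero_sub,
    neg_add_cancel]

/-- **The row's final interface `Core.WeakRedData` from named inputs** (no pointwise
description of the reduction of places is needed). -/
def weakRedData_of
    (h : ReductionInputsModL A N)
    (hinj : Core.InjTorsionModL N ℓ A)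
    (hR : RiemannBound (AlgebraicClosure ℚ) (modularFunctionFieldBar N))
    (hdeg : ∀ P : Place (AlgebraicClosure ℚ) (modularFunctionFieldBar N), P.deg = 1)
    (hHIA : HeckeInputsAlong (AlgebraicClosure ℚ) N ℓ)
    (hK : ∀ φ : IsLocalRing.ResidueField A ≃+* IsLocalRing.ResidueField A, (∀ x, φ x = x ^ ℓ) →
        KroneckerNorm A (IsLocalRing.residue A) N ℓ φ)
    (σ₀ : AlgebraicClosure ℚ ≃ₐ[ℚ] AlgebraicClosure ℚ) (hσ₀ : A.IsFrobeniusAt σ₀ ℓ) :
    Core.WeakRedData N A ℓ σ₀ where
  Y := JZeroC (IsLocalRing.ResidueField A) N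
  instY := inferInstance
  red := reductionModL A N
  inertia := fun τ hτ x => reductionModL_inertia N A h hR τ hτ x
  inj_torsion := fun m hm x hmx hx => hinj h m hm x hmx hx
  relation := fun x => reductionModL_relation N A ℓ h hR hdeg hHIA hK σ₀ hσ₀ x

/-- **helper99's reduction data from named inputs.** -/
theorem redData_of (hℓ : ℓ.Prime)
    (h : ReductionInputsModL A N)
    (hinj : Core.InjTorsionModL N ℓ A)
    (hR : RiemannBound (AlgebraicClosure ℚ) (modularFunctionFieldBar N))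
    (hdeg : ∀ P : Place (AlgebraicClosure ℚ) (modularFunctionFieldBar N), P.deg = 1)
    (hHIA : HeckeInputsAlong (AlgebraicClosure ℚ) N ℓ)
    (hK : ∀ φ : IsLocalRing.ResidueField A ≃+* IsLocalRing.ResidueField A, (∀ x, φ x = x ^ ℓ) →
        KroneckerNorm A (IsLocalRing.residue A) N ℓ φ) :
    Nonempty (H99.RedData N A ℓ hℓ) :=
  ⟨{ Y := JZeroC (IsLocalRing.ResidueField A) N
     instY := inferInstance
     red := reductionModL A N
     inertia := fun τ hτ x => reductionModL_inertia N A h hR τ hτ x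
     frob_ker := fun σ hσ x hx =>
       reductionModL_decomp_ker N A h hR σ hσ.mem_decompositionSubgroup x hx
     inj_torsion := fun m x hm hmx hx =>
       hinj h m ((Nat.Prime.coprime_iff_not_dvd hℓ).mp (Nat.Coprime.symm hm)) x hmx hx
     relation := fun σ hσ x => reductionModL_relation N A ℓ h hR hdeg hHIA hK σ hσ x }⟩

end Main

end Fermat.Agent.S37.H697

end
end
-- ===== PACK-END S37/H697/RedDataOf.lean

-- ===== PACK-BEGIN S37/H818/ModularNorm.lean
section
/-
S37 / LEVEL TRANSFER (helper818), part 10: degrees, generation and norm compatibility for the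
modular function fields (char 0), from the S28 degree API (helper988).
-/







set_option autoImplicit false
set_option linter.style.haveILetI false

noncomputable section

namespace Fermat.Agent.S37.H818

open AlgebraicCurve ModularCurve IntermediateField Fermat.Agent.S28

variable {L : Type*} [Field L] [Algebra ℚ L]

theorem natCast_ne_zero_of_prime {r : ℕ} (hr : r.Prime) : ((r : ℕ) : L) ≠ 0 := by
  haveI : CharZero L := algebraRat.charZero L
  exact Nat.cast_ne_zero.mpr hr.ne_zero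

/-- `[F_{Nℓ} : F_N] = ℓ + 1` for a prime `ℓ ∤ N`, in `finrankAlong` form. -/
theorem finrankAlong_heckeAlphaBar (N ℓ : ℕ) [NeZero N] [NeZero ℓ] (hℓ : ℓ.Prime)
    (hℓN : ¬ ℓ ∣ N) : finrankAlong L (heckeAlphaBar L N ℓ) = ℓ + 1 := by
  have h := H988.relfinrank_full_mul_prime L N ℓ (NeZero.ne N) hℓ
    (fun r hr _ => natCast_ne_zero_of_prime hr)
  rw [if_neg hℓN, ← H988.laurentBaseChange_full_eq_fullC, ← H988.laurentBaseChange_full_eq_fullC]
    at h
  rw [← h]
  exact finrankAlong_inclusion _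

/-- `[F_{Np} : F_N] = p` or `p + 1` for a prime `p`. -/
theorem finrankAlong_heckeAlphaBar' (N p : ℕ) [NeZero N] [NeZero p] (hp : p.Prime) :
    finrankAlong L (heckeAlphaBar L N p) = if p ∣ N then p else p + 1 := by
  have h := H988.relfinrank_full_mul_prime L N p (NeZero.ne N) hp
    (fun r hr _ => natCast_ne_zero_of_prime hr)
  rw [← H988.laurentBaseChange_full_eq_fullC, ← H988.laurentBaseChange_full_eq_fullC] at h
  rw [← h]
  exact finrankAlong_inclusion _

theorem finiteAlong_heckeAlphaBar (N p : ℕ) [NeZero N] [NeZero p] (hp : p.Prime) :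
    FiniteAlong L (heckeAlphaBar L N p) := by
  have h := finrankAlong_heckeAlphaBar' (L := L) N p hp
  unfold FiniteAlong
  unfold finrankAlong at h
  letI := algebraAlong (heckeAlphaBar L N p)
  refine Module.finite_of_finrank_pos ?_
  rw [h]
  split_ifs
  · exact hp.pos
  · exact Nat.succ_pos _

theorem isIntegral_heckeAlphaBar (N p : ℕ) [NeZero N] [NeZero p] (hp : p.Prime) :
    (heckeAlphaBar L N p).toRingHom.IsIntegral := by
  have hfin := finiteAlong_heckeAlphaBar (L := L) N p hp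
  letI := algebraAlong (heckeAlphaBar L N p)
  haveI : Module.Finite (FB L N) (FB L (N * p)) := hfin
  intro x
  exact Algebra.IsIntegral.isIntegral (R := FB L N) x

/-- Generation: `F_{N k ℓ} ≤ F_{N k} ⊔ F_{N ℓ}` for a prime `ℓ ∤ k`. -/
theorem FB_le_sup (N k ℓ : ℕ) [NeZero N] [NeZero k] [NeZero ℓ] (hℓ : ℓ.Prime) (hℓk : ¬ ℓ ∣ k) :
    FB L (N * k * ℓ) ≤ FB L (N * k) ⊔ FB L (N * ℓ) := by
  have hM : N * k ≠ 0 := Nat.mul_ne_zero (NeZero.ne N) (NeZero.ne k)
  have hMℓ : N * k * ℓ ≠ 0 := Nat.mul_ne_zero hM (NeZero.ne ℓ)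
  have hNℓ : N * ℓ ≠ 0 := Nat.mul_ne_zero (NeZero.ne N) (NeZero.ne ℓ)
  show laurentBaseChange L (modularFunctionFieldFull (N * k * ℓ)) ≤ _
  rw [H988.laurentBaseChange_full_eq_fullC, H988.full_le_iff L hMℓ]
  have hA : modularFunctionFieldFullC L (N * k) ≤ FB L (N * k) ⊔ FB L (N * ℓ) := by
    refine le_trans (le_of_eq ?_) le_sup_left
    exact (H988.laurentBaseChange_full_eq_fullC L (N * k)).symm
  have hB : modularFunctionFieldFullC L (N * ℓ) ≤ FB L (N * k) ⊔ FB L (N * ℓ) := by
    refine le_trans (le_of_eq ?_) le_sup_right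
    exact (H988.laurentBaseChange_full_eq_fullC L (N * ℓ)).symm
  let Φ : ℕ → Polynomial (Polynomial ℤ) := fun r =>
    if hr : r.Prime then
      (haveI : NeZero r := ⟨hr.ne_zero⟩; (Classical.choice (H807.nonempty_modPolyData (p := r) hr)).Φ)
    else 0
  have hΦ : ∀ r, r.Prime → r ∣ N * k * ℓ → H988.PhiRel L r (Φ r) := by
    intro r hr _
    haveI : NeZero r := ⟨hr.ne_zero⟩
    have := H988.phiRel_of_modPolyData L r (Classical.choice (H807.nonempty_modPolyData (p := r) hr))
    simpa [Φ, hr] using this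
  refine H988.jd_mem_of_dvd_mul Φ hM hℓ hΦ _ (fun d hd => hA (H988.jd_mem_full L hM hd)) ?_
  intro b hb
  apply hB
  apply H988.jd_mem_full L hNℓ
  have hcop : Nat.Coprime (ℓ ^ b) k :=
    Nat.Coprime.pow_left b ((Nat.Prime.coprime_iff_not_dvd hℓ).mpr hℓk)
  have h1 : ℓ ^ b ∣ k * (N * ℓ) := by
    rw [show k * (N * ℓ) = N * k * ℓ by ring]
    exact hb
  exact hcop.dvd_of_dvd_mul_left h1

/-- **Norm compatibility for the modular `α`-square** (`ℓ` prime, `ℓ ∤ N k`). -/
theorem normCompat_modular (N k ℓ : ℕ) [NeZero N] [NeZero k] [NeZero ℓ] (hℓ : ℓ.Prime)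
    (hℓN : ¬ ℓ ∣ N) (hℓk : ¬ ℓ ∣ k) :
    NormCompat (heckeAlphaBar L N ℓ) (heckeAlphaBar L N k)
      (heckeAlphaBar L (N * k) ℓ) (degenTop L N k ℓ) := by
  have hℓM : ¬ ℓ ∣ N * k := fun h => (hℓ.dvd_mul.mp h).elim hℓN hℓk
  refine normCompat_of_finrank_eq _ _ _ _ (square_alpha L N k ℓ)
    (finiteAlong_heckeAlphaBar N ℓ hℓ) (finiteAlong_heckeAlphaBar (N * k) ℓ hℓ) ?_ ?_
  · rw [finrankAlong_heckeAlphaBar N ℓ hℓ hℓN, finrankAlong_heckeAlphaBar (N * k) ℓ hℓ hℓM]
  · exact adjoin_range_inclusion_eq_top _ _ (FB_le_sup N k ℓ hℓ hℓk)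
      (finiteAlong_heckeAlphaBar (N * k) ℓ hℓ)

end Fermat.Agent.S37.H818

end

end
-- ===== PACK-END S37/H818/ModularNorm.lean

-- ===== PACK-BEGIN A2/H528/Fricke.lean
section


/-!
# A2 / W — the Fricke (Atkin–Lehner) involution `w_N` of the function field of `X₀(N)`

* `fricke N τ = -1/(Nτ)` on `ℍ`, `Jd d ∘ fricke N = Jd (N/d)` for `d ∣ N`;
* `wR N : RN N →+* RN N`, the induced involution of `ℚ̄[j(q^d) : d ∣ N] ⊆ ℚ̄((q))`
  (`j(q^d) ↦ j(q^{N/d})`, identity on the constants);
* `wF N : FF N ≃ₐ[ℚ̄] FF N`, its extension to `FF N = modularFunctionFieldBar N`.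
-/

set_option autoImplicit false

noncomputable section

open ModularCurve HahnSeries UpperHalfPlane
open scoped MatrixGroups

namespace Fermat.Agent.A2.H528

open Fermat.Agent.S24 Fermat.Agent.S24.H997

variable (N : ℕ) [NeZero N]

/-- The Fricke map `τ ↦ -1/(Nτ)` of the upper half plane. -/
def fricke (τ : ℍ) : ℍ := ModularGroup.S • infAff N 0 1 τ

theorem fricke_coe (τ : ℍ) : (fricke N τ : ℂ) = -1 / ((N : ℂ) * τ) := by
  have hN : 0 < N := Nat.pos_of_ne_zero (NeZero.ne N)
  rw [fricke, UpperHalfPlane.modular_S_smul]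
  show (-(infAff N 0 1 τ : ℂ))⁻¹ = _
  rw [infAff_coe hN one_pos]
  simp only [Int.cast_zero, add_zero, Nat.cast_one, div_one]
  rw [inv_neg, neg_div, one_div]

theorem fricke_fricke (τ : ℍ) : fricke N (fricke N τ) = τ := by
  apply UpperHalfPlane.ext
  rw [fricke_coe, fricke_coe]
  have hN : (N : ℂ) ≠ 0 := by exact_mod_cast NeZero.ne N
  have hτ : (τ : ℂ) ≠ 0 := UpperHalfPlane.ne_zero τ
  field_simp

theorem Jd_fricke {d : ℕ} (hd : d ∣ N) (τ : ℍ) : Jd d (fricke N τ) = Jd (N / d) τ := by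
  have hN : 0 < N := Nat.pos_of_ne_zero (NeZero.ne N)
  have hd0 : 0 < d := Nat.pos_of_dvd_of_pos hd hN
  have hd1 : 0 < N / d := Nat.div_pos (Nat.le_of_dvd hN hd) hd0
  have key : infAff d 0 1 (fricke N τ) = ModularGroup.S • infAff (N / d) 0 1 τ := by
    apply UpperHalfPlane.ext
    rw [infAff_coe hd0 one_pos, fricke_coe, UpperHalfPlane.modular_S_smul]
    show _ = (-(infAff (N / d) 0 1 τ : ℂ))⁻¹
    rw [infAff_coe hd1 one_pos]
    have hNd : (N : ℂ) = (d : ℂ) * ((N / d : ℕ) : ℂ) := by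
      rw [← Nat.cast_mul, Nat.mul_div_cancel' hd]
    have hdc : (d : ℂ) ≠ 0 := by exact_mod_cast hd0.ne'
    have hd1c : ((N / d : ℕ) : ℂ) ≠ 0 := by exact_mod_cast hd1.ne'
    have hτ : (τ : ℂ) ≠ 0 := UpperHalfPlane.ne_zero τ
    rw [hNd]
    simp only [Int.cast_zero, add_zero, Nat.cast_one, div_one]
    field_simp
  unfold Jd
  rw [key, jFun_smul']

/-- Precomposition with the Fricke map, as a ring endomorphism of `ℍ → ℂ`. -/
def compW : (ℍ → ℂ) →+* (ℍ → ℂ) where
  toFun f := fun τ => f (fricke N τ)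
  map_one' := rfl
  map_mul' _ _ := rfl
  map_zero' := rfl
  map_add' _ _ := rfl

omit [NeZero N] in
@[simp] theorem compW_apply (f : ℍ → ℂ) (τ : ℍ) : compW N f τ = f (fricke N τ) := rfl

theorem compW_compW (f : ℍ → ℂ) : compW N (compW N f) = f := by
  funext τ
  simp [fricke_fricke]

/-- The analytic realisation `R_N → (ℍ → ℂ)` of the polynomial ring. -/
def toFun : RN N →+* (ℍ → ℂ) := (holBase N).Hol.subtype.comp (holBase N).bridge

theorem toFun_injective : Function.Injective (toFun N) := by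
  intro r r' h
  exact (holBase N).bridge_injective (Subtype.ext h)

theorem toFun_jR (d : ℕ) [NeZero d] (hd : d ∣ N) : toFun N (jR N d hd) = Jd d := by
  show (((holBase N).bridge (jR N d hd) : (holBase N).Hol) : ℍ → ℂ) = _
  rw [(holBase N).bridge_jR d hd]
  rfl

theorem toFun_algebraMap (c : Kbar) :
    toFun N (algebraMap Kbar (RN N) c) = fun _ => ιK c := by
  show (((holBase N).bridge (algebraMap Kbar (RN N) c) : (holBase N).Hol) : ℍ → ℂ) = _
  rw [(holBase N).bridge_algebraMap c]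
  rfl

theorem neZero_div {d : ℕ} (hd : d ∣ N) : NeZero (N / d) := by
  have hN : 0 < N := Nat.pos_of_ne_zero (NeZero.ne N)
  have hd0 : 0 < d := Nat.pos_of_dvd_of_pos hd hN
  exact ⟨(Nat.div_pos (Nat.le_of_dvd hN hd) hd0).ne'⟩

theorem compW_toFun_mem (r : RN N) : compW N (toFun N r) ∈ (toFun N).range := by
  obtain ⟨r, hr⟩ := r
  induction hr using Algebra.adjoin_induction with
  | mem x hx =>
      obtain ⟨y, ⟨d, hne, hd, rfl⟩, rfl⟩ := hx
      have := hne
      have := neZero_div N hd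
      have h1 : (⟨coeffEmb Kbar (qExpand ℚ d jq), Algebra.subset_adjoin
          ⟨_, ⟨d, hne, hd, rfl⟩, rfl⟩⟩ : RN N) = jR N d hd := rfl
      rw [h1, toFun_jR]
      refine ⟨jR N (N / d) (Nat.div_dvd_of_dvd hd), ?_⟩
      rw [toFun_jR]
      funext τ
      exact (Jd_fricke N hd τ).symm
  | algebraMap c =>
      have h1 : (⟨algebraMap Kbar (LaurentSeries Kbar) c, Subalgebra.algebraMap_mem _ c⟩ : RN N)
          = algebraMap Kbar (RN N) c := rfl
      rw [h1, toFun_algebraMap]
      exact ⟨algebraMap Kbar (RN N) c, toFun_algebraMap N c⟩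
  | add x y hx hy ihx ihy =>
      have h1 : (⟨x + y, add_mem hx hy⟩ : RN N) = ⟨x, hx⟩ + ⟨y, hy⟩ := rfl
      rw [h1, _root_.map_add, _root_.map_add]
      exact add_mem ihx ihy
  | mul x y hx hy ihx ihy =>
      have h1 : (⟨x * y, mul_mem hx hy⟩ : RN N) = ⟨x, hx⟩ * ⟨y, hy⟩ := rfl
      rw [h1, _root_.map_mul, _root_.map_mul]
      exact mul_mem ihx ihy

/-- `R_N ≃ range toFun`. -/
def toFunEquiv : RN N ≃+* (toFun N).range :=
  RingEquiv.ofBijective (toFun N).rangeRestrict
    ⟨fun x y h => by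
      have h' : ((toFun N).rangeRestrict x : ℍ → ℂ) = ((toFun N).rangeRestrict y : ℍ → ℂ) := by
        rw [h]
      exact toFun_injective N h', (toFun N).rangeRestrict_surjective⟩

/-- **The Fricke involution on `R_N = ℚ̄[j(q^d) : d ∣ N]`.** -/
def wR : RN N →+* RN N :=
  ((toFunEquiv N).symm : (toFun N).range →+* RN N).comp
    (((compW N).comp (toFun N)).codRestrict (toFun N).range fun r => compW_toFun_mem N r)

theorem toFun_wR (r : RN N) : toFun N (wR N r) = compW N (toFun N r) := by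
  have h := (toFunEquiv N).apply_symm_apply
    ((((compW N).comp (toFun N)).codRestrict (toFun N).range
      fun r => compW_toFun_mem N r) r)
  exact congrArg Subtype.val h

theorem wR_wR (r : RN N) : wR N (wR N r) = r := by
  apply toFun_injective N
  rw [toFun_wR, toFun_wR, compW_compW]

theorem wR_injective : Function.Injective (wR N) :=
  Function.LeftInverse.injective (wR_wR N)

theorem wR_algebraMap (c : Kbar) : wR N (algebraMap Kbar (RN N) c) = algebraMap Kbar (RN N) c := by
  apply toFun_injective N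
  rw [toFun_wR, toFun_algebraMap]
  rfl

theorem wR_jR (d : ℕ) [NeZero d] (hd : d ∣ N) :
    haveI := neZero_div N hd
    wR N (jR N d hd) = jR N (N / d) (Nat.div_dvd_of_dvd hd) := by
  have := neZero_div N hd
  apply toFun_injective N
  rw [toFun_wR, toFun_jR, toFun_jR]
  funext τ
  exact Jd_fricke N hd τ

/-- The Fricke involution on `FF N`, as a ring homomorphism. -/
def wFHom : FF N →+* FF N :=
  liftF ((inclRN N).toRingHom.comp (wR N))
    ((inclRN_injective N).comp (wR_injective N))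

theorem wFHom_inclRN (r : RN N) : wFHom N (inclRN N r) = inclRN N (wR N r) :=
  liftF_inclRN _ _ r

theorem wFHom_wFHom (f : FF N) : wFHom N (wFHom N f) = f := by
  obtain ⟨r, t, -, rfl⟩ := exists_div_inclRN N f
  rw [map_div₀, map_div₀, wFHom_inclRN, wFHom_inclRN, wFHom_inclRN, wFHom_inclRN, wR_wR, wR_wR]

theorem wFHom_algebraMap (c : Kbar) :
    wFHom N (algebraMap Kbar (FF N) c) = algebraMap Kbar (FF N) c := by
  have h : algebraMap Kbar (FF N) c = inclRN N (algebraMap Kbar (RN N) c) :=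
    ((inclRN N).commutes c).symm
  rw [h, wFHom_inclRN, wR_algebraMap]

/-- **The Fricke involution `w_N` of the function field of `X₀(N)` over `ℚ̄`.** -/
def wF : FF N ≃ₐ[Kbar] FF N :=
  AlgEquiv.ofAlgHom
    { toRingHom := wFHom N, commutes' := wFHom_algebraMap N }
    { toRingHom := wFHom N, commutes' := wFHom_algebraMap N }
    (AlgHom.ext fun f => wFHom_wFHom N f)
    (AlgHom.ext fun f => wFHom_wFHom N f)

@[simp] theorem wF_apply (f : FF N) : wF N f = wFHom N f := rfl

theorem wF_wF (f : FF N) : wF N (wF N f) = f := wFHom_wFHom N f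

theorem wF_symm : (wF N).symm = wF N := by
  refine AlgEquiv.ext fun f => ?_
  apply (wF N).injective
  rw [AlgEquiv.apply_symm_apply, wF_wF]

/-- `j(q^d)` as an element of `FF N`. -/
def jFd (d : ℕ) [NeZero d] (hd : d ∣ N) : FF N := inclRN N (jR N d hd)

omit [NeZero N] in
@[simp] theorem coe_jFd (d : ℕ) [NeZero d] (hd : d ∣ N) :
    ((jFd N d hd : FF N) : LaurentSeries Kbar) = coeffEmb Kbar (qExpand ℚ d jq) := rfl

/-- `w_N (j(q^d)) = j(q^{N/d})`. -/
theorem wF_jFd (d : ℕ) [NeZero d] (hd : d ∣ N) :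
    haveI := neZero_div N hd
    wF N (jFd N d hd) = jFd N (N / d) (Nat.div_dvd_of_dvd hd) := by
  have := neZero_div N hd
  show wFHom N (inclRN N (jR N d hd)) = _
  rw [wFHom_inclRN, wR_jR]
  rfl

end Fermat.Agent.A2.H528

end
end
-- ===== PACK-END A2/H528/Fricke.lean

-- ===== PACK-BEGIN A2/H528/FrickeGalois.lean
section


/-!
# A2 / W — the Fricke involution commutes with the arithmetic Galois action

* `wF_galois` : `w_N (σ • f) = σ • w_N f` for `σ ∈ Gal(ℚ̄/ℚ)` acting on the coefficients;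
* `wSemi N : SemilinearAut ℚ̄ (FF N)` : `w_N` as a semilinear automorphism (so that it acts on
  places, divisors and on `JZero N = Pic0`), commuting with `arithmeticGalois`;
* `wF_rat` : `w_N` preserves the `ℚ`-rational functions `coeffEmb (modularFunctionFieldFull N)`;
* `comapW` : pull back of a valuation subring by `w_N` (`V₀ := comapW V∞`), with transfer of
  "`σ`-stable" and "`σ` acts trivially on the residue field".
-/

set_option autoImplicit false
set_option synthInstance.maxHeartbeats 400000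
set_option maxHeartbeats 1000000

noncomputable section

open ModularCurve HahnSeries AlgebraicCurve

namespace Fermat.Agent.A2.H528

open Fermat.Agent.S24 Fermat.Agent.S24.H997

variable (N : ℕ) [NeZero N]

/-- the Galois action on `FF N` through the coefficients -/
abbrev gal (σ : Kbar ≃ₐ[ℚ] Kbar) : FF N ≃+* FF N :=
  arithmeticRingAut (modularFunctionFieldFull N) σ

omit [NeZero N] in
theorem gal_inclRN_jR (σ : Kbar ≃ₐ[ℚ] Kbar) (d : ℕ) [NeZero d] (hd : d ∣ N) :
    gal N σ (inclRN N (jR N d hd)) = inclRN N (jR N d hd) := by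
  apply Subtype.ext
  show coeffMap (σ : Kbar →+* Kbar) (coeffEmb Kbar (qExpand ℚ d jq)) = _
  rw [coeffMap_coeffEmb]
  rfl

omit [NeZero N] in
theorem gal_algebraMap (σ : Kbar ≃ₐ[ℚ] Kbar) (c : Kbar) :
    gal N σ (algebraMap Kbar (FF N) c) = algebraMap Kbar (FF N) (σ c) :=
  arithmeticRingAut_algebraMap (modularFunctionFieldFull N) σ c

theorem wFHom_gal_inclRN (σ : Kbar ≃ₐ[ℚ] Kbar) (r : RN N) :
    wFHom N (gal N σ (inclRN N r)) = gal N σ (wFHom N (inclRN N r)) := by
  obtain ⟨r, hr⟩ := r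
  induction hr using Algebra.adjoin_induction with
  | mem x hx =>
      obtain ⟨y, ⟨d, hne, hd, rfl⟩, rfl⟩ := hx
      have := hne
      have := neZero_div N hd
      have h1 : (⟨coeffEmb Kbar (qExpand ℚ d jq), Algebra.subset_adjoin
          ⟨_, ⟨d, hne, hd, rfl⟩, rfl⟩⟩ : RN N) = jR N d hd := rfl
      rw [h1, gal_inclRN_jR, wFHom_inclRN, wR_jR, gal_inclRN_jR]
  | algebraMap c =>
      have h1 : (⟨algebraMap Kbar (LaurentSeries Kbar) c, Subalgebra.algebraMap_mem _ c⟩ : RN N)
          = algebraMap Kbar (RN N) c := rfl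
      have h2 : inclRN N (algebraMap Kbar (RN N) c) = algebraMap Kbar (FF N) c :=
        (inclRN N).commutes c
      rw [h1, h2, gal_algebraMap, wFHom_algebraMap, wFHom_algebraMap, gal_algebraMap]
  | add x y hx hy ihx ihy =>
      have h1 : (⟨x + y, add_mem hx hy⟩ : RN N) = ⟨x, hx⟩ + ⟨y, hy⟩ := rfl
      rw [h1, _root_.map_add, _root_.map_add, _root_.map_add, _root_.map_add, _root_.map_add, ihx, ihy]
  | mul x y hx hy ihx ihy =>
      have h1 : (⟨x * y, mul_mem hx hy⟩ : RN N) = ⟨x, hx⟩ * ⟨y, hy⟩ := rfl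
      rw [h1, _root_.map_mul, _root_.map_mul, _root_.map_mul, _root_.map_mul, _root_.map_mul, ihx, ihy]

/-- **`w_N` commutes with the Galois action on the coefficients.** -/
theorem wF_gal (σ : Kbar ≃ₐ[ℚ] Kbar) (f : FF N) :
    wF N (gal N σ f) = gal N σ (wF N f) := by
  obtain ⟨r, t, -, rfl⟩ := exists_div_inclRN N f
  show wFHom N (gal N σ (inclRN N r / inclRN N t)) = gal N σ (wFHom N (inclRN N r / inclRN N t))
  rw [map_div₀, map_div₀, map_div₀, map_div₀, wFHom_gal_inclRN, wFHom_gal_inclRN]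

/-- `w_N` as a semilinear automorphism of `FF N / ℚ̄` (trivial on the constants). -/
def wSemi : SemilinearAut Kbar (FF N) := SemilinearAut.ofAlgAut (wF N)

@[simp] theorem wSemi_smul (f : FF N) : wSemi N • f = wF N f := rfl

theorem wSemi_mul_self : wSemi N * wSemi N = 1 := by
  rw [wSemi, ← _root_.map_mul]
  have h : wF N * wF N = 1 := AlgEquiv.ext fun f => wF_wF N f
  rw [h, _root_.map_one]

theorem wSemi_inv : (wSemi N)⁻¹ = wSemi N :=
  inv_eq_of_mul_eq_one_left (wSemi_mul_self N)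

/-- **`w_N` commutes with `arithmeticGalois` inside `SemilinearAut`**; hence the actions on
places, divisors and on `JZero N` commute. -/
theorem wSemi_comm (σ : Kbar ≃ₐ[ℚ] Kbar) :
    wSemi N * arithmeticGalois (modularFunctionFieldFull N) σ
      = arithmeticGalois (modularFunctionFieldFull N) σ * wSemi N := by
  refine Subtype.ext (Prod.ext (RingEquiv.ext fun f => ?_) ?_)
  · exact wF_gal N σ f
  · show (1 : RingAut Kbar) * σ.toRingEquiv = σ.toRingEquiv * 1
    rw [one_mul, mul_one]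

/-- The actions of `w_N` and of the Galois group on `JZero N` commute. -/
theorem wSemi_smul_galois_smul (σ : Kbar ≃ₐ[ℚ] Kbar) (x : JZero N) :
    wSemi N • (σ • x) = σ • (wSemi N • x) := by
  rw [galois_smul_pic0_def, galois_smul_pic0_def, ← mul_smul, ← mul_smul, wSemi_comm]

/-- `w_N` preserves the `ℚ`-rational functions. -/
theorem wF_rat {x : LaurentSeries ℚ} (hx : x ∈ modularFunctionFieldFull N) :
    ∃ y ∈ modularFunctionFieldFull N,
      ((wF N ⟨coeffEmb Kbar x, coeffEmb_mem_laurentBaseChange Kbar hx⟩ : FF N) :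
        LaurentSeries Kbar) = coeffEmb Kbar y := by
  have key : ∀ x ∈ modularFunctionFieldFull N, ∀ hx' : coeffEmb Kbar x ∈ modularFunctionFieldBar N,
      ∃ y ∈ modularFunctionFieldFull N,
        ((wF N ⟨coeffEmb Kbar x, hx'⟩ : FF N) : LaurentSeries Kbar) = coeffEmb Kbar y := by
    intro x hx
    have hx0 : x ∈ IntermediateField.adjoin ℚ (divisorExpansions N) := hx
    induction hx0 using IntermediateField.adjoin_induction with
    | mem y hy =>
        intro hx'
        obtain ⟨d, hne, hd, rfl⟩ := hy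
        have := hne
        have := neZero_div N hd
        refine ⟨qExpand ℚ (N / d) jq, jqd_mem_full N (Nat.div_dvd_of_dvd hd), ?_⟩
        have h1 : (⟨coeffEmb Kbar (qExpand ℚ d jq), hx'⟩ : FF N) = jFd N d hd := rfl
        rw [h1, wF_jFd]
        rfl
    | algebraMap c =>
        intro hx'
        refine ⟨algebraMap ℚ (LaurentSeries ℚ) c, IntermediateField.algebraMap_mem _ c, ?_⟩
        have h0 : coeffEmb Kbar (algebraMap ℚ (LaurentSeries ℚ) c)
            = algebraMap Kbar (LaurentSeries Kbar) (algebraMap ℚ Kbar c) := by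
          rw [algebraMap_apply_eq_single, algebraMap_laurentSeries_eq_single, coeffEmb,
            coeffMap_single]
        have h1 : (⟨coeffEmb Kbar (algebraMap ℚ (LaurentSeries ℚ) c), hx'⟩ : FF N)
            = algebraMap Kbar (FF N) (algebraMap ℚ Kbar c) := Subtype.ext h0
        rw [h1]
        show ((wFHom N (algebraMap Kbar (FF N) (algebraMap ℚ Kbar c)) : FF N) :
          LaurentSeries Kbar) = _
        rw [wFHom_algebraMap, h0]
        rfl
    | add y z hy hz ihy ihz =>
        intro hx'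
        have hy' := coeffEmb_mem_laurentBaseChange Kbar (F₀ := modularFunctionFieldFull N) hy
        have hz' := coeffEmb_mem_laurentBaseChange Kbar (F₀ := modularFunctionFieldFull N) hz
        obtain ⟨a, ha, ha'⟩ := ihy hy hy'
        obtain ⟨b, hb, hb'⟩ := ihz hz hz'
        refine ⟨a + b, add_mem ha hb, ?_⟩
        have h1 : (⟨coeffEmb Kbar (y + z), hx'⟩ : FF N)
            = ⟨coeffEmb Kbar y, hy'⟩ + ⟨coeffEmb Kbar z, hz'⟩ := Subtype.ext (_root_.map_add _ _ _)
        rw [h1, _root_.map_add, _root_.map_add]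
        show ((wF N ⟨coeffEmb Kbar y, hy'⟩ : FF N) : LaurentSeries Kbar)
          + ((wF N ⟨coeffEmb Kbar z, hz'⟩ : FF N) : LaurentSeries Kbar) = _
        rw [ha', hb']
    | inv y hy ihy =>
        intro hx'
        have hy' := coeffEmb_mem_laurentBaseChange Kbar (F₀ := modularFunctionFieldFull N) hy
        obtain ⟨a, ha, ha'⟩ := ihy hy hy'
        refine ⟨a⁻¹, inv_mem ha, ?_⟩
        have h1 : (⟨coeffEmb Kbar (y⁻¹), hx'⟩ : FF N)
            = (⟨coeffEmb Kbar y, hy'⟩ : FF N)⁻¹ := Subtype.ext (map_inv₀ _ _)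
        rw [h1, map_inv₀, map_inv₀]
        show ((wF N ⟨coeffEmb Kbar y, hy'⟩ : FF N) : LaurentSeries Kbar)⁻¹ = _
        rw [ha']
    | mul y z hy hz ihy ihz =>
        intro hx'
        have hy' := coeffEmb_mem_laurentBaseChange Kbar (F₀ := modularFunctionFieldFull N) hy
        have hz' := coeffEmb_mem_laurentBaseChange Kbar (F₀ := modularFunctionFieldFull N) hz
        obtain ⟨a, ha, ha'⟩ := ihy hy hy'
        obtain ⟨b, hb, hb'⟩ := ihz hz hz'
        refine ⟨a * b, mul_mem ha hb, ?_⟩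
        have h1 : (⟨coeffEmb Kbar (y * z), hx'⟩ : FF N)
            = ⟨coeffEmb Kbar y, hy'⟩ * ⟨coeffEmb Kbar z, hz'⟩ := Subtype.ext (_root_.map_mul _ _ _)
        rw [h1, _root_.map_mul, _root_.map_mul]
        show ((wF N ⟨coeffEmb Kbar y, hy'⟩ : FF N) : LaurentSeries Kbar)
          * ((wF N ⟨coeffEmb Kbar z, hz'⟩ : FF N) : LaurentSeries Kbar) = _
        rw [ha', hb']
  exact key x hx _

/-! ### Pull back of valuation subrings by `w_N` -/

/-- The pull back `V ∘ w_N` of a valuation subring of `FF N`. (`V₀ := comapW N V∞`.) -/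
def comapW (V : ValuationSubring (FF N)) : ValuationSubring (FF N) :=
  V.comap (wF N : FF N ≃+* FF N).toRingHom

theorem mem_comapW {V : ValuationSubring (FF N)} {f : FF N} :
    f ∈ comapW N V ↔ wF N f ∈ V := Iff.rfl

theorem comapW_comapW (V : ValuationSubring (FF N)) : comapW N (comapW N V) = V := by
  ext f
  rw [mem_comapW, mem_comapW, wF_wF]

/-- the constants of `V ∘ w_N` are the constants of `V` -/
theorem algebraMap_mem_comapW {V : ValuationSubring (FF N)} {c : Kbar} :
    algebraMap Kbar (FF N) c ∈ comapW N V ↔ algebraMap Kbar (FF N) c ∈ V := by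
  rw [mem_comapW]
  show wFHom N (algebraMap Kbar (FF N) c) ∈ V ↔ _
  rw [wFHom_algebraMap]

/-- if `σ` stabilises `V`, it stabilises `V ∘ w_N` -/
theorem gal_mem_comapW {V : ValuationSubring (FF N)} (σ : Kbar ≃ₐ[ℚ] Kbar)
    (h : ∀ f : FF N, f ∈ V → gal N σ f ∈ V) (f : FF N) (hf : f ∈ comapW N V) :
    gal N σ f ∈ comapW N V := by
  rw [mem_comapW] at hf ⊢
  rw [wF_gal]
  exact h _ hf

/-- if `σ` acts trivially on the residue field of `V`, it does so on that of `V ∘ w_N`:
`σ f - f` is a non-unit of `V ∘ w_N` for every `f ∈ V ∘ w_N`. -/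
theorem gal_sub_mem_comapW {V : ValuationSubring (FF N)} (σ : Kbar ≃ₐ[ℚ] Kbar)
    (h : ∀ f : FF N, f ∈ V → V.valuation (gal N σ f - f) < 1) (f : FF N)
    (hf : f ∈ comapW N V) :
    V.valuation (wF N (gal N σ f - f)) < 1 := by
  rw [mem_comapW] at hf
  rw [_root_.map_sub, wF_gal]
  exact h _ hf

end Fermat.Agent.A2.H528

end
end
-- ===== PACK-END A2/H528/FrickeGalois.lean

-- ===== PACK-BEGIN S37/H218/Degree.lean
section




/-!
# S37 / [ES] leaf D-deg (helper218): the degree of the degeneracy map `β = V_ℓ`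

`E_N(k) := modularFunctionFieldFullC k N = k(j(q^d) : d ∣ N) ⊂ k((q))`, `V_ℓ : f(q) ↦ f(q^ℓ)`.

* `relfinrank_map_qExpand_full_mul_prime` :
  `[E_{Np}(k) : V_p(E_N(k))] = p + 1` if `p ∤ N`, `= p` if `p ∣ N`
  (all primes dividing `N p` invertible in `k`);
* `relfinrank_map_qExpand_bar_mul_prime` : the same for the Prelude's `modularFunctionFieldBar`;
* `finrankAlong_heckeBetaBar` :
  `finrankAlong ℚ̄ (heckeBetaBar ℚ̄ N ℓ) = [F̄_{Nℓ} : V_ℓ(F̄_N)]` (as a `relfinrank`);
* `finrankAlong_heckeBetaBar_of_not_dvd` : `finrankAlong ℚ̄ (heckeBetaBar ℚ̄ N ℓ) = ℓ + 1` for a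
  prime `ℓ ∤ N`;  `finrankAlong_heckeBetaBar_of_dvd` : `= ℓ` for a prime `ℓ ∣ N`.

Proof: degree counting over `k(j)` and `k(j(q^p))` with the landed S28 degree theory
(`H867.PrimeLevel`: `[k(j, j_p) : k(j)] = p + 1 = [k(j, j_p) : k(j_p)]`, `H988`: `[E_N : k(j)] = ψ(N)`).
-/

set_option autoImplicit false

noncomputable section

open ModularCurve HahnSeries IntermediateField AlgebraicCurve

namespace Fermat.Agent.S37.H218

open Fermat.Agent.S28

section AnyField

variable (k : Type*) [Field k]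

/-- `[E_{Np} : V_p(E_N)] * ψ(N) = ψ(N p)` for a prime `p`. -/
theorem relfinrank_map_qExpand_full_mul_psi (N p : ℕ) [NeZero p] (hN : N ≠ 0) (hp : p.Prime)
    (hchar : ∀ r : ℕ, r.Prime → r ∣ N * p → (r : k) ≠ 0) :
    dedekindPsi N *
      ((modularFunctionFieldFullC k N).map (qExpandAlgHomC k p)).relfinrank
        (modularFunctionFieldFullC k (N * p)) = dedekindPsi (N * p) := by
  have hNp : N * p ≠ 0 := Nat.mul_ne_zero hN hp.ne_zero
  have hG := H988.good_of_char k (N * p) hNp hchar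
  have hP : H867.PrimeLevel k p := hG.prime p hp (dvd_mul_left p N)
  set V := qExpandAlgHomC k p with hV
  set A₀ := jField k with hA₀
  set A := H867.jpField k p with hA
  set B := (modularFunctionFieldFullC k N).map V with hB
  set E' := modularFunctionFieldFullC k (N * p) with hE'
  set P := A₀ ⊔ A with hPdef
  have hAB : A ≤ B := by
    rw [hA, H867.jpField_eq_map, hB]
    exact IntermediateField.map_mono _ (H867.jField_le_EF k N)
  have hBE : B ≤ E' := H867.map_EF_le k N p
  have hA₀E : A₀ ≤ E' := H867.jField_le_EF k (N * p)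
  have hPE : P ≤ E' := sup_le hA₀E (hAB.trans hBE)
  have hA₀P : A₀ ≤ P := le_sup_left
  have hAP : A ≤ P := le_sup_right
  have h1 : A₀.relfinrank E' = A.relfinrank E' := by
    rw [← relfinrank_mul_relfinrank hA₀P hPE, ← relfinrank_mul_relfinrank hAP hPE,
      hP.deg_j, hP.deg_jp]
  have h3 : A.relfinrank B = dedekindPsi N := by
    rw [hA, H867.jpField_eq_map, hB, relfinrank_map_map]
    exact H988.relfinrank_jField_full_eq k N hN
      (fun r hr hrN => hchar r hr (hrN.trans (Dvd.intro p rfl)))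
  have h4 : A₀.relfinrank E' = dedekindPsi (N * p) :=
    H988.relfinrank_jField_full_eq k (N * p) hNp hchar
  rw [← h3, relfinrank_mul_relfinrank hAB hBE, ← h1, h4]

/-- **Degree of `β = V_p`.** `[E_{Np} : V_p(E_N)] = p + 1` if `p ∤ N`, `= p` if `p ∣ N`. -/
theorem relfinrank_map_qExpand_full_mul_prime (N p : ℕ) [NeZero p] (hN : N ≠ 0) (hp : p.Prime)
    (hchar : ∀ r : ℕ, r.Prime → r ∣ N * p → (r : k) ≠ 0) :
    ((modularFunctionFieldFullC k N).map (qExpandAlgHomC k p)).relfinrank
        (modularFunctionFieldFullC k (N * p)) = if p ∣ N then p else p + 1 := by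
  have h := relfinrank_map_qExpand_full_mul_psi k N p hN hp hchar
  have hpos := H988.dedekindPsi_pos N hN
  by_cases hpN : p ∣ N
  · rw [if_pos hpN]
    rw [H626.psi_mul_prime_of_dvd hN hp hpN, mul_comm p] at h
    exact Nat.eq_of_mul_eq_mul_left hpos h
  · rw [if_neg hpN]
    rw [H626.psi_mul_prime_of_not_dvd hN hp hpN, mul_comm (p + 1)] at h
    exact Nat.eq_of_mul_eq_mul_left hpos h

end AnyField

section Bar

/-- `[ℚ̄(X₀(Np)) : V_p ℚ̄(X₀(N))] = p + 1` if `p ∤ N`, `= p` if `p ∣ N`. -/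
theorem relfinrank_map_qExpand_bar_mul_prime (N p : ℕ) [NeZero p] (hN : N ≠ 0) (hp : p.Prime) :
    ((modularFunctionFieldBar N).map (qExpandAlgHomC (AlgebraicClosure ℚ) p)).relfinrank
        (modularFunctionFieldBar (N * p)) = if p ∣ N then p else p + 1 := by
  rw [H988.modularFunctionFieldBar_eq_fullC, H988.modularFunctionFieldBar_eq_fullC]
  exact relfinrank_map_qExpand_full_mul_prime _ N p hN hp
    (fun r hr _ => H988.natCast_ne_zero_bar hr.ne_zero)

variable (N ℓ : ℕ) [NeZero N] [NeZero ℓ]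

omit [NeZero N] in
theorem map_qExpand_bar_le :
    (modularFunctionFieldBar N).map (qExpandAlgHomC (AlgebraicClosure ℚ) ℓ)
      ≤ modularFunctionFieldBar (N * ℓ) := by
  rintro _ ⟨x, hx, rfl⟩
  exact (heckeBetaBar (AlgebraicClosure ℚ) N ℓ ⟨x, hx⟩).2

omit [NeZero N] in
/-- The degree of the Prelude degeneracy map `β` is `[F̄_{Nℓ} : V_ℓ(F̄_N)]`. -/
theorem finrankAlong_heckeBetaBar :
    finrankAlong (AlgebraicClosure ℚ) (heckeBetaBar (AlgebraicClosure ℚ) N ℓ)
      = ((modularFunctionFieldBar N).map (qExpandAlgHomC (AlgebraicClosure ℚ) ℓ)).relfinrank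
          (modularFunctionFieldBar (N * ℓ)) := by
  have hle := map_qExpand_bar_le N ℓ
  rw [relfinrank_eq_finrank_of_le hle]
  let _ := algebraAlong (heckeBetaBar (AlgebraicClosure ℚ) N ℓ)
  show Module.finrank ↥(modularFunctionFieldBar N) ↥(modularFunctionFieldBar (N * ℓ)) = _
  let i : ↥(modularFunctionFieldBar N) ≃+*
      ↥((modularFunctionFieldBar N).map (qExpandAlgHomC (AlgebraicClosure ℚ) ℓ)) :=
    (IntermediateField.equivMap (modularFunctionFieldBar N)
      (qExpandAlgHomC (AlgebraicClosure ℚ) ℓ)).toRingEquiv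
  let j : ↥(modularFunctionFieldBar (N * ℓ)) ≃+* ↥(extendScalars hle) :=
    { toFun := fun x => ⟨x.1, x.2⟩
      invFun := fun y => ⟨y.1, y.2⟩
      left_inv := fun _ => rfl
      right_inv := fun _ => rfl
      map_mul' := fun _ _ => rfl
      map_add' := fun _ _ => rfl }
  refine Algebra.finrank_eq_of_equiv_equiv i j ?_
  ext x
  rfl

/-- For a prime `ℓ ∤ N` the degeneracy map `β : F̄_N → F̄_{Nℓ}` has degree `ℓ + 1`. -/
theorem finrankAlong_heckeBetaBar_of_not_dvd (hℓ : ℓ.Prime) (h : ¬ ℓ ∣ N) :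
    finrankAlong (AlgebraicClosure ℚ) (heckeBetaBar (AlgebraicClosure ℚ) N ℓ) = ℓ + 1 := by
  rw [finrankAlong_heckeBetaBar, relfinrank_map_qExpand_bar_mul_prime N ℓ (NeZero.ne N) hℓ,
    if_neg h]

/-- For a prime `ℓ ∣ N` the degeneracy map `β : F̄_N → F̄_{Nℓ}` has degree `ℓ`. -/
theorem finrankAlong_heckeBetaBar_of_dvd (hℓ : ℓ.Prime) (h : ℓ ∣ N) :
    finrankAlong (AlgebraicClosure ℚ) (heckeBetaBar (AlgebraicClosure ℚ) N ℓ) = ℓ := by
  rw [finrankAlong_heckeBetaBar, relfinrank_map_qExpand_bar_mul_prime N ℓ (NeZero.ne N) hℓ,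
    if_pos h]

/-- For every prime `ℓ` the degree of `β` is at most `ℓ + 1`. -/
theorem finrankAlong_heckeBetaBar_le (hℓ : ℓ.Prime) :
    finrankAlong (AlgebraicClosure ℚ) (heckeBetaBar (AlgebraicClosure ℚ) N ℓ) ≤ ℓ + 1 := by
  by_cases h : ℓ ∣ N
  · rw [finrankAlong_heckeBetaBar_of_dvd N ℓ hℓ h]
    exact Nat.le_succ ℓ
  · rw [finrankAlong_heckeBetaBar_of_not_dvd N ℓ hℓ h]

end Bar

end Fermat.Agent.S37.H218

end

end
-- ===== PACK-END S37/H218/Degree.lean

-- ===== PACK-BEGIN A2/Mod/H751/Fricke.lean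
section




/-!
# A2 / MOD, leaves L4 (`FrickeExists`) and L5 (`FrickeCompat`)  (helper751)

* `FE_induction` : induction principle for the function field `F_{N,K} = K(j_d : d ∣ N)`
  (any field `K ⊇ ℚ`): a predicate holding on the constants and on the generators `j_d`, stable
  under `+`, `*`, `⁻¹`, holds everywhere;
* `ringHom_ext_FE` : two ring homomorphisms out of `F_{N,K}` agreeing on constants and generators
  are equal;
* `frickeCompat : FrickeCompatStatement E M q`  (**L5**);
* `frickeExists : FrickeExistsStatement E`  (**L4**), by descent of `H528.wF` (the Fricke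
  involution over `ℚ̄`) along the coefficientwise inclusion `ι : F_{N,E} → F_{N,ℚ̄}`;
  `frickeE`, `iotaE_frickeE : ι (W_E f) = w_N (ι f)`.
-/

set_option autoImplicit false
set_option synthInstance.maxHeartbeats 400000
set_option maxHeartbeats 1600000

noncomputable section

namespace Fermat.Agent.A2.Mod.H751

open ModularCurve HahnSeries Polynomial

/-! ### Induction on the function field `K(j_d : d ∣ N)` -/

section Induction

variable {K : Type*} [Field K] [Algebra ℚ K] (N : ℕ)

/-- The generator `j_d = j(t^d)` of `F_{N,K}`. -/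
def jK (K : Type*) [Field K] [Algebra ℚ K] (N d : ℕ) [NeZero d] (hd : d ∣ N) :
    ↥(laurentBaseChange K (modularFunctionFieldFull N)) :=
  ⟨coeffEmb K (qExpand ℚ d jq), coeffEmb_mem_laurentBaseChange K (jqd_mem_full N hd)⟩

theorem coeffEmb_algebraMap (c : ℚ) :
    coeffEmb K (algebraMap ℚ (LaurentSeries ℚ) c)
      = algebraMap K (LaurentSeries K) (algebraMap ℚ K c) := by
  rw [algebraMap_apply_eq_single, algebraMap_laurentSeries_eq_single, coeffEmb, coeffMap_single]

/-- **Induction principle for `F_{N,K}`.** -/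
theorem FE_induction
    (p : ↥(laurentBaseChange K (modularFunctionFieldFull N)) → Prop)
    (hc : ∀ e : K, p (algebraMap K _ e))
    (hj : ∀ (d : ℕ) [NeZero d] (hd : d ∣ N), p (jK K N d hd))
    (hadd : ∀ x y, p x → p y → p (x + y))
    (hmul : ∀ x y, p x → p y → p (x * y))
    (hinv : ∀ x, p x → p x⁻¹) :
    ∀ x, p x := by
  -- step 1: the rational functions
  have key1 : ∀ y ∈ modularFunctionFieldFull N,
      ∀ h : coeffEmb K y ∈ laurentBaseChange K (modularFunctionFieldFull N),
        p ⟨coeffEmb K y, h⟩ := by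
    intro y hy
    have hy0 : y ∈ IntermediateField.adjoin ℚ (divisorExpansions N) := hy
    induction hy0 using IntermediateField.adjoin_induction with
    | mem z hz =>
        intro h
        obtain ⟨d, hne, hd, rfl⟩ := hz
        haveI := hne
        exact hj d hd
    | algebraMap c =>
        intro h
        have h1 : (⟨coeffEmb K (algebraMap ℚ (LaurentSeries ℚ) c), h⟩ :
            ↥(laurentBaseChange K (modularFunctionFieldFull N)))
            = algebraMap K _ (algebraMap ℚ K c) := Subtype.ext (coeffEmb_algebraMap c)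
        rw [h1]
        exact hc _
    | add a b ha hb iha ihb =>
        intro h
        have ha' := coeffEmb_mem_laurentBaseChange K (F₀ := modularFunctionFieldFull N) ha
        have hb' := coeffEmb_mem_laurentBaseChange K (F₀ := modularFunctionFieldFull N) hb
        have h1 : (⟨coeffEmb K (a + b), h⟩ :
            ↥(laurentBaseChange K (modularFunctionFieldFull N)))
            = ⟨coeffEmb K a, ha'⟩ + ⟨coeffEmb K b, hb'⟩ := Subtype.ext (_root_.map_add _ _ _)
        rw [h1]
        exact hadd _ _ (iha ha ha') (ihb hb hb')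
    | inv a ha iha =>
        intro h
        have ha' := coeffEmb_mem_laurentBaseChange K (F₀ := modularFunctionFieldFull N) ha
        have h1 : (⟨coeffEmb K (a⁻¹), h⟩ :
            ↥(laurentBaseChange K (modularFunctionFieldFull N)))
            = (⟨coeffEmb K a, ha'⟩ : ↥(laurentBaseChange K (modularFunctionFieldFull N)))⁻¹ :=
          Subtype.ext (map_inv₀ _ _)
        rw [h1]
        exact hinv _ (iha ha ha')
    | mul a b ha hb iha ihb =>
        intro h
        have ha' := coeffEmb_mem_laurentBaseChange K (F₀ := modularFunctionFieldFull N) ha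
        have hb' := coeffEmb_mem_laurentBaseChange K (F₀ := modularFunctionFieldFull N) hb
        have h1 : (⟨coeffEmb K (a * b), h⟩ :
            ↥(laurentBaseChange K (modularFunctionFieldFull N)))
            = ⟨coeffEmb K a, ha'⟩ * ⟨coeffEmb K b, hb'⟩ := Subtype.ext (_root_.map_mul _ _ _)
        rw [h1]
        exact hmul _ _ (iha ha ha') (ihb hb hb')
  -- step 2: the whole field
  have key2 : ∀ x (h : x ∈ laurentBaseChange K (modularFunctionFieldFull N)), p ⟨x, h⟩ := by
    intro x hx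
    have hx0 : x ∈ IntermediateField.adjoin K
        (⇑(coeffEmb K) '' ((modularFunctionFieldFull N : IntermediateField ℚ (LaurentSeries ℚ)) :
          Set (LaurentSeries ℚ))) := hx
    induction hx0 using IntermediateField.adjoin_induction with
    | mem z hz =>
        obtain ⟨y, hy, rfl⟩ := hz
        exact key1 y hy hx
    | algebraMap c =>
        have h1 : (⟨algebraMap K (LaurentSeries K) c, hx⟩ :
            ↥(laurentBaseChange K (modularFunctionFieldFull N))) = algebraMap K _ c := rfl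
        rw [h1]
        exact hc c
    | add a b ha hb iha ihb =>
        have h1 : (⟨a + b, hx⟩ : ↥(laurentBaseChange K (modularFunctionFieldFull N)))
            = ⟨a, ha⟩ + ⟨b, hb⟩ := rfl
        rw [h1]
        exact hadd ⟨a, ha⟩ ⟨b, hb⟩ (iha ha) (ihb hb)
    | inv a ha iha =>
        have h1 : (⟨a⁻¹, hx⟩ : ↥(laurentBaseChange K (modularFunctionFieldFull N)))
            = (⟨a, ha⟩ : ↥(laurentBaseChange K (modularFunctionFieldFull N)))⁻¹ := rfl
        rw [h1]
        exact hinv ⟨a, ha⟩ (iha ha)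
    | mul a b ha hb iha ihb =>
        have h1 : (⟨a * b, hx⟩ : ↥(laurentBaseChange K (modularFunctionFieldFull N)))
            = ⟨a, ha⟩ * ⟨b, hb⟩ := rfl
        rw [h1]
        exact hmul ⟨a, ha⟩ ⟨b, hb⟩ (iha ha) (ihb hb)
  intro x
  exact key2 x.1 x.2

/-- Two ring homomorphisms out of `F_{N,K}` which agree on the constants and on the generators
`j_d`, `d ∣ N`, are equal. -/
theorem ringHom_ext_FE {T : Type*} [DivisionRing T]
    (φ ψ : ↥(laurentBaseChange K (modularFunctionFieldFull N)) →+* T)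
    (hc : ∀ e : K, φ (algebraMap K _ e) = ψ (algebraMap K _ e))
    (hj : ∀ (d : ℕ) [NeZero d] (hd : d ∣ N), φ (jK K N d hd) = ψ (jK K N d hd)) :
    ∀ x, φ x = ψ x := by
  refine FE_induction N (fun x => φ x = ψ x) hc hj ?_ ?_ ?_
  · intro x y hx hy
    show φ (x + y) = ψ (x + y)
    rw [_root_.map_add, _root_.map_add, hx, hy]
  · intro x y hx hy
    show φ (x * y) = ψ (x * y)
    rw [_root_.map_mul, _root_.map_mul, hx, hy]
  · intro x hx
    show φ x⁻¹ = ψ x⁻¹
    rw [map_inv₀, map_inv₀, hx]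

end Induction

/-! ### L5: compatibility of the Fricke involutions with `α`, `β` -/

section L5

variable (E : IntermediateField ℚ _root_.Fermat.Agent.A2.Mod.Qb) (M q : ℕ) [NeZero M] [NeZero q]

theorem jE_eq_jK (N d : ℕ) [NeZero d] (hd : d ∣ N) : jE E N d hd = jK E N d hd := rfl

/-- `α j_d = j_d`. -/
theorem alpha_jE (d : ℕ) [NeZero d] (hd : d ∣ M) :
    αE E M q (jE E M d hd) = jE E (M * q) d (hd.trans (dvd_mul_right M q)) :=
  Subtype.ext (coe_heckeAlphaBar M q _)

/-- `β j_d = j_{qd}`. -/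
theorem beta_jE (d : ℕ) [NeZero d] (hd : d ∣ M) :
    βE E M q (jE E M d hd)
      = jE E (M * q) (q * d) (by rw [mul_comm M q]; exact mul_dvd_mul_left q hd) := by
  apply Subtype.ext
  show qExpand E q (coeffEmb E (qExpand ℚ d jq)) = coeffEmb E (qExpand ℚ (q * d) jq)
  rw [coeffEmb, ← ModularCurve.coeffMap_qExpand, qExpand_qExpand]

theorem jE_congr (N : ℕ) {d d' : ℕ} [NeZero d] [NeZero d'] (h : d = d') (hd : d ∣ N)
    (hd' : d' ∣ N) : jE E N d hd = jE E N d' hd' := by
  subst h
  rfl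

/-- **L5** (`FrickeCompat`). -/
theorem frickeCompat : FrickeCompatStatement E M q := by
  intro WM WN hWM hWN
  have hM0 : 0 < M := Nat.pos_of_ne_zero (NeZero.ne M)
  have key1 : ∀ f : _root_.Fermat.Agent.A2.Mod.FE E M, WN (αE E M q f) = βE E M q (WM f) := by
    refine ringHom_ext_FE M
      ((WN : _root_.Fermat.Agent.A2.Mod.FE E (M * q) →+* _root_.Fermat.Agent.A2.Mod.FE E (M * q)).comp (αE E M q : _root_.Fermat.Agent.A2.Mod.FE E M →+* _root_.Fermat.Agent.A2.Mod.FE E (M * q)))
      ((βE E M q : _root_.Fermat.Agent.A2.Mod.FE E M →+* _root_.Fermat.Agent.A2.Mod.FE E (M * q)).comp (WM : _root_.Fermat.Agent.A2.Mod.FE E M →+* _root_.Fermat.Agent.A2.Mod.FE E M)) ?_ ?_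
    · intro e
      show WN (αE E M q (algebraMap E _ e)) = βE E M q (WM (algebraMap E _ e))
      rw [AlgHom.commutes, AlgEquiv.commutes, AlgEquiv.commutes, AlgHom.commutes]
    · intro d _ hd
      show WN (αE E M q (jE E M d hd)) = βE E M q (WM (jE E M d hd))
      have hd0 : 0 < d := Nat.pos_of_dvd_of_pos hd hM0
      haveI : NeZero (M / d) := ⟨(Nat.div_pos (Nat.le_of_dvd hM0 hd) hd0).ne'⟩
      have h1 : WM (jE E M d hd) = jE E M (M / d) (Nat.div_dvd_of_dvd hd) :=
        hWM.1 d (M / d) hd (Nat.div_dvd_of_dvd hd) (Nat.mul_div_cancel' hd)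
      have hdvd : q * (M / d) ∣ M * q := by
        rw [mul_comm M q]; exact mul_dvd_mul_left q (Nat.div_dvd_of_dvd hd)
      have h2 : WN (jE E (M * q) d (hd.trans (dvd_mul_right M q)))
          = jE E (M * q) (q * (M / d)) hdvd :=
        hWN.1 d (q * (M / d)) _ hdvd (by
          rw [mul_left_comm, Nat.mul_div_cancel' hd, mul_comm])
      rw [alpha_jE, h2, h1, beta_jE]
  have key2 : ∀ f : _root_.Fermat.Agent.A2.Mod.FE E M, WN (βE E M q f) = αE E M q (WM f) := by
    refine ringHom_ext_FE M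
      ((WN : _root_.Fermat.Agent.A2.Mod.FE E (M * q) →+* _root_.Fermat.Agent.A2.Mod.FE E (M * q)).comp (βE E M q : _root_.Fermat.Agent.A2.Mod.FE E M →+* _root_.Fermat.Agent.A2.Mod.FE E (M * q)))
      ((αE E M q : _root_.Fermat.Agent.A2.Mod.FE E M →+* _root_.Fermat.Agent.A2.Mod.FE E (M * q)).comp (WM : _root_.Fermat.Agent.A2.Mod.FE E M →+* _root_.Fermat.Agent.A2.Mod.FE E M)) ?_ ?_
    · intro e
      show WN (βE E M q (algebraMap E _ e)) = αE E M q (WM (algebraMap E _ e))
      rw [AlgHom.commutes, AlgEquiv.commutes, AlgEquiv.commutes, AlgHom.commutes]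
    · intro d _ hd
      show WN (βE E M q (jE E M d hd)) = αE E M q (WM (jE E M d hd))
      have hd0 : 0 < d := Nat.pos_of_dvd_of_pos hd hM0
      haveI : NeZero (M / d) := ⟨(Nat.div_pos (Nat.le_of_dvd hM0 hd) hd0).ne'⟩
      have h1 : WM (jE E M d hd) = jE E M (M / d) (Nat.div_dvd_of_dvd hd) :=
        hWM.1 d (M / d) hd (Nat.div_dvd_of_dvd hd) (Nat.mul_div_cancel' hd)
      have hdvd : q * d ∣ M * q := by
        rw [mul_comm M q]; exact mul_dvd_mul_left q hd
      have hdvd' : M / d ∣ M * q := (Nat.div_dvd_of_dvd hd).trans (dvd_mul_right M q)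
      have h2 : WN (jE E (M * q) (q * d) hdvd) = jE E (M * q) (M / d) hdvd' :=
        hWN.1 (q * d) (M / d) hdvd hdvd' (by
          rw [mul_assoc, Nat.mul_div_cancel' hd, mul_comm])
      rw [beta_jE, h2, h1, alpha_jE]
  exact fun f => ⟨key1 f, key2 f⟩

end L5

/-! ### L4: the Fricke involution over `E`, by descent from `ℚ̄` -/

section L4

open Fermat.Agent.S24 Fermat.Agent.A2.H528

variable (E : IntermediateField ℚ _root_.Fermat.Agent.A2.Mod.Qb) (N : ℕ)

/-- The comparison map `ι : F_{N,E} → F_{N,ℚ̄}` (inclusion of the coefficients). -/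
def iotaE : _root_.Fermat.Agent.A2.Mod.FE E N →+* FF N where
  toFun y := ⟨coeffMap (algebraMap E _root_.Fermat.Agent.A2.Mod.Qb) (y : LaurentSeries E),
    Fermat.Agent.S18.H602.coeffMap_mem_laurentBaseChange _ (algebraMap E _root_.Fermat.Agent.A2.Mod.Qb) y.2⟩
  map_one' := Subtype.ext (_root_.map_one (coeffMap (algebraMap E _root_.Fermat.Agent.A2.Mod.Qb)))
  map_mul' _ _ := Subtype.ext (_root_.map_mul (coeffMap (algebraMap E _root_.Fermat.Agent.A2.Mod.Qb)) _ _)
  map_zero' := Subtype.ext (_root_.map_zero (coeffMap (algebraMap E _root_.Fermat.Agent.A2.Mod.Qb)))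
  map_add' _ _ := Subtype.ext (_root_.map_add (coeffMap (algebraMap E _root_.Fermat.Agent.A2.Mod.Qb)) _ _)

theorem coe_iotaE (y : _root_.Fermat.Agent.A2.Mod.FE E N) :
    ((iotaE E N y : FF N) : LaurentSeries Kbar)
      = coeffMap (algebraMap E _root_.Fermat.Agent.A2.Mod.Qb) (y : LaurentSeries E) := rfl

theorem iotaE_injective : Function.Injective (iotaE E N) := (iotaE E N).injective

theorem iotaE_algebraMap (e : E) :
    iotaE E N (algebraMap E (_root_.Fermat.Agent.A2.Mod.FE E N) e) = algebraMap Kbar (FF N) (e : _root_.Fermat.Agent.A2.Mod.Qb) := by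
  apply Subtype.ext
  show coeffMap (algebraMap E _root_.Fermat.Agent.A2.Mod.Qb) (algebraMap E (LaurentSeries E) e) = _
  rw [Fermat.Agent.S18.H602.coeffMap_algebraMap']
  rfl

theorem iotaE_jE (d : ℕ) [NeZero d] (hd : d ∣ N) : iotaE E N (jE E N d hd) = jFd N d hd := by
  apply Subtype.ext
  show coeffMap (algebraMap E _root_.Fermat.Agent.A2.Mod.Qb) (coeffEmb E (qExpand ℚ d jq)) = coeffEmb Kbar (qExpand ℚ d jq)
  exact Fermat.Agent.S18.H602.coeffMap_coeffEmb' _ _

variable [NeZero N]

/-- `w_N` preserves the `E`-rational functions. -/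
theorem exists_iotaE_eq_wF (f : _root_.Fermat.Agent.A2.Mod.FE E N) : ∃ g : _root_.Fermat.Agent.A2.Mod.FE E N, iotaE E N g = wF N (iotaE E N f) := by
  refine FE_induction N (fun f => ∃ g : _root_.Fermat.Agent.A2.Mod.FE E N, iotaE E N g = wF N (iotaE E N f)) ?_ ?_ ?_ ?_ ?_ f
  · intro e
    refine ⟨algebraMap E (_root_.Fermat.Agent.A2.Mod.FE E N) e, ?_⟩
    rw [iotaE_algebraMap, AlgEquiv.commutes]
  · intro d _ hd
    haveI := neZero_div N hd
    refine ⟨jE E N (N / d) (Nat.div_dvd_of_dvd hd), ?_⟩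
    show iotaE E N (jE E N (N / d) (Nat.div_dvd_of_dvd hd)) = wF N (iotaE E N (jE E N d hd))
    rw [iotaE_jE, iotaE_jE, wF_jFd]
  · rintro x y ⟨a, ha⟩ ⟨b, hb⟩
    exact ⟨a + b, by rw [_root_.map_add, _root_.map_add, _root_.map_add, ha, hb]⟩
  · rintro x y ⟨a, ha⟩ ⟨b, hb⟩
    exact ⟨a * b, by rw [_root_.map_mul, _root_.map_mul, _root_.map_mul, ha, hb]⟩
  · rintro x ⟨a, ha⟩
    exact ⟨a⁻¹, by rw [map_inv₀, map_inv₀, map_inv₀, ha]⟩

/-- The Fricke involution of `F_{N,E}`, as a function. -/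
def frickeFun (f : _root_.Fermat.Agent.A2.Mod.FE E N) : _root_.Fermat.Agent.A2.Mod.FE E N := Classical.choose (exists_iotaE_eq_wF E N f)

theorem iotaE_frickeFun (f : _root_.Fermat.Agent.A2.Mod.FE E N) : iotaE E N (frickeFun E N f) = wF N (iotaE E N f) :=
  Classical.choose_spec (exists_iotaE_eq_wF E N f)

/-- The Fricke involution of `F_{N,E}`, as an `E`-algebra homomorphism. -/
def frickeHom : _root_.Fermat.Agent.A2.Mod.FE E N →ₐ[E] _root_.Fermat.Agent.A2.Mod.FE E N where
  toFun := frickeFun E N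
  map_one' := iotaE_injective E N (by rw [iotaE_frickeFun, _root_.map_one, _root_.map_one])
  map_mul' x y := iotaE_injective E N (by
    rw [iotaE_frickeFun, _root_.map_mul, _root_.map_mul, _root_.map_mul, iotaE_frickeFun, iotaE_frickeFun])
  map_zero' := iotaE_injective E N (by rw [iotaE_frickeFun, _root_.map_zero, _root_.map_zero])
  map_add' x y := iotaE_injective E N (by
    rw [iotaE_frickeFun, _root_.map_add, _root_.map_add, _root_.map_add, iotaE_frickeFun, iotaE_frickeFun])
  commutes' e := iotaE_injective E N (by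
    rw [iotaE_frickeFun, iotaE_algebraMap, AlgEquiv.commutes])

theorem iotaE_frickeHom (f : _root_.Fermat.Agent.A2.Mod.FE E N) : iotaE E N (frickeHom E N f) = wF N (iotaE E N f) :=
  iotaE_frickeFun E N f

theorem frickeHom_frickeHom (f : _root_.Fermat.Agent.A2.Mod.FE E N) : frickeHom E N (frickeHom E N f) = f :=
  iotaE_injective E N (by rw [iotaE_frickeHom, iotaE_frickeHom, wF_wF])

/-- **The Fricke involution `W_E` of `F_{N,E}` over `E`.** -/
def frickeE : _root_.Fermat.Agent.A2.Mod.FE E N ≃ₐ[E] _root_.Fermat.Agent.A2.Mod.FE E N :=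
  AlgEquiv.ofAlgHom (frickeHom E N) (frickeHom E N)
    (AlgHom.ext fun f => frickeHom_frickeHom E N f)
    (AlgHom.ext fun f => frickeHom_frickeHom E N f)

/-- `ι (W_E f) = w_N (ι f)`. -/
theorem iotaE_frickeE (f : _root_.Fermat.Agent.A2.Mod.FE E N) : iotaE E N (frickeE E N f) = wF N (iotaE E N f) :=
  iotaE_frickeFun E N f

theorem frickeE_frickeE (f : _root_.Fermat.Agent.A2.Mod.FE E N) : frickeE E N (frickeE E N f) = f :=
  frickeHom_frickeHom E N f

theorem frickeE_jE (d : ℕ) [NeZero d] (hd : d ∣ N) :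
    haveI := neZero_div N hd
    frickeE E N (jE E N d hd) = jE E N (N / d) (Nat.div_dvd_of_dvd hd) := by
  haveI := neZero_div N hd
  apply iotaE_injective E N
  rw [iotaE_frickeE, iotaE_jE, iotaE_jE, wF_jFd]

theorem isFricke_frickeE : IsFricke E N (frickeE E N) := by
  refine ⟨?_, frickeE_frickeE E N⟩
  intro d d' _ _ hd hd' hdd
  have hN : 0 < N := Nat.pos_of_ne_zero (NeZero.ne N)
  have hd0 : 0 < d := Nat.pos_of_dvd_of_pos hd hN
  have h : N / d = d' := Nat.div_eq_of_eq_mul_right hd0 hdd.symm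
  haveI := neZero_div N hd
  rw [frickeE_jE]
  exact jE_congr E N h _ _

end L4

/-- **L4** (`FrickeExists`). -/
theorem frickeExists (E : IntermediateField ℚ _root_.Fermat.Agent.A2.Mod.Qb) : FrickeExistsStatement E := by
  intro N hN
  haveI : NeZero N := ⟨hN⟩
  exact ⟨frickeE E N, isFricke_frickeE E N⟩

end Fermat.Agent.A2.Mod.H751

end
end
-- ===== PACK-END A2/Mod/H751/Fricke.lean

-- ===== PACK-BEGIN A2/Mod/H900/L7.lean
section



/-!
# A2 / MOD leaf L7 (helper900): `FrickeStableStatement`, verbatim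

At a level `M` prime to `q` the Fricke involution `W` of `F_{M,E}` preserves the Gauss valuation
ring `V∞` (no discreteness of `R_E` is used; only `P ∣ q`, `q ∤ M`, `V∞` = Gauss-integral
elements, `W j_d = j_{M/d}`).

Proof (`L7Core.lean`): by `S28.CoreData M k` every `f ∈ F_{M,E}` is
`c · (∑ᵢ Hᵢ(j) yᵢ) / G(j)` with `G, Hᵢ ∈ R[X]` primitive and `yᵢ ∈ ℤ[j_d]`, and `f ∈ V∞ ↔ c ∈ R`
(independence of the residues `ȳᵢ` over `k(j̄)`); then
`W f = c · (∑ᵢ Hᵢ(j_M) W yᵢ) / G(j_M)` with `G(j_M)` an integral series of nonzero reduction.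
-/

set_option autoImplicit false
set_option synthInstance.maxHeartbeats 400000
set_option maxHeartbeats 1600000

noncomputable section

namespace Fermat.Agent.A2.Mod.H900

open ModularCurve HahnSeries Polynomial IntermediateField Fermat.Agent.S28

/-- `R_E = P ∩ E` lies over `q` when `P` does. -/
theorem liesOverPrime_RE {P : ValuationSubring _root_.Fermat.Agent.A2.Mod.Qb} (E : IntermediateField ℚ _root_.Fermat.Agent.A2.Mod.Qb) {q : ℕ}
    (hP : P.LiesOverPrime q) : (_root_.Fermat.Agent.A2.Mod.RE P E).LiesOverPrime q := by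
  have h1 : (q : _root_.Fermat.Agent.A2.Mod.Qb) ∈ P.nonunits := hP
  show (q : E) ∈ (_root_.Fermat.Agent.A2.Mod.RE P E).nonunits
  rw [ValuationSubring.mem_nonunits_iff_or] at h1 ⊢
  rcases h1 with h1 | h1
  · left
    have : algebraMap E _root_.Fermat.Agent.A2.Mod.Qb (q : E) = 0 := by rw [_root_.map_natCast]; exact h1
    exact (_root_.map_eq_zero _).mp this
  · right
    intro h2
    apply h1
    have h3 : algebraMap E _root_.Fermat.Agent.A2.Mod.Qb ((q : E)⁻¹) ∈ P := h2
    rwa [map_inv₀, _root_.map_natCast] at h3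

/-- S28 core data for the residue field of `R_E`, `q ∤ M`. -/
theorem coreData_RE {P : ValuationSubring _root_.Fermat.Agent.A2.Mod.Qb} (E : IntermediateField ℚ _root_.Fermat.Agent.A2.Mod.Qb) (M : ℕ) [NeZero M]
    {q : ℕ} (hq : q.Prime) (hqM : ¬ q ∣ M) (hP : P.LiesOverPrime q) :
    CoreData M (IsLocalRing.ResidueField (_root_.Fermat.Agent.A2.Mod.RE P E)) := by
  haveI : Fact q.Prime := ⟨hq⟩
  haveI := S18.H516.charP_residue (_root_.Fermat.Agent.A2.Mod.RE P E) (liesOverPrime_RE E hP)
  exact S18.H516.coreData_of_charP M q hqM _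

/-- **Leaf L7 (FrickeStable), verbatim.** -/
theorem frickeStable (P : ValuationSubring _root_.Fermat.Agent.A2.Mod.Qb) (E : IntermediateField ℚ _root_.Fermat.Agent.A2.Mod.Qb) (M q : ℕ)
    [NeZero M] [NeZero q] (w : _root_.Fermat.Agent.A2.Mod.RE P E) : FrickeStableStatement P E M q w := by
  intro hS V W hV hW f hf
  have core := coreData_RE E M hS.q_prime hS.q_not_dvd hS.lies_over
  have hW' : FrickeOnGens M W := fun d d' _ _ hd hd' h => hW.1 d d' hd hd' h
  exact (hV (W f)).mpr (frickeStable_core (_root_.Fermat.Agent.A2.Mod.RE P E) core hW' f ((hV f).mp hf))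

end Fermat.Agent.A2.Mod.H900

end
end
-- ===== PACK-END A2/Mod/H900/L7.lean

-- ===== PACK-BEGIN A2/Mod/H96/L12.lean
section




/-!
# A2 / MOD leaf L12 (helper96): the Kronecker congruence, semilinear form

`kron : KronStatement P E M q w` (`Mod/Spec.lean`, verbatim):
for `a ∈ V∞_M` there is `a' ∈ V∞_M` with `β a ≡ (α a')^q mod w V∞` at level `M q`.

Proof.  `a = U₁/U₂` with `U₁, U₂ ∈ R((t)) ∩ F_M`, `Ū₂ ≠ 0`.  By `S28.CoreData M k` (good reduction
at level `M`, via `S18.H516.red_mem_of_incl_mem`) the residues `Ū₁, Ū₂` lie in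
`F_k = k(j̄_d : d ∣ M)`.  `F_k` is stable under the inverse Frobenius twist of the coefficients
(`exists_frob_root_of_mem_fullC`: `k` is perfect, the generators have coefficients in `𝔽_q`): there
is `r' ∈ F_k` with `r'^q = (Ū₁/Ū₂)(t^q)`.  Lift `r' = W̄₁/W̄₂` (`exists_lift_of_mem_fullC`) and put
`a' := W₁/W₂`.  Then `β a − (α a')^q = (U₁(t^q) W₂^q − W₁^q U₂(t^q)) / (U₂(t^q) W₂^q)`, the
denominator is primitive and the numerator reduces to `0`, hence is divisible by `w`.
-/

set_option autoImplicit false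
set_option linter.unusedSectionVars false
set_option linter.style.haveILetI false
set_option synthInstance.maxHeartbeats 400000
set_option maxHeartbeats 1600000

noncomputable section

namespace Fermat.Agent.A2.Mod.H96

open ModularCurve HahnSeries Fermat.Agent.S28

section Residue

variable (P : ValuationSubring _root_.Fermat.Agent.A2.Mod.Qb) (E : IntermediateField ℚ _root_.Fermat.Agent.A2.Mod.Qb)

/-- `R_E` lies over `q` if `P` does. -/
theorem liesOver_RE {q : ℕ} (hP : P.LiesOverPrime q) : (_root_.Fermat.Agent.A2.Mod.RE P E).LiesOverPrime q := by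
  have h1 : P.valuation ((q : ℕ) : _root_.Fermat.Agent.A2.Mod.Qb) < 1 := (ValuationSubring.mem_nonunits_iff _).mp hP
  show ((q : ℕ) : E) ∈ (_root_.Fermat.Agent.A2.Mod.RE P E).nonunits
  rw [ValuationSubring.mem_nonunits_iff_exists_mem_maximalIdeal]
  have hmem : ((q : ℕ) : E) ∈ _root_.Fermat.Agent.A2.Mod.RE P E := by
    show algebraMap E _root_.Fermat.Agent.A2.Mod.Qb ((q : ℕ) : E) ∈ P
    rw [map_natCast]
    exact natCast_mem P q
  refine ⟨hmem, ?_⟩
  rw [IsLocalRing.mem_maximalIdeal, mem_nonunits_iff]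
  intro hu
  obtain ⟨s, hs⟩ := isUnit_iff_exists_inv.mp hu
  have h2 : ((q : ℕ) : _root_.Fermat.Agent.A2.Mod.Qb) * algebraMap E _root_.Fermat.Agent.A2.Mod.Qb (s : E) = 1 := by
    have := congrArg (fun z : _root_.Fermat.Agent.A2.Mod.RE P E => algebraMap E _root_.Fermat.Agent.A2.Mod.Qb (z : E)) hs
    simpa using this
  have h3 : P.valuation (algebraMap E _root_.Fermat.Agent.A2.Mod.Qb (s : E)) ≤ 1 :=
    (P.valuation_le_one_iff _).mpr s.2
  have h4 := congrArg P.valuation h2
  rw [_root_.map_mul, _root_.map_one] at h4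
  have h5 : P.valuation ((q : ℕ) : _root_.Fermat.Agent.A2.Mod.Qb) * P.valuation (algebraMap E _root_.Fermat.Agent.A2.Mod.Qb (s : E)) < 1 :=
    calc P.valuation ((q : ℕ) : _root_.Fermat.Agent.A2.Mod.Qb) * P.valuation (algebraMap E _root_.Fermat.Agent.A2.Mod.Qb (s : E))
        ≤ P.valuation ((q : ℕ) : _root_.Fermat.Agent.A2.Mod.Qb) * 1 := mul_le_mul_right h3 _
      _ = P.valuation ((q : ℕ) : _root_.Fermat.Agent.A2.Mod.Qb) := mul_one _
      _ < 1 := h1
  exact absurd h4 h5.ne

/-- Every element of `R_E` is a root of an integer polynomial which is nonzero modulo `q`. -/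
theorem exists_intPoly_residue (r : _root_.Fermat.Agent.A2.Mod.RE P E) {q : ℕ} (hq : q.Prime) :
    ∃ G : Polynomial ℤ, G.map (Int.castRingHom (ZMod q)) ≠ 0 ∧
      Polynomial.eval₂ (Int.castRingHom (_root_.Fermat.Agent.A2.Mod.RE P E)) r G = 0 := by
  haveI : Fact q.Prime := ⟨hq⟩
  have halgQ : IsAlgebraic ℚ ((r : E) : _root_.Fermat.Agent.A2.Mod.Qb) := (AlgebraicClosure.isAlgebraic ℚ).isAlgebraic _
  have halgZ : IsAlgebraic ℤ ((r : E) : _root_.Fermat.Agent.A2.Mod.Qb) := (IsFractionRing.isAlgebraic_iff ℤ ℚ _root_.Fermat.Agent.A2.Mod.Qb).mpr halgQ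
  obtain ⟨G, hG0, hG⟩ := halgZ
  have hprim : G.primPart.IsPrimitive := Polynomial.isPrimitive_primPart G
  have hev : Polynomial.aeval ((r : E) : _root_.Fermat.Agent.A2.Mod.Qb) G.primPart = 0 := by
    have h1 := G.eq_C_content_mul_primPart
    rw [h1, _root_.map_mul, Polynomial.aeval_C] at hG
    rcases mul_eq_zero.mp hG with h | h
    · exfalso
      have : (G.content : _root_.Fermat.Agent.A2.Mod.Qb) = 0 := by simpa using h
      have h2 : G.content = 0 := by exact_mod_cast this
      exact hG0 (Polynomial.content_eq_zero_iff.mp h2)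
    · exact h
  refine ⟨G.primPart, ?_, ?_⟩
  · intro h0
    have hdvd : Polynomial.C (q : ℤ) ∣ G.primPart := by
      rw [Polynomial.C_dvd_iff_dvd_coeff]
      intro i
      have := congrArg (fun Q : Polynomial (ZMod q) => Q.coeff i) h0
      simp only [Polynomial.coeff_map, Polynomial.coeff_zero, eq_intCast] at this
      exact (ZMod.intCast_zmod_eq_zero_iff_dvd _ _).mp this
    have hu := hprim _ hdvd
    have : IsUnit (q : ℤ) := hu
    rw [Int.isUnit_iff] at this
    have hq2 := hq.two_le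
    omega
  · have hinj : Function.Injective ((algebraMap E _root_.Fermat.Agent.A2.Mod.Qb).comp (_root_.Fermat.Agent.A2.Mod.RE P E).subtype) := by
      intro a b h
      exact Subtype.ext (Subtype.ext h)
    apply hinj
    rw [_root_.map_zero, Polynomial.hom_eval₂]
    have : (((algebraMap E _root_.Fermat.Agent.A2.Mod.Qb).comp (_root_.Fermat.Agent.A2.Mod.RE P E).subtype).comp (Int.castRingHom (_root_.Fermat.Agent.A2.Mod.RE P E))) =
        algebraMap ℤ _root_.Fermat.Agent.A2.Mod.Qb := RingHom.ext_int _ _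
    rw [this]
    exact hev

/-- The residue field of `R_E` is perfect: Frobenius is surjective. -/
theorem exists_pow_eq_residue {q : ℕ} (hq : q.Prime) (hP : P.LiesOverPrime q)
    (c : IsLocalRing.ResidueField (_root_.Fermat.Agent.A2.Mod.RE P E)) :
    ∃ c' : IsLocalRing.ResidueField (_root_.Fermat.Agent.A2.Mod.RE P E), c' ^ q = c := by
  haveI : Fact q.Prime := ⟨hq⟩
  haveI : CharP (IsLocalRing.ResidueField (_root_.Fermat.Agent.A2.Mod.RE P E)) q :=
    Fermat.Agent.S18.H516.charP_residue (_root_.Fermat.Agent.A2.Mod.RE P E) (liesOver_RE P E hP)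
  letI : Algebra (ZMod q) (IsLocalRing.ResidueField (_root_.Fermat.Agent.A2.Mod.RE P E)) := ZMod.algebra _ q
  haveI : Algebra.IsAlgebraic (ZMod q) (IsLocalRing.ResidueField (_root_.Fermat.Agent.A2.Mod.RE P E)) := by
    refine ⟨fun x => ?_⟩
    obtain ⟨r', rfl⟩ := IsLocalRing.residue_surjective x
    obtain ⟨G, hG0, hG⟩ := exists_intPoly_residue P E r' hq
    refine ⟨G.map (Int.castRingHom (ZMod q)), hG0, ?_⟩
    rw [Polynomial.aeval_def, Polynomial.eval₂_map]
    have h1 : (algebraMap (ZMod q) (IsLocalRing.ResidueField (_root_.Fermat.Agent.A2.Mod.RE P E))).comp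
        (Int.castRingHom (ZMod q)) =
        (IsLocalRing.residue (_root_.Fermat.Agent.A2.Mod.RE P E)).comp (Int.castRingHom (_root_.Fermat.Agent.A2.Mod.RE P E)) := RingHom.ext_int _ _
    rw [h1, ← Polynomial.hom_eval₂, hG, _root_.map_zero]
  haveI : PerfectField (IsLocalRing.ResidueField (_root_.Fermat.Agent.A2.Mod.RE P E)) :=
    Algebra.IsAlgebraic.perfectField (ZMod q)
  haveI : ExpChar (IsLocalRing.ResidueField (_root_.Fermat.Agent.A2.Mod.RE P E)) q := ExpChar.prime hq
  obtain ⟨y, hy⟩ := surjective_frobenius (IsLocalRing.ResidueField (_root_.Fermat.Agent.A2.Mod.RE P E)) q c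
  exact ⟨y, hy⟩

end Residue

section Divide

variable {L : Type*} [Field L] (A : ValuationSubring L)

/-- An integral series with zero reduction is divisible by a uniformiser. -/
theorem exists_incl_eq_inv_mul [IsDiscreteValuationRing A] {w : A} (hw : Irreducible w)
    {U : LaurentSeries A} (hU : H708.red A U = 0) :
    ∃ U' : LaurentSeries A, H708.incl A U' = H708.cst ((w : L))⁻¹ * H708.incl A U := by
  apply H708.exists_incl_eq
  intro n
  rw [H708.coeff_cst_mul, H708.coeff_incl]
  have h1 : A.valuation ((U.coeff n : A) : L) < 1 := (H708.red_eq_zero_iff A U).mp hU n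
  have h2 : U.coeff n ∈ IsLocalRing.maximalIdeal A := (A.valuation_lt_one_iff _).mpr h1
  rw [hw.maximalIdeal_eq, Ideal.mem_span_singleton'] at h2
  obtain ⟨y, hy⟩ := h2
  have hw0 : (w : L) ≠ 0 := by
    intro h
    exact hw.ne_zero (Subtype.ext h)
  have h3 : ((U.coeff n : A) : L) = (y : L) * (w : L) := by
    rw [← hy]; rfl
  rw [h3, mul_comm (y : L), ← mul_assoc, inv_mul_cancel₀ hw0, one_mul]
  exact y.2

end Divide

section Main

variable (P : ValuationSubring _root_.Fermat.Agent.A2.Mod.Qb) (E : IntermediateField ℚ _root_.Fermat.Agent.A2.Mod.Qb) (M q : ℕ) [NeZero M] [NeZero q]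
  (w : _root_.Fermat.Agent.A2.Mod.RE P E)

/-- **L12 (Kronecker, semilinear form).** -/
theorem kron : KronStatement P E M q w := by
  intro hS VM V hVM hV a ha
  have hq := hS.q_prime
  haveI : Fact q.Prime := ⟨hq⟩
  haveI := hS.dvr
  have hAq : (_root_.Fermat.Agent.A2.Mod.RE P E).LiesOverPrime q := liesOver_RE P E hS.lies_over
  haveI : CharP (IsLocalRing.ResidueField (_root_.Fermat.Agent.A2.Mod.RE P E)) q :=
    Fermat.Agent.S18.H516.charP_residue (_root_.Fermat.Agent.A2.Mod.RE P E) hAq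
  have core : CoreData M (IsLocalRing.ResidueField (_root_.Fermat.Agent.A2.Mod.RE P E)) :=
    Fermat.Agent.S18.H516.coreData_of_charP M q hS.q_not_dvd _
  -- a representation of `a`
  obtain ⟨U₁, U₂, hU₂, hU₂F, hU⟩ := (hVM a).mp ha
  have hU₁F : H708.incl (_root_.Fermat.Agent.A2.Mod.RE P E) U₁ ∈ _root_.Fermat.Agent.A2.Mod.FE E M := by
    rw [← hU]; exact mul_mem a.2 hU₂F
  -- the residues lie in `F_k`
  have hr₁ : H708.red (_root_.Fermat.Agent.A2.Mod.RE P E) U₁ ∈ modularFunctionFieldFullC _ M :=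
    Fermat.Agent.S18.H516.red_mem_of_incl_mem (_root_.Fermat.Agent.A2.Mod.RE P E) (IsLocalRing.residue _) M core hU₁F
  have hr₂ : H708.red (_root_.Fermat.Agent.A2.Mod.RE P E) U₂ ∈ modularFunctionFieldFullC _ M :=
    Fermat.Agent.S18.H516.red_mem_of_incl_mem (_root_.Fermat.Agent.A2.Mod.RE P E) (IsLocalRing.residue _) M core hU₂F
  -- the Frobenius twist of the residue of `a`
  obtain ⟨r', hr', hr'e⟩ := exists_frob_root_of_mem_fullC _ q M hq
    (exists_pow_eq_residue P E hq hS.lies_over) (mul_mem hr₁ (inv_mem hr₂))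
  -- lift it
  obtain ⟨W₁, W₂, hW₁F, hW₂F, hW₂, hW⟩ := exists_lift_of_mem_fullC (_root_.Fermat.Agent.A2.Mod.RE P E) M hr'
  have hW₂0 : H708.incl (_root_.Fermat.Agent.A2.Mod.RE P E) W₂ ≠ 0 :=
    H708.incl_ne_zero _ (H708.ne_zero_of_red_ne_zero _ hW₂)
  have hU₂0 : H708.incl (_root_.Fermat.Agent.A2.Mod.RE P E) U₂ ≠ 0 :=
    H708.incl_ne_zero _ (H708.ne_zero_of_red_ne_zero _ hU₂)
  set a' : _root_.Fermat.Agent.A2.Mod.FE E M := ⟨H708.incl (_root_.Fermat.Agent.A2.Mod.RE P E) W₁, hW₁F⟩ * (⟨H708.incl (_root_.Fermat.Agent.A2.Mod.RE P E) W₂, hW₂F⟩)⁻¹ with ha'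
  have ha'c : (a' : LaurentSeries E) = H708.incl (_root_.Fermat.Agent.A2.Mod.RE P E) W₁ * (H708.incl (_root_.Fermat.Agent.A2.Mod.RE P E) W₂)⁻¹ := by
    rw [ha', IntermediateField.coe_mul, IntermediateField.coe_inv]
  have ha'V : a' ∈ VM := by
    rw [hVM]
    refine ⟨W₁, W₂, hW₂, hW₂F, ?_⟩
    rw [ha'c, mul_assoc, inv_mul_cancel₀ hW₂0, mul_one]
  refine ⟨a', ha'V, ?_⟩
  -- the numerator
  set Wn : LaurentSeries (_root_.Fermat.Agent.A2.Mod.RE P E) :=
    qExpand _ q U₁ * W₂ ^ q - W₁ ^ q * qExpand _ q U₂ with hWn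
  have hρ₂ : qExpand _ q (H708.red (_root_.Fermat.Agent.A2.Mod.RE P E) U₂) ≠ 0 := by
    rw [Ne, map_eq_zero_iff _ (RingHom.injective _)]
    exact hU₂
  have hred : H708.red (_root_.Fermat.Agent.A2.Mod.RE P E) Wn = 0 := by
    rw [hWn, _root_.map_sub, _root_.map_mul, _root_.map_mul, map_pow, map_pow]
    show coeffMap _ (qExpand _ q U₁) * _ - _ * coeffMap _ (qExpand _ q U₂) = 0
    rw [coeffMap_qExpand, coeffMap_qExpand]
    show qExpand _ q (H708.red (_root_.Fermat.Agent.A2.Mod.RE P E) U₁) * _ - _ * qExpand _ q (H708.red (_root_.Fermat.Agent.A2.Mod.RE P E) U₂) = 0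
    rw [hW, mul_pow, hr'e, _root_.map_mul, map_inv₀]
    field_simp
    ring
  obtain ⟨W', hW'⟩ := exists_incl_eq_inv_mul (_root_.Fermat.Agent.A2.Mod.RE P E) hS.unif hred
  -- conclusion
  show (βE E M q a - (αE E M q a') ^ q) * (cE P E (M * q) w)⁻¹ ∈ V
  rw [hV]
  refine ⟨W', qExpand _ q U₂ * W₂ ^ q, ?_, ?_, ?_⟩
  · rw [_root_.map_mul, map_pow]
    show coeffMap _ (qExpand _ q U₂) * _ ≠ 0
    rw [coeffMap_qExpand]
    exact mul_ne_zero hρ₂ (pow_ne_zero _ hW₂)
  · rw [_root_.map_mul, map_pow]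
    show coeffMap _ (qExpand _ q U₂) * _ ∈ _
    rw [coeffMap_qExpand]
    exact mul_mem (βE E M q ⟨H708.incl (_root_.Fermat.Agent.A2.Mod.RE P E) U₂, hU₂F⟩).2
      (pow_mem (αE E M q ⟨H708.incl (_root_.Fermat.Agent.A2.Mod.RE P E) W₂, hW₂F⟩).2 _)
  · rw [hW']
    have hc : (((βE E M q a - (αE E M q a') ^ q) * (cE P E (M * q) w)⁻¹ : _root_.Fermat.Agent.A2.Mod.FE E (M * q)) :
        LaurentSeries E) =
        (qExpand E q (a : LaurentSeries E) - (a' : LaurentSeries E) ^ q) *
          (H708.cst ((w : E)))⁻¹ := rfl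
    have hcst : H708.cst ((w : E))⁻¹ = (H708.cst ((w : E)))⁻¹ := map_inv₀ _ _
    have hq1 : H708.incl (_root_.Fermat.Agent.A2.Mod.RE P E) (qExpand _ q U₁) = qExpand E q (H708.incl (_root_.Fermat.Agent.A2.Mod.RE P E) U₁) :=
      coeffMap_qExpand _ q U₁
    have hq2 : H708.incl (_root_.Fermat.Agent.A2.Mod.RE P E) (qExpand _ q U₂) = qExpand E q (H708.incl (_root_.Fermat.Agent.A2.Mod.RE P E) U₂) :=
      coeffMap_qExpand _ q U₂
    have hpow : (a' : LaurentSeries E) ^ q * (H708.incl (_root_.Fermat.Agent.A2.Mod.RE P E) W₂) ^ q =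
        (H708.incl (_root_.Fermat.Agent.A2.Mod.RE P E) W₁) ^ q := by
      rw [ha'c, ← mul_pow, mul_assoc, inv_mul_cancel₀ hW₂0, mul_one]
    rw [hc, hcst, hWn, _root_.map_sub, _root_.map_mul, _root_.map_mul, _root_.map_mul, map_pow, map_pow, hq1, hq2,
      ← hU, _root_.map_mul, ← hpow]
    ring

end Main

end Fermat.Agent.A2.Mod.H96

end
end
-- ===== PACK-END A2/Mod/H96/L12.lean

-- ===== PACK-BEGIN A2/Mod/H753/IndInf.lean
section






/-!
# A2 / MOD leaf L9 `IndInf` (helper753): residue independence on `C∞`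

Level `N = M q`, `q ∤ M`, `R = R_E` a DVR with uniformiser `w`, `k = R / w` (characteristic `q`).

* `exists_monomials` : `ψ(M)` integral monomials `Y i ∈ ℤ[j_d : d ∣ M]` whose reductions are
  polynomially independent over `k[j̄]` (row S28: `Good.exists_linearIndependent`);
* `red_eq_zero_of_inW` : an `R`-integral series lying in `w V∞` has zero reduction;
* `indInf_strong` : the family `g (a, i) = Y i · j^a ∈ F_M` (`0 ≤ a ≤ q`) consists of integral
  series (so it lies in EVERY Gauss ring of level `M`), and `b = α ∘ g` is `IndepMod` for the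
  coordinate `x = j j_q`  (`x̄ = j̄^(q+1)`, Frobenius congruence + base-`(q+1)` digits);
* `indInf : IndInfStatement P E M q w`;
* `eq_zero_of_sum_expand_mul_X_pow` : `∑_{a<n} p_a(X^n) X^a = 0 ⟹ p_a = 0` (Mathlib-only).
-/

set_option autoImplicit false
set_option synthInstance.maxHeartbeats 400000
set_option maxHeartbeats 1600000

noncomputable section

namespace Fermat.Agent.A2.Mod.H753

open ModularCurve HahnSeries Polynomial
open Fermat.Agent.S28 (intDivisorExpansions jField)
open Fermat.Agent.S28.H325 (castL PolyIndep)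

/-! ## 0. base-`n` digits of polynomials (Mathlib-only) -/


/-- coefficient of `∑_{a<n} p_a(X^n) X^a` at `n m + a₀` is the `m`-th coefficient of `p_{a₀}`. -/
theorem coeff_sum_expand_mul_X_pow {k : Type*} [CommSemiring k] {n : ℕ} (hn : 0 < n)
    (p : Fin n → k[X]) (a₀ : Fin n) (m : ℕ) :
    (∑ a : Fin n, expand k n (p a) * X ^ (a : ℕ)).coeff (n * m + a₀) = (p a₀).coeff m := by
  rw [Polynomial.finsetSum_coeff]
  rw [Finset.sum_eq_single a₀]
  · rw [coeff_mul_X_pow, coeff_expand_mul' hn]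
  · intro a _ hne
    rw [coeff_mul_X_pow']
    split_ifs with hle
    · rw [coeff_expand hn, if_neg]
      intro hdvd
      apply hne
      have h1 : (n : ℤ) ∣ ((a₀ : ℕ) : ℤ) - ((a : ℕ) : ℤ) := by
        have h2 : (n : ℤ) ∣ ((n * m + a₀ - a : ℕ) : ℤ) := by exact_mod_cast hdvd
        rw [Nat.cast_sub hle] at h2
        push_cast at h2
        have h3 : ((n : ℤ) * m + a₀ - a) = (a₀ - a) + n * m := by ring
        rw [h3] at h2
        exact (Int.dvd_add_left (Dvd.intro _ rfl)).mp h2
      have ha : ((a : ℕ) : ℤ) < n := by exact_mod_cast a.2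
      have ha₀ : ((a₀ : ℕ) : ℤ) < n := by exact_mod_cast a₀.2
      have h0a : (0 : ℤ) ≤ ((a : ℕ) : ℤ) := by positivity
      have h0a₀ : (0 : ℤ) ≤ ((a₀ : ℕ) : ℤ) := by positivity
      have h4 : ((a₀ : ℕ) : ℤ) - ((a : ℕ) : ℤ) = 0 := by
        apply Int.eq_zero_of_abs_lt_dvd h1
        rw [abs_lt]
        constructor <;> linarith
      apply Fin.ext
      have : ((a : ℕ) : ℤ) = ((a₀ : ℕ) : ℤ) := by linarith
      exact_mod_cast this
    · rfl
  · intro h
    exact absurd (Finset.mem_univ a₀) h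

/-- **Digits.**  `∑_{a<n} p_a(X^n) X^a = 0 ⟹ p_a = 0`. -/
theorem eq_zero_of_sum_expand_mul_X_pow {k : Type*} [CommSemiring k] {n : ℕ} (hn : 0 < n)
    (p : Fin n → k[X]) (h : ∑ a : Fin n, expand k n (p a) * X ^ (a : ℕ) = 0) (a₀ : Fin n) :
    p a₀ = 0 := by
  ext m
  rw [← coeff_sum_expand_mul_X_pow hn p a₀ m, h, Polynomial.coeff_zero, Polynomial.coeff_zero]

/-! ## 1. the residue field has characteristic `q` -/

section Char

variable (P : ValuationSubring _root_.Fermat.Agent.A2.Mod.Qb) (E : IntermediateField ℚ _root_.Fermat.Agent.A2.Mod.Qb)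

theorem natCast_mem_maximalIdeal {q : ℕ} (hP : P.LiesOverPrime q) :
    (q : _root_.Fermat.Agent.A2.Mod.RE P E) ∈ IsLocalRing.maximalIdeal (_root_.Fermat.Agent.A2.Mod.RE P E) := by
  rw [IsLocalRing.mem_maximalIdeal, mem_nonunits_iff]
  intro hu
  obtain ⟨u, hu⟩ := hu.exists_right_inv
  have h1 : ((q : _root_.Fermat.Agent.A2.Mod.RE P E) : E) * (u : E) = 1 := by
    have := congrArg (fun z : _root_.Fermat.Agent.A2.Mod.RE P E => (z : E)) hu
    simpa using this
  have h2 : (q : _root_.Fermat.Agent.A2.Mod.Qb) * algebraMap E _root_.Fermat.Agent.A2.Mod.Qb (u : E) = 1 := by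
    have := congrArg (algebraMap E _root_.Fermat.Agent.A2.Mod.Qb) h1
    simpa using this
  have hmem : algebraMap E _root_.Fermat.Agent.A2.Mod.Qb (u : E) ∈ P := u.2
  have hq : (q : _root_.Fermat.Agent.A2.Mod.Qb) ∈ P := natCast_mem P q
  have hunit : IsUnit (⟨(q : _root_.Fermat.Agent.A2.Mod.Qb), hq⟩ : P) := by
    refine IsUnit.of_mul_eq_one (⟨algebraMap E _root_.Fermat.Agent.A2.Mod.Qb (u : E), hmem⟩ : P) ?_
    exact Subtype.ext h2
  have h3 : ((⟨(q : _root_.Fermat.Agent.A2.Mod.Qb), hq⟩ : P) : _root_.Fermat.Agent.A2.Mod.Qb) ∈ P.nonunits := hP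
  rw [ValuationSubring.coe_mem_nonunits_iff, IsLocalRing.mem_maximalIdeal, mem_nonunits_iff] at h3
  exact h3 hunit

theorem charP_residueField {q : ℕ} (hq : q.Prime) (hP : P.LiesOverPrime q) :
    CharP (IsLocalRing.ResidueField (_root_.Fermat.Agent.A2.Mod.RE P E)) q := by
  refine (CharP.charP_iff_prime_eq_zero hq).mpr ?_
  have h3 := (IsLocalRing.residue_eq_zero_iff (q : _root_.Fermat.Agent.A2.Mod.RE P E)).mpr (natCast_mem_maximalIdeal P E hP)
  rwa [_root_.map_natCast] at h3

end Char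

/-! ## 2. the monomials -/

/-- `ψ(M)` integral monomials with polynomially independent reductions. -/
theorem exists_monomials (M q : ℕ) [NeZero M] (hq : q.Prime) (hqM : ¬ q ∣ M)
    (k : Type*) [Field k] [CharP k q] :
    ∃ Y : Fin (dedekindPsi M) → LaurentSeries ℤ,
      (∀ i, Y i ∈ Submonoid.closure (intDivisorExpansions M)) ∧
      PolyIndep (jqModC k) (fun i => castL k (Y i)) := by
  have hchar : ∀ p : ℕ, p.Prime → p ∣ M → (p : k) ≠ 0 := by
    intro p hp hpM h0
    have hdvd : q ∣ p := (CharP.cast_eq_zero_iff k q p).mp h0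
    have : q = p := (Nat.prime_dvd_prime_iff_eq hq hp).mp hdvd
    exact hqM (this ▸ hpM)
  have hΦ : ∀ p : ℕ, p.Prime → p ∣ M → ∀ [NeZero p], Nonempty (Fermat.Agent.S28.ModPolyData p) :=
    fun p hp _ _ => Fermat.Agent.S28.H807.nonempty_modPolyData p hp
  have hW : ∀ p : ℕ, p.Prime → p ∣ M → ∀ [NeZero p], Nonempty (Fermat.Agent.S28.UnitPolyData p) :=
    fun p hp _ _ => Fermat.Agent.S28.H807.nonempty_unitPolyData p hp
  have hgood : Fermat.Agent.S28.H867.Good k M :=
    Fermat.Agent.S28.H867.good_of_inputs k M (NeZero.ne M) hΦ hW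
      Fermat.Agent.S28.H25.theta_identity hchar
  obtain ⟨Y, hY, hli⟩ := Fermat.Agent.S28.H325.exists_monomials_linearIndependent k M
    (Fermat.Agent.S28.H867.coreData_integral M hΦ) (dedekindPsi M) hgood.exists_linearIndependent
  refine ⟨Y, hY, ?_⟩
  exact Fermat.Agent.S28.H325.polyIndep_of_linearIndependent
    (fun Q hQ => (Fermat.Agent.S28.H325.aeval_jqModC_eq_zero_iff k Q).mp hQ) hli

/-! ## 3. integral series in `w V∞` have zero reduction -/

section Red

variable (P : ValuationSubring _root_.Fermat.Agent.A2.Mod.Qb) (E : IntermediateField ℚ _root_.Fermat.Agent.A2.Mod.Qb) (N : ℕ)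

theorem coe_cE (r : _root_.Fermat.Agent.A2.Mod.RE P E) :
    ((cE P E N r : _root_.Fermat.Agent.A2.Mod.FE E N) : LaurentSeries E) = H708.cst ((r : E)) := rfl

variable {P E N}

theorem red_eq_zero_of_inW {V : ValuationSubring (_root_.Fermat.Agent.A2.Mod.FE E N)} (hV : IsVinf P E N V) {w : _root_.Fermat.Agent.A2.Mod.RE P E}
    (hw0 : w ≠ 0) (hw : w ∈ IsLocalRing.maximalIdeal (_root_.Fermat.Agent.A2.Mod.RE P E)) {f : _root_.Fermat.Agent.A2.Mod.FE E N}
    {S : LaurentSeries (_root_.Fermat.Agent.A2.Mod.RE P E)} (hS : (f : LaurentSeries E) = H708.incl (_root_.Fermat.Agent.A2.Mod.RE P E) S)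
    (h : InW P E N V w f) : H708.red (_root_.Fermat.Agent.A2.Mod.RE P E) S = 0 := by
  obtain ⟨U₁, U₂, hU₂, -, he⟩ := (hV _).mp h
  have hwE : ((w : E)) ≠ 0 := fun h0 => hw0 (Subtype.ext h0)
  have hc : H708.cst (w : E) ≠ 0 := H708.cst_ne_zero hwE
  have hcoe : (((f * (cE P E N w)⁻¹ : _root_.Fermat.Agent.A2.Mod.FE E N)) : LaurentSeries E)
      = (f : LaurentSeries E) * (H708.cst (w : E))⁻¹ := by
    rw [IntermediateField.coe_mul, IntermediateField.coe_inv]
    rfl
  have he' : (f : LaurentSeries E) * H708.incl (_root_.Fermat.Agent.A2.Mod.RE P E) U₂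
      = H708.cst (w : E) * H708.incl (_root_.Fermat.Agent.A2.Mod.RE P E) U₁ := by
    rw [← he, hcoe]
    field_simp
  have h2 : S * U₂ = H708.cstA (_root_.Fermat.Agent.A2.Mod.RE P E) w * U₁ := by
    apply H708.incl_injective (_root_.Fermat.Agent.A2.Mod.RE P E)
    rw [_root_.map_mul, _root_.map_mul, H708.incl_cstA, ← hS, he']
  have h3 := congrArg (H708.red (_root_.Fermat.Agent.A2.Mod.RE P E)) h2
  rw [_root_.map_mul, _root_.map_mul, H708.red_cstA, (IsLocalRing.residue_eq_zero_iff w).mpr hw,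
    HahnSeries.single_eq_zero, zero_mul] at h3
  rcases mul_eq_zero.mp h3 with h4 | h4
  · exact h4
  · exact absurd h4 hU₂

end Red

/-! ## 4. the family `Y i · j^a` -/

section Family

variable (M q : ℕ)

/-- the integral series `Y_i · j^a`, indexed by `Fin ((q+1) ψ(M)) ≃ Fin (q+1) × Fin ψ(M)`. -/
def monoZ (Y : Fin (dedekindPsi M) → LaurentSeries ℤ) (i : Fin ((q + 1) * dedekindPsi M)) :
    LaurentSeries ℤ :=
  Y (finProdFinEquiv.symm i).2 * jqModC ℤ ^ ((finProdFinEquiv.symm i).1 : ℕ)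

/-- the integral series of the coordinate `x = j · j_q`. -/
def xZ [NeZero q] : LaurentSeries ℤ := jqModC ℤ * qExpand ℤ q (jqModC ℤ)

theorem castQ_jqModC : H708.castQ (jqModC ℤ) = jq := by
  rw [H708.castQ, coeffMap_jqModC, jqModC_rat]

theorem castQ_mem_full_of_mem_closure [NeZero M] {y : LaurentSeries ℤ}
    (hy : y ∈ Submonoid.closure (intDivisorExpansions M)) :
    H708.castQ y ∈ modularFunctionFieldFull M := by
  have h1 : castL ℚ y ∈ castL ℚ ''
      ((Submonoid.closure (intDivisorExpansions M) : Submonoid (LaurentSeries ℤ)) :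
        Set (LaurentSeries ℤ)) := ⟨y, hy, rfl⟩
  rw [Fermat.Agent.S28.H325.castL_image_closure] at h1
  exact Fermat.Agent.S28.H325.monomials_subset_full ℚ M h1

theorem castQ_monoZ_mem [NeZero M] {Y : Fin (dedekindPsi M) → LaurentSeries ℤ}
    (hY : ∀ i, Y i ∈ Submonoid.closure (intDivisorExpansions M))
    (i : Fin ((q + 1) * dedekindPsi M)) :
    H708.castQ (monoZ M q Y i) ∈ modularFunctionFieldFull M := by
  rw [monoZ, _root_.map_mul, _root_.map_pow, castQ_jqModC]
  refine mul_mem (castQ_mem_full_of_mem_closure M (hY _)) (pow_mem ?_ _)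
  have := jqd_mem_full M (one_dvd M)
  rwa [qExpand_one_apply] at this

end Family

section Main

variable (P : ValuationSubring _root_.Fermat.Agent.A2.Mod.Qb) (E : IntermediateField ℚ _root_.Fermat.Agent.A2.Mod.Qb) (M q : ℕ) [NeZero M] [NeZero q]

/-- the elements `g i = Y i · j^a` of `F_M`. -/
def gFam {Y : Fin (dedekindPsi M) → LaurentSeries ℤ}
    (hY : ∀ i, Y i ∈ Submonoid.closure (intDivisorExpansions M))
    (i : Fin ((q + 1) * dedekindPsi M)) : _root_.Fermat.Agent.A2.Mod.FE E M :=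
  ⟨coeffEmb E (H708.castQ (monoZ M q Y i)),
    coeffEmb_mem_laurentBaseChange E (castQ_monoZ_mem M q hY i)⟩

omit [NeZero q] in
theorem coe_gFam {Y : Fin (dedekindPsi M) → LaurentSeries ℤ}
    (hY : ∀ i, Y i ∈ Submonoid.closure (intDivisorExpansions M))
    (i : Fin ((q + 1) * dedekindPsi M)) :
    ((gFam E M q hY i : _root_.Fermat.Agent.A2.Mod.FE E M) : LaurentSeries E)
      = H708.incl (_root_.Fermat.Agent.A2.Mod.RE P E) (H708.castA (_root_.Fermat.Agent.A2.Mod.RE P E) (monoZ M q Y i)) := by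
  rw [H708.incl_castA]
  rfl

omit [NeZero q] in
theorem gFam_mem {Y : Fin (dedekindPsi M) → LaurentSeries ℤ}
    (hY : ∀ i, Y i ∈ Submonoid.closure (intDivisorExpansions M))
    {VM : ValuationSubring (_root_.Fermat.Agent.A2.Mod.FE E M)} (hVM : IsVinf P E M VM)
    (i : Fin ((q + 1) * dedekindPsi M)) : gFam E M q hY i ∈ VM := by
  rw [hVM, coe_gFam P]
  exact H708.IsGaussInt.of_incl _

theorem alpha_gFam_mem {Y : Fin (dedekindPsi M) → LaurentSeries ℤ}
    (hY : ∀ i, Y i ∈ Submonoid.closure (intDivisorExpansions M))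
    {V : ValuationSubring (_root_.Fermat.Agent.A2.Mod.FE E (M * q))} (hV : IsVinf P E (M * q) V)
    (i : Fin ((q + 1) * dedekindPsi M)) : αE E M q (gFam E M q hY i) ∈ V := by
  rw [hV, coe_heckeAlphaBar, coe_gFam P]
  exact H708.IsGaussInt.of_incl _

omit [NeZero M] in
theorem coe_xE :
    ((xE E M q : _root_.Fermat.Agent.A2.Mod.FE E (M * q)) : LaurentSeries E)
      = H708.incl (_root_.Fermat.Agent.A2.Mod.RE P E) (H708.castA (_root_.Fermat.Agent.A2.Mod.RE P E) (xZ q)) := by
  rw [H708.incl_castA, xZ, _root_.map_mul, H708.castQ, coeffMap_qExpand, ← H708.castQ, castQ_jqModC,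
    _root_.map_mul, xE, IntermediateField.coe_mul]
  show coeffEmb E (qExpand ℚ 1 jq) * coeffEmb E (qExpand ℚ q jq) = _
  rw [qExpand_one_apply]

/-- the coercion of `ev x p` is the inclusion of the integral series `p(X)`. -/
theorem coe_ev {N : ℕ} (x : _root_.Fermat.Agent.A2.Mod.FE E N) (X : LaurentSeries (_root_.Fermat.Agent.A2.Mod.RE P E))
    (hx : (x : LaurentSeries E) = H708.incl (_root_.Fermat.Agent.A2.Mod.RE P E) X) (p : Polynomial (_root_.Fermat.Agent.A2.Mod.RE P E)) :
    ((ev P E N x p : _root_.Fermat.Agent.A2.Mod.FE E N) : LaurentSeries E) = H708.incl (_root_.Fermat.Agent.A2.Mod.RE P E) (aeval X p) := by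
  rw [H708.incl, Fermat.Agent.S28.H325.coeffMap_aeval, ← H708.incl, ← hx, aeval_def,
    Polynomial.eval₂_map, ev]
  exact Polynomial.hom_eval₂ p ((algebraMap E (_root_.Fermat.Agent.A2.Mod.FE E N)).comp (_root_.Fermat.Agent.A2.Mod.RE P E).subtype)
    (algebraMap (_root_.Fermat.Agent.A2.Mod.FE E N) (LaurentSeries E)) x

/-! ## 5. reductions -/

theorem red_castA (Z : LaurentSeries ℤ) :
    H708.red (_root_.Fermat.Agent.A2.Mod.RE P E) (H708.castA (_root_.Fermat.Agent.A2.Mod.RE P E) Z)
      = castL (IsLocalRing.ResidueField (_root_.Fermat.Agent.A2.Mod.RE P E)) Z := by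
  rw [H708.red, H708.castA, coeffMap_coeffMap]
  exact coeffMap_congr (RingHom.ext_int _ _) Z

/-- Frobenius: `j̄_q = j̄^q` in characteristic `q`. -/
theorem castL_qExpand_jqModC (hq : q.Prime) (k : Type*) [Field k] [CharP k q] :
    castL k (qExpand ℤ q (jqModC ℤ)) = jqModC k ^ q := by
  have : Fact q.Prime := ⟨hq⟩
  obtain ⟨g, hg⟩ := H528.exists_frobCong q (jqModC ℤ)
  have h1 : qExpand ℤ q (jqModC ℤ) = jqModC ℤ ^ q + HahnSeries.C (q : ℤ) * g := by
    rw [← hg]; ring
  have h2 : castL k (HahnSeries.C (q : ℤ)) = 0 := by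
    ext n
    rw [castL, coeffMap_coeff, HahnSeries.coeff_zero, HahnSeries.C_apply,
      HahnSeries.coeff_single]
    split_ifs
    · rw [eq_intCast, Int.cast_natCast, CharP.cast_eq_zero k q]
    · rw [_root_.map_zero]
  rw [h1, _root_.map_add, _root_.map_mul, h2, zero_mul, add_zero, _root_.map_pow,
    Fermat.Agent.S28.H325.castL_jqModC]

theorem castL_xZ (hq : q.Prime) (k : Type*) [Field k] [CharP k q] :
    castL k (xZ q) = jqModC k ^ (q + 1) := by
  rw [xZ, _root_.map_mul, castL_qExpand_jqModC q hq k, Fermat.Agent.S28.H325.castL_jqModC, pow_succ']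

omit [NeZero M] [NeZero q] in
theorem castL_monoZ (k : Type*) [Field k] (Y : Fin (dedekindPsi M) → LaurentSeries ℤ)
    (i : Fin ((q + 1) * dedekindPsi M)) :
    castL k (monoZ M q Y i)
      = castL k (Y (finProdFinEquiv.symm i).2) * jqModC k ^ ((finProdFinEquiv.symm i).1 : ℕ) := by
  rw [monoZ, _root_.map_mul, _root_.map_pow, Fermat.Agent.S28.H325.castL_jqModC]

/-- polynomial independence of the family `v i · J^a` over `k[J^(q+1)]`. -/
theorem polyIndep_tower {k : Type*} [Field k] {n : ℕ} (m : ℕ) (hm : 0 < m)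
    (J : LaurentSeries k) (v : Fin n → LaurentSeries k) (hv : PolyIndep J v)
    (p : Fin (m * n) → Polynomial k)
    (h : ∑ i, aeval (J ^ m) (p i) *
      (v (finProdFinEquiv.symm i).2 * J ^ ((finProdFinEquiv.symm i).1 : ℕ)) = 0)
    (i : Fin (m * n)) : p i = 0 := by
  have h1 : ∑ i' : Fin n, aeval J (∑ a : Fin m,
      expand k m (p (finProdFinEquiv (a, i'))) * X ^ (a : ℕ)) * v i' = 0 := by
    rw [← h]
    rw [Fintype.sum_equiv finProdFinEquiv.symm
      (fun i => aeval (J ^ m) (p i) *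
        (v (finProdFinEquiv.symm i).2 * J ^ ((finProdFinEquiv.symm i).1 : ℕ)))
      (fun z : Fin m × Fin n => aeval (J ^ m) (p (finProdFinEquiv z)) * (v z.2 * J ^ (z.1 : ℕ)))
      (fun i => by simp only [Equiv.apply_symm_apply])]
    rw [Fintype.sum_prod_type, Finset.sum_comm]
    refine Finset.sum_congr rfl fun i' _ => ?_
    rw [_root_.map_sum, Finset.sum_mul]
    refine Finset.sum_congr rfl fun a _ => ?_
    rw [_root_.map_mul, expand_aeval, _root_.map_pow, aeval_X]
    ring
  have h2 := hv _ h1 (finProdFinEquiv.symm i).2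
  have h3 : p (finProdFinEquiv ((finProdFinEquiv.symm i).1, (finProdFinEquiv.symm i).2)) = 0 :=
    eq_zero_of_sum_expand_mul_X_pow hm
      (fun a => p (finProdFinEquiv (a, (finProdFinEquiv.symm i).2))) h2 (finProdFinEquiv.symm i).1
  rwa [Prod.mk.eta, Equiv.apply_symm_apply] at h3

/-- `p̄ = 0 ⟹ w ∣ p`. -/
theorem C_dvd_of_map_residue_eq_zero {w : _root_.Fermat.Agent.A2.Mod.RE P E} (hdvr : IsDiscreteValuationRing (_root_.Fermat.Agent.A2.Mod.RE P E))
    (hw : Irreducible w) {p : Polynomial (_root_.Fermat.Agent.A2.Mod.RE P E)}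
    (hp : p.map (IsLocalRing.residue (_root_.Fermat.Agent.A2.Mod.RE P E)) = 0) : Polynomial.C w ∣ p := by
  rw [Polynomial.C_dvd_iff_dvd_coeff]
  intro n
  have h1 : IsLocalRing.residue (_root_.Fermat.Agent.A2.Mod.RE P E) (p.coeff n) = 0 := by
    have := congrArg (fun z => z.coeff n) hp
    simpa using this
  rw [IsLocalRing.residue_eq_zero_iff, hw.maximalIdeal_eq, Ideal.mem_span_singleton] at h1
  exact h1

/-! ## 6. the leaf -/

/-- **L9, strong form.**  There is a family `g` of `(q+1) ψ(M)` elements of `F_M`, integral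
series (hence in every Gauss ring of level `M`), such that `α ∘ g` lies in `V∞` (level `M q`) and
is independent modulo `w` over `R[x]`, `x = j j_q`. -/
theorem indInf_strong (w : _root_.Fermat.Agent.A2.Mod.RE P E) (hS : Setting P E M q w) :
    ∃ g : Fin ((q + 1) * dedekindPsi M) → _root_.Fermat.Agent.A2.Mod.FE E M,
      (∀ VM : ValuationSubring (_root_.Fermat.Agent.A2.Mod.FE E M), IsVinf P E M VM → ∀ i, g i ∈ VM) ∧
      ∀ V : ValuationSubring (_root_.Fermat.Agent.A2.Mod.FE E (M * q)), IsVinf P E (M * q) V →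
        (∀ i, αE E M q (g i) ∈ V) ∧
        IndepMod P E (M * q) V w (xE E M q) (fun i => αE E M q (g i)) := by
  have hdvr := hS.dvr
  have : CharP (IsLocalRing.ResidueField (_root_.Fermat.Agent.A2.Mod.RE P E)) q :=
    charP_residueField P E hS.q_prime hS.lies_over
  obtain ⟨Y, hY, hYi⟩ := exists_monomials M q hS.q_prime hS.q_not_dvd
    (IsLocalRing.ResidueField (_root_.Fermat.Agent.A2.Mod.RE P E))
  refine ⟨gFam E M q hY, fun VM hVM i => gFam_mem P E M q hY hVM i, fun V hV => ⟨fun i =>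
    alpha_gFam_mem P E M q hY hV i, ?_⟩⟩
  intro a ha i
  -- the integral series of the relation
  set S : LaurentSeries (_root_.Fermat.Agent.A2.Mod.RE P E) :=
    ∑ i, aeval (H708.castA (_root_.Fermat.Agent.A2.Mod.RE P E) (xZ q)) (a i) * H708.castA (_root_.Fermat.Agent.A2.Mod.RE P E) (monoZ M q Y i) with hSdef
  have hcoe : ((∑ i, ev P E (M * q) (xE E M q) (a i) * αE E M q (gFam E M q hY i) :
      _root_.Fermat.Agent.A2.Mod.FE E (M * q)) : LaurentSeries E) = H708.incl (_root_.Fermat.Agent.A2.Mod.RE P E) S := by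
    rw [hSdef, _root_.map_sum, IntermediateField.coe_sum]
    refine Finset.sum_congr rfl fun i _ => ?_
    rw [IntermediateField.coe_mul, coe_ev P E (xE E M q) _ (coe_xE P E M q) (a i),
      coe_heckeAlphaBar, coe_gFam P, _root_.map_mul]
  have hw0 : w ≠ 0 := hS.unif.ne_zero
  have hwm : w ∈ IsLocalRing.maximalIdeal (_root_.Fermat.Agent.A2.Mod.RE P E) := by
    rw [IsLocalRing.mem_maximalIdeal, mem_nonunits_iff]
    exact hS.unif.not_isUnit
  have hred := red_eq_zero_of_inW hV hw0 hwm hcoe ha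
  rw [hSdef, _root_.map_sum] at hred
  have hred' : ∑ i, aeval (jqModC (IsLocalRing.ResidueField (_root_.Fermat.Agent.A2.Mod.RE P E)) ^ (q + 1))
      ((a i).map (IsLocalRing.residue (_root_.Fermat.Agent.A2.Mod.RE P E))) *
      (castL (IsLocalRing.ResidueField (_root_.Fermat.Agent.A2.Mod.RE P E)) (Y (finProdFinEquiv.symm i).2) *
        jqModC (IsLocalRing.ResidueField (_root_.Fermat.Agent.A2.Mod.RE P E)) ^ ((finProdFinEquiv.symm i).1 : ℕ)) = 0 := by
    rw [← hred]
    refine Finset.sum_congr rfl fun i _ => ?_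
    rw [_root_.map_mul, H708.red, Fermat.Agent.S28.H325.coeffMap_aeval, ← H708.red, red_castA, red_castA,
      castL_xZ q hS.q_prime, castL_monoZ]
  have hzero := polyIndep_tower (q + 1) (Nat.succ_pos q) _ _ hYi
    (fun i => (a i).map (IsLocalRing.residue (_root_.Fermat.Agent.A2.Mod.RE P E))) hred' i
  exact C_dvd_of_map_residue_eq_zero P E hdvr hS.unif hzero

end Main

/-- **L9** `IndInf` (exact shape of `Spec.IndInfStatement`). -/
theorem indInf (P : ValuationSubring _root_.Fermat.Agent.A2.Mod.Qb) (E : IntermediateField ℚ _root_.Fermat.Agent.A2.Mod.Qb) (M q : ℕ) [NeZero q]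
    (w : _root_.Fermat.Agent.A2.Mod.RE P E) : IndInfStatement P E M q w := by
  intro hS V hV
  have : NeZero M := ⟨hS.M_ne_zero⟩
  obtain ⟨g, -, hg⟩ := indInf_strong P E M q w hS
  exact ⟨fun i => αE E M q (g i), (hg V hV).1, (hg V hV).2⟩

end Fermat.Agent.A2.Mod.H753

end

end
-- ===== PACK-END A2/Mod/H753/IndInf.lean

-- ===== PACK-BEGIN A2/H609/ChartPrep.lean
section



/-!
# Node purity, part 12: preparations on a chart

`B` a domain with fraction field `F`, `u ∈ Fˣ` with constant unit residues on the components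
`p₁`, `p₂` (elementwise: `u b = a`, `b ∉ p`, `a - c b ∈ p`, `c` a unit).

* `exists_common_denominator` : one denominator `b ∉ p₁ ∪ p₂` for both components.
* the local ring `locAt F n = B_n ⊆ F` (from `A2.H849`) is an integrally closed domain with
  fraction field `F`.
-/

set_option autoImplicit false

namespace Fermat.Agent.A2.H609

open Fermat.Agent.A2.H849

section Denominator

variable {B : Type*} [CommRing B]
variable {F : Type*} [Field F] [Algebra B F]

/-- Independence of the representation: if `u b₁ = a₁` with `b₁ ∉ p`, `a₁ - c b₁ ∈ p`, then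
`a - c b ∈ p` for every representation `u b = a`. -/
theorem sub_mul_mem_of_eq [IsDomain B] [IsFractionRing B F] {p : Ideal B} [p.IsPrime] {u : F}
    {c a₁ b₁ a b : B} (hb₁ : b₁ ∉ p) (h₁ : a₁ - c * b₁ ∈ p)
    (hu₁ : u * algebraMap B F b₁ = algebraMap B F a₁)
    (hu : u * algebraMap B F b = algebraMap B F a) : a - c * b ∈ p := by
  have hinj : Function.Injective (algebraMap B F) := IsFractionRing.injective B F
  have h1 : a * b₁ = a₁ * b := by
    apply hinj
    rw [map_mul, map_mul, ← hu, ← hu₁]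
    ring
  have h2 : b₁ * (a - c * b) = (a₁ - c * b₁) * b := by
    linear_combination h1
  have h3 : b₁ * (a - c * b) ∈ p := by
    rw [h2]
    exact p.mul_mem_right _ h₁
  exact (Ideal.IsPrime.mem_or_mem inferInstance h3).resolve_left hb₁

/-- A common denominator outside `p₁ ∪ p₂`. -/
theorem exists_common_denominator {p₁ p₂ : Ideal B} [p₁.IsPrime] [p₂.IsPrime] {u : F}
    (hs₁ : ∃ a b : B, b ∉ p₁ ∧ u * algebraMap B F b = algebraMap B F a)
    (hs₂ : ∃ a b : B, b ∉ p₂ ∧ u * algebraMap B F b = algebraMap B F a) :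
    ∃ a b : B, b ∉ p₁ ∧ b ∉ p₂ ∧ u * algebraMap B F b = algebraMap B F a := by
  obtain ⟨a₁, b₁, hb₁, h₁⟩ := hs₁
  obtain ⟨a₂, b₂, hb₂, h₂⟩ := hs₂
  by_cases h12 : b₁ ∈ p₂
  · by_cases h21 : b₂ ∈ p₁
    · refine ⟨a₁ + a₂, b₁ + b₂, ?_, ?_, ?_⟩
      · intro h
        apply hb₁
        have : b₁ = (b₁ + b₂) - b₂ := by ring
        rw [this]
        exact p₁.sub_mem h h21
      · intro h
        apply hb₂
        have : b₂ = (b₁ + b₂) - b₁ := by ring
        rw [this]
        exact p₂.sub_mem h h12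
      · rw [map_add, map_add, mul_add, h₁, h₂]
    · exact ⟨a₂, b₂, h21, hb₂, h₂⟩
  · exact ⟨a₁, b₁, hb₁, h12, h₁⟩

end Denominator

section LocAt

variable {B : Type*} [CommRing B] [IsDomain B]
variable {F : Type*} [Field F] [Algebra B F] [IsFractionRing B F]

instance locAt_isFractionRing (n : Ideal B) [n.IsPrime] : IsFractionRing (locAt F n) F :=
  IsFractionRing.isFractionRing_of_isDomain_of_isLocalization n.primeCompl (locAt F n) F

instance locAt_isIntegrallyClosed [IsIntegrallyClosed B] (n : Ideal B) [n.IsPrime] :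
    IsIntegrallyClosed (locAt F n) :=
  isIntegrallyClosed_of_isLocalization (locAt F n) n.primeCompl n.primeCompl_le_nonZeroDivisors

theorem coe_algebraMap_locAt (n : Ideal B) [n.IsPrime] (b : B) :
    ((algebraMap B (locAt F n) b : locAt F n) : F) = algebraMap B F b := rfl

theorem algebraMap_locAt_apply (n : Ideal B) [n.IsPrime] (z : locAt F n) :
    algebraMap (locAt F n) F z = (z : F) := rfl

/-- `algebraMap b ∈ p B_n ↔ b ∈ p` for a prime `p ≤ n`. -/
theorem algebraMap_mem_map_iff {p n : Ideal B} [p.IsPrime] [n.IsPrime] (hpn : p ≤ n) (b : B) :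
    algebraMap B (locAt F n) b ∈ p.map (algebraMap B (locAt F n)) ↔ b ∈ p := by
  have hd : Disjoint (n.primeCompl : Set B) (p : Set B) :=
    Set.disjoint_left.mpr fun y hy hyp => hy (hpn hyp)
  have h := IsLocalization.under_map_of_isPrime_disjoint n.primeCompl (locAt F n)
    (inferInstance : p.IsPrime) hd
  constructor
  · intro hb
    have : b ∈ (p.map (algebraMap B (locAt F n))).under B := hb
    rwa [h] at this
  · exact fun hb => Ideal.mem_map_of_mem _ hb

/-- A unit of `B_n` is a quotient of two elements of `B ∖ n`. -/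
theorem exists_frac_of_isUnit_locAt (n : Ideal B) [n.IsPrime] {z : locAt F n} (hz : IsUnit z) :
    ∃ a s : B, a ∉ n ∧ s ∉ n ∧ (z : F) * algebraMap B F s = algebraMap B F a := by
  obtain ⟨a, s, hs, hzas⟩ := (mem_locAt_iff n (z : F)).1 z.2
  have hinj : Function.Injective (algebraMap B F) := IsFractionRing.injective B F
  have hsF : algebraMap B F s ≠ 0 := by
    intro h0
    apply hs
    rw [hinj (by rw [h0, map_zero] : algebraMap B F s = algebraMap B F 0)]
    exact n.zero_mem
  have hzs : (z : F) * algebraMap B F s = algebraMap B F a := by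
    rw [hzas]
    field_simp
  refine ⟨a, s, ?_, hs, hzs⟩
  have hunit : IsUnit (algebraMap B (locAt F n) a) := by
    have h1 : algebraMap B (locAt F n) a = z * algebraMap B (locAt F n) s := by
      apply Subtype.ext
      exact hzs.symm
    rw [h1]
    exact hz.mul ((IsLocalization.AtPrime.isUnit_to_map_iff (locAt F n) n s).2 hs)
  exact (IsLocalization.AtPrime.isUnit_to_map_iff (locAt F n) n a).1 hunit

/-- An element of `B_n` outside `p B_n` (`p ≤ n` prime) is a quotient `φ / s` with `φ ∉ p`,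
`s ∉ n`. -/
theorem exists_frac_of_notMem_map {p n : Ideal B} [p.IsPrime] [n.IsPrime]
    {z : locAt F n} (hz : z ∉ p.map (algebraMap B (locAt F n))) :
    ∃ φ s : B, φ ∉ p ∧ s ∉ n ∧ (z : F) * algebraMap B F s = algebraMap B F φ := by
  obtain ⟨φ, s, hs, hzas⟩ := (mem_locAt_iff n (z : F)).1 z.2
  have hinj : Function.Injective (algebraMap B F) := IsFractionRing.injective B F
  have hsF : algebraMap B F s ≠ 0 := by
    intro h0
    apply hs
    rw [hinj (by rw [h0, map_zero] : algebraMap B F s = algebraMap B F 0)]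
    exact n.zero_mem
  have hzs : (z : F) * algebraMap B F s = algebraMap B F φ := by
    rw [hzas]
    field_simp
  refine ⟨φ, s, ?_, hs, hzs⟩
  intro hφ
  apply hz
  have hsu : IsUnit (algebraMap B (locAt F n) s) :=
    (IsLocalization.AtPrime.isUnit_to_map_iff (locAt F n) n s).2 hs
  have h1 : z * algebraMap B (locAt F n) s = algebraMap B (locAt F n) φ := by
    apply Subtype.ext
    exact hzs
  have h2 : z * algebraMap B (locAt F n) s ∈ p.map (algebraMap B (locAt F n)) := by
    rw [h1]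
    exact Ideal.mem_map_of_mem _ hφ
  obtain ⟨t, ht⟩ := hsu.exists_right_inv
  have h3 : z = z * algebraMap B (locAt F n) s * t := by
    rw [mul_assoc, ht, mul_one]
  rw [h3]
  exact Ideal.mul_mem_right _ _ h2

end LocAt

end Fermat.Agent.A2.H609

end
-- ===== PACK-END A2/H609/ChartPrep.lean

-- ===== PACK-BEGIN A2/H729/LocalFact.lean
section



/-!
# A2 (helper729): from local factorisations on the base charts to local models of the Kummer root

`F₀ ⊆ F`, `y ∈ F`, `y ^ m = u ∈ F₀`.  A *local factorisation* of `u` at a closed point `𝔫₀ ∋ w`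
of the chart of `F₀` is `u = ε * h ^ m` with `h ≡ 1 mod w O₀` and `ε` regular at `𝔫₀`
(`s * ε ∈ chart` for some `s ∉ 𝔫₀`).  Then `y₁ := y / h` satisfies `y₁ ≡ y mod w O` and
`s * y₁ ∈ chart_F`: this is the local hypothesis of `kummer_trivial_of_local`.
-/

set_option autoImplicit false
set_option linter.unusedSectionVars false

namespace Fermat.Agent.A2.H729

open Polynomial Fermat.Agent.S18.H138

variable {R : Type*} [CommRing R] [IsDomain R] [IsIntegrallyClosed (Polynomial R)]
  {F₀ : Type*} [Field F₀] [Algebra R F₀]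
  {F : Type*} [Field F] [Algebra R F] [Algebra F₀ F] [IsScalarTower R F₀ F]

theorem gaussO_inv_le {w : R} (hw : Prime w) {x : F} (hx0 : x ≠ 0) :
    gaussO hw x ≤ gaussO hw x⁻¹ := fun _ ht =>
  exists_denom_inv_of_mem_gaussO hw hx0 ht

theorem gaussO_inv {w : R} (hw : Prime w) {x : F} (hx0 : x ≠ 0) :
    gaussO hw x⁻¹ = gaussO hw x := by
  apply le_antisymm
  · have := gaussO_inv_le hw (inv_ne_zero hx0)
    rwa [inv_inv] at this
  · exact gaussO_inv_le hw hx0

/-- The local hypothesis of `kummer_trivial_of_local` from local factorisations on the base. -/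
theorem hloc_of_localFactorisation {w : R} (hw : Prime w) {x₀ : F₀}
    (hx : Transcendental R (algebraMap F₀ F x₀)) {m : ℕ} (hm : 0 < m) {u : F₀} {y : F}
    (hyu : y ^ m = algebraMap F₀ F u) (hyO : y ∈ gaussO hw (algebraMap F₀ F x₀))
    (hLF : ∀ 𝔫₀ : Ideal (chart R ({x₀} : Set F₀)), 𝔫₀.IsMaximal →
      algebraMap R (chart R ({x₀} : Set F₀)) w ∈ 𝔫₀ →
      ∃ s : chart R ({x₀} : Set F₀), s ∉ 𝔫₀ ∧ ∃ h ε : F₀,
        InW (gaussO hw x₀) w (h - 1) ∧ u = ε * h ^ m ∧ (s : F₀) * ε ∈ chart R ({x₀} : Set F₀)) :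
    ∀ 𝔫 : Ideal (chart R ({algebraMap F₀ F x₀} : Set F)), 𝔫.IsMaximal →
      algebraMap R (chart R ({algebraMap F₀ F x₀} : Set F)) w ∈ 𝔫 →
      ∃ s : chart R ({algebraMap F₀ F x₀} : Set F), s ∉ 𝔫 ∧
        ∃ y₁ : F, InW (gaussO hw (algebraMap F₀ F x₀)) w (y - y₁) ∧
          (s : F) * y₁ ∈ chart R ({algebraMap F₀ F x₀} : Set F) := by
  intro 𝔫 h𝔫 hw𝔫
  have := h𝔫
  have hmax := isMaximal_comap_chartMap (R := R) (F := F) x₀ 𝔫
  have hw₀ : algebraMap R (chart R ({x₀} : Set F₀)) w ∈
      Ideal.comap (chartMap (R := R) (F := F) x₀) 𝔫 := by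
    rw [Ideal.mem_comap, chartMap_algebraMap]
    exact hw𝔫
  obtain ⟨s₀, hs₀, h, ε, hh, huε, hsε⟩ := hLF _ hmax hw₀
  have hhF : InW (gaussO hw (algebraMap F₀ F x₀)) w (algebraMap F₀ F h - 1) := by
    have := InW.map (F := F) hw hh
    rwa [_root_.map_sub, _root_.map_one] at this
  obtain ⟨hne, hinv, hinv1⟩ := inW_inv_sub_one hw hx hhF
  have hh0 : h ≠ 0 := fun h0 => hne (by rw [h0, _root_.map_zero])
  refine ⟨chartMap (R := R) (F := F) x₀ s₀, fun hs => hs₀ (Ideal.mem_comap.2 hs),
    y * (algebraMap F₀ F h)⁻¹, ?_, ?_⟩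
  · have : y - y * (algebraMap F₀ F h)⁻¹ = -(y * ((algebraMap F₀ F h)⁻¹ - 1)) := by ring
    rw [this]
    exact (hinv1.mul_left hyO).neg
  · refine mem_chart_of_pow_mem hm ?_
    have hε : ε = u * (h ^ m)⁻¹ := by
      rw [huε, mul_assoc, mul_inv_cancel₀ (pow_ne_zero _ hh0), mul_one]
    have : ((chartMap (R := R) (F := F) x₀ s₀ : chart R ({algebraMap F₀ F x₀} : Set F)) : F)
        = algebraMap F₀ F s₀ := rfl
    rw [this]
    have key : (algebraMap F₀ F s₀ * (y * (algebraMap F₀ F h)⁻¹)) ^ m =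
        algebraMap F₀ F ((s₀ : F₀) ^ (m - 1) * ((s₀ : F₀) * ε)) := by
      rw [mul_pow, mul_pow, hyu, hε, inv_pow, ← _root_.map_pow, ← _root_.map_pow, ← map_inv₀, ← _root_.map_mul,
        ← _root_.map_mul]
      congr 1
      have : (s₀ : F₀) ^ m = (s₀ : F₀) ^ (m - 1) * s₀ := by
        rw [← pow_succ]; congr 1; omega
      rw [this]
      ring
    rw [key]
    exact algebraMap_mem_chart_singleton
      (Subalgebra.mul_mem _ (Subalgebra.pow_mem _ s₀.2 _) hsε)

end Fermat.Agent.A2.H729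

end
-- ===== PACK-END A2/H729/LocalFact.lean

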