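import Mathlib
import Fermat.Prelude.Def_AlgebraicCurve_Correspondence
import Fermat.Agent.Pack.S33.E7L1
import Fermat.Agent.Pack.S33.E17L3
import Fermat.Agent.Pack.S33.E17L1
import Fermat.Agent.Pack.S33.E17L0
import Fermat.Agent.Pack.S33.E13L2
import Fermat.Agent.Pack.S33.E1L1
import Fermat.Agent.Pack.S33.E1L3
import Fermat.Agent.Pack.S33.E17L2
import Fermat.Agent.Pack.S33.E15L3
import Fermat.Agent.Pack.S33.E5L2
import Fermat.Agent.Pack.S33.E7L3
import Fermat.Agent.Pack.S33.E16L1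
import Fermat.Agent.Pack.S33.E2L2
import Fermat.Agent.Pack.S33.E2L3
import Fermat.Agent.Pack.S33.E10L3
import Fermat.Agent.Pack.S33.E10L2
import Fermat.Agent.Pack.S33.E2L1
import Fermat.Agent.Pack.S33.E15L1
import Fermat.Agent.Pack.S33.E16L3
import Fermat.Agent.Pack.S33.E11L1
import Fermat.Agent.Pack.S33.E13L3
import Fermat.Agent.Pack.S33.E14L2

-- ===== PACK-BEGIN S30/H330/AdicTorsionRel.lean
section
/-
S30 -- ADIC MODULE LAYER, input (T) from the interfaces of the S37 row (helper330).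

`TorsionRelations N p` (inertia at `ℓ ∤ N p` acts trivially on `J₀(N)(ℚ̄)[p^∞]`, every Frobenius
at `ℓ` satisfies `σ² - T_ℓ σ + ℓ = 0` on it) from each of the interfaces of the S37 row:
* `torsionRelations_of_redData`     : reduction data `H99.RedData`;
* `torsionRelations_of_pieces`      : [S18] `Core.InjTorsionModL` + [PR] `Core.PlaceRed`;
* `torsionRelations_of_weakRedData` : `Core.WeakRedData` + `Core.PullData` (final interface);
* `torsionRelations_of_rawAll`      : an abstract raw Eichler–Shimura statement on the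
  `m`-torsion for all `m` prime to `ℓ`.
The pointwise lemmas of helper98 / helper999 hold for every modulus prime to `ℓ`; they are applied
to the moduli `p ^ n`.
-/




set_option autoImplicit false

noncomputable section

namespace Fermat.Agent.S30.H330

open Fermat.Agent.S29 ModularCurve ValuationSubring

theorem not_dvd_pow_of_not_dvd_mul {ℓ N p : ℕ} (hℓ : ℓ.Prime) (h : ¬ ℓ ∣ N * p) (n : ℕ) :
    ¬ ℓ ∣ p ^ n := fun hd => h (Dvd.dvd.mul_left (hℓ.dvd_of_dvd_pow hd) N)

/-- The raw Eichler–Shimura statement at the level `N` on the `m`-torsion, for all `m` prime to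
the prime `ℓ ∤ N`. -/
def RawESAll (N : ℕ) [NeZero N] : Prop :=
  ∀ (ℓ : ℕ) (hℓ : ℓ.Prime), ¬ ℓ ∣ N → ∀ A : VQ, A.LiesOverPrime ℓ → ∀ m : ℕ, ¬ ℓ ∣ m →
    (∀ σ ∈ A.inertiaSubgroupIn ℚ, ∀ x : JZero N, m • x = 0 → σ • x = x) ∧
    (∀ σ : GQ, A.IsFrobeniusAt σ ℓ → ∀ x : JZero N, m • x = 0 →
      σ • σ • x - heckeOperatorBar N ⟨ℓ, hℓ⟩ (σ • x) + ℓ • x = 0)

/-- (T) from the raw Eichler–Shimura statement on all prime-to-`ℓ` torsion. -/
theorem torsionRelations_of_rawAll {N : ℕ} [NeZero N] (p : ℕ) (h : RawESAll N) :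
    TorsionRelations N p := by
  intro ℓ hℓ hdvd A hA
  have hℓN : ¬ ℓ ∣ N := fun h => hdvd (Dvd.dvd.mul_right h p)
  refine ⟨fun σ hσ x hx => ?_, fun σ hσ x hx => ?_⟩
  · obtain ⟨n, hn⟩ := hx
    exact (h ℓ hℓ hℓN A hA (p ^ n) (not_dvd_pow_of_not_dvd_mul hℓ hdvd n)).1 σ hσ x hn
  · obtain ⟨n, hn⟩ := hx
    exact (h ℓ hℓ hℓN A hA (p ^ n) (not_dvd_pow_of_not_dvd_mul hℓ hdvd n)).2 σ hσ x hn

/-- Raw Eichler–Shimura on all prime-to-`ℓ` torsion, from reduction data. -/
theorem rawESAll_of_redData {N : ℕ} [NeZero N]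
    (H : ∀ (ℓ : ℕ) (hℓ : ℓ.Prime), ¬ ℓ ∣ N →
      ∀ A : ValuationSubring (AlgebraicClosure ℚ), A.LiesOverPrime ℓ →
        Nonempty (Fermat.Agent.S37.H99.RedData N A ℓ hℓ)) :
    RawESAll N := by
  intro ℓ hℓ hℓN A hA m hm
  obtain ⟨D⟩ := H ℓ hℓ hℓN A hA
  have h := Fermat.Agent.S37.H98.rawES_at_of_redData D m
    (Nat.coprime_comm.mp ((Nat.Prime.coprime_iff_not_dvd hℓ).mpr hm))
  refine ⟨fun σ hσ x hx => h.1 σ hσ x (by rw [natCast_zsmul]; exact hx),
    fun σ hσ x hx => ?_⟩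
  have := h.2 σ hσ x (by rw [natCast_zsmul]; exact hx)
  rwa [natCast_zsmul] at this

/-- (T) from reduction data. -/
theorem torsionRelations_of_redData {N : ℕ} [NeZero N] (p : ℕ)
    (H : ∀ (ℓ : ℕ) (hℓ : ℓ.Prime), ¬ ℓ ∣ N →
      ∀ A : ValuationSubring (AlgebraicClosure ℚ), A.LiesOverPrime ℓ →
        Nonempty (Fermat.Agent.S37.H99.RedData N A ℓ hℓ)) :
    TorsionRelations N p :=
  torsionRelations_of_rawAll p (rawESAll_of_redData H)

open Fermat.Agent.S37.Core in
/-- Raw Eichler–Shimura on all prime-to-`ℓ` torsion, from the pieces [S18] and [PR]. -/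
theorem rawESAll_of_pieces {N : ℕ} [NeZero N]
    (hS18 : ∀ (ℓ : ℕ), ℓ.Prime → ¬ ℓ ∣ N →
      ∀ A : ValuationSubring (AlgebraicClosure ℚ), A.LiesOverPrime ℓ → InjTorsionModL N ℓ A)
    (hPR : ∀ (ℓ : ℕ) (hℓ : ℓ.Prime), ¬ ℓ ∣ N →
      ∀ A : ValuationSubring (AlgebraicClosure ℚ), A.LiesOverPrime ℓ →
        ∀ σ₀ : AlgebraicClosure ℚ ≃ₐ[ℚ] AlgebraicClosure ℚ, A.IsFrobeniusAt σ₀ ℓ →
          haveI : NeZero ℓ := ⟨hℓ.ne_zero⟩; Nonempty (PlaceRed N A ℓ σ₀)) :
    RawESAll N := by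
  intro ℓ hℓ hℓN A hA m hm
  refine ⟨fun σ hσ x hx => ?_, fun σ hσ x hx => ?_⟩
  · obtain ⟨σ₀, hσ₀⟩ := Fermat.Agent.S37.H99.exists_isFrobeniusAt ℓ hℓ A hA
    obtain ⟨D⟩ := hPR ℓ hℓ hℓN A hA σ₀ hσ₀
    exact (Fermat.Agent.S37.H98.rawES_at_of_placeRed hℓ D (hS18 ℓ hℓ hℓN A hA) m hm).1 σ hσ x
      (by rw [natCast_zsmul]; exact hx)
  · obtain ⟨D⟩ := hPR ℓ hℓ hℓN A hA σ hσ
    have := (Fermat.Agent.S37.H98.rawES_at_of_placeRed hℓ D (hS18 ℓ hℓ hℓN A hA) m hm).2 x
      (by rw [natCast_zsmul]; exact hx)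
    rwa [natCast_zsmul] at this

open Fermat.Agent.S37.Core in
/-- (T) from the pieces [S18] and [PR] of the S37 row plan. -/
theorem torsionRelations_of_pieces {N : ℕ} [NeZero N] (p : ℕ)
    (hS18 : ∀ (ℓ : ℕ), ℓ.Prime → ¬ ℓ ∣ N →
      ∀ A : ValuationSubring (AlgebraicClosure ℚ), A.LiesOverPrime ℓ → InjTorsionModL N ℓ A)
    (hPR : ∀ (ℓ : ℕ) (hℓ : ℓ.Prime), ¬ ℓ ∣ N →
      ∀ A : ValuationSubring (AlgebraicClosure ℚ), A.LiesOverPrime ℓ →
        ∀ σ₀ : AlgebraicClosure ℚ ≃ₐ[ℚ] AlgebraicClosure ℚ, A.IsFrobeniusAt σ₀ ℓ →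
          haveI : NeZero ℓ := ⟨hℓ.ne_zero⟩; Nonempty (PlaceRed N A ℓ σ₀)) :
    TorsionRelations N p :=
  torsionRelations_of_rawAll p (rawESAll_of_pieces hS18 hPR)

open Fermat.Agent.S37.Core Fermat.Agent.S37.H99 in
/-- Raw Eichler–Shimura on all prime-to-`ℓ` torsion, from the final interface of the S37 row. -/
theorem rawESAll_of_weakRedData {N : ℕ} [NeZero N]
    (H : ∀ (ℓ : ℕ) (hℓ : ℓ.Prime), ¬ ℓ ∣ N →
      ∀ A : ValuationSubring (AlgebraicClosure ℚ), A.LiesOverPrime ℓ →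
        ∀ σ₀ : AlgebraicClosure ℚ ≃ₐ[ℚ] AlgebraicClosure ℚ, A.IsFrobeniusAt σ₀ ℓ →
          haveI : NeZero ℓ := ⟨hℓ.ne_zero⟩
          ∃ (M : ℕ) (_ : NeZero M), Nonempty (WeakRedData M A ℓ σ₀) ∧
            Nonempty (PullData N M ℓ)) :
    RawESAll N := by
  intro ℓ hℓ hℓN A hA m hm
  have : NeZero ℓ := ⟨hℓ.ne_zero⟩
  refine ⟨fun σ hσ x hx => ?_, fun σ hσ x hx => ?_⟩
  · obtain ⟨σ₀, hσ₀⟩ := exists_isFrobeniusAt ℓ hℓ A hA
    obtain ⟨M, hM, ⟨W⟩, ⟨Pd⟩⟩ := H ℓ hℓ hℓN A hA σ₀ hσ₀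
    exact Fermat.Agent.S37.H999.inertia_smul_eq_of_weakRedData W Pd hm hσ hx
  · obtain ⟨M, hM, ⟨W⟩, ⟨Pd⟩⟩ := H ℓ hℓ hℓN A hA σ hσ
    exact Fermat.Agent.S37.H999.frobenius_relation_of_weakRedData W Pd hm hx

open Fermat.Agent.S37.Core in
/-- (T) from the final interface of the S37 row. -/
theorem torsionRelations_of_weakRedData {N : ℕ} [NeZero N] (p : ℕ)
    (H : ∀ (ℓ : ℕ) (hℓ : ℓ.Prime), ¬ ℓ ∣ N →
      ∀ A : ValuationSubring (AlgebraicClosure ℚ), A.LiesOverPrime ℓ →
        ∀ σ₀ : AlgebraicClosure ℚ ≃ₐ[ℚ] AlgebraicClosure ℚ, A.IsFrobeniusAt σ₀ ℓ →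
          haveI : NeZero ℓ := ⟨hℓ.ne_zero⟩
          ∃ (M : ℕ) (_ : NeZero M), Nonempty (WeakRedData M A ℓ σ₀) ∧
            Nonempty (PullData N M ℓ)) :
    TorsionRelations N p :=
  torsionRelations_of_rawAll p (rawESAll_of_weakRedData H)

end Fermat.Agent.S30.H330

end
end
-- ===== PACK-END S30/H330/AdicTorsionRel.lean

-- ===== PACK-BEGIN S18/H564/ConstF.lean
section




/-!
# S18 / T2 (helper564): `CONST_F` — a function without zeros is constant (char 0)

* `exists_const_of_forall_ord_eq_zero` : generic form, for any function field `F/K`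
  (`K` algebraically closed of characteristic `0`) having a coordinate `t`
  (`t` transcendental, `F/K(t)` finite): `u ≠ const ⇒ u` has a zero.  From the fundamental
  identity `∑_{v(u) > 0} ord_v u = [F : K(u)]` (S24, `FF.sum_ord_pos_eq_finrank`, on main).
* `constOfOrdZero_modularFunctionFieldBar N` : the instance `F = ℚ̄(j(q^d) : d ∣ N)`; its
  statement is (defeq to) helper94's `ConstOfOrdZero (AlgebraicClosure ℚ) (modularFunctionFieldBar N)`.
-/

set_option autoImplicit false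

noncomputable section

open AlgebraicCurve ModularCurve IntermediateField

namespace Fermat.Agent.S18.H564

section Generic

variable {K F : Type*} [Field K] [Field F] [Algebra K F] [IsAlgClosed K] [CharZero K]

/-- A non-constant function has a zero. -/
theorem exists_ord_pos_of_transcendental (t : F) (ht : Transcendental K t)
    [FiniteDimensional K⟮t⟯ F] {u : F} (hu : Transcendental K u) :
    ∃ v : Place K F, 0 < v.ord u := by
  have hcoord0 : Fermat.Agent.S24.FF.IsCoord K t := ⟨ht, inferInstance⟩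
  have hcoord : Fermat.Agent.S24.FF.IsCoord K u :=
    Fermat.Agent.S24.FF.IsCoord.of_transcendental (x := t) hu
  have : FiniteDimensional K⟮u⟯ F := hcoord.finite
  have hsum := Fermat.Agent.S24.FF.sum_ord_pos_eq_finrank (K := K) (F := F) hu
  by_contra hne
  have hempty : (Fermat.Agent.S24.FF.finite_setOf_ord_pos (K := K) (F := F) hu).toFinset = ∅ := by
    rw [Finset.eq_empty_iff_forall_notMem]
    intro v hv
    rw [Set.Finite.mem_toFinset] at hv
    exact hne ⟨v, hv⟩
  rw [hempty, Finset.sum_empty] at hsum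
  have hpos : 0 < Module.finrank K⟮u⟯ F := Module.finrank_pos
  omega

/-- **CONST_F, generic form.** -/
theorem exists_const_of_forall_ord_eq_zero (t : F) (ht : Transcendental K t)
    [FiniteDimensional K⟮t⟯ F] (u : F) (hu : ∀ v : Place K F, v.ord u = 0) :
    ∃ c : K, u = algebraMap K F c := by
  by_contra hne
  have hu_tr : Transcendental K u := by
    intro halg
    obtain ⟨c, hc⟩ := Fermat.Agent.S24.exists_algebraMap_eq_of_isAlgebraic halg
    exact hne ⟨c, hc.symm⟩
  obtain ⟨v, hv⟩ := exists_ord_pos_of_transcendental t ht hu_tr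
  rw [hu v] at hv
  exact lt_irrefl _ hv

end Generic

/-- `j` is a coordinate of the function field of `X₀(N)` over `ℚ̄`. -/
theorem transcendental_jF (N : ℕ) [NeZero N] :
    Transcendental (AlgebraicClosure ℚ) (Fermat.Agent.S24.jF N) := by
  obtain ⟨P⟩ := Fermat.Agent.S24.nonempty_modularPackage N
  have : Nonempty (Fermat.Agent.S24.XX N) := ⟨((1 : Matrix.SpecialLinearGroup (Fin 2) ℤ) :
    Fermat.Agent.S24.XX N)⟩
  exact Fermat.Agent.S24.transcendental_of_localData_inv (Fermat.Agent.S24.jF N) P.dataInf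

theorem finiteDimensional_jF (N : ℕ) [NeZero N] :
    FiniteDimensional (AlgebraicClosure ℚ)⟮Fermat.Agent.S24.jF N⟯
      ↥(modularFunctionFieldBar N) := by
  obtain ⟨P⟩ := Fermat.Agent.S24.nonempty_modularPackage N
  exact P.finiteDimensional

/-- **T2 = CONST_F** for `F = modularFunctionFieldBar N`
(= helper94's `ConstOfOrdZero (AlgebraicClosure ℚ) (modularFunctionFieldBar N)`, unfolded). -/
theorem constOfOrdZero_modularFunctionFieldBar (N : ℕ) [NeZero N] :
    ∀ u : ↥(modularFunctionFieldBar N), u ≠ 0 →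
      (∀ v : Place (AlgebraicClosure ℚ) ↥(modularFunctionFieldBar N), v.ord u = 0) →
      ∃ c : AlgebraicClosure ℚ,
        u = algebraMap (AlgebraicClosure ℚ) ↥(modularFunctionFieldBar N) c := by
  intro u _ hu
  have := finiteDimensional_jF N
  exact exists_const_of_forall_ord_eq_zero (Fermat.Agent.S24.jF N) (transcendental_jF N) u hu

/-- A non-constant modular function has a zero (and, applied to `u⁻¹`, a pole). -/
theorem exists_ord_pos_modularFunctionFieldBar (N : ℕ) [NeZero N]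
    {u : ↥(modularFunctionFieldBar N)} (hu : Transcendental (AlgebraicClosure ℚ) u) :
    ∃ v : Place (AlgebraicClosure ℚ) ↥(modularFunctionFieldBar N), 0 < v.ord u := by
  have := finiteDimensional_jF N
  exact exists_ord_pos_of_transcendental (Fermat.Agent.S24.jF N) (transcendental_jF N) hu

end Fermat.Agent.S18.H564

end
end
-- ===== PACK-END S18/H564/ConstF.lean

-- ===== PACK-BEGIN S18/H568/D2.lean
section






/-!
# S18 / node D2 (helper568): transfer `CORE(M) → CORE(N)`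

EXACT node statement of `origin/helper18:Fermat/Agent/S18/Integ/Skeleton.lean` (`node_d2`), with
`levelM N ℓ` unfolded (`levelM` lives in the skeleton file, which contains `sorry`):

    theorem node_d2 (N : ℕ) [NeZero N] {ℓ : ℕ} [Fact ℓ.Prime] (hℓN : ¬ ℓ ∣ N)
        (A : ValuationSubring Qb) (hA : A.LiesOverPrime ℓ) (m : ℕ) (hm : ¬ ℓ ∣ m) :
        CoreStatement (if ℓ = 3 then Nat.lcm N 2 else if ℓ = 2 then Nat.lcm N 3 else N) A m →
          CoreStatement N A m

General form: `coreStatement_of_dvd` (any `N ∣ M` with `[F_M : F_N]` nonzero and prime to `m`).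

Proof: (1) `IsInt A N U → IsInt A M U` (monotonicity of the function fields);
(2) for a place `w` of `F_M`, `ord_w(f) = e(w) · ord_{w|F_N}(f)` for `f ∈ F_N` (Prelude
`Place.ord_restrictAlong`), so `m ∣ div` is inherited; (3) norm trick
(`exists_pow_of_norm_coprime`); (4) degree `[F_{Np} : F_N] = p + 1` for `p ∤ N`
(helper988, `relfinrank_bar_mul_prime`, on main).
-/

set_option autoImplicit false

noncomputable section

namespace Fermat.Agent.S18.H568

open ModularCurve AlgebraicCurve HahnSeries IntermediateField Module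

section Generic

variable {K Ω : Type*} [Field K] [Field Ω] [Algebra K Ω] {E F : IntermediateField K Ω}

/-- `extendScalars h` and `F` (with the `E`-algebra structure along the inclusion) are the same
`E`-vector space. -/
def extendScalarsLinearEquiv568 (hEF : E ≤ F) :
    letI := (IntermediateField.inclusion hEF).toRingHom.toAlgebra
    ↥(extendScalars hEF) ≃ₗ[E] F :=
  letI := (IntermediateField.inclusion hEF).toRingHom.toAlgebra
  { toFun := fun x => ⟨x.1, (mem_extendScalars hEF).mp x.2⟩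
    invFun := fun x => ⟨x.1, (mem_extendScalars hEF).mpr x.2⟩
    map_add' := fun _ _ => rfl
    map_smul' := fun _ _ => rfl
    left_inv := fun _ => rfl
    right_inv := fun _ => rfl }

theorem finrank_inclusion_eq_relfinrank (hEF : E ≤ F) :
    letI := (IntermediateField.inclusion hEF).toRingHom.toAlgebra
    finrank E F = E.relfinrank F := by
  letI := (IntermediateField.inclusion hEF).toRingHom.toAlgebra
  rw [relfinrank_eq_finrank_of_le hEF]
  exact (extendScalarsLinearEquiv568 hEF).finrank_eq.symm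

theorem finiteDimensional_inclusion (hEF : E ≤ F) (h0 : E.relfinrank F ≠ 0) :
    letI := (IntermediateField.inclusion hEF).toRingHom.toAlgebra
    FiniteDimensional E F := by
  letI := (IntermediateField.inclusion hEF).toRingHom.toAlgebra
  apply FiniteDimensional.of_finrank_pos
  rw [finrank_inclusion_eq_relfinrank hEF]
  exact Nat.pos_of_ne_zero h0

end Generic

/-- Monotonicity of `ℚ̄(X₀(N))` in the level. -/
theorem bar_le_of_dvd {N M : ℕ} [NeZero N] [NeZero M] (h : N ∣ M) :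
    modularFunctionFieldBar N ≤ modularFunctionFieldBar M := by
  rw [Fermat.Agent.S28.H988.modularFunctionFieldBar_eq_fullC,
    Fermat.Agent.S28.H988.modularFunctionFieldBar_eq_fullC]
  exact full_degeneracyC_le _ h

theorem isInt_of_dvd {N M : ℕ} [NeZero N] [NeZero M] (h : N ∣ M) {A : ValuationSubring Qb}
    {U : LaurentSeries A} (hU : IsInt A N U) : IsInt A M U :=
  ⟨bar_le_of_dvd h hU.1, full_degeneracyC_le _ h hU.2.1, hU.2.2⟩

theorem toF_ne_zero {N : ℕ} {A : ValuationSubring Qb} {U : LaurentSeries A}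
    (hU : IsInt A N U) : toF hU ≠ 0 := by
  intro h0
  have h1 : coeffMap A.subtype U = 0 := congrArg Subtype.val h0
  have h2 : U = 0 := by
    ext n
    have := congrArg (fun f : LaurentSeries Qb => f.coeff n) h1
    simpa [coeffMap_coeff] using this
  exact hU.2.2 (by rw [h2]; exact _root_.map_zero _)

/-- **General transfer**: `CORE(M) → CORE(N)` for `N ∣ M` when `[F_M : F_N]` is finite and prime
to `m`. -/
theorem coreStatement_of_dvd (N M : ℕ) [NeZero N] [NeZero M] (hNM : N ∣ M)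
    (A : ValuationSubring Qb) (m : ℕ)
    (hd0 : (modularFunctionFieldBar N).relfinrank (modularFunctionFieldBar M) ≠ 0)
    (hcop : Nat.Coprime ((modularFunctionFieldBar N).relfinrank (modularFunctionFieldBar M)) m) :
    CoreStatement M A m → CoreStatement N A m := by
  intro hM U₁ U₂ h₁ h₂ hred hord
  have hle := bar_le_of_dvd hNM
  set φ : modularFunctionFieldBar N →ₐ[Qb] modularFunctionFieldBar M :=
    IntermediateField.inclusion hle with hφdef
  letI : Algebra (modularFunctionFieldBar N) (modularFunctionFieldBar M) := algebraAlong φ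
  haveI : IsScalarTower Qb (modularFunctionFieldBar N) (modularFunctionFieldBar M) :=
    isScalarTower_along φ
  haveI hfd : FiniteDimensional (modularFunctionFieldBar N) (modularFunctionFieldBar M) :=
    finiteDimensional_inclusion hle hd0
  have hfr : finrank (modularFunctionFieldBar N) (modularFunctionFieldBar M) =
      (modularFunctionFieldBar N).relfinrank (modularFunctionFieldBar M) :=
    finrank_inclusion_eq_relfinrank hle
  have hφint : φ.toRingHom.IsIntegral := fun x =>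
    (Algebra.IsIntegral.of_finite (modularFunctionFieldBar N) (modularFunctionFieldBar M)).isIntegral x
  have h₁' : IsInt A M U₁ := isInt_of_dvd hNM h₁
  have h₂' : IsInt A M U₂ := isInt_of_dvd hNM h₂
  have e₁ : toF h₁' = φ (toF h₁) := rfl
  have e₂ : toF h₂' = φ (toF h₂) := rfl
  obtain ⟨c, y, hc, hy, hcy⟩ := hM U₁ U₂ h₁' h₂' hred (fun w => by
    rw [e₁, e₂, Place.ord_restrictAlong φ hφint w, Place.ord_restrictAlong φ hφint w, ← mul_sub]
    exact Dvd.dvd.mul_left (hord _) _)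
  have hn₁ := toF_ne_zero h₁
  have hn₂ := toF_ne_zero h₂
  -- descend `u = toF h₁ / toF h₂`
  have hu : toF h₁ / toF h₂ ≠ 0 := div_ne_zero hn₁ hn₂
  have hkey : algebraMap (modularFunctionFieldBar N) (modularFunctionFieldBar M)
      (toF h₁ / toF h₂) = algebraMap Qb (modularFunctionFieldBar M) c * y ^ m := by
    have hn₂' : toF h₂' ≠ 0 := toF_ne_zero h₂'
    show φ (toF h₁ / toF h₂) = _
    rw [map_div₀, ← e₁, ← e₂, hcy, mul_div_assoc, div_self hn₂', mul_one]
  obtain ⟨c', y', hc', hy', hfin⟩ :=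
    exists_pow_of_norm_coprime m (by rw [hfr]; exact hcop) (toF h₁ / toF h₂) hu c hc y hy hkey
  refine ⟨c', y', hc', hy', ?_⟩
  rw [← hfin, div_mul_cancel₀ _ hn₂]

/-- Transfer along `N ∣ N * p`, `p` prime not dividing `N`, when `p + 1` is prime to `m`. -/
theorem coreStatement_of_mul_prime (N p : ℕ) [NeZero N] (hp : p.Prime) (hpN : ¬ p ∣ N)
    (A : ValuationSubring Qb) (m : ℕ) (h2 : Nat.Coprime (p + 1) m) :
    CoreStatement (N * p) A m → CoreStatement N A m := by
  haveI : NeZero (N * p) := ⟨Nat.mul_ne_zero (NeZero.ne N) hp.ne_zero⟩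
  have hdeg := Fermat.Agent.S28.H988.relfinrank_bar_mul_prime N p (NeZero.ne N) hp
  rw [if_neg hpN] at hdeg
  refine coreStatement_of_dvd N (N * p) (Dvd.intro p rfl) A m ?_ ?_
  · rw [hdeg]; exact Nat.succ_ne_zero p
  · rw [hdeg]; exact h2

/-- **NODE D2** (statement of `Integ/Skeleton.lean`, `levelM N ℓ` unfolded). -/
theorem node_d2 (N : ℕ) [NeZero N] {ℓ : ℕ} [Fact ℓ.Prime] (_hℓN : ¬ ℓ ∣ N)
    (A : ValuationSubring Qb) (_hA : A.LiesOverPrime ℓ) (m : ℕ) (hm : ¬ ℓ ∣ m) :
    CoreStatement (if ℓ = 3 then Nat.lcm N 2 else if ℓ = 2 then Nat.lcm N 3 else N) A m →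
      CoreStatement N A m := by
  split_ifs with h3 h2
  · -- ℓ = 3, M = lcm N 2
    subst h3
    by_cases h : 2 ∣ N
    · rw [Nat.lcm_eq_left h]; exact id
    · have hc : Nat.Coprime N 2 :=
        (Nat.coprime_comm.mp ((Nat.Prime.coprime_iff_not_dvd Nat.prime_two).mpr h))
      rw [hc.lcm_eq_mul]
      have hm3 : Nat.Coprime 3 m := (Nat.Prime.coprime_iff_not_dvd Nat.prime_three).mpr hm
      exact coreStatement_of_mul_prime N 2 Nat.prime_two h A m hm3
  · -- ℓ = 2, M = lcm N 3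
    subst h2
    by_cases h : 3 ∣ N
    · rw [Nat.lcm_eq_left h]; exact id
    · have hc : Nat.Coprime N 3 :=
        (Nat.coprime_comm.mp ((Nat.Prime.coprime_iff_not_dvd Nat.prime_three).mpr h))
      rw [hc.lcm_eq_mul]
      have hm2 : Nat.Coprime 2 m := (Nat.Prime.coprime_iff_not_dvd Nat.prime_two).mpr hm
      have hm4 : Nat.Coprime (3 + 1) m := by
        have : (3 + 1 : ℕ) = 2 ^ 2 := by norm_num
        rw [this]
        exact Nat.Coprime.pow_left 2 hm2
      exact coreStatement_of_mul_prime N 3 Nat.prime_three h A m hm4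
  · exact id

end Fermat.Agent.S18.H568

end

end
-- ===== PACK-END S18/H568/D2.lean

-- ===== PACK-BEGIN S18/H438/Front/AlgMain.lean
section




/-!
# S18 / node_alg (helper438): `Alg.AlgMainStatement` (v4, prime `m`)

    theorem algMain (Lc x S 𝓕) : Alg.AlgMainStatement Lc x S 𝓕

Wiring: for a member `(Ec, Fc, R, V, w)` of the good family, `G : Alg.GoodModel …`,
`R' := Rf Fc R`, `x' := xf G`, charts `B₀ = H138.chart R' {x'}`, `B₁ = H138.chart R' {x'⁻¹}`:

* `H394.kummer_charts_of_regular` (typed core: LE + graded Kummer algebra + b5) needs on both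
  charts: `Prime w`, `H754.RegularAlong w`, `H754.OneModPi w u`, `H754.DivisibleDivisor B m u`;
* these are `GoodModelFront.prime_chart`, `regularAlong_chart` (b2 = `B12.H33`, hNC = `H754`),
  `oneModPi_chart`, `divisibleDivisor_chart` (places = `H845`), applied to `G` and to
  `H425.goodModel_inv G`.
-/

set_option autoImplicit false
set_option linter.style.haveILetI false
set_option linter.unusedSectionVars false

noncomputable section

namespace Fermat.Agent.S18.H438

open Alg Polynomial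

variable {Ω : Type*} [Field Ω] {Lc Ec Fc : Subfield Ω} {R V : Subring Ω} {w x : Ω}
  {S : Finset Ω}

namespace GoodModelFront

/-- **node_alg for one good model** (no enlargement of constants is needed). -/
theorem algMain_of_goodModel (G : GoodModel Lc Ec Fc R V w x S)
    (m : ℕ) (hm : m.Prime) (hmR : ((m : Ω))⁻¹ ∈ R)
    (u : Ω) (huF : u ∈ Fc) (hu0 : u ≠ 0) (hu1 : (u - 1) * w⁻¹ ∈ V)
    (hdiv : ∀ O : ValuationSubring Ω, (∀ a ∈ Lc, a ∈ O) →
      ∃ t : Ω, t ≠ 0 ∧ u * t ^ m ∈ O ∧ (u * t ^ m)⁻¹ ∈ O) :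
    ∃ y : Ω, ∃ c ∈ Lc, c ≠ 0 ∧ u = c * y ^ m := by
  classical
  haveI := G.charZero
  haveI := charZero_Fc G
  haveI := isDiscreteValuationRing_Rf G
  haveI := finiteDimensional_baseField G
  have G' := H425.goodModel_inv G
  have hxinv : xf G' = (xf G)⁻¹ := rfl
  have hwR : wR G' = wR G := rfl
  -- the data in `Fc`
  set u' : Fc := ⟨u, huF⟩ with hu'
  have hu'0 : u' ≠ 0 := fun h => hu0 (congrArg Subtype.val h)
  have hm0 : (m : Ω) ≠ 0 := Nat.cast_ne_zero.2 hm.ne_zero
  let ν : Rf Fc R := ⟨⟨(m : Ω)⁻¹, R_le_Fc G hmR⟩, hmR⟩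
  have hν : ν * (m : Rf Fc R) = 1 := by
    apply Subtype.ext
    apply Subtype.ext
    show (m : Ω)⁻¹ * (((m : Rf Fc R) : Fc) : Ω) = 1
    have : ((((m : Rf Fc R) : Fc) : Ω)) = (m : Ω) := by
      simp
    rw [this, inv_mul_cancel₀ hm0]
  have hinjR : Function.Injective (algebraMap (Rf Fc R) Fc) := Subtype.val_injective
  -- both charts
  have hw₁ : Prime (algebraMap (Rf Fc R) (H138.chart (Rf Fc R) ({(xf G)⁻¹} : Set Fc)) (wR G)) :=
    prime_chart G'
  have hreg₁ : H754.RegularAlong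
      (algebraMap (Rf Fc R) (H138.chart (Rf Fc R) ({(xf G)⁻¹} : Set Fc)) (wR G)) :=
    regularAlong_chart G'
  have hu₁ : H754.OneModPi
      (algebraMap (Rf Fc R) (H138.chart (Rf Fc R) ({(xf G)⁻¹} : Set Fc)) (wR G)) u' :=
    oneModPi_chart G' hu1
  have hdiv₁ : H754.DivisibleDivisor (H138.chart (Rf Fc R) ({(xf G)⁻¹} : Set Fc)) m u' :=
    divisibleDivisor_chart G' hu1 hdiv
  obtain ⟨r, a, y, hr, h⟩ := H394.kummer_charts_of_regular hinjR (isIntegral_Rf_mem_range G)
    (transcendental_xf G) (wR G) m hm ν hν u' hu'0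
    (prime_chart G) hw₁ (regularAlong_chart G) hreg₁ (oneModPi_chart G hu1) hu₁
    (divisibleDivisor_chart G hu1 hdiv) hdiv₁
  have hrΩ : ((r : Fc) : Ω) ≠ 0 := fun h0 => hr (Subtype.ext (Subtype.ext h0))
  refine ⟨(y : Ω), ((r : Fc) : Ω) ^ a, ?_, zpow_ne_zero _ hrΩ, ?_⟩
  · exact Lc.zpow_mem (G.E_le_L (G.R_le r.2)) a
  · have h2 : u = ((algebraMap (Rf Fc R) Fc r ^ a * y ^ m : Fc) : Ω) :=
      congrArg (fun t : Fc => (t : Ω)) h
    have h3 : ((algebraMap (Rf Fc R) Fc r ^ a * y ^ m : Fc) : Ω) =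
        ((r : Fc) : Ω) ^ a * (y : Ω) ^ m := by
      have h4 : Fc.subtype (algebraMap (Rf Fc R) Fc r ^ a) = ((r : Fc) : Ω) ^ a :=
        map_zpow₀ Fc.subtype _ a
      show Fc.subtype (algebraMap (Rf Fc R) Fc r ^ a * y ^ m) = _
      rw [_root_.map_mul, _root_.map_pow, h4]
      rfl
    exact h2.trans h3

end GoodModelFront

/-- **node_alg**: the ALG main statement (v4, prime `m`), for every good family. -/
theorem algMain (Lc : Subfield Ω) (x : Ω) (S : Finset Ω) (𝓕 : Set (Model Ω)) :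
    AlgMainStatement Lc x S 𝓕 := by
  intro hfam p hp m hm hmR u huF hu0 hu1 hdiv
  exact GoodModelFront.algMain_of_goodModel (hfam.good p hp) m hm hmR u huF hu0 hu1 hdiv

end Fermat.Agent.S18.H438

end
end
-- ===== PACK-END S18/H438/Front/AlgMain.lean

-- ===== PACK-BEGIN S18/H504/ConstF.lean
section





/-!
# S18 / T2 (CONST_F, characteristic 0): a function without zeros and poles is constant

* `const_of_ord_zero` : generic form, for a function field `F/K` finite over `K(j)`.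
* `constOfOrdZero_modularFunctionFieldBar` : the instance `F = ℚ̄(X₀(N))`; its statement is the
  unfolded `H94.ConstOfOrdZero (AlgebraicClosure ℚ) (modularFunctionFieldBar N)`.
-/

set_option autoImplicit false

namespace Fermat.Agent.S18.H504

open AlgebraicCurve IntermediateField Fermat.Agent.S24

variable {K F : Type*} [Field K] [Field F] [Algebra K F]

/-- A nonzero function with no zeros is constant (char 0, algebraically closed constants). -/
theorem const_of_forall_ord_le_zero [IsAlgClosed K] [CharZero K] {j : F}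
    (hj : Transcendental K j) [FiniteDimensional K⟮j⟯ F] (u : F)
    (h : ∀ v : Place K F, v.ord u ≤ 0) : ∃ c : K, u = algebraMap K F c := by
  by_contra hc
  have hnr : u ∉ (algebraMap K F).range := fun ⟨c, hc'⟩ => hc ⟨c, hc'.symm⟩
  have hut : Transcendental K u := FF.transcendental_of_not_mem_range hnr
  have : FiniteDimensional K⟮u⟯ F := FF.finiteDimensional_adjoin_of_transcendental hj hut
  have hsum := FF.sum_ord_pos_eq_finrank hut
  have hempty : (FF.finite_setOf_ord_pos hut).toFinset = ∅ := by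
    ext v
    simp only [Set.Finite.mem_toFinset, Set.mem_ofPred_eq, Finset.notMem_empty, iff_false, not_lt]
    exact h v
  rw [hempty, Finset.sum_empty] at hsum
  have hpos : 0 < Module.finrank K⟮u⟯ F := Module.finrank_pos
  omega

/-- **CONST_F.** A nonzero function without zeros and poles is constant. -/
theorem const_of_ord_zero [IsAlgClosed K] [CharZero K] {j : F}
    (hj : Transcendental K j) [FiniteDimensional K⟮j⟯ F] (u : F) (_hu : u ≠ 0)
    (h : ∀ v : Place K F, v.ord u = 0) : ∃ c : K, u = algebraMap K F c :=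
  const_of_forall_ord_le_zero hj u fun v => (h v).le

/-- **T2.** `ConstOfOrdZero ℚ̄ (modularFunctionFieldBar N)` (unfolded). -/
theorem constOfOrdZero_modularFunctionFieldBar (N : ℕ) [NeZero N] :
    ∀ u : ModularCurve.modularFunctionFieldBar N, u ≠ 0 →
      (∀ v : Place (AlgebraicClosure ℚ) (ModularCurve.modularFunctionFieldBar N), v.ord u = 0) →
      ∃ c : AlgebraicClosure ℚ,
        u = algebraMap (AlgebraicClosure ℚ) (ModularCurve.modularFunctionFieldBar N) c := by
  obtain ⟨P⟩ := nonempty_modularPackage N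
  have := P.finiteDimensional
  have hj : Transcendental Kbar (jF N) := transcendental_of_localData_inv (jF N) P.dataInf
  exact fun u hu h => const_of_ord_zero hj u hu h

end Fermat.Agent.S18.H504

end
-- ===== PACK-END S18/H504/ConstF.lean

-- ===== PACK-BEGIN S56/H906/FI.lean
section




/-!
# S56 / FLAT-O, piece (FI): `(I_aug M) ∩ M^I = 0` for a flat `M` killed by `p`, `p` odd (helper906)

* `redKer P Λ` — the kernel of reduction `M⁰ = {x : f x ≡ f 0 mod 𝔪_P for all f ∈ Λ}`, an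
  additive subgroup of `M`.
* `act_sub_mem_redKer` (CE', the easy half of "connected = augmentation"):
  `act σ y - y ∈ M⁰` for `σ ∈ I_P`;  `closure_le_redKer`: `I_aug M ≤ M⁰`.
* `eq_zero_of_mem_redKer_of_fixed` (INV): an inertia-fixed point of `M⁰` of order `p` is `0`
  (`p` odd).
* `flatInertia : FlatInertiaStatement`.
-/

set_option autoImplicit false
set_option linter.unusedSectionVars false

noncomputable section

namespace Fermat.Agent.S56.H906

open Fermat.Agent.S56

section RedKer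

variable {p : ℕ} [Fact p.Prime] {M : Type} [AddCommGroup M] {act : GQ → M → M}
  {Λ : Subalgebra (Zp p) (M → Qb)} (P : ValuationSubring Qb)

/-- Membership in the kernel of reduction. -/
def InRedKer (Λ : Subalgebra (Zp p) (M → Qb)) (x : M) : Prop :=
  ∀ f ∈ Λ, P.valuation (f x - f 0) < 1

theorem inRedKer_zero : InRedKer P Λ (0 : M) := by
  intro f _
  rw [sub_self, map_zero]
  exact zero_lt_one

/-- The key congruence: if `b k y ≡ b k y'` for all `b ∈ Λ`, then `f (x + y) ≡ f (x + y')`. -/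
theorem valuation_comul_sub_lt (hΛ : IsHL p act Λ) (hP : P.LiesOverPrime p) {f : M → Qb}
    (hf : f ∈ Λ) (x y y' : M) (h : ∀ g ∈ Λ, P.valuation (g y - g y') < 1) :
    P.valuation (f (x + y) - f (x + y')) < 1 := by
  obtain ⟨n, a, b, ha, hb, hab⟩ := hΛ.comul_mem f hf
  rw [hab, hab, ← Finset.sum_sub_distrib]
  refine Valuation.map_sum_lt _ one_ne_zero fun k _ => ?_
  rw [← mul_sub, map_mul]
  have h1 : P.valuation (a k x) ≤ 1 :=
    (ValuationSubring.valuation_le_one_iff P _).mpr (apply_mem P hΛ hP (ha k) x)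
  calc P.valuation (a k x) * P.valuation (b k y - b k y')
      ≤ 1 * P.valuation (b k y - b k y') := by gcongr
    _ = P.valuation (b k y - b k y') := one_mul _
    _ < 1 := h _ (hb k)

theorem inRedKer_add (hΛ : IsHL p act Λ) (hP : P.LiesOverPrime p) {x y : M}
    (hx : InRedKer P Λ x) (hy : InRedKer P Λ y) : InRedKer P Λ (x + y) := by
  intro f hf
  have h1 := valuation_comul_sub_lt P hΛ hP hf x y 0 hy
  rw [add_zero] at h1
  have h2 := hx f hf
  have : f (x + y) - f 0 = (f (x + y) - f x) + (f x - f 0) := by ring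
  rw [this]
  exact Valuation.map_add_lt _ h1 h2

theorem inRedKer_neg (hΛ : IsHL p act Λ) (hP : P.LiesOverPrime p) {x : M}
    (hx : InRedKer P Λ x) : InRedKer P Λ (-x) := by
  intro f hf
  have h1 := valuation_comul_sub_lt P hΛ hP hf (-x) 0 x (fun g hg => by
    rw [← Valuation.map_neg, neg_sub]
    exact hx g hg)
  rw [add_zero, neg_add_cancel] at h1
  exact h1

/-- The kernel of reduction `M⁰`. -/
def redKer (hΛ : IsHL p act Λ) (hP : P.LiesOverPrime p) : AddSubgroup M where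
  carrier := {x | InRedKer P Λ x}
  zero_mem' := inRedKer_zero P
  add_mem' := fun hx hy => inRedKer_add P hΛ hP hx hy
  neg_mem' := fun hx => inRedKer_neg P hΛ hP hx

theorem mem_redKer (hΛ : IsHL p act Λ) (hP : P.LiesOverPrime p) (x : M) :
    x ∈ redKer P hΛ hP ↔ ∀ f ∈ Λ, P.valuation (f x - f 0) < 1 := Iff.rfl

/-- (CE') `σ y - y` lies in the kernel of reduction for `σ` in the inertia group. -/
theorem act_sub_mem_redKer (hΛ : IsHL p act Λ) (hP : P.LiesOverPrime p) {σ : GQ}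
    (hσ : σ ∈ P.inertiaSubgroupIn ℚ) (y : M) : act σ y - y ∈ redKer P hΛ hP := by
  intro f hf
  have h1 := valuation_comul_sub_lt P hΛ hP hf (-y) (act σ y) y (fun g hg => by
    rw [hΛ.equivariant g hg σ y]
    exact (ValuationSubring.mem_nonunits_iff P).mp
      (Fermat.Agent.A2.H708.sub_mem_nonunits_of_mem_inertiaIn P hσ (apply_mem P hΛ hP hg y)))
  rw [neg_add_cancel, neg_add_eq_sub] at h1
  exact h1

/-- `I_aug M ≤ M⁰`. -/
theorem closure_le_redKer (hΛ : IsHL p act Λ) (hP : P.LiesOverPrime p) :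
    AddSubgroup.closure {z : M | ∃ σ ∈ P.inertiaSubgroupIn ℚ, ∃ y : M, z = act σ y - y} ≤
      redKer P hΛ hP := by
  rw [AddSubgroup.closure_le]
  rintro z ⟨σ, hσ, y, rfl⟩
  exact act_sub_mem_redKer P hΛ hP hσ y

/-- (INV) an inertia-fixed point of order `p` of the kernel of reduction is `0`, `p` odd. -/
theorem eq_zero_of_mem_redKer_of_fixed [Finite M] (hp2 : p ≠ 2) (hΛ : IsHL p act Λ)
    (hP : P.LiesOverPrime p) {x : M} (hpx : p • x = 0) (hx : x ∈ redKer P hΛ hP)
    (hfix : ∀ σ ∈ P.inertiaSubgroupIn ℚ, act σ x = x) : x = 0 := by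
  have hp : p.Prime := Fact.out
  have hvp : P.valuation (p : Qb) < 1 := (ValuationSubring.mem_nonunits_iff P).mp hP
  have hvp0 : P.valuation (p : Qb) ≠ 0 :=
    (Valuation.ne_zero_iff _).mpr (by exact_mod_cast hp.ne_zero)
  refine lemmaA p M act Λ hΛ P hP x (p : Qb) hpx ?_ ?_
  · -- `v(p)^(p-1) < v(p)`
    obtain ⟨q, hq⟩ : ∃ q, p - 1 = q + 1 + 1 := ⟨p - 3, by have := hp.two_le; omega⟩
    rw [hq, pow_succ]
    calc P.valuation (p : Qb) ^ (q + 1) * P.valuation (p : Qb)
        < 1 * P.valuation (p : Qb) := by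
          refine mul_lt_mul_of_pos_right ?_ (zero_lt_iff.mpr hvp0)
          exact pow_lt_one₀ zero_le hvp (by omega)
      _ = P.valuation (p : Qb) := one_mul _
  · intro f hf
    refine Fermat.Agent.S56.H66.vg0_le p hp P hP _ ((ValuationSubring.mem_nonunits_iff P).mpr
      (hx f hf)) fun σ hσ => ?_
    rw [map_sub, ← hΛ.equivariant f hf σ x, ← hΛ.equivariant f hf σ 0, hfix σ hσ,
      Fermat.Agent.S19.H435.IsHopfLattice.act_zero hΛ σ]

end RedKer

/-- **(FI)**. -/
theorem flatInertia : FlatInertiaStatement := by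
  intro p _ hp2 M _ _ act Λ hΛ hkill P hP x hfix hx
  exact eq_zero_of_mem_redKer_of_fixed P hp2 hΛ hP (hkill x)
    (closure_le_redKer P hΛ hP hx) hfix

end Fermat.Agent.S56.H906

end

end
-- ===== PACK-END S56/H906/FI.lean

-- ===== PACK-BEGIN S37/Red/H159/LiftNC.lean
section




/-!
# S37-RED, (H3) normality of the special fibre from (H1) + (NC)   (helper159, THEOREM M)

For a reduction datum `G : Red.Datum A π F Fk` (helper40's `Red/Spec.lean`) over algebraically
closed constants (`K` of characteristic `0`):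

* `NoRamOutside G t S` : (NC) for the coordinate `t`: for every `c ∈ A \ S` the ideal
  `(t - c)` of the integral closure `K·B_t` of `K[t]` is radical (no ramification over `t = c`),
  in elementwise form;
* `lift_of_NC` : (H1) for `t` + (NC) with `S` finite and injective mod `𝔪_A`  ⟹  (H3) for `t`;
* `lift_fin_of_NC`, `lift_inf_of_NC` : the fields `lift_fin`, `lift_inf` of `Datum.Good`;
* `good_of_NC` : `G.Good` from (H1) + (NC) on both charts.

No noetherian hypothesis, no descent to a DVR, no model over `ℤ_(ℓ)`.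
-/

set_option autoImplicit false

namespace Fermat.Agent.S37.Red.H159

open AlgebraicCurve IntermediateField

universe u

variable {K k : Type u} [Field K] [Field k] {A : ValuationSubring K} {π : A →+* k}
  {F Fk : Type u} [Field F] [Field Fk] [Algebra K F] [Algebra k Fk]

/-- **(NC)** for the coordinate `t`, outside `S`: if `f` and `f² / (t - c)` are integral over
`K[t]` then so is `f / (t - c)`  (`c ∈ A \ S`). -/
def NoRamOutside (G : Datum A π F Fk) (t : F) (S : Finset A) : Prop :=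
  ∀ c : A, c ∉ S → ∀ f ∈ G.chartK t, f ^ 2 / (t - algebraMap K F (c : K)) ∈ G.chartK t →
    f / (t - algebraMap K F (c : K)) ∈ G.chartK t

variable [IsAlgClosed K] [CharZero K] [IsAlgClosed k]

/-- **(H3) from (H1) + (NC)**, arbitrary coordinate. -/
theorem lift_of_NC (G : Datum A π F Fk) {t : F} (ht : t ∈ G.O)
    (htr : Transcendental k (G.ρ ⟨t, ht⟩))
    [FiniteDimensional K⟮t⟯ F] [FiniteDimensional k⟮G.ρ ⟨t, ht⟩⟯ Fk]
    [Algebra.IsSeparable k⟮G.ρ ⟨t, ht⟩⟯ Fk]
    (hfr : Module.finrank K⟮t⟯ F = Module.finrank k⟮G.ρ ⟨t, ht⟩⟯ Fk)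
    (S : Finset A) (hS : Set.InjOn π (S : Set A)) (hNC : NoRamOutside G t S) :
    ∀ z ∈ G.chartk (G.ρ ⟨t, ht⟩), ∃ b ∈ G.chart t, ∃ hb : b ∈ G.O, G.ρ ⟨b, hb⟩ = z := by
  intro z hz
  obtain ⟨b, hb, hbint, hbz⟩ :=
    Fermat.Agent.S37.H159.lift_integral_adjoin A π G.π_surj G.O G.ρ G.ρ_surj G.const_mem
      G.ρ_const t ht htr hfr S hS (fun c hc f hf hf2 => hNC c hc f hf hf2) z hz
  exact ⟨b, hbint, hb, hbz⟩

/-- **(H3) at the finite chart.** -/
theorem lift_fin_of_NC (G : Datum A π F Fk)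
    [FiniteDimensional K⟮G.x⟯ F] [hk : FiniteDimensional k⟮G.xk⟯ Fk]
    [hs : Algebra.IsSeparable k⟮G.xk⟯ Fk]
    (hfr : Module.finrank K⟮G.x⟯ F = Module.finrank k⟮G.xk⟯ Fk)
    (S : Finset A) (hS : Set.InjOn π (S : Set A)) (hNC : NoRamOutside G G.x S) :
    ∀ c ∈ G.chartk G.xk, ∃ b ∈ G.chart G.x, ∃ hb : b ∈ G.O, G.ρ ⟨b, hb⟩ = c := by
  have hk' : FiniteDimensional k⟮G.ρ ⟨G.x, G.x_mem⟩⟯ Fk := hk
  have hs' : Algebra.IsSeparable k⟮G.ρ ⟨G.x, G.x_mem⟩⟯ Fk := hs
  exact lift_of_NC G G.x_mem G.xk_transc hfr S hS hNC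

/-- **(H3) at the chart at infinity.** -/
theorem lift_inf_of_NC (G : Datum A π F Fk)
    [hfin : FiniteDimensional K⟮G.x⟯ F] [hfink : FiniteDimensional k⟮G.xk⟯ Fk]
    [hsep : Algebra.IsSeparable k⟮G.xk⟯ Fk]
    (hfr : Module.finrank K⟮G.x⟯ F = Module.finrank k⟮G.xk⟯ Fk)
    (S : Finset A) (hS : Set.InjOn π (S : Set A)) (hNC : NoRamOutside G G.x⁻¹ S) :
    ∀ c ∈ G.chartk G.xk⁻¹, ∃ b ∈ G.chart G.x⁻¹, ∃ hb : b ∈ G.O, G.ρ ⟨b, hb⟩ = c := by
  have hρ := Red.H217.ρ_x_inv G
  have htr : Transcendental k (G.ρ ⟨G.x⁻¹, Red.H217.x_inv_mem G⟩) := by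
    rw [hρ]
    intro h
    apply G.xk_transc
    have := h.inv
    rwa [inv_inv] at this
  have : FiniteDimensional K⟮G.x⁻¹⟯ F := by
    rw [Red.H217.adjoin_inv_eq']; exact hfin
  have : FiniteDimensional k⟮G.ρ ⟨G.x⁻¹, Red.H217.x_inv_mem G⟩⟯ Fk := by
    rw [hρ, Red.H217.adjoin_inv_eq']; exact hfink
  have : Algebra.IsSeparable k⟮G.ρ ⟨G.x⁻¹, Red.H217.x_inv_mem G⟩⟯ Fk := by
    rw [hρ, Red.H217.adjoin_inv_eq']; exact hsep
  have hfr' : Module.finrank K⟮G.x⁻¹⟯ F =
      Module.finrank k⟮G.ρ ⟨G.x⁻¹, Red.H217.x_inv_mem G⟩⟯ Fk := by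
    rw [hρ, Red.H217.adjoin_inv_eq', Red.H217.adjoin_inv_eq']
    exact hfr
  have key := lift_of_NC G (Red.H217.x_inv_mem G) htr hfr' S hS hNC
  rw [hρ] at key
  exact key

/-- **`G.Good` from (H1) + (NC) on both charts.** -/
theorem good_of_NC (G : Datum A π F Fk)
    (finite : FiniteDimensional K⟮G.x⟯ F) (finite_k : FiniteDimensional k⟮G.xk⟯ Fk)
    (sep_k : Algebra.IsSeparable k⟮G.xk⟯ Fk)
    (finrank_eq : Module.finrank K⟮G.x⟯ F = Module.finrank k⟮G.xk⟯ Fk)
    (S S' : Finset A) (hS : Set.InjOn π (S : Set A)) (hS' : Set.InjOn π (S' : Set A))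
    (hNC : NoRamOutside G G.x S) (hNC' : NoRamOutside G G.x⁻¹ S') : G.Good :=
  Red.H217.good_of G finite finite_k sep_k finrank_eq
    (lift_fin_of_NC G finrank_eq S hS hNC) (lift_inf_of_NC G finrank_eq S' hS' hNC')

end Fermat.Agent.S37.Red.H159

end
-- ===== PACK-END S37/Red/H159/LiftNC.lean

-- ===== PACK-BEGIN S19/H195/PencilLift.lean
section


/-!
# A3 / GR-GENUS (helper195), part 1: the pencil lifting lemma on the special fibre

Setting: a function field `Fk / k` with `[FF1 k Fk]`, a function `x ∈ Fk` and a divisor `D` of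
positive degree such that `(1, x)` is a base-point-free pencil in `L(D)` (`D` = the polar divisor
of `x`), and an increasing family of `k`-subspaces `U 0 ≤ U 1 ≤ ⋯` of `Fk` with `x • U m ≤ U (m+1)`.

`L_le_of_torsion`: if every `ψ ∈ L(m D)` lies in some `U j` ("`T₀`-torsion") and for every
`ψ ∈ L(m D)` some `x ^ (j - m) ψ` lies in `U j`, `j ≥ m` ("`T₁`-torsion"), then `L(M D) ≤ U M`
for all large `M`.

This is the graded Serre argument for `⊕ U m ⊆ ⊕ L(m D)` over `k[T₀, T₁]`, made elementary by the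
base-point-free pencil trick `L((m+1) D) = L(m D) + x L(m D)` (`Lib.RR.H259.pencil_trick`).

Application (`GenusGood.lean`): `U m = ρ (B_fin ∩ x ^ m B_inf)` for a reduction datum with normal
special fibre; the conclusion is integral Riemann–Roch surjectivity for the multiples of the polar
divisor of the coordinate, WITHOUT saturation or finiteness of the Čech `H¹` over the valuation
ring.
-/

set_option autoImplicit false

noncomputable section

open AlgebraicCurve

namespace Fermat.Agent.S19.H195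

open Fermat.Agent.Lib.RR

variable {k Fk : Type*} [Field k] [Field Fk] [Algebra k Fk]

/-- an increasing family -/
theorem filt_mono (U : ℕ → Submodule k Fk) (hmono : ∀ m, U m ≤ U (m + 1)) {a b : ℕ}
    (h : a ≤ b) : U a ≤ U b :=
  monotone_nat_of_le_succ hmono h

/-- `x ^ i • U a ≤ U (a + i)` -/
theorem filt_pow_mul_mem (x : Fk) (U : ℕ → Submodule k Fk)
    (hmul : ∀ m, ∀ f ∈ U m, x * f ∈ U (m + 1)) (i a : ℕ) {f : Fk} (hf : f ∈ U a) :
    x ^ i * f ∈ U (a + i) := by
  induction i with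
  | zero => simpa using hf
  | succ i ih =>
    have h := hmul (a + i) _ ih
    rw [← mul_assoc, ← pow_succ'] at h
    exact h

/-- `(m + 1) D = m D + D` -/
theorem natCast_succ_smul (D : Divisor k Fk) (m : ℕ) :
    ((m + 1 : ℕ) : ℤ) • D = (m : ℤ) • D + D := by
  rw [Nat.cast_succ, add_smul, one_smul]

/-- the span of `x ^ i L(m₀ D)`, `i ≤ j` -/
def pencilSpan (x : Fk) (D : Divisor k Fk) (m₀ j : ℕ) : Submodule k Fk :=
  Submodule.span k {f | ∃ i ≤ j, ∃ ψ ∈ riemannRochSpace ((m₀ : ℤ) • D), f = x ^ i * ψ}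

theorem pencilSpan_mono (x : Fk) (D : Divisor k Fk) (m₀ : ℕ) {j j' : ℕ} (h : j ≤ j') :
    pencilSpan x D m₀ j ≤ pencilSpan x D m₀ j' := by
  refine Submodule.span_mono ?_
  rintro f ⟨i, hi, ψ, hψ, rfl⟩
  exact ⟨i, hi.trans h, ψ, hψ, rfl⟩

theorem mul_mem_pencilSpan (x : Fk) (D : Divisor k Fk) (m₀ j : ℕ) {f : Fk}
    (hf : f ∈ pencilSpan x D m₀ j) : x * f ∈ pencilSpan x D m₀ (j + 1) := by
  unfold pencilSpan at hf
  induction hf using Submodule.span_induction with
  | mem f hf =>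
    obtain ⟨i, hi, ψ, hψ, rfl⟩ := hf
    refine Submodule.subset_span ⟨i + 1, by omega, ψ, hψ, ?_⟩
    rw [pow_succ', mul_assoc]
  | zero => simp
  | add f g _ _ hf hg =>
    rw [mul_add]
    exact Submodule.add_mem _ hf hg
  | smul c f _ hf =>
    rw [mul_smul_comm]
    exact Submodule.smul_mem _ c hf

/-- **Pencil decomposition**: `L((m₀ + j) D) ≤ ∑_{i ≤ j} x ^ i L(m₀ D)` as soon as the pencil trick
applies from `m₀` on. -/
theorem L_le_pencilSpan [FF1 k Fk] (x : Fk) (D : Divisor k Fk)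
    (hpen : H259.IsBpfPencil D 1 x) (m₀ : ℕ)
    (hm₀ : Divisor.degree D + 2 * (genusFF k Fk : ℤ) - 1 ≤ (m₀ : ℤ) * Divisor.degree D)
    (j : ℕ) : riemannRochSpace (((m₀ + j : ℕ) : ℤ) • D) ≤ pencilSpan x D m₀ j := by
  have hD0 : 0 ≤ Divisor.degree D := hpen.degree_nonneg
  induction j with
  | zero =>
    intro f hf
    refine Submodule.subset_span ⟨0, le_rfl, f, ?_, by simp⟩
    simpa using hf
  | succ j ih =>
    intro f hf
    have hf' : f ∈ riemannRochSpace (((m₀ + j : ℕ) : ℤ) • D + D) := by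
      rw [← natCast_succ_smul]
      exact hf
    have hdeg : Divisor.degree D + 2 * (genusFF k Fk : ℤ) - 1 ≤
        Divisor.degree (((m₀ + j : ℕ) : ℤ) • D) := by
      rw [map_zsmul, smul_eq_mul]
      have h1 : (m₀ : ℤ) * Divisor.degree D ≤ ((m₀ + j : ℕ) : ℤ) * Divisor.degree D := by
        apply mul_le_mul_of_nonneg_right _ hD0
        exact_mod_cast Nat.le_add_right m₀ j
      omega
    obtain ⟨a, ha, b, hb, hab⟩ := H259.pencil_trick hpen hdeg hf'
    rw [hab, one_mul]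
    exact Submodule.add_mem _ (pencilSpan_mono x D m₀ (Nat.le_succ j) (ih ha))
      (mul_mem_pencilSpan x D m₀ j (ih hb))

/-- **The pencil lifting lemma.** -/
theorem L_le_of_torsion [FF1 k Fk] (x : Fk) (D : Divisor k Fk)
    (hpen : H259.IsBpfPencil D 1 x) (hdeg : 0 < Divisor.degree D)
    (U : ℕ → Submodule k Fk) (hmono : ∀ m, U m ≤ U (m + 1))
    (hmul : ∀ m, ∀ f ∈ U m, x * f ∈ U (m + 1))
    (hT0 : ∀ m : ℕ, ∀ ψ ∈ riemannRochSpace ((m : ℤ) • D), ∃ j, ψ ∈ U j)
    (hT1 : ∀ m : ℕ, ∀ ψ ∈ riemannRochSpace ((m : ℤ) • D), ∃ j, m ≤ j ∧ x ^ (j - m) * ψ ∈ U j) :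
    ∃ M₀ : ℕ, ∀ M : ℕ, M₀ ≤ M → riemannRochSpace ((M : ℤ) • D) ≤ U M := by
  classical
  -- the level from which the pencil trick applies
  set m₀ : ℕ := 2 * genusFF k Fk + 1 with hm₀def
  have hm₀ : Divisor.degree D + 2 * (genusFF k Fk : ℤ) - 1 ≤ (m₀ : ℤ) * Divisor.degree D := by
    rw [hm₀def]
    push_cast
    nlinarith
  -- a basis of `L(m₀ D)`
  let bs := Module.finBasis k (riemannRochSpace ((m₀ : ℤ) • D))
  have h0 : ∀ l, ∃ j, ((bs l : riemannRochSpace ((m₀ : ℤ) • D)) : Fk) ∈ U j :=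
    fun l => hT0 m₀ _ (bs l).2
  have h1 : ∀ l, ∃ j, m₀ ≤ j ∧
      x ^ (j - m₀) * ((bs l : riemannRochSpace ((m₀ : ℤ) • D)) : Fk) ∈ U j :=
    fun l => hT1 m₀ _ (bs l).2
  choose a ha using h0
  choose c hc hc' using h1
  -- a common bound
  obtain ⟨J, hJ⟩ : ∃ J : ℕ, ∀ l, a l ≤ J ∧ c l ≤ J := by
    refine ⟨(Finset.univ.sup a) ⊔ (Finset.univ.sup c), fun l => ⟨?_, ?_⟩⟩
    · exact le_sup_of_le_left (Finset.le_sup (f := a) (Finset.mem_univ l))
    · exact le_sup_of_le_right (Finset.le_sup (f := c) (Finset.mem_univ l))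
  -- every element of `L(m₀ D)` is a combination of the basis
  have hrepr : ∀ ψ ∈ riemannRochSpace ((m₀ : ℤ) • D),
      ψ ∈ Submodule.span k (Set.range fun l => ((bs l : riemannRochSpace ((m₀ : ℤ) • D)) : Fk)) := by
    intro ψ hψ
    have h2 : (⟨ψ, hψ⟩ : riemannRochSpace ((m₀ : ℤ) • D)) ∈
        Submodule.span k (Set.range bs) := by
      rw [bs.span_eq]; exact Submodule.mem_top
    have h3 := Submodule.mem_map_of_mem (f := (riemannRochSpace ((m₀ : ℤ) • D)).subtype) h2
    rw [Submodule.map_span, ← Set.range_comp] at h3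
    exact h3
  -- (α) `L(m₀ D) ≤ U J`
  have hα : ∀ ψ ∈ riemannRochSpace ((m₀ : ℤ) • D), ψ ∈ U J := by
    intro ψ hψ
    refine (Submodule.span_le (p := U J)).mpr ?_ (hrepr ψ hψ)
    rintro _ ⟨l, rfl⟩
    exact filt_mono U hmono (hJ l).1 (ha l)
  -- (β) `x ^ (j - m₀) L(m₀ D) ≤ U j` for `j ≥ J`, `j ≥ m₀`
  have hβ : ∀ j, J ≤ j → ∀ ψ ∈ riemannRochSpace ((m₀ : ℤ) • D), x ^ (j - m₀) * ψ ∈ U j := by
    intro j hj ψ hψ
    have hsub : Submodule.span k
        (Set.range fun l => ((bs l : riemannRochSpace ((m₀ : ℤ) • D)) : Fk)) ≤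
        (U j).comap (LinearMap.mulLeft k (x ^ (j - m₀))) := by
      rw [Submodule.span_le]
      rintro _ ⟨l, rfl⟩
      show x ^ (j - m₀) * ((bs l : riemannRochSpace ((m₀ : ℤ) • D)) : Fk) ∈ U j
      have hcl : c l ≤ j := (hJ l).2.trans hj
      have h4 := filt_pow_mul_mem x U hmul (j - c l) (c l) (hc' l)
      rw [← mul_assoc, ← pow_add] at h4
      have e1 : j - c l + (c l - m₀) = j - m₀ := by have := hc l; omega
      have e2 : c l + (j - c l) = j := by omega
      rw [e1, e2] at h4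
      exact h4
    exact hsub (hrepr ψ hψ)
  refine ⟨max (2 * J) m₀, fun M hM => ?_⟩
  have hM1 : 2 * J ≤ M := (le_max_left _ _).trans hM
  have hM2 : m₀ ≤ M := (le_max_right _ _).trans hM
  have hMeq : M = m₀ + (M - m₀) := by omega
  have hL := L_le_pencilSpan x D hpen m₀ hm₀ (M - m₀)
  rw [← hMeq] at hL
  refine hL.trans ?_
  unfold pencilSpan
  rw [Submodule.span_le]
  rintro _ ⟨i, hi, ψ, hψ, rfl⟩
  by_cases hcase : i + J ≤ M
  · -- route `T₀`
    have h5 := filt_pow_mul_mem x U hmul i J (hα ψ hψ)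
    exact filt_mono U hmono (by omega) h5
  · -- route `T₁`
    have hJi : J ≤ m₀ + i := by omega
    have h6 := hβ (m₀ + i) hJi ψ hψ
    rw [Nat.add_sub_cancel_left] at h6
    exact filt_mono U hmono (by omega) h6

end Fermat.Agent.S19.H195

end

end
-- ===== PACK-END S19/H195/PencilLift.lean

-- ===== PACK-BEGIN S19/H195/GenusGood.lean
section








/-!
# A3 / GR-GENUS (helper195), part 2: `g(F) ≤ g(F_k)` from good charts

For a reduction datum `G : S37.Red.Datum A π F Fk` with good charts (`G.Good`: equal degrees over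
the coordinate line and normality of the special fibre in the lifting form `lift_fin`, `lift_inf`)
over algebraically closed constants:

* `Datum.exists_lift_polar` : **integral Riemann–Roch surjectivity** — for all large `M` every
  `ψ ∈ L_k(M D̄_∞)` is the reduction of some `f ∈ O ∩ L(M D_∞)` (`D_∞`, `D̄_∞` the polar divisors of
  the coordinate `x` and of its reduction `x̄`);
* `Datum.ell_polar_le`      : `ℓ_k(M D̄_∞) ≤ ℓ(M D_∞)` for all large `M`;
* `Datum.genusFF_le_of_good`: `genusFF K F ≤ genusFF k Fk`.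

Only `lift_fin`, `lift_inf`, `finite`, `finite_k`, `finrank_eq` of `G.Good` are used: no
saturation, no finiteness of the Čech `H¹` over `A`, no place map `r`, no Gauss lemma.
Proof: `U m := ρ (B_fin ∩ x ^ m B_inf)` and the pencil lifting lemma `L_le_of_torsion`.
-/

set_option autoImplicit false
set_option linter.style.haveILetI false
set_option linter.unusedSectionVars false

noncomputable section

open AlgebraicCurve Polynomial

namespace Fermat.Agent.S19.H195

open Fermat.Agent.Lib.RR Fermat.Agent.S37.Red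

/-! ## 1. Scaling integral elements -/

section Scaling

variable {F : Type*} [Field F]

/-- every element of `C[t⁻¹]` becomes an element of `C[t]` after multiplication by a large power
of `t` -/
theorem exists_pow_mul_mem_closure (C : Subring F) {t : F} (ht : t ≠ 0) {c : F}
    (hc : c ∈ C ⊔ Subring.closure {t⁻¹}) :
    ∃ i₀ : ℕ, ∀ i, i₀ ≤ i → t ^ i * c ∈ C ⊔ Subring.closure {t} := by
  have htmem : t ∈ C ⊔ Subring.closure {t} :=
    (le_sup_right : Subring.closure {t} ≤ _) (Subring.subset_closure rfl)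
  have hpow : ∀ i : ℕ, t ^ i ∈ C ⊔ Subring.closure {t} := fun i => Subring.pow_mem _ htmem i
  have hsup : C ⊔ Subring.closure {t⁻¹} = Subring.closure ((C : Set F) ∪ {t⁻¹}) := by
    rw [Subring.closure_union, Subring.closure_eq]
  rw [hsup] at hc
  induction hc using Subring.closure_induction with
  | mem c hc =>
    rcases hc with hc | hc
    · exact ⟨0, fun i _ => Subring.mul_mem _ (hpow i) ((le_sup_left : C ≤ _) hc)⟩
    · rw [Set.mem_singleton_iff] at hc
      subst hc
      refine ⟨1, fun i hi => ?_⟩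
      obtain ⟨j, rfl⟩ : ∃ j, i = j + 1 := ⟨i - 1, by omega⟩
      rw [pow_succ, mul_assoc, mul_inv_cancel₀ ht, mul_one]
      exact hpow j
  | zero => exact ⟨0, fun i _ => by rw [mul_zero]; exact Subring.zero_mem _⟩
  | one => exact ⟨0, fun i _ => by rw [mul_one]; exact hpow i⟩
  | add a b _ _ ha hb =>
    obtain ⟨ia, hia⟩ := ha
    obtain ⟨ib, hib⟩ := hb
    refine ⟨max ia ib, fun i hi => ?_⟩
    rw [mul_add]
    exact Subring.add_mem _ (hia i ((le_max_left _ _).trans hi))
      (hib i ((le_max_right _ _).trans hi))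
  | neg a _ ha =>
    obtain ⟨ia, hia⟩ := ha
    refine ⟨ia, fun i hi => ?_⟩
    rw [mul_neg]
    exact Subring.neg_mem _ (hia i hi)
  | mul a b _ _ ha hb =>
    obtain ⟨ia, hia⟩ := ha
    obtain ⟨ib, hib⟩ := hb
    refine ⟨ia + ib, fun i hi => ?_⟩
    have e : t ^ i * (a * b) = (t ^ ia * a) * (t ^ (i - ia) * b) := by
      have : i = ia + (i - ia) := by omega
      conv_lhs => rw [this, pow_add]
      ring
    rw [e]
    exact Subring.mul_mem _ (hia ia le_rfl) (hib (i - ia) (by omega))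

/-- **Scaling**: an element integral over `C[t⁻¹]` becomes integral over `C[t]` after
multiplication by a large power of `t`. -/
theorem exists_pow_mul_isIntegral (C : Subring F) {t : F} (ht : t ≠ 0) {b : F}
    (hb : IsIntegral (C ⊔ Subring.closure {t⁻¹} : Subring F) b) :
    ∃ i₀ : ℕ, ∀ i, i₀ ≤ i → IsIntegral (C ⊔ Subring.closure {t} : Subring F) (t ^ i * b) := by
  classical
  rw [H759.isIntegral_subring_iff] at hb
  obtain ⟨P, hP, hcoeff, hPb⟩ := hb
  have h1 : ∀ l : ℕ, ∃ i₀ : ℕ, ∀ i, i₀ ≤ i → t ^ i * P.coeff l ∈ C ⊔ Subring.closure {t} :=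
    fun l => exists_pow_mul_mem_closure C ht (hcoeff l)
  choose thr hthr using h1
  refine ⟨(Finset.range (P.natDegree + 1)).sup thr + 1, fun i hi => ?_⟩
  rw [H759.isIntegral_subring_iff]
  refine ⟨P.scaleRoots (t ^ i), (monic_scaleRoots_iff _).mpr hP, fun l => ?_, ?_⟩
  · rw [coeff_scaleRoots]
    rcases lt_trichotomy l P.natDegree with hl | hl | hl
    · -- `l < n`
      have hle : thr l ≤ i * (P.natDegree - l) := by
        have h2 : thr l ≤ (Finset.range (P.natDegree + 1)).sup thr :=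
          Finset.le_sup (f := thr) (Finset.mem_range.mpr (by omega))
        have h3 : i ≤ i * (P.natDegree - l) := Nat.le_mul_of_pos_right i (by omega)
        omega
      rw [← pow_mul, mul_comm]
      exact hthr l _ hle
    · -- `l = n`
      subst hl
      rw [Nat.sub_self, pow_zero, mul_one]
      have : P.coeff P.natDegree = 1 := hP
      rw [this]
      exact Subring.one_mem _
    · rw [coeff_eq_zero_of_natDegree_lt hl, zero_mul]
      exact Subring.zero_mem _
  · rw [scaleRoots_eval_mul, hPb, mul_zero]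

end Scaling

/-! ## 2. Polar divisors -/

section Polar

variable {K F : Type*} [Field K] [Field F] [Algebra K F]

/-- the polar divisor of a nonzero function -/
theorem exists_polar [HasPrincipalDivisors K F] {f : F} (hf : f ≠ 0) :
    ∃ D : Divisor K F, ∀ P : Place K F, D P = max 0 (-(P.ord f)) := by
  obtain ⟨D₀, hD₀, -⟩ := HasPrincipalDivisors.exists_divisor (K := K) f hf
  refine ⟨D₀.mapRange (fun n : ℤ => max 0 (-n)) (by simp), fun P => ?_⟩
  rw [Finsupp.mapRange_apply, hD₀]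

/-- `(1, x)` is a base-point-free pencil in `L(D_∞)` -/
theorem isBpfPencil_polar {x : F} (hx : x ≠ 0) {D : Divisor K F}
    (hD : ∀ P : Place K F, D P = max 0 (-(P.ord x))) : H259.IsBpfPencil D 1 x where
  mem₁ := by
    rw [mem_L_iff]
    intro v
    right
    rw [Place.ord_one, hD]
    have := le_max_left (0 : ℤ) (-(v.ord x))
    omega
  mem₂ := by
    rw [mem_L_iff]
    intro v
    right
    rw [hD]
    have := le_max_right (0 : ℤ) (-(v.ord x))
    omega
  ne_zero := one_ne_zero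
  bpf := by
    intro v
    rw [hD, Place.ord_one]
    rcases le_or_gt 0 (v.ord x) with h | h
    · left
      rw [max_eq_left (by omega)]
      rfl
    · right
      refine ⟨hx, ?_⟩
      rw [max_eq_right (by omega)]
      omega

/-- the degree of the polar divisor is the degree of the function -/
theorem degree_polar [IsAlgClosed K] {x : F} (hx : Transcendental K x)
    [FiniteDimensional (IntermediateField.adjoin K {x}) F] {D : Divisor K F}
    (hD : ∀ P : Place K F, D P = max 0 (-(P.ord x))) :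
    Divisor.degree D = (Module.finrank (IntermediateField.adjoin K {x}) F : ℤ) := by
  have hS : ∀ v : Place K F, v ∈ D.support ↔ v.ord x < 0 := by
    intro v
    rw [Finsupp.mem_support_iff, hD]
    constructor
    · intro h
      by_contra h'
      exact h (max_eq_left (by omega))
    · intro h
      rw [max_eq_right (by omega)]
      omega
  rw [← H443.sum_ord_poles_eq_finrank' hx D.support hS, degree_eq_sum]
  refine Finset.sum_congr rfl fun v hv => ?_
  rw [H443.deg_eq_one_of_isAlgClosed hx v, Nat.cast_one, mul_one, hD]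
  have := (hS v).mp hv
  exact max_eq_right (by omega)

end Polar

/-! ## 3. The charts of a reduction datum -/

section Datum

universe u

variable {K k F Fk : Type u} [Field K] [Field k] [Field F] [Field Fk]
  [Algebra K F] [Algebra k Fk] {A : ValuationSubring K} {π : A →+* k} (G : Datum A π F Fk)

namespace GenusGood

/-- `x ^ i b ∈ B_fin` for `b ∈ B_inf` and `i` large -/
theorem loc_inf {b : F} (hb : b ∈ G.chart G.x⁻¹) :
    ∃ i₀ : ℕ, ∀ i, i₀ ≤ i → G.x ^ i * b ∈ G.chart G.x :=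
  exists_pow_mul_isIntegral G.constRing (H144.x_ne_zero G) hb

/-- `x ^ (-i) b ∈ B_inf` for `b ∈ B_fin` and `i` large -/
theorem loc_fin {b : F} (hb : b ∈ G.chart G.x) :
    ∃ i₀ : ℕ, ∀ i, i₀ ≤ i → G.x⁻¹ ^ i * b ∈ G.chart G.x⁻¹ := by
  have hb' : IsIntegral (G.constRing ⊔ Subring.closure {(G.x⁻¹)⁻¹} : Subring F) b := by
    rw [inv_inv]
    exact hb
  exact exists_pow_mul_isIntegral G.constRing (inv_ne_zero (H144.x_ne_zero G)) hb'

/-- constants of `A` lie in every chart -/
theorem const_mem_chart (t : F) (a : A) : algebraMap K F (a : K) ∈ G.chart t :=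
  H144.polyRing_le_chart G t (H144.const_mem_polyRing G t a)

/-- **The lattice `U m = ρ (B_fin ∩ x ^ m B_inf)`**, a `k`-subspace of `F_k`. -/
def U (m : ℕ) : Submodule k Fk where
  carrier := {ψ | ∃ b, b ∈ G.chart G.x ∧ G.x⁻¹ ^ m * b ∈ G.chart G.x⁻¹ ∧
    ∃ hb : b ∈ G.O, G.ρ ⟨b, hb⟩ = ψ}
  zero_mem' := ⟨0, Subring.zero_mem _, by rw [mul_zero]; exact Subring.zero_mem _,
    G.O.zero_mem, _root_.map_zero _⟩
  add_mem' := by
    rintro _ _ ⟨b, hb1, hb2, hbO, rfl⟩ ⟨b', hb1', hb2', hbO', rfl⟩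
    refine ⟨b + b', Subring.add_mem _ hb1 hb1', ?_, G.O.add_mem _ _ hbO hbO', ?_⟩
    · rw [mul_add]
      exact Subring.add_mem _ hb2 hb2'
    · rw [← _root_.map_add]
      rfl
  smul_mem' := by
    rintro c _ ⟨b, hb1, hb2, hbO, rfl⟩
    obtain ⟨a, rfl⟩ := G.π_surj c
    refine ⟨algebraMap K F (a : K) * b, Subring.mul_mem _ (const_mem_chart G _ a) hb1, ?_,
      G.O.mul_mem _ _ (G.const_mem a) hbO, ?_⟩
    · rw [mul_left_comm]
      exact Subring.mul_mem _ (const_mem_chart G _ a) hb2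
    · have h1 : (⟨algebraMap K F (a : K) * b, G.O.mul_mem _ _ (G.const_mem a) hbO⟩ : G.O) =
          ⟨algebraMap K F (a : K), G.const_mem a⟩ * ⟨b, hbO⟩ := rfl
      rw [h1, _root_.map_mul, G.ρ_const, Algebra.smul_def]

theorem mem_U {m : ℕ} {ψ : Fk} : ψ ∈ U G m ↔ ∃ b, b ∈ G.chart G.x ∧
    G.x⁻¹ ^ m * b ∈ G.chart G.x⁻¹ ∧ ∃ hb : b ∈ G.O, G.ρ ⟨b, hb⟩ = ψ := Iff.rfl

theorem U_mono (m : ℕ) : U G m ≤ U G (m + 1) := by
  rintro _ ⟨b, hb1, hb2, hbO, rfl⟩
  refine ⟨b, hb1, ?_, hbO, rfl⟩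
  rw [pow_succ', mul_assoc]
  exact Subring.mul_mem _ (H144.self_mem_chart G _) hb2

theorem U_mul (m : ℕ) : ∀ f ∈ U G m, G.xk * f ∈ U G (m + 1) := by
  rintro _ ⟨b, hb1, hb2, hbO, rfl⟩
  refine ⟨G.x * b, Subring.mul_mem _ (H144.self_mem_chart G _) hb1, ?_,
    G.O.mul_mem _ _ G.x_mem hbO, ?_⟩
  · have e : G.x⁻¹ ^ (m + 1) * (G.x * b) = G.x⁻¹ ^ m * b := by
      rw [pow_succ, mul_assoc, ← mul_assoc G.x⁻¹, inv_mul_cancel₀ (H144.x_ne_zero G), one_mul]
    rw [e]
    exact hb2
  · have h1 : (⟨G.x * b, G.O.mul_mem _ _ G.x_mem hbO⟩ : G.O) = ⟨G.x, G.x_mem⟩ * ⟨b, hbO⟩ := rfl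
    rw [h1, _root_.map_mul]
    rfl

/-- **Regular functions are integral**: a function of `F_k` which is regular at every place
where `s` is regular is integral over `k[s]`. -/
theorem mem_chartk_of_regular [IsAlgClosed k] [FiniteDimensional (IntermediateField.adjoin k {G.xk}) Fk]
    (s : Fk) {ψ : Fk}
    (h : ∀ Q : Place k Fk, s ∈ Q.toValuationSubring → ψ ∈ Q.toValuationSubring) :
    ψ ∈ G.chartk s := by
  have key := iInf_valuationSubring_superset (K := Fk)
    (s := Set.range (algebraMap k Fk) ∪ {s})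
  have hψ : ψ ∈ ⨅ V : {V : ValuationSubring Fk //
      Set.range (algebraMap k Fk) ∪ {s} ⊆ V.toSubring}, V.1.toSubring := by
    rw [Subring.mem_iInf]
    rintro ⟨V, hV⟩
    show ψ ∈ V
    by_cases htop : V = ⊤
    · rw [htop]; exact ValuationSubring.mem_top ψ
    · have hK : ∀ a : k, algebraMap k Fk a ∈ V := fun a => hV (Or.inl ⟨a, rfl⟩)
      have hxt : Transcendental k G.xk := G.xk_transc
      obtain ⟨Q, hQ⟩ := H443.exists_place_eq V hK htop hxt
      have hs : s ∈ Q.toValuationSubring := by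
        rw [hQ]
        exact hV (Or.inr rfl)
      have := h Q hs
      rwa [hQ] at this
  rw [key] at hψ
  have h1 : IsIntegral (Subring.closure (Set.range (algebraMap k Fk) ∪ {s})) ψ := hψ
  have h2 : IsIntegral (Algebra.adjoin k {s}).toSubring ψ := by
    refine H759.isIntegral_subring_mono ?_ h1
    rw [Algebra.adjoin_eq_ring_closure]
  exact (H759.isIntegral_subalgebra_iff (Algebra.adjoin k {s}) ψ).mpr h2

variable [IsAlgClosed k] [FF1 k Fk]

/-- `T₀`-torsion: every `ψ ∈ L_k(m D̄_∞)` lies in some `U j`. -/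
theorem U_T0 (hG : G.Good) {Dk : Divisor k Fk}
    (hDk : ∀ Q : Place k Fk, Dk Q = max 0 (-(Q.ord G.xk))) (m : ℕ) :
    ∀ ψ ∈ riemannRochSpace ((m : ℤ) • Dk), ∃ j, ψ ∈ U G j := by
  intro ψ hψ
  haveI := hG.finite_k
  have hreg : ∀ Q : Place k Fk, G.xk ∈ Q.toValuationSubring → ψ ∈ Q.toValuationSubring := by
    intro Q hQ
    rcases eq_or_ne ψ 0 with rfl | hψ0
    · exact Q.toValuationSubring.zero_mem
    have h1 := (mem_L_iff.mp hψ Q).resolve_left hψ0
    rw [Finsupp.smul_apply, smul_eq_mul, hDk,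
      max_eq_left (by have := (mem_iff_ord_nonneg Q G.xk).mp hQ; omega), mul_zero,
      neg_zero] at h1
    exact (mem_iff_ord_nonneg Q ψ).mpr h1
  obtain ⟨b, hb, hbO, hρ⟩ := hG.lift_fin ψ (mem_chartk_of_regular G G.xk hreg)
  obtain ⟨i₀, hi₀⟩ := loc_fin G hb
  exact ⟨i₀, b, hb, hi₀ i₀ le_rfl, hbO, hρ⟩

/-- `T₁`-torsion: for every `ψ ∈ L_k(m D̄_∞)` some `x̄ ^ (j - m) ψ` lies in `U j`. -/
theorem U_T1 (hG : G.Good) {Dk : Divisor k Fk}
    (hDk : ∀ Q : Place k Fk, Dk Q = max 0 (-(Q.ord G.xk))) (m : ℕ) :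
    ∀ ψ ∈ riemannRochSpace ((m : ℤ) • Dk), ∃ j, m ≤ j ∧ G.xk ^ (j - m) * ψ ∈ U G j := by
  intro ψ hψ
  haveI := hG.finite_k
  have hxk0 : G.xk ≠ 0 := H144.xk_ne_zero G
  have hx0 : G.x ≠ 0 := H144.x_ne_zero G
  have hreg : ∀ Q : Place k Fk, G.xk⁻¹ ∈ Q.toValuationSubring →
      G.xk⁻¹ ^ m * ψ ∈ Q.toValuationSubring := by
    intro Q hQ
    rcases eq_or_ne ψ 0 with rfl | hψ0
    · rw [mul_zero]; exact Q.toValuationSubring.zero_mem
    have h1 := (mem_L_iff.mp hψ Q).resolve_left hψ0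
    rw [Finsupp.smul_apply, smul_eq_mul, hDk] at h1
    have h2 : 0 ≤ Q.ord G.xk⁻¹ := (mem_iff_ord_nonneg Q _).mp hQ
    rw [Q.ord_inv] at h2
    rw [max_eq_right (by omega)] at h1
    apply (mem_iff_ord_nonneg Q _).mpr
    rw [Q.ord_mul (pow_ne_zero _ (inv_ne_zero hxk0)) hψ0, ord_pow, Q.ord_inv]
    nlinarith
  obtain ⟨b', hb', hbO', hρ'⟩ := hG.lift_inf _ (mem_chartk_of_regular G G.xk⁻¹ hreg)
  obtain ⟨i₀, hi₀⟩ := loc_inf G hb'
  refine ⟨max i₀ m, le_max_right _ _, G.x ^ (max i₀ m) * b', hi₀ _ (le_max_left _ _), ?_,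
    G.O.mul_mem _ _ (G.O.pow_mem G.x_mem _) hbO', ?_⟩
  · have e : G.x⁻¹ ^ (max i₀ m) * (G.x ^ (max i₀ m) * b') = b' := by
      rw [← mul_assoc, ← mul_pow, inv_mul_cancel₀ hx0, one_pow, one_mul]
    rw [e]
    exact hb'
  · have h1 : (⟨G.x ^ (max i₀ m) * b', G.O.mul_mem _ _ (G.O.pow_mem G.x_mem _) hbO'⟩ : G.O) =
        ⟨G.x, G.x_mem⟩ ^ (max i₀ m) * ⟨b', hbO'⟩ := rfl
    rw [h1, _root_.map_mul, _root_.map_pow, hρ']
    show G.xk ^ (max i₀ m) * (G.xk⁻¹ ^ m * ψ) = G.xk ^ (max i₀ m - m) * ψ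
    have hm : max i₀ m = (max i₀ m - m) + m := by
      have := le_max_right i₀ m
      omega
    conv_lhs => rw [hm, pow_add]
    rw [mul_assoc, ← mul_assoc (G.xk ^ m), ← mul_pow, mul_inv_cancel₀ hxk0, one_pow, one_mul]

/-- elements of `B_fin ∩ x ^ M B_inf` lie in `L(M D_∞)` -/
theorem mem_L_of_mem_charts {D : Divisor K F}
    (hD : ∀ P : Place K F, D P = max 0 (-(P.ord G.x))) {M : ℕ} {b : F}
    (hb1 : b ∈ G.chart G.x) (hb2 : G.x⁻¹ ^ M * b ∈ G.chart G.x⁻¹) :
    b ∈ riemannRochSpace ((M : ℤ) • D) := by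
  have hx0 : G.x ≠ 0 := H144.x_ne_zero G
  have hreg : ∀ {t c : F}, c ∈ G.chart t → ∀ P : Place K F, 0 ≤ P.ord t → 0 ≤ P.ord c := by
    intro t c hc P ht
    have hle : G.polyRing t ≤ P.toValuationSubring.toSubring := by
      unfold Datum.polyRing
      rw [sup_le_iff]
      constructor
      · rintro _ ⟨a, -, rfl⟩
        exact P.algebraMap_mem' a
      · rw [Subring.closure_le]
        rintro _ rfl
        exact (mem_iff_ord_nonneg P _).mpr ht
    exact (mem_iff_ord_nonneg P c).mp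
      (H144.mem_of_isIntegral_subring P.toValuationSubring (G.polyRing t) hle hc)
  rw [mem_L_iff]
  intro P
  rcases eq_or_ne b 0 with rfl | hb0
  · exact Or.inl rfl
  right
  rw [Finsupp.smul_apply, smul_eq_mul, hD]
  rcases le_or_gt 0 (P.ord G.x) with hP | hP
  · rw [max_eq_left (by omega), mul_zero, neg_zero]
    exact hreg hb1 P hP
  · rw [max_eq_right (by omega)]
    have h1 := hreg hb2 P (by rw [P.ord_inv]; omega)
    rw [P.ord_mul (pow_ne_zero _ (inv_ne_zero hx0)) hb0, ord_pow, P.ord_inv] at h1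
    nlinarith

/-- **Integral Riemann–Roch surjectivity** for the multiples of the polar divisor of the
coordinate. -/
theorem exists_lift_polar (hG : G.Good) {D : Divisor K F}
    (hD : ∀ P : Place K F, D P = max 0 (-(P.ord G.x))) {Dk : Divisor k Fk}
    (hDk : ∀ Q : Place k Fk, Dk Q = max 0 (-(Q.ord G.xk))) :
    ∃ M₀ : ℕ, ∀ M : ℕ, M₀ ≤ M → ∀ ψ ∈ riemannRochSpace ((M : ℤ) • Dk),
      ∃ (f : F) (hf : f ∈ G.O), f ∈ riemannRochSpace ((M : ℤ) • D) ∧ G.ρ ⟨f, hf⟩ = ψ := by
  haveI := hG.finite_k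
  have hxk0 : G.xk ≠ 0 := H144.xk_ne_zero G
  have hpen := isBpfPencil_polar hxk0 hDk
  have hdeg : 0 < Divisor.degree Dk := by
    have hxt : Transcendental k G.xk := G.xk_transc
    rw [degree_polar hxt hDk]
    exact_mod_cast Module.finrank_pos
  obtain ⟨M₀, hM₀⟩ := L_le_of_torsion G.xk Dk hpen hdeg (U G) (U_mono G) (U_mul G)
    (U_T0 G hG hDk) (U_T1 G hG hDk)
  refine ⟨M₀, fun M hM ψ hψ => ?_⟩
  obtain ⟨b, hb1, hb2, hbO, hρ⟩ := hM₀ M hM hψ
  exact ⟨b, hbO, mem_L_of_mem_charts G hD hb1 hb2, hρ⟩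

omit [IsAlgClosed k] [FF1 k Fk] in
/-- lifts of `k`-linearly independent functions are residually independent -/
theorem residIndep_of_linearIndependent {ι : Type*} [Fintype ι] (f : ι → F)
    (hf : ∀ i, f i ∈ G.O) (hli : LinearIndependent k (fun i => G.ρ ⟨f i, hf i⟩)) :
    S37.H217.ResidIndep A G.O f := by
  classical
  intro c hc hsum i
  -- the combination as an element of `O`
  set y : G.O := ∑ j, (⟨algebraMap K F (c j), G.const_mem ⟨c j, hc j⟩⟩ : G.O) * ⟨f j, hf j⟩
    with hy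
  have hycoe : (y : F) = ∑ j, c j • f j := by
    rw [hy]
    have : ((∑ j, (⟨algebraMap K F (c j), G.const_mem ⟨c j, hc j⟩⟩ : G.O) * ⟨f j, hf j⟩ : G.O) : F)
        = G.O.subtype (∑ j, (⟨algebraMap K F (c j), G.const_mem ⟨c j, hc j⟩⟩ : G.O) *
            ⟨f j, hf j⟩) := rfl
    rw [this, _root_.map_sum]
    refine Finset.sum_congr rfl fun j _ => ?_
    rw [Algebra.smul_def]
    rfl
  have hynon : (y : F) ∈ G.O.nonunits := by rw [hycoe]; exact hsum
  have hρy : G.ρ y = 0 := by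
    rw [H160.ρ_eq_zero_iff]
    exact ValuationSubring.coe_mem_nonunits_iff.mp hynon
  have hρy' : G.ρ y = ∑ j, π ⟨c j, hc j⟩ • G.ρ ⟨f j, hf j⟩ := by
    rw [hy, _root_.map_sum]
    refine Finset.sum_congr rfl fun j _ => ?_
    rw [_root_.map_mul, G.ρ_const ⟨c j, hc j⟩, Algebra.smul_def]
  rw [hρy'] at hρy
  have h0 := Fintype.linearIndependent_iff.mp hli (fun j => π ⟨c j, hc j⟩) hρy i
  have h1 : (⟨c i, hc i⟩ : A) ∈ IsLocalRing.maximalIdeal A := (H160.ker_π G _).mp h0
  exact ValuationSubring.coe_mem_nonunits_iff.mpr h1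

/-- `ℓ_k(M D̄_∞) ≤ ℓ(M D_∞)` for all large `M`. -/
theorem ell_polar_le [FF1 K F] (hG : G.Good) {D : Divisor K F}
    (hD : ∀ P : Place K F, D P = max 0 (-(P.ord G.x))) {Dk : Divisor k Fk}
    (hDk : ∀ Q : Place k Fk, Dk Q = max 0 (-(Q.ord G.xk))) :
    ∃ M₀ : ℕ, ∀ M : ℕ, M₀ ≤ M → ell ((M : ℤ) • Dk) ≤ ell ((M : ℤ) • D) := by
  classical
  obtain ⟨M₀, hM₀⟩ := exists_lift_polar G hG hD hDk
  refine ⟨M₀, fun M hM => ?_⟩
  let bs := Module.finBasis k (riemannRochSpace ((M : ℤ) • Dk))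
  choose f hfO hfL hρ using fun i =>
    hM₀ M hM ((bs i : riemannRochSpace ((M : ℤ) • Dk)) : Fk) (bs i).2
  have hind : LinearIndependent k (fun i => G.ρ ⟨f i, hfO i⟩) := by
    have h1 : LinearIndependent k ((riemannRochSpace ((M : ℤ) • Dk)).subtype ∘ bs) :=
      bs.linearIndependent.map' _ (Submodule.ker_subtype _)
    have h2 : (fun i => G.ρ ⟨f i, hfO i⟩) = (riemannRochSpace ((M : ℤ) • Dk)).subtype ∘ bs := by
      funext i
      rw [hρ i]
      rfl
    rw [h2]
    exact h1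
  have hlift : LinearIndependent K f :=
    S37.H217.linearIndependent_of_residIndep (residIndep_of_linearIndependent G f hfO hind)
  have hv : LinearIndependent K
      (fun i => (⟨f i, hfL i⟩ : riemannRochSpace ((M : ℤ) • D))) := by
    refine LinearIndependent.of_comp (riemannRochSpace ((M : ℤ) • D)).subtype ?_
    exact hlift
  have hcard := hv.fintype_card_le_finrank
  rw [Fintype.card_fin] at hcard
  exact hcard

/-- **GR-GENUS, the hard direction**: the genus does not drop under a reduction with good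
charts. -/
theorem genusFF_le_of_good [IsAlgClosed K] [FF1 K F] (hG : G.Good) :
    genusFF K F ≤ genusFF k Fk := by
  haveI := hG.finite
  haveI := hG.finite_k
  have hxk0 : G.xk ≠ 0 := H144.xk_ne_zero G
  have hx0 : G.x ≠ 0 := H144.x_ne_zero G
  obtain ⟨P₀⟩ := FF1.nonempty_place (K := K) (F := F)
  have hxt : Transcendental K G.x := H144.transcendental_x G hG P₀
  have hxkt : Transcendental k G.xk := G.xk_transc
  obtain ⟨D, hD⟩ := exists_polar (K := K) hx0
  obtain ⟨Dk, hDk⟩ := exists_polar (K := k) hxk0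
  have hdegD := degree_polar hxt hD
  have hdegDk := degree_polar hxkt hDk
  have hn : (0 : ℤ) < (Module.finrank (IntermediateField.adjoin k {G.xk}) Fk : ℤ) := by
    exact_mod_cast Module.finrank_pos
  rw [hG.finrank_eq] at hdegD
  obtain ⟨M₀, hM₀⟩ := ell_polar_le G hG hD hDk
  set n : ℤ := (Module.finrank (IntermediateField.adjoin k {G.xk}) Fk : ℤ) with hndef
  set M : ℕ := max M₀ (2 * genusFF K F) with hMdef
  have hM1 : M₀ ≤ M := le_max_left _ _
  have hM2 : 2 * genusFF K F ≤ M := le_max_right _ _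
  have hM2' : 2 * (genusFF K F : ℤ) ≤ (M : ℤ) := by exact_mod_cast hM2
  have hdegK : Divisor.degree ((M : ℤ) • D) = (M : ℤ) * n := by
    rw [map_zsmul, smul_eq_mul, hdegD]
  have hdegk : Divisor.degree ((M : ℤ) • Dk) = (M : ℤ) * n := by
    rw [map_zsmul, smul_eq_mul, hdegDk]
  have hMn : (M : ℤ) ≤ (M : ℤ) * n := by nlinarith
  have h1 : (ell ((M : ℤ) • D) : ℤ) = (M : ℤ) * n + 1 - (genusFF K F : ℤ) := by
    have := ell_eq_of_degree_gt (D := (M : ℤ) • D) (by rw [hdegK]; omega)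
    rwa [hdegK] at this
  have h2 := riemann_inequality_genusFF (K := k) (F := Fk) ((M : ℤ) • Dk)
  rw [hdegk] at h2
  have h3 : (ell ((M : ℤ) • Dk) : ℤ) ≤ (ell ((M : ℤ) • D) : ℤ) := by
    exact_mod_cast hM₀ M hM1
  have h4 : (genusFF K F : ℤ) ≤ (genusFF k Fk : ℤ) := by omega
  exact_mod_cast h4

end GenusGood

end Datum

end Fermat.Agent.S19.H195

end

end
-- ===== PACK-END S19/H195/GenusGood.lean

-- ===== PACK-BEGIN S19/H679/Main.lean
section




/-!
# Cell A3 (S19), block UNR (helper679) — `UnrStatement`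

Local coordinates at one place, equivariant under inertia only, give global Galois-equivariant
integral coordinates with `Z̄_(ℓ)`-polynomial addition.

    theorem unrStatementH679 : Fermat.Agent.S19.UnrStatement
-/

set_option autoImplicit false

namespace Fermat.Agent.S19.H679

open Fermat.Agent.S54 Fermat.Agent.S55.Bridge

attribute [local instance] isAlgebraic_Qbar isGalois_Qbar

/-- Independence over a finset, transported to the subtype. -/
theorem indep_subtypeH679 {N : Type*} (F : Finset (N → Qb))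
    (hind : ∀ g : (N → Qb) → Qb, ∑ f ∈ F, g f • f = 0 → ∀ f ∈ F, g f = 0)
    (g : ↥F → Qb) (hg : ∑ k : ↥F, g k • (k : N → Qb) = 0) : ∀ k, g k = 0 := by
  classical
  intro k
  have h1 := hind (fun f => if h : f ∈ F then g ⟨f, h⟩ else 0) ?_ k.1 k.2
  · simpa using h1
  · rw [← Finset.sum_coe_sort F]
    rw [← hg]
    refine Finset.sum_congr rfl fun k _ => ?_
    simp

/-- Independence of products, for a family indexed by a finite type. -/
theorem tensor_indep_subtypeH679 {N : Type*} (F : Finset (N → Qb))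
    (hind : ∀ g : (N → Qb) → Qb, ∑ f ∈ F, g f • f = 0 → ∀ f ∈ F, g f = 0)
    (c : ↥F × ↥F → Qb)
    (hc : ∀ x y : N, ∑ p : ↥F × ↥F, c p * ((p.1 : N → Qb) x * (p.2 : N → Qb) y) = 0) :
    ∀ p, c p = 0 := by
  classical
  have hind' := indep_subtypeH679 F hind
  have h1 : ∀ (y : N) (k : ↥F), ∑ k' : ↥F, c (k, k') * (k' : N → Qb) y = 0 := by
    intro y
    apply hind' (fun k => ∑ k' : ↥F, c (k, k') * (k' : N → Qb) y)
    funext x
    rw [Finset.sum_apply, Pi.zero_apply, ← hc x y, Fintype.sum_prod_type]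
    refine Finset.sum_congr rfl fun k _ => ?_
    rw [Pi.smul_apply, smul_eq_mul, Finset.sum_mul]
    refine Finset.sum_congr rfl fun k' _ => ?_
    ring
  rintro ⟨k, k'⟩
  refine hind' (fun k' => c (k, k')) ?_ k'
  funext y
  rw [Finset.sum_apply, Pi.zero_apply, ← h1 y k]
  refine Finset.sum_congr rfl fun k' _ => ?_
  rw [Pi.smul_apply, smul_eq_mul]

variable {ℓ : ℕ} {M : Type} [AddCommGroup M] {act : GalQ → M → M}

/-- The diagonal action is an action. -/
theorem isAct2H679 (hact : IsContAddAction act) : IsActH679 (act2H679 act) :=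
  ⟨fun p => Prod.ext (hact.act_one _) (hact.act_one _),
    fun σ τ p => Prod.ext (hact.act_mul _ _ _) (hact.act_mul _ _ _)⟩

theorem star2_tensH679 (V : ValuationSubring Qb) (σ : GalQ) (g g' : M → Qb) :
    starH679 (act2H679 act) σ (tensH679 V M g g')
      = tensH679 V M (starH679 act σ g) (starH679 act σ g') := by
  funext p
  show σ (g (act σ⁻¹ p.1) * g' (act σ⁻¹ p.2)) = _
  rw [map_mul]
  rfl

theorem star2_addPullH679 (hact : IsContAddAction act) (σ : GalQ) (f : M → Qb) :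
    starH679 (act2H679 act) σ (addPullH679 f) = addPullH679 (starH679 act σ f) := by
  funext p
  show σ (f (act σ⁻¹ p.1 + act σ⁻¹ p.2)) = σ (f (act σ⁻¹ (p.1 + p.2)))
  rw [hact.act_add]

/-- **UNR**: unramified descent of local coordinates. -/
theorem unrStatementH679 : UnrStatement := by
  classical
  intro ℓ hℓfact M _ _ act hact L
  have hℓ : ℓ.Prime := hℓfact.out
  have hA := isActH679_of_cont hact
  have hspan : Submodule.span L.V (invSetH679 L) = Subalgebra.toSubmodule (HlocH679 L) :=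
    le_antisymm (Submodule.span_le.2 fun h hh => hh.1) (Hloc_le_span_invH679 hℓ hact L)
  obtain ⟨Λ⟩ := exists_levelDataH679 hact L
  obtain ⟨F, hF1, hF2, hF3⟩ :=
    exists_minimal_spanningH679 (invSetH679 L) _ (Hloc_fgH679 hact L Λ) hspan
  have hind := indep_of_minimalH679 L.V F hF3
  have hFinv : ∀ k : ↥F, ∀ σ : GalQ, starH679 act σ (k : M → Qb) = k := fun k σ =>
    (hF1 k.2).2 σ
  have hFH : ∀ k : ↥F, (k : M → Qb) ∈ HlocH679 L := fun k => (hF1 k.2).1
  have hFV : ∀ (k : ↥F) (m : M), (k : M → Qb) m ∈ L.V := fun k m =>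
    Hloc_le_valuedH679 L (hFH k) m
  have hFeq : ∀ (k : ↥F) (σ : GalQ) (m : M), (k : M → Qb) (act σ m) = σ ((k : M → Qb) m) :=
    fun k σ m => (starH679_eq_self_iff hA σ _).1 (hFinv k σ) m
  refine ⟨{ ι := ↥F
            fin := inferInstance
            Φ := fun m k => (k : M → Qb) m
            inj := ?_
            equivariant := fun σ m k => hFeq k σ m
            integral := ?_
            add_mem := ?_ }⟩
  · -- injectivity
    intro m m' h
    apply L.inj
    funext i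
    have hsub : Submodule.span L.V (F : Set (M → Qb)) ≤
        LinearMap.ker ((LinearMap.proj m : (M → Qb) →ₗ[L.V] Qb) - LinearMap.proj m') := by
      rw [Submodule.span_le]
      intro f hf
      rw [SetLike.mem_coe, LinearMap.mem_ker, LinearMap.sub_apply, sub_eq_zero]
      exact congrFun h ⟨f, hf⟩
    have h1 : psiH679 L i ∈ Submodule.span L.V (F : Set (M → Qb)) := by
      rw [hF2]
      exact psi_mem_HlocH679 hact L i
    have h2 := hsub h1
    rw [LinearMap.mem_ker, LinearMap.sub_apply, sub_eq_zero] at h2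
    exact h2
  · -- integrality
    intro m k
    apply isIntegral_of_conj_memH679 L.V hℓ L.ell_mem
    intro σ
    rw [← hFeq k σ m]
    exact hFV k _
  · -- addition
    intro k
    have h1 : addPullH679 (k : M → Qb) ∈ tensImageH679 L :=
      addPull_mem_tensImageH679 hact L (hFH k)
    rw [tensImage_eq_span_of_spanH679 L (F : Set (M → Qb)) hF2] at h1
    have hrange : Set.image2 (fun g g' => tensH679 L.V M g g') (F : Set (M → Qb))
        (F : Set (M → Qb)) = Set.range fun p : ↥F × ↥F =>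
          tensH679 L.V M (p.1 : M → Qb) (p.2 : M → Qb) := by
      ext G
      constructor
      · rintro ⟨g, hg, g', hg', rfl⟩
        exact ⟨(⟨g, hg⟩, ⟨g', hg'⟩), rfl⟩
      · rintro ⟨p, rfl⟩
        exact ⟨p.1, p.1.2, p.2, p.2.2, rfl⟩
    rw [hrange, Submodule.mem_span_range_iff_exists_fun] at h1
    obtain ⟨c, hc⟩ := h1
    -- pointwise form
    have hcpt : ∀ x y : M, ∑ p : ↥F × ↥F, (c p : Qb) * ((p.1 : M → Qb) x * (p.2 : M → Qb) y)
        = (k : M → Qb) (x + y) := by
      intro x y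
      have := congrFun hc (x, y)
      rw [Finset.sum_apply] at this
      exact this
    -- the coefficients are Galois-invariant
    have hcinv : ∀ (σ : GalQ) (p : ↥F × ↥F), σ (c p : Qb) = (c p : Qb) := by
      intro σ p
      have h2 : ∀ x y : M, ∑ p : ↥F × ↥F,
          (σ (c p : Qb) - (c p : Qb)) * ((p.1 : M → Qb) x * (p.2 : M → Qb) y) = 0 := by
        intro x y
        have h3 := congrArg σ (hcpt (act σ⁻¹ x) (act σ⁻¹ y))
        rw [map_sum, ← hact.act_add, ← hFeq k σ, hA.act_inv, ← hcpt x y] at h3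
        rw [← sub_eq_zero, ← Finset.sum_sub_distrib] at h3
        rw [← h3]
        refine Finset.sum_congr rfl fun p _ => ?_
        rw [map_mul, map_mul, ← hFeq p.1 σ, ← hFeq p.2 σ, hA.act_inv, hA.act_inv]
        ring
      have h4 := tensor_indep_subtypeH679 F hind (fun p => σ (c p : Qb) - (c p : Qb)) h2 p
      exact sub_eq_zero.1 h4
    -- hence they lie in `ℤ_(ℓ)`, in particular in `Zb`
    have hcint : ∀ p : ↥F × ↥F, IsIntegral (Rl ℓ) (c p : Qb) := by
      intro p
      obtain ⟨q, hq⟩ := mem_range_of_fixedH679 (c p : Qb) fun σ => hcinv σ p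
      have hqR : q ∈ Rl ℓ := mem_ratLocalizedAtH679 L.V hℓ L.ell_mem q (hq ▸ (c p).2)
      have : (c p : Qb) = algebraMap (Rl ℓ) Qb ⟨q, hqR⟩ := hq.symm
      rw [this]
      exact isIntegral_algebraMap
    have hfinal : (fun p : M × M => (k : M → Qb) (p.1 + p.2))
        = ∑ p : ↥F × ↥F, (⟨(c p : Qb), hcint p⟩ : Zb ℓ) •
            ((fun x : M × M => (p.1 : M → Qb) x.1) * fun x : M × M => (p.2 : M → Qb) x.2) := by
      funext x
      rw [Finset.sum_apply, ← hcpt x.1 x.2]
      rfl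
    rw [hfinal]
    refine Subalgebra.sum_mem _ fun p _ => Subalgebra.smul_mem _ (mul_mem ?_ ?_) _
    · exact Algebra.subset_adjoin (Or.inl ⟨p.1, rfl⟩)
    · exact Algebra.subset_adjoin (Or.inr ⟨p.2, rfl⟩)

end Fermat.Agent.S19.H679

end
-- ===== PACK-END S19/H679/Main.lean

-- ===== PACK-BEGIN S19/H195/MaxPrinciple.lean
section


/-!
# A3 / LOCAL D1–D2 (helper195): maximum principle, surjectivity of `r`, specialisation of classes

For an abstract reduction datum `R : RedDatum K F k Fk` (see `RedDatum.lean`):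

* `RedDatum.le_mapDomain_apply`  `D P ≤ (r_* D)(r P)` when `D ≥ 0` on the residue disc of `P`;
* `RedDatum.max_principle`  **D1**: if `f ∈ V` has no poles in the residue disc `r⁻¹(r P)` and
  `f(P) = c`, then `c ∈ O = V ∩ K` and `(red f)(r P) = red c`;
* `RedDatum.r_surjective`   **D2a**: `r` is onto (if `red` is onto);
* `RedDatum.mapDomain_mem_principal`, `RedDatum.sp`  **D2b**: `r_*` maps principal divisors to
  principal divisors, hence induces `sp : Pic0 K F →+ Pic0 k Fk` (needs the scaling axiom);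
* `RedDatum.eq_of_sp_of_ell_eq_one`-type uniqueness is in `Lib/RR/H439`.

(D2c, integral Riemann–Roch, is `RedDatum.redL_eq` / `exists_lattice_basis` in `RedDatum.lean`.)
-/

set_option autoImplicit false

noncomputable section

open AlgebraicCurve Fermat.Agent.Lib.RR

namespace Fermat.Agent.S19.H195

universe u₁ u₂ u₃ u₄

variable {K : Type u₁} {F : Type u₂} {k : Type u₃} {Fk : Type u₄}
  [Field K] [Field F] [Algebra K F] [Field k] [Field Fk] [Algebra k Fk]

namespace RedDatum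

variable (R : RedDatum K F k Fk)

/-- If `D` is non-negative on the fibre of `r` through `a`, then `D a ≤ (r_* D)(r a)`. -/
theorem le_mapDomain_apply {α β : Type*} (r : α → β) (D : α →₀ ℤ) (a : α)
    (h : ∀ a', r a' = r a → 0 ≤ D a') : D a ≤ Finsupp.mapDomain r D (r a) := by
  classical
  rw [Finsupp.mapDomain, Finsupp.sum_apply]
  show D a ≤ ∑ a' ∈ D.support, (Finsupp.single (r a') (D a')) (r a)
  have hnn : ∀ a' ∈ D.support, 0 ≤ (Finsupp.single (r a') (D a')) (r a) := by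
    intro a' _
    rw [Finsupp.single_apply]
    split_ifs with h1
    · exact h a' h1
    · exact le_rfl
  by_cases ha : a ∈ D.support
  · have := Finset.single_le_sum hnn ha
    rwa [Finsupp.single_eq_same] at this
  · rw [Finsupp.notMem_support_iff.mp ha]
    exact Finset.sum_nonneg hnn

/-- A constant outside `V` has its inverse in
`V` with zero reduction. -/
theorem red_inv_eq_zero {c : K} (hc : algebraMap K F c ∉ R.V) :
    ∃ h : algebraMap K F c⁻¹ ∈ R.V, R.red ⟨_, h⟩ = 0 := by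
  have hinv := (R.const_total c).resolve_left hc
  refine ⟨hinv, ?_⟩
  by_contra hne
  have := R.red_const_unit _ hinv hne
  rw [inv_inv] at this
  exact hc this

/-- **D1, maximum principle.**  Let `f ∈ V` have no poles in the residue disc of `P` and value
`c` at `P`.  Then `c` is integral and `red f` has the value `red c` at `r P`. -/
theorem max_principle [FF1 K F] (P : Place K F) {f : F} (hf : f ∈ R.V)
    (hreg : ∀ Q, R.r Q = R.r P → 0 ≤ Q.ord f) {c : K}
    (hc : f - algebraMap K F c = 0 ∨ 0 < P.ord (f - algebraMap K F c)) :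
    ∃ hcV : algebraMap K F c ∈ R.V,
      R.red ⟨f, hf⟩ - R.red ⟨_, hcV⟩ = 0 ∨
        0 < (R.r P).ord (R.red ⟨f, hf⟩ - R.red ⟨_, hcV⟩) := by
  -- regularity of `f - c'` and `c' f` on the disc
  have hmemQ : ∀ Q, R.r Q = R.r P → f ∈ Q.toValuationSubring := fun Q hQ =>
    mem_of_ord_nonneg Q (hreg Q hQ)
  -- Step 1: `c` is integral
  have hcV : algebraMap K F c ∈ R.V := by
    by_contra hcV
    obtain ⟨hinv, hred0⟩ := R.red_inv_eq_zero hcV
    have hc0 : c ≠ 0 := by
      rintro rfl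
      apply hcV
      rw [map_zero]
      exact R.V.zero_mem
    set g : F := algebraMap K F c⁻¹ * f - 1 with hg
    have hgV : g ∈ R.V := R.V.sub_mem (R.V.mul_mem hinv hf) R.V.one_mem
    have hgred : R.red ⟨g, hgV⟩ = -1 := by
      have : (⟨g, hgV⟩ : R.V) = ⟨_, hinv⟩ * ⟨f, hf⟩ - 1 := Subtype.ext rfl
      rw [this, map_sub, map_mul, hred0, zero_mul, map_one, zero_sub]
    have hgred0 : R.red ⟨g, hgV⟩ ≠ 0 := by
      rw [hgred]; exact neg_ne_zero.mpr one_ne_zero
    have hg0 : g ≠ 0 := by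
      rintro h0
      apply hgred0
      have : (⟨g, hgV⟩ : R.V) = 0 := Subtype.ext h0
      rw [this, map_zero]
    have hgeq : g = algebraMap K F c⁻¹ * (f - algebraMap K F c) := by
      rw [hg, mul_sub, ← map_mul, inv_mul_cancel₀ hc0, map_one]
    have hcinv0 : algebraMap K F c⁻¹ ≠ 0 := by
      rw [Ne, map_eq_zero]; exact inv_ne_zero hc0
    have hordP : 0 < P.ord g := by
      rcases hc with h0 | hpos
      · exact absurd (by rw [hgeq, h0, mul_zero]) hg0
      · have hfc0 : f - algebraMap K F c ≠ 0 := by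
          rintro h0
          exact hg0 (by rw [hgeq, h0, mul_zero])
        rw [hgeq, P.ord_mul hcinv0 hfc0, ord_algebraMap, zero_add]
        exact hpos
    have hE := R.ord_red g hgV hgred0 (divOf g hg0) (fun Q => divOf_apply g hg0 Q) (R.r P)
    have hle := le_mapDomain_apply R.r (divOf g hg0) P (fun Q hQ => by
      rw [divOf_apply]
      apply ord_nonneg_of_mem
      exact sub_mem (mul_mem (Q.algebraMap_mem' _) (hmemQ Q hQ)) (one_mem _))
    rw [hE, divOf_apply, hgred, ord_neg, Place.ord_one] at hle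
    omega
  refine ⟨hcV, ?_⟩
  -- Step 2: the value of the reduction
  set h : F := f - algebraMap K F c with hh
  have hhV : h ∈ R.V := R.V.sub_mem hf hcV
  have hhred : R.red ⟨h, hhV⟩ = R.red ⟨f, hf⟩ - R.red ⟨_, hcV⟩ := by
    have : (⟨h, hhV⟩ : R.V) = ⟨f, hf⟩ - ⟨_, hcV⟩ := Subtype.ext rfl
    rw [this, map_sub]
  rw [← hhred]
  by_cases hred0 : R.red ⟨h, hhV⟩ = 0
  · exact Or.inl hred0
  right
  have hh0 : h ≠ 0 := by
    rintro h0
    apply hred0
    have : (⟨h, hhV⟩ : R.V) = 0 := Subtype.ext h0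
    rw [this, map_zero]
  have hordP : 0 < P.ord h := hc.resolve_left hh0
  have hE := R.ord_red h hhV hred0 (divOf h hh0) (fun Q => divOf_apply h hh0 Q) (R.r P)
  have hle := le_mapDomain_apply R.r (divOf h hh0) P (fun Q hQ => by
    rw [divOf_apply]
    apply ord_nonneg_of_mem
    exact sub_mem (hmemQ Q hQ) (Q.algebraMap_mem' _))
  rw [hE, divOf_apply] at hle
  omega

/-- **D2a**: the reduction of places is onto. -/
theorem r_surjective [FF1 K F] (hsurj : Function.Surjective R.red) :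
    Function.Surjective R.r := by
  classical
  intro Q
  obtain ⟨t, ht⟩ := exists_ord_eq_one Q
  obtain ⟨⟨f, hf⟩, hft⟩ := hsurj t
  have ht0 : t ≠ 0 := ne_zero_of_ord_ne_zero Q (by rw [ht]; exact one_ne_zero)
  have hred0 : R.red ⟨f, hf⟩ ≠ 0 := by rw [hft]; exact ht0
  have hf0 : f ≠ 0 := by
    rintro rfl
    exact hred0 (map_zero R.red)
  have hE := R.ord_red f hf hred0 (divOf f hf0) (fun P => divOf_apply f hf0 P) Q
  rw [hft, ht] at hE
  by_contra hne
  have hQ : Q ∉ Set.range R.r := fun ⟨P, hP⟩ => hne ⟨P, hP⟩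
  rw [Finsupp.mapDomain_of_notMem_range _ _ hQ] at hE
  exact zero_ne_one hE

/-- **D2b**: principal divisors specialise to principal divisors. -/
theorem mapDomain_mem_principal
    (hscale : ∀ f : F, f ≠ 0 → ∃ c : K, c ≠ 0 ∧ ∃ h : algebraMap K F c * f ∈ R.V,
      R.red ⟨_, h⟩ ≠ 0)
    {D : Divisor K F} (hD : D ∈ Divisor.principal (K := K) (F := F)) :
    Finsupp.mapDomain R.r D ∈ Divisor.principal (K := k) (F := Fk) := by
  obtain ⟨f, hf0, hDf⟩ := hD
  obtain ⟨c, hc0, hV, hred⟩ := hscale f hf0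
  refine ⟨R.red ⟨_, hV⟩, hred, fun Q => ?_⟩
  refine R.ord_red _ hV hred D (fun P => ?_) Q
  have hc0' : algebraMap K F c ≠ 0 := by rwa [Ne, map_eq_zero]
  rw [hDf P, P.ord_mul hc0' hf0, ord_algebraMap, zero_add]

/-- Specialisation of divisors of degree zero. -/
def spDegZero [FF1 K F] [FF1 k Fk] :
    Divisor.degZero (K := K) (F := F) →+ Divisor.degZero (K := k) (F := Fk) :=
  ((Finsupp.mapDomain.addMonoidHom R.r).domRestrict _).codRestrict _ fun D => by
    rw [Divisor.mem_degZero]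
    show Divisor.degree (Finsupp.mapDomain R.r (D : Divisor K F)) = 0
    rw [R.degree_mapDomain]
    exact D.2

@[simp]
theorem coe_spDegZero [FF1 K F] [FF1 k Fk] (D : Divisor.degZero (K := K) (F := F)) :
    (R.spDegZero D : Divisor k Fk) = Finsupp.mapDomain R.r (D : Divisor K F) := rfl

/-- **D2b**: the specialisation homomorphism `sp : Pic0 K F →+ Pic0 k Fk`. -/
def sp [FF1 K F] [FF1 k Fk]
    (hscale : ∀ f : F, f ≠ 0 → ∃ c : K, c ≠ 0 ∧ ∃ h : algebraMap K F c * f ∈ R.V,
      R.red ⟨_, h⟩ ≠ 0) :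
    Pic0 K F →+ Pic0 k Fk :=
  QuotientAddGroup.map _ _ R.spDegZero (by
    rintro ⟨D, hD0⟩ hD
    simp only [AddSubgroup.mem_addSubgroupOf] at hD ⊢
    exact R.mapDomain_mem_principal hscale hD)

theorem sp_mk [FF1 K F] [FF1 k Fk]
    (hscale : ∀ f : F, f ≠ 0 → ∃ c : K, c ≠ 0 ∧ ∃ h : algebraMap K F c * f ∈ R.V,
      R.red ⟨_, h⟩ ≠ 0)
    (D : Divisor.degZero (K := K) (F := F)) :
    R.sp hscale (Pic0.mk D) = Pic0.mk (R.spDegZero D) := rfl

end RedDatum

end Fermat.Agent.S19.H195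

end
end
-- ===== PACK-END S19/H195/MaxPrinciple.lean

-- ===== PACK-BEGIN S19/H195/GoodRedD12.lean
section



/-!
# A3 / LOCAL D1–D2 for the frozen interface `GoodRed` (helper195)

`GoodRed K F k Fk` (architect helper799, `Fermat/Agent/A3/H799/GoodRed.lean`) is converted into the
lighter `RedDatum` of `RedDatum.lean`, and the results D1–D2 of the LOCAL plan
(origin/helper979:coord/A3-helper979.md §3) are stated for `GoodRed`:

* `GoodRed.max_principle`   **D1**: `f ∈ O` without poles in the residue disc of `P`, `f(P) = c`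
  ⟹ `c ∈ V` and `(red f)(r P) = res c`;
* `GoodRed.r_surjective`    **D2**: `r` is onto;
* `GoodRed.sp`              **D2**: specialisation `Pic0 K F →+ Pic0 k Fk`, `sp [D] = [r_* D]`;
* `GoodRed.ell_le`          **D2**: `ℓ(D) ≤ ℓ(r_* D)`;
* `GoodRed.exists_lift`     **D2**: for `deg D > 2g - 2` every element of `L(r_* D)` is the
  reduction of an element of `L(D) ∩ O`;  `GoodRed.ell_eq`: then `ℓ(D) = ℓ(r_* D)`;
* `GoodRed.exists_lattice_basis`  orthonormal basis of `L(D)` reducing to a basis of `L(r_* D)`,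
  with the lattice property (`L(D) ∩ O = ⊕ V wᵢ`).
-/

set_option autoImplicit false

noncomputable section

open AlgebraicCurve Fermat.Agent.Lib.RR

namespace Fermat.Agent.S19.H195

open Fermat.Agent.A3.H799

universe u₁ u₂ u₃ u₄

variable {K : Type u₁} {F : Type u₂} {k : Type u₃} {Fk : Type u₄}
  [Field K] [Field F] [Algebra K F] [Field k] [Field Fk] [Algebra k Fk]

/-- The `RedDatum` underlying a `GoodRed`. -/
def ofGoodRed (𝓡 : GoodRed K F k Fk) : RedDatum K F k Fk where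
  V := 𝓡.O.toSubring
  red := 𝓡.red
  r := 𝓡.r
  const_total := fun a => by
    rcases 𝓡.O.mem_or_inv_mem (algebraMap K F a) with h | h
    · exact Or.inl h
    · right
      rw [map_inv₀]
      exact h
  red_const := fun a h =>
    ⟨𝓡.res ⟨a, (𝓡.algebraMap_mem a).mp h⟩, 𝓡.red_algebraMap ⟨a, (𝓡.algebraMap_mem a).mp h⟩ h⟩
  red_const_surj := fun b => by
    obtain ⟨a, ha⟩ := 𝓡.res_surjective b
    have h : algebraMap K F (a : K) ∈ 𝓡.O := (𝓡.algebraMap_mem a).mpr a.2
    exact ⟨a, h, by rw [← ha]; exact 𝓡.red_algebraMap a h⟩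
  red_const_unit := fun a h hne => by
    have haV : a ∈ 𝓡.V := (𝓡.algebraMap_mem a).mp h
    have hres : 𝓡.res ⟨a, haV⟩ ≠ 0 := by
      intro h0
      apply hne
      have := 𝓡.red_algebraMap ⟨a, haV⟩ h
      rw [h0, map_zero] at this
      exact this
    have hnu : a ∉ 𝓡.V.nonunits := fun hn => hres ((𝓡.res_eq_zero ⟨a, haV⟩).mpr hn)
    rw [ValuationSubring.mem_nonunits_iff_exists_mem_maximalIdeal] at hnu
    have hunit : IsUnit (⟨a, haV⟩ : 𝓡.V) := by
      by_contra hnot
      exact hnu ⟨haV, (IsLocalRing.mem_maximalIdeal _).mpr hnot⟩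
    obtain ⟨u, hu⟩ := hunit
    have hinv : a⁻¹ ∈ 𝓡.V := by
      have h1 : ((u⁻¹ : (𝓡.V)ˣ) : 𝓡.V) * ⟨a, haV⟩ = 1 := by
        rw [← hu]; exact Units.inv_mul u
      have h2 : (((u⁻¹ : (𝓡.V)ˣ) : 𝓡.V) : K) * a = 1 := congrArg Subtype.val h1
      have ha0 : a ≠ 0 := by
        rintro rfl
        rw [mul_zero] at h2
        exact zero_ne_one h2
      have h3 : a⁻¹ = (((u⁻¹ : (𝓡.V)ˣ) : 𝓡.V) : K) :=
        (eq_inv_of_mul_eq_one_left h2).symm
      rw [h3]
      exact Subtype.mem _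
    exact (𝓡.algebraMap_mem a⁻¹).mpr hinv
  ord_red := fun u hu hne D hD Q => 𝓡.div_red ⟨u, hu⟩ hne D hD Q


namespace GoodRedLemmas

variable (𝓡 : GoodRed K F k Fk)

/-- The scaling axiom of `RedDatum` lemmas, from `gauss`. -/
theorem hscale : ∀ f : F, f ≠ 0 → ∃ c : K, c ≠ 0 ∧
    ∃ h : algebraMap K F c * f ∈ (ofGoodRed 𝓡).V, (ofGoodRed 𝓡).red ⟨_, h⟩ ≠ 0 :=
  fun f hf => 𝓡.gauss f hf

/-- Every Riemann–Roch space has an orthonormal basis. -/
theorem orthOn (D : Divisor K F) : (ofGoodRed 𝓡).OrthOn (riemannRochSpace D) := by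
  obtain ⟨n, b, hli, hmem, hspan, -⟩ := 𝓡.orthonormal D
  exact ⟨n, fun i => ((b i : 𝓡.O) : F), fun i => (b i).2, hmem, hspan.ge, hli⟩

/-- **D1, maximum principle.** -/
theorem max_principle (P : Place K F) (f : 𝓡.O)
    (hreg : ∀ Q, 𝓡.r Q = 𝓡.r P → 0 ≤ Q.ord (f : F)) {c : K}
    (hc : (f : F) - algebraMap K F c = 0 ∨ 0 < P.ord ((f : F) - algebraMap K F c)) :
    ∃ hcV : c ∈ 𝓡.V,
      𝓡.red f - algebraMap k Fk (𝓡.res ⟨c, hcV⟩) = 0 ∨
        0 < (𝓡.r P).ord (𝓡.red f - algebraMap k Fk (𝓡.res ⟨c, hcV⟩)) := by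
  have := 𝓡.ff1
  obtain ⟨hcO, h⟩ := (ofGoodRed 𝓡).max_principle P f.2 hreg hc
  have hcV : c ∈ 𝓡.V := (𝓡.algebraMap_mem c).mp hcO
  refine ⟨hcV, ?_⟩
  have h1 : (ofGoodRed 𝓡).red ⟨_, hcO⟩ = algebraMap k Fk (𝓡.res ⟨c, hcV⟩) :=
    𝓡.red_algebraMap ⟨c, hcV⟩ hcO
  rw [h1] at h
  exact h

/-- **D2**: `r` is onto. -/
theorem r_surjective : Function.Surjective 𝓡.r := by
  have := 𝓡.ff1
  exact (ofGoodRed 𝓡).r_surjective 𝓡.red_surjective

/-- **D2**: principal divisors specialise to principal divisors. -/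
theorem mapDomain_mem_principal {D : Divisor K F}
    (hD : D ∈ Divisor.principal (K := K) (F := F)) :
    Finsupp.mapDomain 𝓡.r D ∈ Divisor.principal (K := k) (F := Fk) :=
  (ofGoodRed 𝓡).mapDomain_mem_principal (hscale 𝓡) hD

/-- **D2**: reduction preserves degrees. -/
theorem degree_mapDomain (D : Divisor K F) :
    Divisor.degree (Finsupp.mapDomain 𝓡.r D) = Divisor.degree D := by
  have := 𝓡.ff1
  have := 𝓡.ff1k
  exact (ofGoodRed 𝓡).degree_mapDomain D

/-- **D2**: the specialisation homomorphism `sp : Pic0 K F →+ Pic0 k Fk`. -/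
def sp : Pic0 K F →+ Pic0 k Fk :=
  haveI := 𝓡.ff1
  haveI := 𝓡.ff1k
  (ofGoodRed 𝓡).sp (hscale 𝓡)

theorem sp_mk (D : Divisor.degZero (K := K) (F := F)) :
    ((sp 𝓡 (Pic0.mk D) : Pic0 k Fk)) =
      Pic0.mk ⟨Finsupp.mapDomain 𝓡.r (D : Divisor K F), by
        rw [Divisor.mem_degZero, degree_mapDomain]; exact D.2⟩ := rfl

/-- **D2**: `red (L(D) ∩ O) ⊆ L(r_* D)`. -/
theorem red_mem (D : Divisor K F) (f : 𝓡.O) (hf : (f : F) ∈ riemannRochSpace D) :
    𝓡.red f ∈ riemannRochSpace (Finsupp.mapDomain 𝓡.r D) := by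
  have := 𝓡.ff1
  exact (ofGoodRed 𝓡).redL_le D ((ofGoodRed 𝓡).red_mem_redL f.2 hf)

/-- **D2, semicontinuity**: `ℓ(D) ≤ ℓ(r_* D)`. -/
theorem ell_le (D : Divisor K F) :
    haveI := 𝓡.ff1
    haveI := 𝓡.ff1k
    ell D ≤ ell (Finsupp.mapDomain 𝓡.r D) := by
  have := 𝓡.ff1
  have := 𝓡.ff1k
  exact (ofGoodRed 𝓡).ell_le_ell_mapDomain D (orthOn 𝓡 D)

/-- **D2, integral Riemann–Roch**: for `deg D > 2g - 2` every element of `L(r_* D)` is the
reduction of an integral function of `L(D)`. -/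
theorem exists_lift (D : Divisor K F) (hD : 2 * (genusFF k Fk : ℤ) - 2 < Divisor.degree D)
    (g : Fk) (hg : g ∈ riemannRochSpace (Finsupp.mapDomain 𝓡.r D)) :
    ∃ f : 𝓡.O, (f : F) ∈ riemannRochSpace D ∧ 𝓡.red f = g := by
  have := 𝓡.ff1
  have := 𝓡.ff1k
  have hg' : g ∈ (ofGoodRed 𝓡).redL D := by
    rw [(ofGoodRed 𝓡).redL_eq 𝓡.genus_eq.le D hD (orthOn 𝓡 D)]
    exact hg
  obtain ⟨f, hf, hfD, rfl⟩ := hg'
  exact ⟨⟨f, hf⟩, hfD, rfl⟩

/-- **D2**: for `deg D > 2g - 2`, `ℓ(D) = ℓ(r_* D) = deg D + 1 - g`. -/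
theorem ell_eq (D : Divisor K F) (hD : 2 * (genusFF k Fk : ℤ) - 2 < Divisor.degree D) :
    haveI := 𝓡.ff1
    haveI := 𝓡.ff1k
    ell D = ell (Finsupp.mapDomain 𝓡.r D) ∧
      (ell D : ℤ) = Divisor.degree D + 1 - (genusFF k Fk : ℤ) := by
  have := 𝓡.ff1
  have := 𝓡.ff1k
  exact (ofGoodRed 𝓡).ell_eq 𝓡.genus_eq.le D hD (orthOn 𝓡 D)

/-- **Lattice property** of an orthonormal family: if `∑ cᵢ bᵢ ∈ O` and the `red bᵢ` are
`k`-independent, then all `cᵢ ∈ V`. -/
theorem coeff_mem {ι : Type*} (b : ι → 𝓡.O) (hli : LinearIndependent k (fun i => 𝓡.red (b i)))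
    (s : Finset ι) (c : ι → K) (hf : ∑ i ∈ s, c i • ((b i : 𝓡.O) : F) ∈ 𝓡.O) :
    ∀ i ∈ s, c i ∈ 𝓡.V := fun i hi =>
  (𝓡.algebraMap_mem (c i)).mp
    ((ofGoodRed 𝓡).coeff_mem_of_red (fun i => ((b i : 𝓡.O) : F)) (fun i => (b i).2) hli s c hf i hi)

/-- **D2, basis form**: for `deg D > 2g - 2` there is a `K`-basis of `L(D)` in `O` whose
reductions form a `k`-basis of `L(r_* D)`, and `L(D) ∩ O = ⊕ V wᵢ`. -/
theorem exists_lattice_basis (D : Divisor K F)
    (hD : 2 * (genusFF k Fk : ℤ) - 2 < Divisor.degree D) :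
    ∃ (n : ℕ) (w : Fin n → 𝓡.O), (∀ i, ((w i : 𝓡.O) : F) ∈ riemannRochSpace D) ∧
      LinearIndependent K (fun i => ((w i : 𝓡.O) : F)) ∧
      Submodule.span K (Set.range fun i => ((w i : 𝓡.O) : F)) = riemannRochSpace D ∧
      LinearIndependent k (fun i => 𝓡.red (w i)) ∧
      Submodule.span k (Set.range fun i => 𝓡.red (w i))
        = riemannRochSpace (Finsupp.mapDomain 𝓡.r D) ∧
      ∀ f : 𝓡.O, (f : F) ∈ riemannRochSpace D →
        ∃ c : Fin n → 𝓡.V, (f : F) = ∑ i, ((c i : 𝓡.V) : K) • ((w i : 𝓡.O) : F) := by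
  have := 𝓡.ff1
  have := 𝓡.ff1k
  obtain ⟨w, hw, h1, h2, h3, h4, h5, h6⟩ :=
    (ofGoodRed 𝓡).exists_lattice_basis 𝓡.genus_eq.le D hD (orthOn 𝓡 D)
  refine ⟨_, fun i => ⟨w i, hw i⟩, h1, h2, h3, h4, h5, fun f hf => ?_⟩
  obtain ⟨c, hc, hfc⟩ := h6 f hf f.2
  exact ⟨fun i => ⟨c i, (𝓡.algebraMap_mem (c i)).mp (hc i)⟩, hfc⟩

end GoodRedLemmas

end Fermat.Agent.S19.H195

end
end
-- ===== PACK-END S19/H195/GoodRedD12.lean

-- ===== PACK-BEGIN A2/Mod/H872/FrickeStable.lean
section





/-!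
# A2 / MOD leaf L7 `FrickeStable` (helper872)

`frickeStable : FrickeStableStatement P E M q w` — EXACT statement of the leaf L7 of
`Fermat/Agent/A2/Mod/Spec.lean` (architect helper994): at level `M` prime to `q` the Fricke
involution `W` preserves the Gauss valuation ring `V∞`.

Proof.  `V₁ := V∞` and `V₂ := V∞ ∘ W` are valuation rings of `F_M` with uniformiser `w`; both
contain `R[j]` and induce the Gauss valuation on `E(j)` (for `V₂`: `W j = j_M` is again a polar
integral series).  By `S28.CoreData M k` (row S28, on main) there are `n` integral monomials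
`y_i` spanning `F_M` over `E(j)` whose reductions are linearly independent over `k(j̄)`.
Hence `[F_M : E(j)] ≤ n ≤ f(V₁ / Gauss)`, and the fundamental inequality
(`H48.GaussPairLe.card`, via `eq_of_gauss_indep`) leaves no room for a second extension:
`V₂ = V₁`.
-/

set_option autoImplicit false
set_option synthInstance.maxHeartbeats 400000
set_option maxHeartbeats 1600000
set_option linter.unusedSectionVars false
set_option linter.style.haveILetI false

noncomputable section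

namespace Fermat.Agent.A2.Mod.H872

open ModularCurve HahnSeries Polynomial Fermat.Agent.A2.H708 Fermat.Agent.A2.H48
open Fermat.Agent.S28 (CoreData jField intDivisorExpansions)
open Fermat.Agent.S37 (H700.evalJ)

variable (P : ValuationSubring _root_.Fermat.Agent.A2.Mod.Qb) (E : IntermediateField ℚ _root_.Fermat.Agent.A2.Mod.Qb) (M : ℕ) [NeZero M]

/-- Evaluation `R_E[X] → F_M`, `X ↦ x`, as a ring homomorphism (`= Mod.ev`). -/
def phiJ (x : _root_.Fermat.Agent.A2.Mod.FE E M) : Polynomial (_root_.Fermat.Agent.A2.Mod.RE P E) →+* _root_.Fermat.Agent.A2.Mod.FE E M :=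
  Polynomial.eval₂RingHom ((algebraMap E (_root_.Fermat.Agent.A2.Mod.FE E M)).comp (_root_.Fermat.Agent.A2.Mod.RE P E).subtype) x

theorem phiJ_apply (x : _root_.Fermat.Agent.A2.Mod.FE E M) (p : Polynomial (_root_.Fermat.Agent.A2.Mod.RE P E)) :
    phiJ P E M x p = ev P E M x p := rfl

theorem phiJ_C (x : _root_.Fermat.Agent.A2.Mod.FE E M) (r : _root_.Fermat.Agent.A2.Mod.RE P E) :
    phiJ P E M x (Polynomial.C r) = algebraMap E (_root_.Fermat.Agent.A2.Mod.FE E M) (r : E) := by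
  unfold phiJ
  rw [Polynomial.coe_eval₂RingHom, Polynomial.eval₂_C]
  rfl

/-- the series of `j_d` -/
theorem coe_jE (d : ℕ) [NeZero d] (hd : d ∣ M) :
    ((jE E M d hd : _root_.Fermat.Agent.A2.Mod.FE E M) : LaurentSeries E) = qExpand E d (jqModC E) :=
  coeffEmb_qExpand_jq d

theorem coe_phiJ (d : ℕ) [NeZero d] (hd : d ∣ M) (p : Polynomial (_root_.Fermat.Agent.A2.Mod.RE P E)) :
    ((phiJ P E M (jE E M d hd) p : _root_.Fermat.Agent.A2.Mod.FE E M) : LaurentSeries E) =
      incl (_root_.Fermat.Agent.A2.Mod.RE P E) (polyJ (_root_.Fermat.Agent.A2.Mod.RE P E) d p) :=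
  coe_eval₂_eq_incl_polyJ (_root_.Fermat.Agent.A2.Mod.RE P E) (_root_.Fermat.Agent.A2.Mod.FE E M) d (coe_jE E M d hd) p

variable {P E M}

theorem phiJ_mem {V : ValuationSubring (_root_.Fermat.Agent.A2.Mod.FE E M)} (hV : IsVinf P E M V)
    (d : ℕ) [NeZero d] (hd : d ∣ M) (p : Polynomial (_root_.Fermat.Agent.A2.Mod.RE P E)) :
    phiJ P E M (jE E M d hd) p ∈ V :=
  mem_of_incl hV (coe_phiJ P E M d hd p)

theorem phiJ_inv_mem [IsDiscreteValuationRing (_root_.Fermat.Agent.A2.Mod.RE P E)] {V : ValuationSubring (_root_.Fermat.Agent.A2.Mod.FE E M)}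
    (hV : IsVinf P E M V) {w : _root_.Fermat.Agent.A2.Mod.RE P E} (hw : Irreducible w)
    (d : ℕ) [NeZero d] (hd : d ∣ M) {p : Polynomial (_root_.Fermat.Agent.A2.Mod.RE P E)} (hp : ¬ Polynomial.C w ∣ p) :
    (phiJ P E M (jE E M d hd) p)⁻¹ ∈ V :=
  inv_mem_of_incl hV (coe_phiJ P E M d hd p)
    (red_polyJ_ne_zero (_root_.Fermat.Agent.A2.Mod.RE P E) d (map_residue_ne_zero_of_not_C_dvd (_root_.Fermat.Agent.A2.Mod.RE P E) hw hp))

theorem phiJ_injective (d : ℕ) [NeZero d] (hd : d ∣ M) :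
    Function.Injective (phiJ P E M (jE E M d hd)) := by
  rw [injective_iff_map_eq_zero]
  intro p hp
  have h1 : ((phiJ P E M (jE E M d hd) p : _root_.Fermat.Agent.A2.Mod.FE E M) : LaurentSeries E) = 0 := by
    rw [hp]; rfl
  rw [coe_phiJ] at h1
  exact (polyJ_eq_zero_iff (_root_.Fermat.Agent.A2.Mod.RE P E) d p).mp h1

/-- `W` commutes with evaluation of polynomials with constant coefficients. -/
theorem map_phiJ (W : _root_.Fermat.Agent.A2.Mod.FE E M ≃ₐ[E] _root_.Fermat.Agent.A2.Mod.FE E M) (x : _root_.Fermat.Agent.A2.Mod.FE E M) (p : Polynomial (_root_.Fermat.Agent.A2.Mod.RE P E)) :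
    W (phiJ P E M x p) = phiJ P E M (W x) p := by
  unfold phiJ
  rw [Polynomial.coe_eval₂RingHom, Polynomial.coe_eval₂RingHom]
  have := Polynomial.hom_eval₂ p ((algebraMap E (_root_.Fermat.Agent.A2.Mod.FE E M)).comp (_root_.Fermat.Agent.A2.Mod.RE P E).subtype)
    (W : _root_.Fermat.Agent.A2.Mod.FE E M →+* _root_.Fermat.Agent.A2.Mod.FE E M) x
  rw [show (W : _root_.Fermat.Agent.A2.Mod.FE E M →+* _root_.Fermat.Agent.A2.Mod.FE E M) (Polynomial.eval₂ _ x p) = W (Polynomial.eval₂ _ x p) from rfl]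
    at this
  rw [this]
  congr 1
  ext r : 1
  show W (algebraMap E (_root_.Fermat.Agent.A2.Mod.FE E M) (r : E)) = algebraMap E (_root_.Fermat.Agent.A2.Mod.FE E M) (r : E)
  exact W.commutes _

theorem liesOverPrime_RE {q : ℕ} (hq : q.Prime) (hP : P.LiesOverPrime q) :
    (_root_.Fermat.Agent.A2.Mod.RE P E).LiesOverPrime q := by
  have h1 : ((q : ℕ) : _root_.Fermat.Agent.A2.Mod.Qb) ∈ P.nonunits := hP
  rw [ValuationSubring.mem_nonunits_iff_or] at h1
  have hq0 : ((q : ℕ) : _root_.Fermat.Agent.A2.Mod.Qb) ≠ 0 := by exact_mod_cast hq.ne_zero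
  have h2 : ((q : ℕ) : _root_.Fermat.Agent.A2.Mod.Qb)⁻¹ ∉ P := h1.resolve_left hq0
  show ((q : ℕ) : E) ∈ (_root_.Fermat.Agent.A2.Mod.RE P E).nonunits
  rw [ValuationSubring.mem_nonunits_iff_or]
  right
  intro h3
  apply h2
  have h4 : algebraMap E _root_.Fermat.Agent.A2.Mod.Qb (((q : ℕ) : E)⁻¹) ∈ P := h3
  rwa [map_inv₀, _root_.map_natCast] at h4

/-- The integral monomials of `S28.CoreData` as elements of `F_M`. -/
def bE {n : ℕ} (y : Fin n → LaurentSeries ℤ)
    (hy_mem : ∀ i, y i ∈ Subring.closure (intDivisorExpansions M)) (i : Fin n) : _root_.Fermat.Agent.A2.Mod.FE E M :=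
  ⟨coeffMap (Int.castRingHom E) (y i), by
    rw [← Fermat.Agent.S37.H700.coeffEmb_intCast E (y i)]
    refine coeffEmb_mem_laurentBaseChange E ?_
    rw [← modularFunctionFieldFullC_rat]
    exact Fermat.Agent.S37.H700.coeffMap_intCast_mem_fullC ℚ M (hy_mem i)⟩

theorem coe_bE {n : ℕ} (y : Fin n → LaurentSeries ℤ)
    (hy_mem : ∀ i, y i ∈ Subring.closure (intDivisorExpansions M)) (i : Fin n) :
    ((bE (E := E) y hy_mem i : _root_.Fermat.Agent.A2.Mod.FE E M) : LaurentSeries E) =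
      incl (_root_.Fermat.Agent.A2.Mod.RE P E) (coeffMap (Int.castRingHom (_root_.Fermat.Agent.A2.Mod.RE P E)) (y i)) := by
  show coeffMap (Int.castRingHom E) (y i) = _
  rw [incl, coeffMap_coeffMap]
  exact coeffMap_congr (RingHom.ext_int _ _) (y i)

theorem red_intCast (y : LaurentSeries ℤ) :
    red (_root_.Fermat.Agent.A2.Mod.RE P E) (coeffMap (Int.castRingHom (_root_.Fermat.Agent.A2.Mod.RE P E)) y) =
      coeffMap (Int.castRingHom (IsLocalRing.ResidueField (_root_.Fermat.Agent.A2.Mod.RE P E))) y := by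
  rw [red, coeffMap_coeffMap]
  exact coeffMap_congr (RingHom.ext_int _ _) y

/-- residues of the monomials are independent over `k[j̄]` (polynomial form). -/
theorem bE_indep [IsDiscreteValuationRing (_root_.Fermat.Agent.A2.Mod.RE P E)] {V : ValuationSubring (_root_.Fermat.Agent.A2.Mod.FE E M)}
    (hV : IsVinf P E M V) {w : _root_.Fermat.Agent.A2.Mod.RE P E} (hw : Irreducible w)
    {n : ℕ} (y : Fin n → LaurentSeries ℤ)
    (hy_mem : ∀ i, y i ∈ Subring.closure (intDivisorExpansions M))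
    (hy_ind : LinearIndependent (jField (IsLocalRing.ResidueField (_root_.Fermat.Agent.A2.Mod.RE P E)))
      (fun i => coeffMap (Int.castRingHom (IsLocalRing.ResidueField (_root_.Fermat.Agent.A2.Mod.RE P E))) (y i)))
    (a : Fin n → Polynomial (_root_.Fermat.Agent.A2.Mod.RE P E))
    (ha : (∑ i, phiJ P E M (jE E M 1 (one_dvd M)) (a i) * bE (E := E) y hy_mem i) *
      (algebraMap E (_root_.Fermat.Agent.A2.Mod.FE E M) (w : E))⁻¹ ∈ V) (i : Fin n) : Polynomial.C w ∣ a i := by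
  classical
  set U : LaurentSeries (_root_.Fermat.Agent.A2.Mod.RE P E) :=
    ∑ i, polyJ (_root_.Fermat.Agent.A2.Mod.RE P E) 1 (a i) * coeffMap (Int.castRingHom (_root_.Fermat.Agent.A2.Mod.RE P E)) (y i) with hU
  have hcoe : ((∑ i, phiJ P E M (jE E M 1 (one_dvd M)) (a i) * bE (E := E) y hy_mem i :
      _root_.Fermat.Agent.A2.Mod.FE E M) : LaurentSeries E) = incl (_root_.Fermat.Agent.A2.Mod.RE P E) U := by
    rw [hU, _root_.map_sum]
    have h1 : ((∑ i, phiJ P E M (jE E M 1 (one_dvd M)) (a i) * bE (E := E) y hy_mem i :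
        _root_.Fermat.Agent.A2.Mod.FE E M) : LaurentSeries E) =
        ∑ i, (((phiJ P E M (jE E M 1 (one_dvd M)) (a i) * bE (E := E) y hy_mem i : _root_.Fermat.Agent.A2.Mod.FE E M)) :
          LaurentSeries E) := _root_.map_sum (_root_.Fermat.Agent.A2.Mod.FE E M).val _ _
    rw [h1]
    refine Finset.sum_congr rfl fun i _ => ?_
    rw [_root_.map_mul, ← coe_phiJ P E M 1 (one_dvd M), ← coe_bE (P := P) y hy_mem i]
    rfl
  have hw0 : ((w : _root_.Fermat.Agent.A2.Mod.RE P E) : E) ≠ 0 := fun h => hw.ne_zero (Subtype.ext h)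
  have hwres : IsLocalRing.residue (_root_.Fermat.Agent.A2.Mod.RE P E) w = 0 := by
    rw [IsLocalRing.residue_eq_zero_iff, IsLocalRing.mem_maximalIdeal, mem_nonunits_iff]
    exact hw.not_isUnit
  have hred : red (_root_.Fermat.Agent.A2.Mod.RE P E) U = 0 := red_eq_zero_of_mul_inv_mem hV hcoe hw0 hwres ha
  have hred' : ∑ i, H700.evalJ (IsLocalRing.ResidueField (_root_.Fermat.Agent.A2.Mod.RE P E))
      ((a i).map (IsLocalRing.residue (_root_.Fermat.Agent.A2.Mod.RE P E))) *
        coeffMap (Int.castRingHom (IsLocalRing.ResidueField (_root_.Fermat.Agent.A2.Mod.RE P E))) (y i) = 0 := by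
    rw [← hred, hU, _root_.map_sum]
    refine Finset.sum_congr rfl fun i _ => ?_
    rw [_root_.map_mul, red_polyJ, qExpand_one_apply, red_intCast]
  have hall := Fermat.Agent.S37.H700.eq_zero_of_sum_evalJ_eq_zero _ hy_ind _ hred'
  exact C_dvd_of_map_residue_eq_zero (_root_.Fermat.Agent.A2.Mod.RE P E) hw (hall i)

/-- the monomials span `F_M` over `E(j)` (denominator form over `R_E[j]`). -/
theorem bE_span {n : ℕ} (y : Fin n → LaurentSeries ℤ)
    (hy_mem : ∀ i, y i ∈ Subring.closure (intDivisorExpansions M))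
    (hy_span : ∀ x ∈ modularFunctionFieldFull M,
      x ∈ Submodule.span (jField ℚ) (Set.range fun i => coeffMap (Int.castRingHom ℚ) (y i)))
    (f : _root_.Fermat.Agent.A2.Mod.FE E M) :
    ∃ (Q : Polynomial (_root_.Fermat.Agent.A2.Mod.RE P E)) (Pl : Fin n → Polynomial (_root_.Fermat.Agent.A2.Mod.RE P E)), Q ≠ 0 ∧
      phiJ P E M (jE E M 1 (one_dvd M)) Q * f =
        ∑ i, phiJ P E M (jE E M 1 (one_dvd M)) (Pl i) * bE (E := E) y hy_mem i := by
  classical
  obtain ⟨Q₀, P₀, hQ₀, h₀⟩ := Fermat.Agent.S37.H700.exists_denominator E y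
    (Fermat.Agent.S37.H700.mem_spanL_of_mem_baseChange E y M hy_mem hy_span f.2)
  obtain ⟨c, hc, P', hP', -⟩ := Fermat.Agent.S37.H700.normalize_family (_root_.Fermat.Agent.A2.Mod.RE P E)
    (fun o : Option (Fin n) => o.elim Q₀ P₀) ⟨none, hQ₀⟩
  have hQ' : (P' none).map (_root_.Fermat.Agent.A2.Mod.RE P E).subtype = Polynomial.C c * Q₀ := hP' none
  have hPi : ∀ i, (P' (some i)).map (_root_.Fermat.Agent.A2.Mod.RE P E).subtype = Polynomial.C c * P₀ i :=
    fun i => hP' (some i)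
  refine ⟨P' none, fun i => P' (some i), ?_, ?_⟩
  · intro h0
    rw [h0, Polynomial.map_zero] at hQ'
    rcases mul_eq_zero.mp hQ'.symm with h1 | h1
    · exact hc (Polynomial.C_eq_zero.mp h1)
    · exact hQ₀ h1
  · apply Subtype.ext
    have h1 : ((∑ i, phiJ P E M (jE E M 1 (one_dvd M)) (P' (some i)) * bE (E := E) y hy_mem i :
        _root_.Fermat.Agent.A2.Mod.FE E M) : LaurentSeries E) =
        ∑ i, (((phiJ P E M (jE E M 1 (one_dvd M)) (P' (some i)) * bE (E := E) y hy_mem i :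
          _root_.Fermat.Agent.A2.Mod.FE E M)) : LaurentSeries E) := _root_.map_sum (_root_.Fermat.Agent.A2.Mod.FE E M).val _ _
    rw [h1]
    show ((phiJ P E M (jE E M 1 (one_dvd M)) (P' none) : _root_.Fermat.Agent.A2.Mod.FE E M) : LaurentSeries E) *
      (f : LaurentSeries E) = _
    rw [coe_phiJ, incl_polyJ, qExpand_one_apply, hQ', Fermat.Agent.S37.H700.evalJ_mul,
      mul_assoc, h₀, Finset.mul_sum]
    refine Finset.sum_congr rfl fun i _ => ?_
    show _ = ((phiJ P E M (jE E M 1 (one_dvd M)) (P' (some i)) : _root_.Fermat.Agent.A2.Mod.FE E M) : LaurentSeries E) *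
      ((bE (E := E) y hy_mem i : _root_.Fermat.Agent.A2.Mod.FE E M) : LaurentSeries E)
    rw [coe_phiJ, incl_polyJ, qExpand_one_apply, hPi, Fermat.Agent.S37.H700.evalJ_mul,
      mul_assoc]
    rfl

/-- `w` generates the maximal ideal of `V∞ ∘ W`. -/
theorem isUnif_comap {V : ValuationSubring (_root_.Fermat.Agent.A2.Mod.FE E M)} (W : _root_.Fermat.Agent.A2.Mod.FE E M ≃ₐ[E] _root_.Fermat.Agent.A2.Mod.FE E M) {c : E}
    (h : IsUnif V (algebraMap E (_root_.Fermat.Agent.A2.Mod.FE E M) c)) :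
    IsUnif (V.comap (W : _root_.Fermat.Agent.A2.Mod.FE E M →+* _root_.Fermat.Agent.A2.Mod.FE E M)) (algebraMap E (_root_.Fermat.Agent.A2.Mod.FE E M) c) := by
  have hWc : W (algebraMap E (_root_.Fermat.Agent.A2.Mod.FE E M) c) = algebraMap E (_root_.Fermat.Agent.A2.Mod.FE E M) c := W.commutes c
  refine ⟨?_, ?_, ?_⟩
  · rw [ValuationSubring.mem_comap]
    show W (algebraMap E (_root_.Fermat.Agent.A2.Mod.FE E M) c) ∈ V
    rw [hWc]; exact h.mem
  · rw [ValuationSubring.mem_comap]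
    show ¬ W ((algebraMap E (_root_.Fermat.Agent.A2.Mod.FE E M) c)⁻¹) ∈ V
    rw [map_inv₀, hWc]; exact h.inv_not_mem
  · intro f hf hfinv
    rw [ValuationSubring.mem_comap] at hf hfinv ⊢
    have hf' : W f ∈ V := hf
    have hfinv' : (W f)⁻¹ ∉ V := by
      intro h1
      apply hfinv
      show W f⁻¹ ∈ V
      rw [map_inv₀]; exact h1
    have := h.gen (W f) hf' hfinv'
    show W (f * (algebraMap E (_root_.Fermat.Agent.A2.Mod.FE E M) c)⁻¹) ∈ V
    rw [_root_.map_mul, map_inv₀, hWc]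
    exact this

/-- **Leaf L7 of A2/MOD** (exact statement of `Mod.FrickeStableStatement`): at level `M` prime
to `q` the Fricke involution preserves the Gauss valuation ring `V∞`. -/
theorem frickeStable (P : ValuationSubring _root_.Fermat.Agent.A2.Mod.Qb) (E : IntermediateField ℚ _root_.Fermat.Agent.A2.Mod.Qb) (M q : ℕ)
    [NeZero M] [NeZero q] (w : _root_.Fermat.Agent.A2.Mod.RE P E) : FrickeStableStatement P E M q w := by
  intro hS V W hV hW
  haveI : IsDiscreteValuationRing (_root_.Fermat.Agent.A2.Mod.RE P E) := hS.dvr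
  haveI : Fact q.Prime := ⟨hS.q_prime⟩
  have hw : Irreducible w := hS.unif
  haveI : CharP (IsLocalRing.ResidueField (_root_.Fermat.Agent.A2.Mod.RE P E)) q :=
    Fermat.Agent.S18.H516.charP_residue (_root_.Fermat.Agent.A2.Mod.RE P E) (liesOverPrime_RE hS.q_prime hS.lies_over)
  have hcore : CoreData M (IsLocalRing.ResidueField (_root_.Fermat.Agent.A2.Mod.RE P E)) :=
    Fermat.Agent.S18.H516.coreData_of_charP M q hS.q_not_dvd _
  obtain ⟨n, y, hy_mem, hy_span, hy_ind⟩ := hcore.exists_basis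
  -- the generators
  have hWj : W (jE E M 1 (one_dvd M)) = jE E M M dvd_rfl :=
    hW.1 1 M (one_dvd M) dvd_rfl (one_mul M)
  -- the algebra structure `R_E[X] → F_M`, `X ↦ j`
  letI : Algebra (Polynomial (_root_.Fermat.Agent.A2.Mod.RE P E)) (_root_.Fermat.Agent.A2.Mod.FE E M) :=
    (phiJ P E M (jE E M 1 (one_dvd M))).toAlgebra
  haveI : FaithfulSMul (Polynomial (_root_.Fermat.Agent.A2.Mod.RE P E)) (_root_.Fermat.Agent.A2.Mod.FE E M) :=
    (faithfulSMul_iff_algebraMap_injective _ _).mpr (phiJ_injective 1 (one_dvd M))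
  have halg : ∀ p : Polynomial (_root_.Fermat.Agent.A2.Mod.RE P E),
      algebraMap (Polynomial (_root_.Fermat.Agent.A2.Mod.RE P E)) (_root_.Fermat.Agent.A2.Mod.FE E M) p = phiJ P E M (jE E M 1 (one_dvd M)) p :=
    fun _ => rfl
  have hCw : algebraMap (Polynomial (_root_.Fermat.Agent.A2.Mod.RE P E)) (_root_.Fermat.Agent.A2.Mod.FE E M) (Polynomial.C w) =
      algebraMap E (_root_.Fermat.Agent.A2.Mod.FE E M) (w : E) := by
    rw [halg, phiJ_C]
  have hunif : IsUnif V (algebraMap E (_root_.Fermat.Agent.A2.Mod.FE E M) (w : E)) :=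
    isUnif_of_isGauss hV (intGen_full M) hw
  have key : V = V.comap (W : _root_.Fermat.Agent.A2.Mod.FE E M →+* _root_.Fermat.Agent.A2.Mod.FE E M) := by
    refine eq_of_gauss_indep (R := _root_.Fermat.Agent.A2.Mod.RE P E) (ϖ := w)
      (b := bE (E := E) y hy_mem)
      (UniqueFactorizationMonoid.irreducible_iff_prime.mp hw) ?_ ?_ ?_ ?_ ?_ ?_ ?_ ?_ ?_
    · rw [hCw]; exact hunif
    · rw [hCw]; exact isUnif_comap W hunif
    · intro p
      rw [halg]
      exact phiJ_mem hV 1 (one_dvd M) p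
    · intro p
      rw [halg, ValuationSubring.mem_comap]
      show W (phiJ P E M (jE E M 1 (one_dvd M)) p) ∈ V
      rw [map_phiJ, hWj]
      exact phiJ_mem hV M dvd_rfl p
    · intro p hp
      rw [halg]
      exact phiJ_inv_mem hV hw 1 (one_dvd M) hp
    · intro p hp
      rw [halg, ValuationSubring.mem_comap]
      show W (phiJ P E M (jE E M 1 (one_dvd M)) p)⁻¹ ∈ V
      rw [map_inv₀, map_phiJ, hWj]
      exact phiJ_inv_mem hV hw M dvd_rfl hp
    · intro i
      exact mem_of_incl hV (coe_bE (P := P) y hy_mem i)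
    · intro a ha i
      rw [hCw] at ha
      exact bE_indep hV hw y hy_mem hy_ind a ha i
    · intro f
      exact bE_span y hy_mem hy_span f
  intro f hf
  have h1 : f ∈ V.comap (W : _root_.Fermat.Agent.A2.Mod.FE E M →+* _root_.Fermat.Agent.A2.Mod.FE E M) := key ▸ hf
  exact h1

end Fermat.Agent.A2.Mod.H872

end
end
-- ===== PACK-END A2/Mod/H872/FrickeStable.lean

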