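import Mathlib
import Fermat.Agent.Pack.S33.E17L1
import Fermat.Agent.Pack.S33.E14L3
import Fermat.Agent.Pack.S33.E14L1
import Fermat.Agent.Pack.S33.E17L0
import Fermat.Agent.Pack.S33.E16L2
import Fermat.Agent.Pack.S33.E0L0
import Fermat.Agent.Pack.S33.E0L1
import Fermat.Agent.Pack.S33.E13L1
import Fermat.Agent.Pack.S33.E4L2
import Fermat.Agent.Pack.S33.E14L0
import Fermat.Agent.Pack.S33.E2L2
import Fermat.Agent.Pack.S33.E17L2
import Fermat.Agent.Pack.S33.E2L3
import Fermat.Agent.Pack.S33.E13L2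
import Fermat.Agent.Pack.S33.E9L3
import Fermat.Agent.Pack.S33.E17L3
import Fermat.Agent.Pack.S33.E11L1
import Fermat.Agent.Pack.S33.E13L0
import Fermat.Agent.Pack.S33.E3L1
import Fermat.Agent.Pack.S33.E6L0
import Fermat.Agent.Pack.S33.E9L2
import Fermat.Agent.Pack.S33.E5L1

-- ===== PACK-BEGIN Lib/NormL/Key.lean
section


/-!
# `NormL`, block KEY: `N(P) * elemSum (A * P) - elemSum A` extends continuously to `[1, 2]`
-/

namespace Fermat.Agent.Lib.NormL

open NumberField Fermat.Agent.S14.H74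
open scoped nonZeroDivisors Classical

variable {K : Type*} [Field K] [NumberField K]

/-- The weight `χ(N x)`. -/
noncomputable def wt {m : ℕ} (χ : DirichletCharacter ℂ m) (x : 𝓞 K) : ℂ :=
  χ ((Algebra.norm ℤ x : ℤ) : ZMod m)

theorem wt_eq_of_sub_mem {m : ℕ} (χ : DirichletCharacter ℂ m) {x x' : 𝓞 K}
    (h : x - x' ∈ Ideal.span {(m : 𝓞 K)}) : wt χ x = wt χ x' := by
  unfold wt
  rw [norm_zmod_eq_of_sub_mem m h]

theorem norm_wt_le_one {m : ℕ} (χ : DirichletCharacter ℂ m) (x : 𝓞 K) : ‖wt χ x‖ ≤ 1 :=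
  DirichletCharacter.norm_le_one χ _

theorem summable_wt_mul_GS {m : ℕ} (χ : DirichletCharacter ℂ m) (ε : Bool) {s : ℝ}
    (hs : 1 < s) : Summable fun x : 𝓞 K ↦ wt χ x * ((GS K ε s x : ℝ) : ℂ) :=
  Summable.of_norm_bounded (summable_FS (K := K) hs) fun x ↦ by
    rw [norm_mul, Complex.norm_real, Real.norm_eq_abs]
    calc ‖wt χ x‖ * |GS K ε s x| ≤ 1 * FS K s x :=
          mul_le_mul (norm_wt_le_one χ x) (abs_GS_le ε s x) (abs_nonneg _) zero_le_one
      _ = FS K s x := one_mul _

theorem sup_span_natCast_eq_top {m : ℕ} {B : Ideal (𝓞 K)} (h : (Ideal.absNorm B).Coprime m) :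
    B ⊔ Ideal.span {(m : 𝓞 K)} = ⊤ := by
  rw [Ideal.eq_top_iff_one]
  have hc : IsCoprime ((Ideal.absNorm B : ℕ) : ℤ) (m : ℤ) := Nat.isCoprime_iff_coprime.mpr h
  obtain ⟨u, v, huv⟩ := hc
  have h1 : ((u * (Ideal.absNorm B : ℤ) + v * (m : ℤ) : ℤ) : 𝓞 K) = 1 := by
    rw [huv]
    simp
  rw [← h1]
  push_cast
  refine Submodule.add_mem_sup ?_ ?_
  · exact B.mul_mem_left _ (Ideal.absNorm_mem B)
  · exact Ideal.mul_mem_left _ _ (Ideal.subset_span rfl)

/-- **K2**: decomposition of `elemSum` along residues modulo `m`. -/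
theorem elemSum_eq_sum_residues {m : ℕ} (χ : DirichletCharacter ℂ m) (ε : Bool)
    (B Λ M : Ideal (𝓞 K)) (hM : M = Ideal.span {(m : 𝓞 K)}) [Fintype (𝓞 K ⧸ M)]
    (hB : B ⊔ M = ⊤) (h1 : Λ ≤ B) (h2 : Λ ≤ M) (h3 : B ⊓ M ≤ Λ) :
    ∃ r : (𝓞 K ⧸ M) → 𝓞 K, ∀ s : ℝ, 1 < s →
      elemSum K χ ε B s = ∑ ρ : 𝓞 K ⧸ M,
        wt χ (Quotient.out ρ) * ((∑' l : Λ, GS K ε s (r ρ + (l : 𝓞 K)) : ℝ) : ℂ) := by
  have hex0 : ∀ ρ : 𝓞 K ⧸ M, ∃ b : 𝓞 K, b ∈ B ∧ b - Quotient.out ρ ∈ M := by
    intro ρ
    have : Quotient.out ρ ∈ B ⊔ M := by rw [hB]; trivial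
    obtain ⟨b, hb, c, hc, hbc⟩ := Submodule.mem_sup.mp this
    refine ⟨b, hb, ?_⟩
    have : b - Quotient.out ρ = -c := by rw [← hbc]; ring
    rw [this]
    exact M.neg_mem hc
  choose r hrB hrM using hex0
  have hout : ∀ x : 𝓞 K, x - Quotient.out (Ideal.Quotient.mk M x) ∈ M := by
    intro x
    rw [← Ideal.Quotient.eq, Ideal.Quotient.mk_out]
  have hex : ∀ x ∈ B, ∃ ρ, x - r ρ ∈ Λ := by
    intro x hx
    refine ⟨Ideal.Quotient.mk M x, h3 ⟨B.sub_mem hx (hrB _), ?_⟩⟩
    have e : x - r (Ideal.Quotient.mk M x) =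
        (x - Quotient.out (Ideal.Quotient.mk M x)) -
          (r (Ideal.Quotient.mk M x) - Quotient.out (Ideal.Quotient.mk M x)) := by ring
    rw [e]
    exact M.sub_mem (hout x) (hrM _)
  have hinj : ∀ ρ ρ', r ρ - r ρ' ∈ Λ → ρ = ρ' := by
    intro ρ ρ' h
    have hm : Quotient.out ρ - Quotient.out ρ' ∈ M := by
      have e : Quotient.out ρ - Quotient.out ρ' =
          (r ρ - r ρ') - (r ρ - Quotient.out ρ) + (r ρ' - Quotient.out ρ') := by ring
      rw [e]
      exact M.add_mem (M.sub_mem (h2 h) (hrM ρ)) (hrM ρ')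
    rw [← Ideal.Quotient.eq, Ideal.Quotient.mk_out, Ideal.Quotient.mk_out] at hm
    exact hm
  refine ⟨r, fun s hs ↦ ?_⟩
  have hF := summable_wt_mul_GS (K := K) χ ε hs
  have hgen := tsum_ideal_eq_sum_cosets B Λ h1 r hrB hex hinj
    (fun x : 𝓞 K ↦ wt χ x * ((GS K ε s x : ℝ) : ℂ)) hF
  have e0 : elemSum K χ ε B s = ∑' x : B, wt χ (x : 𝓞 K) * ((GS K ε s (x : 𝓞 K) : ℝ) : ℂ) := rfl
  rw [e0, hgen]
  refine Finset.sum_congr rfl fun ρ _ ↦ ?_
  rw [Complex.ofReal_tsum, ← tsum_mul_left]
  refine tsum_congr fun l ↦ ?_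
  congr 1
  apply wt_eq_of_sub_mem
  have e : r ρ + (l : 𝓞 K) - Quotient.out ρ = (r ρ - Quotient.out ρ) + (l : 𝓞 K) := by ring
  rw [e, ← hM]
  exact M.add_mem (hrM ρ) (h2 l.2)

/-- **KEY**: for nonzero ideals `A`, `P` of norm coprime to `m`, the function
`N(P) * elemSum (A * P) - elemSum A` extends continuously to `[1, 2]`. -/
theorem exists_continuousOn_elemSum_sub (K : Type*) [Field K] [NumberField K]
    {m : ℕ} [NeZero m] (χ : DirichletCharacter ℂ m)
    (ε : Bool) (A P : (Ideal (𝓞 K))⁰)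
    (hA : (Ideal.absNorm (A : Ideal (𝓞 K))).Coprime m)
    (hP : (Ideal.absNorm (P : Ideal (𝓞 K))).Coprime m) :
    ∃ Δ : ℝ → ℂ, ContinuousOn Δ (Set.Icc 1 2) ∧ ∀ s : ℝ, 1 < s → s ≤ 2 →
      (Ideal.absNorm (P : Ideal (𝓞 K)) : ℂ) *
          elemSum K χ ε ((A : Ideal (𝓞 K)) * (P : Ideal (𝓞 K))) s -
        elemSum K χ ε (A : Ideal (𝓞 K)) s = Δ s := by
  set M : Ideal (𝓞 K) := Ideal.span {(m : 𝓞 K)} with hM
  have hm0 : (m : 𝓞 K) ≠ 0 := Nat.cast_ne_zero.mpr (NeZero.ne m)
  have hM0 : M ≠ ⊥ := by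
    rw [hM, Ne, Ideal.span_singleton_eq_bot]
    exact hm0
  have hA0 : (A : Ideal (𝓞 K)) ≠ ⊥ := nonZeroDivisors.coe_ne_zero A
  have hP0 : (P : Ideal (𝓞 K)) ≠ ⊥ := nonZeroDivisors.coe_ne_zero P
  have : Finite (𝓞 K ⧸ M) := Ideal.finiteQuotientOfFreeOfNeBot _ hM0
  let _ : Fintype (𝓞 K ⧸ M) := Fintype.ofFinite _
  have hAM : (A : Ideal (𝓞 K)) ⊔ M = ⊤ := sup_span_natCast_eq_top hA
  have hAPM : (A : Ideal (𝓞 K)) * (P : Ideal (𝓞 K)) ⊔ M = ⊤ := by
    apply sup_span_natCast_eq_top
    rw [map_mul]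
    exact Nat.Coprime.mul_left hA hP
  set Λ : Ideal (𝓞 K) := (A : Ideal (𝓞 K)) * M with hΛ
  have hΛ0 : Λ ≠ ⊥ := mul_ne_zero hA0 hM0
  have hΛP : Λ * (P : Ideal (𝓞 K)) = (A : Ideal (𝓞 K)) * (P : Ideal (𝓞 K)) * M := by
    rw [hΛ]
    ring
  obtain ⟨r, hr⟩ := elemSum_eq_sum_residues χ ε (A : Ideal (𝓞 K)) Λ M hM hAM Ideal.mul_le_left
    Ideal.mul_le_right (by
      rw [← Ideal.mul_eq_inf_of_isCoprime ((Ideal.isCoprime_iff_sup_eq).mpr hAM)])
  obtain ⟨r', hr'⟩ := elemSum_eq_sum_residues χ ε ((A : Ideal (𝓞 K)) * (P : Ideal (𝓞 K)))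
    (Λ * (P : Ideal (𝓞 K))) M hM hAPM (by rw [hΛP]; exact Ideal.mul_le_left)
    (by rw [hΛP]; exact Ideal.mul_le_right) (by
      rw [hΛP, ← Ideal.mul_eq_inf_of_isCoprime ((Ideal.isCoprime_iff_sup_eq).mpr hAPM)])
  choose D hDc hD using fun ρ : 𝓞 K ⧸ M ↦
    exists_continuousOn_index_sub (K := K) ε Λ (P : Ideal (𝓞 K)) hΛ0 hP0 (r ρ) (r' ρ)
  refine ⟨fun s ↦ ∑ ρ : 𝓞 K ⧸ M, wt χ (Quotient.out ρ) * ((D ρ s : ℝ) : ℂ), ?_,
    fun s hs1 hs2 ↦ ?_⟩
  · refine continuousOn_finsetSum _ fun ρ _ ↦ ?_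
    exact continuousOn_const.mul (Complex.continuous_ofReal.comp_continuousOn (hDc ρ))
  · rw [hr s hs1, hr' s hs1, Finset.mul_sum, ← Finset.sum_sub_distrib]
    refine Finset.sum_congr rfl fun ρ _ ↦ ?_
    rw [← hD ρ s hs1 hs2]
    push_cast
    ring

end Fermat.Agent.Lib.NormL

end
-- ===== PACK-END Lib/NormL/Key.lean

-- ===== PACK-BEGIN S29/H882/MeroMain.lean
section




/-!
# S29 / MERO (helper882), part 3: good functions have `q`-expansions in the function field

Main result `qexpFun_mem_FC`: for `f` holomorphic on `ℍ`, `Γ₀(N)`-invariant, with all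
`SL₂(ℤ)`-translates of at most exponential growth at `i∞` (i.e. `f ∈ S24.H648.goodRing N`), the
`q`-expansion of `f` lies in `laurentBaseChange ℂ (modularFunctionFieldFull N)`, the function field
of `X₀(N)` over `ℂ` of the Prelude.

Proof: the field `MC N` generated by all such `q`-expansions has degree `≤ [SL₂(ℤ):Γ₀(N)]` over
`ℂ(j)` (conjugate product, landed S24), and contains `FC N`, which has degree `≥ [SL₂(ℤ):Γ₀(N)]`
(landed S24 over `ℚ̄`, transported to `ℂ` by descent of relations).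
-/

set_option autoImplicit false

noncomputable section

open UpperHalfPlane ModularGroup CongruenceSubgroup Polynomial ModularCurve IntermediateField
open scoped MatrixGroups Manifold Modular Real

namespace Fermat.Agent.S29.H882

open Fermat.Agent.S24 Fermat.Agent.S24.H648 Fermat.Agent.S24.H708 Fermat.Agent.S24.Deg457

section BaseChange

variable {K L : Type*} [Field K] [Algebra ℚ K] [Field L] [Algebra ℚ L]

/-- `coeffMap ι` maps the function field over `K` into the function field over `L`. -/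
theorem coeffMap_mem_laurentBaseChange_of_mem (ι : K →+* L)
    (F₀ : IntermediateField ℚ (LaurentSeries ℚ)) {x : LaurentSeries K}
    (hx : x ∈ laurentBaseChange K F₀) : coeffMap ι x ∈ laurentBaseChange L F₀ := by
  rw [mem_laurentBaseChange_iff] at hx
  induction hx using Subfield.closure_induction with
  | mem y hy =>
      rcases hy with ⟨a, rfl⟩ | ⟨z, hz, rfl⟩
      · rw [coeffMap_algebraMap']
        exact (laurentBaseChange L F₀).algebraMap_mem _
      · rw [coeffMap_coeffEmb']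
        exact coeffEmb_mem_laurentBaseChange L hz
  | one => simp
  | add x y _ _ hx hy => simpa using _root_.AddMemClass.add_mem hx hy
  | neg x _ hx => simpa using _root_.NegMemClass.neg_mem hx
  | inv x _ hx => simpa using _root_.InvMemClass.inv_mem hx
  | mul x y _ _ hx hy => simpa using _root_.MulMemClass.mul_mem hx hy

end BaseChange

variable (N : ℕ) [NeZero N]

/-- The function field of `X₀(N)` over `ℂ` (Prelude object). -/
abbrev FC : IntermediateField ℂ (LaurentSeries ℂ) :=
  laurentBaseChange ℂ (modularFunctionFieldFull N)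

/-- The field generated by the `q`-expansions of good functions. -/
def MC : IntermediateField ℂ (LaurentSeries ℂ) :=
  IntermediateField.adjoin ℂ (goodQ N : Set (LaurentSeries ℂ))

theorem goodQ_le_MC {b : LaurentSeries ℂ} (hb : b ∈ goodQ N) : b ∈ MC N :=
  IntermediateField.subset_adjoin ℂ _ hb

theorem JK_mem_FC : JK ℂ ∈ FC N :=
  coeffEmb_mem_laurentBaseChange ℂ (modularFunctionField_le_full N (jq_mem N))

theorem FC_le_MC : FC N ≤ MC N := by
  refine (laurentBaseChange_full_le (K := ℂ) N).trans ?_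
  refine IntermediateField.adjoin.mono ℂ _ _ ?_
  intro b hb
  exact AK_le_goodQ N (Algebra.subset_adjoin hb)

/-- `j` as an element of `MC N`. -/
def jM : MC N := ⟨JK ℂ, goodQ_le_MC N (JK_mem_goodQ N)⟩

theorem aeval_jM_ne_zero {t : ℂ[X]} (ht : t ≠ 0) :
    aeval (AdjoinSimple.gen ℂ (jM N)) t ≠ 0 := by
  intro h0
  apply aeval_JK_ne_zero ℂ ht
  have h1 := congrArg (algebraMap ↥(IntermediateField.adjoin ℂ {jM N}) (MC N)) h0
  rw [← aeval_algebraMap_apply, _root_.map_zero, AdjoinSimple.algebraMap_gen] at h1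
  have h2 := congrArg (algebraMap (MC N) (LaurentSeries ℂ)) h1
  rw [← aeval_algebraMap_apply, _root_.map_zero] at h2
  exact h2

theorem algebraMap_comp_aeval_jM :
    (algebraMap (MC N) (LaurentSeries ℂ)).comp
      ((aeval (jM N) : ℂ[X] →ₐ[ℂ] MC N).toRingHom) = evJ (JK ℂ) := by
  refine Polynomial.ringHom_ext ?_ ?_
  · intro c
    simp [evJ, ← IsScalarTower.algebraMap_apply]
  · simp [evJ]
    rfl

/-- **Degree bound**: `[MC N : ℂ(j)] ≤ [SL₂(ℤ) : Γ₀(N)]`. -/
theorem finiteDimensional_and_finrank_le_MC :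
    FiniteDimensional ↥(IntermediateField.adjoin ℂ {jM N}) (MC N) ∧
      Module.finrank ↥(IntermediateField.adjoin ℂ {jM N}) (MC N) ≤ Nat.card (XX N) := by
  refine finiteDimensional_and_finrank_le_of_forall_natDegree_minpoly_le _ fun x => ?_
  obtain ⟨Q, hQ0, hQn, hQ⟩ := algDeg_of_mem_adjoin (goodQ N) (JK_mem_goodQ N)
    (fun b hb => algDeg_of_mem_goodQ hb) x.2
  have hinc : Function.Injective (algebraMap (MC N) (LaurentSeries ℂ)) :=
    (algebraMap (MC N) (LaurentSeries ℂ)).injective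
  refine isIntegral_and_natDegree_le_of_relation (K := ℂ)
    (AdjoinSimple.gen ℂ (jM N)) (fun t ht => aeval_jM_ne_zero N ht) x Q hQ0 _ hQn ?_
  apply hinc
  rw [_root_.map_zero, Polynomial.hom_eval₂, AdjoinSimple.algebraMap_gen, algebraMap_comp_aeval_jM]
  exact hQ

end Fermat.Agent.S29.H882

end
end
-- ===== PACK-END S29/H882/MeroMain.lean

-- ===== PACK-BEGIN Lib/RR/H804/Modular.lean
section




/-!
# RR library, bridge: `FF1` for the function field of `X₀(N)` over `ℚ̄`  (helper804)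

Inputs: the modular package of S24 (`j` is transcendental and `F` is finite over `ℚ̄(j)`).
-/

set_option autoImplicit false

noncomputable section

open AlgebraicCurve IntermediateField ModularCurve

namespace Fermat.Agent.Lib.RR.H804

open Fermat.Agent.S24

variable (N : ℕ) [NeZero N]

/-- `j` is transcendental over `ℚ̄` in the function field of `X₀(N)`. -/
theorem transcendental_jF : Transcendental Kbar (jF N) := by
  obtain ⟨P⟩ := nonempty_modularPackage N
  exact transcendental_of_localData_inv (jF N) P.dataInf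

/-- The function field of `X₀(N)` is finite over `ℚ̄(j)`. -/
theorem finiteDimensional_jF : FiniteDimensional Kbar⟮jF N⟯ (FF N) :=
  (nonempty_modularPackage N).some.finiteDimensional

/-- `[ℚ̄(X₀(N)) : ℚ̄(j)] = [SL₂(ℤ) : Γ₀(N)]`. -/
theorem finrank_jF : Module.finrank Kbar⟮jF N⟯ (FF N) = Nat.card (XX N) :=
  (nonempty_modularPackage N).some.finrank_eq

/-- **Bridge**: the standing hypotheses of the RR library hold for `ℚ̄(X₀(N))`. -/
instance ff1_modular : FF1 (AlgebraicClosure ℚ) ↥(modularFunctionFieldBar N) :=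
  haveI := finiteDimensional_jF N
  ff1 (transcendental_jF N)

/-- Principal divisors of `ℚ̄(X₀(N))` exist and have degree zero. -/
instance hasPrincipalDivisors_modular :
    HasPrincipalDivisors (AlgebraicClosure ℚ) ↥(modularFunctionFieldBar N) :=
  haveI := finiteDimensional_jF N
  hasPrincipalDivisors (transcendental_jF N)

/-- Every place of `ℚ̄(X₀(N))` has degree one. -/
theorem deg_eq_one_modular (v : Place (AlgebraicClosure ℚ) ↥(modularFunctionFieldBar N)) :
    v.deg = 1 :=
  haveI := finiteDimensional_jF N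
  FF.deg_eq_one v (transcendental_jF N)

/-- Residue fields of places of `ℚ̄(X₀(N))` are finite over `ℚ̄`. -/
instance finite_residueField_modular
    (v : Place (AlgebraicClosure ℚ) ↥(modularFunctionFieldBar N)) :
    Module.Finite (AlgebraicClosure ℚ) v.ResidueField :=
  haveI := finiteDimensional_jF N
  finite_residueField (transcendental_jF N) v

end Fermat.Agent.Lib.RR.H804

end
end
-- ===== PACK-END Lib/RR/H804/Modular.lean

-- ===== PACK-BEGIN S29/H332/Growth.lean
section




/-!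
# S29 / M4b / K1 → K2 bridge: `holN N` ⊆ exponential growth, and `h ^ p ∈ goodRing N`

* `expGrowth_of_infExp` : a convergent Laurent expansion in `exp(2πiτ/N)` gives the S24 `ExpGrowth`
  bound on all of `im τ ≥ 1`;
* `mem_goodRing_of_mem_holN` : a `Γ₀(N)`-invariant element of the S24 ring `holN N` lies in the S24
  ring `goodRing N` (the input of helper882's MERO);
* `kummerFun_pow_mem_goodRing`, `hasQExp_kummerFun_pow`.
-/

set_option autoImplicit false

noncomputable section

open UpperHalfPlane HahnSeries ModularCurve Complex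
open scoped Real MatrixGroups Manifold

namespace Fermat.Agent.S29.H332

open Fermat.Agent.S24 Fermat.Agent.S24.H997 Fermat.Agent.S24.H624 Fermat.Agent.S24.H648

variable {N : ℕ} [NeZero N]

omit [NeZero N] in
theorem norm_infZ_eq (τ : ℍ) : ‖infZ N τ‖ = Real.exp (-2 * π * τ.im / N) := by
  rw [infZ, Function.Periodic.norm_qParam]
  rfl

/-- A convergent power series in `z = exp (2πiτ/N)` is bounded on `‖z‖ ≤ r` for every `r < 1`. -/
theorem exists_bound_of_infPExp_of_lt {g : ℍ → ℂ} {ψ : PowerSeries ℂ} (h : InfPExp N g ψ)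
    {r : ℝ} (hr0 : 0 < r) (hr1 : r < 1) :
    ∃ C : ℝ, ∀ τ : ℍ, ‖infZ N τ‖ ≤ r → ‖g τ‖ ≤ C := by
  obtain ⟨ρ, hrρ, hρ1⟩ : ∃ ρ, r < ρ ∧ ρ < 1 := exists_between hr1
  have hρ0 : 0 < ρ := hr0.trans hrρ
  obtain ⟨τ₀, hτ₀⟩ := exists_infZ_eq N (z := ((ρ : ℝ) : ℂ))
    (by exact_mod_cast hρ0.ne')
    (by rw [Complex.norm_real, Real.norm_eq_abs, abs_of_pos hρ0]; exact hρ1)
  have h0 := h τ₀
  rw [hτ₀] at h0
  have hterm := h0.summable.tendsto_atTop_zero
  obtain ⟨B, hB⟩ := (Metric.isBounded_range_of_tendsto _ hterm).exists_norm_le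
  have hB' : ∀ n : ℕ, ‖PowerSeries.coeff n ψ‖ * ρ ^ n ≤ B := by
    intro n
    have := hB _ ⟨n, rfl⟩
    rwa [_root_.norm_mul, _root_.norm_pow, Complex.norm_real, Real.norm_eq_abs, abs_of_pos hρ0] at this
  have hB0 : 0 ≤ B := le_trans (by positivity) (hB' 0)
  have hq0 : 0 ≤ r / ρ := by positivity
  have hq1 : r / ρ < 1 := (div_lt_one hρ0).mpr hrρ
  refine ⟨B * (1 - r / ρ)⁻¹, fun τ hτ => ?_⟩
  have hgeo : HasSum (fun n : ℕ => B * (r / ρ) ^ n) (B * (1 - r / ρ)⁻¹) :=
    (hasSum_geometric_of_lt_one hq0 hq1).mul_left B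
  rw [← (h τ).tsum_eq]
  refine tsum_of_norm_bounded hgeo fun n => ?_
  rw [_root_.norm_mul, _root_.norm_pow]
  have h1 : ‖infZ N τ‖ ^ n ≤ r ^ n := pow_le_pow_left₀ (_root_.norm_nonneg _) hτ n
  calc ‖PowerSeries.coeff n ψ‖ * ‖infZ N τ‖ ^ n
      ≤ ‖PowerSeries.coeff n ψ‖ * r ^ n :=
        mul_le_mul_of_nonneg_left h1 (_root_.norm_nonneg _)
    _ = (‖PowerSeries.coeff n ψ‖ * ρ ^ n) * (r / ρ) ^ n := by
        have e : ρ * (r / ρ) = r := by field_simp
        rw [mul_assoc, ← mul_pow, e]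
    _ ≤ B * (r / ρ) ^ n := mul_le_mul_of_nonneg_right (hB' n) (by positivity)

/-- A function with a convergent Laurent expansion in `exp (2πiτ/N)` satisfies the S24
`ExpGrowth` bound (on all of `im τ ≥ 1`). -/
theorem expGrowth_of_infExp {f : ℍ → ℂ} {φ : LaurentSeries ℂ} (h : InfExp N f φ) :
    ExpGrowth f := by
  have hN : (0 : ℝ) < N := by exact_mod_cast Nat.pos_of_ne_zero (NeZero.ne N)
  have hN1 : (1 : ℝ) ≤ N := by exact_mod_cast Nat.one_le_iff_ne_zero.mpr (NeZero.ne N)
  set r : ℝ := Real.exp (-2 * π / N) with hr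
  have hr0 : 0 < r := Real.exp_pos _
  have hr1 : r < 1 := by
    rw [hr, Real.exp_lt_one_iff]
    have : 0 < 2 * π / N := by positivity
    have e : -2 * π / N = -(2 * π / N) := by ring
    rw [e]
    linarith
  obtain ⟨C, hC⟩ := exists_bound_of_infPExp_of_lt h.powerSeriesPart hr0 hr1
  refine ⟨C, (-φ.order).toNat, fun τ hτ => ?_⟩
  have hz0 : infZ N τ ≠ 0 := infZ_ne_zero N τ
  have hzpos : 0 < ‖infZ N τ‖ := norm_pos_iff.mpr hz0
  have hzle : ‖infZ N τ‖ ≤ r := by
    rw [norm_infZ_eq, hr]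
    apply Real.exp_le_exp.mpr
    have hpi := Real.pi_pos
    rw [div_le_div_iff_of_pos_right hN]
    nlinarith
  have hg := hC τ hzle
  rw [_root_.norm_mul, _root_.norm_zpow] at hg
  have hf : ‖f τ‖ = ‖infZ N τ‖ ^ φ.order * (‖infZ N τ‖ ^ (-φ.order) * ‖f τ‖) := by
    rw [← mul_assoc, ← zpow_add₀ hzpos.ne', add_neg_cancel, zpow_zero, one_mul]
  have hC0 : 0 ≤ C := le_trans (by positivity) hg
  have hpow : ‖infZ N τ‖ ^ φ.order ≤ Real.exp (2 * π * ((-φ.order).toNat : ℕ) * τ.im) := by
    have hz1 : ‖infZ N τ‖ ≤ 1 := hzle.trans hr1.le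
    have hle : -(((-φ.order).toNat : ℕ) : ℤ) ≤ φ.order := by
      have := Int.self_le_toNat (-φ.order)
      omega
    have h1 : ‖infZ N τ‖ ^ φ.order ≤ ‖infZ N τ‖ ^ (-(((-φ.order).toNat : ℕ) : ℤ)) :=
      zpow_le_zpow_right_of_le_one₀ hzpos hz1 hle
    refine h1.trans ?_
    rw [zpow_neg, zpow_natCast, ← inv_pow, norm_infZ_eq, ← Real.exp_neg, ← Real.exp_nat_mul]
    apply Real.exp_le_exp.mpr
    have him : 0 < τ.im := τ.im_pos
    have hm0 : (0 : ℝ) ≤ ((-φ.order).toNat : ℕ) := Nat.cast_nonneg _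
    have hq : 2 * π * τ.im / N ≤ 2 * π * τ.im := by
      rw [div_le_iff₀ hN]
      have : 0 < 2 * π * τ.im := by positivity
      nlinarith
    have : -(-2 * π * τ.im / N) = 2 * π * τ.im / N := by ring
    rw [this]
    calc (((-φ.order).toNat : ℕ) : ℝ) * (2 * π * τ.im / N)
        ≤ (((-φ.order).toNat : ℕ) : ℝ) * (2 * π * τ.im) :=
          mul_le_mul_of_nonneg_left hq hm0
      _ = 2 * π * ((-φ.order).toNat : ℕ) * τ.im := by ring
  rw [hf]
  calc ‖infZ N τ‖ ^ φ.order * (‖infZ N τ‖ ^ (-φ.order) * ‖f τ‖)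
      ≤ Real.exp (2 * π * ((-φ.order).toNat : ℕ) * τ.im) * C :=
        mul_le_mul hpow hg (by positivity) (Real.exp_pos _).le
    _ = C * Real.exp (2 * π * ((-φ.order).toNat : ℕ) * τ.im) := mul_comm _ _

/-- A `Γ₀(N)`-invariant element of `holN N` lies in `goodRing N`. -/
theorem mem_goodRing_of_mem_holN {f : ℍ → ℂ} (hf : f ∈ holN N)
    (hinv : ∀ γ ∈ CongruenceSubgroup.Gamma0 N, ∀ τ : ℍ, f (γ • τ) = f τ) :
    f ∈ goodRing N := by
  refine ⟨hf.1, hinv, fun g => ?_⟩
  obtain ⟨φ, hφ⟩ := hf.2 g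
  exact expGrowth_of_infExp hφ

/-- **K1 → MERO**: the `p`-th power of the Kummer function is a good function of level `N`. -/
theorem kummerFun_pow_mem_goodRing {χ : CongruenceSubgroup.Gamma0 N →* ℂˣ} (hχ : ParTrivial χ)
    (hnorm : ∀ γ, ‖(χ γ : ℂ)‖ = 1) {p : ℕ} (hp : ∀ γ, χ γ ^ p = 1) :
    kummerFun N χ ^ p ∈ goodRing N := by
  refine mem_goodRing_of_mem_holN (pow_mem (kummerFun_mem_holN hχ hnorm) p) ?_
  intro γ hγ τ
  exact (hasCharacter_kummerFun hχ).pow_invariant hp ⟨γ, hγ⟩ τ

/-- `InfExp` (S24 `Inf`) implies `HasQExp` (S24 `H708`) for holomorphic functions. -/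
theorem hasQExp_of_infExp {f : ℍ → ℂ} {φ : LaurentSeries ℂ} (hol : MDiff f)
    (h : InfExp N f φ) : Fermat.Agent.S24.H708.HasQExp N f φ :=
  Fermat.Agent.S24.H708.HasQExp.of_hasSum hol h

omit [NeZero N] in
/-- The `q`-expansion of the Kummer function (S24 `H708` form). -/
theorem hasQExp_kummerFun {χ : CongruenceSubgroup.Gamma0 N →* ℂˣ} (hχ : ParTrivial χ)
    (hnorm : ∀ γ, ‖(χ γ : ℂ)‖ = 1) :
    Fermat.Agent.S24.H708.HasQExp 1 (kummerFun N χ) (kummerExp N χ) :=
  hasQExp_of_infExp (mdiff_kummerFun hχ hnorm) (infExp_kummerFun hχ hnorm)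

omit [NeZero N] in
/-- The `q`-expansion of the `p`-th power of the Kummer function. -/
theorem hasQExp_kummerFun_pow {χ : CongruenceSubgroup.Gamma0 N →* ℂˣ} (hχ : ParTrivial χ)
    (hnorm : ∀ γ, ‖(χ γ : ℂ)‖ = 1) (p : ℕ) :
    Fermat.Agent.S24.H708.HasQExp 1 (kummerFun N χ ^ p) (kummerExp N χ ^ p) :=
  (hasQExp_kummerFun hχ hnorm).pow p

end Fermat.Agent.S29.H332

end
end
-- ===== PACK-END S29/H332/Growth.lean

-- ===== PACK-BEGIN S29/H389/Dict.lean
section





/-!
# S29 / layer M / BR — piece DICT (helper389)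

Places dictionary for the function field `FF N = ℚ̄(j(q^d) : d ∣ N)` of `X₀(N)`, on top of the
landed S24 library (`H997.analyticCore`, `H117` local theorem).

Main result `dvd_ord_of_analytic_pow` : let `r, t ∈ R_N = ℚ̄[j(q^d)]`, and let `h₁, h₂` be
functions in the S24 ring `Hol` with `e(r) · h₂ ^ p = c · h₁ ^ p · e(t)` (`e` the bridge
`R_N → Hol`), such that the quotient `h₁ / h₂` is invariant under every `δ ∈ Γ₀(N)` which has
finite order or trace `2`.  Then `p ∣ ord_v (r / t)` for EVERY place `v` of `FF N`.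

(Intended use: `h₁/h₂ = h·u` with `h` a twisted Eisenstein quotient of character `χ`, `χ` trivial
on elliptic and parabolic elements, and `u` a modular function; `r / t` the Kummer generator.)
-/

set_option autoImplicit false
set_option linter.style.haveILetI false

noncomputable section

open AlgebraicCurve HahnSeries ModularCurve
open scoped MatrixGroups

namespace Fermat.Agent.S29.H389

open Fermat.Agent.S24 Fermat.Agent.S24.H997

variable {N : ℕ} [NeZero N]

/-- Iterating the rotation data: precomposition with `ε ^ n`. -/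
theorem rot_iter (B : HolBase N) (X : Expansion B) (ε : SL(2, ℤ)) (R : RotData B X ε)
    (n : ℕ) (h : B.Hol) :
    (X.E (B.compH (ε ^ n) h)).order = (X.E h).order ∧
      (X.E (B.compH (ε ^ n) h)).leadingCoeff
        = (R.ζ ^ (X.E h).order) ^ n * (X.E h).leadingCoeff := by
  induction n with
  | zero => simp [B.compH_one]
  | succ n ih =>
    have hstep : B.compH (ε ^ (n + 1)) h = B.compH ε (B.compH (ε ^ n) h) := by
      rw [pow_succ, B.compH_mul]
    have hr := R.rot (B.compH (ε ^ n) h)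
    rw [hstep]
    refine ⟨by rw [hr.1, ih.1], ?_⟩
    rw [hr.2, ih.1, ih.2, pow_succ]
    ring


/-! ### Small facts on Laurent series over `ℂ` -/

theorem ls_order_mul {a b : LaurentSeries ℂ} (ha : a ≠ 0) (hb : b ≠ 0) :
    (a * b).order = a.order + b.order :=
  order_mul_of_ne_zero
    (mul_ne_zero (leadingCoeff_ne_zero.mpr ha) (leadingCoeff_ne_zero.mpr hb))

theorem ls_order_pow {a : LaurentSeries ℂ} (ha : a ≠ 0) (n : ℕ) :
    (a ^ n).order = n * a.order := by
  induction n with
  | zero => simp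
  | succ n ih =>
    rw [pow_succ, ls_order_mul (pow_ne_zero n ha) ha, ih]
    push_cast
    ring

theorem ls_order_C {c : ℂ} : (HahnSeries.C c : LaurentSeries ℂ).order = 0 := order_C

/-! ### "Nice" elements: finite order or trace `2` -/

/-- An element of `SL(2,ℤ)` of finite order, or of trace `2`. -/
def Nice (δ : SL(2, ℤ)) : Prop :=
  IsOfFinOrder δ ∨ (δ : Matrix (Fin 2) (Fin 2) ℤ).trace = 2

theorem Nice.conj {δ : SL(2, ℤ)} (h : Nice δ) (g : SL(2, ℤ)) : Nice (g⁻¹ * δ * g) := by
  rcases h with h | h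
  · left
    rw [isOfFinOrder_iff_pow_eq_one] at h ⊢
    obtain ⟨n, hn, hδ⟩ := h
    refine ⟨n, hn, ?_⟩
    have : (g⁻¹ * δ * g) ^ n = g⁻¹ * δ ^ n * g := by
      have := conj_pow (a := g⁻¹) (b := δ) (i := n)
      simpa using this
    rw [this, hδ]
    simp
  · right
    have h1 : ((g⁻¹ * δ * g : SL(2, ℤ)) : Matrix (Fin 2) (Fin 2) ℤ)
        = (g⁻¹ : SL(2, ℤ)).1 * δ.1 * g.1 := by
      simp
    rw [h1, Matrix.trace_mul_comm, ← mul_assoc]
    have h2 : g.1 * (g⁻¹ : SL(2, ℤ)).1 = 1 := by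
      rw [← Matrix.SpecialLinearGroup.coe_mul, mul_inv_cancel,
        Matrix.SpecialLinearGroup.coe_one]
    rw [h2, one_mul]
    exact h

/-! ### The local statement -/

/-- **DICT, local form.**  For the local data built from an expansion with rotation data,
an analytic `p`-th power relation whose root is invariant under nice elements of `Γ₀(N)`
forces `p ∣ ord_v` at every place over `t = 0`. -/
theorem dvd_ord_mkLocalData (B : HolBase N) (X : Expansion B) (ε : SL(2, ℤ))
    (R : RotData B X ε) (t : FF N) (u : LaurentSeries ℂ)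
    (ht : ∀ g : SL(2, ℤ), B.sigmaG X g t = u) (hu : u.order = (R.m : ℤ))
    [FiniteDimensional ↥(IntermediateField.adjoin Kbar {t}) (FF N)]
    (hrank : Module.finrank ↥(IntermediateField.adjoin Kbar {t}) (FF N) = Nat.card (XX N))
    (hε : ∀ n : ℕ, Nice (ε ^ n))
    (p : ℕ) (r s : RN N) (hr : r ≠ 0) (hs : s ≠ 0) (h₁ h₂ : B.Hol) (hh₁ : h₁ ≠ 0)
    (hh₂ : h₂ ≠ 0) (c : ℂ) (hc : c ≠ 0)
    (hrel : B.bridge r * h₂ ^ p = B.constH c * h₁ ^ p * B.bridge s)
    (hinv : ∀ δ : SL(2, ℤ), δ ∈ CongruenceSubgroup.Gamma0 N → Nice δ →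
      B.compH δ h₁ * h₂ = h₁ * B.compH δ h₂)
    (v : Place Kbar (FF N)) (hv : 0 < v.ord t) :
    (p : ℤ) ∣ v.ord (inclRN N r / inclRN N s) := by
  classical
  set L := B.mkLocalData X ε R t u ht hu with hL
  obtain ⟨x, hx⟩ :=
    H117.exists_placeOf_eq L (IntermediateField.adjoin Kbar {t}) le_rfl hrank v hv
  obtain ⟨g, rfl⟩ := QuotientGroup.mk_surjective x
  have hσ : L.σ (g : XX N) = B.sigmaG X g := B.sigmaX_mk X g
  -- translated functions
  set h₁' := B.compH g⁻¹ h₁ with hh₁'
  set h₂' := B.compH g⁻¹ h₂ with hh₂'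
  have hE₁ : X.E h₁' ≠ 0 := by
    intro h0
    apply hh₁
    apply B.compH_injective g⁻¹
    apply X.inj
    rw [h0, _root_.map_zero, _root_.map_zero]
  have hE₂ : X.E h₂' ≠ 0 := by
    intro h0
    apply hh₂
    apply B.compH_injective g⁻¹
    apply X.inj
    rw [h0, _root_.map_zero, _root_.map_zero]
  set k₁ := (X.E h₁').order with hk₁
  set k₂ := (X.E h₂').order with hk₂
  -- the relation, expanded
  have hrel' : B.sigmaG X g (inclRN N r) * (X.E h₂') ^ p
      = HahnSeries.C c * (X.E h₁') ^ p * B.sigmaG X g (inclRN N s) := by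
    rw [B.sigmaG_inclRN, B.sigmaG_inclRN]
    have := congrArg (fun z => X.E (B.compH g⁻¹ z)) hrel
    simp only [_root_.map_mul, map_pow, B.compH_constH, X.const] at this
    exact this
  have hr' : inclRN N r ≠ 0 := fun h => hr (inclRN_injective N (by rw [h, _root_.map_zero]))
  have hs' : inclRN N s ≠ 0 := fun h => hs (inclRN_injective N (by rw [h, _root_.map_zero]))
  have hσr : B.sigmaG X g (inclRN N r) ≠ 0 := (map_ne_zero _).mpr hr'
  have hσs : B.sigmaG X g (inclRN N s) ≠ 0 := (map_ne_zero _).mpr hs'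
  have hC : (HahnSeries.C c : LaurentSeries ℂ) ≠ 0 := by
    intro h0
    apply hc
    have := congrArg (fun z : LaurentSeries ℂ => z.coeff 0) h0
    simpa using this
  have hord : (B.sigmaG X g (inclRN N r / inclRN N s)).order = (p : ℤ) * (k₁ - k₂) := by
    have h1 := congrArg HahnSeries.order hrel'
    rw [ls_order_mul hσr (pow_ne_zero p hE₂), ls_order_pow hE₂,
      ls_order_mul (mul_ne_zero hC (pow_ne_zero p hE₁)) hσs,
      ls_order_mul hC (pow_ne_zero p hE₁), ls_order_pow hE₁, ls_order_C] at h1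
    rw [map_div₀, div_eq_mul_inv, ls_order_mul hσr (inv_ne_zero hσs),
      RotRel.order_inv' hσs]
    linarith
  -- multiplicity
  have hmult := H117.order_eq L (g : XX N) (inclRN N r / inclRN N s)
  rw [hσ, hord, hx] at hmult
  -- orbit length
  have hfin := H117.finite_places_over L (IntermediateField.adjoin Kbar {t}) le_rfl hrank
  have hS : ∀ w : Place Kbar (FF N), w ∈ hfin.toFinset ↔ 0 < w.ord t := fun w => by
    simp
  have hsum := H144.loc_fundamental_inequality L hfin.toFinset hS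
  obtain ⟨-, horb, -⟩ :=
    H117.localThm L (IntermediateField.adjoin Kbar {t}) le_rfl hrank hfin.toFinset hS hsum
  have hn := horb (g : XX N)
  rw [hx] at hn
  set n := Nat.card (MulAction.orbit (Subgroup.zpowers L.perm) (g : XX N)) with hn_def
  have hnpos : 0 < n := by
    have : (0 : ℤ) < n := by rw [hn]; exact hv
    exact_mod_cast this
  -- `perm ^ n` fixes `x`
  have hper : (L.perm ^ n) (g : XX N) = (g : XX N) := by
    letI : Fintype (MulAction.orbit (Subgroup.zpowers L.perm) (g : XX N)) :=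
      Fintype.ofFinite _
    have h1 : Function.minimalPeriod (L.perm • ·) (g : XX N) = n := by
      rw [MulAction.minimalPeriod_eq_card, hn_def, Nat.card_eq_fintype_card]
    have h2 := Function.isPeriodicPt_minimalPeriod (L.perm • ·) (g : XX N)
    rw [h1] at h2
    have h3 : ((L.perm • ·) : XX N → XX N) = ⇑L.perm := rfl
    rw [h3] at h2
    have h4 : (⇑L.perm)^[n] (g : XX N) = (g : XX N) := h2
    rw [Equiv.Perm.iterate_eq_pow] at h4
    exact h4
  -- the element `δ = g⁻¹ ε ^ n g` of `Γ₀(N)`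
  have hperm_pow : (L.perm ^ n) (g : XX N) = (((ε⁻¹) ^ n * g : SL(2, ℤ)) : XX N) := by
    have h1 : L.perm = permOf N ε⁻¹ := rfl
    rw [h1]
    have h2 : (permOf N ε⁻¹) ^ n = permOf N ((ε⁻¹) ^ n) := by
      unfold permOf
      exact (map_pow (MulAction.toPermHom SL(2, ℤ) (XX N)) ε⁻¹ n).symm
    rw [h2]
    rfl
  have hδmem : g⁻¹ * ε ^ n * g ∈ CongruenceSubgroup.Gamma0 N := by
    have h1 := hper
    rw [hperm_pow] at h1
    have h2 := QuotientGroup.eq.mp h1
    have h3 : ((ε⁻¹) ^ n * g)⁻¹ * g = g⁻¹ * ε ^ n * g := by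
      rw [mul_inv_rev, inv_pow, inv_inv]
    rwa [h3] at h2
  have hδnice : Nice (g⁻¹ * ε ^ n * g) := (hε n).conj g
  have hinv' := hinv _ hδmem hδnice
  -- transport by `g⁻¹`
  have hcomp : ∀ h : B.Hol, B.compH g⁻¹ (B.compH (g⁻¹ * ε ^ n * g) h)
      = B.compH (ε ^ n) (B.compH g⁻¹ h) := by
    intro h
    rw [← B.compH_mul, ← B.compH_mul]
    congr 1
    group
  have hrot : B.compH (ε ^ n) h₁' * h₂' = h₁' * B.compH (ε ^ n) h₂' := by
    have := congrArg (B.compH g⁻¹) hinv'
    rw [_root_.map_mul, _root_.map_mul, hcomp, hcomp] at this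
    exact this
  have hlc := congrArg (fun z => (X.E z).leadingCoeff) hrot
  simp only [_root_.map_mul, leadingCoeff_mul] at hlc
  rw [(rot_iter B X ε R n h₁').2, (rot_iter B X ε R n h₂').2] at hlc
  have hl₁ : (X.E h₁').leadingCoeff ≠ 0 := leadingCoeff_ne_zero.mpr hE₁
  have hl₂ : (X.E h₂').leadingCoeff ≠ 0 := leadingCoeff_ne_zero.mpr hE₂
  have hζ0 : R.ζ ≠ 0 := R.hζ.ne_zero R.m_pos.ne'
  have hζeq : (R.ζ ^ k₁) ^ n = (R.ζ ^ k₂) ^ n := by
    have h1 : (R.ζ ^ k₁) ^ n * ((X.E h₁').leadingCoeff * (X.E h₂').leadingCoeff)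
        = (R.ζ ^ k₂) ^ n * ((X.E h₁').leadingCoeff * (X.E h₂').leadingCoeff) := by
      linear_combination hlc
    exact mul_right_cancel₀ (mul_ne_zero hl₁ hl₂) h1
  have hζ1 : R.ζ ^ ((n : ℤ) * (k₁ - k₂)) = 1 := by
    have h1 : R.ζ ^ ((n : ℤ) * k₁) = R.ζ ^ ((n : ℤ) * k₂) := by
      rw [mul_comm (n : ℤ) k₁, mul_comm (n : ℤ) k₂, zpow_mul, zpow_mul, zpow_natCast,
        zpow_natCast]
      exact hζeq
    rw [mul_sub, zpow_sub₀ hζ0, h1]
    exact div_self (zpow_ne_zero _ hζ0)
  have hdvd : ((R.m : ℕ) : ℤ) ∣ (n : ℤ) * (k₁ - k₂) := (R.hζ.zpow_eq_one_iff_dvd _).mp hζ1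
  have hmm := H117.mult_mul_ord_t L (g : XX N)
  rw [hx, ← hn] at hmm
  have hLm : L.m = R.m := rfl
  rw [hLm] at hmm
  rw [← hmm] at hdvd
  have hn0 : (n : ℤ) ≠ 0 := by exact_mod_cast hnpos.ne'
  have hdvd' : (H117.mult L (g : XX N) : ℤ) ∣ (k₁ - k₂) := by
    rw [mul_comm] at hdvd
    exact (mul_dvd_mul_iff_left hn0).mp hdvd
  obtain ⟨q, hq⟩ := hdvd'
  refine ⟨q, ?_⟩
  have hm0 : (H117.mult L (g : XX N) : ℤ) ≠ 0 := by
    exact_mod_cast (H117.mult_pos L (g : XX N)).ne'
  rw [hq] at hmult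
  have : (H117.mult L (g : XX N) : ℤ) * ((p : ℤ) * q)
      = (H117.mult L (g : XX N) : ℤ) * v.ord (inclRN N r / inclRN N s) := by
    rw [← hmult]; ring
  exact (mul_left_cancel₀ hm0 this).symm


/-! ### Nice powers of the four rotation elements -/

theorem nice_pow_one (n : ℕ) : Nice ((1 : SL(2, ℤ)) ^ n) := by
  left
  rw [one_pow]
  exact IsOfFinOrder.one

theorem S_pow_four : ModularGroup.S ^ 4 = 1 := by
  apply Subtype.ext
  simp only [Matrix.SpecialLinearGroup.coe_pow, Matrix.SpecialLinearGroup.coe_one,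
    ModularGroup.coe_S]
  ext i j
  fin_cases i <;> fin_cases j <;> simp [pow_succ, Matrix.mul_apply, Fin.sum_univ_two]

theorem ST_pow_six : (ModularGroup.S * ModularGroup.T) ^ 6 = 1 := by
  apply Subtype.ext
  simp only [Matrix.SpecialLinearGroup.coe_pow, Matrix.SpecialLinearGroup.coe_mul,
    Matrix.SpecialLinearGroup.coe_one, ModularGroup.coe_S, ModularGroup.coe_T]
  ext i j
  fin_cases i <;> fin_cases j <;> simp [pow_succ, Matrix.mul_apply, Fin.sum_univ_two]

theorem nice_pow_S (n : ℕ) : Nice (ModularGroup.S ^ n) := by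
  left
  exact (isOfFinOrder_iff_pow_eq_one.mpr ⟨4, by norm_num, S_pow_four⟩).pow

theorem nice_pow_ST (n : ℕ) : Nice ((ModularGroup.S * ModularGroup.T) ^ n) := by
  left
  exact (isOfFinOrder_iff_pow_eq_one.mpr ⟨6, by norm_num, ST_pow_six⟩).pow

theorem nice_pow_T (n : ℕ) : Nice (ModularGroup.T ^ n) := by
  right
  have h := ModularGroup.coe_T_zpow (n : ℤ)
  rw [zpow_natCast] at h
  show (ModularGroup.T ^ n).1.trace = 2
  rw [h]
  simp [Matrix.trace_fin_two]

/-! ### The global statement -/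

/-- **DICT.**  Let `A` be an analytic core for level `N` (e.g. `S24.H997.analyticCore N`), let
`r, s ∈ R_N` be nonzero and `h₁, h₂ ∈ Hol` nonzero with `e(r) · h₂ ^ p = c · h₁ ^ p · e(s)`,
`c ≠ 0`, and suppose `h₁ / h₂` is invariant under every element of `Γ₀(N)` of finite order or of
trace `2`.  Then `p` divides the order of `r / s` at EVERY place of the function field `FF N`. -/
theorem dvd_ord_of_analytic_pow (A : AnalyticCore N) (p : ℕ) (r s : RN N) (hr : r ≠ 0)
    (hs : s ≠ 0) (h₁ h₂ : A.toHolBase.Hol) (hh₁ : h₁ ≠ 0) (hh₂ : h₂ ≠ 0) (c : ℂ) (hc : c ≠ 0)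
    (hrel : A.toHolBase.bridge r * h₂ ^ p
      = A.toHolBase.constH c * h₁ ^ p * A.toHolBase.bridge s)
    (hinv : ∀ δ : SL(2, ℤ), δ ∈ CongruenceSubgroup.Gamma0 N → Nice δ →
      A.toHolBase.compH δ h₁ * h₂ = h₁ * A.toHolBase.compH δ h₂)
    (v : Place Kbar (FF N)) :
    (p : ℤ) ∣ v.ord (inclRN N r / inclRN N s) := by
  classical
  obtain ⟨hfd, hle⟩ := Deg457.degree_fields N
  haveI := hfd
  have hrank : Module.finrank ↥(IntermediateField.adjoin Kbar {jF N}) (FF N)
      = Nat.card (XX N) := le_antisymm hle A.card_le_finrank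
  by_cases hj : 0 ≤ v.ord (jF N)
  · haveI : Algebra.IsAlgebraic ↥(IntermediateField.adjoin Kbar {jF N}) (FF N) :=
      Algebra.IsAlgebraic.of_finite _ _
    obtain ⟨a, ha⟩ := FF.exists_ord_sub_pos v (jF N) hj
    obtain ⟨hfd', hfr⟩ :=
      finiteDimensional_and_finrank_of_eq (adjoin_sub_algebraMap Kbar (jF N) a)
    haveI := hfd'
    have hr' := hfr.trans hrank
    have key : ∀ (ε : SL(2, ℤ)) (P : PointData A.toHolBase (ιK a) ε),
        (∀ n : ℕ, Nice (ε ^ n)) → (p : ℤ) ∣ v.ord (inclRN N r / inclRN N s) := fun ε P hε =>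
      dvd_ord_mkLocalData A.toHolBase P.X ε P.R _ _ (fun g => A.sigmaG_sub P g) P.order_J hr'
        hε p r s hr hs h₁ h₂ hh₁ hh₂ c hc hrel hinv v ha
    by_cases h0 : a = 0
    · exact key (ModularGroup.S * ModularGroup.T) (by rw [h0, _root_.map_zero]; exact A.at0)
        nice_pow_ST
    · by_cases h1 : a = 1728
      · refine key ModularGroup.S ?_ nice_pow_S
        have : ιK a = 1728 := by rw [h1]; exact map_ofNat ιK 1728
        rw [this]; exact A.at1728
      · exact key 1 (A.generic (ιK a)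
          (fun h => h0 (ιK_injective (by rw [h, _root_.map_zero])))
          (fun h => h1 (ιK_injective (by rw [h]; exact (map_ofNat ιK 1728).symm))))
          nice_pow_one
  · have hjinv : 0 < v.ord (jF N)⁻¹ := by
      rw [Place.ord_inv]
      omega
    obtain ⟨hfd', hfr⟩ := finiteDimensional_and_finrank_of_eq (adjoin_inv Kbar (jF N))
    haveI := hfd'
    have hr' := hfr.trans hrank
    exact dvd_ord_mkLocalData A.toHolBase A.toHolBase.qexpExpansion ModularGroup.T A.infRot
      (jF N)⁻¹ (A.qexp (A.toHolBase.JH 1 (one_dvd N)))⁻¹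
      (fun g => by rw [map_inv₀, HolBase.sigmaG_jF]; rfl)
      (by
        rw [RotRel.order_inv' A.toHolBase.qexp_J_one_ne_zero, A.toHolBase.order_qexp_J_one,
          neg_neg]
        rfl)
      hr' nice_pow_T p r s hr hs h₁ h₂ hh₁ hh₂ c hc hrel hinv v hjinv

end Fermat.Agent.S29.H389

end
end
-- ===== PACK-END S29/H389/Dict.lean

-- ===== PACK-BEGIN S18/H558/BranchJ.lean
section



/-!
# S18 / MOD M2 (part 1): char-0 ramification of `F_M / ℚ̄(j)` in Prelude `Place` language

From the landed S24 analytic core (`H997.analyticCore`, `H117` local theorem), for every level `N`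
(`FF N = modularFunctionFieldBar N`, `jF N` the `j`-function, `Kbar = ℚ̄`):

* `ord_j_sub_eq_one`   : `a ≠ 0`, `a ≠ 1728`, `0 < v.ord (j - a)` ⟹ `v.ord (j - a) = 1`;
* `ord_j_dvd_three`    : `0 < v.ord j` ⟹ `v.ord j ∣ 3`;
* `ord_j_sub_1728_dvd_two` : `0 < v.ord (j - 1728)` ⟹ `v.ord (j - 1728) ∣ 2`;
* `finrank_jF`         : `[FF N : ℚ̄(j)] = #(SL₂(ℤ)/Γ₀(N))`.
-/

set_option autoImplicit false

noncomputable section

open AlgebraicCurve ModularCurve
open scoped MatrixGroups

namespace Fermat.Agent.S18.H558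

open Fermat.Agent.S24

variable (N : ℕ) [NeZero N]

/-- `-1` acts trivially on `SL₂(ℤ) / Γ₀(N)`. -/
theorem permOf_neg_one : permOf N (-1 : SL(2, ℤ)) = 1 := by
  ext x
  obtain ⟨g, rfl⟩ := QuotientGroup.mk_surjective x
  show ((-1 : SL(2, ℤ)) • (g : XX N)) = (g : XX N)
  rw [MulAction.Quotient.smul_mk, smul_eq_mul]
  apply QuotientGroup.eq.mpr
  have hinv : ((-1 : SL(2, ℤ)))⁻¹ = -1 := by
    rw [inv_eq_iff_eq_inv, eq_comm, inv_eq_iff_mul_eq_one, neg_mul_neg, one_mul]
  have h : (-1 * g)⁻¹ * g = (-1 : SL(2, ℤ)) := by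
    rw [neg_one_mul, ← mul_neg_one, mul_inv_rev, mul_assoc, inv_mul_cancel, mul_one, hinv]
  rw [h, CongruenceSubgroup.Gamma0_mem]
  simp

omit [NeZero N] in
theorem permOf_mul (g h : SL(2, ℤ)) : permOf N (g * h) = permOf N g * permOf N h := by
  ext x
  simp [permOf, mul_smul]

theorem permOf_pow (g : SL(2, ℤ)) (n : ℕ) : permOf N (g ^ n) = permOf N g ^ n := by
  induction n with
  | zero => simp [H997.permOf_one]
  | succ n ih => rw [pow_succ, pow_succ, permOf_mul, ih]

theorem S_sq : ModularGroup.S ^ 2 = (-1 : SL(2, ℤ)) := by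
  apply Subtype.ext
  rw [pow_two, Matrix.SpecialLinearGroup.coe_mul, ModularGroup.coe_S,
    Matrix.SpecialLinearGroup.coe_neg, Matrix.SpecialLinearGroup.coe_one]
  ext i j
  fin_cases i <;> fin_cases j <;> simp [Matrix.mul_apply, Fin.sum_univ_two]

theorem ST_cube : (ModularGroup.S * ModularGroup.T) ^ 3 = (-1 : SL(2, ℤ)) := by
  apply Subtype.ext
  rw [pow_succ, pow_two, Matrix.SpecialLinearGroup.coe_mul, Matrix.SpecialLinearGroup.coe_mul,
    Matrix.SpecialLinearGroup.coe_mul, ModularGroup.coe_S, ModularGroup.coe_T,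
    Matrix.SpecialLinearGroup.coe_neg, Matrix.SpecialLinearGroup.coe_one]
  ext i j
  fin_cases i <;> fin_cases j <;> simp [Matrix.mul_apply, Fin.sum_univ_two]

theorem permOf_inv_pow_eq_one (g : SL(2, ℤ)) (n : ℕ) (hg : g ^ n = -1) :
    (permOf N g⁻¹) ^ n = 1 := by
  rw [H997.permOf_inv, inv_pow, ← permOf_pow, hg, permOf_neg_one, inv_one]

/-- The degree of `F_N` over `ℚ̄(j)`. -/
theorem finrank_jF :
    FiniteDimensional ↥(IntermediateField.adjoin Kbar {jF N}) (FF N) ∧
      Module.finrank ↥(IntermediateField.adjoin Kbar {jF N}) (FF N) = Nat.card (XX N) := by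
  obtain ⟨hfd, hle⟩ := Deg457.degree_fields N
  exact ⟨hfd, le_antisymm hle (H997.analyticCore N).card_le_finrank⟩

/-- Generic values of `j` are unramified. -/
theorem ord_j_sub_eq_one (a : Kbar) (h0 : a ≠ 0) (h1 : a ≠ 1728) (v : Place Kbar (FF N))
    (hv : 0 < v.ord (jF N - algebraMap Kbar (FF N) a)) :
    v.ord (jF N - algebraMap Kbar (FF N) a) = 1 := by
  obtain ⟨hfd, hrank⟩ := finrank_jF N
  obtain ⟨Z, -, -, -, h⟩ := local_fin (jF N) hrank a ((H997.analyticCore N).dataFin a)
  exact h ((H997.analyticCore N).dataFin_perm_generic a h0 h1) v hv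

/-- General divisibility: if the `n`-th power of the monodromy at `a` is trivial, every zero of
`j - a` has order dividing `n`. -/
theorem ord_j_sub_dvd (a : Kbar) (n : ℕ)
    (hperm : ((H997.analyticCore N).dataFin a).perm ^ n = 1) (v : Place Kbar (FF N))
    (hv : 0 < v.ord (jF N - algebraMap Kbar (FF N) a)) :
    v.ord (jF N - algebraMap Kbar (FF N) a) ∣ (n : ℤ) := by
  obtain ⟨hfd, hrank⟩ := finrank_jF N
  set L := (H997.analyticCore N).dataFin a with hL
  have hE : IntermediateField.adjoin Kbar {jF N} ≤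
      IntermediateField.adjoin Kbar {jF N - algebraMap Kbar (FF N) a} :=
    (adjoin_sub_algebraMap Kbar (jF N) a).ge
  obtain ⟨x, rfl⟩ := H117.exists_placeOf_eq L _ hE hrank v hv
  exact H117.ord_t_dvd_of_pow_apply_eq L x n (by rw [hperm]; rfl)

theorem dataFin_zero_perm_eq :
    ((H997.analyticCore N).dataFin 0).perm = permOf N (ModularGroup.S * ModularGroup.T)⁻¹ := by
  unfold H997.AnalyticCore.dataFin
  rw [dif_pos rfl]
  rfl

theorem dataFin_1728_perm_eq :
    ((H997.analyticCore N).dataFin 1728).perm = permOf N (ModularGroup.S)⁻¹ := by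
  have h0 : (1728 : Kbar) ≠ 0 := by norm_num
  unfold H997.AnalyticCore.dataFin
  rw [dif_neg h0, dif_pos rfl]
  rfl

/-- Zeros of `j` have order `1` or `3`. -/
theorem ord_j_dvd_three (v : Place Kbar (FF N)) (hv : 0 < v.ord (jF N)) :
    v.ord (jF N) ∣ 3 := by
  have h := ord_j_sub_dvd N 0 3
    (by rw [dataFin_zero_perm_eq]; exact permOf_inv_pow_eq_one N _ 3 ST_cube) v
    (by rwa [map_zero, sub_zero])
  rw [map_zero, sub_zero] at h
  exact_mod_cast h

/-- Zeros of `j - 1728` have order `1` or `2`. -/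
theorem ord_j_sub_1728_dvd_two (v : Place Kbar (FF N))
    (hv : 0 < v.ord (jF N - algebraMap Kbar (FF N) 1728)) :
    v.ord (jF N - algebraMap Kbar (FF N) 1728) ∣ 2 := by
  have h := ord_j_sub_dvd N 1728 2
    (by rw [dataFin_1728_perm_eq]; exact permOf_inv_pow_eq_one N _ 2 S_sq) v hv
  exact_mod_cast h

end Fermat.Agent.S18.H558

end
end
-- ===== PACK-END S18/H558/BranchJ.lean

-- ===== PACK-BEGIN S18/H383/FF1Modular.lean
section






/-!
# S18 / "FF1 instances" (helper383): the standing hypotheses `Lib.RR.FF1` of the shared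
Riemann–Roch library for the modular function fields in characteristic `ℓ`

Exact statements (sorry-free; from the characteristic-free bridge
`Fermat.Agent.Lib.RR.H383.ff1_of_finite` and MOD.1 of helper739):

* `ff1_fullC k N hchar : Lib.RR.FF1 k (modularFunctionFieldFullC k N)` for every algebraically
  closed field `k` in which the primes dividing `N` are invertible (any characteristic);
* `ff1_residue N ℓ hℓ hℓN A hA : Lib.RR.FF1 (A/𝔪) (modularFunctionFieldFullC (A/𝔪) N)` for a
  valuation subring `A` of `ℚ̄` over `ℓ ∤ N`;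
* `hasPrincipalDivisors_fullC`, `deg_eq_one_fullC`, `constStatement_fullC`, `t3Statement`;
* `hpdStatement : Sq05.HpdStatement` (the product formula, characteristic-free, frozen shape).
-/

set_option autoImplicit false

open AlgebraicCurve ModularCurve IntermediateField

namespace Fermat.Agent.S18.H383

open Fermat.Agent.Lib.RR

section Generic

/-- **HPD.k** in the frozen shape of `Sq05/Spec.lean`. -/
theorem hpdStatement : Fermat.Agent.S18.Sq05.HpdStatement := by
  intro K F _ _ _ _ x hx hfin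
  exact Fermat.Agent.Lib.RR.H383.hasPrincipalDivisors_of_finite hx

end Generic

section Modular

variable (k : Type*) [Field k] [IsAlgClosed k] (N : ℕ) [NeZero N]

/-- `FF1` for `k(j(q^d) : d ∣ N)` over an algebraically closed field `k` in which the primes
dividing `N` are invertible. -/
theorem ff1_fullC (hchar : ∀ p : ℕ, p.Prime → p ∣ N → (p : k) ≠ 0) :
    FF1 k (modularFunctionFieldFullC k N) := by
  have := Fermat.Agent.S18.H739.finiteDimensional_adjoin_jC k N hchar
  exact Fermat.Agent.Lib.RR.H383.ff1_of_finite (Fermat.Agent.S18.H739.transcendental_jC k N)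

theorem hasPrincipalDivisors_fullC (hchar : ∀ p : ℕ, p.Prime → p ∣ N → (p : k) ≠ 0) :
    HasPrincipalDivisors k (modularFunctionFieldFullC k N) :=
  (ff1_fullC k N hchar).hpd

theorem deg_eq_one_fullC (hchar : ∀ p : ℕ, p.Prime → p ∣ N → (p : k) ≠ 0)
    (v : Place k (modularFunctionFieldFullC k N)) : v.deg = 1 :=
  (ff1_fullC k N hchar).deg_eq_one v

/-- CONST_Fk: a modular function over `k` without zeros and poles is constant. -/
theorem constStatement_fullC (hchar : ∀ p : ℕ, p.Prime → p ∣ N → (p : k) ≠ 0) :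
    Fermat.Agent.S18.Sq05.ConstStatement k (modularFunctionFieldFullC k N) := by
  intro u _ hu
  have := Fermat.Agent.S18.H739.finiteDimensional_adjoin_jC k N hchar
  obtain ⟨c, hc⟩ := Fermat.Agent.Lib.RR.H383.eq_algebraMap_of_forall_ord_eq_zero
    (Fermat.Agent.S18.H739.transcendental_jC k N) hu
  exact ⟨c, hc.symm⟩

end Modular

section Residue

variable (N : ℕ) [NeZero N] (ℓ : ℕ)

set_option synthInstance.maxHeartbeats 400000 in
/-- `FF1` for the function field of `X₀(N)` over the residue field of a valuation subring of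
`ℚ̄` above `ℓ ∤ N`. -/
theorem ff1_residue (hℓ : ℓ.Prime) (hℓN : ¬ ℓ ∣ N) (A : ValuationSubring (AlgebraicClosure ℚ))
    (hA : A.LiesOverPrime ℓ) :
    FF1 (IsLocalRing.ResidueField A)
      (modularFunctionFieldFullC (IsLocalRing.ResidueField A) N) := by
  have := Fermat.Agent.S18.H9.resAlgClosed _ A
  refine ff1_fullC _ N fun p hp hpN =>
    Fermat.Agent.S18.H9.resChar _ A ℓ p hℓ hp hA ?_
  rintro rfl
  exact hℓN hpN

/-- **T3** in the frozen shape of `Sq05/Spec.lean`. -/
theorem t3Statement : Fermat.Agent.S18.Sq05.T3Statement := by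
  intro N _ ℓ hℓ hℓN A hA
  have := Fermat.Agent.S18.H9.resAlgClosed _ A
  refine constStatement_fullC _ N fun p hp hpN =>
    Fermat.Agent.S18.H9.resChar _ A ℓ p hℓ hp hA ?_
  rintro rfl
  exact hℓN hpN

end Residue

end Fermat.Agent.S18.H383

end
-- ===== PACK-END S18/H383/FF1Modular.lean

-- ===== PACK-BEGIN S18/H144/ConstF.lean
section



/-!
# S18 / T2 (CONST_F): a function without zeros and poles is constant (characteristic `0`)

* `constOfOrdZero_of_finite` : generic version, `K` algebraically closed of characteristic `0`,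
  `F / K(x)` finite for some transcendental `x`.
* `constOfOrdZero_modularFunctionFieldBar` : the instance `F = modularFunctionFieldBar N`,
  i.e. `H94.ConstOfOrdZero (AlgebraicClosure ℚ) (modularFunctionFieldBar N)` unfolded.
-/

set_option autoImplicit false

noncomputable section

open AlgebraicCurve IntermediateField ModularCurve

namespace Fermat.Agent.S18.H144

open Fermat.Agent.S24

/-- A nonconstant function has a zero; hence a function without zeros is constant. -/
theorem constOfOrdZero_of_finite {K F : Type*} [Field K] [Field F] [Algebra K F]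
    [IsAlgClosed K] [CharZero K] {x : F} (hx : Transcendental K x) [FiniteDimensional K⟮x⟯ F]
    (u : F) (hu : ∀ v : Place K F, v.ord u ≤ 0) : ∃ c : K, u = algebraMap K F c := by
  by_contra hcon
  have hnot : u ∉ (algebraMap K F).range := by
    rintro ⟨c, hc⟩
    exact hcon ⟨c, hc.symm⟩
  have htr : Transcendental K u := FF.transcendental_of_not_mem_range hnot
  have : FiniteDimensional K⟮u⟯ F := FF.finiteDimensional_adjoin_of_transcendental hx htr
  have hsum := FF.sum_ord_eq_finrank htr (∅ : Finset (Place K F))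
    (fun v => by
      simp only [Finset.notMem_empty, false_iff, not_lt]
      exact hu v)
  rw [Finset.sum_empty] at hsum
  have hpos : 0 < Module.finrank K⟮u⟯ F := Module.finrank_pos
  have : (0 : ℤ) < (Module.finrank K⟮u⟯ F : ℤ) := by exact_mod_cast hpos
  omega

/-- The `j`-function is transcendental over `ℚ̄`. -/
theorem transcendental_jF (N : ℕ) [NeZero N] : Transcendental Kbar (jF N) := by
  obtain ⟨P⟩ := nonempty_modularPackage N
  apply FF.transcendental_of_not_mem_range
  rintro ⟨c, hc⟩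
  have x : XX N := ((1 : Matrix.SpecialLinearGroup (Fin 2) ℤ) : XX N)
  have h1 := P.dataInf.σ_t_order x
  have h2 : (jF N)⁻¹ = algebraMap Kbar (FF N) c⁻¹ := by rw [map_inv₀, hc]
  have h3 : (P.dataInf.σ x (jF N)⁻¹).order = 0 := by
    have := P.dataInf.σ_const x c⁻¹
    rw [← h2] at this
    rw [this, HahnSeries.order_C]
  have := P.dataInf.m_pos
  omega

/-- **T2 (CONST_F).** In the function field of `X₀(N)` over `ℚ̄`, a function without zeros and
poles is constant. -/
theorem constOfOrdZero_modularFunctionFieldBar (N : ℕ) [NeZero N]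
    (u : modularFunctionFieldBar N) (_hu0 : u ≠ 0)
    (hu : ∀ v : Place (AlgebraicClosure ℚ) (modularFunctionFieldBar N), v.ord u = 0) :
    ∃ c : AlgebraicClosure ℚ, u = algebraMap (AlgebraicClosure ℚ) (modularFunctionFieldBar N) c := by
  obtain ⟨P⟩ := nonempty_modularPackage N
  have := P.finiteDimensional
  exact constOfOrdZero_of_finite (transcendental_jF N) u (fun v => (hu v).le)

end Fermat.Agent.S18.H144

end
end
-- ===== PACK-END S18/H144/ConstF.lean

-- ===== PACK-BEGIN S33/H855/TowerBase.lean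
section




/-!
# Row S33, leaf (S1⁺): the two modular inputs of the tower lemma (helper855)

* `inertiaAut A N` : the image of the inertia group of `A` in the semilinear automorphisms of
  `ℚ̄(X₀(N))`;
* `exists_const_of_ord_eq_zero` : a function without zeros and poles on `X₀(N)` is constant.
-/

set_option autoImplicit false
set_option linter.unusedSectionVars false

noncomputable section

namespace Fermat.Agent.S33.H855

open ModularCurve AlgebraicCurve

local notation "Q̄" => AlgebraicClosure ℚ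

/-- The image of the inertia group of `A` in the semilinear automorphisms of `ℚ̄(X₀(N))`. -/
def inertiaAut (A : ValuationSubring Q̄) (N : ℕ) [NeZero N] :
    Subgroup (SemilinearAut Q̄ ↥(modularFunctionFieldBar N)) :=
  (A.inertiaSubgroupIn ℚ).map (arithmeticGalois (modularFunctionFieldFull N))

/-- A function without zeros and poles on `X₀(N)` is constant. -/
theorem exists_const_of_ord_eq_zero (N : ℕ) [NeZero N] (u : ↥(modularFunctionFieldBar N))
    (hu : ∀ v : Place Q̄ ↥(modularFunctionFieldBar N), v.ord u = 0) :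
    ∃ c : Q̄, algebraMap Q̄ ↥(modularFunctionFieldBar N) c = u :=
  Fermat.Agent.Lib.RR.H383.eq_algebraMap_of_forall_ord_eq_zero
    (Fermat.Agent.Lib.FF398.transcendental_jF N) hu

end Fermat.Agent.S33.H855

end
end
-- ===== PACK-END S33/H855/TowerBase.lean

-- ===== PACK-BEGIN A2/Mod/H873/L13.lean
section



/-!
# A2 / MOD — leaf L13 `ChartCompatStatement` (helper873)

`x = j · j_q`.  Then `j, j_q` are integral over `R_E[x]` and `1/j, 1/j_q` are integral over
`R_E[1/x]`.

Proof (valuative criterion, `iInf_valuationSubring_superset`): let `V` be a valuation subring of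
`F_N` containing `x`.  If `j ∉ V` then `1/j ∈ V`, so `j_q = x / j ∈ V`; but `j` is integral over
`ℤ[j_q]` (`Φ_q(j, j_q) = 0`, `Φ_q` monic), hence `j ∈ V`.  Chart at infinity: if `1/x ∈ V` and
`1/j ∉ V` then `j ∈ V`, so `j_q ∈ V` (integral over `ℤ[j]`), and `1/j = j_q · (1/x) ∈ V`.
Only the monicity of `Φ_q` in the outer variable and the two vanishing properties of
`S28.ModPolyData` are used.

Main results:
* `chartCompat_of_modPolyData (D : S28.ModPolyData q) : ChartCompatStatement P E M q`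
* `chartCompat : ChartCompatStatement P E M q`   (exact frozen leaf of `Mod/Spec.lean`)
-/

set_option autoImplicit false
set_option synthInstance.maxHeartbeats 400000
set_option maxHeartbeats 1600000

noncomputable section

namespace Fermat.Agent.A2.Mod.H873

open ModularCurve HahnSeries Polynomial

/-! ## Abstract part (Mathlib only) -/

section Abstract

variable {K : Type*} [Field K]

/-- valuative criterion, one element: `a` lies in every valuation subring containing `x`
implies `a` is integral over `ℤ[x]`. -/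
theorem isIntegral_closure_of_forall_valuationSubring {x a : K}
    (h : ∀ V : ValuationSubring K, x ∈ V → a ∈ V) :
    IsIntegral (Subring.closure ({x} : Set K)) a := by
  have key := iInf_valuationSubring_superset (K := K) (s := ({x} : Set K))
  have hmem : a ∈ (integralClosure (Subring.closure ({x} : Set K)) K).toSubring := by
    rw [← key]
    rw [Subring.mem_iInf]
    rintro ⟨V, hV⟩
    exact h V (hV (Set.mem_singleton x))
  exact hmem

/-- an element integral over `ℤ[b]` lies in every valuation subring containing `b` -/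
theorem mem_valuationSubring_of_monic_eval {a b : K} (Φ : Polynomial (Polynomial ℤ))
    (hΦ : Φ.Monic) (h : Φ.eval₂ (Polynomial.aeval (R := ℤ) b).toRingHom a = 0)
    (V : ValuationSubring K) (hb : b ∈ V) : a ∈ V := by
  have hint : IsIntegral V a := by
    refine ⟨Φ.map (Polynomial.aeval (R := ℤ) (⟨b, hb⟩ : V)).toRingHom, hΦ.map _, ?_⟩
    rw [Polynomial.eval₂_map]
    rw [← h]
    congr 1
    apply Polynomial.ringHom_ext
    · intro n
      simp
    · simp
  have := IsIntegrallyClosed.isIntegral_iff (R := V) (K := K) |>.mp hint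
  obtain ⟨y, hy⟩ := this
  rw [← hy]
  exact y.2

/-- **core of L13, finite chart**: `Φ(X = a; Y = b) = 0`, `Φ` monic in `X` ⟹ `a` integral over
`ℤ[a b]`. -/
theorem isIntegral_closure_mul {a b : K} (Φ : Polynomial (Polynomial ℤ))
    (hΦ : Φ.Monic) (h : Φ.eval₂ (Polynomial.aeval (R := ℤ) b).toRingHom a = 0) :
    IsIntegral (Subring.closure ({a * b} : Set K)) a := by
  refine isIntegral_closure_of_forall_valuationSubring fun V hx => ?_
  by_contra ha
  have ha0 : a ≠ 0 := fun h0 => ha (h0 ▸ V.zero_mem)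
  have hinv : a⁻¹ ∈ V := (V.mem_or_inv_mem a).resolve_left ha
  have hb : b ∈ V := by
    have : b = a * b * a⁻¹ := by field_simp
    rw [this]
    exact V.mul_mem _ _ hx hinv
  exact ha (mem_valuationSubring_of_monic_eval Φ hΦ h V hb)

/-- **core of L13, chart at infinity**: `Φ(X = b; Y = a) = 0`, `Φ` monic in `X`, `b ≠ 0`
⟹ `a⁻¹` integral over `ℤ[(a b)⁻¹]`. -/
theorem isIntegral_closure_inv_mul {a b : K} (hb0 : b ≠ 0) (Φ : Polynomial (Polynomial ℤ))
    (hΦ : Φ.Monic) (h : Φ.eval₂ (Polynomial.aeval (R := ℤ) a).toRingHom b = 0) :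
    IsIntegral (Subring.closure ({(a * b)⁻¹} : Set K)) a⁻¹ := by
  refine isIntegral_closure_of_forall_valuationSubring fun V hx => ?_
  by_contra ha
  have ha0 : a ≠ 0 := fun h0 => ha (by rw [h0, inv_zero]; exact V.zero_mem)
  have haV : a ∈ V := by
    have := (V.mem_or_inv_mem a⁻¹).resolve_left ha
    rwa [inv_inv] at this
  have hb : b ∈ V := mem_valuationSubring_of_monic_eval Φ hΦ h V haV
  have : a⁻¹ = b * (a * b)⁻¹ := by field_simp
  exact ha (this ▸ V.mul_mem _ _ hb hx)

/-- from integrality over `ℤ[x]` to integrality along `R[X] → K`, `X ↦ x`. -/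
theorem isIntegralElem_of_isIntegral_closure {R : Type*} [CommRing R] (φ : R →+* K) {x a : K}
    (h : IsIntegral (Subring.closure ({x} : Set K)) a) :
    ∃ p : Polynomial (Polynomial R), p.Monic ∧ p.eval₂ (Polynomial.eval₂RingHom φ x) a = 0 := by
  obtain ⟨p, hp, hpa⟩ := h
  set ψ : Polynomial R →+* K := Polynomial.eval₂RingHom φ x with hψ
  have hle : Subring.closure ({x} : Set K) ≤ ψ.range := by
    rw [Subring.closure_le]
    rintro y hy
    rw [Set.mem_singleton_iff] at hy
    subst hy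
    exact ⟨Polynomial.X, by simp [hψ]⟩
  set incl : Subring.closure ({x} : Set K) →+* ψ.range := Subring.inclusion hle with hincl
  have hlift : p.map incl ∈ Polynomial.lifts ψ.rangeRestrict := by
    rw [Polynomial.lifts_iff_coeff_lifts]
    intro n
    exact ψ.rangeRestrict_surjective _
  obtain ⟨q, hq, -, hqm⟩ := Polynomial.lifts_and_natDegree_eq_and_monic hlift (hp.map incl)
  refine ⟨q, hqm, ?_⟩
  have h1 : q.eval₂ ψ a = (q.map ψ.rangeRestrict).eval₂ ψ.range.subtype a := by
    rw [Polynomial.eval₂_map]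
    rfl
  rw [h1, hq, Polynomial.eval₂_map]
  exact hpa

end Abstract

/-! ## Concrete part -/

section Concrete

variable (P : ValuationSubring _root_.Fermat.Agent.A2.Mod.Qb) (E : IntermediateField ℚ _root_.Fermat.Agent.A2.Mod.Qb) (M q : ℕ) [NeZero M] [NeZero q]

/-- the underlying series of `j_d` is `j(t^d)` over `E` -/
theorem coe_jE (N d : ℕ) [NeZero d] (hd : d ∣ N) :
    ((jE E N d hd : _root_.Fermat.Agent.A2.Mod.FE E N) : LaurentSeries E) = qExpand E d (jqModC E) := by
  show coeffEmb E (qExpand ℚ d jq) = _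
  rw [coeffEmb, coeffMap_qExpand, ← jqModC_rat, coeffMap_jqModC]

/-- the underlying series of `j_d` is the image of the integral series `j(t^d)` -/
theorem coe_jE_int (N d : ℕ) [NeZero d] (hd : d ∣ N) :
    ((jE E N d hd : _root_.Fermat.Agent.A2.Mod.FE E N) : LaurentSeries E) =
      coeffMap (Int.castRingHom E) (qExpand ℤ d (jqModC ℤ)) := by
  rw [coe_jE, coeffMap_qExpand, coeffMap_jqModC]

theorem coe_jE_one (N : ℕ) :
    ((jE E N 1 (one_dvd N) : _root_.Fermat.Agent.A2.Mod.FE E N) : LaurentSeries E) =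
      coeffMap (Int.castRingHom E) (jqModC ℤ) := by
  rw [coe_jE_int, qExpand_one_apply]

/-- evaluation of a two-variable integral polynomial commutes with the coercion
`F_N → E((t))` -/
theorem coe_eval₂_aeval (N : ℕ) (Φ : Polynomial (Polynomial ℤ)) (a b : _root_.Fermat.Agent.A2.Mod.FE E N) :
    ((Φ.eval₂ (Polynomial.aeval (R := ℤ) b).toRingHom a : _root_.Fermat.Agent.A2.Mod.FE E N) : LaurentSeries E) =
      Φ.eval₂ (Polynomial.aeval (R := ℤ) (b : LaurentSeries E)).toRingHom
        (a : LaurentSeries E) := by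
  have h := Polynomial.hom_eval₂ Φ (Polynomial.aeval (R := ℤ) b).toRingHom
    (_root_.Fermat.Agent.A2.Mod.FE E N).val.toRingHom a
  have hcomp : ((_root_.Fermat.Agent.A2.Mod.FE E N).val.toRingHom).comp (Polynomial.aeval (R := ℤ) b).toRingHom =
      (Polynomial.aeval (R := ℤ) (b : LaurentSeries E)).toRingHom := by
    apply Polynomial.ringHom_ext
    · intro n
      simp
    · simp
  rw [hcomp] at h
  exact h

/-- transfer of a vanishing statement from `ℤ((t))` to `F_N` -/
theorem eval₂_eq_zero_of_int (N : ℕ) (Φ : Polynomial (Polynomial ℤ)) (a b : _root_.Fermat.Agent.A2.Mod.FE E N)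
    (A B : LaurentSeries ℤ) (ha : (a : LaurentSeries E) = coeffMap (Int.castRingHom E) A)
    (hb : (b : LaurentSeries E) = coeffMap (Int.castRingHom E) B)
    (h : Φ.eval₂ (S28.evalAt B) A = 0) :
    Φ.eval₂ (Polynomial.aeval (R := ℤ) b).toRingHom a = 0 := by
  apply Subtype.ext
  rw [coe_eval₂_aeval, ha, hb]
  have h2 := Polynomial.hom_eval₂ Φ (S28.evalAt B) (coeffMap (Int.castRingHom E)) A
  have hcomp : (coeffMap (Int.castRingHom E)).comp (S28.evalAt B) =
      (Polynomial.aeval (R := ℤ) (coeffMap (Int.castRingHom E) B)).toRingHom := by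
    apply Polynomial.ringHom_ext
    · intro n
      simp [S28.evalAt]
    · simp [S28.evalAt]
  rw [hcomp, h, _root_.map_zero] at h2
  rw [← h2]
  rfl

theorem jE_ne_zero (N d : ℕ) [NeZero d] (hd : d ∣ N) : jE E N d hd ≠ 0 := by
  intro h
  have h1 : ((jE E N d hd : _root_.Fermat.Agent.A2.Mod.FE E N) : LaurentSeries E) = 0 := by rw [h]; rfl
  rw [coe_jE] at h1
  have h2 : jqModC E = 0 := by
    have hinj : Function.Injective (qExpand E d) := by
      intro x y hxy
      ext n
      have := congrArg (fun z => z.coeff ((d : ℤ) * n)) hxy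
      simpa [qExpand_coeff_mul] using this
    exact hinj (by rw [h1, _root_.map_zero])
  exact jqModC_ne_zero_of_nontrivial E h2

/-- **L13 from the modular polynomial.** -/
theorem chartCompat_of_modPolyData (D : S28.ModPolyData q) : ChartCompatStatement P E M q := by
  intro _
  -- the two vanishing statements in `F_N`
  have hj : D.Φ.eval₂ (Polynomial.aeval (R := ℤ)
      (jE E (M * q) q (dvd_mul_left q M))).toRingHom (jE E (M * q) 1 (one_dvd _)) = 0 :=
    eval₂_eq_zero_of_int E (M * q) D.Φ _ _ _ _ (coe_jE_one E (M * q))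
      (coe_jE_int E (M * q) q (dvd_mul_left q M)) D.eval_j
  have hjq : D.Φ.eval₂ (Polynomial.aeval (R := ℤ)
      (jE E (M * q) 1 (one_dvd _))).toRingHom (jE E (M * q) q (dvd_mul_left q M)) = 0 :=
    eval₂_eq_zero_of_int E (M * q) D.Φ _ _ _ _ (coe_jE_int E (M * q) q (dvd_mul_left q M))
      (coe_jE_one E (M * q)) D.eval_jp
  refine ⟨?_, ?_, ?_, ?_⟩
  · exact isIntegralElem_of_isIntegral_closure _ (isIntegral_closure_mul D.Φ D.monic hj)
  · have h := isIntegral_closure_mul D.Φ D.monic hjq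
    rw [mul_comm (jE E (M * q) q (dvd_mul_left q M)) (jE E (M * q) 1 (one_dvd _))] at h
    exact isIntegralElem_of_isIntegral_closure _ h
  · exact isIntegralElem_of_isIntegral_closure _
      (isIntegral_closure_inv_mul (jE_ne_zero E (M * q) q (dvd_mul_left q M)) D.Φ D.monic hjq)
  · have h := isIntegral_closure_inv_mul (jE_ne_zero E (M * q) 1 (one_dvd _)) D.Φ D.monic hj
    rw [mul_comm (jE E (M * q) q (dvd_mul_left q M)) (jE E (M * q) 1 (one_dvd _))] at h
    exact isIntegralElem_of_isIntegral_closure _ h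

/-- **L13** (exact frozen leaf of `Mod/Spec.lean`). -/
theorem chartCompat : ChartCompatStatement P E M q := fun hq =>
  chartCompat_of_modPolyData P E M q (S28.H807.nonempty_modPolyData q hq).some hq

end Concrete

end Fermat.Agent.A2.Mod.H873

end

end
-- ===== PACK-END A2/Mod/H873/L13.lean

-- ===== PACK-BEGIN A2/Mod/H372/S3Base.lean
section







/-!
# A2 / MODASM S3, concrete base (helper372)

Mod/Spec language (`FE E N`, `IsVinf`, `InW`, `chartAlg`, `αE`, `βE`).

* `alpha_mem`, `alpha_jE`, `beta_jE`, `alpha_cE`, `beta_cE` : the degeneracy maps on generators,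
  constants and the Gauss valuation rings;
* `inW_jE_sub_pow` : **Kronecker congruence for the generators** `j_{dq} ≡ j_d ^ q mod w V∞`
  (`H528.exists_frobCong`);
* `mem_chartAlg_iff` : `chartAlg` (helper13 `Asm.lean`) = `chart` (helper994 `Spec.lean`)
  = integrality along `R_E[X] → F`, `X ↦ y`;
* `isIntegralElem_trans`, `mem_of_alpha_mem`, `isUnif_comap`, ...
-/

set_option autoImplicit false
set_option synthInstance.maxHeartbeats 400000
set_option maxHeartbeats 1600000
set_option linter.unusedSectionVars false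
set_option linter.style.haveILetI false

noncomputable section

namespace Fermat.Agent.A2.Mod.H372

open ModularCurve HahnSeries Polynomial

/-! ## Generalities -/

section General

variable {F : Type*} [Field F]

/-- elements integral over `R[y]`, `R, y ⊆ V`, lie in the valuation ring `V`. -/
theorem mem_of_isIntegralElem (V : ValuationSubring F) {R : Type*} [CommRing R] (c : R →+* F)
    (y : F) (hcV : ∀ r, c r ∈ V) (hyV : y ∈ V) {b : F}
    (hb : (Polynomial.eval₂RingHom c y).IsIntegralElem b) : b ∈ V := by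
  set cV : R →+* V := c.codRestrict V hcV with hcV'
  set yV : V := ⟨y, hyV⟩ with hyV'
  have hcomp : (V.subtype).comp (Polynomial.eval₂RingHom cV yV) = Polynomial.eval₂RingHom c y := by
    apply Polynomial.ringHom_ext
    · intro r
      simp [cV]
    · simp [yV]
  have hint : IsIntegral V b := by
    obtain ⟨p, hp, hpb⟩ := hb
    refine ⟨p.map (Polynomial.eval₂RingHom cV yV), hp.map _, ?_⟩
    rw [Polynomial.eval₂_map]
    have : (algebraMap V F).comp (Polynomial.eval₂RingHom cV yV) =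
        Polynomial.eval₂RingHom c y := hcomp
    rw [this]
    exact hpb
  obtain ⟨v, hv⟩ := (IsIntegrallyClosed.isIntegral_iff (R := V) (K := F)).mp hint
  rw [← hv]
  exact v.2

/-- transitivity of integrality over `R[y]`. -/
theorem isIntegralElem_trans {R : Type*} [CommRing R] (c : R →+* F) {y z b : F}
    (hz : (Polynomial.eval₂RingHom c y).IsIntegralElem z)
    (hb : (Polynomial.eval₂RingHom c z).IsIntegralElem b) :
    (Polynomial.eval₂RingHom c y).IsIntegralElem b := by
  letI : Algebra (Polynomial R) F := (Polynomial.eval₂RingHom c y).toAlgebra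
  have hzT : z ∈ integralClosure (Polynomial R) F := hz
  have hcT : ∀ r, c r ∈ integralClosure (Polynomial R) F := by
    intro r
    have : c r = algebraMap (Polynomial R) F (Polynomial.C r) := by
      show c r = Polynomial.eval₂RingHom c y (Polynomial.C r)
      simp
    rw [this]
    exact Subalgebra.algebraMap_mem _ _
  have h1 : IsIntegral (integralClosure (Polynomial R) F) b := by
    refine isIntegralElem_of_forall_exists (Polynomial.eval₂RingHom c z) _ (fun p => ?_) hb
    refine ⟨⟨Polynomial.eval₂ c z p, ?_⟩, rfl⟩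
    rw [Polynomial.eval₂_eq_sum_range]
    refine Subalgebra.sum_mem _ (fun i _ => ?_)
    exact Subalgebra.mul_mem _ (hcT _) (Subalgebra.pow_mem _ hzT _)
  exact isIntegral_trans (R := Polynomial R) (A := integralClosure (Polynomial R) F) b h1

/-- `a - b ∈ ϖ V` with `a, b` units of `V` ⟹ `a⁻¹ - b⁻¹ ∈ ϖ V`. -/
theorem inv_sub_inv_mul_mem (V : ValuationSubring F) {ϖ a b : F} (ha0 : a ≠ 0) (hb0 : b ≠ 0)
    (ha : a⁻¹ ∈ V) (hb : b⁻¹ ∈ V) (h : (a - b) * ϖ⁻¹ ∈ V) : (a⁻¹ - b⁻¹) * ϖ⁻¹ ∈ V := by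
  have : (a⁻¹ - b⁻¹) * ϖ⁻¹ = -((a - b) * ϖ⁻¹ * a⁻¹ * b⁻¹) := by
    field_simp
    ring
  rw [this]
  exact V.neg_mem _ (V.mul_mem _ _ (V.mul_mem _ _ h ha) hb)

/-- transport of a uniformiser along an automorphism fixing it. -/
theorem isUnif_comap {V : ValuationSubring F} {ϖ : F} (hu : H48.IsUnif V ϖ) (W : F →+* F)
    (hW : W ϖ = ϖ) : H48.IsUnif (V.comap W) ϖ where
  mem := by
    rw [ValuationSubring.mem_comap, hW]
    exact hu.mem
  inv_not_mem := by
    rw [ValuationSubring.mem_comap, map_inv₀, hW]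
    exact hu.inv_not_mem
  gen := by
    intro f hf hfinv
    rw [ValuationSubring.mem_comap] at hf hfinv ⊢
    rw [_root_.map_mul, map_inv₀, hW]
    rw [map_inv₀] at hfinv
    exact hu.gen _ hf hfinv

end General

/-! ## Levels -/

section Levels

variable (P : ValuationSubring _root_.Fermat.Agent.A2.Mod.Qb) (E : IntermediateField ℚ _root_.Fermat.Agent.A2.Mod.Qb) (M q : ℕ) [NeZero M] [NeZero q]
  (w : _root_.Fermat.Agent.A2.Mod.RE P E)

theorem alpha_cE (r : _root_.Fermat.Agent.A2.Mod.RE P E) : αE E M q (cE P E M r) = cE P E (M * q) r :=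
  (αE E M q).commutes (r : E)

theorem beta_cE (r : _root_.Fermat.Agent.A2.Mod.RE P E) : βE E M q (cE P E M r) = cE P E (M * q) r :=
  (βE E M q).commutes (r : E)

variable {P E M q}

/-- `α` maps `V∞_M` into `V∞_{Mq}`. -/
theorem alpha_mem {VM : ValuationSubring (_root_.Fermat.Agent.A2.Mod.FE E M)} {V : ValuationSubring (_root_.Fermat.Agent.A2.Mod.FE E (M * q))}
    (hVM : IsVinf P E M VM) (hV : IsVinf P E (M * q) V) {f : _root_.Fermat.Agent.A2.Mod.FE E M} (hf : f ∈ VM) :
    αE E M q f ∈ V := by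
  rw [hV, coe_heckeAlphaBar]
  obtain ⟨U₁, U₂, hred, hmem, he⟩ := (hVM f).mp hf
  refine ⟨U₁, U₂, hred, ?_, he⟩
  have h := (αE E M q ⟨_, hmem⟩).2
  rwa [coe_heckeAlphaBar] at h

theorem alpha_jE (d : ℕ) [NeZero d] (hd : d ∣ M) :
    αE E M q (jE E M d hd) = jE E (M * q) d (hd.mul_right q) := by
  apply Subtype.ext
  rw [coe_heckeAlphaBar]
  rfl

theorem beta_jE (d : ℕ) [NeZero d] (hd : d ∣ M) :
    βE E M q (jE E M d hd) = jE E (M * q) (d * q) (mul_dvd_mul_right hd q) := by
  apply Subtype.ext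
  rw [coe_heckeBetaBar]
  show qExpand E q (coeffEmb E (qExpand ℚ d jq)) = coeffEmb E (qExpand ℚ (d * q) jq)
  rw [coeffEmb, ← coeffMap_qExpand, qExpand_qExpand, qExpand_congr (mul_comm q d)]

/-- `q = w r` in `R_E`. -/
theorem exists_q_eq (hS : Setting P E M q w) : ∃ r : _root_.Fermat.Agent.A2.Mod.RE P E, (q : _root_.Fermat.Agent.A2.Mod.RE P E) = w * r := by
  have hnu : ¬ IsUnit ((q : ℕ) : _root_.Fermat.Agent.A2.Mod.RE P E) := by
    intro hu
    obtain ⟨s, hs⟩ := isUnit_iff_exists_inv.mp hu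
    have h1 : ((q : ℕ) : _root_.Fermat.Agent.A2.Mod.Qb) * ((s : E) : _root_.Fermat.Agent.A2.Mod.Qb) = 1 := by
      have := congrArg (fun t : _root_.Fermat.Agent.A2.Mod.RE P E => ((t : E) : _root_.Fermat.Agent.A2.Mod.Qb)) hs
      simpa using this
    have hq : ((q : ℕ) : _root_.Fermat.Agent.A2.Mod.Qb) ∈ P.nonunits := hS.lies_over
    rw [ValuationSubring.mem_nonunits_iff] at hq
    have hs' : ((s : E) : _root_.Fermat.Agent.A2.Mod.Qb) ∈ P := s.2
    have hv : P.valuation ((s : E) : _root_.Fermat.Agent.A2.Mod.Qb) ≤ 1 := (P.valuation_le_one_iff _).mpr hs'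
    have h2 := congrArg P.valuation h1
    rw [_root_.map_mul, _root_.map_one] at h2
    have h3 : P.valuation ((q : ℕ) : _root_.Fermat.Agent.A2.Mod.Qb) * P.valuation ((s : E) : _root_.Fermat.Agent.A2.Mod.Qb) < 1 :=
      lt_of_le_of_lt (mul_le_of_le_one_right' hv) hq
    exact absurd h2 (ne_of_lt h3)
  have := hS.dvr
  have hmem : ((q : ℕ) : _root_.Fermat.Agent.A2.Mod.RE P E) ∈ IsLocalRing.maximalIdeal (_root_.Fermat.Agent.A2.Mod.RE P E) :=
    (IsLocalRing.mem_maximalIdeal _).mpr hnu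
  rw [hS.unif.maximalIdeal_eq, Ideal.mem_span_singleton'] at hmem
  obtain ⟨r, hr⟩ := hmem
  exact ⟨r, by rw [← hr, mul_comm]⟩

theorem cE_mem (hS : Setting P E M q w) {N : ℕ} {V : ValuationSubring (_root_.Fermat.Agent.A2.Mod.FE E N)}
    (hV : IsVinf P E N V) (r : _root_.Fermat.Agent.A2.Mod.RE P E) : cE P E N r ∈ V := by
  have := hS.dvr
  exact (H553.algebraMap_mem_iff P E hV _).mpr r.2

theorem cE_ne_zero (hS : Setting P E M q w) (N : ℕ) : cE P E N w ≠ 0 := by
  have hw0 : (w : E) ≠ 0 := fun h0 => hS.unif.ne_zero (Subtype.ext h0)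
  exact (_root_.map_ne_zero_iff _ (algebraMap E (_root_.Fermat.Agent.A2.Mod.FE E N)).injective).mpr hw0

/-- **Kronecker congruence for the generators**: `j_{dq} ≡ j_d ^ q mod w V∞`. -/
theorem inW_jE_sub_pow (hS : Setting P E M q w) {V : ValuationSubring (_root_.Fermat.Agent.A2.Mod.FE E (M * q))}
    (hV : IsVinf P E (M * q) V) (d : ℕ) [NeZero d] (hd : d ∣ M) :
    InW P E (M * q) V w (jE E (M * q) (d * q) (mul_dvd_mul_right hd q) -
      (jE E (M * q) d (hd.mul_right q)) ^ q) := by
  haveI : Fact q.Prime := ⟨hS.q_prime⟩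
  obtain ⟨g, hg⟩ := H528.exists_frobCong q (H708.jInt d)
  have hj : H708.jInt (d * q) = qExpand ℤ q (H708.jInt d) := by
    unfold H708.jInt jqNModC
    rw [qExpand_qExpand, qExpand_congr (mul_comm q d)]
  obtain ⟨r, hr⟩ := exists_q_eq w hS
  set D : _root_.Fermat.Agent.A2.Mod.FE E (M * q) := jE E (M * q) (d * q) (mul_dvd_mul_right hd q) -
      (jE E (M * q) d (hd.mul_right q)) ^ q with hD
  have hqC : HahnSeries.C ((q : ℕ) : ℤ) = ((q : ℕ) : LaurentSeries ℤ) := _root_.map_natCast _ q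
  have hcoe : (D : LaurentSeries E) = ((q : ℕ) : LaurentSeries E) * coeffEmb E (H708.castQ g) := by
    have h1 : (D : LaurentSeries E) = coeffEmb E (H708.castQ (H708.jInt (d * q))) -
        (coeffEmb E (H708.castQ (H708.jInt d))) ^ q := by
      rw [← H553.coe_jE (E := E) (M * q) (d * q) (mul_dvd_mul_right hd q),
        ← H553.coe_jE (E := E) (M * q) d (hd.mul_right q)]
      rfl
    rw [h1, hj, ← _root_.map_pow, ← _root_.map_pow, ← _root_.map_sub, ← _root_.map_sub, hg, hqC, _root_.map_mul, _root_.map_mul,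
      _root_.map_natCast, _root_.map_natCast]
  have hq0 : ((q : ℕ) : _root_.Fermat.Agent.A2.Mod.FE E (M * q)) ≠ 0 := by
    exact_mod_cast hS.q_prime.ne_zero
  set G : _root_.Fermat.Agent.A2.Mod.FE E (M * q) := D * ((q : ℕ) : _root_.Fermat.Agent.A2.Mod.FE E (M * q))⁻¹ with hG
  have hGcoe : (G : LaurentSeries E) = coeffEmb E (H708.castQ g) := by
    have hqcoe : (((q : ℕ) : _root_.Fermat.Agent.A2.Mod.FE E (M * q)) : LaurentSeries E) = ((q : ℕ) : LaurentSeries E) :=
      rfl
    have hq0' : ((q : ℕ) : LaurentSeries E) ≠ 0 := by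
      rw [← hqcoe]
      exact fun h => hq0 (Subtype.ext h)
    have h2 : (G : LaurentSeries E) = (D : LaurentSeries E) * ((q : ℕ) : LaurentSeries E)⁻¹ := by
      rw [hG, IntermediateField.coe_mul, IntermediateField.coe_inv, hqcoe]
    rw [h2, hcoe, mul_comm, ← mul_assoc, inv_mul_cancel₀ hq0', one_mul]
  have hGV : G ∈ V := H553.mem_of_int hV hGcoe
  have hqF : ((q : ℕ) : _root_.Fermat.Agent.A2.Mod.FE E (M * q)) = cE P E (M * q) w * cE P E (M * q) r := by
    have := congrArg (algebraMap (_root_.Fermat.Agent.A2.Mod.RE P E) (_root_.Fermat.Agent.A2.Mod.FE E (M * q))) hr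
    rw [_root_.map_natCast, _root_.map_mul] at this
    exact this
  have hfin : D * (cE P E (M * q) w)⁻¹ = G * cE P E (M * q) r := by
    have hw0 := cE_ne_zero w hS (M * q)
    have hDG : D = G * ((q : ℕ) : _root_.Fermat.Agent.A2.Mod.FE E (M * q)) := by
      rw [hG, mul_assoc, inv_mul_cancel₀ hq0, mul_one]
    rw [hDG, hqF]
    field_simp
  show D * (cE P E (M * q) w)⁻¹ ∈ V
  rw [hfin]
  exact V.mul_mem _ _ hGV (cE_mem w hS hV r)


/-- `w` is a uniformiser of `V∞` (leaf L2, `H553.vinfBasic`). -/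
theorem unifE (hS : Setting P E M q w) {N : ℕ} (hN : N ≠ 0) {V : ValuationSubring (_root_.Fermat.Agent.A2.Mod.FE E N)}
    (hV : IsVinf P E N V) : H48.IsUnif V (cE P E N w) :=
  (H553.vinfBasic P E w N hN hS.dvr hS.unif V hV).1

theorem jE_mem (hS : Setting P E M q w) {N : ℕ} (hN : N ≠ 0) {V : ValuationSubring (_root_.Fermat.Agent.A2.Mod.FE E N)}
    (hV : IsVinf P E N V) (d : ℕ) [NeZero d] (hd : d ∣ N) : jE E N d hd ∈ V :=
  ((H553.vinfBasic P E w N hN hS.dvr hS.unif V hV).2.2 d hd).1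

theorem jE_inv_mem (hS : Setting P E M q w) {N : ℕ} (hN : N ≠ 0) {V : ValuationSubring (_root_.Fermat.Agent.A2.Mod.FE E N)}
    (hV : IsVinf P E N V) (d : ℕ) [NeZero d] (hd : d ∣ N) : (jE E N d hd)⁻¹ ∈ V :=
  ((H553.vinfBasic P E w N hN hS.dvr hS.unif V hV).2.2 d hd).2

theorem jE_congr {N d d' : ℕ} [NeZero d] [NeZero d'] (h : d = d') (hd : d ∣ N) (hd' : d' ∣ N) :
    jE E N d hd = jE E N d' hd' := by
  subst h
  rfl

theorem level_ne_zero (hS : Setting P E M q w) : M * q ≠ 0 :=
  mul_ne_zero hS.M_ne_zero hS.q_prime.ne_zero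

/-- `q ∈ w V∞`. -/
theorem q_mul_inv_mem (hS : Setting P E M q w) {V : ValuationSubring (_root_.Fermat.Agent.A2.Mod.FE E (M * q))}
    (hV : IsVinf P E (M * q) V) :
    ((q : ℕ) : _root_.Fermat.Agent.A2.Mod.FE E (M * q)) * (cE P E (M * q) w)⁻¹ ∈ V := by
  obtain ⟨r, hr⟩ := exists_q_eq w hS
  have hqF : ((q : ℕ) : _root_.Fermat.Agent.A2.Mod.FE E (M * q)) = cE P E (M * q) w * cE P E (M * q) r := by
    have := congrArg (algebraMap (_root_.Fermat.Agent.A2.Mod.RE P E) (_root_.Fermat.Agent.A2.Mod.FE E (M * q))) hr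
    rw [_root_.map_natCast, _root_.map_mul] at this
    exact this
  have hw0 := cE_ne_zero w hS (M * q)
  have : ((q : ℕ) : _root_.Fermat.Agent.A2.Mod.FE E (M * q)) * (cE P E (M * q) w)⁻¹ = cE P E (M * q) r := by
    rw [hqF]
    field_simp
  rw [this]
  exact cE_mem w hS hV r

/-- `α` reflects membership in the Gauss valuation rings: `V∞_{Mq} ∩ F_M = V∞_M`. -/
theorem mem_of_alpha_mem (hS : Setting P E M q w) {VM : ValuationSubring (_root_.Fermat.Agent.A2.Mod.FE E M)}
    {V : ValuationSubring (_root_.Fermat.Agent.A2.Mod.FE E (M * q))} (hVM : IsVinf P E M VM) (hV : IsVinf P E (M * q) V)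
    {x : _root_.Fermat.Agent.A2.Mod.FE E M} (hx : αE E M q x ∈ V) : x ∈ VM := by
  by_contra hxV
  have hx0 : x ≠ 0 := fun h0 => hxV (h0 ▸ VM.zero_mem)
  have hinv : x⁻¹ ∈ VM := (VM.mem_or_inv_mem x).resolve_left hxV
  have huM := unifE w hS hS.M_ne_zero hVM
  have huN := unifE w hS (level_ne_zero w hS) hV
  have h1 : x⁻¹ * (cE P E M w)⁻¹ ∈ VM := huM.gen _ hinv (by rwa [inv_inv])
  have h2 := alpha_mem hVM hV h1
  rw [_root_.map_mul, map_inv₀, map_inv₀, alpha_cE] at h2
  apply huN.inv_not_mem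
  have hαx0 : αE E M q x ≠ 0 := (_root_.map_ne_zero_iff _ (αE E M q).toRingHom.injective).mpr hx0
  have : (cE P E (M * q) w)⁻¹ = αE E M q x * ((αE E M q x)⁻¹ * (cE P E (M * q) w)⁻¹) := by
    rw [← mul_assoc, mul_inv_cancel₀ hαx0, one_mul]
  rw [this]
  exact V.mul_mem _ _ hx h2

/-- `chartAlg` in terms of integrality along `R_E[X] → F`, `X ↦ y` (= `chart` of `Spec.lean`). -/
theorem mem_chartAlg_iff {N : ℕ} {y f : _root_.Fermat.Agent.A2.Mod.FE E N} :
    f ∈ chartAlg P E N y ↔
      (Polynomial.eval₂RingHom (algebraMap (_root_.Fermat.Agent.A2.Mod.RE P E) (_root_.Fermat.Agent.A2.Mod.FE E N)) y).IsIntegralElem f := by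
  rw [mem_chartAlg]
  constructor
  · intro h
    refine isIntegralElem_of_forall_exists
      (algebraMap (Algebra.adjoin (_root_.Fermat.Agent.A2.Mod.RE P E) ({y} : Set (_root_.Fermat.Agent.A2.Mod.FE E N))) (_root_.Fermat.Agent.A2.Mod.FE E N)) _ (fun c => ?_) h
    obtain ⟨p, hp⟩ := Algebra.adjoin_mem_exists_aeval (_root_.Fermat.Agent.A2.Mod.RE P E) y c.2
    exact ⟨p, hp⟩
  · intro h
    refine isIntegralElem_of_forall_exists _
      (algebraMap (Algebra.adjoin (_root_.Fermat.Agent.A2.Mod.RE P E) ({y} : Set (_root_.Fermat.Agent.A2.Mod.FE E N))) (_root_.Fermat.Agent.A2.Mod.FE E N)) (fun p => ?_) h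
    exact ⟨⟨Polynomial.aeval y p, Polynomial.aeval_mem_adjoin_singleton (_root_.Fermat.Agent.A2.Mod.RE P E) y⟩, rfl⟩

theorem mem_chart_iff {N : ℕ} {y f : _root_.Fermat.Agent.A2.Mod.FE E N} : f ∈ chart P E N y ↔ f ∈ chartAlg P E N y :=
  mem_chartAlg_iff.symm

end Levels

end Fermat.Agent.A2.Mod.H372

end
end
-- ===== PACK-END A2/Mod/H372/S3Base.lean

-- ===== PACK-BEGIN S37/Rim/H383/NormalLift.lean
section




/-!
# S37 / RIM-NORMAL (helper383), part 1: the normality lift over a DVR, inside a field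

Typed, Mathlib-only consumer of b2 (`Fermat.Agent.S18.B12.H638.b2NormalDom`) and HSEP
(`Fermat.Agent.S18.H425.hsep_poly`).

Setting: `F` a field of characteristic `0`, `R : Subring F` a discrete valuation ring with
uniformiser `w`, `z : F` transcendental over `R`, `B := integralClosure R[z] F` (the chart),
finite over `R[z]` with fraction field `F`; `V : ValuationSubring F` the Gauss valuation ring:
`R ⊆ V`, `z ∈ V`, `𝔪_V = w V`, and

* `qep`  : `b ∈ B`, `b / w ∈ V` ⟹ `b / w ∈ B`                      (`q`-expansion principle),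
* `sepB` : every `f ∈ B` is a simple root mod `w` of a polynomial over `R[z]`,
* `S`, `hS` : branch values, pairwise distinct mod `w`,
* `hNC`  : for a prime `π ∈ R[X]` not associated to `w`, `X - c` (`c ∈ S`): `π(z) B` is radical
           (elementwise form).

**Theorem `exists_chart_lift`**: every `v ∈ V` which is integral over `B` modulo `w`
(`Q(v) ∈ w V` for a monic `Q` with coefficients in `B`) is congruent modulo `w V` to an element
of `B`.  (Normality of the special fibre `B / w B`.)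
-/

set_option autoImplicit false
set_option linter.style.haveILetI false
set_option linter.unusedSectionVars false

noncomputable section

namespace Fermat.Agent.S37.Rim.H383

open Polynomial

variable {F : Type*} [Field F] (R : Subring F) (z : F)

/-- The chart `B`: the integral closure of `R[z]` in `F`. -/
abbrev chartB : Subalgebra (Algebra.adjoin R ({z} : Set F)) F :=
  integralClosure (Algebra.adjoin R ({z} : Set F)) F

/-- The structure map `R[X] → B`, `X ↦ z`. -/
def polyToChart : Polynomial R →+* chartB R z :=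
  (algebraMap (Algebra.adjoin R ({z} : Set F)) (chartB R z)).comp
    ((aeval (⟨z, Algebra.self_mem_adjoin_singleton R z⟩ : Algebra.adjoin R ({z} : Set F)) :
      Polynomial R →ₐ[R] Algebra.adjoin R ({z} : Set F)) : Polynomial R →+*
        Algebra.adjoin R ({z} : Set F))

theorem coe_aeval_adjoin (p : Polynomial R) :
    ((aeval (⟨z, Algebra.self_mem_adjoin_singleton R z⟩ : Algebra.adjoin R ({z} : Set F)) p :
      Algebra.adjoin R ({z} : Set F)) : F) = aeval z p := by
  have : (aeval (⟨z, Algebra.self_mem_adjoin_singleton R z⟩ :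
      Algebra.adjoin R ({z} : Set F)) p : F) =
      (Algebra.adjoin R ({z} : Set F)).val (aeval (⟨z, Algebra.self_mem_adjoin_singleton R z⟩ :
        Algebra.adjoin R ({z} : Set F)) p) := rfl
  rw [this, ← aeval_algHom_apply]
  rfl

@[simp] theorem coe_polyToChart (p : Polynomial R) :
    ((polyToChart R z p : chartB R z) : F) = aeval z p :=
  coe_aeval_adjoin R z p

theorem aeval_surjective_adjoin :
    Function.Surjective (aeval (⟨z, Algebra.self_mem_adjoin_singleton R z⟩ :
      Algebra.adjoin R ({z} : Set F)) : Polynomial R → Algebra.adjoin R ({z} : Set F)) := by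
  rintro ⟨a, ha⟩
  obtain ⟨p, hp⟩ := Algebra.adjoin_mem_exists_aeval R z ha
  exact ⟨p, Subtype.ext (by rw [coe_aeval_adjoin, hp])⟩

theorem polyToChart_injective (hz : Transcendental R z) :
    Function.Injective (polyToChart R z) := by
  intro p q hpq
  have h : aeval z p = aeval z q := by
    rw [← coe_polyToChart, ← coe_polyToChart, hpq]
  exact (transcendental_iff_injective.mp hz) h


/-! ### The Gauss valuation ring and the chart -/

section Gauss

variable {R z}
variable (V : ValuationSubring F) {w : F} (hwR : w ∈ R)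

/-- `R[z] ⊆ V`. -/
theorem adjoin_le_V (hRV : ∀ r ∈ R, r ∈ V) (hzV : z ∈ V) {f : F}
    (hf : f ∈ Algebra.adjoin R ({z} : Set F)) : f ∈ V := by
  obtain ⟨P, rfl⟩ := Algebra.adjoin_mem_exists_aeval R z hf
  rw [aeval_eq_sum_range]
  refine V.toSubring.sum_mem fun i _ => ?_
  rw [Algebra.smul_def]
  exact mul_mem (hRV _ (P.coeff i).2) (pow_mem hzV i)

/-- `B ⊆ V`: valuation rings are integrally closed. -/
theorem chart_le_V (hRV : ∀ r ∈ R, r ∈ V) (hzV : z ∈ V) {f : F} (hf : f ∈ chartB R z) :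
    f ∈ V := by
  let i : Algebra.adjoin R ({z} : Set F) →+* V :=
    (algebraMap (Algebra.adjoin R ({z} : Set F)) F).codRestrict V.toSubring
      (fun a => adjoin_le_V V hRV hzV a.2)
  have hi : (algebraMap V F).comp i = algebraMap (Algebra.adjoin R ({z} : Set F)) F := by
    ext a; rfl
  have hint : IsIntegral V f := by
    obtain ⟨p, hp, hpf⟩ := hf
    refine ⟨p.map i, hp.map i, ?_⟩
    rw [eval₂_map, hi]
    exact hpf
  obtain ⟨y, hy⟩ := (IsIntegrallyClosed.isIntegral_iff (R := V) (K := F)).1 hint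
  rw [← hy]
  exact y.2

/-- the uniformiser as an element of the chart -/
def wB : chartB R z := polyToChart R z (C ⟨w, hwR⟩)

@[simp] theorem coe_wB : ((wB (z := z) hwR : chartB R z) : F) = w := by
  unfold wB
  rw [coe_polyToChart, aeval_C]
  rfl

/-- divisibility by `w` in the chart, elementwise -/
theorem wB_dvd_iff (hw0 : w ≠ 0) (b : chartB R z) :
    wB (z := z) hwR ∣ b ↔ (b : F) * w⁻¹ ∈ chartB R z := by
  constructor
  · rintro ⟨c, rfl⟩
    have : ((wB (z := z) hwR * c : chartB R z) : F) * w⁻¹ = (c : F) := by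
      rw [MulMemClass.coe_mul, coe_wB]
      field_simp
    rw [this]
    exact c.2
  · intro h
    refine ⟨⟨(b : F) * w⁻¹, h⟩, Subtype.ext ?_⟩
    rw [MulMemClass.coe_mul, coe_wB]
    field_simp

/-- divisibility by `π(z)` in the chart, elementwise -/
theorem polyToChart_dvd_iff (π : Polynomial R) (hπ : aeval z π ≠ 0) (b : chartB R z) :
    polyToChart R z π ∣ b ↔ (b : F) * (aeval z π)⁻¹ ∈ chartB R z := by
  constructor
  · rintro ⟨c, rfl⟩
    have : ((polyToChart R z π * c : chartB R z) : F) * (aeval z π)⁻¹ = (c : F) := by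
      rw [MulMemClass.coe_mul, coe_polyToChart]
      field_simp
    rw [this]
    exact c.2
  · intro h
    refine ⟨⟨(b : F) * (aeval z π)⁻¹, h⟩, Subtype.ext ?_⟩
    rw [MulMemClass.coe_mul, coe_polyToChart]
    field_simp

section Prime

variable (hw0 : w ≠ 0) (hRV : ∀ r ∈ R, r ∈ V) (hzV : z ∈ V)
  (hwV : w⁻¹ ∉ V) (hVgen : ∀ f ∈ V, f⁻¹ ∉ V → f * w⁻¹ ∈ V)
  (qep : ∀ b ∈ chartB R z, b * w⁻¹ ∈ V → b * w⁻¹ ∈ chartB R z)

include hVgen in
/-- In `V`, if `a * b ∈ w V` then `a ∈ w V` or `b ∈ w V`. -/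
theorem mem_wV_of_mul_mem {a b : F} (hab : a * b * w⁻¹ ∈ V) (ha : a ∈ V) :
    a * w⁻¹ ∈ V ∨ b * w⁻¹ ∈ V := by
  by_cases ha0 : a = 0
  · left; rw [ha0, zero_mul]; exact V.zero_mem
  by_cases hau : a⁻¹ ∈ V
  · right
    have : b * w⁻¹ = a⁻¹ * (a * b * w⁻¹) := by field_simp
    rw [this]
    exact mul_mem hau hab
  · left
    exact hVgen a ha hau

include hw0 hRV hzV hwV hVgen qep in
/-- **`w` is a prime element of the chart.** -/
theorem prime_wB : Prime (wB (z := z) hwR) := by
  refine ⟨?_, ?_, ?_⟩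
  · intro h
    apply hw0
    have := congrArg (Subtype.val : chartB R z → F) h
    simpa using this
  · rintro ⟨⟨u, v, huv, hvu⟩, hu⟩
    have hv : (v : F) = w⁻¹ := by
      have h1 : (u : F) * (v : F) = 1 := congrArg Subtype.val huv
      have h2 : (u : F) = w := by
        have h3 : u = wB (z := z) hwR := hu
        rw [h3]; exact coe_wB hwR
      rw [h2] at h1
      exact eq_inv_of_mul_eq_one_right h1
    exact hwV (hv ▸ chart_le_V V hRV hzV v.2)
  · intro a b hab
    rw [wB_dvd_iff hwR hw0] at hab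
    have haV := chart_le_V V hRV hzV a.2
    have habV : (a : F) * (b : F) * w⁻¹ ∈ V := by
      have := chart_le_V V hRV hzV hab
      simpa using this
    rcases mem_wV_of_mul_mem V hVgen habV haV with h | h
    · left
      rw [wB_dvd_iff hwR hw0]
      exact qep _ a.2 h
    · right
      rw [wB_dvd_iff hwR hw0]
      exact qep _ b.2 h

include hwR hw0 hRV qep in
/-- stripping powers of `w`: if `w ^ n * y ∈ B` and `y ∈ V` then `y ∈ B`. -/
theorem mem_chart_of_pow_mul_mem {y : F} (hy : y ∈ V) (n : ℕ)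
    (h : w ^ n * y ∈ chartB R z) : y ∈ chartB R z := by
  induction n with
  | zero => simpa using h
  | succ n ih =>
    apply ih
    have h1 : w ^ (n + 1) * y * w⁻¹ = w ^ n * y := by
      rw [pow_succ]; field_simp
    have hwV' : w ∈ V := hRV w hwR
    have h2 : w ^ (n + 1) * y * w⁻¹ ∈ V := by
      rw [h1]
      exact mul_mem (pow_mem hwV' n) hy
    have := qep _ h h2
    rwa [h1] at this

end Prime

end Gauss

/-! ### The chart as an `R[X]`-algebra -/

section Typed

variable {R z}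

/-- the `R[X]`-algebra structure of the chart (`X ↦ z`) -/
@[reducible] def polyAlgebra (R : Subring F) (z : F) : Algebra (Polynomial R) (chartB R z) :=
  (polyToChart R z).toAlgebra

theorem coe_eval₂_chart (b : chartB R z) (P : Polynomial (Polynomial R)) :
    ((eval₂ (polyToChart R z) b P : chartB R z) : F) =
      (P.map ((aeval z : Polynomial R →ₐ[R] F) : Polynomial R →+* F)).eval (b : F) := by
  have h1 : ((eval₂ (polyToChart R z) b P : chartB R z) : F) =
      (chartB R z).val.toRingHom (eval₂ (polyToChart R z) b P) := rfl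
  rw [h1, hom_eval₂, eval_map]
  congr 1
  ext p
  · simp
  · simp

theorem finite_poly [Module.Finite (Algebra.adjoin R ({z} : Set F)) (chartB R z)] :
    @Module.Finite (Polynomial R) (chartB R z) _ _ (polyAlgebra R z).toModule := by
  letI : Algebra (Polynomial R) (chartB R z) := polyAlgebra R z
  letI : Algebra (Polynomial R) (Algebra.adjoin R ({z} : Set F)) :=
    ((aeval (⟨z, Algebra.self_mem_adjoin_singleton R z⟩ : Algebra.adjoin R ({z} : Set F)) :
      Polynomial R →ₐ[R] Algebra.adjoin R ({z} : Set F)) : Polynomial R →+*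
        Algebra.adjoin R ({z} : Set F)).toAlgebra
  haveI : IsScalarTower (Polynomial R) (Algebra.adjoin R ({z} : Set F)) (chartB R z) :=
    IsScalarTower.of_algebraMap_eq (fun _ => rfl)
  haveI : Module.Finite (Polynomial R) (Algebra.adjoin R ({z} : Set F)) :=
    Module.Finite.of_surjective (Algebra.linearMap (Polynomial R) (Algebra.adjoin R ({z} : Set F)))
      (aeval_surjective_adjoin R z)
  exact Module.Finite.trans (Algebra.adjoin R ({z} : Set F)) (chartB R z)

theorem torsionFree_poly (hz : Transcendental R z) :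
    @Module.IsTorsionFree (Polynomial R) (chartB R z) _ _ (polyAlgebra R z).toModule := by
  letI : Algebra (Polynomial R) (chartB R z) := polyAlgebra R z
  rw [Module.isTorsionFree_iff_algebraMap_injective (R := Polynomial R) (A := chartB R z)]
  exact polyToChart_injective R z hz

end Typed

/-! ### The hypotheses of b2 -/

section Hyps

variable {R z}
variable (V : ValuationSubring F) {w : F} (hwR : w ∈ R)

/-- lifting a polynomial with coefficients in `R[z]` to `R[X][X]` -/
theorem exists_lift_poly (P : Polynomial F)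
    (hP : ∀ i, P.coeff i ∈ Algebra.adjoin R ({z} : Set F)) :
    ∃ P' : Polynomial (Polynomial R),
      P'.map ((aeval z : Polynomial R →ₐ[R] F) : Polynomial R →+* F) = P := by
  have : P ∈ Polynomial.lifts ((aeval z : Polynomial R →ₐ[R] F) : Polynomial R →+* F) := by
    rw [Polynomial.lifts_iff_coeff_lifts]
    intro n
    obtain ⟨p, hp⟩ := Algebra.adjoin_mem_exists_aeval R z (hP n)
    exact ⟨p, hp⟩
  exact (Polynomial.mem_lifts _).mp this

variable (hw0 : w ≠ 0) (hRV : ∀ r ∈ R, r ∈ V) (hzV : z ∈ V) (hwV : w⁻¹ ∉ V)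
  (qep : ∀ b ∈ chartB R z, b * w⁻¹ ∈ V → b * w⁻¹ ∈ chartB R z)

include hw0 hRV hzV hwV qep in
/-- the elementwise separability hypothesis of HSEP, from `sepB` -/
theorem hel_of_sepB
    (sepB : ∀ f ∈ chartB R z, ∃ P : Polynomial F,
      (∀ i, P.coeff i ∈ Algebra.adjoin R ({z} : Set F)) ∧
      P.eval f * w⁻¹ ∈ V ∧ (derivative P).eval f ≠ 0 ∧ ((derivative P).eval f)⁻¹ ∈ V)
    (b : chartB R z) :
    ∃ P : Polynomial (Polynomial R), wB (z := z) hwR ∣ eval₂ (polyToChart R z) b P ∧
      ¬ wB (z := z) hwR ∣ eval₂ (polyToChart R z) b (derivative P) := by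
  obtain ⟨P₀, hP₀c, hP₀v, hP₀d, hP₀u⟩ := sepB b b.2
  obtain ⟨P, hP⟩ := exists_lift_poly P₀ hP₀c
  refine ⟨P, ?_, ?_⟩
  · rw [wB_dvd_iff hwR hw0]
    have h1 : ((eval₂ (polyToChart R z) b P : chartB R z) : F) = P₀.eval (b : F) := by
      rw [coe_eval₂_chart, hP]
    apply qep _ (Subtype.mem _)
    rw [h1]
    exact hP₀v
  · rw [wB_dvd_iff hwR hw0]
    have h1 : ((eval₂ (polyToChart R z) b (derivative P) : chartB R z) : F) =
        (derivative P₀).eval (b : F) := by
      rw [coe_eval₂_chart, ← hP, derivative_map]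
    rw [h1]
    intro hmem
    apply hwV
    have hV := chart_le_V V hRV hzV hmem
    have : w⁻¹ = ((derivative P₀).eval (b : F))⁻¹ * ((derivative P₀).eval (b : F) * w⁻¹) := by
      field_simp
    rw [this]
    exact mul_mem hP₀u hV

/-- the radical hypothesis `hNC` of b2 from its elementwise form -/
theorem isRadical_of_elementwise (hz : Transcendental R z) (π : Polynomial R) (hπ0 : π ≠ 0)
    (h : ∀ f ∈ chartB R z, ∀ n : ℕ, f ^ n * (aeval z π)⁻¹ ∈ chartB R z →
        f * (aeval z π)⁻¹ ∈ chartB R z) :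
    (Ideal.span {polyToChart R z π}).IsRadical := by
  have hπz : aeval z π ≠ 0 := by
    intro h0
    apply hπ0
    apply transcendental_iff_injective.mp hz
    rw [h0, _root_.map_zero]
  intro f hf
  obtain ⟨n, hn⟩ := hf
  rw [Ideal.mem_span_singleton] at hn ⊢
  rw [polyToChart_dvd_iff π hπz] at hn ⊢
  have := h f f.2 n (by simpa using hn)
  exact this

end Hyps

/-! ### The normality lift -/

section Main

variable {R z}
variable [CharZero F] [IsDiscreteValuationRing R]
variable [IsIntegrallyClosed (chartB R z)]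
  [Module.Finite (Algebra.adjoin R ({z} : Set F)) (chartB R z)]

/-- **Normality of the special fibre, elementwise (RIM-NORMAL over a DVR).**
Every `v ∈ V` which is integral over the chart `B` modulo `w` is congruent modulo `w V` to an
element of `B`. -/
theorem exists_chart_lift (hz : Transcendental R z)
    (halg : ∀ f : F, IsAlgebraic (Algebra.adjoin R ({z} : Set F)) f)
    (V : ValuationSubring F) {w : F} (hwR : w ∈ R) (hirr : Irreducible (⟨w, hwR⟩ : R))
    (hRV : ∀ r ∈ R, r ∈ V) (hzV : z ∈ V) (hwV : w⁻¹ ∉ V)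
    (hVgen : ∀ f ∈ V, f⁻¹ ∉ V → f * w⁻¹ ∈ V)
    (qep : ∀ b ∈ chartB R z, b * w⁻¹ ∈ V → b * w⁻¹ ∈ chartB R z)
    (sepB : ∀ f ∈ chartB R z, ∃ P : Polynomial F,
      (∀ i, P.coeff i ∈ Algebra.adjoin R ({z} : Set F)) ∧
      P.eval f * w⁻¹ ∈ V ∧ (derivative P).eval f ≠ 0 ∧ ((derivative P).eval f)⁻¹ ∈ V)
    (S : Finset R) (hS : ∀ c ∈ S, ∀ c' ∈ S, c ≠ c' → IsUnit (c - c'))
    (hNC : ∀ π : Polynomial R, Prime π → ¬ Associated π (C ⟨w, hwR⟩) →
      (∀ c ∈ S, ¬ Associated π (X - C c)) →
      ∀ f ∈ chartB R z, ∀ n : ℕ, f ^ n * (aeval z π)⁻¹ ∈ chartB R z →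
        f * (aeval z π)⁻¹ ∈ chartB R z)
    {v : F} (hv : v ∈ V) (Q : Polynomial F) (hQ : Q.Monic)
    (hQc : ∀ i, Q.coeff i ∈ chartB R z) (hQv : Q.eval v * w⁻¹ ∈ V) :
    ∃ b ∈ chartB R z, (v - b) * w⁻¹ ∈ V := by
  classical
  have hw0 : w ≠ 0 := fun h => hirr.ne_zero (Subtype.ext h)
  have hwVmem : w ∈ V := hRV w hwR
  letI : Algebra (Polynomial R) (chartB R z) := polyAlgebra R z
  haveI : Module.Finite (Polynomial R) (chartB R z) := finite_poly
  haveI : Module.IsTorsionFree (Polynomial R) (chartB R z) := torsionFree_poly hz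
  haveI : CharZero R := RingHom.charZero R.subtype
  have hdom : Prime (algebraMap (Polynomial R) (chartB R z) (C ⟨w, hwR⟩)) :=
    prime_wB V hwR hw0 hRV hzV hwV hVgen qep
  have hel : ∀ b : chartB R z, ∃ P : Polynomial (Polynomial R),
      algebraMap (Polynomial R) (chartB R z) (C ⟨w, hwR⟩) ∣ aeval b P ∧
      ¬ algebraMap (Polynomial R) (chartB R z) (C ⟨w, hwR⟩) ∣ aeval b (derivative P) :=
    fun b => hel_of_sepB V hwR hw0 hRV hzV hwV qep sepB b
  have hsep := Fermat.Agent.S18.H425.hsep_poly R ⟨w, hwR⟩ hirr (chartB R z) hdom hel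
  have hNC' : ∀ π : Polynomial R, Prime π → ¬ Associated π (C ⟨w, hwR⟩) →
      (∀ c ∈ S, ¬ Associated π (X - C c)) →
      (Ideal.span {algebraMap (Polynomial R) (chartB R z) π}).IsRadical :=
    fun π hπ h1 h2 => isRadical_of_elementwise hz π hπ.ne_zero (hNC π hπ h1 h2)
  -- a denominator `g ∈ R[X]`, `w ∤ g`, with `g(z) v ∈ B`
  obtain ⟨g₀, hg₀, hint⟩ := (halg v).exists_integral_multiple
  obtain ⟨G, hG⟩ := aeval_surjective_adjoin R z g₀
  have hG0 : G ≠ 0 := by
    rintro rfl
    apply hg₀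
    rw [← hG, _root_.map_zero]
  have hCw : Prime (C (⟨w, hwR⟩ : R) : Polynomial R) := Polynomial.prime_C_iff.mpr hirr.prime
  obtain ⟨n, g, hng, hGeq⟩ := WfDvdMonoid.max_power_factor hG0 hCw.irreducible
  have hgz : aeval z G = w ^ n * aeval z g := by
    rw [hGeq, _root_.map_mul, _root_.map_pow, aeval_C]
    rfl
  have hgV : aeval z g ∈ V :=
    adjoin_le_V V hRV hzV (by
      rw [← coe_aeval_adjoin]; exact Subtype.mem _)
  have hgvV : aeval z g * v ∈ V := mul_mem hgV hv
  have hbB : aeval z g * v ∈ chartB R z := by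
    apply mem_chart_of_pow_mul_mem V hwR hw0 hRV qep hgvV n
    have : w ^ n * (aeval z g * v) = g₀ • v := by
      rw [← mul_assoc, ← hgz, ← coe_aeval_adjoin, hG]
      rfl
    rw [this]
    exact hint
  -- `g(z)` is a unit of `V`
  have hgunit : (aeval z g)⁻¹ ∈ V := by
    by_contra hcon
    have h1 : aeval z g * w⁻¹ ∈ V := hVgen _ hgV hcon
    have h2 : aeval z g * w⁻¹ ∈ chartB R z := by
      have hmem : aeval z g ∈ chartB R z := by
        rw [← coe_polyToChart]; exact Subtype.mem _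
      exact qep _ hmem h1
    have h3 : algebraMap (Polynomial R) (chartB R z) (C ⟨w, hwR⟩) ∣
        algebraMap (Polynomial R) (chartB R z) g := by
      have := (wB_dvd_iff (z := z) hwR hw0 (polyToChart R z g)).mpr (by simpa using h2)
      exact this
    haveI : Algebra.IsIntegral (Polynomial R) (chartB R z) := Algebra.IsIntegral.of_finite _ _
    haveI hic : IsIntegrallyClosed (Polynomial R) := inferInstance
    have h7 : (C (⟨w, hwR⟩ : R) : Polynomial R) ∣ g :=
      Fermat.Agent.S18.B12.H638.dvd_of_algebraMap_dvd (P := Polynomial R) (B := chartB R z)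
        (C ⟨w, hwR⟩) g hCw.ne_zero h3
    exact hng h7
  -- the integrality relation
  set d := Q.natDegree with hd
  let a : Fin d → chartB R z := fun i => ⟨Q.coeff i, hQc i⟩
  let b : chartB R z := ⟨aeval z g * v, hbB⟩
  have hrel : b ^ d + ∑ i : Fin d, a i * b ^ (i : ℕ) *
      algebraMap (Polynomial R) (chartB R z) g ^ (d - (i : ℕ)) ∈
        Ideal.span {algebraMap (Polynomial R) (chartB R z) (C ⟨w, hwR⟩)} := by
    rw [Ideal.mem_span_singleton]
    have hval : ((b ^ d + ∑ i : Fin d, a i * b ^ (i : ℕ) *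
        algebraMap (Polynomial R) (chartB R z) g ^ (d - (i : ℕ)) : chartB R z) : F) =
        aeval z g ^ d * Q.eval v := by
      have hQsum : Q.eval v = v ^ d + ∑ i : Fin d, Q.coeff i * v ^ (i : ℕ) := by
        conv_lhs => rw [hQ.as_sum]
        rw [eval_add, eval_pow, eval_X, eval_finsetSum, Finset.sum_range]
        congr 1
        refine Finset.sum_congr rfl fun i _ => ?_
        rw [eval_mul, eval_C, eval_pow, eval_X]
      rw [hQsum, mul_add, Finset.mul_sum]
      push_cast
      congr 1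
      · show (aeval z g * v) ^ d = _
        rw [mul_pow]
      · refine Finset.sum_congr rfl fun i _ => ?_
        show Q.coeff i * (aeval z g * v) ^ (i : ℕ) *
          ((polyToChart R z g : chartB R z) : F) ^ (d - (i : ℕ)) = _
        rw [coe_polyToChart, mul_pow]
        have hi : (i : ℕ) + (d - (i : ℕ)) = d := by
          have := i.2
          omega
        calc Q.coeff i * (aeval z g ^ (i : ℕ) * v ^ (i : ℕ)) * aeval z g ^ (d - (i : ℕ))
            = aeval z g ^ ((i : ℕ) + (d - (i : ℕ))) * (Q.coeff i * v ^ (i : ℕ)) := by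
              rw [pow_add]; ring
          _ = aeval z g ^ d * (Q.coeff i * v ^ (i : ℕ)) := by rw [hi]
    apply (wB_dvd_iff (z := z) hwR hw0 _).mpr
    apply qep _ (Subtype.mem _)
    rw [hval, mul_assoc]
    exact mul_mem (pow_mem hgV d) hQv
  obtain ⟨b₀, hb₀⟩ := Fermat.Agent.S18.B12.H638.b2NormalDom R ⟨w, hwR⟩ hirr (chartB R z) hdom
    hsep S hS hNC' b g hng ⟨d, a, hrel⟩
  refine ⟨b₀, b₀.2, ?_⟩
  rw [Ideal.mem_span_singleton] at hb₀
  have h4 := (wB_dvd_iff (z := z) hwR hw0 _).mp hb₀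
  have h5 : ((b - algebraMap (Polynomial R) (chartB R z) g * b₀ : chartB R z) : F) =
      aeval z g * (v - b₀) := by
    push_cast
    show aeval z g * v - ((polyToChart R z g : chartB R z) : F) * (b₀ : F) = _
    rw [coe_polyToChart]
    ring
  rw [h5] at h4
  have h6 := chart_le_V V hRV hzV h4
  have hg0 : aeval z g ≠ 0 := by
    intro h0
    apply hng
    have : g = 0 := by
      apply transcendental_iff_injective.mp hz
      rw [h0, _root_.map_zero]
    rw [this]
    exact dvd_zero _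
  have : (v - b₀) * w⁻¹ = (aeval z g)⁻¹ * (aeval z g * (v - b₀) * w⁻¹) := by
    field_simp
  rw [this]
  exact mul_mem hgunit h6

end Main

end Fermat.Agent.S37.Rim.H383

end
end
-- ===== PACK-END S37/Rim/H383/NormalLift.lean

-- ===== PACK-BEGIN A2/IF/H429/Level.lean
section


/-!
# A2 / IF (helper429): levels `E ⊇ ℚ̄^{I_P}`

For an intermediate field `E` containing the inertia field of `P`, the valuation ring
`R_E = P ∩ E = P.comap (algebraMap E ℚ̄)` is henselian with algebraically closed residue field.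
-/

set_option autoImplicit false
set_option linter.style.haveILetI false
set_option linter.unusedSectionVars false

open scoped Pointwise
open Polynomial

namespace Fermat.Agent.A2.IF.H429

open Fermat.Agent.S55.Bridge Fermat.Agent.S55.Bridge.H594

attribute [local instance] isAlgebraic_Qbar isGalois_Qbar

local notation "Qb" => AlgebraicClosure ℚ

variable (P : ValuationSubring Qb) (E : IntermediateField ℚ Qb)

/-- The inclusion `R_E → P`. -/
noncomputable def inclRE : (P.comap (algebraMap E Qb)) →+* P where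
  toFun x := ⟨algebraMap E Qb (x : E), x.2⟩
  map_one' := Subtype.ext (by simp)
  map_mul' x y := Subtype.ext (by simp)
  map_zero' := Subtype.ext (by simp)
  map_add' x y := Subtype.ext (by simp)

theorem inclRE_coe (x : P.comap (algebraMap E Qb)) :
    ((inclRE P E x : P) : Qb) = ((x : E) : Qb) := rfl

theorem mem_maximalIdeal_RE_iff (x : P.comap (algebraMap E Qb)) :
    x ∈ IsLocalRing.maximalIdeal (P.comap (algebraMap E Qb)) ↔ ((x : E) : Qb) ∈ P.nonunits := by
  rw [← ValuationSubring.coe_mem_nonunits_iff, mem_nonunits_comap_iff]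
  rfl

/-- An element of `ℚ̄` fixed by every automorphism fixing `E` lies in `E`. -/
theorem mem_of_fixed (x : Qb) (hx : ∀ σ : Qb ≃ₐ[ℚ] Qb, (∀ e ∈ E, σ e = e) → σ x = x) :
    x ∈ E := by
  have h1 : x ∈ IntermediateField.fixedField E.fixingSubgroup := by
    rw [IntermediateField.mem_fixedField_iff]
    intro σ hσ
    exact hx σ (fun e he => (IntermediateField.mem_fixingSubgroup_iff E σ).mp hσ e he)
  rwa [InfiniteGalois.fixedField_fixingSubgroup] at h1

/-- An automorphism fixing `E ⊇ E_I` pointwise preserves the non-units of `P`. -/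
theorem map_mem_nonunits_of_fixes (hE : inertiaField P ≤ E) (σ : Qb ≃ₐ[ℚ] Qb)
    (hσ : ∀ e ∈ E, σ e = e) {x : Qb} (hx : x ∈ P.nonunits) : σ x ∈ P.nonunits := by
  obtain ⟨τ, hτ, h⟩ := exists_inertia_apply_eq P σ (fun e he => hσ e (hE he)) x
  rw [h]
  exact mem_nonunits_of_mem_decomp P (decomp_of_inertia P hτ) hx

/-- An automorphism fixing `E ⊇ E_I` pointwise preserves the valuation of `P`. -/
theorem valuation_map_eq_of_fixes (hE : inertiaField P ≤ E) (σ : Qb ≃ₐ[ℚ] Qb)
    (hσ : ∀ e ∈ E, σ e = e) (x : Qb) : P.valuation (σ x) = P.valuation x := by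
  obtain ⟨τ, hτ, h⟩ := exists_inertia_apply_eq P σ (fun e he => hσ e (hE he)) x
  rw [h]
  exact valuation_map_eq P (decomp_of_inertia P hτ) x

/-- **Galois-fixed simple roots.**  Let `f` be a monic polynomial over `R_E`, `E ⊇ E_I`, and
`a₀ ∈ R_E` with `f(a₀) ≡ 0` and `f'(a₀)` a unit.  Then `f` has a root `≡ a₀` in `R_E`. -/
theorem exists_root_RE (hE : inertiaField P ≤ E) (f : (P.comap (algebraMap E Qb) : Type)[X])
    (hf : f.Monic) (a₀ : P.comap (algebraMap E Qb))
    (h₁ : f.eval a₀ ∈ IsLocalRing.maximalIdeal (P.comap (algebraMap E Qb)))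
    (h₂ : IsUnit (f.derivative.eval a₀)) :
    ∃ a : P.comap (algebraMap E Qb), f.IsRoot a ∧
      a - a₀ ∈ IsLocalRing.maximalIdeal (P.comap (algebraMap E Qb)) := by
  let ι := inclRE P E
  let g : (P : Type)[X] := f.map ι
  have hg : g.Monic := hf.map ι
  let φ : (P.comap (algebraMap E Qb)) →+* Qb := P.subtype.comp ι
  have hFg : g.map P.subtype = f.map φ := by
    rw [Polynomial.map_map]
  have hroots : ∀ r ∈ (f.map φ).roots, r ∈ P := fun r hr =>
    mem_of_isRoot_map P g hg r (by rw [hFg]; exact isRoot_of_mem_roots hr)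
  have ha₀P : ((a₀ : E) : Qb) ∈ P := a₀.2
  have heval : (f.map φ).eval ((a₀ : E) : Qb) ∈ P.nonunits := by
    have h3 : (f.map φ).eval (φ a₀) = φ (f.eval a₀) := eval_map_apply φ a₀
    have h4 : φ a₀ = ((a₀ : E) : Qb) := rfl
    rw [h4] at h3
    rw [h3]
    exact (mem_maximalIdeal_RE_iff P E _).mp h₁
  obtain ⟨α, hα, hαa⟩ := exists_root_sub_mem_nonunits P _ (hf.map φ) hroots _ ha₀P heval
  have hαP : α ∈ P := hroots α hα
  have hαroot : (f.map φ).eval α = 0 := isRoot_of_mem_roots hα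
  have hgα : g.IsRoot (⟨α, hαP⟩ : P) := by
    show g.eval _ = 0
    apply Subtype.ext
    have h3 : (g.map P.subtype).eval (P.subtype ⟨α, hαP⟩) = P.subtype (g.eval ⟨α, hαP⟩) :=
      eval_map_apply P.subtype _
    rw [hFg] at h3
    have h4 : P.subtype ⟨α, hαP⟩ = α := rfl
    rw [h4, hαroot] at h3
    exact h3.symm
  have hder : g.derivative.eval (ι a₀) ∉ IsLocalRing.maximalIdeal P := by
    have h3 : g.derivative.eval (ι a₀) = ι (f.derivative.eval a₀) := by
      show (f.map ι).derivative.eval (ι a₀) = _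
      rw [derivative_map, eval_map_apply]
    rw [h3]
    intro hmem
    exact (IsLocalRing.mem_maximalIdeal _).mp hmem (h₂.map ι)
  have hαa' : (⟨α, hαP⟩ : P) - ι a₀ ∈ IsLocalRing.maximalIdeal P := by
    rw [← ValuationSubring.coe_mem_nonunits_iff]
    have h3 : (((⟨α, hαP⟩ : P) - ι a₀ : P) : Qb) = -(((a₀ : E) : Qb) - α) := by
      show α - ((a₀ : E) : Qb) = _
      ring
    rw [h3]
    exact neg_mem hαa
  -- `α` is fixed by every automorphism fixing `E`
  have hfix : ∀ σ : Qb ≃ₐ[ℚ] Qb, (∀ e ∈ E, σ e = e) → σ α = α := by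
    intro σ hσ
    have hσφ : (σ : Qb →+* Qb).comp φ = φ := by
      ext x
      exact hσ _ (x : E).2
    have hσroot : (f.map φ).eval (σ α) = 0 := by
      have h3 : ((f.map φ).map (σ : Qb →+* Qb)).eval ((σ : Qb →+* Qb) α) =
          (σ : Qb →+* Qb) ((f.map φ).eval α) := eval_map_apply (σ : Qb →+* Qb) α
      rw [Polynomial.map_map, hσφ, hαroot, _root_.map_zero] at h3
      exact h3
    have hσαP : σ α ∈ P := by
      apply hroots
      rw [mem_roots (hf.map φ).ne_zero]
      exact hσroot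
    have hgσ : g.IsRoot (⟨σ α, hσαP⟩ : P) := by
      show g.eval _ = 0
      apply Subtype.ext
      have h3 : (g.map P.subtype).eval (P.subtype ⟨σ α, hσαP⟩) =
          P.subtype (g.eval ⟨σ α, hσαP⟩) := eval_map_apply P.subtype _
      rw [hFg] at h3
      have h4 : P.subtype ⟨σ α, hσαP⟩ = σ α := rfl
      rw [h4, hσroot] at h3
      exact h3.symm
    have hσa : (⟨σ α, hσαP⟩ : P) - ι a₀ ∈ IsLocalRing.maximalIdeal P := by
      rw [← ValuationSubring.coe_mem_nonunits_iff]
      have h3 : (((⟨σ α, hσαP⟩ : P) - ι a₀ : P) : Qb) = σ (-(((a₀ : E) : Qb) - α)) := by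
        show σ α - ((a₀ : E) : Qb) = _
        rw [_root_.map_neg, _root_.map_sub, hσ _ (a₀ : E).2]
        ring
      rw [h3]
      exact map_mem_nonunits_of_fixes P E hE σ hσ (neg_mem hαa)
    have key := root_unique_of_derivative_notMem (IsLocalRing.maximalIdeal P) g (ι a₀)
      ⟨α, hαP⟩ ⟨σ α, hσαP⟩ hgα hgσ hder hαa' hσa
    exact (congrArg Subtype.val key).symm
  have hαE : α ∈ E := mem_of_fixed E α hfix
  refine ⟨⟨⟨α, hαE⟩, hαP⟩, ?_, ?_⟩
  · show f.eval _ = 0
    have hφinj : Function.Injective φ := by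
      intro x y hxy
      apply Subtype.ext
      apply Subtype.ext
      exact hxy
    apply hφinj
    rw [_root_.map_zero, ← eval_map_apply φ]
    exact hαroot
  · rw [mem_maximalIdeal_RE_iff]
    have h3 : ((((⟨⟨α, hαE⟩, hαP⟩ : P.comap (algebraMap E Qb)) - a₀ :
        P.comap (algebraMap E Qb)) : E) : Qb) = -(((a₀ : E) : Qb) - α) := by
      show α - ((a₀ : E) : Qb) = _
      ring
    rw [h3]
    exact neg_mem hαa

/-- `R_E` is henselian for `E ⊇ E_I`. -/
theorem henselian_RE (hE : inertiaField P ≤ E) :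
    HenselianLocalRing (P.comap (algebraMap E Qb)) where
  is_henselian f hf a₀ h₁ h₂ := exists_root_RE P E hE f hf a₀ h₁ h₂

/-- The residue field of `R_E` is algebraically closed for `E ⊇ E_I`. -/
theorem isAlgClosed_residueField_RE (q : ℕ) (hq : q.Prime) (hP : P.LiesOverPrime q)
    (hE : inertiaField P ≤ E) :
    IsAlgClosed (IsLocalRing.ResidueField (P.comap (algebraMap E Qb))) := by
  apply IsAlgClosed.of_exists_root
  intro p hpm hpi
  obtain ⟨f, hfp, hfdeg, hfm⟩ := Polynomial.lifts_and_natDegree_eq_and_monic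
    ((Polynomial.mem_lifts p).mpr
      (Polynomial.map_surjective _ IsLocalRing.residue_surjective p)) hpm
  let ι := inclRE P E
  let g : (P : Type)[X] := f.map ι
  have hg : g.Monic := hfm.map ι
  have hgdeg : (g.map P.subtype).degree ≠ 0 := by
    have h1 : (g.map P.subtype).Monic := hg.map _
    have h2 : (g.map P.subtype).natDegree = p.natDegree := by
      rw [hg.natDegree_map P.subtype, hfm.natDegree_map ι, hfdeg]
    have h3 : 0 < p.natDegree := hpi.natDegree_pos
    intro h0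
    have := natDegree_eq_zero_iff_degree_le_zero.mpr h0.le
    omega
  obtain ⟨α, hα⟩ := IsAlgClosed.exists_root (g.map P.subtype) hgdeg
  have hαP : α ∈ P := mem_of_isRoot_map P g hg α hα
  obtain ⟨z, hzP, hzI, hαz⟩ := exists_teichmuller P q hq hP α hαP
  have hzE : z ∈ E := hE hzI
  let zR : P.comap (algebraMap E Qb) := ⟨⟨z, hzE⟩, hzP⟩
  refine ⟨IsLocalRing.residue _ zR, ?_⟩
  rw [← hfp, eval_map_apply, IsLocalRing.residue_eq_zero_iff, mem_maximalIdeal_RE_iff]
  have hgα : g.eval (⟨α, hαP⟩ : P) = 0 := by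
    apply Subtype.ext
    have h3 : (g.map P.subtype).eval (P.subtype ⟨α, hαP⟩) = P.subtype (g.eval ⟨α, hαP⟩) :=
      eval_map_apply P.subtype _
    have h4 : (g.map P.subtype).eval α = 0 := hα
    have h5 : P.subtype ⟨α, hαP⟩ = α := rfl
    rw [h5, h4] at h3
    exact h3.symm
  have h6 : (⟨z, hzP⟩ : P) - ⟨α, hαP⟩ ∣ g.eval (⟨z, hzP⟩ : P) - g.eval (⟨α, hαP⟩ : P) :=
    sub_dvd_eval_sub _ _ g
  rw [hgα, sub_zero] at h6
  obtain ⟨c, hc⟩ := h6
  have h7 : g.eval (⟨z, hzP⟩ : P) ∈ IsLocalRing.maximalIdeal P := by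
    rw [hc]
    apply Ideal.mul_mem_right
    rw [← ValuationSubring.coe_mem_nonunits_iff]
    have h8 : (((⟨z, hzP⟩ : P) - ⟨α, hαP⟩ : P) : Qb) = -(α - z) := by
      show z - α = _
      ring
    rw [h8]
    exact neg_mem hαz
  rw [← ValuationSubring.coe_mem_nonunits_iff] at h7
  have h9 : ((g.eval (⟨z, hzP⟩ : P) : P) : Qb) = (((f.eval zR : P.comap (algebraMap E Qb)) : E) : Qb) := by
    have h10 : g.eval (ι zR) = ι (f.eval zR) := eval_map_apply ι zR
    have h11 : ι zR = ⟨z, hzP⟩ := rfl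
    rw [h11] at h10
    rw [h10]
    rfl
  rw [← h9]
  exact h7


end Fermat.Agent.A2.IF.H429

end
-- ===== PACK-END A2/IF/H429/Level.lean

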