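import Mathlib
import Mathlib.FieldTheory.Galois.Basic
import Mathlib.RingTheory.RootsOfUnity.PrimitiveRoots
import Mathlib.LinearAlgebra.Lagrange
import Mathlib.Data.Int.GCD
import Fermat.Agent.Pack.S33.E4L1
import Fermat.Agent.Pack.S33.E13L2
import Fermat.Agent.Pack.S33.E18L3
import Fermat.Agent.Pack.S33.E16L3
import Fermat.Agent.Pack.S33.E17L1
import Fermat.Agent.Pack.S33.E18L2
import Fermat.Agent.Pack.S33.E15L3
import Fermat.Agent.Pack.S33.E18L0
import Fermat.Agent.Pack.S33.E18L1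
import Fermat.Agent.Pack.S33.E1L1
import Fermat.Agent.Pack.S33.E0L3
import Fermat.Agent.Pack.S33.E12L1
import Fermat.Agent.Pack.S33.E15L2
import Fermat.Agent.Pack.S33.E17L2
import Fermat.Agent.Pack.S33.E3L1
import Fermat.Agent.Pack.S33.E11L1

-- ===== PACK-BEGIN S29/H126/M3.lean
section
/-
S29 row, piece `M3` (helper126): the Galois action on `J₀(N)(ℚ̄)` is smooth — every class is fixed
by an open subgroup `Gal(ℚ̄/L)`, `L/ℚ` finite.

Route: every element of the function field `ℚ̄(X₀(N))` (a subfield of `ℚ̄((q))` generated by `ℚ̄` and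
series with rational coefficients) is fixed by an open subgroup; a place `v` is determined, among the
finitely many zeros of a function `t` with `v(t) > 0`, by finitely many functions separating it from
the other zeros; a divisor has finite support.
-/




set_option autoImplicit false

noncomputable section

namespace Fermat.Agent.S29.H126

open ModularCurve AlgebraicCurve IntermediateField
open Fermat.Agent.S24 Fermat.Agent.Lib.RR.H804

/-- A property of Galois elements which holds on an open subgroup `Gal(ℚ̄/L)`, `L/ℚ` finite. -/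
def M3OpenFixed (P : GQ → Prop) : Prop :=
  ∃ L : IntermediateField ℚ (AlgebraicClosure ℚ), FiniteDimensional ℚ L ∧
    ∀ σ : GQ, (∀ y ∈ L, σ y = y) → P σ

theorem M3OpenFixed.mono {P Q : GQ → Prop} (h : M3OpenFixed P) (hPQ : ∀ σ, P σ → Q σ) :
    M3OpenFixed Q := by
  obtain ⟨L, hL, hP⟩ := h
  exact ⟨L, hL, fun σ hσ => hPQ σ (hP σ hσ)⟩

theorem M3OpenFixed.of_forall {P : GQ → Prop} (h : ∀ σ, P σ) : M3OpenFixed P :=
  ⟨⊥, inferInstance, fun σ _ => h σ⟩

theorem M3OpenFixed.and {P Q : GQ → Prop} (hP : M3OpenFixed P) (hQ : M3OpenFixed Q) :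
    M3OpenFixed (fun σ => P σ ∧ Q σ) := by
  obtain ⟨L₁, hL₁, h₁⟩ := hP
  obtain ⟨L₂, hL₂, h₂⟩ := hQ
  refine ⟨L₁ ⊔ L₂, inferInstance,
    fun σ hσ => ⟨h₁ σ fun y hy => hσ y ?_, h₂ σ fun y hy => hσ y ?_⟩⟩
  · exact (le_sup_left : L₁ ≤ L₁ ⊔ L₂) hy
  · exact (le_sup_right : L₂ ≤ L₁ ⊔ L₂) hy

theorem M3OpenFixed.finset {ι : Type*} (s : Finset ι) {P : ι → GQ → Prop}
    (h : ∀ i ∈ s, M3OpenFixed (P i)) : M3OpenFixed (fun σ => ∀ i ∈ s, P i σ) := by
  classical
  induction s using Finset.induction_on with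
  | empty => exact .of_forall (fun σ i hi => absurd hi (Finset.notMem_empty i))
  | insert a s ha ih =>
    have h1 := h a (Finset.mem_insert_self a s)
    have h2 := ih (fun i hi => h i (Finset.mem_insert_of_mem hi))
    refine (h1.and h2).mono fun σ hσ i hi => ?_
    rcases Finset.mem_insert.mp hi with rfl | hi
    · exact hσ.1
    · exact hσ.2 i hi

/-- Every element of the base-changed field is fixed (coefficientwise) by an open subgroup. -/
theorem M3_coeffMap_openFixed (F₀ : IntermediateField ℚ (LaurentSeries ℚ))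
    {f : LaurentSeries (AlgebraicClosure ℚ)}
    (hf : f ∈ laurentBaseChange (AlgebraicClosure ℚ) F₀) :
    M3OpenFixed (fun σ => coeffMap (σ : AlgebraicClosure ℚ →+* AlgebraicClosure ℚ) f = f) := by
  rw [mem_laurentBaseChange_iff] at hf
  induction hf using Subfield.closure_induction with
  | mem y hy =>
      rcases hy with ⟨a, rfl⟩ | ⟨z, hz, rfl⟩
      · have ha : IsIntegral ℚ a := ((AlgebraicClosure.isAlgebraic ℚ).isAlgebraic a).isIntegral
        refine ⟨ℚ⟮a⟯, adjoin.finiteDimensional ha, fun σ hσ => ?_⟩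
        show coeffMap (σ : AlgebraicClosure ℚ →+* AlgebraicClosure ℚ) (algebraMap _ _ a) = _
        rw [coeffMap_algebraMap]
        exact congrArg _ (hσ a (mem_adjoin_simple_self ℚ a))
      · exact .of_forall fun σ => coeffMap_coeffEmb σ z
  | one => exact .of_forall fun σ => map_one _
  | add x y _ _ hx hy => exact (hx.and hy).mono fun σ h => by rw [map_add, h.1, h.2]
  | neg x _ hx => exact hx.mono fun σ h => by rw [map_neg, h]
  | inv x _ hx => exact hx.mono fun σ h => by rw [map_inv₀, h]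
  | mul x y _ _ hx hy => exact (hx.and hy).mono fun σ h => by rw [map_mul, h.1, h.2]

/-- Two distinct places are separated by a function. -/
theorem M3_exists_mem_not_mem {K F : Type*} [Field K] [Field F] [Algebra K F] {v w : Place K F}
    (h : w ≠ v) : ∃ g : F, g ∈ v.toValuationSubring ∧ g ∉ w.toValuationSubring := by
  by_contra hcon
  have hle : v.toValuationSubring ≤ w.toValuationSubring := fun g hg =>
    by_contra fun hgw => hcon ⟨g, hg, hgw⟩
  exact h (Place.ext (ValuationSubring.eq_of_le_of_ne_top _ hle w.ne_top').symm)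

variable (N : ℕ) [NeZero N]

omit [NeZero N] in
/-- Every function in `ℚ̄(X₀(N))` is fixed by an open subgroup. -/
theorem M3_elt_openFixed (f : FF N) :
    M3OpenFixed (fun σ => arithmeticGalois (modularFunctionFieldFull N) σ • f = f) :=
  (M3_coeffMap_openFixed _ f.2).mono fun σ h =>
    Subtype.ext (by rw [coe_arithmeticGalois_smul]; exact h)

/-- Every place of `ℚ̄(X₀(N))` is fixed by an open subgroup. -/
theorem M3_place_openFixed (v : Place Kbar (FF N)) :
    M3OpenFixed (fun σ => arithmeticGalois (modularFunctionFieldFull N) σ • v = v) := by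
  classical
  obtain ⟨x, hx⟩ : ∃ x : FF N, x ∉ v.toValuationSubring := by
    by_contra h
    exact v.ne_top' (eq_top_iff.mpr fun x _ => by_contra fun hx => h ⟨x, hx⟩)
  have hx0 : x ≠ 0 := fun h0 => hx (h0 ▸ _root_.ZeroMemClass.zero_mem _)
  set t : FF N := x⁻¹ with ht
  have htpos : 0 < v.ord t := by
    have h1 : ¬ 0 ≤ v.ord x := mt (FF.mem_of_ord_nonneg v) hx
    rw [ht, v.ord_inv]
    omega
  have htK : t ∉ (algebraMap Kbar (FF N)).range := by
    rintro ⟨a, ha⟩
    rw [← ha, FF.ord_algebraMap] at htpos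
    exact lt_irrefl _ htpos
  have htr : Transcendental Kbar t := FF.transcendental_of_not_mem_range htK
  have := finiteDimensional_jF N
  have : FiniteDimensional Kbar⟮t⟯ (FF N) :=
    FF.finiteDimensional_adjoin_of_transcendental (transcendental_jF N) htr
  have hZ : {w : Place Kbar (FF N) | 0 < w.ord t}.Finite := FF.finite_setOf_ord_pos htr
  have hQ : ∀ w ∈ hZ.toFinset, M3OpenFixed
      (fun σ => arithmeticGalois (modularFunctionFieldFull N) σ • v = w → w = v) := by
    intro w _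
    by_cases hwv : w = v
    · exact .of_forall fun σ _ => hwv
    · obtain ⟨g, hgv, hgw⟩ := M3_exists_mem_not_mem hwv
      refine (M3_elt_openFixed N g).mono fun σ hσ hσv => ?_
      exfalso
      apply hgw
      rw [← hσv, SemilinearAut.smul_toValuationSubring, ← hσ]
      exact ValuationSubring.smul_mem_pointwise_smul _ g _ hgv
  refine ((M3_elt_openFixed N t).and (M3OpenFixed.finset _ hQ)).mono fun σ hσ => ?_
  obtain ⟨hσt, hσQ⟩ := hσ
  have hmem : arithmeticGalois (modularFunctionFieldFull N) σ • v ∈ hZ.toFinset := by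
    rw [Set.Finite.mem_toFinset]
    show 0 < (arithmeticGalois (modularFunctionFieldFull N) σ • v).ord t
    have := SemilinearAut.ord_smul (arithmeticGalois (modularFunctionFieldFull N) σ) v t
    rw [hσt] at this
    rw [this]
    exact htpos
  exact hσQ _ hmem rfl

/-- Every divisor of `ℚ̄(X₀(N))` is fixed by an open subgroup. -/
theorem M3_divisor_openFixed (D : Divisor Kbar (FF N)) :
    M3OpenFixed (fun σ => arithmeticGalois (modularFunctionFieldFull N) σ • D = D) := by
  refine (M3OpenFixed.finset D.support (fun v _ => M3_place_openFixed N v)).mono fun σ hσ => ?_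
  rw [SemilinearAut.divisor_smul_def]
  conv_rhs => rw [← Finsupp.mapDomain_id (v := D)]
  exact Finsupp.mapDomain_congr fun v hv => hσ v hv

/-- PIECE `M3`: the Galois action on `J₀(N)(ℚ̄)` is smooth. -/
theorem M3_jZero_smooth (x : JZero N) :
    ∃ L : IntermediateField ℚ (AlgebraicClosure ℚ), FiniteDimensional ℚ L ∧
      ∀ σ : GQ, (∀ y ∈ L, σ y = y) → σ • x = x := by
  obtain ⟨D, rfl⟩ := Pic0.mk_surjective x
  refine (M3_divisor_openFixed N (D : Divisor Kbar (FF N))).mono fun σ hσ => ?_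
  rw [galois_smul_pic0_def, SemilinearAut.pic0_smul_mk]
  exact congrArg Pic0.mk (Subtype.ext (by rw [SemilinearAut.coe_degZeroSMulHom]; exact hσ))

end Fermat.Agent.S29.H126

end
end
-- ===== PACK-END S29/H126/M3.lean

-- ===== PACK-BEGIN S29/M3.lean
section
/-
S29 row, PIECE `M3` (helper126): the Galois action on `J₀(N)(ℚ̄)` is smooth.
Statement exactly as in `SkeletonM.lean`; proof in `Fermat/Agent/S29/H126/M3.lean`.
-/



set_option autoImplicit false

noncomputable section

namespace Fermat.Agent.S29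

open ModularCurve AlgebraicCurve

variable (N : ℕ) [NeZero N]

/-- PIECE `M3`: the Galois action on `J₀(N)(ℚ̄)` is smooth. -/
theorem jZero_smooth (x : JZero N) :
    ∃ L : IntermediateField ℚ (AlgebraicClosure ℚ), FiniteDimensional ℚ L ∧
      ∀ σ : GQ, (∀ y ∈ L, σ y = y) → σ • x = x :=
  H126.M3_jZero_smooth N x

end Fermat.Agent.S29

end
end
-- ===== PACK-END S29/M3.lean

-- ===== PACK-BEGIN S18/H558/BranchT2.lean
section


/-!
# S18 / MOD M2 (part 2): ramification of `F_M / ℚ̄(t)` for the Hauptmodul `t = t₂` of `X₀(2)`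

Hypothesis (proved elsewhere, piece c3-i): `t ∈ FF M` with `j * t ^ 2 = (t + 256) ^ 3`.
Then `F_M / ℚ̄(t)` is unramified outside `t ∈ {0, -64, ∞}`:

* `ord_t2_sub_eq_one` : `c ≠ 0`, `c ≠ -64`, `0 < v.ord (t - c)` ⟹ `v.ord (t - c) = 1`;
* `ord_t2_add_64_dvd_two` : `0 < v.ord (t + 64)` ⟹ `v.ord (t + 64) ∣ 2`;
* `ord_t2_inv_sub_eq_one` : the same in the coordinate `1/t` (chart at infinity).
-/

set_option autoImplicit false

noncomputable section

open AlgebraicCurve ModularCurve

namespace Fermat.Agent.S18.H558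

open Fermat.Agent.S24

section Generic

variable {K F : Type*} [Field K] [Field F] [Algebra K F] (v : Place K F)

/-- A nonzero constant plus an element of positive order has order `0`. -/
theorem ord_const_add {g : K} (hg : g ≠ 0) {z : F} (hz : 0 < v.ord z) :
    v.ord (algebraMap K F g + z) = 0 := by
  have hg' : algebraMap K F g ≠ 0 := (map_ne_zero _).2 hg
  have h0 : v.ord (algebraMap K F g) = 0 := H117.ord_algebraMap v g
  rw [H117.ord_add_eq_of_lt v (by rw [h0]; exact hz) hg', h0]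

/-- A nonzero constant plus `T * y` with `0 < ord T`, `y` integral, has order `0`. -/
theorem ord_const_add_mul {g : K} (hg : g ≠ 0) {T y : F} (hT : 0 < v.ord T)
    (hy : y ∈ v.toValuationSubring) : v.ord (algebraMap K F g + T * y) = 0 := by
  rcases eq_or_ne y 0 with rfl | hy0
  · rw [mul_zero, add_zero]; exact H117.ord_algebraMap v g
  · have hT0 : T ≠ 0 := H117.ne_zero_of_ord_ne_zero v hT.ne'
    refine ord_const_add v hg ?_
    rw [v.ord_mul hT0 hy0]
    have := H117.ord_nonneg_of_mem v hy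
    omega

/-- If `0 < ord (t - c)` then `t` is integral at `v`. -/
theorem mem_of_ord_sub_pos {t : F} {c : K} (h : 0 < v.ord (t - algebraMap K F c)) :
    t ∈ v.toValuationSubring := by
  have h1 : t - algebraMap K F c ∈ v.toValuationSubring := H117.mem_of_ord_nonneg v h.le
  have h2 : algebraMap K F c ∈ v.toValuationSubring := v.algebraMap_mem' c
  have := add_mem h1 h2
  rwa [sub_add_cancel] at this

/-- If `0 < ord (t - c)` and `c ≠ 0` then `ord t = 0`. -/
theorem ord_eq_zero_of_ord_sub_pos {t : F} {c : K} (hc : c ≠ 0)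
    (h : 0 < v.ord (t - algebraMap K F c)) : v.ord t = 0 := by
  have := ord_const_add v hc h
  rwa [add_sub_cancel] at this

/-- Nonvanishing version of `ord_const_add_mul`. -/
theorem const_add_mul_ne_zero {g : K} (hg : g ≠ 0) {T y : F} (hT : 0 < v.ord T)
    (hy : y ∈ v.toValuationSubring) : algebraMap K F g + T * y ≠ 0 := by
  intro h
  rcases eq_or_ne y 0 with rfl | hy0
  · rw [mul_zero, add_zero] at h
    exact hg ((map_eq_zero _).1 h)
  · have hT0 : T ≠ 0 := H117.ne_zero_of_ord_ne_zero v hT.ne'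
    have h1 : T * y = algebraMap K F (-g) := by
      rw [map_neg, eq_neg_iff_add_eq_zero, add_comm]; exact h
    have h2 := congrArg v.ord h1
    rw [v.ord_mul hT0 hy0, H117.ord_algebraMap] at h2
    have := H117.ord_nonneg_of_mem v hy
    omega

/-- **Tower lemma.**  If `J * D = T ^ k * U` with `D`, `U` units at `v`, then
`ord J = k * ord T`. -/
theorem ord_eq_of_key {J D T U : F} (k : ℕ) (hkey : J * D = T ^ k * U)
    (hD0 : D ≠ 0) (hD : v.ord D = 0) (hU0 : U ≠ 0) (hU : v.ord U = 0) (hT0 : T ≠ 0) :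
    J ≠ 0 ∧ v.ord J = k * v.ord T := by
  have hJ0 : J ≠ 0 := by
    intro h
    rw [h, zero_mul] at hkey
    exact (mul_ne_zero (pow_ne_zero k hT0) hU0) hkey.symm
  refine ⟨hJ0, ?_⟩
  have h1 := congrArg v.ord hkey
  rw [v.ord_mul hJ0 hD0, v.ord_mul (pow_ne_zero k hT0) hU0, H117.ord_pow, hD, hU] at h1
  simpa using h1

/-- A positive integer `e` with `k * e ∣ k` (`k > 0`) is `1`. -/
theorem eq_one_of_mul_dvd {k : ℕ} (hk : 0 < k) {e : ℤ} (he : 0 < e) (h : (k : ℤ) * e ∣ (k : ℤ)) :
    e = 1 := by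
  have hk' : (k : ℤ) ≠ 0 := by exact_mod_cast hk.ne'
  have h1 : (k : ℤ) * e ∣ (k : ℤ) * 1 := by rwa [mul_one]
  have h2 : e ∣ 1 := (mul_dvd_mul_iff_left hk').mp h1
  exact Int.eq_one_of_dvd_one he.le h2

end Generic

section T2

variable (M : ℕ) [NeZero M] (t : FF M) (hid : jF M * t ^ 2 = (t + 256) ^ 3)

include hid

theorem t2_ne_zero : t ≠ 0 := by
  rintro rfl
  norm_num at hid

/-- Places over `t = -64`: ramification index `1` or `2`. -/
theorem ord_t2_add_64_dvd_two (v : Place Kbar (FF M))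
    (hv : 0 < v.ord (t - algebraMap Kbar (FF M) (-64))) :
    v.ord (t - algebraMap Kbar (FF M) (-64)) ∣ 2 := by
  set T := t - algebraMap Kbar (FF M) (-64) with hT
  have ht0 : t ≠ 0 := t2_ne_zero M t hid
  have hT0 : T ≠ 0 := H117.ne_zero_of_ord_ne_zero v hv.ne'
  have htv : v.ord t = 0 := ord_eq_zero_of_ord_sub_pos v (by norm_num) hv
  have htmem : t ∈ v.toValuationSubring := mem_of_ord_sub_pos v hv
  have hTmem : T ∈ v.toValuationSubring := H117.mem_of_ord_nonneg v hv.le
  -- (j - 1728) t^2 = (t + 64) (t - 512)^2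
  have key : (jF M - algebraMap Kbar (FF M) 1728) * t ^ 2
      = T * (algebraMap Kbar (FF M) (-576) + T * 1) ^ 2 := by
    have e1 : algebraMap Kbar (FF M) (-64) = -64 := by rw [map_neg, map_ofNat]
    have e2 : algebraMap Kbar (FF M) 1728 = 1728 := map_ofNat _ _
    have e3 : algebraMap Kbar (FF M) (-576) = -576 := by rw [map_neg, map_ofNat]
    rw [hT, e1, e2, e3]
    linear_combination hid
  have hU : v.ord (algebraMap Kbar (FF M) (-576) + T * 1) = 0 :=
    ord_const_add_mul v (by norm_num) hv (one_mem _)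
  have hU0 : algebraMap Kbar (FF M) (-576) + T * 1 ≠ 0 := by
    intro h
    have h2 : t ^ 2 ≠ 0 := pow_ne_zero 2 ht0
    rw [h] at key
    simp only [ne_eq, OfNat.ofNat_ne_zero, not_false_eq_true, zero_pow, mul_zero, mul_eq_zero,
      h2, or_false] at key
    -- j = 1728, so `j` would be constant; contradiction with hid? use orders instead
    have hj : jF M = algebraMap Kbar (FF M) 1728 := sub_eq_zero.mp key
    have ht512 : t = algebraMap Kbar (FF M) 512 := by
      have : t = algebraMap Kbar (FF M) (-64) + T := by rw [hT]; ring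
      have hT' : T = algebraMap Kbar (FF M) 576 := by
        have : T * 1 = -algebraMap Kbar (FF M) (-576) := by
          rw [eq_neg_iff_add_eq_zero, add_comm]; exact h
        rw [mul_one] at this
        rw [this, ← map_neg]; norm_num
      rw [this, hT', ← map_add]; norm_num
    have : v.ord T = 0 := by
      have hT' : T = algebraMap Kbar (FF M) 576 := by
        rw [hT, ht512, ← map_sub]; norm_num
      rw [hT']; exact H117.ord_algebraMap v _
    omega
  have hj0 : jF M - algebraMap Kbar (FF M) 1728 ≠ 0 := by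
    intro h
    rw [h, zero_mul] at key
    have := mul_ne_zero hT0 (pow_ne_zero 2 hU0)
    exact this key.symm
  have hord : v.ord (jF M - algebraMap Kbar (FF M) 1728) = v.ord T := by
    have h1 := congrArg v.ord key
    rw [v.ord_mul hj0 (pow_ne_zero 2 ht0), v.ord_mul hT0 (pow_ne_zero 2 hU0),
      H117.ord_pow, H117.ord_pow, htv, hU] at h1
    simpa using h1
  have hpos : 0 < v.ord (jF M - algebraMap Kbar (FF M) 1728) := by rw [hord]; exact hv
  have := ord_j_sub_1728_dvd_two M v hpos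
  rwa [hord] at this

end T2

end Fermat.Agent.S18.H558

namespace Fermat.Agent.S18.H558

open Fermat.Agent.S24

section T2main

variable (M : ℕ) [NeZero M] (t : FF M) (hid : jF M * t ^ 2 = (t + 256) ^ 3)

include hid

/-- **`F_M / ℚ̄(t₂)` is unramified outside `t₂ ∈ {0, -64, ∞}`.** -/
theorem ord_t2_sub_eq_one (c : Kbar) (hc0 : c ≠ 0) (hc64 : c ≠ -64) (v : Place Kbar (FF M))
    (hv : 0 < v.ord (t - algebraMap Kbar (FF M) c)) :
    v.ord (t - algebraMap Kbar (FF M) c) = 1 := by
  set C : FF M := algebraMap Kbar (FF M) c with hC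
  set T := t - C with hT
  have ht0 : t ≠ 0 := t2_ne_zero M t hid
  have hT0 : T ≠ 0 := H117.ne_zero_of_ord_ne_zero v hv.ne'
  have htv : v.ord t = 0 := ord_eq_zero_of_ord_sub_pos v hc0 hv
  have htmem : t ∈ v.toValuationSubring := mem_of_ord_sub_pos v hv
  have hCmem : C ∈ v.toValuationSubring := v.algebraMap_mem' c
  have hC0 : C ≠ 0 := (map_ne_zero _).2 hc0
  have hCv : v.ord C = 0 := H117.ord_algebraMap v c
  have ht2 : v.ord (t ^ 2) = 0 := by rw [H117.ord_pow, htv]; simp
  by_cases h256 : c = -256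
  · -- `j t² = (t + 256)³`
    have hCe : C = -256 := by rw [hC, h256, map_neg, map_ofNat]
    have key : jF M * t ^ 2 = T ^ 3 * 1 := by
      rw [hT, hCe]; linear_combination hid
    obtain ⟨hJ0, hJ⟩ := ord_eq_of_key v 3 key (pow_ne_zero 2 ht0) ht2 one_ne_zero v.ord_one hT0
    have hpos : 0 < v.ord (jF M) := by rw [hJ]; positivity
    have h3 := ord_j_dvd_three M v hpos
    rw [hJ] at h3
    exact eq_one_of_mul_dvd (k := 3) (by norm_num) hv (by exact_mod_cast h3)
  by_cases h512 : c = 512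
  · -- `(j - 1728) t² = (t - 512)² (t + 64)`
    have hCe : C = 512 := by rw [hC, h512, map_ofNat]
    have e2 : algebraMap Kbar (FF M) 1728 = 1728 := map_ofNat _ _
    have e3 : algebraMap Kbar (FF M) 576 = 576 := map_ofNat _ _
    have key : (jF M - algebraMap Kbar (FF M) 1728) * t ^ 2
        = T ^ 2 * (algebraMap Kbar (FF M) 576 + T * 1) := by
      rw [hT, hCe, e2, e3]; linear_combination hid
    obtain ⟨hJ0, hJ⟩ := ord_eq_of_key v 2 key (pow_ne_zero 2 ht0) ht2
      (const_add_mul_ne_zero v (by norm_num) hv (one_mem _))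
      (ord_const_add_mul v (by norm_num) hv (one_mem _)) hT0
    have hpos : 0 < v.ord (jF M - algebraMap Kbar (FF M) 1728) := by rw [hJ]; positivity
    have h2 := ord_j_sub_1728_dvd_two M v hpos
    rw [hJ] at h2
    exact eq_one_of_mul_dvd (k := 2) (by norm_num) hv (by exact_mod_cast h2)
  · -- generic case
    set a : Kbar := (c + 256) ^ 3 / c ^ 2 with ha
    have hc2 : c ^ 2 ≠ 0 := pow_ne_zero 2 hc0
    have hac : a * c ^ 2 = (c + 256) ^ 3 := by rw [ha]; field_simp
    have ha0 : a ≠ 0 := by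
      rw [ha]
      refine div_ne_zero (pow_ne_zero 3 ?_) hc2
      intro h
      exact h256 (eq_neg_of_add_eq_zero_left h)
    have ha1728 : a ≠ 1728 := by
      intro h
      rw [h] at hac
      have : (c + 64) * (c - 512) ^ 2 = 0 := by linear_combination -hac
      rcases mul_eq_zero.mp this with h1 | h1
      · exact hc64 (eq_neg_of_add_eq_zero_left h1)
      · exact h512 (sub_eq_zero.mp (pow_eq_zero_iff (by norm_num) |>.mp h1))
    set q : Kbar := c * (c + 256) ^ 2 * (c - 512) with hq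
    have hq0 : q ≠ 0 := by
      rw [hq]
      refine mul_ne_zero (mul_ne_zero hc0 (pow_ne_zero 2 ?_)) (sub_ne_zero.mpr h512)
      intro h
      exact h256 (eq_neg_of_add_eq_zero_left h)
    have hA : algebraMap Kbar (FF M) a * C ^ 2 = (C + 256) ^ 3 := by
      have := congrArg (algebraMap Kbar (FF M)) hac
      simpa [map_mul, map_pow, map_add, map_ofNat] using this
    have hQ : algebraMap Kbar (FF M) q = C * (C + 256) ^ 2 * (C - 512) := by
      rw [hq]; simp [map_mul, map_pow, map_add, map_sub, map_ofNat, hC]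
    set W : FF M := t * C ^ 2 + C ^ 3 - 196608 * C - 16777216 with hW
    have hWmem : W ∈ v.toValuationSubring := by
      have h1 : (196608 : FF M) ∈ v.toValuationSubring := by
        have := v.algebraMap_mem' (196608 : Kbar); rwa [map_ofNat] at this
      have h2 : (16777216 : FF M) ∈ v.toValuationSubring := by
        have := v.algebraMap_mem' (16777216 : Kbar); rwa [map_ofNat] at this
      exact sub_mem (sub_mem (add_mem (mul_mem htmem (pow_mem hCmem 2)) (pow_mem hCmem 3))
        (mul_mem h1 hCmem)) h2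
    have key : (jF M - algebraMap Kbar (FF M) a) * (t ^ 2 * C ^ 2)
        = T ^ 1 * (algebraMap Kbar (FF M) q + T * W) := by
      rw [hQ, hW, hT]
      linear_combination C ^ 2 * hid - t ^ 2 * hA
    have hD0 : t ^ 2 * C ^ 2 ≠ 0 := mul_ne_zero (pow_ne_zero 2 ht0) (pow_ne_zero 2 hC0)
    have hD : v.ord (t ^ 2 * C ^ 2) = 0 := by
      rw [v.ord_mul (pow_ne_zero 2 ht0) (pow_ne_zero 2 hC0), ht2, H117.ord_pow, hCv]; simp
    obtain ⟨hJ0, hJ⟩ := ord_eq_of_key v 1 key hD0 hD
      (const_add_mul_ne_zero v hq0 hv hWmem) (ord_const_add_mul v hq0 hv hWmem) hT0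
    have hJ' : v.ord (jF M - algebraMap Kbar (FF M) a) = v.ord T := by simpa using hJ
    have hpos : 0 < v.ord (jF M - algebraMap Kbar (FF M) a) := by rw [hJ']; exact hv
    rw [← hJ']
    exact ord_j_sub_eq_one M a ha0 ha1728 v hpos

/-- The same statement in the coordinate `s = 1/t` (chart at infinity): unramified outside
`s ∈ {0, -1/64}`. -/
theorem ord_t2_inv_sub_eq_one (s : Kbar) (hs0 : s ≠ 0) (hs64 : s ≠ -(1 / 64))
    (v : Place Kbar (FF M)) (hv : 0 < v.ord (t⁻¹ - algebraMap Kbar (FF M) s)) :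
    v.ord (t⁻¹ - algebraMap Kbar (FF M) s) = 1 := by
  have ht0 : t ≠ 0 := t2_ne_zero M t hid
  have hti : v.ord t⁻¹ = 0 := ord_eq_zero_of_ord_sub_pos v hs0 hv
  have htv : v.ord t = 0 := by rw [v.ord_inv] at hti; omega
  set S : FF M := algebraMap Kbar (FF M) s with hS
  have hS0 : S ≠ 0 := (map_ne_zero _).2 hs0
  have hSv : v.ord S = 0 := H117.ord_algebraMap v s
  -- `t⁻¹ - s = -(s / t) (t - 1/s)`
  have hrel : t⁻¹ - S = (-(S * t⁻¹)) * (t - algebraMap Kbar (FF M) s⁻¹) := by
    rw [map_inv₀, ← hS]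
    have h1 : S * S⁻¹ = 1 := mul_inv_cancel₀ hS0
    have h2 : t * t⁻¹ = 1 := mul_inv_cancel₀ ht0
    linear_combination (-t⁻¹) * h1 + S * h2
  have hne1 : -(S * t⁻¹) ≠ 0 := neg_ne_zero.mpr (mul_ne_zero hS0 (inv_ne_zero ht0))
  have hord1 : v.ord (-(S * t⁻¹)) = 0 := by
    rw [H117.ord_neg, v.ord_mul hS0 (inv_ne_zero ht0), hSv, hti]; rfl
  have hne2 : t - algebraMap Kbar (FF M) s⁻¹ ≠ 0 := by
    intro h
    rw [h, mul_zero] at hrel
    rw [hrel, v.ord_zero] at hv
    exact lt_irrefl _ hv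
  have hord : v.ord (t⁻¹ - S) = v.ord (t - algebraMap Kbar (FF M) s⁻¹) := by
    rw [hrel, v.ord_mul hne1 hne2, hord1, zero_add]
  rw [hord] at hv ⊢
  refine ord_t2_sub_eq_one M t hid s⁻¹ (inv_ne_zero hs0) ?_ v hv
  intro h
  apply hs64
  have : s = (s⁻¹)⁻¹ := (inv_inv s).symm
  rw [this, h]
  norm_num

end T2main

end Fermat.Agent.S18.H558

namespace Fermat.Agent.S18.H558

open Fermat.Agent.S24

/-- `j`-line, chart at infinity: in the coordinate `s = 1/j`, `F_N / ℚ̄(j)` is unramified outside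
`s ∈ {0, 1/1728}`. -/
theorem ord_j_inv_sub_eq_one (N : ℕ) [NeZero N] (s : Kbar) (hs0 : s ≠ 0) (hs : s ≠ 1 / 1728)
    (v : Place Kbar (FF N)) (hv : 0 < v.ord ((jF N)⁻¹ - algebraMap Kbar (FF N) s)) :
    v.ord ((jF N)⁻¹ - algebraMap Kbar (FF N) s) = 1 := by
  have hti : v.ord (jF N)⁻¹ = 0 := ord_eq_zero_of_ord_sub_pos v hs0 hv
  have ht0 : jF N ≠ 0 := by
    intro h
    rw [h, inv_zero, zero_sub, H117.ord_neg, H117.ord_algebraMap] at hv
    exact lt_irrefl _ hv
  set S : FF N := algebraMap Kbar (FF N) s with hS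
  have hS0 : S ≠ 0 := (map_ne_zero _).2 hs0
  have hSv : v.ord S = 0 := H117.ord_algebraMap v s
  have hrel : (jF N)⁻¹ - S = (-(S * (jF N)⁻¹)) * (jF N - algebraMap Kbar (FF N) s⁻¹) := by
    rw [map_inv₀, ← hS]
    have h1 : S * S⁻¹ = 1 := mul_inv_cancel₀ hS0
    have h2 : jF N * (jF N)⁻¹ = 1 := mul_inv_cancel₀ ht0
    linear_combination (-(jF N)⁻¹) * h1 + S * h2
  have hne1 : -(S * (jF N)⁻¹) ≠ 0 := neg_ne_zero.mpr (mul_ne_zero hS0 (inv_ne_zero ht0))
  have hord1 : v.ord (-(S * (jF N)⁻¹)) = 0 := by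
    rw [H117.ord_neg, v.ord_mul hS0 (inv_ne_zero ht0), hSv, hti]; rfl
  have hne2 : jF N - algebraMap Kbar (FF N) s⁻¹ ≠ 0 := by
    intro h
    rw [h, mul_zero] at hrel
    rw [hrel, v.ord_zero] at hv
    exact lt_irrefl _ hv
  have hord : v.ord ((jF N)⁻¹ - S) = v.ord (jF N - algebraMap Kbar (FF N) s⁻¹) := by
    rw [hrel, v.ord_mul hne1 hne2, hord1, zero_add]
  rw [hord] at hv ⊢
  refine ord_j_sub_eq_one N s⁻¹ (inv_ne_zero hs0) ?_ v hv
  intro h
  apply hs
  have : s = (s⁻¹)⁻¹ := (inv_inv s).symm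
  rw [this, h]
  norm_num

end Fermat.Agent.S18.H558

end
end
-- ===== PACK-END S18/H558/BranchT2.lean

-- ===== PACK-BEGIN S56/FO/H6/CEMain.lean
section





/-!
# S56 / FLAT-O / leaf CE, unconditional form (helper6)

* `unrVal1 : UnrVal1Statement` (VG1), from the landed `Fermat.Agent.S56.H66.vg1_le` (helper66).
* `connEt : ConnEtStatement` (CE): kernel of reduction `⊆` inertia augmentation.
* `redKer_eq_closure`: for `p` odd and `p • M = 0`, the kernel of reduction `H906.redKer` of a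
  Hopf lattice IS the subgroup generated by the `act σ y - y`, `σ ∈ I_P`
  (`⊇` is `H906.closure_le_redKer` of helper906).
* `inf_closure_le`: for a `G_ℚ`-stable subgroup `E ≤ M`,
  `I_aug M ∩ E ≤ I_aug E` — the step of the FLAT-O assembly which needs CE
  (kills the lower-left class; see `coord/S56-FLAT-O-CE-helper6.md`, §3, S2).
-/

set_option autoImplicit false
set_option linter.style.haveILetI false
set_option linter.unusedSectionVars false

noncomputable section

namespace Fermat.Agent.S56.FO.H6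

open Fermat.Agent.S56

/-- (VG1), from helper66's landed `vg1_le`. -/
theorem unrVal1 : UnrVal1Statement := fun p hp P hP ζ hζ y hfix hy =>
  Fermat.Agent.S56.H66.vg1_le P p hp hP ζ hζ y ((P.mem_nonunits_iff).mpr hy) hfix

/-- **(CE)**, unconditional. -/
theorem connEt : ConnEtStatement := connEt_of unrVal1

/-- The kernel of reduction of a Hopf lattice killed by `p` (`p` odd) is the augmentation
subgroup of inertia. -/
theorem redKer_eq_closure {p : ℕ} [Fact p.Prime] (hp2 : p ≠ 2) {M : Type} [AddCommGroup M]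
    [Finite M] {act : GQ → M → M} {Λ : Subalgebra (H906.Zp p) (M → Qb)}
    (hΛ : H906.IsHL p act Λ) (hpM : ∀ x : M, p • x = 0) (P : ValuationSubring Qb)
    (hP : P.LiesOverPrime p) :
    H906.redKer P hΛ hP =
      AddSubgroup.closure {z : M | ∃ σ ∈ P.inertiaSubgroupIn ℚ, ∃ y : M, z = act σ y - y} := by
  refine le_antisymm ?_ (H906.closure_le_redKer P hΛ hP)
  intro x hx
  exact connEt p hp2 M act Λ hΛ hpM P hP x ((H906.mem_redKer P hΛ hP x).mp hx)

/-- **Relative CE.**  For a `G_ℚ`-stable subgroup `E ≤ M` of a Hopf lattice killed by `p`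
(`p` odd): a point of `E` in the inertia augmentation of `M` lies in the inertia augmentation
of `E`.  (`I_aug M ∩ E = I_aug E`.) -/
theorem mem_closure_of_mem_closure {p : ℕ} [Fact p.Prime] (hp2 : p ≠ 2) {M : Type}
    [AddCommGroup M] [Finite M] {act : GQ → M → M} {Λ : Subalgebra (H906.Zp p) (M → Qb)}
    (hΛ : H906.IsHL p act Λ) (hpM : ∀ x : M, p • x = 0) (P : ValuationSubring Qb)
    (hP : P.LiesOverPrime p) (E : AddSubgroup M) (hE : ∀ (σ : GQ), ∀ x ∈ E, act σ x ∈ E)
    {x : M} (hxE : x ∈ E)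
    (hx : x ∈ AddSubgroup.closure
      {z : M | ∃ σ ∈ P.inertiaSubgroupIn ℚ, ∃ y : M, z = act σ y - y}) :
    x ∈ AddSubgroup.closure
      {z : M | ∃ σ ∈ P.inertiaSubgroupIn ℚ, ∃ y ∈ E, z = act σ y - y} := by
  -- the pullback lattice on `E`
  set actE : GQ → E → E := fun σ y => ⟨act σ y, hE σ y y.2⟩ with hactE
  have hΛE := Fermat.Agent.S19.H435.IsHopfLattice.pullback hΛ E.subtype
    Subtype.val_injective actE (fun σ y => rfl)
  have hpE : ∀ y : E, p • y = 0 := fun y => Subtype.ext (by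
    rw [AddSubgroup.coe_nsmul, hpM]
    rfl)
  have hred : ∀ f ∈ Λ.map (Fermat.Agent.S19.H435.precompAlgHom p E.subtype),
      P.valuation (f ⟨x, hxE⟩ - f 0) < 1 := by
    rintro _ ⟨f, hf, rfl⟩
    exact H906.closure_le_redKer P hΛ hP hx f hf
  have h1 := connEt p hp2 E actE _ hΛE hpE P hP ⟨x, hxE⟩ hred
  -- push forward to `M`
  have h2 : ∀ y : E, y ∈ AddSubgroup.closure
      {z : E | ∃ σ ∈ P.inertiaSubgroupIn ℚ, ∃ y : E, z = actE σ y - y} →
      (y : M) ∈ AddSubgroup.closure
        {z : M | ∃ σ ∈ P.inertiaSubgroupIn ℚ, ∃ y ∈ E, z = act σ y - y} := by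
    intro y hy
    induction hy using AddSubgroup.closure_induction with
    | mem z hz =>
      obtain ⟨σ, hσ, w, rfl⟩ := hz
      exact AddSubgroup.subset_closure ⟨σ, hσ, w, w.2, rfl⟩
    | zero => exact AddSubgroup.zero_mem _
    | add a b _ _ ha hb => exact AddSubgroup.add_mem _ ha hb
    | neg a _ ha => exact AddSubgroup.neg_mem _ ha
  exact h2 ⟨x, hxE⟩ h1

end Fermat.Agent.S56.FO.H6

end
end
-- ===== PACK-END S56/FO/H6/CEMain.lean

-- ===== PACK-BEGIN A3/H555/KerInertia.lean
section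
/-
helper555 — cell A3 (S19), block LOCAL, leaf KER-I.

`KerInertiaStatement K F k Fk` (frozen in `Fermat/Agent/A3/H799/LocalSpec2.lean`): inertia acts
trivially on `Pic0` modulo the kernel of reduction, because it preserves every residue disc.
-/


set_option autoImplicit false

noncomputable section

open AlgebraicCurve

namespace Fermat.Agent.A3.H555

open Fermat.Agent.A3.H799

variable {K F k Fk : Type*} [Field K] [Field F] [Algebra K F] [Field k] [Field Fk] [Algebra k Fk]

/-- The reduction of a divisor is invariant under inertia. -/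
theorem mapDomain_r_smul (𝓡 : GoodRed K F k Fk) {g : SemilinearAut K F} (hg : g ∈ 𝓡.I)
    (D : Divisor K F) : Finsupp.mapDomain 𝓡.r (g • D) = Finsupp.mapDomain 𝓡.r D := by
  rw [SemilinearAut.divisor_smul_def, ← Finsupp.mapDomain_comp]
  congr 1
  funext P
  exact 𝓡.I_place g hg P

/-- **KER-I.** -/
theorem kerInertiaStatement : KerInertiaStatement K F k Fk := by
  intro 𝓡 g hg x
  obtain ⟨D, rfl⟩ := Pic0.mk_surjective x
  refine ⟨SemilinearAut.degZeroSMulHom g D - D, rfl, ?_⟩
  have : Finsupp.mapDomain 𝓡.r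
      ((SemilinearAut.degZeroSMulHom g D - D : Divisor.degZero (K := K) (F := F)) :
        Divisor K F) = 0 := by
    rw [AddSubgroup.coe_sub, Finsupp.mapDomain_sub, SemilinearAut.coe_degZeroSMulHom,
      mapDomain_r_smul 𝓡 hg, sub_self]
  rw [this]
  exact AddSubgroup.zero_mem _

end Fermat.Agent.A3.H555

end
end
-- ===== PACK-END A3/H555/KerInertia.lean

-- ===== PACK-BEGIN A3/H75/Par.lean
section




/-!
# A3 / LOCAL / DISC (helper75): inertia-invariant parameters; the leaf `DiscStatement`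

For a `GoodRed 𝓡` (frozen interface, `Fermat/Agent/A3/H799/GoodRed.lean`):

* `exists_lift_inv` : for an inertia-invariant divisor `D` of degree `> 2g - 2`, every element of
  `L(r_* D)` is the reduction of an inertia-invariant function of `L(D) ∩ O`;
* `exists_param_of_place` : if `P₁` is an inertia-invariant place with `r P₁ ≠ Q` there is an
  inertia-invariant parameter at `Q` (a function of `O`, regular on the disc of `Q`, whose
  reduction is a uniformiser at `Q`), with poles only at `P₁`;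
* `exists_place_ne` : a function field with `FF1` has at least two places;
* `exists_inv_place` : over every place `Q' ≠ r P∞` there is an inertia-invariant place;
* `exists_param` (PAR) : every place of the special fibre has an inertia-invariant parameter;
* `discStatement : DiscStatement K F k Fk` : the frozen leaf DISC of
  `Fermat/Agent/A3/H799/LocalSpec.lean`.
-/

set_option autoImplicit false
set_option linter.unusedSectionVars false

noncomputable section

namespace Fermat.Agent.A3.H75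

open AlgebraicCurve Fermat.Agent.Lib.RR Fermat.Agent.A3.H799 Fermat.Agent.S19.H195

variable {K F k Fk : Type*} [Field K] [Field F] [Algebra K F] [Field k] [Field Fk] [Algebra k Fk]

/-- the constants of `V`, as elements of `O` -/
def constO (𝓡 : GoodRed K F k Fk) (a : 𝓡.V) : 𝓡.O :=
  ⟨algebraMap K F (a : K), (𝓡.algebraMap_mem _).mpr a.2⟩

@[simp] theorem coe_constO (𝓡 : GoodRed K F k Fk) (a : 𝓡.V) :
    ((constO 𝓡 a : 𝓡.O) : F) = algebraMap K F (a : K) := rfl

theorem red_constO (𝓡 : GoodRed K F k Fk) (a : 𝓡.V) :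
    𝓡.red (constO 𝓡 a) = algebraMap k Fk (𝓡.res a) :=
  𝓡.red_algebraMap a _

/-- **Inertia-invariant integral Riemann–Roch.** -/
theorem exists_lift_inv (𝓡 : GoodRed K F k Fk) (D : Divisor K F)
    (hD : 2 * (genusFF k Fk : ℤ) - 2 < Divisor.degree D) (hinv : ∀ g ∈ 𝓡.I, g • D = D)
    (gb : Fk) (hgb : gb ∈ riemannRochSpace (Finsupp.mapDomain 𝓡.r D)) :
    ∃ f : 𝓡.O, (f : F) ∈ riemannRochSpace D ∧ 𝓡.red f = gb ∧
      ∀ g ∈ 𝓡.I, g • (f : F) = (f : F) := by
  have := 𝓡.ff1
  have := 𝓡.ff1k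
  obtain ⟨n, b, hli, hmem, hspan, hbinv⟩ := 𝓡.orthonormal D
  have hbI := hbinv hinv
  -- `b` is a `K`-basis of `L(D)`, hence `n = ℓ(D)`
  have hliK : LinearIndependent K (fun i => ((b i : 𝓡.O) : F)) :=
    (ofGoodRed 𝓡).linearIndependent_of_red (fun i => ((b i : 𝓡.O) : F)) (fun i => (b i).2) hli
  have hn : ell D = n := by
    unfold ell
    rw [← hspan, finrank_span_eq_card hliK, Fintype.card_fin]
  have hell := (GoodRedLemmas.ell_eq 𝓡 D hD).1
  -- the reductions form a basis of `L(r_* D)`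
  set W := riemannRochSpace (Finsupp.mapDomain 𝓡.r D) with hW
  let b' : Fin n → W := fun i => ⟨𝓡.red (b i), GoodRedLemmas.red_mem 𝓡 D (b i) (hmem i)⟩
  have hli' : LinearIndependent k b' := by
    apply LinearIndependent.of_comp W.subtype
    exact hli
  have hcard : Fintype.card (Fin n) = Module.finrank k W := by
    rw [Fintype.card_fin, ← hn, hell]
    rfl
  have htop : Submodule.span k (Set.range b') = ⊤ :=
    hli'.span_eq_top_of_card_eq_finrank' hcard
  have hmemtop : (⟨gb, hgb⟩ : W) ∈ Submodule.span k (Set.range b') := by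
    rw [htop]
    exact Submodule.mem_top
  obtain ⟨c, hc⟩ := (Submodule.mem_span_range_iff_exists_fun k).mp hmemtop
  have hc' : ∑ i, c i • 𝓡.red (b i) = gb := by
    have := congrArg (W.subtype) hc
    simpa [b'] using this
  -- inertia-invariant lifts of the coefficients
  choose a ha hainv using fun i => 𝓡.I_lift_const (c i)
  refine ⟨∑ i, constO 𝓡 (a i) * b i, ?_, ?_, ?_⟩
  · have h1 : ((∑ i, constO 𝓡 (a i) * b i : 𝓡.O) : F) =
        ∑ i, ((a i : 𝓡.V) : K) • ((b i : 𝓡.O) : F) := by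
      rw [← 𝓡.O.subtype_apply, map_sum]
      refine Finset.sum_congr rfl fun i _ => ?_
      rw [Algebra.smul_def]
      rfl
    rw [h1]
    exact Submodule.sum_mem _ fun i _ => Submodule.smul_mem _ _ (hmem i)
  · rw [map_sum, ← hc']
    refine Finset.sum_congr rfl fun i _ => ?_
    rw [map_mul, red_constO, ha i, Algebra.smul_def]
  · intro g hg
    have h1 : ((∑ i, constO 𝓡 (a i) * b i : 𝓡.O) : F) =
        ∑ i, algebraMap K F ((a i : 𝓡.V) : K) * ((b i : 𝓡.O) : F) := by
      rw [← 𝓡.O.subtype_apply, map_sum]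
      rfl
    rw [h1, Finset.smul_sum]
    refine Finset.sum_congr rfl fun i _ => ?_
    rw [smul_mul', SemilinearAut.smul_algebraMap, hainv i g hg, hbI i g hg]

/-- **A parameter at `Q` with poles only at an inertia-invariant place `P₁` off the disc.** -/
theorem exists_param_of_place (𝓡 : GoodRed K F k Fk) (Q : Place k Fk) (P₁ : Place K F)
    (hP₁ : ∀ g ∈ 𝓡.I, g • P₁ = P₁) (hne : 𝓡.r P₁ ≠ Q) :
    ∃ t : 𝓡.O, (∀ P : Place K F, 𝓡.r P = Q → (t : F) ∈ P.toValuationSubring) ∧
      Q.ord (𝓡.red t) = 1 ∧ ∀ g ∈ 𝓡.I, g • (t : F) = (t : F) := by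
  classical
  have := 𝓡.ff1
  have := 𝓡.ff1k
  set m : ℤ := 2 * (genusFF k Fk : ℤ) + 2 with hm
  set D : Divisor K F := Finsupp.single P₁ m with hD
  have hdegD : Divisor.degree D = m := by
    rw [hD, Divisor.degree_single, deg_eq_one P₁]
    simp
  have hrD : Finsupp.mapDomain 𝓡.r D = Finsupp.single (𝓡.r P₁) m := by
    rw [hD, Finsupp.mapDomain_single]
  set E : Divisor k Fk := Finsupp.single (𝓡.r P₁) m - prim Q with hE
  have hdegE : Divisor.degree E = m - 1 := by
    rw [hE, map_sub, Divisor.degree_single, deg_eq_one (𝓡.r P₁), degree_prim']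
    simp
  obtain ⟨tb, htb, htb0, hord⟩ := H439.exists_mem_L_ord_eq (E := E)
    (by rw [hdegE, hm]; omega) Q
  have hEQ : E Q = -1 := by
    rw [hE, Finsupp.sub_apply, Finsupp.single_apply, if_neg hne, prim_apply_self]
    ring
  rw [hEQ, neg_neg] at hord
  have htb' : tb ∈ riemannRochSpace (Finsupp.mapDomain 𝓡.r D) := by
    rw [hrD]
    exact L_mono (H439.sub_prim_le _ Q) htb
  have hDinv : ∀ g ∈ 𝓡.I, g • D = D := by
    intro g hg
    rw [hD, SemilinearAut.smul_single, hP₁ g hg]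
  obtain ⟨t, htD, hred, htinv⟩ := exists_lift_inv 𝓡 D (by rw [hdegD, hm]; omega) hDinv tb htb'
  refine ⟨t, fun P hP => ?_, by rw [hred]; exact hord, htinv⟩
  have hPne : P ≠ P₁ := by
    rintro rfl
    exact hne hP
  rcases (mem_L_iff.mp htD) P with h0 | h
  · rw [h0]
    exact P.toValuationSubring.zero_mem
  · apply mem_of_ord_nonneg
    rw [hD, Finsupp.single_apply, if_neg (Ne.symm hPne), neg_zero] at h
    exact h

/-- A function field of one variable (`FF1`) has at least two places. -/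
theorem exists_place_ne {K' F' : Type*} [Field K'] [Field F'] [Algebra K' F'] [FF1 K' F']
    (Q₀ : Place K' F') : ∃ Q : Place K' F', Q ≠ Q₀ := by
  classical
  by_contra hcon
  push Not at hcon
  set n : ℤ := 2 * (genusFF K' F' : ℤ) + 1 with hn
  set D : Divisor K' F' := Finsupp.single Q₀ n with hD
  have hdegD : Divisor.degree D = n := by
    rw [hD, Divisor.degree_single, deg_eq_one Q₀]
    simp
  have hell : (ell D : ℤ) = Divisor.degree D + 1 - (genusFF K' F' : ℤ) :=
    ell_eq_of_degree_gt (by rw [hdegD, hn]; omega)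
  have hle : riemannRochSpace D ≤ riemannRochSpace (0 : Divisor K' F') := by
    intro f hf
    rw [mem_L_iff]
    intro v
    by_cases hf0 : f = 0
    · exact Or.inl hf0
    right
    have hv : v = Q₀ := hcon v
    have hdeg := degree_divOf (K := K') f hf0
    have hdiv : divOf (K := K') f hf0 = Finsupp.single Q₀ (Q₀.ord f) := by
      ext w
      rw [divOf_apply, hcon w, Finsupp.single_apply, if_pos rfl]
    rw [hdiv, Divisor.degree_single, deg_eq_one Q₀] at hdeg
    have h0 : Q₀.ord f = 0 := by simpa using hdeg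
    rw [hv, h0]
    simp
  have h1 := Submodule.finrank_mono hle
  have h2 : ell (0 : Divisor K' F') = 1 := ell_zero
  unfold ell at h2 hell
  rw [hdegD, hn] at hell
  omega

/-- the zero of the maximal ideal -/
def zeroMax (𝓡 : GoodRed K F k Fk) : IsLocalRing.maximalIdeal 𝓡.V := 0

/-- **An inertia-invariant place in the disc of `Q'`**, from an inertia-invariant parameter. -/
theorem exists_inv_place_of_param (𝓡 : GoodRed K F k Fk) (Q' : Place k Fk) (t : 𝓡.O)
    (hreg : ∀ P : Place K F, 𝓡.r P = Q' → (t : F) ∈ P.toValuationSubring)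
    (hord : Q'.ord (𝓡.red t) = 1) (hinv : ∀ g ∈ 𝓡.I, g • (t : F) = (t : F)) :
    ∃ P' : Place K F, 𝓡.r P' = Q' ∧ ∀ g ∈ 𝓡.I, g • P' = P' := by
  have := 𝓡.ff1
  let T : DiscParam (toConsInput 𝓡) Q' := ⟨t, hreg, hord⟩
  refine ⟨T.center 0, T.r_center 0, fun g hg => ?_⟩
  symm
  apply T.center_eq 0 (g • T.center 0)
  · show 𝓡.r (g • T.center 0) = Q'
    rw [𝓡.I_place g hg]
    exact T.r_center 0
  · have h0 := T.hasVal_center 0
    have hval : HasVal (T.center 0) (t : F) 0 := by simpa using h0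
    have hval' : HasVal (g • T.center 0) (t : F) 0 := by
      rw [hasVal_zero_iff] at hval ⊢
      rcases hval with h | h
      · exact Or.inl h
      · right
        have := SemilinearAut.ord_smul g (T.center 0) (t : F)
        rw [hinv g hg] at this
        rw [this]
        exact h
    simpa using hval'

/-- **PAR.**  Every place of the special fibre has an inertia-invariant parameter. -/
theorem exists_param (𝓡 : GoodRed K F k Fk) (Q : Place k Fk) :
    ∃ t : 𝓡.O, (∀ P : Place K F, 𝓡.r P = Q → (t : F) ∈ P.toValuationSubring) ∧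
      Q.ord (𝓡.red t) = 1 ∧ ∀ g ∈ 𝓡.I, g • (t : F) = (t : F) := by
  have := 𝓡.ff1
  have := 𝓡.ff1k
  obtain ⟨Pinf, hPinf⟩ := 𝓡.I_fixed_place
  by_cases hQ : 𝓡.r Pinf = Q
  · obtain ⟨Q', hQ'⟩ := exists_place_ne Q
    obtain ⟨t', hreg', hord', hinv'⟩ := exists_param_of_place 𝓡 Q' Pinf hPinf (by
      rw [hQ]
      exact Ne.symm hQ')
    obtain ⟨P', hP', hP'inv⟩ := exists_inv_place_of_param 𝓡 Q' t' hreg' hord' hinv'
    exact exists_param_of_place 𝓡 Q P' hP'inv (by rw [hP']; exact hQ')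
  · exact exists_param_of_place 𝓡 Q Pinf hPinf hQ

variable (K F k Fk)

/-- **The frozen leaf DISC** of `Fermat/Agent/A3/H799/LocalSpec.lean`. -/
theorem discStatement : DiscStatement K F k Fk :=
  disc_of_param fun 𝓡 Q => exists_param 𝓡 Q

end Fermat.Agent.A3.H75

end
end
-- ===== PACK-END A3/H75/Par.lean

-- ===== PACK-BEGIN Ribet/H801/DegGen.lean
section
/-
RIBET / W-DEG (helper801), part 3: the function field of level `N ℓ p` is generated by the two
"`β`-images":

    F̄_{Nℓp} = V_p(F̄_{Nℓ}) ⊔ V_ℓ(F̄_{Np})        (`p ≠ ℓ` primes)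

(degree count: `[F̄_{Nℓp} : V_p F̄_{Nℓ}] ≤ p + 1` by helper218, and `1, x, …, x^{p-1}` with
`x = j(q^ℓ)` are linearly independent over every subfield of `ℚ̄((q^p))`, helper145).
-/






set_option autoImplicit false
set_option linter.style.haveILetI false

noncomputable section

namespace Fermat.Agent.Ribet.H801

open ModularCurve HahnSeries IntermediateField AlgebraicCurve
open Fermat.Agent.S28 Fermat.Agent.S37

section Generic

variable {K E : Type*} [Field K] [Field E] [Algebra K E]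

/-- Elements of `T` are algebraic over `A` when `[T : A]` is finite. -/
theorem isAlgebraic_of_relfinrank_ne_zero {A T : IntermediateField K E} (hAT : A ≤ T)
    (h : A.relfinrank T ≠ 0) {x : E} (hx : x ∈ T) : IsAlgebraic A x := by
  rw [relfinrank_eq_finrank_of_le hAT] at h
  haveI : FiniteDimensional A (extendScalars hAT) :=
    Module.finite_of_finrank_pos (Nat.pos_of_ne_zero h)
  have h1 : IsAlgebraic A (⟨x, hx⟩ : extendScalars hAT) :=
    Algebra.IsAlgebraic.isAlgebraic _
  exact (IntermediateField.isAlgebraic_iff (S := extendScalars hAT) (x := ⟨x, hx⟩)).mp h1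

end Generic

theorem modularFunctionFieldBar_congr {a b : ℕ} [NeZero a] [NeZero b] (h : a = b) :
    modularFunctionFieldBar a = modularFunctionFieldBar b := by
  subst h
  rfl

/-- `j ∈ F̄_N`. -/
theorem jqModC_mem_bar (N : ℕ) [NeZero N] :
    jqModC (AlgebraicClosure ℚ) ∈ modularFunctionFieldBar N := by
  have h : jq ∈ modularFunctionFieldFull N := by
    have h := jqd_mem_full N (one_dvd N)
    rwa [qExpand_one_apply] at h
  have h2 := coeffEmb_mem_laurentBaseChange (AlgebraicClosure ℚ) h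
  have h3 : coeffEmb (AlgebraicClosure ℚ) jq = jqModC (AlgebraicClosure ℚ) := by
    rw [← jqModC_rat]
    exact coeffMap_jqModC (algebraMap ℚ (AlgebraicClosure ℚ))
  rwa [h3] at h2

/-- `1, x, …, x^{p-1}`, `x = j(q^ℓ)`, are linearly independent over every subfield of
`k((q^p))` when `ℓ` is prime to `p`. -/
theorem linearIndependent_pow_qExpand_j (k : Type*) [Field k] (p ℓ : ℕ) [NeZero p] [NeZero ℓ]
    (hcop : Nat.Coprime ℓ p) (B : IntermediateField k (LaurentSeries k))
    (hB : B ≤ (qExpandAlgHomC k p).fieldRange) :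
    LinearIndependent B (fun i : Fin p => (qExpand k ℓ (jqModC k)) ^ (i : ℕ)) := by
  rw [Fintype.linearIndependent_iff]
  intro g hg i
  have hc : ∀ i, ∃ c : LaurentSeries k, qExpand k p c = (g i : LaurentSeries k) := by
    intro i
    obtain ⟨c, hc⟩ := hB (g i).2
    exact ⟨c, hc⟩
  choose c hc using hc
  have h : ∑ i : Fin p, qExpand k p (c i) * (qExpand k ℓ (jqModC k)) ^ (i : ℕ) = 0 := by
    rw [← hg]
    refine Finset.sum_congr rfl fun i _ => ?_
    rw [hc i]
    rfl
  have hx : qExpand k ℓ (jqModC k) ≠ 0 := by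
    intro h0
    exact H145.jqModC_ne_zero' k
      ((Fermat.Agent.S24.inf_qExpand_eq_zero_iff ℓ (jqModC k)).mp h0)
  have hord : IsCoprime (qExpand k ℓ (jqModC k)).order (p : ℤ) := by
    rw [Fermat.Agent.S24.inf_qExpand_order, H145.order_jqModC, mul_neg, mul_one]
    exact (Nat.isCoprime_iff_coprime.mpr hcop).neg_left
  have := H145.eq_zero_of_sum_qExpand_mul_pow_eq_zero p _ hx hord c h i
  apply Subtype.ext
  rw [← hc i, this, _root_.map_zero]
  rfl

/-- **Generation by the two `β`-images.** -/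
theorem bar_eq_sup_map_map (N p ℓ : ℕ) [NeZero N] [NeZero p] [NeZero ℓ] (hp : p.Prime)
    (hℓ : ℓ.Prime) (hne : ℓ ≠ p) :
    modularFunctionFieldBar (N * ℓ * p) =
      (modularFunctionFieldBar (N * ℓ)).map (qExpandAlgHomC (AlgebraicClosure ℚ) p) ⊔
        (modularFunctionFieldBar (N * p)).map (qExpandAlgHomC (AlgebraicClosure ℚ) ℓ) := by
  set A := (modularFunctionFieldBar (N * ℓ)).map (qExpandAlgHomC (AlgebraicClosure ℚ) p) with hA
  set B := (modularFunctionFieldBar (N * p)).map (qExpandAlgHomC (AlgebraicClosure ℚ) ℓ) with hB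
  set T := modularFunctionFieldBar (N * ℓ * p) with hT
  have hAT : A ≤ T := H218.map_qExpand_bar_le (N * ℓ) p
  have hBT : B ≤ T := by
    have h := H218.map_qExpand_bar_le (N * p) ℓ
    rwa [modularFunctionFieldBar_congr (Nat.mul_right_comm N p ℓ)] at h
  have hCT : A ⊔ B ≤ T := sup_le hAT hBT
  have hAC : A ≤ A ⊔ B := le_sup_left
  have hd : A.relfinrank T = if p ∣ N * ℓ then p else p + 1 :=
    H218.relfinrank_map_qExpand_bar_mul_prime (N * ℓ) p (NeZero.ne _) hp
  have hd_le : A.relfinrank T ≤ p + 1 := by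
    rw [hd]; split_ifs <;> omega
  have hd_ne : A.relfinrank T ≠ 0 := by
    rw [hd]; split_ifs
    · exact hp.ne_zero
    · omega
  have htower : A.relfinrank (A ⊔ B) * (A ⊔ B).relfinrank T = A.relfinrank T :=
    relfinrank_mul_relfinrank hAC hCT
  have hAC_ne : A.relfinrank (A ⊔ B) ≠ 0 := by
    intro h0; rw [h0, zero_mul] at htower; exact hd_ne htower.symm
  have hCT_ne : (A ⊔ B).relfinrank T ≠ 0 := by
    intro h0; rw [h0, mul_zero] at htower; exact hd_ne htower.symm
  have hcop : Nat.Coprime ℓ p := (Nat.coprime_primes hℓ hp).mpr hne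
  have hxB : qExpand (AlgebraicClosure ℚ) ℓ (jqModC (AlgebraicClosure ℚ)) ∈ B :=
    ⟨jqModC (AlgebraicClosure ℚ), jqModC_mem_bar (N * p), rfl⟩
  have h4 : p ≤ A.relfinrank (A ⊔ B) := by
    refine H867.le_relfinrank_of_linearIndependent hAC hAC_ne _ ?_
      (linearIndependent_pow_qExpand_j (AlgebraicClosure ℚ) p ℓ hcop A ?_)
    · intro i
      exact _root_.pow_mem ((le_sup_right : B ≤ A ⊔ B) hxB) _
    · intro x hx
      obtain ⟨y, -, rfl⟩ := hx
      exact ⟨y, rfl⟩
  have h1 : (A ⊔ B).relfinrank T = 1 := by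
    by_contra hne1
    have h2 : 2 ≤ (A ⊔ B).relfinrank T := by omega
    have h3 : p * 2 ≤ A.relfinrank (A ⊔ B) * (A ⊔ B).relfinrank T := Nat.mul_le_mul h4 h2
    have hp2 := hp.two_le
    omega
  exact le_antisymm (relfinrank_eq_one_iff.mp h1) hCT

end Fermat.Agent.Ribet.H801

end

end
-- ===== PACK-END Ribet/H801/DegGen.lean

-- ===== PACK-BEGIN A2/Mod/H372/S3Coord.lean
section


/-!
# A2 / MODASM S3, the coordinate facts (helper372)

For the two coordinate pairs `(j, x)` and `(j⁻¹, x⁻¹)`, `x = j · j_q`: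
`y = α(y_M) · β(y_M)`, `β y_M ≡ (α y_M)^q mod w V∞`, `α y_M ≡ (β y_M)^q mod w V₀`,
`α y_M, β y_M ∈ chart(y)` (leaf L13).
-/

set_option autoImplicit false
set_option synthInstance.maxHeartbeats 400000
set_option maxHeartbeats 1600000
set_option linter.unusedSectionVars false
set_option linter.style.haveILetI false

noncomputable section

namespace Fermat.Agent.A2.Mod.H372

open ModularCurve HahnSeries Polynomial

variable {P : ValuationSubring _root_.Fermat.Agent.A2.Mod.Qb} {E : IntermediateField ℚ _root_.Fermat.Agent.A2.Mod.Qb} {M q : ℕ} [NeZero M] [NeZero q]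
  (w : _root_.Fermat.Agent.A2.Mod.RE P E)

/-- `f ∈ w V₀ ↔ W f ∈ w V∞`. -/
theorem inW_comap_iff {N : ℕ} (V : ValuationSubring (_root_.Fermat.Agent.A2.Mod.FE E N)) (W : _root_.Fermat.Agent.A2.Mod.FE E N ≃ₐ[E] _root_.Fermat.Agent.A2.Mod.FE E N)
    (f : _root_.Fermat.Agent.A2.Mod.FE E N) :
    InW P E N (V.comap (W : _root_.Fermat.Agent.A2.Mod.FE E N →+* _root_.Fermat.Agent.A2.Mod.FE E N)) w f ↔ InW P E N V w (W f) := by
  have hWc : W (cE P E N w) = cE P E N w := W.commutes (w : E)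
  show W (f * (cE P E N w)⁻¹) ∈ V ↔ W f * (cE P E N w)⁻¹ ∈ V
  rw [_root_.map_mul, map_inv₀, hWc]

/-- The facts about a coordinate pair used by S3. -/
structure CoordFacts (VM : ValuationSubring (_root_.Fermat.Agent.A2.Mod.FE E M)) (V : ValuationSubring (_root_.Fermat.Agent.A2.Mod.FE E (M * q)))
    (W : _root_.Fermat.Agent.A2.Mod.FE E (M * q) ≃ₐ[E] _root_.Fermat.Agent.A2.Mod.FE E (M * q)) (yM : _root_.Fermat.Agent.A2.Mod.FE E M) (y : _root_.Fermat.Agent.A2.Mod.FE E (M * q)) : Prop where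
  mem : yM ∈ VM
  eq_mul : y = αE E M q yM * βE E M q yM
  beta_mem : βE E M q yM ∈ V
  alpha_mem₀ : W (αE E M q yM) ∈ V
  beta_mem₀ : W (βE E M q yM) ∈ V
  cong₁ : InW P E (M * q) V w (βE E M q yM - (αE E M q yM) ^ q)
  cong₂ : InW P E (M * q) V w (W (αE E M q yM) - (W (βE E M q yM)) ^ q)
  alpha_chart : αE E M q yM ∈ chartAlg P E (M * q) y
  beta_chart : βE E M q yM ∈ chartAlg P E (M * q) y

theorem beta_jE_one : βE E M q (jE E M 1 (one_dvd _)) = jE E (M * q) q (dvd_mul_left q M) := by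
  rw [beta_jE 1 (one_dvd M)]
  exact jE_congr (one_mul q) _ _

theorem alpha_jE_one : αE E M q (jE E M 1 (one_dvd _)) = jE E (M * q) 1 (one_dvd _) :=
  alpha_jE 1 (one_dvd M)

theorem fricke_jE_one {W : _root_.Fermat.Agent.A2.Mod.FE E (M * q) ≃ₐ[E] _root_.Fermat.Agent.A2.Mod.FE E (M * q)} (hW : IsFricke E (M * q) W) :
    W (jE E (M * q) 1 (one_dvd _)) = jE E (M * q) (M * q) (dvd_refl _) :=
  hW.1 1 (M * q) (one_dvd _) (dvd_refl _) (one_mul _)

theorem fricke_jE_q {W : _root_.Fermat.Agent.A2.Mod.FE E (M * q) ≃ₐ[E] _root_.Fermat.Agent.A2.Mod.FE E (M * q)} (hW : IsFricke E (M * q) W) :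
    W (jE E (M * q) q (dvd_mul_left q M)) = jE E (M * q) M (dvd_mul_right M q) :=
  hW.1 q M (dvd_mul_left q M) (dvd_mul_right M q) (mul_comm q M)

theorem coordFacts_fin (hS : Setting P E M q w) {VM : ValuationSubring (_root_.Fermat.Agent.A2.Mod.FE E M)}
    {V : ValuationSubring (_root_.Fermat.Agent.A2.Mod.FE E (M * q))} {W : _root_.Fermat.Agent.A2.Mod.FE E (M * q) ≃ₐ[E] _root_.Fermat.Agent.A2.Mod.FE E (M * q)}
    (hVM : IsVinf P E M VM) (hV : IsVinf P E (M * q) V) (hW : IsFricke E (M * q) W) :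
    CoordFacts w VM V W (jE E M 1 (one_dvd _)) (xE E M q) := by
  have hN := level_ne_zero w hS
  obtain ⟨h1, h2, -, -⟩ := H873.chartCompat P E M q hS.q_prime
  refine ⟨jE_mem w hS hS.M_ne_zero hVM 1 (one_dvd _), ?_, ?_, ?_, ?_, ?_, ?_, ?_, ?_⟩
  · rw [alpha_jE_one, beta_jE_one]; rfl
  · rw [beta_jE_one]; exact jE_mem w hS hN hV _ _
  · rw [alpha_jE_one, fricke_jE_one hW]; exact jE_mem w hS hN hV _ _
  · rw [beta_jE_one, fricke_jE_q hW]; exact jE_mem w hS hN hV _ _
  · rw [alpha_jE_one, beta_jE_one]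
    have := inW_jE_sub_pow w hS hV 1 (one_dvd M)
    rwa [jE_congr (one_mul q) _ (dvd_mul_left q M)] at this
  · rw [alpha_jE_one, beta_jE_one, fricke_jE_one hW, fricke_jE_q hW]
    exact inW_jE_sub_pow w hS hV M (dvd_refl M)
  · rw [alpha_jE_one]; exact mem_chart_iff.mp h1
  · rw [beta_jE_one]; exact mem_chart_iff.mp h2

theorem coordFacts_inf (hS : Setting P E M q w) {VM : ValuationSubring (_root_.Fermat.Agent.A2.Mod.FE E M)}
    {V : ValuationSubring (_root_.Fermat.Agent.A2.Mod.FE E (M * q))} {W : _root_.Fermat.Agent.A2.Mod.FE E (M * q) ≃ₐ[E] _root_.Fermat.Agent.A2.Mod.FE E (M * q)}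
    (hVM : IsVinf P E M VM) (hV : IsVinf P E (M * q) V) (hW : IsFricke E (M * q) W) :
    CoordFacts w VM V W (jE E M 1 (one_dvd _))⁻¹ (xE E M q)⁻¹ := by
  have hN := level_ne_zero w hS
  obtain ⟨-, -, h3, h4⟩ := H873.chartCompat P E M q hS.q_prime
  have hu := unifE w hS hN hV
  refine ⟨jE_inv_mem w hS hS.M_ne_zero hVM 1 (one_dvd _), ?_, ?_, ?_, ?_, ?_, ?_, ?_, ?_⟩
  · rw [map_inv₀, map_inv₀, alpha_jE_one, beta_jE_one, ← mul_inv]; rfl
  · rw [map_inv₀, beta_jE_one]; exact jE_inv_mem w hS hN hV _ _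
  · rw [map_inv₀, map_inv₀, alpha_jE_one, fricke_jE_one hW]; exact jE_inv_mem w hS hN hV _ _
  · rw [map_inv₀, map_inv₀, beta_jE_one, fricke_jE_q hW]; exact jE_inv_mem w hS hN hV _ _
  · rw [map_inv₀, map_inv₀, alpha_jE_one, beta_jE_one, inv_pow]
    have := inW_jE_sub_pow w hS hV 1 (one_dvd M)
    rw [jE_congr (one_mul q) _ (dvd_mul_left q M)] at this
    refine inv_sub_inv_mul_mem V (H873.jE_ne_zero _ _ _ _) (pow_ne_zero _ (H873.jE_ne_zero _ _ _ _))
      (jE_inv_mem w hS hN hV _ _) ?_ this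
    rw [← inv_pow]
    exact V.pow_mem (jE_inv_mem w hS hN hV _ _) _
  · rw [map_inv₀, map_inv₀, map_inv₀, map_inv₀, alpha_jE_one, beta_jE_one, fricke_jE_one hW,
      fricke_jE_q hW, inv_pow]
    have := inW_jE_sub_pow w hS hV M (dvd_refl M)
    refine inv_sub_inv_mul_mem V (H873.jE_ne_zero _ _ _ _) (pow_ne_zero _ (H873.jE_ne_zero _ _ _ _))
      (jE_inv_mem w hS hN hV _ _) ?_ this
    rw [← inv_pow]
    exact V.pow_mem (jE_inv_mem w hS hN hV _ _) _
  · rw [map_inv₀, alpha_jE_one]; exact mem_chart_iff.mp h3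
  · rw [map_inv₀, beta_jE_one]; exact mem_chart_iff.mp h4

theorem coordFacts_of_isCoordPair (hS : Setting P E M q w) {VM : ValuationSubring (_root_.Fermat.Agent.A2.Mod.FE E M)}
    {V : ValuationSubring (_root_.Fermat.Agent.A2.Mod.FE E (M * q))} {W : _root_.Fermat.Agent.A2.Mod.FE E (M * q) ≃ₐ[E] _root_.Fermat.Agent.A2.Mod.FE E (M * q)}
    (hVM : IsVinf P E M VM) (hV : IsVinf P E (M * q) V) (hW : IsFricke E (M * q) W)
    {yM : _root_.Fermat.Agent.A2.Mod.FE E M} {y : _root_.Fermat.Agent.A2.Mod.FE E (M * q)} (hy : IsCoordPair E M q yM y) :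
    CoordFacts w VM V W yM y := by
  rcases hy with ⟨rfl, rfl⟩ | ⟨rfl, rfl⟩
  · exact coordFacts_fin w hS hVM hV hW
  · exact coordFacts_inf w hS hVM hV hW

end Fermat.Agent.A2.Mod.H372

end
end
-- ===== PACK-END A2/Mod/H372/S3Coord.lean

-- ===== PACK-BEGIN A2/Mod/H372/S3Noeth.lean
section



/-!
# A2 / MODASM S3 (helper372): the charts of level `Mq` are noetherian

From leaf L8 (`DegStatement`: `x` transcendental over `E`, `[F_{Mq} : E(x)] < ∞`) and
`S18.H394.chart_instances`.
-/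

set_option autoImplicit false
set_option synthInstance.maxHeartbeats 400000
set_option maxHeartbeats 1600000
set_option linter.unusedSectionVars false
set_option linter.style.haveILetI false

noncomputable section

namespace Fermat.Agent.A2.Mod.H372

open ModularCurve HahnSeries Polynomial
open Fermat.Agent.S18

variable {P : ValuationSubring _root_.Fermat.Agent.A2.Mod.Qb} {E : IntermediateField ℚ _root_.Fermat.Agent.A2.Mod.Qb}

/-- `E(x) ⊆ R_E(x)` inside `F`. -/
theorem adjoin_le_baseField {N : ℕ} (x : _root_.Fermat.Agent.A2.Mod.FE E N) {f : _root_.Fermat.Agent.A2.Mod.FE E N}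
    (hf : f ∈ IntermediateField.adjoin E ({x} : Set (_root_.Fermat.Agent.A2.Mod.FE E N))) :
    f ∈ H138.baseField (_root_.Fermat.Agent.A2.Mod.RE P E) x := by
  have hf' : f ∈ Subfield.closure (Set.range (algebraMap E (_root_.Fermat.Agent.A2.Mod.FE E N)) ∪ ({x} : Set (_root_.Fermat.Agent.A2.Mod.FE E N))) := hf
  refine (Subfield.closure_le (t := H138.baseField (_root_.Fermat.Agent.A2.Mod.RE P E) x)).mpr ?_ hf'
  rintro z (⟨e, rfl⟩ | hz)
  · rcases (_root_.Fermat.Agent.A2.Mod.RE P E).mem_or_inv_mem e with he | he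
    · exact Subfield.subset_closure (Or.inl ⟨⟨e, he⟩, rfl⟩)
    · have h1 : algebraMap E (_root_.Fermat.Agent.A2.Mod.FE E N) e⁻¹ ∈ H138.baseField (_root_.Fermat.Agent.A2.Mod.RE P E) x :=
        Subfield.subset_closure (Or.inl ⟨⟨e⁻¹, he⟩, rfl⟩)
      have h2 := (H138.baseField (_root_.Fermat.Agent.A2.Mod.RE P E) x).inv_mem h1
      rwa [map_inv₀, inv_inv] at h2
  · exact Subfield.subset_closure (Or.inr hz)

/-- finiteness over `E(x)` implies finiteness over `R_E(x)`. -/
theorem finiteDimensional_baseField {N : ℕ} (x : _root_.Fermat.Agent.A2.Mod.FE E N)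
    [FiniteDimensional (IntermediateField.adjoin E ({x} : Set (_root_.Fermat.Agent.A2.Mod.FE E N))) (_root_.Fermat.Agent.A2.Mod.FE E N)] :
    FiniteDimensional (H138.baseField (_root_.Fermat.Agent.A2.Mod.RE P E) x) (_root_.Fermat.Agent.A2.Mod.FE E N) := by
  let ι : IntermediateField.adjoin E ({x} : Set (_root_.Fermat.Agent.A2.Mod.FE E N)) →+* H138.baseField (_root_.Fermat.Agent.A2.Mod.RE P E) x :=
    { toFun := fun a => ⟨a, adjoin_le_baseField x a.2⟩
      map_one' := rfl
      map_mul' := fun _ _ => rfl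
      map_zero' := rfl
      map_add' := fun _ _ => rfl }
  letI : Algebra (IntermediateField.adjoin E ({x} : Set (_root_.Fermat.Agent.A2.Mod.FE E N))) (H138.baseField (_root_.Fermat.Agent.A2.Mod.RE P E) x) :=
    ι.toAlgebra
  haveI : IsScalarTower (IntermediateField.adjoin E ({x} : Set (_root_.Fermat.Agent.A2.Mod.FE E N)))
      (H138.baseField (_root_.Fermat.Agent.A2.Mod.RE P E) x) (_root_.Fermat.Agent.A2.Mod.FE E N) := IsScalarTower.of_algebraMap_eq (fun _ => rfl)
  exact Module.Finite.of_restrictScalars_finite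
    (IntermediateField.adjoin E ({x} : Set (_root_.Fermat.Agent.A2.Mod.FE E N))) (H138.baseField (_root_.Fermat.Agent.A2.Mod.RE P E) x) (_root_.Fermat.Agent.A2.Mod.FE E N)

/-- **The charts are noetherian.** -/
theorem isNoetherianRing_chartAlg_of_transcendental {N : ℕ}
    (hdvr : IsDiscreteValuationRing (_root_.Fermat.Agent.A2.Mod.RE P E)) (x : _root_.Fermat.Agent.A2.Mod.FE E N) (hx : Transcendental E x)
    [FiniteDimensional (IntermediateField.adjoin E ({x} : Set (_root_.Fermat.Agent.A2.Mod.FE E N))) (_root_.Fermat.Agent.A2.Mod.FE E N)] :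
    IsNoetherianRing (chartAlg P E N x) ∧ IsNoetherianRing (chartAlg P E N x⁻¹) := by
  haveI := hdvr
  have hinj : Function.Injective (algebraMap (_root_.Fermat.Agent.A2.Mod.RE P E) E) := Subtype.val_injective
  have hxR : Transcendental (_root_.Fermat.Agent.A2.Mod.RE P E) x := hx.restrictScalars hinj
  have hxi : Transcendental E x⁻¹ := fun h => hx (IsAlgebraic.inv_iff.mp h)
  have hxiR : Transcendental (_root_.Fermat.Agent.A2.Mod.RE P E) x⁻¹ := hxi.restrictScalars hinj
  haveI h1 : FiniteDimensional (H138.baseField (_root_.Fermat.Agent.A2.Mod.RE P E) x) (_root_.Fermat.Agent.A2.Mod.FE E N) :=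
    finiteDimensional_baseField x
  haveI h2 : FiniteDimensional (H138.baseField (_root_.Fermat.Agent.A2.Mod.RE P E) x⁻¹) (_root_.Fermat.Agent.A2.Mod.FE E N) := by
    rw [H138.baseField_inv]
    exact h1
  exact ⟨(H394.chart_instances hxR).1, (H394.chart_instances hxiR).1⟩

end Fermat.Agent.A2.Mod.H372

end
end
-- ===== PACK-END A2/Mod/H372/S3Noeth.lean

-- ===== PACK-BEGIN A2/Mod/H142/S2.lean
section




/-!
# A2 / MODASM sub-assembly S2 (components normal) (helper142)

`s2_of_leaves : FrickeStableStatement P E M q w → ResInfStatement P E M q w → S2Statement P E M q w`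

The leaves L2 (H553), L4/L5 (H751), L13 (H873) are taken from main; L7 and L11 are hypotheses
(VERBATIM `Mod/Spec.lean` statements).

Route: `normal_side` (`S2Side.lean`) with `(V', γ) = (V∞, α)` for `p₁` and
`(V', γ) = (V₀ = V∞ ∘ W, β)` for `p₂`; the coordinate congruences
`x ≡ α(j)^(q+1) mod w V∞`, `W x ≡ α(j_M)^(q+1) mod w V∞` are Frobenius congruences of integer
series (`frobCong`).
-/

set_option autoImplicit false
set_option synthInstance.maxHeartbeats 400000
set_option maxHeartbeats 1600000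
set_option linter.unusedSectionVars false
set_option linter.style.haveILetI false

noncomputable section

namespace Fermat.Agent.A2.Mod.H142

open ModularCurve HahnSeries Polynomial

variable (P : ValuationSubring _root_.Fermat.Agent.A2.Mod.Qb) (E : IntermediateField ℚ _root_.Fermat.Agent.A2.Mod.Qb)
variable (M q : ℕ) [NeZero M] [NeZero q] (w : _root_.Fermat.Agent.A2.Mod.RE P E)

/-- `α` maps `V∞` of level `M` into `V∞` of level `M q`. -/
theorem alpha_mem {VM : ValuationSubring (_root_.Fermat.Agent.A2.Mod.FE E M)} {V : ValuationSubring (_root_.Fermat.Agent.A2.Mod.FE E (M * q))}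
    (hVM : IsVinf P E M VM) (hV : IsVinf P E (M * q) V) {g : _root_.Fermat.Agent.A2.Mod.FE E M} (hg : g ∈ VM) :
    αE E M q g ∈ V := by
  obtain ⟨U₁, U₂, h0, hm, he⟩ := (hVM g).1 hg
  refine (hV _).2 ⟨U₁, U₂, h0, ?_, ?_⟩
  · have h := (αE E M q ⟨_, hm⟩).2
    rwa [coe_heckeAlphaBar] at h
  · rw [coe_heckeAlphaBar]
    exact he

/-- The frame of the two coordinates. -/
theorem xE_eq : xE E M q = jE E (M * q) 1 (one_dvd _) * jE E (M * q) q (dvd_mul_left q M) := rfl

/-- **S2 on `C∞`.** -/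
theorem normal_inf (hL11 : ResInfStatement P E M q w) (hS : Setting P E M q w)
    (VM : ValuationSubring (_root_.Fermat.Agent.A2.Mod.FE E M)) (V : ValuationSubring (_root_.Fermat.Agent.A2.Mod.FE E (M * q)))
    (hVM : IsVinf P E M VM) (hV : IsVinf P E (M * q) V)
    (yM : _root_.Fermat.Agent.A2.Mod.FE E M) (y : _root_.Fermat.Agent.A2.Mod.FE E (M * q)) (hy : IsCoordPair E M q yM y)
    (hgood : GoodRedAt P E M w VM yM)
    (p : Ideal (chartAlg P E (M * q) y))
    (hp : IsCut P E (M * q) w V (chartAlg P E (M * q) y) p) :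
    IsIntegrallyClosed (chartAlg P E (M * q) y ⧸ p) := by
  have hN : M * q ≠ 0 := Nat.mul_ne_zero hS.M_ne_zero hS.q_prime.ne_zero
  haveI : NeZero (M * q) := ⟨hN⟩
  haveI : NeZero (1 * q) := ⟨by rw [one_mul]; exact hS.q_prime.ne_zero⟩
  have hL2 := H553.vinfBasic P E w (M * q) hN hS.dvr hS.unif V hV
  have hL2M := H553.vinfBasic P E w M hS.M_ne_zero hS.dvr hS.unif VM hVM
  have hL13 := H873.chartCompat P E M q hS.q_prime
  have hRV : ∀ r : _root_.Fermat.Agent.A2.Mod.RE P E, algebraMap (_root_.Fermat.Agent.A2.Mod.RE P E) (_root_.Fermat.Agent.A2.Mod.FE E (M * q)) r ∈ V := fun r =>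
    (hL2.2.1 (r : E)).mpr r.2
  -- notation
  obtain ⟨j, hj⟩ : ∃ j : _root_.Fermat.Agent.A2.Mod.FE E (M * q), j = jE E (M * q) 1 (one_dvd _) := ⟨_, rfl⟩
  obtain ⟨jq, hjq⟩ : ∃ jq : _root_.Fermat.Agent.A2.Mod.FE E (M * q), jq = jE E (M * q) q (dvd_mul_left q M) := ⟨_, rfl⟩
  have hjV : j ∈ V ∧ j⁻¹ ∈ V := hj ▸ hL2.2.2 1 (one_dvd _)
  have hjqV : jq ∈ V ∧ jq⁻¹ ∈ V := hjq ▸ hL2.2.2 q (dvd_mul_left q M)
  have hx : xE E M q = j * jq := by rw [hj, hjq]; rfl
  have hαj : αE E M q (jE E M 1 (one_dvd _)) = j := by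
    rw [hj]
    exact H751.alpha_jE E M q 1 (one_dvd M)
  have hfrob : InW P E (M * q) V w (jq - j ^ q) := by
    have h := frobCong (P := P) (E := E) (w := w) hS.q_prime hS.dvr hS.unif hS.lies_over hN hV 1
      (one_dvd _) (by rw [one_mul]; exact dvd_mul_left q M)
    rw [hj, hjq]
    have h1 : jE E (M * q) (1 * q) (by rw [one_mul]; exact dvd_mul_left q M) =
        jE E (M * q) q (dvd_mul_left q M) := H751.jE_congr E (M * q) (one_mul q) _ _
    rwa [h1] at h
  have hj0 : j ≠ 0 := hj ▸ H873.jE_ne_zero E (M * q) 1 (one_dvd _)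
  have hjq0 : jq ≠ 0 := hjq ▸ H873.jE_ne_zero E (M * q) q (dvd_mul_left q M)
  have hcinv : (j * jq)⁻¹ - j⁻¹ ^ (q + 1) = -(jq - j ^ q) * (j⁻¹ * jq⁻¹ * j⁻¹ ^ q) := by
    have hjqb : jq * jq⁻¹ = 1 := mul_inv_cancel₀ hjq0
    have hpow : j ^ q * j⁻¹ ^ q = 1 := by rw [← mul_pow, mul_inv_cancel₀ hj0, one_pow]
    have h1 : -(jq - j ^ q) * (j⁻¹ * jq⁻¹ * j⁻¹ ^ q) =
        (j ^ q * j⁻¹ ^ q) * (j⁻¹ * jq⁻¹) - (jq * jq⁻¹) * j⁻¹ ^ (q + 1) := by ring
    rw [h1, hpow, hjqb, mul_inv]
    ring
  rcases hy with ⟨rfl, rfl⟩ | ⟨rfl, rfl⟩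
  · -- finite chart
    refine normal_side P E M q w hS VM hVM V hL2.1 hRV (αE E M q)
      (fun g hg => alpha_mem P E M q hVM hV hg) (hL11 hS VM V hVM hV) _ _
      (hL2M.2.2 1 (one_dvd M)).1 ?_ ?_ ?_ hgood p hp
    · rw [hx]
      exact V.mul_mem _ _ hjV.1 hjqV.1
    · rw [_root_.map_pow, hαj, hx]
      have : j * jq - j ^ (q + 1) = (jq - j ^ q) * j := by ring
      rw [this]
      exact inW_mul_right hfrob hjV.1
    · rw [hαj, hj]
      exact (mem_chart_iff P E (M * q) _ _).1 hL13.1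
  · -- chart at infinity
    refine normal_side P E M q w hS VM hVM V hL2.1 hRV (αE E M q)
      (fun g hg => alpha_mem P E M q hVM hV hg) (hL11 hS VM V hVM hV) _ _
      (hL2M.2.2 1 (one_dvd M)).2 ?_ ?_ ?_ hgood p hp
    · rw [hx, mul_inv]
      exact V.mul_mem _ _ hjV.2 hjqV.2
    · rw [_root_.map_pow, map_inv₀, hαj, hx]
      rw [hcinv]
      exact inW_mul_right (inW_neg hfrob)
        (V.mul_mem _ _ (V.mul_mem _ _ hjV.2 hjqV.2) (pow_mem hjV.2 q))
    · rw [map_inv₀, hαj, hj]
      exact (mem_chart_iff P E (M * q) _ _).1 hL13.2.2.1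

section Comap

variable {P E} {N : ℕ} {V : ValuationSubring (_root_.Fermat.Agent.A2.Mod.FE E N)} {w}

theorem isUnif_comap (W : _root_.Fermat.Agent.A2.Mod.FE E N ≃ₐ[E] _root_.Fermat.Agent.A2.Mod.FE E N) (hU : H48.IsUnif V (cE P E N w)) :
    H48.IsUnif (V.comap (W : _root_.Fermat.Agent.A2.Mod.FE E N →+* _root_.Fermat.Agent.A2.Mod.FE E N)) (cE P E N w) := by
  have hWc : W (cE P E N w) = cE P E N w := W.commutes _
  refine ⟨?_, ?_, ?_⟩
  · rw [ValuationSubring.mem_comap]
    show W (cE P E N w) ∈ V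
    rw [hWc]
    exact hU.mem
  · rw [ValuationSubring.mem_comap]
    show ¬ W (cE P E N w)⁻¹ ∈ V
    rw [map_inv₀, hWc]
    exact hU.inv_not_mem
  · intro f hf hfinv
    rw [ValuationSubring.mem_comap] at hf hfinv ⊢
    show W (f * (cE P E N w)⁻¹) ∈ V
    rw [_root_.map_mul, map_inv₀, hWc]
    refine hU.gen _ hf ?_
    have : (W f)⁻¹ = W f⁻¹ := (map_inv₀ W f).symm
    rw [this]
    exact hfinv

theorem inW_comap_iff (W : _root_.Fermat.Agent.A2.Mod.FE E N ≃ₐ[E] _root_.Fermat.Agent.A2.Mod.FE E N) (f : _root_.Fermat.Agent.A2.Mod.FE E N) :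
    InW P E N (V.comap (W : _root_.Fermat.Agent.A2.Mod.FE E N →+* _root_.Fermat.Agent.A2.Mod.FE E N)) w f ↔ InW P E N V w (W f) := by
  have hWc : W (cE P E N w) = cE P E N w := W.commutes _
  unfold InW
  rw [ValuationSubring.mem_comap]
  show W (f * (cE P E N w)⁻¹) ∈ V ↔ _
  rw [_root_.map_mul, map_inv₀, hWc]

end Comap

/-- **S2 on `C₀`.** -/
theorem normal_zero (hL7 : FrickeStableStatement P E M q w) (hL11 : ResInfStatement P E M q w)
    (hS : Setting P E M q w)
    (VM : ValuationSubring (_root_.Fermat.Agent.A2.Mod.FE E M)) (V : ValuationSubring (_root_.Fermat.Agent.A2.Mod.FE E (M * q)))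
    (W : _root_.Fermat.Agent.A2.Mod.FE E (M * q) ≃ₐ[E] _root_.Fermat.Agent.A2.Mod.FE E (M * q))
    (hVM : IsVinf P E M VM) (hV : IsVinf P E (M * q) V) (hW : IsFricke E (M * q) W)
    (yM : _root_.Fermat.Agent.A2.Mod.FE E M) (y : _root_.Fermat.Agent.A2.Mod.FE E (M * q)) (hy : IsCoordPair E M q yM y)
    (hgood : GoodRedAt P E M w VM yM)
    (p : Ideal (chartAlg P E (M * q) y))
    (hp : IsCut P E (M * q) w (V.comap (W : _root_.Fermat.Agent.A2.Mod.FE E (M * q) →+* _root_.Fermat.Agent.A2.Mod.FE E (M * q)))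
      (chartAlg P E (M * q) y) p) :
    IsIntegrallyClosed (chartAlg P E (M * q) y ⧸ p) := by
  have hN : M * q ≠ 0 := Nat.mul_ne_zero hS.M_ne_zero hS.q_prime.ne_zero
  haveI : NeZero (M * q) := ⟨hN⟩
  have hL2 := H553.vinfBasic P E w (M * q) hN hS.dvr hS.unif V hV
  have hL2M := H553.vinfBasic P E w M hS.M_ne_zero hS.dvr hS.unif VM hVM
  have hL13 := H873.chartCompat P E M q hS.q_prime
  have hU0 := isUnif_comap W hL2.1
  have hWM := H751.isFricke_frickeE E M
  have hL5 := H751.frickeCompat E M q (H751.frickeE E M) W hWM hW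
  have hRV0 : ∀ r : _root_.Fermat.Agent.A2.Mod.RE P E, algebraMap (_root_.Fermat.Agent.A2.Mod.RE P E) (_root_.Fermat.Agent.A2.Mod.FE E (M * q)) r ∈
      V.comap (W : _root_.Fermat.Agent.A2.Mod.FE E (M * q) →+* _root_.Fermat.Agent.A2.Mod.FE E (M * q)) := fun r => by
    rw [ValuationSubring.mem_comap]
    show W (algebraMap E (_root_.Fermat.Agent.A2.Mod.FE E (M * q)) (r : E)) ∈ V
    rw [W.commutes]
    exact (hL2.2.1 (r : E)).mpr r.2
  -- notation
  obtain ⟨j, hj⟩ : ∃ j : _root_.Fermat.Agent.A2.Mod.FE E (M * q), j = jE E (M * q) 1 (one_dvd _) := ⟨_, rfl⟩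
  obtain ⟨jq, hjq⟩ : ∃ jq : _root_.Fermat.Agent.A2.Mod.FE E (M * q), jq = jE E (M * q) q (dvd_mul_left q M) := ⟨_, rfl⟩
  obtain ⟨jM, hjM⟩ : ∃ jM : _root_.Fermat.Agent.A2.Mod.FE E (M * q), jM = jE E (M * q) M (dvd_mul_right M q) := ⟨_, rfl⟩
  obtain ⟨jN, hjN⟩ : ∃ jN : _root_.Fermat.Agent.A2.Mod.FE E (M * q), jN = jE E (M * q) (M * q) dvd_rfl := ⟨_, rfl⟩
  have hjMV : jM ∈ V ∧ jM⁻¹ ∈ V := hjM ▸ hL2.2.2 M (dvd_mul_right M q)
  have hjNV : jN ∈ V ∧ jN⁻¹ ∈ V := hjN ▸ hL2.2.2 (M * q) dvd_rfl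
  have hx : xE E M q = j * jq := by rw [hj, hjq]; rfl
  have hWj : W j = jN := by
    rw [hj, hjN]
    exact hW.1 1 (M * q) (one_dvd _) dvd_rfl (one_mul _)
  have hWjq : W jq = jM := by
    rw [hjq, hjM]
    exact hW.1 q M (dvd_mul_left q M) (dvd_mul_right M q) (mul_comm q M)
  have hWx : W (xE E M q) = jN * jM := by rw [hx, _root_.map_mul, hWj, hWjq]
  have hβj : βE E M q (jE E M 1 (one_dvd _)) = jq := by
    rw [hjq, H751.beta_jE E M q 1 (one_dvd M)]
    exact H751.jE_congr E (M * q) (mul_one q) _ _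
  have hWβj : W (βE E M q (jE E M 1 (one_dvd _))) = jM := by rw [hβj, hWjq]
  have hfrob : InW P E (M * q) V w (jN - jM ^ q) := by
    have h := frobCong (P := P) (E := E) (w := w) hS.q_prime hS.dvr hS.unif hS.lies_over hN hV M
      (dvd_mul_right M q) dvd_rfl
    rw [hjN, hjM]
    exact h
  have hjM0 : jM ≠ 0 := hjM ▸ H873.jE_ne_zero E (M * q) M (dvd_mul_right M q)
  have hjN0 : jN ≠ 0 := hjN ▸ H873.jE_ne_zero E (M * q) (M * q) dvd_rfl
  have hcinv : (jN * jM)⁻¹ - jM⁻¹ ^ (q + 1) = -(jN - jM ^ q) * (jM⁻¹ * jN⁻¹ * jM⁻¹ ^ q) := by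
    have hb : jN * jN⁻¹ = 1 := mul_inv_cancel₀ hjN0
    have hpow : jM ^ q * jM⁻¹ ^ q = 1 := by rw [← mul_pow, mul_inv_cancel₀ hjM0, one_pow]
    have h1 : -(jN - jM ^ q) * (jM⁻¹ * jN⁻¹ * jM⁻¹ ^ q) =
        (jM ^ q * jM⁻¹ ^ q) * (jM⁻¹ * jN⁻¹) - (jN * jN⁻¹) * jM⁻¹ ^ (q + 1) := by ring
    rw [h1, hpow, hb, mul_inv]
    ring
  -- `β` maps `V∞_M` into `V₀`
  have hβV : ∀ g ∈ VM, βE E M q g ∈ V.comap (W : _root_.Fermat.Agent.A2.Mod.FE E (M * q) →+* _root_.Fermat.Agent.A2.Mod.FE E (M * q)) := by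
    intro g hg
    rw [ValuationSubring.mem_comap]
    show W (βE E M q g) ∈ V
    rw [(hL5 g).2]
    exact alpha_mem P E M q hVM hV (hL7 hS VM (H751.frickeE E M) hVM hWM g hg)
  -- residue degree one on `C₀`
  have hres : ∀ f ∈ V.comap (W : _root_.Fermat.Agent.A2.Mod.FE E (M * q) →+* _root_.Fermat.Agent.A2.Mod.FE E (M * q)), ∃ g ∈ VM,
      InW P E (M * q) (V.comap (W : _root_.Fermat.Agent.A2.Mod.FE E (M * q) →+* _root_.Fermat.Agent.A2.Mod.FE E (M * q))) w (f - βE E M q g) := by
    intro f hf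
    rw [ValuationSubring.mem_comap] at hf
    obtain ⟨g', hg', h⟩ := hL11 hS VM V hVM hV (W f) hf
    refine ⟨H751.frickeE E M g', hL7 hS VM (H751.frickeE E M) hVM hWM g' hg', ?_⟩
    rw [inW_comap_iff, _root_.map_sub, (hL5 _).2, hWM.2]
    exact h
  rcases hy with ⟨rfl, rfl⟩ | ⟨rfl, rfl⟩
  · -- finite chart
    refine normal_side P E M q w hS VM hVM _ hU0 hRV0 (βE E M q) hβV hres _ _
      (hL2M.2.2 1 (one_dvd M)).1 ?_ ?_ ?_ hgood p hp
    · rw [ValuationSubring.mem_comap]
      show W (xE E M q) ∈ V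
      rw [hWx]
      exact V.mul_mem _ _ hjNV.1 hjMV.1
    · rw [inW_comap_iff, _root_.map_sub, hWx, _root_.map_pow, _root_.map_pow, hWβj]
      have : jN * jM - jM ^ (q + 1) = (jN - jM ^ q) * jM := by ring
      rw [this]
      exact inW_mul_right hfrob hjMV.1
    · rw [hβj, hjq]
      exact (mem_chart_iff P E (M * q) _ _).1 hL13.2.1
  · -- chart at infinity
    refine normal_side P E M q w hS VM hVM _ hU0 hRV0 (βE E M q) hβV hres _ _
      (hL2M.2.2 1 (one_dvd M)).2 ?_ ?_ ?_ hgood p hp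
    · rw [ValuationSubring.mem_comap]
      show W (xE E M q)⁻¹ ∈ V
      rw [map_inv₀, hWx, mul_inv]
      exact V.mul_mem _ _ hjNV.2 hjMV.2
    · rw [inW_comap_iff, _root_.map_sub, map_inv₀, hWx, _root_.map_pow, _root_.map_pow, map_inv₀, map_inv₀, hWβj, hcinv]
      exact inW_mul_right (inW_neg hfrob)
        (V.mul_mem _ _ (V.mul_mem _ _ hjMV.2 hjNV.2) (pow_mem hjMV.2 q))
    · rw [map_inv₀, hβj, hjq]
      exact (mem_chart_iff P E (M * q) _ _).1 hL13.2.2.2

/-- **MODASM sub-assembly S2** from the leaves L7 (`FrickeStable`) and L11 (`ResInf`);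
the leaves L2, L4, L5, L13 are taken from main (H553, H751, H873). -/
theorem s2_of_leaves (hL7 : FrickeStableStatement P E M q w)
    (hL11 : ResInfStatement P E M q w) : S2Statement P E M q w := by
  intro hS VM V W hVM hV hW yM y hy hgood p₁ p₂ hc₁ hc₂
  exact ⟨normal_inf P E M q w hL11 hS VM V hVM hV yM y hy hgood p₁ hc₁,
    normal_zero P E M q w hL7 hL11 hS VM V W hVM hV hW yM y hy hgood p₂ hc₂⟩

end Fermat.Agent.A2.Mod.H142

end
end
-- ===== PACK-END A2/Mod/H142/S2.lean

-- ===== PACK-BEGIN A2/Mod/H31/DegField.lean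
section



/-!
# A2 / MOD leaf L8 (helper31) — part 2: `[k(j(t^d) : d ∣ M q) : k(j · j_q)] = 2 (q+1) ψ(M)`

`k` any field in which the primes dividing `M q` are invertible, `q ∤ M` prime.
Inputs: helper988's degree formula `[F_N : k(j)] = ψ(N)`, the modular polynomial `Φ_q`
(`S28.ModPolyData`, both vanishing properties), and the bivariate degree lemma of `Biv.lean`.
-/

set_option autoImplicit false

noncomputable section

namespace Fermat.Agent.A2.Mod.H31

open ModularCurve HahnSeries Polynomial IntermediateField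
open scoped Polynomial.Bivariate

/-! ### Algebraic Laurent series are constant -/

section LaurentConst

variable {K : Type*} [Field K]

/-- A Laurent series over a field `K` which is algebraic over `K` is constant. -/
theorem laurent_const_of_isAlgebraic (f : LaurentSeries K) (hf : IsAlgebraic K f) :
    ∃ c : K, f = algebraMap K (LaurentSeries K) c := by
  have key : ∀ g : LaurentSeries K, IsAlgebraic K g →
      ∃ y : PowerSeries K, algebraMap (PowerSeries K) (LaurentSeries K) y = g := by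
    intro g hg
    obtain ⟨p, hpm, hp⟩ := hg.isIntegral
    have h2 : IsIntegral (PowerSeries K) g := by
      refine ⟨p.map (PowerSeries.C (R := K)), hpm.map _, ?_⟩
      rw [Polynomial.eval₂_map]
      exact hp
    exact IsIntegrallyClosed.isIntegral_iff.mp h2
  obtain ⟨y, hy⟩ := key f hf
  set c₀ := PowerSeries.constantCoeff y with hc₀
  by_cases hg : y - PowerSeries.C c₀ = 0
  · refine ⟨c₀, ?_⟩
    rw [← hy, sub_eq_zero.mp hg]
    rfl
  · exfalso
    have hg' : algebraMap (PowerSeries K) (LaurentSeries K) (y - PowerSeries.C c₀) ≠ 0 := by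
      intro h
      exact hg ((injective_iff_map_eq_zero _).1
        (IsFractionRing.injective (PowerSeries K) (LaurentSeries K)) _ h)
    have halg : IsAlgebraic K (algebraMap (PowerSeries K) (LaurentSeries K)
        (y - PowerSeries.C c₀)) := by
      rw [_root_.map_sub, hy]
      refine hf.sub ?_
      have : algebraMap (PowerSeries K) (LaurentSeries K) (PowerSeries.C c₀) =
          algebraMap K (LaurentSeries K) c₀ := rfl
      rw [this]
      exact isAlgebraic_algebraMap c₀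
    obtain ⟨z, hz⟩ := key _ halg.inv
    have h1 : algebraMap (PowerSeries K) (LaurentSeries K) ((y - PowerSeries.C c₀) * z) =
        algebraMap (PowerSeries K) (LaurentSeries K) 1 := by
      rw [_root_.map_mul, hz, _root_.map_one, mul_inv_cancel₀ hg']
    have h2 := IsFractionRing.injective (PowerSeries K) (LaurentSeries K) h1
    have h3 := congrArg (PowerSeries.constantCoeff (R := K)) h2
    rw [_root_.map_mul, _root_.map_sub, PowerSeries.constantCoeff_C, ← hc₀, sub_self, zero_mul, _root_.map_one] at h3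
    exact zero_ne_one h3

/-- A Laurent series with a pole is transcendental over the constants. -/
theorem transcendental_of_order_neg {f : LaurentSeries K} (hf : f.order < 0) :
    Transcendental K f := by
  intro halg
  obtain ⟨c, hc⟩ := laurent_const_of_isAlgebraic f halg
  rw [hc, algebraMap_laurentSeries_eq_single, ← HahnSeries.C_apply, HahnSeries.order_C] at hf
  exact lt_irrefl _ hf

end LaurentConst

/-! ### The generators `j`, `j_q` and the coordinate `x = j j_q` over a field -/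

section Main

variable (k : Type*) [Field k]

theorem order_qExpand_jqModC_neg (d : ℕ) [NeZero d] : (qExpand k d (jqModC k)).order < 0 := by
  have h1 : (qExpand k d (jqModC k)).coeff (-(d : ℤ)) = 1 := by
    rw [show (-(d : ℤ)) = (d : ℤ) * (-1) by ring, qExpand_coeff_mul, coeff_jqModC_neg_one]
  have h2 : (qExpand k d (jqModC k)).coeff (-(d : ℤ)) ≠ 0 := by
    rw [h1]
    exact one_ne_zero
  have h3 := HahnSeries.order_le_of_coeff_ne_zero h2
  have h4 : (0 : ℤ) < d := by exact_mod_cast Nat.pos_of_ne_zero (NeZero.ne d)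
  omega

theorem order_jqModC_neg : (jqModC k).order < 0 := by
  have := order_qExpand_jqModC_neg k 1
  rwa [qExpand_one_apply] at this

theorem transcendental_jqModC : Transcendental k (jqModC k) :=
  transcendental_of_order_neg (order_jqModC_neg k)

theorem order_x_neg (q : ℕ) [NeZero q] : (jqModC k * qExpand k q (jqModC k)).order < 0 := by
  have h1 := order_jqModC_neg k
  have h2 := order_qExpand_jqModC_neg k q
  have hj : jqModC k ≠ 0 := by
    intro h
    rw [h] at h1
    simp at h1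
  have hjq : qExpand k q (jqModC k) ≠ 0 := by
    intro h
    rw [h] at h2
    simp at h2
  rw [HahnSeries.order_mul hj hjq]
  omega

theorem transcendental_x (q : ℕ) [NeZero q] :
    Transcendental k (jqModC k * qExpand k q (jqModC k)) :=
  transcendental_of_order_neg (order_x_neg k q)

/-! ### The modular polynomial over `k` -/

/-- The modular polynomial `Φ_q` with coefficients in `k`. -/
def modPolyK (q : ℕ) [NeZero q] (D : S28.ModPolyData q) : k[X][Y] :=
  D.Φ.map (mapRingHom (Int.castRingHom k))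

theorem modPolyK_monic (q : ℕ) [NeZero q] (D : S28.ModPolyData q) : (modPolyK k q D).Monic :=
  D.monic.map _

theorem natDegree_modPolyK (q : ℕ) [NeZero q] (D : S28.ModPolyData q) :
    (modPolyK k q D).natDegree = q + 1 := by
  rw [modPolyK, D.monic.natDegree_map, D.natDegree_eq]

theorem aeval_comp_mapRingHom (y : LaurentSeries k) :
    (aeval (R := k) y).toRingHom.comp (mapRingHom (Int.castRingHom k)) = S28.evalAt y := by
  refine Polynomial.ringHom_ext' (Subsingleton.elim _ _) ?_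
  simp [S28.evalAt]

theorem coeffMap_comp_evalAt (y : LaurentSeries ℤ) :
    (coeffMap (Int.castRingHom k)).comp (S28.evalAt y)
      = S28.evalAt (coeffMap (Int.castRingHom k) y) := by
  refine Polynomial.ringHom_ext' (Subsingleton.elim _ _) ?_
  simp [S28.evalAt]

theorem aevalAeval_modPolyK (q : ℕ) [NeZero q] (D : S28.ModPolyData q) :
    aevalAeval (jqModC k) (qExpand k q (jqModC k)) (modPolyK k q D) = 0 := by
  rw [aevalAeval_eq_eval₂, modPolyK, eval₂_map, aeval_comp_mapRingHom]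
  have h := congrArg (coeffMap (Int.castRingHom k)) D.eval_jp
  rw [Polynomial.hom_eval₂, _root_.map_zero, coeffMap_comp_evalAt, coeffMap_qExpand,
    coeffMap_jqModC] at h
  exact h

theorem aevalAeval_modPolyK' (q : ℕ) [NeZero q] (D : S28.ModPolyData q) :
    aevalAeval (qExpand k q (jqModC k)) (jqModC k) (modPolyK k q D) = 0 := by
  rw [aevalAeval_eq_eval₂, modPolyK, eval₂_map, aeval_comp_mapRingHom]
  have h := congrArg (coeffMap (Int.castRingHom k)) D.eval_j
  rw [Polynomial.hom_eval₂, _root_.map_zero, coeffMap_comp_evalAt, coeffMap_qExpand,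
    coeffMap_jqModC] at h
  exact h

/-! ### Degrees -/

theorem divisorExpansionsC_prime {q : ℕ} [NeZero q] (hq : q.Prime) :
    divisorExpansionsC k q = {jqModC k, qExpand k q (jqModC k)} := by
  ext x
  constructor
  · rintro ⟨d, hd, hdq, rfl⟩
    rcases (Nat.dvd_prime hq).mp hdq with h | h
    · subst h
      left
      exact qExpand_one_apply _
    · subst h
      right
      rfl
  · rintro (rfl | rfl)
    · exact ⟨1, inferInstance, one_dvd _, (qExpand_one_apply _).symm⟩
    · exact ⟨q, inferInstance, dvd_rfl, rfl⟩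

theorem fullC_prime_eq {q : ℕ} [NeZero q] (hq : q.Prime) :
    modularFunctionFieldFullC k q = adjoin k {jqModC k, qExpand k q (jqModC k)} := by
  rw [modularFunctionFieldFullC, divisorExpansionsC_prime k hq]

theorem fullC_mono {N N' : ℕ} (h : N ∣ N') :
    modularFunctionFieldFullC k N ≤ modularFunctionFieldFullC k N' := by
  apply IntermediateField.adjoin.mono
  rintro x ⟨d, hd, hdN, rfl⟩
  exact ⟨d, hd, hdN.trans h, rfl⟩

theorem dedekindPsi_prime {q : ℕ} (hq : q.Prime) : dedekindPsi q = q + 1 := by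
  have h := S28.H626.psi_mul_prime_of_not_dvd (N := 1) one_ne_zero hq
    (fun h => hq.one_lt.ne' (Nat.dvd_one.mp h))
  rwa [one_mul, dedekindPsi_one, mul_one] at h

theorem relfinrank_j_fullC (N : ℕ) (hN : N ≠ 0)
    (hchar : ∀ p : ℕ, p.Prime → p ∣ N → (p : k) ≠ 0) :
    (k⟮jqModC k⟯).relfinrank (modularFunctionFieldFullC k N) = dedekindPsi N :=
  S28.H988.relfinrank_jField_full_eq k N hN hchar

theorem jField_le_fullC (N : ℕ) : k⟮jqModC k⟯ ≤ modularFunctionFieldFullC k N := by
  rw [adjoin_le_iff]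
  rintro x hx
  rw [Set.mem_singleton_iff] at hx
  subst hx
  exact IntermediateField.subset_adjoin k _ ⟨1, inferInstance, one_dvd _, (qExpand_one_apply _).symm⟩

/-- `[k(j, j_q) : k(j)] = q + 1`, in the form needed by `finrank_adjoin_mul`. -/
theorem finrank_adjoin_jq {q : ℕ} [NeZero q] (hq : q.Prime) (hchar : (q : k) ≠ 0) :
    Module.finrank k⟮jqModC k⟯ (k⟮jqModC k⟯)⟮qExpand k q (jqModC k)⟯ = q + 1 := by
  have h1 := relfinrank_j_fullC k q hq.ne_zero (fun p hp hpq => by
    rw [(Nat.prime_dvd_prime_iff_eq hp hq).mp hpq]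
    exact hchar)
  rw [dedekindPsi_prime hq, relfinrank_eq_finrank_of_le (jField_le_fullC k q)] at h1
  have hext : extendScalars (jField_le_fullC k q)
      = (k⟮jqModC k⟯)⟮qExpand k q (jqModC k)⟯ := by
    apply restrictScalars_injective k
    rw [extendScalars_restrictScalars, adjoin_adjoin_left, fullC_prime_eq k hq,
      Set.singleton_union]
  rw [← h1]
  exact (congrArg (fun F : IntermediateField (k⟮jqModC k⟯) (LaurentSeries k) =>
    Module.finrank k⟮jqModC k⟯ F) hext).symm

/-- `[k(j, j_q) : k(j j_q)] = 2 (q + 1)`. -/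
theorem relfinrank_x_fullC_prime {q : ℕ} [NeZero q] (hq : q.Prime) (hchar : (q : k) ≠ 0) :
    (k⟮jqModC k * qExpand k q (jqModC k)⟯).relfinrank (modularFunctionFieldFullC k q)
      = 2 * (q + 1) := by
  obtain ⟨D⟩ := S28.H807.nonempty_modPolyData q hq
  have hmain := finrank_adjoin_mul (transcendental_jqModC k) (transcendental_x k q)
    (modPolyK_monic k q D) (aevalAeval_modPolyK k q D) (aevalAeval_modPolyK' k q D)
    (by rw [natDegree_modPolyK]; exact finrank_adjoin_jq k hq hchar)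
  rw [natDegree_modPolyK] at hmain
  have hj0 : jqModC k ≠ 0 := by
    intro h
    have := order_jqModC_neg k
    rw [h] at this
    simp at this
  have hset : adjoin k ({jqModC k * qExpand k q (jqModC k)} ∪ {jqModC k})
      = modularFunctionFieldFullC k q := by
    rw [fullC_prime_eq k hq]
    apply le_antisymm
    · rw [adjoin_le_iff]
      rintro x (hx | hx)
      · rw [Set.mem_singleton_iff] at hx
        subst hx
        exact _root_.MulMemClass.mul_mem (subset_adjoin k _ (Set.mem_insert _ _))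
          (subset_adjoin k _ (Set.mem_insert_of_mem _ rfl))
      · rw [Set.mem_singleton_iff] at hx
        subst hx
        exact subset_adjoin k _ (Set.mem_insert _ _)
    · rw [adjoin_le_iff]
      rintro x (hx | hx)
      · subst hx
        exact subset_adjoin k _ (Or.inr rfl)
      · rw [Set.mem_singleton_iff] at hx
        subst hx
        have h1 : (jqModC k)⁻¹ * (jqModC k * qExpand k q (jqModC k))
            = qExpand k q (jqModC k) := by
          rw [← mul_assoc, inv_mul_cancel₀ hj0, one_mul]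
        have h2 : (jqModC k)⁻¹ * (jqModC k * qExpand k q (jqModC k)) ∈
            adjoin k ({jqModC k * qExpand k q (jqModC k)} ∪ {jqModC k}) :=
          _root_.MulMemClass.mul_mem (_root_.InvMemClass.inv_mem (subset_adjoin k _ (Or.inr rfl))) (subset_adjoin k _ (Or.inl rfl))
        rwa [h1] at h2
  have hle : k⟮jqModC k * qExpand k q (jqModC k)⟯ ≤ modularFunctionFieldFullC k q := by
    rw [← hset]
    exact IntermediateField.adjoin.mono k _ _ Set.subset_union_left
  rw [relfinrank_eq_finrank_of_le hle]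
  have hext : extendScalars hle
      = (k⟮jqModC k * qExpand k q (jqModC k)⟯)⟮jqModC k⟯ := by
    apply restrictScalars_injective k
    rw [extendScalars_restrictScalars, adjoin_adjoin_left, hset]
  rw [← hmain]
  exact congrArg (fun F : IntermediateField (k⟮jqModC k * qExpand k q (jqModC k)⟯)
    (LaurentSeries k) => Module.finrank k⟮jqModC k * qExpand k q (jqModC k)⟯ F) hext

/-- **Degree over `k(x)`, `x = j j_q`, at level `M q`.** -/
theorem relfinrank_x_fullC (M : ℕ) {q : ℕ} [NeZero q] (hq : q.Prime) (hqM : ¬ q ∣ M)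
    (hchar : ∀ p : ℕ, p.Prime → p ∣ M * q → (p : k) ≠ 0) :
    (k⟮jqModC k * qExpand k q (jqModC k)⟯).relfinrank (modularFunctionFieldFullC k (M * q))
      = 2 * ((q + 1) * dedekindPsi M) := by
  have hM : M ≠ 0 := by
    rintro rfl
    exact hqM (dvd_zero q)
  have hqk : (q : k) ≠ 0 := hchar q hq (dvd_mul_left q M)
  have hqdvd : q ∣ M * q := dvd_mul_left q M
  have h1 := relfinrank_j_fullC k q hq.ne_zero (fun p hp hpq =>
    hchar p hp (hpq.trans hqdvd))
  have h2 := relfinrank_j_fullC k (M * q) (Nat.mul_ne_zero hM hq.ne_zero) hchar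
  rw [dedekindPsi_prime hq] at h1
  rw [S28.H626.psi_mul_prime_of_not_dvd hM hq hqM] at h2
  have h3 := relfinrank_mul_relfinrank (jField_le_fullC k q) (fullC_mono k hqdvd)
  rw [h1, h2] at h3
  have h4 : (modularFunctionFieldFullC k q).relfinrank (modularFunctionFieldFullC k (M * q))
      = dedekindPsi M := Nat.eq_of_mul_eq_mul_left (Nat.succ_pos q) h3
  have h5 := relfinrank_x_fullC_prime k hq hqk
  have hle : k⟮jqModC k * qExpand k q (jqModC k)⟯ ≤ modularFunctionFieldFullC k q := by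
    rw [adjoin_simple_le_iff, fullC_prime_eq k hq]
    exact _root_.MulMemClass.mul_mem (subset_adjoin k _ (Set.mem_insert _ _))
      (subset_adjoin k _ (Set.mem_insert_of_mem _ rfl))
  have h6 := relfinrank_mul_relfinrank hle (fullC_mono k hqdvd)
  rw [h5, h4] at h6
  rw [← h6]
  ring

end Main

end Fermat.Agent.A2.Mod.H31

end

end
-- ===== PACK-END A2/Mod/H31/DegField.lean

-- ===== PACK-BEGIN A2/Mod/H31/Deg.lean
section



/-!
# A2 / MOD leaf L8 (helper31): `DegStatement`

`[F_{Mq} : E(x)] = 2 (q+1) ψ(M)` for `x = j · j_q`, `x` transcendental over `E`, and `E` is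
algebraically closed in `F_{Mq}`.  Statement VERBATIM from `Fermat/Agent/A2/Mod/Spec.lean`.
-/

set_option autoImplicit false
set_option synthInstance.maxHeartbeats 400000
set_option maxHeartbeats 1600000

noncomputable section

namespace Fermat.Agent.A2.Mod.H31

open ModularCurve HahnSeries Polynomial IntermediateField

variable (E : IntermediateField ℚ _root_.Fermat.Agent.A2.Mod.Qb)

theorem FE_eq_fullC (N : ℕ) : _root_.Fermat.Agent.A2.Mod.FE E N = modularFunctionFieldFullC E N :=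
  S28.H988.laurentBaseChange_full_eq_fullC E N

theorem coe_jE (N d : ℕ) [NeZero d] (hd : d ∣ N) :
    ((jE E N d hd : _root_.Fermat.Agent.A2.Mod.FE E N) : LaurentSeries E) = qExpand E d (jqModC E) := by
  show coeffEmb E (qExpand ℚ d jq) = _
  rw [coeffEmb, ← jqModC_rat, coeffMap_qExpand, coeffMap_jqModC]

theorem coe_xE (M q : ℕ) [NeZero q] :
    ((xE E M q : _root_.Fermat.Agent.A2.Mod.FE E (M * q)) : LaurentSeries E) = jqModC E * qExpand E q (jqModC E) := by
  rw [xE, MulMemClass.coe_mul, coe_jE, coe_jE, qExpand_one_apply]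

/-- **Leaf L8.** -/
theorem deg (M q : ℕ) [NeZero q] : DegStatement E M q := by
  intro hq hqM
  have hchar : ∀ p : ℕ, p.Prime → p ∣ M * q → ((p : ℕ) : E) ≠ 0 :=
    fun p hp _ => Nat.cast_ne_zero.mpr hp.ne_zero
  refine ⟨?_, ?_, ?_⟩
  · intro h
    have h2 : IsAlgebraic E ((xE E M q : _root_.Fermat.Agent.A2.Mod.FE E (M * q)) : LaurentSeries E) :=
      (isAlgebraic_algHom_iff (_root_.Fermat.Agent.A2.Mod.FE E (M * q)).val Subtype.val_injective).mpr h
    rw [coe_xE] at h2
    exact transcendental_x E q h2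
  · have h1 : adjoin E {xE E M q}
        = (adjoin E {((xE E M q : _root_.Fermat.Agent.A2.Mod.FE E (M * q)) : LaurentSeries E)}).comap
            (_root_.Fermat.Agent.A2.Mod.FE E (M * q)).val := by
      have h0 : (adjoin E {xE E M q}).map (_root_.Fermat.Agent.A2.Mod.FE E (M * q)).val
          = adjoin E {((xE E M q : _root_.Fermat.Agent.A2.Mod.FE E (M * q)) : LaurentSeries E)} := by
        rw [adjoin_map, Set.image_singleton]
        rfl
      rw [← h0, comap_map]
    rw [h1, finrank_comap, fieldRange_val, coe_xE, FE_eq_fullC]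
    exact relfinrank_x_fullC E M hq hqM hchar
  · intro f hf
    have h2 : IsAlgebraic E ((f : _root_.Fermat.Agent.A2.Mod.FE E (M * q)) : LaurentSeries E) :=
      (isAlgebraic_algHom_iff (_root_.Fermat.Agent.A2.Mod.FE E (M * q)).val Subtype.val_injective).mpr hf
    obtain ⟨c, hc⟩ := laurent_const_of_isAlgebraic _ h2
    exact ⟨c, Subtype.ext hc.symm⟩

end Fermat.Agent.A2.Mod.H31

end

end
-- ===== PACK-END A2/Mod/H31/Deg.lean

-- ===== PACK-BEGIN A2/H729/AlgSS.lean
section




/-!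
# A2, piece ALG_ss (helper729), version C and the final Kummer statement

Setting: `R` noetherian domain with `R[X]` integrally closed, `w ∈ R` prime, `m` invertible in
`R`; `F₀ ⊆ F` fields over `R`, `x₀ ∈ F₀` a coordinate (transcendental over `R`), `R` integrally
closed in `F` (`hRF`), `F` finite over `Frac R (x₀)`; `O₀ = gaussO hw x₀` (resp. `O`) is the
semi-local ring of the generic points of the special fibre of the normal model of `F₀`
(resp. `F`).

* `kummer_trivial_of_local_factorisation` (**version C**): `y ∈ F`, `y ^ m = u ∈ F₀`,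
  `u ≡ 1 mod w O₀`, and at every closed point `𝔫₀ ∋ w` of the two charts of `F₀` a local
  factorisation `u = ε * h ^ m`, `h ≡ 1 mod w O₀`, `ε` regular at `𝔫₀`.
  Then `kummerIdem y ∈ w O` or `y ≡ 1 mod w O`.
* `exists_pow_mul_inW` : with a primitive `m`-th root of unity `ζ ∈ R`, some `ζ ^ k * y` is
  `≡ 1 mod w O`.
* `algEquiv_fixed_of_inW` : if `y ≡ 1 mod w O` and `y ^ m ∈ F₀`, every `F₀`-automorphism of `F`
  fixes `y`.
* `alg_ss` : for `F / F₀` finite Galois, `y ∈ F₀`.
-/

set_option autoImplicit false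
set_option linter.unusedSectionVars false

namespace Fermat.Agent.A2.H729

open Polynomial Fermat.Agent.S18.H138

section Basic

variable {R : Type*} [CommRing R] [IsDomain R] [IsIntegrallyClosed (Polynomial R)]
  {F : Type*} [Field F] [Algebra R F]

/-- `w O ∩ R = w R`. -/
theorem dvd_of_inW_algebraMap (hinjR : Function.Injective (algebraMap R F)) {w : R}
    (hw : Prime w) {x : F} (hx : Transcendental R x) {a : R}
    (h : InW (gaussO hw x) w (algebraMap R F a)) : w ∣ a := by
  obtain ⟨t, ht, htt⟩ := qep_fin hw hx _ (Subalgebra.algebraMap_mem _ a) h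
  exact dvd_of_algebraMap_eq_mul hinjR hx w a ht htt

theorem not_inW_one (hinjR : Function.Injective (algebraMap R F)) {w : R}
    (hw : Prime w) {x : F} (hx : Transcendental R x) : ¬ InW (gaussO hw x) w 1 := by
  intro h
  have h1 : w ∣ (1 : R) := dvd_of_inW_algebraMap hinjR hw hx (a := 1) (by rwa [_root_.map_one])
  exact hw.not_isUnit (isUnit_of_dvd_one h1)

/-- A root of unity of order prime to the residue characteristic which is `≡ 1 mod w` is `1`. -/
theorem eq_one_of_pow_eq_one_of_dvd_sub_one {w : R} (hw : Prime w) {mi : R} {m : ℕ}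
    (hmi : (m : R) * mi = 1) {r : R} (hr : r ^ m = 1) (hwr : w ∣ r - 1) : r = 1 := by
  have h1 : (r - 1) * ∑ i ∈ Finset.range m, r ^ i = 0 := by
    rw [mul_geom_sum, hr, sub_self]
  rcases mul_eq_zero.1 h1 with h | h
  · exact sub_eq_zero.1 h
  · exfalso
    have h2 : w ∣ (∑ i ∈ Finset.range m, r ^ i) - (m : R) := by
      have : (∑ i ∈ Finset.range m, r ^ i) - (m : R) = ∑ i ∈ Finset.range m, (r ^ i - 1) := by
        rw [Finset.sum_sub_distrib]; simp
      rw [this]
      exact Finset.dvd_sum fun i _ => hwr.trans (sub_one_dvd_pow_sub_one r i)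
    rw [h, zero_sub] at h2
    have h3 : w ∣ (m : R) := (dvd_neg.1 h2)
    have h4 : w ∣ (1 : R) := by rw [← hmi]; exact h3.mul_right mi
    exact hw.not_isUnit (isUnit_of_dvd_one h4)

theorem sum_pow_pow_primitive {ζ : R} {m : ℕ} (hζ : IsPrimitiveRoot ζ m) {i : ℕ} (hi : i < m) :
    ∑ k ∈ Finset.range m, (ζ ^ k) ^ i = if i = 0 then (m : R) else 0 := by
  split_ifs with h0
  · subst h0; simp
  · have h1 : (ζ ^ i - 1) * ∑ k ∈ Finset.range m, (ζ ^ i) ^ k = 0 := by
      rw [mul_geom_sum, ← pow_mul, mul_comm, pow_mul, hζ.pow_eq_one, one_pow, sub_self]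
    have h2 : ζ ^ i - 1 ≠ 0 := sub_ne_zero.2 (hζ.pow_ne_one_of_pos_of_lt h0 hi)
    have h3 := (mul_eq_zero.1 h1).resolve_left h2
    rw [← h3]
    refine Finset.sum_congr rfl fun k _ => ?_
    rw [← pow_mul, ← pow_mul, mul_comm]

/-- The Kummer idempotents of the `ζ ^ k * y` sum to `1`. -/
theorem sum_kummerIdem {ζ : R} {m : ℕ} (hζ : IsPrimitiveRoot ζ m) {mi : R}
    (hmi : (m : R) * mi = 1) (y : F) :
    ∑ k ∈ Finset.range m, kummerIdem mi m (algebraMap R F (ζ ^ k) * y) = 1 := by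
  have hm : 0 < m := by
    rcases Nat.eq_zero_or_pos m with h | h
    · exfalso
      subst h
      simp at hmi
    · exact h
  simp only [kummerIdem, mul_pow, ← _root_.map_pow]
  rw [← Finset.mul_sum, Finset.sum_comm]
  have : ∀ i ∈ Finset.range m, ∑ k ∈ Finset.range m, algebraMap R F ((ζ ^ k) ^ i) * y ^ i =
      algebraMap R F (if i = 0 then (m : R) else 0) * y ^ i := by
    intro i hi
    rw [← Finset.sum_mul, ← _root_.map_sum, sum_pow_pow_primitive hζ (Finset.mem_range.1 hi)]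
  rw [Finset.sum_congr rfl this, Finset.sum_eq_single 0]
  · rw [if_pos rfl, pow_zero, mul_one, ← _root_.map_mul, mul_comm, hmi, _root_.map_one]
  · intro i _ hi0
    rw [if_neg hi0, _root_.map_zero, zero_mul]
  · intro h
    exact absurd (Finset.mem_range.2 hm) h

end Basic

section Main

variable {R : Type*} [CommRing R] [IsDomain R] [IsNoetherianRing R]
  [IsIntegrallyClosed (Polynomial R)]
  {F₀ : Type*} [Field F₀] [Algebra R F₀]
  {F : Type*} [Field F] [Algebra R F] [Algebra F₀ F] [IsScalarTower R F₀ F] [CharZero F]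

/-- **ALG_ss, version C**: local factorisations on the base charts. -/
theorem kummer_trivial_of_local_factorisation
    (hinjR : Function.Injective (algebraMap R F))
    (hRF : ∀ y : F, IsIntegral R y → y ∈ Set.range (algebraMap R F))
    {x₀ : F₀} (hx : Transcendental R (algebraMap F₀ F x₀))
    [FiniteDimensional (baseField R (algebraMap F₀ F x₀)) F]
    {w : R} (hw : Prime w) {mi : R} {m : ℕ} (hm : 0 < m) (hmi : (m : R) * mi = 1)
    {u : F₀} {y : F} (hyu : y ^ m = algebraMap F₀ F u)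
    (hgen : InW (gaussO hw x₀) w (u - 1))
    (hLF_fin : ∀ 𝔫₀ : Ideal (chart R ({x₀} : Set F₀)), 𝔫₀.IsMaximal →
      algebraMap R (chart R ({x₀} : Set F₀)) w ∈ 𝔫₀ →
      ∃ s : chart R ({x₀} : Set F₀), s ∉ 𝔫₀ ∧ ∃ h ε : F₀,
        InW (gaussO hw x₀) w (h - 1) ∧ u = ε * h ^ m ∧ (s : F₀) * ε ∈ chart R ({x₀} : Set F₀))
    (hLF_inf : ∀ 𝔫₀ : Ideal (chart R ({x₀⁻¹} : Set F₀)), 𝔫₀.IsMaximal →
      algebraMap R (chart R ({x₀⁻¹} : Set F₀)) w ∈ 𝔫₀ →
      ∃ s : chart R ({x₀⁻¹} : Set F₀), s ∉ 𝔫₀ ∧ ∃ h ε : F₀,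
        InW (gaussO hw x₀) w (h - 1) ∧ u = ε * h ^ m ∧
          (s : F₀) * ε ∈ chart R ({x₀⁻¹} : Set F₀)) :
    InW (gaussO hw (algebraMap F₀ F x₀)) w (kummerIdem mi m y) ∨
      InW (gaussO hw (algebraMap F₀ F x₀)) w (y - 1) := by
  set x : F := algebraMap F₀ F x₀ with hxdef
  have hx0 : x ≠ 0 := ne_zero_of_transcendental hx
  have hx₀0 : x₀ ≠ 0 := fun h => hx0 (by rw [hxdef, h, _root_.map_zero])
  have huO : algebraMap F₀ F u ∈ gaussO hw x := by
    have h1 : InW (gaussO hw x) w (algebraMap F₀ F (u - 1)) := InW.map (F := F) hw hgen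
    have : algebraMap F₀ F u = algebraMap F₀ F (u - 1) + 1 := by rw [_root_.map_sub, _root_.map_one]; ring
    rw [this]
    exact Subalgebra.add_mem _ h1.mem (Subalgebra.one_mem _)
  have hyO : y ∈ gaussO hw x := mem_gaussO_of_pow_mem hw hm (by rw [hyu]; exact huO)
  have hym : InW (gaussO hw x) w (y ^ m - 1) := by
    have h1 : InW (gaussO hw x) w (algebraMap F₀ F (u - 1)) := InW.map (F := F) hw hgen
    rwa [_root_.map_sub, _root_.map_one, ← hyu] at h1
  have hxinv : algebraMap F₀ F x₀⁻¹ = x⁻¹ := by rw [map_inv₀]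
  have hxi : Transcendental R (algebraMap F₀ F x₀⁻¹) := by
    rw [hxinv]; exact transcendental_inv hx
  have hloc_fin := hloc_of_localFactorisation (F := F) hw hx hm hyu hyO hLF_fin
  have hyO' : y ∈ gaussO hw (algebraMap F₀ F x₀⁻¹) := by
    rw [hxinv, gaussO_inv hw hx0]; exact hyO
  have hLF_inf' : ∀ 𝔫₀ : Ideal (chart R ({x₀⁻¹} : Set F₀)), 𝔫₀.IsMaximal →
      algebraMap R (chart R ({x₀⁻¹} : Set F₀)) w ∈ 𝔫₀ →
      ∃ s : chart R ({x₀⁻¹} : Set F₀), s ∉ 𝔫₀ ∧ ∃ h ε : F₀,
        InW (gaussO hw x₀⁻¹) w (h - 1) ∧ u = ε * h ^ m ∧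
          (s : F₀) * ε ∈ chart R ({x₀⁻¹} : Set F₀) := by
    rw [gaussO_inv hw hx₀0]
    exact hLF_inf
  have hloc_inf := hloc_of_localFactorisation (F := F) hw hxi hm hyu hyO' hLF_inf'
  rw [hxinv, gaussO_inv hw hx0] at hloc_inf
  exact kummer_trivial_of_local hinjR hRF hx w hw (gaussO hw x) (chart_fin_le_gaussO hw x)
    (chart_inf_le_gaussO hw hx0) (qep_fin hw hx) (qep_inf hw hx) (qep_mid hw hx) hm hmi hyO hym
    hloc_fin hloc_inf

/-- Root-of-unity selection: some `ζ ^ k * y` is `≡ 1` generically on the special fibre. -/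
theorem exists_pow_mul_inW
    (hinjR : Function.Injective (algebraMap R F))
    (hRF : ∀ y : F, IsIntegral R y → y ∈ Set.range (algebraMap R F))
    {x₀ : F₀} (hx : Transcendental R (algebraMap F₀ F x₀))
    [FiniteDimensional (baseField R (algebraMap F₀ F x₀)) F]
    {w : R} (hw : Prime w) {mi : R} {m : ℕ} (hmi : (m : R) * mi = 1)
    {ζ : R} (hζ : IsPrimitiveRoot ζ m)
    {u : F₀} {y : F} (hyu : y ^ m = algebraMap F₀ F u)
    (hgen : InW (gaussO hw x₀) w (u - 1))
    (hLF_fin : ∀ 𝔫₀ : Ideal (chart R ({x₀} : Set F₀)), 𝔫₀.IsMaximal →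
      algebraMap R (chart R ({x₀} : Set F₀)) w ∈ 𝔫₀ →
      ∃ s : chart R ({x₀} : Set F₀), s ∉ 𝔫₀ ∧ ∃ h ε : F₀,
        InW (gaussO hw x₀) w (h - 1) ∧ u = ε * h ^ m ∧ (s : F₀) * ε ∈ chart R ({x₀} : Set F₀))
    (hLF_inf : ∀ 𝔫₀ : Ideal (chart R ({x₀⁻¹} : Set F₀)), 𝔫₀.IsMaximal →
      algebraMap R (chart R ({x₀⁻¹} : Set F₀)) w ∈ 𝔫₀ →
      ∃ s : chart R ({x₀⁻¹} : Set F₀), s ∉ 𝔫₀ ∧ ∃ h ε : F₀,
        InW (gaussO hw x₀) w (h - 1) ∧ u = ε * h ^ m ∧
          (s : F₀) * ε ∈ chart R ({x₀⁻¹} : Set F₀)) :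
    ∃ k < m, InW (gaussO hw (algebraMap F₀ F x₀)) w (algebraMap R F (ζ ^ k) * y - 1) := by
  have hm : 0 < m := by
    rcases Nat.eq_zero_or_pos m with h | h
    · exfalso
      subst h
      simp at hmi
    · exact h
  by_contra hcon0
  have hcon : ∀ k, k < m →
      ¬ InW (gaussO hw (algebraMap F₀ F x₀)) w (algebraMap R F (ζ ^ k) * y - 1) :=
    fun k hk h => hcon0 ⟨k, hk, h⟩
  have hall : ∀ k ∈ Finset.range m, InW (gaussO hw (algebraMap F₀ F x₀)) w
      (kummerIdem mi m (algebraMap R F (ζ ^ k) * y)) := by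
    intro k hk
    have hk' := Finset.mem_range.1 hk
    have hyu' : (algebraMap R F (ζ ^ k) * y) ^ m = algebraMap F₀ F u := by
      rw [mul_pow, ← _root_.map_pow, ← pow_mul, mul_comm k m, pow_mul, hζ.pow_eq_one, one_pow,
        _root_.map_one, one_mul, hyu]
    rcases kummer_trivial_of_local_factorisation hinjR hRF hx hw hm hmi hyu' hgen hLF_fin
      hLF_inf with h | h
    · exact h
    · exact absurd h (hcon k hk')
  have h1 := InW.sum _ _ hall
  rw [sum_kummerIdem hζ hmi y] at h1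
  exact not_inW_one hinjR hw hx h1

/-- If `y ≡ 1` generically on the special fibre and `y ^ m ∈ F₀`, then `y` is fixed by every
`F₀`-automorphism of `F`. -/
theorem algEquiv_fixed_of_inW
    (hinjR : Function.Injective (algebraMap R F))
    (hRF : ∀ y : F, IsIntegral R y → y ∈ Set.range (algebraMap R F))
    {x₀ : F₀} (hx : Transcendental R (algebraMap F₀ F x₀))
    {w : R} (hw : Prime w) {mi : R} {m : ℕ} (hm : 0 < m) (hmi : (m : R) * mi = 1)
    {u : F₀} {y : F} (hyu : y ^ m = algebraMap F₀ F u)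
    (hy1 : InW (gaussO hw (algebraMap F₀ F x₀)) w (y - 1)) (σ : F ≃ₐ[F₀] F) : σ y = y := by
  set O := gaussO hw (algebraMap F₀ F x₀) with hO
  have hyO : y ∈ O := by
    have : y = (y - 1) + 1 := by ring
    rw [this]
    exact Subalgebra.add_mem _ hy1.mem (Subalgebra.one_mem _)
  have hy0 : y ≠ 0 := by
    intro h0
    rw [h0, zero_sub] at hy1
    have := hy1.neg
    rw [neg_neg] at this
    exact not_inW_one hinjR hw hx this
  have hym : InW O w (y ^ m - 1) := by
    have := inW_pow_sub_pow hyO (Subalgebra.one_mem _) hy1 m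
    rwa [one_pow] at this
  -- the root of unity `ξ = σ y / y`
  set ξ : F := σ y * y⁻¹ with hξ
  have hσy : σ y = ξ * y := by rw [hξ, mul_assoc, inv_mul_cancel₀ hy0, mul_one]
  have hξm : ξ ^ m = 1 := by
    rw [hξ, mul_pow, ← _root_.map_pow, hyu, σ.commutes, ← hyu, inv_pow, mul_inv_cancel₀
      (pow_ne_zero _ hy0)]
  have hξint : IsIntegral R ξ := by
    refine ⟨X ^ m - 1, monic_X_pow_sub_C 1 hm.ne', ?_⟩
    simp [hξm]
  obtain ⟨r, hr⟩ := hRF ξ hξint
  have hrm : r ^ m = 1 := by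
    apply hinjR
    rw [_root_.map_pow, hr, hξm, _root_.map_one]
  -- `ξ ≡ 1`
  have h1 : InW O w (ξ * y - 1) := by
    rw [← hσy]
    have := InW.algEquiv hw σ hy1
    rwa [_root_.map_sub, _root_.map_one] at this
  have h2 : InW O w ((ξ - 1) * y) := by
    have : (ξ - 1) * y = (ξ * y - 1) - (y - 1) := by ring
    rw [this]
    exact h1.sub hy1
  have hξO : ξ ∈ O := by rw [← hr]; exact Subalgebra.algebraMap_mem _ r
  have h3 : InW O w (ξ - 1) := by
    have : ξ - 1 = ((ξ - 1) * y) * y ^ (m - 1) - (ξ - 1) * (y ^ m - 1) := by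
      have : y ^ m = y * y ^ (m - 1) := by
        rw [← pow_succ']; congr 1; omega
      rw [this]; ring
    rw [this]
    exact (h2.mul_right (Subalgebra.pow_mem _ hyO _)).sub
      (hym.mul_left (Subalgebra.sub_mem _ hξO (Subalgebra.one_mem _)))
  have h4 : w ∣ r - 1 := by
    apply dvd_of_inW_algebraMap hinjR hw hx
    rwa [_root_.map_sub, _root_.map_one, hr]
  have hr1 : r = 1 := eq_one_of_pow_eq_one_of_dvd_sub_one hw hmi hrm h4
  rw [hσy, ← hr, hr1, _root_.map_one, one_mul]

/-- **ALG_ss (route S), final form.**  A Kummer class `u ∈ F₀` which is `≡ 1` generically on the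
special fibre and has local factorisations `u = ε * h ^ m` (`h ≡ 1` generically, `ε` regular)
at every closed point of the special fibre is an `m`-th power in `F₀`, provided its Kummer
extension `F` is regular over `R` (`hRF`). -/
theorem alg_ss [IsGalois F₀ F] [FiniteDimensional F₀ F]
    (hinjR : Function.Injective (algebraMap R F))
    (hRF : ∀ y : F, IsIntegral R y → y ∈ Set.range (algebraMap R F))
    {x₀ : F₀} (hx : Transcendental R (algebraMap F₀ F x₀))
    [FiniteDimensional (baseField R (algebraMap F₀ F x₀)) F]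
    {w : R} (hw : Prime w) {mi : R} {m : ℕ} (hmi : (m : R) * mi = 1)
    {ζ : R} (hζ : IsPrimitiveRoot ζ m)
    {u : F₀} {y : F} (hyu : y ^ m = algebraMap F₀ F u)
    (hgen : InW (gaussO hw x₀) w (u - 1))
    (hLF_fin : ∀ 𝔫₀ : Ideal (chart R ({x₀} : Set F₀)), 𝔫₀.IsMaximal →
      algebraMap R (chart R ({x₀} : Set F₀)) w ∈ 𝔫₀ →
      ∃ s : chart R ({x₀} : Set F₀), s ∉ 𝔫₀ ∧ ∃ h ε : F₀,
        InW (gaussO hw x₀) w (h - 1) ∧ u = ε * h ^ m ∧ (s : F₀) * ε ∈ chart R ({x₀} : Set F₀))
    (hLF_inf : ∀ 𝔫₀ : Ideal (chart R ({x₀⁻¹} : Set F₀)), 𝔫₀.IsMaximal →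
      algebraMap R (chart R ({x₀⁻¹} : Set F₀)) w ∈ 𝔫₀ →
      ∃ s : chart R ({x₀⁻¹} : Set F₀), s ∉ 𝔫₀ ∧ ∃ h ε : F₀,
        InW (gaussO hw x₀) w (h - 1) ∧ u = ε * h ^ m ∧
          (s : F₀) * ε ∈ chart R ({x₀⁻¹} : Set F₀)) :
    ∃ y₀ : F₀, y₀ ^ m = u := by
  have hm : 0 < m := by
    rcases Nat.eq_zero_or_pos m with h | h
    · exfalso
      subst h
      simp at hmi
    · exact h
  obtain ⟨k, -, hk⟩ := exists_pow_mul_inW hinjR hRF hx hw hmi hζ hyu hgen hLF_fin hLF_inf
  have hyu' : (algebraMap R F (ζ ^ k) * y) ^ m = algebraMap F₀ F u := by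
    rw [mul_pow, ← _root_.map_pow, ← pow_mul, mul_comm k m, pow_mul, hζ.pow_eq_one, one_pow,
      _root_.map_one, one_mul, hyu]
  have hfix : ∀ σ : F ≃ₐ[F₀] F, σ (algebraMap R F (ζ ^ k) * y) = algebraMap R F (ζ ^ k) * y :=
    fun σ => algEquiv_fixed_of_inW hinjR hRF hx hw hm hmi hyu' hk σ
  obtain ⟨y₀, hy₀⟩ := (IsGalois.mem_range_algebraMap_iff_fixed
    (F := F₀) (E := F) (algebraMap R F (ζ ^ k) * y)).2 hfix
  refine ⟨y₀, ?_⟩
  apply (algebraMap F₀ F).injective
  rw [_root_.map_pow, hy₀, hyu']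

end Main

end Fermat.Agent.A2.H729

end
-- ===== PACK-END A2/H729/AlgSS.lean

-- ===== PACK-BEGIN Ribet/H552/ASIdem.lean
section




/-!
# RIBET wall-p, leaf GLUE-p (helper552), part 1: the sheet idempotents of an Artin–Schreier cover

`R` a domain, `ζ ∈ R` a primitive `p`-th root of unity (`p` prime), `λ = ζ - 1`,
`g_k = 1 + ζ + ⋯ + ζ^(k-1) = (ζ^k - 1)/λ` (`geomS`): the differences `g_k - g_l`, `k ≠ l < p`, are
units of `R` (cyclotomic units).

For `y = 1 + λ Y` one has `y ^ p - 1 = λ ^ p ∏_{k<p} (Y - g_k)` (`pow_sub_one_eq_prod_geomS`):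
the Artin–Schreier form of the Kummer equation.  If `∏_k (Y - g_k) ≡ 0 mod w O`, the Lagrange
idempotents `sheetIdem k = ∏_{l ≠ k} (Y - g_l)/(g_k - g_l)` are orthogonal idempotents modulo `w O`
with sum `1` (`inW_sheetIdem_sq_sub`, `sum_sheetIdem`).

`as_trivial_of_local` (**version B-p** of `A2.H729.kummer_trivial_of_local`): on a two-chart model
with connected reduced special fibre, if `Y` has local integral models at every closed point of
the special fibre, then `Y ≡ g_k mod w O` for ONE `k`, globally.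
-/

set_option autoImplicit false
set_option linter.unusedSectionVars false

namespace Fermat.Agent.Ribet.H552

open Polynomial Fermat.Agent.S18.H138 Fermat.Agent.A2.H729

section CycUnits

variable {R : Type*} [CommRing R]

/-- The geometric sum `1 + ζ + ⋯ + ζ ^ (j - 1)`. -/
def geomS (ζ : R) (j : ℕ) : R := ∑ l ∈ Finset.range j, ζ ^ l

theorem geomS_zero (ζ : R) : geomS ζ 0 = 0 := by simp [geomS]

theorem geomS_mul (ζ : R) (j : ℕ) : geomS ζ j * (ζ - 1) = ζ ^ j - 1 := geom_sum_mul ζ j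

variable [IsDomain R]

/-- Cyclotomic units. -/
theorem exists_geomS_inv {p : ℕ} (hp : p.Prime) {ζ : R} (hζ : IsPrimitiveRoot ζ p) {j : ℕ}
    (hj0 : 0 < j) (hjp : j < p) : ∃ r : R, geomS ζ j * r = 1 := by
  have hcop : Nat.Coprime j p := (Nat.coprime_of_lt_prime hj0.ne' hjp hp).symm
  obtain ⟨j', -, hj'⟩ := Nat.exists_mul_mod_eq_one_of_coprime hcop hp.one_lt
  refine ⟨geomS (ζ ^ j) j', ?_⟩
  have hlam : ζ - 1 ≠ 0 := sub_ne_zero.2 (hζ.ne_one hp.one_lt)
  have h1 := geomS_mul ζ j
  have h2 := geomS_mul (ζ ^ j) j'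
  have h3 : (ζ ^ j) ^ j' = ζ := by
    rw [← pow_mul, pow_eq_pow_mod (j * j') hζ.pow_eq_one, hj', pow_one]
  rw [h3, ← h1] at h2
  apply mul_right_cancel₀ hlam
  rw [one_mul]
  linear_combination h2

theorem geomS_sub_of_le {ζ : R} (hζ1 : ζ - 1 ≠ 0) {k l : ℕ} (hlk : l ≤ k) :
    geomS ζ k - geomS ζ l = ζ ^ l * geomS ζ (k - l) := by
  apply mul_right_cancel₀ hζ1
  have h1 := geomS_mul ζ k
  have h2 := geomS_mul ζ l
  have h3 := geomS_mul ζ (k - l)
  have h4 : ζ ^ k = ζ ^ l * ζ ^ (k - l) := by rw [← pow_add]; congr 1; omega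
  rw [h4] at h1
  linear_combination h1 - h2 - ζ ^ l * h3

/-- The differences of the sheet values are units. -/
theorem exists_geomS_sub_inv {p : ℕ} (hp : p.Prime) {ζ : R} (hζ : IsPrimitiveRoot ζ p) {k l : ℕ}
    (hk : k < p) (hl : l < p) (hkl : k ≠ l) : ∃ r : R, (geomS ζ k - geomS ζ l) * r = 1 := by
  have hlam : ζ - 1 ≠ 0 := sub_ne_zero.2 (hζ.ne_one hp.one_lt)
  have key : ∀ a b : ℕ, a < p → b < a → ∃ r : R, (geomS ζ a - geomS ζ b) * r = 1 := by
    intro a b ha hba
    obtain ⟨r, hr⟩ := exists_geomS_inv hp hζ (j := a - b) (by omega) (by omega)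
    refine ⟨ζ ^ (p - b) * r, ?_⟩
    rw [geomS_sub_of_le hlam hba.le]
    have h1 : ζ ^ b * ζ ^ (p - b) = 1 := by
      rw [← pow_add, show b + (p - b) = p by omega, hζ.pow_eq_one]
    linear_combination geomS ζ (a - b) * r * h1 + hr
  rcases lt_or_gt_of_ne hkl with h | h
  · obtain ⟨r, hr⟩ := key l k hl h
    exact ⟨-r, by linear_combination hr⟩
  · exact key k l hk h

end CycUnits

section Sheet

variable {R : Type*} [CommRing R] {F : Type*} [Field F] [Algebra R F]

/-- The Lagrange idempotent of the sheet `Y ≡ g k` (`d k l` is the inverse of `g k - g l`). -/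
noncomputable def sheetIdem (s : Finset ℕ) (g : ℕ → R) (d : ℕ → ℕ → R) (Y : F) (k : ℕ) : F :=
  ∏ l ∈ s.erase k, (algebraMap R F (d k l) * (Y - algebraMap R F (g l)))

theorem sheetIdem_mem {O : Subalgebra R F} (s : Finset ℕ) (g : ℕ → R) (d : ℕ → ℕ → R) {Y : F}
    (hY : Y ∈ O) (k : ℕ) : sheetIdem s g d Y k ∈ O :=
  Subalgebra.prod_mem _ fun _ _ =>
    O.mul_mem (O.algebraMap_mem _) (O.sub_mem hY (O.algebraMap_mem _))

theorem sub_mul_sheetIdem (s : Finset ℕ) (g : ℕ → R) (d : ℕ → ℕ → R) (Y : F) {k : ℕ}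
    (hk : k ∈ s) :
    (Y - algebraMap R F (g k)) * sheetIdem s g d Y k =
      (∏ l ∈ s.erase k, algebraMap R F (d k l)) * ∏ l ∈ s, (Y - algebraMap R F (g l)) := by
  rw [sheetIdem, Finset.prod_mul_distrib,
    ← Finset.mul_prod_erase s (fun l => Y - algebraMap R F (g l)) hk]
  ring

theorem inW_sub_mul_sheetIdem {O : Subalgebra R F} {w : R} (s : Finset ℕ) (g : ℕ → R)
    (d : ℕ → ℕ → R) {Y : F} (hA : InW O w (∏ l ∈ s, (Y - algebraMap R F (g l)))) {k : ℕ}
    (hk : k ∈ s) : InW O w ((Y - algebraMap R F (g k)) * sheetIdem s g d Y k) := by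
  rw [sub_mul_sheetIdem s g d Y hk]
  exact hA.mul_left (Subalgebra.prod_mem _ fun _ _ => O.algebraMap_mem _)

theorem inW_sheetIdem_mul {O : Subalgebra R F} {w : R} (s : Finset ℕ) (g : ℕ → R)
    (d : ℕ → ℕ → R) {Y : F} (hY : Y ∈ O)
    (hA : InW O w (∏ l ∈ s, (Y - algebraMap R F (g l)))) {k l : ℕ}
    (hk : k ∈ s) (hkl : k ≠ l) :
    InW O w (sheetIdem s g d Y k * sheetIdem s g d Y l) := by
  have hkl' : k ∈ s.erase l := Finset.mem_erase.2 ⟨hkl, hk⟩
  have h1 : sheetIdem s g d Y l = (algebraMap R F (d l k) * (Y - algebraMap R F (g k))) *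
      ∏ j ∈ (s.erase l).erase k, (algebraMap R F (d l j) * (Y - algebraMap R F (g j))) := by
    rw [sheetIdem, Finset.mul_prod_erase (s.erase l)
      (fun j => algebraMap R F (d l j) * (Y - algebraMap R F (g j))) hkl']
  have h2 : sheetIdem s g d Y k * sheetIdem s g d Y l =
      ((Y - algebraMap R F (g k)) * sheetIdem s g d Y k) * (algebraMap R F (d l k) *
        ∏ j ∈ (s.erase l).erase k, (algebraMap R F (d l j) * (Y - algebraMap R F (g j)))) := by
    rw [h1]; ring
  rw [h2]
  exact (inW_sub_mul_sheetIdem s g d hA hk).mul_right (O.mul_mem (O.algebraMap_mem _)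
    (Subalgebra.prod_mem _ fun _ _ =>
      O.mul_mem (O.algebraMap_mem _) (O.sub_mem hY (O.algebraMap_mem _))))

/-- Lagrange interpolation of the constant `1`. -/
theorem sum_sheetIdem (s : Finset ℕ) (hs : s.Nonempty) (g : ℕ → R) (d : ℕ → ℕ → R)
    (hd : ∀ k ∈ s, ∀ l ∈ s, k ≠ l → (g k - g l) * d k l = 1) (Y : F) :
    ∑ k ∈ s, sheetIdem s g d Y k = 1 := by
  classical
  set v : ℕ → F := fun k => algebraMap R F (g k) with hv
  have hdF : ∀ k ∈ s, ∀ l ∈ s, k ≠ l → (v k - v l) * algebraMap R F (d k l) = 1 := by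
    intro k hk l hl hkl
    have := congrArg (algebraMap R F) (hd k hk l hl hkl)
    rwa [_root_.map_mul, _root_.map_sub, _root_.map_one] at this
  have hinj : Set.InjOn v s := by
    intro k hk l hl hkl
    by_contra hne
    have := hdF k hk l hl hne
    rw [hkl, sub_self, zero_mul] at this
    exact zero_ne_one this
  have h := congrArg (eval Y) (Lagrange.sum_basis hinj hs)
  rw [eval_finsetSum, eval_one] at h
  rw [← h]
  refine Finset.sum_congr rfl fun k hk => ?_
  rw [sheetIdem, Lagrange.basis, eval_prod]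
  refine Finset.prod_congr rfl fun l hl => ?_
  rw [Lagrange.basisDivisor, eval_mul, eval_C, eval_sub, eval_X, eval_C]
  have hl' := Finset.mem_erase.1 hl
  rw [eq_inv_of_mul_eq_one_right (hdF k hk l hl'.2 (Ne.symm hl'.1))]

/-- The sheet idempotents are idempotent modulo `w O`. -/
theorem inW_sheetIdem_sq_sub {O : Subalgebra R F} {w : R} (s : Finset ℕ) (g : ℕ → R)
    (d : ℕ → ℕ → R) (hd : ∀ k ∈ s, ∀ l ∈ s, k ≠ l → (g k - g l) * d k l = 1) {Y : F}
    (hY : Y ∈ O) (hA : InW O w (∏ l ∈ s, (Y - algebraMap R F (g l)))) {k : ℕ} (hk : k ∈ s) :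
    InW O w (sheetIdem s g d Y k ^ 2 - sheetIdem s g d Y k) := by
  classical
  have hsum := sum_sheetIdem (F := F) s ⟨k, hk⟩ g d hd Y
  rw [← Finset.add_sum_erase s _ hk] at hsum
  have h1 : sheetIdem s g d Y k ^ 2 - sheetIdem s g d Y k =
      -(∑ l ∈ s.erase k, sheetIdem s g d Y k * sheetIdem s g d Y l) := by
    rw [← Finset.mul_sum]
    have : ∑ l ∈ s.erase k, sheetIdem s g d Y l = 1 - sheetIdem s g d Y k := by
      linear_combination hsum
    rw [this]; ring
  rw [h1]
  exact (InW.sum _ _ fun l hl =>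
    inW_sheetIdem_mul s g d hY hA hk (Finset.ne_of_mem_erase hl).symm).neg

theorem inW_sub_of_inW_one_sub_sheetIdem {O : Subalgebra R F} {w : R} (s : Finset ℕ)
    (g : ℕ → R) (d : ℕ → ℕ → R) {Y : F} (hY : Y ∈ O)
    (hA : InW O w (∏ l ∈ s, (Y - algebraMap R F (g l)))) {k : ℕ} (hk : k ∈ s)
    (h : InW O w (1 - sheetIdem s g d Y k)) : InW O w (Y - algebraMap R F (g k)) := by
  have : Y - algebraMap R F (g k) = (Y - algebraMap R F (g k)) * sheetIdem s g d Y k +
      (Y - algebraMap R F (g k)) * (1 - sheetIdem s g d Y k) := by ring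
  rw [this]
  exact (inW_sub_mul_sheetIdem s g d hA hk).add
    (h.mul_left (O.sub_mem hY (O.algebraMap_mem _)))

/-- Products of congruent factors are congruent. -/
theorem inW_prod_sub_prod {O : Subalgebra R F} {w : R} (t : Finset ℕ) (a b : ℕ → F)
    (ha : ∀ l ∈ t, a l ∈ O) (hb : ∀ l ∈ t, b l ∈ O) (hab : ∀ l ∈ t, InW O w (a l - b l)) :
    InW O w (∏ l ∈ t, a l - ∏ l ∈ t, b l) := by
  classical
  induction t using Finset.induction_on with
  | empty => simpa using InW.zero O w
  | insert j t hj ih =>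
    rw [Finset.prod_insert hj, Finset.prod_insert hj]
    have e : a j * ∏ l ∈ t, a l - b j * ∏ l ∈ t, b l =
        a j * (∏ l ∈ t, a l - ∏ l ∈ t, b l) + (a j - b j) * ∏ l ∈ t, b l := by ring
    rw [e]
    exact ((ih (fun l hl => ha l (Finset.mem_insert_of_mem hl))
      (fun l hl => hb l (Finset.mem_insert_of_mem hl))
      (fun l hl => hab l (Finset.mem_insert_of_mem hl))).mul_left
        (ha j (Finset.mem_insert_self j t))).add
      ((hab j (Finset.mem_insert_self j t)).mul_right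
        (Subalgebra.prod_mem _ fun l hl => hb l (Finset.mem_insert_of_mem hl)))

/-- Local regularity of the sheet idempotents from a local integral model of `Y`. -/
theorem sheetIdem_locally_regular {C O : Subalgebra R F} (hCO : C ≤ O) {w : R} (s : Finset ℕ)
    (g : ℕ → R) (d : ℕ → ℕ → R) {Y : F} (hY : Y ∈ O) (k : ℕ) (𝔫 : Ideal C) [h𝔫 : 𝔫.IsPrime]
    {S : C} (hS : S ∉ 𝔫) {Y₁ : F} (h₁ : InW O w (Y - Y₁)) (hSY : (S : F) * Y₁ ∈ C) :
    ∃ S' : C, S' ∉ 𝔫 ∧ ∃ e ∈ C, InW O w ((S' : F) * sheetIdem s g d Y k - e) := by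
  classical
  have hY₁ : Y₁ ∈ O := by
    have : Y₁ = Y - (Y - Y₁) := by ring
    rw [this]
    exact O.sub_mem hY h₁.mem
  refine ⟨S ^ (s.erase k).card, fun h => hS (h𝔫.mem_of_pow_mem _ h),
    (S : F) ^ (s.erase k).card * sheetIdem s g d Y₁ k, ?_, ?_⟩
  · have : (S : F) ^ (s.erase k).card * sheetIdem s g d Y₁ k =
        ∏ l ∈ s.erase k, (algebraMap R F (d k l) *
          ((S : F) * Y₁ - (S : F) * algebraMap R F (g l))) := by
      rw [sheetIdem, ← Finset.prod_const, ← Finset.prod_mul_distrib]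
      exact Finset.prod_congr rfl fun l _ => by ring
    rw [this]
    exact Subalgebra.prod_mem _ fun l _ => C.mul_mem (C.algebraMap_mem _)
      (C.sub_mem hSY (C.mul_mem S.2 (C.algebraMap_mem _)))
  · have hdiff : InW O w (sheetIdem s g d Y k - sheetIdem s g d Y₁ k) := by
      refine inW_prod_sub_prod (s.erase k) _ _
        (fun l _ => O.mul_mem (O.algebraMap_mem _) (O.sub_mem hY (O.algebraMap_mem _)))
        (fun l _ => O.mul_mem (O.algebraMap_mem _) (O.sub_mem hY₁ (O.algebraMap_mem _)))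
        (fun l _ => ?_)
      have : algebraMap R F (d k l) * (Y - algebraMap R F (g l)) -
          algebraMap R F (d k l) * (Y₁ - algebraMap R F (g l)) =
          algebraMap R F (d k l) * (Y - Y₁) := by ring
      rw [this]
      exact h₁.mul_left (O.algebraMap_mem _)
    have : ((S ^ (s.erase k).card : C) : F) * sheetIdem s g d Y k -
        (S : F) ^ (s.erase k).card * sheetIdem s g d Y₁ k =
        (S : F) ^ (s.erase k).card * (sheetIdem s g d Y k - sheetIdem s g d Y₁ k) := by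
      push_cast
      ring
    rw [this]
    exact hdiff.mul_left (O.pow_mem (hCO S.2) _)

end Sheet

section Main

variable {R : Type*} [CommRing R] [IsDomain R] [IsNoetherianRing R]
  [IsIntegrallyClosed (Polynomial R)] {F : Type*} [Field F] [Algebra R F] [CharZero F]

/-- **GLUE-p, version B-p.**  `Y` an Artin–Schreier coordinate (`∏_{k ∈ s} (Y - g k) ≡ 0` modulo
`w O`, the `g k` with unit differences) having local integral models at every closed point of the
special fibre of both charts: then `Y ≡ g k mod w O` for one `k`. -/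
theorem as_trivial_of_local
    (hinjR : Function.Injective (algebraMap R F))
    (hRF : ∀ y : F, IsIntegral R y → y ∈ Set.range (algebraMap R F))
    {x : F} (hx : Transcendental R x) [FiniteDimensional (baseField R x) F]
    (w : R) (hw : Prime w)
    (O : Subalgebra R F)
    (hfin : chart R ({x} : Set F) ≤ O) (hinf : chart R ({x⁻¹} : Set F) ≤ O)
    (qep_fin : ∀ b ∈ chart R ({x} : Set F), InW O w b →
      ∃ t ∈ chart R ({x} : Set F), b = algebraMap R F w * t)
    (qep_inf : ∀ b ∈ chart R ({x⁻¹} : Set F), InW O w b →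
      ∃ t ∈ chart R ({x⁻¹} : Set F), b = algebraMap R F w * t)
    (qep_mid : ∀ b ∈ chart R ({x, x⁻¹} : Set F), InW O w b →
      ∃ t ∈ chart R ({x, x⁻¹} : Set F), b = algebraMap R F w * t)
    (h1 : ¬ InW O w 1)
    (s : Finset ℕ) (hs : s.Nonempty) (g : ℕ → R) (d : ℕ → ℕ → R)
    (hd : ∀ k ∈ s, ∀ l ∈ s, k ≠ l → (g k - g l) * d k l = 1)
    {Y : F} (hY : Y ∈ O) (hA : InW O w (∏ l ∈ s, (Y - algebraMap R F (g l))))
    (hloc_fin : ∀ 𝔫 : Ideal (chart R ({x} : Set F)), 𝔫.IsMaximal →
      algebraMap R (chart R ({x} : Set F)) w ∈ 𝔫 →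
      ∃ S : chart R ({x} : Set F), S ∉ 𝔫 ∧
        ∃ Y₁ : F, InW O w (Y - Y₁) ∧ (S : F) * Y₁ ∈ chart R ({x} : Set F))
    (hloc_inf : ∀ 𝔫 : Ideal (chart R ({x⁻¹} : Set F)), 𝔫.IsMaximal →
      algebraMap R (chart R ({x⁻¹} : Set F)) w ∈ 𝔫 →
      ∃ S : chart R ({x⁻¹} : Set F), S ∉ 𝔫 ∧
        ∃ Y₁ : F, InW O w (Y - Y₁) ∧ (S : F) * Y₁ ∈ chart R ({x⁻¹} : Set F)) :
    ∃ k ∈ s, InW O w (Y - algebraMap R F (g k)) := by
  by_contra hcon
  have hall : ∀ k ∈ s, InW O w (sheetIdem s g d Y k) := by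
    intro k hk
    have h := generic_idempotent_trivial hinjR hRF hx w hw O hfin hinf qep_fin qep_inf qep_mid
      (sheetIdem_mem s g d hY k) (inW_sheetIdem_sq_sub s g d hd hY hA hk)
      (fun 𝔫 h𝔫 hw𝔫 => by
        obtain ⟨S, hS, Y₁, h₁, hSY⟩ := hloc_fin 𝔫 h𝔫 hw𝔫
        have := h𝔫.isPrime
        exact sheetIdem_locally_regular hfin s g d hY k 𝔫 hS h₁ hSY)
      (fun 𝔫 h𝔫 hw𝔫 => by
        obtain ⟨S, hS, Y₁, h₁, hSY⟩ := hloc_inf 𝔫 h𝔫 hw𝔫
        have := h𝔫.isPrime
        exact sheetIdem_locally_regular hinf s g d hY k 𝔫 hS h₁ hSY)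
    rcases h with h | h
    · exact h
    · exact absurd ⟨k, hk, inW_sub_of_inW_one_sub_sheetIdem s g d hY hA hk h⟩ hcon
  have := InW.sum s _ hall
  rw [sum_sheetIdem s hs g d hd Y] at this
  exact h1 this

end Main

end Fermat.Agent.Ribet.H552

end
-- ===== PACK-END Ribet/H552/ASIdem.lean

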