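import Fermat.Prelude.Def_AlgebraicCurve_Correspondence
import Fermat.Prelude.Def_FLTPrelim_Ramification
import Mathlib
import Fermat.Agent.Pack.S33.E18L3
import Fermat.Agent.Pack.S33.E0L3
import Fermat.Agent.Pack.S33.E14L1
import Fermat.Agent.Pack.S33.E14L3
import Fermat.Agent.Pack.S33.E7L1
import Fermat.Agent.Pack.S33.E18L0
import Fermat.Agent.Pack.S33.E5L3
import Fermat.Agent.Pack.S33.E15L1
import Fermat.Agent.Pack.S33.E11L2
import Fermat.Agent.Pack.S33.E2L0
import Fermat.Agent.Pack.S33.E8L1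
import Fermat.Agent.Pack.S33.E8L2
import Fermat.Agent.Pack.S33.E13L0
import Fermat.Agent.Pack.S33.E13L1
import Fermat.Agent.Pack.S33.E13L3
import Fermat.Agent.Pack.S33.E11L0
import Fermat.Agent.Pack.S33.E16L1
import Fermat.Agent.Pack.S33.E13L2
import Fermat.Agent.Pack.S33.E18L1
import Fermat.Agent.Pack.S33.E17L2
import Fermat.Agent.Pack.S33.E11L3
import Fermat.Agent.Pack.S33.E12L0
import Fermat.Agent.Pack.S33.E4L2

-- ===== PACK-BEGIN Lib/NormL/Main.lean
section





/-!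
# `NormL`: main theorem (assembly)

If `χ(N I₀) ∉ {0, 1}` for some nonzero ideal `I₀`, then `s ↦ ∑_I χ(N I) N(I)^(-s)` extends to a
continuous function on `[1, 2]`; in particular it is bounded on `(1, 2]` and has a limit as
`s → 1⁺`.
-/

namespace Fermat.Agent.Lib.NormL

open NumberField NumberField.mixedEmbedding
open scoped nonZeroDivisors Classical

variable (K : Type*) [Field K] [NumberField K]

theorem absNorm_pos_of_mem_nonZeroDivisors (I : (Ideal (𝓞 K))⁰) :
    0 < Ideal.absNorm (I : Ideal (𝓞 K)) := by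
  rw [Nat.pos_iff_ne_zero, Ne, Ideal.absNorm_eq_zero_iff]
  exact nonZeroDivisors.coe_ne_zero I

/-- The denominator `χ(q) q^(1-s) - 1` does not vanish on `[1, 2]`. -/
theorem main_denominator_ne_zero {q : ℕ} (hq2 : (1 : ℝ) < q) {z : ℂ} (hz : ‖z‖ ≤ 1) (hz1 : z ≠ 1)
    {s : ℝ} (hs : 1 ≤ s) : z * (((q : ℝ) ^ (1 - s) : ℝ) : ℂ) - 1 ≠ 0 := by
  intro h
  have h' : z * (((q : ℝ) ^ (1 - s) : ℝ) : ℂ) = 1 := sub_eq_zero.mp h
  have hq0 : (0 : ℝ) < q := by linarith
  rcases eq_or_lt_of_le hs with rfl | hs1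
  · apply hz1
    simpa using h'
  · have hlt : (q : ℝ) ^ (1 - s) < 1 := Real.rpow_lt_one_of_one_lt_of_neg hq2 (by linarith)
    have hnn : 0 ≤ (q : ℝ) ^ (1 - s) := (Real.rpow_pos_of_pos hq0 _).le
    have hn : ‖z * (((q : ℝ) ^ (1 - s) : ℝ) : ℂ)‖ < 1 := by
      rw [norm_mul, Complex.norm_real, Real.norm_of_nonneg hnn]
      calc ‖z‖ * (q : ℝ) ^ (1 - s) ≤ 1 * (q : ℝ) ^ (1 - s) := by gcongr
        _ < 1 := by linarith
    rw [h', norm_one] at hn
    exact lt_irrefl _ hn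

/-- Pure algebra used in the assembly. -/
theorem main_algebra (a b w x y Q z r c c' ainv winv : ℂ) (ha : a * ainv = 1)
    (hw : w * winv = 1) (hxy : x * y = 1) (hQz : Q * z = r) :
    (Q * (w * (a * b * (x * z) * c')) - w * (a * x * c)) * ainv * y * winv = b * r * c' - c := by
  calc (Q * (w * (a * b * (x * z) * c')) - w * (a * x * c)) * ainv * y * winv
      = (a * ainv) * (w * winv) * (x * y) * (Q * z) * b * c' -
          (a * ainv) * (w * winv) * (x * y) * c := by ring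
    _ = b * r * c' - c := by rw [ha, hw, hxy, hQz]; ring

theorem exists_continuousOn_normL {m : ℕ} [NeZero m] (χ : DirichletCharacter ℂ m)
    (I₀ : (Ideal (𝓞 K))⁰)
    (h0 : χ ((Ideal.absNorm (I₀ : Ideal (𝓞 K)) : ℕ) : ZMod m) ≠ 0)
    (h1 : χ ((Ideal.absNorm (I₀ : Ideal (𝓞 K)) : ℕ) : ZMod m) ≠ 1) :
    ∃ F : ℝ → ℂ, ContinuousOn F (Set.Icc 1 2) ∧
      ∀ s : ℝ, 1 < s → s ≤ 2 → F s = normL K χ s := by
  set q : ℕ := Ideal.absNorm (I₀ : Ideal (𝓞 K)) with hq
  have hq0 : 0 < q := absNorm_pos_of_mem_nonZeroDivisors K I₀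
  have hqu : IsUnit ((q : ℕ) : ZMod m) := by
    by_contra hu
    exact h0 (χ.map_nonunit hu)
  have hqm : q.Coprime m := (ZMod.isUnit_iff_coprime q m).mp hqu
  have hq1 : q ≠ 1 := by
    intro h
    apply h1
    rw [h]
    simp
  have hq2 : (1 : ℝ) < q := by
    have : 2 ≤ q := by omega
    exact_mod_cast this
  have hqpos : (0 : ℝ) < q := by linarith
  -- representatives
  choose J hJC hJm using fun C : ClassGroup (𝓞 K) ↦ exists_mk0_eq_and_coprime K m C⁻¹
  set ε : Bool := decide (χ (-1) = -1) with hε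
  choose Δ hΔc hΔ using fun C : ClassGroup (𝓞 K) ↦
    exists_continuousOn_elemSum_sub K χ ε (J C) I₀ (hJm C) hqm
  set w : ℂ := (Units.torsionOrder K : ℂ) with hw
  have hw0 : w ≠ 0 := by
    rw [hw]
    exact_mod_cast (Units.torsionOrder_pos K).ne'
  set nJ : ClassGroup (𝓞 K) → ℕ := fun C ↦ Ideal.absNorm (J C : Ideal (𝓞 K)) with hnJ
  have hnJpos : ∀ C, (0 : ℝ) < nJ C := fun C ↦ by
    have := absNorm_pos_of_mem_nonZeroDivisors K (J C)
    exact_mod_cast this
  have hχJ : ∀ C, χ ((nJ C : ℕ) : ZMod m) ≠ 0 := by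
    intro C
    have hu : IsUnit ((nJ C : ℕ) : ZMod m) := (ZMod.isUnit_iff_coprime _ m).mpr (hJm C)
    exact (IsUnit.map χ hu).ne_zero
  have hχq : ‖χ ((q : ℕ) : ZMod m)‖ ≤ 1 := DirichletCharacter.norm_le_one χ _
  set E : ℝ → ℂ := fun s ↦ ∑ C : ClassGroup (𝓞 K),
    Δ C s * (χ ((nJ C : ℕ) : ZMod m))⁻¹ * ((((nJ C : ℝ) ^ s : ℝ) : ℂ)) / w with hE
  set D : ℝ → ℂ := fun s ↦ χ ((q : ℕ) : ZMod m) * (((q : ℝ) ^ (1 - s) : ℝ) : ℂ) - 1 with hD
  have hDne : ∀ s ∈ Set.Icc (1 : ℝ) 2, D s ≠ 0 := fun s hs ↦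
    main_denominator_ne_zero hq2 hχq h1 hs.1
  have hDc : ContinuousOn D (Set.Icc 1 2) := by
    apply Continuous.continuousOn
    have : Continuous fun s : ℝ ↦ (q : ℝ) ^ (1 - s) :=
      Real.continuous_const_rpow hqpos.ne' |>.comp (continuous_const.sub continuous_id)
    exact (continuous_const.mul (Complex.continuous_ofReal.comp this)).sub continuous_const
  have hEc : ContinuousOn E (Set.Icc 1 2) := by
    apply continuousOn_finsetSum
    intro C _
    have h1 : Continuous fun s : ℝ ↦ (((nJ C : ℝ) ^ s : ℝ) : ℂ) :=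
      Complex.continuous_ofReal.comp (Real.continuous_const_rpow (hnJpos C).ne')
    exact (((hΔc C).mul continuousOn_const).mul h1.continuousOn).div_const _
  refine ⟨fun s ↦ E s / D s, hEc.div hDc hDne, fun s hs1 hs2 ↦ ?_⟩
  have hDs : D s ≠ 0 := hDne s ⟨hs1.le, hs2⟩
  rw [div_eq_iff hDs]
  -- the identity `E s = normL s * D s`
  have key : ∀ C : ClassGroup (𝓞 K),
      Δ C s * (χ ((nJ C : ℕ) : ZMod m))⁻¹ * ((((nJ C : ℝ) ^ s : ℝ) : ℂ)) / w =
        χ ((q : ℕ) : ZMod m) * (((q : ℝ) ^ (1 - s) : ℝ) : ℂ) *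
          classL K χ (C * (ClassGroup.mk0 I₀)⁻¹) s - classL K χ C s := by
    intro C
    have e1 := elemSum_eq_torsionOrder_mul_prinL K χ (J C) hs1
    have e2 := elemSum_eq_torsionOrder_mul_prinL K χ (J C * I₀) hs1
    have c1 := prinL_eq_mul_classL K χ C (J C) (hJC C) hs1
    have c2 := prinL_eq_mul_classL K χ (C * (ClassGroup.mk0 I₀)⁻¹) (J C * I₀)
      (by rw [map_mul, hJC C, mul_inv_rev, inv_inv, mul_comm]) hs1
    have hd := hΔ C s hs1 hs2
    have hcoe : ((J C * I₀ : (Ideal (𝓞 K))⁰) : Ideal (𝓞 K)) =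
        (J C : Ideal (𝓞 K)) * (I₀ : Ideal (𝓞 K)) := rfl
    rw [hcoe] at e2 c2
    rw [← hε] at e1 e2
    rw [e1, e2, c1, c2] at hd
    have hN : Ideal.absNorm ((J C : Ideal (𝓞 K)) * (I₀ : Ideal (𝓞 K))) = nJ C * q := by
      rw [map_mul]
    rw [hN] at hd
    have hcast : (((nJ C * q : ℕ) : ℕ) : ZMod m) = ((nJ C : ℕ) : ZMod m) * ((q : ℕ) : ZMod m) := by
      push_cast; ring
    have hpow : (((nJ C * q : ℕ) : ℝ)) ^ (-s) = (nJ C : ℝ) ^ (-s) * (q : ℝ) ^ (-s) := by
      push_cast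
      rw [Real.mul_rpow (hnJpos C).le hqpos.le]
    rw [hcast, map_mul, hpow] at hd
    have hJs : (((nJ C : ℝ) ^ (-s) : ℝ) : ℂ) * (((nJ C : ℝ) ^ s : ℝ) : ℂ) = 1 := by
      rw [← Complex.ofReal_mul, ← Real.rpow_add (hnJpos C), neg_add_cancel, Real.rpow_zero]
      simp
    have hqs : ((q : ℕ) : ℂ) * (((q : ℝ) ^ (-s) : ℝ) : ℂ) = (((q : ℝ) ^ (1 - s) : ℝ) : ℂ) := by
      rw [show (1 - s) = 1 + (-s) by ring, Real.rpow_add hqpos, Real.rpow_one]
      push_cast
      ring
    rw [← hd, div_eq_mul_inv]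
    have hx := hχJ C
    have hcq : ((Ideal.absNorm (I₀ : Ideal (𝓞 K)) : ℕ) : ℂ) = ((q : ℕ) : ℂ) := rfl
    rw [hcq, Complex.ofReal_mul]
    exact main_algebra _ _ _ _ _ _ _ _ _ _ _ _ (mul_inv_cancel₀ hx) (mul_inv_cancel₀ hw0) hJs hqs
  simp only [hE, hD]
  rw [Finset.sum_congr rfl fun C _ ↦ key C, Finset.sum_sub_distrib, ← Finset.mul_sum]
  have hre : ∑ C : ClassGroup (𝓞 K), classL K χ (C * (ClassGroup.mk0 I₀)⁻¹) s =
      ∑ C : ClassGroup (𝓞 K), classL K χ C s :=
    Fintype.sum_equiv (Equiv.mulRight (ClassGroup.mk0 I₀)⁻¹) _ _ fun _ ↦ rfl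
  rw [hre, ← normL_eq_sum_classL K χ hs1]
  ring

end Fermat.Agent.Lib.NormL

end
-- ===== PACK-END Lib/NormL/Main.lean

-- ===== PACK-BEGIN Lib/Cheb/H44/DirichletLimit.lean
section



/-!
# CHEB, Tier 2, piece (AN): `Spec.DirichletLimitStatement`

For a number field `F` and a Dirichlet character `χ` mod `m` with `χ(N I) ∉ {0, 1}` for some
ideal `I`, the series `L_F(s, χ ∘ N) = ∑_I χ(N I) N(I)^(-s)` has a limit as `s → 1⁺`.

Assembly: `NormL.exists_continuousOn_normL` (helper44: multiplier trick; blocks KEY/DS by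
helper44, ORB by helper941, CLS by helper584, COP by helper704, tent toolkit by helper74) and the
bridge to the `LSeries` form of `Spec` by helper941.
-/

namespace Fermat.Agent.Lib.Cheb.H44

open NumberField

/-- **(AN)** in the frozen `Spec` shape. -/
theorem dirichletLimit : Fermat.Agent.Lib.Cheb.Spec.DirichletLimitStatement :=
  Fermat.Agent.Lib.Cheb.H941.dirichletLimit_of_continuousOn fun F _ _ _ _ χ I₀ h0 h1 =>
    Fermat.Agent.Lib.NormL.exists_continuousOn_normL F χ I₀ h0 h1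

end Fermat.Agent.Lib.Cheb.H44

end
-- ===== PACK-END Lib/Cheb/H44/DirichletLimit.lean

-- ===== PACK-BEGIN S29/H812/Along.lean
section



/-!
# S29 / H812 — the Prelude's `…Along` predicates for an arbitrary `K`-algebra homomorphism between
function fields of one variable over an algebraically closed field of characteristic zero.
-/

set_option autoImplicit false

noncomputable section

open AlgebraicCurve IntermediateField

namespace Fermat.Agent.S29.H812

open Fermat.Agent.S24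

variable {K F F' : Type*} [Field K] [Field F] [Field F'] [Algebra K F] [Algebra K F']
  [IsAlgClosed K] [CharZero K]

/-- A `K`-algebra homomorphism of function fields of one variable is finite. -/
theorem finiteAlong (hF : ∃ x : F, Transcendental K x ∧ FiniteDimensional K⟮x⟯ F)
    (hF' : ∃ x : F', Transcendental K x ∧ FiniteDimensional K⟮x⟯ F') (φ : F →ₐ[K] F') :
    FiniteAlong K φ := by
  letI := algebraAlong φ
  haveI := isScalarTower_along φ
  obtain ⟨x, hx, -⟩ := hF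
  obtain ⟨x', hx', hx'fin⟩ := hF'
  have hφx : Transcendental K (algebraMap F F' x) := transcendental_algebraMap_of hx
  haveI : FiniteDimensional K⟮algebraMap F F' x⟯ F' :=
    FF.finiteDimensional_adjoin_of_transcendental hx' hφx
  exact finite_of_finite_adjoin_algebraMap (K := K) x

theorem isIntegral_of_finiteAlong {φ : F →ₐ[K] F'} (h : FiniteAlong K φ) :
    φ.toRingHom.IsIntegral := by
  letI := algebraAlong φ
  haveI : Module.Finite F F' := h
  exact (Algebra.IsIntegral.of_finite F F').isIntegral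

theorem fundamentalIdentityAlong (hF : ∃ x : F, Transcendental K x ∧ FiniteDimensional K⟮x⟯ F)
    [HasPrincipalDivisors K F'] (φ : F →ₐ[K] F') (hfin : FiniteAlong K φ)
    (hφ : φ.toRingHom.IsIntegral) : FundamentalIdentityAlong K φ hφ := by
  letI := algebraAlong φ
  haveI := isScalarTower_along φ
  haveI := isIntegral_along φ hφ
  haveI : Module.Finite F F' := hfin
  exact fundamentalIdentity (F' := F') hF

theorem normFormulaAlong (hF : ∃ x : F, Transcendental K x ∧ FiniteDimensional K⟮x⟯ F)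
    [HasPrincipalDivisors K F'] (φ : F →ₐ[K] F') (hfin : FiniteAlong K φ) :
    NormFormulaAlong K φ hfin := by
  letI := algebraAlong φ
  haveI := isScalarTower_along φ
  haveI : Module.Finite F F' := hfin
  exact pushforwardNormFormula (F' := F') hF

end Fermat.Agent.S29.H812

end
end
-- ===== PACK-END S29/H812/Along.lean

-- ===== PACK-BEGIN S29/H389/DictKummer.lean
section




/-!
# S29 / layer M / BR — DICT, Kummer-class form (helper389)

`exists_isKummerClass_of_analytic_pow` : in the situation of `dvd_ord_of_analytic_pow`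
(`e(r) · h₂ ^ p = c · h₁ ^ p · e(s)`, `h₁ / h₂` invariant under the elliptic and parabolic elements
of `Γ₀(N)`), the function `f = r / s ∈ FF N` has a `p`-Kummer class in `J₀(N)(ℚ̄) = Pic⁰(FF N)`:
there is a degree-zero divisor `D` with `p • D = div f` (landed predicate `H455.IsKummerClass`).
-/

set_option autoImplicit false
set_option linter.style.haveILetI false

noncomputable section

open AlgebraicCurve HahnSeries ModularCurve
open scoped MatrixGroups

namespace Fermat.Agent.S29.H389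

open Fermat.Agent.S24 Fermat.Agent.S24.H997

variable {N : ℕ} [NeZero N]

/-- A divisor all of whose coefficients are divisible by `p ≠ 0` is `p` times a divisor, of
degree zero if the original one is. -/
theorem exists_divisor_div {K F : Type*} [Field K] [Field F] [Algebra K F]
    (p : ℕ) (hp : p ≠ 0) (D₀ : Divisor K F) (hdvd : ∀ v, (p : ℤ) ∣ D₀ v)
    (hdeg : Divisor.degree D₀ = 0) :
    ∃ D : Divisor K F, Divisor.degree D = 0 ∧ ∀ v, (p : ℤ) * D v = D₀ v := by
  classical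
  have hp' : (p : ℤ) ≠ 0 := by exact_mod_cast hp
  let D : Divisor K F := D₀.mapRange (fun n : ℤ => n / (p : ℤ)) (by simp)
  have hD : ∀ v, (p : ℤ) * D v = D₀ v := by
    intro v
    show (p : ℤ) * (D₀.mapRange (fun n : ℤ => n / (p : ℤ)) (by simp)) v = D₀ v
    rw [Finsupp.mapRange_apply]
    exact Int.mul_ediv_cancel' (hdvd v)
  have hsmul : (p : ℤ) • D = D₀ := by
    ext v
    rw [Finsupp.smul_apply, smul_eq_mul, hD]
  refine ⟨D, ?_, hD⟩
  have h1 : (p : ℤ) * Divisor.degree D = 0 := by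
    rw [← smul_eq_mul, ← map_zsmul, hsmul, hdeg]
  rcases mul_eq_zero.1 h1 with h | h
  · exact absurd h hp'
  · exact h

/-- **DICT, Kummer form.** -/
theorem exists_isKummerClass_of_analytic_pow (A : AnalyticCore N) (p : ℕ) (hp : p ≠ 0)
    (r s : RN N) (hr : r ≠ 0) (hs : s ≠ 0) (h₁ h₂ : A.toHolBase.Hol) (hh₁ : h₁ ≠ 0)
    (hh₂ : h₂ ≠ 0) (c : ℂ) (hc : c ≠ 0)
    (hrel : A.toHolBase.bridge r * h₂ ^ p
      = A.toHolBase.constH c * h₁ ^ p * A.toHolBase.bridge s)
    (hinv : ∀ δ : SL(2, ℤ), δ ∈ CongruenceSubgroup.Gamma0 N → Nice δ →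
      A.toHolBase.compH δ h₁ * h₂ = h₁ * A.toHolBase.compH δ h₂) :
    ∃ x : JZero N, H455.IsKummerClass (p : ℤ) (inclRN N r / inclRN N s) x := by
  have hr' : inclRN N r ≠ 0 := fun h => hr (inclRN_injective N (by rw [h, _root_.map_zero]))
  have hs' : inclRN N s ≠ 0 := fun h => hs (inclRN_injective N (by rw [h, _root_.map_zero]))
  have hf : inclRN N r / inclRN N s ≠ 0 := div_ne_zero hr' hs'
  haveI := Fermat.Agent.Lib.RR.H864.hasPrincipalDivisors_modularFunctionFieldBar N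
  obtain ⟨D₀, hD₀, hdeg₀⟩ :=
    HasPrincipalDivisors.exists_divisor (K := AlgebraicClosure ℚ) (inclRN N r / inclRN N s) hf
  obtain ⟨D, hdeg, hD⟩ := exists_divisor_div p hp D₀
    (fun v => by
      rw [hD₀ v]
      exact dvd_ord_of_analytic_pow A p r s hr hs h₁ h₂ hh₁ hh₂ c hc hrel hinv v)
    hdeg₀
  refine ⟨Pic0.mk ⟨D, hdeg⟩, hf, ⟨D, hdeg⟩, rfl, fun v => ?_⟩
  rw [hD v, hD₀ v]

end Fermat.Agent.S29.H389

end
end
-- ===== PACK-END S29/H389/DictKummer.lean

-- ===== PACK-BEGIN S18/H965/GlueLemmas.lean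
section





/-!
# S18 / GLUE (helper965): lemmas for `node_glue`

Interface-independent lemmas about the concrete objects of `Mod/Defs.lean`:

* `coeff_mem_of_mem_Fc`      : elements of `Fc M E` have `q`-expansion coefficients in `E`;
* `exists_finset_mem_Fc`     : every `f ∈ Ω = F_M` lies in `Fc M E` as soon as `E` contains a
                               finite set `T` of constants (descent to a number field);
* `natCast_inv_mem_Rc`       : `ℓ ∤ m` ⟹ `m⁻¹ ∈ Rc M A E`;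
* `exists_unit_twist`        : the divisor hypothesis of `CoreStatement` in the valuation-subring
                               form required by `Alg.AlgMainStatement`;
* `sub_one_mul_inv_mem_VcSet`: `u = U₁/U₂`, `Ū₁ = Ū₂` ⟹ `(u - 1)/w ∈ VcSet M A E`.
-/

set_option autoImplicit false

noncomputable section

namespace Fermat.Agent.S18.H965

open ModularCurve AlgebraicCurve HahnSeries Fermat.Agent.S18 Fermat.Agent.S18.Mod

variable (M : ℕ) (E : IntermediateField ℚ Qb)

/-- The subfield of `Ω = F_M` of series all of whose coefficients lie in `E`. -/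
def coeffField : Subfield (Om M) :=
  ((coeffMap (algebraMap (↥E) Qb)).fieldRange).comap
    (algebraMap (Om M) (LaurentSeries Qb))

variable {M E}

theorem coeff_mem_of_mem_coeffField {f : Om M} (hf : f ∈ coeffField M E) (n : ℤ) :
    ((f : LaurentSeries Qb)).coeff n ∈ E := by
  obtain ⟨y, hy⟩ := hf
  have h : (f : LaurentSeries Qb) = coeffMap (algebraMap (↥E) Qb) y := hy.symm
  rw [h, coeffMap_coeff]
  exact (y.coeff n).2

theorem Ec_le_coeffField : Ec M E ≤ coeffField M E := by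
  rintro y ⟨a, ha, rfl⟩
  refine ⟨HahnSeries.single 0 ⟨a, ha⟩, ?_⟩
  rw [coeffMap_single]
  change _ = algebraMap Qb (LaurentSeries Qb) a
  rw [algebraMap_laurentSeries_eq_single]
  rfl

theorem gens_subset_coeffField : gens M ⊆ (coeffField M E : Set (Om M)) := by
  rintro y ⟨d, hd, hdM, rfl⟩
  refine ⟨coeffMap (algebraMap ℚ (↥E)) (qExpand ℚ d jq), ?_⟩
  rw [coeffMap_coeffMap]
  change _ = coeffEmb Qb (qExpand ℚ d jq)
  unfold coeffEmb
  exact coeffMap_congr (RingHom.ext fun c => rfl) _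

theorem Fc_le_coeffField : Fc M E ≤ coeffField M E := by
  unfold Fc
  rw [Subfield.closure_le]
  rintro y (hy | hy)
  · exact Ec_le_coeffField hy
  · exact gens_subset_coeffField hy

/-- Elements of `Fc M E` have all their `q`-expansion coefficients in `E`. -/
theorem coeff_mem_of_mem_Fc {f : Om M} (hf : f ∈ Fc M E) (n : ℤ) :
    ((f : LaurentSeries Qb)).coeff n ∈ E :=
  coeff_mem_of_mem_coeffField (Fc_le_coeffField hf) n


/-! ### Descent to a number field -/

theorem Ec_le_Fc : Ec M E ≤ Fc M E := fun _ hy =>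
  Subfield.subset_closure (Or.inl hy)

theorem algebraMap_mem_Ec {a : Qb} (ha : a ∈ E) : algebraMap Qb (Om M) a ∈ Ec M E :=
  ⟨a, ha, rfl⟩

theorem algebraMap_mem_Fc {a : Qb} (ha : a ∈ E) : algebraMap Qb (Om M) a ∈ Fc M E :=
  Ec_le_Fc (algebraMap_mem_Ec ha)

/-- The image of `ℚ(j_d : d ∣ M)` lies in `Fc M E` for every `E`. -/
theorem exists_mem_Fc_of_mem_full {z : LaurentSeries ℚ} (hz : z ∈ modularFunctionFieldFull M) :
    ∃ f ∈ Fc M E, (f : LaurentSeries Qb) = coeffEmb Qb z := by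
  unfold modularFunctionFieldFull at hz
  induction hz using IntermediateField.adjoin_induction with
  | mem y hy =>
      obtain ⟨d, hd, hdM, rfl⟩ := hy
      exact ⟨jd M d hdM, Subfield.subset_closure (Or.inr ⟨d, hd, hdM, rfl⟩), rfl⟩
  | algebraMap r =>
      refine ⟨algebraMap Qb (Om M) (algebraMap ℚ Qb r),
        algebraMap_mem_Fc (E.algebraMap_mem r), ?_⟩
      change algebraMap Qb (LaurentSeries Qb) (algebraMap ℚ Qb r) = _
      rw [algebraMap_laurentSeries_eq_single, algebraMap_laurentSeries_eq_single]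
      unfold coeffEmb
      rw [coeffMap_single]
  | add x y _ _ hx hy =>
      obtain ⟨f, hf, hfx⟩ := hx
      obtain ⟨g, hg, hgy⟩ := hy
      exact ⟨f + g, add_mem hf hg, by rw [_root_.map_add, ← hfx, ← hgy]; rfl⟩
  | inv x _ hx =>
      obtain ⟨f, hf, hfx⟩ := hx
      exact ⟨f⁻¹, inv_mem hf, by rw [map_inv₀, ← hfx]; rfl⟩
  | mul x y _ _ hx hy =>
      obtain ⟨f, hf, hfx⟩ := hx
      obtain ⟨g, hg, hgy⟩ := hy
      exact ⟨f * g, mul_mem hf hg, by rw [_root_.map_mul, ← hfx, ← hgy]; rfl⟩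

variable (M) in
/-- **Descent.**  Every element of `Ω = F_M` lies in `Fc M E` as soon as the number field `E`
contains a certain finite set of constants. -/
theorem exists_finset_series (x : LaurentSeries Qb) (hx : x ∈ modularFunctionFieldBar M) :
    ∃ T : Finset Qb, ∀ E : IntermediateField ℚ Qb, (∀ a ∈ T, a ∈ E) →
      ∃ f ∈ Fc M E, (f : LaurentSeries Qb) = x := by
  classical
  rw [mem_laurentBaseChange_iff] at hx
  induction hx using Subfield.closure_induction with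
  | mem y hy =>
      rcases hy with ⟨a, rfl⟩ | ⟨z, hz, rfl⟩
      · refine ⟨{a}, fun E hE => ⟨algebraMap Qb (Om M) a, algebraMap_mem_Fc (hE a (by simp)), rfl⟩⟩
      · exact ⟨∅, fun E _ => exists_mem_Fc_of_mem_full hz⟩
  | one => exact ⟨∅, fun E _ => ⟨1, one_mem _, rfl⟩⟩
  | add x y _ _ hx hy =>
      obtain ⟨T₁, h₁⟩ := hx
      obtain ⟨T₂, h₂⟩ := hy
      refine ⟨T₁ ∪ T₂, fun E hE => ?_⟩
      obtain ⟨f, hf, hfx⟩ := h₁ E (fun a ha => hE a (Finset.mem_union_left _ ha))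
      obtain ⟨g, hg, hgy⟩ := h₂ E (fun a ha => hE a (Finset.mem_union_right _ ha))
      exact ⟨f + g, add_mem hf hg, by rw [← hfx, ← hgy]; rfl⟩
  | neg x _ hx =>
      obtain ⟨T₁, h₁⟩ := hx
      refine ⟨T₁, fun E hE => ?_⟩
      obtain ⟨f, hf, hfx⟩ := h₁ E hE
      exact ⟨-f, neg_mem hf, by rw [← hfx]; rfl⟩
  | inv x _ hx =>
      obtain ⟨T₁, h₁⟩ := hx
      refine ⟨T₁, fun E hE => ?_⟩
      obtain ⟨f, hf, hfx⟩ := h₁ E hE
      exact ⟨f⁻¹, inv_mem hf, by rw [← hfx]; rfl⟩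
  | mul x y _ _ hx hy =>
      obtain ⟨T₁, h₁⟩ := hx
      obtain ⟨T₂, h₂⟩ := hy
      refine ⟨T₁ ∪ T₂, fun E hE => ?_⟩
      obtain ⟨f, hf, hfx⟩ := h₁ E (fun a ha => hE a (Finset.mem_union_left _ ha))
      obtain ⟨g, hg, hgy⟩ := h₂ E (fun a ha => hE a (Finset.mem_union_right _ ha))
      exact ⟨f * g, mul_mem hf hg, by rw [← hfx, ← hgy]; rfl⟩

variable (M) in
/-- **Descent**, elementwise form. -/
theorem exists_finset_mem_Fc (f : Om M) :
    ∃ T : Finset Qb, ∀ E : IntermediateField ℚ Qb, (∀ a ∈ T, a ∈ E) → f ∈ Fc M E := by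
  obtain ⟨T, hT⟩ := exists_finset_series M (f : LaurentSeries Qb) f.2
  refine ⟨T, fun E hE => ?_⟩
  obtain ⟨g, hg, hgf⟩ := hT E hE
  have : g = f := Subtype.ext hgf
  exact this ▸ hg


/-! ### `m` is a unit of `A ∩ E` -/

theorem natCast_inv_mem_valuationSubring {ℓ : ℕ} (hℓ : ℓ.Prime) (A : ValuationSubring Qb)
    (hA : A.LiesOverPrime ℓ) {m : ℕ} (hm : ¬ ℓ ∣ m) : ((m : Qb))⁻¹ ∈ A := by
  have hcop : IsCoprime (ℓ : ℤ) (m : ℤ) :=
    Nat.isCoprime_iff_coprime.mpr ((Nat.Prime.coprime_iff_not_dvd hℓ).mpr hm)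
  obtain ⟨a, b, hab⟩ := hcop
  have habQ : (a : Qb) * (ℓ : Qb) + (b : Qb) * (m : Qb) = 1 := by exact_mod_cast hab
  have hℓv : A.valuation (ℓ : Qb) < 1 := (A.mem_nonunits_iff).mp hA
  have hint : ∀ c : ℤ, A.valuation (c : Qb) ≤ 1 := fun c =>
    (A.valuation_le_one_iff _).mpr (intCast_mem A c)
  have hmle : A.valuation (m : Qb) ≤ 1 := (A.valuation_le_one_iff _).mpr (natCast_mem A m)
  have hmge : ¬ A.valuation (m : Qb) < 1 := by
    intro hlt
    have h1 : A.valuation ((a : Qb) * (ℓ : Qb)) < 1 := by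
      rw [_root_.map_mul]
      calc A.valuation (a : Qb) * A.valuation (ℓ : Qb) ≤ 1 * A.valuation (ℓ : Qb) :=
            mul_le_mul' (hint a) le_rfl
        _ = A.valuation (ℓ : Qb) := one_mul _
        _ < 1 := hℓv
    have h2 : A.valuation ((b : Qb) * (m : Qb)) < 1 := by
      rw [_root_.map_mul]
      calc A.valuation (b : Qb) * A.valuation (m : Qb) ≤ 1 * A.valuation (m : Qb) :=
            mul_le_mul' (hint b) le_rfl
        _ = A.valuation (m : Qb) := one_mul _
        _ < 1 := hlt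
    have h3 : A.valuation ((a : Qb) * (ℓ : Qb) + (b : Qb) * (m : Qb)) < 1 :=
      Valuation.map_add_lt _ h1 h2
    rw [habQ, _root_.map_one] at h3
    exact lt_irrefl _ h3
  have hm1 : A.valuation (m : Qb) = 1 := le_antisymm hmle (not_lt.mp hmge)
  rw [← A.valuation_le_one_iff, map_inv₀, hm1, inv_one]

theorem mem_Rc_iff {A : ValuationSubring Qb} {y : Om M} :
    y ∈ Rc M A E ↔ ∃ a : Qb, a ∈ A ∧ a ∈ E ∧ algebraMap Qb (Om M) a = y := by
  constructor
  · rintro ⟨a, ⟨haA, haE⟩, rfl⟩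
    exact ⟨a, haA, haE, rfl⟩
  · rintro ⟨a, haA, haE, rfl⟩
    exact ⟨a, ⟨haA, haE⟩, rfl⟩

theorem natCast_inv_mem_Rc {ℓ : ℕ} (hℓ : ℓ.Prime) (A : ValuationSubring Qb)
    (hA : A.LiesOverPrime ℓ) {m : ℕ} (hm : ¬ ℓ ∣ m) : ((m : Om M))⁻¹ ∈ Rc M A E := by
  rw [mem_Rc_iff]
  refine ⟨((m : Qb))⁻¹, natCast_inv_mem_valuationSubring hℓ A hA hm,
    inv_mem (natCast_mem E m), ?_⟩
  rw [map_inv₀, map_natCast]

theorem Rc_le_Ec {A : ValuationSubring Qb} {y : Om M} (hy : y ∈ Rc M A E) : y ∈ Ec M E := by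
  obtain ⟨a, -, haE, rfl⟩ := mem_Rc_iff.mp hy
  exact algebraMap_mem_Ec haE

/-! ### The divisor hypothesis in valuation-subring form -/

theorem exists_unit_twist [NeZero M] {m : ℕ} {f g : Om M} (hf : f ≠ 0) (hg : g ≠ 0)
    (hdiv : ∀ v : Place Qb (modularFunctionFieldBar M), (m : ℤ) ∣ v.ord f - v.ord g)
    (O : ValuationSubring (Om M)) (hO : ∀ a ∈ Lc M, a ∈ O) :
    ∃ t : Om M, t ≠ 0 ∧ (f / g) * t ^ m ∈ O ∧ ((f / g) * t ^ m)⁻¹ ∈ O := by
  by_cases hO' : O = ⊤
  · subst hO'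
    exact ⟨1, one_ne_zero, ValuationSubring.mem_top _, ValuationSubring.mem_top _⟩
  obtain ⟨P⟩ := Fermat.Agent.S24.nonempty_modularPackage M
  have := P.finiteDimensional
  obtain ⟨v, hv⟩ := Fermat.Agent.Lib.RR.H443.exists_place_eq O
    (fun a => hO _ ⟨a, rfl⟩) hO' (Fermat.Agent.Lib.RR.H864.transcendental_jF M)
  obtain ⟨k, hk⟩ := hdiv v
  obtain ⟨π, hπ⟩ := Fermat.Agent.Lib.RR.exists_ord_eq_one v
  have hπ0 : π ≠ 0 := Fermat.Agent.Lib.RR.ne_zero_of_ord_ne_zero v (by rw [hπ]; exact one_ne_zero)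
  have ht0 : π ^ (-k) ≠ 0 := zpow_ne_zero _ hπ0
  have hfg : f / g ≠ 0 := div_ne_zero hf hg
  have hord : v.ord ((f / g) * (π ^ (-k)) ^ m) = 0 := by
    rw [v.ord_mul hfg (pow_ne_zero _ ht0), div_eq_mul_inv, v.ord_mul hf (inv_ne_zero hg),
      v.ord_inv, Fermat.Agent.Lib.RR.ord_pow, v.ord_zpow, hπ]
    have : v.ord f = v.ord g + m * k := by linarith
    rw [this]
    ring
  refine ⟨π ^ (-k), ht0, ?_, ?_⟩
  · rw [← hv]
    exact Fermat.Agent.Lib.RR.mem_of_ord_nonneg v (by rw [hord])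
  · rw [← hv]
    exact Fermat.Agent.Lib.RR.mem_of_ord_nonneg v (by rw [v.ord_inv, hord, neg_zero])


/-! ### `u ≡ 1` modulo the uniformiser -/

/-- A series over `Q̄` with coefficients in `A` comes from a series over `A`. -/
theorem exists_series_of_coeff_mem (A : ValuationSubring Qb) (x : LaurentSeries Qb)
    (hx : ∀ n, x.coeff n ∈ A) : ∃ U : LaurentSeries A, coeffMap A.subtype U = x := by
  refine ⟨⟨fun n => ⟨x.coeff n, hx n⟩, x.isPWO_support.mono ?_⟩, ?_⟩
  · intro n hn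
    rw [HahnSeries.mem_support]
    intro h0
    exact hn (Subtype.ext h0)
  · ext n
    rfl

theorem toF_ne_zero {A : ValuationSubring Qb} {U : LaurentSeries A} (hU : IsInt A M U) :
    toF hU ≠ 0 := by
  intro h0
  apply hU.2.2
  have h1 : coeffMap A.subtype U = 0 := congrArg Subtype.val h0
  have h2 : U = 0 := by
    ext n
    have := congrArg (fun x => x.coeff n) h1
    simpa using this
  rw [h2, _root_.map_zero]

theorem coe_toF {A : ValuationSubring Qb} {U : LaurentSeries A} (hU : IsInt A M U) :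
    ((toF hU : Om M) : LaurentSeries Qb) = coeffMap A.subtype U := rfl

/-- **`u ≡ 1 mod w`.**  If `U₁, U₂` are integral with the same reduction and `toF U_i ∈ Fc M E`,
then `(U₁/U₂ - 1)/w` lies in the Gauss valuation ring `VcSet M A E`, for any `w` generating the
maximal ideal of `Rc M A E`. -/
theorem sub_one_mul_inv_mem_VcSet (A : ValuationSubring Qb) {U₁ U₂ : LaurentSeries A}
    (h₁ : IsInt A M U₁) (h₂ : IsInt A M U₂)
    (hred : coeffMap (IsLocalRing.residue A) U₁ = coeffMap (IsLocalRing.residue A) U₂)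
    (hf₁ : toF h₁ ∈ Fc M E) (hf₂ : toF h₂ ∈ Fc M E)
    {w : Om M} (hw : w ∈ Rc M A E)
    (hgen : ∀ r ∈ Rc M A E, r⁻¹ ∉ Rc M A E → r * w⁻¹ ∈ Rc M A E) :
    (toF h₁ / toF h₂ - 1) * w⁻¹ ∈ VcSet M A E := by
  obtain ⟨w', hw'A, hw'E, rfl⟩ := mem_Rc_iff.mp hw
  have hg0 : toF h₂ ≠ 0 := toF_ne_zero h₂
  have hwF : algebraMap Qb (Om M) w' ∈ Fc M E := algebraMap_mem_Fc hw'E
  set f : Om M := (toF h₁ - toF h₂) * (algebraMap Qb (Om M) w')⁻¹ with hf
  have hfF : f ∈ Fc M E := mul_mem (sub_mem hf₁ hf₂) (inv_mem hwF)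
  have huF : (toF h₁ / toF h₂ - 1) * (algebraMap Qb (Om M) w')⁻¹ ∈ Fc M E :=
    mul_mem (sub_mem (div_mem hf₁ hf₂) (one_mem _)) (inv_mem hwF)
  -- coefficients of `f`
  have hcoeff : ∀ n : ℤ, (f : LaurentSeries Qb).coeff n
      = ((U₁.coeff n : Qb) - (U₂.coeff n : Qb)) * w'⁻¹ := by
    intro n
    have e1 : (f : LaurentSeries Qb) = (coeffMap A.subtype U₁ - coeffMap A.subtype U₂)
        * (algebraMap Qb (LaurentSeries Qb) w')⁻¹ := rfl
    rw [e1, ← map_inv₀, algebraMap_laurentSeries_eq_single, HahnSeries.coeff_mul_single_zero,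
      HahnSeries.coeff_sub, coeffMap_coeff, coeffMap_coeff]
    rfl
  have hcoeffE : ∀ (U : LaurentSeries A) (hU : IsInt A M U), toF hU ∈ Fc M E →
      ∀ n : ℤ, ((U.coeff n : A) : Qb) ∈ E := by
    intro U hU hUF n
    have := coeff_mem_of_mem_Fc hUF n
    rwa [coe_toF, coeffMap_coeff] at this
  have hcoeffA : ∀ n : ℤ, (f : LaurentSeries Qb).coeff n ∈ A := by
    intro n
    rw [hcoeff]
    set d : A := U₁.coeff n - U₂.coeff n with hd
    have hdval : ((U₁.coeff n : Qb) - (U₂.coeff n : Qb)) = (d : Qb) := rfl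
    rw [hdval]
    have hdE : (d : Qb) ∈ E := sub_mem (hcoeffE U₁ h₁ hf₁ n) (hcoeffE U₂ h₂ hf₂ n)
    have hres : IsLocalRing.residue A d = 0 := by
      have := congrArg (fun x => x.coeff n) hred
      simp only [coeffMap_coeff] at this
      rw [hd, _root_.map_sub, this, sub_self]
    have hnu : ¬ IsUnit d := by
      rw [IsLocalRing.residue_eq_zero_iff] at hres
      exact (IsLocalRing.mem_maximalIdeal _).mp hres
    by_cases hd0 : (d : Qb) = 0
    · rw [hd0, zero_mul]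
      exact A.zero_mem
    have hr : algebraMap Qb (Om M) (d : Qb) ∈ Rc M A E := mem_Rc_iff.mpr ⟨d, d.2, hdE, rfl⟩
    have hr' : (algebraMap Qb (Om M) (d : Qb))⁻¹ ∉ Rc M A E := by
      intro hmem
      obtain ⟨b, hbA, -, hb⟩ := mem_Rc_iff.mp hmem
      rw [← map_inv₀] at hb
      have hb' : b = (d : Qb)⁻¹ := (algebraMap Qb (Om M)).injective hb
      apply hnu
      refine IsUnit.of_mul_eq_one (⟨b, hbA⟩ : A) (Subtype.ext ?_)
      change (d : Qb) * b = 1
      rw [hb', mul_inv_cancel₀ hd0]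
    obtain ⟨c, hcA, -, hc⟩ := mem_Rc_iff.mp (hgen _ hr hr')
    rw [← map_inv₀, ← _root_.map_mul] at hc
    have hc' : c = (d : Qb) * w'⁻¹ := (algebraMap Qb (Om M)).injective hc
    rw [← hc']
    exact hcA
  obtain ⟨W₁, hW₁⟩ := exists_series_of_coeff_mem A (f : LaurentSeries Qb) hcoeffA
  refine ⟨huF, W₁, U₂, ⟨?_, f, hfF, hW₁.symm⟩, ⟨hcoeffE U₂ h₂ hf₂, toF h₂, hf₂, rfl⟩,
    h₂.2.2, ?_⟩
  · intro n
    have := coeff_mem_of_mem_Fc hfF n
    rwa [← hW₁, coeffMap_coeff] at this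
  · rw [hW₁, ← coe_toF h₂]
    have : (toF h₁ / toF h₂ - 1) * (algebraMap Qb (Om M) w')⁻¹ * toF h₂ = f := by
      rw [hf]
      field_simp
    rw [← this]
    rfl

end Fermat.Agent.S18.H965

end
end
-- ===== PACK-END S18/H965/GlueLemmas.lean

-- ===== PACK-BEGIN S37/H98/RiemannBound.lean
section



/-!
# S37 (helper98): the Riemann bound from Riemann's inequality

Input (I5)/(c) of the bounded-homomorphism route (origin/helper697:coord/S37-e-route-helper697.md):
every divisor of degree `0` of a function field `F/K` (standing hypotheses `FF1 K F` of the shared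
library `Lib/RR`) is linearly equivalent to a divisor `E - g • P₀` with `E ≥ 0` of degree
`g = genusR K F`; in particular to a divisor of `ℓ¹`-norm `≤ 2 g`.

* `exists_effective_sub_mem_principal` : the representative `E - g • P₀`.
* `riemannBound` : `∃ B, ∀ D, deg D = 0 → ∃ E, ‖E‖₁ ≤ B ∧ D - E ∈ principal`, stated with the
  `ℓ¹`-norm unfolded (`E.sum fun _ n => n.natAbs`), so that it is definitionally
  `Fermat.Agent.S37.H697.RiemannBound K F` (`exact riemannBound` closes that goal).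
* `riemannBound_modularFunctionFieldBar N` : the instance for `ℚ̄(X₀(N))`.
-/

set_option autoImplicit false

noncomputable section

open AlgebraicCurve

namespace Fermat.Agent.S37.H98

open Fermat.Agent.Lib.RR

variable {K F : Type*} [Field K] [Field F] [Algebra K F]

/-- The `ℓ¹`-norm is subadditive (raw `Finsupp.sum` form). -/
theorem sum_natAbs_add_le {X : Type*} (D E : X →₀ ℤ) :
    ((D + E).sum fun _ n => n.natAbs) ≤ (D.sum fun _ n => n.natAbs) + E.sum fun _ n => n.natAbs := by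
  classical
  have h1 : (D + E).sum (fun _ n => n.natAbs)
      = ∑ x ∈ D.support ∪ E.support, ((D + E) x).natAbs :=
    Finsupp.sum_of_support_subset _ Finsupp.support_add _ (fun _ _ => rfl)
  have h2 : D.sum (fun _ n => n.natAbs) = ∑ x ∈ D.support ∪ E.support, (D x).natAbs :=
    Finsupp.sum_of_support_subset _ Finset.subset_union_left _ (fun _ _ => rfl)
  have h3 : E.sum (fun _ n => n.natAbs) = ∑ x ∈ D.support ∪ E.support, (E x).natAbs :=
    Finsupp.sum_of_support_subset _ Finset.subset_union_right _ (fun _ _ => rfl)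
  rw [h1, h2, h3, ← Finset.sum_add_distrib]
  exact Finset.sum_le_sum fun x _ => by
    rw [Finsupp.add_apply]; exact Int.natAbs_add_le _ _

/-- For an effective divisor on a curve all of whose places have degree one, the `ℓ¹`-norm is
the degree. -/
theorem sum_natAbs_eq_degree [FF1 K F] {E : Divisor K F} (hE : 0 ≤ E) :
    ((E.sum fun _ n => n.natAbs : ℕ) : ℤ) = Divisor.degree E := by
  rw [degree_eq_sum, Finsupp.sum, Nat.cast_sum]
  refine Finset.sum_congr rfl fun v _ => ?_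
  have h0 : 0 ≤ E v := by simpa using Finsupp.le_def.mp hE v
  rw [deg_eq_one v, Nat.cast_one, mul_one]
  exact Int.natAbs_of_nonneg h0

/-- Every divisor `D` is linearly equivalent to `E - (g + deg D) • P₀`... in the form needed:
if `deg D = 0` then `D ~ E - g • P₀` with `E ≥ 0` of degree `g`, for ANY `g` satisfying Riemann's
inequality. -/
theorem exists_effective_sub_mem_principal_of [FF1 K F] (g : ℕ)
    (hR : ∀ D : Divisor K F, Divisor.degree D + 1 - (g : ℤ) ≤ ell D)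
    (P₀ : Place K F) (D : Divisor K F) (hD : Divisor.degree D = 0) :
    ∃ E : Divisor K F, 0 ≤ E ∧ Divisor.degree E = g ∧
      D - (E - (g : ℤ) • prim P₀) ∈ Divisor.principal (K := K) (F := F) := by
  have hdeg : Divisor.degree (D + (g : ℤ) • prim P₀) = g := by
    rw [map_add, map_zsmul, hD, degree_prim', zero_add, smul_eq_mul, mul_one]
  have hpos : 0 < ell (D + (g : ℤ) • prim P₀) := by
    have h := hR (D + (g : ℤ) • prim P₀)
    rw [hdeg] at h
    have : (0 : ℤ) < ell (D + (g : ℤ) • prim P₀) := by omega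
    exact_mod_cast this
  obtain ⟨z, hz, hmem⟩ := Fermat.Agent.Lib.RR.H98.exists_ne_zero_mem_L_of_ell_pos hpos
  refine ⟨D + (g : ℤ) • prim P₀ + divOf (K := K) z hz, ?_, ?_, ?_⟩
  · rw [Finsupp.le_def]
    intro v
    rw [mem_L_iff] at hmem
    rcases hmem v with h0 | h
    · exact absurd h0 hz
    · rw [Finsupp.add_apply, divOf_apply, Finsupp.zero_apply]
      omega
  · rw [map_add, hdeg, degree_divOf, add_zero]
  · have : D - (D + (g : ℤ) • prim P₀ + divOf (K := K) z hz - (g : ℤ) • prim P₀)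
        = -divOf (K := K) z hz := by abel
    rw [this]
    exact (Divisor.principal (K := K) (F := F)).neg_mem ⟨z, hz, fun v => divOf_apply z hz v⟩

/-- Every divisor of degree `0` is linearly equivalent to `E - g • P₀` with `E ≥ 0` of degree
`g = genusR K F`. -/
theorem exists_effective_sub_mem_principal [FF1 K F] (P₀ : Place K F) (D : Divisor K F)
    (hD : Divisor.degree D = 0) :
    ∃ E : Divisor K F, 0 ≤ E ∧ Divisor.degree E = genusR K F ∧
      D - (E - (genusR K F : ℤ) • prim P₀) ∈ Divisor.principal (K := K) (F := F) :=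
  exists_effective_sub_mem_principal_of (genusR K F) (fun D' => riemann_inequality D') P₀ D hD

/-- **Riemann bound**: every divisor of degree `0` is linearly equivalent to a divisor of
`ℓ¹`-norm at most `2 g`.  (Definitionally `Fermat.Agent.S37.H697.RiemannBound K F`.) -/
theorem riemannBound [FF1 K F] :
    ∃ B : ℕ, ∀ D : Divisor K F, Divisor.degree D = 0 →
      ∃ E : Divisor K F, (E.sum fun _ n => n.natAbs) ≤ B ∧
        D - E ∈ Divisor.principal (K := K) (F := F) := by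
  obtain ⟨P₀⟩ := (inferInstance : FF1 K F).nonempty_place
  refine ⟨2 * genusR K F, fun D hD => ?_⟩
  obtain ⟨E, hE, hEdeg, hmem⟩ := exists_effective_sub_mem_principal P₀ D hD
  refine ⟨E - (genusR K F : ℤ) • prim P₀, ?_, hmem⟩
  have h1 : ((E.sum fun _ n => n.natAbs : ℕ) : ℤ) = genusR K F := by
    rw [sum_natAbs_eq_degree hE, hEdeg]
  have h1' : (E.sum fun _ n => n.natAbs) = genusR K F := by exact_mod_cast h1
  have h2 : ((-((genusR K F : ℤ) • prim P₀) : Divisor K F).sum fun _ n => n.natAbs)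
      ≤ genusR K F := by
    have : (-((genusR K F : ℤ) • prim P₀) : Divisor K F)
        = Finsupp.single P₀ (-(genusR K F : ℤ)) := by
      rw [prim, Finsupp.smul_single, smul_eq_mul, mul_one, Finsupp.single_neg]
    rw [this, Finsupp.sum_single_index (by simp)]
    simp
  have h3 := sum_natAbs_add_le E (-((genusR K F : ℤ) • prim P₀))
  rw [← sub_eq_add_neg] at h3
  omega

/-- The Riemann bound for the function field of `X₀(N)` over `ℚ̄`. -/
theorem riemannBound_modularFunctionFieldBar (N : ℕ) [NeZero N] :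
    ∃ B : ℕ, ∀ D : Divisor (AlgebraicClosure ℚ) ↥(ModularCurve.modularFunctionFieldBar N),
      Divisor.degree D = 0 →
      ∃ E : Divisor (AlgebraicClosure ℚ) ↥(ModularCurve.modularFunctionFieldBar N),
        (E.sum fun _ n => n.natAbs) ≤ B ∧
        D - E ∈ Divisor.principal (K := AlgebraicClosure ℚ)
          (F := ↥(ModularCurve.modularFunctionFieldBar N)) := by
  have := Fermat.Agent.Lib.RR.H864.ff1_modularFunctionFieldBar N
  exact riemannBound

end Fermat.Agent.S37.H98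

end
end
-- ===== PACK-END S37/H98/RiemannBound.lean

-- ===== PACK-BEGIN S37/H28/NCMod.lean
section






/-!
# S37 / node_rim, NC producer (helper28), part 2: the modular function field

`F = Om M = F_M = ℚ̄(X₀(M))`, `K = ℚ̄`, `x` an admissible coordinate (`Mod.IsCoordinate M ℓ x S`:
`x = j`, `S = {0, 1728}` for `ℓ ≥ 5`; `x = t₂`, `S = {0, -64}` for `ℓ = 3`; `x = t₃`,
`S = {0, -27}` for `ℓ = 2`), `A ⊆ ℚ̄` a valuation subring over `ℓ`.

For ANY `[Algebra ℚ̄[X] F_M]` with `X ↦ x` (resp. `X ↦ x⁻¹`) and `C a ↦ a`: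

* `nc_fin` / `nc_inf` : hypothesis `hNC` of Theorem M (`S37.H159.RedCtx.lift_integral`), verbatim:
  `∀ c : A, c ∉ branchA A S → (Ideal.span {algebraMap K[X] (integralClosure K[X] F) (X - C c)}).IsRadical`
  with `S` resp. `H278.invBranch S`;
* `injOn_branchA` / `injOn_branchA_inv` : hypothesis `hS` of Theorem M (the branch values stay
  distinct modulo the maximal ideal of `A`), for any ring hom `π` on `A` with kernel `𝔪_A`.
-/

set_option autoImplicit false
set_option linter.unusedSectionVars false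
set_option linter.style.haveILetI false

noncomputable section

namespace Fermat.Agent.S37.H28

open Polynomial

section Branch

variable {K : Type*} [Field K] {F : Type*} [Field F] [Algebra K F]

/-- the elements of `A` whose image lies in the finite set `S ⊆ F` -/
def branchA (A : ValuationSubring K) (S : Finset F) : Finset A :=
  S.preimage (fun c : A => algebraMap K F (c : K))
    (((algebraMap K F).injective.comp Subtype.coe_injective).injOn)

theorem mem_branchA {A : ValuationSubring K} {S : Finset F} {c : A} :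
    c ∈ branchA (F := F) A S ↔ algebraMap K F (c : K) ∈ S := by
  rw [branchA, Finset.mem_preimage]

end Branch

section Generic

variable {K : Type*} [Field K] [CharZero K] {F : Type*} [Field F] [Algebra K F] [Algebra K[X] F]
variable (L₀ : Type*) [Field L₀] [Algebra K[X] L₀] [IsFractionRing K[X] L₀] [Algebra L₀ F]
  [IsScalarTower K[X] L₀ F] [FiniteDimensional L₀ F]

include L₀ in
/-- **NC from `Unramified`**, in the shape `hNC` of Theorem M. -/
theorem nc_of_unramified (hC : ∀ a : K, algebraMap K[X] F (C a) = algebraMap K F a)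
    (S : Finset F)
    (hunr : Fermat.Agent.S18.H278.Unramified (algebraMap K F).fieldRange
      (algebraMap K[X] F X) S)
    (A : ValuationSubring K) (c : A) (hc : c ∉ branchA (F := F) A S) :
    (Ideal.span {algebraMap K[X] (integralClosure K[X] F) (X - C (c : K))}).IsRadical := by
  refine isRadical_span_X_sub_C L₀ (algebraMap K F).fieldRange ?_ S hunr (c : K) ?_ ?_
  · rintro a ⟨a₀, rfl⟩
    exact ⟨a₀, hC a₀⟩
  · rw [hC]
    exact ⟨_, rfl⟩
  · rw [hC]
    exact fun h => hc (mem_branchA.2 h)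

end Generic

section Units

variable {K : Type*} [Field K] [CharZero K]

/-- an integer prime to `ℓ` is a unit of a valuation ring over `ℓ` -/
theorem int_inv_mem_of_coprime (A : ValuationSubring K) {ℓ : ℕ} (hA : (ℓ : K) ∈ A.nonunits)
    (n : ℤ) (hn : IsCoprime n (ℓ : ℤ)) : ((n : K))⁻¹ ∈ A := by
  obtain ⟨a, b, hab⟩ := hn
  have hℓv : A.valuation (ℓ : K) < 1 := A.mem_nonunits_iff.1 hA
  have hint : ∀ m : ℤ, A.valuation (m : K) ≤ 1 := fun m =>
    (A.valuation_le_one_iff _).2 (intCast_mem A m)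
  have h1 : (a : K) * (n : K) + (b : K) * (ℓ : K) = 1 := by
    have := congrArg (Int.cast : ℤ → K) hab
    push_cast at this
    exact this
  have hbℓ : A.valuation ((b : K) * (ℓ : K)) < 1 := by
    rw [_root_.map_mul]
    exact lt_of_le_of_lt (mul_le_of_le_one_left' (hint b)) hℓv
  have han : A.valuation ((a : K) * (n : K)) = 1 := by
    have h2 : (a : K) * (n : K) = 1 + -((b : K) * (ℓ : K)) := by
      rw [← h1]; ring
    rw [h2]
    have h3 : A.valuation (-((b : K) * (ℓ : K))) < A.valuation (1 : K) := by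
      rw [Valuation.map_neg, _root_.map_one]
      exact hbℓ
    rw [Valuation.map_add_eq_of_lt_left _ h3, _root_.map_one]
  rw [_root_.map_mul] at han
  have hn1 : A.valuation (n : K) = 1 := by
    refine le_antisymm (hint n) ?_
    by_contra hlt
    have hlt' : A.valuation (n : K) < 1 := lt_of_not_ge hlt
    have : A.valuation (a : K) * A.valuation (n : K) < 1 :=
      lt_of_le_of_lt (mul_le_of_le_one_left' (hint a)) hlt'
    rw [han] at this
    exact lt_irrefl _ this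
  rw [← A.valuation_le_one_iff, map_inv₀, hn1, inv_one]

/-- a finite set of elements of `A` with values in `{0, u}`, `u` a unit of `A`, stays injective
under every ring homomorphism to a nontrivial ring -/
theorem injOn_of_pair (A : ValuationSubring K) {k : Type*} [Semiring k] [Nontrivial k]
    (π : A →+* k) (T : Finset A) (u : K) (hu : u ∈ A) (hu' : u⁻¹ ∈ A) (hu0 : u ≠ 0)
    (hT : ∀ c ∈ T, (c : K) = 0 ∨ (c : K) = u) : Set.InjOn π (T : Set A) := by
  have hπu : π ⟨u, hu⟩ ≠ 0 := by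
    intro h0
    have h1 : (⟨u, hu⟩ : A) * ⟨u⁻¹, hu'⟩ = 1 := Subtype.ext (mul_inv_cancel₀ hu0)
    have h2 := congrArg π h1
    rw [_root_.map_mul, h0, zero_mul, _root_.map_one] at h2
    exact zero_ne_one h2
  intro c₁ h₁ c₂ h₂ h
  rcases hT c₁ h₁ with e₁ | e₁ <;> rcases hT c₂ h₂ with e₂ | e₂
  · exact Subtype.ext (e₁.trans e₂.symm)
  · exfalso
    have hc₁ : c₁ = 0 := Subtype.ext e₁
    have hc₂ : c₂ = ⟨u, hu⟩ := Subtype.ext e₂
    rw [hc₁, hc₂, _root_.map_zero] at h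
    exact hπu h.symm
  · exfalso
    have hc₁ : c₁ = ⟨u, hu⟩ := Subtype.ext e₁
    have hc₂ : c₂ = 0 := Subtype.ext e₂
    rw [hc₁, hc₂, _root_.map_zero] at h
    exact hπu h
  · exact Subtype.ext (e₁.trans e₂.symm)

end Units

section Modular

open Fermat.Agent.S18 Fermat.Agent.S18.Mod Fermat.Agent.S18.H278 Fermat.Agent.S18.H107

variable {M : ℕ} [NeZero M]

/-- an admissible coordinate is unramified outside its branch set -/
theorem unramified_of_isCoordinate {ℓ : ℕ} {x : Om M} {S : Finset (Om M)}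
    (hx : IsCoordinate M ℓ x S) : Unramified (Lc M) x S := by
  rcases hx with ⟨-, rfl, hS⟩ | ⟨⟨-, hrel, hS⟩ | ⟨-, hrel, hS⟩, -⟩
  · exact unramified_j_concrete107 M S hS
  · intro O hL c hc hcS hz hz'
    exact unramified_t2_107 (Lc M) (jOm M) x hrel (branchJ_concrete107 M) O hL c hc
      (fun h => hcS ((hS c).2 (Or.inr h))) (fun h => hcS ((hS c).2 (Or.inl h))) hz hz'
  · intro O hL c hc hcS hz hz'
    exact unramified_t3_107 (Lc M) (jOm M) x hrel (branchJ_concrete107 M) O hL c hc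
      (fun h => hcS ((hS c).2 (Or.inr h))) (fun h => hcS ((hS c).2 (Or.inl h))) hz hz'

omit [NeZero M] in
/-- the branch set of an admissible coordinate is `{0, n}` with `n` an integer prime to `ℓ` -/
theorem exists_int_of_isCoordinate {ℓ : ℕ} (hℓ : ℓ.Prime) {x : Om M} {S : Finset (Om M)}
    (hx : IsCoordinate M ℓ x S) :
    ∃ n : ℤ, IsCoprime n (ℓ : ℤ) ∧ ∀ s, s ∈ S ↔ s = 0 ∨ s = (n : Om M) := by
  rcases hx with ⟨h5, -, hS⟩ | ⟨⟨h3, -, hS⟩ | ⟨h2, -, hS⟩, -⟩
  · refine ⟨1728, ?_, fun s => by rw [hS]; norm_num⟩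
    have hnd : ¬ ℓ ∣ 1728 := by
      intro h
      have h' : ℓ ∣ 2 ^ 6 * 3 ^ 3 := by norm_num; exact h
      rcases (Nat.Prime.dvd_mul hℓ).1 h' with h2 | h3
      · have := Nat.le_of_dvd (by norm_num) (hℓ.dvd_of_dvd_pow h2)
        omega
      · have := Nat.le_of_dvd (by norm_num) (hℓ.dvd_of_dvd_pow h3)
        omega
    have hc : Nat.Coprime 1728 ℓ := (Nat.Prime.coprime_iff_not_dvd hℓ).2 hnd |>.symm
    exact_mod_cast Nat.isCoprime_iff_coprime.2 hc
  · subst h3
    refine ⟨-64, ?_, fun s => by rw [hS]; norm_num⟩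
    exact ⟨-1, -21, by norm_num⟩
  · subst h2
    refine ⟨-27, ?_, fun s => by rw [hS]; norm_num⟩
    exact ⟨-1, -13, by norm_num⟩

omit [NeZero M] in
theorem coe_eq_of_algebraMap_eq_intCast {c : Qb} {n : ℤ}
    (h : algebraMap Qb (Om M) c = (n : Om M)) : c = (n : Qb) := by
  apply (algebraMap Qb (Om M)).injective
  rw [h, _root_.map_intCast]

omit [NeZero M] in
theorem ne_zero_of_isCoprime_prime {ℓ : ℕ} (hℓ : ℓ.Prime) {n : ℤ} (hn : IsCoprime n (ℓ : ℤ)) :
    n ≠ 0 := by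
  rintro rfl
  have h1 : IsUnit (ℓ : ℤ) := isCoprime_zero_left.1 hn
  have h2 := Int.isUnit_iff.1 h1
  have h3 := hℓ.two_le
  rcases h2 with h | h <;> omega

section Inj

variable {ℓ : ℕ} {x : Om M} {S : Finset (Om M)} (A : ValuationSubring Qb)
  {k : Type*} [Semiring k] [Nontrivial k] (π : A →+* k)

omit [NeZero M] in
/-- **`hS` of Theorem M, finite chart**: the branch values stay distinct after reduction. -/
theorem injOn_branchA (hℓ : ℓ.Prime) (hx : IsCoordinate M ℓ x S)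
    (hA : (ℓ : Qb) ∈ A.nonunits) : Set.InjOn π (branchA (F := Om M) A S : Set A) := by
  obtain ⟨n, hn, hS⟩ := exists_int_of_isCoordinate hℓ hx
  have hn0 : (n : Qb) ≠ 0 := by
    exact_mod_cast ne_zero_of_isCoprime_prime hℓ hn
  refine injOn_of_pair A π _ (n : Qb) (intCast_mem A n) (int_inv_mem_of_coprime A hA n hn) hn0 ?_
  intro c hc
  rw [mem_branchA, hS] at hc
  rcases hc with h | h
  · left
    apply (algebraMap Qb (Om M)).injective
    rw [h, _root_.map_zero]
  · right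
    exact coe_eq_of_algebraMap_eq_intCast h

open Classical in
omit [NeZero M] in
/-- **`hS` of Theorem M, chart at infinity.** -/
theorem injOn_branchA_inv (hℓ : ℓ.Prime) (hx : IsCoordinate M ℓ x S)
    (hA : (ℓ : Qb) ∈ A.nonunits) :
    Set.InjOn π (branchA (F := Om M) A (invBranch S) : Set A) := by
  obtain ⟨n, hn, hS⟩ := exists_int_of_isCoordinate hℓ hx
  have hn0 : (n : Qb) ≠ 0 := by
    exact_mod_cast ne_zero_of_isCoprime_prime hℓ hn
  refine injOn_of_pair A π _ ((n : Qb))⁻¹ (int_inv_mem_of_coprime A hA n hn) ?_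
    (inv_ne_zero hn0) ?_
  · rw [inv_inv]
    exact intCast_mem A n
  intro c hc
  rw [mem_branchA, invBranch, Finset.mem_insert, Finset.mem_image] at hc
  rcases hc with h | ⟨s, hs, h⟩
  · left
    apply (algebraMap Qb (Om M)).injective
    rw [h, _root_.map_zero]
  · rw [hS] at hs
    rcases hs with rfl | rfl
    · left
      apply (algebraMap Qb (Om M)).injective
      rw [← h, inv_zero, _root_.map_zero]
    · right
      apply (algebraMap Qb (Om M)).injective
      rw [← h, map_inv₀, _root_.map_intCast]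

end Inj

section NC

variable [Algebra Qb[X] (Om M)]
variable (L₀ : Type*) [Field L₀] [Algebra Qb[X] L₀] [IsFractionRing Qb[X] L₀] [Algebra L₀ (Om M)]
  [IsScalarTower Qb[X] L₀ (Om M)] [FiniteDimensional L₀ (Om M)]
variable {ℓ : ℕ} {x : Om M} {S : Finset (Om M)}

include L₀ in
/-- **`hNC` of Theorem M, finite chart** (`X ↦ x`), verbatim. -/
theorem nc_fin (hx : IsCoordinate M ℓ x S) (hX : algebraMap Qb[X] (Om M) X = x)
    (hC : ∀ a : Qb, algebraMap Qb[X] (Om M) (C a) = algebraMap Qb (Om M) a)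
    (A : ValuationSubring Qb) (c : A) (hc : c ∉ branchA (F := Om M) A S) :
    (Ideal.span {algebraMap Qb[X] (integralClosure Qb[X] (Om M)) (X - C (c : Qb))}).IsRadical := by
  refine nc_of_unramified L₀ hC S ?_ A c hc
  rw [hX]
  exact unramified_of_isCoordinate hx

open Classical in
include L₀ in
/-- **`hNC` of Theorem M, chart at infinity** (`X ↦ x⁻¹`), verbatim. -/
theorem nc_inf (hx : IsCoordinate M ℓ x S) (hX : algebraMap Qb[X] (Om M) X = x⁻¹)
    (hC : ∀ a : Qb, algebraMap Qb[X] (Om M) (C a) = algebraMap Qb (Om M) a)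
    (A : ValuationSubring Qb) (c : A) (hc : c ∉ branchA (F := Om M) A (invBranch S)) :
    (Ideal.span {algebraMap Qb[X] (integralClosure Qb[X] (Om M)) (X - C (c : Qb))}).IsRadical := by
  refine nc_of_unramified L₀ hC (invBranch S) ?_ A c hc
  rw [hX]
  exact (unramified_of_isCoordinate hx).inv

end NC

end Modular

end Fermat.Agent.S37.H28

end
end
-- ===== PACK-END S37/H28/NCMod.lean

-- ===== PACK-BEGIN A3/H555/DiscEquiv.lean
section
/-
helper555 — cell A3 (S19), block LOCAL, leaf DISC-I.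

`DiscEquivStatement K F k Fk` (frozen in `Fermat/Agent/A3/H799/LocalSpec.lean`): for residue-disc
data with an inertia-invariant parameter `t`, inertia permutes the points of the disc through
their parameter values, `g • pt a = pt (g a)`.

Proof: `pt a` is the unique place of the disc at which `t - a` vanishes; `g` maps it to a place
of the same disc at which `g • (t - a) = t - g a` vanishes.
-/


set_option autoImplicit false

noncomputable section

open AlgebraicCurve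

namespace Fermat.Agent.A3.H555

open Fermat.Agent.A3.H799 Fermat.Agent.Lib.RR

variable {K F k Fk : Type*} [Field K] [Field F] [Algebra K F] [Field k] [Field Fk] [Algebra k Fk]

/-- Elements of the maximal ideal of `V` reduce to zero. -/
theorem res_eq_zero_of_mem (𝓡 : GoodRed K F k Fk) (a : IsLocalRing.maximalIdeal 𝓡.V) :
    𝓡.res (a : 𝓡.V) = 0 :=
  (𝓡.res_eq_zero _).mpr (ValuationSubring.coe_mem_nonunits_iff.mpr a.2)

/-- The parameter of a residue disc minus the value `a` vanishes at the point `pt a`. -/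
theorem one_le_ord_pt_sub (𝓡 : GoodRed K F k Fk) {Q : Place k Fk} (d : DiscData 𝓡 Q)
    (a : IsLocalRing.maximalIdeal 𝓡.V) :
    1 ≤ (d.pt a).ord (((d.D.t : d.ring) : F) - algebraMap K F (((a : 𝓡.V) : K))) := by
  have h := d.ev_spec a d.D.t
  rw [d.D.ev_t] at h
  rcases h with h | h
  · exfalso
    have hmem : algebraMap K F (((a : 𝓡.V) : K)) ∈ 𝓡.O := (𝓡.algebraMap_mem _).mpr (a : 𝓡.V).2
    have e : (⟨((d.D.t : d.ring) : F), d.ring_le _ d.D.t.2⟩ : 𝓡.O) =
        ⟨algebraMap K F (((a : 𝓡.V) : K)), hmem⟩ := Subtype.ext h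
    have h1 := d.ord_t
    rw [e, 𝓡.red_algebraMap (a : 𝓡.V) hmem, res_eq_zero_of_mem, map_zero, Place.ord_zero] at h1
    exact zero_ne_one h1
  · exact h

/-- A place at which both `t - a` and `t - b` vanish forces `a = b`. -/
theorem eq_of_one_le_ord_sub (P : Place K F) (t : F) {a b : K}
    (ha : 1 ≤ P.ord (t - algebraMap K F a)) (hb : 1 ≤ P.ord (t - algebraMap K F b)) : a = b := by
  have hb' : 1 ≤ P.ord (-(t - algebraMap K F b)) := by rwa [ord_neg]
  have h := ord_add_of_le P (Or.inr ha) (Or.inr hb')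
  have e : t - algebraMap K F a + -(t - algebraMap K F b) = algebraMap K F (b - a) := by
    rw [map_sub]; ring
  rw [e, ord_algebraMap] at h
  rcases h with h | h
  · have := (algebraMap K F).injective (h.trans (map_zero _).symm)
    exact (sub_eq_zero.mp this).symm
  · omega

/-- The points of a residue disc are parametrised injectively. -/
theorem pt_injective (𝓡 : GoodRed K F k Fk) {Q : Place k Fk} (d : DiscData 𝓡 Q) :
    Function.Injective d.pt := by
  intro a b hab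
  have ha := one_le_ord_pt_sub 𝓡 d a
  have hb := one_le_ord_pt_sub 𝓡 d b
  rw [← hab] at hb
  exact Subtype.ext (Subtype.ext (eq_of_one_le_ord_sub _ _ ha hb))

/-- `pt a` is the unique place of the disc at which `t - a` vanishes. -/
theorem pt_eq_of_one_le_ord_sub (𝓡 : GoodRed K F k Fk) {Q : Place k Fk} (d : DiscData 𝓡 Q)
    (a : IsLocalRing.maximalIdeal 𝓡.V) {P : Place K F} (hP : 𝓡.r P = Q)
    (h : 1 ≤ P.ord (((d.D.t : d.ring) : F) - algebraMap K F (((a : 𝓡.V) : K)))) :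
    d.pt a = P := by
  obtain ⟨b, rfl⟩ := d.pt_surj P hP
  have hb := one_le_ord_pt_sub 𝓡 d b
  exact congrArg d.pt (Subtype.ext (Subtype.ext (eq_of_one_le_ord_sub _ _ h hb)))

/-- **DISC-I.** -/
theorem discEquivStatement : DiscEquivStatement K F k Fk := by
  intro 𝓡 Q d ht g hg a
  obtain ⟨h, hres⟩ := 𝓡.I_base g hg (a : 𝓡.V)
  have h' : (⟨SemilinearAut.baseAut g (((a : 𝓡.V) : K)), h⟩ : 𝓡.V) ∈
      IsLocalRing.maximalIdeal 𝓡.V := by
    rw [← ValuationSubring.coe_mem_nonunits_iff, ← 𝓡.res_eq_zero, hres]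
    exact res_eq_zero_of_mem 𝓡 a
  refine ⟨h, h', ?_⟩
  symm
  apply pt_eq_of_one_le_ord_sub 𝓡 d
  · rw [𝓡.I_place g hg, d.r_pt]
  · have h1 := one_le_ord_pt_sub 𝓡 d a
    rw [← SemilinearAut.ord_smul g, smul_sub, ht g hg, SemilinearAut.smul_algebraMap] at h1
    exact h1

/-- **LIFTI** from DISC alone. -/
theorem liftiStatement_of_discStatement (hdisc : DiscStatement K F k Fk) :
    LiftiStatement K F k Fk :=
  liftiStatement_of_disc hdisc discEquivStatement

end Fermat.Agent.A3.H555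

end
end
-- ===== PACK-END A3/H555/DiscEquiv.lean

-- ===== PACK-BEGIN Lib/X0Deg/Gen.lean
section


/-!
# X0DEG (helper760): `ℚ̄(X₀(M)) = ℚ̄(j, j(q^M))`

* `adjoin_jF_jMF_eq_top` : `ℚ̄(j)(j_M) = F̄_M` (as intermediate field of `F̄_M / ℚ̄(j)`);
* `modularFunctionFieldBar_eq_adjoin_pair` : `F̄_M = ℚ̄(j, j(q^M))` inside `ℚ̄((q))`;
* `modularFunctionFieldBar_eq_sup` : `N ∣ M → F̄_M = F̄_N ⊔ ℚ̄(j(q^M))`;
* `modularFunctionFieldBar_square` : `F̄_{Nℓℓ'} = F̄_{Nℓ} ⊔ V_ℓ(F̄_{Nℓ'})` (the square used for the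
  commutation of Hecke operators is "cartesian").

Proof: the `ψ(M)` embeddings `σ_x : F̄_M → ℂ((z))` of S24 (`H997.HolBase.sigmaX`) agree on `ℚ̄(j)`
and are pairwise distinct on `j(q^M)`; compare with `[F̄_M : ℚ̄(j)] = ψ(M)`.
-/

set_option autoImplicit false

noncomputable section

open ModularCurve AlgebraicCurve IntermediateField
open Fermat.Agent.S24

namespace Fermat.Agent.Lib.X0Deg

variable (M : ℕ) [NeZero M]

/-- `j(q^M)` as an element of the function field `F̄_M`. -/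
def jMF : FF M := H997.inclRN M (H997.jR M M dvd_rfl)

theorem val_jMF : ((jMF M : FF M) : LaurentSeries Kbar) = jBd M := rfl

/-- The S24 embeddings `σ_x` are pairwise distinct on `j(q^M)`. -/
theorem sigmaX_jMF_injective (B : H997.HolBase M) (X : H997.Expansion B) {x y : XX M}
    (hxy : B.sigmaX X x (jMF M) = B.sigmaX X y (jMF M)) : x = y := by
  obtain ⟨g, rfl⟩ := QuotientGroup.mk_surjective x
  obtain ⟨g', rfl⟩ := QuotientGroup.mk_surjective y
  rw [H997.HolBase.sigmaX_mk, H997.HolBase.sigmaX_mk] at hxy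
  have h1 : X.E (B.compH g⁻¹ (B.JH M dvd_rfl)) = X.E (B.compH g'⁻¹ (B.JH M dvd_rfl)) := by
    have := hxy
    simp only [jMF, H997.HolBase.sigmaG_inclRN, H997.HolBase.bridge_jR] at this
    exact this
  have h2 := X.inj h1
  apply QuotientGroup.eq.mpr
  apply B.J_distinct
  intro τ
  have h3 := congrArg (fun h : B.Hol => (h : UpperHalfPlane → ℂ) (g' • τ)) h2
  simp only [H997.HolBase.compH_apply] at h3
  rw [← mul_smul, ← mul_smul, inv_mul_cancel, one_smul] at h3
  exact h3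

/-- `ℚ̄(j)(j(q^M)) = F̄_M`. -/
theorem adjoin_jF_jMF_eq_top :
    IntermediateField.adjoin ↥(IntermediateField.adjoin Kbar {jF M}) {jMF M} = ⊤ := by
  classical
  obtain ⟨P⟩ := nonempty_modularPackage M
  have := P.finiteDimensional
  set E := IntermediateField.adjoin Kbar {jF M} with hE
  set E' := IntermediateField.adjoin ↥E {jMF M} with hE'
  let A := H997.analyticCore M
  let X := A.toHolBase.qexpExpansion
  let x0 : XX M := ((1 : Matrix.SpecialLinearGroup (Fin 2) ℤ) : XX M)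
  let ψ : ↥E →+* LaurentSeries ℂ := (A.toHolBase.sigmaX X x0).comp (algebraMap ↥E (FF M))
  let _ : Algebra ↥E (LaurentSeries ℂ) := ψ.toAlgebra
  let a : XX M → (FF M →ₐ[↥E] LaurentSeries ℂ) := fun x =>
    { A.toHolBase.sigmaX X x with
      commutes' := fun y => A.sigmaX_eq_on_adjoin X x x0 y.2 }
  let b : XX M → (↥E' →ₐ[↥E] LaurentSeries ℂ) := fun x => (a x).comp E'.val
  have hb : Function.Injective b := by
    intro x y hxy
    apply sigmaX_jMF_injective M A.toHolBase X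
    have hmem : jMF M ∈ E' := IntermediateField.mem_adjoin_simple_self _ _
    have := congrArg (fun φ : ↥E' →ₐ[↥E] LaurentSeries ℂ => φ ⟨jMF M, hmem⟩) hxy
    exact this
  have : Module.Free ↥E ↥E' := Module.Free.of_divisionRing ↥E ↥E'
  have : Module.Finite ↥E ↥E' := inferInstance
  have : Finite (↥E' →ₐ[↥E] LaurentSeries ℂ) := Finite.algHom ↥E ↥E' (LaurentSeries ℂ)
  have h1 : Nat.card (XX M) ≤ Module.finrank ↥E ↥E' :=
    calc Nat.card (XX M) ≤ Nat.card (↥E' →ₐ[↥E] LaurentSeries ℂ) :=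
          Nat.card_le_card_of_injective b hb
      _ ≤ Module.finrank ↥E ↥E' := card_algHom_le_finrank ↥E ↥E' (LaurentSeries ℂ)
  have h2 : Module.finrank ↥E (FF M) = Nat.card (XX M) := P.finrank_eq
  have h3 : Module.finrank ↥E ↥E' ≤ Module.finrank ↥E (FF M) :=
    Submodule.finrank_le (Subalgebra.toSubmodule E'.toSubalgebra)
  have h4 : Module.finrank ↥E ↥E' = Module.finrank ↥E (FF M) := le_antisymm h3 (h2 ▸ h1)
  exact IntermediateField.eq_of_le_of_finrank_eq le_top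
    (by rw [h4, IntermediateField.finrank_top'])

/-- `F̄_M = ℚ̄(j, j(q^M))` inside `ℚ̄((q))`. -/
theorem modularFunctionFieldBar_eq_adjoin_pair :
    modularFunctionFieldBar M = IntermediateField.adjoin Kbar {jB, jBd M} := by
  apply le_antisymm
  · intro x hx
    have h1 : (⟨x, hx⟩ : FF M) ∈
        IntermediateField.adjoin ↥(IntermediateField.adjoin Kbar {jF M}) {jMF M} := by
      rw [adjoin_jF_jMF_eq_top]
      exact IntermediateField.mem_top
    have h2 : (⟨x, hx⟩ : FF M) ∈ IntermediateField.adjoin Kbar ({jF M} ∪ {jMF M}) := by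
      rw [← IntermediateField.adjoin_adjoin_left]
      exact h1
    have h3 : (IntermediateField.adjoin Kbar ({jF M} ∪ {jMF M} : Set (FF M))).map
        (modularFunctionFieldBar M).val = IntermediateField.adjoin Kbar {jB, jBd M} := by
      rw [IntermediateField.adjoin_map, Set.image_union, Set.image_singleton,
        Set.image_singleton]
      rfl
    rw [← h3]
    exact ⟨⟨x, hx⟩, h2, rfl⟩
  · rw [IntermediateField.adjoin_le_iff]
    rintro x (rfl | rfl)
    · exact jB_mem M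
    · exact jBd_mem dvd_rfl

/-- `N ∣ M → F̄_M = F̄_N ⊔ ℚ̄(j(q^M))`. -/
theorem modularFunctionFieldBar_eq_sup {N : ℕ} [NeZero N] (h : N ∣ M) :
    modularFunctionFieldBar M
      = modularFunctionFieldBar N ⊔ IntermediateField.adjoin Kbar {jBd M} := by
  apply le_antisymm
  · rw [modularFunctionFieldBar_eq_adjoin_pair M, IntermediateField.adjoin_le_iff]
    rintro x (rfl | rfl)
    · exact (le_sup_left : modularFunctionFieldBar N ≤ _) (jB_mem N)
    · exact (le_sup_right : IntermediateField.adjoin Kbar {jBd M} ≤ _)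
        (IntermediateField.mem_adjoin_simple_self _ _)
  · refine sup_le (modularFunctionFieldBar_mono h) ?_
    rw [IntermediateField.adjoin_le_iff]
    rintro x rfl
    exact jBd_mem dvd_rfl

theorem coeffMap_qExpand_comm {R S : Type*} [CommRing R] [CommRing S] (f : R →+* S) (n : ℕ)
    [NeZero n] (x : LaurentSeries R) : coeffMap f (qExpand R n x) = qExpand S n (coeffMap f x) := by
  ext k
  by_cases hk : (n : ℤ) ∣ k
  · obtain ⟨m, rfl⟩ := hk
    rw [coeffMap_coeff, qExpand_coeff_mul, qExpand_coeff_mul, coeffMap_coeff]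
  · rw [coeffMap_coeff, qExpand_coeff_of_not_dvd n _ hk, qExpand_coeff_of_not_dvd n _ hk,
      map_zero]

theorem qExpand_congr_level {R : Type*} [CommRing R] {a b : ℕ} [NeZero a] [NeZero b] (h : a = b)
    (f : LaurentSeries R) : qExpand R a f = qExpand R b f := by
  subst h
  rfl

/-- `V_k (j(q^M)) = j(q^{M k})`. -/
theorem qExpand_jBd (k : ℕ) [NeZero k] : qExpand Kbar k (jBd M) = jBd (M * k) := by
  unfold jBd coeffEmb
  rw [← coeffMap_qExpand_comm, qExpand_qExpand]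
  congr 1
  exact qExpand_congr_level (mul_comm k M) _

omit [NeZero M] in
/-- `V_k` maps `F̄_M` into `F̄_{M k}`. -/
theorem map_qExpand_le (k : ℕ) [NeZero k] :
    (modularFunctionFieldBar M).map (qExpandAlgHomC Kbar k) ≤ modularFunctionFieldBar (M * k) := by
  rintro _ ⟨x, hx, rfl⟩
  exact (heckeBetaBar Kbar M k ⟨x, hx⟩).2

/-- **Cartesian square, general form.** For every `N' ∣ M k`:
`F̄_{M k} = F̄_{N'} ⊔ V_k(F̄_M)`. -/
theorem modularFunctionFieldBar_mul_eq_sup (k : ℕ) [NeZero k] {N' : ℕ} [NeZero N']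
    (h : N' ∣ M * k) :
    modularFunctionFieldBar (M * k)
      = modularFunctionFieldBar N' ⊔ (modularFunctionFieldBar M).map (qExpandAlgHomC Kbar k) := by
  apply le_antisymm
  · rw [modularFunctionFieldBar_eq_adjoin_pair (M * k), IntermediateField.adjoin_le_iff]
    rintro x (rfl | rfl)
    · exact (le_sup_left : modularFunctionFieldBar N' ≤ _) (jB_mem N')
    · refine (le_sup_right : (modularFunctionFieldBar M).map (qExpandAlgHomC Kbar k) ≤ _) ?_
      exact ⟨jBd M, jBd_mem dvd_rfl, qExpand_jBd M k⟩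
  · exact sup_le (modularFunctionFieldBar_mono h) (map_qExpand_le M k)

/-- **Cartesian square for the commutation of Hecke operators.**
`F̄_{Nℓℓ'} = F̄_{Nℓ} ⊔ V_ℓ(F̄_{Nℓ'})`. -/
theorem modularFunctionFieldBar_square (N ℓ ℓ' : ℕ) [NeZero N] [NeZero ℓ] [NeZero ℓ'] :
    modularFunctionFieldBar (N * ℓ * ℓ')
      = modularFunctionFieldBar (N * ℓ)
        ⊔ (modularFunctionFieldBar (N * ℓ')).map (qExpandAlgHomC Kbar ℓ) := by
  have e : N * ℓ * ℓ' = N * ℓ' * ℓ := by ring
  have h : N * ℓ ∣ N * ℓ' * ℓ := by rw [← e]; exact dvd_mul_right _ _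
  rw [e]
  exact modularFunctionFieldBar_mul_eq_sup (N * ℓ') ℓ h

end Fermat.Agent.Lib.X0Deg

end
end
-- ===== PACK-END Lib/X0Deg/Gen.lean

-- ===== PACK-BEGIN A2/Mod/H189/GoodRedT.lean
section






/-!
# Cell A2 / MOD, GOODRED part G3 (helper189): `GoodRedAt` for `j`, `1/j` from the Hauptmodul charts

The level-`M` hypothesis `Mod.GoodRedAt P E M w VM y` of MODASM (`A2/Mod/Spec.lean`) is needed for
`y = j` and `y = j⁻¹`.  Row S18 proves good reduction in the coordinate `j` only for residue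
characteristic `≥ 5`; for `q = 3` (`2 ∣ M`) and `q = 2` (`3 ∣ M`) it works with the Hauptmodul
`t = t₂` (`j t² = (t + 256)³`) resp. `t = t₃` (`j t³ = (t + 27)(t + 243)³`).  Here:

* `mem_chart_iff`       : the frozen `Mod.chart` is the integral closure of `R_E[y]`;
* `goodRedAt_iff_goodOn`: `Mod.GoodRedAt` is `H189.GoodOn` (the Mathlib-only form);
* `goodRedAt_j_of_t2`, `goodRedAt_j_of_t3` : `GoodRedAt` at `t`, `t⁻¹` ⟹ `GoodRedAt` at `j`, `j⁻¹`
  (unit conditions as hypotheses);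
* `goodRedAt_j_of_t2_polar`, `goodRedAt_j_of_t3_polar` : the same, with the unit conditions
  discharged by L3 (`H816.vinfGauss`) and L2 (`H708.vinfBasic`) for a polar `t = t⁻¹·(unit + …)`.
-/

set_option autoImplicit false
set_option synthInstance.maxHeartbeats 400000
set_option maxHeartbeats 1600000

noncomputable section

namespace Fermat.Agent.A2.Mod.H189

open ModularCurve HahnSeries Polynomial Fermat.Agent.A2 Fermat.Agent.A2.Mod

section Chart

variable (P : ValuationSubring _root_.Fermat.Agent.A2.Mod.Qb) (E : IntermediateField ℚ _root_.Fermat.Agent.A2.Mod.Qb) (N : ℕ)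

/-- `R_E[X] → R_E[y] ⊆ F`. -/
def evAdjoin (y : _root_.Fermat.Agent.A2.Mod.FE E N) :
    Polynomial (_root_.Fermat.Agent.A2.Mod.RE P E) →+* Algebra.adjoin (_root_.Fermat.Agent.A2.Mod.RE P E) ({y} : Set (_root_.Fermat.Agent.A2.Mod.FE E N)) :=
  ((Polynomial.aeval (R := _root_.Fermat.Agent.A2.Mod.RE P E) y).codRestrict (Algebra.adjoin (_root_.Fermat.Agent.A2.Mod.RE P E) ({y} : Set (_root_.Fermat.Agent.A2.Mod.FE E N)))
    (fun p => by
      rw [Algebra.adjoin_singleton_eq_range_aeval]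
      exact ⟨p, rfl⟩)).toRingHom

theorem evAdjoin_surjective (y : _root_.Fermat.Agent.A2.Mod.FE E N) : Function.Surjective (evAdjoin P E N y) := by
  rintro ⟨a, ha⟩
  rw [Algebra.adjoin_singleton_eq_range_aeval] at ha
  obtain ⟨p, hp⟩ := ha
  exact ⟨p, Subtype.ext hp⟩

theorem algebraMap_comp_evAdjoin (y : _root_.Fermat.Agent.A2.Mod.FE E N) :
    (algebraMap (Algebra.adjoin (_root_.Fermat.Agent.A2.Mod.RE P E) ({y} : Set (_root_.Fermat.Agent.A2.Mod.FE E N))) (_root_.Fermat.Agent.A2.Mod.FE E N)).comp (evAdjoin P E N y)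
      = Polynomial.eval₂RingHom ((algebraMap E (_root_.Fermat.Agent.A2.Mod.FE E N)).comp (_root_.Fermat.Agent.A2.Mod.RE P E).subtype) y := by
  refine Polynomial.ringHom_ext (fun a => ?_) ?_
  · show (Polynomial.aeval (R := _root_.Fermat.Agent.A2.Mod.RE P E) y) (_root_.Polynomial.C a) = _
    rw [Polynomial.aeval_C, Polynomial.coe_eval₂RingHom, Polynomial.eval₂_C]
    rfl
  · show (Polynomial.aeval (R := _root_.Fermat.Agent.A2.Mod.RE P E) y) X = _
    rw [Polynomial.aeval_X, Polynomial.coe_eval₂RingHom, Polynomial.eval₂_X]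

/-- The frozen chart of `Mod/Spec.lean` is the integral closure of `R_E[y]`. -/
theorem mem_chart_iff {y f : _root_.Fermat.Agent.A2.Mod.FE E N} :
    f ∈ chart P E N y ↔ IsIntegral (Algebra.adjoin (_root_.Fermat.Agent.A2.Mod.RE P E) ({y} : Set (_root_.Fermat.Agent.A2.Mod.FE E N))) f := by
  constructor
  · rintro ⟨p, hp, hpf⟩
    refine ⟨p.map (evAdjoin P E N y), hp.map _, ?_⟩
    rw [eval₂_map, algebraMap_comp_evAdjoin]
    exact hpf
  · rintro ⟨q, hq, hqf⟩
    have hl : q ∈ lifts (evAdjoin P E N y) := by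
      rw [lifts_iff_coeff_lifts]
      intro n
      exact evAdjoin_surjective P E N y _
    obtain ⟨p, hpq, -, hp⟩ := lifts_and_degree_eq_and_monic hl hq
    refine ⟨p, hp, ?_⟩
    rw [← algebraMap_comp_evAdjoin, ← eval₂_map, hpq]
    exact hqf

variable {N} in
/-- `Mod.GoodRedAt` in Mathlib-only form. -/
theorem goodRedAt_iff_goodOn (w : _root_.Fermat.Agent.A2.Mod.RE P E) (VM : ValuationSubring (_root_.Fermat.Agent.A2.Mod.FE E N)) (y : _root_.Fermat.Agent.A2.Mod.FE E N) :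
    GoodRedAt P E N w VM y ↔
      GoodOn VM.toSubring (cE P E N w) (Algebra.adjoin (_root_.Fermat.Agent.A2.Mod.RE P E) ({y} : Set (_root_.Fermat.Agent.A2.Mod.FE E N))) := by
  constructor
  · intro h
    refine ⟨fun b hb hbw => ?_, fun f hf hint => ?_⟩
    · exact (mem_chart_iff P E N).1 (h.qep b ((mem_chart_iff P E N).2 hb) hbw)
    · obtain ⟨n, c, hc, hcw⟩ := hint
      obtain ⟨b, hb, hbw⟩ := h.normal f hf ⟨n, c, fun i => (mem_chart_iff P E N).2 (hc i), hcw⟩
      exact ⟨b, (mem_chart_iff P E N).1 hb, hbw⟩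
  · rintro ⟨hq, hn⟩
    refine ⟨fun b hb hbw => ?_, fun f hf hint => ?_⟩
    · exact (mem_chart_iff P E N).2 (hq b ((mem_chart_iff P E N).1 hb) hbw)
    · obtain ⟨n, c, hc, hcw⟩ := hint
      obtain ⟨b, hb, hbw⟩ := hn f hf ⟨n, c, fun i => (mem_chart_iff P E N).1 (hc i), hcw⟩
      exact ⟨b, (mem_chart_iff P E N).2 hb, hbw⟩

end Chart

section Main

variable (P : ValuationSubring _root_.Fermat.Agent.A2.Mod.Qb) (E : IntermediateField ℚ _root_.Fermat.Agent.A2.Mod.Qb) (M : ℕ) (w : _root_.Fermat.Agent.A2.Mod.RE P E)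

/-- `n ≡ 1 mod q` is a unit of `R_E` when `P` lies over `q`. -/
theorem exists_inv_of_liesOver {q : ℕ} (hP : P.LiesOverPrime q) (n k : ℕ) (hn : n = q * k + 1) :
    ∃ i : _root_.Fermat.Agent.A2.Mod.RE P E, (n : _root_.Fermat.Agent.A2.Mod.RE P E) * i = 1 := by
  have hq : P.valuation (q : _root_.Fermat.Agent.A2.Mod.Qb) < 1 := by
    have h : (q : _root_.Fermat.Agent.A2.Mod.Qb) ∈ P.nonunits := hP
    exact (P.mem_nonunits_iff).1 h
  have hk : P.valuation ((q : _root_.Fermat.Agent.A2.Mod.Qb) * (k : _root_.Fermat.Agent.A2.Mod.Qb)) < 1 := by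
    calc P.valuation ((q : _root_.Fermat.Agent.A2.Mod.Qb) * (k : _root_.Fermat.Agent.A2.Mod.Qb)) = P.valuation (q : _root_.Fermat.Agent.A2.Mod.Qb) * P.valuation (k : _root_.Fermat.Agent.A2.Mod.Qb) :=
          _root_.map_mul _ _ _
      _ ≤ P.valuation (q : _root_.Fermat.Agent.A2.Mod.Qb) * 1 := by
          gcongr
          exact (P.valuation_le_one_iff _).2 (natCast_mem P k)
      _ = P.valuation (q : _root_.Fermat.Agent.A2.Mod.Qb) := mul_one _
      _ < 1 := hq
  have hval : P.valuation (n : _root_.Fermat.Agent.A2.Mod.Qb) = 1 := by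
    have e : (n : _root_.Fermat.Agent.A2.Mod.Qb) = 1 + (q : _root_.Fermat.Agent.A2.Mod.Qb) * (k : _root_.Fermat.Agent.A2.Mod.Qb) := by
      rw [hn]
      push_cast
      ring
    rw [e, ← _root_.map_one P.valuation]
    exact Valuation.map_add_eq_of_lt_left _ (by rw [_root_.map_one]; exact hk)
  have hinv : ((n : _root_.Fermat.Agent.A2.Mod.Qb))⁻¹ ∈ P := by
    refine (P.valuation_le_one_iff _).1 ?_
    rw [map_inv₀, hval, inv_one]
  have hn0 : (n : E) ≠ 0 := by
    have : n ≠ 0 := by omega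
    exact_mod_cast this
  refine ⟨⟨((n : E))⁻¹, ?_⟩, Subtype.ext ?_⟩
  · show algebraMap E _root_.Fermat.Agent.A2.Mod.Qb ((n : E))⁻¹ ∈ P
    rw [map_inv₀, _root_.map_natCast]
    exact hinv
  · show ((n : _root_.Fermat.Agent.A2.Mod.RE P E) : E) * ((n : E))⁻¹ = 1
    have : ((n : _root_.Fermat.Agent.A2.Mod.RE P E) : E) = (n : E) := by simp
    rw [this, mul_inv_cancel₀ hn0]

/-- **`t₂ → j`** (`q = 3`, `2 ∣ M`): good reduction in the charts of the Hauptmodul `t` of `X₀(2)`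
gives good reduction in the charts of `j`. -/
theorem goodRedAt_j_of_t2 (i : _root_.Fermat.Agent.A2.Mod.RE P E) (hi : (256 : _root_.Fermat.Agent.A2.Mod.RE P E) * i = 1)
    (VM : ValuationSubring (_root_.Fermat.Agent.A2.Mod.FE E M))
    (hRV : ∀ r : _root_.Fermat.Agent.A2.Mod.RE P E, algebraMap (_root_.Fermat.Agent.A2.Mod.RE P E) (_root_.Fermat.Agent.A2.Mod.FE E M) r ∈ VM)
    (t : _root_.Fermat.Agent.A2.Mod.FE E M) (hrel : jE E M 1 (one_dvd _) * t ^ 2 = (t + 256) ^ 3)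
    (htV : t ∈ VM) (htV' : t⁻¹ ∈ VM) (huV : (t + 256)⁻¹ ∈ VM)
    (hg : GoodRedAt P E M w VM t) (hg' : GoodRedAt P E M w VM t⁻¹) :
    GoodRedAt P E M w VM (jE E M 1 (one_dvd _)) ∧
      GoodRedAt P E M w VM (jE E M 1 (one_dvd _))⁻¹ := by
  rw [goodRedAt_iff_goodOn] at hg hg' ⊢
  rw [goodRedAt_iff_goodOn]
  have hj := H873.jE_ne_zero E M 1 (one_dvd _)
  exact ⟨goodOn_j_of_t2 i hi hj hrel htV htV' hg,
    goodOn_jinv_of_t2 i hi hj hrel hRV htV htV' huV hg hg'⟩

/-- **`t₃ → j`** (`q = 2`, `3 ∣ M`): good reduction in the charts of the Hauptmodul `t` of `X₀(3)`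
gives good reduction in the charts of `j`. -/
theorem goodRedAt_j_of_t3 (i : _root_.Fermat.Agent.A2.Mod.RE P E) (hi : (3 : _root_.Fermat.Agent.A2.Mod.RE P E) * i = 1)
    (VM : ValuationSubring (_root_.Fermat.Agent.A2.Mod.FE E M))
    (hRV : ∀ r : _root_.Fermat.Agent.A2.Mod.RE P E, algebraMap (_root_.Fermat.Agent.A2.Mod.RE P E) (_root_.Fermat.Agent.A2.Mod.FE E M) r ∈ VM)
    (t : _root_.Fermat.Agent.A2.Mod.FE E M) (hrel : jE E M 1 (one_dvd _) * t ^ 3 = (t + 27) * (t + 243) ^ 3)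
    (htV : t ∈ VM) (htV' : t⁻¹ ∈ VM) (hu₁V : (t + 27)⁻¹ ∈ VM) (hu₂V : (t + 243)⁻¹ ∈ VM)
    (hg : GoodRedAt P E M w VM t) (hg' : GoodRedAt P E M w VM t⁻¹) :
    GoodRedAt P E M w VM (jE E M 1 (one_dvd _)) ∧
      GoodRedAt P E M w VM (jE E M 1 (one_dvd _))⁻¹ := by
  rw [goodRedAt_iff_goodOn] at hg hg' ⊢
  rw [goodRedAt_iff_goodOn]
  have hj := H873.jE_ne_zero E M 1 (one_dvd _)
  exact ⟨goodOn_j_of_t3 i hi hj hrel htV htV' hg,
    goodOn_jinv_of_t3 i hi hj hrel hRV htV htV' hu₁V hu₂V hg hg'⟩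

/-! ### Unit conditions from L2 and L3 -/

theorem not_C_dvd_X_add_C {w : _root_.Fermat.Agent.A2.Mod.RE P E} (hw : Irreducible w) (c : _root_.Fermat.Agent.A2.Mod.RE P E) :
    ¬ (Polynomial.C w : Polynomial (_root_.Fermat.Agent.A2.Mod.RE P E)) ∣ Polynomial.X + Polynomial.C c := by
  intro h
  rw [Polynomial.C_dvd_iff_dvd_coeff] at h
  have h1 := h 1
  rw [Polynomial.coeff_add, Polynomial.coeff_X_one, Polynomial.coeff_C] at h1
  simp only [one_ne_zero, if_false, add_zero] at h1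
  exact hw.not_isUnit (isUnit_of_dvd_one h1)

theorem ev_X_add_C (t : _root_.Fermat.Agent.A2.Mod.FE E M) (c : _root_.Fermat.Agent.A2.Mod.RE P E) :
    ev P E M t (Polynomial.X + Polynomial.C c) = t + algebraMap (_root_.Fermat.Agent.A2.Mod.RE P E) (_root_.Fermat.Agent.A2.Mod.FE E M) c := by
  unfold ev
  rw [Polynomial.eval₂_add, Polynomial.eval₂_X, Polynomial.eval₂_C]
  rfl

/-- For a polar `t = t⁻¹ · (unit + …)` all `t + c`, `c ∈ R_E`, are units of `V∞` (L3). -/
theorem add_const_unit_of_polar (hM : M ≠ 0) (hdvr : IsDiscreteValuationRing (_root_.Fermat.Agent.A2.Mod.RE P E))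
    (hw : Irreducible w) (VM : ValuationSubring (_root_.Fermat.Agent.A2.Mod.FE E M)) (hVM : IsVinf P E M VM)
    (t : _root_.Fermat.Agent.A2.Mod.FE E M) (U : LaurentSeries (_root_.Fermat.Agent.A2.Mod.RE P E))
    (hU : (t : LaurentSeries E) = H708.incl (_root_.Fermat.Agent.A2.Mod.RE P E) U)
    (hlow : ∀ n : ℤ, n < -1 → U.coeff n = 0) (htop : IsUnit (U.coeff (-1))) (c : _root_.Fermat.Agent.A2.Mod.RE P E) :
    t + algebraMap (_root_.Fermat.Agent.A2.Mod.RE P E) (_root_.Fermat.Agent.A2.Mod.FE E M) c ∈ VM ∧ (t + algebraMap (_root_.Fermat.Agent.A2.Mod.RE P E) (_root_.Fermat.Agent.A2.Mod.FE E M) c)⁻¹ ∈ VM := by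
  have h := H816.vinfGauss P E w M hM hdvr hw VM hVM t U 1 one_pos hU
    (by simpa using hlow) (by simpa using htop) (Polynomial.X + Polynomial.C c)
    (not_C_dvd_X_add_C P E hw c)
  rwa [ev_X_add_C] at h

theorem const_mem_of_isVinf (hM : M ≠ 0) (hdvr : IsDiscreteValuationRing (_root_.Fermat.Agent.A2.Mod.RE P E))
    (hw : Irreducible w) (VM : ValuationSubring (_root_.Fermat.Agent.A2.Mod.FE E M)) (hVM : IsVinf P E M VM)
    (r : _root_.Fermat.Agent.A2.Mod.RE P E) : algebraMap (_root_.Fermat.Agent.A2.Mod.RE P E) (_root_.Fermat.Agent.A2.Mod.FE E M) r ∈ VM :=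
  ((H708.vinfBasic P E w M hM hdvr hw VM hVM).2.1 (r : E)).2 r.2

/-- **`t₂ → j`**, polar form: `P` over `3`, `t` the image of an integral series `t⁻¹(unit + …)`
with `j t² = (t + 256)³`. -/
theorem goodRedAt_j_of_t2_polar (hP : P.LiesOverPrime 3) (hM : M ≠ 0)
    (hdvr : IsDiscreteValuationRing (_root_.Fermat.Agent.A2.Mod.RE P E)) (hw : Irreducible w)
    (VM : ValuationSubring (_root_.Fermat.Agent.A2.Mod.FE E M)) (hVM : IsVinf P E M VM)
    (t : _root_.Fermat.Agent.A2.Mod.FE E M) (U : LaurentSeries (_root_.Fermat.Agent.A2.Mod.RE P E))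
    (hU : (t : LaurentSeries E) = H708.incl (_root_.Fermat.Agent.A2.Mod.RE P E) U)
    (hlow : ∀ n : ℤ, n < -1 → U.coeff n = 0) (htop : IsUnit (U.coeff (-1)))
    (hrel : jE E M 1 (one_dvd _) * t ^ 2 = (t + 256) ^ 3)
    (hg : GoodRedAt P E M w VM t) (hg' : GoodRedAt P E M w VM t⁻¹) :
    GoodRedAt P E M w VM (jE E M 1 (one_dvd _)) ∧
      GoodRedAt P E M w VM (jE E M 1 (one_dvd _))⁻¹ := by
  obtain ⟨i, hi⟩ := exists_inv_of_liesOver P E hP 256 85 (by norm_num)
  have hi' : (256 : _root_.Fermat.Agent.A2.Mod.RE P E) * i = 1 := by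
    rw [← hi]
    norm_num
  have h0 := add_const_unit_of_polar P E M w hM hdvr hw VM hVM t U hU hlow htop 0
  rw [_root_.map_zero, add_zero] at h0
  have h256 := add_const_unit_of_polar P E M w hM hdvr hw VM hVM t U hU hlow htop 256
  rw [_root_.map_ofNat] at h256
  exact goodRedAt_j_of_t2 P E M w i hi' VM
    (const_mem_of_isVinf P E M w hM hdvr hw VM hVM) t hrel h0.1 h0.2 h256.2 hg hg'

/-- **`t₃ → j`**, polar form: `P` over `2`, `t` the image of an integral series `t⁻¹(unit + …)`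
with `j t³ = (t + 27)(t + 243)³`. -/
theorem goodRedAt_j_of_t3_polar (hP : P.LiesOverPrime 2) (hM : M ≠ 0)
    (hdvr : IsDiscreteValuationRing (_root_.Fermat.Agent.A2.Mod.RE P E)) (hw : Irreducible w)
    (VM : ValuationSubring (_root_.Fermat.Agent.A2.Mod.FE E M)) (hVM : IsVinf P E M VM)
    (t : _root_.Fermat.Agent.A2.Mod.FE E M) (U : LaurentSeries (_root_.Fermat.Agent.A2.Mod.RE P E))
    (hU : (t : LaurentSeries E) = H708.incl (_root_.Fermat.Agent.A2.Mod.RE P E) U)
    (hlow : ∀ n : ℤ, n < -1 → U.coeff n = 0) (htop : IsUnit (U.coeff (-1)))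
    (hrel : jE E M 1 (one_dvd _) * t ^ 3 = (t + 27) * (t + 243) ^ 3)
    (hg : GoodRedAt P E M w VM t) (hg' : GoodRedAt P E M w VM t⁻¹) :
    GoodRedAt P E M w VM (jE E M 1 (one_dvd _)) ∧
      GoodRedAt P E M w VM (jE E M 1 (one_dvd _))⁻¹ := by
  obtain ⟨i, hi⟩ := exists_inv_of_liesOver P E hP 3 1 (by norm_num)
  have hi' : (3 : _root_.Fermat.Agent.A2.Mod.RE P E) * i = 1 := by
    rw [← hi]
    norm_num
  have h0 := add_const_unit_of_polar P E M w hM hdvr hw VM hVM t U hU hlow htop 0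
  rw [_root_.map_zero, add_zero] at h0
  have h27 := add_const_unit_of_polar P E M w hM hdvr hw VM hVM t U hU hlow htop 27
  rw [_root_.map_ofNat] at h27
  have h243 := add_const_unit_of_polar P E M w hM hdvr hw VM hVM t U hU hlow htop 243
  rw [_root_.map_ofNat] at h243
  exact goodRedAt_j_of_t3 P E M w i hi' VM
    (const_mem_of_isVinf P E M w hM hdvr hw VM hVM) t hrel h0.1 h0.2 h27.2 h243.2 hg hg'

end Main

end Fermat.Agent.A2.Mod.H189

end
end
-- ===== PACK-END A2/Mod/H189/GoodRedT.lean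

-- ===== PACK-BEGIN A2/Mod/H189/GoodRedCoord.lean
section



/-!
# Cell A2 / MOD, GOODRED part G3 (helper189): the Hauptmoduln `t₂`, `t₃` at a level `E`

`t2E E M`, `t3E E M : FE E M` are the images of the integral series `S18.H333.t2Z`, `t3Z`
(`2 ∣ M` resp. `3 ∣ M`); they satisfy `j t₂² = (t₂ + 256)³`, `j t₃³ = (t₃ + 27)(t₃ + 243)³` and are
polar (`t⁻¹ + …`).  Hence (`GoodRedT.lean`):

* `goodRedHyp_of_t2` : `P` over `3`, `2 ∣ M`: `GoodRedAt` at `t₂`, `t₂⁻¹` (for all `w`, `VM`)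
  ⟹ `Mod.GoodRedHyp P E M`;
* `goodRedHyp_of_t3` : `P` over `2`, `3 ∣ M`: `GoodRedAt` at `t₃`, `t₃⁻¹` ⟹ `Mod.GoodRedHyp P E M`.

So a producer of good reduction only has to work in the coordinate of row S18
(`j` for `q ≥ 5`, `t₂` for `q = 3`, `t₃` for `q = 2`).
-/

set_option autoImplicit false
set_option synthInstance.maxHeartbeats 400000
set_option maxHeartbeats 1600000

noncomputable section

namespace Fermat.Agent.A2.Mod.H189

open ModularCurve HahnSeries Polynomial Fermat.Agent.A2 Fermat.Agent.A2.Mod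
open Fermat.Agent.S18.H333 (t2Z t3Z)

variable (P : ValuationSubring _root_.Fermat.Agent.A2.Mod.Qb) (E : IntermediateField ℚ _root_.Fermat.Agent.A2.Mod.Qb) (M : ℕ)

theorem coeffEmb_castQ_eq (X : LaurentSeries ℤ) :
    coeffEmb E (H708.castQ X) = coeffMap (Int.castRingHom E) X := by
  rw [coeffEmb, H708.castQ, coeffMap_coeffMap]
  exact coeffMap_congr (RingHom.ext_int _ _) X

theorem coe_jE_one : ((jE E M 1 (one_dvd _) : _root_.Fermat.Agent.A2.Mod.FE E M) : LaurentSeries E) = jqModC E := by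
  show coeffEmb E (qExpand ℚ 1 jq) = jqModC E
  rw [qExpand_one_apply, ← jqModC_rat, coeffEmb, coeffMap_jqModC]

/-- The element of `F_{M,E}` given by an integral series lying in `ℚ(j_d : d ∣ M)`. -/
def feOf (X : LaurentSeries ℤ) (hX : H708.castQ X ∈ modularFunctionFieldFull M) : _root_.Fermat.Agent.A2.Mod.FE E M :=
  ⟨coeffEmb E (H708.castQ X), coeffEmb_mem_laurentBaseChange E hX⟩

theorem coe_feOf (X : LaurentSeries ℤ) (hX : H708.castQ X ∈ modularFunctionFieldFull M) :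
    ((feOf E M X hX : _root_.Fermat.Agent.A2.Mod.FE E M) : LaurentSeries E) = coeffMap (Int.castRingHom E) X :=
  coeffEmb_castQ_eq E X

theorem coe_feOf_incl (X : LaurentSeries ℤ) (hX : H708.castQ X ∈ modularFunctionFieldFull M) :
    ((feOf E M X hX : _root_.Fermat.Agent.A2.Mod.FE E M) : LaurentSeries E) =
      H708.incl (_root_.Fermat.Agent.A2.Mod.RE P E) (H708.castA (_root_.Fermat.Agent.A2.Mod.RE P E) X) :=
  (H708.incl_castA (_root_.Fermat.Agent.A2.Mod.RE P E) X).symm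

/-- `t₂ ∈ F_{M,E}` (`2 ∣ M`). -/
def t2E (hM : 2 ∣ M) : _root_.Fermat.Agent.A2.Mod.FE E M := feOf E M t2Z (Fermat.Agent.S18.H333.t2Q_mem M hM)

/-- `t₃ ∈ F_{M,E}` (`3 ∣ M`). -/
def t3E (hM : 3 ∣ M) : _root_.Fermat.Agent.A2.Mod.FE E M := feOf E M t3Z (Fermat.Agent.S18.H333.t3Q_mem M hM)

theorem t2E_rel (hM : 2 ∣ M) :
    jE E M 1 (one_dvd _) * t2E E M hM ^ 2 = (t2E E M hM + 256) ^ 3 := by
  apply Subtype.ext
  have h := Fermat.Agent.S18.H333.t2_rel_a E
  have hx : ((t2E E M hM : _root_.Fermat.Agent.A2.Mod.FE E M) : LaurentSeries E) = Fermat.Agent.S18.H333.t2 E :=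
    coe_feOf E M t2Z _
  push_cast
  rw [coe_jE_one, hx]
  exact h

theorem t3E_rel (hM : 3 ∣ M) :
    jE E M 1 (one_dvd _) * t3E E M hM ^ 3 = (t3E E M hM + 27) * (t3E E M hM + 243) ^ 3 := by
  apply Subtype.ext
  have h := Fermat.Agent.S18.H333.t3_rel_a E
  have hx : ((t3E E M hM : _root_.Fermat.Agent.A2.Mod.FE E M) : LaurentSeries E) = Fermat.Agent.S18.H333.t3 E :=
    coe_feOf E M t3Z _
  push_cast
  rw [coe_jE_one, hx]
  exact h

theorem castA_coeff (X : LaurentSeries ℤ) (k : ℤ) :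
    (H708.castA (_root_.Fermat.Agent.A2.Mod.RE P E) X).coeff k = ((X.coeff k : ℤ) : _root_.Fermat.Agent.A2.Mod.RE P E) := rfl

/-- **GOODRED for `q = 3`** from good reduction in the charts of `t₂`. -/
theorem goodRedHyp_of_t2 (hP : P.LiesOverPrime 3) (hM0 : M ≠ 0) (hM : 2 ∣ M)
    (hdvr : IsDiscreteValuationRing (_root_.Fermat.Agent.A2.Mod.RE P E))
    (h : ∀ (w : _root_.Fermat.Agent.A2.Mod.RE P E) (VM : ValuationSubring (_root_.Fermat.Agent.A2.Mod.FE E M)), Irreducible w → IsVinf P E M VM →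
      GoodRedAt P E M w VM (t2E E M hM) ∧ GoodRedAt P E M w VM (t2E E M hM)⁻¹) :
    GoodRedHyp P E M := by
  intro w VM hw hVM
  obtain ⟨hg, hg'⟩ := h w VM hw hVM
  refine goodRedAt_j_of_t2_polar P E M w hP hM0 hdvr hw VM hVM (t2E E M hM)
    (H708.castA (_root_.Fermat.Agent.A2.Mod.RE P E) t2Z) (coe_feOf_incl P E M t2Z _) ?_ ?_ (t2E_rel E M hM) hg hg'
  · intro n hn
    rw [castA_coeff, Fermat.Agent.S18.H333.t2Z_coeff_of_lt hn, Int.cast_zero]
  · rw [castA_coeff, Fermat.Agent.S18.H333.t2Z_coeff_neg_one, Int.cast_one]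
    exact isUnit_one

/-- **GOODRED for `q = 2`** from good reduction in the charts of `t₃`. -/
theorem goodRedHyp_of_t3 (hP : P.LiesOverPrime 2) (hM0 : M ≠ 0) (hM : 3 ∣ M)
    (hdvr : IsDiscreteValuationRing (_root_.Fermat.Agent.A2.Mod.RE P E))
    (h : ∀ (w : _root_.Fermat.Agent.A2.Mod.RE P E) (VM : ValuationSubring (_root_.Fermat.Agent.A2.Mod.FE E M)), Irreducible w → IsVinf P E M VM →
      GoodRedAt P E M w VM (t3E E M hM) ∧ GoodRedAt P E M w VM (t3E E M hM)⁻¹) :
    GoodRedHyp P E M := by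
  intro w VM hw hVM
  obtain ⟨hg, hg'⟩ := h w VM hw hVM
  refine goodRedAt_j_of_t3_polar P E M w hP hM0 hdvr hw VM hVM (t3E E M hM)
    (H708.castA (_root_.Fermat.Agent.A2.Mod.RE P E) t3Z) (coe_feOf_incl P E M t3Z _) ?_ ?_ (t3E_rel E M hM) hg hg'
  · intro n hn
    rw [castA_coeff, Fermat.Agent.S18.H333.t3Z_coeff_of_lt hn, Int.cast_zero]
  · rw [castA_coeff, Fermat.Agent.S18.H333.t3Z_coeff_neg_one, Int.cast_one]
    exact isUnit_one

end Fermat.Agent.A2.Mod.H189

end
end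
-- ===== PACK-END A2/Mod/H189/GoodRedCoord.lean

-- ===== PACK-BEGIN A2/Mod/H751/Stau.lean
section





/-!
# A2 / MODASM, sub-assembly `Sτ` (helper751)

`stau_of_s1 : S1Statement P E M q w → StauStatement P E M q w` — inertia fixes the coordinate
`x = j · j_q` and acts trivially modulo `w` on both charts.  All leaves are taken from main
(L1, L2: `H553`; L4: `H751`; L14: `H549`); the only hypothesis is the sub-assembly `S1`.

Abstract lemmas (Mathlib only):

* `mem_valuationSubring_of_isIntegral_adjoin` : a valuation ring containing `R` and `y` contains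
  the integral closure of `R[y]`;
* `isIntegral_adjoin_map` : a ring endomorphism `σ` of `F` with `σ ∘ algebraMap = algebraMap ∘ ρ`
  and `σ y = y` preserves the integral closure of `R[y]`;
* `exists_eq_mul_of_mem_inf` : `p₁ ⊓ p₂ = (w)` read elementwise.
-/

set_option autoImplicit false
set_option linter.unusedSectionVars false
set_option synthInstance.maxHeartbeats 400000
set_option maxHeartbeats 1600000

noncomputable section

namespace Fermat.Agent.A2.Mod.H751

open ModularCurve HahnSeries Polynomial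

/-! ### Abstract lemmas -/

section Abstract

variable {R F : Type*} [CommRing R] [Field F] [Algebra R F]

/-- A valuation subring of `F` containing the image of `R` and `y` contains every element
integral over `R[y]`. -/
theorem mem_valuationSubring_of_isIntegral_adjoin (V : ValuationSubring F)
    (hR : ∀ r : R, algebraMap R F r ∈ V) {y : F} (hy : y ∈ V) {b : F}
    (hb : IsIntegral (Algebra.adjoin R ({y} : Set F)) b) : b ∈ V := by
  have hle : ∀ a ∈ Algebra.adjoin R ({y} : Set F), a ∈ V := by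
    intro a ha
    induction ha using Algebra.adjoin_induction with
    | mem z hz =>
        rw [Set.mem_singleton_iff] at hz
        rw [hz]; exact hy
    | algebraMap r => exact hR r
    | add a c _ _ ha hc => exact V.add_mem _ _ ha hc
    | mul a c _ _ ha hc => exact V.mul_mem _ _ ha hc
  let φ : ↥(Algebra.adjoin R ({y} : Set F)) →+* ↥V :=
    { toFun := fun a => ⟨(a : F), hle a a.2⟩
      map_one' := rfl
      map_mul' := fun _ _ => rfl
      map_zero' := rfl
      map_add' := fun _ _ => rfl }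
  have h1 : IsIntegral ↥V ((RingHom.id F) b) :=
    IsIntegral.map_of_comp_eq φ (RingHom.id F) (RingHom.ext fun _ => rfl) hb
  have h2 : IsIntegral ↥V b := h1
  obtain ⟨v, hv⟩ := (IsIntegrallyClosed.isIntegral_iff (R := ↥V) (K := F)).mp h2
  rw [← hv]
  exact v.2

/-- A ring endomorphism `σ` of `F`, semilinear over `ρ : R →+* R` and fixing `y`, preserves the
integral closure of `R[y]`. -/
theorem isIntegral_adjoin_map (σ : F →+* F) (ρ : R →+* R)
    (hσ : ∀ r : R, σ (algebraMap R F r) = algebraMap R F (ρ r)) {y : F} (hy : σ y = y) {b : F}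
    (hb : IsIntegral (Algebra.adjoin R ({y} : Set F)) b) :
    IsIntegral (Algebra.adjoin R ({y} : Set F)) (σ b) := by
  have hle : ∀ a ∈ Algebra.adjoin R ({y} : Set F), σ a ∈ Algebra.adjoin R ({y} : Set F) := by
    intro a ha
    induction ha using Algebra.adjoin_induction with
    | mem z hz =>
        rw [Set.mem_singleton_iff] at hz
        rw [hz, hy]
        exact Algebra.subset_adjoin (Set.mem_singleton y)
    | algebraMap r =>
        rw [hσ]
        exact Subalgebra.algebraMap_mem _ _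
    | add a c _ _ ha hc =>
        rw [_root_.map_add]
        exact add_mem ha hc
    | mul a c _ _ ha hc =>
        rw [_root_.map_mul]
        exact mul_mem ha hc
  let φ : ↥(Algebra.adjoin R ({y} : Set F)) →+* ↥(Algebra.adjoin R ({y} : Set F)) :=
    { toFun := fun a => ⟨σ (a : F), hle a a.2⟩
      map_one' := Subtype.ext (_root_.map_one σ)
      map_mul' := fun a c => Subtype.ext (_root_.map_mul σ (a : F) (c : F))
      map_zero' := Subtype.ext (_root_.map_zero σ)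
      map_add' := fun a c => Subtype.ext (_root_.map_add σ (a : F) (c : F)) }
  exact IsIntegral.map_of_comp_eq φ σ (RingHom.ext fun _ => rfl) hb

/-- `p₁ ⊓ p₂ = (w)`, elementwise. -/
theorem exists_eq_mul_of_mem_inf (B : Subalgebra R F) (w : R) (p₁ p₂ : Ideal B)
    (hinf : p₁ ⊓ p₂ = Ideal.span {algebraMap R B w}) {d : F} (hd : d ∈ B)
    (h₁ : (⟨d, hd⟩ : B) ∈ p₁) (h₂ : (⟨d, hd⟩ : B) ∈ p₂) :
    ∃ c ∈ B, d = algebraMap R F w * c := by
  have h : (⟨d, hd⟩ : B) ∈ p₁ ⊓ p₂ := ⟨h₁, h₂⟩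
  rw [hinf, Ideal.mem_span_singleton] at h
  obtain ⟨c, hc⟩ := h
  refine ⟨(c : F), c.2, ?_⟩
  have := congrArg (fun z : B => (z : F)) hc
  simpa using this

end Abstract

/-! ### The sub-assembly `Sτ` -/

section Concrete

variable (P : ValuationSubring _root_.Fermat.Agent.A2.Mod.Qb) (E : IntermediateField ℚ _root_.Fermat.Agent.A2.Mod.Qb) (M q : ℕ) [NeZero M] [NeZero q]
  (w : _root_.Fermat.Agent.A2.Mod.RE P E)

/-- `τ j_d = j_d`. -/
theorem arith_jE (N d : ℕ) [NeZero d] (hd : d ∣ N) (τE : E ≃ₐ[ℚ] E) :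
    arithmeticRingAut (modularFunctionFieldFull N) τE (jE E N d hd) = jE E N d hd :=
  Subtype.ext (coeffMap_coeffEmb τE _)

/-- `τ x = x`. -/
theorem arith_xE (τE : E ≃ₐ[ℚ] E) :
    arithmeticRingAut (modularFunctionFieldFull (M * q)) τE (xE E M q) = xE E M q := by
  unfold xE
  rw [_root_.map_mul, arith_jE, arith_jE]

/-- An automorphism in the inertia group whose restriction to `E` is `τE` preserves `R_E`. -/
theorem resE_mem_RE {τ : _root_.Fermat.Agent.A2.Mod.Qb ≃ₐ[ℚ] _root_.Fermat.Agent.A2.Mod.Qb} {τE : E ≃ₐ[ℚ] E} (hτ : τ ∈ P.inertiaSubgroupIn ℚ)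
    (hτE : ∀ e : E, ((τE e : E) : _root_.Fermat.Agent.A2.Mod.Qb) = τ (e : _root_.Fermat.Agent.A2.Mod.Qb)) : ∀ a ∈ _root_.Fermat.Agent.A2.Mod.RE P E, τE a ∈ _root_.Fermat.Agent.A2.Mod.RE P E := by
  intro a ha
  have hτD := Fermat.Agent.A2.H708.mem_decomposition_of_mem_inertiaIn P hτ
  rw [ValuationSubring.mem_comap] at ha ⊢
  have e : algebraMap ↥E _root_.Fermat.Agent.A2.Mod.Qb (τE a) = τ (algebraMap ↥E _root_.Fermat.Agent.A2.Mod.Qb a) := hτE a
  rw [e]
  exact Fermat.Agent.A2.H708.apply_mem_of_mem_decomposition P hτD ha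

/-- **Sub-assembly `Sτ`** from `S1` (all leaves from main). -/
theorem stau_of_s1 (hS1 : S1Statement P E M q w) : StauStatement P E M q w := by
  intro hS τ τE hτ hτE
  refine ⟨arith_xE E M q τE, ?_⟩
  intro y hy b hb
  have hN : M * q ≠ 0 := mul_ne_zero hS.M_ne_zero hS.q_prime.ne_zero
  haveI : NeZero (M * q) := ⟨hN⟩
  obtain ⟨V, hV⟩ := H553.vinfExists P E (M * q) hN hS.dvr
  have hW : IsFricke E (M * q) (frickeE E (M * q)) := isFricke_frickeE E (M * q)
  obtain ⟨p₁, p₂, hc₁, hc₂, -, -, -, -, hinf⟩ := hS1 hS V (frickeE E (M * q)) hV hW y hy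
  obtain ⟨-, hconst, hj⟩ := H553.vinfBasic P E w (M * q) hN hS.dvr hS.unif V hV
  obtain ⟨hcomm, hin⟩ := H549.inertia_core P E w (M * q) hN hS.dvr hS.unif V
    (frickeE E (M * q)) hV hW.1 τ τE hτE hτ
  -- notation
  set W := frickeE E (M * q) with hWdef
  set j1 := jE E (M * q) 1 (one_dvd _) with hj1
  set jq' := jE E (M * q) q (dvd_mul_left q M) with hjq
  have hx : xE E M q = j1 * jq' := rfl
  -- (a) constants
  have hRV : ∀ r : _root_.Fermat.Agent.A2.Mod.RE P E, algebraMap (_root_.Fermat.Agent.A2.Mod.RE P E) (_root_.Fermat.Agent.A2.Mod.FE E (M * q)) r ∈ V := fun r =>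
    (hconst (r : E)).mpr r.2
  have hRV0 : ∀ r : _root_.Fermat.Agent.A2.Mod.RE P E, algebraMap (_root_.Fermat.Agent.A2.Mod.RE P E) (_root_.Fermat.Agent.A2.Mod.FE E (M * q)) r ∈
      V.comap (W : _root_.Fermat.Agent.A2.Mod.FE E (M * q) →+* _root_.Fermat.Agent.A2.Mod.FE E (M * q)) := by
    intro r
    rw [ValuationSubring.mem_comap]
    have h1 : (W : _root_.Fermat.Agent.A2.Mod.FE E (M * q) →+* _root_.Fermat.Agent.A2.Mod.FE E (M * q)) (algebraMap (_root_.Fermat.Agent.A2.Mod.RE P E) (_root_.Fermat.Agent.A2.Mod.FE E (M * q)) r)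
        = algebraMap (_root_.Fermat.Agent.A2.Mod.RE P E) (_root_.Fermat.Agent.A2.Mod.FE E (M * q)) r := W.commutes (r : E)
    rw [h1]
    exact hRV r
  -- (b) the coordinate and its inverse
  have hxV : xE E M q ∈ V := by
    rw [hx]; exact V.mul_mem _ _ (hj 1 (one_dvd _)).1 (hj q (dvd_mul_left q M)).1
  have hxV' : (xE E M q)⁻¹ ∈ V := by
    rw [hx, mul_inv]; exact V.mul_mem _ _ (hj 1 (one_dvd _)).2 (hj q (dvd_mul_left q M)).2
  have hW1 : W j1 = jE E (M * q) (M * q) dvd_rfl :=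
    hW.1 1 (M * q) (one_dvd _) dvd_rfl (one_mul _)
  have hWq : W jq' = jE E (M * q) M (dvd_mul_right M q) :=
    hW.1 q M (dvd_mul_left q M) (dvd_mul_right M q) (mul_comm q M)
  have hWx : W (xE E M q) = jE E (M * q) (M * q) dvd_rfl * jE E (M * q) M (dvd_mul_right M q) := by
    rw [hx, _root_.map_mul, hW1, hWq]
  have hxV0 : xE E M q ∈ V.comap (W : _root_.Fermat.Agent.A2.Mod.FE E (M * q) →+* _root_.Fermat.Agent.A2.Mod.FE E (M * q)) := by
    rw [ValuationSubring.mem_comap]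
    show W (xE E M q) ∈ V
    rw [hWx]
    exact V.mul_mem _ _ (hj (M * q) dvd_rfl).1 (hj M (dvd_mul_right M q)).1
  have hxV0' : (xE E M q)⁻¹ ∈ V.comap (W : _root_.Fermat.Agent.A2.Mod.FE E (M * q) →+* _root_.Fermat.Agent.A2.Mod.FE E (M * q)) := by
    rw [ValuationSubring.mem_comap]
    show W (xE E M q)⁻¹ ∈ V
    rw [map_inv₀, hWx, mul_inv]
    exact V.mul_mem _ _ (hj (M * q) dvd_rfl).2 (hj M (dvd_mul_right M q)).2
  have hyV : y ∈ V := by
    rcases hy with rfl | rfl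
    · exact hxV
    · exact hxV'
  have hyV0 : y ∈ V.comap (W : _root_.Fermat.Agent.A2.Mod.FE E (M * q) →+* _root_.Fermat.Agent.A2.Mod.FE E (M * q)) := by
    rcases hy with rfl | rfl
    · exact hxV0
    · exact hxV0'
  -- (c) `b ∈ V ∩ V₀`
  have hbI : IsIntegral (Algebra.adjoin (_root_.Fermat.Agent.A2.Mod.RE P E) ({y} : Set (_root_.Fermat.Agent.A2.Mod.FE E (M * q)))) b := hb
  have hbV : b ∈ V := mem_valuationSubring_of_isIntegral_adjoin V hRV hyV hbI
  have hbV0 : W b ∈ V := by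
    have := mem_valuationSubring_of_isIntegral_adjoin
      (V.comap (W : _root_.Fermat.Agent.A2.Mod.FE E (M * q) →+* _root_.Fermat.Agent.A2.Mod.FE E (M * q))) hRV0 hyV0 hbI
    rwa [ValuationSubring.mem_comap] at this
  -- (d) `τ b ∈ B`
  have hσA := resE_mem_RE P E hτ hτE
  have hτy : arithmeticRingAut (modularFunctionFieldFull (M * q)) τE y = y := by
    rcases hy with rfl | rfl
    · exact arith_xE E M q τE
    · rw [map_inv₀, arith_xE]
  have hτb : arithmeticRingAut (modularFunctionFieldFull (M * q)) τE b ∈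
      chartAlg P E (M * q) y := by
    have h1 := isIntegral_adjoin_map (R := _root_.Fermat.Agent.A2.Mod.RE P E) (F := _root_.Fermat.Agent.A2.Mod.FE E (M * q))
      ((arithmeticRingAut (modularFunctionFieldFull (M * q)) τE :
        _root_.Fermat.Agent.A2.Mod.FE E (M * q) ≃+* _root_.Fermat.Agent.A2.Mod.FE E (M * q)) : _root_.Fermat.Agent.A2.Mod.FE E (M * q) →+* _root_.Fermat.Agent.A2.Mod.FE E (M * q))
      (H549.resA (_root_.Fermat.Agent.A2.Mod.RE P E) τE hσA)
      (fun r => arithmeticRingAut_algebraMap (modularFunctionFieldFull (M * q)) τE (r : E))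
      hτy hbI
    exact h1
  have hd : arithmeticRingAut (modularFunctionFieldFull (M * q)) τE b - b ∈
      chartAlg P E (M * q) y := sub_mem hτb hb
  -- (e) `τ b - b ∈ w V ∩ w V₀`
  have h₁ : InW P E (M * q) V w
      (arithmeticRingAut (modularFunctionFieldFull (M * q)) τE b - b) := hin b hbV
  have h₂ : InW P E (M * q) (V.comap (W : _root_.Fermat.Agent.A2.Mod.FE E (M * q) →+* _root_.Fermat.Agent.A2.Mod.FE E (M * q))) w
      (arithmeticRingAut (modularFunctionFieldFull (M * q)) τE b - b) := by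
    have h3 := hin (W b) hbV0
    show (arithmeticRingAut (modularFunctionFieldFull (M * q)) τE b - b) * (cE P E (M * q) w)⁻¹
      ∈ V.comap (W : _root_.Fermat.Agent.A2.Mod.FE E (M * q) →+* _root_.Fermat.Agent.A2.Mod.FE E (M * q))
    rw [ValuationSubring.mem_comap]
    show W ((arithmeticRingAut (modularFunctionFieldFull (M * q)) τE b - b)
      * (cE P E (M * q) w)⁻¹) ∈ V
    have hWc : W (cE P E (M * q) w) = cE P E (M * q) w := W.commutes (w : E)
    rw [_root_.map_mul, _root_.map_sub, map_inv₀, hWc, ← hcomm b]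
    exact h3
  -- (f) conclusion
  exact exists_eq_mul_of_mem_inf (chartAlg P E (M * q) y) w p₁ p₂ hinf hd
    ((hc₁ ⟨_, hd⟩).mpr h₁) ((hc₂ ⟨_, hd⟩).mpr h₂)

end Concrete

end Fermat.Agent.A2.Mod.H751

end
end
-- ===== PACK-END A2/Mod/H751/Stau.lean

-- ===== PACK-BEGIN S37/H88/ALDegree.lean
section







/-!
# S37 / E-a (helper88): the degree of the second degeneracy map

`k` a field in which the primes dividing `N ℓ` are invertible, `ℓ ∤ N` prime.
`F_M = k(j(q^d) : d ∣ M) ⊆ k((q))` (`modularFunctionFieldFullC k M`), `V = (q ↦ q^ℓ)`.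

* `K0 k N ℓ := V(F_N)`, an intermediate field of `k((q))/k` contained in `F_{Nℓ}`;
* `relfinrank_K0` : `[F_{Nℓ} : V(F_N)] = ℓ + 1`.
-/

set_option autoImplicit false

noncomputable section

namespace Fermat.Agent.S37.H88

open ModularCurve Polynomial IntermediateField Fermat.Agent.S28

variable (k : Type*) [Field k]

/-- `V(F_N)`, the image of the function field of level `N` under `q ↦ q^ℓ`. -/
def K0 (N ℓ : ℕ) [NeZero ℓ] : IntermediateField k (LaurentSeries k) :=
  (modularFunctionFieldFullC k N).map (qExpandAlgHomC k ℓ)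

/-- `k(j(q^ℓ)) = V(k(j))`. -/
abbrev J1 (ℓ : ℕ) [NeZero ℓ] : IntermediateField k (LaurentSeries k) :=
  (jField k).map (qExpandAlgHomC k ℓ)

theorem jd_mem_fullC {d M : ℕ} [NeZero d] (hd : d ∣ M) :
    qExpand k d (jqModC k) ∈ modularFunctionFieldFullC k M :=
  subset_adjoin k _ ⟨d, ‹_›, hd, rfl⟩

theorem jq_mem_fullC (M : ℕ) : jqModC k ∈ modularFunctionFieldFullC k M := by
  have h := jd_mem_fullC k (d := 1) (one_dvd M)
  rwa [qExpand_one_apply] at h

theorem fullC_mono {N M : ℕ} (h : N ∣ M) :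
    modularFunctionFieldFullC k N ≤ modularFunctionFieldFullC k M := by
  rw [modularFunctionFieldFullC, adjoin_le_iff]
  rintro _ ⟨d, hd0, hd, rfl⟩
  exact jd_mem_fullC k (hd.trans h)

theorem jField_le_fullC (M : ℕ) : jField k ≤ modularFunctionFieldFullC k M := by
  rw [jField, adjoin_le_iff]
  rintro x hx
  rw [Set.mem_singleton_iff] at hx
  subst hx
  exact jq_mem_fullC k M

theorem K0_le (N ℓ : ℕ) [NeZero ℓ] : K0 k N ℓ ≤ modularFunctionFieldFullC k (N * ℓ) := by
  rw [K0, modularFunctionFieldFullC, adjoin_map, adjoin_le_iff]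
  rintro _ ⟨_, ⟨d, hd0, hd, rfl⟩, rfl⟩
  have : NeZero (ℓ * d) := ⟨Nat.mul_ne_zero (NeZero.ne ℓ) (NeZero.ne d)⟩
  have h1 : qExpandAlgHomC k ℓ (qExpand k d (jqModC k)) = qExpand k (ℓ * d) (jqModC k) := by
    rw [qExpandAlgHomC_apply, qExpand_qExpand]
  rw [h1]
  exact jd_mem_fullC k (by rw [mul_comm]; exact Nat.mul_dvd_mul_right hd ℓ)

theorem J1_le_K0 (N ℓ : ℕ) [NeZero ℓ] : J1 k ℓ ≤ K0 k N ℓ :=
  IntermediateField.map_mono _ (jField_le_fullC k N)

section Degree

variable (N ℓ : ℕ) [NeZero ℓ]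

theorem J1_le_fullC_prime : J1 k ℓ ≤ modularFunctionFieldFullC k ℓ := by
  have h := (J1_le_K0 k 1 ℓ).trans (K0_le k 1 ℓ)
  rwa [one_mul] at h

/-- `k(j, j_ℓ) = k(j_ℓ)(j)`. -/
theorem extendScalars_fullC_prime (hℓ : ℓ.Prime) :
    extendScalars (J1_le_fullC_prime k ℓ) = adjoin (J1 k ℓ) {jqModC k} := by
  apply IntermediateField.restrictScalars_injective k
  rw [IntermediateField.restrictScalars_adjoin_eq_sup]
  apply le_antisymm
  · show modularFunctionFieldFullC k ℓ ≤ _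
    rw [modularFunctionFieldFullC, adjoin_le_iff]
    rintro _ ⟨d, hd0, hd, rfl⟩
    rcases (Nat.dvd_prime hℓ).mp hd with rfl | rfl
    · rw [qExpand_one_apply]
      exact (le_sup_right : adjoin k {jqModC k} ≤ _) (mem_adjoin_simple_self k _)
    · exact (le_sup_left : J1 k d ≤ _) (h88_jp_mem_map k d)
  · refine sup_le (J1_le_fullC_prime k ℓ) ?_
    rw [adjoin_le_iff]
    rintro x hx
    rw [Set.mem_singleton_iff] at hx
    subst hx
    exact jq_mem_fullC k ℓ

/-- `[k(j, j_ℓ) : k(j_ℓ)] = ℓ + 1`. -/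
theorem relfinrank_J1_fullC_prime (hℓ : ℓ.Prime) (hℓk : (ℓ : k) ≠ 0) :
    (J1 k ℓ).relfinrank (modularFunctionFieldFullC k ℓ) = ℓ + 1 := by
  obtain ⟨Φ⟩ := H807.nonempty_modPolyData ℓ hℓ
  obtain ⟨W⟩ := H807.nonempty_unitPolyData ℓ hℓ
  have hdeg := h88_natDegree_minpoly_j k ℓ hℓk hℓ.one_lt Φ W H25.theta_identity
  have hint := h88_isIntegral_j_K1 k ℓ Φ
  rw [relfinrank_eq_finrank_of_le (J1_le_fullC_prime k ℓ), extendScalars_fullC_prime k ℓ hℓ,
    adjoin.finrank hint, hdeg]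

/-- **Degree of the second degeneracy map**: `[F_{Nℓ} : V(F_N)] = ℓ + 1` for `ℓ ∤ N`. -/
theorem relfinrank_K0 (hN : N ≠ 0) (hℓ : ℓ.Prime) (hℓN : ¬ ℓ ∣ N)
    (hchar : ∀ r : ℕ, r.Prime → r ∣ N * ℓ → (r : k) ≠ 0) :
    (K0 k N ℓ).relfinrank (modularFunctionFieldFullC k (N * ℓ)) = ℓ + 1 := by
  have hNℓ : N * ℓ ≠ 0 := Nat.mul_ne_zero hN hℓ.ne_zero
  have hℓk : (ℓ : k) ≠ 0 := hchar ℓ hℓ (dvd_mul_left ℓ N)
  have a1 : (jField k).relfinrank (modularFunctionFieldFullC k N) = dedekindPsi N :=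
    H988.relfinrank_jField_full_eq k N hN
      (fun r hr hrN => hchar r hr (hrN.trans (dvd_mul_right N ℓ)))
  have a2 : (jField k).relfinrank (modularFunctionFieldFullC k (N * ℓ)) = dedekindPsi (N * ℓ) :=
    H988.relfinrank_jField_full_eq k (N * ℓ) hNℓ hchar
  have a3 : (jField k).relfinrank (modularFunctionFieldFullC k ℓ) = dedekindPsi ℓ :=
    H988.relfinrank_jField_full_eq k ℓ hℓ.ne_zero
      (fun r hr hrℓ => hchar r hr (hrℓ.trans (dvd_mul_left ℓ N)))
  have p1 : dedekindPsi (N * ℓ) = (ℓ + 1) * dedekindPsi N :=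
    H626.psi_mul_prime_of_not_dvd hN hℓ hℓN
  have p2 : dedekindPsi ℓ = ℓ + 1 := by
    have h := H626.psi_mul_prime_of_not_dvd (N := 1) one_ne_zero hℓ
      (fun h => hℓ.one_lt.ne' (Nat.dvd_one.mp h))
    rwa [one_mul, dedekindPsi_one, mul_one] at h
  have b1 : (J1 k ℓ).relfinrank (K0 k N ℓ) = dedekindPsi N := by
    rw [K0, relfinrank_map_map, a1]
  have b2 := relfinrank_J1_fullC_prime k ℓ hℓ hℓk
  have c1 := relfinrank_mul_relfinrank (jField_le_fullC k ℓ) (fullC_mono k (dvd_mul_left ℓ N))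
  have c2 := relfinrank_mul_relfinrank (J1_le_fullC_prime k ℓ) (fullC_mono k (dvd_mul_left ℓ N))
  have c3 := relfinrank_mul_relfinrank (J1_le_K0 k N ℓ) (K0_le k N ℓ)
  rw [a3, a2, p2] at c1
  rw [b2, c1] at c2
  rw [b1, ← c2, p1] at c3
  have hpos : 0 < dedekindPsi N := H988.dedekindPsi_pos N hN
  rw [mul_comm (ℓ + 1)] at c3
  exact Nat.eq_of_mul_eq_mul_left hpos c3

end Degree

end Fermat.Agent.S37.H88

end
end
-- ===== PACK-END S37/H88/ALDegree.lean

-- ===== PACK-BEGIN S37/H88/ALEmbed.lean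
section




/-!
# S37 / E-a (helper88): the `ℓ + 1` embeddings of `F_{Nℓ}` over `V(F_N)`

`k` a field with a primitive `ℓ`-th root of unity `ζ`, primes dividing `N ℓ` invertible, `ℓ ∤ N`.
The `ℓ` twists `q ↦ ζ^b q` restrict to `V(F_N)`-embeddings of `F_{Nℓ}` into `k((q))`; there is
exactly one more, `tauInf`, and it satisfies `tauInf (f) = f(q^{ℓ²})` for `f ∈ F_N`.
-/

set_option autoImplicit false
set_option linter.unusedSectionVars false

noncomputable section

namespace Fermat.Agent.S37.H88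

open ModularCurve Polynomial IntermediateField Fermat.Agent.S28 Fermat.Agent.S37

section Twist

variable (k : Type*) [Field k]

/-- the generators `j(q^d)` -/
abbrev gd (d : ℕ) [NeZero d] : LaurentSeries k := qExpand k d (jqModC k)

theorem gd_coeff_neg (d : ℕ) [NeZero d] : (gd k d).coeff (-(d : ℤ)) = 1 := by
  have h := qExpand_coeff_mul (R := k) d (jqModC k) (-1)
  rw [mul_neg, mul_one] at h
  rw [gd, h, coeff_jqModC_neg_one]

variable {k} {ℓ : ℕ} [NeZero ℓ] {ζ : k}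

theorem tw_gd_coeff (b : ℕ) (d : ℕ) [NeZero d] :
    (H340.tw ℓ (ζ ^ b) (gd k d)).coeff (-(d : ℤ)) =
      (ζ ^ ((-(d : ℤ)) % (ℓ : ℤ)).toNat) ^ b := by
  rw [H340.tw_coeff, gd_coeff_neg, mul_one, H340.zpw, ← pow_mul, ← pow_mul, mul_comm]

theorem toNat_emod_coprime (hℓ : ℓ.Prime) {d : ℕ} (hd : ¬ ℓ ∣ d) :
    Nat.Coprime ((-(d : ℤ)) % (ℓ : ℤ)).toNat ℓ := by
  have hℓpos : (0 : ℤ) < ℓ := by exact_mod_cast hℓ.pos
  have h0 : 0 ≤ (-(d : ℤ)) % (ℓ : ℤ) := Int.emod_nonneg _ hℓpos.ne'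
  rw [Nat.coprime_comm, Nat.Prime.coprime_iff_not_dvd hℓ]
  intro h
  have h1 : (ℓ : ℤ) ∣ (((-(d : ℤ)) % (ℓ : ℤ)).toNat : ℤ) := by exact_mod_cast h
  rw [Int.toNat_of_nonneg h0] at h1
  have h2 : (ℓ : ℤ) ∣ -(d : ℤ) := (Int.dvd_iff_emod_eq_zero ..).mpr
    (Int.emod_emod_of_dvd _ (dvd_refl _) ▸ (Int.dvd_iff_emod_eq_zero ..).mp h1)
  rw [Int.dvd_neg] at h2
  exact hd (by exact_mod_cast h2)

/-- the twists of `j(q^d)`, `ℓ ∤ d`, are pairwise distinct -/
theorem tw_gd_injective (hζ : IsPrimitiveRoot ζ ℓ) (hℓ : ℓ.Prime) {d : ℕ} [NeZero d]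
    (hd : ¬ ℓ ∣ d) :
    Function.Injective (fun b : Fin ℓ => H340.tw ℓ (ζ ^ (b : ℕ)) (gd k d)) := by
  intro b b' h
  have h1 := congrArg (fun f : LaurentSeries k => f.coeff (-(d : ℤ))) h
  simp only [tw_gd_coeff] at h1
  have hprim := hζ.pow_of_coprime _ (toNat_emod_coprime hℓ hd)
  exact Fin.ext (hprim.pow_inj b.2 b'.2 h1)

/-- `j(q^{dℓ²})` is not a twist of `j(q^d)` -/
theorem qExpand_qExpand_gd_ne_tw (hζ : IsPrimitiveRoot ζ ℓ) (hℓ : ℓ.Prime) {d : ℕ} [NeZero d]
    (hd : ¬ ℓ ∣ d) (b : ℕ) :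
    qExpand k ℓ (qExpand k ℓ (gd k d)) ≠ H340.tw ℓ (ζ ^ b) (gd k d) := by
  intro h
  have h1 := congrArg (fun f : LaurentSeries k => f.coeff (-(d : ℤ))) h
  simp only [tw_gd_coeff] at h1
  rw [qExpand_coeff_of_not_dvd] at h1
  · exact (pow_ne_zero _ (pow_ne_zero _ (hζ.ne_zero hℓ.ne_zero))) h1.symm
  · rw [Int.dvd_neg]
    exact fun h2 => hd (by exact_mod_cast h2)

end Twist

section Fields

variable (k : Type*) [Field k] (N ℓ : ℕ) [NeZero ℓ]

/-- `F_{Nℓ}` as an extension of `V(F_N)`. -/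
abbrev E1 : IntermediateField (K0 k N ℓ) (LaurentSeries k) := extendScalars (K0_le k N ℓ)

theorem mem_E1 {x : LaurentSeries k} :
    x ∈ E1 k N ℓ ↔ x ∈ modularFunctionFieldFullC k (N * ℓ) := Iff.rfl

theorem tw_K0 (ζ : k) {x : LaurentSeries k} (hx : x ∈ K0 k N ℓ) : H340.tw ℓ ζ x = x := by
  obtain ⟨y, -, rfl⟩ := hx
  exact H340.tw_qExpand ζ y

/-- the twist `q ↦ ζ q` as a `V(F_N)`-embedding of `F_{Nℓ}` -/
def twE (ζ : k) (hζ : ζ ^ ℓ = 1) : E1 k N ℓ →ₐ[K0 k N ℓ] LaurentSeries k :=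
  { (H340.twHom ℓ ζ hζ).comp (algebraMap (E1 k N ℓ) (LaurentSeries k)) with
    commutes' := fun c => tw_K0 k N ℓ ζ c.2 }

@[simp]
theorem twE_apply (ζ : k) (hζ : ζ ^ ℓ = 1) (x : E1 k N ℓ) :
    twE k N ℓ ζ hζ x = H340.tw ℓ ζ (x : LaurentSeries k) := rfl

variable {k N ℓ}

theorem finrank_E1 (hN : N ≠ 0) (hℓ : ℓ.Prime) (hℓN : ¬ ℓ ∣ N)
    (hchar : ∀ r : ℕ, r.Prime → r ∣ N * ℓ → (r : k) ≠ 0) :
    Module.finrank (K0 k N ℓ) (E1 k N ℓ) = ℓ + 1 := by
  rw [← relfinrank_eq_finrank_of_le]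
  exact relfinrank_K0 k N ℓ hN hℓ hℓN hchar

theorem finiteDimensional_E1 (hN : N ≠ 0) (hℓ : ℓ.Prime) (hℓN : ¬ ℓ ∣ N)
    (hchar : ∀ r : ℕ, r.Prime → r ∣ N * ℓ → (r : k) ≠ 0) :
    FiniteDimensional (K0 k N ℓ) (E1 k N ℓ) :=
  FiniteDimensional.of_finrank_pos (by rw [finrank_E1 hN hℓ hℓN hchar]; omega)

theorem isIntegral_K0 (hN : N ≠ 0) (hℓ : ℓ.Prime) (hℓN : ¬ ℓ ∣ N)
    (hchar : ∀ r : ℕ, r.Prime → r ∣ N * ℓ → (r : k) ≠ 0)
    {g : LaurentSeries k} (hg : g ∈ modularFunctionFieldFullC k (N * ℓ)) :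
    IsIntegral (K0 k N ℓ) g := by
  have := finiteDimensional_E1 hN hℓ hℓN hchar
  have h : IsIntegral (K0 k N ℓ) (⟨g, hg⟩ : E1 k N ℓ) := IsIntegral.of_finite _ _
  exact h.map (E1 k N ℓ).val

/-- an element of `F_{Nℓ}` whose `ℓ` twists are pairwise distinct generates `F_{Nℓ}` over
`V(F_N)` -/
theorem adjoin_eq_E1 (hN : N ≠ 0) (hℓ : ℓ.Prime) (hℓN : ¬ ℓ ∣ N)
    (hchar : ∀ r : ℕ, r.Prime → r ∣ N * ℓ → (r : k) ≠ 0) {ζ : k} (hζ : IsPrimitiveRoot ζ ℓ)
    {g : LaurentSeries k} (hg : g ∈ modularFunctionFieldFullC k (N * ℓ))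
    (hinj : Function.Injective (fun b : Fin ℓ => H340.tw ℓ (ζ ^ (b : ℕ)) g)) :
    adjoin (K0 k N ℓ) {g} = E1 k N ℓ := by
  classical
  have := finiteDimensional_E1 hN hℓ hℓN hchar
  have hle : adjoin (K0 k N ℓ) {g} ≤ E1 k N ℓ := by
    rw [adjoin_le_iff]
    rintro x hx
    rw [Set.mem_singleton_iff] at hx
    subst hx
    exact hg
  have hint := isIntegral_K0 hN hℓ hℓN hchar hg
  have hroot : ∀ b : Fin ℓ, aeval (H340.tw ℓ (ζ ^ (b : ℕ)) g) (minpoly (K0 k N ℓ) g) = 0 := by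
    intro b
    have h1 : aeval (⟨g, hg⟩ : E1 k N ℓ) (minpoly (K0 k N ℓ) g) = 0 := by
      apply (algebraMap (E1 k N ℓ) (LaurentSeries k)).injective
      rw [_root_.map_zero, ← aeval_algebraMap_apply]
      exact minpoly.aeval _ _
    have h2 := congrArg (twE k N ℓ (ζ ^ (b : ℕ)) (H340.pow_pow_eq_one hζ.pow_eq_one b)) h1
    rw [← aeval_algHom_apply, _root_.map_zero] at h2
    exact h2
  have hm0 : (minpoly (K0 k N ℓ) g).map (algebraMap (K0 k N ℓ) (LaurentSeries k)) ≠ 0 :=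
    (Polynomial.map_ne_zero_iff (algebraMap (K0 k N ℓ) (LaurentSeries k)).injective).mpr
      (minpoly.ne_zero hint)
  have hdeg : ℓ ≤ (minpoly (K0 k N ℓ) g).natDegree := by
    have hsub : (Finset.univ.image (fun b : Fin ℓ => H340.tw ℓ (ζ ^ (b : ℕ)) g)).val ⊆
        ((minpoly (K0 k N ℓ) g).map (algebraMap (K0 k N ℓ) (LaurentSeries k))).roots := by
      intro z hz
      rw [Finset.mem_val, Finset.mem_image] at hz
      obtain ⟨b, -, rfl⟩ := hz
      rw [Polynomial.mem_roots hm0, Polynomial.IsRoot, Polynomial.eval_map_algebraMap]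
      exact hroot b
    have h := Polynomial.card_le_degree_of_subset_roots hsub
    rw [Finset.card_image_of_injective _ hinj, Finset.card_univ, Fintype.card_fin,
      Polynomial.natDegree_map] at h
    exact h
  have hfin : Module.finrank (K0 k N ℓ) (adjoin (K0 k N ℓ) {g}) =
      (minpoly (K0 k N ℓ) g).natDegree := adjoin.finrank hint
  have hdvd := IntermediateField.finrank_dvd_of_le_right hle
  rw [hfin, finrank_E1 hN hℓ hℓN hchar] at hdvd
  have hd1 : (minpoly (K0 k N ℓ) g).natDegree = ℓ + 1 := by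
    have hle' := Nat.le_of_dvd (Nat.succ_pos ℓ) hdvd
    rcases Nat.lt_or_ge (minpoly (K0 k N ℓ) g).natDegree (ℓ + 1) with h | h
    · exfalso
      have heq : (minpoly (K0 k N ℓ) g).natDegree = ℓ := by omega
      rw [heq] at hdvd
      have h1 : ℓ ∣ 1 := (Nat.dvd_add_right (dvd_refl ℓ)).mp hdvd
      exact hℓ.one_lt.ne' (Nat.dvd_one.mp h1)
    · omega
  exact IntermediateField.eq_of_le_of_finrank_eq hle
    (by rw [hfin, hd1, finrank_E1 hN hℓ hℓN hchar])

end Fields

section Roots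

variable (k : Type*) [Field k] (ℓ : ℕ) [NeZero ℓ]

theorem qExpand_congr' {a b : ℕ} [NeZero a] [NeZero b] (h : a = b) (f : LaurentSeries k) :
    qExpand k a f = qExpand k b f := by
  subst h
  rfl

theorem qExpand_comm' (a b : ℕ) [NeZero a] [NeZero b] (f : LaurentSeries k) :
    qExpand k a (qExpand k b f) = qExpand k b (qExpand k a f) := by
  rw [qExpand_qExpand, qExpand_qExpand]
  exact qExpand_congr' k (mul_comm a b) f

/-- `Φ(j_d, j_{dℓ}) = 0` -/
theorem modPoly_eval_gd (Φ : ModPolyData ℓ) (d : ℕ) [NeZero d] :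
    Φ.Φ.eval₂ (evalAt (qExpand k ℓ (gd k d))) (gd k d) = 0 := by
  have h := congrArg (qExpand k d) (h88_modPoly_eval_j k ℓ Φ)
  rw [Polynomial.hom_eval₂, _root_.map_zero, h88_comp_evalAt, qExpand_comm'] at h
  exact h

/-- `Φ(j_{dℓ²}, j_{dℓ}) = 0` -/
theorem modPoly_eval_VVgd (Φ : ModPolyData ℓ) (d : ℕ) [NeZero d] :
    Φ.Φ.eval₂ (evalAt (qExpand k ℓ (gd k d))) (qExpand k ℓ (qExpand k ℓ (gd k d))) = 0 := by
  have h := congrArg (qExpand k d) (h88_modPoly_eval_jpp k ℓ Φ)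
  rw [Polynomial.hom_eval₂, _root_.map_zero, h88_comp_evalAt, qExpand_comm' k d ℓ,
    qExpand_comm' k d ℓ, qExpand_comm' k d ℓ] at h
  exact h

/-- `Φ(j_d(ζ q), j_{dℓ}) = 0` -/
theorem modPoly_eval_tw_gd (Φ : ModPolyData ℓ) (d : ℕ) [NeZero d] (ζ : k) (hζ : ζ ^ ℓ = 1) :
    Φ.Φ.eval₂ (evalAt (qExpand k ℓ (gd k d))) (H340.tw ℓ ζ (gd k d)) = 0 := by
  have h := congrArg (H340.twHom ℓ ζ hζ) (modPoly_eval_gd k ℓ Φ d)
  rw [Polynomial.hom_eval₂, _root_.map_zero, h88_comp_evalAt, H340.twHom_apply, H340.twHom_apply,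
    H340.tw_qExpand] at h
  exact h

variable {k ℓ}

/-- the roots of `Φ(X, j_{dℓ})` in `k((q))` are `j_{dℓ²}` and the `ℓ` twists of `j_d` -/
theorem modPoly_root_cases (Φ : ModPolyData ℓ) {ζ : k} (hζ : IsPrimitiveRoot ζ ℓ)
    (hℓ : ℓ.Prime) {d : ℕ} [NeZero d] (hd : ¬ ℓ ∣ d) {r : LaurentSeries k}
    (hr : Φ.Φ.eval₂ (evalAt (qExpand k ℓ (gd k d))) r = 0) :
    r = qExpand k ℓ (qExpand k ℓ (gd k d)) ∨ ∃ b : Fin ℓ, r = H340.tw ℓ (ζ ^ (b : ℕ)) (gd k d) := by
  classical
  set P : (LaurentSeries k)[X] := Φ.Φ.map (evalAt (qExpand k ℓ (gd k d))) with hP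
  have hPm : P.Monic := Φ.monic.map _
  have hPd : P.natDegree = ℓ + 1 := by rw [hP, Φ.monic.natDegree_map, Φ.natDegree_eq]
  have hev : ∀ x : LaurentSeries k, P.IsRoot x ↔
      Φ.Φ.eval₂ (evalAt (qExpand k ℓ (gd k d))) x = 0 := by
    intro x
    rw [Polynomial.IsRoot, hP, Polynomial.eval_map]
  set T : Finset (LaurentSeries k) :=
    Finset.univ.image (fun b : Fin ℓ => H340.tw ℓ (ζ ^ (b : ℕ)) (gd k d)) with hT
  set S : Finset (LaurentSeries k) := insert (qExpand k ℓ (qExpand k ℓ (gd k d))) T with hS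
  have hnot : qExpand k ℓ (qExpand k ℓ (gd k d)) ∉ T := by
    rw [hT, Finset.mem_image]
    rintro ⟨b, -, hb⟩
    exact qExpand_qExpand_gd_ne_tw hζ hℓ hd b hb.symm
  have hcard : S.card = ℓ + 1 := by
    rw [hS, Finset.card_insert_of_notMem hnot, hT,
      Finset.card_image_of_injective _ (tw_gd_injective hζ hℓ hd), Finset.card_univ,
      Fintype.card_fin]
  have hsub : S.val ⊆ P.roots := by
    intro z hz
    rw [Finset.mem_val, hS, Finset.mem_insert] at hz
    rw [Polynomial.mem_roots hPm.ne_zero, hev]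
    rcases hz with rfl | hz
    · exact modPoly_eval_VVgd k ℓ Φ d
    · rw [hT, Finset.mem_image] at hz
      obtain ⟨b, -, rfl⟩ := hz
      exact modPoly_eval_tw_gd k ℓ Φ d _ (H340.pow_pow_eq_one hζ.pow_eq_one b)
  have hle : S.val ≤ P.roots := (Multiset.le_iff_subset S.nodup).mpr hsub
  have hcard2 : Multiset.card P.roots ≤ Multiset.card S.val := by
    rw [Finset.card_val, hcard, ← hPd]
    exact Polynomial.card_roots' P
  have heq : S.val = P.roots := Multiset.eq_of_le_of_card_le hle hcard2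
  have hrmem : r ∈ S.val := by
    rw [heq, Polynomial.mem_roots hPm.ne_zero, hev]
    exact hr
  rw [Finset.mem_val, hS, Finset.mem_insert] at hrmem
  rcases hrmem with h | h
  · exact Or.inl h
  · rw [hT, Finset.mem_image] at h
    obtain ⟨b, -, hb⟩ := h
    exact Or.inr ⟨b, hb.symm⟩

end Roots

section TauInf

variable {k : Type*} [Field k] {N ℓ : ℕ} [NeZero ℓ]

theorem Vgd_mem_K0 {d : ℕ} [NeZero d] (hd : d ∣ N) : qExpand k ℓ (gd k d) ∈ K0 k N ℓ :=
  ⟨gd k d, jd_mem_fullC k hd, rfl⟩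

theorem gd_mem_K1 {d : ℕ} [NeZero d] (hd : d ∣ N) :
    gd k d ∈ modularFunctionFieldFullC k (N * ℓ) :=
  jd_mem_fullC k (hd.trans (dvd_mul_right N ℓ))

theorem not_dvd_of_dvd {d : ℕ} (hℓN : ¬ ℓ ∣ N) (hd : d ∣ N) : ¬ ℓ ∣ d :=
  fun h => hℓN (h.trans hd)

/-- two `V(F_N)`-embeddings of `F_{Nℓ}` which agree on a generator are equal -/
theorem algHom_ext_of_adjoin_eq {g : LaurentSeries k}
    (h : adjoin (K0 k N ℓ) {g} = E1 k N ℓ) (hint : IsIntegral (K0 k N ℓ) g)
    (hg : g ∈ modularFunctionFieldFullC k (N * ℓ))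
    (f₁ f₂ : E1 k N ℓ →ₐ[K0 k N ℓ] LaurentSeries k)
    (heq : f₁ ⟨g, hg⟩ = f₂ ⟨g, hg⟩) : f₁ = f₂ := by
  let e : adjoin (K0 k N ℓ) {g} ≃ₐ[K0 k N ℓ] E1 k N ℓ := IntermediateField.equivOfEq h
  have hgen : e (adjoin.powerBasis hint).gen = ⟨g, hg⟩ := Subtype.ext rfl
  have h1 : f₁.comp e.toAlgHom = f₂.comp e.toAlgHom := by
    apply (adjoin.powerBasis hint).algHom_ext
    show f₁ (e (adjoin.powerBasis hint).gen) = f₂ (e (adjoin.powerBasis hint).gen)
    rw [hgen, heq]
  apply AlgHom.ext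
  intro x
  have h2 := congrArg
    (fun f : adjoin (K0 k N ℓ) {g} →ₐ[K0 k N ℓ] LaurentSeries k => f (e.symm x)) h1
  simpa using h2

variable (hN : N ≠ 0) (hℓ : ℓ.Prime) (hℓN : ¬ ℓ ∣ N)
  (hchar : ∀ r : ℕ, r.Prime → r ∣ N * ℓ → (r : k) ≠ 0) {ζ : k} (hζ : IsPrimitiveRoot ζ ℓ)

include hN hℓ hℓN hchar hζ

theorem adjoin_gd_eq_E1 {d : ℕ} [NeZero d] (hd : d ∣ N) :
    adjoin (K0 k N ℓ) {gd k d} = E1 k N ℓ :=
  adjoin_eq_E1 hN hℓ hℓN hchar hζ (gd_mem_K1 hd)
    (tw_gd_injective hζ hℓ (not_dvd_of_dvd hℓN hd))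

/-- the minimal polynomial of `j(q^d)` over `V(F_N)` is `Φ_ℓ(X, j(q^{dℓ}))` -/
theorem minpoly_gd (Φ : ModPolyData ℓ) {d : ℕ} [NeZero d] (hd : d ∣ N) :
    minpoly (K0 k N ℓ) (gd k d) = Φ.Φ.map (h88_evalSub k (K0 k N ℓ) (Vgd_mem_K0 hd)) := by
  have hint := isIntegral_K0 hN hℓ hℓN hchar (gd_mem_K1 (ℓ := ℓ) (k := k) hd)
  have hdvd : minpoly (K0 k N ℓ) (gd k d) ∣
      Φ.Φ.map (h88_evalSub k (K0 k N ℓ) (Vgd_mem_K0 hd)) := by
    apply minpoly.dvd
    rw [h88_aeval_map_evalSub]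
    exact modPoly_eval_gd k ℓ Φ d
  have hfin : Module.finrank (K0 k N ℓ) (adjoin (K0 k N ℓ) {gd k d}) =
      (minpoly (K0 k N ℓ) (gd k d)).natDegree := adjoin.finrank hint
  rw [adjoin_gd_eq_E1 hN hℓ hℓN hchar hζ hd, finrank_E1 hN hℓ hℓN hchar] at hfin
  refine (Polynomial.eq_of_monic_of_dvd_of_natDegree_le (minpoly.monic hint) (Φ.monic.map _)
    hdvd ?_).symm
  rw [Φ.monic.natDegree_map, Φ.natDegree_eq, ← hfin]

/-- **The last embedding.** There is a `V(F_N)`-embedding `τ` of `F_{Nℓ}` into `k((q))` with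
`τ(j(q^d)) = j(q^{dℓ²})` for all `d ∣ N`. -/
theorem exists_tauInf :
    ∃ τ : E1 k N ℓ →ₐ[K0 k N ℓ] LaurentSeries k,
      ∀ (d : ℕ) [NeZero d] (hd : d ∣ N),
        τ ⟨gd k d, gd_mem_K1 hd⟩ = qExpand k ℓ (qExpand k ℓ (gd k d)) := by
  obtain ⟨Φ⟩ := H807.nonempty_modPolyData ℓ hℓ
  have h1N : (1 : ℕ) ∣ N := one_dvd N
  have hint1 := isIntegral_K0 hN hℓ hℓN hchar (gd_mem_K1 (ℓ := ℓ) (k := k) h1N)
  have hadj1 := adjoin_gd_eq_E1 hN hℓ hℓN hchar hζ h1N
  have hroot : aeval (qExpand k ℓ (qExpand k ℓ (gd k 1)))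
      (minpoly (K0 k N ℓ) (adjoin.powerBasis hint1).gen) = 0 := by
    rw [adjoin.powerBasis_gen, minpoly_gen, minpoly_gd hN hℓ hℓN hchar hζ Φ h1N,
      h88_aeval_map_evalSub]
    exact modPoly_eval_VVgd k ℓ Φ 1
  let e : E1 k N ℓ ≃ₐ[K0 k N ℓ] adjoin (K0 k N ℓ) {gd k 1} :=
    IntermediateField.equivOfEq hadj1.symm
  let τ : E1 k N ℓ →ₐ[K0 k N ℓ] LaurentSeries k :=
    ((adjoin.powerBasis hint1).lift _ hroot).comp e.toAlgHom
  have hτ1 : τ ⟨gd k 1, gd_mem_K1 h1N⟩ = qExpand k ℓ (qExpand k ℓ (gd k 1)) := by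
    have he : e ⟨gd k 1, gd_mem_K1 h1N⟩ = (adjoin.powerBasis hint1).gen := Subtype.ext rfl
    show (adjoin.powerBasis hint1).lift _ hroot (e ⟨gd k 1, gd_mem_K1 h1N⟩) = _
    rw [he, PowerBasis.lift_gen]
  refine ⟨τ, fun d _ hd => ?_⟩
  have hℓd := not_dvd_of_dvd hℓN hd
  have hintd := isIntegral_K0 hN hℓ hℓN hchar (gd_mem_K1 (ℓ := ℓ) (k := k) hd)
  -- `τ(g_d)` is a root of `Φ(X, V g_d)`
  have h0 : aeval (⟨gd k d, gd_mem_K1 hd⟩ : E1 k N ℓ)
      (Φ.Φ.map (h88_evalSub k (K0 k N ℓ) (Vgd_mem_K0 hd))) = 0 := by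
    apply (algebraMap (E1 k N ℓ) (LaurentSeries k)).injective
    rw [_root_.map_zero, ← aeval_algebraMap_apply]
    show aeval (gd k d) _ = 0
    rw [h88_aeval_map_evalSub]
    exact modPoly_eval_gd k ℓ Φ d
  have h2 := congrArg τ h0
  rw [← aeval_algHom_apply, _root_.map_zero, h88_aeval_map_evalSub] at h2
  rcases modPoly_root_cases Φ hζ hℓ hℓd h2 with h | ⟨b, hb⟩
  · exact h
  · exfalso
    have hext : τ = twE k N ℓ (ζ ^ (b : ℕ)) (H340.pow_pow_eq_one hζ.pow_eq_one b) :=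
      algHom_ext_of_adjoin_eq (adjoin_gd_eq_E1 hN hℓ hℓN hchar hζ hd) hintd (gd_mem_K1 hd) _ _
        (by rw [hb, twE_apply])
    have h3 := congrArg (fun f : E1 k N ℓ →ₐ[K0 k N ℓ] LaurentSeries k =>
      f ⟨gd k 1, gd_mem_K1 h1N⟩) hext
    simp only [twE_apply] at h3
    rw [hτ1] at h3
    exact qExpand_qExpand_gd_ne_tw hζ hℓ (not_dvd_of_dvd hℓN h1N) b h3

end TauInf

end Fermat.Agent.S37.H88

end
end
-- ===== PACK-END S37/H88/ALEmbed.lean

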