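import Fermat.Prelude.Def_FLTPrelim_Ramification
import Fermat.Agent.Pack.S33.E18L1
import Fermat.Agent.Pack.S33.E16L1
import Fermat.Agent.Pack.S33.E18L3
import Fermat.Agent.Pack.S33.E5L3
import Fermat.Agent.Pack.S33.E18L0
import Fermat.Agent.Pack.S33.E12L0
import Fermat.Agent.Pack.S33.E14L1
import Fermat.Agent.Pack.S33.E18L2
import Fermat.Agent.Pack.S33.E13L0
import Fermat.Agent.Pack.S33.E14L2
import Fermat.Agent.Pack.S33.E13L2
import Fermat.Agent.Pack.S33.E3L3
import Fermat.Agent.Pack.S33.E3L1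

-- ===== PACK-BEGIN S29/H282/BridgeK.lean
section


/-!
# S29 / M4b-K2 (helper282) — the bridge `R_N(K) → Hol` for an arbitrary coefficient field `K ⊆ ℂ`

Port of the second half of `Fermat/Agent/S24/Mod/H997Bridge.lean` from `(ℚ̄, ιK)` to an arbitrary
field `K` with a ring hom `ι : K →+* ℂ`.
-/

set_option autoImplicit false

noncomputable section

open ModularCurve HahnSeries UpperHalfPlane
open scoped MatrixGroups

namespace Fermat.Agent.S29.H282

open Fermat.Agent.S24 Fermat.Agent.S24.H997 Fermat.Agent.S24.Deg457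

variable {K : Type*} [Field K] [Algebra ℚ K] (ι : K →+* ℂ)
variable {N : ℕ} [NeZero N] (B : HolBase N)

theorem ι_algebraMap (c : ℚ) : ι (algebraMap ℚ K c) = (c : ℂ) := by
  have h : ι.comp (algebraMap ℚ K) = algebraMap ℚ ℂ := Subsingleton.elim _ _
  have := congrArg (fun f : ℚ →+* ℂ => f c) h
  simpa using this

/-- The formal comparison map `K((q)) → ℂ((z))`, `q ↦ z^N`, coefficients via `ι`. -/
def ΦK (N : ℕ) [NeZero N] : LaurentSeries K →+* LaurentSeries ℂ :=
  (qExpand ℂ N).comp (coeffMap ι)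

theorem ΦK_injective : Function.Injective (ΦK ι N) := by
  intro x y h
  have h1 : coeffMap ι x = coeffMap ι y := qExpand_injective N h
  ext k
  apply ι.injective
  have := congrArg (fun s => s.coeff k) h1
  simpa using this

theorem ΦK_coeff (x : LaurentSeries K) (k : ℤ) :
    (ΦK ι N x).coeff k = if (N : ℤ) ∣ k then ι (x.coeff (k / N)) else 0 := by
  split_ifs with h
  · obtain ⟨m, rfl⟩ := h
    have hN : (N : ℤ) ≠ 0 := by exact_mod_cast NeZero.ne N
    rw [Int.mul_ediv_cancel_left _ hN]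
    show (qExpand ℂ N (coeffMap ι x)).coeff (N * m) = _
    rw [qExpand_coeff_mul]; rfl
  · exact qExpand_coeff_of_not_dvd N _ h

theorem ΦK_algebraMap (c : K) :
    ΦK ι N (algebraMap K (LaurentSeries K) c) = HahnSeries.C (ι c) := by
  rw [algebraMap_laurentSeries_eq_single]
  show qExpand ℂ N (coeffMap ι (HahnSeries.single 0 c)) = _
  rw [coeffMap_single, qExpand_single, mul_zero]; rfl

theorem ΦK_gen (d : ℕ) [NeZero d] (hd : d ∣ N) :
    ΦK ι N (coeffEmb K (qExpand ℚ d jq)) = B.qexp (B.JH d hd) := by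
  ext k
  rw [ΦK_coeff]
  show _ = (B.qexp ⟨B.J d, B.J_mem d hd⟩).coeff k
  rw [B.qexp_J d hd k]
  have hN : (N : ℤ) ≠ 0 := by exact_mod_cast NeZero.ne N
  have hd0 : (d : ℤ) ≠ 0 := by exact_mod_cast NeZero.ne d
  by_cases h1 : (N : ℤ) ∣ k
  · obtain ⟨m, rfl⟩ := h1
    rw [if_pos (dvd_mul_right _ _), Int.mul_ediv_cancel_left _ hN, coeffEmb_coeff, ι_algebraMap]
    by_cases h2 : (d : ℤ) ∣ m
    · obtain ⟨l, rfl⟩ := h2
      have h3 : ((N * d : ℕ) : ℤ) ∣ (N : ℤ) * (d * l) := ⟨l, by push_cast; ring⟩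
      rw [if_pos h3, qExpand_coeff_mul]
      have : (N : ℤ) * (d * l) / ((N * d : ℕ) : ℤ) = l := by
        have h4 : (N : ℤ) * (d * l) = ((N * d : ℕ) : ℤ) * l := by push_cast; ring
        rw [h4, Int.mul_ediv_cancel_left]
        exact_mod_cast (Nat.mul_ne_zero (NeZero.ne N) (NeZero.ne d))
      rw [this]
    · have h3 : ¬ ((N * d : ℕ) : ℤ) ∣ (N : ℤ) * m := by
        rintro ⟨l, hl⟩
        apply h2
        refine ⟨l, ?_⟩
        have : (N : ℤ) * m = N * (d * l) := by rw [hl]; push_cast; ring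
        exact mul_left_cancel₀ hN this
      rw [if_neg h3, qExpand_coeff_of_not_dvd d _ h2]
      simp
  · have h3 : ¬ ((N * d : ℕ) : ℤ) ∣ k := by
      intro h; apply h1
      exact dvd_trans ⟨(d : ℤ), by push_cast; ring⟩ h
    rw [if_neg h1, if_neg h3]

theorem ΦK_mem_range {r : LaurentSeries K} (hr : r ∈ RNK K N) : ΦK ι N r ∈ B.qexp.range := by
  induction hr using Algebra.adjoin_induction with
  | mem x hx =>
      obtain ⟨y, ⟨d, hne, hd, rfl⟩, rfl⟩ := hx
      exact ⟨B.JH d hd, (ΦK_gen ι B d hd).symm⟩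
  | algebraMap c =>
      exact ⟨B.constH (ι c), by rw [ΦK_algebraMap]; exact B.qexp_const _⟩
  | add _ _ _ _ hx hy => rw [_root_.map_add]; exact add_mem hx hy
  | mul _ _ _ _ hx hy => rw [_root_.map_mul]; exact mul_mem hx hy

/-- The bridge `e : R_N(K) →+* Hol`. -/
def bridgeK : RNK K N →+* B.Hol :=
  (B.qexpEquiv.symm : B.qexp.range →+* B.Hol).comp
    (((ΦK ι N).comp (RNK K N).val.toRingHom).codRestrict B.qexp.range
      fun r => ΦK_mem_range ι B r.2)

theorem qexp_bridgeK (r : RNK K N) :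
    B.qexp (bridgeK ι B r) = ΦK ι N (r : LaurentSeries K) := by
  have h := B.qexpEquiv.apply_symm_apply
    ((((ΦK ι N).comp (RNK K N).val.toRingHom).codRestrict B.qexp.range
      fun r => ΦK_mem_range ι B r.2) r)
  exact congrArg Subtype.val h

theorem bridgeK_injective : Function.Injective (bridgeK ι B) := by
  intro r r' h
  apply Subtype.ext
  apply ΦK_injective ι (N := N)
  rw [← qexp_bridgeK, ← qexp_bridgeK, h]

theorem bridgeK_algebraMap (c : K) :
    bridgeK ι B (algebraMap K (RNK K N) c) = B.constH (ι c) := by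
  apply B.qexp_injective
  rw [qexp_bridgeK]
  show ΦK ι N (algebraMap K (LaurentSeries K) c) = _
  rw [ΦK_algebraMap]
  exact (B.qexp_const _).symm

theorem bridgeK_jRK (d : ℕ) [NeZero d] (hd : d ∣ N) :
    bridgeK ι B (jRK K N d hd) = B.JH d hd := by
  apply B.qexp_injective
  rw [qexp_bridgeK]
  exact ΦK_gen ι B d hd

/-- Every `e r` is `Γ₀(N)`-invariant. -/
theorem compH_bridgeK_of_mem {g : SL(2, ℤ)} (hg : g ∈ CongruenceSubgroup.Gamma0 N)
    (r : RNK K N) : B.compH g (bridgeK ι B r) = bridgeK ι B r := by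
  obtain ⟨r, hr⟩ := r
  induction hr using Algebra.adjoin_induction with
  | mem x hx =>
      obtain ⟨y, ⟨d, hne, hd, rfl⟩, rfl⟩ := hx
      have : (⟨coeffEmb K (qExpand ℚ d jq), Algebra.subset_adjoin
          ⟨_, ⟨d, hne, hd, rfl⟩, rfl⟩⟩ : RNK K N) = jRK K N d hd := rfl
      rw [this, bridgeK_jRK]
      exact B.compH_JH_of_mem d hd hg
  | algebraMap c =>
      have : (⟨algebraMap K (LaurentSeries K) c, Subalgebra.algebraMap_mem _ c⟩ : RNK K N)
          = algebraMap K (RNK K N) c := rfl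
      rw [this, bridgeK_algebraMap]
      rfl
  | add x y hx hy ihx ihy =>
      have : (⟨x + y, add_mem hx hy⟩ : RNK K N) = ⟨x, hx⟩ + ⟨y, hy⟩ := rfl
      rw [this, _root_.map_add, _root_.map_add, ihx, ihy]
  | mul x y hx hy ihx ihy =>
      have : (⟨x * y, mul_mem hx hy⟩ : RNK K N) = ⟨x, hx⟩ * ⟨y, hy⟩ := rfl
      rw [this, _root_.map_mul, _root_.map_mul, ihx, ihy]

end Fermat.Agent.S29.H282

end
end
-- ===== PACK-END S29/H282/BridgeK.lean

-- ===== PACK-BEGIN S18/H804/ValPlaceModular.lean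
section



/-!
# S18 / GLUE input for the modular function field `F_M = ℚ̄(j(q^d) : d ∣ M)`  (helper804)

* `exists_place_of_valuationSubring_modular` : every proper valuation subring of `F_M` containing
  `ℚ̄` is the valuation ring of a `Place`.
* `exists_mul_pow_unit_modular` : Place-divisibility of the divisor of `u` by `m` gives the
  valuation-subring form used in `Alg.AlgMainStatement`.
-/

set_option autoImplicit false

namespace Fermat.Agent.S18.H804

open AlgebraicCurve ModularCurve Fermat.Agent.S24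

variable (M : ℕ) [NeZero M]

theorem exists_place_of_valuationSubring_modular
    (O : ValuationSubring ↥(modularFunctionFieldBar M))
    (hK : ∀ a : AlgebraicClosure ℚ,
      algebraMap (AlgebraicClosure ℚ) ↥(modularFunctionFieldBar M) a ∈ O) (hO : O ≠ ⊤) :
    ∃ v : Place (AlgebraicClosure ℚ) ↥(modularFunctionFieldBar M), v.toValuationSubring = O :=
  haveI := Fermat.Agent.Lib.RR.H804.finiteDimensional_jF M
  exists_place_of_valuationSubring (Fermat.Agent.Lib.RR.H804.transcendental_jF M) O hK hO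

theorem exists_mul_pow_unit_modular (m : ℕ) (u : ↥(modularFunctionFieldBar M)) (hu : u ≠ 0)
    (hdiv : ∀ v : Place (AlgebraicClosure ℚ) ↥(modularFunctionFieldBar M), (m : ℤ) ∣ v.ord u)
    (O : ValuationSubring ↥(modularFunctionFieldBar M))
    (hK : ∀ a : AlgebraicClosure ℚ,
      algebraMap (AlgebraicClosure ℚ) ↥(modularFunctionFieldBar M) a ∈ O) :
    ∃ t : ↥(modularFunctionFieldBar M), t ≠ 0 ∧ u * t ^ m ∈ O ∧ (u * t ^ m)⁻¹ ∈ O :=
  haveI := Fermat.Agent.Lib.RR.H804.finiteDimensional_jF M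
  exists_mul_pow_unit (Fermat.Agent.Lib.RR.H804.transcendental_jF M) m u hu hdiv O hK

end Fermat.Agent.S18.H804

end
-- ===== PACK-END S18/H804/ValPlaceModular.lean

-- ===== PACK-BEGIN S18/H107/M3T.lean
section






/-!
# helper107 — S18 / node_mod, piece M3-T at the CONCRETE objects of `Mod/Defs.lean`

`goodModel_of_isCoordinate107` : for `ℓ ∈ {2, 3}` (`¬ 5 ≤ ℓ`), every admissible coordinate `x`
(`Mod.IsCoordinate M ℓ x S`), every intermediate field `E` and every `V`, `w`:

    BaseModel107 (Lc M) (Ec M E) (Fc M E) (Rc M A E) V w (jOm M)      -- the j-model minus S-fields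
    + x ∈ Fc M E + x ∈ V + gauss for x
    ⟹  Alg.GoodModel (Lc M) (Ec M E) (Fc M E) (Rc M A E) V w x S.

The branch data (`branchJ_concrete107`) and the units `2⁻¹` resp. `3⁻¹ ∈ Rc M A E` are proved here.
-/

set_option autoImplicit false

noncomputable section

namespace Fermat.Agent.S18.H107

open AlgebraicCurve ModularCurve IntermediateField HahnSeries
open Fermat.Agent.S18 Fermat.Agent.S18.Mod Fermat.Agent.S18.Alg

/-- If `A` lies over `ℓ` and `n ≡ 1 mod ℓ`-like: `n = ℓ * k + 1` then `n` is a unit of `A`.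
We only need: `ℓ ∈ 𝔪_A`, `n - 1 ∈ ℓ ℤ` ⟹ `n⁻¹ ∈ A`. -/
theorem inv_natCast_mem_of_liesOver107 {L : Type*} [Field L] (A : ValuationSubring L) {ℓ : ℕ}
    (hA : A.LiesOverPrime ℓ) (n k : ℕ) (hn : n = ℓ * k + 1) : ((n : L))⁻¹ ∈ A := by
  have hℓ : A.valuation (ℓ : L) < 1 := by
    have h : (ℓ : L) ∈ A.nonunits := hA
    exact (A.mem_nonunits_iff).1 h
  have hk : A.valuation ((ℓ : L) * (k : L)) < 1 := by
    rw [_root_.map_mul]
    calc A.valuation (ℓ : L) * A.valuation (k : L) ≤ A.valuation (ℓ : L) * 1 := by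
          gcongr
          exact (A.valuation_le_one_iff _).2 (_root_.natCast_mem A k)
      _ = A.valuation (ℓ : L) := mul_one _
      _ < 1 := hℓ
  have hval : A.valuation (n : L) = 1 := by
    have e : (n : L) = 1 + (ℓ : L) * (k : L) := by
      rw [hn]
      push_cast
      ring
    rw [e, ← _root_.map_one A.valuation]
    exact Valuation.map_add_eq_of_lt_left _ (by rw [_root_.map_one]; exact hk)
  refine (A.valuation_le_one_iff _).1 ?_
  rw [map_inv₀, hval, inv_one]

variable (M : ℕ)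

theorem inv_natCast_mem_Rc107 (A : ValuationSubring Qb) (E : IntermediateField ℚ Qb) {ℓ : ℕ}
    (hA : A.LiesOverPrime ℓ) (n k : ℕ) (hn : n = ℓ * k + 1) :
    ((n : Om M))⁻¹ ∈ Rc M A E := by
  refine ⟨((n : Qb))⁻¹, ⟨inv_natCast_mem_of_liesOver107 A hA n k hn, ?_⟩, ?_⟩
  · exact E.toSubfield.inv_mem (_root_.natCast_mem E.toSubfield n)
  · rw [map_inv₀, map_natCast]

variable [NeZero M]

/-- **M3-T, concrete form.** -/
theorem goodModel_of_isCoordinate107 {ℓ : ℕ} (A : ValuationSubring Qb) (hA : A.LiesOverPrime ℓ)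
    (h5 : ¬ 5 ≤ ℓ) {x : Om M} {S : Finset (Om M)} (hx : IsCoordinate M ℓ x S)
    (E : IntermediateField ℚ Qb) {V : Subring (Om M)} {w : Om M}
    (hb : BaseModel107 (Lc M) (Ec M E) (Fc M E) (Rc M A E) V w (jOm M))
    (hxF : x ∈ Fc M E) (hxV : x ∈ V)
    (hgauss : ∀ P : Polynomial (Om M), (∀ i, P.coeff i ∈ Rc M A E) →
      (∃ i, P.coeff i ≠ 0 ∧ (P.coeff i)⁻¹ ∈ Rc M A E) → (P.eval x)⁻¹ ∈ V) :
    GoodModel (Lc M) (Ec M E) (Fc M E) (Rc M A E) V w x S := by
  rcases hx with ⟨h, -⟩ | ⟨h | h, -⟩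
  · exact absurd h h5
  · obtain ⟨hℓ, hrel, hS⟩ := h
    subst hℓ
    have h2 : (2 : Om M)⁻¹ ∈ Rc M A E := by
      have h4 := inv_natCast_mem_Rc107 M A E hA 4 1 (by norm_num)
      have e : (2 : Om M)⁻¹ = 2 * ((4 : ℕ) : Om M)⁻¹ := by
        push_cast
        norm_num
      rw [e]
      exact (Rc M A E).mul_mem (ofNat_mem _ 2) h4
    exact goodModel_t2_107 hb (branchJ_concrete107 M) hrel hxF hxV h2 hgauss hS
  · obtain ⟨hℓ, hrel, hS⟩ := h
    subst hℓ
    have h3 : (3 : Om M)⁻¹ ∈ Rc M A E := by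
      have := inv_natCast_mem_Rc107 M A E hA 3 1 (by norm_num)
      simpa using this
    exact goodModel_t3_107 hb (branchJ_concrete107 M) hrel hxF hxV h3 hgauss hS

end Fermat.Agent.S18.H107

end
end
-- ===== PACK-END S18/H107/M3T.lean

-- ===== PACK-BEGIN S18/H438/NodeAlg.lean
section



/-!
# S18 / NODE ALG (helper438): `Mod.AlgStatement M`

Exact type of `Integ.node_alg` (skeleton v4 of row-lead helper18):

    theorem node_alg (M : ℕ) : Mod.AlgStatement M

It is the instance `Ω = Om M` of `H438.algMain : Alg.AlgMainStatement Lc x S 𝓕`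
(`Front/AlgMain.lean`), which holds for every field `Ω` and every good family.
-/

set_option autoImplicit false

namespace Fermat.Agent.S18.H438

/-- **NODE ALG.** -/
theorem node_alg (M : ℕ) : Mod.AlgStatement M :=
  fun Lc x S 𝓕 => algMain Lc x S 𝓕

end Fermat.Agent.S18.H438

end
-- ===== PACK-END S18/H438/NodeAlg.lean

-- ===== PACK-BEGIN A3/H799/Asm.lean
section


/-!
# A3 / LOCAL — assembly: CHART + KER-I + LIFTI ⟹ `LocalStatement`  (helper799)

Coordinates on a finite inertia-stable subgroup `T ⊆ Pic0`: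

* the indicator functions of the classes of `T` modulo the kernel of reduction `J`;
* on every class `c` the chart coordinates `z_i (x - yt_c)`, where `yt_c` is an inertia-invariant
  class congruent to `c` modulo `J` (LIFTI), extended by `0`.

Addition is algebraic: on the box `c₁ × c₂` one has
`x + y - yt_{c₁+c₂} = (x - yt_{c₁}) + (y - yt_{c₂}) + const`, two applications of the chart addition
property for the algebra `Λ = {f | 1_box · f ∈ 𝒜}`.
-/

set_option autoImplicit false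

noncomputable section

open AlgebraicCurve

namespace Fermat.Agent.A3.H799

universe u₁ u₂ u₃ u₄

variable {K : Type u₁} {F : Type u₂} {k : Type u₃} {Fk : Type u₄}
  [Field K] [Field F] [Algebra K F] [Field k] [Field Fk] [Algebra k Fk]

section BoxAlg

variable {V : Type*} [CommRing V] {X : Type*} {K' : Type*} [CommRing K'] [Algebra V K']

/-- For an idempotent `e` of a subalgebra `𝒜` of `K'`-valued functions: the algebra of `V`-valued
functions `f` with `e · f ∈ 𝒜`. -/
def boxAlg (𝒜 : Subalgebra V (X → K')) (e : X → K') (he : e * e = e) (heA : e ∈ 𝒜) :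
    Subalgebra V (X → V) where
  carrier := {f | (fun p => e p * algebraMap V K' (f p)) ∈ 𝒜}
  mul_mem' := by
    intro f g hf hg
    have h : (fun p => e p * algebraMap V K' ((f * g) p)) =
        (fun p => e p * algebraMap V K' (f p)) * (fun p => e p * algebraMap V K' (g p)) := by
      funext p
      have := congrFun he p
      simp only [Pi.mul_apply] at this ⊢
      rw [map_mul]
      calc e p * (algebraMap V K' (f p) * algebraMap V K' (g p))
          = (e p * e p) * (algebraMap V K' (f p) * algebraMap V K' (g p)) := by rw [this]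
        _ = _ := by ring
    show (fun p => e p * algebraMap V K' ((f * g) p)) ∈ 𝒜
    rw [h]
    exact 𝒜.mul_mem hf hg
  add_mem' := by
    intro f g hf hg
    have h : (fun p => e p * algebraMap V K' ((f + g) p)) =
        (fun p => e p * algebraMap V K' (f p)) + (fun p => e p * algebraMap V K' (g p)) := by
      funext p
      simp only [Pi.add_apply, map_add]
      ring
    show (fun p => e p * algebraMap V K' ((f + g) p)) ∈ 𝒜
    rw [h]
    exact 𝒜.add_mem hf hg
  algebraMap_mem' := by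
    intro v
    have h : (fun p => e p * algebraMap V K' ((algebraMap V (X → V) v) p)) = v • e := by
      funext p
      simp only [Pi.smul_apply, Algebra.smul_def]
      rw [mul_comm]
      rfl
    show (fun p => e p * algebraMap V K' ((algebraMap V (X → V) v) p)) ∈ 𝒜
    rw [h]
    exact 𝒜.smul_mem heA v

theorem mem_boxAlg {𝒜 : Subalgebra V (X → K')} {e : X → K'} {he : e * e = e} {heA : e ∈ 𝒜}
    {f : X → V} : f ∈ boxAlg 𝒜 e he heA ↔ (fun p => e p * algebraMap V K' (f p)) ∈ 𝒜 := Iff.rfl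

end BoxAlg

section Classes

variable (𝓡 : GoodRed K F k Fk) (T : AddSubgroup (Pic0 K F))

/-- The kernel of reduction inside `T`. -/
def tKer : AddSubgroup T := 𝓡.kerRed.comap T.subtype

variable {𝓡 T}

theorem mk_eq_mk_iff (x y : T) :
    (QuotientAddGroup.mk x : T ⧸ tKer 𝓡 T) = QuotientAddGroup.mk y ↔
      (x : Pic0 K F) - (y : Pic0 K F) ∈ 𝓡.kerRed := by
  rw [QuotientAddGroup.eq]
  show -(x : Pic0 K F) + (y : Pic0 K F) ∈ 𝓡.kerRed ↔ _
  rw [← neg_mem_iff (H := 𝓡.kerRed)]
  have h : -(-(x : Pic0 K F) + (y : Pic0 K F)) = (x : Pic0 K F) - (y : Pic0 K F) := by abel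
  rw [h]

theorem sub_out_mem (x : T) (c : T ⧸ tKer 𝓡 T) (h : (QuotientAddGroup.mk x : T ⧸ tKer 𝓡 T) = c) :
    (x : Pic0 K F) - ((Quotient.out c : T) : Pic0 K F) ∈ 𝓡.kerRed := by
  rw [← mk_eq_mk_iff, h]
  exact (QuotientAddGroup.out_eq' c).symm

end Classes

section Coordinates

variable {𝓡 : GoodRed K F k Fk} {T : AddSubgroup (Pic0 K F)} {n : ℕ}
  (z : 𝓡.kerRed → Fin n → IsLocalRing.maximalIdeal 𝓡.V) (yt : T ⧸ tKer 𝓡 T → Pic0 K F)
  (hmem : ∀ (x : T) (c : T ⧸ tKer 𝓡 T), (QuotientAddGroup.mk x : T ⧸ tKer 𝓡 T) = c →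
    (x : Pic0 K F) - yt c ∈ 𝓡.kerRed)

open Classical in
/-- The coordinates: class indicators and chart coordinates on each class. -/
def psi₀ (x : T) : (T ⧸ tKer 𝓡 T) ⊕ (T ⧸ tKer 𝓡 T) × Fin n → K
  | Sum.inl c => if (QuotientAddGroup.mk x : T ⧸ tKer 𝓡 T) = c then 1 else 0
  | Sum.inr (c, i) =>
      if h : (QuotientAddGroup.mk x : T ⧸ tKer 𝓡 T) = c then
        (((z ⟨(x : Pic0 K F) - yt c, hmem x c h⟩ i : IsLocalRing.maximalIdeal 𝓡.V) : 𝓡.V) : K)
      else 0

open Classical in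
theorem psi₀_inl (x : T) (c : T ⧸ tKer 𝓡 T) :
    psi₀ z yt hmem x (Sum.inl c) =
      if (QuotientAddGroup.mk x : T ⧸ tKer 𝓡 T) = c then 1 else 0 := by
  simp only [psi₀]

open Classical in
theorem psi₀_inr (x : T) (c : T ⧸ tKer 𝓡 T) (i : Fin n) :
    psi₀ z yt hmem x (Sum.inr (c, i)) =
      if h : (QuotientAddGroup.mk x : T ⧸ tKer 𝓡 T) = c then
        (((z ⟨(x : Pic0 K F) - yt c, hmem x c h⟩ i : IsLocalRing.maximalIdeal 𝓡.V) : 𝓡.V) : K)
      else 0 := by
  simp only [psi₀]

open Classical in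
theorem psi₀_inr_pos (x : T) (c : T ⧸ tKer 𝓡 T) (i : Fin n)
    (h : (QuotientAddGroup.mk x : T ⧸ tKer 𝓡 T) = c) :
    psi₀ z yt hmem x (Sum.inr (c, i)) =
      (((z ⟨(x : Pic0 K F) - yt c, hmem x c h⟩ i : IsLocalRing.maximalIdeal 𝓡.V) : 𝓡.V) : K) := by
  rw [psi₀_inr, dif_pos h]

open Classical in
theorem psi₀_inr_neg (x : T) (c : T ⧸ tKer 𝓡 T) (i : Fin n)
    (h : ¬ (QuotientAddGroup.mk x : T ⧸ tKer 𝓡 T) = c) :
    psi₀ z yt hmem x (Sum.inr (c, i)) = 0 := by
  rw [psi₀_inr, dif_neg h]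

open Classical in
theorem psi₀_mem (x : T) (j : (T ⧸ tKer 𝓡 T) ⊕ (T ⧸ tKer 𝓡 T) × Fin n) :
    psi₀ z yt hmem x j ∈ 𝓡.V := by
  rcases j with c | ⟨c, i⟩
  · rw [psi₀_inl]
    split_ifs
    · exact 𝓡.V.one_mem
    · exact 𝓡.V.zero_mem
  · rw [psi₀_inr]
    split_ifs
    · exact Subtype.coe_prop _
    · exact 𝓡.V.zero_mem

open Classical in
theorem psi₀_injective (hz : Function.Injective z) : Function.Injective (psi₀ z yt hmem) := by
  intro x x' h
  have h1 := congrFun h (Sum.inl (QuotientAddGroup.mk x))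
  rw [psi₀_inl, psi₀_inl, if_pos rfl] at h1
  have hc : (QuotientAddGroup.mk x' : T ⧸ tKer 𝓡 T) = QuotientAddGroup.mk x := by
    by_contra hne
    rw [if_neg hne] at h1
    exact one_ne_zero h1
  have h2 : z ⟨(x : Pic0 K F) - yt (QuotientAddGroup.mk x), hmem x _ rfl⟩ =
      z ⟨(x' : Pic0 K F) - yt (QuotientAddGroup.mk x), hmem x' _ hc⟩ := by
    funext i
    have h3 := congrFun h (Sum.inr (QuotientAddGroup.mk x, i))
    rw [psi₀_inr_pos z yt hmem x _ i rfl, psi₀_inr_pos z yt hmem x' _ i hc] at h3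
    exact Subtype.ext (Subtype.ext h3)
  have h4 := congrArg Subtype.val (hz h2)
  simp only [sub_left_inj] at h4
  exact Subtype.ext h4

open Classical in
theorem psi₀_smul (hker : ∀ g ∈ 𝓡.I, ∀ x : Pic0 K F, g • x - x ∈ 𝓡.kerRed)
    (hyI : ∀ c, ∀ g ∈ 𝓡.I, g • yt c = yt c)
    (hzeq : ∀ g ∈ 𝓡.I, ∀ (u : 𝓡.kerRed) (hgu : g • (u : Pic0 K F) ∈ 𝓡.kerRed) (i : Fin n),
      (((z ⟨g • (u : Pic0 K F), hgu⟩ i : IsLocalRing.maximalIdeal 𝓡.V) : 𝓡.V) : K) =
        SemilinearAut.baseAut g (((z u i : IsLocalRing.maximalIdeal 𝓡.V) : 𝓡.V) : K))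
    (g : SemilinearAut K F) (hg : g ∈ 𝓡.I) (x : T) (hgx : g • (x : Pic0 K F) ∈ T)
    (j : (T ⧸ tKer 𝓡 T) ⊕ (T ⧸ tKer 𝓡 T) × Fin n) :
    psi₀ z yt hmem ⟨g • (x : Pic0 K F), hgx⟩ j =
      SemilinearAut.baseAut g (psi₀ z yt hmem x j) := by
  have hmk : (QuotientAddGroup.mk (⟨g • (x : Pic0 K F), hgx⟩ : T) : T ⧸ tKer 𝓡 T) =
      QuotientAddGroup.mk x := by
    rw [mk_eq_mk_iff]
    exact hker g hg _
  rcases j with c | ⟨c, i⟩
  · rw [psi₀_inl, psi₀_inl, hmk]
    split_ifs
    · rw [map_one]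
    · rw [map_zero]
  · by_cases h : (QuotientAddGroup.mk x : T ⧸ tKer 𝓡 T) = c
    · have h' : (QuotientAddGroup.mk (⟨g • (x : Pic0 K F), hgx⟩ : T) : T ⧸ tKer 𝓡 T) = c := by
        rw [hmk, h]
      rw [psi₀_inr_pos z yt hmem _ c i h', psi₀_inr_pos z yt hmem x c i h]
      have heq : g • ((x : Pic0 K F) - yt c) = g • (x : Pic0 K F) - yt c := by
        rw [smul_sub, hyI c g hg]
      have hgu : g • ((x : Pic0 K F) - yt c) ∈ 𝓡.kerRed := by
        rw [heq]
        exact hmem _ c h'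
      rw [← hzeq g hg ⟨(x : Pic0 K F) - yt c, hmem x c h⟩ hgu i]
      congr 4
      exact heq.symm
    · have h' : ¬ (QuotientAddGroup.mk (⟨g • (x : Pic0 K F), hgx⟩ : T) : T ⧸ tKer 𝓡 T) = c := by
        rw [hmk]; exact h
      rw [psi₀_inr_neg z yt hmem _ c i h', psi₀_inr_neg z yt hmem x c i h, map_zero]

open Classical in
/-- Partition of unity by the boxes. -/
theorem mem_of_forall_box [Finite T] (𝒜 : Subalgebra 𝓡.V (T × T → K)) (G : T × T → K)
    (h : ∀ c₁ c₂ : T ⧸ tKer 𝓡 T, (fun p : T × T =>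
      ((if (QuotientAddGroup.mk p.1 : T ⧸ tKer 𝓡 T) = c₁ then (1 : K) else 0) *
        (if (QuotientAddGroup.mk p.2 : T ⧸ tKer 𝓡 T) = c₂ then (1 : K) else 0)) * G p) ∈ 𝒜) :
    G ∈ 𝒜 := by
  haveI : Fintype (T ⧸ tKer 𝓡 T) := Fintype.ofFinite _
  have hG : G = ∑ c₁ : T ⧸ tKer 𝓡 T, ∑ c₂ : T ⧸ tKer 𝓡 T, (fun p : T × T =>
      ((if (QuotientAddGroup.mk p.1 : T ⧸ tKer 𝓡 T) = c₁ then (1 : K) else 0) *
        (if (QuotientAddGroup.mk p.2 : T ⧸ tKer 𝓡 T) = c₂ then (1 : K) else 0)) * G p) := by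
    funext p
    simp only [Finset.sum_apply]
    simp only [← Finset.sum_mul, ← Finset.mul_sum]
    simp
  rw [hG]
  exact Subalgebra.sum_mem _ fun c₁ _ => Subalgebra.sum_mem _ fun c₂ _ => h c₁ c₂

open Classical in
theorem psi₀_add_mem [Finite T]
    (hzadd : ∀ (Λ : Subalgebra 𝓡.V (T × T → 𝓡.V)) (a b : T × T → 𝓡.kerRed),
      (∀ j, (fun τ => ((z (a τ) j : IsLocalRing.maximalIdeal 𝓡.V) : 𝓡.V)) ∈ Λ) →
      (∀ j, (fun τ => ((z (b τ) j : IsLocalRing.maximalIdeal 𝓡.V) : 𝓡.V)) ∈ Λ) →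
      ∀ i, (fun τ => ((z (a τ + b τ) i : IsLocalRing.maximalIdeal 𝓡.V) : 𝓡.V)) ∈ Λ)
    (j : (T ⧸ tKer 𝓡 T) ⊕ (T ⧸ tKer 𝓡 T) × Fin n) :
    (fun p : T × T => psi₀ z yt hmem (p.1 + p.2) j) ∈
      Algebra.adjoin 𝓡.V ({f | ∃ j, f = fun p : T × T => psi₀ z yt hmem p.1 j} ∪
        {f | ∃ j, f = fun p : T × T => psi₀ z yt hmem p.2 j}) := by
  set 𝒜 := Algebra.adjoin 𝓡.V ({f | ∃ j, f = fun p : T × T => psi₀ z yt hmem p.1 j} ∪
        {f | ∃ j, f = fun p : T × T => psi₀ z yt hmem p.2 j}) with h𝒜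
  have g1 : ∀ j, (fun p : T × T => psi₀ z yt hmem p.1 j) ∈ 𝒜 :=
    fun j => Algebra.subset_adjoin (Or.inl ⟨j, rfl⟩)
  have g2 : ∀ j, (fun p : T × T => psi₀ z yt hmem p.2 j) ∈ 𝒜 :=
    fun j => Algebra.subset_adjoin (Or.inr ⟨j, rfl⟩)
  -- the box idempotents
  have hbox : ∀ c₁ c₂ : T ⧸ tKer 𝓡 T, (fun p : T × T =>
      (if (QuotientAddGroup.mk p.1 : T ⧸ tKer 𝓡 T) = c₁ then (1 : K) else 0) *
        (if (QuotientAddGroup.mk p.2 : T ⧸ tKer 𝓡 T) = c₂ then (1 : K) else 0)) ∈ 𝒜 := by
    intro c₁ c₂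
    have := 𝒜.mul_mem (g1 (Sum.inl c₁)) (g2 (Sum.inl c₂))
    simp only [psi₀_inl] at this
    exact this
  have hidem : ∀ c₁ c₂ : T ⧸ tKer 𝓡 T, (fun p : T × T =>
      (if (QuotientAddGroup.mk p.1 : T ⧸ tKer 𝓡 T) = c₁ then (1 : K) else 0) *
        (if (QuotientAddGroup.mk p.2 : T ⧸ tKer 𝓡 T) = c₂ then (1 : K) else 0)) *
      (fun p : T × T =>
      (if (QuotientAddGroup.mk p.1 : T ⧸ tKer 𝓡 T) = c₁ then (1 : K) else 0) *
        (if (QuotientAddGroup.mk p.2 : T ⧸ tKer 𝓡 T) = c₂ then (1 : K) else 0)) =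
      (fun p : T × T =>
      (if (QuotientAddGroup.mk p.1 : T ⧸ tKer 𝓡 T) = c₁ then (1 : K) else 0) *
        (if (QuotientAddGroup.mk p.2 : T ⧸ tKer 𝓡 T) = c₂ then (1 : K) else 0)) := by
    intro c₁ c₂
    funext p
    simp only [Pi.mul_apply]
    split_ifs <;> simp
  -- the key lemma on a box
  have hkey : ∀ (c₁ c₂ : T ⧸ tKer 𝓡 T) (i : Fin n), (fun p : T × T =>
      ((if (QuotientAddGroup.mk p.1 : T ⧸ tKer 𝓡 T) = c₁ then (1 : K) else 0) *
        (if (QuotientAddGroup.mk p.2 : T ⧸ tKer 𝓡 T) = c₂ then (1 : K) else 0)) *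
        psi₀ z yt hmem (p.1 + p.2) (Sum.inr (c₁ + c₂, i))) ∈ 𝒜 := by
    intro c₁ c₂ i
    set Λ := boxAlg 𝒜 _ (hidem c₁ c₂) (hbox c₁ c₂) with hΛ
    -- the families
    let a : T × T → 𝓡.kerRed := fun p =>
      if h : (QuotientAddGroup.mk p.1 : T ⧸ tKer 𝓡 T) = c₁ then
        ⟨(p.1 : Pic0 K F) - yt c₁, hmem p.1 c₁ h⟩ else 0
    let b : T × T → 𝓡.kerRed := fun p =>
      if h : (QuotientAddGroup.mk p.2 : T ⧸ tKer 𝓡 T) = c₂ then
        ⟨(p.2 : Pic0 K F) - yt c₂, hmem p.2 c₂ h⟩ else 0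
    have hc₀ : yt c₁ + yt c₂ - yt (c₁ + c₂) ∈ 𝓡.kerRed := by
      have h1 := hmem (Quotient.out c₁) c₁ (QuotientAddGroup.out_eq' c₁)
      have h2 := hmem (Quotient.out c₂) c₂ (QuotientAddGroup.out_eq' c₂)
      have h3 := hmem (Quotient.out c₁ + Quotient.out c₂) (c₁ + c₂) (by
        rw [QuotientAddGroup.mk_add, QuotientAddGroup.out_eq', QuotientAddGroup.out_eq'])
      have h4 : yt c₁ + yt c₂ - yt (c₁ + c₂) =
          (((Quotient.out c₁ + Quotient.out c₂ : T) : Pic0 K F) - yt (c₁ + c₂)) -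
            (((Quotient.out c₁ : T) : Pic0 K F) - yt c₁) -
            (((Quotient.out c₂ : T) : Pic0 K F) - yt c₂) := by
        rw [AddSubgroup.coe_add]
        abel
      rw [h4]
      exact sub_mem (sub_mem h3 h1) h2
    let c₀ : T × T → 𝓡.kerRed := fun _ => ⟨yt c₁ + yt c₂ - yt (c₁ + c₂), hc₀⟩
    have ha : ∀ j, (fun τ => ((z (a τ) j : IsLocalRing.maximalIdeal 𝓡.V) : 𝓡.V)) ∈ Λ := by
      intro j
      rw [hΛ, mem_boxAlg]
      have := 𝒜.mul_mem (g2 (Sum.inl c₂)) (g1 (Sum.inr (c₁, j)))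
      convert this using 1
      funext p
      simp only [Pi.mul_apply, psi₀_inl]
      by_cases h : (QuotientAddGroup.mk p.1 : T ⧸ tKer 𝓡 T) = c₁
      · rw [psi₀_inr_pos z yt hmem p.1 c₁ j h, if_pos h, one_mul]
        simp only [a, dif_pos h]
        rfl
      · rw [psi₀_inr_neg z yt hmem p.1 c₁ j h, if_neg h]
        simp
    have hb : ∀ j, (fun τ => ((z (b τ) j : IsLocalRing.maximalIdeal 𝓡.V) : 𝓡.V)) ∈ Λ := by
      intro j
      rw [hΛ, mem_boxAlg]
      have := 𝒜.mul_mem (g1 (Sum.inl c₁)) (g2 (Sum.inr (c₂, j)))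
      convert this using 1
      funext p
      simp only [Pi.mul_apply, psi₀_inl]
      by_cases h : (QuotientAddGroup.mk p.2 : T ⧸ tKer 𝓡 T) = c₂
      · rw [psi₀_inr_pos z yt hmem p.2 c₂ j h, if_pos h, mul_one]
        simp only [b, dif_pos h]
        rfl
      · rw [psi₀_inr_neg z yt hmem p.2 c₂ j h, if_neg h]
        simp
    have hc : ∀ j, (fun τ => ((z (c₀ τ) j : IsLocalRing.maximalIdeal 𝓡.V) : 𝓡.V)) ∈ Λ := by
      intro j
      exact Λ.algebraMap_mem ((z ⟨yt c₁ + yt c₂ - yt (c₁ + c₂), hc₀⟩ j :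
        IsLocalRing.maximalIdeal 𝓡.V) : 𝓡.V)
    have hab := hzadd Λ a b ha hb
    have habc := hzadd Λ (fun τ => a τ + b τ) c₀ hab hc i
    rw [hΛ, mem_boxAlg] at habc
    convert habc using 1
    funext p
    by_cases h1 : (QuotientAddGroup.mk p.1 : T ⧸ tKer 𝓡 T) = c₁
    · by_cases h2 : (QuotientAddGroup.mk p.2 : T ⧸ tKer 𝓡 T) = c₂
      · have h12 : (QuotientAddGroup.mk (p.1 + p.2) : T ⧸ tKer 𝓡 T) = c₁ + c₂ := by
          rw [QuotientAddGroup.mk_add, h1, h2]
        rw [psi₀_inr_pos z yt hmem _ _ i h12]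
        congr 5
        simp only [a, b, c₀, dif_pos h1, dif_pos h2, AddSubgroup.coe_add]
        abel
      · simp [h2]
    · simp [h1]
  -- conclusion
  apply mem_of_forall_box
  intro c₁ c₂
  rcases j with c | ⟨c, i⟩
  · have hfun : (fun p : T × T =>
        ((if (QuotientAddGroup.mk p.1 : T ⧸ tKer 𝓡 T) = c₁ then (1 : K) else 0) *
          (if (QuotientAddGroup.mk p.2 : T ⧸ tKer 𝓡 T) = c₂ then (1 : K) else 0)) *
          psi₀ z yt hmem (p.1 + p.2) (Sum.inl c)) =
        if c₁ + c₂ = c then (fun p : T × T =>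
          (if (QuotientAddGroup.mk p.1 : T ⧸ tKer 𝓡 T) = c₁ then (1 : K) else 0) *
            (if (QuotientAddGroup.mk p.2 : T ⧸ tKer 𝓡 T) = c₂ then (1 : K) else 0)) else 0 := by
      funext p
      rw [psi₀_inl, QuotientAddGroup.mk_add]
      by_cases hcc : c₁ + c₂ = c
      · rw [if_pos hcc]
        by_cases h1 : (QuotientAddGroup.mk p.1 : T ⧸ tKer 𝓡 T) = c₁
        · by_cases h2 : (QuotientAddGroup.mk p.2 : T ⧸ tKer 𝓡 T) = c₂
          · simp [h1, h2, hcc]
          · simp [h2]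
        · simp [h1]
      · rw [if_neg hcc]
        by_cases h1 : (QuotientAddGroup.mk p.1 : T ⧸ tKer 𝓡 T) = c₁
        · by_cases h2 : (QuotientAddGroup.mk p.2 : T ⧸ tKer 𝓡 T) = c₂
          · simp [h1, h2, hcc]
          · simp [h2]
        · simp [h1]
    rw [hfun]
    split_ifs
    · exact hbox c₁ c₂
    · exact 𝒜.zero_mem
  · by_cases hcc : c₁ + c₂ = c
    · subst hcc
      exact hkey c₁ c₂ i
    · have hfun : (fun p : T × T =>
        ((if (QuotientAddGroup.mk p.1 : T ⧸ tKer 𝓡 T) = c₁ then (1 : K) else 0) *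
          (if (QuotientAddGroup.mk p.2 : T ⧸ tKer 𝓡 T) = c₂ then (1 : K) else 0)) *
          psi₀ z yt hmem (p.1 + p.2) (Sum.inr (c, i))) = 0 := by
        funext p
        by_cases h1 : (QuotientAddGroup.mk p.1 : T ⧸ tKer 𝓡 T) = c₁
        · by_cases h2 : (QuotientAddGroup.mk p.2 : T ⧸ tKer 𝓡 T) = c₂
          · have h12 : ¬ (QuotientAddGroup.mk (p.1 + p.2) : T ⧸ tKer 𝓡 T) = c := by
              rw [QuotientAddGroup.mk_add, h1, h2]; exact hcc
            rw [psi₀_inr_neg z yt hmem _ _ i h12]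
            simp
          · simp [h2]
        · simp [h1]
      rw [hfun]
      exact 𝒜.zero_mem

end Coordinates

section Main

variable [IsAlgClosed K] [IsAlgClosed k] [CharZero K]

/-- **Assembly.**  CHART + KER-I + LIFTI ⟹ `LocalStatement`. -/
theorem local_of_chart (hchart : ChartStatement.{u₁, u₂, u₃, u₄, u₂} K F k Fk)
    (hker : KerInertiaStatement K F k Fk) (hlift : LiftiStatement K F k Fk) :
    LocalStatement K F k Fk := by
  classical
  intro 𝓡 _ T _ hT
  obtain ⟨n, z, hzinj, hzeq, hzadd⟩ := hchart 𝓡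
  have hl : ∀ c : T ⧸ tKer 𝓡 T, ∃ y : Pic0 K F, (∀ g ∈ 𝓡.I, g • y = y) ∧
      ((Quotient.out c : T) : Pic0 K F) - y ∈ 𝓡.kerRed := fun c => hlift 𝓡 _
  choose yt hyI hyJ using hl
  have hmem : ∀ (x : T) (c : T ⧸ tKer 𝓡 T), (QuotientAddGroup.mk x : T ⧸ tKer 𝓡 T) = c →
      (x : Pic0 K F) - yt c ∈ 𝓡.kerRed := by
    intro x c h
    have h1 := sub_out_mem x c h
    have h2 : (x : Pic0 K F) - yt c = ((x : Pic0 K F) - ((Quotient.out c : T) : Pic0 K F)) +
        (((Quotient.out c : T) : Pic0 K F) - yt c) := by abel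
    rw [h2]
    exact add_mem h1 (hyJ c)
  -- the index type
  haveI : Finite (T ⧸ tKer 𝓡 T) := inferInstance
  haveI : Finite ((T ⧸ tKer 𝓡 T) ⊕ (T ⧸ tKer 𝓡 T) × Fin n) := inferInstance
  obtain ⟨m, ⟨e⟩⟩ := Finite.exists_equiv_fin ((T ⧸ tKer 𝓡 T) ⊕ (T ⧸ tKer 𝓡 T) × Fin n)
  refine ⟨Fin m, inferInstance, fun x i => psi₀ z yt hmem x (e.symm i), ?_, ?_, ?_, ?_⟩
  · intro x x' h
    apply psi₀_injective z yt hmem hzinj
    funext j
    have := congrFun h (e j)
    simpa using this
  · intro x i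
    exact psi₀_mem z yt hmem x _
  · intro g hg x i
    exact psi₀_smul z yt hmem (hker 𝓡) hyI hzeq g hg x _ _
  · intro i
    have := psi₀_add_mem z yt hmem (fun Λ a b => hzadd (T × T) Λ a b) (e.symm i)
    refine Algebra.adjoin_mono ?_ this
    rintro f (⟨j, rfl⟩ | ⟨j, rfl⟩)
    · left
      exact ⟨e j, by simp⟩
    · right
      exact ⟨e j, by simp⟩

end Main

end Fermat.Agent.A3.H799

end
end
-- ===== PACK-END A3/H799/Asm.lean

-- ===== PACK-BEGIN A3/H799/DiscLemmas.lean
section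


/-!
# A3 / LOCAL — consequences of `DiscData`  (helper799)

Dictionary between the disc algebra of a `DiscData` and orders of functions at the points of the
residue disc: `t - a` has a simple zero at `pt a` and no other zero in the disc; `pt` is
injective; `ev a f = 0 ↔ ord_{pt a} f ≥ 1`; division by `t - a`; values of `polyDiv`.
-/

set_option autoImplicit false

noncomputable section

open AlgebraicCurve Fermat.Agent.Lib.RR

namespace Fermat.Agent.A3.H799

variable {K F k Fk : Type*} [Field K] [Field F] [Algebra K F] [Field k] [Field Fk] [Algebra k Fk]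

section Finsupp

/-- A point of the fibre contributes at most the total, if all contributions are `≥ 0`. -/
theorem le_mapDomain_apply {α β : Type*} (r : α → β) (D : α →₀ ℤ) (b : β)
    (hnn : ∀ a, r a = b → 0 ≤ D a) (a₀ : α) (h₀ : r a₀ = b) :
    D a₀ ≤ Finsupp.mapDomain r D b := by
  classical
  rw [Finsupp.mapDomain, Finsupp.sum_apply]
  simp only [Finsupp.sum, Finsupp.single_apply]
  by_cases hmem : a₀ ∈ D.support
  · have h1 : (if r a₀ = b then D a₀ else 0) ≤
        ∑ a ∈ D.support, if r a = b then D a else 0 := by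
      refine Finset.single_le_sum (f := fun a => if r a = b then D a else 0) ?_ hmem
      intro a _
      show 0 ≤ if r a = b then D a else 0
      split_ifs with h
      · exact hnn a h
      · exact le_rfl
    rwa [if_pos h₀] at h1
  · have h0 : D a₀ = 0 := Finsupp.notMem_support_iff.mp hmem
    rw [h0]
    refine Finset.sum_nonneg fun a _ => ?_
    split_ifs with h
    · exact hnn a h
    · exact le_rfl

/-- Two distinct points of the fibre contribute at most the total. -/
theorem add_le_mapDomain_apply {α β : Type*} (r : α → β) (D : α →₀ ℤ) (b : β)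
    (hnn : ∀ a, r a = b → 0 ≤ D a) (a₀ a₁ : α) (h₀ : r a₀ = b) (h₁ : r a₁ = b)
    (hne : a₀ ≠ a₁) : D a₀ + D a₁ ≤ Finsupp.mapDomain r D b := by
  classical
  -- remove the point `a₀`
  set D' : α →₀ ℤ := D - Finsupp.single a₀ (D a₀) with hD'
  have hD : D = D' + Finsupp.single a₀ (D a₀) := by rw [hD']; abel
  have hnn' : ∀ a, r a = b → 0 ≤ D' a := by
    intro a ha
    rw [hD', Finsupp.sub_apply, Finsupp.single_apply]
    split_ifs with h
    · subst h; simp
    · simpa using hnn a ha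
  have h1 := le_mapDomain_apply r D' b hnn' a₁ h₁
  have h2 : D' a₁ = D a₁ := by
    rw [hD', Finsupp.sub_apply, Finsupp.single_apply, if_neg hne, sub_zero]
  have h3 : Finsupp.mapDomain r D b = Finsupp.mapDomain r D' b + D a₀ := by
    conv_lhs => rw [hD]
    rw [Finsupp.mapDomain_add, Finsupp.add_apply, Finsupp.mapDomain_single,
      Finsupp.single_apply, if_pos h₀]
  rw [h3, ← h2]
  linarith

end Finsupp

namespace DiscData

variable {𝓡 : GoodRed K F k Fk} {Q : Place k Fk} (d : DiscData 𝓡 Q)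

/-- The parameter as an element of `F`. -/
def tF : F := ((d.D.t : d.ring) : F)

/-- Reduction on the disc ring. -/
def redHom : d.ring →+* Fk :=
  𝓡.red.comp
    { toFun := fun f => (⟨(f : F), d.ring_le _ f.2⟩ : 𝓡.O)
      map_one' := rfl
      map_mul' := fun _ _ => rfl
      map_zero' := rfl
      map_add' := fun _ _ => rfl }

theorem redHom_apply (f : d.ring) : d.redHom f = 𝓡.red ⟨(f : F), d.ring_le _ f.2⟩ := rfl

theorem coe_algebraMap (a : 𝓡.V) : ((algebraMap 𝓡.V d.ring a : d.ring) : F) =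
    algebraMap K F (a : K) := rfl

theorem redHom_algebraMap (a : 𝓡.V) :
    d.redHom (algebraMap 𝓡.V d.ring a) = algebraMap k Fk (𝓡.res a) := by
  rw [redHom_apply]
  exact 𝓡.red_algebraMap a _

theorem redHom_algebraMap_of_mem (a : IsLocalRing.maximalIdeal 𝓡.V) :
    d.redHom (algebraMap 𝓡.V d.ring (a : 𝓡.V)) = 0 := by
  rw [redHom_algebraMap]
  have h : 𝓡.res (a : 𝓡.V) = 0 := by
    rw [𝓡.res_eq_zero, ValuationSubring.mem_nonunits_iff_exists_mem_maximalIdeal]
    exact ⟨(a : 𝓡.V).2, a.2⟩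
  rw [h, map_zero]

theorem ord_redHom_t : Q.ord (d.redHom d.D.t) = 1 := d.ord_t

theorem redHom_t_ne_zero : d.redHom d.D.t ≠ 0 := by
  intro h
  have := d.ord_redHom_t
  rw [h, Place.ord_zero] at this
  exact zero_ne_one this

/-- `t - a` as an element of the disc ring. -/
def tSub (a : IsLocalRing.maximalIdeal 𝓡.V) : d.ring :=
  d.D.t - algebraMap 𝓡.V d.ring (a : 𝓡.V)

theorem coe_tSub (a : IsLocalRing.maximalIdeal 𝓡.V) :
    ((d.tSub a : d.ring) : F) = d.tF - algebraMap K F (((a : 𝓡.V) : K)) := rfl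

theorem redHom_tSub (a : IsLocalRing.maximalIdeal 𝓡.V) : d.redHom (d.tSub a) = d.redHom d.D.t := by
  rw [tSub, map_sub, redHom_algebraMap_of_mem, sub_zero]

theorem tSub_ne_zero (a : IsLocalRing.maximalIdeal 𝓡.V) : ((d.tSub a : d.ring) : F) ≠ 0 := by
  intro h
  have h1 : d.tSub a = 0 := Subtype.ext h
  have := d.redHom_tSub a
  rw [h1, map_zero] at this
  exact d.redHom_t_ne_zero this.symm

theorem ev_tSub (a : IsLocalRing.maximalIdeal 𝓡.V) : d.D.ev a (d.tSub a) = 0 := by
  rw [tSub, map_sub, d.D.ev_t, AlgHom.commutes]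
  simp

theorem ord_nonneg (f : d.ring) (P : Place K F) (hP : 𝓡.r P = Q) : 0 ≤ P.ord (f : F) :=
  ord_nonneg_of_mem P (d.ring_reg _ f.2 P hP)

/-- `t - a` has a simple zero at `pt a`. -/
theorem ord_pt_tSub (a : IsLocalRing.maximalIdeal 𝓡.V) :
    (d.pt a).ord ((d.tSub a : d.ring) : F) = 1 := by
  haveI := 𝓡.ff1
  have hne := d.tSub_ne_zero a
  -- lower bound from `ev_spec`
  have h1 : 1 ≤ (d.pt a).ord ((d.tSub a : d.ring) : F) := by
    have := d.ev_spec a (d.tSub a)
    rw [d.ev_tSub a] at this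
    simp only [ZeroMemClass.coe_zero, map_zero, sub_zero] at this
    rcases this with h | h
    · exact absurd h hne
    · exact h
  -- upper bound from conservation
  have h2 := 𝓡.div_red ⟨((d.tSub a : d.ring) : F), d.ring_le _ (d.tSub a).2⟩
    (by
      have := d.redHom_tSub a
      rw [redHom_apply] at this
      rw [this]
      exact d.redHom_t_ne_zero)
    (divOf _ hne) (fun P => divOf_apply _ hne P) Q
  have h3 : 𝓡.red ⟨((d.tSub a : d.ring) : F), d.ring_le _ (d.tSub a).2⟩ = d.redHom d.D.t :=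
    d.redHom_tSub a
  rw [h3, d.ord_redHom_t] at h2
  have h4 := le_mapDomain_apply 𝓡.r (divOf ((d.tSub a : d.ring) : F) hne) Q
    (fun P hP => by rw [divOf_apply]; exact d.ord_nonneg _ P hP) (d.pt a) (d.r_pt a)
  rw [h2, divOf_apply] at h4
  exact le_antisymm h4 h1

/-- `t - a` does not vanish at `pt b` for `b ≠ a`. -/
theorem ord_pt_tSub_of_ne {a b : IsLocalRing.maximalIdeal 𝓡.V} (hab : b ≠ a) :
    (d.pt b).ord ((d.tSub a : d.ring) : F) = 0 := by
  have h1 : ((d.tSub a : d.ring) : F) =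
      algebraMap K F ((((b : 𝓡.V) : K)) - (((a : 𝓡.V) : K))) + ((d.tSub b : d.ring) : F) := by
    rw [coe_tSub, coe_tSub, map_sub]; ring
  have hc : algebraMap K F ((((b : 𝓡.V) : K)) - (((a : 𝓡.V) : K))) ≠ 0 := by
    rw [Ne, map_eq_zero_iff _ (algebraMap K F).injective, sub_eq_zero]
    intro h
    exact hab (Subtype.ext (Subtype.ext h))
  rw [h1, ord_add_eq_of_lt _ hc (d.tSub_ne_zero b), ord_algebraMap]
  rw [ord_algebraMap, d.ord_pt_tSub b]
  exact zero_lt_one

theorem pt_injective : Function.Injective d.pt := by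
  intro a b hab
  by_contra hne
  have h1 := d.ord_pt_tSub a
  rw [hab, d.ord_pt_tSub_of_ne (a := a) (b := b) (Ne.symm hne)] at h1
  exact zero_ne_one h1

open Classical in
/-- The order of `t - a` at the points of the disc. -/
theorem ord_pt_tSub_eq (a b : IsLocalRing.maximalIdeal 𝓡.V) :
    (d.pt b).ord ((d.tSub a : d.ring) : F) = if b = a then 1 else 0 := by
  split_ifs with h
  · subst h; exact d.ord_pt_tSub b
  · exact d.ord_pt_tSub_of_ne h

/-- `ev a f = 0` iff `f` vanishes at `pt a`. -/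
theorem ev_eq_zero_iff (a : IsLocalRing.maximalIdeal 𝓡.V) (f : d.ring) (hf : f ≠ 0) :
    d.D.ev a f = 0 ↔ 1 ≤ (d.pt a).ord (f : F) := by
  have hfF : (f : F) ≠ 0 := fun h => hf (Subtype.ext h)
  constructor
  · intro h
    have := d.ev_spec a f
    rw [h] at this
    simp only [ZeroMemClass.coe_zero, map_zero, sub_zero] at this
    exact this.resolve_left hfF
  · intro h
    by_contra hc
    have hcK : algebraMap K F (((d.D.ev a f : 𝓡.V) : K)) ≠ 0 := by
      rw [Ne, map_eq_zero_iff _ (algebraMap K F).injective]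
      intro h0
      exact hc (Subtype.ext h0)
    rcases d.ev_spec a f with h1 | h1
    · rw [h1, ord_algebraMap] at h
      exact absurd h (by norm_num)
    · -- the constant is `f - (f - c)`
      have h2 : algebraMap K F (((d.D.ev a f : 𝓡.V) : K)) =
          (f : F) + -((f : F) - algebraMap K F (((d.D.ev a f : 𝓡.V) : K))) := by ring
      have h3 := ord_add_of_le (d.pt a) (n := 1) (Or.inr h)
        (Or.inr (by rw [ord_neg]; exact h1) :
          -((f : F) - algebraMap K F (((d.D.ev a f : 𝓡.V) : K))) = 0 ∨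
          1 ≤ (d.pt a).ord (-((f : F) - algebraMap K F (((d.D.ev a f : 𝓡.V) : K)))))
      rw [← h2] at h3
      rcases h3 with h3 | h3
      · exact hcK h3
      · rw [ord_algebraMap] at h3
        exact absurd h3 (by norm_num)

/-- Division by `t - a` in the disc ring. -/
theorem exists_eq_mul_of_ev_eq_zero (a : IsLocalRing.maximalIdeal 𝓡.V) (f : d.ring)
    (h : d.D.ev a f = 0) : ∃ f' : d.ring, f = d.tSub a * f' := by
  obtain ⟨f', hf'⟩ := d.D.taylor a f
  refine ⟨f', ?_⟩
  rw [hf', h, map_zero, zero_add]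
  rfl

end DiscData

section PolyDiv

variable {𝓡 : GoodRed K F k Fk} {ι : Type*} [Fintype ι] {Qs : ι → Place k Fk}
  (d : ∀ i, DiscData 𝓡 (Qs i))

open Classical in
/-- Value of `polyDiv` at a point of the `i`-th disc. -/
theorem polyDiv_apply_pt (hQ : Function.Injective Qs)
    (z : ι → IsLocalRing.maximalIdeal 𝓡.V) (i : ι) (a : IsLocalRing.maximalIdeal 𝓡.V) :
    polyDiv d z ((d i).pt a) = if z i = a then 1 else 0 := by
  classical
  rw [polyDiv, Finsupp.finset_sum_apply]
  simp only [Finsupp.single_apply]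
  have h : ∀ l : ι, ((d l).pt (z l) = (d i).pt a) ↔ (l = i ∧ z i = a) := by
    intro l
    constructor
    · intro hl
      have h1 : Qs l = Qs i := by
        rw [← (d l).r_pt (z l), ← (d i).r_pt a, hl]
      have h2 : l = i := hQ h1
      subst h2
      exact ⟨rfl, (d l).pt_injective hl⟩
    · rintro ⟨rfl, h2⟩
      rw [h2]
  simp only [h]
  split_ifs with hz
  · rw [Finset.sum_eq_single i]
    · simp [hz]
    · intro l _ hl; simp [hl]
    · intro hi; exact absurd (Finset.mem_univ i) hi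
  · apply Finset.sum_eq_zero
    intro l _
    simp [hz]

/-- `polyDiv` vanishes outside the discs. -/
theorem polyDiv_apply_of_not_mem (z : ι → IsLocalRing.maximalIdeal 𝓡.V) (P : Place K F)
    (hP : ∀ i, 𝓡.r P ≠ Qs i) : polyDiv d z P = 0 := by
  classical
  rw [polyDiv, Finsupp.finset_sum_apply]
  apply Finset.sum_eq_zero
  intro l _
  rw [Finsupp.single_apply, if_neg]
  intro h
  exact hP l (by rw [← h, (d l).r_pt])

theorem polyDiv_nonneg (z : ι → IsLocalRing.maximalIdeal 𝓡.V) : 0 ≤ polyDiv d z := by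
  classical
  rw [Finsupp.le_def]
  intro P
  rw [polyDiv, Finsupp.finset_sum_apply]
  refine Finset.sum_nonneg fun l _ => ?_
  rw [Finsupp.single_apply]
  split_ifs <;> simp

theorem mapDomain_polyDiv (z : ι → IsLocalRing.maximalIdeal 𝓡.V) :
    Finsupp.mapDomain 𝓡.r (polyDiv d z) = ∑ i, Finsupp.single (Qs i) (1 : ℤ) := by
  rw [polyDiv, Finsupp.mapDomain_finset_sum]
  refine Finset.sum_congr rfl fun i _ => ?_
  rw [Finsupp.mapDomain_single, (d i).r_pt]

end PolyDiv

end Fermat.Agent.A3.H799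

end
end
-- ===== PACK-END A3/H799/DiscLemmas.lean

-- ===== PACK-BEGIN A3/H799/Chart.lean
section



/-!
# A3 / LOCAL — ZADD and CHART from the leaves  (helper799)

* `zadd_of  : CoordStatement → ZtriStatement → ZnegStatement → ZaddStatement`
* `chart_of : NspStatement → DiscStatement → DiscEquivStatement → CoordStatement →
              ZaddStatement → ChartStatement`
-/

set_option autoImplicit false

noncomputable section

open AlgebraicCurve Fermat.Agent.Lib.RR

namespace Fermat.Agent.A3.H799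

universe u₁ u₂ u₃ u₄ w

variable {K : Type u₁} {F : Type u₂} {k : Type u₃} {Fk : Type u₄}
  [Field K] [Field F] [Algebra K F] [Field k] [Field Fk] [Algebra k Fk]

theorem pic0_mk_eq_zero_iff (D : Divisor.degZero (K := K) (F := F)) :
    Pic0.mk D = 0 ↔ (D : Divisor K F) ∈ Divisor.principal (K := K) (F := F) := by
  unfold Pic0.mk
  rw [QuotientAddGroup.eq_zero_iff, AddSubgroup.mem_addSubgroupOf]

section Cls

variable {𝓡 : GoodRed K F k Fk} {ι : Type*} [Fintype ι] {Qs : ι → Place k Fk}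
  (d : ∀ i, DiscData 𝓡 (Qs i))

/-- The degree-zero divisor `D_z - E`. -/
def polyDivZ (z : ι → IsLocalRing.maximalIdeal 𝓡.V) : Divisor.degZero (K := K) (F := F) :=
  ⟨polyDiv d z - polyDiv d 0, by
    rw [Divisor.mem_degZero, map_sub, H255.degree_polyDiv, H255.degree_polyDiv, sub_self]⟩

@[simp] theorem coe_polyDivZ (z : ι → IsLocalRing.maximalIdeal 𝓡.V) :
    ((polyDivZ d z : Divisor.degZero (K := K) (F := F)) : Divisor K F) =
      polyDiv d z - polyDiv d 0 := rfl

/-- The class `[D_z - E]`. -/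
def cls (z : ι → IsLocalRing.maximalIdeal 𝓡.V) : Pic0 K F := Pic0.mk (polyDivZ d z)

theorem exists_iff_cls (z : ι → IsLocalRing.maximalIdeal 𝓡.V) (x : Pic0 K F) :
    (∃ D : Divisor.degZero (K := K) (F := F),
      (D : Divisor K F) = polyDiv d z - polyDiv d 0 ∧ Pic0.mk D = x) ↔ cls d z = x := by
  constructor
  · rintro ⟨D, hD, hx⟩
    have : D = polyDivZ d z := Subtype.ext hD
    rw [← hx, this]
    rfl
  · intro h
    exact ⟨polyDivZ d z, rfl, h⟩

theorem cls_add_sub_eq_zero_iff (zx zy zs : ι → IsLocalRing.maximalIdeal 𝓡.V) :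
    cls d zx + cls d zy - cls d zs = 0 ↔
      polyDiv d zx + polyDiv d zy - polyDiv d zs - polyDiv d 0 ∈
        Divisor.principal (K := K) (F := F) := by
  have h : cls d zx + cls d zy - cls d zs =
      Pic0.mk (polyDivZ d zx + polyDivZ d zy - polyDivZ d zs) := rfl
  rw [h, pic0_mk_eq_zero_iff]
  have h2 : ((polyDivZ d zx + polyDivZ d zy - polyDivZ d zs :
      Divisor.degZero (K := K) (F := F)) : Divisor K F) =
      polyDiv d zx + polyDiv d zy - polyDiv d zs - polyDiv d 0 := by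
    push_cast
    simp only [coe_polyDivZ]
    abel
  rw [h2]

theorem cls_add_add_eq_zero_iff (zx zy zw : ι → IsLocalRing.maximalIdeal 𝓡.V) :
    cls d zx + cls d zy + cls d zw = 0 ↔
      polyDiv d zx + polyDiv d zy + polyDiv d zw - (3 : ℤ) • polyDiv d 0 ∈
        Divisor.principal (K := K) (F := F) := by
  have h : cls d zx + cls d zy + cls d zw =
      Pic0.mk (polyDivZ d zx + polyDivZ d zy + polyDivZ d zw) := rfl
  rw [h, pic0_mk_eq_zero_iff]
  have h2 : ((polyDivZ d zx + polyDivZ d zy + polyDivZ d zw :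
      Divisor.degZero (K := K) (F := F)) : Divisor K F) =
      polyDiv d zx + polyDiv d zy + polyDiv d zw - (3 : ℤ) • polyDiv d 0 := by
    push_cast
    simp only [coe_polyDivZ]
    have : (3 : ℤ) • polyDiv d 0 = polyDiv d 0 + polyDiv d 0 + polyDiv d 0 := by
      rw [show (3 : ℤ) = 1 + 1 + 1 by norm_num, add_smul, add_smul, one_smul]
    rw [this]
    abel
  rw [h2]

theorem cls_add_eq_zero_iff (zx zn : ι → IsLocalRing.maximalIdeal 𝓡.V) :
    cls d zx + cls d zn = 0 ↔
      polyDiv d zx + polyDiv d zn - (2 : ℤ) • polyDiv d 0 ∈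
        Divisor.principal (K := K) (F := F) := by
  have h : cls d zx + cls d zn = Pic0.mk (polyDivZ d zx + polyDivZ d zn) := rfl
  rw [h, pic0_mk_eq_zero_iff]
  have h2 : ((polyDivZ d zx + polyDivZ d zn :
      Divisor.degZero (K := K) (F := F)) : Divisor K F) =
      polyDiv d zx + polyDiv d zn - (2 : ℤ) • polyDiv d 0 := by
    push_cast
    simp only [coe_polyDivZ]
    have : (2 : ℤ) • polyDiv d 0 = polyDiv d 0 + polyDiv d 0 := by
      rw [show (2 : ℤ) = 1 + 1 by norm_num, add_smul, one_smul]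
    rw [this]
    abel
  rw [h2]

end Cls

/-- **ZADD** from COORD, ZTRI and ZNEG. -/
theorem zadd_of (hcoord : CoordStatement K F k Fk)
    (htri : ZtriStatement.{u₁, u₂, u₃, u₄, w} K F k Fk)
    (hneg : ZnegStatement.{u₁, u₂, u₃, u₄, w} K F k Fk) :
    ZaddStatement.{u₁, u₂, u₃, u₄, w} K F k Fk := by
  intro 𝓡 Qs hinj hnsp d T _ Λ zx zy zs hzx hzy hprin
  obtain ⟨hC1, hC2⟩ := hcoord 𝓡 Qs hinj hnsp d
  have hmemc : ∀ z, cls d z ∈ 𝓡.kerRed := fun z => hC2 z (polyDivZ d z) rfl
  -- the third point `w = -(x + y)`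
  have hw : ∀ τ, ∃ zw : Fin (genusFF k Fk) → IsLocalRing.maximalIdeal 𝓡.V,
      cls d zw = -(cls d (zx τ) + cls d (zy τ)) := by
    intro τ
    obtain ⟨zw, hzw, -⟩ := hC1 _ (neg_mem (add_mem (hmemc (zx τ)) (hmemc (zy τ))))
    exact ⟨zw, (exists_iff_cls d zw _).mp hzw⟩
  choose zw hzw using hw
  have h1 : ∀ i, (fun τ => ((zw τ i : IsLocalRing.maximalIdeal 𝓡.V) : 𝓡.V)) ∈ Λ := by
    refine htri 𝓡 Qs hinj hnsp d T Λ zx zy zw hzx hzy fun τ => ?_
    rw [← cls_add_add_eq_zero_iff, hzw τ]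
    abel
  refine hneg 𝓡 Qs hinj hnsp d T Λ zw zs h1 fun τ => ?_
  rw [← cls_add_eq_zero_iff, hzw τ]
  have h2 := (cls_add_sub_eq_zero_iff d (zx τ) (zy τ) (zs τ)).mpr (hprin τ)
  have h3 : cls d (zs τ) = cls d (zx τ) + cls d (zy τ) := (sub_eq_zero.mp h2).symm
  rw [h3]
  abel

section Chart

variable [IsAlgClosed k]

/-- **CHART** from the leaves. -/
theorem chart_of (hnsp : NspStatement k Fk) (hdisc : DiscStatement K F k Fk)
    (hequiv : DiscEquivStatement K F k Fk) (hcoord : CoordStatement K F k Fk)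
    (hzadd : ZaddStatement.{u₁, u₂, u₃, u₄, w} K F k Fk) :
    ChartStatement.{u₁, u₂, u₃, u₄, w} K F k Fk := by
  intro 𝓡
  haveI := 𝓡.ff1k
  haveI := 𝓡.ff1
  obtain ⟨Qs, hinj, hell⟩ := hnsp
  have hd : ∀ i, ∃ d : DiscData 𝓡 (Qs i),
      ∀ g ∈ 𝓡.I, g • ((d.D.t : d.ring) : F) = ((d.D.t : d.ring) : F) := fun i => hdisc 𝓡 (Qs i)
  choose d hdI using hd
  obtain ⟨hC1, hC2⟩ := hcoord 𝓡 Qs hinj hell d
  have hex : ∀ u : 𝓡.kerRed, ∃ z : Fin (genusFF k Fk) → IsLocalRing.maximalIdeal 𝓡.V,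
      cls d z = (u : Pic0 K F) ∧ ∀ z', cls d z' = (u : Pic0 K F) → z' = z := by
    intro u
    obtain ⟨z, hz, huniq⟩ := hC1 (u : Pic0 K F) u.2
    exact ⟨z, (exists_iff_cls d z _).mp hz, fun z' hz' => huniq z' ((exists_iff_cls d z' _).mpr hz')⟩
  choose z hz hzuniq using hex
  refine ⟨genusFF k Fk, z, ?_, ?_, ?_⟩
  · -- injective
    intro u u' h
    apply Subtype.ext
    rw [← hz u, ← hz u', h]
  · -- inertia equivariance
    intro g hg u hgu i
    -- the transformed polydisc point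
    have hpt : ∀ (j : Fin (genusFF k Fk)) (a : IsLocalRing.maximalIdeal 𝓡.V),
        ∃ a' : IsLocalRing.maximalIdeal 𝓡.V,
          (((a' : IsLocalRing.maximalIdeal 𝓡.V) : 𝓡.V) : K) =
            SemilinearAut.baseAut g (((a : IsLocalRing.maximalIdeal 𝓡.V) : 𝓡.V) : K) ∧
          g • (d j).pt a = (d j).pt a' := by
      intro j a
      obtain ⟨h, h', hpt⟩ := hequiv 𝓡 (Qs j) (d j) (hdI j) g hg a
      exact ⟨⟨⟨_, h⟩, h'⟩, rfl, hpt⟩
    choose σ hσ hσpt using hpt
    have hσ0 : ∀ j, σ j 0 = 0 := by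
      intro j
      apply Subtype.ext
      apply Subtype.ext
      rw [hσ j 0]
      simp
    have hsmul : ∀ z₀ : Fin (genusFF k Fk) → IsLocalRing.maximalIdeal 𝓡.V,
        g • polyDiv d z₀ = polyDiv d (fun j => σ j (z₀ j)) := by
      intro z₀
      unfold polyDiv
      rw [Finset.smul_sum]
      refine Finset.sum_congr rfl fun j _ => ?_
      rw [SemilinearAut.smul_single, hσpt]
    have hcls : cls d (fun j => σ j (z u j)) = g • (u : Pic0 K F) := by
      rw [← hz u]
      show _ = g • Pic0.mk (polyDivZ d (z u))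
      rw [SemilinearAut.pic0_smul_mk]
      unfold cls
      congr 1
      apply Subtype.ext
      rw [SemilinearAut.coe_degZeroSMulHom, coe_polyDivZ, coe_polyDivZ, smul_sub, hsmul, hsmul]
      congr 2
      funext j
      exact (hσ0 j).symm
    have := hzuniq ⟨g • (u : Pic0 K F), hgu⟩ _ hcls
    rw [← this]
    exact hσ i (z u i)
  · -- addition
    intro T _ Λ a b ha hb
    refine hzadd 𝓡 Qs hinj hell d T Λ (fun τ => z (a τ)) (fun τ => z (b τ))
      (fun τ => z (a τ + b τ)) ha hb fun τ => ?_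
    rw [← cls_add_sub_eq_zero_iff, hz, hz, hz]
    simp

end Chart

end Fermat.Agent.A3.H799

end
end
-- ===== PACK-END A3/H799/Chart.lean

-- ===== PACK-BEGIN Lib/X0Deg/Alpha.lean
section


/-!
# X0DEG (helper760): the degree of the Prelude degeneracy map `heckeAlphaBar`

* `finrankAlong_inclusion`, `finiteAlong_inclusion` : abstract (any tower of intermediate fields);
* `finrankAlong_heckeAlphaBar_mul_psi` : `[F̄_{Nℓ} : α F̄_N] * ψ(N) = ψ(Nℓ)` (any `ℓ ≠ 0`);
* `finrankAlong_heckeAlphaBar_of_not_dvd` : `= ℓ + 1` for a prime `ℓ ∤ N`;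
* `finrankAlong_heckeAlphaBar_of_dvd` : `= ℓ` for a prime `ℓ ∣ N`;
* `finiteAlong_heckeAlphaBar` : `FiniteAlong ℚ̄ (heckeAlphaBar ℚ̄ N ℓ)` (one of the six fields of
  the Prelude `HeckeInputsAlong`);
* `finrankAlong_heckeAlphaBar_square` : equal degrees in the square used for the commutation of
  Hecke operators: `[F̄_{Nℓℓ'} : F̄_{Nℓ}] = [F̄_{Nℓ'} : F̄_N]` for primes `ℓ ≠ ℓ'`.
-/

set_option autoImplicit false

noncomputable section

open ModularCurve AlgebraicCurve IntermediateField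
open Fermat.Agent.S24

namespace Fermat.Agent.Lib.X0Deg

section Abstract

variable {K E : Type*} [Field K] [Field E] [Algebra K E]

/-- For intermediate fields `A ≤ B`, the `A`-module `B` (via the inclusion) is linearly
equivalent to `extendScalars`. -/
def inclusionLinearEquiv {A B : IntermediateField K E} (h : A ≤ B) :
    letI := algebraAlong (IntermediateField.inclusion h)
    ↥B ≃ₗ[↥A] ↥(extendScalars h) :=
  letI := algebraAlong (IntermediateField.inclusion h)
  { toFun := fun x => ⟨x.1, x.2⟩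
    invFun := fun y => ⟨y.1, y.2⟩
    map_add' := fun _ _ => rfl
    map_smul' := fun _ _ => rfl
    left_inv := fun _ => rfl
    right_inv := fun _ => rfl }

theorem finrankAlong_inclusion {A B : IntermediateField K E} (h : A ≤ B) :
    finrankAlong K (IntermediateField.inclusion h) = A.relfinrank B := by
  rw [relfinrank_eq_finrank_of_le h]
  let _ := algebraAlong (IntermediateField.inclusion h)
  exact (inclusionLinearEquiv h).finrank_eq

theorem finiteAlong_inclusion {A B : IntermediateField K E} (h : A ≤ B)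
    (hpos : 0 < A.relfinrank B) : FiniteAlong K (IntermediateField.inclusion h) := by
  let _ := algebraAlong (IntermediateField.inclusion h)
  show Module.Finite ↥A ↥B
  apply Module.finite_of_finrank_pos
  have := finrankAlong_inclusion h
  rw [finrankAlong] at this
  rw [this]
  exact hpos

end Abstract

section Modular

variable (N ℓ : ℕ) [NeZero N] [NeZero ℓ]

theorem le_mul : modularFunctionFieldBar N ≤ modularFunctionFieldBar (N * ℓ) :=
  modularFunctionFieldBar_mono (dvd_mul_right N ℓ)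

theorem finrankAlong_heckeAlphaBar :
    finrankAlong Kbar (heckeAlphaBar Kbar N ℓ)
      = (modularFunctionFieldBar N).relfinrank (modularFunctionFieldBar (N * ℓ)) := by
  rw [heckeAlphaBar_eq_inclusion N ℓ (le_mul N ℓ)]
  exact finrankAlong_inclusion _

/-- `[F̄_{Nℓ} : α F̄_N] * ψ(N) = ψ(Nℓ)`. -/
theorem finrankAlong_heckeAlphaBar_mul_psi :
    finrankAlong Kbar (heckeAlphaBar Kbar N ℓ) * dedekindPsi N = dedekindPsi (N * ℓ) := by
  rw [finrankAlong_heckeAlphaBar]
  exact relfinrank_mul_psi (dvd_mul_right N ℓ)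

/-- For a prime `ℓ ∤ N` the degeneracy map `α : F̄_N → F̄_{Nℓ}` has degree `ℓ + 1`. -/
theorem finrankAlong_heckeAlphaBar_of_not_dvd (hℓ : ℓ.Prime) (h : ¬ ℓ ∣ N) :
    finrankAlong Kbar (heckeAlphaBar Kbar N ℓ) = ℓ + 1 := by
  have h1 := finrankAlong_heckeAlphaBar_mul_psi N ℓ
  have h2 : dedekindPsi (N * ℓ) = (ℓ + 1) * dedekindPsi N := by
    rw [mul_comm N ℓ]
    exact Fermat.Agent.S20.Comb694.dedekindPsi_prime_mul_of_not_dvd ℓ N hℓ (NeZero.ne N) h
  exact Nat.eq_of_mul_eq_mul_right (dedekindPsi_pos N) (h1.trans h2)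

/-- For a prime `ℓ ∣ N` the degeneracy map `α : F̄_N → F̄_{Nℓ}` has degree `ℓ`. -/
theorem finrankAlong_heckeAlphaBar_of_dvd (hℓ : ℓ.Prime) (h : ℓ ∣ N) :
    finrankAlong Kbar (heckeAlphaBar Kbar N ℓ) = ℓ := by
  have h1 := finrankAlong_heckeAlphaBar_mul_psi N ℓ
  have h2 : dedekindPsi (N * ℓ) = ℓ * dedekindPsi N := by
    rw [mul_comm N ℓ]
    exact Fermat.Agent.S20.Comb694.dedekindPsi_prime_mul_of_dvd ℓ N hℓ (NeZero.ne N) h
  exact Nat.eq_of_mul_eq_mul_right (dedekindPsi_pos N) (h1.trans h2)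

theorem finrankAlong_heckeAlphaBar_pos : 0 < finrankAlong Kbar (heckeAlphaBar Kbar N ℓ) := by
  have h1 := finrankAlong_heckeAlphaBar_mul_psi N ℓ
  have h2 := dedekindPsi_pos (N * ℓ)
  rw [← h1] at h2
  exact Nat.pos_of_mul_pos_right h2

/-- The degeneracy map `α` is finite (a field of the Prelude `HeckeInputsAlong`). -/
theorem finiteAlong_heckeAlphaBar : FiniteAlong Kbar (heckeAlphaBar Kbar N ℓ) := by
  have hpos := finrankAlong_heckeAlphaBar_pos N ℓ
  rw [finrankAlong_heckeAlphaBar] at hpos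
  rw [heckeAlphaBar_eq_inclusion N ℓ (le_mul N ℓ)]
  exact finiteAlong_inclusion _ hpos

/-- Equal degrees in the commutation square: for primes `ℓ ≠ ℓ'`,
`[F̄_{Nℓℓ'} : F̄_{Nℓ}] = [F̄_{Nℓ'} : F̄_N]`. -/
theorem finrankAlong_heckeAlphaBar_square (ℓ' : ℕ) [NeZero ℓ'] (hℓ : ℓ.Prime) (hℓ' : ℓ'.Prime)
    (hne : ℓ ≠ ℓ') :
    finrankAlong Kbar (heckeAlphaBar Kbar (N * ℓ) ℓ')
      = finrankAlong Kbar (heckeAlphaBar Kbar N ℓ') := by
  by_cases h : ℓ' ∣ N
  · rw [finrankAlong_heckeAlphaBar_of_dvd N ℓ' hℓ' h,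
      finrankAlong_heckeAlphaBar_of_dvd (N * ℓ) ℓ' hℓ' (h.mul_right ℓ)]
  · have h' : ¬ ℓ' ∣ N * ℓ := by
      intro hd
      rcases (Nat.Prime.dvd_mul hℓ').mp hd with h1 | h1
      · exact h h1
      · exact hne ((Nat.prime_dvd_prime_iff_eq hℓ' hℓ).mp h1).symm
    rw [finrankAlong_heckeAlphaBar_of_not_dvd N ℓ' hℓ' h,
      finrankAlong_heckeAlphaBar_of_not_dvd (N * ℓ) ℓ' hℓ' h']

end Modular

end Fermat.Agent.Lib.X0Deg

end
end
-- ===== PACK-END Lib/X0Deg/Alpha.lean

-- ===== PACK-BEGIN A2/Top/H994/ModTop.lean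
section





/-!
# WALL A2 / MOD — final assembly `ModSSGoodStatement` (deputy helper994, MOD architect)

`Mod.modSSData_of_parts` (helper13, `A2/Mod/Asm.lean`) produces `ModSSData P E (M * q)` from the
leaves L1, L4, L8, the sub-assemblies S1–S4, Sτ and the level-`M` hypothesis `GoodRedHyp`.
This file turns it into the statement consumed by the wall (`Top.H994.wall`,
`H562.wall_of_alg_if_mod`):

* `GoodRedStatement` : the EXACT target of the GOODRED owners (good reduction of `X₀(M)` at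
  `q ∤ M` over every good level `E`, in the two charts `j`, `1/j`; for `q = 3` only when `2 ∣ M`,
  for `q = 2` only when `3 ∣ M`);
* `modSSGood_of_parts` : L8 + S1–S4 + Sτ + GOODRED ⟹ `ModSSGoodStatement`
  (L1 = `H553.vinfExists`, L4 = `H751.frickeExists` are plugged in from main).
-/

set_option autoImplicit false
set_option linter.unusedSectionVars false
set_option synthInstance.maxHeartbeats 400000
set_option maxHeartbeats 1600000

noncomputable section

namespace Fermat.Agent.A2.Top.H994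

open ModularCurve Fermat.Agent.A2

/-- **GOODRED (target statement).**  Good reduction of `X₀(M)` at a prime `q ∤ M` over every good
level `E`, in the charts of `j` and `1/j` (`Mod.GoodRedHyp`), at the levels carrying the auxiliary
prime (`2 ∣ M` for `q = 3`, `3 ∣ M` for `q = 2`). -/
def GoodRedStatement : Prop :=
  ∀ (P : ValuationSubring Qb) (E : IntermediateField ℚ Qb) (M q : ℕ) [NeZero M] [NeZero q],
    q.Prime → ¬ q ∣ M → (q = 3 → 2 ∣ M) → (q = 2 → 3 ∣ M) → P.LiesOverPrime q →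
    GoodField P E → Mod.GoodRedHyp P E M

/-- **MOD, final assembly.** -/
theorem modSSGood_of_parts
    (hDeg : ∀ (E : IntermediateField ℚ Qb) (M q : ℕ) [NeZero M] [NeZero q],
      Mod.DegStatement E M q)
    (hS1 : ∀ (P : ValuationSubring Qb) (E : IntermediateField ℚ Qb) (M q : ℕ) [NeZero M]
      [NeZero q] (w : RE P E), Mod.S1Statement P E M q w)
    (hS2 : ∀ (P : ValuationSubring Qb) (E : IntermediateField ℚ Qb) (M q : ℕ) [NeZero M]
      [NeZero q] (w : RE P E), Mod.S2Statement P E M q w)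
    (hS3 : ∀ (P : ValuationSubring Qb) (E : IntermediateField ℚ Qb) (M q : ℕ) [NeZero M]
      [NeZero q] (w : RE P E), Mod.S3Statement P E M q w)
    (hS4 : ∀ (P : ValuationSubring Qb) (E : IntermediateField ℚ Qb) (M q : ℕ) [NeZero M]
      [NeZero q] (w : RE P E), Mod.S4Statement P E M q w)
    (hSτ : ∀ (P : ValuationSubring Qb) (E : IntermediateField ℚ Qb) (M q : ℕ) [NeZero M]
      [NeZero q] (w : RE P E), Mod.StauStatement P E M q w)
    (hGood : GoodRedStatement) :
    ModSSGoodStatement := by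
  intro P E N q hq hqN hq2 hN h3 h2 hP hE
  obtain ⟨M, hM⟩ := hqN
  have hNM : N = M * q := by rw [hM, mul_comm]
  subst hNM
  have hM0 : M ≠ 0 := fun h => hN (by rw [h, zero_mul])
  haveI : NeZero M := ⟨hM0⟩
  haveI : NeZero q := ⟨hq.ne_zero⟩
  have hqM : ¬ q ∣ M := by
    rintro ⟨c, hc⟩
    exact hq2 ⟨c, by rw [hc]; ring⟩
  have h3' : q = 3 → 2 ∣ M := by
    intro h
    have h2N := h3 h
    subst h
    exact (Nat.Coprime.dvd_mul_right (by norm_num : Nat.Coprime 2 3)).1 h2N
  have h2' : q = 2 → 3 ∣ M := by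
    intro h
    have h3N := h2 h
    subst h
    exact (Nat.Coprime.dvd_mul_right (by norm_num : Nat.Coprime 3 2)).1 h3N
  exact Mod.modSSData_of_parts P E M q hq hqM hP hE.dvr
    (Mod.H553.vinfExists P E M hM0 hE.dvr)
    (Mod.H553.vinfExists P E (M * q) hN hE.dvr)
    (Mod.H751.frickeExists E (M * q) hN)
    (hDeg E M q) (hS1 P E M q) (hS2 P E M q) (hS3 P E M q) (hS4 P E M q) (hSτ P E M q)
    (hGood P E M q hq hqM h3' h2' hP hE)

end Fermat.Agent.A2.Top.H994

end

end
-- ===== PACK-END A2/Top/H994/ModTop.lean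

-- ===== PACK-BEGIN A2/Mod/H753/IndZero.lean
section






/-!
# A2 / MOD leaf L10 `IndZero` (helper753): residue independence on `C₀`

`V₀ = V∞ ∘ W` at level `N = M q`.  With `W x = j_M · j_{Mq}` (`x = j j_q`), reduction
`J^(q+1)`, `J = j̄(t^M)`, the family `d (a, i) = α(Z i · j_M^a)` (`Z i` = Fricke dual at level `M`
of the S28 monomial `Y i`, `0 ≤ a ≤ q`) lies in `V∞` and is independent modulo `w` over `R[W x]`;
`c := W ∘ d`.

* `inW_of_red_eq_zero` : converse of `red_eq_zero_of_inW`;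
* `map_ev`, `inW_comap_iff` : transport along an `E`-automorphism;
* `polyIndep_dual` : `PolyIndep J (Z̄ i)` from `PolyIndep j̄ (Ȳ i)` and L7 (level `M`);
* `indZero_of`, `indZero : IndZeroStatement P E M q w`;
* `indepMod_inv` : `IndepMod` for the coordinate `x⁻¹` from `IndepMod` for `x` (`x` a unit of `V`).
-/

set_option autoImplicit false
set_option synthInstance.maxHeartbeats 400000
set_option maxHeartbeats 1600000

noncomputable section

namespace Fermat.Agent.A2.Mod.H753

open ModularCurve HahnSeries Polynomial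
open Fermat.Agent.S28 (intDivisorExpansions jField)
open Fermat.Agent.S28.H325 (castL PolyIndep)

section Gen

variable (P : ValuationSubring _root_.Fermat.Agent.A2.Mod.Qb) (E : IntermediateField ℚ _root_.Fermat.Agent.A2.Mod.Qb)

/-- an integral series with zero reduction lies in `w V∞`. -/
theorem inW_of_red_eq_zero {N : ℕ} {V : ValuationSubring (_root_.Fermat.Agent.A2.Mod.FE E N)} (hV : IsVinf P E N V)
    {w : _root_.Fermat.Agent.A2.Mod.RE P E} (hdvr : IsDiscreteValuationRing (_root_.Fermat.Agent.A2.Mod.RE P E)) (hw : Irreducible w) {f : _root_.Fermat.Agent.A2.Mod.FE E N}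
    {S : LaurentSeries (_root_.Fermat.Agent.A2.Mod.RE P E)} (hS : (f : LaurentSeries E) = H708.incl (_root_.Fermat.Agent.A2.Mod.RE P E) S)
    (hred : H708.red (_root_.Fermat.Agent.A2.Mod.RE P E) S = 0) : InW P E N V w f := by
  have hw0 : w ≠ 0 := hw.ne_zero
  have hdiv : ∀ n, w ∣ S.coeff n := by
    intro n
    have h1 : IsLocalRing.residue (_root_.Fermat.Agent.A2.Mod.RE P E) (S.coeff n) = 0 := by
      have := congrArg (fun z => z.coeff n) hred
      simpa using this
    rw [IsLocalRing.residue_eq_zero_iff, hw.maximalIdeal_eq, Ideal.mem_span_singleton] at h1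
    exact h1
  obtain ⟨U', hU'⟩ := H549.exists_cstA_mul_eq w hw0 S hdiv
  have hwE : ((w : E)) ≠ 0 := fun h0 => hw0 (Subtype.ext h0)
  have hc : H708.cst (w : E) ≠ 0 := H708.cst_ne_zero hwE
  have hcoe : (((f * (cE P E N w)⁻¹ : _root_.Fermat.Agent.A2.Mod.FE E N)) : LaurentSeries E) = H708.incl (_root_.Fermat.Agent.A2.Mod.RE P E) U' := by
    rw [IntermediateField.coe_mul, IntermediateField.coe_inv, hS, ← hU', _root_.map_mul, H708.incl_cstA]
    show H708.cst (w : E) * _ * (H708.cst (w : E))⁻¹ = _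
    field_simp
  show f * (cE P E N w)⁻¹ ∈ V
  rw [hV, hcoe]
  exact H708.IsGaussInt.of_incl _

variable {P E}

theorem map_ev {N : ℕ} (W : _root_.Fermat.Agent.A2.Mod.FE E N ≃ₐ[E] _root_.Fermat.Agent.A2.Mod.FE E N) (x : _root_.Fermat.Agent.A2.Mod.FE E N) (p : Polynomial (_root_.Fermat.Agent.A2.Mod.RE P E)) :
    W (ev P E N x p) = ev P E N (W x) p := by
  have h := Polynomial.hom_eval₂ p ((algebraMap E (_root_.Fermat.Agent.A2.Mod.FE E N)).comp (_root_.Fermat.Agent.A2.Mod.RE P E).subtype)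
    (W : _root_.Fermat.Agent.A2.Mod.FE E N →+* _root_.Fermat.Agent.A2.Mod.FE E N) x
  have h2 : ((W : _root_.Fermat.Agent.A2.Mod.FE E N →+* _root_.Fermat.Agent.A2.Mod.FE E N).comp ((algebraMap E (_root_.Fermat.Agent.A2.Mod.FE E N)).comp (_root_.Fermat.Agent.A2.Mod.RE P E).subtype))
      = (algebraMap E (_root_.Fermat.Agent.A2.Mod.FE E N)).comp (_root_.Fermat.Agent.A2.Mod.RE P E).subtype :=
    RingHom.ext fun r => W.commutes _
  rw [h2] at h
  exact h

theorem inW_comap_iff {N : ℕ} (V : ValuationSubring (_root_.Fermat.Agent.A2.Mod.FE E N)) (W : _root_.Fermat.Agent.A2.Mod.FE E N ≃ₐ[E] _root_.Fermat.Agent.A2.Mod.FE E N)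
    (w : _root_.Fermat.Agent.A2.Mod.RE P E) (f : _root_.Fermat.Agent.A2.Mod.FE E N) :
    InW P E N (V.comap (W : _root_.Fermat.Agent.A2.Mod.FE E N →+* _root_.Fermat.Agent.A2.Mod.FE E N)) w f ↔ InW P E N V w (W f) := by
  have h1 : W (f * (cE P E N w)⁻¹) = W f * (cE P E N w)⁻¹ := by
    rw [_root_.map_mul, map_inv₀]
    congr 2
    exact W.commutes _
  show (W : _root_.Fermat.Agent.A2.Mod.FE E N →+* _root_.Fermat.Agent.A2.Mod.FE E N) (f * (cE P E N w)⁻¹) ∈ V ↔ W f * (cE P E N w)⁻¹ ∈ V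
  rw [← h1]
  rfl

theorem coe_jE_incl (N d : ℕ) [NeZero d] (hd : d ∣ N) :
    ((jE E N d hd : _root_.Fermat.Agent.A2.Mod.FE E N) : LaurentSeries E)
      = H708.incl (_root_.Fermat.Agent.A2.Mod.RE P E) (H708.castA (_root_.Fermat.Agent.A2.Mod.RE P E) (qExpand ℤ d (jqModC ℤ))) := by
  rw [H708.incl_castA, H708.castQ, coeffMap_qExpand, ← H708.castQ, castQ_jqModC]
  rfl

end Gen

/-! ## relations of integral series and their reductions -/

section Rel

variable (P : ValuationSubring _root_.Fermat.Agent.A2.Mod.Qb) (E : IntermediateField ℚ _root_.Fermat.Agent.A2.Mod.Qb)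

/-- the series of `∑ aᵢ(u) hᵢ` for integer series `u`, `hᵢ`. -/
theorem coe_sum_ev {N n : ℕ} (u : _root_.Fermat.Agent.A2.Mod.FE E N) (U : LaurentSeries ℤ)
    (hu : (u : LaurentSeries E) = H708.incl (_root_.Fermat.Agent.A2.Mod.RE P E) (H708.castA (_root_.Fermat.Agent.A2.Mod.RE P E) U))
    (h : Fin n → _root_.Fermat.Agent.A2.Mod.FE E N) (Z : Fin n → LaurentSeries ℤ)
    (hh : ∀ i, (h i : LaurentSeries E) = H708.incl (_root_.Fermat.Agent.A2.Mod.RE P E) (H708.castA (_root_.Fermat.Agent.A2.Mod.RE P E) (Z i)))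
    (a : Fin n → Polynomial (_root_.Fermat.Agent.A2.Mod.RE P E)) :
    ((∑ i, ev P E N u (a i) * h i : _root_.Fermat.Agent.A2.Mod.FE E N) : LaurentSeries E)
      = H708.incl (_root_.Fermat.Agent.A2.Mod.RE P E)
        (∑ i, aeval (H708.castA (_root_.Fermat.Agent.A2.Mod.RE P E) U) (a i) * H708.castA (_root_.Fermat.Agent.A2.Mod.RE P E) (Z i)) := by
  rw [_root_.map_sum, IntermediateField.coe_sum]
  refine Finset.sum_congr rfl fun i _ => ?_
  rw [IntermediateField.coe_mul, coe_ev P E u _ hu (a i), hh i, _root_.map_mul]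

theorem red_sum_aeval {n : ℕ} (U : LaurentSeries ℤ) (Z : Fin n → LaurentSeries ℤ)
    (a : Fin n → Polynomial (_root_.Fermat.Agent.A2.Mod.RE P E)) :
    H708.red (_root_.Fermat.Agent.A2.Mod.RE P E)
        (∑ i, aeval (H708.castA (_root_.Fermat.Agent.A2.Mod.RE P E) U) (a i) * H708.castA (_root_.Fermat.Agent.A2.Mod.RE P E) (Z i))
      = ∑ i, aeval (castL (IsLocalRing.ResidueField (_root_.Fermat.Agent.A2.Mod.RE P E)) U)
          ((a i).map (IsLocalRing.residue (_root_.Fermat.Agent.A2.Mod.RE P E))) *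
          castL (IsLocalRing.ResidueField (_root_.Fermat.Agent.A2.Mod.RE P E)) (Z i) := by
  rw [_root_.map_sum]
  refine Finset.sum_congr rfl fun i _ => ?_
  rw [_root_.map_mul, H708.red, Fermat.Agent.S28.H325.coeffMap_aeval, ← H708.red, red_castA, red_castA]

/-- a relation in `w V∞` between integer series reduces to a relation over `k`. -/
theorem relation_red {N n : ℕ} {V : ValuationSubring (_root_.Fermat.Agent.A2.Mod.FE E N)} (hV : IsVinf P E N V)
    {w : _root_.Fermat.Agent.A2.Mod.RE P E} (hw : Irreducible w)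
    (u : _root_.Fermat.Agent.A2.Mod.FE E N) (U : LaurentSeries ℤ)
    (hu : (u : LaurentSeries E) = H708.incl (_root_.Fermat.Agent.A2.Mod.RE P E) (H708.castA (_root_.Fermat.Agent.A2.Mod.RE P E) U))
    (h : Fin n → _root_.Fermat.Agent.A2.Mod.FE E N) (Z : Fin n → LaurentSeries ℤ)
    (hh : ∀ i, (h i : LaurentSeries E) = H708.incl (_root_.Fermat.Agent.A2.Mod.RE P E) (H708.castA (_root_.Fermat.Agent.A2.Mod.RE P E) (Z i)))
    (a : Fin n → Polynomial (_root_.Fermat.Agent.A2.Mod.RE P E))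
    (hin : InW P E N V w (∑ i, ev P E N u (a i) * h i)) :
    ∑ i, aeval (castL (IsLocalRing.ResidueField (_root_.Fermat.Agent.A2.Mod.RE P E)) U)
        ((a i).map (IsLocalRing.residue (_root_.Fermat.Agent.A2.Mod.RE P E))) *
        castL (IsLocalRing.ResidueField (_root_.Fermat.Agent.A2.Mod.RE P E)) (Z i) = 0 := by
  have hwm : w ∈ IsLocalRing.maximalIdeal (_root_.Fermat.Agent.A2.Mod.RE P E) := by
    rw [IsLocalRing.mem_maximalIdeal, mem_nonunits_iff]
    exact hw.not_isUnit
  rw [← red_sum_aeval]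
  exact red_eq_zero_of_inW hV hw.ne_zero hwm (coe_sum_ev P E u U hu h Z hh a) hin

/-- a relation over `k` between reductions of integer series lifts to a relation in `w V∞`. -/
theorem relation_inW {N n : ℕ} {V : ValuationSubring (_root_.Fermat.Agent.A2.Mod.FE E N)} (hV : IsVinf P E N V)
    {w : _root_.Fermat.Agent.A2.Mod.RE P E} (hdvr : IsDiscreteValuationRing (_root_.Fermat.Agent.A2.Mod.RE P E)) (hw : Irreducible w)
    (u : _root_.Fermat.Agent.A2.Mod.FE E N) (U : LaurentSeries ℤ)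
    (hu : (u : LaurentSeries E) = H708.incl (_root_.Fermat.Agent.A2.Mod.RE P E) (H708.castA (_root_.Fermat.Agent.A2.Mod.RE P E) U))
    (h : Fin n → _root_.Fermat.Agent.A2.Mod.FE E N) (Z : Fin n → LaurentSeries ℤ)
    (hh : ∀ i, (h i : LaurentSeries E) = H708.incl (_root_.Fermat.Agent.A2.Mod.RE P E) (H708.castA (_root_.Fermat.Agent.A2.Mod.RE P E) (Z i)))
    (a : Fin n → Polynomial (_root_.Fermat.Agent.A2.Mod.RE P E))
    (hrel : ∑ i, aeval (castL (IsLocalRing.ResidueField (_root_.Fermat.Agent.A2.Mod.RE P E)) U)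
        ((a i).map (IsLocalRing.residue (_root_.Fermat.Agent.A2.Mod.RE P E))) *
        castL (IsLocalRing.ResidueField (_root_.Fermat.Agent.A2.Mod.RE P E)) (Z i) = 0) :
    InW P E N V w (∑ i, ev P E N u (a i) * h i) := by
  rw [← red_sum_aeval] at hrel
  exact inW_of_red_eq_zero P E hV hdvr hw (coe_sum_ev P E u U hu h Z hh a) hrel

end Rel

/-! ## the Fricke-dual family at level `M` -/

section Dual

variable (P : ValuationSubring _root_.Fermat.Agent.A2.Mod.Qb) (E : IntermediateField ℚ _root_.Fermat.Agent.A2.Mod.Qb) (M q : ℕ) [NeZero M] [NeZero q]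

/-- **dual independence.**  If `W_M hᵢ = gᵢ` (integer series `Zᵢ`, `Yᵢ`) and the `Ȳᵢ` are
polynomially independent over `k[j̄]`, then the `Z̄ᵢ` are polynomially independent over
`k[j̄_M]`. -/
theorem polyIndep_dual (w : _root_.Fermat.Agent.A2.Mod.RE P E) (hS : Setting P E M q w)
    (WM : _root_.Fermat.Agent.A2.Mod.FE E M ≃ₐ[E] _root_.Fermat.Agent.A2.Mod.FE E M) (hWM : IsFricke E M WM)
    (VM : ValuationSubring (_root_.Fermat.Agent.A2.Mod.FE E M)) (hVM : IsVinf P E M VM)
    {n : ℕ} (g h : Fin n → _root_.Fermat.Agent.A2.Mod.FE E M) (Y Z : Fin n → LaurentSeries ℤ)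
    (hg : ∀ i, (g i : LaurentSeries E) = H708.incl (_root_.Fermat.Agent.A2.Mod.RE P E) (H708.castA (_root_.Fermat.Agent.A2.Mod.RE P E) (Y i)))
    (hh : ∀ i, (h i : LaurentSeries E) = H708.incl (_root_.Fermat.Agent.A2.Mod.RE P E) (H708.castA (_root_.Fermat.Agent.A2.Mod.RE P E) (Z i)))
    (hgh : ∀ i, WM (h i) = g i)
    (hY : PolyIndep (jqModC (IsLocalRing.ResidueField (_root_.Fermat.Agent.A2.Mod.RE P E)))
      (fun i => castL (IsLocalRing.ResidueField (_root_.Fermat.Agent.A2.Mod.RE P E)) (Y i))) :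
    PolyIndep (castL (IsLocalRing.ResidueField (_root_.Fermat.Agent.A2.Mod.RE P E)) (qExpand ℤ M (jqModC ℤ)))
      (fun i => castL (IsLocalRing.ResidueField (_root_.Fermat.Agent.A2.Mod.RE P E)) (Z i)) := by
  intro Pb hPb
  have hsurj : ∀ i, ∃ p : Polynomial (_root_.Fermat.Agent.A2.Mod.RE P E), p.map (IsLocalRing.residue (_root_.Fermat.Agent.A2.Mod.RE P E)) = Pb i :=
    fun i => Polynomial.map_surjective _ IsLocalRing.residue_surjective (Pb i)
  choose p hp using hsurj
  have hrel : ∑ i, aeval (castL (IsLocalRing.ResidueField (_root_.Fermat.Agent.A2.Mod.RE P E)) (qExpand ℤ M (jqModC ℤ)))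
      ((p i).map (IsLocalRing.residue (_root_.Fermat.Agent.A2.Mod.RE P E))) *
      castL (IsLocalRing.ResidueField (_root_.Fermat.Agent.A2.Mod.RE P E)) (Z i) = 0 := by
    rw [← hPb]
    exact Finset.sum_congr rfl fun i _ => by rw [hp i]
  have h1 := relation_inW P E hVM hS.dvr hS.unif (jE E M M dvd_rfl) _
    (coe_jE_incl M M dvd_rfl) h Z hh p hrel
  have h2 : InW P E M VM w (WM (∑ i, ev P E M (jE E M M dvd_rfl) (p i) * h i)) := by
    rw [← inW_comap_iff]
    exact H900.frickeStable P E M q w hS VM WM hVM hWM _ h1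
  have h3 : WM (∑ i, ev P E M (jE E M M dvd_rfl) (p i) * h i)
      = ∑ i, ev P E M (jE E M 1 (one_dvd M)) (p i) * g i := by
    rw [_root_.map_sum]
    refine Finset.sum_congr rfl fun i _ => ?_
    rw [_root_.map_mul, map_ev, hgh i, hWM.1 M 1 dvd_rfl (one_dvd M) (mul_one M)]
  rw [h3] at h2
  have h4 := relation_red P E hVM hS.unif (jE E M 1 (one_dvd M)) _
    (coe_jE_incl M 1 (one_dvd M)) g Y hg p h2
  rw [qExpand_one_apply, Fermat.Agent.S28.H325.castL_jqModC] at h4
  intro i
  rw [← hp i]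
  exact hY _ h4 i

end Dual

/-! ## the leaf L10 -/

section MainZero

variable (P : ValuationSubring _root_.Fermat.Agent.A2.Mod.Qb) (E : IntermediateField ℚ _root_.Fermat.Agent.A2.Mod.Qb) (M q : ℕ) [NeZero q]

theorem incl_castA_eq (y : LaurentSeries ℤ) :
    H708.incl (_root_.Fermat.Agent.A2.Mod.RE P E) (H708.castA (_root_.Fermat.Agent.A2.Mod.RE P E) y) = coeffMap (Int.castRingHom E) y := by
  rw [H708.incl, H708.castA, coeffMap_coeffMap]
  exact coeffMap_congr (RingHom.ext_int _ _) y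

/-- Frobenius for an arbitrary integer series: `x̄(t^q) = x̄(t)^q` in characteristic `q`. -/
theorem castL_qExpand_pow (hq : q.Prime) (k : Type*) [Field k] [CharP k q]
    (x : LaurentSeries ℤ) : castL k (qExpand ℤ q x) = castL k x ^ q := by
  have : Fact q.Prime := ⟨hq⟩
  obtain ⟨g, hg⟩ := H528.exists_frobCong q x
  have h1 : qExpand ℤ q x = x ^ q + HahnSeries.C (q : ℤ) * g := by
    rw [← hg]; ring
  have h2 : castL k (HahnSeries.C (q : ℤ)) = 0 := by
    ext n
    rw [castL, coeffMap_coeff, HahnSeries.coeff_zero, HahnSeries.C_apply,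
      HahnSeries.coeff_single]
    split_ifs
    · rw [eq_intCast, Int.cast_natCast, CharP.cast_eq_zero k q]
    · rw [_root_.map_zero]
  rw [h1, _root_.map_add, _root_.map_mul, h2, zero_mul, add_zero, _root_.map_pow]

/-- **L10, strong form**: the family `d` lies in `V∞`, is independent modulo `w` over `R[W x]`,
and `c = W ∘ d`. -/
theorem indZero_strong (w : _root_.Fermat.Agent.A2.Mod.RE P E) (hS : Setting P E M q w)
    (V : ValuationSubring (_root_.Fermat.Agent.A2.Mod.FE E (M * q))) (W : _root_.Fermat.Agent.A2.Mod.FE E (M * q) ≃ₐ[E] _root_.Fermat.Agent.A2.Mod.FE E (M * q))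
    (hV : IsVinf P E (M * q) V) (hW : IsFricke E (M * q) W) :
    ∃ d : Fin ((q + 1) * dedekindPsi M) → _root_.Fermat.Agent.A2.Mod.FE E (M * q),
      (∀ i, d i ∈ V) ∧ IndepMod P E (M * q) V w (W (xE E M q)) d ∧
      IndepMod P E (M * q) (V.comap (W : _root_.Fermat.Agent.A2.Mod.FE E (M * q) →+* _root_.Fermat.Agent.A2.Mod.FE E (M * q))) w (xE E M q)
        (fun i => W (d i)) := by
  have hM : NeZero M := ⟨hS.M_ne_zero⟩
  have hMq : NeZero (M * q) := ⟨mul_ne_zero hS.M_ne_zero (NeZero.ne q)⟩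
  have hchar : CharP (IsLocalRing.ResidueField (_root_.Fermat.Agent.A2.Mod.RE P E)) q :=
    charP_residueField P E hS.q_prime hS.lies_over
  obtain ⟨Y, hY, hYi⟩ := exists_monomials M q hS.q_prime hS.q_not_dvd
    (IsLocalRing.ResidueField (_root_.Fermat.Agent.A2.Mod.RE P E))
  obtain ⟨VM, hVM⟩ := H553.vinfExists P E M hS.M_ne_zero hS.dvr
  obtain ⟨WM, hWM⟩ := H751.frickeExists E M hS.M_ne_zero
  have hW' : H900.FrickeOnGens M WM := fun d d' _ _ hd hd' h => hWM.1 d d' hd hd' h
  have hsub : Submonoid.closure (intDivisorExpansions M) ≤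
      (Subring.closure (intDivisorExpansions M)).toSubmonoid := by
    rw [Submonoid.closure_le]
    exact Subring.subset_closure
  have hex : ∀ i, ∃ (g : _root_.Fermat.Agent.A2.Mod.FE E M) (Z : LaurentSeries ℤ),
      (g : LaurentSeries E) = H900.castL E (Y i) ∧
      ((WM g : _root_.Fermat.Agent.A2.Mod.FE E M) : LaurentSeries E) = H900.castL E Z :=
    fun i => H900.exists_int_of_closure hW' (hsub (hY i))
  choose g Z hg hZ using hex
  have hgi : ∀ i, (g i : LaurentSeries E)
      = H708.incl (_root_.Fermat.Agent.A2.Mod.RE P E) (H708.castA (_root_.Fermat.Agent.A2.Mod.RE P E) (Y i)) := fun i => by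
    rw [incl_castA_eq]; exact hg i
  have hhi : ∀ i, ((WM (g i) : _root_.Fermat.Agent.A2.Mod.FE E M) : LaurentSeries E)
      = H708.incl (_root_.Fermat.Agent.A2.Mod.RE P E) (H708.castA (_root_.Fermat.Agent.A2.Mod.RE P E) (Z i)) := fun i => by
    rw [incl_castA_eq]; exact hZ i
  have hdual := polyIndep_dual P E M q w hS WM hWM VM hVM g (fun i => WM (g i)) Y Z hgi hhi
    (fun i => hWM.2 (g i)) hYi
  -- the family at level `M q`
  set d : Fin ((q + 1) * dedekindPsi M) → _root_.Fermat.Agent.A2.Mod.FE E (M * q) := fun i =>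
    αE E M q (WM (g (finProdFinEquiv.symm i).2) *
      (jE E M M dvd_rfl) ^ ((finProdFinEquiv.symm i).1 : ℕ)) with hd
  have hdcoe : ∀ i, (d i : LaurentSeries E) = H708.incl (_root_.Fermat.Agent.A2.Mod.RE P E) (H708.castA (_root_.Fermat.Agent.A2.Mod.RE P E)
      (Z (finProdFinEquiv.symm i).2 *
        (qExpand ℤ M (jqModC ℤ)) ^ ((finProdFinEquiv.symm i).1 : ℕ))) := fun i => by
    rw [hd, coe_heckeAlphaBar, IntermediateField.coe_mul, IntermediateField.coe_pow, hhi,
      coe_jE_incl (P := P) M M dvd_rfl, _root_.map_mul, _root_.map_mul, _root_.map_pow, _root_.map_pow]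
  have hdV : ∀ i, d i ∈ V := fun i => by
    rw [hV, hdcoe]
    exact H708.IsGaussInt.of_incl _
  have hWx : W (xE E M q) = jE E (M * q) (M * q) dvd_rfl * jE E (M * q) M (dvd_mul_right M q) := by
    rw [xE, _root_.map_mul, hW.1 1 (M * q) (one_dvd _) dvd_rfl (one_mul _),
      hW.1 q M (dvd_mul_left q M) (dvd_mul_right M q) (mul_comm q M)]
  have hWxcoe : ((W (xE E M q) : _root_.Fermat.Agent.A2.Mod.FE E (M * q)) : LaurentSeries E)
      = H708.incl (_root_.Fermat.Agent.A2.Mod.RE P E) (H708.castA (_root_.Fermat.Agent.A2.Mod.RE P E)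
        (qExpand ℤ (M * q) (jqModC ℤ) * qExpand ℤ M (jqModC ℤ))) := by
    rw [hWx, IntermediateField.coe_mul, coe_jE_incl (P := P) (M * q) (M * q) dvd_rfl,
      coe_jE_incl (P := P) (M * q) M (dvd_mul_right M q), _root_.map_mul, _root_.map_mul]
  have hXW : castL (IsLocalRing.ResidueField (_root_.Fermat.Agent.A2.Mod.RE P E))
      (qExpand ℤ (M * q) (jqModC ℤ) * qExpand ℤ M (jqModC ℤ))
      = castL (IsLocalRing.ResidueField (_root_.Fermat.Agent.A2.Mod.RE P E)) (qExpand ℤ M (jqModC ℤ)) ^ (q + 1) := by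
    have h1 : qExpand ℤ (M * q) (jqModC ℤ) = qExpand ℤ q (qExpand ℤ M (jqModC ℤ)) := by
      rw [qExpand_qExpand]
      exact qExpand_congr (mul_comm M q) _
    rw [_root_.map_mul, h1, castL_qExpand_pow q hS.q_prime, pow_succ]
  have hind : IndepMod P E (M * q) V w (W (xE E M q)) d := by
    intro a ha i
    have h1 := relation_red P E hV hS.unif (W (xE E M q)) _ hWxcoe d _ hdcoe a ha
    rw [hXW] at h1
    have h2 : ∑ i, aeval (castL (IsLocalRing.ResidueField (_root_.Fermat.Agent.A2.Mod.RE P E))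
          (qExpand ℤ M (jqModC ℤ)) ^ (q + 1))
        ((a i).map (IsLocalRing.residue (_root_.Fermat.Agent.A2.Mod.RE P E))) *
        (castL (IsLocalRing.ResidueField (_root_.Fermat.Agent.A2.Mod.RE P E)) (Z (finProdFinEquiv.symm i).2) *
          castL (IsLocalRing.ResidueField (_root_.Fermat.Agent.A2.Mod.RE P E)) (qExpand ℤ M (jqModC ℤ))
            ^ ((finProdFinEquiv.symm i).1 : ℕ)) = 0 := by
      rw [← h1]
      refine Finset.sum_congr rfl fun i _ => ?_
      rw [_root_.map_mul, _root_.map_pow]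
    have hzero := polyIndep_tower (q + 1) (Nat.succ_pos q) _ _ hdual
      (fun i => (a i).map (IsLocalRing.residue (_root_.Fermat.Agent.A2.Mod.RE P E))) h2 i
    exact C_dvd_of_map_residue_eq_zero P E hS.dvr hS.unif hzero
  refine ⟨d, hdV, hind, ?_⟩
  intro a ha i
  rw [inW_comap_iff] at ha
  have h3 : W (∑ i, ev P E (M * q) (xE E M q) (a i) * W (d i))
      = ∑ i, ev P E (M * q) (W (xE E M q)) (a i) * d i := by
    rw [_root_.map_sum]
    refine Finset.sum_congr rfl fun i _ => ?_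
    rw [_root_.map_mul, map_ev, hW.2]
  rw [h3] at ha
  exact hind a ha i

/-- **L10** `IndZero` (exact shape of `Spec.IndZeroStatement`). -/
theorem indZero (w : _root_.Fermat.Agent.A2.Mod.RE P E) : IndZeroStatement P E M q w := by
  intro hS V W hV hW
  obtain ⟨d, hdV, -, hc⟩ := indZero_strong P E M q w hS V W hV hW
  refine ⟨fun i => W (d i), fun i => ?_, hc⟩
  rw [hW.2]
  exact hdV i

end MainZero

/-! ## the coordinate `x⁻¹` (chart at infinity): the reverse trick -/

section Inv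

variable (P : ValuationSubring _root_.Fermat.Agent.A2.Mod.Qb) (E : IntermediateField ℚ _root_.Fermat.Agent.A2.Mod.Qb)

theorem ev_reflect {N : ℕ} (x : _root_.Fermat.Agent.A2.Mod.FE E N) (hx : x ≠ 0) (D : ℕ) (p : Polynomial (_root_.Fermat.Agent.A2.Mod.RE P E))
    (hp : p.natDegree ≤ D) :
    ev P E N x (p.reflect D) = ev P E N x⁻¹ p * x ^ D := by
  letI : Invertible (x⁻¹) := ⟨x, mul_inv_cancel₀ hx, inv_mul_cancel₀ hx⟩
  have h := Polynomial.eval₂_reflect_mul_pow
    ((algebraMap E (_root_.Fermat.Agent.A2.Mod.FE E N)).comp (_root_.Fermat.Agent.A2.Mod.RE P E).subtype) (x⁻¹) D p hp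
  have h2 : ⅟(x⁻¹) = x := rfl
  rw [h2] at h
  have h3 : ev P E N x (p.reflect D) * (x⁻¹) ^ D * x ^ D = ev P E N x⁻¹ p * x ^ D := by
    rw [ev, ev, h]
  rw [← h3, mul_assoc, ← mul_pow, inv_mul_cancel₀ hx, one_pow, mul_one]

theorem C_dvd_of_C_dvd_reflect {w : _root_.Fermat.Agent.A2.Mod.RE P E} {D : ℕ} {p : Polynomial (_root_.Fermat.Agent.A2.Mod.RE P E)}
    (h : Polynomial.C w ∣ p.reflect D) : Polynomial.C w ∣ p := by
  rw [Polynomial.C_dvd_iff_dvd_coeff] at h ⊢
  intro j
  have := h (Polynomial.revAt D j)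
  rwa [Polynomial.coeff_reflect, Polynomial.revAt_invol] at this

/-- **reverse trick.**  Independence modulo `w` over `R[x]` implies independence modulo `w` over
`R[x⁻¹]`, for `x ∈ V`. -/
theorem indepMod_inv {N n : ℕ} (V : ValuationSubring (_root_.Fermat.Agent.A2.Mod.FE E N)) (w : _root_.Fermat.Agent.A2.Mod.RE P E) (x : _root_.Fermat.Agent.A2.Mod.FE E N)
    (hx : x ∈ V) (b : Fin n → _root_.Fermat.Agent.A2.Mod.FE E N) (h : IndepMod P E N V w x b) :
    IndepMod P E N V w x⁻¹ b := by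
  by_cases hx0 : x = 0
  · rw [hx0, inv_zero]
    rw [hx0] at h
    exact h
  intro a ha i
  set D : ℕ := Finset.univ.sup (fun i => (a i).natDegree) with hD
  have hdeg : ∀ i, (a i).natDegree ≤ D := fun i =>
    Finset.le_sup (f := fun i => (a i).natDegree) (Finset.mem_univ i)
  have h1 : ∑ i, ev P E N x ((a i).reflect D) * b i
      = (∑ i, ev P E N x⁻¹ (a i) * b i) * x ^ D := by
    rw [Finset.sum_mul]
    refine Finset.sum_congr rfl fun i _ => ?_
    rw [ev_reflect P E x hx0 D (a i) (hdeg i)]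
    ring
  have h2 : InW P E N V w (∑ i, ev P E N x ((a i).reflect D) * b i) := by
    rw [h1]
    show (∑ i, ev P E N x⁻¹ (a i) * b i) * x ^ D * (cE P E N w)⁻¹ ∈ V
    have h3 : (∑ i, ev P E N x⁻¹ (a i) * b i) * x ^ D * (cE P E N w)⁻¹
        = ((∑ i, ev P E N x⁻¹ (a i) * b i) * (cE P E N w)⁻¹) * x ^ D := by ring
    rw [h3]
    exact mul_mem ha (pow_mem hx D)
  exact C_dvd_of_C_dvd_reflect P E (h _ h2 i)

end Inv

end Fermat.Agent.A2.Mod.H753

end

end
-- ===== PACK-END A2/Mod/H753/IndZero.lean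

-- ===== PACK-BEGIN Ribet/H224/WPNBranch.lean
section



/-!
# RIBET row 38, WALL-p, W-ALGP leaf WPN: the branch calculus  (helper224)

`B` a domain with fraction field `F`, `q` a prime of `B` (a component of the special fibre),
`V = B_q = locAt F q`.  Elementwise forms (fractions with denominators outside `q`):

* `wpn_lam_pow`        : `(ζ - 1) ^ (p - 1) = p · unit`;
* `wpn_branch_newton`  : `u ∈ 1 + lam^p w V ⟹ u = H ^ p (1 + lam^p w^k c)` with `H, c ∈ V`, every `k`;
* `wpn_branch_pthPow`  : the branch hypothesis of `H704.I6.WildPurityStatement` for `g = a b^(p-1)`,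
  `u = a / b`;
* `wpn_branch_close`   : `u ∈ 1 + lam^p w V`, `u d ^ p ∈ 1 + lam^p V ⟹ d ∈ 1 + lam V`.
-/

set_option autoImplicit false
set_option linter.unusedSectionVars false

namespace Fermat.Agent.Ribet.H224

open Fermat.Agent.A2.H849 Fermat.Agent.A2.H609 Finset

/-- `(ζ - 1) ^ (p - 1) = p · unit` for a primitive `p`-th root of unity in a domain. -/
theorem wpn_lam_pow {R : Type*} [CommRing R] [IsDomain R] {p : ℕ} (hp : p.Prime) {ζ : R}
    (hζ : IsPrimitiveRoot ζ p) : ∃ ε : R, IsUnit ε ∧ (ζ - 1) ^ (p - 1) = (p : R) * ε := by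
  have hpp : p = (p - 1) + 1 := by have := hp.two_le; omega
  have hζ' : IsPrimitiveRoot ζ ((p - 1) + 1) := by rw [← hpp]; exact hζ
  have hprod := hζ'.prod_pow_sub_one_eq_order
  have hex : ∀ k : ℕ, ∃ v : Rˣ, k ∈ range (p - 1) → (ζ - 1) * v = ζ ^ (k + 1) - 1 := by
    intro k
    by_cases hk : k ∈ range (p - 1)
    · have hk' : k + 1 < p := by rw [mem_range] at hk; omega
      have hcop : (k + 1).Coprime p :=
        (Nat.coprime_comm.1 ((Nat.Prime.coprime_iff_not_dvd hp).2
          (Nat.not_dvd_of_pos_of_lt (Nat.succ_pos k) hk')))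
      obtain ⟨v, hv⟩ := hζ.associated_sub_one_pow_sub_one_of_coprime hcop
      exact ⟨v, fun _ => hv⟩
    · exact ⟨1, fun h => absurd h hk⟩
  choose v hv using hex
  have h1 : ∏ k ∈ range (p - 1), (ζ ^ (k + 1) - 1)
      = (ζ - 1) ^ (p - 1) * ((∏ k ∈ range (p - 1), v k : Rˣ) : R) := by
    rw [Units.coe_prod]
    calc ∏ k ∈ range (p - 1), (ζ ^ (k + 1) - 1)
        = ∏ k ∈ range (p - 1), ((ζ - 1) * ((v k : Rˣ) : R)) :=
          Finset.prod_congr rfl fun k hk => (hv k hk).symm
      _ = (ζ - 1) ^ (p - 1) * ∏ k ∈ range (p - 1), ((v k : Rˣ) : R) := by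
          rw [Finset.prod_mul_distrib, Finset.prod_const, Finset.card_range]
  set W : Rˣ := (-1) ^ (p - 1) * ∏ k ∈ range (p - 1), v k with hW
  have h2 : (ζ - 1) ^ (p - 1) * (W : R) = (p : R) := by
    have h3 : ((p - 1 : ℕ) : R) + 1 = (p : R) := by
      rw [← Nat.cast_succ]
      congr 1
      omega
    rw [← h3, ← hprod, h1, hW]
    push_cast
    ring
  refine ⟨((W⁻¹ : Rˣ) : R), Units.isUnit _, ?_⟩
  rw [← h2, mul_assoc, Units.mul_inv, mul_one]

section Branch

variable {B : Type*} [CommRing B] [IsDomain B]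
variable {F : Type*} [Field F] [Algebra B F] [IsFractionRing B F]

omit [IsDomain B] in
/-- `b ∉ q ⟹ algebraMap b ≠ 0`. -/
theorem wpn_ne_zero {q : Ideal B} {b : B} (hb : b ∉ q) : algebraMap B F b ≠ 0 := by
  intro h
  apply hb
  have : b = 0 := IsFractionRing.injective B F (by rw [h, map_zero])
  rw [this]
  exact q.zero_mem

/-- The deep hypothesis in fraction form: `u = 1 + lam^p w (s / b)`. -/
theorem wpn_deep_frac {q : Ideal B} {lam w : B} {p : ℕ} {u : F}
    (hdeep : ∃ a b : B, b ∉ q ∧ a - b ∈ Ideal.span {lam ^ p * w} ∧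
      u * algebraMap B F b = algebraMap B F a) :
    ∃ s b : B, b ∉ q ∧ u = 1 + algebraMap B F lam ^ p * algebraMap B F w *
      (algebraMap B F s * (algebraMap B F b)⁻¹) := by
  obtain ⟨a, b, hb, hab, e⟩ := hdeep
  obtain ⟨s, hs⟩ := Ideal.mem_span_singleton'.1 hab
  have hb0 : algebraMap B F b ≠ 0 := wpn_ne_zero hb
  refine ⟨s, b, hb, ?_⟩
  have ha : algebraMap B F a = algebraMap B F b +
      algebraMap B F s * (algebraMap B F lam ^ p * algebraMap B F w) := by
    have : a = b + s * (lam ^ p * w) := by rw [hs]; ring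
    rw [this]
    simp only [map_add, map_mul, map_pow]
  have hu : u = algebraMap B F a * (algebraMap B F b)⁻¹ := by
    rw [← e, mul_assoc, mul_inv_cancel₀ hb0, mul_one]
  rw [hu, ha]
  field_simp

/-- **Newton on a branch**: `u ∈ 1 + lam^p w B_q` is, for every `k ≥ 1`, of the form
`(α/ρ) ^ p (1 + lam^p w^k γ/σ)` with `ρ, σ ∉ q`. -/
theorem wpn_branch_newton (q : Ideal B) [q.IsPrime] {p : ℕ} (hp : p.Prime) {lam κ w : B}
    (hκ : IsUnit κ) (hpl : (p : B) = lam ^ (p - 1) * κ) (hwq : w ∈ q) {u : F}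
    (hdeep : ∃ a b : B, b ∉ q ∧ a - b ∈ Ideal.span {lam ^ p * w} ∧
      u * algebraMap B F b = algebraMap B F a)
    (k : ℕ) (hk : 1 ≤ k) :
    ∃ α ρ γ σ : B, ρ ∉ q ∧ σ ∉ q ∧
      u * algebraMap B F ρ ^ p * algebraMap B F σ =
        algebraMap B F α ^ p *
          (algebraMap B F σ + algebraMap B F lam ^ p * algebraMap B F w ^ k * algebraMap B F γ) := by
  obtain ⟨s, b, hb, hu⟩ := wpn_deep_frac hdeep
  have hb0 : algebraMap B F b ≠ 0 := wpn_ne_zero hb
  let T : locAt F q := ⟨algebraMap B F s * (algebraMap B F b)⁻¹, (mem_locAt_iff q _).2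
    ⟨s, b, hb, rfl⟩⟩
  have hπ : algebraMap B (locAt F q) w ∈ IsLocalRing.maximalIdeal (locAt F q) :=
    (IsLocalization.AtPrime.to_map_mem_maximal_iff (locAt F q) q w).2 hwq
  have hpl' : ((p : ℕ) : locAt F q) = algebraMap B (locAt F q) lam ^ (p - 1) *
      algebraMap B (locAt F q) κ := by
    rw [← map_pow, ← map_mul, ← hpl, map_natCast]
  obtain ⟨H, c', -, e⟩ := wpn_newton hp (hκ.map (algebraMap B (locAt F q))) hpl' hπ T k hk
  obtain ⟨α, ρ, hρ, hH⟩ := (mem_locAt_iff q (H : F)).1 H.2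
  obtain ⟨γ, σ, hσ, hc'⟩ := (mem_locAt_iff q (c' : F)).1 c'.2
  have hρ0 : algebraMap B F ρ ≠ 0 := wpn_ne_zero hρ
  have hσ0 : algebraMap B F σ ≠ 0 := wpn_ne_zero hσ
  have eF := congrArg (fun z : locAt F q => (z : F)) e
  simp only [Subalgebra.coe_add, Subalgebra.coe_mul, Subalgebra.coe_pow, Subalgebra.coe_one,
    coe_algebraMap_locAt] at eF
  have hT : (T : F) = algebraMap B F s * (algebraMap B F b)⁻¹ := rfl
  rw [hT, ← hu, hH, hc'] at eF
  refine ⟨α, ρ, γ, σ, hρ, hσ, ?_⟩
  have h1 : (algebraMap B F α * (algebraMap B F ρ)⁻¹) ^ p * algebraMap B F ρ ^ p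
      = algebraMap B F α ^ p := by
    rw [← mul_pow, mul_assoc, inv_mul_cancel₀ hρ0, mul_one]
  have h2 : (1 + algebraMap B F lam ^ p * algebraMap B F w ^ k *
      (algebraMap B F γ * (algebraMap B F σ)⁻¹)) * algebraMap B F σ
      = algebraMap B F σ + algebraMap B F lam ^ p * algebraMap B F w ^ k * algebraMap B F γ := by
    field_simp
  rw [← h1, ← h2, eF]
  ring

/-- **The branch hypothesis of WPUR**, inside `B`: for `u = a / b`, `g = a b ^ (p - 1)`
(`= u b ^ p`) is a `p`-th power modulo `w ^ k` in `B_q`, for every `k`. -/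
theorem wpn_branch_pthPow (q : Ideal B) [q.IsPrime] {p : ℕ} (hp : p.Prime) {lam κ w : B}
    (hκ : IsUnit κ) (hpl : (p : B) = lam ^ (p - 1) * κ) (hwq : w ∈ q) {u : F}
    (hdeep : ∃ a b : B, b ∉ q ∧ a - b ∈ Ideal.span {lam ^ p * w} ∧
      u * algebraMap B F b = algebraMap B F a)
    {a b : B} (hab : u * algebraMap B F b = algebraMap B F a) (k : ℕ) :
    ∃ h r t : B, r ∉ q ∧ (a * b ^ (p - 1)) * r ^ p - h ^ p = w ^ k * t := by
  rcases Nat.eq_zero_or_pos k with rfl | hk
  · refine ⟨0, 1, a * b ^ (p - 1), fun h => ?_, ?_⟩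
    · exact (inferInstance : q.IsPrime).ne_top ((Ideal.eq_top_iff_one q).2 h)
    · rw [zero_pow hp.ne_zero]
      ring
  obtain ⟨α, ρ, γ, σ, hρ, hσ, e⟩ := wpn_branch_newton q hp hκ hpl hwq hdeep k hk
  refine ⟨α * b * σ, ρ * σ, lam ^ p * γ * α ^ p * b ^ p * σ ^ (p - 1), fun h => ?_, ?_⟩
  · rcases (inferInstance : q.IsPrime).mem_or_mem h with h | h
    · exact hρ h
    · exact hσ h
  · apply IsFractionRing.injective B F
    have hpp : p = (p - 1) + 1 := by have := hp.two_le; omega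
    have hb : algebraMap B F b ^ p = algebraMap B F b ^ (p - 1) * algebraMap B F b := by
      rw [← pow_succ, ← hpp]
    have hσp : algebraMap B F σ ^ p = algebraMap B F σ ^ (p - 1) * algebraMap B F σ := by
      rw [← pow_succ, ← hpp]
    simp only [map_sub, map_mul, map_pow]
    rw [← hab]
    have e' : u * algebraMap B F b ^ p * (algebraMap B F ρ ^ p * algebraMap B F σ ^ p)
        = (u * algebraMap B F ρ ^ p * algebraMap B F σ) *
          (algebraMap B F b ^ p * algebraMap B F σ ^ (p - 1)) := by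
      rw [hσp]
      ring
    have e'' : u * algebraMap B F b * algebraMap B F b ^ (p - 1) = u * algebraMap B F b ^ p := by
      rw [hb]
      ring
    rw [mul_pow, e'', e', e, mul_pow, mul_pow, hσp]
    ring

/-- **Closing on a branch**: if `u ∈ 1 + lam^p w B_q` and `u d ^ p ∈ 1 + lam^p B_q` then
`d ∈ 1 + lam B_q`. -/
theorem wpn_branch_close [IsIntegrallyClosed B] (q : Ideal B) [q.IsPrime]
    [ValuationRing (locAt F q)] {p : ℕ} (hp : p.Prime)
    {lam κ w : B} (hpl : (p : B) = lam ^ (p - 1) * κ) (hwq : w ∈ q) {u : F}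
    (hdeep : ∃ a b : B, b ∉ q ∧ a - b ∈ Ideal.span {lam ^ p * w} ∧
      u * algebraMap B F b = algebraMap B F a)
    {d : F} {z : F} (hz : z ∈ locAt F q) (hd : u * d ^ p = 1 + algebraMap B F lam ^ p * z) :
    ∃ a b : B, b ∉ q ∧ a - b ∈ Ideal.span {lam} ∧ d * algebraMap B F b = algebraMap B F a := by
  obtain ⟨s, b, hb, hu⟩ := wpn_deep_frac hdeep
  have hb0 : algebraMap B F b ≠ 0 := wpn_ne_zero hb
  set V := locAt F q with hV
  have hcoe : ∀ b : B, ((algebraMap B V b : V) : F) = algebraMap B F b := fun _ => rfl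
  have hlamV : algebraMap B F lam ∈ V := V.algebraMap_mem lam
  have hwV : algebraMap B F w ∈ V := V.algebraMap_mem w
  have htV : algebraMap B F s * (algebraMap B F b)⁻¹ ∈ V := (mem_locAt_iff q _).2 ⟨s, b, hb, rfl⟩
  -- `u` is a unit of `V`
  have hbq : b + lam ^ p * w * s ∉ q := by
    intro h
    apply hb
    have : b = (b + lam ^ p * w * s) - lam ^ p * w * s := by ring
    rw [this]
    exact q.sub_mem h (q.mul_mem_right _ (q.mul_mem_left _ hwq))
  have hbq0 : algebraMap B F (b + lam ^ p * w * s) ≠ 0 := wpn_ne_zero hbq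
  have hu' : u = algebraMap B F (b + lam ^ p * w * s) * (algebraMap B F b)⁻¹ := by
    rw [hu]
    simp only [map_add, map_mul, map_pow]
    field_simp
  have hu0 : u ≠ 0 := by
    rw [hu']
    exact mul_ne_zero hbq0 (inv_ne_zero hb0)
  have huinv : u⁻¹ ∈ V := by
    rw [hV, mem_locAt_iff]
    refine ⟨b, b + lam ^ p * w * s, hbq, ?_⟩
    rw [hu', mul_inv, inv_inv, mul_comm]
  -- `d ^ p ∈ V`, hence `d ∈ V`
  have hdp : d ^ p = (1 + algebraMap B F lam ^ p * z) * u⁻¹ := by
    rw [← hd, mul_comm u, mul_assoc, mul_inv_cancel₀ hu0, mul_one]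
  have hdpV : d ^ p ∈ V := by
    rw [hdp]
    exact V.mul_mem (V.add_mem V.one_mem (V.mul_mem (V.pow_mem hlamV p) hz)) huinv
  have hint : IsIntegral V (d ^ p) := by
    have : d ^ p = algebraMap V F ⟨d ^ p, hdpV⟩ := rfl
    rw [this]
    exact isIntegral_algebraMap
  obtain ⟨D, hD⟩ := IsIntegrallyClosed.exists_algebraMap_eq_of_isIntegral_pow (R := V) (K := F)
    hp.pos hint
  have hDd : (D : F) = d := hD
  -- `lam ^ p ∣ D ^ p - 1`
  let Q : V := ⟨(z - algebraMap B F w * (algebraMap B F s * (algebraMap B F b)⁻¹)) * u⁻¹,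
    V.mul_mem (V.sub_mem hz (V.mul_mem hwV htV)) huinv⟩
  have hdvd : algebraMap B V lam ^ p ∣ D ^ p - 1 := by
    refine ⟨Q, ?_⟩
    apply Subtype.ext
    simp only [Subalgebra.coe_sub, Subalgebra.coe_mul, Subalgebra.coe_pow, Subalgebra.coe_one,
      hcoe]
    rw [hDd, hdp]
    show _ = algebraMap B F lam ^ p *
      ((z - algebraMap B F w * (algebraMap B F s * (algebraMap B F b)⁻¹)) * u⁻¹)
    have h1 : u * u⁻¹ = 1 := mul_inv_cancel₀ hu0
    linear_combination (-u⁻¹) * hu + h1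
  have hplV : ((p : ℕ) : V) = algebraMap B V lam ^ (p - 1) * algebraMap B V κ := by
    rw [← map_pow, ← map_mul, ← hpl, map_natCast]
  obtain ⟨q', hq'⟩ := wpn_root_close hp hplV hdvd
  obtain ⟨aq, sq, hsq, hq'F⟩ := (mem_locAt_iff q (q' : F)).1 q'.2
  have hsq0 : algebraMap B F sq ≠ 0 := wpn_ne_zero hsq
  have hq'F' := congrArg (fun z : V => (z : F)) hq'
  simp only [Subalgebra.coe_sub, Subalgebra.coe_mul, Subalgebra.coe_one, hcoe] at hq'F'
  rw [hDd, hq'F] at hq'F'
  refine ⟨sq + lam * aq, sq, hsq, ?_, ?_⟩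
  · rw [add_sub_cancel_left]
    exact Ideal.mul_mem_right _ _ (Ideal.mem_span_singleton_self _)
  · have hd' : d = 1 + algebraMap B F lam * (algebraMap B F aq * (algebraMap B F sq)⁻¹) := by
      linear_combination hq'F'
    rw [hd']
    simp only [map_add, map_mul]
    field_simp

end Branch

end Fermat.Agent.Ribet.H224

end
-- ===== PACK-END Ribet/H224/WPNBranch.lean

-- ===== PACK-BEGIN A2/IF/H429/Good.lean
section



/-!
# A2 / IF (helper429): finite levels over the inertia field are discretely valued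

`E₁` a finite extension of the inertia field `E_I = ℚ̄^{I_P}` inside `ℚ̄`.  Then
`P ∩ E₁` is a discrete valuation ring.  The level `level P S = E_I(conjugates of S)` is stable
under the inertia group.
-/

set_option autoImplicit false
set_option linter.style.haveILetI false
set_option linter.unusedSectionVars false

open scoped Pointwise
open Polynomial

namespace Fermat.Agent.A2.IF.H429

open Fermat.Agent.S55.Bridge Fermat.Agent.S55.Bridge.H594

attribute [local instance] isAlgebraic_Qbar isGalois_Qbar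

local notation "Qb" => AlgebraicClosure ℚ

variable (P : ValuationSubring Qb)

theorem valuation_natCast_lt_one (q : ℕ) (hP : P.LiesOverPrime q) :
    P.valuation (q : Qb) < 1 := by
  have h : (q : Qb) ∈ P.nonunits := hP
  rwa [ValuationSubring.mem_nonunits_iff] at h

theorem valuation_natCast_ne_zero (q : ℕ) (hq : q.Prime) : P.valuation (q : Qb) ≠ 0 := by
  rw [Valuation.ne_zero_iff]
  exact_mod_cast hq.ne_zero

/-- Conjugates over the inertia field have the same valuation. -/
theorem valuation_eq_of_root_minpoly (x r : Qb)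
    (hr : aeval r (minpoly (inertiaField P) x) = 0) : P.valuation r = P.valuation x := by
  haveI : IsGalois (inertiaField P) Qb := IsGalois.tower_top_of_isGalois ℚ (inertiaField P) Qb
  haveI : Normal (inertiaField P) Qb := IsGalois.to_normal
  have hx : IsAlgebraic (inertiaField P) x := Algebra.IsAlgebraic.isAlgebraic x
  obtain ⟨σ, hσ⟩ := minpoly.exists_algEquiv_of_root hx hr
  have h1 := valuation_map_eq_of_fixes P (inertiaField P) le_rfl (σ.restrictScalars ℚ)
    (fun e he => σ.commutes ⟨e, he⟩) r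
  rw [← hσ]
  exact h1.symm

/-- For `x` in a finite extension `E₁` of the inertia field, `x ^ [E₁ : E_I]!` has the value of a
power of `q`. -/
theorem exists_pow_valuation_eq (q : ℕ) (hq : q.Prime) (hP : P.LiesOverPrime q)
    (E₁ : IntermediateField (inertiaField P) Qb) [FiniteDimensional (inertiaField P) E₁]
    (x : Qb) (hx : x ∈ E₁) (hx0 : x ≠ 0) :
    ∃ k : ℤ, P.valuation (x ^ (Module.finrank (inertiaField P) E₁).factorial) =
      P.valuation (q : Qb) ^ k := by
  have hxint : IsIntegral (inertiaField P) x := Algebra.IsIntegral.isIntegral x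
  set p := minpoly (inertiaField P) x with hp
  have hd0 : 0 < p.natDegree := minpoly.natDegree_pos hxint
  have hd : p.natDegree ≤ Module.finrank (inertiaField P) E₁ := by
    have h1 := minpoly.natDegree_le (A := inertiaField P) (⟨x, hx⟩ : E₁)
    rw [IntermediateField.minpoly_eq] at h1
    exact h1
  have hpm : p.Monic := minpoly.monic hxint
  have hc0 : p.coeff 0 ≠ 0 := minpoly.coeff_zero_ne_zero hxint hx0
  -- the value of the constant coefficient
  have hval : P.valuation ((p.coeff 0 : inertiaField P) : Qb) = P.valuation x ^ p.natDegree := by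
    have hsplit : (p.map (algebraMap (inertiaField P) Qb)).Splits := IsAlgClosed.splits _
    have h1 := hsplit.coeff_zero_eq_prod_roots_of_monic (hpm.map _)
    rw [coeff_map] at h1
    have h2 : algebraMap (inertiaField P) Qb (p.coeff 0) = ((p.coeff 0 : inertiaField P) : Qb) :=
      rfl
    rw [h2] at h1
    rw [h1, _root_.map_mul, _root_.map_pow, Valuation.map_neg, _root_.map_one, one_pow, one_mul, _root_.map_multiset_prod]
    have h3 : (p.map (algebraMap (inertiaField P) Qb)).roots.map P.valuation =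
        Multiset.replicate (p.map (algebraMap (inertiaField P) Qb)).roots.card
          (P.valuation x) := by
      rw [Multiset.eq_replicate]
      refine ⟨Multiset.card_map _ _, fun b hb => ?_⟩
      obtain ⟨r, hr, rfl⟩ := Multiset.mem_map.mp hb
      apply valuation_eq_of_root_minpoly P x r
      have h4 := isRoot_of_mem_roots hr
      rw [IsRoot, eval_map, ← aeval_def] at h4
      exact h4
    rw [h3, Multiset.prod_replicate, ← hsplit.natDegree_eq_card_roots, hpm.natDegree_map]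
  obtain ⟨k, hk⟩ := exists_zpow_of_mem_inertiaField P q hq hP
    ((p.coeff 0 : inertiaField P) : Qb) (p.coeff 0).2
    (fun h => hc0 (Subtype.ext h))
  rw [map_div₀, map_zpow₀] at hk
  have hqv : P.valuation (q : Qb) ^ k ≠ 0 :=
    zpow_ne_zero k (valuation_natCast_ne_zero P q hq)
  have hk' : P.valuation ((p.coeff 0 : inertiaField P) : Qb) = P.valuation (q : Qb) ^ k :=
    (div_eq_one_iff_eq hqv).mp hk
  obtain ⟨e, he⟩ := Nat.dvd_factorial hd0 hd
  refine ⟨k * e, ?_⟩
  rw [he, _root_.map_pow, pow_mul, ← hval, hk', zpow_mul, zpow_natCast]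

/-- `P ∩ E` is a discrete valuation ring when every element of `E` has, after raising to a fixed
power `N`, the value of a power of `q`. -/
theorem isDiscreteValuationRing_RE_of_pow (q : ℕ) (hq : q.Prime) (hP : P.LiesOverPrime q)
    (E : IntermediateField ℚ Qb) (N : ℕ) (hN : 0 < N)
    (h : ∀ x : Qb, x ∈ E → x ≠ 0 → ∃ k : ℤ, P.valuation (x ^ N) = P.valuation (q : Qb) ^ k) :
    IsDiscreteValuationRing (P.comap (algebraMap E Qb)) := by
  have hqlt := valuation_natCast_lt_one P q hP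
  have hq0 := valuation_natCast_ne_zero P q hq
  have hqpos : 0 < P.valuation (q : Qb) := zero_lt_iff.mpr hq0
  have hcoe : ∀ n : ℕ, ((((n : ℕ) : P.comap (algebraMap E Qb)) : E) : Qb) = (n : Qb) := by
    intro n
    simp
  refine isDiscreteValuationRing_of_pow_associated
    ((q : ℕ) : P.comap (algebraMap E Qb)) ?_ ?_ N hN ?_
  · intro h0
    have h1 := hcoe q
    rw [h0] at h1
    have h2 : (q : Qb) = 0 := by
      rw [← h1]; rfl
    exact hq.ne_zero (by exact_mod_cast h2)
  · intro hu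
    have h1 : ((q : ℕ) : P.comap (algebraMap E Qb)) ∈
        IsLocalRing.maximalIdeal (P.comap (algebraMap E Qb)) := by
      rw [mem_maximalIdeal_RE_iff, hcoe]
      exact hP
    exact (IsLocalRing.mem_maximalIdeal _).mp h1 hu
  · intro x hx
    have hxE : ((x : E) : Qb) ∈ E := (x : E).2
    have hx0 : ((x : E) : Qb) ≠ 0 := by
      intro h0
      apply hx
      apply Subtype.ext
      apply Subtype.ext
      exact h0
    have hxP : ((x : E) : Qb) ∈ P := x.2
    obtain ⟨k, hk⟩ := h _ hxE hx0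
    -- `k ≥ 0`
    have hle : P.valuation (((x : E) : Qb) ^ N) ≤ 1 :=
      (P.valuation_le_one_iff _).mpr (pow_mem hxP N)
    have hk0 : 0 ≤ k := by
      by_contra hneg
      rw [not_le] at hneg
      have h1 : 1 < P.valuation (q : Qb) ^ k := by
        obtain ⟨m, hm⟩ : ∃ m : ℕ, k = -((m : ℤ) + 1) := ⟨(-k - 1).toNat, by omega⟩
        rw [hm, zpow_neg]
        have h2 : P.valuation (q : Qb) ^ ((m : ℤ) + 1) < 1 := by
          have : P.valuation (q : Qb) ^ ((m : ℤ) + 1) = P.valuation (q : Qb) ^ (m + 1) := by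
            exact_mod_cast zpow_natCast (P.valuation (q : Qb)) (m + 1)
          rw [this]
          exact pow_lt_one₀ zero_le hqlt (Nat.succ_ne_zero m)
        have h3 : 0 < P.valuation (q : Qb) ^ ((m : ℤ) + 1) := zpow_pos hqpos _
        exact (one_lt_inv₀ h3).mpr h2
      rw [← hk] at h1
      exact absurd hle (not_le.mpr h1)
    obtain ⟨n, rfl⟩ := Int.eq_ofNat_of_zero_le hk0
    rw [zpow_natCast] at hk
    refine ⟨n, ?_⟩
    -- the unit
    let u : Qb := ((x : E) : Qb) ^ N / (q : Qb) ^ n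
    have huv : P.valuation u = 1 := by
      show P.valuation (((x : E) : Qb) ^ N / (q : Qb) ^ n) = 1
      rw [map_div₀, hk, _root_.map_pow]
      exact div_self (pow_ne_zero n hq0)
    have huE : u ∈ E := div_mem (pow_mem hxE N) (pow_mem (natCast_mem E q) n)
    have huP : u ∈ P := (P.valuation_le_one_iff _).mp huv.le
    let uR : P.comap (algebraMap E Qb) := ⟨⟨u, huE⟩, huP⟩
    have huR : IsUnit uR := by
      rw [← IsLocalRing.notMem_maximalIdeal, mem_maximalIdeal_RE_iff,
        ValuationSubring.mem_nonunits_iff]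
      show ¬ P.valuation u < 1
      rw [huv]
      exact lt_irrefl _
    have heq : x ^ N = ((q : ℕ) : P.comap (algebraMap E Qb)) ^ n * uR := by
      apply Subtype.ext
      apply Subtype.ext
      show ((x : E) : Qb) ^ N = ((((q : ℕ) : P.comap (algebraMap E Qb)) : E) : Qb) ^ n * u
      rw [hcoe]
      have hqn : (q : Qb) ^ n ≠ 0 := pow_ne_zero n (by exact_mod_cast hq.ne_zero)
      show ((x : E) : Qb) ^ N = (q : Qb) ^ n * (((x : E) : Qb) ^ N / (q : Qb) ^ n)
      field_simp
    rw [heq]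
    exact associated_mul_unit_left _ uR huR


/-- All conjugates over `ℚ` of the elements of a finite set. -/
noncomputable def conjSet (S : Finset Qb) : Set Qb := (∏ s ∈ S, minpoly ℚ s).rootSet Qb

theorem conjSet_prod_ne_zero (S : Finset Qb) : (∏ s ∈ S, minpoly ℚ s) ≠ 0 :=
  Finset.prod_ne_zero_iff.mpr fun s _ => minpoly.ne_zero (Algebra.IsIntegral.isIntegral s)

theorem conjSet_finite (S : Finset Qb) : (conjSet S).Finite := Polynomial.rootSet_finite _ _

theorem mem_conjSet_iff (S : Finset Qb) (x : Qb) :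
    x ∈ conjSet S ↔ aeval x (∏ s ∈ S, minpoly ℚ s) = 0 := by
  unfold conjSet
  rw [Polynomial.mem_rootSet]
  exact ⟨fun h => h.2, fun h => ⟨conjSet_prod_ne_zero S, h⟩⟩

theorem mem_conjSet (S : Finset Qb) {s : Qb} (hs : s ∈ S) : s ∈ conjSet S := by
  rw [mem_conjSet_iff, _root_.map_prod]
  exact Finset.prod_eq_zero hs (minpoly.aeval ℚ s)

theorem map_mem_conjSet (S : Finset Qb) (σ : Qb ≃ₐ[ℚ] Qb) {x : Qb} (hx : x ∈ conjSet S) :
    σ x ∈ conjSet S := by
  rw [mem_conjSet_iff] at hx ⊢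
  have := Polynomial.aeval_algHom_apply (σ : Qb →ₐ[ℚ] Qb) x (∏ s ∈ S, minpoly ℚ s)
  rw [hx, _root_.map_zero] at this
  exact this

/-- The level: the inertia field with all conjugates of `S` adjoined, over the inertia field. -/
noncomputable def level₁ (S : Finset Qb) : IntermediateField (inertiaField P) Qb :=
  IntermediateField.adjoin (inertiaField P) (conjSet S)

instance level₁_finiteDimensional (S : Finset Qb) :
    FiniteDimensional (inertiaField P) (level₁ P S) := by
  haveI : Finite (conjSet S) := (conjSet_finite S).to_subtype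
  exact IntermediateField.finiteDimensional_adjoin
    (fun x _ => Algebra.IsIntegral.isIntegral x)

/-- The level as an intermediate field of `ℚ̄/ℚ`. -/
noncomputable def level (S : Finset Qb) : IntermediateField ℚ Qb :=
  (level₁ P S).restrictScalars ℚ

theorem mem_level_iff (S : Finset Qb) (x : Qb) : x ∈ level P S ↔ x ∈ level₁ P S := Iff.rfl

theorem inertiaField_le_level (S : Finset Qb) : inertiaField P ≤ level P S := by
  intro x hx
  rw [mem_level_iff]
  exact (level₁ P S).algebraMap_mem ⟨x, hx⟩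

theorem mem_level_of_mem (S : Finset Qb) {s : Qb} (hs : s ∈ S) : s ∈ level P S := by
  rw [mem_level_iff]
  exact IntermediateField.subset_adjoin _ _ (mem_conjSet S hs)

/-- The level is stable under every automorphism fixing the inertia field pointwise. -/
theorem level_stable (S : Finset Qb) (τ : Qb ≃ₐ[ℚ] Qb)
    (hτ : ∀ e ∈ inertiaField P, τ e = e) {x : Qb} (hx : x ∈ level P S) : τ x ∈ level P S := by
  let τK : Qb ≃ₐ[inertiaField P] Qb :=
    { τ.toRingEquiv with commutes' := fun e => hτ (e : Qb) e.2 }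
  have hτK : ∀ y : Qb, τK y = τ y := fun _ => rfl
  have h1 : (level₁ P S).map (τK : Qb →ₐ[inertiaField P] Qb) ≤ level₁ P S := by
    unfold level₁
    rw [IntermediateField.adjoin_map]
    apply IntermediateField.adjoin.mono
    rintro _ ⟨y, hy, rfl⟩
    exact map_mem_conjSet S τ hy
  rw [mem_level_iff] at hx ⊢
  apply h1
  rw [IntermediateField.mem_map]
  exact ⟨x, hx, rfl⟩

theorem level_stable_inertia (S : Finset Qb) {τ : Qb ≃ₐ[ℚ] Qb}
    (hτ : τ ∈ P.inertiaSubgroupIn ℚ) {x : Qb} (hx : x ∈ level P S) : τ x ∈ level P S :=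
  level_stable P S τ (fun e he => (mem_inertiaField_iff P).mp he τ hτ) hx

/-- The level is discretely valued. -/
theorem isDiscreteValuationRing_level (q : ℕ) (hq : q.Prime) (hP : P.LiesOverPrime q)
    (S : Finset Qb) : IsDiscreteValuationRing (P.comap (algebraMap (level P S) Qb)) :=
  isDiscreteValuationRing_RE_of_pow P q hq hP (level P S)
    (Module.finrank (inertiaField P) (level₁ P S)).factorial (Nat.factorial_pos _)
    (fun x hx hx0 => exists_pow_valuation_eq P q hq hP (level₁ P S) x hx hx0)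


theorem iterate_eq_pow_apply (σ : Qb ≃ₐ[ℚ] Qb) (r : ℕ) (x : Qb) : (⇑σ)^[r] x = (σ ^ r) x := by
  induction r with
  | zero => rfl
  | succ n ih =>
    rw [Function.iterate_succ_apply', ih, pow_succ']
    rfl

theorem pow_mul_apply_eq (σ : Qb ≃ₐ[ℚ] Qb) (a b : ℕ) (x : Qb) (h : (σ ^ a) x = x) :
    (σ ^ (a * b)) x = x := by
  induction b with
  | zero => simp
  | succ n ih =>
    rw [Nat.mul_succ, pow_add]
    show (σ ^ (a * n)) ((σ ^ a) x) = x
    rw [h, ih]

/-- Some positive power of `σ` fixes every element of a finite set. -/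
theorem exists_pow_fixes_finset (σ : Qb ≃ₐ[ℚ] Qb) (T : Finset Qb) :
    ∃ r : ℕ, 0 < r ∧ ∀ x ∈ T, (σ ^ r) x = x := by
  classical
  induction T using Finset.induction_on with
  | empty => exact ⟨1, one_pos, fun x hx => absurd hx (Finset.notMem_empty x)⟩
  | insert a T _ ih =>
    obtain ⟨r, hr, hT⟩ := ih
    obtain ⟨k, hk⟩ := exists_pow_apply_eq σ a
    refine ⟨(k + 1) * r, Nat.mul_pos (Nat.succ_pos k) hr, fun x hx => ?_⟩
    rcases Finset.mem_insert.mp hx with rfl | hx
    · exact pow_mul_apply_eq σ (k + 1) r x hk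
    · rw [mul_comm]
      exact pow_mul_apply_eq σ r (k + 1) x (hT x hx)

/-- An automorphism fixing the inertia field and the conjugates of `S` fixes the level. -/
theorem level_fixed (S : Finset Qb) (ρ : Qb ≃ₐ[ℚ] Qb)
    (hρ : ∀ e ∈ inertiaField P, ρ e = e) (hS : ∀ x ∈ conjSet S, ρ x = x)
    {x : Qb} (hx : x ∈ level P S) : ρ x = x := by
  rw [mem_level_iff] at hx
  unfold level₁ at hx
  induction hx using IntermediateField.adjoin_induction with
  | mem x hx => exact hS x hx
  | algebraMap x => exact hρ _ x.2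
  | add x y _ _ hx hy => rw [_root_.map_add, hx, hy]
  | inv x _ hx => rw [map_inv₀, hx]
  | mul x y _ _ hx hy => rw [_root_.map_mul, hx, hy]

/-- Every element of the inertia group has finite order on the level. -/
theorem level_finite_order (S : Finset Qb) {τ : Qb ≃ₐ[ℚ] Qb}
    (hτ : τ ∈ P.inertiaSubgroupIn ℚ) :
    ∃ r : ℕ, 0 < r ∧ ∀ e : Qb, e ∈ level P S → (⇑τ)^[r] e = e := by
  obtain ⟨r, hr, hT⟩ := exists_pow_fixes_finset τ (conjSet_finite S).toFinset
  refine ⟨r, hr, fun e he => ?_⟩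
  rw [iterate_eq_pow_apply]
  apply level_fixed P S (τ ^ r) _ _ he
  · intro e he
    exact (mem_inertiaField_iff P).mp he (τ ^ r) (Subgroup.pow_mem _ hτ r)
  · intro x hx
    exact hT x ((conjSet_finite S).mem_toFinset.mpr hx)


end Fermat.Agent.A2.IF.H429

end
-- ===== PACK-END A2/IF/H429/Good.lean

-- ===== PACK-BEGIN A2/IF/H429/IF.lean
section



/-!
# A2 / IF (helper429): good levels exist

`ifStatement : IFStatement` is the interface IF of `Fermat/Agent/A2/Spec.lean` (v2, row-lead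
helper13); `exists_goodField` is the same statement with explicit binders (Skel form).
The good level is `level P S = ℚ̄^{I_P}(all ℚ-conjugates of S)`:

* stable under `I_P` (`level_stable_inertia`);
* `P ∩ E` is a discrete valuation ring (`isDiscreteValuationRing_level`: the inertia field is
  unramified — Hilbert theory at finite level, `Hilbert.lean` — and `[E : E_I] < ∞`);
* henselian (`henselian_RE`: a simple root is fixed by `Gal(ℚ̄/E)`);
* algebraically closed residue field (`isAlgClosed_residueField_RE`: Teichmüller lifts);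
* inertia acts trivially modulo the maximal ideal (definition of inertia);
* every inertia element has finite order on `E` (`level_finite_order`).
-/

set_option autoImplicit false

namespace Fermat.Agent.A2.IF.H429

open Fermat.Agent.A2

theorem goodField_level (q : ℕ) (hq : q.Prime) (P : ValuationSubring Qb)
    (hP : P.LiesOverPrime q) (S : Finset Qb) : GoodField P (level P S) where
  stable := fun _ hτ _ he => level_stable_inertia P S hτ he
  dvr := isDiscreteValuationRing_level P q hq hP S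
  henselian := henselian_RE P (level P S) (inertiaField_le_level P S)
  algClosed := isAlgClosed_residueField_RE P (level P S) q hq hP (inertiaField_le_level P S)
  trivial_mod := fun _ hτ _ _ heP => sub_mem_nonunits_of_inertia P hτ heP
  finite_order := fun _ hτ => level_finite_order P S hτ

/-- **IF** (Skel form).  Every finite set of algebraic numbers lies in a good level for `P`. -/
theorem exists_goodField (q : ℕ) (hq : q.Prime) (P : ValuationSubring Qb)
    (hP : P.LiesOverPrime q) (S : Finset Qb) :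
    ∃ E : IntermediateField ℚ Qb, (∀ s ∈ S, s ∈ E) ∧ GoodField P E :=
  ⟨level P S, fun _ hs => mem_level_of_mem P S hs, goodField_level q hq P hP S⟩

/-- **IF** (interface statement of `Spec.lean`). -/
theorem ifStatement : IFStatement :=
  fun q hq P hP S => exists_goodField q hq P hP S

end Fermat.Agent.A2.IF.H429

end
-- ===== PACK-END A2/IF/H429/IF.lean

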