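import Fermat.Prelude.Def_ModularCurve_HeckeModule
import Fermat.Prelude.Thm_ModularCurve_coeffMap_qExpand
import Fermat.Prelude.Def_ModularCurve_ArithmeticGalois
import Mathlib
import Fermat.Prelude.Def_ModularCurve_ReductionModL
import Fermat.Prelude.Def_FLTPrelim_Ramification
import Fermat.Prelude.Thm_ModularCurve_coeff_jqModC_pow_self
import Fermat.Prelude.Thm_ModularCurve_coeff_jqModC_pow_of_lt
import Fermat.Agent.Pack.S33.E18L3
import Fermat.Agent.Pack.S33.E4L1
import Fermat.Agent.Pack.S33.E0L3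
import Fermat.Agent.Pack.S33.E18L0
import Fermat.Agent.Pack.S33.E12L1
import Fermat.Agent.Pack.S33.E16L3
import Fermat.Agent.Pack.S33.E17L2
import Fermat.Agent.Pack.S33.E12L0
import Fermat.Agent.Pack.S33.E15L1
import Fermat.Agent.Pack.S33.E7L3
import Fermat.Agent.Pack.S33.E12L2
import Fermat.Agent.Pack.S33.E18L1
import Fermat.Agent.Pack.S33.E17L3
import Fermat.Agent.Pack.S33.E14L3
import Fermat.Agent.Pack.S33.E3L1
import Fermat.Agent.Pack.S33.E12L3
import Fermat.Agent.Pack.S33.E9L2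
import Fermat.Agent.Pack.S33.E10L0
import Fermat.Agent.Pack.S33.E5L2
import Fermat.Agent.Pack.S33.E9L1
import Fermat.Agent.Pack.S33.E16L0
import Fermat.Agent.Pack.S33.E15L0
import Fermat.Agent.Pack.S33.E6L0

-- ===== PACK-BEGIN S29/H882/MeroPrim.lean
section


/-!
# S29 / MERO (helper882), part 4: `MC N = FC N`

A primitive element `θ` of the function field over `ℚ̄` stays of degree `[SL₂(ℤ):Γ₀(N)]` over
`ℂ(j)` after base change (descent of relations), hence generates `MC N` over `ℂ(j)`.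
-/

set_option autoImplicit false

noncomputable section

open UpperHalfPlane ModularGroup CongruenceSubgroup Polynomial ModularCurve IntermediateField
open scoped MatrixGroups Manifold Modular Real

namespace Fermat.Agent.S29.H882

open Fermat.Agent.S24 Fermat.Agent.S24.H648 Fermat.Agent.S24.H708 Fermat.Agent.S24.Deg457

variable (N : ℕ) [NeZero N]

/-- A primitive element of the function field over `ℚ̄(j)`. -/
theorem exists_theta (P : ModularPackage N) : ∃ θ : FF N,
    (minpoly ↥(IntermediateField.adjoin Kbar {jF N}) θ).natDegree = Nat.card (XX N) := by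
  haveI := P.finiteDimensional
  obtain ⟨θ, hθ⟩ := Field.exists_primitive_element ↥(IntermediateField.adjoin Kbar {jF N}) (FF N)
  refine ⟨θ, ?_⟩
  rw [(Field.primitive_element_iff_minpoly_natDegree_eq _ θ).mp hθ, P.finrank_eq]

/-- The base change of an element of the function field over `ℚ̄`, as a Laurent series over `ℂ`. -/
def ΘL (θ : FF N) : LaurentSeries ℂ := coeffMap iotaC (θ : LaurentSeries Kbar)

theorem ΘL_mem_FC (θ : FF N) : ΘL N θ ∈ FC N :=
  coeffMap_mem_laurentBaseChange_of_mem iotaC _ θ.2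

/-- The same element in `MC N`. -/
def ΘM (θ : FF N) : MC N := ⟨ΘL N θ, FC_le_MC N (ΘL_mem_FC N θ)⟩

theorem aeval_jF_ne_zero {t : Kbar[X]} (ht : t ≠ 0) :
    aeval (AdjoinSimple.gen Kbar (jF N)) t ≠ 0 := by
  intro h0
  apply aeval_JK_ne_zero Kbar ht
  have h1 := congrArg (algebraMap ↥(IntermediateField.adjoin Kbar {jF N}) (FF N)) h0
  rw [← aeval_algebraMap_apply, _root_.map_zero, AdjoinSimple.algebraMap_gen] at h1
  have h2 := congrArg (algebraMap (FF N) (LaurentSeries Kbar)) h1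
  rw [← aeval_algebraMap_apply, _root_.map_zero] at h2
  exact h2

theorem algebraMap_comp_aeval_jF :
    (algebraMap (FF N) (LaurentSeries Kbar)).comp
      ((aeval (jF N) : Kbar[X] →ₐ[Kbar] FF N).toRingHom) = evJ (JK Kbar) := by
  refine Polynomial.ringHom_ext ?_ ?_
  · intro c
    simp [evJ, ← IsScalarTower.algebraMap_apply]
  · simp [evJ]
    rfl

theorem card_le_natDegree_minpoly (θ : FF N)
    (hθ : (minpoly ↥(IntermediateField.adjoin Kbar {jF N}) θ).natDegree = Nat.card (XX N)) :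
    Nat.card (XX N) ≤ (minpoly ↥(IntermediateField.adjoin ℂ {jM N}) (ΘM N θ)).natDegree := by
  haveI := (finiteDimensional_and_finrank_le_MC N).1
  by_contra hlt
  rw [not_le] at hlt
  have hint : IsIntegral ↥(IntermediateField.adjoin ℂ {jM N}) (ΘM N θ) := IsIntegral.of_finite _ _
  have hp0 : minpoly ↥(IntermediateField.adjoin ℂ {jM N}) (ΘM N θ) ≠ 0 := minpoly.ne_zero hint
  obtain ⟨t, Q, ht, hQ⟩ := exists_clear_denominators (K := ℂ) (jM N)
    (minpoly ↥(IntermediateField.adjoin ℂ {jM N}) (ΘM N θ))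
  have hφinj : Function.Injective
      ((aeval (AdjoinSimple.gen ℂ (jM N)) : ℂ[X] →ₐ[ℂ] ℂ⟮jM N⟯).toRingHom) := by
    rw [injective_iff_map_eq_zero]
    intro t ht0
    by_contra h
    exact aeval_jM_ne_zero N h ht0
  have hQ0 : Q ≠ 0 := by
    intro h
    rw [h, Polynomial.map_zero] at hQ
    exact (mul_ne_zero (C_ne_zero.mpr ht) hp0) hQ.symm
  have hQd : Q.natDegree ≤
      (minpoly ↥(IntermediateField.adjoin ℂ {jM N}) (ΘM N θ)).natDegree := by
    rw [← Polynomial.natDegree_map_eq_of_injective hφinj Q, hQ, natDegree_C_mul ht]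
  have hroot : Q.eval₂ (evJ (JK ℂ)) (ΘL N θ) = 0 := by
    have h1 : aeval (ΘM N θ)
        (Q.map ((aeval (AdjoinSimple.gen ℂ (jM N)) : ℂ[X] →ₐ[ℂ] ℂ⟮jM N⟯).toRingHom)) = 0 := by
      rw [hQ, _root_.map_mul, minpoly.aeval, mul_zero]
    have h2 := congrArg (algebraMap (MC N) (LaurentSeries ℂ)) h1
    rw [_root_.map_zero, aeval_def, eval₂_map, Polynomial.hom_eval₂] at h2
    have hcomp : (algebraMap (MC N) (LaurentSeries ℂ)).comp
        ((algebraMap ↥(IntermediateField.adjoin ℂ {jM N}) (MC N)).comp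
          ((aeval (AdjoinSimple.gen ℂ (jM N)) : ℂ[X] →ₐ[ℂ] ℂ⟮jM N⟯).toRingHom))
        = evJ (JK ℂ) := by
      refine Polynomial.ringHom_ext ?_ ?_
      · intro c
        simp [evJ, ← IsScalarTower.algebraMap_apply]
      · simp [evJ]
        rfl
    rw [hcomp] at h2
    exact h2
  obtain ⟨Q', hQ'0, hQ'd, hQ'⟩ := exists_relation_of_coeffMap_ne_zero iotaC (JK Kbar)
    (θ : LaurentSeries Kbar) _ Q hQ0 hQd (by rw [coeffMap_JK]; exact hroot)
  have hinc : Function.Injective (algebraMap (FF N) (LaurentSeries Kbar)) :=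
    (algebraMap (FF N) (LaurentSeries Kbar)).injective
  have key := isIntegral_and_natDegree_le_of_relation (K := Kbar)
    (AdjoinSimple.gen Kbar (jF N)) (fun t ht => aeval_jF_ne_zero N ht) θ Q' hQ'0 _ hQ'd (by
      apply hinc
      rw [_root_.map_zero, Polynomial.hom_eval₂, AdjoinSimple.algebraMap_gen, algebraMap_comp_aeval_jF]
      exact hQ')
  have := key.2
  omega

/-- `ΘM` is a primitive element of `MC N` over `ℂ(j)`. -/
theorem adjoin_ΘM_eq_top (θ : FF N)
    (hθ : (minpoly ↥(IntermediateField.adjoin Kbar {jF N}) θ).natDegree = Nat.card (XX N)) :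
    IntermediateField.adjoin ↥(IntermediateField.adjoin ℂ {jM N}) {ΘM N θ} = ⊤ := by
  haveI := (finiteDimensional_and_finrank_le_MC N).1
  rw [Field.primitive_element_iff_minpoly_natDegree_eq]
  have h1 := card_le_natDegree_minpoly N θ hθ
  have h2 := (finiteDimensional_and_finrank_le_MC N).2
  have h3 : (minpoly ↥(IntermediateField.adjoin ℂ {jM N}) (ΘM N θ)).natDegree ≤
      Module.finrank ↥(IntermediateField.adjoin ℂ {jM N}) (MC N) := minpoly.natDegree_le _
  omega

theorem coe_mem_FC_of_mem_adjoin_jM (e : ↥(IntermediateField.adjoin ℂ {jM N})) :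
    (((e : MC N)) : LaurentSeries ℂ) ∈ FC N := by
  obtain ⟨r, s, hrs⟩ := (IntermediateField.mem_adjoin_simple_iff ℂ (e : MC N)).mp e.2
  have hr : ((aeval (jM N) r : MC N) : LaurentSeries ℂ) = aeval (JK ℂ) r := by
    have := (aeval_algebraMap_apply (LaurentSeries ℂ) (jM N) r).symm
    exact this
  have hs : ((aeval (jM N) s : MC N) : LaurentSeries ℂ) = aeval (JK ℂ) s := by
    have := (aeval_algebraMap_apply (LaurentSeries ℂ) (jM N) s).symm
    exact this
  have hmem : ∀ t : ℂ[X], aeval (JK ℂ) t ∈ FC N := by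
    intro t
    have := (aeval_algebraMap_apply (LaurentSeries ℂ) (⟨JK ℂ, JK_mem_FC N⟩ : FC N) t)
    have h2 : (algebraMap (FC N) (LaurentSeries ℂ)) (⟨JK ℂ, JK_mem_FC N⟩ : FC N) = JK ℂ := rfl
    rw [h2] at this
    rw [this]
    exact (aeval (⟨JK ℂ, JK_mem_FC N⟩ : FC N) t).2
  rw [hrs]
  have : (((aeval (jM N) r / aeval (jM N) s : MC N)) : LaurentSeries ℂ)
      = aeval (JK ℂ) r / aeval (JK ℂ) s := by
    rw [← hr, ← hs]
    rfl
  rw [this]
  exact _root_.div_mem (hmem r) (hmem s)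

/-- **`MC N ≤ FC N`**: every `q`-expansion of a good function lies in the function field. -/
theorem MC_le_FC : MC N ≤ FC N := by
  obtain ⟨P⟩ := nonempty_modularPackage N
  obtain ⟨θ, hθ⟩ := exists_theta N P
  have htop := adjoin_ΘM_eq_top N θ hθ
  intro y hy
  have hy' : (⟨y, hy⟩ : MC N) ∈
      IntermediateField.adjoin ↥(IntermediateField.adjoin ℂ {jM N}) {ΘM N θ} := by
    rw [htop]; exact IntermediateField.mem_top
  have key : ∀ z : MC N,
      z ∈ IntermediateField.adjoin ↥(IntermediateField.adjoin ℂ {jM N}) {ΘM N θ} →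
      (z : LaurentSeries ℂ) ∈ FC N := by
    intro z hz
    refine IntermediateField.adjoin_induction ↥(IntermediateField.adjoin ℂ {jM N})
      (p := fun (z : MC N) _ => ((z : MC N) : LaurentSeries ℂ) ∈ FC N) ?_ ?_ ?_ ?_ ?_ hz
    · intro x hx
      rw [Set.mem_singleton_iff] at hx
      subst hx
      exact ΘL_mem_FC N θ
    · intro e
      exact coe_mem_FC_of_mem_adjoin_jM N e
    · intro x y _ _ hx hy
      exact _root_.AddMemClass.add_mem hx hy
    · intro x _ hx
      exact _root_.InvMemClass.inv_mem hx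
    · intro x y _ _ hx hy
      exact _root_.MulMemClass.mul_mem hx hy
  exact key ⟨y, hy⟩ hy'

theorem MC_eq_FC : MC N = FC N := le_antisymm (MC_le_FC N) (FC_le_MC N)

variable {N}

/-- **MERO (A)**: the `q`-expansion of a good function of level `N` lies in the function field of
`X₀(N)` over `ℂ`. -/
theorem mem_FC_of_mem_goodQ {b : LaurentSeries ℂ} (hb : b ∈ goodQ N) :
    b ∈ laurentBaseChange ℂ (modularFunctionFieldFull N) :=
  MC_le_FC N (goodQ_le_MC N hb)

/-- **MERO (A)**, function form. -/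
theorem qexpFun_mem_FC {f : ℍ → ℂ} (hf : f ∈ goodRing N) :
    qexpFun 1 f ∈ laurentBaseChange ℂ (modularFunctionFieldFull N) :=
  mem_FC_of_mem_goodQ (qexpFun_mem_goodQ hf)

/-- **MERO (A)**, `HasQExp` form. -/
theorem mem_FC_of_hasQExp {f : ℍ → ℂ} {b : LaurentSeries ℂ} (hf : f ∈ goodRing N)
    (hb : HasQExp 1 f b) : b ∈ laurentBaseChange ℂ (modularFunctionFieldFull N) :=
  mem_FC_of_mem_goodQ ⟨f, hf, hb⟩

end Fermat.Agent.S29.H882

end
end
-- ===== PACK-END S29/H882/MeroPrim.lean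

-- ===== PACK-BEGIN S29/M4b/Defs.lean
section
/-
S29 row, LAYER M, SUB-LAYER M4b (the Kummer map) — FROZEN interface definitions
(sub-architect: deputy helper822).  Namespace `Fermat.Agent.S29.M4b`.
Do not edit; propose changes via a note kind='question' stmt='S29'.

The relation `IsKum N p c x` ("`x` is the Kummer class of the character `c`"):
`x = [D]`, `p • D = div f` (landed `H455.IsKummerClass`), and after clearing poles by a `p`-th power
`t ^ p` the function `f * t ^ p` is the `p`-th power of a holomorphic `U : ℍ → ℂ` which transforms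
under `Γ₀(N)` by the character `γ ↦ ζ_p ^ c(γ)`.

"Analytic realisation" = equality of `q`-expansions at `i∞` (landed S24 / H882 language):
`G` realises `u ∈ FF N` iff `G ∈ S24.H648.goodRing N` (holomorphic, `Γ₀(N)`-invariant, all
`SL₂(ℤ)`-translates of at most exponential growth) and `qexpFun 1 G = coeffMap iotaC u`.
-/




set_option autoImplicit false

noncomputable section

open ModularCurve AlgebraicCurve CongruenceSubgroup UpperHalfPlane
open scoped MatrixGroups Manifold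

namespace Fermat.Agent.S29.M4b

open Fermat.Agent.S24 Fermat.Agent.S29

/-- The fixed primitive `p`-th root of unity `exp(2πi/p)`. -/
def zetaP (p : ℕ) : ℂ := Complex.exp (2 * Real.pi * Complex.I / p)

/-- `G : ℍ → ℂ` realises `u ∈ FF N = ℚ̄(j(q^d) : d ∣ N)`: `G` is a "good" function (holomorphic on
`ℍ`, `Γ₀(N)`-invariant, exponential growth at all cusps) whose `q`-expansion at `i∞` is `u`, the
coefficients being embedded by the fixed `Deg457.iotaC : ℚ̄ → ℂ`. -/
def Realises (N : ℕ) [NeZero N] (u : FF N) (G : ℍ → ℂ) : Prop :=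
  G ∈ H648.goodRing N ∧
    H708.qexpFun 1 G = coeffMap Deg457.iotaC ((u : FF N) : LaurentSeries Kbar)

/-- `U` transforms under `Γ₀(N)` by the character `γ ↦ ζ_p ^ c(γ)`. -/
def HasChar (N p : ℕ) (c : G0 N → ZMod p) (U : ℍ → ℂ) : Prop :=
  ∀ (γ : G0 N) (τ : ℍ), U ((γ : SL(2, ℤ)) • τ) = zetaP p ^ (c γ).val * U τ

/-- `U` is a twisted function of character `c`: holomorphic on `ℍ`, not identically zero, of
character `c`, with `U ^ p` good (i.e. `U` has at most exponential growth at every cusp). -/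
structure IsTwisted (N p : ℕ) (c : G0 N → ZMod p) (U : ℍ → ℂ) : Prop where
  mdiff : MDifferentiable 𝓘(ℂ) 𝓘(ℂ) U
  ne_zero : ∃ τ : ℍ, U τ ≠ 0
  hasChar : HasChar N p c U
  pow_mem : (fun τ => U τ ^ p) ∈ H648.goodRing N

/-- **The Kummer relation.**  `x ∈ J₀(N)(ℚ̄)` is the Kummer class of the character `c`. -/
def IsKum (N p : ℕ) [NeZero N] (c : G0 N → ZMod p) (x : JZero N) : Prop :=
  ∃ (f t : FF N) (U : ℍ → ℂ), t ≠ 0 ∧ H455.IsKummerClass (p : ℤ) f x ∧
    IsTwisted N p c U ∧ Realises N (f * t ^ p) (fun τ => U τ ^ p)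

/-- `c'` is the transfer (= Hecke image `T_ℓ c`) of `c`: `c'(γ) = ∑ᵢ c(δᵢ)` for EVERY
factorisation `αᵢ γ = δᵢ α_{π i}` (`αᵢ = heckeRep ℓ i` of `DefsM`).  For `ℓ ∤ N` prime the
factorisation exists and is unique (piece `HCoh`), so `c' = heckeCoh N ℓ c`. -/
def IsTransfer (N ℓ : ℕ) {A : Type*} [AddCommMonoid A] (c c' : G0 N → A) : Prop :=
  ∀ (γ : G0 N) (π : Option (Fin ℓ) → Option (Fin ℓ)) (δ : Option (Fin ℓ) → G0 N),
    (∀ i, IsHeckeFactor ℓ γ i (π i, δ i)) → c' γ = ∑ i, c (δ i)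

end Fermat.Agent.S29.M4b

end
end
-- ===== PACK-END S29/M4b/Defs.lean

-- ===== PACK-BEGIN S29/H332/KummerChar.lean
section




/-!
# S29 / M4b / K1 — Kummer functions of additive characters `Γ₀(N) → ℤ/m`

For an additive map `c : Γ₀(N) → ZMod m` vanishing on all elements of trace `±2` we package the
character `χ_c(γ) = exp(2πi c(γ)/m)` and the Kummer function `h_c = E^{χ_c}₁₂ / (2Δ)`:

* `h_c ∈ holN N`, `h_c(γτ) = χ_c(γ) h_c(τ)`;
* `h_c ^ m ∈ goodRing N` and its `q`-expansion `kummerExp ^ m` lies in the function field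
  `laurentBaseChange ℂ (modularFunctionFieldFull N)` (via helper882's MERO);
* `q`-expansion of `h_c` has order `-1` and leading coefficient `1`.

The modulus `m ≥ 1` is arbitrary (rows S29: `m = p`; S30: `m = p ^ n`).
-/

set_option autoImplicit false
set_option linter.unusedSectionVars false

noncomputable section

open UpperHalfPlane HahnSeries ModularCurve Complex AlgebraicCurve
open scoped Real MatrixGroups Manifold

namespace Fermat.Agent.S29.H332

open Fermat.Agent.S24 Fermat.Agent.S24.H997 Fermat.Agent.S24.H624 Fermat.Agent.S24.H648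

variable {N m : ℕ} [NeZero m]

/-- An additive character `Γ₀(N) → ℤ/m` vanishing on the elements of trace `±2`. -/
structure IsParAdd (c : CongruenceSubgroup.Gamma0 N → ZMod m) : Prop where
  map_mul : ∀ γ γ' : CongruenceSubgroup.Gamma0 N, c (γ * γ') = c γ + c γ'
  parabolic : ∀ γ : CongruenceSubgroup.Gamma0 N,
    ((γ : SL(2, ℤ)).1.trace = 2 ∨ (γ : SL(2, ℤ)).1.trace = -2) → c γ = 0

namespace IsParAdd

variable {c c' : CongruenceSubgroup.Gamma0 N → ZMod m}

theorem map_one (hc : IsParAdd c) : c 1 = 0 := by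
  have h := hc.map_mul 1 1
  rw [mul_one] at h
  exact left_eq_add.mp h

/-- The multiplicative character `γ ↦ exp(2πi c(γ)/m)`. -/
def char (hc : IsParAdd c) : CongruenceSubgroup.Gamma0 N →* ℂˣ :=
  MonoidHom.toHomUnits
    { toFun := fun γ => ZMod.stdAddChar (c γ)
      map_one' := by rw [hc.map_one, AddChar.map_zero_eq_one]
      map_mul' := fun γ γ' => by rw [hc.map_mul, AddChar.map_add_eq_mul] }

@[simp]
theorem char_apply (hc : IsParAdd c) (γ : CongruenceSubgroup.Gamma0 N) :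
    (hc.char γ : ℂ) = ZMod.stdAddChar (c γ) := rfl

theorem norm_char (hc : IsParAdd c) (γ : CongruenceSubgroup.Gamma0 N) :
    ‖(hc.char γ : ℂ)‖ = 1 := by
  rw [char_apply, ZMod.stdAddChar_apply]
  exact Circle.norm_coe _

theorem char_pow (hc : IsParAdd c) (γ : CongruenceSubgroup.Gamma0 N) : hc.char γ ^ m = 1 := by
  apply Units.ext
  rw [Units.val_pow_eq_pow_val, char_apply, ← AddChar.map_nsmul_eq_pow, Units.val_one]
  have : m • c γ = 0 := by
    rw [nsmul_eq_mul]
    simp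
  rw [this, AddChar.map_zero_eq_one]

theorem char_eq_one_iff (hc : IsParAdd c) (γ : CongruenceSubgroup.Gamma0 N) :
    hc.char γ = 1 ↔ c γ = 0 := by
  constructor
  · intro h
    have h1 : (hc.char γ : ℂ) = 1 := by rw [h, Units.val_one]
    rw [char_apply, ← AddChar.map_zero_eq_one (ZMod.stdAddChar (N := m))] at h1
    exact ZMod.injective_stdAddChar h1
  · intro h
    apply Units.ext
    rw [char_apply, h, AddChar.map_zero_eq_one, Units.val_one]

theorem parTrivial (hc : IsParAdd c) : ParTrivial hc.char := by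
  intro γ hγ
  rw [char_eq_one_iff]
  exact hc.parabolic γ hγ

theorem ellTrivial (hc : IsParAdd c)
    (hell : ∀ (γ : CongruenceSubgroup.Gamma0 N) (n : ℕ), 0 < n → γ ^ n = 1 → c γ = 0) :
    EllTrivial hc.char := by
  intro γ n hn hγ
  rw [char_eq_one_iff]
  exact hell γ n hn hγ

theorem add (hc : IsParAdd c) (hc' : IsParAdd c') : IsParAdd (c + c') where
  map_mul γ γ' := by
    simp only [Pi.add_apply, hc.map_mul, hc'.map_mul]
    abel
  parabolic γ hγ := by
    simp only [Pi.add_apply, hc.parabolic γ hγ, hc'.parabolic γ hγ, add_zero]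

theorem char_add (hc : IsParAdd c) (hc' : IsParAdd c') :
    (hc.add hc').char = hc.char * hc'.char := by
  ext γ
  simp [AddChar.map_add_eq_mul]

variable [NeZero N]

variable (N) in
/-- The Kummer function of an additive parabolic character. -/
def kfun (hc : IsParAdd c) : ℍ → ℂ := kummerFun N hc.char

variable (N) in
/-- Its `q`-expansion at `i∞`. -/
def kexp (hc : IsParAdd c) : LaurentSeries ℂ := kummerExp N hc.char

theorem kfun_mem_holN (hc : IsParAdd c) : hc.kfun N ∈ holN N :=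
  kummerFun_mem_holN hc.parTrivial hc.norm_char

theorem kfun_smul (hc : IsParAdd c) (γ : CongruenceSubgroup.Gamma0 N) (τ : ℍ) :
    hc.kfun N ((γ : SL(2, ℤ)) • τ) = ZMod.stdAddChar (c γ) * hc.kfun N τ :=
  hasCharacter_kummerFun hc.parTrivial γ τ

theorem kfun_pow_mem_goodRing (hc : IsParAdd c) : hc.kfun N ^ m ∈ goodRing N :=
  kummerFun_pow_mem_goodRing hc.parTrivial hc.norm_char hc.char_pow

theorem hasQExp_kfun (hc : IsParAdd c) :
    Fermat.Agent.S24.H708.HasQExp 1 (hc.kfun N) (hc.kexp N) :=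
  hasQExp_kummerFun hc.parTrivial hc.norm_char

theorem kexp_order (hc : IsParAdd c) : (hc.kexp N).order = -1 :=
  (kummerExp_eq hc.parTrivial hc.norm_char).1

theorem kexp_leadingCoeff (hc : IsParAdd c) : (hc.kexp N).leadingCoeff = 1 :=
  (kummerExp_eq hc.parTrivial hc.norm_char).2

theorem kexp_ne_zero (hc : IsParAdd c) : hc.kexp N ≠ 0 :=
  kummerExp_ne_zero hc.parTrivial hc.norm_char

theorem kfun_ne_zero (hc : IsParAdd c) : hc.kfun N ≠ 0 :=
  kummerFun_ne_zero hc.parTrivial hc.norm_char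

theorem hasCharacter_kfun (hc : IsParAdd c) : HasCharacter hc.char (hc.kfun N) :=
  hasCharacter_kummerFun hc.parTrivial

/-- **K2 (analytic part)**: local divisibility of the orders of the Kummer function, at a point
with rotation `ε` of finite order (`ε = 1`, `S`, `S * T`), for the coset `g⁻¹ Γ₀(N)` of
`ε`-period `k`. -/
theorem kfun_dvd_mul_order_of_finite_order (hc : IsParAdd c)
    (hell : ∀ (γ : CongruenceSubgroup.Gamma0 N) (n : ℕ), 0 < n → γ ^ n = 1 → c γ = 0)
    (X : Expansion (holBase N)) {ε : SL(2, ℤ)} (R : RotData (holBase N) X ε)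
    {n : ℕ} (hn : 0 < n) (hε : ε ^ n = 1)
    (g : SL(2, ℤ)) (k : ℕ) (hk : g * ε ^ k * g⁻¹ ∈ CongruenceSubgroup.Gamma0 N) :
    (R.m : ℤ) ∣ (k : ℤ) * (X.E ((holBase N).compH g ⟨hc.kfun N, hc.kfun_mem_holN⟩)).order :=
  hc.hasCharacter_kfun.dvd_mul_order_of_finite_order hc.kfun_mem_holN hc.kfun_ne_zero
    (hc.ellTrivial hell) X R hn hε g k hk

/-- **K2 (analytic part)** at the cusps (`ε = T`). -/
theorem kfun_dvd_mul_order_T (hc : IsParAdd c)
    (X : Expansion (holBase N)) (R : RotData (holBase N) X ModularGroup.T)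
    (g : SL(2, ℤ)) (k : ℕ)
    (hk : g * ModularGroup.T ^ k * g⁻¹ ∈ CongruenceSubgroup.Gamma0 N) :
    (R.m : ℤ) ∣ (k : ℤ) * (X.E ((holBase N).compH g ⟨hc.kfun N, hc.kfun_mem_holN⟩)).order :=
  hc.hasCharacter_kfun.dvd_mul_order_T hc.kfun_mem_holN hc.kfun_ne_zero hc.parTrivial X R g k hk

/-- **K1 + MERO**: the `q`-expansion of `h_c ^ m` lies in the function field of `X₀(N)` over `ℂ`. -/
theorem kexp_pow_mem_FC (hc : IsParAdd c) :
    hc.kexp N ^ m ∈ laurentBaseChange ℂ (modularFunctionFieldFull N) :=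
  Fermat.Agent.S29.H882.mem_FC_of_hasQExp hc.kfun_pow_mem_goodRing
    ((hc.hasQExp_kfun).pow m)

end IsParAdd

end Fermat.Agent.S29.H332

end
end
-- ===== PACK-END S29/H332/KummerChar.lean

-- ===== PACK-BEGIN S37/H819/Emb.lean
section




/-!
# S37 / NORM (helper819) — the embeddings `σ_g` of `ℚ̄(X₀(Nℓ))` for `g ∈ Γ₀(N)`

`M = N ℓ`, `σ_g := sigmaG (holBase M) qexp g : FF M →+* ℂ((z))`, `z = q^{1/M}`
(S24, helper997).  For `h ∈ Γ₀(N)`:
* `σ_{h⁻¹} ∘ α = Φ_M` on `FF N`                                  (`sig_alpha`)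
* `σ_{h⁻¹} ∘ β = (y ↦ y(ζ^b q^{1/ℓ}))` if `ℓ ∣ h₁₁ - b h₁₀`       (`sig_beta`)
* `σ_1 = Φ_M`                                                      (`sig_one`)
where `α, β : FF N → FF M` are the Prelude degeneracy maps `heckeAlphaBar`, `heckeBetaBar`.
-/

set_option autoImplicit false

noncomputable section

open ModularCurve HahnSeries UpperHalfPlane AlgebraicCurve
open scoped MatrixGroups

namespace Fermat.Agent.S37.H819

open Fermat.Agent.S24 Fermat.Agent.S24.H997

/-! ### Formal lemmas on `infTwist`, `qExpand`, `coeffMap` -/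

section Formal

variable {R : Type*} [CommRing R]

theorem infTwist_qExpand (u : Rˣ) (d : ℕ) [NeZero d] (x : LaurentSeries R) :
    infTwist u (qExpand R d x) = qExpand R d (infTwist (u ^ d) x) := by
  ext k
  rw [infTwist_coeff]
  by_cases hk : (d : ℤ) ∣ k
  · obtain ⟨m, rfl⟩ := hk
    rw [qExpand_coeff_mul, qExpand_coeff_mul, infTwist_coeff]
    congr 2
    rw [zpow_mul, zpow_natCast]
  · rw [qExpand_coeff_of_not_dvd d _ hk, qExpand_coeff_of_not_dvd d _ hk, zero_mul]

theorem coeffMap_infTwist {S : Type*} [CommRing S] (f : R →+* S) (u : Rˣ)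
    (x : LaurentSeries R) :
    coeffMap f (infTwist u x) = infTwist (Units.map (f : R →* S) u) (coeffMap f x) := by
  ext k
  rw [coeffMap_coeff, infTwist_coeff, infTwist_coeff, coeffMap_coeff, _root_.map_mul]
  congr 1
  rw [← map_zpow]
  rfl

theorem coeffMap_C' {S : Type*} [CommRing S] (f : R →+* S) (r : R) :
    coeffMap f (HahnSeries.C r) = HahnSeries.C (f r) := by
  rw [C_apply, coeffMap_single, C_apply]

end Formal

theorem coeffMap_ιK_coeffEmb (s : LaurentSeries ℚ) :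
    coeffMap ιK (coeffEmb Kbar s) = coeffEmb ℂ s := by
  rw [coeffEmb, coeffMap_coeffMap, coeffEmb]
  refine coeffMap_congr (RingHom.ext fun c => ?_) s
  rw [RingHom.comp_apply, ιK_algebraMap]
  simp

theorem infRoot_pow (b : ℤ) (n d : ℕ) : (infRoot b n) ^ d = infRoot ((d : ℤ) * b) n := by
  apply Units.ext
  rw [Units.val_pow_eq_pow_val, infRoot_coe, infRoot_coe, ← Complex.exp_nat_mul]
  congr 1
  push_cast
  ring

/-- the expansion of `j(d(τ+b)/ℓ)` is `j_d(ζ^b q^{1/ℓ})`, in the variable `z = q^{1/(Nℓ)}` -/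
theorem infGenExp_eq_twist (N ℓ d : ℕ) [NeZero N] [NeZero d] (b : ℤ) :
    haveI : NeZero (d * N) := ⟨Nat.mul_ne_zero (NeZero.ne d) (NeZero.ne N)⟩
    infGenExp (d * N) ((d : ℤ) * b) ℓ
      = qExpand ℂ N (infTwist (infRoot b ℓ) (coeffMap ιK (coeffEmb Kbar (qExpand ℚ d jq)))) := by
  have : NeZero (d * N) := ⟨Nat.mul_ne_zero (NeZero.ne d) (NeZero.ne N)⟩
  rw [coeffMap_ιK_coeffEmb, coeffEmb, coeffMap_qExpand, infTwist_qExpand, qExpand_qExpand,
    infRoot_pow, infGenExp]
  have : coeffMap (algebraMap ℚ ℂ) jq = infJq := rfl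
  rw [this]
  exact qExpand_congr (Nat.mul_comm d N) _

variable (N ℓ : ℕ) [NeZero N] [NeZero ℓ]

/-- the embedding `σ_g` at level `N ℓ` -/
def sig (g : SL(2, ℤ)) : FF (N * ℓ) →+* LaurentSeries ℂ :=
  (holBase (N * ℓ)).sigmaG (holBase (N * ℓ)).qexpExpansion g

theorem sig_inclRN (g : SL(2, ℤ)) (r : RN (N * ℓ)) :
    sig N ℓ g (inclRN (N * ℓ) r)
      = (holBase (N * ℓ)).qexp ((holBase (N * ℓ)).compH g⁻¹ ((holBase (N * ℓ)).bridge r)) :=
  (holBase (N * ℓ)).sigmaG_inclRN _ g r

theorem sig_algebraMap (g : SL(2, ℤ)) (c : Kbar) :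
    sig N ℓ g (algebraMap Kbar (FF (N * ℓ)) c) = HahnSeries.C (ιK c) :=
  (holBase (N * ℓ)).sigmaG_algebraMap _ g c

/-- the value of `qexp` from a convergent expansion -/
theorem qexp_eq_of_infExp {M : ℕ} [NeZero M] (h : (holBase M).Hol) {φ : LaurentSeries ℂ}
    (hφ : InfExp M (h : ℍ → ℂ) φ) : (holBase M).qexp h = φ :=
  (expInf_spec (holToExp M h)).unique hφ

/-- `σ_1` is the formal comparison map `Φ_M`. -/
theorem sig_one (x : FF (N * ℓ)) :
    sig N ℓ 1 x = HolBase.Φ (N * ℓ) (x : LaurentSeries Kbar) := by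
  obtain ⟨r, t, -, rfl⟩ := exists_div_inclRN (N * ℓ) x
  rw [map_div₀, sig_inclRN, sig_inclRN, inv_one, HolBase.compH_one, HolBase.compH_one,
    HolBase.qexp_bridge, HolBase.qexp_bridge]
  rw [IntermediateField.coe_div, map_div₀]
  rfl

/-- Two ring homs out of `FF N` into a field agree if they agree on constants and on the
generators `j(q^d)`, `d ∣ N`. -/
theorem ringHom_ext_FF {E : Type*} [Field E] (f g : FF N →+* E)
    (hc : ∀ c : Kbar, f (algebraMap Kbar (FF N) c) = g (algebraMap Kbar (FF N) c))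
    (hgen : ∀ (d : ℕ) [NeZero d] (hd : d ∣ N),
      f (inclRN N (jR N d hd)) = g (inclRN N (jR N d hd))) : f = g := by
  let f' : RN N →+* E := f.comp (inclRN N).toRingHom
  let g' : RN N →+* E := g.comp (inclRN N).toRingHom
  have key' : ∀ r : RN N, f' r = g' r := by
    rintro ⟨r, hr⟩
    induction hr using Algebra.adjoin_induction with
    | mem x hx =>
        obtain ⟨y, ⟨d, hne, hd, rfl⟩, rfl⟩ := hx
        have : (⟨coeffEmb Kbar (qExpand ℚ d jq), Algebra.subset_adjoin
            ⟨_, ⟨d, hne, hd, rfl⟩, rfl⟩⟩ : RN N) = jR N d hd := rfl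
        rw [this]
        exact hgen d hd
    | algebraMap c =>
        have : (⟨algebraMap Kbar (LaurentSeries Kbar) c, Subalgebra.algebraMap_mem _ c⟩ : RN N)
            = algebraMap Kbar (RN N) c := rfl
        rw [this]
        show f (inclRN N (algebraMap Kbar (RN N) c)) = g (inclRN N (algebraMap Kbar (RN N) c))
        have e : inclRN N (algebraMap Kbar (RN N) c) = algebraMap Kbar (FF N) c := rfl
        rw [e]
        exact hc c
    | add x y hx hy ihx ihy =>
        have : (⟨x + y, add_mem hx hy⟩ : RN N) = ⟨x, hx⟩ + ⟨y, hy⟩ := rfl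
        rw [this, _root_.map_add, _root_.map_add, ihx, ihy]
    | mul x y hx hy ihx ihy =>
        have : (⟨x * y, mul_mem hx hy⟩ : RN N) = ⟨x, hx⟩ * ⟨y, hy⟩ := rfl
        rw [this, _root_.map_mul, _root_.map_mul, ihx, ihy]
  have key : ∀ r : RN N, f (inclRN N r) = g (inclRN N r) := key'
  ext x
  obtain ⟨r, t, -, rfl⟩ := exists_div_inclRN N x
  rw [map_div₀, map_div₀, key, key]

/-- the coercion `FF N → ℚ̄((q))` as a ring hom -/
def coeHom : FF N →+* LaurentSeries Kbar where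
  toFun x := (x : LaurentSeries Kbar)
  map_one' := rfl
  map_mul' _ _ := rfl
  map_zero' := rfl
  map_add' _ _ := rfl

@[simp] theorem coeHom_apply (x : FF N) : coeHom N x = (x : LaurentSeries Kbar) := rfl

theorem coe_inclRN_jR (d : ℕ) [NeZero d] (hd : d ∣ N) :
    ((inclRN N (jR N d hd) : FF N) : LaurentSeries Kbar) = coeffEmb Kbar (qExpand ℚ d jq) := rfl

theorem coe_algebraMap_FF (c : Kbar) :
    ((algebraMap Kbar (FF N) c : FF N) : LaurentSeries Kbar)
      = algebraMap Kbar (LaurentSeries Kbar) c := rfl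

theorem alpha_inclRN_jR (d : ℕ) [NeZero d] (hd : d ∣ N) (hd' : d ∣ N * ℓ) :
    heckeAlphaBar Kbar N ℓ (inclRN N (jR N d hd)) = inclRN (N * ℓ) (jR (N * ℓ) d hd') := by
  apply Subtype.ext
  rw [coe_heckeAlphaBar, coe_inclRN_jR, coe_inclRN_jR]

theorem beta_inclRN_jR (d : ℕ) [NeZero d] (hd : d ∣ N) [NeZero (d * ℓ)]
    (hdℓ : d * ℓ ∣ N * ℓ) :
    heckeBetaBar Kbar N ℓ (inclRN N (jR N d hd)) = inclRN (N * ℓ) (jR (N * ℓ) (d * ℓ) hdℓ) := by
  apply Subtype.ext
  rw [coe_heckeBetaBar, coe_inclRN_jR, coe_inclRN_jR, coeffEmb, ← coeffMap_qExpand,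
    qExpand_qExpand]
  congr 1
  exact qExpand_congr (Nat.mul_comm ℓ d) _

theorem compH_JH_of_mem_gamma0 {h : SL(2, ℤ)} (hh : h ∈ CongruenceSubgroup.Gamma0 N)
    (d : ℕ) (hd : d ∣ N) (hd' : d ∣ N * ℓ) :
    (holBase (N * ℓ)).compH h ((holBase (N * ℓ)).JH d hd') = (holBase (N * ℓ)).JH d hd' := by
  apply Subtype.ext
  funext τ
  exact Jd_inv N d hd h hh τ

/-- For `h ∈ Γ₀(N)` the embedding `σ_{h⁻¹}` restricts to `Φ_M` on `α(FF N)`. -/
theorem sig_alpha {h : SL(2, ℤ)} (hh : h ∈ CongruenceSubgroup.Gamma0 N) (y : FF N) :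
    sig N ℓ h⁻¹ (heckeAlphaBar Kbar N ℓ y) = HolBase.Φ (N * ℓ) (y : LaurentSeries Kbar) := by
  have key := ringHom_ext_FF N ((sig N ℓ h⁻¹).comp (heckeAlphaBar Kbar N ℓ).toRingHom)
    ((HolBase.Φ (N * ℓ)).comp (coeHom N)) ?_ ?_
  · exact RingHom.congr_fun key y
  · intro c
    rw [RingHom.comp_apply, RingHom.comp_apply, coeHom_apply, coe_algebraMap_FF,
      HolBase.Φ_algebraMap]
    have e : (heckeAlphaBar Kbar N ℓ).toRingHom (algebraMap Kbar (FF N) c)
        = algebraMap Kbar (FF (N * ℓ)) c := (heckeAlphaBar Kbar N ℓ).commutes c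
    rw [e, sig_algebraMap]
  · intro d _ hd
    have hd' : d ∣ N * ℓ := Dvd.dvd.mul_right hd ℓ
    rw [RingHom.comp_apply, RingHom.comp_apply, coeHom_apply, coe_inclRN_jR]
    have e : (heckeAlphaBar Kbar N ℓ).toRingHom (inclRN N (jR N d hd))
        = inclRN (N * ℓ) (jR (N * ℓ) d hd') := alpha_inclRN_jR N ℓ d hd hd'
    rw [e, sig_inclRN, HolBase.bridge_jR, inv_inv, (holBase (N * ℓ)).Φ_gen d hd',
      compH_JH_of_mem_gamma0 N ℓ hh d hd hd']

/-- For `h ∈ Γ₀(N)` with `h₁₁ ≡ b h₁₀ mod ℓ`, the embedding `σ_{h⁻¹}` is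
`y ↦ y(ζ_ℓ^b q^{1/ℓ})` on `β(FF N)`. -/
theorem sig_beta {h : SL(2, ℤ)} (hh : h ∈ CongruenceSubgroup.Gamma0 N) {b : ℤ}
    (hb : (ℓ : ℤ) ∣ h 1 1 - b * h 1 0) (y : FF N) :
    sig N ℓ h⁻¹ (heckeBetaBar Kbar N ℓ y)
      = qExpand ℂ N (infTwist (infRoot b ℓ) (coeffMap ιK (y : LaurentSeries Kbar))) := by
  have key := ringHom_ext_FF N ((sig N ℓ h⁻¹).comp (heckeBetaBar Kbar N ℓ).toRingHom)
    (((qExpand ℂ N).comp (infTwist (infRoot b ℓ))).comp ((coeffMap ιK).comp (coeHom N))) ?_ ?_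
  · exact RingHom.congr_fun key y
  · intro c
    rw [RingHom.comp_apply, RingHom.comp_apply, RingHom.comp_apply, RingHom.comp_apply,
      coeHom_apply, coe_algebraMap_FF]
    have e : (heckeBetaBar Kbar N ℓ).toRingHom (algebraMap Kbar (FF N) c)
        = algebraMap Kbar (FF (N * ℓ)) c := (heckeBetaBar Kbar N ℓ).commutes c
    rw [e, sig_algebraMap, algebraMap_laurentSeries_eq_single, coeffMap_single,
      infTwist_single, qExpand_single]
    simp [HahnSeries.C_apply]
  · intro d _ hd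
    have hN0 : 0 < N := Nat.pos_of_ne_zero (NeZero.ne N)
    have hℓ0 : 0 < ℓ := Nat.pos_of_ne_zero (NeZero.ne ℓ)
    have hd0 : 0 < d := Nat.pos_of_dvd_of_pos hd hN0
    have hdℓ : d * ℓ ∣ N * ℓ := Nat.mul_dvd_mul_right hd ℓ
    haveI hne1 : NeZero (d * ℓ) := ⟨Nat.mul_ne_zero (NeZero.ne d) (NeZero.ne ℓ)⟩
    haveI hne2 : NeZero (d * N) := ⟨Nat.mul_ne_zero (NeZero.ne d) (NeZero.ne N)⟩
    rw [RingHom.comp_apply, RingHom.comp_apply, RingHom.comp_apply, RingHom.comp_apply,
      coeHom_apply, coe_inclRN_jR]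
    have e : (heckeBetaBar Kbar N ℓ).toRingHom (inclRN N (jR N d hd))
        = inclRN (N * ℓ) (jR (N * ℓ) (d * ℓ) hdℓ) := beta_inclRN_jR N ℓ d hd hdℓ
    rw [e, sig_inclRN, HolBase.bridge_jR, inv_inv, ← infGenExp_eq_twist N ℓ d b]
    have hdvd : ((d : ℕ) : ℤ) ∣ h 1 0 := by
      rw [gamma0_mem_iff_dvd] at hh
      exact dvd_trans (by exact_mod_cast hd) hh
    obtain ⟨γ', h00, h01, h10, h11⟩ := exists_hnf_twist d ℓ b h hdvd hb
    have hexp : InfExp (N * ℓ) (fun τ => Fermat.Agent.S20.L1.jFun (infAff d ((d : ℤ) * b) ℓ τ))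
        (infGenExp (d * N) ((d : ℤ) * b) ℓ) :=
      inf_J_infAff_exp infExp_jFun (e := d * N) (N := N * ℓ) ((d : ℤ) * b) hd0 hℓ0
        (Nat.mul_pos hN0 hℓ0) (by ring)
    refine qexp_eq_of_infExp _ (hexp.congr fun τ => ?_)
    have hJ : (((holBase (N * ℓ)).compH h ((holBase (N * ℓ)).JH (d * ℓ) hdℓ) :
        (holBase (N * ℓ)).Hol) : ℍ → ℂ) τ = Jd (d * ℓ) (h • τ) := rfl
    rw [hJ]
    unfold Jd
    rw [inf_aff_smul_eq (Nat.mul_pos hd0 hℓ0) hd0 hℓ0 h γ' h00 h01 h10 h11 τ, jFun_smul']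

end Fermat.Agent.S37.H819

end
end
-- ===== PACK-END S37/H819/Emb.lean

-- ===== PACK-BEGIN S37/H98/Gen.lean
section






/-!
# S37, piece R-f [GEN] (helper98): `PrincipalGeneratedByIntegral` unconditionally

`gen N ℓ hℓ hℓN A hA : PrincipalGeneratedByIntegral A (IsLocalRing.residue A) N`
for every valuation subring `A` of `ℚ̄` over a prime `ℓ ∤ N`: the field `gen` of
`Core.PlaceRed` / `Core.GeoRed` (second half of the Prelude `ReductionInputsModL A N`).

Assembly of landed pieces only: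
* `H700.pgi` (helper700): PGI from `S28.CoreData N k` and `HasPrincipalDivisors ℚ̄ F̄_N`;
* `S28.H867.coreData_of_inputs` + `H807` + `H25` (row S28): `CoreData N k` for every field `k`
  of characteristic `ℓ ∤ N`;
* `Lib.RR.H864.hasPrincipalDivisors_modularFunctionFieldBar` (from row S24).
Also exported: `charP_residueField` (the residue field of `A` has characteristic `ℓ`),
`coreData_residueField`, and `reduction_mem` (hypothesis `hyk` of the Prelude property (ii) is
automatic).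
-/

set_option autoImplicit false
set_option synthInstance.maxHeartbeats 400000

noncomputable section

namespace Fermat.Agent.S37.H98

open ModularCurve ValuationSubring AlgebraicCurve HahnSeries

/-- The residue field of a valuation subring over the prime `ℓ` has characteristic `ℓ`. -/
theorem charP_residueField {L : Type*} [Field L] (A : ValuationSubring L) (ℓ : ℕ)
    (hℓ : ℓ.Prime) (hA : A.LiesOverPrime ℓ) : CharP (IsLocalRing.ResidueField A) ℓ := by
  have hℓm : ((ℓ : ℕ) : A) ∈ IsLocalRing.maximalIdeal A := by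
    obtain ⟨ha, hm⟩ := (ValuationSubring.mem_nonunits_iff_exists_mem_maximalIdeal).mp hA
    have : (⟨(ℓ : L), ha⟩ : A) = ((ℓ : ℕ) : A) := by
      apply Subtype.ext; simp
    rwa [this] at hm
  have h0 : ((ℓ : ℕ) : IsLocalRing.ResidueField A) = 0 := by
    have := (IsLocalRing.residue_eq_zero_iff ((ℓ : ℕ) : A)).mpr hℓm
    rwa [map_natCast] at this
  have : Fact ℓ.Prime := ⟨hℓ⟩
  exact (CharP.charP_iff_prime_eq_zero hℓ).mpr h0

/-- `S28.CoreData` over the residue field of a valuation subring of `ℚ̄` over `ℓ ∤ N`. -/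
theorem coreData_residueField (N : ℕ) [NeZero N] (ℓ : ℕ) (hℓ : ℓ.Prime) (hℓN : ¬ ℓ ∣ N)
    (A : ValuationSubring (AlgebraicClosure ℚ)) (hA : A.LiesOverPrime ℓ) :
    Fermat.Agent.S28.CoreData N (IsLocalRing.ResidueField A) := by
  have : Fact ℓ.Prime := ⟨hℓ⟩
  have : CharP (IsLocalRing.ResidueField A) ℓ := charP_residueField A ℓ hℓ hA
  exact Fermat.Agent.S28.H867.coreData_of_inputs N ℓ hℓN (IsLocalRing.ResidueField A)
    (fun p hp _ _ => Fermat.Agent.S28.H807.nonempty_modPolyData p hp)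
    (fun p hp _ _ => Fermat.Agent.S28.H807.nonempty_unitPolyData p hp)
    Fermat.Agent.S28.H25.theta_identity

/-- **R-f [GEN]**: every principal divisor of `ℚ̄(X₀(N))` is generated by divisors of
Gauss-integral functions with nonzero reduction (Prelude `PrincipalGeneratedByIntegral`), for
every valuation subring `A` of `ℚ̄` over a prime `ℓ ∤ N`. -/
theorem gen (N : ℕ) [NeZero N] (ℓ : ℕ) (hℓ : ℓ.Prime) (hℓN : ¬ ℓ ∣ N)
    (A : ValuationSubring (AlgebraicClosure ℚ)) (hA : A.LiesOverPrime ℓ) :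
    PrincipalGeneratedByIntegral A (IsLocalRing.residue A) N := by
  have := Fermat.Agent.Lib.RR.H864.hasPrincipalDivisors_modularFunctionFieldBar N
  exact Fermat.Agent.S37.H700.pgi (coreData_residueField N ℓ hℓ hℓN A hA)

/-- Reductions of Gauss-integral elements of `ℚ̄(X₀(N))` lie in the function field of the
special fibre: the hypothesis `hyk` of the Prelude property (ii) is automatic. -/
theorem reduction_mem (N : ℕ) [NeZero N] (ℓ : ℕ) (hℓ : ℓ.Prime) (hℓN : ¬ ℓ ∣ N)
    (A : ValuationSubring (AlgebraicClosure ℚ)) (hA : A.LiesOverPrime ℓ)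
    (u : LaurentSeries A) (hu : coeffMap A.subtype u ∈ modularFunctionFieldBar N) :
    coeffMap (IsLocalRing.residue A) u ∈
      modularFunctionFieldFullC (IsLocalRing.ResidueField A) N :=
  Fermat.Agent.S37.H700.reduction_mem (coreData_residueField N ℓ hℓ hℓN A hA) u hu

end Fermat.Agent.S37.H98

end
end
-- ===== PACK-END S37/H98/Gen.lean

-- ===== PACK-BEGIN S17/H680/Cusp.lean
section





/-!
# S17 / P2 (helper680): the cusp `∞` is Galois-stable; descent for `J₀(N)`

* `cuspInf F₀ hneg` : the place `ord_q` of `laurentBaseChange L F₀ ⊆ L((q))`;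
* `arithmeticGalois_smul_cuspInf` : it is fixed by the coefficientwise Galois action;
* `JZero.galois_smul_minRep` : for a Galois-fixed class `x ∈ J₀(N)`, the minimal representative
  `E_x` (effective, degree `≤ g`, prime to `∞`, `x = [E_x - m ∞]`) is a Galois-invariant divisor.
-/

set_option autoImplicit false

noncomputable section

open AlgebraicCurve ModularCurve

namespace Fermat.Agent.S17.H680

open Fermat.Agent.Lib.RR

section General

variable {L : Type*} [Field L] [Algebra ℚ L]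
variable (F₀ : IntermediateField ℚ (LaurentSeries ℚ))

/-- The inclusion of the function field into the Laurent series. -/
def inclLaurent : laurentBaseChange L F₀ →+* LaurentSeries L :=
  (laurentBaseChange L F₀).toSubfield.subtype

@[simp]
theorem inclLaurent_apply (x : laurentBaseChange L F₀) :
    inclLaurent F₀ x = (x : LaurentSeries L) := rfl

omit [Algebra ℚ L] in
theorem order_algebraMap_laurent (c : L) :
    (algebraMap L (LaurentSeries L) c).order = 0 := by
  rw [algebraMap_laurentSeries_eq_single]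
  rcases eq_or_ne c 0 with rfl | hc
  · simp
  · exact HahnSeries.order_single hc

/-- The place `ord_q` of the function field `laurentBaseChange L F₀`. -/
def cuspInf (hneg : ∃ f : laurentBaseChange L F₀, (f : LaurentSeries L).order < 0) :
    Place L (laurentBaseChange L F₀) :=
  Fermat.Agent.S24.H144.placeOfEmb (inclLaurent F₀)
    (fun c => le_of_eq (order_algebraMap_laurent c).symm) hneg

theorem mem_cuspInf (hneg : ∃ f : laurentBaseChange L F₀, (f : LaurentSeries L).order < 0)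
    (f : laurentBaseChange L F₀) :
    f ∈ (cuspInf F₀ hneg).toValuationSubring ↔ 0 ≤ (f : LaurentSeries L).order :=
  Iff.rfl

omit [Algebra ℚ L] in
theorem order_coeffMap_of_injective (φ : L →+* L) (hφ : Function.Injective φ)
    (x : LaurentSeries L) : (coeffMap φ x).order = x.order := by
  classical
  rcases eq_or_ne x 0 with rfl | hx
  · simp
  have hx' : coeffMap φ x ≠ 0 := by
    intro h
    apply hx
    ext k
    have := congrArg (fun y => HahnSeries.coeff y k) h
    simp only [coeffMap_coeff, HahnSeries.coeff_zero] at this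
    rw [HahnSeries.coeff_zero]
    exact hφ (by rw [this, map_zero])
  have hsupp : (coeffMap φ x).support = x.support := by
    ext k
    simp only [HahnSeries.mem_support, coeffMap_coeff, ne_eq]
    rw [map_eq_zero_iff φ hφ]
  rw [HahnSeries.order_of_ne hx', HahnSeries.order_of_ne hx]
  congr 1

/-- The cusp `∞` is fixed by the coefficientwise Galois action. -/
theorem arithmeticGalois_smul_cuspInf
    (hneg : ∃ f : laurentBaseChange L F₀, (f : LaurentSeries L).order < 0) (σ : L ≃ₐ[ℚ] L) :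
    arithmeticGalois F₀ σ • cuspInf F₀ hneg = cuspInf F₀ hneg := by
  apply Place.ext
  ext f
  rw [SemilinearAut.smul_toValuationSubring,
    ValuationSubring.mem_pointwise_smul_iff_inv_smul_mem, mem_cuspInf, mem_cuspInf]
  have h : (((arithmeticGalois F₀ σ)⁻¹ • f : laurentBaseChange L F₀) : LaurentSeries L)
      = coeffMap ((σ⁻¹ : L ≃ₐ[ℚ] L) : L →+* L) (f : LaurentSeries L) := by
    rw [← map_inv]
    exact coe_arithmeticGalois_smul F₀ σ⁻¹ f
  rw [h, order_coeffMap_of_injective _ (σ⁻¹ : L ≃ₐ[ℚ] L).injective]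

end General

/-! ### The modular function field -/

section Modular

variable (N : ℕ) [NeZero N]

theorem jq_order_neg : jq.order < 0 := by
  have h : jq.order ≤ -1 := HahnSeries.order_le_of_coeff_ne_zero (by
    rw [coeff_jq_neg_one]; exact one_ne_zero)
  omega

theorem exists_order_neg_modular :
    ∃ f : modularFunctionFieldBar N, (f : LaurentSeries (AlgebraicClosure ℚ)).order < 0 := by
  refine ⟨⟨coeffEmb (AlgebraicClosure ℚ) jq,
    coeffEmb_mem_laurentBaseChange _ (modularFunctionField_le_full N (jq_mem N))⟩, ?_⟩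
  show (coeffEmb (AlgebraicClosure ℚ) jq).order < 0
  have h : (coeffEmb (AlgebraicClosure ℚ) jq).order ≤ -1 :=
    HahnSeries.order_le_of_coeff_ne_zero (by
      rw [coeffEmb_coeff, coeff_jq_neg_one, map_one]; exact one_ne_zero)
  omega

/-- The cusp `∞` of `X₀(N)`, as a place of `ℚ̄(X₀(N))`. -/
def JZero.cusp : Place (AlgebraicClosure ℚ) (modularFunctionFieldBar N) :=
  cuspInf (modularFunctionFieldFull N) (exists_order_neg_modular N)

theorem JZero.galois_smul_cusp (σ : AlgebraicClosure ℚ ≃ₐ[ℚ] AlgebraicClosure ℚ) :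
    arithmeticGalois (modularFunctionFieldFull N) σ • JZero.cusp N = JZero.cusp N :=
  arithmeticGalois_smul_cuspInf _ _ σ

omit [NeZero N] in
/-- Membership in the Mordell–Weil group `J₀(N)(ℚ)`. -/
theorem JZero.mem_fixedPoints_iff (x : JZero N) :
    x ∈ FixedPoints.addSubgroup (AlgebraicClosure ℚ ≃ₐ[ℚ] AlgebraicClosure ℚ) (JZero N) ↔
      ∀ σ : AlgebraicClosure ℚ ≃ₐ[ℚ] AlgebraicClosure ℚ,
        arithmeticGalois (modularFunctionFieldFull N) σ • x = x :=
  Iff.rfl

/-- **Galois descent for `J₀(N)`**: the minimal representative of a rational class is a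
Galois-invariant effective divisor. -/
theorem JZero.galois_smul_minRep {x : JZero N}
    (hx : x ∈ FixedPoints.addSubgroup (AlgebraicClosure ℚ ≃ₐ[ℚ] AlgebraicClosure ℚ) (JZero N))
    (σ : AlgebraicClosure ℚ ≃ₐ[ℚ] AlgebraicClosure ℚ) :
    arithmeticGalois (modularFunctionFieldFull N) σ • minRep (JZero.cusp N) x
      = minRep (JZero.cusp N) x :=
  smul_minRep_eq _ (JZero.galois_smul_cusp N σ) ((JZero.mem_fixedPoints_iff N x).mp hx σ)

/-- Summary of the descent statement for `J₀(N)(ℚ)`. -/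
theorem JZero.exists_invariant_rep {x : JZero N}
    (hx : x ∈ FixedPoints.addSubgroup (AlgebraicClosure ℚ ≃ₐ[ℚ] AlgebraicClosure ℚ) (JZero N)) :
    ∃ (m : ℕ) (E : Divisor (AlgebraicClosure ℚ) (modularFunctionFieldBar N))
      (hdeg : Divisor.degree (E - m • prim (JZero.cusp N)) = 0),
      m ≤ genusR (AlgebraicClosure ℚ) (modularFunctionFieldBar N) ∧ 0 ≤ E ∧
      Divisor.degree E = m ∧ E (JZero.cusp N) = 0 ∧ ell E = 1 ∧
      (∀ σ : AlgebraicClosure ℚ ≃ₐ[ℚ] AlgebraicClosure ℚ,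
        arithmeticGalois (modularFunctionFieldFull N) σ • E = E) ∧
      Pic0.mk ⟨E - m • prim (JZero.cusp N), hdeg⟩ = x :=
  ⟨minDeg (JZero.cusp N) x, minRep (JZero.cusp N) x, degree_minRep_sub _ x,
    minDeg_le_genus _ x, minRep_nonneg _ x, degree_minRep _ x, minRep_apply_infty _ x,
    ell_minRep _ x, fun σ => JZero.galois_smul_minRep N hx σ, mk_minDiv _ x⟩

end Modular

end Fermat.Agent.S17.H680

end
end
-- ===== PACK-END S17/H680/Cusp.lean

-- ===== PACK-BEGIN S37/H818/Transfer.lean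
section
/-
S37 / LEVEL TRANSFER (helper818), part 11: reduction data at level `N * k` give reduction data at
level `N`, when `[F_{N k} : F_N]` is a power of `ℓ` (e.g. `(ℓ, k) = (3, 2)` or `(2, 3)`,
`gcd(N, 6) = 1`):   `red_N := red_{N k} ∘ π^*`.
-/





set_option autoImplicit false
set_option linter.style.haveILetI false

noncomputable section

namespace Fermat.Agent.S37.H818

open AlgebraicCurve ModularCurve IntermediateField Fermat.Agent.S37.H99

/-- `ℚ̄`. -/
abbrev Qb : Type := AlgebraicClosure ℚ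

variable (N k ℓ : ℕ) [NeZero N] [NeZero k] [NeZero ℓ]

/-- The inputs of the level transfer `N * k → N` at the Hecke prime `ℓ`. -/
structure TransferInputs : Prop where
  hℓ : ℓ.Prime
  hk : k.Prime
  hℓN : ¬ ℓ ∣ N
  hℓk : ¬ ℓ ∣ k
  /-- Hecke inputs at level `N` -/
  heckeN : HeckeInputsAlong Qb N ℓ
  /-- Hecke inputs at level `N * k` -/
  heckeM : HeckeInputsAlong Qb (N * k) ℓ
  /-- the norm formula for the degeneracy map `F_N ⊂ F_{N k}` -/
  normFormula : NormFormulaAlong Qb (heckeAlphaBar Qb N k) (finiteAlong_heckeAlphaBar N k hk)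
  /-- the degree of the degeneracy map is a power of `ℓ` -/
  deg_pow : ∃ e : ℕ, finrankAlong Qb (heckeAlphaBar Qb N k) = ℓ ^ e

variable {N k ℓ}

namespace TransferInputs

variable [HasPrincipalDivisors Qb (FB Qb N)] [HasPrincipalDivisors Qb (FB Qb (N * k))]

variable (T : TransferInputs N k ℓ)

include T

omit [HasPrincipalDivisors Qb (FB Qb N)] [HasPrincipalDivisors Qb (FB Qb (N * k))] in
theorem isIntegral : (heckeAlphaBar Qb N k).toRingHom.IsIntegral :=
  isIntegral_heckeAlphaBar N k T.hk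

theorem fundamentalIdentity : FundamentalIdentityAlong Qb (heckeAlphaBar Qb N k) T.isIntegral :=
  fundamentalIdentityAlong_of_normFormula _ _ (finiteAlong_heckeAlphaBar N k T.hk) T.normFormula

/-- The pullback `π^* : J₀(N) → J₀(N k)`. -/
def pullback : JZero N →+ JZero (N * k) :=
  pullbackPic0Along (heckeAlphaBar Qb N k) T.isIntegral T.fundamentalIdentity

theorem pullback_galois (σ : Qb ≃ₐ[ℚ] Qb) (x : JZero N) :
    T.pullback (σ • x) = σ • T.pullback x :=
  pullbackPic0Along_galois T.isIntegral T.fundamentalIdentity σ x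

theorem pullback_hecke (x : JZero N) :
    T.pullback (heckeOperatorBar N ⟨ℓ, T.hℓ⟩ x) =
      heckeOperatorBar (N * k) ⟨ℓ, T.hℓ⟩ (T.pullback x) := by
  have hi₁ : (degenTop Qb N k ℓ).toRingHom.IsIntegral := by
    -- `F_{N k ℓ}` is finite over `F_N`, hence integral over `F_{N ℓ}`
    have hα := isIntegral_heckeAlphaBar (L := Qb) (N * k) ℓ T.hℓ
    have hι := T.isIntegral
    have hcomp : ((heckeAlphaBar Qb (N * k) ℓ).comp (heckeAlphaBar Qb N k)).toRingHom.IsIntegral :=
      RingHom.IsIntegral.trans _ _ hι hα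
    rw [← square_alpha] at hcomp
    exact RingHom.IsIntegral.tower_top _ _ hcomp
  exact pullback_heckeOperatorAlong T.heckeN T.heckeM T.isIntegral T.fundamentalIdentity hi₁
    (normCompat_modular N k ℓ T.hℓ T.hℓN T.hℓk) x

theorem pullback_eq_zero (x : JZero N) (hx : T.pullback x = 0) :
    finrankAlong Qb (heckeAlphaBar Qb N k) • x = 0 :=
  nsmul_eq_zero_of_pullbackPic0Along_eq_zero _ _ (finiteAlong_heckeAlphaBar N k T.hk)
    T.normFormula T.fundamentalIdentity x hx

/-- `π^*` is injective on torsion of order prime to `ℓ`. -/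
theorem pullback_injective_of_coprime (m : ℕ) (hm : m.Coprime ℓ) (x : JZero N)
    (hmx : m • x = 0) (hx : T.pullback x = 0) : x = 0 := by
  obtain ⟨e, he⟩ := T.deg_pow
  have hd := T.pullback_eq_zero x hx
  rw [he] at hd
  have hcop : Nat.Coprime m (ℓ ^ e) := Nat.Coprime.pow_right e hm
  have hord : addOrderOf x ∣ m := addOrderOf_dvd_of_nsmul_eq_zero hmx
  have hord' : addOrderOf x ∣ ℓ ^ e := addOrderOf_dvd_of_nsmul_eq_zero hd
  have h1 : addOrderOf x ∣ Nat.gcd m (ℓ ^ e) := Nat.dvd_gcd hord hord'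
  rw [hcop.gcd_eq_one, Nat.dvd_one] at h1
  exact AddMonoid.addOrderOf_eq_one_iff.mp h1

/-- **Level transfer of reduction data.** -/
def redData (A : ValuationSubring Qb) (D : RedData (N * k) A ℓ T.hℓ) : RedData N A ℓ T.hℓ where
  Y := D.Y
  instY := D.instY
  red := D.red.comp T.pullback
  inertia τ hτ x := by
    rw [AddMonoidHom.comp_apply, AddMonoidHom.comp_apply, T.pullback_galois]
    exact D.inertia τ hτ _
  frob_ker σ hσ x hx := by
    rw [AddMonoidHom.comp_apply] at hx ⊢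
    rw [T.pullback_galois]
    exact D.frob_ker σ hσ _ hx
  inj_torsion m x hm hmx hx := by
    rw [AddMonoidHom.comp_apply] at hx
    refine T.pullback_injective_of_coprime m hm x hmx ?_
    refine D.inj_torsion m _ hm ?_ hx
    rw [← map_nsmul, hmx, map_zero]
  relation σ hσ x := by
    rw [AddMonoidHom.comp_apply, map_add, map_sub, map_nsmul, T.pullback_hecke,
      T.pullback_galois, T.pullback_galois]
    exact D.relation σ hσ _

end TransferInputs

end Fermat.Agent.S37.H818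

end

end
-- ===== PACK-END S37/H818/Transfer.lean

-- ===== PACK-BEGIN A3/GR/Leaves.lean
section







/-!
# A3 / GOODRED-INST — frozen LEAVES and the (proved) assembly   (lead: helper19)

Target: an instance of `Fermat.Agent.A3.H799.GoodRed` for
`K = ℚ̄`, `F = F_M = ℚ̄(X₀(M))`, `k = A/𝔪`, `Fk = F_{M,k} = k(X₀(M))`,
built on the CANONICAL objects of helper940 (`S37/H940/QSeries.lean`, `S37/Rim/Spec.lean`):

* `V`   = `A`;   `O` = the ring of fractions `a/b` of integral `q`-series with `b̄ ≠ 0`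
          (`(Rim.ctx A M).V`; a valuation ring by leaf GAUSS);
* `red` = coefficientwise reduction (`(Rim.ctx A M).ρ`);
* `r`   = the place map of the Prelude's `ReductionInputsModL A M` (node_rim of row S37);
* `I`   = image of the inertia group of `A` under `arithmeticGalois`.

`goodRed_of_leaves` is PROVED here from the leaves below; each leaf is a `def … : Prop`.
A leaf `X` is DONE when `theorem … : XStatement A M` (with the hypotheses it needs: `ℓ ∤ M`,
`A.LiesOverPrime ℓ`, good level) is on main, sorry-free.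
-/

set_option autoImplicit false
set_option synthInstance.maxHeartbeats 400000

noncomputable section

namespace Fermat.Agent.A3.GR

open AlgebraicCurve ModularCurve HahnSeries IsLocalRing
open Fermat.Agent.S37.Rim Fermat.Agent.S37.H940 Fermat.Agent.A3.H799

variable (A : ValuationSubring Qb) (M : ℕ)

/-- the inertia group of `A`, acting on `F_M` -/
def inertia : Subgroup (SemilinearAut Qb (FM M)) :=
  (A.inertiaSubgroupIn ℚ).map (arithmeticGalois (modularFunctionFieldFull M))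

/-- **LEAF GAUSS**: every nonzero function is a constant times a fraction of integral
`q`-series with nonzero reductions (= helper940's `ValueGroupHyp`). -/
def GaussStatement : Prop :=
  ValueGroupHyp A (residue A) (FM M) (FkM A M)

/-- **LEAF RSURJ**: reduction of functions is onto. -/
def RedSurjStatement : Prop :=
  Function.Surjective (ctx A M).ρ

/-- **LEAF RIM** (node_rim of row S37 in the fraction form of helper940's `Atlas.exists_red`,
together with the pointwise inertia invariance): the place reduction map. -/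
def RimStatement : Prop :=
  ∃ r : Place Qb (FM M) → Place (kA A) (FkM A M),
    (∀ P, (r P).deg = P.deg) ∧
    (∀ u : (ctx A M).V, (ctx A M).ρ u ≠ 0 → ∀ D : Divisor Qb (FM M),
      (∀ P, D P = P.ord (u : FM M)) → ∀ Q, Finsupp.mapDomain r D Q = Q.ord ((ctx A M).ρ u)) ∧
    ∀ σ ∈ A.inertiaSubgroupIn ℚ, ∀ P : Place Qb (FM M),
      r (arithmeticGalois (modularFunctionFieldFull M) σ • P) = r P

/-- **LEAF GENUS**: equal genus. -/
def GenusStatement : Prop :=
  genusFF Qb (FM M) = genusFF (kA A) (FkM A M)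

/-- **LEAF ORTHO**: orthonormal bases of Riemann–Roch spaces, inertia-invariant for
inertia-invariant divisors. -/
def OrthoStatement : Prop :=
  ∀ D : Divisor Qb (FM M), ∃ (n : ℕ) (b : Fin n → (ctx A M).V),
    LinearIndependent (kA A) (fun i => (ctx A M).ρ (b i)) ∧
    (∀ i, ((b i : (ctx A M).V) : FM M) ∈ riemannRochSpace D) ∧
    Submodule.span Qb (Set.range fun i => ((b i : (ctx A M).V) : FM M)) = riemannRochSpace D ∧
    ((∀ g ∈ inertia A M, g • D = D) →
      ∀ i, ∀ g ∈ inertia A M, g • ((b i : (ctx A M).V) : FM M) = ((b i : (ctx A M).V) : FM M))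

/-- **LEAF IBASE**: inertia preserves `A` and acts trivially on the residue field. -/
def IBaseStatement : Prop :=
  ∀ σ ∈ A.inertiaSubgroupIn ℚ, ∀ a : A, ∃ h : σ (a : Qb) ∈ A,
    residue A ⟨σ (a : Qb), h⟩ = residue A a

/-- **LEAF IRED**: inertia preserves `O` and acts trivially on reductions. -/
def IRedStatement : Prop :=
  ∀ σ ∈ A.inertiaSubgroupIn ℚ, ∀ f : (ctx A M).V,
    ∃ h : arithmeticGalois (modularFunctionFieldFull M) σ • (f : FM M) ∈ (ctx A M).V,
      (ctx A M).ρ ⟨arithmeticGalois (modularFunctionFieldFull M) σ • (f : FM M), h⟩ =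
        (ctx A M).ρ f

/-- **LEAF ILIFT**: every residue constant has an inertia-invariant lift. -/
def ILiftStatement : Prop :=
  ∀ c : kA A, ∃ a : A, residue A a = c ∧ ∀ σ ∈ A.inertiaSubgroupIn ℚ, σ (a : Qb) = (a : Qb)

/-- **LEAF IFIXED**: there is an inertia-invariant place (the cusp `∞`). -/
def IFixedStatement : Prop :=
  ∃ P : Place Qb (FM M), ∀ σ ∈ A.inertiaSubgroupIn ℚ,
    arithmeticGalois (modularFunctionFieldFull M) σ • P = P

end Fermat.Agent.A3.GR

end

end
-- ===== PACK-END A3/GR/Leaves.lean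

-- ===== PACK-BEGIN S37/H448/Gen.lean
section







/-!
# S37 / piece R-f [GEN] (helper448): unconditional `PrincipalGeneratedByIntegral`

Glue of landed pieces:
* `S28.H867.coreData_of_inputs` + `S28.H807` + `S28.H25` : `CoreData N K` for every field `K`
  of characteristic `ℓ ∤ N`;
* `Lib.RR.H864.hasPrincipalDivisors_modularFunctionFieldBar`;
* `S37.H700.pgi`, `S37.H700.reduction_mem`.

Exports (all hypothesis-free beyond `ℓ` prime, `ℓ ∤ N`, `A` over `ℓ`):
* `charP_residueField_of_liesOverPrime`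
* `coreData_residueField`
* `principalGeneratedByIntegral` : the field `gen` of `Core.GeoRed` / `Core.PlaceRed`
* `reduction_mem_fullC` : the reduction of `u ∈ A((q)) ∩ F̄_N` lies in `F_k`
-/

set_option autoImplicit false

noncomputable section

namespace Fermat.Agent.S37.H448

open ModularCurve HahnSeries AlgebraicCurve

/-- the residue field of a valuation subring of `ℚ̄` over `ℓ` has characteristic `ℓ` -/
theorem charP_residueField_of_liesOverPrime {ℓ : ℕ} (hℓ : ℓ.Prime)
    (A : ValuationSubring (AlgebraicClosure ℚ)) (hA : A.LiesOverPrime ℓ) :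
    CharP (IsLocalRing.ResidueField A) ℓ := by
  refine (CharP.charP_iff_prime_eq_zero hℓ).mpr ?_
  have h1 : ((ℓ : A) : AlgebraicClosure ℚ) ∈ A.nonunits := by
    have : ((ℓ : A) : AlgebraicClosure ℚ) = (ℓ : AlgebraicClosure ℚ) := by push_cast; rfl
    rw [this]; exact hA
  have h2 : (ℓ : A) ∈ IsLocalRing.maximalIdeal A := ValuationSubring.coe_mem_nonunits_iff.mp h1
  have h3 := (IsLocalRing.residue_eq_zero_iff (ℓ : A)).mpr h2
  rwa [map_natCast] at h3

/-- `CoreData N k` for the residue field `k` of a valuation subring of `ℚ̄` over `ℓ ∤ N` -/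
theorem coreData_residueField (N : ℕ) [NeZero N] {ℓ : ℕ} (hℓ : ℓ.Prime) (hℓN : ¬ ℓ ∣ N)
    (A : ValuationSubring (AlgebraicClosure ℚ)) (hA : A.LiesOverPrime ℓ) :
    Fermat.Agent.S28.CoreData N (IsLocalRing.ResidueField A) := by
  have : Fact ℓ.Prime := ⟨hℓ⟩
  have : CharP (IsLocalRing.ResidueField A) ℓ := charP_residueField_of_liesOverPrime hℓ A hA
  exact Fermat.Agent.S28.H867.coreData_of_inputs N ℓ hℓN (IsLocalRing.ResidueField A)
    (fun p hp _ _ => Fermat.Agent.S28.H807.nonempty_modPolyData p hp)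
    (fun p hp _ _ => Fermat.Agent.S28.H807.nonempty_unitPolyData p hp)
    Fermat.Agent.S28.H25.theta_identity

/-- **R-f [GEN]**: every principal divisor of `ℚ̄(X₀(N))` is generated by divisors of
`A`-integral functions with nonzero reduction in `F_k`. -/
theorem principalGeneratedByIntegral (N : ℕ) [NeZero N] {ℓ : ℕ} (hℓ : ℓ.Prime) (hℓN : ¬ ℓ ∣ N)
    (A : ValuationSubring (AlgebraicClosure ℚ)) (hA : A.LiesOverPrime ℓ) :
    PrincipalGeneratedByIntegral A (IsLocalRing.residue A) N := by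
  have := Fermat.Agent.Lib.RR.H864.hasPrincipalDivisors_modularFunctionFieldBar N
  exact Fermat.Agent.S37.H700.pgi (coreData_residueField N hℓ hℓN A hA)

/-- the coefficientwise reduction of `u ∈ A((q)) ∩ F̄_N` lies in `F_k` (so the field `memk` of
`Core.IntElt` is automatic) -/
theorem reduction_mem_fullC (N : ℕ) [NeZero N] {ℓ : ℕ} (hℓ : ℓ.Prime) (hℓN : ¬ ℓ ∣ N)
    (A : ValuationSubring (AlgebraicClosure ℚ)) (hA : A.LiesOverPrime ℓ)
    (u : LaurentSeries A) (hu : coeffMap A.subtype u ∈ modularFunctionFieldBar N) :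
    coeffMap (IsLocalRing.residue A) u ∈
      modularFunctionFieldFullC (IsLocalRing.ResidueField A) N :=
  Fermat.Agent.S37.H700.reduction_mem (coreData_residueField N hℓ hℓN A hA) u hu

end Fermat.Agent.S37.H448

end
end
-- ===== PACK-END S37/H448/Gen.lean

-- ===== PACK-BEGIN A2/H528/FrickeDistinct.lean
section





/-!
# A2 / W — the element separating the two Gauss valuations `V∞` and `V₀ = V∞ ∘ w_N`

For a prime `ℓ ∣ N` put `u := j(q^ℓ) - j(q)^ℓ ∈ FF N` (`frobElt`).  Then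

* `coe_frobElt`    : `u = ℓ · g` with `g ∈ ℤ((q))`          (so `u` is a non-unit at `V∞`);
* `wF_frobElt`     : `w_N u = j(q^{N/ℓ}) - j(q^N)^ℓ`;
* `coe_wF_frobElt` : `w_N u ∈ ℤ((q))` with coefficient `-1` at `q^{-Nℓ}`
                                                           (so `w_N u` is a unit at `V∞`).
-/

set_option autoImplicit false
set_option synthInstance.maxHeartbeats 400000
set_option maxHeartbeats 1000000

noncomputable section

open ModularCurve HahnSeries AlgebraicCurve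

namespace Fermat.Agent.A2.H528

open Fermat.Agent.S24 Fermat.Agent.S24.H997

/-- integral Laurent series, viewed in `ℚ̄((q))` -/
def intEmb : LaurentSeries ℤ →+* LaurentSeries Kbar := coeffMap (Int.castRingHom Kbar)

@[simp] theorem intEmb_coeff (x : LaurentSeries ℤ) (k : ℤ) :
    (intEmb x).coeff k = ((x.coeff k : ℤ) : Kbar) := rfl

theorem intEmb_injective : Function.Injective intEmb := by
  intro x y h
  ext k
  have h1 := congrArg (fun s => s.coeff k) h
  simpa using h1

/-- `j(q^d)` over `ℤ` -/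
def jZ (d : ℕ) [NeZero d] : LaurentSeries ℤ := qExpand ℤ d (jqModC ℤ)

theorem coeffEmb_jqd (d : ℕ) [NeZero d] :
    coeffEmb Kbar (qExpand ℚ d jq) = intEmb (jZ d) := by
  have h1 : jq = coeffMap (Int.castRingHom ℚ) (jqModC ℤ) := by
    rw [← jqModC_rat]
    exact (map_jqModC (Int.castRingHom ℚ)).symm
  rw [h1, jZ, intEmb, coeffMap_qExpand, coeffEmb, coeffMap_qExpand, coeffMap_coeffMap]
  congr 1

variable (N : ℕ) [NeZero N] (ℓ : ℕ) [hℓ : Fact ℓ.Prime]

omit [NeZero N] in
theorem coe_jFd_int (d : ℕ) [NeZero d] (hd : d ∣ N) :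
    ((jFd N d hd : FF N) : LaurentSeries Kbar) = intEmb (jZ d) := by
  rw [coe_jFd, coeffEmb_jqd]

/-- **The Frobenius element** `u = j(q^ℓ) - j(q)^ℓ` of `FF N`, `ℓ ∣ N`. -/
def frobElt (h : ℓ ∣ N) : FF N := jFd N ℓ h - jFd N 1 (one_dvd N) ^ ℓ

omit [NeZero N] in
theorem coe_frobElt_eq (h : ℓ ∣ N) :
    ((frobElt N ℓ h : FF N) : LaurentSeries Kbar) = intEmb (jZ ℓ - jZ 1 ^ ℓ) := by
  show ((jFd N ℓ h : FF N) : LaurentSeries Kbar)
    - ((jFd N 1 (one_dvd N) : FF N) : LaurentSeries Kbar) ^ ℓ = _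
  rw [coe_jFd_int, coe_jFd_int, _root_.map_sub, map_pow]

omit [NeZero N] in
/-- `u = ℓ · g` with `g ∈ ℤ((q))`: the Frobenius element is divisible by `ℓ`. -/
theorem coe_frobElt (h : ℓ ∣ N) :
    ∃ g : LaurentSeries ℤ, ((frobElt N ℓ h : FF N) : LaurentSeries Kbar)
      = HahnSeries.C (ℓ : Kbar) * intEmb g := by
  obtain ⟨g, hg⟩ := exists_frobCong ℓ (jqModC ℤ)
  refine ⟨g, ?_⟩
  rw [coe_frobElt_eq]
  have h1 : jZ 1 = jqModC ℤ := qExpand_one_apply _
  rw [h1, jZ, hg, _root_.map_mul]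
  congr 1
  show coeffMap (Int.castRingHom Kbar) (HahnSeries.single 0 (ℓ : ℤ)) = HahnSeries.single 0 (ℓ : Kbar)
  rw [coeffMap_single]
  simp

/-- `u = ℓ · g'` with `g' ∈ FF N` having integral `q`-expansion. -/
theorem exists_frobElt_eq_mul (h : ℓ ∣ N) :
    ∃ (g : LaurentSeries ℤ) (g' : FF N), ((g' : FF N) : LaurentSeries Kbar) = intEmb g ∧
      frobElt N ℓ h = algebraMap Kbar (FF N) (ℓ : Kbar) * g' := by
  obtain ⟨g, hg⟩ := coe_frobElt N ℓ h
  have hℓ0 : (ℓ : Kbar) ≠ 0 := by exact_mod_cast hℓ.out.ne_zero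
  have hc : algebraMap Kbar (FF N) (ℓ : Kbar) ≠ 0 := by
    rw [Ne, map_eq_zero_iff _ (algebraMap Kbar (FF N)).injective]
    exact hℓ0
  refine ⟨g, (algebraMap Kbar (FF N) (ℓ : Kbar))⁻¹ * frobElt N ℓ h, ?_, ?_⟩
  · have hC : ((algebraMap Kbar (FF N) (ℓ : Kbar) : FF N) : LaurentSeries Kbar)
        = HahnSeries.C (ℓ : Kbar) := by
      show algebraMap Kbar (LaurentSeries Kbar) (ℓ : Kbar) = _
      rw [algebraMap_laurentSeries_eq_single]
      rfl
    have hC0 : (HahnSeries.C (ℓ : Kbar) : LaurentSeries Kbar) ≠ 0 := by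
      rw [← hC]
      exact fun h0 => hc (Subtype.ext h0)
    show ((algebraMap Kbar (FF N) (ℓ : Kbar) : FF N) : LaurentSeries Kbar)⁻¹
      * ((frobElt N ℓ h : FF N) : LaurentSeries Kbar) = _
    rw [hC, hg, ← mul_assoc, inv_mul_cancel₀ hC0, one_mul]
  · rw [← mul_assoc, mul_inv_cancel₀ hc, one_mul]

omit [NeZero N] in
theorem jFd_congr {d d' : ℕ} [NeZero d] [NeZero d'] (hd : d ∣ N) (hd' : d' ∣ N) (h : d = d') :
    jFd N d hd = jFd N d' hd' := by
  subst h
  rfl

/-- `w_N u = j(q^{N/ℓ}) - j(q^N)^ℓ`. -/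
theorem wF_frobElt (h : ℓ ∣ N) :
    haveI := neZero_div N h
    wF N (frobElt N ℓ h) = jFd N (N / ℓ) (Nat.div_dvd_of_dvd h) - jFd N N dvd_rfl ^ ℓ := by
  have := neZero_div N h
  have := neZero_div N (one_dvd N)
  rw [frobElt, _root_.map_sub, map_pow, wF_jFd, wF_jFd]
  congr 2
  exact jFd_congr N _ _ (Nat.div_one N)

theorem coeff_jZ_pow_top (d n : ℕ) [NeZero d] :
    ((jZ d) ^ n).coeff (-((d * n : ℕ) : ℤ)) = 1 := by
  rw [jZ, ← map_pow,
    show (-((d * n : ℕ) : ℤ)) = (d : ℤ) * (-(n : ℤ)) by push_cast; ring, qExpand_coeff_mul]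
  exact coeff_jqModC_pow_self ℤ n

theorem coeff_jZ_of_lt (d : ℕ) [NeZero d] {k : ℤ} (hk : k < -(d : ℤ)) :
    (jZ d).coeff k = 0 := by
  rw [jZ]
  by_cases hdk : (d : ℤ) ∣ k
  · obtain ⟨m, rfl⟩ := hdk
    rw [qExpand_coeff_mul]
    have hd0 : 0 < (d : ℤ) := by exact_mod_cast Nat.pos_of_ne_zero (NeZero.ne d)
    have hm : m < -((1 : ℕ) : ℤ) := by
      have : (d : ℤ) * m < (d : ℤ) * (-1) := by linarith
      have := lt_of_mul_lt_mul_left this hd0.le
      simpa using this
    have h1 := coeff_jqModC_pow_of_lt ℤ (b := 1) (m := m) hm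
    simpa using h1
  · exact qExpand_coeff_of_not_dvd d _ hdk

/-- `w_N u` has an integral `q`-expansion with coefficient `-1` at `q^{-Nℓ}`. -/
theorem coe_wF_frobElt (h : ℓ ∣ N) :
    ∃ g : LaurentSeries ℤ, ((wF N (frobElt N ℓ h) : FF N) : LaurentSeries Kbar) = intEmb g ∧
      g.coeff (-((N * ℓ : ℕ) : ℤ)) = -1 := by
  have := neZero_div N h
  have hN : 0 < N := Nat.pos_of_ne_zero (NeZero.ne N)
  have hℓ1 : 1 < ℓ := hℓ.out.one_lt
  refine ⟨jZ (N / ℓ) - jZ N ^ ℓ, ?_, ?_⟩
  · rw [wF_frobElt]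
    show ((jFd N (N / ℓ) (Nat.div_dvd_of_dvd h) : FF N) : LaurentSeries Kbar)
      - ((jFd N N dvd_rfl : FF N) : LaurentSeries Kbar) ^ ℓ = _
    rw [coe_jFd_int, coe_jFd_int, _root_.map_sub, map_pow]
  · rw [HahnSeries.coeff_sub, coeff_jZ_pow_top, coeff_jZ_of_lt, zero_sub]
    have h1 : N / ℓ ≤ N := Nat.div_le_self N ℓ
    have h2 : N < N * ℓ := by
      calc N = N * 1 := (mul_one N).symm
        _ < N * ℓ := (Nat.mul_lt_mul_left hN).mpr hℓ1
    have h3 : ((N / ℓ : ℕ) : ℤ) < ((N * ℓ : ℕ) : ℤ) := by exact_mod_cast lt_of_le_of_lt h1 h2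
    linarith

/-- **`V∞ ≠ V₀`.**  Let `V` be a valuation subring of `FF N` which contains the functions with
integral `q`-expansion, in which those with a coefficient `±1` are units, and in which the prime
`ℓ ∣ N` is not a unit (e.g. the Gauss valuation ring above `ℓ` of the expansion at `∞`).  Then the
Frobenius element `u = j(q^ℓ) - j^ℓ` is a non-unit of `V` and a unit of `V ∘ w_N`; in particular
`V ∘ w_N ≠ V`. -/
theorem frobElt_separates (h : ℓ ∣ N) (V : ValuationSubring (FF N))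
    (hint : ∀ (f : FF N) (g : LaurentSeries ℤ), ((f : FF N) : LaurentSeries Kbar) = intEmb g → f ∈ V)
    (hunit : ∀ (f : FF N) (g : LaurentSeries ℤ) (k : ℤ),
      ((f : FF N) : LaurentSeries Kbar) = intEmb g → g.coeff k = -1 → f⁻¹ ∈ V)
    (hℓV : (algebraMap Kbar (FF N) (ℓ : Kbar))⁻¹ ∉ V) :
    (frobElt N ℓ h)⁻¹ ∉ V ∧ (frobElt N ℓ h)⁻¹ ∈ comapW N V := by
  constructor
  · intro hu
    obtain ⟨g, g', hg', hmul⟩ := exists_frobElt_eq_mul N ℓ h
    have hg'V : g' ∈ V := hint g' g hg'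
    have hℓ0 : (ℓ : Kbar) ≠ 0 := by exact_mod_cast hℓ.out.ne_zero
    have hc : algebraMap Kbar (FF N) (ℓ : Kbar) ≠ 0 := by
      rw [Ne, map_eq_zero_iff _ (algebraMap Kbar (FF N)).injective]
      exact hℓ0
    have hu0 : frobElt N ℓ h ≠ 0 := by
      intro h0
      obtain ⟨g2, hg2, hcoef⟩ := coe_wF_frobElt N ℓ h
      rw [h0, _root_.map_zero] at hg2
      have : g2 = 0 := intEmb_injective (by rw [← hg2, _root_.map_zero]; rfl)
      rw [this] at hcoef
      simp at hcoef
    have hkey : (algebraMap Kbar (FF N) (ℓ : Kbar))⁻¹ = g' * (frobElt N ℓ h)⁻¹ := by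
      rw [eq_mul_inv_iff_mul_eq₀ hu0, hmul, ← mul_assoc, inv_mul_cancel₀ hc, one_mul]
    exact hℓV (hkey ▸ V.mul_mem _ _ hg'V hu)
  · rw [mem_comapW, map_inv₀]
    obtain ⟨g2, hg2, hcoef⟩ := coe_wF_frobElt N ℓ h
    exact hunit _ g2 _ hg2 hcoef

theorem comapW_ne (h : ℓ ∣ N) (V : ValuationSubring (FF N))
    (hint : ∀ (f : FF N) (g : LaurentSeries ℤ), ((f : FF N) : LaurentSeries Kbar) = intEmb g → f ∈ V)
    (hunit : ∀ (f : FF N) (g : LaurentSeries ℤ) (k : ℤ),
      ((f : FF N) : LaurentSeries Kbar) = intEmb g → g.coeff k = -1 → f⁻¹ ∈ V)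
    (hℓV : (algebraMap Kbar (FF N) (ℓ : Kbar))⁻¹ ∉ V) :
    comapW N V ≠ V := by
  intro heq
  obtain ⟨h1, h2⟩ := frobElt_separates N ℓ h V hint hunit hℓV
  rw [heq] at h2
  exact h1 h2

end Fermat.Agent.A2.H528

end
end
-- ===== PACK-END A2/H528/FrickeDistinct.lean

-- ===== PACK-BEGIN S37/Rim/H383/NormalAbs.lean
section






/-!
# S37 board v3, leaf D2 (helper383): normality of the special fibre of a good model

`normalAbs` : for `G : Alg.GoodModel Lc Ec Fc R V w x S` (frozen interface of row S18), an element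
`f ∈ V` which is a root modulo `w` of a monic polynomial over `R[x]` is congruent modulo `w` to an
element of the chart `B = {b ∈ Fc integral over R[x]}`:

    ∀ f ∈ V, ∀ P : Polynomial Ω, P.Monic → (∀ i, P.coeff i ∈ Alg.polyRing R x) →
      P.eval f * w⁻¹ ∈ V → ∃ b ∈ Alg.chart Fc R x, (f - b) * w⁻¹ ∈ V

This is `NormalAbsStatement` of helper37's `Core/Skeleton4.lean` (board v3), universe-polymorphic.
Proof: `exists_chart_lift` (`NormalLift.lean`) applied inside the field `Fc`, with the hypotheses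
supplied by helper438's front (`S18/H438/Front`), helper754's `hNC_typed` and the field
`separable` of `GoodModel`.  `normalAbs_inv` is the same statement on the chart at infinity.
-/

set_option autoImplicit false
set_option linter.style.haveILetI false
set_option linter.unusedSectionVars false

noncomputable section

namespace Fermat.Agent.S37.Rim.H383

open Polynomial Fermat.Agent.S18 Fermat.Agent.S18.Alg Fermat.Agent.S18.H438
open Fermat.Agent.S18.H438.GoodModelFront

variable {Ω : Type*} [Field Ω] {Lc Ec Fc : Subfield Ω} {R V : Subring Ω} {w x : Ω}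
  {S : Finset Ω}

/-! ### Polynomials over `Ω` with coefficients in `R[z]` come from `Fc` -/

/-- A polynomial over `Ω` with coefficients in `polyRing R z` is the image of a polynomial over
`Fc` with coefficients in `R[z]`. -/
theorem exists_poly_Fc (hR : ∀ r ∈ R, r ∈ Fc) (z : Fc) (P : Polynomial Ω)
    (hP : ∀ i, P.coeff i ∈ polyRing R (z : Ω)) :
    ∃ Q : Polynomial Fc, Q.map Fc.subtype = P ∧
      ∀ i, Q.coeff i ∈ Algebra.adjoin (Rf Fc R) ({z} : Set Fc) := by
  have hl : P ∈ Polynomial.lifts Fc.subtype := by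
    rw [Polynomial.lifts_iff_coeff_lifts]
    intro i
    obtain ⟨a, -, ha⟩ := exists_mem_baseRing_of_mem_polyRing Fc R z hR (hP i)
    exact ⟨a, ha⟩
  obtain ⟨Q, hQ⟩ := (Polynomial.mem_lifts P).1 hl
  refine ⟨Q, hQ, fun i => ?_⟩
  have h1 : ((Q.coeff i : Fc) : Ω) = P.coeff i := by
    rw [← hQ, coeff_map]
    rfl
  have h2 : Q.coeff i ∈ baseRing (Rf Fc R) z := by
    rw [mem_baseRing_iff Fc R z hR, h1]
    exact hP i
  exact h2

theorem coe_eval_Fc (Q : Polynomial Fc) (f : Fc) :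
    ((Q.eval f : Fc) : Ω) = (Q.map Fc.subtype).eval (f : Ω) := by
  rw [eval_map]
  exact (Polynomial.hom_eval₂ Q (RingHom.id Fc) Fc.subtype f)

/-! ### Generic lemmas (abstract field `F`, no good model) -/

section Generic

attribute [local instance] FractionRing.liftAlgebra

/-- elements of a finite extension of the fraction field of `A` are algebraic over `A` -/
theorem isAlgebraic_of_finite_fractionRing {A F : Type*} [CommRing A] [IsDomain A] [Field F]
    [Algebra A F] [FaithfulSMul A F] [FiniteDimensional (FractionRing A) F] (f : F) :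
    IsAlgebraic A f := by
  have h : IsAlgebraic (FractionRing A) f := IsAlgebraic.of_finite _ f
  exact (IsFractionRing.isAlgebraic_iff A (FractionRing A) F).2 h

variable {F : Type*} [Field F] {R : Subring F} {z : F}

/-- the elementwise form of `hNC` from the radical form -/
theorem elementwise_of_isRadical (hz : Transcendental R z) (π : Polynomial R) (hπ0 : π ≠ 0)
    (h : (Ideal.span {polyToChart R z π}).IsRadical) :
    ∀ f ∈ chartB R z, ∀ n : ℕ, f ^ n * (aeval z π)⁻¹ ∈ chartB R z →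
        f * (aeval z π)⁻¹ ∈ chartB R z := by
  have hπz : aeval z π ≠ 0 := by
    intro h0
    apply hπ0
    apply transcendental_iff_injective.mp hz
    rw [h0, _root_.map_zero]
  intro f hf n hn
  have h1 : polyToChart R z π ∣ (⟨f, hf⟩ : chartB R z) ^ n := by
    rw [polyToChart_dvd_iff π hπz]
    simpa using hn
  have h2 : (⟨f, hf⟩ : chartB R z) ∈ (Ideal.span {polyToChart R z π}).radical :=
    ⟨n, Ideal.mem_span_singleton.2 h1⟩
  have h3 := Ideal.mem_span_singleton.1 (h h2)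
  rw [polyToChart_dvd_iff π hπz] at h3
  exact h3

/-- an element algebraic over a field `K` is a root of a nonzero polynomial over any valuation
subring of `K` -/
theorem exists_poly_valuationSubring {K L : Type*} [Field K] [Field L] [Algebra K L]
    (A : ValuationSubring K) {a : L} (ha : IsAlgebraic K a) :
    ∃ p : Polynomial A, p ≠ 0 ∧ eval₂ ((algebraMap K L).comp A.subtype) a p = 0 := by
  letI : Algebra A L := ((algebraMap K L).comp A.subtype).toAlgebra
  haveI : IsScalarTower A K L := IsScalarTower.of_algebraMap_eq (fun _ => rfl)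
  obtain ⟨p, hp0, hp⟩ := (IsFractionRing.isAlgebraic_iff A K L).2 ha
  exact ⟨p, hp0, hp⟩

variable {Ω : Type*} [Field Ω]

/-- **`hNC` from "unramified outside `S`"** (helper754's `hNC_typed` on the chart `B ⊆ F`,
`F` embedded in `Ω`), elementwise form. -/
theorem hNC_of_unramified [CharZero F] [IsDiscreteValuationRing R]
    [IsIntegrallyClosed (chartB R z)]
    [Module.Finite (Algebra.adjoin R ({z} : Set F)) (chartB R z)]
    (hz : Transcendental R z) (ι : F →+* Ω)
    {w : F} (hwR : w ∈ R) (hirr : Irreducible (⟨w, hwR⟩ : R))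
    (hwB : Prime (wB (z := z) hwR))
    (Lc : Subfield Ω) (hLcl : IsAlgClosed Lc)
    (hRL : ∀ r : R, ι (r : F) ∈ Lc)
    (hLalg : ∀ a ∈ Lc, ∃ p : Polynomial R, p ≠ 0 ∧ eval₂ (ι.comp R.subtype) a p = 0)
    (S : Finset R) (SΩ : Finset Ω) (hS : ∀ c ∈ SΩ, ∃ s ∈ S, ι (s : F) = c)
    (hunr : ∀ O : ValuationSubring Ω, (∀ a ∈ Lc, a ∈ O) → ∀ c ∈ Lc, c ∉ SΩ →
        ι z - c ∈ O → (ι z - c)⁻¹ ∉ O → ∀ t ∈ O, t⁻¹ ∉ O → t * (ι z - c)⁻¹ ∈ O) :
    ∀ π : Polynomial R, Prime π → ¬ Associated π (C ⟨w, hwR⟩) →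
      (∀ c ∈ S, ¬ Associated π (X - C c)) →
      ∀ f ∈ chartB R z, ∀ n : ℕ, f ^ n * (aeval z π)⁻¹ ∈ chartB R z →
        f * (aeval z π)⁻¹ ∈ chartB R z := by
  letI : Algebra (Polynomial R) (chartB R z) := polyAlgebra R z
  haveI : Module.Finite (Polynomial R) (chartB R z) := finite_poly
  haveI : Module.IsTorsionFree (Polynomial R) (chartB R z) := torsionFree_poly hz
  haveI : CharZero R := RingHom.charZero R.subtype
  letI : Algebra (chartB R z) Ω := (ι.comp (algebraMap (chartB R z) F)).toAlgebra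
  haveI : FaithfulSMul (chartB R z) Ω :=
    (faithfulSMul_iff_algebraMap_injective (chartB R z) Ω).2
      (ι.injective.comp Subtype.val_injective)
  have hC : ∀ r : R, algebraMap (chartB R z) Ω (algebraMap (Polynomial R) (chartB R z) (C r)) =
      ι (r : F) := by
    intro r
    show ι ((polyToChart R z (C r) : chartB R z) : F) = _
    rw [coe_polyToChart, aeval_C]
    rfl
  have hX : algebraMap (chartB R z) Ω (algebraMap (Polynomial R) (chartB R z) X) = ι z := by
    show ι ((polyToChart R z X : chartB R z) : F) = _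
    rw [coe_polyToChart, aeval_X]
  have hcomp : (algebraMap (chartB R z) Ω).comp
      ((algebraMap (Polynomial R) (chartB R z)).comp C) = ι.comp R.subtype := by
    ext r
    exact hC r
  intro π hπ hπw hπS
  have hrad := Fermat.Agent.S18.H754.hNC_typed R (chartB R z) ⟨w, hwR⟩ hirr hwB Lc hLcl
    (fun r => by rw [hC]; exact hRL r)
    (fun a ha => by rw [hcomp]; exact hLalg a ha) S SΩ
    (fun c hc => by
      obtain ⟨s, hs, hsc⟩ := hS c hc
      exact ⟨s, hs, by rw [hC]; exact hsc⟩)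
    (by rw [hX]; exact hunr) π hπ hπw hπS
  exact elementwise_of_isRadical hz π hπ.ne_zero hrad

end Generic

/-! ### The hypotheses of `exists_chart_lift` from a good model -/

section Hyp

variable (G : GoodModel Lc Ec Fc R V w x S)

/-- the branch values as elements of `R ⊆ Fc` -/
def Sf : Finset (Rf Fc R) :=
  S.attach.map
    ⟨fun s => (⟨⟨s.1, R_le_Fc G (G.S_mem s.1 s.2)⟩, G.S_mem s.1 s.2⟩ : Rf Fc R),
      fun _ _ h => Subtype.ext (congrArg (fun c : Rf Fc R => ((c : Fc) : Ω)) h)⟩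

theorem coe_mem_of_mem_Sf {c : Rf Fc R} (hc : c ∈ Sf G) : ((c : Fc) : Ω) ∈ S := by
  unfold Sf at hc
  obtain ⟨s, -, rfl⟩ := Finset.mem_map.1 hc
  exact s.2

theorem exists_mem_Sf {c : Ω} (hc : c ∈ S) : ∃ s ∈ Sf G, (((s : Rf Fc R) : Fc) : Ω) = c := by
  refine ⟨⟨⟨c, R_le_Fc G (G.S_mem c hc)⟩, G.S_mem c hc⟩, ?_, rfl⟩
  unfold Sf
  exact Finset.mem_map.2 ⟨⟨c, hc⟩, Finset.mem_attach _ _, rfl⟩

include G in
theorem isUnit_sub_Sf : ∀ c ∈ Sf G, ∀ c' ∈ Sf G, c ≠ c' → IsUnit (c - c') := by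
  intro c hc c' hc' hne
  rw [isUnit_subring_iff]
  have hne' : ((c : Fc) : Ω) ≠ ((c' : Fc) : Ω) := fun h => hne (Subtype.ext (Subtype.ext h))
  refine ⟨fun h => hne (sub_eq_zero.1 (Subtype.ext h)), ?_⟩
  have := G.S_distinct _ (coe_mem_of_mem_Sf G hc) _ (coe_mem_of_mem_Sf G hc') hne'
  exact this

section Alg

attribute [local instance] FractionRing.liftAlgebra

include G in
/-- every element of `Fc` is algebraic over `R[x]` -/
theorem isAlgebraic_adjoin_of_goodModel (f : Fc) :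
    IsAlgebraic (Algebra.adjoin (Rf Fc R) ({xf G} : Set Fc)) f := by
  haveI := finiteDimensional_fractionRing G
  exact isAlgebraic_of_finite_fractionRing (A := baseRing (Rf Fc R) (xf G)) f

end Alg

include G in
/-- elementwise separability of the special fibre, inside `Fc` -/
theorem sepB_of_goodModel : ∀ f ∈ chartB (Rf Fc R) (xf G), ∃ P : Polynomial Fc,
    (∀ i, P.coeff i ∈ Algebra.adjoin (Rf Fc R) ({xf G} : Set Fc)) ∧
    P.eval f * (wf G)⁻¹ ∈ Vf G ∧ (derivative P).eval f ≠ 0 ∧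
    ((derivative P).eval f)⁻¹ ∈ Vf G := by
  intro f hf
  have hfV : f ∈ Vf G := chart_le_V (Vf G) (Rf_le_Vf G) (xf_mem_Vf G) hf
  obtain ⟨P, hPc, hP1, hP2, hP3⟩ := G.separable (f : Ω) hfV
  obtain ⟨Q, hQ, hQc⟩ := exists_poly_Fc (fun r hr => R_le_Fc G hr) (xf G) P hPc
  have e1 : ((Q.eval f : Fc) : Ω) = P.eval (f : Ω) := by rw [_root_.Fermat.Agent.S37.Rim.H383.coe_eval_Fc, hQ]
  have e2 : (((derivative Q).eval f : Fc) : Ω) = (derivative P).eval (f : Ω) := by
    rw [_root_.Fermat.Agent.S37.Rim.H383.coe_eval_Fc, ← derivative_map, hQ]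
  refine ⟨Q, hQc, ?_, ?_, ?_⟩
  · show ((Q.eval f * (wf G)⁻¹ : Fc) : Ω) ∈ V
    rw [Subfield.coe_mul, Subfield.coe_inv, e1]
    exact hP1
  · intro h0
    apply hP2
    rw [← e2, h0]
    rfl
  · show ((((derivative Q).eval f)⁻¹ : Fc) : Ω) ∈ V
    rw [Subfield.coe_inv, e2]
    exact hP3

/-- the comparison `R ⊆ Ec` to `R ⊆ Fc` -/
def reToRf : Re G →+* Rf Fc R where
  toFun e := ⟨⟨((e : Ec) : Ω), G.E_le_F (e : Ec).2⟩, e.2⟩
  map_one' := rfl
  map_mul' _ _ := rfl
  map_zero' := rfl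
  map_add' _ _ := rfl

theorem reToRf_injective : Function.Injective (reToRf G) := by
  intro a b h
  apply Subtype.ext
  apply Subtype.ext
  exact congrArg (fun c : Rf Fc R => ((c : Fc) : Ω)) h

include G in
/-- the constants are algebraic over `R` -/
theorem hLalg_of_goodModel : ∀ a ∈ Lc, ∃ p : Polynomial (Rf Fc R), p ≠ 0 ∧
    eval₂ (Fc.subtype.comp (Rf Fc R).subtype) a p = 0 := by
  intro a ha
  obtain ⟨p, hp0, hp⟩ := exists_poly_valuationSubring (Re G) (G.L_algebraic a ha)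
  refine ⟨p.map (reToRf G), (Polynomial.map_ne_zero_iff (reToRf_injective G)).2 hp0, ?_⟩
  rw [eval₂_map]
  exact hp

section Inst

attribute [local instance] FractionRing.liftAlgebra

include G in
theorem isIntegrallyClosed_chartB : IsIntegrallyClosed (chartB (Rf Fc R) (xf G)) := by
  haveI := finiteDimensional_fractionRing G
  haveI := charZero_Fc G
  exact chartRing_isIntegrallyClosed (Rf Fc R) (xf G)

include G in
theorem finite_chartB :
    Module.Finite (Algebra.adjoin (Rf Fc R) ({xf G} : Set Fc)) (chartB (Rf Fc R) (xf G)) := by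
  haveI := finiteDimensional_fractionRing G
  haveI := charZero_Fc G
  haveI := isDiscreteValuationRing_Rf G
  exact chartRing_finite (Rf Fc R) (xf G) (transcendental_xf G)

end Inst

include G in
/-- `w` is a prime element of the chart -/
theorem prime_wB_of_goodModel : Prime (wB (z := xf G) (wf_mem_Rf G)) :=
  prime_wB (Vf G) (wf_mem_Rf G) (wf_ne_zero G) (Rf_le_Vf G) (xf_mem_Vf G)
    (wf_inv_not_mem_Vf G) (Vf_gen G) (qep_fin' G)

include G in
/-- `hNC` for the chart of a good model, elementwise form -/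
theorem hNC_of_goodModel :
    ∀ π : Polynomial (Rf Fc R), Prime π → ¬ Associated π (C ⟨wf G, wf_mem_Rf G⟩) →
      (∀ c ∈ Sf G, ¬ Associated π (X - C c)) →
      ∀ f ∈ chartB (Rf Fc R) (xf G), ∀ n : ℕ,
        f ^ n * (aeval (xf G) π)⁻¹ ∈ chartB (Rf Fc R) (xf G) →
        f * (aeval (xf G) π)⁻¹ ∈ chartB (Rf Fc R) (xf G) := by
  haveI := charZero_Fc G
  haveI := isDiscreteValuationRing_Rf G
  haveI := isIntegrallyClosed_chartB G
  haveI := finite_chartB G
  exact hNC_of_unramified (transcendental_xf G) Fc.subtype (wf_mem_Rf G) (irreducible_wf G)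
    (prime_wB_of_goodModel G) Lc G.L_algClosed (fun r => G.E_le_L (G.R_le r.2))
    (hLalg_of_goodModel G) (Sf G) S (fun c hc => exists_mem_Sf G hc) G.unramified

end Hyp

/-! ### D2 -/

/-- **Leaf D2 (board v3): normality of the special fibre of a good model.**  An element `f ∈ V`
which is a root modulo `w` of a monic polynomial over `R[x]` is congruent modulo `w` to an
element of the chart. -/
theorem normalAbs (G : GoodModel Lc Ec Fc R V w x S) :
    ∀ f ∈ V, ∀ P : Polynomial Ω, P.Monic → (∀ i, P.coeff i ∈ polyRing R x) →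
      P.eval f * w⁻¹ ∈ V → ∃ b ∈ chart Fc R x, (f - b) * w⁻¹ ∈ V := by
  intro f hf P hPm hPc hPv
  haveI := charZero_Fc G
  haveI := isDiscreteValuationRing_Rf G
  haveI := isIntegrallyClosed_chartB G
  haveI := finite_chartB G
  have hR : ∀ r ∈ R, r ∈ Fc := fun r hr => R_le_Fc G hr
  obtain ⟨Q, hQ, hQc⟩ := exists_poly_Fc hR (xf G) P hPc
  have hQm : Q.Monic := by
    rw [← hQ] at hPm
    exact Polynomial.monic_of_injective Fc.subtype_injective hPm
  have hv : (⟨f, G.V_le hf⟩ : Fc) ∈ Vf G := hf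
  have hQv : Q.eval (⟨f, G.V_le hf⟩ : Fc) * (wf G)⁻¹ ∈ Vf G := by
    show ((Q.eval (⟨f, G.V_le hf⟩ : Fc) * (wf G)⁻¹ : Fc) : Ω) ∈ V
    rw [Subfield.coe_mul, Subfield.coe_inv, _root_.Fermat.Agent.S37.Rim.H383.coe_eval_Fc, hQ]
    exact hPv
  obtain ⟨b, hb, hbv⟩ := exists_chart_lift (transcendental_xf G)
    (isAlgebraic_adjoin_of_goodModel G) (Vf G) (wf_mem_Rf G) (irreducible_wf G) (Rf_le_Vf G)
    (xf_mem_Vf G) (wf_inv_not_mem_Vf G) (Vf_gen G) (qep_fin' G) (sepB_of_goodModel G) (Sf G)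
    (isUnit_sub_Sf G) (hNC_of_goodModel G) hv Q hQm
    (fun i => (chartB (Rf Fc R) (xf G)).algebraMap_mem ⟨Q.coeff i, hQc i⟩) hQv
  exact ⟨(b : Ω), (mem_chartRing_iff Fc R (xf G) hR).1 hb, hbv⟩

/-- The same on the chart at infinity. -/
theorem normalAbs_inv (G : GoodModel Lc Ec Fc R V w x S) :
    ∀ f ∈ V, ∀ P : Polynomial Ω, P.Monic → (∀ i, P.coeff i ∈ polyRing R x⁻¹) →
      P.eval f * w⁻¹ ∈ V → ∃ b ∈ chart Fc R x⁻¹, (f - b) * w⁻¹ ∈ V := by
  classical
  exact normalAbs (Fermat.Agent.S18.H425.goodModel_inv G)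

/-- `NormalAbsStatement` of board v3 (`Core/Skeleton4.lean`), verbatim. -/
theorem normalAbsStatement :
    ∀ (Ω : Type) [Field Ω] (Lc Ec Fc : Subfield Ω) (R V : Subring Ω) (w x : Ω) (S : Finset Ω),
      Alg.GoodModel Lc Ec Fc R V w x S →
      ∀ f ∈ V, ∀ P : Polynomial Ω, P.Monic → (∀ i, P.coeff i ∈ Alg.polyRing R x) →
        P.eval f * w⁻¹ ∈ V →
        ∃ b ∈ Alg.chart Fc R x, (f - b) * w⁻¹ ∈ V :=
  fun _ _ _ _ _ _ _ _ _ _ G => normalAbs G

end Fermat.Agent.S37.Rim.H383

end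
end
-- ===== PACK-END S37/Rim/H383/NormalAbs.lean

-- ===== PACK-BEGIN A2/Mod/H216/NormalChart.lean
section


/-!
# A2 / GOODRED (helper216): normality of the special fibre of a good model, CHART coefficients

`normalAbs_chart` : for `G : Alg.GoodModel Lc Ec Fc R V w x S`, an element `f ∈ V` which is a
root modulo `w` of a monic polynomial with coefficients in the CHART `B = Alg.chart Fc R x`
(not only in `R[x]`) is congruent modulo `w` to an element of `B`.

Same proof as `S37.Rim.H383.normalAbs` (helper383): `H383.exists_chart_lift` already allows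
coefficients in the chart.
-/

set_option autoImplicit false
set_option linter.style.haveILetI false
set_option linter.unusedSectionVars false

noncomputable section

namespace Fermat.Agent.A2.Mod.H216

open Polynomial Fermat.Agent.S18 Fermat.Agent.S18.Alg Fermat.Agent.S18.H438
open Fermat.Agent.S18.H438.GoodModelFront Fermat.Agent.S37.Rim.H383

variable {Ω : Type*} [Field Ω] {Lc Ec Fc : Subfield Ω} {R V : Subring Ω} {w x : Ω}
  {S : Finset Ω}

/-- A polynomial over `Ω` with coefficients in the chart is the image of a polynomial over `Fc`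
with coefficients in the typed chart. -/
theorem exists_poly_Fc_chart (hR : ∀ r ∈ R, r ∈ Fc) (z : Fc) (P : Polynomial Ω)
    (hP : ∀ i, P.coeff i ∈ _root_.Fermat.Agent.S18.Alg.chart Fc R (z : Ω)) :
    ∃ Q : Polynomial Fc, Q.map Fc.subtype = P ∧
      ∀ i, Q.coeff i ∈ chartB (Rf Fc R) z := by
  have hl : P ∈ Polynomial.lifts Fc.subtype := by
    rw [Polynomial.lifts_iff_coeff_lifts]
    intro i
    exact ⟨⟨P.coeff i, (hP i).1⟩, rfl⟩
  obtain ⟨Q, hQ⟩ := (Polynomial.mem_lifts P).1 hl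
  refine ⟨Q, hQ, fun i => ?_⟩
  have h1 : ((Q.coeff i : Fc) : Ω) = P.coeff i := by
    rw [← hQ, coeff_map]
    rfl
  have h2 : Q.coeff i ∈ chartRing (Rf Fc R) z := by
    rw [mem_chartRing_iff Fc R z hR, h1]
    exact hP i
  exact h2

/-- **Normality of the special fibre of a good model, chart coefficients.** -/
theorem normalAbs_chart (G : GoodModel Lc Ec Fc R V w x S) :
    ∀ f ∈ V, ∀ P : Polynomial Ω, P.Monic → (∀ i, P.coeff i ∈ _root_.Fermat.Agent.S18.Alg.chart Fc R x) →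
      P.eval f * w⁻¹ ∈ V → ∃ b ∈ _root_.Fermat.Agent.S18.Alg.chart Fc R x, (f - b) * w⁻¹ ∈ V := by
  intro f hf P hPm hPc hPv
  haveI := charZero_Fc G
  haveI := isDiscreteValuationRing_Rf G
  haveI := isIntegrallyClosed_chartB G
  haveI := finite_chartB G
  have hR : ∀ r ∈ R, r ∈ Fc := fun r hr => R_le_Fc G hr
  obtain ⟨Q, hQ, hQc⟩ := exists_poly_Fc_chart hR (xf G) P hPc
  have hQm : Q.Monic := by
    rw [← hQ] at hPm
    exact Polynomial.monic_of_injective Fc.subtype_injective hPm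
  have hv : (⟨f, G.V_le hf⟩ : Fc) ∈ Vf G := hf
  have hQv : Q.eval (⟨f, G.V_le hf⟩ : Fc) * (wf G)⁻¹ ∈ Vf G := by
    show ((Q.eval (⟨f, G.V_le hf⟩ : Fc) * (wf G)⁻¹ : Fc) : Ω) ∈ V
    rw [Subfield.coe_mul, Subfield.coe_inv, _root_.Fermat.Agent.S37.Rim.H383.coe_eval_Fc, hQ]
    exact hPv
  obtain ⟨b, hb, hbv⟩ := exists_chart_lift (transcendental_xf G)
    (isAlgebraic_adjoin_of_goodModel G) (Vf G) (wf_mem_Rf G) (irreducible_wf G) (Rf_le_Vf G)
    (xf_mem_Vf G) (wf_inv_not_mem_Vf G) (Vf_gen G) (qep_fin' G) (sepB_of_goodModel G) (Sf G)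
    (isUnit_sub_Sf G) (hNC_of_goodModel G) hv Q hQm hQc hQv
  exact ⟨(b : Ω), (mem_chartRing_iff Fc R (xf G) hR).1 hb, hbv⟩

/-- The same on the chart at infinity. -/
theorem normalAbs_chart_inv (G : GoodModel Lc Ec Fc R V w x S) :
    ∀ f ∈ V, ∀ P : Polynomial Ω, P.Monic → (∀ i, P.coeff i ∈ _root_.Fermat.Agent.S18.Alg.chart Fc R x⁻¹) →
      P.eval f * w⁻¹ ∈ V → ∃ b ∈ _root_.Fermat.Agent.S18.Alg.chart Fc R x⁻¹, (f - b) * w⁻¹ ∈ V := by
  classical
  exact normalAbs_chart (Fermat.Agent.S18.H425.goodModel_inv G)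

end Fermat.Agent.A2.Mod.H216

end
end
-- ===== PACK-END A2/Mod/H216/NormalChart.lean

-- ===== PACK-BEGIN A2/H609/ChartNode.lean
section


/-!
# Node purity, part 13: purity at a crossing point of a semistable chart

`B` a noetherian integrally closed domain with fraction field `F` (a chart of the model),
`p₁ p₂` the two components of the special fibre (`p₁ ⊓ p₂ = (w)`, `B ⧸ pᵢ` Dedekind,
`p₁ ⊔ p₂` radical), `n ⊇ p₁ + p₂` a crossing point.  If `u ∈ Fˣ`

* is locally `unit × m`-th power at every discrete valuation ring `V ⊇ B[1/w]` of `F`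
  (`m ∣ ord_V u` at the horizontal valuations), and
* has constant unit residues on both components (`u b = a`, `b ∉ pᵢ`, `a - c b ∈ pᵢ`, `c ∈ Bˣ`),

then there is `d ∈ Fˣ` with `u d ^ m ∈ (B_n)ˣ` and `d` a unit on both components
(`exists_pureAt_node`).  No `δ`-count, no separating coordinate, no hypothesis on the thickness
of the node.  Mathlib + `A2.H849` + `A2.H372`.
-/

set_option autoImplicit false

namespace Fermat.Agent.A2.H609

open Fermat.Agent.A2.H849

variable {B : Type*} [CommRing B] [IsDomain B] [IsNoetherianRing B] [IsIntegrallyClosed B]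
variable {F : Type*} [Field F] [Algebra B F] [IsFractionRing B F]

omit [IsDomain B] [IsNoetherianRing B] [IsIntegrallyClosed B] [IsFractionRing B F] in
/-- The data of the normalised element `u' = a b ^ (m - 1) = u b ^ m ∈ B`. -/
theorem normalised_element {p : Ideal B} [p.IsPrime] {u : F} {m : ℕ} (hm : m ≠ 0)
    {a b c : B} (hc : IsUnit c) (hb : b ∉ p) (hab : a - c * b ∈ p)
    (hu : u * algebraMap B F b = algebraMap B F a) :
    algebraMap B F (a * b ^ (m - 1)) = u * algebraMap B F b ^ m ∧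
      a * b ^ (m - 1) - c * b ^ m ∈ p ∧ a * b ^ (m - 1) ∉ p := by
  obtain ⟨k, rfl⟩ := Nat.exists_eq_succ_of_ne_zero hm
  rw [Nat.succ_sub_one, Nat.succ_eq_add_one]
  have h2 : a * b ^ k - c * b ^ (k + 1) ∈ p := by
    have : a * b ^ k - c * b ^ (k + 1) = (a - c * b) * b ^ k := by ring
    rw [this]
    exact p.mul_mem_right _ hab
  refine ⟨?_, h2, ?_⟩
  · rw [map_mul, map_pow, ← hu]
    ring
  · intro h
    have h3 : c * b ^ (k + 1) ∈ p := by
      have : c * b ^ (k + 1) = a * b ^ k - (a * b ^ k - c * b ^ (k + 1)) := by ring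
      rw [this]
      exact p.sub_mem h h2
    rcases Ideal.IsPrime.mem_or_mem inferInstance h3 with h4 | h4
    · exact (Ideal.IsPrime.ne_top inferInstance) (Ideal.eq_top_of_isUnit_mem p h4 hc)
    · exact hb (Ideal.IsPrime.mem_of_pow_mem inferInstance _ h4)

omit [IsNoetherianRing B] [IsIntegrallyClosed B] in
/-- (H2) for the normalised element on a branch. -/
theorem exists_associated_pow_mk {p n : Ideal B} [p.IsPrime] [n.IsPrime]
    {m : ℕ} {u' b c : B} (hc : IsUnit c) (h : u' - c * b ^ m ∈ p) :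
    ∃ v : locAt F n ⧸ p.map (algebraMap B (locAt F n)),
      Associated (v ^ m) (Ideal.Quotient.mk (p.map (algebraMap B (locAt F n)))
        (algebraMap B (locAt F n) u')) := by
  refine ⟨Ideal.Quotient.mk _ (algebraMap B (locAt F n) b), ?_⟩
  have hcu : IsUnit (Ideal.Quotient.mk (p.map (algebraMap B (locAt F n)))
      (algebraMap B (locAt F n) c)) := (hc.map _).map _
  obtain ⟨ε, hε⟩ := hcu
  refine ⟨ε, ?_⟩
  rw [hε, ← map_pow, ← map_pow, ← map_mul, ← map_mul, eq_comm, Ideal.Quotient.eq]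
  rw [← map_sub]
  have : u' - b ^ m * c = u' - c * b ^ m := by ring
  rw [this]
  exact Ideal.mem_map_of_mem _ h

/-- **Purity at a crossing point of a semistable chart.** -/
theorem exists_pureAt_node {w : B} {m : ℕ} (hm : m ≠ 0)
    (p₁ p₂ n : Ideal B) [p₁.IsPrime] [p₂.IsPrime] [n.IsPrime]
    [IsDedekindDomain (B ⧸ p₁)] [IsDedekindDomain (B ⧸ p₂)]
    (hinf : p₁ ⊓ p₂ = Ideal.span {w}) (h₁₂ : ¬ p₁ ≤ p₂) (h₂₁ : ¬ p₂ ≤ p₁)
    (htr : (p₁ ⊔ p₂).IsRadical) (h₁ : p₁ ≤ n) (h₂ : p₂ ≤ n)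
    (u : F)
    (hdiv : ∀ V : ValuationSubring F, IsDiscreteValuationRing V →
      (∀ b : B, algebraMap B F b ∈ V) → (algebraMap B F w)⁻¹ ∈ V →
      ∃ h u₀ : F, u₀ ∈ V ∧ u₀⁻¹ ∈ V ∧ u = u₀ * h ^ m)
    (hs₁ : ∃ c a b : B, IsUnit c ∧ b ∉ p₁ ∧ a - c * b ∈ p₁ ∧
      u * algebraMap B F b = algebraMap B F a)
    (hs₂ : ∃ c a b : B, IsUnit c ∧ b ∉ p₂ ∧ a - c * b ∈ p₂ ∧
      u * algebraMap B F b = algebraMap B F a) :
    ∃ d : F, d ≠ 0 ∧
      (∃ a b : B, a ∉ n ∧ b ∉ n ∧ u * d ^ m * algebraMap B F b = algebraMap B F a) ∧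
      (∃ a b : B, a ∉ p₁ ∧ b ∉ p₁ ∧ d * algebraMap B F b = algebraMap B F a) ∧
      (∃ a b : B, a ∉ p₂ ∧ b ∉ p₂ ∧ d * algebraMap B F b = algebraMap B F a) := by
  have hinj : Function.Injective (algebraMap B F) := IsFractionRing.injective B F
  obtain ⟨c₁, a₁, b₁, hc₁, hb₁, hab₁, hu₁⟩ := hs₁
  obtain ⟨c₂, a₂, b₂, hc₂, hb₂, hab₂, hu₂⟩ := hs₂
  -- common denominator
  obtain ⟨a, b, hbp₁, hbp₂, hub⟩ := exists_common_denominator (p₁ := p₁) (p₂ := p₂)
    ⟨a₁, b₁, hb₁, hu₁⟩ ⟨a₂, b₂, hb₂, hu₂⟩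
  have hab₁' : a - c₁ * b ∈ p₁ := sub_mul_mem_of_eq hb₁ hab₁ hu₁ hub
  have hab₂' : a - c₂ * b ∈ p₂ := sub_mul_mem_of_eq hb₂ hab₂ hu₂ hub
  obtain ⟨hu'F, hu'₁, hu'n₁⟩ := normalised_element (p := p₁) hm hc₁ hbp₁ hab₁' hub
  obtain ⟨-, hu'₂, hu'n₂⟩ := normalised_element (p := p₂) hm hc₂ hbp₂ hab₂' hub
  set u' : B := a * b ^ (m - 1) with hu'def
  have hbF : algebraMap B F b ≠ 0 := by
    intro h0
    apply hbp₁
    rw [hinj (by rw [h0, map_zero] : algebraMap B F b = algebraMap B F 0)]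
    exact p₁.zero_mem
  -- the local ring
  obtain ⟨hP₁, hP₂, hinf', hsup', hdvr₁, hdvr₂⟩ :=
    Fermat.Agent.A2.H372.node_local_data (locAt F n) hinf h₁₂ h₂₁ htr h₁ h₂
  rw [IsLocalization.AtPrime.map_eq_maximalIdeal n (locAt F n)] at hsup'
  set U : locAt F n := algebraMap B (locAt F n) u' with hUdef
  have hUF : (U : F) = u * algebraMap B F b ^ m := hu'F
  have hU₁ : U ∉ p₁.map (algebraMap B (locAt F n)) := fun h =>
    hu'n₁ ((algebraMap_mem_map_iff h₁ u').1 h)
  have hU₂ : U ∉ p₂.map (algebraMap B (locAt F n)) := fun h =>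
    hu'n₂ ((algebraMap_mem_map_iff h₂ u').1 h)
  have hU0 : U ≠ 0 := by
    intro h0
    apply hU₁
    rw [h0]
    exact Ideal.zero_mem _
  -- (H1)
  have H1 : ∀ 𝔓 ∈ (Ideal.span {U}).minimalPrimes, algebraMap B (locAt F n) w ∉ 𝔓 →
      ∃ f r : locAt F n, r ∉ 𝔓 ∧ f ^ m = U * r := by
    intro 𝔓 h𝔓 hw𝔓
    refine exists_pow_eq_mul_of_divisible (K := F) hU0 hm h𝔓 ?_
    intro V hV hle hinv
    obtain ⟨h, u₀, hu₀, hu₀', huh⟩ := hdiv V hV
      (fun b => hle (algebraMap B (locAt F n) b)) (hinv _ hw𝔓)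
    refine ⟨h * algebraMap B F b, u₀, hu₀, hu₀', ?_⟩
    rw [algebraMap_locAt_apply, hUF, huh]
    ring
  -- (H2)
  have H2₁ := exists_associated_pow_mk (F := F) (p := p₁) (n := n) (m := m) hc₁ hu'₁
  have H2₂ := exists_associated_pow_mk (F := F) (p := p₂) (n := n) (m := m) hc₂ hu'₂
  -- purity in the local ring
  obtain ⟨f, ε, hfε⟩ := exists_unit_mul_pow_of_node_min (R := locAt F n) hm
    (p₁.map (algebraMap B (locAt F n))) (p₂.map (algebraMap B (locAt F n)))
    hinf' hsup' hU₁ hU₂ H1 H2₁ H2₂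
  have hf0 : f ≠ 0 := by
    rintro rfl
    rw [zero_pow hm, mul_zero] at hfε
    exact hU0 hfε
  have hfF : (f : F) ≠ 0 := fun h => hf0 (Subtype.ext h)
  have hf₁ : f ∉ p₁.map (algebraMap B (locAt F n)) := by
    intro h
    apply hU₁
    rw [hfε]
    exact Ideal.mul_mem_left _ _ (Ideal.pow_mem_of_mem _ h m (Nat.pos_of_ne_zero hm))
  have hf₂ : f ∉ p₂.map (algebraMap B (locAt F n)) := by
    intro h
    apply hU₂
    rw [hfε]
    exact Ideal.mul_mem_left _ _ (Ideal.pow_mem_of_mem _ h m (Nat.pos_of_ne_zero hm))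
  have hfεF : u * algebraMap B F b ^ m = ((ε : locAt F n) : F) * (f : F) ^ m := by
    rw [← hUF, hfε]
    rfl
  refine ⟨algebraMap B F b / (f : F), div_ne_zero hbF hfF, ?_, ?_, ?_⟩
  · obtain ⟨a', s', ha', hs', h'⟩ := exists_frac_of_isUnit_locAt (F := F) n ε.isUnit
    refine ⟨a', s', ha', hs', ?_⟩
    rw [← h', div_pow, ← mul_div_assoc, hfεF]
    field_simp
  · obtain ⟨φ, s, hφ, hs, h'⟩ := exists_frac_of_notMem_map (F := F) (p := p₁) (n := n) hf₁
    refine ⟨b * s, φ, ?_, hφ, ?_⟩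
    · intro h
      rcases Ideal.IsPrime.mem_or_mem inferInstance h with h3 | h3
      · exact hbp₁ h3
      · exact hs (h₁ h3)
    · rw [← h', map_mul]
      field_simp
  · obtain ⟨φ, s, hφ, hs, h'⟩ := exists_frac_of_notMem_map (F := F) (p := p₂) (n := n) hf₂
    refine ⟨b * s, φ, ?_, hφ, ?_⟩
    · intro h
      rcases Ideal.IsPrime.mem_or_mem inferInstance h with h3 | h3
      · exact hbp₂ h3
      · exact hs (h₂ h3)
    · rw [← h', map_mul]
      field_simp

end Fermat.Agent.A2.H609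

end
-- ===== PACK-END A2/H609/ChartNode.lean

-- ===== PACK-BEGIN Ribet/H132/InstA.lean
section




/-!
# RIBET wall-p, I6 instantiation leaf INST-A: chart → node ring (helper132)

Board: `origin/helper704:coord/RIBET-I6-helper704.md` §9.  The leaves NODE / WPUR / ETNODE of
`Ribet/H704/I6Spec.lean` are statements about an abstract *node ring* (`I6.IsNode`).  This file
produces the node ring of a semistable chart at a crossing point.

* `exists_uniformiser_mem`  : in a local ring with `P₁ ⊔ P₂ = 𝔪` and `O ⧸ P₁` a discrete valuation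
  ring, some element of `P₂` is a uniformiser of `O ⧸ P₁`.
* `isNode_of_uniformisers`  : the structure `I6.IsNode` from the local data of
  `A2.H372.node_local_data` and two branch uniformisers.
* `exists_isNode_locAt`     : `B` a noetherian integrally closed domain with fraction field `F`,
  `p₁ ⊓ p₂ = (w)`, `B ⧸ pᵢ` Dedekind, `p₁ ⊔ p₂` radical, `n ⊇ p₁ + p₂` prime: the local ring
  `B_n = A2.H849.locAt F n ⊆ F` is a node ring, with uniformisers `x ∈ p₂`, `y ∈ p₁` taken in `B`.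
  (`B_n` is a noetherian integrally closed local domain with fraction field `F`: instances of
  `A2.H849` / `A2.H609`.)
* `exists_isNode_chart`     : the same for a chart of `A2.SSChart` in the setting `Alg.ChartCtx`
  of wall A2 (all instances derived from the chart hypotheses).

Mathlib + landed A2 files only; no completion, no hypothesis on the thickness.
-/

set_option autoImplicit false
set_option linter.unusedSectionVars false
set_option linter.style.haveILetI false

namespace Fermat.Agent.Ribet.H132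

open Fermat.Agent.Ribet.H704 Fermat.Agent.A2 Fermat.Agent.A2.H849

section Abstract

variable {O : Type*} [CommRing O] [IsLocalRing O]

/-- In a local ring with `P₁ ⊔ P₂ = 𝔪` and `O ⧸ P₁` a discrete valuation ring, some element of
`P₂` is a uniformiser of the branch `O ⧸ P₁`. -/
theorem exists_uniformiser_mem (P₁ P₂ : Ideal O) [P₁.IsPrime]
    [IsDiscreteValuationRing (O ⧸ P₁)]
    (hsup : P₁ ⊔ P₂ = IsLocalRing.maximalIdeal O) :
    ∃ x ∈ P₂, Irreducible (Ideal.Quotient.mk P₁ x) := by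
  obtain ⟨ϖ, hϖ⟩ := IsDiscreteValuationRing.exists_irreducible (O ⧸ P₁)
  obtain ⟨z, rfl⟩ := Ideal.Quotient.mk_surjective ϖ
  have hz : z ∈ IsLocalRing.maximalIdeal O := by
    rw [IsLocalRing.mem_maximalIdeal, mem_nonunits_iff]
    exact fun h => hϖ.not_isUnit (h.map _)
  rw [← hsup] at hz
  obtain ⟨a, ha, x, hx, rfl⟩ := Submodule.mem_sup.1 hz
  refine ⟨x, hx, ?_⟩
  have : Ideal.Quotient.mk P₁ (a + x) = Ideal.Quotient.mk P₁ x := by
    rw [map_add, Ideal.Quotient.eq_zero_iff_mem.2 ha, zero_add]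
  rwa [this] at hϖ

/-- The structure `I6.IsNode` from the local data at a crossing point and two branch
uniformisers. -/
theorem isNode_of_uniformisers (P₁ P₂ : Ideal O) (π x y : O) [hP₁ : P₁.IsPrime]
    [hP₂ : P₂.IsPrime] [IsDiscreteValuationRing (O ⧸ P₁)] [IsDiscreteValuationRing (O ⧸ P₂)]
    (hinf : P₁ ⊓ P₂ = Ideal.span {π}) (hsup : P₁ ⊔ P₂ = IsLocalRing.maximalIdeal O)
    (hx : x ∈ P₂) (hxi : Irreducible (Ideal.Quotient.mk P₁ x))
    (hy : y ∈ P₁) (hyi : Irreducible (Ideal.Quotient.mk P₂ y)) :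
    I6.IsNode P₁ P₂ π x y where
  prime₁ := hP₁
  prime₂ := hP₂
  inf_eq := hinf
  sup_eq := hsup
  hx := hx
  hy := hy
  unif₁ := fun _ ha =>
    IsDiscreteValuationRing.associated_pow_irreducible
      (fun h => ha (Ideal.Quotient.eq_zero_iff_mem.1 h)) hxi
  unif₂ := fun _ ha =>
    IsDiscreteValuationRing.associated_pow_irreducible
      (fun h => ha (Ideal.Quotient.eq_zero_iff_mem.1 h)) hyi
  hx₁ := fun h => hxi.ne_zero (Ideal.Quotient.eq_zero_iff_mem.2 h)
  hy₂ := fun h => hyi.ne_zero (Ideal.Quotient.eq_zero_iff_mem.2 h)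
  nonunit₁ := hxi.not_isUnit
  nonunit₂ := hyi.not_isUnit

end Abstract

section LocAt

variable {B : Type*} [CommRing B] [IsDomain B]
variable {F : Type*} [Field F] [Algebra B F] [IsFractionRing B F]

/-- A uniformiser of the branch `B_n ⧸ p B_n` lying in `q B_n` can be taken in `q ⊆ B`. -/
theorem exists_uniformiser_mem_chart (p q n : Ideal B) [n.IsPrime]
    [hp : (p.map (algebraMap B (locAt F n))).IsPrime]
    [IsDiscreteValuationRing (locAt F n ⧸ p.map (algebraMap B (locAt F n)))]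
    (hsup : p.map (algebraMap B (locAt F n)) ⊔ q.map (algebraMap B (locAt F n)) =
      IsLocalRing.maximalIdeal (locAt F n)) :
    ∃ x ∈ q, Irreducible (Ideal.Quotient.mk (p.map (algebraMap B (locAt F n)))
      (algebraMap B (locAt F n) x)) := by
  obtain ⟨z, hz, hzi⟩ := exists_uniformiser_mem _ _ hsup
  obtain ⟨⟨b, s⟩, hbs⟩ := (IsLocalization.mem_map_algebraMap_iff n.primeCompl (locAt F n)).1 hz
  refine ⟨b.1, b.2, ?_⟩
  have hs : IsUnit (algebraMap B (locAt F n) (s : B)) :=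
    IsLocalization.map_units (locAt F n) s
  rw [← hbs, map_mul]
  exact (irreducible_mul_isUnit (hs.map _)).2 hzi

variable [IsNoetherianRing B] [IsIntegrallyClosed B]

/-- **INST-A (abstract chart).**  The local ring `B_n ⊆ F` of a semistable chart at a crossing
point `n ⊇ p₁ + p₂` is a node ring in the sense of `I6.IsNode`, with the uniformiser `w` of the
base and branch uniformisers `x ∈ p₂`, `y ∈ p₁` taken in `B`. -/
theorem exists_isNode_locAt {w : B} (p₁ p₂ n : Ideal B) [p₁.IsPrime] [p₂.IsPrime] [n.IsPrime]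
    [IsDedekindDomain (B ⧸ p₁)] [IsDedekindDomain (B ⧸ p₂)]
    (hinf : p₁ ⊓ p₂ = Ideal.span {w}) (h₁₂ : ¬ p₁ ≤ p₂) (h₂₁ : ¬ p₂ ≤ p₁)
    (htr : (p₁ ⊔ p₂).IsRadical) (h₁ : p₁ ≤ n) (h₂ : p₂ ≤ n) :
    ∃ x y : B, x ∈ p₂ ∧ x ∉ p₁ ∧ y ∈ p₁ ∧ y ∉ p₂ ∧
      I6.IsNode (p₁.map (algebraMap B (locAt F n))) (p₂.map (algebraMap B (locAt F n)))
        (algebraMap B (locAt F n) w) (algebraMap B (locAt F n) x)
        (algebraMap B (locAt F n) y) := by
  obtain ⟨hP₁, hP₂, hinf', hsup', hdvr₁, hdvr₂⟩ :=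
    Fermat.Agent.A2.H372.node_local_data (locAt F n) hinf h₁₂ h₂₁ htr h₁ h₂
  rw [IsLocalization.AtPrime.map_eq_maximalIdeal n (locAt F n)] at hsup'
  haveI := hP₁
  haveI := hP₂
  haveI := hdvr₁
  haveI := hdvr₂
  obtain ⟨x, hx, hxi⟩ := exists_uniformiser_mem_chart (F := F) p₁ p₂ n hsup'
  obtain ⟨y, hy, hyi⟩ := exists_uniformiser_mem_chart (F := F) p₂ p₁ n
    (by rw [sup_comm]; exact hsup')
  have hnode := isNode_of_uniformisers _ _ (algebraMap B (locAt F n) w) _ _ hinf' hsup'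
    (Ideal.mem_map_of_mem _ hx) hxi (Ideal.mem_map_of_mem _ hy) hyi
  exact ⟨x, y, hx, fun h => hnode.hx₁ (Ideal.mem_map_of_mem _ h), hy,
    fun h => hnode.hy₂ (Ideal.mem_map_of_mem _ h), hnode⟩

end LocAt

section Chart

variable {R E F : Type*} [CommRing R] [IsDomain R] [IsDiscreteValuationRing R]
  [Field E] [CharZero E] [Algebra R E] [IsFractionRing R E]
  [Field F] [Algebra E F] [Algebra R F] [IsScalarTower R E F]

/-- **INST-A (chart of wall A2).**  `B` a chart in the setting `Alg.ChartCtx`, semistable with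
components `c : SSChart w B`, `n` a crossing point.  Then `B` is a noetherian integrally closed
domain with fraction field `F` and the local ring `B_n = locAt F n ⊆ F` is a node ring with
uniformiser `w` and branch uniformisers `x ∈ p₂ ∖ p₁`, `y ∈ p₁ ∖ p₂` taken in `B`. -/
theorem exists_isNode_chart (w : R) (x₀ : F) (B : Subalgebra R F) (hC : Alg.ChartCtx E w x₀ B)
    (c : SSChart w B) (n : Ideal B) [n.IsPrime] (h₁ : c.p₁ ≤ n) (h₂ : c.p₂ ≤ n) :
    ∃ (_ : IsNoetherianRing B) (_ : IsIntegrallyClosed B) (_ : IsFractionRing B F) (x y : B),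
      x ∈ c.p₂ ∧ x ∉ c.p₁ ∧ y ∈ c.p₁ ∧ y ∉ c.p₂ ∧
      I6.IsNode (c.p₁.map (algebraMap B (locAt F n))) (c.p₂.map (algebraMap B (locAt F n)))
        (algebraMap B (locAt F n) (algebraMap R B w)) (algebraMap B (locAt F n) x)
        (algebraMap B (locAt F n) y) := by
  obtain ⟨hnoeth, hic, hfr⟩ := Fermat.Agent.A2.Alg.H34.chart_instances' w x₀ B hC
  haveI := hnoeth
  haveI := hic
  haveI := hfr
  haveI := c.prime₁
  haveI := c.prime₂
  haveI : IsDedekindDomain (B ⧸ c.p₁) :=
    Fermat.Agent.A2.Alg.H132.isDedekindDomain_quotient_p₁ w x₀ B hC c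
  haveI : IsDedekindDomain (B ⧸ c.p₂) :=
    Fermat.Agent.A2.Alg.H132.isDedekindDomain_quotient_p₂ w x₀ B hC c
  obtain ⟨x, y, hx, hx', hy, hy', hnode⟩ := exists_isNode_locAt (F := F) c.p₁ c.p₂ n c.inf_eq
    c.not_le₁₂ c.not_le₂₁ c.transversal h₁ h₂
  exact ⟨hnoeth, hic, hfr, x, y, hx, hx', hy, hy', hnode⟩

end Chart

end Fermat.Agent.Ribet.H132

end
-- ===== PACK-END Ribet/H132/InstA.lean

-- ===== PACK-BEGIN Ribet/H573/SlopeSpec.lean
section





/-!
# Row 38, WALL-p, leaves W-SLOPE + W-DLOG: the subgroups `𝓕` (finite part) and `𝒮` (split part)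
  (helper573; DEFINITIONS ONLY, no statement is assumed)

`N = p * M'`, `A ⊆ ℚ̄` a valuation subring over `p`, `k = A/𝔪`.  Everything is on the level of
`ℚ̄`, in the language of `A2/H553` (Gauss valuation of the `t`-expansion):

* `V∞ = H553.VinfModular A _ hA N ⊆ F_N = modularFunctionFieldBar N`, the Gauss valuation ring,
  `red∞ = H553.redInf : V∞ →+* k((t))` the coefficientwise reduction;
* `W = H528.wF N` the Fricke involution of `F_N`, `V₀ = V∞ ∘ W`, `red₀ = red∞ ∘ W`;
* `F_{M',k} = FkM A M' = modularFunctionFieldFullC k M' ⊆ k((t))`.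

A class `x ∈ J₀(N)(ℚ̄)` with `p x = 0` is `x = [D]`, `p D = div f`: `IsKummerFn p N x f`.

Predicates on functions `f ∈ F_N` (both are subgroups of `F_Nˣ`, see `Slope.lean`):

* `RedPow p A hA N f`      : `f = c · g ^ p · u`, `c ∈ ℚ̄ˣ`, `g ∈ F_Nˣ`, `u ∈ 1 + 𝔪_{V∞}`
                             ("the reduction of `f` on `C∞` is a constant times a `p`-th power");
* `RedSlopeZero p M' A hA N f` : `f = c · u`, `u ∈ V∞`, `red∞ u = h ∈ F_{M',k}`, `h ≠ 0` and
                             `p ∣ ord_Q h` at EVERY place `Q` of `F_{M',k}`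
                             ("all slopes of `f` seen from `C∞` vanish").

Subgroups of `JZero N` (for a ring automorphism `T` of `F_N`; `T = 1` gives the component `C∞`,
`T = W` the component `C₀`):

* `splitAt p A hA N T`   : classes with a Kummer function `f` such that `RedPow (T f)`;
* `finAt p M' A hA N T`  : classes with a Kummer function `f` such that `RedSlopeZero (T f)`;
* `splitInf`, `splitZero`, `splitPart = splitInf ⊓ splitZero`;
  `finInf`, `finZero`, `finPart = finInf ⊓ finZero`.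
-/

set_option autoImplicit false
set_option linter.unusedSectionVars false
set_option linter.style.haveILetI false

noncomputable section

namespace Fermat.Agent.Ribet.H573

open AlgebraicCurve ModularCurve HahnSeries
open Fermat.Agent.A2.H129 Fermat.Agent.A2.H553 Fermat.Agent.A2.H528 Fermat.Agent.S37.Rim

/-- The constant `c ∈ ℚ̄` as an element of `F_N`. -/
abbrev cst (N : ℕ) (c : Qb) : ↥(modularFunctionFieldBar N) :=
  algebraMap Qb ↥(modularFunctionFieldBar N) c

/-- `f` is a Kummer function of the class `x`: `x = [D]` and `div f = m · D`. -/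
def IsKummerFn (m N : ℕ) (x : JZero N) (f : ↥(modularFunctionFieldBar N)) : Prop :=
  f ≠ 0 ∧ ∃ D : Divisor.degZero (K := Qb) (F := ↥(modularFunctionFieldBar N)),
    Pic0.mk D = x ∧
      ∀ v : Place Qb ↥(modularFunctionFieldBar N), v.ord f = (m : ℤ) * (D : Divisor Qb _) v

section Fn

variable (p M' : ℕ) (A : ValuationSubring Qb) (hA : A.LiesOverPrime p) (N : ℕ)

/-- The Gauss valuation ring `V∞` of `F_N` over `A`. -/
abbrev VInf (hp : p ≠ 0) : ValuationSubring ↥(modularFunctionFieldBar N) :=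
  VinfModular A hp hA N

/-- The reduction `V∞ → k((t))`. -/
abbrev redV (hp : p ≠ 0) :
    ↥(VInf p A hA N hp) →+* LaurentSeries (kA A) :=
  redInf (gaussInput_modular A hp hA N)

/-- `f ∈ ℚ̄ˣ · (F_Nˣ)^p · (1 + 𝔪_{V∞})`: the reduction of `f` along `V∞` is a constant times a
`p`-th power. -/
def RedPow (hp : p ≠ 0) (f : ↥(modularFunctionFieldBar N)) : Prop :=
  ∃ c : Qb, c ≠ 0 ∧ ∃ g : ↥(modularFunctionFieldBar N), g ≠ 0 ∧
    OneAddNonunits (VInf p A hA N hp) (f * (cst N c)⁻¹ * (g ^ p)⁻¹)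

/-- `f = c · u` with `u ∈ V∞` whose reduction `h` lies in `F_{M',k}`, is nonzero and has all its
orders divisible by `p`. -/
def RedSlopeZero (hp : p ≠ 0) (f : ↥(modularFunctionFieldBar N)) : Prop :=
  ∃ c : Qb, c ≠ 0 ∧ ∃ (hm : f * (cst N c)⁻¹ ∈ VInf p A hA N hp) (h : ↥(FkM A M')), h ≠ 0 ∧
    redV p A hA N hp ⟨f * (cst N c)⁻¹, hm⟩ = (h : LaurentSeries (kA A)) ∧
    ∀ Q : Place (kA A) ↥(FkM A M'), (p : ℤ) ∣ Q.ord h

/-! ### Both predicates cut out subgroups of `F_Nˣ` -/

variable {p M' A hA N}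

theorem RedPow.one (hp : p ≠ 0) : RedPow p A hA N hp 1 := by
  refine ⟨1, one_ne_zero, 1, one_ne_zero, ?_⟩
  have e : (1 : ↥(modularFunctionFieldBar N)) * (cst N 1)⁻¹ * (1 ^ p)⁻¹ = 1 := by
    rw [cst, _root_.map_one, one_pow, inv_one, mul_one, mul_one]
  rw [e]
  exact OneAddNonunits.one

theorem RedPow.mul {hp : p ≠ 0} {f₁ f₂ : ↥(modularFunctionFieldBar N)}
    (h₁ : RedPow p A hA N hp f₁) (h₂ : RedPow p A hA N hp f₂) :
    RedPow p A hA N hp (f₁ * f₂) := by
  obtain ⟨c₁, hc₁, g₁, hg₁, hu₁⟩ := h₁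
  obtain ⟨c₂, hc₂, g₂, hg₂, hu₂⟩ := h₂
  refine ⟨c₁ * c₂, mul_ne_zero hc₁ hc₂, g₁ * g₂, mul_ne_zero hg₁ hg₂, ?_⟩
  have e : f₁ * f₂ * (cst N (c₁ * c₂))⁻¹ * ((g₁ * g₂) ^ p)⁻¹ =
      (f₁ * (cst N c₁)⁻¹ * (g₁ ^ p)⁻¹) * (f₂ * (cst N c₂)⁻¹ * (g₂ ^ p)⁻¹) := by
    rw [cst, _root_.map_mul, mul_pow, mul_inv, mul_inv]
    ring
  rw [e]
  exact hu₁.mul hu₂

theorem RedPow.inv {hp : p ≠ 0} {f : ↥(modularFunctionFieldBar N)}
    (h : RedPow p A hA N hp f) : RedPow p A hA N hp f⁻¹ := by
  obtain ⟨c, hc, g, hg, hu⟩ := h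
  refine ⟨c⁻¹, inv_ne_zero hc, g⁻¹, inv_ne_zero hg, ?_⟩
  have e : f⁻¹ * (cst N c⁻¹)⁻¹ * (g⁻¹ ^ p)⁻¹ = (f * (cst N c)⁻¹ * (g ^ p)⁻¹)⁻¹ := by
    rw [cst, map_inv₀, inv_pow, mul_inv, mul_inv]
  rw [e]
  exact hu.inv

/-- an element of `V∞` with nonzero reduction is a unit of `V∞` -/
theorem inv_mem_of_redV_ne_zero {hp : p ≠ 0} {u : ↥(modularFunctionFieldBar N)}
    (hm : u ∈ VInf p A hA N hp) (h : redV p A hA N hp ⟨u, hm⟩ ≠ 0) :
    u⁻¹ ∈ VInf p A hA N hp := by
  have h1 : ¬ (VInf p A hA N hp).valuation u < 1 := fun hlt =>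
    h ((redInf_eq_zero_iff (gaussInput_modular A hp hA N) ⟨u, hm⟩).mpr hlt)
  rw [valuation_lt_one_iff_mem] at h1
  by_contra hcon
  exact h1 ⟨hm, Or.inr hcon⟩

theorem RedSlopeZero.one (hp : p ≠ 0) : RedSlopeZero p M' A hA N hp 1 := by
  have e : (1 : ↥(modularFunctionFieldBar N)) * (cst N 1)⁻¹ = 1 := by
    rw [cst, _root_.map_one, inv_one, mul_one]
  have hm : (1 : ↥(modularFunctionFieldBar N)) * (cst N 1)⁻¹ ∈ VInf p A hA N hp := by
    rw [e]; exact one_mem _
  refine ⟨1, one_ne_zero, hm, 1, one_ne_zero, ?_, fun Q => ?_⟩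
  · have : (⟨(1 : ↥(modularFunctionFieldBar N)) * (cst N 1)⁻¹, hm⟩ : ↥(VInf p A hA N hp)) = 1 :=
      Subtype.ext e
    rw [this, _root_.map_one]
    rfl
  · rw [Place.ord_one]
    exact dvd_zero _

theorem RedSlopeZero.mul {hp : p ≠ 0} {f₁ f₂ : ↥(modularFunctionFieldBar N)}
    (h₁ : RedSlopeZero p M' A hA N hp f₁) (h₂ : RedSlopeZero p M' A hA N hp f₂) :
    RedSlopeZero p M' A hA N hp (f₁ * f₂) := by
  obtain ⟨c₁, hc₁, hm₁, k₁, hk₁, hr₁, hd₁⟩ := h₁
  obtain ⟨c₂, hc₂, hm₂, k₂, hk₂, hr₂, hd₂⟩ := h₂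
  have e : f₁ * f₂ * (cst N (c₁ * c₂))⁻¹ = (f₁ * (cst N c₁)⁻¹) * (f₂ * (cst N c₂)⁻¹) := by
    rw [cst, _root_.map_mul, mul_inv]
    ring
  have hm : f₁ * f₂ * (cst N (c₁ * c₂))⁻¹ ∈ VInf p A hA N hp := by
    rw [e]; exact mul_mem hm₁ hm₂
  refine ⟨c₁ * c₂, mul_ne_zero hc₁ hc₂, hm, k₁ * k₂, mul_ne_zero hk₁ hk₂, ?_, fun Q => ?_⟩
  · have : (⟨f₁ * f₂ * (cst N (c₁ * c₂))⁻¹, hm⟩ : ↥(VInf p A hA N hp)) =
        ⟨f₁ * (cst N c₁)⁻¹, hm₁⟩ * ⟨f₂ * (cst N c₂)⁻¹, hm₂⟩ := Subtype.ext e
    rw [this, _root_.map_mul, hr₁, hr₂]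
    rfl
  · rw [Q.ord_mul hk₁ hk₂]
    exact dvd_add (hd₁ Q) (hd₂ Q)

theorem RedSlopeZero.inv {hp : p ≠ 0} {f : ↥(modularFunctionFieldBar N)}
    (h : RedSlopeZero p M' A hA N hp f) : RedSlopeZero p M' A hA N hp f⁻¹ := by
  obtain ⟨c, hc, hm, k, hk, hr, hd⟩ := h
  have hne : redV p A hA N hp ⟨f * (cst N c)⁻¹, hm⟩ ≠ 0 := by
    rw [hr]
    intro h0
    exact hk (Subtype.ext h0)
  have e : f⁻¹ * (cst N c⁻¹)⁻¹ = (f * (cst N c)⁻¹)⁻¹ := by
    rw [cst, map_inv₀, mul_inv]
  have hm' : f⁻¹ * (cst N c⁻¹)⁻¹ ∈ VInf p A hA N hp := by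
    rw [e]; exact inv_mem_of_redV_ne_zero hm hne
  refine ⟨c⁻¹, inv_ne_zero hc, hm', k⁻¹, inv_ne_zero hk, ?_, fun Q => ?_⟩
  · have hu0 : f * (cst N c)⁻¹ ≠ 0 := by
      intro h0
      apply hne
      have : (⟨f * (cst N c)⁻¹, hm⟩ : ↥(VInf p A hA N hp)) = 0 := Subtype.ext h0
      rw [this, _root_.map_zero]
    have hprod : (⟨f⁻¹ * (cst N c⁻¹)⁻¹, hm'⟩ : ↥(VInf p A hA N hp)) *
        ⟨f * (cst N c)⁻¹, hm⟩ = 1 := by
      apply Subtype.ext
      show f⁻¹ * (cst N c⁻¹)⁻¹ * (f * (cst N c)⁻¹) = 1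
      rw [e, inv_mul_cancel₀ hu0]
    have h2 := congrArg (redV p A hA N hp) hprod
    rw [_root_.map_mul, _root_.map_one, hr] at h2
    have hk' : ((k : ↥(FkM A M')) : LaurentSeries (kA A)) ≠ 0 := fun h0 => hk (Subtype.ext h0)
    have h3 : redV p A hA N hp ⟨f⁻¹ * (cst N c⁻¹)⁻¹, hm'⟩ =
        ((k : ↥(FkM A M')) : LaurentSeries (kA A))⁻¹ := eq_inv_of_mul_eq_one_left h2
    rw [h3]
    rfl
  · rw [Q.ord_inv]
    exact (dvd_neg).mpr (hd Q)

/-! ### Kummer functions -/

theorem IsKummerFn.zero (m N : ℕ) : IsKummerFn m N 0 1 := by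
  refine ⟨one_ne_zero, 0, rfl, fun v => ?_⟩
  rw [Place.ord_one]
  simp

theorem IsKummerFn.add {m N : ℕ} {x y : JZero N} {f g : ↥(modularFunctionFieldBar N)}
    (hf : IsKummerFn m N x f) (hg : IsKummerFn m N y g) : IsKummerFn m N (x + y) (f * g) := by
  obtain ⟨hf0, D, rfl, hD⟩ := hf
  obtain ⟨hg0, E, rfl, hE⟩ := hg
  refine ⟨mul_ne_zero hf0 hg0, D + E, rfl, fun v => ?_⟩
  rw [v.ord_mul hf0 hg0, hD v, hE v]
  simp only [AddSubgroup.coe_add, Finsupp.add_apply]
  ring

theorem IsKummerFn.neg {m N : ℕ} {x : JZero N} {f : ↥(modularFunctionFieldBar N)}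
    (hf : IsKummerFn m N x f) : IsKummerFn m N (-x) f⁻¹ := by
  obtain ⟨hf0, D, rfl, hD⟩ := hf
  refine ⟨inv_ne_zero hf0, -D, rfl, fun v => ?_⟩
  rw [v.ord_inv, hD v]
  simp only [AddSubgroup.coe_neg, Finsupp.neg_apply]
  ring

end Fn

/-! ## The subgroups -/

section Subgroups

variable (p M' : ℕ) (A : ValuationSubring Qb) (hA : A.LiesOverPrime p) (N : ℕ) (hp : p ≠ 0)

/-- Classes with a Kummer function `f` such that the reduction of `T f` along `V∞` is a constant
times a `p`-th power. -/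
def splitAt (T : ↥(modularFunctionFieldBar N) ≃+* ↥(modularFunctionFieldBar N)) :
    AddSubgroup (JZero N) where
  carrier := {x | ∃ f, IsKummerFn p N x f ∧ RedPow p A hA N hp (T f)}
  zero_mem' := ⟨1, IsKummerFn.zero p N, by rw [_root_.map_one]; exact RedPow.one hp⟩
  add_mem' := by
    rintro x y ⟨f, hf, hf'⟩ ⟨g, hg, hg'⟩
    exact ⟨f * g, hf.add hg, by rw [_root_.map_mul]; exact hf'.mul hg'⟩
  neg_mem' := by
    rintro x ⟨f, hf, hf'⟩
    exact ⟨f⁻¹, hf.neg, by rw [map_inv₀]; exact hf'.inv⟩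

/-- Classes with a Kummer function `f` such that `T f` has all slopes zero along `V∞`. -/
def finAt (T : ↥(modularFunctionFieldBar N) ≃+* ↥(modularFunctionFieldBar N)) :
    AddSubgroup (JZero N) where
  carrier := {x | ∃ f, IsKummerFn p N x f ∧ RedSlopeZero p M' A hA N hp (T f)}
  zero_mem' := ⟨1, IsKummerFn.zero p N, by rw [_root_.map_one]; exact RedSlopeZero.one hp⟩
  add_mem' := by
    rintro x y ⟨f, hf, hf'⟩ ⟨g, hg, hg'⟩
    exact ⟨f * g, hf.add hg, by rw [_root_.map_mul]; exact hf'.mul hg'⟩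
  neg_mem' := by
    rintro x ⟨f, hf, hf'⟩
    exact ⟨f⁻¹, hf.neg, by rw [map_inv₀]; exact hf'.inv⟩

variable {p M' A hA N hp}

theorem mem_splitAt {T : ↥(modularFunctionFieldBar N) ≃+* ↥(modularFunctionFieldBar N)}
    {x : JZero N} :
    x ∈ splitAt p A hA N hp T ↔ ∃ f, IsKummerFn p N x f ∧ RedPow p A hA N hp (T f) := Iff.rfl

theorem mem_finAt {T : ↥(modularFunctionFieldBar N) ≃+* ↥(modularFunctionFieldBar N)}
    {x : JZero N} :
    x ∈ finAt p M' A hA N hp T ↔
      ∃ f, IsKummerFn p N x f ∧ RedSlopeZero p M' A hA N hp (T f) := Iff.rfl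

end Subgroups

section Parts

variable (p M' : ℕ) [NeZero (p * M')] (A : ValuationSubring Qb) (hA : A.LiesOverPrime p)
  (hp : p ≠ 0)

/-- `𝒮∞`: the reduction on `C∞` is a constant times a `p`-th power. -/
def splitInf : AddSubgroup (JZero (p * M')) :=
  splitAt p A hA (p * M') hp (RingEquiv.refl _)

/-- `𝒮₀`: the reduction on `C₀` is a constant times a `p`-th power. -/
def splitZero : AddSubgroup (JZero (p * M')) :=
  splitAt p A hA (p * M') hp (wF (p * M')).toRingEquiv

/-- **`𝒮`, the split part**: both reductions are constants times `p`-th powers. -/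
def splitPart : AddSubgroup (JZero (p * M')) :=
  splitInf p M' A hA hp ⊓ splitZero p M' A hA hp

/-- `𝓕∞`: all slopes seen from `C∞` vanish. -/
def finInf : AddSubgroup (JZero (p * M')) :=
  finAt p M' A hA (p * M') hp (RingEquiv.refl _)

/-- `𝓕₀`: all slopes seen from `C₀` vanish. -/
def finZero : AddSubgroup (JZero (p * M')) :=
  finAt p M' A hA (p * M') hp (wF (p * M')).toRingEquiv

/-- **`𝓕`, the finite part**: all slopes vanish, on both components. -/
def finPart : AddSubgroup (JZero (p * M')) :=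
  finInf p M' A hA hp ⊓ finZero p M' A hA hp

end Parts

end Fermat.Agent.Ribet.H573

end
end
-- ===== PACK-END Ribet/H573/SlopeSpec.lean

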