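import Fermat.Prelude.Def_ModularCurve_HeckeOperatorTotal
import Mathlib
import Fermat.Agent.Pack.S33.E19L3
import Fermat.Agent.Pack.S33.E19L1
import Fermat.Agent.Pack.S33.E18L0
import Fermat.Agent.Pack.S33.E4L1
import Fermat.Agent.Pack.S33.E7L0
import Fermat.Agent.Pack.S33.E19L2
import Fermat.Agent.Pack.S33.E17L3
import Fermat.Agent.Pack.S33.E5L2
import Fermat.Agent.Pack.S33.E17L1
import Fermat.Agent.Pack.S33.E16L1
import Fermat.Agent.Pack.S33.E18L2
import Fermat.Agent.Pack.S33.E8L3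
import Fermat.Agent.Pack.S33.E9L0
import Fermat.Agent.Pack.S33.E19L0
import Fermat.Agent.Pack.S33.E12L1
import Fermat.Agent.Pack.S33.E13L0
import Fermat.Agent.Pack.S33.E11L1
import Fermat.Agent.Pack.S33.E6L2
import Fermat.Agent.Pack.S33.E14L2
import Fermat.Agent.Pack.S33.E15L1
import Fermat.Agent.Pack.S33.E18L1

-- ===== PACK-BEGIN S29/H332/K1.lean
section



/-!
# S29 / M4b — PIECE `K1` (exact skeleton type)

`exists_isTwisted` : for a parabolic character `c : Γ₀(N) → ℤ/p` (any modulus `p ≥ 1`) there is a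
twisted function `U` of character `c`; `U = E^χ₁₂ / (2Δ)`, `χ = ζ_p ^ c`.
-/

set_option autoImplicit false
set_option linter.unusedSectionVars false

noncomputable section

open ModularCurve AlgebraicCurve CongruenceSubgroup UpperHalfPlane
open scoped MatrixGroups Manifold

namespace Fermat.Agent.S29.H332

open Fermat.Agent.S24 Fermat.Agent.S29 Fermat.Agent.S29.M4b

variable {N : ℕ} {p : ℕ} [NeZero p]

/-- `ζ_p ^ (a.val) = stdAddChar a`. -/
theorem zetaP_pow_val (a : ZMod p) : zetaP p ^ a.val = ZMod.stdAddChar a := by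
  have h := ZMod.stdAddChar_coe (N := p) (a.val : ℤ)
  rw [Int.cast_natCast, ZMod.natCast_zmod_val] at h
  rw [h, zetaP, ← Complex.exp_nat_mul]
  congr 1
  push_cast
  ring

/-- A parabolic character in the sense of `DefsM` is one in the sense of `H332`. -/
theorem isParAdd_of_isParHom {c : G0 N → ZMod p} (hc : IsParHom c) : IsParAdd c where
  map_mul := hc.map_mul
  parabolic := hc.parabolic

variable (N p) in
/-- **PIECE `K1`** of the M4b skeleton (exact type). -/
theorem exists_isTwisted [NeZero N] {c : G0 N → ZMod p} (hc : IsParHom c) :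
    ∃ U : ℍ → ℂ, IsTwisted N p c U := by
  have hc' : IsParAdd c := isParAdd_of_isParHom hc
  refine ⟨hc'.kfun N, ?_, ?_, ?_, ?_⟩
  · exact (hc'.kfun_mem_holN).1
  · by_contra hne
    exact hc'.kfun_ne_zero (funext fun τ => by_contra fun h => hne ⟨τ, h⟩)
  · intro γ τ
    rw [zetaP_pow_val]
    exact hc'.kfun_smul γ τ
  · exact hc'.kfun_pow_mem_goodRing

end Fermat.Agent.S29.H332

end
end
-- ===== PACK-END S29/H332/K1.lean

-- ===== PACK-BEGIN S29/H812/HeckeInputs.lean
section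




/-!
# S29 / H812 — the Prelude Hecke operator on `J₀(N)(ℚ̄)` is the genuine correspondence

All six inputs of `ModularCurve.HeckeInputsAlong (AlgebraicClosure ℚ) N ℓ` hold, for every `N ≠ 0`
and every `ℓ ≠ 0` (prime or not, dividing `N` or not); consequently
`heckeOperatorAlong = heckePic0Bar …` (Prelude `heckeOperatorAlong_eq`).

Generic part (`Fermat/Agent/S29/H812/*.lean`): for a finite extension `F'/F` of function fields of
one variable over an algebraically closed field of characteristic zero,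
`∑_{w | v} e(w | v) = [F' : F]` and `ord_v (N_{F'/F} f) = ∑_{w | v} ord_w f`.
-/

set_option autoImplicit false

noncomputable section

namespace Fermat.Agent.S29.H812

open ModularCurve AlgebraicCurve IntermediateField

/-- The modular function field has a coordinate. -/
theorem exists_coord_modular (M : ℕ) [NeZero M] :
    ∃ x : ↥(modularFunctionFieldBar M), Transcendental (AlgebraicClosure ℚ) x ∧
      FiniteDimensional (AlgebraicClosure ℚ)⟮x⟯ ↥(modularFunctionFieldBar M) :=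
  (Fermat.Agent.Lib.RR.H864.ff1_modularFunctionFieldBar M).exists_finite

/-- The degeneracy map `α` (inclusion) is finite. -/
theorem finiteAlong_heckeAlphaBar (N : ℕ) [NeZero N] (ℓ : ℕ) [NeZero ℓ] :
    FiniteAlong (AlgebraicClosure ℚ) (heckeAlphaBar (AlgebraicClosure ℚ) N ℓ) := by
  haveI : NeZero (N * ℓ) := ⟨Nat.mul_ne_zero (NeZero.ne N) (NeZero.ne ℓ)⟩
  exact finiteAlong (exists_coord_modular N) (exists_coord_modular (N * ℓ)) _

/-- The degeneracy map `β` (`q ↦ q^ℓ`) is finite. -/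
theorem finiteAlong_heckeBetaBar (N : ℕ) [NeZero N] (ℓ : ℕ) [NeZero ℓ] :
    FiniteAlong (AlgebraicClosure ℚ) (heckeBetaBar (AlgebraicClosure ℚ) N ℓ) := by
  haveI : NeZero (N * ℓ) := ⟨Nat.mul_ne_zero (NeZero.ne N) (NeZero.ne ℓ)⟩
  exact finiteAlong (exists_coord_modular N) (exists_coord_modular (N * ℓ)) _

/-- `HeckeInputsAlong` for every `ℓ ≠ 0`. -/
theorem heckeInputsAlong (N : ℕ) [NeZero N] (ℓ : ℕ) [NeZero ℓ] :
    HeckeInputsAlong (AlgebraicClosure ℚ) N ℓ := by
  haveI : NeZero (N * ℓ) := ⟨Nat.mul_ne_zero (NeZero.ne N) (NeZero.ne ℓ)⟩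
  haveI hP : HasPrincipalDivisors (AlgebraicClosure ℚ)
      (laurentBaseChange (AlgebraicClosure ℚ) (modularFunctionFieldFull (N * ℓ))) :=
    Fermat.Agent.Lib.RR.H864.hasPrincipalDivisors_modularFunctionFieldBar (N * ℓ)
  have hF := exists_coord_modular N
  have hfinα := finiteAlong_heckeAlphaBar N ℓ
  have hfinβ := finiteAlong_heckeBetaBar N ℓ
  have hα : HeckeAlphaBarIntegral (AlgebraicClosure ℚ) N ℓ := isIntegral_of_finiteAlong hfinα
  have hβ : HeckeBetaBarIntegral (AlgebraicClosure ℚ) N ℓ := isIntegral_of_finiteAlong hfinβ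
  exact heckeInputsAlong_intro hα hβ
    (fundamentalIdentityAlong hF (heckeBetaBar (AlgebraicClosure ℚ) N ℓ) hfinβ hβ)
    hfinα
    (normFormulaAlong hF (heckeAlphaBar (AlgebraicClosure ℚ) N ℓ) hfinα)

end Fermat.Agent.S29.H812

end
end
-- ===== PACK-END S29/H812/HeckeInputs.lean

-- ===== PACK-BEGIN S29/HI.lean
section



/-!
# S29, layer M, piece `HI` (helper812): exact `SkeletonM` statement.
Proof in `Fermat/Agent/S29/H812/HeckeInputs.lean` (holds for every `ℓ ≠ 0`).
-/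

set_option autoImplicit false

noncomputable section

namespace Fermat.Agent.S29

open ModularCurve AlgebraicCurve

variable (N : ℕ) [NeZero N]

/-- PIECE `HI`: the Prelude Hecke operator is the genuine correspondence (all six inputs hold). -/
theorem heckeInputsAlong_bar (ℓ : ℕ) [NeZero ℓ] (_hℓ : ℓ.Prime) :
    HeckeInputsAlong (AlgebraicClosure ℚ) N ℓ :=
  H812.heckeInputsAlong N ℓ

end Fermat.Agent.S29

end
end
-- ===== PACK-END S29/HI.lean

-- ===== PACK-BEGIN S30/H109/Onto.lean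
section



/-!
# S30 / adic layer, piece ONTO (helper109): every torsion class is a Kummer class

`exists_isKum_of_torsion` : if `m • x = 0` in `J₀(N)(ℚ̄)` then `x` is the Kummer class
(`M4b.IsKum`) of an additive character `c : Γ₀(N) → ℤ/m`.

Input (hypothesis `DCStatement`, the converse direction of the dictionary DICT): a function
`f ∈ FF N` all of whose orders at the places of `FF N / ℚ̄` are divisible by `m` has, after
multiplication by an `m`-th power, a holomorphic realisation all of whose analytic orders of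
vanishing are divisible by `m`.  Then ROOT (landed `H751`) gives the `m`-th root `U`, which
transforms by a character of `Γ₀(N)`.
-/

set_option autoImplicit false

noncomputable section

open ModularCurve AlgebraicCurve CongruenceSubgroup UpperHalfPlane
open scoped MatrixGroups Manifold

namespace Fermat.Agent.S30.H109

open Fermat.Agent.S24 Fermat.Agent.S29 Fermat.Agent.S29.M4b

/-- The converse dictionary: divisibility of all algebraic orders by `m` gives a holomorphic
realisation (up to an `m`-th power) with all analytic orders divisible by `m`. -/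
def DCStatement (N m : ℕ) [NeZero N] : Prop :=
  ∀ f : FF N, f ≠ 0 → (∀ v : Place Kbar (FF N), (m : ℤ) ∣ v.ord f) →
    ∃ (t : FF N) (G : ℍ → ℂ), t ≠ 0 ∧ Realises N (f * t ^ m) G ∧
      ∀ τ : ℍ, ∃ k : ℕ, analyticOrderAt (G ∘ ofComplex) (τ : ℂ) = ((m * k : ℕ) : ℕ∞)

section roots

variable (m : ℕ) [NeZero m]

lemma zetaP_isPrimitiveRoot : IsPrimitiveRoot (zetaP m) m :=
  Complex.isPrimitiveRoot_exp m (NeZero.ne m)

lemma zetaP_pow_val_add (a b : ZMod m) :
    zetaP m ^ (a + b).val = zetaP m ^ a.val * zetaP m ^ b.val := by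
  rw [← pow_add]
  have h1 : (a + b).val = (a.val + b.val) % m := ZMod.val_add a b
  rw [h1]
  exact (pow_mod_orderOf_aux m).symm
where
  pow_mod_orderOf_aux (m : ℕ) [NeZero m] {n : ℕ} :
      zetaP m ^ n = zetaP m ^ (n % m) := by
    conv_lhs => rw [← Nat.div_add_mod n m, pow_add, pow_mul,
      (zetaP_isPrimitiveRoot m).pow_eq_one, one_pow, one_mul]

lemma zetaP_pow_val_injective {a b : ZMod m}
    (h : zetaP m ^ a.val = zetaP m ^ b.val) : a = b := by
  apply ZMod.val_injective m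
  exact (zetaP_isPrimitiveRoot m).pow_inj (ZMod.val_lt a) (ZMod.val_lt b) h

lemma exists_zmod_of_pow_eq_one {z : ℂ} (hz : z ^ m = 1) :
    ∃ c : ZMod m, zetaP m ^ c.val = z := by
  obtain ⟨i, hi, hiz⟩ := (zetaP_isPrimitiveRoot m).eq_pow_of_pow_eq_one hz
  refine ⟨(i : ZMod m), ?_⟩
  rw [ZMod.val_natCast_of_lt hi, hiz]

end roots

section onto

variable (N : ℕ) [NeZero N] (m : ℕ) [NeZero m]

/-- The character of an `m`-th root of a `Γ₀(N)`-invariant function. -/
theorem exists_hom_hasChar {U : ℍ → ℂ} (hU : MDifferentiable 𝓘(ℂ) 𝓘(ℂ) U)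
    (hne : ∃ τ, U τ ≠ 0)
    (hinv : ∀ γ ∈ Gamma0 N, ∀ τ : ℍ, U (γ • τ) ^ m = U τ ^ m) :
    ∃ c : G0 N → ZMod m, (∀ γ γ' : G0 N, c (γ * γ') = c γ + c γ') ∧ HasChar N m c U := by
  have hm : m ≠ 0 := NeZero.ne m
  obtain ⟨τ₁, hτ₁⟩ := hne
  -- the constant attached to `γ`
  have key : ∀ γ : G0 N, ∃ c : ZMod m, ∀ τ : ℍ,
      U ((γ : SL(2, ℤ)) • τ) = zetaP m ^ c.val * U τ := by
    intro γ
    have hA1 : U ((γ : SL(2, ℤ)) • τ₁) ≠ 0 := by
      intro h0
      have := hinv γ γ.2 τ₁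
      rw [h0, zero_pow hm] at this
      exact pow_ne_zero m hτ₁ this.symm
    set z : ℂ := U ((γ : SL(2, ℤ)) • τ₁) / U τ₁ with hz
    have hzm : z ^ m = 1 := by
      rw [hz, div_pow, hinv γ γ.2 τ₁, div_self (pow_ne_zero m hτ₁)]
    obtain ⟨c, hc⟩ := exists_zmod_of_pow_eq_one m hzm
    refine ⟨c, fun τ => ?_⟩
    have hdet : 0 < ((Matrix.SpecialLinearGroup.mapGL ℝ (γ : SL(2, ℤ))).det : ℝ) := by
      simp
    have hAd : MDifferentiable 𝓘(ℂ) 𝓘(ℂ) (fun τ : ℍ => U ((γ : SL(2, ℤ)) • τ)) :=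
      hU.comp (UpperHalfPlane.mdifferentiable_smul hdet)
    have hBd : MDifferentiable 𝓘(ℂ) 𝓘(ℂ) (fun τ : ℍ => zetaP m ^ c.val * U τ) :=
      (mdifferentiable_const (c := zetaP m ^ c.val)).mul hU
    have := H751.eq_of_pow_eq_UHP hAd hBd hm (fun τ => by
      rw [hinv γ γ.2 τ, mul_pow, hc, hzm, one_mul]) (τ₀ := τ₁)
      (by
        simp only [hc, hz]
        field_simp) hA1
    exact congrFun this τ
  choose c hc using key
  refine ⟨c, fun γ γ' => ?_, fun γ τ => hc γ τ⟩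
  apply zetaP_pow_val_injective m
  rw [zetaP_pow_val_add]
  have h1 := hc (γ * γ') τ₁
  have h2 := hc γ ((γ' : SL(2, ℤ)) • τ₁)
  have h3 := hc γ' τ₁
  have hsm : ((γ * γ' : G0 N) : SL(2, ℤ)) • τ₁ = (γ : SL(2, ℤ)) • ((γ' : SL(2, ℤ)) • τ₁) := by
    rw [Subgroup.coe_mul, mul_smul]
  rw [hsm, h2, h3] at h1
  have h5 : zetaP m ^ (c γ).val * zetaP m ^ (c γ').val * U τ₁ =
      zetaP m ^ (c (γ * γ')).val * U τ₁ := by
    linear_combination h1
  exact (mul_right_cancel₀ hτ₁ h5).symm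

/-- **ONTO.**  Every `m`-torsion class of `J₀(N)(ℚ̄)` is the Kummer class of an additive
character of `Γ₀(N)` with values in `ℤ/m`. -/
theorem exists_isKum_of_torsion (hDC : DCStatement N m) {x : JZero N}
    (hx : (m : ℤ) • x = 0) :
    ∃ c : G0 N → ZMod m, (∀ γ γ' : G0 N, c (γ * γ') = c γ + c γ') ∧ IsKum N m c x := by
  have hm : m ≠ 0 := NeZero.ne m
  obtain ⟨f, hf⟩ := H455.exists_isKummerClass_of_zsmul_eq_zero hx
  have hdvd : ∀ v : Place Kbar (FF N), (m : ℤ) ∣ v.ord f := by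
    obtain ⟨-, D, -, hD⟩ := hf
    exact fun v => ⟨_, (hD v).symm⟩
  obtain ⟨t, G, ht, hG, hord⟩ := hDC f hf.ne_zero hdvd
  have hGgood := hG.1
  obtain ⟨U, hUd, hUG⟩ := H751.exists_pow_eq_UHP hGgood.1 m hm hord
  have hpowfun : (fun τ => U τ ^ m) = G := funext hUG
  -- `G` is not identically zero
  have hGne : G ≠ 0 := by
    intro h0
    have hq := hG.2
    have hmer := (H882.hasQExp_of_mem_goodRing hGgood).isMerInf
    rw [(H708.qexpFun_eq_zero_iff hmer).2 h0] at hq
    have hne : (f * t ^ m : FF N) ≠ 0 := mul_ne_zero hf.ne_zero (pow_ne_zero m ht)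
    have hne' : ((f * t ^ m : FF N) : LaurentSeries Kbar) ≠ 0 := by
      intro h
      exact hne (Subtype.ext h)
    exact hne' ((map_eq_zero_iff _ (coeffMap Deg457.iotaC).injective).1 hq.symm)
  have hUne : ∃ τ, U τ ≠ 0 := by
    by_contra hcon
    simp only [not_exists, not_not] at hcon
    apply hGne
    funext τ
    rw [← hUG τ, hcon τ, zero_pow hm]
    rfl
  obtain ⟨c, hcmul, hchar⟩ := exists_hom_hasChar N m hUd hUne (fun γ hγ τ => by
    rw [hUG, hUG, hGgood.2.1 γ hγ τ])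
  refine ⟨c, hcmul, f, t, U, ht, hf, ⟨hUd, hUne, hchar, ?_⟩, ?_⟩
  · rw [hpowfun]
    exact hGgood
  · rw [hpowfun]
    exact hG

/-- The set of additive characters `Γ₀(N) → ℤ/m` is finite (`Γ₀(N)` is finitely generated). -/
theorem finite_hom_set :
    {c : G0 N → ZMod m | ∀ γ γ' : G0 N, c (γ * γ') = c γ + c γ'}.Finite := by
  haveI : Group.FG SL(2, ℤ) := Group.fg_iff.mpr ⟨{ModularGroup.S, ModularGroup.T},
    SpecialLinearGroup.SL2Z_generators, by simp⟩
  haveI : Group.FG (G0 N) := inferInstance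
  obtain ⟨s, hs⟩ := Group.fg_def.mp (inferInstance : Group.FG (G0 N))
  let T := {c : G0 N → ZMod m | ∀ γ γ' : G0 N, c (γ * γ') = c γ + c γ'}
  let r : T → (s → ZMod m) := fun c x => c.1 x
  have hr : Function.Injective r := by
    intro c d hcd
    have hc := c.2
    have hd := d.2
    have hc1 : c.1 1 = 0 := by
      have := hc 1 1
      rw [mul_one] at this
      exact left_eq_add.mp this
    have hd1 : d.1 1 = 0 := by
      have := hd 1 1
      rw [mul_one] at this
      exact left_eq_add.mp this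
    have hcinv : ∀ γ, c.1 γ⁻¹ = -c.1 γ := fun γ => by
      have := hc γ γ⁻¹
      rw [mul_inv_cancel, hc1] at this
      exact eq_neg_of_add_eq_zero_right this.symm
    have hdinv : ∀ γ, d.1 γ⁻¹ = -d.1 γ := fun γ => by
      have := hd γ γ⁻¹
      rw [mul_inv_cancel, hd1] at this
      exact eq_neg_of_add_eq_zero_right this.symm
    apply Subtype.ext
    funext γ
    have hγ : γ ∈ Subgroup.closure (s : Set (G0 N)) := by rw [hs]; trivial
    induction hγ using Subgroup.closure_induction with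
    | mem x hx => exact congrFun hcd ⟨x, hx⟩
    | one => rw [hc1, hd1]
    | mul x y _ _ hx hy => rw [hc, hd, hx, hy]
    | inv x _ hx => rw [hcinv, hdinv, hx]
  haveI : Finite T := Finite.of_injective r hr
  exact Set.toFinite T

/-- **FIN.**  `J₀(N)(ℚ̄)[m]` is finite, given the converse dictionary and the uniqueness of
Kummer classes (piece `K4-UNIQ` of sub-layer M4b). -/
theorem finite_torsion (hDC : DCStatement N m)
    (huniq : ∀ (c : G0 N → ZMod m) (x x' : JZero N),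
      IsKum N m c x → IsKum N m c x' → x = x') :
    {x : JZero N | m • x = 0}.Finite := by
  have key : ∀ x : {x : JZero N | m • x = 0}, ∃ c : G0 N → ZMod m,
      (∀ γ γ' : G0 N, c (γ * γ') = c γ + c γ') ∧ IsKum N m c x.1 := fun x =>
    exists_isKum_of_torsion N m hDC (by rw [natCast_zsmul]; exact x.2)
  choose c hc1 hc2 using key
  let T := {c : G0 N → ZMod m | ∀ γ γ' : G0 N, c (γ * γ') = c γ + c γ'}
  haveI : Finite T := (finite_hom_set N m).to_subtype
  let φ : {x : JZero N | m • x = 0} → T := fun x => ⟨c x, hc1 x⟩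
  have hinj : Function.Injective φ := by
    intro x y h
    have hxy : c x = c y := congrArg Subtype.val h
    apply Subtype.ext
    exact huniq (c x) x.1 y.1 (hc2 x) (hxy ▸ hc2 y)
  haveI : Finite {x : JZero N | m • x = 0} := Finite.of_injective φ hinj
  exact Set.toFinite _

end onto

end Fermat.Agent.S30.H109

end
end
-- ===== PACK-END S30/H109/Onto.lean

-- ===== PACK-BEGIN S29/H282/LocalK.lean
section


/-!
# S29 / M4b-K2 (helper282) — `LocalData` for the function field over `K` from an expansion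

Port of `Fermat/Agent/S24/Mod/H997Local.lean` (namespace `HolBase`) and of the first half of
`H997Core.lean` from `(ℚ̄, ιK)` to an arbitrary field `K` with `ι : K →+* ℂ`.
-/

set_option autoImplicit false

noncomputable section

open ModularCurve HahnSeries UpperHalfPlane
open scoped MatrixGroups

namespace Fermat.Agent.S29.H282

open Fermat.Agent.S24 Fermat.Agent.S24.H997 Fermat.Agent.S24.Deg457

variable {K : Type*} [Field K] [Algebra ℚ K] (ι : K →+* ℂ)
variable {N : ℕ} [NeZero N] (B : HolBase N) (X : Expansion B)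

/-- the ring hom `R_N(K) → ℂ((z))`, `r ↦ E (e r ∘ g⁻¹)` -/
def sGK (g : SL(2, ℤ)) : RNK K N →+* LaurentSeries ℂ :=
  X.E.comp ((B.compH g⁻¹).comp (bridgeK ι B))

theorem sGK_apply (g : SL(2, ℤ)) (r : RNK K N) :
    sGK ι B X g r = X.E (B.compH g⁻¹ (bridgeK ι B r)) := rfl

theorem sGK_injective (g : SL(2, ℤ)) : Function.Injective (sGK ι B X g) :=
  X.inj.comp ((B.compH_injective g⁻¹).comp (bridgeK_injective ι B))

/-- the embedding `FFK K N → ℂ((z))` attached to `g` -/
def sigmaGK (g : SL(2, ℤ)) : FFK K N →+* LaurentSeries ℂ :=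
  liftFK (sGK ι B X g) (sGK_injective ι B X g)

theorem sigmaGK_inclRNK (g : SL(2, ℤ)) (r : RNK K N) :
    sigmaGK ι B X g (inclRNK K N r) = X.E (B.compH g⁻¹ (bridgeK ι B r)) :=
  liftFK_inclRNK _ _ r

theorem sigmaGK_algebraMap (g : SL(2, ℤ)) (c : K) :
    sigmaGK ι B X g (algebraMap K (FFK K N) c) = HahnSeries.C (ι c) := by
  rw [sigmaGK, liftFK_algebraMap, sGK_apply, bridgeK_algebraMap, HolBase.compH_constH, X.const]

theorem sigmaGK_jFK (g : SL(2, ℤ)) :
    sigmaGK ι B X g (jFK K N) = X.E (B.JH 1 (one_dvd N)) := by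
  rw [← inclRNK_jRK_one, sigmaGK_inclRNK, bridgeK_jRK, HolBase.compH_JH_one]

theorem sGK_mul_of_mem (g : SL(2, ℤ)) {δ : SL(2, ℤ)} (hδ : δ ∈ CongruenceSubgroup.Gamma0 N) :
    sGK ι B X (g * δ) = sGK ι B X g := by
  ext1 r
  rw [sGK_apply, sGK_apply, mul_inv_rev, HolBase.compH_mul,
    compH_bridgeK_of_mem ι B (inv_mem hδ)]

theorem sigmaGK_mul_of_mem (g : SL(2, ℤ)) {δ : SL(2, ℤ)}
    (hδ : δ ∈ CongruenceSubgroup.Gamma0 N) : sigmaGK ι B X (g * δ) = sigmaGK ι B X g := by
  unfold sigmaGK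
  congr 1
  exact sGK_mul_of_mem ι B X g hδ

theorem sigmaGK_eq_of_mk_eq {g g' : SL(2, ℤ)}
    (h : (g : XX N) = (g' : XX N)) : sigmaGK ι B X g = sigmaGK ι B X g' := by
  have hmem : g⁻¹ * g' ∈ CongruenceSubgroup.Gamma0 N := QuotientGroup.eq.mp h
  have := sigmaGK_mul_of_mem ι B X g hmem
  rw [mul_inv_cancel_left] at this
  exact this.symm

/-- the embedding attached to a coset -/
def sigmaXK (x : XX N) : FFK K N →+* LaurentSeries ℂ := sigmaGK ι B X (Quotient.out x)

theorem sigmaXK_mk (g : SL(2, ℤ)) : sigmaXK ι B X (g : XX N) = sigmaGK ι B X g :=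
  sigmaGK_eq_of_mk_eq ι B X (QuotientGroup.out_eq' _)

theorem sigmaXK_injective : Function.Injective (sigmaXK (K := K) ι B X) := by
  intro x y hxy
  obtain ⟨g, rfl⟩ := QuotientGroup.mk_surjective x
  obtain ⟨g', rfl⟩ := QuotientGroup.mk_surjective y
  rw [sigmaXK_mk, sigmaXK_mk] at hxy
  have h1 := congrArg (fun s => s (inclRNK K N (jRK K N N dvd_rfl))) hxy
  simp only [sigmaGK_inclRNK, bridgeK_jRK] at h1
  have h2 := X.inj h1
  apply QuotientGroup.eq.mpr
  apply B.J_distinct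
  intro τ
  have h3 := congrArg (fun h : B.Hol => (h : ℍ → ℂ) (g' • τ)) h2
  simp only [HolBase.compH_apply] at h3
  rw [← mul_smul, ← mul_smul, inv_mul_cancel, one_smul] at h3
  exact h3

theorem rotRel_sigmaGK (ε : SL(2, ℤ)) (R : RotData B X ε) (g : SL(2, ℤ)) (f : FFK K N) :
    RotRel R.ζ (sigmaGK ι B X g f) (sigmaGK ι B X (ε⁻¹ * g) f) := by
  have hζ : R.ζ ≠ 0 := R.hζ.ne_zero R.m_pos.ne'
  obtain ⟨r, t, -, rfl⟩ := exists_div_inclRNK K N f
  rw [map_div₀, map_div₀]
  have key : ∀ r : RNK K N, RotRel R.ζ (sigmaGK ι B X g (inclRNK K N r))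
      (sigmaGK ι B X (ε⁻¹ * g) (inclRNK K N r)) := by
    intro r
    rw [sigmaGK_inclRNK, sigmaGK_inclRNK, mul_inv_rev, inv_inv, HolBase.compH_mul]
    exact R.rot _
  exact (key r).div hζ (key t)

/-- `LocalData` from an expansion with rotation data. -/
def mkLocalDataK (ε : SL(2, ℤ)) (R : RotData B X ε) (t : FFK K N) (u : LaurentSeries ℂ)
    (ht : ∀ g : SL(2, ℤ), sigmaGK ι B X g t = u) (hu : u.order = (R.m : ℤ)) :
    LocalData K (FFK K N) ℂ (XX N) t where
  m := R.m
  m_pos := R.m_pos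
  ζ := R.ζ
  hζ := R.hζ
  ι := ι
  perm := permOf N ε⁻¹
  σ := sigmaXK ι B X
  σ_inj := sigmaXK_injective ι B X
  σ_const x c := sigmaGK_algebraMap ι B X _ c
  σ_t_eq x y := by
    show sigmaGK ι B X _ t = sigmaGK ι B X _ t
    rw [ht, ht]
  σ_t_order x := by
    show (sigmaGK ι B X _ t).order = _
    rw [ht, hu]
  σ_perm_order x f := by
    obtain ⟨g, rfl⟩ := QuotientGroup.mk_surjective x
    have h : permOf N ε⁻¹ (g : XX N) = ((ε⁻¹ * g : SL(2, ℤ)) : XX N) := rfl
    rw [h, sigmaXK_mk, sigmaXK_mk]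
    exact (rotRel_sigmaGK ι B X ε R g f).1
  σ_perm_leadingCoeff x f := by
    obtain ⟨g, rfl⟩ := QuotientGroup.mk_surjective x
    have h : permOf N ε⁻¹ (g : XX N) = ((ε⁻¹ * g : SL(2, ℤ)) : XX N) := rfl
    rw [h, sigmaXK_mk, sigmaXK_mk]
    exact (rotRel_sigmaGK ι B X ε R g f).2

@[simp] theorem mkLocalDataK_perm (ε : SL(2, ℤ)) (R : RotData B X ε) (t : FFK K N)
    (u : LaurentSeries ℂ) (ht : ∀ g : SL(2, ℤ), sigmaGK ι B X g t = u)
    (hu : u.order = (R.m : ℤ)) :
    (mkLocalDataK ι B X ε R t u ht hu).perm = permOf N ε⁻¹ := rfl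

@[simp] theorem mkLocalDataK_σ (ε : SL(2, ℤ)) (R : RotData B X ε) (t : FFK K N)
    (u : LaurentSeries ℂ) (ht : ∀ g : SL(2, ℤ), sigmaGK ι B X g t = u)
    (hu : u.order = (R.m : ℤ)) :
    (mkLocalDataK ι B X ε R t u ht hu).σ = sigmaXK ι B X := rfl

@[simp] theorem mkLocalDataK_m (ε : SL(2, ℤ)) (R : RotData B X ε) (t : FFK K N)
    (u : LaurentSeries ℂ) (ht : ∀ g : SL(2, ℤ), sigmaGK ι B X g t = u)
    (hu : u.order = (R.m : ℤ)) :
    (mkLocalDataK ι B X ε R t u ht hu).m = R.m := rfl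

@[simp] theorem mkLocalDataK_ζ (ε : SL(2, ℤ)) (R : RotData B X ε) (t : FFK K N)
    (u : LaurentSeries ℂ) (ht : ∀ g : SL(2, ℤ), sigmaGK ι B X g t = u)
    (hu : u.order = (R.m : ℤ)) :
    (mkLocalDataK ι B X ε R t u ht hu).ζ = R.ζ := rfl

end Fermat.Agent.S29.H282

end
end
-- ===== PACK-END S29/H282/LocalK.lean

-- ===== PACK-BEGIN S29/H282/CoreK.lean
section


/-!
# S29 / M4b-K2 (helper282) — the local data of the function field over `K` at every point

Port of the second half of `Fermat/Agent/S24/Mod/H997Core.lean` from `(ℚ̄, ιK)` to an arbitrary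
field `K` with `ι : K →+* ℂ`.
-/

set_option autoImplicit false

noncomputable section

open ModularCurve HahnSeries UpperHalfPlane
open scoped MatrixGroups

namespace Fermat.Agent.S29.H282

open Fermat.Agent.S24 Fermat.Agent.S24.H997 Fermat.Agent.S24.Deg457

variable {K : Type*} [Field K] [Algebra ℚ K] (ι : K →+* ℂ)
variable {N : ℕ} [NeZero N] (A : AnalyticCore N)

/-- the local data at `∞` -/
def dataInfK : LocalData K (FFK K N) ℂ (XX N) (jFK K N)⁻¹ :=
  mkLocalDataK ι A.toHolBase A.toHolBase.qexpExpansion ModularGroup.T A.infRot (jFK K N)⁻¹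
    (A.qexp (A.toHolBase.JH 1 (one_dvd N)))⁻¹
    (fun g => by rw [map_inv₀, sigmaGK_jFK]; rfl)
    (by
      rw [RotRel.order_inv' A.toHolBase.qexp_J_one_ne_zero, A.toHolBase.order_qexp_J_one, neg_neg]
      rfl)

theorem sigmaGK_sub {a : K} {ε : SL(2, ℤ)} (P : PointData A.toHolBase (ι a) ε)
    (g : SL(2, ℤ)) :
    sigmaGK ι A.toHolBase P.X g (jFK K N - algebraMap K (FFK K N) a)
      = P.X.E (A.toHolBase.JH 1 (one_dvd N) - A.toHolBase.constH (ι a)) := by
  rw [_root_.map_sub, sigmaGK_jFK, sigmaGK_algebraMap, _root_.map_sub, P.X.const]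

/-- the local data attached to point data over `a` -/
def dataOfPointK {a : K} {ε : SL(2, ℤ)} (P : PointData A.toHolBase (ι a) ε) :
    LocalData K (FFK K N) ℂ (XX N) (jFK K N - algebraMap K (FFK K N) a) :=
  mkLocalDataK ι A.toHolBase P.X ε P.R _ _ (fun g => sigmaGK_sub ι A P g) P.order_J

/-- all the embeddings `σ_x` agree on `K(j)` -/
theorem sigmaXK_eq_on_adjoin (X : Expansion A.toHolBase) (x y : XX N) {f : FFK K N}
    (hf : f ∈ IntermediateField.adjoin K {jFK K N}) :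
    sigmaXK ι A.toHolBase X x f = sigmaXK ι A.toHolBase X y f := by
  induction hf using IntermediateField.adjoin_induction with
  | mem z hz =>
      rw [Set.mem_singleton_iff] at hz
      subst hz
      show sigmaGK ι A.toHolBase X _ (jFK K N) = sigmaGK ι A.toHolBase X _ (jFK K N)
      rw [sigmaGK_jFK, sigmaGK_jFK]
  | algebraMap c =>
      show sigmaGK ι A.toHolBase X _ _ = sigmaGK ι A.toHolBase X _ _
      rw [sigmaGK_algebraMap, sigmaGK_algebraMap]
  | add z w _ _ hz hw => rw [_root_.map_add, _root_.map_add, hz, hw]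
  | inv z _ hz => rw [map_inv₀, map_inv₀, hz]
  | mul z w _ _ hz hw => rw [_root_.map_mul, _root_.map_mul, hz, hw]

include ι A in
/-- lower bound for the degree: `|SL₂(ℤ)/Γ₀(N)| ≤ [FFK K N : K(j)]`. -/
theorem card_le_finrankK
    [FiniteDimensional ↥(IntermediateField.adjoin K {jFK K N}) (FFK K N)] :
    Nat.card (XX N) ≤ Module.finrank ↥(IntermediateField.adjoin K {jFK K N}) (FFK K N) := by
  classical
  set E := IntermediateField.adjoin K {jFK K N} with hE
  let X := A.toHolBase.qexpExpansion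
  let x0 : XX N := ((1 : SL(2, ℤ)) : XX N)
  let ψ : ↥E →+* LaurentSeries ℂ := (sigmaXK ι A.toHolBase X x0).comp (algebraMap ↥E (FFK K N))
  letI : Algebra ↥E (LaurentSeries ℂ) := ψ.toAlgebra
  let a : XX N → (FFK K N →ₐ[↥E] LaurentSeries ℂ) := fun x =>
    { sigmaXK ι A.toHolBase X x with
      commutes' := fun y => sigmaXK_eq_on_adjoin ι A X x x0 y.2 }
  have ha : Function.Injective a := by
    intro x y hxy
    apply sigmaXK_injective ι A.toHolBase X
    refine RingHom.ext fun f => ?_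
    exact congrArg (fun φ : FFK K N →ₐ[↥E] LaurentSeries ℂ => φ f) hxy
  haveI : Module.Free ↥E (FFK K N) := Module.Free.of_divisionRing ↥E (FFK K N)
  haveI : Module.Finite ↥E (FFK K N) := ‹FiniteDimensional ↥E (FFK K N)›
  haveI : Finite (FFK K N →ₐ[↥E] LaurentSeries ℂ) :=
    Finite.algHom ↥E (FFK K N) (LaurentSeries ℂ)
  calc Nat.card (XX N) ≤ Nat.card (FFK K N →ₐ[↥E] LaurentSeries ℂ) :=
        Nat.card_le_card_of_injective a ha
    _ ≤ Module.finrank ↥E (FFK K N) := card_algHom_le_finrank ↥E (FFK K N) (LaurentSeries ℂ)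

/-- the stabiliser generator used over the point `a` -/
def epsAt (a : K) : SL(2, ℤ) :=
  letI := Classical.propDecidable
  if ι a = 0 then ModularGroup.S * ModularGroup.T
  else if ι a = 1728 then ModularGroup.S else 1

/-- the point data over the point `a` -/
def pointAt (a : K) : PointData A.toHolBase (ι a) (epsAt ι a) :=
  letI := Classical.propDecidable
  if h0 : ι a = 0 then by
    rw [epsAt, if_pos h0, h0]; exact A.at0
  else if h1 : ι a = 1728 then by
    rw [epsAt, if_neg h0, if_pos h1, h1]; exact A.at1728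
  else by
    rw [epsAt, if_neg h0, if_neg h1]; exact A.generic (ι a) h0 h1

/-- the local data over a finite point `a : K` -/
def dataFinK (a : K) : LocalData K (FFK K N) ℂ (XX N) (jFK K N - algebraMap K (FFK K N) a) :=
  dataOfPointK ι A (pointAt ι A a)

theorem dataFinK_perm (a : K) : (dataFinK ι A a).perm = permOf N (epsAt ι a)⁻¹ := rfl

theorem dataFinK_σ (a : K) :
    (dataFinK ι A a).σ = sigmaXK ι A.toHolBase (pointAt ι A a).X := rfl

theorem dataFinK_m (a : K) : (dataFinK ι A a).m = (pointAt ι A a).R.m := rfl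

theorem dataFinK_ζ (a : K) : (dataFinK ι A a).ζ = (pointAt ι A a).R.ζ := rfl

theorem dataInfK_perm : (dataInfK (K := K) ι A).perm = permOf N ModularGroup.T⁻¹ := rfl

theorem dataInfK_σ :
    (dataInfK (K := K) ι A).σ = sigmaXK ι A.toHolBase A.toHolBase.qexpExpansion := rfl

theorem dataInfK_m : (dataInfK (K := K) ι A).m = N := rfl

end Fermat.Agent.S29.H282

end
end
-- ===== PACK-END S29/H282/CoreK.lean

-- ===== PACK-BEGIN S29/H222/ESKAdapterM.lean
section
/-
S29 / helper222 — piece ESK, adapter to layer M: `Fermat.Agent.S29.M.ESStatement` (the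
Eichler–Shimura input of deputy helper30's layer M, `M/Defs.lean`) from the external inputs
of `ESKFamily.lean`:

* `CoreFamily`   : `S18.CoreStatement N A m` for `ℓ ∤ N`, `ℓ ∤ m`, `A` over `ℓ`     (row S18)
* `PGIFamily`    : Prelude `PrincipalGeneratedByIntegral A (residue A) N`            (S18/S37, M1-Gauss)
* `NormIdFamily` : `NormId N ℓ`                                                      (piece NKI)

(`HIFamily`, the fourth input, is discharged here from helper812's piece HI.)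
-/




set_option autoImplicit false
set_option linter.style.haveILetI false

noncomputable section

namespace Fermat.Agent.S29.H222

/-- **ES for layer M**: the exact `M.ESStatement`, from the four families. -/
theorem esStatement_of_families (hcore : CoreFamily) (hpgi : PGIFamily) (hHI : HIFamily)
    (hnid : NormIdFamily) : Fermat.Agent.S29.M.ESStatement :=
  esRaw_of_families hcore hpgi hHI hnid

/-- Piece HI (helper812) in family form. -/
theorem hiFamily : HIFamily :=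
  fun N _ ℓ _ _ _ => Fermat.Agent.S29.H812.heckeInputsAlong N ℓ

/-- **ES for layer M** from the three remaining external inputs. -/
theorem esStatement_of_core_pgi_normId (hcore : CoreFamily) (hpgi : PGIFamily)
    (hnid : NormIdFamily) : Fermat.Agent.S29.M.ESStatement :=
  esStatement_of_families hcore hpgi hiFamily hnid

end Fermat.Agent.S29.H222

end
end
-- ===== PACK-END S29/H222/ESKAdapterM.lean

-- ===== PACK-BEGIN S18/H965/Glue.lean
section


/-!
# S18 / NODE GLUE (helper965)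

`node_glue : Mod.GlueStatement M ℓ A m` (for PRIME `m`) — exactly the type of `node_glue` in
`Fermat/Agent/S18/Integ/Skeleton.lean` (interfaces v4 = FINAL, on main b6b9cd58):

    CoordinateStatement M ℓ → GoodModelStatement M ℓ A → AlgStatement M → CoreStatement M A m.

Proof: given integral `U₁, U₂` with the same reduction, put `u = U₁/U₂ ∈ Ω`.
* descent: `U₁, U₂ ∈ Fc M E` as soon as `E ⊇ T` (`exists_finset_mem_Fc`); MOD supplies a member
  `p = (Ec M E, Fc M E, Rc M A E, V, w)` of the good family with `E ⊇ T`;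
* `m⁻¹ ∈ Rc M A E` since `ℓ ∤ m` (`natCast_inv_mem_Rc`);
* `(u - 1)/w ∈ V = VcSet M A E` (`sub_one_mul_inv_mem_VcSet`, uses only `w_mem`, `w_gen`);
* every valuation subring `O ⊇ Q̄` of `Ω` is `⊤` or a place (`H443.exists_place_eq`), whence the
  divisor hypothesis in the form required by ALG (`exists_unit_twist`);
* ALG gives `u = c y^m`.
-/

set_option autoImplicit false

noncomputable section

namespace Fermat.Agent.S18.H965

open ModularCurve AlgebraicCurve HahnSeries Fermat.Agent.S18 Fermat.Agent.S18.Mod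

/-- **NODE GLUE (d1).** -/
theorem node_glue (M : ℕ) [NeZero M] {ℓ : ℕ} [Fact ℓ.Prime] (_hℓM : ¬ ℓ ∣ M)
    (A : ValuationSubring Qb) (hA : A.LiesOverPrime ℓ) (m : ℕ) (hmp : m.Prime) (hm : ¬ ℓ ∣ m) :
    Mod.GlueStatement M ℓ A m := by
  classical
  intro hcoord hmod halg U₁ U₂ h₁ h₂ hred hdiv
  obtain ⟨x, S, hxS⟩ := hcoord
  obtain ⟨𝓕, -, hfam, hT⟩ := hmod x S hxS
  obtain ⟨T₁, hT₁⟩ := exists_finset_mem_Fc M (toF h₁)
  obtain ⟨T₂, hT₂⟩ := exists_finset_mem_Fc M (toF h₂)
  obtain ⟨E, V, w, -, hTE, hV, hp⟩ := hT (T₁ ∪ T₂)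
  have hf₁ : toF h₁ ∈ Fc M E := hT₁ E (fun a ha => hTE a (Finset.mem_union_left _ ha))
  have hf₂ : toF h₂ ∈ Fc M E := hT₂ E (fun a ha => hTE a (Finset.mem_union_right _ ha))
  have hgood : Alg.GoodModel (Lc M) (Ec M E) (Fc M E) (Rc M A E) V w x S := hfam.good _ hp
  have hm0 : m ≠ 0 := hmp.ne_zero
  have hu0 : toF h₁ / toF h₂ ≠ 0 := div_ne_zero (toF_ne_zero h₁) (toF_ne_zero h₂)
  have huV : (toF h₁ / toF h₂ - 1) * w⁻¹ ∈ V := by
    have h := sub_one_mul_inv_mem_VcSet A h₁ h₂ hred hf₁ hf₂ hgood.w_mem hgood.w_gen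
    rw [← hV] at h
    exact h
  obtain ⟨y, c, hcL, hc0, huy⟩ := halg (Lc M) x S 𝓕 hfam _ hp m
    hmp (natCast_inv_mem_Rc Fact.out A hA hm) (toF h₁ / toF h₂) (div_mem hf₁ hf₂) hu0 huV
    (exists_unit_twist (toF_ne_zero h₁) (toF_ne_zero h₂) hdiv)
  obtain ⟨c', rfl⟩ := hcL
  refine ⟨c', y, ?_, ?_, ?_⟩
  · rintro rfl
    exact hc0 (_root_.map_zero _)
  · rintro rfl
    rw [zero_pow hm0, mul_zero] at huy
    exact hu0 huy
  · rw [← huy, div_mul_cancel₀ _ (toF_ne_zero h₂)]

end Fermat.Agent.S18.H965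

end
end
-- ===== PACK-END S18/H965/Glue.lean

-- ===== PACK-BEGIN S18/H694/CoreFamilyOfNodes.lean
section





/-!
# S18 / helper694 — the hub for ALL `m` from the two open nodes (`node_mod`, `node_alg`)

The S18 skeleton (interfaces v4) produces the hub `CoreStatement N A p` only for PRIME `p ≠ ℓ`.
Row S29 (`S29/H222/ESKFamily.lean`, `CoreFamily`; `esStatement_of_core`) needs it for all `m`
prime to `ℓ`.  This file wires the closed nodes on main (`H333.node_coord`, `H965.node_glue`,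
`H568.node_d2`) with `H694.coreStatement_of_prime`:

* `coreStatement_of_nodes` : `CoreStatement N A m` for all `m` with `ℓ ∤ m`, from `node_mod` at the
  level `M = levelM N ℓ` and `node_alg`;
* `coreFamily_of_nodes` : the exact body of `S29.H222.CoreFamily` from the two node statements
  (in the exact shapes of `Integ/Skeleton.lean`).

When `node_mod` and `node_alg` are on main, `CoreFamily` is `coreFamily_of_nodes node_mod node_alg`.
-/

set_option autoImplicit false

noncomputable section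

namespace Fermat.Agent.S18.H694

open ModularCurve AlgebraicCurve

/-- The level at which good reduction is proved (same as `Integ.levelM` of the skeleton). -/
def levelAux (N ℓ : ℕ) : ℕ := if ℓ = 3 then Nat.lcm N 2 else if ℓ = 2 then Nat.lcm N 3 else N

theorem levelAux_ne_zero (N ℓ : ℕ) [NeZero N] : levelAux N ℓ ≠ 0 := by
  unfold levelAux
  split_ifs <;> simp [NeZero.ne N]

theorem not_dvd_levelAux (N : ℕ) {ℓ : ℕ} [Fact ℓ.Prime] (hℓN : ¬ ℓ ∣ N) :
    ¬ ℓ ∣ levelAux N ℓ := by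
  unfold levelAux
  split_ifs with h3 h2
  · subst h3
    intro h
    have := (Nat.Prime.dvd_mul (by norm_num : Nat.Prime 3)).mp (h.trans (Nat.lcm_dvd_mul N 2))
    rcases this with h | h
    · exact hℓN h
    · omega
  · subst h2
    intro h
    have := (Nat.Prime.dvd_mul (by norm_num : Nat.Prime 2)).mp (h.trans (Nat.lcm_dvd_mul N 3))
    rcases this with h | h
    · exact hℓN h
    · omega
  · exact hℓN

/-- The hub at level `N` for all `m` prime to `ℓ`, from `node_mod` at level `levelAux N ℓ` and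
`node_alg`. -/
theorem coreStatement_of_nodes (N : ℕ) [NeZero N] {ℓ : ℕ} [Fact ℓ.Prime] (hℓN : ¬ ℓ ∣ N)
    (A : ValuationSubring Qb) (hA : A.LiesOverPrime ℓ)
    (hmod : Mod.GoodModelStatement (levelAux N ℓ) ℓ A)
    (halg : Mod.AlgStatement (levelAux N ℓ)) :
    ∀ m : ℕ, ¬ ℓ ∣ m → CoreStatement N A m := by
  have : NeZero (levelAux N ℓ) := ⟨levelAux_ne_zero N ℓ⟩
  have hℓM := not_dvd_levelAux N hℓN
  have h3 : ℓ = 3 → 2 ∣ levelAux N ℓ := fun h => by
    unfold levelAux; rw [if_pos h]; exact Nat.dvd_lcm_right N 2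
  have h2 : ℓ = 2 → 3 ∣ levelAux N ℓ := fun h => by
    unfold levelAux
    rw [if_neg (by omega), if_pos h]; exact Nat.dvd_lcm_right N 3
  refine coreStatement_of_prime hℓN hA (fun p hp hℓp => ?_)
  have hcoreM : CoreStatement (levelAux N ℓ) A p :=
    H965.node_glue (levelAux N ℓ) hℓM A hA p hp hℓp
      (H333.node_coord (levelAux N ℓ) hℓM h3 h2) hmod halg
  exact H568.node_d2 N hℓN A hA p hℓp hcoreM

/-- **The S18 hub family needed by row S29** (exact body of `Fermat.Agent.S29.H222.CoreFamily`),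
from the two open nodes of the S18 skeleton in their exact shapes. -/
theorem coreFamily_of_nodes
    (node_mod : ∀ (M : ℕ) [NeZero M] {ℓ : ℕ} [Fact ℓ.Prime], ¬ ℓ ∣ M →
      ∀ A : ValuationSubring Qb, A.LiesOverPrime ℓ → Mod.GoodModelStatement M ℓ A)
    (node_alg : ∀ M : ℕ, Mod.AlgStatement M) :
    ∀ (N : ℕ) [NeZero N] (ℓ : ℕ), ℓ.Prime → ¬ ℓ ∣ N → ∀ m : ℕ, ¬ ℓ ∣ m →
      ∀ A : ValuationSubring Qb, A.LiesOverPrime ℓ → CoreStatement N A m := by
  intro N _ ℓ hℓ hℓN m hm A hA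
  have : Fact ℓ.Prime := ⟨hℓ⟩
  have : NeZero (levelAux N ℓ) := ⟨levelAux_ne_zero N ℓ⟩
  exact coreStatement_of_nodes N hℓN A hA
    (node_mod (levelAux N ℓ) (not_dvd_levelAux N hℓN) A hA) (node_alg (levelAux N ℓ)) m hm

end Fermat.Agent.S18.H694

end
end
-- ===== PACK-END S18/H694/CoreFamilyOfNodes.lean

-- ===== PACK-BEGIN S37/H818/NodePull.lean
section
/-
S37 / node_pull (helper818): the interface `Core.PullData N (N * a) ℓ` of the row plan, for
`(ℓ, a) = (3, 2)` and `(2, 3)`, `a ∤ N`, `ℓ ∤ N`  — UNCONDITIONAL.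

`pull := π^* : J₀(N) → J₀(N a)` (conorm along the inclusion `F_N ⊂ F_{N a}` of function fields),
Galois equivariant, commuting with `T_ℓ`, injective on prime-to-`ℓ` torsion because
`π_* π^* = [F_{N a} : F_N] = a + 1` is a power of `ℓ`.
-/





set_option autoImplicit false
set_option linter.style.haveILetI false

noncomputable section

namespace Fermat.Agent.S37.H818

open AlgebraicCurve ModularCurve IntermediateField Fermat.Agent.S37.H99 Fermat.Agent.S37.Core

/-- **The inputs of the level transfer hold unconditionally** (as soon as the degree of the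
degeneracy map is a power of `ℓ`). -/
theorem transferInputs (N k ℓ : ℕ) [NeZero N] [NeZero k] [NeZero ℓ] (hℓ : ℓ.Prime)
    (hk : k.Prime) (hℓN : ¬ ℓ ∣ N) (hℓk : ¬ ℓ ∣ k)
    (hdeg : ∃ e : ℕ, finrankAlong Qb (heckeAlphaBar Qb N k) = ℓ ^ e) :
    TransferInputs N k ℓ where
  hℓ := hℓ
  hk := hk
  hℓN := hℓN
  hℓk := hℓk
  heckeN := Fermat.Agent.Lib.FF398.heckeInputsAlong N ℓ
  heckeM := Fermat.Agent.Lib.FF398.heckeInputsAlong (N * k) ℓ
  normFormula := Fermat.Agent.Lib.FF398.normFormulaAlong_alpha N k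
  deg_pow := hdeg

/-- The degree of `X₀(N a) → X₀(N)` is a power of `ℓ` in the two cases of the row plan. -/
theorem finrankAlong_pow (N a ℓ : ℕ) [NeZero N] [NeZero a]
    (ha : (ℓ = 3 ∧ a = 2) ∨ (ℓ = 2 ∧ a = 3)) (haN : ¬ a ∣ N) :
    ∃ e : ℕ, finrankAlong Qb (heckeAlphaBar Qb N a) = ℓ ^ e := by
  rcases ha with ⟨rfl, rfl⟩ | ⟨rfl, rfl⟩
  · refine ⟨1, ?_⟩
    rw [finrankAlong_heckeAlphaBar' (L := Qb) N 2 Nat.prime_two, if_neg haN]
    norm_num
  · refine ⟨2, ?_⟩
    rw [finrankAlong_heckeAlphaBar' (L := Qb) N 3 Nat.prime_three, if_neg haN]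
    norm_num

/-- The pull datum attached to transfer inputs. -/
def TransferInputs.pullData {N k ℓ : ℕ} [NeZero N] [NeZero k] [NeZero ℓ]
    (T : TransferInputs N k ℓ) : PullData N (N * k) ℓ where
  pull := T.pullback
  galois σ x := T.pullback_galois σ x
  inj_torsion m hm x hmx hx :=
    T.pullback_injective_of_coprime m
      ((Nat.Coprime.symm ((Nat.Prime.coprime_iff_not_dvd T.hℓ).mpr hm))) x hmx hx
  hecke x := T.pullback_hecke x

/-- **NODE [PULL]** (exact statement of `Board.node_pull`). -/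
theorem node_pull (N a ℓ : ℕ) [NeZero N] [NeZero a] [NeZero ℓ] (hℓ : ℓ.Prime)
    (ha : (ℓ = 3 ∧ a = 2) ∨ (ℓ = 2 ∧ a = 3)) (haN : ¬ a ∣ N) (hℓN : ¬ ℓ ∣ N) :
    Nonempty (PullData N (N * a) ℓ) := by
  have hk : a.Prime := by
    rcases ha with ⟨-, rfl⟩ | ⟨-, rfl⟩
    · exact Nat.prime_two
    · exact Nat.prime_three
  have hℓa : ¬ ℓ ∣ a := by
    rcases ha with ⟨rfl, rfl⟩ | ⟨rfl, rfl⟩ <;> decide
  exact ⟨(transferInputs N a ℓ hℓ hk hℓN hℓa (finrankAlong_pow N a ℓ ha haN)).pullData⟩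

/-- General form: `PullData N (N * k) ℓ` for primes `k`, `ℓ ∤ N k`, with `[F_{N k} : F_N]` a
power of `ℓ`. -/
theorem nonempty_pullData (N k ℓ : ℕ) [NeZero N] [NeZero k] [NeZero ℓ] (hℓ : ℓ.Prime)
    (hk : k.Prime) (hℓN : ¬ ℓ ∣ N) (hℓk : ¬ ℓ ∣ k)
    (hdeg : ∃ e : ℕ, finrankAlong Qb (heckeAlphaBar Qb N k) = ℓ ^ e) :
    Nonempty (PullData N (N * k) ℓ) :=
  ⟨(transferInputs N k ℓ hℓ hk hℓN hℓk hdeg).pullData⟩

end Fermat.Agent.S37.H818

end

end
-- ===== PACK-END S37/H818/NodePull.lean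

-- ===== PACK-BEGIN A2/H708/GaussLevel.lean
section




/-!
# A2 (helper708): the two Gauss valuations `V∞`, `V₀` of `ℚ̄(X₀(N))` and the K2 conclusion

`N ≥ 1`, `A` a valuation subring of `ℚ̄` over a prime `ℓ`, `FF N = modularFunctionFieldBar N`.

* `Vinf N A hℓ hA : ValuationSubring (FF N)` : Gauss valuation of the `t`-expansion at `∞`;
* `Vzero N A hℓ hA := H528.comapW N (Vinf ..)` : its pull back by the Fricke involution `w_N`;
* `Vzero_ne_Vinf` (for `ℓ ∣ N`);
* for `σ ∈ A.inertiaSubgroupIn ℚ`, `τ = H528.gal N σ` (action on coefficients) and EVERY `f ≠ 0`: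
  `oneAddNonunits_twice_Vinf`, `oneAddNonunits_twice_Vzero` :
  `(τ - 1)² f ∈ 1 + 𝔪_V` for `V = V∞` and for `V = V₀` (no constant needed);
  `isUnitOf_once_Vinf`, `isUnitOf_once_Vzero` : `(τ - 1) f` is a unit of `V∞` and of `V₀`.

This is the complete step K2 of the board (`origin/helper34:coord/A2.md`) in concrete form.
-/

set_option autoImplicit false
set_option linter.unusedSectionVars false
set_option synthInstance.maxHeartbeats 400000
set_option maxHeartbeats 1000000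

noncomputable section

namespace Fermat.Agent.A2.H708

open ModularCurve HahnSeries AlgebraicCurve Fermat.Agent.S24 Fermat.Agent.A2.H129
  Fermat.Agent.A2.H528

variable (N : ℕ) [NeZero N] (A : ValuationSubring Kbar)
variable {ℓ : ℕ} (hℓ : ℓ ≠ 0) (hA : (ℓ : Kbar) ∈ A.nonunits)

/-- **`V∞`**: the Gauss valuation ring of the `t`-expansion at `∞` on `ℚ̄(X₀(N))`. -/
def Vinf : ValuationSubring (FF N) :=
  gaussInfBar A hℓ hA (modularFunctionFieldFull N) (intGen_full N)

/-- **`V₀ = V∞ ∘ w_N`**. -/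
def Vzero : ValuationSubring (FF N) := comapW N (Vinf N A hℓ hA)

/-- the constants of `FF N`. -/
abbrev constFF : Subfield (FF N) := constField (modularFunctionFieldFull N)

/-! ### generalities on valuation subrings -/

section general

variable {F : Type*} [Field F] (V : ValuationSubring F)

theorem valuation_eq_one_iff_mem {f : F} (hf : f ≠ 0) :
    V.valuation f = 1 ↔ f ∈ V ∧ f⁻¹ ∈ V := by
  rw [← V.valuation_le_one_iff, ← V.valuation_le_one_iff, map_inv₀]
  have h0 : V.valuation f ≠ 0 := (Valuation.ne_zero_iff _).mpr hf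
  constructor
  · intro h
    rw [h, inv_one]
    exact ⟨le_rfl, le_rfl⟩
  · rintro ⟨h1, h2⟩
    rw [inv_le_one₀ (zero_lt_iff.mpr h0)] at h2
    exact le_antisymm h1 h2

theorem valuation_lt_one_iff_mem {f : F} : V.valuation f < 1 ↔ f = 0 ∨ f⁻¹ ∉ V := by
  rw [← V.valuation_le_one_iff, map_inv₀]
  by_cases h0 : f = 0
  · simp [h0]
  · have hv : V.valuation f ≠ 0 := (Valuation.ne_zero_iff _).mpr h0
    rw [inv_le_one₀ (zero_lt_iff.mpr hv), not_le]
    simp [h0]

end general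

/-! ### K2 at `V∞` -/

theorem hasConstValues_Vinf : HasConstValues (constFF N) (Vinf N A hℓ hA) :=
  hasConstValues hℓ hA (intGen_full N)

variable {N A}

theorem inInertia_Vinf {σ : Kbar ≃ₐ[ℚ] Kbar} (hσ : σ ∈ A.inertiaSubgroupIn ℚ) :
    InInertia (Vinf N A hℓ hA) (gal N σ) :=
  inInertia hℓ hA (intGen_full N) hσ

theorem preservesConstValues_Vinf {σ : Kbar ≃ₐ[ℚ] Kbar} (hσ : σ ∈ A.inertiaSubgroupIn ℚ) :
    PreservesConstValues (constFF N) (Vinf N A hℓ hA) (gal N σ) :=
  preservesConstValues hℓ hA (intGen_full N) hσ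

theorem constants_stable_FF (σ : Kbar ≃ₐ[ℚ] Kbar) :
    ∀ c ∈ constFF N, gal N σ c ∈ constFF N :=
  constants_stable σ

/-- **`(τ - 1)² f ∈ 1 + 𝔪_{V∞}`.** -/
theorem oneAddNonunits_twice_Vinf {σ : Kbar ≃ₐ[ℚ] Kbar} (hσ : σ ∈ A.inertiaSubgroupIn ℚ)
    {f : FF N} (hf : f ≠ 0) :
    OneAddNonunits (Vinf N A hℓ hA) (tauSubOne (gal N σ) (tauSubOne (gal N σ) f)) :=
  oneAddNonunits_twice (hasConstValues_Vinf N A hℓ hA) (inInertia_Vinf hℓ hA hσ)
    (preservesConstValues_Vinf hℓ hA hσ) hf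

/-- **`(τ - 1) f` is a unit of `V∞`.** -/
theorem isUnitOf_once_Vinf {σ : Kbar ≃ₐ[ℚ] Kbar} (hσ : σ ∈ A.inertiaSubgroupIn ℚ)
    {f : FF N} (hf : f ≠ 0) :
    IsUnitOf (Vinf N A hℓ hA) (tauSubOne (gal N σ) f) :=
  isUnitOf_once (hasConstValues_Vinf N A hℓ hA) (inInertia_Vinf hℓ hA hσ)
    (preservesConstValues_Vinf hℓ hA hσ) hf

/-! ### transfer to `V₀` -/

theorem wF_tauSubOne (σ : Kbar ≃ₐ[ℚ] Kbar) (f : FF N) :
    wF N (tauSubOne (gal N σ) f) = tauSubOne (gal N σ) (wF N f) := by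
  unfold tauSubOne
  rw [_root_.map_mul, map_inv₀, wF_gal]

theorem oneAddNonunits_Vzero_iff {g : FF N} :
    OneAddNonunits (Vzero N A hℓ hA) g ↔ OneAddNonunits (Vinf N A hℓ hA) (wF N g) := by
  unfold OneAddNonunits
  rw [valuation_lt_one_iff_mem, valuation_lt_one_iff_mem]
  have h1 : wF N g - 1 = wF N (g - 1) := by rw [_root_.map_sub, _root_.map_one]
  rw [h1]
  constructor
  · rintro (h | h)
    · left; rw [h, _root_.map_zero]
    · right
      intro hmem
      apply h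
      show wF N (g - 1)⁻¹ ∈ Vinf N A hℓ hA
      rw [map_inv₀]
      exact hmem
  · rintro (h | h)
    · left
      exact (map_eq_zero_iff _ (wF N).injective).mp h
    · right
      intro hmem
      apply h
      have : wF N (g - 1)⁻¹ ∈ Vinf N A hℓ hA := hmem
      rwa [map_inv₀] at this

theorem isUnitOf_Vzero_iff {g : FF N} :
    IsUnitOf (Vzero N A hℓ hA) g ↔ IsUnitOf (Vinf N A hℓ hA) (wF N g) := by
  unfold IsUnitOf
  by_cases hg : g = 0
  · rw [hg, _root_.map_zero, _root_.map_zero, _root_.map_zero]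
    simp
  · have hg' : wF N g ≠ 0 := fun h => hg ((map_eq_zero_iff _ (wF N).injective).mp h)
    rw [valuation_eq_one_iff_mem _ hg, valuation_eq_one_iff_mem _ hg', ← map_inv₀]
    rfl

/-- **`(τ - 1)² f ∈ 1 + 𝔪_{V₀}`.** -/
theorem oneAddNonunits_twice_Vzero {σ : Kbar ≃ₐ[ℚ] Kbar} (hσ : σ ∈ A.inertiaSubgroupIn ℚ)
    {f : FF N} (hf : f ≠ 0) :
    OneAddNonunits (Vzero N A hℓ hA) (tauSubOne (gal N σ) (tauSubOne (gal N σ) f)) := by
  rw [oneAddNonunits_Vzero_iff, wF_tauSubOne, wF_tauSubOne]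
  exact oneAddNonunits_twice_Vinf hℓ hA hσ
    (fun h => hf ((map_eq_zero_iff _ (wF N).injective).mp h))

/-- **`(τ - 1) f` is a unit of `V₀`.** -/
theorem isUnitOf_once_Vzero {σ : Kbar ≃ₐ[ℚ] Kbar} (hσ : σ ∈ A.inertiaSubgroupIn ℚ)
    {f : FF N} (hf : f ≠ 0) :
    IsUnitOf (Vzero N A hℓ hA) (tauSubOne (gal N σ) f) := by
  rw [isUnitOf_Vzero_iff, wF_tauSubOne]
  exact isUnitOf_once_Vinf hℓ hA hσ
    (fun h => hf ((map_eq_zero_iff _ (wF N).injective).mp h))

/-! ### `V₀ ≠ V∞` -/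

theorem coe_eq_incl_of_intEmb {f : FF N} {g : LaurentSeries ℤ}
    (h : ((f : FF N) : LaurentSeries Kbar) = intEmb g) :
    ((f : FF N) : LaurentSeries Kbar) = incl A (castA A g) := by
  rw [h, intEmb, incl, castA, coeffMap_coeffMap]
  exact coeffMap_congr (RingHom.ext_int _ _) g

/-- **The two Gauss valuations are different** (`ℓ ∣ N`). -/
theorem Vzero_ne_Vinf [Fact ℓ.Prime] (h : ℓ ∣ N) : Vzero N A hℓ hA ≠ Vinf N A hℓ hA := by
  refine comapW_ne N ℓ h (Vinf N A hℓ hA) ?_ ?_ ?_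
  · intro f g hg
    exact mem_gaussInfBar_of_incl hℓ hA (intGen_full N) (castA A g) (coe_eq_incl_of_intEmb hg)
  · intro f g k hg hk
    refine inv_mem_gaussInfBar_of_incl hℓ hA (intGen_full N) (castA A g)
      (coe_eq_incl_of_intEmb hg) ?_
    rw [red_ne_zero_iff]
    refine ⟨k, ?_⟩
    have : (((castA A g).coeff k : A) : Kbar) = -1 := by
      show (((Int.castRingHom A) (g.coeff k) : A) : Kbar) = -1
      rw [hk]
      simp
    rw [this, Valuation.map_neg, _root_.map_one]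
  · exact inv_prime_not_mem_gaussInfBar hℓ hA (intGen_full N)

end Fermat.Agent.A2.H708

end
end
-- ===== PACK-END A2/H708/GaussLevel.lean

-- ===== PACK-BEGIN A2/Mod/H372/S3Sides.lean
section



/-!
# A2 / MODASM sub-assembly S3 (helper372): the two sides on the charts

`s3_of_leaves : (leaves L4, L5, L7, L8, L11, L12 + sub-assembly S2) → S3Statement P E M q w`
(`Fermat/Agent/A2/Mod/Asm.lean`, VERBATIM).  The leaves L2 (`H553.vinfBasic`) and L13
(`H873.chartCompat`) are used directly (on main).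

Proof: `H372.KronCong.sup_isRadical` applied to the restrictions `α, β : B_M → B` of the two
degeneracy maps to the charts (`B_M` = chart of `j^{±1}` at level `M`, `B` = chart of `x^{±1}`
at level `Mq`):

* `KronCong` : L12 gives the Kronecker twist `a'` only in `V∞_M`; `GoodRedAt.normal` brings it
  back into the chart (`SideData.cong`); on `C₀` one transports by the Fricke involutions
  (L4, L5, L7);
* `α` is onto `B ⧸ p∞` : L11 + `GoodRedAt.normal` (`SideData.surj`);
* the branch `B ⧸ p∞` is a Dedekind domain : S2 (normal), `B` noetherian (L8), dimension one.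
-/

set_option autoImplicit false
set_option synthInstance.maxHeartbeats 400000
set_option maxHeartbeats 1600000
set_option linter.unusedSectionVars false
set_option linter.style.haveILetI false

noncomputable section

namespace Fermat.Agent.A2.Mod.H372

open ModularCurve HahnSeries Polynomial

variable {P : ValuationSubring _root_.Fermat.Agent.A2.Mod.Qb} {E : IntermediateField ℚ _root_.Fermat.Agent.A2.Mod.Qb} {M q : ℕ} [NeZero M] [NeZero q]
  (w : _root_.Fermat.Agent.A2.Mod.RE P E)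

section Sides

variable (hS : Setting P E M q w) {VM : ValuationSubring (_root_.Fermat.Agent.A2.Mod.FE E M)}
  {V : ValuationSubring (_root_.Fermat.Agent.A2.Mod.FE E (M * q))} {W : _root_.Fermat.Agent.A2.Mod.FE E (M * q) ≃ₐ[E] _root_.Fermat.Agent.A2.Mod.FE E (M * q)}
  (hVM : IsVinf P E M VM) (hV : IsVinf P E (M * q) V) (hW : IsFricke E (M * q) W)
  {yM : _root_.Fermat.Agent.A2.Mod.FE E M} {y : _root_.Fermat.Agent.A2.Mod.FE E (M * q)}

include hS hVM in
theorem chartM_le (hyM : yM ∈ VM) {a : _root_.Fermat.Agent.A2.Mod.FE E M} (ha : a ∈ chartAlg P E M yM) : a ∈ VM :=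
  mem_of_isIntegralElem VM (algebraMap (_root_.Fermat.Agent.A2.Mod.RE P E) (_root_.Fermat.Agent.A2.Mod.FE E M)) yM (fun r => cE_mem w hS hVM r) hyM
    (mem_chartAlg_iff.mp ha)

theorem self_mem_chartAlg (N : ℕ) (y : _root_.Fermat.Agent.A2.Mod.FE E N) : y ∈ chartAlg P E N y := by
  rw [mem_chartAlg_iff]
  have := (Polynomial.eval₂RingHom (algebraMap (_root_.Fermat.Agent.A2.Mod.RE P E) (_root_.Fermat.Agent.A2.Mod.FE E N)) y).isIntegralElem_map
    (x := Polynomial.X)
  simpa using this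

include hS hVM hV in
/-- `β` maps `V∞_M` into `V∞_{Mq}` (consequence of L12). -/
theorem beta_mem (hL12 : KronStatement P E M q w) {a : _root_.Fermat.Agent.A2.Mod.FE E M} (ha : a ∈ VM) :
    βE E M q a ∈ V := by
  obtain ⟨a', ha', h⟩ := hL12 hS VM V hVM hV a ha
  have h1 := mem_of_mul_inv_mem (unifE w hS (level_ne_zero w hS) hV) h
  have h2 : (αE E M q a') ^ q ∈ V := V.pow_mem (alpha_mem hVM hV ha') q
  have := V.add_mem _ _ h1 h2
  simpa using this

include hS hVM hV in
/-- The side `C∞`. -/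
theorem side₁ (hyM : yM ∈ VM) (hgood : GoodRedAt P E M w VM yM) :
    SideData VM V (cE P E M w) (cE P E (M * q) w) (αE E M q : _root_.Fermat.Agent.A2.Mod.FE E M →+* _root_.Fermat.Agent.A2.Mod.FE E (M * q)) q
      (chartAlg P E M yM).toSubring where
  unif₁ := unifE w hS hS.M_ne_zero hVM
  unif₂ := unifE w hS (level_ne_zero w hS) hV
  map_mem := fun x hx => alpha_mem hVM hV hx
  map_unif := alpha_cE P E M q w
  refl := fun x hx => mem_of_alpha_mem w hS hVM hV hx
  prime := hS.q_prime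
  q_mem := q_mul_inv_mem w hS hV
  le := fun a ha => chartM_le w hS hVM hyM ha
  normal := by
    rintro f hf ⟨n, c, hc, hrel⟩
    obtain ⟨b, hb, hfb⟩ := hgood.normal f hf ⟨n, c, fun i => mem_chart_iff.mpr (hc i), hrel⟩
    exact ⟨b, mem_chart_iff.mp hb, hfb⟩

include hS hVM hV hW in
/-- The side `C₀`. -/
theorem side₂ (hL5 : FrickeCompatStatement E M q) (hL7 : FrickeStableStatement P E M q w)
    {WM : _root_.Fermat.Agent.A2.Mod.FE E M ≃ₐ[E] _root_.Fermat.Agent.A2.Mod.FE E M} (hWM : IsFricke E M WM)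
    (hyM : yM ∈ VM) (hgood : GoodRedAt P E M w VM yM) :
    SideData VM (V.comap (W : _root_.Fermat.Agent.A2.Mod.FE E (M * q) →+* _root_.Fermat.Agent.A2.Mod.FE E (M * q))) (cE P E M w) (cE P E (M * q) w)
      (βE E M q : _root_.Fermat.Agent.A2.Mod.FE E M →+* _root_.Fermat.Agent.A2.Mod.FE E (M * q)) q (chartAlg P E M yM).toSubring where
  unif₁ := unifE w hS hS.M_ne_zero hVM
  unif₂ := isUnif_comap (unifE w hS (level_ne_zero w hS) hV) _ (W.commutes (w : E))
  map_mem := fun x hx => by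
    rw [ValuationSubring.mem_comap]
    show W (βE E M q x) ∈ V
    rw [(hL5 WM W hWM hW x).2]
    exact alpha_mem hVM hV (hL7 hS VM WM hVM hWM x hx)
  map_unif := beta_cE P E M q w
  refl := fun x hx => by
    rw [ValuationSubring.mem_comap] at hx
    have hx' : W (βE E M q x) ∈ V := hx
    rw [(hL5 WM W hWM hW x).2] at hx'
    have h1 := mem_of_alpha_mem w hS hVM hV hx'
    have h2 := hL7 hS VM WM hVM hWM _ h1
    rwa [hWM.2] at h2
  prime := hS.q_prime
  q_mem := by
    rw [ValuationSubring.mem_comap]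
    show W (((q : ℕ) : _root_.Fermat.Agent.A2.Mod.FE E (M * q)) * (cE P E (M * q) w)⁻¹) ∈ V
    have hWc : W (cE P E (M * q) w) = cE P E (M * q) w := W.commutes (w : E)
    rw [_root_.map_mul, map_inv₀, _root_.map_natCast, hWc]
    exact q_mul_inv_mem w hS hV
  le := fun a ha => chartM_le w hS hVM hyM ha
  normal := by
    rintro f hf ⟨n, c, hc, hrel⟩
    obtain ⟨b, hb, hfb⟩ := hgood.normal f hf ⟨n, c, fun i => mem_chart_iff.mpr (hc i), hrel⟩
    exact ⟨b, mem_chart_iff.mp hb, hfb⟩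

end Sides

section Congruences

variable (hS : Setting P E M q w) {VM : ValuationSubring (_root_.Fermat.Agent.A2.Mod.FE E M)}
  {V : ValuationSubring (_root_.Fermat.Agent.A2.Mod.FE E (M * q))} {W : _root_.Fermat.Agent.A2.Mod.FE E (M * q) ≃ₐ[E] _root_.Fermat.Agent.A2.Mod.FE E (M * q)}
  (hVM : IsVinf P E M VM) (hV : IsVinf P E (M * q) V) (hW : IsFricke E (M * q) W)
  {yM : _root_.Fermat.Agent.A2.Mod.FE E M} {y : _root_.Fermat.Agent.A2.Mod.FE E (M * q)} (hC : CoordFacts w VM V W yM y)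
  (hgood : GoodRedAt P E M w VM yM)

include hS hVM hV hC hgood in
/-- **Kronecker congruence on `C∞` inside the charts.** -/
theorem chart_cong₁ (hL12 : KronStatement P E M q w) :
    ∀ a ∈ chartAlg P E M yM, ∃ a' ∈ chartAlg P E M yM,
      InW P E (M * q) V w (βE E M q a - (αE E M q a') ^ q) :=
  (side₁ w hS hVM hV hC.mem hgood).cong (βE E M q : _root_.Fermat.Agent.A2.Mod.FE E M →+* _root_.Fermat.Agent.A2.Mod.FE E (M * q))
    (fun _ hx => beta_mem w hS hVM hV hL12 hx)
    (fun a ha => hL12 hS VM V hVM hV a ha)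
    (algebraMap (_root_.Fermat.Agent.A2.Mod.RE P E) (_root_.Fermat.Agent.A2.Mod.FE E M)) yM
    (fun _ ha => mem_chartAlg_iff.mp ha)
    (fun r => (chartAlg P E M yM).algebraMap_mem r)
    (self_mem_chartAlg M yM)
    (fun r => by
      show βE E M q (cE P E M r) = αE E M q (cE P E M r)
      rw [beta_cE, alpha_cE])
    hC.cong₁

include hS hVM hV hW hC hgood in
/-- **Kronecker congruence on `C₀` inside the charts.** -/
theorem chart_cong₂ (hL5 : FrickeCompatStatement E M q) (hL7 : FrickeStableStatement P E M q w)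
    (hL12 : KronStatement P E M q w) {WM : _root_.Fermat.Agent.A2.Mod.FE E M ≃ₐ[E] _root_.Fermat.Agent.A2.Mod.FE E M} (hWM : IsFricke E M WM) :
    ∀ a ∈ chartAlg P E M yM, ∃ a' ∈ chartAlg P E M yM,
      InW P E (M * q) (V.comap (W : _root_.Fermat.Agent.A2.Mod.FE E (M * q) →+* _root_.Fermat.Agent.A2.Mod.FE E (M * q))) w
        (αE E M q a - (βE E M q a') ^ q) := by
  refine (side₂ w hS hVM hV hW hL5 hL7 hWM hC.mem hgood).cong
    (αE E M q : _root_.Fermat.Agent.A2.Mod.FE E M →+* _root_.Fermat.Agent.A2.Mod.FE E (M * q)) ?_ ?_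
    (algebraMap (_root_.Fermat.Agent.A2.Mod.RE P E) (_root_.Fermat.Agent.A2.Mod.FE E M)) yM
    (fun _ ha => mem_chartAlg_iff.mp ha)
    (fun r => (chartAlg P E M yM).algebraMap_mem r)
    (self_mem_chartAlg M yM)
    (fun r => by
      show αE E M q (cE P E M r) = βE E M q (cE P E M r)
      rw [beta_cE, alpha_cE]) ?_
  · intro x hx
    rw [ValuationSubring.mem_comap]
    show W (αE E M q x) ∈ V
    rw [(hL5 WM W hWM hW x).1]
    exact beta_mem w hS hVM hV hL12 (hL7 hS VM WM hVM hWM x hx)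
  · intro a ha
    obtain ⟨c, hc, hac⟩ := hL12 hS VM V hVM hV (WM a) (hL7 hS VM WM hVM hWM a ha)
    refine ⟨WM c, hL7 hS VM WM hVM hWM c hc, ?_⟩
    show InW P E (M * q) (V.comap (W : _root_.Fermat.Agent.A2.Mod.FE E (M * q) →+* _root_.Fermat.Agent.A2.Mod.FE E (M * q))) w
      (αE E M q a - (βE E M q (WM c)) ^ q)
    rw [inW_comap_iff, _root_.map_sub, _root_.map_pow, (hL5 WM W hWM hW a).1, (hL5 WM W hWM hW (WM c)).2,
      hWM.2]
    exact hac
  · show InW P E (M * q) (V.comap (W : _root_.Fermat.Agent.A2.Mod.FE E (M * q) →+* _root_.Fermat.Agent.A2.Mod.FE E (M * q))) w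
      (αE E M q yM - (βE E M q yM) ^ q)
    rw [inW_comap_iff, _root_.map_sub, _root_.map_pow]
    exact hC.cong₂

include hS hVM hV hC hgood in
/-- **`α` is onto the branch `C∞`.** -/
theorem chart_surj (hL11 : ResInfStatement P E M q w) :
    ∀ b ∈ chartAlg P E (M * q) y, b ∈ V ∧ ∃ a ∈ chartAlg P E M yM,
      InW P E (M * q) V w (b - αE E M q a) := by
  have hyV : y ∈ V := by
    rw [hC.eq_mul]
    exact V.mul_mem _ _ (alpha_mem hVM hV hC.mem) hC.beta_mem
  have h := (side₁ w hS hVM hV hC.mem hgood).surj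
    (fun b hb => hL11 hS VM V hVM hV b hb)
    (algebraMap (_root_.Fermat.Agent.A2.Mod.RE P E) (_root_.Fermat.Agent.A2.Mod.FE E (M * q))) y
    (fun r => cE_mem w hS hV r) hyV
    (fun r => ⟨cE P E M r, (chartAlg P E M yM).algebraMap_mem r, by
      show (cE P E (M * q) r - αE E M q (cE P E M r)) * (cE P E (M * q) w)⁻¹ ∈ V
      rw [alpha_cE, sub_self, zero_mul]
      exact V.zero_mem⟩)
    ⟨yM ^ (q + 1), Subalgebra.pow_mem _ (self_mem_chartAlg M yM) _, by
      have e : y - αE E M q (yM ^ (q + 1)) =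
          αE E M q yM * (βE E M q yM - (αE E M q yM) ^ q) := by
        rw [hC.eq_mul, _root_.map_pow]
        ring
      show (y - αE E M q (yM ^ (q + 1))) * (cE P E (M * q) w)⁻¹ ∈ V
      rw [e, mul_assoc]
      exact V.mul_mem _ _ (alpha_mem hVM hV hC.mem) hC.cong₁⟩
  intro b hb
  exact h b (mem_chartAlg_iff.mp hb)

end Congruences

section Charts

variable (hS : Setting P E M q w) {VM : ValuationSubring (_root_.Fermat.Agent.A2.Mod.FE E M)}
  {V : ValuationSubring (_root_.Fermat.Agent.A2.Mod.FE E (M * q))} {W : _root_.Fermat.Agent.A2.Mod.FE E (M * q) ≃ₐ[E] _root_.Fermat.Agent.A2.Mod.FE E (M * q)}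
  {yM : _root_.Fermat.Agent.A2.Mod.FE E M} {y : _root_.Fermat.Agent.A2.Mod.FE E (M * q)} (hC : CoordFacts w VM V W yM y)

include hC in
/-- `α` maps the level-`M` chart into the level-`Mq` chart. -/
theorem alpha_chart_mem {a : _root_.Fermat.Agent.A2.Mod.FE E M} (ha : a ∈ chartAlg P E M yM) :
    αE E M q a ∈ chartAlg P E (M * q) y := by
  rw [mem_chartAlg_iff]
  have h1 := isIntegralElem_map _ (αE E M q : _root_.Fermat.Agent.A2.Mod.FE E M →+* _root_.Fermat.Agent.A2.Mod.FE E (M * q)) (mem_chartAlg_iff.mp ha)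
  have hcomp : (αE E M q : _root_.Fermat.Agent.A2.Mod.FE E M →+* _root_.Fermat.Agent.A2.Mod.FE E (M * q)).comp
      (Polynomial.eval₂RingHom (algebraMap (_root_.Fermat.Agent.A2.Mod.RE P E) (_root_.Fermat.Agent.A2.Mod.FE E M)) yM) =
      Polynomial.eval₂RingHom (algebraMap (_root_.Fermat.Agent.A2.Mod.RE P E) (_root_.Fermat.Agent.A2.Mod.FE E (M * q))) (αE E M q yM) := by
    apply Polynomial.ringHom_ext
    · intro r
      simp only [RingHom.comp_apply, Polynomial.coe_eval₂RingHom, Polynomial.eval₂_C]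
      exact alpha_cE P E M q r
    · simp
  rw [hcomp] at h1
  exact isIntegralElem_trans _ (mem_chartAlg_iff.mp hC.alpha_chart) h1

include hC in
/-- `β` maps the level-`M` chart into the level-`Mq` chart. -/
theorem beta_chart_mem {a : _root_.Fermat.Agent.A2.Mod.FE E M} (ha : a ∈ chartAlg P E M yM) :
    βE E M q a ∈ chartAlg P E (M * q) y := by
  rw [mem_chartAlg_iff]
  have h1 := isIntegralElem_map _ (βE E M q : _root_.Fermat.Agent.A2.Mod.FE E M →+* _root_.Fermat.Agent.A2.Mod.FE E (M * q)) (mem_chartAlg_iff.mp ha)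
  have hcomp : (βE E M q : _root_.Fermat.Agent.A2.Mod.FE E M →+* _root_.Fermat.Agent.A2.Mod.FE E (M * q)).comp
      (Polynomial.eval₂RingHom (algebraMap (_root_.Fermat.Agent.A2.Mod.RE P E) (_root_.Fermat.Agent.A2.Mod.FE E M)) yM) =
      Polynomial.eval₂RingHom (algebraMap (_root_.Fermat.Agent.A2.Mod.RE P E) (_root_.Fermat.Agent.A2.Mod.FE E (M * q))) (βE E M q yM) := by
    apply Polynomial.ringHom_ext
    · intro r
      simp only [RingHom.comp_apply, Polynomial.coe_eval₂RingHom, Polynomial.eval₂_C]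
      exact beta_cE P E M q r
    · simp
  rw [hcomp] at h1
  exact isIntegralElem_trans _ (mem_chartAlg_iff.mp hC.beta_chart) h1

/-- A cut of a chart contained in the valuation ring is a prime ideal. -/
theorem isPrime_of_isCut {N : ℕ} {V : ValuationSubring (_root_.Fermat.Agent.A2.Mod.FE E N)}
    (hu : H48.IsUnif V (cE P E N w)) (B : Subalgebra (_root_.Fermat.Agent.A2.Mod.RE P E) (_root_.Fermat.Agent.A2.Mod.FE E N))
    (hBV : ∀ b ∈ B, b ∈ V) (p : Ideal B) (hp : IsCut P E N w V B p) : p.IsPrime := by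
  let incB : B →+* V := ((B.val : B →ₐ[_root_.Fermat.Agent.A2.Mod.RE P E] _root_.Fermat.Agent.A2.Mod.FE E N) : B →+* _root_.Fermat.Agent.A2.Mod.FE E N).codRestrict V
    (fun b => hBV b b.2)
  let ρ : B →+* IsLocalRing.ResidueField V := (IsLocalRing.residue V).comp incB
  have hker : p = RingHom.ker ρ := by
    ext b
    rw [hp b, RingHom.mem_ker]
    show _ ↔ IsLocalRing.residue V (incB b) = 0
    rw [residue_eq_zero_iff hu]
    rfl
  rw [hker]
  exact RingHom.ker_isPrime ρ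

end Charts

end Fermat.Agent.A2.Mod.H372

end
end
-- ===== PACK-END A2/Mod/H372/S3Sides.lean

-- ===== PACK-BEGIN A2/Mod/H372/S3.lean
section



/-!
# A2 / MODASM sub-assembly S3 (helper372): ordinary double points

`s3_of_leaves : (leaves L4, L5, L7, L8, L11, L12 + sub-assembly S2) → S3Statement P E M q w`
(`Fermat/Agent/A2/Mod/Asm.lean`, VERBATIM).  The leaves L2 (`H553.vinfBasic`) and L13
(`H873.chartCompat`) are used directly (on main).

Proof: `H372.KronCong.sup_isRadical` applied to the restrictions `α, β : B_M → B` of the two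
degeneracy maps to the charts (`B_M` = chart of `j^{±1}` at level `M`, `B` = chart of `x^{±1}`
at level `Mq`):

* `KronCong` : L12 gives the Kronecker twist `a'` only in `V∞_M`; `GoodRedAt.normal` brings it
  back into the chart (`SideData.cong`); on `C₀` one transports by the Fricke involutions
  (L4, L5, L7);
* `α` is onto `B ⧸ p∞` : L11 + `GoodRedAt.normal` (`SideData.surj`);
* the branch `B ⧸ p∞` is a Dedekind domain : S2 (normal), `B` noetherian (L8), dimension one.
-/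

set_option autoImplicit false
set_option synthInstance.maxHeartbeats 400000
set_option maxHeartbeats 1600000
set_option linter.unusedSectionVars false
set_option linter.style.haveILetI false

noncomputable section

namespace Fermat.Agent.A2.Mod.H372

open ModularCurve HahnSeries Polynomial

variable (P : ValuationSubring _root_.Fermat.Agent.A2.Mod.Qb) (E : IntermediateField ℚ _root_.Fermat.Agent.A2.Mod.Qb) (M q : ℕ) [NeZero M] [NeZero q]
  (w : _root_.Fermat.Agent.A2.Mod.RE P E)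

/-- **S3 (ordinary double points)** from the leaves and S2. -/
theorem s3_of_leaves (hL4 : FrickeExistsStatement E) (hL5 : FrickeCompatStatement E M q)
    (hL7 : FrickeStableStatement P E M q w) (hL8 : DegStatement E M q)
    (hL11 : ResInfStatement P E M q w) (hL12 : KronStatement P E M q w)
    (hS2 : S2Statement P E M q w) : S3Statement P E M q w := by
  intro hS VM V W hVM hV hW yM y hy hgood p₁ p₂ hc₁ hc₂
  have hC := coordFacts_of_isCoordPair w hS hVM hV hW hy
  obtain ⟨WM, hWM⟩ := hL4 M hS.M_ne_zero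
  have hN := level_ne_zero w hS
  have hu := unifE w hS hN hV
  -- the restrictions of `α`, `β` to the charts
  let α' : chartAlg P E M yM →+* chartAlg P E (M * q) y :=
    ((αE E M q : _root_.Fermat.Agent.A2.Mod.FE E M →+* _root_.Fermat.Agent.A2.Mod.FE E (M * q)).comp
      ((chartAlg P E M yM).val : chartAlg P E M yM →+* _root_.Fermat.Agent.A2.Mod.FE E M)).codRestrict
      (chartAlg P E (M * q) y) (fun a => alpha_chart_mem w hC a.2)
  let β' : chartAlg P E M yM →+* chartAlg P E (M * q) y :=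
    ((βE E M q : _root_.Fermat.Agent.A2.Mod.FE E M →+* _root_.Fermat.Agent.A2.Mod.FE E (M * q)).comp
      ((chartAlg P E M yM).val : chartAlg P E M yM →+* _root_.Fermat.Agent.A2.Mod.FE E M)).codRestrict
      (chartAlg P E (M * q) y) (fun a => beta_chart_mem w hC a.2)
  have hKC : Fermat.Agent.A2.H372.KronCong q α' β' p₁ p₂ := by
    refine ⟨fun a => ?_, fun a => ?_⟩
    · obtain ⟨a', ha', h⟩ := chart_cong₁ w hS hVM hV hC hgood hL12 a a.2
      exact ⟨⟨a', ha'⟩, (hc₁ _).mpr h⟩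
    · obtain ⟨a', ha', h⟩ := chart_cong₂ w hS hVM hV hW hC hgood hL5 hL7 hL12 hWM a a.2
      exact ⟨⟨a', ha'⟩, (hc₂ _).mpr h⟩
  have hsurj := chart_surj w hS hVM hV hC hgood hL11
  have hα : ∀ b : chartAlg P E (M * q) y, ∃ a : chartAlg P E M yM, b - α' a ∈ p₁ := by
    intro b
    obtain ⟨-, a, ha, h⟩ := hsurj b b.2
    exact ⟨⟨a, ha⟩, (hc₁ _).mpr h⟩
  -- the branch is Dedekind
  haveI hp₁ : p₁.IsPrime :=
    isPrime_of_isCut w hu (chartAlg P E (M * q) y) (fun b hb => (hsurj b hb).1) p₁ hc₁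
  obtain ⟨hx, hfr, -⟩ := hL8 hS.q_prime hS.q_not_dvd
  have hpos : 0 < Module.finrank (IntermediateField.adjoin E ({xE E M q} : Set (_root_.Fermat.Agent.A2.Mod.FE E (M * q))))
      (_root_.Fermat.Agent.A2.Mod.FE E (M * q)) := by
    rw [hfr]
    have h1 := dedekindPsi_pos_of_ne_zero M hS.M_ne_zero
    positivity
  haveI hfin : FiniteDimensional (IntermediateField.adjoin E ({xE E M q} : Set (_root_.Fermat.Agent.A2.Mod.FE E (M * q))))
      (_root_.Fermat.Agent.A2.Mod.FE E (M * q)) := Module.finite_of_finrank_pos hpos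
  obtain ⟨hn₁, hn₂⟩ := isNoetherianRing_chartAlg_of_transcendental (P := P) hS.dvr (xE E M q) hx
  haveI hnoeth : IsNoetherianRing (chartAlg P E (M * q) y) := by
    rcases hy with ⟨-, rfl⟩ | ⟨-, rfl⟩
    · exact hn₁
    · exact hn₂
  haveI hic : IsIntegrallyClosed (chartAlg P E (M * q) y ⧸ p₁) :=
    (hS2 hS VM V W hVM hV hW yM y hy hgood p₁ p₂ hc₁ hc₂).1
  haveI := hS.dvr
  have hint : ∀ b : chartAlg P E (M * q) y,
      (Polynomial.eval₂RingHom (algebraMap (_root_.Fermat.Agent.A2.Mod.RE P E) (chartAlg P E (M * q) y))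
        (⟨y, self_mem_chartAlg (M * q) y⟩ : chartAlg P E (M * q) y)).IsIntegralElem b := by
    intro b
    obtain ⟨p, hp, hpb⟩ := mem_chartAlg_iff.mp b.2
    refine ⟨p, hp, Subtype.ext ?_⟩
    have hcomp : ((chartAlg P E (M * q) y).val : chartAlg P E (M * q) y →+* _root_.Fermat.Agent.A2.Mod.FE E (M * q)).comp
        (Polynomial.eval₂RingHom (algebraMap (_root_.Fermat.Agent.A2.Mod.RE P E) (chartAlg P E (M * q) y))
          (⟨y, self_mem_chartAlg (M * q) y⟩ : chartAlg P E (M * q) y)) =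
        Polynomial.eval₂RingHom (algebraMap (_root_.Fermat.Agent.A2.Mod.RE P E) (_root_.Fermat.Agent.A2.Mod.FE E (M * q))) y := by
      apply Polynomial.ringHom_ext
      · intro r
        simp only [RingHom.comp_apply, Polynomial.coe_eval₂RingHom, Polynomial.eval₂_C]
        rfl
      · simp
    have := Polynomial.hom_eval₂ p (Polynomial.eval₂RingHom (algebraMap (_root_.Fermat.Agent.A2.Mod.RE P E)
      (chartAlg P E (M * q) y)) (⟨y, self_mem_chartAlg (M * q) y⟩ : chartAlg P E (M * q) y))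
      ((chartAlg P E (M * q) y).val : chartAlg P E (M * q) y →+* _root_.Fermat.Agent.A2.Mod.FE E (M * q)) b
    rw [hcomp] at this
    rw [ZeroMemClass.coe_zero, ← hpb]
    exact this
  have hpR : ∀ r ∈ IsLocalRing.maximalIdeal (_root_.Fermat.Agent.A2.Mod.RE P E),
      algebraMap (_root_.Fermat.Agent.A2.Mod.RE P E) (chartAlg P E (M * q) y) r ∈ p₁ := by
    intro r hr
    rw [hS.unif.maximalIdeal_eq, Ideal.mem_span_singleton'] at hr
    obtain ⟨s, rfl⟩ := hr
    rw [hc₁]
    show cE P E (M * q) (s * w) * (cE P E (M * q) w)⁻¹ ∈ V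
    have hw0 := cE_ne_zero w hS (M * q)
    have e : cE P E (M * q) (s * w) * (cE P E (M * q) w)⁻¹ = cE P E (M * q) s := by
      have : cE P E (M * q) (s * w) = cE P E (M * q) s * cE P E (M * q) w :=
        _root_.map_mul (algebraMap (_root_.Fermat.Agent.A2.Mod.RE P E) (_root_.Fermat.Agent.A2.Mod.FE E (M * q))) s w
      rw [this, mul_assoc, mul_inv_cancel₀ hw0, mul_one]
    rw [e]
    exact cE_mem w hS hV s
  haveI : IsDedekindDomain (chartAlg P E (M * q) y ⧸ p₁) :=
    isDedekindDomain_quotient_of_integral _ _ hint p₁ hpR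
  exact sup_isRadical_of_quotient hS.q_prime.two_le hKC hα

end Fermat.Agent.A2.Mod.H372

end
end
-- ===== PACK-END A2/Mod/H372/S3.lean

-- ===== PACK-BEGIN A2/Mod/H553/VzeroNe.lean
section



/-!
# A2 / MOD leaf L6 `VzeroNe` (helper553)

`V₀ := V∞ ∘ W ≠ V∞` at level `Mq` over `E`: the Frobenius element `u = j_q - j^q` is a non-unit
of `V∞` (`u = q · g`, `g` integral) while `W u = j_M - j_{Mq}^q` has an integral `t`-expansion
with a coefficient `-1`, hence is a unit of `V∞`.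

* `frobE` : the element `u`;
* `inv_frobE_not_mem`, `inv_W_frobE_mem`;
* `vzeroNe : VzeroNeStatement P E M q w`  (L6).
-/

set_option autoImplicit false
set_option synthInstance.maxHeartbeats 400000
set_option maxHeartbeats 1600000
set_option linter.unusedSectionVars false
set_option linter.style.haveILetI false

noncomputable section

namespace Fermat.Agent.A2.Mod.H553

open ModularCurve HahnSeries Polynomial
open Fermat.Agent.A2 Fermat.Agent.A2.Mod

variable (P : ValuationSubring _root_.Fermat.Agent.A2.Mod.Qb) (E : IntermediateField ℚ _root_.Fermat.Agent.A2.Mod.Qb) (M q : ℕ) [NeZero M] [NeZero q]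

/-- The Frobenius element `u = j_q - j^q` of `F_{Mq,E}`. -/
def frobE : ↥(_root_.Fermat.Agent.A2.Mod.FE E (M * q)) :=
  jE E (M * q) q (dvd_mul_left q M) - jE E (M * q) 1 (one_dvd _) ^ q

/-- its integral `t`-expansion -/
theorem coe_frobE :
    ((frobE E M q : ↥(_root_.Fermat.Agent.A2.Mod.FE E (M * q))) : LaurentSeries ↥E) =
      coeffEmb (↥E) (H708.castQ (H708.jInt q - H708.jInt 1 ^ q)) := by
  rw [_root_.map_sub, _root_.map_sub, _root_.map_pow, _root_.map_pow, ← coe_jE (E := E) (M * q) q (dvd_mul_left q M),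
    ← coe_jE (E := E) (M * q) 1 (one_dvd _)]
  rfl

theorem jInt_eq_qExpand (d : ℕ) [NeZero d] : H708.jInt d = qExpand ℤ d (H708.jInt 1) := by
  show qExpand ℤ d (jqModC ℤ) = qExpand ℤ d (qExpand ℤ 1 (jqModC ℤ))
  rw [qExpand_one_apply]

/-- `u = q · g` with `g` integral. -/
theorem exists_frobE_eq [Fact q.Prime] :
    ∃ g : LaurentSeries ℤ,
      ((frobE E M q : ↥(_root_.Fermat.Agent.A2.Mod.FE E (M * q))) : LaurentSeries ↥E) =
        algebraMap (↥E) (LaurentSeries ↥E) (q : ↥E) * coeffEmb (↥E) (H708.castQ g) := by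
  obtain ⟨g, hg⟩ := H528.exists_frobCong q (H708.jInt 1)
  refine ⟨g, ?_⟩
  rw [coe_frobE, jInt_eq_qExpand q, hg, _root_.map_mul, _root_.map_mul]
  congr 1
  ext n
  simp [coeffEmb, H708.castQ, HahnSeries.coeff_single, algebraMap_laurentSeries_eq_single]

variable {P E M q}

/-- the Frobenius element is not a unit of `V∞` -/
theorem inv_frobE_not_mem [Fact q.Prime] [IsNoetherianRing ↥(_root_.Fermat.Agent.A2.Mod.RE P E)]
    (hP : P.LiesOverPrime q) {V : ValuationSubring ↥(_root_.Fermat.Agent.A2.Mod.FE E (M * q))}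
    (hV : IsVinf P E (M * q) V) (hu0 : frobE E M q ≠ 0) : (frobE E M q)⁻¹ ∉ V := by
  intro hmem
  obtain ⟨g, hg⟩ := exists_frobE_eq E M q
  have hq0 : (q : ↥E) ≠ 0 := by exact_mod_cast NeZero.ne q
  have hqF : algebraMap ↥E ↥(_root_.Fermat.Agent.A2.Mod.FE E (M * q)) (q : ↥E) ≠ 0 :=
    (_root_.map_ne_zero_iff _ (algebraMap ↥E ↥(_root_.Fermat.Agent.A2.Mod.FE E (M * q))).injective).mpr hq0
  -- `g' := u / q` has integral expansion `g`
  set g' : ↥(_root_.Fermat.Agent.A2.Mod.FE E (M * q)) := (algebraMap ↥E ↥(_root_.Fermat.Agent.A2.Mod.FE E (M * q)) (q : ↥E))⁻¹ * frobE E M q with hg'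
  have hcoe : ((g' : ↥(_root_.Fermat.Agent.A2.Mod.FE E (M * q))) : LaurentSeries ↥E) = coeffEmb (↥E) (H708.castQ g) := by
    have hqS : algebraMap (↥E) (LaurentSeries ↥E) (q : ↥E) ≠ 0 :=
      (_root_.map_ne_zero_iff _ (algebraMap (↥E) (LaurentSeries ↥E)).injective).mpr hq0
    have h1 : ((g' : ↥(_root_.Fermat.Agent.A2.Mod.FE E (M * q))) : LaurentSeries ↥E) =
        (algebraMap (↥E) (LaurentSeries ↥E) (q : ↥E))⁻¹ *
          ((frobE E M q : ↥(_root_.Fermat.Agent.A2.Mod.FE E (M * q))) : LaurentSeries ↥E) := by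
      rw [hg', IntermediateField.coe_mul, IntermediateField.coe_inv]
      rfl
    rw [h1, hg, ← mul_assoc, inv_mul_cancel₀ hqS, one_mul]
  have hg'V : g' ∈ V := mem_of_int hV hcoe
  have hkey : (algebraMap ↥E ↥(_root_.Fermat.Agent.A2.Mod.FE E (M * q)) (q : ↥E))⁻¹ = g' * (frobE E M q)⁻¹ := by
    rw [hg', mul_assoc, mul_inv_cancel₀ hu0, mul_one]
  have h2 : (algebraMap ↥E ↥(_root_.Fermat.Agent.A2.Mod.FE E (M * q)) (q : ↥E))⁻¹ ∈ V := by
    rw [hkey]
    exact V.mul_mem _ _ hg'V hmem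
  have h3 : (algebraMap ↥E ↥(_root_.Fermat.Agent.A2.Mod.FE E (M * q)) (q : ↥E))⁻¹ =
      algebraMap ↥E ↥(_root_.Fermat.Agent.A2.Mod.FE E (M * q)) ((q : ↥E)⁻¹) := (map_inv₀ _ _).symm
  rw [h3] at h2
  have h4 : ((q : ↥E)⁻¹) ∈ _root_.Fermat.Agent.A2.Mod.RE P E := (algebraMap_mem_iff P E hV _).mp h2
  have h5 : ((q : _root_.Fermat.Agent.A2.Mod.Qb)⁻¹) ∈ P := by
    have : (((q : ↥E)⁻¹ : ↥E) : _root_.Fermat.Agent.A2.Mod.Qb) ∈ P := h4
    simpa using this
  have h6 : (q : _root_.Fermat.Agent.A2.Mod.Qb) ∈ P.nonunits := hP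
  rw [ValuationSubring.mem_nonunits_iff] at h6
  have h7 : P.valuation ((q : _root_.Fermat.Agent.A2.Mod.Qb)⁻¹) ≤ 1 := (P.valuation_le_one_iff _).mpr h5
  rw [map_inv₀] at h7
  have hq0' : P.valuation (q : _root_.Fermat.Agent.A2.Mod.Qb) ≠ 0 := by
    rw [Valuation.ne_zero_iff]
    exact_mod_cast NeZero.ne q
  have h8 : 1 ≤ P.valuation (q : _root_.Fermat.Agent.A2.Mod.Qb) := (inv_le_one₀ (zero_lt_iff.mpr hq0')).mp h7
  exact absurd h6 (not_lt.mpr h8)

/-- the expansion of `W u = j_M - j_{Mq}^q` -/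
theorem coe_W_frobE {W : ↥(_root_.Fermat.Agent.A2.Mod.FE E (M * q)) ≃ₐ[↥E] ↥(_root_.Fermat.Agent.A2.Mod.FE E (M * q))}
    (hW : IsFricke E (M * q) W) :
    haveI : NeZero (M * q) := ⟨mul_ne_zero (NeZero.ne M) (NeZero.ne q)⟩
    ((W (frobE E M q) : ↥(_root_.Fermat.Agent.A2.Mod.FE E (M * q))) : LaurentSeries ↥E) =
      coeffEmb (↥E) (H708.castQ (H708.jInt M - H708.jInt (M * q) ^ q)) := by
  haveI : NeZero (M * q) := ⟨mul_ne_zero (NeZero.ne M) (NeZero.ne q)⟩
  have h1 : W (frobE E M q) =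
      jE E (M * q) M (dvd_mul_right M q) - jE E (M * q) (M * q) dvd_rfl ^ q := by
    rw [frobE, _root_.map_sub, _root_.map_pow,
      hW.1 q M (dvd_mul_left q M) (dvd_mul_right M q) (mul_comm q M),
      hW.1 1 (M * q) (one_dvd _) dvd_rfl (one_mul _)]
  rw [h1, _root_.map_sub, _root_.map_sub, _root_.map_pow, _root_.map_pow, ← coe_jE (E := E) (M * q) M (dvd_mul_right M q),
    ← coe_jE (E := E) (M * q) (M * q) dvd_rfl]
  rfl

theorem coeff_W_frob [Fact q.Prime] :
    haveI : NeZero (M * q) := ⟨mul_ne_zero (NeZero.ne M) (NeZero.ne q)⟩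
    (H708.jInt M - H708.jInt (M * q) ^ q).coeff (-((M * q * q : ℕ) : ℤ)) = -1 := by
  haveI : NeZero (M * q) := ⟨mul_ne_zero (NeZero.ne M) (NeZero.ne q)⟩
  have hM : 0 < M := Nat.pos_of_ne_zero (NeZero.ne M)
  have hq1 : 1 < q := (Fact.out : q.Prime).one_lt
  have e1 : H708.jInt M = H528.jZ M := rfl
  have e2 : H708.jInt (M * q) = H528.jZ (M * q) := rfl
  rw [HahnSeries.coeff_sub, e1, e2, H528.coeff_jZ_pow_top, H528.coeff_jZ_of_lt, zero_sub]
  have h2 : M < M * q * q := by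
    calc M = M * 1 * 1 := by ring
      _ < M * q * q := by
        have : 1 * 1 < q * q := Nat.mul_lt_mul'' hq1 hq1
        nlinarith
  have h3 : ((M : ℕ) : ℤ) < ((M * q * q : ℕ) : ℤ) := by exact_mod_cast h2
  linarith

/-- `W u` is a unit of `V∞` -/
theorem inv_W_frobE_mem [Fact q.Prime] {V : ValuationSubring ↥(_root_.Fermat.Agent.A2.Mod.FE E (M * q))}
    (hV : IsVinf P E (M * q) V) {W : ↥(_root_.Fermat.Agent.A2.Mod.FE E (M * q)) ≃ₐ[↥E] ↥(_root_.Fermat.Agent.A2.Mod.FE E (M * q))}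
    (hW : IsFricke E (M * q) W) : (W (frobE E M q))⁻¹ ∈ V :=
  inv_mem_of_int hV (coe_W_frobE hW) (Or.inr coeff_W_frob)

theorem coeff_coeffEmb_castQ (x : LaurentSeries ℤ) (k : ℤ) :
    (coeffEmb (↥E) (H708.castQ x)).coeff k = ((x.coeff k : ℤ) : ↥E) := by
  show algebraMap ℚ (↥E) ((Int.castRingHom ℚ) (x.coeff k)) = _
  simp

theorem W_frobE_ne_zero [Fact q.Prime] {W : ↥(_root_.Fermat.Agent.A2.Mod.FE E (M * q)) ≃ₐ[↥E] ↥(_root_.Fermat.Agent.A2.Mod.FE E (M * q))}
    (hW : IsFricke E (M * q) W) : W (frobE E M q) ≠ 0 := by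
  haveI : NeZero (M * q) := ⟨mul_ne_zero (NeZero.ne M) (NeZero.ne q)⟩
  intro h0
  have h1 := coe_W_frobE (E := E) (M := M) (q := q) hW
  rw [h0] at h1
  have h2 := congrArg (fun s : LaurentSeries ↥E => s.coeff (-((M * q * q : ℕ) : ℤ))) h1
  simp only [ZeroMemClass.coe_zero, HahnSeries.coeff_zero] at h2
  rw [coeff_coeffEmb_castQ, coeff_W_frob] at h2
  have : ((-1 : ℤ) : ↥E) ≠ 0 := by simp
  exact this h2.symm

variable (P E M q)

/-- **L6.** -/
theorem vzeroNe (w : _root_.Fermat.Agent.A2.Mod.RE P E) : VzeroNeStatement P E M q w := by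
  intro hS V W hV hW heq
  haveI : Fact q.Prime := ⟨hS.q_prime⟩
  haveI := hS.dvr
  have hWu0 : W (frobE E M q) ≠ 0 := W_frobE_ne_zero hW
  have hu0 : frobE E M q ≠ 0 := fun h0 => hWu0 (by rw [h0, _root_.map_zero])
  have h1 : (frobE E M q)⁻¹ ∈ V.comap (W : ↥(_root_.Fermat.Agent.A2.Mod.FE E (M * q)) →+* ↥(_root_.Fermat.Agent.A2.Mod.FE E (M * q))) := by
    show W ((frobE E M q)⁻¹) ∈ V
    rw [map_inv₀]
    exact inv_W_frobE_mem hV hW
  rw [heq] at h1
  exact inv_frobE_not_mem hS.lies_over hV hu0 h1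

end Fermat.Agent.A2.Mod.H553

end
end
-- ===== PACK-END A2/Mod/H553/VzeroNe.lean

-- ===== PACK-BEGIN A2/Mod/H553/Fricke.lean
section




/-!
# A2 / MOD leaves L4 `FrickeExists`, L5 `FrickeCompat` (helper553)

* `ringHom_ext_FE` : two ring homomorphisms out of `F_{N,E} = E(j_d : d ∣ N)` which agree on the
  constants `E` and on the generators `j_d` are equal;
* `wE E N : FE E N ≃ₐ[E] FE E N` : the Fricke involution over `E`, the restriction of
  `H528.wF N` along `ι : F_{N,E} → F̄_N` (`iota_wE`);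
* `frickeExists : FrickeExistsStatement E`  (L4);
* `frickeCompat : FrickeCompatStatement E M q`  (L5);
* `IsFricke` determines `W` (`isFricke_unique`).
-/

set_option autoImplicit false
set_option synthInstance.maxHeartbeats 400000
set_option maxHeartbeats 1600000
set_option linter.unusedSectionVars false
set_option linter.style.haveILetI false

noncomputable section

namespace Fermat.Agent.A2.Mod.H553

open ModularCurve HahnSeries Polynomial IntermediateField
open Fermat.Agent.A2 Fermat.Agent.A2.Mod Fermat.Agent.S18.H602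

variable (E : IntermediateField ℚ _root_.Fermat.Agent.A2.Mod.Qb)

/-! ### Extensionality for ring homomorphisms out of `F_{N,E}` -/

theorem coeffEmb_algebraMap_rat (c : ℚ) :
    coeffEmb (↥E) (algebraMap ℚ (LaurentSeries ℚ) c) =
      algebraMap (↥E) (LaurentSeries ↥E) (algebraMap ℚ (↥E) c) := by
  rw [algebraMap_apply_eq_single, algebraMap_laurentSeries_eq_single, coeffEmb,
    coeffMap_single]

/-- Two ring homomorphisms out of `F_{N,E}` agreeing on `E` and on the `j_d`, `d ∣ N`, agree. -/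
theorem ringHom_ext_FE {N : ℕ} {K : Type*} [DivisionRing K] (φ ψ : ↥(_root_.Fermat.Agent.A2.Mod.FE E N) →+* K)
    (hE : ∀ e : ↥E, φ (algebraMap ↥E ↥(_root_.Fermat.Agent.A2.Mod.FE E N) e) = ψ (algebraMap ↥E ↥(_root_.Fermat.Agent.A2.Mod.FE E N) e))
    (hj : ∀ (d : ℕ) [NeZero d] (hd : d ∣ N), φ (jE E N d hd) = ψ (jE E N d hd)) :
    φ = ψ := by
  -- first: the rational functions
  have hrat : ∀ z ∈ modularFunctionFieldFull N, ∀ hz' : coeffEmb (↥E) z ∈ _root_.Fermat.Agent.A2.Mod.FE E N,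
      φ ⟨coeffEmb (↥E) z, hz'⟩ = ψ ⟨coeffEmb (↥E) z, hz'⟩ := by
    intro z₀ hz₀
    have hz0 : z₀ ∈ IntermediateField.adjoin ℚ (divisorExpansions N) := hz₀
    clear hz₀
    induction hz0 using IntermediateField.adjoin_induction with
    | mem y hy =>
        intro hz'
        obtain ⟨d, hne, hd, rfl⟩ := hy
        haveI := hne
        exact hj d hd
    | algebraMap c =>
        intro hz'
        have h1 : (⟨coeffEmb (↥E) (algebraMap ℚ (LaurentSeries ℚ) c), hz'⟩ : ↥(_root_.Fermat.Agent.A2.Mod.FE E N))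
            = algebraMap ↥E ↥(_root_.Fermat.Agent.A2.Mod.FE E N) (algebraMap ℚ ↥E c) :=
          Subtype.ext (coeffEmb_algebraMap_rat E c)
        rw [h1]
        exact hE _
    | add y z hy hz ihy ihz =>
        intro hz'
        have hy' := coeffEmb_mem_laurentBaseChange (↥E) (F₀ := modularFunctionFieldFull N) hy
        have hz'' := coeffEmb_mem_laurentBaseChange (↥E) (F₀ := modularFunctionFieldFull N) hz
        have h1 : (⟨coeffEmb (↥E) (y + z), hz'⟩ : ↥(_root_.Fermat.Agent.A2.Mod.FE E N))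
            = ⟨coeffEmb (↥E) y, hy'⟩ + ⟨coeffEmb (↥E) z, hz''⟩ := Subtype.ext (_root_.map_add _ _ _)
        rw [h1, _root_.map_add, _root_.map_add, ihy hy', ihz hz'']
    | inv y hy ihy =>
        intro hz'
        have hy' := coeffEmb_mem_laurentBaseChange (↥E) (F₀ := modularFunctionFieldFull N) hy
        have h1 : (⟨coeffEmb (↥E) (y⁻¹), hz'⟩ : ↥(_root_.Fermat.Agent.A2.Mod.FE E N))
            = (⟨coeffEmb (↥E) y, hy'⟩ : ↥(_root_.Fermat.Agent.A2.Mod.FE E N))⁻¹ := Subtype.ext (map_inv₀ _ _)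
        rw [h1, map_inv₀, map_inv₀, ihy hy']
    | mul y z hy hz ihy ihz =>
        intro hz'
        have hy' := coeffEmb_mem_laurentBaseChange (↥E) (F₀ := modularFunctionFieldFull N) hy
        have hz'' := coeffEmb_mem_laurentBaseChange (↥E) (F₀ := modularFunctionFieldFull N) hz
        have h1 : (⟨coeffEmb (↥E) (y * z), hz'⟩ : ↥(_root_.Fermat.Agent.A2.Mod.FE E N))
            = ⟨coeffEmb (↥E) y, hy'⟩ * ⟨coeffEmb (↥E) z, hz''⟩ := Subtype.ext (_root_.map_mul _ _ _)
        rw [h1, _root_.map_mul, _root_.map_mul, ihy hy', ihz hz'']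
  have key : ∀ (x : LaurentSeries ↥E) (hx : x ∈ _root_.Fermat.Agent.A2.Mod.FE E N), φ ⟨x, hx⟩ = ψ ⟨x, hx⟩ := by
    intro x hx
    have hx0 : x ∈ IntermediateField.adjoin (↥E)
        (⇑(coeffEmb ↥E) '' (modularFunctionFieldFull N : Set (LaurentSeries ℚ))) := hx
    suffices h : ∀ hx' : x ∈ _root_.Fermat.Agent.A2.Mod.FE E N, φ ⟨x, hx'⟩ = ψ ⟨x, hx'⟩ from h hx
    clear hx
    induction hx0 using IntermediateField.adjoin_induction with
    | mem y hy =>
        intro hx'
        obtain ⟨z, hz, rfl⟩ := hy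
        exact hrat z hz hx'
    | algebraMap c =>
        intro hx'
        exact hE c
    | add y z hy hz ihy ihz =>
        intro hx'
        have h1 : (⟨y + z, hx'⟩ : ↥(_root_.Fermat.Agent.A2.Mod.FE E N)) = ⟨y, hy⟩ + ⟨z, hz⟩ := rfl
        rw [h1, _root_.map_add, _root_.map_add, ihy hy, ihz hz]
    | inv y hy ihy =>
        intro hx'
        have h1 : (⟨y⁻¹, hx'⟩ : ↥(_root_.Fermat.Agent.A2.Mod.FE E N)) = (⟨y, hy⟩ : ↥(_root_.Fermat.Agent.A2.Mod.FE E N))⁻¹ := rfl
        rw [h1, map_inv₀, map_inv₀, ihy hy]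
    | mul y z hy hz ihy ihz =>
        intro hx'
        have h1 : (⟨y * z, hx'⟩ : ↥(_root_.Fermat.Agent.A2.Mod.FE E N)) = ⟨y, hy⟩ * ⟨z, hz⟩ := rfl
        rw [h1, _root_.map_mul, _root_.map_mul, ihy hy, ihz hz]
  exact RingHom.ext fun f => key f.1 f.2

/-! ### The Fricke involution over `E` -/

section Fricke

variable (N : ℕ) [NeZero N]

/-- the comparison map `F_{N,E} → F̄_N` -/
abbrev iotaN : ↥(_root_.Fermat.Agent.A2.Mod.FE E N) →+* ↥(modularFunctionFieldBar N) :=
  T1.H849.iota E (modularFunctionFieldFull N)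

theorem iotaN_injective : Function.Injective (iotaN E N) := (iotaN E N).injective

theorem iotaN_algebraMap (e : ↥E) :
    iotaN E N (algebraMap ↥E ↥(_root_.Fermat.Agent.A2.Mod.FE E N) e) =
      algebraMap _root_.Fermat.Agent.A2.Mod.Qb ↥(modularFunctionFieldBar N) (e : _root_.Fermat.Agent.A2.Mod.Qb) :=
  T1.H849.iota_algebraMap E (modularFunctionFieldFull N) e

theorem iotaN_jE (d : ℕ) [NeZero d] (hd : d ∣ N) :
    iotaN E N (jE E N d hd) = H528.jFd N d hd := by
  apply Subtype.ext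
  show coeffMap (algebraMap ↥E _root_.Fermat.Agent.A2.Mod.Qb) (coeffEmb (↥E) (qExpand ℚ d jq)) = _
  rw [coeffMap_coeffEmb']
  rfl

/-- `w_N` preserves `F_{N,E}`. -/
theorem exists_iota_eq_wF (f : ↥(_root_.Fermat.Agent.A2.Mod.FE E N)) :
    ∃ g : ↥(_root_.Fermat.Agent.A2.Mod.FE E N), iotaN E N g = H528.wF N (iotaN E N f) := by
  obtain ⟨x, hx⟩ := f
  have hx0 : x ∈ IntermediateField.adjoin (↥E)
      (⇑(coeffEmb ↥E) '' (modularFunctionFieldFull N : Set (LaurentSeries ℚ))) := hx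
  suffices h : ∀ hx' : x ∈ _root_.Fermat.Agent.A2.Mod.FE E N,
      ∃ g : ↥(_root_.Fermat.Agent.A2.Mod.FE E N), iotaN E N g = H528.wF N (iotaN E N ⟨x, hx'⟩) from h hx
  clear hx
  induction hx0 using IntermediateField.adjoin_induction with
  | mem y hy =>
      intro hx'
      obtain ⟨z, hz, rfl⟩ := hy
      obtain ⟨y', hy', hy''⟩ := H528.wF_rat N hz
      refine ⟨⟨coeffEmb (↥E) y', coeffEmb_mem_laurentBaseChange (↥E) hy'⟩, Subtype.ext ?_⟩
      have h1 : iotaN E N ⟨coeffEmb (↥E) z, hx'⟩ =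
          ⟨coeffEmb _root_.Fermat.Agent.A2.Mod.Qb z, coeffEmb_mem_laurentBaseChange _root_.Fermat.Agent.A2.Mod.Qb hz⟩ :=
        Subtype.ext (coeffMap_coeffEmb' _ z)
      rw [h1, hy'']
      exact coeffMap_coeffEmb' _ y'
  | algebraMap c =>
      intro hx'
      refine ⟨algebraMap ↥E ↥(_root_.Fermat.Agent.A2.Mod.FE E N) c, ?_⟩
      have h1 : (⟨algebraMap (↥E) (LaurentSeries ↥E) c, hx'⟩ : ↥(_root_.Fermat.Agent.A2.Mod.FE E N)) =
          algebraMap ↥E ↥(_root_.Fermat.Agent.A2.Mod.FE E N) c := rfl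
      rw [h1, iotaN_algebraMap, AlgEquiv.commutes]
  | add y z hy hz ihy ihz =>
      intro hx'
      obtain ⟨a, ha⟩ := ihy hy
      obtain ⟨b, hb⟩ := ihz hz
      refine ⟨a + b, ?_⟩
      have h1 : (⟨y + z, hx'⟩ : ↥(_root_.Fermat.Agent.A2.Mod.FE E N)) = ⟨y, hy⟩ + ⟨z, hz⟩ := rfl
      rw [h1, _root_.map_add, _root_.map_add, _root_.map_add, ha, hb]
  | inv y hy ihy =>
      intro hx'
      obtain ⟨a, ha⟩ := ihy hy
      refine ⟨a⁻¹, ?_⟩
      have h1 : (⟨y⁻¹, hx'⟩ : ↥(_root_.Fermat.Agent.A2.Mod.FE E N)) = (⟨y, hy⟩ : ↥(_root_.Fermat.Agent.A2.Mod.FE E N))⁻¹ := rfl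
      rw [h1, map_inv₀, map_inv₀, map_inv₀, ha]
  | mul y z hy hz ihy ihz =>
      intro hx'
      obtain ⟨a, ha⟩ := ihy hy
      obtain ⟨b, hb⟩ := ihz hz
      refine ⟨a * b, ?_⟩
      have h1 : (⟨y * z, hx'⟩ : ↥(_root_.Fermat.Agent.A2.Mod.FE E N)) = ⟨y, hy⟩ * ⟨z, hz⟩ := rfl
      rw [h1, _root_.map_mul, _root_.map_mul, _root_.map_mul, ha, hb]

/-- the Fricke involution over `E`, as a function -/
def wEFun (f : ↥(_root_.Fermat.Agent.A2.Mod.FE E N)) : ↥(_root_.Fermat.Agent.A2.Mod.FE E N) := (exists_iota_eq_wF E N f).choose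

theorem iota_wEFun (f : ↥(_root_.Fermat.Agent.A2.Mod.FE E N)) :
    iotaN E N (wEFun E N f) = H528.wF N (iotaN E N f) :=
  (exists_iota_eq_wF E N f).choose_spec

/-- the Fricke involution over `E`, as a ring homomorphism -/
def wEHom : ↥(_root_.Fermat.Agent.A2.Mod.FE E N) →+* ↥(_root_.Fermat.Agent.A2.Mod.FE E N) where
  toFun := wEFun E N
  map_one' := iotaN_injective E N (by rw [iota_wEFun, _root_.map_one, _root_.map_one])
  map_mul' a b := iotaN_injective E N (by
    rw [iota_wEFun, _root_.map_mul, _root_.map_mul, _root_.map_mul, iota_wEFun, iota_wEFun])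
  map_zero' := iotaN_injective E N (by rw [iota_wEFun, _root_.map_zero, _root_.map_zero])
  map_add' a b := iotaN_injective E N (by
    rw [iota_wEFun, _root_.map_add, _root_.map_add, _root_.map_add, iota_wEFun, iota_wEFun])

theorem iota_wEHom (f : ↥(_root_.Fermat.Agent.A2.Mod.FE E N)) :
    iotaN E N (wEHom E N f) = H528.wF N (iotaN E N f) := iota_wEFun E N f

theorem wEHom_wEHom (f : ↥(_root_.Fermat.Agent.A2.Mod.FE E N)) : wEHom E N (wEHom E N f) = f :=
  iotaN_injective E N (by rw [iota_wEHom, iota_wEHom, H528.wF_wF])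

theorem wEHom_algebraMap (e : ↥E) :
    wEHom E N (algebraMap ↥E ↥(_root_.Fermat.Agent.A2.Mod.FE E N) e) = algebraMap ↥E ↥(_root_.Fermat.Agent.A2.Mod.FE E N) e :=
  iotaN_injective E N (by rw [iota_wEHom, iotaN_algebraMap, AlgEquiv.commutes])

/-- **The Fricke involution `w_N` of `F_{N,E}` over `E`.** -/
def wE : ↥(_root_.Fermat.Agent.A2.Mod.FE E N) ≃ₐ[↥E] ↥(_root_.Fermat.Agent.A2.Mod.FE E N) :=
  AlgEquiv.ofAlgHom
    { toRingHom := wEHom E N, commutes' := wEHom_algebraMap E N }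
    { toRingHom := wEHom E N, commutes' := wEHom_algebraMap E N }
    (AlgHom.ext fun f => wEHom_wEHom E N f)
    (AlgHom.ext fun f => wEHom_wEHom E N f)

theorem wE_apply (f : ↥(_root_.Fermat.Agent.A2.Mod.FE E N)) : wE E N f = wEHom E N f := rfl

/-- `ι ∘ w_{N,E} = w_N ∘ ι`. -/
theorem iota_wE (f : ↥(_root_.Fermat.Agent.A2.Mod.FE E N)) :
    iotaN E N (wE E N f) = H528.wF N (iotaN E N f) := iota_wEHom E N f

theorem wE_jE (d d' : ℕ) [NeZero d] [NeZero d'] (hd : d ∣ N) (hd' : d' ∣ N) (h : d * d' = N) :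
    wE E N (jE E N d hd) = jE E N d' hd' := by
  apply iotaN_injective E N
  rw [iota_wE, iotaN_jE, iotaN_jE, H528.wF_jFd]
  have hd0 : 0 < d := Nat.pos_of_ne_zero (NeZero.ne d)
  have hdiv : N / d = d' := by
    rw [← h]
    exact Nat.mul_div_cancel_left d' hd0
  haveI := H528.neZero_div N hd
  exact H528.jFd_congr N (Nat.div_dvd_of_dvd hd) hd' hdiv

theorem isFricke_wE : IsFricke E N (wE E N) :=
  ⟨fun d d' _ _ hd hd' h => wE_jE E N d d' hd hd' h, fun f => wEHom_wEHom E N f⟩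

end Fricke

/-- **L4.** -/
theorem frickeExists : FrickeExistsStatement E := by
  intro N hN
  haveI : NeZero N := ⟨hN⟩
  exact ⟨wE E N, isFricke_wE E N⟩

/-- `IsFricke` determines the involution. -/
theorem isFricke_unique {N : ℕ} (hN : N ≠ 0) {W W' : ↥(_root_.Fermat.Agent.A2.Mod.FE E N) ≃ₐ[↥E] ↥(_root_.Fermat.Agent.A2.Mod.FE E N)}
    (hW : IsFricke E N W) (hW' : IsFricke E N W') : W = W' := by
  have h : (W : ↥(_root_.Fermat.Agent.A2.Mod.FE E N) →+* ↥(_root_.Fermat.Agent.A2.Mod.FE E N)) = (W' : ↥(_root_.Fermat.Agent.A2.Mod.FE E N) →+* ↥(_root_.Fermat.Agent.A2.Mod.FE E N)) := by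
    refine ringHom_ext_FE E _ _ (fun e => ?_) (fun d _ hd => ?_)
    · show W (algebraMap ↥E ↥(_root_.Fermat.Agent.A2.Mod.FE E N) e) = W' (algebraMap ↥E ↥(_root_.Fermat.Agent.A2.Mod.FE E N) e)
      rw [AlgEquiv.commutes, AlgEquiv.commutes]
    · show W (jE E N d hd) = W' (jE E N d hd)
      have hd0 : 0 < d := Nat.pos_of_ne_zero (NeZero.ne d)
      haveI : NeZero (N / d) := ⟨by
        intro h0
        rcases (Nat.div_eq_zero_iff).mp h0 with h1 | h1
        · exact (NeZero.ne d) h1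
        · exact absurd (Nat.le_of_dvd (Nat.pos_of_ne_zero hN) hd) (not_le.mpr h1)⟩
      rw [hW.1 d (N / d) hd (Nat.div_dvd_of_dvd hd) (Nat.mul_div_cancel' hd),
        hW'.1 d (N / d) hd (Nat.div_dvd_of_dvd hd) (Nat.mul_div_cancel' hd)]
  exact AlgEquiv.ext fun f => congrArg (fun φ : ↥(_root_.Fermat.Agent.A2.Mod.FE E N) →+* ↥(_root_.Fermat.Agent.A2.Mod.FE E N) => φ f) h

/-! ### L5: compatibility with the degeneracy maps -/

section Compat

variable (M q : ℕ) [NeZero M] [NeZero q]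

theorem αE_jE (d : ℕ) [NeZero d] (hd : d ∣ M) :
    αE E M q (jE E M d hd) = jE E (M * q) d (hd.trans (dvd_mul_right M q)) :=
  Subtype.ext rfl

theorem βE_jE (d : ℕ) [NeZero d] (hd : d ∣ M) :
    haveI : NeZero (d * q) := ⟨mul_ne_zero (NeZero.ne d) (NeZero.ne q)⟩
    βE E M q (jE E M d hd) = jE E (M * q) (d * q) (mul_dvd_mul_right hd q) := by
  haveI : NeZero (d * q) := ⟨mul_ne_zero (NeZero.ne d) (NeZero.ne q)⟩
  apply Subtype.ext
  show qExpand (↥E) q (coeffEmb (↥E) (qExpand ℚ d jq)) = coeffEmb (↥E) (qExpand ℚ (d * q) jq)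
  rw [coeffEmb, ← coeffMap_qExpand, qExpand_qExpand]
  congr 1
  exact qExpand_congr (mul_comm q d) jq

/-- **L5.** -/
theorem frickeCompat : FrickeCompatStatement E M q := by
  intro WM WN hWM hWN
  have hM0 : M ≠ 0 := NeZero.ne M
  have hq0 : q ≠ 0 := NeZero.ne q
  -- the two identities as equalities of ring homomorphisms
  have h1 : ((WN : ↥(_root_.Fermat.Agent.A2.Mod.FE E (M * q)) →+* ↥(_root_.Fermat.Agent.A2.Mod.FE E (M * q))).comp
      (αE E M q : ↥(_root_.Fermat.Agent.A2.Mod.FE E M) →+* ↥(_root_.Fermat.Agent.A2.Mod.FE E (M * q)))) =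
      ((βE E M q : ↥(_root_.Fermat.Agent.A2.Mod.FE E M) →+* ↥(_root_.Fermat.Agent.A2.Mod.FE E (M * q))).comp
        (WM : ↥(_root_.Fermat.Agent.A2.Mod.FE E M) →+* ↥(_root_.Fermat.Agent.A2.Mod.FE E M))) := by
    refine ringHom_ext_FE E _ _ (fun e => ?_) (fun d _ hd => ?_)
    · show WN (αE E M q (algebraMap ↥E ↥(_root_.Fermat.Agent.A2.Mod.FE E M) e)) = βE E M q (WM (algebraMap ↥E ↥(_root_.Fermat.Agent.A2.Mod.FE E M) e))
      rw [AlgHom.commutes, AlgEquiv.commutes, AlgEquiv.commutes, AlgHom.commutes]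
    · show WN (αE E M q (jE E M d hd)) = βE E M q (WM (jE E M d hd))
      have hd0 : d ≠ 0 := NeZero.ne d
      haveI hMd : NeZero (M / d) := ⟨by
        intro h0
        rcases (Nat.div_eq_zero_iff).mp h0 with h1 | h1
        · exact hd0 h1
        · exact absurd (Nat.le_of_dvd (Nat.pos_of_ne_zero hM0) hd) (not_le.mpr h1)⟩
      haveI : NeZero (M / d * q) := ⟨mul_ne_zero (NeZero.ne (M / d)) hq0⟩
      rw [αE_jE, hWM.1 d (M / d) hd (Nat.div_dvd_of_dvd hd) (Nat.mul_div_cancel' hd), βE_jE]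
      refine hWN.1 d (M / d * q) _ _ ?_
      rw [← mul_assoc, Nat.mul_div_cancel' hd]
  have h2 : ((WN : ↥(_root_.Fermat.Agent.A2.Mod.FE E (M * q)) →+* ↥(_root_.Fermat.Agent.A2.Mod.FE E (M * q))).comp
      (βE E M q : ↥(_root_.Fermat.Agent.A2.Mod.FE E M) →+* ↥(_root_.Fermat.Agent.A2.Mod.FE E (M * q)))) =
      ((αE E M q : ↥(_root_.Fermat.Agent.A2.Mod.FE E M) →+* ↥(_root_.Fermat.Agent.A2.Mod.FE E (M * q))).comp
        (WM : ↥(_root_.Fermat.Agent.A2.Mod.FE E M) →+* ↥(_root_.Fermat.Agent.A2.Mod.FE E M))) := by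
    refine ringHom_ext_FE E _ _ (fun e => ?_) (fun d _ hd => ?_)
    · show WN (βE E M q (algebraMap ↥E ↥(_root_.Fermat.Agent.A2.Mod.FE E M) e)) = αE E M q (WM (algebraMap ↥E ↥(_root_.Fermat.Agent.A2.Mod.FE E M) e))
      rw [AlgHom.commutes, AlgEquiv.commutes, AlgEquiv.commutes, AlgHom.commutes]
    · show WN (βE E M q (jE E M d hd)) = αE E M q (WM (jE E M d hd))
      have hd0 : d ≠ 0 := NeZero.ne d
      haveI hMd : NeZero (M / d) := ⟨by
        intro h0
        rcases (Nat.div_eq_zero_iff).mp h0 with h1 | h1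
        · exact hd0 h1
        · exact absurd (Nat.le_of_dvd (Nat.pos_of_ne_zero hM0) hd) (not_le.mpr h1)⟩
      haveI : NeZero (d * q) := ⟨mul_ne_zero hd0 hq0⟩
      rw [βE_jE, hWM.1 d (M / d) hd (Nat.div_dvd_of_dvd hd) (Nat.mul_div_cancel' hd), αE_jE]
      refine hWN.1 (d * q) (M / d) _ _ ?_
      rw [mul_assoc, mul_comm q, ← mul_assoc, Nat.mul_div_cancel' hd]
  intro f
  exact ⟨congrArg (fun φ : ↥(_root_.Fermat.Agent.A2.Mod.FE E M) →+* ↥(_root_.Fermat.Agent.A2.Mod.FE E (M * q)) => φ f) h1,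
    congrArg (fun φ : ↥(_root_.Fermat.Agent.A2.Mod.FE E M) →+* ↥(_root_.Fermat.Agent.A2.Mod.FE E (M * q)) => φ f) h2⟩

end Compat

end Fermat.Agent.A2.Mod.H553

end
end
-- ===== PACK-END A2/Mod/H553/Fricke.lean

-- ===== PACK-BEGIN A2/Mod/H732/S4.lean
section









/-!
# WALL A2 / MODASM S4 (helper732): `Mod.S4Statement`, UNCONDITIONAL

`s4 : S4Statement P E M q w` (`Fermat/Agent/A2/Mod/Asm.lean`, VERBATIM): the coordinate
`x = j · j_q` (resp. `x⁻¹`) is a separating coordinate (`Spec.SepCoord`) of the chart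
`chartAlg x` (resp. `chartAlg x⁻¹`) of level `M q`.

Proof: `sepCoord_of_gauss` (`SepCoord.lean`) for `V₁ = V∞`, `V₂ = V₀ = V∞ ∘ W` with the data of
S1 (leaves L1, L2, L4, L6, L8, L9, L10, all on main) + the elementwise separability of the two
residue extensions, from `exists_sep_poly_of_graph` (`SepRed.lean`) applied to the reduction
relation `redRel` of `V∞` (`(f, f̄)` with `f U₂ = U₁`, `f̄ Ū₂ = Ū₁`, `U₂` primitive) resp. its
pull-back along `W`: the reductions of `x` and `W x` are polar of orders `q + 1` and `M (q + 1)`,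
prime to `q`, so `dx̄/dt ≠ 0`, and the residue field of `R_E` is perfect.
-/

set_option autoImplicit false
set_option linter.unusedSectionVars false
set_option linter.style.haveILetI false
set_option synthInstance.maxHeartbeats 400000
set_option maxHeartbeats 1600000

noncomputable section

namespace Fermat.Agent.A2.Mod.H732

open ModularCurve HahnSeries Polynomial IsLocalRing
open Fermat.Agent.A2 Fermat.Agent.A2.Mod

/-! ### generalities -/

section General

theorem dq_inv_ne_zero {k : Type*} [Field k] {x : LaurentSeries k}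
    (h : Fermat.Agent.S18.H602.dq x ≠ 0) : Fermat.Agent.S18.H602.dq x⁻¹ ≠ 0 := by
  have hx0 : x ≠ 0 := by
    rintro rfl
    apply h
    have := Fermat.Agent.S18.H602.dq_C (0 : k)
    rwa [_root_.map_zero] at this
  have h1 : Fermat.Agent.S18.H602.dq (x * x⁻¹)
      = x * Fermat.Agent.S18.H602.dq x⁻¹ + x⁻¹ * Fermat.Agent.S18.H602.dq x :=
    Fermat.Agent.S18.H602.dq_mul x x⁻¹
  rw [mul_inv_cancel₀ hx0, Fermat.Agent.S18.H602.dq_one] at h1
  intro h2
  rw [h2, mul_zero, zero_add] at h1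
  rcases mul_eq_zero.mp h1.symm with h3 | h3
  · exact inv_ne_zero hx0 h3
  · exact h h3

theorem val_eq_one_of_mem {F : Type*} [Field F] (V : ValuationSubring F) {g : F} (hg0 : g ≠ 0)
    (hg : g ∈ V) (hgi : g⁻¹ ∈ V) : V.valuation g = 1 := by
  have h2 : V.valuation g ≤ 1 := (V.valuation_le_one_iff g).mpr hg
  have h3 : V.valuation g⁻¹ ≤ 1 := (V.valuation_le_one_iff _).mpr hgi
  rw [map_inv₀] at h3
  have hv : V.valuation g ≠ 0 := (Valuation.ne_zero_iff _).mpr hg0
  exact le_antisymm h2 ((inv_le_one₀ (zero_lt_iff.mpr hv)).mp h3)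

end General

/-! ### the reduction relation of `V∞` -/

section Rel

variable (P : ValuationSubring _root_.Fermat.Agent.A2.Mod.Qb) (E : IntermediateField ℚ _root_.Fermat.Agent.A2.Mod.Qb) (N : ℕ)

/-- `b` is a reduction of `f`: `f U₂ = U₁`, `b Ū₂ = Ū₁` with `U₂ ∈ F_N` primitive. -/
def RedRel (f : _root_.Fermat.Agent.A2.Mod.FE E N) (b : LaurentSeries (ResidueField (_root_.Fermat.Agent.A2.Mod.RE P E))) : Prop :=
  ∃ U₁ U₂ : LaurentSeries (_root_.Fermat.Agent.A2.Mod.RE P E), H708.red (_root_.Fermat.Agent.A2.Mod.RE P E) U₂ ≠ 0 ∧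
    H708.incl (_root_.Fermat.Agent.A2.Mod.RE P E) U₂ ∈ _root_.Fermat.Agent.A2.Mod.FE E N ∧
    (f : LaurentSeries E) * H708.incl (_root_.Fermat.Agent.A2.Mod.RE P E) U₂ = H708.incl (_root_.Fermat.Agent.A2.Mod.RE P E) U₁ ∧
    b * H708.red (_root_.Fermat.Agent.A2.Mod.RE P E) U₂ = H708.red (_root_.Fermat.Agent.A2.Mod.RE P E) U₁

/-- the reduction relation as a subring of `F_N × k((t))` -/
def redRel : Subring (_root_.Fermat.Agent.A2.Mod.FE E N × LaurentSeries (ResidueField (_root_.Fermat.Agent.A2.Mod.RE P E))) where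
  carrier := {p | RedRel P E N p.1 p.2}
  mul_mem' := by
    rintro ⟨f, b⟩ ⟨f', b'⟩ ⟨U₁, U₂, h0, hm, he, hr⟩ ⟨U₁', U₂', h0', hm', he', hr'⟩
    refine ⟨U₁ * U₁', U₂ * U₂', ?_, ?_, ?_, ?_⟩
    · rw [_root_.map_mul]; exact mul_ne_zero h0 h0'
    · rw [_root_.map_mul]; exact mul_mem hm hm'
    · show ((f * f' : _root_.Fermat.Agent.A2.Mod.FE E N) : LaurentSeries E) * _ = _
      rw [IntermediateField.coe_mul, _root_.map_mul, _root_.map_mul, ← he, ← he']
      ring
    · show (b * b') * _ = _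
      rw [_root_.map_mul, _root_.map_mul, ← hr, ← hr']
      ring
  one_mem' := by
    refine ⟨1, 1, ?_, ?_, ?_, ?_⟩
    · rw [_root_.map_one]; exact one_ne_zero
    · rw [_root_.map_one]; exact one_mem _
    · show ((1 : _root_.Fermat.Agent.A2.Mod.FE E N) : LaurentSeries E) * _ = _
      rw [IntermediateField.coe_one, one_mul]
    · show (1 : LaurentSeries (ResidueField (_root_.Fermat.Agent.A2.Mod.RE P E))) * _ = _
      rw [one_mul]
  add_mem' := by
    rintro ⟨f, b⟩ ⟨f', b'⟩ ⟨U₁, U₂, h0, hm, he, hr⟩ ⟨U₁', U₂', h0', hm', he', hr'⟩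
    refine ⟨U₁ * U₂' + U₁' * U₂, U₂ * U₂', ?_, ?_, ?_, ?_⟩
    · rw [_root_.map_mul]; exact mul_ne_zero h0 h0'
    · rw [_root_.map_mul]; exact mul_mem hm hm'
    · show ((f + f' : _root_.Fermat.Agent.A2.Mod.FE E N) : LaurentSeries E) * _ = _
      rw [IntermediateField.coe_add, _root_.map_add, _root_.map_mul, _root_.map_mul, _root_.map_mul, ← he, ← he']
      ring
    · show (b + b') * _ = _
      rw [_root_.map_add, _root_.map_mul, _root_.map_mul, _root_.map_mul, ← hr, ← hr']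
      ring
  zero_mem' := by
    refine ⟨0, 1, ?_, ?_, ?_, ?_⟩
    · rw [_root_.map_one]; exact one_ne_zero
    · rw [_root_.map_one]; exact one_mem _
    · show ((0 : _root_.Fermat.Agent.A2.Mod.FE E N) : LaurentSeries E) * _ = _
      rw [IntermediateField.coe_zero, zero_mul, _root_.map_zero]
    · show (0 : LaurentSeries (ResidueField (_root_.Fermat.Agent.A2.Mod.RE P E))) * _ = _
      rw [zero_mul, _root_.map_zero]
  neg_mem' := by
    rintro ⟨f, b⟩ ⟨U₁, U₂, h0, hm, he, hr⟩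
    refine ⟨-U₁, U₂, h0, hm, ?_, ?_⟩
    · show ((-f : _root_.Fermat.Agent.A2.Mod.FE E N) : LaurentSeries E) * _ = _
      rw [IntermediateField.coe_neg, _root_.map_neg, ← he]
      ring
    · show (-b) * _ = _
      rw [_root_.map_neg, ← hr]
      ring

variable {P E N}

theorem mem_redRel {f : _root_.Fermat.Agent.A2.Mod.FE E N} {b : LaurentSeries (ResidueField (_root_.Fermat.Agent.A2.Mod.RE P E))} :
    (f, b) ∈ redRel P E N ↔ RedRel P E N f b := Iff.rfl

/-- constants -/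
theorem redRel_const (r : _root_.Fermat.Agent.A2.Mod.RE P E) :
    (algebraMap (_root_.Fermat.Agent.A2.Mod.RE P E) (_root_.Fermat.Agent.A2.Mod.FE E N) r, cres (_root_.Fermat.Agent.A2.Mod.RE P E) r) ∈ redRel P E N := by
  refine ⟨H708.cstA (_root_.Fermat.Agent.A2.Mod.RE P E) r, 1, ?_, ?_, ?_, ?_⟩
  · rw [_root_.map_one]; exact one_ne_zero
  · rw [_root_.map_one]; exact one_mem _
  · rw [_root_.map_one, mul_one, H708.incl_cstA]
    rfl
  · rw [_root_.map_one, mul_one, H708.red_cstA, cres_apply, Fermat.Agent.S18.H602.algebraMap_eq_C]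
    rfl

/-- functions with an integer expansion -/
theorem redRel_int {u : _root_.Fermat.Agent.A2.Mod.FE E N} {g : LaurentSeries ℤ}
    (hu : (u : LaurentSeries E) = coeffEmb E (H708.castQ g)) :
    (u, H708.red (_root_.Fermat.Agent.A2.Mod.RE P E) (H708.castA (_root_.Fermat.Agent.A2.Mod.RE P E) g)) ∈ redRel P E N := by
  refine ⟨H708.castA (_root_.Fermat.Agent.A2.Mod.RE P E) g, 1, ?_, ?_, ?_, ?_⟩
  · rw [_root_.map_one]; exact one_ne_zero
  · rw [_root_.map_one]; exact one_mem _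
  · rw [_root_.map_one, mul_one, hu, H553.coeffEmb_castQ (P := P)]
  · rw [_root_.map_one, mul_one]

/-- every element of `V∞` has a reduction -/
theorem exists_redRel {V : ValuationSubring (_root_.Fermat.Agent.A2.Mod.FE E N)} (hV : IsVinf P E N V) {f : _root_.Fermat.Agent.A2.Mod.FE E N}
    (hf : f ∈ V) : ∃ fb, (f, fb) ∈ redRel P E N := by
  obtain ⟨U₁, U₂, h0, hm, he⟩ := (hV f).mp hf
  exact ⟨H708.red (_root_.Fermat.Agent.A2.Mod.RE P E) U₁ * (H708.red (_root_.Fermat.Agent.A2.Mod.RE P E) U₂)⁻¹, U₁, U₂, h0, hm, he,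
    by rw [mul_assoc, inv_mul_cancel₀ h0, mul_one]⟩

/-- elements with nonzero reduction are units of `V∞` -/
theorem redRel_unit {V : ValuationSubring (_root_.Fermat.Agent.A2.Mod.FE E N)} (hV : IsVinf P E N V) {g : _root_.Fermat.Agent.A2.Mod.FE E N}
    {b : LaurentSeries (ResidueField (_root_.Fermat.Agent.A2.Mod.RE P E))} (h : (g, b) ∈ redRel P E N) (hb : b ≠ 0) :
    g ≠ 0 ∧ g ∈ V ∧ g⁻¹ ∈ V ∧ (g⁻¹, b⁻¹) ∈ redRel P E N := by
  obtain ⟨U₁, U₂, h0, hm, he, hr⟩ := h
  have he' : (g : LaurentSeries E) * H708.incl (_root_.Fermat.Agent.A2.Mod.RE P E) U₂ = H708.incl (_root_.Fermat.Agent.A2.Mod.RE P E) U₁ := he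
  have hr' : b * H708.red (_root_.Fermat.Agent.A2.Mod.RE P E) U₂ = H708.red (_root_.Fermat.Agent.A2.Mod.RE P E) U₁ := hr
  have h1 : H708.red (_root_.Fermat.Agent.A2.Mod.RE P E) U₁ ≠ 0 := by
    rw [← hr']
    exact mul_ne_zero hb h0
  have hU₁0 : H708.incl (_root_.Fermat.Agent.A2.Mod.RE P E) U₁ ≠ 0 :=
    H708.incl_ne_zero _ (H708.ne_zero_of_red_ne_zero _ h1)
  have hg0 : (g : LaurentSeries E) ≠ 0 := by
    intro h
    rw [h, zero_mul] at he'
    exact hU₁0 he'.symm
  have hm₁ : H708.incl (_root_.Fermat.Agent.A2.Mod.RE P E) U₁ ∈ _root_.Fermat.Agent.A2.Mod.FE E N := by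
    rw [← he']
    exact mul_mem g.2 hm
  have hinv : ((g⁻¹ : _root_.Fermat.Agent.A2.Mod.FE E N) : LaurentSeries E) * H708.incl (_root_.Fermat.Agent.A2.Mod.RE P E) U₁
      = H708.incl (_root_.Fermat.Agent.A2.Mod.RE P E) U₂ := by
    rw [IntermediateField.coe_inv, ← he', ← mul_assoc, inv_mul_cancel₀ hg0, one_mul]
  refine ⟨fun h => hg0 (by rw [h]; rfl), (hV g).mpr ⟨U₁, U₂, h0, hm, he'⟩,
    (hV g⁻¹).mpr ⟨U₂, U₁, h1, hm₁, hinv⟩, ⟨U₂, U₁, h1, hm₁, hinv, ?_⟩⟩
  show b⁻¹ * H708.red (_root_.Fermat.Agent.A2.Mod.RE P E) U₁ = H708.red (_root_.Fermat.Agent.A2.Mod.RE P E) U₂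
  rw [← hr', ← mul_assoc, inv_mul_cancel₀ hb, one_mul]

/-- elements with zero reduction lie in the maximal ideal of `V∞` -/
theorem redRel_ker {V : ValuationSubring (_root_.Fermat.Agent.A2.Mod.FE E N)} (hV : IsVinf P E N V)
    (hdvr : IsDiscreteValuationRing (_root_.Fermat.Agent.A2.Mod.RE P E)) {w : _root_.Fermat.Agent.A2.Mod.RE P E} (hw : Irreducible w)
    (hu : H48.IsUnif V (algebraMap (_root_.Fermat.Agent.A2.Mod.RE P E) (_root_.Fermat.Agent.A2.Mod.FE E N) w)) {g : _root_.Fermat.Agent.A2.Mod.FE E N}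
    (h : (g, (0 : LaurentSeries (ResidueField (_root_.Fermat.Agent.A2.Mod.RE P E)))) ∈ redRel P E N) :
    V.valuation g < 1 := by
  obtain ⟨U₁, U₂, h0, hm, he, hr⟩ := h
  have he' : (g : LaurentSeries E) * H708.incl (_root_.Fermat.Agent.A2.Mod.RE P E) U₂ = H708.incl (_root_.Fermat.Agent.A2.Mod.RE P E) U₁ := he
  have hr' : (0 : LaurentSeries (ResidueField (_root_.Fermat.Agent.A2.Mod.RE P E))) * H708.red (_root_.Fermat.Agent.A2.Mod.RE P E) U₂
      = H708.red (_root_.Fermat.Agent.A2.Mod.RE P E) U₁ := hr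
  rw [zero_mul] at hr'
  have hdiv : ∀ n, w ∣ U₁.coeff n := by
    intro n
    have h1 : IsLocalRing.residue (_root_.Fermat.Agent.A2.Mod.RE P E) (U₁.coeff n) = 0 := by
      have := congrArg (fun z => z.coeff n) hr'.symm
      simpa using this
    rw [IsLocalRing.residue_eq_zero_iff, hw.maximalIdeal_eq, Ideal.mem_span_singleton] at h1
    exact h1
  obtain ⟨U', hU'⟩ := H549.exists_cstA_mul_eq w hw.ne_zero U₁ hdiv
  have hwE : ((w : E)) ≠ 0 := fun h0 => hw.ne_zero (Subtype.ext h0)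
  have hc : H708.cst (w : E) ≠ 0 := H708.cst_ne_zero hwE
  have hmem : g * (algebraMap (_root_.Fermat.Agent.A2.Mod.RE P E) (_root_.Fermat.Agent.A2.Mod.FE E N) w)⁻¹ ∈ V := by
    rw [hV]
    refine ⟨U', U₂, h0, hm, ?_⟩
    have hcoe : (((g * (algebraMap (_root_.Fermat.Agent.A2.Mod.RE P E) (_root_.Fermat.Agent.A2.Mod.FE E N) w)⁻¹ : _root_.Fermat.Agent.A2.Mod.FE E N)) : LaurentSeries E)
        = (g : LaurentSeries E) * (H708.cst (w : E))⁻¹ := by
      rw [IntermediateField.coe_mul, IntermediateField.coe_inv]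
      rfl
    have h2 : (g : LaurentSeries E) * H708.incl (_root_.Fermat.Agent.A2.Mod.RE P E) U₂
        = H708.cst (w : E) * H708.incl (_root_.Fermat.Agent.A2.Mod.RE P E) U' := by
      rw [he', ← hU', _root_.map_mul, H708.incl_cstA]
    rw [hcoe, mul_assoc, mul_comm (H708.cst (w : E))⁻¹, ← mul_assoc, h2, mul_comm (H708.cst _),
      mul_assoc, mul_inv_cancel₀ hc, mul_one]
  have h3 : V.valuation (g * (algebraMap (_root_.Fermat.Agent.A2.Mod.RE P E) (_root_.Fermat.Agent.A2.Mod.FE E N) w)⁻¹) ≤ 1 :=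
    (V.valuation_le_one_iff _).mpr hmem
  rw [_root_.map_mul, map_inv₀] at h3
  have hv0 : V.valuation (algebraMap (_root_.Fermat.Agent.A2.Mod.RE P E) (_root_.Fermat.Agent.A2.Mod.FE E N) w) ≠ 0 := hu.val_ne_zero
  rw [mul_inv_le_iff₀ (zero_lt_iff.mpr hv0), one_mul] at h3
  exact lt_of_le_of_lt h3 hu.val_lt_one

end Rel

/-! ### polar series have separating reduction -/

section Polar

variable (P : ValuationSubring _root_.Fermat.Agent.A2.Mod.Qb) (E : IntermediateField ℚ _root_.Fermat.Agent.A2.Mod.Qb)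

theorem dq_red_polar {q : ℕ} (hq : q.Prime) (hP : P.LiesOverPrime q) {g : LaurentSeries ℤ}
    {a : ℕ} (hg : H13.IsPolarInt g a) (ha : ¬ q ∣ a) :
    Fermat.Agent.S18.H602.dq (H708.red (_root_.Fermat.Agent.A2.Mod.RE P E) (H708.castA (_root_.Fermat.Agent.A2.Mod.RE P E) g)) ≠ 0 := by
  haveI : CharP (ResidueField (_root_.Fermat.Agent.A2.Mod.RE P E)) q := H753.charP_residueField P E hq hP
  refine Fermat.Agent.S18.H602.dq_ne_zero_of_coeff _ (-(a : ℤ)) ?_
  have h1 : (H708.red (_root_.Fermat.Agent.A2.Mod.RE P E) (H708.castA (_root_.Fermat.Agent.A2.Mod.RE P E) g)).coeff (-(a : ℤ)) = 1 := by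
    show IsLocalRing.residue (_root_.Fermat.Agent.A2.Mod.RE P E) (((g.coeff (-(a : ℤ)) : ℤ) : _root_.Fermat.Agent.A2.Mod.RE P E)) = 1
    rw [hg.2, Int.cast_one, _root_.map_one]
  rw [h1, mul_one]
  intro h0
  rw [CharP.intCast_eq_zero_iff (ResidueField (_root_.Fermat.Agent.A2.Mod.RE P E)) q, dvd_neg, Int.natCast_dvd_natCast] at h0
  exact ha h0

end Polar

/-! ### the core -/

section Core

variable {P : ValuationSubring _root_.Fermat.Agent.A2.Mod.Qb} {E : IntermediateField ℚ _root_.Fermat.Agent.A2.Mod.Qb} {M q : ℕ} [NeZero M] [NeZero q]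
  {w : _root_.Fermat.Agent.A2.Mod.RE P E}

theorem perfectField_residue (hS : Setting P E M q w) :
    PerfectField (ResidueField (_root_.Fermat.Agent.A2.Mod.RE P E)) := by
  haveI : Fact q.Prime := ⟨hS.q_prime⟩
  haveI : CharP (ResidueField (_root_.Fermat.Agent.A2.Mod.RE P E)) q :=
    H753.charP_residueField P E hS.q_prime hS.lies_over
  haveI : ExpChar (ResidueField (_root_.Fermat.Agent.A2.Mod.RE P E)) q := ExpChar.prime hS.q_prime
  haveI : PerfectRing (ResidueField (_root_.Fermat.Agent.A2.Mod.RE P E)) q :=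
    PerfectRing.ofSurjective (ResidueField (_root_.Fermat.Agent.A2.Mod.RE P E)) q
      (fun c => H96.exists_pow_eq_residue P E hS.q_prime hS.lies_over c)
  exact PerfectRing.toPerfectField (ResidueField (_root_.Fermat.Agent.A2.Mod.RE P E)) q

/-- **`SepCoord` for a coordinate `y`** with the Gauss property, residue-independent families
and separating reductions on both components. -/
theorem sepCoord_core (hS : Setting P E M q w)
    (V : ValuationSubring (_root_.Fermat.Agent.A2.Mod.FE E (M * q))) (W : _root_.Fermat.Agent.A2.Mod.FE E (M * q) ≃ₐ[E] _root_.Fermat.Agent.A2.Mod.FE E (M * q))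
    (hV : IsVinf P E (M * q) V)
    (hu : H48.IsUnif V (algebraMap (_root_.Fermat.Agent.A2.Mod.RE P E) (_root_.Fermat.Agent.A2.Mod.FE E (M * q)) w))
    (hne : V ≠ V.comap (W : _root_.Fermat.Agent.A2.Mod.FE E (M * q) →+* _root_.Fermat.Agent.A2.Mod.FE E (M * q)))
    (y : _root_.Fermat.Agent.A2.Mod.FE E (M * q)) (hy : Transcendental E y)
    (hfin : FiniteDimensional (IntermediateField.adjoin E ({y} : Set (_root_.Fermat.Agent.A2.Mod.FE E (M * q))))
      (_root_.Fermat.Agent.A2.Mod.FE E (M * q)))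
    {n : ℕ}
    (hdeg : Module.finrank (IntermediateField.adjoin E ({y} : Set (_root_.Fermat.Agent.A2.Mod.FE E (M * q))))
      (_root_.Fermat.Agent.A2.Mod.FE E (M * q)) ≤ n + n)
    (hG₁ : Fermat.Agent.A2.H489.IsGaussOver (_root_.Fermat.Agent.A2.Mod.RE P E) V y)
    (hG₂ : Fermat.Agent.A2.H489.IsGaussOver (_root_.Fermat.Agent.A2.Mod.RE P E)
      (V.comap (W : _root_.Fermat.Agent.A2.Mod.FE E (M * q) →+* _root_.Fermat.Agent.A2.Mod.FE E (M * q))) y)
    (b c : Fin n → _root_.Fermat.Agent.A2.Mod.FE E (M * q)) (hb : ∀ i, b i ∈ V)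
    (hc : ∀ i, c i ∈ V.comap (W : _root_.Fermat.Agent.A2.Mod.FE E (M * q) →+* _root_.Fermat.Agent.A2.Mod.FE E (M * q)))
    (hIb : IndepMod P E (M * q) V w y b)
    (hIc : IndepMod P E (M * q) (V.comap (W : _root_.Fermat.Agent.A2.Mod.FE E (M * q) →+* _root_.Fermat.Agent.A2.Mod.FE E (M * q))) w y c)
    (yb yb' : LaurentSeries (ResidueField (_root_.Fermat.Agent.A2.Mod.RE P E)))
    (h1 : (y, yb) ∈ redRel P E (M * q)) (h1' : Fermat.Agent.S18.H602.dq yb ≠ 0)
    (h2 : (W y, yb') ∈ redRel P E (M * q)) (h2' : Fermat.Agent.S18.H602.dq yb' ≠ 0) :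
    SepCoord (_root_.Fermat.Agent.A2.Mod.RE P E) E y (chartAlg P E (M * q) y) := by
  haveI hdvr : IsDiscreteValuationRing (_root_.Fermat.Agent.A2.Mod.RE P E) := hS.dvr
  haveI : PerfectField (ResidueField (_root_.Fermat.Agent.A2.Mod.RE P E)) := perfectField_residue hS
  have hw := hS.unif
  have hu₂ : H48.IsUnif (V.comap (W : _root_.Fermat.Agent.A2.Mod.FE E (M * q) →+* _root_.Fermat.Agent.A2.Mod.FE E (M * q)))
      (algebraMap (_root_.Fermat.Agent.A2.Mod.RE P E) (_root_.Fermat.Agent.A2.Mod.FE E (M * q)) w) := Fermat.Agent.A2.Mod.H489.isUnif_comap hu W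
  haveI := hfin
  have halg : ∀ f : _root_.Fermat.Agent.A2.Mod.FE E (M * q),
      IsAlgebraic (IntermediateField.adjoin E ({y} : Set (_root_.Fermat.Agent.A2.Mod.FE E (M * q)))) f :=
    fun f => Algebra.IsAlgebraic.isAlgebraic f
  refine sepCoord_of_gauss w hw y hy hfin (chartAlg P E (M * q) y) (fun f hf => hf)
    V (V.comap (W : _root_.Fermat.Agent.A2.Mod.FE E (M * q) →+* _root_.Fermat.Agent.A2.Mod.FE E (M * q))) hne hu hu₂
    hG₁.aeval_mem hG₂.aeval_mem
    (fun Q hQ => hG₁.inv_aeval_mem (fun h0 => hQ (C_dvd_of_map_residue_eq_zero hw h0)))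
    (fun Q hQ => hG₂.inv_aeval_mem (fun h0 => hQ (C_dvd_of_map_residue_eq_zero hw h0)))
    b c hb hc (fun a ha i => hIb a ha i) (fun a ha i => hIc a ha i) hdeg ?_ ?_
  · intro f hf₁ _
    obtain ⟨fb, hfb⟩ := exists_redRel hV hf₁
    obtain ⟨Pa, hPa, hPf⟩ := exists_primitive_annihilator (E := E) hw hy (halg f)
    exact exists_sep_poly_of_graph V (redRel P E (M * q)) redRel_const
      (fun g hg => redRel_ker hV hdvr hw hu hg)
      (fun g b hg hb => by
        obtain ⟨hg0, hgV, hgi, -⟩ := redRel_unit hV hg hb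
        exact val_eq_one_of_mem V hg0 hgV hgi)
      h1 h1' hfb Pa hPa hPf
  · intro f _ hf₂
    have hf₂' : W f ∈ V := hf₂
    obtain ⟨fb, hfb⟩ := exists_redRel hV hf₂'
    obtain ⟨Pa, hPa, hPf⟩ := exists_primitive_annihilator (E := E) hw hy (halg f)
    refine exists_sep_poly_of_graph (V.comap (W : _root_.Fermat.Agent.A2.Mod.FE E (M * q) →+* _root_.Fermat.Agent.A2.Mod.FE E (M * q)))
      ((redRel P E (M * q)).comap
        (RingHom.prodMap (W : _root_.Fermat.Agent.A2.Mod.FE E (M * q) →+* _root_.Fermat.Agent.A2.Mod.FE E (M * q))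
          (RingHom.id (LaurentSeries (ResidueField (_root_.Fermat.Agent.A2.Mod.RE P E))))))
      ?_ ?_ ?_ (x := y) (xb := yb') ?_ h2' (f := f) (fb := fb) ?_ Pa hPa hPf
    · intro r
      show (W (algebraMap (_root_.Fermat.Agent.A2.Mod.RE P E) (_root_.Fermat.Agent.A2.Mod.FE E (M * q)) r), cres (_root_.Fermat.Agent.A2.Mod.RE P E) r) ∈ redRel P E (M * q)
      have hWr : W (algebraMap (_root_.Fermat.Agent.A2.Mod.RE P E) (_root_.Fermat.Agent.A2.Mod.FE E (M * q)) r)
          = algebraMap (_root_.Fermat.Agent.A2.Mod.RE P E) (_root_.Fermat.Agent.A2.Mod.FE E (M * q)) r := W.commutes (r : E)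
      rw [hWr]
      exact redRel_const r
    · intro g hg
      have hg' : (W g, (0 : LaurentSeries (ResidueField (_root_.Fermat.Agent.A2.Mod.RE P E)))) ∈ redRel P E (M * q) := hg
      have h3 := redRel_ker hV hdvr hw hu hg'
      rw [← ValuationSubring.mem_nonunits_iff] at h3 ⊢
      exact (H13.mem_nonunits_comap V (W : _root_.Fermat.Agent.A2.Mod.FE E (M * q) →+* _root_.Fermat.Agent.A2.Mod.FE E (M * q)) g).mpr h3
    · intro g b hg hb
      have hg' : (W g, b) ∈ redRel P E (M * q) := hg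
      obtain ⟨hg0, hgV, hgi, -⟩ := redRel_unit hV hg' hb
      have hg00 : g ≠ 0 := fun h => hg0 (by rw [h, _root_.map_zero])
      refine val_eq_one_of_mem _ hg00 hgV ?_
      show W g⁻¹ ∈ V
      rw [map_inv₀]
      exact hgi
    · exact h2
    · exact hfb

end Core

/-! ### the two charts of `X₀(M q)` -/

section Final

variable (P : ValuationSubring _root_.Fermat.Agent.A2.Mod.Qb) (E : IntermediateField ℚ _root_.Fermat.Agent.A2.Mod.Qb) (M q : ℕ) [NeZero M] [NeZero q]
  (w : _root_.Fermat.Agent.A2.Mod.RE P E)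

theorem not_dvd_succ {q : ℕ} (hq : q.Prime) : ¬ q ∣ 1 + q := by
  intro h
  have h1 : q ∣ 1 := (Nat.dvd_add_left (dvd_refl q)).mp h
  exact hq.one_lt.ne' (Nat.dvd_one.mp h1)

theorem not_dvd_level {M q : ℕ} (hqM : ¬ q ∣ M) : ¬ q ∣ M * q + M := by
  intro h
  have h1 : q ∣ M := (Nat.dvd_add_right (dvd_mul_left q M)).mp h
  exact hqM h1

/-- **MODASM sub-assembly S4** from the leaves L1, L2, L4, L6, L8, L9, L10 (all VERBATIM). -/
theorem s4_of_leaves (hL1 : VinfExistsStatement P E) (hL2 : VinfBasicStatement P E w)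
    (hL4 : FrickeExistsStatement E) (hL6 : VzeroNeStatement P E M q w)
    (hL8 : DegStatement E M q) (hL9 : IndInfStatement P E M q w)
    (hL10 : IndZeroStatement P E M q w) : S4Statement P E M q w := by
  intro hS _ _ _ _
  haveI hdvr : IsDiscreteValuationRing (_root_.Fermat.Agent.A2.Mod.RE P E) := hS.dvr
  have hw := hS.unif
  have hq := hS.q_prime
  have hN : M * q ≠ 0 := mul_ne_zero hS.M_ne_zero hS.q_prime.ne_zero
  obtain ⟨V, hV⟩ := hL1 (M * q) hN hdvr
  obtain ⟨W, hW⟩ := hL4 (M * q) hN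
  obtain ⟨hu, hconst, hj⟩ := hL2 (M * q) hN hdvr hw V hV
  have hu₂ := Fermat.Agent.A2.Mod.H489.isUnif_comap hu W
  have hmem₁ : ∀ r : _root_.Fermat.Agent.A2.Mod.RE P E, algebraMap (_root_.Fermat.Agent.A2.Mod.RE P E) (_root_.Fermat.Agent.A2.Mod.FE E (M * q)) r ∈ V :=
    fun r => (hconst (r : E)).mpr r.2
  have hmem₂ : ∀ r : _root_.Fermat.Agent.A2.Mod.RE P E, algebraMap (_root_.Fermat.Agent.A2.Mod.RE P E) (_root_.Fermat.Agent.A2.Mod.FE E (M * q)) r ∈
      V.comap (W : _root_.Fermat.Agent.A2.Mod.FE E (M * q) →+* _root_.Fermat.Agent.A2.Mod.FE E (M * q)) := by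
    intro r
    show W (algebraMap E (_root_.Fermat.Agent.A2.Mod.FE E (M * q)) (r : E)) ∈ V
    rw [W.commutes]
    exact hmem₁ r
  have ho₁ := Fermat.Agent.A2.Mod.H489.isOver_of_unif hw hu hmem₁
  have ho₂ := Fermat.Agent.A2.Mod.H489.isOver_of_unif hw hu₂ hmem₂
  obtain ⟨b, hb, hIb⟩ := hL9 hS V hV
  obtain ⟨c, hc, hIc⟩ := hL10 hS V W hV hW
  have hx₁ : xE E M q ∈ V := mul_mem (hj 1 (one_dvd _)).1 (hj q (dvd_mul_left q M)).1
  have hx₂ : xE E M q ∈ V.comap (W : _root_.Fermat.Agent.A2.Mod.FE E (M * q) →+* _root_.Fermat.Agent.A2.Mod.FE E (M * q)) := by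
    show W (xE E M q) ∈ V
    unfold xE
    rw [_root_.map_mul, hW.1 1 (M * q) (one_dvd _) (dvd_refl _) (one_mul _),
      hW.1 q M (dvd_mul_left q M) (dvd_mul_right M q) (mul_comm q M)]
    exact mul_mem (hj _ _).1 (hj _ _).1
  have hpos : 0 < (q + 1) * dedekindPsi M :=
    Nat.mul_pos (Nat.succ_pos q) (dedekindPsi_pos_of_ne_zero M hS.M_ne_zero)
  have hP₁ := Fermat.Agent.A2.Mod.H489.polyIndepMod_of_indepMod hw hu hIb
  have hP₂ := Fermat.Agent.A2.Mod.H489.polyIndepMod_of_indepMod hw hu₂ hIc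
  have hG₁ := Fermat.Agent.A2.H489.IsGaussOver.of_polyIndepMod ho₁ hx₁ hpos hb hP₁
  have hG₂ := Fermat.Agent.A2.H489.IsGaussOver.of_polyIndepMod ho₂ hx₂ hpos hc hP₂
  have hne : V ≠ V.comap (W : _root_.Fermat.Agent.A2.Mod.FE E (M * q) →+* _root_.Fermat.Agent.A2.Mod.FE E (M * q)) :=
    fun h => hL6 hS V W hV hW h.symm
  obtain ⟨htr, hdeg, -⟩ := hL8 hS.q_prime hS.q_not_dvd
  have hfin : FiniteDimensional
      (IntermediateField.adjoin E ({xE E M q} : Set (_root_.Fermat.Agent.A2.Mod.FE E (M * q)))) (_root_.Fermat.Agent.A2.Mod.FE E (M * q)) :=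
    Module.finite_of_finrank_pos (by rw [hdeg]; omega)
  have hdeg' : Module.finrank
      (IntermediateField.adjoin E ({xE E M q} : Set (_root_.Fermat.Agent.A2.Mod.FE E (M * q)))) (_root_.Fermat.Agent.A2.Mod.FE E (M * q)) ≤
      (q + 1) * dedekindPsi M + (q + 1) * dedekindPsi M := by
    rw [hdeg]
    omega
  -- the reductions of `x` and `W x`
  obtain ⟨g, hg, e⟩ := H13.isPolar_xE (E := E) M q
  obtain ⟨g', hg', e'⟩ := H13.isPolar_fricke_xE (E := E) M q hW
  have h1 := redRel_int (P := P) e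
  have h1' := dq_red_polar P E hq hS.lies_over hg (not_dvd_succ hq)
  have h2 := redRel_int (P := P) e'
  have h2' := dq_red_polar P E hq hS.lies_over hg' (not_dvd_level hS.q_not_dvd)
  refine ⟨sepCoord_core hS V W hV hu hne (xE E M q) htr hfin hdeg' hG₁ hG₂ b c hb hc hIb hIc
    _ _ h1 h1' h2 h2', ?_⟩
  -- the chart at infinity
  have hy0 : ∀ {z : LaurentSeries (ResidueField (_root_.Fermat.Agent.A2.Mod.RE P E))},
      Fermat.Agent.S18.H602.dq z ≠ 0 → z ≠ 0 := by
    intro z hz h0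
    apply hz
    rw [h0]
    have := Fermat.Agent.S18.H602.dq_C (0 : ResidueField (_root_.Fermat.Agent.A2.Mod.RE P E))
    rwa [_root_.map_zero] at this
  have hE := Fermat.Agent.A2.H489.adjoin_inv_eq E (xE E M q)
  have key : ∀ (K : IntermediateField E (_root_.Fermat.Agent.A2.Mod.FE E (M * q))),
      K = IntermediateField.adjoin E ({xE E M q} : Set (_root_.Fermat.Agent.A2.Mod.FE E (M * q))) →
      FiniteDimensional K (_root_.Fermat.Agent.A2.Mod.FE E (M * q)) ∧
        Module.finrank K (_root_.Fermat.Agent.A2.Mod.FE E (M * q)) ≤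
          (q + 1) * dedekindPsi M + (q + 1) * dedekindPsi M := by
    rintro K rfl
    exact ⟨hfin, hdeg'⟩
  obtain ⟨hfin_i, hdeg_i⟩ := key _ hE
  have htr_i : Transcendental E (xE E M q)⁻¹ := by
    intro halg
    exact htr (by simpa using halg.inv)
  have h2i : (W (xE E M q)⁻¹, (H708.red (_root_.Fermat.Agent.A2.Mod.RE P E) (H708.castA (_root_.Fermat.Agent.A2.Mod.RE P E) g'))⁻¹)
      ∈ redRel P E (M * q) := by
    rw [map_inv₀]
    exact (redRel_unit hV h2 (hy0 h2')).2.2.2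
  exact sepCoord_core hS V W hV hu hne (xE E M q)⁻¹ htr_i hfin_i hdeg_i hG₁.inv hG₂.inv
    b c hb hc (H753.indepMod_inv P E V w (xE E M q) hx₁ b hIb)
    (H753.indepMod_inv P E _ w (xE E M q) hx₂ c hIc)
    _ _ (redRel_unit hV h1 (hy0 h1')).2.2.2 (dq_inv_ne_zero h1') h2i (dq_inv_ne_zero h2')

/-- **MODASM sub-assembly S4, unconditional.** -/
theorem s4 : S4Statement P E M q w :=
  s4_of_leaves P E M q w (H553.vinfExists P E) (H553.vinfBasic P E w) (H553.frickeExists E)
    (H553.vzeroNe P E M q w) (H31.deg E M q) (H753.indInf P E M q w) (H753.indZero P E M q w)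

end Final

end Fermat.Agent.A2.Mod.H732

end
end
-- ===== PACK-END A2/Mod/H732/S4.lean

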