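import Mathlib
import Mathlib.FieldTheory.Galois.Basic
import Fermat.Agent.Pack.S33.E9L1
import Fermat.Agent.Pack.S33.E19L0
import Fermat.Agent.Pack.S33.E4L3
import Fermat.Agent.Pack.S33.E16L0
import Fermat.Agent.Pack.S33.E19L3
import Fermat.Agent.Pack.S33.E7L0
import Fermat.Agent.Pack.S33.E19L1
import Fermat.Agent.Pack.S33.E14L3
import Fermat.Agent.Pack.S33.E17L0
import Fermat.Agent.Pack.S33.E12L2
import Fermat.Agent.Pack.S33.E0L1
import Fermat.Agent.Pack.S33.E18L1
import Fermat.Agent.Pack.S33.E17L3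
import Fermat.Agent.Pack.S33.E17L2
import Fermat.Agent.Pack.S33.E5L0
import Fermat.Agent.Pack.S33.E2L3
import Fermat.Agent.Pack.S33.E14L0
import Fermat.Agent.Pack.S33.E5L3
import Fermat.Agent.Pack.S33.E16L1
import Fermat.Agent.Pack.S33.E18L0
import Fermat.Agent.Pack.S33.E15L0
import Fermat.Agent.Pack.S33.E10L3
import Fermat.Agent.Pack.S33.E14L2
import Fermat.Agent.Pack.S33.E8L3
import Fermat.Agent.Pack.S33.E6L0
import Fermat.Agent.Pack.S33.E18L3
import Fermat.Agent.Pack.S33.E6L3
import Fermat.Agent.Pack.S33.E6L2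

-- ===== PACK-BEGIN S30/H990/FromInputs.lean
section
/-
S30 top glue (helper990): the frozen statement S30 from the three open inputs of the adic module
layer of helper330: (K) Kummer map onto torsion, (P) eigen parabolic character, (T) torsion
relations.  The inputs (Sm) and (GH) are discharged from main (S29 pieces M3 and M2).
-/





set_option autoImplicit false

namespace Fermat.Agent.S30.H990

open Polynomial

/-- Input (Sm) of the adic module layer holds (S29 piece M3, helper126). -/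
theorem smoothStatement (N : ℕ) [NeZero N] : Fermat.Agent.S30.H330.SmoothStatement N :=
  fun x => Fermat.Agent.S29.jZero_smooth N x

/-- Input (GH) of the adic module layer holds (S29 piece M2, helper571). -/
theorem galoisHeckeStatement (N : ℕ) [NeZero N] :
    Fermat.Agent.S30.H330.GaloisHeckeStatement N :=
  fun σ ℓ x => (Fermat.Agent.S29.H571.heckeOperatorBar_smul N ℓ σ x).symm

/-- **S30 from the inputs (K), (P), (T).** -/
theorem result_of_inputs
    (hK : ∀ (N : ℕ) [NeZero N] (p : ℕ) [Fact p.Prime],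
      Fermat.Agent.S30.H330.KummerStatement N p)
    (hT : ∀ (N : ℕ) [NeZero N] (p : ℕ) [Fact p.Prime],
      Fermat.Agent.S30.H330.TorsionRelations N p)
    (hP : ∀ (p : ℕ) [Fact p.Prime] (N : ℕ) [NeZero N] (S : Finset ℕ)
      (_hpS : p ∈ S) (_hNS : ∀ q : ℕ, q.Prime → q ∣ N → q ∈ S)
      (𝒪' : Type) [CommRing 𝒪'] [IsDomain 𝒪'] [IsDiscreteValuationRing 𝒪']
      [IsAdicComplete (IsLocalRing.maximalIdeal 𝒪') 𝒪'] [Finite (IsLocalRing.ResidueField 𝒪')]
      [CharZero 𝒪'] (_hp𝒪' : (p : 𝒪') ∈ IsLocalRing.maximalIdeal 𝒪')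
      (χ : CuspForm.heckeAlgebra N 2 (↑S : Set ℕ) →+* 𝒪'),
      Fermat.Agent.S30.H330.ParEigenStatement N S 𝒪' χ) :
    ∀ (p : ℕ) [Fact p.Prime] (N : ℕ) [NeZero N] (S : Finset ℕ)
      (_hpS : p ∈ S) (_hNS : ∀ q : ℕ, q.Prime → q ∣ N → q ∈ S)
      (𝒪' : Type) [CommRing 𝒪'] [IsDomain 𝒪'] [IsDiscreteValuationRing 𝒪']
      [IsAdicComplete (IsLocalRing.maximalIdeal 𝒪') 𝒪'] [Finite (IsLocalRing.ResidueField 𝒪')]
      [CharZero 𝒪'] (_hp𝒪' : (p : 𝒪') ∈ IsLocalRing.maximalIdeal 𝒪')
      (χ : CuspForm.heckeAlgebra N 2 (↑S : Set ℕ) →+* 𝒪'),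
      ∃ (𝒪'' : Type) (_ : CommRing 𝒪'') (_ : IsDomain 𝒪'') (_ : IsDiscreteValuationRing 𝒪'')
        (_ : IsAdicComplete (IsLocalRing.maximalIdeal 𝒪'') 𝒪'')
        (_ : Finite (IsLocalRing.ResidueField 𝒪'')) (_ : CharZero 𝒪'')
        (_ : Algebra 𝒪' 𝒪'') (_ : Module.Finite 𝒪' 𝒪'') (_ : IsLocalHom (algebraMap 𝒪' 𝒪'')),
      Function.Injective (algebraMap 𝒪' 𝒪'') ∧
      ∃ ρ : GaloisRepAdic 𝒪'',
        (∀ (ℓ : ℕ) (hℓ : ℓ.Prime) (hℓN : ¬ ℓ ∣ N) (hℓS : ℓ ∉ (↑S : Set ℕ)),
          ∀ A : ValuationSubring (AlgebraicClosure ℚ), A.LiesOverPrime ℓ →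
            ∀ σ : AlgebraicClosure ℚ ≃ₐ[ℚ] AlgebraicClosure ℚ, A.IsFrobeniusAt σ ℓ →
              LinearMap.charpoly (ρ.ρ σ) =
                X ^ 2 - C (algebraMap 𝒪' 𝒪'' (χ (CuspForm.heckeAlgebra.T hℓ hℓN hℓS))) * X
                  + C ((ℓ : 𝒪''))) ∧
        (∀ q : ℕ, q.Prime → ¬ q ∣ N → q ≠ p → ρ.IsUnramifiedAt q) :=
  result_of_hasAdicEigenModules (hasAdicEigenModules_of_H330
    (fun p _ N _ S hpS hNS 𝒪' _ _ _ _ _ _ hp𝒪' χ =>
      Fermat.Agent.S30.H330.hasAdicFrobModule_of_inputs hpS hNS hp𝒪' χ (hK N p)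
        (hP p N S hpS hNS 𝒪' hp𝒪' χ) (hT N p) (smoothStatement N) (galoisHeckeStatement N)))

end Fermat.Agent.S30.H990

end
-- ===== PACK-END S30/H990/FromInputs.lean

-- ===== PACK-BEGIN S30/Fin/Count.lean
section
/-
S30 row, piece FIN (helper49): finiteness of the `m`-torsion of `J₀(N)(ℚ̄)` from the Kummer
relation `IsKum` of `Fermat.Agent.S29.M4b.Defs`.

`finite_torsion_of` : if every `m`-torsion class is the Kummer class of SOME function
`c : Γ₀(N) → ℤ/m` (piece `ONTO`), and Kummer classes are unique (piece `K4-UNIQ` of S29/M4b), then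
`J₀(N)(ℚ̄)[m]` is finite.  Reason: the character of a twisted function is additive, `Γ₀(N)` is
finitely generated, so there are only finitely many characters.
-/


set_option autoImplicit false

noncomputable section

open ModularCurve AlgebraicCurve CongruenceSubgroup UpperHalfPlane
open scoped MatrixGroups Manifold

namespace Fermat.Agent.S30.Fin

open Fermat.Agent.S29 Fermat.Agent.S29.M4b

/-- `SL(2, ℤ)` is finitely generated. -/
theorem fin_fg_SL2Z : Group.FG SL(2, ℤ) :=
  Group.fg_iff.mpr ⟨{ModularGroup.S, ModularGroup.T}, SpecialLinearGroup.SL2Z_generators,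
    Set.toFinite _⟩

/-- `Γ₀(N)` is finitely generated (Schreier). -/
theorem fin_fg_Gamma0 (N : ℕ) [NeZero N] : Group.FG (G0 N) := by
  have := fin_fg_SL2Z
  exact Subgroup.fg_of_index_ne_zero (Gamma0 N)

theorem fin_zetaP_isPrimitiveRoot (m : ℕ) [NeZero m] : IsPrimitiveRoot (zetaP m) m :=
  Complex.isPrimitiveRoot_exp m (NeZero.ne m)

/-- `ζ_m ^ a = ζ_m ^ b` forces `a = b` in `ℤ/m`. -/
theorem fin_natCast_eq_of_zetaP_pow_eq (m : ℕ) [NeZero m] {a b : ℕ}
    (h : zetaP m ^ a = zetaP m ^ b) : (a : ZMod m) = (b : ZMod m) := by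
  have hζ := fin_zetaP_isPrimitiveRoot m
  have hne : zetaP m ≠ 0 := hζ.ne_zero (NeZero.ne m)
  have key : ∀ a b : ℕ, a ≤ b → zetaP m ^ a = zetaP m ^ b → (a : ZMod m) = (b : ZMod m) := by
    intro a b hab h
    obtain ⟨d, rfl⟩ := Nat.exists_eq_add_of_le hab
    rw [pow_add] at h
    have h1 : zetaP m ^ d = 1 := by
      have h2 : zetaP m ^ a * 1 = zetaP m ^ a * zetaP m ^ d := by rw [mul_one]; exact h
      exact (mul_left_cancel₀ (pow_ne_zero a hne) h2).symm
    have h3 : m ∣ d := (hζ.pow_eq_one_iff_dvd d).mp h1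
    rw [Nat.cast_add, (ZMod.natCast_eq_zero_iff d m).mpr h3, add_zero]
  rcases le_total a b with hab | hab
  · exact key a b hab h
  · exact (key b a hab h.symm).symm

/-- The character of a twisted function is additive. -/
theorem fin_isTwisted_map_mul {N m : ℕ} [NeZero m] {c : G0 N → ZMod m} {U : ℍ → ℂ}
    (h : IsTwisted N m c U) (γ γ' : G0 N) : c (γ * γ') = c γ + c γ' := by
  obtain ⟨τ₀, hτ₀⟩ := h.ne_zero
  have h1 := h.hasChar (γ * γ') τ₀
  have h2 := h.hasChar γ (((γ' : G0 N) : SL(2, ℤ)) • τ₀)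
  have h3 := h.hasChar γ' τ₀
  have hsmul : (((γ * γ' : G0 N) : SL(2, ℤ))) • τ₀
      = ((γ : G0 N) : SL(2, ℤ)) • ((γ' : G0 N) : SL(2, ℤ)) • τ₀ := by
    rw [← mul_smul]
    rfl
  rw [hsmul, h2, h3, ← mul_assoc, ← pow_add] at h1
  have h4 : zetaP m ^ ((c γ).val + (c γ').val) = zetaP m ^ (c (γ * γ')).val :=
    mul_right_cancel₀ hτ₀ h1
  have h5 := fin_natCast_eq_of_zetaP_pow_eq m h4
  rw [Nat.cast_add, ZMod.natCast_zmod_val, ZMod.natCast_zmod_val, ZMod.natCast_zmod_val] at h5
  exact h5.symm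

/-- The character of a Kummer class is additive. -/
theorem fin_isKum_map_mul {N m : ℕ} [NeZero N] [NeZero m] {c : G0 N → ZMod m} {x : JZero N}
    (h : IsKum N m c x) (γ γ' : G0 N) : c (γ * γ') = c γ + c γ' := by
  obtain ⟨f, t, U, -, -, hU, -⟩ := h
  exact fin_isTwisted_map_mul hU γ γ'

/-- **FIN from ONTO and UNIQ.** -/
theorem finite_torsion_of (N : ℕ) [NeZero N] (m : ℕ) [NeZero m]
    (hex : ∀ x : JZero N, (m : ℤ) • x = 0 → ∃ c : G0 N → ZMod m, IsKum N m c x)
    (huniq : ∀ (c : G0 N → ZMod m) (x x' : JZero N), IsKum N m c x → IsKum N m c x' → x = x') :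
    {x : JZero N | (m : ℤ) • x = 0}.Finite := by
  classical
  obtain ⟨S, hS, hSfin⟩ := Group.fg_iff.mp (fin_fg_Gamma0 N)
  have : Finite S := hSfin.to_subtype
  choose! c hc using hex
  -- the character of `x` as a monoid homomorphism
  have hone : ∀ x : JZero N, (m : ℤ) • x = 0 → c x 1 = 0 := by
    intro x hx
    have h := fin_isKum_map_mul (hc x hx) 1 1
    rw [mul_one] at h
    exact left_eq_add.mp h
  let φ : {x : JZero N // (m : ℤ) • x = 0} → (S → ZMod m) := fun x s => c x.1 s.1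
  have hinj : Function.Injective φ := by
    rintro ⟨x, hx⟩ ⟨x', hx'⟩ h
    let f : G0 N →* Multiplicative (ZMod m) :=
      { toFun := fun γ => Multiplicative.ofAdd (c x γ)
        map_one' := by
          show Multiplicative.ofAdd (c x 1) = 1
          rw [hone x hx]; rfl
        map_mul' := fun γ γ' => by
          show Multiplicative.ofAdd (c x (γ * γ')) = _
          rw [fin_isKum_map_mul (hc x hx) γ γ']; rfl }
    let f' : G0 N →* Multiplicative (ZMod m) :=
      { toFun := fun γ => Multiplicative.ofAdd (c x' γ)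
        map_one' := by
          show Multiplicative.ofAdd (c x' 1) = 1
          rw [hone x' hx']; rfl
        map_mul' := fun γ γ' => by
          show Multiplicative.ofAdd (c x' (γ * γ')) = _
          rw [fin_isKum_map_mul (hc x' hx') γ γ']; rfl }
    have hff' : f = f' := by
      refine MonoidHom.eq_of_eqOn_dense hS ?_
      intro s hs
      show Multiplicative.ofAdd (c x s) = Multiplicative.ofAdd (c x' s)
      have := congrFun h ⟨s, hs⟩
      exact congrArg Multiplicative.ofAdd this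
    have hcc : c x = c x' := by
      funext γ
      have := DFunLike.congr_fun hff' γ
      exact Multiplicative.ofAdd.injective this
    apply Subtype.ext
    have h1 := hc x hx
    rw [hcc] at h1
    exact huniq (c x') x x' h1 (hc x' hx')
  have hfin : Finite {x : JZero N // (m : ℤ) • x = 0} := Finite.of_injective φ hinj
  exact Set.finite_coe_iff.mp hfin

end Fermat.Agent.S30.Fin

end
end
-- ===== PACK-END S30/Fin/Count.lean

-- ===== PACK-BEGIN S29/M4b/Top.lean
section
/-
S29 row, LAYER M, SUB-LAYER M4b (the Kummer map) — TOP ASSEMBLY over the seven pieces of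
helper822's sub-skeleton (`origin/helper822:Fermat/Agent/S29/M4b/Skeleton.lean`), with the pieces
as `Prop`s (row-lead helper269; the assembly proof is helper822's `exists_kummerMap_of`).

A piece is DONE when it proves one of the `Prop`s `PieceK1 N p`, ..., `PieceHecke N p` below
(they are the EXACT statements of the skeleton, for a fixed level `N` and modulus `p`).

`M4b_of_pieces` : the seven pieces for `(N, p)`, `p` prime ⟹ the Kummer bridge for `(N, p)`;
`M4bStatement_of_pieces` : the seven pieces for all `N` and all primes `p` ⟹ `M4bStatement`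
(the `Prop` of `Fermat/Agent/S29/Parts.lean` consumed by `Main.S29_of_parts`).
The two group-theoretic facts about Hecke factorisations come from the landed `H149/HCoh.lean`.
-/




set_option autoImplicit false

noncomputable section

open ModularCurve AlgebraicCurve CongruenceSubgroup UpperHalfPlane
open scoped MatrixGroups Manifold

namespace Fermat.Agent.S29.M4b

open Fermat.Agent.S24 Fermat.Agent.S29

section Pieces

variable (N : ℕ) [NeZero N] (p : ℕ)

/-- PIECE `K1` (twisted Eisenstein series). -/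
def PieceK1 : Prop :=
  ∀ {c : G0 N → ZMod p}, IsParHom c → ∃ U : ℍ → ℂ, IsTwisted N p c U

/-- PIECE `K3` (descent `ℂ → ℚ̄`). -/
def PieceK3 : Prop :=
  ∀ {c : G0 N → ZMod p}, IsParHom c → ∀ {U : ℍ → ℂ}, IsTwisted N p c U →
    ∃ (U' : ℍ → ℂ) (u : FF N), IsTwisted N p c U' ∧ Realises N u (fun τ => U' τ ^ p)

/-- PIECE `K2` (dictionary over `ℚ̄`). -/
def PieceK2 : Prop :=
  ∀ {c : G0 N → ZMod p}, IsParHom c → ∀ {U : ℍ → ℂ} {u : FF N}, IsTwisted N p c U →
    Realises N u (fun τ => U τ ^ p) → ∃ x : JZero N, H455.IsKummerClass (p : ℤ) u x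

/-- PIECE `K4-UNIQ`. -/
def PieceUniq : Prop :=
  ∀ {c : G0 N → ZMod p} {x x' : JZero N}, IsKum N p c x → IsKum N p c x' → x = x'

/-- PIECE `K4-INJ`. -/
def PieceInj : Prop :=
  ∀ {c : G0 N → ZMod p}, IsKum N p c (0 : JZero N) → c = 0

/-- PIECE `K4-ADD`. -/
def PieceAdd : Prop :=
  ∀ {c c' : G0 N → ZMod p} {x x' : JZero N},
    IsKum N p c x → IsKum N p c' x' → IsKum N p (c + c') (x + x')

/-- PIECE `K4-HECKE`. -/
def PieceHecke : Prop :=
  ∀ (ℓ : Nat.Primes), ¬ (ℓ : ℕ) ∣ N * p →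
    (∀ γ : G0 N, ∃ (π : Equiv.Perm (Option (Fin (ℓ : ℕ)))) (δ : Option (Fin (ℓ : ℕ)) → G0 N),
      ∀ i, IsHeckeFactor (ℓ : ℕ) γ i (π i, δ i)) →
    ∀ {c c' : G0 N → ZMod p}, IsParHom c → IsTransfer N (ℓ : ℕ) c c' →
      ∀ {x : JZero N}, IsKum N p c x → IsKum N p c' (heckeOperatorBar N ℓ x)

end Pieces

section Assembly

variable {N : ℕ} [NeZero N] {p : ℕ}

theorem top_isKum_exists (h1 : PieceK1 N p) (h3 : PieceK3 N p) (h2 : PieceK2 N p)
    {c : G0 N → ZMod p} (hc : IsParHom c) : ∃ x : JZero N, IsKum N p c x := by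
  obtain ⟨U, hU⟩ := h1 hc
  obtain ⟨U', u, hU', hu⟩ := h3 hc hU
  obtain ⟨x, hx⟩ := h2 hc hU' hu
  refine ⟨x, u, 1, U', one_ne_zero, hx, hU', ?_⟩
  simpa using hu

theorem top_isKum_mem_Jp {c : G0 N → ZMod p} {x : JZero N} (h : IsKum N p c x) :
    x ∈ Jp N p := by
  obtain ⟨f, t, U, -, hx, -, -⟩ := h
  rw [Submodule.mem_torsionBy_iff]
  exact hx.zsmul_eq_zero

open Classical in
/-- The Kummer map: `κ c` is THE Kummer class of `c` (and `0` if there is none). -/
def topKummerMap (N : ℕ) [NeZero N] (p : ℕ) (c : G0 N → ZMod p) : Jp N p :=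
  if h : ∃ x : JZero N, IsKum N p c x then ⟨h.choose, top_isKum_mem_Jp h.choose_spec⟩ else 0

theorem top_isKum_kummerMap (h1 : PieceK1 N p) (h3 : PieceK3 N p) (h2 : PieceK2 N p)
    {c : G0 N → ZMod p} (hc : IsParHom c) :
    IsKum N p c (topKummerMap N p c : JZero N) := by
  have h := top_isKum_exists h1 h3 h2 hc
  rw [topKummerMap, dif_pos h]
  exact h.choose_spec

theorem top_kummerMap_eq (hu : PieceUniq N p) {c : G0 N → ZMod p} {x : JZero N}
    (h : IsKum N p c x) : (topKummerMap N p c : JZero N) = x := by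
  have h' : ∃ x : JZero N, IsKum N p c x := ⟨x, h⟩
  rw [topKummerMap, dif_pos h']
  exact hu h'.choose_spec h

/-- The transfer of `c` is `heckeCoh N ℓ c` (`ℓ ∤ N` prime). -/
theorem top_isTransfer_heckeCoh {ℓ : ℕ} (hℓ : ℓ.Prime) (hℓN : ¬ ℓ ∣ N) (c : G0 N → ZMod p) :
    IsTransfer N ℓ c (heckeCoh N ℓ c) := by
  intro γ π δ hfac
  unfold heckeCoh
  refine Finset.sum_congr rfl fun i _ => ?_
  rw [H149.HCoh_heckeFac_unique hℓ hℓN (hfac i)]

/-- Existence of the Hecke factorisation, with the index map a permutation. -/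
theorem top_exists_factor {ℓ : ℕ} (hℓ : ℓ.Prime) (hℓN : ¬ ℓ ∣ N) (γ : G0 N) :
    ∃ (π : Equiv.Perm (Option (Fin ℓ))) (δ : Option (Fin ℓ) → G0 N),
      ∀ i, IsHeckeFactor ℓ γ i (π i, δ i) :=
  ⟨H149.HCoh_perm (H149.HCoh_isFactorSystem hℓ hℓN) γ, fun i => (heckeFac N ℓ γ i).2,
    fun i => H149.HCoh_heckeFac_spec hℓ hℓN γ i⟩

/-- **Output of sub-layer M4b** for a fixed level and modulus, from the seven pieces. -/
theorem M4b_of_pieces (N : ℕ) [NeZero N] (p : ℕ)
    (h1 : PieceK1 N p) (h3 : PieceK3 N p) (h2 : PieceK2 N p) (hu : PieceUniq N p)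
    (hi : PieceInj N p) (ha : PieceAdd N p) (hh : PieceHecke N p) :
    ∃ κ : (G0 N → ZMod p) → Jp N p,
      (∀ c c', IsParHom c → IsParHom c' → κ (c + c') = κ c + κ c') ∧
      (∀ c, IsParHom c → κ c = 0 → c = 0) ∧
      (∀ ℓ : Nat.Primes, ¬ (ℓ : ℕ) ∣ N * p → ∀ c, IsParHom c →
        κ (heckeCoh N ℓ c) = heckeJp N p ℓ (κ c)) := by
  refine ⟨topKummerMap N p, fun c c' hc hc' => ?_, fun c hc h0 => ?_, fun ℓ hℓ c hc => ?_⟩
  · apply Subtype.ext
    rw [Submodule.coe_add]
    exact top_kummerMap_eq hu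
      (ha (top_isKum_kummerMap h1 h3 h2 hc) (top_isKum_kummerMap h1 h3 h2 hc'))
  · have h := top_isKum_kummerMap h1 h3 h2 hc
    rw [h0] at h
    exact hi h
  · apply Subtype.ext
    rw [coe_heckeJp]
    have hℓN : ¬ (ℓ : ℕ) ∣ N := fun h => hℓ (Dvd.dvd.mul_right h p)
    exact top_kummerMap_eq hu (hh ℓ hℓ (top_exists_factor ℓ.2 hℓN) hc
      (top_isTransfer_heckeCoh ℓ.2 hℓN c) (top_isKum_kummerMap h1 h3 h2 hc))

/-- The seven pieces for all levels and all PRIME moduli give `M4bStatement`. -/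
theorem M4bStatement_of_pieces
    (h1 : ∀ (N : ℕ) [NeZero N] (p : ℕ), p.Prime → PieceK1 N p)
    (h3 : ∀ (N : ℕ) [NeZero N] (p : ℕ), p.Prime → PieceK3 N p)
    (h2 : ∀ (N : ℕ) [NeZero N] (p : ℕ), p.Prime → PieceK2 N p)
    (hu : ∀ (N : ℕ) [NeZero N] (p : ℕ), p.Prime → PieceUniq N p)
    (hi : ∀ (N : ℕ) [NeZero N] (p : ℕ), p.Prime → PieceInj N p)
    (ha : ∀ (N : ℕ) [NeZero N] (p : ℕ), p.Prime → PieceAdd N p)
    (hh : ∀ (N : ℕ) [NeZero N] (p : ℕ), p.Prime → PieceHecke N p) :
    M4bStatement := by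
  intro N _ p hp
  exact M4b_of_pieces N p (h1 N p hp.out) (h3 N p hp.out) (h2 N p hp.out) (hu N p hp.out)
    (hi N p hp.out) (ha N p hp.out) (hh N p hp.out)

end Assembly

end Fermat.Agent.S29.M4b

end
end
-- ===== PACK-END S29/M4b/Top.lean

-- ===== PACK-BEGIN S29/H389/K2.lean
section





/-!
# S29 / M4b / PIECE K2 (DICT) — `exists_isKummerClass_of_realised` (helper389)

The piece `K2` of helper822's M4b sub-skeleton, in the EXACT type of `M4b/Skeleton.lean`
(general modulus `p`, `[NeZero p]`):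

if `u ∈ FF N` is realised by `U ^ p`, `U` a twisted function whose character kills the parabolic
and the elliptic elements of `Γ₀(N)`, then `u` has a `p`-Kummer class in `J₀(N)(ℚ̄)`.

Proof: direct route over `ℚ̄` on the landed S24 package.
* `U ∈ holN N` (S24 ring of the concrete analytic core): every `SL₂(ℤ)`-translate of `U` is
  holomorphic, `N`-periodic (`g T^N g⁻¹ ∈ Γ₀(N)` has trace `2`) and of exponential growth (because
  its `p`-th power is), so it has a convergent expansion in `exp(2πiτ/N)`;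
* `e(r) = U ^ p · e(s)` for `u = r / s` (equality of expansions at `i∞`);
* `U` is invariant under the elliptic and parabolic elements of `Γ₀(N)`;
* conclude by the landed `H389.exists_isKummerClass_of_analytic_pow` (BR-DICT).
-/

set_option autoImplicit false

noncomputable section

open ModularCurve AlgebraicCurve CongruenceSubgroup UpperHalfPlane HahnSeries
open scoped MatrixGroups Manifold Real

namespace Fermat.Agent.S29.H389

open Fermat.Agent.S24 Fermat.Agent.S24.H997 Fermat.Agent.S24.H648 Fermat.Agent.S24.H708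
  Fermat.Agent.S24.H624 Fermat.Agent.S29 Fermat.Agent.S29.M4b

/-- A function whose `p`-th power (`p ≠ 0`) has exponential growth has exponential growth. -/
theorem K2_expGrowth_of_pow {f : ℍ → ℂ} {p : ℕ} (hp : p ≠ 0)
    (h : ExpGrowth (fun τ => f τ ^ p)) : ExpGrowth f := by
  obtain ⟨C, m, hC⟩ := h
  refine ⟨max C 1, m, fun τ hτ => ?_⟩
  have h1 := hC τ hτ
  rw [norm_pow] at h1
  have him : 0 < τ.im := τ.im_pos
  have hpi := Real.pi_pos
  have hE : 1 ≤ Real.exp (2 * π * m * τ.im) := Real.one_le_exp (by positivity)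
  have hmax : (1 : ℝ) ≤ max C 1 := le_max_right _ _
  have hB : 1 ≤ max C 1 * Real.exp (2 * π * m * τ.im) := by
    calc (1 : ℝ) = 1 * 1 := (one_mul 1).symm
      _ ≤ max C 1 * Real.exp (2 * π * m * τ.im) :=
        mul_le_mul hmax hE zero_le_one (zero_le_one.trans hmax)
  have hle : ‖f τ‖ ^ p ≤ max C 1 * Real.exp (2 * π * m * τ.im) :=
    h1.trans (mul_le_mul_of_nonneg_right (le_max_left _ _) (Real.exp_pos _).le)
  by_cases h0 : ‖f τ‖ ≤ 1
  · exact h0.trans hB
  · have : ‖f τ‖ ≤ ‖f τ‖ ^ p := le_self_pow₀ (le_of_lt (not_le.mp h0)) hp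
    exact this.trans hle

/-- `qh N ^ N = qh 1`. -/
theorem K2_qh_pow (N : ℕ) [NeZero N] (M : ℕ) : qh N ^ (N * M) = qh 1 ^ M := by
  funext τ
  have hN : (N : ℂ) ≠ 0 := by exact_mod_cast NeZero.ne N
  simp only [Pi.pow_apply, qh_apply, pow_mul]
  congr 1
  simp only [Function.Periodic.qParam]
  rw [← Complex.exp_nat_mul]
  congr 1
  push_cast
  field_simp

section Twisted

variable (N : ℕ) [NeZero N] (p : ℕ) [NeZero p]

omit [NeZero N] [NeZero p] in
/-- All translates of a function with a parabolic character are `N`-periodic. -/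
theorem K2_compSL_vadd {c : G0 N → ZMod p} (hc : IsParHom c) {U : ℍ → ℂ}
    (hU : HasChar N p c U) (g : SL(2, ℤ)) (τ : ℍ) :
    compSL g U (((N : ℤ) : ℝ) +ᵥ τ) = compSL g U τ := by
  have hmem := H332.conj_T_zpow_mem_Gamma0 N g 1
  rw [mul_one] at hmem
  have htr := H332.trace_conj_T_zpow g (N : ℤ)
  have hc0 : c ⟨_, hmem⟩ = 0 := hc.parabolic ⟨_, hmem⟩ (Or.inl htr)
  have h2 := hU ⟨_, hmem⟩ (g • τ)
  rw [hc0] at h2
  simp only [ZMod.val_zero, pow_zero, one_mul] at h2
  rw [← UpperHalfPlane.modular_T_zpow_smul]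
  simp only [compSL_apply]
  rw [← h2]
  congr 1
  rw [← mul_smul, ← mul_smul, mul_assoc, mul_assoc, inv_mul_cancel, mul_one]

/-- Every translate of a twisted function is meromorphic at `i∞` of width `N`. -/
theorem K2_isMerInf {c : G0 N → ZMod p} (hc : IsParHom c) {U : ℍ → ℂ}
    (hU : IsTwisted N p c U) (g : SL(2, ℤ)) : IsMerInf N (compSL g U) := by
  refine ⟨H648.mdifferentiable_comp_smul hU.mdiff g,
    H332.periodic_comp_ofComplex_of_vadd (K2_compSL_vadd N p hc hU.hasChar g), ?_⟩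
  have hg : ExpGrowth (compSL g U) :=
    K2_expGrowth_of_pow (NeZero.ne p) (hU.pow_mem.2.2 g)
  obtain ⟨M, hM⟩ := H882.isBounded_mul_qh_pow_of_expGrowth hg
  exact ⟨N * M, by rw [K2_qh_pow]; exact hM⟩

/-- A twisted function lies in the S24 ring `holN N`. -/
theorem K2_mem_holN {c : G0 N → ZMod p} (hc : IsParHom c) {U : ℍ → ℂ}
    (hU : IsTwisted N p c U) : U ∈ holN N :=
  ⟨hU.mdiff, fun g => ⟨qexpFun N (compSL g U), fun τ => hasSum_qexpFun (K2_isMerInf N p hc hU g) τ⟩⟩

end Twisted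

/-- The two fixed embeddings `ℚ̄ → ℂ` of S24 agree. -/
theorem K2_iotaC_eq : Deg457.iotaC = ιK := rfl

/-- An expansion in `q` is an expansion in `q^{1/N}`. -/
theorem K2_infExp_of_one (N : ℕ) [NeZero N] {f : ℍ → ℂ} {φ : LaurentSeries ℂ}
    (h : InfExp 1 f φ) : InfExp N f (qExpand ℂ N φ) := by
  have hN : 0 < N := Nat.pos_of_ne_zero (NeZero.ne N)
  have h1 := h.comp_infAff (N := N) (e := N) 0 one_pos one_pos one_pos hN (by ring)
  rw [mul_one, infRoot_zero, infTwist_one] at h1
  refine h1.congr fun τ => ?_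
  rw [infAff_one_zero_one]

section Main

variable (N : ℕ) [NeZero N] (p : ℕ) [NeZero p]

/-- **PIECE `K2`** of the M4b sub-skeleton (EXACT type of `M4b/Skeleton.lean`). -/
theorem exists_isKummerClass_of_realised {c : G0 N → ZMod p} (hc : IsParHom c) {U : ℍ → ℂ}
    {u : FF N} (hU : IsTwisted N p c U) (hu : Realises N u (fun τ => U τ ^ p)) :
    ∃ x : JZero N, H455.IsKummerClass (p : ℤ) u x := by
  classical
  set A : AnalyticCore N := analyticCore N with hA
  -- `U` as an element of `Hol`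
  have hmem : U ∈ holN N := K2_mem_holN N p hc hU
  let Uh : A.toHolBase.Hol := ⟨U, hmem⟩
  have hUh : Uh ≠ 0 := by
    intro h0
    obtain ⟨τ, hτ⟩ := hU.ne_zero
    apply hτ
    have := congrArg (fun f : A.toHolBase.Hol => (f : ℍ → ℂ) τ) h0
    simpa [Uh] using this
  -- the expansion of `U ^ p`
  have hmer : IsMerInf 1 (fun τ => U τ ^ p) := H882.isMerInf_of_mem_goodRing hu.1
  have hexp1 : InfExp 1 (fun τ => U τ ^ p)
      (coeffMap ιK ((u : FF N) : LaurentSeries Kbar)) := by
    intro τ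
    have := hasSum_qexpFun hmer τ
    rw [hu.2, K2_iotaC_eq] at this
    exact this
  have hexpN := K2_infExp_of_one N hexp1
  have hqU : A.toHolBase.qexp (Uh ^ p) = HolBase.Φ N ((u : FF N) : LaurentSeries Kbar) := by
    have hs : InfExp N (((Uh ^ p : A.toHolBase.Hol) : ℍ → ℂ)) (A.toHolBase.qexp (Uh ^ p)) :=
      expInf_spec (holToExp N (Uh ^ p))
    exact hs.unique' hexpN (fun τ => rfl)
  -- `u = r / s`
  obtain ⟨r, s, hs, hrs⟩ := exists_div_inclRN N u
  have hs' : inclRN N s ≠ 0 := fun h => hs (inclRN_injective N (by rw [h, _root_.map_zero]))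
  have hus : ((u : FF N) : LaurentSeries Kbar) * (s : LaurentSeries Kbar)
      = (r : LaurentSeries Kbar) := by
    have h1 : u * inclRN N s = inclRN N r := by rw [hrs, div_mul_cancel₀ _ hs']
    have := congrArg (fun f : FF N => (f : LaurentSeries Kbar)) h1
    simpa using this
  have hrel : A.toHolBase.bridge r * (1 : A.toHolBase.Hol) ^ p
      = A.toHolBase.constH 1 * Uh ^ p * A.toHolBase.bridge s := by
    apply A.toHolBase.qexp_injective
    have h1 : A.toHolBase.qexp (A.toHolBase.constH 1) = 1 := by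
      have := A.toHolBase.qexp_const 1
      rw [HahnSeries.C_one] at this
      exact this
    rw [one_pow, mul_one, _root_.map_mul, _root_.map_mul, HolBase.qexp_bridge, HolBase.qexp_bridge, hqU,
      h1, one_mul, ← _root_.map_mul, hus]
  have hr : r ≠ 0 := by
    intro hr0
    rw [hr0, _root_.map_zero, zero_mul] at hrel
    have h1 : A.toHolBase.constH 1 * Uh ^ p * A.toHolBase.bridge s = 0 := hrel.symm
    have hb : A.toHolBase.bridge s ≠ 0 := fun h =>
      hs (HolBase.bridge_injective A.toHolBase (by rw [h, _root_.map_zero]))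
    have hc1 : A.toHolBase.constH 1 ≠ 0 := by
      intro h
      have := congrArg A.toHolBase.qexp h
      rw [_root_.map_zero] at this
      have h2 := A.toHolBase.qexp_const 1
      rw [HahnSeries.C_one] at h2
      rw [HolBase.constH, h2] at this
      exact one_ne_zero this
    have : IsDomain A.toHolBase.Hol :=
      Function.Injective.isDomain A.toHolBase.qexp A.toHolBase.qexp_injective
    exact mul_ne_zero (mul_ne_zero hc1 (pow_ne_zero p hUh)) hb h1
  have hinv : ∀ δ : SL(2, ℤ), δ ∈ CongruenceSubgroup.Gamma0 N → Nice δ →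
      A.toHolBase.compH δ Uh * 1 = Uh * A.toHolBase.compH δ 1 := by
    intro δ hδ hnice
    rw [_root_.map_one, mul_one, mul_one]
    have hc0 : c ⟨δ, hδ⟩ = 0 := by
      rcases hnice with hfin | htr
      · obtain ⟨n, hn, hpow⟩ := isOfFinOrder_iff_pow_eq_one.mp hfin
        exact hc.elliptic ⟨δ, hδ⟩ n hn (Subtype.ext (by simpa using hpow))
      · exact hc.parabolic ⟨δ, hδ⟩ (Or.inl htr)
    apply Subtype.ext
    funext τ
    have h2 := hU.hasChar ⟨δ, hδ⟩ τ
    rw [hc0] at h2
    simp only [ZMod.val_zero, pow_zero, one_mul] at h2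
    exact h2
  obtain ⟨x, hx⟩ := exists_isKummerClass_of_analytic_pow A p (NeZero.ne p) r s hr hs Uh 1 hUh
    one_ne_zero 1 one_ne_zero hrel hinv
  exact ⟨x, by rw [hrs]; exact hx⟩

end Main

end Fermat.Agent.S29.H389

end
end
-- ===== PACK-END S29/H389/K2.lean

-- ===== PACK-BEGIN S33/H706/Old.lean
section




/-!
# S33 / piece OLD (helper706)

Architecture: `origin/helper409:coord/S33-helper409.md`, section 3, input (OLD).

* `mem_augClosure_of_killed` : **relative CE for a subgroup killed by `p`.**  `M` carries a Hopf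
  lattice over `ℤ_(p)` (NOT assumed killed by `p`), `E ≤ M` is a `G_ℚ`-stable subgroup killed by
  `p`, `p` odd.  Then `I_aug M ∩ E ≤ I_aug E`.
  (The landed `S56.FO.H6.mem_closure_of_mem_closure` is the case `p • M = 0`.)
* `augClosure_eq_of_killed` : if moreover `E ≤ I_aug M`, then `E = I_aug E`, i.e. the
  `I_P`-coinvariants of `E` vanish.
* `augSub_eq_of_hopfModel` : the same for a `G_ℚ`-module `J` all of whose torsion groups
  `J[p ^ n]` carry Hopf models (the shape of the frozen S19), for a `G_ℚ`-stable subgroup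
  `Y ≤ ⋃ₙ I_aug (J[p ^ n]) ∩ J[p]`  (`augTors p J P n = I_aug (J[p ^ n])`, `augSub P Y = I_aug Y`).
* `oldAug_of_s19 : S19HopfStatement → OldAugJZero` : (OLD) for `J₀(M')`, `p ∤ M'`, from the
  frozen S19 in the landed form `HopfModel p (Tors M' p k) (torsAct M' p k)`.
-/

set_option autoImplicit false
set_option linter.style.haveILetI false
set_option linter.unusedSectionVars false

noncomputable section

namespace Fermat.Agent.S33.H706

open Fermat.Agent.S56

/-- **Relative CE, subgroup killed by `p`.**  For a `G_ℚ`-stable subgroup `E` killed by `p`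
(`p` odd) of a module `M` with a Hopf lattice: a point of `E` in the inertia augmentation of `M`
lies in the inertia augmentation of `E`. -/
theorem mem_augClosure_of_killed {p : ℕ} [Fact p.Prime] (hp2 : p ≠ 2) {M : Type}
    [AddCommGroup M] {act : GQ → M → M} {Λ : Subalgebra (H906.Zp p) (M → Qb)}
    (hΛ : H906.IsHL p act Λ) (P : ValuationSubring Qb)
    (hP : P.LiesOverPrime p) (E : AddSubgroup M) (hE : ∀ (σ : GQ), ∀ x ∈ E, act σ x ∈ E)
    (hpE : ∀ x ∈ E, p • x = 0) {x : M} (hxE : x ∈ E)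
    (hx : x ∈ AddSubgroup.closure
      {z : M | ∃ σ ∈ P.inertiaSubgroupIn ℚ, ∃ y : M, z = act σ y - y}) :
    x ∈ AddSubgroup.closure
      {z : M | ∃ σ ∈ P.inertiaSubgroupIn ℚ, ∃ y ∈ E, z = act σ y - y} := by
  haveI : Finite M := Fermat.Agent.S19.H435.IsHopfLattice.finite hΛ
  -- the pullback lattice on `E`
  set actE : GQ → E → E := fun σ y => ⟨act σ y, hE σ y y.2⟩ with hactE
  have hΛE := Fermat.Agent.S19.H435.IsHopfLattice.pullback hΛ E.subtype
    Subtype.val_injective actE (fun σ y => rfl)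
  have hpE' : ∀ y : E, p • y = 0 := fun y => Subtype.ext (by
    rw [AddSubgroup.coe_nsmul, hpE y y.2]
    rfl)
  have hred : ∀ f ∈ Λ.map (Fermat.Agent.S19.H435.precompAlgHom p E.subtype),
      P.valuation (f ⟨x, hxE⟩ - f 0) < 1 := by
    rintro _ ⟨f, hf, rfl⟩
    exact H906.closure_le_redKer P hΛ hP hx f hf
  have h1 := FO.H6.connEt p hp2 E actE _ hΛE hpE' P hP ⟨x, hxE⟩ hred
  -- push forward to `M`
  have h2 : ∀ y : E, y ∈ AddSubgroup.closure
      {z : E | ∃ σ ∈ P.inertiaSubgroupIn ℚ, ∃ y : E, z = actE σ y - y} →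
      (y : M) ∈ AddSubgroup.closure
        {z : M | ∃ σ ∈ P.inertiaSubgroupIn ℚ, ∃ y ∈ E, z = act σ y - y} := by
    intro y hy
    induction hy using AddSubgroup.closure_induction with
    | mem z hz =>
      obtain ⟨σ, hσ, w, rfl⟩ := hz
      exact AddSubgroup.subset_closure ⟨σ, hσ, w, w.2, rfl⟩
    | zero => exact AddSubgroup.zero_mem _
    | add a b _ _ ha hb => exact AddSubgroup.add_mem _ ha hb
    | neg a _ ha => exact AddSubgroup.neg_mem _ ha
  exact h2 ⟨x, hxE⟩ h1

/-- If `E` (stable, killed by `p`) is contained in the inertia augmentation of `M`, then `E` is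
its own inertia augmentation: the `I_P`-coinvariants of `E` vanish. -/
theorem augClosure_eq_of_killed {p : ℕ} [Fact p.Prime] (hp2 : p ≠ 2) {M : Type}
    [AddCommGroup M] {act : GQ → M → M} {Λ : Subalgebra (H906.Zp p) (M → Qb)}
    (hΛ : H906.IsHL p act Λ) (P : ValuationSubring Qb)
    (hP : P.LiesOverPrime p) (E : AddSubgroup M) (hE : ∀ (σ : GQ), ∀ x ∈ E, act σ x ∈ E)
    (hpE : ∀ x ∈ E, p • x = 0)
    (hEaug : E ≤ AddSubgroup.closure
      {z : M | ∃ σ ∈ P.inertiaSubgroupIn ℚ, ∃ y : M, z = act σ y - y}) :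
    AddSubgroup.closure
      {z : M | ∃ σ ∈ P.inertiaSubgroupIn ℚ, ∃ y ∈ E, z = act σ y - y} = E := by
  refine le_antisymm ?_ fun x hx =>
    mem_augClosure_of_killed hp2 hΛ P hP E hE hpE hx (hEaug hx)
  rw [AddSubgroup.closure_le]
  rintro z ⟨σ, -, y, hy, rfl⟩
  exact E.sub_mem (hE σ y hy) hy


section Torsion

variable {p : ℕ} {J : Type} [AddCommGroup J] [SMul GQ J]

/-- The inertia augmentation (at `P`) of the `p ^ n`-torsion of `J`: the subgroup of `J`
generated by the `σ • w - w`, `σ ∈ I_P`, `p ^ n • w = 0`. -/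
def augTors (p : ℕ) (J : Type) [AddCommGroup J] [SMul GQ J] (P : ValuationSubring Qb) (n : ℕ) :
    AddSubgroup J :=
  AddSubgroup.closure
    {z : J | ∃ σ ∈ P.inertiaSubgroupIn ℚ, ∃ w : J, (p : ℤ) ^ n • w = 0 ∧ z = σ • w - w}

/-- The inertia augmentation (at `P`) of a subgroup `Y` of `J`: the subgroup generated by the
`σ • w - w`, `σ ∈ I_P`, `w ∈ Y`. -/
def augSub (P : ValuationSubring Qb) (Y : AddSubgroup J) : AddSubgroup J :=
  AddSubgroup.closure {z : J | ∃ σ ∈ P.inertiaSubgroupIn ℚ, ∃ w ∈ Y, z = σ • w - w}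

theorem augSub_le (P : ValuationSubring Qb) (Y : AddSubgroup J)
    (hY : ∀ (σ : GQ), ∀ y ∈ Y, σ • y ∈ Y) : augSub P Y ≤ Y := by
  unfold augSub
  rw [AddSubgroup.closure_le]
  rintro z ⟨σ, -, w, hw, rfl⟩
  exact Y.sub_mem (hY σ w hw) hw

theorem augSub_mono (P : ValuationSubring Qb) {Y Y' : AddSubgroup J} (h : Y ≤ Y') :
    augSub P Y ≤ augSub P Y' := by
  unfold augSub
  refine AddSubgroup.closure_mono ?_
  rintro z ⟨σ, hσ, w, hw, rfl⟩
  exact ⟨σ, hσ, w, h hw, rfl⟩

/-- **(OLD), pointwise.**  `J` a `G_ℚ`-module whose torsion group `J[p ^ n]` carries a Hopf model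
(for the restricted action), `p` odd, `P | p`.  If `Y ≤ J` is a `G_ℚ`-stable subgroup killed by
`p` and `y ∈ Y` lies in the inertia augmentation of `J[p ^ n]`, then `y` lies in the inertia
augmentation of `Y`. -/
theorem mem_augSub_of_mem_augTors [Fact p.Prime] (hp2 : p ≠ 2) (n : ℕ)
    (act : GQ → ↥(Submodule.torsionBy ℤ J ((p : ℤ) ^ n)) →
      ↥(Submodule.torsionBy ℤ J ((p : ℤ) ^ n)))
    (hact : ∀ σ m, ((act σ m : ↥(Submodule.torsionBy ℤ J ((p : ℤ) ^ n))) : J) = σ • (m : J))
    (hJ : Fermat.Agent.S19.HopfModel p ↥(Submodule.torsionBy ℤ J ((p : ℤ) ^ n)) act)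
    (P : ValuationSubring Qb) (hP : P.LiesOverPrime p)
    (Y : AddSubgroup J) (hY : ∀ (σ : GQ), ∀ y ∈ Y, σ • y ∈ Y) (hpY : ∀ y ∈ Y, p • y = 0)
    {y : J} (hyY : y ∈ Y) (hy : y ∈ augTors p J P n) : y ∈ augSub P Y := by
  obtain ⟨Λ, hΛ⟩ := Fermat.Agent.S19.H435.exists_isHopfLattice_of_hopfModel hJ
  -- the subgroup `E = Y ∩ J[p ^ n]` of `M = J[p ^ n]`
  let ι : ↥(Submodule.torsionBy ℤ J ((p : ℤ) ^ n)) →+ J :=
    (Submodule.torsionBy ℤ J ((p : ℤ) ^ n)).subtype.toAddMonoidHom
  let E : AddSubgroup ↥(Submodule.torsionBy ℤ J ((p : ℤ) ^ n)) := Y.comap ι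
  have hEmem : ∀ x : ↥(Submodule.torsionBy ℤ J ((p : ℤ) ^ n)), x ∈ E ↔ (x : J) ∈ Y :=
    fun _ => Iff.rfl
  have hE : ∀ (σ : GQ), ∀ x ∈ E, act σ x ∈ E := by
    intro σ x hx
    rw [hEmem, hact]
    exact hY σ _ ((hEmem x).mp hx)
  have hpE : ∀ x ∈ E, p • x = 0 := by
    intro x hx
    apply Subtype.ext
    have h := hpY _ ((hEmem x).mp hx)
    rw [Submodule.coe_smul_of_tower, h]
    rfl
  -- lift `y` to `M`, inside the augmentation of `M`
  have hlift : ∀ z : J, z ∈ augTors p J P n →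
      ∃ x : ↥(Submodule.torsionBy ℤ J ((p : ℤ) ^ n)), (x : J) = z ∧ x ∈ AddSubgroup.closure
        {z : ↥(Submodule.torsionBy ℤ J ((p : ℤ) ^ n)) |
          ∃ σ ∈ P.inertiaSubgroupIn ℚ, ∃ y, z = act σ y - y} := by
    intro z hz
    unfold augTors at hz
    induction hz using AddSubgroup.closure_induction with
    | mem z hz =>
      obtain ⟨σ, hσ, w, hw, rfl⟩ := hz
      have hwM : w ∈ Submodule.torsionBy ℤ J ((p : ℤ) ^ n) :=
        (Submodule.mem_torsionBy_iff _ _).mpr hw
      refine ⟨act σ ⟨w, hwM⟩ - ⟨w, hwM⟩, ?_, AddSubgroup.subset_closure ⟨σ, hσ, ⟨w, hwM⟩, rfl⟩⟩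
      rw [AddSubgroupClass.coe_sub, hact]
    | zero => exact ⟨0, rfl, AddSubgroup.zero_mem _⟩
    | add a b _ _ ha hb =>
      obtain ⟨xa, rfl, hxa⟩ := ha
      obtain ⟨xb, rfl, hxb⟩ := hb
      exact ⟨xa + xb, rfl, AddSubgroup.add_mem _ hxa hxb⟩
    | neg a _ ha =>
      obtain ⟨xa, rfl, hxa⟩ := ha
      exact ⟨-xa, rfl, AddSubgroup.neg_mem _ hxa⟩
  obtain ⟨x, rfl, hx⟩ := hlift y hy
  have hxE : x ∈ E := (hEmem x).mpr hyY
  have h1 := mem_augClosure_of_killed hp2 hΛ P hP E hE hpE hxE hx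
  -- push forward to `J`
  have h2 : ∀ x : ↥(Submodule.torsionBy ℤ J ((p : ℤ) ^ n)), x ∈ AddSubgroup.closure
      {z : ↥(Submodule.torsionBy ℤ J ((p : ℤ) ^ n)) |
        ∃ σ ∈ P.inertiaSubgroupIn ℚ, ∃ y ∈ E, z = act σ y - y} →
      (x : J) ∈ augSub P Y := by
    intro x hx
    induction hx using AddSubgroup.closure_induction with
    | mem z hz =>
      obtain ⟨σ, hσ, w, hw, rfl⟩ := hz
      refine AddSubgroup.subset_closure ⟨σ, hσ, (w : J), (hEmem w).mp hw, ?_⟩
      rw [AddSubgroupClass.coe_sub, hact]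
    | zero => exact AddSubgroup.zero_mem _
    | add a b _ _ ha hb => exact AddSubgroup.add_mem _ ha hb
    | neg a _ ha => exact AddSubgroup.neg_mem _ ha
  exact h2 x h1

/-- **(OLD).**  `J` a `G_ℚ`-module all of whose torsion groups `J[p ^ n]` carry Hopf models
(frozen S19 shape), `p` odd, `P | p`.  Every `G_ℚ`-stable subgroup
`Y ≤ ⋃ₙ I_aug (J[p ^ n]) ∩ J[p]` is its own inertia augmentation: `Y_I = 0`. -/
theorem augSub_eq_of_hopfModel [Fact p.Prime] (hp2 : p ≠ 2)
    (hJ : ∀ n : ℕ, ∃ act : GQ → ↥(Submodule.torsionBy ℤ J ((p : ℤ) ^ n)) →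
        ↥(Submodule.torsionBy ℤ J ((p : ℤ) ^ n)),
      (∀ σ m, ((act σ m : ↥(Submodule.torsionBy ℤ J ((p : ℤ) ^ n))) : J) = σ • (m : J)) ∧
        Fermat.Agent.S19.HopfModel p ↥(Submodule.torsionBy ℤ J ((p : ℤ) ^ n)) act)
    (P : ValuationSubring Qb) (hP : P.LiesOverPrime p)
    (Y : AddSubgroup J) (hY : ∀ (σ : GQ), ∀ y ∈ Y, σ • y ∈ Y) (hpY : ∀ y ∈ Y, p • y = 0)
    (hYaug : ∀ y ∈ Y, ∃ n : ℕ, y ∈ augTors p J P n) : augSub P Y = Y := by
  refine le_antisymm (augSub_le P Y hY) fun y hy => ?_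
  obtain ⟨n, hn⟩ := hYaug y hy
  obtain ⟨act, hact, hmodel⟩ := hJ n
  exact mem_augSub_of_mem_augTors hp2 n act hact hmodel P hP Y hY hpY hy hn

end Torsion

section JZero

open Fermat.Agent.S19 (HopfModel Tors torsAct)

/-- The frozen S19, in the landed `HopfModel` form (cf. `S19.frozen_of_hopfModel`). -/
def S19HopfStatement : Prop :=
  ∀ (N : ℕ) [NeZero N] (ℓ : ℕ) [Fact ℓ.Prime], ¬ ℓ ∣ N → ∀ k : ℕ,
    HopfModel ℓ (Tors N ℓ k) (torsAct N ℓ k)

/-- **(OLD)** for one level `M'`, from Hopf models on the `p`-power torsion of `J₀(M')`. -/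
theorem augSub_eq_jZero {p : ℕ} [Fact p.Prime] (hp2 : p ≠ 2) (M' : ℕ) [NeZero M']
    (hS19 : ∀ k : ℕ, HopfModel p (Tors M' p k) (torsAct M' p k))
    (P : ValuationSubring _root_.Fermat.Agent.S56.Qb) (hP : P.LiesOverPrime p)
    (Y : AddSubgroup (ModularCurve.JZero M')) (hY : ∀ (σ : GQ), ∀ y ∈ Y, σ • y ∈ Y)
    (hpY : ∀ y ∈ Y, p • y = 0)
    (hYaug : ∀ y ∈ Y, ∃ n : ℕ, y ∈ augTors p (ModularCurve.JZero M') P n) :
    augSub P Y = Y :=
  augSub_eq_of_hopfModel hp2 (fun n => ⟨torsAct M' p n, fun _ _ => rfl, hS19 n⟩) P hP Y hY hpY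
    hYaug

/-- **(OLD)**, as a `Prop`: at a level `M'` prime to the odd prime `p`, a `G_ℚ`-stable subgroup
of `J₀(M')[p]` contained in `⋃ₙ I_aug (J₀(M')[p ^ n])` has trivial `I_P`-coinvariants. -/
def OldAugJZero : Prop :=
  ∀ (p : ℕ) [Fact p.Prime], p ≠ 2 → ∀ (M' : ℕ) [NeZero M'], ¬ p ∣ M' →
    ∀ (P : ValuationSubring _root_.Fermat.Agent.S56.Qb), P.LiesOverPrime p →
    ∀ (Y : AddSubgroup (ModularCurve.JZero M')), (∀ (σ : GQ), ∀ y ∈ Y, σ • y ∈ Y) →
      (∀ y ∈ Y, p • y = 0) →
      (∀ y ∈ Y, ∃ n : ℕ, y ∈ augTors p (ModularCurve.JZero M') P n) →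
      augSub P Y = Y

/-- **(OLD)** from the frozen S19. -/
theorem oldAug_of_s19 (hS19 : S19HopfStatement) : OldAugJZero :=
  fun p _ hp2 M' _ hpM' P hP Y hY hpY hYaug =>
    augSub_eq_jZero hp2 M' (fun k => hS19 M' p hpM' k) P hP Y hY hpY hYaug

end JZero

end Fermat.Agent.S33.H706

end

end
-- ===== PACK-END S33/H706/Old.lean

-- ===== PACK-BEGIN S37/H697/Final.lean
section




/-!
# S37 (helper697): the frozen statement S37 from THREE named inputs (route B)

With `HeckeInputsAlong` (helper398, `Lib/FF398`), the Riemann bound (helper98) and `deg = 1`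
on `main`, the bounded-homomorphism route reduces S37 to

* `hRed : ReductionInputsModL A N`   — existence of a place reduction with conservation
  `r_* div y = div ȳ` (Prelude `IsPlaceReductionAlong`) and `PrincipalGeneratedByIntegral`;
* `hS18 : Core.InjTorsionModL N ℓ A` — the conclusion of the frozen statement S18;
* `hK   : KroneckerNorm A (residue A) N ℓ φ` for the Frobenius `φ` of the residue field —
  the norm of `y(q^ℓ)` along `α` is integral with reduction `(Φ⁻¹ ȳ)^ℓ · Φ ȳ`.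

No pointwise statement about the reduction of places (`inertia`, `es` of `Core.PlaceRed`,
value compatibility, separation) is needed.
-/

set_option autoImplicit false
set_option synthInstance.maxHeartbeats 400000
set_option maxHeartbeats 1600000

noncomputable section

open HahnSeries IntermediateField AlgebraicCurve ModularCurve ValuationSubring

namespace Fermat.Agent.S37.H697

/-- The Riemann bound for `ℚ̄(X₀(N))` (helper98). -/
theorem riemannBound_modular (N : ℕ) [NeZero N] :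
    RiemannBound (AlgebraicClosure ℚ) (modularFunctionFieldBar N) :=
  H98.riemannBound_modularFunctionFieldBar N

/-- **`Core.WeakRedData` from a place reduction, S18 and the Kronecker congruence.** -/
def weakRedData_of_kronecker (N : ℕ) [NeZero N] (A : ValuationSubring (AlgebraicClosure ℚ))
    (ℓ : ℕ) [NeZero ℓ]
    (h : ReductionInputsModL A N)
    (hinj : Core.InjTorsionModL N ℓ A)
    (hK : ∀ φ : IsLocalRing.ResidueField A ≃+* IsLocalRing.ResidueField A, (∀ x, φ x = x ^ ℓ) →
        KroneckerNorm A (IsLocalRing.residue A) N ℓ φ)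
    (σ₀ : AlgebraicClosure ℚ ≃ₐ[ℚ] AlgebraicClosure ℚ) (hσ₀ : A.IsFrobeniusAt σ₀ ℓ) :
    Core.WeakRedData N A ℓ σ₀ :=
  weakRedData_of N A ℓ h hinj (riemannBound_modular N)
    (fun P => Fermat.Agent.Lib.FF398.deg_eq_one_FF N P)
    (Fermat.Agent.Lib.FF398.heckeInputsAlong N ℓ) hK σ₀ hσ₀

/-- **The frozen statement S37 from a place reduction, S18 and the Kronecker congruence.** -/
theorem result_of_kronecker (N p : ℕ) [NeZero N]
    (hRed : ∀ ℓ : ℕ, ℓ.Prime → ¬ ℓ ∣ N →
      ∀ A : ValuationSubring (AlgebraicClosure ℚ), A.LiesOverPrime ℓ → ReductionInputsModL A N)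
    (hS18 : ∀ ℓ : ℕ, ℓ.Prime → ¬ ℓ ∣ N →
      ∀ A : ValuationSubring (AlgebraicClosure ℚ), A.LiesOverPrime ℓ → Core.InjTorsionModL N ℓ A)
    (hK : ∀ (ℓ : ℕ) (hℓ : ℓ.Prime), ¬ ℓ ∣ N →
      ∀ A : ValuationSubring (AlgebraicClosure ℚ), A.LiesOverPrime ℓ →
        haveI : NeZero ℓ := ⟨hℓ.ne_zero⟩
        ∀ φ : IsLocalRing.ResidueField A ≃+* IsLocalRing.ResidueField A, (∀ x, φ x = x ^ ℓ) →
          KroneckerNorm A (IsLocalRing.residue A) N ℓ φ)
    (hcomm : ModularCurve.HeckeOperatorsCommuteBar N) :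
    letI := ModularCurve.heckeModuleBar N
    ∀ (_ : SMulCommClass (AlgebraicClosure ℚ ≃ₐ[ℚ] AlgebraicClosure ℚ) ModularCurve.HeckeAlg
      (ModularCurve.JZero N)),
      ModularCurve.SpecializationExists (K := ℚ) (L := AlgebraicClosure ℚ) N p
        (ModularCurve.JZero N) :=
  H99.result_of_redData N p
    (fun ℓ hℓ hℓN A hA =>
      haveI : NeZero ℓ := ⟨hℓ.ne_zero⟩
      redData_of N A ℓ hℓ (hRed ℓ hℓ hℓN A hA) (hS18 ℓ hℓ hℓN A hA) (riemannBound_modular N)
        (fun P => Fermat.Agent.Lib.FF398.deg_eq_one_FF N P)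
        (Fermat.Agent.Lib.FF398.heckeInputsAlong N ℓ) (hK ℓ hℓ hℓN A hA))
    hcomm

end Fermat.Agent.S37.H697

end
end
-- ===== PACK-END S37/H697/Final.lean

-- ===== PACK-BEGIN S37/H628/E2Degree.lean
section






/-!
# S37 / RED-E2 (helper628): the four (H1) fields of `Red.Datum.Good` for the modular datum

`Red.Datum.Good` (helper40, `Fermat/Agent/S37/Red/Spec.lean`) asks for
* `finite     : FiniteDimensional K⟮G.x⟯ F`
* `finite_k   : FiniteDimensional k⟮G.xk⟯ Fk`
* `sep_k      : Algebra.IsSeparable k⟮G.xk⟯ Fk`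
* `finrank_eq : Module.finrank K⟮G.x⟯ F = Module.finrank k⟮G.xk⟯ Fk`

Here they are proved for `F = ℚ̄(X₀(N))`, `F_k = k(j(q^d) : d ∣ N)`, `k = A/𝔪`, `A` over `ℓ ∤ N`,
for ANY coordinate whose `q`-expansion is `j` (`jqModC`), so that they plug into any construction
of the datum with `x = j`:

* general field `k` with the primes of `N` invertible:
  `finrank_adjoin_fullC`, `finiteDimensional_adjoin_fullC`, `isSeparable_adjoin_fullC`;
* `ℚ̄`: `finrank_adjoin_bar`, `finiteDimensional_adjoin_bar`;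
* `good_H1` : the four fields at once for a `Red.Datum` with `G.x = j`, `G.xk = j̄`
  (hypotheses on the `q`-expansions of `G.x` and `G.xk` only).
Both degrees are `ψ(N)` (S28 degree theory, helper988/helper867); separability is helper264's
`algebra_isSeparable_full`.
-/

set_option autoImplicit false
set_option synthInstance.maxHeartbeats 400000
set_option linter.style.haveILetI false
set_option linter.unusedSectionVars false

noncomputable section

namespace Fermat.Agent.S37.H628

open ModularCurve IntermediateField AlgebraicCurve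

section General

variable {K L : Type*} [Field K] [Field L] [Algebra K L]

/-- the subfield `K(x)` of the field `↥E` corresponds to the subfield `K(x)` of the ambient
field -/
theorem comap_val_adjoin_singleton (E : IntermediateField K L) (x : E) :
    (K⟮(x : L)⟯).comap E.val = K⟮x⟯ := by
  have h1 : (K⟮x⟯).map E.val = K⟮(x : L)⟯ := by
    rw [adjoin_map, Set.image_singleton]
    rfl
  rw [← h1]
  exact comap_map _ _

/-- degree of `↥E` over `K(x)` as a relative degree in the ambient field -/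
theorem finrank_adjoin_subtype_eq_relfinrank (E : IntermediateField K L) (x : E) :
    Module.finrank K⟮x⟯ E = (K⟮(x : L)⟯).relfinrank E := by
  have h1 := relfinrank_comap (K⟮(x : L)⟯) E.val ⊤
  rw [relfinrank_top_right, ← AlgHom.fieldRange_eq_map, fieldRange_val,
    comap_val_adjoin_singleton] at h1
  exact h1

/-- the same for an element given by its value in the ambient field -/
theorem finrank_adjoin_subtype_eq_relfinrank' (E : IntermediateField K L) (x : E) {y : L}
    (hxy : (x : L) = y) : Module.finrank K⟮x⟯ E = (K⟮y⟯).relfinrank E := by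
  rw [finrank_adjoin_subtype_eq_relfinrank, hxy]

end General

section AnyField

variable (k : Type*) [Field k] (N : ℕ) [NeZero N]

/-- **degree**: `[F_{N,k} : k(x)] = ψ(N)` for every `x ∈ F_{N,k}` with `q`-expansion `j`. -/
theorem finrank_adjoin_fullC (hchar : ∀ p : ℕ, p.Prime → p ∣ N → (p : k) ≠ 0)
    (x : modularFunctionFieldFullC k N) (hx : (x : LaurentSeries k) = jqModC k) :
    Module.finrank k⟮x⟯ (modularFunctionFieldFullC k N) = dedekindPsi N := by
  rw [finrank_adjoin_subtype_eq_relfinrank' _ x hx]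
  exact Fermat.Agent.S28.H988.relfinrank_jField_full_eq k N (NeZero.ne N) hchar

/-- **finiteness** of `F_{N,k}` over `k(x)`. -/
theorem finiteDimensional_adjoin_fullC (hchar : ∀ p : ℕ, p.Prime → p ∣ N → (p : k) ≠ 0)
    (x : modularFunctionFieldFullC k N) (hx : (x : LaurentSeries k) = jqModC k) :
    FiniteDimensional k⟮x⟯ (modularFunctionFieldFullC k N) := by
  apply Module.finite_of_finrank_pos
  rw [finrank_adjoin_fullC k N hchar x hx]
  exact Fermat.Agent.S28.H988.dedekindPsi_pos N (NeZero.ne N)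

/-- **separability** of `F_{N,k}` over `k(x)`, `k` perfect of characteristic `p`. -/
theorem isSeparable_adjoin_fullC [PerfectField k] (p : ℕ) [Fact p.Prime] [CharP k p]
    (hchar : ∀ r : ℕ, r.Prime → r ∣ N → (r : k) ≠ 0)
    (x : modularFunctionFieldFullC k N) (hx : (x : LaurentSeries k) = jqModC k) :
    Algebra.IsSeparable k⟮x⟯ (modularFunctionFieldFullC k N) := by
  have hx' : x = (⟨jqModC k, jqModC_mem_full k N⟩ : modularFunctionFieldFullC k N) :=
    Subtype.ext hx
  subst hx'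
  haveI := finiteDimensional_adjoin_fullC k N hchar
    (⟨jqModC k, jqModC_mem_full k N⟩ : modularFunctionFieldFullC k N) rfl
  exact Fermat.Agent.S18.H264.algebra_isSeparable_full k p N

end AnyField

section Bar

variable (N : ℕ) [NeZero N]

/-- **degree**: `[ℚ̄(X₀(N)) : ℚ̄(x)] = ψ(N)` for every `x` with `q`-expansion `j`. -/
theorem finrank_adjoin_bar (x : modularFunctionFieldBar N)
    (hx : (x : LaurentSeries (AlgebraicClosure ℚ)) = jqModC (AlgebraicClosure ℚ)) :
    Module.finrank (AlgebraicClosure ℚ)⟮x⟯ (modularFunctionFieldBar N) = dedekindPsi N := by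
  rw [finrank_adjoin_subtype_eq_relfinrank' _ x hx]
  exact Fermat.Agent.S28.H988.relfinrank_jField_bar_eq N (NeZero.ne N)

/-- **finiteness** of `ℚ̄(X₀(N))` over `ℚ̄(x)`. -/
theorem finiteDimensional_adjoin_bar (x : modularFunctionFieldBar N)
    (hx : (x : LaurentSeries (AlgebraicClosure ℚ)) = jqModC (AlgebraicClosure ℚ)) :
    FiniteDimensional (AlgebraicClosure ℚ)⟮x⟯ (modularFunctionFieldBar N) := by
  apply Module.finite_of_finrank_pos
  rw [finrank_adjoin_bar N x hx]
  exact Fermat.Agent.S28.H988.dedekindPsi_pos N (NeZero.ne N)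

end Bar

section Residue

variable (N : ℕ) [NeZero N] {ℓ : ℕ} (hℓ : ℓ.Prime) (hℓN : ¬ ℓ ∣ N)
  (A : ValuationSubring (AlgebraicClosure ℚ)) (hA : A.LiesOverPrime ℓ)

include hℓ hℓN hA in
/-- the primes dividing `N` are invertible in the residue field of `A` -/
theorem natCast_ne_zero_residueField (p : ℕ) (hp : p.Prime) (hpN : p ∣ N) :
    ((p : ℕ) : IsLocalRing.ResidueField A) ≠ 0 := by
  haveI : CharP (IsLocalRing.ResidueField A) ℓ :=
    Fermat.Agent.S37.H448.charP_residueField_of_liesOverPrime hℓ A hA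
  intro h
  rw [CharP.cast_eq_zero_iff (IsLocalRing.ResidueField A) ℓ] at h
  have : ℓ = p := (Nat.prime_dvd_prime_iff_eq hℓ hp).mp h
  exact hℓN (this ▸ hpN)

include hℓ hℓN hA in
/-- **RED-E2**: the four (H1) fields of `Red.Datum.Good` for every reduction datum on
`(ℚ̄(X₀(N)), F_{N,k})` whose coordinate is `j`. -/
theorem good_H1 (G : Red.Datum A (IsLocalRing.residue A) (Red.FN N) (Red.FNk A N))
    (hx : ((G.x : Red.FN N) : LaurentSeries (AlgebraicClosure ℚ)) =
      jqModC (AlgebraicClosure ℚ))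
    (hxk : ((G.xk : Red.FNk A N) : LaurentSeries (IsLocalRing.ResidueField A)) =
      jqModC (IsLocalRing.ResidueField A)) :
    FiniteDimensional (AlgebraicClosure ℚ)⟮G.x⟯ (Red.FN N) ∧
      FiniteDimensional (IsLocalRing.ResidueField A)⟮G.xk⟯ (Red.FNk A N) ∧
      Algebra.IsSeparable (IsLocalRing.ResidueField A)⟮G.xk⟯ (Red.FNk A N) ∧
      Module.finrank (AlgebraicClosure ℚ)⟮G.x⟯ (Red.FN N) =
        Module.finrank (IsLocalRing.ResidueField A)⟮G.xk⟯ (Red.FNk A N) := by
  have hchar := natCast_ne_zero_residueField N hℓ hℓN A hA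
  haveI : Fact ℓ.Prime := ⟨hℓ⟩
  haveI : CharP (IsLocalRing.ResidueField A) ℓ :=
    Fermat.Agent.S37.H448.charP_residueField_of_liesOverPrime hℓ A hA
  haveI : IsAlgClosed (IsLocalRing.ResidueField A) :=
    Fermat.Agent.S18.H9.resAlgClosed (AlgebraicClosure ℚ) A
  refine ⟨finiteDimensional_adjoin_bar N G.x hx,
    finiteDimensional_adjoin_fullC _ N hchar G.xk hxk,
    isSeparable_adjoin_fullC _ N ℓ hchar G.xk hxk, ?_⟩
  rw [finrank_adjoin_bar N G.x hx]
  exact (finrank_adjoin_fullC _ N hchar G.xk hxk).symm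

end Residue

end Fermat.Agent.S37.H628

end
end
-- ===== PACK-END S37/H628/E2Degree.lean

-- ===== PACK-BEGIN S37/H339/LeafH1.lean
section





/-!
# S37 BOARD v3, leaf D4 = `Board3.leaf_H1` (helper339)

The four (H1) fields of `Red.Datum.Good` (finite, finite_k, sep_k, finrank_eq) for ANY reduction
datum on `(F_M, F_{M,k})` whose coordinate is an admissible coordinate `x` (`Mod.IsCoordinate`):
`x = j` (`ℓ ≥ 5`), `x = t₂` (`ℓ = 3`, `j x² = (x + 256)³`), `x = t₃` (`ℓ = 2`,
`j x³ = (x + 27)(x + 243)³`), with integral model `X ∈ ℤ((q))`.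

`leaf_H1` is the statement of `Board3.leaf_H1` (origin/helper37 `Core/Skeleton4.lean`) with the
structure `IsModelOf M x X` replaced by its two fields `coeff_neg_one`, `coe_eq` that are used:
apply it as `H339.leaf_H1 M ℓ hℓ hℓM A hA x S hx X hX.coeff_neg_one hX.coe_eq G hGx hGxk`.

Proof: tower law over `K(j)`; `[K(t₂) : K(j)] = 3`, `[K(t₃) : K(j)] = 4` in characteristic `0`
AND in characteristic `ℓ` (`RatTower.lean`), `[F : K(j)] = ψ(M)` on both sides (`S37.H628`).
-/

set_option autoImplicit false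
set_option synthInstance.maxHeartbeats 400000

noncomputable section

namespace Fermat.Agent.S37.H339

/-! ### the two rational functions -/

section Polys

open Polynomial

variable (K : Type*) [Field K]

/-- numerator of `j` as a function of `t₂` -/
def numTwo : K[X] := (X + C 256) ^ 3
/-- denominator of `j` as a function of `t₂` -/
def denTwo : K[X] := X ^ 2
/-- numerator of `j` as a function of `t₃` -/
def numThree : K[X] := (X + C 27) * (X + C 243) ^ 3
/-- denominator of `j` as a function of `t₃` -/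
def denThree : K[X] := X ^ 3

theorem natDegree_numTwo : (numTwo K).natDegree = 3 := by
  rw [numTwo, natDegree_pow, natDegree_X_add_C]

theorem natDegree_denTwo : (denTwo K).natDegree = 2 := by
  rw [denTwo, natDegree_X_pow]

theorem natDegree_numThree : (numThree K).natDegree = 4 := by
  rw [numThree, natDegree_mul (X_add_C_ne_zero _) (pow_ne_zero _ (X_add_C_ne_zero _)),
    natDegree_pow, natDegree_X_add_C, natDegree_X_add_C]

theorem natDegree_denThree : (denThree K).natDegree = 3 := by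
  rw [denThree, natDegree_X_pow]

theorem denTwo_ne_zero : denTwo K ≠ 0 := pow_ne_zero _ X_ne_zero

theorem denThree_ne_zero : denThree K ≠ 0 := pow_ne_zero _ X_ne_zero

variable {K}

theorem isCoprime_X_add_C_X {a : K} (ha : a ≠ 0) : IsCoprime (X + C a : K[X]) X := by
  refine ⟨C a⁻¹, - C a⁻¹, ?_⟩
  have : C a⁻¹ * C a = (1 : K[X]) := by rw [← C_mul, inv_mul_cancel₀ ha, C_1]
  linear_combination this

theorem isCoprime_two (h : (2 : K) ≠ 0) : IsCoprime (numTwo K) (denTwo K) := by
  have h256 : (256 : K) ≠ 0 := by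
    have : (256 : K) = 2 ^ 8 := by norm_num
    rw [this]
    exact pow_ne_zero _ h
  exact ((isCoprime_X_add_C_X h256).pow_left).pow_right

theorem isCoprime_three (h : (3 : K) ≠ 0) : IsCoprime (numThree K) (denThree K) := by
  have h27 : (27 : K) ≠ 0 := by
    have : (27 : K) = 3 ^ 3 := by norm_num
    rw [this]
    exact pow_ne_zero _ h
  have h243 : (243 : K) ≠ 0 := by
    have : (243 : K) = 3 ^ 5 := by norm_num
    rw [this]
    exact pow_ne_zero _ h
  exact (IsCoprime.mul_left (isCoprime_X_add_C_X h27)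
    (isCoprime_X_add_C_X h243).pow_left).pow_right

variable {F : Type*} [Field F] [Algebra K F]

theorem aeval_numTwo (t : F) : aeval t (numTwo K) = (t + 256) ^ 3 := by
  simp [numTwo, _root_.map_ofNat]

theorem aeval_denTwo (t : F) : aeval t (denTwo K) = t ^ 2 := by
  simp [denTwo]

theorem aeval_numThree (t : F) : aeval t (numThree K) = (t + 27) * (t + 243) ^ 3 := by
  simp [numThree, _root_.map_ofNat]

theorem aeval_denThree (t : F) : aeval t (denThree K) = t ^ 3 := by
  simp [denThree]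

end Polys

open ModularCurve AlgebraicCurve HahnSeries IsLocalRing IntermediateField
open Fermat.Agent.S18 (Mod.Om Mod.jOm Mod.IsCoordinate)

/-- `ℚ̄` -/
local notation "Qb" => AlgebraicClosure ℚ

/-! ### `q`-expansions -/

theorem coeffMap_intCast_jqModC (R : Type*) [CommRing R] :
    coeffMap (Int.castRingHom R) (jqModC ℤ) = jqModC R :=
  (jqModC_eq_map_intCast R).symm

theorem coeffMap_intCast_injective' (R : Type*) [CommRing R] [CharZero R] :
    Function.Injective (coeffMap (Int.castRingHom R)) := by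
  intro x y h
  ext n
  have := congrArg (fun z => z.coeff n) h
  simp only [coeffMap_coeff, eq_intCast] at this
  exact Int.cast_injective this

/-- an element of `F_M` with `q`-expansion `q⁻¹ + …` is transcendental over `ℚ̄` -/
theorem transcendental_of_coeff_neg_one (M : ℕ) (x : Mod.Om M) (X : LaurentSeries ℤ)
    (hX1 : X.coeff (-1) = 1)
    (hXc : (x : LaurentSeries Qb) = coeffMap (Int.castRingHom Qb) X) :
    Transcendental Qb x := by
  intro halg
  have hint : IsIntegral Qb x := halg.isIntegral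
  have hdeg : (minpoly Qb x).degree = 1 :=
    IsAlgClosed.degree_eq_one_of_irreducible Qb (minpoly.irreducible hint)
  obtain ⟨c, hc⟩ := minpoly.mem_range_of_degree_eq_one Qb x hdeg
  have h1 : (x : LaurentSeries Qb).coeff (-1) = 1 := by
    rw [hXc, coeffMap_coeff, hX1, _root_.map_one]
  have h2 : (x : LaurentSeries Qb).coeff (-1) = 0 := by
    rw [← hc]
    show (algebraMap Qb (LaurentSeries Qb) c).coeff (-1) = 0
    rw [algebraMap_laurentSeries_eq_single, HahnSeries.coeff_single_of_ne (by norm_num)]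
  exact one_ne_zero (h1.symm.trans h2)

/-! ### the generic combination -/

section Combine

variable (M : ℕ) [NeZero M] {ℓ : ℕ} (hℓ : ℓ.Prime) (hℓM : ¬ ℓ ∣ M)
  (A : ValuationSubring Qb) (hA : A.LiesOverPrime ℓ)

/-- `j̄ ∈ F_{M,k}` -/
def jkElt : modularFunctionFieldFullC (ResidueField A) M :=
  ⟨jqModC (ResidueField A), jqModC_mem_full (ResidueField A) M⟩

set_option maxHeartbeats 2000000 in
include hℓ hℓM hA in
/-- (H1) for a coordinate `t` with `j · Q(t) = P(t)` in characteristic `0` and `ℓ`, the two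
rational functions having the same degree `d`. -/
theorem good_H1_of_rel
    (G : Fermat.Agent.S37.Red.Datum A (residue A) (modularFunctionFieldBar M)
      (modularFunctionFieldFullC (ResidueField A) M))
    (ht : Transcendental Qb G.x)
    (P Q : Polynomial Qb) (Pk Qk : Polynomial (ResidueField A)) (d : ℕ) (hd : 0 < d)
    (hdeg : max P.natDegree Q.natDegree = d) (hdegk : max Pk.natDegree Qk.natDegree = d)
    (hcop : IsCoprime P Q) (hcopk : IsCoprime Pk Qk) (hQ : Q ≠ 0) (hQk : Qk ≠ 0)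
    (hrel : Mod.jOm M * Polynomial.aeval G.x Q = Polynomial.aeval G.x P)
    (hrelk : jkElt M A * Polynomial.aeval G.xk Qk = Polynomial.aeval G.xk Pk) :
    FiniteDimensional (IntermediateField.adjoin Qb {G.x}) (modularFunctionFieldBar M) ∧
      FiniteDimensional (IntermediateField.adjoin (ResidueField A) {G.xk})
        (modularFunctionFieldFullC (ResidueField A) M) ∧
      Algebra.IsSeparable (IntermediateField.adjoin (ResidueField A) {G.xk})
        (modularFunctionFieldFullC (ResidueField A) M) ∧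
      Module.finrank (IntermediateField.adjoin Qb {G.x}) (modularFunctionFieldBar M) =
        Module.finrank (IntermediateField.adjoin (ResidueField A) {G.xk})
          (modularFunctionFieldFullC (ResidueField A) M) := by
  haveI : Fact ℓ.Prime := ⟨hℓ⟩
  haveI : CharP (ResidueField A) ℓ :=
    Fermat.Agent.S37.H448.charP_residueField_of_liesOverPrime hℓ A hA
  haveI : IsAlgClosed (ResidueField A) := Fermat.Agent.S18.H9.resAlgClosed Qb A
  have hchar := Fermat.Agent.S37.H628.natCast_ne_zero_residueField M hℓ hℓM A hA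
  have hjfin := Fermat.Agent.S37.H628.finiteDimensional_adjoin_bar M (Mod.jOm M)
    (Fermat.Agent.S18.H333.jOm_coe M)
  have hjrank := Fermat.Agent.S37.H628.finrank_adjoin_bar M (Mod.jOm M)
    (Fermat.Agent.S18.H333.jOm_coe M)
  have hkfin := Fermat.Agent.S37.H628.finiteDimensional_adjoin_fullC (ResidueField A) M hchar
    (jkElt M A) rfl
  have hkrank := Fermat.Agent.S37.H628.finrank_adjoin_fullC (ResidueField A) M hchar
    (jkElt M A) rfl
  have hksep := Fermat.Agent.S37.H628.isSeparable_adjoin_fullC (ResidueField A) M ℓ hchar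
    (jkElt M A) rfl
  have htk : Transcendental (ResidueField A) G.xk := G.xk_transc
  obtain ⟨h1, h2, -⟩ := h1_of_tower G.x (Mod.jOm M) ht P Q hcop hQ hrel hjfin
  obtain ⟨h3, h4, h5⟩ := h1_of_tower G.xk (jkElt M A) htk Pk Qk hcopk hQk hrelk hkfin
  refine ⟨h1, h3, h5 hksep, ?_⟩
  rw [hdeg, hjrank] at h2
  rw [hdegk, hkrank] at h4
  exact Nat.eq_of_mul_eq_mul_left hd (h2.trans h4.symm)

end Combine

/-! ### the relations in `ℤ((q))` and in characteristic `ℓ` -/

section Relations

variable (M : ℕ) (A : ValuationSubring Qb)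

theorem coe_ofNat_bar (n : ℕ) [n.AtLeastTwo] :
    (((ofNat(n) : Mod.Om M)) : LaurentSeries Qb) = ofNat(n) :=
  map_ofNat (modularFunctionFieldBar M).val n

theorem coe_ofNat_fullC (k : Type*) [Field k] (n : ℕ) [n.AtLeastTwo] :
    (((ofNat(n) : modularFunctionFieldFullC k M)) : LaurentSeries k) = ofNat(n) :=
  map_ofNat (modularFunctionFieldFullC k M).val n

/-- the `t₂`-identity over `ℤ` -/
theorem int_rel_two (x : Mod.Om M) (X : LaurentSeries ℤ)
    (hXc : (x : LaurentSeries Qb) = coeffMap (Int.castRingHom Qb) X)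
    (hid : Mod.jOm M * x ^ 2 = (x + 256) ^ 3) :
    jqModC ℤ * X ^ 2 = (X + 256) ^ 3 := by
  apply coeffMap_intCast_injective' Qb
  rw [_root_.map_mul, map_pow, map_pow, _root_.map_add, map_ofNat, coeffMap_intCast_jqModC, ← hXc,
    ← Fermat.Agent.S18.H333.jOm_coe M]
  have := congrArg (fun z : Mod.Om M => (z : LaurentSeries Qb)) hid
  simpa only [IntermediateField.coe_mul, IntermediateField.coe_pow, IntermediateField.coe_add,
    coe_ofNat_bar] using this

/-- the `t₃`-identity over `ℤ` -/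
theorem int_rel_three (x : Mod.Om M) (X : LaurentSeries ℤ)
    (hXc : (x : LaurentSeries Qb) = coeffMap (Int.castRingHom Qb) X)
    (hid : Mod.jOm M * x ^ 3 = (x + 27) * (x + 243) ^ 3) :
    jqModC ℤ * X ^ 3 = (X + 27) * (X + 243) ^ 3 := by
  apply coeffMap_intCast_injective' Qb
  rw [_root_.map_mul, _root_.map_mul, map_pow, map_pow, _root_.map_add, _root_.map_add, map_ofNat, map_ofNat,
    coeffMap_intCast_jqModC, ← hXc, ← Fermat.Agent.S18.H333.jOm_coe M]
  have := congrArg (fun z : Mod.Om M => (z : LaurentSeries Qb)) hid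
  simpa only [IntermediateField.coe_mul, IntermediateField.coe_pow, IntermediateField.coe_add,
    coe_ofNat_bar] using this

/-- the `t₂`-identity in `F_{M,k}` -/
theorem rel_two_fullC (k : Type*) [Field k] (X : LaurentSeries ℤ)
    (hZ : jqModC ℤ * X ^ 2 = (X + 256) ^ 3) (j t : modularFunctionFieldFullC k M)
    (hj : (j : LaurentSeries k) = jqModC k)
    (ht : (t : LaurentSeries k) = coeffMap (Int.castRingHom k) X) :
    j * t ^ 2 = (t + 256) ^ 3 := by
  apply Subtype.ext
  have := congrArg (coeffMap (Int.castRingHom k)) hZ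
  rw [_root_.map_mul, map_pow, map_pow, _root_.map_add, map_ofNat, coeffMap_intCast_jqModC, ← hj, ← ht] at this
  simpa only [IntermediateField.coe_mul, IntermediateField.coe_pow, IntermediateField.coe_add,
    coe_ofNat_fullC] using this

/-- the `t₃`-identity in `F_{M,k}` -/
theorem rel_three_fullC (k : Type*) [Field k] (X : LaurentSeries ℤ)
    (hZ : jqModC ℤ * X ^ 3 = (X + 27) * (X + 243) ^ 3) (j t : modularFunctionFieldFullC k M)
    (hj : (j : LaurentSeries k) = jqModC k)
    (ht : (t : LaurentSeries k) = coeffMap (Int.castRingHom k) X) :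
    j * t ^ 3 = (t + 27) * (t + 243) ^ 3 := by
  apply Subtype.ext
  have := congrArg (coeffMap (Int.castRingHom k)) hZ
  rw [_root_.map_mul, _root_.map_mul, map_pow, map_pow, _root_.map_add, _root_.map_add, map_ofNat, map_ofNat,
    coeffMap_intCast_jqModC, ← hj, ← ht] at this
  simpa only [IntermediateField.coe_mul, IntermediateField.coe_pow, IntermediateField.coe_add,
    coe_ofNat_fullC] using this

end Relations

/-! ### the leaf -/

set_option maxHeartbeats 4000000 in
/-- **LEAF D4** (`Board3.leaf_H1`): the four (H1) fields of `Red.Datum.Good` for a reduction datum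
whose coordinate is an admissible coordinate `x` with integral model `X`
(`hX1`, `hXc` = fields `coeff_neg_one`, `coe_eq` of `Board3.IsModelOf M x X`). -/
theorem leaf_H1 (M ℓ : ℕ) [NeZero M] (hℓ : ℓ.Prime) (hℓM : ¬ ℓ ∣ M)
    (A : ValuationSubring (AlgebraicClosure ℚ)) (hA : A.LiesOverPrime ℓ)
    (x : Mod.Om M) (S : Finset (Mod.Om M)) (hx : Mod.IsCoordinate M ℓ x S)
    (X : LaurentSeries ℤ) (hX1 : X.coeff (-1) = 1)
    (hXc : (x : LaurentSeries (AlgebraicClosure ℚ)) =
      coeffMap (Int.castRingHom (AlgebraicClosure ℚ)) X)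
    (G : Fermat.Agent.S37.Red.Datum A (residue A) (modularFunctionFieldBar M)
      (modularFunctionFieldFullC (ResidueField A) M))
    (hGx : G.x = x)
    (hGxk : ((G.xk : modularFunctionFieldFullC (ResidueField A) M) :
      LaurentSeries (ResidueField A)) = coeffMap (Int.castRingHom (ResidueField A)) X) :
    FiniteDimensional (IntermediateField.adjoin (AlgebraicClosure ℚ) {G.x})
        (modularFunctionFieldBar M) ∧
      FiniteDimensional (IntermediateField.adjoin (ResidueField A) {G.xk})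
        (modularFunctionFieldFullC (ResidueField A) M) ∧
      Algebra.IsSeparable (IntermediateField.adjoin (ResidueField A) {G.xk})
        (modularFunctionFieldFullC (ResidueField A) M) ∧
      Module.finrank (IntermediateField.adjoin (AlgebraicClosure ℚ) {G.x})
          (modularFunctionFieldBar M) =
        Module.finrank (IntermediateField.adjoin (ResidueField A) {G.xk})
          (modularFunctionFieldFullC (ResidueField A) M) := by
  subst hGx
  haveI : CharP (ResidueField A) ℓ :=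
    Fermat.Agent.S37.H448.charP_residueField_of_liesOverPrime hℓ A hA
  rcases hx with ⟨-, hxj, -⟩ | ⟨hrel, -⟩
  · -- `x = j`
    have hx' : ((G.x : Mod.Om M) : LaurentSeries Qb) = jqModC Qb := by
      rw [hxj]
      exact Fermat.Agent.S18.H333.jOm_coe M
    have hXj : X = jqModC ℤ :=
      coeffMap_intCast_injective' Qb (by rw [← hXc, hx', coeffMap_intCast_jqModC])
    have hxk' : ((G.xk : modularFunctionFieldFullC (ResidueField A) M) :
        LaurentSeries (ResidueField A)) = jqModC (ResidueField A) := by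
      rw [hGxk, hXj, coeffMap_intCast_jqModC]
    exact Fermat.Agent.S37.H628.good_H1 M hℓ hℓM A hA G hx' hxk'
  · have ht := transcendental_of_coeff_neg_one M G.x X hX1 hXc
    rcases hrel with ⟨h3, hid, -⟩ | ⟨h2, hid, -⟩
    · -- `x = t₂`, `ℓ = 3`
      subst h3
      have h2k : (2 : ResidueField A) ≠ 0 := by
        intro h
        have h' : ((2 : ℕ) : ResidueField A) = 0 := by exact_mod_cast h
        rw [CharP.cast_eq_zero_iff (ResidueField A) 3] at h'
        omega
      have hZ := int_rel_two M G.x X hXc hid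
      have hrelk := rel_two_fullC M (ResidueField A) X hZ (jkElt M A) G.xk rfl hGxk
      refine good_H1_of_rel M hℓ hℓM A hA G ht (numTwo Qb) (denTwo Qb)
        (numTwo (ResidueField A)) (denTwo (ResidueField A)) 3 (by norm_num) ?_ ?_
        (isCoprime_two two_ne_zero) (isCoprime_two h2k) (denTwo_ne_zero _) (denTwo_ne_zero _)
        ?_ ?_
      · rw [natDegree_numTwo, natDegree_denTwo]; rfl
      · rw [natDegree_numTwo, natDegree_denTwo]; rfl
      · rw [aeval_denTwo, aeval_numTwo]; exact hid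
      · rw [aeval_denTwo, aeval_numTwo]; exact hrelk
    · -- `x = t₃`, `ℓ = 2`
      subst h2
      have h3k : (3 : ResidueField A) ≠ 0 := by
        intro h
        have h' : ((3 : ℕ) : ResidueField A) = 0 := by exact_mod_cast h
        rw [CharP.cast_eq_zero_iff (ResidueField A) 2] at h'
        omega
      have hZ := int_rel_three M G.x X hXc hid
      have hrelk := rel_three_fullC M (ResidueField A) X hZ (jkElt M A) G.xk rfl hGxk
      refine good_H1_of_rel M hℓ hℓM A hA G ht (numThree Qb) (denThree Qb)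
        (numThree (ResidueField A)) (denThree (ResidueField A)) 4 (by norm_num) ?_ ?_
        (isCoprime_three three_ne_zero) (isCoprime_three h3k) (denThree_ne_zero _)
        (denThree_ne_zero _) ?_ ?_
      · rw [natDegree_numThree, natDegree_denThree]; rfl
      · rw [natDegree_numThree, natDegree_denThree]; rfl
      · rw [aeval_denThree, aeval_numThree]; exact hid
      · rw [aeval_denThree, aeval_numThree]; exact hrelk

end Fermat.Agent.S37.H339

end
end
-- ===== PACK-END S37/H339/LeafH1.lean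

-- ===== PACK-BEGIN S37/H579/RimOfBase.lean
section










/-!
# S37 / node_rim — assembly through the `Red` route, from (H3) alone (helper579)

NODE [RIM] (`ReductionInputsModL A N`, the place reduction map with the Prelude's (i), (ii) and
PGI) for every prime `ℓ ∤ N` and every valuation subring `A ⊆ ℚ̄` over `ℓ`, from the ONE remaining
input: normality (H3) of the special fibre of the `j`-line model.

* `node_rim_of_lift` : from `LiftFin A N`, `LiftInf A N` ((H3) over `A`, `Core.IntElt` language =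
  the conclusions of `H448.lift_fin_of_base_liesOver` / `lift_inf_of_base_liesOver`);
* `node_rim_of_base` : from (H3) for the functions defined over `𝔽_ℓ` (hypotheses `hbase` of H448);
* `node_rim_of_ring` : from (H3) for a model over a base ring `R₀` (e.g. `ℤ_(ℓ)`), in the shape
  `h0` of `H448.base_fin_of_ring` (+ the analogous shape at infinity).

Chain (all landed, no further hypothesis): `Red.H940.mainStatement` (RED-MAIN, helper940/160/399),
`Red.modG` + `node_rim_of_modG` (helper40), `H568.valueGroupHyp_modular`, `H628.good_H1` (H1),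
`Red.H217.good_of` (H4' from H1), `H448` (ascent `𝔽_ℓ → k`, CoreData, PGI), `H700.pgi`.
New here: the bridge between the `q`-expansion language of (H3) and `Red.Datum.chart/chartk`
(`isIntegralElem_of_mem_chartk`, `mem_chart_of_isIntegralElem`, `lift_fin_modGj`,
`lift_inf_modGj`, `good_modGj`).
-/

set_option autoImplicit false
set_option synthInstance.maxHeartbeats 400000
set_option linter.unusedSectionVars false

noncomputable section

namespace Fermat.Agent.S37.H579.RimBase

open ModularCurve AlgebraicCurve HahnSeries IsLocalRing Polynomial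
open Fermat.Agent.S37.Red Fermat.Agent.S37.Core Fermat.Agent.S37.H448

/-! ### generic: integrality along ring homomorphisms -/

section Generic

variable {R R' S : Type*} [CommRing R] [CommRing R'] [CommRing S]

/-- integrality with respect to `h` lifts along a surjection `f` onto the source of `h` -/
theorem isIntegralElem_comp_of_surjective (f : R →+* R') (hf : Function.Surjective f)
    (h : R' →+* S) {x : S} (hx : h.IsIntegralElem x) : (h.comp f).IsIntegralElem x := by
  obtain ⟨p, hp, hpx⟩ := hx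
  have hl : p ∈ Polynomial.lifts f :=
    (Polynomial.lifts_iff_coeff_lifts p).mpr fun i => by
      obtain ⟨r, hr⟩ := hf (p.coeff i)
      exact ⟨r, hr⟩
  obtain ⟨q, hq, -, hqm⟩ := Polynomial.lifts_and_natDegree_eq_and_monic hl hp
  refine ⟨q, hqm, ?_⟩
  rw [← Polynomial.eval₂_map, hq, hpx]

/-- integrality over `k[s] ⊆ F`, transported along `ι : F → L`, in `IsIntegralElem` form -/
theorem isIntegralElem_of_isIntegral_adjoin {k F L : Type*} [Field k] [Field F] [CommRing L]
    [Algebra k F] (ι : F →+* L) (e : k[X] →+* L) {s c : F}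
    (he_C : ∀ a, e (Polynomial.C a) = ι (algebraMap k F a)) (he_X : e Polynomial.X = ι s)
    (hc : IsIntegral (Algebra.adjoin k ({s} : Set F)) c) : e.IsIntegralElem (ι c) := by
  let sB : Algebra.adjoin k ({s} : Set F) := ⟨s, Algebra.subset_adjoin rfl⟩
  let f : k[X] →+* Algebra.adjoin k ({s} : Set F) := (Polynomial.aeval sB).toRingHom
  have hf : Function.Surjective f := by
    intro b
    have hb : (b : F) ∈ (Polynomial.aeval (R := k) s).range := by
      rw [← Algebra.adjoin_singleton_eq_range_aeval]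
      exact b.2
    obtain ⟨p, hp⟩ := hb
    refine ⟨p, Subtype.ext ?_⟩
    show ((Polynomial.aeval sB p : Algebra.adjoin k ({s} : Set F)) : F) = b
    rw [Polynomial.aeval_subalgebra_coe]
    exact hp
  have h1 : (ι.comp (algebraMap (Algebra.adjoin k ({s} : Set F)) F)).IsIntegralElem (ι c) :=
    RingHom.IsIntegralElem.map hc ι
  have h2 := isIntegralElem_comp_of_surjective f hf _ h1
  have heq : (ι.comp (algebraMap (Algebra.adjoin k ({s} : Set F)) F)).comp f = e := by
    apply Polynomial.ringHom_ext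
    · intro a
      rw [he_C]
      show ι ((Polynomial.aeval sB (Polynomial.C a) : Algebra.adjoin k ({s} : Set F)) : F) = _
      rw [Polynomial.aeval_C]
      rfl
    · rw [he_X]
      show ι ((Polynomial.aeval sB Polynomial.X : Algebra.adjoin k ({s} : Set F)) : F) = _
      rw [Polynomial.aeval_X]
  rw [heq] at h2
  exact h2

/-- integrality w.r.t. a ring hom with range in a subring `T` gives integrality over `T` -/
theorem isIntegral_of_isIntegralElem_range_le {R L : Type*} [CommRing R] [CommRing L]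
    (e : R →+* L) (T : Subring L) (h : ∀ r, e r ∈ T) {x : L} (hx : e.IsIntegralElem x) :
    IsIntegral T x := by
  have h1 : (T.subtype.comp (e.codRestrict T h)).IsIntegralElem x := by
    have : T.subtype.comp (e.codRestrict T h) = e := RingHom.ext fun r => rfl
    rw [this]
    exact hx
  exact RingHom.IsIntegralElem.of_comp h1

/-- range of an evaluation `R[X] → L` lies in every subring containing the constants and the
point -/
theorem eval₂RingHom_mem {R L : Type*} [CommRing R] [CommRing L] (φ : R →+* L) (u : L)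
    (T : Subring L) (hC : ∀ a, φ a ∈ T) (hu : u ∈ T) (p : R[X]) :
    Polynomial.eval₂RingHom φ u p ∈ T := by
  show Polynomial.eval₂ φ u p ∈ T
  rw [Polynomial.eval₂_eq_sum_range]
  exact sum_mem fun i _ => mul_mem (hC _) (pow_mem hu i)

end Generic

/-! ### bridge `q`-expansion language ↔ `Red.Datum` language -/

section Bridge

variable {N : ℕ} {A : ValuationSubring Qb} (G : Datum A (residue A) (FN N) (FNk A N))

/-- `c ∈ G.chartk s` in `q`-expansion language -/
theorem isIntegralElem_of_mem_chartk {s c : FNk A N} (hc : c ∈ G.chartk s) :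
    (evalSer (kA A) (s : LaurentSeries (kA A))).IsIntegralElem (c : LaurentSeries (kA A)) := by
  have hc' : IsIntegral (Algebra.adjoin (kA A) {s}) c := hc
  refine isIntegralElem_of_isIntegral_adjoin (algebraMap (FNk A N) (LaurentSeries (kA A)))
    (evalSer (kA A) (s : LaurentSeries (kA A))) ?_ ?_ hc'
  · intro a
    rw [evalSer_C]
    show HahnSeries.C a = algebraMap (kA A) (LaurentSeries (kA A)) a
    rw [algebraMap_laurentSeries_eq_single]
    rfl
  · rw [evalSer_X]
    rfl

/-- `b ∈ G.chart t` from `q`-expansion language: `y ∈ A((q))` integral over `A[u]`, where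
`u ∈ A((q))` is the `q`-expansion of `t`. -/
theorem mem_chart_of_isIntegralElem {t b : FN N} (u y : LaurentSeries A)
    (hu : coeffMap A.subtype u = (t : LaurentSeries Qb))
    (hy : coeffMap A.subtype y = (b : LaurentSeries Qb))
    (hint : (evalSeries A u).IsIntegralElem y) : b ∈ G.chart t := by
  show IsIntegral (G.polyRing t) b
  refine Fermat.Agent.S37.Red.H759.isIntegral_of_map_subring
    (algebraMap (FN N) (LaurentSeries Qb)) (algebraMap (FN N) (LaurentSeries Qb)).injective _ ?_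
  have h1 : ((coeffMap A.subtype).comp (evalSeries A u)).IsIntegralElem
      (coeffMap A.subtype y) := RingHom.IsIntegralElem.map hint _
  have heq : (coeffMap A.subtype).comp (evalSeries A u) =
      Polynomial.eval₂RingHom ((coeffMap A.subtype).comp (HahnSeries.C : A →+* LaurentSeries A))
        (coeffMap A.subtype u) := by
    apply Polynomial.ringHom_ext
    · intro a
      simp [evalSeries]
    · simp [evalSeries]
  rw [heq, hy] at h1
  refine isIntegral_of_isIntegralElem_range_le _ _ (fun p => ?_) h1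
  refine eval₂RingHom_mem _ _ _ (fun a => ?_) ?_ p
  · refine Subring.mem_map.mpr ⟨algebraMap Qb (FN N) (a : Qb), ?_, ?_⟩
    · exact (le_sup_left : G.constRing ≤ G.polyRing t)
        (Subring.mem_map.mpr ⟨(a : Qb), a.2, rfl⟩)
    · show ((algebraMap Qb (FN N) (a : Qb) : FN N) : LaurentSeries Qb) = _
      rw [RingHom.comp_apply, coeffMap_C']
      show algebraMap Qb (LaurentSeries Qb) (a : Qb) = _
      rw [algebraMap_laurentSeries_eq_single]
      rfl
  · rw [hu]
    exact Subring.mem_map.mpr ⟨t, (le_sup_right : Subring.closure {t} ≤ G.polyRing t)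
      (Subring.subset_closure rfl), rfl⟩

end Bridge

/-! ### (H3) in `IntElt` language ⟹ `Good` ⟹ NODE [RIM] -/

section Lift

variable (A : ValuationSubring Qb) (N : ℕ)

/-- **(H3), finite chart, `IntElt` form** (conclusion of `H448.lift_fin_of_base_liesOver`):
every element of `F_k` integral over `k[j̄]` is the reduction of an `A`-integral `q`-series of
`F̄_N` integral over `A[j]`. -/
def LiftFin : Prop :=
  ∀ z : FNk A N, (evalSer (kA A) (jqModC (kA A))).IsIntegralElem (z : LaurentSeries (kA A)) →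
    ∃ c : IntElt A N, c.IsFin ∧ c.sp = z

/-- **(H3), chart at infinity, `IntElt` form** (conclusion of
`H448.lift_inf_of_base_liesOver`). -/
def LiftInf : Prop :=
  ∀ z : FNk A N, (evalSer (kA A) (jqModC (kA A))⁻¹).IsIntegralElem (z : LaurentSeries (kA A)) →
    ∃ c : IntElt A N, c.IsInf ∧ c.sp = z

variable {A N}

theorem coe_x_modGj (hVG : ModVG N A) (htr : Transcendental (kA A) (jk N A)) :
    (((modGj hVG htr).x : FN N) : LaurentSeries Qb) = jqModC Qb :=
  coeffMap_jqModC A.subtype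

theorem xk_modGj (hVG : ModVG N A) (htr : Transcendental (kA A) (jk N A)) :
    (modGj hVG htr).xk = jk N A :=
  modρ_ofSeries hVG (jqModC A) (coeffMap_jqModC_mem_bar N A) (coeffMap_jqModC_mem_fullC N A)

theorem coe_xk_modGj (hVG : ModVG N A) (htr : Transcendental (kA A) (jk N A)) :
    (((modGj hVG htr).xk : FNk A N) : LaurentSeries (kA A)) = jqModC (kA A) := by
  rw [xk_modGj]
  exact coeffMap_jqModC (residue A)

/-- field `lift_fin` of `Good` for the modular datum with coordinate `j` -/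
theorem lift_fin_modGj (hVG : ModVG N A) (htr : Transcendental (kA A) (jk N A))
    (h : LiftFin A N) :
    ∀ c ∈ (modGj hVG htr).chartk (modGj hVG htr).xk,
      ∃ b ∈ (modGj hVG htr).chart (modGj hVG htr).x,
        ∃ hb : b ∈ (modGj hVG htr).O, (modGj hVG htr).ρ ⟨b, hb⟩ = c := by
  intro c hc
  have h1 := isIntegralElem_of_mem_chartk (modGj hVG htr) hc
  rw [coe_xk_modGj] at h1
  obtain ⟨c', hfin, hsp⟩ := h c h1
  obtain ⟨hO, hρ⟩ := modG_link hVG c'.y c'.mem c'.memk
  refine ⟨c'.gen, ?_, hO, ?_⟩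
  · exact mem_chart_of_isIntegralElem (modGj hVG htr) (jqModC A) c'.y rfl rfl hfin
  · exact hρ.trans hsp

/-- field `lift_inf` of `Good` for the modular datum with coordinate `j` -/
theorem lift_inf_modGj (hVG : ModVG N A) (htr : Transcendental (kA A) (jk N A))
    (h : LiftInf A N) :
    ∀ c ∈ (modGj hVG htr).chartk (modGj hVG htr).xk⁻¹,
      ∃ b ∈ (modGj hVG htr).chart (modGj hVG htr).x⁻¹,
        ∃ hb : b ∈ (modGj hVG htr).O, (modGj hVG htr).ρ ⟨b, hb⟩ = c := by
  intro c hc
  have h1 := isIntegralElem_of_mem_chartk (modGj hVG htr) hc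
  have h2 : ((((modGj hVG htr).xk)⁻¹ : FNk A N) : LaurentSeries (kA A)) =
      (jqModC (kA A))⁻¹ := by
    rw [IntermediateField.coe_inv, coe_xk_modGj]
  rw [h2] at h1
  obtain ⟨c', ⟨u, hu, hint⟩, hsp⟩ := h c h1
  obtain ⟨hO, hρ⟩ := modG_link hVG c'.y c'.mem c'.memk
  refine ⟨c'.gen, ?_, hO, ?_⟩
  · refine mem_chart_of_isIntegralElem (modGj hVG htr) u c'.y ?_ rfl hint
    rw [IntermediateField.coe_inv, coe_x_modGj]
    have h3 := congrArg (coeffMap A.subtype) hu
    rw [_root_.map_mul, _root_.map_one, coeffMap_jqModC] at h3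
    exact eq_inv_of_mul_eq_one_left h3
  · exact hρ.trans hsp

end Lift

section Node

variable (N : ℕ) [NeZero N] {ℓ : ℕ} (hℓ : ℓ.Prime) (hℓN : ¬ ℓ ∣ N)
  (A : ValuationSubring Qb) (hA : A.LiesOverPrime ℓ)

include hℓ hℓN hA

/-- the value-group hypothesis for the modular function fields -/
theorem modVG : ModVG N A :=
  Fermat.Agent.S37.H568.valueGroupHyp_modular (coreData_residueField N hℓ hℓN A hA)

omit [NeZero N] hℓ hℓN hA in
/-- `j̄` is transcendental over `k` -/
theorem transcendental_jk : Transcendental (kA A) (jk N A) := by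
  have h := Fermat.Agent.S18.H739.transcendental_jC (kA A) N
  have heq : jk N A = ⟨jqModC (kA A), jqModC_mem_full (kA A) N⟩ := by
    apply Subtype.ext
    exact coeffMap_jqModC (residue A)
  rw [heq]
  exact h

/-- **`Good` for the modular datum with coordinate `j`, from (H3).** -/
theorem good_modGj (hfin : LiftFin A N) (hinf : LiftInf A N) :
    (modGj (modVG N hℓ hℓN A hA) (transcendental_jk N A)).Good := by
  obtain ⟨h1, h2, h3, h4⟩ := Fermat.Agent.S37.H628.good_H1 N hℓ hℓN A hA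
    (modGj (modVG N hℓ hℓN A hA) (transcendental_jk N A))
    (coe_x_modGj _ _) (coe_xk_modGj _ _)
  exact Fermat.Agent.S37.Red.H217.good_of _ h1 h2 h3 h4
    (lift_fin_modGj _ _ hfin) (lift_inf_modGj _ _ hinf)

/-- **NODE [RIM] from (H3) in `IntElt` form** (`ℓ ∤ N`, any `ℓ`). -/
theorem node_rim_of_lift (hfin : LiftFin A N) (hinf : LiftInf A N) :
    ReductionInputsModL A N :=
  node_rim_of_modG Fermat.Agent.S37.Red.H940.mainStatement (modVG N hℓ hℓN A hA) (jqModC A)
    (coeffMap_jqModC_mem_bar N A) (coeffMap_jqModC_mem_fullC N A) (transcendental_jk N A)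
    (good_modGj N hℓ hℓN A hA hfin hinf)
    (principalGeneratedByIntegral N hℓ hℓN A hA)

end Node

section NodeBase

variable (N : ℕ) [NeZero N] {ℓ : ℕ} [hF : Fact ℓ.Prime] (hℓN : ¬ ℓ ∣ N)
  (A : ValuationSubring Qb) (hA : A.LiesOverPrime ℓ)

include hF hℓN hA

/-- **NODE [RIM] from (H3) over `𝔽_ℓ`** (the hypotheses `hbase` of
`H448.lift_fin_of_base_liesOver` / `lift_inf_of_base_liesOver`): normality of the special fibre
is needed only for the functions defined over `𝔽_ℓ`. -/
theorem node_rim_of_base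
    (hbfin : ∀ (φ : ZMod ℓ →+* kA A) (w : LaurentSeries (ZMod ℓ)),
      w ∈ modularFunctionFieldFullC (ZMod ℓ) N →
      (evalSer (ZMod ℓ) (jqModC (ZMod ℓ))).IsIntegralElem w →
      ∃ c : IntElt A N, c.IsFin ∧ coeffMap (residue A) c.y = coeffMap φ w)
    (hbinf : ∀ (φ : ZMod ℓ →+* kA A) (w : LaurentSeries (ZMod ℓ)),
      w ∈ modularFunctionFieldFullC (ZMod ℓ) N →
      (evalSer (ZMod ℓ) (jqModC (ZMod ℓ))⁻¹).IsIntegralElem w →
      ∃ c : IntElt A N, c.IsInf ∧ coeffMap (residue A) c.y = coeffMap φ w) :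
    ReductionInputsModL A N :=
  node_rim_of_lift N hF.out hℓN A hA
    (fun z hz => lift_fin_of_base_liesOver A hA hbfin z hz)
    (fun z hz => lift_inf_of_base_liesOver A hA hbinf z hz)

/-- **NODE [RIM] from (H3) for a model over a base ring `R₀`** (e.g. `R₀ = ℤ_(ℓ)`):
* `h0fin` : every `w ∈ F_{N,𝔽_ℓ}` integral over `𝔽_ℓ[j̄]` is the reduction of a series
  `y₀ ∈ R₀((q))`, integral over `R₀[j]`, whose image in `ℚ̄((q))` lies in `F̄_N`;
* `h0inf` : the same with `j⁻¹` (`u₀ ∈ R₀((q))` the inverse of `j`). -/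
theorem node_rim_of_ring {R₀ : Type*} [CommRing R₀] (ψ : R₀ →+* A) (ρ₀ : R₀ →+* ZMod ℓ)
    (φ₀ : ZMod ℓ →+* kA A) (hcomp : (residue A).comp ψ = φ₀.comp ρ₀)
    (h0fin : ∀ w : LaurentSeries (ZMod ℓ), w ∈ modularFunctionFieldFullC (ZMod ℓ) N →
      (evalSer (ZMod ℓ) (jqModC (ZMod ℓ))).IsIntegralElem w →
      ∃ y₀ : LaurentSeries R₀,
        coeffMap (A.subtype.comp ψ) y₀ ∈ modularFunctionFieldBar N ∧
        (evalSer R₀ (jqModC R₀)).IsIntegralElem y₀ ∧ coeffMap ρ₀ y₀ = w)
    (h0inf : ∀ w : LaurentSeries (ZMod ℓ), w ∈ modularFunctionFieldFullC (ZMod ℓ) N →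
      (evalSer (ZMod ℓ) (jqModC (ZMod ℓ))⁻¹).IsIntegralElem w →
      ∃ u₀ y₀ : LaurentSeries R₀, u₀ * jqModC R₀ = 1 ∧
        coeffMap (A.subtype.comp ψ) y₀ ∈ modularFunctionFieldBar N ∧
        (evalSer R₀ u₀).IsIntegralElem y₀ ∧ coeffMap ρ₀ y₀ = w) :
    ReductionInputsModL A N := by
  have hφ : ∀ φ : ZMod ℓ →+* kA A, φ = φ₀ := fun φ => Subsingleton.elim _ _
  have hmemk := reduction_mem_fullC N hF.out hℓN A hA
  refine node_rim_of_base N hℓN A hA ?_ ?_
  · intro φ w hw hwi
    rw [hφ φ]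
    exact base_fin_of_ring A ψ ρ₀ φ₀ hcomp hmemk h0fin w hw hwi
  · intro φ w hw hwi
    rw [hφ φ]
    obtain ⟨u₀, y₀, hu, hy1, hy2, hy3⟩ := h0inf w hw hwi
    have hmem : coeffMap A.subtype (coeffMap ψ y₀) ∈ modularFunctionFieldBar N := by
      rw [coeffMap_coeffMap]
      exact hy1
    refine ⟨⟨coeffMap ψ y₀, hmem, hmemk _ hmem⟩, ⟨coeffMap ψ u₀, ?_, ?_⟩, ?_⟩
    · have h1 := congrArg (coeffMap ψ) hu
      rw [_root_.map_mul, _root_.map_one, coeffMap_jqModC] at h1
      exact h1
    · exact isIntegralElem_coeffMap ψ hy2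
    · show coeffMap (residue A) (coeffMap ψ y₀) = coeffMap φ₀ w
      rw [coeffMap_coeffMap, hcomp, ← coeffMap_coeffMap, hy3]

end NodeBase

end Fermat.Agent.S37.H579.RimBase

end
end
-- ===== PACK-END S37/H579/RimOfBase.lean

-- ===== PACK-BEGIN A2/H553/K2Both.lean
section





/-!
# A2 / K2 concrete (helper553): the two Gauss valuations `V∞`, `V₀` of `Q̄(X₀(N))`

`A` a valuation subring of `Q̄` over a prime `ℓ`, `σ` in the inertia group of `A`,
`τ = arithmeticRingAut σ` (action on the coefficients of `q`-expansions).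

* abstract part (`comapAut`): transport of helper129's K2 hypotheses along an automorphism `φ`
  of `F` which fixes the constants and commutes with `τ`;
* `VzeroModular A hℓ hA N := H528.comapW N (VinfModular A hℓ hA N)`  (`V₀ = V∞ ∘ w_N`);
* `k2_Vzero_modular` : `HasConstValues`, `PreservesConstValues`, `InInertia` for `V₀`;
* `k2_both'`, `k2_both` : for every `f ≠ 0`, `(τ' - 1)(τ - 1) f ∈ 1 + 𝔪` at `V∞` AND at `V₀`
  (no constant needed);
* `isUnitOf_once_both` : `(τ - 1) f` is a unit at `V∞` and `V₀`;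
* `VzeroModular_ne` : `V₀ ≠ V∞` when `ℓ ∣ N`;
* `algebraMap_mem_Vzero_iff` : `V₀ ∩ Q̄ = A`.
-/

set_option autoImplicit false
set_option linter.unusedSectionVars false
set_option linter.style.haveILetI false

noncomputable section

namespace Fermat.Agent.A2.H553

open ModularCurve HahnSeries IntermediateField AlgebraicCurve
open Fermat.Agent.S28.H86 Fermat.Agent.S18.H602 Fermat.Agent.A2.H129

local notation "Q̄" => AlgebraicClosure ℚ

/-! ### Abstract transport along an automorphism -/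

section Abstract

variable {F : Type*} [Field F]

/-- pull back of a valuation subring along a ring automorphism -/
def comapAut (V : ValuationSubring F) (φ : F ≃+* F) : ValuationSubring F :=
  V.comap φ.toRingHom

theorem mem_comapAut {V : ValuationSubring F} {φ : F ≃+* F} {x : F} :
    x ∈ comapAut V φ ↔ φ x ∈ V := Iff.rfl

theorem valuation_comapAut_le_one_iff (V : ValuationSubring F) (φ : F ≃+* F) {x : F} :
    (comapAut V φ).valuation x ≤ 1 ↔ V.valuation (φ x) ≤ 1 := by
  rw [ValuationSubring.valuation_le_one_iff, ValuationSubring.valuation_le_one_iff, mem_comapAut]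

theorem valuation_comapAut_eq_one_iff (V : ValuationSubring F) (φ : F ≃+* F) {x : F} :
    (comapAut V φ).valuation x = 1 ↔ V.valuation (φ x) = 1 := by
  rcases eq_or_ne x 0 with rfl | hx
  · simp
  · have hφx : φ x ≠ 0 := (map_ne_zero_iff φ φ.injective).mpr hx
    rw [valuation_eq_one_iff_mem _ hx, valuation_eq_one_iff_mem _ hφx, mem_comapAut,
      mem_comapAut, map_inv₀]

theorem valuation_comapAut_lt_one_iff (V : ValuationSubring F) (φ : F ≃+* F) {x : F} :
    (comapAut V φ).valuation x < 1 ↔ V.valuation (φ x) < 1 := by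
  rw [lt_iff_le_and_ne, lt_iff_le_and_ne, valuation_comapAut_le_one_iff, Ne, Ne,
    valuation_comapAut_eq_one_iff]

theorem hasConstValues_comapAut {Kc : Subfield F} {V : ValuationSubring F} (φ : F ≃+* F)
    (hφK : ∀ c ∈ Kc, φ c = c) (h : HasConstValues Kc V) :
    HasConstValues Kc (comapAut V φ) := by
  intro f hf
  have hφf : φ f ≠ 0 := (map_ne_zero_iff φ φ.injective).mpr hf
  obtain ⟨c, hc, hc0, hu⟩ := h (φ f) hφf
  refine ⟨c, hc, hc0, ?_⟩
  show (comapAut V φ).valuation (f * c⁻¹) = 1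
  rw [valuation_comapAut_eq_one_iff, _root_.map_mul, map_inv₀, hφK c hc]
  exact hu

theorem preservesConstValues_comapAut {Kc : Subfield F} {V : ValuationSubring F} (φ : F ≃+* F)
    {τ : F ≃+* F} (hφK : ∀ c ∈ Kc, φ c = c) (hτK : ∀ c ∈ Kc, τ c ∈ Kc)
    (h : PreservesConstValues Kc V τ) :
    PreservesConstValues Kc (comapAut V φ) τ := by
  intro c hc hc0
  show (comapAut V φ).valuation (τ c * c⁻¹) = 1
  rw [valuation_comapAut_eq_one_iff, _root_.map_mul, map_inv₀, hφK c hc, hφK (τ c) (hτK c hc)]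
  exact h c hc hc0

theorem inInertia_comapAut {V : ValuationSubring F} (φ : F ≃+* F) {τ : F ≃+* F}
    (hcomm : ∀ x, φ (τ x) = τ (φ x)) (h : InInertia V τ) :
    InInertia (comapAut V φ) τ := by
  intro u hu
  rw [valuation_comapAut_le_one_iff] at hu
  rw [valuation_comapAut_lt_one_iff, _root_.map_sub, hcomm]
  exact h (φ u) hu

end Abstract

/-! ### The valuation `V₀ = V∞ ∘ w_N` -/

section Concrete

open Fermat.Agent.A2.H528 Fermat.Agent.S24

variable (A : ValuationSubring Q̄) {ℓ : ℕ} (hℓ : ℓ ≠ 0) (hA : A.LiesOverPrime ℓ)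
  (N : ℕ) [NeZero N]

/-- The Gauss valuation at the cusp `0` of `Q̄(X₀(N))` over `A`: `V₀ = V∞ ∘ w_N`. -/
def VzeroModular : ValuationSubring ↥(modularFunctionFieldBar N) :=
  comapW N (VinfModular A hℓ hA N)

theorem VzeroModular_eq_comapAut :
    VzeroModular A hℓ hA N = comapAut (VinfModular A hℓ hA N) (wF N).toRingEquiv := rfl

theorem mem_VzeroModular {f : ↥(modularFunctionFieldBar N)} :
    f ∈ VzeroModular A hℓ hA N ↔ wF N f ∈ VinfModular A hℓ hA N := Iff.rfl

theorem wF_const {c : ↥(modularFunctionFieldBar N)}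
    (hc : c ∈ constField (modularFunctionFieldFull N)) : wF N c = c := by
  obtain ⟨c₀, rfl⟩ := hc
  exact wFHom_algebraMap N c₀

/-- `V₀ ∩ Q̄ = A`. -/
theorem algebraMap_mem_Vzero_iff {c : Q̄} :
    algebraMap Q̄ ↥(modularFunctionFieldBar N) c ∈ VzeroModular A hℓ hA N ↔ c ∈ A := by
  rw [VzeroModular, algebraMap_mem_comapW]
  exact algebraMap_mem_Vinf_iff _

/-- **K2 hypotheses for `V₀`.** -/
theorem k2_Vzero_modular {σ : Q̄ ≃ₐ[ℚ] Q̄} (hσ : σ ∈ A.inertiaSubgroupIn ℚ) :
    HasConstValues (constField (modularFunctionFieldFull N)) (VzeroModular A hℓ hA N) ∧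
    PreservesConstValues (constField (modularFunctionFieldFull N)) (VzeroModular A hℓ hA N)
      (arithmeticRingAut (modularFunctionFieldFull N) σ) ∧
    InInertia (VzeroModular A hℓ hA N) (arithmeticRingAut (modularFunctionFieldFull N) σ) := by
  obtain ⟨h1, h2, h3, h4⟩ := k2_Vinf_modular A hℓ hA N hσ
  rw [VzeroModular_eq_comapAut]
  refine ⟨hasConstValues_comapAut _ (fun c hc => wF_const N hc) h1,
    preservesConstValues_comapAut _ (fun c hc => wF_const N hc) h4 h2,
    inInertia_comapAut _ (fun x => ?_) h3⟩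
  exact wF_gal N σ x

/-- **K2, concrete, two automorphisms.**  For `σ, σ'` in the inertia group of `A` and every
`f ≠ 0` of `Q̄(X₀(N))`: `(τ' - 1)(τ - 1) f ∈ 1 + 𝔪` at `V∞` and at `V₀`. -/
theorem k2_both' {σ σ' : Q̄ ≃ₐ[ℚ] Q̄} (hσ : σ ∈ A.inertiaSubgroupIn ℚ)
    (hσ' : σ' ∈ A.inertiaSubgroupIn ℚ) {f : ↥(modularFunctionFieldBar N)} (hf : f ≠ 0) :
    OneAddNonunits (VinfModular A hℓ hA N)
      (tauSubOne (arithmeticRingAut (modularFunctionFieldFull N) σ')
        (tauSubOne (arithmeticRingAut (modularFunctionFieldFull N) σ) f)) ∧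
    OneAddNonunits (VzeroModular A hℓ hA N)
      (tauSubOne (arithmeticRingAut (modularFunctionFieldFull N) σ')
        (tauSubOne (arithmeticRingAut (modularFunctionFieldFull N) σ) f)) := by
  obtain ⟨h1, h2, h3, -⟩ := k2_Vinf_modular A hℓ hA N hσ
  obtain ⟨-, -, h3', -⟩ := k2_Vinf_modular A hℓ hA N hσ'
  obtain ⟨g1, g2, g3⟩ := k2_Vzero_modular A hℓ hA N hσ
  obtain ⟨-, -, g3'⟩ := k2_Vzero_modular A hℓ hA N hσ'
  exact ⟨oneAddNonunits_twice' h1 h3 h2 h3' hf, oneAddNonunits_twice' g1 g3 g2 g3' hf⟩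

/-- **K2, concrete.**  `(τ - 1)² f ∈ 1 + 𝔪` at `V∞` and at `V₀`, for every `f ≠ 0`. -/
theorem k2_both {σ : Q̄ ≃ₐ[ℚ] Q̄} (hσ : σ ∈ A.inertiaSubgroupIn ℚ)
    {f : ↥(modularFunctionFieldBar N)} (hf : f ≠ 0) :
    OneAddNonunits (VinfModular A hℓ hA N)
      (tauSubOne (arithmeticRingAut (modularFunctionFieldFull N) σ)
        (tauSubOne (arithmeticRingAut (modularFunctionFieldFull N) σ) f)) ∧
    OneAddNonunits (VzeroModular A hℓ hA N)
      (tauSubOne (arithmeticRingAut (modularFunctionFieldFull N) σ)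
        (tauSubOne (arithmeticRingAut (modularFunctionFieldFull N) σ) f)) :=
  k2_both' A hℓ hA N hσ hσ hf

/-- `(τ - 1) f` is a unit at `V∞` and at `V₀`, for every `f ≠ 0`. -/
theorem isUnitOf_once_both {σ : Q̄ ≃ₐ[ℚ] Q̄} (hσ : σ ∈ A.inertiaSubgroupIn ℚ)
    {f : ↥(modularFunctionFieldBar N)} (hf : f ≠ 0) :
    IsUnitOf (VinfModular A hℓ hA N)
      (tauSubOne (arithmeticRingAut (modularFunctionFieldFull N) σ) f) ∧
    IsUnitOf (VzeroModular A hℓ hA N)
      (tauSubOne (arithmeticRingAut (modularFunctionFieldFull N) σ) f) := by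
  obtain ⟨h1, h2, h3, -⟩ := k2_Vinf_modular A hℓ hA N hσ
  obtain ⟨g1, g2, g3⟩ := k2_Vzero_modular A hℓ hA N hσ
  exact ⟨isUnitOf_once h1 h3 h2 hf, isUnitOf_once g1 g3 g2 hf⟩

/-! ### Integral `q`-expansions and `V₀ ≠ V∞` -/

/-- an integral series, as a series over `A` -/
theorem intEmb_eq_inclL (g : LaurentSeries ℤ) :
    intEmb g = inclL A.toSubring (coeffMap (Int.castRingHom ↥A.toSubring) g) := by
  ext n
  rw [inclL_coeff, coeffMap_coeff, intEmb_coeff]
  simp

/-- functions with integral `q`-expansion lie in `V∞` -/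
theorem mem_Vinf_of_intEmb {f : ↥(modularFunctionFieldBar N)} {g : LaurentSeries ℤ}
    (hfg : ((f : ↥(modularFunctionFieldBar N)) : LaurentSeries Q̄) = intEmb g) :
    f ∈ VinfModular A hℓ hA N := by
  show ((f : ↥(modularFunctionFieldBar N)) : LaurentSeries Q̄) ∈ gaussA A
  rw [hfg, intEmb_eq_inclL A]
  exact inclL_mem_gaussRing (resA A) _

/-- functions with integral `q`-expansion having a coefficient `-1` are units of `V∞` -/
theorem inv_mem_Vinf_of_intEmb {f : ↥(modularFunctionFieldBar N)} {g : LaurentSeries ℤ} {k : ℤ}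
    (hfg : ((f : ↥(modularFunctionFieldBar N)) : LaurentSeries Q̄) = intEmb g)
    (hk : g.coeff k = -1) :
    f⁻¹ ∈ VinfModular A hℓ hA N := by
  show ((f⁻¹ : ↥(modularFunctionFieldBar N)) : LaurentSeries Q̄) ∈ gaussA A
  have hcoe : ((f⁻¹ : ↥(modularFunctionFieldBar N)) : LaurentSeries Q̄) =
      ((f : ↥(modularFunctionFieldBar N)) : LaurentSeries Q̄)⁻¹ := rfl
  rw [hcoe, hfg, intEmb_eq_inclL A]
  refine inv_mem_gaussA_of_redA_ne_zero
    ⟨inclL A.toSubring (coeffMap (Int.castRingHom ↥A.toSubring) g),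
      inclL_mem_gaussRing (resA A) _⟩ ?_
  rw [redA_inclL, redL_ne_zero_iff]
  refine ⟨k, ?_⟩
  rw [coeffMap_coeff, hk]
  simp

/-- **`V₀ ≠ V∞`** when `ℓ ∣ N`. -/
theorem VzeroModular_ne [Fact ℓ.Prime] (hℓN : ℓ ∣ N) :
    VzeroModular A hℓ hA N ≠ VinfModular A hℓ hA N := by
  refine comapW_ne N ℓ hℓN (VinfModular A hℓ hA N)
    (fun f g hfg => mem_Vinf_of_intEmb A hℓ hA N hfg)
    (fun f g k hfg hk => inv_mem_Vinf_of_intEmb A hℓ hA N hfg hk) ?_
  intro hmem
  have h1 : (algebraMap Q̄ ↥(modularFunctionFieldBar N) (ℓ : Q̄))⁻¹ =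
      algebraMap Q̄ ↥(modularFunctionFieldBar N) ((ℓ : Q̄)⁻¹) := (map_inv₀ _ _).symm
  rw [h1] at hmem
  have h2 : ((ℓ : Q̄)⁻¹) ∈ A := (algebraMap_mem_Vinf_iff _).mp hmem
  have h3 : (ℓ : Q̄) ∈ A.nonunits := hA
  rw [ValuationSubring.mem_nonunits_iff] at h3
  have h4 : A.valuation ((ℓ : Q̄)⁻¹) ≤ 1 := (A.valuation_le_one_iff _).mpr h2
  rw [map_inv₀] at h4
  have hℓ0 : A.valuation (ℓ : Q̄) ≠ 0 := by
    rw [Valuation.ne_zero_iff]
    exact_mod_cast hℓ
  have h5 : 1 ≤ A.valuation (ℓ : Q̄) := (inv_le_one₀ (zero_lt_iff.mpr hℓ0)).mp h4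
  exact absurd h3 (not_lt.mpr h5)

end Concrete

end Fermat.Agent.A2.H553

end
end
-- ===== PACK-END A2/H553/K2Both.lean

-- ===== PACK-BEGIN S33/H855/TowerModular.lean
section




/-!
# Row S33, leaf (S1⁺): the tower lemma for `J₀(N)` (helper855), UNCONDITIONAL

`A` a valuation subring of `ℚ̄` over the prime `p`, `I = A.inertiaSubgroupIn ℚ`,
`V∞ = VinfModular`, `V₀ = VzeroModular` the two Gauss valuations of `ℚ̄(X₀(N))` over `A`
(helper553, cell A2; any `N`, any `p`).

* `constRed A hp hA N` : the functions `f` which are (constant) × (element of `1 + 𝔪`) along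
  `V∞` and along `V₀` ("constant reductions on both components");
* `splitMin A hp hA N` : the subgroup of `J₀(N)` of the classes `[D]` having a Kummer generator
  `h ∈ constRed`, `div h = p • D`;
* `aug_le_splitMin` : **(S1⁺)** for every `n`, every class killed by `p` in the subgroup generated
  by the `σ x - x`, `σ ∈ I`, `p ^ (n+1) • x = 0`, lies in `splitMin`.
  (`n = 0` is (S1) of the RIBET wall-`p` board.)

Every subgroup `𝒮` containing `splitMin` therefore satisfies (S1⁺); (S2) for `𝒮` implies (S2) for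
`splitMin`.
-/

set_option autoImplicit false
set_option linter.unusedSectionVars false

noncomputable section

namespace Fermat.Agent.S33.H855

open ModularCurve AlgebraicCurve Fermat.Agent.A2.H129 Fermat.Agent.A2.H553

local notation "Q̄" => AlgebraicClosure ℚ

/-- `v x < 1 ↔ x⁻¹ ∉ V` for `x ≠ 0`. -/
theorem valuation_lt_one_iff_inv_notMem {F : Type*} [Field F] (V : ValuationSubring F) {x : F}
    (hx : x ≠ 0) : V.valuation x < 1 ↔ x⁻¹ ∉ V := by
  rw [← ValuationSubring.valuation_le_one_iff, map_inv₀, not_le]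
  have hv : 0 < V.valuation x := zero_lt_iff.mpr ((Valuation.ne_zero_iff _).mpr hx)
  rw [one_lt_inv₀ hv]

section Modular

variable (A : ValuationSubring Q̄) {p : ℕ} (hp : p ≠ 0) (hA : A.LiesOverPrime p)
  (N : ℕ) [NeZero N]

/-- The functions with constant reductions along `V∞` and `V₀`. -/
def constRed : Set ↥(modularFunctionFieldBar N) :=
  {f | ConstOne (constField (modularFunctionFieldFull N)) (VinfModular A hp hA N) f ∧
       ConstOne (constField (modularFunctionFieldFull N)) (VzeroModular A hp hA N) f}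

theorem natCast_eq_algebraMap (m : ℕ) :
    ((m : ℕ) : ↥(modularFunctionFieldBar N)) =
      algebraMap Q̄ ↥(modularFunctionFieldBar N) (m : Q̄) := by
  rw [map_natCast]

include hp hA in
theorem inv_natCast_notMem : ((p : ℕ) : Q̄)⁻¹ ∉ A := by
  have hp0 : ((p : ℕ) : Q̄) ≠ 0 := by exact_mod_cast hp
  exact (valuation_lt_one_iff_inv_notMem A hp0).mp ((ValuationSubring.mem_nonunits_iff A).mp hA)

theorem valuation_Vinf_natCast_lt_one :
    (VinfModular A hp hA N).valuation ((p : ℕ) : ↥(modularFunctionFieldBar N)) < 1 := by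
  have hp0 : ((p : ℕ) : ↥(modularFunctionFieldBar N)) ≠ 0 := by exact_mod_cast hp
  rw [valuation_lt_one_iff_inv_notMem _ hp0, natCast_eq_algebraMap, ← map_inv₀]
  intro h
  exact inv_natCast_notMem A hp hA ((algebraMap_mem_Vinf_iff _).mp h)

theorem valuation_Vzero_natCast_lt_one :
    (VzeroModular A hp hA N).valuation ((p : ℕ) : ↥(modularFunctionFieldBar N)) < 1 := by
  have hp0 : ((p : ℕ) : ↥(modularFunctionFieldBar N)) ≠ 0 := by exact_mod_cast hp
  rw [valuation_lt_one_iff_inv_notMem _ hp0, natCast_eq_algebraMap, ← map_inv₀]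
  intro h
  exact inv_natCast_notMem A hp hA ((algebraMap_mem_Vzero_iff A hp hA N).mp h)

include hp in
/-- `ℚ̄` is closed under `p`-th roots. -/
theorem constField_root :
    ∀ c ∈ constField (modularFunctionFieldFull N),
      ∃ d ∈ constField (modularFunctionFieldFull N), d ^ p = c := by
  rintro _ ⟨c, rfl⟩
  obtain ⟨d, hd⟩ := IsAlgClosed.exists_pow_nat_eq c (Nat.pos_of_ne_zero hp)
  exact ⟨algebraMap Q̄ _ d, ⟨d, rfl⟩, by rw [← map_pow, hd]⟩

/-- (C1)-(C3) for `constRed`. -/
theorem towerClass_constRed (hpp : p.Prime) :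
    TowerClass (inertiaAut A N) p (constRed A hp hA N) where
  mul_mem f g hf hg := ⟨hf.1.mul hg.1, hf.2.mul hg.2⟩
  inv_mem f hf := ⟨hf.1.inv, hf.2.inv⟩
  const_mem c hc := by
    have h0 : algebraMap Q̄ ↥(modularFunctionFieldBar N) c ≠ 0 := by simpa using hc
    exact ⟨constOne_of_mem ⟨c, rfl⟩ h0, constOne_of_mem ⟨c, rfl⟩ h0⟩
  tau_mem g hg f hf := by
    obtain ⟨σ, hσ, rfl⟩ := hg
    obtain ⟨h1, -, h3, h4⟩ := k2_Vinf_modular A hp hA N hσ
    obtain ⟨g1, -, g3⟩ := k2_Vzero_modular A hp hA N hσ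
    exact ⟨constOne_tauSubOne h4 h1 h3 hf, constOne_tauSubOne h4 g1 g3 hf⟩
  root_mem h k _ hh :=
    ⟨constOne_of_pow hpp (valuation_Vinf_natCast_lt_one A hp hA N) (constField_root hp N) k hh.1,
      constOne_of_pow hpp (valuation_Vzero_natCast_lt_one A hp hA N) (constField_root hp N) k
        hh.2⟩

/-- The classes with a Kummer generator of level `p` with constant reductions along `V∞`, `V₀`. -/
def splitMin : AddSubgroup (JZero N) where
  carrier := {y | HasGenIn (constRed A hp hA N) p y}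
  zero_mem' := by
    refine ⟨0, 1, one_ne_zero, ?_, rfl, fun v => ?_⟩
    · have h1 : (1 : ↥(modularFunctionFieldBar N)) ∈ constField (modularFunctionFieldFull N) :=
        ⟨1, map_one _⟩
      exact ⟨constOne_of_mem h1 one_ne_zero, constOne_of_mem h1 one_ne_zero⟩
    · simp [Place.ord_one]
  add_mem' := by
    rintro _ _ ⟨D, u, hu, huC, rfl, hD⟩ ⟨E, w, hw, hwC, rfl, hE⟩
    refine ⟨D + E, u * w, mul_ne_zero hu hw, ⟨huC.1.mul hwC.1, huC.2.mul hwC.2⟩, rfl,
      fun v => ?_⟩
    rw [v.ord_mul hu hw, hD, hE]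
    simp only [AddSubgroup.coe_add, Finsupp.add_apply]
    ring
  neg_mem' := by
    rintro _ ⟨D, u, hu, huC, rfl, hD⟩
    refine ⟨-D, u⁻¹, inv_ne_zero hu, ⟨huC.1.inv, huC.2.inv⟩, rfl, fun v => ?_⟩
    rw [v.ord_inv, hD]
    simp only [AddSubgroup.coe_neg, Finsupp.neg_apply]
    ring

theorem mem_splitMin {y : JZero N} :
    y ∈ splitMin A hp hA N ↔
      ∃ (D : Divisor.degZero (K := Q̄) (F := ↥(modularFunctionFieldBar N)))
        (h : ↥(modularFunctionFieldBar N)), h ≠ 0 ∧ h ∈ constRed A hp hA N ∧ Pic0.mk D = y ∧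
        ∀ v : Place Q̄ ↥(modularFunctionFieldBar N), v.ord h = (p : ℤ) * (D : Divisor _ _) v :=
  Iff.rfl

/-- **(S1⁺).**  For every `n`: a class killed by `p` in the subgroup generated by the
`σ x - x`, `σ` in the inertia group of `A`, `p ^ (n+1) • x = 0`, lies in `splitMin`. -/
theorem aug_le_splitMin (hpp : p.Prime) (n : ℕ) (y : JZero N)
    (hy : y ∈ AddSubgroup.closure
      {z : JZero N | ∃ σ ∈ A.inertiaSubgroupIn ℚ, ∃ x : JZero N,
        p ^ (n + 1) • x = 0 ∧ z = σ • x - x})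
    (hpy : p • y = 0) : y ∈ splitMin A hp hA N := by
  refine hasGenIn_of_mem_closure_of_torsion (towerClass_constRed A hp hA N hpp)
    (fun u _ hu => exists_const_of_ord_eq_zero N u hu) n y ?_ hpy
  refine AddSubgroup.closure_mono ?_ hy
  rintro _ ⟨σ, hσ, x, hx, rfl⟩
  exact ⟨arithmeticGalois (modularFunctionFieldFull N) σ, ⟨σ, hσ, rfl⟩, x, hx, rfl⟩

/-- **(S1)** of the wall-`p` board, for `splitMin`. -/
theorem smul_sub_mem_splitMin (hpp : p.Prime) (x : JZero N) (hx : p • x = 0)
    (σ : Q̄ ≃ₐ[ℚ] Q̄) (hσ : σ ∈ A.inertiaSubgroupIn ℚ) :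
    σ • x - x ∈ splitMin A hp hA N := by
  refine aug_le_splitMin A hp hA N hpp 0 _
    (AddSubgroup.subset_closure ⟨σ, hσ, x, by simpa using hx, rfl⟩) ?_
  have h := map_nsmul (DistribSMul.toAddMonoidHom (JZero N) σ) p x
  rw [hx, map_zero] at h
  have h' : p • (σ • x) = 0 := h.symm
  rw [nsmul_sub, h', hx, sub_zero]

end Modular

end Fermat.Agent.S33.H855

end
end
-- ===== PACK-END S33/H855/TowerModular.lean

-- ===== PACK-BEGIN Ribet/H552/ASGlue.lean
section





/-!
# RIBET wall-p, leaf GLUE-p (helper552), part 2: the wild form of `A2.H729.alg_ss`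

Setting of `A2.H729.alg_ss` (`R` noetherian domain with `R[X]` integrally closed, `w ∈ R` prime,
`F₀ ⊆ F` fields over `R`, `x₀ ∈ F₀` a coordinate, `R` integrally closed in `F`, `F / F₀` finite
Galois), but the exponent is a prime `p` WITHOUT the assumption that `p` is invertible in `R`:
`ζ ∈ R` a primitive `p`-th root of unity, `λ = ζ - 1`.

* `as_ss` : `y ∈ F`, `y ^ p = u ∈ F₀`, `u ∈ 1 + λ^p w O₀`, and at every closed point `𝔫₀ ∋ w` of
  the two charts of `F₀` a local factorisation `u = ε * h ^ p`, `h ∈ 1 + λ w O₀`,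
  `ε ∈ 1 + λ^p w (B₀)_{𝔫₀}`.  Then `u` is a `p`-th power in `F₀`.

Proof: `Y = (y - 1)/λ` satisfies `∏_{k<p} (Y - g_k) = (u - 1)/λ^p ≡ 0 mod w O`; the local models
`Y₁ = (y/h - 1)/λ` are integral at `𝔫₀`; `as_trivial_of_local` gives `Y ≡ g_k mod w O` for one
`k`, i.e. `y' = ζ^{-k} y ∈ 1 + λ w O`; for `σ ∈ Gal(F/F₀)`, `σ y' = ζ^j y'` forces
`g_j ∈ w O ∩ R = w R`, so `j = 0`.
-/

set_option autoImplicit false
set_option linter.unusedSectionVars false

namespace Fermat.Agent.Ribet.H552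

open Polynomial Fermat.Agent.S18.H138 Fermat.Agent.A2.H729

section ASEq

variable {R : Type*} [CommRing R] {F : Type*} [Field F] [Algebra R F]

/-- **Artin–Schreier form of the Kummer equation**: for `z = 1 + λ Z`,
`z ^ p - 1 = λ ^ p ∏_{k<p} (Z - g_k)`. -/
theorem pow_sub_one_eq_prod_geomS {p : ℕ} (hp : 0 < p) {ζ : R}
    (hζF : IsPrimitiveRoot (algebraMap R F ζ) p) {z Z : F}
    (hz : z = 1 + algebraMap R F (ζ - 1) * Z) :
    z ^ p - 1 = algebraMap R F (ζ - 1) ^ p *
      ∏ k ∈ Finset.range p, (Z - algebraMap R F (geomS ζ k)) := by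
  rw [← prod_range_sub_pow hp hζF z]
  have h : ∀ k ∈ Finset.range p, z - algebraMap R F ζ ^ k =
      algebraMap R F (ζ - 1) * (Z - algebraMap R F (geomS ζ k)) := by
    intro k _
    have h1 : algebraMap R F (geomS ζ k) * algebraMap R F (ζ - 1) = algebraMap R F ζ ^ k - 1 := by
      rw [← _root_.map_mul, geomS_mul, _root_.map_sub, _root_.map_pow, _root_.map_one]
    rw [hz]
    linear_combination h1
  rw [Finset.prod_congr rfl h, Finset.prod_mul_distrib, Finset.prod_const, Finset.card_range]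

/-- An element `Y` with `∏_{k ∈ s} (Y - a k) = b` is integral. -/
theorem isIntegral_of_prod_sub_eq {A : Type*} [CommRing A] [Nontrivial A] [Algebra A F]
    (s : Finset ℕ) (hs : s.Nonempty) (a : ℕ → A) (b : A) {Y : F}
    (h : ∏ k ∈ s, (Y - algebraMap A F (a k)) = algebraMap A F b) : IsIntegral A Y := by
  have hm : (∏ k ∈ s, (X - C (a k))).Monic := monic_prod_X_sub_C a s
  have hdeg : (∏ k ∈ s, (X - C (a k))).natDegree = s.card := by
    rw [natDegree_prod_of_monic _ _ fun k _ => monic_X_sub_C (a k)]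
    simp
  refine ⟨∏ k ∈ s, (X - C (a k)) - C b, hm.sub_of_left ?_, ?_⟩
  · rw [degree_eq_natDegree hm.ne_zero, hdeg]
    refine lt_of_le_of_lt degree_C_le ?_
    exact_mod_cast Finset.card_pos.2 hs
  · rw [eval₂_sub, eval₂_finsetProd, eval₂_C]
    simp only [eval₂_sub, eval₂_X, eval₂_C]
    rw [h, sub_self]

end ASEq

section Loc

variable {R : Type*} [CommRing R] [IsDomain R] [IsIntegrallyClosed (Polynomial R)]
  {F₀ : Type*} [Field F₀] [Algebra R F₀]
  {F : Type*} [Field F] [Algebra R F] [Algebra F₀ F] [IsScalarTower R F₀ F]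

/-- The local hypothesis of `as_trivial_of_local` from wild local factorisations on the base. -/
theorem hloc_of_localFactorisationP {w : R} (hw : Prime w) {x₀ : F₀}
    (hx : Transcendental R (algebraMap F₀ F x₀)) {p : ℕ} (hp : p.Prime) {ζ : R}
    (hζF : IsPrimitiveRoot (algebraMap R F ζ) p) {u : F₀} {y Y : F}
    (hyu : y ^ p = algebraMap F₀ F u) (hyY : y = 1 + algebraMap R F (ζ - 1) * Y)
    (hYO : Y ∈ gaussO hw (algebraMap F₀ F x₀))
    (hLF : ∀ 𝔫₀ : Ideal (chart R ({x₀} : Set F₀)), 𝔫₀.IsMaximal →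
      algebraMap R (chart R ({x₀} : Set F₀)) w ∈ 𝔫₀ →
      ∃ s : chart R ({x₀} : Set F₀), s ∉ 𝔫₀ ∧ ∃ h ε : F₀,
        (∃ t ∈ gaussO hw x₀, h - 1 = algebraMap R F₀ ((ζ - 1) * w) * t) ∧ u = ε * h ^ p ∧
        ∃ c ∈ chart R ({x₀} : Set F₀), (s : F₀) * (ε - 1) = algebraMap R F₀ ((ζ - 1) ^ p * w) * c) :
    ∀ 𝔫 : Ideal (chart R ({algebraMap F₀ F x₀} : Set F)), 𝔫.IsMaximal →
      algebraMap R (chart R ({algebraMap F₀ F x₀} : Set F)) w ∈ 𝔫 →
      ∃ S : chart R ({algebraMap F₀ F x₀} : Set F), S ∉ 𝔫 ∧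
        ∃ Y₁ : F, InW (gaussO hw (algebraMap F₀ F x₀)) w (Y - Y₁) ∧
          (S : F) * Y₁ ∈ chart R ({algebraMap F₀ F x₀} : Set F) := by
  intro 𝔫 h𝔫 hw𝔫
  have := h𝔫
  set O := gaussO hw (algebraMap F₀ F x₀) with hO
  have hmax := isMaximal_comap_chartMap (R := R) (F := F) x₀ 𝔫
  have hw₀ : algebraMap R (chart R ({x₀} : Set F₀)) w ∈
      Ideal.comap (chartMap (R := R) (F := F) x₀) 𝔫 := by
    rw [Ideal.mem_comap, chartMap_algebraMap]
    exact hw𝔫
  obtain ⟨s₀, hs₀, h, ε, ⟨t, ht, hht⟩, huε, c, hc, hsc⟩ := hLF _ hmax hw₀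
  set lam : F := algebraMap R F (ζ - 1) with hlam
  have hlam0 : lam ≠ 0 := by
    rw [hlam, _root_.map_sub, _root_.map_one]
    exact sub_ne_zero.2 (hζF.ne_one hp.one_lt)
  set hF : F := algebraMap F₀ F h with hhF
  have htO : algebraMap F₀ F t ∈ O := algebraMap_mem_gaussO (F := F) hw ht
  have hhF1 : hF - 1 = lam * algebraMap R F w * algebraMap F₀ F t := by
    rw [hhF, ← _root_.map_one (algebraMap F₀ F), ← _root_.map_sub, hht, _root_.map_mul,
      ← IsScalarTower.algebraMap_apply R F₀ F, _root_.map_mul]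
  have hInW : InW O w (hF - 1) := by
    refine ⟨lam * algebraMap F₀ F t, O.mul_mem (O.algebraMap_mem _) htO, ?_⟩
    rw [hhF1]; ring
  obtain ⟨hne, hinv, -⟩ := inW_inv_sub_one hw hx hInW
  have hh0 : h ≠ 0 := fun h0 => hne (by rw [hhF, h0, _root_.map_zero])
  have hyO : y ∈ O := by
    rw [hyY]
    exact O.add_mem O.one_mem (O.mul_mem (O.algebraMap_mem _) hYO)
  set Y₁ : F := (y * hF⁻¹ - 1) * lam⁻¹ with hY₁
  have hz₁ : y * hF⁻¹ = 1 + lam * Y₁ := by
    rw [hY₁]
    have e0 : lam * lam⁻¹ = 1 := mul_inv_cancel₀ hlam0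
    linear_combination (-(y * hF⁻¹ - 1)) * e0
  refine ⟨chartMap (R := R) (F := F) x₀ s₀, fun hs => hs₀ (Ideal.mem_comap.2 hs), Y₁, ?_, ?_⟩
  · refine ⟨y * hF⁻¹ * algebraMap F₀ F t, O.mul_mem (O.mul_mem hyO hinv) htO, ?_⟩
    apply mul_left_cancel₀ hlam0
    have e1 : hF * hF⁻¹ = 1 := mul_inv_cancel₀ hne
    linear_combination -hyY + hz₁ + (y * hF⁻¹) * hhF1 - y * e1
  · have hSc : ((chartMap (R := R) (F := F) x₀ s₀ : chart R ({algebraMap F₀ F x₀} : Set F)) : F)
        = algebraMap F₀ F s₀ := rfl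
    rw [hSc]
    set S : F := algebraMap F₀ F s₀ with hS
    -- the Artin–Schreier equation of `Y₁`
    have hAS := pow_sub_one_eq_prod_geomS hp.pos hζF hz₁
    have hε : algebraMap F₀ F ε = (y * hF⁻¹) ^ p := by
      rw [mul_pow, hyu, huε, _root_.map_mul, _root_.map_pow, inv_pow, mul_assoc,
        mul_inv_cancel₀ (pow_ne_zero p hne), mul_one]
    have hSε : S * (algebraMap F₀ F ε - 1) = lam ^ p * algebraMap R F w * algebraMap F₀ F c := by
      rw [hS, ← _root_.map_one (algebraMap F₀ F), ← _root_.map_sub, ← _root_.map_mul, hsc, _root_.map_mul,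
        ← IsScalarTower.algebraMap_apply R F₀ F, _root_.map_mul, _root_.map_pow]
    have hp1 : S ^ p = S ^ (p - 1) * S := by
      rw [← pow_succ]
      congr 1
      have := hp.pos
      omega
    have hprod : ∏ k ∈ Finset.range p, (S * Y₁ - S * algebraMap R F (geomS ζ k)) =
        S ^ (p - 1) * algebraMap R F w * algebraMap F₀ F c := by
      have e1 : ∏ k ∈ Finset.range p, (S * Y₁ - S * algebraMap R F (geomS ζ k)) =
          S ^ p * ∏ k ∈ Finset.range p, (Y₁ - algebraMap R F (geomS ζ k)) := by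
        rw [← Finset.card_range p, ← Finset.prod_const, Finset.card_range,
          ← Finset.prod_mul_distrib]
        exact Finset.prod_congr rfl fun k _ => by ring
      rw [e1]
      apply mul_left_cancel₀ (pow_ne_zero p hlam0)
      rw [← hε] at hAS
      linear_combination (-(S ^ p)) * hAS + S ^ (p - 1) * hSε + (algebraMap F₀ F ε - 1) * hp1
    -- integrality over the chart
    let C' := chart R ({algebraMap F₀ F x₀} : Set F)
    have hSC : S ∈ C' := algebraMap_mem_chart_singleton s₀.2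
    have hcC : algebraMap F₀ F c ∈ C' := algebraMap_mem_chart_singleton hc
    have hint : IsIntegral C' (S * Y₁) := by
      refine isIntegral_of_prod_sub_eq (A := C') (Finset.range p)
        ⟨0, Finset.mem_range.2 hp.pos⟩
        (fun k => (⟨S, hSC⟩ : C') * algebraMap R C' (geomS ζ k))
        ((⟨S, hSC⟩ : C') ^ (p - 1) * algebraMap R C' w * ⟨algebraMap F₀ F c, hcC⟩) ?_
      exact hprod
    exact mem_chart_of_isIntegral_chart hint

end Loc

section Main

variable {R : Type*} [CommRing R] [IsDomain R] [IsNoetherianRing R]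
  [IsIntegrallyClosed (Polynomial R)]
  {F₀ : Type*} [Field F₀] [Algebra R F₀]
  {F : Type*} [Field F] [Algebra R F] [Algebra F₀ F] [IsScalarTower R F₀ F] [CharZero F]

/-- **GLUE-p, field form (wild `alg_ss`).**  A Kummer class `u ∈ F₀` of prime order `p` with
`u ∈ 1 + λ^p w O₀` and local factorisations `u = ε * h ^ p` (`h ∈ 1 + λ w O₀`,
`ε ∈ 1 + λ^p w (B₀)_{𝔫₀}`) at every closed point of the special fibre of both charts is a `p`-th
power in `F₀`, provided its Kummer extension `F` is regular over `R` (`hRF`). -/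
theorem as_ss [IsGalois F₀ F] [FiniteDimensional F₀ F]
    (hinjR : Function.Injective (algebraMap R F))
    (hRF : ∀ y : F, IsIntegral R y → y ∈ Set.range (algebraMap R F))
    {x₀ : F₀} (hx : Transcendental R (algebraMap F₀ F x₀))
    [FiniteDimensional (baseField R (algebraMap F₀ F x₀)) F]
    {w : R} (hw : Prime w) {p : ℕ} (hp : p.Prime) {ζ : R} (hζ : IsPrimitiveRoot ζ p)
    {u : F₀} {y : F} (hyu : y ^ p = algebraMap F₀ F u)
    (hgen : ∃ t ∈ gaussO hw x₀, u - 1 = algebraMap R F₀ ((ζ - 1) ^ p * w) * t)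
    (hLF_fin : ∀ 𝔫₀ : Ideal (chart R ({x₀} : Set F₀)), 𝔫₀.IsMaximal →
      algebraMap R (chart R ({x₀} : Set F₀)) w ∈ 𝔫₀ →
      ∃ s : chart R ({x₀} : Set F₀), s ∉ 𝔫₀ ∧ ∃ h ε : F₀,
        (∃ t ∈ gaussO hw x₀, h - 1 = algebraMap R F₀ ((ζ - 1) * w) * t) ∧ u = ε * h ^ p ∧
        ∃ c ∈ chart R ({x₀} : Set F₀), (s : F₀) * (ε - 1) = algebraMap R F₀ ((ζ - 1) ^ p * w) * c)
    (hLF_inf : ∀ 𝔫₀ : Ideal (chart R ({x₀⁻¹} : Set F₀)), 𝔫₀.IsMaximal →
      algebraMap R (chart R ({x₀⁻¹} : Set F₀)) w ∈ 𝔫₀ →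
      ∃ s : chart R ({x₀⁻¹} : Set F₀), s ∉ 𝔫₀ ∧ ∃ h ε : F₀,
        (∃ t ∈ gaussO hw x₀, h - 1 = algebraMap R F₀ ((ζ - 1) * w) * t) ∧ u = ε * h ^ p ∧
        ∃ c ∈ chart R ({x₀⁻¹} : Set F₀),
          (s : F₀) * (ε - 1) = algebraMap R F₀ ((ζ - 1) ^ p * w) * c) :
    ∃ y₀ : F₀, y₀ ^ p = u := by
  classical
  set x : F := algebraMap F₀ F x₀ with hxdef
  have hx0 : x ≠ 0 := ne_zero_of_transcendental hx
  have hx₀0 : x₀ ≠ 0 := fun h => hx0 (by rw [hxdef, h, _root_.map_zero])
  set O := gaussO hw x with hO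
  have hζF : IsPrimitiveRoot (algebraMap R F ζ) p := hζ.map_of_injective hinjR
  set lam : F := algebraMap R F (ζ - 1) with hlam
  have hlam0 : lam ≠ 0 := by
    rw [hlam, _root_.map_sub, _root_.map_one]
    exact sub_ne_zero.2 (hζF.ne_one hp.one_lt)
  set Y : F := (y - 1) * lam⁻¹ with hY
  have hyY : y = 1 + lam * Y := by
    rw [hY]
    have e0 : lam * lam⁻¹ = 1 := mul_inv_cancel₀ hlam0
    linear_combination (-(y - 1)) * e0
  obtain ⟨t, ht, hut⟩ := hgen
  have htO : algebraMap F₀ F t ∈ O := algebraMap_mem_gaussO (F := F) hw ht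
  have hAS := pow_sub_one_eq_prod_geomS hp.pos hζF hyY
  have hprodY : ∏ k ∈ Finset.range p, (Y - algebraMap R F (geomS ζ k)) =
      algebraMap R F w * algebraMap F₀ F t := by
    apply mul_left_cancel₀ (pow_ne_zero p hlam0)
    rw [← hAS, hyu, ← _root_.map_one (algebraMap F₀ F), ← _root_.map_sub, hut, _root_.map_mul,
      ← IsScalarTower.algebraMap_apply R F₀ F, _root_.map_mul, _root_.map_pow]
    ring
  have hYO : Y ∈ O := by
    apply mem_gaussO_of_isIntegral hw
    refine isIntegral_of_prod_sub_eq (A := O) (Finset.range p) ⟨0, Finset.mem_range.2 hp.pos⟩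
      (fun k => algebraMap R O (geomS ζ k)) (algebraMap R O w * ⟨algebraMap F₀ F t, htO⟩) ?_
    exact hprodY
  have hA : InW O w (∏ k ∈ Finset.range p, (Y - algebraMap R F (geomS ζ k))) :=
    ⟨_, htO, hprodY⟩
  -- inverses of the differences of the sheet values
  have hex : ∀ k l : ℕ, ∃ r : R, k < p → l < p → k ≠ l →
      (geomS ζ k - geomS ζ l) * r = 1 := by
    intro k l
    by_cases h : k < p ∧ l < p ∧ k ≠ l
    · obtain ⟨r, hr⟩ := exists_geomS_sub_inv hp hζ h.1 h.2.1 h.2.2
      exact ⟨r, fun _ _ _ => hr⟩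
    · exact ⟨0, fun h1 h2 h3 => absurd ⟨h1, h2, h3⟩ h⟩
  choose d hd using hex
  have hd' : ∀ k ∈ Finset.range p, ∀ l ∈ Finset.range p, k ≠ l →
      (geomS ζ k - geomS ζ l) * d k l = 1 :=
    fun k hk l hl hkl => hd k l (Finset.mem_range.1 hk) (Finset.mem_range.1 hl) hkl
  -- local integral models
  have hxinv : algebraMap F₀ F x₀⁻¹ = x⁻¹ := by rw [map_inv₀]
  have hxi : Transcendental R (algebraMap F₀ F x₀⁻¹) := by
    rw [hxinv]; exact transcendental_inv hx
  have hloc_fin := hloc_of_localFactorisationP (F := F) hw hx hp hζF hyu hyY hYO hLF_fin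
  have hYO' : Y ∈ gaussO hw (algebraMap F₀ F x₀⁻¹) := by
    rw [hxinv, gaussO_inv hw hx0]; exact hYO
  have hLF_inf' : ∀ 𝔫₀ : Ideal (chart R ({x₀⁻¹} : Set F₀)), 𝔫₀.IsMaximal →
      algebraMap R (chart R ({x₀⁻¹} : Set F₀)) w ∈ 𝔫₀ →
      ∃ s : chart R ({x₀⁻¹} : Set F₀), s ∉ 𝔫₀ ∧ ∃ h ε : F₀,
        (∃ t ∈ gaussO hw x₀⁻¹, h - 1 = algebraMap R F₀ ((ζ - 1) * w) * t) ∧ u = ε * h ^ p ∧
        ∃ c ∈ chart R ({x₀⁻¹} : Set F₀),
          (s : F₀) * (ε - 1) = algebraMap R F₀ ((ζ - 1) ^ p * w) * c := by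
    rw [gaussO_inv hw hx₀0]
    exact hLF_inf
  have hloc_inf := hloc_of_localFactorisationP (F := F) hw hxi hp hζF hyu hyY hYO' hLF_inf'
  rw [hxinv, gaussO_inv hw hx0] at hloc_inf
  obtain ⟨k₀, hk₀, T, hT, hYT⟩ := as_trivial_of_local hinjR hRF hx w hw O
    (chart_fin_le_gaussO hw x) (chart_inf_le_gaussO hw hx0) (qep_fin hw hx) (qep_inf hw hx)
    (qep_mid hw hx) (not_inW_one hinjR hw hx) (Finset.range p)
    ⟨0, Finset.mem_range.2 hp.pos⟩ (geomS ζ) d hd' hYO hA hloc_fin hloc_inf
  rw [Finset.mem_range] at hk₀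
  -- the normalised root `y' = ζ^{-k₀} y ∈ 1 + λ w O`
  set ζi : R := ζ ^ (p - k₀) with hζi
  have hζζ : ζ ^ k₀ * ζi = 1 := by
    rw [hζi, ← pow_add, show k₀ + (p - k₀) = p by omega, hζ.pow_eq_one]
  set y' : F := algebraMap R F ζi * y with hy'
  have hy'p : y' ^ p = algebraMap F₀ F u := by
    rw [hy', mul_pow, ← _root_.map_pow, hζi, ← pow_mul, mul_comm (p - k₀) p, pow_mul, hζ.pow_eq_one,
      one_pow, _root_.map_one, one_mul, hyu]
  set T' : F := algebraMap R F ζi * T with hT'
  have hT'O : T' ∈ O := O.mul_mem (O.algebraMap_mem _) hT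
  have hy'1 : y' = 1 + lam * algebraMap R F w * T' := by
    have h1 : algebraMap R F (geomS ζ k₀) * lam = algebraMap R F ζ ^ k₀ - 1 := by
      rw [hlam, ← _root_.map_mul, geomS_mul, _root_.map_sub, _root_.map_pow, _root_.map_one]
    have h2 : algebraMap R F ζ ^ k₀ * algebraMap R F ζi = 1 := by
      rw [← _root_.map_pow, ← _root_.map_mul, hζζ, _root_.map_one]
    rw [hy', hT']
    linear_combination (algebraMap R F ζi) * hyY + (algebraMap R F ζi * lam) * hYT +
      (algebraMap R F ζi) * h1 + h2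
  have hy'0 : y' ≠ 0 := by
    intro h0
    apply not_inW_one hinjR hw hx
    refine ⟨-(lam * T'), O.neg_mem (O.mul_mem (O.algebraMap_mem _) hT'O), ?_⟩
    rw [h0] at hy'1
    linear_combination -hy'1
  have hfix : ∀ σ : F ≃ₐ[F₀] F, σ y' = y' := by
    intro σ
    set ξ : F := σ y' * y'⁻¹ with hξ
    have hσy : σ y' = ξ * y' := by rw [hξ, mul_assoc, inv_mul_cancel₀ hy'0, mul_one]
    have hξp : ξ ^ p = 1 := by
      rw [hξ, mul_pow, ← _root_.map_pow, hy'p, σ.commutes, ← hy'p, inv_pow,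
        mul_inv_cancel₀ (pow_ne_zero _ hy'0)]
    have : NeZero p := ⟨hp.ne_zero⟩
    obtain ⟨j, hj, hjξ⟩ := hζF.eq_pow_of_pow_eq_one hξp
    have hσR : ∀ r : R, σ (algebraMap R F r) = algebraMap R F r := fun r => by
      rw [IsScalarTower.algebraMap_apply R F₀ F, σ.commutes]
    have hσT : σ T' ∈ O := algEquiv_mem_gaussO hw σ hT'O
    have hσlam : σ lam = lam := by
      rw [hlam]
      exact hσR _
    have h3 : σ y' = 1 + lam * algebraMap R F w * σ T' :=
      calc σ y' = σ (1 + lam * algebraMap R F w * T') := congrArg σ hy'1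
        _ = 1 + lam * algebraMap R F w * σ T' := by
          rw [_root_.map_add, _root_.map_one, _root_.map_mul, _root_.map_mul, hσlam, hσR]
    have h4 : algebraMap R F (geomS ζ j) * lam = ξ - 1 := by
      rw [← hjξ, hlam, ← _root_.map_mul, geomS_mul, _root_.map_sub, _root_.map_pow, _root_.map_one]
    have h5 : algebraMap R F (geomS ζ j) = algebraMap R F w * (σ T' - ξ * T') := by
      apply mul_left_cancel₀ hlam0
      linear_combination h4 + h3 - hσy - ξ * hy'1
    have hξO : ξ ∈ O := by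
      rw [← hjξ, ← _root_.map_pow]
      exact O.algebraMap_mem _
    have h6 : InW O w (algebraMap R F (geomS ζ j)) :=
      ⟨_, O.sub_mem hσT (O.mul_mem hξO hT'O), h5⟩
    have h7 : w ∣ geomS ζ j := dvd_of_inW_algebraMap hinjR hw hx h6
    have hj0 : j = 0 := by
      by_contra hne
      obtain ⟨r, hr⟩ := exists_geomS_inv hp hζ (Nat.pos_of_ne_zero hne) hj
      have h8 : w ∣ (1 : R) := by
        rw [← hr]
        exact h7.mul_right r
      exact hw.not_isUnit (isUnit_of_dvd_one h8)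
    rw [hσy, ← hjξ, hj0, pow_zero, one_mul]
  obtain ⟨y₀, hy₀⟩ := (IsGalois.mem_range_algebraMap_iff_fixed
    (F := F₀) (E := F) y').2 hfix
  refine ⟨y₀, ?_⟩
  apply (algebraMap F₀ F).injective
  rw [_root_.map_pow, hy₀, hy'p]

end Main

end Fermat.Agent.Ribet.H552

end
-- ===== PACK-END Ribet/H552/ASGlue.lean

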