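import Mathlib
import Fermat.Agent.Pack.S33.E19L3
import Fermat.Agent.Pack.S33.E14L3
import Fermat.Agent.Pack.S33.E17L3
import Fermat.Agent.Pack.S33.E17L0
import Fermat.Agent.Pack.S33.E10L3
import Fermat.Agent.Pack.S33.E8L3
import Fermat.Agent.Pack.S33.E2L3
import Fermat.Agent.Pack.S33.E8L2
import Fermat.Agent.Pack.S33.E19L1
import Fermat.Agent.Pack.S33.E18L3
import Fermat.Agent.Pack.S33.E15L0
import Fermat.Agent.Pack.S33.E14L2
import Fermat.Agent.Pack.S33.E17L1
import Fermat.Agent.Pack.S33.E18L0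
import Fermat.Agent.Pack.S33.E2L1
import Fermat.Agent.Pack.S33.E4L2
import Fermat.Agent.Pack.S33.E18L2
import Fermat.Agent.Pack.S33.E19L2
import Fermat.Agent.Pack.S33.E19L0
import Fermat.Agent.Pack.S33.E12L1
import Fermat.Agent.Pack.S33.E9L0
import Fermat.Agent.Pack.S33.E13L2
import Fermat.Agent.Pack.S33.E4L3
import Fermat.Agent.Pack.S33.E16L2

-- ===== PACK-BEGIN S29/M4b/H822/Basic.lean
section
/-
S29 / M4b (helper822): basic API for the frozen definitions of `M4b/Defs.lean`
(roots of unity, characters, realisations).  Sorry-free.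
-/


set_option autoImplicit false

noncomputable section

open ModularCurve AlgebraicCurve CongruenceSubgroup UpperHalfPlane
open scoped MatrixGroups Manifold

namespace Fermat.Agent.S29.M4b.H822

open Fermat.Agent.S24 Fermat.Agent.S29 Fermat.Agent.S29.M4b

/-! ### The root of unity `zetaP p` -/

theorem isPrimitiveRoot_zetaP (p : ℕ) [NeZero p] : IsPrimitiveRoot (zetaP p) p := by
  unfold zetaP
  exact Complex.isPrimitiveRoot_exp p (NeZero.ne p)

theorem zetaP_pow_self (p : ℕ) [NeZero p] : zetaP p ^ p = 1 :=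
  (isPrimitiveRoot_zetaP p).pow_eq_one

theorem zetaP_ne_zero (p : ℕ) [NeZero p] : zetaP p ≠ 0 := by
  unfold zetaP
  exact Complex.exp_ne_zero _

theorem zetaP_pow_val_add (p : ℕ) [NeZero p] (a b : ZMod p) :
    zetaP p ^ (a + b).val = zetaP p ^ a.val * zetaP p ^ b.val := by
  rw [ZMod.val_add, ← pow_add, ← pow_eq_pow_mod _ (zetaP_pow_self p)]

theorem zetaP_pow_val_eq_one_iff (p : ℕ) [NeZero p] (a : ZMod p) :
    zetaP p ^ a.val = 1 ↔ a = 0 := by
  rw [(isPrimitiveRoot_zetaP p).pow_eq_one_iff_dvd]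
  constructor
  · intro h
    have h1 : a.val = 0 := Nat.eq_zero_of_dvd_of_lt h (ZMod.val_lt a)
    exact (ZMod.val_eq_zero a).mp h1
  · rintro rfl
    simp

theorem zetaP_pow_val_zero (p : ℕ) [NeZero p] : zetaP p ^ (0 : ZMod p).val = 1 := by
  simp

/-! ### Characters -/

theorem hasChar_mul {N p : ℕ} [NeZero p] {c c' : G0 N → ZMod p} {U U' : ℍ → ℂ}
    (h : HasChar N p c U) (h' : HasChar N p c' U') :
    HasChar N p (c + c') (fun τ => U τ * U' τ) := by
  intro γ τ
  show U _ * U' _ = _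
  rw [h γ τ, h' γ τ, Pi.add_apply, zetaP_pow_val_add]
  ring

theorem hasChar_pow_invariant {N p : ℕ} [NeZero p] {c : G0 N → ZMod p} {U : ℍ → ℂ}
    (h : HasChar N p c U) (γ : G0 N) (τ : ℍ) :
    U ((γ : SL(2, ℤ)) • τ) ^ p = U τ ^ p := by
  rw [h γ τ, mul_pow, ← pow_mul, mul_comm (c γ).val p, pow_mul, zetaP_pow_self, one_pow, one_mul]

/-! ### Realisations -/

section Realises

variable {N : ℕ} [NeZero N]

theorem realises_mem {u : FF N} {G : ℍ → ℂ} (h : Realises N u G) : G ∈ H648.goodRing N := h.1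

theorem realises_isMerInf {u : FF N} {G : ℍ → ℂ} (h : Realises N u G) : H708.IsMerInf 1 G :=
  H882.isMerInf_of_mem_goodRing h.1

theorem realises_hasQExp {u : FF N} {G : ℍ → ℂ} (h : Realises N u G) :
    H708.HasQExp 1 G (coeffMap Deg457.iotaC ((u : FF N) : LaurentSeries Kbar)) :=
  ⟨realises_isMerInf h, h.2⟩

theorem realises_of_hasQExp {u : FF N} {G : ℍ → ℂ} (hG : G ∈ H648.goodRing N)
    (h : H708.HasQExp 1 G (coeffMap Deg457.iotaC ((u : FF N) : LaurentSeries Kbar))) :
    Realises N u G :=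
  ⟨hG, h.2⟩

theorem realises_mul {u v : FF N} {G H : ℍ → ℂ} (hu : Realises N u G) (hv : Realises N v H) :
    Realises N (u * v) (G * H) := by
  refine realises_of_hasQExp ((H648.goodRing N).mul_mem hu.1 hv.1) ?_
  have := (realises_hasQExp hu).mul (realises_hasQExp hv)
  simpa using this

theorem realises_pow {u : FF N} {G : ℍ → ℂ} (hu : Realises N u G) (n : ℕ) :
    Realises N (u ^ n) (G ^ n) := by
  refine realises_of_hasQExp ((H648.goodRing N).pow_mem hu.1 n) ?_
  have := (realises_hasQExp hu).pow n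
  simpa using this

theorem coeffMap_iotaC_injective :
    Function.Injective (coeffMap Deg457.iotaC : LaurentSeries Kbar → LaurentSeries ℂ) := by
  intro x y h
  ext n
  have h1 := congrArg (fun z : LaurentSeries ℂ => z.coeff n) h
  simp only [coeffMap] at h1
  exact Deg457.iotaC.injective (by simpa using h1)

/-- A realisation of a nonzero element is not the zero function. -/
theorem realises_ne_zero {u : FF N} {G : ℍ → ℂ} (h : Realises N u G) (hu : u ≠ 0) : G ≠ 0 := by
  intro hG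
  have h1 := ((realises_hasQExp h).eq_zero_iff).mpr hG
  have h2 : ((u : FF N) : LaurentSeries Kbar) = 0 :=
    coeffMap_iotaC_injective (by rw [h1, map_zero])
  exact hu (Subtype.ext h2)

/-- The realised element is determined by the function. -/
theorem realises_unique_left {u v : FF N} {G : ℍ → ℂ} (hu : Realises N u G)
    (hv : Realises N v G) : u = v := by
  apply Subtype.ext
  apply coeffMap_iotaC_injective
  rw [← hu.2, ← hv.2]

/-- The function is determined by the realised element. -/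
theorem realises_unique_right {u : FF N} {G H : ℍ → ℂ} (hG : Realises N u G)
    (hH : Realises N u H) : G = H :=
  (realises_hasQExp hG).eq_of_eq (realises_hasQExp hH)

/-- Every element of the polynomial ring `ℚ̄[j(q^d) : d ∣ N]` is realised by a good function. -/
theorem exists_realises_of_mem_AK {a : FF N}
    (ha : ((a : FF N) : LaurentSeries Kbar) ∈ Deg457.AK Kbar N) :
    ∃ G : ℍ → ℂ, Realises N a G := by
  have h1 := Deg457.coeffMap_mem_AK Deg457.iotaC ha
  obtain ⟨G, hG, hq⟩ := H882.AK_le_goodQ N h1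
  exact ⟨G, hG, hq.2⟩

end Realises

end Fermat.Agent.S29.M4b.H822

end
end
-- ===== PACK-END S29/M4b/H822/Basic.lean

-- ===== PACK-BEGIN S29/M4b/K3/Defs.lean
section
/-
S29 row, LAYER M, SUB-LAYER M4b, PIECE K3 (descent `ℂ → ℚ̄`) — interface definitions of the
K3 sub-skeleton (helper42, squad-lead S29/S42).  Namespace `Fermat.Agent.S29.M4b.K3`.

K3 (`exists_realised_isTwisted` of `M4b/Skeleton.lean`) is PROVED in `M4b/K3/Top.lean` from
* `H152.desc_main` (helper152; places-free descent of Kummer classes),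
* the landed ROOT lemma `H751.exists_pow_eq_UHP`, MERO `H882`, and
* the two `Prop`s below: `DegStatement` (bounded degree of `F_ℂ` over `ℂ(j)`) and `FinStatement`
  (finiteness of the `Aut(ℂ/ℚ̄)`-orbit of the Kummer class of a twisted function).
-/


set_option autoImplicit false

noncomputable section

open ModularCurve AlgebraicCurve CongruenceSubgroup UpperHalfPlane
open scoped MatrixGroups Manifold

namespace Fermat.Agent.S29.M4b.K3

open Fermat.Agent.S24 Fermat.Agent.S24.H648 Fermat.Agent.S24.H708 Fermat.Agent.S24.Deg457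
open Fermat.Agent.S29 Fermat.Agent.S29.M4b

/-- `ℂ` as an algebra over `ℚ̄` along the fixed embedding `Deg457.iotaC`.  (A `def`, not an
instance: use `letI := algKC`.) -/
@[reducible] def algKC : Algebra Kbar ℂ := iotaC.toAlgebra

/-- The function field of `X₀(N)` over `ℂ` inside `ℂ((q))` (Prelude object). -/
abbrev FC (N : ℕ) : IntermediateField ℂ (LaurentSeries ℂ) :=
  laurentBaseChange ℂ (modularFunctionFieldFull N)

/-- SUB-PIECE `K3-DEG`: the function field `F_ℂ = ℂ(j(q^d) : d ∣ N)` has bounded degree over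
`ℂ(j)` (every element is a root of a polynomial of degree `≤ n` over `ℂ(j)`).
Exactly the hypothesis `hdeg` of `H152.desc_main`. -/
def DegStatement (N : ℕ) : Prop :=
  ∃ n : ℕ, ∀ u ∈ FC N,
    IsIntegral (IntermediateField.adjoin ℂ {coeffEmb ℂ jq}) u ∧
      (minpoly (IntermediateField.adjoin ℂ {coeffEmb ℂ jq}) u).natDegree ≤ n

/-- SUB-PIECE `K3-FIN` (the arithmetic heart of K3): for a twisted function `U` of a parabolic
character, the `Aut(ℂ/ℚ̄)`-orbit of the class of `f = qexp (U ^ p)` in `F_ℂˣ / (F_ℂˣ) ^ p` is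
finite.  Exactly the hypothesis `horb` of `H152.desc_main`.

Why true: `p ∣ ord_w f` at every place `w` of `F_ℂ/ℂ` (K2 over `ℂ`); `σ` permutes the places, so
the same holds for `σ f`, which is again the `q`-expansion of a good function `G_σ` (`σ f` is
integral over `ℂ[j]`); by the easy half of the dictionary `p ∣ ord_τ G_σ` for all `τ ∈ ℍ`, so
`G_σ = U_σ ^ p` (ROOT) and `U_σ` has a character `χ_σ : Γ₀(N) → μ_p`
(`H751.exists_character_of_pow_eq`); there are finitely many characters (`Γ₀(N)` is finitely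
generated), and `χ_σ = χ_σ'` implies `σ f / σ' f = (U_σ U_σ' ^ (p-1) / G_σ') ^ p ∈ (F_ℂˣ) ^ p`
(MERO applied to the good invariant function `U_σ U_σ' ^ (p-1)`). -/
def FinStatement (N p : ℕ) : Prop :=
  letI := algKC
  ∀ (c : G0 N → ZMod p), IsParHom c → ∀ U : ℍ → ℂ, IsTwisted N p c U →
    ∃ T : Set (LaurentSeries ℂ), T.Finite ∧ ∀ σ : ℂ ≃ₐ[Kbar] ℂ, ∃ t ∈ T,
      ∃ u ∈ FC N, u ≠ 0 ∧
        coeffMap (σ : ℂ →+* ℂ) (qexpFun 1 (fun τ => U τ ^ p)) = t * u ^ p

end Fermat.Agent.S29.M4b.K3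

end
end
-- ===== PACK-END S29/M4b/K3/Defs.lean

-- ===== PACK-BEGIN S29/H942/SameChar.lean
section


/-!
# S29 / M4b / K3 (DESC), sub-piece (B) "FINITE" (helper942)

Two twisted functions of the SAME character have `p`-th powers whose `q`-expansions differ by a
`p`-th power of the function field `F_ℂ = laurentBaseChange ℂ (modularFunctionFieldFull N)`.

* `expGrowth_of_pow` : root of a growth bound.
* `mem_goodRing_of_pow_mem` : a holomorphic `Γ₀(N)`-invariant function with a good power is good.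
* `mul_pow_pred_mem_goodRing` : `U * V ^ (p - 1)` is good for `U`, `V` twisted of the same
  character.
* `exists_pow_mul_eq_of_isTwisted` : `qexp (U ^ p) = g ^ p * qexp (V ^ p)` with `g ∈ F_ℂ`, `g ≠ 0`.
* `exists_pow_mul_eq_of_realised` : the same for data `(f, t, U)` with `qexp (U ^ p) = f * t ^ p`
  (the shape used in `IsKum`).
-/

set_option autoImplicit false

noncomputable section

open ModularCurve AlgebraicCurve CongruenceSubgroup UpperHalfPlane
open scoped MatrixGroups Manifold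

namespace Fermat.Agent.S29.H942

open Fermat.Agent.S24 Fermat.Agent.S29 Fermat.Agent.S29.M4b

/-- Root of a growth bound: if `f ^ p` (`p ≠ 0`) has at most exponential growth, so has `f`. -/
theorem expGrowth_of_pow {f : ℍ → ℂ} {p : ℕ} (hp : p ≠ 0)
    (h : H648.ExpGrowth (fun τ => f τ ^ p)) : H648.ExpGrowth f := by
  obtain ⟨C, m, hC⟩ := h
  refine ⟨max C 1, m, fun τ hτ => ?_⟩
  have hexp : (1 : ℝ) ≤ Real.exp (2 * Real.pi * m * τ.im) := by
    apply Real.one_le_exp
    have := Real.pi_pos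
    have := τ.im_pos
    positivity
  have hpow := hC τ hτ
  rw [norm_pow] at hpow
  rcases le_total ‖f τ‖ 1 with h1 | h1
  · calc ‖f τ‖ ≤ 1 := h1
      _ = 1 * 1 := (one_mul 1).symm
      _ ≤ max C 1 * Real.exp (2 * Real.pi * m * τ.im) :=
          mul_le_mul (le_max_right _ _) hexp zero_le_one (le_trans zero_le_one (le_max_right _ _))
  · calc ‖f τ‖ ≤ ‖f τ‖ ^ p := le_self_pow₀ h1 hp
      _ ≤ C * Real.exp (2 * Real.pi * m * τ.im) := hpow
      _ ≤ max C 1 * Real.exp (2 * Real.pi * m * τ.im) := by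
          gcongr
          exact le_max_left _ _

/-- A holomorphic `Γ₀(N)`-invariant function one of whose powers is good is good. -/
theorem mem_goodRing_of_pow_mem (N : ℕ) {W : ℍ → ℂ} {p : ℕ} (hp : p ≠ 0)
    (hW : MDifferentiable 𝓘(ℂ) 𝓘(ℂ) W)
    (hinv : ∀ γ ∈ Gamma0 N, ∀ τ : ℍ, W (γ • τ) = W τ)
    (hpow : (fun τ => W τ ^ p) ∈ H648.goodRing N) : W ∈ H648.goodRing N := by
  refine ⟨hW, hinv, fun g => ?_⟩
  exact expGrowth_of_pow hp (hpow.2.2 g)

/-- `ζ_p ^ p = 1`. -/
theorem zetaP_pow_self' (p : ℕ) [NeZero p] : zetaP p ^ p = 1 := by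
  unfold zetaP
  rw [← Complex.exp_nat_mul]
  have hp : (p : ℂ) ≠ 0 := Nat.cast_ne_zero.mpr (NeZero.ne p)
  rw [mul_div_cancel₀ _ hp]
  exact Complex.exp_two_pi_mul_I

variable (N : ℕ) [NeZero N] (p : ℕ) [NeZero p]

/-- For `U`, `V` of the same character, `U * V ^ (p - 1)` is `Γ₀(N)`-invariant. -/
theorem mul_pow_pred_invariant {c : G0 N → ZMod p} {U V : ℍ → ℂ}
    (hU : HasChar N p c U) (hV : HasChar N p c V) (γ : SL(2, ℤ)) (hγ : γ ∈ Gamma0 N) (τ : ℍ) :
    U (γ • τ) * V (γ • τ) ^ (p - 1) = U τ * V τ ^ (p - 1) := by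
  have h1 := hU ⟨γ, hγ⟩ τ
  have h2 := hV ⟨γ, hγ⟩ τ
  simp only at h1 h2
  rw [h1, h2, mul_pow, ← pow_mul]
  have hp1 : 1 ≤ p := Nat.one_le_iff_ne_zero.mpr (NeZero.ne p)
  have hz : zetaP p ^ (c ⟨γ, hγ⟩).val * zetaP p ^ ((c ⟨γ, hγ⟩).val * (p - 1)) = 1 := by
    rw [← pow_add]
    have : (c ⟨γ, hγ⟩).val + (c ⟨γ, hγ⟩).val * (p - 1) = p * (c ⟨γ, hγ⟩).val := by
      have hpp : p - 1 + 1 = p := Nat.sub_add_cancel hp1
      calc (c ⟨γ, hγ⟩).val + (c ⟨γ, hγ⟩).val * (p - 1)
          = (c ⟨γ, hγ⟩).val * (p - 1 + 1) := by ring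
        _ = p * (c ⟨γ, hγ⟩).val := by rw [hpp, mul_comm]
    rw [this, pow_mul, zetaP_pow_self', one_pow]
  calc zetaP p ^ (c ⟨γ, hγ⟩).val * U τ * (zetaP p ^ ((c ⟨γ, hγ⟩).val * (p - 1)) * V τ ^ (p - 1))
      = (zetaP p ^ (c ⟨γ, hγ⟩).val * zetaP p ^ ((c ⟨γ, hγ⟩).val * (p - 1))) *
          (U τ * V τ ^ (p - 1)) := by ring
    _ = U τ * V τ ^ (p - 1) := by rw [hz, one_mul]

/-- For `U`, `V` twisted of the same character, `U * V ^ (p - 1)` is good. -/
theorem mul_pow_pred_mem_goodRing {c : G0 N → ZMod p} {U V : ℍ → ℂ}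
    (hU : IsTwisted N p c U) (hV : IsTwisted N p c V) :
    (fun τ => U τ * V τ ^ (p - 1)) ∈ H648.goodRing N := by
  refine mem_goodRing_of_pow_mem N (NeZero.ne p) (hU.mdiff.mul (hV.mdiff.pow (p - 1)))
    (fun γ hγ τ => mul_pow_pred_invariant N p hU.hasChar hV.hasChar γ hγ τ) ?_
  have h : (fun τ => (U τ * V τ ^ (p - 1)) ^ p)
      = (fun τ => U τ ^ p) * (fun τ => V τ ^ p) ^ (p - 1) := by
    funext τ
    simp only [Pi.mul_apply, Pi.pow_apply]
    rw [mul_pow, ← pow_mul, ← pow_mul, mul_comm (p - 1) p]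
  rw [h]
  exact (H648.goodRing N).mul_mem hU.pow_mem ((H648.goodRing N).pow_mem hV.pow_mem _)

/-- `qexpFun` commutes with powers of functions meromorphic at `i∞`. -/
theorem qexpFun_pow' {f : ℍ → ℂ} (hf : H708.IsMerInf 1 f) (n : ℕ) :
    H708.qexpFun 1 (f ^ n) = H708.qexpFun 1 f ^ n := by
  induction n with
  | zero =>
      rw [pow_zero, pow_zero]
      have h1 : (1 : ℍ → ℂ) = fun _ => (1 : ℂ) := rfl
      rw [h1, H708.qexpFun_const]
      simp
  | succ n ih => rw [pow_succ, H708.qexpFun_mul (hf.pow n) hf, ih, pow_succ]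

omit [NeZero N] [NeZero p] in
/-- A twisted function has a nonzero `p`-th power. -/
theorem pow_ne_zero_of_isTwisted {c : G0 N → ZMod p} {U : ℍ → ℂ} (hU : IsTwisted N p c U) :
    (fun τ => U τ ^ p) ≠ 0 := by
  obtain ⟨τ, hτ⟩ := hU.ne_zero
  intro h0
  exact pow_ne_zero p hτ (congrFun h0 τ)

/-- The `q`-expansion of the `p`-th power of a twisted function is a nonzero element of `F_ℂ`. -/
theorem qexpFun_pow_ne_zero_of_isTwisted {c : G0 N → ZMod p} {U : ℍ → ℂ}
    (hU : IsTwisted N p c U) : H708.qexpFun 1 (fun τ => U τ ^ p) ≠ 0 := by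
  intro h0
  exact pow_ne_zero_of_isTwisted N p hU
    ((H708.qexpFun_eq_zero_iff (H882.isMerInf_of_mem_goodRing hU.pow_mem)).mp h0)

/-- **Sub-piece (B) of K3.**  If `U` and `V` are twisted functions of the same character `c`, then
the `q`-expansions of `U ^ p` and `V ^ p` differ by the `p`-th power of a nonzero element of the
function field `F_ℂ` of `X₀(N)` over `ℂ`. -/
theorem exists_pow_mul_eq_of_isTwisted {c : G0 N → ZMod p} {U V : ℍ → ℂ}
    (hU : IsTwisted N p c U) (hV : IsTwisted N p c V) :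
    ∃ g : LaurentSeries ℂ, g ∈ H882.FC N ∧ g ≠ 0 ∧
      H708.qexpFun 1 (fun τ => U τ ^ p) = g ^ p * H708.qexpFun 1 (fun τ => V τ ^ p) := by
  set W : ℍ → ℂ := fun τ => U τ * V τ ^ (p - 1) with hWdef
  have hW : W ∈ H648.goodRing N := mul_pow_pred_mem_goodRing N p hU hV
  have hWm := H882.isMerInf_of_mem_goodRing hW
  have hUm := H882.isMerInf_of_mem_goodRing hU.pow_mem
  have hVm := H882.isMerInf_of_mem_goodRing hV.pow_mem
  set w := H708.qexpFun 1 W with hw
  set a := H708.qexpFun 1 (fun τ => U τ ^ p) with ha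
  set b := H708.qexpFun 1 (fun τ => V τ ^ p) with hb
  have hwFC : w ∈ H882.FC N := H882.qexpFun_mem_FC hW
  have hbFC : b ∈ H882.FC N := H882.qexpFun_mem_FC hV.pow_mem
  have hb0 : b ≠ 0 := qexpFun_pow_ne_zero_of_isTwisted N p hV
  have ha0 : a ≠ 0 := qexpFun_pow_ne_zero_of_isTwisted N p hU
  -- `w ^ p = a * b ^ (p - 1)`
  have hfun : W ^ p = (fun τ => U τ ^ p) * (fun τ => V τ ^ p) ^ (p - 1) := by
    funext τ
    simp only [hWdef, Pi.mul_apply, Pi.pow_apply]
    rw [mul_pow, ← pow_mul, ← pow_mul, mul_comm (p - 1) p]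
  have hwp : w ^ p = a * b ^ (p - 1) := by
    rw [hw, ← qexpFun_pow' hWm p, hfun, H708.qexpFun_mul hUm (hVm.pow (p - 1)),
      qexpFun_pow' hVm (p - 1)]
  have hp1 : p - 1 + 1 = p := Nat.sub_add_cancel (Nat.one_le_iff_ne_zero.mpr (NeZero.ne p))
  refine ⟨w * b⁻¹, mul_mem hwFC (inv_mem hbFC), ?_, ?_⟩
  · refine mul_ne_zero ?_ (inv_ne_zero hb0)
    intro h0
    rw [h0, zero_pow (NeZero.ne p)] at hwp
    exact mul_ne_zero ha0 (pow_ne_zero _ hb0) hwp.symm
  · rw [mul_pow, hwp, inv_pow]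
    have hbp : b ^ p = b ^ (p - 1) * b := by rw [← pow_succ, hp1]
    rw [hbp, mul_inv]
    field_simp

/-- Variant of (B) for data in the shape of `IsKum`: if `qexp (U ^ p) = f * t ^ p` and
`qexp (V ^ p) = f' * t' ^ p` with `U`, `V` twisted of the same character, `t, t' ≠ 0`, then
`f = g ^ p * f'` for some nonzero `g ∈ F_ℂ` (provided `t, t' ∈ F_ℂ`). -/
theorem exists_pow_mul_eq_of_realised {c : G0 N → ZMod p} {U V : ℍ → ℂ}
    (hU : IsTwisted N p c U) (hV : IsTwisted N p c V) {f t f' t' : LaurentSeries ℂ}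
    (ht : t ∈ H882.FC N) (ht0 : t ≠ 0) (ht' : t' ∈ H882.FC N) (ht0' : t' ≠ 0)
    (hf : H708.qexpFun 1 (fun τ => U τ ^ p) = f * t ^ p)
    (hf' : H708.qexpFun 1 (fun τ => V τ ^ p) = f' * t' ^ p) :
    ∃ g : LaurentSeries ℂ, g ∈ H882.FC N ∧ g ≠ 0 ∧ f = g ^ p * f' := by
  obtain ⟨g, hg, hg0, h⟩ := exists_pow_mul_eq_of_isTwisted N p hU hV
  refine ⟨g * t' * t⁻¹, mul_mem (mul_mem hg ht') (inv_mem ht),
    mul_ne_zero (mul_ne_zero hg0 ht0') (inv_ne_zero ht0), ?_⟩
  rw [hf, hf'] at h
  have htp : t ^ p ≠ 0 := pow_ne_zero _ ht0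
  rw [mul_pow, mul_pow, inv_pow]
  field_simp
  rw [h]
  ring

end Fermat.Agent.S29.H942

end
end
-- ===== PACK-END S29/H942/SameChar.lean

-- ===== PACK-BEGIN S29/H718/KAdd.lean
section
/-
S29 / layer M / sub-layer M4b, piece `K4-ADD` (helper718): additivity of the Kummer relation.
-/



set_option autoImplicit false

noncomputable section

open ModularCurve AlgebraicCurve CongruenceSubgroup UpperHalfPlane
open scoped MatrixGroups Manifold

namespace Fermat.Agent.S29.H718

open Fermat.Agent.S24 Fermat.Agent.S29 Fermat.Agent.S29.M4b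

/-- `ζ_p ^ p = 1`. -/
theorem zetaP_pow_self (p : ℕ) [NeZero p] : zetaP p ^ p = 1 := by
  unfold zetaP
  rw [← Complex.exp_nat_mul]
  have hp : (p : ℂ) ≠ 0 := Nat.cast_ne_zero.mpr (NeZero.ne p)
  rw [mul_div_cancel₀ _ hp]
  exact Complex.exp_two_pi_mul_I

/-- `ζ_p ^ (a + b).val = ζ_p ^ a.val * ζ_p ^ b.val` for `a b : ZMod p`. -/
theorem zetaP_pow_val_add (p : ℕ) [NeZero p] (a b : ZMod p) :
    zetaP p ^ (a + b).val = zetaP p ^ a.val * zetaP p ^ b.val := by
  rw [← pow_add, ZMod.val_add]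
  conv_rhs => rw [← Nat.mod_add_div (a.val + b.val) p]
  rw [pow_add, pow_mul, zetaP_pow_self, one_pow, mul_one]

end Fermat.Agent.S29.H718

namespace Fermat.Agent.S29.H718

open Fermat.Agent.S24 Fermat.Agent.S29 Fermat.Agent.S29.M4b

/-- A realised nonzero element is realised by a function which is not identically zero. -/
theorem exists_ne_zero_of_realises (N : ℕ) [NeZero N] {u : FF N} (hu : u ≠ 0) {G : ℍ → ℂ}
    (hG : Realises N u G) : ∃ τ : ℍ, G τ ≠ 0 := by
  by_contra hcon
  push Not at hcon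
  have hG0 : G = 0 := funext hcon
  have hmer : H708.IsMerInf 1 G := H882.isMerInf_of_mem_goodRing hG.1
  have h0 : H708.qexpFun 1 G = 0 := (H708.qexpFun_eq_zero_iff hmer).mpr hG0
  have h1 := hG.2
  rw [h0] at h1
  have h2 : ((u : FF N) : LaurentSeries Kbar) = 0 :=
    (coeffMap Deg457.iotaC).injective (by rw [← h1, map_zero])
  exact hu (Subtype.ext h2)

/-- Realisation is multiplicative. -/
theorem realises_mul (N : ℕ) [NeZero N] {u v : FF N} {G G' : ℍ → ℂ}
    (hG : Realises N u G) (hG' : Realises N v G') : Realises N (u * v) (G * G') := by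
  refine ⟨(H648.goodRing N).mul_mem hG.1 hG'.1, ?_⟩
  rw [H708.qexpFun_mul (H882.isMerInf_of_mem_goodRing hG.1)
    (H882.isMerInf_of_mem_goodRing hG'.1), hG.2, hG'.2, ← map_mul]
  rfl

/-- PIECE `K4-ADD`: additivity of the Kummer relation (product of the data). -/
theorem isKum_add (N : ℕ) [NeZero N] (p : ℕ) [NeZero p] {c c' : G0 N → ZMod p} {x x' : JZero N}
    (h : IsKum N p c x) (h' : IsKum N p c' x') : IsKum N p (c + c') (x + x') := by
  obtain ⟨f, t, U, ht, hx, hU, hR⟩ := h
  obtain ⟨f', t', U', ht', hx', hU', hR'⟩ := h'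
  have hpow : (fun τ => (U τ * U' τ) ^ p) = (fun τ => U τ ^ p) * (fun τ => U' τ ^ p) := by
    funext τ
    simp [mul_pow]
  have hprod : f * f' * (t * t') ^ p = (f * t ^ p) * (f' * t' ^ p) := by ring
  have hRR : Realises N (f * f' * (t * t') ^ p) (fun τ => (U τ * U' τ) ^ p) := by
    rw [hpow, hprod]
    exact realises_mul N hR hR'
  have hne : f * f' * (t * t') ^ p ≠ 0 :=
    mul_ne_zero (mul_ne_zero hx.ne_zero hx'.ne_zero) (pow_ne_zero _ (mul_ne_zero ht ht'))
  refine ⟨f * f', t * t', fun τ => U τ * U' τ, mul_ne_zero ht ht', hx.add hx', ?_, hRR⟩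
  refine ⟨hU.mdiff.mul hU'.mdiff, ?_, ?_, hRR.1⟩
  · obtain ⟨τ, hτ⟩ := exists_ne_zero_of_realises N hne hRR
    exact ⟨τ, fun h0 => hτ (by simp only [h0]; exact zero_pow (NeZero.ne p))⟩
  · intro γ τ
    show U ((γ : SL(2, ℤ)) • τ) * U' ((γ : SL(2, ℤ)) • τ) = _
    rw [hU.hasChar γ τ, hU'.hasChar γ τ, Pi.add_apply, zetaP_pow_val_add]
    ring

end Fermat.Agent.S29.H718

end
end
-- ===== PACK-END S29/H718/KAdd.lean

-- ===== PACK-BEGIN S37/Core/RimGlue.lean
section







/-!
# S37 row-lead (helper37): `node_rim` from ONE concrete reduction datum      (BOARD v3)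

The abstract reduction theorem is complete on `main`
(`Red.H940.main_of_fibreSum` + `Red.H160.fibreSumStatement` + `Red.H399.normRed`):
a reduction datum `G : Red.Datum A π F Fk` with good charts has a place map `r` with (i), (ii).

This file is the last formal step: for a datum on `(F_M, F_{M,k})` which is *linked* to the
`q`-expansion integrality of the Prelude (`Red.H759.Link`, helper759), the abstract (i), (ii) are the Prelude's
`IsPlaceReductionModL`, and with PGI (`H98.gen`, on main) we get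

  `node_rim_of_datum : G.Good → Red.H759.Link G → ReductionInputsModL A M`.

So `node_rim` of the S37 board == existence of `G` with `G.Good` and `H759.Link G`
(= `Red.ModDatum` without its two Galois fields, which are no longer needed).
The coordinate `G.x` is arbitrary (`j`, `t₂`, `t₃`, …).
-/

set_option autoImplicit false
set_option synthInstance.maxHeartbeats 400000

noncomputable section

namespace Fermat.Agent.S37.Core

open ModularCurve AlgebraicCurve HahnSeries IsLocalRing Fermat.Agent.S37.Red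

/-- **RED-E1**: the abstract (i), (ii) of a linked datum are the Prelude's
`IsPlaceReductionModL`. -/
theorem isPlaceReductionModL_of_isRed {M : ℕ} {A : ValuationSubring (AlgebraicClosure ℚ)}
    (G : Datum A (residue A) (modularFunctionFieldBar M)
      (modularFunctionFieldFullC (ResidueField A) M))
    (hlink : H759.Link G)
    (r : Place (AlgebraicClosure ℚ) (modularFunctionFieldBar M) →
      Place (ResidueField A) (modularFunctionFieldFullC (ResidueField A) M))
    (hr : IsRed G r) : IsPlaceReductionModL A M r := by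
  refine ⟨hr.1, ?_⟩
  intro y hy hyk hne D hD Q
  obtain ⟨h, hρ⟩ := hlink y hy hyk hne
  have hne' : G.ρ ⟨⟨coeffMap A.subtype y, hy⟩, h⟩ ≠ 0 := by
    rw [hρ]
    intro h0
    exact hne (congrArg Subtype.val h0)
  have := hr.2 ⟨coeffMap A.subtype y, hy⟩ h hne' D hD Q
  rw [this, hρ]

/-- **`node_rim` from a linked datum with good charts.** -/
theorem node_rim_of_datum (M : ℕ) [NeZero M] (ℓ : ℕ) (hℓ : ℓ.Prime) (hℓM : ¬ ℓ ∣ M)
    (A : ValuationSubring (AlgebraicClosure ℚ)) (hA : A.LiesOverPrime ℓ)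
    (G : Datum A (residue A) (modularFunctionFieldBar M)
      (modularFunctionFieldFullC (ResidueField A) M))
    (hgood : G.Good) (hlink : H759.Link G) : ReductionInputsModL A M := by
  haveI : IsAlgClosed (ResidueField A) := Fermat.Agent.S18.H9.resAlgClosed _ A
  obtain ⟨r, hr, -⟩ := H940.main_of_fibreSum G hgood (H160.fibreSumStatement G)
  exact ⟨r, isPlaceReductionModL_of_isRed G hlink r hr, H98.gen M ℓ hℓ hℓM A hA⟩

/-- The same with (H4') removed: (H1) + (H3) + link. -/
theorem node_rim_of_datum' (M : ℕ) [NeZero M] (ℓ : ℕ) (hℓ : ℓ.Prime) (hℓM : ¬ ℓ ∣ M)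
    (A : ValuationSubring (AlgebraicClosure ℚ)) (hA : A.LiesOverPrime ℓ)
    (G : Datum A (residue A) (modularFunctionFieldBar M)
      (modularFunctionFieldFullC (ResidueField A) M))
    (finite : FiniteDimensional (IntermediateField.adjoin (AlgebraicClosure ℚ) {G.x})
      (modularFunctionFieldBar M))
    (finite_k : FiniteDimensional (IntermediateField.adjoin (ResidueField A) {G.xk})
      (modularFunctionFieldFullC (ResidueField A) M))
    (sep_k : Algebra.IsSeparable (IntermediateField.adjoin (ResidueField A) {G.xk})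
      (modularFunctionFieldFullC (ResidueField A) M))
    (finrank_eq : Module.finrank (IntermediateField.adjoin (AlgebraicClosure ℚ) {G.x})
        (modularFunctionFieldBar M) =
      Module.finrank (IntermediateField.adjoin (ResidueField A) {G.xk})
        (modularFunctionFieldFullC (ResidueField A) M))
    (lift_fin : ∀ c ∈ G.chartk G.xk, ∃ b ∈ G.chart G.x, ∃ hb : b ∈ G.O, G.ρ ⟨b, hb⟩ = c)
    (lift_inf : ∀ c ∈ G.chartk G.xk⁻¹, ∃ b ∈ G.chart G.x⁻¹, ∃ hb : b ∈ G.O, G.ρ ⟨b, hb⟩ = c)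
    (hlink : H759.Link G) : ReductionInputsModL A M :=
  node_rim_of_datum M ℓ hℓ hℓM A hA G
    (H217.good_of G finite finite_k sep_k finrank_eq lift_fin lift_inf) hlink

end Fermat.Agent.S37.Core

end
end
-- ===== PACK-END S37/Core/RimGlue.lean

-- ===== PACK-BEGIN A3/H615/GrRed.lean
section






/-!
# Cell A3 / GR-INST, block RED (helper615): the place map of a linked datum with good charts

Input: the output of the S37 node `DatumStatement` (`S37/Core/Board.lean`), i.e. a reduction datum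
`G : Red.Datum A (residue A) F_M F_{M,k}` with `G.Good` and `Red.H759.Link G`.

Output (`exists_red`): a map `r : Place Q̄ F_M → Place k F_{M,k}` with

* `div_red`  : `r_* div f = div (G.ρ f)` for every `f ∈ G.O` with `G.ρ f ≠ 0`
               (= field `div_red` of `A3.H799.GoodRed` for `O := G.O`, `red := G.ρ`);
* `I_place`  : `r (σ • P) = r P` for every `σ ∈ Gal(Q̄/Q)` with `σ a - a ∈ 𝔪_A` for all `a ∈ A`
               (= `S19.IsInertiaAt A σ`; field `I_place` of `GoodRed` for the image of inertia);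
* the Prelude's `IsPlaceReductionModL A M r`, and evaluation compatibility `Red.EvalCompat G r`.

Proof: `Red.H940.main_of_fibreSum` (existence, S37-RED) and helper697's uniqueness by the Riemann
bound (`H697.placeReduction_equivariant`), which needs only that `r` is not constant; this follows
from `r_* div x = div x̄` and the transcendence of `x̄`.
-/

set_option autoImplicit false
set_option synthInstance.maxHeartbeats 400000

noncomputable section

namespace Fermat.Agent.A3.H615

open ModularCurve AlgebraicCurve HahnSeries IsLocalRing Fermat.Agent.S37.Red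
open Fermat.Agent.Lib.RR

namespace GrRed

/-- `Q̄` -/
abbrev Qb : Type := AlgebraicClosure ℚ

variable {M : ℕ} {A : ValuationSubring _root_.Fermat.Agent.A3.H615.GrRed.Qb}

/-- principal divisors have degree zero -/
theorem degree_eq_zero_of_mem_principal {K F : Type*} [Field K] [Field F] [Algebra K F]
    [HasPrincipalDivisors K F] {D : Divisor K F}
    (hD : D ∈ Divisor.principal (K := K) (F := F)) : Divisor.degree D = 0 := by
  obtain ⟨f, hf, hDf⟩ := hD
  obtain ⟨D', hD', hdeg⟩ := HasPrincipalDivisors.exists_divisor (K := K) f hf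
  have : D = D' := Finsupp.ext fun v => by rw [hDf v, hD' v]
  rw [this, hdeg]

/-- A map on places with `r_* div f = div (ρ f)` is not constant: the divisor of the coordinate
has nonzero reduction. -/
theorem exists_mapDomain_ne_zero [NeZero M] {ℓ : ℕ} (hℓ : ℓ.Prime) (hℓM : ¬ ℓ ∣ M)
    (hA : A.LiesOverPrime ℓ)
    (G : Datum A (residue A) (modularFunctionFieldBar M)
      (modularFunctionFieldFullC (ResidueField A) M))
    (r : Place _root_.Fermat.Agent.A3.H615.GrRed.Qb (modularFunctionFieldBar M) →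
      Place (ResidueField A) (modularFunctionFieldFullC (ResidueField A) M))
    (hr : IsRed G r) :
    ∃ D ∈ Divisor.principal (K := _root_.Fermat.Agent.A3.H615.GrRed.Qb) (F := modularFunctionFieldBar M),
      Finsupp.mapDomain r D ≠ 0 := by
  have hff : FF1 (ResidueField A) (modularFunctionFieldFullC (ResidueField A) M) :=
    Fermat.Agent.S18.H383.ff1_residue M ℓ hℓ hℓM A hA
  have hpd : HasPrincipalDivisors _root_.Fermat.Agent.A3.H615.GrRed.Qb (modularFunctionFieldBar M) :=
    Fermat.Agent.Lib.RR.H864.hasPrincipalDivisors_modularFunctionFieldBar M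
  have hxk : G.ρ ⟨G.x, G.x_mem⟩ ≠ 0 := fun h0 =>
    G.xk_transc (by rw [h0]; exact isAlgebraic_zero)
  have hx0 : G.x ≠ 0 := by
    rintro h0
    apply hxk
    have : (⟨G.x, G.x_mem⟩ : G.O) = 0 := Subtype.ext h0
    rw [this, _root_.map_zero]
  obtain ⟨D, hD, -⟩ := HasPrincipalDivisors.exists_divisor (K := _root_.Fermat.Agent.A3.H615.GrRed.Qb) G.x hx0
  refine ⟨D, ⟨G.x, hx0, hD⟩, fun h0 => ?_⟩
  -- then `x̄` has no zeros and no poles, hence is a constant
  have hord : ∀ Q : Place (ResidueField A) (modularFunctionFieldFullC (ResidueField A) M),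
      Q.ord (G.ρ ⟨G.x, G.x_mem⟩) = 0 := by
    intro Q
    rw [← hr.2 G.x G.x_mem hxk D hD Q, h0, Finsupp.zero_apply]
  have hmem : G.ρ ⟨G.x, G.x_mem⟩ ∈
      riemannRochSpace (0 : Divisor (ResidueField A)
        (modularFunctionFieldFullC (ResidueField A) M)) := by
    rw [mem_L_iff]
    intro v
    right
    rw [hord v]
    simp
  rw [L_zero] at hmem
  obtain ⟨c, hc⟩ := hmem
  apply G.xk_transc
  rw [← hc]
  exact isAlgebraic_algebraMap c

/-- **Inertia acts trivially on the special fibre, pointwise**: for a place reduction map `r`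
which is not constant, and `σ` acting trivially on the residue field of `A`. -/
theorem inertia_place [NeZero M] {ℓ : ℕ} (hℓ : ℓ.Prime) (hℓM : ¬ ℓ ∣ M)
    (hA : A.LiesOverPrime ℓ)
    {r : Place _root_.Fermat.Agent.A3.H615.GrRed.Qb (modularFunctionFieldBar M) →
      Place (ResidueField A) (modularFunctionFieldFullC (ResidueField A) M)}
    (hr : IsPlaceReductionModL A M r)
    (hnc : ∃ D ∈ Divisor.principal (K := _root_.Fermat.Agent.A3.H615.GrRed.Qb) (F := modularFunctionFieldBar M),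
      Finsupp.mapDomain r D ≠ 0)
    (σ : _root_.Fermat.Agent.A3.H615.GrRed.Qb ≃ₐ[ℚ] _root_.Fermat.Agent.A3.H615.GrRed.Qb) (hσ : ∀ a : _root_.Fermat.Agent.A3.H615.GrRed.Qb, a ∈ A → σ a - a ∈ A.nonunits)
    (P : Place _root_.Fermat.Agent.A3.H615.GrRed.Qb (modularFunctionFieldBar M)) :
    r (arithmeticGalois (modularFunctionFieldFull M) σ • P) = r P := by
  have hpd : HasPrincipalDivisors _root_.Fermat.Agent.A3.H615.GrRed.Qb (modularFunctionFieldBar M) :=
    Fermat.Agent.Lib.RR.H864.hasPrincipalDivisors_modularFunctionFieldBar M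
  have hσA : ∀ a ∈ A, σ a ∈ A := fun a ha => by
    have h1 := add_mem (A.nonunits_subset (hσ a ha)) ha
    rwa [sub_add_cancel] at h1
  have hφ : ∀ a : A, residue A ⟨σ a, hσA a a.2⟩ = (RingEquiv.refl (ResidueField A)) (residue A a) := by
    intro a
    rw [RingEquiv.refl_apply, ← sub_eq_zero, ← _root_.map_sub, residue_eq_zero_iff]
    exact ValuationSubring.coe_mem_nonunits_iff.mp (hσ a a.2)
  have h := Fermat.Agent.S37.H697.placeReduction_equivariant (N := M) (A := A) hr
    (Fermat.Agent.S37.H98.gen M ℓ hℓ hℓM A hA)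
    (fun P => Fermat.Agent.Lib.FF398.deg_eq_one_FF M P)
    (fun D hD => degree_eq_zero_of_mem_principal hD)
    (Fermat.Agent.S37.H98.riemannBound_modularFunctionFieldBar M)
    hnc σ hσA (RingEquiv.refl (ResidueField A)) hφ P
  rw [h, Fermat.Agent.S37.H697.coeffSL_refl, one_smul]

/-- **GR-INST, block RED.**  The place map of a linked reduction datum with good charts:
conservation (`div_red`), triviality of inertia (`I_place`), the Prelude's
`IsPlaceReductionModL`, and evaluation compatibility. -/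
theorem exists_red [NeZero M] {ℓ : ℕ} (hℓ : ℓ.Prime) (hℓM : ¬ ℓ ∣ M)
    (hA : A.LiesOverPrime ℓ)
    (G : Datum A (residue A) (modularFunctionFieldBar M)
      (modularFunctionFieldFullC (ResidueField A) M))
    (hgood : G.Good) (hlink : H759.Link G) :
    ∃ r : Place _root_.Fermat.Agent.A3.H615.GrRed.Qb (modularFunctionFieldBar M) →
        Place (ResidueField A) (modularFunctionFieldFullC (ResidueField A) M),
      (∀ f : G.O, G.ρ f ≠ 0 → ∀ D : Divisor _root_.Fermat.Agent.A3.H615.GrRed.Qb (modularFunctionFieldBar M),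
        (∀ P, D P = P.ord (f : modularFunctionFieldBar M)) →
          ∀ Q, Finsupp.mapDomain r D Q = Q.ord (G.ρ f)) ∧
      (∀ σ : _root_.Fermat.Agent.A3.H615.GrRed.Qb ≃ₐ[ℚ] _root_.Fermat.Agent.A3.H615.GrRed.Qb, (∀ a : _root_.Fermat.Agent.A3.H615.GrRed.Qb, a ∈ A → σ a - a ∈ A.nonunits) →
        ∀ P, r (arithmeticGalois (modularFunctionFieldFull M) σ • P) = r P) ∧
      IsPlaceReductionModL A M r ∧ EvalCompat G r := by
  have : IsAlgClosed (ResidueField A) := Fermat.Agent.S18.H9.resAlgClosed _ A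
  obtain ⟨r, hr, hec⟩ := H940.main_of_fibreSum G hgood (H160.fibreSumStatement G)
  have hmod : IsPlaceReductionModL A M r :=
    Fermat.Agent.S37.Core.isPlaceReductionModL_of_isRed G hlink r hr
  refine ⟨r, fun f hf D hD Q => hr.2 (f : modularFunctionFieldBar M) f.2 hf D hD Q,
    fun σ hσ P => inertia_place hℓ hℓM hA hmod
      (exists_mapDomain_ne_zero hℓ hℓM hA G r hr) σ hσ P, hmod, hec⟩

end GrRed

end Fermat.Agent.A3.H615

end
end
-- ===== PACK-END A3/H615/GrRed.lean

-- ===== PACK-BEGIN A3/H739/GrAsm.lean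
section










/-!
# A3 / GR (helper739): assembly of the `GoodRed` instance for `X₀(N)`

Target: `Fermat.Agent.S19.H979.GrStatement` (frozen by helper979).

For a valuation ring `V ⊆ Q̄` above `ℓ ∤ N` we take

* `O   := S37.Red.modO hVG`  (fractions of integral `q`-series, helper40/helper940),
* `red := S37.Red.modρ hVG`  (coefficientwise reduction of fractions),
* `I   := inertiaImage N V`  (image under `arithmeticGalois` of `{σ | IsInertiaAt V σ}`),
* `hVG` from `S37.H568.valueGroupHyp_modular` and `S18.H516.coreData_residue`.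

PROVED HERE (no holes): `res_*`, `algebraMap_mem`, `red_algebraMap`, `red_surjective`, `gauss`,
`ff1`, `ff1k`, `I_base`, `I_red`, `I_lift_const`, `I_fixed_place`, and the passage of `div_red`
from integral series (Prelude `IsPlaceReductionModL`) to all of `O`.

OPEN LEAVES (exact Props below):
* `RedLeaf N V`    : a place map `r` with the Prelude's `IsPlaceReductionModL V N r`, commuting
                     with inertia;
* `GenusLeaf N V`  : `genusFF` of the generic and the special fibre agree;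
* `OrthLeaf N V hVG` : the field `orthonormal` for `(modO, modρ, inertiaImage)`.

`grStatement_of_leaves` : the three leaves (for ONE `V` above each `ℓ`)  ⟹  `GrStatement`.
-/

set_option autoImplicit false
set_option synthInstance.maxHeartbeats 400000

noncomputable section

namespace Fermat.Agent.A3.H739

open AlgebraicCurve ModularCurve HahnSeries IsLocalRing
open Fermat.Agent.S19 (GalQ IsInertiaAt GoodLevel)
open Fermat.Agent.S37.Red (Qb FN kA FNk ModVG modO modρ modFrac)

/-! ## The inertia group -/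

section Inertia

variable (V : ValuationSubring _root_.Fermat.Agent.S37.Red.Qb)

theorem zero_mem_nonunits_gr : (0 : _root_.Fermat.Agent.S37.Red.Qb) ∈ V.nonunits := by
  rw [ValuationSubring.mem_nonunits_iff, _root_.map_zero]
  exact zero_lt_one

theorem nonunits_le_gr {a : _root_.Fermat.Agent.S37.Red.Qb} (ha : a ∈ V.nonunits) : a ∈ V := by
  rw [ValuationSubring.mem_nonunits_iff] at ha
  exact (V.valuation_le_one_iff a).mp ha.le

theorem add_mem_nonunits_gr {a b : _root_.Fermat.Agent.S37.Red.Qb} (ha : a ∈ V.nonunits) (hb : b ∈ V.nonunits) :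
    a + b ∈ V.nonunits := by
  rw [ValuationSubring.mem_nonunits_iff] at ha hb ⊢
  exact lt_of_le_of_lt (V.valuation.map_add a b) (max_lt ha hb)

theorem neg_mem_nonunits_gr {a : _root_.Fermat.Agent.S37.Red.Qb} (ha : a ∈ V.nonunits) : -a ∈ V.nonunits := by
  rw [ValuationSubring.mem_nonunits_iff] at ha ⊢
  rwa [Valuation.map_neg]

variable {V}

theorem inertia_map_mem {σ : GalQ} (hσ : IsInertiaAt V σ) {a : _root_.Fermat.Agent.S37.Red.Qb} (ha : a ∈ V) :
    σ a ∈ V := by
  have h := V.add_mem _ _ (nonunits_le_gr V (hσ a ha)) ha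
  simpa using h

theorem inertia_map_mem_nonunits {σ : GalQ} (hσ : IsInertiaAt V σ) {a : _root_.Fermat.Agent.S37.Red.Qb}
    (ha : a ∈ V.nonunits) : σ a ∈ V.nonunits := by
  have h := add_mem_nonunits_gr V (hσ a (nonunits_le_gr V ha)) ha
  simpa using h

theorem inertia_symm_mem {σ : GalQ} (hσ : IsInertiaAt V σ) {a : _root_.Fermat.Agent.S37.Red.Qb} (ha : a ∈ V) :
    σ.symm a ∈ V := by
  by_contra hb
  have hb' : (σ.symm a)⁻¹ ∈ V.nonunits := by
    rw [ValuationSubring.mem_nonunits_iff]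
    have h1 : ¬ V.valuation (σ.symm a) ≤ 1 := fun h => hb ((V.valuation_le_one_iff _).mp h)
    have h2 : 1 < V.valuation (σ.symm a) := not_le.mp h1
    rw [map_inv₀]
    exact inv_lt_one_of_one_lt₀ h2
  have h3 := inertia_map_mem_nonunits hσ hb'
  rw [map_inv₀, AlgEquiv.apply_symm_apply] at h3
  rw [ValuationSubring.mem_nonunits_iff, map_inv₀] at h3
  have h4 : V.valuation a ≤ 1 := (V.valuation_le_one_iff a).mpr ha
  have ha0 : V.valuation a ≠ 0 := by
    intro h0
    rw [h0, inv_zero] at h3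
    have hz : a = 0 := (V.valuation.zero_iff).mp h0
    apply hb
    rw [hz, _root_.map_zero]
    exact V.zero_mem
  have h5 : 1 ≤ (V.valuation a)⁻¹ := (one_le_inv₀ (zero_lt_iff.mpr ha0)).mpr h4
  exact absurd h3 (not_lt.mpr h5)

variable (V)

/-- the inertia group of `V` in `Gal(Q̄/Q)`, in the form used by `S19.IsInertiaAt` -/
def inertiaGroup : Subgroup GalQ where
  carrier := {σ | IsInertiaAt V σ}
  one_mem' := fun a _ => by
    show (1 : GalQ) a - a ∈ V.nonunits
    rw [AlgEquiv.one_apply, sub_self]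
    exact zero_mem_nonunits_gr V
  mul_mem' := fun {σ τ} hσ hτ a ha => by
    show (σ * τ) a - a ∈ V.nonunits
    have h1 : σ (τ a - a) ∈ V.nonunits := inertia_map_mem_nonunits hσ (hτ a ha)
    have h2 := add_mem_nonunits_gr V h1 (hσ a ha)
    rw [_root_.map_sub] at h2
    have e : σ (τ a) - σ a + (σ a - a) = (σ * τ) a - a := by
      rw [AlgEquiv.mul_apply]; ring
    rwa [e] at h2
  inv_mem' := fun {σ} hσ a ha => by
    show σ⁻¹ a - a ∈ V.nonunits
    have hb : σ.symm a ∈ V := inertia_symm_mem hσ ha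
    have h1 := neg_mem_nonunits_gr V (hσ (σ.symm a) hb)
    rw [AlgEquiv.apply_symm_apply, neg_sub] at h1
    exact h1

theorem mem_inertiaGroup {σ : GalQ} : σ ∈ inertiaGroup V ↔ IsInertiaAt V σ := Iff.rfl

/-- the image of the inertia group in the semilinear automorphisms of `Q̄(X₀(N))` -/
def inertiaImage (N : ℕ) : Subgroup (SemilinearAut _root_.Fermat.Agent.S37.Red.Qb (FN N)) :=
  (inertiaGroup V).map (arithmeticGalois (modularFunctionFieldFull N))

theorem mem_inertiaImage {N : ℕ} {g : SemilinearAut _root_.Fermat.Agent.S37.Red.Qb (FN N)} :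
    g ∈ inertiaImage V N ↔
      ∃ σ : GalQ, IsInertiaAt V σ ∧ arithmeticGalois (modularFunctionFieldFull N) σ = g :=
  Subgroup.mem_map

theorem arithmeticGalois_mem_inertiaImage (N : ℕ) {σ : GalQ} (hσ : IsInertiaAt V σ) :
    arithmeticGalois (modularFunctionFieldFull N) σ ∈ inertiaImage V N :=
  Subgroup.mem_map_of_mem _ hσ

end Inertia

/-! ## The datum `(modO, modρ)` -/

section Datum

open Fermat.Agent.S37.H940

variable {N : ℕ} {V : ValuationSubring _root_.Fermat.Agent.S37.Red.Qb}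

theorem gr_res_eq_zero (a : V) : residue V a = 0 ↔ (a : _root_.Fermat.Agent.S37.Red.Qb) ∈ V.nonunits := by
  rw [residue_eq_zero_iff, ValuationSubring.coe_mem_nonunits_iff]

theorem inv_mem_nonunits_of_notMem_gr {a : _root_.Fermat.Agent.S37.Red.Qb} (ha : a ∉ V) : a⁻¹ ∈ V.nonunits := by
  rw [ValuationSubring.mem_nonunits_iff, map_inv₀]
  have h1 : ¬ V.valuation a ≤ 1 := fun h => ha ((V.valuation_le_one_iff _).mp h)
  exact inv_lt_one_of_one_lt₀ (not_le.mp h1)

/-- constants of `O` are the constants of `V` -/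
theorem gr_algebraMap_mem (hVG : ModVG N V) (a : _root_.Fermat.Agent.S37.Red.Qb) :
    algebraMap _root_.Fermat.Agent.S37.Red.Qb (FN N) a ∈ modO hVG ↔ a ∈ V := by
  constructor
  · intro h
    by_contra ha
    have hnu : (a⁻¹ : _root_.Fermat.Agent.S37.Red.Qb) ∈ V.nonunits := inv_mem_nonunits_of_notMem_gr ha
    have hinv : a⁻¹ ∈ V := nonunits_le_gr V hnu
    have ha0 : a ≠ 0 := fun h0 => ha (h0 ▸ V.zero_mem)
    let u : modO hVG := ⟨algebraMap _root_.Fermat.Agent.S37.Red.Qb (FN N) a, h⟩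
    let w : modO hVG := ⟨algebraMap _root_.Fermat.Agent.S37.Red.Qb (FN N) a⁻¹, (modFrac N V).ctx.A_mem ⟨a⁻¹, hinv⟩⟩
    have huw : u * w = 1 := by
      apply Subtype.ext
      show algebraMap _root_.Fermat.Agent.S37.Red.Qb (FN N) a * algebraMap _root_.Fermat.Agent.S37.Red.Qb (FN N) a⁻¹ = 1
      rw [← _root_.map_mul, mul_inv_cancel₀ ha0, _root_.map_one]
    have hw : modρ hVG w = 0 := by
      have h1 : modρ hVG w = algebraMap (kA V) (FNk V N) (residue V ⟨a⁻¹, hinv⟩) :=
        (modFrac N V).ctx.ρ_A ⟨a⁻¹, hinv⟩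
      rw [h1, (gr_res_eq_zero ⟨a⁻¹, hinv⟩).mpr hnu, _root_.map_zero]
    have h2 := congrArg (modρ hVG) huw
    rw [_root_.map_mul, hw, mul_zero, _root_.map_one] at h2
    exact zero_ne_one h2
  · intro ha
    exact (modFrac N V).ctx.A_mem ⟨a, ha⟩

theorem gr_red_algebraMap (hVG : ModVG N V) (a : V)
    (h : algebraMap _root_.Fermat.Agent.S37.Red.Qb (FN N) (a : _root_.Fermat.Agent.S37.Red.Qb) ∈ modO hVG) :
    modρ hVG ⟨algebraMap _root_.Fermat.Agent.S37.Red.Qb (FN N) (a : _root_.Fermat.Agent.S37.Red.Qb), h⟩ = algebraMap (kA V) (FNk V N) (residue V a) :=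
  (modFrac N V).ctx.ρ_A a

/-- Gauss: every nonzero function is a constant times a function of norm one -/
theorem gr_gauss (hVG : ModVG N V) (f : FN N) (hf : f ≠ 0) :
    ∃ a : _root_.Fermat.Agent.S37.Red.Qb, a ≠ 0 ∧ ∃ h : algebraMap _root_.Fermat.Agent.S37.Red.Qb (FN N) a * f ∈ modO hVG,
      modρ hVG ⟨algebraMap _root_.Fermat.Agent.S37.Red.Qb (FN N) a * f, h⟩ ≠ 0 := by
  obtain ⟨c, hc, y₁, y₂, h₁, h₂, hfy⟩ := hVG f hf
  let z₁ : (modFrac N V).O := y₁
  let z₂ : (modFrac N V).O := y₂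
  have hz₁ : (modFrac N V).ρ₀ z₁ ≠ 0 := h₁
  have hz₂ : (modFrac N V).ρ₀ z₂ ≠ 0 := h₂
  have hfrac : (algebraMap _root_.Fermat.Agent.S37.Red.Qb (FN N) c⁻¹ * f) * (z₂ : FN N) = (z₁ : FN N) := by
    have hfy' : f * (z₂ : FN N) = algebraMap _root_.Fermat.Agent.S37.Red.Qb (FN N) c * (z₁ : FN N) := hfy
    rw [mul_assoc, hfy', ← mul_assoc, ← _root_.map_mul, inv_mul_cancel₀ hc, _root_.map_one, one_mul]
  have hmem : algebraMap _root_.Fermat.Agent.S37.Red.Qb (FN N) c⁻¹ * f ∈ modO hVG := ⟨z₁, z₂, hz₂, hfrac⟩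
  refine ⟨c⁻¹, inv_ne_zero hc, hmem, ?_⟩
  have h3 : modρ hVG ⟨algebraMap _root_.Fermat.Agent.S37.Red.Qb (FN N) c⁻¹ * f, hmem⟩ =
      (modFrac N V).ρ₀ z₁ / (modFrac N V).ρ₀ z₂ :=
    (modFrac N V).ρ_apply ⟨algebraMap _root_.Fermat.Agent.S37.Red.Qb (FN N) c⁻¹ * f, hmem⟩ hz₂ hfrac
  rw [h3]
  exact div_ne_zero hz₁ hz₂

end Datum

/-! ## Inertia acts trivially on reductions -/

section InertiaRed

open Fermat.Agent.S37.H940

variable {N : ℕ} {V : ValuationSubring _root_.Fermat.Agent.S37.Red.Qb}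

/-- the restriction of an inertia element to `V` -/
def resV {σ : GalQ} (hσ : IsInertiaAt V σ) : V →+* V :=
  ((σ : _root_.Fermat.Agent.S37.Red.Qb →+* _root_.Fermat.Agent.S37.Red.Qb).comp V.subtype).codRestrict V fun a => inertia_map_mem hσ a.2

theorem subtype_comp_resV {σ : GalQ} (hσ : IsInertiaAt V σ) :
    V.subtype.comp (resV hσ) = (σ : _root_.Fermat.Agent.S37.Red.Qb →+* _root_.Fermat.Agent.S37.Red.Qb).comp V.subtype :=
  RingHom.ext fun _ => rfl

theorem residue_comp_resV {σ : GalQ} (hσ : IsInertiaAt V σ) :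
    (residue V).comp (resV hσ) = residue V := by
  refine RingHom.ext fun a => ?_
  show residue V (resV hσ a) = residue V a
  rw [← sub_eq_zero, ← _root_.map_sub, gr_res_eq_zero]
  exact hσ (a : _root_.Fermat.Agent.S37.Red.Qb) a.2

/-- an inertia element maps integral series to integral series with the same reduction -/
theorem smul_intQ {σ : GalQ} (hσ : IsInertiaAt V σ) (y : (modFrac N V).O) :
    ∃ h : arithmeticGalois (modularFunctionFieldFull N) σ • (y : FN N) ∈ (modFrac N V).O,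
      (modFrac N V).ρ₀ ⟨arithmeticGalois (modularFunctionFieldFull N) σ • (y : FN N), h⟩ =
        (modFrac N V).ρ₀ y := by
  obtain ⟨s, hs, hsk⟩ := (y.2 : IsIntQ V (residue V) (modularFunctionFieldBar N)
    (modularFunctionFieldFullC (kA V) N) (y : FN N))
  have h1 : coeffMap V.subtype (coeffMap (resV hσ) s) =
      ((arithmeticGalois (modularFunctionFieldFull N) σ • (y : FN N) : FN N) :
        LaurentSeries _root_.Fermat.Agent.S37.Red.Qb) := by
    rw [coe_arithmeticGalois_smul, coeffMap_coeffMap, subtype_comp_resV, ← coeffMap_coeffMap, hs]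
  have h2 : coeffMap (residue V) (coeffMap (resV hσ) s) = coeffMap (residue V) s := by
    rw [coeffMap_coeffMap, residue_comp_resV]
  have hmem : IsIntQ V (residue V) (modularFunctionFieldBar N)
      (modularFunctionFieldFullC (kA V) N)
      (arithmeticGalois (modularFunctionFieldFull N) σ • (y : FN N)) :=
    ⟨coeffMap (resV hσ) s, h1, by rw [h2]; exact hsk⟩
  refine ⟨hmem, ?_⟩
  apply Subtype.ext
  have e1 := coe_redQ V (residue V) (modularFunctionFieldBar N)
    (modularFunctionFieldFullC (kA V) N)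
    ⟨arithmeticGalois (modularFunctionFieldFull N) σ • (y : FN N), hmem⟩ h1
  have e2 := coe_redQ V (residue V) (modularFunctionFieldBar N)
    (modularFunctionFieldFullC (kA V) N) y hs
  exact e1.trans (h2.trans e2.symm)

/-- **`I_red`**: inertia preserves `O` and acts trivially on reductions -/
theorem gr_I_red (hVG : ModVG N V) (g : SemilinearAut _root_.Fermat.Agent.S37.Red.Qb (FN N)) (hg : g ∈ inertiaImage V N)
    (f : modO hVG) :
    ∃ h : g • (f : FN N) ∈ modO hVG, modρ hVG ⟨g • (f : FN N), h⟩ = modρ hVG f := by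
  obtain ⟨σ, hσ, rfl⟩ := (mem_inertiaImage V).mp hg
  obtain ⟨a, b, hb, hab⟩ := (f.2 : (modFrac N V).IsFrac (f : FN N))
  obtain ⟨ha', hρa⟩ := smul_intQ hσ a
  obtain ⟨hb', hρb⟩ := smul_intQ hσ b
  set γ : SemilinearAut _root_.Fermat.Agent.S37.Red.Qb (FN N) := arithmeticGalois (modularFunctionFieldFull N) σ with hγ
  let a' : (modFrac N V).O := ⟨γ • (a : FN N), ha'⟩
  let b' : (modFrac N V).O := ⟨γ • (b : FN N), hb'⟩
  have hb'' : (modFrac N V).ρ₀ b' ≠ 0 := by
    show (modFrac N V).ρ₀ ⟨γ • (b : FN N), hb'⟩ ≠ 0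
    rw [hρb]; exact hb
  have hfrac : (γ • (f : FN N)) * (b' : FN N) = (a' : FN N) := by
    show γ • (f : FN N) * γ • (b : FN N) = γ • (a : FN N)
    rw [← smul_mul', hab]
  have hmem : (modFrac N V).IsFrac (γ • (f : FN N)) := ⟨a', b', hb'', hfrac⟩
  refine ⟨hmem, ?_⟩
  have e1 : (modFrac N V).ρ ⟨γ • (f : FN N), hmem⟩ =
      (modFrac N V).ρ₀ a' / (modFrac N V).ρ₀ b' :=
    (modFrac N V).ρ_apply ⟨γ • (f : FN N), hmem⟩ hb'' hfrac
  have e2 : (modFrac N V).ρ f = (modFrac N V).ρ₀ a / (modFrac N V).ρ₀ b :=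
    (modFrac N V).ρ_apply f hb hab
  have e3 : (modFrac N V).ρ₀ a' = (modFrac N V).ρ₀ a := hρa
  have e4 : (modFrac N V).ρ₀ b' = (modFrac N V).ρ₀ b := hρb
  show (modFrac N V).ρ ⟨γ • (f : FN N), hmem⟩ = (modFrac N V).ρ f
  rw [e1, e2, e3, e4]

/-- **`I_base`** -/
theorem gr_I_base (g : SemilinearAut _root_.Fermat.Agent.S37.Red.Qb (FN N)) (hg : g ∈ inertiaImage V N) (a : V) :
    ∃ h : SemilinearAut.baseAut g (a : _root_.Fermat.Agent.S37.Red.Qb) ∈ V,
      residue V ⟨SemilinearAut.baseAut g (a : _root_.Fermat.Agent.S37.Red.Qb), h⟩ = residue V a := by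
  obtain ⟨σ, hσ, rfl⟩ := (mem_inertiaImage V).mp hg
  have h : σ (a : _root_.Fermat.Agent.S37.Red.Qb) ∈ V := inertia_map_mem hσ a.2
  refine ⟨h, ?_⟩
  show residue V ⟨σ (a : _root_.Fermat.Agent.S37.Red.Qb), h⟩ = residue V a
  rw [← sub_eq_zero, ← _root_.map_sub, gr_res_eq_zero]
  exact hσ (a : _root_.Fermat.Agent.S37.Red.Qb) a.2

/-- **`I_lift_const`** (helper439's Teichmüller lifts) -/
theorem gr_I_lift_const (N : ℕ) {ℓ : ℕ} [Fact ℓ.Prime] (hV : V.LiesOverPrime ℓ) (c : kA V) :
    ∃ a : V, residue V a = c ∧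
      ∀ g ∈ inertiaImage V N, SemilinearAut.baseAut g (a : _root_.Fermat.Agent.S37.Red.Qb) = (a : _root_.Fermat.Agent.S37.Red.Qb) := by
  have : Algebra.IsAlgebraic ℚ _root_.Fermat.Agent.S37.Red.Qb := AlgebraicClosure.isAlgebraic ℚ
  obtain ⟨a, ha, hac, hfix⟩ :=
    Fermat.Agent.S19.H439.exists_inertia_fixed_lift (K := _root_.Fermat.Agent.S37.Red.Qb) V (ℓ := ℓ) hV c
  refine ⟨⟨a, ha⟩, hac, ?_⟩
  intro g hg
  obtain ⟨σ, hσ, rfl⟩ := (mem_inertiaImage V).mp hg
  exact hfix (σ : _root_.Fermat.Agent.S37.Red.Qb →+* _root_.Fermat.Agent.S37.Red.Qb) hσ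

/-- **`I_fixed_place`**: the cusp `∞` -/
theorem gr_I_fixed_place (N : ℕ) [NeZero N] (V : ValuationSubring _root_.Fermat.Agent.S37.Red.Qb) :
    ∃ P : Place _root_.Fermat.Agent.S37.Red.Qb (FN N), ∀ g ∈ inertiaImage V N, g • P = P := by
  refine ⟨Fermat.Agent.S17.H680.JZero.cusp N, fun g hg => ?_⟩
  obtain ⟨σ, -, rfl⟩ := (mem_inertiaImage V).mp hg
  exact Fermat.Agent.S17.H680.JZero.galois_smul_cusp N σ

end InertiaRed

/-! ## `div_red` on all of `O` from the Prelude's `IsPlaceReductionModL` -/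

section DivRed

open Fermat.Agent.S37.H940

variable {N : ℕ} [NeZero N] {V : ValuationSubring _root_.Fermat.Agent.S37.Red.Qb}

/-- the reduction of divisors of integral series extends to fractions -/
theorem gr_div_red (hVG : ModVG N V)
    (r : Place _root_.Fermat.Agent.S37.Red.Qb (FN N) → Place (kA V) (FNk V N)) (hr : IsPlaceReductionModL V N r)
    (f : modO hVG) (hf : modρ hVG f ≠ 0) (D : Divisor _root_.Fermat.Agent.S37.Red.Qb (FN N))
    (hD : ∀ P, D P = P.ord (f : FN N)) (Q : Place (kA V) (FNk V N)) :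
    Finsupp.mapDomain r D Q = Q.ord (modρ hVG f) := by
  obtain ⟨a, b, hb, hab⟩ := (f.2 : (modFrac N V).IsFrac (f : FN N))
  have e : modρ hVG f = (modFrac N V).ρ₀ a / (modFrac N V).ρ₀ b :=
    (modFrac N V).ρ_apply f hb hab
  have ha : (modFrac N V).ρ₀ a ≠ 0 := by
    intro h0
    apply hf
    rw [e, h0, zero_div]
  have hb0 : (b : FN N) ≠ 0 := (modFrac N V).coe_ne_zero hb
  have ha0 : (a : FN N) ≠ 0 := (modFrac N V).coe_ne_zero ha
  have hf0 : (f : FN N) ≠ 0 := by
    intro h0
    rw [h0, zero_mul] at hab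
    exact ha0 hab.symm
  -- the series
  obtain ⟨sa, hsa, hsak⟩ := (a.2 : IsIntQ V (residue V) (modularFunctionFieldBar N)
    (modularFunctionFieldFullC (kA V) N) (a : FN N))
  obtain ⟨sb, hsb, hsbk⟩ := (b.2 : IsIntQ V (residue V) (modularFunctionFieldBar N)
    (modularFunctionFieldFullC (kA V) N) (b : FN N))
  have hya : coeffMap V.subtype sa ∈ modularFunctionFieldBar N := by
    rw [hsa]; exact (a : FN N).2
  have hyb : coeffMap V.subtype sb ∈ modularFunctionFieldBar N := by
    rw [hsb]; exact (b : FN N).2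
  have ea : (⟨coeffMap V.subtype sa, hya⟩ : FN N) = (a : FN N) := Subtype.ext hsa
  have eb : (⟨coeffMap V.subtype sb, hyb⟩ : FN N) = (b : FN N) := Subtype.ext hsb
  have eρa : (modFrac N V).ρ₀ a = ⟨coeffMap (residue V) sa, hsak⟩ :=
    Subtype.ext (coe_redQ V (residue V) (modularFunctionFieldBar N)
      (modularFunctionFieldFullC (kA V) N) a hsa)
  have eρb : (modFrac N V).ρ₀ b = ⟨coeffMap (residue V) sb, hsbk⟩ :=
    Subtype.ext (coe_redQ V (residue V) (modularFunctionFieldBar N)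
      (modularFunctionFieldFullC (kA V) N) b hsb)
  have hnea : coeffMap (residue V) sa ≠ 0 := by
    intro h0
    apply ha
    rw [eρa]
    exact Subtype.ext h0
  have hneb : coeffMap (residue V) sb ≠ 0 := by
    intro h0
    apply hb
    rw [eρb]
    exact Subtype.ext h0
  -- the divisors of `a` and `b`
  have hpd : HasPrincipalDivisors _root_.Fermat.Agent.S37.Red.Qb (FN N) :=
    (Fermat.Agent.Lib.RR.H864.ff1_modularFunctionFieldBar N).hpd
  obtain ⟨Da, hDa, -⟩ := hpd.exists_divisor (a : FN N) ha0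
  obtain ⟨Db, hDb, -⟩ := hpd.exists_divisor (b : FN N) hb0
  have hsum : D + Db = Da := by
    ext P
    rw [Finsupp.add_apply, hD, hDa, hDb, ← Place.ord_mul P hf0 hb0, hab]
  have ka := hr.2 sa hya hsak hnea Da (fun P => by rw [hDa, ea]) Q
  have kb := hr.2 sb hyb hsbk hneb Db (fun P => by rw [hDb, eb]) Q
  have hmap : Finsupp.mapDomain r D Q + Finsupp.mapDomain r Db Q = Finsupp.mapDomain r Da Q := by
    rw [← Finsupp.add_apply, ← Finsupp.mapDomain_add, hsum]
  have hmul : modρ hVG f * (modFrac N V).ρ₀ b = (modFrac N V).ρ₀ a := by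
    rw [e, div_mul_cancel₀ _ hb]
  have hord : Q.ord (modρ hVG f) + Q.ord ((modFrac N V).ρ₀ b) = Q.ord ((modFrac N V).ρ₀ a) := by
    rw [← Place.ord_mul Q hf hb, hmul]
  rw [← eρa] at ka
  rw [← eρb] at kb
  rw [ka, kb] at hmap
  linarith

end DivRed

/-! ## The leaves and the assembly -/

section Assembly

/-- the value-group hypothesis, from S28 (core data) and S37/H568 -/
theorem gr_vg (N : ℕ) [NeZero N] {ℓ : ℕ} [Fact ℓ.Prime] (hℓN : ¬ ℓ ∣ N)
    (V : ValuationSubring _root_.Fermat.Agent.S37.Red.Qb) (hV : V.LiesOverPrime ℓ) : ModVG N V :=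
  Fermat.Agent.S37.H568.valueGroupHyp_modular
    (Fermat.Agent.S18.H516.coreData_residue N hℓN V hV)

/-- **Leaf GR-RED**: a place reduction map in the sense of the Prelude, commuting with inertia.
(S37 `node_rim` gives the first half; the second is S37's `PlaceRed.inertia`.) -/
def RedLeaf (N : ℕ) (V : ValuationSubring _root_.Fermat.Agent.S37.Red.Qb) : Prop :=
  ∃ r : Place _root_.Fermat.Agent.S37.Red.Qb (FN N) → Place (kA V) (FNk V N),
    IsPlaceReductionModL V N r ∧
      ∀ σ : GalQ, IsInertiaAt V σ → ∀ P : Place _root_.Fermat.Agent.S37.Red.Qb (FN N),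
        r (arithmeticGalois (modularFunctionFieldFull N) σ • P) = r P

/-- **Leaf GR-GENUS**: the generic and the special fibre have the same genus. -/
def GenusLeaf (N : ℕ) (V : ValuationSubring _root_.Fermat.Agent.S37.Red.Qb) : Prop :=
  genusFF _root_.Fermat.Agent.S37.Red.Qb (FN N) = genusFF (kA V) (FNk V N)

/-- **Leaf GR-ORTH**: the field `orthonormal` of `GoodRed` for `(modO, modρ, inertiaImage)`. -/
def OrthLeaf (N : ℕ) (V : ValuationSubring _root_.Fermat.Agent.S37.Red.Qb) (hVG : ModVG N V) : Prop :=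
  ∀ D : Divisor _root_.Fermat.Agent.S37.Red.Qb (FN N), ∃ (n : ℕ) (b : Fin n → modO hVG),
    LinearIndependent (kA V) (fun i => modρ hVG (b i)) ∧
    (∀ i, ((b i : modO hVG) : FN N) ∈ riemannRochSpace D) ∧
    Submodule.span _root_.Fermat.Agent.S37.Red.Qb (Set.range fun i => ((b i : modO hVG) : FN N)) = riemannRochSpace D ∧
    ((∀ g ∈ inertiaImage V N, g • D = D) →
      ∀ i, ∀ g ∈ inertiaImage V N, g • ((b i : modO hVG) : FN N) = ((b i : modO hVG) : FN N))

/-- **The `GoodRed` datum of `X₀(N)` at `V`**, from the three leaves. -/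
def goodRedOfLeaves (N : ℕ) [NeZero N] {ℓ : ℕ} [Fact ℓ.Prime] (hℓN : ¬ ℓ ∣ N)
    (V : ValuationSubring _root_.Fermat.Agent.S37.Red.Qb) (hV : V.LiesOverPrime ℓ)
    (r : Place _root_.Fermat.Agent.S37.Red.Qb (FN N) → Place (kA V) (FNk V N)) (hr : IsPlaceReductionModL V N r)
    (hrI : ∀ σ : GalQ, IsInertiaAt V σ → ∀ P : Place _root_.Fermat.Agent.S37.Red.Qb (FN N),
        r (arithmeticGalois (modularFunctionFieldFull N) σ • P) = r P)
    (hgen : GenusLeaf N V) (horth : OrthLeaf N V (gr_vg N hℓN V hV)) :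
    Fermat.Agent.A3.H799.GoodRed _root_.Fermat.Agent.S37.Red.Qb (FN N) (kA V) (FNk V N) where
  V := V
  O := modO (gr_vg N hℓN V hV)
  res := residue V
  red := modρ (gr_vg N hℓN V hV)
  r := r
  I := inertiaImage V N
  res_surjective := residue_surjective
  res_eq_zero := gr_res_eq_zero
  algebraMap_mem := gr_algebraMap_mem (gr_vg N hℓN V hV)
  red_algebraMap := gr_red_algebraMap (gr_vg N hℓN V hV)
  red_surjective := Fermat.Agent.S37.Red.modρ_surjective (gr_vg N hℓN V hV)
  gauss := gr_gauss (gr_vg N hℓN V hV)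
  div_red := fun f hf D hD Q => gr_div_red (gr_vg N hℓN V hV) r hr f hf D hD Q
  ff1 := Fermat.Agent.Lib.RR.H864.ff1_modularFunctionFieldBar N
  ff1k := Fermat.Agent.S18.H383.ff1_residue N ℓ Fact.out hℓN V hV
  genus_eq := hgen
  orthonormal := horth
  I_base := gr_I_base
  I_red := gr_I_red (gr_vg N hℓN V hV)
  I_place := fun g hg P => by
    obtain ⟨σ, hσ, rfl⟩ := (mem_inertiaImage V).mp hg
    exact hrI σ hσ P
  I_lift_const := gr_I_lift_const N hV
  I_fixed_place := gr_I_fixed_place N V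

/-- **GR assembly**: `GrStatement` from the three leaves, for ONE valuation ring above each
prime `ℓ ∤ N` at good levels. -/
theorem grStatement_of_leaves
    (h : ∀ (N : ℕ) [NeZero N] (ℓ : ℕ) [Fact ℓ.Prime] (hℓN : ¬ ℓ ∣ N), GoodLevel N ℓ →
      ∃ (V : ValuationSubring _root_.Fermat.Agent.S37.Red.Qb) (hV : V.LiesOverPrime ℓ),
        RedLeaf N V ∧ GenusLeaf N V ∧ OrthLeaf N V (gr_vg N hℓN V hV)) :
    Fermat.Agent.S19.H979.GrStatement := by
  intro N _ ℓ _ hℓN hgood
  obtain ⟨V, hV, ⟨r, hr, hrI⟩, hgen, horth⟩ := h N ℓ hℓN hgood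
  refine ⟨kA V, inferInstance, Fermat.Agent.S18.H9.resAlgClosed _root_.Fermat.Agent.S37.Red.Qb V, FNk V N, inferInstance,
    inferInstance, goodRedOfLeaves N hℓN V hV r hr hrI hgen horth, hV, ?_⟩
  intro σ hσ
  exact arithmeticGalois_mem_inertiaImage V N hσ

/-- the same, with the leaves for EVERY valuation ring above `ℓ` -/
theorem grStatement_of_leaves_forall
    (hred : ∀ (N : ℕ) [NeZero N] (ℓ : ℕ) [Fact ℓ.Prime], ¬ ℓ ∣ N → GoodLevel N ℓ →
      ∀ V : ValuationSubring _root_.Fermat.Agent.S37.Red.Qb, V.LiesOverPrime ℓ → RedLeaf N V)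
    (hgen : ∀ (N : ℕ) [NeZero N] (ℓ : ℕ) [Fact ℓ.Prime], ¬ ℓ ∣ N → GoodLevel N ℓ →
      ∀ V : ValuationSubring _root_.Fermat.Agent.S37.Red.Qb, V.LiesOverPrime ℓ → GenusLeaf N V)
    (horth : ∀ (N : ℕ) [NeZero N] (ℓ : ℕ) [Fact ℓ.Prime] (hℓN : ¬ ℓ ∣ N), GoodLevel N ℓ →
      ∀ (V : ValuationSubring _root_.Fermat.Agent.S37.Red.Qb) (hV : V.LiesOverPrime ℓ), OrthLeaf N V (gr_vg N hℓN V hV)) :
    Fermat.Agent.S19.H979.GrStatement := by
  refine grStatement_of_leaves fun N _ ℓ _ hℓN hgood => ?_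
  obtain ⟨V, hV⟩ := Fermat.Agent.S54.exists_valuationSubring_liesOver ℓ Fact.out
  exact ⟨V, hV, hred N ℓ hℓN hgood V hV, hgen N ℓ hℓN hgood V hV, horth N ℓ hℓN hgood V hV⟩

end Assembly

end Fermat.Agent.A3.H739

end
end
-- ===== PACK-END A3/H739/GrAsm.lean

-- ===== PACK-BEGIN S37/H28/NoRam.lean
section



/-!
# S37 / node_rim (helper28): `NoRamOutside` from `Unramified`  (input (NC) of Theorem M)

For a reduction datum `G : Red.Datum A π F Fk` and a coordinate `t : F`:
`H278.Unramified (constants) t S`  ⟹  `Red.H159.NoRamOutside G t (branchA A S)`.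

Proof: `β = f / (t - c)` lies in every valuation subring `V ⊇ K ∪ {t}` of `F`
(if `t - c` is a nonunit of `V` it is a uniformiser; `f` is a nonunit of `V` because
`f² / (t - c) ∈ V`), and the integral closure of `K[t]` is the intersection of these `V`
(Mathlib `iInf_valuationSubring_superset`).
-/

set_option autoImplicit false
set_option linter.unusedSectionVars false
set_option linter.style.haveILetI false

noncomputable section

namespace Fermat.Agent.S37.H28

open Polynomial Fermat.Agent.S37.Red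

section Mono

variable {F : Type*} [Field F]

/-- integrality over a subring passes to a larger subalgebra -/
theorem isIntegral_adjoin_of_isIntegral_closure {K : Type*} [Field K] [Algebra K F] (t : F)
    {z : F}
    (hz : IsIntegral (Subring.closure (Set.range (algebraMap K F) ∪ {t})) z) :
    IsIntegral (Algebra.adjoin K {t}) z := by
  have hle : Subring.closure (Set.range (algebraMap K F) ∪ {t}) ≤
      (Algebra.adjoin K ({t} : Set F)).toSubring := by
    rw [Subring.closure_le]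
    rintro y (⟨a, rfl⟩ | hy)
    · exact (Algebra.adjoin K ({t} : Set F)).algebraMap_mem a
    · rw [Set.mem_singleton_iff] at hy
      subst hy
      exact Algebra.self_mem_adjoin_singleton K y
  obtain ⟨P, hP, hPz⟩ := hz
  let ι : Subring.closure (Set.range (algebraMap K F) ∪ {t}) →+* Algebra.adjoin K ({t} : Set F) :=
    Subring.inclusion hle
  refine ⟨P.map ι, hP.map ι, ?_⟩
  rw [Polynomial.eval₂_map]
  exact hPz

/-- elements integral over `K[t]` lie in every valuation subring containing `K` and `t` -/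
theorem mem_valuationSubring_of_isIntegral_adjoin {K : Type*} [Field K] [Algebra K F] (t : F)
    (V : ValuationSubring F) (hK : ∀ a : K, algebraMap K F a ∈ V) (ht : t ∈ V) {z : F}
    (hz : IsIntegral (Algebra.adjoin K {t}) z) : z ∈ V := by
  have hle : (Algebra.adjoin K ({t} : Set F)).toSubring ≤ V.toSubring := by
    rw [Algebra.adjoin_eq_ring_closure, Subring.closure_le]
    rintro y (⟨a, rfl⟩ | hy)
    · exact hK a
    · rw [Set.mem_singleton_iff] at hy
      subst hy
      exact ht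
  obtain ⟨P, hP, hPz⟩ := hz
  let g : Algebra.adjoin K ({t} : Set F) →+* V :=
    (Algebra.adjoin K ({t} : Set F)).val.toRingHom.codRestrict V.toSubring (fun b => hle b.2)
  have hint : IsIntegral V z := by
    refine ⟨P.map g, hP.map g, ?_⟩
    rw [Polynomial.eval₂_map]
    exact hPz
  obtain ⟨y, hy⟩ := IsIntegrallyClosed.isIntegral_iff.1 hint
  rw [← hy]
  exact y.2

/-- the integral closure of `K[t]` is the intersection of the valuation subrings containing
`K` and `t` -/
theorem isIntegral_adjoin_of_forall_mem {K : Type*} [Field K] [Algebra K F] (t : F) {z : F}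
    (h : ∀ V : ValuationSubring F, (∀ a : K, algebraMap K F a ∈ V) → t ∈ V → z ∈ V) :
    IsIntegral (Algebra.adjoin K {t}) z := by
  apply isIntegral_adjoin_of_isIntegral_closure
  have hmem : z ∈ (⨅ V : {V : ValuationSubring F //
      (Set.range (algebraMap K F) ∪ {t}) ⊆ V.toSubring}, V.1.toSubring) := by
    rw [Subring.mem_iInf]
    rintro ⟨V, hV⟩
    exact h V (fun a => hV (Or.inl ⟨a, rfl⟩)) (hV (Or.inr rfl))
  rw [iInf_valuationSubring_superset] at hmem
  exact hmem

end Mono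

section NoRam

universe u

variable {K k F Fk : Type u} [Field K] [Field k] [Field F] [Field Fk] [Algebra K F]
  [Algebra k Fk] {A : ValuationSubring K} {π : A →+* k}

/-- **(NC) of Theorem M from `Unramified`.** -/
theorem noRamOutside_of_unramified (G : Datum A π F Fk) (t : F) (S : Finset F)
    (hunr : Fermat.Agent.S18.H278.Unramified (algebraMap K F).fieldRange t S) :
    H159.NoRamOutside G t (branchA (F := F) A S) := by
  intro c hc f hf hf2
  have hcS : algebraMap K F (c : K) ∉ S := fun h => hc (mem_branchA.2 h)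
  have hf' : IsIntegral (Algebra.adjoin K {t}) f := hf
  have hf2' : IsIntegral (Algebra.adjoin K {t}) (f ^ 2 / (t - algebraMap K F (c : K))) := hf2
  show IsIntegral (Algebra.adjoin K {t}) (f / (t - algebraMap K F (c : K)))
  apply isIntegral_adjoin_of_forall_mem
  intro V hK ht
  set z := t - algebraMap K F (c : K) with hz
  have hfV : f ∈ V := mem_valuationSubring_of_isIntegral_adjoin t V hK ht hf'
  have hf2V : f ^ 2 / z ∈ V := mem_valuationSubring_of_isIntegral_adjoin t V hK ht hf2'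
  have hzV : z ∈ V := sub_mem ht (hK _)
  rcases eq_or_ne f 0 with hf0 | hf0
  · rw [hf0, zero_div]
    exact V.zero_mem
  by_cases hzu : z⁻¹ ∈ V
  · rw [div_eq_mul_inv]
    exact mul_mem hfV hzu
  by_cases hfu : f⁻¹ ∈ V
  · exfalso
    apply hzu
    have hz0 : z ≠ 0 := by
      intro h0
      apply hzu
      rw [h0, inv_zero]
      exact V.zero_mem
    have h1 : z⁻¹ = f⁻¹ * f⁻¹ * (f ^ 2 / z) := by
      field_simp
    rw [h1]
    exact mul_mem (mul_mem hfu hfu) hf2V
  · have hL : ∀ a ∈ (algebraMap K F).fieldRange, a ∈ V := by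
      rintro a ⟨a₀, rfl⟩
      exact hK a₀
    have := hunr V hL (algebraMap K F (c : K)) ⟨_, rfl⟩ hcS hzV hzu f hfV hfu
    rw [div_eq_mul_inv]
    exact this

end NoRam

end Fermat.Agent.S37.H28

end
end
-- ===== PACK-END S37/H28/NoRam.lean

-- ===== PACK-BEGIN A3/H799/Zgen.lean
section



/-!
# A3 / LOCAL — ZGEN from GEO and DET  (helper799)

`zgen_of : GeoStatement → DetStatement → ZgenStatement` is one application of the abstract LOCAL
theorem `local_mem`; `ZtriStatement` (`s = 2`) and `ZnegStatement` (`s = 1`) are special cases.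
-/

set_option autoImplicit false

noncomputable section

open AlgebraicCurve Fermat.Agent.Lib.RR Polynomial

namespace Fermat.Agent.A3.H799

universe u₁ u₂ u₃ u₄ w

variable {K : Type u₁} {F : Type u₂} {k : Type u₃} {Fk : Type u₄}
  [Field K] [Field F] [Algebra K F] [Field k] [Field Fk] [Algebra k Fk]

/-- Constants of `V` as integral functions. -/
def GoodRed.constO (𝓡 : GoodRed K F k Fk) (a : 𝓡.V) : 𝓡.O :=
  ⟨algebraMap K F (a : K), (𝓡.algebraMap_mem _).2 a.2⟩

theorem GoodRed.red_constO (𝓡 : GoodRed K F k Fk) (a : 𝓡.V) :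
    𝓡.red (𝓡.constO a) = algebraMap k Fk (𝓡.res a) :=
  𝓡.red_algebraMap a _

theorem GoodRed.res_eq_zero_of_mem (𝓡 : GoodRed K F k Fk) (a : IsLocalRing.maximalIdeal 𝓡.V) :
    𝓡.res (a : 𝓡.V) = 0 := by
  rw [𝓡.res_eq_zero, ValuationSubring.mem_nonunits_iff_exists_mem_maximalIdeal]
  exact ⟨(a : 𝓡.V).2, a.2⟩

theorem one_mem_L_of_nonneg [FF1 K F] {D : Divisor K F} (hD : 0 ≤ D) :
    (1 : F) ∈ riemannRochSpace D := by
  apply L_mono hD
  rw [L_zero]
  exact ⟨1, by simp⟩

theorem zsmul_polyDiv_nonneg {𝓡 : GoodRed K F k Fk} {ι : Type*} [Fintype ι]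
    {Qs : ι → Place k Fk} (d : ∀ i, DiscData 𝓡 (Qs i)) (z : ι → IsLocalRing.maximalIdeal 𝓡.V)
    (s : ℕ) : 0 ≤ ((s : ℤ) + 1) • polyDiv d z :=
  smul_nonneg (by positivity) (polyDiv_nonneg d z)

/-- **ZGEN** from GEO and DET. -/
theorem zgen_of (hgeo : GeoStatement K F k Fk) (hdet : DetStatement K F k Fk) :
    ZgenStatement.{u₁, u₂, u₃, u₄, w} K F k Fk := by
  intro 𝓡 Qs hinj hnsp d T _ Λ s hs zs zw hzs hprin
  classical
  haveI := 𝓡.ff1
  obtain ⟨φ, f, P, H, hφL, hfφ, hfP, hdetP⟩ := hdet 𝓡 Qs hinj hnsp d s hs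
  refine local_mem (A := 𝓡.V) (T := T) (ι := Fin (genusFF k Fk)) (𝒪 := fun i => (d i).ring)
    Λ (fun i => (d i).D) (fun _ => s)
    (fun i r => ⟨⟨fun τ => ((zs r τ i : IsLocalRing.maximalIdeal 𝓡.V) : 𝓡.V), hzs r i⟩,
      fun τ => (zs r τ i).2⟩)
    (fun i => (d i).D.t ^ (s + 1)) f (fun _ => X ^ (s + 1)) (fun _ => 0) ?_ P H hfP hdetP ?_
    (fun i τ => zw τ i) ?_
  · intro i
    simp
  · intro i r
    rw [coeff_X_pow, if_neg (by have := r.2; omega)]
    exact zero_mem _
  · intro τ a hdiv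
    -- the section `φ_a = 1 + Σ a_j φ_j`
    set φa : 𝓡.O := 1 + ∑ j, 𝓡.constO (a j : 𝓡.V) * φ j with hφa
    have hφaF : ((φa : 𝓡.O) : F) =
        1 + ∑ j, algebraMap K F (((a j : IsLocalRing.maximalIdeal 𝓡.V) : 𝓡.V) : K) *
          ((φ j : 𝓡.O) : F) := by
      rw [hφa]
      push_cast
      rfl
    have hφaL : ((φa : 𝓡.O) : F) ∈ riemannRochSpace (((s : ℤ) + 1) • polyDiv d 0) := by
      rw [hφaF]
      refine Submodule.add_mem _ (one_mem_L_of_nonneg (zsmul_polyDiv_nonneg d 0 s)) ?_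
      refine Submodule.sum_mem _ fun j _ => ?_
      have := Submodule.smul_mem _ ((((a j : IsLocalRing.maximalIdeal 𝓡.V) : 𝓡.V) : K)) (hφL j)
      rwa [Algebra.smul_def] at this
    have hred : 𝓡.red φa = 1 := by
      rw [hφa, _root_.map_add, _root_.map_one, _root_.map_sum]
      rw [Finset.sum_eq_zero, add_zero]
      intro j _
      rw [_root_.map_mul, 𝓡.red_constO, 𝓡.res_eq_zero_of_mem, _root_.map_zero, zero_mul]
    have hG : ∀ i, (((d i).D.t ^ (s + 1) +
        ∑ j, ((a j : IsLocalRing.maximalIdeal 𝓡.V) : 𝓡.V) • f j i : (d i).ring) : F) =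
          ((((d i).D.t : (d i).ring) : F)) ^ (s + 1) * ((φa : 𝓡.O) : F) := by
      intro i
      rw [hφaF, mul_add, mul_one, Finset.mul_sum]
      push_cast
      congr 1
      refine Finset.sum_congr rfl fun j _ => ?_
      rw [hfφ, Algebra.smul_def]
      show algebraMap K F (((a j : IsLocalRing.maximalIdeal 𝓡.V) : 𝓡.V) : K) * _ = _
      ring
    have hlist : ∀ i, (List.ofFn fun r : Fin s =>
        (⟨⟨fun τ => ((zs r τ i : IsLocalRing.maximalIdeal 𝓡.V) : 𝓡.V), hzs r i⟩,
          fun τ => (zs r τ i).2⟩ : radIdeal Λ)).map (ptAt Λ τ) =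
        List.ofFn fun r => zs r τ i := by
      intro i
      rw [List.map_ofFn]
      rfl
    simp only [hlist] at hdiv ⊢
    exact hgeo 𝓡 Qs hinj hnsp d s (fun r => zs r τ) (zw τ) (hprin τ) φa hφaL hred
      (fun i => (d i).D.t ^ (s + 1) + ∑ j, ((a j : IsLocalRing.maximalIdeal 𝓡.V) : 𝓡.V) • f j i)
      hG hdiv

/-- ZTRI is ZGEN with two moving points. -/
theorem ztri_of_zgen (h : ZgenStatement.{u₁, u₂, u₃, u₄, w} K F k Fk) : ZtriStatement.{u₁, u₂, u₃, u₄, w} K F k Fk := by
  intro 𝓡 Qs hinj hnsp d T _ Λ zx zy zw hzx hzy hprin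
  refine h 𝓡 Qs hinj hnsp d T Λ 2 (by norm_num) ![zx, zy] zw ?_ ?_
  · intro r j
    fin_cases r
    · exact hzx j
    · exact hzy j
  · intro τ
    have := hprin τ
    rw [Fin.sum_univ_two]
    have h3 : ((2 : ℕ) : ℤ) + 1 = 3 := by norm_num
    rw [h3]
    exact this

/-- ZNEG is ZGEN with one moving point. -/
theorem zneg_of_zgen (h : ZgenStatement.{u₁, u₂, u₃, u₄, w} K F k Fk) : ZnegStatement.{u₁, u₂, u₃, u₄, w} K F k Fk := by
  intro 𝓡 Qs hinj hnsp d T _ Λ zx zn hzx hprin
  refine h 𝓡 Qs hinj hnsp d T Λ 1 (by norm_num) ![zx] zn ?_ ?_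
  · intro r j
    fin_cases r
    exact hzx j
  · intro τ
    have := hprin τ
    rw [Fin.sum_univ_one]
    have h2 : ((1 : ℕ) : ℤ) + 1 = 2 := by norm_num
    rw [h2]
    exact this

end Fermat.Agent.A3.H799

end
end
-- ===== PACK-END A3/H799/Zgen.lean

-- ===== PACK-BEGIN A3/H255/Geo.lean
section




/-!
# A3 / LOCAL, leaf GEO (helper255): the section through the moving points has exactly one
further zero in each disc

`geoStatement : GeoStatement K F k Fk` (frozen leaf of `A3/H799/LocalSpec2.lean`).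

Proof.  `E = polyDiv d 0`, `D_r = polyDiv d (zs r)`, `D_w = polyDiv d zw`,
`div ψ = Σ D_r + D_w - (s+1) E`.
* `G_i = t_i^{s+1} φ = ∏_r (t_i - zs r i) · h_i` with `h_i` regular on the disc gives
  `φ ∈ L((s+1) E - Σ D_r)`, so `φ / ψ ∈ L(D_w) = K` (`ℓ(D_w) = 1`, leaf COORD), i.e.
  `div φ = div ψ`.
* Hence `ord h_i = 1` at `pt_i (zw i)`, so `h_i = (t_i - zw i) · u` in the disc ring.
* Reduction: `t̄^{s+1} = t̄^s · t̄ · red u`, so `red u = 1` and `ev u` is a unit (`red_ev`).

All proofs complete.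
-/

set_option autoImplicit false
set_option linter.style.haveILetI false

noncomputable section

open AlgebraicCurve

namespace Fermat.Agent.A3.H255.Geo

open Fermat.Agent.Lib.RR Fermat.Agent.A3.H799

variable {K F k Fk : Type*} [Field K] [Field F] [Algebra K F] [Field k] [Field Fk] [Algebra k Fk]

section Disc

variable {𝓡 : GoodRed K F k Fk} {Q : Place k Fk} (d : DiscData 𝓡 Q)

theorem aeval_nodal_cons' (a : IsLocalRing.maximalIdeal 𝓡.V)
    (l : List (IsLocalRing.maximalIdeal 𝓡.V)) :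
    Polynomial.aeval d.D.t (DiscAlg.nodal (a :: l)) =
      d.tSub a * Polynomial.aeval d.D.t (DiscAlg.nodal l) :=
  d.D.aeval_nodal_cons a l

theorem coe_aeval_nodal_ne_zero (l : List (IsLocalRing.maximalIdeal 𝓡.V)) :
    ((Polynomial.aeval d.D.t (DiscAlg.nodal l) : d.ring) : F) ≠ 0 := by
  induction l with
  | nil => simp
  | cons a l ih =>
    rw [aeval_nodal_cons']
    exact mul_ne_zero (d.tSub_ne_zero a) ih

open scoped Classical in
theorem ord_pt_aeval_nodal (l : List (IsLocalRing.maximalIdeal 𝓡.V))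
    (b : IsLocalRing.maximalIdeal 𝓡.V) :
    (d.pt b).ord ((Polynomial.aeval d.D.t (DiscAlg.nodal l) : d.ring) : F) =
      (l.map fun a => if a = b then (1 : ℤ) else 0).sum := by
  induction l with
  | nil => simp
  | cons a l ih =>
    rw [aeval_nodal_cons']
    have h1 : (((d.tSub a * Polynomial.aeval d.D.t (DiscAlg.nodal l) : d.ring)) : F) =
        ((d.tSub a : d.ring) : F) * ((Polynomial.aeval d.D.t (DiscAlg.nodal l) : d.ring) : F) :=
      rfl
    rw [h1, (d.pt b).ord_mul (d.tSub_ne_zero a) (coe_aeval_nodal_ne_zero d l), ih,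
      d.ord_pt_tSub_eq a b, List.map_cons, List.sum_cons]
    congr 1
    by_cases h : a = b
    · rw [if_pos h, if_pos h.symm]
    · rw [if_neg h, if_neg (Ne.symm h)]

theorem redHom_aeval_nodal (l : List (IsLocalRing.maximalIdeal 𝓡.V)) :
    d.redHom (Polynomial.aeval d.D.t (DiscAlg.nodal l)) = d.redHom d.D.t ^ l.length := by
  induction l with
  | nil => simp
  | cons a l ih =>
    rw [aeval_nodal_cons', map_mul, ih, d.redHom_tSub, List.length_cons, pow_succ, mul_comm]

open scoped Classical in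
theorem ord_pt_t (b : IsLocalRing.maximalIdeal 𝓡.V) :
    (d.pt b).ord ((d.D.t : d.ring) : F) = if (0 : IsLocalRing.maximalIdeal 𝓡.V) = b then 1 else 0 := by
  have h : d.D.t = d.tSub 0 := by
    unfold DiscData.tSub
    simp
  have h2 := d.ord_pt_tSub_eq 0 b
  rw [← h] at h2
  rw [h2]
  by_cases hb : b = 0
  · rw [if_pos hb, if_pos hb.symm]
  · rw [if_neg hb, if_neg (Ne.symm hb)]

/-- If the reduction of `u` is `1`, every value of `u` is a unit. -/
theorem isUnit_ev_of_redHom_eq_one (u : d.ring) (hu : d.redHom u = 1)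
    (a : IsLocalRing.maximalIdeal 𝓡.V) : IsUnit (d.D.ev a u) := by
  haveI := 𝓡.ff1k
  have h := d.red_ev a u
  have hu' : 𝓡.red ⟨(u : F), d.ring_le _ u.2⟩ = 1 := hu
  rw [hu'] at h
  have hres : 𝓡.res (d.D.ev a u) = 1 := by
    have e : (1 : Fk) - algebraMap k Fk (𝓡.res (d.D.ev a u)) =
        algebraMap k Fk (1 - 𝓡.res (d.D.ev a u)) := by
      rw [map_sub, map_one]
    rcases h with h | h
    · have : algebraMap k Fk 1 = algebraMap k Fk (𝓡.res (d.D.ev a u)) := by
        rw [map_one]; exact h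
      exact ((algebraMap k Fk).injective this).symm
    · rw [e] at h
      by_contra hne
      have hc : (1 : k) - 𝓡.res (d.D.ev a u) ≠ 0 := fun h0 => hne (sub_eq_zero.mp h0).symm
      rw [ord_algebraMap] at h
      omega
  rw [← IsLocalRing.notMem_maximalIdeal]
  intro hmem
  have h1 : ((d.D.ev a u : 𝓡.V) : K) ∈ 𝓡.V.nonunits :=
    ValuationSubring.coe_mem_nonunits_iff.mpr hmem
  rw [← 𝓡.res_eq_zero, hres] at h1
  exact one_ne_zero h1

end Disc

section Sum

variable {𝓡 : GoodRed K F k Fk} {ι : Type*} [Fintype ι] {Qs : ι → Place k Fk}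
  (d : ∀ i, DiscData 𝓡 (Qs i))

open scoped Classical in
theorem sum_polyDiv_apply_pt (hQ : Function.Injective Qs) {s : ℕ}
    (zs : Fin s → ι → IsLocalRing.maximalIdeal 𝓡.V) (i : ι)
    (a : IsLocalRing.maximalIdeal 𝓡.V) :
    (∑ r, polyDiv d (zs r)) ((d i).pt a) = ∑ r, if zs r i = a then (1 : ℤ) else 0 := by
  rw [Finsupp.finsetSum_apply]
  refine Finset.sum_congr rfl fun r _ => ?_
  exact polyDiv_apply_pt d hQ (zs r) i a

theorem sum_polyDiv_apply_of_not_mem {s : ℕ}
    (zs : Fin s → ι → IsLocalRing.maximalIdeal 𝓡.V) (P : Place K F)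
    (hP : ∀ i, 𝓡.r P ≠ Qs i) : (∑ r, polyDiv d (zs r)) P = 0 := by
  rw [Finsupp.finsetSum_apply]
  refine Finset.sum_eq_zero fun r _ => ?_
  exact polyDiv_apply_of_not_mem d (zs r) P hP

open scoped Classical in
theorem sum_map_ofFn {s : ℕ} (f : Fin s → IsLocalRing.maximalIdeal 𝓡.V)
    (a : IsLocalRing.maximalIdeal 𝓡.V) :
    ((List.ofFn f).map fun b => if b = a then (1 : ℤ) else 0).sum =
      ∑ r, if f r = a then (1 : ℤ) else 0 := by
  rw [List.map_ofFn, List.sum_ofFn]
  rfl

end Sum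

/-- **GEO**: the frozen leaf `GeoStatement` of `A3/H799/LocalSpec2.lean`. -/
theorem geoStatement : GeoStatement K F k Fk := by
  classical
  intro 𝓡 Qs hQs hell d s zs zw hprin φ hφL hφred G hG hdiv i
  haveI := 𝓡.ff1
  haveI := 𝓡.ff1k
  -- `φ ≠ 0`
  have hφ0 : ((φ : 𝓡.O) : F) ≠ 0 := by
    intro h
    have : φ = 0 := Subtype.ext h
    rw [this, map_zero] at hφred
    exact zero_ne_one hφred
  -- the quotients `h_i`
  choose h hh using hdiv
  have hGF : ∀ j, ((G j : (d j).ring) : F) ≠ 0 := by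
    intro j
    rw [hG j]
    refine mul_ne_zero (pow_ne_zero _ ?_) hφ0
    have := (d j).tSub_ne_zero 0
    rw [DiscData.coe_tSub] at this
    simpa [DiscData.tF] using this
  have hGF' : ∀ j, ((G j : (d j).ring) : F) =
      ((Polynomial.aeval (d j).D.t (DiscAlg.nodal (List.ofFn fun r => zs r j)) : (d j).ring) : F) *
        ((h j : (d j).ring) : F) := by
    intro j
    rw [hh j]
    rfl
  have hh0 : ∀ j, ((h j : (d j).ring) : F) ≠ 0 := by
    intro j h0
    apply hGF j
    rw [hGF' j, h0, mul_zero]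
  -- orders of `φ` on the discs
  have hordφ : ∀ (j : Fin (genusFF k Fk)) (a : IsLocalRing.maximalIdeal 𝓡.V),
      ((s : ℤ) + 1) * (if (0 : IsLocalRing.maximalIdeal 𝓡.V) = a then 1 else 0) +
        ((d j).pt a).ord ((φ : 𝓡.O) : F) =
      (∑ r, if zs r j = a then (1 : ℤ) else 0) + ((d j).pt a).ord ((h j : (d j).ring) : F) := by
    intro j a
    have e1 := congrArg ((d j).pt a).ord (hGF' j)
    rw [hG j, ((d j).pt a).ord_mul (pow_ne_zero _ (by
        have := (d j).tSub_ne_zero 0
        rw [DiscData.coe_tSub] at this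
        simpa [DiscData.tF] using this)) hφ0,
      ord_pow, ord_pt_t (d j) a,
      ((d j).pt a).ord_mul (coe_aeval_nodal_ne_zero (d j) _) (hh0 j),
      ord_pt_aeval_nodal (d j), sum_map_ofFn] at e1
    push_cast at e1
    exact e1
  -- `φ ∈ L((s+1) E - Σ D_r)`
  have hφB : ∀ P : Place K F,
      (∑ r, polyDiv d (zs r)) P - ((s : ℤ) + 1) * polyDiv d 0 P ≤ P.ord ((φ : 𝓡.O) : F) := by
    intro P
    by_cases hP : ∃ j, 𝓡.r P = Qs j
    · obtain ⟨j, hj⟩ := hP
      obtain ⟨a, rfl⟩ := (d j).pt_surj P hj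
      rw [sum_polyDiv_apply_pt d hQs zs j a, polyDiv_apply_pt d hQs 0 j a]
      have e := hordφ j a
      have hnn := (d j).ord_nonneg (h j) ((d j).pt a) ((d j).r_pt a)
      have hz : ((0 : Fin (genusFF k Fk) → IsLocalRing.maximalIdeal 𝓡.V) j = a) ↔
          ((0 : IsLocalRing.maximalIdeal 𝓡.V) = a) := Iff.rfl
      simp only [hz]
      linarith
    · push Not at hP
      rw [sum_polyDiv_apply_of_not_mem d zs P hP, polyDiv_apply_of_not_mem d 0 P hP]
      have := (mem_L_iff.mp hφL P).resolve_left hφ0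
      have h0 : (((s : ℤ) + 1) • polyDiv d (0 : Fin (genusFF k Fk) →
          IsLocalRing.maximalIdeal 𝓡.V)) P = 0 := by
        rw [Finsupp.smul_apply, polyDiv_apply_of_not_mem d 0 P hP, smul_zero]
      rw [h0] at this
      simpa using this
  -- `div φ = div ψ`
  obtain ⟨ψ, hψ0, hψ⟩ := hprin
  have hψ' : ∀ P : Place K F, P.ord ψ =
      (∑ r, polyDiv d (zs r)) P + polyDiv d zw P - ((s : ℤ) + 1) * polyDiv d 0 P := by
    intro P
    rw [← hψ P]
    simp only [Finsupp.coe_sub, Finsupp.coe_add, Pi.sub_apply, Pi.add_apply, Finsupp.smul_apply,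
      smul_eq_mul]
  have hquot : ((φ : 𝓡.O) : F) * ψ⁻¹ ∈ riemannRochSpace (polyDiv d zw) := by
    rw [mem_L_iff]
    intro P
    right
    rw [P.ord_mul hφ0 (inv_ne_zero hψ0), P.ord_inv, hψ' P]
    have := hφB P
    linarith
  rw [H638.L_eq_range_of_ell_eq_one (Fermat.Agent.A3.H255.polyDiv_nonneg d zw)
    (Fermat.Agent.A3.H255.ell_polyDiv 𝓡 Qs hell d zw)] at hquot
  obtain ⟨c, hc⟩ := hquot
  have hc' : algebraMap K F c = ((φ : 𝓡.O) : F) * ψ⁻¹ := hc
  have hc0 : algebraMap K F c ≠ 0 := by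
    rw [hc']
    exact mul_ne_zero hφ0 (inv_ne_zero hψ0)
  have hφψ : ∀ P : Place K F, P.ord ((φ : 𝓡.O) : F) = P.ord ψ := by
    intro P
    have e : ((φ : 𝓡.O) : F) = algebraMap K F c * ψ := by
      rw [hc']
      field_simp
    rw [e, P.ord_mul hc0 hψ0, ord_algebraMap, zero_add]
  -- `h_i` vanishes at `pt_i (zw i)`
  have hordh : ((d i).pt (zw i)).ord ((h i : (d i).ring) : F) = 1 := by
    have e := hordφ i (zw i)
    rw [hφψ, hψ', sum_polyDiv_apply_pt d hQs zs i (zw i), polyDiv_apply_pt d hQs zw i (zw i),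
      polyDiv_apply_pt d hQs 0 i (zw i), if_pos rfl] at e
    have hz : ((0 : Fin (genusFF k Fk) → IsLocalRing.maximalIdeal 𝓡.V) i = zw i) ↔
        ((0 : IsLocalRing.maximalIdeal 𝓡.V) = zw i) := Iff.rfl
    simp only [hz] at e
    linarith
  have hhi0 : h i ≠ 0 := fun h0 => hh0 i (by rw [h0]; rfl)
  have hev : (d i).D.ev (zw i) (h i) = 0 :=
    ((d i).ev_eq_zero_iff (zw i) (h i) hhi0).mpr (by rw [hordh])
  obtain ⟨u, hu⟩ := (d i).exists_eq_mul_of_ev_eq_zero (zw i) (h i) hev
  -- the reduction of `u` is `1`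
  have hred1 : (d i).redHom (G i) = (d i).redHom (d i).D.t ^ (s + 1) := by
    have e : (⟨((G i : (d i).ring) : F), (d i).ring_le _ (G i).2⟩ : 𝓡.O) =
        (⟨(((d i).D.t : (d i).ring) : F), (d i).ring_le _ (d i).D.t.2⟩ : 𝓡.O) ^ (s + 1) * φ := by
      apply Subtype.ext
      rw [hG i]
      rfl
    rw [DiscData.redHom_apply, e, map_mul, map_pow, hφred, mul_one, DiscData.redHom_apply]
  have hred2 : (d i).redHom (G i) = (d i).redHom (d i).D.t ^ (s + 1) * (d i).redHom u := by
    rw [hh i, hu, map_mul, map_mul, redHom_aeval_nodal, (d i).redHom_tSub, List.length_ofFn,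
      pow_succ]
    ring
  have hu1 : (d i).redHom u = 1 := by
    have h0 : (d i).redHom (d i).D.t ^ (s + 1) ≠ 0 := pow_ne_zero _ (d i).redHom_t_ne_zero
    have e : (d i).redHom (d i).D.t ^ (s + 1) * (d i).redHom u =
        (d i).redHom (d i).D.t ^ (s + 1) * 1 := by
      rw [← hred2, hred1, mul_one]
    exact mul_left_cancel₀ h0 e
  refine ⟨u, isUnit_ev_of_redHom_eq_one (d i) u hu1 (zw i), ?_⟩
  rw [hh i, hu, mul_assoc]
  rfl

end Fermat.Agent.A3.H255.Geo

end
end
-- ===== PACK-END A3/H255/Geo.lean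

-- ===== PACK-BEGIN A3/H799/LocalFinal.lean
section









/-!
# A3 / LOCAL — `LocalStatement` from the single remaining leaf DET  (helper799)

All other leaves are on main: DISC (`H75.discStatement`), DISC-I (`H555.discEquivStatement`),
NSP (`H255.nspStatement`), COORD (`H255.coordStatement`), GEO (`H255.Geo.geoStatement`),
KER-I (`H555.kerInertiaStatement`), LIFTI (`H555.liftiStatement_of_disc`).
-/

set_option autoImplicit false

open AlgebraicCurve

namespace Fermat.Agent.A3.H799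

universe u₁ u₂ u₃ u₄

variable {K : Type u₁} {F : Type u₂} {k : Type u₃} {Fk : Type u₄}
  [Field K] [Field F] [Algebra K F] [Field k] [Field Fk] [Algebra k Fk]

/-- ZADD from DET. -/
theorem zaddStatement_of_det.{w} (hdet : DetStatement K F k Fk) :
    ZaddStatement.{u₁, u₂, u₃, u₄, w} K F k Fk :=
  zadd_of H255.coordStatement
    (ztri_of_zgen (zgen_of H255.Geo.geoStatement hdet))
    (zneg_of_zgen (zgen_of H255.Geo.geoStatement hdet))

/-- CHART from DET. -/
theorem chartStatement_of_det.{w} [IsAlgClosed k] (hdet : DetStatement K F k Fk) :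
    ChartStatement.{u₁, u₂, u₃, u₄, w} K F k Fk :=
  chart_of H255.nspStatement (H75.discStatement K F k Fk) H555.discEquivStatement
    H255.coordStatement (zaddStatement_of_det hdet)

/-- **`LocalStatement` from DET.** -/
theorem localStatement_of_det [IsAlgClosed K] [IsAlgClosed k] [CharZero K]
    (hdet : DetStatement K F k Fk) : LocalStatement K F k Fk :=
  local_of_chart (chartStatement_of_det hdet) H555.kerInertiaStatement
    (H555.liftiStatement_of_disc (H75.discStatement K F k Fk) H555.discEquivStatement)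

end Fermat.Agent.A3.H799

end
-- ===== PACK-END A3/H799/LocalFinal.lean

-- ===== PACK-BEGIN A3/H255/Det.lean
section





/-!
# A3 / LOCAL, leaf DET (helper255): integral functions in `L((s+1)E)` with unit jet determinant

`detStatement : DetStatement K F k Fk` (frozen leaf of `A3/H799/LocalSpec2.lean`).

Proof.  `Ē = Σ Q_i` attains Riemann's bound (`ℓ(Ē) = 1 = deg Ē + 1 - g`), hence
`𝔸 = 𝔸(Ē) + Fk` and principal parts modulo `𝔸(Ē)` can be prescribed: for every
`c = (i₀, m)` there is `ψ_c ∈ L_k((s+1)Ē)` with `ψ_c ≡ t̄_{i₀}^{m-s-1}` at `Q_{i₀}` and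
`ψ_c ≡ 0` at the other `Q_i` (modulo functions of order `≥ -1`).  Lift `ψ_c` to an integral
`φ_c ∈ L((s+1)E)` (integral Riemann–Roch, `GoodRed.exists_lift`), interpolate
`t_i^{s+1} φ_c = P(t_i) + t_i^s H` in the disc algebra; the reduction of `P` is
`δ · X^m` modulo `X^s`, so the jet matrix reduces to the identity and has unit determinant.

All proofs complete.
-/

set_option autoImplicit false
set_option linter.style.haveILetI false
set_option linter.unusedSectionVars false

noncomputable section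

open AlgebraicCurve

namespace Fermat.Agent.A3.H255.Det

open Fermat.Agent.Lib.RR Fermat.Agent.A3.H799

/-! ### Prescribing principal parts -/

section Approx

variable {K F : Type*} [Field K] [Field F] [Algebra K F] [FF1 K F]

open Classical in
/-- Strong approximation from `𝔸 = 𝔸(D) + F`. -/
theorem exists_approx_of_sup {D : Divisor K F}
    (hsup : repartitionsOf D ⊔ principalRepartitions K F = ⊤) (S : Finset (Place K F))
    (φ : Place K F → F) :
    ∃ f : F, (∀ v ∈ S, H623.Big v (-D v) (f - φ v)) ∧ ∀ v ∉ S, H623.Big v (-D v) f := by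
  let α₀ : Place K F → F := fun v => if v ∈ S then φ v else 0
  have hα₀ : α₀ ∈ repartitions K F := by
    apply mem_repartitions_of_finite_ord
    refine (Finset.finite_toSet S).subset fun v hv => ?_
    by_contra hvS
    have hv' : v.ord (α₀ v) < 0 := hv
    have : α₀ v = 0 := if_neg hvS
    rw [this, v.ord_zero] at hv'
    exact lt_irrefl _ hv'
  let α : ↥(repartitions K F) := ⟨α₀, hα₀⟩
  have hmem : α ∈ repartitionsOf D ⊔ principalRepartitions K F := by
    rw [hsup]; trivial
  obtain ⟨β, hβ, γ, hγ, hsum⟩ := Submodule.mem_sup.mp hmem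
  obtain ⟨f, hf⟩ := mem_principalRepartitions_iff.mp hγ
  rw [mem_repartitionsOf_iff] at hβ
  have hval : ∀ v, (β : Place K F → F) v = α₀ v - f := by
    intro v
    have h1 := congrArg (fun x : ↥(repartitions K F) => (x : Place K F → F) v) hsum
    simp only [H439.coe_add_apply] at h1
    have h2 : (γ : Place K F → F) v = f := by rw [hf]
    rw [h2] at h1
    have h3 : (α : Place K F → F) v = α₀ v := rfl
    rw [h3] at h1
    rw [← h1]; ring
  refine ⟨f, fun v hv => ?_, fun v hv => ?_⟩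
  · have h := hβ v
    rw [hval v] at h
    have hα : α₀ v = φ v := if_pos hv
    rw [hα] at h
    have h' : H623.Big v (-D v) (φ v - f) := h
    have := h'.neg
    rwa [neg_sub] at this
  · have h := hβ v
    rw [hval v] at h
    have hα : α₀ v = 0 := if_neg hv
    rw [hα, zero_sub] at h
    have h' : H623.Big v (-D v) (-f) := h
    have := h'.neg
    rwa [neg_neg] at this

/-- Principal parts modulo `𝔸(Ē)` at `g` distinct points with `ℓ(Σ Q_i) = 1`. -/
theorem exists_jet {ι : Type*} [Fintype ι] (Qs : ι → Place K F) (hQs : Function.Injective Qs)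
    (hcard : Fintype.card ι = genusFF K F)
    (hell : ell (∑ i, Finsupp.single (Qs i) (1 : ℤ)) = 1) (τ : ι → F) :
    ∃ f : F, (∀ i, H623.Big (Qs i) (-1) (f - τ i)) ∧
      ∀ v : Place K F, (∀ i, Qs i ≠ v) → H623.Big v 0 f := by
  classical
  have hatt : (ell (∑ i, Finsupp.single (Qs i) (1 : ℤ)) : ℤ) =
      Divisor.degree (∑ i, Finsupp.single (Qs i) (1 : ℤ)) + 1 - (genusFF K F : ℤ) := by
    rw [hell, Fermat.Agent.A3.H255.degree_sum_single, hcard]
    simp
  have hsup := H439.sup_eq_top_of_attains (genusFF K F : ℤ)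
    (fun D' => riemann_inequality_genusFF D') _ hatt
  let φ : Place K F → F := fun v => if h : ∃ i, Qs i = v then τ h.choose else 0
  have hφ : ∀ i, φ (Qs i) = τ i := by
    intro i
    have hex : ∃ j, Qs j = Qs i := ⟨i, rfl⟩
    have : φ (Qs i) = τ hex.choose := dif_pos hex
    rw [this, hQs hex.choose_spec]
  obtain ⟨f, h1, h2⟩ := exists_approx_of_sup hsup (Finset.univ.image Qs) φ
  refine ⟨f, fun i => ?_, fun v hv => ?_⟩
  · have := h1 (Qs i) (Finset.mem_image_of_mem Qs (Finset.mem_univ i))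
    rwa [hφ i, Fermat.Agent.A3.H255.sum_single_apply_of_injective hQs i] at this
  · have hvS : v ∉ Finset.univ.image Qs := by
      intro hmem
      obtain ⟨i, -, hi⟩ := Finset.mem_image.mp hmem
      exact hv i hi
    have := h2 v hvS
    rwa [Fermat.Agent.A3.H255.sum_single_apply_of_forall_ne hv, neg_zero] at this

end Approx

variable {K F k Fk : Type*} [Field K] [Field F] [Algebra K F] [Field k] [Field Fk] [Algebra k Fk]

/-! ### Disc algebra lemmas -/

section Disc

variable {𝓡 : GoodRed K F k Fk} {Q : Place k Fk} (d : DiscData 𝓡 Q)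

theorem nodal_replicate_zero (s : ℕ) :
    DiscAlg.nodal (List.replicate s (0 : IsLocalRing.maximalIdeal 𝓡.V)) =
      (Polynomial.X : Polynomial 𝓡.V) ^ s := by
  induction s with
  | zero => simp
  | succ n ih =>
    rw [List.replicate_succ, DiscAlg.nodal_cons, ih, pow_succ]
    simp
    ring

/-- Interpolation at the centre: `f = P(t) + t^s H`. -/
theorem exists_interp_center (s : ℕ) (f : d.ring) :
    ∃ (P : Polynomial 𝓡.V) (H : d.ring), f = Polynomial.aeval d.D.t P + d.D.t ^ s * H := by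
  obtain ⟨P, H, h⟩ := d.D.exists_interp (List.replicate s 0) f
  refine ⟨P, H, ?_⟩
  rw [h, _root_.Fermat.Agent.A3.H255.Det.nodal_replicate_zero]
  simp

theorem redHom_comp_algebraMap :
    d.redHom.comp (algebraMap 𝓡.V d.ring) = (algebraMap k Fk).comp 𝓡.res := by
  ext a
  exact d.redHom_algebraMap a

theorem redHom_aeval (P : Polynomial 𝓡.V) :
    d.redHom (Polynomial.aeval d.D.t P) =
      Polynomial.aeval (d.redHom d.D.t) (P.map 𝓡.res) := by
  rw [Polynomial.aeval_def, Polynomial.hom_eval₂, redHom_comp_algebraMap, Polynomial.aeval_def,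
    Polynomial.eval₂_map]

/-- The reduction of a function of the disc ring is regular at `Q`. -/
theorem big_redHom (h : d.ring) : H623.Big Q 0 (d.redHom h) := by
  haveI := 𝓡.ff1k
  have h1 := d.red_ev 0 h
  have hc : H623.Big Q 0 (algebraMap k Fk (𝓡.res (d.D.ev 0 h))) := by
    rcases eq_or_ne (algebraMap k Fk (𝓡.res (d.D.ev 0 h))) 0 with h0 | h0
    · exact Or.inl h0
    · right
      have hne : 𝓡.res (d.D.ev 0 h) ≠ 0 := fun hz => h0 (by rw [hz, map_zero])
      rw [ord_algebraMap]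
  have hd : H623.Big Q 0 (d.redHom h - algebraMap k Fk (𝓡.res (d.D.ev 0 h))) := by
    rcases h1 with h1 | h1
    · left
      rw [DiscData.redHom_apply, h1, sub_self]
    · right
      rw [DiscData.redHom_apply]
      omega
  have := hd.add hc
  rwa [sub_add_cancel] at this

/-- A polynomial in a uniformiser vanishing to order `≥ s` has no coefficients below `s`. -/
theorem coeff_eq_zero_of_big {K' F' : Type*} [Field K'] [Field F'] [Algebra K' F'] [FF1 K' F']
    (v : Place K' F') {x : F'} (hx : v.ord x = 1) (q : Polynomial K') (s : ℕ)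
    (h : H623.Big v s (Polynomial.aeval x q)) (n : ℕ) (hn : n < s) : q.coeff n = 0 := by
  rcases eq_or_ne q 0 with rfl | hq
  · simp
  obtain ⟨h1, h2⟩ := aeval_ord v (by rw [hx]; exact zero_lt_one) hq
  have h3 := h.le_ord h1
  rw [h2, hx, mul_one] at h3
  have h4 : s ≤ q.rootMultiplicity 0 := by exact_mod_cast h3
  have h5 : (Polynomial.X - Polynomial.C (0 : K')) ^ s ∣ q :=
    (Polynomial.le_rootMultiplicity_iff hq).mp h4
  rw [Polynomial.C_0, sub_zero] at h5
  exact Polynomial.X_pow_dvd_iff.mp h5 n hn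

/-- `res x = 1` implies `x` is a unit of `V`. -/
theorem isUnit_of_res_eq_one (x : 𝓡.V) (hx : 𝓡.res x = 1) : IsUnit x := by
  rw [← IsLocalRing.notMem_maximalIdeal]
  intro hmem
  have h1 : ((x : 𝓡.V) : K) ∈ 𝓡.V.nonunits :=
    ValuationSubring.coe_mem_nonunits_iff.mpr hmem
  rw [← 𝓡.res_eq_zero, hx] at h1
  exact one_ne_zero h1

end Disc

/-- **DET**: the frozen leaf `DetStatement` of `A3/H799/LocalSpec2.lean`. -/
theorem detStatement : DetStatement K F k Fk := by
  classical
  intro 𝓡 Qs hQs hell d s hs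
  haveI := 𝓡.ff1
  haveI := 𝓡.ff1k
  -- uniformisers on the special fibre
  have htb : ∀ i, (Qs i).ord ((d i).redHom (d i).D.t) = 1 := fun i => (d i).ord_redHom_t
  have htb0 : ∀ i, (d i).redHom (d i).D.t ≠ 0 := fun i => (d i).redHom_t_ne_zero
  -- targets
  let τ : (Σ _ : Fin (genusFF k Fk), Fin s) → Fin (genusFF k Fk) → Fk := fun c i =>
    if i = c.1 then (d i).redHom (d i).D.t ^ (((c.2 : ℕ) : ℤ) - ((s : ℤ) + 1)) else 0
  have hτbig : ∀ c i, H623.Big (Qs i) (-((s : ℤ) + 1)) (τ c i) := by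
    intro c i
    by_cases hi : i = c.1
    · right
      simp only [τ, if_pos hi]
      rw [Place.ord_zpow, htb i, mul_one]
      have : (0 : ℤ) ≤ ((c.2 : ℕ) : ℤ) := Int.natCast_nonneg _
      omega
    · left
      simp only [τ, if_neg hi]
  -- step 1: functions on the special fibre
  have h1 : ∀ c, ∃ ψ : Fk, (∀ i, H623.Big (Qs i) (-1) (ψ - τ c i)) ∧
      ∀ v : Place k Fk, (∀ i, Qs i ≠ v) → H623.Big v 0 ψ :=
    fun c => exists_jet Qs hQs (by simp) hell (τ c)
  choose ψ hψ1 hψ2 using h1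
  have hrE : Finsupp.mapDomain 𝓡.r (((s : ℤ) + 1) • polyDiv d 0) =
      ((s : ℤ) + 1) • ∑ i, Finsupp.single (Qs i) (1 : ℤ) := by
    rw [Finsupp.mapDomain_smul, Fermat.Agent.A3.H255.mapDomain_polyDiv]
  have hψL : ∀ c, ψ c ∈ riemannRochSpace (Finsupp.mapDomain 𝓡.r (((s : ℤ) + 1) • polyDiv d 0)) := by
    intro c
    rw [hrE, mem_L_iff]
    intro v
    by_cases hv : ∃ i, Qs i = v
    · obtain ⟨i, rfl⟩ := hv
      have hb : H623.Big (Qs i) (-((s : ℤ) + 1)) (ψ c) := by
        have h := ((hψ1 c i).mono (s := -((s : ℤ) + 1)) (by omega)).add (hτbig c i)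
        rwa [sub_add_cancel] at h
      rw [Finsupp.smul_apply, Fermat.Agent.A3.H255.sum_single_apply_of_injective hQs i,
        smul_eq_mul, mul_one]
      exact hb
    · push Not at hv
      have hb := hψ2 c v hv
      rw [Finsupp.smul_apply, Fermat.Agent.A3.H255.sum_single_apply_of_forall_ne hv, smul_zero,
        neg_zero]
      exact hb
  -- step 2: integral lifts
  have hdeg : 2 * (genusFF k Fk : ℤ) - 2 < Divisor.degree (((s : ℤ) + 1) • polyDiv d 0) := by
    rw [map_zsmul, Fermat.Agent.A3.H255.degree_polyDiv, smul_eq_mul, Fintype.card_fin]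
    have h1 : (1 : ℤ) ≤ (s : ℤ) := by exact_mod_cast hs
    have h2 : (0 : ℤ) ≤ (genusFF k Fk : ℤ) := Int.natCast_nonneg _
    nlinarith
  have h2 : ∀ c, ∃ (f : F) (hf : f ∈ 𝓡.O),
      f ∈ riemannRochSpace (((s : ℤ) + 1) • polyDiv d 0) ∧ 𝓡.red ⟨f, hf⟩ = ψ c :=
    fun c => 𝓡.exists_lift _ hdeg (hψL c)
  choose φF hφO hφL hφred using h2
  -- step 3: `t_i^{s+1} φ_c` lies in the disc ring
  have hmem : ∀ c i, (((d i).D.t : (d i).ring) : F) ^ (s + 1) * φF c ∈ (d i).ring := by
    intro c i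
    refine (d i).mem_ring _ (mul_mem (pow_mem ((d i).ring_le _ (d i).D.t.2) _) (hφO c)) ?_
    intro P hP
    obtain ⟨a, rfl⟩ := (d i).pt_surj P hP
    rcases eq_or_ne (φF c) 0 with h0 | h0
    · rw [h0, mul_zero]
      exact zero_mem _
    · apply mem_of_ord_nonneg
      have ht0 : (((d i).D.t : (d i).ring) : F) ≠ 0 := by
        have := (d i).tSub_ne_zero 0
        rw [DiscData.coe_tSub] at this
        simpa [DiscData.tF] using this
      rw [((d i).pt a).ord_mul (pow_ne_zero _ ht0) h0, ord_pow, Geo.ord_pt_t (d i) a]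
      have h3 := (mem_L_iff.mp (hφL c) ((d i).pt a)).resolve_left h0
      rw [Finsupp.smul_apply, polyDiv_apply_pt d hQs 0 i a, smul_eq_mul] at h3
      have hz : ((0 : Fin (genusFF k Fk) → IsLocalRing.maximalIdeal 𝓡.V) i = a) ↔
          ((0 : IsLocalRing.maximalIdeal 𝓡.V) = a) := Iff.rfl
      simp only [hz] at h3
      push_cast
      linarith
  -- step 4: interpolation
  have h4 : ∀ c i, ∃ (P : Polynomial 𝓡.V) (H : (d i).ring),
      (⟨_, hmem c i⟩ : (d i).ring) = Polynomial.aeval (d i).D.t P + (d i).D.t ^ s * H :=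
    fun c i => exists_interp_center (d i) s _
  choose P H hPH using h4
  refine ⟨fun c => ⟨φF c, hφO c⟩, fun c i => ⟨_, hmem c i⟩, P, H, hφL, fun c i => rfl, hPH, ?_⟩
  intro inst
  -- step 5: the reduction of the coefficients
  have hcoeff : ∀ (c : Σ _ : Fin (genusFF k Fk), Fin s) (i : Fin (genusFF k Fk)) (n : ℕ),
      n < s → 𝓡.res ((P c i).coeff n) = if i = c.1 ∧ n = (c.2 : ℕ) then 1 else 0 := by
    intro c i n hn
    set tb := (d i).redHom (d i).D.t with htbdef
    -- reduction of the interpolation identity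
    have e1 : (d i).redHom (⟨_, hmem c i⟩ : (d i).ring) = tb ^ (s + 1) * ψ c := by
      have e : (⟨(((d i).D.t : (d i).ring) : F) ^ (s + 1) * φF c,
          (d i).ring_le _ (hmem c i)⟩ : 𝓡.O) =
          (⟨(((d i).D.t : (d i).ring) : F), (d i).ring_le _ (d i).D.t.2⟩ : 𝓡.O) ^ (s + 1) *
            ⟨φF c, hφO c⟩ := by
        apply Subtype.ext
        rfl
      rw [DiscData.redHom_apply]
      show 𝓡.red ⟨(((d i).D.t : (d i).ring) : F) ^ (s + 1) * φF c, _⟩ = _
      rw [e, map_mul, map_pow, hφred c]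
      rfl
    have e2 : (d i).redHom (⟨_, hmem c i⟩ : (d i).ring) =
        Polynomial.aeval tb ((P c i).map 𝓡.res) + tb ^ s * (d i).redHom (H c i) := by
      rw [hPH c i, map_add, map_mul, map_pow, redHom_aeval]
    let mono : Polynomial k := if i = c.1 then Polynomial.X ^ (c.2 : ℕ) else 0
    have e3 : tb ^ (s + 1) * τ c i = Polynomial.aeval tb mono := by
      by_cases hi : i = c.1
      · simp only [τ, mono, if_pos hi, map_pow, Polynomial.aeval_X]
        rw [← zpow_natCast tb (s + 1), ← zpow_add₀ (htb0 i), ← zpow_natCast tb (c.2 : ℕ)]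
        congr 1
        push_cast
        ring
      · simp only [τ, mono, if_neg hi, mul_zero, map_zero]
    have hbig : H623.Big (Qs i) (s : ℤ)
        (Polynomial.aeval tb ((P c i).map 𝓡.res - mono)) := by
      have e4 : Polynomial.aeval tb ((P c i).map 𝓡.res - mono) =
          tb ^ (s + 1) * (ψ c - τ c i) - tb ^ s * (d i).redHom (H c i) := by
        rw [map_sub, ← e3]
        have := e1.symm.trans e2
        linear_combination -this
      rw [e4]
      have b1 : H623.Big (Qs i) ((s : ℤ) + 1) (tb ^ (s + 1)) := by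
        right
        rw [ord_pow, htb i]
        push_cast
        omega
      have b2 : H623.Big (Qs i) (s : ℤ) (tb ^ s) := by
        right
        rw [ord_pow, htb i]
        omega
      have b3 := b1.mul (hψ1 c i)
      have b4 := b2.mul (big_redHom (d i) (H c i))
      have b3' : H623.Big (Qs i) (s : ℤ) (tb ^ (s + 1) * (ψ c - τ c i)) := b3.mono (by omega)
      have b4' : H623.Big (Qs i) (s : ℤ) (tb ^ s * (d i).redHom (H c i)) := b4.mono (by omega)
      exact b3'.sub b4'
    have h0 := coeff_eq_zero_of_big (Qs i) (htb i) _ s hbig n hn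
    rw [Polynomial.coeff_sub, Polynomial.coeff_map, sub_eq_zero] at h0
    rw [h0]
    by_cases hi : i = c.1
    · simp only [mono, if_pos hi, Polynomial.coeff_X_pow, hi, true_and]
    · simp only [mono, if_neg hi, Polynomial.coeff_zero, hi, false_and, if_false]
  -- step 6: the determinant
  apply isUnit_of_res_eq_one
  rw [RingHom.map_det]
  have hone : 𝓡.res.mapMatrix (Matrix.of fun (c j : Σ _ : Fin (genusFF k Fk), Fin s) =>
      (P j c.1).coeff (c.2 : ℕ)) = 1 := by
    ext c j
    rw [RingHom.mapMatrix_apply, Matrix.map_apply, Matrix.of_apply, hcoeff j c.1 c.2 c.2.2,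
      Matrix.one_apply]
    rcases c with ⟨c1, c2⟩
    rcases j with ⟨j1, j2⟩
    by_cases h : (⟨c1, c2⟩ : Σ _ : Fin (genusFF k Fk), Fin s) = ⟨j1, j2⟩
    · rw [if_pos h]
      have h' := Sigma.mk.inj_iff.mp h
      rw [if_pos ⟨h'.1, by rw [eq_of_heq h'.2]⟩]
    · rw [if_neg h, if_neg]
      rintro ⟨h1, h2⟩
      apply h
      have h1' : c1 = j1 := h1
      have h2' : c2 = j2 := Fin.ext h2
      rw [h1', h2']
  rw [hone, Matrix.det_one]

end Fermat.Agent.A3.H255.Det

end
end
-- ===== PACK-END A3/H255/Det.lean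

-- ===== PACK-BEGIN S29/H801/M1NC.lean
section
/-
S29 / M1 (helper801), part 5: the norm compatibility `nc` of the mixed square

      F_N   --α_{ℓ'}-->  F_{Nℓ'}
       |β_ℓ               |β_ℓ
       v                  v
      F_{Nℓ} --α_{ℓ'}--> F_{Nℓℓ'}

from `F_{Nℓℓ'} = F_{Nℓ} ⊔ V_ℓ(F_{Nℓ'})` and `[F_{Nℓ'} : F_N] ≤ [F_{Nℓℓ'} : F_{Nℓ}]`
(general coefficient field `L`); over `ℚ̄` both inputs are in the shared library X0DEG (helper760).
-/






set_option autoImplicit false
set_option linter.style.haveILetI false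

noncomputable section

namespace Fermat.Agent.S29.H801

open AlgebraicCurve ModularCurve Fermat.Agent.S37.H818

section General

variable (L : Type*) [Field L] [Algebra ℚ L]

theorem algebraMap_along_apply (M k : ℕ) [NeZero M] [NeZero k] (a : _root_.Fermat.Agent.S29.H801.FB L M) :
    letI := algebraAlong (heckeAlphaBar L M k)
    algebraMap (_root_.Fermat.Agent.S29.H801.FB L M) (_root_.Fermat.Agent.S29.H801.FB L (M * k)) a = heckeAlphaBar L M k a := rfl

theorem algebraMap_level_apply (M : ℕ) [NeZero M] (a : _root_.Fermat.Agent.S29.H801.FB L M) :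
    algebraMap (laurentBaseChange L (modularFunctionFieldFull M)) (LaurentSeries L) a
      = (a : LaurentSeries L) := rfl

theorem smul_along_coe (M k : ℕ) [NeZero M] [NeZero k] (a : _root_.Fermat.Agent.S29.H801.FB L M) (x : _root_.Fermat.Agent.S29.H801.FB L (M * k)) :
    letI := algebraAlong (heckeAlphaBar L M k)
    ((a • x : _root_.Fermat.Agent.S29.H801.FB L (M * k)) : LaurentSeries L) = (a : LaurentSeries L) * (x : LaurentSeries L) := by
  letI := algebraAlong (heckeAlphaBar L M k)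
  rw [Algebra.smul_def, algebraMap_along_apply, MulMemClass.coe_mul, coe_heckeAlphaBar]

theorem smul_level_eq (M : ℕ) [NeZero M] (a : _root_.Fermat.Agent.S29.H801.FB L M) (x : LaurentSeries L) :
    a • x = (a : LaurentSeries L) * x := by
  rw [Algebra.smul_def, algebraMap_level_apply]

/-- Elements of `F_{Mk}` are algebraic over `F_M`. -/
theorem isAlgebraic_level (M k : ℕ) [NeZero M] [NeZero k]
    (hfin : FiniteAlong L (heckeAlphaBar L M k)) (x : LaurentSeries L)
    (hx : x ∈ laurentBaseChange L (modularFunctionFieldFull (M * k))) :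
    IsAlgebraic (laurentBaseChange L (modularFunctionFieldFull M)) x := by
  letI := algebraAlong (heckeAlphaBar L M k)
  haveI : Module.Finite (_root_.Fermat.Agent.S29.H801.FB L M) (_root_.Fermat.Agent.S29.H801.FB L (M * k)) := hfin
  have hint : IsIntegral (_root_.Fermat.Agent.S29.H801.FB L M) (⟨x, hx⟩ : _root_.Fermat.Agent.S29.H801.FB L (M * k)) := IsIntegral.of_finite _ _
  obtain ⟨p, hp, hpx⟩ := hint
  refine ⟨p, hp.ne_zero, ?_⟩
  have h := Polynomial.hom_eval₂ p (algebraMap (_root_.Fermat.Agent.S29.H801.FB L M) (_root_.Fermat.Agent.S29.H801.FB L (M * k)))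
    ((laurentBaseChange L (modularFunctionFieldFull (M * k))).val :
      _root_.Fermat.Agent.S29.H801.FB L (M * k) →+* LaurentSeries L) ⟨x, hx⟩
  rw [hpx, map_zero] at h
  have hcomp : ((laurentBaseChange L (modularFunctionFieldFull (M * k))).val :
      _root_.Fermat.Agent.S29.H801.FB L (M * k) →+* LaurentSeries L).comp (algebraMap (_root_.Fermat.Agent.S29.H801.FB L M) (_root_.Fermat.Agent.S29.H801.FB L (M * k)))
      = algebraMap (laurentBaseChange L (modularFunctionFieldFull M)) (LaurentSeries L) := by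
    refine RingHom.ext fun a => ?_
    rw [RingHom.comp_apply, algebraMap_along_apply, algebraMap_level_apply]
    exact coe_heckeAlphaBar M k a
  rw [hcomp] at h
  rw [Polynomial.aeval_def]
  exact h.symm

/-- The image of `β_ℓ : F_{Nℓ'} → F_{Nℓℓ'}` spans `F_{Nℓℓ'}` over `F_{Nℓ}`. -/
theorem span_range_betaTo (N ℓ ℓ' : ℕ) [NeZero N] [NeZero ℓ] [NeZero ℓ']
    (hfin : FiniteAlong L (heckeAlphaBar L (N * ℓ) ℓ'))
    (hsup : laurentBaseChange L (modularFunctionFieldFull (N * ℓ * ℓ'))
      = laurentBaseChange L (modularFunctionFieldFull (N * ℓ))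
        ⊔ (laurentBaseChange L (modularFunctionFieldFull (N * ℓ'))).map (qExpandAlgHomC L ℓ)) :
    letI := algebraAlong (heckeAlphaBar L (N * ℓ) ℓ')
    Submodule.span (_root_.Fermat.Agent.S29.H801.FB L (N * ℓ))
      (Set.range (betaTo L (N * ℓ') ℓ (N * ℓ * ℓ') (Nat.mul_right_comm N ℓ' ℓ))) = ⊤ := by
  letI := algebraAlong (heckeAlphaBar L (N * ℓ) ℓ')
  rw [eq_top_iff]
  rintro t -
  have ht : (t : LaurentSeries L) ∈ laurentBaseChange L (modularFunctionFieldFull (N * ℓ))
      ⊔ (laurentBaseChange L (modularFunctionFieldFull (N * ℓ'))).map (qExpandAlgHomC L ℓ) := by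
    rw [← hsup]
    exact t.2
  have halg : ∀ x ∈ (laurentBaseChange L (modularFunctionFieldFull (N * ℓ'))).map
      (qExpandAlgHomC L ℓ),
      IsAlgebraic (laurentBaseChange L (modularFunctionFieldFull (N * ℓ))) x := by
    intro x hx
    refine isAlgebraic_level L (N * ℓ) ℓ' hfin x ?_
    rw [hsup]
    exact (le_sup_right : (laurentBaseChange L (modularFunctionFieldFull (N * ℓ'))).map
      (qExpandAlgHomC L ℓ) ≤ _) hx
  have hs := mem_span_of_mem_sup _ _ halg ht
  -- transport the span statement from `L((q))` to `F_{Nℓℓ'}`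
  have key : ∀ x : LaurentSeries L,
      x ∈ Submodule.span (laurentBaseChange L (modularFunctionFieldFull (N * ℓ)))
        (((laurentBaseChange L (modularFunctionFieldFull (N * ℓ'))).map (qExpandAlgHomC L ℓ) :
          IntermediateField L (LaurentSeries L)) : Set (LaurentSeries L)) →
      ∃ y : _root_.Fermat.Agent.S29.H801.FB L (N * ℓ * ℓ'),
        y ∈ Submodule.span (_root_.Fermat.Agent.S29.H801.FB L (N * ℓ))
          (Set.range (betaTo L (N * ℓ') ℓ (N * ℓ * ℓ') (Nat.mul_right_comm N ℓ' ℓ))) ∧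
        (y : LaurentSeries L) = x := by
    intro x hx
    induction hx using Submodule.span_induction with
    | mem x hx =>
      obtain ⟨z, hz, rfl⟩ := hx
      refine ⟨betaTo L (N * ℓ') ℓ (N * ℓ * ℓ') (Nat.mul_right_comm N ℓ' ℓ) ⟨z, hz⟩,
        Submodule.subset_span ⟨_, rfl⟩, ?_⟩
      rw [coe_betaTo]
      rfl
    | zero => exact ⟨0, Submodule.zero_mem _, rfl⟩
    | add x y _ _ hx hy =>
      obtain ⟨x', hx', rfl⟩ := hx
      obtain ⟨y', hy', rfl⟩ := hy
      exact ⟨x' + y', Submodule.add_mem _ hx' hy', rfl⟩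
    | smul a x _ hx =>
      obtain ⟨x', hx', rfl⟩ := hx
      refine ⟨a • x', Submodule.smul_mem _ a hx', ?_⟩
      rw [smul_along_coe, smul_level_eq]
  obtain ⟨y, hy, hyt⟩ := key _ hs
  have : y = t := Subtype.ext hyt
  rw [← this]
  exact hy

/-- The norm compatibility `nc` from the cartesian square and the degrees. -/
theorem normCompat_of_square (N ℓ ℓ' : ℕ) [NeZero N] [NeZero ℓ] [NeZero ℓ']
    (hfin : FiniteAlong L (heckeAlphaBar L N ℓ'))
    (hfin' : FiniteAlong L (heckeAlphaBar L (N * ℓ) ℓ'))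
    (hrk : finrankAlong L (heckeAlphaBar L N ℓ') ≤ finrankAlong L (heckeAlphaBar L (N * ℓ) ℓ'))
    (hsup : laurentBaseChange L (modularFunctionFieldFull (N * ℓ * ℓ'))
      = laurentBaseChange L (modularFunctionFieldFull (N * ℓ))
        ⊔ (laurentBaseChange L (modularFunctionFieldFull (N * ℓ'))).map (qExpandAlgHomC L ℓ)) :
    NormCompat (heckeAlphaBar L N ℓ') (heckeBetaBar L N ℓ) (heckeAlphaBar L (N * ℓ) ℓ')
      (betaTo L (N * ℓ') ℓ (N * ℓ * ℓ') (Nat.mul_right_comm N ℓ' ℓ)) :=
  normCompat_of_span _ _ _ _ (rel_sq₁ N ℓ ℓ') hfin hfin' hrk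
    (span_range_betaTo L N ℓ ℓ' hfin' hsup)

end General

/-- **The norm compatibility `nc` over `ℚ̄`.** -/
theorem normCompat_bar (N ℓ ℓ' : ℕ) [NeZero N] [NeZero ℓ] [NeZero ℓ'] (hℓ : ℓ.Prime)
    (hℓ' : ℓ'.Prime) (hne : ℓ ≠ ℓ') :
    NormCompat (heckeAlphaBar (AlgebraicClosure ℚ) N ℓ') (heckeBetaBar (AlgebraicClosure ℚ) N ℓ)
      (heckeAlphaBar (AlgebraicClosure ℚ) (N * ℓ) ℓ')
      (betaTo (AlgebraicClosure ℚ) (N * ℓ') ℓ (N * ℓ * ℓ') (Nat.mul_right_comm N ℓ' ℓ)) :=
  normCompat_of_square (AlgebraicClosure ℚ) N ℓ ℓ'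
    (Fermat.Agent.Lib.X0Deg.finiteAlong_heckeAlphaBar N ℓ')
    (Fermat.Agent.Lib.X0Deg.finiteAlong_heckeAlphaBar (N * ℓ) ℓ')
    (le_of_eq (Fermat.Agent.Lib.X0Deg.finrankAlong_heckeAlphaBar_square N ℓ ℓ' hℓ hℓ' hne).symm)
    (Fermat.Agent.Lib.X0Deg.modularFunctionFieldBar_square N ℓ ℓ')

end Fermat.Agent.S29.H801

end

end
-- ===== PACK-END S29/H801/M1NC.lean

-- ===== PACK-BEGIN Ribet/H801/DegAlpha.lean
section
/-
RIBET / W-DEG (helper801), part 2: the degeneracy push-forwards

    alphaPush M p, betaPush M p : J₀(M p)(ℚ̄) →+ J₀(M)(ℚ̄)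

(`α_*`, `β_*` along the Prelude maps `heckeAlphaBar`, `heckeBetaBar : F_M → F_{Mp}`), their
Galois-equivariance, and the Hecke-equivariance of `α_*`:

    α_* ∘ T_ℓ^{(Mp)} = T_ℓ^{(M)} ∘ α_*     for all primes `ℓ ≠ p`.
-/







set_option autoImplicit false
set_option linter.style.haveILetI false

noncomputable section

namespace Fermat.Agent.Ribet.H801

open AlgebraicCurve ModularCurve Fermat.Agent.S37.H818 Fermat.Agent.S29.H801
open Fermat.Agent.Lib.HI

section Defs

variable (M p : ℕ) [NeZero M] [NeZero p]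

/-- `α_* : J₀(Mp) → J₀(M)`, push-forward along the inclusion `F_M ⊆ F_{Mp}`. -/
def alphaPush : JZero (M * p) →+ JZero M :=
  pushPic0 (heckeAlphaBar (AlgebraicClosure ℚ) M p) (H864.heckeAlphaBarIntegral M p)
    (H864.finiteAlong_alpha M p) (H864.normFormulaAlong_alpha M p _)

/-- `β_* : J₀(Mp) → J₀(M)`, push-forward along `V_p : F_M → F_{Mp}`, `f(q) ↦ f(q^p)`. -/
def betaPush : JZero (M * p) →+ JZero M :=
  pushPic0 (heckeBetaBar (AlgebraicClosure ℚ) M p) (H864.heckeBetaBarIntegral M p)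
    (H864.finiteAlong_beta M p) (H864.normFormulaAlong_beta M p _)

theorem alphaPush_mk (D : Divisor.degZero (K := AlgebraicClosure ℚ)
    (F := laurentBaseChange (AlgebraicClosure ℚ) (modularFunctionFieldFull (M * p)))) :
    alphaPush M p (Pic0.mk D) =
      Pic0.mk (pushDegZero (heckeAlphaBar (AlgebraicClosure ℚ) M p)
        (H864.heckeAlphaBarIntegral M p) D) :=
  rfl

theorem betaPush_mk (D : Divisor.degZero (K := AlgebraicClosure ℚ)
    (F := laurentBaseChange (AlgebraicClosure ℚ) (modularFunctionFieldFull (M * p)))) :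
    betaPush M p (Pic0.mk D) =
      Pic0.mk (pushDegZero (heckeBetaBar (AlgebraicClosure ℚ) M p)
        (H864.heckeBetaBarIntegral M p) D) :=
  rfl

/-- `α_*` is Galois-equivariant. -/
theorem alphaPush_smul (σ : AlgebraicClosure ℚ ≃ₐ[ℚ] AlgebraicClosure ℚ) (x : JZero (M * p)) :
    alphaPush M p (σ • x) = σ • alphaPush M p x := by
  rw [galois_smul_pic0_def, galois_smul_pic0_def]
  exact pushPic0_smul _ _ _ _ (Fermat.Agent.S29.H571.intertwines_heckeAlphaBar M p σ) x

/-- `β_*` is Galois-equivariant. -/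
theorem betaPush_smul (σ : AlgebraicClosure ℚ ≃ₐ[ℚ] AlgebraicClosure ℚ) (x : JZero (M * p)) :
    betaPush M p (σ • x) = σ • betaPush M p x := by
  rw [galois_smul_pic0_def, galois_smul_pic0_def]
  exact pushPic0_smul _ _ _ _ (Fermat.Agent.S29.H571.intertwines_heckeBetaBar M p σ) x

end Defs

section Hecke

variable (M p ℓ : ℕ) [NeZero M] [NeZero p] [NeZero ℓ]

/-- `normCompat_bar` with the top level renamed. -/
theorem normCompat_bar_to (M' : ℕ) [NeZero M'] (hℓ : ℓ.Prime) (hp : p.Prime) (hne : ℓ ≠ p)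
    (h₁ : M * ℓ * p = M') (h₂ : M * p * ℓ = M') :
    NormCompat (heckeAlphaBar (AlgebraicClosure ℚ) M p) (heckeBetaBar (AlgebraicClosure ℚ) M ℓ)
      (alphaTo (AlgebraicClosure ℚ) (M * ℓ) p M' h₁)
      (betaTo (AlgebraicClosure ℚ) (M * p) ℓ M' h₂) := by
  subst h₁
  exact normCompat_bar M ℓ p hℓ hp hne

/-- **`α_*` is Hecke-equivariant** (operator form, any prime `ℓ ≠ p`). -/
theorem alphaPush_heckeOperatorAlong (hℓ : ℓ.Prime) (hp : p.Prime) (hne : ℓ ≠ p)
    (x : JZero (M * p)) :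
    alphaPush M p (heckeOperatorAlong (AlgebraicClosure ℚ) (M * p) ℓ x) =
      heckeOperatorAlong (AlgebraicClosure ℚ) M ℓ (alphaPush M p x) := by
  haveI hP₁ : HasPrincipalDivisors (AlgebraicClosure ℚ)
      (laurentBaseChange (AlgebraicClosure ℚ) (modularFunctionFieldFull (M * p))) :=
    H864.hasPrincipalDivisors_FF (M * p)
  haveI hP₂ : HasPrincipalDivisors (AlgebraicClosure ℚ)
      (laurentBaseChange (AlgebraicClosure ℚ) (modularFunctionFieldFull (M * ℓ))) :=
    H864.hasPrincipalDivisors_FF (M * ℓ)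
  haveI hP₃ : HasPrincipalDivisors (AlgebraicClosure ℚ)
      (laurentBaseChange (AlgebraicClosure ℚ) (modularFunctionFieldFull (M * p * ℓ))) :=
    H864.hasPrincipalDivisors_FF (M * p * ℓ)
  have hc : M * ℓ * p = M * p * ℓ := Nat.mul_right_comm M ℓ p
  rw [heckeOperatorAlong_eq (H864.heckeAlphaBarIntegral (M * p) ℓ)
      (H864.heckeBetaBarIntegral (M * p) ℓ) (H864.fundamentalIdentityAlong_beta (M * p) ℓ _)
      (H864.finiteAlong_alpha (M * p) ℓ) (H864.normFormulaAlong_alpha (M * p) ℓ _),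
    heckeOperatorAlong_eq (H864.heckeAlphaBarIntegral M ℓ)
      (H864.heckeBetaBarIntegral M ℓ) (H864.fundamentalIdentityAlong_beta M ℓ _)
      (H864.finiteAlong_alpha M ℓ) (H864.normFormulaAlong_alpha M ℓ _)]
  exact pushPic0_correspondence
    (heckeAlphaBar (AlgebraicClosure ℚ) M p)
    (heckeBetaBar (AlgebraicClosure ℚ) M ℓ) (heckeAlphaBar (AlgebraicClosure ℚ) M ℓ)
    (heckeBetaBar (AlgebraicClosure ℚ) (M * p) ℓ) (heckeAlphaBar (AlgebraicClosure ℚ) (M * p) ℓ)
    (alphaTo (AlgebraicClosure ℚ) (M * ℓ) p (M * p * ℓ) hc)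
    (H864.heckeAlphaBarIntegral M p) (H864.heckeBetaBarIntegral M ℓ)
    (H864.heckeAlphaBarIntegral M ℓ) (H864.heckeBetaBarIntegral (M * p) ℓ)
    (H864.heckeAlphaBarIntegral (M * p) ℓ)
    (alphaTo_integral (AlgebraicClosure ℚ) hc (H864.heckeAlphaBarIntegral (M * ℓ) p))
    (rel_sq₂ M p ℓ) (rel_AA M p ℓ)
    (H864.fundamentalIdentityAlong_beta M ℓ _) (H864.fundamentalIdentityAlong_beta (M * p) ℓ _)
    (H864.finiteAlong_alpha M ℓ) (H864.normFormulaAlong_alpha M ℓ _)
    (H864.finiteAlong_alpha (M * p) ℓ) (H864.normFormulaAlong_alpha (M * p) ℓ _)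
    (H864.finiteAlong_alpha M p) (H864.normFormulaAlong_alpha M p _)
    (alphaTo_finite (AlgebraicClosure ℚ) hc (H864.finiteAlong_alpha (M * ℓ) p))
    (alphaTo_normFormula (AlgebraicClosure ℚ) hc (H864.finiteAlong_alpha (M * ℓ) p)
      (H864.normFormulaAlong_alpha (M * ℓ) p _))
    (normCompat_bar_to M p ℓ (M * p * ℓ) hℓ hp hne hc rfl)
    (hasLocalGenerators_of_hasPrincipalDivisors _ _) x

end Hecke

section Bar

variable (M p : ℕ) [NeZero M] [NeZero p]

/-- **`α_*` is Hecke-equivariant**: `α_* (T_ℓ x) = T_ℓ (α_* x)` for every prime `ℓ ≠ p`. -/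
theorem alphaPush_heckeOperatorBar (hp : p.Prime) (ℓ : Nat.Primes) (hne : (ℓ : ℕ) ≠ p)
    (x : JZero (M * p)) :
    alphaPush M p (heckeOperatorBar (M * p) ℓ x) = heckeOperatorBar M ℓ (alphaPush M p x) := by
  haveI : NeZero (ℓ : ℕ) := ⟨ℓ.2.ne_zero⟩
  rw [heckeOperatorBar_apply, heckeOperatorBar_apply]
  exact alphaPush_heckeOperatorAlong M p (ℓ : ℕ) ℓ.2 hp hne x

end Bar

end Fermat.Agent.Ribet.H801

end

end
-- ===== PACK-END Ribet/H801/DegAlpha.lean

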