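import Fermat.Prelude.Def_FLTPrelim_Ramification
import Mathlib
import Fermat.Prelude.Def_ModularCurve_HeckeOperatorTotal
import Fermat.Agent.Pack.S33.E13L0
import Fermat.Agent.Pack.S33.E19L1
import Fermat.Agent.Pack.S33.E19L3
import Fermat.Agent.Pack.S33.E7L2
import Fermat.Agent.Pack.S33.E13L1
import Fermat.Agent.Pack.S33.E4L0
import Fermat.Agent.Pack.S33.E15L3
import Fermat.Agent.Pack.S33.E1L0
import Fermat.Agent.Pack.S33.E17L0
import Fermat.Agent.Pack.S33.E19L0
import Fermat.Agent.Pack.S33.E5L3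
import Fermat.Agent.Pack.S33.E19L2
import Fermat.Agent.Pack.S33.E18L1
import Fermat.Agent.Pack.S33.E15L2
import Fermat.Agent.Pack.S33.E9L1
import Fermat.Agent.Pack.S33.E11L0
import Fermat.Agent.Pack.S33.E16L0
import Fermat.Agent.Pack.S33.E6L0
import Fermat.Agent.Pack.S33.E3L3
import Fermat.Agent.Pack.S33.E7L0

-- ===== PACK-BEGIN Lib/Cheb/Chebotarev.lean
section



/-!
# CHEB, Tier 2 END: exact qualitative Chebotarev over `ℚ`

* `Fermat.Agent.Lib.Cheb.chebFinite : Spec.ChebFiniteStatement` — for a Galois number field `L`,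
  every `σ ∈ Gal(L/ℚ)` is an arithmetic Frobenius at a prime `P` of `𝓞 L` with trivial inertia,
  above a prime number outside any given finite set.
* `Fermat.Agent.Lib.Cheb.chebotarev : Spec.ChebotarevStatement` — for every finite extension
  `E ⊆ ℚ̄`, every `σ ∈ Gal(ℚ̄/ℚ)` and every finite set `S` there are a prime `ℓ ∉ S`, a valuation
  subring `A` of `ℚ̄` over `ℓ` and a Frobenius `τ` at `A` (Prelude's `IsFrobeniusAt`) such that the
  inertia group of `A` acts trivially on `E` and `τ = σ` on `E`.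

Assembled (row-lead helper56) from the analytic core AN (`H44.dirichletLimit`, helper44 and the
NormL squad), CYC (`H221`, helper221), CROSS (`H223`, helper223), the bridge (`H476`, helper476)
and Tier 1.  Unconditional; no class field theory.
-/

set_option autoImplicit false

namespace Fermat.Agent.Lib.Cheb

/-- The cyclotomic case. -/
theorem cycStatement : Spec.CycStatement :=
  H221.cyc_of_dirichletLimit H44.dirichletLimit

/-- **Qualitative Chebotarev, finite level.** -/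
theorem chebFinite : Spec.ChebFiniteStatement :=
  H221.chebFinite_of_dirichletLimit H44.dirichletLimit

/-- **Qualitative Chebotarev over `ℚ̄`.** -/
theorem chebotarev : Spec.ChebotarevStatement :=
  H221.chebotarev_of_dirichletLimit H44.dirichletLimit

end Fermat.Agent.Lib.Cheb

end
-- ===== PACK-END Lib/Cheb/Chebotarev.lean

-- ===== PACK-BEGIN S30/H450/KumCompat.lean
section
/-
S30 (p-adic version), helper450: the Kummer relation of S29 sub-layer M4b (`M4b.IsKum`, frozen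
definitions of helper822, general modulus) is compatible with change of modulus.

* `isKum_red`  : REDUCTION.  `IsKum N (m * d) c x → IsKum N m (c mod m) (d • x)`
  (data `(f, t, U) ↦ (f, t ^ d, U ^ d)`).
* `isKum_infl` : INFLATION.  `IsKum N m c x → IsKum N (m * d) (d * c) x`
  (data `(f, t, U) ↦ (f ^ d, t, U)`).

Everything here is formal: no analysis beyond `ζ_{md} ^ d = ζ_m`.
-/


set_option autoImplicit false

noncomputable section

open ModularCurve AlgebraicCurve CongruenceSubgroup UpperHalfPlane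
open scoped MatrixGroups Manifold

namespace Fermat.Agent.S30.H450

open Fermat.Agent.S24 Fermat.Agent.S29 Fermat.Agent.S29.M4b

/-! ### Roots of unity -/

theorem zetaP_pow_self (m : ℕ) (hm : m ≠ 0) : zetaP m ^ m = 1 := by
  unfold zetaP
  rw [← Complex.exp_nat_mul]
  have hm' : (m : ℂ) ≠ 0 := by exact_mod_cast hm
  have : (m : ℂ) * (2 * Real.pi * Complex.I / m) = 2 * Real.pi * Complex.I := by
    field_simp
  rw [this, Complex.exp_two_pi_mul_I]

theorem zetaP_mul_pow (m d : ℕ) (hd : d ≠ 0) : zetaP (m * d) ^ d = zetaP m := by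
  unfold zetaP
  rw [← Complex.exp_nat_mul]
  congr 1
  have hd' : (d : ℂ) ≠ 0 := by exact_mod_cast hd
  by_cases hm : m = 0
  · subst hm
    simp
  have hm' : (m : ℂ) ≠ 0 := by exact_mod_cast hm
  push_cast
  field_simp

theorem zetaP_pow_mod (m : ℕ) (hm : m ≠ 0) (a : ℕ) : zetaP m ^ (a % m) = zetaP m ^ a := by
  conv_rhs => rw [← Nat.mod_add_div a m]
  rw [pow_add, pow_mul, zetaP_pow_self m hm, one_pow, mul_one]

/-! ### Reduction and inflation of characters -/

/-- Reduction of a character modulo a divisor of the modulus. -/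
def redChar {N m m' : ℕ} (h : m ∣ m') (c : G0 N → ZMod m') : G0 N → ZMod m :=
  fun γ => ZMod.castHom h (ZMod m) (c γ)

/-- Inflation of a character: `ZMod m → ZMod (m * d)`, `a ↦ d * a` (on representatives). -/
def inflChar {N : ℕ} (m d : ℕ) (c : G0 N → ZMod m) : G0 N → ZMod (m * d) :=
  fun γ => ((d * (c γ).val : ℕ) : ZMod (m * d))

theorem isParHom_redChar {N m m' : ℕ} (h : m ∣ m') {c : G0 N → ZMod m'} (hc : IsParHom c) :
    IsParHom (redChar h c) where
  map_mul γ γ' := by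
    simp only [redChar, hc.map_mul, map_add]
  parabolic γ hγ := by
    simp only [redChar, hc.parabolic γ hγ, map_zero]
  elliptic γ n hn hγ := by
    simp only [redChar, hc.elliptic γ n hn hγ, map_zero]

theorem redChar_add {N m m' : ℕ} (h : m ∣ m') (c c' : G0 N → ZMod m') :
    redChar h (c + c') = redChar h c + redChar h c' := by
  funext γ
  simp only [redChar, Pi.add_apply, map_add]

theorem val_redChar {N m m' : ℕ} [NeZero m'] (h : m ∣ m') (c : G0 N → ZMod m') (γ : G0 N) :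
    (redChar h c γ).val = (c γ).val % m := by
  unfold redChar
  have h1 : ZMod.castHom h (ZMod m) (c γ) = (((c γ).val : ℕ) : ZMod m) := by
    conv_lhs => rw [← ZMod.natCast_zmod_val (c γ)]
    rw [map_natCast]
  rw [h1, ZMod.val_natCast]

/-! ### Kummer classes under change of modulus (Prelude language) -/

section Alg

variable {K F : Type*} [Field K] [Field F] [Algebra K F]

theorem isKummerClass_red {m d : ℕ} {f : F} {x : Pic0 K F}
    (h : H455.IsKummerClass ((m * d : ℕ) : ℤ) f x) :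
    H455.IsKummerClass (m : ℤ) f (d • x) := by
  obtain ⟨hf, D, rfl, hD⟩ := h
  refine ⟨hf, d • D, rfl, fun v => ?_⟩
  rw [← hD v]
  simp only [AddSubmonoidClass.coe_nsmul, Finsupp.smul_apply, nsmul_eq_mul]
  push_cast
  ring

theorem isKummerClass_infl {m d : ℕ} {f : F} {x : Pic0 K F}
    (h : H455.IsKummerClass (m : ℤ) f x) :
    H455.IsKummerClass ((m * d : ℕ) : ℤ) (f ^ d) x := by
  obtain ⟨hf, D, rfl, hD⟩ := h
  refine ⟨pow_ne_zero d hf, D, rfl, fun v => ?_⟩
  rw [← zpow_natCast, Place.ord_zpow, ← hD v]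
  push_cast
  ring

end Alg

/-! ### The analytic part -/

section An

variable {N : ℕ}

theorem isTwisted_red {m d : ℕ} [NeZero m] [NeZero d] {c : G0 N → ZMod (m * d)} {U : ℍ → ℂ}
    (hU : IsTwisted N (m * d) c U) :
    IsTwisted N m (redChar (Dvd.intro d rfl) c) (fun τ => U τ ^ d) where
  mdiff := hU.mdiff.pow d
  ne_zero := by
    obtain ⟨τ, hτ⟩ := hU.ne_zero
    exact ⟨τ, pow_ne_zero d hτ⟩
  hasChar := by
    intro γ τ
    have : NeZero (m * d) := ⟨Nat.mul_ne_zero (NeZero.ne m) (NeZero.ne d)⟩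
    beta_reduce
    rw [hU.hasChar γ τ, mul_pow, ← pow_mul, mul_comm (c γ).val d, pow_mul,
      zetaP_mul_pow m d (NeZero.ne d), val_redChar, zetaP_pow_mod m (NeZero.ne m)]
  pow_mem := by
    have h := hU.pow_mem
    have e : (fun τ => (U τ ^ d) ^ m) = fun τ => U τ ^ (m * d) := by
      funext τ
      rw [← pow_mul, mul_comm]
    rw [e]
    exact h

variable [NeZero N]

theorem realises_red {m d : ℕ} {f t : FF N} {U : ℍ → ℂ}
    (h : Realises N (f * t ^ (m * d)) (fun τ => U τ ^ (m * d))) :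
    Realises N (f * (t ^ d) ^ m) (fun τ => (U τ ^ d) ^ m) := by
  have e : (fun τ => (U τ ^ d) ^ m) = fun τ => U τ ^ (m * d) := by
    funext τ
    rw [← pow_mul, mul_comm]
  have e' : f * (t ^ d) ^ m = f * t ^ (m * d) := by
    rw [← pow_mul, mul_comm d m]
  rw [e, e']
  exact h

/-- **REDUCTION.**  If `x` is the Kummer class of `c` for the modulus `m * d`, then `d • x` is the
Kummer class of `c mod m` for the modulus `m`. -/
theorem isKum_red {m d : ℕ} [NeZero m] [NeZero d] {c : G0 N → ZMod (m * d)} {x : JZero N}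
    (h : IsKum N (m * d) c x) :
    IsKum N m (redChar (Dvd.intro d rfl) c) (d • x) := by
  obtain ⟨f, t, U, ht, hx, hU, hR⟩ := h
  exact ⟨f, t ^ d, fun τ => U τ ^ d, pow_ne_zero d ht, isKummerClass_red hx, isTwisted_red hU,
    realises_red hR⟩

/-- Variant of `isKum_red` with a propositional equality of moduli (e.g. `p ^ (n+1) = p ^ n * p`). -/
theorem isKum_red' {m m' d : ℕ} [NeZero m] [NeZero d] (hm : m' = m * d) (hdvd : m ∣ m')
    {c : G0 N → ZMod m'} {x : JZero N} (h : IsKum N m' c x) :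
    IsKum N m (redChar hdvd c) (d • x) := by
  subst hm
  exact isKum_red h

theorem realises_pow {u : FF N} {G : ℍ → ℂ} (h : Realises N u G) (d : ℕ) :
    Realises N (u ^ d) (fun τ => G τ ^ d) := by
  obtain ⟨h1, h2⟩ := h
  have hq : H708.HasQExp 1 G (coeffMap Deg457.iotaC ((u : FF N) : LaurentSeries Kbar)) :=
    h2 ▸ H882.hasQExp_of_mem_goodRing h1
  have hG : (fun τ => G τ ^ d) = G ^ d := rfl
  refine ⟨hG ▸ (H648.goodRing N).pow_mem h1 d, ?_⟩
  rw [hG, (hq.pow d).qexpFun_eq]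
  rw [IntermediateField.coe_pow, map_pow]

omit [NeZero N] in
theorem zetaP_pow_val_inflChar {m d : ℕ} [NeZero m] [NeZero d] (c : G0 N → ZMod m) (γ : G0 N) :
    zetaP (m * d) ^ (inflChar m d c γ).val = zetaP m ^ (c γ).val := by
  have hmd : m * d ≠ 0 := Nat.mul_ne_zero (NeZero.ne m) (NeZero.ne d)
  have : NeZero (m * d) := ⟨hmd⟩
  unfold inflChar
  rw [ZMod.val_natCast, zetaP_pow_mod (m * d) hmd, pow_mul, zetaP_mul_pow m d (NeZero.ne d)]

/-- **INFLATION.**  If `x` is the Kummer class of `c` for the modulus `m`, then `x` is the Kummer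
class of `d * c` for the modulus `m * d`. -/
theorem isKum_infl {m d : ℕ} [NeZero m] [NeZero d] {c : G0 N → ZMod m} {x : JZero N}
    (h : IsKum N m c x) : IsKum N (m * d) (inflChar m d c) x := by
  obtain ⟨f, t, U, ht, hx, hU, hR⟩ := h
  have e : (fun τ => U τ ^ (m * d)) = fun τ => (U τ ^ m) ^ d := by
    funext τ
    rw [pow_mul]
  refine ⟨f ^ d, t, U, ht, isKummerClass_infl hx, ⟨hU.mdiff, hU.ne_zero, fun γ τ => ?_, ?_⟩, ?_⟩
  · rw [zetaP_pow_val_inflChar]
    exact hU.hasChar γ τ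
  · rw [e]
    exact (realises_pow hR d).1
  · have e' : f ^ d * t ^ (m * d) = (f * t ^ m) ^ d := by
      rw [mul_pow, pow_mul]
    rw [e, e']
    exact realises_pow hR d

end An

end Fermat.Agent.S30.H450

end
end
-- ===== PACK-END S30/H450/KumCompat.lean

-- ===== PACK-BEGIN S37/H819/Enum.lean
section


/-!
# S37 / NORM (helper819) — enumeration of the `FF N`-embeddings of `FF (N ℓ)` and the norm
-/

set_option autoImplicit false

noncomputable section

open ModularCurve HahnSeries UpperHalfPlane AlgebraicCurve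
open scoped MatrixGroups

namespace Fermat.Agent.S37.H819

open Fermat.Agent.S24 Fermat.Agent.S24.H997

variable (N ℓ : ℕ) [NeZero N] [NeZero ℓ]

/-- `α (j) = j` -/
theorem alpha_jF : heckeAlphaBar Kbar N ℓ (jF N) = jF (N * ℓ) := by
  apply Subtype.ext
  rw [coe_heckeAlphaBar]
  rfl

/-- every element of `ℚ̄(j) ⊆ FF (N ℓ)` lies in the image of `α` -/
theorem exists_alpha_eq_of_mem_adjoin {c : FF (N * ℓ)}
    (hc : c ∈ IntermediateField.adjoin Kbar {jF (N * ℓ)}) :
    ∃ c' : FF N, heckeAlphaBar Kbar N ℓ c' = c := by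
  induction hc using IntermediateField.adjoin_induction with
  | mem z hz =>
      rw [Set.mem_singleton_iff] at hz
      subst hz
      exact ⟨jF N, alpha_jF N ℓ⟩
  | algebraMap a => exact ⟨algebraMap Kbar (FF N) a, (heckeAlphaBar Kbar N ℓ).commutes a⟩
  | add z w _ _ hz hw =>
      obtain ⟨z', rfl⟩ := hz
      obtain ⟨w', rfl⟩ := hw
      exact ⟨z' + w', _root_.map_add _ _ _⟩
  | inv z _ hz =>
      obtain ⟨z', rfl⟩ := hz
      exact ⟨z'⁻¹, map_inv₀ _ _⟩
  | mul z w _ _ hz hw =>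
      obtain ⟨z', rfl⟩ := hz
      obtain ⟨w', rfl⟩ := hw
      exact ⟨z' * w', _root_.map_mul _ _ _⟩

/-- `FF (N ℓ)` is finite over `FF N` (along `α`). -/
theorem finite_alpha :
    letI := algebraAlong (heckeAlphaBar Kbar N ℓ)
    Module.Finite (FF N) (FF (N * ℓ)) := by
  letI := algebraAlong (heckeAlphaBar Kbar N ℓ)
  haveI hfd := (Deg457.degree_fields (N * ℓ)).1
  obtain ⟨s, hs⟩ := (Module.Finite.fg_top :
    (⊤ : Submodule ↥(IntermediateField.adjoin Kbar {jF (N * ℓ)}) (FF (N * ℓ))).FG)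
  refine ⟨⟨s, ?_⟩⟩
  rw [eq_top_iff]
  intro x hxt
  have hx : x ∈ Submodule.span ↥(IntermediateField.adjoin Kbar {jF (N * ℓ)})
      (s : Set (FF (N * ℓ))) := by rw [hs]; trivial
  revert hxt
  induction hx using Submodule.span_induction with
  | mem y hy => exact fun _ => Submodule.subset_span hy
  | zero => exact fun _ => zero_mem _
  | add y z _ _ hy hz => exact fun _ => add_mem (hy trivial) (hz trivial)
  | smul c y _ hy =>
      obtain ⟨c', hc'⟩ := exists_alpha_eq_of_mem_adjoin N ℓ c.2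
      have e : c • y = c' • y := by
        show (c : FF (N * ℓ)) * y = heckeAlphaBar Kbar N ℓ c' * y
        rw [hc']
      rw [e]
      exact fun _ => Submodule.smul_mem _ c' (hy trivial)

/-! ### The target field and the algebra structures -/

/-- An algebraic closure of `ℂ((z))` (type synonym carrying `N`, `ℓ`). -/
def Om (_N _ℓ : ℕ) : Type := AlgebraicClosure (LaurentSeries ℂ)

instance : Field (Om N ℓ) := inferInstanceAs (Field (AlgebraicClosure (LaurentSeries ℂ)))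

instance : IsAlgClosed (Om N ℓ) :=
  inferInstanceAs (IsAlgClosed (AlgebraicClosure (LaurentSeries ℂ)))

/-- the inclusion `ℂ((z)) → Ω` -/
def incOm : LaurentSeries ℂ →+* Om N ℓ :=
  algebraMap (LaurentSeries ℂ) (AlgebraicClosure (LaurentSeries ℂ))

theorem incOm_injective : Function.Injective (incOm N ℓ) :=
  (algebraMap (LaurentSeries ℂ) (AlgebraicClosure (LaurentSeries ℂ))).injective

/-- `FF (N ℓ)` as an `FF N`-algebra along `α` (the Prelude's `algebraAlong`) -/
local instance instAlgAlpha : Algebra (FF N) (FF (N * ℓ)) :=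
  algebraAlong (heckeAlphaBar Kbar N ℓ)

/-- `Ω` as an `FF N`-algebra through `σ₁ ∘ α` -/
local instance instAlgOm : Algebra (FF N) (Om N ℓ) :=
  (((incOm N ℓ).comp (sig N ℓ 1)).comp (heckeAlphaBar Kbar N ℓ).toRingHom).toAlgebra

theorem algebraMap_alpha (y : FF N) :
    algebraMap (FF N) (FF (N * ℓ)) y = heckeAlphaBar Kbar N ℓ y := rfl

theorem algebraMap_Om (y : FF N) :
    algebraMap (FF N) (Om N ℓ) y = incOm N ℓ (sig N ℓ 1 (heckeAlphaBar Kbar N ℓ y)) := rfl

local instance instFiniteAlpha : Module.Finite (FF N) (FF (N * ℓ)) := finite_alpha N ℓ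

example : Algebra.IsSeparable (FF N) (FF (N * ℓ)) := inferInstance

/-- the `FF N`-embedding `σ_{h⁻¹}` for `h ∈ Γ₀(N)` -/
def embOf (h : SL(2, ℤ)) (hh : h ∈ CongruenceSubgroup.Gamma0 N) :
    FF (N * ℓ) →ₐ[FF N] Om N ℓ :=
  { (incOm N ℓ).comp (sig N ℓ h⁻¹) with
    commutes' := fun y => by
      show incOm N ℓ (sig N ℓ h⁻¹ (heckeAlphaBar Kbar N ℓ y))
        = incOm N ℓ (sig N ℓ 1 (heckeAlphaBar Kbar N ℓ y))
      rw [sig_alpha N ℓ hh, sig_one, coe_heckeAlphaBar] }

theorem embOf_apply (h : SL(2, ℤ)) (hh : h ∈ CongruenceSubgroup.Gamma0 N) (x : FF (N * ℓ)) :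
    embOf N ℓ h hh x = incOm N ℓ (sig N ℓ h⁻¹ x) := rfl

/-! ### Every `FF N`-embedding is some `σ_g` -/

/-- all the `σ_g` agree with `σ₁` on `ℚ̄(j)` -/
theorem sig_eq_on_adjoin (g : SL(2, ℤ)) {f : FF (N * ℓ)}
    (hf : f ∈ IntermediateField.adjoin Kbar {jF (N * ℓ)}) : sig N ℓ g f = sig N ℓ 1 f := by
  induction hf using IntermediateField.adjoin_induction with
  | mem z hz =>
      rw [Set.mem_singleton_iff] at hz
      subst hz
      unfold sig
      rw [HolBase.sigmaG_jF, HolBase.sigmaG_jF]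
  | algebraMap c => rw [sig_algebraMap, sig_algebraMap]
  | add z w _ _ hz hw => rw [_root_.map_add, _root_.map_add, hz, hw]
  | inv z _ hz => rw [map_inv₀, map_inv₀, hz]
  | mul z w _ _ hz hw => rw [_root_.map_mul, _root_.map_mul, hz, hw]

/-- `ℚ̄(j)` inside `FF (N ℓ)` -/
abbrev Kj : Type := ↥(IntermediateField.adjoin Kbar {jF (N * ℓ)})

/-- `Ω` as a `ℚ̄(j)`-algebra through `σ₁` -/
local instance instAlgKjOm : Algebra (Kj N ℓ) (Om N ℓ) :=
  (((incOm N ℓ).comp (sig N ℓ 1)).comp (algebraMap (Kj N ℓ) (FF (N * ℓ)))).toAlgebra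

/-- the `ℚ̄(j)`-embedding attached to a coset -/
def embK (x : XX (N * ℓ)) : FF (N * ℓ) →ₐ[Kj N ℓ] Om N ℓ :=
  { (incOm N ℓ).comp ((holBase (N * ℓ)).sigmaX (holBase (N * ℓ)).qexpExpansion x) with
    commutes' := fun c => by
      show incOm N ℓ (sig N ℓ (Quotient.out x) (c : FF (N * ℓ)))
        = incOm N ℓ (sig N ℓ 1 (c : FF (N * ℓ)))
      rw [sig_eq_on_adjoin N ℓ _ c.2] }

theorem embK_apply (x : XX (N * ℓ)) (f : FF (N * ℓ)) :
    embK N ℓ x f = incOm N ℓ ((holBase (N * ℓ)).sigmaX (holBase (N * ℓ)).qexpExpansion x f) :=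
  rfl

theorem embK_injective : Function.Injective (embK N ℓ) := by
  intro x y hxy
  apply (holBase (N * ℓ)).sigmaX_injective (holBase (N * ℓ)).qexpExpansion
  refine RingHom.ext fun f => ?_
  apply incOm_injective N ℓ
  have := congrArg (fun φ : FF (N * ℓ) →ₐ[Kj N ℓ] Om N ℓ => φ f) hxy
  simpa only [embK_apply] using this

theorem embK_bijective : Function.Bijective (embK N ℓ) := by
  haveI hfd := (Deg457.degree_fields (N * ℓ)).1
  haveI : Module.Finite (Kj N ℓ) (FF (N * ℓ)) := hfd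
  haveI : Module.Free (Kj N ℓ) (FF (N * ℓ)) := Module.Free.of_divisionRing _ _
  haveI : Finite (FF (N * ℓ) →ₐ[Kj N ℓ] Om N ℓ) := Finite.algHom _ _ _
  refine (embK_injective N ℓ).bijective_of_nat_card_le ?_
  calc Nat.card (FF (N * ℓ) →ₐ[Kj N ℓ] Om N ℓ)
      ≤ Module.finrank (Kj N ℓ) (FF (N * ℓ)) := card_algHom_le_finrank _ _ _
    _ ≤ Nat.card (XX (N * ℓ)) := (Deg457.degree_fields (N * ℓ)).2

/-- an `FF N`-embedding agrees with `σ₁` on `ℚ̄(j)` -/
theorem algHom_eq_on_adjoin (τ : FF (N * ℓ) →ₐ[FF N] Om N ℓ) {f : FF (N * ℓ)}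
    (hf : f ∈ IntermediateField.adjoin Kbar {jF (N * ℓ)}) :
    τ f = incOm N ℓ (sig N ℓ 1 f) := by
  obtain ⟨c', rfl⟩ := exists_alpha_eq_of_mem_adjoin N ℓ hf
  exact τ.commutes c'

/-- **Classification.** Every `FF N`-embedding of `FF (N ℓ)` into `Ω` is `σ_{h⁻¹}` for some
`h ∈ Γ₀(N)`. -/
theorem exists_embOf_eq (τ : FF (N * ℓ) →ₐ[FF N] Om N ℓ) :
    ∃ (h : SL(2, ℤ)) (hh : h ∈ CongruenceSubgroup.Gamma0 N), τ = embOf N ℓ h hh := by
  -- view `τ` as a `ℚ̄(j)`-embedding
  let τK : FF (N * ℓ) →ₐ[Kj N ℓ] Om N ℓ :=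
    { τ.toRingHom with
      commutes' := fun c => algHom_eq_on_adjoin N ℓ τ c.2 }
  obtain ⟨x, hx⟩ := (embK_bijective N ℓ).2 τK
  obtain ⟨g, rfl⟩ := QuotientGroup.mk_surjective x
  have hτ : ∀ f : FF (N * ℓ), τ f = incOm N ℓ (sig N ℓ g f) := by
    intro f
    have h1 : τK f = τ f := rfl
    rw [← h1, ← hx, embK_apply, HolBase.sigmaX_mk]
    rfl
  -- `g⁻¹ ∈ Γ₀(N)`
  have hg : g⁻¹ ∈ CongruenceSubgroup.Gamma0 N := by
    have hNN : N ∣ N * ℓ := Dvd.intro ℓ rfl
    have h2 := hτ (heckeAlphaBar Kbar N ℓ (inclRN N (jR N N dvd_rfl)))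
    have h3 : τ (heckeAlphaBar Kbar N ℓ (inclRN N (jR N N dvd_rfl)))
        = incOm N ℓ (sig N ℓ 1 (heckeAlphaBar Kbar N ℓ (inclRN N (jR N N dvd_rfl)))) :=
      τ.commutes _
    rw [h3] at h2
    have h4 := incOm_injective N ℓ h2
    rw [alpha_inclRN_jR N ℓ N dvd_rfl hNN, sig_inclRN, sig_inclRN, HolBase.bridge_jR, inv_one,
      HolBase.compH_one] at h4
    have h5 := (holBase (N * ℓ)).qexp_injective h4
    apply Jd_distinct N
    intro t
    have h6 := congrArg (fun f : (holBase (N * ℓ)).Hol => (f : ℍ → ℂ) t) h5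
    exact h6.symm
  refine ⟨g⁻¹, hg, ?_⟩
  apply AlgHom.ext
  intro f
  rw [hτ f, embOf_apply, inv_inv]

/-! ### Generation of `FF (N ℓ)` by `α(FF N)` and `β(FF N)` -/

omit [NeZero ℓ] in
theorem dvd_cases {ℓ : ℕ} (hℓ : ℓ.Prime) {N d : ℕ} (hd : d ∣ N * ℓ) :
    d ∣ N ∨ ∃ d', d' ∣ N ∧ d = d' * ℓ := by
  by_cases hℓd : ℓ ∣ d
  · right
    obtain ⟨d', rfl⟩ := hℓd
    refine ⟨d', ?_, Nat.mul_comm _ _⟩
    rw [Nat.mul_comm N ℓ] at hd
    exact Nat.dvd_of_mul_dvd_mul_left hℓ.pos hd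
  · left
    have hc : Nat.Coprime d ℓ := (Nat.coprime_comm.mp ((Nat.Prime.coprime_iff_not_dvd hℓ).mpr hℓd))
    exact hc.dvd_of_dvd_mul_right hd

/-- Two ring homs out of `FF (N ℓ)` agreeing on `α(FF N)` and on `β(FF N)` are equal. -/
theorem ringHom_ext_alpha_beta (hℓ : ℓ.Prime) {E : Type*} [Field E]
    (f g : FF (N * ℓ) →+* E)
    (hα : ∀ y : FF N, f (heckeAlphaBar Kbar N ℓ y) = g (heckeAlphaBar Kbar N ℓ y))
    (hβ : ∀ y : FF N, f (heckeBetaBar Kbar N ℓ y) = g (heckeBetaBar Kbar N ℓ y)) : f = g := by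
  apply ringHom_ext_FF (N * ℓ) f g
  · intro c
    have := hα (algebraMap Kbar (FF N) c)
    rwa [AlgHom.commutes] at this
  · intro d hne hd
    rcases dvd_cases hℓ hd with hdN | ⟨d', hd', rfl⟩
    · rw [← alpha_inclRN_jR N ℓ d hdN hd]
      exact hα _
    · haveI : NeZero d' := ⟨fun h0 => hne.out (by rw [h0, Nat.zero_mul])⟩
      rw [← beta_inclRN_jR N ℓ d' hd' hd]
      exact hβ _

/-! ### The `ℓ + 1` embeddings -/

section Reps

variable (hℓ : ℓ.Prime) (hℓN : ¬ ℓ ∣ N)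

include hℓ hℓN in
theorem coprime_N_ℓ : Nat.Coprime N ℓ :=
  Nat.coprime_comm.mp ((Nat.Prime.coprime_iff_not_dvd hℓ).mpr hℓN)

/-- a representative `h_b ∈ Γ₀(N)` with `(h_b)₁₁ ≡ b (h_b)₁₀ mod ℓ` -/
def hrep (b : ℤ) : SL(2, ℤ) := Classical.choose (exists_rep (coprime_N_ℓ N ℓ hℓ hℓN) b)

theorem hrep_mem (b : ℤ) : hrep N ℓ hℓ hℓN b ∈ CongruenceSubgroup.Gamma0 N :=
  (Classical.choose_spec (exists_rep (coprime_N_ℓ N ℓ hℓ hℓN) b)).1

theorem hrep_dvd (b : ℤ) :
    (ℓ : ℤ) ∣ (hrep N ℓ hℓ hℓN b) 1 1 - b * (hrep N ℓ hℓ hℓN b) 1 0 :=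
  (Classical.choose_spec (exists_rep (coprime_N_ℓ N ℓ hℓ hℓN) b)).2

/-- the `ℓ + 1` embeddings: `none ↦ σ₁`, `some b ↦ σ_{h_b⁻¹}` -/
def embList : Option (Fin ℓ) → (FF (N * ℓ) →ₐ[FF N] Om N ℓ)
  | none => embOf N ℓ 1 (one_mem _)
  | some b => embOf N ℓ (hrep N ℓ hℓ hℓN (b : ℕ)) (hrep_mem N ℓ hℓ hℓN _)

theorem embList_none_beta (y : FF N) :
    embList N ℓ hℓ hℓN none (heckeBetaBar Kbar N ℓ y)
      = incOm N ℓ (HolBase.Φ (N * ℓ) (qExpand Kbar ℓ (y : LaurentSeries Kbar))) := by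
  show incOm N ℓ (sig N ℓ 1⁻¹ (heckeBetaBar Kbar N ℓ y)) = _
  rw [inv_one, sig_one, coe_heckeBetaBar]

theorem embList_some_beta (b : Fin ℓ) (y : FF N) :
    embList N ℓ hℓ hℓN (some b) (heckeBetaBar Kbar N ℓ y)
      = incOm N ℓ (qExpand ℂ N (infTwist (infRoot (b : ℕ) ℓ)
          (coeffMap ιK (y : LaurentSeries Kbar)))) := by
  show incOm N ℓ (sig N ℓ (hrep N ℓ hℓ hℓN (b : ℕ))⁻¹ (heckeBetaBar Kbar N ℓ y)) = _
  rw [sig_beta N ℓ (hrep_mem N ℓ hℓ hℓN _) (hrep_dvd N ℓ hℓ hℓN _)]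

/-- the test element `j ∈ FF N` -/
def jTest : FF N := inclRN N (jR N 1 (one_dvd N))

theorem coe_jTest : ((jTest N : FF N) : LaurentSeries Kbar) = coeffEmb Kbar (qExpand ℚ 1 jq) :=
  rfl

theorem phi_beta_jTest_order :
    (HolBase.Φ (N * ℓ) (qExpand Kbar ℓ ((jTest N : FF N) : LaurentSeries Kbar))).order
      = -(((N * ℓ * ℓ : ℕ)) : ℤ) := by
  rw [coe_jTest]
  show (qExpand ℂ (N * ℓ) (coeffMap ιK (qExpand Kbar ℓ
    (coeffEmb Kbar (qExpand ℚ 1 jq))))).order = _
  rw [coeffMap_qExpand, coeffMap_ιK_coeffEmb, coeffEmb, coeffMap_qExpand, inf_qExpand_order,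
    inf_qExpand_order, inf_qExpand_order]
  have : coeffMap (algebraMap ℚ ℂ) jq = infJq := rfl
  rw [this, infJq_order]
  push_cast
  ring

theorem twist_jTest_eq (b : ℤ) :
    haveI : NeZero (1 * N) := ⟨by rw [one_mul]; exact NeZero.ne N⟩
    qExpand ℂ N (infTwist (infRoot b ℓ) (coeffMap ιK ((jTest N : FF N) : LaurentSeries Kbar)))
      = infGenExp (1 * N) (((1 : ℕ) : ℤ) * b) ℓ := by
  rw [coe_jTest]
  exact (infGenExp_eq_twist N ℓ 1 b).symm

include hℓ in
theorem embList_injective : Function.Injective (embList N ℓ hℓ hℓN) := by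
  haveI : NeZero (1 * N) := ⟨by rw [one_mul]; exact NeZero.ne N⟩
  have hℓ2 : 2 ≤ ℓ := hℓ.two_le
  have hN1 : 1 ≤ N := Nat.pos_of_ne_zero (NeZero.ne N)
  have key_ns : ∀ b : Fin ℓ, embList N ℓ hℓ hℓN none ≠ embList N ℓ hℓ hℓN (some b) := by
    intro b hEq
    have h1 := congrArg (fun φ : FF (N * ℓ) →ₐ[FF N] Om N ℓ =>
      φ (heckeBetaBar Kbar N ℓ (jTest N))) hEq
    simp only [embList_none_beta, embList_some_beta] at h1
    have h2 := incOm_injective N ℓ h1
    have h3 := congrArg HahnSeries.order h2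
    rw [phi_beta_jTest_order, twist_jTest_eq, infGenExp_order] at h3
    have h4 : N * ℓ * ℓ = 1 * N := by
      have : ((N * ℓ * ℓ : ℕ) : ℤ) = ((1 * N : ℕ) : ℤ) := by linarith
      exact_mod_cast this
    have h5 : N * 4 ≤ N * ℓ * ℓ := by
      rw [Nat.mul_assoc]
      exact Nat.mul_le_mul_left N (Nat.mul_le_mul hℓ2 hℓ2)
    omega
  have key_ss : ∀ b b' : Fin ℓ, embList N ℓ hℓ hℓN (some b) = embList N ℓ hℓ hℓN (some b') →
      b = b' := by
    intro b b' hEq
    have h1 := congrArg (fun φ : FF (N * ℓ) →ₐ[FF N] Om N ℓ =>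
      φ (heckeBetaBar Kbar N ℓ (jTest N))) hEq
    simp only [embList_some_beta] at h1
    have h2 := incOm_injective N ℓ h1
    rw [twist_jTest_eq, twist_jTest_eq] at h2
    have h3 := congrArg HahnSeries.leadingCoeff h2
    rw [infGenExp_leadingCoeff, infGenExp_leadingCoeff] at h3
    have h4 : infRoot (((1 : ℕ) : ℤ) * ((b : ℕ) : ℤ)) ℓ = infRoot (((1 : ℕ) : ℤ) * ((b' : ℕ) : ℤ)) ℓ :=
      inv_injective (Units.val_inj.mp h3)
    obtain ⟨k, hk⟩ := (infRoot_eq_iff hℓ.pos).mp h4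
    have hb := b.2
    have hb' := b'.2
    apply Fin.ext
    have h5 : ((b : ℕ) : ℤ) - ((b' : ℕ) : ℤ) = ℓ * k := by
      simp only [Nat.cast_one, one_mul] at hk
      exact hk
    have hk0 : k = 0 := by
      by_contra hne
      rcases lt_or_gt_of_ne hne with hlt | hgt
      · have : (ℓ : ℤ) * k ≤ ℓ * (-1) :=
          mul_le_mul_of_nonneg_left (by omega) (by positivity)
        have h6 : ((b : ℕ) : ℤ) < ℓ := by exact_mod_cast hb
        have h7 : (0 : ℤ) ≤ ((b : ℕ) : ℤ) := by positivity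
        have h8 : ((b' : ℕ) : ℤ) < ℓ := by exact_mod_cast hb'
        linarith
      · have : (ℓ : ℤ) * 1 ≤ ℓ * k :=
          mul_le_mul_of_nonneg_left (by omega) (by positivity)
        have h6 : ((b : ℕ) : ℤ) < ℓ := by exact_mod_cast hb
        have h7 : (0 : ℤ) ≤ ((b' : ℕ) : ℤ) := by positivity
        linarith
    rw [hk0, mul_zero] at h5
    have : ((b : ℕ) : ℤ) = ((b' : ℕ) : ℤ) := by linarith
    exact_mod_cast this
  intro o o' hEq
  rcases o with _ | b <;> rcases o' with _ | b'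
  · rfl
  · exact absurd hEq (key_ns b')
  · exact absurd hEq.symm (key_ns b)
  · rw [key_ss b b' hEq]

include hℓ in
theorem embList_surjective : Function.Surjective (embList N ℓ hℓ hℓN) := by
  intro τ
  obtain ⟨h, hh, rfl⟩ := exists_embOf_eq N ℓ τ
  rcases dvd_or_exists_b hℓ h with hd | ⟨b, hb⟩
  · -- `h ∈ Γ₀(N ℓ)`, so `σ_{h⁻¹} = σ₁`
    refine ⟨none, ?_⟩
    have hM : h ∈ CongruenceSubgroup.Gamma0 (N * ℓ) :=
      mem_gamma0_mul (coprime_N_ℓ N ℓ hℓ hℓN) hh hd
    have e : sig N ℓ h⁻¹ = sig N ℓ (1 : SL(2, ℤ))⁻¹ := by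
      have := (holBase (N * ℓ)).sigmaG_mul_of_mem (holBase (N * ℓ)).qexpExpansion 1
        (inv_mem hM)
      rw [one_mul] at this
      rw [inv_one]
      exact this
    apply AlgHom.ext
    intro f
    show incOm N ℓ (sig N ℓ (1 : SL(2, ℤ))⁻¹ f) = incOm N ℓ (sig N ℓ h⁻¹ f)
    rw [e]
  · -- `σ_{h⁻¹} = σ_{h_{b₀}⁻¹}` with `b₀ = b mod ℓ`
    have hℓpos : (0 : ℤ) < ℓ := by exact_mod_cast hℓ.pos
    have hb0 : 0 ≤ b % (ℓ : ℤ) := Int.emod_nonneg b hℓpos.ne'
    have hb1 : b % (ℓ : ℤ) < ℓ := Int.emod_lt_of_pos b hℓpos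
    let b₀ : Fin ℓ := ⟨(b % (ℓ : ℤ)).toNat, by
      have := hb1
      omega⟩
    have hb₀ : ((b₀ : ℕ) : ℤ) = b % (ℓ : ℤ) := Int.toNat_of_nonneg hb0
    refine ⟨some b₀, ?_⟩
    have e : sig N ℓ (hrep N ℓ hℓ hℓN ((b₀ : ℕ) : ℤ))⁻¹ = sig N ℓ h⁻¹ := by
      apply ringHom_ext_alpha_beta N ℓ hℓ
      · intro y
        rw [sig_alpha N ℓ (hrep_mem N ℓ hℓ hℓN _), sig_alpha N ℓ hh]
      · intro y
        rw [sig_beta N ℓ (hrep_mem N ℓ hℓ hℓN _) (hrep_dvd N ℓ hℓ hℓN _), sig_beta N ℓ hh hb]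
        have : infRoot ((b₀ : ℕ) : ℤ) ℓ = infRoot b ℓ := by
          rw [infRoot_eq_iff hℓ.pos, hb₀]
          exact ⟨-(b / (ℓ : ℤ)), by linarith [Int.emod_add_mul_ediv b ℓ]⟩
        rw [this]
    apply AlgHom.ext
    intro f
    show incOm N ℓ (sig N ℓ (hrep N ℓ hℓ hℓN ((b₀ : ℕ) : ℤ))⁻¹ f) = incOm N ℓ (sig N ℓ h⁻¹ f)
    rw [e]

include hℓ in
theorem embList_bijective : Function.Bijective (embList N ℓ hℓ hℓN) :=
  ⟨embList_injective N ℓ hℓ hℓN, embList_surjective N ℓ hℓ hℓN⟩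

end Reps

end Fermat.Agent.S37.H819

end
end
-- ===== PACK-END S37/H819/Enum.lean

-- ===== PACK-BEGIN S37/H819/Norm.lean
section


/-!
# S37 / NORM (helper819) — the norm of `β y` over `α(FF N)` is the Kronecker product

Main results (`K = ℚ̄`, `ℓ` prime, `ℓ ∤ N`, `α = heckeAlphaBar`, `β = heckeBetaBar`,
`FF N = ℚ̄(j(q^d) : d ∣ N) ⊆ ℚ̄((q))`, the norm is taken for the Prelude algebra structure
`algebraAlong α` on `FF (N ℓ)`):

* `norm_heckeBeta` :
  `V_ℓ (Nm_α (β y)) = V_{ℓ²} y * ∏_{b < ℓ} y(ζ^b u)`   in `ℚ̄((u))`, `u = q^{1/ℓ}`,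
  i.e. `Nm_α(β y)(q) = y(q^ℓ) ∏_b y(ζ^b q^{1/ℓ})`, for any primitive `ℓ`-th root of unity `ζ`.
-/

set_option autoImplicit false

noncomputable section

open ModularCurve HahnSeries UpperHalfPlane AlgebraicCurve
open scoped MatrixGroups

namespace Fermat.Agent.S37.H819

open Fermat.Agent.S24 Fermat.Agent.S24.H997

variable (N ℓ : ℕ) [NeZero N] [NeZero ℓ]

section Internal

attribute [local instance] instAlgAlpha instAlgOm instFiniteAlpha

/-- The norm formula over `ℂ((z))`, `z = q^{1/(N ℓ)}`. -/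
theorem norm_complex (hℓ : ℓ.Prime) (hℓN : ¬ ℓ ∣ N) (y : FF N) :
    HolBase.Φ (N * ℓ)
        ((Algebra.norm (FF N) (heckeBetaBar Kbar N ℓ y) : FF N) : LaurentSeries Kbar)
      = HolBase.Φ (N * ℓ) (qExpand Kbar ℓ (y : LaurentSeries Kbar))
        * ∏ b : Fin ℓ, qExpand ℂ N (infTwist (infRoot ((b : ℕ) : ℤ) ℓ)
            (coeffMap ιK (y : LaurentSeries Kbar))) := by
  have h := Algebra.norm_eq_prod_embeddings (FF N) (Om N ℓ) (heckeBetaBar Kbar N ℓ y)
  rw [algebraMap_Om, sig_one, coe_heckeAlphaBar] at h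
  have he := embList_bijective N ℓ hℓ hℓN
  rw [← he.prod_comp (fun σ : FF (N * ℓ) →ₐ[FF N] Om N ℓ => σ (heckeBetaBar Kbar N ℓ y)),
    Fintype.prod_option, embList_none_beta] at h
  simp only [embList_some_beta] at h
  rw [← map_prod, ← _root_.map_mul] at h
  exact incOm_injective N ℓ h

/-- Products over the powers of a primitive root do not depend on the primitive root. -/
theorem prod_range_pow_primitive {R M : Type*} [CommRing R] [IsDomain R] [CommMonoid M] {n : ℕ}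
    {ω ε : R} (hω : IsPrimitiveRoot ω n) (hε : IsPrimitiveRoot ε n) (T : R → M) :
    ∏ b ∈ Finset.range n, T (ω ^ b) = ∏ b ∈ Finset.range n, T (ε ^ b) := by
  classical
  rcases Nat.eq_zero_or_pos n with rfl | hn
  · simp
  have key : ∀ {ξ : R}, IsPrimitiveRoot ξ n →
      ∏ b ∈ Finset.range n, T (ξ ^ b) = ∏ u ∈ Polynomial.nthRootsFinset n (1 : R), T u := by
    intro ξ hξ
    have himg : (Finset.range n).image (fun b => ξ ^ b) = Polynomial.nthRootsFinset n (1 : R) := by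
      apply Finset.eq_of_subset_of_card_le
      · intro u hu
        obtain ⟨b, -, rfl⟩ := Finset.mem_image.mp hu
        rw [Polynomial.mem_nthRootsFinset hn, ← pow_mul, mul_comm, pow_mul, hξ.pow_eq_one, one_pow]
      · rw [hξ.card_nthRootsFinset, Finset.card_image_of_injOn hξ.injOn_pow, Finset.card_range]
    rw [← himg, Finset.prod_image]
    intro a ha b hb hab
    exact hξ.injOn_pow ha hb hab
  rw [key hω, key hε]

omit [NeZero N] in
theorem coe_infRoot_one_isPrimitiveRoot : IsPrimitiveRoot ((infRoot 1 ℓ : ℂˣ) : ℂ) ℓ := by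
  have h := Complex.isPrimitiveRoot_exp ℓ (NeZero.ne ℓ)
  have e : ((infRoot 1 ℓ : ℂˣ) : ℂ) = Complex.exp (2 * Real.pi * Complex.I / ℓ) := by
    rw [infRoot_coe]
    congr 1
    push_cast
    ring
  rw [e]
  exact h

/-- `Φ_N ∘ V_ℓ = Φ_{N ℓ}` -/
theorem Φ_qExpand (x : LaurentSeries Kbar) :
    HolBase.Φ N (qExpand Kbar ℓ x) = HolBase.Φ (N * ℓ) x := by
  show qExpand ℂ N (coeffMap ιK (qExpand Kbar ℓ x)) = qExpand ℂ (N * ℓ) (coeffMap ιK x)
  rw [coeffMap_qExpand, qExpand_qExpand]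

/-- **The norm of `β y` over `α(FF N)`** (Kronecker product formula): for `ℓ ∤ N` prime and
any primitive `ℓ`-th root of unity `ζ ∈ ℚ̄`,
`Nm(β y)(u^ℓ) = y(u^{ℓ²}) · ∏_{b<ℓ} y(ζ^b u)`. -/
theorem norm_heckeBeta_aux (hℓ : ℓ.Prime) (hℓN : ¬ ℓ ∣ N) (ζ : Kbarˣ)
    (hζ : IsPrimitiveRoot (ζ : Kbar) ℓ) (y : FF N) :
    qExpand Kbar ℓ
        ((Algebra.norm (FF N) (heckeBetaBar Kbar N ℓ y) : FF N) : LaurentSeries Kbar)
      = qExpand Kbar (ℓ * ℓ) (y : LaurentSeries Kbar)
        * ∏ b ∈ Finset.range ℓ, infTwist (ζ ^ b) (y : LaurentSeries Kbar) := by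
  apply HolBase.Φ_injective (N := N)
  have e2 : HolBase.Φ N (qExpand Kbar (ℓ * ℓ) (y : LaurentSeries Kbar))
      = HolBase.Φ (N * ℓ) (qExpand Kbar ℓ (y : LaurentSeries Kbar)) := by
    rw [← Φ_qExpand, qExpand_qExpand]
  rw [_root_.map_mul, map_prod, Φ_qExpand, norm_complex N ℓ hℓ hℓN y, e2]
  congr 1
  rw [Fin.prod_univ_eq_prod_range (fun b : ℕ => qExpand ℂ N (infTwist (infRoot ((b : ℕ) : ℤ) ℓ)
    (coeffMap ιK (y : LaurentSeries Kbar)))) ℓ]
  -- both sides are products of `T (ξ ^ b)`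
  let T : ℂ → LaurentSeries ℂ := fun u =>
    if h : u = 0 then 1
    else qExpand ℂ N (infTwist (Units.mk0 u h) (coeffMap ιK (y : LaurentSeries Kbar)))
  have hT : ∀ v : ℂˣ, T (v : ℂ)
      = qExpand ℂ N (infTwist v (coeffMap ιK (y : LaurentSeries Kbar))) := by
    intro v
    simp only [T]
    rw [dif_neg v.ne_zero]
    congr 3
    exact Units.ext rfl
  have hε := coe_infRoot_one_isPrimitiveRoot ℓ
  have hω : IsPrimitiveRoot (ιK (ζ : Kbar)) ℓ := hζ.map_of_injective ιK_injective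
  have hL : ∀ b ∈ Finset.range ℓ,
      qExpand ℂ N (infTwist (infRoot ((b : ℕ) : ℤ) ℓ) (coeffMap ιK (y : LaurentSeries Kbar)))
        = T (((infRoot 1 ℓ : ℂˣ) : ℂ) ^ b) := by
    intro b _
    rw [← Units.val_pow_eq_pow_val, hT, infRoot_pow, mul_one]
  have hR : ∀ b ∈ Finset.range ℓ,
      HolBase.Φ N (infTwist (ζ ^ b) (y : LaurentSeries Kbar)) = T ((ιK (ζ : Kbar)) ^ b) := by
    intro b _
    have e : (ιK (ζ : Kbar)) ^ b = ((Units.map (ιK : Kbar →* ℂ) (ζ ^ b) : ℂˣ) : ℂ) := by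
      simp
    rw [e, hT]
    show qExpand ℂ N (coeffMap ιK (infTwist (ζ ^ b) (y : LaurentSeries Kbar))) = _
    rw [coeffMap_infTwist]
  rw [Finset.prod_congr rfl hL, Finset.prod_congr rfl hR]
  exact prod_range_pow_primitive hε hω T

/-- the degree of `FF (N ℓ)` over `α(FF N)` is `ℓ + 1` -/
theorem finrank_alpha_aux (hℓ : ℓ.Prime) (hℓN : ¬ ℓ ∣ N) :
    Module.finrank (FF N) (FF (N * ℓ)) = ℓ + 1 := by
  rw [← AlgHom.card (FF N) (FF (N * ℓ)) (Om N ℓ),
    ← Fintype.card_of_bijective (embList_bijective N ℓ hℓ hℓN)]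
  simp

omit [NeZero N] in
theorem coe_sub_FF (a b : FF N) :
    ((a - b : FF N) : LaurentSeries Kbar) = (a : LaurentSeries Kbar) - (b : LaurentSeries Kbar) :=
  rfl

set_option maxHeartbeats 1000000 in
set_option synthInstance.maxHeartbeats 200000 in
/-- the characteristic polynomial of `β y` over `α(FF N)` is the Kronecker polynomial -/
theorem charpoly_heckeBeta_aux (hℓ : ℓ.Prime) (hℓN : ¬ ℓ ∣ N) (ζ : Kbarˣ)
    (hζ : IsPrimitiveRoot (ζ : Kbar) ℓ) (y : FF N) :
    (((Algebra.lmul (FF N) (FF (N * ℓ)) (heckeBetaBar Kbar N ℓ y)).charpoly.map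
        (coeHom N)).map (qExpand Kbar ℓ))
      = (Polynomial.X - Polynomial.C (qExpand Kbar (ℓ * ℓ) (y : LaurentSeries Kbar)))
        * ∏ b ∈ Finset.range ℓ,
            (Polynomial.X - Polynomial.C (infTwist (ζ ^ b) (y : LaurentSeries Kbar))) := by
  apply Polynomial.eq_of_infinite_eval_eq
  refine Set.infinite_of_injective_forall_mem
    (f := fun c : Kbar => algebraMap Kbar (LaurentSeries Kbar) c)
    (algebraMap Kbar (LaurentSeries Kbar)).injective ?_
  intro c
  show Polynomial.eval _ _ = Polynomial.eval _ _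
  -- the constant `c` as an element of `FF N`
  set t : FF N := algebraMap Kbar (FF N) c with ht
  have hc : algebraMap Kbar (LaurentSeries Kbar) c = qExpand Kbar ℓ (coeHom N t) := by
    rw [coeHom_apply, ht, coe_algebraMap_FF, algebraMap_laurentSeries_eq_single, qExpand_single,
      mul_zero]
  -- left side
  have hL : Polynomial.eval (algebraMap Kbar (LaurentSeries Kbar) c)
      (((Algebra.lmul (FF N) (FF (N * ℓ)) (heckeBetaBar Kbar N ℓ y)).charpoly.map
        (coeHom N)).map (qExpand Kbar ℓ))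
      = qExpand Kbar ℓ ((Algebra.norm (FF N)
          (heckeBetaBar Kbar N ℓ (t - y)) : FF N) : LaurentSeries Kbar) := by
    rw [hc, Polynomial.eval_map, Polynomial.eval₂_hom, Polynomial.eval_map,
      Polynomial.eval₂_hom, LinearMap.eval_charpoly, coeHom_apply]
    congr 2
    rw [Algebra.norm_apply]
    congr 1
    rw [_root_.map_sub, _root_.map_sub]
    congr 1
    refine LinearMap.ext fun z => ?_
    show heckeAlphaBar Kbar N ℓ t * z = heckeBetaBar Kbar N ℓ t * z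
    rw [ht, AlgHom.commutes, AlgHom.commutes]
  rw [hL, norm_heckeBeta_aux N ℓ hℓ hℓN ζ hζ (t - y)]
  have hsub : ((t - y : FF N) : LaurentSeries Kbar)
      = algebraMap Kbar (LaurentSeries Kbar) c - (y : LaurentSeries Kbar) := by
    rw [coe_sub_FF, ht, coe_algebraMap_FF]
  have hV : ∀ (n : ℕ) [NeZero n], qExpand Kbar n (algebraMap Kbar (LaurentSeries Kbar) c)
      = algebraMap Kbar (LaurentSeries Kbar) c := by
    intro n _
    rw [algebraMap_laurentSeries_eq_single, qExpand_single, mul_zero]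
  have hT : ∀ u : Kbarˣ, infTwist u (algebraMap Kbar (LaurentSeries Kbar) c)
      = algebraMap Kbar (LaurentSeries Kbar) c := by
    intro u
    rw [algebraMap_laurentSeries_eq_single, infTwist_single]
    simp
  rw [hsub, _root_.map_sub, hV, Polynomial.eval_mul, Polynomial.eval_sub, Polynomial.eval_X,
    Polynomial.eval_C, Polynomial.eval_prod]
  congr 1
  refine Finset.prod_congr rfl fun b _ => ?_
  rw [_root_.map_sub, hT, Polynomial.eval_sub, Polynomial.eval_X, Polynomial.eval_C]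

end Internal

/-! ### Public statements (with the Prelude's `algebraAlong`) -/

/-- `FF (N ℓ)` is a finite extension of `α(FF N)`: the Prelude's `FiniteAlong`. -/
theorem finiteAlong_heckeAlphaBar :
    FiniteAlong Kbar (heckeAlphaBar Kbar N ℓ) :=
  finite_alpha N ℓ

/-- `[FF (N ℓ) : α(FF N)] = ℓ + 1` for a prime `ℓ ∤ N`. -/
theorem finrankAlong_heckeAlphaBar (hℓ : ℓ.Prime) (hℓN : ¬ ℓ ∣ N) :
    finrankAlong Kbar (heckeAlphaBar Kbar N ℓ) = ℓ + 1 :=
  finrank_alpha_aux N ℓ hℓ hℓN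

/-- **NORM.** For a prime `ℓ ∤ N`, a primitive `ℓ`-th root of unity `ζ ∈ ℚ̄` and `y ∈ FF N`:
`Nm_{FF(Nℓ)/α(FF N)}(β y)(u^ℓ) = y(u^{ℓ²}) · ∏_{b<ℓ} y(ζ^b u)` in `ℚ̄((u))`. -/
theorem norm_heckeBeta (hℓ : ℓ.Prime) (hℓN : ¬ ℓ ∣ N) (ζ : Kbarˣ)
    (hζ : IsPrimitiveRoot (ζ : Kbar) ℓ) (y : FF N) :
    letI := algebraAlong (heckeAlphaBar Kbar N ℓ)
    qExpand Kbar ℓ
        ((Algebra.norm (FF N) (heckeBetaBar Kbar N ℓ y) : FF N) : LaurentSeries Kbar)
      = qExpand Kbar (ℓ * ℓ) (y : LaurentSeries Kbar)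
        * ∏ b ∈ Finset.range ℓ, infTwist (ζ ^ b) (y : LaurentSeries Kbar) :=
  norm_heckeBeta_aux N ℓ hℓ hℓN ζ hζ y

set_option maxHeartbeats 1000000 in
set_option synthInstance.maxHeartbeats 200000 in
/-- **CHARPOLY.** The characteristic polynomial of `β y` over `α(FF N)` is the Kronecker
polynomial `(X - y(q^ℓ)) ∏_b (X - y(ζ^b q^{1/ℓ}))` (written in `u = q^{1/ℓ}`). -/
theorem charpoly_heckeBeta (hℓ : ℓ.Prime) (hℓN : ¬ ℓ ∣ N) (ζ : Kbarˣ)
    (hζ : IsPrimitiveRoot (ζ : Kbar) ℓ) (y : FF N) :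
    letI := algebraAlong (heckeAlphaBar Kbar N ℓ)
    haveI : Module.Finite (FF N) (FF (N * ℓ)) := finiteAlong_heckeAlphaBar N ℓ
    (((Algebra.lmul (FF N) (FF (N * ℓ)) (heckeBetaBar Kbar N ℓ y)).charpoly.map
        (coeHom N)).map (qExpand Kbar ℓ))
      = (Polynomial.X - Polynomial.C (qExpand Kbar (ℓ * ℓ) (y : LaurentSeries Kbar)))
        * ∏ b ∈ Finset.range ℓ,
            (Polynomial.X - Polynomial.C (infTwist (ζ ^ b) (y : LaurentSeries Kbar))) :=
  charpoly_heckeBeta_aux N ℓ hℓ hℓN ζ hζ y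

end Fermat.Agent.S37.H819

end
end
-- ===== PACK-END S37/H819/Norm.lean

-- ===== PACK-BEGIN S30/H810/Real.lean
section
/-
S30 / piece FIN-ONTO (helper810), part 1: analytic realisation of `R_N = ℚ̄[j(q^d) : d ∣ N]`
by good functions, and the Taylor embeddings `σ_τ : FF N → ℂ((z))`.

* `realRN N : RN N →+* goodRing N` : the good function with `q`-expansion `ι r`;
* `sigmaTau N τ : FF N →+* LaurentSeries ℂ` : Taylor expansion at `τ` of the realisation;
* `sigmaTau_of_realises` : if `G` realises `u` (M4b `Realises`), then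
  `sigmaTau N τ u = taylorLaurent τ G`.
-/





set_option autoImplicit false
set_option linter.unusedSectionVars false

noncomputable section

open ModularCurve AlgebraicCurve CongruenceSubgroup UpperHalfPlane HahnSeries
open scoped MatrixGroups Manifold

namespace Fermat.Agent.S30.H810

open Fermat.Agent.S24 Fermat.Agent.S24.H648 Fermat.Agent.S24.H708 Fermat.Agent.S24.Deg457
open Fermat.Agent.S24.H624 Fermat.Agent.S24.H997 Fermat.Agent.S29 Fermat.Agent.S29.M4b
open Fermat.Agent.S29.H882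

variable (N : ℕ) [NeZero N]

/-- every element of `R_N` is the `q`-expansion of a good function -/
theorem exists_good_of_RN (r : RN N) :
    ∃ f : ℍ → ℂ, f ∈ goodRing N ∧ HasQExp 1 f (coeffMap iotaC (r : LaurentSeries Kbar)) := by
  have h1 : (r : LaurentSeries Kbar) ∈ AK Kbar N := r.2
  have h2 : coeffMap iotaC (r : LaurentSeries Kbar) ∈ AK ℂ N := coeffMap_mem_AK iotaC h1
  exact AK_le_goodQ N h2

/-- the good function realising `r ∈ R_N` -/
def realFun (r : RN N) : ℍ → ℂ := (exists_good_of_RN N r).choose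

theorem realFun_mem (r : RN N) : realFun N r ∈ goodRing N :=
  (exists_good_of_RN N r).choose_spec.1

theorem realFun_hasQExp (r : RN N) :
    HasQExp 1 (realFun N r) (coeffMap iotaC (r : LaurentSeries Kbar)) :=
  (exists_good_of_RN N r).choose_spec.2

/-- the realisation `R_N → goodRing N` as a ring hom -/
def realRN : RN N →+* goodRing N where
  toFun r := ⟨realFun N r, realFun_mem N r⟩
  map_one' := by
    apply Subtype.ext
    have h := realFun_hasQExp N (1 : RN N)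
    have h1 : coeffMap iotaC ((1 : RN N) : LaurentSeries Kbar) = 1 := by
      rw [OneMemClass.coe_one, _root_.map_one]
    rw [h1] at h
    exact h.eq_of_eq (HasQExp.one 1)
  map_mul' a b := by
    apply Subtype.ext
    have h := realFun_hasQExp N (a * b)
    have h1 : coeffMap iotaC ((a * b : RN N) : LaurentSeries Kbar)
        = coeffMap iotaC (a : LaurentSeries Kbar) * coeffMap iotaC (b : LaurentSeries Kbar) := by
      rw [MulMemClass.coe_mul, _root_.map_mul]
    rw [h1] at h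
    exact h.eq_of_eq ((realFun_hasQExp N a).mul (realFun_hasQExp N b))
  map_zero' := by
    apply Subtype.ext
    have h := realFun_hasQExp N (0 : RN N)
    have h1 : coeffMap iotaC ((0 : RN N) : LaurentSeries Kbar) = 0 := by
      rw [ZeroMemClass.coe_zero, _root_.map_zero]
    rw [h1] at h
    exact h.eq_of_eq (HasQExp.zero 1)
  map_add' a b := by
    apply Subtype.ext
    have h := realFun_hasQExp N (a + b)
    have h1 : coeffMap iotaC ((a + b : RN N) : LaurentSeries Kbar)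
        = coeffMap iotaC (a : LaurentSeries Kbar) + coeffMap iotaC (b : LaurentSeries Kbar) := by
      rw [AddMemClass.coe_add, _root_.map_add]
    rw [h1] at h
    exact h.eq_of_eq ((realFun_hasQExp N a).add (realFun_hasQExp N b))

@[simp] theorem coe_realRN (r : RN N) : ((realRN N r : goodRing N) : ℍ → ℂ) = realFun N r := rfl

theorem iotaC_injective : Function.Injective iotaC := iotaC.injective

theorem coeffMap_iotaC_injective :
    Function.Injective (coeffMap iotaC : LaurentSeries Kbar → LaurentSeries ℂ) := by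
  intro x y h
  ext k
  apply iotaC_injective
  have := congrArg (fun s : LaurentSeries ℂ => s.coeff k) h
  simpa using this

theorem realRN_injective : Function.Injective (realRN N) := by
  intro a b h
  apply Subtype.ext
  apply coeffMap_iotaC_injective
  have ha := realFun_hasQExp N a
  have hb := realFun_hasQExp N b
  have h' : realFun N a = realFun N b := congrArg Subtype.val h
  rw [h'] at ha
  exact ha.unique hb

/-- good functions are holomorphic -/
theorem goodRing_le_holoRing : goodRing N ≤ holoRing := fun _ hf => hf.1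

/-- the inclusion `goodRing N → holoRing` -/
def goodToHolo : goodRing N →+* holoRing :=
  (Subalgebra.inclusion (goodRing_le_holoRing N)).toRingHom

@[simp] theorem coe_goodToHolo (f : goodRing N) :
    ((goodToHolo N f : holoRing) : ℍ → ℂ) = (f : ℍ → ℂ) := rfl

theorem goodToHolo_injective : Function.Injective (goodToHolo N) :=
  Subalgebra.inclusion_injective (goodRing_le_holoRing N)

/-- Taylor expansion at `τ` of the realisation of `r ∈ R_N` -/
def sTau (τ : ℍ) : RN N →+* LaurentSeries ℂ :=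
  (taylorLaurent τ).comp ((goodToHolo N).comp (realRN N))

theorem sTau_injective (τ : ℍ) : Function.Injective (sTau N τ) :=
  (taylorLaurent_injective τ).comp ((goodToHolo_injective N).comp (realRN_injective N))

/-- **The Taylor embedding** `σ_τ : FF N → ℂ((z))`. -/
def sigmaTau (τ : ℍ) : FF N →+* LaurentSeries ℂ := liftF (sTau N τ) (sTau_injective N τ)

theorem sigmaTau_inclRN (τ : ℍ) (r : RN N) :
    sigmaTau N τ (inclRN N r) = taylorLaurent τ (goodToHolo N (realRN N r)) :=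
  liftF_inclRN _ _ r

theorem algebraMap_laurent_eq_C (c : ℂ) :
    algebraMap ℂ (LaurentSeries ℂ) c = HahnSeries.C c := by
  rw [algebraMap_laurentSeries_eq_single]; rfl

theorem realFun_algebraMap (c : Kbar) :
    realFun N (algebraMap Kbar (RN N) c) = fun _ => iotaC c := by
  have h := realFun_hasQExp N (algebraMap Kbar (RN N) c)
  have h1 : ((algebraMap Kbar (RN N) c : RN N) : LaurentSeries Kbar)
      = algebraMap Kbar (LaurentSeries Kbar) c := rfl
  rw [h1, coeffMap_algebraMap', algebraMap_laurent_eq_C] at h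
  exact h.eq_of_eq (HasQExp.const 1 (iotaC c))

theorem taylorLaurent_const (τ : ℍ) (c : ℂ) (f : holoRing) (hf : (f : ℍ → ℂ) = fun _ => c) :
    taylorLaurent τ f = HahnSeries.C c := by
  have : f = algebraMap ℂ holoRing c := Subtype.ext hf
  rw [this, taylorLaurent_apply, AlgHom.commutes, PowerSeries.algebraMap_apply,
    Algebra.algebraMap_self, RingHom.id_apply, HahnSeries.ofPowerSeries_C]

theorem sigmaTau_algebraMap (τ : ℍ) (c : Kbar) :
    sigmaTau N τ (algebraMap Kbar (FF N) c) = HahnSeries.C (iotaC c) := by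
  rw [sigmaTau, liftF_algebraMap]
  exact taylorLaurent_const τ (iotaC c) _ (realFun_algebraMap N c)

variable {N}

theorem Realises.hasQExp {u : FF N} {G : ℍ → ℂ} (hG : Realises N u G) :
    HasQExp 1 G (coeffMap iotaC ((u : FF N) : LaurentSeries Kbar)) := by
  have h := hasQExp_of_mem_goodRing hG.1
  rwa [hG.2] at h

/-- **Compatibility**: if `G` realises `u`, then `σ_τ u` is the Taylor expansion of `G` at `τ`. -/
theorem sigmaTau_of_realises {u : FF N} {G : ℍ → ℂ} (hG : Realises N u G)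
    (hmd : G ∈ holoRing) (τ : ℍ) :
    sigmaTau N τ u = taylorLaurent τ ⟨G, hmd⟩ := by
  obtain ⟨r, t, ht, hu⟩ := exists_div_inclRN N u
  have ht' : inclRN N t ≠ 0 := fun h => ht (inclRN_injective N (by rw [h, _root_.map_zero]))
  have hmul : u * inclRN N t = inclRN N r := by
    rw [hu, div_mul_cancel₀ _ ht']
  have hcoe : ((u : FF N) : LaurentSeries Kbar) * (t : LaurentSeries Kbar)
      = (r : LaurentSeries Kbar) := by
    have := congrArg (fun x : FF N => (x : LaurentSeries Kbar)) hmul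
    simpa using this
  have hq : HasQExp 1 (G * realFun N t) (coeffMap iotaC (r : LaurentSeries Kbar)) := by
    have := (Realises.hasQExp hG).mul (realFun_hasQExp N t)
    rwa [← _root_.map_mul, hcoe] at this
  have hfun : G * realFun N t = realFun N r := hq.eq_of_eq (realFun_hasQExp N r)
  have hholo : (⟨G, hmd⟩ : holoRing) * goodToHolo N (realRN N t)
      = goodToHolo N (realRN N r) := Subtype.ext hfun
  have hT0 : taylorLaurent τ (goodToHolo N (realRN N t)) ≠ 0 := by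
    intro h
    exact ht (sTau_injective N τ (by rw [_root_.map_zero]; exact h))
  rw [hu, map_div₀, sigmaTau_inclRN, sigmaTau_inclRN, ← hholo, _root_.map_mul, mul_div_assoc,
    div_self hT0, mul_one]

end Fermat.Agent.S30.H810

end
end
-- ===== PACK-END S30/H810/Real.lean

-- ===== PACK-BEGIN S29/H102/KBasic.lean
section
/-
S29 / M4b / K4 (helper102) — basic lemmas shared by the K4 pieces.

* `KBasic_zetaP_pow`            : `zetaP p ^ p = 1`;
* `KBasic_expGrowth_of_pow`     : `ExpGrowth (F ^ p) → ExpGrowth F` (`p ≠ 0`);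
* `KBasic_mem_goodRing_of_pow`  : a holomorphic `Γ₀(N)`-invariant `V` with `V ^ p` good is good;
* `KBasic_realises_hasQExp`     : `Realises N u G → HasQExp 1 G (coeffMap iotaC u)`;
* `KBasic_exists_root`          : a good function `V` whose `p`-th power realises `w ∈ FF N`
                                  realises a `p`-th root `v ∈ FF N` of `w`
                                  (MERO + root descent + `F_ℂ ∩ ℚ̄((q)) = FF N`).
-/




set_option autoImplicit false

noncomputable section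

open ModularCurve AlgebraicCurve CongruenceSubgroup UpperHalfPlane
open scoped MatrixGroups Manifold

namespace Fermat.Agent.S29.H102

open Fermat.Agent.S24 Fermat.Agent.S29 Fermat.Agent.S29.M4b
open Fermat.Agent.S24.H648 Fermat.Agent.S24.H708

theorem KBasic_zetaP_pow (p : ℕ) [NeZero p] : zetaP p ^ p = 1 := by
  have hp : (p : ℂ) ≠ 0 := Nat.cast_ne_zero.mpr (NeZero.ne p)
  rw [zetaP, ← Complex.exp_nat_mul, mul_div_cancel₀ _ hp]
  exact Complex.exp_two_pi_mul_I

theorem KBasic_zetaP_ne_zero (p : ℕ) : zetaP p ≠ 0 := Complex.exp_ne_zero _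

/-- `ζ_p ^ a = 1` iff `p ∣ a`. -/
theorem KBasic_zetaP_pow_eq_one_iff (p : ℕ) [NeZero p] (a : ℕ) : zetaP p ^ a = 1 ↔ p ∣ a := by
  have h : IsPrimitiveRoot (zetaP p) p := by
    have := Complex.isPrimitiveRoot_exp p (NeZero.ne p)
    simpa [zetaP] using this
  exact h.pow_eq_one_iff_dvd a

/-- The character value only depends on the class mod `p`. -/
theorem KBasic_zetaP_pow_val_add (p : ℕ) [NeZero p] (a b : ZMod p) :
    zetaP p ^ (a + b).val = zetaP p ^ a.val * zetaP p ^ b.val := by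
  rw [← pow_add, ZMod.val_add]
  conv_rhs => rw [← Nat.mod_add_div (a.val + b.val) p]
  rw [pow_add, pow_mul, KBasic_zetaP_pow, one_pow, mul_one]

theorem KBasic_expGrowth_of_pow {F : ℍ → ℂ} {p : ℕ} (hp : p ≠ 0)
    (h : ExpGrowth (fun τ => F τ ^ p)) : ExpGrowth F := by
  obtain ⟨C, m, hC⟩ := h
  refine ⟨max C 1, m, fun τ hτ => ?_⟩
  have hexp : (1 : ℝ) ≤ Real.exp (2 * Real.pi * m * τ.im) := by
    apply Real.one_le_exp
    have := Real.pi_pos
    have := τ.im_pos
    positivity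
  have hmax1 : (1 : ℝ) ≤ max C 1 := le_max_right _ _
  by_cases h1 : ‖F τ‖ ≤ 1
  · calc ‖F τ‖ ≤ 1 := h1
      _ = 1 * 1 := (one_mul 1).symm
      _ ≤ max C 1 * Real.exp (2 * Real.pi * m * τ.im) :=
          mul_le_mul hmax1 hexp zero_le_one (le_trans zero_le_one hmax1)
  · have h1' : 1 ≤ ‖F τ‖ := le_of_lt (not_le.mp h1)
    have h2 : ‖F τ‖ ≤ ‖F τ‖ ^ p := le_self_pow₀ h1' hp
    have h3 : ‖F τ‖ ^ p ≤ C * Real.exp (2 * Real.pi * m * τ.im) := by
      have := hC τ hτ
      rwa [norm_pow] at this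
    calc ‖F τ‖ ≤ ‖F τ‖ ^ p := h2
      _ ≤ C * Real.exp (2 * Real.pi * m * τ.im) := h3
      _ ≤ max C 1 * Real.exp (2 * Real.pi * m * τ.im) :=
          mul_le_mul_of_nonneg_right (le_max_left _ _) (Real.exp_pos _).le

theorem KBasic_mem_goodRing_of_pow {N : ℕ} {V : ℍ → ℂ} {p : ℕ} (hp : p ≠ 0)
    (hV : MDifferentiable 𝓘(ℂ) 𝓘(ℂ) V)
    (hinv : ∀ γ ∈ Gamma0 N, ∀ τ : ℍ, V (γ • τ) = V τ)
    (hpow : (fun τ => V τ ^ p) ∈ goodRing N) : V ∈ goodRing N := by
  refine ⟨hV, hinv, fun g => ?_⟩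
  exact KBasic_expGrowth_of_pow hp (hpow.2.2 g)

variable {N : ℕ} [NeZero N]

theorem KBasic_realises_hasQExp {u : FF N} {G : ℍ → ℂ} (h : Realises N u G) :
    HasQExp 1 G (coeffMap Deg457.iotaC ((u : FF N) : LaurentSeries Kbar)) :=
  ⟨H882.isMerInf_of_mem_goodRing h.1, h.2⟩

theorem KBasic_coeffMap_iotaC_injective :
    Function.Injective (coeffMap Deg457.iotaC : LaurentSeries Kbar → LaurentSeries ℂ) := by
  intro x y h
  ext k
  have := congrArg (fun z : LaurentSeries ℂ => z.coeff k) h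
  simp only [coeffMap_coeff] at this
  exact Deg457.iotaC.injective this

/-- **Analytic `p`-th roots are algebraic.**  If `V` is good of level `N` and `V ^ p` realises
`w ∈ FF N`, then `V` realises some `v ∈ FF N` with `v ^ p = w`. -/
theorem KBasic_exists_root {p : ℕ} (hp : p ≠ 0) {V : ℍ → ℂ} (hV : V ∈ goodRing N) {w : FF N}
    (hw : Realises N w (fun τ => V τ ^ p)) :
    ∃ v : FF N, v ^ p = w ∧ Realises N v V := by
  have hVq : HasQExp 1 V (qexpFun 1 V) := H882.hasQExp_of_mem_goodRing hV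
  have hVp : HasQExp 1 (fun τ => V τ ^ p) (qexpFun 1 V ^ p) := hVq.pow p
  have hwq := KBasic_realises_hasQExp hw
  have heq : qexpFun 1 V ^ p = coeffMap Deg457.iotaC ((w : FF N) : LaurentSeries Kbar) :=
    hVp.unique hwq
  obtain ⟨v₀, hv₀⟩ := RootDesc_laurent Deg457.iotaC hp (qexpFun 1 V)
    ((w : FF N) : LaurentSeries Kbar) heq
  have hmem : v₀ ∈ modularFunctionFieldBar N := by
    apply H882.mem_laurentBaseChange_of_coeffMap_mem Deg457.iotaC (modularFunctionFieldFull N)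
    rw [hv₀]
    exact H882.qexpFun_mem_FC hV
  refine ⟨⟨v₀, hmem⟩, ?_, hV, hv₀.symm⟩
  apply Subtype.ext
  apply KBasic_coeffMap_iotaC_injective
  show coeffMap Deg457.iotaC (v₀ ^ p) = _
  rw [map_pow, hv₀, heq]

end Fermat.Agent.S29.H102

end
end
-- ===== PACK-END S29/H102/KBasic.lean

-- ===== PACK-BEGIN S29/H509/K1.lean
section



/-!
# S29 / M4b piece K1 (`exists_isTwisted`) in helper822's EXACT shape (helper509)

`U := kumH (chiOfHom c)`, i.e. `E^χ₁₂ / Δ` with `χ = ζ_p ^ c`.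
-/

set_option autoImplicit false

namespace Fermat.Agent.S29.H509

open ModularCurve AlgebraicCurve CongruenceSubgroup UpperHalfPlane
open scoped MatrixGroups Manifold

open Fermat.Agent.S24 Fermat.Agent.S29 Fermat.Agent.S29.M4b

noncomputable section

/-- The additive character `Additive Γ₀(N) →+ ZMod p` underlying a parabolic hom `c`. -/
def homOfParHom {N p : ℕ} {c : G0 N → ZMod p} (hc : IsParHom c) :
    Additive (Gamma0 N) →+ ZMod p where
  toFun γ := c (Additive.toMul γ)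
  map_zero' := by
    have h := hc.map_mul 1 1
    rw [mul_one] at h
    have : c 1 + 0 = c 1 + c 1 := by rw [add_zero]; exact h
    exact (add_left_cancel this).symm
  map_add' a b := hc.map_mul _ _

@[simp] lemma homOfParHom_apply {N p : ℕ} {c : G0 N → ZMod p} (hc : IsParHom c)
    (γ : Gamma0 N) : homOfParHom hc (Additive.ofMul γ) = c γ := rfl

lemma stdAddChar_eq_zetaP_pow (p : ℕ) [NeZero p] (a : ZMod p) :
    ZMod.stdAddChar (N := p) a = zetaP p ^ a.val := by
  have h1 : ((a.val : ℤ) : ZMod p) = a := by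
    rw [Int.cast_natCast, ZMod.natCast_zmod_val]
  conv_lhs => rw [← h1]
  rw [ZMod.stdAddChar_coe, zetaP, ← Complex.exp_nat_mul]
  congr 1
  push_cast
  ring

/-- **PIECE K1** of `M4b/Skeleton.lean`, exact type. -/
theorem exists_isTwisted (N : ℕ) [NeZero N] (p : ℕ) [NeZero p] {c : G0 N → ZMod p}
    (hc : IsParHom c) : ∃ U : ℍ → ℂ, IsTwisted N p c U := by
  have hstab : ∀ γ : Gamma0 N, (γ : SL(2, ℤ)) 1 0 = 0 →
      homOfParHom hc (Additive.ofMul γ) = 0 := by
    intro γ hγ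
    rw [homOfParHom_apply]
    apply hc.parabolic
    have hdet := (γ : SL(2, ℤ)).det_coe
    rw [Matrix.det_fin_two] at hdet
    have h' : ((γ : SL(2, ℤ)) : Matrix (Fin 2) (Fin 2) ℤ) 1 0 = 0 := hγ
    rw [h', mul_zero, sub_zero] at hdet
    have htr : (G0.mat γ).trace = ((γ : SL(2, ℤ)) : Matrix (Fin 2) (Fin 2) ℤ) 0 0
        + ((γ : SL(2, ℤ)) : Matrix (Fin 2) (Fin 2) ℤ) 1 1 := by
      rw [G0.mat, Matrix.trace_fin_two]
    rw [htr]
    rcases Int.eq_one_or_neg_one_of_mul_eq_one' hdet with ⟨h1, h2⟩ | ⟨h1, h2⟩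
    · left; rw [h1, h2]; norm_num
    · right; rw [h1, h2]; norm_num
  obtain ⟨h, hmd, hne, hchar, -, hgood⟩ := exists_kummerFun_of_hom N (homOfParHom hc) hstab
  refine ⟨h, hmd, ?_, ?_, hgood⟩
  · by_contra hall
    push_neg at hall
    exact hne (funext hall)
  · intro γ τ
    rw [hchar γ τ, homOfParHom_apply, stdAddChar_eq_zetaP_pow]

end

end Fermat.Agent.S29.H509

end
-- ===== PACK-END S29/H509/K1.lean

-- ===== PACK-BEGIN S18/H558/BranchT3.lean
section


/-!
# S18 / MOD M2 (part 3): ramification of `F_M / ℚ̄(t)` for the Hauptmodul `t = t₃` of `X₀(3)`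

Hypothesis (proved elsewhere, piece c3-i): `t ∈ FF M` with `j * t ^ 3 = (t + 27) * (t + 243) ^ 3`.
Then `F_M / ℚ̄(t)` is unramified outside `t ∈ {0, -27, ∞}`:

* `ord_t3_sub_eq_one` : `c ≠ 0`, `c ≠ -27`, `0 < v.ord (t - c)` ⟹ `v.ord (t - c) = 1`;
* `ord_t3_add_27_dvd_three` : `0 < v.ord (t + 27)` ⟹ `v.ord (t + 27) ∣ 3`;
* `ord_t3_inv_sub_eq_one` : the same in the coordinate `1/t` (chart at infinity).
-/

set_option autoImplicit false

noncomputable section

open AlgebraicCurve ModularCurve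

namespace Fermat.Agent.S18.H558

open Fermat.Agent.S24

section T3

variable (M : ℕ) [NeZero M] (t : FF M) (hid : jF M * t ^ 3 = (t + 27) * (t + 243) ^ 3)

include hid

theorem t3_ne_zero : t ≠ 0 := by
  rintro rfl
  norm_num at hid

/-- Places over `t = -27`: ramification index `1` or `3`. -/
theorem ord_t3_add_27_dvd_three (v : Place Kbar (FF M))
    (hv : 0 < v.ord (t - algebraMap Kbar (FF M) (-27))) :
    v.ord (t - algebraMap Kbar (FF M) (-27)) ∣ 3 := by
  set T := t - algebraMap Kbar (FF M) (-27) with hT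
  have ht0 : t ≠ 0 := t3_ne_zero M t hid
  have hT0 : T ≠ 0 := H117.ne_zero_of_ord_ne_zero v hv.ne'
  have htv : v.ord t = 0 := ord_eq_zero_of_ord_sub_pos v (by norm_num) hv
  have ht3 : v.ord (t ^ 3) = 0 := by rw [H117.ord_pow, htv]; simp
  have e1 : algebraMap Kbar (FF M) (-27) = -27 := by rw [map_neg, map_ofNat]
  have e3 : algebraMap Kbar (FF M) 216 = 216 := map_ofNat _ _
  have key : jF M * t ^ 3 = T ^ 1 * (algebraMap Kbar (FF M) 216 + T * 1) ^ 3 := by
    rw [hT, e1, e3]; linear_combination hid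
  have hU0 := const_add_mul_ne_zero v (g := (216 : Kbar)) (by norm_num) hv (one_mem _)
  have hU := ord_const_add_mul v (g := (216 : Kbar)) (by norm_num) hv (one_mem _)
  obtain ⟨hJ0, hJ⟩ := ord_eq_of_key v 1 key (pow_ne_zero 3 ht0) ht3 (pow_ne_zero 3 hU0)
    (by rw [H117.ord_pow, hU]; simp) hT0
  have hJ' : v.ord (jF M) = v.ord T := by simpa using hJ
  have hpos : 0 < v.ord (jF M) := by rw [hJ']; exact hv
  have := ord_j_dvd_three M v hpos
  rwa [hJ'] at this

/-- **`F_M / ℚ̄(t₃)` is unramified outside `t₃ ∈ {0, -27, ∞}`.** -/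
theorem ord_t3_sub_eq_one (c : Kbar) (hc0 : c ≠ 0) (hc27 : c ≠ -27) (v : Place Kbar (FF M))
    (hv : 0 < v.ord (t - algebraMap Kbar (FF M) c)) :
    v.ord (t - algebraMap Kbar (FF M) c) = 1 := by
  set C : FF M := algebraMap Kbar (FF M) c with hC
  set T := t - C with hT
  have ht0 : t ≠ 0 := t3_ne_zero M t hid
  have hT0 : T ≠ 0 := H117.ne_zero_of_ord_ne_zero v hv.ne'
  have htv : v.ord t = 0 := ord_eq_zero_of_ord_sub_pos v hc0 hv
  have htmem : t ∈ v.toValuationSubring := mem_of_ord_sub_pos v hv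
  have hCmem : C ∈ v.toValuationSubring := v.algebraMap_mem' c
  have hC0 : C ≠ 0 := (map_ne_zero _).2 hc0
  have hCv : v.ord C = 0 := H117.ord_algebraMap v c
  have ht3 : v.ord (t ^ 3) = 0 := by rw [H117.ord_pow, htv]; simp
  by_cases h243 : c = -243
  · -- `j t³ = (t + 243)³ (t + 27)`
    have hCe : C = -243 := by rw [hC, h243, map_neg, map_ofNat]
    have e3 : algebraMap Kbar (FF M) (-216) = -216 := by rw [map_neg, map_ofNat]
    have key : jF M * t ^ 3 = T ^ 3 * (algebraMap Kbar (FF M) (-216) + T * 1) := by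
      rw [hT, hCe, e3]; linear_combination hid
    obtain ⟨hJ0, hJ⟩ := ord_eq_of_key v 3 key (pow_ne_zero 3 ht0) ht3
      (const_add_mul_ne_zero v (by norm_num) hv (one_mem _))
      (ord_const_add_mul v (by norm_num) hv (one_mem _)) hT0
    have hpos : 0 < v.ord (jF M) := by rw [hJ]; positivity
    have h3 := ord_j_dvd_three M v hpos
    rw [hJ] at h3
    exact eq_one_of_mul_dvd (k := 3) (by norm_num) hv (by exact_mod_cast h3)
  by_cases hquad : c ^ 2 - 486 * c - 19683 = 0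
  · -- `(j - 1728) t³ = (t² - 486 t - 19683)² = (t - c)² (t - c')²`
    have e2 : algebraMap Kbar (FF M) 1728 = 1728 := map_ofNat _ _
    have hg : (2 * c - 486 : Kbar) ≠ 0 := by
      intro h
      have hc : c = 243 := by linear_combination h / 2
      rw [hc] at hquad
      norm_num at hquad
    have hG : algebraMap Kbar (FF M) (2 * c - 486) = 2 * C - 486 := by
      simp [map_sub, map_mul, map_ofNat, hC]
    have hquad' : C ^ 2 - 486 * C - 19683 = 0 := by
      have := congrArg (algebraMap Kbar (FF M)) hquad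
      simpa [map_sub, map_mul, map_pow, map_ofNat, hC] using this
    have key : (jF M - algebraMap Kbar (FF M) 1728) * t ^ 3
        = T ^ 2 * (algebraMap Kbar (FF M) (2 * c - 486) + T * 1) ^ 2 := by
      rw [hG, hT, e2]
      linear_combination hid + (2 * t ^ 2 - 972 * t - 39366 - (C ^ 2 - 486 * C - 19683)) * hquad'
    have hU0 := const_add_mul_ne_zero v hg hv (one_mem _)
    have hU := ord_const_add_mul v hg hv (one_mem _)
    obtain ⟨hJ0, hJ⟩ := ord_eq_of_key v 2 key (pow_ne_zero 3 ht0) ht3 (pow_ne_zero 2 hU0)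
      (by rw [H117.ord_pow, hU]; simp) hT0
    have hpos : 0 < v.ord (jF M - algebraMap Kbar (FF M) 1728) := by rw [hJ]; positivity
    have h2 := ord_j_sub_1728_dvd_two M v hpos
    rw [hJ] at h2
    exact eq_one_of_mul_dvd (k := 2) (by norm_num) hv (by exact_mod_cast h2)
  · -- generic case
    set a : Kbar := (c + 27) * (c + 243) ^ 3 / c ^ 3 with ha
    have hc3 : c ^ 3 ≠ 0 := pow_ne_zero 3 hc0
    have h27' : c + 27 ≠ 0 := fun h => hc27 (eq_neg_of_add_eq_zero_left h)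
    have h243' : c + 243 ≠ 0 := fun h => h243 (eq_neg_of_add_eq_zero_left h)
    have hac : a * c ^ 3 = (c + 27) * (c + 243) ^ 3 := by rw [ha]; field_simp
    have ha0 : a ≠ 0 := by
      rw [ha]
      exact div_ne_zero (mul_ne_zero h27' (pow_ne_zero 3 h243')) hc3
    have ha1728 : a ≠ 1728 := by
      intro h
      rw [h] at hac
      have : (c ^ 2 - 486 * c - 19683) ^ 2 = 0 := by linear_combination -hac
      exact hquad (pow_eq_zero_iff (by norm_num) |>.mp this)
    set q : Kbar := c ^ 2 * (c + 243) ^ 2 * (c ^ 2 - 486 * c - 19683) with hq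
    have hq0 : q ≠ 0 := by
      rw [hq]
      exact mul_ne_zero (mul_ne_zero (pow_ne_zero 2 hc0) (pow_ne_zero 2 h243')) hquad
    have hA : algebraMap Kbar (FF M) a * C ^ 3 = (C + 27) * (C + 243) ^ 3 := by
      have := congrArg (algebraMap Kbar (FF M)) hac
      simpa [map_mul, map_pow, map_add, map_ofNat] using this
    have hQ : algebraMap Kbar (FF M) q = C ^ 2 * (C + 243) ^ 2 * (C ^ 2 - 486 * C - 19683) := by
      rw [hq]; simp [map_mul, map_pow, map_add, map_sub, map_ofNat, hC]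
    set W : FF M := t ^ 2 * C ^ 3 + t * C ^ 4 - 196830 * (t * C ^ 2) - 19131876 * (t * C)
      - 387420489 * t + C ^ 5 - 196830 * C ^ 3 - 38263752 * C ^ 2 - 774840978 * C with hW
    have hnum : ∀ n : ℕ, (n : FF M) ∈ v.toValuationSubring := fun n => natCast_mem _ n
    have hWmem : W ∈ v.toValuationSubring := by
      have h1 : (196830 : FF M) ∈ v.toValuationSubring := by exact_mod_cast hnum 196830
      have h2 : (19131876 : FF M) ∈ v.toValuationSubring := by exact_mod_cast hnum 19131876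
      have h3 : (387420489 : FF M) ∈ v.toValuationSubring := by exact_mod_cast hnum 387420489
      have h4 : (38263752 : FF M) ∈ v.toValuationSubring := by exact_mod_cast hnum 38263752
      have h5 : (774840978 : FF M) ∈ v.toValuationSubring := by exact_mod_cast hnum 774840978
      refine sub_mem (sub_mem (sub_mem (add_mem (sub_mem (sub_mem (sub_mem (add_mem ?_ ?_) ?_) ?_)
        ?_) ?_) ?_) ?_) ?_
      · exact mul_mem (pow_mem htmem 2) (pow_mem hCmem 3)
      · exact mul_mem htmem (pow_mem hCmem 4)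
      · exact mul_mem h1 (mul_mem htmem (pow_mem hCmem 2))
      · exact mul_mem h2 (mul_mem htmem hCmem)
      · exact mul_mem h3 htmem
      · exact pow_mem hCmem 5
      · exact mul_mem h1 (pow_mem hCmem 3)
      · exact mul_mem h4 (pow_mem hCmem 2)
      · exact mul_mem h5 hCmem
    have key : (jF M - algebraMap Kbar (FF M) a) * (t ^ 3 * C ^ 3)
        = T ^ 1 * (algebraMap Kbar (FF M) q + T * W) := by
      rw [hQ, hW, hT]
      linear_combination C ^ 3 * hid - t ^ 3 * hA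
    have hD0 : t ^ 3 * C ^ 3 ≠ 0 := mul_ne_zero (pow_ne_zero 3 ht0) (pow_ne_zero 3 hC0)
    have hD : v.ord (t ^ 3 * C ^ 3) = 0 := by
      rw [v.ord_mul (pow_ne_zero 3 ht0) (pow_ne_zero 3 hC0), ht3, H117.ord_pow, hCv]; simp
    obtain ⟨hJ0, hJ⟩ := ord_eq_of_key v 1 key hD0 hD
      (const_add_mul_ne_zero v hq0 hv hWmem) (ord_const_add_mul v hq0 hv hWmem) hT0
    have hJ' : v.ord (jF M - algebraMap Kbar (FF M) a) = v.ord T := by simpa using hJ
    have hpos : 0 < v.ord (jF M - algebraMap Kbar (FF M) a) := by rw [hJ']; exact hv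
    rw [← hJ']
    exact ord_j_sub_eq_one M a ha0 ha1728 v hpos

/-- The same statement in the coordinate `s = 1/t` (chart at infinity): unramified outside
`s ∈ {0, -1/27}`. -/
theorem ord_t3_inv_sub_eq_one (s : Kbar) (hs0 : s ≠ 0) (hs27 : s ≠ -(1 / 27))
    (v : Place Kbar (FF M)) (hv : 0 < v.ord (t⁻¹ - algebraMap Kbar (FF M) s)) :
    v.ord (t⁻¹ - algebraMap Kbar (FF M) s) = 1 := by
  have ht0 : t ≠ 0 := t3_ne_zero M t hid
  have hti : v.ord t⁻¹ = 0 := ord_eq_zero_of_ord_sub_pos v hs0 hv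
  have htv : v.ord t = 0 := by rw [v.ord_inv] at hti; omega
  set S : FF M := algebraMap Kbar (FF M) s with hS
  have hS0 : S ≠ 0 := (map_ne_zero _).2 hs0
  have hSv : v.ord S = 0 := H117.ord_algebraMap v s
  have hrel : t⁻¹ - S = (-(S * t⁻¹)) * (t - algebraMap Kbar (FF M) s⁻¹) := by
    rw [map_inv₀, ← hS]
    have h1 : S * S⁻¹ = 1 := mul_inv_cancel₀ hS0
    have h2 : t * t⁻¹ = 1 := mul_inv_cancel₀ ht0
    linear_combination (-t⁻¹) * h1 + S * h2
  have hne1 : -(S * t⁻¹) ≠ 0 := neg_ne_zero.mpr (mul_ne_zero hS0 (inv_ne_zero ht0))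
  have hord1 : v.ord (-(S * t⁻¹)) = 0 := by
    rw [H117.ord_neg, v.ord_mul hS0 (inv_ne_zero ht0), hSv, hti]; rfl
  have hne2 : t - algebraMap Kbar (FF M) s⁻¹ ≠ 0 := by
    intro h
    rw [h, mul_zero] at hrel
    rw [hrel, v.ord_zero] at hv
    exact lt_irrefl _ hv
  have hord : v.ord (t⁻¹ - S) = v.ord (t - algebraMap Kbar (FF M) s⁻¹) := by
    rw [hrel, v.ord_mul hne1 hne2, hord1, zero_add]
  rw [hord] at hv ⊢
  refine ord_t3_sub_eq_one M t hid s⁻¹ (inv_ne_zero hs0) ?_ v hv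
  intro h
  apply hs27
  have : s = (s⁻¹)⁻¹ := (inv_inv s).symm
  rw [this, h]
  norm_num

end T3

end Fermat.Agent.S18.H558

end
end
-- ===== PACK-END S18/H558/BranchT3.lean

-- ===== PACK-BEGIN S18/H558/PartBr.lean
section






/-!
# S18 / MOD / G-BR (helper558): the branch-value fields of `Alg.GoodModel` at the concrete objects

Target: the four fields `S_mem`, `S_distinct`, `S_unit`, `unramified` of `Alg.GoodModel`
(= the structure `PartBr (Lc M) (Rc M A E) x S` of MOD-ASM helper216) for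

* `x = jOm M`, `S = {0, 1728}`, `ℓ ≥ 5`                       (`brJ_*`),
* `x` with `jOm M * x ^ 2 = (x + 256) ^ 3`, `S = {0, -64}`, `ℓ = 3`   (`brT2_*`),
* `x` with `jOm M * x ^ 3 = (x + 27) * (x + 243) ^ 3`, `S = {0, -27}`, `ℓ = 2` (`brT3_*`),

for EVERY intermediate field `E` of `Q̄/ℚ` (no finiteness needed) and every valuation subring `A`
of `Q̄` lying over `ℓ`.  The bundled forms `brJ`, `brT2`, `brT3` are conjunctions of the four
fields in the order of the structure, so `PartBr` is `⟨h.1, h.2.1, h.2.2.1, h.2.2.2⟩`.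

Inputs: M2 (`H558/Branch*.lean`, Place language) and `H804.exists_place_of_valuationSubring_modular`
(every proper valuation subring of `F_M` containing `Q̄` is a `Place`).
-/

set_option autoImplicit false

noncomputable section

namespace Fermat.Agent.S18.H558

open AlgebraicCurve ModularCurve Fermat.Agent.S24 Fermat.Agent.S18 Fermat.Agent.S18.Mod

variable (M : ℕ) [NeZero M]

/-- The frozen coordinate `jOm M` is the `j`-function `jF M` of the S24 library. -/
theorem jOm_eq_jF : jOm M = jF M := by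
  apply Subtype.ext
  show coeffEmb Qb (qExpand ℚ 1 jq) = coeffEmb Kbar jq
  rw [qExpand_one_apply]

/-! ### Integers in `Rc` -/

section Consts

variable (A : ValuationSubring Qb) (E : IntermediateField ℚ Qb)

theorem algebraMap_mem_Rc {a : Qb} (hA : a ∈ A) (hE : a ∈ E) :
    algebraMap Qb (Om M) a ∈ Rc M A E :=
  Subring.mem_map.2 ⟨a, ⟨hA, hE⟩, rfl⟩

theorem intCast_mem_Rc (n : ℤ) : ((n : ℤ) : Om M) ∈ Rc M A E := by
  have h : ((n : ℤ) : Om M) = algebraMap Qb (Om M) (n : Qb) := (map_intCast _ n).symm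
  rw [h]
  exact algebraMap_mem_Rc M A E (intCast_mem A n) (intCast_mem E n)

theorem inv_intCast_mem_Rc (n : ℤ) (hn : ((n : ℤ) : Qb)⁻¹ ∈ A) :
    (((n : ℤ) : Om M))⁻¹ ∈ Rc M A E := by
  have h : (((n : ℤ) : Om M))⁻¹ = algebraMap Qb (Om M) ((n : Qb)⁻¹) := by
    rw [map_inv₀, map_intCast]
  rw [h]
  exact algebraMap_mem_Rc M A E hn (inv_mem (intCast_mem E n))

/-- An integer prime to the residue characteristic is a unit of `A`. -/
theorem inv_intCast_mem_of_coprime {ℓ : ℕ} (hA : A.LiesOverPrime ℓ) (n : ℤ)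
    (hn : IsCoprime n (ℓ : ℤ)) : ((n : ℤ) : Qb)⁻¹ ∈ A := by
  obtain ⟨a, b, hab⟩ := hn
  have hℓ : A.valuation (ℓ : Qb) < 1 := (A.mem_nonunits_iff).1 hA
  have hb : A.valuation (b : Qb) ≤ 1 := (A.valuation_le_one_iff _).2 (intCast_mem A b)
  have ha : A.valuation (a : Qb) ≤ 1 := (A.valuation_le_one_iff _).2 (intCast_mem A a)
  have hnv : A.valuation (n : Qb) ≤ 1 := (A.valuation_le_one_iff _).2 (intCast_mem A n)
  have hbℓ : A.valuation ((b : Qb) * (ℓ : Qb)) < 1 := by
    rw [map_mul]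
    calc A.valuation (b : Qb) * A.valuation (ℓ : Qb) ≤ 1 * A.valuation (ℓ : Qb) :=
          mul_le_mul' hb le_rfl
      _ = A.valuation (ℓ : Qb) := one_mul _
      _ < 1 := hℓ
  have hone : (a : Qb) * (n : Qb) = 1 - (b : Qb) * (ℓ : Qb) := by
    have h := congrArg (Int.cast : ℤ → Qb) hab
    push_cast at h
    linear_combination h
  have h1 : A.valuation (1 - (b : Qb) * (ℓ : Qb)) = 1 := Valuation.map_one_sub_of_lt _ hbℓ
  have h2 : A.valuation (a : Qb) * A.valuation (n : Qb) = 1 := by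
    rw [← map_mul, hone, h1]
  have h3 : A.valuation (n : Qb) = 1 := by
    apply le_antisymm hnv
    calc (1 : _) = A.valuation (a : Qb) * A.valuation (n : Qb) := h2.symm
      _ ≤ 1 * A.valuation (n : Qb) := mul_le_mul' ha le_rfl
      _ = A.valuation (n : Qb) := one_mul _
  rw [← A.valuation_le_one_iff, map_inv₀, h3, inv_one]

end Consts

/-! ### From the Place statement to the valuation-subring statement -/

/-- If `x - c` has order `1` at every place where it vanishes (for the constants `c ∉ S`), then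
`x` satisfies the field `unramified` of `Alg.GoodModel`. -/
theorem unramified_of_ord (x : Om M) (S : Finset (Om M))
    (h : ∀ c : Qb, algebraMap Qb (Om M) c ∉ S → ∀ v : Place Qb (Om M),
      0 < v.ord (x - algebraMap Qb (Om M) c) → v.ord (x - algebraMap Qb (Om M) c) = 1) :
    ∀ O : ValuationSubring (Om M), (∀ a ∈ Lc M, a ∈ O) → ∀ c ∈ Lc M, c ∉ S →
      x - c ∈ O → (x - c)⁻¹ ∉ O → ∀ t ∈ O, t⁻¹ ∉ O → t * (x - c)⁻¹ ∈ O := by
  intro O hL c hc hcS hxO hxinv t ht htinv
  obtain ⟨c₀, rfl⟩ := hc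
  have hK : ∀ a : Qb, algebraMap Qb (Om M) a ∈ O := fun a => hL _ ⟨a, rfl⟩
  have hO : O ≠ ⊤ := by
    intro htop
    exact hxinv (htop ▸ ValuationSubring.mem_top _)
  obtain ⟨v, rfl⟩ := H804.exists_place_of_valuationSubring_modular M O hK hO
  have hx0 : x - algebraMap Qb (Om M) c₀ ≠ 0 := by
    intro h0
    rw [h0, inv_zero] at hxinv
    exact hxinv (zero_mem _)
  have ht0 : t ≠ 0 := by
    intro h0
    rw [h0, inv_zero] at htinv
    exact htinv (zero_mem _)
  have h1 : 0 ≤ v.ord (x - algebraMap Qb (Om M) c₀) := H117.ord_nonneg_of_mem v hxO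
  have h2 : ¬ 0 ≤ v.ord (x - algebraMap Qb (Om M) c₀)⁻¹ := fun hh =>
    hxinv (H117.mem_of_ord_nonneg v hh)
  rw [v.ord_inv] at h2
  have h3 : 0 ≤ v.ord t := H117.ord_nonneg_of_mem v ht
  have h4 : ¬ 0 ≤ v.ord t⁻¹ := fun hh => htinv (H117.mem_of_ord_nonneg v hh)
  rw [v.ord_inv] at h4
  have h5 := h c₀ hcS v (by omega)
  apply H117.mem_of_ord_nonneg v
  rw [v.ord_mul ht0 (inv_ne_zero hx0), v.ord_inv, h5]
  omega

/-! ### The coordinate `j`, `ℓ ≥ 5` -/

section J

variable (A : ValuationSubring Qb) (E : IntermediateField ℚ Qb) {ℓ : ℕ}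

theorem inv_1728_mem (hℓ : ℓ.Prime) (h5 : 5 ≤ ℓ) (hA : A.LiesOverPrime ℓ) :
    ((1728 : ℤ) : Qb)⁻¹ ∈ A := by
  apply inv_intCast_mem_of_coprime A hA
  have hcop : Nat.Coprime 1728 ℓ := by
    rw [Nat.coprime_comm, Nat.Prime.coprime_iff_not_dvd hℓ]
    intro hdvd
    have h1728 : (1728 : ℕ) = 2 ^ 6 * 3 ^ 3 := by norm_num
    rw [h1728] at hdvd
    rcases (Nat.Prime.dvd_mul hℓ).1 hdvd with h | h
    · have := Nat.le_of_dvd (by norm_num) (hℓ.dvd_of_dvd_pow h)
      omega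
    · have := Nat.le_of_dvd (by norm_num) (hℓ.dvd_of_dvd_pow h)
      omega
  exact_mod_cast (Nat.isCoprime_iff_coprime.2 hcop)

theorem brJ_unramified (S : Finset (Om M)) (hS : ∀ s, s ∈ S ↔ s = 0 ∨ s = 1728) :
    ∀ O : ValuationSubring (Om M), (∀ a ∈ Lc M, a ∈ O) → ∀ c ∈ Lc M, c ∉ S →
      jOm M - c ∈ O → (jOm M - c)⁻¹ ∉ O → ∀ t ∈ O, t⁻¹ ∉ O → t * (jOm M - c)⁻¹ ∈ O := by
  apply unramified_of_ord
  intro c hcS v hv
  rw [jOm_eq_jF] at hv ⊢
  have h0 : c ≠ 0 := by
    rintro rfl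
    exact hcS ((hS _).2 (Or.inl (map_zero _)))
  have h1 : c ≠ 1728 := by
    rintro rfl
    exact hcS ((hS _).2 (Or.inr (map_ofNat _ 1728)))
  exact ord_j_sub_eq_one M c h0 h1 v hv

/-- **G-BR for `x = j`, `ℓ ≥ 5`**: the four fields `S_mem`, `S_distinct`, `S_unit`, `unramified`. -/
theorem brJ (hℓ : ℓ.Prime) (h5 : 5 ≤ ℓ) (hA : A.LiesOverPrime ℓ) (S : Finset (Om M))
    (hS : ∀ s, s ∈ S ↔ s = 0 ∨ s = 1728) :
    (∀ s ∈ S, s ∈ Rc M A E) ∧
    (∀ s ∈ S, ∀ t ∈ S, s ≠ t → (s - t)⁻¹ ∈ Rc M A E) ∧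
    (∀ s ∈ S, s ≠ 0 → s⁻¹ ∈ Rc M A E) ∧
    (∀ O : ValuationSubring (Om M), (∀ a ∈ Lc M, a ∈ O) → ∀ c ∈ Lc M, c ∉ S →
      jOm M - c ∈ O → (jOm M - c)⁻¹ ∉ O → ∀ t ∈ O, t⁻¹ ∉ O → t * (jOm M - c)⁻¹ ∈ O) := by
  have hu : ((1728 : ℤ) : Om M)⁻¹ ∈ Rc M A E :=
    inv_intCast_mem_Rc M A E 1728 (inv_1728_mem A hℓ h5 hA)
  have hcast : ((1728 : ℤ) : Om M) = 1728 := by norm_num
  rw [hcast] at hu
  refine ⟨?_, ?_, ?_, brJ_unramified M S hS⟩
  · intro s hs
    rcases (hS s).1 hs with rfl | rfl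
    · exact zero_mem _
    · have := intCast_mem_Rc M A E 1728
      rwa [hcast] at this
  · intro s hs t ht hst
    rcases (hS s).1 hs with rfl | rfl <;> rcases (hS t).1 ht with rfl | rfl
    · exact absurd rfl hst
    · rw [zero_sub, inv_neg]
      exact neg_mem hu
    · rwa [sub_zero]
    · exact absurd rfl hst
  · intro s hs hs0
    rcases (hS s).1 hs with rfl | rfl
    · exact absurd rfl hs0
    · exact hu

end J

/-! ### The Hauptmodul `t₂`, `ℓ = 3` -/

section T2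

variable (A : ValuationSubring Qb) (E : IntermediateField ℚ Qb)

theorem inv_64_mem (hA : A.LiesOverPrime 3) : ((64 : ℤ) : Qb)⁻¹ ∈ A := by
  apply inv_intCast_mem_of_coprime A hA
  have hcop : Nat.Coprime 64 3 := by norm_num
  exact_mod_cast (Nat.isCoprime_iff_coprime.2 hcop)

theorem brT2_unramified (x : Om M) (hx : jOm M * x ^ 2 = (x + 256) ^ 3) (S : Finset (Om M))
    (hS : ∀ s, s ∈ S ↔ s = 0 ∨ s = -64) :
    ∀ O : ValuationSubring (Om M), (∀ a ∈ Lc M, a ∈ O) → ∀ c ∈ Lc M, c ∉ S →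
      x - c ∈ O → (x - c)⁻¹ ∉ O → ∀ t ∈ O, t⁻¹ ∉ O → t * (x - c)⁻¹ ∈ O := by
  apply unramified_of_ord
  intro c hcS v hv
  rw [jOm_eq_jF] at hx
  have h0 : c ≠ 0 := by
    rintro rfl
    exact hcS ((hS _).2 (Or.inl (map_zero _)))
  have h1 : c ≠ -64 := by
    rintro rfl
    exact hcS ((hS _).2 (Or.inr (by rw [map_neg, map_ofNat])))
  exact ord_t2_sub_eq_one M x hx c h0 h1 v hv

/-- **G-BR for `x = t₂`, `ℓ = 3`**. -/
theorem brT2 (hA : A.LiesOverPrime 3) (x : Om M) (hx : jOm M * x ^ 2 = (x + 256) ^ 3)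
    (S : Finset (Om M)) (hS : ∀ s, s ∈ S ↔ s = 0 ∨ s = -64) :
    (∀ s ∈ S, s ∈ Rc M A E) ∧
    (∀ s ∈ S, ∀ t ∈ S, s ≠ t → (s - t)⁻¹ ∈ Rc M A E) ∧
    (∀ s ∈ S, s ≠ 0 → s⁻¹ ∈ Rc M A E) ∧
    (∀ O : ValuationSubring (Om M), (∀ a ∈ Lc M, a ∈ O) → ∀ c ∈ Lc M, c ∉ S →
      x - c ∈ O → (x - c)⁻¹ ∉ O → ∀ t ∈ O, t⁻¹ ∉ O → t * (x - c)⁻¹ ∈ O) := by
  have hu : ((64 : ℤ) : Om M)⁻¹ ∈ Rc M A E :=
    inv_intCast_mem_Rc M A E 64 (inv_64_mem A hA)
  have hcast : ((64 : ℤ) : Om M) = 64 := by norm_num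
  rw [hcast] at hu
  refine ⟨?_, ?_, ?_, brT2_unramified M x hx S hS⟩
  · intro s hs
    rcases (hS s).1 hs with rfl | rfl
    · exact zero_mem _
    · have := intCast_mem_Rc M A E 64
      rw [hcast] at this
      exact neg_mem this
  · intro s hs t ht hst
    rcases (hS s).1 hs with rfl | rfl <;> rcases (hS t).1 ht with rfl | rfl
    · exact absurd rfl hst
    · rwa [zero_sub, neg_neg]
    · rw [sub_zero, inv_neg]
      exact neg_mem hu
    · exact absurd rfl hst
  · intro s hs hs0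
    rcases (hS s).1 hs with rfl | rfl
    · exact absurd rfl hs0
    · rw [inv_neg]
      exact neg_mem hu

end T2

/-! ### The Hauptmodul `t₃`, `ℓ = 2` -/

section T3

variable (A : ValuationSubring Qb) (E : IntermediateField ℚ Qb)

theorem inv_27_mem (hA : A.LiesOverPrime 2) : ((27 : ℤ) : Qb)⁻¹ ∈ A := by
  apply inv_intCast_mem_of_coprime A hA
  have hcop : Nat.Coprime 27 2 := by norm_num
  exact_mod_cast (Nat.isCoprime_iff_coprime.2 hcop)

theorem brT3_unramified (x : Om M) (hx : jOm M * x ^ 3 = (x + 27) * (x + 243) ^ 3)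
    (S : Finset (Om M)) (hS : ∀ s, s ∈ S ↔ s = 0 ∨ s = -27) :
    ∀ O : ValuationSubring (Om M), (∀ a ∈ Lc M, a ∈ O) → ∀ c ∈ Lc M, c ∉ S →
      x - c ∈ O → (x - c)⁻¹ ∉ O → ∀ t ∈ O, t⁻¹ ∉ O → t * (x - c)⁻¹ ∈ O := by
  apply unramified_of_ord
  intro c hcS v hv
  rw [jOm_eq_jF] at hx
  have h0 : c ≠ 0 := by
    rintro rfl
    exact hcS ((hS _).2 (Or.inl (map_zero _)))
  have h1 : c ≠ -27 := by
    rintro rfl
    exact hcS ((hS _).2 (Or.inr (by rw [map_neg, map_ofNat])))
  exact ord_t3_sub_eq_one M x hx c h0 h1 v hv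

/-- **G-BR for `x = t₃`, `ℓ = 2`**. -/
theorem brT3 (hA : A.LiesOverPrime 2) (x : Om M)
    (hx : jOm M * x ^ 3 = (x + 27) * (x + 243) ^ 3)
    (S : Finset (Om M)) (hS : ∀ s, s ∈ S ↔ s = 0 ∨ s = -27) :
    (∀ s ∈ S, s ∈ Rc M A E) ∧
    (∀ s ∈ S, ∀ t ∈ S, s ≠ t → (s - t)⁻¹ ∈ Rc M A E) ∧
    (∀ s ∈ S, s ≠ 0 → s⁻¹ ∈ Rc M A E) ∧
    (∀ O : ValuationSubring (Om M), (∀ a ∈ Lc M, a ∈ O) → ∀ c ∈ Lc M, c ∉ S →
      x - c ∈ O → (x - c)⁻¹ ∉ O → ∀ t ∈ O, t⁻¹ ∉ O → t * (x - c)⁻¹ ∈ O) := by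
  have hu : ((27 : ℤ) : Om M)⁻¹ ∈ Rc M A E :=
    inv_intCast_mem_Rc M A E 27 (inv_27_mem A hA)
  have hcast : ((27 : ℤ) : Om M) = 27 := by norm_num
  rw [hcast] at hu
  refine ⟨?_, ?_, ?_, brT3_unramified M x hx S hS⟩
  · intro s hs
    rcases (hS s).1 hs with rfl | rfl
    · exact zero_mem _
    · have := intCast_mem_Rc M A E 27
      rw [hcast] at this
      exact neg_mem this
  · intro s hs t ht hst
    rcases (hS s).1 hs with rfl | rfl <;> rcases (hS t).1 ht with rfl | rfl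
    · exact absurd rfl hst
    · rwa [zero_sub, neg_neg]
    · rw [sub_zero, inv_neg]
      exact neg_mem hu
    · exact absurd rfl hst
  · intro s hs hs0
    rcases (hS s).1 hs with rfl | rfl
    · exact absurd rfl hs0
    · rw [inv_neg]
      exact neg_mem hu

end T3

/-- **G-BR, all admissible coordinates at once**: for every coordinate `x` with branch set `S`
in the sense of `Mod.IsCoordinate`, the four branch fields of `Alg.GoodModel` hold at the concrete
objects, for every intermediate field `E`. -/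
theorem br_of_isCoordinate {ℓ : ℕ} [Fact ℓ.Prime] (A : ValuationSubring Qb)
    (hA : A.LiesOverPrime ℓ) (E : IntermediateField ℚ Qb) (x : Om M) (S : Finset (Om M))
    (hx : IsCoordinate M ℓ x S) :
    (∀ s ∈ S, s ∈ Rc M A E) ∧
    (∀ s ∈ S, ∀ t ∈ S, s ≠ t → (s - t)⁻¹ ∈ Rc M A E) ∧
    (∀ s ∈ S, s ≠ 0 → s⁻¹ ∈ Rc M A E) ∧
    (∀ O : ValuationSubring (Om M), (∀ a ∈ Lc M, a ∈ O) → ∀ c ∈ Lc M, c ∉ S →
      x - c ∈ O → (x - c)⁻¹ ∉ O → ∀ t ∈ O, t⁻¹ ∉ O → t * (x - c)⁻¹ ∈ O) := by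
  rcases hx with ⟨h5, rfl, hS⟩ | ⟨⟨h3, hid, hS⟩ | ⟨h2, hid, hS⟩, -⟩
  · exact brJ M A E Fact.out h5 hA S hS
  · subst h3
    exact brT2 M A E hA x hid S hS
  · subst h2
    exact brT3 M A E hA x hid S hS

end Fermat.Agent.S18.H558

end

end
-- ===== PACK-END S18/H558/PartBr.lean

-- ===== PACK-BEGIN A2/Mod/H142/S2Final.lean
section




/-!
# A2 / MODASM sub-assembly S2 (components normal), unconditional (helper142)

`s2 : S2Statement P E M q w` (VERBATIM `A2/Mod/Asm.lean`), from `s2_of_leaves` with the leaves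
L7 (`H900.frickeStable`) and L11 (`H378.resInf`) taken from main.
-/

set_option autoImplicit false
set_option synthInstance.maxHeartbeats 400000
set_option maxHeartbeats 1600000

namespace Fermat.Agent.A2.Mod.H142

/-- **MODASM sub-assembly S2** (components of the special fibre are normal). -/
theorem s2 (P : ValuationSubring _root_.Fermat.Agent.A2.Mod.Qb) (E : IntermediateField ℚ _root_.Fermat.Agent.A2.Mod.Qb) (M q : ℕ) [NeZero M]
    [NeZero q] (w : _root_.Fermat.Agent.A2.Mod.RE P E) : S2Statement P E M q w :=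
  s2_of_leaves P E M q w (H900.frickeStable P E M q w) (H378.resInf P E M q w)

end Fermat.Agent.A2.Mod.H142

end
-- ===== PACK-END A2/Mod/H142/S2Final.lean

-- ===== PACK-BEGIN Ribet/H224/WPNode.lean
section







/-!
# RIBET row 38, WALL-p, W-ALGP leaf WPN = `H495.AlgP.WPNodeLeaf`, VERBATIM  (helper224)

Wild purity at a crossing point of a semistable chart, chart form (`PureAtP`).

Proof (chart adapter of `H704.I6.WildPurityStatement`):
1. the local ring `O = B_n = locAt F n` at the crossing point is a node ring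
   (`H132.exists_isNode_locAt`);
2. `u = a / b` with `a, b ∈ B ∖ (p₁ ∪ p₂)` (`H609.exists_common_denominator`), `g := a b^(p-1)`;
   `g` is horizontally `p`-divisible (`H132.horDiv_of_divisible`, from `DivisibleDiv`);
3. `DeepOne` (`u ∈ 1 + λ^p w V_i`) gives, by Newton steps inside the local ring `V_i`
   (`wpn_newton`), that `g` is a `p`-th power modulo `w ^ k` in `V_i` for EVERY `k`
   (`wpn_branch_pthPow`);
4. WPUR (`H7.wildPurity`): `g d₂^p = d₁^p s^p (1 + λ^p z)`; `d := b d₂ / (d₁ s)`,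
   `u d^p = 1 + λ^p z`, `z ∈ B_n`;
5. `u ∈ 1 + λ^p w V_i` and `u d^p ∈ 1 + λ^p V_i` give `d ∈ 1 + λ V_i` (`wpn_branch_close`;
   the sheet label is `j = 0`).
-/

set_option autoImplicit false
set_option linter.unusedSectionVars false
set_option linter.style.haveILetI false

namespace Fermat.Agent.Ribet.H224

open Fermat.Agent.A2 Fermat.Agent.A2.Alg Fermat.Agent.A2.H849 Fermat.Agent.A2.H609
open Fermat.Agent.Ribet.H704

section Abstract

variable {B F : Type} [CommRing B] [IsDomain B] [IsNoetherianRing B] [IsIntegrallyClosed B]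
  [Field F] [Algebra B F] [IsFractionRing B F]

/-- The numerator of `u` is outside the component. -/
theorem wpn_num_notMem (q : Ideal B) [hq : q.IsPrime] {lam w : B} {p : ℕ} (hwq : w ∈ q) {u : F}
    (hdeep : ∃ a b : B, b ∉ q ∧ a - b ∈ Ideal.span {lam ^ p * w} ∧
      u * algebraMap B F b = algebraMap B F a)
    {a b : B} (hb : b ∉ q) (hab : u * algebraMap B F b = algebraMap B F a) : a ∉ q := by
  obtain ⟨a₁, b₁, hb₁, hab₁, e₁⟩ := hdeep
  have hsub : a₁ - b₁ ∈ q := by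
    obtain ⟨s, hs⟩ := Ideal.mem_span_singleton'.1 hab₁
    rw [← hs]
    exact q.mul_mem_left _ (q.mul_mem_left _ hwq)
  have ha₁ : a₁ ∉ q := by
    intro h
    apply hb₁
    have : b₁ = a₁ - (a₁ - b₁) := by ring
    rw [this]
    exact q.sub_mem h hsub
  have hmul : a * b₁ = a₁ * b := by
    apply IsFractionRing.injective B F
    rw [map_mul, map_mul, ← hab, ← e₁]
    ring
  intro ha
  have h1 : a₁ * b ∈ q := by
    rw [← hmul]
    exact q.mul_mem_right _ ha
  rcases hq.mem_or_mem h1 with h | h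
  · exact ha₁ h
  · exact hb h

/-- **WPN, abstract chart form.** -/
theorem wpn_abstract {w : B} (hw0 : w ≠ 0) (p₁ p₂ n : Ideal B) [hp₁ : p₁.IsPrime]
    [hp₂ : p₂.IsPrime] [hn : n.IsPrime]
    [IsDedekindDomain (B ⧸ p₁)] [IsDedekindDomain (B ⧸ p₂)]
    (hinf : p₁ ⊓ p₂ = Ideal.span {w}) (h₁₂ : ¬ p₁ ≤ p₂) (h₂₁ : ¬ p₂ ≤ p₁)
    (htr : (p₁ ⊔ p₂).IsRadical) (h₁ : p₁ ≤ n) (h₂ : p₂ ≤ n)
    {p : ℕ} (hp : p.Prime) {lam ε η : B} {e : ℕ} (hε : IsUnit ε)
    (hlam : lam ^ (p - 1) = (p : B) * ε) (hη : IsUnit η) (he : 0 < e) (hlamη : lam = η * w ^ e)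
    {u : F} (hu : u ≠ 0)
    (hdiv : ∀ V : ValuationSubring F, IsDiscreteValuationRing V →
      (∀ b : B, algebraMap B F b ∈ V) → (algebraMap B F w)⁻¹ ∈ V →
      ∃ h u₀ : F, u₀ ∈ V ∧ u₀⁻¹ ∈ V ∧ u = u₀ * h ^ p)
    (hdeep₁ : ∃ a b : B, b ∉ p₁ ∧ a - b ∈ Ideal.span {lam ^ p * w} ∧
      u * algebraMap B F b = algebraMap B F a)
    (hdeep₂ : ∃ a b : B, b ∉ p₂ ∧ a - b ∈ Ideal.span {lam ^ p * w} ∧
      u * algebraMap B F b = algebraMap B F a) :
    ∃ d : F, d ≠ 0 ∧
      (∃ a b : B, b ∉ n ∧ a - b ∈ Ideal.span {lam ^ p} ∧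
        u * d ^ p * algebraMap B F b = algebraMap B F a) ∧
      (∃ a b : B, b ∉ p₁ ∧ a - b ∈ Ideal.span {lam} ∧
        d * algebraMap B F b = algebraMap B F a) ∧
      (∃ a b : B, b ∉ p₂ ∧ a - b ∈ Ideal.span {lam} ∧
        d * algebraMap B F b = algebraMap B F a) := by
  -- the node ring
  obtain ⟨X, Y, -, -, -, -, hnode⟩ :=
    H132.exists_isNode_locAt (F := F) p₁ p₂ n hinf h₁₂ h₂₁ htr h₁ h₂
  -- the inverse unit
  obtain ⟨κ, hκ⟩ := hε.exists_right_inv
  have hκu : IsUnit κ := IsUnit.of_mul_eq_one ε (by rw [mul_comm]; exact hκ)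
  have hpl : (p : B) = lam ^ (p - 1) * κ := by rw [hlam, mul_assoc, hκ, mul_one]
  have hw : w ∈ p₁ ⊓ p₂ := by
    rw [hinf]
    exact Ideal.mem_span_singleton_self w
  have hw₁ : w ∈ p₁ := hw.1
  have hw₂ : w ∈ p₂ := hw.2
  -- the branches are discrete valuation rings
  have hV₁ : H132.VertData w p₁ p₂ := ⟨hp₁, hw0, h₂₁, hinf⟩
  have hV₂ : H132.VertData w p₂ p₁ := ⟨hp₂, hw0, h₁₂, by rw [inf_comm]; exact hinf⟩
  haveI hdvr₁ : IsDiscreteValuationRing (locAt F p₁) := hV₁.isDiscreteValuationRing_locAt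
  haveI hdvr₂ : IsDiscreteValuationRing (locAt F p₂) := hV₂.isDiscreteValuationRing_locAt
  -- common denominator
  obtain ⟨a, b, hb₁, hb₂, hab⟩ := exists_common_denominator (p₁ := p₁) (p₂ := p₂) (u := u)
    (by obtain ⟨a, b, hb, -, e⟩ := hdeep₁; exact ⟨a, b, hb, e⟩)
    (by obtain ⟨a, b, hb, -, e⟩ := hdeep₂; exact ⟨a, b, hb, e⟩)
  have ha₁ : a ∉ p₁ := wpn_num_notMem p₁ hw₁ hdeep₁ hb₁ hab
  have ha₂ : a ∉ p₂ := wpn_num_notMem p₂ hw₂ hdeep₂ hb₂ hab
  have hb0 : algebraMap B F b ≠ 0 := wpn_ne_zero hb₁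
  have hpp : p = (p - 1) + 1 := by have := hp.two_le; omega
  -- `g = a b ^ (p - 1)`
  have hg₁ : a * b ^ (p - 1) ∉ p₁ := by
    intro h
    rcases hp₁.mem_or_mem h with h | h
    · exact ha₁ h
    · exact hb₁ (hp₁.mem_of_pow_mem _ h)
  have hg₂ : a * b ^ (p - 1) ∉ p₂ := by
    intro h
    rcases hp₂.mem_or_mem h with h | h
    · exact ha₂ h
    · exact hb₂ (hp₂.mem_of_pow_mem _ h)
  have hgF : algebraMap B F (a * b ^ (p - 1)) = u * algebraMap B F b ^ p := by
    rw [map_mul, map_pow, ← hab]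
    conv_rhs => rw [hpp, pow_succ]
    ring
  -- horizontal divisibility
  have hHor : I6.HorDiv (algebraMap B (locAt F n) w) p
      (algebraMap B (locAt F n) (a * b ^ (p - 1))) := by
    refine H132.horDiv_of_divisible (K := F) hnode hp.ne_zero hu
      (b := algebraMap B (locAt F n) b) ?_ ?_
    · exact hgF
    · intro V hV hO hwV
      exact hdiv V hV (fun b => hO (algebraMap B (locAt F n) b)) hwV
  -- the branch hypotheses
  have hpow₁ : ∀ k : ℕ, ∃ h r t : locAt F n, r ∉ p₁.map (algebraMap B (locAt F n)) ∧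
      algebraMap B (locAt F n) (a * b ^ (p - 1)) * r ^ p - h ^ p
        = algebraMap B (locAt F n) w ^ k * t := by
    intro k
    obtain ⟨h, r, t, hr, e⟩ := wpn_branch_pthPow (F := F) p₁ hp hκu hpl hw₁ hdeep₁ hab k
    refine ⟨algebraMap B _ h, algebraMap B _ r, algebraMap B _ t,
      fun hmem => hr ((algebraMap_mem_map_iff h₁ r).1 hmem), ?_⟩
    rw [← map_pow, ← map_pow, ← map_pow, ← map_mul, ← map_mul, ← map_sub, e]
  have hpow₂ : ∀ k : ℕ, ∃ h r t : locAt F n, r ∉ p₂.map (algebraMap B (locAt F n)) ∧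
      algebraMap B (locAt F n) (a * b ^ (p - 1)) * r ^ p - h ^ p
        = algebraMap B (locAt F n) w ^ k * t := by
    intro k
    obtain ⟨h, r, t, hr, e⟩ := wpn_branch_pthPow (F := F) p₂ hp hκu hpl hw₂ hdeep₂ hab k
    refine ⟨algebraMap B _ h, algebraMap B _ r, algebraMap B _ t,
      fun hmem => hr ((algebraMap_mem_map_iff h₂ r).1 hmem), ?_⟩
    rw [← map_pow, ← map_pow, ← map_pow, ← map_mul, ← map_mul, ← map_sub, e]
  -- WPUR
  obtain ⟨d₁, d₂, s, z, hd₁, hd₂, hs, hwp⟩ := H7.wildPurity (locAt F n) _ _ _ _ _ hnode p hp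
    (algebraMap B _ lam) (algebraMap B _ ε) (algebraMap B _ η) e (hε.map _)
    (by rw [← map_pow, hlam, map_mul, map_natCast]) (hη.map _) he
    (by rw [hlamη, map_mul, map_pow])
    (algebraMap B _ (a * b ^ (p - 1)))
    (fun hmem => hg₁ ((algebraMap_mem_map_iff h₁ _).1 hmem))
    (fun hmem => hg₂ ((algebraMap_mem_map_iff h₂ _).1 hmem)) hHor hpow₁ hpow₂
  have hd₁F : (d₁ : F) ≠ 0 := fun h => hd₁ (Subtype.ext h)
  have hd₂F : (d₂ : F) ≠ 0 := fun h => hd₂ (Subtype.ext h)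
  have hsF : (s : F) ≠ 0 := fun h => hs.ne_zero (Subtype.ext h)
  have hwpF := congrArg (fun z : locAt F n => (z : F)) hwp
  simp only [Subalgebra.coe_add, Subalgebra.coe_mul, Subalgebra.coe_pow, Subalgebra.coe_one,
    coe_algebraMap_locAt] at hwpF
  rw [hgF] at hwpF
  -- the witness
  have hds : (d₁ : F) * (s : F) ≠ 0 := mul_ne_zero hd₁F hsF
  set d : F := algebraMap B F b * (d₂ : F) * ((d₁ : F) * (s : F))⁻¹ with hd
  have hd0 : d ≠ 0 := mul_ne_zero (mul_ne_zero hb0 hd₂F) (inv_ne_zero hds)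
  have hud : u * d ^ p = 1 + algebraMap B F lam ^ p * (z : F) := by
    have h1 : u * d ^ p * ((d₁ : F) * (s : F)) ^ p
        = (1 + algebraMap B F lam ^ p * (z : F)) * ((d₁ : F) * (s : F)) ^ p := by
      rw [hd, mul_pow, mul_pow (algebraMap B F b), inv_pow]
      rw [mul_assoc, mul_assoc, inv_mul_cancel₀ (pow_ne_zero p hds), mul_one]
      rw [mul_pow]
      linear_combination hwpF
    exact mul_right_cancel₀ (pow_ne_zero p hds) h1
  refine ⟨d, hd0, ?_, ?_, ?_⟩
  · obtain ⟨az, sz, hsz, hz⟩ := (mem_locAt_iff n (z : F)).1 z.2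
    have hsz0 : algebraMap B F sz ≠ 0 := wpn_ne_zero hsz
    refine ⟨sz + lam ^ p * az, sz, hsz, ?_, ?_⟩
    · rw [add_sub_cancel_left]
      exact Ideal.mul_mem_right _ _ (Ideal.mem_span_singleton_self _)
    · rw [hud, hz]
      simp only [map_add, map_mul, map_pow]
      field_simp
  · refine wpn_branch_close (F := F) p₁ hp hpl hw₁ hdeep₁ (z := (z : F)) ?_ hud
    obtain ⟨az, sz, hsz, hz⟩ := (mem_locAt_iff n (z : F)).1 z.2
    exact (mem_locAt_iff p₁ _).2 ⟨az, sz, fun h => hsz (h₁ h), hz⟩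
  · refine wpn_branch_close (F := F) p₂ hp hpl hw₂ hdeep₂ (z := (z : F)) ?_ hud
    obtain ⟨az, sz, hsz, hz⟩ := (mem_locAt_iff n (z : F)).1 z.2
    exact (mem_locAt_iff p₂ _).2 ⟨az, sz, fun h => hsz (h₂ h), hz⟩

end Abstract

/-- **Leaf WPN** (`H495.AlgP.WPNodeLeaf`, VERBATIM): wild purity at a crossing point of a
semistable chart. -/
theorem wpNodeLeaf : H495.AlgP.WPNodeLeaf := by
  intro R E F _ _ _ _ _ _ _ _ _ _ _ _ _ p hp _ hpm ζ hζ w x B hB c _ u hu hdiv hdeep n hn _ h1 h2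
  obtain ⟨hnoeth, hic, hfr⟩ := Fermat.Agent.A2.Alg.H34.chart_instances' w x B hB
  haveI := hnoeth
  haveI := hic
  haveI := hfr
  haveI := c.prime₁
  haveI := c.prime₂
  haveI := hn.isPrime
  haveI : IsDedekindDomain (B ⧸ c.p₁) :=
    Fermat.Agent.A2.Alg.H132.isDedekindDomain_quotient_p₁ w x B hB c
  haveI : IsDedekindDomain (B ⧸ c.p₂) :=
    Fermat.Agent.A2.Alg.H132.isDedekindDomain_quotient_p₂ w x B hB c
  -- `λ = ζ - 1`
  obtain ⟨ε, hε, hlam⟩ := wpn_lam_pow hp hζ
  have hlam0 : ζ - 1 ≠ 0 := sub_ne_zero.2 (hζ.ne_one hp.one_lt)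
  obtain ⟨e, η, hη⟩ := IsDiscreteValuationRing.eq_unit_mul_pow_irreducible hlam0 hB.hw
  have he : 0 < e := by
    rcases Nat.eq_zero_or_pos e with rfl | he
    · exfalso
      rw [pow_zero, mul_one] at hη
      have h1 : IsUnit ((ζ - 1) ^ (p - 1)) := by
        rw [hη]
        exact (Units.isUnit η).pow _
      rw [hlam] at h1
      have h2 : IsUnit (p : R) := isUnit_of_mul_isUnit_left h1
      exact (IsLocalRing.mem_maximalIdeal _).1 hpm h2
    · exact he
  -- `w ≠ 0` in `B`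
  have hinj : Function.Injective (algebraMap R F) := by
    rw [IsScalarTower.algebraMap_eq R E F]
    exact (algebraMap E F).injective.comp (IsFractionRing.injective R E)
  have hw0 : algebraMap R B w ≠ 0 := by
    intro h
    apply hB.hw.ne_zero
    apply hinj
    have := congrArg (fun b : B => (b : F)) h
    simpa using this
  -- the deep hypotheses
  have hdeep₁ : ∃ a b : B, b ∉ c.p₁ ∧
      a - b ∈ Ideal.span {algebraMap R B (ζ - 1) ^ p * algebraMap R B w} ∧
      u * algebraMap B F b = algebraMap B F a := by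
    obtain ⟨a, b, hb, hab, e⟩ := hdeep.1
    refine ⟨a, b, hb, ?_, e⟩
    rw [← map_pow, ← map_mul]
    exact hab
  have hdeep₂ : ∃ a b : B, b ∉ c.p₂ ∧
      a - b ∈ Ideal.span {algebraMap R B (ζ - 1) ^ p * algebraMap R B w} ∧
      u * algebraMap B F b = algebraMap B F a := by
    obtain ⟨a, b, hb, hab, e⟩ := hdeep.2
    refine ⟨a, b, hb, ?_, e⟩
    rw [← map_pow, ← map_mul]
    exact hab
  obtain ⟨d, hd0, ⟨a, b, hb, hab, e₀⟩, ⟨a₁, b₁, hb₁, hab₁, e₁⟩, ⟨a₂, b₂, hb₂, hab₂, e₂⟩⟩ :=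
    wpn_abstract (F := F) hw0 c.p₁ c.p₂ n c.inf_eq c.not_le₁₂ c.not_le₂₁ c.transversal h1 h2 hp
      (lam := algebraMap R B (ζ - 1)) (ε := algebraMap R B ε) (η := algebraMap R B (η : R))
      (e := e) (hε.map _) (by rw [← map_pow, hlam, map_mul, map_natCast])
      ((Units.isUnit η).map _) he (by rw [hη, map_mul, map_pow]) hu
      (Fermat.Agent.A2.Alg.H132.hdiv_of_divisibleDiv w hB.hw B p u hdiv) hdeep₁ hdeep₂
  refine ⟨d, hd0, ⟨a, b, hb, ?_, e₀⟩, ⟨0, a₁, b₁, hb₁, hab₁, ?_⟩, ⟨0, a₂, b₂, hb₂, hab₂, ?_⟩⟩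
  · rw [map_pow]
    exact hab
  · rw [pow_zero, map_one, one_mul]
    exact e₁
  · rw [pow_zero, map_one, one_mul]
    exact e₂

end Fermat.Agent.Ribet.H224


end
-- ===== PACK-END Ribet/H224/WPNode.lean

-- ===== PACK-BEGIN S37/H88/KronCharpoly.lean
section






/-!
# S37 / E-a KRON + NORM-ID (helper88): the Hecke characteristic polynomial is the Kronecker polynomial

`L` a field of characteristic `0` with a primitive `ℓ`-th root of unity (e.g. `L = ℚ̄`), `ℓ ∤ N` prime,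
`F_M = laurentBaseChange L (modularFunctionFieldFull M) ⊆ L((q))`,
`α = heckeAlphaBar L N ℓ` (inclusion), `β = heckeBetaBar L N ℓ` (`q ↦ q^ℓ`).

* `finrankAlong_heckeBetaBar` : `[F_{Nℓ} : β F_N] = ℓ + 1`;
* `charpoly_beta_alpha` : for `y ∈ F_N` the characteristic polynomial of `α y` with respect to
  the `β`-structure, with coefficients read in `L((q))`, is `H400.kronPoly ℓ y`
  `= (X - y(q^ℓ)) · ∏_b (X - y(ζ^b q^{1/ℓ}))`.
-/

set_option autoImplicit false
set_option linter.unusedSectionVars false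
set_option linter.style.haveILetI false
set_option synthInstance.maxHeartbeats 400000

noncomputable section

namespace Fermat.Agent.S37.H88

open ModularCurve Polynomial IntermediateField Fermat.Agent.S28 Fermat.Agent.S37 AlgebraicCurve

section General

variable {k : Type*} [Field k] {N ℓ : ℕ} [NeZero ℓ]
variable (hN : N ≠ 0) (hℓ : ℓ.Prime) (hℓN : ¬ ℓ ∣ N)
  (hchar : ∀ r : ℕ, r.Prime → r ∣ N * ℓ → (r : k) ≠ 0) {ζ : k} (hζ : IsPrimitiveRoot ζ ℓ)

include hN hℓ hℓN hchar hζ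

/-- **The last embedding on `F_N`.** -/
theorem exists_tauInf_fullC :
    ∃ τ : E1 k N ℓ →ₐ[K0 k N ℓ] LaurentSeries k,
      ∀ (y : LaurentSeries k) (hy : y ∈ modularFunctionFieldFullC k N),
        τ ⟨y, fullC_mono k (dvd_mul_right N ℓ) hy⟩ = qExpand k ℓ (qExpand k ℓ y) := by
  obtain ⟨τ, hτ⟩ := exists_tauInf hN hℓ hℓN hchar hζ
  refine ⟨τ, fun y hy => ?_⟩
  have hle := fullC_mono k (dvd_mul_right N ℓ)
  induction hy using IntermediateField.adjoin_induction with
  | mem x hx =>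
    obtain ⟨d, hd0, hd, rfl⟩ := hx
    exact @hτ d hd0 hd
  | algebraMap c =>
    have h1 : (⟨algebraMap k (LaurentSeries k) c,
        hle (IntermediateField.algebraMap_mem _ c)⟩ : E1 k N ℓ) =
        algebraMap (K0 k N ℓ) (E1 k N ℓ) (algebraMap k (K0 k N ℓ) c) := Subtype.ext rfl
    rw [h1, τ.commutes]
    have h2 : qExpand k ℓ (qExpand k ℓ (algebraMap k (LaurentSeries k) c)) =
        algebraMap k (LaurentSeries k) c := by
      rw [← qExpandAlgHomC_apply, ← qExpandAlgHomC_apply, AlgHom.commutes, AlgHom.commutes]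
    rw [h2]
    rfl
  | add x y hx hy ihx ihy =>
    have h1 : (⟨x + y, hle (_root_.AddMemClass.add_mem hx hy)⟩ : E1 k N ℓ) =
        (⟨x, hle hx⟩ : E1 k N ℓ) + ⟨y, hle hy⟩ := Subtype.ext rfl
    rw [h1, _root_.map_add, ihx, ihy, _root_.map_add, _root_.map_add]
  | inv x hx ihx =>
    have h1 : (⟨x⁻¹, hle (_root_.InvMemClass.inv_mem hx)⟩ : E1 k N ℓ) =
        (⟨x, hle hx⟩ : E1 k N ℓ)⁻¹ := Subtype.ext rfl
    rw [h1, map_inv₀, ihx, map_inv₀, map_inv₀]
  | mul x y hx hy ihx ihy =>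
    have h1 : (⟨x * y, hle (_root_.MulMemClass.mul_mem hx hy)⟩ : E1 k N ℓ) =
        (⟨x, hle hx⟩ : E1 k N ℓ) * ⟨y, hle hy⟩ := Subtype.ext rfl
    rw [h1, _root_.map_mul, ihx, ihy, _root_.map_mul, _root_.map_mul]

end General

section Main

variable (L : Type*) [Field L] [Algebra ℚ L] (N ℓ : ℕ) [NeZero N] [NeZero ℓ]

theorem secMat_eq_kronMat {R : Type*} [CommRing R] (f : LaurentSeries R) :
    H400.secMat ℓ f = H340.kronMat ℓ f := by
  ext i j n
  rw [H400.secMat_apply', H340.kronMat_apply, H400.secL_coeff, H340.sect_coeff]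

theorem kronPoly_eq {R : Type*} [CommRing R] (f : LaurentSeries R) :
    H400.kronPoly ℓ f = (X - C (qExpand R ℓ f)) * H340.kron ℓ f := by
  rw [H400.kronPoly, H340.kron, secMat_eq_kronMat]

/-- `V (Ψ_f) = (X - f(q^{ℓ²})) ∏_b (X - f(ζ^b q))` -/
theorem kronPoly_map_qExpand {R : Type*} [CommRing R] [IsDomain R] {ζ : R}
    (hζ : IsPrimitiveRoot ζ ℓ) (f : LaurentSeries R) :
    (H400.kronPoly ℓ f).map (qExpand R ℓ) =
      (X - C (qExpand R ℓ (qExpand R ℓ f))) *
        ∏ b : Fin ℓ, (X - C (H340.tw ℓ (ζ ^ (b : ℕ)) f)) := by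
  rw [kronPoly_eq, Polynomial.map_mul, H340.kron_map_qExpand_eq_prod hζ, Polynomial.map_sub,
    Polynomial.map_X, Polynomial.map_C]

theorem natCast_ne_zero_of_algebraRat {r : ℕ} (hr : r ≠ 0) : (r : L) ≠ 0 := by
  have : CharZero L := algebraRat.charZero L
  exact Nat.cast_ne_zero.mpr hr

theorem FB_eq (M : ℕ) :
    laurentBaseChange L (modularFunctionFieldFull M) = modularFunctionFieldFullC L M :=
  H988.laurentBaseChange_full_eq_fullC L M

/-- `F_{Nℓ} → E1`, the identity on underlying series -/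
def inclE : laurentBaseChange L (modularFunctionFieldFull (N * ℓ)) →+* E1 L N ℓ where
  toFun x := ⟨x.1, (FB_eq L (N * ℓ)).le x.2⟩
  map_one' := rfl
  map_mul' _ _ := rfl
  map_zero' := rfl
  map_add' _ _ := rfl

/-- `F_N → V(F_N)`, `y ↦ y(q^ℓ)` -/
def toK0 : laurentBaseChange L (modularFunctionFieldFull N) →+* K0 L N ℓ where
  toFun y := ⟨qExpand L ℓ y.1, ⟨y.1, (FB_eq L N).le y.2, rfl⟩⟩
  map_one' := Subtype.ext (_root_.map_one _)
  map_mul' _ _ := Subtype.ext (_root_.map_mul _ _ _)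
  map_zero' := Subtype.ext (_root_.map_zero _)
  map_add' _ _ := Subtype.ext (_root_.map_add _ _ _)

theorem inclE_bijective : Function.Bijective (inclE L N ℓ) := by
  constructor
  · intro x y h
    have h' : ((inclE L N ℓ x : E1 L N ℓ) : LaurentSeries L) = (inclE L N ℓ y : E1 L N ℓ) :=
      congrArg (fun e : E1 L N ℓ => (e : LaurentSeries L)) h
    exact Subtype.ext h'
  · intro e
    exact ⟨⟨e.1, (FB_eq L (N * ℓ)).ge e.2⟩, rfl⟩

theorem toK0_bijective : Function.Bijective (toK0 L N ℓ) := by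
  constructor
  · intro x y h
    exact Subtype.ext (qExpand_injective ℓ (congrArg Subtype.val h))
  · rintro ⟨_, ⟨y, hy, rfl⟩⟩
    exact ⟨⟨y, (FB_eq L N).ge hy⟩, rfl⟩

variable {L N ℓ}

/-- **Degree of the second degeneracy map**: `[F_{Nℓ} : β F_N] = ℓ + 1` for `ℓ ∤ N`. -/
theorem finrankAlong_heckeBetaBar (hℓ : ℓ.Prime) (hℓN : ¬ ℓ ∣ N) :
    finrankAlong L (heckeBetaBar L N ℓ) = ℓ + 1 := by
  have hN : N ≠ 0 := NeZero.ne N
  have hchar : ∀ r : ℕ, r.Prime → r ∣ N * ℓ → (r : L) ≠ 0 :=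
    fun r hr _ => natCast_ne_zero_of_algebraRat L hr.ne_zero
  rw [← finrank_E1 hN hℓ hℓN hchar]
  unfold finrankAlong
  letI := algebraAlong (heckeBetaBar L N ℓ)
  exact Algebra.finrank_eq_of_equiv_equiv (RingEquiv.ofBijective _ (toK0_bijective L N ℓ))
    (RingEquiv.ofBijective _ (inclE_bijective L N ℓ)) (by
      ext y
      rfl)

theorem finiteAlong_heckeBetaBar (hℓ : ℓ.Prime) (hℓN : ¬ ℓ ∣ N) :
    FiniteAlong L (heckeBetaBar L N ℓ) := by
  have h := finrankAlong_heckeBetaBar (L := L) hℓ hℓN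
  unfold finrankAlong at h
  unfold FiniteAlong
  letI := algebraAlong (heckeBetaBar L N ℓ)
  exact FiniteDimensional.of_finrank_pos (by rw [h]; omega)

/-- **The last embedding** `τ = V ∘ w_ℓ : F_{Nℓ} → L((q))`: `τ ∘ β = V`, `τ ∘ α = V²`. -/
theorem exists_lastEmbedding (hℓ : ℓ.Prime) (hℓN : ¬ ℓ ∣ N) {ζ : L} (hζ : IsPrimitiveRoot ζ ℓ) :
    ∃ τ : laurentBaseChange L (modularFunctionFieldFull (N * ℓ)) →+* LaurentSeries L,
      (∀ a : laurentBaseChange L (modularFunctionFieldFull N),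
        τ (heckeBetaBar L N ℓ a) = qExpand L ℓ (a : LaurentSeries L)) ∧
      (∀ a : laurentBaseChange L (modularFunctionFieldFull N),
        τ (heckeAlphaBar L N ℓ a) = qExpand L ℓ (qExpand L ℓ (a : LaurentSeries L))) := by
  have hN : N ≠ 0 := NeZero.ne N
  have hchar : ∀ r : ℕ, r.Prime → r ∣ N * ℓ → (r : L) ≠ 0 :=
    fun r hr _ => natCast_ne_zero_of_algebraRat L hr.ne_zero
  obtain ⟨τE, hτE⟩ := exists_tauInf_fullC hN hℓ hℓN hchar hζ
  refine ⟨(τE : E1 L N ℓ →+* LaurentSeries L).comp (inclE L N ℓ), fun a => ?_, fun a => ?_⟩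
  · have h1 : inclE L N ℓ (heckeBetaBar L N ℓ a) =
        algebraMap (K0 L N ℓ) (E1 L N ℓ) (toK0 L N ℓ a) :=
      Subtype.ext (coe_heckeBetaBar N ℓ a)
    rw [RingHom.comp_apply, h1]
    exact τE.commutes _
  · have h1 : inclE L N ℓ (heckeAlphaBar L N ℓ a) =
        ⟨a.1, fullC_mono L (dvd_mul_right N ℓ) ((FB_eq L N).le a.2)⟩ :=
      Subtype.ext (coe_heckeAlphaBar N ℓ a)
    rw [RingHom.comp_apply, h1]
    exact hτE a.1 ((FB_eq L N).le a.2)

/-- the family of `ℓ + 1` embeddings: `none ↦ τ`, `some b ↦ (q ↦ ζ^b q)` -/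
def sigmaFam {ζ : L} (hζ : ζ ^ ℓ = 1)
    (τ : laurentBaseChange L (modularFunctionFieldFull (N * ℓ)) →+* LaurentSeries L) :
    Option (Fin ℓ) → laurentBaseChange L (modularFunctionFieldFull (N * ℓ)) →+* LaurentSeries L
  | none => τ
  | some b => (H340.twHom ℓ (ζ ^ (b : ℕ)) (H340.pow_pow_eq_one hζ b)).comp
      (algebraMap (laurentBaseChange L (modularFunctionFieldFull (N * ℓ))) (LaurentSeries L))

theorem sigmaFam_none {ζ : L} (hζ : ζ ^ ℓ = 1)
    (τ : laurentBaseChange L (modularFunctionFieldFull (N * ℓ)) →+* LaurentSeries L) :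
    sigmaFam hζ τ none = τ := rfl

theorem sigmaFam_some {ζ : L} (hζ : ζ ^ ℓ = 1)
    (τ : laurentBaseChange L (modularFunctionFieldFull (N * ℓ)) →+* LaurentSeries L)
    (b : Fin ℓ) (x : laurentBaseChange L (modularFunctionFieldFull (N * ℓ))) :
    sigmaFam hζ τ (some b) x = H340.tw ℓ (ζ ^ (b : ℕ)) (x : LaurentSeries L) := rfl

theorem sigmaFam_injective (hℓ : ℓ.Prime) {ζ : L} (hζ : IsPrimitiveRoot ζ ℓ)
    (τ : laurentBaseChange L (modularFunctionFieldFull (N * ℓ)) →+* LaurentSeries L)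
    (hτα : ∀ a : laurentBaseChange L (modularFunctionFieldFull N),
      τ (heckeAlphaBar L N ℓ a) = qExpand L ℓ (qExpand L ℓ (a : LaurentSeries L))) :
    Function.Injective (sigmaFam hζ.pow_eq_one τ) := by
  have h1N : gd L 1 ∈ modularFunctionFieldFullC L N := jd_mem_fullC L (one_dvd N)
  let j1 : laurentBaseChange L (modularFunctionFieldFull N) := ⟨gd L 1, (FB_eq L N).ge h1N⟩
  have hℓ1 : ¬ ℓ ∣ 1 := fun h => hℓ.one_lt.ne' (Nat.dvd_one.mp h)
  have hj1 : ((heckeAlphaBar L N ℓ j1 : laurentBaseChange L (modularFunctionFieldFull (N * ℓ))) :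
      LaurentSeries L) = gd L 1 := coe_heckeAlphaBar N ℓ j1
  intro i i' h
  have hj : sigmaFam hζ.pow_eq_one τ i (heckeAlphaBar L N ℓ j1) =
      sigmaFam hζ.pow_eq_one τ i' (heckeAlphaBar L N ℓ j1) := by rw [h]
  cases i with
  | none =>
    cases i' with
    | none => rfl
    | some b' =>
      rw [sigmaFam_none, sigmaFam_some, hτα, hj1] at hj
      exact absurd hj (qExpand_qExpand_gd_ne_tw hζ hℓ hℓ1 b')
  | some b =>
    cases i' with
    | none =>
      rw [sigmaFam_none, sigmaFam_some, hτα, hj1] at hj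
      exact absurd hj.symm (qExpand_qExpand_gd_ne_tw hζ hℓ hℓ1 b)
    | some b' =>
      rw [sigmaFam_some, sigmaFam_some, hj1] at hj
      exact congrArg some (tw_gd_injective hζ hℓ hℓ1 hj)

theorem sigmaFam_algebraMap {ζ : L} (hζ : ζ ^ ℓ = 1)
    (τ : laurentBaseChange L (modularFunctionFieldFull (N * ℓ)) →+* LaurentSeries L)
    (hτβ : ∀ a : laurentBaseChange L (modularFunctionFieldFull N),
      τ (heckeBetaBar L N ℓ a) = qExpand L ℓ (a : LaurentSeries L))
    (i : Option (Fin ℓ)) (a : laurentBaseChange L (modularFunctionFieldFull N)) :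
    sigmaFam hζ τ i (heckeBetaBar L N ℓ a) =
      ((qExpand L ℓ).comp (algebraMap (laurentBaseChange L (modularFunctionFieldFull N))
        (LaurentSeries L))) a := by
  rw [RingHom.comp_apply]
  cases i with
  | none => exact hτβ a
  | some b =>
    rw [sigmaFam_some, coe_heckeBetaBar, H340.tw_qExpand]
    rfl

/-- **Characteristic polynomial along `β`.**  For every `x ∈ F_{Nℓ}` the characteristic
polynomial of `x` with respect to the `β`-structure is `(X - τ x) ∏_b (X - x(ζ^b q))`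
(coefficients pushed along `V`), `τ` being a last embedding. -/
theorem charpoly_beta_of_lastEmbedding (hℓ : ℓ.Prime) (hℓN : ¬ ℓ ∣ N) {ζ : L}
    (hζ : IsPrimitiveRoot ζ ℓ)
    (τ : laurentBaseChange L (modularFunctionFieldFull (N * ℓ)) →+* LaurentSeries L)
    (hτβ : ∀ a : laurentBaseChange L (modularFunctionFieldFull N),
      τ (heckeBetaBar L N ℓ a) = qExpand L ℓ (a : LaurentSeries L))
    (hτα : ∀ a : laurentBaseChange L (modularFunctionFieldFull N),
      τ (heckeAlphaBar L N ℓ a) = qExpand L ℓ (qExpand L ℓ (a : LaurentSeries L)))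
    (x : laurentBaseChange L (modularFunctionFieldFull (N * ℓ))) :
    letI := algebraAlong (heckeBetaBar L N ℓ)
    haveI : Module.Finite (laurentBaseChange L (modularFunctionFieldFull N))
      (laurentBaseChange L (modularFunctionFieldFull (N * ℓ))) :=
      finiteAlong_heckeBetaBar hℓ hℓN
    ((Algebra.lmul (laurentBaseChange L (modularFunctionFieldFull N)) _ x).charpoly).map
        ((qExpand L ℓ).comp (algebraMap (laurentBaseChange L (modularFunctionFieldFull N))
          (LaurentSeries L))) =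
      (X - C (τ x)) *
        ∏ b : Fin ℓ, (X - C (H340.tw ℓ (ζ ^ (b : ℕ)) (x : LaurentSeries L))) := by
  classical
  letI := algebraAlong (heckeBetaBar L N ℓ)
  haveI : Module.Finite (laurentBaseChange L (modularFunctionFieldFull N))
      (laurentBaseChange L (modularFunctionFieldFull (N * ℓ))) :=
    finiteAlong_heckeBetaBar hℓ hℓN
  have hcard : Module.finrank (laurentBaseChange L (modularFunctionFieldFull N))
      (laurentBaseChange L (modularFunctionFieldFull (N * ℓ))) =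
      Fintype.card (Option (Fin ℓ)) := by
    rw [Fintype.card_option, Fintype.card_fin]
    exact finrankAlong_heckeBetaBar hℓ hℓN
  have h := charpoly_map_eq_prod_embeddings
    ((qExpand L ℓ).comp (algebraMap (laurentBaseChange L (modularFunctionFieldFull N))
        (LaurentSeries L))) (sigmaFam hζ.pow_eq_one τ)
    (fun i a => sigmaFam_algebraMap hζ.pow_eq_one τ hτβ i a)
    (sigmaFam_injective hℓ hζ τ hτα) hcard x
  rw [h, Fintype.prod_option, sigmaFam_none]
  simp only [sigmaFam_some]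

/-- **E-a (KRON).**  For `y ∈ F_N` the characteristic polynomial of `α y` with respect to the
`β`-structure of `F_{Nℓ}`, with coefficients read in `L((q))`, is the Kronecker polynomial
`Ψ_y = (X - y(q^ℓ)) · ∏_b (X - y(ζ^b q^{1/ℓ}))` (`H400.kronPoly ℓ y`). -/
theorem charpoly_beta_alpha (hℓ : ℓ.Prime) (hℓN : ¬ ℓ ∣ N) {ζ : L} (hζ : IsPrimitiveRoot ζ ℓ)
    (y : laurentBaseChange L (modularFunctionFieldFull N)) :
    letI := algebraAlong (heckeBetaBar L N ℓ)
    haveI : Module.Finite (laurentBaseChange L (modularFunctionFieldFull N))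
      (laurentBaseChange L (modularFunctionFieldFull (N * ℓ))) :=
      finiteAlong_heckeBetaBar hℓ hℓN
    ((Algebra.lmul (laurentBaseChange L (modularFunctionFieldFull N)) _
        (heckeAlphaBar L N ℓ y)).charpoly).map
        (algebraMap (laurentBaseChange L (modularFunctionFieldFull N)) (LaurentSeries L)) =
      H400.kronPoly ℓ (y : LaurentSeries L) := by
  obtain ⟨τ, hτβ, hτα⟩ := exists_lastEmbedding (L := L) (N := N) hℓ hℓN hζ
  have h := charpoly_beta_of_lastEmbedding hℓ hℓN hζ τ hτβ hτα (heckeAlphaBar L N ℓ y)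
  simp only [coe_heckeAlphaBar] at h
  rw [hτα, ← kronPoly_map_qExpand ℓ hζ, ← Polynomial.map_map] at h
  exact Polynomial.map_injective _ (qExpand_injective ℓ) h

/-- **Norm along `β`**: `Nm_β(α y) = y(q^ℓ) · ∏_b y(ζ^b q^{1/ℓ})` (`H400.kronNorm ℓ y`). -/
theorem norm_beta_alpha (hℓ : ℓ.Prime) (hℓN : ¬ ℓ ∣ N) {ζ : L} (hζ : IsPrimitiveRoot ζ ℓ)
    (y : laurentBaseChange L (modularFunctionFieldFull N)) :
    letI := algebraAlong (heckeBetaBar L N ℓ)
    ((Algebra.norm (laurentBaseChange L (modularFunctionFieldFull N))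
        (heckeAlphaBar L N ℓ y) : laurentBaseChange L (modularFunctionFieldFull N)) :
        LaurentSeries L) = H400.kronNorm ℓ (y : LaurentSeries L) := by
  letI := algebraAlong (heckeBetaBar L N ℓ)
  haveI : Module.Finite (laurentBaseChange L (modularFunctionFieldFull N))
      (laurentBaseChange L (modularFunctionFieldFull (N * ℓ))) :=
    finiteAlong_heckeBetaBar hℓ hℓN
  have h := charpoly_beta_alpha hℓ hℓN hζ y
  have h0 := congrArg (fun p : Polynomial (LaurentSeries L) => p.coeff 0) h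
  simp only [Polynomial.coeff_map, IntermediateField.algebraMap_apply] at h0
  have hfr : Module.finrank (laurentBaseChange L (modularFunctionFieldFull N))
      (laurentBaseChange L (modularFunctionFieldFull (N * ℓ))) = ℓ + 1 :=
    finrankAlong_heckeBetaBar hℓ hℓN
  rw [Algebra.norm_apply, LinearMap.det_eq_sign_charpoly_coeff, hfr, IntermediateField.coe_mul,
    IntermediateField.coe_pow, IntermediateField.coe_neg, IntermediateField.coe_one, h0,
    H400.kronPoly_coeff_zero, ← mul_assoc, ← mul_pow]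
  simp

section Bar

variable (N ℓ)

/-- a primitive `ℓ`-th root of unity in `ℚ̄` -/
theorem exists_primitiveRoot_bar : ∃ ζ : AlgebraicClosure ℚ, IsPrimitiveRoot ζ ℓ :=
  HasEnoughRootsOfUnity.exists_primitiveRoot (AlgebraicClosure ℚ) ℓ

variable {N ℓ}

/-- **E-a (KRON) over `ℚ̄`.** -/
theorem charpoly_beta_alpha_bar (hℓ : ℓ.Prime) (hℓN : ¬ ℓ ∣ N) (y : modularFunctionFieldBar N) :
    letI := algebraAlong (heckeBetaBar (AlgebraicClosure ℚ) N ℓ)
    haveI : Module.Finite (modularFunctionFieldBar N) (modularFunctionFieldBar (N * ℓ)) :=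
      finiteAlong_heckeBetaBar hℓ hℓN
    ((Algebra.lmul (modularFunctionFieldBar N) (modularFunctionFieldBar (N * ℓ))
        (heckeAlphaBar (AlgebraicClosure ℚ) N ℓ y)).charpoly).map
        (algebraMap (modularFunctionFieldBar N) (LaurentSeries (AlgebraicClosure ℚ))) =
      H400.kronPoly ℓ (y : LaurentSeries (AlgebraicClosure ℚ)) := by
  obtain ⟨ζ, hζ⟩ := exists_primitiveRoot_bar ℓ
  exact charpoly_beta_alpha hℓ hℓN hζ y

/-- **Norm along `β` over `ℚ̄`.** -/
theorem norm_beta_alpha_bar (hℓ : ℓ.Prime) (hℓN : ¬ ℓ ∣ N) (y : modularFunctionFieldBar N) :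
    letI := algebraAlong (heckeBetaBar (AlgebraicClosure ℚ) N ℓ)
    ((Algebra.norm (modularFunctionFieldBar N)
        (heckeAlphaBar (AlgebraicClosure ℚ) N ℓ y) : modularFunctionFieldBar N) :
        LaurentSeries (AlgebraicClosure ℚ)) =
      H400.kronNorm ℓ (y : LaurentSeries (AlgebraicClosure ℚ)) := by
  obtain ⟨ζ, hζ⟩ := exists_primitiveRoot_bar ℓ
  exact norm_beta_alpha hℓ hℓN hζ y

end Bar

end Main

end Fermat.Agent.S37.H88

end
end
-- ===== PACK-END S37/H88/KronCharpoly.lean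

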