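import Mathlib
import Fermat.Agent.Pack.S33.E20L2
import Fermat.Agent.Pack.S33.E14L3
import Fermat.Agent.Pack.S33.E7L1
import Fermat.Agent.Pack.S33.E7L0
import Fermat.Agent.Pack.S33.E20L1
import Fermat.Agent.Pack.S33.E8L2
import Fermat.Agent.Pack.S33.E11L2
import Fermat.Agent.Pack.S33.E20L3
import Fermat.Agent.Pack.S33.E18L1
import Fermat.Agent.Pack.S33.E20L0
import Fermat.Agent.Pack.S33.E5L3
import Fermat.Agent.Pack.S33.E16L1
import Fermat.Agent.Pack.S33.E12L3
import Fermat.Agent.Pack.S33.E19L2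
import Fermat.Agent.Pack.S33.E9L0
import Fermat.Agent.Pack.S33.E15L2
import Fermat.Agent.Pack.S33.E18L2
import Fermat.Agent.Pack.S33.E6L3
import Fermat.Agent.Pack.S33.E12L1
import Fermat.Agent.Pack.S33.E3L0

-- ===== PACK-BEGIN S29/M4b/K3/Basic.lean
section
/-
S29 row, M4b, piece K3 — basic lemmas for the top assembly (helper42).

* `isMerInf_of_isTwisted` : a twisted function of a parabolic character has a `q`-expansion at `i∞`.
* `exists_div_AK`, `exists_div_goodQ` : elements of the function fields over `ℚ̄` / `ℂ` are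
  quotients of polynomials in the `j(q^d)` / of `q`-expansions of good functions.
* `hasChar_of_mul_eq` : transport of the character along `U' * B = ζ * U * A`.
-/



set_option autoImplicit false

noncomputable section

open ModularCurve AlgebraicCurve CongruenceSubgroup UpperHalfPlane
open scoped MatrixGroups Manifold

namespace Fermat.Agent.S29.M4b.K3

open Fermat.Agent.S24 Fermat.Agent.S24.H648 Fermat.Agent.S24.H708 Fermat.Agent.S24.Deg457
open Fermat.Agent.S24.H624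
open Fermat.Agent.S29 Fermat.Agent.S29.M4b

variable {N : ℕ} [NeZero N] {p : ℕ} [NeZero p]

/-- The translation `T` as an element of `Γ₀(N)`. -/
def TG (N : ℕ) : G0 N := ⟨ModularGroup.T, H882.T_mem_Gamma0 N⟩

omit [NeZero N] in
theorem trace_TG : (TG N).mat.trace = 2 := by
  simp [TG, G0.mat, ModularGroup.T, Matrix.trace_fin_two]

omit [NeZero N] [NeZero p] in
/-- A twisted function of a parabolic character is `1`-periodic. -/
theorem periodic_of_isTwisted {c : G0 N → ZMod p} (hc : IsParHom c) {U : ℍ → ℂ}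
    (hU : HasChar N p c U) : Function.Periodic (U ∘ ofComplex) (1 : ℝ) := by
  have hT : ∀ τ : ℍ, U (ModularGroup.T • τ) = U τ := by
    intro τ
    have h := hU (TG N) τ
    rw [hc.parabolic (TG N) (Or.inl trace_TG)] at h
    simpa [TG] using h
  intro w
  by_cases hw : 0 < Complex.im w
  · have hw' : 0 < Complex.im (w + ((1 : ℝ) : ℂ)) := by simpa using hw
    simp only [Function.comp_apply, ofComplex_apply_of_im_pos hw', ofComplex_apply_of_im_pos hw]
    rw [← hT ⟨w, hw⟩]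
    congr 1
    apply UpperHalfPlane.ext
    rw [UpperHalfPlane.modular_T_smul, UpperHalfPlane.coe_vadd]
    simp [add_comm]
  · have hw0 : Complex.im w ≤ 0 := not_lt.mp hw
    have hw' : Complex.im (w + ((1 : ℝ) : ℂ)) ≤ 0 := by simpa using hw0
    simp only [Function.comp_apply]
    rw [ofComplex_apply_of_im_nonpos hw', ofComplex_apply_of_im_nonpos hw0]

omit [NeZero N] in
/-- If `U ^ p` has at most exponential growth, so has `U`. -/
theorem expGrowth_of_pow {U : ℍ → ℂ} (h : ExpGrowth (fun τ => U τ ^ p)) : ExpGrowth U := by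
  obtain ⟨C, m, hC⟩ := h
  refine ⟨1 + |C|, m, fun τ hτ => ?_⟩
  have h1 := hC τ hτ
  rw [norm_pow] at h1
  have hp : p ≠ 0 := NeZero.ne p
  have hexp : (1 : ℝ) ≤ Real.exp (2 * Real.pi * m * τ.im) := by
    apply Real.one_le_exp
    have := Real.pi_pos
    have := τ.im_pos
    positivity
  by_cases hle : ‖U τ‖ ≤ 1
  · calc ‖U τ‖ ≤ 1 := hle
      _ ≤ (1 + |C|) * 1 := by have := abs_nonneg C; linarith
      _ ≤ (1 + |C|) * Real.exp (2 * Real.pi * m * τ.im) := by
          apply mul_le_mul_of_nonneg_left hexp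
          have := abs_nonneg C; linarith
  · have hgt : 1 ≤ ‖U τ‖ := (not_le.mp hle).le
    have h2 : ‖U τ‖ ≤ ‖U τ‖ ^ p := le_self_pow₀ hgt hp
    calc ‖U τ‖ ≤ ‖U τ‖ ^ p := h2
      _ ≤ C * Real.exp (2 * Real.pi * m * τ.im) := h1
      _ ≤ (1 + |C|) * Real.exp (2 * Real.pi * m * τ.im) := by
          apply mul_le_mul_of_nonneg_right _ (Real.exp_pos _).le
          have := le_abs_self C; linarith

omit [NeZero N] in
/-- **K3a**: a twisted function of a parabolic character is meromorphic at `i∞` in `q`. -/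
theorem isMerInf_of_isTwisted {c : G0 N → ZMod p} (hc : IsParHom c) {U : ℍ → ℂ}
    (hU : IsTwisted N p c U) : IsMerInf 1 U := by
  refine ⟨hU.mdiff, ?_, ?_⟩
  · have := periodic_of_isTwisted hc hU.hasChar
    simpa using this
  · obtain ⟨-, -, h3⟩ := hU.pow_mem
    have h := h3 1
    simp only [one_smul] at h
    exact H882.isBounded_mul_qh_pow_of_expGrowth (expGrowth_of_pow h)

/-! ### Quotient presentations -/

section Quot

variable (K : Type*) [Field K] [Algebra ℚ K]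

omit [NeZero N] in
/-- The polynomials in the `j(q^d)` lie in the function field. -/
theorem AK_le_laurentBaseChange (N : ℕ) :
    AK K N ≤ (laurentBaseChange K (modularFunctionFieldFull N)).toSubalgebra := by
  refine Algebra.adjoin_le ?_
  rintro _ ⟨y, hy, rfl⟩
  exact coeffEmb_mem_laurentBaseChange K (IntermediateField.subset_adjoin ℚ _ hy)

omit [NeZero N] in
/-- Every element of the function field is a quotient of two polynomials in the `j(q^d)`. -/
theorem exists_div_AK (N : ℕ) {x : LaurentSeries K}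
    (hx : x ∈ laurentBaseChange K (modularFunctionFieldFull N)) :
    ∃ r ∈ AK K N, ∃ s ∈ AK K N, s ≠ 0 ∧ x = r / s := by
  have h := laurentBaseChange_full_le (K := K) N hx
  rw [IntermediateField.mem_adjoin_iff_div] at h
  obtain ⟨r, hr, s, hs, rfl⟩ := h
  by_cases hs0 : s = 0
  · refine ⟨0, zero_mem _, 1, one_mem _, one_ne_zero, ?_⟩
    rw [hs0, div_zero, zero_div]
  · exact ⟨r, hr, s, hs, hs0, rfl⟩

end Quot

/-- Every element of `F_ℂ` is a quotient of `q`-expansions of good functions. -/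
theorem exists_div_goodQ {x : LaurentSeries ℂ} (hx : x ∈ FC N) :
    ∃ a ∈ H882.goodQ N, ∃ b ∈ H882.goodQ N, b ≠ 0 ∧ x = a / b := by
  obtain ⟨r, hr, s, hs, hs0, h⟩ := exists_div_AK ℂ N hx
  exact ⟨r, H882.AK_le_goodQ N hr, s, H882.AK_le_goodQ N hs, hs0, h⟩

/-! ### Transport of the character -/

omit [NeZero N] [NeZero p] in
/-- If `U' * B = ζ * (U * A)` with `A`, `B` invariant under `Γ₀(N)`, `B ≠ 0`, all functions
holomorphic, and `U` has character `c`, then `U'` has character `c`. -/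
theorem hasChar_of_mul_eq {c : G0 N → ZMod p} {U U' A B : ℍ → ℂ} (ζ : ℂ)
    (hU' : MDifferentiable 𝓘(ℂ) 𝓘(ℂ) U') (hB : MDifferentiable 𝓘(ℂ) 𝓘(ℂ) B) (hB0 : B ≠ 0)
    (hAinv : ∀ γ ∈ Gamma0 N, ∀ τ : ℍ, A (γ • τ) = A τ)
    (hBinv : ∀ γ ∈ Gamma0 N, ∀ τ : ℍ, B (γ • τ) = B τ)
    (hU : HasChar N p c U) (h : ∀ τ, U' τ * B τ = ζ * (U τ * A τ)) : HasChar N p c U' := by
  intro γ τ₀
  -- the holomorphic function `D τ = U' (γ τ) - χ U' τ`
  set χ : ℂ := zetaP p ^ (c γ).val with hχ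
  set D : ℍ → ℂ := fun τ => U' ((γ : SL(2, ℤ)) • τ) - χ * U' τ with hD
  have hDm : MDifferentiable 𝓘(ℂ) 𝓘(ℂ) D := by
    have h1 : MDifferentiable 𝓘(ℂ) 𝓘(ℂ) (fun τ : ℍ => U' ((γ : SL(2, ℤ)) • τ)) :=
      (precompSL (γ : SL(2, ℤ)) ⟨U', hU'⟩).2
    have h2 : MDifferentiable 𝓘(ℂ) 𝓘(ℂ) (fun τ : ℍ => χ * U' τ) :=
      (mdifferentiable_const (c := χ)).mul hU'
    exact h1.sub h2
  have hDB : D * B = 0 := by
    funext τ
    simp only [Pi.mul_apply, Pi.zero_apply, hD]
    have e1 := h ((γ : SL(2, ℤ)) • τ)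
    rw [hBinv _ γ.2 τ, hAinv _ γ.2 τ, hU γ τ] at e1
    have e2 := h τ
    calc (U' ((γ : SL(2, ℤ)) • τ) - χ * U' τ) * B τ
        = U' ((γ : SL(2, ℤ)) • τ) * B τ - χ * (U' τ * B τ) := by ring
      _ = ζ * (zetaP p ^ (c γ).val * U τ * A τ) - χ * (ζ * (U τ * A τ)) := by rw [e1, e2]
      _ = 0 := by rw [hχ]; ring
  rcases mul_eq_zero_of_mdiff hDm hB hDB with h0 | h0
  · have := congrFun h0 τ₀
    simp only [hD, Pi.zero_apply] at this
    exact sub_eq_zero.mp this
  · exact absurd h0 hB0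

end Fermat.Agent.S29.M4b.K3

end
end
-- ===== PACK-END S29/M4b/K3/Basic.lean

-- ===== PACK-BEGIN S29/M4b/K3/Top.lean
section
/-
S29 row, LAYER M, SUB-LAYER M4b, PIECE K3 (descent `ℂ → ℚ̄`) — TOP ASSEMBLY (helper42).

`exists_realised_isTwisted_of` = the EXACT statement of piece `K3` of helper822's
`M4b/Skeleton.lean` (`exists_realised_isTwisted`), PROVED from
* `DegStatement N`   (sub-piece K3-DEG),
* `FinStatement N p` (sub-piece K3-FIN),
* `H152.desc_main` (helper152, places-free descent), ROOT `H751`, MERO `H882`.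

Proof.  `f = qexp (U^p) ∈ F_ℂ` (MERO), `h = qexp U`, `h^p = f`.  By `desc_main` there are
`g ∈ F_ℂˣ`, `f' ∈ FF N` with `f g^p = ι f'`.  Write `f' = r / s` with `r, s` polynomials in the
`j(q^d)` over `ℚ̄`; `u := r s^(p-1) = f' s^p` is realised by a good function `G'`
(`AK ⊆ goodQ`).  Write `g ι(s) = a / b` with `a = qexp A`, `b = qexp B`, `A B` good.  Then
`G' B^p = (U A)^p`, so all orders of `G'` are divisible by `p`, `G' = U'^p` (ROOT), and
`U' B = ζ U A`, whence `U'` has the character of `U`.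
-/




set_option autoImplicit false
set_option linter.style.haveILetI false

noncomputable section

open ModularCurve AlgebraicCurve CongruenceSubgroup UpperHalfPlane
open scoped MatrixGroups Manifold

namespace Fermat.Agent.S29.M4b.K3

open Fermat.Agent.S24 Fermat.Agent.S24.H648 Fermat.Agent.S24.H708 Fermat.Agent.S24.Deg457
open Fermat.Agent.S24.H624
open Fermat.Agent.S29 Fermat.Agent.S29.M4b

theorem order_jq : jq.order = -1 := by
  have hne : jq ≠ 0 := by
    intro h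
    have h1 := coeff_jq_neg_one
    rw [h, HahnSeries.coeff_zero] at h1
    exact zero_ne_one h1
  refine le_antisymm (HahnSeries.order_le_of_coeff_ne_zero ?_) ?_
  · rw [coeff_jq_neg_one]
    exact one_ne_zero
  · by_contra hlt
    rw [not_le] at hlt
    refine HahnSeries.coeff_order_eq_zero.not.mpr hne ?_
    exact coeff_jq_of_lt hlt

/-- ROOT with divisibility read off from an identity `G * B ^ p = V ^ p`. -/
theorem exists_root_of_mul_pow_eq {p : ℕ} (hp : p ≠ 0) {G B V : ℍ → ℂ}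
    (hG : MDifferentiable 𝓘(ℂ) 𝓘(ℂ) G) (hB : MDifferentiable 𝓘(ℂ) 𝓘(ℂ) B)
    (hV : MDifferentiable 𝓘(ℂ) 𝓘(ℂ) V) (hB0 : B ≠ 0) (hV0 : V ≠ 0)
    (h : ∀ τ, G τ * B τ ^ p = V τ ^ p) :
    ∃ U' : ℍ → ℂ, MDifferentiable 𝓘(ℂ) 𝓘(ℂ) U' ∧ ∀ τ : ℍ, U' τ ^ p = G τ := by
  refine H751.exists_pow_eq_UHP hG p hp fun τ => ?_
  have hfun : G * B ^ p = V ^ p := funext h
  have h1 : ordAt τ (G * B ^ p) = ordAt τ G + p • ordAt τ B := by
    rw [ordAt_mul hG (hB.pow p)]
    congr 1
    rw [ordAt_def, ordAt_def]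
    have : (B ^ p) ∘ ofComplex = (B ∘ ofComplex) ^ p := rfl
    rw [this, analyticOrderAt_pow (analyticAt_of_mdiff hB τ)]
  have h2 : ordAt τ (V ^ p) = p • ordAt τ V := by
    rw [ordAt_def, ordAt_def]
    have : (V ^ p) ∘ ofComplex = (V ∘ ofComplex) ^ p := rfl
    rw [this, analyticOrderAt_pow (analyticAt_of_mdiff hV τ)]
  rw [hfun, h2] at h1
  obtain ⟨b, hb⟩ := ENat.ne_top_iff_exists.mp (ordAt_ne_top hB hB0 τ)
  obtain ⟨v, hv⟩ := ENat.ne_top_iff_exists.mp (ordAt_ne_top hV hV0 τ)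
  have hGne : ordAt τ G ≠ ⊤ := by
    intro htop
    rw [htop, top_add, ← hv] at h1
    have h4 : ((p * v : ℕ) : ℕ∞) = ⊤ := by
      rw [← h1]; push_cast; simp [nsmul_eq_mul]
    exact ENat.natCast_ne_top _ h4
  obtain ⟨g, hg⟩ := ENat.ne_top_iff_exists.mp hGne
  rw [← hb, ← hv, ← hg] at h1
  have h3 : p * v = g + p * b := by
    have : ((p * v : ℕ) : ℕ∞) = ((g + p * b : ℕ) : ℕ∞) := by
      push_cast
      simpa [nsmul_eq_mul] using h1
    exact_mod_cast this
  refine ⟨v - b, ?_⟩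
  rw [← ordAt_def, ← hg]
  have hbv : b ≤ v := by
    by_contra hlt
    rw [not_le] at hlt
    have : p * v < p * b := Nat.mul_lt_mul_of_pos_left hlt (Nat.pos_of_ne_zero hp)
    omega
  have : g = p * (v - b) := by
    rw [Nat.mul_sub]
    omega
  rw [this]

/-- **PIECE K3** (exact statement of `exists_realised_isTwisted` in `M4b/Skeleton.lean`), from
the sub-pieces `K3-DEG` and `K3-FIN`. -/
theorem exists_realised_isTwisted_of (N : ℕ) [NeZero N] (p : ℕ) [NeZero p]
    (hdeg : DegStatement N) (hfin : FinStatement N p)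
    {c : G0 N → ZMod p} (hc : IsParHom c) {U : ℍ → ℂ} (hU : IsTwisted N p c U) :
    ∃ (U' : ℍ → ℂ) (u : FF N), IsTwisted N p c U' ∧ Realises N u (fun τ => U' τ ^ p) := by
  classical
  letI : Algebra Kbar ℂ := algKC
  have hp : p ≠ 0 := NeZero.ne p
  -- `q`-expansions of `U` and `U ^ p`
  have hqU : HasQExp 1 U (qexpFun 1 U) := HasQExp.of_isMerInf (isMerInf_of_isTwisted hc hU)
  have hqG : HasQExp 1 (fun τ => U τ ^ p) (qexpFun 1 U ^ p) := hqU.pow p
  have hfFC : qexpFun 1 (fun τ => U τ ^ p) ∈ FC N := H882.qexpFun_mem_FC hU.pow_mem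
  have hUne : U ≠ 0 := by
    obtain ⟨τ, hτ⟩ := hU.ne_zero
    intro h0
    exact hτ (by rw [h0]; rfl)
  have hGne : (fun τ => U τ ^ p) ≠ 0 := by
    obtain ⟨τ, hτ⟩ := hU.ne_zero
    intro h0
    exact pow_ne_zero p hτ (congrFun h0 τ)
  have hf0 : qexpFun 1 (fun τ => U τ ^ p) ≠ 0 := by
    rw [hqG.qexpFun_eq]
    exact fun h0 => hGne (hqG.eq_zero_iff.mp h0)
  -- descent
  obtain ⟨n, hn⟩ := hdeg
  obtain ⟨T, hT, horb⟩ := hfin c hc U hU
  obtain ⟨g, hgF, hg0, -, -, -, f', hf', hfg⟩ := H152.desc_main (K := Kbar) (Ω := ℂ)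
    (modularFunctionFieldFull N) jq (modularFunctionField_le_full N (jq_mem N)) order_jq n hn
    p (Nat.pos_of_ne_zero hp) (qexpFun 1 (fun τ => U τ ^ p)) (qexpFun 1 U) hfFC hf0
    hqG.qexpFun_eq.symm T hT horb
  -- clear the denominator of `f'` by a `p`-th power
  obtain ⟨r, hr, s, hs, hs0, hrs⟩ := exists_div_AK Kbar N hf'
  have hιinj : Function.Injective (coeffMap iotaC) := by
    intro x y hxy
    ext k
    have := congrArg (fun z : LaurentSeries ℂ => z.coeff k) hxy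
    simp only [coeffMap_coeff] at this
    exact iotaC.injective this
  have hιs0 : coeffMap iotaC s ≠ 0 := fun h0 => hs0 (hιinj (by rw [h0, map_zero]))
  set u₀ : LaurentSeries Kbar := r * s ^ (p - 1) with hu₀
  have hu₀AK : u₀ ∈ AK Kbar N := mul_mem hr (pow_mem hs _)
  have hu₀F : u₀ ∈ modularFunctionFieldBar N := AK_le_laurentBaseChange Kbar N hu₀AK
  have hu₀eq : u₀ = f' * s ^ p := by
    rw [hu₀, hrs]
    have : s ^ p = s ^ (p - 1) * s := by
      rw [← pow_succ, Nat.sub_add_cancel (Nat.pos_of_ne_zero hp)]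
    rw [this]
    field_simp
  -- `ι u₀ = f * φ ^ p` with `φ = g * ι s ∈ F_ℂ`
  set φ : LaurentSeries ℂ := g * coeffMap iotaC s with hφ
  have hφF : φ ∈ FC N :=
    mul_mem hgF (AK_le_laurentBaseChange ℂ N (coeffMap_mem_AK iotaC hs))
  have hφ0 : φ ≠ 0 := mul_ne_zero hg0 hιs0
  have hιu : coeffMap iotaC u₀ = qexpFun 1 (fun τ => U τ ^ p) * φ ^ p := by
    rw [hu₀eq, map_mul, map_pow, hφ, mul_pow, ← mul_assoc, hfg]
    rfl
  -- the good function realising `u₀`
  obtain ⟨G', hG'good, hG'q⟩ := H882.AK_le_goodQ N (coeffMap_mem_AK iotaC hu₀AK)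
  -- `φ = a / b`, quotient of `q`-expansions of good functions
  obtain ⟨a, ⟨A, hAgood, hAq⟩, b, ⟨B, hBgood, hBq⟩, hb0, hab⟩ := exists_div_goodQ hφF
  have ha0 : a ≠ 0 := by
    rintro rfl
    rw [zero_div] at hab
    exact hφ0 hab
  have hA0 : A ≠ 0 := fun h0 => ha0 (hAq.eq_zero_iff.mpr h0)
  have hB0 : B ≠ 0 := fun h0 => hb0 (hBq.eq_zero_iff.mpr h0)
  -- `G' * B ^ p = (U * A) ^ p`
  have hser : coeffMap iotaC u₀ * b ^ p = (qexpFun 1 U * a) ^ p := by
    rw [hιu, hab, mul_pow, hqG.qexpFun_eq, mul_assoc, div_pow,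
      div_mul_cancel₀ _ (pow_ne_zero p hb0)]
  have hfunc : G' * B ^ p = (U * A) ^ p :=
    HasQExp.eq_of_eq (hser ▸ hG'q.mul (hBq.pow p)) ((hqU.mul hAq).pow p)
  have hpt : ∀ τ, G' τ * B τ ^ p = (U * A) τ ^ p := fun τ => congrFun hfunc τ
  have hG'm : MDifferentiable 𝓘(ℂ) 𝓘(ℂ) G' := hG'good.1
  have hAm : MDifferentiable 𝓘(ℂ) 𝓘(ℂ) A := hAgood.1
  have hBm : MDifferentiable 𝓘(ℂ) 𝓘(ℂ) B := hBgood.1
  have hUAm : MDifferentiable 𝓘(ℂ) 𝓘(ℂ) (U * A) := hU.mdiff.mul hAm
  have hUA0 : U * A ≠ 0 := by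
    intro h0
    rcases mul_eq_zero_of_mdiff hU.mdiff hAm h0 with h1 | h1
    · exact hUne h1
    · exact hA0 h1
  -- the root
  obtain ⟨U', hU'm, hU'p⟩ := exists_root_of_mul_pow_eq hp hG'm hBm hUAm hB0 hUA0 hpt
  -- `U' * B = ζ * (U * A)`
  obtain ⟨τ₀, hτ₀⟩ : ∃ τ₀, (U * A) τ₀ ≠ 0 := by
    by_contra hcon
    push Not at hcon
    exact hUA0 (funext hcon)
  have hpow : ∀ τ, (U' τ * B τ) ^ p = (U * A) τ ^ p := fun τ => by
    rw [mul_pow, hU'p, hpt]
  set ζ : ℂ := U' τ₀ * B τ₀ / (U * A) τ₀ with hζ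
  have hζp : ζ ^ p = 1 := by
    rw [hζ, div_pow, hpow, div_self (pow_ne_zero p hτ₀)]
  have hζ0 : ζ ≠ 0 := fun h0 => by
    rw [h0, zero_pow hp] at hζp
    exact zero_ne_one hζp
  have hmul : (fun τ => U' τ * B τ) = fun τ => ζ * (U * A) τ := by
    refine H751.eq_of_pow_eq_UHP (hU'm.mul hBm) ((mdifferentiable_const (c := ζ)).mul hUAm) hp
      (fun τ => ?_) (τ₀ := τ₀) ?_ ?_
    · rw [hpow, mul_pow, hζp, one_mul]
    · rw [hζ]
      field_simp
    · intro h0
      have h1 := hpow τ₀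
      rw [h0, zero_pow hp] at h1
      exact pow_ne_zero p hτ₀ h1.symm
  have hchar : HasChar N p c U' :=
    hasChar_of_mul_eq ζ hU'm hBm hB0 hAgood.2.1 hBgood.2.1 hU.hasChar
      (fun τ => congrFun hmul τ)
  have hG'eq : (fun τ => U' τ ^ p) = G' := funext hU'p
  have hG'0 : G' ≠ 0 := by
    intro h0
    have := hpt τ₀
    rw [h0] at this
    simp only [Pi.zero_apply, zero_mul] at this
    exact pow_ne_zero p hτ₀ this.symm
  refine ⟨U', ⟨u₀, hu₀F⟩, ⟨hU'm, ?_, hchar, ?_⟩, ?_, ?_⟩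
  · by_contra hcon
    push Not at hcon
    apply hG'0
    funext τ
    rw [← hU'p, hcon, zero_pow hp]
    rfl
  · rw [hG'eq]; exact hG'good
  · rw [hG'eq]; exact hG'good
  · rw [hG'eq]; exact hG'q.qexpFun_eq

end Fermat.Agent.S29.M4b.K3

end
end
-- ===== PACK-END S29/M4b/K3/Top.lean

-- ===== PACK-BEGIN S29/M4b/K3/Deg.lean
section
/-
S29 row, M4b, piece K3 — sub-piece `K3-DEG` (helper42): bounded degree of `F_ℂ` over `ℂ(j)`.

`degStatement N : DegStatement N` (= hypothesis `hdeg` of `H152.desc_main` for `Ω = ℂ`), with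
`n = [SL₂(ℤ) : Γ₀(N)]`.  From the landed S24 degree theory (`Deg457.algDeg_of_mem_field`) and
`H882.exists_monic_of_mem_goodQ`.
-/



set_option autoImplicit false

noncomputable section

open ModularCurve AlgebraicCurve CongruenceSubgroup UpperHalfPlane Polynomial
open scoped MatrixGroups Manifold

namespace Fermat.Agent.S29.M4b.K3

open Fermat.Agent.S24 Fermat.Agent.S24.H648 Fermat.Agent.S24.H708 Fermat.Agent.S24.Deg457
open Fermat.Agent.S29 Fermat.Agent.S29.M4b

/-- The interface hypothesis of the S24 degree theory over `ℂ`. -/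
theorem hyp_complex (N : ℕ) [NeZero N] : Hyp ℂ N (Nat.card (XX N)) := by
  intro b hb
  obtain ⟨P, hPm, hPn, hP⟩ := H882.exists_monic_of_mem_goodQ (H882.AK_le_goodQ N hb)
  exact ⟨P, hPm, hPn, hP⟩

/-- **K3-DEG**. -/
theorem degStatement (N : ℕ) [NeZero N] : DegStatement N := by
  refine ⟨Nat.card (XX N), fun u hu => ?_⟩
  obtain ⟨Q, hQ0, hQn, hQ⟩ := algDeg_of_mem_field (RingHom.id ℂ) (_root_.Fermat.Agent.S29.M4b.K3.hyp_complex N) hu
  have hj : ∀ t : ℂ[X], t ≠ 0 →
      aeval (IntermediateField.AdjoinSimple.gen ℂ (coeffEmb ℂ jq)) t ≠ 0 := by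
    intro t ht h0
    apply aeval_JK_ne_zero ℂ ht
    have h1 := congrArg (algebraMap ↥(IntermediateField.adjoin ℂ {coeffEmb ℂ jq})
      (LaurentSeries ℂ)) h0
    rw [← aeval_algebraMap_apply, _root_.map_zero, IntermediateField.AdjoinSimple.algebraMap_gen] at h1
    exact h1
  refine isIntegral_and_natDegree_le_of_relation (K := ℂ)
    (IntermediateField.AdjoinSimple.gen ℂ (coeffEmb ℂ jq)) hj u Q hQ0 _ hQn ?_
  rw [IntermediateField.AdjoinSimple.algebraMap_gen]
  exact hQ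

end Fermat.Agent.S29.M4b.K3

end
end
-- ===== PACK-END S29/M4b/K3/Deg.lean

-- ===== PACK-BEGIN S29/M4b/K3/Main.lean
section
/-
S29 row, M4b, piece K3 — `PieceK3 N p` from the single remaining sub-piece `K3-FIN` (helper42).
-/




set_option autoImplicit false

noncomputable section

open ModularCurve AlgebraicCurve CongruenceSubgroup UpperHalfPlane
open scoped MatrixGroups Manifold

namespace Fermat.Agent.S29.M4b.K3

open Fermat.Agent.S24 Fermat.Agent.S29 Fermat.Agent.S29.M4b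

/-- **PIECE K3** in the `Prop` form of `M4b/Top.lean`, from `K3-FIN`. -/
theorem pieceK3_of_fin (N : ℕ) [NeZero N] (p : ℕ) [NeZero p] (hfin : FinStatement N p) :
    PieceK3 N p :=
  fun hc _ hU => exists_realised_isTwisted_of N p (degStatement N) hfin hc hU

end Fermat.Agent.S29.M4b.K3

end
end
-- ===== PACK-END S29/M4b/K3/Main.lean

-- ===== PACK-BEGIN S37/H697/Kronecker.lean
section




/-!
# S37 (helper697): the Kronecker congruence for norms, `KroneckerNorm`

Assembly of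
* NORM (helper819, `H819.norm_heckeBeta`): `Nm_α (β y)(u^ℓ) = y(u^{ℓ²}) ∏_{b<ℓ} y(ζ^b u)`,
* the formal product formula and Kronecker congruence (helper340, `H340.kron_*`),

into the hypothesis `KroneckerNorm A π N ℓ φ` of `Relation.lean`: for `ℓ` prime, `ℓ ∤ N`, `A` a
valuation subring of `ℚ̄`, `π : A → k` a homomorphism to a field of characteristic `ℓ` and `φ` an
automorphism of `k` with `φ x = x ^ ℓ`, the norm of `β y` (`y ∈ A((q)) ∩ F̄_N`) is the series
`knorm ℓ y ∈ A((q))`, with reduction `(Φ⁻¹ ȳ) ^ ℓ · Φ ȳ`.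
-/

set_option autoImplicit false
set_option linter.style.haveILetI false

noncomputable section

namespace Fermat.Agent.S37.H697

open ModularCurve HahnSeries AlgebraicCurve Fermat.Agent.S24

section TwistCompare

variable {R : Type*} [CommRing R] (ℓ : ℕ) [NeZero ℓ]

theorem zpw_eq_zpow (u : Rˣ) (hu : (u : R) ^ ℓ = 1) (n : ℤ) :
    H340.zpw ℓ (u : R) n = ((u ^ n : Rˣ) : R) := by
  have hℓ : (ℓ : ℤ) ≠ 0 := by exact_mod_cast NeZero.ne ℓ
  have hu' : u ^ ℓ = 1 := Units.ext (by rw [Units.val_pow_eq_pow_val, hu, Units.val_one])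
  have h1 : 0 ≤ n % (ℓ : ℤ) := Int.emod_nonneg n hℓ
  have h2 : n = (ℓ : ℤ) * (n / (ℓ : ℤ)) + ((n % (ℓ : ℤ)).toNat : ℤ) := by
    rw [Int.toNat_of_nonneg h1]
    exact (Int.mul_ediv_add_emod n ℓ).symm
  unfold H340.zpw
  conv_rhs => rw [h2, zpow_add, zpow_mul, zpow_natCast, hu', one_zpow, one_mul, zpow_natCast]
  rw [Units.val_pow_eq_pow_val]

theorem tw_eq_infTwist (u : Rˣ) (hu : (u : R) ^ ℓ = 1) (f : LaurentSeries R) :
    H340.tw ℓ (u : R) f = infTwist u f := by
  ext n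
  rw [H340.tw_coeff, infTwist_coeff, zpw_eq_zpow ℓ u hu, mul_comm]

end TwistCompare

section NormId

variable (N ℓ : ℕ) [NeZero N] [NeZero ℓ]

/-- **NORM-ID**: the `q`-expansion of `Nm_α (β Y)` is the formal Kronecker norm of `Y`. -/
theorem coe_normAlong_heckeBeta (hℓ : ℓ.Prime) (hℓN : ¬ ℓ ∣ N) (Y : FF N) :
    ((normAlong (heckeAlphaBar Kbar N ℓ) (heckeBetaBar Kbar N ℓ Y) : FF N) : LaurentSeries Kbar)
      = knorm ℓ (Y : LaurentSeries Kbar) := by
  haveI : NeZero ((ℓ : ℕ) : ℚ) := ⟨by exact_mod_cast hℓ.ne_zero⟩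
  obtain ⟨ζ0, hζ0⟩ := HasEnoughRootsOfUnity.exists_primitiveRoot Kbar ℓ
  obtain ⟨ζ, rfl⟩ := hζ0.isUnit hℓ.ne_zero
  apply qExpand_injective (R := Kbar) ℓ
  have h := H819.norm_heckeBeta N ℓ hℓ hℓN ζ hζ0 Y
  have e : (qExpand Kbar ℓ) ((normAlong (heckeAlphaBar Kbar N ℓ) (heckeBetaBar Kbar N ℓ Y) : FF N)
      : LaurentSeries Kbar)
      = qExpand Kbar (ℓ * ℓ) (Y : LaurentSeries Kbar)
        * ∏ b ∈ Finset.range ℓ, infTwist (ζ ^ b) (Y : LaurentSeries Kbar) := h
  rw [e, knorm, _root_.map_mul, qExpand_qExpand, qExpand_kdet_eq_prod ℓ hζ0,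
    Fin.prod_univ_eq_prod_range (fun b : ℕ => H340.tw ℓ ((ζ : Kbar) ^ b) (Y : LaurentSeries Kbar)) ℓ]
  congr 1
  refine Finset.prod_congr rfl fun b _ => ?_
  have hb : (((ζ ^ b : Kbarˣ) : Kbar)) ^ ℓ = 1 := by
    rw [Units.val_pow_eq_pow_val, ← pow_mul, mul_comm, pow_mul, hζ0.pow_eq_one, one_pow]
  rw [← tw_eq_infTwist ℓ (ζ ^ b) hb, Units.val_pow_eq_pow_val]

end NormId

section Main

variable (N ℓ : ℕ) [NeZero N] [NeZero ℓ]

/-- **The Kronecker congruence for norms.** -/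
theorem kroneckerNorm (hℓ : ℓ.Prime) (hℓN : ¬ ℓ ∣ N) (A : ValuationSubring Kbar)
    {k : Type*} [Field k] [CharP k ℓ] (π : A →+* k) (φ : k ≃+* k) (hφ : ∀ x, φ x = x ^ ℓ) :
    KroneckerNorm A π N ℓ φ := by
  intro y hy _ _
  haveI : Fact ℓ.Prime := ⟨hℓ⟩
  have hnorm := coe_normAlong_heckeBeta N ℓ hℓ hℓN ⟨coeffMap A.subtype y, hy⟩
  have hz : coeffMap A.subtype (knorm ℓ y) = knorm ℓ (coeffMap A.subtype y) :=
    (knorm_coeffMap ℓ A.subtype y).symm
  have e : ((normAlong (heckeAlphaBar Kbar N ℓ)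
      (heckeBetaBar Kbar N ℓ ⟨coeffMap A.subtype y, hy⟩) : FF N) : LaurentSeries Kbar)
      = coeffMap A.subtype (knorm ℓ y) := hnorm.trans hz.symm
  have hmem : coeffMap A.subtype (knorm ℓ y)
      ∈ laurentBaseChange Kbar (modularFunctionFieldFull N) :=
    e ▸ (normAlong (heckeAlphaBar Kbar N ℓ)
      (heckeBetaBar Kbar N ℓ ⟨coeffMap A.subtype y, hy⟩)).2
  refine ⟨knorm ℓ y, hmem, Subtype.ext e, ?_⟩
  rw [← knorm_coeffMap, knorm_char_equiv ℓ φ hφ]

end Main

end Fermat.Agent.S37.H697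

end
end
-- ===== PACK-END S37/H697/Kronecker.lean

-- ===== PACK-BEGIN S37/H697/Final2.lean
section



/-!
# S37 (helper697): the frozen statement S37 from TWO inputs (route B, final form)

`KroneckerNorm` is now proved (`Kronecker.lean`: NORM of helper819 + formal Kronecker congruence
of helper340), so the bounded-homomorphism route reduces S37 to

* `hRed : ReductionInputsModL A N`   — existence of a place reduction `r` with Prelude (i), (ii)
  (`IsPlaceReductionAlong`) and `PrincipalGeneratedByIntegral` (the latter is on `main`: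
  `S37.H448.principalGeneratedByIntegral`);
* `hS18 : Core.InjTorsionModL N ℓ A` — the conclusion of the frozen statement S18.

`weakRedData_of_red` produces the row's final interface `Core.WeakRedData N A ℓ σ₀`
(so that `Core.result_of_weakRedData` / `H99.rawES_of_weakRedData` apply with `M = N`).
-/

set_option autoImplicit false
set_option synthInstance.maxHeartbeats 400000
set_option maxHeartbeats 1600000

noncomputable section

open HahnSeries IntermediateField AlgebraicCurve ModularCurve ValuationSubring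

namespace Fermat.Agent.S37.H697

/-- The residue field of a valuation subring of `ℚ̄` over `ℓ` has characteristic `ℓ`. -/
theorem charP_residueField {ℓ : ℕ} (hℓ : ℓ.Prime)
    (A : ValuationSubring (AlgebraicClosure ℚ)) (hA : A.LiesOverPrime ℓ) :
    CharP (IsLocalRing.ResidueField A) ℓ := by
  refine (CharP.charP_iff_prime_eq_zero hℓ).mpr ?_
  have h1 : ((ℓ : A) : AlgebraicClosure ℚ) ∈ A.nonunits := by
    have : ((ℓ : A) : AlgebraicClosure ℚ) = (ℓ : AlgebraicClosure ℚ) := by push_cast; rfl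
    rw [this]; exact hA
  have h2 : (ℓ : A) ∈ IsLocalRing.maximalIdeal A := ValuationSubring.coe_mem_nonunits_iff.mp h1
  have h3 := (IsLocalRing.residue_eq_zero_iff (ℓ : A)).mpr h2
  rwa [map_natCast] at h3

/-- The Kronecker congruence for norms at a valuation subring of `ℚ̄` over `ℓ ∤ N`. -/
theorem kroneckerNorm_residue (N : ℕ) [NeZero N] {ℓ : ℕ} [NeZero ℓ] (hℓ : ℓ.Prime)
    (hℓN : ¬ ℓ ∣ N) (A : ValuationSubring (AlgebraicClosure ℚ)) (hA : A.LiesOverPrime ℓ)
    (φ : IsLocalRing.ResidueField A ≃+* IsLocalRing.ResidueField A) (hφ : ∀ x, φ x = x ^ ℓ) :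
    KroneckerNorm A (IsLocalRing.residue A) N ℓ φ := by
  have := charP_residueField hℓ A hA
  exact kroneckerNorm N ℓ hℓ hℓN A (IsLocalRing.residue A) φ hφ

/-- **`Core.WeakRedData` from a place reduction and S18.** -/
def weakRedData_of_red (N : ℕ) [NeZero N] (A : ValuationSubring (AlgebraicClosure ℚ))
    (ℓ : ℕ) [NeZero ℓ] (hℓ : ℓ.Prime) (hℓN : ¬ ℓ ∣ N) (hA : A.LiesOverPrime ℓ)
    (h : ReductionInputsModL A N)
    (hinj : Core.InjTorsionModL N ℓ A)
    (σ₀ : AlgebraicClosure ℚ ≃ₐ[ℚ] AlgebraicClosure ℚ) (hσ₀ : A.IsFrobeniusAt σ₀ ℓ) :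
    Core.WeakRedData N A ℓ σ₀ :=
  weakRedData_of_kronecker N A ℓ h hinj (kroneckerNorm_residue N hℓ hℓN A hA) σ₀ hσ₀

/-- **The frozen statement S37 from place reductions and S18.** -/
theorem result_of_red (N p : ℕ) [NeZero N]
    (hRed : ∀ ℓ : ℕ, ℓ.Prime → ¬ ℓ ∣ N →
      ∀ A : ValuationSubring (AlgebraicClosure ℚ), A.LiesOverPrime ℓ → ReductionInputsModL A N)
    (hS18 : ∀ ℓ : ℕ, ℓ.Prime → ¬ ℓ ∣ N →
      ∀ A : ValuationSubring (AlgebraicClosure ℚ), A.LiesOverPrime ℓ → Core.InjTorsionModL N ℓ A)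
    (hcomm : ModularCurve.HeckeOperatorsCommuteBar N) :
    letI := ModularCurve.heckeModuleBar N
    ∀ (_ : SMulCommClass (AlgebraicClosure ℚ ≃ₐ[ℚ] AlgebraicClosure ℚ) ModularCurve.HeckeAlg
      (ModularCurve.JZero N)),
      ModularCurve.SpecializationExists (K := ℚ) (L := AlgebraicClosure ℚ) N p
        (ModularCurve.JZero N) :=
  result_of_kronecker N p hRed hS18
    (fun ℓ hℓ hℓN A hA =>
      haveI : NeZero ℓ := ⟨hℓ.ne_zero⟩
      kroneckerNorm_residue N hℓ hℓN A hA)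
    hcomm

end Fermat.Agent.S37.H697

end
end
-- ===== PACK-END S37/H697/Final2.lean

-- ===== PACK-BEGIN S37/Core/Board.lean
section





/-!
# S37 row-lead (helper37): BOARD v3 — the frozen S37 from TWO inputs, all levels handled

Landed nodes used here: `H697.weakRedData_of_red` (node_wrd; contains NORMID and the Kronecker
congruence), `H818.node_pull` (level raising `N → 2N, 3N` for `ℓ = 3, 2`), `Core.result_of_weakRedData`.

* `GoodLevel M ℓ` : `5 ≤ ℓ`, or `ℓ = 3 ∧ 2 ∣ M`, or `ℓ = 2 ∧ 3 ∣ M` (a good coordinate exists).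
* `RimStatement`  : `ReductionInputsModL A M` for all good levels (node_rim).
* `S18Statement`  : the conclusion of the frozen S18 at all levels (row S18).
* `result_of_rim_s18 : RimStatement → S18Statement → (frozen S37)`.
* `rawES_of_rim_s18` : the same for the raw Eichler-Shimura export (rows S29 / S30 / S42).
* `DatumStatement`   : existence of a linked reduction datum with good charts at good levels;
  `rimStatement_of_datum : DatumStatement → RimStatement` (by `Core.node_rim_of_datum`).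
-/

set_option autoImplicit false
set_option synthInstance.maxHeartbeats 400000

noncomputable section

namespace Fermat.Agent.S37.Core

open ModularCurve ValuationSubring AlgebraicCurve HahnSeries

/-- the levels at which the smooth model is constructed directly -/
def GoodLevel (M ℓ : ℕ) : Prop := 5 ≤ ℓ ∨ (ℓ = 3 ∧ 2 ∣ M) ∨ (ℓ = 2 ∧ 3 ∣ M)

/-- **node_rim**: the place reduction map exists at all good levels. -/
def RimStatement : Prop :=
  ∀ (M ℓ : ℕ) [NeZero M], ℓ.Prime → ¬ ℓ ∣ M → GoodLevel M ℓ →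
    ∀ A : ValuationSubring (AlgebraicClosure ℚ), A.LiesOverPrime ℓ → ReductionInputsModL A M

/-- **node_s18**: the conclusion of the frozen S18, at all levels. -/
def S18Statement : Prop :=
  ∀ (M ℓ : ℕ) [NeZero M], ℓ.Prime → ¬ ℓ ∣ M →
    ∀ A : ValuationSubring (AlgebraicClosure ℚ), A.LiesOverPrime ℓ → InjTorsionModL M ℓ A

/-- **node_datum**: a linked reduction datum with good charts exists at all good levels. -/
def DatumStatement : Prop :=
  ∀ (M ℓ : ℕ) [NeZero M], ℓ.Prime → ¬ ℓ ∣ M → GoodLevel M ℓ →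
    ∀ A : ValuationSubring (AlgebraicClosure ℚ), A.LiesOverPrime ℓ →
      ∃ G : Red.Datum A (IsLocalRing.residue A) (modularFunctionFieldBar M)
          (modularFunctionFieldFullC (IsLocalRing.ResidueField A) M),
        G.Good ∧ Red.H759.Link G

theorem rimStatement_of_datum (h : DatumStatement) : RimStatement := by
  intro M ℓ _ hℓ hℓM hg A hA
  obtain ⟨G, hgood, hlink⟩ := h M ℓ hℓ hℓM hg A hA
  exact node_rim_of_datum M ℓ hℓ hℓM A hA G hgood hlink

theorem prime_cases {ℓ : ℕ} (hℓ : ℓ.Prime) : ℓ = 2 ∨ ℓ = 3 ∨ 5 ≤ ℓ := by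
  rcases Nat.lt_or_ge ℓ 5 with h | h
  · have h2 := hℓ.two_le
    interval_cases ℓ
    · exact Or.inl rfl
    · exact Or.inr (Or.inl rfl)
    · exact absurd hℓ (by decide)
  · exact Or.inr (Or.inr h)

/-- The hypothesis `H` of `Core.result_of_weakRedData` / `Core.rawES_of_weakRedData` from
node_rim and node_s18. -/
theorem weakRedData_of_rim_s18 (hRim : RimStatement) (hS18 : S18Statement) (N : ℕ) [NeZero N]
    (ℓ : ℕ) (hℓ : ℓ.Prime) (hℓN : ¬ ℓ ∣ N)
    (A : ValuationSubring (AlgebraicClosure ℚ)) (hA : A.LiesOverPrime ℓ)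
    (σ₀ : AlgebraicClosure ℚ ≃ₐ[ℚ] AlgebraicClosure ℚ) (hσ₀ : A.IsFrobeniusAt σ₀ ℓ) :
    haveI : NeZero ℓ := ⟨hℓ.ne_zero⟩
    ∃ (M : ℕ) (_ : NeZero M), Nonempty (WeakRedData M A ℓ σ₀) ∧ Nonempty (PullData N M ℓ) := by
  haveI : NeZero ℓ := ⟨hℓ.ne_zero⟩
  have key : ∀ (M : ℕ) [NeZero M], ¬ ℓ ∣ M → GoodLevel M ℓ → Nonempty (PullData N M ℓ) →
      ∃ (M : ℕ) (_ : NeZero M), Nonempty (WeakRedData M A ℓ σ₀) ∧ Nonempty (PullData N M ℓ) :=
    fun M _ hℓM hg hP =>
      ⟨M, inferInstance,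
        ⟨H697.weakRedData_of_red M A ℓ hℓ hℓM hA (hRim M ℓ hℓ hℓM hg A hA)
          (hS18 M ℓ hℓ hℓM A hA) σ₀ hσ₀⟩, hP⟩
  rcases prime_cases hℓ with h2 | h3 | h5
  · subst h2
    by_cases h3N : 3 ∣ N
    · exact key N hℓN (Or.inr (Or.inr ⟨rfl, h3N⟩)) ⟨PullData.refl N 2⟩
    · haveI : NeZero (N * 3) := ⟨Nat.mul_ne_zero (NeZero.ne N) (by norm_num)⟩
      have hℓM : ¬ 2 ∣ N * 3 := fun h =>
        hℓN ((Nat.Coprime.dvd_mul_right (by norm_num : Nat.Coprime 2 3)).mp h)
      exact key (N * 3) hℓM (Or.inr (Or.inr ⟨rfl, Dvd.intro_left N rfl⟩))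
        (H818.node_pull N 3 2 hℓ (Or.inr ⟨rfl, rfl⟩) h3N hℓN)
  · subst h3
    by_cases h2N : 2 ∣ N
    · exact key N hℓN (Or.inr (Or.inl ⟨rfl, h2N⟩)) ⟨PullData.refl N 3⟩
    · haveI : NeZero (N * 2) := ⟨Nat.mul_ne_zero (NeZero.ne N) (by norm_num)⟩
      have hℓM : ¬ 3 ∣ N * 2 := fun h =>
        hℓN ((Nat.Coprime.dvd_mul_right (by norm_num : Nat.Coprime 3 2)).mp h)
      exact key (N * 2) hℓM (Or.inr (Or.inl ⟨rfl, Dvd.intro_left N rfl⟩))
        (H818.node_pull N 2 3 hℓ (Or.inl ⟨rfl, rfl⟩) h2N hℓN)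
  · exact key N hℓN (Or.inl h5) ⟨PullData.refl N ℓ⟩

/-- **The frozen statement S37 from node_rim and node_s18.** -/
theorem result_of_rim_s18 (hRim : RimStatement) (hS18 : S18Statement) (N p : ℕ) [NeZero N]
    (hcomm : ModularCurve.HeckeOperatorsCommuteBar N) :
    letI := ModularCurve.heckeModuleBar N
    ∀ (_ : SMulCommClass (AlgebraicClosure ℚ ≃ₐ[ℚ] AlgebraicClosure ℚ) ModularCurve.HeckeAlg
      (ModularCurve.JZero N)),
      ModularCurve.SpecializationExists (K := ℚ) (L := AlgebraicClosure ℚ) N p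
        (ModularCurve.JZero N) :=
  result_of_weakRedData N p (fun ℓ hℓ hℓN A hA σ₀ hσ₀ =>
    weakRedData_of_rim_s18 hRim hS18 N ℓ hℓ hℓN A hA σ₀ hσ₀) hcomm

/-- **Raw Eichler-Shimura on `p`-torsion of `J₀(N)` from node_rim and node_s18**
(body of `Fermat.Agent.S29.RawESStatement`). -/
theorem rawES_of_rim_s18 (hRim : RimStatement) (hS18 : S18Statement) (N : ℕ) [NeZero N]
    (p : ℕ) (ℓ : ℕ) (hℓ : ℓ.Prime) (hdvd : ¬ ℓ ∣ N * p)
    (A : ValuationSubring (AlgebraicClosure ℚ)) (hA : A.LiesOverPrime ℓ) :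
    (∀ σ ∈ A.inertiaSubgroupIn ℚ, ∀ x : JZero N, (p : ℤ) • x = 0 → σ • x = x) ∧
      (∀ σ : AlgebraicClosure ℚ ≃ₐ[ℚ] AlgebraicClosure ℚ, A.IsFrobeniusAt σ ℓ →
        ∀ x : JZero N, (p : ℤ) • x = 0 →
          σ • σ • x - heckeOperatorBar N ⟨ℓ, hℓ⟩ (σ • x) + (ℓ : ℤ) • x = 0) :=
  rawES_of_weakRedData N (fun ℓ hℓ hℓN A hA σ₀ hσ₀ =>
    weakRedData_of_rim_s18 hRim hS18 N ℓ hℓ hℓN A hA σ₀ hσ₀) p ℓ hℓ hdvd A hA

end Fermat.Agent.S37.Core

end
end
-- ===== PACK-END S37/Core/Board.lean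

-- ===== PACK-BEGIN A3/H615/GrRedLeaf.lean
section




/-!
# Cell A3 / GR-INST, leaf GR-RED of helper739's assembly (helper615)

`redLeaf_of_datum` : a linked reduction datum with good charts gives `A3.H739.RedLeaf N V`.
`redLeaf_of_datumStatement` : the S37 node `Core.DatumStatement` gives the hypothesis `hred` of
`A3.H739.grStatement_of_leaves_forall`, verbatim.
-/

set_option autoImplicit false
set_option synthInstance.maxHeartbeats 400000

noncomputable section

namespace Fermat.Agent.A3.H615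

open ModularCurve AlgebraicCurve HahnSeries IsLocalRing Fermat.Agent.S37.Red

namespace GrRed

/-- **Leaf GR-RED** from a linked reduction datum with good charts. -/
theorem redLeaf_of_datum (N : ℕ) [NeZero N] {ℓ : ℕ} (hℓ : ℓ.Prime) (hℓN : ¬ ℓ ∣ N)
    (V : ValuationSubring _root_.Fermat.Agent.A3.H615.GrRed.Qb) (hV : V.LiesOverPrime ℓ)
    (G : Datum V (residue V) (modularFunctionFieldBar N)
      (modularFunctionFieldFullC (ResidueField V) N))
    (hgood : G.Good) (hlink : H759.Link G) :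
    Fermat.Agent.A3.H739.RedLeaf N V := by
  obtain ⟨r, -, hI, hmod, -⟩ := exists_red hℓ hℓN hV G hgood hlink
  exact ⟨r, hmod, fun σ hσ P => hI σ hσ P⟩

/-- **Leaf GR-RED at all good levels** from the S37 node `DatumStatement`
(the hypothesis `hred` of `A3.H739.grStatement_of_leaves_forall`). -/
theorem redLeaf_of_datumStatement (h : Fermat.Agent.S37.Core.DatumStatement) :
    ∀ (N : ℕ) [NeZero N] (ℓ : ℕ) [Fact ℓ.Prime], ¬ ℓ ∣ N → Fermat.Agent.S19.GoodLevel N ℓ →
      ∀ V : ValuationSubring _root_.Fermat.Agent.A3.H615.GrRed.Qb, V.LiesOverPrime ℓ → Fermat.Agent.A3.H739.RedLeaf N V := by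
  intro N _ ℓ _ hℓN hg V hV
  obtain ⟨G, hgood, hlink⟩ := h N ℓ Fact.out hℓN hg V hV
  exact redLeaf_of_datum N Fact.out hℓN V hV G hgood hlink

end GrRed

end Fermat.Agent.A3.H615

end
end
-- ===== PACK-END A3/H615/GrRedLeaf.lean

-- ===== PACK-BEGIN S37/Core/Leaves.lean
section





/-!
# S37 row-lead (helper37): BOARD v3 — the OPEN LEAVES of `node_rim`, frozen statements

`Core.result_of_rim_s18 : RimStatement → S18Statement → frozen S37` and
`Core.rimStatement_of_datum : DatumStatement → RimStatement` are on main (`Core/Board.lean`).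
This file freezes the leaves of `DatumStatement` as `def … : Prop` and PROVES

  `datumStatement_of_leaves :
     DatumLeaf → NormalAbsStatement → LiftLeaf → H1Leaf → ModStatement → DatumStatement`
  `result_of_leaves : … → S18Statement → frozen S37`.

HAND-IN of a leaf = a theorem of type `Fermat.Agent.S37.Core.<Leaf>` (sorry-free, on main).

* `DatumLeaf` (D1): the Gauss datum `(O, ρ)` on `(F_M, F_{M,k})` whose coordinate is a given
  `x ∈ F_M` with integral model `X ∈ ℤ((q))`, linked to the Prelude (`Red.H759.Link`).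
* `NormalAbsStatement` (D2; Mathlib + `S18/Alg/Spec.lean` only): for an `Alg.GoodModel`, an
  element of `V` which is a root mod `w` of a monic polynomial over `R[x]` is congruent mod `w`
  to an element of the chart (normality of the special fibre; from `b2Normal` of row S18).
* `LiftLeaf` (D3): `Red.H759.LiftAtLevel` on both charts at every number field, from the good
  models of row S18 (`Mod.GoodModelStatement`) and (D2).
* `H1Leaf` (D4): degrees and separability, fields (H1) of `Red.Datum.Good`, for an admissible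
  coordinate (`x = j`: `S37.H208.good_H1`, `S37.H628.good_H1`; `t₂`, `t₃`: tower law).
* `ModStatement`: node_mod of row S18 for all `(M, ℓ, A)`.
-/

set_option autoImplicit false
set_option synthInstance.maxHeartbeats 400000

noncomputable section

namespace Fermat.Agent.S37.Core

open ModularCurve ValuationSubring AlgebraicCurve HahnSeries IsLocalRing Polynomial
open Fermat.Agent.S37.Red Fermat.Agent.S18

/-- `X ∈ ℤ((q))`, `X = q⁻¹ + …`, is an integral model of the coordinate `x ∈ F_M`. -/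
structure IsModelOf (M : ℕ) (x : Mod.Om M) (X : LaurentSeries ℤ) : Prop where
  coeff_neg_one : X.coeff (-1) = 1
  coeff_lt : ∀ k : ℤ, k < -1 → X.coeff k = 0
  coe_eq : (x : LaurentSeries (AlgebraicClosure ℚ)) =
    coeffMap (Int.castRingHom (AlgebraicClosure ℚ)) X
  mem_full : coeffMap (Int.castRingHom ℚ) X ∈ modularFunctionFieldFull M

/-- the reduction `x̄ ∈ k((q))` of the coordinate with integral model `X` -/
abbrev redX (A : ValuationSubring (AlgebraicClosure ℚ)) (X : LaurentSeries ℤ) :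
    LaurentSeries (ResidueField A) :=
  coeffMap (Int.castRingHom (ResidueField A)) X

/-- (D0) an admissible coordinate has an integral model. -/
theorem exists_isModelOf (M ℓ : ℕ) [NeZero M] (x : Mod.Om M) (S : Finset (Mod.Om M))
    (hx : Mod.IsCoordinate M ℓ x S) : ∃ X : LaurentSeries ℤ, IsModelOf M x X := by
  obtain ⟨X, h1, h2, h3, h4⟩ := H456.hasIntExp_of_isCoordinate M hx
  exact ⟨X, h1, h2, h3, h4⟩

/-- **LEAF D1**: the Gauss datum with coordinate `x`, linked to the Prelude. -/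
def DatumLeaf : Prop :=
  ∀ (M ℓ : ℕ) [NeZero M], ℓ.Prime → ¬ ℓ ∣ M →
    ∀ A : ValuationSubring (AlgebraicClosure ℚ), A.LiesOverPrime ℓ →
    ∀ (x : Mod.Om M) (X : LaurentSeries ℤ), IsModelOf M x X →
      ∃ G : Datum A (residue A) (modularFunctionFieldBar M)
          (modularFunctionFieldFullC (ResidueField A) M),
        G.x = x ∧ ((G.xk : modularFunctionFieldFullC (ResidueField A) M) :
          LaurentSeries (ResidueField A)) = redX A X ∧ H759.Link G

/-- **LEAF D2** (Mathlib + `S18/Alg/Spec.lean` only).  For a good model: if `f ∈ V` is a root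
mod `w` of a monic polynomial over `R[x]`, then `f` is congruent mod `w` to an element of the
chart `B = {b ∈ Fc integral over R[x]}`.
(Proof: `f = b/g`, `b ∈ B`, `g ∈ R[x]` primitive [`finite`, `gauss`, `qep_fin`]; the equation
gives `b^d + Σ aᵢ bⁱ g^(d-i) ∈ wV ∩ B = wB`; `b2Normal` [`S18.B12.H204/H273/H858/H633`] with the
adapters of row S18 [hNC: `S18.H213.HNC`; hsep: `S18.H425.Hsep`] gives `b₀ ∈ B` with
`b - g b₀ ∈ wB`.) -/
def NormalAbsStatement : Prop :=
  ∀ (Ω : Type) [Field Ω] (Lc Ec Fc : Subfield Ω) (R V : Subring Ω) (w x : Ω) (S : Finset Ω),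
    Alg.GoodModel Lc Ec Fc R V w x S →
    ∀ f ∈ V, ∀ P : Polynomial Ω, P.Monic → (∀ i, P.coeff i ∈ Alg.polyRing R x) →
      P.eval f * w⁻¹ ∈ V →
      ∃ b ∈ Alg.chart Fc R x, (f - b) * w⁻¹ ∈ V

/-- **LEAF D3**: (H3) at every number-field level, on both charts, from the good models of row
S18 and (D2).  (Chart at infinity: `S18.H425.goodModel_inv`.) -/
def LiftLeaf : Prop :=
  ∀ (M ℓ : ℕ) [NeZero M], ℓ.Prime → ¬ ℓ ∣ M →
    ∀ A : ValuationSubring (AlgebraicClosure ℚ), A.LiesOverPrime ℓ →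
    ∀ (x : Mod.Om M) (S : Finset (Mod.Om M)), Mod.IsCoordinate M ℓ x S →
    ∀ X : LaurentSeries ℤ, IsModelOf M x X →
    Mod.GoodModelStatement M ℓ A → NormalAbsStatement →
    ∀ E : H759.NumberFieldIn,
      H759.LiftAtLevel A M E.1 (x : LaurentSeries (AlgebraicClosure ℚ)) (redX A X) ∧
        H759.LiftAtLevel A M E.1 ((x : LaurentSeries (AlgebraicClosure ℚ)))⁻¹ (redX A X)⁻¹

/-- **LEAF D4**: (H1) for an admissible coordinate. -/
def H1Leaf : Prop :=
  ∀ (M ℓ : ℕ) [NeZero M], ℓ.Prime → ¬ ℓ ∣ M →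
    ∀ A : ValuationSubring (AlgebraicClosure ℚ), A.LiesOverPrime ℓ →
    ∀ (x : Mod.Om M) (S : Finset (Mod.Om M)), Mod.IsCoordinate M ℓ x S →
    ∀ X : LaurentSeries ℤ, IsModelOf M x X →
    ∀ G : Datum A (residue A) (modularFunctionFieldBar M)
      (modularFunctionFieldFullC (ResidueField A) M),
    G.x = x →
    ((G.xk : modularFunctionFieldFullC (ResidueField A) M) :
      LaurentSeries (ResidueField A)) = redX A X →
    FiniteDimensional (IntermediateField.adjoin (AlgebraicClosure ℚ) {G.x})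
        (modularFunctionFieldBar M) ∧
      FiniteDimensional (IntermediateField.adjoin (ResidueField A) {G.xk})
        (modularFunctionFieldFullC (ResidueField A) M) ∧
      Algebra.IsSeparable (IntermediateField.adjoin (ResidueField A) {G.xk})
        (modularFunctionFieldFullC (ResidueField A) M) ∧
      Module.finrank (IntermediateField.adjoin (AlgebraicClosure ℚ) {G.x})
          (modularFunctionFieldBar M) =
        Module.finrank (IntermediateField.adjoin (ResidueField A) {G.xk})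
          (modularFunctionFieldFullC (ResidueField A) M)

/-- **node_mod of row S18**, for all `(M, ℓ, A)`. -/
def ModStatement : Prop :=
  ∀ (M ℓ : ℕ) [NeZero M], ℓ.Prime → ¬ ℓ ∣ M →
    ∀ A : ValuationSubring (AlgebraicClosure ℚ), A.LiesOverPrime ℓ →
      Mod.GoodModelStatement M ℓ A

/-- **node_datum from the leaves.** -/
theorem datumStatement_of_leaves (hD1 : DatumLeaf) (hD2 : NormalAbsStatement) (hD3 : LiftLeaf)
    (hD4 : H1Leaf) (hMod : ModStatement) : DatumStatement := by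
  intro M ℓ _ hℓ hℓM hg A hA
  haveI : Fact ℓ.Prime := ⟨hℓ⟩
  have h3 : ℓ = 3 → 2 ∣ M := fun h => by
    rcases hg with h5 | ⟨-, h⟩ | ⟨h2, -⟩
    · omega
    · exact h
    · omega
  have h2 : ℓ = 2 → 3 ∣ M := fun h => by
    rcases hg with h5 | ⟨h3, -⟩ | ⟨-, h⟩
    · omega
    · omega
    · exact h
  obtain ⟨x, S, hx⟩ := H333.node_coord M hℓM h3 h2
  obtain ⟨X, hX⟩ := exists_isModelOf M ℓ x S hx
  obtain ⟨G, hGx, hGxk, hlink⟩ := hD1 M ℓ hℓ hℓM A hA x X hX
  obtain ⟨hf, hfk, hsep, hrk⟩ := hD4 M ℓ hℓ hℓM A hA x S hx X hX G hGx hGxk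
  have hlev := fun E : H759.NumberFieldIn =>
    hD3 M ℓ hℓ hℓM A hA x S hx X hX (hMod M ℓ hℓ hℓM A hA) hD2 E
  obtain ⟨E₀⟩ : Nonempty H759.NumberFieldIn := inferInstance
  refine ⟨G, H217.good_of G hf hfk hsep hrk ?_ ?_, hlink⟩
  · refine H759.lift_fin_of_levels G hlink E₀ (fun E _ => ?_)
    rw [hGx, hGxk]
    exact (hlev E).1
  · refine H759.lift_inf_of_levels G hlink E₀ (fun E _ => ?_)
    rw [hGx, hGxk]
    exact (hlev E).2

/-- **The frozen statement S37 from the leaves and S18.** -/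
theorem result_of_leaves (hD1 : DatumLeaf) (hD2 : NormalAbsStatement) (hD3 : LiftLeaf)
    (hD4 : H1Leaf) (hMod : ModStatement) (hS18 : S18Statement) (N p : ℕ) [NeZero N]
    (hcomm : ModularCurve.HeckeOperatorsCommuteBar N) :
    letI := ModularCurve.heckeModuleBar N
    ∀ (_ : SMulCommClass (AlgebraicClosure ℚ ≃ₐ[ℚ] AlgebraicClosure ℚ) ModularCurve.HeckeAlg
      (ModularCurve.JZero N)),
      ModularCurve.SpecializationExists (K := ℚ) (L := AlgebraicClosure ℚ) N p
        (ModularCurve.JZero N) :=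
  result_of_rim_s18 (rimStatement_of_datum (datumStatement_of_leaves hD1 hD2 hD3 hD4 hMod))
    hS18 N p hcomm

end Fermat.Agent.S37.Core

end
end
-- ===== PACK-END S37/Core/Leaves.lean

-- ===== PACK-BEGIN S37/H88/ALSwap.lean
section




/-!
# S37 / NORM-ID (helper88): the Atkin–Lehner swap and the norm along `α`

`L` a field of characteristic `0` with a primitive `ℓ`-th root of unity, `ℓ ∤ N` prime.

* `exists_swap` : a ring endomorphism `w` of `F_{Nℓ}` with `w ∘ α = β`, `w ∘ β = α`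
  (the Atkin–Lehner involution `w_ℓ`), constructed formally as `V⁻¹ ∘ τ`;
* `finrankAlong_heckeAlphaBar'` : `[F_{Nℓ} : α F_N] = ℓ + 1`;
* `charpoly_alpha_beta` : the characteristic polynomial of `β y` with respect to the `α`-structure
  (coefficients read in `L((q))`) is `H400.kronPoly ℓ y`;
* `norm_alpha_beta` (**NORM-ID**) : `Nm_α(β y) = H400.kronNorm ℓ y = y(q^ℓ) ∏_b y(ζ^b q^{1/ℓ})`.
-/

set_option autoImplicit false
set_option linter.unusedSectionVars false
set_option linter.style.haveILetI false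
set_option synthInstance.maxHeartbeats 400000

noncomputable section

namespace Fermat.Agent.S37.H88

open ModularCurve Polynomial IntermediateField Fermat.Agent.S28 Fermat.Agent.S37 AlgebraicCurve

section Swap

variable {L : Type*} [Field L] [Algebra ℚ L] {N ℓ : ℕ} [NeZero N] [NeZero ℓ]

/-- every generator `j(q^d)`, `d ∣ Nℓ`, of `F_{Nℓ}` lies in `α F_N` or in `β F_N` -/
theorem gd_eq_alpha_or_beta (hℓ : ℓ.Prime) {d : ℕ} [NeZero d] (hd : d ∣ N * ℓ) :
    ∃ a : laurentBaseChange L (modularFunctionFieldFull N),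
      ((heckeAlphaBar L N ℓ a : laurentBaseChange L (modularFunctionFieldFull (N * ℓ))) :
        LaurentSeries L) = gd L d ∨
      ((heckeBetaBar L N ℓ a : laurentBaseChange L (modularFunctionFieldFull (N * ℓ))) :
        LaurentSeries L) = gd L d := by
  by_cases hℓd : ℓ ∣ d
  · obtain ⟨d', rfl⟩ := hℓd
    have hd' : d' ∣ N := by
      rw [mul_comm N ℓ] at hd
      exact Nat.dvd_of_mul_dvd_mul_left hℓ.pos hd
    haveI : NeZero d' := ⟨fun h => by subst h; exact (NeZero.ne (ℓ * 0)) (mul_zero ℓ)⟩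
    refine ⟨⟨gd L d', (FB_eq L N).ge (jd_mem_fullC L hd')⟩, Or.inr ?_⟩
    rw [coe_heckeBetaBar]
    show qExpand L ℓ (qExpand L d' (jqModC L)) = qExpand L (ℓ * d') (jqModC L)
    rw [qExpand_qExpand]
  · have hd' : d ∣ N :=
      (Nat.Coprime.dvd_of_dvd_mul_right
        ((Nat.coprime_comm.mp ((Nat.Prime.coprime_iff_not_dvd hℓ).mpr hℓd))) hd)
    refine ⟨⟨gd L d, (FB_eq L N).ge (jd_mem_fullC L hd')⟩, Or.inl ?_⟩
    rw [coe_heckeAlphaBar]

/-- the last embedding takes values in `V(F_{Nℓ})` -/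
theorem lastEmbedding_mem (hℓ : ℓ.Prime)
    (τ : laurentBaseChange L (modularFunctionFieldFull (N * ℓ)) →+* LaurentSeries L)
    (hτβ : ∀ a : laurentBaseChange L (modularFunctionFieldFull N),
      τ (heckeBetaBar L N ℓ a) = qExpand L ℓ (a : LaurentSeries L))
    (hτα : ∀ a : laurentBaseChange L (modularFunctionFieldFull N),
      τ (heckeAlphaBar L N ℓ a) = qExpand L ℓ (qExpand L ℓ (a : LaurentSeries L)))
    (x : laurentBaseChange L (modularFunctionFieldFull (N * ℓ))) :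
    ∃ z : laurentBaseChange L (modularFunctionFieldFull (N * ℓ)),
      qExpand L ℓ (z : LaurentSeries L) = τ x := by
  obtain ⟨x, hx⟩ := x
  have hx' : x ∈ modularFunctionFieldFullC L (N * ℓ) := (FB_eq L (N * ℓ)).le hx
  have key : ∀ (y : LaurentSeries L) (hy : y ∈ modularFunctionFieldFullC L (N * ℓ)),
      ∃ z : laurentBaseChange L (modularFunctionFieldFull (N * ℓ)),
        qExpand L ℓ (z : LaurentSeries L) = τ ⟨y, (FB_eq L (N * ℓ)).ge hy⟩ := by
    intro y hy
    induction hy using IntermediateField.adjoin_induction with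
    | mem y hy =>
      obtain ⟨d, hd0, hd, rfl⟩ := hy
      obtain ⟨a, ha | ha⟩ := gd_eq_alpha_or_beta (L := L) hℓ hd
      · refine ⟨heckeBetaBar L N ℓ a, ?_⟩
        have h1 : (⟨qExpand L d (jqModC L), (FB_eq L (N * ℓ)).ge
            (subset_adjoin L _ ⟨d, hd0, hd, rfl⟩)⟩ :
            laurentBaseChange L (modularFunctionFieldFull (N * ℓ))) = heckeAlphaBar L N ℓ a :=
          Subtype.ext ha.symm
        rw [h1, hτα, coe_heckeBetaBar]
      · refine ⟨heckeAlphaBar L N ℓ a, ?_⟩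
        have h1 : (⟨qExpand L d (jqModC L), (FB_eq L (N * ℓ)).ge
            (subset_adjoin L _ ⟨d, hd0, hd, rfl⟩)⟩ :
            laurentBaseChange L (modularFunctionFieldFull (N * ℓ))) = heckeBetaBar L N ℓ a :=
          Subtype.ext ha.symm
        rw [h1, hτβ, coe_heckeAlphaBar]
    | algebraMap c =>
      refine ⟨algebraMap L _ c, ?_⟩
      have h1 : (⟨algebraMap L (LaurentSeries L) c, (FB_eq L (N * ℓ)).ge
          (IntermediateField.algebraMap_mem _ c)⟩ :
          laurentBaseChange L (modularFunctionFieldFull (N * ℓ))) = algebraMap L _ c :=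
        Subtype.ext rfl
      rw [h1]
      have h2 : τ (algebraMap L _ c) = algebraMap L (LaurentSeries L) c := by
        have h3 : (algebraMap L (laurentBaseChange L (modularFunctionFieldFull (N * ℓ))) c) =
            heckeBetaBar L N ℓ (algebraMap L _ c) := ((heckeBetaBar L N ℓ).commutes c).symm
        rw [h3, hτβ]
        show qExpand L ℓ (algebraMap L (LaurentSeries L) c) = _
        rw [← qExpandAlgHomC_apply, AlgHom.commutes]
      rw [h2]
      show qExpand L ℓ (algebraMap L (LaurentSeries L) c) = _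
      rw [← qExpandAlgHomC_apply, AlgHom.commutes]
    | add y y' hy hy' ih ih' =>
      obtain ⟨z, hz⟩ := ih
      obtain ⟨z', hz'⟩ := ih'
      refine ⟨z + z', ?_⟩
      have h1 : (⟨y + y', (FB_eq L (N * ℓ)).ge (_root_.AddMemClass.add_mem hy hy')⟩ :
          laurentBaseChange L (modularFunctionFieldFull (N * ℓ))) =
          ⟨y, (FB_eq L (N * ℓ)).ge hy⟩ + ⟨y', (FB_eq L (N * ℓ)).ge hy'⟩ := Subtype.ext rfl
      rw [h1, _root_.map_add, ← hz, ← hz', IntermediateField.coe_add, _root_.map_add]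
    | inv y hy ih =>
      obtain ⟨z, hz⟩ := ih
      refine ⟨z⁻¹, ?_⟩
      have h1 : (⟨y⁻¹, (FB_eq L (N * ℓ)).ge (_root_.InvMemClass.inv_mem hy)⟩ :
          laurentBaseChange L (modularFunctionFieldFull (N * ℓ))) =
          (⟨y, (FB_eq L (N * ℓ)).ge hy⟩ :
            laurentBaseChange L (modularFunctionFieldFull (N * ℓ)))⁻¹ := Subtype.ext rfl
      rw [h1, map_inv₀, ← hz, IntermediateField.coe_inv, map_inv₀]
    | mul y y' hy hy' ih ih' =>
      obtain ⟨z, hz⟩ := ih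
      obtain ⟨z', hz'⟩ := ih'
      refine ⟨z * z', ?_⟩
      have h1 : (⟨y * y', (FB_eq L (N * ℓ)).ge (_root_.MulMemClass.mul_mem hy hy')⟩ :
          laurentBaseChange L (modularFunctionFieldFull (N * ℓ))) =
          ⟨y, (FB_eq L (N * ℓ)).ge hy⟩ * ⟨y', (FB_eq L (N * ℓ)).ge hy'⟩ := Subtype.ext rfl
      rw [h1, _root_.map_mul, ← hz, ← hz', IntermediateField.coe_mul, _root_.map_mul]
  exact key x hx'

theorem eq_of_qExpand_eq {M : ℕ}
    {z z' : laurentBaseChange L (modularFunctionFieldFull M)}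
    (h : qExpand L ℓ (z : LaurentSeries L) = qExpand L ℓ (z' : LaurentSeries L)) : z = z' :=
  Subtype.ext (qExpand_injective ℓ h)

/-- the swap `w = V⁻¹ ∘ τ` attached to a last embedding `τ` -/
def swapOfTau (hℓ : ℓ.Prime)
    (τ : laurentBaseChange L (modularFunctionFieldFull (N * ℓ)) →+* LaurentSeries L)
    (hτβ : ∀ a : laurentBaseChange L (modularFunctionFieldFull N),
      τ (heckeBetaBar L N ℓ a) = qExpand L ℓ (a : LaurentSeries L))
    (hτα : ∀ a : laurentBaseChange L (modularFunctionFieldFull N),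
      τ (heckeAlphaBar L N ℓ a) = qExpand L ℓ (qExpand L ℓ (a : LaurentSeries L))) :
    laurentBaseChange L (modularFunctionFieldFull (N * ℓ)) →+*
      laurentBaseChange L (modularFunctionFieldFull (N * ℓ)) where
  toFun x := Classical.choose (lastEmbedding_mem hℓ τ hτβ hτα x)
  map_one' := by
    apply eq_of_qExpand_eq (ℓ := ℓ)
    rw [Classical.choose_spec (lastEmbedding_mem hℓ τ hτβ hτα 1), _root_.map_one,
      IntermediateField.coe_one, _root_.map_one]
  map_mul' x y := by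
    apply eq_of_qExpand_eq (ℓ := ℓ)
    rw [Classical.choose_spec (lastEmbedding_mem hℓ τ hτβ hτα (x * y)), _root_.map_mul,
      IntermediateField.coe_mul, _root_.map_mul,
      Classical.choose_spec (lastEmbedding_mem hℓ τ hτβ hτα x),
      Classical.choose_spec (lastEmbedding_mem hℓ τ hτβ hτα y)]
  map_zero' := by
    apply eq_of_qExpand_eq (ℓ := ℓ)
    rw [Classical.choose_spec (lastEmbedding_mem hℓ τ hτβ hτα 0), _root_.map_zero,
      IntermediateField.coe_zero, _root_.map_zero]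
  map_add' x y := by
    apply eq_of_qExpand_eq (ℓ := ℓ)
    rw [Classical.choose_spec (lastEmbedding_mem hℓ τ hτβ hτα (x + y)), _root_.map_add,
      IntermediateField.coe_add, _root_.map_add,
      Classical.choose_spec (lastEmbedding_mem hℓ τ hτβ hτα x),
      Classical.choose_spec (lastEmbedding_mem hℓ τ hτβ hτα y)]

theorem swapOfTau_spec (hℓ : ℓ.Prime)
    (τ : laurentBaseChange L (modularFunctionFieldFull (N * ℓ)) →+* LaurentSeries L)
    (hτβ : ∀ a : laurentBaseChange L (modularFunctionFieldFull N),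
      τ (heckeBetaBar L N ℓ a) = qExpand L ℓ (a : LaurentSeries L))
    (hτα : ∀ a : laurentBaseChange L (modularFunctionFieldFull N),
      τ (heckeAlphaBar L N ℓ a) = qExpand L ℓ (qExpand L ℓ (a : LaurentSeries L)))
    (x : laurentBaseChange L (modularFunctionFieldFull (N * ℓ))) :
    qExpand L ℓ ((swapOfTau hℓ τ hτβ hτα x : laurentBaseChange L
      (modularFunctionFieldFull (N * ℓ))) : LaurentSeries L) = τ x :=
  Classical.choose_spec (lastEmbedding_mem hℓ τ hτβ hτα x)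

/-- **The Atkin–Lehner swap.**  There is a ring endomorphism `w` of `F_{Nℓ}` with
`w ∘ α = β` and `w ∘ β = α`. -/
theorem exists_swap (hℓ : ℓ.Prime) (hℓN : ¬ ℓ ∣ N) {ζ : L} (hζ : IsPrimitiveRoot ζ ℓ) :
    ∃ w : laurentBaseChange L (modularFunctionFieldFull (N * ℓ)) →+*
        laurentBaseChange L (modularFunctionFieldFull (N * ℓ)),
      (∀ a : laurentBaseChange L (modularFunctionFieldFull N),
        w (heckeAlphaBar L N ℓ a) = heckeBetaBar L N ℓ a) ∧
      (∀ a : laurentBaseChange L (modularFunctionFieldFull N),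
        w (heckeBetaBar L N ℓ a) = heckeAlphaBar L N ℓ a) := by
  obtain ⟨τ, hτβ, hτα⟩ := exists_lastEmbedding (L := L) (N := N) hℓ hℓN hζ
  refine ⟨swapOfTau hℓ τ hτβ hτα, fun a => ?_, fun a => ?_⟩
  · apply eq_of_qExpand_eq (ℓ := ℓ)
    rw [swapOfTau_spec, hτα, coe_heckeBetaBar]
  · apply eq_of_qExpand_eq (ℓ := ℓ)
    rw [swapOfTau_spec, hτβ, coe_heckeAlphaBar]

end Swap

section AlphaSide

variable {L : Type*} [Field L] [Algebra ℚ L] {N ℓ : ℕ} [NeZero N] [NeZero ℓ]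

/-- `[F_{Nℓ} : α F_N] = ℓ + 1` for `ℓ ∤ N` (any field `L` of characteristic `0`). -/
theorem finrankAlong_heckeAlphaBar' (hℓ : ℓ.Prime) (hℓN : ¬ ℓ ∣ N) :
    finrankAlong L (heckeAlphaBar L N ℓ) = ℓ + 1 := by
  have h1 : finrankAlong L (heckeAlphaBar L N ℓ) =
      (laurentBaseChange L (modularFunctionFieldFull N)).relfinrank
        (laurentBaseChange L (modularFunctionFieldFull (N * ℓ))) :=
    Fermat.Agent.Lib.X0Deg.finrankAlong_inclusion _
  rw [h1, FB_eq, FB_eq, H988.relfinrank_full_mul_prime L N ℓ (NeZero.ne N) hℓ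
    (fun r hr _ => natCast_ne_zero_of_algebraRat L hr.ne_zero), if_neg hℓN]

theorem finiteAlong_heckeAlphaBar' (hℓ : ℓ.Prime) (hℓN : ¬ ℓ ∣ N) :
    FiniteAlong L (heckeAlphaBar L N ℓ) := by
  have h := finrankAlong_heckeAlphaBar' (L := L) hℓ hℓN
  unfold finrankAlong at h
  unfold FiniteAlong
  letI := algebraAlong (heckeAlphaBar L N ℓ)
  exact FiniteDimensional.of_finrank_pos (by rw [h]; omega)

theorem sigmaFam_eq_of_apply_eq (hℓ : ℓ.Prime) {ζ : L} (hζ : IsPrimitiveRoot ζ ℓ)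
    (τ : laurentBaseChange L (modularFunctionFieldFull (N * ℓ)) →+* LaurentSeries L)
    (hτα : ∀ a : laurentBaseChange L (modularFunctionFieldFull N),
      τ (heckeAlphaBar L N ℓ a) = qExpand L ℓ (qExpand L ℓ (a : LaurentSeries L)))
    {i i' : Option (Fin ℓ)}
    (hj : sigmaFam hζ.pow_eq_one τ i (heckeAlphaBar L N ℓ
        ⟨gd L 1, (FB_eq L N).ge (jd_mem_fullC L (one_dvd N))⟩) =
      sigmaFam hζ.pow_eq_one τ i' (heckeAlphaBar L N ℓ
        ⟨gd L 1, (FB_eq L N).ge (jd_mem_fullC L (one_dvd N))⟩)) : i = i' := by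
  have hℓ1 : ¬ ℓ ∣ 1 := fun h => hℓ.one_lt.ne' (Nat.dvd_one.mp h)
  have hj1 : ((heckeAlphaBar L N ℓ (⟨gd L 1, (FB_eq L N).ge (jd_mem_fullC L (one_dvd N))⟩ :
      laurentBaseChange L (modularFunctionFieldFull N)) :
      laurentBaseChange L (modularFunctionFieldFull (N * ℓ))) :
      LaurentSeries L) = gd L 1 := coe_heckeAlphaBar N ℓ _
  cases i with
  | none =>
    cases i' with
    | none => rfl
    | some b' =>
      rw [sigmaFam_none, sigmaFam_some, hτα, hj1] at hj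
      exact absurd hj (qExpand_qExpand_gd_ne_tw hζ hℓ hℓ1 b')
  | some b =>
    cases i' with
    | none =>
      rw [sigmaFam_none, sigmaFam_some, hτα, hj1] at hj
      exact absurd hj.symm (qExpand_qExpand_gd_ne_tw hζ hℓ hℓ1 b)
    | some b' =>
      rw [sigmaFam_some, sigmaFam_some, hj1] at hj
      exact congrArg some (tw_gd_injective hζ hℓ hℓ1 hj)

/-- **Characteristic polynomial along `α`** of `β y`, read in `L((q))`, is the Kronecker
polynomial `Ψ_y = (X - y(q^ℓ)) ∏_b (X - y(ζ^b q^{1/ℓ}))`. -/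
theorem charpoly_alpha_beta (hℓ : ℓ.Prime) (hℓN : ¬ ℓ ∣ N) {ζ : L} (hζ : IsPrimitiveRoot ζ ℓ)
    (y : laurentBaseChange L (modularFunctionFieldFull N)) :
    letI := algebraAlong (heckeAlphaBar L N ℓ)
    haveI : Module.Finite (laurentBaseChange L (modularFunctionFieldFull N))
      (laurentBaseChange L (modularFunctionFieldFull (N * ℓ))) :=
      finiteAlong_heckeAlphaBar' hℓ hℓN
    ((Algebra.lmul (laurentBaseChange L (modularFunctionFieldFull N)) _
        (heckeBetaBar L N ℓ y)).charpoly).map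
        (algebraMap (laurentBaseChange L (modularFunctionFieldFull N)) (LaurentSeries L)) =
      H400.kronPoly ℓ (y : LaurentSeries L) := by
  classical
  obtain ⟨τ, hτβ, hτα⟩ := exists_lastEmbedding (L := L) (N := N) hℓ hℓN hζ
  set w := swapOfTau hℓ τ hτβ hτα with hw
  have hwα : ∀ a : laurentBaseChange L (modularFunctionFieldFull N),
      w (heckeAlphaBar L N ℓ a) = heckeBetaBar L N ℓ a := by
    intro a
    apply eq_of_qExpand_eq (ℓ := ℓ)
    rw [hw, swapOfTau_spec, hτα, coe_heckeBetaBar]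
  have hwβ : ∀ a : laurentBaseChange L (modularFunctionFieldFull N),
      w (heckeBetaBar L N ℓ a) = heckeAlphaBar L N ℓ a := by
    intro a
    apply eq_of_qExpand_eq (ℓ := ℓ)
    rw [hw, swapOfTau_spec, hτβ, coe_heckeAlphaBar]
  letI := algebraAlong (heckeAlphaBar L N ℓ)
  haveI : Module.Finite (laurentBaseChange L (modularFunctionFieldFull N))
      (laurentBaseChange L (modularFunctionFieldFull (N * ℓ))) :=
    finiteAlong_heckeAlphaBar' hℓ hℓN
  have hcard : Module.finrank (laurentBaseChange L (modularFunctionFieldFull N))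
      (laurentBaseChange L (modularFunctionFieldFull (N * ℓ))) =
      Fintype.card (Option (Fin ℓ)) := by
    rw [Fintype.card_option, Fintype.card_fin]
    exact finrankAlong_heckeAlphaBar' hℓ hℓN
  have hσ : ∀ (i : Option (Fin ℓ)) (a : laurentBaseChange L (modularFunctionFieldFull N)),
      ((sigmaFam hζ.pow_eq_one τ i).comp w) (heckeAlphaBar L N ℓ a) =
        ((qExpand L ℓ).comp (algebraMap (laurentBaseChange L (modularFunctionFieldFull N))
          (LaurentSeries L))) a := by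
    intro i a
    rw [RingHom.comp_apply, hwα]
    exact sigmaFam_algebraMap hζ.pow_eq_one τ hτβ i a
  have hinj : Function.Injective (fun i : Option (Fin ℓ) =>
      (sigmaFam hζ.pow_eq_one τ i).comp w) := by
    intro i i' h
    have h1 := congrArg (fun f : laurentBaseChange L (modularFunctionFieldFull (N * ℓ)) →+*
      LaurentSeries L => f (heckeBetaBar L N ℓ
        ⟨gd L 1, (FB_eq L N).ge (jd_mem_fullC L (one_dvd N))⟩)) h
    simp only [RingHom.comp_apply, hwβ] at h1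
    exact sigmaFam_eq_of_apply_eq hℓ hζ τ hτα h1
  have h := charpoly_map_eq_prod_embeddings
    ((qExpand L ℓ).comp (algebraMap (laurentBaseChange L (modularFunctionFieldFull N))
        (LaurentSeries L))) (fun i : Option (Fin ℓ) => (sigmaFam hζ.pow_eq_one τ i).comp w)
    hσ hinj hcard (heckeBetaBar L N ℓ y)
  simp only [RingHom.comp_apply, hwβ] at h
  rw [Fintype.prod_option, sigmaFam_none, hτα] at h
  simp only [sigmaFam_some, coe_heckeAlphaBar] at h
  rw [← kronPoly_map_qExpand ℓ hζ, ← Polynomial.map_map] at h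
  exact Polynomial.map_injective _ (qExpand_injective ℓ) h

/-- **NORM-ID.** `Nm_α(β y) = y(q^ℓ) · ∏_b y(ζ^b q^{1/ℓ})` (`H400.kronNorm ℓ y`). -/
theorem norm_alpha_beta (hℓ : ℓ.Prime) (hℓN : ¬ ℓ ∣ N) {ζ : L} (hζ : IsPrimitiveRoot ζ ℓ)
    (y : laurentBaseChange L (modularFunctionFieldFull N)) :
    letI := algebraAlong (heckeAlphaBar L N ℓ)
    ((Algebra.norm (laurentBaseChange L (modularFunctionFieldFull N))
        (heckeBetaBar L N ℓ y) : laurentBaseChange L (modularFunctionFieldFull N)) :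
        LaurentSeries L) = H400.kronNorm ℓ (y : LaurentSeries L) := by
  letI := algebraAlong (heckeAlphaBar L N ℓ)
  haveI : Module.Finite (laurentBaseChange L (modularFunctionFieldFull N))
      (laurentBaseChange L (modularFunctionFieldFull (N * ℓ))) :=
    finiteAlong_heckeAlphaBar' hℓ hℓN
  have h := charpoly_alpha_beta hℓ hℓN hζ y
  have h0 := congrArg (fun p : Polynomial (LaurentSeries L) => p.coeff 0) h
  simp only [Polynomial.coeff_map, IntermediateField.algebraMap_apply] at h0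
  have hfr : Module.finrank (laurentBaseChange L (modularFunctionFieldFull N))
      (laurentBaseChange L (modularFunctionFieldFull (N * ℓ))) = ℓ + 1 :=
    finrankAlong_heckeAlphaBar' hℓ hℓN
  rw [Algebra.norm_apply, LinearMap.det_eq_sign_charpoly_coeff, hfr, IntermediateField.coe_mul,
    IntermediateField.coe_pow, IntermediateField.coe_neg, IntermediateField.coe_one, h0,
    H400.kronPoly_coeff_zero, ← mul_assoc, ← mul_pow]
  simp

section Bar

/-- **The Atkin–Lehner swap over `ℚ̄`.** -/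
theorem exists_swap_bar (hℓ : ℓ.Prime) (hℓN : ¬ ℓ ∣ N) :
    ∃ w : modularFunctionFieldBar (N * ℓ) →+* modularFunctionFieldBar (N * ℓ),
      (∀ a : modularFunctionFieldBar N,
        w (heckeAlphaBar (AlgebraicClosure ℚ) N ℓ a) = heckeBetaBar (AlgebraicClosure ℚ) N ℓ a) ∧
      (∀ a : modularFunctionFieldBar N,
        w (heckeBetaBar (AlgebraicClosure ℚ) N ℓ a) = heckeAlphaBar (AlgebraicClosure ℚ) N ℓ a) := by
  obtain ⟨ζ, hζ⟩ := exists_primitiveRoot_bar ℓ
  exact exists_swap hℓ hℓN hζ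

/-- **Characteristic polynomial along `α` over `ℚ̄`.** -/
theorem charpoly_alpha_beta_bar (hℓ : ℓ.Prime) (hℓN : ¬ ℓ ∣ N) (y : modularFunctionFieldBar N) :
    letI := algebraAlong (heckeAlphaBar (AlgebraicClosure ℚ) N ℓ)
    haveI : Module.Finite (modularFunctionFieldBar N) (modularFunctionFieldBar (N * ℓ)) :=
      finiteAlong_heckeAlphaBar' hℓ hℓN
    ((Algebra.lmul (modularFunctionFieldBar N) (modularFunctionFieldBar (N * ℓ))
        (heckeBetaBar (AlgebraicClosure ℚ) N ℓ y)).charpoly).map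
        (algebraMap (modularFunctionFieldBar N) (LaurentSeries (AlgebraicClosure ℚ))) =
      H400.kronPoly ℓ (y : LaurentSeries (AlgebraicClosure ℚ)) := by
  obtain ⟨ζ, hζ⟩ := exists_primitiveRoot_bar ℓ
  exact charpoly_alpha_beta hℓ hℓN hζ y

/-- **NORM-ID over `ℚ̄`**: the q-expansion of `Nm_α(β y)` is `H400.kronNorm ℓ y`. -/
theorem norm_alpha_beta_bar (hℓ : ℓ.Prime) (hℓN : ¬ ℓ ∣ N) (y : modularFunctionFieldBar N) :
    letI := algebraAlong (heckeAlphaBar (AlgebraicClosure ℚ) N ℓ)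
    ((Algebra.norm (modularFunctionFieldBar N)
        (heckeBetaBar (AlgebraicClosure ℚ) N ℓ y) : modularFunctionFieldBar N) :
        LaurentSeries (AlgebraicClosure ℚ)) =
      H400.kronNorm ℓ (y : LaurentSeries (AlgebraicClosure ℚ)) := by
  obtain ⟨ζ, hζ⟩ := exists_primitiveRoot_bar ℓ
  exact norm_alpha_beta hℓ hℓN hζ y

end Bar

end AlphaSide

end Fermat.Agent.S37.H88

end
end
-- ===== PACK-END S37/H88/ALSwap.lean

-- ===== PACK-BEGIN Ribet/H232/NCInst.lean
section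










/-!
# RIBET / WALL-p, leaf W-NC — the CONCRETE instance (helper232)

The abstract norm contraction of `NormContraction.lean` (`NLSetting`, `Side`, `pingpong_inf`,
`pingpong_zero`) instantiated in the vocabulary of `A2/Mod/Spec.lean` with `q := p`:
`K = F_M = FE E M`, `L = F_N = FE E (M * p)`, `O = V∞` of level `M`, `V∞` of level `N`,
`V₀ = V∞.comap W` (`W` the Fricke involution of level `N`), `ϖ = w` (uniformiser of `R_E`).

* `nlSetting_beta` : `NLSetting` for `β` (`t ↦ t^p`): degree-one place `V₀`, inseparable place `V∞`,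
  `θ = j`, `θ^p ≡ β j` (Kronecker), `1, j, …, j^(p-1)` independent modulo `w` over `β(V∞_M)`;
* `nlSetting_alpha` : `NLSetting` for `α` (inclusion): the Fricke transform of the former;
* `side_alpha`, `side_beta` : the two `Side`s;
* `wnc_inf`, `wnc_zero` : **concrete W-NC**: if the norms of `u ∈ F_N` along `α` and along `β` are
  constants times `p`-th powers and `u` is a constant times a `p`-th power times an element of
  `1 + w V` at ONE of the two places `V∞`, `V₀`, then for every `s` it is a constant times a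
  `p`-th power times an element of `1 + w^s V` at BOTH places.
-/

set_option autoImplicit false
set_option synthInstance.maxHeartbeats 400000
set_option maxHeartbeats 1600000
set_option linter.unusedSectionVars false
set_option linter.style.haveILetI false

noncomputable section

namespace Fermat.Agent.Ribet.H232

open ModularCurve HahnSeries Polynomial
open Fermat.Agent.A2 Fermat.Agent.A2.Mod

/-! ## 0. generic lemmas -/

section Generic

variable {F : Type*} [Field F]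

/-- `Dv` for a pulled-back valuation ring. -/
theorem dv_comap_iff (V : ValuationSubring F) (σ : F →+* F) (hσ : Function.Surjective σ)
    (c x : F) : Dv (V.comap σ) c x ↔ Dv V (σ c) (σ x) := by
  constructor
  · rintro ⟨y, hy, rfl⟩
    exact ⟨σ y, hy, _root_.map_mul σ c y⟩
  · rintro ⟨y, hy, hxy⟩
    obtain ⟨y', rfl⟩ := hσ y
    refine ⟨y', hy, ?_⟩
    apply σ.injective
    rw [_root_.map_mul, hxy]

/-- transport of a uniformiser along an endomorphism fixing it. -/
theorem isUnif_comap {V : ValuationSubring F} {π : F} (h : H48.IsUnif V π) (σ : F →+* F)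
    (hσ : σ π = π) : H48.IsUnif (V.comap σ) π where
  mem := by
    show σ π ∈ V
    rw [hσ]
    exact h.mem
  inv_not_mem := by
    intro hmem
    have h1 : σ π⁻¹ ∈ V := hmem
    rw [map_inv₀, hσ] at h1
    exact h.inv_not_mem h1
  gen := by
    intro f hf hfinv
    have h1 : σ f ∈ V := hf
    have h2 : (σ f)⁻¹ ∉ V := by
      intro hmem
      apply hfinv
      show σ f⁻¹ ∈ V
      rw [map_inv₀]
      exact hmem
    have h3 := h.gen (σ f) h1 h2
    show σ (f * π⁻¹) ∈ V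
    rw [_root_.map_mul, map_inv₀, hσ]
    exact h3

/-- in a discrete valuation ring every element of the fraction field has bounded denominator. -/
theorem exists_pow_mul_mem_of_dvr (A : ValuationSubring F) [IsDiscreteValuationRing A] {w : A}
    (hw : Irreducible w) (c : F) : ∃ k : ℕ, (w : F) ^ k * c ∈ A := by
  rcases A.mem_or_inv_mem c with h | h
  · exact ⟨0, by simpa using h⟩
  · by_cases hc : c = 0
    · exact ⟨0, by rw [hc, mul_zero]; exact A.zero_mem⟩
    have hy : (⟨c⁻¹, h⟩ : A) ≠ 0 := by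
      intro h0
      exact inv_ne_zero hc (congrArg Subtype.val h0)
    obtain ⟨n, u, hu⟩ := IsDiscreteValuationRing.eq_unit_mul_pow_irreducible hy hw
    refine ⟨n, ?_⟩
    have h1 : c⁻¹ = ((u : A) : F) * (w : F) ^ n := by
      have := congrArg Subtype.val hu
      simpa using this
    have hu0 : ((u : A) : F) ≠ 0 := by
      intro h0
      exact u.ne_zero (Subtype.ext h0)
    have h2 : (w : F) ^ n * c = (((u⁻¹ : Aˣ) : A) : F) := by
      have h3 : ((u : A) : F) * (((u⁻¹ : Aˣ) : A) : F) = 1 := by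
        have h4 : ((u : A) * ((u⁻¹ : Aˣ) : A) : A) = 1 := u.mul_inv
        have h5 := congrArg (fun z : A => (z : F)) h4
        exact h5
      have hc' : c = (((u : A) : F) * (w : F) ^ n)⁻¹ := by rw [← h1, inv_inv]
      have hw0 : (w : F) ^ n ≠ 0 := by
        intro h0
        rw [h0, mul_zero] at h1
        exact inv_ne_zero hc h1
      rw [hc']
      field_simp
      rw [h3]
    rw [h2]
    exact ((u⁻¹ : Aˣ) : A).2

/-- coefficient of a polynomial given by its list of coefficients. -/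
theorem coeff_sum_fin {R : Type*} [CommRing R] (n : ℕ) (f : Fin n → R) (j : Fin n) :
    (∑ i : Fin n, _root_.Polynomial.C (f i) * X ^ (i : ℕ)).coeff (j : ℕ) = f j := by
  classical
  rw [Polynomial.finsetSum_coeff, Finset.sum_eq_single j]
  · rw [coeff_C_mul_X_pow, if_pos rfl]
  · intro b _ hb
    rw [coeff_C_mul_X_pow, if_neg]
    intro h
    exact hb (Fin.ext h.symm)
  · intro h
    exact absurd (Finset.mem_univ j) h

end Generic

/-! ## 1. digits in `k((t))` -/

section Digits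

variable {k : Type*} [Field k]

/-- **Digits.**  `∑_{i<p} n_i(t^p) j^i = 0 ⟹ n_i = 0`. -/
theorem digits_jqModC (p : ℕ) [NeZero p] (n : Fin p → LaurentSeries k)
    (h : ∑ i : Fin p, qExpand k p (n i) * jqModC k ^ (i : ℕ) = 0) (i : Fin p) : n i = 0 := by
  classical
  set Pol : (LaurentSeries k)[X] := ∑ i : Fin p, _root_.Polynomial.C (qExpand k p (n i)) * X ^ (i : ℕ) with hPol
  have heval : Pol.eval (jqModC k) = 0 := by
    rw [hPol, Polynomial.eval_finsetSum, ← h]
    refine Finset.sum_congr rfl fun i _ => ?_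
    rw [eval_mul, eval_C, eval_pow, eval_X]
  have hzero : Pol = 0 := by
    by_contra hne
    refine Fermat.Agent.S28.H386.eval_jqModC_ne_zero_of_natDegree_lt p Pol hne ?_ ?_ heval
    · rw [Polynomial.natDegree_lt_iff_degree_lt hne]
      exact Polynomial.degree_sum_fin_lt _
    · intro j
      rw [hPol, Polynomial.finsetSum_coeff]
      have hmem : ∀ i ∈ (Finset.univ : Finset (Fin p)),
          (_root_.Polynomial.C (qExpand k p (n i)) * X ^ (i : ℕ)).coeff j ∈ (qExpand k p).range := by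
        intro i _
        rw [coeff_C_mul_X_pow]
        split_ifs
        · exact ⟨n i, rfl⟩
        · exact Subring.zero_mem _
      exact Subring.sum_mem _ hmem
  have h1 : qExpand k p (n i) = 0 := by
    rw [← coeff_sum_fin p (fun i => qExpand k p (n i)) i, ← hPol, hzero, Polynomial.coeff_zero]
  exact qExpand_injective p (by rw [h1, _root_.map_zero])

end Digits

/-! ## 2. the two Gauss valuations -/

section Concrete

variable {P : ValuationSubring _root_.Fermat.Agent.A2.Mod.Qb} {E : IntermediateField ℚ _root_.Fermat.Agent.A2.Mod.Qb} {M p : ℕ} [NeZero M] [NeZero p]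
  {w : _root_.Fermat.Agent.A2.Mod.RE P E}

theorem inW_iff_dv (hS : Setting P E M p w) (N : ℕ) (V : ValuationSubring (_root_.Fermat.Agent.A2.Mod.FE E N))
    (f : _root_.Fermat.Agent.A2.Mod.FE E N) : InW P E N V w f ↔ Dv V (cE P E N w) f :=
  (Dv.iff_mul_inv (H378.cE_ne_zero hS N)).symm

theorem beta_cE (r : _root_.Fermat.Agent.A2.Mod.RE P E) : βE E M p (cE P E M r) = cE P E (M * p) r :=
  (βE E M p).commutes (r : E)

theorem w_mem_maximalIdeal (hS : Setting P E M p w) : w ∈ IsLocalRing.maximalIdeal (_root_.Fermat.Agent.A2.Mod.RE P E) :=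
  (IsLocalRing.mem_maximalIdeal _).mpr hS.unif.not_isUnit

theorem isUnif_vinf (hS : Setting P E M p w) {N : ℕ} (hN : N ≠ 0)
    {V : ValuationSubring (_root_.Fermat.Agent.A2.Mod.FE E N)} (hV : IsVinf P E N V) : H48.IsUnif V (cE P E N w) :=
  (H553.vinfBasic P E w N hN hS.dvr hS.unif V hV).1

theorem jE_mem (hS : Setting P E M p w) {N : ℕ} (hN : N ≠ 0)
    {V : ValuationSubring (_root_.Fermat.Agent.A2.Mod.FE E N)} (hV : IsVinf P E N V) (d : ℕ) [NeZero d] (hd : d ∣ N) :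
    jE E N d hd ∈ V :=
  ((H553.vinfBasic P E w N hN hS.dvr hS.unif V hV).2.2 d hd).1

theorem level_ne_zero : M * p ≠ 0 := mul_ne_zero (NeZero.ne M) (NeZero.ne p)

/-- `β` maps `V∞` of level `M` into `V∞` of level `M p`. -/
theorem beta_mem {VM : ValuationSubring (_root_.Fermat.Agent.A2.Mod.FE E M)} {V : ValuationSubring (_root_.Fermat.Agent.A2.Mod.FE E (M * p))}
    (hVM : IsVinf P E M VM) (hV : IsVinf P E (M * p) V) {a : _root_.Fermat.Agent.A2.Mod.FE E M} (ha : a ∈ VM) :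
    βE E M p a ∈ V := by
  obtain ⟨U₁, U₂, hU₂, hU₂F, hU⟩ := (hVM a).mp ha
  rw [hV]
  refine ⟨qExpand _ p U₁, qExpand _ p U₂, ?_, ?_, ?_⟩
  · show coeffMap _ (qExpand _ p U₂) ≠ 0
    rw [coeffMap_qExpand]
    intro h
    exact hU₂ (qExpand_injective p (by rw [h, _root_.map_zero]))
  · show coeffMap _ (qExpand _ p U₂) ∈ _
    rw [coeffMap_qExpand]
    exact (βE E M p ⟨H708.incl (_root_.Fermat.Agent.A2.Mod.RE P E) U₂, hU₂F⟩).2
  · show qExpand E p (a : LaurentSeries E) * coeffMap _ (qExpand _ p U₂)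
      = coeffMap _ (qExpand _ p U₁)
    rw [coeffMap_qExpand, coeffMap_qExpand, ← _root_.map_mul]
    exact congrArg _ hU

/-- the `t`-expansion of `j` as an integral series. -/
theorem coe_jE_one (N : ℕ) :
    ((jE E N 1 (one_dvd _) : _root_.Fermat.Agent.A2.Mod.FE E N) : LaurentSeries E)
      = H708.incl (_root_.Fermat.Agent.A2.Mod.RE P E) (H708.castA (_root_.Fermat.Agent.A2.Mod.RE P E) (jqModC ℤ)) := by
  rw [H753.coe_jE_incl (P := P) N 1 (one_dvd _), qExpand_one_apply]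

/-- **Kronecker congruence** `j^p ≡ β j` modulo `w V∞`. -/
theorem frob_dv (hS : Setting P E M p w) {V : ValuationSubring (_root_.Fermat.Agent.A2.Mod.FE E (M * p))}
    (hV : IsVinf P E (M * p) V) :
    Dv V (cE P E (M * p) w)
      (jE E (M * p) 1 (one_dvd _) ^ p - βE E M p (jE E M 1 (one_dvd _))) := by
  rw [← inW_iff_dv hS]
  haveI : CharP (IsLocalRing.ResidueField (_root_.Fermat.Agent.A2.Mod.RE P E)) p :=
    H753.charP_residueField P E hS.q_prime hS.lies_over
  refine H753.inW_of_red_eq_zero P E hV hS.dvr hS.unif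
    (S := H708.castA (_root_.Fermat.Agent.A2.Mod.RE P E) (jqModC ℤ ^ p - qExpand ℤ p (jqModC ℤ))) ?_ ?_
  · have h1 : ((jE E (M * p) 1 (one_dvd _) ^ p - βE E M p (jE E M 1 (one_dvd _)) :
        _root_.Fermat.Agent.A2.Mod.FE E (M * p)) : LaurentSeries E)
        = ((jE E (M * p) 1 (one_dvd _) : _root_.Fermat.Agent.A2.Mod.FE E (M * p)) : LaurentSeries E) ^ p
          - qExpand E p ((jE E M 1 (one_dvd _) : _root_.Fermat.Agent.A2.Mod.FE E M) : LaurentSeries E) := rfl
    rw [h1, coe_jE_one (P := P), coe_jE_one (P := P), _root_.map_sub, _root_.map_sub, _root_.map_pow, _root_.map_pow]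
    congr 1
    show _ = coeffMap _ (coeffMap _ (qExpand ℤ p (jqModC ℤ)))
    rw [coeffMap_qExpand, coeffMap_qExpand]
  · rw [H753.red_castA, _root_.map_sub, _root_.map_pow, H753.castL_qExpand_jqModC p hS.q_prime,
      Fermat.Agent.S28.H325.castL_jqModC, sub_self]

/-- a primitive integral series of `F_N` is a unit of `V∞`. -/
theorem inv_mem_of_prim {N : ℕ} {V : ValuationSubring (_root_.Fermat.Agent.A2.Mod.FE E N)} (hV : IsVinf P E N V)
    {U : LaurentSeries (_root_.Fermat.Agent.A2.Mod.RE P E)} (hU : H708.red (_root_.Fermat.Agent.A2.Mod.RE P E) U ≠ 0)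
    (hm : H708.incl (_root_.Fermat.Agent.A2.Mod.RE P E) U ∈ _root_.Fermat.Agent.A2.Mod.FE E N) :
    (⟨H708.incl (_root_.Fermat.Agent.A2.Mod.RE P E) U, hm⟩ : _root_.Fermat.Agent.A2.Mod.FE E N)⁻¹ ∈ V := by
  rw [hV, IntermediateField.coe_inv]
  exact H378.isGaussInt_inv_of_prim (_root_.Fermat.Agent.A2.Mod.RE P E) hU hm

/-- **Independence**: `1, j, …, j^(p-1)` are independent modulo `w` over `β(V∞_M)`. -/
theorem beta_indep (hS : Setting P E M p w) {VM : ValuationSubring (_root_.Fermat.Agent.A2.Mod.FE E M)}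
    {V : ValuationSubring (_root_.Fermat.Agent.A2.Mod.FE E (M * p))} (hVM : IsVinf P E M VM) (hV : IsVinf P E (M * p) V)
    (a : Fin p → _root_.Fermat.Agent.A2.Mod.FE E M) (ha : ∀ i, a i ∈ VM)
    (hz : InW P E (M * p) V w
      (∑ i : Fin p, βE E M p (a i) * jE E (M * p) 1 (one_dvd _) ^ (i : ℕ))) (i : Fin p) :
    InW P E M VM w (a i) := by
  classical
  haveI := hS.dvr
  have key : ∀ i, ∃ U₁ U₂ : LaurentSeries (_root_.Fermat.Agent.A2.Mod.RE P E), H708.red (_root_.Fermat.Agent.A2.Mod.RE P E) U₂ ≠ 0 ∧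
      H708.incl (_root_.Fermat.Agent.A2.Mod.RE P E) U₂ ∈ _root_.Fermat.Agent.A2.Mod.FE E M ∧
      (a i : LaurentSeries E) * H708.incl (_root_.Fermat.Agent.A2.Mod.RE P E) U₂ = H708.incl (_root_.Fermat.Agent.A2.Mod.RE P E) U₁ :=
    fun i => (hVM (a i)).mp (ha i)
  choose U₁ U₂ hU₂ hU₂F hU using key
  obtain ⟨D, hD⟩ : ∃ D : LaurentSeries (_root_.Fermat.Agent.A2.Mod.RE P E), D = ∏ i, U₂ i := ⟨_, rfl⟩
  obtain ⟨Nm, hNm⟩ : ∃ Nm : Fin p → LaurentSeries (_root_.Fermat.Agent.A2.Mod.RE P E),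
      ∀ i, Nm i = U₁ i * ∏ l ∈ Finset.univ.erase i, U₂ l := ⟨_, fun _ => rfl⟩
  have hND : ∀ i, (a i : LaurentSeries E) * H708.incl (_root_.Fermat.Agent.A2.Mod.RE P E) D
      = H708.incl (_root_.Fermat.Agent.A2.Mod.RE P E) (Nm i) := by
    intro i
    rw [hD, ← Finset.mul_prod_erase Finset.univ U₂ (Finset.mem_univ i), _root_.map_mul, ← mul_assoc,
      hU i, hNm, _root_.map_mul]
  have hDF : H708.incl (_root_.Fermat.Agent.A2.Mod.RE P E) D ∈ _root_.Fermat.Agent.A2.Mod.FE E M := by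
    rw [hD, _root_.map_prod]
    exact prod_mem (fun i _ => hU₂F i)
  have hDred : ∀ i, H708.red (_root_.Fermat.Agent.A2.Mod.RE P E) (∏ l ∈ Finset.univ.erase i, U₂ l) ≠ 0 := by
    intro i
    rw [_root_.map_prod]
    exact Finset.prod_ne_zero_iff.mpr (fun l _ => hU₂ l)
  -- the integral series
  obtain ⟨J, hJ⟩ : ∃ J : LaurentSeries (_root_.Fermat.Agent.A2.Mod.RE P E), J = H708.castA (_root_.Fermat.Agent.A2.Mod.RE P E) (jqModC ℤ) :=
    ⟨_, rfl⟩
  obtain ⟨S, hSdef⟩ : ∃ S : LaurentSeries (_root_.Fermat.Agent.A2.Mod.RE P E),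
      S = ∑ i : Fin p, qExpand _ p (Nm i) * J ^ (i : ℕ) := ⟨_, rfl⟩
  obtain ⟨dM, hdM⟩ : ∃ dM : _root_.Fermat.Agent.A2.Mod.FE E M, (dM : LaurentSeries E) = H708.incl (_root_.Fermat.Agent.A2.Mod.RE P E) D :=
    ⟨⟨H708.incl (_root_.Fermat.Agent.A2.Mod.RE P E) D, hDF⟩, rfl⟩
  have hdMV : dM ∈ VM := by
    rw [hVM, hdM]
    exact H708.IsGaussInt.of_incl _
  have hdNV : βE E M p dM ∈ V := beta_mem hVM hV hdMV
  obtain ⟨z, hzdef⟩ : ∃ z : _root_.Fermat.Agent.A2.Mod.FE E (M * p),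
      z = ∑ i : Fin p, βE E M p (a i) * jE E (M * p) 1 (one_dvd _) ^ (i : ℕ) := ⟨_, rfl⟩
  rw [← hzdef] at hz
  have hinclq : ∀ U : LaurentSeries (_root_.Fermat.Agent.A2.Mod.RE P E),
      H708.incl (_root_.Fermat.Agent.A2.Mod.RE P E) (qExpand _ p U) = qExpand E p (H708.incl (_root_.Fermat.Agent.A2.Mod.RE P E) U) :=
    fun U => coeffMap_qExpand _ p U
  have hredq : ∀ U : LaurentSeries (_root_.Fermat.Agent.A2.Mod.RE P E),
      H708.red (_root_.Fermat.Agent.A2.Mod.RE P E) (qExpand _ p U) = qExpand _ p (H708.red (_root_.Fermat.Agent.A2.Mod.RE P E) U) :=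
    fun U => coeffMap_qExpand _ p U
  have hcoe : ((z * βE E M p dM : _root_.Fermat.Agent.A2.Mod.FE E (M * p)) : LaurentSeries E)
      = H708.incl (_root_.Fermat.Agent.A2.Mod.RE P E) S := by
    have h1 : ((z * βE E M p dM : _root_.Fermat.Agent.A2.Mod.FE E (M * p)) : LaurentSeries E)
        = (∑ i : Fin p, qExpand E p (a i : LaurentSeries E)
            * ((jE E (M * p) 1 (one_dvd _) : _root_.Fermat.Agent.A2.Mod.FE E (M * p)) : LaurentSeries E) ^ (i : ℕ))
          * qExpand E p (dM : LaurentSeries E) := by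
      rw [IntermediateField.coe_mul, hzdef, IntermediateField.coe_sum]
      rfl
    rw [h1, Finset.sum_mul, hSdef, _root_.map_sum]
    refine Finset.sum_congr rfl fun i _ => ?_
    have e1 : H708.incl (_root_.Fermat.Agent.A2.Mod.RE P E) (qExpand _ p (Nm i) * J ^ (i : ℕ))
        = qExpand E p (H708.incl (_root_.Fermat.Agent.A2.Mod.RE P E) (Nm i)) * (H708.incl (_root_.Fermat.Agent.A2.Mod.RE P E) J) ^ (i : ℕ) := by
      rw [_root_.map_mul, _root_.map_pow, hinclq]
    rw [e1, ← hND i, _root_.map_mul, coe_jE_one (P := P), hdM, hJ]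
    ring
  have hInW : InW P E (M * p) V w (z * βE E M p dM) := by
    show z * βE E M p dM * (cE P E (M * p) w)⁻¹ ∈ V
    have h1 : z * βE E M p dM * (cE P E (M * p) w)⁻¹
        = z * (cE P E (M * p) w)⁻¹ * βE E M p dM := by ring
    rw [h1]
    exact V.mul_mem _ _ hz hdNV
  have hred : H708.red (_root_.Fermat.Agent.A2.Mod.RE P E) S = 0 :=
    H753.red_eq_zero_of_inW hV hS.unif.ne_zero (w_mem_maximalIdeal hS) hcoe hInW
  have hredJ : H708.red (_root_.Fermat.Agent.A2.Mod.RE P E) J = jqModC (IsLocalRing.ResidueField (_root_.Fermat.Agent.A2.Mod.RE P E)) := by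
    rw [hJ, H753.red_castA, Fermat.Agent.S28.H325.castL_jqModC]
  have hsum : ∑ i : Fin p, qExpand _ p (H708.red (_root_.Fermat.Agent.A2.Mod.RE P E) (Nm i))
      * jqModC (IsLocalRing.ResidueField (_root_.Fermat.Agent.A2.Mod.RE P E)) ^ (i : ℕ) = 0 := by
    rw [← hred, hSdef, _root_.map_sum]
    refine Finset.sum_congr rfl fun i _ => ?_
    have e1 : H708.red (_root_.Fermat.Agent.A2.Mod.RE P E) (qExpand _ p (Nm i) * J ^ (i : ℕ))
        = qExpand _ p (H708.red (_root_.Fermat.Agent.A2.Mod.RE P E) (Nm i)) * (H708.red (_root_.Fermat.Agent.A2.Mod.RE P E) J) ^ (i : ℕ) := by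
      rw [_root_.map_mul, _root_.map_pow, hredq]
    rw [e1, hredJ]
  have hNi : H708.red (_root_.Fermat.Agent.A2.Mod.RE P E) (Nm i) = 0 := digits_jqModC p _ hsum i
  have hU₁i : H708.red (_root_.Fermat.Agent.A2.Mod.RE P E) (U₁ i) = 0 := by
    rw [hNm i, _root_.map_mul] at hNi
    rcases mul_eq_zero.mp hNi with h | h
    · exact h
    · exact absurd h (hDred i)
  -- conclusion
  set u₂ : _root_.Fermat.Agent.A2.Mod.FE E M := ⟨H708.incl (_root_.Fermat.Agent.A2.Mod.RE P E) (U₂ i), hU₂F i⟩ with hu₂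
  have hu₂inv : u₂⁻¹ ∈ VM := inv_mem_of_prim hVM (hU₂ i) (hU₂F i)
  have hu₂0 : u₂ ≠ 0 := by
    intro h0
    have h1 : H708.incl (_root_.Fermat.Agent.A2.Mod.RE P E) (U₂ i) = 0 := congrArg Subtype.val h0
    exact H708.incl_ne_zero _ (H708.ne_zero_of_red_ne_zero _ (hU₂ i)) h1
  have h2 : InW P E M VM w (a i * u₂) :=
    H753.inW_of_red_eq_zero P E hVM hS.dvr hS.unif (S := U₁ i)
      (by rw [IntermediateField.coe_mul]; exact hU i) hU₁i
  show a i * (cE P E M w)⁻¹ ∈ VM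
  have h3 : a i * (cE P E M w)⁻¹ = a i * u₂ * (cE P E M w)⁻¹ * u₂⁻¹ := by
    field_simp
  rw [h3]
  exact VM.mul_mem _ _ h2 hu₂inv

/-- `V∞` has rank one: bounded denominators. -/
theorem arch_vinf (hS : Setting P E M p w) {N : ℕ} {V : ValuationSubring (_root_.Fermat.Agent.A2.Mod.FE E N)}
    (hV : IsVinf P E N V) (a : _root_.Fermat.Agent.A2.Mod.FE E N) : ∃ k : ℕ, cE P E N w ^ k * a ∈ V := by
  haveI := hS.dvr
  by_cases ha : a = 0
  · exact ⟨0, by rw [ha, mul_zero]; exact V.zero_mem⟩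
  obtain ⟨c, hc0, hu⟩ := H553.exists_const_mul_unit P E hV ha
  obtain ⟨k, hk⟩ := exists_pow_mul_mem_of_dvr (_root_.Fermat.Agent.A2.Mod.RE P E) hS.unif c
  refine ⟨k, ?_⟩
  have huV : a * (algebraMap E (_root_.Fermat.Agent.A2.Mod.FE E N) c)⁻¹ ∈ V := (V.valuation_le_one_iff _).mp hu.le
  have hcF : algebraMap E (_root_.Fermat.Agent.A2.Mod.FE E N) c ≠ 0 :=
    (_root_.map_ne_zero_iff _ (algebraMap E (_root_.Fermat.Agent.A2.Mod.FE E N)).injective).mpr hc0
  have h1 : cE P E N w ^ k * a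
      = (a * (algebraMap E (_root_.Fermat.Agent.A2.Mod.FE E N) c)⁻¹) * algebraMap E (_root_.Fermat.Agent.A2.Mod.FE E N) ((w : E) ^ k * c) := by
    rw [_root_.map_mul, _root_.map_pow]
    show algebraMap E (_root_.Fermat.Agent.A2.Mod.FE E N) (w : E) ^ k * a = _
    field_simp
  rw [h1]
  exact V.mul_mem _ _ huV ((H553.algebraMap_mem_iff P E hV _).mpr hk)

/-- `p ∈ w V∞`. -/
theorem natCast_dv (hS : Setting P E M p w) {N : ℕ} {V : ValuationSubring (_root_.Fermat.Agent.A2.Mod.FE E N)}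
    (hV : IsVinf P E N V) : Dv V (cE P E N w) ((p : ℕ) : _root_.Fermat.Agent.A2.Mod.FE E N) := by
  obtain ⟨c, hc⟩ := H378.exists_q_eq hS
  refine ⟨cE P E N c, H378.cE_mem hV c, ?_⟩
  have h1 : ((p : ℕ) : _root_.Fermat.Agent.A2.Mod.FE E N) = algebraMap E (_root_.Fermat.Agent.A2.Mod.FE E N) ((p : ℕ) : E) := (_root_.map_natCast _ _).symm
  rw [h1, hc, _root_.map_mul]
  rfl

/-- **The setting of the local norm congruence for `β`** (`t ↦ t^p`): the degree-one place is
`V₀ = V∞ ∘ W`, the inseparable place is `V∞`, `θ = j`. -/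
theorem nlSetting_beta (hS : Setting P E M p w) {VM : ValuationSubring (_root_.Fermat.Agent.A2.Mod.FE E M)}
    {V : ValuationSubring (_root_.Fermat.Agent.A2.Mod.FE E (M * p))} (hVM : IsVinf P E M VM) (hV : IsVinf P E (M * p) V)
    {W : _root_.Fermat.Agent.A2.Mod.FE E (M * p) ≃ₐ[E] _root_.Fermat.Agent.A2.Mod.FE E (M * p)} (hW : IsFricke E (M * p) W) :
    letI := AlgebraicCurve.algebraAlong (βE E M p)
    NLSetting VM (V.comap (W : _root_.Fermat.Agent.A2.Mod.FE E (M * p) →+* _root_.Fermat.Agent.A2.Mod.FE E (M * p))) V (cE P E M w) p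
      (jE E (M * p) 1 (one_dvd _)) (jE E M 1 (one_dvd _)) := by
  letI := AlgebraicCurve.algebraAlong (βE E M p)
  haveI : NeZero (M * p) := ⟨level_ne_zero⟩
  have hmap : ∀ a : _root_.Fermat.Agent.A2.Mod.FE E M, algebraMap (_root_.Fermat.Agent.A2.Mod.FE E M) (_root_.Fermat.Agent.A2.Mod.FE E (M * p)) a = βE E M p a := fun _ => rfl
  have hϖ : algebraMap (_root_.Fermat.Agent.A2.Mod.FE E M) (_root_.Fermat.Agent.A2.Mod.FE E (M * p)) (cE P E M w) = cE P E (M * p) w := by
    rw [hmap, beta_cE]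
  have hWM := H553.isFricke_wE E M
  have hWc : (W : _root_.Fermat.Agent.A2.Mod.FE E (M * p) →+* _root_.Fermat.Agent.A2.Mod.FE E (M * p)) (cE P E (M * p) w) = cE P E (M * p) w :=
    W.commutes _
  refine
    { unifO := isUnif_vinf hS (NeZero.ne M) hVM
      unif₁ := ?_
      unif₂ := ?_
      le₁ := ?_
      le₂ := ?_
      ne := H553.vzeroNe P E M p w hS V W hV hW
      arch := arch_vinf hS hVM
      char_p := natCast_dv hS hVM
      θ_mem₁ := ?_
      θ_mem₂ := jE_mem hS level_ne_zero hV 1 (one_dvd _)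
      g_mem := jE_mem hS (NeZero.ne M) hVM 1 (one_dvd _)
      θ_pow := ?_
      θ_indep := ?_
      card := ?_ }
  · rw [hϖ]
    exact isUnif_comap (isUnif_vinf hS level_ne_zero hV) _ hWc
  · rw [hϖ]
    exact isUnif_vinf hS level_ne_zero hV
  · intro a ha
    rw [hmap]
    show W (βE E M p a) ∈ V
    rw [(H553.frickeCompat E M p (H553.wE E M) W hWM hW a).2]
    exact (H378.alpha_mem_iff hS hVM hV _).mpr
      (H872.frickeStable P E M p w hS VM (H553.wE E M) hVM hWM a ha)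
  · intro a ha
    rw [hmap]
    exact beta_mem hVM hV ha
  · show W (jE E (M * p) 1 (one_dvd _)) ∈ V
    rw [hW.1 1 (M * p) (one_dvd _) dvd_rfl (one_mul _)]
    exact jE_mem hS level_ne_zero hV (M * p) dvd_rfl
  · rw [hϖ, hmap]
    exact frob_dv hS hV
  · intro a ha hz i
    rw [hϖ] at hz
    rw [← inW_iff_dv hS]
    rw [← inW_iff_dv hS] at hz
    exact beta_indep hS hVM hV a ha hz i
  · exact Fermat.Agent.S37.H88.finrankAlong_heckeBetaBar hS.q_prime hS.q_not_dvd

/-- **The setting of the local norm congruence for `α`** (the inclusion): the degree-one place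
is `V∞`, the inseparable place is `V₀ = V∞ ∘ W`, `θ = W j`. -/
theorem nlSetting_alpha (hS : Setting P E M p w) {VM : ValuationSubring (_root_.Fermat.Agent.A2.Mod.FE E M)}
    {V : ValuationSubring (_root_.Fermat.Agent.A2.Mod.FE E (M * p))} (hVM : IsVinf P E M VM) (hV : IsVinf P E (M * p) V)
    {W : _root_.Fermat.Agent.A2.Mod.FE E (M * p) ≃ₐ[E] _root_.Fermat.Agent.A2.Mod.FE E (M * p)} (hW : IsFricke E (M * p) W) :
    letI := AlgebraicCurve.algebraAlong (αE E M p)
    NLSetting VM V (V.comap (W : _root_.Fermat.Agent.A2.Mod.FE E (M * p) →+* _root_.Fermat.Agent.A2.Mod.FE E (M * p))) (cE P E M w) p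
      (W (jE E (M * p) 1 (one_dvd _))) (H553.wE E M (jE E M 1 (one_dvd _))) := by
  letI := AlgebraicCurve.algebraAlong (αE E M p)
  haveI : NeZero (M * p) := ⟨level_ne_zero⟩
  have hmap : ∀ a : _root_.Fermat.Agent.A2.Mod.FE E M, algebraMap (_root_.Fermat.Agent.A2.Mod.FE E M) (_root_.Fermat.Agent.A2.Mod.FE E (M * p)) a = αE E M p a := fun _ => rfl
  have hϖ : algebraMap (_root_.Fermat.Agent.A2.Mod.FE E M) (_root_.Fermat.Agent.A2.Mod.FE E (M * p)) (cE P E M w) = cE P E (M * p) w := by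
    rw [hmap, H378.alpha_cE]
  have hWM := H553.isFricke_wE E M
  have hWc : (W : _root_.Fermat.Agent.A2.Mod.FE E (M * p) →+* _root_.Fermat.Agent.A2.Mod.FE E (M * p)) (cE P E (M * p) w) = cE P E (M * p) w :=
    W.commutes _
  have hWMc : H553.wE E M (cE P E M w) = cE P E M w := (H553.wE E M).commutes _
  have hstab : ∀ f ∈ VM, H553.wE E M f ∈ VM :=
    H872.frickeStable P E M p w hS VM (H553.wE E M) hVM hWM
  have hWα : ∀ a : _root_.Fermat.Agent.A2.Mod.FE E M, W (αE E M p a) = βE E M p (H553.wE E M a) :=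
    fun a => (H553.frickeCompat E M p (H553.wE E M) W hWM hW a).1
  have hsurj : Function.Surjective (W : _root_.Fermat.Agent.A2.Mod.FE E (M * p) →+* _root_.Fermat.Agent.A2.Mod.FE E (M * p)) := W.surjective
  refine
    { unifO := isUnif_vinf hS (NeZero.ne M) hVM
      unif₁ := ?_
      unif₂ := ?_
      le₁ := ?_
      le₂ := ?_
      ne := (H553.vzeroNe P E M p w hS V W hV hW).symm
      arch := arch_vinf hS hVM
      char_p := natCast_dv hS hVM
      θ_mem₁ := ?_
      θ_mem₂ := ?_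
      g_mem := hstab _ (jE_mem hS (NeZero.ne M) hVM 1 (one_dvd _))
      θ_pow := ?_
      θ_indep := ?_
      card := ?_ }
  · rw [hϖ]
    exact isUnif_vinf hS level_ne_zero hV
  · rw [hϖ]
    exact isUnif_comap (isUnif_vinf hS level_ne_zero hV) _ hWc
  · intro a ha
    rw [hmap]
    exact (H378.alpha_mem_iff hS hVM hV _).mpr ha
  · intro a ha
    rw [hmap]
    show W (αE E M p a) ∈ V
    rw [hWα]
    exact beta_mem hVM hV (hstab a ha)
  · rw [hW.1 1 (M * p) (one_dvd _) dvd_rfl (one_mul _)]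
    exact jE_mem hS level_ne_zero hV (M * p) dvd_rfl
  · show W (W (jE E (M * p) 1 (one_dvd _))) ∈ V
    rw [hW.2]
    exact jE_mem hS level_ne_zero hV 1 (one_dvd _)
  · rw [hϖ, hmap, dv_comap_iff V _ hsurj, hWc]
    have h1 : (W : _root_.Fermat.Agent.A2.Mod.FE E (M * p) →+* _root_.Fermat.Agent.A2.Mod.FE E (M * p))
        (W (jE E (M * p) 1 (one_dvd _)) ^ p - αE E M p (H553.wE E M (jE E M 1 (one_dvd _))))
        = jE E (M * p) 1 (one_dvd _) ^ p - βE E M p (jE E M 1 (one_dvd _)) := by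
      show W (W (jE E (M * p) 1 (one_dvd _)) ^ p
        - αE E M p (H553.wE E M (jE E M 1 (one_dvd _)))) = _
      rw [_root_.map_sub, _root_.map_pow, hW.2, hWα, hWM.2]
    rw [h1]
    exact frob_dv hS hV
  · intro a ha hz i
    rw [hϖ, dv_comap_iff V _ hsurj, hWc] at hz
    have h1 : (W : _root_.Fermat.Agent.A2.Mod.FE E (M * p) →+* _root_.Fermat.Agent.A2.Mod.FE E (M * p))
        (∑ i : Fin p, algebraMap (_root_.Fermat.Agent.A2.Mod.FE E M) (_root_.Fermat.Agent.A2.Mod.FE E (M * p)) (a i)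
          * W (jE E (M * p) 1 (one_dvd _)) ^ (i : ℕ))
        = ∑ i : Fin p, βE E M p (H553.wE E M (a i)) * jE E (M * p) 1 (one_dvd _) ^ (i : ℕ) := by
      rw [_root_.map_sum]
      refine Finset.sum_congr rfl fun i _ => ?_
      rw [_root_.map_mul, _root_.map_pow, hmap]
      show W (αE E M p (a i)) * W (W (jE E (M * p) 1 (one_dvd _))) ^ (i : ℕ) = _
      rw [hW.2, hWα]
    rw [h1, ← inW_iff_dv hS] at hz
    have h2 := beta_indep hS hVM hV (fun i => H553.wE E M (a i)) (fun i => hstab _ (ha i)) hz i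
    rw [inW_iff_dv hS] at h2
    obtain ⟨y, hy, hay⟩ := h2
    refine ⟨H553.wE E M y, hstab y hy, ?_⟩
    have h3 : a i = H553.wE E M (H553.wE E M (a i)) := (hWM.2 _).symm
    rw [h3, hay, _root_.map_mul, hWMc]
  · exact Fermat.Agent.S37.H88.finrankAlong_heckeAlphaBar' hS.q_prime hS.q_not_dvd

end Concrete

/-! ## 3. the two sides and the concrete norm contraction -/

section WNC

variable (P : ValuationSubring _root_.Fermat.Agent.A2.Mod.Qb) (E : IntermediateField ℚ _root_.Fermat.Agent.A2.Mod.Qb) (M p : ℕ) [NeZero M] [NeZero p]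

/-- The norm of `F_N / α(F_M)`, as a monoid homomorphism
(`= Algebra.norm` for the algebra structure `algebraAlong (αE E M p)`). -/
def normAlpha : _root_.Fermat.Agent.A2.Mod.FE E (M * p) →* _root_.Fermat.Agent.A2.Mod.FE E M :=
  letI := AlgebraicCurve.algebraAlong (αE E M p)
  Algebra.norm (_root_.Fermat.Agent.A2.Mod.FE E M)

/-- The norm of `F_N / β(F_M)`, as a monoid homomorphism
(`= Algebra.norm` for the algebra structure `algebraAlong (βE E M p)`). -/
def normBeta : _root_.Fermat.Agent.A2.Mod.FE E (M * p) →* _root_.Fermat.Agent.A2.Mod.FE E M :=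
  letI := AlgebraicCurve.algebraAlong (βE E M p)
  Algebra.norm (_root_.Fermat.Agent.A2.Mod.FE E M)

/-- The nonzero constants of `F_M`. -/
def constSet : Set (_root_.Fermat.Agent.A2.Mod.FE E M) := {c | ∃ e : E, e ≠ 0 ∧ c = algebraMap E (_root_.Fermat.Agent.A2.Mod.FE E M) e}

theorem isConstSet_constSet : IsConstSet (constSet E M) where
  ne_zero := by
    rintro c ⟨e, he, rfl⟩
    exact (_root_.map_ne_zero_iff _ (algebraMap E (_root_.Fermat.Agent.A2.Mod.FE E M)).injective).mpr he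
  mul_mem := by
    rintro c ⟨e, he, rfl⟩ d ⟨e', he', rfl⟩
    exact ⟨e * e', mul_ne_zero he he', (_root_.map_mul _ _ _).symm⟩
  inv_mem := by
    rintro c ⟨e, he, rfl⟩
    exact ⟨e⁻¹, inv_ne_zero he, (map_inv₀ _ _).symm⟩

variable {P E M p} {w : _root_.Fermat.Agent.A2.Mod.RE P E}

/-- `u ∈ E^× · (F_N^×)^p · (1 + w^s V)`. -/
def DepthE (w : _root_.Fermat.Agent.A2.Mod.RE P E) (p : ℕ) {N : ℕ} (V : ValuationSubring (_root_.Fermat.Agent.A2.Mod.FE E N)) (s : ℕ)
    (u : _root_.Fermat.Agent.A2.Mod.FE E N) : Prop :=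
  ∃ e : E, e ≠ 0 ∧ ∃ g : _root_.Fermat.Agent.A2.Mod.FE E N, g ≠ 0 ∧
    (u * (algebraMap E (_root_.Fermat.Agent.A2.Mod.FE E N) e * g ^ p)⁻¹ - 1) * (cE P E N w ^ s)⁻¹ ∈ V

/-- `Nm u ∈ E · F_M^p`. -/
def IsPthNormE (Nm : _root_.Fermat.Agent.A2.Mod.FE E (M * p) →* _root_.Fermat.Agent.A2.Mod.FE E M) (u : _root_.Fermat.Agent.A2.Mod.FE E (M * p)) : Prop :=
  ∃ (e : E) (h : _root_.Fermat.Agent.A2.Mod.FE E M), Nm u = algebraMap E (_root_.Fermat.Agent.A2.Mod.FE E M) e * h ^ p

theorem depthE_one_iff {N : ℕ} (V : ValuationSubring (_root_.Fermat.Agent.A2.Mod.FE E N)) (u : _root_.Fermat.Agent.A2.Mod.FE E N) :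
    DepthE w p V 1 u ↔ ∃ e : E, e ≠ 0 ∧ ∃ g : _root_.Fermat.Agent.A2.Mod.FE E N, g ≠ 0 ∧
      InW P E N V w (u * (algebraMap E (_root_.Fermat.Agent.A2.Mod.FE E N) e * g ^ p)⁻¹ - 1) := by
  unfold DepthE InW
  rw [pow_one]

theorem side_alpha (hS : Setting P E M p w) {VM : ValuationSubring (_root_.Fermat.Agent.A2.Mod.FE E M)}
    {V : ValuationSubring (_root_.Fermat.Agent.A2.Mod.FE E (M * p))} (hVM : IsVinf P E M VM) (hV : IsVinf P E (M * p) V)
    {W : _root_.Fermat.Agent.A2.Mod.FE E (M * p) ≃ₐ[E] _root_.Fermat.Agent.A2.Mod.FE E (M * p)} (hW : IsFricke E (M * p) W) :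
    Side VM V (V.comap (W : _root_.Fermat.Agent.A2.Mod.FE E (M * p) →+* _root_.Fermat.Agent.A2.Mod.FE E (M * p))) (cE P E M w) p
      (αE E M p).toRingHom (normAlpha E M p) :=
  letI := AlgebraicCurve.algebraAlong (αE E M p)
  (nlSetting_alpha hS hVM hV hW).side

theorem side_beta (hS : Setting P E M p w) {VM : ValuationSubring (_root_.Fermat.Agent.A2.Mod.FE E M)}
    {V : ValuationSubring (_root_.Fermat.Agent.A2.Mod.FE E (M * p))} (hVM : IsVinf P E M VM) (hV : IsVinf P E (M * p) V)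
    {W : _root_.Fermat.Agent.A2.Mod.FE E (M * p) ≃ₐ[E] _root_.Fermat.Agent.A2.Mod.FE E (M * p)} (hW : IsFricke E (M * p) W) :
    Side VM (V.comap (W : _root_.Fermat.Agent.A2.Mod.FE E (M * p) →+* _root_.Fermat.Agent.A2.Mod.FE E (M * p))) V (cE P E M w) p
      (βE E M p).toRingHom (normBeta E M p) :=
  letI := AlgebraicCurve.algebraAlong (βE E M p)
  (nlSetting_beta hS hVM hV hW).side

theorem depth_iff_depthE (hS : Setting P E M p w) (V : ValuationSubring (_root_.Fermat.Agent.A2.Mod.FE E (M * p)))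
    (s : ℕ) (u : _root_.Fermat.Agent.A2.Mod.FE E (M * p)) :
    Depth V ((αE E M p).toRingHom (cE P E M w)) p (αE E M p).toRingHom (constSet E M) s u
      ↔ DepthE w p V s u := by
  have hϖ : (αE E M p).toRingHom (cE P E M w) = cE P E (M * p) w := H378.alpha_cE w
  have hc0 : cE P E (M * p) w ^ s ≠ 0 := pow_ne_zero _ (H378.cE_ne_zero hS _)
  rw [hϖ]
  constructor
  · rintro ⟨c, ⟨e, he, rfl⟩, g, hg, hdv⟩
    refine ⟨e, he, g, hg, ?_⟩
    have h1 : (αE E M p).toRingHom (algebraMap E (_root_.Fermat.Agent.A2.Mod.FE E M) e) = algebraMap E (_root_.Fermat.Agent.A2.Mod.FE E (M * p)) e :=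
      (αE E M p).commutes e
    rw [h1] at hdv
    exact (Dv.iff_mul_inv hc0).mp hdv
  · rintro ⟨e, he, g, hg, hmem⟩
    refine ⟨algebraMap E (_root_.Fermat.Agent.A2.Mod.FE E M) e, ⟨e, he, rfl⟩, g, hg, ?_⟩
    have h1 : (αE E M p).toRingHom (algebraMap E (_root_.Fermat.Agent.A2.Mod.FE E M) e) = algebraMap E (_root_.Fermat.Agent.A2.Mod.FE E (M * p)) e :=
      (αE E M p).commutes e
    rw [h1]
    exact (Dv.iff_mul_inv hc0).mpr hmem

theorem isPthNorm_of (Nm : _root_.Fermat.Agent.A2.Mod.FE E (M * p) →* _root_.Fermat.Agent.A2.Mod.FE E M) {u : _root_.Fermat.Agent.A2.Mod.FE E (M * p)} (hu : u ≠ 0)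
    (h : IsPthNormE Nm u) : IsPthNorm Nm p (constSet E M) u := by
  obtain ⟨e, h', he⟩ := h
  have hN0 : Nm u ≠ 0 := norm_ne_zero_of_ne_zero Nm hu
  have he0 : e ≠ 0 := by
    rintro rfl
    rw [_root_.map_zero, zero_mul] at he
    exact hN0 he
  have hh0 : h' ≠ 0 := by
    rintro rfl
    rw [zero_pow (NeZero.ne p), mul_zero] at he
    exact hN0 he
  exact ⟨algebraMap E (_root_.Fermat.Agent.A2.Mod.FE E M) e, ⟨e, he0, rfl⟩, h', hh0, he⟩

/-- **W-NC, concrete form (start at `V∞`).**  Level `N = M p`, `p ∤ M`, `R_E` a discrete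
valuation ring over `p` with uniformiser `w`.  If the norms of `u ∈ F_N^×` along `α` and along
`β` are constants times `p`-th powers and `u ∈ E^× (F_N^×)^p (1 + w V∞)`, then for every `s`
`u ∈ E^× (F_N^×)^p (1 + w^s V∞)` and `u ∈ E^× (F_N^×)^p (1 + w^s V₀)`. -/
theorem wnc_inf (hS : Setting P E M p w) {VM : ValuationSubring (_root_.Fermat.Agent.A2.Mod.FE E M)}
    {V : ValuationSubring (_root_.Fermat.Agent.A2.Mod.FE E (M * p))} (hVM : IsVinf P E M VM) (hV : IsVinf P E (M * p) V)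
    {W : _root_.Fermat.Agent.A2.Mod.FE E (M * p) ≃ₐ[E] _root_.Fermat.Agent.A2.Mod.FE E (M * p)} (hW : IsFricke E (M * p) W)
    {u : _root_.Fermat.Agent.A2.Mod.FE E (M * p)} (hu : u ≠ 0)
    (hNα : IsPthNormE (normAlpha E M p) u) (hNβ : IsPthNormE (normBeta E M p) u)
    (h1 : DepthE w p V 1 u) (s : ℕ) :
    DepthE w p V s u ∧ DepthE w p (V.comap (W : _root_.Fermat.Agent.A2.Mod.FE E (M * p) →+* _root_.Fermat.Agent.A2.Mod.FE E (M * p))) s u := by
  have hαβ : ∀ c ∈ constSet E M, (βE E M p).toRingHom c = (αE E M p).toRingHom c := by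
    rintro c ⟨e, -, rfl⟩
    exact ((βE E M p).commutes e).trans ((αE E M p).commutes e).symm
  have hϖ : (βE E M p).toRingHom (cE P E M w) = (αE E M p).toRingHom (cE P E M w) :=
    ((βE E M p).commutes _).trans ((αE E M p).commutes _).symm
  have key := pingpong_inf (side_alpha hS hVM hV hW) (side_beta hS hVM hV hW)
    (isConstSet_constSet E M) hαβ hϖ (isPthNorm_of _ hu hNα) (isPthNorm_of _ hu hNβ)
    ((depth_iff_depthE hS V 1 u).mpr h1) s
  exact ⟨(depth_iff_depthE hS V s u).mp key.1, (depth_iff_depthE hS _ s u).mp key.2⟩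

/-- **W-NC, concrete form (start at `V₀`).** -/
theorem wnc_zero (hS : Setting P E M p w) {VM : ValuationSubring (_root_.Fermat.Agent.A2.Mod.FE E M)}
    {V : ValuationSubring (_root_.Fermat.Agent.A2.Mod.FE E (M * p))} (hVM : IsVinf P E M VM) (hV : IsVinf P E (M * p) V)
    {W : _root_.Fermat.Agent.A2.Mod.FE E (M * p) ≃ₐ[E] _root_.Fermat.Agent.A2.Mod.FE E (M * p)} (hW : IsFricke E (M * p) W)
    {u : _root_.Fermat.Agent.A2.Mod.FE E (M * p)} (hu : u ≠ 0)
    (hNα : IsPthNormE (normAlpha E M p) u) (hNβ : IsPthNormE (normBeta E M p) u)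
    (h1 : DepthE w p (V.comap (W : _root_.Fermat.Agent.A2.Mod.FE E (M * p) →+* _root_.Fermat.Agent.A2.Mod.FE E (M * p))) 1 u) (s : ℕ) :
    DepthE w p V s u ∧ DepthE w p (V.comap (W : _root_.Fermat.Agent.A2.Mod.FE E (M * p) →+* _root_.Fermat.Agent.A2.Mod.FE E (M * p))) s u := by
  have hαβ : ∀ c ∈ constSet E M, (βE E M p).toRingHom c = (αE E M p).toRingHom c := by
    rintro c ⟨e, -, rfl⟩
    exact ((βE E M p).commutes e).trans ((αE E M p).commutes e).symm
  have hϖ : (βE E M p).toRingHom (cE P E M w) = (αE E M p).toRingHom (cE P E M w) :=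
    ((βE E M p).commutes _).trans ((αE E M p).commutes _).symm
  have key := pingpong_zero (side_alpha hS hVM hV hW) (side_beta hS hVM hV hW)
    (isConstSet_constSet E M) hαβ hϖ (isPthNorm_of _ hu hNα) (isPthNorm_of _ hu hNβ)
    ((depth_iff_depthE hS _ 1 u).mpr h1) s
  exact ⟨(depth_iff_depthE hS V s u).mp key.1, (depth_iff_depthE hS _ s u).mp key.2⟩

end WNC

end Fermat.Agent.Ribet.H232

end
end
-- ===== PACK-END Ribet/H232/NCInst.lean

-- ===== PACK-BEGIN Ribet/H232/NCBoth.lean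
section


/-!
# RIBET / WALL-p, leaf W-NC — constants and simultaneous roots (helper232)

Refinements of `NormContraction.lean` / `NCInst.lean`:

* `Side.step_const`, `pingpong_const` : the ping-pong with EXPLICIT constants: if
  `N_α u = c_α h^p` and `N_β u = c_β h'^p`, then at every depth `u ∈ c_α (Lˣ)^p (1 + π^s V∞)` and
  `u ∈ c_β (Lˣ)^p (1 + π^s V₀)` (the constants are those of the norms);
* `exists_common_root` : weak approximation: if `u ∈ c g₁^p (1 + π^s V₁)` and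
  `u ∈ c g₂^p (1 + π^s V₂)` (same constant), there is ONE `g` with
  `u ∈ c g^p (1 + π^s V₁) ∩ c g^p (1 + π^s V₂)`;
* `wnc_const`, `wnc_both`, `wnc_both_one` : the concrete forms at level `E`
  (vocabulary of `A2/Mod/Spec.lean`, `q := p`).  In particular (`wnc_both_one`): if the norms of
  `u ∈ F_N^×` along `α` and `β` are `p`-th powers and `u` has depth `≥ 1` at one of `V∞`, `V₀`,
  then for every `s` there is `g ≠ 0` with `u / g^p ∈ 1 + w^s V∞` and `u / g^p ∈ 1 + w^s V₀`.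
-/

set_option autoImplicit false
set_option synthInstance.maxHeartbeats 400000
set_option maxHeartbeats 1600000
set_option linter.unusedSectionVars false
set_option linter.style.haveILetI false

noncomputable section

namespace Fermat.Agent.Ribet.H232

open Fermat.Agent.A2 Fermat.Agent.A2.Mod Fermat.Agent.A2.H48

/-! ## 1. abstract part -/

section Abstract

variable {K L : Type*} [Field K] [Field L]

/-- `u ∈ c · (Lˣ)^p · (1 + π^s V)` for the given constant `c`. -/
def DepthC (V : ValuationSubring L) (π : L) (p : ℕ) (c : L) (s : ℕ) (u : L) : Prop :=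
  ∃ g : L, g ≠ 0 ∧ Dv V (π ^ s) (u * (c * g ^ p)⁻¹ - 1)

theorem DepthC.mono {V : ValuationSubring L} {π : L} {p : ℕ} {c : L} (hπ : π ∈ V) {s t : ℕ}
    (hst : s ≤ t) {u : L} (h : DepthC V π p c t u) : DepthC V π p c s u := by
  obtain ⟨g, hg, hdv⟩ := h
  exact ⟨g, hg, Dv.pow_mono hπ hst hdv⟩

theorem DepthC.depth {V : ValuationSubring L} {π : L} {p : ℕ} {ι : K →+* L} {C : Set K}
    {c : K} (hc : c ∈ C) {s : ℕ} {u : L} (h : DepthC V π p (ι c) s u) :
    Depth V π p ι C s u := by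
  obtain ⟨g, hg, hdv⟩ := h
  exact ⟨c, hc, g, hg, hdv⟩

/-- `(1 + π^n V)` is closed under powers. -/
theorem dv_pow_sub_one {V : ValuationSubring L} {π : L} (h : IsUnif V π) {n : ℕ} {u : L}
    (hu : Dv V (π ^ n) (u - 1)) (m : ℕ) : Dv V (π ^ n) (u ^ m - 1) := by
  induction m with
  | zero =>
    rw [pow_zero, sub_self]
    exact Dv.zero
  | succ m ih =>
    rw [pow_succ]
    exact dv_mul_sub_one h ih hu

/-- **One step of the ping-pong, with the constant of the norm.** -/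
theorem Side.step_const {O : ValuationSubring K} {Vd Vi : ValuationSubring L} {ϖ : K} {p : ℕ}
    {φ : K →+* L} {N : L →* K} (hS : Side O Vd Vi ϖ p φ N)
    {ι : K →+* L} {C : Set K} (hC : IsConstSet C) (hφι : ∀ c ∈ C, φ c = ι c)
    {s : ℕ} (hs : 1 ≤ s) {u : L} {c₁ h₁ : K} (hc₁ : c₁ ∈ C) (hh₁ : h₁ ≠ 0)
    (hNu : N u = c₁ * h₁ ^ p)
    (hd : Depth Vi (φ ϖ) p ι C s u) : DepthC Vd (φ ϖ) p (ι c₁) (s + 1) u := by
  obtain ⟨c, hc, g, hg, hdv⟩ := hd
  have hc0 := hC.ne_zero c hc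
  have hc₁0 := hC.ne_zero c₁ hc₁
  have hιc : ι c ≠ 0 := by rw [← hφι c hc, Ne, map_eq_zero]; exact hc0
  have hιc₁ : ι c₁ ≠ 0 := by rw [← hφι c₁ hc₁, Ne, map_eq_zero]; exact hc₁0
  have hx0 : ι c * g ^ p ≠ 0 := mul_ne_zero hιc (pow_ne_zero _ hg)
  set u' : L := u * (ι c * g ^ p)⁻¹ with hu'
  have hu'0 : u' ≠ 0 :=
    ne_zero_of_dv_sub_one hS.unif_i (Dv.of_pow hS.unif_i.mem hs hdv)
  -- the norm of u'
  have hNg : N g ≠ 0 := norm_ne_zero_of_ne_zero N hg
  have hNu' : N u' = (c₁ * c⁻¹) * (h₁ * (c * N g)⁻¹) ^ p := by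
    rw [hu', map_mul, norm_inv_of_ne_zero N hx0, map_mul, map_pow, ← hφι c hc, hS.norm_base,
      hNu, pow_succ, mul_pow, inv_pow, mul_pow]
    field_simp
  set c₂ : K := c₁ * c⁻¹ with hc₂
  set h₂ : K := h₁ * (c * N g)⁻¹ with hh₂
  have hc₂C : c₂ ∈ C := hC.mul_mem _ hc₁ _ (hC.inv_mem _ hc)
  have hc₂0 : c₂ ≠ 0 := hC.ne_zero _ hc₂C
  have hh₂0 : h₂ ≠ 0 := mul_ne_zero hh₁ (inv_ne_zero (mul_ne_zero hc0 hNg))
  -- approximation at the degree-one place
  obtain ⟨v, hv0, hv⟩ := hS.approx (s + 1) u' hu'0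
  have hloc := hS.loc s hs u' 1 v one_ne_zero hv0 hv (by simpa using hdv)
  rw [one_pow, mul_one, hNu'] at hloc
  have hmap := ringHom_dv φ hS.le_d hloc
  rw [map_sub, map_one, map_mul, map_mul, map_pow, map_inv₀, map_pow] at hmap
  have hφv : φ v ≠ 0 := by rw [Ne, map_eq_zero]; exact hv0
  have hφc₂ : φ c₂ ≠ 0 := by rw [Ne, map_eq_zero]; exact hc₂0
  have hφh₂ : φ h₂ ≠ 0 := by rw [Ne, map_eq_zero]; exact hh₂0
  have hinv := dv_inv_sub_one hS.unif_d (n := s + 1) (by omega) hmap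
  have hprod := dv_mul_sub_one hS.unif_d hv hinv
  have e1 : u' * (φ v)⁻¹ * (φ c₂ * φ h₂ ^ p * (φ v)⁻¹)⁻¹ = u' * (φ c₂ * φ h₂ ^ p)⁻¹ := by
    field_simp
  rw [e1] at hprod
  refine ⟨g * φ h₂, mul_ne_zero hg hφh₂, ?_⟩
  have e3 : φ c₂ = ι c₁ * (ι c)⁻¹ := by
    rw [hc₂, map_mul, map_inv₀, hφι c₁ hc₁, hφι c hc]
  have e2 : u * (ι c₁ * (g * φ h₂) ^ p)⁻¹ = u' * (φ c₂ * φ h₂ ^ p)⁻¹ := by
    rw [hu', e3, mul_pow]
    field_simp
  rw [e2]
  exact hprod

/-- **Ping-pong with the constants of the norms.** -/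
theorem pingpong_const {O : ValuationSubring K} {Vinf V0 : ValuationSubring L} {ϖ : K} {p : ℕ}
    {α β : K →+* L} {Nα Nβ : L →* K}
    (hα : Side O Vinf V0 ϖ p α Nα) (hβ : Side O V0 Vinf ϖ p β Nβ)
    {C : Set K} (hC : IsConstSet C) (hαβ : ∀ c ∈ C, β c = α c) (hϖ : β ϖ = α ϖ)
    {u : L} {cα cβ hA hB : K} (hcα : cα ∈ C) (hcβ : cβ ∈ C) (hhA : hA ≠ 0) (hhB : hB ≠ 0)
    (hNα : Nα u = cα * hA ^ p) (hNβ : Nβ u = cβ * hB ^ p)
    (h1 : Depth Vinf (α ϖ) p α C 1 u ∨ Depth V0 (α ϖ) p α C 1 u) (s : ℕ) :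
    DepthC Vinf (α ϖ) p (α cα) s u ∧ DepthC V0 (α ϖ) p (α cβ) s u := by
  have hPα : IsPthNorm Nα p C u := ⟨cα, hcα, hA, hhA, hNα⟩
  have hPβ : IsPthNorm Nβ p C u := ⟨cβ, hcβ, hB, hhB, hNβ⟩
  have hall : ∀ t : ℕ, Depth Vinf (α ϖ) p α C t u ∧ Depth V0 (α ϖ) p α C t u := by
    rcases h1 with h1 | h1
    · exact pingpong_inf hα hβ hC hαβ hϖ hPα hPβ h1
    · exact pingpong_zero hα hβ hC hαβ hϖ hPα hPβ h1
  have h0 := (hall (s + 1)).2
  have hi := (hall (s + 1)).1
  constructor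
  · have := hα.step_const hC (fun _ _ => rfl) (Nat.le_add_left 1 s) hcα hhA hNα h0
    exact DepthC.mono hα.unif_d.mem (by omega) this
  · have := hβ.step_const hC hαβ (Nat.le_add_left 1 s) hcβ hhB hNβ (by rw [hϖ]; exact hi)
    rw [hϖ] at this
    exact DepthC.mono hα.unif_i.mem (by omega) this

/-- **Weak approximation of the roots.**  If `u ∈ c g₁^p (1 + π^s V₁)` and
`u ∈ c g₂^p (1 + π^s V₂)`, there is one `g` with `u ∈ c g^p (1 + π^s V₁) ∩ c g^p (1 + π^s V₂)`. -/
theorem exists_common_root {V₁ V₂ : ValuationSubring L} {π : L} (h₁ : IsUnif V₁ π)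
    (h₂ : IsUnif V₂ π) (hne : V₁ ≠ V₂) (arch₁ : ∀ a : L, ∃ k : ℕ, π ^ k * a ∈ V₁)
    (arch₂ : ∀ a : L, ∃ k : ℕ, π ^ k * a ∈ V₂) {p s : ℕ} {c u : L}
    (d₁ : DepthC V₁ π p c s u) (d₂ : DepthC V₂ π p c s u) :
    ∃ g : L, g ≠ 0 ∧ Dv V₁ (π ^ s) (u * (c * g ^ p)⁻¹ - 1)
      ∧ Dv V₂ (π ^ s) (u * (c * g ^ p)⁻¹ - 1) := by
  obtain ⟨g₁, hg₁, hd₁⟩ := d₁
  obtain ⟨g₂, hg₂, hd₂⟩ := d₂
  have hπ := h₁.ne_zero
  obtain ⟨k₁, hk₁⟩ := arch₁ (g₂ * g₁⁻¹ - 1)
  obtain ⟨k₂, hk₂⟩ := arch₂ (g₁ * g₂⁻¹ - 1)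
  obtain ⟨e, -, -, he₁, he₂⟩ := exists_idem h₁ h₂ hne (s + 1 + k₁ + k₂)
  set g : L := e * g₁ + (1 - e) * g₂ with hg
  -- `g / g₁ ∈ 1 + π^(s+1) V₁`
  have c1 : Dv V₁ (π ^ (s + 1)) (g * g₁⁻¹ - 1) := by
    obtain ⟨y, hy, hey⟩ := he₁
    refine ⟨-(π ^ k₂ * y * (π ^ k₁ * (g₂ * g₁⁻¹ - 1))), ?_, ?_⟩
    · exact neg_mem (mul_mem (mul_mem (pow_mem h₁.mem _) hy) hk₁)
    · have h3 : g * g₁⁻¹ - 1 = -((e - 1) * (g₂ * g₁⁻¹ - 1)) := by
        rw [hg]
        field_simp
        ring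
      rw [h3, hey]
      ring
  have c2 : Dv V₂ (π ^ (s + 1)) (g * g₂⁻¹ - 1) := by
    obtain ⟨y, hy, hey⟩ := he₂
    refine ⟨π ^ k₁ * y * (π ^ k₂ * (g₁ * g₂⁻¹ - 1)), ?_, ?_⟩
    · exact mul_mem (mul_mem (pow_mem h₂.mem _) hy) hk₂
    · have h3 : g * g₂⁻¹ - 1 = e * (g₁ * g₂⁻¹ - 1) := by
        rw [hg]
        field_simp
        ring
      rw [h3, hey]
      ring
  have hgg₁ : g * g₁⁻¹ ≠ 0 :=
    ne_zero_of_dv_sub_one h₁ (Dv.of_pow h₁.mem (Nat.le_add_left 1 s) c1)
  have hg0 : g ≠ 0 := fun h0 => hgg₁ (by rw [h0, zero_mul])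
  refine ⟨g, hg0, ?_, ?_⟩
  · have i1 := dv_inv_sub_one h₁ (Nat.le_add_left 1 s) c1
    have i2 := dv_pow_sub_one h₁ i1 p
    have i3 := Dv.pow_mono h₁.mem (Nat.le_succ s) i2
    have i4 := dv_mul_sub_one h₁ hd₁ i3
    have e1 : u * (c * g ^ p)⁻¹ = u * (c * g₁ ^ p)⁻¹ * ((g * g₁⁻¹)⁻¹) ^ p := by
      have hp0 : g₁ ^ p ≠ 0 := pow_ne_zero _ hg₁
      have e0 : ((g * g₁⁻¹)⁻¹) ^ p = g₁ ^ p * (g ^ p)⁻¹ := by
        rw [mul_inv, inv_inv, mul_pow, inv_pow, mul_comm]
      rw [e0, mul_inv, mul_inv]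
      calc u * (c⁻¹ * (g ^ p)⁻¹) = u * c⁻¹ * ((g₁ ^ p)⁻¹ * g₁ ^ p) * (g ^ p)⁻¹ := by
            rw [inv_mul_cancel₀ hp0]; ring
        _ = u * (c⁻¹ * (g₁ ^ p)⁻¹) * (g₁ ^ p * (g ^ p)⁻¹) := by ring
    rw [e1]
    exact i4
  · have i1 := dv_inv_sub_one h₂ (Nat.le_add_left 1 s) c2
    have i2 := dv_pow_sub_one h₂ i1 p
    have i3 := Dv.pow_mono h₂.mem (Nat.le_succ s) i2
    have i4 := dv_mul_sub_one h₂ hd₂ i3
    have e1 : u * (c * g ^ p)⁻¹ = u * (c * g₂ ^ p)⁻¹ * ((g * g₂⁻¹)⁻¹) ^ p := by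
      have hp0 : g₂ ^ p ≠ 0 := pow_ne_zero _ hg₂
      have e0 : ((g * g₂⁻¹)⁻¹) ^ p = g₂ ^ p * (g ^ p)⁻¹ := by
        rw [mul_inv, inv_inv, mul_pow, inv_pow, mul_comm]
      rw [e0, mul_inv, mul_inv]
      calc u * (c⁻¹ * (g ^ p)⁻¹) = u * c⁻¹ * ((g₂ ^ p)⁻¹ * g₂ ^ p) * (g ^ p)⁻¹ := by
            rw [inv_mul_cancel₀ hp0]; ring
        _ = u * (c⁻¹ * (g₂ ^ p)⁻¹) * (g₂ ^ p * (g ^ p)⁻¹) := by ring
    rw [e1]
    exact i4

end Abstract

/-! ## 2. concrete part -/

section ConcreteBoth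

variable {P : ValuationSubring _root_.Fermat.Agent.A2.Mod.Qb} {E : IntermediateField ℚ _root_.Fermat.Agent.A2.Mod.Qb} {M p : ℕ} [NeZero M] [NeZero p]
  {w : _root_.Fermat.Agent.A2.Mod.RE P E}

/-- `V₀` has rank one: bounded denominators. -/
theorem arch_comap (hS : Setting P E M p w) {V : ValuationSubring (_root_.Fermat.Agent.A2.Mod.FE E (M * p))}
    (hV : IsVinf P E (M * p) V) (W : _root_.Fermat.Agent.A2.Mod.FE E (M * p) ≃ₐ[E] _root_.Fermat.Agent.A2.Mod.FE E (M * p)) (a : _root_.Fermat.Agent.A2.Mod.FE E (M * p)) :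
    ∃ k : ℕ, cE P E (M * p) w ^ k * a ∈ V.comap (W : _root_.Fermat.Agent.A2.Mod.FE E (M * p) →+* _root_.Fermat.Agent.A2.Mod.FE E (M * p)) := by
  obtain ⟨k, hk⟩ := arch_vinf hS hV (W a)
  refine ⟨k, ?_⟩
  show W (cE P E (M * p) w ^ k * a) ∈ V
  have hWc : W (cE P E (M * p) w) = cE P E (M * p) w := W.commutes _
  rw [map_mul, map_pow, hWc]
  exact hk

/-- **W-NC, concrete form with the constants of the norms.**  If `N_α u = e_α h^p` and
`N_β u = e_β h'^p` (`e_α, e_β ∈ E`) and `u` has depth `≥ 1` at `V∞` or at `V₀`, then for every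
`s`: `u ∈ e_α (F_N^×)^p (1 + w^s V∞)` and `u ∈ e_β (F_N^×)^p (1 + w^s V₀)`. -/
theorem wnc_const (hS : Setting P E M p w) {VM : ValuationSubring (_root_.Fermat.Agent.A2.Mod.FE E M)}
    {V : ValuationSubring (_root_.Fermat.Agent.A2.Mod.FE E (M * p))} (hVM : IsVinf P E M VM) (hV : IsVinf P E (M * p) V)
    {W : _root_.Fermat.Agent.A2.Mod.FE E (M * p) ≃ₐ[E] _root_.Fermat.Agent.A2.Mod.FE E (M * p)} (hW : IsFricke E (M * p) W)
    {u : _root_.Fermat.Agent.A2.Mod.FE E (M * p)} (hu : u ≠ 0) {eα eβ : E} {hA hB : _root_.Fermat.Agent.A2.Mod.FE E M}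
    (hNα : normAlpha E M p u = algebraMap E (_root_.Fermat.Agent.A2.Mod.FE E M) eα * hA ^ p)
    (hNβ : normBeta E M p u = algebraMap E (_root_.Fermat.Agent.A2.Mod.FE E M) eβ * hB ^ p)
    (h1 : DepthE w p V 1 u ∨
      DepthE w p (V.comap (W : _root_.Fermat.Agent.A2.Mod.FE E (M * p) →+* _root_.Fermat.Agent.A2.Mod.FE E (M * p))) 1 u) (s : ℕ) :
    DepthC V (cE P E (M * p) w) p (algebraMap E (_root_.Fermat.Agent.A2.Mod.FE E (M * p)) eα) s u ∧
      DepthC (V.comap (W : _root_.Fermat.Agent.A2.Mod.FE E (M * p) →+* _root_.Fermat.Agent.A2.Mod.FE E (M * p))) (cE P E (M * p) w) p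
        (algebraMap E (_root_.Fermat.Agent.A2.Mod.FE E (M * p)) eβ) s u := by
  have hαβ : ∀ c ∈ constSet E M, (βE E M p).toRingHom c = (αE E M p).toRingHom c := by
    rintro c ⟨e, -, rfl⟩
    exact ((βE E M p).commutes e).trans ((αE E M p).commutes e).symm
  have hϖ : (βE E M p).toRingHom (cE P E M w) = (αE E M p).toRingHom (cE P E M w) :=
    ((βE E M p).commutes _).trans ((αE E M p).commutes _).symm
  have hNα0 : normAlpha E M p u ≠ 0 := norm_ne_zero_of_ne_zero _ hu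
  have hNβ0 : normBeta E M p u ≠ 0 := norm_ne_zero_of_ne_zero _ hu
  have heα : eα ≠ 0 := by
    rintro rfl
    rw [map_zero, zero_mul] at hNα
    exact hNα0 hNα
  have heβ : eβ ≠ 0 := by
    rintro rfl
    rw [map_zero, zero_mul] at hNβ
    exact hNβ0 hNβ
  have hhA : hA ≠ 0 := by
    rintro rfl
    rw [zero_pow (NeZero.ne p), mul_zero] at hNα
    exact hNα0 hNα
  have hhB : hB ≠ 0 := by
    rintro rfl
    rw [zero_pow (NeZero.ne p), mul_zero] at hNβ
    exact hNβ0 hNβ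
  have h1' : Depth V ((αE E M p).toRingHom (cE P E M w)) p (αE E M p).toRingHom
        (constSet E M) 1 u ∨
      Depth (V.comap (W : _root_.Fermat.Agent.A2.Mod.FE E (M * p) →+* _root_.Fermat.Agent.A2.Mod.FE E (M * p))) ((αE E M p).toRingHom (cE P E M w)) p
        (αE E M p).toRingHom (constSet E M) 1 u := by
    rcases h1 with h | h
    · exact Or.inl ((depth_iff_depthE hS V 1 u).mpr h)
    · exact Or.inr ((depth_iff_depthE hS _ 1 u).mpr h)
  have key := pingpong_const (side_alpha hS hVM hV hW) (side_beta hS hVM hV hW)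
    (isConstSet_constSet E M) hαβ hϖ (cα := algebraMap E (_root_.Fermat.Agent.A2.Mod.FE E M) eα)
    (cβ := algebraMap E (_root_.Fermat.Agent.A2.Mod.FE E M) eβ) ⟨eα, heα, rfl⟩ ⟨eβ, heβ, rfl⟩ hhA hhB hNα hNβ h1' s
  have hϖ' : (αE E M p).toRingHom (cE P E M w) = cE P E (M * p) w := H378.alpha_cE w
  have hcα : (αE E M p).toRingHom (algebraMap E (_root_.Fermat.Agent.A2.Mod.FE E M) eα) = algebraMap E (_root_.Fermat.Agent.A2.Mod.FE E (M * p)) eα :=
    (αE E M p).commutes eα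
  have hcβ : (αE E M p).toRingHom (algebraMap E (_root_.Fermat.Agent.A2.Mod.FE E M) eβ) = algebraMap E (_root_.Fermat.Agent.A2.Mod.FE E (M * p)) eβ :=
    (αE E M p).commutes eβ
  rw [hϖ', hcα, hcβ] at key
  exact key

/-- **W-NC, concrete form with ONE root.**  If `N_α u = e h^p` and `N_β u = e h'^p` with the same
constant `e ∈ E` and `u` has depth `≥ 1` at `V∞` or at `V₀`, then for every `s` there is
`g ≠ 0` with `u / (e g^p) ∈ 1 + w^s V∞` and `u / (e g^p) ∈ 1 + w^s V₀`. -/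
theorem wnc_both (hS : Setting P E M p w) {VM : ValuationSubring (_root_.Fermat.Agent.A2.Mod.FE E M)}
    {V : ValuationSubring (_root_.Fermat.Agent.A2.Mod.FE E (M * p))} (hVM : IsVinf P E M VM) (hV : IsVinf P E (M * p) V)
    {W : _root_.Fermat.Agent.A2.Mod.FE E (M * p) ≃ₐ[E] _root_.Fermat.Agent.A2.Mod.FE E (M * p)} (hW : IsFricke E (M * p) W)
    {u : _root_.Fermat.Agent.A2.Mod.FE E (M * p)} (hu : u ≠ 0) {e : E} {hA hB : _root_.Fermat.Agent.A2.Mod.FE E M}
    (hNα : normAlpha E M p u = algebraMap E (_root_.Fermat.Agent.A2.Mod.FE E M) e * hA ^ p)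
    (hNβ : normBeta E M p u = algebraMap E (_root_.Fermat.Agent.A2.Mod.FE E M) e * hB ^ p)
    (h1 : DepthE w p V 1 u ∨
      DepthE w p (V.comap (W : _root_.Fermat.Agent.A2.Mod.FE E (M * p) →+* _root_.Fermat.Agent.A2.Mod.FE E (M * p))) 1 u) (s : ℕ) :
    ∃ g : _root_.Fermat.Agent.A2.Mod.FE E (M * p), g ≠ 0 ∧
      (u * (algebraMap E (_root_.Fermat.Agent.A2.Mod.FE E (M * p)) e * g ^ p)⁻¹ - 1) * (cE P E (M * p) w ^ s)⁻¹ ∈ V ∧
      (u * (algebraMap E (_root_.Fermat.Agent.A2.Mod.FE E (M * p)) e * g ^ p)⁻¹ - 1) * (cE P E (M * p) w ^ s)⁻¹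
        ∈ V.comap (W : _root_.Fermat.Agent.A2.Mod.FE E (M * p) →+* _root_.Fermat.Agent.A2.Mod.FE E (M * p)) := by
  obtain ⟨d₁, d₂⟩ := wnc_const hS hVM hV hW hu hNα hNβ h1 s
  have hu₁ : IsUnif V (cE P E (M * p) w) := isUnif_vinf hS level_ne_zero hV
  have hWc : (W : _root_.Fermat.Agent.A2.Mod.FE E (M * p) →+* _root_.Fermat.Agent.A2.Mod.FE E (M * p)) (cE P E (M * p) w) = cE P E (M * p) w :=
    W.commutes _
  have hu₂ : IsUnif (V.comap (W : _root_.Fermat.Agent.A2.Mod.FE E (M * p) →+* _root_.Fermat.Agent.A2.Mod.FE E (M * p))) (cE P E (M * p) w) :=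
    isUnif_comap hu₁ _ hWc
  obtain ⟨g, hg, hg₁, hg₂⟩ := exists_common_root hu₁ hu₂
    (H553.vzeroNe P E M p w hS V W hV hW).symm (arch_vinf hS hV) (arch_comap hS hV W) d₁ d₂
  have hc0 : cE P E (M * p) w ^ s ≠ 0 := pow_ne_zero _ (H378.cE_ne_zero hS _)
  exact ⟨g, hg, (Dv.iff_mul_inv hc0).mp hg₁, (Dv.iff_mul_inv hc0).mp hg₂⟩

/-- **W-NC, concrete form, norms `p`-th powers.**  If `N_α u` and `N_β u` are `p`-th powers in
`F_M` and `u` has depth `≥ 1` at `V∞` or at `V₀`, then for every `s` there is `g ≠ 0` with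
`u / g^p ∈ 1 + w^s V∞` and `u / g^p ∈ 1 + w^s V₀`. -/
theorem wnc_both_one (hS : Setting P E M p w) {VM : ValuationSubring (_root_.Fermat.Agent.A2.Mod.FE E M)}
    {V : ValuationSubring (_root_.Fermat.Agent.A2.Mod.FE E (M * p))} (hVM : IsVinf P E M VM) (hV : IsVinf P E (M * p) V)
    {W : _root_.Fermat.Agent.A2.Mod.FE E (M * p) ≃ₐ[E] _root_.Fermat.Agent.A2.Mod.FE E (M * p)} (hW : IsFricke E (M * p) W)
    {u : _root_.Fermat.Agent.A2.Mod.FE E (M * p)} (hu : u ≠ 0) {hA hB : _root_.Fermat.Agent.A2.Mod.FE E M}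
    (hNα : normAlpha E M p u = hA ^ p) (hNβ : normBeta E M p u = hB ^ p)
    (h1 : DepthE w p V 1 u ∨
      DepthE w p (V.comap (W : _root_.Fermat.Agent.A2.Mod.FE E (M * p) →+* _root_.Fermat.Agent.A2.Mod.FE E (M * p))) 1 u) (s : ℕ) :
    ∃ g : _root_.Fermat.Agent.A2.Mod.FE E (M * p), g ≠ 0 ∧
      (u * (g ^ p)⁻¹ - 1) * (cE P E (M * p) w ^ s)⁻¹ ∈ V ∧
      (u * (g ^ p)⁻¹ - 1) * (cE P E (M * p) w ^ s)⁻¹
        ∈ V.comap (W : _root_.Fermat.Agent.A2.Mod.FE E (M * p) →+* _root_.Fermat.Agent.A2.Mod.FE E (M * p)) := by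
  have hNα' : normAlpha E M p u = algebraMap E (_root_.Fermat.Agent.A2.Mod.FE E M) 1 * hA ^ p := by
    rw [map_one, one_mul, hNα]
  have hNβ' : normBeta E M p u = algebraMap E (_root_.Fermat.Agent.A2.Mod.FE E M) 1 * hB ^ p := by
    rw [map_one, one_mul, hNβ]
  obtain ⟨g, hg, h₁, h₂⟩ := wnc_both hS hVM hV hW hu hNα' hNβ' h1 s
  rw [map_one, one_mul] at h₁ h₂
  exact ⟨g, hg, h₁, h₂⟩

end ConcreteBoth

end Fermat.Agent.Ribet.H232

end
end
-- ===== PACK-END Ribet/H232/NCBoth.lean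

-- ===== PACK-BEGIN Ribet/H232/NCTo.lean
section




/-!
# RIBET / WALL-p, leaf W-NC — consumer forms (helper232)

The concrete norm contraction of `NCBoth.lean` with the top level RENAMED along `M * p = N`
(e.g. `N = p * M'`, `h = Nat.mul_comm M' p`, the convention of `Ribet/H944/WallTargets.lean`) and
the norms written as `S29.H395.normAlong (S29.H801.alphaTo E M p N h)` /
`normAlong (betaTo E M p N h)` (the shape produced by `Ribet/H801/DegKummer.lean` over `ℚ̄`;
descent of norms `ℚ̄ → E`: `S35.H858.iota_normAlong_alpha/beta`).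

* `normAlpha_eq_normAlong`, `normBeta_eq_normAlong` (`rfl`);
* `wnc_const_to`, `wnc_both_to`, `wnc_both_one_to`.
-/

set_option autoImplicit false
set_option synthInstance.maxHeartbeats 400000
set_option maxHeartbeats 1600000
set_option linter.unusedSectionVars false
set_option linter.style.haveILetI false

noncomputable section

namespace Fermat.Agent.Ribet.H232

open Fermat.Agent.A2 Fermat.Agent.A2.Mod Fermat.Agent.A2.H48
open Fermat.Agent.S29.H395 Fermat.Agent.S29.H801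

section To

variable {P : ValuationSubring _root_.Fermat.Agent.A2.Mod.Qb} {E : IntermediateField ℚ _root_.Fermat.Agent.A2.Mod.Qb} {M p : ℕ} [NeZero M] [NeZero p]
  {w : _root_.Fermat.Agent.A2.Mod.RE P E}

theorem normAlpha_eq_normAlong (u : _root_.Fermat.Agent.A2.Mod.FE E (M * p)) :
    normAlpha E M p u = normAlong (αE E M p) u := rfl

theorem normBeta_eq_normAlong (u : _root_.Fermat.Agent.A2.Mod.FE E (M * p)) :
    normBeta E M p u = normAlong (βE E M p) u := rfl

/-- `wnc_const` with the top level renamed. -/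
theorem wnc_const_to {N : ℕ} [NeZero N] (h : M * p = N) (hS : Setting P E M p w)
    {VM : ValuationSubring (_root_.Fermat.Agent.A2.Mod.FE E M)} {V : ValuationSubring (_root_.Fermat.Agent.A2.Mod.FE E N)}
    (hVM : IsVinf P E M VM) (hV : IsVinf P E N V)
    {W : _root_.Fermat.Agent.A2.Mod.FE E N ≃ₐ[E] _root_.Fermat.Agent.A2.Mod.FE E N} (hW : IsFricke E N W)
    {u : _root_.Fermat.Agent.A2.Mod.FE E N} (hu : u ≠ 0) {eα eβ : E} {hA hB : _root_.Fermat.Agent.A2.Mod.FE E M}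
    (hNα : normAlong (alphaTo E M p N h) u = algebraMap E (_root_.Fermat.Agent.A2.Mod.FE E M) eα * hA ^ p)
    (hNβ : normAlong (betaTo E M p N h) u = algebraMap E (_root_.Fermat.Agent.A2.Mod.FE E M) eβ * hB ^ p)
    (h1 : DepthE w p V 1 u ∨ DepthE w p (V.comap (W : _root_.Fermat.Agent.A2.Mod.FE E N →+* _root_.Fermat.Agent.A2.Mod.FE E N)) 1 u) (s : ℕ) :
    DepthC V (cE P E N w) p (algebraMap E (_root_.Fermat.Agent.A2.Mod.FE E N) eα) s u ∧
      DepthC (V.comap (W : _root_.Fermat.Agent.A2.Mod.FE E N →+* _root_.Fermat.Agent.A2.Mod.FE E N)) (cE P E N w) p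
        (algebraMap E (_root_.Fermat.Agent.A2.Mod.FE E N) eβ) s u := by
  subst h
  exact wnc_const hS hVM hV hW hu hNα hNβ h1 s

/-- `wnc_both` with the top level renamed. -/
theorem wnc_both_to {N : ℕ} [NeZero N] (h : M * p = N) (hS : Setting P E M p w)
    {VM : ValuationSubring (_root_.Fermat.Agent.A2.Mod.FE E M)} {V : ValuationSubring (_root_.Fermat.Agent.A2.Mod.FE E N)}
    (hVM : IsVinf P E M VM) (hV : IsVinf P E N V)
    {W : _root_.Fermat.Agent.A2.Mod.FE E N ≃ₐ[E] _root_.Fermat.Agent.A2.Mod.FE E N} (hW : IsFricke E N W)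
    {u : _root_.Fermat.Agent.A2.Mod.FE E N} (hu : u ≠ 0) {e : E} {hA hB : _root_.Fermat.Agent.A2.Mod.FE E M}
    (hNα : normAlong (alphaTo E M p N h) u = algebraMap E (_root_.Fermat.Agent.A2.Mod.FE E M) e * hA ^ p)
    (hNβ : normAlong (betaTo E M p N h) u = algebraMap E (_root_.Fermat.Agent.A2.Mod.FE E M) e * hB ^ p)
    (h1 : DepthE w p V 1 u ∨ DepthE w p (V.comap (W : _root_.Fermat.Agent.A2.Mod.FE E N →+* _root_.Fermat.Agent.A2.Mod.FE E N)) 1 u) (s : ℕ) :
    ∃ g : _root_.Fermat.Agent.A2.Mod.FE E N, g ≠ 0 ∧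
      (u * (algebraMap E (_root_.Fermat.Agent.A2.Mod.FE E N) e * g ^ p)⁻¹ - 1) * (cE P E N w ^ s)⁻¹ ∈ V ∧
      (u * (algebraMap E (_root_.Fermat.Agent.A2.Mod.FE E N) e * g ^ p)⁻¹ - 1) * (cE P E N w ^ s)⁻¹
        ∈ V.comap (W : _root_.Fermat.Agent.A2.Mod.FE E N →+* _root_.Fermat.Agent.A2.Mod.FE E N) := by
  subst h
  exact wnc_both hS hVM hV hW hu hNα hNβ h1 s

/-- **W-NC, consumer form.**  `N = M p` (renamed), `p ∤ M`, `R_E` a discrete valuation ring over
`p` with uniformiser `w`, `V∞` the Gauss valuation ring of `F_{N,E}`, `V₀ = V∞ ∘ W`.  If both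
norms of `u ∈ F_{N,E}^×` to level `M` are `p`-th powers and `u ∈ E^× (F^×)^p (1 + w V)` at
`V = V∞` or at `V = V₀`, then for every `s` there is `g ≠ 0` with
`u / g^p ∈ (1 + w^s V∞) ∩ (1 + w^s V₀)`. -/
theorem wnc_both_one_to {N : ℕ} [NeZero N] (h : M * p = N) (hS : Setting P E M p w)
    {VM : ValuationSubring (_root_.Fermat.Agent.A2.Mod.FE E M)} {V : ValuationSubring (_root_.Fermat.Agent.A2.Mod.FE E N)}
    (hVM : IsVinf P E M VM) (hV : IsVinf P E N V)
    {W : _root_.Fermat.Agent.A2.Mod.FE E N ≃ₐ[E] _root_.Fermat.Agent.A2.Mod.FE E N} (hW : IsFricke E N W)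
    {u : _root_.Fermat.Agent.A2.Mod.FE E N} (hu : u ≠ 0) {hA hB : _root_.Fermat.Agent.A2.Mod.FE E M}
    (hNα : normAlong (alphaTo E M p N h) u = hA ^ p)
    (hNβ : normAlong (betaTo E M p N h) u = hB ^ p)
    (h1 : DepthE w p V 1 u ∨ DepthE w p (V.comap (W : _root_.Fermat.Agent.A2.Mod.FE E N →+* _root_.Fermat.Agent.A2.Mod.FE E N)) 1 u) (s : ℕ) :
    ∃ g : _root_.Fermat.Agent.A2.Mod.FE E N, g ≠ 0 ∧
      (u * (g ^ p)⁻¹ - 1) * (cE P E N w ^ s)⁻¹ ∈ V ∧
      (u * (g ^ p)⁻¹ - 1) * (cE P E N w ^ s)⁻¹ ∈ V.comap (W : _root_.Fermat.Agent.A2.Mod.FE E N →+* _root_.Fermat.Agent.A2.Mod.FE E N) := by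
  subst h
  exact wnc_both_one hS hVM hV hW hu hNα hNβ h1 s

end To

end Fermat.Agent.Ribet.H232

end
end
-- ===== PACK-END Ribet/H232/NCTo.lean

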